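import Mathlib
import Fermat.Prelude.Def_GaloisRep_DeformationRingData
import Fermat.Prelude.Def_GaloisRep_DeformationCondition
import Fermat.Prelude.Def_GaloisRep_LocalConditions
import Fermat.Prelude.Def_GaloisRep_StrictOrdinary
import Fermat.Prelude.Def_GaloisRep_Flat
import Fermat.Prelude.Def_GaloisRep_Residual
import Fermat.Prelude.Thm_IsLocalRing_isAdicComplete_of_module_finite
import Fermat.Prelude.Def_ExtEndgame_ProductionDatum
import Fermat.Prelude.Def_GroupCohomology_ContinuousUnramified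

-- ===== PACK-BEGIN S56/Defs.lean
section








/-!
# Row S56 (Taylor–Wiles primes) — FROZEN definitions (row-lead helper956)

Everything here is sorry-free.  Pieces import THIS file and prove the `Prop`s of
`Fermat/Agent/S56/Spec.lean` verbatim.  Plan: `coord/S56.md` on `origin/helper956`.

Conventions.  `k` is the residue field, `ρbar : ResidualGaloisRep k`, `V = ρbar.V`.
Cocycles are plain functions `c : G_ℚ → End_k V`:

* `Z1tw ρbar p`  — twisted trace-zero cocycles = `Z¹(G_ℚ, ad⁰ρ̄(1))`: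
  `tr c(σ) = 0`,  `c(στ) = c(σ) + ε(σ) · ρ̄(σ) c(τ) ρ̄(σ)⁻¹`,  `c` factors through a finite level.
  The mod-`p` cyclotomic character is encoded by `IsCycExp p σ a` (`σ μ = μ ^ a` on `μ_p`).
* `B1tw ρbar p`  — the coboundaries `σ ↦ ε(σ) ρ̄(σ) m ρ̄(σ)⁻¹ − m`, `tr m = 0`.
* `LocTrivAt ρbar p q c` — `c` restricted to SOME decomposition group over `q` is a coboundary.
* `IsTWPrime ρbar p S q` — `q ∉ S` prime, `q ≡ 1 mod p`, every Frobenius over `q` has distinct
  eigenvalues in `k`.
* `ordCond`, `flatCond` — the two deformation conditions of the frozen statement, as functions of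
  the auxiliary set `Q`.
-/

set_option autoImplicit false

open Polynomial IsLocalRing

noncomputable section

namespace Fermat.Agent.S56

/-- `ℚ̄`. -/
abbrev Qb : Type := AlgebraicClosure ℚ

/-- `Gal(ℚ̄/ℚ)`. -/
abbrev GQ : Type := AlgebraicClosure ℚ ≃ₐ[ℚ] AlgebraicClosure ℚ

/-- `a` is an exponent of the action of `σ` on the `p`-th roots of unity. -/
def IsCycExp (p : ℕ) (σ : GQ) (a : ℕ) : Prop :=
  ∀ μ : Qb, μ ^ p = 1 → σ μ = μ ^ a

section Cocycles

variable {k : Type} [Field k] (ρbar : ResidualGaloisRep k) (p : ℕ)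

/-- The twisted adjoint action `m ↦ a · ρ̄(σ) m ρ̄(σ)⁻¹` (with `a` a cyclotomic exponent of `σ`). -/
def twAd (σ : GQ) (a : ℕ) (m : Module.End k ρbar.V) : Module.End k ρbar.V :=
  (a : k) • (ρbar.ρ σ * m * ρbar.ρ σ⁻¹)

/-- `c` is a twisted cocycle with values in trace-zero endomorphisms, of finite level. -/
structure IsTwCocycle (c : GQ → Module.End k ρbar.V) : Prop where
  trace_eq_zero : ∀ σ, LinearMap.trace k ρbar.V (c σ) = 0
  map_mul : ∀ σ τ a, IsCycExp p σ a → c (σ * τ) = c σ + twAd ρbar σ a (c τ)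
  level : ∃ L : IntermediateField ℚ Qb, FiniteDimensional ℚ L ∧
    ∀ σ τ : GQ, (∀ x ∈ L, τ x = x) → c (σ * τ) = c σ

/-- `c` is the twisted coboundary of the trace-zero endomorphism `m` on the subgroup `H`. -/
def IsTwCoboundaryOn (H : Subgroup GQ) (c : GQ → Module.End k ρbar.V)
    (m : Module.End k ρbar.V) : Prop :=
  LinearMap.trace k ρbar.V m = 0 ∧ ∀ σ ∈ H, ∀ a, IsCycExp p σ a → c σ = twAd ρbar σ a m - m

/-- `c` is locally trivial at `q`: on some decomposition group over `q` it is a coboundary. -/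
def LocTrivAt (q : ℕ) (c : GQ → Module.End k ρbar.V) : Prop :=
  ∃ P : ValuationSubring Qb, P.LiesOverPrime q ∧
    ∃ m, IsTwCoboundaryOn ρbar p (P.decompositionSubgroup ℚ) c m

/-- `c` is a (global) twisted coboundary. -/
def IsTwCoboundary (c : GQ → Module.End k ρbar.V) : Prop :=
  ∃ m, IsTwCoboundaryOn ρbar p ⊤ c m

/-- Taylor–Wiles primes (relative to `S`): `q ∉ S`, `q ≡ 1 mod p`, and every Frobenius element
over `q` has distinct eigenvalues in `k`. -/
def IsTWPrime (S : Finset ℕ) (q : ℕ) : Prop :=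
  q.Prime ∧ q ∉ S ∧ p ∣ q - 1 ∧
    ∀ P : ValuationSubring Qb, P.LiesOverPrime q → ∀ φ : GQ, P.IsFrobeniusAt φ q →
      ∃ α β : k, α ≠ β ∧ LinearMap.charpoly (ρbar.ρ φ) = (X - C α) * (X - C β)

/-- A *dual Selmer frame*: a finite-dimensional `k`-space `D` of twisted cocycles which contains
no nonzero coboundary. -/
structure IsDualFrame (D : Submodule k (GQ → Module.End k ρbar.V)) : Prop where
  isTwCocycle : ∀ c ∈ D, IsTwCocycle ρbar p c
  finite : Module.Finite k D
  inj : ∀ c ∈ D, IsTwCoboundary ρbar p c → c = 0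

/-- The set `Q` kills the frame `D`: no nonzero `c ∈ D` is locally trivial at all `q ∈ Q`. -/
def Kills (D : Submodule k (GQ → Module.End k ρbar.V)) (Q : Finset ℕ) : Prop :=
  ∀ c ∈ D, (∀ q ∈ Q, LocTrivAt ρbar p q c) → c = 0

end Cocycles

section Conditions

/-- The type of deformation conditions. -/
abbrev DefCond (𝒪 : Type) [CommRing 𝒪] : Type 1 :=
  ∀ ⦃A : Type⦄ [CommRing A] [IsLocalRing A] [Algebra 𝒪 A], GaloisRepAdic A → Prop

/-- The strict-ordinary condition of the frozen statement, with auxiliary set `Q`. -/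
def ordCond (𝒪 : Type) [CommRing 𝒪] (p : ℕ) (Smin Q : Finset ℕ) : DefCond 𝒪 :=
  fun _A _ _ _ ρ =>
    GaloisRep.strictOrdinaryCondition 𝒪 p (Smin ∪ Q) ρ ∧
      ∀ q ∈ Smin, q.Prime → q ≠ p → ρ.IsUnipotentOnInertiaAt q

/-- The flat condition of the frozen statement, with auxiliary set `Q`. -/
def flatCond (𝒪 : Type) [CommRing 𝒪] (p : ℕ) (Smin Q : Finset ℕ) : DefCond 𝒪 :=
  fun _A _ _ _ ρ =>
    GaloisRep.flatCondition 𝒪 p (Smin ∪ Q) ρ ∧
      ∀ q ∈ Smin, q.Prime → q ≠ p → ρ.IsUnipotentOnInertiaAt q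

variable (𝒪 : Type) [CommRing 𝒪] [IsLocalRing 𝒪]

/-- The `𝒪`-algebra structure on the dual numbers `k[ε]` over the residue field (the one of the
Prelude's `TangentFinite` and of `Fermat.Agent.S53.dualAlgebra`). -/
@[reducible] noncomputable def tanAlgebra : Algebra 𝒪 (DualNumber (ResidueField 𝒪)) :=
  ((algebraMap (ResidueField 𝒪) (DualNumber (ResidueField 𝒪))).comp
    (algebraMap 𝒪 (ResidueField 𝒪))).toAlgebra

/-- The tangent vectors of an `𝒪`-algebra `R`: `𝒪`-algebra homomorphisms `R → k[ε]`. -/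
abbrev TanHom (R : Type) [CommRing R] [Algebra 𝒪 R] : Type :=
  @AlgHom 𝒪 R (DualNumber (ResidueField 𝒪)) _ _ _ _ (tanAlgebra 𝒪)

end Conditions

end Fermat.Agent.S56

end

end
-- ===== PACK-END S56/Defs.lean

-- ===== PACK-BEGIN S56/P3/Defs.lean
section




/-!
# S56, piece P3 (finite group theory behind Taylor–Wiles primes) : definitions

Sub-architect: helper306.  Plan: `origin/helper306:coord/S56-P3.md`.

`M = ad⁰ρ̄(1)` is realised CONCRETELY as the trace-zero endomorphisms of `V` with the twisted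
adjoint action `g • A = det(ρ g) • (ρ g * A * ρ g⁻¹)` (recall `det ρ̄ = ω`, the mod `p` cyclotomic
character, so the twist by `det` IS the Tate twist).  Cocycles are plain functions `Γ → End V`.
-/

set_option autoImplicit false

open Polynomial

namespace Fermat.Agent.S56.P3

/-- `Gal(ℚ̄/ℚ)`. -/
abbrev GQ : Type := AlgebraicClosure ℚ ≃ₐ[ℚ] AlgebraicClosure ℚ

section EndForm

variable {k : Type} [Field k] {V : Type} [AddCommGroup V] [Module k V] [Module.Finite k V]
variable {Γ : Type} [Group Γ]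

/-- The twisted adjoint action `g • A = det(ρ g) • (ρ g * A * ρ g⁻¹)` on `End V`. -/
noncomputable def twEnd (ρ : Γ →* Module.End k V) (g : Γ) (A : Module.End k V) :
    Module.End k V :=
  LinearMap.det (ρ g) • (ρ g * A * ρ g⁻¹)

/-- `ψ : Γ → End V` is a 1-cocycle with values in `ad⁰ρ(1)`. -/
structure IsTwCocycle (ρ : Γ →* Module.End k V) (ψ : Γ → Module.End k V) : Prop where
  trace_zero : ∀ g, LinearMap.trace k V (ψ g) = 0
  map_mul : ∀ g h, ψ (g * h) = ψ g + twEnd ρ g (ψ h)

/-- `ψ` is a 1-coboundary with values in `ad⁰ρ(1)`. -/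
def IsTwCoboundary (ρ : Γ →* Module.End k V) (ψ : Γ → Module.End k V) : Prop :=
  ∃ m : Module.End k V, LinearMap.trace k V m = 0 ∧ ∀ g, ψ g = twEnd ρ g m - m

/-- `ρ σ` has two DISTINCT eigenvalues in `k`. -/
def IsRegular (ρ : Γ →* Module.End k V) (σ : Γ) : Prop :=
  ∃ α β : k, α ≠ β ∧ LinearMap.charpoly (ρ σ) = (X - C α) * (X - C β)

/-- `ψ σ ∈ (σ - 1) ad⁰ρ(1)`. -/
def InRange (ρ : Γ →* Module.End k V) (ψ : Γ → Module.End k V) (σ : Γ) : Prop :=
  ∃ m : Module.End k V, LinearMap.trace k V m = 0 ∧ ψ σ = twEnd ρ σ m - m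

/-- `σ` is a Taylor–Wiles element for the cocycle `ψ`: `ρ σ` has distinct eigenvalues in `k`,
`det ρ σ = 1`, and `ψ σ ∉ (σ - 1) ad⁰ρ(1)`. -/
def IsTWElement (ρ : Γ →* Module.End k V) (ψ : Γ → Module.End k V) (σ : Γ) : Prop :=
  IsRegular ρ σ ∧ LinearMap.det (ρ σ) = 1 ∧ ¬ InRange ρ ψ σ

/-- The abstract hypotheses of S56 on `ρ̄` (`p` odd prime, `k` of characteristic `p`):
absolutely irreducible, irreducible on every subgroup of index 2 over every extension field,
all eigenvalues in `k`. -/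
structure TWHyp (ρ : Γ →* Module.End k V) (p : ℕ) : Prop where
  finrank_eq : Module.finrank k V = 2
  char_p : (p : k) = 0
  absIrr : ∀ W : Submodule (AlgebraicClosure k) (TensorProduct k (AlgebraicClosure k) V),
    (∀ g : Γ, ∀ x ∈ W, (ρ g).baseChange (AlgebraicClosure k) x ∈ W) → W = ⊥ ∨ W = ⊤
  tw : ∀ (K : Type) [Field K] [Algebra k K] (G : Subgroup Γ), G.index = 2 →
    ∀ W : Submodule K (TensorProduct k K V),
      (∀ g ∈ G, ∀ x ∈ W, (ρ g).baseChange K x ∈ W) → W = ⊥ ∨ W = ⊤
  split : ∀ g : Γ, ∃ α β : k, LinearMap.charpoly (ρ g) = (X - C α) * (X - C β)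

end EndForm

section Galois

/-- `σ` fixes all `p^(n+1)`-th roots of unity (i.e. `σ ∈ G_{ℚ(ζ_{p^(n+1)})}`). -/
def FixesRoots (p n : ℕ) (σ : _root_.Fermat.Agent.S56.P3.GQ) : Prop :=
  ∀ μ : AlgebraicClosure ℚ, μ ^ p ^ (n + 1) = 1 → σ μ = μ

/-- The subgroup `G_{ℚ(ζ_{p^(n+1)})}` of `G_ℚ`. -/
def fixRootsSubgroup (p n : ℕ) : Subgroup _root_.Fermat.Agent.S56.P3.GQ where
  carrier := {σ | FixesRoots p n σ}
  mul_mem' := by
    intro a b ha hb μ hμ
    rw [AlgEquiv.mul_apply, hb μ hμ, ha μ hμ]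
  one_mem' := fun _ _ => rfl
  inv_mem' := by
    intro a ha μ hμ
    have h := ha μ hμ
    calc a⁻¹ μ = a⁻¹ (a μ) := by rw [h]
      _ = μ := by
        show a.symm (a μ) = μ
        exact a.symm_apply_apply μ

@[simp] lemma mem_fixRootsSubgroup {p n : ℕ} {σ : _root_.Fermat.Agent.S56.P3.GQ} :
    σ ∈ fixRootsSubgroup p n ↔ FixesRoots p n σ := Iff.rfl

end Galois

end Fermat.Agent.S56.P3

end
-- ===== PACK-END S56/P3/Defs.lean

-- ===== PACK-BEGIN Lib/Cheb/H764/Orbit.lean
section


/-!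
# CHEB / piece A: decomposition groups and primes of a fixed field (orbit count)

Abstract setting: `R ⊆ T ⊆ S` Dedekind-like rings, `G` a finite Galois group of `S/R`,
`H ≤ G` a Galois group of `S/T`.
-/

set_option autoImplicit false
set_option linter.unusedSectionVars false

namespace Fermat.Agent.Lib.Cheb.H764

open Ideal MulAction
open scoped Pointwise

section abstract

variable {R T S : Type*} [CommRing R] [CommRing T] [CommRing S]
  [IsDomain R] [IsDomain T] [IsDomain S]
  [Algebra R T] [Algebra T S] [Algebra R S] [IsScalarTower R T S]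
  [Module.Finite R S] [Module.Finite T S]
  [Module.Flat R S] [Module.Flat T S]
  {G : Type*} [Group G] [Finite G] [MulSemiringAction G S] [IsGaloisGroup G R S]
  (H : Subgroup G) [IsGaloisGroup H T S]

/-- the stabilizer in the subgroup is the intersection with the subgroup -/
lemma stabilizer_subgroup_eq (Q : Ideal S) :
    stabilizer H Q = (stabilizer G Q).subgroupOf H := by
  ext h
  simp [Subgroup.mem_subgroupOf, Subgroup.smul_def]

lemma card_stabilizer_eq_mul (p : Ideal R) [p.IsPrime] [PerfectField p.ResidueField]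
    (Q : Ideal S) [Q.IsPrime] [Q.LiesOver p] :
    Nat.card (stabilizer G Q) = Q.ramificationIdx R * Q.inertiaDeg R := by
  rw [Ideal.card_stabilizer_eq (G := G) p Q, ramificationIdxIn_eq_ramificationIdx p Q G,
    inertiaDegIn_eq_inertiaDeg p Q G]

/-- `|D_Q(G)| = e(𝔮|p) f(𝔮|p) |D_Q(H)|` for `𝔮 = Q ∩ T`. -/
lemma card_stabilizer_eq_mul_card_stabilizer (p : Ideal R) [p.IsPrime]
    [PerfectField p.ResidueField]
    (q : Ideal T) [q.IsPrime] [q.LiesOver p] [PerfectField q.ResidueField]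
    (Q : Ideal S) [Q.IsPrime] [Q.LiesOver q] [Q.LiesOver p] :
    Nat.card (stabilizer G Q) =
      (q.ramificationIdx R * q.inertiaDeg R) * Nat.card (stabilizer H Q) := by
  have h1 : Nat.card (stabilizer H Q) = Q.ramificationIdx T * Q.inertiaDeg T :=
    card_stabilizer_eq_mul (G := H) q Q
  rw [card_stabilizer_eq_mul (G := G) p Q, h1,
    ramificationIdx_tower (R := R) q Q, inertiaDeg_tower (R := R) q Q]
  ring

lemma card_subgroupOf_eq_iff (A B : Subgroup G) :
    Nat.card (A.subgroupOf B) = Nat.card A ↔ A ≤ B := by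
  constructor
  · intro h
    have h1 : Nat.card (A.subgroupOf B) = Nat.card (A ⊓ B : Subgroup G) := by
      rw [← Subgroup.inf_subgroupOf_right]
      exact Nat.card_congr (Subgroup.subgroupOfEquivOfLe inf_le_right).toEquiv
    rw [h1] at h
    have h2 : (A ⊓ B : Subgroup G) = A :=
      Subgroup.eq_of_le_of_card_ge inf_le_left h.ge
    rw [← h2]
    exact inf_le_right
  · intro h
    exact Nat.card_congr (Subgroup.subgroupOfEquivOfLe h).toEquiv

/-- `e(𝔮|p) f(𝔮|p) = 1` iff the decomposition group of `Q` is contained in `H`. -/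
lemma ramificationIdx_mul_inertiaDeg_eq_one_iff (p : Ideal R) [p.IsPrime]
    [PerfectField p.ResidueField]
    (q : Ideal T) [q.IsPrime] [q.LiesOver p] [PerfectField q.ResidueField]
    (Q : Ideal S) [Q.IsPrime] [Q.LiesOver q] [Q.LiesOver p] :
    q.ramificationIdx R * q.inertiaDeg R = 1 ↔ stabilizer G Q ≤ H := by
  have key := card_stabilizer_eq_mul_card_stabilizer H p q Q
  have hpos : 0 < Nat.card (stabilizer H Q) := Nat.card_pos
  rw [stabilizer_subgroup_eq H Q] at key hpos
  rw [← card_subgroupOf_eq_iff]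
  constructor
  · intro h
    rw [key, h, one_mul]
  · intro h
    rw [← h] at key
    have h3 : 1 * Nat.card ((stabilizer G Q).subgroupOf H) =
        (q.ramificationIdx R * q.inertiaDeg R) * Nat.card ((stabilizer G Q).subgroupOf H) := by
      rw [one_mul]; exact key
    exact (Nat.eq_of_mul_eq_mul_right hpos h3).symm

/-- orbit-stabilizer for the primes above `p` -/
lemma ncard_primesOver_mul_card_stabilizer_aux
    (p : Ideal R) [p.IsPrime] (P : Ideal S) [P.IsPrime] [P.LiesOver p] :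
    (p.primesOver S).ncard * Nat.card (stabilizer G P) = Nat.card G := by
  rw [← Algebra.IsInvariant.orbit_eq_primesOver R S G p P]
  simpa using Nat.card_congr (MulAction.orbitProdStabilizerEquivGroup G P)

/-- the number of primes of `S` above `𝔮` times the order of the decomposition group in `H` -/
lemma ncard_primesOver_mul_card_stabilizer
    (q : Ideal T) [q.IsPrime] (Q : Ideal S) [Q.IsPrime] [Q.LiesOver q] :
    (q.primesOver S).ncard * Nat.card (stabilizer H Q) = Nat.card H :=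
  ncard_primesOver_mul_card_stabilizer_aux (G := H) q Q

/-- inner sum of the orbit count: the primes of `S` above a prime `𝔮` of `T` with `e f = 1`
contribute `|H|`. -/
lemma finsum_card_stabilizer_primesOver (p : Ideal R) [p.IsPrime] [PerfectField p.ResidueField]
    (q : Ideal T) [q.IsPrime] [q.LiesOver p] [PerfectField q.ResidueField]
    (hq : q.ramificationIdx R * q.inertiaDeg R = 1) (hfin : (q.primesOver S).Finite)
    (hne : (q.primesOver S).Nonempty) :
    ∑ᶠ Q ∈ q.primesOver S, Nat.card (stabilizer G Q) = Nat.card H := by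
  classical
  have key : ∀ Q ∈ q.primesOver S,
      (q.primesOver S).ncard * Nat.card (stabilizer G Q) = Nat.card H := by
    intro Q hQ
    haveI : Q.IsPrime := hQ.1
    haveI : Q.LiesOver q := hQ.2
    haveI : Q.LiesOver p := LiesOver.trans Q q p
    rw [card_stabilizer_eq_mul_card_stabilizer H p q Q, hq, one_mul]
    exact ncard_primesOver_mul_card_stabilizer H q Q
  have hn : 0 < (q.primesOver S).ncard := (Set.ncard_pos hfin).mpr hne
  have hconst : ∀ Q ∈ q.primesOver S,
      Nat.card (stabilizer G Q) = Nat.card H / (q.primesOver S).ncard := by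
    intro Q hQ
    rw [← key Q hQ, Nat.mul_div_cancel_left _ hn]
  rw [finsum_mem_congr rfl hconst, finsum_mem_eq_finite_toFinset_sum _ hfin, Finset.sum_const,
    smul_eq_mul, ← Set.ncard_eq_toFinset_card _ hfin]
  obtain ⟨Q, hQ⟩ := hne
  rw [← hconst Q hQ]
  exact key Q hQ

end abstract

end Fermat.Agent.Lib.Cheb.H764

end
-- ===== PACK-END Lib/Cheb/H764/Orbit.lean

-- ===== PACK-BEGIN Lib/Cheb/H993/LogAsymp.lean
section


/-!
# `f = a · log (1/(s-1)) + O(1)` on `(1, 2]`, and prime Dirichlet sums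

Small calculus used by the glue piece `M` of the shared library CHEB.
-/

set_option autoImplicit false

namespace Fermat.Agent.Lib.Cheb.H993

noncomputable section

/-- The main term `log (1 / (s - 1))`. -/
def ell (s : ℝ) : ℝ := Real.log (1 / (s - 1))

/-- `f = a · ell + O(1)` on `(1, 2]`. -/
def LogAsymp (f : ℝ → ℝ) (a : ℝ) : Prop :=
  ∃ C : ℝ, ∀ s : ℝ, 1 < s → s ≤ 2 → |f s - a * ell s| ≤ C

theorem LogAsymp.congr {f g : ℝ → ℝ} {a : ℝ} (hf : LogAsymp f a)
    (h : ∀ s : ℝ, 1 < s → s ≤ 2 → g s = f s) : LogAsymp g a := by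
  obtain ⟨C, hC⟩ := hf
  exact ⟨C, fun s h1 h2 => by rw [h s h1 h2]; exact hC s h1 h2⟩

theorem LogAsymp.add {f g : ℝ → ℝ} {a b : ℝ} (hf : LogAsymp f a) (hg : LogAsymp g b) :
    LogAsymp (fun s => f s + g s) (a + b) := by
  obtain ⟨C, hC⟩ := hf
  obtain ⟨D, hD⟩ := hg
  refine ⟨C + D, fun s h1 h2 => ?_⟩
  have e : f s + g s - (a + b) * ell s = (f s - a * ell s) + (g s - b * ell s) := by ring
  rw [e]
  exact (abs_add_le _ _).trans (add_le_add (hC s h1 h2) (hD s h1 h2))

theorem LogAsymp.sub {f g : ℝ → ℝ} {a b : ℝ} (hf : LogAsymp f a) (hg : LogAsymp g b) :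
    LogAsymp (fun s => f s - g s) (a - b) := by
  obtain ⟨C, hC⟩ := hf
  obtain ⟨D, hD⟩ := hg
  refine ⟨C + D, fun s h1 h2 => ?_⟩
  have e : f s - g s - (a - b) * ell s = (f s - a * ell s) - (g s - b * ell s) := by ring
  rw [e]
  exact (abs_sub _ _).trans (add_le_add (hC s h1 h2) (hD s h1 h2))

theorem LogAsymp.const_mul {f : ℝ → ℝ} {a : ℝ} (c : ℝ) (hf : LogAsymp f a) :
    LogAsymp (fun s => c * f s) (c * a) := by
  obtain ⟨C, hC⟩ := hf
  refine ⟨|c| * C, fun s h1 h2 => ?_⟩
  have e : c * f s - c * a * ell s = c * (f s - a * ell s) := by ring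
  rw [e, abs_mul]
  exact mul_le_mul_of_nonneg_left (hC s h1 h2) (abs_nonneg c)

theorem LogAsymp.zero_of_bounded {f : ℝ → ℝ} {K : ℝ}
    (h : ∀ s : ℝ, 1 < s → s ≤ 2 → |f s| ≤ K) : LogAsymp f 0 :=
  ⟨K, fun s h1 h2 => by simpa using h s h1 h2⟩

theorem LogAsymp.sum {ι : Type*} (t : Finset ι) {f : ι → ℝ → ℝ} {a : ι → ℝ}
    (h : ∀ i ∈ t, LogAsymp (f i) (a i)) :
    LogAsymp (fun s => ∑ i ∈ t, f i s) (∑ i ∈ t, a i) := by
  classical
  induction t using Finset.induction_on with
  | empty =>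
    exact ⟨0, fun s _ _ => by simp⟩
  | insert i t hi ih =>
    have h1 := h i (Finset.mem_insert_self i t)
    have h2 := ih (fun j hj => h j (Finset.mem_insert_of_mem hj))
    have h3 := h1.add h2
    rw [Finset.sum_insert hi]
    exact h3.congr (fun s _ _ => Finset.sum_insert hi)

/-- `ell` is unbounded above on `(1, 2]`. -/
theorem exists_ell_gt (M : ℝ) : ∃ s : ℝ, 1 < s ∧ s ≤ 2 ∧ M < ell s := by
  refine ⟨1 + Real.exp (-(|M| + 1)), ?_, ?_, ?_⟩
  · have := Real.exp_pos (-(|M| + 1)); linarith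
  · have h : Real.exp (-(|M| + 1)) ≤ 1 := by
      rw [Real.exp_le_one_iff]; have := abs_nonneg M; linarith
    linarith
  · unfold ell
    have e : (1 + Real.exp (-(|M| + 1)) - 1) = Real.exp (-(|M| + 1)) := by ring
    rw [e, one_div, ← Real.exp_neg, Real.log_exp]
    have := le_abs_self M
    linarith

/-- If `f = a · ell + O(1)` with `a > 0` then `f` takes arbitrarily large values. -/
theorem LogAsymp.exists_gt {f : ℝ → ℝ} {a : ℝ} (hf : LogAsymp f a) (ha : 0 < a) (M : ℝ) :
    ∃ s : ℝ, 1 < s ∧ s ≤ 2 ∧ M < f s := by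
  obtain ⟨C, hC⟩ := hf
  obtain ⟨s, h1, h2, hs⟩ := exists_ell_gt ((M + C) / a)
  refine ⟨s, h1, h2, ?_⟩
  have := (abs_le.mp (hC s h1 h2)).1
  have h3 : M + C < a * ell s := by
    rw [div_lt_iff₀ ha] at hs
    linarith
  linarith

/-- The prime Dirichlet sum `∑_p a(p) p^{-s}`. -/
def pSum (a : ℕ → ℝ) (s : ℝ) : ℝ := ∑' p : Nat.Primes, a p * ((p : ℕ) : ℝ) ^ (-s)

theorem summable_pSum {a : ℕ → ℝ} {K : ℝ} (h0 : ∀ p, 0 ≤ a p) (hK : ∀ p, a p ≤ K)
    {s : ℝ} (hs : 1 < s) : Summable (fun p : Nat.Primes => a p * ((p : ℕ) : ℝ) ^ (-s)) := by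
  have hsum : Summable (fun p : Nat.Primes => K * ((p : ℕ) : ℝ) ^ (-s)) :=
    (Nat.Primes.summable_rpow.mpr (by linarith)).mul_left K
  refine Summable.of_nonneg_of_le (fun p => ?_) (fun p => ?_) hsum
  · exact mul_nonneg (h0 p) (Real.rpow_nonneg (Nat.cast_nonneg _) _)
  · exact mul_le_mul_of_nonneg_right (hK p) (Real.rpow_nonneg (Nat.cast_nonneg _) _)

theorem pSum_nonneg {a : ℕ → ℝ} (h0 : ∀ p, 0 ≤ a p) (s : ℝ) : 0 ≤ pSum a s :=
  tsum_nonneg fun p => mul_nonneg (h0 p) (Real.rpow_nonneg (Nat.cast_nonneg _) _)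

theorem pSum_finset_sum {ι : Type*} (t : Finset ι) {a : ι → ℕ → ℝ} {K : ℝ}
    (h0 : ∀ i p, 0 ≤ a i p) (hK : ∀ i p, a i p ≤ K) {s : ℝ} (hs : 1 < s) :
    pSum (fun p => ∑ i ∈ t, a i p) s = ∑ i ∈ t, pSum (a i) s := by
  unfold pSum
  rw [← Summable.tsum_finsetSum (fun i _ => summable_pSum (h0 i) (hK i) hs)]
  congr 1
  funext p
  rw [Finset.sum_mul]

/-- A prime sum supported on a finite set of primes is bounded. -/
theorem abs_pSum_le_of_support {a : ℕ → ℝ} {K : ℝ} (B : Finset ℕ) (h0 : ∀ p, 0 ≤ a p)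
    (hK : ∀ p, a p ≤ K) (hB : ∀ p, p ∉ B → a p = 0) {s : ℝ} (hs : 1 < s) :
    |pSum a s| ≤ K * B.card := by
  have hK0 : 0 ≤ K := (h0 0).trans (hK 0)
  rw [abs_of_nonneg (pSum_nonneg h0 s)]
  unfold pSum
  -- compare with the finite sum over `B`
  let T : Finset Nat.Primes := (B.filter Nat.Prime).attach.map
    ⟨fun p => ⟨p.1, (Finset.mem_filter.mp p.2).2⟩, fun p q h => by
      apply Subtype.ext; simpa using congrArg Subtype.val h⟩
  have hT : ∀ p : Nat.Primes, p ∉ T → a p * ((p : ℕ) : ℝ) ^ (-s) = 0 := by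
    intro p hp
    have : (p : ℕ) ∉ B := by
      intro hpB
      apply hp
      simp only [T, Finset.mem_map, Finset.mem_attach, true_and]
      exact ⟨⟨p.1, Finset.mem_filter.mpr ⟨hpB, p.2⟩⟩, rfl⟩
    rw [hB _ this, zero_mul]
  rw [tsum_eq_sum hT]
  have hcard : T.card ≤ B.card := by
    simp only [T, Finset.card_map, Finset.card_attach]
    exact Finset.card_filter_le _ _
  calc ∑ p ∈ T, a p * ((p : ℕ) : ℝ) ^ (-s) ≤ ∑ _p ∈ T, K := by
        refine Finset.sum_le_sum fun p _ => ?_
        have h1 : ((p : ℕ) : ℝ) ^ (-s) ≤ 1 := by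
          apply Real.rpow_le_one_of_one_le_of_nonpos
          · exact_mod_cast p.2.one_lt.le
          · linarith
        calc a p * ((p : ℕ) : ℝ) ^ (-s) ≤ K * 1 :=
              mul_le_mul (hK p) h1 (Real.rpow_nonneg (Nat.cast_nonneg _) _) hK0
          _ = K := mul_one K
    _ = K * T.card := by rw [Finset.sum_const, nsmul_eq_mul, mul_comm]
    _ ≤ K * B.card := by
        apply mul_le_mul_of_nonneg_left _ hK0
        exact_mod_cast hcard

end

end Fermat.Agent.Lib.Cheb.H993

end
-- ===== PACK-END Lib/Cheb/H993/LogAsymp.lean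

-- ===== PACK-BEGIN S53/H596/PowerSeriesCNL.lean
section



/-!
# Power series rings over a complete local ring, as complete Noetherian local algebras

Block [C] for S53 (also reusable elsewhere).  Everything lives in `Fermat.Agent.S53.H596`.
-/

set_option autoImplicit false
set_option linter.unusedSectionVars false

namespace Fermat.Agent.S53.H596

noncomputable section

open IsLocalRing

section Filtration

variable {σ : Type*} {R : Type*} [CommRing R]

/-- The ideal of power series whose constant coefficient lies in `𝔞`. -/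
def constIdeal (σ : Type*) {R : Type*} [CommRing R] (𝔞 : Ideal R) : Ideal (MvPowerSeries σ R) :=
  Ideal.comap (MvPowerSeries.constantCoeff (σ := σ) (R := R)) 𝔞

theorem mem_constIdeal_iff (𝔞 : Ideal R) (f : MvPowerSeries σ R) :
    f ∈ constIdeal σ 𝔞 ↔ MvPowerSeries.constantCoeff f ∈ 𝔞 := Iff.rfl

theorem X_mem_constIdeal (𝔞 : Ideal R) (i : σ) :
    (MvPowerSeries.X i : MvPowerSeries σ R) ∈ constIdeal σ 𝔞 := by
  rw [mem_constIdeal_iff]
  simp

theorem C_mem_constIdeal {𝔞 : Ideal R} {c : R} (hc : c ∈ 𝔞) :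
    (MvPowerSeries.C c : MvPowerSeries σ R) ∈ constIdeal σ 𝔞 := by
  rw [mem_constIdeal_iff]
  simpa using hc

/-- The "coefficientwise" filtration ideal: `coeff e f ∈ 𝔞 ^ (n - deg e)`. -/
def coeffIdeal (σ : Type*) {R : Type*} [CommRing R] (𝔞 : Ideal R) (n : ℕ) :
    Ideal (MvPowerSeries σ R) where
  carrier := {f | ∀ e : σ →₀ ℕ, MvPowerSeries.coeff e f ∈ 𝔞 ^ (n - e.degree)}
  add_mem' {f g} hf hg e := by
    rw [map_add]
    exact Ideal.add_mem _ (hf e) (hg e)
  zero_mem' e := by simp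
  smul_mem' c f hf e := by
    classical
    rw [smul_eq_mul, MvPowerSeries.coeff_mul]
    refine Ideal.sum_mem _ fun p hp => ?_
    refine Ideal.mul_mem_left _ _ ?_
    have hle : p.2.degree ≤ e.degree := by
      rw [Finset.HasAntidiagonal.mem_antidiagonal] at hp
      rw [← hp, map_add]
      exact Nat.le_add_left _ _
    exact Ideal.pow_le_pow_right (Nat.sub_le_sub_left hle n) (hf p.2)

theorem mem_coeffIdeal_iff (𝔞 : Ideal R) (n : ℕ) (f : MvPowerSeries σ R) :
    f ∈ coeffIdeal σ 𝔞 n ↔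
      ∀ e : σ →₀ ℕ, MvPowerSeries.coeff e f ∈ 𝔞 ^ (n - e.degree) :=
  Iff.rfl

theorem constIdeal_pow_le_coeffIdeal (𝔞 : Ideal R) (n : ℕ) :
    constIdeal σ 𝔞 ^ n ≤ coeffIdeal σ 𝔞 n := by
  classical
  induction n with
  | zero =>
    intro f _ e
    simp
  | succ n ih =>
    rw [pow_succ]
    refine Ideal.mul_le.mpr fun f hf h hh => ?_
    have hf' := ih hf
    intro e
    rw [MvPowerSeries.coeff_mul]
    refine Ideal.sum_mem _ fun p hp => ?_
    rw [Finset.HasAntidiagonal.mem_antidiagonal] at hp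
    have hdeg : p.1.degree + p.2.degree = e.degree := by rw [← hp, map_add]
    by_cases hp2 : p.2 = 0
    · have h0 : MvPowerSeries.coeff p.2 h ∈ 𝔞 := by
        rw [hp2]
        exact (mem_constIdeal_iff 𝔞 h).mp hh
      have h1 := hf' p.1
      have hd : p.1.degree = e.degree := by
        rw [← hdeg, hp2]; simp
      rw [hd] at h1
      have : MvPowerSeries.coeff p.1 f * MvPowerSeries.coeff p.2 h ∈
          𝔞 ^ (n - e.degree) * 𝔞 := Ideal.mul_mem_mul h1 h0
      rw [← pow_succ] at this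
      exact Ideal.pow_le_pow_right (by omega) this
    · have hpos : 0 < p.2.degree := by
        rcases Nat.eq_zero_or_pos p.2.degree with h0 | h0
        · exact absurd ((Finsupp.degree_eq_zero_iff _).mp h0) hp2
        · exact h0
      refine Ideal.mul_mem_right _ _ ?_
      exact Ideal.pow_le_pow_right (by omega) (hf' p.1)

/-- Elements of `(X)^n` have vanishing coefficients in degrees `< n`. -/
theorem coeff_eq_zero_of_mem_span_X_pow {n : ℕ} {f : MvPowerSeries σ R}
    (hf : f ∈ (Ideal.span (Set.range (MvPowerSeries.X : σ → MvPowerSeries σ R))) ^ n)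
    {e : σ →₀ ℕ} (he : e.degree < n) : MvPowerSeries.coeff e f = 0 := by
  have h1 : Ideal.span (Set.range (MvPowerSeries.X : σ → MvPowerSeries σ R)) ≤
      constIdeal σ (⊥ : Ideal R) := by
    rw [Ideal.span_le]
    rintro _ ⟨i, rfl⟩
    exact X_mem_constIdeal ⊥ i
  have h2 := constIdeal_pow_le_coeffIdeal (σ := σ) (⊥ : Ideal R) n (Ideal.pow_right_mono h1 n hf)
  have h3 := h2 e
  have hpos : n - e.degree ≠ 0 := by omega
  rw [Ideal.bot_pow hpos] at h3
  simpa using h3

variable [Finite σ]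

/-- The coercion of polynomials maps `idealOfVars ^ n` into `(X) ^ n`. -/
theorem coe_mem_span_X_pow {n : ℕ} {p : MvPolynomial σ R}
    (hp : p ∈ MvPolynomial.idealOfVars σ R ^ n) :
    (p : MvPowerSeries σ R) ∈
      (Ideal.span (Set.range (MvPowerSeries.X : σ → MvPowerSeries σ R))) ^ n := by
  have hmap : Ideal.map (MvPolynomial.coeToMvPowerSeries.ringHom (σ := σ) (R := R))
      (MvPolynomial.idealOfVars σ R) ≤
      Ideal.span (Set.range (MvPowerSeries.X : σ → MvPowerSeries σ R)) := by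
    rw [MvPolynomial.idealOfVars, Ideal.map_span, Ideal.span_le]
    rintro _ ⟨_, ⟨i, rfl⟩, rfl⟩
    apply Ideal.subset_span
    exact ⟨i, (MvPolynomial.coe_X i).symm⟩
  have h1 : (MvPolynomial.coeToMvPowerSeries.ringHom (σ := σ) (R := R)) p ∈
      Ideal.map (MvPolynomial.coeToMvPowerSeries.ringHom (σ := σ) (R := R))
        (MvPolynomial.idealOfVars σ R ^ n) := Ideal.mem_map_of_mem _ hp
  rw [Ideal.map_pow] at h1
  exact Ideal.pow_right_mono hmap n h1

/-- **Tail lemma**: a power series minus its total-degree truncation lies in `(X)^n`. -/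
theorem sub_truncTotal_mem_span_X_pow (n : ℕ) (f : MvPowerSeries σ R) :
    f - ((MvPowerSeries.truncTotal n f : MvPolynomial σ R) : MvPowerSeries σ R) ∈
      (Ideal.span (Set.range (MvPowerSeries.X : σ → MvPowerSeries σ R))) ^ n := by
  set J := Ideal.span (Set.range (MvPowerSeries.X : σ → MvPowerSeries σ R)) with hJ
  -- the sequence of truncations is `J`-adically Cauchy
  have hcauchy : ∀ {m m' : ℕ}, m ≤ m' →
      ((MvPowerSeries.truncTotal m f : MvPolynomial σ R) : MvPowerSeries σ R) ≡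
        ((MvPowerSeries.truncTotal m' f : MvPolynomial σ R) : MvPowerSeries σ R)
        [SMOD (J ^ m • ⊤ : Submodule (MvPowerSeries σ R) (MvPowerSeries σ R))] := by
    intro m m' hmm'
    rw [SModEq.sub_mem, smul_eq_mul, Ideal.mul_top]
    have := coe_mem_span_X_pow
      (MvPowerSeries.truncTotal_sub_truncTotal_mem_pow_idealOfVars le_rfl hmm' f)
    rwa [← MvPolynomial.coeToMvPowerSeries.ringHom_apply, map_sub,
      MvPolynomial.coeToMvPowerSeries.ringHom_apply,
      MvPolynomial.coeToMvPowerSeries.ringHom_apply] at this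
  obtain ⟨L, hL⟩ := IsPrecomplete.prec' (I := J) _ hcauchy
  have hL' : ∀ m, ((MvPowerSeries.truncTotal m f : MvPolynomial σ R) : MvPowerSeries σ R) - L
      ∈ J ^ m := by
    intro m
    have := hL m
    rwa [SModEq.sub_mem, smul_eq_mul, Ideal.mul_top] at this
  have hLf : L = f := by
    ext e
    have h1 := coeff_eq_zero_of_mem_span_X_pow (hL' (e.degree + 1)) (e := e) (Nat.lt_succ_self _)
    rw [map_sub, sub_eq_zero, MvPolynomial.coeff_coe,
      MvPowerSeries.coeff_truncTotal _ (Nat.lt_succ_self _)] at h1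
    exact h1.symm
  have := hL' n
  rw [hLf] at this
  rw [← neg_sub]
  exact Ideal.neg_mem_iff _ |>.mpr this

theorem span_X_le_constIdeal (𝔞 : Ideal R) :
    Ideal.span (Set.range (MvPowerSeries.X : σ → MvPowerSeries σ R)) ≤ constIdeal σ 𝔞 := by
  rw [Ideal.span_le]
  rintro _ ⟨i, rfl⟩
  exact X_mem_constIdeal 𝔞 i

theorem C_mem_constIdeal_pow {𝔞 : Ideal R} {k : ℕ} {c : R} (hc : c ∈ 𝔞 ^ k) :
    (MvPowerSeries.C c : MvPowerSeries σ R) ∈ constIdeal σ 𝔞 ^ k := by
  have hmap : Ideal.map (MvPowerSeries.C (σ := σ) (R := R)) 𝔞 ≤ constIdeal σ 𝔞 := by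
    rw [Ideal.map_le_iff_le_comap]
    intro c hc
    exact C_mem_constIdeal hc
  have h1 : (MvPowerSeries.C (σ := σ) (R := R)) c ∈
      Ideal.map (MvPowerSeries.C (σ := σ) (R := R)) (𝔞 ^ k) := Ideal.mem_map_of_mem _ hc
  rw [Ideal.map_pow] at h1
  exact Ideal.pow_right_mono hmap k h1

theorem coe_monomial_mem_constIdeal_pow {𝔞 : Ideal R} {n : ℕ} (e : σ →₀ ℕ) {c : R}
    (hc : c ∈ 𝔞 ^ (n - e.degree)) :
    ((MvPolynomial.monomial e c : MvPolynomial σ R) : MvPowerSeries σ R) ∈ constIdeal σ 𝔞 ^ n := by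
  rw [MvPolynomial.monomial_eq, MvPolynomial.coe_mul, MvPolynomial.coe_C]
  have h1 := C_mem_constIdeal_pow (σ := σ) hc
  have h2 : ((e.prod fun i k => (MvPolynomial.X i : MvPolynomial σ R) ^ k : MvPolynomial σ R) :
      MvPowerSeries σ R) ∈ constIdeal σ 𝔞 ^ e.degree := by
    have h3 : (e.prod fun i k => (MvPolynomial.X i : MvPolynomial σ R) ^ k) ∈
        MvPolynomial.idealOfVars σ R ^ e.degree := by
      have hmon : (e.prod fun i k => (MvPolynomial.X i : MvPolynomial σ R) ^ k) =
          MvPolynomial.monomial e (1 : R) := by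
        rw [MvPolynomial.monomial_eq, MvPolynomial.C_1, one_mul]
      classical
      rw [MvPolynomial.mem_pow_idealOfVars_iff', hmon]
      intro x hx
      rw [MvPolynomial.coeff_monomial]
      split_ifs with h
      · exact absurd (h ▸ hx) (lt_irrefl _)
      · rfl
    exact Ideal.pow_right_mono (span_X_le_constIdeal 𝔞) _ (coe_mem_span_X_pow h3)
  have h4 := Ideal.mul_mem_mul h1 h2
  rw [← pow_add] at h4
  exact Ideal.pow_le_pow_right (by omega) h4

theorem coeffIdeal_le_constIdeal_pow (𝔞 : Ideal R) (n : ℕ) :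
    coeffIdeal σ 𝔞 n ≤ constIdeal σ 𝔞 ^ n := by
  intro f hf
  have htail := Ideal.pow_right_mono (span_X_le_constIdeal (σ := σ) 𝔞) n
    (sub_truncTotal_mem_span_X_pow n f)
  have hhead : ((MvPowerSeries.truncTotal n f : MvPolynomial σ R) : MvPowerSeries σ R) ∈
      constIdeal σ 𝔞 ^ n := by
    rw [MvPolynomial.as_sum (MvPowerSeries.truncTotal n f)]
    rw [← MvPolynomial.coeToMvPowerSeries.ringHom_apply, map_sum]
    refine Ideal.sum_mem _ fun e _ => ?_
    rw [MvPolynomial.coeToMvPowerSeries.ringHom_apply]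
    apply coe_monomial_mem_constIdeal_pow
    by_cases he : e.degree < n
    · rw [MvPowerSeries.coeff_truncTotal _ he]
      exact hf e
    · rw [MvPowerSeries.coeff_truncTotal_eq_zero _ (not_lt.mp he)]
      exact Ideal.zero_mem _
  have := Ideal.add_mem _ htail hhead
  rwa [sub_add_cancel] at this

theorem constIdeal_pow_eq_coeffIdeal (𝔞 : Ideal R) (n : ℕ) :
    constIdeal σ 𝔞 ^ n = coeffIdeal σ 𝔞 n :=
  le_antisymm (constIdeal_pow_le_coeffIdeal 𝔞 n) (coeffIdeal_le_constIdeal_pow 𝔞 n)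

/-- If `R` is `𝔞`-adically precomplete then `R⟦X₁,…,X_d⟧` is precomplete with respect to
`(𝔞, X₁, …, X_d)`. -/
theorem isPrecomplete_constIdeal (𝔞 : Ideal R) [IsPrecomplete 𝔞 R] :
    IsPrecomplete (constIdeal σ 𝔞) (MvPowerSeries σ R) := by
  refine ⟨fun f hf => ?_⟩
  have hf' : ∀ {m n : ℕ}, m ≤ n → ∀ e : σ →₀ ℕ,
      MvPowerSeries.coeff e (f m) - MvPowerSeries.coeff e (f n) ∈ 𝔞 ^ (m - e.degree) := by
    intro m n hmn e
    have h1 := hf hmn
    rw [SModEq.sub_mem, smul_eq_mul, Ideal.mul_top] at h1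
    have h2 := constIdeal_pow_le_coeffIdeal 𝔞 m h1 e
    rwa [map_sub] at h2
  -- coefficientwise limits
  have hex : ∀ e : σ →₀ ℕ, ∃ L : R, ∀ j : ℕ,
      MvPowerSeries.coeff e (f (j + e.degree)) ≡ L [SMOD (𝔞 ^ j • ⊤ : Submodule R R)] := by
    intro e
    refine IsPrecomplete.prec' (I := 𝔞) (fun j => MvPowerSeries.coeff e (f (j + e.degree))) ?_
    intro j j' hjj'
    rw [SModEq.sub_mem, smul_eq_mul, Ideal.mul_top]
    have := hf' (Nat.add_le_add_right hjj' e.degree) e
    rwa [Nat.add_sub_cancel] at this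
  choose L hL using hex
  let Lp : MvPowerSeries σ R := fun e => L e
  have hLp : ∀ e, MvPowerSeries.coeff e Lp = L e := fun e => rfl
  refine ⟨Lp, fun n => ?_⟩
  rw [SModEq.sub_mem, smul_eq_mul, Ideal.mul_top]
  apply coeffIdeal_le_constIdeal_pow
  intro e
  rw [map_sub, hLp]
  by_cases he : e.degree ≤ n
  · have h1 := hL e (n - e.degree)
    rw [SModEq.sub_mem, smul_eq_mul, Ideal.mul_top, Nat.sub_add_cancel he] at h1
    exact h1
  · have : n - e.degree = 0 := by omega
    rw [this, pow_zero, Ideal.one_eq_top]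
    exact Submodule.mem_top

end Filtration

section Complete

variable {σ : Type*} [Finite σ] {R : Type*} [CommRing R] [IsLocalRing R]

theorem maximalIdeal_mvPowerSeries_eq :
    maximalIdeal (MvPowerSeries σ R) = constIdeal σ (maximalIdeal R) := by
  ext f
  rw [mem_constIdeal_iff, mem_maximalIdeal, mem_maximalIdeal, mem_nonunits_iff, mem_nonunits_iff,
    MvPowerSeries.isUnit_iff_constantCoeff]

theorem X_mem_maximalIdeal_mvPowerSeries (i : σ) :
    (MvPowerSeries.X i : MvPowerSeries σ R) ∈ maximalIdeal (MvPowerSeries σ R) := by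
  rw [maximalIdeal_mvPowerSeries_eq]
  exact X_mem_constIdeal _ i

theorem C_mem_maximalIdeal_mvPowerSeries {c : R} (hc : c ∈ maximalIdeal R) :
    (MvPowerSeries.C c : MvPowerSeries σ R) ∈ maximalIdeal (MvPowerSeries σ R) := by
  rw [maximalIdeal_mvPowerSeries_eq]
  exact C_mem_constIdeal hc

/-- **(C1)** `R⟦X₁,…,X_d⟧` is complete for its maximal ideal when `R` is a complete Noetherian
local ring. -/
theorem isAdicComplete_mvPowerSeries [IsNoetherianRing R] [IsAdicComplete (maximalIdeal R) R] :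
    IsAdicComplete (maximalIdeal (MvPowerSeries σ R)) (MvPowerSeries σ R) := by
  have : IsPrecomplete (maximalIdeal (MvPowerSeries σ R)) (MvPowerSeries σ R) := by
    rw [maximalIdeal_mvPowerSeries_eq]
    exact isPrecomplete_constIdeal _
  exact {}

end Complete

section Eval

variable {σ : Type*} [Finite σ] {R : Type*} [CommRing R]
variable {A : Type*} [CommRing A] [Algebra R A]

theorem aeval_mem_pow_of_mem_idealOfVars_pow (I : Ideal A) {x : σ → A} (hx : ∀ i, x i ∈ I)
    {n : ℕ} {p : MvPolynomial σ R} (hp : p ∈ MvPolynomial.idealOfVars σ R ^ n) :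
    MvPolynomial.aeval x p ∈ I ^ n := by
  have hmap : Ideal.map (MvPolynomial.aeval (R := R) x) (MvPolynomial.idealOfVars σ R) ≤ I := by
    rw [MvPolynomial.idealOfVars, Ideal.map_span, Ideal.span_le]
    rintro _ ⟨_, ⟨i, rfl⟩, rfl⟩
    simpa using hx i
  have h1 : MvPolynomial.aeval (R := R) x p ∈
      Ideal.map (MvPolynomial.aeval (R := R) x) (MvPolynomial.idealOfVars σ R ^ n) :=
    Ideal.mem_map_of_mem _ hp
  rw [Ideal.map_pow] at h1
  exact Ideal.pow_right_mono hmap n h1

/-- level-`n` evaluation `R⟦X⟧ → A ⧸ I ^ n` at a point `x` with coordinates in `I`. -/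
def evalLevel (I : Ideal A) (x : σ → A) (hx : ∀ i, x i ∈ I) (n : ℕ) :
    MvPowerSeries σ R →ₐ[R] A ⧸ I ^ n :=
  (Ideal.Quotient.liftₐ (MvPolynomial.idealOfVars σ R ^ n)
      ((Ideal.Quotient.mkₐ R (I ^ n)).comp (MvPolynomial.aeval (R := R) x))
      (fun p hp => by
        rw [AlgHom.comp_apply, Ideal.Quotient.mkₐ_eq_mk, Ideal.Quotient.eq_zero_iff_mem]
        exact aeval_mem_pow_of_mem_idealOfVars_pow I hx hp)).comp
    ((MvPowerSeries.truncTotalAlgHom σ R n).restrictScalars R)

theorem evalLevel_apply (I : Ideal A) (x : σ → A) (hx : ∀ i, x i ∈ I) (n : ℕ)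
    (f : MvPowerSeries σ R) :
    evalLevel I x hx n f =
      Ideal.Quotient.mk (I ^ n) (MvPolynomial.aeval (R := R) x (MvPowerSeries.truncTotal n f)) := by
  rfl

theorem evalLevel_compat (I : Ideal A) (x : σ → A) (hx : ∀ i, x i ∈ I) {m n : ℕ} (hmn : m ≤ n) :
    (Ideal.Quotient.factorₐ R (Ideal.pow_le_pow_right hmn)).comp (evalLevel (R := R) I x hx n) =
      evalLevel I x hx m := by
  ext f
  rw [AlgHom.comp_apply, evalLevel_apply, evalLevel_apply, Ideal.Quotient.factorₐ_apply_mk,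
    Ideal.Quotient.eq]
  rw [← map_sub]
  exact aeval_mem_pow_of_mem_idealOfVars_pow I hx
    (MvPowerSeries.truncTotal_sub_truncTotal_mem_pow_idealOfVars hmn le_rfl f)

variable (I : Ideal A) [IsAdicComplete I A]

/-- **(C2)** evaluation of power series at a point with coordinates in `I`, for an
`I`-adically complete `R`-algebra `A`. -/
def evalCNL (x : σ → A) (hx : ∀ i, x i ∈ I) : MvPowerSeries σ R →ₐ[R] A :=
  IsAdicComplete.liftAlgHom I (evalLevel I x hx) (fun hmn => evalLevel_compat I x hx hmn)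

theorem mk_evalCNL (x : σ → A) (hx : ∀ i, x i ∈ I) (n : ℕ) (f : MvPowerSeries σ R) :
    Ideal.Quotient.mk (I ^ n) (evalCNL I x hx f) =
      Ideal.Quotient.mk (I ^ n) (MvPolynomial.aeval (R := R) x (MvPowerSeries.truncTotal n f)) := by
  rw [evalCNL, IsAdicComplete.mk_liftAlgHom _ _ (fun hmn => evalLevel_compat I x hx hmn),
    evalLevel_apply]

theorem evalCNL_coe (x : σ → A) (hx : ∀ i, x i ∈ I) (p : MvPolynomial σ R) :
    evalCNL I x hx (p : MvPowerSeries σ R) = MvPolynomial.aeval (R := R) x p := by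
  rw [← sub_eq_zero]
  refine IsHausdorff.haus' (I := I) _ fun n => ?_
  rw [SModEq.zero, smul_eq_mul, Ideal.mul_top, ← Ideal.Quotient.eq, mk_evalCNL, Ideal.Quotient.eq,
    ← map_sub]
  apply aeval_mem_pow_of_mem_idealOfVars_pow I hx
  rw [MvPolynomial.mem_pow_idealOfVars_iff']
  intro e he
  rw [MvPolynomial.coeff_sub, MvPowerSeries.coeff_truncTotal _ he, MvPolynomial.coeff_coe,
    sub_self]

theorem evalCNL_X (x : σ → A) (hx : ∀ i, x i ∈ I) (i : σ) :
    evalCNL I x hx (MvPowerSeries.X i : MvPowerSeries σ R) = x i := by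
  rw [← MvPolynomial.coe_X, evalCNL_coe, MvPolynomial.aeval_X]

/-- **(C3)** two `R`-algebra maps out of `R⟦X⟧` into an `I`-adically separated algebra that agree
on the variables, and send them into `I`, are equal. -/
theorem algHom_ext_of_X (J : Ideal A) [IsHausdorff J A] {φ ψ : MvPowerSeries σ R →ₐ[R] A}
    (hφ : ∀ i, φ (MvPowerSeries.X i) ∈ J) (h : ∀ i, φ (MvPowerSeries.X i) = ψ (MvPowerSeries.X i)) :
    φ = ψ := by
  have hpoly : ∀ p : MvPolynomial σ R, φ (p : MvPowerSeries σ R) = ψ (p : MvPowerSeries σ R) := by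
    intro p
    have : φ.comp (MvPolynomial.coeToMvPowerSeries.algHom (σ := σ) (R := R) R) =
        ψ.comp (MvPolynomial.coeToMvPowerSeries.algHom (σ := σ) (R := R) R) := by
      apply MvPolynomial.algHom_ext
      intro i
      simpa [MvPolynomial.coeToMvPowerSeries.algHom_apply] using h i
    have h2 := congrArg (fun g => g p) this
    simpa [MvPolynomial.coeToMvPowerSeries.algHom_apply] using h2
  have hmap : ∀ (χ : MvPowerSeries σ R →ₐ[R] A), (∀ i, χ (MvPowerSeries.X i) ∈ J) →
      ∀ (n : ℕ) (t : MvPowerSeries σ R),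
      t ∈ (Ideal.span (Set.range (MvPowerSeries.X : σ → MvPowerSeries σ R))) ^ n → χ t ∈ J ^ n := by
    intro χ hχ n t ht
    have hle : Ideal.map χ (Ideal.span (Set.range (MvPowerSeries.X : σ → MvPowerSeries σ R))) ≤ J := by
      rw [Ideal.map_span, Ideal.span_le]
      rintro _ ⟨_, ⟨i, rfl⟩, rfl⟩
      exact hχ i
    have h1 : χ t ∈ Ideal.map χ
        ((Ideal.span (Set.range (MvPowerSeries.X : σ → MvPowerSeries σ R))) ^ n) :=
      Ideal.mem_map_of_mem _ ht
    rw [Ideal.map_pow] at h1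
    exact Ideal.pow_right_mono hle n h1
  ext f
  rw [← sub_eq_zero]
  refine IsHausdorff.haus' (I := J) _ fun n => ?_
  rw [SModEq.zero, smul_eq_mul, Ideal.mul_top]
  have ht := sub_truncTotal_mem_span_X_pow n f
  have h1 := hmap φ hφ n _ ht
  have h2 := hmap ψ (fun i => h i ▸ hφ i) n _ ht
  have h3 := Ideal.sub_mem _ h1 h2
  rw [map_sub, map_sub, hpoly] at h3
  simpa using h3

end Eval

section Surjective

variable {σ : Type*} [Finite σ] {R : Type*} [CommRing R] [IsLocalRing R]
variable {A : Type*} [CommRing A] [Algebra R A] [IsLocalRing A]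

/-- the maximal ideal of `R⟦X⟧` is generated by `𝔪_R` and the variables. -/
theorem maximalIdeal_mvPowerSeries_eq_sup :
    maximalIdeal (MvPowerSeries σ R) =
      Ideal.map (MvPowerSeries.C (σ := σ) (R := R)) (maximalIdeal R) ⊔
        Ideal.span (Set.range (MvPowerSeries.X : σ → MvPowerSeries σ R)) := by
  apply le_antisymm
  · intro f hf
    have h0 : MvPowerSeries.constantCoeff f ∈ maximalIdeal R := by
      rwa [maximalIdeal_mvPowerSeries_eq] at hf
    have ht := sub_truncTotal_mem_span_X_pow 1 f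
    rw [pow_one] at ht
    have htr : ((MvPowerSeries.truncTotal 1 f : MvPolynomial σ R) : MvPowerSeries σ R) =
        MvPowerSeries.C (MvPowerSeries.constantCoeff f) := by
      ext e
      rw [MvPolynomial.coeff_coe]
      by_cases he : e.degree < 1
      · have he0 : e = 0 := by
          apply (Finsupp.degree_eq_zero_iff _).mp
          omega
        subst he0
        rw [MvPowerSeries.coeff_truncTotal _ he]
        simp
      · have he0 : e ≠ 0 := by
          rintro rfl
          simp at he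
        rw [MvPowerSeries.coeff_truncTotal_eq_zero _ (not_lt.mp he)]
        classical
        rw [MvPowerSeries.coeff_C, if_neg he0]
    rw [htr] at ht
    have : f = MvPowerSeries.C (MvPowerSeries.constantCoeff f) +
        (f - MvPowerSeries.C (MvPowerSeries.constantCoeff f)) := by ring
    rw [this]
    exact Ideal.add_mem _ (Ideal.mem_sup_left (Ideal.mem_map_of_mem _ h0)) (Ideal.mem_sup_right ht)
  · refine sup_le ?_ ?_
    · rw [Ideal.map_le_iff_le_comap]
      intro c hc
      exact C_mem_maximalIdeal_mvPowerSeries hc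
    · rw [Ideal.span_le]
      rintro _ ⟨i, rfl⟩
      exact X_mem_maximalIdeal_mvPowerSeries i

theorem map_maximalIdeal_mvPowerSeries (φ : MvPowerSeries σ R →ₐ[R] A) :
    Ideal.map φ (maximalIdeal (MvPowerSeries σ R)) =
      Ideal.map (algebraMap R A) (maximalIdeal R) ⊔
        Ideal.span (Set.range fun i => φ (MvPowerSeries.X i)) := by
  rw [maximalIdeal_mvPowerSeries_eq_sup, Ideal.map_sup, Ideal.map_span]
  congr 1
  · have : Ideal.map φ (Ideal.map (MvPowerSeries.C (σ := σ) (R := R)) (maximalIdeal R)) =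
        Ideal.map ((φ : MvPowerSeries σ R →+* A).comp (MvPowerSeries.C (σ := σ) (R := R)))
          (maximalIdeal R) := Ideal.map_map _ _
    rw [this]
    congr 1
    ext c
    simp [MvPowerSeries.c_eq_algebraMap]
  · congr 1
    ext a
    constructor
    · rintro ⟨_, ⟨i, rfl⟩, rfl⟩
      exact ⟨i, rfl⟩
    · rintro ⟨i, rfl⟩
      exact ⟨_, ⟨i, rfl⟩, rfl⟩

/-- **(C4)** surjectivity criterion: if the images of `𝔪_R` and of the variables generate `𝔪_A`
and `R → A/𝔪_A` is onto, then `φ : R⟦X⟧ → A` is onto (`A` local, `𝔪_A`-adically separated,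
`R` complete Noetherian local). -/
theorem surjective_of_map_maximalIdeal [IsNoetherianRing R] [IsAdicComplete (maximalIdeal R) R]
    [IsHausdorff (maximalIdeal A) A]
    (φ : MvPowerSeries σ R →ₐ[R] A)
    (hres : Function.Surjective (IsLocalRing.residue A ∘ algebraMap R A))
    (hgen : Ideal.map (algebraMap R A) (maximalIdeal R) ⊔
        Ideal.span (Set.range fun i => φ (MvPowerSeries.X i)) = maximalIdeal A) :
    Function.Surjective φ := by
  have hmap : Ideal.map (φ : MvPowerSeries σ R →+* A) (maximalIdeal (MvPowerSeries σ R)) =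
      maximalIdeal A := by
    rw [← hgen]
    exact map_maximalIdeal_mvPowerSeries φ
  haveI : IsAdicComplete (maximalIdeal (MvPowerSeries σ R)) (MvPowerSeries σ R) :=
    isAdicComplete_mvPowerSeries
  haveI : IsHausdorff (Ideal.map (φ : MvPowerSeries σ R →+* A)
      (maximalIdeal (MvPowerSeries σ R))) A := by
    rw [hmap]; infer_instance
  refine surjective_of_mk_map_comp_surjective (I := maximalIdeal (MvPowerSeries σ R))
    (φ : MvPowerSeries σ R →+* A) ?_
  intro y
  obtain ⟨a, rfl⟩ := Ideal.Quotient.mk_surjective y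
  obtain ⟨c, hc⟩ := hres (IsLocalRing.residue A a)
  refine ⟨MvPowerSeries.C c, ?_⟩
  rw [RingHom.comp_apply, Ideal.Quotient.eq, hmap]
  have h1 : (φ : MvPowerSeries σ R →+* A) (MvPowerSeries.C c) = algebraMap R A c := by
    rw [MvPowerSeries.c_eq_algebraMap]
    exact φ.commutes c
  rw [h1]
  rw [Function.comp_apply] at hc
  rw [← Ideal.Quotient.eq]
  exact hc

end Surjective

section Quotient

variable {R : Type*} [CommRing R] [IsLocalRing R]
variable {S : Type*} [CommRing S] [IsLocalRing S] [Algebra R S]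

/-- a proper quotient of a local ring is local. -/
theorem isLocalRing_quotient (𝔟 : Ideal S) (h : 𝔟 ≠ ⊤) : IsLocalRing (S ⧸ 𝔟) := by
  have : Nontrivial (S ⧸ 𝔟) := Ideal.Quotient.nontrivial_iff.mpr h
  exact IsLocalRing.of_surjective' (Ideal.Quotient.mk 𝔟) Ideal.Quotient.mk_surjective

theorem isLocalHom_quotient_mk (𝔟 : Ideal S) (h : 𝔟 ≠ ⊤) :
    IsLocalHom (Ideal.Quotient.mk 𝔟) := by
  refine ⟨fun a ha => ?_⟩
  by_contra hna
  have ha' : a ∈ maximalIdeal S := hna
  have hle : 𝔟 ≤ maximalIdeal S := IsLocalRing.le_maximalIdeal h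
  have hmax : (maximalIdeal S).map (Ideal.Quotient.mk 𝔟) ≠ ⊤ := by
    intro htop
    have h1 : (1 : S ⧸ 𝔟) ∈ (maximalIdeal S).map (Ideal.Quotient.mk 𝔟) := htop ▸ Submodule.mem_top
    rw [← map_one (Ideal.Quotient.mk 𝔟),
      Ideal.mem_map_iff_of_surjective _ Ideal.Quotient.mk_surjective] at h1
    obtain ⟨b, hb, hb1⟩ := h1
    have h2 : b - 1 ∈ 𝔟 := by
      rw [← Ideal.Quotient.eq_zero_iff_mem, map_sub, hb1, sub_self]
    have h3 : (1 : S) ∈ maximalIdeal S := by
      have := Ideal.sub_mem _ hb (hle h2)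
      simpa using this
    exact (maximalIdeal.isMaximal S).ne_top ((Ideal.eq_top_iff_one _).mpr h3)
  apply hmax
  apply Ideal.eq_top_of_isUnit_mem _ (Ideal.mem_map_of_mem _ ha') ha

/-- **(C5)** a proper quotient of a complete Noetherian local ring is complete. -/
theorem isAdicComplete_quotient [IsNoetherianRing S] [IsAdicComplete (maximalIdeal S) S]
    (𝔟 : Ideal S) (h : 𝔟 ≠ ⊤) :
    letI := isLocalRing_quotient 𝔟 h
    IsAdicComplete (maximalIdeal (S ⧸ 𝔟)) (S ⧸ 𝔟) := by
  letI := isLocalRing_quotient 𝔟 h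
  haveI : IsLocalHom (algebraMap S (S ⧸ 𝔟)) := isLocalHom_quotient_mk 𝔟 h
  exact IsLocalRing.isAdicComplete_of_module_finite (𝒪 := S) (T := S ⧸ 𝔟)

theorem isLocalHom_algebraMap_quotient [IsLocalHom (algebraMap R S)] (𝔟 : Ideal S) (h : 𝔟 ≠ ⊤) :
    letI := isLocalRing_quotient 𝔟 h
    IsLocalHom (algebraMap R (S ⧸ 𝔟)) := by
  letI := isLocalRing_quotient 𝔟 h
  haveI : IsLocalHom (Ideal.Quotient.mk 𝔟) := isLocalHom_quotient_mk 𝔟 h
  refine ⟨fun a ha => ?_⟩
  have h1 : algebraMap R (S ⧸ 𝔟) a = Ideal.Quotient.mk 𝔟 (algebraMap R S a) := rfl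
  rw [h1] at ha
  exact isUnit_of_map_unit (algebraMap R S) a (isUnit_of_map_unit (Ideal.Quotient.mk 𝔟) _ ha)

theorem residue_surjective_quotient
    (hres : Function.Surjective (IsLocalRing.residue S ∘ algebraMap R S))
    (𝔟 : Ideal S) (h : 𝔟 ≠ ⊤) :
    letI := isLocalRing_quotient 𝔟 h
    Function.Surjective (IsLocalRing.residue (S ⧸ 𝔟) ∘ algebraMap R (S ⧸ 𝔟)) := by
  letI := isLocalRing_quotient 𝔟 h
  haveI : IsLocalHom (Ideal.Quotient.mk 𝔟) := isLocalHom_quotient_mk 𝔟 h
  intro y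
  obtain ⟨a, rfl⟩ := IsLocalRing.residue_surjective y
  obtain ⟨s, rfl⟩ := Ideal.Quotient.mk_surjective a
  obtain ⟨c, hc⟩ := hres (IsLocalRing.residue S s)
  refine ⟨c, ?_⟩
  rw [Function.comp_apply] at hc ⊢
  have h1 : algebraMap R (S ⧸ 𝔟) c = Ideal.Quotient.mk 𝔟 (algebraMap R S c) := rfl
  rw [h1]
  have hc' : algebraMap R S c - s ∈ maximalIdeal S := by
    rw [← Ideal.Quotient.eq]
    exact hc
  rw [← sub_eq_zero, ← map_sub, ← map_sub, IsLocalRing.residue_eq_zero_iff]
  intro hu
  exact hc' (isUnit_of_map_unit (Ideal.Quotient.mk 𝔟) _ hu)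

end Quotient

section PowerSeriesOverO

variable {σ : Type*} [Finite σ] {R : Type*} [CommRing R] [IsLocalRing R]

theorem isLocalHom_algebraMap_mvPowerSeries : IsLocalHom (algebraMap R (MvPowerSeries σ R)) := by
  refine ⟨fun a ha => ?_⟩
  rw [← MvPowerSeries.c_eq_algebraMap, MvPowerSeries.isUnit_iff_constantCoeff] at ha
  simpa using ha

theorem residue_surjective_mvPowerSeries :
    Function.Surjective
      (IsLocalRing.residue (MvPowerSeries σ R) ∘ algebraMap R (MvPowerSeries σ R)) := by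
  intro y
  obtain ⟨f, rfl⟩ := IsLocalRing.residue_surjective y
  refine ⟨MvPowerSeries.constantCoeff f, ?_⟩
  rw [Function.comp_apply, ← sub_eq_zero, ← map_sub, IsLocalRing.residue_eq_zero_iff,
    maximalIdeal_mvPowerSeries_eq, mem_constIdeal_iff, map_sub, ← MvPowerSeries.c_eq_algebraMap]
  simp

end PowerSeriesOverO

section Package

variable {R : Type*} [CommRing R] [IsLocalRing R] [IsNoetherianRing R]
  [IsAdicComplete (maximalIdeal R) R]
variable {A : Type*} [CommRing A] [Algebra R A] [IsLocalRing A] [IsAdicComplete (maximalIdeal A) A]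

/-- Nakayama: in a Noetherian local ring, an ideal `N ≤ 𝔪` with `𝔪 ≤ N ⊔ 𝔪²` equals `𝔪`. -/
theorem maximalIdeal_le_of_le_sup_sq {B : Type*} [CommRing B] [IsLocalRing B] [IsNoetherianRing B]
    (N : Ideal B) (h : maximalIdeal B ≤ N ⊔ maximalIdeal B ^ 2) : maximalIdeal B ≤ N := by
  refine Submodule.le_of_le_smul_of_le_jacobson_bot (I := maximalIdeal B) (N := N)
    (N' := maximalIdeal B) (IsNoetherian.noetherian _) ?_ ?_
  · exact IsLocalRing.maximalIdeal_le_jacobson ⊥
  · rwa [smul_eq_mul, ← pow_two]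

/-- **Package**: a complete local `R`-algebra `A` with `R → A/𝔪_A` onto, whose maximal ideal is
generated by the image of `𝔪_R` and `d` elements `x i`, is a quotient of `R⟦X₁,…,X_d⟧` via
`X i ↦ x i`. -/
theorem exists_surjective_algHom_of_generators {d : ℕ}
    (hres : Function.Surjective (IsLocalRing.residue A ∘ algebraMap R A))
    (x : Fin d → A)
    (hgen : Ideal.map (algebraMap R A) (maximalIdeal R) ⊔ Ideal.span (Set.range x) =
      maximalIdeal A) :
    ∃ φ : MvPowerSeries (Fin d) R →ₐ[R] A,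
      Function.Surjective φ ∧ ∀ i, φ (MvPowerSeries.X i) = x i := by
  have hx : ∀ i, x i ∈ maximalIdeal A := fun i => by
    rw [← hgen]
    exact Ideal.mem_sup_right (Ideal.subset_span ⟨i, rfl⟩)
  refine ⟨evalCNL (maximalIdeal A) x hx, ?_, fun i => evalCNL_X _ _ _ i⟩
  apply surjective_of_map_maximalIdeal _ hres
  have : (fun i => evalCNL (R := R) (maximalIdeal A) x hx (MvPowerSeries.X i)) = x :=
    funext fun i => evalCNL_X _ _ _ i
  rw [this]
  exact hgen

/-- **Package, cotangent form**: same with generation only modulo `𝔪_A²` (`A` Noetherian). -/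
theorem exists_surjective_algHom_of_generators_mod_sq [IsNoetherianRing A] {d : ℕ}
    (hloc : IsLocalHom (algebraMap R A))
    (hres : Function.Surjective (IsLocalRing.residue A ∘ algebraMap R A))
    (x : Fin d → A) (hx : ∀ i, x i ∈ maximalIdeal A)
    (hgen : maximalIdeal A ≤ Ideal.map (algebraMap R A) (maximalIdeal R) ⊔
      Ideal.span (Set.range x) ⊔ maximalIdeal A ^ 2) :
    ∃ φ : MvPowerSeries (Fin d) R →ₐ[R] A,
      Function.Surjective φ ∧ ∀ i, φ (MvPowerSeries.X i) = x i := by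
  apply exists_surjective_algHom_of_generators hres x
  apply le_antisymm
  · refine sup_le ?_ ?_
    · rw [Ideal.map_le_iff_le_comap]
      intro c hc
      rw [Ideal.mem_comap]
      intro hu
      exact hc (hloc.map_nonunit c hu)
    · rw [Ideal.span_le]
      rintro _ ⟨i, rfl⟩
      exact hx i
  · exact maximalIdeal_le_of_le_sup_sq _ hgen

end Package

end

end Fermat.Agent.S53.H596

end
-- ===== PACK-END S53/H596/PowerSeriesCNL.lean

-- ===== PACK-BEGIN S14/H894/ValSum.lean
section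


/-!
# S14 / H894 : valuation of a sum with pairwise distinct valuations; power expansions
-/

set_option autoImplicit false

namespace Fermat.Agent.S14.H894

open Polynomial

/-- If the nonzero terms of a finite sum have pairwise distinct valuations, the valuation of the
sum is the maximum of the valuations of the terms. -/
theorem valuation_sum_eq_sup {F Γ ι : Type*} [Field F] [LinearOrderedCommGroupWithZero Γ]
    (v : Valuation F Γ) (s : Finset ι) (f : ι → F)
    (h : ∀ i ∈ s, ∀ j ∈ s, i ≠ j → f i ≠ 0 → v (f i) ≠ v (f j)) :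
    v (∑ i ∈ s, f i) = s.sup (fun i => v (f i)) := by
  classical
  induction s using Finset.induction_on with
  | empty => simp [bot_eq_zero]
  | insert a s ha ih =>
    rw [Finset.sum_insert ha, Finset.sup_insert]
    have ih' := ih (fun i hi j hj => h i (Finset.mem_insert_of_mem hi) j
      (Finset.mem_insert_of_mem hj))
    by_cases hfa : f a = 0
    · rw [hfa, zero_add, map_zero, ih']
      exact (sup_of_le_right zero_le).symm
    · have hne : v (f a) ≠ v (∑ i ∈ s, f i) := by
        rw [ih']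
        intro heq
        have hpos : (0 : Γ) < v (f a) := by
          rw [Valuation.pos_iff]; exact hfa
        rcases s.eq_empty_or_nonempty with hs | hs
        · subst hs
          rw [Finset.sup_empty, bot_eq_zero] at heq
          exact hpos.ne' heq
        · obtain ⟨j, hj, hjs⟩ := Finset.exists_mem_eq_sup s hs (fun i => v (f i))
          rw [hjs] at heq
          refine h a (Finset.mem_insert_self a s) j (Finset.mem_insert_of_mem hj) ?_ hfa heq
          rintro rfl
          exact ha hj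
      rw [Valuation.map_add_of_distinct_val v hne, ih']

theorem valuation_sum_le_one_iff {F Γ ι : Type*} [Field F] [LinearOrderedCommGroupWithZero Γ]
    (v : Valuation F Γ) (s : Finset ι) (f : ι → F)
    (h : ∀ i ∈ s, ∀ j ∈ s, i ≠ j → f i ≠ 0 → v (f i) ≠ v (f j)) :
    v (∑ i ∈ s, f i) ≤ 1 ↔ ∀ i ∈ s, v (f i) ≤ 1 := by
  rw [valuation_sum_eq_sup v s f h, Finset.sup_le_iff]

theorem valuation_sum_lt_one_iff {F Γ ι : Type*} [Field F] [LinearOrderedCommGroupWithZero Γ]
    (v : Valuation F Γ) (s : Finset ι) (f : ι → F)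
    (h : ∀ i ∈ s, ∀ j ∈ s, i ≠ j → f i ≠ 0 → v (f i) ≠ v (f j)) :
    v (∑ i ∈ s, f i) < 1 ↔ ∀ i ∈ s, v (f i) < 1 := by
  rw [valuation_sum_eq_sup v s f h, Finset.sup_lt_iff (by rw [bot_eq_zero]; exact zero_lt_one)]

end Fermat.Agent.S14.H894

end
-- ===== PACK-END S14/H894/ValSum.lean

-- ===== PACK-BEGIN S55/Bridge/Krasner.lean
section




/-!
# S55 bridge, part B5: Krasner — the local Galois group and its global levels

* `exists_global_generator`: every `x ∈ ℚ̄_q` lies in `ℚ_q(ι b)` for some `b ∈ ℚ̄`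
  (`ι = padicEmbedding q`).
* `localGaloisToGlobal_injective`: restriction `Gal(ℚ̄_q/ℚ_q) → Gal(ℚ̄/ℚ)` is injective.
* `exists_global_level_of_local`: every finite subextension `E/ℚ_q` of `ℚ̄_q` is "covered" by a
  finite global level `F/ℚ`: `localGaloisToGlobal q τ ∈ G_F → τ ∈ G_E`.
-/

set_option autoImplicit false

namespace Fermat.Agent.S55.Bridge

open Polynomial IntermediateField

variable (q : ℕ) [Fact q.Prime]

/-- Elements of `ℚ̄_q` algebraic over `ℚ` are in the image of `padicEmbedding q`. -/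
theorem mem_range_padicEmbedding_of_root (g : Polynomial ℚ) (hg : g ≠ 0) (b : PadicAlgCl q)
    (hb : Polynomial.aeval b g = 0) : ∃ b' : AlgebraicClosure ℚ, padicEmbedding q b' = b := by
  have hsplit : (g.map (algebraMap ℚ (AlgebraicClosure ℚ))).Splits := IsAlgClosed.splits _
  have hmap : (g.map (algebraMap ℚ (AlgebraicClosure ℚ))).map
      ((padicEmbedding q : AlgebraicClosure ℚ →ₐ[ℚ] PadicAlgCl q) : AlgebraicClosure ℚ →+* PadicAlgCl q)
      = g.map (algebraMap ℚ (PadicAlgCl q)) := by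
    rw [Polynomial.map_map]
    congr 1
    exact (padicEmbedding q).comp_algebraMap
  have hroot : b ∈ (g.map (algebraMap ℚ (PadicAlgCl q))).roots := by
    rw [Polynomial.mem_roots (Polynomial.map_ne_zero hg), Polynomial.IsRoot.def,
      Polynomial.eval_map_algebraMap]
    exact hb
  rw [← hmap, hsplit.roots_map, Multiset.mem_map] at hroot
  obtain ⟨b', -, hb'⟩ := hroot
  exact ⟨b', hb'⟩

/-- `ι(ℚ̄)` is dense in `ℚ̄_q`: every element is approximated by elements of `ι(ℚ̄)`. -/
theorem exists_global_near (x : PadicAlgCl q) {δ : ℝ} (δpos : 0 < δ) :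
    ∃ b : AlgebraicClosure ℚ, ‖x - padicEmbedding q b‖ < δ := by
  have hxint : IsIntegral ℚ_[q] x := Algebra.IsIntegral.isIntegral x
  set f : Polynomial ℚ_[q] := minpoly ℚ_[q] x with hf
  have fmon : f.Monic := minpoly.monic hxint
  have fa0 : Polynomial.aeval x f = 0 := minpoly.aeval _ _
  have fnatdeg0 : f.natDegree ≠ 0 := (minpoly.natDegree_pos hxint).ne'
  have hε : (δ / (max ‖x‖ 1)) ^ f.natDegree / (f.natDegree + 1) > 0 := by positivity
  have hd : DenseRange (algebraMap ℚ ℚ_[q]) := by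
    have h := Padic.denseRange_ratCast q
    have heq : (algebraMap ℚ ℚ_[q] : ℚ → ℚ_[q]) = ((↑) : ℚ → ℚ_[q]) := by
      funext r
      exact eq_ratCast _ r
    rw [heq]
    exact h
  obtain ⟨g, gmon, gdeg, gcoeff⟩ :=
    exists_monic_and_natDegree_eq_and_norm_map_algebraMap_coeff_sub_lt hd fmon hε
  obtain ⟨b, hb, hab⟩ := exists_aroots_norm_sub_lt_of_norm_coeff_sub_lt
      hε fa0 fmon (gmon.map _) (gdeg ▸ (g.natDegree_map _)) gcoeff (IsAlgClosed.splits _)
  have hab : ‖x - b‖ < δ := by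
    rw [← Real.rpow_natCast, ← mul_comm_div, div_self, one_mul,
        ← Real.rpow_mul (div_pos δpos (by positivity)).le, mul_inv_cancel₀] at hab
    · simpa [mul_assoc, div_mul_cancel₀ _ (by positivity : (max ‖x‖ 1) > 0).ne'] using hab
    · simp [fnatdeg0]
    · positivity
  have hgb : Polynomial.aeval b g = 0 := by
    rw [Polynomial.mem_aroots] at hb
    have h2 := hb.2
    rwa [Polynomial.aeval_map_algebraMap] at h2
  obtain ⟨b', hb'⟩ := mem_range_padicEmbedding_of_root q g gmon.ne_zero b hgb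
  exact ⟨b', by rw [hb']; exact hab⟩

/-- **Krasner.** Every element of `ℚ̄_q` lies in `ℚ_q(ι b)` for some `b ∈ ℚ̄`. -/
theorem exists_global_generator (x : PadicAlgCl q) :
    ∃ b : AlgebraicClosure ℚ, x ∈ IntermediateField.adjoin ℚ_[q] {padicEmbedding q b} := by
  classical
  have hxint : IsIntegral ℚ_[q] x := Algebra.IsIntegral.isIntegral x
  set f : Polynomial ℚ_[q] := minpoly ℚ_[q] x with hf
  have firr : Irreducible f := minpoly.irreducible hxint
  let T : Finset (PadicAlgCl q) := {y ∈ (f.rootSet (PadicAlgCl q)).toFinset | y ≠ x}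
  let δ : ℝ := if hT : T.Nonempty then Finset.min' (T.image fun y => ‖x - y‖)
      (Finset.image_nonempty.mpr hT) else 1
  have norm_sub_le : ∀ a' : PadicAlgCl q, IsConjRoot ℚ_[q] x a' → x ≠ a' → δ ≤ ‖x - a'‖ := by
    intro a' conj ne
    by_cases hT : T.Nonempty <;> simp only [hT, ↓reduceDIte, δ]
    · apply Finset.min'_le (T.image fun y => ‖x - y‖) (‖x - a'‖)
      apply Finset.mem_image_of_mem
      simp only [Finset.mem_filter, Set.mem_toFinset, T]
      rw [hf, ← (isConjRoot_iff_mem_minpoly_rootSet hxint)]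
      exact ⟨conj, ne.symm⟩
    · simp only [ne_eq, Finset.not_nonempty_iff_eq_empty, Finset.filter_eq_empty_iff,
        Set.mem_toFinset, not_not, T] at hT
      rw [isConjRoot_iff_mem_minpoly_rootSet hxint] at conj
      exact (ne (hT conj).symm).elim
  have δpos : δ > 0 := by
    by_cases hT : T.Nonempty <;> simp only [hT, ↓reduceDIte, δ]
    · simp only [gt_iff_lt, Finset.lt_min'_iff, Finset.mem_image, forall_exists_index, and_imp,
        forall_apply_eq_imp_iff₂]
      rintro a' ha'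
      simp only [Finset.mem_filter, Set.mem_toFinset, T] at ha'
      rw [norm_pos_iff, sub_ne_zero]
      exact ha'.2.symm
    · linarith
  obtain ⟨b', hab⟩ := exists_global_near q x δpos
  refine ⟨b', ?_⟩
  have hbint : IsIntegral ℚ_[q] (padicEmbedding q b') := Algebra.IsIntegral.isIntegral _
  exact IsKrasner.krasner (K := ℚ_[q]) (L := PadicAlgCl q) firr.separable
    (IsAlgClosed.splits _) hbint
    (fun a' h1 h2 => lt_of_lt_of_le hab (norm_sub_le a' h1 h2))

/-- If `τ` restricts to an element fixing `b ∈ ℚ̄`, then `τ` fixes `ℚ_q(ι b)` pointwise. -/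
theorem fixes_adjoin_of_fixes (τ : PadicAlgCl q ≃ₐ[ℚ_[q]] PadicAlgCl q) (b : AlgebraicClosure ℚ)
    (hb : localGaloisToGlobal q τ b = b) (x : PadicAlgCl q)
    (hx : x ∈ IntermediateField.adjoin ℚ_[q] {padicEmbedding q b}) : τ x = x := by
  have hτb : τ (padicEmbedding q b) = padicEmbedding q b := by
    rw [← padicEmbedding_localGaloisToGlobal, hb]
  have hle : IntermediateField.adjoin ℚ_[q] {padicEmbedding q b}
      ≤ IntermediateField.fixedField (Subgroup.zpowers τ) := by
    rw [IntermediateField.adjoin_le_iff]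
    rintro y hy
    rw [Set.mem_singleton_iff] at hy
    subst hy
    rintro ⟨σ, hσ⟩
    obtain ⟨n, rfl⟩ := Subgroup.mem_zpowers_iff.1 hσ
    show (τ ^ n) (padicEmbedding q b) = padicEmbedding q b
    have hfix : τ ∈ MulAction.stabilizer (PadicAlgCl q ≃ₐ[ℚ_[q]] PadicAlgCl q)
        (padicEmbedding q b) := hτb
    exact (Subgroup.zpow_mem _ hfix n : _)
  exact hle hx ⟨τ, Subgroup.mem_zpowers τ⟩

/-- **Restriction `Gal(ℚ̄_q/ℚ_q) → Gal(ℚ̄/ℚ)` is injective.** -/
theorem localGaloisToGlobal_injective : Function.Injective (localGaloisToGlobal q) := by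
  rw [injective_iff_map_eq_one]
  intro τ hτ
  apply AlgEquiv.ext
  intro x
  obtain ⟨b, hb⟩ := exists_global_generator q x
  have := fixes_adjoin_of_fixes q τ b (by rw [hτ]; rfl) x hb
  simpa using this

/-- Every finite subextension `E/ℚ_q` of `ℚ̄_q` is covered by a finite global level. -/
theorem exists_global_level_of_local (E : IntermediateField ℚ_[q] (PadicAlgCl q))
    [FiniteDimensional ℚ_[q] E] :
    ∃ F : IntermediateField ℚ (AlgebraicClosure ℚ), FiniteDimensional ℚ F ∧
      ∀ τ : PadicAlgCl q ≃ₐ[ℚ_[q]] PadicAlgCl q,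
        localGaloisToGlobal q τ ∈ F.fixingSubgroup → τ ∈ E.fixingSubgroup := by
  obtain ⟨α, hα⟩ := Field.exists_primitive_element ℚ_[q] E
  obtain ⟨b, hb⟩ := exists_global_generator q (α : PadicAlgCl q)
  haveI : Algebra.IsAlgebraic ℚ (AlgebraicClosure ℚ) := AlgebraicClosure.isAlgebraic ℚ
  refine ⟨IntermediateField.adjoin ℚ {b},
    IntermediateField.adjoin.finiteDimensional (Algebra.IsIntegral.isIntegral b), ?_⟩
  intro τ hτ
  have hτb : localGaloisToGlobal q τ b = b :=
    (IntermediateField.mem_fixingSubgroup_iff _ _).1 hτ b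
      (IntermediateField.subset_adjoin ℚ _ (Set.mem_singleton b))
  have hτα : τ (α : PadicAlgCl q) = α := fixes_adjoin_of_fixes q τ b hτb _ hb
  rw [IntermediateField.mem_fixingSubgroup_iff]
  intro y hy
  -- `y ∈ E = ℚ_q(α)`
  have hy' : (⟨y, hy⟩ : E) ∈ IntermediateField.adjoin ℚ_[q] {α} := by rw [hα]; trivial
  have hle : IntermediateField.adjoin ℚ_[q] {(α : PadicAlgCl q)}
      ≤ IntermediateField.fixedField (Subgroup.zpowers τ) := by
    rw [IntermediateField.adjoin_le_iff]
    rintro z hz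
    rw [Set.mem_singleton_iff] at hz
    subst hz
    rintro ⟨σ, hσ⟩
    obtain ⟨n, rfl⟩ := Subgroup.mem_zpowers_iff.1 hσ
    show (τ ^ n) (α : PadicAlgCl q) = α
    have hfix : τ ∈ MulAction.stabilizer (PadicAlgCl q ≃ₐ[ℚ_[q]] PadicAlgCl q)
        (α : PadicAlgCl q) := hτα
    exact (Subgroup.zpow_mem _ hfix n : _)
  have hyα : y ∈ IntermediateField.adjoin ℚ_[q] {(α : PadicAlgCl q)} := by
    have h1 : IntermediateField.lift (IntermediateField.adjoin ℚ_[q] {α})
        = IntermediateField.adjoin ℚ_[q] {(α : PadicAlgCl q)} := by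
      rw [IntermediateField.lift_adjoin, Set.image_singleton]
    rw [← h1]
    exact (IntermediateField.mem_lift (⟨y, hy⟩ : E)).2 hy'
  exact hle hyα ⟨τ, Subgroup.mem_zpowers τ⟩

/-- Conversely every finite global level is covered by a finite local extension. -/
theorem exists_local_level_of_global (F : IntermediateField ℚ (AlgebraicClosure ℚ))
    [FiniteDimensional ℚ F] :
    ∃ E : IntermediateField ℚ_[q] (PadicAlgCl q), FiniteDimensional ℚ_[q] E ∧
      ∀ τ : PadicAlgCl q ≃ₐ[ℚ_[q]] PadicAlgCl q,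
        τ ∈ E.fixingSubgroup → localGaloisToGlobal q τ ∈ F.fixingSubgroup := by
  obtain ⟨β, hβ⟩ := Field.exists_primitive_element ℚ F
  refine ⟨IntermediateField.adjoin ℚ_[q] {padicEmbedding q (β : AlgebraicClosure ℚ)},
    IntermediateField.adjoin.finiteDimensional (Algebra.IsIntegral.isIntegral _), ?_⟩
  intro τ hτ
  have hτβ : τ (padicEmbedding q (β : AlgebraicClosure ℚ)) = padicEmbedding q β :=
    (IntermediateField.mem_fixingSubgroup_iff _ _).1 hτ _
      (IntermediateField.subset_adjoin ℚ_[q] _ (Set.mem_singleton _))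
  have hgβ : localGaloisToGlobal q τ (β : AlgebraicClosure ℚ) = β := by
    have hinj : Function.Injective (padicEmbedding q) := (padicEmbedding q).injective
    apply hinj
    rw [padicEmbedding_localGaloisToGlobal, hτβ]
  rw [IntermediateField.mem_fixingSubgroup_iff]
  intro y hy
  have hy' : (⟨y, hy⟩ : F) ∈ IntermediateField.adjoin ℚ {β} := by rw [hβ]; trivial
  have hle : IntermediateField.adjoin ℚ {(β : AlgebraicClosure ℚ)}
      ≤ IntermediateField.fixedField (Subgroup.zpowers (localGaloisToGlobal q τ)) := by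
    rw [IntermediateField.adjoin_le_iff]
    rintro z hz
    rw [Set.mem_singleton_iff] at hz
    subst hz
    rintro ⟨σ, hσ⟩
    obtain ⟨n, rfl⟩ := Subgroup.mem_zpowers_iff.1 hσ
    show ((localGaloisToGlobal q τ) ^ n) (β : AlgebraicClosure ℚ) = β
    have hfix : localGaloisToGlobal q τ ∈ MulAction.stabilizer
        (AlgebraicClosure ℚ ≃ₐ[ℚ] AlgebraicClosure ℚ) (β : AlgebraicClosure ℚ) := hgβ
    exact (Subgroup.zpow_mem _ hfix n : _)
  have hyβ : y ∈ IntermediateField.adjoin ℚ {(β : AlgebraicClosure ℚ)} := by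
    have h1 : IntermediateField.lift (IntermediateField.adjoin ℚ {β})
        = IntermediateField.adjoin ℚ {(β : AlgebraicClosure ℚ)} := by
      rw [IntermediateField.lift_adjoin, Set.image_singleton]
    rw [← h1]
    exact (IntermediateField.mem_lift (⟨y, hy⟩ : F)).2 hy'
  exact hle hyβ ⟨localGaloisToGlobal q τ, Subgroup.mem_zpowers _⟩

section LevelConstant

open groupCohomology

/-- Prelude level-constancy on the local Galois group (levels pulled back from finite global
extensions) is the same as level-constancy for finite extensions of `ℚ_q`. -/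
theorem isLevelConstant₁_local_iff {X : Type*}
    (f : (PadicAlgCl q ≃ₐ[ℚ_[q]] PadicAlgCl q) → X) :
    IsLevelConstant₁ (localGaloisToGlobal q) f ↔
      ∃ E : IntermediateField ℚ_[q] (PadicAlgCl q), FiniteDimensional ℚ_[q] E ∧
        ∀ g s : PadicAlgCl q ≃ₐ[ℚ_[q]] PadicAlgCl q, s ∈ E.fixingSubgroup → f (g * s) = f g := by
  constructor
  · rintro ⟨F, hF, h⟩
    haveI := hF
    obtain ⟨E, hE, hEF⟩ := exists_local_level_of_global q F
    exact ⟨E, hE, fun g s hs => h g s (hEF s hs)⟩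
  · rintro ⟨E, hE, h⟩
    haveI := hE
    obtain ⟨F, hF, hFE⟩ := exists_global_level_of_local q E
    exact ⟨F, hF, fun g s hs => h g s (hFE s hs)⟩

/-- Same for 2-cochains. -/
theorem isLevelConstant₂_local_iff {X : Type*}
    (f : (PadicAlgCl q ≃ₐ[ℚ_[q]] PadicAlgCl q) × (PadicAlgCl q ≃ₐ[ℚ_[q]] PadicAlgCl q) → X) :
    IsLevelConstant₂ (localGaloisToGlobal q) f ↔
      ∃ E : IntermediateField ℚ_[q] (PadicAlgCl q), FiniteDimensional ℚ_[q] E ∧
        ∀ g g' s s' : PadicAlgCl q ≃ₐ[ℚ_[q]] PadicAlgCl q, s ∈ E.fixingSubgroup →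
          s' ∈ E.fixingSubgroup → f (g * s, g' * s') = f (g, g') := by
  constructor
  · rintro ⟨F, hF, h⟩
    haveI := hF
    obtain ⟨E, hE, hEF⟩ := exists_local_level_of_global q F
    exact ⟨E, hE, fun g g' s s' hs hs' => h g g' s s' (hEF s hs) (hEF s' hs')⟩
  · rintro ⟨E, hE, h⟩
    haveI := hE
    obtain ⟨F, hF, hFE⟩ := exists_global_level_of_local q E
    exact ⟨F, hF, fun g g' s s' hs hs' => h g g' s s' (hFE s hs) (hFE s' hs')⟩

end LevelConstant

/-- `primeLocalToGlobal` is injective. -/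
theorem primeLocalToGlobal_injective (q : Nat.Primes) :
    Function.Injective (ExtCitation.primeLocalToGlobal q) := by
  letI : Fact (q : ℕ).Prime := ⟨q.2⟩
  exact localGaloisToGlobal_injective (q : ℕ)

end Fermat.Agent.S55.Bridge

end
-- ===== PACK-END S55/Bridge/Krasner.lean

-- ===== PACK-BEGIN S56/H846/FLCnt/Spec.lean
section


/-!
# Row S56, wall W-FLAT-SS, piece FL-CNT: the count (C1–C4) as ABSTRACT group theory
(helper846; blueprint `coord/S56-FLATSS-helper426.md` §3 on `origin/helper426`)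

Mathlib only.  Nothing unproved in this file (only `def … : Prop` and a `structure`).

## Dictionary (what the abstract objects are in `FL.RamCountStatement`)

* `Γ`  = Galois group of `B/A`; `Z` = trace-zero endomorphisms of `V` with `ρ = Ad ρ_V`;
* `W`  = `ker ρ_V`; `c₁ c₂` = the two cocycles (only their restriction to `W` is used:
  there they are additive, `Γ`-equivariant and jointly injective);
* for a normal subgroup `N ≤ W`, `N ≤ Γ₁`: `F N n` = the `n`-th lower ramification group of `Γ`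
  acting on the discrete valuation ring `B^N` (it contains `N`), `i N σ` = `i_{Γ/N}(σ N)`
  (junk for `σ ∈ N`); `F ⊥ n = Γ_n`, `i ⊥ = i_Γ`;  `Γ₀ = F ⊥ 0`, `Γ₁ = F ⊥ 1`;
* `τ₀ ∈ Γ₀` = a generator of tame inertia, `φ` = a Frobenius lift,
  `m = ord ψ`, `ψ = χ/χ'`, `e₀ = (p - 1) m = |ρ_V(Γ₀)|`, `ψ₀ = ψ(τ₀)`;
* `ℓ₁ ℓp ℓm` = the coordinates of `Z` in the basis `E₁₁ - E₂₂, E₁₂, E₂₁` (eigenbasis of inertia).

## Who supplies which hypothesis

* FL-SS (structure of `ρ_V`): `W_index`, `coord_inj`, `tame_*`, `frob_*`, `m_dvd`, `m_odd`,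
  `τ₀_mem`, `τ₀_pow`, `ψ₀_pow`, `card_inertia`;
* FL-BR / trivial: `W_normal`, `ρ_W`, `c*_mul`, `c*_conj`, `c_inj`;
* FL-RAM (ramification groups of a DVR with group action, applied to `B^N`):
  `wild_pgroup`, `tame_no_p` (`Γ₀/Γ₁ ↪ κˣ`), `frob_comm` (`φ` induces `x ↦ x ^ p` on `κ`, so it
  commutes with everything modulo inertia), `F_normal`, `mem_F`, `F_zero`, `F_one`, `F_one'`,
  `comm_rule` (from `θ_n(τ σ τ⁻¹) = θ₀(τ)ⁿ θ_n(σ)`, `θ₀`, `θ_n` injective),
  `quot_formula` (Serre, Local Fields IV §1 Prop. 3, with `e(B/B^N) = |N|` as `N ≤ Γ₀`);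
* FL-D + Hilbert's formula R1 (`j = m |Γ₁| + 1`): `D_bound`;
* FL-CYC (`FLCycStatement` below, applied to `θ_{p-1} : W ↪ 𝔪^{p-1}/𝔪^p`): `cyc`.
-/

set_option autoImplicit false

namespace Fermat.Agent.S56.H846.FLCnt

/-- The data of the abstract count. -/
structure Data (Γ k Z : Type) [Group Γ] [Field k] [AddCommGroup Z] [Module k Z] where
  /-- the adjoint action -/
  ρ : Γ →* Module.End k Z
  /-- the kernel of the residual representation -/
  W : Subgroup Γ
  /-- first cocycle (used on `W` only) -/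
  c₁ : Γ → Z
  /-- second cocycle (used on `W` only) -/
  c₂ : Γ → Z
  /-- `F N n`: `n`-th lower ramification group of the quotient by `N`, pulled back to `Γ` -/
  F : Subgroup Γ → ℕ → Subgroup Γ
  /-- `i N σ = i_{Γ/N}(σ N)` -/
  i : Subgroup Γ → Γ → ℕ
  /-- generator of tame inertia -/
  τ₀ : Γ
  /-- Frobenius lift -/
  φ : Γ
  /-- order of `ψ` -/
  m : ℕ
  /-- `ψ(τ₀)` -/
  ψ₀ : k
  /-- coordinate on the line fixed by inertia -/
  ℓ₁ : Z →ₗ[k] k
  /-- coordinate on the `ψ`-line -/
  ℓp : Z →ₗ[k] k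
  /-- coordinate on the `ψ⁻¹`-line -/
  ℓm : Z →ₗ[k] k
  /-- Frobenius constant -/
  a : k
  /-- Frobenius constant -/
  b : k

variable {Γ k Z : Type} [Group Γ] [Field k] [AddCommGroup Z] [Module k Z]

/-- The hypotheses of the abstract count. -/
structure Hyp (p : ℕ) (D : Data Γ k Z) : Prop where
  p_odd : p ≠ 2
  charP : CharP k p
  /- the subgroup `W` and the cocycles -/
  W_normal : D.W.Normal
  W_index : ¬ p ∣ D.W.index
  ρ_W : ∀ w ∈ D.W, D.ρ w = 1
  c₁_mul : ∀ w ∈ D.W, ∀ w' ∈ D.W, D.c₁ (w * w') = D.c₁ w + D.c₁ w'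
  c₂_mul : ∀ w ∈ D.W, ∀ w' ∈ D.W, D.c₂ (w * w') = D.c₂ w + D.c₂ w'
  c₁_conj : ∀ (g : Γ), ∀ w ∈ D.W, D.c₁ (g * w * g⁻¹) = D.ρ g (D.c₁ w)
  c₂_conj : ∀ (g : Γ), ∀ w ∈ D.W, D.c₂ (g * w * g⁻¹) = D.ρ g (D.c₂ w)
  c_inj : ∀ w ∈ D.W, D.c₁ w = 0 → D.c₂ w = 0 → w = 1
  /- the shape of `Z` -/
  coord_inj : ∀ z : Z, D.ℓ₁ z = 0 → D.ℓp z = 0 → D.ℓm z = 0 → z = 0
  tame_ℓ₁ : ∀ z, D.ℓ₁ (D.ρ D.τ₀ z) = D.ℓ₁ z
  tame_ℓp : ∀ z, D.ℓp (D.ρ D.τ₀ z) = D.ψ₀ * D.ℓp z
  tame_ℓm : ∀ z, D.ℓm (D.ρ D.τ₀ z) = D.ψ₀⁻¹ * D.ℓm z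
  frob_ℓ₁ : ∀ z, D.ℓ₁ (D.ρ D.φ z) = - D.ℓ₁ z
  frob_ℓp : ∀ z, D.ℓp (D.ρ D.φ z) = D.a * D.ℓm z
  frob_ℓm : ∀ z, D.ℓm (D.ρ D.φ z) = D.b * D.ℓp z
  /- tame inertia -/
  m_dvd : D.m ∣ p + 1
  m_odd : Odd ((p + 1) / D.m)
  τ₀_mem : D.τ₀ ∈ D.F ⊥ 0
  τ₀_pow : ∀ j : ℕ, D.τ₀ ^ j ∈ D.W ↔ (p - 1) * D.m ∣ j
  ψ₀_pow : ∀ j : ℕ, D.ψ₀ ^ j = 1 ↔ D.m ∣ j
  card_inertia : Nat.card (D.F ⊥ 0) = (p - 1) * D.m * Nat.card (D.W ⊓ D.F ⊥ 0 : Subgroup Γ)
  wild_pgroup : IsPGroup p (D.F ⊥ 1)
  tame_no_p : ∀ σ ∈ D.F ⊥ 0, σ ^ p ∈ D.F ⊥ 1 → σ ∈ D.F ⊥ 1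
  frob_comm : ∀ w ∈ D.W, D.φ * w * D.φ⁻¹ * w⁻¹ ∈ D.F ⊥ 0
  /- the ramification filtrations of the quotients `Γ/N`, `N ≤ W ∩ Γ₁` normal in `Γ` -/
  F_normal : ∀ N : Subgroup Γ, N.Normal → N ≤ D.W → N ≤ D.F ⊥ 1 → ∀ n, (D.F N n).Normal
  mem_F : ∀ N : Subgroup Γ, N.Normal → N ≤ D.W → N ≤ D.F ⊥ 1 →
    ∀ n σ, σ ∈ D.F N n ↔ σ ∈ N ∨ n + 1 ≤ D.i N σ
  F_zero : ∀ N : Subgroup Γ, N.Normal → N ≤ D.W → N ≤ D.F ⊥ 1 → D.F ⊥ 0 ≤ D.F N 0
  F_one : ∀ N : Subgroup Γ, N.Normal → N ≤ D.W → N ≤ D.F ⊥ 1 → D.F ⊥ 1 ≤ D.F N 1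
  F_one' : ∀ N : Subgroup Γ, N.Normal → N ≤ D.W → N ≤ D.F ⊥ 1 → D.F N 1 ⊓ D.F ⊥ 0 ≤ D.F ⊥ 1
  comm_rule : ∀ N : Subgroup Γ, N.Normal → N ≤ D.W → N ≤ D.F ⊥ 1 →
    ∀ n, 1 ≤ n → ∀ σ ∈ D.F N n, σ ∉ D.F N (n + 1) → ∀ τ ∈ D.F ⊥ 0,
      (τ * σ * τ⁻¹ * σ⁻¹ ∈ D.F N (n + 1) ↔ τ ^ n ∈ D.F N 1)
  quot_formula : ∀ N : Subgroup Γ, N.Normal → N ≤ D.W → N ≤ D.F ⊥ 1 → ∀ σ, σ ∉ N →
    ∑ᶠ (w : Γ) (_ : w ∈ N), D.i ⊥ (σ * w) = Nat.card N * D.i N σ
  /- the different bound (Theorem D + Hilbert's formula) -/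
  D_bound : D.F ⊥ 1 ≠ ⊥ →
    (p - 1) * ∑ᶠ (σ : Γ) (_ : σ ∈ D.F ⊥ 0) (_ : σ ≠ 1), D.i ⊥ σ ≤ p * Nat.card (D.F ⊥ 0)
  /- C4: a single break at `p - 1` makes `W` a cyclic module -/
  cyc : D.m ≠ 2 → D.W = D.F ⊥ (p - 1) → D.F ⊥ p = ⊥ →
    ∃ w₀ ∈ D.W, ∀ H : Subgroup Γ, w₀ ∈ H → (∀ h ∈ H, D.τ₀ * h * D.τ₀⁻¹ ∈ H) →
      (∀ h ∈ H, D.φ ^ 2 * h * (D.φ ^ 2)⁻¹ ∈ H) → D.W ≤ H

end Fermat.Agent.S56.H846.FLCnt

namespace Fermat.Agent.S56.H846

open FLCnt

/-- **FL-CNT** (C1–C3 + final step of the count, abstract).  Under `FLCnt.Hyp` the two cocycles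
are `k`-linearly dependent on `W`. -/
def FLCntStatement : Prop :=
  ∀ (p : ℕ) [Fact p.Prime] (Γ k Z : Type) [Group Γ] [Finite Γ] [Field k] [AddCommGroup Z]
    [Module k Z] (D : Data Γ k Z), _root_.Fermat.Agent.S56.H846.FLCnt.Hyp p D →
    ∃ a₁ a₂ : k, (a₁ ≠ 0 ∨ a₂ ≠ 0) ∧ ∀ w ∈ D.W, a₁ • D.c₁ w + a₂ • D.c₂ w = 0

/-- **FL-CYC** (C4, abstract).  `κ` a finite field of characteristic `p` (the residue field of
`B`), `θ : W ↪ κ` additive (`θ_{p-1}`), tame inertia acting through multiplication by `μ` of exact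
order `m`, `2 < m ∣ p + 1`, and Frobenius acting `p`-semilinearly.  Then `W` is generated, as a
group normalised by `τ₀` and `φ²`, by a single element. -/
def FLCycStatement : Prop :=
  ∀ (p : ℕ) [Fact p.Prime] (Γ : Type) [Group Γ] [Finite Γ] (κ : Type) [Field κ] [Finite κ]
    [CharP κ p] (W : Subgroup Γ) (τ₀ φ : Γ) (θ : Γ → κ) (μ c : κ) (m : ℕ),
    W.Normal →
    (∀ w ∈ W, ∀ w' ∈ W, θ (w * w') = θ w + θ w') →
    (∀ w ∈ W, θ w = 0 → w = 1) →
    (∀ w ∈ W, θ (τ₀ * w * τ₀⁻¹) = μ * θ w) →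
    (∀ w ∈ W, θ (φ * w * φ⁻¹) = c * θ w ^ p) →
    (∀ j : ℕ, μ ^ j = 1 ↔ m ∣ j) → m ∣ p + 1 → 2 < m →
    ∃ w₀ ∈ W, ∀ H : Subgroup Γ, w₀ ∈ H → (∀ h ∈ H, τ₀ * h * τ₀⁻¹ ∈ H) →
      (∀ h ∈ H, φ ^ 2 * h * (φ ^ 2)⁻¹ ∈ H) → W ≤ H

end Fermat.Agent.S56.H846

end
-- ===== PACK-END S56/H846/FLCnt/Spec.lean

-- ===== PACK-BEGIN S56/H914/IntVal.lean
section


/-!
# Row S56 — W-FLAT-SS, leaf INT (helper914), part 0: an abstract criterion for a subring of a
valued field to be a discrete valuation ring (Mathlib only)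

`Ω` a field, `ν : Ω → ℝ` multiplicative, `O` a subring of `Ω` of elements with `ν ≤ 1`, closed under
inverses of elements with `ν = 1`, and `ϖ ∈ O` with `0 < ν ϖ < 1` such that every nonzero element of
`O` is `ϖ ^ n * u` with `u ∈ O`, `ν u = 1`.  Then `O` is a discrete valuation ring with maximal
ideal `(ϖ)`, and `(q) = 𝔪 ^ e` whenever `ν q = ν ϖ ^ e`.

Also: `exists_generator_of_pow_mem`: if all values `ν x` (`x ≠ 0` in a multiplicatively closed set
containing inverses) satisfy `ν x ^ d = r ^ m` (`m : ℤ`) for a fixed `0 < r < 1`, `d > 0`, then the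
values are the powers of a single value.
-/

set_option autoImplicit false

open IsLocalRing

namespace Fermat.Agent.S56.H914

/-- The hypotheses of the abstract DVR criterion. -/
structure ValData {Ω : Type*} [Field Ω] (ν : Ω → ℝ) (O : Subring Ω) (ϖ : Ω) : Prop where
  map_zero : ν 0 = 0
  map_mul : ∀ x y, ν (x * y) = ν x * ν y
  pos : ∀ x, x ≠ 0 → 0 < ν x
  le_one : ∀ x ∈ O, ν x ≤ 1
  inv_mem : ∀ x ∈ O, ν x = 1 → x⁻¹ ∈ O
  ϖ_mem : ϖ ∈ O
  ϖ_ne : ϖ ≠ 0
  ϖ_lt : ν ϖ < 1
  factor : ∀ x ∈ O, x ≠ 0 → ∃ n : ℕ, ∃ u ∈ O, ν u = 1 ∧ x = ϖ ^ n * u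

namespace ValData

variable {Ω : Type*} [Field Ω] {ν : Ω → ℝ} {O : Subring Ω} {ϖ : Ω}

lemma map_one (h : ValData ν O ϖ) : ν 1 = 1 := by
  have h1 := h.map_mul 1 1
  rw [mul_one] at h1
  have h2 := h.pos 1 one_ne_zero
  have h3 : ν 1 * (ν 1 - 1) = 0 := by linear_combination -h1
  rcases mul_eq_zero.mp h3 with h4 | h4
  · exact absurd h4 h2.ne'
  · linarith

lemma map_pow (h : ValData ν O ϖ) (x : Ω) (n : ℕ) : ν (x ^ n) = ν x ^ n := by
  induction n with
  | zero => rw [pow_zero, pow_zero, h.map_one]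
  | succ n ih => rw [pow_succ, h.map_mul, ih, pow_succ]

lemma isUnit_of_eq_one (h : ValData ν O ϖ) {u : Ω} (hu : u ∈ O) (h1 : ν u = 1) :
    IsUnit (⟨u, hu⟩ : O) := by
  have hne : u ≠ 0 := by
    rintro rfl
    rw [h.map_zero] at h1
    exact zero_ne_one h1
  refine ⟨⟨⟨u, hu⟩, ⟨u⁻¹, h.inv_mem u hu h1⟩, ?_, ?_⟩, rfl⟩
  · apply Subtype.ext
    show u * u⁻¹ = 1
    exact mul_inv_cancel₀ hne
  · apply Subtype.ext
    show u⁻¹ * u = 1
    exact inv_mul_cancel₀ hne

lemma eq_one_of_isUnit (h : ValData ν O ϖ) {u : O} (hu : IsUnit u) : ν (u : Ω) = 1 := by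
  obtain ⟨⟨a, b, hab, hba⟩, rfl⟩ := hu
  have h1 : ν ((a : Ω) * (b : Ω)) = 1 := by
    have : (a : Ω) * (b : Ω) = 1 := congrArg Subtype.val hab
    rw [this, h.map_one]
  rw [h.map_mul] at h1
  have ha := h.le_one a a.2
  have hb := h.le_one b b.2
  have ha0 : 0 < ν (a : Ω) := by
    rcases eq_or_ne (a : Ω) 0 with h0 | h0
    · rw [h0, h.map_zero, zero_mul] at h1
      exact absurd h1 zero_ne_one
    · exact h.pos _ h0
  show ν (a : Ω) = 1
  nlinarith

lemma ϖ_pos (h : ValData ν O ϖ) : 0 < ν ϖ := h.pos ϖ h.ϖ_ne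

lemma pow_injective (h : ValData ν O ϖ) {m n : ℕ} (hmn : ν ϖ ^ m = ν ϖ ^ n) : m = n := by
  exact pow_right_injective₀ h.ϖ_pos h.ϖ_lt.ne hmn

lemma irreducible (h : ValData ν O ϖ) : Irreducible (⟨ϖ, h.ϖ_mem⟩ : O) := by
  refine ⟨fun hu => ?_, fun a b hab => ?_⟩
  · have := h.eq_one_of_isUnit hu
    exact h.ϖ_lt.ne this
  · have hab' : ϖ = (a : Ω) * (b : Ω) := congrArg Subtype.val hab
    have ha0 : (a : Ω) ≠ 0 := by
      rintro h0
      rw [h0, zero_mul] at hab'
      exact h.ϖ_ne hab'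
    have hb0 : (b : Ω) ≠ 0 := by
      rintro h0
      rw [h0, mul_zero] at hab'
      exact h.ϖ_ne hab'
    obtain ⟨m, u, hu, hu1, hau⟩ := h.factor a a.2 ha0
    obtain ⟨n, v, hv, hv1, hbv⟩ := h.factor b b.2 hb0
    have h1 : ν ϖ ^ 1 = ν ϖ ^ (m + n) := by
      have := congrArg ν hab'
      rw [h.map_mul, hau, hbv, h.map_mul, h.map_mul, h.map_pow, h.map_pow, hu1, hv1, mul_one,
        mul_one, ← pow_add] at this
      rw [pow_one]
      exact this
    have h2 : 1 = m + n := h.pow_injective h1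
    rcases Nat.eq_zero_or_pos m with hm | hm
    · left
      have : (a : Ω) = u := by rw [hau, hm, pow_zero, one_mul]
      have h3 : a = ⟨u, hu⟩ := Subtype.ext this
      rw [h3]
      exact h.isUnit_of_eq_one hu hu1
    · right
      have hn : n = 0 := by omega
      have : (b : Ω) = v := by rw [hbv, hn, pow_zero, one_mul]
      have h3 : b = ⟨v, hv⟩ := Subtype.ext this
      rw [h3]
      exact h.isUnit_of_eq_one hv hv1

lemma hasFactorization (h : ValData ν O ϖ) :
    IsDiscreteValuationRing.HasUnitMulPowIrreducibleFactorization O := by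
  refine ⟨⟨ϖ, h.ϖ_mem⟩, h.irreducible, fun {x} hx => ?_⟩
  have hx0 : (x : Ω) ≠ 0 := fun h0 => hx (Subtype.ext h0)
  obtain ⟨n, u, hu, hu1, hxu⟩ := h.factor x x.2 hx0
  refine ⟨n, (h.isUnit_of_eq_one hu hu1).unit, ?_⟩
  apply Subtype.ext
  show ϖ ^ n * u = x
  exact hxu.symm

/-- The abstract criterion: `O` is a discrete valuation ring. -/
theorem isDiscreteValuationRing (h : ValData ν O ϖ) : IsDiscreteValuationRing O :=
  IsDiscreteValuationRing.ofHasUnitMulPowIrreducibleFactorization h.hasFactorization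

/-- … with maximal ideal `(ϖ)`. -/
theorem maximalIdeal_eq (h : ValData ν O ϖ) :
    haveI := h.isDiscreteValuationRing
    maximalIdeal O = Ideal.span {(⟨ϖ, h.ϖ_mem⟩ : O)} := by
  haveI := h.isDiscreteValuationRing
  exact h.irreducible.maximalIdeal_eq

/-- If `ν q = ν ϖ ^ e` then `(q) = 𝔪 ^ e`. -/
theorem span_eq_maximalIdeal_pow (h : ValData ν O ϖ) {q : Ω} (hq : q ∈ O) {e : ℕ}
    (hqe : ν q = ν ϖ ^ e) :
    haveI := h.isDiscreteValuationRing
    Ideal.span {(⟨q, hq⟩ : O)} = maximalIdeal O ^ e := by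
  haveI := h.isDiscreteValuationRing
  rw [h.maximalIdeal_eq, Ideal.span_singleton_pow]
  have hq0 : q ≠ 0 := by
    rintro rfl
    rw [h.map_zero] at hqe
    exact (pow_pos h.ϖ_pos e).ne hqe
  obtain ⟨n, u, hu, hu1, hqu⟩ := h.factor q hq hq0
  have hne : n = e := by
    apply h.pow_injective
    rw [← hqe, hqu, h.map_mul, h.map_pow, hu1, mul_one]
  subst hne
  apply Ideal.span_singleton_eq_span_singleton.mpr
  refine Associated.symm ⟨(h.isUnit_of_eq_one hu hu1).unit, ?_⟩
  apply Subtype.ext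
  show ϖ ^ n * u = q
  exact hqu.symm

/-- Membership in the maximal ideal. -/
theorem mem_maximalIdeal_iff (h : ValData ν O ϖ) (x : O) :
    haveI := h.isDiscreteValuationRing
    x ∈ maximalIdeal O ↔ ν (x : Ω) < 1 := by
  haveI := h.isDiscreteValuationRing
  rw [IsLocalRing.mem_maximalIdeal, mem_nonunits_iff]
  constructor
  · intro hx
    rcases (h.le_one x x.2).lt_or_eq with h1 | h1
    · exact h1
    · exact absurd (h.isUnit_of_eq_one x.2 h1) hx
  · intro hx hu
    exact hx.ne (h.eq_one_of_isUnit hu)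

end ValData

/-- If `S ⊆ ℤ` is an additive subgroup containing `d > 0`, it is generated by some `g > 0`. -/
theorem exists_pos_generator (S : AddSubgroup ℤ) {d : ℤ} (hd : 0 < d) (hdS : d ∈ S) :
    ∃ g : ℤ, 0 < g ∧ g ∈ S ∧ ∀ m ∈ S, g ∣ m := by
  obtain ⟨a, ha⟩ := Int.subgroup_cyclic S
  have haS : a ∈ S := by
    rw [ha]
    exact AddSubgroup.mem_closure_singleton_self a
  have hdvd : ∀ m ∈ S, a ∣ m := by
    intro m hm
    rw [ha, AddSubgroup.mem_closure_singleton] at hm
    obtain ⟨n, rfl⟩ := hm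
    exact ⟨n, by rw [smul_eq_mul, mul_comm]⟩
  have ha0 : a ≠ 0 := by
    rintro rfl
    have := hdvd d hdS
    rw [zero_dvd_iff] at this
    exact hd.ne' this
  refine ⟨|a|, abs_pos.mpr ha0, ?_, fun m hm => (abs_dvd a m).mpr (hdvd m hm)⟩
  rcases abs_choice a with h | h
  · rw [h]; exact haS
  · rw [h]; exact S.neg_mem haS

end Fermat.Agent.S56.H914

end
-- ===== PACK-END S56/H914/IntVal.lean

-- ===== PACK-BEGIN S56/H914/IntFin.lean
section


/-!
# Row S56 — W-FLAT-SS, leaf INT (helper914): finiteness of a Galois extension of domains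

`moduleFinite_of_isGaloisGroup` : if a finite group `G` acts faithfully on an integrally closed
domain `B` with ring of invariants the Noetherian integrally closed domain `A`, then `B` is a
finite `A`-module.  (Mathlib only.)
-/

set_option autoImplicit false
set_option linter.style.haveILetI false

noncomputable section

namespace Fermat.Agent.S56.H914

theorem moduleFinite_of_isGaloisGroup (G A B : Type*) [Group G] [Finite G]
    [CommRing A] [IsDomain A] [IsIntegrallyClosed A] [IsNoetherianRing A]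
    [CommRing B] [IsDomain B] [IsIntegrallyClosed B]
    [Algebra A B] [FaithfulSMul A B] [MulSemiringAction G B] [IsGaloisGroup G A B] :
    Module.Finite A B := by
  letI := FractionRing.liftAlgebra A (FractionRing B)
  letI := IsFractionRing.mulSemiringAction G B (FractionRing B)
  haveI : IsGaloisGroup G (FractionRing A) (FractionRing B) := inferInstance
  haveI : FiniteDimensional (FractionRing A) (FractionRing B) :=
    IsGaloisGroup.finiteDimensional G _ _
  haveI : IsGalois (FractionRing A) (FractionRing B) := IsGaloisGroup.isGalois G _ _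
  haveI : Algebra.IsIntegral A B := Algebra.IsInvariant.isIntegral A B G
  haveI : IsIntegralClosure B A (FractionRing B) :=
    IsIntegralClosure.of_isIntegrallyClosed B A (FractionRing B)
  exact IsIntegralClosure.finite A (FractionRing A) (FractionRing B) B

end Fermat.Agent.S56.H914

end

end
-- ===== PACK-END S56/H914/IntFin.lean

-- ===== PACK-BEGIN S56/H287/StructInertia.lean
section


/-!
# S56 / LocalModel / STRUCT, steps S1 + S2 (helper287): the inertia-fixed subring

`B/A` a finite extension of discrete valuation rings, Galois with group `Γ`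
(`Algebra.IsInvariant A B Γ`, faithful action), finite residue field of `A`.
`Γ₀ := (maximalIdeal B).inertia Γ`, `B' := B^{Γ₀}` (as a subalgebra of `B` over `A`).

* `inertiaSub A B Γ`            : the subalgebra `B'`;
* `isDiscreteValuationRing_inertiaSub` : `B'` is a discrete valuation ring;
* `ramificationIdx_inertiaSub`  : `e(B'/A) = 1`;
* `card_inertia_eq`             : `|Γ₀| = e(B/A) = e(B/B')`.

Mathlib only.
-/

set_option autoImplicit false
set_option linter.unusedSectionVars false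
set_option linter.overlappingInstances false
set_option linter.unusedVariables false

open IsLocalRing

noncomputable section

namespace Fermat.Agent.S56.H287

section Basic

variable (A B : Type*) [CommRing A] [CommRing B] [Algebra A B]
  (Γ : Type*) [Group Γ] [MulSemiringAction Γ B] [SMulCommClass Γ A B]

/-- The inertia subgroup at the maximal ideal of `B`. -/
abbrev inertiaGp [IsLocalRing B] : Subgroup Γ := (maximalIdeal B).inertia Γ

/-- The inertia-fixed subalgebra `B' = B^{Γ₀}`. -/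
abbrev inertiaSub [IsLocalRing B] : Subalgebra A B :=
  FixedPoints.subalgebra A B (inertiaGp B Γ)

variable {A B Γ}

theorem mem_inertiaSub_iff [IsLocalRing B] {b : B} :
    b ∈ inertiaSub A B Γ ↔ ∀ σ ∈ inertiaGp B Γ, σ • b = b := by
  constructor
  · intro h σ hσ
    exact h ⟨σ, hσ⟩
  · intro h σ
    exact h σ.1 σ.2

/-- If `a * c = b` with `a, b` fixed and `a ≠ 0` then `c` is fixed. -/
theorem mem_inertiaSub_of_mul_eq [IsLocalRing B] [IsDomain B] {a b c : B}
    (ha : a ∈ inertiaSub A B Γ) (hb : b ∈ inertiaSub A B Γ) (ha0 : a ≠ 0) (h : a * c = b) :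
    c ∈ inertiaSub A B Γ := by
  rw [mem_inertiaSub_iff] at ha hb ⊢
  intro σ hσ
  have h1 : σ • (a * c) = σ • b := by rw [h]
  rw [smul_mul', ha σ hσ, hb σ hσ, ← h] at h1
  exact mul_left_cancel₀ ha0 h1

theorem isUnit_inertiaSub_iff [IsLocalRing B] [IsDomain B] (x : inertiaSub A B Γ) :
    IsUnit x ↔ IsUnit (x : B) := by
  constructor
  · intro h
    exact h.map (inertiaSub A B Γ).val
  · intro h
    obtain ⟨y, hy⟩ := h.exists_right_inv
    have hx0 : (x : B) ≠ 0 := h.ne_zero
    have hymem : y ∈ inertiaSub A B Γ :=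
      mem_inertiaSub_of_mul_eq x.2 (one_mem _) hx0 hy
    exact IsUnit.of_mul_eq_one ⟨y, hymem⟩ (Subtype.ext hy)

instance valuationRing_inertiaSub [IsLocalRing B] [IsDomain B] [ValuationRing B] :
    ValuationRing (inertiaSub A B Γ) := by
  rw [ValuationRing.iff_dvd_total]
  refine ⟨fun a b => ?_⟩
  by_cases ha : (a : B) = 0
  · right
    have : a = 0 := Subtype.ext ha
    rw [this]
    exact dvd_zero b
  by_cases hb : (b : B) = 0
  · left
    have : b = 0 := Subtype.ext hb
    rw [this]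
    exact dvd_zero a
  rcases ValuationRing.dvd_total (a : B) (b : B) with ⟨c, hc⟩ | ⟨c, hc⟩
  · left
    exact ⟨⟨c, mem_inertiaSub_of_mul_eq a.2 b.2 ha hc.symm⟩, Subtype.ext hc⟩
  · right
    exact ⟨⟨c, mem_inertiaSub_of_mul_eq b.2 a.2 hb hc.symm⟩, Subtype.ext hc⟩

end Basic

section DVR

variable (A B : Type*) [CommRing A] [IsDomain A] [IsDiscreteValuationRing A]
  [CommRing B] [IsDomain B] [IsDiscreteValuationRing B]
  [Algebra A B] [Module.Finite A B] [FaithfulSMul A B]
  (Γ : Type*) [Group Γ] [MulSemiringAction Γ B] [SMulCommClass Γ A B]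

instance finite_inertiaSub : Module.Finite A (inertiaSub A B Γ) := by
  have : IsNoetherian A B := isNoetherian_of_isNoetherianRing_of_finite A B
  exact Module.Finite.of_injective (inertiaSub A B Γ).val.toLinearMap Subtype.val_injective

instance isNoetherianRing_inertiaSub : IsNoetherianRing (inertiaSub A B Γ) := by
  have : IsNoetherian A (inertiaSub A B Γ) := isNoetherian_of_isNoetherianRing_of_finite A _
  exact isNoetherian_of_tower A this

instance finite_over_inertiaSub : Module.Finite (inertiaSub A B Γ) B :=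
  Module.Finite.of_restrictScalars_finite A (inertiaSub A B Γ) B

/-- A nonunit of `A` is not a unit in `B`. -/
theorem not_isUnit_algebraMap_of_mem {a : A} (ha : a ∈ maximalIdeal A) :
    ¬ IsUnit (algebraMap A B a) := by
  intro h
  have hint : Algebra.IsIntegral A B := Algebra.IsIntegral.of_finite A B
  have : IsLocalHom (algebraMap A B) := Algebra.IsIntegral.isLocalHom A B
  exact ha (isUnit_of_map_unit (algebraMap A B) a h)

theorem not_isField_inertiaSub : ¬ IsField (inertiaSub A B Γ) := by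
  intro hF
  obtain ⟨ϖ, hϖ⟩ := IsDiscreteValuationRing.exists_irreducible A
  have hmem : ϖ ∈ maximalIdeal A := hϖ.not_isUnit
  have hne : algebraMap A (inertiaSub A B Γ) ϖ ≠ 0 := by
    intro h0
    have h1 : algebraMap A B ϖ = 0 := by
      have := congrArg (inertiaSub A B Γ).val h0
      simpa using this
    exact hϖ.ne_zero (FaithfulSMul.algebraMap_injective A B (by rw [h1, map_zero]))
  obtain ⟨y, hy⟩ := hF.mul_inv_cancel hne
  apply not_isUnit_algebraMap_of_mem A B hmem
  have := congrArg (inertiaSub A B Γ).val hy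
  exact IsUnit.of_mul_eq_one (y : B) (by simpa using this)

instance isDiscreteValuationRing_inertiaSub : IsDiscreteValuationRing (inertiaSub A B Γ) := by
  have h := (IsDiscreteValuationRing.TFAE (inertiaSub A B Γ) (not_isField_inertiaSub A B Γ)).out 0 1
  exact h.mpr inferInstance

end DVR

section Galois

variable (A B : Type*) [CommRing A] [IsDomain A] [IsDiscreteValuationRing A]
  [CommRing B] [IsDomain B] [IsDiscreteValuationRing B]
  [Algebra A B] [Module.Finite A B] [FaithfulSMul A B]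
  (Γ : Type*) [Group Γ] [Finite Γ] [MulSemiringAction Γ B] [SMulCommClass Γ A B]
  [Algebra.IsInvariant A B Γ] [FaithfulSMul Γ B]

theorem isGaloisGroup_base : IsGaloisGroup Γ A B := ⟨inferInstance, inferInstance, inferInstance⟩

theorem isGaloisGroup_inertia : IsGaloisGroup (inertiaGp B Γ) (inertiaSub A B Γ) B where
  faithful := inferInstance
  commutes := inferInstance
  isInvariant := ⟨fun b hb => ⟨⟨b, hb⟩, rfl⟩⟩

instance isLocalHom_base : IsLocalHom (algebraMap A B) :=
  haveI : Algebra.IsIntegral A B := Algebra.IsIntegral.of_finite A B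
  Algebra.IsIntegral.isLocalHom A B

instance isLocalHom_top : IsLocalHom (algebraMap (inertiaSub A B Γ) B) :=
  haveI : Algebra.IsIntegral (inertiaSub A B Γ) B := Algebra.IsIntegral.of_finite _ B
  Algebra.IsIntegral.isLocalHom _ B

instance isLocalHom_bot : IsLocalHom (algebraMap A (inertiaSub A B Γ)) :=
  haveI : Algebra.IsIntegral A (inertiaSub A B Γ) := Algebra.IsIntegral.of_finite A _
  Algebra.IsIntegral.isLocalHom A _

theorem finite_residueField_ideal (R : Type*) [CommRing R] [IsLocalRing R]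
    [Finite (ResidueField R)] : Finite (maximalIdeal R).ResidueField :=
  haveI : Finite (R ⧸ maximalIdeal R) := ‹Finite (ResidueField R)›
  Finite.of_surjective _ (maximalIdeal R).bijective_algebraMap_quotient_residueField.surjective

theorem finite_residueField_inertiaSub [Finite (ResidueField A)] :
    Finite (ResidueField (inertiaSub A B Γ)) := by
  have : Module.Finite (ResidueField A) (ResidueField (inertiaSub A B Γ)) := inferInstance
  exact Module.finite_of_finite (ResidueField A)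

/-- `|Γ₀| = e(B/A)`. -/
theorem card_inertiaGp_eq [Finite (ResidueField A)] :
    Nat.card (inertiaGp B Γ) = (maximalIdeal B).ramificationIdx A := by
  have := isGaloisGroup_base A B Γ
  have := finite_residueField_ideal A
  rw [Ideal.card_inertia_eq_ramificationIdxIn (G := Γ) (maximalIdeal A) (maximalIdeal B),
    Ideal.ramificationIdxIn_eq_ramificationIdx (maximalIdeal A) (maximalIdeal B) Γ]

/-- `|Γ₀| = e(B/B')`. -/
theorem card_inertiaGp_eq' [Finite (ResidueField A)] :
    Nat.card (inertiaGp B Γ) = (maximalIdeal B).ramificationIdx (inertiaSub A B Γ) := by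
  have := isGaloisGroup_inertia A B Γ
  have := finite_residueField_inertiaSub A B Γ
  have := finite_residueField_ideal (inertiaSub A B Γ)
  have h := Ideal.card_inertia_eq_ramificationIdxIn (G := inertiaGp B Γ)
    (maximalIdeal (inertiaSub A B Γ)) (maximalIdeal B)
  rw [Ideal.ramificationIdxIn_eq_ramificationIdx (maximalIdeal (inertiaSub A B Γ))
    (maximalIdeal B) (inertiaGp B Γ)] at h
  rw [← h]
  have htop : (maximalIdeal B).inertia (inertiaGp B Γ) = ⊤ := by
    rw [eq_top_iff]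
    intro σ _
    exact Ideal.coe_mem_inertia.mp σ.2
  rw [htop]
  exact (Nat.card_congr Subgroup.topEquiv.toEquiv).symm

end Galois

section RamIdx

/-- In a discrete valuation ring `S`, if `p S = 𝔪_S ^ n` then the ramification index is `n`. -/
theorem ramificationIdx_eq_of_map_eq_pow {R S : Type*} [CommRing R] [CommRing S] [IsDomain S]
    [IsDiscreteValuationRing S] [Algebra R S] (p : Ideal R) [(maximalIdeal S).LiesOver p] {n : ℕ}
    (h : p.map (algebraMap R S) = maximalIdeal S ^ n) :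
    (maximalIdeal S).ramificationIdx R = n := by
  have hm0 : maximalIdeal S ≠ ⊥ := IsDiscreteValuationRing.not_a_field S
  have hp0 : p.map (algebraMap R S) ≠ ⊥ := by
    rw [h]
    exact pow_ne_zero n hm0
  rw [Ideal.IsDedekindDomain.ramificationIdx_eq_multiplicity p (maximalIdeal S) hp0, h]
  refine multiplicity_pow_self hm0 ?_ n
  rw [Ideal.isUnit_iff]
  exact (maximalIdeal.isMaximal S).ne_top

/-- In a discrete valuation ring `S`, `p S = 𝔪_S ^ e(S/R)` when `p S ≠ 0`. -/
theorem map_eq_pow_ramificationIdx {R S : Type*} [CommRing R] [CommRing S] [IsDomain S]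
    [IsDiscreteValuationRing S] [Algebra R S] (p : Ideal R) [(maximalIdeal S).LiesOver p]
    (hp0 : p.map (algebraMap R S) ≠ ⊥) :
    p.map (algebraMap R S) = maximalIdeal S ^ ((maximalIdeal S).ramificationIdx R) := by
  have h06 := (IsDiscreteValuationRing.TFAE S (IsDiscreteValuationRing.not_isField S)).out 0 6
  have hall : ∀ (I : Ideal S), I ≠ ⊥ → ∃ n : ℕ, I = maximalIdeal S ^ n := h06.mp inferInstance
  obtain ⟨n, hn⟩ := hall _ hp0
  rw [ramificationIdx_eq_of_map_eq_pow p hn, hn]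

/-- In a discrete valuation ring, `(x) = 𝔪 ^ n` implies `v(x) = n`. -/
theorem addVal_eq_of_span_eq_maximalIdeal_pow {S : Type*} [CommRing S] [IsDomain S]
    [IsDiscreteValuationRing S] {x : S} {n : ℕ} (h : Ideal.span {x} = maximalIdeal S ^ n) :
    IsDiscreteValuationRing.addVal S x = n := by
  obtain ⟨ϖ, hϖ⟩ := IsDiscreteValuationRing.exists_irreducible S
  rw [hϖ.maximalIdeal_eq, Ideal.span_singleton_pow, Ideal.span_singleton_eq_span_singleton] at h
  obtain ⟨u, hu⟩ := h.symm
  rw [IsDiscreteValuationRing.addVal_def x u hϖ n]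
  rw [← hu, mul_comm]

/-- In a discrete valuation ring, `v(x) = n` implies `(x) = 𝔪 ^ n`. -/
theorem span_eq_maximalIdeal_pow_of_addVal_eq {S : Type*} [CommRing S] [IsDomain S]
    [IsDiscreteValuationRing S] {x : S} {n : ℕ} (h : IsDiscreteValuationRing.addVal S x = n) :
    Ideal.span {x} = maximalIdeal S ^ n := by
  obtain ⟨ϖ, hϖ⟩ := IsDiscreteValuationRing.exists_irreducible S
  have hx0 : x ≠ 0 := by
    intro h0
    rw [h0, IsDiscreteValuationRing.addVal_zero] at h
    exact ENat.top_ne_natCast n h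
  obtain ⟨m, u, hu⟩ := IsDiscreteValuationRing.eq_unit_mul_pow_irreducible hx0 hϖ
  have hm : IsDiscreteValuationRing.addVal S x = m :=
    IsDiscreteValuationRing.addVal_def x u hϖ m hu
  have hmn : m = n := by
    rw [hm] at h
    exact_mod_cast h
  subst hmn
  rw [hϖ.maximalIdeal_eq, Ideal.span_singleton_pow, Ideal.span_singleton_eq_span_singleton, hu]
  exact associated_unit_mul_left _ _ u.isUnit

end RamIdx

section Unram

variable (A B : Type*) [CommRing A] [IsDomain A] [IsDiscreteValuationRing A]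
  [CommRing B] [IsDomain B] [IsDiscreteValuationRing B]
  [Algebra A B] [Module.Finite A B] [FaithfulSMul A B]
  (Γ : Type*) [Group Γ] [Finite Γ] [MulSemiringAction Γ B] [SMulCommClass Γ A B]
  [Algebra.IsInvariant A B Γ] [FaithfulSMul Γ B] [Finite (ResidueField A)]

/-- `e(B'/A) = 1`: the inertia-fixed subring is unramified over `A`. -/
theorem ramificationIdx_inertiaSub :
    (maximalIdeal (inertiaSub A B Γ)).ramificationIdx A = 1 := by
  have h1 := card_inertiaGp_eq A B Γ
  have h2 := card_inertiaGp_eq' A B Γ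
  have h3 := Ideal.ramificationIdx_tower (R := A) (maximalIdeal (inertiaSub A B Γ))
    (maximalIdeal B)
  have hpos : 0 < (maximalIdeal B).ramificationIdx A := Ideal.ramificationIdx_pos _ _
  rw [← h1] at h3 hpos
  rw [← h2] at h3
  have h4 : 1 * Nat.card (inertiaGp B Γ) =
      (maximalIdeal (inertiaSub A B Γ)).ramificationIdx A * Nat.card (inertiaGp B Γ) := by
    rw [one_mul]
    exact h3
  exact (Nat.eq_of_mul_eq_mul_right hpos h4).symm

/-- `𝔪_A B' = 𝔪_{B'}`. -/
theorem map_maximalIdeal_inertiaSub :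
    (maximalIdeal A).map (algebraMap A (inertiaSub A B Γ)) = maximalIdeal (inertiaSub A B Γ) := by
  have hinj : Function.Injective (algebraMap A (inertiaSub A B Γ)) := by
    intro x y hxy
    apply FaithfulSMul.algebraMap_injective A B
    have := congrArg (inertiaSub A B Γ).val hxy
    simpa using this
  have hp0 : (maximalIdeal A).map (algebraMap A (inertiaSub A B Γ)) ≠ ⊥ := by
    rw [Ne, Ideal.map_eq_bot_iff_of_injective hinj]
    exact IsDiscreteValuationRing.not_a_field A
  have := map_eq_pow_ramificationIdx (S := inertiaSub A B Γ) (maximalIdeal A) hp0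
  rw [this, ramificationIdx_inertiaSub, pow_one]

/-- `v_B(b) = e · v_{B'}(b)` for `b ∈ B'`, where `𝔪_A B = 𝔪_B ^ e`. -/
theorem addVal_coe_inertiaSub {e : ℕ}
    (he : (maximalIdeal A).map (algebraMap A B) = maximalIdeal B ^ e) (b : inertiaSub A B Γ) :
    IsDiscreteValuationRing.addVal B (b : B) =
      e • IsDiscreteValuationRing.addVal (inertiaSub A B Γ) b := by
  obtain ⟨ϖ, hϖ⟩ := IsDiscreteValuationRing.exists_irreducible A
  have hm := map_maximalIdeal_inertiaSub A B Γ
  rw [hϖ.maximalIdeal_eq, Ideal.map_span, Set.image_singleton] at hm he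
  -- `ϖ` is a uniformizer of `B'`
  have hirr : Irreducible (algebraMap A (inertiaSub A B Γ) ϖ) := by
    rw [IsDiscreteValuationRing.irreducible_iff_uniformizer, ← hm]
  have hvB : IsDiscreteValuationRing.addVal B (algebraMap A B ϖ) = e :=
    addVal_eq_of_span_eq_maximalIdeal_pow he
  have he0 : e ≠ 0 := by
    rintro rfl
    rw [pow_zero, Ideal.one_eq_top, Ideal.span_singleton_eq_top] at he
    exact not_isUnit_algebraMap_of_mem A B hϖ.not_isUnit he
  by_cases hb : b = 0
  · subst hb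
    simp [he0]
  obtain ⟨n, u, hu⟩ := IsDiscreteValuationRing.eq_unit_mul_pow_irreducible hb hirr
  rw [IsDiscreteValuationRing.addVal_def b u hirr n hu, hu]
  have hunit : IsUnit ((u : inertiaSub A B Γ) : B) := u.isUnit.map (inertiaSub A B Γ).val
  have h1 : (((u : inertiaSub A B Γ) * algebraMap A (inertiaSub A B Γ) ϖ ^ n :
      inertiaSub A B Γ) : B) = ((u : inertiaSub A B Γ) : B) * (algebraMap A B ϖ) ^ n := by
    simp
  rw [h1, IsDiscreteValuationRing.addVal_mul, IsDiscreteValuationRing.addVal_pow, hvB,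
    IsDiscreteValuationRing.addVal_eq_zero_iff.mpr hunit, zero_add]
  simp [mul_comm]

open scoped Pointwise in
theorem inertia_inertiaGp_eq_top :
    (maximalIdeal B).inertia (inertiaGp B Γ) = ⊤ := by
  rw [eq_top_iff]
  intro σ _
  exact Ideal.coe_mem_inertia.mp σ.2

open scoped Pointwise in
/-- `f(B/B') = 1`. -/
theorem inertiaDeg_inertiaSub :
    (maximalIdeal B).inertiaDeg (inertiaSub A B Γ) = 1 := by
  have := isGaloisGroup_inertia A B Γ
  have := finite_residueField_inertiaSub A B Γ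
  have := finite_residueField_ideal (inertiaSub A B Γ)
  have h := Ideal.card_stabilizer_eq_card_inertia_mul_finrank (G := inertiaGp B Γ)
    (maximalIdeal (inertiaSub A B Γ)) (maximalIdeal B)
  have hle := Ideal.inertia_le_stabilizer (M := inertiaGp B Γ) (maximalIdeal B)
  have heq := le_antisymm hle (by rw [inertia_inertiaGp_eq_top B Γ]; exact le_top)
  rw [← heq, inertia_inertiaGp_eq_top B Γ] at h
  have hpos : 0 < Nat.card (⊤ : Subgroup (inertiaGp B Γ)) := Nat.card_pos
  have h4 : Nat.card (⊤ : Subgroup (inertiaGp B Γ)) * 1 =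
      Nat.card (⊤ : Subgroup (inertiaGp B Γ)) *
        (maximalIdeal B).inertiaDeg (inertiaSub A B Γ) := by
    rw [mul_one]
    exact h
  exact (Nat.eq_of_mul_eq_mul_left hpos h4).symm

/-- **hres**: the residue fields of `B'` and `B` coincide: every `b ∈ B` is congruent modulo
`𝔪_B` to an element of `B'`. -/
theorem exists_sub_mem_maximalIdeal (b : B) :
    ∃ a : inertiaSub A B Γ, b - (a : B) ∈ maximalIdeal B := by
  have h1 := inertiaDeg_inertiaSub A B Γ
  rw [Ideal.inertiaDeg_eq_of_isMaximal (maximalIdeal (inertiaSub A B Γ)) (maximalIdeal B)] at h1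
  let : Field (inertiaSub A B Γ ⧸ maximalIdeal (inertiaSub A B Γ)) := Ideal.Quotient.field _
  let : Field (B ⧸ maximalIdeal B) := Ideal.Quotient.field _
  have h2 := Subalgebra.bot_eq_top_of_finrank_eq_one h1
  have h3 : Ideal.Quotient.mk (maximalIdeal B) b ∈
      (⊥ : Subalgebra (inertiaSub A B Γ ⧸ maximalIdeal (inertiaSub A B Γ))
        (B ⧸ maximalIdeal B)) := by
    rw [h2]
    exact Algebra.mem_top
  rw [Algebra.mem_bot] at h3
  obtain ⟨x, hx⟩ := h3
  obtain ⟨a, rfl⟩ := Ideal.Quotient.mk_surjective x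
  refine ⟨a, ?_⟩
  rw [← Ideal.Quotient.eq]
  rw [← hx]
  rfl

end Unram

end Fermat.Agent.S56.H287

end
end
-- ===== PACK-END S56/H287/StructInertia.lean

-- ===== PACK-BEGIN S56/H384/ApproxVal.lean
section


/-!
# S56 / W2-SS piece A5 (helper384): valuation-theoretic tools for `exists_point_near`

* `val_le_one_of_isIntegral` : elements integral over a ring with `v`-integral image are
  `v`-integral;
* `exists_unit_diff_finset` : in an algebraically closed valued field there are arbitrarily large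
  finite sets of integral elements with pairwise unit differences;
* `exists_avoid` : avoidance lemma (a finite family of "proper" conditions `v (φ x c) ≤ γ` on an
  integral lattice can be avoided simultaneously).
-/

set_option autoImplicit false

namespace Fermat.Agent.S56.H384

open Polynomial

section Val

variable {Ω : Type*} [Field Ω] {Γ : Type*} [LinearOrderedCommGroupWithZero Γ] (v : Valuation Ω Γ)

/-- Elements integral over a ring whose image is `v`-integral are `v`-integral. -/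
theorem val_le_one_of_isIntegral {R : Type*} [CommRing R] [Algebra R Ω]
    (hR : ∀ r : R, v (algebraMap R Ω r) ≤ 1) {y : Ω} (hy : IsIntegral R y) : v y ≤ 1 := by
  obtain ⟨p, hp, hpy⟩ := hy
  let φ : R →+* v.integer := (algebraMap R Ω).codRestrict v.integer (fun r => hR r)
  have hy' : IsIntegral v.integer y := by
    refine ⟨p.map φ, hp.map φ, ?_⟩
    rw [Polynomial.eval₂_map]
    exact hpy
  exact (Valuation.integer.integers v).mem_of_integral hy'

/-- A product of two elements `≤ 1` which equals `1` forces both factors to be `1`. -/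
theorem eq_one_of_mul_eq_one_of_le {a b : Γ} (ha : a ≤ 1) (hb : b ≤ 1) (h : a * b = 1) :
    a = 1 ∧ b = 1 := by
  constructor
  · refine le_antisymm ha ?_
    calc (1 : Γ) = a * b := h.symm
      _ ≤ a * 1 := by gcongr
      _ = a := mul_one a
  · refine le_antisymm hb ?_
    calc (1 : Γ) = a * b := h.symm
      _ ≤ 1 * b := by gcongr
      _ = b := one_mul b

/-- In an algebraically closed valued field there are arbitrarily large finite sets of integral
elements with pairwise unit differences. -/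
theorem exists_unit_diff_finset [IsAlgClosed Ω] (k : ℕ) :
    ∃ S : Finset Ω, S.card = k ∧ (∀ s ∈ S, v s ≤ 1) ∧
      ∀ s ∈ S, ∀ t ∈ S, s ≠ t → v (s - t) = 1 := by
  classical
  induction k with
  | zero => exact ⟨∅, rfl, by simp, by simp⟩
  | succ k ih =>
    obtain ⟨S, hcard, hint, hdiff⟩ := ih
    set Q : Polynomial Ω := X * ∏ s ∈ S, (X - C s) with hQ
    have hQm : Q.Monic := monic_X.mul (monic_prod_of_monic _ _ fun s _ => monic_X_sub_C s)
    have hQd : 0 < Q.degree := by
      have h1 : Q.natDegree = 1 + (∏ s ∈ S, (X - C s)).natDegree := by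
        rw [hQ, (monic_X (R := Ω)).natDegree_mul
          (monic_prod_of_monic _ _ fun s _ => monic_X_sub_C s), natDegree_X]
      exact natDegree_pos_iff_degree_pos.mp (by omega)
    obtain ⟨t, ht⟩ := IsAlgClosed.exists_root (Q - C 1) (by rw [degree_sub_C hQd]; exact hQd.ne')
    have ht' : t * ∏ s ∈ S, (t - s) = 1 := by
      have := ht
      simp only [IsRoot, hQ, eval_sub, eval_mul, eval_X, eval_prod, eval_C, sub_eq_zero] at this
      exact this
    have hvt : v t * ∏ s ∈ S, v (t - s) = 1 := by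
      rw [← map_prod, ← map_mul, ht', map_one]
    have htint : v t ≤ 1 := by
      by_contra hlt
      push Not at hlt
      have h1 : ∀ s ∈ S, 1 ≤ v (t - s) := fun s hs => by
        rw [Valuation.map_sub_eq_of_lt_left v ((hint s hs).trans_lt hlt)]
        exact hlt.le
      have h2 : (1 : Γ) ≤ ∏ s ∈ S, v (t - s) := Finset.one_le_prod' h1
      have h3 : v t ≤ v t * ∏ s ∈ S, v (t - s) := by
        calc v t = v t * 1 := (mul_one _).symm
          _ ≤ v t * ∏ s ∈ S, v (t - s) := by gcongr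
      rw [hvt] at h3
      exact absurd hlt (not_lt.mpr h3)
    have hle : ∀ s ∈ S, v (t - s) ≤ 1 := fun s hs => Valuation.map_sub_le v htint (hint s hs)
    have hprod : ∏ s ∈ S, v (t - s) = 1 :=
      (eq_one_of_mul_eq_one_of_le htint (Finset.prod_le_one' hle) hvt).2
    have hts : ∀ s ∈ S, v (t - s) = 1 := (Finset.prod_eq_one_iff_of_le_one' hle).mp hprod
    have htS : t ∉ S := by
      intro h
      have := hts t h
      simp at this
    refine ⟨insert t S, by rw [Finset.card_insert_of_notMem htS, hcard], ?_, ?_⟩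
    · intro s hs
      rcases Finset.mem_insert.mp hs with rfl | hs
      · exact htint
      · exact hint s hs
    · intro s hs s' hs' hne
      rcases Finset.mem_insert.mp hs with h1 | h1 <;>
        rcases Finset.mem_insert.mp hs' with h2 | h2
      · exact absurd (h1.trans h2.symm) hne
      · rw [h1]; exact hts s' h2
      · rw [h2, Valuation.map_sub_swap]; exact hts s h1
      · exact hdiff s h1 s' h2 hne

/-- **Avoidance lemma.** Let `M` be a lattice (closed under addition and integral scalars) in an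
`Ω`-vector space and `φ x` linear functionals.  If for each `x ∈ T` some element of `M` has
`γ < v (φ x c)`, then a single element of `M` works for all `x ∈ T`. -/
theorem exists_avoid [IsAlgClosed Ω] {V : Type*} [AddCommGroup V] [Module Ω V] (M : V → Prop)
    (hM0 : M 0) (hMadd : ∀ x y, M x → M y → M (x + y))
    (hMsmul : ∀ (s : Ω) x, v s ≤ 1 → M x → M (s • x))
    {X : Type*} (φ : X → V →ₗ[Ω] Ω) (γ : Γ) (T : Finset X)
    (hbad : ∀ x ∈ T, ∃ c, M c ∧ γ < v (φ x c)) :
    ∃ c, M c ∧ ∀ x ∈ T, γ < v (φ x c) := by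
  classical
  induction T using Finset.induction_on with
  | empty => exact ⟨0, hM0, by simp⟩
  | insert x0 T hx0 ih =>
    obtain ⟨c1, hc1M, hc1⟩ := ih (fun x hx => hbad x (Finset.mem_insert_of_mem hx))
    obtain ⟨c0, hc0M, hc0⟩ := hbad x0 (Finset.mem_insert_self _ _)
    by_cases h1 : γ < v (φ x0 c1)
    · refine ⟨c1, hc1M, fun x hx => ?_⟩
      rcases Finset.mem_insert.mp hx with rfl | hxT
      · exact h1
      · exact hc1 x hxT
    · push Not at h1
      obtain ⟨S, hScard, hSint, hSdiff⟩ := exists_unit_diff_finset v (T.card + 1)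
      let Bad : X → Finset Ω := fun x => S.filter (fun s => v (φ x (c0 + s • c1)) ≤ γ)
      have hBad1 : ∀ x ∈ T, (Bad x).card ≤ 1 := by
        intro x hx
        rw [Finset.card_le_one]
        intro s hs s' hs'
        by_contra hne
        simp only [Bad, Finset.mem_filter] at hs hs'
        have hunit := hSdiff s hs.1 s' hs'.1 hne
        have h2 : v (φ x ((s - s') • c1)) ≤ γ := by
          have e : (s - s') • c1 = (c0 + s • c1) - (c0 + s' • c1) := by rw [sub_smul]; abel
          rw [e, map_sub]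
          exact Valuation.map_sub_le v hs.2 hs'.2
        rw [map_smul, smul_eq_mul, map_mul, hunit, one_mul] at h2
        exact absurd h2 (not_le.mpr (hc1 x hx))
      have hcard : (T.biUnion Bad).card < S.card := by
        calc (T.biUnion Bad).card ≤ ∑ x ∈ T, (Bad x).card := Finset.card_biUnion_le
          _ ≤ ∑ x ∈ T, 1 := Finset.sum_le_sum hBad1
          _ = T.card := by simp
          _ < S.card := by omega
      obtain ⟨s, hsS, hsn⟩ := Finset.exists_mem_notMem_of_card_lt_card hcard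
      refine ⟨c0 + s • c1, hMadd _ _ hc0M (hMsmul s c1 (hSint s hsS) hc1M), ?_⟩
      intro x hx
      rcases Finset.mem_insert.mp hx with rfl | hxT
      · rw [map_add, map_smul, smul_eq_mul]
        have h2 : v (s * φ x c1) ≤ γ := by
          rw [map_mul]
          exact mul_le_of_le_one_of_le (hSint s hsS) h1
        rw [Valuation.map_add_eq_of_lt_left v (h2.trans_lt hc0)]
        exact hc0
      · by_contra hle
        push Not at hle
        exact hsn (Finset.mem_biUnion.mpr ⟨x, hxT, Finset.mem_filter.mpr ⟨hsS, hle⟩⟩)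

end Val

end Fermat.Agent.S56.H384

end
-- ===== PACK-END S56/H384/ApproxVal.lean

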