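import Mathlib
import Fermat.Prelude.Def_EllipticCurve_FrobeniusTrace
import Fermat.Prelude.Def_GroupCohomology_ContinuousUnramified
import Fermat.Prelude.Def_GaloisRep_Adic
import Fermat.Prelude.Def_FLTPrelim_Ramification
import Fermat.Prelude.Def_GaloisRep_Flat

-- ===== PACK-BEGIN Lib/Cheb/Spec.lean
section



/-!
# Shared library CHEB — frozen interface statements

Tier 1 ("FROB", Frobenius' density theorem, qualitative): every `σ ∈ Gal(ℚ̄/ℚ)` generates, on any
finite extension, the same cyclic group as some Frobenius element at a prime outside a given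
finite set.  Needs only the simple pole of Dedekind zeta functions.

Tier 2 (exact qualitative Chebotarev): `σ` itself is a Frobenius.  Needs Dirichlet `L`-series
over number fields (statement `CycStatement`).

All blocks prove one of the `Prop`s below, e.g. `theorem primeSum : Spec.PrimeSumStatement`.
Plan, owners, status: `coord/CHEB.md` on branch `origin/helper993`.
-/

set_option autoImplicit false

open NumberField
open scoped Pointwise

namespace Fermat.Agent.Lib.Cheb.Spec

/-- `ℚ̄`. -/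
abbrev Qb : Type := AlgebraicClosure ℚ

/-- `Gal(ℚ̄/ℚ)`. -/
abbrev GQ : Type := Qb ≃ₐ[ℚ] Qb

/-- Number of prime ideals of `𝓞 F` of absolute norm `p` (the degree-one primes above `p`). -/
noncomputable def primeCount (F : Type) [Field F] [NumberField F] (p : ℕ) : ℕ :=
  Nat.card {𝔮 : Ideal (𝓞 F) // 𝔮.IsPrime ∧ Ideal.absNorm 𝔮 = p}

/-- The decomposition group of a prime `P` of `𝓞 L` in `Gal(L/ℚ)`. -/
abbrev decomp (L : Type) [Field L] [NumberField L] (P : Ideal (𝓞 L)) :
    Subgroup (L ≃ₐ[ℚ] L) :=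
  MulAction.stabilizer (L ≃ₐ[ℚ] L) P

/-- The primes `P` of `𝓞 L` above `p` whose decomposition group is contained in `H`. -/
def primesLe (L : Type) [Field L] [NumberField L] (H : Subgroup (L ≃ₐ[ℚ] L)) (p : ℕ) :
    Set (Ideal (𝓞 L)) :=
  {P | P.IsPrime ∧ (p : 𝓞 L) ∈ P ∧ decomp L P ≤ H}

/-- `∑_{P ∣ p, D_P ≤ H} |D_P|`. -/
noncomputable def decompWeight (L : Type) [Field L] [NumberField L]
    (H : Subgroup (L ≃ₐ[ℚ] L)) (p : ℕ) : ℕ :=
  ∑ᶠ P : primesLe L H p, Nat.card (decomp L P.1)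

/-- The inertia group of `P` is trivial. -/
def InertiaTrivial (L : Type) [Field L] [NumberField L] (P : Ideal (𝓞 L)) : Prop :=
  ∀ ι : L ≃ₐ[ℚ] L, (∀ x : 𝓞 L, ι • x - x ∈ P) → ι = 1

/-! ## Tier 1 -/

/-- (Z) = F1 = W1: prime sums of degree-one primes, any number field. -/
def PrimeSumStatement : Prop :=
  ∀ (F : Type) [Field F] [NumberField F], ∃ C : ℝ, ∀ s : ℝ, 1 < s → s ≤ 2 →
    |(∑' p : Nat.Primes, (primeCount F p : ℝ) * (p : ℝ) ^ (-s)) - Real.log (1 / (s - 1))| ≤ C

/-- (B0): at most `[F:ℚ]` primes of norm `p`. -/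
def PrimeCountBoundStatement : Prop :=
  ∀ (F : Type) [Field F] [NumberField F] (p : ℕ), primeCount F p ≤ Module.finrank ℚ F

/-- (A) = F2+F3: degree-one primes of the fixed field `L^H` versus decomposition groups. -/
def CountStatement : Prop :=
  ∀ (L : Type) [Field L] [NumberField L] [IsGalois ℚ L] (H : Subgroup (L ≃ₐ[ℚ] L)),
    ∃ B : Finset ℕ, ∀ p : ℕ, p.Prime → p ∉ B →
      primeCount (IntermediateField.fixedField H) p * Nat.card H = decompWeight L H p

/-- (D) = F5: outside a finite set of primes the decomposition group is generated by an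
arithmetic Frobenius and the inertia group is trivial. -/
def FrobStatement : Prop :=
  ∀ (L : Type) [Field L] [NumberField L] [IsGalois ℚ L],
    ∃ B : Finset ℕ, ∀ p : ℕ, p.Prime → p ∉ B →
      ∀ P : Ideal (𝓞 L), P.IsPrime → (p : 𝓞 L) ∈ P →
        InertiaTrivial L P ∧
        ∃ τ : L ≃ₐ[ℚ] L, IsArithFrobAt ℤ τ P ∧ decomp L P = Subgroup.zpowers τ

/-- (M) = F4: finite-level Frobenius density theorem (qualitative). -/
def FrobFiniteStatement : Prop :=
  ∀ (L : Type) [Field L] [NumberField L] [IsGalois ℚ L] (σ : L ≃ₐ[ℚ] L) (S : Finset ℕ),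
    ∃ (p : ℕ) (P : Ideal (𝓞 L)) (τ : L ≃ₐ[ℚ] L),
      p.Prime ∧ p ∉ S ∧ P.IsPrime ∧ (p : 𝓞 L) ∈ P ∧ InertiaTrivial L P ∧
      IsArithFrobAt ℤ τ P ∧ Subgroup.zpowers τ = Subgroup.zpowers σ

/-- FROB, Prelude level: on every finite extension `E` of `ℚ` inside `ℚ̄`, `σ` and some Frobenius
element `τ` (at a prime `ℓ ∉ S`, with inertia acting trivially on `E`) are powers of each other. -/
def FrobeniusDivisionStatement : Prop :=
  ∀ (E : IntermediateField ℚ Qb), FiniteDimensional ℚ E → ∀ (σ : GQ) (S : Finset ℕ),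
    ∃ (ℓ : ℕ) (A : ValuationSubring Qb) (τ : GQ) (k j : ℕ),
      ℓ.Prime ∧ ℓ ∉ S ∧ A.LiesOverPrime ℓ ∧ A.IsFrobeniusAt τ ℓ ∧
      (∀ ι ∈ A.inertiaSubgroupIn ℚ, ∀ x ∈ E, ι x = x) ∧
      (∀ x ∈ E, τ x = (σ ^ k) x) ∧ (∀ x ∈ E, (τ ^ j) x = σ x)

/-- F6 = W5 (bridge), Tier 1. -/
def BridgeDivisionStatement : Prop :=
  FrobFiniteStatement → FrobeniusDivisionStatement

/-! ## Tier 2 -/

/-- Number of ideals of `𝓞 F` of absolute norm `n`. -/
noncomputable def idealCount (F : Type) [Field F] [NumberField F] (n : ℕ) : ℕ :=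
  Nat.card {I : Ideal (𝓞 F) // Ideal.absNorm I = n}

/-- (AN) analytic core of Tier 2: for a Dirichlet character `χ` mod `m` such that `χ ∘ N` is not
trivial on the ideals of `𝓞 F` prime to `m`, the series `L_F(s, χ ∘ N) = ∑_I χ(N I) N I ^ (-s)`
has a limit as `s → 1⁺`. -/
def DirichletLimitStatement : Prop :=
  ∀ (F : Type) [Field F] [NumberField F] (m : ℕ) [NeZero m] (χ : DirichletCharacter ℂ m),
    (∃ I : Ideal (𝓞 F), χ (Ideal.absNorm I : ZMod m) ≠ 0 ∧ χ (Ideal.absNorm I : ZMod m) ≠ 1) →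
    ∃ c : ℂ, Filter.Tendsto
      (fun s : ℝ => LSeries (fun n => χ (n : ZMod m) * (idealCount F n : ℂ)) (s : ℂ))
      (nhdsWithin 1 (Set.Ioi 1)) (nhds c)

/-- (CYC) cyclotomic case, stated inside a Galois number field `L ∋ ζ_m`: if the cyclic group
`⟨g⟩` acts faithfully on `ζ`, then `g` is an arithmetic Frobenius at a prime outside `S`. -/
def CycStatement : Prop :=
  ∀ (L : Type) [Field L] [NumberField L] [IsGalois ℚ L] (m : ℕ) (ζ : L), 0 < m →
    IsPrimitiveRoot ζ m → ∀ g : L ≃ₐ[ℚ] L, (∀ k : ℕ, (g ^ k) ζ = ζ → g ^ k = 1) →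
    ∀ S : Finset ℕ, ∃ (p : ℕ) (P : Ideal (𝓞 L)),
      p.Prime ∧ p ∉ S ∧ P.IsPrime ∧ (p : 𝓞 L) ∈ P ∧ InertiaTrivial L P ∧ IsArithFrobAt ℤ g P

/-- Finite-level qualitative Chebotarev. -/
def ChebFiniteStatement : Prop :=
  ∀ (L : Type) [Field L] [NumberField L] [IsGalois ℚ L] (σ : L ≃ₐ[ℚ] L) (S : Finset ℕ),
    ∃ (p : ℕ) (P : Ideal (𝓞 L)),
      p.Prime ∧ p ∉ S ∧ P.IsPrime ∧ (p : 𝓞 L) ∈ P ∧ InertiaTrivial L P ∧ IsArithFrobAt ℤ σ P

/-- (CROSS) field crossing (may use (D) to discard ramified primes). -/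
def CrossStatement : Prop :=
  FrobStatement → CycStatement → ChebFiniteStatement

/-- Qualitative Chebotarev, Prelude level. -/
def ChebotarevStatement : Prop :=
  ∀ (E : IntermediateField ℚ Qb), FiniteDimensional ℚ E → ∀ (σ : GQ) (S : Finset ℕ),
    ∃ (ℓ : ℕ) (A : ValuationSubring Qb) (τ : GQ),
      ℓ.Prime ∧ ℓ ∉ S ∧ A.LiesOverPrime ℓ ∧ A.IsFrobeniusAt τ ℓ ∧
      (∀ ι ∈ A.inertiaSubgroupIn ℚ, ∀ x ∈ E, ι x = x) ∧ (∀ x ∈ E, τ x = σ x)

/-- Bridge, Tier 2. -/
def BridgeStatement : Prop :=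
  ChebFiniteStatement → ChebotarevStatement

end Fermat.Agent.Lib.Cheb.Spec

end
-- ===== PACK-END Lib/Cheb/Spec.lean

-- ===== PACK-BEGIN S55/Bridge/Level.lean
section



/-!
# S55 bridge, part B2a: a representation as in S55 factors through a finite Galois level
unramified outside `S`.
-/

set_option autoImplicit false

namespace Fermat.Agent.S55.Bridge

open IntermediateField

/-- `ℚ̄/ℚ` is algebraic (for the `Algebra ℚ ℚ̄` instance found by instance search). -/
theorem isAlgebraic_Qbar : Algebra.IsAlgebraic ℚ (AlgebraicClosure ℚ) :=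
  AlgebraicClosure.isAlgebraic ℚ

/-- `ℚ̄/ℚ` is Galois (for the `Algebra ℚ ℚ̄` instance found by instance search). -/
theorem isGalois_Qbar : IsGalois ℚ (AlgebraicClosure ℚ) := by
  haveI : Algebra.IsAlgebraic ℚ (AlgebraicClosure ℚ) := isAlgebraic_Qbar
  haveI : IsAlgClosure ℚ (AlgebraicClosure ℚ) := ⟨inferInstance, inferInstance⟩
  haveI : Normal ℚ (AlgebraicClosure ℚ) := IsAlgClosure.normal ℚ (AlgebraicClosure ℚ)
  exact isGalois_iff.mpr ⟨inferInstance, inferInstance⟩

attribute [local instance] isAlgebraic_Qbar isGalois_Qbar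

/-- A subgroup of `G_ℚ` containing `G_F` for a finite `F/ℚ` and all inertia groups outside `S`
is `G_L` for a finite `L/ℚ` unramified outside `S`. -/
theorem exists_level_of_subgroup (S : Finset Nat.Primes)
    (N : Subgroup (AlgebraicClosure ℚ ≃ₐ[ℚ] AlgebraicClosure ℚ))
    (F : IntermediateField ℚ (AlgebraicClosure ℚ)) (hFfin : FiniteDimensional ℚ F)
    (hF : F.fixingSubgroup ≤ N)
    (hur : ∀ q : Nat.Primes, q ∉ S → ∀ A : ValuationSubring (AlgebraicClosure ℚ),
      A.LiesOverPrime (q : ℕ) → A.inertiaSubgroupIn ℚ ≤ N) :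
    ∃ L : IntermediateField ℚ (AlgebraicClosure ℚ),
      L.IsUnramifiedOutside S ∧ L.fixingSubgroup = N ∧ L ≤ F := by
  have hopenF : IsOpen (F.fixingSubgroup : Set (AlgebraicClosure ℚ ≃ₐ[ℚ] AlgebraicClosure ℚ)) :=
    IntermediateField.fixingSubgroup_isOpen F
  have hopen : IsOpen (N : Set (AlgebraicClosure ℚ ≃ₐ[ℚ] AlgebraicClosure ℚ)) :=
    Subgroup.isOpen_mono hF hopenF
  have hclosed : IsClosed (N : Set (AlgebraicClosure ℚ ≃ₐ[ℚ] AlgebraicClosure ℚ)) :=
    Subgroup.isClosed_of_isOpen N hopen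
  have hfix : (IntermediateField.fixedField N).fixingSubgroup = N :=
    InfiniteGalois.fixingSubgroup_fixedField ⟨N, hclosed⟩
  have hle : IntermediateField.fixedField N ≤ F := by
    rw [← InfiniteGalois.fixedField_fixingSubgroup F]
    exact IntermediateField.fixedField_antitone hF
  refine ⟨IntermediateField.fixedField N, ⟨?_, ?_⟩, hfix, hle⟩
  · exact FiniteDimensional.of_injective (IntermediateField.inclusion hle).toLinearMap
      (IntermediateField.inclusion_injective hle)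
  · intro q hq A hA
    rw [hfix]
    exact hur q hq A hA

/-- If moreover the subgroup is normal, the level is Galois over `ℚ`. -/
theorem exists_galois_level_of_subgroup (S : Finset Nat.Primes)
    (N : Subgroup (AlgebraicClosure ℚ ≃ₐ[ℚ] AlgebraicClosure ℚ)) [N.Normal]
    (F : IntermediateField ℚ (AlgebraicClosure ℚ)) (hFfin : FiniteDimensional ℚ F)
    (hF : F.fixingSubgroup ≤ N)
    (hur : ∀ q : Nat.Primes, q ∉ S → ∀ A : ValuationSubring (AlgebraicClosure ℚ),
      A.LiesOverPrime (q : ℕ) → A.inertiaSubgroupIn ℚ ≤ N) :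
    ∃ L : IntermediateField ℚ (AlgebraicClosure ℚ),
      L.IsUnramifiedOutside S ∧ IsGalois ℚ L ∧ L.fixingSubgroup = N ∧ L ≤ F := by
  obtain ⟨L, hL, hfix, hle⟩ := exists_level_of_subgroup S N F hFfin hF hur
  refine ⟨L, hL, ?_, hfix, hle⟩
  have h := (InfiniteGalois.normal_iff_isGalois L).1 (by rw [hfix]; infer_instance)
  convert h
  exact Subsingleton.elim _ _

section Rep

variable {k : Type} [Field k]
  (M : Rep k (AlgebraicClosure ℚ ≃ₐ[ℚ] AlgebraicClosure ℚ)) [FiniteDimensional k M]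

/-- Pointwise smoothness plus finite-dimensionality gives a uniform finite level. -/
theorem exists_finite_level_of_smooth
    (hsm : ∀ m : M, ∃ F : IntermediateField ℚ (AlgebraicClosure ℚ), FiniteDimensional ℚ F ∧
      ∀ s ∈ F.fixingSubgroup, M.ρ s m = m) :
    ∃ F : IntermediateField ℚ (AlgebraicClosure ℚ), FiniteDimensional ℚ F ∧
      ∀ s ∈ F.fixingSubgroup, M.ρ s = 1 := by
  classical
  choose F hFfin hFfix using hsm
  let b := Module.finBasis k M
  refine ⟨⨆ i, F (b i), ?_, ?_⟩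
  · haveI : ∀ i, FiniteDimensional ℚ (F (b i)) := fun i => hFfin (b i)
    exact IntermediateField.finiteDimensional_iSup_of_finite
  · intro s hs
    apply b.ext
    intro i
    have hle : F (b i) ≤ ⨆ i, F (b i) := le_iSup (fun i => F (b i)) i
    exact hFfix (b i) s (IntermediateField.fixingSubgroup_antitone hle hs)

/-- **B2a.** The representation `M` of S55 factors through `Gal(L/ℚ)` for a finite Galois
extension `L/ℚ` unramified outside `S`; in fact `G_L = ker ρ`. -/
theorem exists_galois_level_of_rep (S : Finset Nat.Primes)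
    (hsm : ∀ m : M, ∃ F : IntermediateField ℚ (AlgebraicClosure ℚ), FiniteDimensional ℚ F ∧
      ∀ s ∈ F.fixingSubgroup, M.ρ s m = m)
    (hMur : ∀ q : Nat.Primes, q ∉ S → ∀ A : ValuationSubring (AlgebraicClosure ℚ),
      A.LiesOverPrime (q : ℕ) → ∀ g ∈ A.inertiaSubgroupIn ℚ, M.ρ g = 1) :
    ∃ L : IntermediateField ℚ (AlgebraicClosure ℚ),
      L.IsUnramifiedOutside S ∧ IsGalois ℚ L ∧ ∀ s, s ∈ L.fixingSubgroup ↔ M.ρ s = 1 := by
  obtain ⟨F, hFfin, hF⟩ := exists_finite_level_of_smooth M hsm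
  obtain ⟨L, hL, hgal, hfix, -⟩ := exists_galois_level_of_subgroup S (MonoidHom.ker M.ρ) F hFfin
    (fun s hs => MonoidHom.mem_ker.2 (hF s hs))
    (fun q hq A hA g hg => MonoidHom.mem_ker.2 (hMur q hq A hA g hg))
  refine ⟨L, hL, hgal, fun s => ?_⟩
  rw [hfix, MonoidHom.mem_ker]

end Rep

end Fermat.Agent.S55.Bridge

end
-- ===== PACK-END S55/Bridge/Level.lean

-- ===== PACK-BEGIN Lib/Cheb/H761/Sieve.lean
section


/-!
# Euler products over the prime ideals of a Dedekind domain, sieve form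

Let `R` be a Dedekind domain and `f : Ideal R → 𝕜` a summable, completely multiplicative function
(`f (I * J) = f I * f J`, `f ⊤ = 1`).  For a set `S` of nonzero primes let `sieveSet S` be the set
of nonzero ideals divisible by no prime of `S`.  Then

* `tsum_sieve_finset` : `∑_{I ∈ sieveSet T} f I = ∏_{𝔭 ∈ T} (1 - f 𝔭) * ∑_{I ≠ 0} f I`
  for every finite set `T` of primes;
* `tendsto_tsum_sieve` : `∑_{I ∈ sieveSet T} f I → 1` along `T → all primes`;
* `tendsto_prod_one_sub` : `∏_{𝔭 ∈ T} (1 - f 𝔭) → (∑_{I ≠ 0} f I)⁻¹`, and `∑_{I ≠ 0} f I ≠ 0`.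
-/

set_option autoImplicit false

namespace Fermat.Agent.Lib.Cheb.H761

open IsDedekindDomain Filter Topology

section Sieve

set_option linter.unusedSectionVars false

variable {R : Type*} [CommRing R] [IsDedekindDomain R]

/-- nonzero ideals not divisible by any prime of `S` -/
def sieveSet (S : Set (HeightOneSpectrum R)) : Set (Ideal R) :=
  {I | I ≠ ⊥ ∧ ∀ 𝔭 ∈ S, ¬ I ≤ 𝔭.asIdeal}

lemma mem_sieveSet {S : Set (HeightOneSpectrum R)} {I : Ideal R} :
    I ∈ sieveSet S ↔ I ≠ ⊥ ∧ ∀ 𝔭 ∈ S, ¬ I ≤ 𝔭.asIdeal := Iff.rfl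

lemma mem_sieveSet_empty {I : Ideal R} :
    I ∈ sieveSet (∅ : Set (HeightOneSpectrum R)) ↔ I ≠ ⊥ := by
  simp [sieveSet]

lemma top_mem_sieveSet (S : Set (HeightOneSpectrum R)) : (⊤ : Ideal R) ∈ sieveSet S := by
  refine ⟨top_ne_bot, fun 𝔭 _ h => ?_⟩
  exact 𝔭.isPrime.ne_top (top_le_iff.mp h)

lemma sieveSet_anti {S T : Set (HeightOneSpectrum R)} (h : S ⊆ T) : sieveSet T ⊆ sieveSet S :=
  fun _ hI => ⟨hI.1, fun 𝔭 h𝔭 => hI.2 𝔭 (h h𝔭)⟩

lemma mul_mem_sieveSet {S : Set (HeightOneSpectrum R)} {𝔭 : HeightOneSpectrum R} (h𝔭 : 𝔭 ∉ S)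
    {J : Ideal R} (hJ : J ∈ sieveSet S) : 𝔭.asIdeal * J ∈ sieveSet S := by
  refine ⟨?_, fun 𝔮 h𝔮 hle => ?_⟩
  · rw [← Ideal.zero_eq_bot]
    exact mul_ne_zero (by rw [Ideal.zero_eq_bot]; exact 𝔭.ne_bot)
      (by rw [Ideal.zero_eq_bot]; exact hJ.1)
  · rcases 𝔮.isPrime.mul_le.mp hle with h | h
    · have : 𝔭 = 𝔮 := by
        apply HeightOneSpectrum.ext
        exact (𝔭.isMaximal.eq_of_le 𝔮.isPrime.ne_top h)
      exact h𝔭 (this ▸ h𝔮)
    · exact hJ.2 𝔮 h𝔮 h

lemma sieveSet_eq_union (S : Set (HeightOneSpectrum R)) {𝔭 : HeightOneSpectrum R} (h𝔭 : 𝔭 ∉ S) :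
    sieveSet S = sieveSet (insert 𝔭 S) ∪ (fun I => 𝔭.asIdeal * I) '' sieveSet S := by
  ext I
  constructor
  · intro hI
    by_cases hle : I ≤ 𝔭.asIdeal
    · right
      obtain ⟨J, rfl⟩ := Ideal.dvd_iff_le.mpr hle
      refine ⟨J, ⟨?_, fun 𝔮 h𝔮 hJ => ?_⟩, rfl⟩
      · rintro rfl
        exact hI.1 (by simp)
      · exact hI.2 𝔮 h𝔮 (Ideal.mul_le_right.trans hJ)
    · left
      refine ⟨hI.1, fun 𝔮 h𝔮 => ?_⟩
      rcases Set.mem_insert_iff.mp h𝔮 with rfl | h
      · exact hle
      · exact hI.2 𝔮 h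
  · rintro (hI | ⟨J, hJ, rfl⟩)
    · exact sieveSet_anti (Set.subset_insert _ _) hI
    · exact mul_mem_sieveSet h𝔭 hJ

lemma disjoint_sieveSet_image (S : Set (HeightOneSpectrum R)) (𝔭 : HeightOneSpectrum R) :
    Disjoint (sieveSet (insert 𝔭 S)) ((fun I => 𝔭.asIdeal * I) '' sieveSet S) := by
  rw [Set.disjoint_left]
  rintro I hI ⟨J, -, rfl⟩
  exact hI.2 𝔭 (Set.mem_insert _ _) (show 𝔭.asIdeal * J ≤ 𝔭.asIdeal from Ideal.mul_le_left)

lemma injOn_mul (S : Set (HeightOneSpectrum R)) (𝔭 : HeightOneSpectrum R) :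
    Set.InjOn (fun I => 𝔭.asIdeal * I) (sieveSet S) := by
  intro I _ J _ h
  have h0 : 𝔭.asIdeal ≠ 0 := by rw [Ideal.zero_eq_bot]; exact 𝔭.ne_bot
  exact mul_left_cancel₀ h0 h

variable {𝕜 : Type*} [NormedField 𝕜] [CompleteSpace 𝕜] {f : Ideal R → 𝕜}

/-- One sieve step. -/
theorem tsum_sieve_insert (hf : Summable f) (hmul : ∀ I J, f (I * J) = f I * f J)
    (S : Set (HeightOneSpectrum R)) {𝔭 : HeightOneSpectrum R} (h𝔭 : 𝔭 ∉ S) :
    ∑' I : sieveSet (insert 𝔭 S), f I = (1 - f 𝔭.asIdeal) * ∑' I : sieveSet S, f I := by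
  have h1 : ∑' I : sieveSet S, f I =
      ∑' I : ↥(sieveSet (insert 𝔭 S) ∪ (fun I => 𝔭.asIdeal * I) '' sieveSet S), f I :=
    tsum_congr_set_coe f (sieveSet_eq_union S h𝔭)
  rw [(hf.subtype _).tsum_union_disjoint (disjoint_sieveSet_image S 𝔭) (hf.subtype _),
    tsum_image f (injOn_mul S 𝔭)] at h1
  simp only [hmul] at h1
  rw [tsum_mul_left] at h1
  linear_combination -h1

/-- Finitely many sieve steps. -/
theorem tsum_sieve_finset (hf : Summable f) (hmul : ∀ I J, f (I * J) = f I * f J)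
    (T : Finset (HeightOneSpectrum R)) :
    ∑' I : sieveSet (T : Set (HeightOneSpectrum R)), f I =
      (∏ 𝔭 ∈ T, (1 - f 𝔭.asIdeal)) * ∑' I : sieveSet (∅ : Set (HeightOneSpectrum R)), f I := by
  classical
  induction T using Finset.induction_on with
  | empty =>
    rw [Finset.prod_empty, one_mul]
    exact tsum_congr_set_coe f (by rw [Finset.coe_empty])
  | insert 𝔭 T h𝔭 ih =>
    rw [Finset.coe_insert, tsum_sieve_insert hf hmul _ (by simpa using h𝔭), ih,
      Finset.prod_insert h𝔭, mul_assoc]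

/-- Every nonzero proper ideal is contained in a nonzero prime. -/
lemma exists_le_heightOneSpectrum {I : Ideal R} (h0 : I ≠ ⊥) (h1 : I ≠ ⊤) :
    ∃ 𝔭 : HeightOneSpectrum R, I ≤ 𝔭.asIdeal := by
  obtain ⟨M, hM, hle⟩ := Ideal.exists_le_maximal I h1
  refine ⟨⟨M, hM.isPrime, ?_⟩, hle⟩
  rintro rfl
  exact h0 (le_bot_iff.mp hle)

/-- The sieved sums tend to `1`. -/
theorem tendsto_tsum_sieve (hf : Summable f) (h1 : f ⊤ = 1) :
    Tendsto (fun T : Finset (HeightOneSpectrum R) =>
      ∑' I : sieveSet (T : Set (HeightOneSpectrum R)), f I) atTop (𝓝 1) := by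
  classical
  rw [tendsto_nhds]
  intro e he_open he1
  have he0 : (fun x : 𝕜 => 1 + x) ⁻¹' e ∈ 𝓝 (0 : 𝕜) := by
    apply (continuous_const.add continuous_id).continuousAt.preimage_mem_nhds
    simpa using he_open.mem_nhds he1
  obtain ⟨A, hA⟩ := hf.tsum_vanishing he0
  -- a prime above each nonzero proper ideal of `A`
  let g : Ideal R → Finset (HeightOneSpectrum R) := fun I =>
    if h : I ≠ ⊥ ∧ I ≠ ⊤ then {(exists_le_heightOneSpectrum h.1 h.2).choose} else ∅
  have hg : ∀ I, I ≠ ⊥ → I ≠ ⊤ → ∃ 𝔭 ∈ g I, I ≤ 𝔭.asIdeal := by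
    intro I h0 h1
    refine ⟨(exists_le_heightOneSpectrum h0 h1).choose, ?_,
      (exists_le_heightOneSpectrum h0 h1).choose_spec⟩
    simp only [g, dif_pos (And.intro h0 h1), Finset.mem_singleton]
  rw [Filter.mem_atTop_sets]
  refine ⟨A.biUnion g, fun T hT => ?_⟩
  rw [Set.mem_preimage]
  -- split off the unit ideal
  have hsplit : sieveSet (T : Set (HeightOneSpectrum R)) =
      {⊤} ∪ (sieveSet (T : Set (HeightOneSpectrum R)) \ {⊤}) := by
    rw [Set.union_sdiff_self, Set.union_eq_self_of_subset_left]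
    exact Set.singleton_subset_iff.mpr (top_mem_sieveSet _)
  have hdisj : Disjoint ({⊤} : Set (Ideal R))
      (sieveSet (T : Set (HeightOneSpectrum R)) \ {⊤}) := Set.disjoint_sdiff_right
  have hsum : ∑' I : sieveSet (T : Set (HeightOneSpectrum R)), f I =
      1 + ∑' I : ↥(sieveSet (T : Set (HeightOneSpectrum R)) \ {⊤}), f I := by
    rw [tsum_congr_set_coe f hsplit,
      (hf.subtype _).tsum_union_disjoint hdisj (hf.subtype _), tsum_singleton (⊤ : Ideal R) f, h1]
  rw [hsum]
  apply hA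
  rw [Set.disjoint_left]
  rintro I ⟨hI, hItop⟩ hIA
  obtain ⟨𝔭, h𝔭, hle⟩ := hg I hI.1 (by simpa using hItop)
  exact hI.2 𝔭 (Finset.mem_coe.mpr (hT (Finset.mem_biUnion.mpr ⟨I, hIA, h𝔭⟩))) hle

/-- The sum over all nonzero ideals is nonzero. -/
theorem tsum_sieve_empty_ne_zero (hf : Summable f) (hmul : ∀ I J, f (I * J) = f I * f J)
    (h1 : f ⊤ = 1) : ∑' I : sieveSet (∅ : Set (HeightOneSpectrum R)), f I ≠ 0 := by
  intro h0
  have h := tendsto_tsum_sieve hf h1
  simp only [tsum_sieve_finset hf hmul, h0, mul_zero] at h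
  exact zero_ne_one (tendsto_nhds_unique tendsto_const_nhds h)

/-- **Euler product**: the finite products `∏_{𝔭 ∈ T} (1 - f 𝔭)` tend to the inverse of the sum of
`f` over all nonzero ideals. -/
theorem tendsto_prod_one_sub (hf : Summable f) (hmul : ∀ I J, f (I * J) = f I * f J)
    (h1 : f ⊤ = 1) :
    Tendsto (fun T : Finset (HeightOneSpectrum R) => ∏ 𝔭 ∈ T, (1 - f 𝔭.asIdeal)) atTop
      (𝓝 (∑' I : sieveSet (∅ : Set (HeightOneSpectrum R)), f I)⁻¹) := by
  have hZ := tsum_sieve_empty_ne_zero hf hmul h1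
  have h := (tendsto_tsum_sieve hf h1).mul_const
    (∑' I : sieveSet (∅ : Set (HeightOneSpectrum R)), f I)⁻¹
  simp only [tsum_sieve_finset hf hmul, one_mul] at h
  refine h.congr fun T => ?_
  rw [mul_assoc, mul_inv_cancel₀ hZ, mul_one]

/-- **Euler product**, `HasProd` form. -/
theorem hasProd_one_sub (hf : Summable f) (hmul : ∀ I J, f (I * J) = f I * f J)
    (h1 : f ⊤ = 1) :
    HasProd (fun 𝔭 : HeightOneSpectrum R => 1 - f 𝔭.asIdeal)
      (∑' I : sieveSet (∅ : Set (HeightOneSpectrum R)), f I)⁻¹ := by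
  simpa [HasProd] using tendsto_prod_one_sub hf hmul h1

end Sieve

end Fermat.Agent.Lib.Cheb.H761

end
-- ===== PACK-END Lib/Cheb/H761/Sieve.lean

-- ===== PACK-BEGIN S53/Dict.lean
section



set_option autoImplicit false
set_option linter.unusedSectionVars false

open scoped TensorProduct

namespace Fermat.Agent.S53

/-- The absolute Galois group of `ℚ`. -/
abbrev GQ : Type := AlgebraicClosure ℚ ≃ₐ[ℚ] AlgebraicClosure ℚ

/-- `2 × 2` matrices. -/
abbrev M2 (A : Type) : Type := Matrix (Fin 2) (Fin 2) A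

/-- Matrices acting on column vectors, as a monoid homomorphism. -/
noncomputable def matEnd (A : Type) [CommRing A] : M2 A →* Module.End A (Fin 2 → A) :=
  (Matrix.toLinAlgEquiv' (R := A) (n := Fin 2)).toAlgHom.toRingHom.toMonoidHom

@[simp] lemma matEnd_apply {A : Type} [CommRing A] (P : M2 A) (v : Fin 2 → A) :
    matEnd A P v = P.mulVec v := rfl

lemma matEnd_injective (A : Type) [CommRing A] : Function.Injective (matEnd A) :=
  (Matrix.toLinAlgEquiv' (R := A) (n := Fin 2)).injective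

section Adic

variable {A : Type} [CommRing A] [IsLocalRing A]

/-- Adic continuity of a matrix-valued representation. -/
def MatCont (r : GQ →* M2 A) : Prop :=
  ∀ n : ℕ, ∃ L : IntermediateField ℚ (AlgebraicClosure ℚ), FiniteDimensional ℚ L ∧
    ∀ σ : GQ, (∀ x ∈ L, σ x = x) → ∀ i j, (r σ - 1) i j ∈ IsLocalRing.maximalIdeal A ^ n

lemma mem_smul_top_pi_iff (I : Ideal A) (w : Fin 2 → A) :
    w ∈ I • (⊤ : Submodule A (Fin 2 → A)) ↔ ∀ i, w i ∈ I := by
  constructor
  · intro hw
    refine Submodule.smul_induction_on hw ?_ ?_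
    · intro a ha v _ i
      simpa [smul_eq_mul] using I.mul_mem_right (v i) ha
    · intro x y hx hy i
      simpa using I.add_mem (hx i) (hy i)
  · intro hw
    have : w = ∑ i, w i • (Pi.single i (1 : A) : Fin 2 → A) := by
      ext j
      simp [Finset.sum_apply, Pi.single_apply]
    rw [this]
    exact Submodule.sum_mem _ fun i _ => Submodule.smul_mem_smul (hw i) Submodule.mem_top

/-- The adic Galois representation attached to a matrix-valued representation. -/
noncomputable def toAdic (r : GQ →* M2 A) (hr : MatCont r) : GaloisRepAdic A where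
  V := Fin 2 → A
  finrank_eq := by simp
  ρ := (matEnd A).comp r
  isAdicContinuous := by
    intro n
    obtain ⟨L, hL, h⟩ := hr n
    refine ⟨L, hL, fun σ hσ v => ?_⟩
    rw [mem_smul_top_pi_iff]
    intro i
    have : ((matEnd A).comp r) σ v - v = (r σ - 1).mulVec v := by
      simp [Matrix.sub_mulVec]
    rw [this]
    simp only [Matrix.mulVec, dotProduct]
    exact Ideal.sum_mem _ fun j _ => Ideal.mul_mem_right _ _ (h σ hσ i j)

@[simp] lemma toAdic_ρ_apply (r : GQ →* M2 A) (hr : MatCont r) (σ : GQ) (v : Fin 2 → A) :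
    (toAdic r hr).ρ σ v = (r σ).mulVec v := rfl

lemma repr_mem_of_mem_smul_top {V : Type} [AddCommGroup V] [Module A V]
    (b : Module.Basis (Fin 2) A V) (I : Ideal A) {w : V}
    (hw : w ∈ I • (⊤ : Submodule A V)) (i : Fin 2) : b.repr w i ∈ I := by
  refine Submodule.smul_induction_on hw ?_ ?_
  · intro a ha v _
    simpa [smul_eq_mul] using I.mul_mem_right (b.repr v i) ha
  · intro x y hx hy
    simpa using I.add_mem hx hy

/-- Every adic Galois representation is equivalent to a matrix one. -/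
theorem exists_toAdic (ρ : GaloisRepAdic A) :
    ∃ (r : GQ →* M2 A) (hr : MatCont r), ρ.IsEquiv (toAdic r hr) := by
  classical
  let b : Module.Basis (Fin 2) A ρ.V := Module.finBasisOfFinrankEq A ρ.V ρ.finrank_eq
  let r : GQ →* M2 A := (LinearMap.toMatrixAlgEquiv b).toAlgHom.toRingHom.toMonoidHom.comp ρ.ρ
  have hrσ : ∀ σ, r σ = LinearMap.toMatrix b b (ρ.ρ σ) := fun σ => rfl
  have hr : MatCont r := by
    intro n
    obtain ⟨L, hL, h⟩ := ρ.isAdicContinuous n
    refine ⟨L, hL, fun σ hσ i j => ?_⟩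
    have h1 : (r σ - 1) i j = b.repr (ρ.ρ σ (b j) - b j) i := by
      rw [hrσ, ← LinearMap.toMatrix_one b, ← map_sub, LinearMap.toMatrix_apply]
      rfl
    rw [h1]
    exact repr_mem_of_mem_smul_top b _ (h σ hσ (b j)) i
  refine ⟨r, hr, ⟨⟨b.equivFun, fun σ x => ?_⟩⟩⟩
  rw [toAdic_ρ_apply, hrσ]
  exact (LinearMap.toMatrix_mulVec_repr b b (ρ.ρ σ) x).symm

/-- The linear automorphism of `A²` given by an invertible matrix. -/
noncomputable def unitEquiv (P : (M2 A)ˣ) : (Fin 2 → A) ≃ₗ[A] (Fin 2 → A) :=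
  Matrix.toLin'OfInv (M := ((P⁻¹ : (M2 A)ˣ) : M2 A)) (M' := (P : M2 A)) (by simp) (by simp)

@[simp] lemma unitEquiv_apply (P : (M2 A)ˣ) (v : Fin 2 → A) :
    unitEquiv P v = (P : M2 A).mulVec v := rfl

/-- The invertible matrix of a linear automorphism of `A²`. -/
noncomputable def equivUnit (f : (Fin 2 → A) ≃ₗ[A] (Fin 2 → A)) : (M2 A)ˣ :=
  ⟨LinearMap.toMatrix' f.toLinearMap, LinearMap.toMatrix' f.symm.toLinearMap,
    by rw [← LinearMap.toMatrix'_comp]; simp, by rw [← LinearMap.toMatrix'_comp]; simp⟩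

lemma equivUnit_mulVec (f : (Fin 2 → A) ≃ₗ[A] (Fin 2 → A)) (v : Fin 2 → A) :
    ((equivUnit f : (M2 A)ˣ) : M2 A).mulVec v = f v := by
  show (LinearMap.toMatrix' f.toLinearMap).mulVec v = f v
  rw [LinearMap.toMatrix'_mulVec]; rfl

lemma mulVec_injective_M2 {P Q : M2 A} (h : ∀ v : Fin 2 → A, P.mulVec v = Q.mulVec v) : P = Q := by
  apply Matrix.toLin'.injective
  exact LinearMap.ext fun v => by simpa using h v

/-- Equivalence of matrix representations is conjugacy. -/
theorem toAdic_isEquiv_iff (r r' : GQ →* M2 A) (hr : MatCont r) (hr' : MatCont r') :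
    (toAdic r hr).IsEquiv (toAdic r' hr') ↔ ∃ P : (M2 A)ˣ, ∀ σ, (P : M2 A) * r σ = r' σ * P := by
  constructor
  · rintro ⟨e⟩
    let f : (Fin 2 → A) ≃ₗ[A] (Fin 2 → A) := e.toLinearEquiv
    have hf : ∀ σ x, f ((r σ).mulVec x) = (r' σ).mulVec (f x) := e.map_apply
    refine ⟨equivUnit f, fun σ => mulVec_injective_M2 fun v => ?_⟩
    rw [← Matrix.mulVec_mulVec, ← Matrix.mulVec_mulVec, equivUnit_mulVec, equivUnit_mulVec]
    exact hf σ v
  · rintro ⟨P, hP⟩
    refine ⟨⟨unitEquiv P, fun σ x => ?_⟩⟩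
    show (P : M2 A).mulVec ((r σ).mulVec x) = (r' σ).mulVec ((P : M2 A).mulVec x)
    rw [Matrix.mulVec_mulVec, Matrix.mulVec_mulVec, hP]

/-- Conjugating a matrix representation by a unit. -/
noncomputable def conjRep (P : (M2 A)ˣ) (r : GQ →* M2 A) : GQ →* M2 A where
  toFun σ := (P : M2 A) * r σ * ((P⁻¹ : (M2 A)ˣ) : M2 A)
  map_one' := by simp
  map_mul' σ τ := by
    rw [map_mul]
    simp only [mul_assoc]
    congr 2
    rw [← mul_assoc (((P⁻¹ : (M2 A)ˣ) : M2 A)), Units.inv_mul, one_mul]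

@[simp] lemma conjRep_apply (P : (M2 A)ˣ) (r : GQ →* M2 A) (σ : GQ) :
    conjRep P r σ = (P : M2 A) * r σ * ((P⁻¹ : (M2 A)ˣ) : M2 A) := rfl

lemma conjRep_mul_eq (P : (M2 A)ˣ) (r : GQ →* M2 A) (σ : GQ) :
    (P : M2 A) * r σ = conjRep P r σ * P := by
  simp [mul_assoc]

lemma entry_mul_mul_mem (I : Ideal A) (P X Q : M2 A) (hX : ∀ i j, X i j ∈ I) (i j : Fin 2) :
    (P * X * Q) i j ∈ I := by
  rw [Matrix.mul_apply]
  refine Ideal.sum_mem _ fun l _ => Ideal.mul_mem_right _ _ ?_
  rw [Matrix.mul_apply]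
  exact Ideal.sum_mem _ fun k _ => Ideal.mul_mem_left _ _ (hX k l)

lemma MatCont.conj {r : GQ →* M2 A} (hr : MatCont r) (P : (M2 A)ˣ) : MatCont (conjRep P r) := by
  intro n
  obtain ⟨L, hL, h⟩ := hr n
  refine ⟨L, hL, fun σ hσ i j => ?_⟩
  have h1 : conjRep P r σ - 1 = (P : M2 A) * (r σ - 1) * ((P⁻¹ : (M2 A)ˣ) : M2 A) := by
    simp [mul_sub, sub_mul]
  rw [h1]
  exact entry_mul_mul_mem _ _ _ _ (h σ hσ) i j

lemma toAdic_conjRep_isEquiv (r : GQ →* M2 A) (hr : MatCont r) (P : (M2 A)ˣ) :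
    (toAdic r hr).IsEquiv (toAdic (conjRep P r) (hr.conj P)) :=
  (toAdic_isEquiv_iff _ _ _ _).2 ⟨P, conjRep_mul_eq P r⟩

end Adic

section Map

variable {A B : Type} [CommRing A] [CommRing B]

/-- Push a matrix representation forward along a ring homomorphism. -/
noncomputable def mapRep (φ : A →+* B) (r : GQ →* M2 A) : GQ →* M2 B :=
  φ.mapMatrix.toMonoidHom.comp r

@[simp] lemma mapRep_apply (φ : A →+* B) (r : GQ →* M2 A) (σ : GQ) :
    mapRep φ r σ = (r σ).map φ := rfl

lemma mapRep_apply_apply (φ : A →+* B) (r : GQ →* M2 A) (σ : GQ) (i j : Fin 2) :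
    mapRep φ r σ i j = φ (r σ i j) := rfl

lemma mapRep_comp {C : Type} [CommRing C] (ψ : B →+* C) (φ : A →+* B) (r : GQ →* M2 A) :
    mapRep ψ (mapRep φ r) = mapRep (ψ.comp φ) r := by
  ext σ i j; rfl

lemma mapRep_id (r : GQ →* M2 A) : mapRep (RingHom.id A) r = r := by
  ext σ i j; rfl

lemma MatCont.map [IsLocalRing A] [IsLocalRing B] {r : GQ →* M2 A} (hr : MatCont r)
    (φ : A →+* B) (hφ : IsLocalHom φ) : MatCont (mapRep φ r) := by
  intro n
  obtain ⟨L, hL, h⟩ := hr n
  refine ⟨L, hL, fun σ hσ i j => ?_⟩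
  have hmap : (IsLocalRing.maximalIdeal A ^ n).map φ ≤ IsLocalRing.maximalIdeal B ^ n := by
    rw [Ideal.map_pow]
    exact Ideal.pow_right_mono (Ideal.map_le_iff_le_comap.mpr fun a ha =>
      Ideal.mem_comap.mpr (haveI := hφ; map_nonunit φ a ha)) n
  have h1 : (mapRep φ r σ - 1) i j = φ ((r σ - 1) i j) := by
    simp only [mapRep_apply, Matrix.sub_apply, Matrix.map_apply, map_sub]
    congr 1
    by_cases hij : i = j
    · subst hij; simp
    · simp [hij]
  rw [h1]
  exact hmap (Ideal.mem_map_of_mem φ (h σ hσ i j))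

/-- Compatibility of `piScalarRight` with base change of a matrix endomorphism. -/
lemma piScalarRight_baseChange [Algebra A B] (P : M2 A) (x : B ⊗[A] (Fin 2 → A)) :
    TensorProduct.piScalarRight A B B (Fin 2) ((matEnd A P).baseChange B x) =
      (P.map (algebraMap A B)).mulVec (TensorProduct.piScalarRight A B B (Fin 2) x) := by
  induction x using TensorProduct.induction_on with
  | zero => simp
  | tmul b v =>
    rw [LinearMap.baseChange_tmul]
    ext i
    simp only [TensorProduct.piScalarRight_apply, TensorProduct.piScalarRightHom_tmul,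
      matEnd_apply, Matrix.mulVec, dotProduct, Matrix.map_apply, Algebra.smul_def, map_sum,
      map_mul, Finset.sum_mul, mul_assoc]
  | add x y hx hy => simp only [map_add, hx, hy, Matrix.mulVec_add]

theorem baseChangeAlong_toAdic [IsLocalRing A] [IsLocalRing B] (φ : A →+* B) (hφ : IsLocalHom φ)
    (r : GQ →* M2 A) (hr : MatCont r) :
    ((toAdic r hr).baseChangeAlong φ hφ).IsEquiv (toAdic (mapRep φ r) (hr.map φ hφ)) := by
  let _ : Algebra A B := φ.toAlgebra
  let e : B ⊗[A] (Fin 2 → A) ≃ₗ[B] (Fin 2 → B) := TensorProduct.piScalarRight A B B (Fin 2)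
  refine ⟨⟨e, fun σ x => ?_⟩⟩
  exact piScalarRight_baseChange (r σ) x

end Map

section Res

variable {k : Type} [Field k]

/-- The residual Galois representation attached to a matrix-valued representation. -/
noncomputable def toRes (rb : GQ →* M2 k) (h : GaloisFactorsThroughFiniteLevel rb) :
    ResidualGaloisRep k where
  V := Fin 2 → k
  finrank_eq := by simp
  ρ := (matEnd k).comp rb
  factorsThroughFiniteLevel := by
    obtain ⟨L, hL, h1⟩ := h
    exact ⟨L, hL, fun σ hσ => by rw [MonoidHom.comp_apply, h1 σ hσ, map_one]⟩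

@[simp] lemma toRes_ρ_apply (rb : GQ →* M2 k) (h : GaloisFactorsThroughFiniteLevel rb) (σ : GQ)
    (v : Fin 2 → k) : (toRes rb h).ρ σ v = (rb σ).mulVec v := rfl

/-- Every residual Galois representation is equivalent to a matrix one. -/
theorem exists_toRes (ρ : ResidualGaloisRep k) :
    ∃ (rb : GQ →* M2 k) (h : GaloisFactorsThroughFiniteLevel rb), ρ.IsEquiv (toRes rb h) := by
  classical
  let b : Module.Basis (Fin 2) k ρ.V := Module.finBasisOfFinrankEq k ρ.V ρ.finrank_eq
  let r : GQ →* M2 k := (LinearMap.toMatrixAlgEquiv b).toAlgHom.toRingHom.toMonoidHom.comp ρ.ρ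
  have hrσ : ∀ σ, r σ = LinearMap.toMatrix b b (ρ.ρ σ) := fun σ => rfl
  have hr : GaloisFactorsThroughFiniteLevel r := by
    obtain ⟨L, hL, h⟩ := ρ.factorsThroughFiniteLevel
    exact ⟨L, hL, fun σ hσ => by rw [MonoidHom.comp_apply, h σ hσ, map_one]⟩
  refine ⟨r, hr, ⟨⟨b.equivFun, fun σ x => ?_⟩⟩⟩
  rw [toRes_ρ_apply, hrσ]
  exact (LinearMap.toMatrix_mulVec_repr b b (ρ.ρ σ) x).symm

/-- Equivalence of residual matrix representations is conjugacy. -/
theorem toRes_isEquiv_iff (r r' : GQ →* M2 k) (hr : GaloisFactorsThroughFiniteLevel r)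
    (hr' : GaloisFactorsThroughFiniteLevel r') :
    (toRes r hr).IsEquiv (toRes r' hr') ↔ ∃ P : (M2 k)ˣ, ∀ σ, (P : M2 k) * r σ = r' σ * P := by
  constructor
  · rintro ⟨e⟩
    let f : (Fin 2 → k) ≃ₗ[k] (Fin 2 → k) := e.toLinearEquiv
    have hf : ∀ σ x, f ((r σ).mulVec x) = (r' σ).mulVec (f x) := e.map_apply
    refine ⟨equivUnit f, fun σ => mulVec_injective_M2 fun v => ?_⟩
    rw [← Matrix.mulVec_mulVec, ← Matrix.mulVec_mulVec, equivUnit_mulVec, equivUnit_mulVec]
    exact hf σ v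
  · rintro ⟨P, hP⟩
    refine ⟨⟨unitEquiv P, fun σ x => ?_⟩⟩
    show (P : M2 k).mulVec ((r σ).mulVec x) = (r' σ).mulVec ((P : M2 k).mulVec x)
    rw [Matrix.mulVec_mulVec, Matrix.mulVec_mulVec, hP]

lemma factors_mapRep {k' : Type} [Field k'] (ψ : k →+* k') {rb : GQ →* M2 k}
    (h : GaloisFactorsThroughFiniteLevel rb) : GaloisFactorsThroughFiniteLevel (mapRep ψ rb) := by
  obtain ⟨L, hL, h1⟩ := h
  refine ⟨L, hL, fun σ hσ => ?_⟩
  show ψ.mapMatrix (rb σ) = 1
  rw [h1 σ hσ, map_one]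

theorem baseChangeAlong_toRes {k' : Type} [Field k'] (ψ : k →+* k') (rb : GQ →* M2 k)
    (h : GaloisFactorsThroughFiniteLevel rb) :
    ((toRes rb h).baseChangeAlong ψ).IsEquiv (toRes (mapRep ψ rb) (factors_mapRep ψ h)) := by
  let _ : Algebra k k' := ψ.toAlgebra
  let e : k' ⊗[k] (Fin 2 → k) ≃ₗ[k'] (Fin 2 → k') := TensorProduct.piScalarRight k k' k' (Fin 2)
  refine ⟨⟨e, fun σ x => ?_⟩⟩
  exact piScalarRight_baseChange (rb σ) x

end Res

section Residual

variable {A : Type} [CommRing A] [IsLocalRing A]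

lemma MatCont.factors_residue {r : GQ →* M2 A} (hr : MatCont r) :
    GaloisFactorsThroughFiniteLevel (mapRep (IsLocalRing.residue A) r) := by
  obtain ⟨L, hL, h⟩ := hr 1
  refine ⟨L, hL, fun σ hσ => ?_⟩
  ext i j
  have h1 := h σ hσ i j
  rw [pow_one, ← IsLocalRing.residue_eq_zero_iff, Matrix.sub_apply, map_sub, sub_eq_zero] at h1
  rw [mapRep_apply, Matrix.map_apply, h1]
  by_cases hij : i = j
  · subst hij; simp
  · simp [hij]

theorem residual_toAdic (r : GQ →* M2 A) (hr : MatCont r) :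
    (toAdic r hr).residual.IsEquiv
      (toRes (mapRep (IsLocalRing.residue A) r) hr.factors_residue) := by
  let e : IsLocalRing.ResidueField A ⊗[A] (Fin 2 → A) ≃ₗ[IsLocalRing.ResidueField A]
      (Fin 2 → IsLocalRing.ResidueField A) :=
    TensorProduct.piScalarRight A (IsLocalRing.ResidueField A) (IsLocalRing.ResidueField A) (Fin 2)
  refine ⟨⟨e, fun σ x => ?_⟩⟩
  exact piScalarRight_baseChange (r σ) x

end Residual

section Lift

open IsLocalRing

variable {A : Type} [CommRing A] [IsLocalRing A]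

/-- Every invertible matrix over the residue field lifts to an invertible matrix. -/
theorem exists_unit_lift (Pb : (M2 (ResidueField A))ˣ) :
    ∃ P : (M2 A)ˣ, (P : M2 A).map (residue A) = (Pb : M2 (ResidueField A)) := by
  classical
  choose f hf using fun (ij : Fin 2 × Fin 2) =>
    residue_surjective ((Pb : M2 (ResidueField A)) ij.1 ij.2)
  let P : M2 A := Matrix.of fun i j => f (i, j)
  have hP : P.map (residue A) = (Pb : M2 (ResidueField A)) := by
    ext i j
    simp [P, hf]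
  have hdet : IsUnit P.det := by
    rw [← residue_ne_zero_iff_isUnit]
    have h1 : residue A P.det = (Pb : M2 (ResidueField A)).det := by
      rw [RingHom.map_det, RingHom.mapMatrix_apply, hP]
    rw [h1]
    exact ((Matrix.isUnit_iff_isUnit_det _).1 Pb.isUnit).ne_zero
  obtain ⟨u, hu⟩ := (Matrix.isUnit_iff_isUnit_det P).2 hdet
  exact ⟨u, by rw [hu]; exact hP⟩

lemma map_unit_inv {B : Type} [CommRing B] (φ : A →+* B) (P : (M2 A)ˣ) :
    (((P⁻¹ : (M2 A)ˣ) : M2 A)).map φ = ((Units.map φ.mapMatrix.toMonoidHom P)⁻¹ : (M2 B)ˣ) := by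
  rw [← map_inv]
  rfl

variable {𝒪 : Type} [CommRing 𝒪] [IsLocalRing 𝒪] [Algebra 𝒪 A] [IsLocalHom (algebraMap 𝒪 A)]

/-- A matrix representation lifting `rb` has residual representation `ρbar`. -/
theorem residual_isEquiv_of_lift (ρbar : ResidualGaloisRep (ResidueField 𝒪))
    (rb : GQ →* M2 (ResidueField 𝒪)) (hrb : GaloisFactorsThroughFiniteLevel rb)
    (hρbar : ρbar.IsEquiv (toRes rb hrb)) (r : GQ →* M2 A) (hr : MatCont r)
    (hlift : ∀ σ, (r σ).map (residue A) = (rb σ).map (ResidueField.map (algebraMap 𝒪 A))) :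
    (toAdic r hr).residual.IsEquiv
      (ρbar.baseChangeAlong (ResidueField.map (algebraMap 𝒪 A))) := by
  obtain ⟨e1⟩ := residual_toAdic r hr
  obtain ⟨e2⟩ := baseChangeAlong_toRes (ResidueField.map (algebraMap 𝒪 A)) rb hrb
  obtain ⟨e3⟩ := hρbar
  have e4 : (toRes (mapRep (residue A) r) hr.factors_residue).IsEquiv
      (toRes (mapRep (ResidueField.map (algebraMap 𝒪 A)) rb)
        (factors_mapRep (ResidueField.map (algebraMap 𝒪 A)) hrb)) := by
    rw [toRes_isEquiv_iff]
    exact ⟨1, fun σ => by simp [hlift σ]⟩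
  obtain ⟨e4⟩ := e4
  exact ⟨(e1.trans e4).trans
    ((e3.baseChangeAlong (ResidueField.map (algebraMap 𝒪 A))).trans e2).symm⟩

/-- Every deformation of `ρbar ≅ toRes rb` is equivalent to a matrix representation
lifting `rb` on the nose. -/
theorem exists_lift_of_residual_isEquiv (ρbar : ResidualGaloisRep (ResidueField 𝒪))
    (rb : GQ →* M2 (ResidueField 𝒪)) (hrb : GaloisFactorsThroughFiniteLevel rb)
    (hρbar : ρbar.IsEquiv (toRes rb hrb)) (ρA : GaloisRepAdic A)
    (hres : ρA.residual.IsEquiv (ρbar.baseChangeAlong (ResidueField.map (algebraMap 𝒪 A)))) :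
    ∃ (r : GQ →* M2 A) (hr : MatCont r),
      (∀ σ, (r σ).map (residue A) = (rb σ).map (ResidueField.map (algebraMap 𝒪 A))) ∧
      ρA.IsEquiv (toAdic r hr) := by
  obtain ⟨r0, hr0, ⟨e0⟩⟩ := exists_toAdic ρA
  obtain ⟨e1⟩ := residual_toAdic r0 hr0
  obtain ⟨e2⟩ := baseChangeAlong_toRes (ResidueField.map (algebraMap 𝒪 A)) rb hrb
  obtain ⟨e3⟩ := hρbar
  obtain ⟨e4⟩ := hres
  have e5 : (toRes (mapRep (residue A) r0) hr0.factors_residue).IsEquiv
      (toRes (mapRep (ResidueField.map (algebraMap 𝒪 A)) rb)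
        (factors_mapRep (ResidueField.map (algebraMap 𝒪 A)) hrb)) :=
    ⟨(e1.symm.trans (e0.residual.symm.trans e4)).trans
      ((e3.baseChangeAlong (ResidueField.map (algebraMap 𝒪 A))).trans e2)⟩
  rw [toRes_isEquiv_iff] at e5
  obtain ⟨Pb, hPb⟩ := e5
  obtain ⟨P, hP⟩ := exists_unit_lift Pb
  obtain ⟨e6⟩ := toAdic_conjRep_isEquiv r0 hr0 P
  refine ⟨conjRep P r0, hr0.conj P, fun σ => ?_, ⟨e0.trans e6⟩⟩
  have h1 : (conjRep P r0 σ).map (residue A) =
      (P : M2 A).map (residue A) * (r0 σ).map (residue A) *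
        (((P⁻¹ : (M2 A)ˣ) : M2 A)).map (residue A) := by
    rw [conjRep_apply, Matrix.map_mul, Matrix.map_mul]
  have h2 : (P : M2 A).map (residue A) * (((P⁻¹ : (M2 A)ˣ) : M2 A)).map (residue A) = 1 := by
    rw [← Matrix.map_mul, Units.mul_inv]
    exact (residue A).mapMatrix.map_one
  have h3 := hPb σ
  rw [mapRep_apply, mapRep_apply, ← hP] at h3
  rw [h1, h3, mul_assoc, h2, mul_one]

end Lift

end Fermat.Agent.S53

end
-- ===== PACK-END S53/Dict.lean

-- ===== PACK-BEGIN A2/H708/Tame.lean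
section



/-!
# A2 (helper708): the tame character of an inertia group

`L/K` an algebraic field extension, `A` a valuation subring of `L`,
`τ ∈ A.inertiaSubgroupIn K` (Prelude definition).  For `c ∈ Lˣ` the quotient `τ c / c` is a
unit of `A`; its residue class `tameHom A hτ c ∈ kˣ` (`k` the residue field of `A`)

* is multiplicative in `c` (it is a monoid hom `Lˣ →* kˣ`),
* is trivial on units of `A` (`tameHom_eq_one_of_valuation_eq_one`), hence depends only on the
  valuation of `c` (`tameHom_eq_of_valuation_eq`),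
* is trivial on `K` (`tameHom_algebraMap`),
* is multiplicative in `τ` (`tameHom_mul`),
* takes values in roots of unity: `c ^ n ∈ Kˣ · Aˣ → tame(c) ^ n = 1` (`tameHom_pow_eq_one`),
* `tameHom A hτ c = 1 ↔ v (τ c - c) < v c` (`tameHom_eq_one_iff`).

Also: elementwise facts on decomposition / inertia groups for arbitrary `L/K`
(`apply_mem_iff_of_mem_decomposition`, `valuation_apply_of_mem_decomposition` (algebraic case),
`sub_mem_nonunits_of_mem_inertiaIn`).
-/

set_option autoImplicit false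

open scoped Pointwise

namespace Fermat.Agent.A2.H708

variable {K L : Type*} [Field K] [Field L] [Algebra K L] (A : ValuationSubring L)

/-- Elements of the inertia group (Prelude form) lie in the decomposition group. -/
theorem mem_decomposition_of_mem_inertiaIn {τ : L ≃ₐ[K] L} (hτ : τ ∈ A.inertiaSubgroupIn K) :
    τ ∈ A.decompositionSubgroup K := by
  obtain ⟨g, -, rfl⟩ := hτ
  exact g.2

/-- Elements of the decomposition group preserve `A`. -/
theorem apply_mem_of_mem_decomposition {τ : L ≃ₐ[K] L} (hτ : τ ∈ A.decompositionSubgroup K)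
    {x : L} (hx : x ∈ A) : τ x ∈ A := by
  have h : τ • A = A := MulAction.mem_stabilizer_iff.mp hτ
  have h1 : τ • x ∈ τ • A := ValuationSubring.smul_mem_pointwise_smul τ x A hx
  rw [h] at h1
  exact h1

/-- Elements of the decomposition group reflect `A`. -/
theorem mem_of_apply_mem_of_mem_decomposition {τ : L ≃ₐ[K] L}
    (hτ : τ ∈ A.decompositionSubgroup K) {x : L} (hx : τ x ∈ A) : x ∈ A := by
  have hinv : τ⁻¹ ∈ A.decompositionSubgroup K := inv_mem hτ
  have := apply_mem_of_mem_decomposition A hinv hx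
  have h2 : τ⁻¹ (τ x) = x := by
    show (τ⁻¹ * τ) x = x
    rw [inv_mul_cancel]; rfl
  rwa [h2] at this

theorem apply_mem_iff_of_mem_decomposition {τ : L ≃ₐ[K] L}
    (hτ : τ ∈ A.decompositionSubgroup K) {x : L} : τ x ∈ A ↔ x ∈ A :=
  ⟨mem_of_apply_mem_of_mem_decomposition A hτ, apply_mem_of_mem_decomposition A hτ⟩

/-- Elements of the decomposition group preserve the order of valuations. -/
theorem valuation_apply_le_iff_of_mem_decomposition {τ : L ≃ₐ[K] L}
    (hτ : τ ∈ A.decompositionSubgroup K) (x y : L) :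
    A.valuation (τ x) ≤ A.valuation (τ y) ↔ A.valuation x ≤ A.valuation y := by
  rcases eq_or_ne y 0 with rfl | hy
  · simp
  have hτy : τ y ≠ 0 := by simpa using hy
  have h1 : A.valuation x ≤ A.valuation y ↔ x / y ∈ A := by
    rw [← A.valuation_le_one_iff, map_div₀,
      div_le_one₀ (pos_iff_ne_zero.mpr ((Valuation.ne_zero_iff _).mpr hy))]
  have h2 : A.valuation (τ x) ≤ A.valuation (τ y) ↔ τ x / τ y ∈ A := by
    rw [← A.valuation_le_one_iff, map_div₀,
      div_le_one₀ (pos_iff_ne_zero.mpr ((Valuation.ne_zero_iff _).mpr hτy))]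
  rw [h1, h2, ← map_div₀]
  exact apply_mem_iff_of_mem_decomposition A hτ

theorem valuation_apply_lt_iff_of_mem_decomposition {τ : L ≃ₐ[K] L}
    (hτ : τ ∈ A.decompositionSubgroup K) (x y : L) :
    A.valuation (τ x) < A.valuation (τ y) ↔ A.valuation x < A.valuation y := by
  rw [← not_le, ← not_le, valuation_apply_le_iff_of_mem_decomposition A hτ]

/-- In an algebraic extension every element is fixed by a positive power of any automorphism. -/
theorem exists_pow_apply_eq [Algebra.IsAlgebraic K L] (τ : L ≃ₐ[K] L) (x : L) :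
    ∃ n : ℕ, 0 < n ∧ (τ ^ n) x = x := by
  have hfin : ((minpoly K x).rootSet L).Finite := Polynomial.rootSet_finite _ _
  have hmem : ∀ n : ℕ, (τ ^ n) x ∈ (minpoly K x).rootSet L := by
    intro n
    rw [Polynomial.mem_rootSet]
    refine ⟨minpoly.ne_zero (Algebra.IsIntegral.isIntegral x), ?_⟩
    have := Polynomial.aeval_algHom_apply ((τ ^ n : L ≃ₐ[K] L) : L →ₐ[K] L) x (minpoly K x)
    rw [minpoly.aeval, map_zero] at this
    exact this
  obtain ⟨a, b, hab, h⟩ := hfin.exists_lt_map_eq_of_forall_mem hmem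
  refine ⟨b - a, Nat.sub_pos_of_lt hab, ?_⟩
  have hb : b = (b - a) + a := by omega
  have h3 : (τ ^ a) ((τ ^ (b - a)) x) = (τ ^ a) x := by
    have : (τ ^ b) x = (τ ^ a) ((τ ^ (b - a)) x) := by
      conv_lhs => rw [hb, add_comm, pow_add]
      rfl
    rw [← this, ← h]
  exact (τ ^ a).injective h3

/-- Elements of the decomposition group preserve the valuation (algebraic extensions). -/
theorem valuation_apply_of_mem_decomposition [Algebra.IsAlgebraic K L] {τ : L ≃ₐ[K] L}
    (hτ : τ ∈ A.decompositionSubgroup K) (x : L) :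
    A.valuation (τ x) = A.valuation x := by
  obtain ⟨n, hn, hx⟩ := exists_pow_apply_eq τ x
  have hstep : ∀ k : ℕ, (τ ^ (k + 1)) x = τ ((τ ^ k) x) := by
    intro k
    rw [pow_succ']
    rfl
  rcases lt_trichotomy (A.valuation (τ x)) (A.valuation x) with h | h | h
  · exfalso
    have hk : ∀ k : ℕ, A.valuation ((τ ^ (k + 1)) x) < A.valuation x := by
      intro k
      induction k with
      | zero => simpa using h
      | succ k ih =>
        rw [hstep]
        refine lt_trans ?_ h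
        exact (valuation_apply_lt_iff_of_mem_decomposition A hτ _ _).mpr ih
    have := hk (n - 1)
    rw [Nat.sub_add_cancel hn, hx] at this
    exact lt_irrefl _ this
  · exact h
  · exfalso
    have hk : ∀ k : ℕ, A.valuation x < A.valuation ((τ ^ (k + 1)) x) := by
      intro k
      induction k with
      | zero => simpa using h
      | succ k ih =>
        rw [hstep (k + 1)]
        refine lt_trans h ?_
        exact (valuation_apply_lt_iff_of_mem_decomposition A hτ _ _).mpr ih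
    have := hk (n - 1)
    rw [Nat.sub_add_cancel hn, hx] at this
    exact lt_irrefl _ this

/-- Elements of the inertia group move elements of `A` by nonunits. -/
theorem sub_mem_nonunits_of_mem_inertiaIn {τ : L ≃ₐ[K] L} (hτ : τ ∈ A.inertiaSubgroupIn K)
    {a : L} (ha : a ∈ A) : τ a - a ∈ A.nonunits := by
  obtain ⟨ι', hι', rfl⟩ := hτ
  have h1 : ι' • IsLocalRing.residue A ⟨a, ha⟩ = IsLocalRing.residue A ⟨a, ha⟩ := by
    have := congrArg (fun f => f (IsLocalRing.residue A ⟨a, ha⟩)) (MonoidHom.mem_ker.mp hι')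
    simpa using this
  rw [← IsLocalRing.ResidueField.residue_smul, ← sub_eq_zero, ← map_sub,
    IsLocalRing.residue_eq_zero_iff, ← ValuationSubring.coe_mem_nonunits_iff] at h1
  exact h1

theorem valuation_sub_lt_one_of_mem_inertiaIn {τ : L ≃ₐ[K] L} (hτ : τ ∈ A.inertiaSubgroupIn K)
    {a : L} (ha : A.valuation a ≤ 1) : A.valuation (τ a - a) < 1 :=
  A.mem_nonunits_iff.mp
    (sub_mem_nonunits_of_mem_inertiaIn A hτ ((A.valuation_le_one_iff a).mp ha))

/-- Inertia moves every element by something of strictly smaller valuation... up to the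
valuation of the element: `v (τ a - a) < v a` for units `a` of `A`. -/
theorem valuation_sub_lt_of_mem_inertiaIn_of_unit {τ : L ≃ₐ[K] L}
    (hτ : τ ∈ A.inertiaSubgroupIn K) {a : L} (ha : A.valuation a = 1) :
    A.valuation (τ a - a) < A.valuation a := by
  rw [ha]
  exact valuation_sub_lt_one_of_mem_inertiaIn A hτ ha.le

section tame

variable [Algebra.IsAlgebraic K L]

/-- `τ c / c` is a unit of `A` for `τ` in the decomposition group. -/
theorem valuation_apply_div_self {τ : L ≃ₐ[K] L} (hτ : τ ∈ A.decompositionSubgroup K)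
    {c : L} (hc : c ≠ 0) : A.valuation (τ c / c) = 1 := by
  rw [map_div₀, valuation_apply_of_mem_decomposition A hτ,
    div_self ((Valuation.ne_zero_iff _).mpr hc)]

/-- The raw symbol `c ↦ τ c / c` as a monoid hom `Lˣ →* A.unitGroup`. -/
noncomputable def ratioHom {τ : L ≃ₐ[K] L} (hτ : τ ∈ A.decompositionSubgroup K) : Lˣ →* A.unitGroup where
  toFun c := ⟨Units.map (τ : L →* L) c / c, by
    rw [ValuationSubring.mem_unitGroup_iff]
    simpa using valuation_apply_div_self A hτ c.ne_zero⟩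
  map_one' := by
    apply Subtype.ext
    simp
  map_mul' c d := by
    apply Subtype.ext
    simp only [map_mul, Subgroup.coe_mul]
    rw [mul_div_mul_comm]

@[simp]
theorem coe_ratioHom {τ : L ≃ₐ[K] L} (hτ : τ ∈ A.decompositionSubgroup K) (c : Lˣ) :
    (((ratioHom A hτ c : A.unitGroup) : Lˣ) : L) = τ c / c := by
  simp [ratioHom]

/-- **The tame character** `Lˣ →* kˣ`, `c ↦ (τ c / c mod 𝔪_A)`, of an element `τ` of the
inertia group. -/
noncomputable def tameHom {τ : L ≃ₐ[K] L} (hτ : τ ∈ A.inertiaSubgroupIn K) :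
    Lˣ →* (IsLocalRing.ResidueField A)ˣ :=
  A.unitGroupToResidueFieldUnits.comp (ratioHom A (mem_decomposition_of_mem_inertiaIn A hτ))

/-- `tameHom c = 1 ↔ v (τ c - c) < v c`. -/
theorem tameHom_eq_one_iff {τ : L ≃ₐ[K] L} (hτ : τ ∈ A.inertiaSubgroupIn K) (c : Lˣ) :
    tameHom A hτ c = 1 ↔ A.valuation (τ c - c) < A.valuation (c : L) := by
  have hc0 : A.valuation (c : L) ≠ 0 := (Valuation.ne_zero_iff _).mpr c.ne_zero
  have h1 : tameHom A hτ c = 1 ↔
      ratioHom A (mem_decomposition_of_mem_inertiaIn A hτ) c ∈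
        A.unitGroupToResidueFieldUnits.ker := by
    rw [MonoidHom.mem_ker]; rfl
  rw [h1, ker_unitGroupToResidueFieldUnits, Subgroup.mem_comap, Subgroup.coe_subtype,
    ValuationSubring.mem_principalUnitGroup_iff, coe_ratioHom]
  have h2 : τ c / c - 1 = (τ c - c) / c := by
    field_simp
  rw [h2, map_div₀, div_lt_one₀ (pos_iff_ne_zero.mpr hc0)]
where
  ker_unitGroupToResidueFieldUnits := A.ker_unitGroupToResidueFieldUnits

/-- The tame character is trivial on units of `A`. -/
theorem tameHom_eq_one_of_valuation_eq_one {τ : L ≃ₐ[K] L} (hτ : τ ∈ A.inertiaSubgroupIn K)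
    (c : Lˣ) (hc : A.valuation (c : L) = 1) : tameHom A hτ c = 1 :=
  (tameHom_eq_one_iff A hτ c).mpr (valuation_sub_lt_of_mem_inertiaIn_of_unit A hτ hc)

/-- The tame character depends only on the valuation. -/
theorem tameHom_eq_of_valuation_eq {τ : L ≃ₐ[K] L} (hτ : τ ∈ A.inertiaSubgroupIn K)
    (c d : Lˣ) (h : A.valuation (c : L) = A.valuation (d : L)) :
    tameHom A hτ c = tameHom A hτ d := by
  have h1 : tameHom A hτ (c / d) = 1 := by
    apply tameHom_eq_one_of_valuation_eq_one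
    rw [Units.val_div_eq_div_val, map_div₀, h,
      div_self ((Valuation.ne_zero_iff _).mpr d.ne_zero)]
  rw [map_div, div_eq_one] at h1
  exact h1

/-- The tame character is trivial on the base field. -/
theorem tameHom_algebraMap {τ : L ≃ₐ[K] L} (hτ : τ ∈ A.inertiaSubgroupIn K)
    (c : Lˣ) (a : K) (hc : (c : L) = algebraMap K L a) : tameHom A hτ c = 1 := by
  rw [tameHom_eq_one_iff, hc, AlgEquiv.commutes, sub_self, map_zero, ← hc]
  exact pos_iff_ne_zero.mpr ((Valuation.ne_zero_iff _).mpr c.ne_zero)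

/-- More generally the tame character is trivial on elements fixed by `τ`. -/
theorem tameHom_eq_one_of_fixed {τ : L ≃ₐ[K] L} (hτ : τ ∈ A.inertiaSubgroupIn K)
    (c : Lˣ) (hc : τ c = c) : tameHom A hτ c = 1 := by
  rw [tameHom_eq_one_iff, hc, sub_self, map_zero]
  exact pos_iff_ne_zero.mpr ((Valuation.ne_zero_iff _).mpr c.ne_zero)

/-- Values of the tame character are roots of unity: if `c ^ n = a * u` with `a ∈ K` and `u` a
unit of `A`, then `tame(c) ^ n = 1`. -/
theorem tameHom_pow_eq_one {τ : L ≃ₐ[K] L} (hτ : τ ∈ A.inertiaSubgroupIn K)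
    (c : Lˣ) (n : ℕ) (a : K) (u : L) (hu : A.valuation u = 1)
    (h : (c : L) ^ n = algebraMap K L a * u) : tameHom A hτ c ^ n = 1 := by
  have hu0 : u ≠ 0 := by
    rintro rfl
    simp at hu
  have ha0 : algebraMap K L a ≠ 0 := by
    intro h0
    rw [h0, zero_mul] at h
    exact pow_ne_zero n c.ne_zero h
  have hcn : c ^ n = Units.mk0 _ ha0 * Units.mk0 u hu0 := by
    apply Units.ext
    simpa using h
  rw [← map_pow, hcn, map_mul, tameHom_algebraMap A hτ _ a rfl,
    tameHom_eq_one_of_valuation_eq_one A hτ _ hu, one_mul]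

/-- `στ c / c = (σ (τ c) / τ c) · (τ c / c)`. -/
theorem ratioHom_mul {σ τ : L ≃ₐ[K] L} (hσ : σ ∈ A.decompositionSubgroup K)
    (hτ : τ ∈ A.decompositionSubgroup K) (c : Lˣ) :
    ratioHom A (mul_mem hσ hτ) c =
      ratioHom A hσ (Units.map (τ : L →* L) c) * ratioHom A hτ c := by
  apply Subtype.ext
  apply Units.ext
  rw [Subgroup.coe_mul, Units.val_mul, coe_ratioHom, coe_ratioHom, coe_ratioHom]
  have hc0 : (c : L) ≠ 0 := c.ne_zero
  have hd0 : τ (c : L) ≠ 0 := by simp
  have h1 : ((Units.map (τ : L →* L) c : Lˣ) : L) = τ c := rfl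
  have h2 : (σ * τ) (c : L) = σ (τ c) := rfl
  rw [h1, h2]
  field_simp

/-- The tame character is multiplicative in `τ`. -/
theorem tameHom_mul {σ τ : L ≃ₐ[K] L} (hσ : σ ∈ A.inertiaSubgroupIn K)
    (hτ : τ ∈ A.inertiaSubgroupIn K) (c : Lˣ) :
    tameHom A (mul_mem hσ hτ) c = tameHom A hσ c * tameHom A hτ c := by
  set d : Lˣ := Units.map (τ : L →* L) c with hd
  have hdv : A.valuation (d : L) = A.valuation (c : L) :=
    valuation_apply_of_mem_decomposition A (mem_decomposition_of_mem_inertiaIn A hτ) (c : L)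
  have h1 : tameHom A hσ d = tameHom A hσ c := tameHom_eq_of_valuation_eq A hσ d c hdv
  rw [← h1]
  show A.unitGroupToResidueFieldUnits (ratioHom A _ c) = _
  rw [ratioHom_mul A (mem_decomposition_of_mem_inertiaIn A hσ)
    (mem_decomposition_of_mem_inertiaIn A hτ), map_mul]
  rfl

/-- The tame character of the inverse. -/
theorem tameHom_inv {τ : L ≃ₐ[K] L} (hτ : τ ∈ A.inertiaSubgroupIn K) (c : Lˣ) :
    tameHom A (inv_mem hτ) c = (tameHom A hτ c)⁻¹ := by
  have h1 : tameHom A (mul_mem (inv_mem hτ) hτ) c = 1 := by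
    apply tameHom_eq_one_of_fixed
    show (τ⁻¹ * τ) (c : L) = c
    rw [inv_mul_cancel]; rfl
  rw [tameHom_mul A (inv_mem hτ) hτ] at h1
  exact eq_inv_of_mul_eq_one_left h1

end tame

end Fermat.Agent.A2.H708

end
-- ===== PACK-END A2/H708/Tame.lean

-- ===== PACK-BEGIN S56/H734/Hilbert90Level.lean
section


/-!
# S56 / H734 : Hilbert 90 for cocycles of finite level on an infinite Galois group

`Ω / K` Galois (possibly infinite), `f : Gal(Ω/K) → Ω` a nowhere vanishing `1`-cocycle,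
`f (σ τ) = f σ · σ (f τ)`, which is right-invariant under the fixing subgroup of a finite
subextension `E` ("finite level").  Then `f σ = σ α / α` for some `α ≠ 0`.
Proof: Poincaré series over `Gal(E'/K)`, `E'` the normal closure of `E`, and Dedekind's
independence of characters.  Mathlib only.
-/

set_option autoImplicit false
set_option linter.style.haveILetI false

namespace Fermat.Agent.S56.H734

open IntermediateField

/-- **Hilbert 90 at finite level.** -/
theorem hilbert90_of_level {K Ω : Type*} [Field K] [Field Ω] [Algebra K Ω] [IsGalois K Ω]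
    (f : (Ω ≃ₐ[K] Ω) → Ω) (hf0 : ∀ σ, f σ ≠ 0)
    (hf : ∀ σ τ, f (σ * τ) = f σ * σ (f τ))
    (E : IntermediateField K Ω) [FiniteDimensional K E]
    (hlev : ∀ σ τ : Ω ≃ₐ[K] Ω, (∀ x ∈ E, τ x = x) → f (σ * τ) = f σ) :
    ∃ α : Ω, α ≠ 0 ∧ ∀ σ : Ω ≃ₐ[K] Ω, f σ * σ α = α := by
  classical
  -- pass to the normal closure
  let E' : IntermediateField K Ω := IntermediateField.normalClosure K E Ω
  have : Normal K E' := normalClosure.normal K E Ω
  have : FiniteDimensional K E' := normalClosure.is_finiteDimensional K E Ω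
  have hEE' : E ≤ E' := E.le_normalClosure
  let res : (Ω ≃ₐ[K] Ω) →* (E' ≃ₐ[K] E') := AlgEquiv.restrictNormalHom E'
  have hres : Function.Surjective res := AlgEquiv.restrictNormalHom_surjective Ω
  let s : (E' ≃ₐ[K] E') → (Ω ≃ₐ[K] Ω) := Function.surjInv hres
  have hs : ∀ γ, res (s γ) = γ := Function.surjInv_eq hres
  have hres_apply : ∀ (σ : Ω ≃ₐ[K] Ω) (x : E'), ((res σ x : E') : Ω) = σ (x : Ω) :=
    fun σ x => AlgEquiv.restrictNormal_commutes σ E' x
  -- `f` depends only on the restriction to `E'`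
  have hdep : ∀ σ σ' : Ω ≃ₐ[K] Ω, res σ = res σ' → f σ = f σ' := by
    intro σ σ' h
    have h0 : σ' = σ * (σ⁻¹ * σ') := by group
    rw [h0]
    symm
    apply hlev
    intro x hx
    have h1 : res (σ⁻¹ * σ') = 1 := by rw [map_mul, map_inv, h, inv_mul_cancel]
    have h2 := hres_apply (σ⁻¹ * σ') ⟨x, hEE' hx⟩
    rw [h1] at h2
    exact h2.symm
  letI : Fintype (E' ≃ₐ[K] E') := Fintype.ofFinite _
  -- Dedekind independence of the characters `γ : E' → Ω`
  let χ : (E' ≃ₐ[K] E') → (E' →* Ω) := fun γ =>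
    ((algebraMap E' Ω).comp ((γ : E' →ₐ[K] E') : E' →+* E') : E' →+* Ω)
  have hχ : Function.Injective χ := by
    intro γ γ' h
    apply AlgEquiv.ext
    intro x
    have := DFunLike.congr_fun h x
    exact (algebraMap E' Ω).injective this
  have hli : LinearIndependent Ω (fun γ : E' ≃ₐ[K] E' => (χ γ : E' → Ω)) :=
    (linearIndependent_monoidHom E' Ω).comp χ hχ
  have hne : ∑ γ : E' ≃ₐ[K] E', f (s γ) • (χ γ : E' → Ω) ≠ 0 := by
    intro h
    have := Fintype.linearIndependent_iff.1 hli (fun γ => f (s γ)) h 1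
    exact hf0 _ this
  obtain ⟨θ, hθ⟩ : ∃ θ : E', ∑ γ : E' ≃ₐ[K] E', f (s γ) * ((γ θ : E') : Ω) ≠ 0 := by
    by_contra hcon
    push Not at hcon
    apply hne
    funext θ
    simpa [χ] using hcon θ
  refine ⟨_, hθ, fun τ => ?_⟩
  rw [map_sum, Finset.mul_sum]
  have key : ∀ γ : E' ≃ₐ[K] E', f τ * τ (f (s γ) * ((γ θ : E') : Ω)) =
      f (s (res τ * γ)) * (((res τ * γ) θ : E') : Ω) := by
    intro γ
    have h1 : f (s (res τ * γ)) = f (τ * s γ) := by
      apply hdep
      rw [hs, map_mul, hs]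
    rw [h1, hf, map_mul, ← mul_assoc]
    congr 1
    rw [AlgEquiv.mul_apply, hres_apply]
  simp only [key]
  exact Fintype.sum_bijective (fun γ => res τ * γ) (Group.mulLeft_bijective _) _ _ (fun γ => rfl)

end Fermat.Agent.S56.H734

end
-- ===== PACK-END S56/H734/Hilbert90Level.lean

-- ===== PACK-BEGIN S56/H254/FlatMod.lean
section



/-!
# S56 / W-FLAT, bridge piece FL-BR (core): flat Galois modules (helper254)

The Prelude's `GaloisRepAdic.IsFlatAt` says: every finite quotient `V ⧸ I V` of the representation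
is, as a `G_ℚ`-module, the group of `ℚ̄`-points of a finite flat commutative (= cocommutative Hopf
algebra) group scheme over `ℤ_(p) = GaloisRep.ratLocalizedAt p`.  We isolate the property of ONE
module:

* `IsFlatMod p X act` — the additive group `X` with the action `act : G_ℚ → X → X` is the group
  of `ℚ̄`-points of a finite flat cocommutative Hopf algebra over `ℤ_(p)`;
* `isFlatAt_iff` — `ρ.IsFlatAt p ↔ (finite residue field) ∧ ∀ I of finite index,
  IsFlatMod p (V ⧸ I V) (levelAction I)`  (definitional);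
* `IsFlatMod.of_equiv` — transport along an equivariant additive isomorphism;
* `IsFlatMod.prod` — (PROD) the product of two flat modules is flat (`H₁ ⊗ H₂`);
* `isIntegral_point`, `point_mem_valuationSubring` — (INT) points are integral: they take values
  in every valuation subring `P` of `ℚ̄` lying over `p`.

Everything is sorry-free; only Mathlib + the Prelude are used.
-/

set_option autoImplicit false

open scoped TensorProduct
open WithConv

noncomputable section

namespace Fermat.Agent.S56.H254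

local notation "Qb" => AlgebraicClosure ℚ
local notation "GQ" => (AlgebraicClosure ℚ ≃ₐ[ℚ] AlgebraicClosure ℚ)
local notation "Zloc" => GaloisRep.ratLocalizedAt

/-- The additive group `X` with the `G_ℚ`-action `act` is the group of `ℚ̄`-points of a finite
flat cocommutative Hopf algebra over `ℤ_(p)`. -/
def IsFlatMod (p : ℕ) (X : Type) [AddCommGroup X] (act : GQ → X → X) : Prop :=
  ∃ (H : Type) (_ : CommRing H) (_ : HopfAlgebra (Zloc p) H),
    Module.Finite (Zloc p) H ∧ Module.Flat (Zloc p) H ∧ Coalgebra.IsCocomm (Zloc p) H ∧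
    ∃ e : WithConv (H →ₐ[Zloc p] Qb) ≃ X,
      (∀ f g : WithConv (H →ₐ[Zloc p] Qb), e (f * g) = e f + e g) ∧
      ∀ (σ : GQ) (f g : WithConv (H →ₐ[Zloc p] Qb)),
        (∀ h : H, g h = σ (f h)) → e g = act σ (e f)

/-- The Prelude's `IsFlatAt` in terms of `IsFlatMod` (definitional unfolding). -/
theorem isFlatAt_iff {A : Type} [CommRing A] [IsLocalRing A] (ρ : GaloisRepAdic A) (p : ℕ) :
    ρ.IsFlatAt p ↔ Finite (IsLocalRing.ResidueField A) ∧ ∀ I : Ideal A, Finite (A ⧸ I) →
      IsFlatMod p (ρ.V ⧸ (I • (⊤ : Submodule A ρ.V))) (fun σ => ρ.levelAction I σ) :=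
  Iff.rfl

section transport

variable {p : ℕ} {X Y : Type} [AddCommGroup X] [AddCommGroup Y]

/-- Transport of flatness along an equivariant additive isomorphism. -/
theorem IsFlatMod.of_equiv {act : GQ → X → X} (h : IsFlatMod p X act) (φ : X ≃+ Y)
    (act' : GQ → Y → Y) (hφ : ∀ σ x, φ (act σ x) = act' σ (φ x)) : IsFlatMod p Y act' := by
  obtain ⟨H, i1, i2, hfin, hflat, hco, e, hadd, heq⟩ := h
  refine ⟨H, i1, i2, hfin, hflat, hco, e.trans φ.toEquiv, fun f g => ?_, fun σ f g hfg => ?_⟩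
  · show φ (e (f * g)) = φ (e f) + φ (e g)
    rw [hadd, map_add]
  · show φ (e g) = act' σ (φ (e f))
    rw [heq σ f g hfg, hφ]

end transport

section points

variable {p : ℕ} {H : Type} [CommRing H] [Algebra (Zloc p) H]

/-- The action of `G_ℚ` on points. -/
def galPoint (σ : GQ) (f : H →ₐ[Zloc p] Qb) : H →ₐ[Zloc p] Qb :=
  ((σ : Qb →ₐ[ℚ] Qb).restrictScalars (Zloc p)).comp f

@[simp] theorem galPoint_apply (σ : GQ) (f : H →ₐ[Zloc p] Qb) (h : H) :
    galPoint σ f h = σ (f h) := rfl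

/-- (INT) points of a finite algebra are integral over `ℤ_(p)`. -/
theorem isIntegral_point [Module.Finite (Zloc p) H] (f : H →ₐ[Zloc p] Qb) (h : H) :
    IsIntegral (Zloc p) (f h) :=
  (Algebra.IsIntegral.isIntegral (R := Zloc p) h).map f

/-- Integers lie in every valuation subring. -/
theorem val_intCast_le_one' (P : ValuationSubring Qb) (n : ℤ) : P.valuation ((n : ℤ) : Qb) ≤ 1 :=
  (P.valuation_le_one_iff _).mpr (intCast_mem P n)

/-- A natural number prime to `p` is a unit in every valuation subring over `p`. -/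
theorem val_natCast_eq_one_of_coprime (P : ValuationSubring Qb)
    (hP : P.LiesOverPrime p) {d : ℕ} (hd : d.Coprime p) : P.valuation ((d : ℕ) : Qb) = 1 := by
  have hle : P.valuation ((d : ℕ) : Qb) ≤ 1 := by
    have := val_intCast_le_one' P (d : ℤ)
    simpa using this
  rcases lt_or_eq_of_le hle with hlt | heq
  · exfalso
    have hgcd : IsCoprime (d : ℤ) (p : ℤ) := Nat.isCoprime_iff_coprime.mpr hd
    obtain ⟨u, v, huv⟩ := hgcd
    have h1 : ((u : ℤ) : Qb) * ((d : ℕ) : Qb) + ((v : ℤ) : Qb) * ((p : ℕ) : Qb) = 1 := by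
      have := congrArg (fun z : ℤ => (z : Qb)) huv
      simpa using this
    have hp1 : P.valuation ((p : ℕ) : Qb) < 1 := (ValuationSubring.mem_nonunits_iff P).mp hP
    have h2 : P.valuation (((u : ℤ) : Qb) * ((d : ℕ) : Qb)) < 1 := by
      rw [map_mul]
      exact mul_lt_one_of_nonneg_of_lt_one_right (val_intCast_le_one' P u) zero_le hlt
    have h3 : P.valuation (((v : ℤ) : Qb) * ((p : ℕ) : Qb)) < 1 := by
      rw [map_mul]
      exact mul_lt_one_of_nonneg_of_lt_one_right (val_intCast_le_one' P v) zero_le hp1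
    have h4 : P.valuation (1 : Qb) < 1 := by
      rw [← h1]
      exact lt_of_le_of_lt (Valuation.map_add _ _ _) (max_lt h2 h3)
    rw [map_one] at h4
    exact lt_irrefl _ h4
  · exact heq

/-- Elements of `ℤ_(p)` lie in every valuation subring over `p`. -/
theorem algebraMap_mem_valuationSubring (P : ValuationSubring Qb)
    (hP : P.LiesOverPrime p) (a : Zloc p) : algebraMap (Zloc p) Qb a ∈ P := by
  obtain ⟨a, ha⟩ := a
  have hden : a.den.Coprime p := ha
  have hval := val_natCast_eq_one_of_coprime P hP hden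
  have hq : algebraMap (Zloc p) Qb ⟨a, ha⟩ = ((a.num : ℤ) : Qb) / ((a.den : ℕ) : Qb) := by
    have h1 : algebraMap (Zloc p) Qb ⟨a, ha⟩ = algebraMap ℚ Qb a := rfl
    rw [h1]
    conv_lhs => rw [← Rat.num_div_den a]
    rw [map_div₀, map_intCast, map_natCast]
  rw [hq, ← ValuationSubring.valuation_le_one_iff, map_div₀, hval, div_one]
  exact val_intCast_le_one' P a.num

/-- (INT) points take values in every valuation subring over `p`. -/
theorem point_mem_valuationSubring [Module.Finite (Zloc p) H]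
    (P : ValuationSubring Qb) (hP : P.LiesOverPrime p) (f : H →ₐ[Zloc p] Qb) (h : H) :
    f h ∈ P := by
  obtain ⟨g, hg, hgf⟩ := isIntegral_point f h
  -- `f h` is integral over the subring `P`
  have h1 : IsIntegral P.toSubring (f h) := by
    let ι : Zloc p →+* P.toSubring :=
      (algebraMap (Zloc p) Qb).codRestrict P.toSubring
        (fun a => algebraMap_mem_valuationSubring P hP a)
    refine ⟨g.map ι, hg.map _, ?_⟩
    rw [Polynomial.eval₂_map]
    have : (algebraMap P.toSubring Qb).comp ι = algebraMap (Zloc p) Qb := by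
      ext a
      rfl
    rw [this]
    exact hgf
  obtain ⟨y, hy⟩ := (IsIntegrallyClosed.isIntegral_iff (R := P) (K := Qb)).mp h1
  rw [← hy]
  exact y.2

end points

end Fermat.Agent.S56.H254

end

end
-- ===== PACK-END S56/H254/FlatMod.lean

-- ===== PACK-BEGIN S56/H846/FLCnt/Arith.lean
section


/-!
# FL-CNT: the arithmetic of the break of an irreducible quotient (helper846)
Mathlib only, nothing unproved.
-/

set_option autoImplicit false

namespace Fermat.Agent.S56.H846.FLCnt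

/-- Claim A: the break of an irreducible quotient is not divisible by `e₀ = (p - 1) m`. -/
theorem arith_A {p m y u : ℕ} (hp : 3 ≤ p) (hm : 2 ≤ m) (hy : 2 ≤ y) (hu : 1 ≤ u)
    (hb : y * (u + 1) ≤ (m + 1) * (y + 1)) : ¬ (p - 1) * m ∣ u := by
  rintro ⟨t, ht⟩
  have ht1 : 1 ≤ t := by
    rcases Nat.eq_zero_or_pos t with h0 | h0
    · rw [h0, mul_zero] at ht; omega
    · exact h0
  have h2 : 2 * m ≤ u := by
    rw [ht]
    calc 2 * m = 2 * m * 1 := by ring
      _ ≤ (p - 1) * m * t := Nat.mul_le_mul (Nat.mul_le_mul (by omega) le_rfl) ht1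
  have h3 : y * (2 * m + 1) ≤ (m + 1) * (y + 1) :=
    le_trans (Nat.mul_le_mul le_rfl (by omega)) hb
  have h4 : 2 * m ≤ m * y := by
    calc 2 * m = m * 2 := by ring
      _ ≤ m * y := Nat.mul_le_mul le_rfl hy
  nlinarith

/-- The break is `p - 1`. -/
theorem arith_main {p m y u : ℕ} (hp : p.Prime) (hp3 : 3 ≤ p) (hm2 : 2 ∣ m) (hmd : m ∣ p + 1)
    (hmo : Odd ((p + 1) / m)) (hx : ∃ d, 1 ≤ d ∧ y + 1 = p ^ d) (hx2 : y + 1 = p → m ∣ 2)
    (hu : 1 ≤ u) (hB : ∀ j : ℕ, (p - 1) * m ∣ j * u ↔ m ∣ j)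
    (hb : y * (u + 1) ≤ (m + 1) * (y + 1)) : u = p - 1 ∧ m ≠ 2 := by
  have hm0 : 0 < m := by
    rcases Nat.eq_zero_or_pos m with h0 | h0
    · rw [h0, zero_dvd_iff] at hmd; omega
    · exact h0
  have hmge : 2 ≤ m := Nat.le_of_dvd hm0 hm2
  have hmle : m ≤ p + 1 := Nat.le_of_dvd (by omega) hmd
  have hp1 : 0 < p - 1 := by omega
  -- `(p - 1) ∣ u`
  have h1 : (p - 1) ∣ u := by
    have := (hB m).2 dvd_rfl
    rw [mul_comm (p - 1) m] at this
    exact Nat.dvd_of_mul_dvd_mul_left hm0 this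
  obtain ⟨c, hc⟩ := h1
  have hc1 : 1 ≤ c := by
    rcases Nat.eq_zero_or_pos c with h0 | h0
    · rw [h0, mul_zero] at hc; omega
    · exact h0
  -- `c` is coprime to `m`
  have hcop : Nat.Coprime c m := by
    set g := Nat.gcd c m with hg
    have hgm : g ∣ m := Nat.gcd_dvd_right c m
    have hgc : g ∣ c := Nat.gcd_dvd_left c m
    obtain ⟨j, hj⟩ := hgm
    obtain ⟨c', hc'⟩ := hgc
    have hg0 : 0 < g := Nat.gcd_pos_of_pos_right c hm0
    have h2 : (p - 1) * m ∣ j * u := by
      refine ⟨c', ?_⟩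
      rw [hc, hj, hc']
      ring
    have h3 : m ∣ j := (hB j).1 h2
    have hj0 : 0 < j := by
      rcases Nat.eq_zero_or_pos j with h0 | h0
      · rw [h0, mul_zero] at hj; omega
      · exact h0
    have h4 : m ≤ j := Nat.le_of_dvd hj0 h3
    have h5 : g * j ≤ 1 * j := by
      rw [one_mul, ← hj]; exact h4
    have h6 : g ≤ 1 := Nat.le_of_mul_le_mul_right h5 hj0
    have : g = 1 := by omega
    exact this
  -- `c` is odd
  have hcodd : ¬ 2 ∣ c := by
    intro h2
    have := Nat.dvd_gcd h2 hm2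
    rw [hcop.gcd_eq_one] at this
    omega
  obtain ⟨d, hd1, hd⟩ := hx
  have hyp : p ≤ y + 1 := by
    rw [hd]
    calc p = p ^ 1 := (pow_one p).symm
      _ ≤ p ^ d := Nat.pow_le_pow_right (by omega) hd1
  by_cases hm : m = 2
  · -- `m = 2` is impossible
    exfalso
    subst hm
    have hu' : p ≤ u + 1 := by
      rw [hc]
      have : (p - 1) * 1 ≤ (p - 1) * c := Nat.mul_le_mul le_rfl hc1
      omega
    have h3 : y * p ≤ 3 * (y + 1) := le_trans (Nat.mul_le_mul le_rfl hu') hb
    have hp5 : p ≠ 3 := by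
      intro h3'
      subst h3'
      norm_num at hmo
    have hp4 : p ≠ 4 := by
      intro h4
      subst h4
      exact absurd hp (by decide)
    have hp5' : 5 ≤ p := by omega
    have h4 : y * 5 ≤ y * p := Nat.mul_le_mul le_rfl hp5'
    omega
  · refine ⟨?_, hm⟩
    have hm4 : 4 ≤ m := by
      obtain ⟨t, ht⟩ := hm2
      omega
    have hnd : ¬ m ∣ 2 := fun h => by
      have := Nat.le_of_dvd (by norm_num) h
      omega
    have hd2 : 2 ≤ d := by
      rcases Nat.lt_or_ge d 2 with h | h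
      · exfalso
        have : d = 1 := by omega
        rw [this, pow_one] at hd
        exact hnd (hx2 hd)
      · exact h
    have hy2 : p * p ≤ y + 1 := by
      rw [hd]
      calc p * p = p ^ 2 := (sq p).symm
        _ ≤ p ^ d := Nat.pow_le_pow_right (by omega) hd2
    have hy9 : 9 ≤ y + 1 := le_trans (by nlinarith) hy2
    by_contra hne
    have hc3 : 3 ≤ c := by
      rcases Nat.lt_or_ge c 3 with h | h
      · exfalso
        interval_cases c
        · exact hne (by rw [hc, mul_one])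
        · exact hcodd dvd_rfl
      · exact h
    have hu3 : 3 * (p - 1) ≤ u := by
      rw [hc, mul_comm 3]
      exact Nat.mul_le_mul le_rfl hc3
    have h5 : y * (3 * (p - 1) + 1) ≤ (p + 2) * (y + 1) :=
      le_trans (Nat.mul_le_mul le_rfl (by omega))
        (le_trans hb (Nat.mul_le_mul (by omega) le_rfl))
    obtain ⟨q, hq⟩ : ∃ q, p = q + 3 := ⟨p - 3, by omega⟩
    subst hq
    have h6 : 3 * (q + 3 - 1) + 1 = 3 * q + 7 := by omega
    rw [h6] at h5
    nlinarith

end Fermat.Agent.S56.H846.FLCnt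

end
-- ===== PACK-END S56/H846/FLCnt/Arith.lean

-- ===== PACK-BEGIN S56/H769/FLCyc.lean
section


/-!
# Row S56, wall W-FLAT-SS, piece FL-CYC (C4, abstract) — helper769

Mathlib only.  Main result: `Fermat.Agent.S56.H769.flCyc`, whose statement is verbatim the body
of `Fermat.Agent.S56.H846.FLCycStatement` (so `flCyc` proves that `Prop` by `exact`).

## Proof

* `exists_cyclic_vector`: a linear endomorphism `A` of a finite-dimensional space such that on
  every `A`-stable subspace `U` no nonzero polynomial of degree `< dim U` kills `U` has all its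
  stable subspaces cyclic (`U = K[A] v`).
* `twFrob`: `A x = d x^(p²)` on a finite field `κ`, linear over a subfield `F` fixed by
  `x ↦ x^(p²)`; `twFrob_indep`: if `p² ≤ |F|` and `d ≠ 0` the hypothesis above holds
  (a `p²`-linearised polynomial of degree `(p²)^(deg g)` has at most that many roots).
* `exists_theta_submodule`: the image under `θ` of a subgroup `G ≤ W` stable under `τ₀` is a
  vector space over the subfield generated by `μ`.
* `flCyc`: `F = 𝔽_p(μ) ⊇ 𝔽_{p²}` because `ord μ = m > 2` divides `p + 1`; `φ²` acts on `θ(W)`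
  through `A = twFrob` with `d = c^(1+p)`; a cyclic vector `θ(w₀)` of `θ(W)` does the job.
-/

set_option autoImplicit false
set_option linter.unusedSectionVars false

namespace Fermat.Agent.S56.H769

open Polynomial Module

section CycVec

variable {K E : Type*} [Field K] [AddCommGroup E] [Module K E]

/-- Evaluation `g ↦ g(A) v`. -/
noncomputable def evalAt (A : Module.End K E) (v : E) : K[X] →ₗ[K] E :=
  (LinearMap.applyₗ v : Module.End K E →ₗ[K] E) ∘ₗ
    (aeval A : K[X] →ₐ[K] Module.End K E).toLinearMap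

theorem evalAt_apply (A : Module.End K E) (v : E) (g : K[X]) : evalAt A v g = aeval A g v := rfl

/-- The cyclic submodule `K[A] v`. -/
noncomputable def cyc (A : Module.End K E) (v : E) : Submodule K E := LinearMap.range (evalAt A v)

theorem mem_cyc {A : Module.End K E} {v x : E} :
    x ∈ cyc A v ↔ ∃ g : K[X], aeval A g v = x := Iff.rfl

theorem self_mem_cyc (A : Module.End K E) (v : E) : v ∈ cyc A v :=
  ⟨1, by rw [evalAt_apply, map_one, Module.End.one_apply]⟩

theorem pow_mem_of_stable {A : Module.End K E} {S : Submodule K E} (hS : ∀ x ∈ S, A x ∈ S)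
    (n : ℕ) {x : E} (hx : x ∈ S) : (A ^ n) x ∈ S := by
  induction n with
  | zero => simpa using hx
  | succ n ih => rw [pow_succ', Module.End.mul_apply]; exact hS _ ih

theorem aeval_mem_of_stable {A : Module.End K E} {S : Submodule K E} (hS : ∀ x ∈ S, A x ∈ S)
    (g : K[X]) {x : E} (hx : x ∈ S) : aeval A g x ∈ S := by
  rw [aeval_eq_sum_range, LinearMap.sum_apply]
  refine S.sum_mem fun i _ => ?_
  rw [LinearMap.smul_apply]
  exact S.smul_mem _ (pow_mem_of_stable hS i hx)

theorem cyc_le {A : Module.End K E} {S : Submodule K E} (hS : ∀ x ∈ S, A x ∈ S) {v : E}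
    (hv : v ∈ S) : cyc A v ≤ S := by
  rintro x ⟨g, rfl⟩
  exact aeval_mem_of_stable hS g hv

theorem aeval_mul_apply (A : Module.End K E) (g h : K[X]) (x : E) :
    aeval A (g * h) x = aeval A g (aeval A h x) := by
  rw [map_mul, Module.End.mul_apply]

theorem aeval_comm_apply (A : Module.End K E) (g h : K[X]) (x : E) :
    aeval A g (aeval A h x) = aeval A h (aeval A g x) := by
  rw [← aeval_mul_apply, ← aeval_mul_apply, mul_comm]

theorem aeval_X_apply (A : Module.End K E) (x : E) : aeval A (X : K[X]) x = A x := by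
  rw [aeval_X]

theorem cyc_stable (A : Module.End K E) (v : E) : ∀ x ∈ cyc A v, A x ∈ cyc A v := by
  rintro x ⟨g, rfl⟩
  exact ⟨X * g, by rw [evalAt_apply, evalAt_apply, aeval_mul_apply, aeval_X]⟩

/-- Key step (F2): an `A`-stable `S ⊇ P(A) U` containing some `s ∈ U ∖ P(A) U` contains `U`,
provided `dim (U ∩ ker P(A)) ≤ deg P`, `P` irreducible. -/
theorem le_of_not_mem_map [FiniteDimensional K E] (A : Module.End K E) (U : Submodule K E)
    (hU : ∀ x ∈ U, A x ∈ U) (P : K[X]) (hP : Irreducible P)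
    (hN : finrank K (LinearMap.ker ((aeval A P).domRestrict U)) ≤ P.natDegree)
    (S : Submodule K E) (hS : ∀ x ∈ S, A x ∈ S) (hle : U.map (aeval A P) ≤ S)
    (s : E) (hsU : s ∈ U) (hsS : s ∈ S) (hs : s ∉ U.map (aeval A P)) : U ≤ S := by
  set U' := U.map (aeval A P) with hU'
  have hU'U : U' ≤ U := by
    rintro _ ⟨y, hy, rfl⟩
    exact aeval_mem_of_stable hU P hy
  have hU'st : ∀ x ∈ U', A x ∈ U' := by
    rintro _ ⟨y, hy, rfl⟩
    refine ⟨A y, hU y hy, ?_⟩
    rw [← aeval_X_apply A y, aeval_comm_apply, aeval_X_apply]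
  -- (★) no nonzero `g` of degree `< deg P` maps `s` into `U'`
  have hstar : ∀ g : K[X], g ≠ 0 → g.natDegree < P.natDegree → aeval A g s ∉ U' := by
    intro g hg0 hlt hmem
    have hndvd : ¬ P ∣ g := fun hdvd => by
      have := Polynomial.natDegree_le_of_dvd hdvd hg0
      omega
    obtain ⟨a, b, hab⟩ := (hP.coprime_iff_not_dvd.2 hndvd)
    apply hs
    have h1 : s = aeval A (a * P) s + aeval A (b * g) s := by
      rw [← LinearMap.add_apply, ← map_add, hab, map_one, Module.End.one_apply]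
    rw [h1]
    refine U'.add_mem ?_ ?_
    · rw [aeval_mul_apply]
      exact aeval_mem_of_stable hU'st a ⟨s, hsU, rfl⟩
    · rw [aeval_mul_apply]
      exact aeval_mem_of_stable hU'st b hmem
  -- the subspace `D` spanned by `g(A) s`, `deg g < deg P`
  set d := P.natDegree with hd
  set L : (degreeLT K d) →ₗ[K] E := (evalAt A s).domRestrict (degreeLT K d) with hL
  have hLapply : ∀ g : degreeLT K d, L g = aeval A (g : K[X]) s := fun g => rfl
  have hdeg_lt : ∀ g : degreeLT K d, (g : K[X]) ≠ 0 → (g : K[X]).natDegree < d := by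
    intro g hg0
    have := mem_degreeLT.1 g.2
    exact (natDegree_lt_iff_degree_lt hg0).2 this
  have hLinj : Function.Injective L := by
    rw [← LinearMap.ker_eq_bot, LinearMap.ker_eq_bot']
    intro g hg
    by_contra hg0
    have hg0' : (g : K[X]) ≠ 0 := fun h => hg0 (Subtype.ext h)
    exact hstar g hg0' (hdeg_lt g hg0') (by rw [← hLapply, hg]; exact U'.zero_mem)
  set D := LinearMap.range L with hD
  have hDrank : finrank K D = d := by
    rw [hD, ← LinearEquiv.finrank_eq (LinearEquiv.ofInjective L hLinj),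
      LinearEquiv.finrank_eq (degreeLTEquiv K d), Module.finrank_fin_fun]
  have hdisj : U' ⊓ D = ⊥ := by
    rw [eq_bot_iff]
    rintro x ⟨hxU', g, rfl⟩
    by_contra hx0
    have hg0' : (g : K[X]) ≠ 0 := by
      intro h
      apply hx0
      show L g ∈ (⊥ : Submodule K E)
      rw [hLapply, h, map_zero, LinearMap.zero_apply]
      exact Submodule.zero_mem _
    exact hstar g hg0' (hdeg_lt g hg0') hxU'
  have hDU : D ≤ U := by
    rintro _ ⟨g, rfl⟩
    exact aeval_mem_of_stable hU _ hsU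
  have hDS : D ≤ S := by
    rintro _ ⟨g, rfl⟩
    exact aeval_mem_of_stable hS _ hsS
  have hrank : finrank K (U' ⊔ D : Submodule K E) = finrank K U' + d := by
    have := Submodule.finrank_sup_add_finrank_inf_eq U' D
    rw [hdisj, finrank_bot, add_zero, hDrank] at this
    exact this
  have hrn : finrank K U' + finrank K (LinearMap.ker ((aeval A P).domRestrict U)) =
      finrank K U := by
    have := LinearMap.finrank_range_add_finrank_ker ((aeval A P).domRestrict U)
    rwa [LinearMap.range_domRestrict] at this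
  have hTU : U' ⊔ D ≤ U := sup_le hU'U hDU
  have heq : U' ⊔ D = U := by
    refine Submodule.eq_of_le_of_finrank_le hTU ?_
    rw [hrank, ← hrn]
    omega
  rw [← heq]
  exact sup_le hle hDS


/-- **Cyclic vector lemma.**  If on every `A`-stable subspace `U` no nonzero polynomial of
degree `< dim U` kills `U`, then every `A`-stable subspace is cyclic. -/
theorem exists_cyclic_vector [FiniteDimensional K E] (A : Module.End K E)
    (hH : ∀ U : Submodule K E, (∀ x ∈ U, A x ∈ U) → ∀ g : K[X], g ≠ 0 →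
      g.natDegree < finrank K U → ∃ x ∈ U, aeval A g x ≠ 0)
    (U : Submodule K E) (hU : ∀ x ∈ U, A x ∈ U) : ∃ v ∈ U, U ≤ cyc A v := by
  induction' hn : finrank K U using Nat.strong_induction_on with n ih generalizing U
  by_cases hbot : U = ⊥
  · exact ⟨0, U.zero_mem, by rw [hbot]; exact bot_le⟩
  obtain ⟨u, huU, hu0⟩ := Submodule.exists_mem_ne_zero_of_ne_bot hbot
  classical
  -- a nonzero annihilating polynomial of `u` of minimal degree
  have hex : ∃ n, ∃ g : K[X], g ≠ 0 ∧ aeval A g u = 0 ∧ g.natDegree = n :=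
    ⟨_, A.charpoly, (LinearMap.charpoly_monic A).ne_zero, by
      rw [LinearMap.aeval_self_charpoly]; rfl, rfl⟩
  obtain ⟨g, hg0, hgu, hgn⟩ := Nat.find_spec hex
  have hmin : ∀ h : K[X], h ≠ 0 → h.natDegree < g.natDegree → aeval A h u ≠ 0 := by
    intro h hh0 hlt hhu
    exact Nat.find_min hex (hgn ▸ hlt) ⟨h, hh0, hhu, rfl⟩
  have hgunit : ¬ IsUnit g := by
    intro hunit
    obtain ⟨a, ha, rfl⟩ := Polynomial.isUnit_iff.1 hunit
    rw [aeval_C, Module.algebraMap_end_apply] at hgu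
    exact hu0 ((smul_eq_zero.1 hgu).resolve_left ha.ne_zero)
  obtain ⟨P, hPirr, hPdvd⟩ := WfDvdMonoid.exists_irreducible_factor hgunit hg0
  obtain ⟨h, rfl⟩ := hPdvd
  have hh0 : h ≠ 0 := right_ne_zero_of_mul hg0
  have hP0 : P ≠ 0 := hPirr.ne_zero
  have hdeg : h.natDegree < (P * h).natDegree := by
    rw [natDegree_mul hP0 hh0]
    have := hPirr.natDegree_pos
    omega
  have hu'0 : aeval A h u ≠ 0 := hmin h hh0 hdeg
  have hu'U : aeval A h u ∈ U := aeval_mem_of_stable hU h huU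
  have hPu' : aeval A P (aeval A h u) = 0 := by
    rw [← aeval_mul_apply]; exact hgu
  -- `U' = P(A) U`, `N = U ∩ ker P(A)`
  set U' := U.map (aeval A P) with hU'
  have hU'U : U' ≤ U := by
    rintro _ ⟨y, hy, rfl⟩
    exact aeval_mem_of_stable hU P hy
  have hU'st : ∀ x ∈ U', A x ∈ U' := by
    rintro _ ⟨y, hy, rfl⟩
    refine ⟨A y, hU y hy, ?_⟩
    rw [← aeval_X_apply A y, aeval_comm_apply, aeval_X_apply]
  set f := (aeval A P).domRestrict U with hf
  have hrn : finrank K U' + finrank K (LinearMap.ker f) = finrank K U := by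
    have := LinearMap.finrank_range_add_finrank_ker f
    rwa [LinearMap.range_domRestrict] at this
  -- `N ≠ 0`
  have hkerpos : 0 < finrank K (LinearMap.ker f) := by
    rw [Module.finrank_pos_iff_exists_ne_zero]
    refine ⟨⟨⟨aeval A h u, hu'U⟩, ?_⟩, ?_⟩
    · rw [LinearMap.mem_ker]; exact hPu'
    · intro h0
      apply hu'0
      have := congrArg (fun x : LinearMap.ker f => ((x : U) : E)) h0
      simpa using this
  -- `dim N ≤ deg P` from the hypothesis
  set N : Submodule K E := (LinearMap.ker f).map U.subtype with hNdef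
  have hNrank : finrank K N = finrank K (LinearMap.ker f) :=
    Submodule.finrank_map_subtype_eq U (LinearMap.ker f)
  have hNmem : ∀ x, x ∈ N ↔ x ∈ U ∧ aeval A P x = 0 := by
    intro x
    constructor
    · rintro ⟨y, hy, rfl⟩
      exact ⟨y.2, LinearMap.mem_ker.1 hy⟩
    · rintro ⟨hxU, hx0⟩
      exact ⟨⟨x, hxU⟩, LinearMap.mem_ker.2 hx0, rfl⟩
  have hNst : ∀ x ∈ N, A x ∈ N := by
    intro x hx
    rw [hNmem] at hx ⊢
    refine ⟨hU x hx.1, ?_⟩
    rw [← aeval_X_apply A x, aeval_comm_apply, hx.2, map_zero]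
  have hNle : finrank K (LinearMap.ker f) ≤ P.natDegree := by
    by_contra hcon
    rw [not_le, ← hNrank] at hcon
    obtain ⟨x, hxN, hx⟩ := hH N hNst P hP0 hcon
    exact hx ((hNmem x).1 hxN).2
  -- induction hypothesis for `U'`
  obtain ⟨v', hv'U', hv'⟩ := ih (finrank K U') (by omega) U' hU'st rfl
  obtain ⟨v, hvU, hv⟩ := hv'U'
  -- every `w ∈ U` with `P(A) w = v'` outside `U'` is a cyclic vector
  have hkey : ∀ w ∈ U, aeval A P w = v' → w ∉ U' → U ≤ cyc A w := by
    intro w hwU hw hwU'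
    refine le_of_not_mem_map A U hU P hPirr hNle (cyc A w) (cyc_stable A w) ?_ w hwU
      (self_mem_cyc A w) hwU'
    refine hv'.trans (cyc_le (cyc_stable A w) ?_)
    exact ⟨P, hw⟩
  by_cases hvU' : v ∈ U'
  · by_cases huU' : v + aeval A h u ∈ U'
    · -- contradiction
      exfalso
      have hu'U' : aeval A h u ∈ U' := by
        have := U'.sub_mem huU' hvU'
        simpa using this
      obtain ⟨a, ha⟩ := hv' hvU'
      obtain ⟨b, hb⟩ := hv' hu'U'
      rw [evalAt_apply, ← hv] at ha hb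
      -- `u' = b(A) P(A) v = b(A) P(A) a(A) P(A) v = a(A) P(A) u' = 0`
      apply hu'0
      have h1 : aeval A h u = aeval A a (aeval A P (aeval A h u)) :=
        calc aeval A h u = aeval A b (aeval A P v) := hb.symm
          _ = aeval A b (aeval A P (aeval A a (aeval A P v))) := by rw [ha]
          _ = aeval A a (aeval A P (aeval A b (aeval A P v))) := by
              simp only [← aeval_mul_apply]
              congr 2
              ring
          _ = aeval A a (aeval A P (aeval A h u)) := by rw [hb]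
      rw [h1, hPu', map_zero]
    · refine ⟨v + aeval A h u, U.add_mem hvU hu'U, hkey _ (U.add_mem hvU hu'U) ?_ huU'⟩
      rw [map_add, hPu', add_zero]
      exact hv
  · exact ⟨v, hvU, hkey v hvU hv hvU'⟩

end CycVec

section FiniteField

variable {κ : Type*} [Field κ] (p : ℕ) [Fact p.Prime] [CharP κ p]

/-- The twisted Frobenius `x ↦ d x^(p²)`, linear over a subfield fixed by `x ↦ x^(p²)`. -/
noncomputable def twFrob (F : Subfield κ) (hF : ∀ k ∈ F, k ^ (p ^ 2) = k) (d : κ) :
    Module.End F κ where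
  toFun x := d * x ^ (p ^ 2)
  map_add' x y := by rw [add_pow_char_pow, mul_add]
  map_smul' k x := by
    simp only [RingHom.id_apply]
    rw [Algebra.smul_def, Algebra.smul_def, mul_pow]
    show d * ((k : κ) ^ (p ^ 2) * x ^ (p ^ 2)) = (k : κ) * (d * x ^ (p ^ 2))
    rw [hF k k.2]
    ring

theorem twFrob_apply (F : Subfield κ) (hF : ∀ k ∈ F, k ^ (p ^ 2) = k) (d x : κ) :
    twFrob p F hF d x = d * x ^ (p ^ 2) := rfl

/-- The constants `dᵢ` with `Aⁱ x = dᵢ x^(qⁱ)`. -/
def dseq (d : κ) : ℕ → κ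
  | 0 => 1
  | (i + 1) => d * dseq d i ^ (p ^ 2)

theorem dseq_ne_zero {d : κ} (hd : d ≠ 0) (i : ℕ) : dseq p d i ≠ 0 := by
  induction i with
  | zero => exact one_ne_zero
  | succ i ih => exact mul_ne_zero hd (pow_ne_zero _ ih)

theorem twFrob_pow_apply (F : Subfield κ) (hF : ∀ k ∈ F, k ^ (p ^ 2) = k) (d x : κ) (i : ℕ) :
    (twFrob p F hF d ^ i) x = dseq p d i * x ^ ((p ^ 2) ^ i) := by
  induction i with
  | zero => simp [dseq]
  | succ i ih =>
    rw [pow_succ', Module.End.mul_apply, ih, twFrob_apply, dseq, mul_pow, ← pow_mul, pow_succ]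
    ring

/-- The `p²`-linearised polynomial attached to `g`. -/
noncomputable def linPoly (F : Subfield κ) (d : κ) (g : F[X]) : κ[X] :=
  ∑ i ∈ Finset.range (g.natDegree + 1), C ((g.coeff i : κ) * dseq p d i) * X ^ ((p ^ 2) ^ i)

theorem eval_linPoly (F : Subfield κ) (hF : ∀ k ∈ F, k ^ (p ^ 2) = k) (d : κ) (g : F[X])
    (x : κ) : (linPoly p F d g).eval x = aeval (twFrob p F hF d) g x := by
  rw [linPoly, eval_finsetSum, aeval_eq_sum_range, LinearMap.sum_apply]
  refine Finset.sum_congr rfl fun i _ => ?_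
  rw [LinearMap.smul_apply, twFrob_pow_apply, eval_mul, eval_C, eval_pow, eval_X,
    Algebra.smul_def]
  show _ = (g.coeff i : κ) * _
  ring

theorem natDegree_linPoly_le (F : Subfield κ) (d : κ) (g : F[X]) :
    (linPoly p F d g).natDegree ≤ (p ^ 2) ^ g.natDegree := by
  rw [linPoly]
  refine natDegree_sum_le_of_forall_le _ _ fun i hi => ?_
  refine (natDegree_C_mul_X_pow_le _ _).trans ?_
  have hp : 1 ≤ p ^ 2 := Nat.one_le_pow _ _ (Fact.out : p.Prime).pos
  exact Nat.pow_le_pow_right hp (Nat.lt_succ_iff.1 (Finset.mem_range.1 hi))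

theorem linPoly_ne_zero (F : Subfield κ) {d : κ} (hd : d ≠ 0) {g : F[X]} (hg : g ≠ 0) :
    linPoly p F d g ≠ 0 := by
  intro h0
  have hcoeff : (linPoly p F d g).coeff ((p ^ 2) ^ g.natDegree) =
      (g.coeff g.natDegree : κ) * dseq p d g.natDegree := by
    rw [linPoly, finsetSum_coeff]
    rw [Finset.sum_eq_single g.natDegree]
    · rw [coeff_C_mul_X_pow, if_pos rfl]
    · intro i _ hi
      rw [coeff_C_mul_X_pow, if_neg]
      intro heq
      have hp2 : 2 ≤ p ^ 2 := by
        have := (Fact.out : p.Prime).two_le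
        nlinarith
      exact hi (Nat.pow_right_injective hp2 heq).symm
    · intro hn
      exact absurd (Finset.mem_range.2 (Nat.lt_succ_self _)) hn
  rw [h0, coeff_zero] at hcoeff
  have h1 : (g.coeff g.natDegree : κ) ≠ 0 := by
    intro h
    have : g.coeff g.natDegree = 0 := Subtype.ext h
    exact hg (leadingCoeff_eq_zero.1 this)
  exact mul_ne_zero h1 (dseq_ne_zero p hd _) hcoeff.symm

/-- Hypothesis (H) of the cyclic vector lemma for the twisted Frobenius. -/
theorem twFrob_indep [Finite κ] (F : Subfield κ) (hF : ∀ k ∈ F, k ^ (p ^ 2) = k)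
    (hcard : p ^ 2 ≤ Nat.card F) {d : κ} (hd : d ≠ 0)
    (U : Submodule F κ) (g : F[X]) (hg : g ≠ 0) (hlt : g.natDegree < finrank F U) :
    ∃ x ∈ U, aeval (twFrob p F hF d) g x ≠ 0 := by
  classical
  by_contra hcon
  push Not at hcon
  have : Fintype κ := Fintype.ofFinite κ
  have hQ0 := linPoly_ne_zero p F hd hg
  have hroots : ((U : Set κ).toFinset).val ⊆ (linPoly p F d g).roots := by
    intro x hx
    rw [Finset.mem_val, Set.mem_toFinset] at hx
    rw [mem_roots hQ0, IsRoot, eval_linPoly p F hF]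
    exact hcon x hx
  have h1 := card_le_degree_of_subset_roots hroots
  have h2 := natDegree_linPoly_le p F d g
  have h3 : ((U : Set κ).toFinset).card = Nat.card F ^ finrank F U := by
    rw [Set.toFinset_card, ← Nat.card_eq_fintype_card]
    exact Module.natCard_eq_pow_finrank (K := F) (V := U)
  have h4 : (p ^ 2) ^ (g.natDegree + 1) ≤ Nat.card F ^ finrank F U := by
    calc (p ^ 2) ^ (g.natDegree + 1) ≤ (p ^ 2) ^ finrank F U :=
          Nat.pow_le_pow_right (Nat.one_le_pow _ _ (Fact.out : p.Prime).pos) hlt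
      _ ≤ Nat.card F ^ finrank F U := Nat.pow_le_pow_left hcard _
  have h5 : (p ^ 2) ^ g.natDegree < (p ^ 2) ^ (g.natDegree + 1) := by
    have hp2 : 2 ≤ p ^ 2 := by
      have := (Fact.out : p.Prime).two_le
      nlinarith
    exact Nat.pow_lt_pow_right hp2 (Nat.lt_succ_self _)
  omega

end FiniteField

section Assembly

variable {κ : Type*} [Field κ]

/-- The image `θ(G)` of a subgroup `G ≤ W` stable under conjugation by `τ₀` is a vector space
over the subfield generated by `μ`. -/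
theorem exists_theta_submodule [Finite κ] {Γ : Type*} [Group Γ] (W : Subgroup Γ) (τ₀ : Γ)
    (θ : Γ → κ) (μ : κ)
    (hadd : ∀ w ∈ W, ∀ w' ∈ W, θ (w * w') = θ w + θ w')
    (hτ : ∀ w ∈ W, θ (τ₀ * w * τ₀⁻¹) = μ * θ w)
    (G : Subgroup Γ) (hGW : G ≤ W) (hGτ : ∀ h ∈ G, τ₀ * h * τ₀⁻¹ ∈ G) :
    ∃ S : Submodule (Subfield.closure ({μ} : Set κ)) κ, ∀ x, x ∈ S ↔ ∃ g ∈ G, θ g = x := by
  classical
  have h1 : θ 1 = 0 := by
    have := hadd 1 W.one_mem 1 W.one_mem
    rw [mul_one] at this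
    exact left_eq_add.1 this
  have hinv : ∀ w ∈ W, θ w⁻¹ = -θ w := by
    intro w hw
    have := hadd w hw w⁻¹ (W.inv_mem hw)
    rw [mul_inv_cancel, h1] at this
    exact eq_neg_of_add_eq_zero_right this.symm
  let T : AddSubgroup κ :=
    { carrier := {x | ∃ g ∈ G, θ g = x}
      zero_mem' := ⟨1, G.one_mem, h1⟩
      add_mem' := by
        rintro _ _ ⟨g, hg, rfl⟩ ⟨g', hg', rfl⟩
        exact ⟨g * g', G.mul_mem hg hg', hadd g (hGW hg) g' (hGW hg')⟩
      neg_mem' := by
        rintro _ ⟨g, hg, rfl⟩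
        exact ⟨g⁻¹, G.inv_mem hg, hinv g (hGW hg)⟩ }
  have hTmem : ∀ x, x ∈ T ↔ ∃ g ∈ G, θ g = x := fun x => Iff.rfl
  have hpow : ∀ a : κ, (∀ x ∈ T, a * x ∈ T) → ∀ n : ℕ, ∀ x ∈ T, a ^ n * x ∈ T := by
    intro a ha n
    induction n with
    | zero => intro x hx; simpa using hx
    | succ n ih =>
      intro x hx
      rw [pow_succ, mul_assoc]
      exact ih _ (ha x hx)
  have hsmul : ∀ k ∈ Subfield.closure ({μ} : Set κ), ∀ x ∈ T, k * x ∈ T := by
    intro k hk
    induction hk using Subfield.closure_induction with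
    | mem k hk =>
      rintro _ ⟨g, hg, rfl⟩
      rw [Set.mem_singleton_iff] at hk
      subst hk
      exact ⟨τ₀ * g * τ₀⁻¹, hGτ g hg, hτ g (hGW hg)⟩
    | one => intro x hx; simpa using hx
    | add a b _ _ ha hb =>
      intro x hx
      rw [add_mul]
      exact T.add_mem (ha x hx) (hb x hx)
    | neg a _ ha =>
      intro x hx
      rw [neg_mul]
      exact T.neg_mem (ha x hx)
    | inv a _ ha =>
      intro x hx
      by_cases ha0 : a = 0
      · rw [ha0, inv_zero, zero_mul]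
        exact T.zero_mem
      · have : Fintype κ := Fintype.ofFinite κ
        have h2 := FiniteField.pow_card_sub_one_eq_one a ha0
        have hinv' : a⁻¹ = a ^ (Fintype.card κ - 1 - 1) := by
          have hc : 2 ≤ Fintype.card κ := Fintype.one_lt_card
          have h3 : a ^ (Fintype.card κ - 1 - 1) * a = 1 := by
            rw [← pow_succ]
            have : Fintype.card κ - 1 - 1 + 1 = Fintype.card κ - 1 := by omega
            rw [this, h2]
          exact (eq_inv_of_mul_eq_one_left h3).symm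
        rw [hinv']
        exact hpow a ha _ x hx
    | mul a b _ _ ha hb =>
      intro x hx
      rw [mul_assoc]
      exact ha _ (hb x hx)
  refine ⟨{ T with smul_mem' := ?_ }, fun x => Iff.rfl⟩
  intro k x hx
  rw [Algebra.smul_def]
  exact hsmul k k.2 x hx

/-- **FL-CYC** (C4, abstract): verbatim the body of `Fermat.Agent.S56.H846.FLCycStatement`
(`Fermat/Agent/S56/H846/FLCnt/Spec.lean`).  `κ` a finite field of characteristic `p`,
`θ : W ↪ κ` additive, tame inertia acting through multiplication by `μ` of exact order `m`,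
`2 < m ∣ p + 1`, Frobenius acting `p`-semilinearly.  Then `W` is generated, as a group normalised
by `τ₀` and `φ²`, by a single element. -/
theorem flCyc :
    ∀ (p : ℕ) [Fact p.Prime] (Γ : Type) [Group Γ] [Finite Γ] (κ : Type) [Field κ] [Finite κ]
      [CharP κ p] (W : Subgroup Γ) (τ₀ φ : Γ) (θ : Γ → κ) (μ c : κ) (m : ℕ),
      W.Normal →
      (∀ w ∈ W, ∀ w' ∈ W, θ (w * w') = θ w + θ w') →
      (∀ w ∈ W, θ w = 0 → w = 1) →
      (∀ w ∈ W, θ (τ₀ * w * τ₀⁻¹) = μ * θ w) →
      (∀ w ∈ W, θ (φ * w * φ⁻¹) = c * θ w ^ p) →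
      (∀ j : ℕ, μ ^ j = 1 ↔ m ∣ j) → m ∣ p + 1 → 2 < m →
      ∃ w₀ ∈ W, ∀ H : Subgroup Γ, w₀ ∈ H → (∀ h ∈ H, τ₀ * h * τ₀⁻¹ ∈ H) →
        (∀ h ∈ H, φ ^ 2 * h * (φ ^ 2)⁻¹ ∈ H) → W ≤ H := by
  intro p _ Γ _ _ κ _ _ _ W τ₀ φ θ μ c m hW hadd hinj hτ hφ hμ hm hm2
  classical
  by_cases hbot : W = ⊥
  · exact ⟨1, W.one_mem, fun H _ _ _ => by rw [hbot]; exact bot_le⟩
  obtain ⟨w₁, hw₁W, hw₁⟩ : ∃ w ∈ W, w ≠ 1 := (Subgroup.ne_bot_iff_exists_ne_one).1 hbot |>.elim
    fun w hw => ⟨w.1, w.2, fun h => hw (Subtype.ext h)⟩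
  have hp := (Fact.out : p.Prime)
  have h1 : θ 1 = 0 := by
    have := hadd 1 W.one_mem 1 W.one_mem
    rw [mul_one] at this
    exact left_eq_add.1 this
  have hinv : ∀ w ∈ W, θ w⁻¹ = -θ w := by
    intro w hw
    have := hadd w hw w⁻¹ (W.inv_mem hw)
    rw [mul_inv_cancel, h1] at this
    exact eq_neg_of_add_eq_zero_right this.symm
  have hc : c ≠ 0 := by
    intro hc0
    have h2 := hφ w₁ hw₁W
    rw [hc0, zero_mul] at h2
    have h3 := hinj _ (hW.conj_mem w₁ hw₁W φ) h2
    apply hw₁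
    have h4 : w₁ = φ⁻¹ * (φ * w₁ * φ⁻¹) * φ := by group
    rw [h4, h3]
    group
  have hμm : μ ^ m = 1 := (hμ m).2 dvd_rfl
  have hμ0 : μ ≠ 0 := by
    intro h0
    rw [h0, zero_pow (by omega)] at hμm
    exact zero_ne_one hμm
  obtain ⟨q, hq⟩ : ∃ q, p = q + 1 := ⟨p - 1, by have := hp.pos; omega⟩
  have hμp2 : μ ^ (p ^ 2) = μ := by
    have h2 : p ^ 2 = (p + 1) * q + 1 := by rw [hq]; ring
    rw [h2, pow_succ, (hμ _).2 (Dvd.dvd.mul_right hm q), one_mul]
  have hμp : μ ^ p ≠ μ := by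
    intro h
    rw [hq, pow_succ] at h
    have h2 : μ ^ q = 1 := mul_right_cancel₀ hμ0 (h.trans (one_mul μ).symm)
    have h3 : m ∣ q := (hμ q).1 h2
    have h4 : m ∣ 2 := by
      have h5 := Nat.dvd_sub hm h3
      have h6 : p + 1 - q = 2 := by omega
      rwa [h6] at h5
    have := Nat.le_of_dvd (by norm_num) h4
    omega
  set F : Subfield κ := Subfield.closure ({μ} : Set κ) with hFdef
  have hF : ∀ k ∈ F, k ^ (p ^ 2) = k := by
    intro k hk
    have hle : F ≤ RingHom.eqLocusField (iterateFrobenius κ p 2) (RingHom.id κ) := by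
      rw [hFdef, Subfield.closure_le]
      intro x hx
      rw [Set.mem_singleton_iff] at hx
      subst hx
      show iterateFrobenius κ p 2 x = x
      rw [iterateFrobenius_def]
      exact hμp2
    have h2 : iterateFrobenius κ p 2 k = k := hle hk
    rwa [iterateFrobenius_def] at h2
  have hcard : p ^ 2 ≤ Nat.card F := by
    have : Fintype F := Fintype.ofFinite F
    obtain ⟨n, -, hn⟩ := FiniteField.card F p
    rw [Nat.card_eq_fintype_card, hn]
    have hn2 : 2 ≤ (n : ℕ) := by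
      by_contra hlt
      have hn1 : (n : ℕ) = 1 := by have := n.pos; omega
      rw [hn1, pow_one] at hn
      have h2 := FiniteField.pow_card (⟨μ, Subfield.subset_closure rfl⟩ : F)
      rw [hn] at h2
      exact hμp (congrArg Subtype.val h2)
    exact Nat.pow_le_pow_right hp.pos hn2
  set d : κ := c * c ^ p with hd
  have hd0 : d ≠ 0 := mul_ne_zero hc (pow_ne_zero _ hc)
  have hφ2 : ∀ w ∈ W, θ (φ ^ 2 * w * (φ ^ 2)⁻¹) = d * θ w ^ (p ^ 2) := by
    intro w hw
    have e : φ ^ 2 * w * (φ ^ 2)⁻¹ = φ * (φ * w * φ⁻¹) * φ⁻¹ := by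
      rw [pow_two, mul_inv_rev]
      simp only [mul_assoc]
    rw [e, hφ _ (hW.conj_mem w hw φ), hφ w hw, mul_pow, ← pow_mul, hd, pow_two, mul_assoc]
  set A := twFrob p F hF d with hA
  have key : ∀ G : Subgroup Γ, G ≤ W → (∀ h ∈ G, τ₀ * h * τ₀⁻¹ ∈ G) →
      (∀ h ∈ G, φ ^ 2 * h * (φ ^ 2)⁻¹ ∈ G) →
      ∃ S : Submodule F κ, (∀ x, x ∈ S ↔ ∃ g ∈ G, θ g = x) ∧ ∀ x ∈ S, A x ∈ S := by
    intro G hGW hGτ hGφ
    obtain ⟨S, hS⟩ := exists_theta_submodule W τ₀ θ μ hadd hτ G hGW hGτ
    refine ⟨S, hS, ?_⟩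
    intro x hx
    obtain ⟨g, hg, rfl⟩ := (hS x).1 hx
    rw [hS]
    exact ⟨φ ^ 2 * g * (φ ^ 2)⁻¹, hGφ g hg, by rw [hφ2 g (hGW hg)]; rfl⟩
  obtain ⟨SW, hSW, hSWst⟩ := key W le_rfl (fun h hh => hW.conj_mem h hh τ₀)
    (fun h hh => hW.conj_mem h hh (φ ^ 2))
  have hfd : FiniteDimensional F κ := Module.Finite.of_finite
  obtain ⟨v₀, hv₀, hv₀cyc⟩ := exists_cyclic_vector A
    (fun U _ g hg hlt => twFrob_indep p F hF hcard hd0 U g hg hlt) SW hSWst
  obtain ⟨w₀, hw₀, rfl⟩ := (hSW v₀).1 hv₀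
  refine ⟨w₀, hw₀, ?_⟩
  intro H hw₀H hHτ hHφ
  obtain ⟨SH, hSH, hSHst⟩ := key (H ⊓ W) inf_le_right
    (fun h hh => ⟨hHτ h hh.1, hW.conj_mem h hh.2 τ₀⟩)
    (fun h hh => ⟨hHφ h hh.1, hW.conj_mem h hh.2 (φ ^ 2)⟩)
  have hle : SW ≤ SH := hv₀cyc.trans (cyc_le hSHst ((hSH _).2 ⟨w₀, ⟨hw₀H, hw₀⟩, rfl⟩))
  intro w hw
  obtain ⟨h, hh, hθ⟩ := (hSH _).1 (hle ((hSW _).2 ⟨w, hw, rfl⟩))
  have h2 : θ (w * h⁻¹) = 0 := by
    rw [hadd w hw h⁻¹ (W.inv_mem hh.2), hinv h hh.2, hθ, add_neg_cancel]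
  have h3 := hinj _ (W.mul_mem hw (W.inv_mem hh.2)) h2
  rw [mul_inv_eq_one] at h3
  rw [h3]
  exact hh.1

end Assembly

end Fermat.Agent.S56.H769

end
-- ===== PACK-END S56/H769/FLCyc.lean

-- ===== PACK-BEGIN S56/H194/IRFin.lean
section


/-!
# S56 / W-FLAT-SS, RamCount: inflation–restriction for a finite group (helper194, Mathlib only)

`Γ` a group, `ρ : Γ →* End_k V`, `c : Γ → End_k V` an `Ad ρ`-cocycle
(`c (σ τ) = c σ + ρ σ · c τ · ρ σ⁻¹`).

* `adCocycle_eq_of_mul_mem` : if `c` vanishes on a subgroup `H`, it is constant on left cosets.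
* `exists_coboundary_of_vanish` (IR): if `c` vanishes on a subgroup `H` of finite index
  invertible in `k`, then `c σ = ρ σ · m · ρ σ⁻¹ - m` for some `m` (averaging).
* `natCast_card_quotient_ne_zero` : if `σ ^ N ∈ H` for all `σ`, `H` normal, `p ∤ N`, `Γ` finite,
  then `#(Γ ⧸ H)` is invertible in a field of characteristic `p`.
* `exists_coboundary_of_vanish_ker` : the combination used at the end of RamCount: if every
  `ρ σ ^ N = 1` with `p ∤ N` and `c` vanishes on `ker ρ`, then `c` is a coboundary.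
-/

set_option autoImplicit false

namespace Fermat.Agent.S56.H194.IR

variable {k : Type*} [Field k] {V : Type*} [AddCommGroup V] [Module k V]
  {Γ : Type*} [Group Γ] (ρ : Γ →* Module.End k V) (c : Γ → Module.End k V)

theorem adCocycle_eq_of_mul_mem
    (hc : ∀ σ τ, c (σ * τ) = c σ + ρ σ * c τ * ρ σ⁻¹) (H : Subgroup Γ)
    (hH : ∀ σ ∈ H, c σ = 0) {σ τ : Γ} (h : σ⁻¹ * τ ∈ H) : c σ = c τ := by
  have h1 := hc σ (σ⁻¹ * τ)
  rw [mul_inv_cancel_left, hH _ h, mul_zero, zero_mul, add_zero] at h1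
  exact h1.symm

/-- **(IR)** averaging: a cocycle vanishing on a subgroup of index invertible in `k` is a
coboundary. -/
theorem exists_coboundary_of_vanish
    (hc : ∀ σ τ, c (σ * τ) = c σ + ρ σ * c τ * ρ σ⁻¹) (H : Subgroup Γ) [Finite (Γ ⧸ H)]
    (hH : ∀ σ ∈ H, c σ = 0) (hN : (Nat.card (Γ ⧸ H) : k) ≠ 0) :
    ∃ m : Module.End k V, ∀ σ, c σ = ρ σ * m * ρ σ⁻¹ - m := by
  classical
  let _ : Fintype (Γ ⧸ H) := Fintype.ofFinite _
  -- the cocycle on the coset space
  let cbar : Γ ⧸ H → Module.End k V := fun x =>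
    Quotient.liftOn' x c (fun a b hab =>
      adCocycle_eq_of_mul_mem ρ c hc H hH (QuotientGroup.leftRel_apply.mp hab))
  have hcbar : ∀ σ : Γ, cbar (σ : Γ ⧸ H) = c σ := fun σ => rfl
  set S : Module.End k V := ∑ x : Γ ⧸ H, cbar x with hS
  have key : ∀ σ : Γ, S = (Nat.card (Γ ⧸ H) : k) • c σ + ρ σ * S * ρ σ⁻¹ := by
    intro σ
    have h1 : ∑ x : Γ ⧸ H, cbar (σ • x) = S := by
      rw [hS]
      exact Fintype.sum_equiv (MulAction.toPerm σ) _ _ (fun x => rfl)
    have h2 : ∀ x : Γ ⧸ H, cbar (σ • x) = c σ + ρ σ * cbar x * ρ σ⁻¹ := by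
      intro x
      induction x using QuotientGroup.induction_on with
      | H τ =>
        show cbar ((σ * τ : Γ) : Γ ⧸ H) = _
        rw [hcbar, hcbar, hc]
    have h5 : ∑ x : Γ ⧸ H, cbar (σ • x) =
        (Nat.card (Γ ⧸ H) : k) • c σ + ρ σ * S * ρ σ⁻¹ := by
      rw [Finset.sum_congr rfl (fun x _ => h2 x), Finset.sum_add_distrib, Finset.sum_const,
        ← Finset.sum_mul, ← Finset.mul_sum, Finset.card_univ, Nat.card_eq_fintype_card,
        Nat.cast_smul_eq_nsmul]
    rw [← h5, h1]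
  refine ⟨-((Nat.card (Γ ⧸ H) : k)⁻¹ • S), fun σ => ?_⟩
  have h := key σ
  have h3 : (Nat.card (Γ ⧸ H) : k) • c σ = S - ρ σ * S * ρ σ⁻¹ := by
    rw [eq_sub_iff_add_eq]
    exact h.symm
  have h4 : c σ = (Nat.card (Γ ⧸ H) : k)⁻¹ • (S - ρ σ * S * ρ σ⁻¹) := by
    rw [← h3, smul_smul, inv_mul_cancel₀ hN, one_smul]
  rw [h4, mul_neg, neg_mul, mul_smul_comm, smul_mul_assoc, smul_sub]
  abel

/-- If the quotient `Γ ⧸ H` has exponent prime to `p`, its order is invertible in
characteristic `p`. -/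
theorem natCast_card_quotient_ne_zero [Finite Γ] (p : ℕ) [Fact p.Prime] [CharP k p]
    (H : Subgroup Γ) [H.Normal] (N : ℕ) (hpN : ¬ p ∣ N) (hpow : ∀ σ : Γ, σ ^ N ∈ H) :
    (Nat.card (Γ ⧸ H) : k) ≠ 0 := by
  intro h0
  have hdvd : p ∣ Nat.card (Γ ⧸ H) := (CharP.cast_eq_zero_iff k p _).mp h0
  obtain ⟨x, hx⟩ := exists_prime_orderOf_dvd_card' p hdvd
  have hxN : x ^ N = 1 := by
    induction x using QuotientGroup.induction_on with
    | H σ =>
      rw [← QuotientGroup.mk_pow]
      exact (QuotientGroup.eq_one_iff _).mpr (hpow σ)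
  have := orderOf_dvd_of_pow_eq_one hxN
  rw [hx] at this
  exact hpN this

/-- The form used in RamCount: the image of `ρ` has exponent `N` prime to `p`, and the cocycle
vanishes on `ker ρ`. -/
theorem exists_coboundary_of_vanish_ker [Finite Γ] (p : ℕ) [Fact p.Prime] [CharP k p]
    (hc : ∀ σ τ, c (σ * τ) = c σ + ρ σ * c τ * ρ σ⁻¹)
    (N : ℕ) (hpN : ¬ p ∣ N) (hpow : ∀ σ : Γ, ρ σ ^ N = 1)
    (hker : ∀ σ, ρ σ = 1 → c σ = 0) :
    ∃ m : Module.End k V, ∀ σ, c σ = ρ σ * m * ρ σ⁻¹ - m := by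
  refine exists_coboundary_of_vanish ρ c hc ρ.ker (fun σ hσ => hker σ (MonoidHom.mem_ker.mp hσ))
    (natCast_card_quotient_ne_zero p ρ.ker N hpN (fun σ => ?_))
  rw [MonoidHom.mem_ker, map_pow]
  exact hpow σ

end Fermat.Agent.S56.H194.IR

end
-- ===== PACK-END S56/H194/IRFin.lean

-- ===== PACK-BEGIN S56/H334/RamBasic.lean
section


/-!
# S56 / W-FLAT-SS, piece FL-RAM (helper334), part 1: lower ramification groups, abstractly

Setting: a discrete valuation ring `B` and a group `Γ` acting on `B` by ring automorphisms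
(`MulSemiringAction Γ B`).  No fields, no completeness.

* `ramGroup Γ B n` : the `n`-th lower ramification group `Γ_n = {σ | ∀ x, σ x - x ∈ 𝔪 ^ (n+1)}`
  (`Γ_0` = inertia, `Γ_1` = wild inertia); Mathlib's `AddSubgroup.inertia` of `𝔪 ^ (n+1)`.
* `ramGroup_normal`, `ramGroup_antitone`.
* `mem_ramGroup_iff_dvd` : membership in terms of divisibility by powers of a uniformizer.
* `mem_ramGroup_of_adjoin` : if `B = A[x]` with `A` fixed by `Γ`, then
  `σ ∈ Γ_n ↔ σ x - x ∈ 𝔪 ^ (n+1)`   (Serre, Local Fields IV §1 Lemma 1).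
* `exists_ramGroup_eq_bot` : for a finite group acting faithfully, `Γ_n = 1` for `n ≫ 0`.
-/

set_option autoImplicit false
set_option linter.unusedSectionVars false

open IsLocalRing

namespace Fermat.Agent.S56.H334

variable {B : Type*} [CommRing B] [IsDomain B] [IsDiscreteValuationRing B]
variable {Γ : Type*} [Group Γ] [MulSemiringAction Γ B]

/-! ### Automorphisms and uniformizers -/

theorem irreducible_smul (g : Γ) {π : B} (hπ : Irreducible π) : Irreducible (g • π) :=
  (MulEquiv.irreducible_iff (MulSemiringAction.toRingEquiv Γ B g).toMulEquiv).2 hπ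

theorem associated_smul (g : Γ) {π : B} (hπ : Irreducible π) : Associated (g • π) π :=
  IsDiscreteValuationRing.associated_of_irreducible B (irreducible_smul g hπ) hπ

theorem dvd_smul_of_dvd (g : Γ) {a b : B} (h : a ∣ b) : g • a ∣ g • b := by
  obtain ⟨c, rfl⟩ := h
  exact ⟨g • c, smul_mul' g a c⟩

theorem pow_dvd_smul_iff (g : Γ) {π : B} (hπ : Irreducible π) (n : ℕ) (x : B) :
    π ^ n ∣ g • x ↔ π ^ n ∣ x := by
  have key : ∀ (h : Γ) (y : B), π ^ n ∣ y → π ^ n ∣ h • y := by
    intro h y hy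
    have h1 : h • (π ^ n) ∣ h • y := dvd_smul_of_dvd h hy
    rw [smul_pow'] at h1
    exact ((associated_smul h hπ).pow_pow (n := n)).symm.dvd.trans h1
  constructor
  · intro h
    have := key g⁻¹ _ h
    rwa [inv_smul_smul] at this
  · exact key g x

theorem mem_maximalIdeal_pow_iff_dvd {π : B} (hπ : Irreducible π) (n : ℕ) (x : B) :
    x ∈ maximalIdeal B ^ n ↔ π ^ n ∣ x := by
  rw [hπ.maximalIdeal_eq, Ideal.span_singleton_pow, Ideal.mem_span_singleton]

theorem smul_mem_maximalIdeal_pow_iff (g : Γ) (n : ℕ) (x : B) :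
    g • x ∈ maximalIdeal B ^ n ↔ x ∈ maximalIdeal B ^ n := by
  obtain ⟨π, hπ⟩ := IsDiscreteValuationRing.exists_irreducible B
  rw [mem_maximalIdeal_pow_iff_dvd hπ, mem_maximalIdeal_pow_iff_dvd hπ, pow_dvd_smul_iff g hπ]

/-! ### Ramification groups -/

/-- The `n`-th lower ramification group `Γ_n` (`n ≥ 0`): the elements acting trivially on
`B / 𝔪 ^ (n+1)`. -/
def ramGroup (Γ : Type*) (B : Type*) [CommRing B] [IsDomain B] [IsDiscreteValuationRing B]
    [Group Γ] [MulSemiringAction Γ B] (n : ℕ) : Subgroup Γ :=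
  (maximalIdeal B ^ (n + 1)).toAddSubgroup.inertia Γ

theorem mem_ramGroup_iff {σ : Γ} {n : ℕ} :
    σ ∈ ramGroup Γ B n ↔ ∀ x : B, σ • x - x ∈ maximalIdeal B ^ (n + 1) :=
  Iff.rfl

theorem mem_ramGroup_iff_dvd {π : B} (hπ : Irreducible π) {σ : Γ} {n : ℕ} :
    σ ∈ ramGroup Γ B n ↔ ∀ x : B, π ^ (n + 1) ∣ σ • x - x := by
  rw [mem_ramGroup_iff]
  exact forall_congr' fun x => mem_maximalIdeal_pow_iff_dvd hπ (n + 1) _

theorem ramGroup_antitone : Antitone (ramGroup Γ B) := by
  intro m n hmn σ hσ x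
  exact Ideal.pow_le_pow_right (Nat.succ_le_succ hmn) (hσ x)

instance ramGroup_normal (n : ℕ) : (ramGroup Γ B n).Normal := by
  constructor
  intro σ hσ g x
  have h1 : (g * σ * g⁻¹) • x - x = g • (σ • (g⁻¹ • x) - g⁻¹ • x) := by
    rw [smul_sub, smul_inv_smul, mul_smul, mul_smul]
  show (g * σ * g⁻¹) • x - x ∈ maximalIdeal B ^ (n + 1)
  rw [h1, smul_mem_maximalIdeal_pow_iff]
  exact hσ _

/-! ### Generators -/

section Adjoin

variable {A : Type*} [CommRing A] [Algebra A B] [SMulCommClass Γ A B]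

omit [IsDomain B] [IsDiscreteValuationRing B] in
/-- `σ y - y` is divisible by `σ x - x` for every `y ∈ A[x]` (`A` fixed by `σ`). -/
theorem sub_dvd_smul_sub_of_mem_adjoin (σ : Γ) (x : B) {y : B}
    (hy : y ∈ Algebra.adjoin A {x}) : σ • x - x ∣ σ • y - y := by
  induction hy using Algebra.adjoin_induction with
  | mem z hz =>
    rw [Set.mem_singleton_iff] at hz
    rw [hz]
  | algebraMap a =>
    rw [smul_algebraMap, sub_self]
    exact dvd_zero _
  | add y z _ _ hy hz =>
    have : σ • (y + z) - (y + z) = (σ • y - y) + (σ • z - z) := by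
      rw [smul_add]; ring
    rw [this]
    exact dvd_add hy hz
  | mul y z _ _ hy hz =>
    have : σ • (y * z) - y * z = (σ • y - y) * σ • z + y * (σ • z - z) := by
      rw [smul_mul']; ring
    rw [this]
    exact dvd_add (Dvd.dvd.mul_right hy _) (Dvd.dvd.mul_left hz _)

/-- **Serre, Local Fields IV §1 Lemma 1.**  If `B = A[x]`, then `σ ∈ Γ_n ↔ σ x - x ∈ 𝔪^(n+1)`. -/
theorem mem_ramGroup_of_adjoin {x : B} (hx : Algebra.adjoin A {x} = ⊤) {σ : Γ} {n : ℕ} :
    σ ∈ ramGroup Γ B n ↔ σ • x - x ∈ maximalIdeal B ^ (n + 1) := by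
  constructor
  · intro h
    exact h x
  · intro h y
    have hy : y ∈ Algebra.adjoin A {x} := by rw [hx]; exact Algebra.mem_top
    obtain ⟨c, hc⟩ := sub_dvd_smul_sub_of_mem_adjoin (A := A) σ x hy
    rw [hc]
    exact Ideal.mul_mem_right _ _ h

end Adjoin

/-! ### Faithful actions of finite groups -/

theorem eq_one_of_forall_mem_ramGroup [FaithfulSMul Γ B] {σ : Γ}
    (h : ∀ n, σ ∈ ramGroup Γ B n) : σ = 1 := by
  apply FaithfulSMul.eq_of_smul_eq_smul (α := B)
  intro x
  rw [one_smul]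
  have h0 : σ • x - x ∈ (⨅ n : ℕ, maximalIdeal B ^ n : Ideal B) := by
    rw [Ideal.mem_iInf]
    intro n
    exact Ideal.pow_le_pow_right (Nat.le_succ n) (h n x)
  rw [Ideal.iInf_pow_eq_bot_of_isLocalRing (maximalIdeal B) (IsLocalRing.maximalIdeal.isMaximal B).ne_top,
    Ideal.mem_bot, sub_eq_zero] at h0
  exact h0

theorem exists_ramGroup_eq_bot [Finite Γ] [FaithfulSMul Γ B] : ∃ n, ramGroup Γ B n = ⊥ := by
  classical
  by_contra hne
  rw [not_exists] at hne
  -- every `Γ_n` contains a non-trivial element; by finiteness some element lies in all of them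
  have h1 : ∀ n, ∃ σ : Γ, σ ≠ 1 ∧ σ ∈ ramGroup Γ B n := by
    intro n
    obtain ⟨σ, hσ1⟩ := (Subgroup.ne_bot_iff_exists_ne_one).1 (hne n)
    exact ⟨σ.1, fun h => hσ1 (Subtype.ext h), σ.2⟩
  choose f hf1 hf using h1
  obtain ⟨σ, hσ⟩ := Finite.exists_infinite_fiber f
  have hall : ∀ n, σ ∈ ramGroup Γ B n := by
    intro n
    obtain ⟨m, hm, hnm⟩ := (Set.infinite_coe_iff.1 hσ).exists_gt n
    rw [Set.mem_preimage, Set.mem_singleton_iff] at hm
    have := hf m
    rw [hm] at this
    exact ramGroup_antitone hnm.le this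
  have hσ1 := eq_one_of_forall_mem_ramGroup hall
  obtain ⟨m, hm⟩ := (Set.infinite_coe_iff.1 hσ).nonempty
  rw [Set.mem_preimage, Set.mem_singleton_iff] at hm
  exact hf1 m (hm.trans hσ1)

end Fermat.Agent.S56.H334

end
-- ===== PACK-END S56/H334/RamBasic.lean

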