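import Mathlib
import Fermat.Prelude.Def_GaloisRep_StrictOrdinary
import Fermat.Prelude.Def_GaloisRep_Flat
import Fermat.Prelude.Def_ModularCurve_LaurentCoeff

-- ===== PACK-BEGIN S54/FrobLift.lean
section


set_option autoImplicit false
set_option linter.style.haveILetI false

open scoped Pointwise

namespace Fermat.Agent.S54

/-- The absolute Galois group acts continuously on the (discrete) ring of all algebraic
integers. -/
theorem continuousSMul_integralClosure :
    letI : TopologicalSpace (integralClosure ℤ (AlgebraicClosure ℚ)) := ⊥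
    ContinuousSMul (AlgebraicClosure ℚ ≃ₐ[ℚ] AlgebraicClosure ℚ)
      (integralClosure ℤ (AlgebraicClosure ℚ)) := by
  letI : TopologicalSpace (integralClosure ℤ (AlgebraicClosure ℚ)) := ⊥
  haveI : DiscreteTopology (integralClosure ℤ (AlgebraicClosure ℚ)) := ⟨rfl⟩
  haveI : Algebra.IsAlgebraic ℚ (AlgebraicClosure ℚ) := AlgebraicClosure.isAlgebraic ℚ
  refine ⟨?_⟩
  rw [continuous_prod_of_discrete_right]
  intro b
  rw [continuous_discrete_rng]
  intro c
  rw [isOpen_iff_mem_nhds]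
  intro g hg
  let E : IntermediateField ℚ (AlgebraicClosure ℚ) :=
    IntermediateField.adjoin ℚ {(b : AlgebraicClosure ℚ)}
  haveI : FiniteDimensional ℚ E :=
    IntermediateField.adjoin.finiteDimensional (Algebra.IsIntegral.isIntegral _)
  have hopen : IsOpen ((g • (E.fixingSubgroup : Set (AlgebraicClosure ℚ ≃ₐ[ℚ] AlgebraicClosure ℚ)))) :=
    (E.fixingSubgroup_isOpen).smul g
  refine Filter.mem_of_superset (hopen.mem_nhds ⟨1, one_mem _, by simp⟩) ?_
  rintro _ ⟨h, hh, rfl⟩
  simp only [Set.mem_preimage, Set.mem_singleton_iff] at hg ⊢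
  rw [← hg]
  apply Subtype.ext
  have hb : h (b : AlgebraicClosure ℚ) = b := by
    have := (IntermediateField.mem_fixingSubgroup_iff E h).mp hh b
      (IntermediateField.subset_adjoin ℚ _ (Set.mem_singleton _))
    exact this
  show (g * h) (b : AlgebraicClosure ℚ) = g (b : AlgebraicClosure ℚ)
  rw [AlgEquiv.mul_apply, hb]

/-- `ℚ̄/ℚ` is Galois. -/
theorem isGalois_algebraicClosure_rat : IsGalois ℚ (AlgebraicClosure ℚ) := by
  haveI : Algebra.IsAlgebraic ℚ (AlgebraicClosure ℚ) := AlgebraicClosure.isAlgebraic ℚ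
  haveI : IsAlgClosure ℚ (AlgebraicClosure ℚ) := ⟨inferInstance, inferInstance⟩
  haveI : Normal ℚ (AlgebraicClosure ℚ) := IsAlgClosure.normal ℚ (AlgebraicClosure ℚ)
  exact isGalois_iff.mpr ⟨inferInstance, inferInstance⟩

/-- The algebraic integers fixed by the whole absolute Galois group are the rational
integers. -/
theorem isInvariant_integralClosure :
    Algebra.IsInvariant ℤ (integralClosure ℤ (AlgebraicClosure ℚ))
      (AlgebraicClosure ℚ ≃ₐ[ℚ] AlgebraicClosure ℚ) := by
  haveI := isGalois_algebraicClosure_rat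
  refine ⟨fun b hb => ?_⟩
  have hfix : (b : AlgebraicClosure ℚ) ∈
      IntermediateField.fixedField (⊤ : Subgroup (AlgebraicClosure ℚ ≃ₐ[ℚ] AlgebraicClosure ℚ)) := by
    rintro ⟨g, -⟩
    exact congrArg Subtype.val (hb g)
  rw [InfiniteGalois.fixedField_bot, IntermediateField.mem_bot] at hfix
  obtain ⟨q, hq⟩ := hfix
  have hint : IsIntegral ℤ (b : AlgebraicClosure ℚ) := b.2
  rw [← hq, isIntegral_algebraMap_iff (FaithfulSMul.algebraMap_injective ℚ (AlgebraicClosure ℚ))]
    at hint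
  obtain ⟨n, hn⟩ := IsIntegrallyClosed.algebraMap_eq_of_integral hint
  refine ⟨n, Subtype.ext ?_⟩
  rw [← hq, ← hn]
  simp

/-- Existence of Frobenius lifts on the ring of all algebraic integers: for every prime ideal
`Q` of `ℤ̄` containing the prime number `ℓ` there is `σ ∈ Gal(ℚ̄/ℚ)` stabilising `Q` and
inducing `x ↦ x ^ ℓ` on `ℤ̄ / Q`. -/
theorem exists_frob_integralClosure (ℓ : ℕ) (hℓ : ℓ.Prime)
    (Q : Ideal (integralClosure ℤ (AlgebraicClosure ℚ))) [Q.IsPrime]
    (hQ : (ℓ : integralClosure ℤ (AlgebraicClosure ℚ)) ∈ Q) :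
    ∃ σ : AlgebraicClosure ℚ ≃ₐ[ℚ] AlgebraicClosure ℚ,
      σ • Q = Q ∧
      ∀ x : integralClosure ℤ (AlgebraicClosure ℚ), σ • x - x ^ ℓ ∈ Q := by
  haveI := isGalois_algebraicClosure_rat
  haveI : Algebra.IsAlgebraic ℚ (AlgebraicClosure ℚ) := AlgebraicClosure.isAlgebraic ℚ
  letI : TopologicalSpace (integralClosure ℤ (AlgebraicClosure ℚ)) := ⊥
  haveI : DiscreteTopology (integralClosure ℤ (AlgebraicClosure ℚ)) := ⟨rfl⟩
  haveI := continuousSMul_integralClosure
  haveI := isInvariant_integralClosure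
  haveI hℓfact : Fact ℓ.Prime := ⟨hℓ⟩
  -- the prime `P = (ℓ)` of `ℤ`
  let P : Ideal ℤ := Ideal.span {(ℓ : ℤ)}
  haveI hPmax : P.IsMaximal :=
    PrincipalIdealRing.isMaximal_of_irreducible
      (Nat.prime_iff_prime_int.mp hℓ).irreducible
  haveI hlies : Q.LiesOver P := by
    refine ⟨?_⟩
    have hle : P ≤ Q.under ℤ := by
      rw [Ideal.span_le, Set.singleton_subset_iff]
      show algebraMap ℤ (integralClosure ℤ (AlgebraicClosure ℚ)) (ℓ : ℤ) ∈ Q
      simpa using hQ
    have hne : Q.under ℤ ≠ ⊤ := (Ideal.IsPrime.under ℤ Q).ne_top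
    exact (hPmax.eq_of_le hne hle)
  -- characteristic of the quotient
  haveI : IsDomain (integralClosure ℤ (AlgebraicClosure ℚ) ⧸ Q) := Ideal.Quotient.isDomain Q
  have hzero : ((ℓ : ℕ) : integralClosure ℤ (AlgebraicClosure ℚ) ⧸ Q) = 0 := by
    have : (Ideal.Quotient.mk Q) (ℓ : integralClosure ℤ (AlgebraicClosure ℚ)) = 0 :=
      Ideal.Quotient.eq_zero_iff_mem.mpr hQ
    simpa using this
  haveI hchar : CharP (integralClosure ℤ (AlgebraicClosure ℚ) ⧸ Q) ℓ :=
    (CharP.charP_iff_prime_eq_zero hℓ).mpr hzero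
  -- the Frobenius as an algebra automorphism
  let f : (integralClosure ℤ (AlgebraicClosure ℚ) ⧸ Q) →ₐ[ℤ ⧸ P]
      (integralClosure ℤ (AlgebraicClosure ℚ) ⧸ Q) :=
    { toRingHom := frobenius (integralClosure ℤ (AlgebraicClosure ℚ) ⧸ Q) ℓ
      commutes' := by
        intro y
        obtain ⟨n, rfl⟩ := Ideal.Quotient.mk_surjective y
        show frobenius _ ℓ (algebraMap (ℤ ⧸ P) _ (Ideal.Quotient.mk P n)) =
          algebraMap (ℤ ⧸ P) _ (Ideal.Quotient.mk P n)
        have h1 : algebraMap (ℤ ⧸ P) (integralClosure ℤ (AlgebraicClosure ℚ) ⧸ Q)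
            (Ideal.Quotient.mk P n) = ((n : ℤ) : integralClosure ℤ (AlgebraicClosure ℚ) ⧸ Q) := by
          rw [← Ideal.Quotient.algebraMap_eq, ← IsScalarTower.algebraMap_apply]
          simp
        rw [h1, map_intCast] }
  have hinj : Function.Injective f := frobenius_inj _ ℓ
  have hsurj : Function.Surjective f := by
    intro y
    obtain ⟨b, rfl⟩ := Ideal.Quotient.mk_surjective y
    obtain ⟨c, hc⟩ := IsAlgClosed.exists_pow_nat_eq (b : AlgebraicClosure ℚ) hℓ.pos
    have hcint : IsIntegral ℤ c := by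
      have hb : IsIntegral ℤ (c ^ ℓ) := hc ▸ b.2
      exact IsIntegral.of_pow hℓ.pos hb
    refine ⟨Ideal.Quotient.mk Q ⟨c, hcint⟩, ?_⟩
    show frobenius _ ℓ (Ideal.Quotient.mk Q ⟨c, hcint⟩) = _
    rw [frobenius_def, ← map_pow]
    congr 1
    exact Subtype.ext hc
  let e : (integralClosure ℤ (AlgebraicClosure ℚ) ⧸ Q) ≃ₐ[ℤ ⧸ P]
      (integralClosure ℤ (AlgebraicClosure ℚ) ⧸ Q) :=
    AlgEquiv.ofBijective f ⟨hinj, hsurj⟩
  obtain ⟨σ, hσ⟩ := Ideal.Quotient.stabilizerHom_surjective_of_profinite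
    (G := AlgebraicClosure ℚ ≃ₐ[ℚ] AlgebraicClosure ℚ) P Q e
  refine ⟨σ.1, σ.2, fun x => ?_⟩
  have h2 := congrArg (fun t => t (Ideal.Quotient.mk Q x)) hσ
  simp only [Ideal.Quotient.stabilizerHom_apply] at h2
  have h3 : e (Ideal.Quotient.mk Q x) = Ideal.Quotient.mk Q (x ^ ℓ) := by
    show frobenius _ ℓ (Ideal.Quotient.mk Q x) = _
    rw [frobenius_def, map_pow]
  rw [h3] at h2
  rw [← Ideal.Quotient.eq]
  exact h2

end Fermat.Agent.S54

end
-- ===== PACK-END S54/FrobLift.lean

-- ===== PACK-BEGIN S56/H956/TWPLinAlg.lean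
section


/-!
# S56 / TWP — linear algebra: distinct eigenvalues pass from a power to the element (helper956)

If `g = f ^ j` has two distinct eigenvalues in `k` (on a two-dimensional space) and the
characteristic polynomial of `f` splits as `(X - a) (X - b)`, then `a ≠ b`.
-/

set_option autoImplicit false

open Polynomial

namespace Fermat.Agent.S56.H956

variable {k : Type*} [Field k] {V : Type*} [AddCommGroup V] [Module k V] [Module.Finite k V]

/-- A root of the characteristic polynomial of `g` is a root of every polynomial killing `g`. -/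
theorem isRoot_of_isRoot_charpoly_of_aeval_eq_zero (g : Module.End k V) (P : k[X])
    (hP : aeval g P = 0) {α : k} (hα : (LinearMap.charpoly g).IsRoot α) : P.IsRoot α := by
  have hev : g.HasEigenvalue α := (Module.End.hasEigenvalue_iff_isRoot_charpoly g α).mpr hα
  obtain ⟨v, hv⟩ := hev.exists_hasEigenvector
  have h1 := Module.End.aeval_apply_of_hasEigenvector (p := P) hv
  rw [hP, LinearMap.zero_apply] at h1
  rcases smul_eq_zero.mp h1.symm with h | h
  · exact h
  · exact absurd h hv.2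

/-- If `charpoly f = (X - a)^2` then `(f ^ j - a ^ j)^2 = 0`. -/
theorem aeval_pow_sub_sq_eq_zero (f : Module.End k V) (a : k)
    (hf : LinearMap.charpoly f = (X - C a) * (X - C a)) (j : ℕ) :
    aeval (f ^ j) ((X - C (a ^ j)) * (X - C (a ^ j)) : k[X]) = 0 := by
  have hCH : aeval f ((X - C a) * (X - C a) : k[X]) = 0 := by
    rw [← hf]
    exact LinearMap.aeval_self_charpoly f
  obtain ⟨h, hh⟩ : (X - C a : k[X]) ∣ X ^ j - C (a ^ j) := by
    rw [C_pow]
    exact sub_dvd_pow_sub_pow X (C a) j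
  have h2 : aeval (f ^ j) (X - C (a ^ j) : k[X]) = aeval f (X ^ j - C (a ^ j) : k[X]) := by
    simp
  rw [map_mul, h2, hh, ← map_mul]
  have h3 : ((X - C a) * h * ((X - C a) * h) : k[X]) = (X - C a) * (X - C a) * (h * h) := by
    ring
  rw [h3, map_mul, hCH, zero_mul]

/-- **Distinct eigenvalues descend along powers.** -/
theorem ne_of_pow_charpoly (f : Module.End k V) (j : ℕ) {a b α β : k}
    (hf : LinearMap.charpoly f = (X - C a) * (X - C b))
    (hg : LinearMap.charpoly (f ^ j) = (X - C α) * (X - C β)) (hαβ : α ≠ β) : a ≠ b := by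
  rintro rfl
  have h0 := aeval_pow_sub_sq_eq_zero f a hf j
  have hα : (LinearMap.charpoly (f ^ j)).IsRoot α := by
    rw [hg, IsRoot.def, eval_mul, eval_sub, eval_X, eval_C, sub_self, zero_mul]
  have hβ : (LinearMap.charpoly (f ^ j)).IsRoot β := by
    rw [hg, IsRoot.def, eval_mul, eval_sub, eval_X, eval_C, eval_sub, eval_X, eval_C, sub_self,
      mul_zero]
  have h1 := isRoot_of_isRoot_charpoly_of_aeval_eq_zero (f ^ j) _ h0 hα
  have h2 := isRoot_of_isRoot_charpoly_of_aeval_eq_zero (f ^ j) _ h0 hβ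
  rw [IsRoot.def, eval_mul, eval_sub, eval_X, eval_C, mul_self_eq_zero, sub_eq_zero] at h1 h2
  exact hαβ (h1.trans h2.symm)

end Fermat.Agent.S56.H956

end
-- ===== PACK-END S56/H956/TWPLinAlg.lean

-- ===== PACK-BEGIN S56/H726/Mat2.lean
section


/-!
# S56 / P3(b) — `2 × 2` matrix identities (helper726)

Elementary identities for `2 × 2` matrices over a field used in the classification-free proof
of `H¹(Gal(F_n/ℚ), ad⁰ρ̄(1)) = 0`.
-/

set_option autoImplicit false

namespace Fermat.Agent.S56.H726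

open Matrix

variable {k : Type*} [Field k]

/-- Cayley–Hamilton for `2 × 2` matrices. -/
theorem m2_sq (B : Matrix (Fin 2) (Fin 2) k) :
    B * B = B.trace • B - B.det • (1 : Matrix (Fin 2) (Fin 2) k) := by
  ext i j
  fin_cases i <;> fin_cases j <;>
    simp [Matrix.mul_apply, Fin.sum_univ_two, Matrix.trace_fin_two, Matrix.det_fin_two] <;> ring

/-- Polarised Cayley–Hamilton for `2 × 2` matrices. -/
theorem m2_polar (X Y : Matrix (Fin 2) (Fin 2) k) :
    X * Y + Y * X = X.trace • Y + Y.trace • X +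
      ((X * Y).trace - X.trace * Y.trace) • (1 : Matrix (Fin 2) (Fin 2) k) := by
  ext i j
  fin_cases i <;> fin_cases j <;>
    simp [Matrix.mul_apply, Fin.sum_univ_two, Matrix.trace_fin_two] <;> ring

/-- The inverse of a matrix of determinant one. -/
theorem m2_inv_of_det_one {B B' : Matrix (Fin 2) (Fin 2) k} (hdet : B.det = 1)
    (h : B * B' = 1) : B' = B.trace • (1 : Matrix (Fin 2) (Fin 2) k) - B := by
  have h1 : B * (B.trace • (1 : Matrix (Fin 2) (Fin 2) k) - B) = 1 := by
    rw [mul_sub, m2_sq, hdet]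
    simp
  have h2 : B' * B = 1 := mul_eq_one_comm.mp h
  calc B' = B' * (B * (B.trace • (1 : Matrix (Fin 2) (Fin 2) k) - B)) := by rw [h1, mul_one]
    _ = (B' * B) * (B.trace • (1 : Matrix (Fin 2) (Fin 2) k) - B) := by rw [mul_assoc]
    _ = _ := by rw [h2, one_mul]

/-- `B + B⁻¹ = tr B` for `det B = 1`. -/
theorem m2_add_inv {B B' : Matrix (Fin 2) (Fin 2) k} (hdet : B.det = 1)
    (h : B * B' = 1) : B + B' = B.trace • (1 : Matrix (Fin 2) (Fin 2) k) := by
  rw [m2_inv_of_det_one hdet h]; abel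

/-- `Z - B⁻¹ Z B⁻¹ = tr(Z) • 1` when `tr (Z B⁻¹) = 0`, `det B = 1`. -/
theorem m2_sub_conj {B B' Z : Matrix (Fin 2) (Fin 2) k} (hdet : B.det = 1)
    (h : B * B' = 1) (hZ : (Z * B').trace = 0) :
    Z - B' * Z * B' = Z.trace • (1 : Matrix (Fin 2) (Fin 2) k) := by
  have h2 : B' * B = 1 := mul_eq_one_comm.mp h
  have hYB : Z * B' * B = Z := by rw [mul_assoc, h2, mul_one]
  have hB' := m2_inv_of_det_one hdet h
  have hpol := m2_polar B (Z * B')
  have htr : (B * (Z * B')).trace = Z.trace := by rw [Matrix.trace_mul_comm, hYB]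
  rw [hZ, htr, hYB] at hpol
  have e1 : B' * Z * B' = B.trace • (Z * B') - B * (Z * B') := by
    rw [mul_assoc]; nth_rewrite 1 [hB']; rw [sub_mul, smul_mul_assoc, one_mul]
  rw [e1]
  linear_combination (norm := module) hpol

/-- `n X n = tr(n X) • n` for a nilpotent `2 × 2` matrix `n` (`n² = 0`, `tr n = 0`). -/
theorem m2_nil_sandwich {n : Matrix (Fin 2) (Fin 2) k} (hn : n * n = 0) (htr : n.trace = 0)
    (X : Matrix (Fin 2) (Fin 2) k) : n * X * n = (n * X).trace • n := by
  have hpol := m2_polar n (X * n)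
  have h1 : X * n * n = 0 := by rw [mul_assoc, hn, mul_zero]
  have h2 : (n * (X * n)).trace = 0 := by
    rw [Matrix.trace_mul_comm, h1, Matrix.trace_zero]
  rw [h1, add_zero, htr, h2, Matrix.trace_mul_comm X n] at hpol
  rw [mul_assoc, hpol]
  module

/-- A square-zero `2 × 2` matrix has trace zero. -/
theorem m2_trace_of_sq_zero {n : Matrix (Fin 2) (Fin 2) k} (hn : n * n = 0) : n.trace = 0 := by
  have h := m2_sq n
  rw [hn] at h
  have hdet : n.det = 0 := by
    have : (n * n).det = 0 := by rw [hn]; simp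
    rw [Matrix.det_mul] at this
    exact mul_self_eq_zero.mp this
  rw [hdet, zero_smul, sub_zero] at h
  by_contra ht
  have hn0 : n = 0 := by
    have := h.symm
    rcases smul_eq_zero.mp this with h' | h'
    · exact absurd h' ht
    · exact h'
  exact ht (by rw [hn0, Matrix.trace_zero])

/-- Nondegeneracy of the trace form on `2 × 2` matrices. -/
theorem m2_eq_zero_of_trace_mul {Y : Matrix (Fin 2) (Fin 2) k}
    (h : ∀ X : Matrix (Fin 2) (Fin 2) k, (X * Y).trace = 0) : Y = 0 := by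
  ext i j
  have key : (Matrix.single j i (1 : k) * Y).trace = Y i j := by
    fin_cases i <;> fin_cases j <;>
      simp [Matrix.trace_fin_two, Matrix.mul_apply, Fin.sum_univ_two, Matrix.single_apply]
  rw [← key, h]; rfl

end Fermat.Agent.S56.H726

end
-- ===== PACK-END S56/H726/Mat2.lean

-- ===== PACK-BEGIN S56/H726/Seq.lean
section


/-!
# S56 / P3(b) — the second order recurrence (helper726)

Pure algebra over a field `k` of characteristic `p`: sequences `F : ℕ → k` with
`F (j+2) - 2 F (j+1) + F j = μ (t₀ + (j+1) c)` which vanish whenever `(t₀ + j c)² ≠ 4`.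
-/

set_option autoImplicit false

namespace Fermat.Agent.S56.H726

open Polynomial

variable {k : Type*} [Field k]

/-- Small natural numbers are nonzero in characteristic `p`. -/
theorem natCast_ne_zero_of_lt (p : ℕ) [CharP k p] {n : ℕ} (h0 : n ≠ 0) (hn : n < p) :
    (n : k) ≠ 0 := by
  intro h
  have := (CharP.cast_eq_zero_iff k p n).mp h
  exact absurd (Nat.le_of_dvd (Nat.pos_of_ne_zero h0) this) (not_le.mpr hn)

/-- The case `p = 3`. -/
theorem seq_three [CharP k 3] (F : ℕ → k) (μ t₀ c : k)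
    (hrec : ∀ j : ℕ, F (j + 2) - 2 * F (j + 1) + F j = μ * (t₀ + ((j : k) + 1) * c))
    (hper : ∀ j, F (j + 3) = F j) : μ * c = 0 := by
  have h3 : (3 : k) = 0 := by
    have := CharP.cast_eq_zero k 3
    exact_mod_cast this
  have e0 := hrec 0
  have e1 := hrec 1
  have e3 := hper 0
  simp only [zero_add, Nat.cast_zero, Nat.cast_one] at e0 e1 e3
  norm_num at e0 e1
  rw [e3] at e1
  linear_combination e0 - e1 + (F 1 - F 2) * h3

/-- The cubic polynomial interpolating the sequence. -/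
noncomputable def seqPoly (A B μ t₀ c : k) : k[X] :=
  C A + C B * X + C (μ * t₀ / 2) * (X * (X - 1)) + C (μ * c / 6) * ((X + 1) * X * (X - 1))

theorem seqPoly_eval (A B μ t₀ c x : k) :
    (seqPoly A B μ t₀ c).eval x =
      A + B * x + (μ * t₀ / 2) * (x * (x - 1)) + (μ * c / 6) * ((x + 1) * x * (x - 1)) := by
  simp [seqPoly]

theorem seqPoly_natDegree_le (A B μ t₀ c : k) : (seqPoly A B μ t₀ c).natDegree ≤ 3 := by
  unfold seqPoly
  compute_degree

/-- The sequence is given by the cubic polynomial. -/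
theorem seq_eq_eval (h2 : (2 : k) ≠ 0) (h6 : (6 : k) ≠ 0) (F : ℕ → k) (μ t₀ c : k)
    (hrec : ∀ j : ℕ, F (j + 2) - 2 * F (j + 1) + F j = μ * (t₀ + ((j : k) + 1) * c)) :
    ∀ j : ℕ, F j = (seqPoly (F 0) (F 1 - F 0) μ t₀ c).eval (j : k) := by
  have key : ∀ j : ℕ, F j = (seqPoly (F 0) (F 1 - F 0) μ t₀ c).eval (j : k) ∧
      F (j + 1) = (seqPoly (F 0) (F 1 - F 0) μ t₀ c).eval ((j + 1 : ℕ) : k) := by
    intro j
    induction j with
    | zero =>
      refine ⟨?_, ?_⟩
      · simp [seqPoly_eval]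
      · simp [seqPoly_eval]
    | succ j ih =>
      refine ⟨ih.2, ?_⟩
      have hr := hrec j
      have e : F (j + 1 + 1) = 2 * F (j + 1) - F j + μ * (t₀ + ((j : k) + 1) * c) := by
        linear_combination hr
      rw [e, ih.1, ih.2]
      simp only [seqPoly_eval]
      push_cast
      field_simp
      ring
  exact fun j => (key j).1

/-- The case `p ≥ 7`. -/
theorem seq_cubic (p : ℕ) [Fact p.Prime] [CharP k p] (hp : 7 ≤ p)
    (F : ℕ → k) (μ t₀ c : k)
    (hrec : ∀ j : ℕ, F (j + 2) - 2 * F (j + 1) + F j = μ * (t₀ + ((j : k) + 1) * c))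
    (hvan : ∀ j : ℕ, (t₀ + (j : k) * c) ^ 2 ≠ 4 → F j = 0) : μ * c = 0 := by
  have h2 : (2 : k) ≠ 0 := by
    have := natCast_ne_zero_of_lt (k := k) p (n := 2) (by norm_num) (by omega)
    exact_mod_cast this
  have h6 : (6 : k) ≠ 0 := by
    have := natCast_ne_zero_of_lt (k := k) p (n := 6) (by norm_num) (by omega)
    exact_mod_cast this
  have hF := seq_eq_eval h2 h6 F μ t₀ c hrec
  have hPdeg := seqPoly_natDegree_le (F 0) (F 1 - F 0) μ t₀ c
  generalize seqPoly (F 0) (F 1 - F 0) μ t₀ c = P at hF hPdeg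
  set R : k[X] := (C t₀ + C c * X) ^ 2 - C 4 with hR
  have hRdeg : R.natDegree ≤ 2 := by
    rw [hR]; compute_degree
  have hReval : ∀ x : k, R.eval x = (t₀ + x * c) ^ 2 - 4 := by
    intro x
    rw [hR]
    simp only [Polynomial.eval_sub, Polynomial.eval_pow, Polynomial.eval_add,
      Polynomial.eval_mul, Polynomial.eval_C, Polynomial.eval_X]
    ring
  have hQdeg : (P * R).natDegree ≤ 5 :=
    (Polynomial.natDegree_mul_le).trans (by omega)
  have hinj : Function.Injective (fun i : Fin p => ((i : ℕ) : k)) := by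
    intro i j hij
    have := (CharP.natCast_eq_natCast k p).mp hij
    apply Fin.ext
    have hi := Nat.mod_eq_of_lt i.isLt
    have hj := Nat.mod_eq_of_lt j.isLt
    unfold Nat.ModEq at this
    omega
  have heval : ∀ i : Fin p, (P * R).eval ((i : ℕ) : k) = 0 := by
    intro i
    rw [Polynomial.eval_mul]
    by_cases h : (t₀ + ((i : ℕ) : k) * c) ^ 2 = 4
    · rw [hReval, h, sub_self, mul_zero]
    · rw [← hF, hvan _ h, zero_mul]
  have hQ : P * R = 0 :=
    Polynomial.eq_zero_of_natDegree_lt_card_of_eval_eq_zero _ hinj heval (by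
      rw [Fintype.card_fin]; omega)
  rcases mul_eq_zero.mp hQ with hP0 | hR0
  · have hF0 : ∀ j, F j = 0 := fun j => by rw [hF j, hP0, Polynomial.eval_zero]
    have e0 := hrec 0
    have e1 := hrec 1
    simp only [hF0, Nat.cast_zero, Nat.cast_one] at e0 e1
    linear_combination e0 - e1
  · have r0 : R.eval 0 = 0 := by rw [hR0, Polynomial.eval_zero]
    have r1 : R.eval 1 = 0 := by rw [hR0, Polynomial.eval_zero]
    have r2 : R.eval 2 = 0 := by rw [hR0, Polynomial.eval_zero]
    rw [hReval] at r0 r1 r2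
    have hc2 : 2 * c ^ 2 = 0 := by linear_combination r2 - 2 * r1 + r0
    have hc : c = 0 := by
      rcases mul_eq_zero.mp hc2 with h | h
      · exact absurd h h2
      · exact pow_eq_zero_iff (by norm_num) |>.mp h
    rw [hc, mul_zero]

/-- The case `p = 5` (with `t₀ = 2`). -/
theorem seq_five [CharP k 5] (F : ℕ → k) (μ e : k)
    (hrec : ∀ j : ℕ, F (j + 2) - 2 * F (j + 1) + F j = μ * (2 + ((j : k) + 1) * e))
    (hper : ∀ j, F (j + 5) = F j)
    (hvan : ∀ j : ℕ, (2 + (j : k) * e) ^ 2 ≠ 4 → F j = 0)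
    (he : e ≠ 0) (hμ : μ ≠ 0) : F 0 = μ ∨ F 0 = -μ := by
  have h5 : (5 : k) = 0 := by
    have := CharP.cast_eq_zero k 5
    exact_mod_cast this
  have n1 : (1 : k) ≠ 0 := one_ne_zero
  have n2 : (2 : k) ≠ 0 := by
    have := natCast_ne_zero_of_lt (k := k) 5 (n := 2) (by norm_num) (by norm_num)
    exact_mod_cast this
  have n3 : (3 : k) ≠ 0 := by
    have := natCast_ne_zero_of_lt (k := k) 5 (n := 3) (by norm_num) (by norm_num)
    exact_mod_cast this
  have n4 : (4 : k) ≠ 0 := by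
    have := natCast_ne_zero_of_lt (k := k) 5 (n := 4) (by norm_num) (by norm_num)
    exact_mod_cast this
  -- vanishing criterion
  have van : ∀ j : ℕ, (j : k) ≠ 0 → (j : k) * e ≠ 1 → F j = 0 := by
    intro j hj hje
    apply hvan
    intro h
    have : (j : k) * e * ((j : k) * e - 1) = 0 := by
      linear_combination h - (j : k) * e * h5
    rcases mul_eq_zero.mp this with h' | h'
    · exact (mul_ne_zero hj he) h'
    · exact hje (sub_eq_zero.mp h')
  have e0 := hrec 0
  have e1 := hrec 1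
  have e2 := hrec 2
  have e3 := hrec 3
  have p0 := hper 0
  simp only [zero_add, Nat.cast_zero, Nat.cast_one, Nat.cast_ofNat] at e0 e1 e2 e3 p0
  norm_num at e0 e1 e2 e3
  rw [p0] at e3
  have v1 := van 1
  have v2 := van 2
  have v3 := van 3
  have v4 := van 4
  simp only [Nat.cast_one, Nat.cast_ofNat, one_mul] at v1 v2 v3 v4
  by_cases c1 : e = 1
  · -- m = 1
    have f2 : F 2 = 0 := v2 n2 (by rw [c1]; intro h; apply n1; linear_combination h)
    have f3 : F 3 = 0 := v3 n3 (by rw [c1]; intro h; apply n2; linear_combination h)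
    have f4 : F 4 = 0 := v4 n4 (by rw [c1]; intro h; apply n3; linear_combination h)
    left
    rw [f2, f3] at e1
    rw [f2] at e0
    rw [c1] at e0 e1
    linear_combination e0 + 2 * e1 + 2 * μ * h5
  by_cases c2 : 2 * e = 1
  · have f1 : F 1 = 0 := v1 n1 c1
    have f3 : F 3 = 0 := v3 n3 (by intro h; apply he; linear_combination h - c2)
    have f4 : F 4 = 0 := v4 n4 (by intro h; apply n1; linear_combination h - 2 * c2)
    right
    rw [f3, f4] at e3
    linear_combination e3 + 2 * μ * c2 + μ * h5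
  by_cases c3 : 3 * e = 1
  · have f1 : F 1 = 0 := v1 n1 c1
    have f2 : F 2 = 0 := v2 n2 c2
    right
    rw [f1, f2] at e0
    -- e = 2 : from 3 e = 1, 6 e = 2, e = 2
    linear_combination e0 + 2 * μ * c3 + μ * (1 - e) * h5
  by_cases c4 : 4 * e = 1
  · have f1 : F 1 = 0 := v1 n1 c1
    have f2 : F 2 = 0 := v2 n2 c2
    left
    rw [f1, f2] at e0
    -- e = -1 = 4
    linear_combination e0 - μ * c4 + μ * e * h5
  · exfalso
    have f1 : F 1 = 0 := v1 n1 c1
    have f2 : F 2 = 0 := v2 n2 c2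
    have f3 : F 3 = 0 := v3 n3 c3
    rw [f1, f2, f3] at e1
    have : μ * (2 + 2 * e) = 0 := by linear_combination -e1
    rcases mul_eq_zero.mp this with h | h
    · exact hμ h
    · apply c4
      linear_combination 2 * h - h5

end Fermat.Agent.S56.H726

end
-- ===== PACK-END S56/H726/Seq.lean

-- ===== PACK-BEGIN S56/P3/H769/Lines.lean
section


/-!
# S56 / P3, piece SPAN (helper769), part 1: lines in a plane and a Clifford-type lemma

* `scalar_of_three_lines` : an endomorphism of a 2-dimensional space preserving three distinct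
  lines is a scalar;
* `irr_of_normal_cyclic` : let `r : Γ →* End_K U`, `dim U = 2`, `K` algebraically closed, be
  irreducible and irreducible on every subgroup of index 2, and let `Δ ⊴ Γ` have cyclic quotient;
  then `r|_Δ` is irreducible.
-/

set_option autoImplicit false
set_option linter.style.haveILetI false

namespace Fermat.Agent.S56.P3.H769

open Module

section Lines

variable {K : Type*} [Field K] {U : Type*} [AddCommGroup U] [Module K U]

/-- A proper nonzero subspace of a plane is spanned by any of its nonzero vectors. -/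
theorem exists_smul_eq_of_mem [FiniteDimensional K U] (h2 : finrank K U = 2)
    {W : Submodule K U} (hbot : W ≠ ⊥) (htop : W ≠ ⊤) {u : U} (hu : u ∈ W) (hu0 : u ≠ 0)
    {x : U} (hx : x ∈ W) : ∃ c : K, x = c • u := by
  have h1 : finrank K W = 1 := by
    have hlt := Submodule.finrank_lt htop
    have hpos : 0 < finrank K W := by
      rw [Module.finrank_pos_iff]
      exact (Submodule.nontrivial_iff_ne_bot).mpr hbot
    omega
  have hu0' : (⟨u, hu⟩ : W) ≠ 0 := fun h => hu0 (congrArg Subtype.val h)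
  obtain ⟨c, hc⟩ := (finrank_eq_one_iff_of_nonzero' (⟨u, hu⟩ : W) hu0').mp h1 ⟨x, hx⟩
  exact ⟨c, (congrArg Subtype.val hc).symm⟩

/-- Two lines of a plane sharing a nonzero vector are equal. -/
theorem eq_of_mem_of_mem [FiniteDimensional K U] (h2 : finrank K U = 2)
    {W W' : Submodule K U} (hbot : W ≠ ⊥) (htop : W ≠ ⊤) (hbot' : W' ≠ ⊥) (htop' : W' ≠ ⊤)
    {z : U} (hz : z ∈ W) (hz' : z ∈ W') (hz0 : z ≠ 0) : W = W' := by
  apply le_antisymm
  · intro x hx
    obtain ⟨c, rfl⟩ := exists_smul_eq_of_mem h2 hbot htop hz hz0 hx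
    exact W'.smul_mem c hz'
  · intro x hx
    obtain ⟨c, rfl⟩ := exists_smul_eq_of_mem h2 hbot' htop' hz' hz0 hx
    exact W.smul_mem c hz

/-- An endomorphism of a plane which preserves three distinct lines is a scalar. -/
theorem scalar_of_three_lines [FiniteDimensional K U] (h2 : finrank K U = 2)
    (T : Module.End K U) {W₁ W₂ W₃ : Submodule K U}
    (h12 : W₁ ≠ W₂) (h13 : W₁ ≠ W₃) (h23 : W₂ ≠ W₃)
    (b1 : W₁ ≠ ⊥) (t1 : W₁ ≠ ⊤) (b2 : W₂ ≠ ⊥) (t2 : W₂ ≠ ⊤) (b3 : W₃ ≠ ⊥) (t3 : W₃ ≠ ⊤)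
    (s1 : ∀ x ∈ W₁, T x ∈ W₁) (s2 : ∀ x ∈ W₂, T x ∈ W₂) (s3 : ∀ x ∈ W₃, T x ∈ W₃) :
    ∃ c : K, ∀ x, T x = c • x := by
  obtain ⟨u, hu, hu0⟩ := Submodule.exists_mem_ne_zero_of_ne_bot b1
  obtain ⟨v, hv, hv0⟩ := Submodule.exists_mem_ne_zero_of_ne_bot b2
  obtain ⟨w, hw, hw0⟩ := Submodule.exists_mem_ne_zero_of_ne_bot b3
  have hli : LinearIndependent K ![u, v] := by
    rw [LinearIndependent.pair_iff]
    intro s t hst
    by_contra hne
    have hs : s ≠ 0 := by
      intro hs0
      rw [hs0, zero_smul, zero_add] at hst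
      rcases smul_eq_zero.mp hst with h | h
      · exact hne ⟨hs0, h⟩
      · exact hv0 h
    have hu2 : u ∈ W₂ := by
      have h1 : s • u = -(t • v) := eq_neg_of_add_eq_zero_left hst
      have h3 : u = (-(s⁻¹ * t)) • v := by
        calc u = s⁻¹ • (s • u) := by rw [smul_smul, inv_mul_cancel₀ hs, one_smul]
          _ = s⁻¹ • (-(t • v)) := by rw [h1]
          _ = (-(s⁻¹ * t)) • v := by rw [smul_neg, smul_smul, neg_smul]
      rw [h3]
      exact W₂.smul_mem _ hv
    exact h12 (eq_of_mem_of_mem h2 b1 t1 b2 t2 hu hu2 hu0)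
  have hspan : Submodule.span K (Set.range ![u, v]) = ⊤ :=
    hli.span_eq_top_of_card_eq_finrank' (by simp [h2])
  have hmem : ∀ x : U, ∃ a b : K, a • u + b • v = x := by
    intro x
    have hx : x ∈ Submodule.span K (Set.range ![u, v]) := by rw [hspan]; trivial
    have hr : Set.range ![u, v] = {u, v} := by
      ext y
      simp only [Set.mem_range, Set.mem_insert_iff, Set.mem_singleton_iff]
      constructor
      · rintro ⟨i, rfl⟩
        fin_cases i
        · left; rfl
        · right; rfl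
      · rintro (rfl | rfl)
        · exact ⟨0, rfl⟩
        · exact ⟨1, rfl⟩
    rw [hr] at hx
    exact Submodule.mem_span_pair.mp hx
  obtain ⟨α, hα⟩ := exists_smul_eq_of_mem h2 b1 t1 hu hu0 (s1 u hu)
  obtain ⟨β, hβ⟩ := exists_smul_eq_of_mem h2 b2 t2 hv hv0 (s2 v hv)
  obtain ⟨γ, hγ⟩ := exists_smul_eq_of_mem h2 b3 t3 hw hw0 (s3 w hw)
  obtain ⟨a, b, hab⟩ := hmem w
  have ha : a ≠ 0 := by
    intro ha0
    rw [ha0, zero_smul, zero_add] at hab
    have hw2 : w ∈ W₂ := by rw [← hab]; exact W₂.smul_mem _ hv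
    exact h23 (eq_of_mem_of_mem h2 b2 t2 b3 t3 hw2 hw hw0)
  have hb : b ≠ 0 := by
    intro hb0
    rw [hb0, zero_smul, add_zero] at hab
    have hw1 : w ∈ W₁ := by rw [← hab]; exact W₁.smul_mem _ hu
    exact h13 (eq_of_mem_of_mem h2 b1 t1 b3 t3 hw1 hw hw0)
  have hTw : a • (α • u) + b • (β • v) = γ • (a • u + b • v) := by
    rw [← hα, ← hβ, ← map_smul, ← map_smul, ← map_add, hab, hγ]
  have hzero : (a * α - γ * a) • u + (b * β - γ * b) • v = 0 := by
    have h0 := sub_eq_zero.mpr hTw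
    rw [← h0]
    simp only [smul_add, smul_smul, sub_smul]
    abel
  obtain ⟨h1, h2'⟩ := (LinearIndependent.pair_iff.mp hli) _ _ hzero
  have hαγ : α = γ := by
    have : a * (α - γ) = 0 := by linear_combination h1
    rcases mul_eq_zero.mp this with h | h
    · exact absurd h ha
    · exact sub_eq_zero.mp h
  have hβγ : β = γ := by
    have : b * (β - γ) = 0 := by linear_combination h2'
    rcases mul_eq_zero.mp this with h | h
    · exact absurd h hb
    · exact sub_eq_zero.mp h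
  refine ⟨γ, fun x => ?_⟩
  obtain ⟨s, t, rfl⟩ := hmem x
  rw [map_add, map_smul, map_smul, hα, hβ, hαγ, hβγ, smul_add, smul_comm s γ u,
    smul_comm t γ v]

end Lines

section Clifford

variable {K : Type*} [Field K] {U : Type*} [AddCommGroup U] [Module K U]
variable {Γ : Type*} [Group Γ] (r : Γ →* Module.End K U)

theorem r_inv_apply (g : Γ) (x : U) : r g⁻¹ (r g x) = x := by
  have h : r g⁻¹ * r g = 1 := by rw [← map_mul, inv_mul_cancel, map_one]
  exact congrArg (fun f : Module.End K U => f x) h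

theorem r_apply_inv (g : Γ) (x : U) : r g (r g⁻¹ x) = x := by
  have h : r g * r g⁻¹ = 1 := by rw [← map_mul, mul_inv_cancel, map_one]
  exact congrArg (fun f : Module.End K U => f x) h

theorem r_injective (g : Γ) : Function.Injective (r g) :=
  Function.LeftInverse.injective (r_inv_apply r g)

theorem map_r_mul (g h : Γ) (W : Submodule K U) :
    W.map (r (g * h)) = (W.map (r h)).map (r g) := by
  rw [map_mul, Module.End.mul_eq_comp, Submodule.map_comp]

theorem map_r_one (W : Submodule K U) : W.map (r 1) = W := by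
  rw [map_one]
  exact Submodule.map_id W

/-- The stabiliser of a subspace. -/
def stab (W : Submodule K U) : Subgroup Γ where
  carrier := {g | W.map (r g) = W}
  one_mem' := map_r_one r W
  mul_mem' := by
    intro a b ha hb
    show W.map (r (a * b)) = W
    rw [map_r_mul, hb, ha]
  inv_mem' := by
    intro a ha
    show W.map (r a⁻¹) = W
    have h1 : W.map (r a⁻¹) = (W.map (r a)).map (r a⁻¹) := by rw [ha]
    rw [h1, ← map_r_mul, inv_mul_cancel, map_r_one]

theorem mem_stab {W : Submodule K U} {g : Γ} : g ∈ stab r W ↔ W.map (r g) = W := Iff.rfl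

theorem mem_stab_of_stable {W : Submodule K U} {g : Γ} (h : ∀ x ∈ W, r g x ∈ W)
    (h' : ∀ x ∈ W, r g⁻¹ x ∈ W) : g ∈ stab r W := by
  rw [mem_stab]
  apply le_antisymm
  · rintro _ ⟨x, hx, rfl⟩
    exact h x hx
  · intro x hx
    exact ⟨r g⁻¹ x, h' x hx, r_apply_inv r g x⟩

theorem stable_of_mem_stab {W : Submodule K U} {g : Γ} (hg : g ∈ stab r W) (x : U)
    (hx : x ∈ W) : r g x ∈ W := by
  have h : W.map (r g) = W := hg
  rw [← h]
  exact Submodule.mem_map_of_mem hx

theorem map_r_ne_bot {W : Submodule K U} (hbot : W ≠ ⊥) (g : Γ) : W.map (r g) ≠ ⊥ := by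
  intro h
  apply hbot
  rw [Submodule.eq_bot_iff] at h ⊢
  intro x hx
  exact r_injective r g ((h _ (Submodule.mem_map_of_mem hx)).trans (map_zero _).symm)

theorem map_r_ne_top {W : Submodule K U} (htop : W ≠ ⊤) (g : Γ) : W.map (r g) ≠ ⊤ := by
  intro h
  apply htop
  rw [Submodule.eq_top_iff'] at h ⊢
  intro x
  obtain ⟨y, hy, hyx⟩ := h (r g x)
  rwa [← r_injective r g hyx]

variable [IsAlgClosed K] [FiniteDimensional K U]

/-- **Clifford-type lemma.**  If `r` is irreducible, irreducible on every subgroup of index 2, and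
`Δ` is a normal subgroup with cyclic quotient, then `r|_Δ` is irreducible (`dim U = 2`, `K`
algebraically closed). -/
theorem irr_of_normal_cyclic (h2 : finrank K U = 2) (Δ : Subgroup Γ) [hΔn : Δ.Normal]
    (hcyc : IsCyclic (Γ ⧸ Δ))
    (hirr : ∀ W : Submodule K U, (∀ g : Γ, ∀ x ∈ W, r g x ∈ W) → W = ⊥ ∨ W = ⊤)
    (htw : ∀ G : Subgroup Γ, G.index = 2 → ∀ W : Submodule K U,
      (∀ g ∈ G, ∀ x ∈ W, r g x ∈ W) → W = ⊥ ∨ W = ⊤)
    (W : Submodule K U) (hW : ∀ δ ∈ Δ, ∀ x ∈ W, r δ x ∈ W) : W = ⊥ ∨ W = ⊤ := by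
  by_contra hcon
  push Not at hcon
  obtain ⟨hbot, htop⟩ := hcon
  have htransΔ : ∀ g : Γ, ∀ δ ∈ Δ, ∀ x ∈ W.map (r g), r δ x ∈ W.map (r g) := by
    intro g δ hδ x hx
    obtain ⟨y, hy, rfl⟩ := Submodule.mem_map.mp hx
    have hconj : g⁻¹ * δ * g ∈ Δ := by
      have := hΔn.conj_mem δ hδ g⁻¹
      simpa using this
    have h3 : r δ (r g y) = r g (r (g⁻¹ * δ * g) y) := by
      have h4 : r δ * r g = r g * r (g⁻¹ * δ * g) := by
        rw [← map_mul, ← map_mul]
        congr 1
        group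
      exact congrArg (fun f : Module.End K U => f y) h4
    rw [h3]
    exact Submodule.mem_map_of_mem (hW _ hconj y hy)
  by_cases h1 : ∀ g, W.map (r g) = W
  · rcases hirr W (fun g x hx => stable_of_mem_stab r (h1 g) x hx) with h | h
    exacts [hbot h, htop h]
  · push Not at h1
    obtain ⟨g₀, hg₀⟩ := h1
    by_cases h2' : ∀ g, W.map (r g) = W ∨ W.map (r g) = W.map (r g₀)
    · have hidx : (stab r W).index = 2 := by
        rw [Subgroup.index_eq_two_iff]
        refine ⟨g₀, fun b => ?_⟩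
        have hinj : Function.Injective (Submodule.map (r b)) :=
          Submodule.map_injective_of_injective (r_injective r b)
        rcases h2' b with hb | hb
        · right
          refine ⟨hb, fun hbg => ?_⟩
          have h5 : W.map (r (b * g₀)) = W := hbg
          rw [map_r_mul] at h5
          exact hg₀ (hinj (h5.trans hb.symm))
        · left
          refine ⟨?_, fun hb' => ?_⟩
          · show W.map (r (b * g₀)) = W
            rcases h2' (b * g₀) with h | h
            · exact h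
            · exfalso
              rw [map_r_mul] at h
              exact hg₀ (hinj (h.trans hb.symm))
          · have hb'' : W.map (r b) = W := hb'
            exact hg₀ (hb.symm.trans hb'')
      rcases htw (stab r W) hidx W (fun g hg x hx => stable_of_mem_stab r hg x hx) with h | h
      exacts [hbot h, htop h]
    · push Not at h2'
      obtain ⟨g₁, hg₁, hg₁'⟩ := h2'
      have hscal : ∀ δ ∈ Δ, ∃ c : K, ∀ x, r δ x = c • x := fun δ hδ =>
        scalar_of_three_lines h2 (r δ) (Ne.symm hg₀) (Ne.symm hg₁) (Ne.symm hg₁')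
          hbot htop (map_r_ne_bot r hbot g₀) (map_r_ne_top r htop g₀)
          (map_r_ne_bot r hbot g₁) (map_r_ne_top r htop g₁)
          (hW δ hδ) (htransΔ g₀ δ hδ) (htransΔ g₁ δ hδ)
      haveI : Nontrivial U := Module.nontrivial_of_finrank_pos (R := K) (by rw [h2]; norm_num)
      obtain ⟨xbar, hxbar⟩ := IsCyclic.exists_generator (α := Γ ⧸ Δ)
      obtain ⟨γ₀, rfl⟩ := QuotientGroup.mk_surjective xbar
      obtain ⟨μ, hμ⟩ := Module.End.exists_eigenvalue (r γ₀)
      obtain ⟨e, he⟩ := hμ.exists_hasEigenvector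
      have he0 : e ≠ 0 := he.2
      have heq : r γ₀ e = μ • e := he.apply_eq_smul
      have hμ0 : μ ≠ 0 := by
        intro h0
        rw [h0, zero_smul] at heq
        exact he0 (r_injective r γ₀ (heq.trans (map_zero _).symm))
      have heq' : r γ₀⁻¹ e = μ⁻¹ • e := by
        have h6 : r γ₀⁻¹ (r γ₀ e) = e := r_inv_apply r γ₀ e
        rw [heq, map_smul] at h6
        calc r γ₀⁻¹ e = μ⁻¹ • (μ • r γ₀⁻¹ e) := by rw [smul_smul, inv_mul_cancel₀ hμ0, one_smul]
          _ = μ⁻¹ • e := by rw [h6]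
      have hγ₀ : γ₀ ∈ stab r (Submodule.span K {e}) := by
        refine mem_stab_of_stable r (fun x hx => ?_) (fun x hx => ?_)
        · obtain ⟨c, rfl⟩ := Submodule.mem_span_singleton.mp hx
          rw [map_smul, heq]
          exact Submodule.smul_mem _ _ (Submodule.smul_mem _ _ (Submodule.mem_span_singleton_self e))
        · obtain ⟨c, rfl⟩ := Submodule.mem_span_singleton.mp hx
          rw [map_smul, heq']
          exact Submodule.smul_mem _ _ (Submodule.smul_mem _ _ (Submodule.mem_span_singleton_self e))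
      have hΔL : Δ ≤ stab r (Submodule.span K {e}) := by
        intro δ hδ
        refine mem_stab_of_stable r (fun x hx => ?_) (fun x hx => ?_)
        · obtain ⟨c, hc⟩ := hscal δ hδ
          rw [hc]
          exact Submodule.smul_mem _ _ hx
        · obtain ⟨c, hc⟩ := hscal δ⁻¹ (Δ.inv_mem hδ)
          rw [hc]
          exact Submodule.smul_mem _ _ hx
      have hall : ∀ g : Γ, g ∈ stab r (Submodule.span K {e}) := by
        intro g
        obtain ⟨n, hn⟩ := Subgroup.mem_zpowers_iff.mp (hxbar (g : Γ ⧸ Δ))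
        have h7 : ((γ₀ ^ n : Γ) : Γ ⧸ Δ) = (g : Γ ⧸ Δ) := by
          rw [QuotientGroup.mk_zpow]
          exact hn
        have hmem : (γ₀ ^ n)⁻¹ * g ∈ Δ := QuotientGroup.eq.mp h7
        have h8 : g = γ₀ ^ n * ((γ₀ ^ n)⁻¹ * g) := by group
        rw [h8]
        exact (stab r _).mul_mem ((stab r _).zpow_mem hγ₀ n) (hΔL hmem)
      rcases hirr (Submodule.span K {e}) (fun g x hx => stable_of_mem_stab r (hall g) x hx)
        with h | h
      · exact he0 (Submodule.span_singleton_eq_bot.mp h)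
      · have h9 := finrank_span_singleton (K := K) he0
        rw [h, finrank_top, h2] at h9
        omega

end Clifford

end Fermat.Agent.S56.P3.H769

end
-- ===== PACK-END S56/P3/H769/Lines.lean

-- ===== PACK-BEGIN S56/H966/CondBC.lean
section
/-
S56 helper (helper966): the Prelude local conditions are stable under base change along local
ring homomorphisms and invariant under equivalence.  Needed by the tangent-space dictionary
(the universal property of `DeformationRingData` is applied to `DQ.ρ.baseChangeAlong φ hφ`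
for `φ : DQ.R → k[ε]`).  Imports Prelude only.
-/



set_option autoImplicit false
set_option linter.style.haveILetI false

noncomputable section

namespace Fermat.Agent.S56.H966

open scoped TensorProduct

variable {A : Type} [CommRing A] [IsLocalRing A] {B : Type} [CommRing B] [IsLocalRing B]

/-- A local homomorphism maps the maximal ideal into the maximal ideal. -/
theorem map_mem_maximalIdeal (φ : A →+* B) (hφ : IsLocalHom φ) {a : A}
    (ha : a ∈ IsLocalRing.maximalIdeal A) : φ a ∈ IsLocalRing.maximalIdeal B := by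
  haveI := hφ
  rw [IsLocalRing.mem_maximalIdeal, mem_nonunits_iff] at ha ⊢
  exact fun h => ha (isUnit_of_map_unit φ a h)

/-- The Galois action of a base change, as a definitional unfolding. -/
theorem baseChangeAlong_rho (φ : A →+* B) (hφ : IsLocalHom φ) (ρ : GaloisRepAdic A)
    (σ : AlgebraicClosure ℚ ≃ₐ[ℚ] AlgebraicClosure ℚ) :
    (ρ.baseChangeAlong φ hφ).ρ σ =
      letI : Algebra A B := φ.toAlgebra
      (ρ.ρ σ).baseChange B := rfl

theorem detIsCyclotomic_baseChangeAlong (φ : A →+* B) (hφ : IsLocalHom φ)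
    {ρ : GaloisRepAdic A} {p : ℕ} (h : ρ.DetIsCyclotomic p) :
    (ρ.baseChangeAlong φ hφ).DetIsCyclotomic p := by
  letI : Algebra A B := φ.toAlgebra
  refine ⟨?_, fun n σ a ha => ?_⟩
  · have := map_mem_maximalIdeal φ hφ h.1
    rwa [map_natCast] at this
  · have h1 := h.2 n σ a ha
    have hdet : LinearMap.det ((ρ.baseChangeAlong φ hφ).ρ σ) = φ (LinearMap.det (ρ.ρ σ)) := by
      rw [baseChangeAlong_rho]
      exact LinearMap.det_baseChange (ρ.ρ σ)
    rw [hdet]
    obtain ⟨c, hc⟩ := Ideal.mem_span_singleton'.mp h1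
    rw [Ideal.mem_span_singleton']
    refine ⟨φ c, ?_⟩
    have := congrArg φ hc
    rw [map_mul, map_sub, map_natCast, map_natCast] at this
    exact this

theorem isUnramifiedAt_baseChangeAlong (φ : A →+* B) (hφ : IsLocalHom φ)
    {ρ : GaloisRepAdic A} {q : ℕ} (h : ρ.IsUnramifiedAt q) :
    (ρ.baseChangeAlong φ hφ).IsUnramifiedAt q := by
  letI : Algebra A B := φ.toAlgebra
  intro P hP σ hσ
  rw [baseChangeAlong_rho, h P hP σ hσ]
  exact LinearMap.baseChange_one A ρ.V

theorem isUnipotentOnInertiaAt_baseChangeAlong (φ : A →+* B) (hφ : IsLocalHom φ)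
    {ρ : GaloisRepAdic A} {q : ℕ} (h : ρ.IsUnipotentOnInertiaAt q) :
    (ρ.baseChangeAlong φ hφ).IsUnipotentOnInertiaAt q := by
  letI : Algebra A B := φ.toAlgebra
  intro P hP σ hσ
  have h1 := h P hP σ hσ
  have : LinearMap.charpoly ((ρ.baseChangeAlong φ hφ).ρ σ) =
      (LinearMap.charpoly (ρ.ρ σ)).map φ := by
    rw [baseChangeAlong_rho]
    exact LinearMap.charpoly_baseChange (ρ.ρ σ) B
  rw [this, h1]
  simp

/-- For `u` in the line `A ∙ b₀`, every pure tensor `c ⊗ u` lies in the line `B ∙ (1 ⊗ b₀)`. -/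
theorem tmul_mem_span_of_mem (φ : A →+* B) {V : Type} [AddCommGroup V] [Module A V] (b0 : V)
    {u : V} (hu : u ∈ Submodule.span A {b0}) (c : B) :
    letI : Algebra A B := φ.toAlgebra
    (c ⊗ₜ[A] u : B ⊗[A] V) ∈ Submodule.span B {(1 : B) ⊗ₜ[A] b0} := by
  letI : Algebra A B := φ.toAlgebra
  obtain ⟨a, rfl⟩ := Submodule.mem_span_singleton.mp hu
  rw [Submodule.mem_span_singleton]
  refine ⟨c * φ a, ?_⟩
  rw [TensorProduct.tmul_smul, TensorProduct.smul_tmul', TensorProduct.smul_tmul', smul_eq_mul,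
    mul_one, Algebra.smul_def, mul_comm]
  rfl

section core

variable (φ : A →+* B) {V : Type} [AddCommGroup V] [Module A V]

/-- `c ⊗ (a • v) = (φ a * c) ⊗ v` in `B ⊗[A] V`. -/
theorem tmul_smul_eq (c : B) (a : A) (v : V) :
    letI : Algebra A B := φ.toAlgebra
    (c ⊗ₜ[A] (a • v) : B ⊗[A] V) = (φ a * c) ⊗ₜ[A] v := by
  letI : Algebra A B := φ.toAlgebra
  rw [TensorProduct.tmul_smul, TensorProduct.smul_tmul', Algebra.smul_def]
  rfl

/-- If `f v - z • v ∈ A ∙ b₀` for all `v` then `f_B w - φ z • w ∈ B ∙ (1 ⊗ b₀)` for all `w`. -/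
theorem baseChange_sub_smul_mem (b0 : V) (f : V →ₗ[A] V) (z : A)
    (hf : ∀ v, f v - z • v ∈ Submodule.span A {b0}) :
    letI : Algebra A B := φ.toAlgebra
    ∀ w : B ⊗[A] V, f.baseChange B w - φ z • w ∈ Submodule.span B {(1 : B) ⊗ₜ[A] b0} := by
  letI : Algebra A B := φ.toAlgebra
  intro w
  induction w using TensorProduct.induction_on with
  | zero => simp
  | tmul c v =>
    have h1 : f.baseChange B (c ⊗ₜ[A] v) - φ z • (c ⊗ₜ[A] v) = c ⊗ₜ[A] (f v - z • v) := by
      rw [LinearMap.baseChange_tmul, TensorProduct.tmul_sub, tmul_smul_eq φ c z v,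
        TensorProduct.smul_tmul', smul_eq_mul]
    rw [h1]
    exact tmul_mem_span_of_mem φ b0 (hf v) c
  | add x y hx hy =>
    rw [map_add, smul_add, add_sub_add_comm]
    exact Submodule.add_mem _ hx hy

/-- If `f` acts on `A ∙ b₀` by the scalar `x` then `f_B` acts on `B ∙ (1 ⊗ b₀)` by `φ x`. -/
theorem baseChange_eq_smul_of_mem (b0 : V) (f : V →ₗ[A] V) (x : A)
    (hf : ∀ w ∈ Submodule.span A {b0}, f w = x • w) :
    letI : Algebra A B := φ.toAlgebra
    ∀ w ∈ Submodule.span B {(1 : B) ⊗ₜ[A] b0}, f.baseChange B w = φ x • w := by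
  letI : Algebra A B := φ.toAlgebra
  intro w hw
  obtain ⟨c, rfl⟩ := Submodule.mem_span_singleton.mp hw
  rw [map_smul, LinearMap.baseChange_tmul, hf _ (Submodule.mem_span_singleton_self _),
    tmul_smul_eq φ 1 x b0, mul_one, TensorProduct.smul_tmul', TensorProduct.smul_tmul',
    TensorProduct.smul_tmul', smul_eq_mul, smul_eq_mul, smul_eq_mul, mul_one, mul_comm]

/-- If `f` preserves `A ∙ b₀` then `f_B` preserves `B ∙ (1 ⊗ b₀)`. -/
theorem baseChange_mem_span_of_mem (b0 : V) (f : V →ₗ[A] V)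
    (hf : ∀ v ∈ Submodule.span A {b0}, f v ∈ Submodule.span A {b0}) :
    letI : Algebra A B := φ.toAlgebra
    ∀ w ∈ Submodule.span B {(1 : B) ⊗ₜ[A] b0},
      f.baseChange B w ∈ Submodule.span B {(1 : B) ⊗ₜ[A] b0} := by
  letI : Algebra A B := φ.toAlgebra
  intro w hw
  obtain ⟨c, rfl⟩ := Submodule.mem_span_singleton.mp hw
  rw [map_smul, LinearMap.baseChange_tmul]
  exact Submodule.smul_mem _ _
    (tmul_mem_span_of_mem φ b0 (hf _ (Submodule.mem_span_singleton_self _)) 1)

/-- The base-changed line is spanned by the first vector of the base-changed basis. -/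
theorem span_eq_span_baseChange (b : Module.Basis (Fin 2) A V) :
    letI : Algebra A B := φ.toAlgebra
    (Submodule.span B {(1 : B) ⊗ₜ[A] b 0} : Submodule B (B ⊗[A] V)) =
      Submodule.span B {b.baseChange B 0} := by
  letI : Algebra A B := φ.toAlgebra
  rw [Module.Basis.baseChange_apply]

end core

theorem isStrictOrdinaryAt_baseChangeAlong (φ : A →+* B) (hφ : IsLocalHom φ)
    {ρ : GaloisRepAdic A} {p : ℕ} (h : ρ.IsStrictOrdinaryAt p) :
    (ρ.baseChangeAlong φ hφ).IsStrictOrdinaryAt p := by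
  letI : Algebra A B := φ.toAlgebra
  refine ⟨?_, fun P hP => ?_⟩
  · have := map_mem_maximalIdeal φ hφ h.1
    rwa [map_natCast] at this
  obtain ⟨L, ⟨b, rfl⟩, hD, hI, hx⟩ := h.2 P hP
  refine ⟨(Submodule.span B {(1 : B) ⊗ₜ[A] b 0} : Submodule B (B ⊗[A] ρ.V)),
    ⟨b.baseChange B, span_eq_span_baseChange φ b⟩, ?_, ?_, ?_⟩
  · intro σ hσ v hv
    exact baseChange_mem_span_of_mem φ (b 0) (ρ.ρ σ) (hD σ hσ) v hv
  · intro σ hσ w
    have := baseChange_sub_smul_mem φ (b 0) (ρ.ρ σ) 1
      (fun v => by rw [one_smul]; exact hI σ hσ v) w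
    rw [map_one, one_smul] at this
    exact this
  · intro σ hσ
    obtain ⟨x, z, hx1, hz1, hxz⟩ := hx σ hσ
    refine ⟨φ x, φ z, fun w hw => baseChange_eq_smul_of_mem φ (b 0) (ρ.ρ σ) x hx1 w hw,
      fun w => baseChange_sub_smul_mem φ (b 0) (ρ.ρ σ) z hz1 w, fun n a ha => ?_⟩
    obtain ⟨c, hc⟩ := Ideal.mem_span_singleton'.mp (hxz n a ha)
    rw [Ideal.mem_span_singleton']
    refine ⟨φ c, ?_⟩
    have := congrArg φ hc
    rw [map_mul, map_sub, map_mul, map_natCast, map_natCast] at this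
    exact this

/-! ### Flatness: base change along a surjective local homomorphism -/

section flat

/-- Coordinates of an element of `I • ⊤` lie in `I`. -/
theorem repr_mem_of_mem_smul_top {R M ι : Type*} [CommRing R] [AddCommGroup M] [Module R M]
    (b : Module.Basis ι R M) (I : Ideal R) {x : M} (hx : x ∈ I • (⊤ : Submodule R M)) (i : ι) :
    b.repr x i ∈ I := by
  refine Submodule.smul_induction_on (p := fun x => b.repr x i ∈ I) hx ?_ ?_
  · intro a ha m _
    rw [map_smul, Finsupp.smul_apply, smul_eq_mul]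
    exact I.mul_mem_right _ ha
  · intro x y hx hy
    rw [map_add, Finsupp.add_apply]
    exact I.add_mem hx hy

variable (φ : A →+* B) {V : Type} [AddCommGroup V] [Module A V]

/-- The comparison map `V ⧸ φ⁻¹(I) V → (B ⊗ V) ⧸ I (B ⊗ V)`, `[v] ↦ [1 ⊗ v]`. -/
def levelMap (I : Ideal B) :
    letI : Algebra A B := φ.toAlgebra
    (V ⧸ ((I.comap φ) • (⊤ : Submodule A V))) →+
      ((B ⊗[A] V) ⧸ (I • (⊤ : Submodule B (B ⊗[A] V)))) :=
  letI : Algebra A B := φ.toAlgebra
  QuotientAddGroup.lift _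
    (((I • (⊤ : Submodule B (B ⊗[A] V))).mkQ.toAddMonoidHom).comp
      ((TensorProduct.mk A B V 1).toAddMonoidHom))
    (by
      intro x hx
      change x ∈ (I.comap φ) • (⊤ : Submodule A V) at hx
      rw [AddMonoidHom.mem_ker]
      change (I • (⊤ : Submodule B (B ⊗[A] V))).mkQ ((1 : B) ⊗ₜ[A] x) = 0
      rw [Submodule.mkQ_apply, Submodule.Quotient.mk_eq_zero]
      refine Submodule.smul_induction_on
        (p := fun x => (1 : B) ⊗ₜ[A] x ∈ I • (⊤ : Submodule B (B ⊗[A] V))) hx ?_ ?_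
      · intro a ha m _
        rw [tmul_smul_eq φ 1 a m, mul_one]
        have : (φ a ⊗ₜ[A] m : B ⊗[A] V) = φ a • ((1 : B) ⊗ₜ[A] m) := by
          rw [TensorProduct.smul_tmul', smul_eq_mul, mul_one]
        rw [this]
        exact Submodule.smul_mem_smul ha Submodule.mem_top
      · intro x y hx hy
        rw [TensorProduct.tmul_add]
        exact Submodule.add_mem _ hx hy)

theorem levelMap_mk (I : Ideal B) (v : V) :
    letI : Algebra A B := φ.toAlgebra
    levelMap φ I (Submodule.Quotient.mk v : V ⧸ ((I.comap φ) • (⊤ : Submodule A V))) =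
      Submodule.Quotient.mk ((1 : B) ⊗ₜ[A] v) := rfl

theorem levelMap_surjective (hsurj : Function.Surjective φ) (I : Ideal B) :
    Function.Surjective (levelMap (V := V) φ I) := by
  letI : Algebra A B := φ.toAlgebra
  intro y
  obtain ⟨w, rfl⟩ := Submodule.Quotient.mk_surjective _ y
  induction w using TensorProduct.induction_on with
  | zero => exact ⟨0, by rw [map_zero]; rfl⟩
  | tmul c v =>
    obtain ⟨a, rfl⟩ := hsurj c
    refine ⟨Submodule.Quotient.mk (a • v), ?_⟩
    rw [levelMap_mk, tmul_smul_eq φ 1 a v, mul_one]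
  | add x y hx hy =>
    obtain ⟨x', hx'⟩ := hx
    obtain ⟨y', hy'⟩ := hy
    exact ⟨x' + y', by rw [map_add, hx', hy']; rfl⟩

theorem levelMap_injective [Module.Free A V] [Module.Finite A V] (I : Ideal B) :
    Function.Injective (levelMap (V := V) φ I) := by
  letI : Algebra A B := φ.toAlgebra
  rw [injective_iff_map_eq_zero]
  intro x hx
  obtain ⟨v, rfl⟩ := Submodule.Quotient.mk_surjective _ x
  rw [levelMap_mk, Submodule.Quotient.mk_eq_zero] at hx
  rw [Submodule.Quotient.mk_eq_zero]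
  let b := Module.Free.chooseBasis A V
  have hcoord : ∀ i, b.repr v i ∈ I.comap φ := by
    intro i
    have h1 := repr_mem_of_mem_smul_top (b.baseChange B) I hx i
    rw [Module.Basis.baseChange_repr_tmul, Algebra.smul_def, mul_one] at h1
    exact h1
  rw [← b.sum_repr v]
  exact Submodule.sum_mem _ fun i _ => Submodule.smul_mem_smul (hcoord i) Submodule.mem_top

end flat

/-- The comparison map intertwines the level actions. -/
theorem levelMap_levelAction (φ : A →+* B) (hφ : IsLocalHom φ) (ρ : GaloisRepAdic A)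
    (I : Ideal B) (σ : AlgebraicClosure ℚ ≃ₐ[ℚ] AlgebraicClosure ℚ)
    (x : ρ.V ⧸ ((I.comap φ) • (⊤ : Submodule A ρ.V))) :
    levelMap φ I (ρ.levelAction (I.comap φ) σ x) =
      (ρ.baseChangeAlong φ hφ).levelAction I σ (levelMap φ I x) := by
  obtain ⟨v, rfl⟩ := Submodule.Quotient.mk_surjective _ x
  rfl

theorem isFlatAt_baseChangeAlong_of_surjective (φ : A →+* B) (hφ : IsLocalHom φ)
    (hsurj : Function.Surjective φ) {ρ : GaloisRepAdic A} {p : ℕ} (h : ρ.IsFlatAt p) :
    (ρ.baseChangeAlong φ hφ).IsFlatAt p := by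
  letI : Algebra A B := φ.toAlgebra
  haveI := hφ
  obtain ⟨hfin, hH⟩ := h
  refine ⟨?_, fun I hI => ?_⟩
  · haveI := hfin
    refine Finite.of_surjective (IsLocalRing.ResidueField.map φ) ?_
    intro y
    obtain ⟨b, rfl⟩ := IsLocalRing.residue_surjective y
    obtain ⟨a, rfl⟩ := hsurj b
    exact ⟨IsLocalRing.residue A a, IsLocalRing.ResidueField.map_residue φ a⟩
  · haveI := hI
    have hJ : Finite (A ⧸ I.comap φ) :=
      Finite.of_injective _ (Ideal.quotientMap_injective (I := I) (f := φ))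
    obtain ⟨H, i1, i2, hHfin, hHflat, hHco, e, he_add, he_gal⟩ := hH (I.comap φ) hJ
    refine ⟨H, i1, i2, hHfin, hHflat, hHco, ?_⟩
    refine ⟨e.trans (Equiv.ofBijective (levelMap (V := ρ.V) φ I)
      ⟨levelMap_injective φ I, levelMap_surjective φ hsurj I⟩), ?_, ?_⟩
    · intro f g
      change levelMap φ I (e (f * g)) = levelMap φ I (e f) + levelMap φ I (e g)
      rw [he_add, map_add]
    · intro σ f g hfg
      change levelMap φ I (e g) =
        (ρ.baseChangeAlong φ hφ).levelAction I σ (levelMap φ I (e f))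
      rw [he_gal σ f g hfg]
      exact levelMap_levelAction φ hφ ρ I σ (e f)

/-! ### Invariance under equivalence -/

section equivInv

variable {ρ₁ ρ₂ : GaloisRepAdic A}

/-- An equivalence conjugates the actions. -/
theorem equiv_rho_eq_conj (e : GaloisRepAdic.Equiv ρ₁ ρ₂)
    (σ : AlgebraicClosure ℚ ≃ₐ[ℚ] AlgebraicClosure ℚ) :
    ρ₂.ρ σ = e.toLinearEquiv.conj (ρ₁.ρ σ) := by
  refine LinearMap.ext fun y => ?_
  rw [LinearEquiv.conj_apply_apply, e.map_apply, LinearEquiv.apply_symm_apply]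

theorem detIsCyclotomic_of_isEquiv (he : ρ₁.IsEquiv ρ₂) {p : ℕ} (h : ρ₁.DetIsCyclotomic p) :
    ρ₂.DetIsCyclotomic p := by
  obtain ⟨e⟩ := he
  refine ⟨h.1, fun n σ a ha => ?_⟩
  have hdet : LinearMap.det (ρ₂.ρ σ) = LinearMap.det (ρ₁.ρ σ) := by
    rw [equiv_rho_eq_conj e σ]
    exact LinearMap.det_conj (ρ₁.ρ σ) e.toLinearEquiv
  rw [hdet]
  exact h.2 n σ a ha

theorem isUnramifiedAt_of_isEquiv (he : ρ₁.IsEquiv ρ₂) {q : ℕ} (h : ρ₁.IsUnramifiedAt q) :
    ρ₂.IsUnramifiedAt q := by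
  obtain ⟨e⟩ := he
  intro P hP σ hσ
  rw [equiv_rho_eq_conj e σ, h P hP σ hσ]
  refine LinearMap.ext fun y => ?_
  rw [LinearEquiv.conj_apply_apply, Module.End.one_apply, LinearEquiv.apply_symm_apply,
    Module.End.one_apply]

theorem isUnipotentOnInertiaAt_of_isEquiv (he : ρ₁.IsEquiv ρ₂) {q : ℕ}
    (h : ρ₁.IsUnipotentOnInertiaAt q) : ρ₂.IsUnipotentOnInertiaAt q := by
  obtain ⟨e⟩ := he
  intro P hP σ hσ
  rw [equiv_rho_eq_conj e σ, LinearEquiv.charpoly_conj]
  exact h P hP σ hσ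

theorem isStrictOrdinaryAt_of_isEquiv (he : ρ₁.IsEquiv ρ₂) {p : ℕ}
    (h : ρ₁.IsStrictOrdinaryAt p) : ρ₂.IsStrictOrdinaryAt p := by
  obtain ⟨e⟩ := he
  refine ⟨h.1, fun P hP => ?_⟩
  obtain ⟨L, ⟨b, rfl⟩, hD, hI, hx⟩ := h.2 P hP
  have hmem : ∀ {u : ρ₁.V}, u ∈ Submodule.span A {b 0} →
      e.toLinearEquiv u ∈ Submodule.span A {e.toLinearEquiv (b 0)} := by
    intro u hu
    obtain ⟨a, rfl⟩ := Submodule.mem_span_singleton.mp hu
    rw [map_smul]
    exact Submodule.smul_mem _ _ (Submodule.mem_span_singleton_self _)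
  have hsub : ∀ (σ : AlgebraicClosure ℚ ≃ₐ[ℚ] AlgebraicClosure ℚ) (z : A),
      (∀ v, ρ₁.ρ σ v - z • v ∈ Submodule.span A {b 0}) →
      ∀ w, ρ₂.ρ σ w - z • w ∈ Submodule.span A {e.toLinearEquiv (b 0)} := by
    intro σ z hz w
    have := hmem (hz (e.toLinearEquiv.symm w))
    rwa [map_sub, map_smul, e.map_apply, LinearEquiv.apply_symm_apply] at this
  refine ⟨Submodule.span A {e.toLinearEquiv (b 0)}, ⟨b.map e.toLinearEquiv, ?_⟩, ?_, ?_, ?_⟩
  · rw [Module.Basis.map_apply]
  · intro σ hσ v hv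
    obtain ⟨a, rfl⟩ := Submodule.mem_span_singleton.mp hv
    rw [map_smul, ← e.map_apply]
    exact Submodule.smul_mem _ _ (hmem (hD σ hσ _ (Submodule.mem_span_singleton_self _)))
  · intro σ hσ w
    have := hsub σ 1 (fun v => by rw [one_smul]; exact hI σ hσ v) w
    rwa [one_smul] at this
  · intro σ hσ
    obtain ⟨x, z, hx1, hz1, hxz⟩ := hx σ hσ
    refine ⟨x, z, ?_, hsub σ z hz1, hxz⟩
    intro w hw
    obtain ⟨a, rfl⟩ := Submodule.mem_span_singleton.mp hw
    rw [map_smul, ← e.map_apply, hx1 _ (Submodule.mem_span_singleton_self _), map_smul,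
      smul_comm]

end equivInv

section flatEquiv

variable {ρ₁ ρ₂ : GaloisRepAdic A}

/-- The isomorphism `V₁ ⧸ I V₁ ≃ V₂ ⧸ I V₂` induced by an equivalence. -/
def levelEquiv (e : GaloisRepAdic.Equiv ρ₁ ρ₂) (I : Ideal A) :
    (ρ₁.V ⧸ (I • (⊤ : Submodule A ρ₁.V))) ≃ₗ[A] (ρ₂.V ⧸ (I • (⊤ : Submodule A ρ₂.V))) :=
  Submodule.Quotient.equiv _ _ e.toLinearEquiv (by
    rw [Submodule.map_smul'', Submodule.map_top, LinearEquiv.range])

theorem levelEquiv_levelAction (e : GaloisRepAdic.Equiv ρ₁ ρ₂) (I : Ideal A)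
    (σ : AlgebraicClosure ℚ ≃ₐ[ℚ] AlgebraicClosure ℚ)
    (x : ρ₁.V ⧸ (I • (⊤ : Submodule A ρ₁.V))) :
    levelEquiv e I (ρ₁.levelAction I σ x) = ρ₂.levelAction I σ (levelEquiv e I x) := by
  obtain ⟨v, rfl⟩ := Submodule.Quotient.mk_surjective _ x
  change Submodule.Quotient.mk (e.toLinearEquiv (ρ₁.ρ σ v)) =
    Submodule.Quotient.mk (ρ₂.ρ σ (e.toLinearEquiv v))
  rw [e.map_apply]

theorem isFlatAt_of_isEquiv (he : ρ₁.IsEquiv ρ₂) {p : ℕ} (h : ρ₁.IsFlatAt p) :
    ρ₂.IsFlatAt p := by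
  obtain ⟨e⟩ := he
  refine ⟨h.1, fun I hI => ?_⟩
  obtain ⟨H, i1, i2, hHfin, hHflat, hHco, f, hf_add, hf_gal⟩ := h.2 I hI
  refine ⟨H, i1, i2, hHfin, hHflat, hHco, f.trans (levelEquiv e I).toEquiv, ?_, ?_⟩
  · intro a b
    change levelEquiv e I (f (a * b)) = levelEquiv e I (f a) + levelEquiv e I (f b)
    rw [hf_add, map_add]
  · intro σ a b hab
    change levelEquiv e I (f b) = ρ₂.levelAction I σ (levelEquiv e I (f a))
    rw [hf_gal σ a b hab]
    exact levelEquiv_levelAction e I σ (f a)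

end flatEquiv

/-! ### The deformation conditions of S56 -/

section conditions

variable (𝒪 : Type) [CommRing 𝒪] [Algebra 𝒪 A] [Algebra 𝒪 B]

theorem strictOrdinaryCondition_baseChangeAlong (φ : A →+* B) (hφ : IsLocalHom φ)
    {p : ℕ} {S : Finset ℕ} {ρ : GaloisRepAdic A}
    (h : GaloisRep.strictOrdinaryCondition 𝒪 p S ρ) :
    GaloisRep.strictOrdinaryCondition 𝒪 p S (ρ.baseChangeAlong φ hφ) :=
  ⟨detIsCyclotomic_baseChangeAlong φ hφ h.1, isStrictOrdinaryAt_baseChangeAlong φ hφ h.2.1,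
    fun q hq hqS => isUnramifiedAt_baseChangeAlong φ hφ (h.2.2 q hq hqS)⟩

theorem flatCondition_baseChangeAlong_of_surjective (φ : A →+* B) (hφ : IsLocalHom φ)
    (hsurj : Function.Surjective φ) {p : ℕ} {S : Finset ℕ} {ρ : GaloisRepAdic A}
    (h : GaloisRep.flatCondition 𝒪 p S ρ) :
    GaloisRep.flatCondition 𝒪 p S (ρ.baseChangeAlong φ hφ) :=
  ⟨detIsCyclotomic_baseChangeAlong φ hφ h.1,
    isFlatAt_baseChangeAlong_of_surjective φ hφ hsurj h.2.1,
    fun q hq hqS => isUnramifiedAt_baseChangeAlong φ hφ (h.2.2 q hq hqS)⟩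

theorem strictOrdinaryCondition_of_isEquiv {p : ℕ} {S : Finset ℕ} {ρ₁ ρ₂ : GaloisRepAdic A}
    (he : ρ₁.IsEquiv ρ₂) (h : GaloisRep.strictOrdinaryCondition 𝒪 p S ρ₁) :
    GaloisRep.strictOrdinaryCondition 𝒪 p S ρ₂ :=
  ⟨detIsCyclotomic_of_isEquiv he h.1, isStrictOrdinaryAt_of_isEquiv he h.2.1,
    fun q hq hqS => isUnramifiedAt_of_isEquiv he (h.2.2 q hq hqS)⟩

theorem flatCondition_of_isEquiv {p : ℕ} {S : Finset ℕ} {ρ₁ ρ₂ : GaloisRepAdic A}
    (he : ρ₁.IsEquiv ρ₂) (h : GaloisRep.flatCondition 𝒪 p S ρ₁) :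
    GaloisRep.flatCondition 𝒪 p S ρ₂ :=
  ⟨detIsCyclotomic_of_isEquiv he h.1, isFlatAt_of_isEquiv he h.2.1,
    fun q hq hqS => isUnramifiedAt_of_isEquiv he (h.2.2 q hq hqS)⟩

end conditions

end Fermat.Agent.S56.H966

end
end
-- ===== PACK-END S56/H966/CondBC.lean

-- ===== PACK-BEGIN S56/H596/DualMat.lean
section


/-!
# S56, piece DICT (helper596): `2 × 2` matrices over the dual numbers

A matrix `X` over `k[ε]` is written `X = X₀ + ε X₁` with `X₀ = m0 X`, `X₁ = m1 X` matrices
over `k`.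
-/

set_option autoImplicit false
set_option linter.unusedSectionVars false
set_option linter.unusedVariables false

namespace Fermat.Agent.S56.H596

noncomputable section

open TrivSqZeroExt

variable {k : Type*} [Field k]

/-- The constant part of a matrix over the dual numbers. -/
def m0 (X : Matrix (Fin 2) (Fin 2) (DualNumber k)) : Matrix (Fin 2) (Fin 2) k :=
  X.map TrivSqZeroExt.fst

/-- The `ε`-part of a matrix over the dual numbers. -/
def m1 (X : Matrix (Fin 2) (Fin 2) (DualNumber k)) : Matrix (Fin 2) (Fin 2) k :=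
  X.map TrivSqZeroExt.snd

@[simp] theorem m0_apply (X : Matrix (Fin 2) (Fin 2) (DualNumber k)) (i j : Fin 2) :
    m0 X i j = TrivSqZeroExt.fst (X i j) := rfl

@[simp] theorem m1_apply (X : Matrix (Fin 2) (Fin 2) (DualNumber k)) (i j : Fin 2) :
    m1 X i j = TrivSqZeroExt.snd (X i j) := rfl

theorem dualMat_ext {X Y : Matrix (Fin 2) (Fin 2) (DualNumber k)} (h0 : m0 X = m0 Y)
    (h1 : m1 X = m1 Y) : X = Y := by
  ext i j
  · have := congrFun (congrFun h0 i) j
    simpa using this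
  · have := congrFun (congrFun h1 i) j
    simpa using this

theorem m0_mul (X Y : Matrix (Fin 2) (Fin 2) (DualNumber k)) : m0 (X * Y) = m0 X * m0 Y := by
  ext i j
  simp [Matrix.mul_apply, Fin.sum_univ_two]

theorem m1_mul (X Y : Matrix (Fin 2) (Fin 2) (DualNumber k)) :
    m1 (X * Y) = m0 X * m1 Y + m1 X * m0 Y := by
  ext i j
  simp [Matrix.mul_apply, Fin.sum_univ_two]
  ring

@[simp] theorem m0_one : m0 (1 : Matrix (Fin 2) (Fin 2) (DualNumber k)) = 1 := by
  ext i j
  by_cases h : i = j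
  · subst h; simp
  · simp [h]

@[simp] theorem m1_one : m1 (1 : Matrix (Fin 2) (Fin 2) (DualNumber k)) = 0 := by
  ext i j
  by_cases h : i = j
  · subst h; simp
  · simp [h]

/-- The matrix `R + ε B` over the dual numbers. -/
def dmk (R B : Matrix (Fin 2) (Fin 2) k) : Matrix (Fin 2) (Fin 2) (DualNumber k) :=
  Matrix.of fun i j => TrivSqZeroExt.inl (R i j) + TrivSqZeroExt.inr (B i j)

@[simp] theorem m0_dmk (R B : Matrix (Fin 2) (Fin 2) k) : m0 (dmk R B) = R := by
  ext i j; simp [dmk]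

@[simp] theorem m1_dmk (R B : Matrix (Fin 2) (Fin 2) k) : m1 (dmk R B) = B := by
  ext i j; simp [dmk]

theorem dmk_m0_m1 (X : Matrix (Fin 2) (Fin 2) (DualNumber k)) : dmk (m0 X) (m1 X) = X :=
  dualMat_ext (m0_dmk _ _) (m1_dmk _ _)

theorem fst_det (X : Matrix (Fin 2) (Fin 2) (DualNumber k)) :
    TrivSqZeroExt.fst X.det = (m0 X).det := by
  simp [Matrix.det_fin_two]

theorem snd_det (X : Matrix (Fin 2) (Fin 2) (DualNumber k)) :
    TrivSqZeroExt.snd X.det = Matrix.trace (m1 X * (m0 X).adjugate) := by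
  simp [Matrix.det_fin_two, Matrix.trace_fin_two, Matrix.adjugate_fin_two, Matrix.mul_apply,
    Fin.sum_univ_two]
  ring

/-- `dmk R B` as a combination of base-changed matrices. -/
theorem dmk_eq (R B : Matrix (Fin 2) (Fin 2) k) :
    dmk R B = R.map (algebraMap k (DualNumber k)) +
      (DualNumber.eps : DualNumber k) • B.map (algebraMap k (DualNumber k)) := by
  apply dualMat_ext
  · rw [m0_dmk]
    ext i j
    simp [TrivSqZeroExt.algebraMap_eq_inl]
  · rw [m1_dmk]
    ext i j
    simp [TrivSqZeroExt.algebraMap_eq_inl]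

/-- `1 + ε M` is invertible. -/
def dunit (M : Matrix (Fin 2) (Fin 2) k) : (Matrix (Fin 2) (Fin 2) (DualNumber k))ˣ where
  val := dmk 1 M
  inv := dmk 1 (-M)
  val_inv := by
    apply dualMat_ext
    · simp [m0_mul]
    · simp [m1_mul]
  inv_val := by
    apply dualMat_ext
    · simp [m0_mul]
    · simp [m1_mul]

@[simp] theorem coe_dunit (M : Matrix (Fin 2) (Fin 2) k) :
    ((dunit M : (Matrix (Fin 2) (Fin 2) (DualNumber k))ˣ) :
      Matrix (Fin 2) (Fin 2) (DualNumber k)) = dmk 1 M := rfl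

end

end Fermat.Agent.S56.H596

end
-- ===== PACK-END S56/H596/DualMat.lean

-- ===== PACK-BEGIN S56/H794/DualEnd.lean
section


/-!
# S56 / LOC-MIN (helper794): endomorphisms of `k[ε] ⊗ V`

`dualEnd A B = A ⊗ 1 + ε • (B ⊗ 1)` for `A B : End_k V`.  This is an injective map
`End_k V × End_k V → End_{k[ε]} (k[ε] ⊗_k V)` with
`dualEnd A B * dualEnd A' B' = dualEnd (A A') (A B' + B A')`.
-/

set_option autoImplicit false

open scoped TensorProduct

noncomputable section

namespace Fermat.Agent.S56.H794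

variable {k : Type*} [Field k] {V : Type*} [AddCommGroup V] [Module k V]

/-- `A ⊗ 1 + ε • (B ⊗ 1)` as an endomorphism of `k[ε] ⊗ V`. -/
def dualEnd (A B : Module.End k V) : Module.End (DualNumber k) (DualNumber k ⊗[k] V) :=
  A.baseChange (DualNumber k) + (DualNumber.eps : DualNumber k) • B.baseChange (DualNumber k)

theorem dualEnd_apply_tmul (A B : Module.End k V) (x : DualNumber k) (v : V) :
    dualEnd A B (x ⊗ₜ[k] v) = x ⊗ₜ[k] A v + (DualNumber.eps * x) ⊗ₜ[k] B v := by
  simp only [dualEnd, LinearMap.add_apply, LinearMap.smul_apply, LinearMap.baseChange_tmul,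
    TensorProduct.smul_tmul', smul_eq_mul]

theorem dualEnd_ext {f g : Module.End (DualNumber k) (DualNumber k ⊗[k] V)}
    (h : ∀ (x : DualNumber k) (v : V), f (x ⊗ₜ[k] v) = g (x ⊗ₜ[k] v)) : f = g := by
  apply LinearMap.ext
  intro w
  induction w using TensorProduct.induction_on with
  | zero => simp only [map_zero]
  | tmul x v => exact h x v
  | add x y hx hy => rw [map_add, map_add, hx, hy]

theorem dualEnd_one_zero : dualEnd (1 : Module.End k V) 0 = 1 := by
  apply dualEnd_ext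
  intro x v
  rw [dualEnd_apply_tmul, Module.End.one_apply, Module.End.one_apply, LinearMap.zero_apply,
    TensorProduct.tmul_zero, add_zero]

theorem dualEnd_zero_zero : dualEnd (0 : Module.End k V) 0 = 0 := by
  apply dualEnd_ext
  intro x v
  rw [dualEnd_apply_tmul, LinearMap.zero_apply, LinearMap.zero_apply,
    TensorProduct.tmul_zero, TensorProduct.tmul_zero, add_zero]

theorem dualEnd_add (A B A' B' : Module.End k V) :
    dualEnd A B + dualEnd A' B' = dualEnd (A + A') (B + B') := by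
  apply dualEnd_ext
  intro x v
  rw [LinearMap.add_apply, dualEnd_apply_tmul, dualEnd_apply_tmul, dualEnd_apply_tmul,
    LinearMap.add_apply, LinearMap.add_apply, TensorProduct.tmul_add, TensorProduct.tmul_add]
  abel

theorem dualEnd_sub (A B A' B' : Module.End k V) :
    dualEnd A B - dualEnd A' B' = dualEnd (A - A') (B - B') := by
  apply dualEnd_ext
  intro x v
  rw [LinearMap.sub_apply, dualEnd_apply_tmul, dualEnd_apply_tmul, dualEnd_apply_tmul,
    LinearMap.sub_apply, LinearMap.sub_apply, TensorProduct.tmul_sub, TensorProduct.tmul_sub]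
  abel

theorem dualEnd_mul (A B A' B' : Module.End k V) :
    dualEnd A B * dualEnd A' B' = dualEnd (A * A') (A * B' + B * A') := by
  apply dualEnd_ext
  intro x v
  rw [Module.End.mul_apply, dualEnd_apply_tmul, map_add, dualEnd_apply_tmul,
    dualEnd_apply_tmul, dualEnd_apply_tmul]
  have h0 : (DualNumber.eps : DualNumber k) * (DualNumber.eps * x) = 0 := by
    rw [← mul_assoc, DualNumber.eps_mul_eps, zero_mul]
  rw [h0, TensorProduct.zero_tmul, add_zero, Module.End.mul_apply, LinearMap.add_apply,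
    Module.End.mul_apply, Module.End.mul_apply, TensorProduct.tmul_add]
  abel

/-- The `k`-linear projection `k[ε] ⊗ V → V` onto the constant part. -/
def dualFst : (DualNumber k ⊗[k] V) →ₗ[k] V :=
  (TensorProduct.lid k V).toLinearMap ∘ₗ
    LinearMap.rTensor V (TrivSqZeroExt.fstHom k k k).toLinearMap

/-- The `k`-linear projection `k[ε] ⊗ V → V` onto the `ε`-part. -/
def dualSnd : (DualNumber k ⊗[k] V) →ₗ[k] V :=
  (TensorProduct.lid k V).toLinearMap ∘ₗ
    LinearMap.rTensor V (TrivSqZeroExt.sndHom k k)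

theorem dualFst_tmul (x : DualNumber k) (v : V) :
    dualFst (x ⊗ₜ[k] v) = TrivSqZeroExt.fst x • v := by
  simp [dualFst]

theorem dualSnd_tmul (x : DualNumber k) (v : V) :
    dualSnd (x ⊗ₜ[k] v) = TrivSqZeroExt.snd x • v := by
  simp [dualSnd]

theorem dualFst_dualEnd (A B : Module.End k V) (v : V) :
    dualFst (dualEnd A B ((1 : DualNumber k) ⊗ₜ[k] v)) = A v := by
  rw [dualEnd_apply_tmul, map_add, dualFst_tmul, dualFst_tmul]
  simp

theorem dualSnd_dualEnd (A B : Module.End k V) (v : V) :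
    dualSnd (dualEnd A B ((1 : DualNumber k) ⊗ₜ[k] v)) = B v := by
  rw [dualEnd_apply_tmul, map_add, dualSnd_tmul, dualSnd_tmul]
  simp

theorem dualEnd_injective {A B A' B' : Module.End k V} (h : dualEnd A B = dualEnd A' B') :
    A = A' ∧ B = B' := by
  constructor
  · apply LinearMap.ext
    intro v
    rw [← dualFst_dualEnd A B v, h, dualFst_dualEnd]
  · apply LinearMap.ext
    intro v
    rw [← dualSnd_dualEnd A B v, h, dualSnd_dualEnd]

theorem dualEnd_eq_zero {A B : Module.End k V} (h : dualEnd A B = 0) : A = 0 ∧ B = 0 := by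
  rw [← dualEnd_zero_zero] at h
  exact dualEnd_injective h

theorem dualEnd_eq_one {A B : Module.End k V} (h : dualEnd A B = 1) : A = 1 ∧ B = 0 := by
  rw [← dualEnd_one_zero] at h
  exact dualEnd_injective h

/-- `(1 + N) ^ n = 1 + n • N` when `N ^ 2 = 0`. -/
theorem one_add_pow_of_sq_zero {R : Type*} [Ring R] (N : R) (hN : N * N = 0) (n : ℕ) :
    (1 + N) ^ n = 1 + n • N := by
  induction n with
  | zero => simp
  | succ n ih =>
    rw [pow_succ, ih, add_mul, mul_add, mul_add, one_mul, one_mul, mul_one, smul_mul_assoc, hN,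
      smul_zero, add_zero, succ_nsmul]
    abel

end Fermat.Agent.S56.H794

end

end
-- ===== PACK-END S56/H794/DualEnd.lean

-- ===== PACK-BEGIN S55/H413/WRPow.lean
section


/-!
# S55, leaf WR, part 3b: `1 + p^m ℤ_p ⊆ (ℤ_pˣ)^{φ(p^m)}` for odd `p`

Every `p`-adic unit which is `≡ 1 mod p ^ m` is a `φ(p ^ m)`-th power (`p` odd, `m ≥ 1`).
Proof: it is a `φ(p^m)`-th power modulo `p ^ (2 m)` because `(ℤ/p^{2m})ˣ` is cyclic, and then
Hensel's lemma applies.
-/

set_option autoImplicit false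

namespace Fermat.Agent.S55.H413

open Polynomial

/-- In a finite cyclic group `C` with a surjection `f` onto a group of order `N`, every element
of the kernel of `f` is an `N`-th power. -/
theorem exists_pow_eq_of_mem_ker_of_isCyclic {C D : Type*} [Group C] [Group D] [Finite C]
    [IsCyclic C] (f : C →* D) (hf : Function.Surjective f) (x : C) (hx : x ∈ f.ker) :
    ∃ y : C, y ^ Nat.card D = x := by
  classical
  set N := Nat.card D with hN
  set k := Nat.card f.ker with hk
  have hcard : k * N = Nat.card C := by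
    have h1 := Subgroup.card_mul_index f.ker
    rw [Subgroup.index_ker, MonoidHom.range_eq_top.mpr hf] at h1
    have h2 : Nat.card (⊤ : Subgroup D) = Nat.card D := Subgroup.card_top
    rw [h2] at h1
    exact h1
  have hkpos : 0 < k := Nat.card_pos
  have hxk : x ^ k = 1 := by
    have h1 : (⟨x, hx⟩ : f.ker) ^ k = 1 := pow_card_eq_one' (G := f.ker) (x := ⟨x, hx⟩)
    have h2 := congrArg (Subtype.val) h1
    rwa [Subgroup.coe_pow, Subgroup.coe_one] at h2
  obtain ⟨g, hg⟩ := IsCyclic.exists_generator (α := C)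
  obtain ⟨j, hj⟩ := Subgroup.mem_zpowers_iff.mp (hg x)
  have hord : orderOf g = Nat.card C := orderOf_eq_card_of_forall_mem_zpowers hg
  have h1 : g ^ (j * (k : ℤ)) = 1 := by
    rw [zpow_mul, hj, zpow_natCast, hxk]
  have h2 : ((orderOf g : ℕ) : ℤ) ∣ j * (k : ℤ) := orderOf_dvd_iff_zpow_eq_one.mpr h1
  rw [hord, ← hcard] at h2
  have h3 : (N : ℤ) ∣ j := by
    have h4 : (N : ℤ) * (k : ℤ) ∣ j * (k : ℤ) := by
      have : ((k * N : ℕ) : ℤ) = (N : ℤ) * (k : ℤ) := by push_cast; ring
      rwa [this] at h2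
    exact Int.dvd_of_mul_dvd_mul_right (by exact_mod_cast hkpos.ne') h4
  obtain ⟨t, ht⟩ := h3
  refine ⟨g ^ t, ?_⟩
  rw [← zpow_natCast, ← zpow_mul, mul_comm, ← ht, hj]

variable (p : ℕ) [hp : Fact p.Prime]

lemma toZModPow_comp_castHom (m n : ℕ) (h : m ≤ n) (x : ℤ_[p]) :
    ZMod.castHom (pow_dvd_pow p h) (ZMod (p ^ m)) (PadicInt.toZModPow n x) =
      PadicInt.toZModPow m x := by
  have := PadicInt.zmod_cast_comp_toZModPow (p := p) m n h
  exact congrArg (fun f => f x) this

/-- Every `p`-adic unit `≡ 1 mod p ^ m` is a `φ(p ^ m)`-th power (`p` odd, `m ≥ 1`). -/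
theorem exists_pow_totient_eq (hp2 : p ≠ 2) (m : ℕ) (hm : 0 < m) (u : ℤ_[p]ˣ)
    (hu : PadicInt.toZModPow m (u : ℤ_[p]) = 1) :
    ∃ w : ℤ_[p]ˣ, w ^ (p ^ m).totient = u := by
  classical
  set N := (p ^ m).totient with hN
  have hNpos : 0 < N := Nat.totient_pos.mpr (pow_pos hp.out.pos m)
  have hNlt : N < p ^ m := Nat.totient_lt _ (Nat.one_lt_pow hm.ne' hp.out.one_lt)
  have : IsCyclic (ZMod (p ^ (2 * m)))ˣ := ZMod.isCyclic_units_of_prime_pow p hp.out hp2 (2 * m)
  have : NeZero (p ^ m) := ⟨(pow_pos hp.out.pos m).ne'⟩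
  have : NeZero (p ^ (2 * m)) := ⟨(pow_pos hp.out.pos _).ne'⟩
  have hdvd : p ^ m ∣ p ^ (2 * m) := pow_dvd_pow p (by omega)
  -- the image of `u` modulo `p ^ (2 m)`
  set ubar : (ZMod (p ^ (2 * m)))ˣ :=
    Units.map (PadicInt.toZModPow (2 * m) : ℤ_[p] →+* ZMod (p ^ (2 * m))).toMonoidHom u with hubar
  have hker : ubar ∈ (ZMod.unitsMap hdvd).ker := by
    rw [MonoidHom.mem_ker]
    apply Units.ext
    simp only [ZMod.unitsMap, Units.coe_map, Units.val_one, hubar, MonoidHom.coe_coe,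
      RingHom.toMonoidHom_eq_coe]
    rw [toZModPow_comp_castHom p m (2 * m) (by omega), hu]
  obtain ⟨y, hy⟩ := exists_pow_eq_of_mem_ker_of_isCyclic (ZMod.unitsMap hdvd)
    (ZMod.unitsMap_surjective hdvd) ubar hker
  have hcardD : Nat.card (ZMod (p ^ m))ˣ = N := by
    rw [Nat.card_eq_fintype_card, ZMod.card_units_eq_totient]
  rw [hcardD] at hy
  -- a lift of `y`
  set a : ℤ_[p] := ((y : ZMod (p ^ (2 * m))).val : ℤ_[p]) with ha
  have hay : PadicInt.toZModPow (2 * m) a = (y : ZMod (p ^ (2 * m))) := by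
    rw [ha, map_natCast, ZMod.natCast_zmod_val]
  have hFa : ‖a ^ N - (u : ℤ_[p])‖ ≤ (p : ℝ) ^ (-((2 * m : ℕ) : ℤ)) := by
    rw [PadicInt.norm_le_pow_iff_mem_span_pow, ← PadicInt.ker_toZModPow, RingHom.mem_ker,
      map_sub, map_pow, hay]
    have : ((y ^ N : (ZMod (p ^ (2 * m)))ˣ) : ZMod (p ^ (2 * m))) = (ubar : ZMod (p ^ (2 * m))) := by
      rw [hy]
    rw [Units.val_pow_eq_pow_val] at this
    rw [this, hubar]
    simp
  have hp1 : (1 : ℝ) < p := by exact_mod_cast hp.out.one_lt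
  have hp0 : (0 : ℝ) < p := by linarith
  have hsmall : (p : ℝ) ^ (-((2 * m : ℕ) : ℤ)) < 1 := by
    apply zpow_lt_one_of_neg₀ hp1
    have : (0 : ℤ) < ((2 * m : ℕ) : ℤ) := by exact_mod_cast (by omega : 0 < 2 * m)
    omega
  have hnu : ‖(u : ℤ_[p])‖ = 1 := PadicInt.norm_units u
  have haN : ‖a ^ N‖ = 1 := by
    refine le_antisymm (PadicInt.norm_le_one _) ?_
    by_contra hlt
    rw [not_le] at hlt
    have h1 : ‖(u : ℤ_[p])‖ ≤ max ‖a ^ N‖ ‖a ^ N - (u : ℤ_[p])‖ := by
      have := PadicInt.nonarchimedean (a ^ N) (-(a ^ N - (u : ℤ_[p])))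
      rw [norm_neg] at this
      have e : a ^ N + -(a ^ N - (u : ℤ_[p])) = u := by ring
      rwa [e] at this
    have h2 : max ‖a ^ N‖ ‖a ^ N - (u : ℤ_[p])‖ < 1 := max_lt hlt (lt_of_le_of_lt hFa hsmall)
    rw [hnu] at h1
    exact absurd h1 (not_le.mpr h2)
  have ha1 : ‖a‖ = 1 := by
    rw [norm_pow] at haN
    exact (pow_eq_one_iff_of_nonneg (norm_nonneg a) hNpos.ne').mp haN
  -- the norm of `N`
  have hNnorm : (p : ℝ) ^ (-(m : ℤ)) < ‖(N : ℤ_[p])‖ := by
    by_contra hle
    rw [not_lt] at hle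
    rw [PadicInt.norm_le_pow_iff_mem_span_pow, Ideal.mem_span_singleton] at hle
    have h1 : ((p : ℤ_[p]) ^ m) ∣ ((N : ℤ) : ℤ_[p]) := by simpa using hle
    rw [PadicInt.pow_p_dvd_int_iff] at h1
    have h2 : p ^ m ∣ N := by exact_mod_cast h1
    exact absurd (Nat.le_of_dvd hNpos h2) (not_le.mpr hNlt)
  -- Hensel
  set F : ℤ_[p][X] := X ^ N - C (u : ℤ_[p]) with hF
  have hFeval : aeval a F = a ^ N - (u : ℤ_[p]) := by simp [hF]
  have hF'eval : aeval a (derivative F) = (N : ℤ_[p]) * a ^ (N - 1) := by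
    simp [hF, derivative_X_pow]
  have hF'norm : ‖aeval a (derivative F)‖ = ‖(N : ℤ_[p])‖ := by
    rw [hF'eval, norm_mul, norm_pow, ha1, one_pow, mul_one]
  have hhens : ‖aeval a F‖ < ‖aeval a (derivative F)‖ ^ 2 := by
    rw [hFeval, hF'norm]
    calc ‖a ^ N - (u : ℤ_[p])‖ ≤ (p : ℝ) ^ (-((2 * m : ℕ) : ℤ)) := hFa
      _ = ((p : ℝ) ^ (-(m : ℤ))) ^ 2 := by
          rw [← zpow_natCast ((p : ℝ) ^ (-(m : ℤ))) 2, ← zpow_mul]
          congr 1
          push_cast
          ring
      _ < ‖(N : ℤ_[p])‖ ^ 2 := by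
          apply pow_lt_pow_left₀ hNnorm (zpow_nonneg hp0.le _) (by norm_num)
  obtain ⟨z, hz, -⟩ := hensels_lemma hhens
  have hzN : z ^ N = (u : ℤ_[p]) := by
    have : aeval z F = z ^ N - (u : ℤ_[p]) := by simp [hF]
    rw [this, sub_eq_zero] at hz
    exact hz
  have hzunit : IsUnit z := by
    have : IsUnit (z ^ N) := by rw [hzN]; exact u.isUnit
    exact (isUnit_pow_iff hNpos.ne').mp this
  refine ⟨hzunit.unit, ?_⟩
  apply Units.ext
  rw [Units.val_pow_eq_pow_val, IsUnit.unit_spec, hzN]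

end Fermat.Agent.S55.H413

end
-- ===== PACK-END S55/H413/WRPow.lean

-- ===== PACK-BEGIN S37/H700/Cic.lean
section



/-!
# S37 / R-a, helper700: `A((q))` is completely integrally closed in `L((q))`

`A` a valuation subring of a field `L` whose value group is archimedean (`Archimedean A`,
elementwise form: powers of a non-unit become smaller than any nonzero element).

* `exists_coeffMap_eq_of_coeff_mem` : a Laurent series over `L` all of whose coefficients lie in
  `A` is the image of a Laurent series over `A`.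
* **`exists_coeffMap_eq_of_forall_pow`** : if `f ∈ L((q))` and `d ∈ A((q))`, `d ≠ 0`, are such
  that `d · f ^ m ∈ A((q))` for every `m`, then `f ∈ A((q))`.

Proof (lowest-term trick): subtract from `f` its truncation below the first index `n₁` whose
coefficient `c` is not in `A`; the leading coefficient of `d · (f - f₁) ^ m` is `d₀ c ^ m ∈ A`
for all `m`, which contradicts the archimedean property.
-/

set_option autoImplicit false

noncomputable section

namespace Fermat.Agent.S37.H700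

open HahnSeries ModularCurve

variable {L : Type*} [Field L] (A : ValuationSubring L)

/-- The value group of `A` is archimedean, elementwise form. -/
def ArchVal : Prop :=
  ∀ a : L, a ∈ A.nonunits → ∀ d : L, d ≠ 0 → ∃ m : ℕ, A.valuation a ^ m < A.valuation d

theorem exists_coeffMap_eq_of_coeff_mem (x : LaurentSeries L) (h : ∀ n, x.coeff n ∈ A) :
    ∃ y : LaurentSeries A, coeffMap A.subtype y = x := by
  refine ⟨⟨fun n => ⟨x.coeff n, h n⟩, ?_⟩, ?_⟩
  · refine x.isPWO_support.mono ?_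
    intro n hn
    simp only [Function.mem_support, ne_eq] at hn ⊢
    intro h0
    apply hn
    exact Subtype.ext h0
  · ext n
    rw [coeffMap_coeff]
    rfl

theorem coeff_mem_of_coeffMap_eq {x : LaurentSeries L} {y : LaurentSeries A}
    (h : coeffMap A.subtype y = x) (n : ℤ) : x.coeff n ∈ A := by
  rw [← h, coeffMap_coeff]
  exact (y.coeff n).2

theorem mem_range_coeffMap_iff (x : LaurentSeries L) :
    x ∈ (coeffMap A.subtype).range ↔ ∀ n, x.coeff n ∈ A := by
  constructor
  · rintro ⟨y, hy⟩ n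
    exact coeff_mem_of_coeffMap_eq A hy n
  · intro h
    obtain ⟨y, hy⟩ := exists_coeffMap_eq_of_coeff_mem A x h
    exact ⟨y, hy⟩

theorem coeffMap_subtype_injective : Function.Injective (coeffMap A.subtype) := by
  intro y z hyz
  ext n
  have h2 := congrArg (fun s => s.coeff n) hyz
  simp only [coeffMap_coeff] at h2
  exact h2

theorem leadingCoeff_pow' (x : LaurentSeries L) (m : ℕ) :
    (x ^ m).leadingCoeff = x.leadingCoeff ^ m := by
  induction m with
  | zero => simp
  | succ m ih => rw [pow_succ, leadingCoeff_mul, ih, pow_succ]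

/-- **`A((q))` is completely integrally closed in `L((q))`** (archimedean value group). -/
theorem exists_coeffMap_eq_of_forall_pow (harch : ArchVal A)
    (f : LaurentSeries L) (d : LaurentSeries A) (hd : d ≠ 0)
    (h : ∀ m : ℕ, coeffMap A.subtype d * f ^ m ∈ (coeffMap A.subtype).range) :
    ∃ y : LaurentSeries A, coeffMap A.subtype y = f := by
  classical
  by_contra hne
  have hS : {n : ℤ | f.coeff n ∉ A}.Nonempty := by
    by_contra hempty
    apply hne
    apply exists_coeffMap_eq_of_coeff_mem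
    intro n
    by_contra hn
    exact hempty ⟨n, hn⟩
  have hSsub : {n : ℤ | f.coeff n ∉ A} ⊆ f.support := by
    intro n hn
    rw [HahnSeries.mem_support]
    intro h0
    apply hn
    rw [h0]
    exact A.zero_mem
  have hWF : {n : ℤ | f.coeff n ∉ A}.IsWF := f.isWF_support.mono hSsub
  set n₁ := hWF.min hS with hn₁
  have hn₁mem : f.coeff n₁ ∉ A := hWF.min_mem hS
  have hn₁min : ∀ n, n < n₁ → f.coeff n ∈ A := by
    intro n hn
    by_contra hnA
    exact hWF.not_lt_min hS hnA hn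
  set f₁ := truncLT n₁ f with hf₁
  have hf₁mem : f₁ ∈ (coeffMap A.subtype).range := by
    rw [mem_range_coeffMap_iff]
    intro n
    rw [hf₁, HahnSeries.coeff_truncLT]
    split_ifs with hlt
    · exact hn₁min n hlt
    · exact A.zero_mem
  set f₂ := f - f₁ with hf₂
  have hf₂coeff : ∀ n, f₂.coeff n = if n < n₁ then 0 else f.coeff n := by
    intro n
    rw [hf₂, HahnSeries.coeff_sub, hf₁, HahnSeries.coeff_truncLT]
    split_ifs <;> simp
  set c := f.coeff n₁ with hc
  have hc0 : c ≠ 0 := by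
    intro h0
    apply hn₁mem
    rw [h0]
    exact A.zero_mem
  have hf₂n₁ : f₂.coeff n₁ = c := by
    rw [hf₂coeff, if_neg (lt_irrefl _)]
  have hf₂0 : f₂ ≠ 0 := ne_zero_of_coeff_ne_zero (by rw [hf₂n₁]; exact hc0)
  have hord : f₂.order = n₁ := by
    apply le_antisymm
    · exact order_le_of_coeff_ne_zero (by rw [hf₂n₁]; exact hc0)
    · rw [le_order_iff_forall hf₂0]
      intro j hj
      rw [hf₂coeff, if_pos hj]
  have hlead : f₂.leadingCoeff = c := by
    rw [leadingCoeff_eq, hord, hf₂n₁]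
  -- `d * f₂ ^ m` has coefficients in `A`
  have hmem : ∀ m : ℕ, coeffMap A.subtype d * f₂ ^ m ∈ (coeffMap A.subtype).range := by
    intro m
    have hexp : f₂ ^ m = ∑ i ∈ Finset.range (m + 1), f ^ i * (-f₁) ^ (m - i) * (m.choose i) := by
      rw [hf₂, sub_eq_add_neg, add_pow]
    rw [hexp, Finset.mul_sum]
    refine Subring.sum_mem _ fun i _ => ?_
    rw [← mul_assoc, ← mul_assoc]
    refine Subring.mul_mem _ (Subring.mul_mem _ (h i) ?_) ?_
    · exact Subring.pow_mem _ (Subring.neg_mem _ hf₁mem) _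
    · exact natCast_mem _ _
  set d' := coeffMap A.subtype d with hd'
  have hd'0 : d' ≠ 0 := by
    intro h0
    apply hd
    apply coeffMap_subtype_injective A
    rw [← hd', h0, map_zero]
  set d₀ := d'.leadingCoeff with hd₀
  have hd₀0 : d₀ ≠ 0 := leadingCoeff_ne_zero.mpr hd'0
  have hd₀c : ∀ m : ℕ, d₀ * c ^ m ∈ A := by
    intro m
    have h1 := (mem_range_coeffMap_iff A _).mp (hmem m) (d' * f₂ ^ m).order
    rw [← leadingCoeff_eq, leadingCoeff_mul, leadingCoeff_pow', hlead] at h1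
    exact h1
  -- contradiction with the archimedean property
  have hcv : 1 < A.valuation c := by
    by_contra hle
    apply hn₁mem
    rw [← A.valuation_le_one_iff]
    exact not_lt.mp hle
  have hcinv : c⁻¹ ∈ A.nonunits := by
    rw [ValuationSubring.mem_nonunits_iff, map_inv₀]
    exact inv_lt_one_of_one_lt₀ hcv
  obtain ⟨m, hm⟩ := harch c⁻¹ hcinv d₀ hd₀0
  have h2 := (A.valuation_le_one_iff _).mpr (hd₀c m)
  rw [map_mul, map_pow] at h2
  rw [map_inv₀, inv_pow] at hm
  have hcm0 : A.valuation c ^ m ≠ 0 :=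
    pow_ne_zero _ ((Valuation.ne_zero_iff _).mpr hc0)
  have h3 : (A.valuation c ^ m)⁻¹ * A.valuation c ^ m < A.valuation d₀ * A.valuation c ^ m :=
    mul_lt_mul_of_pos_right hm (zero_lt_iff.mpr hcm0)
  rw [inv_mul_cancel₀ hcm0] at h3
  exact absurd h2 (not_le.mpr h3)

end Fermat.Agent.S37.H700

end
end
-- ===== PACK-END S37/H700/Cic.lean

-- ===== PACK-BEGIN S56/H194/SSAbs.lean
section


/-!
# S56 / W-FLAT-SS, piece FL-SS (abstract form): structure of an irreducible 2-dimensional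
representation of a decomposition group in residue characteristic `p`   (helper194, Mathlib-only)

`G` any group (think `G_ℚ`), `D ⊇ I ⊇ W` subgroups (decomposition, inertia, "wild" = kernel of
the tame characters at a finite level), `φ ∈ D` (Frobenius), `ρ : G →* End_k V`, `dim V = 2`,
`k` a finite field of characteristic `p` odd.  Hypotheses (all at the level of `ρ`-images):
* `W`, `I` are normalised by `D`; `ρ(w)` has `p`-power order for `w ∈ W`;
* commutators of `I` act like elements of `W`; for `τ ∈ I` some power `τ ^ N`, `p ∤ N`, acts like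
  an element of `W`  (tame quotient is abelian of order prime to `p`);
* `ρ(D) = ⟨ρ φ⟩ · ρ(I)`;  `ρ(φ τ φ⁻¹) = ρ(τ ^ p · w)`  (Frobenius relation);
* every `ρ(g)` has its eigenvalues in `k`; `ρ|_D` is irreducible.
Conclusions (`SS.structure`): `ρ(W) = 1`; there is a basis `b` of `V` with `ρ(τ) = diag(χ τ, χ' τ)`
for `τ ∈ I`, `χ ≠ χ'` on `I`, `χ' = χ ^ p`, `χ = χ' ^ p`, and `ρ(φ)` swaps the two lines.
Corollaries: every `ρ(σ)`, `σ ∈ D`, is diagonal or anti-diagonal in `b`, and `ρ(σ) ^ (2(|k|-1)) = 1`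
(so `p ∤ |ρ(D)|`); `ρ(φ) ^ 2` is a scalar.
-/

set_option autoImplicit false

open Polynomial

namespace Fermat.Agent.S56.H194.SS

variable {k : Type*} [Field k] {V : Type*} [AddCommGroup V] [Module k V]

/-! ### A `p`-group acting linearly in characteristic `p` has a nonzero fixed vector -/

theorem exists_fixed_vector_of_pGroup [Finite k] {p : ℕ} [Fact p.Prime] [CharP k p]
    [Module.Finite k V] [Nontrivial V] (H : Subgroup (Module.End k V)ˣ) (hH : IsPGroup p H) :
    ∃ v : V, v ≠ 0 ∧ ∀ h ∈ H, ((h : (Module.End k V)ˣ) : Module.End k V) v = v := by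
  have : Finite V := Module.finite_of_finite k
  have hcard : p ∣ Nat.card V := by
    rw [Module.natCard_eq_pow_finrank (K := k) (V := V)]
    have hk : p ∣ Nat.card k := by
      have := Fintype.ofFinite k
      obtain ⟨n, -, hkn⟩ := FiniteField.card k p
      rw [Nat.card_eq_fintype_card, hkn]
      exact dvd_pow_self p n.ne_zero
    exact dvd_pow hk (Module.finrank_pos (R := k) (M := V)).ne'
  have h0 : (0 : V) ∈ MulAction.fixedPoints H V := by
    intro h
    show ((h : (Module.End k V)ˣ) : Module.End k V) 0 = 0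
    exact map_zero _
  obtain ⟨v, hv, hne⟩ := hH.exists_fixed_point_of_prime_dvd_card_of_fixed_point V hcard h0
  exact ⟨v, fun h => hne h.symm, fun h hh => hv ⟨h, hh⟩⟩


/-! ### Linear algebra in dimension 2 -/

section LinAlg

variable [Module.Finite k V]

/-- A root of the characteristic polynomial gives an eigenvector. -/
theorem exists_eigenvector {f : Module.End k V} {α β : k}
    (h : LinearMap.charpoly f = (X - C α) * (X - C β)) : ∃ v : V, v ≠ 0 ∧ f v = α • v := by
  have hroot : (LinearMap.charpoly f).IsRoot α := by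
    rw [h, IsRoot.def, eval_mul, eval_sub, eval_X, eval_C, sub_self, zero_mul]
  obtain ⟨v, hv⟩ := ((Module.End.hasEigenvalue_iff_isRoot_charpoly f α).mpr hroot).exists_hasEigenvector
  exact ⟨v, hv.2, hv.apply_eq_smul⟩

/-- Same for the second root. -/
theorem exists_eigenvector' {f : Module.End k V} {α β : k}
    (h : LinearMap.charpoly f = (X - C α) * (X - C β)) : ∃ v : V, v ≠ 0 ∧ f v = β • v := by
  rw [mul_comm] at h
  exact exists_eigenvector h

/-- Cayley–Hamilton for a split characteristic polynomial. -/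
theorem sub_mul_sub_eq_zero {f : Module.End k V} {α β : k}
    (h : LinearMap.charpoly f = (X - C α) * (X - C β)) :
    (f - α • (1 : Module.End k V)) * (f - β • (1 : Module.End k V)) = 0 := by
  have := LinearMap.aeval_self_charpoly f
  rw [h, map_mul, map_sub, map_sub, aeval_X, aeval_C, aeval_C, Algebra.algebraMap_eq_smul_one,
    Algebra.algebraMap_eq_smul_one] at this
  exact this

omit [Module.Finite k V] in
/-- `(α + n) ^ N = α ^ N + N α ^ (N - 1) n` when `n ^ 2 = 0`. -/
theorem smul_one_add_pow_of_sq_zero (α : k) {n : Module.End k V} (hn : n * n = 0) (N : ℕ) :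
    (α • (1 : Module.End k V) + n) ^ N =
      (α ^ N) • (1 : Module.End k V) + ((N : k) * α ^ (N - 1)) • n := by
  induction N with
  | zero => simp
  | succ N ih =>
    rw [pow_succ, ih]
    rcases Nat.eq_zero_or_pos N with h0 | hpos
    · subst h0
      simp
    · have hN : N - 1 + 1 = N := Nat.sub_add_cancel hpos
      have e1 : α ^ (N + 1 - 1) = α ^ (N - 1) * α := by
        rw [Nat.add_sub_cancel, ← pow_succ, hN]
      rw [e1]
      simp only [add_mul, mul_add, smul_mul_assoc, mul_smul_comm, one_mul, mul_one, hn, smul_zero,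
        add_zero, Nat.cast_succ]
      have e2 : α ^ (N + 1) = α ^ (N - 1) * α * α := by rw [← pow_succ, hN, ← pow_succ]
      have e3 : α ^ N = α ^ (N - 1) * α := by rw [← pow_succ, hN]
      rw [e2, e3]
      module

/-- An endomorphism of finite order prime to the characteristic with a double eigenvalue `α` is
the scalar `α`. -/
theorem eq_smul_one_of_pow_eq_one {f : Module.End k V} {α : k}
    (h : LinearMap.charpoly f = (X - C α) * (X - C α)) {N : ℕ} (hN : (N : k) ≠ 0)
    (hf : f ^ N = 1) : f = α • (1 : Module.End k V) := by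
  set n : Module.End k V := f - α • (1 : Module.End k V) with hn
  have hnn : n * n = 0 := sub_mul_sub_eq_zero h
  have hfn : f = α • (1 : Module.End k V) + n := by rw [hn]; abel
  obtain ⟨v, hv0, hv⟩ := exists_eigenvector h
  have hnv : n v = 0 := by
    rw [hn, LinearMap.sub_apply, hv, LinearMap.smul_apply, Module.End.one_apply, sub_self]
  have hpow := smul_one_add_pow_of_sq_zero α hnn N
  rw [← hfn, hf] at hpow
  -- evaluate at `v`
  have hα : α ^ N = 1 := by
    have := congrArg (fun g : Module.End k V => g v) hpow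
    simp only [Module.End.one_apply, LinearMap.add_apply, LinearMap.smul_apply, hnv, smul_zero,
      add_zero] at this
    by_contra hne
    have h1 : (1 - α ^ N) • v = 0 := by rw [sub_smul, one_smul, ← this, sub_self]
    rcases smul_eq_zero.mp h1 with h2 | h2
    · exact hne (sub_eq_zero.mp h2).symm
    · exact hv0 h2
  have hN0 : N ≠ 0 := by
    rintro rfl
    simp at hN
  have hα0 : α ≠ 0 := by
    rintro rfl
    rw [zero_pow hN0] at hα
    exact zero_ne_one hα
  rw [hα, one_smul, left_eq_add] at hpow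
  have hc : (N : k) * α ^ (N - 1) ≠ 0 := mul_ne_zero hN (pow_ne_zero _ hα0)
  have hn0 : n = 0 := (smul_eq_zero.mp hpow).resolve_left hc
  rw [hfn, hn0, add_zero]

end LinAlg


/-! ### Two eigenlines -/

section Eigen

/-- Eigenvectors for distinct eigenvalues are linearly independent. -/
theorem linearIndependent_pair_of_eigen {f : Module.End k V} {α β : k} (hαβ : α ≠ β)
    {e₁ e₂ : V} (h₁ : f e₁ = α • e₁) (h₂ : f e₂ = β • e₂) (he₁ : e₁ ≠ 0) (he₂ : e₂ ≠ 0) :
    LinearIndependent k ![e₁, e₂] := by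
  rw [LinearIndependent.pair_iff]
  intro s t hst
  have h := congrArg f hst
  rw [map_add, map_smul, map_smul, h₁, h₂, map_zero] at h
  -- s α e₁ + t β e₂ = 0 and α (s e₁ + t e₂) = 0
  have h' : (t * (β - α)) • e₂ = 0 := by
    have hα : α • (s • e₁ + t • e₂) = 0 := by rw [hst, smul_zero]
    have : (t * (β - α)) • e₂ = (s • α • e₁ + t • β • e₂) - α • (s • e₁ + t • e₂) := by module
    rw [this, h, hα, sub_zero]
  have ht : t = 0 := by
    rcases smul_eq_zero.mp h' with h0 | h0
    · rcases mul_eq_zero.mp h0 with h1 | h1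
      · exact h1
      · exact absurd (sub_eq_zero.mp h1).symm hαβ
    · exact absurd h0 he₂
  subst ht
  rw [zero_smul, add_zero] at hst
  exact ⟨(smul_eq_zero.mp hst).resolve_right he₁, rfl⟩

variable (hdim : Module.finrank k V = 2)

include hdim

/-- In dimension 2 a linearly independent pair spans. -/
theorem exists_eq_smul_add_smul {e₁ e₂ : V} (hli : LinearIndependent k ![e₁, e₂]) (x : V) :
    ∃ s t : k, x = s • e₁ + t • e₂ := by
  have hcard : Fintype.card (Fin 2) = Module.finrank k V := by rw [hdim]; rfl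
  have : Module.Finite k V := Module.finite_of_finrank_pos (by rw [hdim]; norm_num)
  let b := basisOfLinearIndependentOfCardEqFinrank hli hcard
  refine ⟨b.repr x 0, b.repr x 1, ?_⟩
  have hx := b.sum_repr x
  rw [Fin.sum_univ_two] at hx
  have hb0 : b 0 = e₁ := by
    rw [coe_basisOfLinearIndependentOfCardEqFinrank]; rfl
  have hb1 : b 1 = e₂ := by
    rw [coe_basisOfLinearIndependentOfCardEqFinrank]; rfl
  rw [hb0, hb1] at hx
  exact hx.symm

/-- An eigenvector of `f = diag(α, β)` (`α ≠ β`) lies on one of the two eigenlines. -/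
theorem eigen_mem_line {f : Module.End k V} {α β : k} (hαβ : α ≠ β)
    {e₁ e₂ : V} (h₁ : f e₁ = α • e₁) (h₂ : f e₂ = β • e₂) (he₁ : e₁ ≠ 0) (he₂ : e₂ ≠ 0)
    {x : V} {γ : k} (hx : f x = γ • x) :
    (∃ s : k, x = s • e₁) ∨ (∃ t : k, x = t • e₂) := by
  have hli := linearIndependent_pair_of_eigen hαβ h₁ h₂ he₁ he₂
  obtain ⟨s, t, rfl⟩ := exists_eq_smul_add_smul hdim hli x
  rw [map_add, map_smul, map_smul, h₁, h₂] at hx
  have h0 : (s * (α - γ)) • e₁ + (t * (β - γ)) • e₂ = 0 := by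
    have : (s * (α - γ)) • e₁ + (t * (β - γ)) • e₂ =
        (s • α • e₁ + t • β • e₂) - γ • (s • e₁ + t • e₂) := by module
    rw [this, hx, sub_self]
  obtain ⟨hs, ht⟩ := LinearIndependent.pair_iff.mp hli _ _ h0
  rcases mul_eq_zero.mp hs with hs0 | hs0
  · right
    exact ⟨t, by rw [hs0, zero_smul, zero_add]⟩
  · rcases mul_eq_zero.mp ht with ht0 | ht0
    · left
      exact ⟨s, by rw [ht0, zero_smul, add_zero]⟩
    · exact absurd ((sub_eq_zero.mp hs0).trans (sub_eq_zero.mp ht0).symm) hαβ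

/-- An endomorphism commuting with `f = diag(α, β)` (`α ≠ β`) preserves the first eigenline. -/
theorem commute_eigen_left {f g : Module.End k V} {α β : k} (hαβ : α ≠ β)
    {e₁ e₂ : V} (h₁ : f e₁ = α • e₁) (h₂ : f e₂ = β • e₂) (he₁ : e₁ ≠ 0) (he₂ : e₂ ≠ 0)
    (hfg : f * g = g * f) : ∃ c : k, g e₁ = c • e₁ := by
  have hx : f (g e₁) = α • g e₁ := by
    have := congrArg (fun u : Module.End k V => u e₁) hfg
    simp only [Module.End.mul_apply] at this
    rw [this, h₁, map_smul]
  have hli := linearIndependent_pair_of_eigen hαβ h₁ h₂ he₁ he₂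
  obtain ⟨s, t, hst⟩ := exists_eq_smul_add_smul hdim hli (g e₁)
  rw [hst, map_add, map_smul, map_smul, h₁, h₂] at hx
  have h0 : (t * (β - α)) • e₂ = 0 := by
    have : (t * (β - α)) • e₂ = (s • α • e₁ + t • β • e₂) - α • (s • e₁ + t • e₂) := by module
    rw [this, hx, sub_self]
  have ht : t = 0 := by
    rcases smul_eq_zero.mp h0 with h1 | h1
    · rcases mul_eq_zero.mp h1 with h2 | h2
      · exact h2
      · exact absurd (sub_eq_zero.mp h2).symm hαβ
    · exact absurd h1 he₂
  exact ⟨s, by rw [hst, ht, zero_smul, add_zero]⟩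

/-- An endomorphism commuting with `f = diag(α, β)` (`α ≠ β`) preserves the second eigenline. -/
theorem commute_eigen_right {f g : Module.End k V} {α β : k} (hαβ : α ≠ β)
    {e₁ e₂ : V} (h₁ : f e₁ = α • e₁) (h₂ : f e₂ = β • e₂) (he₁ : e₁ ≠ 0) (he₂ : e₂ ≠ 0)
    (hfg : f * g = g * f) : ∃ c : k, g e₂ = c • e₂ :=
  commute_eigen_left hdim (Ne.symm hαβ) h₂ h₁ he₂ he₁ hfg

/-- A line in a plane is a proper nonzero subspace. -/
theorem span_singleton_ne_bot_top {v : V} (hv : v ≠ 0) :
    Submodule.span k {v} ≠ ⊥ ∧ Submodule.span k {v} ≠ ⊤ := by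
  refine ⟨fun h => hv ((Submodule.span_singleton_eq_bot).mp h), fun h => ?_⟩
  have h1 : Module.finrank k (Submodule.span k {v}) = 1 := finrank_span_singleton hv
  rw [h, finrank_top, hdim] at h1
  norm_num at h1

end Eigen


/-! ### The abstract (SS) statement -/

/-- Hypotheses of the abstract (SS) statement: `D ⊇ I ⊇ W` decomposition / inertia / wild
subgroups, `φ` a Frobenius, `ρ` a 2-dimensional representation over a field of characteristic
`p`, irreducible on `D`, with all eigenvalues in `k`. -/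
structure Hyp [Module.Finite k V] (p : ℕ) {G : Type*} [Group G] (ρ : G →* Module.End k V)
    (D I W : Subgroup G) (φ : G) : Prop where
  finrank_eq : Module.finrank k V = 2
  I_le : I ≤ D
  W_le : W ≤ I
  I_norm : ∀ g ∈ D, ∀ τ ∈ I, g * τ * g⁻¹ ∈ I
  W_norm : ∀ g ∈ D, ∀ w ∈ W, g * w * g⁻¹ ∈ W
  W_pow : ∀ w ∈ W, ∃ a : ℕ, ρ w ^ p ^ a = 1
  comm : ∀ σ ∈ I, ∀ τ ∈ I, ∃ w ∈ W, ρ (σ * τ * σ⁻¹ * τ⁻¹) = ρ w
  tame : ∀ τ ∈ I, ∃ N : ℕ, ¬ p ∣ N ∧ ∃ w ∈ W, ρ (τ ^ N) = ρ w
  phi_mem : φ ∈ D
  gen : ∀ σ ∈ D, ∃ n : ℕ, ∃ τ ∈ I, ρ σ = ρ (φ ^ n * τ)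
  frob : ∀ τ ∈ I, ∃ w ∈ W, ρ (φ * τ * φ⁻¹) = ρ (τ ^ p * w)
  split : ∀ g : G, ∃ α β : k, LinearMap.charpoly (ρ g) = (X - C α) * (X - C β)
  irr : ∀ U : Submodule k V, (∀ σ ∈ D, ∀ x ∈ U, ρ σ x ∈ U) → U = ⊥ ∨ U = ⊤

namespace Hyp

variable [Module.Finite k V] {p : ℕ} [Fact p.Prime] [CharP k p] {G : Type*} [Group G]
  {ρ : G →* Module.End k V} {D I W : Subgroup G} {φ : G}

omit [Module.Finite k V] [Fact p.Prime] [CharP k p] in
theorem rho_mul_inv (g : G) : ρ g * ρ g⁻¹ = 1 := by
  rw [← map_mul, mul_inv_cancel, map_one]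

omit [Module.Finite k V] [Fact p.Prime] [CharP k p] in
theorem rho_inv_mul (g : G) : ρ g⁻¹ * ρ g = 1 := by
  rw [← map_mul, inv_mul_cancel, map_one]

omit [Module.Finite k V] [Fact p.Prime] [CharP k p] in
theorem rho_injective (g : G) : Function.Injective (ρ g) := by
  intro x y hxy
  have := congrArg (ρ g⁻¹) hxy
  rwa [← Module.End.mul_apply, ← Module.End.mul_apply, rho_inv_mul, Module.End.one_apply,
    Module.End.one_apply] at this

variable (h : _root_.Fermat.Agent.S56.H194.SS.Hyp p ρ D I W φ)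

include h

omit [Fact p.Prime] [CharP k p] in
theorem nontrivial : Nontrivial V :=
  Module.nontrivial_of_finrank_pos (R := k) (by rw [h.finrank_eq]; norm_num)

/-- (SS-1) the wild subgroup acts trivially. -/
theorem wild_trivial [Finite k] : ∀ w ∈ W, ρ w = 1 := by
  have := h.nontrivial
  -- the image of `W` in `GL(V)` is a `p`-group
  set H : Subgroup (Module.End k V)ˣ := W.map ρ.toHomUnits with hH
  have hP : IsPGroup p H := by
    rintro ⟨g, hg⟩
    obtain ⟨w, hw, rfl⟩ := Subgroup.mem_map.mp hg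
    obtain ⟨a, ha⟩ := h.W_pow w hw
    refine ⟨a, ?_⟩
    apply Subtype.ext
    apply Units.ext
    simpa using ha
  obtain ⟨v, hv0, hv⟩ := exists_fixed_vector_of_pGroup H hP
  have hvW : ∀ w ∈ W, ρ w v = v := fun w hw => hv (ρ.toHomUnits w) (Subgroup.mem_map_of_mem _ hw)
  -- the space of `W`-fixed vectors is `D`-stable
  let U : Submodule k V :=
    { carrier := {x | ∀ w ∈ W, ρ w x = x}
      add_mem' := fun {x y} hx hy w hw => by rw [map_add, hx w hw, hy w hw]
      zero_mem' := fun w _ => map_zero _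
      smul_mem' := fun c x hx w hw => by rw [map_smul, hx w hw] }
  have hU : ∀ σ ∈ D, ∀ x ∈ U, ρ σ x ∈ U := by
    intro σ hσ x hx w hw
    have hconj : σ⁻¹ * w * σ ∈ W := by
      have := h.W_norm σ⁻¹ (inv_mem hσ) w hw
      rwa [inv_inv] at this
    have h1 : ρ w (ρ σ x) = ρ σ (ρ (σ⁻¹ * w * σ) x) := by
      rw [← Module.End.mul_apply, ← Module.End.mul_apply, ← map_mul, ← map_mul]
      congr 2
      group
    rw [h1, hx _ hconj]
  rcases h.irr U hU with hbot | htop
  · exact absurd ((Submodule.eq_bot_iff U).mp hbot v hvW) hv0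
  · intro w hw
    ext x
    have hx : x ∈ U := htop ▸ Submodule.mem_top
    exact hx w hw

/-- (SS-2) inertia acts through commuting endomorphisms. -/
theorem inertia_comm [Finite k] {σ τ : G} (hσ : σ ∈ I) (hτ : τ ∈ I) :
    ρ σ * ρ τ = ρ τ * ρ σ := by
  obtain ⟨w, hw, hc⟩ := h.comm σ hσ τ hτ
  rw [h.wild_trivial w hw] at hc
  have : ρ σ * ρ τ = ρ (σ * τ * σ⁻¹ * τ⁻¹) * (ρ τ * ρ σ) := by
    rw [← map_mul, ← map_mul, ← map_mul]
    congr 1
    group
  rw [this, hc, one_mul]

/-- (SS-2) inertia acts through endomorphisms of order prime to `p`. -/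
theorem inertia_pow [Finite k] {τ : G} (hτ : τ ∈ I) : ∃ N : ℕ, (N : k) ≠ 0 ∧ ρ τ ^ N = 1 := by
  obtain ⟨N, hN, w, hw, hc⟩ := h.tame τ hτ
  refine ⟨N, fun h0 => hN ((CharP.cast_eq_zero_iff k p N).mp h0), ?_⟩
  rw [← map_pow, hc, h.wild_trivial w hw]

/-- (SS-2) each inertia element acts as a scalar or with two distinct eigenvalues. -/
theorem inertia_scalar_or_regular [Finite k] {τ : G} (hτ : τ ∈ I) :
    (∃ α : k, ρ τ = α • (1 : Module.End k V)) ∨
      ∃ α β : k, α ≠ β ∧ LinearMap.charpoly (ρ τ) = (X - C α) * (X - C β) := by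
  obtain ⟨α, β, hαβ⟩ := h.split τ
  by_cases hne : α = β
  · subst hne
    obtain ⟨N, hN, hpow⟩ := h.inertia_pow hτ
    exact Or.inl ⟨α, eq_smul_one_of_pow_eq_one hαβ hN hpow⟩
  · exact Or.inr ⟨α, β, hne, hαβ⟩

omit [Fact p.Prime] [CharP k p] in
/-- A line stable under `ρ φ` and `ρ(I)` is `D`-stable: impossible. -/
theorem not_stable_line {v : V} (hv : v ≠ 0) (hφ : ∃ c : k, ρ φ v = c • v)
    (hI : ∀ τ ∈ I, ∃ c : k, ρ τ v = c • v) : False := by
  have hstab : ∀ σ ∈ D, ∀ x ∈ Submodule.span k {v}, ρ σ x ∈ Submodule.span k {v} := by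
    intro σ hσ x hx
    obtain ⟨n, τ, hτ, hστ⟩ := h.gen σ hσ
    obtain ⟨a, rfl⟩ := Submodule.mem_span_singleton.mp hx
    obtain ⟨c, hc⟩ := hI τ hτ
    obtain ⟨d, hd⟩ := hφ
    have hpow : ∀ m : ℕ, (ρ φ ^ m) v = d ^ m • v := by
      intro m
      induction m with
      | zero => simp
      | succ m ih =>
        rw [pow_succ, Module.End.mul_apply, hd, map_smul, ih, smul_smul, pow_succ, mul_comm]
    rw [hστ, map_mul, map_pow, Module.End.mul_apply, map_smul, hc, map_smul, map_smul, hpow]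
    exact Submodule.smul_mem _ _ (Submodule.smul_mem _ _ (Submodule.smul_mem _ _
      (Submodule.mem_span_singleton_self v)))
  obtain ⟨h1, h2⟩ := span_singleton_ne_bot_top h.finrank_eq hv
  rcases h.irr _ hstab with hb | ht
  · exact h1 hb
  · exact h2 ht

/-- (SS-3) some inertia element acts with two distinct eigenvalues. -/
theorem exists_regular [Finite k] :
    ∃ τ₀ ∈ I, ∃ α β : k, α ≠ β ∧ LinearMap.charpoly (ρ τ₀) = (X - C α) * (X - C β) := by
  by_contra hcon
  have hscal : ∀ τ ∈ I, ∃ α : k, ρ τ = α • (1 : Module.End k V) := by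
    intro τ hτ
    rcases h.inertia_scalar_or_regular hτ with hs | ⟨α, β, hαβ, hc⟩
    · exact hs
    · exact absurd ⟨τ, hτ, α, β, hαβ, hc⟩ hcon
  obtain ⟨α, β, hαβ⟩ := h.split φ
  obtain ⟨v, hv0, hv⟩ := exists_eigenvector hαβ
  refine h.not_stable_line hv0 ⟨α, hv⟩ fun τ hτ => ?_
  obtain ⟨c, hc⟩ := hscal τ hτ
  exact ⟨c, by rw [hc, LinearMap.smul_apply, Module.End.one_apply]⟩


omit [Module.Finite k V] [Fact p.Prime] [CharP k p] h in
theorem pow_apply_eigen {f : Module.End k V} {c : k} {v : V} (hf : f v = c • v) (m : ℕ) :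
    (f ^ m) v = c ^ m • v := by
  induction m with
  | zero => simp
  | succ m ih => rw [pow_succ, Module.End.mul_apply, hf, map_smul, ih, smul_smul, pow_succ, mul_comm]

/-- (SS-4) the Frobenius relation on `ρ`-images: `ρ φ * ρ τ = ρ τ ^ p * ρ φ` for `τ ∈ I`. -/
theorem frob_rel [Finite k] {τ : G} (hτ : τ ∈ I) : ρ φ * ρ τ = ρ τ ^ p * ρ φ := by
  obtain ⟨w, hw, hf⟩ := h.frob τ hτ
  have h1 : ρ (τ ^ p * w) = ρ τ ^ p := by
    rw [map_mul, h.wild_trivial w hw, mul_one, map_pow]
  rw [h1] at hf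
  rw [← hf, ← map_mul, ← map_mul]
  congr 1
  group

/-- **(SS) structure theorem.**  There is a basis `b` of `V` in which inertia acts diagonally by
two characters `χ ≠ χ'` with `χ' = χ ^ p`, `χ = χ' ^ p`, and Frobenius swaps the two lines. -/
theorem structure_thm [Finite k] :
    ∃ (b : Module.Basis (Fin 2) k V) (χ χ' : G → k) (a a' : k),
      (∀ τ ∈ I, ρ τ (b 0) = χ τ • b 0 ∧ ρ τ (b 1) = χ' τ • b 1) ∧
      (∃ τ ∈ I, χ τ ≠ χ' τ) ∧
      (∀ τ ∈ I, χ' τ = χ τ ^ p ∧ χ τ = χ' τ ^ p) ∧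
      a ≠ 0 ∧ a' ≠ 0 ∧ ρ φ (b 0) = a • b 1 ∧ ρ φ (b 1) = a' • b 0 := by
  obtain ⟨τ₀, hτ₀, α, β, hαβ, hc⟩ := h.exists_regular
  obtain ⟨e₁, he₁, h₁⟩ := exists_eigenvector hc
  obtain ⟨e₂, he₂, h₂⟩ := exists_eigenvector' hc
  have hdim := h.finrank_eq
  have hli := linearIndependent_pair_of_eigen hαβ h₁ h₂ he₁ he₂
  have hcard : Fintype.card (Fin 2) = Module.finrank k V := by rw [hdim]; rfl
  set b := basisOfLinearIndependentOfCardEqFinrank hli hcard with hb
  have hb0 : b 0 = e₁ := by rw [hb, coe_basisOfLinearIndependentOfCardEqFinrank]; rfl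
  have hb1 : b 1 = e₂ := by rw [hb, coe_basisOfLinearIndependentOfCardEqFinrank]; rfl
  -- inertia is diagonal
  have hdiag₁ : ∀ τ ∈ I, ∃ c : k, ρ τ e₁ = c • e₁ := fun τ hτ =>
    commute_eigen_left hdim hαβ h₁ h₂ he₁ he₂ (h.inertia_comm hτ₀ hτ)
  have hdiag₂ : ∀ τ ∈ I, ∃ c : k, ρ τ e₂ = c • e₂ := fun τ hτ =>
    commute_eigen_right hdim hαβ h₁ h₂ he₁ he₂ (h.inertia_comm hτ₀ hτ)
  -- Frobenius swaps the lines
  have hφinv : ∀ τ ∈ I, φ⁻¹ * τ * φ ∈ I := by
    intro τ hτ
    have := h.I_norm φ⁻¹ (inv_mem h.phi_mem) τ hτ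
    rwa [inv_inv] at this
  have hφeig : ∀ e : V, (∃ c : k, ρ (φ⁻¹ * τ₀ * φ) e = c • e) →
      ∃ γ : k, ρ τ₀ (ρ φ e) = γ • ρ φ e := by
    rintro e ⟨c, hce⟩
    refine ⟨c, ?_⟩
    have : ρ τ₀ (ρ φ e) = ρ φ (ρ (φ⁻¹ * τ₀ * φ) e) := by
      rw [← Module.End.mul_apply, ← Module.End.mul_apply, ← map_mul, ← map_mul]
      congr 2
      group
    rw [this, hce, map_smul]
  have hφ₁ : ∃ a : k, a ≠ 0 ∧ ρ φ e₁ = a • e₂ := by
    obtain ⟨γ, hγ⟩ := hφeig e₁ (hdiag₁ _ (hφinv τ₀ hτ₀))
    rcases eigen_mem_line hdim hαβ h₁ h₂ he₁ he₂ hγ with ⟨s, hs⟩ | ⟨t, ht⟩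
    · exact (h.not_stable_line he₁ ⟨s, hs⟩ hdiag₁).elim
    · refine ⟨t, ?_, ht⟩
      rintro rfl
      rw [zero_smul] at ht
      exact he₁ (rho_injective φ (ht.trans (map_zero _).symm))
  have hφ₂ : ∃ a' : k, a' ≠ 0 ∧ ρ φ e₂ = a' • e₁ := by
    obtain ⟨γ, hγ⟩ := hφeig e₂ (hdiag₂ _ (hφinv τ₀ hτ₀))
    rcases eigen_mem_line hdim hαβ h₁ h₂ he₁ he₂ hγ with ⟨s, hs⟩ | ⟨t, ht⟩
    · refine ⟨s, ?_, hs⟩
      rintro rfl
      rw [zero_smul] at hs
      exact he₂ (rho_injective φ (hs.trans (map_zero _).symm))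
    · exact (h.not_stable_line he₂ ⟨t, ht⟩ hdiag₂).elim
  obtain ⟨a, ha, hφe₁⟩ := hφ₁
  obtain ⟨a', ha', hφe₂⟩ := hφ₂
  -- the characters
  classical
  let χ : G → k := fun g => if hg : ∃ c : k, ρ g e₁ = c • e₁ then hg.choose else 0
  let χ' : G → k := fun g => if hg : ∃ c : k, ρ g e₂ = c • e₂ then hg.choose else 0
  have hχ : ∀ τ ∈ I, ρ τ e₁ = χ τ • e₁ := by
    intro τ hτ
    have hg := hdiag₁ τ hτ
    show ρ τ e₁ = (if hg : ∃ c : k, ρ τ e₁ = c • e₁ then hg.choose else 0) • e₁
    rw [dif_pos hg]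
    exact hg.choose_spec
  have hχ' : ∀ τ ∈ I, ρ τ e₂ = χ' τ • e₂ := by
    intro τ hτ
    have hg := hdiag₂ τ hτ
    show ρ τ e₂ = (if hg : ∃ c : k, ρ τ e₂ = c • e₂ then hg.choose else 0) • e₂
    rw [dif_pos hg]
    exact hg.choose_spec
  refine ⟨b, χ, χ', a, a', ?_, ?_, ?_, ha, ha', ?_, ?_⟩
  · intro τ hτ
    rw [hb0, hb1]
    exact ⟨hχ τ hτ, hχ' τ hτ⟩
  · refine ⟨τ₀, hτ₀, ?_⟩
    have e1 : χ τ₀ = α := by
      have := (hχ τ₀ hτ₀).symm.trans h₁
      exact smul_left_injective k he₁ this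
    have e2 : χ' τ₀ = β := by
      have := (hχ' τ₀ hτ₀).symm.trans h₂
      exact smul_left_injective k he₂ this
    rw [e1, e2]
    exact hαβ
  · intro τ hτ
    have hrel := h.frob_rel hτ
    constructor
    · -- apply to `e₂`
      have := congrArg (fun u : Module.End k V => u e₂) hrel
      simp only [Module.End.mul_apply] at this
      rw [hχ' τ hτ, map_smul, hφe₂, map_smul, pow_apply_eigen (hχ τ hτ), smul_smul, smul_smul] at this
      have h3 : χ' τ * a' = a' * χ τ ^ p := smul_left_injective k he₁ this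
      exact mul_right_cancel₀ ha' (h3.trans (mul_comm _ _))
    · -- apply to `e₁`
      have := congrArg (fun u : Module.End k V => u e₁) hrel
      simp only [Module.End.mul_apply] at this
      rw [hχ τ hτ, map_smul, hφe₁, map_smul, pow_apply_eigen (hχ' τ hτ), smul_smul, smul_smul] at this
      have h3 : χ τ * a = a * χ' τ ^ p := smul_left_injective k he₂ this
      exact mul_right_cancel₀ ha (h3.trans (mul_comm _ _))
  · rw [hb0, hb1]; exact hφe₁
  · rw [hb0, hb1]; exact hφe₂

end Hyp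

end Fermat.Agent.S56.H194.SS

end
-- ===== PACK-END S56/H194/SSAbs.lean

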