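import Fermat.Prelude.Def_EllipticCurve_FrobeniusTrace
import Mathlib
import Mathlib.RingTheory.SimpleModule.Basic
import Mathlib.RepresentationTheory.AlgebraRepresentation.Basic
import Mathlib.LinearAlgebra.FiniteDimensional.Basic
import Mathlib.Algebra.Algebra.Subalgebra.Basic
import Fermat.Prelude.Def_GaloisRep_CompletionBridge
import Fermat.Prelude.Def_ModularCurve_IgusaScheme
import Fermat.Prelude.Def_ModularCurve_X0ModL
import Fermat.Prelude.Def_FLTPrelim_Ramification
import Mathlib.FieldTheory.Galois.Infinite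
import Mathlib.FieldTheory.KrullTopology
import Mathlib.RingTheory.Valuation.RamificationGroup

-- ===== PACK-BEGIN S54/ValRing.lean
section



set_option autoImplicit false

namespace Fermat.Agent.S54

open Polynomial

/-- Valuation subrings contain all algebraic integers. -/
theorem isIntegral_mem_valuationSubring {K : Type*} [Field K] (A : ValuationSubring K)
    {b : K} (hb : IsIntegral ℤ b) : b ∈ A := by
  have h1 : IsIntegral A.toSubring b := by
    obtain ⟨p, hp, hpb⟩ := hb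
    refine ⟨p.map (algebraMap ℤ A.toSubring), hp.map _, ?_⟩
    rw [Polynomial.eval₂_map]
    have : (algebraMap A.toSubring K).comp (algebraMap ℤ A.toSubring) = algebraMap ℤ K := by
      ext; simp
    rw [this]
    exact hpb
  have h2 := (IsIntegrallyClosed.isIntegral_iff (R := A) (K := K)).mp h1
  obtain ⟨y, hy⟩ := h2
  rw [← hy]
  exact y.2

/-- An element lying in every valuation subring is integral over `ℤ`. -/
theorem isIntegral_of_forall_mem_valuationSubring {K : Type*} [Field K] (y : K)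
    (H : ∀ V : ValuationSubring K, y ∈ V) : IsIntegral ℤ y := by
  by_contra hy
  let R : Subring K := (integralClosure ℤ K).toSubring
  have hyR : y ∉ R := hy
  have : IsIntegrallyClosedIn R K := inferInstanceAs (IsIntegrallyClosedIn (integralClosure ℤ K) K)
  obtain ⟨V, -, hV⟩ := R.exists_le_valuationSubring_of_isIntegrallyClosedIn hyR
  exact hV (H V)

theorem aeval_mem_valuationSubring {K : Type*} [Field K] (V : ValuationSubring K) {x : K}
    (hx : x ∈ V) (q : ℤ[X]) : aeval x q ∈ V := by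
  induction q using Polynomial.induction_on with
  | C a => simp
  | add p q hp hq => rw [map_add]; exact V.add_mem _ _ hp hq
  | monomial n a h =>
    rw [pow_succ, ← mul_assoc, map_mul, aeval_X]
    exact V.mul_mem _ _ h hx

theorem coeff_iterate_divX (p : ℤ[X]) (r n : ℕ) :
    ((divX^[r]) p).coeff n = p.coeff (n + r) := by
  induction r generalizing n with
  | zero => simp
  | succ r ih =>
    rw [Function.iterate_succ_apply', coeff_divX, ih]
    congr 1
    ring

/-- The Horner recursion for the tails `divX^[r] p` of a polynomial. -/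
theorem aeval_iterate_divX {K : Type*} [Field K] (x : K) (p : ℤ[X]) (r : ℕ) :
    aeval x ((divX^[r]) p) = aeval x ((divX^[r + 1]) p) * x + (p.coeff r : K) := by
  conv_lhs => rw [← divX_mul_X_add ((divX^[r]) p)]
  rw [map_add, map_mul, aeval_X, aeval_C, coeff_iterate_divX, zero_add,
    Function.iterate_succ_apply']
  simp

/-- The Horner tails of an integer polynomial killing `x` lie in every valuation subring. -/
theorem horner_mem_valuationSubring {K : Type*} [Field K] (x : K) (p : ℤ[X])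
    (hp : aeval x p = 0) (V : ValuationSubring K) (r : ℕ) :
    aeval x ((divX^[r]) p) ∈ V := by
  rcases V.mem_or_inv_mem x with hx | hx
  · exact aeval_mem_valuationSubring V hx _
  · induction r with
    | zero => simp [hp]
    | succ r ih =>
      have h := aeval_iterate_divX x p r
      by_cases hx0 : x = 0
      · exact aeval_mem_valuationSubring V (hx0 ▸ V.zero_mem) _
      have : aeval x ((divX^[r + 1]) p) = x⁻¹ * (aeval x ((divX^[r]) p) - (p.coeff r : K)) := by
        rw [h]; field_simp; ring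
      rw [this]
      exact V.mul_mem _ _ hx (sub_mem ih (intCast_mem V _))

theorem horner_isIntegral {K : Type*} [Field K] (x : K) (p : ℤ[X])
    (hp : aeval x p = 0) (r : ℕ) :
    IsIntegral ℤ (aeval x ((divX^[r]) p)) :=
  isIntegral_of_forall_mem_valuationSubring _ fun V => horner_mem_valuationSubring x p hp V r

theorem horner_mul_isIntegral {K : Type*} [Field K] (x : K) (p : ℤ[X])
    (hp : aeval x p = 0) (r : ℕ) :
    IsIntegral ℤ (x * aeval x ((divX^[r + 1]) p)) := by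
  have h := aeval_iterate_divX x p r
  have : x * aeval x ((divX^[r + 1]) p) = aeval x ((divX^[r]) p) - (p.coeff r : K) := by
    rw [h]; ring
  rw [this]
  exact (horner_isIntegral x p hp r).sub isIntegral_algebraMap

/-- An integer which is a non-unit of a valuation subring over `ℓ` is divisible by `ℓ`. -/
theorem dvd_of_intCast_mem_nonunits {K : Type*} [Field K] (A : ValuationSubring K) (ℓ : ℕ)
    (hℓ : ℓ.Prime) (hA : A.LiesOverPrime ℓ) (a : ℤ) (ha : (a : K) ∈ A.nonunits) :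
    (ℓ : ℤ) ∣ a := by
  by_contra hdvd
  have hcop : IsCoprime (ℓ : ℤ) a :=
    (Nat.prime_iff_prime_int.mp hℓ).coprime_iff_not_dvd.mpr hdvd
  obtain ⟨u, v, huv⟩ := hcop
  have h1 : ((u * ℓ + v * a : ℤ) : K) ∈ A.nonunits := by
    push_cast
    refine A.nonunits.add_mem ?_ ?_
    · obtain ⟨h1, h2⟩ := ValuationSubring.mem_nonunits_iff_exists_mem_maximalIdeal.mp hA
      have := Ideal.mul_mem_left _ (⟨(u : K), intCast_mem A u⟩ : A) h2
      exact ValuationSubring.mem_nonunits_iff_exists_mem_maximalIdeal.mpr ⟨_, this⟩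
    · obtain ⟨h1, h2⟩ := ValuationSubring.mem_nonunits_iff_exists_mem_maximalIdeal.mp ha
      have := Ideal.mul_mem_left _ (⟨(v : K), intCast_mem A v⟩ : A) h2
      exact ValuationSubring.mem_nonunits_iff_exists_mem_maximalIdeal.mpr ⟨_, this⟩
  rw [huv, ValuationSubring.mem_nonunits_iff] at h1
  simp at h1

/-- (4b) A valuation subring over `ℓ` of an algebraic extension of `ℚ` is the localisation of
the ring of algebraic integers at the prime below it. -/
theorem mem_valuationSubring_iff {K : Type*} [Field K] [CharZero K] [Algebra.IsAlgebraic ℚ K]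
    (A : ValuationSubring K) (ℓ : ℕ)
    (hℓ : ℓ.Prime) (hA : A.LiesOverPrime ℓ) (x : K) :
    x ∈ A ↔ ∃ b s, IsIntegral ℤ b ∧ IsIntegral ℤ s ∧ s ∉ A.nonunits ∧ x * s = b := by
  constructor
  · intro hx
    -- a primitive integer polynomial killing `x`
    have halg : IsAlgebraic ℤ x :=
      (IsFractionRing.isAlgebraic_iff ℤ ℚ K).mpr (Algebra.IsAlgebraic.isAlgebraic x)
    obtain ⟨f, hf0, hfx⟩ := halg
    set p := f.primPart with hp
    have hpprim : p.IsPrimitive := f.isPrimitive_primPart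
    have hpx : aeval x p = 0 := by
      have h1 : f = C f.content * p := f.eq_C_content_mul_primPart
      rw [h1, map_mul, aeval_C] at hfx
      rcases mul_eq_zero.mp hfx with h | h
      · exfalso
        have : f.content = 0 := by simpa using h
        exact hf0 (Polynomial.content_eq_zero_iff.mp this)
      · exact h
    -- some coefficient is not in the maximal ideal
    have hcoeff : ∃ i, ((p.coeff i : ℤ) : K) ∉ A.nonunits := by
      by_contra hcon
      push Not at hcon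
      have hdvd : C (ℓ : ℤ) ∣ p := by
        rw [Polynomial.C_dvd_iff_dvd_coeff]
        intro i
        exact dvd_of_intCast_mem_nonunits A ℓ hℓ hA _ (hcon i)
      have hu := hpprim _ hdvd
      rw [Int.isUnit_iff] at hu
      have := hℓ.one_lt
      omega
    -- some Horner tail is a unit
    have hex : ∃ r, aeval x ((divX^[r + 1]) p) ∉ A.nonunits := by
      by_contra hcon
      push Not at hcon
      obtain ⟨i, hi⟩ := hcoeff
      apply hi
      have h := aeval_iterate_divX x p i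
      have h2 : ((p.coeff i : ℤ) : K) =
          aeval x ((divX^[i]) p) - aeval x ((divX^[i + 1]) p) * x := by
        rw [h]; ring
      rw [h2]
      have hmul : aeval x ((divX^[i + 1]) p) * x ∈ A.nonunits := by
        obtain ⟨h1, h2⟩ := ValuationSubring.mem_nonunits_iff_exists_mem_maximalIdeal.mp (hcon i)
        have := Ideal.mul_mem_right (⟨x, hx⟩ : A) _ h2
        exact ValuationSubring.mem_nonunits_iff_exists_mem_maximalIdeal.mpr ⟨_, this⟩
      refine A.nonunits.sub_mem ?_ hmul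
      rcases i with _ | i
      · simp [hpx, A.nonunits.zero_mem]
      · exact hcon i
    obtain ⟨r, hr⟩ := hex
    exact ⟨x * aeval x ((divX^[r + 1]) p), aeval x ((divX^[r + 1]) p),
      horner_mul_isIntegral x p hpx r, horner_isIntegral x p hpx (r + 1), hr, rfl⟩
  · rintro ⟨b, s, hb, hs, hsA, hxs⟩
    have hbA : b ∈ A := isIntegral_mem_valuationSubring A hb
    have hs0 : s ≠ 0 := fun h => hsA (h ▸ A.nonunits.zero_mem)
    have hsinv : s⁻¹ ∈ A := by
      by_contra h
      exact hsA (A.mem_nonunits_iff_or.mpr (Or.inr h))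
    have : x = b * s⁻¹ := by
      rw [← hxs]; field_simp
    rw [this]
    exact A.mul_mem _ _ hbA hsinv

end Fermat.Agent.S54

end
-- ===== PACK-END S54/ValRing.lean

-- ===== PACK-BEGIN S29/H872/Burnside.lean
section





/-!
# Burnside's theorem (from Mathlib's Schur lemma + Jacobson density)

A subalgebra of `End_K(U)` (`K` algebraically closed, `U` finite dimensional, nonzero) without
nontrivial invariant subspaces is everything.
-/

set_option autoImplicit false

namespace Fermat.Agent.S29.H872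

open Module

variable {K : Type*} [Field K] {U : Type*} [AddCommGroup U] [Module K U]

section Burnside

variable (A : Subalgebra K (Module.End K U))

theorem subalgebra_smul_def (a : A) (u : U) : a • u = (a : Module.End K U) u := rfl

instance instIsScalarTowerSubalgebraEnd : IsScalarTower K A U :=
  ⟨fun c a u => by
    rw [subalgebra_smul_def, subalgebra_smul_def]
    simp⟩

theorem isSimpleModule_of_irr [Nontrivial U]
    (hirr : ∀ W : Submodule K U, (∀ a ∈ A, W ≤ W.comap a) → W = ⊥ ∨ W = ⊤) :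
    IsSimpleModule A U := by
  rw [isSimpleModule_iff]
  have : Nontrivial (Submodule A U) := inferInstance
  refine ⟨fun W => ?_⟩
  have h := hirr (W.restrictScalars K) (fun a ha w hw => by
    change (a : Module.End K U) w ∈ W
    exact W.smul_mem (⟨a, ha⟩ : A) hw)
  rcases h with h | h
  · left
    exact Submodule.restrictScalars_injective K A U (by rw [h]; rfl)
  · right
    exact Submodule.restrictScalars_injective K A U (by rw [h]; rfl)

variable [IsAlgClosed K] [FiniteDimensional K U]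

/-- **Burnside's theorem.** -/
theorem burnside [Nontrivial U]
    (hirr : ∀ W : Submodule K U, (∀ a ∈ A, W ≤ W.comap a) → W = ⊥ ∨ W = ⊤) :
    A = ⊤ := by
  have : IsSimpleModule A U := isSimpleModule_of_irr A hirr
  have hschur : Function.Bijective (algebraMap K (Module.End A U)) :=
    IsSimpleModule.algebraMap_end_bijective_of_isAlgClosed K
  have : Module.Finite (Module.End A U) U :=
    Module.Finite.of_restrictScalars_finite K (Module.End A U) U
  have hdens := Module.Finite.toModuleEnd_moduleEnd_surjective (R := A) (M := U)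
  rw [eq_top_iff]
  intro f _
  -- `f` is linear over `End_A(U) = K`
  let f' : Module.End (Module.End A U) U :=
    { toFun := f
      map_add' := f.map_add
      map_smul' := fun e u => by
        obtain ⟨c, rfl⟩ := hschur.2 e
        simp }
  obtain ⟨a, ha⟩ := hdens f'
  have : (a : Module.End K U) = f := by
    ext u
    have := congrArg (fun g : Module.End (Module.End A U) U => g u) ha
    have h2 : a • u = f u := by simpa [f'] using this
    exact h2
  rw [← this]
  exact a.2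

end Burnside

end Fermat.Agent.S29.H872

end
-- ===== PACK-END S29/H872/Burnside.lean

-- ===== PACK-BEGIN Lib/Cheb/H281/FrobGen.lean
section


/-!
# Frobenius elements generate the decomposition group at unramified primes

Setting of `Mathlib/RingTheory/Frobenius.lean`: a finite group `G` acts on a commutative ring `S`
with invariants `R`, `Q` is a prime of `S` with finite residue field.

* `stabilizer_le_zpowers_mul_inertia`: every element of the decomposition group of `Q` is a power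
  of a Frobenius element times an element of the inertia group.
* `zpowers_eq_stabilizer`: if the inertia group of `Q` is trivial, a Frobenius element at `Q`
  generates the decomposition group `MulAction.stabilizer G Q`.
-/

set_option autoImplicit false

open scoped Pointwise

namespace Fermat.Agent.Lib.Cheb.H281

variable {R S G : Type*} [CommRing R] [CommRing S] [Algebra R S] [Group G]
  [MulSemiringAction G S] [SMulCommClass G R S]

/-- The `n`-th power of a Frobenius element acts as `x ↦ x ^ (q ^ n)` modulo `Q`. -/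
theorem isArithFrobAt_pow_apply {Q : Ideal S} [Q.IsPrime] {φ : G} (hφ : IsArithFrobAt R φ Q)
    (n : ℕ) (x : S) :
    Ideal.Quotient.mk Q ((φ ^ n) • x) =
      Ideal.Quotient.mk Q x ^ (Nat.card (R ⧸ Q.under R) ^ n) := by
  induction n generalizing x with
  | zero => simp
  | succ n ih =>
    rw [pow_succ', mul_smul]
    have h1 : Ideal.Quotient.mk Q (φ • (φ ^ n • x)) =
        Ideal.Quotient.mk Q (φ ^ n • x) ^ Nat.card (R ⧸ Q.under R) := by
      have := hφ.mk_apply (φ ^ n • x)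
      simpa using this
    rw [h1, ih, ← pow_mul, pow_succ]

attribute [local instance] Ideal.Quotient.field in
/-- Every element of the decomposition group acts on the residue field as a power of the
Frobenius. -/
theorem exists_pow_of_mem_stabilizer {Q : Ideal S} [Q.IsPrime] [Finite (S ⧸ Q)]
    {τ : G} (hτ : τ ∈ MulAction.stabilizer G Q) :
    ∃ n : ℕ, ∀ x : S, Ideal.Quotient.mk Q (τ • x) =
      Ideal.Quotient.mk Q x ^ (Nat.card (R ⧸ Q.under R) ^ n) := by
  classical
  let P := Q.under R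
  have : Q.IsMaximal := Ideal.Quotient.maximal_of_isField _ (Finite.isField_of_domain (S ⧸ Q))
  have : Finite (R ⧸ P) := .of_injective _ Ideal.algebraMap_quotient_injective
  have : P.IsMaximal := Ideal.Quotient.maximal_of_isField _ (Finite.isField_of_domain (R ⧸ P))
  cases nonempty_fintype (R ⧸ P)
  obtain ⟨n, hn⟩ := (FiniteField.bijective_frobeniusAlgEquivOfAlgebraic_pow (R ⧸ P) (S ⧸ Q)).2
    (Ideal.Quotient.stabilizerHom Q P G ⟨τ, hτ⟩)
  refine ⟨n.1, fun x ↦ ?_⟩
  have := DFunLike.congr_fun hn (Ideal.Quotient.mk Q x)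
  simp only [AlgEquiv.coe_pow, FiniteField.coe_frobeniusAlgEquivOfAlgebraic_iterate] at this
  rw [Nat.card_eq_fintype_card]
  exact this.symm

/-- Every element of the decomposition group of `Q` is a power of a given Frobenius element at
`Q` times an element of the inertia group. -/
theorem exists_pow_mul_mem_inertia {Q : Ideal S} [Q.IsPrime] [Finite (S ⧸ Q)]
    {φ : G} (hφ : IsArithFrobAt R φ Q) {τ : G} (hτ : τ ∈ MulAction.stabilizer G Q) :
    ∃ n : ℕ, (φ ^ n)⁻¹ * τ ∈ Q.inertia G := by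
  obtain ⟨n, hn⟩ := exists_pow_of_mem_stabilizer (R := R) hτ
  refine ⟨n, fun x ↦ ?_⟩
  -- `(φ^n)⁻¹ τ x - x ∈ Q`  iff  `τ x - φ^n x ∈ φ^n Q = Q`
  have hφn : φ ^ n ∈ MulAction.stabilizer G Q := Subgroup.pow_mem _ hφ.mem_stabilizer n
  have h1 : τ • x - φ ^ n • x ∈ Q := by
    rw [← Ideal.Quotient.eq, hn, isArithFrobAt_pow_apply hφ]
  have h2 : (φ ^ n)⁻¹ • (τ • x - φ ^ n • x) ∈ (φ ^ n)⁻¹ • Q :=
    Ideal.smul_mem_pointwise_smul _ _ _ h1
  have h3 : (φ ^ n)⁻¹ • Q = Q := by
    have := MulAction.mem_stabilizer_iff.mp (Subgroup.inv_mem _ hφn)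
    exact this
  rw [h3, smul_sub, inv_smul_smul, ← mul_smul] at h2
  exact h2

/-- **Frobenius generates the decomposition group at unramified primes.**
If the inertia group of `Q` is trivial, any Frobenius element at `Q` generates the
decomposition group of `Q`. -/
theorem zpowers_eq_stabilizer {Q : Ideal S} [Q.IsPrime] [Finite (S ⧸ Q)]
    {φ : G} (hφ : IsArithFrobAt R φ Q) (hI : Q.inertia G = ⊥) :
    Subgroup.zpowers φ = MulAction.stabilizer G Q := by
  refine le_antisymm ((Subgroup.zpowers_le).mpr hφ.mem_stabilizer) fun τ hτ ↦ ?_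
  obtain ⟨n, hn⟩ := exists_pow_mul_mem_inertia hφ hτ
  rw [hI, Subgroup.mem_bot, inv_mul_eq_one] at hn
  exact hn ▸ Subgroup.pow_mem _ (Subgroup.mem_zpowers φ) n

end Fermat.Agent.Lib.Cheb.H281

end
-- ===== PACK-END Lib/Cheb/H281/FrobGen.lean

-- ===== PACK-BEGIN S56/H794/Nilp2.lean
section


/-!
# S56 / LOC-MIN (helper794): a 2×2 computation

`V` two-dimensional over a field `k` with `2 ≠ 0`, `N ≠ 0` nilpotent (`N² = 0`),
`C` of trace zero with `N C (1+N) + C (1+N) N = 0` (the `ε`-part of `((1+εC)(1+N) − 1)² = 0`).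
Then `C = (1+N) m (1−N) − m` for some `m` of trace zero: the first-order deformation
`(1+εC)(1+N)` of the unipotent element `1+N` is conjugate to `1+N` by `1+εm`.
-/

set_option autoImplicit false

noncomputable section

namespace Fermat.Agent.S56.H794

open Matrix

theorem mat_entry_eq_zero {k : Type*} [Field k] (a b c d : k)
    (h : !![0, 1; 0, 0] * !![a, b; c, d] * (1 + !![0, 1; 0, 0]) +
      !![a, b; c, d] * (1 + !![0, 1; 0, 0]) * !![0, 1; 0, 0]
      = (0 : Matrix (Fin 2) (Fin 2) k)) : c = 0 := by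
  simp only [Matrix.one_fin_two, Matrix.mul_fin_two, Matrix.of_add_of, Matrix.cons_add_cons,
    Matrix.empty_add_empty] at h
  simp at h
  have := congrFun (congrFun h 0) 0
  simp at this
  exact this

theorem mat_conj_sub_eq {k : Type*} [Field k] (hchar : (2 : k) ≠ 0) (a b c d : k) (hc : c = 0)
    (hd : a + d = 0) :
    !![a, b; c, d] = (1 + !![0, 1; 0, 0]) * !![-(a + b) / 2, 0; a, (a + b) / 2] *
      (1 - !![0, 1; 0, 0]) - !![-(a + b) / 2, 0; a, (a + b) / 2] := by
  simp only [Matrix.one_fin_two, Matrix.mul_fin_two, Matrix.of_add_of, Matrix.of_sub_of,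
    Matrix.cons_add_cons, Matrix.cons_sub_cons, Matrix.empty_add_empty, Matrix.empty_sub_empty]
  ext i j
  fin_cases i <;> fin_cases j
  · simp
  · simp
    field_simp
    ring
  · simp [hc]
  · simp
    linear_combination hd

/-- The matrix form of the computation. -/
theorem mat_exists_trace_zero_conj_sub {k : Type*} [Field k] (hchar : (2 : k) ≠ 0)
    (Cm : Matrix (Fin 2) (Fin 2) k) (htr : Cm.trace = 0)
    (h : !![0, 1; 0, 0] * Cm * (1 + !![0, 1; 0, 0]) + Cm * (1 + !![0, 1; 0, 0]) * !![0, 1; 0, 0]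
      = (0 : Matrix (Fin 2) (Fin 2) k)) :
    ∃ mm : Matrix (Fin 2) (Fin 2) k, mm.trace = 0 ∧
      Cm = (1 + !![0, 1; 0, 0]) * mm * (1 - !![0, 1; 0, 0]) - mm := by
  have htr' : Cm 0 0 + Cm 1 1 = 0 := by
    rw [Matrix.trace_fin_two] at htr
    exact htr
  rw [Matrix.eta_fin_two Cm] at h
  have hc := mat_entry_eq_zero _ _ _ _ h
  refine ⟨!![-(Cm 0 0 + Cm 0 1) / 2, 0; Cm 0 0, (Cm 0 0 + Cm 0 1) / 2], ?_, ?_⟩
  · rw [Matrix.trace_fin_two]
    simp only [Matrix.of_apply, Matrix.cons_val', Matrix.cons_val_zero, Matrix.cons_val_one]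
    ring
  · conv_lhs => rw [Matrix.eta_fin_two Cm]
    exact mat_conj_sub_eq hchar _ _ _ _ hc htr'

variable {k : Type*} [Field k] {V : Type*} [AddCommGroup V] [Module k V]

/-- **The 2×2 lemma.** -/
theorem exists_trace_zero_conj_sub (h2 : Module.finrank k V = 2) (hchar : (2 : k) ≠ 0)
    (N C : Module.End k V) (hN2 : N * N = 0) (hN0 : N ≠ 0)
    (hC : LinearMap.trace k V C = 0)
    (hNC : N * C * (1 + N) + C * (1 + N) * N = 0) :
    ∃ m : Module.End k V, LinearMap.trace k V m = 0 ∧ C = (1 + N) * m * (1 - N) - m := by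
  classical
  have : Module.Finite k V := Module.finite_of_finrank_eq_succ h2
  -- adapted basis
  obtain ⟨v, hv⟩ : ∃ v, N v ≠ 0 := by
    by_contra hcon
    apply hN0
    apply LinearMap.ext
    intro v
    by_contra hv
    exact hcon ⟨v, hv⟩
  have hNN : N (N v) = 0 := by
    have := congrArg (fun f : Module.End k V => f v) hN2
    simpa using this
  have hli : LinearIndependent k ![N v, v] := by
    rw [LinearIndependent.pair_iff]
    intro s t hst
    have h1 : t • N v = 0 := by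
      have := congrArg N hst
      rw [map_add, map_smul, map_smul, hNN, smul_zero, zero_add, map_zero] at this
      exact this
    have ht : t = 0 := by
      rcases smul_eq_zero.mp h1 with h | h
      · exact h
      · exact absurd h hv
    rw [ht, zero_smul, add_zero] at hst
    have hs : s = 0 := by
      rcases smul_eq_zero.mp hst with h | h
      · exact h
      · exact absurd h hv
    exact ⟨hs, ht⟩
  let b : Module.Basis (Fin 2) k V :=
    basisOfLinearIndependentOfCardEqFinrank hli (by rw [Fintype.card_fin, h2])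
  have hb0 : b 0 = N v := by
    simp [b]
  have hb1 : b 1 = v := by
    simp [b]
  let M := LinearMap.toMatrixAlgEquiv b
  have hMN : M N = !![0, 1; 0, 0] := by
    ext i j
    simp only [M, LinearMap.toMatrixAlgEquiv_apply]
    fin_cases j
    · have : N (b 0) = 0 := by rw [hb0, hNN]
      fin_cases i <;> simp [this]
    · have : N (b 1) = b 0 := by rw [hb1, hb0]
      fin_cases i <;> simp [this]
  have hMtr : ∀ f : Module.End k V, LinearMap.trace k V f = (M f).trace := by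
    intro f
    rw [LinearMap.trace_eq_matrix_trace k b f]
    rfl
  have hMC : (M C).trace = 0 := by rw [← hMtr, hC]
  have hM : !![0, 1; 0, 0] * M C * (1 + !![0, 1; 0, 0]) +
      M C * (1 + !![0, 1; 0, 0]) * !![0, 1; 0, 0] = (0 : Matrix (Fin 2) (Fin 2) k) := by
    have := congrArg M hNC
    rw [map_add, map_mul, map_mul, map_mul, map_mul, map_add, map_one, hMN, map_zero] at this
    exact this
  obtain ⟨mm, hmm, hmm2⟩ := mat_exists_trace_zero_conj_sub hchar (M C) hMC hM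
  refine ⟨M.symm mm, ?_, ?_⟩
  · rw [hMtr, AlgEquiv.apply_symm_apply, hmm]
  · apply M.injective
    rw [map_sub, map_mul, map_mul, map_add, map_sub, map_one, hMN, AlgEquiv.apply_symm_apply]
    exact hmm2

end Fermat.Agent.S56.H794

end

end
-- ===== PACK-END S56/H794/Nilp2.lean

-- ===== PACK-BEGIN S55/BLocal/Isometry.lean
section



/-!
# S55, layer B-local: the decomposition group of the `q`-adic place acts by isometries

`A = padicPlace q` is the valuation subring of `ℚ̄` cut out by the `q`-adic norm through the fixed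
embedding `padicEmbedding q : ℚ̄ → PadicAlgCl q`.  Every `σ` in the decomposition group of `A`
preserves the `q`-adic norm.
-/

set_option autoImplicit false

open scoped Pointwise

namespace Fermat.Agent.S55.BLocal

/-- `ℚ̄`. -/
abbrev Qb : Type := AlgebraicClosure ℚ

/-- The absolute Galois group of `ℚ`. -/
abbrev GQ : Type := Qb ≃ₐ[ℚ] Qb

variable (q : ℕ) [Fact q.Prime]

/-- The `q`-adic norm on `ℚ̄`. -/
noncomputable def qnorm (x : Qb) : ℝ := ‖padicEmbedding q x‖

theorem qnorm_nonneg (x : Qb) : 0 ≤ qnorm q x := norm_nonneg _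

theorem qnorm_mul (x y : Qb) : qnorm q (x * y) = qnorm q x * qnorm q y := by
  unfold qnorm
  rw [map_mul, norm_mul]

theorem qnorm_pow (x : Qb) (n : ℕ) : qnorm q (x ^ n) = qnorm q x ^ n := by
  unfold qnorm
  rw [map_pow, norm_pow]

theorem qnorm_zpow (x : Qb) (n : ℤ) : qnorm q (x ^ n) = qnorm q x ^ n := by
  unfold qnorm
  rw [map_zpow₀, norm_zpow]

theorem qnorm_eq_zero_iff (x : Qb) : qnorm q x = 0 ↔ x = 0 := by
  unfold qnorm
  rw [norm_eq_zero]
  exact map_eq_zero_iff _ (padicEmbedding q).toRingHom.injective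

theorem qnorm_natCast_self : qnorm q (q : Qb) = (q : ℝ)⁻¹ := by
  unfold qnorm
  rw [map_natCast]
  have h : ((q : ℕ) : PadicAlgCl q) = algebraMap ℚ_[q] (PadicAlgCl q) (q : ℚ_[q]) := by
    rw [map_natCast]
  rw [h]
  have := PadicAlgCl.norm_extends q (q : ℚ_[q])
  rw [this, Padic.norm_p]

theorem qnorm_sub_le_max (x y : Qb) : qnorm q (x - y) ≤ max (qnorm q x) (qnorm q y) := by
  unfold qnorm
  rw [map_sub, sub_eq_add_neg]
  have := PadicAlgCl.isNonarchimedean q (padicEmbedding q x) (-(padicEmbedding q y))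
  rwa [norm_neg] at this

theorem mem_padicPlace_iff_qnorm (x : Qb) : x ∈ padicPlace q ↔ qnorm q x ≤ 1 := by
  rw [mem_padicPlace_iff]
  unfold qnorm
  exact Iff.rfl

/-- Comparison of the `q`-adic norm with its transport by an automorphism preserving the unit
ball in one direction. -/
theorem qnorm_le_of_forall (σ : GQ)
    (h : ∀ y : Qb, qnorm q y ≤ 1 → qnorm q (σ y) ≤ 1) (x : Qb) :
    qnorm q (σ x) ≤ qnorm q x := by
  by_contra hlt
  rw [not_le] at hlt
  have hq1 : (1 : ℝ) < q := by exact_mod_cast (Fact.out : q.Prime).one_lt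
  have hq0 : (0 : ℝ) < q := by linarith
  have hx : x ≠ 0 := by
    rintro rfl
    rw [map_zero] at hlt
    exact lt_irrefl _ hlt
  have hs : 0 < qnorm q x :=
    lt_of_le_of_ne (qnorm_nonneg q x) (fun h0 => hx ((qnorm_eq_zero_iff q x).mp h0.symm))
  have ht : 0 < qnorm q (σ x) := hs.trans hlt
  obtain ⟨n, hn⟩ : ∃ n : ℕ, (q : ℝ) < (qnorm q (σ x) / qnorm q x) ^ n :=
    pow_unbounded_of_one_lt (q : ℝ) ((one_lt_div hs).mpr hlt)
  obtain ⟨k, hk1, hk2⟩ := exists_mem_Ioc_zpow (pow_pos hs n) hq1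
  have hqk : (0 : ℝ) < (q : ℝ) ^ (k + 1) := zpow_pos hq0 _
  -- the test element
  have hy : qnorm q (x ^ n * (q : Qb) ^ (k + 1)) ≤ 1 := by
    rw [qnorm_mul, qnorm_pow, qnorm_zpow, qnorm_natCast_self, inv_zpow]
    rw [← div_eq_mul_inv, div_le_one hqk]
    exact hk2
  have hσy := h _ hy
  rw [map_mul, map_pow, map_zpow₀, map_natCast, qnorm_mul, qnorm_pow, qnorm_zpow,
    qnorm_natCast_self, inv_zpow, ← div_eq_mul_inv, div_le_one hqk] at hσy
  -- contradiction
  have h1 : (q : ℝ) * qnorm q x ^ n < qnorm q (σ x) ^ n := by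
    rw [div_pow, lt_div_iff₀ (pow_pos hs n)] at hn
    exact hn
  have h2 : (q : ℝ) ^ (k + 1) = (q : ℝ) * (q : ℝ) ^ k := by
    rw [zpow_add₀ hq0.ne', zpow_one, mul_comm]
  have h3 : (q : ℝ) * (q : ℝ) ^ k < (q : ℝ) * qnorm q x ^ n :=
    mul_lt_mul_of_pos_left hk1 hq0
  linarith

/-- Elements of the decomposition group of the `q`-adic place preserve the unit ball. -/
theorem qnorm_le_one_of_mem_decomposition (σ : GQ)
    (hσ : σ ∈ (padicPlace q).decompositionSubgroup ℚ) (y : Qb) (hy : qnorm q y ≤ 1) :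
    qnorm q (σ y) ≤ 1 := by
  rw [← mem_padicPlace_iff_qnorm] at hy ⊢
  have h1 : σ • padicPlace q = padicPlace q := hσ
  rw [← h1]
  exact ValuationSubring.smul_mem_pointwise_smul σ y (padicPlace q) hy

/-- **Isometry.**  The decomposition group of the `q`-adic place of `ℚ̄` preserves the `q`-adic
norm. -/
theorem qnorm_eq_of_mem_decomposition (σ : GQ)
    (hσ : σ ∈ (padicPlace q).decompositionSubgroup ℚ) (x : Qb) :
    qnorm q (σ x) = qnorm q x := by
  apply le_antisymm
  · exact qnorm_le_of_forall q σ (qnorm_le_one_of_mem_decomposition q σ hσ) x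
  · have hinv : σ⁻¹ ∈ (padicPlace q).decompositionSubgroup ℚ := Subgroup.inv_mem _ hσ
    have := qnorm_le_of_forall q σ⁻¹ (qnorm_le_one_of_mem_decomposition q σ⁻¹ hinv) (σ x)
    have h2 : σ⁻¹ (σ x) = x := by
      show (σ⁻¹ * σ) x = x
      rw [inv_mul_cancel]
      rfl
    rwa [h2] at this

end Fermat.Agent.S55.BLocal

end
-- ===== PACK-END S55/BLocal/Isometry.lean

-- ===== PACK-BEGIN S56/H176/FLDVal.lean
section


/-!
# S56 / FL-D (different bound), part 1: valuations of `A`-combinations of powers of a uniformiser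

`A ⊂ B` discrete valuation rings with `v_B(a) = n · v_A(a)` for `a ∈ A` ("ramification index `n`"),
`ϖ` a uniformiser of `B`.  For `b_j ∈ A` (`j < n`) the terms `b_j ϖ^j` have pairwise distinct
valuations, so `v_B(∑_{j<n} b_j ϖ^j) = min_j (n v_A(b_j) + j)`.  We only state the useful half
`v_B(∑) ≤ n v_A(b_j) + j`.
-/

set_option autoImplicit false

namespace Fermat.Agent.S56.H176

open IsDiscreteValuationRing

section General

variable {R : Type*} [Ring R] (v : AddValuation R ℕ∞)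

/-- If `i₀` is the unique index of strictly smallest valuation, the sum has that valuation. -/
theorem FLD_val_sum_eq_of_lt {ι : Type*} [DecidableEq ι] (s : Finset ι) (f : ι → R) (i₀ : ι)
    (hi₀ : i₀ ∈ s) (h : ∀ j ∈ s, j ≠ i₀ → v (f i₀) < v (f j)) :
    v (∑ j ∈ s, f j) = v (f i₀) := by
  rw [← Finset.add_sum_erase s f hi₀]
  by_cases htop : v (f i₀) = ⊤
  · -- then `s = {i₀}` up to nothing
    have : s.erase i₀ = ∅ := by
      rw [Finset.eq_empty_iff_forall_notMem]
      intro j hj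
      have hj' := Finset.mem_erase.mp hj
      have := h j hj'.2 hj'.1
      rw [htop] at this
      exact absurd this (not_lt.mpr le_top)
    rw [this, Finset.sum_empty, add_zero]
  · apply AddValuation.map_add_eq_of_lt_left
    apply AddValuation.map_lt_sum v htop
    intro j hj
    have hj' := Finset.mem_erase.mp hj
    exact h j hj'.2 hj'.1

/-- If the finite valuations of the terms are pairwise distinct, the valuation of the sum is at
most the valuation of each term. -/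
theorem FLD_val_sum_le {ι : Type*} [DecidableEq ι] (s : Finset ι) (f : ι → R)
    (hdist : ∀ i ∈ s, ∀ j ∈ s, i ≠ j → v (f i) ≠ ⊤ → v (f i) ≠ v (f j))
    (j₀ : ι) (hj₀ : j₀ ∈ s) : v (∑ j ∈ s, f j) ≤ v (f j₀) := by
  obtain ⟨i₀, hi₀, hmin⟩ := Finset.exists_min_image s (fun j => v (f j)) ⟨j₀, hj₀⟩
  by_cases htop : v (f i₀) = ⊤
  · have : v (f j₀) = ⊤ := top_le_iff.mp (htop ▸ hmin j₀ hj₀)
    rw [this]
    exact le_top
  · rw [FLD_val_sum_eq_of_lt v s f i₀ hi₀]
    · exact hmin j₀ hj₀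
    · intro j hj hne
      exact lt_of_le_of_ne (hmin j hj) (hdist i₀ hi₀ j hj (Ne.symm hne) htop)

/-- The valuation of the sum is at least any common lower bound of the terms. -/
theorem FLD_le_val_sum {ι : Type*} (s : Finset ι) (f : ι → R) (g : ℕ∞)
    (h : ∀ j ∈ s, g ≤ v (f j)) : g ≤ v (∑ j ∈ s, f j) :=
  AddValuation.map_le_sum v h

end General

end Fermat.Agent.S56.H176

namespace Fermat.Agent.S56.H176

open IsDiscreteValuationRing

section DVR

variable {A : Type*} [CommRing A] [IsDomain A] [IsDiscreteValuationRing A]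
  {B : Type*} [CommRing B] [IsDomain B] [IsDiscreteValuationRing B] [Algebra A B]

/-- The valuation of a term `b ϖ^j`. -/
theorem FLD_addVal_term {n : ℕ}
    (hram : ∀ a : A, addVal B (algebraMap A B a) = n • addVal A a)
    {ϖ : B} (hϖ : addVal B ϖ = 1) (b : A) (j : ℕ) :
    addVal B (algebraMap A B b * ϖ ^ j) = n • addVal A b + j := by
  rw [addVal_mul, addVal_pow, hϖ, hram, nsmul_one]

/-- Distinctness of the valuations of the terms `b_j ϖ^j`, `j < n`. -/
theorem FLD_addVal_term_ne {n : ℕ}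
    (hram : ∀ a : A, addVal B (algebraMap A B a) = n • addVal A a)
    {ϖ : B} (hϖ : addVal B ϖ = 1) (b : ℕ → A) {i j : ℕ} (hi : i < n) (hj : j < n)
    (hij : i ≠ j) (htop : addVal B (algebraMap A B (b i) * ϖ ^ i) ≠ ⊤) :
    addVal B (algebraMap A B (b i) * ϖ ^ i) ≠ addVal B (algebraMap A B (b j) * ϖ ^ j) := by
  rw [FLD_addVal_term hram hϖ, FLD_addVal_term hram hϖ] at *
  intro heq
  have hbi : addVal A (b i) ≠ ⊤ := by
    intro h
    apply htop
    rw [h]
    have hn : n ≠ 0 := by omega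
    simp [hn]
  obtain ⟨x, hx⟩ := ENat.ne_top_iff_exists.mp hbi
  have hbj : addVal A (b j) ≠ ⊤ := by
    intro h
    rw [h] at heq
    have hn : n ≠ 0 := by omega
    rw [← hx] at heq
    simp [hn] at heq
    exact absurd heq (by
      have : ((n * x + i : ℕ) : ℕ∞) ≠ ⊤ := ENat.natCast_ne_top _
      simpa using this)
  obtain ⟨y, hy⟩ := ENat.ne_top_iff_exists.mp hbj
  rw [← hx, ← hy] at heq
  have h2 : ((n * x + i : ℕ) : ℕ∞) = ((n * y + j : ℕ) : ℕ∞) := by
    simpa using heq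
  have h3 : n * x + i = n * y + j := by exact_mod_cast h2
  have h4 : i % n = j % n := by
    have := congrArg (· % n) h3
    simpa [Nat.add_mod, Nat.mul_mod_right] using this
  rw [Nat.mod_eq_of_lt hi, Nat.mod_eq_of_lt hj] at h4
  exact hij h4

/-- **Key inequality**: `v_B(∑_{j<n} b_j ϖ^j) ≤ n v_A(b_j) + j` for every `j < n`. -/
theorem FLD_addVal_sum_le {n : ℕ}
    (hram : ∀ a : A, addVal B (algebraMap A B a) = n • addVal A a)
    {ϖ : B} (hϖ : addVal B ϖ = 1) (b : ℕ → A) {j : ℕ} (hj : j < n) :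
    addVal B (∑ i ∈ Finset.range n, algebraMap A B (b i) * ϖ ^ i) ≤ n • addVal A (b j) + j := by
  rw [← FLD_addVal_term hram hϖ]
  refine FLD_val_sum_le (addVal B) (Finset.range n)
    (fun i => algebraMap A B (b i) * ϖ ^ i) ?_ j (Finset.mem_range.mpr hj)
  intro i hi i' hi' hne htop
  exact FLD_addVal_term_ne hram hϖ b (Finset.mem_range.mp hi) (Finset.mem_range.mp hi') hne htop

/-- Lower bound: `g ≤ n v_A(b_j) + j` for all `j < n` implies `g ≤ v_B(∑_{j<n} b_j ϖ^j)`. -/
theorem FLD_le_addVal_sum {n : ℕ}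
    (hram : ∀ a : A, addVal B (algebraMap A B a) = n • addVal A a)
    {ϖ : B} (hϖ : addVal B ϖ = 1) (b : ℕ → A) (g : ℕ∞)
    (h : ∀ j < n, g ≤ n • addVal A (b j) + j) :
    g ≤ addVal B (∑ i ∈ Finset.range n, algebraMap A B (b i) * ϖ ^ i) := by
  refine FLD_le_val_sum (addVal B) _ _ g ?_
  intro j hj
  rw [FLD_addVal_term hram hϖ]
  exact h j (Finset.mem_range.mp hj)

/-- Linear independence: a vanishing combination has vanishing coefficients. -/
theorem FLD_coeff_eq_zero {n : ℕ}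
    (hram : ∀ a : A, addVal B (algebraMap A B a) = n • addVal A a)
    {ϖ : B} (hϖ : addVal B ϖ = 1) (b : ℕ → A)
    (h0 : ∑ i ∈ Finset.range n, algebraMap A B (b i) * ϖ ^ i = 0) {j : ℕ} (hj : j < n) :
    b j = 0 := by
  have h1 := FLD_addVal_sum_le hram hϖ b hj
  rw [h0, addVal_zero, top_le_iff] at h1
  by_contra hb
  have hbj : addVal A (b j) ≠ ⊤ := fun h => hb (addVal_eq_top_iff.mp h)
  obtain ⟨x, hx⟩ := ENat.ne_top_iff_exists.mp hbj
  rw [← hx] at h1
  have : ((n * x + j : ℕ) : ℕ∞) ≠ ⊤ := ENat.natCast_ne_top _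
  apply this
  simpa using h1

end DVR

end Fermat.Agent.S56.H176

end
-- ===== PACK-END S56/H176/FLDVal.lean

-- ===== PACK-BEGIN S28/H865Reduction.lean
section
/-
S28 helper (helper865): the REDUCTION MAP (V0).

* `resZl ℓ : ℤ_(ℓ) →+* 𝔽_ℓ`, the residue map;
* `igV ℓ ⊆ ℚ((q))`, the localisation of `ℤ_(ℓ)((q))` at the prime `(ℓ)` (a discrete valuation
  ring with uniformiser `ℓ`), realised as a subring of `ℚ((q))`;
* `igRed ℓ : igV ℓ →+* 𝔽_ℓ((q))`, reduction of `q`-expansions modulo `ℓ`, with kernel `ℓ · igV ℓ`;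
* `igE ℓ ⊆ ℚ((q))`, the fraction field of `igV ℓ`; it contains every `modularFunctionFieldFull N`;
* `igV ℓ` is integrally closed in `igE ℓ`; hence all charts `chartAlg N ℓ S`, `S ⊆ {j, j⁻¹}`
  are contained in `igV ℓ`, which gives the reduction maps `chartRed`.
-/




set_option autoImplicit false

noncomputable section

namespace Fermat.Agent.S28.H865

open ModularCurve

section Residue

variable (ℓ : ℕ) [Fact ℓ.Prime]

theorem den_ne_zero_zmod (x : ↥(GaloisRep.ratLocalizedAt ℓ)) : ((x.1.den : ℕ) : ZMod ℓ) ≠ 0 := by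
  rw [Ne, ZMod.natCast_eq_zero_iff]
  intro h
  have hc : Nat.Coprime x.1.den ℓ := x.2
  exact ((Nat.Prime.coprime_iff_not_dvd (Fact.out : ℓ.Prime)).mp hc.symm) h

/-- The residue map `ℤ_(ℓ) → 𝔽_ℓ`. -/
def resZl : ↥(GaloisRep.ratLocalizedAt ℓ) →+* ZMod ℓ where
  toFun x := ((x.1 : ℚ) : ZMod ℓ)
  map_one' := by simp
  map_zero' := by simp
  map_mul' x y := by
    show (((x.1 * y.1 : ℚ)) : ZMod ℓ) = _
    exact Rat.cast_mul_of_ne_zero (den_ne_zero_zmod ℓ x) (den_ne_zero_zmod ℓ y)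
  map_add' x y := by
    show (((x.1 + y.1 : ℚ)) : ZMod ℓ) = _
    exact Rat.cast_add_of_ne_zero (den_ne_zero_zmod ℓ x) (den_ne_zero_zmod ℓ y)

theorem resZl_apply (x : ↥(GaloisRep.ratLocalizedAt ℓ)) : resZl ℓ x = ((x.1 : ℚ) : ZMod ℓ) := rfl

/-- The kernel of the residue map is `ℓ · ℤ_(ℓ)`. -/
theorem resZl_eq_zero_iff (x : ↥(GaloisRep.ratLocalizedAt ℓ)) :
    resZl ℓ x = 0 ↔ ∃ y : ↥(GaloisRep.ratLocalizedAt ℓ), x = (ℓ : ↥(GaloisRep.ratLocalizedAt ℓ)) * y := by
  constructor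
  · intro h
    rw [resZl_apply, Rat.cast_def, div_eq_zero_iff] at h
    have hnum : ((x.1.num : ℤ) : ZMod ℓ) = 0 := h.resolve_right (den_ne_zero_zmod ℓ x)
    rw [ZMod.intCast_zmod_eq_zero_iff_dvd] at hnum
    obtain ⟨m, hm⟩ := hnum
    have hmem : (Rat.divInt m x.1.den) ∈ GaloisRep.ratLocalizedAt ℓ := by
      show (Rat.divInt m x.1.den).den.Coprime ℓ
      have hdvd : (Rat.divInt m x.1.den).den ∣ x.1.den := by
        exact_mod_cast Rat.den_dvd m x.1.den
      exact Nat.Coprime.coprime_dvd_left hdvd x.2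
    refine ⟨⟨Rat.divInt m x.1.den, hmem⟩, Subtype.ext ?_⟩
    have hd : ((x.1.den : ℕ) : ℚ) ≠ 0 := by exact_mod_cast x.1.den_ne_zero
    show x.1 = (((ℓ : ℕ) : ↥(GaloisRep.ratLocalizedAt ℓ)) : ℚ) * Rat.divInt m x.1.den
    rw [Rat.divInt_eq_div]
    conv_lhs => rw [← Rat.num_div_den x.1, hm]
    push_cast
    ring
  · rintro ⟨y, rfl⟩
    rw [map_mul, map_natCast, ZMod.natCast_self, zero_mul]

theorem natCast_ne_zero_ratLocalizedAt : ((ℓ : ℕ) : ↥(GaloisRep.ratLocalizedAt ℓ)) ≠ 0 := by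
  intro h
  have h2 := congrArg (Subtype.val : ↥(GaloisRep.ratLocalizedAt ℓ) → ℚ) h
  have h3 : ((ℓ : ℕ) : ℚ) = 0 := by simpa using h2
  exact (Fact.out : ℓ.Prime).ne_zero (by exact_mod_cast h3)

theorem padicValRat_nonneg_of_mem (x : ↥(GaloisRep.ratLocalizedAt ℓ)) :
    0 ≤ padicValRat ℓ x.1 := by
  rw [padicValRat_def]
  have hc : Nat.Coprime x.1.den ℓ := x.2
  have hnd : ¬ ℓ ∣ x.1.den := (Nat.Prime.coprime_iff_not_dvd (Fact.out : ℓ.Prime)).mp hc.symm
  rw [padicValNat.eq_zero_of_not_dvd hnd]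
  simp

/-- A nonzero element of `ℤ_(ℓ)` is not divisible by all powers of `ℓ`. -/
theorem exists_not_pow_dvd (r : ↥(GaloisRep.ratLocalizedAt ℓ)) (hr : r ≠ 0) :
    ∃ n : ℕ, ¬ ∃ s : ↥(GaloisRep.ratLocalizedAt ℓ),
      r = ((ℓ : ℕ) : ↥(GaloisRep.ratLocalizedAt ℓ)) ^ n * s := by
  by_contra hcon
  push Not at hcon
  have hr1 : r.1 ≠ 0 := fun h => hr (Subtype.ext h)
  obtain ⟨s, hs⟩ := hcon ((padicValRat ℓ r.1).toNat + 1)
  have hs0 : s.1 ≠ 0 := by
    intro h
    apply hr
    rw [hs, show s = 0 from Subtype.ext h, mul_zero]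
  have hℓ0 : ((ℓ : ℕ) : ℚ) ≠ 0 := by
    exact_mod_cast (Fact.out : ℓ.Prime).ne_zero
  have hval : padicValRat ℓ r.1 =
      (((padicValRat ℓ r.1).toNat + 1 : ℕ) : ℤ) + padicValRat ℓ s.1 := by
    have h1 : r.1 = ((ℓ : ℕ) : ℚ) ^ ((padicValRat ℓ r.1).toNat + 1) * s.1 := by
      have := congrArg (Subtype.val : ↥(GaloisRep.ratLocalizedAt ℓ) → ℚ) hs
      simpa using this
    conv_lhs => rw [h1]
    rw [padicValRat.mul (pow_ne_zero _ hℓ0) hs0, padicValRat.pow,
      padicValRat.self (Fact.out : ℓ.Prime).one_lt, mul_one]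
  have h2 := padicValRat_nonneg_of_mem ℓ s
  have h3 := Int.self_le_toNat (padicValRat ℓ r.1)
  push_cast at hval
  omega

end Residue

section Laurent

variable (ℓ : ℕ) [Fact ℓ.Prime]

/-- Coefficientwise inclusion `ℤ_(ℓ)((q)) → ℚ((q))`. -/
def toQ : LaurentSeries ↥(GaloisRep.ratLocalizedAt ℓ) →+* LaurentSeries ℚ :=
  coeffMap (GaloisRep.ratLocalizedAt ℓ).subtype

/-- Coefficientwise reduction `ℤ_(ℓ)((q)) → 𝔽_ℓ((q))`. -/
def toRes : LaurentSeries ↥(GaloisRep.ratLocalizedAt ℓ) →+* LaurentSeries (ZMod ℓ) :=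
  coeffMap (resZl ℓ)

omit [Fact ℓ.Prime] in
@[simp]
theorem toQ_coeff (a : LaurentSeries ↥(GaloisRep.ratLocalizedAt ℓ)) (k : ℤ) :
    (toQ ℓ a).coeff k = ((a.coeff k : ↥(GaloisRep.ratLocalizedAt ℓ)) : ℚ) := rfl

@[simp]
theorem toRes_coeff (a : LaurentSeries ↥(GaloisRep.ratLocalizedAt ℓ)) (k : ℤ) :
    (toRes ℓ a).coeff k = resZl ℓ (a.coeff k) := rfl

omit [Fact ℓ.Prime] in
theorem toQ_injective : Function.Injective (toQ ℓ) := by
  intro a b h
  ext k
  have := congrArg (fun z => HahnSeries.coeff z k) h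
  exact this

omit [Fact ℓ.Prime] in
theorem toQ_eq_zero_iff (a : LaurentSeries ↥(GaloisRep.ratLocalizedAt ℓ)) :
    toQ ℓ a = 0 ↔ a = 0 :=
  map_eq_zero_iff (toQ ℓ) (toQ_injective ℓ)

theorem natCast_mul_coeff {S : Type*} [CommRing S] (n : ℕ) (a : LaurentSeries S) (k : ℤ) :
    (((n : ℕ) : LaurentSeries S) * a).coeff k = (n : S) * a.coeff k := by
  rw [← map_natCast (HahnSeries.C : S →+* LaurentSeries S) n, HahnSeries.C_mul_eq_smul,
    HahnSeries.coeff_smul, smul_eq_mul]

/-- Division by `ℓ` on `ℤ_(ℓ)` (junk value `0` on non-multiples). -/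
def divL (r : ↥(GaloisRep.ratLocalizedAt ℓ)) : ↥(GaloisRep.ratLocalizedAt ℓ) :=
  if h : resZl ℓ r = 0 then Classical.choose ((resZl_eq_zero_iff ℓ r).mp h) else 0

theorem divL_spec {r : ↥(GaloisRep.ratLocalizedAt ℓ)} (h : resZl ℓ r = 0) :
    r = ((ℓ : ℕ) : ↥(GaloisRep.ratLocalizedAt ℓ)) * divL ℓ r := by
  rw [divL, dif_pos h]
  exact Classical.choose_spec ((resZl_eq_zero_iff ℓ r).mp h)

theorem divL_zero : divL ℓ 0 = 0 := by
  have h := divL_spec ℓ (r := 0) (map_zero _)
  rcases mul_eq_zero.mp h.symm with h1 | h1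
  · exact absurd h1 (natCast_ne_zero_ratLocalizedAt ℓ)
  · exact h1

/-- The kernel of `ℤ_(ℓ)((q)) → 𝔽_ℓ((q))` is generated by `ℓ`. -/
theorem toRes_eq_zero_iff (a : LaurentSeries ↥(GaloisRep.ratLocalizedAt ℓ)) :
    toRes ℓ a = 0 ↔
      ∃ a' : LaurentSeries ↥(GaloisRep.ratLocalizedAt ℓ),
        a = ((ℓ : ℕ) : LaurentSeries ↥(GaloisRep.ratLocalizedAt ℓ)) * a' := by
  constructor
  · intro h
    refine ⟨a.map (⟨divL ℓ, divL_zero ℓ⟩ : ZeroHom _ _), ?_⟩
    ext k
    rw [natCast_mul_coeff, HahnSeries.map_coeff]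
    have hk : resZl ℓ (a.coeff k) = 0 := by
      have := congrArg (fun z => HahnSeries.coeff z k) h
      simpa using this
    exact congrArg Subtype.val (divL_spec ℓ hk)
  · rintro ⟨a', rfl⟩
    rw [map_mul, map_natCast]
    have : ((ℓ : ℕ) : LaurentSeries (ZMod ℓ)) = 0 := by
      rw [← map_natCast (HahnSeries.C : ZMod ℓ →+* LaurentSeries (ZMod ℓ)) ℓ, ZMod.natCast_self,
        map_zero]
    rw [this, zero_mul]

/-- Every nonzero element of `ℤ_(ℓ)((q))` is `ℓ ^ n` times an element with nonzero reduction. -/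
theorem exists_eq_pow_mul (a : LaurentSeries ↥(GaloisRep.ratLocalizedAt ℓ)) (ha : a ≠ 0) :
    ∃ (n : ℕ) (a' : LaurentSeries ↥(GaloisRep.ratLocalizedAt ℓ)),
      a = ((ℓ : ℕ) : LaurentSeries ↥(GaloisRep.ratLocalizedAt ℓ)) ^ n * a' ∧ toRes ℓ a' ≠ 0 := by
  by_contra hcon
  push Not at hcon
  have hall : ∀ n : ℕ, ∃ a' : LaurentSeries ↥(GaloisRep.ratLocalizedAt ℓ),
      a = ((ℓ : ℕ) : LaurentSeries ↥(GaloisRep.ratLocalizedAt ℓ)) ^ n * a' := by
    intro n
    induction n with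
    | zero => exact ⟨a, by simp⟩
    | succ n ih =>
      obtain ⟨a', ha'⟩ := ih
      obtain ⟨a'', ha''⟩ := (toRes_eq_zero_iff ℓ a').mp (hcon n a' ha')
      exact ⟨a'', by rw [ha', ha'']; ring⟩
  obtain ⟨k, hk⟩ : ∃ k, a.coeff k ≠ 0 := by
    by_contra hc
    push Not at hc
    exact ha (HahnSeries.ext (funext hc))
  obtain ⟨n, hn⟩ := exists_not_pow_dvd ℓ (a.coeff k) hk
  obtain ⟨a', ha'⟩ := hall n
  apply hn
  refine ⟨a'.coeff k, ?_⟩
  conv_lhs => rw [ha']
  rw [← Nat.cast_pow, natCast_mul_coeff, Nat.cast_pow]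

end Laurent

section ValuationRing

variable (ℓ : ℕ) [Fact ℓ.Prime]

/-- The localisation of `ℤ_(ℓ)((q))` at the prime `(ℓ)`, as a subring of `ℚ((q))`. -/
def igV : Subring (LaurentSeries ℚ) where
  carrier := {x | ∃ a b : LaurentSeries ↥(GaloisRep.ratLocalizedAt ℓ),
    toRes ℓ b ≠ 0 ∧ x * toQ ℓ b = toQ ℓ a}
  mul_mem' := by
    rintro x y ⟨a, b, hb, hx⟩ ⟨a', b', hb', hy⟩
    refine ⟨a * a', b * b', ?_, ?_⟩
    · rw [map_mul]; exact mul_ne_zero hb hb'
    · rw [map_mul, map_mul, ← hx, ← hy]; ring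
  one_mem' := ⟨1, 1, by simp, by simp⟩
  add_mem' := by
    rintro x y ⟨a, b, hb, hx⟩ ⟨a', b', hb', hy⟩
    refine ⟨a * b' + a' * b, b * b', ?_, ?_⟩
    · rw [map_mul]; exact mul_ne_zero hb hb'
    · rw [map_mul, map_add, map_mul, map_mul, ← hx, ← hy]; ring
  zero_mem' := ⟨0, 1, by simp, by simp⟩
  neg_mem' := by
    rintro x ⟨a, b, hb, hx⟩
    exact ⟨-a, b, hb, by rw [map_neg, ← hx]; ring⟩

theorem mem_igV_iff {x : LaurentSeries ℚ} :
    x ∈ igV ℓ ↔ ∃ a b : LaurentSeries ↥(GaloisRep.ratLocalizedAt ℓ),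
      toRes ℓ b ≠ 0 ∧ x * toQ ℓ b = toQ ℓ a := Iff.rfl

theorem toQ_mem_igV (a : LaurentSeries ↥(GaloisRep.ratLocalizedAt ℓ)) : toQ ℓ a ∈ igV ℓ :=
  ⟨a, 1, by simp, by simp⟩

theorem toRes_ne_zero_imp_ne_zero {b : LaurentSeries ↥(GaloisRep.ratLocalizedAt ℓ)}
    (hb : toRes ℓ b ≠ 0) : b ≠ 0 := by
  rintro rfl
  exact hb (map_zero _)

theorem toQ_ne_zero_of_toRes_ne_zero {b : LaurentSeries ↥(GaloisRep.ratLocalizedAt ℓ)}
    (hb : toRes ℓ b ≠ 0) : toQ ℓ b ≠ 0 := fun h =>
  toRes_ne_zero_imp_ne_zero ℓ hb ((toQ_eq_zero_iff ℓ b).mp h)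

/-- A chosen numerator of an element of `igV`. -/
def igNum (x : igV ℓ) : LaurentSeries ↥(GaloisRep.ratLocalizedAt ℓ) := Classical.choose x.2

/-- A chosen denominator of an element of `igV`. -/
def igDen (x : igV ℓ) : LaurentSeries ↥(GaloisRep.ratLocalizedAt ℓ) :=
  Classical.choose (Classical.choose_spec x.2)

theorem toRes_igDen_ne_zero (x : igV ℓ) : toRes ℓ (igDen ℓ x) ≠ 0 :=
  (Classical.choose_spec (Classical.choose_spec x.2)).1

theorem mul_toQ_igDen (x : igV ℓ) : x.1 * toQ ℓ (igDen ℓ x) = toQ ℓ (igNum ℓ x) :=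
  (Classical.choose_spec (Classical.choose_spec x.2)).2

/-- The underlying function of the reduction map. -/
def igRedFun (x : igV ℓ) : LaurentSeries (ZMod ℓ) :=
  toRes ℓ (igNum ℓ x) / toRes ℓ (igDen ℓ x)

theorem igRedFun_eq (x : igV ℓ) (a b : LaurentSeries ↥(GaloisRep.ratLocalizedAt ℓ))
    (hb : toRes ℓ b ≠ 0) (h : x.1 * toQ ℓ b = toQ ℓ a) :
    igRedFun ℓ x = toRes ℓ a / toRes ℓ b := by
  rw [igRedFun, div_eq_div_iff (toRes_igDen_ne_zero ℓ x) hb, ← map_mul, ← map_mul]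
  congr 1
  apply toQ_injective ℓ
  rw [map_mul, map_mul, ← h, ← mul_toQ_igDen ℓ x]
  ring

/-- **Reduction of `q`-expansions modulo `ℓ`**, `igV ℓ → 𝔽_ℓ((q))`. -/
def igRed : igV ℓ →+* LaurentSeries (ZMod ℓ) where
  toFun := igRedFun ℓ
  map_one' := by
    rw [igRedFun_eq ℓ 1 1 1 (by simp) (by simp)]
    simp
  map_zero' := by
    rw [igRedFun_eq ℓ 0 0 1 (by simp) (by simp)]
    simp
  map_mul' x y := by
    rw [igRedFun_eq ℓ (x * y) (igNum ℓ x * igNum ℓ y) (igDen ℓ x * igDen ℓ y)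
      (by rw [map_mul]; exact mul_ne_zero (toRes_igDen_ne_zero ℓ x) (toRes_igDen_ne_zero ℓ y))
      (by rw [map_mul, map_mul, ← mul_toQ_igDen ℓ x, ← mul_toQ_igDen ℓ y, Subring.coe_mul]; ring)]
    rw [igRedFun, igRedFun, map_mul, map_mul, mul_div_mul_comm]
  map_add' x y := by
    rw [igRedFun_eq ℓ (x + y) (igNum ℓ x * igDen ℓ y + igNum ℓ y * igDen ℓ x)
      (igDen ℓ x * igDen ℓ y)
      (by rw [map_mul]; exact mul_ne_zero (toRes_igDen_ne_zero ℓ x) (toRes_igDen_ne_zero ℓ y))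
      (by rw [map_mul, map_add, map_mul, map_mul, ← mul_toQ_igDen ℓ x, ← mul_toQ_igDen ℓ y,
            Subring.coe_add]; ring)]
    rw [igRedFun, igRedFun, map_mul, map_add, map_mul, map_mul,
      div_add_div _ _ (toRes_igDen_ne_zero ℓ x) (toRes_igDen_ne_zero ℓ y)]
    congr 1
    ring

theorem igRed_eq (x : igV ℓ) (a b : LaurentSeries ↥(GaloisRep.ratLocalizedAt ℓ))
    (hb : toRes ℓ b ≠ 0) (h : x.1 * toQ ℓ b = toQ ℓ a) :
    igRed ℓ x = toRes ℓ a / toRes ℓ b :=
  igRedFun_eq ℓ x a b hb h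

@[simp]
theorem igRed_toQ (a : LaurentSeries ↥(GaloisRep.ratLocalizedAt ℓ)) :
    igRed ℓ ⟨toQ ℓ a, toQ_mem_igV ℓ a⟩ = toRes ℓ a := by
  rw [igRed_eq ℓ _ a 1 (by simp) (by simp)]
  simp

theorem natCast_laurent_zmod_eq_zero : ((ℓ : ℕ) : LaurentSeries (ZMod ℓ)) = 0 := by
  rw [← map_natCast (HahnSeries.C : ZMod ℓ →+* LaurentSeries (ZMod ℓ)) ℓ, ZMod.natCast_self,
    map_zero]

theorem natCast_laurent_rat_ne_zero : ((ℓ : ℕ) : LaurentSeries ℚ) ≠ 0 := by
  rw [← map_natCast (HahnSeries.C : ℚ →+* LaurentSeries ℚ) ℓ, Ne,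
    map_eq_zero_iff _ HahnSeries.C_injective]
  exact_mod_cast (Fact.out : ℓ.Prime).ne_zero

/-- The kernel of the reduction map is `ℓ · igV`. -/
theorem igRed_eq_zero_iff (x : igV ℓ) :
    igRed ℓ x = 0 ↔ ∃ y : igV ℓ, x = ((ℓ : ℕ) : igV ℓ) * y := by
  constructor
  · intro h
    rw [igRed_eq ℓ x _ _ (toRes_igDen_ne_zero ℓ x) (mul_toQ_igDen ℓ x), div_eq_zero_iff] at h
    have h0 := h.resolve_right (toRes_igDen_ne_zero ℓ x)
    obtain ⟨a', ha'⟩ := (toRes_eq_zero_iff ℓ _).mp h0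
    have hℓ := natCast_laurent_rat_ne_zero ℓ
    have hy : x.1 / ((ℓ : ℕ) : LaurentSeries ℚ) ∈ igV ℓ := by
      refine ⟨a', igDen ℓ x, toRes_igDen_ne_zero ℓ x, ?_⟩
      have h1 := mul_toQ_igDen ℓ x
      rw [ha', map_mul, map_natCast] at h1
      field_simp
      rw [h1]
    refine ⟨⟨_, hy⟩, Subtype.ext ?_⟩
    simp only [Subring.coe_mul, Subring.coe_natCast]
    field_simp
  · rintro ⟨y, rfl⟩
    rw [map_mul, map_natCast, natCast_laurent_zmod_eq_zero, zero_mul]

/-- Elements of `igV` with nonzero reduction are units. -/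
theorem inv_mem_igV_of_igRed_ne_zero (x : igV ℓ) (h : igRed ℓ x ≠ 0) : (x.1)⁻¹ ∈ igV ℓ := by
  rw [igRed_eq ℓ x _ _ (toRes_igDen_ne_zero ℓ x) (mul_toQ_igDen ℓ x)] at h
  have hnum : toRes ℓ (igNum ℓ x) ≠ 0 := fun h0 => h (by rw [h0, zero_div])
  refine ⟨igDen ℓ x, igNum ℓ x, hnum, ?_⟩
  have hb := toQ_ne_zero_of_toRes_ne_zero ℓ (toRes_igDen_ne_zero ℓ x)
  have ha := toQ_ne_zero_of_toRes_ne_zero ℓ hnum
  have h1 := mul_toQ_igDen ℓ x
  have hx : x.1 ≠ 0 := by
    intro hx
    rw [hx, zero_mul] at h1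
    exact ha h1.symm
  rw [← h1]
  field_simp

/-- General fact: if `x` is integral over a subring `V` of a field and `x⁻¹ ∈ V`, then `x ∈ V`. -/
theorem mem_of_isIntegral_of_inv_mem {L : Type*} [Field L] (V : Subring L) {x : L}
    (hint : IsIntegral V x) (hinv : x⁻¹ ∈ V) : x ∈ V := by
  obtain ⟨p, hmonic, hp⟩ := hint
  by_cases hx : x = 0
  · rw [hx]; exact V.zero_mem
  rw [Polynomial.eval₂_eq_sum_range, Finset.sum_range_succ, hmonic.coeff_natDegree, map_one,
    one_mul] at hp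
  rcases Nat.eq_zero_or_pos p.natDegree with h0 | hpos
  · rw [h0] at hp
    simp at hp
  obtain ⟨m, hm⟩ : ∃ m, p.natDegree = m + 1 := ⟨p.natDegree - 1, by omega⟩
  rw [hm] at hp
  have hxm : x = -∑ i ∈ Finset.range (m + 1), (algebraMap V L (p.coeff i)) * (x⁻¹) ^ (m - i) := by
    have h1 : x ^ (m + 1) = -∑ i ∈ Finset.range (m + 1), (algebraMap V L (p.coeff i)) * x ^ i :=
      eq_neg_of_add_eq_zero_right hp
    have h2 : x = x ^ (m + 1) * (x⁻¹) ^ m := by
      rw [pow_succ, mul_assoc, mul_comm x, ← mul_assoc, ← mul_pow, mul_inv_cancel₀ hx, one_pow,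
        one_mul]
    conv_lhs => rw [h2, h1]
    rw [neg_mul, Finset.sum_mul]
    congr 1
    refine Finset.sum_congr rfl fun i hi => ?_
    have hi' : i ≤ m := Nat.lt_succ_iff.mp (Finset.mem_range.mp hi)
    rw [mul_assoc]
    congr 1
    obtain ⟨k, rfl⟩ := Nat.exists_eq_add_of_le hi'
    rw [Nat.add_sub_cancel_left, pow_add, ← mul_assoc, ← mul_pow, mul_inv_cancel₀ hx, one_pow,
      one_mul]
  rw [hxm]
  refine V.neg_mem (V.sum_mem fun i _ => V.mul_mem ?_ (V.pow_mem hinv _))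
  exact (p.coeff i).2

/-- The fraction field of `igV ℓ` inside `ℚ((q))`. -/
def igE : IntermediateField ℚ (LaurentSeries ℚ) where
  carrier := {x | ∃ a b : LaurentSeries ↥(GaloisRep.ratLocalizedAt ℓ),
    b ≠ 0 ∧ x * toQ ℓ b = toQ ℓ a}
  mul_mem' := by
    rintro x y ⟨a, b, hb, hx⟩ ⟨a', b', hb', hy⟩
    refine ⟨a * a', b * b', mul_ne_zero hb hb', ?_⟩
    rw [map_mul, map_mul, ← hx, ← hy]; ring
  one_mem' := ⟨1, 1, one_ne_zero, by simp⟩
  add_mem' := by
    rintro x y ⟨a, b, hb, hx⟩ ⟨a', b', hb', hy⟩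
    refine ⟨a * b' + a' * b, b * b', mul_ne_zero hb hb', ?_⟩
    rw [map_mul, map_add, map_mul, map_mul, ← hx, ← hy]; ring
  zero_mem' := ⟨0, 1, one_ne_zero, by simp⟩
  algebraMap_mem' := by
    intro c
    refine ⟨((c.num : ℤ) : LaurentSeries ↥(GaloisRep.ratLocalizedAt ℓ)),
      ((c.den : ℕ) : LaurentSeries ↥(GaloisRep.ratLocalizedAt ℓ)), ?_, ?_⟩
    · intro h
      have h2 := congrArg (toQ ℓ) h
      rw [map_natCast, map_zero,
        ← map_natCast (HahnSeries.C : ℚ →+* LaurentSeries ℚ) c.den,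
        map_eq_zero_iff _ HahnSeries.C_injective] at h2
      exact c.den_ne_zero (by exact_mod_cast h2)
    · rw [map_natCast, map_intCast, algebraMap_apply_eq_single,
        ← map_natCast (HahnSeries.C : ℚ →+* LaurentSeries ℚ) c.den,
        ← map_intCast (HahnSeries.C : ℚ →+* LaurentSeries ℚ) c.num, ← HahnSeries.C_apply,
        ← map_mul, Rat.mul_den_eq_num]
  inv_mem' := by
    rintro x ⟨a, b, hb, hx⟩
    by_cases hx0 : x = 0
    · rw [hx0, inv_zero]
      exact ⟨0, 1, one_ne_zero, by simp⟩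
    have hb' : toQ ℓ b ≠ 0 := fun h => hb ((toQ_eq_zero_iff ℓ b).mp h)
    have ha : a ≠ 0 := by
      rintro rfl
      rw [map_zero] at hx
      exact (mul_ne_zero hx0 hb') hx
    refine ⟨b, a, ha, ?_⟩
    rw [← hx]
    field_simp

omit [Fact ℓ.Prime] in
theorem mem_igE_iff {x : LaurentSeries ℚ} :
    x ∈ igE ℓ ↔ ∃ a b : LaurentSeries ↥(GaloisRep.ratLocalizedAt ℓ),
      b ≠ 0 ∧ x * toQ ℓ b = toQ ℓ a := Iff.rfl

theorem igV_le_igE {x : LaurentSeries ℚ} (hx : x ∈ igV ℓ) : x ∈ igE ℓ := by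
  obtain ⟨a, b, hb, h⟩ := hx
  exact ⟨a, b, toRes_ne_zero_imp_ne_zero ℓ hb, h⟩

theorem toQ_mem_igE (a : LaurentSeries ↥(GaloisRep.ratLocalizedAt ℓ)) : toQ ℓ a ∈ igE ℓ :=
  igV_le_igE ℓ (toQ_mem_igV ℓ a)

/-- **Valuation ring dichotomy.** An element of the fraction field `igE` either lies in `igV`,
or its inverse lies in `ℓ · igV`. -/
theorem mem_igV_or_inv_eq_mul {x : LaurentSeries ℚ} (hx : x ∈ igE ℓ) :
    x ∈ igV ℓ ∨ ∃ y ∈ igV ℓ, x⁻¹ = ((ℓ : ℕ) : LaurentSeries ℚ) * y := by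
  obtain ⟨a, b, hb, h⟩ := hx
  by_cases hx0 : x = 0
  · left
    rw [hx0]
    exact (igV ℓ).zero_mem
  have hbQ : toQ ℓ b ≠ 0 := fun h0 => hb ((toQ_eq_zero_iff ℓ b).mp h0)
  have ha : a ≠ 0 := by
    rintro rfl
    rw [map_zero] at h
    exact (mul_ne_zero hx0 hbQ) h
  obtain ⟨n, a', rfl, ha'⟩ := exists_eq_pow_mul ℓ a ha
  obtain ⟨m, b', rfl, hb'⟩ := exists_eq_pow_mul ℓ b hb
  have hℓ := natCast_laurent_rat_ne_zero ℓ
  have ha'Q := toQ_ne_zero_of_toRes_ne_zero ℓ ha'
  have hb'Q := toQ_ne_zero_of_toRes_ne_zero ℓ hb'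
  simp only [map_mul, map_pow, map_natCast] at h
  rcases le_or_gt m n with hmn | hmn
  · left
    obtain ⟨k, rfl⟩ := Nat.exists_eq_add_of_le hmn
    refine ⟨((ℓ : ℕ) : LaurentSeries ↥(GaloisRep.ratLocalizedAt ℓ)) ^ k * a', b', hb', ?_⟩
    simp only [map_mul, map_pow, map_natCast]
    have hpow : ((ℓ : ℕ) : LaurentSeries ℚ) ^ m ≠ 0 := pow_ne_zero _ hℓ
    apply mul_left_cancel₀ hpow
    rw [← mul_assoc, mul_comm _ x, mul_assoc, h, pow_add]
    ring
  · right
    obtain ⟨k, rfl⟩ := Nat.exists_eq_add_of_lt hmn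
    refine ⟨((ℓ : ℕ) : LaurentSeries ℚ) ^ k * toQ ℓ b' / toQ ℓ a', ?_, ?_⟩
    · refine ⟨((ℓ : ℕ) : LaurentSeries ↥(GaloisRep.ratLocalizedAt ℓ)) ^ k * b', a', ha', ?_⟩
      simp only [map_mul, map_pow, map_natCast]
      field_simp
    · have hpow : ((ℓ : ℕ) : LaurentSeries ℚ) ^ n ≠ 0 := pow_ne_zero _ hℓ
      have hx' : x = toQ ℓ a' / (((ℓ : ℕ) : LaurentSeries ℚ) ^ (k + 1) * toQ ℓ b') := by
        rw [eq_div_iff (mul_ne_zero (pow_ne_zero _ hℓ) hb'Q)]
        apply mul_left_cancel₀ hpow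
        rw [← h, pow_add, pow_add]
        ring
      rw [hx', inv_div, pow_succ]
      field_simp

/-- `igV ℓ` is integrally closed in its fraction field `igE ℓ`. -/
theorem mem_igV_of_isIntegral {x : LaurentSeries ℚ} (hx : x ∈ igE ℓ)
    (hint : IsIntegral (igV ℓ) x) : x ∈ igV ℓ := by
  rcases mem_igV_or_inv_eq_mul ℓ hx with h | ⟨y, hy, hxy⟩
  · exact h
  · refine mem_of_isIntegral_of_inv_mem (igV ℓ) hint ?_
    rw [hxy]
    exact (igV ℓ).mul_mem (natCast_mem _ _) hy

end ValuationRing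

end Fermat.Agent.S28.H865

end
end
-- ===== PACK-END S28/H865Reduction.lean

-- ===== PACK-BEGIN A2/IF/H9/InertiaClosed.lean
section





/-!
# A2 / IF (helper9): the inertia group is closed, hence `Gal(L / L^{I_A}) = I_A`

`K ⊆ L` algebraic (Galois for the last statement), `A` a valuation subring of `L`.

* `mem_inertiaSubgroupIn_iff_forall` : `σ ∈ I_A ↔ ∀ x ∈ A, σ x - x ∈ 𝔪_A`
  (stability `σ A = A` is automatic);
* `isClosed_inertiaSubgroupIn` : `I_A` is closed in the Krull topology;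
* `mem_inertiaSubgroupIn_of_fixes_fixedField` : an automorphism fixing the inertia field
  `L^{I_A}` pointwise lies in `I_A` (piece (a) = LemA of IF in its strongest form).
-/

set_option autoImplicit false

open scoped Pointwise

namespace Fermat.Agent.A2.IF.H9

variable {K L : Type*} [Field K] [Field L] [Algebra K L]

section Algebraic

variable [Algebra.IsAlgebraic K L]

/-- every element has finite order under an automorphism of an algebraic extension -/
theorem exists_pow_apply_eq (σ : L ≃ₐ[K] L) (x : L) : ∃ n : ℕ, 0 < n ∧ (σ ^ n) x = x := by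
  classical
  have hint : IsIntegral K x := (Algebra.IsAlgebraic.isAlgebraic x).isIntegral
  have hfin : ((minpoly K x).rootSet L).Finite := Polynomial.rootSet_finite _ _
  have hmem : ∀ n : ℕ, (σ ^ n) x ∈ (minpoly K x).rootSet L := by
    intro n
    rw [Polynomial.mem_rootSet]
    refine ⟨minpoly.ne_zero hint, ?_⟩
    have h1 := Polynomial.aeval_algHom_apply ((σ ^ n : L ≃ₐ[K] L) : L →ₐ[K] L) x (minpoly K x)
    rw [minpoly.aeval, map_zero] at h1
    exact h1
  obtain ⟨i, -, j, -, hij, heq⟩ :=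
    Set.Infinite.exists_ne_map_eq_of_mapsTo (s := (Set.univ : Set ℕ)) Set.infinite_univ
      (fun n _ => hmem n) hfin
  wlog hlt : i < j generalizing i j
  · exact this j i (Ne.symm hij) heq.symm (lt_of_le_of_ne (not_lt.mp hlt) (Ne.symm hij))
  refine ⟨j - i, Nat.sub_pos_of_lt hlt, ?_⟩
  have h1 : (σ ^ i) ((σ ^ (j - i)) x) = (σ ^ i) x := by
    rw [← AlgEquiv.mul_apply, ← pow_add, Nat.add_sub_cancel' hlt.le, heq]
  exact (σ ^ i).injective h1

/-- an automorphism mapping `A` into itself stabilises `A` -/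
theorem smul_eq_of_forall_mem (A : ValuationSubring L) (σ : L ≃ₐ[K] L)
    (h : ∀ x ∈ A, σ x ∈ A) : σ • A = A := by
  have hpow : ∀ (n : ℕ) (x : L), x ∈ A → (σ ^ n) x ∈ A := by
    intro n
    induction n with
    | zero => intro x hx; simpa using hx
    | succ n ih =>
      intro x hx
      rw [pow_succ, AlgEquiv.mul_apply]
      exact ih _ (h x hx)
  ext x
  rw [ValuationSubring.mem_smul_pointwise_iff_exists]
  constructor
  · rintro ⟨y, hy, rfl⟩
    exact h y hy
  · intro hx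
    obtain ⟨n, hn, hnx⟩ := exists_pow_apply_eq σ x
    refine ⟨(σ ^ (n - 1)) x, hpow _ x hx, ?_⟩
    show σ ((σ ^ (n - 1)) x) = x
    rw [← AlgEquiv.mul_apply, ← pow_succ', Nat.sub_add_cancel hn, hnx]

end Algebraic

/-- unfolding membership in `inertiaSubgroupIn` -/
theorem mem_inertiaSubgroupIn_iff_exists (A : ValuationSubring L) (σ : L ≃ₐ[K] L) :
    σ ∈ A.inertiaSubgroupIn K ↔
      ∃ h : σ ∈ A.decompositionSubgroup K,
        (⟨σ, h⟩ : A.decompositionSubgroup K) ∈ A.inertiaSubgroup K := by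
  unfold ValuationSubring.inertiaSubgroupIn
  constructor
  · rintro ⟨τ, hτ, rfl⟩
    exact ⟨τ.2, hτ⟩
  · rintro ⟨h, hσ⟩
    exact ⟨⟨σ, h⟩, hσ, rfl⟩

theorem apply_mem_of_smul_eq {A : ValuationSubring L} {σ : L ≃ₐ[K] L} (hσ : σ • A = A) {t : L}
    (ht : t ∈ A) : σ t ∈ A := by
  have h1 : σ • t ∈ σ • A := ValuationSubring.smul_mem_pointwise_smul σ t A ht
  rw [hσ] at h1
  exact h1

/-- inertia in terms of elements, given stability -/
theorem mem_inertiaSubgroupIn_iff_of_smul_eq (A : ValuationSubring L) (σ : L ≃ₐ[K] L)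
    (hσA : σ • A = A) :
    σ ∈ A.inertiaSubgroupIn K ↔ ∀ x ∈ A, σ x - x ∈ A.nonunits := by
  have hσD : σ ∈ A.decompositionSubgroup K := MulAction.mem_stabilizer_iff.mpr hσA
  have key : ∀ (x : L) (hx : x ∈ A),
      ((⟨σ, hσD⟩ : A.decompositionSubgroup K) • (IsLocalRing.residue A ⟨x, hx⟩)
        = IsLocalRing.residue A ⟨x, hx⟩) ↔ σ x - x ∈ A.nonunits := by
    intro x hx
    rw [← IsLocalRing.ResidueField.residue_smul]
    show Ideal.Quotient.mk _ _ = Ideal.Quotient.mk _ _ ↔ _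
    rw [Ideal.Quotient.eq, ← ValuationSubring.coe_mem_nonunits_iff]
    rfl
  rw [mem_inertiaSubgroupIn_iff_exists]
  constructor
  · rintro ⟨h, hker⟩ x hx
    have h1 : MulSemiringAction.toRingAut (A.decompositionSubgroup K)
        (IsLocalRing.ResidueField A) ⟨σ, h⟩ = 1 := hker
    have h2 : (⟨σ, hσD⟩ : A.decompositionSubgroup K) • (IsLocalRing.residue A ⟨x, hx⟩) =
        IsLocalRing.residue A ⟨x, hx⟩ := by
      have := congrArg (fun f => f (IsLocalRing.residue A ⟨x, hx⟩)) h1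
      simpa using this
    exact (key x hx).mp h2
  · intro h
    refine ⟨hσD, ?_⟩
    rw [ValuationSubring.inertiaSubgroup, MonoidHom.mem_ker]
    ext r
    obtain ⟨a, rfl⟩ := IsLocalRing.residue_surjective r
    exact (key a a.2).mpr (h a a.2)

section Algebraic

variable [Algebra.IsAlgebraic K L]

/-- **inertia in terms of elements** (stability is automatic) -/
theorem mem_inertiaSubgroupIn_iff_forall (A : ValuationSubring L) (σ : L ≃ₐ[K] L) :
    σ ∈ A.inertiaSubgroupIn K ↔ ∀ x ∈ A, σ x - x ∈ A.nonunits := by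
  constructor
  · intro h
    have hD : σ • A = A := ((mem_inertiaSubgroupIn_iff_exists A σ).mp h).1
    exact (mem_inertiaSubgroupIn_iff_of_smul_eq A σ hD).mp h
  · intro h
    have hD : σ • A = A := by
      refine smul_eq_of_forall_mem A σ fun x hx => ?_
      have h1 : σ x - x ∈ A := A.nonunits_le (h x hx)
      have := A.add_mem _ _ h1 hx
      simpa using this
    exact (mem_inertiaSubgroupIn_iff_of_smul_eq A σ hD).mpr h

end Algebraic

section Topology

variable [Algebra.IsAlgebraic K L]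

/-- evaluation at `x` is locally constant -/
theorem isOpen_setOf_apply_eq (x y : L) : IsOpen {σ : L ≃ₐ[K] L | σ x = y} := by
  rw [isOpen_iff_mem_nhds]
  intro g hg
  let E : IntermediateField K L := IntermediateField.adjoin K {x}
  haveI : FiniteDimensional K E :=
    IntermediateField.adjoin.finiteDimensional (Algebra.IsIntegral.isIntegral _)
  have hopen : IsOpen ((g • (E.fixingSubgroup : Set (L ≃ₐ[K] L)))) :=
    (E.fixingSubgroup_isOpen).smul g
  refine Filter.mem_of_superset (hopen.mem_nhds ⟨1, one_mem _, by simp⟩) ?_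
  rintro _ ⟨h, hh, rfl⟩
  have hb : h x = x :=
    (IntermediateField.mem_fixingSubgroup_iff E h).mp hh x
      (IntermediateField.subset_adjoin K _ (Set.mem_singleton _))
  show (g * h) x = y
  rw [AlgEquiv.mul_apply, hb]
  exact hg

theorem isClosed_setOf_apply_mem (x : L) (S : Set L) : IsClosed {σ : L ≃ₐ[K] L | σ x ∈ S} := by
  rw [← isOpen_compl_iff]
  have : {σ : L ≃ₐ[K] L | σ x ∈ S}ᶜ = ⋃ y ∈ Sᶜ, {σ : L ≃ₐ[K] L | σ x = y} := by
    ext σ
    simp
  rw [this]
  exact isOpen_biUnion fun y _ => isOpen_setOf_apply_eq x y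

/-- **the inertia group is closed** -/
theorem isClosed_inertiaSubgroupIn (A : ValuationSubring L) :
    IsClosed ((A.inertiaSubgroupIn K : Subgroup (L ≃ₐ[K] L)) : Set (L ≃ₐ[K] L)) := by
  have : ((A.inertiaSubgroupIn K : Subgroup (L ≃ₐ[K] L)) : Set (L ≃ₐ[K] L))
      = ⋂ x ∈ (A : Set L), {σ : L ≃ₐ[K] L | σ x ∈ {y | y - x ∈ A.nonunits}} := by
    ext σ
    simp only [SetLike.mem_coe, Set.mem_iInter, Set.mem_ofPred_eq]
    exact mem_inertiaSubgroupIn_iff_forall A σ
  rw [this]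
  exact isClosed_biInter fun x _ => isClosed_setOf_apply_mem x _

end Topology

section Galois

variable [IsGalois K L]

/-- **LemA, strong form**: an automorphism fixing the inertia field lies in the inertia group. -/
theorem mem_inertiaSubgroupIn_of_fixes_fixedField (A : ValuationSubring L) (σ : L ≃ₐ[K] L)
    (h : ∀ x ∈ IntermediateField.fixedField (A.inertiaSubgroupIn K), σ x = x) :
    σ ∈ A.inertiaSubgroupIn K := by
  haveI : Algebra.IsAlgebraic K L := inferInstance
  let H : ClosedSubgroup (L ≃ₐ[K] L) :=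
    ⟨A.inertiaSubgroupIn K, isClosed_inertiaSubgroupIn A⟩
  have hH := InfiniteGalois.fixingSubgroup_fixedField H
  have hσ : σ ∈ (IntermediateField.fixedField (H : Subgroup (L ≃ₐ[K] L))).fixingSubgroup := by
    rw [IntermediateField.mem_fixingSubgroup_iff]
    exact h
  rw [hH] at hσ
  exact hσ

end Galois

end Fermat.Agent.A2.IF.H9

end
-- ===== PACK-END A2/IF/H9/InertiaClosed.lean

-- ===== PACK-BEGIN S56/H116/RootEta.lean
section


/-!
# S56, wall FLAT, leaf ROOT, step R1: the Eisenstein perturbation map in a valued field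

`Ω` a field with a valuation `v`, `B' ⊆ Ω` a subring of integral elements whose nonzero elements
have valuation in `v(π) ^ ℕ` ("unramified"), `ϖ` with `v(ϖ) ^ e = v(π) < 1`.

* `EisPres.val_sum_le_iff`: `v(∑_{i<e} a_i ϖ^i) ≤ g ↔ ∀ i, v(a_i ϖ^i) ≤ g` for `a_i ∈ B'`
  (the valuations of the nonzero terms are pairwise distinct);
* `EisPres.eq_zero_of_sum_eq_zero`: uniqueness of the expansion;
* `val_root_pow`: a root of `G + c X^j` (`G` Eisenstein-like) has valuation `v(π)^(1/e)`;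
* `eta`: the map `∑ a_i ϖ^i ↦ ∑ a_i ϖ'^i`; `EisPres.eta_add`, `eta_mul`, `eta_of_mem`, `val_eta`.
-/

set_option autoImplicit false
set_option linter.unusedSectionVars false

namespace Fermat.Agent.S56.H116.Root

open Polynomial

variable {Ω : Type*} [Field Ω] {Γ₀ : Type*} [LinearOrderedCommGroupWithZero Γ₀]
  (v : Valuation Ω Γ₀)

/-- `B'` is an unramified subring of integers with "uniformizer" `π`, and `ϖ` is an element with
`v(ϖ) ^ e = v(π)`. -/
structure EisPres (B' : Subring Ω) (π : Ω) (e : ℕ) (ϖ : Ω) : Prop where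
  int : ∀ b ∈ B', v b ≤ 1
  val : ∀ b ∈ B', b ≠ 0 → ∃ n : ℕ, v b = v π ^ n
  vpow : v ϖ ^ e = v π
  lt_one : v π < 1
  ne_zero : v π ≠ 0
  epos : 0 < e

namespace EisPres

variable {v} {B' : Subring Ω} {π : Ω} {e : ℕ} {ϖ : Ω} (h : EisPres v B' π e ϖ)
include h

theorem vϖ_ne_zero : v ϖ ≠ 0 := by
  intro h0
  have := h.vpow
  rw [h0, zero_pow h.epos.ne'] at this
  exact h.ne_zero this.symm

theorem vϖ_pos : 0 < v ϖ := zero_lt_iff.mpr h.vϖ_ne_zero

theorem vϖ_lt_one : v ϖ < 1 := by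
  by_contra hcon
  have h1 : 1 ≤ v ϖ := not_lt.mp hcon
  have h2 : 1 ≤ v ϖ ^ e := one_le_pow₀ h1
  rw [h.vpow] at h2
  exact absurd h.lt_one (not_lt.mpr h2)

theorem vϖ_le_one : v ϖ ≤ 1 := h.vϖ_lt_one.le

theorem pow_injective : Function.Injective (fun n : ℕ => v ϖ ^ n) :=
  (pow_right_strictAnti₀ h.vϖ_pos h.vϖ_lt_one).injective

/-- The valuation of a nonzero term `b ϖ^i`. -/
theorem val_term {b : Ω} (hb : b ∈ B') (hb0 : b ≠ 0) (i : ℕ) :
    ∃ n : ℕ, v (b * ϖ ^ i) = v ϖ ^ (e * n + i) := by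
  obtain ⟨n, hn⟩ := h.val b hb hb0
  refine ⟨n, ?_⟩
  rw [map_mul, map_pow, hn, ← h.vpow, ← pow_mul, ← pow_add]

/-- Nonzero terms of different degrees `< e` have different valuations. -/
theorem val_term_ne {b b' : Ω} (hb : b ∈ B') (hb0 : b ≠ 0) (hb' : b' ∈ B') (hb0' : b' ≠ 0)
    {i i' : ℕ} (hi : i < e) (hi' : i' < e) (hne : i ≠ i') :
    v (b * ϖ ^ i) ≠ v (b' * ϖ ^ i') := by
  obtain ⟨n, hn⟩ := h.val_term hb hb0 i
  obtain ⟨n', hn'⟩ := h.val_term hb' hb0' i'
  rw [hn, hn']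
  intro heq
  have h1 : e * n + i = e * n' + i' := h.pow_injective heq
  apply hne
  have h2 : (e * n + i) % e = (e * n' + i') % e := by rw [h1]
  rwa [Nat.mul_add_mod, Nat.mul_add_mod, Nat.mod_eq_of_lt hi, Nat.mod_eq_of_lt hi'] at h2

theorem ϖ_ne_zero : ϖ ≠ 0 := fun h0 => h.vϖ_ne_zero (by rw [h0, map_zero])

/-- **Valuation of an expansion**: `v(∑_{i<e} a_i ϖ^i) ≤ g` iff every term is `≤ g`. -/
theorem val_sum_le_iff (a : ℕ → Ω) (ha : ∀ i, a i ∈ B') (g : Γ₀) :
    v (∑ i ∈ Finset.range e, a i * ϖ ^ i) ≤ g ↔ ∀ i < e, v (a i * ϖ ^ i) ≤ g := by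
  classical
  constructor
  · intro hsum
    obtain ⟨i₀, hi₀, hmax⟩ := Finset.exists_max_image (Finset.range e)
      (fun i => v (a i * ϖ ^ i)) ⟨0, Finset.mem_range.mpr h.epos⟩
    by_cases hM : v (a i₀ * ϖ ^ i₀) = 0
    · intro i hi
      have := hmax i (Finset.mem_range.mpr hi)
      rw [hM] at this
      exact this.trans zero_le
    · have hai₀ : a i₀ ≠ 0 := fun h0 => hM (by rw [h0, zero_mul, map_zero])
      have hlt : ∀ i ∈ Finset.range e \ {i₀}, v (a i * ϖ ^ i) < v (a i₀ * ϖ ^ i₀) := by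
        intro i hi
        rw [Finset.mem_sdiff, Finset.mem_singleton] at hi
        by_cases hai : a i = 0
        · rw [hai, zero_mul, map_zero]
          exact zero_lt_iff.mpr hM
        · exact lt_of_le_of_ne (hmax i hi.1) (h.val_term_ne (ha i) hai (ha i₀) hai₀
            (Finset.mem_range.mp hi.1) (Finset.mem_range.mp hi₀) hi.2)
      have heq := v.map_sum_eq_of_lt hi₀ hlt
      intro i hi
      exact (hmax i (Finset.mem_range.mpr hi)).trans (heq ▸ hsum)
  · intro hterm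
    exact v.map_sum_le fun i hi => hterm i (Finset.mem_range.mp hi)

/-- Uniqueness of the expansion. -/
theorem eq_zero_of_sum_eq_zero (a : ℕ → Ω) (ha : ∀ i, a i ∈ B')
    (hsum : ∑ i ∈ Finset.range e, a i * ϖ ^ i = 0) (i : ℕ) (hi : i < e) : a i = 0 := by
  have h1 := (h.val_sum_le_iff a ha 0).mp (by rw [hsum, map_zero]) i hi
  have h2 : v (a i * ϖ ^ i) = 0 := le_antisymm h1 zero_le
  rw [map_eq_zero] at h2
  exact (mul_eq_zero.mp h2).resolve_right (pow_ne_zero _ h.ϖ_ne_zero)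

/-- Expansions are integral. -/
theorem val_sum_le_one (a : ℕ → Ω) (ha : ∀ i, a i ∈ B') :
    v (∑ i ∈ Finset.range e, a i * ϖ ^ i) ≤ 1 := by
  rw [h.val_sum_le_iff a ha]
  intro i _
  rw [map_mul, map_pow]
  exact mul_le_one' (h.int _ (ha i)) (pow_le_one₀ zero_le h.vϖ_le_one)

/-- Another element of the same valuation gives another presentation. -/
theorem of_val_eq {ϖ' : Ω} (hv : v ϖ' = v ϖ) : EisPres v B' π e ϖ' where
  int := h.int
  val := h.val
  vpow := by rw [hv, h.vpow]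
  lt_one := h.lt_one
  ne_zero := h.ne_zero
  epos := h.epos

/-- The valuation of an expansion depends only on the valuation of `ϖ`. -/
theorem val_sum_eq {ϖ' : Ω} (hv : v ϖ' = v ϖ) (a : ℕ → Ω) (ha : ∀ i, a i ∈ B') :
    v (∑ i ∈ Finset.range e, a i * ϖ' ^ i) = v (∑ i ∈ Finset.range e, a i * ϖ ^ i) := by
  have h' := h.of_val_eq hv
  have key : ∀ g, v (∑ i ∈ Finset.range e, a i * ϖ' ^ i) ≤ g ↔
      v (∑ i ∈ Finset.range e, a i * ϖ ^ i) ≤ g := by
    intro g
    rw [h.val_sum_le_iff a ha, h'.val_sum_le_iff a ha]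
    simp only [map_mul, map_pow, hv]
  exact le_antisymm ((key _).mpr le_rfl) ((key _).mp le_rfl)

end EisPres

section ValRoot


open Polynomial

variable {Ω : Type*} [Field Ω] {Γ₀ : Type*} [LinearOrderedCommGroupWithZero Γ₀]
  {v : Valuation Ω Γ₀}

/-- A root of an Eisenstein-type polynomial `G + c X^j` (`v(c) ≤ v(π)`, `0 < j < e`) has
valuation `v(π)^(1/e)`. -/
theorem val_root_pow {π : Ω} {e : ℕ} {G : Polynomial Ω} (hm : G.Monic) (hdeg : G.natDegree = e)
    (hc : ∀ i < e, v (G.coeff i) ≤ v π) (hc0 : v (G.coeff 0) = v π) (hlt : v π < 1)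
    (hne : v π ≠ 0) {j : ℕ} (hj0 : 0 < j) (hje : j < e) {c : Ω} (hcv : v c ≤ v π)
    {z : Ω} (hroot : G.eval z + c * z ^ j = 0) : v z ^ e = v π := by
  have he : 0 < e := lt_trans hj0 hje
  have hπpos : 0 < v π := zero_lt_iff.mpr hne
  -- split off the leading term
  have hsplit : G.eval z = ∑ i ∈ Finset.range e, G.coeff i * z ^ i + z ^ e := by
    rw [Polynomial.eval_eq_sum_range, hdeg, Finset.sum_range_succ]
    congr 1
    have : G.coeff e = 1 := by rw [← hdeg]; exact hm.coeff_natDegree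
    rw [this, one_mul]
  have hz : z ^ e = -(∑ i ∈ Finset.range e, G.coeff i * z ^ i + c * z ^ j) := by
    rw [hsplit] at hroot
    linear_combination hroot
  -- step 1 : `v z ≤ 1`
  have h1 : v z ≤ 1 := by
    by_contra hcon
    have hgt : 1 < v z := not_le.mp hcon
    have hpos : 0 < v z ^ e := pow_pos (lt_trans zero_lt_one hgt) e
    have hterm : ∀ i ≤ e, ∀ a : Ω, v a ≤ v π → v (a * z ^ i) < v z ^ e := by
      intro i hi a ha
      rw [map_mul, map_pow]
      calc v a * v z ^ i ≤ v π * v z ^ e :=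
            mul_le_mul' ha (pow_le_pow_right₀ hgt.le hi)
        _ < 1 * v z ^ e := by
            exact mul_lt_mul_of_pos_right hlt hpos
        _ = v z ^ e := one_mul _
    have hsum : v (∑ i ∈ Finset.range e, G.coeff i * z ^ i + c * z ^ j) < v z ^ e := by
      apply v.map_add_lt
      · exact v.map_sum_lt hpos.ne' fun i hi =>
          hterm i (Finset.mem_range.mp hi).le _ (hc i (Finset.mem_range.mp hi))
      · exact hterm j hje.le c hcv
    have := congrArg v hz
    rw [Valuation.map_neg, map_pow] at this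
    rw [← this] at hsum
    exact lt_irrefl _ hsum
  -- step 2 : `v z < 1`
  have hle : v z ^ e ≤ v π := by
    have := congrArg v hz
    rw [Valuation.map_neg, map_pow] at this
    rw [this]
    apply v.map_add_le
    · exact v.map_sum_le fun i hi => by
        rw [map_mul, map_pow]
        calc v (G.coeff i) * v z ^ i ≤ v π * 1 :=
              mul_le_mul' (hc i (Finset.mem_range.mp hi)) (pow_le_one₀ zero_le h1)
          _ = v π := mul_one _
    · rw [map_mul, map_pow]
      calc v c * v z ^ j ≤ v π * 1 := mul_le_mul' hcv (pow_le_one₀ zero_le h1)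
        _ = v π := mul_one _
  have h2 : v z < 1 := by
    rcases lt_or_eq_of_le h1 with h | h
    · exact h
    · exfalso
      rw [h, one_pow] at hle
      exact absurd hlt (not_lt.mpr hle)
  -- step 3 : the constant term dominates
  have hsmall : ∀ i, 0 < i → ∀ a : Ω, v a ≤ v π → v (a * z ^ i) < v π := by
    intro i hi a ha
    rw [map_mul, map_pow]
    calc v a * v z ^ i ≤ v π * v z ^ i := mul_le_mul' ha le_rfl
      _ ≤ v π * v z := by
          apply mul_le_mul' le_rfl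
          calc v z ^ i ≤ v z ^ 1 := pow_le_pow_of_le_one zero_le h1 hi
            _ = v z := pow_one _
      _ < v π * 1 := by
          exact mul_lt_mul_of_pos_left h2 hπpos
      _ = v π := mul_one _
  obtain ⟨e', rfl⟩ : ∃ e', e = e' + 1 := ⟨e - 1, by omega⟩
  have hsum' : ∑ i ∈ Finset.range (e' + 1), G.coeff i * z ^ i =
      ∑ i ∈ Finset.range e', G.coeff (i + 1) * z ^ (i + 1) + G.coeff 0 := by
    rw [Finset.sum_range_succ', pow_zero, mul_one]
  have := congrArg v hz
  rw [Valuation.map_neg, map_pow, hsum'] at this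
  rw [this]
  have hrest : v (∑ i ∈ Finset.range e', G.coeff (i + 1) * z ^ (i + 1) + c * z ^ j) < v π := by
    apply v.map_add_lt
    · exact v.map_sum_lt hne fun i hi =>
        hsmall (i + 1) (Nat.succ_pos i) _ (hc (i + 1) (by
          have := Finset.mem_range.mp hi; omega))
    · exact hsmall j hj0 c hcv
  have e1 : ∑ i ∈ Finset.range e', G.coeff (i + 1) * z ^ (i + 1) + G.coeff 0 + c * z ^ j =
      G.coeff 0 + (∑ i ∈ Finset.range e', G.coeff (i + 1) * z ^ (i + 1) + c * z ^ j) := by ring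
  rw [e1, v.map_add_eq_of_lt_left (by rw [hc0]; exact hrest), hc0]


end ValRoot

section EtaSec


open Polynomial

variable {K : Type*} [Field K] {Γ₀ : Type*} [LinearOrderedCommGroupWithZero Γ₀]
  {v : Valuation K Γ₀}

section Eta

variable (B' : Subring K)

/-- Evaluation of polynomials over the subring `B'` at `z`. -/
def ev (z : K) : Polynomial B' →+* K := Polynomial.eval₂RingHom B'.subtype z

theorem ev_apply (z : K) (f : Polynomial B') : ev B' z f = f.eval₂ B'.subtype z := rfl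

theorem ev_C (z : K) (b : B') : ev B' z (C b) = (b : K) := by
  rw [ev_apply, eval₂_C]; rfl

theorem ev_X (z : K) : ev B' z X = z := by
  rw [ev_apply, eval₂_X]

theorem ev_eq_sum (z : K) {e : ℕ} (r : Polynomial B') (hr : r.natDegree < e) :
    ev B' z r = ∑ i ∈ Finset.range e, ((r.coeff i : B') : K) * z ^ i := by
  rw [ev_apply, Polynomial.eval₂_eq_sum_range' _ hr]
  rfl

theorem val_ev_le_one {z : K} (hB : ∀ b ∈ B', v b ≤ 1) (hz : v z ≤ 1) (f : Polynomial B') :
    v (ev B' z f) ≤ 1 := by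
  rw [ev_apply, Polynomial.eval₂_eq_sum_range]
  refine v.map_sum_le fun i _ => ?_
  rw [map_mul, map_pow]
  exact mul_le_one' (hB _ (SetLike.coe_mem _)) (pow_le_one₀ zero_le hz)

variable {B'} {π : K} {e : ℕ} {ϖ ϖ' : K}

theorem EisPres.ev_eq_zero (h : EisPres v B' π e ϖ) (r : Polynomial B') (hr : r.natDegree < e)
    (h0 : ev B' ϖ r = 0) : r = 0 := by
  rw [ev_eq_sum B' ϖ r hr] at h0
  apply Polynomial.ext
  intro i
  rw [coeff_zero]
  by_cases hi : i < e
  · have := h.eq_zero_of_sum_eq_zero (fun i => ((r.coeff i : B') : K))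
      (fun i => SetLike.coe_mem _) h0 i hi
    exact Subtype.ext (this.trans (Subring.coe_zero B').symm)
  · exact Polynomial.coeff_eq_zero_of_natDegree_lt (lt_of_lt_of_le hr (not_lt.mp hi))

theorem EisPres.val_ev_eq (h : EisPres v B' π e ϖ) (hv' : v ϖ' = v ϖ) (r : Polynomial B')
    (hr : r.natDegree < e) : v (ev B' ϖ' r) = v (ev B' ϖ r) := by
  rw [ev_eq_sum B' ϖ' r hr, ev_eq_sum B' ϖ r hr]
  exact h.val_sum_eq hv' _ (fun i => SetLike.coe_mem _)

variable (B' ϖ ϖ') (G₀ : Polynomial B')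

/-- The perturbation map `η : B'[ϖ] → B'[ϖ']`, `∑ a_i ϖ^i ↦ ∑ a_i ϖ'^i` (extended by `0`). -/
noncomputable def eta (x : K) : K :=
  open Classical in
  if hx : ∃ f : Polynomial B', ev B' ϖ f = x then ev B' ϖ' (hx.choose %ₘ G₀) else 0

variable {B' ϖ ϖ' G₀}

theorem natDegree_mod_lt (hm : G₀.Monic) (hdeg : G₀.natDegree = e) (he : 0 < e)
    (f : Polynomial B') : (f %ₘ G₀).natDegree < e := by
  rw [← hdeg]
  apply Polynomial.natDegree_modByMonic_lt f hm
  intro h1
  rw [h1, natDegree_one] at hdeg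
  omega

theorem ev_mod (hroot : ev B' ϖ G₀ = 0) (f : Polynomial B') :
    ev B' ϖ (f %ₘ G₀) = ev B' ϖ f := by
  have := Polynomial.modByMonic_add_div f G₀
  have e1 := congrArg (ev B' ϖ) this
  rw [map_add, map_mul, hroot, zero_mul, add_zero] at e1
  exact e1

theorem EisPres.mod_eq_of_ev_eq (h : EisPres v B' π e ϖ) (hm : G₀.Monic)
    (hdeg : G₀.natDegree = e) (hroot : ev B' ϖ G₀ = 0) {f f' : Polynomial B'}
    (hff : ev B' ϖ f = ev B' ϖ f') : f %ₘ G₀ = f' %ₘ G₀ := by
  rw [← sub_eq_zero]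
  apply h.ev_eq_zero
  · refine lt_of_le_of_lt (Polynomial.natDegree_sub_le _ _) (max_lt ?_ ?_)
    · exact natDegree_mod_lt hm hdeg h.epos f
    · exact natDegree_mod_lt hm hdeg h.epos f'
  · rw [map_sub, ev_mod hroot, ev_mod hroot, hff, sub_self]

theorem EisPres.eta_ev (h : EisPres v B' π e ϖ) (hm : G₀.Monic)
    (hdeg : G₀.natDegree = e) (hroot : ev B' ϖ G₀ = 0) (f : Polynomial B') :
    eta B' ϖ ϖ' G₀ (ev B' ϖ f) = ev B' ϖ' (f %ₘ G₀) := by
  have hx : ∃ f' : Polynomial B', ev B' ϖ f' = ev B' ϖ f := ⟨f, rfl⟩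
  unfold eta
  rw [dif_pos hx]
  rw [h.mod_eq_of_ev_eq hm hdeg hroot hx.choose_spec]

theorem EisPres.eta_add (h : EisPres v B' π e ϖ) (hm : G₀.Monic)
    (hdeg : G₀.natDegree = e) (hroot : ev B' ϖ G₀ = 0) (f g : Polynomial B') :
    eta B' ϖ ϖ' G₀ (ev B' ϖ f + ev B' ϖ g) =
      eta B' ϖ ϖ' G₀ (ev B' ϖ f) + eta B' ϖ ϖ' G₀ (ev B' ϖ g) := by
  rw [← map_add, h.eta_ev hm hdeg hroot, h.eta_ev hm hdeg hroot, h.eta_ev hm hdeg hroot,
    Polynomial.add_modByMonic, map_add]

theorem EisPres.eta_mul (h : EisPres v B' π e ϖ) (hm : G₀.Monic)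
    (hdeg : G₀.natDegree = e) (hroot : ev B' ϖ G₀ = 0) (f g : Polynomial B') :
    ∃ Q : Polynomial B', eta B' ϖ ϖ' G₀ (ev B' ϖ f * ev B' ϖ g) -
      eta B' ϖ ϖ' G₀ (ev B' ϖ f) * eta B' ϖ ϖ' G₀ (ev B' ϖ g) =
      ev B' ϖ' G₀ * ev B' ϖ' Q := by
  rw [← map_mul, h.eta_ev hm hdeg hroot, h.eta_ev hm hdeg hroot, h.eta_ev hm hdeg hroot]
  -- `(f g) % G = ((f % G) (g % G)) % G`
  have e1 : (f * g) %ₘ G₀ = ((f %ₘ G₀) * (g %ₘ G₀)) %ₘ G₀ := by
    apply h.mod_eq_of_ev_eq hm hdeg hroot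
    rw [map_mul, map_mul, ev_mod hroot, ev_mod hroot]
  refine ⟨-(((f %ₘ G₀) * (g %ₘ G₀)) /ₘ G₀), ?_⟩
  have e2 := Polynomial.modByMonic_add_div ((f %ₘ G₀) * (g %ₘ G₀)) G₀
  have e3 := congrArg (ev B' ϖ') e2
  rw [map_add, map_mul, map_mul] at e3
  rw [e1, map_neg]
  linear_combination e3

theorem EisPres.eta_of_mem (h : EisPres v B' π e ϖ) (hm : G₀.Monic)
    (hdeg : G₀.natDegree = e) (hroot : ev B' ϖ G₀ = 0) {b : K} (hb : b ∈ B') :
    eta B' ϖ ϖ' G₀ b = b := by
  have e1 : b = ev B' ϖ (C ⟨b, hb⟩) := (ev_C B' ϖ ⟨b, hb⟩).symm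
  have e2 : (C (⟨b, hb⟩ : B') : Polynomial B') %ₘ G₀ = C ⟨b, hb⟩ := by
    rw [Polynomial.modByMonic_eq_self_iff hm]
    apply lt_of_le_of_lt Polynomial.degree_C_le
    rw [Polynomial.degree_eq_natDegree hm.ne_zero, hdeg]
    exact_mod_cast h.epos
  conv_lhs => rw [e1]
  rw [h.eta_ev hm hdeg hroot, e2, ev_C]

theorem EisPres.val_eta (h : EisPres v B' π e ϖ) (hv' : v ϖ' = v ϖ) (hm : G₀.Monic)
    (hdeg : G₀.natDegree = e) (hroot : ev B' ϖ G₀ = 0) (f : Polynomial B') :
    v (eta B' ϖ ϖ' G₀ (ev B' ϖ f)) = v (ev B' ϖ f) := by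
  rw [h.eta_ev hm hdeg hroot, h.val_ev_eq hv' _ (natDegree_mod_lt hm hdeg h.epos f),
    ev_mod hroot]

end Eta


end EtaSec

section ExistsEta


open Polynomial

variable {K : Type*} [Field K] {Γ₀ : Type*} [LinearOrderedCommGroupWithZero Γ₀]
  {v : Valuation K Γ₀}

/-- Elements with an expansion are values of polynomials over `B'`. -/
theorem exists_ev_eq_of_expansion (B' : Subring K) (ϖ : K) {e : ℕ} {x : K}
    (hx : ∃ a : Fin e → K, (∀ i, a i ∈ B') ∧ x = ∑ i, a i * ϖ ^ (i : ℕ)) :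
    ∃ f : Polynomial B', ev B' ϖ f = x := by
  obtain ⟨a, ha, rfl⟩ := hx
  refine ⟨∑ i : Fin e, C (⟨a i, ha i⟩ : B') * X ^ (i : ℕ), ?_⟩
  rw [map_sum]
  refine Finset.sum_congr rfl fun i _ => ?_
  rw [map_mul, map_pow, ev_C, ev_X]

/-- **ROOT, step R1.**  The perturbation map `η` attached to an Eisenstein presentation
`T = B'[ϖ]`, `G(ϖ) = 0`, and a root `ϖ'` of `G + π X^j`. -/
theorem exists_eta (B' : Subring K) {π : K} {e : ℕ} {ϖ : K} (h : EisPres v B' π e ϖ)
    {G : Polynomial K} (hm : G.Monic) (hdeg : G.natDegree = e) (hG : ∀ i, G.coeff i ∈ B')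
    (hc : ∀ i < e, v (G.coeff i) ≤ v π) (hc0 : v (G.coeff 0) = v π) (hroot : G.eval ϖ = 0)
    {j : ℕ} (hj0 : 0 < j) (hje : j < e) {ϖ' : K} (hroot' : G.eval ϖ' + π * ϖ' ^ j = 0)
    (T : Set K)
    (hT : ∀ x ∈ T, ∃ a : Fin e → K, (∀ i, a i ∈ B') ∧ x = ∑ i, a i * ϖ ^ (i : ℕ)) :
    v ϖ' = v ϖ ∧ ∃ η : K → K,
      (∀ a ∈ T, v (η a) ≤ 1) ∧
      (∀ a ∈ T, ∀ b ∈ T, η (a + b) = η a + η b) ∧
      (∀ a ∈ T, ∀ b ∈ T, v (η (a * b) - η a * η b) ≤ v π * v ϖ ^ j) ∧
      (∀ b ∈ B', η b = b) ∧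
      (∀ a ∈ T, v (η a) = v a) ∧
      (∀ a ∈ T, ∃ f : Polynomial B', η a = ev B' ϖ' f) := by
  have hv' : v ϖ' = v ϖ := by
    have h1 := val_root_pow hm hdeg hc hc0 h.lt_one h.ne_zero hj0 hje le_rfl hroot'
    have h2 : v ϖ' ^ e = v ϖ ^ e := by rw [h1, h.vpow]
    exact (pow_left_inj h.epos.ne').mp h2
  refine ⟨hv', ?_⟩
  -- lift `G` to `B'`
  have hlift : G ∈ Polynomial.lifts B'.subtype := by
    rw [Polynomial.lifts_iff_coeff_lifts]
    intro n
    exact ⟨⟨G.coeff n, hG n⟩, rfl⟩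
  obtain ⟨G₀, hG₀, hdeg₀, hm₀⟩ := Polynomial.lifts_and_natDegree_eq_and_monic hlift hm
  have hdeg₀' : G₀.natDegree = e := hdeg₀.trans hdeg
  have hev : ∀ z, ev B' z G₀ = G.eval z := by
    intro z
    rw [ev_apply, ← hG₀, Polynomial.eval_map]
  have hroot₀ : ev B' ϖ G₀ = 0 := by rw [hev, hroot]
  have hroot₀' : ev B' ϖ' G₀ = -(π * ϖ' ^ j) := by
    rw [hev]
    linear_combination hroot'
  have hTev : ∀ x ∈ T, ∃ f : Polynomial B', ev B' ϖ f = x := fun x hx =>
    exists_ev_eq_of_expansion B' ϖ (hT x hx)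
  have hvϖ' : v ϖ' ≤ 1 := hv' ▸ h.vϖ_le_one
  refine ⟨eta B' ϖ ϖ' G₀, ?_, ?_, ?_, ?_, ?_, ?_⟩
  · intro a ha
    obtain ⟨f, rfl⟩ := hTev a ha
    rw [h.eta_ev hm₀ hdeg₀' hroot₀]
    exact val_ev_le_one B' h.int hvϖ' _
  · intro a ha b hb
    obtain ⟨f, rfl⟩ := hTev a ha
    obtain ⟨g, rfl⟩ := hTev b hb
    exact h.eta_add hm₀ hdeg₀' hroot₀ f g
  · intro a ha b hb
    obtain ⟨f, rfl⟩ := hTev a ha
    obtain ⟨g, rfl⟩ := hTev b hb
    obtain ⟨Q, hQ⟩ := h.eta_mul (ϖ' := ϖ') hm₀ hdeg₀' hroot₀ f g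
    rw [hQ, hroot₀', map_mul, Valuation.map_neg, map_mul, map_pow, hv']
    calc v π * v ϖ ^ j * v (ev B' ϖ' Q) ≤ v π * v ϖ ^ j * 1 :=
          mul_le_mul' le_rfl (val_ev_le_one B' h.int hvϖ' Q)
      _ = v π * v ϖ ^ j := mul_one _
  · intro b hb
    exact h.eta_of_mem hm₀ hdeg₀' hroot₀ hb
  · intro a ha
    obtain ⟨f, rfl⟩ := hTev a ha
    exact h.val_eta hv' hm₀ hdeg₀' hroot₀ f
  · intro a ha
    obtain ⟨f, rfl⟩ := hTev a ha
    exact ⟨_, h.eta_ev hm₀ hdeg₀' hroot₀ f⟩


end ExistsEta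

end Fermat.Agent.S56.H116.Root

end
-- ===== PACK-END S56/H116/RootEta.lean

-- ===== PACK-BEGIN S56/H434/UNorm.lean
section


/-!
# S56 / W2-SS, piece A (helper434): abstract ultrametric "norms" on commutative rings

Mathlib-only.  `UNorm C Γ` is an ultrametric submultiplicative norm on a commutative ring with
values in a linearly ordered commutative group with zero.  The results are

* `UNorm.mul_sub_le_pow_sub_pow` (QLL): if `a ≡ b mod γ` with `γ^(p-1) < π = N p`, `b^p ≡ 1`,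
  then `π * N (a - b) ≤ N (a^p - b^p)`;
* `UNorm.eq_of_pow_eq_one` (LL): `a^p = b^p = 1`, `N (a - b) ≤ γ` implies `a = b`;
* `UNorm.exists_newton` : Newton iteration for `X^p = 1`.
-/

set_option autoImplicit false

namespace Fermat.Agent.S56.H434

/-- An ultrametric, submultiplicative norm on a commutative ring. -/
structure UNorm (C : Type*) [CommRing C] (Γ : Type*) [LinearOrderedCommGroupWithZero Γ] where
  /-- the norm -/
  N : C → Γ
  zero : N 0 = 0
  eq_zero : ∀ a, N a = 0 → a = 0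
  add_le : ∀ a b, N (a + b) ≤ max (N a) (N b)
  neg : ∀ a, N (-a) = N a
  mul_le : ∀ a b, N (a * b) ≤ N a * N b
  one_le : N 1 ≤ 1

/-- In any commutative ring, for a prime `p`, the binomial expansion of `(b + y) ^ p` with the
intermediate terms collected: all the data stay in any subring containing `b` and `y`. -/
theorem add_pow_prime_expand {C : Type*} [CommRing C] {p : ℕ} (hp : p.Prime) (S : Subring C)
    {b y : C} (hb : b ∈ S) (hy : y ∈ S) :
    ∃ w ∈ S, (b + y) ^ p = b ^ p + p * y * b ^ (p - 1) + p * y * (y * w) + y ^ p := by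
  obtain ⟨q, rfl⟩ : ∃ q, p = q + 2 := ⟨p - 2, by have := hp.two_le; omega⟩
  refine ⟨∑ i ∈ Finset.range q,
    y ^ i * b ^ (q - i) * (((q + 2).choose (i + 2) / (q + 2) : ℕ) : C), ?_, ?_⟩
  · exact S.sum_mem fun i _ =>
      S.mul_mem (S.mul_mem (S.pow_mem hy _) (S.pow_mem hb _)) (natCast_mem S _)
  · have key : ∀ i ∈ Finset.range q,
        y ^ (i + 1 + 1) * b ^ (q + 2 - (i + 1 + 1)) * ((q + 2).choose (i + 1 + 1) : C)
          = ((q + 2 : ℕ) : C) * y *
            (y * (y ^ i * b ^ (q - i) * (((q + 2).choose (i + 2) / (q + 2) : ℕ) : C))) := by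
      intro i hi
      have hi' : i < q := Finset.mem_range.mp hi
      have hdvd : (q + 2) ∣ (q + 2).choose (i + 2) :=
        hp.dvd_choose_self (by omega) (by omega)
      obtain ⟨c, hc⟩ := hdvd
      have h1 : (q + 2).choose (i + 1 + 1) = (q + 2) * c := hc
      rw [h1, Nat.mul_div_cancel_left c (by omega : 0 < q + 2),
        show q + 2 - (i + 1 + 1) = q - i by omega]
      push_cast
      ring
    rw [add_comm b y, add_pow, Finset.sum_range_succ, Finset.sum_range_succ',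
      Finset.sum_range_succ', Finset.sum_congr rfl key, ← Finset.mul_sum, ← Finset.mul_sum]
    simp only [zero_add, pow_one, Nat.choose_one_right, Nat.choose_self, Nat.cast_one, mul_one,
      pow_zero, one_mul, Nat.sub_zero, Nat.choose_zero_right, Nat.sub_self]
    push_cast
    ring

namespace UNorm

variable {C : Type*} [CommRing C] {Γ : Type*} [LinearOrderedCommGroupWithZero Γ] (ν : UNorm C Γ)

theorem sub_le (a b : C) : ν.N (a - b) ≤ max (ν.N a) (ν.N b) := by
  rw [sub_eq_add_neg]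
  exact (ν.add_le a (-b)).trans (by rw [ν.neg])

theorem sub_comm (a b : C) : ν.N (a - b) = ν.N (b - a) := by
  rw [← ν.neg (a - b), neg_sub]

theorem add_le_of_le {a b : C} {γ : Γ} (ha : ν.N a ≤ γ) (hb : ν.N b ≤ γ) : ν.N (a + b) ≤ γ :=
  (ν.add_le a b).trans (max_le ha hb)

theorem sub_le_of_le {a b : C} {γ : Γ} (ha : ν.N a ≤ γ) (hb : ν.N b ≤ γ) : ν.N (a - b) ≤ γ :=
  (ν.sub_le a b).trans (max_le ha hb)

theorem neg_le_of_le {a : C} {γ : Γ} (ha : ν.N a ≤ γ) : ν.N (-a) ≤ γ := by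
  rwa [ν.neg]

theorem mul_le_of_le {a b : C} {γ δ : Γ} (ha : ν.N a ≤ γ) (hb : ν.N b ≤ δ) :
    ν.N (a * b) ≤ γ * δ :=
  (ν.mul_le a b).trans (mul_le_mul' ha hb)

theorem mul_le_one {a b : C} (ha : ν.N a ≤ 1) (hb : ν.N b ≤ 1) : ν.N (a * b) ≤ 1 := by
  simpa using ν.mul_le_of_le ha hb

theorem mul_le_left {a b : C} {γ : Γ} (ha : ν.N a ≤ γ) (hb : ν.N b ≤ 1) : ν.N (a * b) ≤ γ := by
  simpa using ν.mul_le_of_le ha hb

theorem mul_le_right {a b : C} {γ : Γ} (ha : ν.N a ≤ 1) (hb : ν.N b ≤ γ) : ν.N (a * b) ≤ γ := by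
  simpa using ν.mul_le_of_le ha hb

theorem pow_le {a : C} {γ : Γ} (ha : ν.N a ≤ γ) (n : ℕ) (hn : n ≠ 0) : ν.N (a ^ n) ≤ γ ^ n := by
  induction n with
  | zero => exact absurd rfl hn
  | succ n ih =>
    rcases Nat.eq_zero_or_pos n with rfl | hpos
    · simpa using ha
    · rw [pow_succ, pow_succ]
      exact ν.mul_le_of_le (ih hpos.ne') ha

theorem pow_le_one {a : C} (ha : ν.N a ≤ 1) (n : ℕ) : ν.N (a ^ n) ≤ 1 := by
  induction n with
  | zero => simpa using ν.one_le
  | succ n ih => rw [pow_succ]; exact ν.mul_le_one ih ha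

theorem sum_le {ι : Type*} (s : Finset ι) (f : ι → C) {γ : Γ} (h : ∀ i ∈ s, ν.N (f i) ≤ γ) :
    ν.N (∑ i ∈ s, f i) ≤ γ := by
  classical
  induction s using Finset.induction_on with
  | empty => simp [ν.zero]
  | insert i s hi ih =>
    rw [Finset.sum_insert hi]
    exact ν.add_le_of_le (h i (Finset.mem_insert_self i s))
      (ih fun j hj => h j (Finset.mem_insert_of_mem hj))

/-- The unit ball of a `UNorm` as a subring. -/
def ball : Subring C where
  carrier := {a | ν.N a ≤ 1}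
  mul_mem' ha hb := ν.mul_le_one ha hb
  one_mem' := ν.one_le
  add_mem' ha hb := ν.add_le_of_le ha hb
  zero_mem' := by simp [ν.zero]
  neg_mem' ha := by simpa [ν.neg] using ha

theorem mem_ball {a : C} : a ∈ ν.ball ↔ ν.N a ≤ 1 := Iff.rfl

theorem natCast_le_one (n : ℕ) : ν.N (n : C) ≤ 1 := natCast_mem ν.ball n

/-- The data making a prime `p` "uniformly of size `π`" in a normed ring. -/
structure PData (p : ℕ) (π : Γ) : Prop where
  prime : p.Prime
  π_le : π ≤ 1
  N_p_mul : ∀ a : C, ν.N ((p : C) * a) = π * ν.N a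

variable {ν} {p : ℕ} {π : Γ}

theorem PData.lt_one_of_pow_lt (hp : ν.PData p π) {γ : Γ} (hγ : γ ^ (p - 1) < π) : γ < 1 := by
  by_contra h
  rw [not_lt] at h
  have : (1 : Γ) ≤ γ ^ (p - 1) := one_le_pow_of_one_le' h _
  exact absurd (hγ.trans_le hp.π_le) (not_lt.mpr this)

/-- **Quantitative lifting lemma.** -/
theorem mul_sub_le_pow_sub_pow (hp : ν.PData p π) {γ : Γ} (hγ : γ ^ (p - 1) < π)
    {a b : C} (hb : ν.N b ≤ 1) (hab : ν.N (a - b) ≤ γ)
    (hb1 : ν.N (b ^ p - 1) < 1) : π * ν.N (a - b) ≤ ν.N (a ^ p - b ^ p) := by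
  have hγ1 : γ < 1 := hp.lt_one_of_pow_lt hγ
  have hπ0 : 0 < π := lt_of_le_of_lt zero_le hγ
  set y := a - b with hy
  have hy1 : ν.N y ≤ 1 := hab.trans hγ1.le
  obtain ⟨w, hw, hexp⟩ := add_pow_prime_expand hp.prime ν.ball (b := b) (y := y) hb hy1
  have hw1 : ν.N w ≤ 1 := hw
  have hbya : b + y = a := by rw [hy]; ring
  rw [hbya] at hexp
  -- the key identity
  have hp1 : p - 1 + 1 = p := Nat.sub_add_cancel hp.prime.one_le
  have hid : (p : C) * y = b * (a ^ p - b ^ p) - (p : C) * (y * (b ^ p - 1))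
      - (p : C) * (y * (b * (y * w))) - b * y ^ p := by
    have hbp : b ^ p = b ^ (p - 1) * b := by rw [← pow_succ, hp1]
    rw [hexp, hbp]
    ring
  rcases eq_or_ne (ν.N y) 0 with h0 | h0
  · rw [h0, mul_zero]; exact zero_le
  have hY : 0 < ν.N y := lt_of_le_of_ne zero_le (Ne.symm h0)
  have hπY : 0 < π * ν.N y := mul_pos hπ0 hY
  by_contra hcon
  rw [not_le] at hcon
  have h1 : ν.N (b * (a ^ p - b ^ p)) < π * ν.N y :=
    lt_of_le_of_lt (ν.mul_le_right hb le_rfl) hcon
  have h2 : ν.N ((p : C) * (y * (b ^ p - 1))) < π * ν.N y := by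
    rw [hp.N_p_mul]
    refine mul_lt_mul_of_pos_left ?_ hπ0
    calc ν.N (y * (b ^ p - 1)) ≤ ν.N y * ν.N (b ^ p - 1) := ν.mul_le _ _
      _ < ν.N y * 1 := mul_lt_mul_of_pos_left hb1 hY
      _ = ν.N y := mul_one _
  have h3 : ν.N ((p : C) * (y * (b * (y * w)))) < π * ν.N y := by
    rw [hp.N_p_mul]
    refine mul_lt_mul_of_pos_left ?_ hπ0
    have : ν.N (b * (y * w)) ≤ γ := ν.mul_le_right hb (ν.mul_le_left hab hw1)
    calc ν.N (y * (b * (y * w))) ≤ ν.N y * ν.N (b * (y * w)) := ν.mul_le _ _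
      _ ≤ ν.N y * γ := mul_le_mul' le_rfl this
      _ < ν.N y * 1 := mul_lt_mul_of_pos_left hγ1 hY
      _ = ν.N y := mul_one _
  have h4 : ν.N (b * y ^ p) < π * ν.N y := by
    have hyp : y ^ p = y ^ (p - 1) * y := by rw [← pow_succ, hp1]
    have hle : ν.N (y ^ (p - 1)) ≤ γ ^ (p - 1) := by
      rcases Nat.eq_zero_or_pos (p - 1) with h | h
      · have := hp.prime.two_le; omega
      · exact ν.pow_le hab _ h.ne'
    calc ν.N (b * y ^ p) ≤ ν.N (y ^ p) := ν.mul_le_right hb le_rfl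
      _ = ν.N (y ^ (p - 1) * y) := by rw [hyp]
      _ ≤ ν.N (y ^ (p - 1)) * ν.N y := ν.mul_le _ _
      _ ≤ γ ^ (p - 1) * ν.N y := mul_le_mul' hle le_rfl
      _ < π * ν.N y := mul_lt_mul_of_pos_right hγ hY
  have hfin : ν.N ((p : C) * y) < π * ν.N y := by
    rw [hid]
    refine lt_of_le_of_lt (ν.sub_le _ _) (max_lt ?_ h4)
    refine lt_of_le_of_lt (ν.sub_le _ _) (max_lt ?_ h3)
    exact lt_of_le_of_lt (ν.sub_le _ _) (max_lt h1 h2)
  rw [hp.N_p_mul] at hfin
  exact lt_irrefl _ hfin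

/-- **Lifting lemma, uniqueness.** Two `p`-th roots of unity which are congruent modulo `γ`
with `γ ^ (p - 1) < π` are equal. -/
theorem eq_of_pow_eq_one (hp : ν.PData p π) {γ : Γ} (hγ : γ ^ (p - 1) < π)
    {a b : C} (hb : ν.N b ≤ 1) (hab : ν.N (a - b) ≤ γ)
    (hap : a ^ p = 1) (hbp : b ^ p = 1) : a = b := by
  have hπ0 : 0 < π := lt_of_le_of_lt zero_le hγ
  have h := mul_sub_le_pow_sub_pow hp hγ hb hab (by rw [hbp, sub_self, ν.zero]; exact one_pos)
  rw [hap, hbp, sub_self, ν.zero] at h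
  have h0 : π * ν.N (a - b) = 0 := le_antisymm h zero_le
  rcases mul_eq_zero.mp h0 with h1 | h1
  · exact absurd h1 hπ0.ne'
  · exact sub_eq_zero.mp (ν.eq_zero _ h1)

/-- One Newton step for `X ^ p = 1`. -/
theorem newton_step (hp : ν.PData p π) (hdiv : ∀ a : C, ∃ z, (p : C) * z = a)
    (S₀ : Subring C) (hS₀ : ∀ a : C, (p : C) * a ∈ S₀ → a ∈ S₀)
    {γ γ' : Γ} (hγ : γ ^ (p - 1) < π) (hγ' : γ' ≤ γ)
    {f : C} (hfS : f ∈ S₀) (hf : ν.N f ≤ 1) (hfp : ν.N (f ^ p - 1) ≤ π * γ') :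
    ∃ g ∈ S₀, ν.N g ≤ 1 ∧ ν.N (g - f) ≤ γ' ∧
      ν.N (g ^ p - 1) ≤ π * γ' * max γ (γ ^ (p - 1) * π⁻¹) := by
  have hγ1 : γ < 1 := hp.lt_one_of_pow_lt hγ
  have hπ0 : 0 < π := lt_of_le_of_lt zero_le hγ
  have hγ'1 : γ' ≤ 1 := hγ'.trans hγ1.le
  have hp1 : p - 1 + 1 = p := Nat.sub_add_cancel hp.prime.one_le
  obtain ⟨z, hz⟩ := hdiv (f ^ p - 1)
  have hzS : z ∈ S₀ := hS₀ z (by rw [hz]; exact S₀.sub_mem (S₀.pow_mem hfS _) S₀.one_mem)
  have hzN : ν.N z ≤ γ' := by
    have : π * ν.N z ≤ π * γ' := by rw [← hp.N_p_mul, hz]; exact hfp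
    exact le_of_mul_le_mul_left this hπ0
  have hz1 : ν.N z ≤ 1 := hzN.trans hγ'1
  have hpz : ν.N ((p : C) * z) ≤ π * γ' := by rw [hz]; exact hfp
  obtain ⟨w, hw, hexp⟩ := add_pow_prime_expand hp.prime ν.ball (b := (1 : C)) (y := -z)
    ν.one_le (by simpa [mem_ball, ν.neg] using hz1)
  have hw1 : ν.N w ≤ 1 := hw
  refine ⟨f * (1 - z), S₀.mul_mem hfS (S₀.sub_mem S₀.one_mem hzS),
    ν.mul_le_one hf (ν.sub_le_of_le ν.one_le hz1), ?_, ?_⟩
  · have : f * (1 - z) - f = -(f * z) := by ring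
    rw [this, ν.neg]
    exact ν.mul_le_right hf hzN
  · have hfp' : f ^ p = 1 + (p : C) * z := by rw [hz]; ring
    have hid : (f * (1 - z)) ^ p - 1 = -((p : C) * z * ((p : C) * z))
        + (1 + (p : C) * z) * ((p : C) * (z * (z * w)) + (-z) ^ p) := by
      rw [mul_pow, hfp', sub_eq_add_neg 1 z, hexp]
      simp only [one_pow, mul_one]
      ring
    rw [hid]
    have hδ1 : π * γ' * γ ≤ π * γ' * max γ (γ ^ (p - 1) * π⁻¹) :=
      mul_le_mul' le_rfl (le_max_left _ _)
    have hδ2 : γ' * γ ^ (p - 1) ≤ π * γ' * max γ (γ ^ (p - 1) * π⁻¹) := by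
      calc γ' * γ ^ (p - 1) = π * γ' * (γ ^ (p - 1) * π⁻¹) := by
            rw [mul_comm π γ', mul_assoc, mul_comm π, mul_assoc, inv_mul_cancel₀ hπ0.ne',
              mul_one]
        _ ≤ π * γ' * max γ (γ ^ (p - 1) * π⁻¹) := mul_le_mul' le_rfl (le_max_right _ _)
    have hA : ν.N ((p : C) * z * ((p : C) * z)) ≤ π * γ' * γ := by
      calc ν.N ((p : C) * z * ((p : C) * z)) ≤ ν.N ((p : C) * z) * ν.N ((p : C) * z) :=
            ν.mul_le _ _
        _ ≤ (π * γ') * γ := by
            refine mul_le_mul' hpz ?_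
            calc ν.N ((p : C) * z) ≤ π * γ' := hpz
              _ ≤ 1 * γ' := mul_le_mul' hp.π_le le_rfl
              _ = γ' := one_mul _
              _ ≤ γ := hγ'
    have hB : ν.N ((p : C) * (z * (z * w))) ≤ π * γ' * γ := by
      rw [hp.N_p_mul, mul_assoc]
      refine mul_le_mul' le_rfl ?_
      calc ν.N (z * (z * w)) ≤ ν.N z * ν.N (z * w) := ν.mul_le _ _
        _ ≤ γ' * γ := mul_le_mul' hzN ((ν.mul_le_left hzN hw1).trans hγ')
    have hC : ν.N ((-z) ^ p) ≤ γ' * γ ^ (p - 1) := by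
      have hzp : (-z) ^ p = (-z) * (-z) ^ (p - 1) := by rw [← pow_succ', hp1]
      have hle : ν.N ((-z) ^ (p - 1)) ≤ γ ^ (p - 1) := by
        rcases Nat.eq_zero_or_pos (p - 1) with h | h
        · have := hp.prime.two_le; omega
        · exact ν.pow_le (by rw [ν.neg]; exact hzN.trans hγ') _ h.ne'
      rw [hzp]
      calc ν.N (-z * (-z) ^ (p - 1)) ≤ ν.N (-z) * ν.N ((-z) ^ (p - 1)) := ν.mul_le _ _
        _ ≤ γ' * γ ^ (p - 1) := mul_le_mul' (by rw [ν.neg]; exact hzN) hle
    have h1pz : ν.N (1 + (p : C) * z) ≤ 1 :=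
      ν.add_le_of_le ν.one_le (ν.mul_le_one (ν.natCast_le_one p) hz1)
    refine ν.add_le_of_le (by rw [ν.neg]; exact hA.trans hδ1) ?_
    refine ν.mul_le_right h1pz ?_
    exact ν.add_le_of_le (hB.trans hδ1) (hC.trans hδ2)

/-- **Newton iteration** for `X ^ p = 1`: an approximate `p`-th root of unity modulo `π γ` can be
improved to arbitrary precision `π γ δ ^ k`, staying congruent modulo `γ`, and staying inside any
subring closed under division by `p`. -/
theorem exists_newton (hp : ν.PData p π) (hdiv : ∀ a : C, ∃ z, (p : C) * z = a)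
    (S₀ : Subring C) (hS₀ : ∀ a : C, (p : C) * a ∈ S₀ → a ∈ S₀)
    {γ : Γ} (hγ : γ ^ (p - 1) < π)
    {f : C} (hfS : f ∈ S₀) (hf : ν.N f ≤ 1) (hfp : ν.N (f ^ p - 1) ≤ π * γ) (k : ℕ) :
    ∃ g ∈ S₀, ν.N g ≤ 1 ∧ ν.N (g - f) ≤ γ ∧
      ν.N (g ^ p - 1) ≤ π * γ * max γ (γ ^ (p - 1) * π⁻¹) ^ k := by
  have hγ1 : γ < 1 := hp.lt_one_of_pow_lt hγ
  have hπ0 : 0 < π := lt_of_le_of_lt zero_le hγ
  have hδ : max γ (γ ^ (p - 1) * π⁻¹) ≤ 1 := by
    refine max_le hγ1.le ?_
    calc γ ^ (p - 1) * π⁻¹ ≤ π * π⁻¹ := mul_le_mul' hγ.le le_rfl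
      _ = 1 := mul_inv_cancel₀ hπ0.ne'
  induction k with
  | zero => exact ⟨f, hfS, hf, by simp [ν.zero], by simpa using hfp⟩
  | succ k ih =>
    obtain ⟨g, hgS, hg1, hgf, hgp⟩ := ih
    have hγ' : γ * max γ (γ ^ (p - 1) * π⁻¹) ^ k ≤ γ := by
      calc γ * max γ (γ ^ (p - 1) * π⁻¹) ^ k ≤ γ * 1 :=
            mul_le_mul' le_rfl (pow_le_one' hδ k)
        _ = γ := mul_one _
    obtain ⟨g', hg'S, hg'1, hg'g, hg'p⟩ := newton_step hp hdiv S₀ hS₀ hγ hγ' hgS hg1
      (by rw [← mul_assoc]; exact hgp)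
    refine ⟨g', hg'S, hg'1, ?_, ?_⟩
    · have : g' - f = (g' - g) + (g - f) := by ring
      rw [this]
      exact ν.add_le_of_le (hg'g.trans hγ') hgf
    · rw [pow_succ, ← mul_assoc]
      rw [← mul_assoc] at hg'p
      exact hg'p

end UNorm

end Fermat.Agent.S56.H434

end
-- ===== PACK-END S56/H434/UNorm.lean

-- ===== PACK-BEGIN S56/H334/RamMono.lean
section


/-!
# S56 / W-FLAT-SS, piece FL-RAM (helper334), part 4: finite extensions of DVRs are monogenic

`A ⊆ B` discrete valuation rings, `B` finite over `A`, residue field extension separable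
(e.g. `A` has finite residue field).  Then `B = A[x]` for some `x`
(Serre, Local Fields III §6 Prop. 12).  No completeness is needed.

* `exists_adjoin_eq_top_of_isSeparable` : the general statement.
* `finite_residueField_of_finite` : `κ_B` is finite if `κ_A` is.
* `exists_adjoin_eq_top_of_finite` : the statement for a finite residue field.
-/

set_option autoImplicit false

open IsLocalRing Polynomial

namespace Fermat.Agent.S56.H334

section Monogenic

variable (A B : Type*) [CommRing A] [IsDomain A] [IsDiscreteValuationRing A]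
  [CommRing B] [IsDomain B] [IsDiscreteValuationRing B] [Algebra A B] [Module.Finite A B]
  [FaithfulSMul A B]

/-- A uniformizer-valued polynomial expression exists: there are `x : B` and `g : A[X]` such that
`x` generates the residue field and `g(x)` is a uniformizer of `B`. -/
theorem exists_aeval_irreducible [Algebra.IsSeparable (ResidueField A) (ResidueField B)] :
    ∃ (x : B) (g : A[X]), Algebra.adjoin (ResidueField A) {residue B x} = ⊤ ∧
      Irreducible (aeval x g) := by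
  obtain ⟨β₀, hβ₀⟩ := Field.exists_primitive_element (ResidueField A) (ResidueField B)
  obtain ⟨x₀, hx₀⟩ := residue_surjective (R := B) β₀
  have hadj : Algebra.adjoin (ResidueField A) {β₀} = ⊤ := by
    rw [← IntermediateField.adjoin_simple_toSubalgebra_of_isAlgebraic (IsAlgebraic.of_finite _ _),
      hβ₀, IntermediateField.top_toSubalgebra]
  obtain ⟨g, hg⟩ := Polynomial.map_surjective _ (residue_surjective (R := A))
    (minpoly (ResidueField A) β₀)
  obtain ⟨ϖ, hϖ⟩ := IsDiscreteValuationRing.exists_irreducible B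
  -- residues of `g(x)` and `g'(x)`
  have hres : ∀ x : B, residue B x = β₀ → residue B (aeval x g) = 0 := by
    intro x hx
    rw [map_aeval_eq_aeval_map (ψ := residue B) (φ := residue A) rfl, hg, hx, minpoly.aeval]
  have hres' : ∀ x : B, residue B x = β₀ → IsUnit (aeval x (derivative g)) := by
    intro x hx
    apply (residue_ne_zero_iff_isUnit _).mp
    rw [map_aeval_eq_aeval_map (ψ := residue B) (φ := residue A) rfl, ← derivative_map, hg, hx]
    exact (Algebra.IsSeparable.isSeparable _ _).aeval_derivative_ne_zero (minpoly.aeval _ _)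
  have hmem : ∀ x : B, residue B x = β₀ → ϖ ∣ aeval x g := by
    intro x hx
    have h := hres x hx
    rw [residue_eq_zero_iff, hϖ.maximalIdeal_eq, Ideal.mem_span_singleton] at h
    exact h
  have hirr : ∀ y : B, ϖ ∣ y → ¬ ϖ ^ 2 ∣ y → Irreducible y := by
    rintro y ⟨u, rfl⟩ h2
    have hu : IsUnit u := by
      by_contra hu
      have hmem : u ∈ maximalIdeal B := (mem_maximalIdeal u).2 hu
      rw [hϖ.maximalIdeal_eq, Ideal.mem_span_singleton] at hmem
      exact h2 (by rw [pow_two]; exact mul_dvd_mul_left _ hmem)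
    exact (associated_mul_unit_left ϖ u hu).symm.irreducible hϖ
  by_cases h2 : ϖ ^ 2 ∣ aeval x₀ g
  · -- replace `x₀` by `x₀ + ϖ`
    have hx₁ : residue B (x₀ + ϖ) = β₀ := by
      rw [map_add, hx₀, (residue_eq_zero_iff ϖ).2 (by
        rw [hϖ.maximalIdeal_eq]; exact Ideal.mem_span_singleton_self ϖ), add_zero]
    refine ⟨x₀ + ϖ, g, by rw [hx₁]; exact hadj, hirr _ (hmem _ hx₁) ?_⟩
    intro h
    obtain ⟨k, hk⟩ := Polynomial.binomExpansion (g.map (algebraMap A B)) x₀ ϖ
    rw [eval_map_algebraMap, eval_map_algebraMap, derivative_map, eval_map_algebraMap] at hk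
    rw [hk] at h
    have h3 : ϖ ^ 2 ∣ aeval x₀ (derivative g) * ϖ := by
      have h4 := (Dvd.dvd.mul_left (dvd_refl (ϖ ^ 2)) k)
      have h5 := dvd_sub (dvd_sub h h4) h2
      have : aeval x₀ g + aeval x₀ (derivative g) * ϖ + k * ϖ ^ 2 - k * ϖ ^ 2 - aeval x₀ g
          = aeval x₀ (derivative g) * ϖ := by ring
      rwa [this] at h5
    rw [pow_two, mul_comm (aeval x₀ (derivative g))] at h3
    have h6 : ϖ ∣ aeval x₀ (derivative g) := (mul_dvd_mul_iff_left hϖ.ne_zero).1 h3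
    exact hϖ.not_isUnit (isUnit_of_dvd_unit h6 (hres' x₀ hx₀))
  · exact ⟨x₀, g, by rw [hx₀]; exact hadj, hirr _ (hmem _ hx₀) h2⟩

/-- **Monogenicity** (Serre, Local Fields III §6 Prop. 12): a finite extension of discrete
valuation rings with separable residue field extension is generated by one element. -/
theorem exists_adjoin_eq_top_of_isSeparable
    [Algebra.IsSeparable (ResidueField A) (ResidueField B)] :
    ∃ x : B, Algebra.adjoin A {x} = ⊤ := by
  obtain ⟨x, g, hx, hy⟩ := exists_aeval_irreducible A B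
  refine ⟨x, ?_⟩
  set C := Algebra.adjoin A {x} with hC
  set y := aeval x g with hy_def
  have hyC : y ∈ C := by
    rw [hC, Algebra.adjoin_singleton_eq_range_aeval]; exact ⟨g, rfl⟩
  -- step 1: `B = C + y B`
  have step1 : ∀ b : B, ∃ c ∈ C, ∃ b' : B, b = c + y * b' := by
    intro b
    rw [Algebra.adjoin_singleton_eq_range_aeval, AlgHom.range_eq_top] at hx
    obtain ⟨qb, hqb⟩ := hx (residue B b)
    obtain ⟨q, rfl⟩ := Polynomial.map_surjective _ (residue_surjective (R := A)) qb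
    rw [← map_aeval_eq_aeval_map (ψ := residue B) (φ := residue A) rfl] at hqb
    have hmem : b - aeval x q ∈ maximalIdeal B := by
      rw [← residue_eq_zero_iff, map_sub, hqb, sub_self]
    rw [hy.maximalIdeal_eq, Ideal.mem_span_singleton] at hmem
    obtain ⟨b', hb'⟩ := hmem
    refine ⟨aeval x q, ?_, b', by rw [← hb']; ring⟩
    rw [hC, Algebra.adjoin_singleton_eq_range_aeval]; exact ⟨q, rfl⟩
  -- step 2: `B = C + y ^ n B`
  have step2 : ∀ (n : ℕ) (b : B), ∃ c ∈ C, ∃ b' : B, b = c + y ^ n * b' := by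
    intro n
    induction n with
    | zero => intro b; exact ⟨0, C.zero_mem, b, by simp⟩
    | succ n ih =>
      intro b
      obtain ⟨c, hc, b', rfl⟩ := ih b
      obtain ⟨c', hc', b'', rfl⟩ := step1 b'
      exact ⟨c + y ^ n * c', C.add_mem hc (C.mul_mem (C.pow_mem hyC n) hc'), b'', by ring⟩
  -- step 3: `y ^ e ∈ 𝔪_A B`
  obtain ⟨π, hπ⟩ := IsDiscreteValuationRing.exists_irreducible A
  have hπ0 : algebraMap A B π ≠ 0 := by
    rw [Ne, FaithfulSMul.algebraMap_eq_zero_iff]; exact hπ.ne_zero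
  obtain ⟨e, he⟩ := IsDiscreteValuationRing.associated_pow_irreducible hπ0 hy
  obtain ⟨u, hu⟩ := he
  -- Nakayama
  refine eq_top_iff.mpr <| Submodule.le_of_le_smul_of_le_jacobson_bot
    (Module.finite_def.mp inferInstance) (IsLocalRing.maximalIdeal_le_jacobson ⊥)
    (?_ : ⊤ ≤ (Algebra.adjoin A {x}).toSubmodule ⊔ maximalIdeal A • ⊤)
  intro b _
  obtain ⟨c, hc, b', rfl⟩ := step2 e b
  rw [Ideal.smul_top_eq_map]
  refine Submodule.mem_sup.mpr ⟨c, hc, y ^ e * b', ?_, rfl⟩
  rw [Submodule.restrictScalars_mem, ← hu, mul_assoc]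
  exact Ideal.mul_mem_right _ _ (Ideal.mem_map_of_mem _ (by
    rw [hπ.maximalIdeal_eq]; exact Ideal.mem_span_singleton_self π))

/-- The residue field of `B` is finite if that of `A` is. -/
theorem finite_residueField_of_finite [Finite (ResidueField A)] : Finite (ResidueField B) :=
  Module.finite_of_finite (ResidueField A)

/-- **Monogenicity** for a finite residue field. -/
theorem exists_adjoin_eq_top_of_finite [Finite (ResidueField A)] :
    ∃ x : B, Algebra.adjoin A {x} = ⊤ := by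
  have : Finite (ResidueField B) := finite_residueField_of_finite A B
  have : Algebra.IsSeparable (ResidueField A) (ResidueField B) :=
    Algebra.IsAlgebraic.isSeparable_of_perfectField
  exact exists_adjoin_eq_top_of_isSeparable A B

end Monogenic

end Fermat.Agent.S56.H334

end
-- ===== PACK-END S56/H334/RamMono.lean

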