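import Mathlib
import Fermat.Prelude.Def_GroupCohomology_ContinuousUnramified

-- ===== PACK-BEGIN S56/H384/ShapeLA.lean
section


/-!
# S56 / W-FLAT-SS, leaf RCShape (helper384): linear algebra and arithmetic of the orders

Mathlib-only tools for `FL.RCShapeStatement`:

* `exists_eigenbasis` : `t, f ∈ GL₂(k)` with `f t = t ^ p f`, split characteristic polynomials,
  `t` of order prime to the characteristic and no common stable line: in a suitable basis
  `t = diag(χ, χ')`, `f` is antidiagonal, `χ ≠ χ'`, `χ' = χ ^ p`, `χ = χ' ^ p`.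
* `ad_coords` : the action of `Ad t`, `Ad f` in the coordinates `z₁₁, z₁₂, z₂₁`.
* `order_arith` : `ord (x ^ (p + 1)) = p - 1` ⟹ `ord x = (p - 1) m`, `m = ord (x ^ (p - 1))`,
  `m ∣ p + 1`, `(p + 1) / m` odd.
-/

set_option autoImplicit false
set_option linter.unusedSectionVars false
set_option linter.style.haveILetI false

namespace Fermat.Agent.S56.H384

open Polynomial Module

section LA

variable {k V : Type*} [Field k] [AddCommGroup V] [Module k V] [Module.Finite k V]

/-- An endomorphism of finite order prime to the characteristic whose characteristic polynomial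
is `(X - χ)²` is the scalar `χ`. -/
theorem eq_smul_one_of_sq_of_pow {t : Module.End k V} {χ : k} {N : ℕ} (hN : (N : k) ≠ 0)
    (htN : t ^ N = 1) (hcp : LinearMap.charpoly t = (X - C χ) * (X - C χ)) : t = χ • 1 := by
  have h1 : minpoly k t ∣ (X - C χ) ^ 2 := by
    rw [pow_two, ← hcp]
    exact LinearMap.minpoly_dvd_charpoly t
  have h2 : minpoly k t ∣ X ^ N - C 1 := minpoly.dvd k t (by simp [htN])
  have hsq : Squarefree (minpoly k t) :=
    (separable_X_pow_sub_C (1 : k) hN one_ne_zero).squarefree.squarefree_of_dvd h2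
  have h3 : minpoly k t ∣ X - C χ :=
    (hsq.dvd_pow_iff_dvd two_ne_zero).mp h1
  have h4 : aeval t (X - C χ) = 0 := by
    obtain ⟨q, hq⟩ := h3
    rw [hq, map_mul, minpoly.aeval, zero_mul]
  have h5 : t - algebraMap k (Module.End k V) χ = 0 := by simpa using h4
  rw [sub_eq_zero] at h5
  rw [h5, Algebra.algebraMap_eq_smul_one]

theorem hasEigenvalue_of_charpoly {t : Module.End k V} {χ χ' : k}
    (hcp : LinearMap.charpoly t = (X - C χ) * (X - C χ')) :
    t.HasEigenvalue χ ∧ t.HasEigenvalue χ' := by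
  constructor <;> rw [Module.End.hasEigenvalue_iff_isRoot_charpoly, hcp] <;> simp [IsRoot]

/-- A line spanned by a nonzero vector in a plane is neither `⊥` nor `⊤`. -/
theorem span_singleton_ne (hV : finrank k V = 2) {v : V} (hv : v ≠ 0) :
    (k ∙ v) ≠ ⊥ ∧ (k ∙ v) ≠ ⊤ := by
  constructor
  · intro h
    exact hv ((Submodule.span_singleton_eq_bot).mp h)
  · intro h
    have h1 : finrank k (k ∙ v) = 1 := finrank_span_singleton hv
    rw [h, finrank_top, hV] at h1
    omega

theorem det_of_charpoly (hV : finrank k V = 2) {t : Module.End k V} {χ χ' : k}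
    (hcp : LinearMap.charpoly t = (X - C χ) * (X - C χ')) : LinearMap.det t = χ * χ' := by
  rw [LinearMap.det_eq_sign_charpoly_coeff, hV, hcp, mul_coeff_zero]
  simp

/-- **Eigenbasis.** -/
theorem exists_eigenbasis (hV : finrank k V = 2) {p : ℕ} (t f : Module.End k V)
    (hrel : f * t = t ^ p * f)
    (ht : ∃ α β : k, LinearMap.charpoly t = (X - C α) * (X - C β))
    (hf : ∃ α β : k, LinearMap.charpoly f = (X - C α) * (X - C β))
    {N : ℕ} (hN : (N : k) ≠ 0) (htN : t ^ N = 1)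
    (hirr : ∀ U : Submodule k V, (∀ x ∈ U, t x ∈ U) → (∀ x ∈ U, f x ∈ U) → U = ⊥ ∨ U = ⊤) :
    ∃ (b : Basis (Fin 2) k V) (χ χ' β γ : k), χ ≠ χ' ∧ β ≠ 0 ∧ γ ≠ 0 ∧
      t (b 0) = χ • b 0 ∧ t (b 1) = χ' • b 1 ∧ f (b 0) = β • b 1 ∧ f (b 1) = γ • b 0 ∧
      χ' = χ ^ p ∧ χ = χ' ^ p ∧ LinearMap.det t = χ * χ' := by
  classical
  obtain ⟨χ, χ', hcp⟩ := ht
  obtain ⟨hev1, hev2⟩ := hasEigenvalue_of_charpoly hcp
  -- `χ ≠ χ'`
  have hne : χ ≠ χ' := by
    rintro rfl
    have hts : t = χ • 1 := eq_smul_one_of_sq_of_pow hN htN hcp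
    obtain ⟨φ1, φ2, hfcp⟩ := hf
    obtain ⟨v, hv⟩ := (hasEigenvalue_of_charpoly hfcp).1.exists_hasEigenvector
    have hv0 : v ≠ 0 := hv.2
    have hfv : f v = φ1 • v := hv.apply_eq_smul
    rcases hirr (k ∙ v) (fun x hx => by
        rw [hts]
        simpa using Submodule.smul_mem _ χ hx)
      (fun x hx => by
        obtain ⟨c, rfl⟩ := Submodule.mem_span_singleton.mp hx
        rw [map_smul, hfv]
        exact Submodule.smul_mem _ _ (Submodule.smul_mem _ _ (Submodule.mem_span_singleton_self v)))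
      with h | h
    · exact (span_singleton_ne hV hv0).1 h
    · exact (span_singleton_ne hV hv0).2 h
  obtain ⟨v₁, hv₁⟩ := hev1.exists_hasEigenvector
  obtain ⟨v₂, hv₂⟩ := hev2.exists_hasEigenvector
  have hli : LinearIndependent k ![v₁, v₂] := by
    refine Module.End.eigenvectors_linearIndependent' t ![χ, χ'] ?_ ![v₁, v₂] ?_
    · intro i j hij
      fin_cases i <;> fin_cases j <;> simp_all
    · intro i
      fin_cases i
      · exact hv₁
      · exact hv₂
  let b : Basis (Fin 2) k V := basisOfLinearIndependentOfCardEqFinrank hli (by simp [hV])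
  have hb0 : b 0 = v₁ := by simp [b]
  have hb1 : b 1 = v₂ := by simp [b]
  have ht0 : t (b 0) = χ • b 0 := by rw [hb0]; exact hv₁.apply_eq_smul
  have ht1 : t (b 1) = χ' • b 1 := by rw [hb1]; exact hv₂.apply_eq_smul
  have htp0 : (t ^ p) (b 0) = χ ^ p • b 0 := by rw [hb0]; exact hv₁.pow_apply p
  have htp1 : (t ^ p) (b 1) = χ' ^ p • b 1 := by rw [hb1]; exact hv₂.pow_apply p
  -- expansions of `f (b i)`
  have hexp : ∀ x : V, x = b.repr x 0 • b 0 + b.repr x 1 • b 1 := fun x => by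
    conv_lhs => rw [← b.sum_repr x, Fin.sum_univ_two]
  set α := b.repr (f (b 0)) 0 with hα
  set β := b.repr (f (b 0)) 1 with hβ
  set γ := b.repr (f (b 1)) 0 with hγ
  set δ := b.repr (f (b 1)) 1 with hδ
  have hf0 : f (b 0) = α • b 0 + β • b 1 := hexp _
  have hf1 : f (b 1) = γ • b 0 + δ • b 1 := hexp _
  -- coefficient comparison
  have hcoef : ∀ {c₀ c₁ e₀ e₁ : k}, c₀ • b 0 + c₁ • b 1 = e₀ • b 0 + e₁ • b 1 →
      c₀ = e₀ ∧ c₁ = e₁ := by
    intro c₀ c₁ e₀ e₁ h
    have h0 := congrArg (fun x => b.repr x 0) h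
    have h1 := congrArg (fun x => b.repr x 1) h
    simp only [map_add, map_smul, Basis.repr_self, Finsupp.add_apply, Finsupp.smul_apply,
      Finsupp.single_apply, smul_eq_mul] at h0 h1
    constructor
    · simpa using h0
    · simpa using h1
  -- the relation on `b 0`, `b 1`
  have hr0 : (χ * α) • b 0 + (χ * β) • b 1 = (α * χ ^ p) • b 0 + (β * χ' ^ p) • b 1 := by
    have h := congrArg (fun g : Module.End k V => g (b 0)) hrel
    simp only [Module.End.mul_apply] at h
    rw [ht0, map_smul, hf0, map_add, map_smul, map_smul, htp0, htp1] at h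
    rw [smul_add, smul_smul, smul_smul, smul_smul, smul_smul] at h
    exact h
  have hr1 : (χ' * γ) • b 0 + (χ' * δ) • b 1 = (γ * χ ^ p) • b 0 + (δ * χ' ^ p) • b 1 := by
    have h := congrArg (fun g : Module.End k V => g (b 1)) hrel
    simp only [Module.End.mul_apply] at h
    rw [ht1, map_smul, hf1, map_add, map_smul, map_smul, htp0, htp1] at h
    rw [smul_add, smul_smul, smul_smul, smul_smul, smul_smul] at h
    exact h
  obtain ⟨e1, e2⟩ := hcoef hr0
  obtain ⟨e3, e4⟩ := hcoef hr1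
  have hbne0 : b 0 ≠ 0 := b.ne_zero 0
  have hbne1 : b 1 ≠ 0 := b.ne_zero 1
  -- irreducibility: `β ≠ 0`, `γ ≠ 0`
  have hβ0 : β ≠ 0 := by
    intro h0
    rcases hirr (k ∙ b 0) (fun x hx => by
        obtain ⟨c, rfl⟩ := Submodule.mem_span_singleton.mp hx
        rw [map_smul, ht0]
        exact Submodule.smul_mem _ _ (Submodule.smul_mem _ _ (Submodule.mem_span_singleton_self _)))
      (fun x hx => by
        obtain ⟨c, rfl⟩ := Submodule.mem_span_singleton.mp hx
        rw [map_smul, hf0, h0, zero_smul, add_zero]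
        exact Submodule.smul_mem _ _ (Submodule.smul_mem _ _ (Submodule.mem_span_singleton_self _)))
      with h | h
    · exact (span_singleton_ne hV hbne0).1 h
    · exact (span_singleton_ne hV hbne0).2 h
  have hγ0 : γ ≠ 0 := by
    intro h0
    rcases hirr (k ∙ b 1) (fun x hx => by
        obtain ⟨c, rfl⟩ := Submodule.mem_span_singleton.mp hx
        rw [map_smul, ht1]
        exact Submodule.smul_mem _ _ (Submodule.smul_mem _ _ (Submodule.mem_span_singleton_self _)))
      (fun x hx => by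
        obtain ⟨c, rfl⟩ := Submodule.mem_span_singleton.mp hx
        rw [map_smul, hf1, h0, zero_smul, zero_add]
        exact Submodule.smul_mem _ _ (Submodule.smul_mem _ _ (Submodule.mem_span_singleton_self _)))
      with h | h
    · exact (span_singleton_ne hV hbne1).1 h
    · exact (span_singleton_ne hV hbne1).2 h
  have hχ : χ = χ' ^ p := by
    have : β * χ = β * χ' ^ p := by rw [← e2, mul_comm]
    exact mul_left_cancel₀ hβ0 this
  have hχ' : χ' = χ ^ p := by
    have : γ * χ' = γ * χ ^ p := by rw [← e3, mul_comm]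
    exact mul_left_cancel₀ hγ0 this
  have hα0 : α = 0 := by
    have : α * (χ - χ') = 0 := by rw [mul_sub, hχ', ← e1]; ring
    rcases mul_eq_zero.mp this with h | h
    · exact h
    · exact absurd (sub_eq_zero.mp h) hne
  have hδ0 : δ = 0 := by
    have : δ * (χ' - χ) = 0 := by
      have e5 : χ' * δ = δ * χ := by rw [e4, ← hχ]
      linear_combination e5
    rcases mul_eq_zero.mp this with h | h
    · exact h
    · exact absurd (sub_eq_zero.mp h).symm hne
  refine ⟨b, χ, χ', β, γ, hne, hβ0, hγ0, ht0, ht1, ?_, ?_, hχ', hχ, det_of_charpoly hV hcp⟩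
  · rw [hf0, hα0, zero_smul, zero_add]
  · rw [hf1, hδ0, zero_smul, add_zero]

/-- Powers of a diagonal endomorphism with `χ' = χ ^ p`. -/
theorem pow_eq_one_iff_of_eigenbasis (b : Basis (Fin 2) k V) {χ χ' : k} {p : ℕ}
    {t : Module.End k V} (ht0 : t (b 0) = χ • b 0) (ht1 : t (b 1) = χ' • b 1)
    (hχ' : χ' = χ ^ p) (j : ℕ) : t ^ j = 1 ↔ χ ^ j = 1 := by
  have hp0 : ∀ j : ℕ, (t ^ j) (b 0) = χ ^ j • b 0 := by
    intro j
    induction j with
    | zero => simp
    | succ j ih => rw [pow_succ, Module.End.mul_apply, ht0, map_smul, ih, smul_smul, pow_succ,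
        mul_comm]
  have hp1 : ∀ j : ℕ, (t ^ j) (b 1) = χ' ^ j • b 1 := by
    intro j
    induction j with
    | zero => simp
    | succ j ih => rw [pow_succ, Module.End.mul_apply, ht1, map_smul, ih, smul_smul, pow_succ,
        mul_comm]
  constructor
  · intro h
    have h0 := hp0 j
    rw [h, Module.End.one_apply] at h0
    have h1 : (χ ^ j - 1) • b 0 = 0 := by rw [sub_smul, one_smul, ← h0, sub_self]
    rcases smul_eq_zero.mp h1 with h2 | h2
    · exact sub_eq_zero.mp h2
    · exact absurd h2 (b.ne_zero 0)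
  · intro h
    refine b.ext fun i => ?_
    fin_cases i
    · simpa [h] using hp0 j
    · have h' : χ' ^ j = 1 := by rw [hχ', ← pow_mul, mul_comm, pow_mul, h, one_pow]
      simpa [h'] using hp1 j

/-- **Coordinates of `Ad t`, `Ad f`** on `End V` in an eigenbasis of `t` in which `f` is
antidiagonal. -/
theorem ad_coords (b : Basis (Fin 2) k V) {χ χ' β γ : k} (hβ : β ≠ 0) (hγ : γ ≠ 0)
    {t t' f f' : Module.End k V} (ht't : t' * t = 1) (hf'f : f' * f = 1)
    (ht0 : t (b 0) = χ • b 0) (ht1 : t (b 1) = χ' • b 1)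
    (hf0 : f (b 0) = β • b 1) (hf1 : f (b 1) = γ • b 0) :
    ∃ ℓ₁ ℓp ℓm : Module.End k V →ₗ[k] k,
      (∀ z, LinearMap.trace k V z = 0 → ℓ₁ z = 0 → ℓp z = 0 → ℓm z = 0 → z = 0) ∧
      (∀ z, ℓ₁ (t * z * t') = ℓ₁ z) ∧
      (∀ z, ℓp (t * z * t') = (χ * χ'⁻¹) * ℓp z) ∧
      (∀ z, ℓm (t * z * t') = (χ * χ'⁻¹)⁻¹ * ℓm z) ∧
      (∀ z, LinearMap.trace k V z = 0 → ℓ₁ (f * z * f') = - ℓ₁ z) ∧
      (∀ z, ℓp (f * z * f') = (γ * β⁻¹) * ℓm z) ∧
      (∀ z, ℓm (f * z * f') = (β * γ⁻¹) * ℓp z) := by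
  classical
  have hχ : χ ≠ 0 := by
    rintro rfl
    have h := congrArg (fun g : Module.End k V => g (b 0)) ht't
    simp only [Module.End.mul_apply, Module.End.one_apply] at h
    rw [ht0, zero_smul, map_zero] at h
    exact b.ne_zero 0 h.symm
  have hχ' : χ' ≠ 0 := by
    rintro rfl
    have h := congrArg (fun g : Module.End k V => g (b 1)) ht't
    simp only [Module.End.mul_apply, Module.End.one_apply] at h
    rw [ht1, zero_smul, map_zero] at h
    exact b.ne_zero 1 h.symm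
  -- inverses on the basis
  have ht'0 : t' (b 0) = χ⁻¹ • b 0 := by
    have h := congrArg (fun g : Module.End k V => g (b 0)) ht't
    simp only [Module.End.mul_apply, Module.End.one_apply] at h
    rw [ht0, map_smul] at h
    calc t' (b 0) = χ⁻¹ • (χ • t' (b 0)) := by rw [smul_smul, inv_mul_cancel₀ hχ, one_smul]
      _ = χ⁻¹ • b 0 := by rw [h]
  have ht'1 : t' (b 1) = χ'⁻¹ • b 1 := by
    have h := congrArg (fun g : Module.End k V => g (b 1)) ht't
    simp only [Module.End.mul_apply, Module.End.one_apply] at h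
    rw [ht1, map_smul] at h
    calc t' (b 1) = χ'⁻¹ • (χ' • t' (b 1)) := by rw [smul_smul, inv_mul_cancel₀ hχ', one_smul]
      _ = χ'⁻¹ • b 1 := by rw [h]
  have hf'1 : f' (b 1) = β⁻¹ • b 0 := by
    have h := congrArg (fun g : Module.End k V => g (b 0)) hf'f
    simp only [Module.End.mul_apply, Module.End.one_apply] at h
    rw [hf0, map_smul] at h
    rw [← h, smul_smul, inv_mul_cancel₀ hβ, one_smul]
  have hf'0 : f' (b 0) = γ⁻¹ • b 1 := by
    have h := congrArg (fun g : Module.End k V => g (b 1)) hf'f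
    simp only [Module.End.mul_apply, Module.End.one_apply] at h
    rw [hf1, map_smul] at h
    rw [← h, smul_smul, inv_mul_cancel₀ hγ, one_smul]
  -- expansions
  have hexp : ∀ x : V, x = b.repr x 0 • b 0 + b.repr x 1 • b 1 := fun x => by
    conv_lhs => rw [← b.sum_repr x, Fin.sum_univ_two]
  have hrepr0 : ∀ c₀ c₁ : k, b.repr (c₀ • b 0 + c₁ • b 1) 0 = c₀ := fun c₀ c₁ => by
    simp
  have hrepr1 : ∀ c₀ c₁ : k, b.repr (c₀ • b 0 + c₁ • b 1) 1 = c₁ := fun c₀ c₁ => by
    simp
  have htr : ∀ z : Module.End k V,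
      LinearMap.trace k V z = b.repr (z (b 0)) 0 + b.repr (z (b 1)) 1 := fun z => by
    rw [LinearMap.trace_eq_matrix_trace k b z, Matrix.trace_fin_two, LinearMap.toMatrix_apply,
      LinearMap.toMatrix_apply]
  -- conjugates on the basis
  have hAt0 : ∀ z : Module.End k V, (t * z * t') (b 0) =
      (b.repr (z (b 0)) 0) • b 0 + (χ⁻¹ * χ' * b.repr (z (b 0)) 1) • b 1 := fun z => by
    rw [Module.End.mul_apply, Module.End.mul_apply, ht'0, map_smul, map_smul]
    conv_lhs => rw [hexp (z (b 0))]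
    rw [map_add, map_smul, map_smul, ht0, ht1, smul_add, smul_smul, smul_smul, smul_smul,
      smul_smul]
    congr 2
    · field_simp
    · ring
  have hAt1 : ∀ z : Module.End k V, (t * z * t') (b 1) =
      (χ'⁻¹ * χ * b.repr (z (b 1)) 0) • b 0 + (b.repr (z (b 1)) 1) • b 1 := fun z => by
    rw [Module.End.mul_apply, Module.End.mul_apply, ht'1, map_smul, map_smul]
    conv_lhs => rw [hexp (z (b 1))]
    rw [map_add, map_smul, map_smul, ht0, ht1, smul_add, smul_smul, smul_smul, smul_smul,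
      smul_smul]
    congr 2
    · ring
    · field_simp
  have hAf0 : ∀ z : Module.End k V, (f * z * f') (b 0) =
      (b.repr (z (b 1)) 1) • b 0 + (γ⁻¹ * β * b.repr (z (b 1)) 0) • b 1 := fun z => by
    rw [Module.End.mul_apply, Module.End.mul_apply, hf'0, map_smul, map_smul]
    conv_lhs => rw [hexp (z (b 1))]
    rw [map_add, map_smul, map_smul, hf0, hf1, smul_add, smul_smul, smul_smul, smul_smul,
      smul_smul, add_comm]
    congr 2
    · field_simp
    · ring
  have hAf1 : ∀ z : Module.End k V, (f * z * f') (b 1) =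
      (β⁻¹ * γ * b.repr (z (b 0)) 1) • b 0 + (b.repr (z (b 0)) 0) • b 1 := fun z => by
    rw [Module.End.mul_apply, Module.End.mul_apply, hf'1, map_smul, map_smul]
    conv_lhs => rw [hexp (z (b 0))]
    rw [map_add, map_smul, map_smul, hf0, hf1, smul_add, smul_smul, smul_smul, smul_smul,
      smul_smul, add_comm]
    congr 2
    · ring
    · field_simp
  refine ⟨(b.coord 0).comp (LinearMap.applyₗ (b 0)), (b.coord 0).comp (LinearMap.applyₗ (b 1)),
    (b.coord 1).comp (LinearMap.applyₗ (b 0)), ?_, ?_, ?_, ?_, ?_, ?_, ?_⟩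
  · intro z hz h1 hp hm
    simp only [LinearMap.comp_apply, LinearMap.applyₗ_apply_apply, Basis.coord_apply] at h1 hp hm
    have h2 : b.repr (z (b 1)) 1 = 0 := by
      have := htr z
      rw [hz, h1, zero_add] at this
      exact this.symm
    refine b.ext fun i => ?_
    fin_cases i
    · have := hexp (z (b 0))
      rw [h1, hm, zero_smul, zero_smul, add_zero] at this
      simpa using this
    · have := hexp (z (b 1))
      rw [hp, h2, zero_smul, zero_smul, add_zero] at this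
      simpa using this
  · intro z
    simp only [LinearMap.comp_apply, LinearMap.applyₗ_apply_apply, Basis.coord_apply]
    rw [hAt0, hrepr0]
  · intro z
    simp only [LinearMap.comp_apply, LinearMap.applyₗ_apply_apply, Basis.coord_apply]
    rw [hAt1, hrepr0]
    ring
  · intro z
    simp only [LinearMap.comp_apply, LinearMap.applyₗ_apply_apply, Basis.coord_apply]
    rw [hAt0, hrepr1, mul_inv, inv_inv]
  · intro z hz
    simp only [LinearMap.comp_apply, LinearMap.applyₗ_apply_apply, Basis.coord_apply]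
    rw [hAf0, hrepr0]
    have := htr z
    rw [hz] at this
    linear_combination -this
  · intro z
    simp only [LinearMap.comp_apply, LinearMap.applyₗ_apply_apply, Basis.coord_apply]
    rw [hAf1, hrepr0]
    ring
  · intro z
    simp only [LinearMap.comp_apply, LinearMap.applyₗ_apply_apply, Basis.coord_apply]
    rw [hAf0, hrepr1]
    ring

end LA

section Arith

/-- Arithmetic of the orders: if `n / gcd (n, p + 1) = p - 1` then `n = (p - 1) m` with
`m = n / gcd (n, p - 1)`, `m ∣ p + 1` and `(p + 1) / m` odd. -/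
theorem order_arith {p n : ℕ} (hp : p.Prime) (hp2 : p ≠ 2) (hn : 0 < n)
    (h1 : n / Nat.gcd n (p + 1) = p - 1) :
    n = (p - 1) * (n / Nat.gcd n (p - 1)) ∧ (n / Nat.gcd n (p - 1)) ∣ p + 1 ∧
      Odd ((p + 1) / (n / Nat.gcd n (p - 1))) := by
  have hp3 : 3 ≤ p := by
    have := hp.two_le
    omega
  have hpm : 0 < p - 1 := by omega
  set g := Nat.gcd n (p + 1) with hg
  have hgn : g ∣ n := Nat.gcd_dvd_left _ _
  have hgp : g ∣ p + 1 := Nat.gcd_dvd_right _ _
  have hg0 : 0 < g := Nat.gcd_pos_of_pos_left _ hn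
  have hn' : n = (p - 1) * g := by
    have := Nat.div_mul_cancel hgn
    rw [h1] at this
    exact this.symm
  have hgcd : Nat.gcd n (p - 1) = p - 1 := Nat.gcd_eq_right ⟨g, hn'⟩
  have hm : n / Nat.gcd n (p - 1) = g := by
    rw [hgcd, hn', Nat.mul_div_cancel_left _ hpm]
  rw [hm]
  refine ⟨hn', hgp, ?_⟩
  obtain ⟨c, hc⟩ := hgp
  have hcdiv : (p + 1) / g = c := by rw [hc, Nat.mul_div_cancel_left _ hg0]
  rw [hcdiv]
  have h2 : Nat.gcd (p - 1) c = 1 := by
    have h3 : g = g * Nat.gcd (p - 1) c := by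
      conv_lhs => rw [hg, hn', hc, mul_comm (p - 1) g, Nat.gcd_mul_left]
    have h4 : g * 1 = g * Nat.gcd (p - 1) c := by rw [mul_one]; exact h3
    exact (Nat.eq_of_mul_eq_mul_left hg0 h4).symm
  rw [← Nat.not_even_iff_odd]
  intro hce
  have hpe : Even (p - 1) := by
    rcases hp.eq_two_or_odd' with h | h
    · exact absurd h hp2
    · exact Nat.Odd.sub_odd h odd_one
  have : 2 ∣ Nat.gcd (p - 1) c := Nat.dvd_gcd hpe.two_dvd hce.two_dvd
  rw [h2] at this
  omega

/-- Order bookkeeping in a group: if `(x ^ (p + 1)) ^ j = 1 ↔ p - 1 ∣ j` for all `j`, then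
`ord x = (p - 1) m` where `m = ord (x * (x ^ p)⁻¹)`, `m ∣ p + 1`, `(p + 1) / m` is odd. -/
theorem order_shape {G : Type*} [CommGroup G] [Finite G] {p : ℕ} (hp : p.Prime) (hp2 : p ≠ 2)
    (x : G) (hdet : ∀ j : ℕ, (x ^ (p + 1)) ^ j = 1 ↔ p - 1 ∣ j) :
    orderOf x = (p - 1) * orderOf (x * (x ^ p)⁻¹) ∧ orderOf (x * (x ^ p)⁻¹) ∣ p + 1 ∧
      Odd ((p + 1) / orderOf (x * (x ^ p)⁻¹)) := by
  have hpm : p - 1 ≠ 0 := by
    have := hp.two_le
    omega
  have h1 : orderOf (x ^ (p + 1)) = p - 1 := by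
    apply Nat.dvd_antisymm
    · exact orderOf_dvd_of_pow_eq_one ((hdet (p - 1)).mpr dvd_rfl)
    · exact (hdet _).mp (pow_orderOf_eq_one _)
  have hn : 0 < orderOf x := orderOf_pos x
  rw [orderOf_pow' x (Nat.succ_ne_zero p)] at h1
  have h2 : orderOf (x * (x ^ p)⁻¹) = orderOf x / Nat.gcd (orderOf x) (p - 1) := by
    have e : x * (x ^ p)⁻¹ = (x ^ (p - 1))⁻¹ := by
      have hp1 : p = (p - 1) + 1 := by omega
      conv_lhs => rw [hp1, pow_succ, mul_inv, ← mul_assoc]
      rw [mul_comm x, mul_assoc, mul_inv_cancel, mul_one]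
    rw [e, orderOf_inv, orderOf_pow' x hpm]
  rw [h2]
  exact order_arith hp hp2 hn h1

end Arith

end Fermat.Agent.S56.H384

end
-- ===== PACK-END S56/H384/ShapeLA.lean

-- ===== PACK-BEGIN S56/H831/GWAbstract.lean
section


/-!
# Row S56, tangent bound (TB) — the abstract Greenberg–Wiles inequalities (helper831)

Pure linear algebra over a field `k`, Mathlib only.  No perfectness of any pairing is used, only
"reciprocity" (`B (loc x) (loc' y) = 0`).

* `perp B L` — the annihilator in `P'` of `L ≤ P` under a pairing `B : P → P' → k`.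
* `gw_abstract` — for `loc : H → P`, `loc' : H' → P'` with `B (loc x) (loc' y) = 0`:
  `dim loc⁻¹(L) + dim H' ≤ dim ker loc + dim L + dim loc'⁻¹(L^⊥)`.
  (Selmer group `loc⁻¹ L`, dual Selmer group `loc'⁻¹ (L^⊥)`, `ker loc = Ш¹`.)
* `comparison_abstract` — for `u : X → U` and an injective `lam : D → Dual U` with
  `lam d (u x) = 0`:  `dim X + dim D ≤ dim ker u + dim U`.
  (`X = t_Q`, `ker u = t_∅`, `U = ⊕_{q ∈ Q} H¹(G_q)/H¹_ur`, `D` = dual Selmer frame killed by `Q`.)
* `tangent_le_card` — the bookkeeping: `dim X₀ ≤ dim D`, `dim U ≤ n` ⟹ `dim X ≤ n`.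
-/

set_option autoImplicit false

open Module

namespace Fermat.Agent.S56.H831

variable {k : Type*} [Field k]

section Perp

variable {P P' : Type*} [AddCommGroup P] [Module k P] [AddCommGroup P'] [Module k P']

/-- The annihilator in `P'` of a subspace `L ≤ P` under the pairing `B`. -/
def perp (B : P →ₗ[k] P' →ₗ[k] k) (L : Submodule k P) : Submodule k P' where
  carrier := {y | ∀ x ∈ L, B x y = 0}
  add_mem' := fun {a b} ha hb x hx => by
    rw [map_add, ha x hx, hb x hx, add_zero]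
  zero_mem' := fun x _ => by rw [map_zero]
  smul_mem' := fun c y hy x hx => by
    rw [map_smul, hy x hx, smul_zero]

@[simp] theorem mem_perp {B : P →ₗ[k] P' →ₗ[k] k} {L : Submodule k P} {y : P'} :
    y ∈ perp B L ↔ ∀ x ∈ L, B x y = 0 := Iff.rfl

theorem perp_antitone (B : P →ₗ[k] P' →ₗ[k] k) {L L' : Submodule k P} (h : L ≤ L') :
    perp B L' ≤ perp B L := fun _ hy x hx => hy x (h hx)

end Perp

section GW

variable {H H' P P' : Type*} [AddCommGroup H] [Module k H] [AddCommGroup H'] [Module k H']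
  [AddCommGroup P] [Module k P] [AddCommGroup P'] [Module k P']

/-- The restriction-and-pair map `H' → Dual L`, `y ↦ (x ↦ B x (loc' y))`. -/
def pairRestrict (B : P →ₗ[k] P' →ₗ[k] k) (loc' : H' →ₗ[k] P') (L : Submodule k P) :
    H' →ₗ[k] Dual k L where
  toFun y := (B.flip (loc' y)).comp L.subtype
  map_add' a b := by
    ext x
    simp
  map_smul' c a := by
    ext x
    simp

@[simp] theorem pairRestrict_apply (B : P →ₗ[k] P' →ₗ[k] k) (loc' : H' →ₗ[k] P')
    (L : Submodule k P) (y : H') (x : L) :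
    pairRestrict B loc' L y x = B (x : P) (loc' y) := rfl

theorem ker_pairRestrict (B : P →ₗ[k] P' →ₗ[k] k) (loc' : H' →ₗ[k] P') (L : Submodule k P) :
    LinearMap.ker (pairRestrict B loc' L) = (perp B L).comap loc' := by
  ext y
  simp only [LinearMap.mem_ker, Submodule.mem_comap, mem_perp]
  constructor
  · intro h x hx
    have := LinearMap.congr_fun h ⟨x, hx⟩
    simpa using this
  · intro h
    ext x
    simpa using h x x.2

/-- A space with finite-dimensional kernel and range is finite-dimensional. -/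
theorem finiteDimensional_of_ker_range {X Y : Type*} [AddCommGroup X] [Module k X]
    [AddCommGroup Y] [Module k Y] (f : X →ₗ[k] Y) [FiniteDimensional k (LinearMap.ker f)]
    [FiniteDimensional k (LinearMap.range f)] : FiniteDimensional k X := by
  have : Module.Finite k (X ⧸ LinearMap.ker f) :=
    Module.Finite.equiv f.quotKerEquivRange.symm
  exact Module.Finite.of_submodule_quotient (LinearMap.ker f)

/-- **Abstract Greenberg–Wiles inequality** (reciprocity only, no perfectness):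
`dim loc⁻¹(L) + dim H' ≤ dim ker loc + dim L + dim loc'⁻¹(L^⊥)`. -/
theorem gw_abstract [FiniteDimensional k H']
    (loc : H →ₗ[k] P) (loc' : H' →ₗ[k] P') (B : P →ₗ[k] P' →ₗ[k] k)
    (hrec : ∀ x y, B (loc x) (loc' y) = 0)
    (L : Submodule k P) [FiniteDimensional k L] [FiniteDimensional k (LinearMap.ker loc)] :
    finrank k (L.comap loc) + finrank k H'
      ≤ finrank k (LinearMap.ker loc) + finrank k L + finrank k ((perp B L).comap loc') := by
  classical
  -- the restriction of `loc` to the Selmer group, with values in `L`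
  let f : L.comap loc →ₗ[k] L := loc.restrict (p := L.comap loc) (q := L) (fun x hx => hx)
  have hf : ∀ x : L.comap loc, ((f x : L) : P) = loc (x : H) := fun x => rfl
  -- its kernel injects into `ker loc`
  have hmem : ∀ x : LinearMap.ker f, ((x : L.comap loc) : H) ∈ LinearMap.ker loc := by
    intro x
    have hx : f (x : L.comap loc) = 0 := x.2
    have h2 := congrArg (Subtype.val : L → P) hx
    rw [hf] at h2
    rw [LinearMap.mem_ker, h2]
    rfl
  let e : LinearMap.ker f →ₗ[k] LinearMap.ker loc :=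
    { toFun := fun x => ⟨((x : L.comap loc) : H), hmem x⟩
      map_add' := fun a b => rfl
      map_smul' := fun c a => rfl }
  have he : Function.Injective e := by
    intro a b hab
    have h2 : (((a : L.comap loc) : H)) = (((b : L.comap loc) : H)) :=
      congrArg (Subtype.val : LinearMap.ker loc → H) hab
    exact Subtype.ext (Subtype.ext h2)
  have hker : finrank k (LinearMap.ker f) ≤ finrank k (LinearMap.ker loc) :=
    LinearMap.finrank_le_finrank_of_injective he
  have hfin1 : FiniteDimensional k (LinearMap.ker f) := FiniteDimensional.of_injective e he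
  have hfin2 : FiniteDimensional k (L.comap loc) := finiteDimensional_of_ker_range f
  have hrn : finrank k (LinearMap.range f) + finrank k (LinearMap.ker f)
      = finrank k (L.comap loc) := LinearMap.finrank_range_add_finrank_ker f
  -- the pairing map `ψ : H' → Dual L`
  let ψ : H' →ₗ[k] Dual k L := pairRestrict B loc' L
  have hψ : finrank k (LinearMap.range ψ) + finrank k (LinearMap.ker ψ) = finrank k H' :=
    LinearMap.finrank_range_add_finrank_ker ψ
  have hkerψ : finrank k (LinearMap.ker ψ) = finrank k ((perp B L).comap loc') := by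
    rw [ker_pairRestrict]
  -- `range ψ` annihilates `range f`
  have hle : LinearMap.range ψ ≤ (LinearMap.range f).dualAnnihilator := by
    rintro _ ⟨y, rfl⟩
    rw [Submodule.mem_dualAnnihilator]
    rintro _ ⟨x, rfl⟩
    change B ((f x : L) : P) (loc' y) = 0
    rw [hf]
    exact hrec _ _
  have hann : finrank k (LinearMap.range f) + finrank k (LinearMap.range f).dualAnnihilator
      = finrank k L := Subspace.finrank_add_finrank_dualAnnihilator_eq _
  have hmono : finrank k (LinearMap.range ψ) ≤ finrank k (LinearMap.range f).dualAnnihilator :=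
    Submodule.finrank_mono hle
  omega

/-- The minimal Greenberg–Wiles inequality from the base case
`dim ker loc + dim L ≤ dim H'`: `dim loc⁻¹(L) ≤ dim loc'⁻¹(L^⊥)`. -/
theorem gw_min_abstract [FiniteDimensional k H']
    (loc : H →ₗ[k] P) (loc' : H' →ₗ[k] P') (B : P →ₗ[k] P' →ₗ[k] k)
    (hrec : ∀ x y, B (loc x) (loc' y) = 0)
    (L : Submodule k P) [FiniteDimensional k L] [FiniteDimensional k (LinearMap.ker loc)]
    (hbase : finrank k (LinearMap.ker loc) + finrank k L ≤ finrank k H') :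
    finrank k (L.comap loc) ≤ finrank k ((perp B L).comap loc') := by
  have := gw_abstract loc loc' B hrec L
  omega

end GW

section Comparison

variable {X U D : Type*} [AddCommGroup X] [Module k X] [AddCommGroup U] [Module k U]
  [AddCommGroup D] [Module k D]

/-- **Abstract comparison step**: if `u : X → U` and the injective `lam : D → Dual U` satisfy
`lam d (u x) = 0`, then `dim X + dim D ≤ dim ker u + dim U`. -/
theorem comparison_abstract [FiniteDimensional k U]
    (u : X →ₗ[k] U) (lam : D →ₗ[k] Dual k U) (hlam : Function.Injective lam)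
    (hrec : ∀ d x, lam d (u x) = 0) [FiniteDimensional k (LinearMap.ker u)] :
    finrank k X + finrank k D ≤ finrank k (LinearMap.ker u) + finrank k U := by
  classical
  have hfinX : FiniteDimensional k X := finiteDimensional_of_ker_range u
  have hrn : finrank k (LinearMap.range u) + finrank k (LinearMap.ker u) = finrank k X :=
    LinearMap.finrank_range_add_finrank_ker u
  have hfinD : FiniteDimensional k D := FiniteDimensional.of_injective lam hlam
  have hD : finrank k (LinearMap.range lam) = finrank k D :=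
    LinearMap.finrank_range_of_inj hlam
  have hle : LinearMap.range lam ≤ (LinearMap.range u).dualAnnihilator := by
    rintro _ ⟨d, rfl⟩
    rw [Submodule.mem_dualAnnihilator]
    rintro _ ⟨x, rfl⟩
    exact hrec d x
  have hann : finrank k (LinearMap.range u) + finrank k (LinearMap.range u).dualAnnihilator
      = finrank k U := Subspace.finrank_add_finrank_dualAnnihilator_eq _
  have hmono : finrank k (LinearMap.range lam) ≤ finrank k (LinearMap.range u).dualAnnihilator :=
    Submodule.finrank_mono hle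
  omega

/-- Bookkeeping for the tangent bound: comparison + minimal inequality + `dim U ≤ n`. -/
theorem tangent_le_card [FiniteDimensional k U]
    (u : X →ₗ[k] U) (lam : D →ₗ[k] Dual k U) (hlam : Function.Injective lam)
    (hrec : ∀ d x, lam d (u x) = 0) [FiniteDimensional k (LinearMap.ker u)]
    (hmin : finrank k (LinearMap.ker u) ≤ finrank k D) {n : ℕ} (hU : finrank k U ≤ n) :
    finrank k X ≤ n := by
  have := comparison_abstract u lam hlam hrec
  omega

end Comparison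

end Fermat.Agent.S56.H831


end
-- ===== PACK-END S56/H831/GWAbstract.lean

-- ===== PACK-BEGIN S55/PT/Levels.lean
section



/-!
# S55 / PT layer, part 1: level systems and level-constant ("smooth") cohomology in degrees 0,1,2

A `LevelSys G` is a nonempty directed family of subgroups of `G` (the "open" subgroups we allow).
Level-constant cochains are defined EXACTLY as in the Prelude (`IsLevelConstantS₁` etc.):
right-invariance under some level.  Two instances:

* `globalLevels S` on `G_ℚ`  : the subgroups `G_F`, `F/ℚ` finite unramified outside `S`;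
* `localLevels q`  on `G_{ℚ_q}` : the subgroups `r_q⁻¹(G_F)`, `F/ℚ` finite.

All definitions are cochain-level and elementary; the cohomology groups are quotients of
submodules of function spaces.
-/

set_option autoImplicit false
set_option linter.style.haveILetI false

noncomputable section

namespace Fermat.Agent.S55.PT

open groupCohomology ExtCitation

/-- The absolute Galois group of `ℚ` as an abstract group (as in the Prelude). -/
abbrev GQ : Type := AlgebraicClosure ℚ ≃ₐ[ℚ] AlgebraicClosure ℚ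

/-- The local Galois group at `q` used by the Prelude. -/
abbrev Gl (q : Nat.Primes) : Type := primeLocalGaloisGroup q

/-- The Prelude's homomorphism `G_{ℚ_q} → G_ℚ`. -/
abbrev rl (q : Nat.Primes) : Gl q →* GQ := primeLocalToGlobal q

/-- A nonempty directed family of subgroups. -/
structure LevelSys (G : Type) [Group G] where
  /-- the allowed levels -/
  levels : Set (Subgroup G)
  nonempty : levels.Nonempty
  directed : ∀ U ∈ levels, ∀ V ∈ levels, ∃ W ∈ levels, W ≤ U ⊓ V

namespace LevelSys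

variable {G : Type} [Group G] (L : LevelSys G)

/-- Normal levels are cofinal (true for both Prelude level systems: leaf D-F7). -/
def NormalCofinal : Prop := ∀ U ∈ L.levels, ∃ V ∈ L.levels, V ≤ U ∧ V.Normal

/-- All levels have finite index (true for both Prelude level systems: leaf D-F7). -/
def FiniteIndex : Prop := ∀ U ∈ L.levels, U.FiniteIndex

/-- Level-constant 1-cochains. -/
def IsLC₁ {X : Type*} (f : G → X) : Prop :=
  ∃ U ∈ L.levels, ∀ g s : G, s ∈ U → f (g * s) = f g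

/-- Level-constant 2-cochains. -/
def IsLC₂ {X : Type*} (f : G × G → X) : Prop :=
  ∃ U ∈ L.levels, ∀ g g' s s' : G, s ∈ U → s' ∈ U → f (g * s, g' * s') = f (g, g')

variable {L}

lemma IsLC₁.add {X : Type*} [Add X] {f f' : G → X} (hf : L.IsLC₁ f) (hf' : L.IsLC₁ f') :
    L.IsLC₁ (f + f') := by
  obtain ⟨U, hU, h⟩ := hf
  obtain ⟨V, hV, h'⟩ := hf'
  obtain ⟨W, hW, hle⟩ := L.directed U hU V hV
  refine ⟨W, hW, fun g s hs => ?_⟩
  simp only [Pi.add_apply]
  rw [h g s (hle hs).1, h' g s (hle hs).2]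

lemma IsLC₂.add {X : Type*} [Add X] {f f' : G × G → X} (hf : L.IsLC₂ f) (hf' : L.IsLC₂ f') :
    L.IsLC₂ (f + f') := by
  obtain ⟨U, hU, h⟩ := hf
  obtain ⟨V, hV, h'⟩ := hf'
  obtain ⟨W, hW, hle⟩ := L.directed U hU V hV
  refine ⟨W, hW, fun g g' s s' hs hs' => ?_⟩
  simp only [Pi.add_apply]
  rw [h g g' s s' (hle hs).1 (hle hs').1, h' g g' s s' (hle hs).2 (hle hs').2]

lemma IsLC₁.comp {X Y : Type*} {f : G → X} (hf : L.IsLC₁ f) (φ : X → Y) : L.IsLC₁ (φ ∘ f) := by
  obtain ⟨U, hU, h⟩ := hf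
  exact ⟨U, hU, fun g s hs => by simp only [Function.comp_apply, h g s hs]⟩

lemma IsLC₂.comp {X Y : Type*} {f : G × G → X} (hf : L.IsLC₂ f) (φ : X → Y) :
    L.IsLC₂ (φ ∘ f) := by
  obtain ⟨U, hU, h⟩ := hf
  exact ⟨U, hU, fun g g' s s' hs hs' => by simp only [Function.comp_apply, h g g' s s' hs hs']⟩

variable (L)

lemma isLC₁_const {X : Type*} (x : X) : L.IsLC₁ (fun _ : G => x) := by
  obtain ⟨U, hU⟩ := L.nonempty
  exact ⟨U, hU, fun _ _ _ => rfl⟩

lemma isLC₂_const {X : Type*} (x : X) : L.IsLC₂ (fun _ : G × G => x) := by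
  obtain ⟨U, hU⟩ := L.nonempty
  exact ⟨U, hU, fun _ _ _ _ _ _ => rfl⟩

variable {k : Type} [CommRing k] (A : Rep.{0, 0, 0} k G)

/-- A representation is smooth for `L` if every vector is fixed by some level. -/
def IsSmooth : Prop := ∀ a : A, ∃ U ∈ L.levels, ∀ s ∈ U, A.ρ s a = a

/-- A representation is uniformly smooth for `L` if some level acts trivially. -/
def IsUSmooth : Prop := ∃ U ∈ L.levels, ∀ s ∈ U, ∀ a : A, A.ρ s a = a

/-- Level-constant 1-cochains, as a submodule. -/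
def C1 : Submodule k (G → A) where
  carrier := {f | L.IsLC₁ f}
  add_mem' hf hf' := hf.add hf'
  zero_mem' := L.isLC₁_const (0 : A)
  smul_mem' c _ hf := hf.comp (c • ·)

/-- Level-constant 2-cochains, as a submodule. -/
def C2 : Submodule k (G × G → A) where
  carrier := {f | L.IsLC₂ f}
  add_mem' hf hf' := hf.add hf'
  zero_mem' := L.isLC₂_const (0 : A)
  smul_mem' c _ hf := hf.comp (c • ·)

lemma mem_C1_iff (f : G → A) : f ∈ L.C1 A ↔ L.IsLC₁ f := Iff.rfl
lemma mem_C2_iff (f : G × G → A) : f ∈ L.C2 A ↔ L.IsLC₂ f := Iff.rfl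

/-- Level-constant 1-cocycles. -/
def Z1 : Submodule k (G → A) := cocycles₁ A ⊓ L.C1 A

/-- 1-coboundaries (automatically level-constant when `A` is smooth). -/
def B1 : Submodule k (G → A) := LinearMap.range (d₀₁ A).hom

/-- Level-constant 2-cocycles. -/
def Z2 : Submodule k (G × G → A) := cocycles₂ A ⊓ L.C2 A

/-- Level-constant 2-coboundaries: `d` of a level-constant 1-cochain. -/
def B2 : Submodule k (G × G → A) := (L.C1 A).map (d₁₂ A).hom

/-- `H⁰`: the invariants. -/
abbrev H0 : Submodule k A := A.ρ.invariants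

/-- Level-constant `H¹`. -/
def H1 : Type := ↥(L.Z1 A) ⧸ (B1 A).comap (L.Z1 A).subtype

instance : AddCommGroup (L.H1 A) :=
  inferInstanceAs (AddCommGroup (↥(L.Z1 A) ⧸ (B1 A).comap (L.Z1 A).subtype))

instance : Module k (L.H1 A) :=
  inferInstanceAs (Module k (↥(L.Z1 A) ⧸ (B1 A).comap (L.Z1 A).subtype))

/-- Level-constant `H²`. -/
def H2 : Type := ↥(L.Z2 A) ⧸ (L.B2 A).comap (L.Z2 A).subtype

instance : AddCommGroup (L.H2 A) :=
  inferInstanceAs (AddCommGroup (↥(L.Z2 A) ⧸ (L.B2 A).comap (L.Z2 A).subtype))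

instance : Module k (L.H2 A) :=
  inferInstanceAs (Module k (↥(L.Z2 A) ⧸ (L.B2 A).comap (L.Z2 A).subtype))

/-- The class of a level-constant 1-cocycle. -/
def H1π : ↥(L.Z1 A) →ₗ[k] L.H1 A := Submodule.mkQ ((B1 A).comap (L.Z1 A).subtype)

/-- The class of a level-constant 2-cocycle. -/
def H2π : ↥(L.Z2 A) →ₗ[k] L.H2 A := Submodule.mkQ ((L.B2 A).comap (L.Z2 A).subtype)

lemma H1π_surjective : Function.Surjective (L.H1π A) :=
  Submodule.mkQ_surjective _

lemma H2π_surjective : Function.Surjective (L.H2π A) :=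
  Submodule.mkQ_surjective _

lemma H1π_eq_zero_iff (c : ↥(L.Z1 A)) : L.H1π A c = 0 ↔ (c : G → A) ∈ B1 A := by
  show Submodule.mkQ ((B1 A).comap (L.Z1 A).subtype) c = 0 ↔ _
  simp [Submodule.Quotient.mk_eq_zero, Submodule.mem_comap]

lemma H2π_eq_zero_iff (c : ↥(L.Z2 A)) : L.H2π A c = 0 ↔ (c : G × G → A) ∈ L.B2 A := by
  show Submodule.mkQ ((L.B2 A).comap (L.Z2 A).subtype) c = 0 ↔ _
  simp [Submodule.Quotient.mk_eq_zero, Submodule.mem_comap]

lemma ker_H1π : LinearMap.ker (L.H1π A) = (B1 A).comap (L.Z1 A).subtype :=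
  Submodule.ker_mkQ _

lemma ker_H2π : LinearMap.ker (L.H2π A) = (L.B2 A).comap (L.Z2 A).subtype :=
  Submodule.ker_mkQ _

end LevelSys

/-! ### The two level systems of the Prelude -/

/-- Global levels: `G_F` for `F/ℚ` finite, unramified outside `S`. -/
def globalLevels (S : Finset Nat.Primes) : LevelSys GQ where
  levels := {U | ∃ F : IntermediateField ℚ (AlgebraicClosure ℚ),
    F.IsUnramifiedOutside S ∧ U = F.fixingSubgroup}
  nonempty := ⟨_, ⊥, IntermediateField.isUnramifiedOutside_bot S, rfl⟩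
  directed := by
    rintro U ⟨F, hF, rfl⟩ V ⟨F', hF', rfl⟩
    refine ⟨_, ⟨F ⊔ F', hF.sup hF', rfl⟩, ?_⟩
    rw [IntermediateField.fixingSubgroup_sup]

/-- Local levels: `r⁻¹(G_F)` for `F/ℚ` finite, for any group `G` with a map `r : G → G_ℚ`. -/
def pullbackLevels {G : Type} [Group G] (r : G →* GQ) : LevelSys G where
  levels := {U | ∃ F : IntermediateField ℚ (AlgebraicClosure ℚ),
    FiniteDimensional ℚ F ∧ U = F.fixingSubgroup.comap r}
  nonempty := ⟨_, ⊥, inferInstance, rfl⟩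
  directed := by
    rintro U ⟨F, hF, rfl⟩ V ⟨F', hF', rfl⟩
    haveI := hF; haveI := hF'
    refine ⟨_, ⟨F ⊔ F', inferInstance, rfl⟩, ?_⟩
    rw [IntermediateField.fixingSubgroup_sup, Subgroup.comap_inf]

/-- Local levels at `q`. -/
abbrev localLevels (q : Nat.Primes) : LevelSys (Gl q) := pullbackLevels (rl q)

lemma isLC₁_globalLevels_iff (S : Finset Nat.Primes) {X : Type*} (f : GQ → X) :
    (globalLevels S).IsLC₁ f ↔ IsLevelConstantS₁ S f := by
  constructor
  · rintro ⟨U, ⟨F, hF, rfl⟩, h⟩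
    exact ⟨F, hF, h⟩
  · rintro ⟨F, hF, h⟩
    exact ⟨_, ⟨F, hF, rfl⟩, h⟩

lemma isLC₂_globalLevels_iff (S : Finset Nat.Primes) {X : Type*} (f : GQ × GQ → X) :
    (globalLevels S).IsLC₂ f ↔ IsLevelConstantS₂ S f := by
  constructor
  · rintro ⟨U, ⟨F, hF, rfl⟩, h⟩
    exact ⟨F, hF, h⟩
  · rintro ⟨F, hF, h⟩
    exact ⟨_, ⟨F, hF, rfl⟩, h⟩

lemma isLC₁_pullbackLevels_iff {G : Type} [Group G] (r : G →* GQ) {X : Type*} (f : G → X) :
    (pullbackLevels r).IsLC₁ f ↔ IsLevelConstant₁ r f := by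
  constructor
  · rintro ⟨U, ⟨F, hF, rfl⟩, h⟩
    exact ⟨F, hF, fun g s hs => h g s hs⟩
  · rintro ⟨F, hF, h⟩
    exact ⟨_, ⟨F, hF, rfl⟩, fun g s hs => h g s hs⟩

lemma isLC₂_pullbackLevels_iff {G : Type} [Group G] (r : G →* GQ) {X : Type*} (f : G × G → X) :
    (pullbackLevels r).IsLC₂ f ↔ IsLevelConstant₂ r f := by
  constructor
  · rintro ⟨U, ⟨F, hF, rfl⟩, h⟩
    exact ⟨F, hF, fun g g' s s' hs hs' => h g g' s s' hs hs'⟩
  · rintro ⟨F, hF, h⟩
    exact ⟨_, ⟨F, hF, rfl⟩, fun g g' s s' hs hs' => h g g' s s' hs hs'⟩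

end Fermat.Agent.S55.PT

end

end
-- ===== PACK-END S55/PT/Levels.lean

-- ===== PACK-BEGIN S55/Inv/WrH413/Coeff.lean
section


/-!
# S55 / INV-WR (helper413), part 1: change of group and of coefficients at cochain level

`pp₁`, `pp₂` : pull back cochains along a group homomorphism `f : G' → G` and push them forward
along an additive map `κ : A → B` which is equivariant (`κ (f g • a) = g • κ a`); the coefficient
RINGS of `A` and `B` may differ (e.g. `ZMod p` and `ℤ`).
-/

set_option autoImplicit false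

namespace Fermat.Agent.S55.Inv.H413

open groupCohomology

section

variable {k k' : Type} [CommRing k] [CommRing k'] {G G' : Type} [Group G] [Group G']
  (A : Rep.{0, 0, 0} k G) (B : Rep.{0, 0, 0} k' G') (f : G' →* G) (κ : A →+ B)

/-- pull–push of 1-cochains -/
def pp₁ (b : G → A) : G' → B := fun x => κ (b (f x))

/-- pull–push of 2-cochains -/
def pp₂ (c : G × G → A) : G' × G' → B := fun x => κ (c (f x.1, f x.2))

@[simp] lemma pp₁_apply (b : G → A) (x : G') : pp₁ A B f κ b x = κ (b (f x)) := rfl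

@[simp] lemma pp₂_apply (c : G × G → A) (x y : G') :
    pp₂ A B f κ c (x, y) = κ (c (f x, f y)) := rfl

variable (hκ : ∀ (g : G') (a : A), κ (A.ρ (f g) a) = B.ρ g (κ a))

include hκ in
lemma pp₂_mem_cocycles₂ {c : G × G → A} (hc : c ∈ cocycles₂ A) :
    pp₂ A B f κ c ∈ cocycles₂ B := by
  rw [mem_cocycles₂_iff] at hc ⊢
  intro g h j
  simp only [pp₂_apply, map_mul]
  rw [← map_add, hc (f g) (f h) (f j), map_add, hκ]

include hκ in
lemma pp_d₁₂ (b : G → A) :
    (d₁₂ B).hom (pp₁ A B f κ b) = pp₂ A B f κ ((d₁₂ A).hom b) := by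
  funext ⟨g, h⟩
  simp only [d₁₂_hom_apply, pp₁_apply, pp₂_apply, map_mul, map_add, map_sub, hκ]

end

end Fermat.Agent.S55.Inv.H413

end
-- ===== PACK-END S55/Inv/WrH413/Coeff.lean

-- ===== PACK-BEGIN S55/G/Rec/StepAAlgH511.lean
section


/-!
# S55 / layer G / block REC / STEP A : Mathlib-only algebra (helper511)

* `H511.chi_eq_one_of_mem_range` : a character `χ` (odd order) which is trivial on `ker c` is trivial
  on every element whose `c`-value is `± c κ`, `κ ∈ ker χ`.
* `H511.addCircle_sum_eq_zero` : `∑ kᵢ • xᵢ = 0` in `ℤ/n` ⟹ `∑ kᵢ · val xᵢ / n = 0` in `ℚ/ℤ`.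
* `H511.norm_prod_sub_prod_le` : ultrametric estimate for products.
* `H511.unit_prod_eq_pm` : `y ∈ ℚˣ` with `y ≡ ± ℓ^K · P mod ℓ^(K+e)` ⟹
  `∏_{q ≠ ℓ} q ^ v_q(y) = ± P` in `(ℤ/ℓ^e)ˣ`.
-/

set_option autoImplicit false
set_option linter.style.haveILetI false

namespace Fermat.Agent.S55.G.Rec.H511

/-! ## Characters -/

lemma zmod_eq_zero_of_add_self {n : ℕ} (hn : Odd n) (x : ZMod n) (h : x + x = 0) : x = 0 := by
  obtain ⟨j, hj⟩ := hn
  have h1 : (n : ℕ) • x = 0 := by
    rw [nsmul_eq_mul, ZMod.natCast_self, zero_mul]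
  have h2 : ∀ k : ℕ, k = 2 * j + 1 → k • x = j • (x + x) + x := by
    intro k hk
    rw [hk, add_smul, one_smul, mul_comm, mul_smul, two_smul]
  rw [h2 n hj, h, smul_zero, zero_add] at h1
  exact h1

theorem chi_eq_one_of_mem_range {U C : Type*} [Group U] [CommGroup C] {n : ℕ} (hn : Odd n)
    (c : U →* C) (χ : U →* Multiplicative (ZMod n)) (hcyc : ∀ σ, c σ = 1 → χ σ = 1)
    {t : C} {w : Multiplicative (ZMod n)} (hmem : (t, w) ∈ (c.prod χ).range)
    (ε : C) (hε : ε * ε = 1) (κ : U) (hκ : χ κ = 1) (ht : t = c κ ∨ t = ε * c κ) : w = 1 := by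
  obtain ⟨σ, hσ⟩ := hmem
  have h1 : c σ = t := congrArg Prod.fst hσ
  have h2 : χ σ = w := congrArg Prod.snd hσ
  have h3 : c (σ * σ * (κ⁻¹ * κ⁻¹)) = 1 := by
    simp only [map_mul, map_inv, h1]
    rcases ht with ht | ht
    · rw [ht]; group
    · rw [ht]
      calc ε * c κ * (ε * c κ) * ((c κ)⁻¹ * (c κ)⁻¹) = (ε * ε) * (c κ * (c κ)⁻¹) * (c κ * (c κ)⁻¹) := by
            simp only [mul_comm, mul_left_comm, mul_assoc]
        _ = 1 := by rw [hε, mul_inv_cancel, one_mul, one_mul]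
  have h4 := hcyc _ h3
  simp only [map_mul, map_inv, h2, hκ, inv_one, mul_one] at h4
  have h5 : Multiplicative.toAdd w + Multiplicative.toAdd w = 0 := by
    have := congrArg Multiplicative.toAdd h4
    simpa using this
  have h6 := zmod_eq_zero_of_add_self hn _ h5
  exact Multiplicative.toAdd.injective h6

/-! ## Sums in `ℚ/ℤ` -/

lemma addCircle_sum_eq_zero {ι : Type*} (s : Finset ι) (n : ℕ) [NeZero n] (k : ι → ℤ)
    (x : ι → ZMod n) (h : ∑ i ∈ s, k i • x i = 0) :
    ∑ i ∈ s, ((((k i : ℚ) * (((x i).val : ℕ) : ℚ) / (n : ℚ) : ℚ)) : AddCircle (1 : ℚ)) = 0 := by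
  have hn : (n : ℚ) ≠ 0 := Nat.cast_ne_zero.mpr (NeZero.ne n)
  set J : ℤ := ∑ i ∈ s, k i * ((x i).val : ℤ) with hJ
  have hJ0 : ((J : ℤ) : ZMod n) = 0 := by
    rw [hJ, Int.cast_sum, ← h]
    refine Finset.sum_congr rfl fun i _ => ?_
    rw [Int.cast_mul, Int.cast_natCast, ZMod.natCast_val, ZMod.cast_id', id, zsmul_eq_mul]
  obtain ⟨t, ht⟩ := (ZMod.intCast_zmod_eq_zero_iff_dvd J n).mp hJ0
  have hsum : ∑ i ∈ s, ((k i : ℚ) * (((x i).val : ℕ) : ℚ) / (n : ℚ) : ℚ) = (t : ℚ) := by
    rw [← Finset.sum_div]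
    have : (∑ i ∈ s, (k i : ℚ) * (((x i).val : ℕ) : ℚ)) = ((J : ℤ) : ℚ) := by
      rw [hJ]; push_cast; rfl
    rw [this, ht]
    push_cast
    field_simp
  have hcoe : ∑ i ∈ s, ((((k i : ℚ) * (((x i).val : ℕ) : ℚ) / (n : ℚ) : ℚ)) : AddCircle (1 : ℚ))
      = ((∑ i ∈ s, ((k i : ℚ) * (((x i).val : ℕ) : ℚ) / (n : ℚ) : ℚ) : ℚ) : AddCircle (1 : ℚ)) :=
    (map_sum (QuotientAddGroup.mk' (AddSubgroup.zmultiples (1 : ℚ))) _ s).symm
  rw [hcoe, hsum]
  exact (AddCircle.coe_eq_zero_iff (p := (1 : ℚ))).mpr ⟨t, by simp⟩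

/-! ## Ultrametric product estimate -/

lemma norm_prod_sub_prod_le {𝕜 ι : Type*} [NormedField 𝕜] [IsUltrametricDist 𝕜]
    (s : Finset ι) (x y : ι → 𝕜) (ε : ℝ) (hε0 : 0 ≤ ε) (hε : ε ≤ 1)
    (h : ∀ i ∈ s, ‖x i - y i‖ ≤ ε * ‖y i‖) :
    ‖∏ i ∈ s, x i‖ ≤ ∏ i ∈ s, ‖y i‖ ∧
      ‖∏ i ∈ s, x i - ∏ i ∈ s, y i‖ ≤ ε * ∏ i ∈ s, ‖y i‖ := by
  classical
  induction s using Finset.induction_on with
  | empty => simp [hε0]
  | insert a s ha ih =>
    obtain ⟨ih1, ih2⟩ := ih fun i hi => h i (Finset.mem_insert_of_mem hi)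
    have hxa : ‖x a‖ ≤ ‖y a‖ := by
      have h1 : x a = (x a - y a) + y a := by ring
      rw [h1]
      refine (IsUltrametricDist.norm_add_le_max _ _).trans (max_le ?_ le_rfl)
      refine (h a (Finset.mem_insert_self a s)).trans ?_
      exact mul_le_of_le_one_left (norm_nonneg _) hε
    have hY : 0 ≤ ∏ i ∈ s, ‖y i‖ := Finset.prod_nonneg fun i _ => norm_nonneg _
    rw [Finset.prod_insert ha, Finset.prod_insert ha, Finset.prod_insert ha]
    refine ⟨?_, ?_⟩
    · rw [norm_mul]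
      exact mul_le_mul hxa ih1 (norm_nonneg _) (norm_nonneg _)
    · have h1 : x a * ∏ i ∈ s, x i - y a * ∏ i ∈ s, y i =
          (x a - y a) * ∏ i ∈ s, x i + y a * (∏ i ∈ s, x i - ∏ i ∈ s, y i) := by ring
      rw [h1]
      refine (IsUltrametricDist.norm_add_le_max _ _).trans (max_le ?_ ?_)
      · rw [norm_mul]
        calc ‖x a - y a‖ * ‖∏ i ∈ s, x i‖ ≤ (ε * ‖y a‖) * ∏ i ∈ s, ‖y i‖ :=
              mul_le_mul (h a (Finset.mem_insert_self a s)) ih1 (norm_nonneg _)
                (mul_nonneg hε0 (norm_nonneg _))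
          _ = ε * (‖y a‖ * ∏ i ∈ s, ‖y i‖) := by ring
      · rw [norm_mul]
        calc ‖y a‖ * ‖∏ i ∈ s, x i - ∏ i ∈ s, y i‖ ≤ ‖y a‖ * (ε * ∏ i ∈ s, ‖y i‖) :=
              mul_le_mul_of_nonneg_left ih2 (norm_nonneg _)
          _ = ε * (‖y a‖ * ∏ i ∈ s, ‖y i‖) := by ring

/-! ## Rational numbers modulo `ℓ ^ e` -/

lemma coe_prod_pow_padicValNat {m : ℕ} (u : ℕ → (ZMod m)ˣ) (T : Finset ℕ)
    (hTp : ∀ q ∈ T, q.Prime)
    (hu : ∀ q ∈ T, ((u q : (ZMod m)ˣ) : ZMod m) = (q : ZMod m))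
    (A : ℕ) (hA : A ≠ 0) (hprimes : ∀ q, q.Prime → q ∣ A → q ∈ T) :
    ((∏ q ∈ T, u q ^ padicValNat q A : (ZMod m)ˣ) : ZMod m) = (A : ZMod m) := by
  have h1 : ∏ q ∈ T, q ^ padicValNat q A = A := by
    have h2 : ∏ q ∈ A.primeFactors, q ^ A.factorization q = A := by
      rw [← Nat.prod_factorization_eq_prod_primeFactors (fun p k => p ^ k)]
      exact Nat.factorization_prod_pow_eq_self hA
    have hsub : A.primeFactors ⊆ T := fun q hq =>
      hprimes q (Nat.prime_of_mem_primeFactors hq) (Nat.dvd_of_mem_primeFactors hq)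
    have h3 : ∏ q ∈ T, q ^ padicValNat q A = ∏ q ∈ A.primeFactors, q ^ A.factorization q := by
      symm
      refine Finset.prod_subset_one_on_sdiff hsub ?_ ?_
      · intro q hq
        rw [Finset.mem_sdiff] at hq
        have hq' : ¬ q ∣ A := fun hd =>
          hq.2 (Nat.mem_primeFactors.mpr ⟨hTp q hq.1, hd, hA⟩)
        haveI : Fact q.Prime := ⟨hTp q hq.1⟩
        rw [padicValNat.eq_zero_of_not_dvd hq', pow_zero]
      · intro q hq
        rw [Nat.factorization_def A (Nat.prime_of_mem_primeFactors hq)]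
    rw [h3, h2]
  rw [Units.coe_prod]
  calc ∏ q ∈ T, ((u q ^ padicValNat q A : (ZMod m)ˣ) : ZMod m)
      = ∏ q ∈ T, ((q : ZMod m)) ^ padicValNat q A := by
        refine Finset.prod_congr rfl fun q hq => ?_
        rw [Units.val_pow_eq_pow_val, hu q hq]
    _ = ((∏ q ∈ T, q ^ padicValNat q A : ℕ) : ZMod m) := by
        rw [Nat.cast_prod]
        exact Finset.prod_congr rfl fun q _ => (Nat.cast_pow _ _).symm
    _ = (A : ZMod m) := by rw [h1]

theorem unit_prod_eq_pm (ℓ : ℕ) [Fact ℓ.Prime] (e : ℕ) (y : ℚ) (hy : y ≠ 0)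
    (s : ℤˣ) (K : ℤ) (P : ℕ) (hP : ¬ ℓ ∣ P)
    (hest : ‖(y : ℚ_[ℓ]) - ((s : ℤ) : ℚ_[ℓ]) * (ℓ : ℚ_[ℓ]) ^ K * (P : ℚ_[ℓ])‖
      ≤ ‖(ℓ : ℚ_[ℓ])‖ ^ (K + e))
    (he : 0 < e)
    (u : ℕ → (ZMod (ℓ ^ e))ˣ) (T : Finset ℕ) (hT : ∀ q ∈ T, q.Prime ∧ q ≠ ℓ)
    (hu : ∀ q ∈ T, ((u q : (ZMod (ℓ ^ e))ˣ) : ZMod (ℓ ^ e)) = (q : ZMod (ℓ ^ e)))
    (hsupp : ∀ q : ℕ, q.Prime → q ≠ ℓ → padicValRat q y ≠ 0 → q ∈ T)
    (uP : (ZMod (ℓ ^ e))ˣ) (huP : (uP : ZMod (ℓ ^ e)) = (P : ZMod (ℓ ^ e))) :
    ∏ q ∈ T, u q ^ padicValRat q y = uP ∨ ∏ q ∈ T, u q ^ padicValRat q y = -uP := by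
  have hℓ : ℓ.Prime := Fact.out
  have hℓ0 : (ℓ : ℚ) ≠ 0 := Nat.cast_ne_zero.mpr hℓ.ne_zero
  have hℓ0' : (ℓ : ℚ_[ℓ]) ≠ 0 := Nat.cast_ne_zero.mpr hℓ.ne_zero
  have hs : ((s : ℤ) : ℚ) ≠ 0 := by
    rcases Int.units_eq_one_or s with h | h <;> simp [h]
  set w : ℚ := ((s : ℤ) : ℚ) * (ℓ : ℚ) ^ K with hw
  have hw0 : w ≠ 0 := mul_ne_zero hs (zpow_ne_zero _ hℓ0)
  set z : ℚ := y / w with hz
  have hz0 : z ≠ 0 := div_ne_zero hy hw0
  have hyz : y = w * z := by rw [hz]; field_simp
  -- the estimate for `z`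
  have hwcast : (w : ℚ_[ℓ]) = ((s : ℤ) : ℚ_[ℓ]) * (ℓ : ℚ_[ℓ]) ^ K := by
    rw [hw]; push_cast; rfl
  have hsnorm : ‖((s : ℤ) : ℚ_[ℓ])‖ = 1 := by
    rcases Int.units_eq_one_or s with h | h <;> simp [h]
  have hwnorm : ‖(w : ℚ_[ℓ])‖ = ‖(ℓ : ℚ_[ℓ])‖ ^ K := by
    rw [hwcast, norm_mul, hsnorm, one_mul, norm_zpow]
  have hℓnorm : 0 < ‖(ℓ : ℚ_[ℓ])‖ := norm_pos_iff.mpr hℓ0'
  have hzest : ‖(z : ℚ_[ℓ]) - (P : ℚ_[ℓ])‖ ≤ ‖(ℓ : ℚ_[ℓ])‖ ^ e := by
    have h1 : (y : ℚ_[ℓ]) - ((s : ℤ) : ℚ_[ℓ]) * (ℓ : ℚ_[ℓ]) ^ K * (P : ℚ_[ℓ]) =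
        (w : ℚ_[ℓ]) * ((z : ℚ_[ℓ]) - (P : ℚ_[ℓ])) := by
      rw [hyz, Rat.cast_mul, ← hwcast]; ring
    rw [h1, norm_mul, hwnorm, zpow_add₀ hℓnorm.ne', zpow_natCast] at hest
    exact le_of_mul_le_mul_left hest (zpow_pos hℓnorm K)
  -- numerator and denominator
  set a : ℤ := z.num with ha
  set b : ℕ := z.den with hb
  have hb0 : b ≠ 0 := z.den_ne_zero
  have ha0 : a ≠ 0 := Rat.num_ne_zero.mpr hz0
  have hzab : (z : ℚ_[ℓ]) = (a : ℚ_[ℓ]) / (b : ℚ_[ℓ]) := by
    conv_lhs => rw [← Rat.num_div_den z]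
    push_cast; rfl
  have hbℓ0 : (b : ℚ_[ℓ]) ≠ 0 := Nat.cast_ne_zero.mpr hb0
  have hdiv : ((ℓ ^ e : ℕ) : ℤ) ∣ a - (P : ℤ) * (b : ℤ) := by
    have h1 : ((a - (P : ℤ) * (b : ℤ) : ℤ) : ℚ_[ℓ]) =
        (b : ℚ_[ℓ]) * ((z : ℚ_[ℓ]) - (P : ℚ_[ℓ])) := by
      rw [hzab]; push_cast; field_simp
    have h2 : ‖((a - (P : ℤ) * (b : ℤ) : ℤ) : ℚ_[ℓ])‖ ≤ (ℓ : ℝ) ^ (-(e : ℤ)) := by
      rw [h1, norm_mul]
      have hb1 : ‖(b : ℚ_[ℓ])‖ ≤ 1 := by
        have := Padic.norm_int_le_one (p := ℓ) (b : ℤ)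
        simpa using this
      calc ‖(b : ℚ_[ℓ])‖ * ‖(z : ℚ_[ℓ]) - (P : ℚ_[ℓ])‖
          ≤ 1 * ‖(ℓ : ℚ_[ℓ])‖ ^ e :=
            mul_le_mul hb1 hzest (norm_nonneg _) zero_le_one
        _ = (ℓ : ℝ) ^ (-(e : ℤ)) := by
            rw [one_mul, Padic.norm_p, inv_pow, zpow_neg, zpow_natCast]
    have h3 := (Padic.norm_int_le_pow_iff_dvd (p := ℓ) (a - (P : ℤ) * (b : ℤ)) e).mp h2
    simpa using h3
  have hcop : Nat.Coprime a.natAbs b := z.reduced
  have hℓdvd : ((ℓ : ℕ) : ℤ) ∣ a - (P : ℤ) * (b : ℤ) := by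
    refine dvd_trans ?_ hdiv
    exact_mod_cast dvd_pow_self ℓ he.ne'
  have hℓb : ¬ ℓ ∣ b := by
    intro hbd
    have h1 : ((ℓ : ℕ) : ℤ) ∣ a := by
      have h2 : ((ℓ : ℕ) : ℤ) ∣ (P : ℤ) * (b : ℤ) :=
        Dvd.dvd.mul_left (Int.natCast_dvd_natCast.mpr hbd) _
      have := dvd_add hℓdvd h2
      simpa using this
    have h3 : ℓ ∣ a.natAbs := Int.natCast_dvd.mp h1
    have := Nat.eq_one_of_dvd_coprimes hcop h3 hbd
    exact hℓ.one_lt.ne' this
  have hℓa : ¬ ℓ ∣ a.natAbs := by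
    intro had
    have h1 : ((ℓ : ℕ) : ℤ) ∣ a := Int.natCast_dvd.mpr had
    have h2 : ((ℓ : ℕ) : ℤ) ∣ (P : ℤ) * (b : ℤ) := by
      have := dvd_sub h1 hℓdvd
      simpa using this
    have h3 : ℓ ∣ P * b := by exact_mod_cast h2
    rcases hℓ.dvd_mul.mp h3 with h | h
    · exact hP h
    · exact hℓb h
  set A : ℕ := a.natAbs with hA
  have hA0 : A ≠ 0 := Int.natAbs_ne_zero.mpr ha0
  -- valuations
  have hval : ∀ q ∈ T, padicValRat q y = (padicValNat q A : ℤ) - (padicValNat q b : ℤ) := by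
    intro q hq
    haveI : Fact q.Prime := ⟨(hT q hq).1⟩
    have hqℓ : ¬ q ∣ ℓ := fun h =>
      (hT q hq).2 ((Nat.prime_dvd_prime_iff_eq (hT q hq).1 hℓ).mp h)
    have h1 : padicValRat q w = 0 := by
      rw [hw, padicValRat.mul hs (zpow_ne_zero _ hℓ0), padicValRat.zpow, padicValRat.of_nat,
        padicValNat.eq_zero_of_not_dvd hqℓ]
      rcases Int.units_eq_one_or s with h | h
      · simp [h]
      · rw [h]
        have : (((-1 : ℤˣ) : ℤ) : ℚ) = -1 := by simp
        rw [this, padicValRat.neg, padicValRat.one]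
        simp
    rw [hyz, padicValRat.mul hw0 hz0, h1, zero_add]
    rfl
  have hprA : ∀ q, q.Prime → q ∣ A → q ∈ T := by
    intro q hq hqA
    haveI : Fact q.Prime := ⟨hq⟩
    have hqℓ : q ≠ ℓ := fun h => hℓa (h ▸ hqA)
    have hqb : ¬ q ∣ b := fun hqb =>
      hq.one_lt.ne' (Nat.eq_one_of_dvd_coprimes hcop hqA hqb)
    refine hsupp q hq hqℓ ?_
    have hqw : padicValRat q w = 0 := by
      have hqℓ' : ¬ q ∣ ℓ := fun h => hqℓ ((Nat.prime_dvd_prime_iff_eq hq hℓ).mp h)
      rw [hw, padicValRat.mul hs (zpow_ne_zero _ hℓ0), padicValRat.zpow, padicValRat.of_nat,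
        padicValNat.eq_zero_of_not_dvd hqℓ']
      rcases Int.units_eq_one_or s with h | h
      · simp [h]
      · rw [h]
        have : (((-1 : ℤˣ) : ℤ) : ℚ) = -1 := by simp
        rw [this, padicValRat.neg, padicValRat.one]
        simp
    rw [hyz, padicValRat.mul hw0 hz0, hqw, zero_add]
    show (padicValInt q z.num : ℤ) - (padicValNat q z.den : ℤ) ≠ 0
    have h1 : padicValNat q b = 0 := padicValNat.eq_zero_of_not_dvd hqb
    have h2 : 1 ≤ padicValNat q A := one_le_padicValNat_of_dvd hA0 hqA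
    have h3 : padicValInt q z.num = padicValNat q A := rfl
    rw [h3, ← hb, h1]
    omega
  have hprB : ∀ q, q.Prime → q ∣ b → q ∈ T := by
    intro q hq hqb
    haveI : Fact q.Prime := ⟨hq⟩
    have hqℓ : q ≠ ℓ := fun h => hℓb (h ▸ hqb)
    have hqA : ¬ q ∣ A := fun hqA =>
      hq.one_lt.ne' (Nat.eq_one_of_dvd_coprimes hcop hqA hqb)
    refine hsupp q hq hqℓ ?_
    have hqw : padicValRat q w = 0 := by
      have hqℓ' : ¬ q ∣ ℓ := fun h => hqℓ ((Nat.prime_dvd_prime_iff_eq hq hℓ).mp h)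
      rw [hw, padicValRat.mul hs (zpow_ne_zero _ hℓ0), padicValRat.zpow, padicValRat.of_nat,
        padicValNat.eq_zero_of_not_dvd hqℓ']
      rcases Int.units_eq_one_or s with h | h
      · simp [h]
      · rw [h]
        have : (((-1 : ℤˣ) : ℤ) : ℚ) = -1 := by simp
        rw [this, padicValRat.neg, padicValRat.one]
        simp
    rw [hyz, padicValRat.mul hw0 hz0, hqw, zero_add]
    show (padicValInt q z.num : ℤ) - (padicValNat q z.den : ℤ) ≠ 0
    have h1 : padicValNat q A = 0 := padicValNat.eq_zero_of_not_dvd hqA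
    have h2 : 1 ≤ padicValNat q b := one_le_padicValNat_of_dvd hb0 hqb
    have h3 : padicValInt q z.num = padicValNat q A := rfl
    rw [h3, ← hb, h1]
    omega
  -- the two unit products
  set UA : (ZMod (ℓ ^ e))ˣ := ∏ q ∈ T, u q ^ padicValNat q A with hUA
  set UB : (ZMod (ℓ ^ e))ˣ := ∏ q ∈ T, u q ^ padicValNat q b with hUB
  have hUAc : ((UA : (ZMod (ℓ ^ e))ˣ) : ZMod (ℓ ^ e)) = (A : ZMod (ℓ ^ e)) :=
    coe_prod_pow_padicValNat u T (fun q hq => (hT q hq).1) hu A hA0 hprA
  have hUBc : ((UB : (ZMod (ℓ ^ e))ˣ) : ZMod (ℓ ^ e)) = (b : ZMod (ℓ ^ e)) :=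
    coe_prod_pow_padicValNat u T (fun q hq => (hT q hq).1) hu b hb0 hprB
  have hprod : ∏ q ∈ T, u q ^ padicValRat q y = UA * UB⁻¹ := by
    rw [hUA, hUB, ← Finset.prod_inv_distrib, ← Finset.prod_mul_distrib]
    refine Finset.prod_congr rfl fun q hq => ?_
    rw [hval q hq, zpow_sub, zpow_natCast, zpow_natCast]
  have hcong : ((a : ℤ) : ZMod (ℓ ^ e)) = (P : ZMod (ℓ ^ e)) * (b : ZMod (ℓ ^ e)) := by
    have h1 := (ZMod.intCast_zmod_eq_zero_iff_dvd (a - (P : ℤ) * (b : ℤ)) (ℓ ^ e)).mpr hdiv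
    push_cast at h1
    exact sub_eq_zero.mp h1
  rw [hprod]
  rcases Int.natAbs_eq a with h | h
  · left
    rw [mul_inv_eq_iff_eq_mul]
    apply Units.ext
    rw [Units.val_mul, hUAc, hUBc, huP, ← hcong, hA]
    conv_rhs => rw [h]
    simp
  · right
    rw [mul_inv_eq_iff_eq_mul]
    apply Units.ext
    rw [Units.val_mul, Units.val_neg, hUAc, hUBc, huP, neg_mul, ← hcong, hA]
    conv_rhs => rw [h]
    simp

end Fermat.Agent.S55.G.Rec.H511

end
-- ===== PACK-END S55/G/Rec/StepAAlgH511.lean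

-- ===== PACK-BEGIN S55/G/Rec/SCH174/Torsion.lean
section


/-!
# S55 / G / REC, leaf SC (helper174) : solving `j · w / n = ξ` in `ℚ/ℤ`

`exists_zsmul_eq` : if `ξ ∈ ℚ/ℤ` is killed by `p ^ k`, `t ∈ ℤ/p^M` has additive order `p ^ N` and
`p ^ (a + 1) ∤ f` with `a + k ≤ N`, then `ξ = j · (f • t).val / p ^ M` for some `j : ℤ`.
-/

set_option autoImplicit false
set_option linter.style.haveILetI false

namespace Fermat.Agent.S55.G.Rec.H174

local instance fact_zero_lt_one_rat : Fact ((0 : ℚ) < 1) := ⟨one_pos⟩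

/-- The additive order of `w.val / n` in `ℚ/ℤ` is the additive order of `w` in `ℤ/n`. -/
theorem addOrderOf_val_div (n : ℕ) [NeZero n] (w : ZMod n) :
    addOrderOf ((((w.val : ℚ) / (n : ℚ) * 1 : ℚ)) : AddCircle (1 : ℚ)) = addOrderOf w := by
  have hn : 0 < n := Nat.pos_of_ne_zero (NeZero.ne n)
  have h1 := AddCircle.gcd_mul_addOrderOf_div_eq (1 : ℚ) w.val hn
  have h2 : addOrderOf w = n / n.gcd w.val := by
    conv_lhs => rw [← ZMod.natCast_zmod_val w]
    exact ZMod.addOrderOf_coe w.val (NeZero.ne n)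
  rw [h2]
  have hg : 0 < w.val.gcd n := Nat.gcd_pos_of_pos_right _ hn
  rw [Nat.gcd_comm n]
  exact (Nat.div_eq_of_eq_mul_right hg h1.symm).symm

/-- Solving `j • θ = ξ` when `ξ` is killed by the order of `θ`, a prime power. -/
theorem exists_zsmul_eq_of_addOrderOf {p b : ℕ} (hp : p.Prime) {θ ξ : AddCircle (1 : ℚ)}
    (hθ : addOrderOf θ = p ^ b) (hξ : p ^ b • ξ = 0) : ∃ j : ℤ, j • θ = ξ := by
  have hpos : 0 < p ^ b := pow_pos hp.pos b
  obtain ⟨m₁, -, h1⟩ := (AddCircle.nsmul_eq_zero_iff hpos).1 hξ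
  obtain ⟨m₂, -, hcop, h2⟩ := (AddCircle.addOrderOf_eq_pos_iff hpos).1 hθ
  -- invert `m₂` modulo `p ^ b`
  let u : (ZMod (p ^ b))ˣ := ZMod.unitOfCoprime m₂ hcop
  haveI : NeZero (p ^ b) := ⟨hpos.ne'⟩
  let j : ℕ := ((m₁ : ZMod (p ^ b)) * ((u⁻¹ : (ZMod (p ^ b))ˣ) : ZMod (p ^ b))).val
  have hj : ((j * m₂ : ℕ) : ZMod (p ^ b)) = (m₁ : ZMod (p ^ b)) := by
    push_cast
    rw [ZMod.natCast_zmod_val, mul_assoc]
    have : ((u⁻¹ : (ZMod (p ^ b))ˣ) : ZMod (p ^ b)) * (m₂ : ZMod (p ^ b)) = 1 := by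
      rw [← ZMod.coe_unitOfCoprime m₂ hcop]
      exact Units.inv_mul u
    rw [this, mul_one]
  have hdvd : ((p ^ b : ℕ) : ℤ) ∣ ((j * m₂ : ℕ) : ℤ) - (m₁ : ℤ) := by
    have := (ZMod.natCast_eq_natCast_iff _ _ _).1 hj
    exact (Nat.modEq_iff_dvd.1 this.symm)
  obtain ⟨z, hz⟩ := hdvd
  refine ⟨(j : ℤ), ?_⟩
  rw [← h2, ← h1, ← AddCircle.coe_zsmul, ← sub_eq_zero, ← AddCircle.coe_sub,
    AddCircle.coe_eq_zero_iff]
  refine ⟨z, ?_⟩
  have hq : ((p ^ b : ℕ) : ℚ) ≠ 0 := Nat.cast_ne_zero.2 hpos.ne'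
  have hz' : ((j : ℚ) * (m₂ : ℚ)) - (m₁ : ℚ) = ((p ^ b : ℕ) : ℚ) * (z : ℚ) := by
    have := congrArg (fun t : ℤ => (t : ℚ)) hz
    simpa using this
  rw [zsmul_eq_mul, zsmul_eq_mul, mul_one, mul_one, mul_one]
  field_simp
  push_cast at hz' ⊢
  linarith

/-- Solving `j · w.val / n = ξ` in `ℚ/ℤ`. -/
theorem exists_int_mul_val_div_eq (n : ℕ) [NeZero n] {p b k : ℕ} (hp : p.Prime) (w : ZMod n)
    (hw : addOrderOf w = p ^ b) (hkb : k ≤ b) {ξ : AddCircle (1 : ℚ)} (hξ : p ^ k • ξ = 0) :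
    ∃ j : ℤ, ((((j : ℚ) * (w.val : ℚ) / (n : ℚ) : ℚ)) : AddCircle (1 : ℚ)) = ξ := by
  have hθ : addOrderOf ((((w.val : ℚ) / (n : ℚ) * 1 : ℚ)) : AddCircle (1 : ℚ)) = p ^ b := by
    rw [addOrderOf_val_div, hw]
  have hξ' : p ^ b • ξ = 0 := by
    obtain ⟨c, rfl⟩ := Nat.exists_eq_add_of_le hkb
    rw [pow_add, mul_comm, mul_smul, hξ, smul_zero]
  obtain ⟨j, hj⟩ := exists_zsmul_eq_of_addOrderOf hp hθ hξ'
  refine ⟨j, ?_⟩
  rw [← hj, ← AddCircle.coe_zsmul]
  congr 1
  rw [zsmul_eq_mul, mul_one, mul_div_assoc]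

/-- The order of a multiple of an element of prime power order. -/
theorem addOrderOf_nsmul_prime_pow {A : Type*} [AddGroup A] {p N k f : ℕ} (hp : p.Prime)
    {t : A} (ht : addOrderOf t = p ^ N) (hf0 : f ≠ 0) (hf : padicValNat p f + k ≤ N) :
    ∃ b, k ≤ b ∧ addOrderOf (f • t) = p ^ b := by
  haveI : Fact p.Prime := ⟨hp⟩
  have h1 : addOrderOf (f • t) = addOrderOf t / (addOrderOf t).gcd f :=
    addOrderOf_nsmul' t hf0
  rw [ht] at h1
  obtain ⟨a, haN, ha⟩ := (Nat.dvd_prime_pow hp).1 (Nat.gcd_dvd_left (p ^ N) f)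
  have ha2 : p ^ a ∣ f := ha ▸ Nat.gcd_dvd_right (p ^ N) f
  have ha3 : a ≤ padicValNat p f := (padicValNat_dvd_iff_le hf0).1 ha2
  refine ⟨N - a, by omega, ?_⟩
  rw [h1, ha, Nat.pow_div haN hp.pos]

end Fermat.Agent.S55.G.Rec.H174

end
-- ===== PACK-END S55/G/Rec/SCH174/Torsion.lean

-- ===== PACK-BEGIN S55/L/Spec.lean
section


/-!
# S55, layer L (local class field theory): frozen interface, part 1

Setting: *algebraic* local fields.  A field `K` of characteristic zero is a local field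
(`IsLocalFld K`) if it is the fraction field of a complete discrete valuation ring with finite
residue field, given as a `ValuationSubring K`.  The `q`-adic numbers and the finite extensions of
`ℚ_q` inside `PadicAlgCl q` are instances (leaf `L-INST`).

Galois modules: `Lˣ` as `Rep ℤ Gal(L/K)` is Mathlib's `Rep.ofAlgebraAutOnUnits K L`.

Every `XxxSpec : Prop` below is an interface statement: producers prove `theorem xxx : XxxSpec`,
consumers take `(h : XxxSpec)` as a hypothesis.  No `sorry` in this file.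
-/

set_option autoImplicit false

namespace Fermat.Agent.S55.L

open groupCohomology

/-! ### Local fields -/

/-- The valuation subring `A` of `K` is a complete discrete valuation ring with finite residue
field. -/
def IsLocalRingOfIntegers {K : Type} [Field K] (A : ValuationSubring K) : Prop :=
  IsDiscreteValuationRing A ∧ IsAdicComplete (IsLocalRing.maximalIdeal A) A ∧
    Finite (IsLocalRing.ResidueField A)

/-- An algebraic (characteristic zero, non-archimedean) local field. -/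
class IsLocalFld (K : Type) [Field K] : Prop where
  charZero : CharZero K
  exists_ringOfIntegers : ∃ A : ValuationSubring K, IsLocalRingOfIntegers A

/-- **L-A0** The ring of integers of a local field is unique. -/
def RingOfIntegersUniqueSpec : Prop :=
  ∀ (K : Type) [Field K] [IsLocalFld K] (A A' : ValuationSubring K),
    IsLocalRingOfIntegers A → IsLocalRingOfIntegers A' → A = A'

/-- **L-A1** A finite extension of a local field is a local field. -/
def FiniteExtSpec : Prop :=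
  ∀ (K L : Type) [Field K] [Field L] [Algebra K L] [FiniteDimensional K L] [IsLocalFld K],
    IsLocalFld L

/-! ### The class module `(Gal(L/K), Lˣ)` -/

/-- The multiplicative group of `L` as a `Gal(L/K)`-module. -/
noncomputable abbrev unitsRep (K L : Type) [Field K] [Field L] [Algebra K L] :
    Rep ℤ (L ≃ₐ[K] L) :=
  Rep.ofAlgebraAutOnUnits K L

/-- **L-C1** `H²(Gal(L/K), Lˣ)` is cyclic of order `[L : K]`. -/
def H2CyclicSpec : Prop :=
  ∀ (K L : Type) [Field K] [Field L] [Algebra K L] [FiniteDimensional K L] [IsGalois K L]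
    [IsLocalFld K],
    Nonempty (H2 (unitsRep K L) ≃+ ZMod (Module.finrank K L))

/-- **L-C1a** upper bound `|H²(Gal(L/K), Lˣ)| ≤ [L : K]` (Sylow + `p`-group induction from the
cyclic case). -/
def H2CardLeSpec : Prop :=
  ∀ (K L : Type) [Field K] [Field L] [Algebra K L] [FiniteDimensional K L] [IsGalois K L]
    [IsLocalFld K],
    Finite (H2 (unitsRep K L)) ∧ Nat.card (H2 (unitsRep K L)) ≤ Module.finrank K L

/-- **L-B2** cyclic case: `|H²(Gal(L/K), Lˣ)| = [L : K]` for cyclic `L/K`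
(Herbrand quotient of the units is `1`, Hilbert 90). -/
def H2CardCyclicSpec : Prop :=
  ∀ (K L : Type) [Field K] [Field L] [Algebra K L] [FiniteDimensional K L] [IsGalois K L]
    [IsLocalFld K] [IsCyclic (L ≃ₐ[K] L)],
    Finite (H2 (unitsRep K L)) ∧ Nat.card (H2 (unitsRep K L)) = Module.finrank K L

/-- **L-B2'** norm index for cyclic extensions: `[Kˣ : N Lˣ] = [L : K]`. -/
def NormIndexCyclicSpec : Prop :=
  ∀ (K L : Type) [Field K] [Field L] [Algebra K L] [FiniteDimensional K L] [IsGalois K L]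
    [IsLocalFld K] [IsCyclic (L ≃ₐ[K] L)],
    (MonoidHom.range (Units.map (Algebra.norm K : L →* K))).index = Module.finrank K L

end Fermat.Agent.S55.L

end
-- ===== PACK-END S55/L/Spec.lean

-- ===== PACK-BEGIN S55/L/H355/Nakayama.lean
section


/-!
# S55, layer L, helper355: a concrete "complete Nakayama" lemma

If `A` is `π`-adically precomplete, `N` is `π`-adically separated and the finite family `s`
generates `N` modulo `π`, then `s` generates `N`.
-/

set_option autoImplicit false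

namespace Fermat.Agent.S55.L.H355

theorem smodEq_span_pow_iff_dvd {A : Type} [CommRing A] (π : A) (m : ℕ) (x y : A) :
    x ≡ y [SMOD (Ideal.span {π} ^ m • ⊤ : Submodule A A)] ↔ π ^ m ∣ x - y := by
  rw [SModEq.sub_mem, smul_eq_mul, Ideal.mul_top, Ideal.span_singleton_pow,
    Ideal.mem_span_singleton]

theorem exists_sum_smul_eq_of_approx {A : Type} [CommRing A] (π : A)
    (hprec : IsPrecomplete (Ideal.span {π}) A)
    {N : Type} [AddCommGroup N] [Module A N]
    (hhaus : ∀ x : N, (∀ n : ℕ, ∃ z : N, x = π ^ n • z) → x = 0)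
    {ι : Type} [Fintype ι] (s : ι → N)
    (happrox : ∀ y : N, ∃ (a : ι → A) (z : N), y = ∑ i, a i • s i + π • z) (y : N) :
    ∃ α : ι → A, y = ∑ i, α i • s i := by
  classical
  choose a z hz using happrox
  let Y : ℕ → N := fun k => Nat.rec y (fun _ w => z w) k
  have hY0 : Y 0 = y := rfl
  have hYs : ∀ k, Y (k + 1) = z (Y k) := fun k => rfl
  let S : ℕ → ι → A := fun m i => ∑ k ∈ Finset.range m, π ^ k * a (Y k) i
  have hS : ∀ m, y = ∑ i, S m i • s i + π ^ m • Y m := by
    intro m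
    induction m with
    | zero => simp [S, hY0]
    | succ m ih =>
      have h1 : ∀ i, S (m + 1) i = S m i + π ^ m * a (Y m) i := fun i => by
        simp only [S, Finset.sum_range_succ]
      have h2 := hz (Y m)
      calc y = ∑ i, S m i • s i + π ^ m • Y m := ih
        _ = ∑ i, S m i • s i + π ^ m • (∑ i, a (Y m) i • s i + π • z (Y m)) := by rw [← h2]
        _ = ∑ i, S (m + 1) i • s i + π ^ (m + 1) • Y (m + 1) := by
          rw [hYs, smul_add, Finset.smul_sum, ← add_assoc, ← Finset.sum_add_distrib, smul_smul,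
            pow_succ]
          congr 1
          refine Finset.sum_congr rfl fun i _ => ?_
          rw [h1, add_smul, smul_smul]
  have hcauchy : ∀ i, ∀ {m n : ℕ}, m ≤ n →
      S m i ≡ S n i [SMOD (Ideal.span {π} ^ m • ⊤ : Submodule A A)] := by
    intro i m n hmn
    rw [smodEq_span_pow_iff_dvd]
    have : S n i - S m i = ∑ k ∈ Finset.Ico m n, π ^ k * a (Y k) i := by
      simp only [S]
      rw [Finset.sum_Ico_eq_sub _ hmn]
    have h2 : π ^ m ∣ S n i - S m i := by
      rw [this]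
      refine Finset.dvd_sum fun k hk => ?_
      have hk' := (Finset.mem_Ico.1 hk).1
      exact Dvd.dvd.mul_right (pow_dvd_pow π hk') _
    have h3 : S m i - S n i = -(S n i - S m i) := by ring
    rw [h3]
    exact (dvd_neg).2 h2
  have hlim : ∀ i, ∃ L : A, ∀ n, S n i ≡ L [SMOD (Ideal.span {π} ^ n • ⊤ : Submodule A A)] :=
    fun i => hprec.prec (hcauchy i)
  choose α hα using hlim
  refine ⟨α, ?_⟩
  have hα' : ∀ i n, ∃ c : A, S n i - α i = π ^ n * c := by
    intro i n
    have := (smodEq_span_pow_iff_dvd π n _ _).1 (hα i n)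
    exact this
  rw [← sub_eq_zero]
  apply hhaus
  intro n
  choose c hc using fun i => hα' i n
  refine ⟨∑ i, c i • s i + Y n, ?_⟩
  have h1 := hS n
  have h2 : ∀ i, S n i = α i + π ^ n * c i := fun i => by rw [← hc i]; ring
  calc y - ∑ i, α i • s i = (∑ i, S n i • s i + π ^ n • Y n) - ∑ i, α i • s i := by rw [← h1]
    _ = π ^ n • (∑ i, c i • s i + Y n) := by
      rw [smul_add, Finset.smul_sum, add_sub_right_comm, ← Finset.sum_sub_distrib]
      congr 1
      refine Finset.sum_congr rfl fun i _ => ?_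
      rw [h2, add_smul, add_sub_cancel_left, smul_smul]

end Fermat.Agent.S55.L.H355

end
-- ===== PACK-END S55/L/H355/Nakayama.lean

-- ===== PACK-BEGIN S55/H413/WRLocal.lean
section


/-!
# S55, leaf WR (weak reciprocity), part 1: local characters on `ℚ_[ℓ]ˣ`

For a prime `ℓ` we define
* `valHom ℓ : ℚ_[ℓ]ˣ →* Multiplicative ℤ`, the valuation,
* `unitPart ℓ : ℚ_[ℓ]ˣ →* ℤ_[ℓ]ˣ`, `x ↦ x * ℓ ^ (-v x)`,
* `unitResidue ℓ m : ℚ_[ℓ]ˣ →* (ZMod (ℓ ^ m))ˣ`, the unit part modulo `ℓ ^ m`.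
-/

set_option autoImplicit false

namespace Fermat.Agent.S55.H413

open Padic

variable (ℓ : ℕ) [hℓ : Fact ℓ.Prime]

/-- The valuation as a monoid homomorphism. -/
noncomputable def valHom : ℚ_[ℓ]ˣ →* Multiplicative ℤ where
  toFun x := Multiplicative.ofAdd (x : ℚ_[ℓ]).valuation
  map_one' := by simp
  map_mul' x y := by
    rw [Units.val_mul, Padic.valuation_mul x.ne_zero y.ne_zero, ofAdd_add]

@[simp] lemma valHom_apply (x : ℚ_[ℓ]ˣ) :
    Multiplicative.toAdd (valHom ℓ x) = (x : ℚ_[ℓ]).valuation := rfl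

lemma norm_unitPart_aux (x : ℚ_[ℓ]ˣ) :
    ‖(x : ℚ_[ℓ]) * (ℓ : ℚ_[ℓ]) ^ (-(x : ℚ_[ℓ]).valuation)‖ = 1 := by
  have hℓ0 : (ℓ : ℝ) ≠ 0 := by exact_mod_cast hℓ.out.ne_zero
  rw [norm_mul, Padic.norm_p_zpow, Padic.norm_eq_zpow_neg_valuation x.ne_zero, neg_neg,
    ← zpow_add₀ hℓ0]
  simp

/-- The unit part `x * ℓ ^ (-v x)` of a nonzero `ℓ`-adic number, as a monoid homomorphism. -/
noncomputable def unitPart : ℚ_[ℓ]ˣ →* ℤ_[ℓ]ˣ where
  toFun x := PadicInt.mkUnits (norm_unitPart_aux ℓ x)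
  map_one' := by
    apply Units.ext
    apply Subtype.ext
    simp
  map_mul' x y := by
    apply Units.ext
    apply Subtype.ext
    have hℓ0 : (ℓ : ℚ_[ℓ]) ≠ 0 := by exact_mod_cast hℓ.out.ne_zero
    simp only [PadicInt.val_mkUnits, Units.val_mul, PadicInt.coe_mul,
      Padic.valuation_mul x.ne_zero y.ne_zero, neg_add, zpow_add₀ hℓ0]
    show _ = (x : ℚ_[ℓ]) * (ℓ : ℚ_[ℓ]) ^ (-(x : ℚ_[ℓ]).valuation) *
      ((y : ℚ_[ℓ]) * (ℓ : ℚ_[ℓ]) ^ (-(y : ℚ_[ℓ]).valuation))
    ring

lemma coe_unitPart (x : ℚ_[ℓ]ˣ) :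
    (((unitPart ℓ x : ℤ_[ℓ]ˣ) : ℤ_[ℓ]) : ℚ_[ℓ]) = (x : ℚ_[ℓ]) * (ℓ : ℚ_[ℓ]) ^ (-(x : ℚ_[ℓ]).valuation) :=
  rfl

lemma eq_unitPart_mul (x : ℚ_[ℓ]ˣ) :
    (x : ℚ_[ℓ]) = (((unitPart ℓ x : ℤ_[ℓ]ˣ) : ℤ_[ℓ]) : ℚ_[ℓ]) * (ℓ : ℚ_[ℓ]) ^ ((x : ℚ_[ℓ]).valuation) := by
  have hℓ0 : (ℓ : ℚ_[ℓ]) ≠ 0 := by exact_mod_cast hℓ.out.ne_zero
  rw [coe_unitPart, mul_assoc, ← zpow_add₀ hℓ0]
  simp

/-- The unit part modulo `ℓ ^ m`. -/
noncomputable def unitResidue (m : ℕ) : ℚ_[ℓ]ˣ →* (ZMod (ℓ ^ m))ˣ :=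
  (Units.map (PadicInt.toZModPow m : ℤ_[ℓ] →+* ZMod (ℓ ^ m)).toMonoidHom).comp (unitPart ℓ)

lemma coe_unitResidue (m : ℕ) (x : ℚ_[ℓ]ˣ) :
    ((unitResidue ℓ m x : (ZMod (ℓ ^ m))ˣ) : ZMod (ℓ ^ m)) =
      PadicInt.toZModPow m ((unitPart ℓ x : ℤ_[ℓ]ˣ) : ℤ_[ℓ]) := rfl

/-- The unit part of (the image of) an integer prime to `ℓ` is that integer. -/
lemma unitPart_intCast (a : ℤ) (ha : ¬ (ℓ : ℤ) ∣ a) (x : ℚ_[ℓ]ˣ) (hx : (x : ℚ_[ℓ]) = a) :
    ((unitPart ℓ x : ℤ_[ℓ]ˣ) : ℤ_[ℓ]) = (a : ℤ_[ℓ]) := by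
  apply Subtype.ext
  rw [coe_unitPart, hx]
  have hv : (a : ℚ_[ℓ]).valuation = 0 := by
    rw [Padic.valuation_intCast]
    exact_mod_cast padicValInt.eq_zero_of_not_dvd ha
  simp [hv]

lemma unitResidue_intCast (m : ℕ) (a : ℤ) (ha : ¬ (ℓ : ℤ) ∣ a) (x : ℚ_[ℓ]ˣ)
    (hx : (x : ℚ_[ℓ]) = a) :
    ((unitResidue ℓ m x : (ZMod (ℓ ^ m))ˣ) : ZMod (ℓ ^ m)) = (a : ZMod (ℓ ^ m)) := by
  rw [coe_unitResidue, unitPart_intCast ℓ a ha x hx]
  simp

/-- The unit part of `ℓ` itself is `1`. -/
lemma unitPart_self (x : ℚ_[ℓ]ˣ) (hx : (x : ℚ_[ℓ]) = ℓ) : unitPart ℓ x = 1 := by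
  apply Units.ext
  apply Subtype.ext
  have hℓ0 : (ℓ : ℚ_[ℓ]) ≠ 0 := by exact_mod_cast hℓ.out.ne_zero
  rw [coe_unitPart, hx, Padic.valuation_p]
  simp [hℓ0]

end Fermat.Agent.S55.H413

end
-- ===== PACK-END S55/H413/WRLocal.lean

-- ===== PACK-BEGIN S55/Local/Defs.lean
section


/-!
# S55, layer L (local class field theory, cohomological core) : definitions

BASE: a complete discrete valuation ring `A` with finite residue field and fraction field `F`
(think `A = ℤ_[q]`, `F = ℚ_[q]`).  A *local field* is a field `K` with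
`[Algebra F K] [FiniteDimensional F K]`.  For an extension `L / K` of local fields we always assume
`[Algebra F K] [Algebra F L] [Algebra K L] [IsScalarTower F K L]`.

Integrality is ALWAYS over the base ring `A`, via the ring homomorphism `toL A F L : A →+* L`
(composite `A → F → L`) and `RingHom.IsIntegralElem`; no `Algebra A L` instance is ever required
in a statement.  Inside proofs use `letI : Algebra A L := (toL A F L).toAlgebra` and
`IsScalarTower.of_algebraMap_eq (fun _ => rfl)`.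
-/

set_option autoImplicit false

namespace Fermat.Agent.S55.Local

section Defs

variable (A F : Type) [CommRing A] [Field F] [Algebra A F]
variable (L : Type) [Field L] [Algebra F L]

/-- The structure map `A → F → L`. -/
def toL : A →+* L := (algebraMap F L).comp (algebraMap A F)

@[simp] lemma toL_apply (a : A) : toL A F L a = algebraMap F L (algebraMap A F a) := rfl

/-- `x : L` is integral over `A`. -/
def IsInt (x : L) : Prop := (toL A F L).IsIntegralElem x

variable {A F L} in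
lemma IsInt.mul {x y : L} (hx : IsInt A F L x) (hy : IsInt A F L y) : IsInt A F L (x * y) :=
  RingHom.IsIntegralElem.mul _ hx hy

variable {A F L} in
lemma IsInt.add {x y : L} (hx : IsInt A F L x) (hy : IsInt A F L y) : IsInt A F L (x + y) :=
  RingHom.IsIntegralElem.add _ hx hy

variable {A F L} in
lemma IsInt.neg {x : L} (hx : IsInt A F L x) : IsInt A F L (-x) :=
  RingHom.IsIntegralElem.neg _ hx

lemma isInt_one : IsInt A F L 1 := RingHom.isIntegralElem_one _

lemma isInt_zero : IsInt A F L 0 := RingHom.isIntegralElem_zero _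

lemma isInt_toL (a : A) : IsInt A F L (toL A F L a) := RingHom.isIntegralElem_map _

/-- The units `U_L` of the ring of integers of `L`, as a subgroup of `Lˣ`. -/
def intUnits : Subgroup Lˣ where
  carrier := {x | IsInt A F L (x : L) ∧ IsInt A F L ((x⁻¹ : Lˣ) : L)}
  mul_mem' := by
    rintro x y ⟨hx, hx'⟩ ⟨hy, hy'⟩
    refine ⟨by simpa using hx.mul hy, ?_⟩
    have : ((x * y)⁻¹ : Lˣ) = x⁻¹ * y⁻¹ := by rw [mul_inv]
    rw [this]; simpa using hx'.mul hy'
  one_mem' := by simp [isInt_one]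
  inv_mem' := by
    rintro x ⟨hx, hx'⟩
    exact ⟨hx', by simpa using hx⟩

lemma mem_intUnits {x : Lˣ} :
    x ∈ intUnits A F L ↔ IsInt A F L (x : L) ∧ IsInt A F L ((x⁻¹ : Lˣ) : L) := Iff.rfl

/-- The higher unit group `U_L^{(ϖ, j)} = {u ∈ U_L : u - 1 ∈ ϖ^j · O_L}` relative to an element
`ϖ : L` (in applications a uniformizer of a subfield `K ⊆ L`, so that it is Galois-stable).
For `j = 0` this is `U_L` (when `ϖ` is integral). -/
def higherUnits (ϖ : L) (j : ℕ) : Subgroup Lˣ where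
  carrier := {x | x ∈ intUnits A F L ∧ ∃ b : L, IsInt A F L b ∧ (x : L) = 1 + ϖ ^ j * b}
  mul_mem' := by
    rintro x y ⟨hx, a, ha, hxa⟩ ⟨hy, b, hb, hyb⟩
    refine ⟨(intUnits A F L).mul_mem hx hy, a + b + (x - 1) * b, ?_, ?_⟩
    · have hx1 : IsInt A F L ((x : L) - 1) := by
        have := hx.1.add (isInt_one A F L).neg
        simpa [sub_eq_add_neg] using this
      exact (ha.add hb).add (hx1.mul hb)
    · rw [Units.val_mul, hyb]
      have : (x : L) - 1 = ϖ ^ j * a := by rw [hxa]; ring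
      linear_combination this
  one_mem' := ⟨(intUnits A F L).one_mem, 0, isInt_zero A F L, by simp⟩
  inv_mem' := by
    rintro x ⟨hx, a, ha, hxa⟩
    refine ⟨(intUnits A F L).inv_mem hx, -(a * ((x⁻¹ : Lˣ) : L)), (ha.mul hx.2).neg, ?_⟩
    have h1 : (x : L) * ((x⁻¹ : Lˣ) : L) = 1 := by simp
    have : (1 + ϖ ^ j * a) * ((x⁻¹ : Lˣ) : L) = 1 := by rw [← hxa]; exact h1
    linear_combination this

lemma mem_higherUnits {ϖ : L} {j : ℕ} {x : Lˣ} :
    x ∈ higherUnits A F L ϖ j ↔
      x ∈ intUnits A F L ∧ ∃ b : L, IsInt A F L b ∧ (x : L) = 1 + ϖ ^ j * b := Iff.rfl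

/-- `ϖ : Lˣ` is a uniformizer of `L`: it is integral, not a unit of the ring of integers, and
every `x : Lˣ` is `ϖ ^ n` times a unit of the ring of integers. -/
def IsUnif (ϖ : Lˣ) : Prop :=
  IsInt A F L (ϖ : L) ∧ ϖ ∉ intUnits A F L ∧ ∀ x : Lˣ, ∃ n : ℤ, x * ϖ ^ (-n) ∈ intUnits A F L

variable (K : Type) [Field K] [Algebra F K] [Algebra K L]

/-- The inclusion `Kˣ → Lˣ`. -/
def unitsIncl : Kˣ →* Lˣ := Units.map (algebraMap K L).toMonoidHom

@[simp] lemma unitsIncl_coe (y : Kˣ) : ((unitsIncl L K y : Lˣ) : L) = algebraMap K L y := rfl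

/-- `L / K` is unramified: `Lˣ = Kˣ · U_L` (a uniformizer of `K` is a uniformizer of `L`). -/
def IsUnram : Prop :=
  ∀ x : Lˣ, ∃ y : Kˣ, x * (unitsIncl L K y)⁻¹ ∈ intUnits A F L

/-- The norm map `Lˣ → Kˣ`. -/
noncomputable def normUnits : Lˣ →* Kˣ := Units.map (Algebra.norm K : L →* K)

@[simp] lemma normUnits_coe (x : Lˣ) : ((normUnits L K x : Kˣ) : K) = Algebra.norm K (x : L) := rfl

end Defs

section Cyclic

variable {G : Type} [Group G]

/-- Discrete logarithm in a finite cyclic group with generator `σ`: the least `k : ℕ` with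
`σ ^ k = g` (junk value `0` if `g` is not a power of `σ`). -/
noncomputable def cycIdx (σ g : G) : ℕ := sInf {k : ℕ | σ ^ k = g}

/-- The standard 2-cocycle of a cyclic group of order `n` with generator `σ` attached to an
invariant element `x` of a (multiplicative) `G`-module: `(σ^i, σ^j) ↦ x ^ ⌊(i + j) / n⌋`,
`0 ≤ i, j < n`. -/
noncomputable def cycCocycle {M : Type} [CommGroup M] (σ : G) (x : M) : G × G → M :=
  fun p => x ^ ((cycIdx σ p.1 + cycIdx σ p.2) / Nat.card G)

end Cyclic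

end Fermat.Agent.S55.Local

end
-- ===== PACK-END S55/Local/Defs.lean

-- ===== PACK-BEGIN S55/H713/Ord.lean
section


/-!
# The normalized valuation `Eˣ → ℤ` of a discrete valuation subring
-/

set_option autoImplicit false
set_option linter.unusedSectionVars false

namespace Fermat.Agent.S55.H713

variable {E : Type*} [Field E] (O : ValuationSubring E) [IsDiscreteValuationRing O]

/-- The units of `O` inside `Eˣ`. -/
def unitsIncl (O : ValuationSubring E) : Oˣ →* Eˣ := Units.map (O.subtype : O →* E)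

lemma coe_unitsIncl (u : Oˣ) : ((unitsIncl O u : Eˣ) : E) = ((u : O) : E) := rfl

lemma unitsIncl_injective : Function.Injective (unitsIncl O) := by
  intro u v h
  have : ((u : O) : E) = ((v : O) : E) := congrArg Units.val h
  exact Units.ext (Subtype.ext this)

section

variable {O} {ϖ : O} (hϖ : Irreducible ϖ)
include hϖ

lemma coe_unif_ne_zero : (ϖ : E) ≠ 0 := fun h => hϖ.ne_zero (Subtype.ext h)

lemma exists_ord (x : Eˣ) : ∃ k : ℤ, ∃ u : Oˣ, (x : E) = ((u : O) : E) * (ϖ : E) ^ k := by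
  obtain ⟨k, u, h⟩ := IsDiscreteValuationRing.exists_units_eq_smul_zpow_of_irreducible
    (K := E) hϖ x.ne_zero
  refine ⟨k, u, ?_⟩
  rw [h, Units.smul_def, Algebra.smul_def]
  rfl

lemma not_isUnit_pow {j : ℕ} (hj : 0 < j) : ¬ IsUnit (ϖ ^ j) := by
  rw [isUnit_pow_iff hj.ne']
  exact hϖ.not_isUnit

private lemma ord_unique_aux {k l : ℤ} {u u' : Oˣ} (hkl : k < l)
    (h : ((u : O) : E) * (ϖ : E) ^ k = ((u' : O) : E) * (ϖ : E) ^ l) : False := by
  obtain ⟨j, hj⟩ := Int.eq_ofNat_of_zero_le (sub_nonneg.2 hkl.le)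
  have hj0 : 0 < j := by
    rcases Nat.eq_zero_or_pos j with h0 | h0
    · subst h0; simp at hj; omega
    · exact h0
  have hl : l = k + j := by omega
  have hϖ0 := coe_unif_ne_zero hϖ
  rw [hl, zpow_add₀ hϖ0, zpow_natCast] at h
  have hk0 : (ϖ : E) ^ k ≠ 0 := zpow_ne_zero _ hϖ0
  have h2 : ((u : O) : E) = ((u' : O) : E) * (ϖ : E) ^ j := by
    apply mul_right_cancel₀ hk0
    rw [h]; ring
  have h3 : (u : O) = (u' : O) * ϖ ^ j := Subtype.ext (by simpa using h2)
  have h4 : ϖ ^ j = ((u'⁻¹ * u : Oˣ) : O) := by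
    rw [Units.val_mul, h3, ← mul_assoc, Units.inv_mul, one_mul]
  exact not_isUnit_pow hϖ hj0 (h4 ▸ (u'⁻¹ * u).isUnit)

lemma ord_unique {k l : ℤ} {u u' : Oˣ}
    (h : ((u : O) : E) * (ϖ : E) ^ k = ((u' : O) : E) * (ϖ : E) ^ l) : k = l := by
  rcases lt_trichotomy k l with hkl | hkl | hkl
  · exact (ord_unique_aux hϖ hkl h).elim
  · exact hkl
  · exact (ord_unique_aux hϖ hkl h.symm).elim

/-- The order of a nonzero element. -/
noncomputable def ord (x : Eˣ) : ℤ := (exists_ord hϖ x).choose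

lemma ord_eq {x : Eˣ} {k : ℤ} {u : Oˣ} (h : (x : E) = ((u : O) : E) * (ϖ : E) ^ k) :
    ord hϖ x = k := by
  obtain ⟨u', hu'⟩ := (exists_ord hϖ x).choose_spec
  exact (ord_unique hϖ (h.symm.trans hu')).symm

lemma ord_spec (x : Eˣ) : ∃ u : Oˣ, (x : E) = ((u : O) : E) * (ϖ : E) ^ (ord hϖ x) :=
  (exists_ord hϖ x).choose_spec

lemma ord_mul (x y : Eˣ) : ord hϖ (x * y) = ord hϖ x + ord hϖ y := by
  obtain ⟨u, hu⟩ := ord_spec hϖ x
  obtain ⟨v, hv⟩ := ord_spec hϖ y
  apply ord_eq hϖ (u := u * v)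
  rw [Units.val_mul, hu, hv, zpow_add₀ (coe_unif_ne_zero hϖ), Units.val_mul, Subring.coe_mul]
  ring

lemma ord_one : ord hϖ (1 : Eˣ) = 0 :=
  ord_eq hϖ (u := 1) (by simp)

/-- The order as an additive homomorphism. -/
noncomputable def ordHom : Additive Eˣ →+ ℤ where
  toFun x := ord hϖ x.toMul
  map_zero' := ord_one hϖ
  map_add' x y := ord_mul hϖ x.toMul y.toMul

lemma ordHom_apply (x : Eˣ) : ordHom hϖ (Additive.ofMul x) = ord hϖ x := rfl

/-- the uniformizer as a unit of `E`. -/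
def unifUnit : Eˣ := Units.mk0 (ϖ : E) (coe_unif_ne_zero hϖ)

lemma ord_unifUnit : ord hϖ (unifUnit hϖ) = 1 :=
  ord_eq hϖ (u := 1) (by simp [unifUnit])

lemma ordHom_surjective : Function.Surjective (ordHom hϖ) := by
  intro k
  refine ⟨k • Additive.ofMul (unifUnit hϖ), ?_⟩
  rw [map_zsmul, ordHom_apply, ord_unifUnit, smul_eq_mul, mul_one]

lemma ord_eq_zero_iff (x : Eˣ) : ord hϖ x = 0 ↔ x ∈ (unitsIncl O).range := by
  constructor
  · intro h
    obtain ⟨u, hu⟩ := ord_spec hϖ x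
    rw [h, zpow_zero, mul_one] at hu
    exact ⟨u, Units.ext hu.symm⟩
  · rintro ⟨u, rfl⟩
    exact ord_eq hϖ (u := u) (by rw [zpow_zero, mul_one, coe_unitsIncl])

end

end Fermat.Agent.S55.H713

end
-- ===== PACK-END S55/H713/Ord.lean

-- ===== PACK-BEGIN S55/G/Rec/H742/WAAbs.lean
section


/-!
# S55 / G / REC2-G3 (helper742): weak approximation, elementwise form (Mathlib only)
-/

set_option autoImplicit false
set_option linter.style.haveILetI false

namespace Fermat.Agent.S55.G.Rec.H742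

/-- Weak approximation in elementwise form: finitely many nontrivial pairwise inequivalent
absolute values, arbitrary targets. -/
theorem exists_approx {F : Type*} [Field F] {ι : Type*} [Finite ι] (v : ι → AbsoluteValue F ℝ)
    (h : ∀ i, (v i).IsNontrivial) (hv : Pairwise fun i j ↦ ¬(v i).IsEquiv (v j))
    (t : ι → F) (ε : ℝ) (hε : 0 < ε) : ∃ a : F, ∀ i, v i (a - t i) < ε := by
  classical
  letI := Fintype.ofFinite ι
  have hd := AbsoluteValue.denseRange_algebraMap_pi h hv
  rw [Metric.denseRange_iff] at hd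
  obtain ⟨a, ha⟩ := hd (fun i => WithAbs.toAbs (v i) (t i)) ε hε
  refine ⟨a, fun i => ?_⟩
  have h1 := (dist_pi_lt_iff hε).1 ha i
  rw [dist_comm, dist_eq_norm] at h1
  have h2 : (algebraMap F ((i : ι) → WithAbs (v i)) a i - WithAbs.toAbs (v i) (t i))
      = WithAbs.toAbs (v i) (a - t i) := rfl
  rw [h2, WithAbs.norm_toAbs_eq] at h1
  exact h1

/-- Weak approximation with individual tolerances. -/
theorem exists_approx' {F : Type*} [Field F] {ι : Type*} [Finite ι] (v : ι → AbsoluteValue F ℝ)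
    (h : ∀ i, (v i).IsNontrivial) (hv : Pairwise fun i j ↦ ¬(v i).IsEquiv (v j))
    (t : ι → F) (ε : ι → ℝ) (hε : ∀ i, 0 < ε i) : ∃ a : F, ∀ i, v i (a - t i) < ε i := by
  classical
  letI := Fintype.ofFinite ι
  rcases isEmpty_or_nonempty ι with hι | hι
  · exact ⟨0, fun i => (hι.false i).elim⟩
  · obtain ⟨i₀, -, hi₀⟩ := Finset.exists_min_image (Finset.univ : Finset ι) ε Finset.univ_nonempty
    obtain ⟨a, ha⟩ := exists_approx v h hv t (ε i₀) (hε i₀)
    exact ⟨a, fun i => lt_of_lt_of_le (ha i) (hi₀ i (Finset.mem_univ i))⟩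

/-- Two equivalent absolute values which agree at one element of value `≠ 1` coincide. -/
theorem eq_of_isEquiv_of_apply_eq {F : Type*} [Field F] {v w : AbsoluteValue F ℝ}
    (h : v.IsEquiv w) {c : F} (hc0 : c ≠ 0) (hc1 : v c ≠ 1) (hc : v c = w c) : v = w := by
  obtain ⟨e, he0, he⟩ := AbsoluteValue.isEquiv_iff_exists_rpow_eq.1 h
  have hvc : 0 < v c := v.pos hc0
  have h1 : (v c) ^ e = v c := by
    have := congrFun he c
    rw [this, ← hc]
  have he1 : e = 1 := by
    by_contra hne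
    have hlog : Real.log (v c) ≠ 0 := by
      intro h0
      rcases Real.log_eq_zero.1 h0 with h | h | h
      · exact hvc.ne' h
      · exact hc1 h
      · linarith
    have := congrArg Real.log h1
    rw [Real.log_rpow hvc] at this
    have h3 : (e - 1) * Real.log (v c) = 0 := by linarith
    rcases mul_eq_zero.1 h3 with h | h
    · exact hne (by linarith)
    · exact hlog h
  ext x
  have := congrFun he x
  rw [he1, Real.rpow_one] at this
  exact this

end Fermat.Agent.S55.G.Rec.H742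

end
-- ===== PACK-END S55/G/Rec/H742/WAAbs.lean

-- ===== PACK-BEGIN S55/G/Rec/HP/LocH90.lean
section


/-!
# S55 / REC / HP : Hilbert 90 for 1-cocycles of finite level

`K̄/K` a Galois extension (no finiteness), `V₀ ≤ Gal(K̄/K)` a subgroup, `E'/K` a finite normal
subextension with `Gal(K̄/E') ≤ V₀`.  A 1-cocycle `β : V₀ → K̄ˣ` which is constant modulo
`Gal(K̄/E')` is a coboundary: `β n = n a / a`.
-/

set_option autoImplicit false

namespace Fermat.Agent.S55.G.Rec.HP

section Noether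

variable {K L : Type*} [Field K] [Field L] [Algebra K L] [FiniteDimensional K L]

/-- Noether's form of Hilbert 90 for a subgroup `H ≤ Gal(L/K)` (Dedekind independence). -/
theorem hilbert90_subgroup473 (H : Subgroup (L ≃ₐ[K] L)) (f : H → Lˣ)
    (hf : ∀ g h : H, f (g * h) = (g : L ≃ₐ[K] L) • f h * f g) :
    ∃ β : Lˣ, ∀ g : H, (g : L ≃ₐ[K] L) • β / β = f g := by
  classical
  have hli : LinearIndependent L (fun h : H => (((h : L ≃ₐ[K] L) : L → L))) :=
    LinearIndependent.comp (ι' := H) (linearIndependent_monoidHom L L)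
      (fun h => (((h : L ≃ₐ[K] L) : L →ₐ[K] L) : L →* L))
      (fun x y h => Subtype.ext (by
        ext z
        exact DFunLike.congr_fun h z))
  have hne : (∑ h : H, (f h : L) • (((h : L ≃ₐ[K] L) : L → L))) ≠ 0 := by
    intro h0
    have := Fintype.linearIndependent_iff.1 hli (fun h => (f h : L)) h0 1
    exact Units.ne_zero (f 1) this
  obtain ⟨z, hz⟩ : ∃ z, (∑ h : H, (f h : L) • (((h : L ≃ₐ[K] L) : L → L))) z ≠ 0 :=
    not_forall.1 (fun hall => hne (funext hall))
  have hz' : (∑ h : H, (f h : L) * (h : L ≃ₐ[K] L) z) ≠ 0 := by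
    simpa [Finset.sum_apply] using hz
  refine ⟨(Units.mk0 _ hz')⁻¹, fun g => ?_⟩
  rw [smul_inv', div_inv_eq_mul, inv_mul_eq_iff_eq_mul]
  apply Units.ext
  simp only [Units.val_mul, Units.val_mk0, AlgEquiv.smul_units_def, Units.coe_map,
    MonoidHom.coe_coe]
  rw [map_sum, Finset.sum_mul]
  have := Fintype.sum_bijective (fun i : H => g * i) (Group.mulLeft_bijective g)
    (fun i => (f (g * i) : L) * ((g * i : H) : L ≃ₐ[K] L) z)
    (fun i => (f i : L) * (i : L ≃ₐ[K] L) z) (fun i => rfl)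
  rw [← this]
  refine Finset.sum_congr rfl fun i _ => ?_
  rw [hf g i]
  simp only [Units.val_mul, AlgEquiv.smul_units_def, Units.coe_map, MonoidHom.coe_coe,
    Subgroup.coe_mul, AlgEquiv.mul_apply, map_mul]
  ring

end Noether

section Level

variable {K Kb : Type*} [Field K] [Field Kb] [Algebra K Kb] [IsGalois K Kb]

/-- **Hilbert 90 at finite level**, absolute form. -/
theorem exists_hilbert90_level (V₀ : Subgroup (Kb ≃ₐ[K] Kb)) (E' : IntermediateField K Kb)
    [FiniteDimensional K E'] [Normal K E'] (hE' : E'.fixingSubgroup ≤ V₀)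
    (β : ↥V₀ → Kbˣ)
    (hcoc : ∀ n n' : ↥V₀, β (n * n') = (n : Kb ≃ₐ[K] Kb) • β n' * β n)
    (hconst : ∀ n s : ↥V₀, (s : Kb ≃ₐ[K] Kb) ∈ E'.fixingSubgroup → β (n * s) = β n) :
    ∃ a : Kbˣ, ∀ n : ↥V₀, β n = (n : Kb ≃ₐ[K] Kb) • a / a := by
  classical
  -- `β 1 = 1`
  have h1 : β 1 = 1 := by
    have h := hcoc 1 1
    rw [mul_one, Subgroup.coe_one, one_smul] at h
    exact (mul_eq_left.1 h.symm)
  -- the fixing subgroup is normal
  have hnorm : (E'.fixingSubgroup).Normal := by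
    rw [← E'.restrictNormalHom_ker]
    exact MonoidHom.normal_ker _
  -- `β` is trivial on `Gal(K̄/E')`
  have hβs : ∀ s : ↥V₀, (s : Kb ≃ₐ[K] Kb) ∈ E'.fixingSubgroup → β s = 1 := by
    intro s hs
    have := hconst 1 s hs
    rwa [one_mul, h1] at this
  -- the values of `β` are fixed by `Gal(K̄/E')`
  have hfix : ∀ (n : ↥V₀) (s : Kb ≃ₐ[K] Kb), s ∈ E'.fixingSubgroup → s • β n = β n := by
    intro n s hs
    let s' : ↥V₀ := ⟨s, hE' hs⟩
    have hconj : ((n⁻¹ * s' * n : ↥V₀) : Kb ≃ₐ[K] Kb) ∈ E'.fixingSubgroup := by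
      have := hnorm.conj_mem s hs (n⁻¹ : ↥V₀)
      simpa [mul_assoc] using this
    have e1 : β (s' * n) = β n := by
      have : s' * n = n * (n⁻¹ * s' * n) := by group
      rw [this]
      exact hconst n _ hconj
    have e2 := hcoc s' n
    rw [e1, hβs s' hs, mul_one] at e2
    exact e2.symm
  -- so they lie in `E'`
  have hmem : ∀ n : ↥V₀, ((β n : Kbˣ) : Kb) ∈ E' := by
    intro n
    rw [← InfiniteGalois.fixedField_fixingSubgroup E']
    rintro ⟨s, hs⟩
    have := congrArg (fun u : Kbˣ => (u : Kb)) (hfix n s hs)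
    exact this
  -- restriction to `E'`
  let r : ↥V₀ →* (E' ≃ₐ[K] E') := (AlgEquiv.restrictNormalHom E').comp V₀.subtype
  have hr : ∀ (n : ↥V₀) (x : E'), ((r n x : E') : Kb) = (n : Kb ≃ₐ[K] Kb) (x : Kb) := by
    intro n x
    change algebraMap E' Kb (AlgEquiv.restrictNormal (n : Kb ≃ₐ[K] Kb) E' x) = _
    rw [AlgEquiv.restrictNormal_commutes]
    rfl
  have hrker : ∀ n : ↥V₀, r n = 1 → (n : Kb ≃ₐ[K] Kb) ∈ E'.fixingSubgroup := by
    intro n hn
    rw [IntermediateField.mem_fixingSubgroup_iff]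
    intro x hx
    have := hr n ⟨x, hx⟩
    rw [hn] at this
    exact this.symm
  have hreq : ∀ n n' : ↥V₀, r n = r n' → β n = β n' := by
    intro n n' h
    have hk : r (n⁻¹ * n') = 1 := by rw [map_mul, map_inv, h, inv_mul_cancel]
    have := hconst n (n⁻¹ * n') (hrker _ hk)
    rw [mul_inv_cancel_left] at this
    exact this.symm
  -- the finite-level cocycle
  let H : Subgroup (E' ≃ₐ[K] E') := r.range
  have hsurj : ∀ h : ↥H, ∃ n : ↥V₀, r n = (h : E' ≃ₐ[K] E') := fun h => h.2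
  choose lift hlift using hsurj
  let βH : ↥H → (↥E')ˣ := fun h =>
    Units.mk0 (⟨((β (lift h) : Kbˣ) : Kb), hmem (lift h)⟩ : E') (by
      intro h0
      have := congrArg (fun x : E' => (x : Kb)) h0
      exact Units.ne_zero (β (lift h)) this)
  have hβH : ∀ h : ↥H, (((βH h : (↥E')ˣ) : E') : Kb) = ((β (lift h) : Kbˣ) : Kb) := fun _ => rfl
  have hcocH : ∀ g h : ↥H, βH (g * h) = (g : E' ≃ₐ[K] E') • βH h * βH g := by
    intro g h
    apply Units.ext
    apply Subtype.ext
    rw [hβH]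
    have e1 : β (lift (g * h)) = β (lift g * lift h) := by
      apply hreq
      rw [hlift, map_mul, hlift, hlift]
      rfl
    rw [e1, hcoc]
    simp only [Units.val_mul, AlgEquiv.smul_units_def, Units.coe_map, MonoidHom.coe_coe,
      MulMemClass.coe_mul]
    rw [hβH g, ← hlift g, hr, hβH h]
  obtain ⟨a', ha'⟩ := hilbert90_subgroup473 H βH hcocH
  refine ⟨Units.map (algebraMap E' Kb : E' →* Kb) a', fun n => ?_⟩
  have hn : r n ∈ H := ⟨n, rfl⟩
  have e1 : β n = β (lift ⟨r n, hn⟩) := hreq _ _ (hlift ⟨r n, hn⟩).symm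
  have e2 := ha' ⟨r n, hn⟩
  have ha0 : ((a' : E') : Kb) ≠ 0 := by
    intro h0
    exact Units.ne_zero a' (Subtype.ext h0)
  have e3 : ((β n : Kbˣ) : Kb) = (n : Kb ≃ₐ[K] Kb) ((a' : E') : Kb) / ((a' : E') : Kb) := by
    have e3' := congrArg (fun u : (↥E')ˣ => (((u : E') : Kb))) e2
    simp only at e3'
    rw [hβH, ← e1] at e3'
    rw [← e3', ← hr n (a' : E')]
    simp only [Units.val_div_eq_div_val, AlgEquiv.smul_units_def, Units.coe_map,
      MonoidHom.coe_coe, IntermediateField.coe_div]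
  rw [eq_div_iff_mul_eq'']
  apply Units.ext
  simp only [Units.val_mul, AlgEquiv.smul_units_def, Units.coe_map, MonoidHom.coe_coe]
  rw [e3]
  change ((a' : E') : Kb) * _ = (n : Kb ≃ₐ[K] Kb) ((a' : E') : Kb)
  field_simp

end Level

end Fermat.Agent.S55.G.Rec.HP

end
-- ===== PACK-END S55/G/Rec/HP/LocH90.lean

-- ===== PACK-BEGIN S55/H295/Basic.lean
section


/-!
# Cohomological triviality, part 0: vanishing propagation

Elementary consequences of the long exact sequences of group cohomology and Tate cohomology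
("if two out of three neighbours vanish ..."), transport of vanishing along injective group
homomorphisms, and concrete criteria for short exactness in `Rep k G`.
-/

set_option autoImplicit false

open CategoryTheory groupCohomology Rep Limits

universe u

namespace Fermat.Agent.S55.H295

noncomputable section

section LES

variable {k G : Type u} [CommRing k] [Group G]
  {X : ShortComplex (Rep.{u} k G)}

/-- `Hⁿ(X₁) = 0` and `Hⁿ(X₃) = 0` imply `Hⁿ(X₂) = 0`. -/
theorem isZero_H_mid (hX : X.ShortExact) (n : ℕ)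
    (h1 : IsZero (groupCohomology X.X₁ n)) (h3 : IsZero (groupCohomology X.X₃ n)) :
    IsZero (groupCohomology X.X₂ n) :=
  (mapShortComplex₂_exact hX n).isZero_of_both_isZero h1 h3

/-- `Hⁿ(X₂) = 0` and `Hⁿ⁺¹(X₁) = 0` imply `Hⁿ(X₃) = 0`. -/
theorem isZero_H_right (hX : X.ShortExact) (n : ℕ)
    (h2 : IsZero (groupCohomology X.X₂ n)) (h1 : IsZero (groupCohomology X.X₁ (n + 1))) :
    IsZero (groupCohomology X.X₃ n) :=
  (mapShortComplex₃_exact hX (i := n) rfl).isZero_of_both_isZero h2 h1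

/-- `Hⁿ(X₃) = 0` and `Hⁿ⁺¹(X₂) = 0` imply `Hⁿ⁺¹(X₁) = 0`. -/
theorem isZero_H_left (hX : X.ShortExact) (n : ℕ)
    (h3 : IsZero (groupCohomology X.X₃ n)) (h2 : IsZero (groupCohomology X.X₂ (n + 1))) :
    IsZero (groupCohomology X.X₁ (n + 1)) :=
  (mapShortComplex₁_exact hX (i := n) rfl).isZero_of_both_isZero h3 h2

end LES

section TateLES

variable {k G : Type u} [CommRing k] [Group G] [Fintype G]
  {X : ShortComplex (Rep.{u} k G)}

/-- Tate version: `Ĥⁿ(X₁) = 0` and `Ĥⁿ(X₃) = 0` imply `Ĥⁿ(X₂) = 0`. -/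
theorem isZero_tate_mid (hX : X.ShortExact) (n : ℤ)
    (h1 : IsZero (tateCohomology X.X₁ n)) (h3 : IsZero (tateCohomology X.X₃ n)) :
    IsZero (tateCohomology X.X₂ n) :=
  ((TateCohomology.map_tateComplexFunctor_shortExact hX).homology_exact₂ n).isZero_of_both_isZero
    h1 h3

/-- Tate version: `Ĥⁿ(X₂) = 0` and `Ĥⁿ⁺¹(X₁) = 0` imply `Ĥⁿ(X₃) = 0`. -/
theorem isZero_tate_right (hX : X.ShortExact) (n : ℤ)
    (h2 : IsZero (tateCohomology X.X₂ n)) (h1 : IsZero (tateCohomology X.X₁ (n + 1))) :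
    IsZero (tateCohomology X.X₃ n) :=
  (TateCohomology.exact₃ hX n).isZero_of_both_isZero h2 h1

/-- Tate version: `Ĥⁿ(X₃) = 0` and `Ĥⁿ⁺¹(X₂) = 0` imply `Ĥⁿ⁺¹(X₁) = 0`. -/
theorem isZero_tate_left (hX : X.ShortExact) (n : ℤ)
    (h3 : IsZero (tateCohomology X.X₃ n)) (h2 : IsZero (tateCohomology X.X₂ (n + 1))) :
    IsZero (tateCohomology X.X₁ (n + 1)) :=
  (TateCohomology.exact₁ hX n).isZero_of_both_isZero h3 h2

end TateLES

section ShortExact

variable {k G : Type u} [CommRing k] [Group G]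

/-- Concrete criterion for short exactness in `Rep k G`. -/
theorem rep_shortExact_of (X : ShortComplex (Rep.{u} k G))
    (h1 : Function.Injective X.f.hom)
    (h2 : ∀ x : X.X₂, X.g.hom x = 0 → ∃ y : X.X₁, X.f.hom y = x)
    (h3 : Function.Surjective X.g.hom) : X.ShortExact where
  exact := by
    rw [← ShortComplex.exact_map_iff_of_faithful X (forget₂ (Rep.{u} k G) (ModuleCat.{u} k)),
      ShortComplex.moduleCat_exact_iff]
    exact h2
  mono_f := (Rep.mono_iff_injective _).2 h1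
  epi_g := (Rep.epi_iff_surjective _).2 h3

theorem rep_shortExact_inj {X : ShortComplex (Rep.{u} k G)} (hX : X.ShortExact) :
    Function.Injective X.f.hom :=
  (Rep.mono_iff_injective _).1 hX.mono_f

theorem rep_shortExact_surj {X : ShortComplex (Rep.{u} k G)} (hX : X.ShortExact) :
    Function.Surjective X.g.hom :=
  (Rep.epi_iff_surjective _).1 hX.epi_g

theorem rep_shortExact_exact {X : ShortComplex (Rep.{u} k G)} (hX : X.ShortExact)
    (x : X.X₂) (hx : X.g.hom x = 0) : ∃ y : X.X₁, X.f.hom y = x := by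
  have := hX.exact
  rw [← ShortComplex.exact_map_iff_of_faithful X (forget₂ (Rep.{u} k G) (ModuleCat.{u} k)),
    ShortComplex.moduleCat_exact_iff] at this
  exact this x hx

end ShortExact

section Transport

variable {k G H : Type u} [CommRing k] [Group G] [Group H]

/-- Cohomology of the restriction along an injective homomorphism is the cohomology of the
restriction to its range. -/
def resRangeIso (f : H →* G) (hf : Function.Injective f) (A : Rep.{u} k G) (n : ℕ) :
    groupCohomology (res f A) n ≅ groupCohomology (res f.range.subtype A) n :=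
  groupCohomology.mapIso (A := res f.range.subtype A) (B := res f A)
    (MonoidHom.ofInjective hf) (LinearEquiv.refl k A.V) (fun _ => rfl) n

theorem isZero_res_of_range (f : H →* G) (hf : Function.Injective f) (A : Rep.{u} k G) (n : ℕ)
    (h : IsZero (groupCohomology (res f.range.subtype A) n)) :
    IsZero (groupCohomology (res f A) n) :=
  IsZero.of_iso h (resRangeIso f hf A n)

end Transport

end

end Fermat.Agent.S55.H295

end
-- ===== PACK-END S55/H295/Basic.lean

-- ===== PACK-BEGIN S55/H901/SelmerFinite.lean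
section


set_option autoImplicit false
set_option linter.unusedSectionVars false

/-!
# Finiteness of Selmer groups `K(S, n)`

For a Dedekind domain `R` with fraction field `K`, finite class group and finitely generated unit
group (e.g. the ring of integers of a number field), a finite set `S` of primes and `n > 0`, the
Selmer group `K(S, n) = {x ∈ Kˣ / (Kˣ)ⁿ : n ∣ ord_v x for all v ∉ S}` is finite.
-/

namespace Fermat.Agent.S55.H901

open IsDedekindDomain HeightOneSpectrum FractionalIdeal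
open scoped nonZeroDivisors

variable {R : Type*} [CommRing R] [IsDedekindDomain R] {K : Type*} [Field K]
  [Algebra R K] [IsFractionRing R K]

/-- the valuation of `x` in terms of the multiplicity of `v` in the principal fractional ideal -/
lemma valuationOfNeZero_eq_count (v : HeightOneSpectrum R) (x : Kˣ) :
    v.valuationOfNeZero x
      = Multiplicative.ofAdd (-(count K v (spanSingleton R⁰ (x : K)))) := by
  classical
  have hx0 : spanSingleton R⁰ (x : K) ≠ 0 := by
    rw [Ne, spanSingleton_eq_zero_iff]; exact x.ne_zero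
  set a := (IsLocalization.sec R⁰ (x : K)).1 with ha
  set b := (IsLocalization.sec R⁰ (x : K)).2 with hb
  have hspec : (x : K) * algebraMap R K b = algebraMap R K a := IsLocalization.sec_spec R⁰ (x : K)
  have hb0 : algebraMap R K (b : R) ≠ 0 :=
    IsFractionRing.to_map_ne_zero_of_mem_nonZeroDivisors b.2
  have hI : spanSingleton R⁰ (x : K)
      = spanSingleton R⁰ ((algebraMap R K) (b : R))⁻¹ * ↑(Ideal.span {a}) := by
    rw [coeIdeal_span_singleton, spanSingleton_mul_spanSingleton]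
    congr 1
    field_simp
    exact hspec
  rw [count_well_defined K v hx0 hI]
  change v.valuationOfNeZeroToFun x = _
  rw [valuationOfNeZeroToFun]
  simp only [← ha, ← hb]
  congr 1
  ring

lemma valuationOfNeZeroMod_mk_eq_one_iff (v : HeightOneSpectrum R) (n : ℕ) (x : Kˣ) :
    v.valuationOfNeZeroMod n
        (QuotientGroup.mk x : Kˣ ⧸ (powMonoidHom n : Kˣ →* Kˣ).range) = 1
      ↔ (n : ℤ) ∣ Multiplicative.toAdd (v.valuationOfNeZero x) := by
  have key : v.valuationOfNeZeroMod n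
        (QuotientGroup.mk x : Kˣ ⧸ (powMonoidHom n : Kˣ →* Kˣ).range)
      = Multiplicative.ofAdd ((Int.quotientZMultiplesNatEquivZMod n)
          (QuotientAddGroup.mk (Multiplicative.toAdd (v.valuationOfNeZero x)))) := rfl
  rw [key]
  constructor
  · intro h
    have h1 : (Int.quotientZMultiplesNatEquivZMod n)
        (QuotientAddGroup.mk (Multiplicative.toAdd (v.valuationOfNeZero x))) = 0 := h
    rw [AddEquiv.map_eq_zero_iff, QuotientAddGroup.eq_zero_iff, Int.mem_zmultiples_iff] at h1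
    exact h1
  · intro h
    have h1 : (Int.quotientZMultiplesNatEquivZMod n)
        (QuotientAddGroup.mk (Multiplicative.toAdd (v.valuationOfNeZero x))) = 0 := by
      rw [AddEquiv.map_eq_zero_iff, QuotientAddGroup.eq_zero_iff, Int.mem_zmultiples_iff]
      exact h
    rw [h1]
    rfl

/-- a nonzero fractional ideal all of whose multiplicities are divisible by `n` is an
`n`-th power -/
lemma exists_pow_eq_of_dvd_count {n : ℕ} (I : FractionalIdeal R⁰ K) (hI : I ≠ 0)
    (h : ∀ v : HeightOneSpectrum R, (n : ℤ) ∣ count K v I) :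
    ∃ J : FractionalIdeal R⁰ K, J ^ n = I := by
  classical
  set exps : HeightOneSpectrum R → ℤ := fun v => count K v I / n with hexps
  have hfin : (Function.mulSupport fun v : HeightOneSpectrum R =>
      (v.asIdeal : FractionalIdeal R⁰ K) ^ exps v).Finite := by
    have h0 := finite_factors (K := K) I
    rw [Filter.eventually_cofinite] at h0
    refine h0.subset ?_
    intro v hv
    simp only [Function.mem_mulSupport, ne_eq] at hv
    simp only [Set.mem_ofPred_eq]
    intro hc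
    apply hv
    rw [hexps]
    simp [hc]
  refine ⟨∏ᶠ v : HeightOneSpectrum R, (v.asIdeal : FractionalIdeal R⁰ K) ^ exps v, ?_⟩
  rw [finprod_pow hfin]
  conv_rhs => rw [← finprod_heightOneSpectrum_factorization' (K := K) hI]
  apply finprod_congr
  intro v
  rw [← zpow_natCast, ← zpow_mul, hexps]
  congr 1
  exact Int.ediv_mul_cancel (h v)

/-- an element of `Kˣ` whose class lies in `K(∅, n)` generates the `n`-th power of a
fractional ideal -/
lemma exists_pow_eq_spanSingleton {n : ℕ} (hn : 0 < n) (x : Kˣ)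
    (hx : (QuotientGroup.mk x : Kˣ ⧸ (powMonoidHom n : Kˣ →* Kˣ).range) ∈
      selmerGroup (R := R) (K := K) (S := (∅ : Set (HeightOneSpectrum R))) (n := n)) :
    ∃ J : (FractionalIdeal R⁰ K)ˣ, (J : FractionalIdeal R⁰ K) ^ n = spanSingleton R⁰ (x : K) := by
  have hx0 : spanSingleton R⁰ (x : K) ≠ 0 := by
    rw [Ne, spanSingleton_eq_zero_iff]; exact x.ne_zero
  have hdvd : ∀ v : HeightOneSpectrum R, (n : ℤ) ∣ count K v (spanSingleton R⁰ (x : K)) := by
    intro v
    have h1 := (valuationOfNeZeroMod_mk_eq_one_iff v n x).1 (hx v (Set.notMem_empty v))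
    rw [valuationOfNeZero_eq_count, toAdd_ofAdd] at h1
    exact (Int.dvd_neg).1 h1
  obtain ⟨J, hJ⟩ := exists_pow_eq_of_dvd_count _ hx0 hdvd
  have hJ0 : J ≠ 0 := by
    rintro rfl
    rw [zero_pow hn.ne'] at hJ
    exact hx0 hJ.symm
  exact ⟨Units.mk0 J hJ0, hJ⟩

section Main

variable (R K)

/-- the unit group modulo `n`-th powers is finite when the unit group is finitely generated -/
lemma finite_units_mod_pow [Group.FG Rˣ] {n : ℕ} (hn : 0 < n) :
    Finite (Rˣ ⧸ (powMonoidHom n : Rˣ →* Rˣ).range) := by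
  apply CommGroup.finite_of_fg_isMulTorsion
  intro g
  obtain ⟨u, rfl⟩ := QuotientGroup.mk_surjective g
  rw [isOfFinOrder_iff_pow_eq_one]
  refine ⟨n, hn, ?_⟩
  rw [← QuotientGroup.mk_pow, QuotientGroup.eq_one_iff]
  exact ⟨u, rfl⟩

variable {R K}

/-- `K(∅, n)` is finite -/
theorem selmerGroup_empty_finite [Finite (ClassGroup R)] [Group.FG Rˣ] {n : ℕ} (hn : 0 < n) :
    Finite (selmerGroup (R := R) (K := K) (S := (∅ : Set (HeightOneSpectrum R))) (n := n)) := by
  classical
  have : Fact (0 < n) := ⟨hn⟩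
  have := finite_units_mod_pow R hn
  set G₀ := selmerGroup (R := R) (K := K) (S := (∅ : Set (HeightOneSpectrum R))) (n := n)
    with hG₀
  -- the image of the units is finite
  have hH : (Set.range (selmerGroup.fromUnitLift (R := R) (K := K) (n := n))).Finite :=
    Set.finite_range _
  -- representatives and roots
  have hrep : ∀ g : G₀, ∃ (x : Kˣ) (J : (FractionalIdeal R⁰ K)ˣ),
      (QuotientGroup.mk x : Kˣ ⧸ (powMonoidHom n : Kˣ →* Kˣ).range) = g.1 ∧
      (J : FractionalIdeal R⁰ K) ^ n = spanSingleton R⁰ (x : K) := by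
    intro g
    obtain ⟨x, hx⟩ := QuotientGroup.mk_surjective g.1
    have hxm : (QuotientGroup.mk x : Kˣ ⧸ (powMonoidHom n : Kˣ →* Kˣ).range) ∈ G₀ := by
      rw [hx]; exact g.2
    obtain ⟨J, hJ⟩ := exists_pow_eq_spanSingleton hn x hxm
    exact ⟨x, J, hx, hJ⟩
  choose xrep Jrep hxrep hJrep using hrep
  set c : G₀ → ClassGroup R := fun g => ClassGroup.mk K (Jrep g) with hc
  -- fibres of `c` lie in cosets of the image of the units
  have hfib : ∀ g g' : G₀, c g = c g' →
      g ∈ (fun h => h * g') '' Set.range (selmerGroup.fromUnitLift (R := R) (K := K) (n := n)) := by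
    intro g g' hgg'
    have h1 : ClassGroup.mk K (Jrep g * (Jrep g')⁻¹) = 1 := by
      rw [map_mul, map_inv]
      change c g * (c g')⁻¹ = 1
      rw [hgg', mul_inv_cancel]
    rw [ClassGroup.mk_eq_one_iff] at h1
    obtain ⟨y, hy⟩ := h1.principal
    have hy' : ((Jrep g * (Jrep g')⁻¹ : (FractionalIdeal R⁰ K)ˣ) : FractionalIdeal R⁰ K)
        = spanSingleton R⁰ y := by
      apply Subtype.coe_injective
      simp only [val_eq_coe, hy, coe_spanSingleton]
    have hy0 : y ≠ 0 := by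
      rintro rfl
      rw [spanSingleton_zero] at hy'
      exact Units.ne_zero _ hy'
    have hJJ : (Jrep g : FractionalIdeal R⁰ K) = spanSingleton R⁰ y * (Jrep g') := by
      rw [← hy', Units.val_mul, mul_assoc, ← Units.val_mul, inv_mul_cancel, Units.val_one,
        mul_one]
    have hspan : spanSingleton R⁰ ((xrep g : Kˣ) : K)
        = spanSingleton R⁰ (y ^ n * ((xrep g' : Kˣ) : K)) := by
      rw [← hJrep g, hJJ, mul_pow, hJrep g', spanSingleton_pow, spanSingleton_mul_spanSingleton]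
    obtain ⟨u, hu⟩ := (spanSingleton_eq_spanSingleton (R := R)).1 hspan
    -- `u • x = y ^ n * x'`
    refine ⟨selmerGroup.fromUnitLift (R := R) (K := K) (n := n) (QuotientGroup.mk u⁻¹),
      ⟨⟨_, rfl⟩, ?_⟩⟩
    apply Subtype.ext
    rw [Subgroup.coe_mul, ← hxrep g, ← hxrep g']
    have hlift : ((selmerGroup.fromUnitLift (R := R) (K := K) (n := n) (QuotientGroup.mk u⁻¹) :
        G₀) : Kˣ ⧸ (powMonoidHom n : Kˣ →* Kˣ).range)
        = QuotientGroup.mk (Units.map (algebraMap R K).toMonoidHom u⁻¹) := rfl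
    rw [hlift, ← QuotientGroup.mk_mul, eq_comm, QuotientGroup.eq]
    refine ⟨(Units.mk0 y hy0)⁻¹, ?_⟩
    apply Units.ext
    simp only [powMonoidHom_apply, Units.val_mul, Units.val_pow_eq_pow_val, Units.val_inv_eq_inv_val,
      Units.val_mk0, Units.coe_map, MonoidHom.coe_coe, RingHom.toMonoidHom_eq_coe, map_inv]
    have hu' : algebraMap R K (u : R) * ((xrep g : Kˣ) : K) = y ^ n * ((xrep g' : Kˣ) : K) := by
      rw [← hu, Units.smul_def, Algebra.smul_def]
    have hux : algebraMap R K (u : R) ≠ 0 := by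
      intro h0
      have : algebraMap R K (u : R) * algebraMap R K ((u⁻¹ : Rˣ) : R) = 1 := by
        rw [← map_mul, Units.mul_inv, map_one]
      rw [h0, zero_mul] at this
      exact zero_ne_one this
    have hx'0 : ((xrep g' : Kˣ) : K) ≠ 0 := Units.ne_zero _
    have hx0 : ((xrep g : Kˣ) : K) ≠ 0 := Units.ne_zero _
    have hyn : y ^ n ≠ 0 := pow_ne_zero n hy0
    field_simp
    linear_combination hu'
  -- conclusion
  rw [← Set.finite_univ_iff]
  refine Set.Finite.of_finite_fibers c (Set.toFinite _) ?_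
  rintro cls ⟨g', -, rfl⟩
  refine (hH.image (fun h => h * g')).subset ?_
  rintro g ⟨-, hg⟩
  exact hfib g g' hg

/-- **Finiteness of the Selmer group** `K(S, n)` for a finite set `S` of primes and `n > 0`,
over a Dedekind domain with finite class group and finitely generated unit group. -/
theorem selmerGroup_finite_of_fg [Finite (ClassGroup R)] [Group.FG Rˣ]
    {S : Set (HeightOneSpectrum R)} (hS : S.Finite) {n : ℕ} (hn : 0 < n) :
    Finite (selmerGroup (R := R) (K := K) (S := S) (n := n)) := by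
  classical
  have : NeZero n := ⟨hn.ne'⟩
  have : Finite S := hS.to_subtype
  have h0 := selmerGroup_empty_finite (R := R) (K := K) hn
  set f := selmerGroup.valuation (R := R) (K := K) (S := S) (n := n) with hf
  -- the kernel is finite
  have hker : (f.ker : Set (selmerGroup (R := R) (K := K) (S := S) (n := n))).Finite := by
    rw [hf, selmerGroup.valuation_ker_eq]
    have hinj : Set.InjOn (fun g : selmerGroup (R := R) (K := K) (S := S) (n := n) => g.1)
        ((selmerGroup (R := R) (K := K) (S := (∅ : Set (HeightOneSpectrum R))) (n := n)).subgroupOf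
          (selmerGroup (R := R) (K := K) (S := S) (n := n)) : Set _) :=
      fun a _ b _ hab => Subtype.ext hab
    refine Set.Finite.of_injOn (t := ((selmerGroup (R := R) (K := K)
      (S := (∅ : Set (HeightOneSpectrum R))) (n := n) : Subgroup _) : Set _)) ?_ hinj
      (Set.finite_coe_iff.1 h0)
    intro g hg
    exact Subgroup.mem_subgroupOf.1 hg
  rw [← Set.finite_univ_iff]
  refine Set.Finite.of_finite_fibers f (Set.toFinite _) ?_
  rintro b ⟨g', -, rfl⟩
  refine (hker.image (fun h => h * g')).subset ?_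
  rintro g ⟨-, hg⟩
  refine ⟨g * g'⁻¹, ?_, by simp⟩
  rw [SetLike.mem_coe, MonoidHom.mem_ker, map_mul, map_inv]
  have : f g = f g' := hg
  rw [this, mul_inv_cancel]

end Main

section NumberField

open NumberField

variable {F : Type*} [Field F] [NumberField F]

/-- **Finiteness of the Selmer group** `F(S, n)` of a number field `F`, for a finite set `S` of
primes and `n > 0`. -/
theorem selmerGroup_finite {S : Set (HeightOneSpectrum (𝓞 F))} (hS : S.Finite) {n : ℕ}
    (hn : 0 < n) :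
    Finite (selmerGroup (R := 𝓞 F) (K := F) (S := S) (n := n)) := by
  have : Group.FG (𝓞 F)ˣ := Group.fg_iff_monoid_fg.2 inferInstance
  exact selmerGroup_finite_of_fg hS hn

end NumberField

end Fermat.Agent.S55.H901

end
-- ===== PACK-END S55/H901/SelmerFinite.lean

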