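import Mathlib
import Fermat.Prelude.Def_ExtCitation_AdmissibleExtension_v2
import Fermat.Prelude.Def_GaloisRep_CompletionBridge
import Fermat.Prelude.Def_GroupCohomology_ContinuousH2Map
import Fermat.Prelude.Thm_Algebra_finite_maximalSpectrum_and_bijective_localization_of_module_finite
import Fermat.Prelude.Thm_IsLocalRing_isAdicComplete_of_module_finite

-- ===== PACK-BEGIN S17/H140/InertiaFinite.lean
section


/-!
# S17 / W-HM, part (1), finite level (helper140)

`ramificationIdx_under_eq_one`: let `L/ℚ` be a finite Galois extension, `K` an intermediate field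
and `P` a maximal ideal of `𝓞 L`.  If the inertia group of `P` in `Gal(L/ℚ)` fixes `K` pointwise,
then the prime of `𝓞 K` below `P` has ramification index `1` over `ℤ`.

Proof: `e(P | ℤ) = #I(P | ℚ)`, `e(P | 𝓞 K) = #I(P | K) = #(I(P | ℚ) ∩ Gal(L/K)) = #I(P | ℚ)` and
`e` is multiplicative in towers.
-/

set_option autoImplicit false

namespace Fermat.Agent.S17.H140

open NumberField Ideal

/-- If the inertia group of `P` fixes the intermediate field `K`, then the prime of `K` below `P`
is unramified over `ℤ`. -/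
theorem ramificationIdx_under_eq_one (L : Type*) [Field L] [NumberField L] [IsGalois ℚ L]
    (K : IntermediateField ℚ L) (P : Ideal (𝓞 L)) [P.IsMaximal]
    (h : ∀ σ ∈ Ideal.inertia Gal(L/ℚ) P, ∀ a ∈ K, σ a = a) :
    (P.under (𝓞 K)).ramificationIdx ℤ = 1 := by
  classical
  let H : Subgroup Gal(L/ℚ) := fixingSubgroup Gal(L/ℚ) (K : Set L)
  have h1 : IsGaloisGroup H K L := IsGaloisGroup.intermediateField Gal(L/ℚ) ℚ L K
  have h2 : IsGaloisGroup H (𝓞 K) (𝓞 L) := IsGaloisGroup.of_isFractionRing H (𝓞 K) (𝓞 L) K L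
  have h3 := card_inertia_eq_ramificationIdxIn (G := H) (P.under (𝓞 K)) P
  have h4 := card_inertia_eq_ramificationIdxIn (G := Gal(L/ℚ)) (P.under ℤ) P
  have h5 := ramificationIdxIn_eq_ramificationIdx (P.under (𝓞 K)) P H
  have h6 := ramificationIdxIn_eq_ramificationIdx (P.under ℤ) P Gal(L/ℚ)
  have h7 := ramificationIdx_tower (R := ℤ) (P.under (𝓞 K)) P
  have h8 := AddSubgroup.subgroupOf_inertia P.toAddSubgroup H
  have hle : Ideal.inertia Gal(L/ℚ) P ≤ H := by
    intro σ hσ
    rw [mem_fixingSubgroup_iff]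
    intro a ha
    exact h σ hσ a ha
  have hcard : Nat.card (Ideal.inertia H P) = Nat.card (Ideal.inertia Gal(L/ℚ) P) := by
    have : Ideal.inertia H P = (Ideal.inertia Gal(L/ℚ) P).subgroupOf H := h8.symm
    rw [this]
    exact Nat.card_congr (Subgroup.subgroupOfEquivOfLe hle).toEquiv
  have hpos : 0 < P.ramificationIdx (𝓞 K) := Ideal.ramificationIdx_pos P (𝓞 K)
  have heq : P.ramificationIdx ℤ = P.ramificationIdx (𝓞 K) := by
    rw [← h6, ← h4, ← hcard, h3, h5]
  rw [heq] at h7
  have : (P.under (𝓞 K)).ramificationIdx ℤ * P.ramificationIdx (𝓞 K)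
      = 1 * P.ramificationIdx (𝓞 K) := by rw [one_mul]; exact h7.symm
  exact Nat.eq_of_mul_eq_mul_right hpos this

/-- Finite-level criterion: if all inertia groups above `ℓ` in `Gal(L/ℚ)` fix `K`, then
`ℓ ∤ disc K`. -/
theorem not_dvd_discr_of_inertia (L : Type*) [Field L] [NumberField L] [IsGalois ℚ L]
    (K : IntermediateField ℚ L) (ℓ : ℕ) (hℓ : ℓ.Prime)
    (h : ∀ P : Ideal (𝓞 L), P.IsMaximal → (ℓ : 𝓞 L) ∈ P →
      ∀ σ ∈ Ideal.inertia Gal(L/ℚ) P, ∀ a ∈ K, σ a = a) :
    ¬ (ℓ : ℤ) ∣ NumberField.discr K := by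
  have hp : Prime (ℓ : ℤ) := Nat.prime_iff_prime_int.mp hℓ
  rw [NumberField.not_dvd_discr_iff_forall_mem K (𝓞 K) hp]
  intro p hpP hmem
  have hp0 : p ≠ ⊥ := by
    intro h0
    rw [h0, Ideal.mem_bot] at hmem
    have : ((ℓ : ℤ) : 𝓞 K) = 0 := hmem
    have h2 : (ℓ : ℤ) = 0 := by exact_mod_cast this
    exact hℓ.ne_zero (by exact_mod_cast h2)
  have hpmax : p.IsMaximal := hpP.isMaximal hp0
  obtain ⟨P, hPmax, hPover⟩ := Ideal.exists_maximal_ideal_liesOver_of_isIntegral (S := 𝓞 L) p
  have hℓP : (ℓ : 𝓞 L) ∈ P := by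
    have h1 : algebraMap (𝓞 K) (𝓞 L) ((ℓ : ℤ) : 𝓞 K) ∈ P := by
      rw [← Ideal.mem_comap]
      have := hPover.over
      rw [Ideal.under_def] at this
      rw [← this]; exact hmem
    simpa using h1
  have key := ramificationIdx_under_eq_one L K P (h P hPmax hℓP)
  have hunder : P.under (𝓞 K) = p := (hPover.over).symm
  rw [hunder] at key
  exact Ideal.ramificationIdx_eq_one_iff.mp key

end Fermat.Agent.S17.H140

end
-- ===== PACK-END S17/H140/InertiaFinite.lean

-- ===== PACK-BEGIN S55/Bridge/H594/Profinite.lean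
section


/-!
# S55 bridge (helper594): relative transitivity and residue surjectivity for a closed subgroup

Let a profinite group `G` act continuously on a (discrete) commutative ring `B`, and let `H ≤ G`
be a closed subgroup.  Applying Mathlib's profinite invariant theory to `H` acting on `B` with
base ring the fixed subring `B^H`, we get:

* `exists_smul_eq_of_forall_fixed_mem_iff`: two primes of `B` with the same intersection with
  `B^H` are conjugate under `H`;
* `exists_stabilizer_congr_of_forall_fixed`: if `σ ∈ G` stabilises the prime `P` and acts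
  trivially on `B^H` modulo `P`, then some `h ∈ H` stabilising `P` acts as `σ` on `B ⧸ P`.
-/

set_option autoImplicit false
set_option linter.unusedSectionVars false
set_option linter.style.haveILetI false

namespace Fermat.Agent.S55.Bridge.H594

open scoped Pointwise

section abstract

variable {B : Type*} [CommRing B]
variable {G : Type*} [Group G] [MulSemiringAction G B]
variable [TopologicalSpace G] [CompactSpace G] [TotallyDisconnectedSpace G]
variable [IsTopologicalGroup G] [TopologicalSpace B] [DiscreteTopology B] [ContinuousSMul G B]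

/-- `B` is invariant over its fixed subalgebra. -/
theorem isInvariant_fixedPoints (H : Subgroup G) :
    Algebra.IsInvariant (FixedPoints.subalgebra ℤ B H) B H :=
  ⟨fun b hb => ⟨⟨b, hb⟩, rfl⟩⟩

theorem continuousSMul_subgroup (H : Subgroup G) : ContinuousSMul H B := by
  refine ⟨?_⟩
  have h1 : Continuous fun p : H × B => ((p.1 : G), p.2) :=
    (continuous_subtype_val.comp continuous_fst).prodMk continuous_snd
  exact (continuous_smul (M := G) (X := B)).comp h1

/-- Two primes of `B` with the same `H`-fixed elements are `H`-conjugate (`H` closed). -/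
theorem exists_smul_eq_of_forall_fixed_mem_iff (H : Subgroup G) (hH : IsClosed (H : Set G))
    (P Q : Ideal B) [P.IsPrime] [Q.IsPrime]
    (hPQ : ∀ b : B, (∀ h : H, h • b = b) → (b ∈ P ↔ b ∈ Q)) :
    ∃ h : H, Q = (h : G) • P := by
  haveI : CompactSpace H := isCompact_iff_compactSpace.mp hH.isCompact
  haveI := continuousSMul_subgroup (B := B) H
  haveI := _root_.Fermat.Agent.S55.Bridge.H594.isInvariant_fixedPoints (B := B) H
  have hunder : P.under (FixedPoints.subalgebra ℤ B H) = Q.under (FixedPoints.subalgebra ℤ B H) := by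
    ext ⟨b, hb⟩
    simp only [Ideal.under, Ideal.mem_comap]
    exact hPQ b hb
  obtain ⟨h, hh⟩ := Algebra.IsInvariant.exists_smul_of_under_eq_of_profinite
    (A := FixedPoints.subalgebra ℤ B H) (B := B) (G := H) P Q hunder
  exact ⟨h, hh⟩

/-- If `σ ∈ G` stabilises the prime `P` and acts trivially modulo `P` on the `H`-fixed elements,
then there is `h ∈ H` stabilising `P` and acting as `σ` on `B ⧸ P` (`H` closed). -/
theorem exists_stabilizer_congr_of_forall_fixed (H : Subgroup G) (hH : IsClosed (H : Set G))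
    (P : Ideal B) [P.IsPrime] (σ : G) (hσP : σ • P = P)
    (hσ : ∀ b : B, (∀ h : H, h • b = b) → σ • b - b ∈ P) :
    ∃ h : H, (h : G) • P = P ∧ ∀ b : B, (h : G) • b - σ • b ∈ P := by
  haveI : CompactSpace H := isCompact_iff_compactSpace.mp hH.isCompact
  haveI := continuousSMul_subgroup (B := B) H
  haveI := _root_.Fermat.Agent.S55.Bridge.H594.isInvariant_fixedPoints (B := B) H
  let A' := FixedPoints.subalgebra ℤ B H
  let p : Ideal A' := P.under A'
  haveI : P.LiesOver p := ⟨rfl⟩
  have hmap : P = P.map (MulSemiringAction.toRingEquiv G B σ) := by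
    conv_lhs => rw [← hσP]
    rfl
  let φ₀ : (B ⧸ P) ≃+* (B ⧸ P) :=
    Ideal.quotientEquiv P P (MulSemiringAction.toRingEquiv G B σ) hmap
  have hφ₀ : ∀ b : B, φ₀ (Ideal.Quotient.mk P b) = Ideal.Quotient.mk P (σ • b) := fun b => rfl
  let φ : (B ⧸ P) ≃ₐ[A' ⧸ p] (B ⧸ P) :=
    { φ₀ with
      commutes' := by
        rintro ⟨a⟩
        show φ₀ (Ideal.Quotient.mk P (a : B)) = Ideal.Quotient.mk P (a : B)
        rw [hφ₀, Ideal.Quotient.eq]
        exact hσ a a.2 }
  obtain ⟨h, hh⟩ := Ideal.Quotient.stabilizerHom_surjective_of_profinite (G := H) p P φ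
  refine ⟨h.1, ?_, fun b => ?_⟩
  · exact h.2
  · have h1 : (Ideal.Quotient.stabilizerHom P p H h) (Ideal.Quotient.mk P b) =
        φ (Ideal.Quotient.mk P b) := by rw [hh]
    rw [Ideal.Quotient.stabilizerHom_apply] at h1
    have h2 : φ (Ideal.Quotient.mk P b) = Ideal.Quotient.mk P (σ • b) := hφ₀ b
    rw [h2, Ideal.Quotient.eq] at h1
    exact h1

end abstract

end Fermat.Agent.S55.Bridge.H594

end
-- ===== PACK-END S55/Bridge/H594/Profinite.lean

-- ===== PACK-BEGIN S14/H714/Basic.lean
section



/-!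
# S14, block GALOIS (helper714): basic facts

* the instances needed to do (infinite) Galois theory on `AlgebraicClosure ℚ` with the
  `Algebra ℚ _` instance used by the Prelude;
* basic properties of `ExtCitation.cycloExp`.
-/

set_option autoImplicit false
set_option linter.style.haveILetI false

namespace Fermat.Agent.S14.H714

open ExtCitation

/-- The algebraic closure of `ℚ`. -/
abbrev Qb := AlgebraicClosure ℚ
/-- The absolute Galois group of `ℚ`. -/
abbrev G := Qb ≃ₐ[ℚ] Qb

instance instIsAlgebraicQb : Algebra.IsAlgebraic ℚ Qb := AlgebraicClosure.isAlgebraic ℚ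

instance instIsAlgClosureQb : IsAlgClosure ℚ Qb := ⟨inferInstance, inferInstance⟩

instance instIsGaloisQb : IsGalois ℚ Qb := inferInstance

variable (p : ℕ) [Fact p.Prime]

/-- The mod `p` cyclotomic character, as an element of `ZMod p`. -/
noncomputable def omega (σ : G) : ZMod p := (cycloExp p σ : ZMod p)

theorem omega_def (σ : G) : omega p σ = (cycloExp p σ : ZMod p) := rfl

theorem cycloExp_spec (σ : G) {ζ : Qb} (hζ : ζ ^ p = 1) : σ ζ = ζ ^ cycloExp p σ := by
  haveI : NeZero p := ⟨(Fact.out : p.Prime).ne_zero⟩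
  have hu : IsUnit ζ := IsUnit.of_pow_eq_one hζ (Fact.out : p.Prime).ne_zero
  obtain ⟨u, rfl⟩ := hu
  have hmem : u ∈ rootsOfUnity p Qb := by
    rw [mem_rootsOfUnity]
    exact Units.ext (by simpa using hζ)
  exact modularCyclotomicCharacter.spec Qb (card_rootsOfUnity_eq_self p)
    (σ : Qb ≃+* Qb) hmem

theorem omega_eq_unit (σ : G) :
    haveI : NeZero p := ⟨(Fact.out : p.Prime).ne_zero⟩
    omega p σ = ((modularCyclotomicCharacter Qb (card_rootsOfUnity_eq_self p)
      (σ : Qb ≃+* Qb) : (ZMod p)ˣ) : ZMod p) := by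
  haveI : NeZero p := ⟨(Fact.out : p.Prime).ne_zero⟩
  unfold omega cycloExp
  exact ZMod.natCast_zmod_val _

theorem omega_mul (σ τ : G) : omega p (σ * τ) = omega p σ * omega p τ := by
  haveI : NeZero p := ⟨(Fact.out : p.Prime).ne_zero⟩
  rw [omega_eq_unit, omega_eq_unit, omega_eq_unit, ← Units.val_mul, ← map_mul]
  rfl

theorem omega_one : omega p (1 : G) = 1 := by
  haveI : NeZero p := ⟨(Fact.out : p.Prime).ne_zero⟩
  rw [omega_eq_unit]
  have : ((1 : G) : Qb ≃+* Qb) = 1 := rfl
  rw [this, map_one, Units.val_one]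

theorem omega_isUnit (σ : G) : IsUnit (omega p σ) := by
  haveI : NeZero p := ⟨(Fact.out : p.Prime).ne_zero⟩
  rw [omega_eq_unit]
  exact Units.isUnit _

theorem omega_ne_zero (σ : G) : omega p σ ≠ 0 := (omega_isUnit p σ).ne_zero

theorem omega_inv (σ : G) : omega p σ⁻¹ = (omega p σ)⁻¹ := by
  have h : omega p σ⁻¹ * omega p σ = 1 := by
    rw [← omega_mul, inv_mul_cancel, omega_one]
  exact eq_inv_of_mul_eq_one_left h

/-- Powers of a primitive `p`-th root of unity are determined by the exponent mod `p`. -/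
theorem pow_eq_pow_iff_of_isPrimitiveRoot {ζ : Qb} (hζ : IsPrimitiveRoot ζ p) (a b : ℕ) :
    ζ ^ a = ζ ^ b ↔ (a : ZMod p) = (b : ZMod p) := by
  have hp : p.Prime := Fact.out
  rw [pow_eq_pow_mod a hζ.pow_eq_one, pow_eq_pow_mod b hζ.pow_eq_one,
    ZMod.natCast_eq_natCast_iff]
  constructor
  · intro h
    exact hζ.pow_inj (Nat.mod_lt _ hp.pos) (Nat.mod_lt _ hp.pos) h
  · intro h
    rw [h]

theorem pow_eq_pow_of_natCast_eq {ζ : Qb} (hζ : ζ ^ p = 1) {a b : ℕ}
    (h : (a : ZMod p) = (b : ZMod p)) : ζ ^ a = ζ ^ b := by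
  rw [pow_eq_pow_mod a hζ, pow_eq_pow_mod b hζ]
  rw [ZMod.natCast_eq_natCast_iff] at h
  rw [h]

/-- `ω σ = 1` iff `σ` fixes one (any) primitive `p`-th root of unity. -/
theorem omega_eq_one_iff (σ : G) {ζ : Qb} (hζ : IsPrimitiveRoot ζ p) :
    omega p σ = 1 ↔ σ ζ = ζ := by
  rw [cycloExp_spec p σ hζ.pow_eq_one, omega_def]
  conv_lhs => rw [← Nat.cast_one (R := ZMod p)]
  rw [← pow_eq_pow_iff_of_isPrimitiveRoot p hζ, pow_one]

end Fermat.Agent.S14.H714

end
-- ===== PACK-END S14/H714/Basic.lean

-- ===== PACK-BEGIN S55/G/Rec/Defs.lean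
section




/-!
# S55 / layer G / block REC : definitions (cochain level, Prelude style)

Ground-truth objects for the Hasse principle and the reciprocity law, stated with the SAME
level-constant cochains as the Prelude (`groupCohomology.continuousH2`), so that no finite-level
module (`E(F)`, `J(F)`, `C(F)`) enters the statements.

* `gBr U` : the Brauer group `H²_cont(U, ℚ̄ˣ)` of the fixed field `K = ℚ̄^U` of an open subgroup
  `U ≤ G_ℚ` (level-constant cocycles on `U` modulo coboundaries of level-constant cochains).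
* `lBr q V` : the Brauer group `H²_cont(V, ℚ̄_qˣ)` of the fixed field of an open subgroup
  `V ≤ G_{ℚ_q} = Gal(ℚ̄_q/ℚ_q)`.
* `locSub q g U`, `locBr q g U : gBr U → lBr q (locSub q g U)` : localisation at the place of `K`
  induced by the embedding `ι_q ∘ g⁻¹ : ℚ̄ → ℚ̄_q`  (`ι_q` = Prelude `padicEmbedding q`).
  The places of `K` above `q` are the double cosets `U \ G_ℚ / D_q`, `D_q = range (localGaloisToGlobal q)`.
* `gRes`, `lRes` : restriction to a smaller subgroup.
-/

set_option autoImplicit false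

noncomputable section

namespace Fermat.Agent.S55.G.Rec

open groupCohomology

local notation "Qb" => AlgebraicClosure ℚ
local notation "GQ" => (AlgebraicClosure ℚ ≃ₐ[ℚ] AlgebraicClosure ℚ)

/-! ## Global objects -/

/-- `ℚ̄ˣ` as a `G_ℚ`-module. -/
noncomputable abbrev gMod : Rep ℤ GQ := Rep.ofAlgebraAutOnUnits ℚ Qb

/-- `ℚ̄ˣ` as a `U`-module. -/
noncomputable abbrev gModOn (U : Subgroup GQ) : Rep ℤ ↥U := Rep.res U.subtype gMod

/-- An element of `ℚ̄ˣ` as an element of the module `gModOn U`. -/
def toGMod (U : Subgroup GQ) (a : Qbˣ) : gModOn U := Additive.ofMul a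

/-- `U ≤ G_ℚ` is open: it contains `Gal(ℚ̄/F)` for some number field `F`. -/
def IsOpenQ (U : Subgroup GQ) : Prop :=
  ∃ F : IntermediateField ℚ Qb, FiniteDimensional ℚ F ∧ F.fixingSubgroup ≤ U

/-- The Brauer group of the fixed field of `U`. -/
abbrev gBr (U : Subgroup GQ) : Type := continuousH2 U.subtype (gModOn U)

/-- Restriction `Br(K) → Br(K')`, `K' = ℚ̄^{U'}`, `U' ≤ U`. -/
noncomputable def gRes {U U' : Subgroup GQ} (h : U' ≤ U) : gBr U →ₗ[ℤ] gBr U' :=
  continuousH2Map (rH := U.subtype) (rG := U'.subtype) (Subgroup.inclusion h) (fun _ => rfl)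
    (LinearMap.id : gModOn U →ₗ[ℤ] gModOn U') (fun _ _ => rfl)

/-! ## Local objects -/

section Local

variable (q : ℕ) [Fact q.Prime]

local notation "Gq" => (PadicAlgCl q ≃ₐ[ℚ_[q]] PadicAlgCl q)

/-- `ℚ̄_qˣ` as a `G_{ℚ_q}`-module. -/
noncomputable abbrev lMod : Rep ℤ Gq := Rep.ofAlgebraAutOnUnits ℚ_[q] (PadicAlgCl q)

/-- `ℚ̄_qˣ` as a `V`-module. -/
noncomputable abbrev lModOn (V : Subgroup Gq) : Rep ℤ ↥V := Rep.res V.subtype (lMod q)

/-- An element of `ℚ̄_qˣ` as an element of the module `lModOn q V`. -/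
def toLMod (V : Subgroup Gq) (a : (PadicAlgCl q)ˣ) : lModOn q V := Additive.ofMul a

/-- The map `V → G_{ℚ_q} → G_ℚ` used by the Prelude to define level-constancy. -/
noncomputable abbrev lHom (V : Subgroup Gq) : ↥V →* GQ :=
  (localGaloisToGlobal q).comp V.subtype

/-- `V ≤ G_{ℚ_q}` is open. -/
def IsOpenL (V : Subgroup Gq) : Prop :=
  ∃ E : IntermediateField ℚ_[q] (PadicAlgCl q), FiniteDimensional ℚ_[q] E ∧ E.fixingSubgroup ≤ V

/-- The Brauer group of the fixed field of `V`. -/
abbrev lBr (V : Subgroup Gq) : Type := continuousH2 (lHom q V) (lModOn q V)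

/-- Restriction `Br(K_v) → Br(K'_w)`. -/
noncomputable def lRes {V V' : Subgroup Gq} (h : V' ≤ V) : lBr q V →ₗ[ℤ] lBr q V' :=
  continuousH2Map (rH := lHom q V) (rG := lHom q V') (Subgroup.inclusion h) (fun _ => rfl)
    (LinearMap.id : lModOn q V →ₗ[ℤ] lModOn q V') (fun _ _ => rfl)

/-! ## Localisation -/

/-- The decomposition-type subgroup `{τ ∈ G_{ℚ_q} | g · loc(τ) · g⁻¹ ∈ U}`: the absolute Galois
group of the completion of `K = ℚ̄^U` at the place induced by `ι_q ∘ g⁻¹`. -/
def locSub (g : GQ) (U : Subgroup GQ) : Subgroup Gq :=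
  (U.comap (MulAut.conj g).toMonoidHom).comap (localGaloisToGlobal q)

variable {q} in
lemma mem_locSub {g : GQ} {U : Subgroup GQ} {τ : Gq} :
    τ ∈ locSub q g U ↔ g * localGaloisToGlobal q τ * g⁻¹ ∈ U := Iff.rfl

/-- `τ ↦ g · loc(τ) · g⁻¹`. -/
noncomputable def locHom (g : GQ) (U : Subgroup GQ) : ↥(locSub q g U) →* ↥U where
  toFun τ := ⟨g * localGaloisToGlobal q τ * g⁻¹, τ.2⟩
  map_one' := by ext1; simp
  map_mul' a b := by ext1; simp [mul_assoc]

@[simp] lemma locHom_coe (g : GQ) (U : Subgroup GQ) (τ : ↥(locSub q g U)) :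
    ((locHom q g U τ : ↥U) : GQ) = g * localGaloisToGlobal q τ * g⁻¹ := rfl

/-- The coefficient map `ℚ̄ˣ → ℚ̄_qˣ`, `x ↦ ι_q (g⁻¹ x)`. -/
noncomputable def locPushMul (g : GQ) : Qbˣ →* (PadicAlgCl q)ˣ :=
  (Units.map ((padicEmbedding q : Qb →ₐ[ℚ] PadicAlgCl q) : Qb →* PadicAlgCl q)).comp
    (MulDistribMulAction.toMonoidHom Qbˣ g⁻¹)

@[simp] lemma locPushMul_coe (g : GQ) (x : Qbˣ) :
    ((locPushMul q g x : (PadicAlgCl q)ˣ) : PadicAlgCl q) = padicEmbedding q (g⁻¹ (x : Qb)) := rfl

/-- The coefficient map as a `ℤ`-linear map of the underlying modules. -/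
noncomputable def locPush (g : GQ) (U : Subgroup GQ) :
    gModOn U →ₗ[ℤ] lModOn q (locSub q g U) :=
  (MonoidHom.toAdditive (locPushMul q g)).toIntLinearMap

lemma locPush_apply (g : GQ) (U : Subgroup GQ) (a : gModOn U) :
    locPush q g U a = Additive.ofMul (locPushMul q g (Additive.toMul a)) := rfl

lemma locPush_equivariant (g : GQ) (U : Subgroup GQ) (τ : ↥(locSub q g U)) (a : gModOn U) :
    locPush q g U ((gModOn U).ρ (locHom q g U τ) a) =
      (lModOn q (locSub q g U)).ρ τ (locPush q g U a) := by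
  apply Additive.toMul.injective
  apply Units.ext
  show padicEmbedding q (g⁻¹ ((g * localGaloisToGlobal q τ * g⁻¹) ((Additive.toMul a : Qbˣ) : Qb)))
    = (τ : Gq) (padicEmbedding q (g⁻¹ ((Additive.toMul a : Qbˣ) : Qb)))
  rw [← padicEmbedding_localGaloisToGlobal]
  congr 1
  simp [AlgEquiv.mul_apply]

/-! ### Level-constancy is preserved by localisation -/

/-- Conjugation-invariance of levels: `s` fixes `g⁻¹ F` iff `g s g⁻¹` fixes `F`. -/
lemma mem_fixingSubgroup_map_inv (F : IntermediateField ℚ Qb) (g s : GQ) :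
    s ∈ (F.map (g⁻¹ : GQ).toAlgHom).fixingSubgroup ↔ g * s * g⁻¹ ∈ F.fixingSubgroup := by
  rw [IntermediateField.mem_fixingSubgroup_iff, IntermediateField.mem_fixingSubgroup_iff]
  have key : ∀ x : Qb, (g * s * g⁻¹) x = g (s ((g⁻¹ : GQ) x)) := fun _ => rfl
  have hg : ∀ x : Qb, g ((g⁻¹ : GQ) x) = x := fun x => AlgEquiv.apply_symm_apply g x
  have hg' : ∀ x : Qb, (g⁻¹ : GQ) (g x) = x := fun x => AlgEquiv.symm_apply_apply g x
  constructor
  · intro h x hx
    have h1 : s ((g⁻¹ : GQ) x) = (g⁻¹ : GQ) x := h ((g⁻¹ : GQ) x) ⟨x, hx, rfl⟩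
    show (g * s * g⁻¹) x = x
    rw [key, h1, hg]
  · rintro h _ ⟨x, hx, rfl⟩
    have h1 : (g * s * g⁻¹) x = x := h x hx
    rw [key] at h1
    show s ((g⁻¹ : GQ) x) = (g⁻¹ : GQ) x
    have h3 := congrArg (g⁻¹ : GQ) h1
    rwa [hg'] at h3

lemma finiteDimensional_map_inv (F : IntermediateField ℚ Qb) [FiniteDimensional ℚ F] (g : GQ) :
    FiniteDimensional ℚ (F.map (g⁻¹ : GQ).toAlgHom) :=
  LinearEquiv.finiteDimensional (IntermediateField.equivMap F (g⁻¹ : GQ).toAlgHom).toLinearEquiv

lemma isLevelConstant₁_loc {X : Type*} (g : GQ) (U : Subgroup GQ) {x : ↥U → X}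
    (hx : IsLevelConstant₁ U.subtype x) :
    IsLevelConstant₁ (lHom q (locSub q g U)) (x ∘ locHom q g U) := by
  obtain ⟨F, hF, h⟩ := hx
  refine ⟨F.map (g⁻¹ : GQ).toAlgHom, finiteDimensional_map_inv F g, fun τ σ hσ => ?_⟩
  simp only [Function.comp_apply, map_mul]
  refine h _ _ ?_
  exact (mem_fixingSubgroup_map_inv F g _).1 hσ

lemma isLevelConstant₂_loc {X : Type*} (g : GQ) (U : Subgroup GQ) {x : ↥U × ↥U → X}
    (hx : IsLevelConstant₂ U.subtype x) :
    IsLevelConstant₂ (lHom q (locSub q g U))
      (x ∘ Prod.map (locHom q g U) (locHom q g U)) := by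
  obtain ⟨F, hF, h⟩ := hx
  refine ⟨F.map (g⁻¹ : GQ).toAlgHom, finiteDimensional_map_inv F g, fun τ τ' σ σ' hσ hσ' => ?_⟩
  simp only [Function.comp_apply, Prod.map_apply, map_mul]
  refine h _ _ _ _ ?_ ?_
  · exact (mem_fixingSubgroup_map_inv F g _).1 hσ
  · exact (mem_fixingSubgroup_map_inv F g _).1 hσ'

/-- Localisation of 2-cochains: `c ↦ ((τ₁, τ₂) ↦ ι_q (g⁻¹ • c (g τ₁ g⁻¹, g τ₂ g⁻¹)))`. -/
def locCochain₂ (g : GQ) (U : Subgroup GQ) :
    (↥U × ↥U → gModOn U) →ₗ[ℤ]
      (↥(locSub q g U) × ↥(locSub q g U) → lModOn q (locSub q g U)) :=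
  cochainsPullPush₂ (locHom q g U) (locPush q g U)

/-- Localisation of 1-cochains. -/
def locCochain₁ (g : GQ) (U : Subgroup GQ) :
    (↥U → gModOn U) →ₗ[ℤ] (↥(locSub q g U) → lModOn q (locSub q g U)) :=
  cochainsPullPush₁ (locHom q g U) (locPush q g U)

lemma locCochain₂_mem_levelCocycles₂ (g : GQ) (U : Subgroup GQ) {c : ↥U × ↥U → gModOn U}
    (hc : c ∈ levelCocycles₂ U.subtype (gModOn U)) :
    locCochain₂ q g U c ∈ levelCocycles₂ (lHom q (locSub q g U)) (lModOn q (locSub q g U)) :=
  ⟨cochainsPullPush₂_mem_cocycles₂ (locHom q g U) (locPush q g U)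
      (locPush_equivariant q g U) hc.1,
    ((isLevelConstant₂_loc q g U hc.2).comp (locPush q g U) :)⟩

lemma locCochain₂_mem_levelCoboundaries₂ (g : GQ) (U : Subgroup GQ) {c : ↥U × ↥U → gModOn U}
    (hc : c ∈ levelCoboundaries₂ U.subtype (gModOn U)) :
    locCochain₂ q g U c ∈
      levelCoboundaries₂ (lHom q (locSub q g U)) (lModOn q (locSub q g U)) := by
  obtain ⟨y, hy, rfl⟩ := (mem_levelCoboundaries₂_iff _ _ c).1 hc
  exact (mem_levelCoboundaries₂_iff _ _ _).2
    ⟨locCochain₁ q g U y, ((isLevelConstant₁_loc q g U hy).comp (locPush q g U) :),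
      (cochainsPullPush₂_d₁₂ (locHom q g U) (locPush q g U)
        (locPush_equivariant q g U) y).symm⟩

/-- Localisation on level cocycles. -/
def locCocycles₂ (g : GQ) (U : Subgroup GQ) :
    ↥(levelCocycles₂ U.subtype (gModOn U)) →ₗ[ℤ]
      ↥(levelCocycles₂ (lHom q (locSub q g U)) (lModOn q (locSub q g U))) :=
  (locCochain₂ q g U).restrict fun _ hc => locCochain₂_mem_levelCocycles₂ q g U hc

@[simp] lemma coe_locCocycles₂ (g : GQ) (U : Subgroup GQ)
    (c : ↥(levelCocycles₂ U.subtype (gModOn U))) :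
    (locCocycles₂ q g U c : ↥(locSub q g U) × ↥(locSub q g U) → lModOn q (locSub q g U)) =
      locCochain₂ q g U c := rfl

/-- **Localisation** `Br(K) → Br(K_v)` at the place `v` of `K = ℚ̄^U` induced by `ι_q ∘ g⁻¹`. -/
def locBr (g : GQ) (U : Subgroup GQ) : gBr U →ₗ[ℤ] lBr q (locSub q g U) :=
  Submodule.mapQ _ _ (locCocycles₂ q g U) fun _ hc =>
    locCochain₂_mem_levelCoboundaries₂ q g U hc

@[simp] lemma locBr_mk (g : GQ) (U : Subgroup GQ) (c : ↥(levelCocycles₂ U.subtype (gModOn U))) :
    locBr q g U (continuousH2π U.subtype (gModOn U) c) =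
      continuousH2π (lHom q (locSub q g U)) (lModOn q (locSub q g U)) (locCocycles₂ q g U c) :=
  rfl

end Local

/-! ## Double cosets -/

/-- `R` is a system of representatives of the double cosets `U \ G / D`. -/
def IsDoubleCosetReps {G : Type*} [Group G] (U D : Subgroup G) (R : Finset G) : Prop :=
  ∀ g : G, ∃! r, r ∈ R ∧ ∃ u ∈ U, ∃ d ∈ D, g = u * r * d

end Fermat.Agent.S55.G.Rec

end
end
-- ===== PACK-END S55/G/Rec/Defs.lean

-- ===== PACK-BEGIN S55/H175/NormEq.lean
section


set_option autoImplicit false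

/-!
# Two multiplicative real-valued functions with the same unit ball and the same value at a
  uniformiser agree
-/

namespace Fermat.Agent.S55.H175

/-- One-sided version. -/
theorem not_lt_of_le_one_iff {K : Type*} [Field K] (f g : K →*₀ ℝ)
    (hf0 : ∀ x, 0 ≤ f x) (hg0 : ∀ x, 0 ≤ g x)
    (c : K) (hc : f c = g c) (hc0 : 0 < f c) (hc1 : f c < 1)
    (h : ∀ y, f y ≤ 1 ↔ g y ≤ 1) (x : K) : ¬ g x < f x := by
  intro hlt
  have hfx : 0 < f x := lt_of_le_of_lt (hg0 x) hlt
  have hx0 : x ≠ 0 := by
    rintro rfl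
    simp at hfx
  have hgx : 0 < g x := by
    rcases (hg0 x).lt_or_eq with h1 | h1
    · exact h1
    · exfalso
      have : x = 0 := by
        by_contra hne
        have := (map_ne_zero g).mpr hne
        exact this h1.symm
      exact hx0 this
  set u : ℝ := (f c)⁻¹ with hu
  have hu1 : 1 < u := by
    rw [hu]
    exact (one_lt_inv₀ hc0).mpr hc1
  have hρ : 1 < f x / g x := by
    rw [one_lt_div hgx]; exact hlt
  obtain ⟨b, hb⟩ := pow_unbounded_of_one_lt u hρ
  have hgb : 0 < g x ^ b := pow_pos hgx b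
  obtain ⟨a, ha1, ha2⟩ := exists_mem_Ico_zpow hgb hu1
  -- the test element
  have hc_ne : c ≠ 0 := by
    rintro rfl
    simp at hc0
  have hfy : f (x ^ b * c ^ (a + 1)) = f x ^ b * (u ^ (a + 1))⁻¹ := by
    rw [map_mul, map_pow, map_zpow₀, hu, inv_zpow, inv_inv]
  have hgy : g (x ^ b * c ^ (a + 1)) = g x ^ b * (u ^ (a + 1))⁻¹ := by
    rw [map_mul, map_pow, map_zpow₀, ← hc, hu, inv_zpow, inv_inv]
  have hupos : 0 < u ^ (a + 1) := zpow_pos (lt_trans one_pos hu1) _
  have hg1 : g (x ^ b * c ^ (a + 1)) ≤ 1 := by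
    rw [hgy, ← div_eq_mul_inv, div_le_one hupos]
    exact ha2.le
  have hf1 : 1 < f (x ^ b * c ^ (a + 1)) := by
    rw [hfy, ← div_eq_mul_inv, one_lt_div hupos]
    have h1 : u ^ (a + 1) = u ^ a * u := by
      rw [zpow_add_one₀ (ne_of_gt (lt_trans one_pos hu1))]
    rw [h1]
    have h2 : (f x / g x) ^ b = f x ^ b / g x ^ b := div_pow _ _ _
    have h3 : u < f x ^ b / g x ^ b := h2 ▸ hb
    have h4 : u * g x ^ b < f x ^ b := by
      rwa [lt_div_iff₀ hgb] at h3
    calc u ^ a * u ≤ g x ^ b * u := by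
          apply mul_le_mul_of_nonneg_right ha1 (le_of_lt (lt_trans one_pos hu1))
      _ = u * g x ^ b := mul_comm _ _
      _ < f x ^ b := h4
  exact absurd ((h _).mpr hg1) (not_le.mpr hf1)

/-- Two multiplicative nonnegative real-valued functions on a field with the same unit ball and
the same value `∈ (0,1)` at some element are equal. -/
theorem eq_of_le_one_iff {K : Type*} [Field K] (f g : K →*₀ ℝ)
    (hf0 : ∀ x, 0 ≤ f x) (hg0 : ∀ x, 0 ≤ g x)
    (c : K) (hc : f c = g c) (hc0 : 0 < f c) (hc1 : f c < 1)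
    (h : ∀ y, f y ≤ 1 ↔ g y ≤ 1) (x : K) : f x = g x := by
  apply le_antisymm
  · exact not_lt.mp (not_lt_of_le_one_iff f g hf0 hg0 c hc hc0 hc1 h x)
  · exact not_lt.mp (not_lt_of_le_one_iff g f hg0 hf0 c hc.symm (hc ▸ hc0) (hc ▸ hc1)
      (fun y => (h y).symm) x)

end Fermat.Agent.S55.H175

end
-- ===== PACK-END S55/H175/NormEq.lean

-- ===== PACK-BEGIN S55/H424/KummerLevel.lean
section


/-!
# Kummer finiteness of continuous characters (input of `FIN-loc`, layer KL of S55)

Let `K` be a field of characteristic zero containing a primitive `n`-th root of unity, with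
algebraic closure `Ω`, and assume that `Kˣ / (Kˣ)ⁿ` is finite (for local fields this is the
local power index, `H424.isLocalFld_index_range_pow_ne_zero`).  Then there is ONE finite
extension `K' / K` inside `Ω` such that every continuous character `χ` of `Gal(Ω/K)` with
`χ ^ n = 1` is trivial on `Gal(Ω/K')`.  ("Continuous" = trivial on `Gal(Ω/M)` for some finite
`M / K`.)

* `H424.exists_kummer_level` : characters with values in `Kˣ`;
* `H424.exists_kummer_level_zmod` : characters with values in `Multiplicative (ZMod n)`.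

Proof: Hilbert 90 (Mathlib) on a finite Galois level through which `χ` factors gives `β` with
`σ β = χ(σ) β`; then `β ^ n ∈ K`, hence `β ∈ K' := K(ⁿ√ representatives of Kˣ/(Kˣ)ⁿ)`.
-/

set_option autoImplicit false
set_option linter.unusedSectionVars false
set_option linter.style.haveILetI false

namespace Fermat.Agent.S55.H424

open IntermediateField

section KummerLevel

variable {K Ω : Type*} [Field K] [Field Ω] [Algebra K Ω] [CharZero K] [IsAlgClosure K Ω]

/-- The field generated by chosen `n`-th roots of representatives of `Kˣ / (Kˣ)ⁿ` contains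
every `n`-th root of every element of `Kˣ`. -/
theorem exists_finite_containing_roots (n : ℕ) (hn : n ≠ 0) (ζ : K) (hζ : IsPrimitiveRoot ζ n)
    (hfin : (powMonoidHom n : Kˣ →* Kˣ).range.index ≠ 0) :
    ∃ K' : IntermediateField K Ω, FiniteDimensional K K' ∧
      ∀ (a : Kˣ) (α : Ω), α ^ n = algebraMap K Ω (a : K) → α ∈ K' := by
  classical
  haveI : NeZero n := ⟨hn⟩
  haveI : IsAlgClosed Ω := IsAlgClosure.isAlgClosed K
  haveI : Algebra.IsAlgebraic K Ω := IsAlgClosure.isAlgebraic
  haveI : (powMonoidHom n : Kˣ →* Kˣ).range.FiniteIndex := ⟨hfin⟩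
  haveI : Finite (Kˣ ⧸ (powMonoidHom n : Kˣ →* Kˣ).range) :=
    Subgroup.finite_quotient_of_finiteIndex
  -- representatives and their roots
  have hroot : ∀ c : Kˣ ⧸ (powMonoidHom n : Kˣ →* Kˣ).range,
      ∃ ρ : Ω, ρ ^ n = algebraMap K Ω ((Quotient.out c : Kˣ) : K) :=
    fun c => IsAlgClosed.exists_pow_nat_eq _ (Nat.pos_of_ne_zero hn)
  choose ρ hρ using hroot
  haveI : Finite (Set.range ρ) := (Set.finite_range ρ).to_subtype
  refine ⟨IntermediateField.adjoin K (Set.range ρ),
    IntermediateField.finiteDimensional_adjoin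
      (fun x _ => (Algebra.IsAlgebraic.isAlgebraic x).isIntegral), ?_⟩
  intro a α hα
  set c : Kˣ ⧸ (powMonoidHom n : Kˣ →* Kˣ).range := QuotientGroup.mk a with hc
  have hout : (QuotientGroup.mk (Quotient.out c) : Kˣ ⧸ (powMonoidHom n : Kˣ →* Kˣ).range) = c :=
    Quotient.out_eq c
  have hmem : (Quotient.out c : Kˣ)⁻¹ * a ∈ (powMonoidHom n : Kˣ →* Kˣ).range :=
    QuotientGroup.eq.1 hout
  obtain ⟨b, hb⟩ := hmem
  have hb' : (b : K) ^ n = ((Quotient.out c : Kˣ) : K)⁻¹ * (a : K) := by
    have h1 := congrArg (fun u : Kˣ => (u : K)) hb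
    simpa using h1
  have hr0 : ((Quotient.out c : Kˣ) : K) ≠ 0 := Units.ne_zero _
  have hρ0 : ρ c ≠ 0 := by
    intro h0
    have h2 := hρ c
    rw [h0, zero_pow hn] at h2
    exact hr0 ((algebraMap K Ω).injective (by rw [← h2, map_zero]))
  have hb0 : algebraMap K Ω (b : K) ≠ 0 := by
    simp
  have hξ : (α / (ρ c * algebraMap K Ω (b : K))) ^ n = 1 := by
    rw [div_pow, mul_pow, hα, hρ c, ← map_pow, hb', ← map_mul]
    have h3 : ((Quotient.out c : Kˣ) : K) * (((Quotient.out c : Kˣ) : K)⁻¹ * (a : K)) = (a : K) := by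
      field_simp
    rw [h3]
    exact div_self (by simp)
  obtain ⟨i, -, hi⟩ :=
    (hζ.map_of_injective (algebraMap K Ω).injective).eq_pow_of_pow_eq_one hξ
  have hα' : α = algebraMap K Ω ζ ^ i * (ρ c * algebraMap K Ω (b : K)) := by
    rw [hi]
    field_simp
  rw [hα']
  exact mul_mem (pow_mem (IntermediateField.algebraMap_mem _ _) _)
    (mul_mem (IntermediateField.subset_adjoin K _ ⟨c, rfl⟩) (IntermediateField.algebraMap_mem _ _))

/-- **Kummer level.**  If `K ∋ ζ_n` and `Kˣ / (Kˣ)ⁿ` is finite, there is a finite extension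
`K' / K` inside `Ω` such that every continuous character `χ : Gal(Ω/K) → Kˣ` with `χ ^ n = 1`
is trivial on `Gal(Ω/K')`. -/
theorem exists_kummer_level (n : ℕ) (hn : n ≠ 0) (ζ : K) (hζ : IsPrimitiveRoot ζ n)
    (hfin : (powMonoidHom n : Kˣ →* Kˣ).range.index ≠ 0) :
    ∃ K' : IntermediateField K Ω, FiniteDimensional K K' ∧
      ∀ χ : (Ω ≃ₐ[K] Ω) →* Kˣ, (∀ g, χ g ^ n = 1) →
        (∃ M : IntermediateField K Ω, FiniteDimensional K M ∧ M.fixingSubgroup ≤ χ.ker) →
        K'.fixingSubgroup ≤ χ.ker := by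
  classical
  haveI : IsAlgClosed Ω := IsAlgClosure.isAlgClosed K
  haveI : Algebra.IsAlgebraic K Ω := IsAlgClosure.isAlgebraic
  haveI : Normal K Ω := IsAlgClosure.normal K Ω
  obtain ⟨K', hK'fin, hK'⟩ := exists_finite_containing_roots (Ω := Ω) n hn ζ hζ hfin
  refine ⟨K', hK'fin, ?_⟩
  rintro χ hχn ⟨M₀, hM₀fin, hM₀⟩
  -- a finite Galois level through which `χ` factors
  let M : IntermediateField K Ω := IntermediateField.normalClosure K M₀ Ω
  haveI : FiniteDimensional K M := normalClosure.is_finiteDimensional K M₀ Ω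
  haveI : Normal K M := normalClosure.normal K M₀ Ω
  haveI : IsGalois K M := ⟨⟩
  have hM : M.fixingSubgroup ≤ χ.ker :=
    (IntermediateField.fixingSubgroup_le (IntermediateField.le_normalClosure M₀)).trans hM₀
  have hsurj : Function.Surjective (AlgEquiv.restrictNormalHom (F := K) (K₁ := Ω) M) :=
    AlgEquiv.restrictNormalHom_surjective Ω
  have hker : (AlgEquiv.restrictNormalHom (F := K) (K₁ := Ω) M).ker ≤ χ.ker := by
    rw [IntermediateField.restrictNormalHom_ker]
    exact hM
  let χbar : (M ≃ₐ[K] M) →* Kˣ :=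
    (AlgEquiv.restrictNormalHom (F := K) (K₁ := Ω) M).liftOfSurjective hsurj ⟨χ, hker⟩
  have hχbar : ∀ s : Ω ≃ₐ[K] Ω, χbar (AlgEquiv.restrictNormalHom M s) = χ s := fun s =>
    MonoidHom.liftOfRightInverse_comp_apply _ _ (Function.rightInverse_surjInv hsurj) ⟨χ, hker⟩ s
  -- the cocycle
  let f : (M ≃ₐ[K] M) → Mˣ := fun σ => Units.map (algebraMap K M).toMonoidHom (χbar σ)
  have hfval : ∀ σ, ((f σ : Mˣ) : M) = algebraMap K M ((χbar σ : Kˣ) : K) := fun σ => rfl
  have hf : groupCohomology.IsMulCocycle₁ f := by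
    intro g h
    apply Units.ext
    rw [Units.val_mul, hfval, hfval, map_mul, Units.val_mul, map_mul]
    have h1 : ((g • f h : Mˣ) : M) = algebraMap K M ((χbar h : Kˣ) : K) := by
      show g ((f h : Mˣ) : M) = _
      rw [hfval, AlgEquiv.commutes]
    rw [h1, mul_comm]
  obtain ⟨β, hβ⟩ := groupCohomology.isMulCoboundary₁_of_isMulCocycle₁_of_aut_to_units f hf
  have hβ' : ∀ σ : M ≃ₐ[K] M, σ (β : M) = algebraMap K M ((χbar σ : Kˣ) : K) * (β : M) := by
    intro σ
    have h1 := congrArg (fun u : Mˣ => (u : M)) (hβ σ)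
    simp only [Units.val_div_eq_div_val] at h1
    have h2 : ((σ • β : Mˣ) : M) = σ (β : M) := rfl
    rw [h2, hfval] at h1
    rw [← h1]
    field_simp
  -- `β ^ n ∈ K`
  have hfix : ∀ σ : M ≃ₐ[K] M, σ ((β : M) ^ n) = (β : M) ^ n := by
    intro σ
    rw [map_pow, hβ' σ, mul_pow, ← map_pow]
    have h1 : ((χbar σ : Kˣ) : K) ^ n = 1 := by
      obtain ⟨s, hs⟩ := hsurj σ
      rw [← hs, hχbar]
      have := congrArg (fun u : Kˣ => (u : K)) (hχn s)
      simpa using this
    rw [h1, map_one, one_mul]
  obtain ⟨a, ha⟩ : ∃ a : K, algebraMap K M a = (β : M) ^ n :=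
    IntermediateField.mem_bot.1 ((IsGalois.mem_bot_iff_fixed ((β : M) ^ n)).2 hfix)
  have ha0 : a ≠ 0 := by
    rintro rfl
    rw [map_zero] at ha
    exact (pow_ne_zero n β.ne_zero) ha.symm
  have hβK' : ((β : M) : Ω) ∈ K' := by
    refine hK' (Units.mk0 a ha0) _ ?_
    rw [Units.val_mk0]
    have h1 : ((algebraMap K M a : M) : Ω) = (((β : M) ^ n : M) : Ω) := congrArg _ ha
    rw [← IntermediateField.coe_pow, ← h1]
    rfl
  -- conclusion
  intro s hs
  rw [MonoidHom.mem_ker]
  have h1 : s ((β : M) : Ω) = ((β : M) : Ω) :=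
    (IntermediateField.mem_fixingSubgroup_iff K' s).1 hs _ hβK'
  have h2 : ((AlgEquiv.restrictNormalHom M s) (β : M) : Ω) = s ((β : M) : Ω) :=
    AlgEquiv.restrictNormalHom_apply M s (β : M)
  have h3 := hβ' (AlgEquiv.restrictNormalHom M s)
  rw [hχbar] at h3
  have h4 : algebraMap K M ((χ s : Kˣ) : K) * (β : M) = (β : M) := by
    rw [← h3]
    apply Subtype.ext
    rw [h2, h1]
  have h5 : algebraMap K M ((χ s : Kˣ) : K) = 1 := by
    have h6 := mul_right_cancel₀ β.ne_zero (h4.trans (one_mul (β : M)).symm)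
    exact h6
  apply Units.ext
  rw [Units.val_one]
  exact (algebraMap K M).injective (by rw [h5, map_one])

/-- An injective homomorphism `Multiplicative (ZMod n) →* Kˣ` attached to a primitive `n`-th
root of unity. -/
theorem exists_injective_zmod_hom (n : ℕ) (hn : n ≠ 0) (ζ : K) (hζ : IsPrimitiveRoot ζ n) :
    ∃ ι : Multiplicative (ZMod n) →* Kˣ, Function.Injective ι ∧ ∀ x, ι x ^ n = 1 := by
  have hζu := hζ.isUnit_unit hn
  let e : Multiplicative (ZMod n) ≃* Subgroup.zpowers (hζ.isUnit hn).unit :=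
    (AddEquiv.toMultiplicativeRight hζu.zmodEquivZPowers.symm).symm
  refine ⟨(Subgroup.zpowers (hζ.isUnit hn).unit).subtype.comp e.toMonoidHom, ?_, ?_⟩
  · exact (Subgroup.subtype_injective _).comp e.injective
  · intro x
    rw [← map_pow]
    have hx : x ^ n = 1 := by
      apply Multiplicative.toAdd.injective
      rw [toAdd_pow, toAdd_one, nsmul_eq_mul, ZMod.natCast_self, zero_mul]
    rw [hx, map_one]

/-- **Kummer level, `ZMod n`-valued characters.**  If `K ∋ ζ_n` and `Kˣ / (Kˣ)ⁿ` is finite,
there is a finite extension `K' / K` inside `Ω` such that every continuous homomorphism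
`χ : Gal(Ω/K) → ℤ/n` is trivial on `Gal(Ω/K')`. -/
theorem exists_kummer_level_zmod (n : ℕ) (hn : n ≠ 0) (ζ : K) (hζ : IsPrimitiveRoot ζ n)
    (hfin : (powMonoidHom n : Kˣ →* Kˣ).range.index ≠ 0) :
    ∃ K' : IntermediateField K Ω, FiniteDimensional K K' ∧
      ∀ χ : (Ω ≃ₐ[K] Ω) →* Multiplicative (ZMod n),
        (∃ M : IntermediateField K Ω, FiniteDimensional K M ∧ M.fixingSubgroup ≤ χ.ker) →
        K'.fixingSubgroup ≤ χ.ker := by
  obtain ⟨K', hK'fin, hK'⟩ := exists_kummer_level (Ω := Ω) n hn ζ hζ hfin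
  obtain ⟨ι, hι, hιn⟩ := exists_injective_zmod_hom n hn ζ hζ
  refine ⟨K', hK'fin, ?_⟩
  rintro χ ⟨M, hMfin, hM⟩
  have hker : (ι.comp χ).ker = χ.ker := by
    ext g
    simp only [MonoidHom.mem_ker, MonoidHom.comp_apply]
    exact ⟨fun h => hι (h.trans (map_one ι).symm), fun h => by rw [h, map_one]⟩
  have := hK' (ι.comp χ) (fun g => hιn _) ⟨M, hMfin, by rw [hker]; exact hM⟩
  rwa [hker] at this

/-- **Kummer level, additive form.**  Same as `exists_kummer_level_zmod` for maps
`φ : Gal(Ω/K) → ℤ/n` with `φ (g * h) = φ g + φ h`. -/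
theorem exists_kummer_level_add (n : ℕ) (hn : n ≠ 0) (ζ : K) (hζ : IsPrimitiveRoot ζ n)
    (hfin : (powMonoidHom n : Kˣ →* Kˣ).range.index ≠ 0) :
    ∃ K' : IntermediateField K Ω, FiniteDimensional K K' ∧
      ∀ φ : (Ω ≃ₐ[K] Ω) → ZMod n, (∀ g h, φ (g * h) = φ g + φ h) →
        (∃ M : IntermediateField K Ω, FiniteDimensional K M ∧ ∀ g ∈ M.fixingSubgroup, φ g = 0) →
        ∀ g ∈ K'.fixingSubgroup, φ g = 0 := by
  obtain ⟨K', hK'fin, hK'⟩ := exists_kummer_level_zmod (Ω := Ω) n hn ζ hζ hfin
  refine ⟨K', hK'fin, ?_⟩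
  rintro φ hφ ⟨M, hMfin, hM⟩ g hg
  have hφ1 : φ 1 = 0 := by
    have := hφ 1 1
    rw [mul_one] at this
    exact left_eq_add.1 this
  let χ : (Ω ≃ₐ[K] Ω) →* Multiplicative (ZMod n) :=
    { toFun := fun g => Multiplicative.ofAdd (φ g)
      map_one' := by rw [hφ1]; rfl
      map_mul' := fun g h => by rw [hφ g h]; rfl }
  have h1 : K'.fixingSubgroup ≤ χ.ker :=
    hK' χ ⟨M, hMfin, fun g hg => by
      rw [MonoidHom.mem_ker]
      show Multiplicative.ofAdd (φ g) = 1
      rw [hM g hg]; rfl⟩
  have h2 := h1 hg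
  rw [MonoidHom.mem_ker] at h2
  exact Multiplicative.ofAdd.injective h2

end KummerLevel

end Fermat.Agent.S55.H424

end
-- ===== PACK-END S55/H424/KummerLevel.lean

-- ===== PACK-BEGIN S55/G/Rec/SCH174/Inner.lean
section


/-!
# S55 / G / REC, leaf SC (helper174) : inner automorphisms act trivially on `H²` (cochain level)

For a `2`-cocycle `c` of a group `G` with values in a representation `A` and `u : G`, the
conjugated cocycle `c^u (s, t) = u⁻¹ • c (u s u⁻¹, u t u⁻¹)` is cohomologous to `c`, with the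
EXPLICIT primitive `innerH A u c : s ↦ u⁻¹ • (c (u s u⁻¹, u) - c (u, s))`.
-/

set_option autoImplicit false

namespace Fermat.Agent.S55.G.Rec.H174

open groupCohomology

universe v

variable {k G : Type v} [CommRing k] [Group G] (A : Rep k G)

/-- The explicit homotopy for the inner automorphism `u`. -/
def innerH (u : G) (c : G × G → A) : G → A :=
  fun s => A.ρ u⁻¹ (c (u * s * u⁻¹, u) - c (u, s))

lemma innerH_apply (u : G) (c : G × G → A) (s : G) :
    innerH A u c s = A.ρ u⁻¹ (c (u * s * u⁻¹, u) - c (u, s)) := rfl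

/-- `c^u = c + d (innerH u c)`. -/
theorem conj_cocycle_eq (u : G) {c : G × G → A} (hc : c ∈ cocycles₂ A) (s t : G) :
    A.ρ u⁻¹ (c (u * s * u⁻¹, u * t * u⁻¹)) =
      c (s, t) + (d₁₂ A).hom (innerH A u c) (s, t) := by
  have hcoc := (mem_cocycles₂_iff c).1 hc
  have I1 := hcoc u s t
  have I2 := hcoc (u * s * u⁻¹) u t
  have I3 := hcoc (u * s * u⁻¹) (u * t * u⁻¹) u
  have e1 : u * s * u⁻¹ * u = u * s := by group
  have e2 : u * t * u⁻¹ * u = u * t := by group
  have e3 : u * s * u⁻¹ * (u * t * u⁻¹) = u * (s * t) * u⁻¹ := by group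
  rw [e1] at I2
  rw [e2, e3] at I3
  -- rewrite everything as `ρ u⁻¹` of something
  have hρ : ∀ x : A, A.ρ s (A.ρ u⁻¹ x) = A.ρ u⁻¹ (A.ρ (u * s * u⁻¹) x) := by
    intro x
    rw [← Module.End.mul_apply, ← Module.End.mul_apply, ← map_mul, ← map_mul]
    congr 2
    group
  have hid : ∀ x : A, x = A.ρ u⁻¹ (A.ρ u x) := by
    intro x
    rw [← Module.End.mul_apply, ← map_mul, inv_mul_cancel, map_one, Module.End.one_apply]
  rw [d₁₂_hom_apply]
  simp only [innerH_apply]
  rw [hρ, hid (c (s, t)), ← map_sub, ← map_add, ← map_add]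
  congr 1
  -- now a linear identity in `A`
  have I1' : A.ρ u (c (s, t)) = c (u * s, t) + c (u, s) - c (u, s * t) :=
    eq_sub_of_add_eq I1.symm
  have I2' : A.ρ (u * s * u⁻¹) (c (u, t)) =
      c (u * s, t) + c (u * s * u⁻¹, u) - c (u * s * u⁻¹, u * t) :=
    eq_sub_of_add_eq I2.symm
  have I3' : A.ρ (u * s * u⁻¹) (c (u * t * u⁻¹, u)) =
      c (u * (s * t) * u⁻¹, u) + c (u * s * u⁻¹, u * t * u⁻¹) - c (u * s * u⁻¹, u * t) :=
    eq_sub_of_add_eq I3.symm
  rw [map_sub, I1', I2', I3']
  abel

end Fermat.Agent.S55.G.Rec.H174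

end
-- ===== PACK-END S55/G/Rec/SCH174/Inner.lean

-- ===== PACK-BEGIN S55/G/Rec/H473Carry.lean
section


/-!
# S55 / layer G / block REC, leaf A1 (arithmetic part): the carry function of a character

For a character `χ : G →* Multiplicative (ZMod n)` (`n ≠ 0`) we define the canonical lift
`lift χ g ∈ {0, …, n-1}` and the carry `carry χ g h = (lift χ g + lift χ h) / n ∈ {0, 1}`,
so that `lift χ g + lift χ h = lift χ (g * h) + n * carry χ g h`.

Main facts: the cocycle identity `carry_cocycle`, the coboundary identity `carry_mul`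
for a product of two characters, and compatibility with composition.
-/

set_option autoImplicit false

namespace Fermat.Agent.S55.G.Rec

variable {G : Type*} [Monoid G] {n : ℕ} [NeZero n]

/-- The canonical lift `χ̃(g) ∈ {0, …, n-1}` of the value of a character. -/
def lift (χ : G →* Multiplicative (ZMod n)) (g : G) : ℕ :=
  (Multiplicative.toAdd (χ g)).val

/-- The carry `ε_χ(g,h) = (χ̃ g + χ̃ h - χ̃ (g h)) / n ∈ {0, 1}`. -/
def carry (χ : G →* Multiplicative (ZMod n)) (g h : G) : ℕ :=
  (lift χ g + lift χ h) / n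

theorem lift_lt (χ : G →* Multiplicative (ZMod n)) (g : G) : lift χ g < n :=
  ZMod.val_lt _

omit [NeZero n] in
@[simp] theorem lift_one_char (g : G) : lift (1 : G →* Multiplicative (ZMod n)) g = 0 := by
  simp [lift]

omit [NeZero n] in
@[simp] theorem lift_map_one (χ : G →* Multiplicative (ZMod n)) : lift χ 1 = 0 := by
  simp [lift]

theorem lift_mul (χ : G →* Multiplicative (ZMod n)) (g h : G) :
    lift χ (g * h) = (lift χ g + lift χ h) % n := by
  simp only [lift, map_mul, toAdd_mul]
  exact ZMod.val_add _ _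

theorem lift_mul_char (χ χ' : G →* Multiplicative (ZMod n)) (g : G) :
    lift (χ * χ') g = (lift χ g + lift χ' g) % n := by
  simp only [lift, MonoidHom.mul_apply, toAdd_mul]
  exact ZMod.val_add _ _

/-- The defining relation of the carry. -/
theorem lift_add_lift (χ : G →* Multiplicative (ZMod n)) (g h : G) :
    lift χ g + lift χ h = lift χ (g * h) + n * carry χ g h := by
  rw [lift_mul, carry]
  exact (Nat.mod_add_div _ _).symm

theorem carry_le_one (χ : G →* Multiplicative (ZMod n)) (g h : G) : carry χ g h ≤ 1 := by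
  have h1 := lift_lt χ g
  have h2 := lift_lt χ h
  have hn : 0 < n := Nat.pos_of_ne_zero (NeZero.ne n)
  rw [carry]
  have : (lift χ g + lift χ h) / n < 2 := by
    rw [Nat.div_lt_iff_lt_mul hn]
    omega
  omega

theorem carry_eq_ite (χ : G →* Multiplicative (ZMod n)) (g h : G) :
    carry χ g h = if n ≤ lift χ g + lift χ h then 1 else 0 := by
  have h1 := lift_lt χ g
  have h2 := lift_lt χ h
  have hn : 0 < n := Nat.pos_of_ne_zero (NeZero.ne n)
  split_ifs with hle
  · have h3 : 0 < carry χ g h := Nat.div_pos hle hn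
    have := carry_le_one χ g h
    omega
  · rw [carry]
    exact Nat.div_eq_of_lt (not_le.mp hle)

omit [NeZero n] in
@[simp] theorem carry_one_char (g h : G) : carry (1 : G →* Multiplicative (ZMod n)) g h = 0 := by
  simp [carry]

@[simp] theorem carry_one_left (χ : G →* Multiplicative (ZMod n)) (h : G) : carry χ 1 h = 0 := by
  rw [carry, lift_map_one, zero_add]
  exact Nat.div_eq_of_lt (lift_lt χ h)

@[simp] theorem carry_one_right (χ : G →* Multiplicative (ZMod n)) (g : G) : carry χ g 1 = 0 := by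
  rw [carry, lift_map_one, add_zero]
  exact Nat.div_eq_of_lt (lift_lt χ g)

/-- The cocycle identity for the carry. -/
theorem carry_cocycle (χ : G →* Multiplicative (ZMod n)) (g h j : G) :
    carry χ (g * h) j + carry χ g h = carry χ h j + carry χ g (h * j) := by
  have hn : 0 < n := Nat.pos_of_ne_zero (NeZero.ne n)
  have e1 := lift_add_lift χ g h
  have e2 := lift_add_lift χ (g * h) j
  have e3 := lift_add_lift χ h j
  have e4 := lift_add_lift χ g (h * j)
  rw [mul_assoc] at e2
  have key : n * (carry χ (g * h) j + carry χ g h) = n * (carry χ h j + carry χ g (h * j)) := by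
    rw [mul_add, mul_add]
    omega
  exact Nat.eq_of_mul_eq_mul_left hn key

/-- The correction term `η(g) = (χ̃ g + χ̃' g) / n ∈ {0,1}` for the product of two characters. -/
def carryChar (χ χ' : G →* Multiplicative (ZMod n)) (g : G) : ℕ :=
  (lift χ g + lift χ' g) / n

theorem lift_add_lift_char (χ χ' : G →* Multiplicative (ZMod n)) (g : G) :
    lift χ g + lift χ' g = lift (χ * χ') g + n * carryChar χ χ' g := by
  rw [lift_mul_char, carryChar]
  exact (Nat.mod_add_div _ _).symm

/-- The coboundary identity: `ε_χ + ε_χ' - ε_{χχ'} = dη`. -/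
theorem carry_mul (χ χ' : G →* Multiplicative (ZMod n)) (g h : G) :
    carry χ g h + carry χ' g h + carryChar χ χ' (g * h) =
      carry (χ * χ') g h + carryChar χ χ' g + carryChar χ χ' h := by
  have hn : 0 < n := Nat.pos_of_ne_zero (NeZero.ne n)
  have e1 := lift_add_lift χ g h
  have e2 := lift_add_lift χ' g h
  have e3 := lift_add_lift (χ * χ') g h
  have e4 := lift_add_lift_char χ χ' g
  have e5 := lift_add_lift_char χ χ' h
  have e6 := lift_add_lift_char χ χ' (g * h)
  have key : n * (carry χ g h + carry χ' g h + carryChar χ χ' (g * h)) =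
      n * (carry (χ * χ') g h + carryChar χ χ' g + carryChar χ χ' h) := by
    rw [mul_add, mul_add, mul_add, mul_add]
    omega
  exact Nat.eq_of_mul_eq_mul_left hn key

omit [NeZero n] in
/-- Compatibility with composition. -/
@[simp] theorem lift_comp {G' : Type*} [Monoid G'] (χ : G →* Multiplicative (ZMod n))
    (f : G' →* G) (g : G') : lift (χ.comp f) g = lift χ (f g) := rfl

omit [NeZero n] in
@[simp] theorem carry_comp {G' : Type*} [Monoid G'] (χ : G →* Multiplicative (ZMod n))
    (f : G' →* G) (g h : G') : carry (χ.comp f) g h = carry χ (f g) (f h) := rfl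

end Fermat.Agent.S55.G.Rec

end
-- ===== PACK-END S55/G/Rec/H473Carry.lean

-- ===== PACK-BEGIN S55/G/Defs.lean
section
/-
S55 (Poitou–Tate), layer G (global class field theory) — DEFINITIONS, part 1.
Sub-architect: helper421.   Plan: `coord/S55-G.md` on `origin/helper421`.

The finite-level global modules of the roadmap (`origin/helper55:coord/S55.md`), in an
INTRINSIC model valid for every number field `L` (a type in universe `0`) and every group `G`
acting on `L` by field automorphisms (`[MulSemiringAction G L]`; typical cases: `G = L ≃ₐ[K] L`,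
a subgroup of it, a quotient acting on a fixed field — see Mathlib's `IsGaloisGroup G K L`).

* `Qq q = ℚ_q`, `QS S = ∏_{q ∈ S} ℚ_q`, `AS S L = L ⊗[ℚ] QS S  (≃ ∏_{w | q ∈ S} L_w)`;
* `LRep G L     = Lˣ`;
* `JRep S G L   = (AS S L)ˣ`            (the `S`-idèles; NO archimedean component);
* `DivRep S G L = ℤ[primes of L not above S]`   (divisors prime to `S`);
* `diagHom S G L : LRep ⟶ JRep × DivRep`,  `x ↦ (x ⊗ 1, div x)`;
* `CRep S G L   = (JRep × DivRep) / Lˣ`  (the `S`-idèle class group `C_S(L)`);
* `sUnit S L    = ker (Lˣ → Div^S)`      (the `S`-units), `ERep S G L`.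

All modules are `Rep ℤ G` with `G : Type` (universe `0`, as required by Mathlib's
`groupCohomology`).  No instance is declared globally on Mathlib types: every action is an
explicit definition.  This file contains no `sorry`.
-/


set_option autoImplicit false
set_option linter.unusedSectionVars false

open scoped NumberField TensorProduct
open IsDedekindDomain CategoryTheory

noncomputable section

namespace Fermat.Agent.S55.G

/-! ## 1. The semi-local ring `ℚ_S` and the `S`-adèle ring `L ⊗ ℚ_S` -/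

/-- `ℚ_q` for a bundled prime `q` (reducible: every Mathlib instance on `ℚ_[q]` applies). -/
abbrev Qq (q : Nat.Primes) : Type := @Padic (q : ℕ) ⟨q.2⟩

/-- `Qq ⟨q, _⟩` is `ℚ_[q]` (definitionally). -/
lemma Qq_mk (q : ℕ) [hq : Fact q.Prime] : Qq ⟨q, hq.out⟩ = ℚ_[q] := rfl

/-- The semi-local ring `ℚ_S = ∏_{q ∈ S} ℚ_q`.  A `def` (not an `abbrev`) with its own
`CommRing` and `Algebra ℚ` instances: this keeps instance search on `L ⊗[ℚ] QS S` fast and
robust.  Use `QS.toPi` to go to the product. -/
def QS (S : Finset Nat.Primes) : Type := ∀ q : S, Qq q.1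

instance QS.instCommRing (S : Finset Nat.Primes) : CommRing (QS S) :=
  inferInstanceAs (CommRing (∀ q : S, Qq q.1))

instance QS.instAlgebra (S : Finset Nat.Primes) : Algebra ℚ (QS S) :=
  inferInstanceAs (Algebra ℚ (∀ q : S, Qq q.1))

/-- `ℚ_S` is the product of the `ℚ_q`, `q ∈ S` (the identity map). -/
def QS.toPi (S : Finset Nat.Primes) : QS S ≃ₐ[ℚ] (∀ q : S, Qq q.1) := AlgEquiv.refl

/-- The projection `ℚ_S → ℚ_q`. -/
def QS.proj (S : Finset Nat.Primes) (q : S) : QS S →ₐ[ℚ] Qq q.1 :=
  (Pi.evalAlgHom ℚ (fun q : S => Qq q.1) q).comp (QS.toPi S).toAlgHom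

@[simp] lemma QS.proj_apply (S : Finset Nat.Primes) (q : S) (x : QS S) :
    QS.proj S q x = QS.toPi S x q := rfl

/-- The ring of `S`-adèles `𝔸_S(L) = L ⊗_ℚ ℚ_S` of a field `L` of characteristic `0`. -/
abbrev AS (S : Finset Nat.Primes) (L : Type) [Field L] [CharZero L] : Type := L ⊗[ℚ] QS S

section Action

variable (S : Finset Nat.Primes) (G L : Type) [Group G] [Field L] [CharZero L]
  [MulSemiringAction G L]

/-- The automorphism of `L` over `ℚ` given by `g ∈ G`. -/
def fieldAut : G →* (L ≃ₐ[ℚ] L) where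
  toFun g := (MulSemiringAction.toRingEquiv G L g).toRatAlgEquiv
  map_one' := by ext x; simp
  map_mul' g h := by ext x; simp

@[simp] lemma fieldAut_apply (g : G) (x : L) : fieldAut G L g x = g • x := rfl

/-- The action of `G` on `𝔸_S(L) = L ⊗ ℚ_S` through the first factor. -/
def asAut : G →* (AS S L ≃ₐ[ℚ] AS S L) where
  toFun g := Algebra.TensorProduct.congr (fieldAut G L g) AlgEquiv.refl
  map_one' := by
    rw [map_one]
    exact Algebra.TensorProduct.congr_refl
  map_mul' g h := by
    rw [map_mul]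
    ext x
    induction x using TensorProduct.induction_on with
    | zero => simp
    | tmul a b => simp
    | add a b ha hb => simp only [map_add, ha, hb]

@[simp] lemma asAut_tmul (g : G) (x : L) (y : QS S) :
    asAut S G L g (x ⊗ₜ[ℚ] y) = (g • x) ⊗ₜ[ℚ] y := by
  simp [asAut]

/-- The diagonal embedding `L → 𝔸_S(L)`, `x ↦ x ⊗ 1`. -/
def asDiag : L →ₐ[ℚ] AS S L := Algebra.TensorProduct.includeLeft

@[simp] lemma asDiag_apply (x : L) : asDiag S L x = x ⊗ₜ[ℚ] (1 : QS S) := rfl

lemma asAut_asDiag (g : G) (x : L) : asAut S G L g (asDiag S L x) = asDiag S L (g • x) := by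
  simp

/-- The inclusion of the second factor `ℚ_S → 𝔸_S(L)`. -/
def asIncl : QS S →ₐ[ℚ] AS S L := Algebra.TensorProduct.includeRight

lemma asAut_asIncl (g : G) (y : QS S) : asAut S G L g (asIncl S L y) = asIncl S L y := by
  simp [asIncl]

end Action

/-! ## 2. Units as representations -/

section UnitsRep

variable (G : Type) [Group G]

/-- The `ℤ`-linear representation of `G` on `Additive Rˣ` attached to an action
`φ : G →* (R ≃+* R)` of `G` on a commutative ring `R` by ring automorphisms. -/
def unitsRepr {R : Type} [CommRing R] (φ : G →* (R ≃+* R)) :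
    Representation ℤ G (Additive Rˣ) where
  toFun g := (MonoidHom.toAdditive (Units.map ((φ g : R ≃+* R) : R →* R))).toIntLinearMap
  map_one' := by
    refine LinearMap.ext fun x => ?_
    have h : Units.map ((φ 1 : R ≃+* R) : R →* R) x.toMul = x.toMul := Units.ext (by simp)
    exact congrArg Additive.ofMul h
  map_mul' g h := by
    refine LinearMap.ext fun x => ?_
    have h : Units.map ((φ (g * h) : R ≃+* R) : R →* R) x.toMul =
        Units.map ((φ g : R ≃+* R) : R →* R) (Units.map ((φ h : R ≃+* R) : R →* R) x.toMul) :=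
      Units.ext (by simp)
    exact congrArg Additive.ofMul h

@[simp] lemma unitsRepr_apply {R : Type} [CommRing R] (φ : G →* (R ≃+* R)) (g : G)
    (x : Additive Rˣ) :
    unitsRepr G φ g x = Additive.ofMul (Units.map ((φ g : R ≃+* R) : R →* R) x.toMul) := rfl

lemma coe_unitsRepr_apply {R : Type} [CommRing R] (φ : G →* (R ≃+* R)) (g : G)
    (x : Additive Rˣ) :
    (((unitsRepr G φ g x).toMul : Rˣ) : R) = φ g ((x.toMul : Rˣ) : R) := rfl

variable (S : Finset Nat.Primes) (L : Type) [Field L] [CharZero L] [MulSemiringAction G L]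

/-- The action of `G` on `𝔸_S(L)` as a homomorphism to ring automorphisms. -/
def asRingAut : G →* (AS S L ≃+* AS S L) where
  toFun g := (asAut S G L g).toRingEquiv
  map_one' := by rw [map_one]; rfl
  map_mul' g h := by rw [map_mul]; rfl

@[simp] lemma asRingAut_apply (g : G) (x : AS S L) : asRingAut G S L g x = asAut S G L g x := rfl

/-- The representation of `G` on `Lˣ` (additively). -/
def lRepr : Representation ℤ G (Additive Lˣ) := unitsRepr G (MulSemiringAction.toRingEquiv G L)

/-- The representation of `G` on the `S`-idèles `J_S(L) = (L ⊗ ℚ_S)ˣ` (additively). -/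
def jRepr : Representation ℤ G (Additive (AS S L)ˣ) := unitsRepr G (asRingAut G S L)

/-- `Lˣ` as an object of `Rep ℤ G`. -/
def LRep : Rep ℤ G := Rep.of (lRepr G L)

/-- The `S`-idèle group `J_S(L) = (L ⊗_ℚ ℚ_S)ˣ` as an object of `Rep ℤ G`. -/
def JRep : Rep ℤ G := Rep.of (jRepr G S L)

omit [CharZero L] in
lemma coe_lRepr_apply (g : G) (x : Additive Lˣ) :
    (((lRepr G L g x).toMul : Lˣ) : L) = g • ((x.toMul : Lˣ) : L) := rfl

lemma coe_jRepr_apply (g : G) (x : Additive (AS S L)ˣ) :
    (((jRepr G S L g x).toMul : (AS S L)ˣ) : AS S L) =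
      asAut S G L g ((x.toMul : (AS S L)ˣ) : AS S L) := rfl

/-- The diagonal map `Lˣ → J_S(L)`, additively. -/
def unitsDiag : Additive Lˣ →+ Additive (AS S L)ˣ :=
  MonoidHom.toAdditive (Units.map ((asDiag S L : L →ₐ[ℚ] AS S L) : L →* AS S L))

lemma coe_unitsDiag_apply (x : Additive Lˣ) :
    (((unitsDiag S L x).toMul : (AS S L)ˣ) : AS S L) = asDiag S L ((x.toMul : Lˣ) : L) := rfl

lemma unitsDiag_equivariant (g : G) (x : Additive Lˣ) :
    unitsDiag S L (lRepr G L g x) = jRepr G S L g (unitsDiag S L x) := by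
  apply Additive.toMul.injective
  apply Units.ext
  rw [coe_unitsDiag_apply, coe_jRepr_apply, coe_unitsDiag_apply, coe_lRepr_apply, asAut_asDiag]

end UnitsRep

/-! ## 3. Primes outside `S`, divisors prime to `S` -/

section Primes

open scoped Pointwise

variable (S : Finset Nat.Primes) (G L : Type) [Group G] [Field L] [NumberField L]
  [MulSemiringAction G L]

/-- A finite prime `w` of `L` lies above `S` if its residue characteristic is in `S`. -/
def IsAbove (w : HeightOneSpectrum (𝓞 L)) : Prop :=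
  ∃ q ∈ S, ((q : ℕ) : 𝓞 L) ∈ w.asIdeal

/-- The finite primes of `L` not above `S`. -/
def PrimeOut : Type := {w : HeightOneSpectrum (𝓞 L) // ¬ IsAbove S L w}

/-- The finite primes of `L` above `S`. -/
def PrimeIn : Type := {w : HeightOneSpectrum (𝓞 L) // IsAbove S L w}

variable {L} in
/-- The action of `g ∈ G` on the finite primes of `L`: `w ↦ g(w)`. -/
def primeSMul (g : G) (w : HeightOneSpectrum (𝓞 L)) : HeightOneSpectrum (𝓞 L) where
  asIdeal := g • w.asIdeal
  isPrime := by
    rw [Ideal.pointwise_smul_def]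
    exact Ideal.map_isPrime_of_equiv (MulSemiringAction.toRingEquiv G (𝓞 L) g)
  ne_bot := by
    intro h
    apply w.ne_bot
    rw [eq_bot_iff] at h ⊢
    intro x hx
    have := h (Ideal.smul_mem_pointwise_smul_iff.2 hx : g • x ∈ g • w.asIdeal)
    exact (smul_eq_zero_iff_eq g).1 this

omit [NumberField L] in
variable {L} in
@[simp] lemma primeSMul_asIdeal (g : G) (w : HeightOneSpectrum (𝓞 L)) :
    (primeSMul G g w).asIdeal = g • w.asIdeal := rfl

omit [NumberField L] in
variable {L} in
lemma mem_primeSMul_iff (g : G) (w : HeightOneSpectrum (𝓞 L)) (x : 𝓞 L) :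
    x ∈ (primeSMul G g w).asIdeal ↔ g⁻¹ • x ∈ w.asIdeal :=
  Ideal.mem_pointwise_smul_iff_inv_smul_mem

/-- The action of `G` on the finite primes of `L` (a definition, NOT a global instance). -/
abbrev primeAction : MulAction G (HeightOneSpectrum (𝓞 L)) where
  smul g w := primeSMul G g w
  one_smul w := HeightOneSpectrum.ext (one_smul G w.asIdeal)
  mul_smul g h w := HeightOneSpectrum.ext (mul_smul g h w.asIdeal)

omit [NumberField L] in
variable {L} in
lemma isAbove_primeSMul_iff (g : G) (w : HeightOneSpectrum (𝓞 L)) :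
    IsAbove S L (primeSMul G g w) ↔ IsAbove S L w := by
  unfold IsAbove
  have key : ∀ n : ℕ, g⁻¹ • ((n : ℕ) : 𝓞 L) = n := fun n =>
    map_natCast (MulSemiringAction.toRingHom G (𝓞 L) g⁻¹) n
  simp only [mem_primeSMul_iff, key]

/-- The action of `G` on the finite primes of `L` not above `S`
(a definition, NOT a global instance). -/
abbrev primeOutAction : MulAction G (PrimeOut S L) where
  smul g w := ⟨primeSMul G g w.1, fun h => w.2 ((isAbove_primeSMul_iff S G g w.1).1 h)⟩
  one_smul w := Subtype.ext (HeightOneSpectrum.ext (one_smul G w.1.asIdeal))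
  mul_smul g h w := Subtype.ext (HeightOneSpectrum.ext (mul_smul g h w.1.asIdeal))

/-- The permutation of the primes outside `S` given by `g`. -/
def primeOutMap (g : G) (w : PrimeOut S L) : PrimeOut S L :=
  (primeOutAction S G L).smul g w

lemma primeOutMap_val (g : G) (w : PrimeOut S L) :
    (primeOutMap S G L g w).1 = primeSMul G g w.1 := rfl

lemma primeOutMap_one (w : PrimeOut S L) : primeOutMap S G L 1 w = w :=
  (primeOutAction S G L).one_smul w

lemma primeOutMap_mul (g h : G) (w : PrimeOut S L) :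
    primeOutMap S G L (g * h) w = primeOutMap S G L g (primeOutMap S G L h w) :=
  (primeOutAction S G L).mul_smul g h w

/-- The representation of `G` on the divisors prime to `S`:
`Div^S(L) = ℤ[primes of L not above S]`, `g • [w] = [g w]`. -/
def divRepr : Representation ℤ G (PrimeOut S L →₀ ℤ) where
  toFun g := Finsupp.lmapDomain ℤ ℤ (primeOutMap S G L g)
  map_one' := by
    refine LinearMap.ext fun x => ?_
    have : primeOutMap S G L 1 = id := funext (primeOutMap_one S G L)
    simp [this]
  map_mul' g h := by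
    refine LinearMap.ext fun x => ?_
    have : primeOutMap S G L (g * h) = primeOutMap S G L g ∘ primeOutMap S G L h :=
      funext (primeOutMap_mul S G L g h)
    simp [this, Finsupp.mapDomain_comp]

@[simp] lemma divRepr_single (g : G) (w : PrimeOut S L) (n : ℤ) :
    divRepr S G L g (Finsupp.single w n) = Finsupp.single (primeOutMap S G L g w) n := by
  simp [divRepr]

/-- `Div^S(L)` as an object of `Rep ℤ G`. -/
def DivRep : Rep ℤ G := Rep.of (divRepr S G L)

end Primes

/-! ## 4. The order maps `ord_w : Lˣ → ℤ` and the divisor map -/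

section Ord

open scoped Pointwise

variable (S : Finset Nat.Primes) (G L : Type) [Group G] [Field L] [NumberField L]
  [MulSemiringAction G L]

variable {L} in
/-- The order of `x ∈ Lˣ` at the finite prime `w`, normalised by `ord_w(uniformiser) = 1`:
`ord_w x = - log (w.valuation L x)`. -/
def ordAt (w : HeightOneSpectrum (𝓞 L)) : Additive Lˣ →+ ℤ where
  toFun x := - WithZero.log (w.valuation L ((x.toMul : Lˣ) : L))
  map_zero' := by simp
  map_add' x y := by
    have hx : w.valuation L ((x.toMul : Lˣ) : L) ≠ 0 := by simp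
    have hy : w.valuation L ((y.toMul : Lˣ) : L) ≠ 0 := by simp
    simp only [toMul_add, Units.val_mul, map_mul, WithZero.log_mul hx hy, neg_add]

variable {L} in
lemma ordAt_apply (w : HeightOneSpectrum (𝓞 L)) (x : Additive Lˣ) :
    ordAt w x = - WithZero.log (w.valuation L ((x.toMul : Lˣ) : L)) := rfl

variable {L} in
lemma valuation_eq_exp_neg_ordAt (w : HeightOneSpectrum (𝓞 L)) (x : Additive Lˣ) :
    w.valuation L ((x.toMul : Lˣ) : L) = WithZero.exp (- ordAt w x) := by
  have hx : w.valuation L ((x.toMul : Lˣ) : L) ≠ 0 := by simp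
  rw [ordAt_apply, neg_neg, WithZero.exp_log hx]

variable {L} in
lemma ordAt_eq_zero_iff (w : HeightOneSpectrum (𝓞 L)) (x : Additive Lˣ) :
    ordAt w x = 0 ↔ w.valuation L ((x.toMul : Lˣ) : L) = 1 := by
  rw [valuation_eq_exp_neg_ordAt, WithZero.exp_eq_one, neg_eq_zero]

variable {L} in
lemma ordAt_support_finite (x : Additive Lˣ) :
    {w : HeightOneSpectrum (𝓞 L) | ordAt w x ≠ 0}.Finite := by
  have h1 := HeightOneSpectrum.Support.finite (𝓞 L) ((x.toMul : Lˣ) : L)
  have h2 := HeightOneSpectrum.Support.finite (𝓞 L) (((x.toMul)⁻¹ : Lˣ) : L)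
  refine (h1.union h2).subset fun w hw => ?_
  simp only [Set.mem_ofPred_eq, ne_eq, ordAt_eq_zero_iff] at hw
  rcases lt_or_gt_of_ne hw with h | h
  · right
    simp only [HeightOneSpectrum.Support, Set.mem_ofPred_eq, Units.val_inv_eq_inv_val, map_inv₀]
    exact (one_lt_inv₀ (by simp [zero_lt_iff])).2 h
  · left
    exact h

/-- The divisor map `Lˣ → Div^S(L)`, `x ↦ ∑_{w ∉ S} ord_w(x) [w]`. -/
def ordHom : Additive Lˣ →+ (PrimeOut S L →₀ ℤ) where
  toFun x := Finsupp.ofSupportFinite (fun w : PrimeOut S L => ordAt w.1 x)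
    ((ordAt_support_finite x).preimage Subtype.val_injective.injOn)
  map_zero' := by
    ext w
    simp [Finsupp.ofSupportFinite_coe]
  map_add' x y := by
    ext w
    exact map_add (ordAt w.1) x y

@[simp] lemma ordHom_apply (x : Additive Lˣ) (w : PrimeOut S L) :
    ordHom S L x w = ordAt w.1 x := rfl

variable {L} in
lemma primeSMul_pow_mem_iff (g : G) (w : HeightOneSpectrum (𝓞 L)) (r : 𝓞 L) (n : ℕ) :
    g • r ∈ (primeSMul G g w).asIdeal ^ n ↔ r ∈ w.asIdeal ^ n := by
  have : (primeSMul G g w).asIdeal ^ n = g • (w.asIdeal ^ n) := by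
    rw [primeSMul_asIdeal, Ideal.pointwise_smul_def, Ideal.pointwise_smul_def, Ideal.map_pow]
  rw [this, Ideal.smul_mem_pointwise_smul_iff]

variable {L} in
/-- Galois-equivariance of the integral valuations: `v_{g w}(g r) = v_w(r)`. -/
lemma intValuation_primeSMul (g : G) (w : HeightOneSpectrum (𝓞 L)) (r : 𝓞 L) :
    (primeSMul G g w).intValuation (g • r) = w.intValuation r := by
  by_cases hr : r = 0
  · subst hr; simp
  have hgr : g • r ≠ 0 := fun h => hr ((smul_eq_zero_iff_eq g).1 h)
  have key : ∀ (v : HeightOneSpectrum (𝓞 L)) (x : 𝓞 L), x ≠ 0 →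
      ∃ n : ℕ, v.intValuation x = WithZero.exp (-(n : ℤ)) := by
    intro v x hx
    exact ⟨_, v.intValuation_if_neg hx⟩
  obtain ⟨a, ha⟩ := key w r hr
  obtain ⟨b, hb⟩ := key (primeSMul G g w) (g • r) hgr
  apply le_antisymm
  · rw [ha, HeightOneSpectrum.intValuation_le_pow_iff_mem, primeSMul_pow_mem_iff,
      ← HeightOneSpectrum.intValuation_le_pow_iff_mem, ha]
  · rw [hb, HeightOneSpectrum.intValuation_le_pow_iff_mem, ← primeSMul_pow_mem_iff G g,
      ← HeightOneSpectrum.intValuation_le_pow_iff_mem, hb]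

variable {L} in
/-- Galois-equivariance of the valuations: `v_{g w}(g x) = v_w(x)`. -/
lemma valuation_primeSMul (g : G) (w : HeightOneSpectrum (𝓞 L)) (x : L) :
    (primeSMul G g w).valuation L (g • x) = w.valuation L x := by
  obtain ⟨a, b, hb, rfl⟩ := IsFractionRing.div_surjective (A := 𝓞 L) x
  have h1 : g • (algebraMap (𝓞 L) L a / algebraMap (𝓞 L) L b) =
      algebraMap (𝓞 L) L (g • a) / algebraMap (𝓞 L) L (g • b) := by
    rw [smul_div₀']
    rfl
  rw [h1, map_div₀, map_div₀, HeightOneSpectrum.valuation_of_algebraMap,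
    HeightOneSpectrum.valuation_of_algebraMap, HeightOneSpectrum.valuation_of_algebraMap,
    HeightOneSpectrum.valuation_of_algebraMap, intValuation_primeSMul, intValuation_primeSMul]

variable {L} in
lemma ordAt_primeSMul (g : G) (w : HeightOneSpectrum (𝓞 L)) (x : Additive Lˣ) :
    ordAt (primeSMul G g w) (lRepr G L g x) = ordAt w x := by
  rw [ordAt_apply, ordAt_apply, coe_lRepr_apply, valuation_primeSMul]

lemma primeOutMap_injective (g : G) : Function.Injective (primeOutMap S G L g) := fun a b h => by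
  have := congrArg (primeOutMap S G L g⁻¹) h
  rwa [← primeOutMap_mul, ← primeOutMap_mul, inv_mul_cancel, primeOutMap_one,
    primeOutMap_one] at this

lemma divRepr_apply_apply (g : G) (d : PrimeOut S L →₀ ℤ) (w : PrimeOut S L) :
    divRepr S G L g d (primeOutMap S G L g w) = d w :=
  Finsupp.mapDomain_apply (primeOutMap_injective S G L g) d w

/-- The divisor map is `G`-equivariant. -/
lemma ordHom_equivariant (g : G) (x : Additive Lˣ) :
    ordHom S L (lRepr G L g x) = divRepr S G L g (ordHom S L x) := by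
  ext w
  have hw : w = primeOutMap S G L g (primeOutMap S G L g⁻¹ w) := by
    rw [← primeOutMap_mul, mul_inv_cancel, primeOutMap_one]
  rw [hw, divRepr_apply_apply, ordHom_apply, ordHom_apply, primeOutMap_val, ordAt_primeSMul]

end Ord

/-! ## 5. The `S`-idèle class group `C_S(L)` and the `S`-units -/

section ClassGroup

variable (S : Finset Nat.Primes) (G L : Type) [Group G] [Field L] [NumberField L]
  [MulSemiringAction G L]

/-- The underlying group of `J_S(L) × Div^S(L)` (additively). -/
abbrev JD : Type := Additive (AS S L)ˣ × (PrimeOut S L →₀ ℤ)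

/-- The representation of `G` on `J_S(L) × Div^S(L)`. -/
def jdRepr : Representation ℤ G (JD S L) := (jRepr G S L).prod (divRepr S G L)

/-- The diagonal map `Lˣ → J_S(L) × Div^S(L)`, `x ↦ (x ⊗ 1, div x)`. -/
def diagHom : Additive Lˣ →+ JD S L := (unitsDiag S L).prod (ordHom S L)

@[simp] lemma diagHom_fst (x : Additive Lˣ) : (diagHom S L x).1 = unitsDiag S L x := rfl

@[simp] lemma diagHom_snd (x : Additive Lˣ) : (diagHom S L x).2 = ordHom S L x := rfl

lemma diagHom_equivariant (g : G) (x : Additive Lˣ) :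
    diagHom S L (lRepr G L g x) = jdRepr S G L g (diagHom S L x) :=
  Prod.ext (unitsDiag_equivariant G S L g x) (ordHom_equivariant S G L g x)

/-- The subgroup of principal `S`-idèles: the image of `Lˣ` in `J_S(L) × Div^S(L)`. -/
def principal : Submodule ℤ (JD S L) := LinearMap.range (diagHom S L).toIntLinearMap

lemma mem_principal_iff (y : JD S L) : y ∈ principal S L ↔ ∃ x, diagHom S L x = y := Iff.rfl

lemma principal_stable (g : G) : principal S L ≤ (principal S L).comap (jdRepr S G L g) := by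
  rintro _ ⟨x, rfl⟩
  exact ⟨lRepr G L g x, diagHom_equivariant S G L g x⟩

/-- The underlying group of the `S`-idèle class group `C_S(L) = (J_S(L) × Div^S(L)) / Lˣ`. -/
abbrev CS : Type := JD S L ⧸ principal S L

/-- The representation of `G` on the `S`-idèle class group. -/
def cRepr : Representation ℤ G (CS S L) :=
  (jdRepr S G L).quotient (principal S L) (principal_stable S G L)

/-- `J_S(L) × Div^S(L)` as an object of `Rep ℤ G`. -/
def JDRep : Rep ℤ G := Rep.of (jdRepr S G L)

/-- The `S`-idèle class group `C_S(L) = (J_S(L) × Div^S(L)) / Lˣ` as an object of `Rep ℤ G`. -/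
def CRep : Rep ℤ G := Rep.of (cRepr S G L)

/-- The `S`-units of `L`: the kernel of the divisor map `Lˣ → Div^S(L)`. -/
def sUnit : Submodule ℤ (Additive Lˣ) := LinearMap.ker (ordHom S L).toIntLinearMap

lemma mem_sUnit_iff (x : Additive Lˣ) : x ∈ sUnit S L ↔ ∀ w : PrimeOut S L, ordAt w.1 x = 0 := by
  change ordHom S L x = 0 ↔ _
  rw [DFunLike.ext_iff]
  rfl

lemma sUnit_stable (g : G) : sUnit S L ≤ (sUnit S L).comap (lRepr G L g) := by
  intro x hx
  change ordHom S L (lRepr G L g x) = 0
  rw [ordHom_equivariant, (show ordHom S L x = 0 from hx), map_zero]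

/-- The representation of `G` on the `S`-units `E_S(L)`. -/
def eRepr : Representation ℤ G (sUnit S L) :=
  (lRepr G L).subrepresentation (sUnit S L) (sUnit_stable S G L)

/-- The `S`-units `E_S(L) = 𝒪_{L,S}ˣ` as an object of `Rep ℤ G`. -/
def ERep : Rep ℤ G := Rep.of (eRepr S G L)

/-- The group `C'_S(L) = J_S(L) / E_S(L)`: the image of `J_S(L)` in `C_S(L)`. -/
def jImage : Submodule ℤ (CS S L) :=
  LinearMap.range ((principal S L).mkQ ∘ₗ LinearMap.inl ℤ (Additive (AS S L)ˣ) (PrimeOut S L →₀ ℤ))

end ClassGroup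

/-! ## 6. Morphisms in `Rep ℤ G` -/

section Morphisms

variable (S : Finset Nat.Primes) (G L : Type) [Group G] [Field L] [NumberField L]
  [MulSemiringAction G L]

/-- The diagonal embedding `Lˣ ⟶ J_S(L) × Div^S(L)` in `Rep ℤ G`. -/
def diagRepHom : LRep G L ⟶ JDRep S G L :=
  Rep.ofHom ⟨(diagHom S L).toIntLinearMap,
    fun g => LinearMap.ext fun x => diagHom_equivariant S G L g x⟩

/-- The projection `J_S(L) × Div^S(L) ⟶ C_S(L)` in `Rep ℤ G`. -/
def quotRepHom : JDRep S G L ⟶ CRep S G L :=
  Rep.ofHom ⟨(principal S L).mkQ, fun _ => LinearMap.ext fun _ => rfl⟩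

/-- The inclusion `J_S(L) ⟶ J_S(L) × Div^S(L)` in `Rep ℤ G`. -/
def jInlRepHom : JRep G S L ⟶ JDRep S G L :=
  Rep.ofHom ⟨(AddMonoidHom.inl (Additive (AS S L)ˣ) (PrimeOut S L →₀ ℤ)).toIntLinearMap,
    fun _ => LinearMap.ext fun _ => by
      refine Prod.ext rfl ?_
      simp [jdRepr, Representation.prod]⟩

/-- The inclusion `Div^S(L) ⟶ J_S(L) × Div^S(L)` in `Rep ℤ G`. -/
def divInrRepHom : DivRep S G L ⟶ JDRep S G L :=
  Rep.ofHom ⟨(AddMonoidHom.inr (Additive (AS S L)ˣ) (PrimeOut S L →₀ ℤ)).toIntLinearMap,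
    fun _ => LinearMap.ext fun _ => by
      refine Prod.ext ?_ rfl
      simp [jdRepr, Representation.prod]⟩

/-- The projection `J_S(L) × Div^S(L) ⟶ Div^S(L)` in `Rep ℤ G`. -/
def divSndRepHom : JDRep S G L ⟶ DivRep S G L :=
  Rep.ofHom ⟨(AddMonoidHom.snd (Additive (AS S L)ˣ) (PrimeOut S L →₀ ℤ)).toIntLinearMap,
    fun _ => LinearMap.ext fun _ => rfl⟩

/-- The map `J_S(L) ⟶ C_S(L)` in `Rep ℤ G`. -/
def jToCRepHom : JRep G S L ⟶ CRep S G L := jInlRepHom S G L ≫ quotRepHom S G L

/-- The inclusion of the `S`-units `E_S(L) ⟶ Lˣ` in `Rep ℤ G`. -/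
def eInclRepHom : ERep S G L ⟶ LRep G L :=
  Rep.ofHom ⟨(sUnit S L).subtype, fun _ => LinearMap.ext fun _ => rfl⟩

/-- The divisor map `Lˣ ⟶ Div^S(L)` in `Rep ℤ G`. -/
def ordRepHom : LRep G L ⟶ DivRep S G L :=
  Rep.ofHom ⟨(ordHom S L).toIntLinearMap,
    fun g => LinearMap.ext fun x => ordHom_equivariant S G L g x⟩

/-- The short complex `Lˣ ⟶ J_S(L) × Div^S(L) ⟶ C_S(L)` in `Rep ℤ G`
(short exact as soon as `S ≠ ∅`). -/
def classShortComplex : CategoryTheory.ShortComplex (Rep ℤ G) :=
  CategoryTheory.ShortComplex.mk (diagRepHom S G L) (quotRepHom S G L) (by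
    ext x
    exact (Submodule.Quotient.mk_eq_zero _).2 ⟨x, rfl⟩)

end Morphisms

/-! ## 7. Base change along a field extension `L' → L` -/

section BaseChange

variable (S : Finset Nat.Primes) (L' L : Type) [Field L'] [CharZero L'] [Field L] [CharZero L]
  [Algebra L' L]

/-- The base change map `𝔸_S(L') → 𝔸_S(L)`. -/
def asMap : AS S L' →ₐ[ℚ] AS S L :=
  Algebra.TensorProduct.map ((algebraMap L' L).toRatAlgHom) (AlgHom.id ℚ (QS S))

@[simp] lemma asMap_tmul (x : L') (y : QS S) :
    asMap S L' L (x ⊗ₜ[ℚ] y) = (algebraMap L' L x) ⊗ₜ[ℚ] y := by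
  simp [asMap]

/-- The base change map `J_S(L') → J_S(L)`, additively. -/
def jMap : Additive (AS S L')ˣ →+ Additive (AS S L)ˣ :=
  MonoidHom.toAdditive (Units.map ((asMap S L' L : AS S L' →ₐ[ℚ] AS S L) : AS S L' →* AS S L))

lemma coe_jMap_apply (y : Additive (AS S L')ˣ) :
    (((jMap S L' L y).toMul : (AS S L)ˣ) : AS S L) =
      asMap S L' L ((y.toMul : (AS S L')ˣ) : AS S L') := rfl

/-- The inclusion `L'ˣ → Lˣ`, additively. -/
def lMap : Additive L'ˣ →+ Additive Lˣ :=
  MonoidHom.toAdditive (Units.map ((algebraMap L' L : L' →+* L) : L' →* L))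

lemma jMap_unitsDiag (x : Additive L'ˣ) :
    jMap S L' L (unitsDiag S L' x) = unitsDiag S L (lMap L' L x) := by
  apply Additive.toMul.injective
  apply Units.ext
  change asMap S L' L (asDiag S L' _) = asDiag S L _
  simp [lMap]

end BaseChange

end Fermat.Agent.S55.G

end
end
-- ===== PACK-END S55/G/Defs.lean

-- ===== PACK-BEGIN S55/Local/H964/Group.lean
section


/-!
# S55, layer L, T5 glue: two group-theoretic lemmas (helper964)

* `exists_generator_pow_eq` : in a finite cyclic group `C`, for every element `a` there is a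
  generator `φ` with `φ ^ (|C| / orderOf a) = a`.
* `card_eq_and_isAddCyclic` : an additive group whose order divides `n` and which contains an
  element of "order at least `n`" is cyclic of order `n`.
-/

set_option autoImplicit false
set_option linter.style.haveILetI false

namespace Fermat.Agent.S55.Local.H964

/-- In a finite cyclic group every element `a` is the `(|C| / orderOf a)`-th power of a
generator. -/
theorem exists_generator_pow_eq {C : Type*} [Group C] [Finite C] [IsCyclic C] (a : C) :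
    ∃ φ : C, (∀ g, g ∈ Subgroup.zpowers φ) ∧ φ ^ (Nat.card C / orderOf a) = a := by
  classical
  obtain ⟨γ, hγ⟩ := IsCyclic.exists_generator (α := C)
  have hf : orderOf γ = Nat.card C := orderOf_eq_card_of_forall_mem_zpowers hγ
  set f := Nat.card C with hfdef
  have hfpos : 0 < f := Nat.card_pos
  haveI : NeZero f := ⟨hfpos.ne'⟩
  set n := orderOf a with hn
  have hnpos : 0 < n := orderOf_pos a
  have hnf : n ∣ f := orderOf_dvd_natCard a
  haveI : NeZero n := ⟨hnpos.ne'⟩
  set d := f / n with hd
  have hdn : d * n = f := Nat.div_mul_cancel hnf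
  have hdpos : 0 < d := Nat.pos_of_ne_zero (by rintro h; rw [h, zero_mul] at hdn; omega)
  -- write `a = γ ^ j`
  obtain ⟨j, hj⟩ : ∃ j : ℕ, γ ^ j = a := by
    have := hγ a
    rw [← mem_powers_iff_mem_zpowers] at this
    exact this
  -- `d ∣ j`
  have hdj : d ∣ j := by
    -- `a ^ n = 1` so `γ ^ (j * n) = 1`, hence `f ∣ j * n`
    have h1 : γ ^ (j * n) = 1 := by rw [pow_mul, hj, hn, pow_orderOf_eq_one]
    have h2 : f ∣ j * n := by rw [← hf]; exact orderOf_dvd_of_pow_eq_one h1
    rw [← hdn] at h2
    exact (Nat.mul_dvd_mul_iff_right hnpos).1 h2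
  obtain ⟨j', rfl⟩ := hdj
  -- `j'` is coprime to `n`
  have hcop : Nat.Coprime j' n := by
    -- if a prime `ℓ` divides both then `a ^ (n / ℓ) = 1`
    rw [Nat.coprime_comm, Nat.coprime_iff_gcd_eq_one]
    by_contra hne
    set g := Nat.gcd n j' with hg
    have hg1 : 1 < g := by
      have hgpos : 0 < g := Nat.gcd_pos_of_pos_left _ hnpos
      omega
    obtain ⟨n', hn'⟩ : g ∣ n := Nat.gcd_dvd_left _ _
    obtain ⟨j'', hj''⟩ : g ∣ j' := Nat.gcd_dvd_right _ _
    have hn'pos : 0 < n' := Nat.pos_of_ne_zero (by rintro h; rw [h, mul_zero] at hn'; omega)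
    have hpow : a ^ n' = 1 := by
      rw [← hj, ← pow_mul]
      have : d * j' * n' = f * j'' := by
        rw [← hdn, hj'']
        calc d * (g * j'') * n' = d * (g * n') * j'' := by ring
          _ = d * n * j'' := by rw [← hn']
      rw [this, pow_mul, ← hf, pow_orderOf_eq_one, one_pow]
    have hle : n ≤ n' := Nat.le_of_dvd hn'pos (orderOf_dvd_of_pow_eq_one hpow)
    have : n' < n := by
      rw [hn']
      calc n' = 1 * n' := (one_mul _).symm
        _ < g * n' := Nat.mul_lt_mul_of_pos_right hg1 hn'pos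
    omega
  -- lift the unit `j' mod n` to a unit `u mod f`
  let u₀ : (ZMod n)ˣ := ZMod.unitOfCoprime j' hcop
  obtain ⟨u, hu⟩ := ZMod.unitsMap_surjective hnf u₀
  -- `φ := γ ^ (u.val)`
  set k : ℕ := (u : ZMod f).val with hk
  have hkcop : Nat.Coprime k f := ZMod.val_coe_unit_coprime u
  have hkn : (k : ZMod n) = (j' : ZMod n) := by
    have h1 : ((ZMod.unitsMap hnf u : (ZMod n)ˣ) : ZMod n) = ZMod.castHom hnf (ZMod n) (u : ZMod f) :=
      rfl
    rw [hu] at h1
    have h2 : ((u₀ : (ZMod n)ˣ) : ZMod n) = (j' : ZMod n) := ZMod.coe_unitOfCoprime j' hcop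
    rw [h2] at h1
    rw [h1, hk]
    have : ((u : ZMod f).val : ZMod f) = (u : ZMod f) := ZMod.natCast_zmod_val _
    conv_rhs => rw [← this]
    rw [map_natCast]
  refine ⟨γ ^ k, ?_, ?_⟩
  · -- `γ ^ k` is a generator since `k` is coprime to `f = orderOf γ`
    intro g
    have hord : orderOf (γ ^ k) = Nat.card C := by
      rw [Nat.Coprime.orderOf_pow (by rw [hf]; exact hkcop.symm), hf]
    have hcard : Nat.card (Subgroup.zpowers (γ ^ k)) = Nat.card C := by
      rw [Nat.card_zpowers, hord]
    have htop : Subgroup.zpowers (γ ^ k) = ⊤ := Subgroup.eq_top_of_card_eq _ hcard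
    rw [htop]; exact Subgroup.mem_top g
  · -- `(γ ^ k) ^ d = γ ^ (d * j')`
    rw [← hj, ← pow_mul]
    rw [pow_eq_pow_iff_modEq, hf]
    -- `k * d ≡ d * j' mod f = d * n`
    have hmod : k ≡ j' [MOD n] := (ZMod.natCast_eq_natCast_iff _ _ _).1 hkn
    have := Nat.ModEq.mul_left' d hmod
    rw [hdn] at this
    calc k * d = d * k := mul_comm _ _
      _ ≡ d * j' [MOD f] := this

/-- An additive group whose cardinality divides `n > 0` and which has an element `a` such that
`k • a = 0` implies `n ∣ k`, is cyclic of order `n`. -/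
theorem card_eq_and_isAddCyclic {H : Type*} [AddGroup H] {n : ℕ} (hn : 0 < n)
    (hcard : Nat.card H ∣ n) (a : H) (ha : ∀ k : ℕ, k • a = 0 → n ∣ k) :
    Nat.card H = n ∧ IsAddCyclic H := by
  have hne : Nat.card H ≠ 0 := by
    rintro h; rw [h] at hcard; exact hn.ne' (Nat.eq_zero_of_zero_dvd hcard)
  have : Finite H := Nat.finite_of_card_ne_zero hne
  have h1 : n ∣ addOrderOf a := ha _ (addOrderOf_nsmul_eq_zero a)
  have h2 : addOrderOf a ∣ Nat.card H := addOrderOf_dvd_natCard a
  have h3 : Nat.card H = n := Nat.dvd_antisymm hcard (h1.trans h2)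
  have h4 : addOrderOf a = Nat.card H :=
    Nat.dvd_antisymm h2 (by rw [h3]; exact h1)
  exact ⟨h3, isAddCyclic_of_addOrderOf_eq_card a h4⟩

end Fermat.Agent.S55.Local.H964

end
-- ===== PACK-END S55/Local/H964/Group.lean

-- ===== PACK-BEGIN S55/Local/H478/Approx.lean
section


/-!
# S55, layer L (helper478): abstract successive approximation

`approx_exists`: let `d : N →* C` be a homomorphism of commutative groups, `FilN`, `FilC`
filtrations with `d (FilN j) ⊆ FilC j`, `FilN` complete, `FilC` separated, and `Z ≤ C` a subgroup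
containing the image of `d`.  If every `c ∈ Z ∩ FilC j` can be corrected by some `d m`,
`m ∈ FilN j`, into `FilC (j + 1)`, then every `c ∈ Z ∩ FilC 0` is of the form `d m`, `m ∈ FilN 0`.
-/

set_option autoImplicit false

namespace Fermat.Agent.S55.Local.H478

open Finset

section Approx

variable {N C : Type} [CommGroup N] [CommGroup C] (d : N →* C)
  (FilN : ℕ → Subgroup N) (FilC : ℕ → Subgroup C) (Z : Subgroup C)

/-- One approximation step, packaged with choice. -/
noncomputable def approxStep
    (hdZ : ∀ m, d m ∈ Z)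
    (hstep : ∀ j, ∀ c ∈ Z, c ∈ FilC j → ∃ m ∈ FilN j, c / d m ∈ FilC (j + 1))
    (c : C) (hcZ : c ∈ Z) :
    (n : ℕ) → {t : N // c / d t ∈ FilC n} → {t : N // c / d t ∈ FilC (n + 1)} :=
  fun n t =>
    have hZ : c / d t.1 ∈ Z := Z.div_mem hcZ (hdZ _)
    ⟨t.1 * Classical.choose (hstep n (c / d t.1) hZ t.2), by
      have h := (Classical.choose_spec (hstep n (c / d t.1) hZ t.2)).2
      rw [map_mul, ← div_div]
      exact h⟩

lemma approxStep_div_mem
    (hdZ : ∀ m, d m ∈ Z)
    (hstep : ∀ j, ∀ c ∈ Z, c ∈ FilC j → ∃ m ∈ FilN j, c / d m ∈ FilC (j + 1))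
    (c : C) (hcZ : c ∈ Z) (n : ℕ) (t : {t : N // c / d t ∈ FilC n}) :
    (approxStep d FilN FilC Z hdZ hstep c hcZ n t).1 / t.1 ∈ FilN n := by
  have hZ : c / d t.1 ∈ Z := Z.div_mem hcZ (hdZ _)
  have h := (Classical.choose_spec (hstep n (c / d t.1) hZ t.2)).1
  simpa [approxStep] using h

/-- The sequence of partial products. -/
noncomputable def approxSeq
    (hdZ : ∀ m, d m ∈ Z)
    (hstep : ∀ j, ∀ c ∈ Z, c ∈ FilC j → ∃ m ∈ FilN j, c / d m ∈ FilC (j + 1))
    (c : C) (hcZ : c ∈ Z) (hc0 : c ∈ FilC 0) :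
    (n : ℕ) → {t : N // c / d t ∈ FilC n}
  | 0 => ⟨1, by simpa using hc0⟩
  | n + 1 => approxStep d FilN FilC Z hdZ hstep c hcZ n (approxSeq hdZ hstep c hcZ hc0 n)

/-- Abstract successive approximation. -/
theorem approx_exists
    (hd : ∀ j, ∀ m ∈ FilN j, d m ∈ FilC j)
    (hdZ : ∀ m, d m ∈ Z)
    (hcomplete : ∀ u : ℕ → N, (∀ j, u j ∈ FilN j) →
      ∃ s : N, ∀ n, s / ∏ j ∈ range n, u j ∈ FilN n)
    (hsep : ∀ c : C, (∀ j, c ∈ FilC j) → c = 1)
    (hstep : ∀ j, ∀ c ∈ Z, c ∈ FilC j → ∃ m ∈ FilN j, c / d m ∈ FilC (j + 1))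
    (c : C) (hcZ : c ∈ Z) (hc0 : c ∈ FilC 0) : ∃ m ∈ FilN 0, d m = c := by
  set t : ℕ → N := fun n => (approxSeq d FilN FilC Z hdZ hstep c hcZ hc0 n).1 with ht
  have ht0 : t 0 = 1 := rfl
  have htmem : ∀ n, c / d (t n) ∈ FilC n :=
    fun n => (approxSeq d FilN FilC Z hdZ hstep c hcZ hc0 n).2
  set u : ℕ → N := fun n => t (n + 1) / t n with hu
  have humem : ∀ n, u n ∈ FilN n := fun n =>
    approxStep_div_mem d FilN FilC Z hdZ hstep c hcZ n
      (approxSeq d FilN FilC Z hdZ hstep c hcZ hc0 n)
  have hprod : ∀ n, ∏ j ∈ range n, u j = t n := by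
    intro n
    induction n with
    | zero => simp [ht0]
    | succ n ih => rw [prod_range_succ, ih, hu]; simp
  obtain ⟨s, hs⟩ := hcomplete u humem
  refine ⟨s, by simpa using hs 0, ?_⟩
  have hall : ∀ n, c / d s ∈ FilC n := by
    intro n
    have h1 : d (s / t n) ∈ FilC n := hd n _ (by simpa [hprod n] using hs n)
    have h2 := (FilC n).div_mem (htmem n) h1
    have : c / d (t n) / d (s / t n) = c / d s := by
      rw [map_div, div_div_div_cancel_right]
    rwa [this] at h2
  have := hsep _ hall
  exact (div_eq_one.mp this).symm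

end Approx

end Fermat.Agent.S55.Local.H478

end
-- ===== PACK-END S55/Local/H478/Approx.lean

-- ===== PACK-BEGIN S55/H953/DVRNormed.lean
section


/-!
# S55 / bridge: the fraction field of a complete DVR with finite residue field is a
locally compact ultrametric normed field

`A` a discrete valuation ring, `F = Frac A`.  We put on `F` the norm `‖x‖ = 2 ^ (-v(x))`
(Mathlib's `adicAbv`), and show: ultrametric, nontrivial; if `A` is adically complete then `F`
is complete; if moreover the residue field is finite then `F` is proper.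
-/

set_option autoImplicit false

namespace Fermat.Agent.S55.H953

open IsDedekindDomain IsDedekindDomain.HeightOneSpectrum WithZeroMulInt NNReal Filter Topology

section Abv

variable (A F : Type*) [CommRing A] [IsDomain A] [IsDiscreteValuationRing A]
  [Field F] [Algebra A F] [IsFractionRing A F]

lemma one_lt_two_nnreal : (1 : ℝ≥0) < 2 := by norm_num

/-- the `𝔪`-adic absolute value on `F` with base `2` -/
noncomputable def dvrAbv : AbsoluteValue F ℝ :=
  (IsDiscreteValuationRing.maximalIdeal A).adicAbv (K := F) one_lt_two_nnreal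

lemma dvrAbv_def (x : F) : dvrAbv A F x =
    ((toNNReal (ne_zero_of_lt one_lt_two_nnreal)
      ((IsDiscreteValuationRing.maximalIdeal A).valuation F x) : ℝ≥0) : ℝ) := rfl

lemma dvrAbv_algebraMap_le_one (a : A) : dvrAbv A F (algebraMap A F a) ≤ 1 :=
  (IsDiscreteValuationRing.maximalIdeal A).adicAbv_coe_le_one one_lt_two_nnreal a

lemma dvrAbv_nonarch : IsNonarchimedean (dvrAbv A F) :=
  (IsDiscreteValuationRing.maximalIdeal A).isNonarchimedean_adicAbv one_lt_two_nnreal

lemma exists_of_dvrAbv_le_one {x : F} (h : dvrAbv A F x ≤ 1) : ∃ a : A, algebraMap A F a = x := by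
  apply IsDiscreteValuationRing.exists_lift_of_le_one
  rw [dvrAbv_def] at h
  have h' : toNNReal (ne_zero_of_lt one_lt_two_nnreal)
      ((IsDiscreteValuationRing.maximalIdeal A).valuation F x) ≤ 1 := by exact_mod_cast h
  exact (toNNReal_le_one_iff one_lt_two_nnreal).1 h'

lemma toNNReal_exp_neg (n : ℕ) :
    toNNReal (ne_zero_of_lt one_lt_two_nnreal) (WithZero.exp (-(n : ℤ))) = (2 : ℝ≥0)⁻¹ ^ n := by
  rw [toNNReal_neg_apply _ (WithZero.exp_ne_zero)]
  have : WithZero.unzero (WithZero.exp_ne_zero (a := -(n : ℤ))) =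
      Multiplicative.ofAdd (-(n : ℤ)) := by
    apply WithZero.coe_injective
    rw [WithZero.coe_unzero]
    rfl
  rw [this, toAdd_ofAdd, zpow_neg, zpow_natCast, inv_pow]

lemma dvrAbv_algebraMap_le_pow_iff (a : A) (n : ℕ) :
    dvrAbv A F (algebraMap A F a) ≤ (2 : ℝ)⁻¹ ^ n ↔ a ∈ IsLocalRing.maximalIdeal A ^ n := by
  have h1 : a ∈ IsLocalRing.maximalIdeal A ^ n ↔
      (IsDiscreteValuationRing.maximalIdeal A).intValuation a ≤ WithZero.exp (-(n : ℤ)) :=
    ((IsDiscreteValuationRing.maximalIdeal A).intValuation_le_pow_iff_mem a n).symm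
  rw [h1, dvrAbv_def, valuation_of_algebraMap,
    ← (toNNReal_strictMono one_lt_two_nnreal).le_iff_le, toNNReal_exp_neg]
  constructor
  · intro h
    exact_mod_cast h
  · intro h
    exact_mod_cast h

/-- the normed field structure on `F` given by the `𝔪`-adic absolute value -/
@[reducible] noncomputable def dvrNormedField : NormedField F := (dvrAbv A F).toNormedField

lemma dvr_norm_def (x : F) : @norm F (dvrNormedField A F).toNorm x = dvrAbv A F x := rfl

lemma dvr_exists_one_lt_norm : ∃ x : F, 1 < @norm F (dvrNormedField A F).toNorm x := by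
  obtain ⟨π, hπ⟩ := IsDiscreteValuationRing.exists_irreducible A
  have hπ0 : π ≠ 0 := hπ.ne_zero
  have hmem : π ∈ (IsDiscreteValuationRing.maximalIdeal A).asIdeal := by
    change π ∈ IsLocalRing.maximalIdeal A
    rw [IsLocalRing.mem_maximalIdeal, mem_nonunits_iff]
    exact hπ.not_isUnit
  have hlt : dvrAbv A F (algebraMap A F π) < 1 :=
    ((IsDiscreteValuationRing.maximalIdeal A).adicAbv_coe_lt_one_iff one_lt_two_nnreal π).2 hmem
  have hne : algebraMap A F π ≠ 0 := by
    rw [Ne, map_eq_zero_iff _ (IsFractionRing.injective A F)]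
    exact hπ0
  refine ⟨(algebraMap A F π)⁻¹, ?_⟩
  rw [dvr_norm_def, map_inv₀]
  exact (one_lt_inv₀ ((dvrAbv A F).pos hne)).2 hlt

/-- the nontrivially normed field structure on `F` -/
@[reducible] noncomputable def dvrNontriviallyNormedField : NontriviallyNormedField F :=
  { dvrNormedField A F with non_trivial := dvr_exists_one_lt_norm A F }

lemma dvr_isUltrametricDist :
    @IsUltrametricDist F (dvrNormedField A F).toMetricSpace.toDist := by
  letI := dvrNormedField A F
  exact IsUltrametricDist.isUltrametricDist_of_isNonarchimedean_norm (dvrAbv_nonarch A F)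

theorem dvr_completeSpace [IsAdicComplete (IsLocalRing.maximalIdeal A) A] :
    @CompleteSpace F (dvrNormedField A F).toUniformSpace := by
  letI := dvrNormedField A F
  refine Metric.complete_of_cauchySeq_tendsto (fun u hu => ?_)
  obtain ⟨N₀, hN₀⟩ := Metric.cauchySeq_iff'.1 hu 1 one_pos
  have hw : ∀ n, dvrAbv A F (u (n + N₀) - u N₀) ≤ 1 := by
    intro n
    have := hN₀ (n + N₀) (Nat.le_add_left _ _)
    rw [dist_eq_norm] at this
    exact this.le
  choose a ha using fun n => exists_of_dvrAbv_le_one A F (hw n)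
  have hcau : ∀ k : ℕ, ∃ M, ∀ m ≥ M, ∀ n ≥ M, a m - a n ∈ IsLocalRing.maximalIdeal A ^ k := by
    intro k
    obtain ⟨M, hM⟩ := Metric.cauchySeq_iff.1 hu ((2 : ℝ)⁻¹ ^ k) (by positivity)
    refine ⟨M, fun m hm n hn => ?_⟩
    rw [← dvrAbv_algebraMap_le_pow_iff A F, map_sub, ha, ha]
    have := hM (m + N₀) (by omega) (n + N₀) (by omega)
    rw [dist_eq_norm] at this
    have e : u (m + N₀) - u N₀ - (u (n + N₀) - u N₀) = u (m + N₀) - u (n + N₀) := by ring
    rw [e]
    exact this.le
  choose M hM using hcau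
  let M' : ℕ → ℕ := fun k => (Finset.range (k + 1)).sup M
  have hM' : ∀ j k, j ≤ k → M j ≤ M' k := fun j k hjk =>
    Finset.le_sup (f := M) (Finset.mem_range.2 (Nat.lt_succ_of_le hjk))
  have hM'mono : ∀ j k, j ≤ k → M' j ≤ M' k := fun j k hjk =>
    Finset.sup_mono (Finset.range_mono (Nat.succ_le_succ hjk))
  have hf : ∀ {m n : ℕ}, m ≤ n →
      a (M' m) ≡ a (M' n) [SMOD (IsLocalRing.maximalIdeal A ^ m • ⊤ : Submodule A A)] := by
    intro m n hmn
    rw [SModEq.sub_mem, smul_eq_mul, Ideal.mul_top]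
    exact hM m _ (hM' m m le_rfl) _ ((hM' m m le_rfl).trans (hM'mono m n hmn))
  obtain ⟨L, hL⟩ := IsPrecomplete.prec (IsAdicComplete.toIsPrecomplete) hf
  refine ⟨u N₀ + algebraMap A F L, ?_⟩
  rw [Metric.tendsto_atTop]
  intro ε hε
  obtain ⟨k, hk⟩ := exists_pow_lt_of_lt_one hε (by norm_num : (2 : ℝ)⁻¹ < 1)
  refine ⟨M' k + N₀, fun n hn => ?_⟩
  obtain ⟨n', rfl⟩ : ∃ n', n = n' + N₀ := ⟨n - N₀, by omega⟩
  have hn' : M' k ≤ n' := by omega
  rw [dist_eq_norm]
  have e : u (n' + N₀) - (u N₀ + algebraMap A F L) = algebraMap A F (a n' - L) := by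
    rw [map_sub, ha]
    ring
  rw [e]
  refine lt_of_le_of_lt ((dvrAbv_algebraMap_le_pow_iff A F _ k).2 ?_) hk
  have h1 : a n' - a (M' k) ∈ IsLocalRing.maximalIdeal A ^ k :=
    hM k _ ((hM' k k le_rfl).trans hn') _ (hM' k k le_rfl)
  have h2 : a (M' k) - L ∈ IsLocalRing.maximalIdeal A ^ k := by
    have := hL k
    rwa [SModEq.sub_mem, smul_eq_mul, Ideal.mul_top] at this
  have e2 : a n' - L = (a n' - a (M' k)) + (a (M' k) - L) := by ring
  rw [e2]
  exact Ideal.add_mem _ h1 h2

theorem dvr_properSpace [IsAdicComplete (IsLocalRing.maximalIdeal A) A]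
    [Finite (IsLocalRing.ResidueField A)] :
    @ProperSpace F (dvrNormedField A F).toMetricSpace.toPseudoMetricSpace := by
  letI := dvrNontriviallyNormedField A F
  haveI : CompleteSpace F := dvr_completeSpace A F
  suffices LocallyCompactSpace F from .of_nontriviallyNormedField_of_weaklyLocallyCompactSpace F
  have hmem : Metric.closedBall (0 : F) 1 ∈ 𝓝 (0 : F) := Metric.closedBall_mem_nhds _ zero_lt_one
  refine IsCompact.locallyCompactSpace_of_mem_nhds_of_addGroup ?_ hmem
  rw [isCompact_iff_totallyBounded_isComplete]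
  refine ⟨?_, Metric.isClosed_closedBall.isComplete⟩
  refine Metric.totallyBounded_iff.2 (fun ε hε => ?_)
  obtain ⟨k, hk⟩ := exists_pow_lt_of_lt_one hε (by norm_num : (2 : ℝ)⁻¹ < 1)
  haveI : Finite (A ⧸ IsLocalRing.maximalIdeal A) :=
    inferInstanceAs (Finite (IsLocalRing.ResidueField A))
  haveI : Finite (A ⧸ IsLocalRing.maximalIdeal A ^ k) :=
    Ideal.finite_quotient_pow (IsNoetherian.noetherian _) k
  refine ⟨Set.range (fun q : A ⧸ IsLocalRing.maximalIdeal A ^ k =>
    algebraMap A F (Quotient.out q)), Set.finite_range _, ?_⟩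
  intro x hx
  rw [mem_closedBall_zero_iff] at hx
  obtain ⟨a, rfl⟩ := exists_of_dvrAbv_le_one A F hx
  refine Set.mem_iUnion₂.2 ⟨algebraMap A F (Quotient.out (Ideal.Quotient.mk
    (IsLocalRing.maximalIdeal A ^ k) a)), ⟨_, rfl⟩, ?_⟩
  rw [Metric.mem_ball, dist_eq_norm, ← map_sub]
  refine lt_of_le_of_lt ((dvrAbv_algebraMap_le_pow_iff A F _ k).2 ?_) hk
  rw [← Ideal.Quotient.eq]
  exact (Quotient.out_eq _).symm

end Abv

end Fermat.Agent.S55.H953

end
-- ===== PACK-END S55/H953/DVRNormed.lean

-- ===== PACK-BEGIN S55/Local/H543/Integers.lean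
section




/-!
# S55, layer L, piece LF0 (helper543): integers of a finite extension of a complete
discretely valued field

`R` complete DVR, `L = Frac R`, `N / L` finite separable, `S = integralClosure R N`.
Then `S` is a local ring, a DVR, finite over `R`, complete, with finite residue field
(if `R` has one).
-/

set_option autoImplicit false
set_option linter.unusedSectionVars false
set_option linter.unusedVariables false
set_option linter.style.haveILetI false

namespace Fermat.Agent.S55.Local.H543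

section LF0

variable (R L N : Type) [CommRing R] [IsDomain R] [IsDiscreteValuationRing R]
  [IsAdicComplete (IsLocalRing.maximalIdeal R) R]
  [Field L] [Algebra R L] [IsFractionRing R L]
  [Field N] [Algebra L N] [FiniteDimensional L N] [Algebra.IsSeparable L N]
  [Algebra R N] [IsScalarTower R L N]

include L

/-- The ring of integers is a finite `R`-module. -/
theorem finite_integralClosure : Module.Finite R (integralClosure R N) :=
  IsIntegralClosure.finite R L N (integralClosure R N)

/-- The ring of integers is a Dedekind domain. -/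
theorem isDedekindDomain_integralClosure : IsDedekindDomain (integralClosure R N) :=
  integralClosure.isDedekindDomain R L N

theorem isFractionRing_integralClosure : IsFractionRing (integralClosure R N) N :=
  integralClosure.isFractionRing_of_finite_extension L N

/-- The ring of integers of a finite extension of a complete discretely valued field is
local. -/
theorem isLocalRing_integralClosure : IsLocalRing (integralClosure R N) := by
  have : Module.Finite R (integralClosure R N) := finite_integralClosure R L N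
  obtain ⟨-, hbij, -, -⟩ :=
    Algebra.finite_maximalSpectrum_and_bijective_localization_of_module_finite (𝒪 := R)
      (integralClosure R N)
  classical
  have huniq : ∀ I J : MaximalSpectrum (integralClosure R N), I = J := by
    intro I J
    by_contra hIJ
    obtain ⟨a, ha⟩ := hbij.2 (Pi.single I 1)
    obtain ⟨b, hb⟩ := hbij.2 (Pi.single J 1)
    have hab : a * b = 0 := by
      apply hbij.1
      rw [map_mul, ha, hb, map_zero]
      funext K
      by_cases hK : K = I
      · subst hK
        simp [hIJ]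
      · simp [hK]
    rcases mul_eq_zero.1 hab with h0 | h0
    · rw [h0, map_zero] at ha
      have := congrFun ha I
      simp at this
    · rw [h0, map_zero] at hb
      have := congrFun hb J
      simp at this
  obtain ⟨M, hM⟩ := Ideal.exists_maximal (integralClosure R N)
  refine IsLocalRing.of_unique_max_ideal ⟨M, hM, fun M' hM' => ?_⟩
  exact congrArg MaximalSpectrum.asIdeal (huniq ⟨M', hM'⟩ ⟨M, hM⟩)

/-- The ring of integers is not a field. -/
theorem not_isField_integralClosure : ¬ IsField (integralClosure R N) := by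
  intro hS
  have hinj : Function.Injective (algebraMap R (integralClosure R N)) := by
    have h1 : Function.Injective (algebraMap R N) := by
      rw [IsScalarTower.algebraMap_eq R L N]
      exact (algebraMap L N).injective.comp (IsFractionRing.injective R L)
    intro x y hxy
    apply h1
    have := congrArg (algebraMap (integralClosure R N) N) hxy
    simpa [← IsScalarTower.algebraMap_apply] using this
  have hint : Algebra.IsIntegral R (integralClosure R N) := inferInstance
  exact IsDiscreteValuationRing.not_isField R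
    (isField_of_isIntegral_of_isField hinj hS)

/-- The ring of integers is a discrete valuation ring. -/
theorem isDiscreteValuationRing_integralClosure :
    IsDiscreteValuationRing (integralClosure R N) := by
  haveI := isLocalRing_integralClosure R L N
  haveI := isDedekindDomain_integralClosure R L N
  exact ((IsDiscreteValuationRing.TFAE (integralClosure R N)
    (not_isField_integralClosure R L N)).out 0 2).2 (isDedekindDomain_integralClosure R L N)

theorem faithfulSMul_integralClosure : FaithfulSMul R (integralClosure R N) := by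
  rw [faithfulSMul_iff_algebraMap_injective]
  have h1 : Function.Injective (algebraMap R N) := by
    rw [IsScalarTower.algebraMap_eq R L N]
    exact (algebraMap L N).injective.comp (IsFractionRing.injective R L)
  intro x y hxy
  apply h1
  rw [IsScalarTower.algebraMap_apply R (integralClosure R N) N,
    IsScalarTower.algebraMap_apply R (integralClosure R N) N, hxy]

theorem isLocalHom_integralClosure : IsLocalHom (algebraMap R (integralClosure R N)) := by
  haveI := faithfulSMul_integralClosure R L N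
  infer_instance

/-- The ring of integers is complete. -/
theorem isAdicComplete_integralClosure [IsLocalRing (integralClosure R N)] :
    IsAdicComplete (IsLocalRing.maximalIdeal (integralClosure R N)) (integralClosure R N) := by
  haveI := finite_integralClosure R L N
  haveI := isLocalHom_integralClosure R L N
  exact IsLocalRing.isAdicComplete_of_module_finite (𝒪 := R) (T := integralClosure R N)

/-- The residue field of the ring of integers is finite. -/
theorem finite_residueField_integralClosure [IsLocalRing (integralClosure R N)]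
    [Finite (IsLocalRing.ResidueField R)] :
    Finite (IsLocalRing.ResidueField (integralClosure R N)) := by
  haveI := finite_integralClosure R L N
  haveI := isLocalHom_integralClosure R L N
  exact IsLocalRing.ResidueField.finite_of_finite (R := R) (S := integralClosure R N)
    inferInstance

end LF0

end Fermat.Agent.S55.Local.H543

end
-- ===== PACK-END S55/Local/H543/Integers.lean

-- ===== PACK-BEGIN S55/Local/H543/CycloCore.lean
section


/-!
# S55, layer L, piece UR5 (helper543): the cyclotomic extension `L(ζ_{q^n - 1})` of a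
discretely valued field `L` with residue field of `q` elements is unramified of degree `n`

Abstract `AKLB` form: `R ⊆ S` discrete valuation rings, `S` the integral closure of `R` in
the cyclotomic extension `N = L(ζ_m)`, `m = q ^ n - 1`.  Then `[N : L] = n` and
`𝔪_R S = 𝔪_S`.
-/

set_option autoImplicit false
set_option linter.unusedSectionVars false
set_option linter.unusedVariables false
set_option linter.style.haveILetI false
set_option linter.deprecated false

namespace Fermat.Agent.S55.Local.H543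

open IsLocalRing

/-- cardinality of the residue field -/
noncomputable abbrev qq (R : Type) [CommRing R] [IsLocalRing R] : ℕ := Nat.card (ResidueField R)

/-- `m = q^n - 1` -/
noncomputable abbrev mm (R : Type) [CommRing R] [IsLocalRing R] (n : ℕ) : ℕ := qq R ^ n - 1

theorem two_le_qq (R : Type) [CommRing R] [IsLocalRing R] [Finite (ResidueField R)] :
    2 ≤ qq R := by
  have : Nontrivial (ResidueField R) := inferInstance
  exact Finite.one_lt_card

theorem mm_add_one (R : Type) [CommRing R] [IsLocalRing R] [Finite (ResidueField R)] (n : ℕ) :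
    mm R n + 1 = qq R ^ n := by
  have h2 := two_le_qq R
  have : 1 ≤ qq R ^ n := Nat.one_le_pow _ _ (by omega)
  unfold mm
  omega

theorem mm_pos (R : Type) [CommRing R] [IsLocalRing R] [Finite (ResidueField R)] (n : ℕ)
    (hn : 0 < n) : 0 < mm R n := by
  have h2 := two_le_qq R
  have h3 : 2 ^ n ≤ qq R ^ n := Nat.pow_le_pow_left h2 n
  have h4 : 2 ≤ 2 ^ n := by
    calc 2 = 2 ^ 1 := by norm_num
      _ ≤ 2 ^ n := Nat.pow_le_pow_right (by norm_num) hn
  unfold mm
  omega

section Core

variable (R S : Type) [CommRing R] [IsLocalRing R]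
  [Finite (ResidueField R)]
  [CommRing S] [IsLocalRing S]
  [Algebra R S] [Module.Finite R S] [IsLocalHom (algebraMap R S)]

include R in
theorem finite_residueField_S : Finite (ResidueField S) :=
  ResidueField.finite_of_finite (R := R) (S := S) inferInstance

theorem card_residueField_S :
    Nat.card (ResidueField S) = qq R ^ Module.finrank (ResidueField R) (ResidueField S) := by
  haveI := finite_residueField_S R S
  exact Module.natCard_eq_pow_finrank (K := ResidueField R) (V := ResidueField S)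

theorem qq_cast_residueField_S : ((qq R : ℕ) : ResidueField S) = 0 := by
  have h0 : ((qq R : ℕ) : ResidueField R) = 0 := by
    haveI := Fintype.ofFinite (ResidueField R)
    rw [qq, Nat.card_eq_fintype_card]
    exact FiniteField.cast_card_eq_zero (ResidueField R)
  have := congrArg (algebraMap (ResidueField R) (ResidueField S)) h0
  simpa using this

/-- `m` is a unit in `S`. -/
theorem isUnit_mm (n : ℕ) (hn : 0 < n) : IsUnit ((mm R n : ℕ) : S) := by
  rw [← residue_ne_zero_iff_isUnit]
  have h1 : (residue S ((mm R n : ℕ) : S)) + 1 = 0 := by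
    have : (residue S ((mm R n : ℕ) : S)) + 1 = ((mm R n + 1 : ℕ) : ResidueField S) := by
      push_cast
      simp
    rw [this, mm_add_one R n]
    push_cast
    rw [qq_cast_residueField_S R S, zero_pow hn.ne']
  intro h0
  rw [h0, zero_add] at h1
  exact one_ne_zero h1

/-- The reduction of a primitive `m`-th root of unity, `m` a unit, has order `m`. -/
theorem orderOf_residue_of_isPrimitiveRoot [IsDomain S] (m : ℕ) (hm : 0 < m)
    (hmu : IsUnit ((m : ℕ) : S)) (z : S) (hz : IsPrimitiveRoot z m) :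
    orderOf (residue S z) = m := by
  obtain ⟨m', rfl⟩ : ∃ m', m = m' + 1 := ⟨m - 1, by omega⟩
  have hprod := IsPrimitiveRoot.prod_one_sub_pow_eq_order hz
  have hunit : ∀ k ∈ Finset.range m', IsUnit (1 - z ^ (k + 1)) := by
    intro k hk
    have hdvd : (1 - z ^ (k + 1)) ∣ ∏ k ∈ Finset.range m', (1 - z ^ (k + 1)) :=
      Finset.dvd_prod_of_mem _ hk
    rw [hprod] at hdvd
    have : IsUnit ((m' : S) + 1) := by simpa using hmu
    exact isUnit_of_dvd_unit hdvd this
  rw [orderOf_eq_iff hm]
  refine ⟨?_, fun j hj hj0 => ?_⟩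
  · rw [← map_pow, hz.pow_eq_one, map_one]
  · obtain ⟨k, rfl⟩ : ∃ k, j = k + 1 := ⟨j - 1, by omega⟩
    have hk : k ∈ Finset.range m' := Finset.mem_range.2 (by omega)
    have h1 := hunit k hk
    rw [← residue_ne_zero_iff_isUnit] at h1
    intro h2
    apply h1
    rw [map_sub, map_one, map_pow, h2, sub_self]

/-- If the residue field of `S` contains an element of order `q^n - 1`, then `n ≤ f`. -/
theorem le_finrank_of_orderOf (n : ℕ) (hn : 0 < n) (x : ResidueField S)
    (hx : orderOf x = mm R n) :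
    n ≤ Module.finrank (ResidueField R) (ResidueField S) := by
  haveI := finite_residueField_S R S
  haveI := Fintype.ofFinite (ResidueField S)
  have hx0 : x ≠ 0 := by
    rintro rfl
    have h1 : (0 : ResidueField S) ^ (mm R n) = 1 := by rw [← hx]; exact pow_orderOf_eq_one 0
    rw [zero_pow (mm_pos R n hn).ne'] at h1
    exact zero_ne_one h1
  have h1 : x ^ (Fintype.card (ResidueField S) - 1) = 1 :=
    FiniteField.pow_card_sub_one_eq_one x hx0
  have h2 : mm R n ∣ Fintype.card (ResidueField S) - 1 := by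
    rw [← hx]; exact orderOf_dvd_of_pow_eq_one h1
  rw [← Nat.card_eq_fintype_card, card_residueField_S R S] at h2
  set f := Module.finrank (ResidueField R) (ResidueField S) with hf
  have hfpos : 0 < f := Module.finrank_pos
  have hq := two_le_qq R
  have h3 : 0 < qq R ^ f - 1 := by
    have : 2 ^ f ≤ qq R ^ f := Nat.pow_le_pow_left hq f
    have : 2 ≤ 2 ^ f := by
      calc 2 = 2 ^ 1 := by norm_num
        _ ≤ 2 ^ f := Nat.pow_le_pow_right (by norm_num) hfpos
    omega
  have h4 := Nat.le_of_dvd h3 h2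
  have h5 : qq R ^ n ≤ qq R ^ f := by
    have := mm_add_one R n
    have : 1 ≤ qq R ^ f := Nat.one_le_pow _ _ (by omega)
    unfold mm at h4
    omega
  exact (Nat.pow_le_pow_iff_right (by omega)).1 h5

end Core

section Gal

variable (R S L N : Type) [CommRing R] [IsLocalRing R]
  [CommRing S] [IsDomain S] [IsLocalRing S]
  [Algebra R S] [IsLocalHom (algebraMap R S)]
  [Field L] [Algebra R L] [IsFractionRing R L]
  [Field N] [Algebra L N] [Algebra S N] [IsFractionRing S N] [Algebra R N]
  [IsScalarTower R L N] [IsScalarTower R S N] [IsIntegralClosure S R N]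
  [Algebra.IsAlgebraic L N]

/-- The reduction map from the Galois group to the Galois group of the residue fields. -/
noncomputable def redGal (σ : N ≃ₐ[L] N) : ResidueField S ≃ₐ[ResidueField R] ResidueField S :=
  ResidueField.mapAlgEquiv' (galRestrict R L N S σ)

theorem redGal_residue (σ : N ≃ₐ[L] N) (x : S) :
    redGal R S L N σ (residue S x) = residue S (galRestrict R L N S σ x) := rfl

theorem redGal_one : redGal R S L N 1 = 1 := by
  ext x
  obtain ⟨x, rfl⟩ := residue_surjective x
  rw [redGal_residue, map_one]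
  rfl

/-- Rigidity: an automorphism of a cyclotomic extension is determined by the reduction of its
value on a primitive root whose reduction has full order. -/
theorem redGal_rigid (m : ℕ) [NeZero m] [IsCyclotomicExtension {m} L N] (z : S)
    (hz : IsPrimitiveRoot (algebraMap S N z) m) (hord : orderOf (residue S z) = m)
    (σ τ : N ≃ₐ[L] N)
    (h : redGal R S L N σ (residue S z) = redGal R S L N τ (residue S z)) : σ = τ := by
  apply hz.autToPow_injective L
  have key : ∀ ρ : N ≃ₐ[L] N,
      galRestrict R L N S ρ z = z ^ (hz.autToPow L ρ : ZMod m).val := by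
    intro ρ
    apply IsFractionRing.injective S N
    rw [algebraMap_galRestrict_apply, map_pow, hz.autToPow_spec L ρ]
  rw [redGal_residue, redGal_residue, key σ, key τ, map_pow, map_pow] at h
  have hinj := pow_injOn_Iio_orderOf (x := residue S z)
  rw [hord] at hinj
  have h1 : (hz.autToPow L σ : ZMod m).val = (hz.autToPow L τ : ZMod m).val :=
    hinj (ZMod.val_lt _) (ZMod.val_lt _) h
  exact Units.ext (ZMod.val_injective m h1)

end Gal

section Main

variable (R S L N : Type) [CommRing R] [IsDomain R] [IsDiscreteValuationRing R]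
  [Finite (ResidueField R)]
  [CommRing S] [IsDomain S] [IsDiscreteValuationRing S]
  [Algebra R S] [Module.Finite R S] [IsLocalHom (algebraMap R S)]
  [Field L] [Algebra R L] [IsFractionRing R L]
  [Field N] [Algebra L N] [Algebra S N] [IsFractionRing S N] [Algebra R N]
  [IsScalarTower R L N] [IsScalarTower R S N] [IsIntegralClosure S R N]

theorem card_gal_residue :
    Nat.card (ResidueField S ≃ₐ[ResidueField R] ResidueField S) =
      Module.finrank (ResidueField R) (ResidueField S) := by
  haveI := finite_residueField_S R S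
  haveI := Fintype.ofFinite (ResidueField R)
  have h := FiniteField.bijective_frobeniusAlgEquivOfAlgebraic_pow (ResidueField R) (ResidueField S)
  rw [← Nat.card_eq_of_bijective _ h]
  simp

theorem cyclo_unram_core (n : ℕ) (hn : 0 < n) [IsCyclotomicExtension {mm R n} L N] :
    Module.finrank L N = n ∧
      (maximalIdeal R).map (algebraMap R S) = maximalIdeal S := by
  have hm : 0 < mm R n := mm_pos R n hn
  haveI : NeZero (mm R n) := ⟨hm.ne'⟩
  -- the primitive root
  obtain ⟨ζ, hζ⟩ := IsCyclotomicExtension.exists_isPrimitiveRoot L N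
    (Set.mem_singleton (mm R n)) hm.ne'
  have hζint : IsIntegral R ζ := by
    have h1 : IsIntegral ℤ ζ := hζ.isIntegral hm
    exact h1.tower_top
  set z : S := IsIntegralClosure.mk' S ζ hζint with hzdef
  have hzζ : algebraMap S N z = ζ := IsIntegralClosure.algebraMap_mk' S ζ hζint
  have hzN : IsPrimitiveRoot (algebraMap S N z) (mm R n) := by rw [hzζ]; exact hζ
  have hz : IsPrimitiveRoot z (mm R n) :=
    IsPrimitiveRoot.of_map_of_injective (f := algebraMap S N) hzN (IsFractionRing.injective S N)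
  have hord : orderOf (residue S z) = mm R n :=
    orderOf_residue_of_isPrimitiveRoot S (mm R n) hm (isUnit_mm R S n hn) z hz
  have hnf : n ≤ Module.finrank (ResidueField R) (ResidueField S) :=
    le_finrank_of_orderOf R S n hn _ hord
  -- Galois theory
  haveI : FiniteDimensional L N := IsCyclotomicExtension.finiteDimensional {mm R n} L N
  haveI : IsGalois L N := IsCyclotomicExtension.isGalois {mm R n} L N
  have hinj : Function.Injective (redGal R S L N) := fun σ τ h =>
    redGal_rigid R S L N (mm R n) z hzN hord σ τ (by rw [h])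
  haveI : Finite (ResidueField S ≃ₐ[ResidueField R] ResidueField S) := by
    apply Nat.finite_of_card_ne_zero
    rw [card_gal_residue R S]
    omega
  have hdf : Module.finrank L N ≤ Module.finrank (ResidueField R) (ResidueField S) := by
    rw [← IsGalois.card_aut_eq_finrank L N, ← card_gal_residue R S]
    exact Nat.card_le_card_of_injective _ hinj
  -- ramification
  have hp0 : maximalIdeal R ≠ ⊥ := IsDiscreteValuationRing.not_a_field R
  have hef := Ideal.ramificationIdx_mul_inertiaDeg_of_isLocalRing S L N hp0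
  have hfdef : (maximalIdeal R).inertiaDeg' (maximalIdeal S) =
      Module.finrank (ResidueField R) (ResidueField S) :=
    Ideal.inertiaDeg'_algebraMap (maximalIdeal R) (maximalIdeal S)
  rw [hfdef] at hef
  set e := Ideal.ramificationIdx' (maximalIdeal R) (maximalIdeal S) with he
  set f := Module.finrank (ResidueField R) (ResidueField S) with hf
  have hdpos : 0 < Module.finrank L N := Module.finrank_pos
  have hfpos : 0 < f := lt_of_lt_of_le hn hnf
  have he1 : e = 1 := by
    have h1 : e * f ≤ 1 * f := by rw [hef, one_mul]; exact hdf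
    have h2 : e ≤ 1 := Nat.le_of_mul_le_mul_right h1 hfpos
    have h3 : e ≠ 0 := by
      rintro h0
      rw [h0, zero_mul] at hef
      omega
    omega
  have hdf' : Module.finrank L N = f := by rw [← hef, he1, one_mul]
  -- surjectivity of the reduction map
  have hbij : Function.Bijective (redGal R S L N) := by
    refine hinj.bijective_of_nat_card_le ?_
    rw [card_gal_residue R S, IsGalois.card_aut_eq_finrank L N, hdf']
  have hfn : f ≤ n := by
    haveI := finite_residueField_S R S
    letI := Fintype.ofFinite (ResidueField R)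
    obtain ⟨σ, hσ⟩ := hbij.2
      ((FiniteField.frobeniusAlgEquivOfAlgebraic (ResidueField R) (ResidueField S)) ^ n)
    have hq : Fintype.card (ResidueField R) = qq R := (Nat.card_eq_fintype_card).symm
    have h1 : redGal R S L N σ (residue S z) = residue S z := by
      rw [hσ, AlgEquiv.coe_pow, FiniteField.coe_frobeniusAlgEquivOfAlgebraic_iterate, hq,
        ← mm_add_one R n]
      show (residue S z) ^ (mm R n + 1) = residue S z
      have h0 : (residue S z) ^ (mm R n) = 1 := by rw [← hord]; exact pow_orderOf_eq_one _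
      rw [pow_succ, h0, one_mul]
    have h2 : σ = 1 := by
      apply redGal_rigid R S L N (mm R n) z hzN hord
      rw [h1, redGal_one]
      rfl
    rw [h2, redGal_one] at hσ
    have h3 := orderOf_dvd_of_pow_eq_one hσ.symm
    rw [FiniteField.orderOf_frobeniusAlgEquivOfAlgebraic] at h3
    exact Nat.le_of_dvd hn h3
  refine ⟨by omega, ?_⟩
  -- `e = 1` means unramified
  haveI : FaithfulSMul R S := by
    rw [faithfulSMul_iff_algebraMap_injective]
    have h1 : Function.Injective (algebraMap R N) := by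
      rw [IsScalarTower.algebraMap_eq R L N]
      exact (algebraMap L N).injective.comp (IsFractionRing.injective R L)
    intro x y hxy
    apply h1
    rw [IsScalarTower.algebraMap_apply R S N, IsScalarTower.algebraMap_apply R S N, hxy]
  have hmap0 : (maximalIdeal R).map (algebraMap R S) ≠ ⊥ :=
    Ideal.map_ne_bot_of_ne_bot hp0
  have hDVR : IsDiscreteValuationRing S := inferInstance
  have htfae : IsDiscreteValuationRing S ↔
      ∀ (I) (_ : I ≠ ⊥), ∃ n : ℕ, I = maximalIdeal S ^ n :=
    (IsDiscreteValuationRing.TFAE S (IsDiscreteValuationRing.not_isField S)).out 0 6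
  obtain ⟨k, hk⟩ := htfae.1 hDVR _ hmap0
  have hPS0 : maximalIdeal S ≠ ⊥ := IsDiscreteValuationRing.not_a_field S
  have hek : e = k := by
    apply Ideal.ramificationIdx'_spec
    · rw [hk]
    · rw [hk]
      exact not_le_of_gt (Ideal.pow_succ_lt_pow hPS0 k)
  rw [hk, ← hek, he1, pow_one]

end Main

end Fermat.Agent.S55.Local.H543

end
-- ===== PACK-END S55/Local/H543/CycloCore.lean

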