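import Fermat.Prelude.Def_EllipticCurve_FrobeniusTrace
import Mathlib
import Fermat.Agent.Pack.S56.E0L0
import Fermat.Agent.Pack.S56.E0L1
import Fermat.Agent.Pack.S56.E0L2
import Fermat.Agent.Pack.S56.E0L3
import Fermat.Agent.Pack.S56.E1L0
import Fermat.Agent.Pack.S56.E1L2

-- ===== PACK-BEGIN S56/Spec.lean
section



/-!
# Row S56 — FROZEN interface statements, layer 0 (row-lead helper956)

`S56 ⇐ TB(ord) + TB(flat) + P1 + TWP`   (glue: `Fermat/Agent/S56/Glue.lean`, sorry-free)
`TWP ⇐ P3 (TWElement) + Lib/Cheb Tier 1`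

* `TangentBoundOrdStatement`, `TangentBoundFlatStatement` (TB): there is a dual Selmer frame `D`
  such that for every set `Q` of Taylor–Wiles primes killing `D`, every universal deformation ring
  `R_Q` has at most `|k|^{|Q|}` tangent vectors `R_Q → k[ε]`.
  (= dictionary tangent space ↪ Selmer group, Greenberg–Wiles formula, local computations.)
* `PowerSeriesSurjStatement` (P1): at most `|k|^r` tangent vectors ⇒ `𝒪⟦X₁..X_r⟧ ↠ R`.
* `TWElementStatement` (P3): group theory (DDT Lemma 2.48/Thm 2.49): for a nonzero class `c`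
  there is `σ` fixing `μ_{p^{n+1}}` with distinct eigenvalues and `c(σ) ∉ (ρ̄(σ) − 1) ad⁰`.
* `TWPrimesStatement` (TWP): `r = dim D` Taylor–Wiles primes `≡ 1 mod p^{n+1}` killing `D`.

All pieces are proved as `theorem xxx : XxxStatement` in `Fermat/Agent/S56/H<seat>/*.lean`.
-/

set_option autoImplicit false

open Polynomial IsLocalRing

noncomputable section

namespace Fermat.Agent.S56

/-- The standing hypotheses of the frozen statement S56. -/
structure Hyp (𝒪 : Type) [CommRing 𝒪] [IsDomain 𝒪] [IsDiscreteValuationRing 𝒪]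
    (p : ℕ) (ρbar : ResidualGaloisRep (ResidueField 𝒪)) (S Smin : Finset ℕ) : Prop where
  hp : p.Prime
  hp2 : p ≠ 2
  hp𝒪 : (p : 𝒪) ∈ maximalIdeal 𝒪
  habs : ρbar.IsAbsolutelyIrreducible
  hdet : (GaloisRepAdic.ofResidualGaloisRep ρbar).DetIsCyclotomic p
  hsplit : ∀ σ : GQ, ∃ α β : ResidueField 𝒪,
    LinearMap.charpoly (ρbar.ρ σ) = (X - C α) * (X - C β)
  hTW : ∀ (K : Type) [Field K] [Algebra (ResidueField 𝒪) K] (G : Subgroup GQ), G.index = 2 →
    ∀ V : Submodule K (ρbar.baseChange K).V,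
      (∀ σ ∈ G, ∀ x ∈ V, (ρbar.baseChange K).ρ σ x ∈ V) → V = ⊥ ∨ V = ⊤
  hpSmin : p ∈ Smin
  hSmin : Smin ⊆ S
  hS : ∀ q ∈ S, q.Prime
  hmin : ∀ q : ℕ, q.Prime → q ≠ p → (q ∈ Smin ↔ ¬ ρbar.IsUnramifiedAt q)

/-- (TB) for a family of deformation conditions indexed by the auxiliary set `Q`. -/
def TangentBound (𝒪 : Type) [CommRing 𝒪] [IsDomain 𝒪] [IsDiscreteValuationRing 𝒪]
    [IsAdicComplete (maximalIdeal 𝒪) 𝒪]
    (p : ℕ) (ρbar : ResidualGaloisRep (ResidueField 𝒪)) (S : Finset ℕ)
    (cond : Finset ℕ → DefCond 𝒪) : Prop :=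
  ∃ D : Submodule (ResidueField 𝒪) (GQ → Module.End (ResidueField 𝒪) ρbar.V),
    IsDualFrame ρbar p D ∧
    ∀ Q : Finset ℕ, (∀ q ∈ Q, IsTWPrime ρbar p S q) → Kills ρbar p D Q →
      ∀ DQ : GaloisRep.DeformationRingData 𝒪 ρbar (cond Q),
        Finite (TanHom 𝒪 DQ.R) ∧
          Nat.card (TanHom 𝒪 DQ.R) ≤ Nat.card (ResidueField 𝒪) ^ Q.card

/-- (TB-ord) tangent bound for the strict-ordinary condition. -/
def TangentBoundOrdStatement : Prop :=
  ∀ (𝒪 : Type) [CommRing 𝒪] [IsDomain 𝒪] [IsDiscreteValuationRing 𝒪]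
    [IsAdicComplete (maximalIdeal 𝒪) 𝒪] [Finite (ResidueField 𝒪)]
    (p : ℕ) (ρbar : ResidualGaloisRep (ResidueField 𝒪)) (S Smin : Finset ℕ),
    Hyp 𝒪 p ρbar S Smin → TangentBound 𝒪 p ρbar S (ordCond 𝒪 p Smin)

/-- (TB-flat) tangent bound for the flat condition. -/
def TangentBoundFlatStatement : Prop :=
  ∀ (𝒪 : Type) [CommRing 𝒪] [IsDomain 𝒪] [IsDiscreteValuationRing 𝒪]
    [IsAdicComplete (maximalIdeal 𝒪) 𝒪] [Finite (ResidueField 𝒪)]
    (p : ℕ) (ρbar : ResidualGaloisRep (ResidueField 𝒪)) (S Smin : Finset ℕ),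
    Hyp 𝒪 p ρbar S Smin → TangentBound 𝒪 p ρbar S (flatCond 𝒪 p Smin)

/-- (P1) commutative algebra: few tangent vectors ⇒ quotient of a power series ring. -/
def PowerSeriesSurjStatement : Prop :=
  ∀ (𝒪 : Type) [CommRing 𝒪] [IsDomain 𝒪] [IsDiscreteValuationRing 𝒪]
    [IsAdicComplete (maximalIdeal 𝒪) 𝒪] [Finite (ResidueField 𝒪)]
    (R : Type) [CommRing R] [IsLocalRing R] [IsNoetherianRing R]
    [IsAdicComplete (maximalIdeal R) R] [Algebra 𝒪 R] [IsLocalHom (algebraMap 𝒪 R)],
    Function.Surjective (IsLocalRing.residue R ∘ algebraMap 𝒪 R) →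
    ∀ r : ℕ, Finite (TanHom 𝒪 R) →
      Nat.card (TanHom 𝒪 R) ≤ Nat.card (ResidueField 𝒪) ^ r →
      ∃ γ : MvPowerSeries (Fin r) 𝒪 →ₐ[𝒪] R, Function.Surjective γ

/-- (TWP) existence of Taylor–Wiles primes killing a dual Selmer frame. -/
def TWPrimesStatement : Prop :=
  ∀ (𝒪 : Type) [CommRing 𝒪] [IsDomain 𝒪] [IsDiscreteValuationRing 𝒪]
    [IsAdicComplete (maximalIdeal 𝒪) 𝒪] [Finite (ResidueField 𝒪)]
    (p : ℕ) (ρbar : ResidualGaloisRep (ResidueField 𝒪)) (S Smin : Finset ℕ),
    Hyp 𝒪 p ρbar S Smin →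
    ∀ D : Submodule (ResidueField 𝒪) (GQ → Module.End (ResidueField 𝒪) ρbar.V),
      IsDualFrame ρbar p D → ∀ n : ℕ,
      ∃ qv : Fin (Module.finrank (ResidueField 𝒪) D) → ℕ, Function.Injective qv ∧
        (∀ i, (qv i).Prime ∧ qv i ∉ S ∧ p ^ (n + 1) ∣ qv i - 1) ∧
        (∀ i, ∀ P : ValuationSubring Qb, P.LiesOverPrime (qv i) →
          ∀ φ : GQ, P.IsFrobeniusAt φ (qv i) →
            ∃ α β : ResidueField 𝒪, α ≠ β ∧
              LinearMap.charpoly (ρbar.ρ φ) = (X - C α) * (X - C β)) ∧
        Kills ρbar p D (Finset.univ.image qv)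

/-- (P3) the Taylor–Wiles element: group theory of `ρ̄` and `ad⁰ρ̄(1)`.
Part 1: for a cocycle which is not a coboundary; part 2: without cocycle. -/
def TWElementStatement : Prop :=
  ∀ (𝒪 : Type) [CommRing 𝒪] [IsDomain 𝒪] [IsDiscreteValuationRing 𝒪]
    [IsAdicComplete (maximalIdeal 𝒪) 𝒪] [Finite (ResidueField 𝒪)]
    (p : ℕ) (ρbar : ResidualGaloisRep (ResidueField 𝒪)) (S Smin : Finset ℕ),
    Hyp 𝒪 p ρbar S Smin →
    (∀ c : GQ → Module.End (ResidueField 𝒪) ρbar.V, IsTwCocycle ρbar p c →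
      ¬ IsTwCoboundary ρbar p c → ∀ n : ℕ,
      ∃ σ : GQ, (∀ μ : Qb, μ ^ p ^ (n + 1) = 1 → σ μ = μ) ∧
        (∃ α β : ResidueField 𝒪, α ≠ β ∧
          LinearMap.charpoly (ρbar.ρ σ) = (X - C α) * (X - C β)) ∧
        ∀ m : Module.End (ResidueField 𝒪) ρbar.V,
          LinearMap.trace (ResidueField 𝒪) ρbar.V m = 0 →
            c σ ≠ ρbar.ρ σ * m * ρbar.ρ σ⁻¹ - m) ∧
    (∀ n : ℕ, ∃ σ : GQ, (∀ μ : Qb, μ ^ p ^ (n + 1) = 1 → σ μ = μ) ∧
        ∃ α β : ResidueField 𝒪, α ≠ β ∧
          LinearMap.charpoly (ρbar.ρ σ) = (X - C α) * (X - C β))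

/-- (TWP-of) Taylor–Wiles primes from the Taylor–Wiles element and Frobenius density. -/
def TWPrimesOfElementStatement : Prop :=
  TWElementStatement → Fermat.Agent.Lib.Cheb.Spec.FrobeniusDivisionStatement → TWPrimesStatement

end Fermat.Agent.S56

end

end
-- ===== PACK-END S56/Spec.lean

-- ===== PACK-BEGIN S54/FrobExists.lean
section




set_option autoImplicit false

namespace Fermat.Agent.S54

open scoped Pointwise

/-- The prime of the ring of algebraic integers below a valuation subring. -/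
def primeBelow (A : ValuationSubring (AlgebraicClosure ℚ)) :
    Ideal (integralClosure ℤ (AlgebraicClosure ℚ)) where
  carrier := {b | (b : AlgebraicClosure ℚ) ∈ A.nonunits}
  add_mem' := fun {a b} ha hb => A.nonunits.add_mem ha hb
  zero_mem' := A.nonunits.zero_mem
  smul_mem' := fun c b hb => by
    obtain ⟨hb1, hb2⟩ := ValuationSubring.mem_nonunits_iff_exists_mem_maximalIdeal.mp hb
    have hc : (c : AlgebraicClosure ℚ) ∈ A := isIntegral_mem_valuationSubring A c.2
    have := Ideal.mul_mem_left _ (⟨c, hc⟩ : A) hb2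
    exact ValuationSubring.mem_nonunits_iff_exists_mem_maximalIdeal.mpr ⟨_, this⟩

theorem mem_primeBelow (A : ValuationSubring (AlgebraicClosure ℚ))
    (b : integralClosure ℤ (AlgebraicClosure ℚ)) :
    b ∈ primeBelow A ↔ (b : AlgebraicClosure ℚ) ∈ A.nonunits := Iff.rfl

theorem primeBelow_isPrime (A : ValuationSubring (AlgebraicClosure ℚ)) :
    (primeBelow A).IsPrime := by
  constructor
  · intro h
    have : (1 : integralClosure ℤ (AlgebraicClosure ℚ)) ∈ primeBelow A := by
      rw [h]; trivial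
    rw [mem_primeBelow, ValuationSubring.mem_nonunits_iff] at this
    simp at this
  · intro a b hab
    rw [mem_primeBelow, ValuationSubring.mem_nonunits_iff] at hab ⊢
    rw [mem_primeBelow, ValuationSubring.mem_nonunits_iff]
    have ha : A.valuation (a : AlgebraicClosure ℚ) ≤ 1 :=
      (A.valuation_le_one_iff _).mpr (isIntegral_mem_valuationSubring A a.2)
    have hb : A.valuation (b : AlgebraicClosure ℚ) ≤ 1 :=
      (A.valuation_le_one_iff _).mpr (isIntegral_mem_valuationSubring A b.2)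
    by_contra hcon
    rw [not_or, not_lt, not_lt] at hcon
    have ha1 : A.valuation (a : AlgebraicClosure ℚ) = 1 := le_antisymm ha hcon.1
    have hb1 : A.valuation (b : AlgebraicClosure ℚ) = 1 := le_antisymm hb hcon.2
    have : A.valuation ((a * b : integralClosure ℤ (AlgebraicClosure ℚ)) : AlgebraicClosure ℚ)
        = 1 := by
      push_cast
      rw [map_mul, ha1, hb1, mul_one]
    exact absurd hab (by rw [this]; exact lt_irrefl _)

/-- There is a valuation subring of `ℚ̄` over every prime number. -/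
theorem exists_valuationSubring_liesOver (ℓ : ℕ) (hℓ : ℓ.Prime) :
    ∃ A : ValuationSubring (AlgebraicClosure ℚ), A.LiesOverPrime ℓ := by
  let A₀ : Subring (AlgebraicClosure ℚ) := (algebraMap ℤ (AlgebraicClosure ℚ)).range
  let l₀ : A₀ := ⟨(ℓ : AlgebraicClosure ℚ), ⟨(ℓ : ℤ), by simp⟩⟩
  have hI : Ideal.span {l₀} ≠ ⊤ := by
    intro h
    rw [Ideal.span_singleton_eq_top] at h
    obtain ⟨⟨m, n, rfl⟩, hm⟩ := h.exists_right_inv
    have h1 : ((ℓ : ℤ) : AlgebraicClosure ℚ) * ((n : ℤ) : AlgebraicClosure ℚ) = 1 := by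
      have := congrArg Subtype.val hm
      simpa [l₀] using this
    have h2 : (ℓ : ℤ) * n = 1 := by exact_mod_cast h1
    have h3 : (ℓ : ℤ) ∣ 1 := ⟨n, h2.symm⟩
    have h4 : ℓ ∣ 1 := by exact_mod_cast h3
    exact hℓ.one_lt.ne' (Nat.dvd_one.mp h4)
  obtain ⟨A, -, hA⟩ := Ideal.image_subset_nonunits_valuationSubring _ hI
  refine ⟨A, ?_⟩
  apply hA
  exact ⟨l₀, Ideal.subset_span rfl, rfl⟩

/-- Existence of Frobenius elements in the absolute Galois group of `ℚ`: for every prime
number `ℓ` there are a valuation subring `A` of `ℚ̄` over `ℓ` and `σ ∈ Gal(ℚ̄/ℚ)` which is a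
Frobenius element at `A`. -/
theorem exists_frobenius (ℓ : ℕ) (hℓ : ℓ.Prime) :
    ∃ (A : ValuationSubring (AlgebraicClosure ℚ))
      (σ : AlgebraicClosure ℚ ≃ₐ[ℚ] AlgebraicClosure ℚ),
      A.LiesOverPrime ℓ ∧ A.IsFrobeniusAt σ ℓ := by
  have : Algebra.IsAlgebraic ℚ (AlgebraicClosure ℚ) := AlgebraicClosure.isAlgebraic ℚ
  obtain ⟨A, hA⟩ := exists_valuationSubring_liesOver ℓ hℓ
  have := primeBelow_isPrime A
  have hℓQ : (ℓ : integralClosure ℤ (AlgebraicClosure ℚ)) ∈ primeBelow A := by
    rw [mem_primeBelow]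
    exact hA
  obtain ⟨σ, hσQ', hσF⟩ := exists_frob_integralClosure ℓ hℓ (primeBelow A) hℓQ
  have hσQ : ∀ x, σ • x ∈ primeBelow A ↔ x ∈ primeBelow A := by
    intro x
    conv_lhs => rw [← hσQ']
    exact Ideal.smul_mem_pointwise_smul_iff
  have key : ∀ τ : AlgebraicClosure ℚ ≃ₐ[ℚ] AlgebraicClosure ℚ,
      (∀ x, τ • x ∈ primeBelow A ↔ x ∈ primeBelow A) → ∀ x ∈ A, τ x ∈ A := by
    intro τ hτ x hx
    obtain ⟨b, s, hb, hs, hsA, hxs⟩ := (mem_valuationSubring_iff A ℓ hℓ hA x).mp hx
    refine (mem_valuationSubring_iff A ℓ hℓ hA (τ x)).mpr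
      ⟨τ b, τ s, hb.map τ, hs.map τ, ?_, ?_⟩
    · exact (hτ ⟨s, hs⟩).not.mpr hsA
    · rw [← map_mul, hxs]
  have hσA : σ ∈ A.decompositionSubgroup ℚ := by
    rw [MulAction.mem_stabilizer_iff]
    ext x
    rw [ValuationSubring.mem_smul_pointwise_iff_exists]
    constructor
    · rintro ⟨s, hs, rfl⟩
      exact key σ hσQ s hs
    · intro hx
      refine ⟨σ⁻¹ • x, key σ⁻¹ ?_ x hx, by simp⟩
      intro y
      rw [← hσQ (σ⁻¹ • y)]
      simp
  refine ⟨A, σ, hA, hσA, ?_⟩
  intro x
  obtain ⟨a, rfl⟩ := IsLocalRing.residue_surjective x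
  obtain ⟨b, s, hb, hs, hsA, hxs⟩ := (mem_valuationSubring_iff A ℓ hℓ hA a).mp a.2
  have hbA : b ∈ A := isIntegral_mem_valuationSubring A hb
  have hsA' : s ∈ A := isIntegral_mem_valuationSubring A hs
  have hint : ∀ (y : AlgebraicClosure ℚ) (hy : IsIntegral ℤ y),
      (⟨σ, hσA⟩ : A.decompositionSubgroup ℚ) •
        IsLocalRing.residue A ⟨y, isIntegral_mem_valuationSubring A hy⟩ =
      (IsLocalRing.residue A ⟨y, isIntegral_mem_valuationSubring A hy⟩) ^ ℓ := by
    intro y hy
    rw [← IsLocalRing.ResidueField.residue_smul, ← map_pow, ← sub_eq_zero, ← map_sub,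
      IsLocalRing.residue_eq_zero_iff, ← ValuationSubring.coe_mem_nonunits_iff]
    exact hσF ⟨y, hy⟩
  have h1 : IsLocalRing.residue A a * IsLocalRing.residue A ⟨s, hsA'⟩ =
      IsLocalRing.residue A ⟨b, hbA⟩ := by
    rw [← map_mul]
    congr 1
    exact Subtype.ext hxs
  have h2 : IsLocalRing.residue A ⟨s, hsA'⟩ ≠ 0 := by
    rw [Ne, IsLocalRing.residue_eq_zero_iff, ← ValuationSubring.coe_mem_nonunits_iff]
    exact hsA
  have h3 := congrArg (fun z => (⟨σ, hσA⟩ : A.decompositionSubgroup ℚ) • z) h1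
  simp only [smul_mul'] at h3
  rw [hint s hs, hint b hb, ← h1, mul_pow] at h3
  exact mul_right_cancel₀ (pow_ne_zero _ h2) h3

end Fermat.Agent.S54

end
-- ===== PACK-END S54/FrobExists.lean

-- ===== PACK-BEGIN S55/Bridge/Cyclo.lean
section


/-!
# S55 bridge, part B2b: the mod `p` cyclotomic character is unramified outside `p`,
and `M.dualTwist (cycloChar p)` inherits smoothness and unramifiedness from `M`.
-/

set_option autoImplicit false

namespace Fermat.Agent.S55.Bridge

open ExtCitation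

section inertia

variable (A : ValuationSubring (AlgebraicClosure ℚ))

/-- Elements of the inertia group act trivially on the residue field. -/
theorem inertia_val_sub_lt_one {σ : AlgebraicClosure ℚ ≃ₐ[ℚ] AlgebraicClosure ℚ}
    (hσ : σ ∈ A.inertiaSubgroupIn ℚ) (z : AlgebraicClosure ℚ)
    (hz : A.valuation z ≤ 1) : A.valuation (σ z - z) < 1 := by
  obtain ⟨g, hg, rfl⟩ := hσ
  have hzA : z ∈ A := (A.valuation_le_one_iff z).mp hz
  have h1 : MulSemiringAction.toRingAut (A.decompositionSubgroup ℚ)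
      (IsLocalRing.ResidueField A) g = 1 := hg
  have h2 : g • (IsLocalRing.residue A ⟨z, hzA⟩) = IsLocalRing.residue A ⟨z, hzA⟩ := by
    have := congrArg (fun f => f (IsLocalRing.residue A ⟨z, hzA⟩)) h1
    simpa using this
  rw [← IsLocalRing.ResidueField.residue_smul] at h2
  have h3 : (g • (⟨z, hzA⟩ : A)) - ⟨z, hzA⟩ ∈ IsLocalRing.maximalIdeal A := by
    rw [← Ideal.Quotient.eq]
    exact h2
  rw [ValuationSubring.valuation_lt_one_iff] at h3
  exact h3

variable {A}

theorem val_intCast_le_one (n : ℤ) : A.valuation (n : AlgebraicClosure ℚ) ≤ 1 :=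
  (A.valuation_le_one_iff _).mpr (intCast_mem A n)

/-- A prime `p ≠ q` is a unit at a place over `q`. -/
theorem val_prime_eq_one {q p : ℕ} (hq : A.LiesOverPrime q) (hqp : q.Prime) (hp : p.Prime)
    (hne : q ≠ p) : A.valuation (p : AlgebraicClosure ℚ) = 1 := by
  have hq' : A.valuation (q : AlgebraicClosure ℚ) < 1 := (A.mem_nonunits_iff).mp hq
  have hcop : IsCoprime (q : ℤ) (p : ℤ) := by
    rw [Int.isCoprime_iff_gcd_eq_one, Int.gcd_natCast_natCast]
    exact (Nat.coprime_primes hqp hp).2 hne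
  obtain ⟨u, w, huw⟩ := hcop
  have h1 : (u : AlgebraicClosure ℚ) * (q : AlgebraicClosure ℚ)
      + (w : AlgebraicClosure ℚ) * (p : AlgebraicClosure ℚ) = 1 := by
    exact_mod_cast congrArg (Int.cast : ℤ → AlgebraicClosure ℚ) huw
  have hsmall : A.valuation ((u : AlgebraicClosure ℚ) * (q : AlgebraicClosure ℚ)) < 1 := by
    rw [map_mul]
    exact (mul_le_of_le_one_left' (val_intCast_le_one u)).trans_lt hq'
  have hwn : A.valuation ((w : AlgebraicClosure ℚ) * (p : AlgebraicClosure ℚ)) = 1 := by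
    have : (w : AlgebraicClosure ℚ) * (p : AlgebraicClosure ℚ)
        = 1 + -((u : AlgebraicClosure ℚ) * (q : AlgebraicClosure ℚ)) := by linear_combination h1
    rw [this, (A.valuation).map_add_eq_of_lt_left
      (by rw [Valuation.map_neg, map_one]; exact hsmall), map_one]
  rw [map_mul] at hwn
  have hp1 : A.valuation (p : AlgebraicClosure ℚ) ≤ 1 := by
    have := val_intCast_le_one (A := A) (p : ℤ)
    simpa using this
  refine le_antisymm hp1 ?_
  calc (1 : A.ValueGroup)
      = A.valuation (w : AlgebraicClosure ℚ) * A.valuation (p : AlgebraicClosure ℚ) := hwn.symm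
    _ ≤ 1 * A.valuation (p : AlgebraicClosure ℚ) := mul_le_mul_left (val_intCast_le_one w) _
    _ = A.valuation (p : AlgebraicClosure ℚ) := one_mul _

/-- A nontrivial `p`-th root of unity `η` has `v (1 - η) = 1` at places where `p` is a unit. -/
theorem val_one_sub_root_eq_one {p : ℕ} (hpv : A.valuation (p : AlgebraicClosure ℚ) = 1)
    {η : AlgebraicClosure ℚ} (hη : η ^ p = 1) (hη1 : η ≠ 1) (hηA : η ∈ A) :
    A.valuation (1 - η) = 1 := by
  -- work in the ring `A`
  let e : A := ⟨η, hηA⟩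
  have hdvd : (1 : A) - e ∣ ((∑ i ∈ Finset.range p, (Polynomial.X : Polynomial A) ^ i).eval 1
      - (∑ i ∈ Finset.range p, (Polynomial.X : Polynomial A) ^ i).eval e) :=
    Polynomial.sub_dvd_eval_sub 1 e _
  have hsum : ∑ i ∈ Finset.range p, η ^ i = 0 := by
    have h := geom_sum_mul η p
    rw [hη, sub_self] at h
    rcases mul_eq_zero.1 h with h | h
    · exact h
    · exact absurd (sub_eq_zero.1 h) hη1
  have hsumA : ∑ i ∈ Finset.range p, e ^ i = 0 := by
    apply Subtype.ext
    simpa [e] using hsum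
  have heval1 : (∑ i ∈ Finset.range p, (Polynomial.X : Polynomial A) ^ i).eval 1 = (p : A) := by
    simp [Polynomial.eval_finsetSum]
  have hevale : (∑ i ∈ Finset.range p, (Polynomial.X : Polynomial A) ^ i).eval e = 0 := by
    simpa [Polynomial.eval_finsetSum] using hsumA
  rw [heval1, hevale, sub_zero] at hdvd
  obtain ⟨y, hy⟩ := hdvd
  have hy' : (p : AlgebraicClosure ℚ) = (1 - η) * (y : AlgebraicClosure ℚ) := by
    have := congrArg (fun a : A => (a : AlgebraicClosure ℚ)) hy
    simpa [e] using this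
  have hle : A.valuation (1 - η) ≤ 1 :=
    (A.valuation_le_one_iff _).mpr (A.sub_mem A.one_mem hηA)
  refine le_antisymm hle ?_
  have hyv : A.valuation (y : AlgebraicClosure ℚ) ≤ 1 := A.valuation_le_one y
  calc (1 : A.ValueGroup) = A.valuation (p : AlgebraicClosure ℚ) := hpv.symm
    _ = A.valuation (1 - η) * A.valuation (y : AlgebraicClosure ℚ) := by rw [hy', map_mul]
    _ ≤ A.valuation (1 - η) * 1 := mul_le_mul_right hyv _
    _ = A.valuation (1 - η) := mul_one _

/-- Two distinct `p`-th roots of unity stay distinct in the residue field at places where `p`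
is a unit. -/
theorem val_sub_roots_eq_one {p : ℕ} (hp0 : p ≠ 0)
    (hpv : A.valuation (p : AlgebraicClosure ℚ) = 1)
    {a b : AlgebraicClosure ℚ} (ha : a ^ p = 1) (hb : b ^ p = 1) (hab : a ≠ b) :
    A.valuation (a - b) = 1 := by
  have hb0 : b ≠ 0 := by
    rintro rfl
    rw [zero_pow hp0] at hb
    exact zero_ne_one hb
  have hvb : A.valuation b = 1 := by
    have h : (A.valuation b) ^ p = 1 := by rw [← map_pow, hb, map_one]
    exact (pow_eq_one_iff.1 h).resolve_right hp0
  have hva : A.valuation a = 1 := by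
    have h : (A.valuation a) ^ p = 1 := by rw [← map_pow, ha, map_one]
    exact (pow_eq_one_iff.1 h).resolve_right hp0
  have hη : (a / b) ^ p = 1 := by rw [div_pow, ha, hb, div_one]
  have hη1 : a / b ≠ 1 := by
    intro h
    exact hab ((div_eq_one_iff_eq hb0).1 h)
  have hηA : a / b ∈ A := by
    rw [← A.valuation_le_one_iff, map_div₀, hva, hvb, div_one]
  have h1 := val_one_sub_root_eq_one hpv hη hη1 hηA
  have : a - b = -(b * (1 - a / b)) := by
    field_simp
    ring
  rw [this, Valuation.map_neg, map_mul, hvb, h1, one_mul]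

end inertia

section cyclo

variable (p : ℕ) [Fact p.Prime]

/-- Defining property of `cycloChar`. -/
theorem cycloChar_spec (σ : AlgebraicClosure ℚ ≃ₐ[ℚ] AlgebraicClosure ℚ)
    {t : (AlgebraicClosure ℚ)ˣ} (ht : t ∈ rootsOfUnity p (AlgebraicClosure ℚ)) :
    σ (t : AlgebraicClosure ℚ)
      = (t : AlgebraicClosure ℚ) ^ ((cycloChar p σ : (ZMod p)ˣ) : ZMod p).val := by
  haveI : NeZero p := ⟨(Fact.out : p.Prime).ne_zero⟩
  have h := modularCyclotomicCharacter.spec (AlgebraicClosure ℚ) (card_rootsOfUnity_eq_self p)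
    (σ : AlgebraicClosure ℚ ≃+* AlgebraicClosure ℚ) ht
  exact h

/-- If `σ` fixes all `p`-th roots of unity then `cycloChar p σ = 1`. -/
theorem cycloChar_eq_one_of_fixes (σ : AlgebraicClosure ℚ ≃ₐ[ℚ] AlgebraicClosure ℚ)
    (hσ : ∀ t : (AlgebraicClosure ℚ)ˣ, t ∈ rootsOfUnity p (AlgebraicClosure ℚ) →
      σ (t : AlgebraicClosure ℚ) = t) : cycloChar p σ = 1 := by
  haveI : NeZero p := ⟨(Fact.out : p.Prime).ne_zero⟩
  haveI : Fact (1 < p) := ⟨(Fact.out : p.Prime).one_lt⟩
  have h := modularCyclotomicCharacter.unique (AlgebraicClosure ℚ) (card_rootsOfUnity_eq_self p)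
    (σ : AlgebraicClosure ℚ ≃+* AlgebraicClosure ℚ) (c := 1)
    (fun t ht => by rw [ZMod.val_one, pow_one]; exact hσ t ht)
  apply Units.ext
  exact h.symm

/-- `cycloChar p σ = 1` iff `σ` fixes all `p`-th roots of unity. -/
theorem cycloChar_eq_one_iff (σ : AlgebraicClosure ℚ ≃ₐ[ℚ] AlgebraicClosure ℚ) :
    cycloChar p σ = 1 ↔ ∀ t : (AlgebraicClosure ℚ)ˣ, t ∈ rootsOfUnity p (AlgebraicClosure ℚ) →
      σ (t : AlgebraicClosure ℚ) = t := by
  haveI : Fact (1 < p) := ⟨(Fact.out : p.Prime).one_lt⟩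
  refine ⟨fun h t ht => ?_, cycloChar_eq_one_of_fixes p σ⟩
  rw [cycloChar_spec p σ ht, h, Units.val_one, ZMod.val_one, pow_one]

/-- **B2b.** The mod `p` cyclotomic character is unramified at every prime `q ≠ p`. -/
theorem cycloChar_eq_one_of_mem_inertia {q : ℕ} (hq : q.Prime) (hqp : q ≠ p)
    (A : ValuationSubring (AlgebraicClosure ℚ)) (hA : A.LiesOverPrime q)
    (σ : AlgebraicClosure ℚ ≃ₐ[ℚ] AlgebraicClosure ℚ) (hσ : σ ∈ A.inertiaSubgroupIn ℚ) :
    cycloChar p σ = 1 := by
  have hp : p.Prime := Fact.out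
  apply cycloChar_eq_one_of_fixes
  intro t ht
  have htp : (t : AlgebraicClosure ℚ) ^ p = 1 := by
    have := (mem_rootsOfUnity p t).1 ht
    rw [← Units.val_pow_eq_pow_val, this, Units.val_one]
  by_contra hne
  have hpv := val_prime_eq_one (A := A) hA hq hp hqp
  have hσt : (σ (t : AlgebraicClosure ℚ)) ^ p = 1 := by rw [← map_pow, htp, map_one]
  have h1 := val_sub_roots_eq_one (A := A) hp.ne_zero hpv hσt htp hne
  have hvt : A.valuation (t : AlgebraicClosure ℚ) ≤ 1 := by
    have h : (A.valuation (t : AlgebraicClosure ℚ)) ^ p = 1 := by rw [← map_pow, htp, map_one]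
    exact ((pow_eq_one_iff.1 h).resolve_right hp.ne_zero).le
  have h2 := inertia_val_sub_lt_one A hσ t hvt
  rw [h1] at h2
  exact lt_irrefl _ h2

end cyclo

end Fermat.Agent.S55.Bridge

end
-- ===== PACK-END S55/Bridge/Cyclo.lean

-- ===== PACK-BEGIN S56/H726/Mat2b.lean
section


/-!
# S56 / P3(b) — more `2 × 2` matrix lemmas (helper726)

* `m2_pow_card_sub_one` : a matrix of determinant one with distinct eigenvalues in the finite
  field `k` has order dividing `|k| - 1`.
* `m2_nil_prop` : two square-zero matrices which are orthogonal for the trace form are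
  proportional.
* `m2_unip_pow` : `(1 + n)^j = 1 + j • n` for `n² = 0`.
* `m2_scalar_of_commute`, `m2_inner_of_derivation`.
-/

set_option autoImplicit false

namespace Fermat.Agent.S56.H726

open Matrix

variable {k : Type*} [Field k]

theorem m2_eigen_pow {B : Matrix (Fin 2) (Fin 2) k} {α β : k}
    (hdet : B.det = 1) (htr : B.trace = α + β) (hαβ : α * β = 1) (m : ℕ) :
    B ^ m * (B - β • (1 : Matrix (Fin 2) (Fin 2) k)) =
      α ^ m • (B - β • (1 : Matrix (Fin 2) (Fin 2) k)) := by
  have hB := m2_sq B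
  rw [hdet, htr] at hB
  have h1 : B * (B - β • (1 : Matrix (Fin 2) (Fin 2) k)) =
      α • (B - β • (1 : Matrix (Fin 2) (Fin 2) k)) := by
    rw [mul_sub, hB, smul_sub, smul_smul, hαβ]
    simp only [Matrix.mul_smul, mul_one]
    module
  induction m with
  | zero => simp
  | succ m ih =>
    rw [pow_succ, mul_assoc, h1, Matrix.mul_smul, ih, smul_smul, pow_succ, mul_comm]

/-- A matrix of determinant one with distinct eigenvalues in the finite field `k` has order
dividing `|k| - 1`. -/
theorem m2_pow_card_sub_one [Fintype k] {B : Matrix (Fin 2) (Fin 2) k} {α β : k}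
    (hdet : B.det = 1) (htr : B.trace = α + β) (hαβ : α * β = 1) (hne : α ≠ β) :
    B ^ (Fintype.card k - 1) = 1 := by
  have hα : α ≠ 0 := left_ne_zero_of_mul_eq_one hαβ
  have hβ : β ≠ 0 := right_ne_zero_of_mul_eq_one hαβ
  have e1 := m2_eigen_pow hdet htr hαβ (Fintype.card k - 1)
  have e2 := m2_eigen_pow (α := β) (β := α) hdet (by rw [htr, add_comm])
    (by rw [mul_comm]; exact hαβ) (Fintype.card k - 1)
  rw [FiniteField.pow_card_sub_one_eq_one α hα, one_smul] at e1
  rw [FiniteField.pow_card_sub_one_eq_one β hβ, one_smul] at e2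
  have e3 : (α - β) • B ^ (Fintype.card k - 1) =
      (α - β) • (1 : Matrix (Fin 2) (Fin 2) k) := by
    have : (α - β) • B ^ (Fintype.card k - 1) =
        B ^ (Fintype.card k - 1) * (B - β • (1 : Matrix (Fin 2) (Fin 2) k)) -
          B ^ (Fintype.card k - 1) * (B - α • (1 : Matrix (Fin 2) (Fin 2) k)) := by
      rw [← mul_sub]
      have : (B - β • (1 : Matrix (Fin 2) (Fin 2) k)) - (B - α • 1) =
          (α - β) • (1 : Matrix (Fin 2) (Fin 2) k) := by module
      rw [this, Matrix.mul_smul, mul_one]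
    rw [this, e1, e2]; module
  exact smul_right_injective _ (sub_ne_zero.mpr hne) e3

/-- `(1 + n)^j = 1 + j • n` for `n² = 0`. -/
theorem m2_unip_pow {n : Matrix (Fin 2) (Fin 2) k} (hn : n * n = 0) (j : ℕ) :
    (1 + n) ^ j = 1 + (j : k) • n := by
  induction j with
  | zero => simp
  | succ j ih =>
    rw [pow_succ, ih, add_mul, one_mul, mul_add, mul_one, Matrix.smul_mul, hn, smul_zero,
      add_zero]
    push_cast
    module

/-- Two square-zero `2 × 2` matrices which are orthogonal for the trace form are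
proportional. -/
theorem m2_nil_prop {n n' : Matrix (Fin 2) (Fin 2) k} (hn : n * n = 0) (hn' : n' * n' = 0)
    (h : (n' * n).trace = 0) (h0 : n ≠ 0) : ∃ y : k, n' = y • n := by
  have ht := m2_trace_of_sq_zero hn
  have ht' := m2_trace_of_sq_zero hn'
  rw [Matrix.trace_fin_two] at ht ht'
  have hd : n 1 1 = -n 0 0 := by linear_combination ht
  have hd' : n' 1 1 = -n' 0 0 := by linear_combination ht'
  have h1 : n 0 0 ^ 2 + n 0 1 * n 1 0 = 0 := by
    have := congrFun (congrFun hn 0) 0
    simp only [Matrix.mul_apply, Fin.sum_univ_two, Matrix.zero_apply] at this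
    linear_combination this
  have h1' : n' 0 0 ^ 2 + n' 0 1 * n' 1 0 = 0 := by
    have := congrFun (congrFun hn' 0) 0
    simp only [Matrix.mul_apply, Fin.sum_univ_two, Matrix.zero_apply] at this
    linear_combination this
  have h2 : 2 * n 0 0 * n' 0 0 + n' 0 1 * n 1 0 + n' 1 0 * n 0 1 = 0 := by
    rw [Matrix.trace_fin_two] at h
    simp only [Matrix.mul_apply, Fin.sum_univ_two] at h
    rw [hd, hd'] at h
    linear_combination h
  by_cases hb : n 0 1 = 0
  · -- `b = 0`
    have ha : n 0 0 = 0 := by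
      rw [hb, zero_mul, add_zero] at h1
      exact pow_eq_zero_iff (by norm_num) |>.mp h1
    have hdz : n 1 1 = 0 := by rw [hd, ha, neg_zero]
    have hc : n 1 0 ≠ 0 := by
      intro hc
      apply h0
      ext i j
      fin_cases i <;> fin_cases j <;> simp [ha, hb, hc, hdz]
    have hb' : n' 0 1 = 0 := by
      rw [ha, hb] at h2
      simp only [mul_zero, zero_mul, zero_add, add_zero] at h2
      rcases mul_eq_zero.mp h2 with h' | h'
      · exact h'
      · exact absurd h' hc
    have ha' : n' 0 0 = 0 := by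
      rw [hb', zero_mul, add_zero] at h1'
      exact pow_eq_zero_iff (by norm_num) |>.mp h1'
    refine ⟨n' 1 0 / n 1 0, ?_⟩
    ext i j
    fin_cases i <;> fin_cases j
    · simp [ha, ha']
    · simp [hb, hb']
    · simp only [Fin.mk_one, Fin.isValue, Fin.zero_eta, Matrix.smul_apply, smul_eq_mul]
      field_simp
    · simp [hd, hd', ha, ha']
  · -- `b ≠ 0`
    have e1 : (n' 0 0 * n 0 1 - n 0 0 * n' 0 1) ^ 2 = 0 := by
      linear_combination (n 0 1) ^ 2 * h1' - n 0 1 * n' 0 1 * h2 + (n' 0 1) ^ 2 * h1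
    have e1' : n' 0 0 * n 0 1 - n 0 0 * n' 0 1 = 0 := pow_eq_zero_iff (by norm_num) |>.mp e1
    have e2 : n 0 1 * (n' 1 0 * n 0 1 - n' 0 1 * n 1 0) = 0 := by
      linear_combination n 0 1 * h2 - 2 * n 0 0 * e1' - 2 * n' 0 1 * h1
    have e2' : n' 1 0 * n 0 1 - n' 0 1 * n 1 0 = 0 := by
      rcases mul_eq_zero.mp e2 with h' | h'
      · exact absurd h' hb
      · exact h'
    refine ⟨n' 0 1 / n 0 1, ?_⟩
    ext i j
    fin_cases i <;> fin_cases j
    · simp only [Fin.zero_eta, Fin.isValue, Matrix.smul_apply, smul_eq_mul]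
      field_simp
      linear_combination e1'
    · simp only [Fin.zero_eta, Fin.isValue, Fin.mk_one, Matrix.smul_apply, smul_eq_mul]
      field_simp
    · simp only [Fin.zero_eta, Fin.isValue, Fin.mk_one, Matrix.smul_apply, smul_eq_mul]
      field_simp
      linear_combination e2'
    · simp only [Fin.isValue, Fin.mk_one, Matrix.smul_apply, smul_eq_mul]
      rw [hd, hd']
      field_simp
      linear_combination -e1'

/-- A `2 × 2` matrix commuting with all matrices is scalar. -/
theorem m2_scalar_of_commute {Y : Matrix (Fin 2) (Fin 2) k}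
    (h : ∀ X : Matrix (Fin 2) (Fin 2) k, Y * X = X * Y) :
    Y = (Y 0 0) • (1 : Matrix (Fin 2) (Fin 2) k) := by
  have h01 := h (Matrix.single 0 1 1)
  have h10 := h (Matrix.single 1 0 1)
  have a1 := congrFun (congrFun h01 0) 1
  have a2 := congrFun (congrFun h01 0) 0
  have a3 := congrFun (congrFun h10 1) 1
  simp [Matrix.mul_apply, Matrix.single_apply] at a1 a2 a3
  ext i j
  fin_cases i <;> fin_cases j
  · simp
  · simp [← a3]
  · simp [← a2]
  · simp [a1]

/-- A trace-zero `2 × 2` matrix commuting with all matrices vanishes (`2 ≠ 0`). -/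
theorem m2_eq_zero_of_commute (h2 : (2 : k) ≠ 0) {Y : Matrix (Fin 2) (Fin 2) k}
    (h : ∀ X : Matrix (Fin 2) (Fin 2) k, Y * X = X * Y) (ht : Y.trace = 0) : Y = 0 := by
  have hs := m2_scalar_of_commute h
  have : Y 0 0 = 0 := by
    have e := congrArg Matrix.trace hs
    rw [ht, Matrix.trace_smul, Matrix.trace_one, Fintype.card_fin, smul_eq_mul] at e
    rcases mul_eq_zero.mp e.symm with h' | h'
    · exact h'
    · exact absurd (by exact_mod_cast h') h2
  rw [hs, this, zero_smul]

/-- Every derivation of `M₂(k)` is inner. -/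
theorem m2_inner_of_derivation
    (Dv : Matrix (Fin 2) (Fin 2) k →ₗ[k] Matrix (Fin 2) (Fin 2) k)
    (hD : ∀ X Y, Dv (X * Y) = Dv X * Y + X * Dv Y) :
    ∃ m : Matrix (Fin 2) (Fin 2) k, ∀ X, Dv X = m * X - X * m := by
  refine ⟨Dv (Matrix.single 0 0 1) * Matrix.single 0 0 1 +
    Dv (Matrix.single 1 0 1) * Matrix.single 0 1 1, fun X => ?_⟩
  have hone : (Matrix.single 0 0 1 : Matrix (Fin 2) (Fin 2) k) * Matrix.single 0 0 1 +
      Matrix.single 1 0 1 * Matrix.single 0 1 1 = 1 := by
    ext i j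
    fin_cases i <;> fin_cases j <;> simp
  have hX0 : X * Matrix.single 0 0 1 =
      X 0 0 • (Matrix.single 0 0 1 : Matrix (Fin 2) (Fin 2) k) + X 1 0 • Matrix.single 1 0 1 := by
    ext i j
    fin_cases i <;> fin_cases j <;> simp [Matrix.mul_apply, Matrix.single_apply]
  have hX1 : X * Matrix.single 1 0 1 =
      X 0 1 • (Matrix.single 0 0 1 : Matrix (Fin 2) (Fin 2) k) + X 1 1 • Matrix.single 1 0 1 := by
    ext i j
    fin_cases i <;> fin_cases j <;> simp [Matrix.mul_apply, Matrix.single_apply]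
  have hY0 : (Matrix.single 0 0 1 : Matrix (Fin 2) (Fin 2) k) * X =
      X 0 0 • (Matrix.single 0 0 1 : Matrix (Fin 2) (Fin 2) k) + X 0 1 • Matrix.single 0 1 1 := by
    ext i j
    fin_cases i <;> fin_cases j <;> simp [Matrix.mul_apply, Matrix.single_apply]
  have hY1 : (Matrix.single 0 1 1 : Matrix (Fin 2) (Fin 2) k) * X =
      X 1 0 • (Matrix.single 0 0 1 : Matrix (Fin 2) (Fin 2) k) + X 1 1 • Matrix.single 0 1 1 := by
    ext i j
    fin_cases i <;> fin_cases j <;> simp [Matrix.mul_apply, Matrix.single_apply]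
  have d0 := hD X (Matrix.single 0 0 1)
  have d1 := hD X (Matrix.single 1 0 1)
  rw [hX0, map_add, map_smul, map_smul] at d0
  rw [hX1, map_add, map_smul, map_smul] at d1
  -- `Dv X = Dv X * 1`
  have key : Dv X = Dv X * (Matrix.single 0 0 1 * Matrix.single 0 0 1 +
      Matrix.single 1 0 1 * Matrix.single 0 1 1) := by rw [hone, mul_one]
  have k0 : Dv X * Matrix.single 0 0 1 =
      X 0 0 • Dv (Matrix.single 0 0 1) + X 1 0 • Dv (Matrix.single 1 0 1) -
        X * Dv (Matrix.single 0 0 1) := by rw [d0]; abel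
  have k1 : Dv X * Matrix.single 1 0 1 =
      X 0 1 • Dv (Matrix.single 0 0 1) + X 1 1 • Dv (Matrix.single 1 0 1) -
        X * Dv (Matrix.single 1 0 1) := by rw [d1]; abel
  rw [key, mul_add, ← mul_assoc, ← mul_assoc, k0, k1, add_mul, mul_assoc _ _ X,
    mul_assoc _ _ X, hY0, hY1, mul_add X, ← mul_assoc X, ← mul_assoc X]
  simp only [sub_mul, add_mul, mul_add, Matrix.smul_mul, Matrix.mul_smul]
  abel

end Fermat.Agent.S56.H726

end
-- ===== PACK-END S56/H726/Mat2b.lean

-- ===== PACK-BEGIN Lib/Cheb/H993/Induction.lean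
section


/-!
# The subgroup induction (abstract core of piece `M`)

`v X p ≥ 0` bounded weights indexed by subgroups `X` of a finite group `G` and numbers `p`.
If for every subgroup `H` the prime sum of `∑_{X ≤ H} v X` is `|H| · log (1/(s-1)) + O(1)`, then
for every subgroup `X` the prime sum of `v X` is `ψ(X) · log (1/(s-1)) + O(1)`, where `ψ(X)` is the
number of generators of `X`.  Hence if `X` is cyclic, `v X p > 0` for primes outside any finite set.
-/

set_option autoImplicit false

namespace Fermat.Agent.Lib.Cheb.H993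

open scoped Classical

noncomputable section

variable {G : Type*} [Group G] [Finite G]

/-- Number of generators of the subgroup `X`. -/
def gens (X : Subgroup G) : ℕ := Nat.card {x : G // Subgroup.zpowers x = X}

/-- The subgroups contained in `H`, as a finset. -/
def below (H : Subgroup G) : Finset (Subgroup G) :=
  haveI : Fintype (Subgroup G) := Fintype.ofFinite _
  Finset.univ.filter (· ≤ H)

theorem mem_below {H X : Subgroup G} : X ∈ below H ↔ X ≤ H := by
  unfold below
  simp

theorem card_eq_sum_gens (H : Subgroup G) : Nat.card H = ∑ X ∈ below H, gens X := by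
  have : Fintype G := Fintype.ofFinite _
  have h1 : Nat.card H = (Finset.univ.filter (fun x : G => x ∈ H)).card := by
    rw [Nat.card_eq_fintype_card, Fintype.card_subtype]
  have h2 : ∀ X : Subgroup G, gens X
      = ((Finset.univ.filter (fun x : G => x ∈ H)).filter
          (fun x => Subgroup.zpowers x = X)).card ∨ ¬ X ≤ H := by
    intro X
    by_cases hX : X ≤ H
    · left
      unfold gens
      rw [Nat.card_eq_fintype_card, Fintype.card_subtype]
      congr 1
      ext x
      simp only [Finset.mem_filter, Finset.mem_univ, true_and, iff_and_self]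
      intro hx
      exact hX (hx ▸ Subgroup.mem_zpowers x)
    · right; exact hX
  rw [h1, Finset.card_eq_sum_card_fiberwise (f := fun x : G => Subgroup.zpowers x)
    (t := below H)]
  · refine Finset.sum_congr rfl fun X hX => ?_
    rcases h2 X with h | h
    · exact h.symm
    · exact absurd (mem_below.mp hX) h
  · intro x hx
    simp only [Finset.coe_filter, Finset.mem_univ, true_and, Set.mem_ofPred_eq] at hx
    simp only [Finset.mem_coe]
    exact mem_below.mpr ((Subgroup.zpowers_le).mpr hx)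

theorem self_mem_below (X : Subgroup G) : X ∈ below X := mem_below.mpr le_rfl

theorem card_lt_of_mem_erase {X Y : Subgroup G} (hY : Y ∈ (below X).erase X) :
    Nat.card Y < Nat.card X := by
  rw [Finset.mem_erase, mem_below] at hY
  have hlt : Y < X := lt_of_le_of_ne hY.2 hY.1
  have hss : (Y : Set G) ⊂ (X : Set G) := by
    exact_mod_cast hlt
  have h := Set.ncard_lt_ncard hss (Set.toFinite _)
  rw [← Nat.card_coe_set_eq, ← Nat.card_coe_set_eq] at h
  exact h

/-- The induction: prime sums of `v X` are `gens X · log (1/(s-1)) + O(1)`. -/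
theorem logAsymp_pSum (v : Subgroup G → ℕ → ℝ) (K : ℝ) (h0 : ∀ X p, 0 ≤ v X p)
    (hK : ∀ X p, v X p ≤ K)
    (hW : ∀ H : Subgroup G,
      LogAsymp (pSum (fun p => ∑ X ∈ below H, v X p)) (Nat.card H)) :
    ∀ X : Subgroup G, LogAsymp (pSum (v X)) (gens X) := by
  suffices h : ∀ n : ℕ, ∀ X : Subgroup G, Nat.card X = n → LogAsymp (pSum (v X)) (gens X) from
    fun X => h _ X rfl
  intro n
  induction n using Nat.strong_induction_on with
  | _ n ih =>
    intro X hX
    have hsmall : ∀ Y ∈ (below X).erase X, LogAsymp (pSum (v Y)) (gens Y) := by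
      intro Y hY
      exact ih (Nat.card Y) (hX ▸ card_lt_of_mem_erase hY) Y rfl
    have hsum := LogAsymp.sum ((below X).erase X) hsmall
    have hdiff := (hW X).sub hsum
    have hcoef : ((Nat.card X : ℕ) : ℝ) - ∑ Y ∈ (below X).erase X, ((gens Y : ℕ) : ℝ)
        = (gens X : ℝ) := by
      have h1 := card_eq_sum_gens X
      rw [← Finset.add_sum_erase (below X) _ (self_mem_below X)] at h1
      rw [h1]
      push_cast
      ring
    rw [hcoef] at hdiff
    refine hdiff.congr fun s h1 _ => ?_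
    have hsplit : pSum (fun p => ∑ Y ∈ below X, v Y p) s = ∑ Y ∈ below X, pSum (v Y) s :=
      pSum_finset_sum (below X) h0 hK h1
    rw [hsplit, ← Finset.add_sum_erase (below X) _ (self_mem_below X)]
    ring

/-- Consequence: if `X` has a generator, `v X p > 0` for some `p` outside any finite set. -/
theorem exists_pos_of_gens_pos (v : Subgroup G → ℕ → ℝ) (K : ℝ) (h0 : ∀ X p, 0 ≤ v X p)
    (hK : ∀ X p, v X p ≤ K)
    (hW : ∀ H : Subgroup G,
      LogAsymp (pSum (fun p => ∑ X ∈ below H, v X p)) (Nat.card H))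
    (X : Subgroup G) (hX : 0 < gens X) (S : Finset ℕ) :
    ∃ p : ℕ, p.Prime ∧ p ∉ S ∧ 0 < v X p := by
  by_contra hcon
  have hcon : ∀ p : ℕ, p.Prime → p ∉ S → v X p ≤ 0 := by
    intro p hp hpS
    by_contra h
    exact hcon ⟨p, hp, hpS, not_le.mp h⟩
  have hsupp : ∀ p : Nat.Primes, (p : ℕ) ∉ S → v X p = 0 := fun p hp =>
    le_antisymm (hcon p p.2 hp) (h0 X p)
  have hasym := logAsymp_pSum v K h0 hK hW X
  have hK0 : 0 ≤ K := (h0 X 0).trans (hK X 0)
  obtain ⟨s, h1, -, hs⟩ := hasym.exists_gt (by exact_mod_cast hX) (K * S.card)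
  -- but the prime sum is supported on `S`
  let w : ℕ → ℝ := fun p => if p ∈ S then v X p else 0
  have hw : pSum (v X) s = pSum w s := by
    unfold pSum
    congr 1
    funext p
    by_cases hp : (p : ℕ) ∈ S
    · simp [w, hp]
    · simp [w, hp, hsupp p hp]
  have hle : |pSum w s| ≤ K * S.card := by
    apply abs_pSum_le_of_support S
    · intro p; by_cases hp : p ∈ S <;> simp [w, hp, h0 X p]
    · intro p; by_cases hp : p ∈ S <;> simp [w, hp, hK X p, hK0]
    · intro p hp; simp [w, hp]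
    · exact h1
  rw [hw] at hs
  exact absurd (le_abs_self _ |>.trans hle) (not_le.mpr hs)

end

end Fermat.Agent.Lib.Cheb.H993

end
-- ===== PACK-END Lib/Cheb/H993/Induction.lean

-- ===== PACK-BEGIN S56/H734/PadicPow.lean
section



/-!
# S56 / H734 : `ℚ_pˣ = ⟨p, 1 + p⟩ · (ℚ_pˣ)^p` for odd `p`

Every nonzero `p`-adic number is of the form `p ^ i * (1 + p) ^ j * w ^ p`.
(Input of the Kummer count `dim H¹(G_{ℚ_p}, k(1)) ≤ 2`, sub-leaf KUMMER-P of LOC-SO / FLAT-O.)
-/

set_option autoImplicit false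

namespace Fermat.Agent.S56.H734

theorem neg_le_natAbs' (i : ℤ) : -i ≤ (i.natAbs : ℤ) := by
  omega

/-- `(1 + a) ^ j = 1 + j a + a² r` in any commutative ring. -/
theorem one_add_pow_eq (R : Type*) [CommRing R] (a : R) (j : ℕ) :
    ∃ r : R, (1 + a) ^ j = 1 + j * a + a ^ 2 * r := by
  induction j with
  | zero => exact ⟨0, by simp⟩
  | succ j ih =>
    obtain ⟨r, hr⟩ := ih
    refine ⟨r + r * a + j, ?_⟩
    rw [pow_succ, hr]
    push_cast
    ring

variable (p : ℕ) [hp : Fact p.Prime]

/-- Units of `ℤ_p` (odd `p`) are of the form `(1 + p) ^ j * w ^ p`. -/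
theorem padicInt_unit_eq (hp2 : p ≠ 2) (u : ℤ_[p]ˣ) :
    ∃ (j : ℕ) (w : ℤ_[p]ˣ), (u : ℤ_[p]) = (1 + (p : ℤ_[p])) ^ j * (w : ℤ_[p]) ^ p := by
  have hp1 : 1 ≤ p := hp.out.one_lt.le
  -- `v = u ^ (-(p - 1))`, `u = u ^ p * v`
  set v : ℤ_[p]ˣ := (u ^ (p - 1))⁻¹ with hv
  have huv : u = u ^ p * v := by
    rw [hv]
    have : u ^ p = u * u ^ (p - 1) := by
      rw [← pow_succ', Nat.sub_add_cancel hp1]
    rw [this, mul_assoc, mul_inv_cancel, mul_one]
  -- `v ≡ 1 mod p`
  have hv1 : PadicInt.toZMod ((v : ℤ_[p])) = 1 := by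
    have hu0 : PadicInt.toZMod (u : ℤ_[p]) ≠ 0 := by
      have : IsUnit (PadicInt.toZMod (u : ℤ_[p])) := (u.isUnit).map _
      exact this.ne_zero
    have h1 : PadicInt.toZMod ((u ^ (p - 1) : ℤ_[p]ˣ) : ℤ_[p]) = 1 := by
      rw [Units.val_pow_eq_pow_val, map_pow]
      exact ZMod.pow_card_sub_one_eq_one hu0
    have h2 : PadicInt.toZMod ((u ^ (p - 1) : ℤ_[p]ˣ) : ℤ_[p]) *
        PadicInt.toZMod ((v : ℤ_[p])) = 1 := by
      rw [← map_mul, ← Units.val_mul, hv, mul_inv_cancel, Units.val_one, map_one]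
    rw [h1, one_mul] at h2
    exact h2
  -- `v = 1 + p s`
  obtain ⟨s, hs⟩ : ∃ s : ℤ_[p], (v : ℤ_[p]) = 1 + p * s := by
    have hmem : (v : ℤ_[p]) - 1 ∈ RingHom.ker (PadicInt.toZModPow (p := p) 1) := by
      rw [PadicInt.ker_toZModPow, pow_one, ← PadicInt.maximalIdeal_eq_span_p,
        ← PadicInt.ker_toZMod, RingHom.mem_ker, map_sub, hv1, map_one, sub_self]
    rw [PadicInt.ker_toZModPow, pow_one, Ideal.mem_span_singleton] at hmem
    obtain ⟨s, hs⟩ := hmem
    exact ⟨s, by rw [← hs]; ring⟩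
  -- `s = j + p s'`
  obtain ⟨j, -, hj⟩ := PadicInt.exists_mem_range (p := p) s
  obtain ⟨s', hs'⟩ : ∃ s' : ℤ_[p], s = j + p * s' := by
    rw [PadicInt.maximalIdeal_eq_span_p, Ideal.mem_span_singleton] at hj
    obtain ⟨s', hs'⟩ := hj
    exact ⟨s', by rw [← hs']; ring⟩
  obtain ⟨r, hr⟩ := one_add_pow_eq ℤ_[p] (p : ℤ_[p]) j
  -- the unit `e = (1 + p) ^ j`
  have he1 : IsUnit ((1 + (p : ℤ_[p])) ^ j) := by
    apply IsUnit.pow
    rw [PadicInt.isUnit_iff]
    have hlt : ‖(p : ℤ_[p])‖ < 1 := by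
      rw [PadicInt.norm_p]
      exact inv_lt_one_of_one_lt₀ (by exact_mod_cast hp.out.one_lt)
    have h1 : ‖(1 : ℤ_[p])‖ = 1 := norm_one
    have hne : ‖(1 : ℤ_[p])‖ ≠ ‖(p : ℤ_[p])‖ := by rw [h1]; exact hlt.ne'
    rw [PadicInt.norm_add_eq_max_of_ne hne, h1]
    exact max_eq_left hlt.le
  obtain ⟨e, he⟩ := he1
  -- `v e⁻¹ ≡ 1 mod p²`
  have hve : PadicInt.toZModPow 2 ((v * e⁻¹ : ℤ_[p]ˣ) : ℤ_[p]) = 1 := by
    have hdiff : (v : ℤ_[p]) - e = p ^ 2 * (s' - r) := by
      rw [hs, he, hr, hs']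
      ring
    have hmem : ((v * e⁻¹ : ℤ_[p]ˣ) : ℤ_[p]) - 1 ∈
        RingHom.ker (PadicInt.toZModPow (p := p) 2) := by
      rw [PadicInt.ker_toZModPow, Ideal.mem_span_singleton]
      refine ⟨(s' - r) * ((e⁻¹ : ℤ_[p]ˣ) : ℤ_[p]), ?_⟩
      have h1 : ((v * e⁻¹ : ℤ_[p]ˣ) : ℤ_[p]) - 1 =
          ((v : ℤ_[p]) - e) * ((e⁻¹ : ℤ_[p]ˣ) : ℤ_[p]) := by
        rw [Units.val_mul, sub_mul, Units.mul_inv]
      rw [h1, hdiff]
      ring
    rw [RingHom.mem_ker, map_sub, map_one, sub_eq_zero] at hmem
    exact hmem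
  obtain ⟨w₀, hw₀⟩ := Fermat.Agent.S55.H413.exists_pow_totient_eq p hp2 2 (by norm_num)
    (v * e⁻¹) hve
  have htot : (p ^ 2).totient = (p - 1) * p := by
    rw [Nat.totient_prime_pow hp.out (by norm_num : 0 < 2)]
    simp [mul_comm]
  refine ⟨j, u * w₀ ^ (p - 1), ?_⟩
  have hfinal : u = e * (u * w₀ ^ (p - 1)) ^ p := by
    have hv' : v = e * (w₀ ^ (p - 1)) ^ p := by
      rw [← pow_mul, ← htot, hw₀]
      simp
    calc u = u ^ p * v := huv
      _ = u ^ p * (e * (w₀ ^ (p - 1)) ^ p) := by rw [← hv']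
      _ = e * (u * w₀ ^ (p - 1)) ^ p := by rw [mul_pow]; ac_rfl
  have := congrArg (fun z : ℤ_[p]ˣ => (z : ℤ_[p])) hfinal
  simp only [Units.val_mul, Units.val_pow_eq_pow_val] at this
  rw [he] at this
  simpa [Units.val_mul, Units.val_pow_eq_pow_val] using this

/-- **`ℚ_pˣ = ⟨p, 1 + p⟩ · (ℚ_pˣ)^p`** for odd `p`. -/
theorem padic_eq_pow_mul (hp2 : p ≠ 2) (x : ℚ_[p]) (hx : x ≠ 0) :
    ∃ (i : ℤ) (j : ℕ) (w : ℚ_[p]), w ≠ 0 ∧
      x = (p : ℚ_[p]) ^ i * (1 + (p : ℚ_[p])) ^ j * w ^ p := by
  have hp0 : (p : ℚ_[p]) ≠ 0 := by exact_mod_cast hp.out.ne_zero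
  set n : ℤ := x.valuation with hn
  set y : ℚ_[p] := x * (p : ℚ_[p]) ^ (-n) with hy
  have hynorm : ‖y‖ = 1 := by
    rw [hy, norm_mul, Padic.norm_eq_zpow_neg_valuation hx, norm_zpow, Padic.norm_p,
      ← hn, inv_zpow', neg_neg, ← zpow_add₀ (by exact_mod_cast hp.out.ne_zero : (p : ℝ) ≠ 0)]
    simp
  obtain ⟨j, w, hw⟩ := padicInt_unit_eq p hp2 (PadicInt.mkUnits hynorm)
  refine ⟨n, j, (w : ℤ_[p]), ?_, ?_⟩
  · have : (w : ℤ_[p]) ≠ 0 := w.ne_zero
    exact fun h => this (PadicInt.coe_eq_zero.mp h)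
  · have hy' : y = (1 + (p : ℚ_[p])) ^ j * ((w : ℤ_[p]) : ℚ_[p]) ^ p := by
      have h1 := congrArg (fun z : ℤ_[p] => (z : ℚ_[p])) hw
      simp only [PadicInt.mkUnits_eq] at h1
      rw [h1]
      push_cast
      rfl
    have hx' : x = (p : ℚ_[p]) ^ n * y := by
      rw [hy, mul_comm x, ← mul_assoc, ← zpow_add₀ hp0]
      simp
    rw [hx', hy', mul_assoc]

/-- Variant with a natural exponent of `p`. -/
theorem padic_eq_pow_mul_nat (hp2 : p ≠ 2) (x : ℚ_[p]) (hx : x ≠ 0) :
    ∃ (i j : ℕ) (w : ℚ_[p]), w ≠ 0 ∧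
      x = (p : ℚ_[p]) ^ i * (1 + (p : ℚ_[p])) ^ j * w ^ p := by
  have hp0 : (p : ℚ_[p]) ≠ 0 := by exact_mod_cast hp.out.ne_zero
  obtain ⟨i, j, w, hw, hx'⟩ := padic_eq_pow_mul p hp2 x hx
  -- `i = i' - p * N` with `i' ≥ 0`
  set N : ℕ := i.natAbs with hN
  have hi' : 0 ≤ i + p * N := by
    have h1 : (1 : ℤ) ≤ p := by exact_mod_cast hp.out.one_lt.le
    have h2 : -i ≤ (N : ℤ) := by rw [hN]; exact neg_le_natAbs' i
    have h3 : (0 : ℤ) ≤ (N : ℤ) := Int.natCast_nonneg N
    nlinarith [neg_le_natAbs' i]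
  obtain ⟨i', hi'eq⟩ := Int.eq_ofNat_of_zero_le hi'
  refine ⟨i', j, w * ((p : ℚ_[p]) ^ N)⁻¹, mul_ne_zero hw (inv_ne_zero (pow_ne_zero _ hp0)), ?_⟩
  have h3 : (p : ℚ_[p]) ^ i = (p : ℚ_[p]) ^ i' * (((p : ℚ_[p]) ^ N)⁻¹) ^ p := by
    have : i = (i' : ℤ) - p * N := by rw [← hi'eq]; ring
    rw [this, zpow_sub₀ hp0, zpow_natCast, inv_pow, ← pow_mul, div_eq_mul_inv]
    congr 2
    rw [mul_comm, ← zpow_natCast]
    push_cast
    rfl
  rw [hx', h3, mul_pow]
  ring

end Fermat.Agent.S56.H734

end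
-- ===== PACK-END S56/H734/PadicPow.lean

-- ===== PACK-BEGIN S55/Bridge/DecompLift.lean
section


set_option autoImplicit false

namespace Fermat.Agent.S55.Bridge

open Polynomial IntermediateField
open scoped Pointwise NNReal

variable (q : ℕ) [Fact q.Prime]

/-- The absolute value on `ℚ̄` induced by `padicEmbedding q`. -/
noncomputable def padicAbs : AbsoluteValue (AlgebraicClosure ℚ) ℝ where
  toFun x := ‖padicEmbedding q x‖
  map_mul' x y := by simp [map_mul]
  nonneg' x := norm_nonneg _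
  eq_zero' x := by simp
  add_le' x y := by
    simp only [map_add]
    exact norm_add_le _ _

theorem padicAbs_apply (x : AlgebraicClosure ℚ) : padicAbs q x = ‖padicEmbedding q x‖ := rfl

/-- Twisting `padicAbs` by an automorphism. -/
noncomputable def padicAbsTwist (σ : AlgebraicClosure ℚ ≃ₐ[ℚ] AlgebraicClosure ℚ) :
    AbsoluteValue (AlgebraicClosure ℚ) ℝ where
  toFun x := ‖padicEmbedding q (σ x)‖
  map_mul' x y := by simp [map_mul]
  nonneg' x := norm_nonneg _
  eq_zero' x := by simp
  add_le' x y := by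
    simp only [map_add]
    exact norm_add_le _ _

theorem mem_padicPlace_iff_norm {x : AlgebraicClosure ℚ} :
    x ∈ padicPlace q ↔ ‖padicEmbedding q x‖ ≤ 1 := by
  rw [mem_padicPlace_iff]
  exact Iff.rfl

theorem mem_padicPlace_of_mem_decomposition {σ : AlgebraicClosure ℚ ≃ₐ[ℚ] AlgebraicClosure ℚ}
    (hσ : σ ∈ (padicPlace q).decompositionSubgroup ℚ) (x : AlgebraicClosure ℚ) :
    σ x ∈ padicPlace q ↔ x ∈ padicPlace q := by
  have hinv : σ⁻¹ ∈ (padicPlace q).decompositionSubgroup ℚ := Subgroup.inv_mem _ hσ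
  rw [MulAction.mem_stabilizer_iff] at hinv
  have h := ValuationSubring.mem_pointwise_smul_iff_inv_smul_mem (S := padicPlace q)
    (g := σ⁻¹) (x := x)
  rw [hinv, inv_inv] at h
  rw [h]
  rfl

end Fermat.Agent.S55.Bridge

namespace Fermat.Agent.S55.Bridge

open Polynomial IntermediateField
open scoped Pointwise NNReal

variable (q : ℕ) [Fact q.Prime]

theorem norm_padicEmbedding_natCast_self :
    ‖padicEmbedding q ((q : ℕ) : AlgebraicClosure ℚ)‖ = (q : ℝ)⁻¹ := by
  rw [map_natCast]
  have h : ((q : ℕ) : PadicAlgCl q) = algebraMap ℚ_[q] (PadicAlgCl q) (q : ℚ_[q]) := by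
    rw [map_natCast]
  rw [h, PadicAlgCl.norm_extends, Padic.norm_p]

/-- Elements of the decomposition group of `padicPlace q` are isometries for the `q`-adic norm. -/
theorem norm_padicEmbedding_of_mem_decomposition
    {σ : AlgebraicClosure ℚ ≃ₐ[ℚ] AlgebraicClosure ℚ}
    (hσ : σ ∈ (padicPlace q).decompositionSubgroup ℚ) (x : AlgebraicClosure ℚ) :
    ‖padicEmbedding q (σ x)‖ = ‖padicEmbedding q x‖ := by
  have hq : (q : ℕ).Prime := Fact.out
  have hequiv : (padicAbs q).IsEquiv (padicAbsTwist q σ) := by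
    rw [AbsoluteValue.isEquiv_iff_lt_one_iff]
    intro y
    show ‖padicEmbedding q y‖ < 1 ↔ ‖padicEmbedding q (σ y)‖ < 1
    rcases eq_or_ne y 0 with rfl | hy
    · simp
    · have hσy : σ y ≠ 0 := by simpa using hy
      have key : ∀ z : AlgebraicClosure ℚ, z ≠ 0 →
          (‖padicEmbedding q z‖ < 1 ↔ z⁻¹ ∉ padicPlace q) := by
        intro z hz
        rw [mem_padicPlace_iff_norm, map_inv₀, norm_inv, not_le]
        have hpos : 0 < ‖padicEmbedding q z‖ := by
          rw [norm_pos_iff]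
          simpa using hz
        rw [one_lt_inv₀ hpos]
      rw [key y hy, key (σ y) hσy, ← map_inv₀, mem_padicPlace_of_mem_decomposition q hσ]
  obtain ⟨c, hc, hvw⟩ := AbsoluteValue.isEquiv_iff_exists_rpow_eq.1 hequiv
  have hq' : padicAbs q (q : AlgebraicClosure ℚ) ^ c = padicAbsTwist q σ (q : AlgebraicClosure ℚ) :=
    congrFun hvw _
  have h1 : padicAbs q (q : AlgebraicClosure ℚ) = (q : ℝ)⁻¹ := norm_padicEmbedding_natCast_self q
  have h2 : padicAbsTwist q σ (q : AlgebraicClosure ℚ) = (q : ℝ)⁻¹ := by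
    show ‖padicEmbedding q (σ (q : AlgebraicClosure ℚ))‖ = _
    rw [map_natCast]
    exact norm_padicEmbedding_natCast_self q
  rw [h1, h2] at hq'
  have hq0 : (0 : ℝ) < (q : ℝ)⁻¹ := inv_pos.2 (by exact_mod_cast hq.pos)
  have hq1 : (q : ℝ)⁻¹ ≠ 1 := by
    rw [ne_eq, inv_eq_one]
    exact_mod_cast hq.one_lt.ne'
  have hc1 : c = 1 := by
    have h3 : (q : ℝ)⁻¹ ^ c = (q : ℝ)⁻¹ ^ (1 : ℝ) := by rw [hq', Real.rpow_one]
    exact (Real.rpow_right_inj hq0 hq1).1 h3
  have := congrFun hvw x
  rw [hc1] at this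
  simp only [Real.rpow_one] at this
  exact this.symm

end Fermat.Agent.S55.Bridge

namespace Fermat.Agent.S55.Bridge

open Polynomial IntermediateField
open scoped Pointwise NNReal

variable (q : ℕ) [Fact q.Prime]

section Extend

/-- The ring hom `ℚ̄ → ℂ_q`. -/
noncomputable def toPadicComplex : AlgebraicClosure ℚ →+* ℂ_[q] :=
  (UniformSpace.Completion.coeRingHom : PadicAlgCl q →+* ℂ_[q]).comp
    ((padicEmbedding q : AlgebraicClosure ℚ →ₐ[ℚ] PadicAlgCl q) : AlgebraicClosure ℚ →+* PadicAlgCl q)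

theorem toPadicComplex_apply (x : AlgebraicClosure ℚ) :
    toPadicComplex q x = ((padicEmbedding q x : PadicAlgCl q) : ℂ_[q]) := rfl

/-- The uniform structure on `ℚ̄` induced by the `q`-adic embedding. -/
@[reducible] noncomputable def padicUniformSpace : UniformSpace (AlgebraicClosure ℚ) :=
  UniformSpace.comap (padicEmbedding q) inferInstance

theorem isUniformInducing_toPadicComplex :
    @IsUniformInducing _ _ (padicUniformSpace q) _ (toPadicComplex q) := by
  letI := padicUniformSpace q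
  have h1 : IsUniformInducing (padicEmbedding q : AlgebraicClosure ℚ → PadicAlgCl q) := ⟨rfl⟩
  have h2 : IsUniformInducing ((↑) : PadicAlgCl q → ℂ_[q]) :=
    UniformSpace.Completion.isUniformInducing_coe _
  exact h2.comp h1

theorem denseRange_padicEmbedding :
    DenseRange (padicEmbedding q : AlgebraicClosure ℚ → PadicAlgCl q) := by
  rw [Metric.denseRange_iff]
  intro x r hr
  obtain ⟨b, hb⟩ := exists_global_near q x hr
  exact ⟨b, by rw [dist_eq_norm]; exact hb⟩

theorem denseRange_toPadicComplex : DenseRange (toPadicComplex q) := by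
  have h2 : DenseRange ((↑) : PadicAlgCl q → ℂ_[q]) := UniformSpace.Completion.denseRange_coe
  exact h2.comp (denseRange_padicEmbedding q) (UniformSpace.Completion.continuous_coe _)

variable {q} in
theorem uniformContinuous_toPadicComplex_comp
    {σ : AlgebraicClosure ℚ ≃ₐ[ℚ] AlgebraicClosure ℚ}
    (hσ : σ ∈ (padicPlace q).decompositionSubgroup ℚ) :
    @UniformContinuous _ _ (padicUniformSpace q) _
      ((toPadicComplex q).comp (σ : AlgebraicClosure ℚ →+* AlgebraicClosure ℚ)) := by
  letI := padicUniformSpace q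
  have h2 : UniformContinuous ((↑) : PadicAlgCl q → ℂ_[q]) :=
    UniformSpace.Completion.uniformContinuous_coe _
  have h1 : UniformContinuous (fun x : AlgebraicClosure ℚ => padicEmbedding q (σ x)) := by
    have hU : uniformity (AlgebraicClosure ℚ)
        = Filter.comap (Prod.map (padicEmbedding q) (padicEmbedding q))
          (uniformity (PadicAlgCl q)) := rfl
    rw [UniformContinuous, hU]
    rw [(Metric.uniformity_basis_dist.comap _).tendsto_iff Metric.uniformity_basis_dist]
    intro ε hε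
    refine ⟨ε, hε, ?_⟩
    rintro ⟨a, b⟩ hab
    simp only [Set.mem_preimage, Prod.map_apply, Set.mem_ofPred_eq] at hab ⊢
    rw [dist_eq_norm] at hab ⊢
    rw [← map_sub, ← map_sub, norm_padicEmbedding_of_mem_decomposition q hσ, map_sub]
    exact hab
  exact h2.comp h1

variable {q} in
/-- The continuous extension of `ι ∘ σ ∘ ι⁻¹` to `ℂ_q`. -/
noncomputable def extendToPadicComplex
    {σ : AlgebraicClosure ℚ ≃ₐ[ℚ] AlgebraicClosure ℚ}
    (hσ : σ ∈ (padicPlace q).decompositionSubgroup ℚ) : ℂ_[q] →+* ℂ_[q] :=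
  letI := padicUniformSpace q
  IsDenseInducing.extendRingHom (i := toPadicComplex q)
    (f := (toPadicComplex q).comp (σ : AlgebraicClosure ℚ →+* AlgebraicClosure ℚ))
    (isUniformInducing_toPadicComplex q) (denseRange_toPadicComplex q)
    (uniformContinuous_toPadicComplex_comp hσ)

variable {q} in
theorem extendToPadicComplex_apply
    {σ : AlgebraicClosure ℚ ≃ₐ[ℚ] AlgebraicClosure ℚ}
    (hσ : σ ∈ (padicPlace q).decompositionSubgroup ℚ) (x : AlgebraicClosure ℚ) :
    extendToPadicComplex hσ (toPadicComplex q x) = toPadicComplex q (σ x) := by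
  letI := padicUniformSpace q
  exact IsDenseInducing.extend_eq
    ((isUniformInducing_toPadicComplex q).isDenseInducing (denseRange_toPadicComplex q))
    (uniformContinuous_toPadicComplex_comp hσ).continuous x

variable {q} in
theorem continuous_extendToPadicComplex
    {σ : AlgebraicClosure ℚ ≃ₐ[ℚ] AlgebraicClosure ℚ}
    (hσ : σ ∈ (padicPlace q).decompositionSubgroup ℚ) :
    Continuous (extendToPadicComplex hσ) := by
  letI := padicUniformSpace q
  exact (uniformContinuous_uniformly_extend (isUniformInducing_toPadicComplex q)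
    (denseRange_toPadicComplex q) (uniformContinuous_toPadicComplex_comp hσ)).continuous

/-- The ring hom `ℚ_q → ℂ_q`. -/
noncomputable def padicToComplex : ℚ_[q] →+* ℂ_[q] :=
  (UniformSpace.Completion.coeRingHom : PadicAlgCl q →+* ℂ_[q]).comp
    (algebraMap ℚ_[q] (PadicAlgCl q))

theorem continuous_padicToComplex : Continuous (padicToComplex q) := by
  have h1 : Continuous (algebraMap ℚ_[q] (PadicAlgCl q)) := by
    have hiso : Isometry (algebraMap ℚ_[q] (PadicAlgCl q)) := by
      refine AddMonoidHomClass.isometry_of_norm _ fun x => ?_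
      exact PadicAlgCl.norm_extends q x
    exact hiso.continuous
  exact (UniformSpace.Completion.continuous_coe _).comp h1

variable {q} in
/-- The extension fixes `ℚ_q`. -/
theorem extendToPadicComplex_padicToComplex
    {σ : AlgebraicClosure ℚ ≃ₐ[ℚ] AlgebraicClosure ℚ}
    (hσ : σ ∈ (padicPlace q).decompositionSubgroup ℚ) (c : ℚ_[q]) :
    extendToPadicComplex hσ (padicToComplex q c) = padicToComplex q c := by
  have hd : DenseRange ((↑) : ℚ → ℚ_[q]) := Padic.denseRange_ratCast q
  have hcont1 : Continuous fun c : ℚ_[q] => extendToPadicComplex hσ (padicToComplex q c) :=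
    (continuous_extendToPadicComplex hσ).comp (continuous_padicToComplex q)
  have heq : (fun c : ℚ_[q] => extendToPadicComplex hσ (padicToComplex q c))
      = fun c => padicToComplex q c := by
    refine hd.equalizer hcont1 (continuous_padicToComplex q) ?_
    funext r
    simp only [Function.comp_apply, map_ratCast]
  exact congrFun heq c

/-- Elements of `ℂ_q` algebraic over `ℚ_q` lie in `ℚ̄_q`. -/
theorem mem_range_coe_of_root (m : Polynomial ℚ_[q]) (hm : m ≠ 0) (z : ℂ_[q])
    (hz : m.eval₂ (padicToComplex q) z = 0) : ∃ y : PadicAlgCl q, (y : ℂ_[q]) = z := by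
  have hsplit : (m.map (algebraMap ℚ_[q] (PadicAlgCl q))).Splits := IsAlgClosed.splits _
  have hmap : (m.map (algebraMap ℚ_[q] (PadicAlgCl q))).map
      (UniformSpace.Completion.coeRingHom : PadicAlgCl q →+* ℂ_[q])
      = m.map (padicToComplex q) := by
    rw [Polynomial.map_map]
    rfl
  have hroot : z ∈ (m.map (padicToComplex q)).roots := by
    rw [Polynomial.mem_roots (Polynomial.map_ne_zero hm), Polynomial.IsRoot.def,
      Polynomial.eval_map]
    exact hz
  rw [← hmap, hsplit.roots_map, Multiset.mem_map] at hroot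
  obtain ⟨y, -, hy⟩ := hroot
  exact ⟨y, hy⟩

variable {q} in
theorem exists_eq_extendToPadicComplex
    {σ : AlgebraicClosure ℚ ≃ₐ[ℚ] AlgebraicClosure ℚ}
    (hσ : σ ∈ (padicPlace q).decompositionSubgroup ℚ) (y : PadicAlgCl q) :
    ∃ z : PadicAlgCl q, (z : ℂ_[q]) = extendToPadicComplex hσ (y : ℂ_[q]) := by
  have hyint : IsIntegral ℚ_[q] y := Algebra.IsIntegral.isIntegral y
  apply mem_range_coe_of_root q (minpoly ℚ_[q] y) (minpoly.ne_zero hyint)
  have h0 : (minpoly ℚ_[q] y).eval₂ (padicToComplex q) (y : ℂ_[q]) = 0 := by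
    have h1 : (minpoly ℚ_[q] y).eval₂ (algebraMap ℚ_[q] (PadicAlgCl q)) y = 0 := by
      have := minpoly.aeval ℚ_[q] y
      rwa [Polynomial.aeval_def] at this
    have h2 := congrArg (UniformSpace.Completion.coeRingHom : PadicAlgCl q →+* ℂ_[q]) h1
    rw [Polynomial.hom_eval₂, map_zero] at h2
    exact h2
  have h3 := congrArg (extendToPadicComplex hσ) h0
  rw [Polynomial.hom_eval₂, map_zero] at h3
  have hcomp : (extendToPadicComplex hσ).comp (padicToComplex q) = padicToComplex q :=
    RingHom.ext (extendToPadicComplex_padicToComplex hσ)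
  rw [hcomp] at h3
  exact h3

variable {q} in
/-- The lift of `σ ∈ D_A` as a function `ℚ̄_q → ℚ̄_q`. -/
noncomputable def liftFun
    {σ : AlgebraicClosure ℚ ≃ₐ[ℚ] AlgebraicClosure ℚ}
    (hσ : σ ∈ (padicPlace q).decompositionSubgroup ℚ) (y : PadicAlgCl q) : PadicAlgCl q :=
  (exists_eq_extendToPadicComplex hσ y).choose

variable {q} in
theorem coe_liftFun
    {σ : AlgebraicClosure ℚ ≃ₐ[ℚ] AlgebraicClosure ℚ}
    (hσ : σ ∈ (padicPlace q).decompositionSubgroup ℚ) (y : PadicAlgCl q) :
    ((liftFun hσ y : PadicAlgCl q) : ℂ_[q]) = extendToPadicComplex hσ (y : ℂ_[q]) :=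
  (exists_eq_extendToPadicComplex hσ y).choose_spec

theorem coe_padicAlgCl_injective :
    Function.Injective ((↑) : PadicAlgCl q → ℂ_[q]) :=
  UniformSpace.Completion.coe_injective _

variable {q} in
/-- The lift of `σ ∈ D_A` as a `ℚ_q`-algebra endomorphism of `ℚ̄_q`. -/
noncomputable def liftAlgHom
    {σ : AlgebraicClosure ℚ ≃ₐ[ℚ] AlgebraicClosure ℚ}
    (hσ : σ ∈ (padicPlace q).decompositionSubgroup ℚ) : PadicAlgCl q →ₐ[ℚ_[q]] PadicAlgCl q where
  toFun := liftFun hσ
  map_one' := by
    apply coe_padicAlgCl_injective q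
    rw [coe_liftFun, UniformSpace.Completion.coe_one, map_one]
  map_mul' x y := by
    apply coe_padicAlgCl_injective q
    rw [coe_liftFun, UniformSpace.Completion.coe_mul, UniformSpace.Completion.coe_mul, map_mul,
      coe_liftFun, coe_liftFun]
  map_zero' := by
    apply coe_padicAlgCl_injective q
    rw [coe_liftFun, UniformSpace.Completion.coe_zero, map_zero]
  map_add' x y := by
    apply coe_padicAlgCl_injective q
    rw [coe_liftFun, UniformSpace.Completion.coe_add, UniformSpace.Completion.coe_add, map_add,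
      coe_liftFun, coe_liftFun]
  commutes' c := by
    apply coe_padicAlgCl_injective q
    rw [coe_liftFun]
    exact extendToPadicComplex_padicToComplex hσ c

variable {q} in
theorem liftAlgHom_padicEmbedding
    {σ : AlgebraicClosure ℚ ≃ₐ[ℚ] AlgebraicClosure ℚ}
    (hσ : σ ∈ (padicPlace q).decompositionSubgroup ℚ) (x : AlgebraicClosure ℚ) :
    liftAlgHom hσ (padicEmbedding q x) = padicEmbedding q (σ x) := by
  apply coe_padicAlgCl_injective q
  show ((liftFun hσ (padicEmbedding q x) : PadicAlgCl q) : ℂ_[q]) = _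
  rw [coe_liftFun]
  exact extendToPadicComplex_apply hσ x

variable {q} in
/-- The lift of `σ ∈ D_A` to `Gal(ℚ̄_q/ℚ_q)`. -/
noncomputable def liftAlgEquiv
    {σ : AlgebraicClosure ℚ ≃ₐ[ℚ] AlgebraicClosure ℚ}
    (hσ : σ ∈ (padicPlace q).decompositionSubgroup ℚ) : PadicAlgCl q ≃ₐ[ℚ_[q]] PadicAlgCl q :=
  AlgEquiv.ofBijective (liftAlgHom hσ) (Algebra.IsAlgebraic.algHom_bijective (liftAlgHom hσ))

variable {q} in
theorem localGaloisToGlobal_liftAlgEquiv
    {σ : AlgebraicClosure ℚ ≃ₐ[ℚ] AlgebraicClosure ℚ}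
    (hσ : σ ∈ (padicPlace q).decompositionSubgroup ℚ) :
    localGaloisToGlobal q (liftAlgEquiv hσ) = σ := by
  apply AlgEquiv.ext
  intro x
  have hinj : Function.Injective (padicEmbedding q) := (padicEmbedding q).injective
  apply hinj
  rw [padicEmbedding_localGaloisToGlobal]
  exact liftAlgHom_padicEmbedding hσ x

end Extend

/-- **B9.** The image of `Gal(ℚ̄_q/ℚ_q) → Gal(ℚ̄/ℚ)` is exactly the decomposition group of the
place `padicPlace q` of `ℚ̄`. -/
theorem range_localGaloisToGlobal :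
    (localGaloisToGlobal q).range = (padicPlace q).decompositionSubgroup ℚ := by
  apply le_antisymm
  · rintro _ ⟨τ, rfl⟩
    exact localGaloisToGlobal_mem_decompositionSubgroup q τ
  · intro σ hσ
    exact ⟨liftAlgEquiv hσ, localGaloisToGlobal_liftAlgEquiv hσ⟩

/-- Same for `primeLocalToGlobal`. -/
theorem range_primeLocalToGlobal (q : Nat.Primes) :
    (ExtCitation.primeLocalToGlobal q).range
      = (ExtCitation.primeLocalPlace q).decompositionSubgroup ℚ := by
  letI : Fact (q : ℕ).Prime := ⟨q.2⟩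
  exact range_localGaloisToGlobal (q : ℕ)

end Fermat.Agent.S55.Bridge

end
-- ===== PACK-END S55/Bridge/DecompLift.lean

-- ===== PACK-BEGIN S56/H176/FLDBasis.lean
section



/-!
# S56 / FL-D, part 2: a totally ramified extension of DVRs is generated by a uniformiser

`A ⊂ B` discrete valuation rings, `K = Frac A`, `L ⊇ K` finite of degree `n`, `B` the integral
closure of `A` in `L`, and `v_B(a) = n · v_A(a)` for `a ∈ A` (total ramification).  For a
uniformiser `ϖ` of `B`:

* `FLD_natDegree_minpoly`  : `deg (minpoly A ϖ) = n`;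
* `FLD_adjoin_field_eq_top`: `K[ϖ] = L`;
* `FLD_exists_comb`        : every `x ∈ B` is `∑_{j<n} b_j ϖ^j` with `b_j ∈ A`;
* `FLD_adjoin_eq_top`      : `A[ϖ] = B`.
-/

set_option autoImplicit false

namespace Fermat.Agent.S56.H176

open IsDiscreteValuationRing Polynomial

section Basis

variable {A : Type*} [CommRing A] [IsDomain A] [IsDiscreteValuationRing A]
  {B : Type*} [CommRing B] [IsDomain B] [IsDiscreteValuationRing B] [Algebra A B]

omit [IsDomain A] [IsDiscreteValuationRing A] [IsDomain B] [IsDiscreteValuationRing B] in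
/-- `aeval` as a sum over `range n`. -/
theorem FLD_aeval_eq_sum {n : ℕ} (q : A[X]) (hq : q.natDegree < n) (x : B) :
    aeval x q = ∑ i ∈ Finset.range n, algebraMap A B (q.coeff i) * x ^ i := by
  rw [aeval_eq_sum_range' hq]
  simp [Algebra.smul_def]

/-- A nonzero polynomial over `A` killing a uniformiser of `B` has degree at least `n`. -/
theorem FLD_le_natDegree_of_aeval_eq_zero {n : ℕ}
    (hram : ∀ a : A, addVal B (algebraMap A B a) = n • addVal A a)
    {ϖ : B} (hϖ : addVal B ϖ = 1) (q : A[X]) (hq0 : q ≠ 0) (h : aeval ϖ q = 0) :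
    n ≤ q.natDegree := by
  by_contra hlt
  rw [not_le] at hlt
  rw [FLD_aeval_eq_sum q hlt] at h
  have := FLD_coeff_eq_zero hram hϖ (fun i => q.coeff i) h hlt
  exact hq0 (leadingCoeff_eq_zero.mp this)

end Basis

section Field

variable (A K : Type*) [CommRing A] [IsDomain A] [IsDiscreteValuationRing A]
  [Field K] [Algebra A K] [IsFractionRing A K]
  (L : Type*) [Field L] [Algebra K L] [FiniteDimensional K L]
  [Algebra A L] [IsScalarTower A K L]
  (B : Type*) [CommRing B] [IsDomain B] [IsDiscreteValuationRing B] [Algebra B L]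
  [IsIntegralClosure B A L] [Algebra A B] [IsScalarTower A B L]

include K L in
/-- The minimal polynomial of a uniformiser has degree `[L : K]`. -/
theorem FLD_natDegree_minpoly
    (hram : ∀ a : A, addVal B (algebraMap A B a) = (Module.finrank K L) • addVal A a)
    {ϖ : B} (hϖ : addVal B ϖ = 1) :
    (minpoly A ϖ).natDegree = Module.finrank K L := by
  have hint : IsIntegral A ϖ := IsIntegralClosure.isIntegral A L ϖ
  apply le_antisymm
  · have h1 : minpoly K (algebraMap B L ϖ) = (minpoly A ϖ).map (algebraMap A K) :=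
      minpoly.isIntegrallyClosed_eq_field_fractions K L hint
    have h2 : ((minpoly A ϖ).map (algebraMap A K)).natDegree = (minpoly A ϖ).natDegree :=
      (minpoly.monic hint).natDegree_map _
    rw [← h2, ← h1]
    exact minpoly.natDegree_le _
  · exact FLD_le_natDegree_of_aeval_eq_zero hram hϖ _ (minpoly.ne_zero hint) (minpoly.aeval A ϖ)

include A in
/-- A uniformiser generates `L` over `K`. -/
theorem FLD_adjoin_field_eq_top
    (hram : ∀ a : A, addVal B (algebraMap A B a) = (Module.finrank K L) • addVal A a)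
    {ϖ : B} (hϖ : addVal B ϖ = 1) :
    Algebra.adjoin K {algebraMap B L ϖ} = ⊤ := by
  have hint : IsIntegral A ϖ := IsIntegralClosure.isIntegral A L ϖ
  have hintK : IsIntegral K (algebraMap B L ϖ) := Algebra.IsIntegral.isIntegral _
  have h1 : minpoly K (algebraMap B L ϖ) = (minpoly A ϖ).map (algebraMap A K) :=
    minpoly.isIntegrallyClosed_eq_field_fractions K L hint
  have h2 : (minpoly K (algebraMap B L ϖ)).natDegree = Module.finrank K L := by
    rw [h1, (minpoly.monic hint).natDegree_map, FLD_natDegree_minpoly A K L B hram hϖ]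
  have h3 := (Field.primitive_element_iff_minpoly_natDegree_eq K (algebraMap B L ϖ)).mpr h2
  rw [← IntermediateField.adjoin_simple_toSubalgebra_of_isAlgebraic hintK.isAlgebraic, h3]
  rfl

include K L in
/-- Every element of `B` is an `A`-polynomial of degree `< n` in a uniformiser. -/
theorem FLD_exists_comb
    (hram : ∀ a : A, addVal B (algebraMap A B a) = (Module.finrank K L) • addVal A a)
    {ϖ : B} (hϖ : addVal B ϖ = 1) (x : B) :
    ∃ r : A[X], r.natDegree < Module.finrank K L ∧ aeval ϖ r = x := by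
  classical
  set n := Module.finrank K L with hn
  have hnpos : 0 < n := Module.finrank_pos
  have hint : IsIntegral A ϖ := IsIntegralClosure.isIntegral A L ϖ
  have hinj : Function.Injective (algebraMap B L) := IsIntegralClosure.algebraMap_injective B A L
  have hinjA : Function.Injective (algebraMap A B) := by
    intro a b hab
    have h1 : addVal B (algebraMap A B (a - b)) = ⊤ := by
      rw [map_sub, hab, sub_self, addVal_zero]
    rw [hram] at h1
    have h2 : addVal A (a - b) = ⊤ := by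
      by_contra hne
      obtain ⟨t, ht⟩ := ENat.ne_top_iff_exists.mp hne
      rw [← ht] at h1
      have : ((n * t : ℕ) : ℕ∞) ≠ ⊤ := ENat.natCast_ne_top _
      apply this
      simpa using h1
    exact sub_eq_zero.mp (addVal_eq_top_iff.mp h2)
  -- step 1: a `K`-polynomial
  have htop := FLD_adjoin_field_eq_top A K L B hram hϖ
  have hx : algebraMap B L x ∈ Algebra.adjoin K {algebraMap B L ϖ} := by
    rw [htop]; exact Algebra.mem_top
  rw [Algebra.adjoin_singleton_eq_range_aeval] at hx
  obtain ⟨q0, hq0⟩ := hx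
  -- step 2: reduce the degree
  have h1 : minpoly K (algebraMap B L ϖ) = (minpoly A ϖ).map (algebraMap A K) :=
    minpoly.isIntegrallyClosed_eq_field_fractions K L hint
  have hintK : IsIntegral K (algebraMap B L ϖ) := Algebra.IsIntegral.isIntegral _
  have hmon : (minpoly K (algebraMap B L ϖ)).Monic := minpoly.monic hintK
  have hdeg : (minpoly K (algebraMap B L ϖ)).natDegree = n := by
    rw [h1, (minpoly.monic hint).natDegree_map, FLD_natDegree_minpoly A K L B hram hϖ]
  have hne1 : minpoly K (algebraMap B L ϖ) ≠ 1 := by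
    intro h
    rw [h, natDegree_one] at hdeg
    omega
  set q1 := q0 %ₘ minpoly K (algebraMap B L ϖ) with hq1
  have hq1deg : q1.natDegree < n := by
    rw [← hdeg]
    exact natDegree_modByMonic_lt q0 hmon hne1
  have hq1ev : aeval (algebraMap B L ϖ) q1 = algebraMap B L x := by
    rw [hq1, aeval_modByMonic_eq_self_of_root (minpoly.aeval K _)]
    exact hq0
  -- step 3: clear denominators
  obtain ⟨d, hd, hr⟩ := IsLocalization.integerNormalization_spec (nonZeroDivisors A) q1
  set r := IsLocalization.integerNormalization (nonZeroDivisors A) q1 with hrdef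
  have hd0 : d ≠ 0 := nonZeroDivisors.ne_zero hd
  have hrdeg : r.natDegree < n := by
    refine lt_of_le_of_lt ?_ hq1deg
    rw [natDegree_le_iff_coeff_eq_zero]
    intro N hN
    have hsupp := IsLocalization.integerNormalization_support (nonZeroDivisors A) q1
    by_contra hne
    have : N ∈ q1.support := hsupp (mem_support_iff.mpr hne)
    exact (mem_support_iff.mp this) (coeff_eq_zero_of_natDegree_lt hN)
  -- step 4: `aeval ϖ r = d • x`
  have hrx : aeval ϖ r = algebraMap A B d * x := by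
    apply hinj
    rw [map_mul, ← hq1ev, ← aeval_algebraMap_apply, ← aeval_map_algebraMap K, hr,
      ← IsScalarTower.algebraMap_apply, IsScalarTower.algebraMap_apply A K L,
      Algebra.smul_def, map_mul]
    congr 1
    simp
  -- step 5: all coefficients of `r` are divisible by `d`
  have hdvd : ∀ i, d ∣ r.coeff i := by
    intro i
    by_cases hi : i < n
    · rw [← addVal_le_iff_dvd]
      have h2 := FLD_addVal_sum_le hram hϖ (fun j => r.coeff j) hi
      rw [← FLD_aeval_eq_sum r hrdeg ϖ, hrx, addVal_mul, hram] at h2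
      have hdv : addVal A d ≠ ⊤ := fun h => hd0 (addVal_eq_top_iff.mp h)
      obtain ⟨m, hm⟩ := ENat.ne_top_iff_exists.mp hdv
      by_cases hc : addVal A (r.coeff i) = ⊤
      · rw [hc]; exact le_top
      obtain ⟨t, ht⟩ := ENat.ne_top_iff_exists.mp hc
      rw [← hm, ← ht] at h2 ⊢
      have h3 : ((n * m : ℕ) : ℕ∞) ≤ ((n * t + i : ℕ) : ℕ∞) := by
        refine le_trans ?_ (le_trans h2 ?_)
        · have : ((n * m : ℕ) : ℕ∞) = n • (m : ℕ∞) := by simp
          rw [this]
          exact le_self_add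
        · have : ((n * t + i : ℕ) : ℕ∞) = n • (t : ℕ∞) + (i : ℕ∞) := by simp
          rw [this]
      have h4 : n * m ≤ n * t + i := by exact_mod_cast h3
      have h5 : m ≤ t := by
        by_contra hlt
        rw [not_le] at hlt
        have : n * (t + 1) ≤ n * m := Nat.mul_le_mul_left n hlt
        nlinarith
      exact_mod_cast h5
    · rw [coeff_eq_zero_of_natDegree_lt (lt_of_lt_of_le hrdeg (not_lt.mp hi))]
      exact dvd_zero d
  obtain ⟨r', hr'⟩ := (C_dvd_iff_dvd_coeff d r).mpr hdvd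
  refine ⟨r', ?_, ?_⟩
  · rw [← natDegree_C_mul (p := r') hd0, ← hr']
    exact hrdeg
  · have hdB : algebraMap A B d ≠ 0 := fun h => hd0 (hinjA (by rw [h, map_zero]))
    apply mul_left_cancel₀ hdB
    rw [← hrx, hr', map_mul, aeval_C]

include K L in
/-- A uniformiser generates `B` as an `A`-algebra. -/
theorem FLD_adjoin_eq_top
    (hram : ∀ a : A, addVal B (algebraMap A B a) = (Module.finrank K L) • addVal A a)
    {ϖ : B} (hϖ : addVal B ϖ = 1) :
    Algebra.adjoin A {ϖ} = ⊤ := by
  rw [eq_top_iff]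
  intro x _
  obtain ⟨r, -, hr⟩ := FLD_exists_comb A K L B hram hϖ x
  rw [← hr]
  exact aeval_mem_adjoin_singleton A ϖ

end Field

end Fermat.Agent.S56.H176

end
-- ===== PACK-END S56/H176/FLDBasis.lean

-- ===== PACK-BEGIN S28/H865Dvr.lean
section
/-
S28 helper (helper865): `ℤ_(ℓ) = GaloisRep.ratLocalizedAt ℓ` is a discrete valuation ring with
uniformiser `ℓ`; in particular it is integrally closed and `ℓ` is a prime element.
-/



set_option autoImplicit false

noncomputable section

namespace Fermat.Agent.S28.H865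

variable (ℓ : ℕ) [Fact ℓ.Prime]

theorem span_natCast_eq_ker_resZl :
    Ideal.span {((ℓ : ℕ) : ↥(GaloisRep.ratLocalizedAt ℓ))} = RingHom.ker (resZl ℓ) := by
  ext x
  rw [RingHom.mem_ker, resZl_eq_zero_iff, Ideal.mem_span_singleton']
  constructor
  · rintro ⟨a, rfl⟩
    exact ⟨a, mul_comm _ _⟩
  · rintro ⟨y, rfl⟩
    exact ⟨y, mul_comm _ _⟩

/-- `ℓ` is a prime element of `ℤ_(ℓ)`. -/
theorem prime_natCast_ratLocalizedAt : Prime ((ℓ : ℕ) : ↥(GaloisRep.ratLocalizedAt ℓ)) := by
  rw [← Ideal.span_singleton_prime (natCast_ne_zero_ratLocalizedAt ℓ), span_natCast_eq_ker_resZl]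
  exact RingHom.ker_isPrime _

/-- Elements of `ℤ_(ℓ)` with nonzero residue are units. -/
theorem isUnit_of_resZl_ne_zero {u : ↥(GaloisRep.ratLocalizedAt ℓ)} (hu : resZl ℓ u ≠ 0) :
    IsUnit u := by
  have hu0 : u.1 ≠ 0 := by
    intro h
    apply hu
    rw [show u = 0 from Subtype.ext h, map_zero]
  have hnum : ((u.1.num : ℤ) : ZMod ℓ) ≠ 0 := by
    intro h
    apply hu
    rw [resZl_apply, Rat.cast_def, h, zero_div]
  have hmem : (u.1)⁻¹ ∈ GaloisRep.ratLocalizedAt ℓ := by
    show ((u.1)⁻¹).den.Coprime ℓ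
    rw [Rat.den_inv_of_ne_zero hu0]
    rw [Nat.coprime_comm, Nat.Prime.coprime_iff_not_dvd (Fact.out : ℓ.Prime)]
    intro hdvd
    apply hnum
    rw [ZMod.intCast_zmod_eq_zero_iff_dvd]
    exact Int.natCast_dvd.mpr hdvd
  exact IsUnit.of_mul_eq_one ⟨(u.1)⁻¹, hmem⟩ (Subtype.ext (mul_inv_cancel₀ hu0))

/-- Every nonzero element of `ℤ_(ℓ)` is a unit times a power of `ℓ`. -/
theorem exists_eq_pow_mul_unit (x : ↥(GaloisRep.ratLocalizedAt ℓ)) (hx : x ≠ 0) :
    ∃ (n : ℕ) (u : ↥(GaloisRep.ratLocalizedAt ℓ)),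
      x = ((ℓ : ℕ) : ↥(GaloisRep.ratLocalizedAt ℓ)) ^ n * u ∧ IsUnit u := by
  classical
  by_contra hcon
  push Not at hcon
  have hall : ∀ n : ℕ, ∃ s : ↥(GaloisRep.ratLocalizedAt ℓ),
      x = ((ℓ : ℕ) : ↥(GaloisRep.ratLocalizedAt ℓ)) ^ n * s := by
    intro n
    induction n with
    | zero => exact ⟨x, by simp⟩
    | succ n ih =>
      obtain ⟨s, hs⟩ := ih
      have hres : resZl ℓ s = 0 := by
        by_contra h
        exact hcon n s hs (isUnit_of_resZl_ne_zero ℓ h)
      obtain ⟨s', hs'⟩ := (resZl_eq_zero_iff ℓ s).mp hres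
      exact ⟨s', by rw [hs, hs']; ring⟩
  obtain ⟨n, hn⟩ := exists_not_pow_dvd ℓ x hx
  exact hn (hall n)

instance isDiscreteValuationRing_ratLocalizedAt :
    IsDiscreteValuationRing ↥(GaloisRep.ratLocalizedAt ℓ) :=
  IsDiscreteValuationRing.ofHasUnitMulPowIrreducibleFactorization
    ⟨((ℓ : ℕ) : ↥(GaloisRep.ratLocalizedAt ℓ)), (prime_natCast_ratLocalizedAt ℓ).irreducible,
      fun {x} hx => by
        obtain ⟨n, u, hxu, hu⟩ := exists_eq_pow_mul_unit ℓ x hx
        refine ⟨n, ?_⟩
        rw [hxu]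
        exact ⟨hu.unit, by simp⟩⟩

theorem isIntegrallyClosed_ratLocalizedAt :
    IsIntegrallyClosed ↥(GaloisRep.ratLocalizedAt ℓ) := inferInstance

theorem isIntegrallyClosed_polynomial_ratLocalizedAt :
    IsIntegrallyClosed (Polynomial ↥(GaloisRep.ratLocalizedAt ℓ)) := inferInstance

theorem prime_C_natCast :
    Prime (Polynomial.C ((ℓ : ℕ) : ↥(GaloisRep.ratLocalizedAt ℓ))) :=
  Polynomial.prime_C_iff.mpr (prime_natCast_ratLocalizedAt ℓ)

end Fermat.Agent.S28.H865

end
end
-- ===== PACK-END S28/H865Dvr.lean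

-- ===== PACK-BEGIN S56/H334/RamIdx.lean
section


/-!
# S56 / W-FLAT-SS, piece FL-RAM (helper334), part 7: the ramification index of DVRs

`R ⊆ S` discrete valuation rings (`algebraMap R S` injective and local).

* `exists_map_maximalIdeal_eq_pow` : `𝔪_R S = 𝔪_S ^ e` for some `e ≥ 1`.
* `mem_maximalIdeal_pow_iff_of_map_eq` : `x ∈ 𝔪_R ^ k ↔ x ∈ 𝔪_S ^ (e k)`.
* `map_maximalIdeal_pow_of_map_eq` : `(𝔪_R ^ k) S = 𝔪_S ^ (e k)`.
* `maximalIdeal_pow_injective` : `𝔪_S ^ a = 𝔪_S ^ b → a = b`.
* `card_ramGroup_zero_eq` : if `Γ` is a finite Galois group of `S/R` and the residue field of `R`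
  is finite, then `|Γ₀| = e`.
-/

set_option autoImplicit false
set_option linter.unusedSectionVars false

open IsLocalRing

namespace Fermat.Agent.S56.H334

section PowInj

variable {S : Type*} [CommRing S] [IsDomain S] [IsDiscreteValuationRing S]

theorem maximalIdeal_pow_injective {a b : ℕ} (h : maximalIdeal S ^ a = maximalIdeal S ^ b) :
    a = b := by
  obtain ⟨ϖ, hϖ⟩ := IsDiscreteValuationRing.exists_irreducible S
  rw [hϖ.maximalIdeal_eq, Ideal.span_singleton_pow, Ideal.span_singleton_pow,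
    Ideal.span_singleton_eq_span_singleton] at h
  obtain ⟨u, hu⟩ := h
  exact IsDiscreteValuationRing.unit_mul_pow_congr_pow hϖ hϖ u 1 a b (by
    rw [Units.val_one, one_mul, mul_comm]; exact hu)

theorem maximalIdeal_pow_le_iff {a b : ℕ} : maximalIdeal S ^ a ≤ maximalIdeal S ^ b ↔ b ≤ a := by
  constructor
  · intro h
    by_contra hlt
    push Not at hlt
    have h5 : maximalIdeal S ^ b ≤ maximalIdeal S ^ a := Ideal.pow_le_pow_right hlt.le
    exact absurd (maximalIdeal_pow_injective (le_antisymm h h5)) hlt.ne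
  · exact fun h => Ideal.pow_le_pow_right h

end PowInj

section RamIdx

variable {R : Type*} [CommRing R] [IsDomain R] [IsDiscreteValuationRing R]
variable {S : Type*} [CommRing S] [IsDomain S] [IsDiscreteValuationRing S]
  [Algebra R S] [FaithfulSMul R S] [IsLocalHom (algebraMap R S)]

variable (R S) in
theorem exists_map_maximalIdeal_eq_pow :
    ∃ e : ℕ, 0 < e ∧ Ideal.map (algebraMap R S) (maximalIdeal R) = maximalIdeal S ^ e := by
  obtain ⟨π, hπ⟩ := IsDiscreteValuationRing.exists_irreducible R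
  obtain ⟨ϖ, hϖ⟩ := IsDiscreteValuationRing.exists_irreducible S
  have hπ0 : algebraMap R S π ≠ 0 := by
    rw [Ne, FaithfulSMul.algebraMap_eq_zero_iff]; exact hπ.ne_zero
  obtain ⟨e, he⟩ := IsDiscreteValuationRing.associated_pow_irreducible hπ0 hϖ
  refine ⟨e, ?_, ?_⟩
  · rcases Nat.eq_zero_or_pos e with h0 | h0
    · exfalso
      rw [h0, pow_zero] at he
      have hu : IsUnit (algebraMap R S π) := he.symm.isUnit isUnit_one
      exact hπ.not_isUnit (isUnit_of_map_unit (algebraMap R S) π hu)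
    · exact h0
  · rw [hπ.maximalIdeal_eq, Ideal.map_span, Set.image_singleton, hϖ.maximalIdeal_eq,
      Ideal.span_singleton_pow, Ideal.span_singleton_eq_span_singleton]
    exact he

variable {e : ℕ} (he : Ideal.map (algebraMap R S) (maximalIdeal R) = maximalIdeal S ^ e)

include he in
theorem map_maximalIdeal_pow_of_map_eq (k : ℕ) :
    Ideal.map (algebraMap R S) (maximalIdeal R ^ k) = maximalIdeal S ^ (e * k) := by
  rw [Ideal.map_pow, he, ← pow_mul]

include he in
theorem ramIdx_pos_of_map_eq : 0 < e := by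
  obtain ⟨e', he', h⟩ := exists_map_maximalIdeal_eq_pow R S
  rw [he] at h
  rw [maximalIdeal_pow_injective h]
  exact he'

include he in
theorem map_span_eq_pow_of_span_eq {y : R} {k : ℕ} (hy : Ideal.span {y} = maximalIdeal R ^ k) :
    Ideal.span {algebraMap R S y} = maximalIdeal S ^ (e * k) := by
  rw [← map_maximalIdeal_pow_of_map_eq he, ← hy, Ideal.map_span, Set.image_singleton]

include he in
theorem mem_maximalIdeal_pow_iff_of_map_eq (x : R) (k : ℕ) :
    x ∈ maximalIdeal R ^ k ↔ algebraMap R S x ∈ maximalIdeal S ^ (e * k) := by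
  constructor
  · intro h
    rw [← map_maximalIdeal_pow_of_map_eq he]
    exact Ideal.mem_map_of_mem _ h
  · intro h
    by_cases hx : x = 0
    · rw [hx]; exact Ideal.zero_mem _
    obtain ⟨π, hπ⟩ := IsDiscreteValuationRing.exists_irreducible R
    obtain ⟨j, u, hu⟩ := IsDiscreteValuationRing.eq_unit_mul_pow_irreducible hx hπ
    have hspan : Ideal.span {x} = maximalIdeal R ^ j := by
      rw [hπ.maximalIdeal_eq, Ideal.span_singleton_pow, hu]
      exact Ideal.span_singleton_eq_span_singleton.2 (associated_unit_mul_left _ _ u.isUnit)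
    have h2 := map_span_eq_pow_of_span_eq he hspan
    have h3 : maximalIdeal S ^ (e * j) ≤ maximalIdeal S ^ (e * k) := by
      rw [← h2, Ideal.span_singleton_le_iff_mem]
      exact h
    have h4 : e * k ≤ e * j := maximalIdeal_pow_le_iff.1 h3
    have h6 : k ≤ j := Nat.le_of_mul_le_mul_left h4 (ramIdx_pos_of_map_eq he)
    have : Ideal.span {x} ≤ maximalIdeal R ^ k := by
      rw [hspan]; exact Ideal.pow_le_pow_right h6
    exact this (Ideal.mem_span_singleton_self x)

end RamIdx

section CardInertia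

variable {R : Type*} [CommRing R] [IsDomain R] [IsDiscreteValuationRing R]
variable {S : Type*} [CommRing S] [IsDomain S] [IsDiscreteValuationRing S]
  [Algebra R S] [FaithfulSMul R S] [Module.Finite R S]
  {Γ : Type*} [Group Γ] [Finite Γ] [MulSemiringAction Γ S] [IsGaloisGroup Γ R S]

theorem perfectField_residueField_of_finite [Finite (ResidueField R)] :
    PerfectField (maximalIdeal R).ResidueField := by
  have hbij := Ideal.bijective_algebraMap_quotient_residueField (maximalIdeal R)
  have : Finite (R ⧸ maximalIdeal R) := ‹Finite (ResidueField R)›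
  have : Finite (maximalIdeal R).ResidueField :=
    Finite.of_surjective _ hbij.2
  infer_instance

/-- The order of the inertia group is the ramification index. -/
theorem card_ramGroup_zero_eq [Finite (ResidueField R)] {e : ℕ}
    (he : Ideal.map (algebraMap R S) (maximalIdeal R) = maximalIdeal S ^ e) :
    Nat.card (ramGroup Γ S 0) = e := by
  have := perfectField_residueField_of_finite (R := R)
  have h1 := Ideal.card_inertia_eq_ramificationIdxIn (G := Γ) (maximalIdeal R) (maximalIdeal S)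
  have h2 := Ideal.ramificationIdxIn_eq_ramificationIdx (maximalIdeal R) (maximalIdeal S) Γ
  have hne : maximalIdeal R ≠ ⊥ := IsDiscreteValuationRing.not_a_field R
  have h3 := Ideal.ramificationIdx'_eq_ramificationIdx (maximalIdeal R) (maximalIdeal S) hne
  have h4 : Ideal.ramificationIdx' (maximalIdeal R) (maximalIdeal S) = e := by
    apply Ideal.ramificationIdx'_spec
    · rw [he]
    · rw [he, maximalIdeal_pow_le_iff]; omega
  have h5 : ramGroup Γ S 0 = (maximalIdeal S).inertia Γ := by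
    unfold ramGroup
    rw [zero_add, pow_one]
  rw [h5, h1, h2, ← h3, h4]

end CardInertia

end Fermat.Agent.S56.H334

end
-- ===== PACK-END S56/H334/RamIdx.lean

-- ===== PACK-BEGIN S14/H714/Val.lean
section


/-!
# S14, block LOCAL (helper714): valuation subrings of `ℚ̄` and primes of `ℤ̄`

Dictionary between a valuation subring `A` of `ℚ̄` lying over a prime `ℓ` and the prime
`primeOf A = 𝔪_A ∩ ℤ̄` of the ring `ℤ̄` of all algebraic integers: `A` is the localisation of
`ℤ̄` at `primeOf A`.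
-/

set_option autoImplicit false
set_option linter.style.haveILetI false
set_option linter.unusedSectionVars false
set_option linter.unusedVariables false

namespace Fermat.Agent.S14.H714

open Polynomial
open scoped Pointwise

/-- The ring of all algebraic integers. -/
noncomputable abbrev Zbar := integralClosure ℤ Qb

instance instIsAlgebraicIntQb : Algebra.IsAlgebraic ℤ Qb :=
  (IsFractionRing.comap_isAlgebraic_iff (A := ℤ) (K := ℚ) (C := Qb)).mpr inferInstance

theorem coe_smul_Zbar (σ : G) (x : Zbar) : ((σ • x : Zbar) : Qb) = σ (x : Qb) := rfl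

/-- Algebraic integers lie in every valuation subring. -/
theorem mem_of_isIntegral (A : ValuationSubring Qb) {x : Qb} (hx : IsIntegral ℤ x) : x ∈ A := by
  have h : IsIntegral A x := hx.tower_top
  obtain ⟨y, hy⟩ := (IsIntegrallyClosed.isIntegral_iff (R := A) (K := Qb)).mp h
  rw [← hy]
  exact y.2

theorem coe_mem (A : ValuationSubring Qb) (b : Zbar) : (b : Qb) ∈ A := mem_of_isIntegral A b.2

theorem nonunits_mul_mem (A : ValuationSubring Qb) {m x : Qb} (hm : m ∈ A.nonunits)
    (hx : x ∈ A) : m * x ∈ A.nonunits := by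
  rw [ValuationSubring.mem_nonunits_iff] at hm ⊢
  rw [map_mul]
  have hx' := (A.valuation_le_one_iff x).mpr hx
  exact mul_lt_one_of_lt_of_le hm hx'

theorem inv_mem_of_not_mem_nonunits (A : ValuationSubring Qb) {s : Qb}
    (hs : s ∉ A.nonunits) : s ≠ 0 ∧ s⁻¹ ∈ A := by
  rw [ValuationSubring.mem_nonunits_iff_or] at hs
  push Not at hs
  exact hs

theorem one_not_mem_nonunits (A : ValuationSubring Qb) : (1 : Qb) ∉ A.nonunits := by
  rw [ValuationSubring.mem_nonunits_iff, map_one]
  exact lt_irrefl _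

theorem nonunits_add_mem (A : ValuationSubring Qb) {x y : Qb} (hx : x ∈ A.nonunits)
    (hy : y ∈ A.nonunits) : x + y ∈ A.nonunits := by
  rw [ValuationSubring.mem_nonunits_iff] at hx hy ⊢
  exact A.valuation.map_add_lt hx hy

theorem nonunits_neg_mem (A : ValuationSubring Qb) {x : Qb} (hx : x ∈ A.nonunits) :
    -x ∈ A.nonunits := by
  rw [ValuationSubring.mem_nonunits_iff] at hx ⊢
  rwa [Valuation.map_neg]

theorem nonunits_sub_mem (A : ValuationSubring Qb) {x y : Qb} (hx : x ∈ A.nonunits)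
    (hy : y ∈ A.nonunits) : x - y ∈ A.nonunits := by
  rw [sub_eq_add_neg]
  exact nonunits_add_mem A hx (nonunits_neg_mem A hy)

theorem mem_of_mem_nonunits (A : ValuationSubring Qb) {x : Qb} (hx : x ∈ A.nonunits) : x ∈ A := by
  rw [ValuationSubring.mem_nonunits_iff] at hx
  exact (A.valuation_le_one_iff x).mp hx.le

/-- The inclusion of the ring of algebraic integers into a valuation subring. -/
noncomputable def inclZ (A : ValuationSubring Qb) : Zbar →+* A where
  toFun b := ⟨(b : Qb), coe_mem A b⟩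
  map_one' := rfl
  map_mul' _ _ := rfl
  map_zero' := rfl
  map_add' _ _ := rfl

/-- The prime of `ℤ̄` cut out by the maximal ideal of the valuation subring `A`. -/
noncomputable def primeOf (A : ValuationSubring Qb) : Ideal Zbar :=
  (IsLocalRing.maximalIdeal A).comap (inclZ A)

instance primeOf_isPrime (A : ValuationSubring Qb) : (primeOf A).IsPrime :=
  Ideal.comap_isPrime _ _

theorem mem_primeOf {A : ValuationSubring Qb} {b : Zbar} :
    b ∈ primeOf A ↔ (b : Qb) ∈ A.nonunits := by
  rw [primeOf, Ideal.mem_comap, ← ValuationSubring.coe_mem_nonunits_iff]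
  rfl

/-- Key induction: if `x ∈ A` is a root of a polynomial over `ℤ̄` with some coefficient
outside `primeOf A`, then `x` is a fraction `b / s` with `b, s ∈ ℤ̄` and `s ∉ primeOf A`. -/
theorem exists_fraction_aux (A : ValuationSubring Qb) {x : Qb} (hx : x ∈ A) :
    ∀ (n : ℕ) (p : Zbar[X]), p.natDegree ≤ n → aeval x p = 0 → (∃ i, p.coeff i ∉ primeOf A) →
      ∃ b s : Zbar, s ∉ primeOf A ∧ x * (s : Qb) = (b : Qb) := by
  intro n
  induction n with
  | zero =>
    intro p hp h0 ⟨i, hi⟩
    exfalso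
    rw [eq_C_of_natDegree_le_zero hp, aeval_C] at h0
    have hc : p.coeff 0 = 0 := by
      have : ((p.coeff 0 : Zbar) : Qb) = 0 := h0
      exact Subtype.ext this
    apply hi
    rw [eq_C_of_natDegree_le_zero hp, coeff_C, hc]
    split_ifs <;> exact zero_mem _
  | succ n ih =>
    intro p hp h0 ⟨i, hi⟩
    by_cases hdeg : p.natDegree ≤ n
    · exact ih p hdeg h0 ⟨i, hi⟩
    have hdeg' : p.natDegree = n + 1 := le_antisymm hp (by omega)
    have hint : IsIntegral ℤ (p.leadingCoeff • x) :=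
      isIntegral_trans _ (isIntegral_leadingCoeff_smul p x h0)
    let y : Zbar := ⟨p.leadingCoeff • x, hint⟩
    have hy : (y : Qb) = (p.leadingCoeff : Qb) * x := rfl
    by_cases ha : p.leadingCoeff ∈ primeOf A
    · -- the leading coefficient is in the prime: lower the degree
      have hyQ : y ∈ primeOf A := by
        rw [mem_primeOf, hy]
        exact nonunits_mul_mem A (mem_primeOf.mp ha) hx
      let q : Zbar[X] := p.eraseLead + C y * X ^ n
      have hqdeg : q.natDegree ≤ n := by
        refine (natDegree_add_le _ _).trans (max_le ?_ (natDegree_C_mul_X_pow_le _ _))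
        have := eraseLead_natDegree_le p
        omega
      have hq0 : aeval x q = 0 := by
        have h1 : aeval x p = aeval x p.eraseLead + (p.leadingCoeff : Qb) * x ^ (n + 1) := by
          conv_lhs => rw [← eraseLead_add_C_mul_X_pow p]
          rw [map_add, map_mul, aeval_C, map_pow, aeval_X, hdeg']
          rfl
        have h2 : aeval x q = aeval x p.eraseLead + (y : Qb) * x ^ n := by
          simp only [q]
          rw [map_add, map_mul, aeval_C, map_pow, aeval_X]
          rfl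
        rw [h2, hy]
        rw [h0] at h1
        rw [h1]
        ring
      have hi' : i ≠ n + 1 := by
        rintro rfl
        apply hi
        rw [← hdeg']
        exact ha
      have hqi : q.coeff i ∉ primeOf A := by
        have hc : q.coeff i = p.coeff i + (if i = n then y else 0) := by
          simp only [q]
          rw [coeff_add, eraseLead_coeff_of_ne i (by rw [hdeg']; exact hi'), coeff_C_mul_X_pow]
        rw [hc]
        split_ifs with hin
        · intro h
          apply hi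
          have := sub_mem h hyQ
          simpa using this
        · simpa using hi
      exact ih q hqdeg hq0 ⟨i, hqi⟩
    · exact ⟨y, p.leadingCoeff, ha, by rw [hy, mul_comm]⟩

/-- An integer prime to `ℓ` is a unit in a valuation subring above `ℓ`. -/
theorem intCast_not_mem_nonunits (A : ValuationSubring Qb) {ℓ : ℕ} (hℓ : ℓ.Prime)
    (hA : (ℓ : Qb) ∈ A.nonunits) {n : ℤ} (hn : ¬ (ℓ : ℤ) ∣ n) : (n : Qb) ∉ A.nonunits := by
  intro hmem
  have hcop : IsCoprime (ℓ : ℤ) n := (Nat.prime_iff_prime_int.mp hℓ).coprime_iff_not_dvd.mpr hn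
  obtain ⟨u, v, huv⟩ := hcop
  apply one_not_mem_nonunits A
  have h1 : ((u * (ℓ : ℤ) + v * n : ℤ) : Qb) = 1 := by
    rw [huv]
    simp
  rw [← h1]
  push_cast
  refine nonunits_add_mem A ?_ ?_
  · rw [mul_comm]
    exact nonunits_mul_mem A hA (intCast_mem A u)
  · rw [mul_comm]
    exact nonunits_mul_mem A hmem (intCast_mem A v)

/-- Every element of a valuation subring `A` of `ℚ̄` above `ℓ` is a fraction `b / s` of
algebraic integers with `s` a unit of `A`. -/
theorem exists_fraction (A : ValuationSubring Qb) {ℓ : ℕ} (hℓ : ℓ.Prime)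
    (hA : (ℓ : Qb) ∈ A.nonunits) {x : Qb} (hx : x ∈ A) :
    ∃ b s : Zbar, s ∉ primeOf A ∧ x * (s : Qb) = (b : Qb) := by
  obtain ⟨p, hp0, hp⟩ := Algebra.IsAlgebraic.isAlgebraic (R := ℤ) x
  have hprim := p.isPrimitive_primPart
  have hroot : aeval x p.primPart = 0 := aeval_primPart_eq_zero hp0 hp
  have hex : ∃ i, ¬ ((ℓ : ℤ) ∣ p.primPart.coeff i) := by
    by_contra hcon
    push Not at hcon
    have := hprim (ℓ : ℤ) ((C_dvd_iff_dvd_coeff _ _).mpr hcon)
    exact (Nat.prime_iff_prime_int.mp hℓ).not_isUnit this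
  obtain ⟨i, hi⟩ := hex
  refine exists_fraction_aux A hx _ (p.primPart.map (algebraMap ℤ Zbar)) le_rfl ?_ ⟨i, ?_⟩
  · rw [aeval_map_algebraMap]
    exact hroot
  · rw [coeff_map, mem_primeOf]
    intro hmem
    have hmem' : ((p.primPart.coeff i : ℤ) : Qb) ∈ A.nonunits := by
      simpa using hmem
    exact intCast_not_mem_nonunits A hℓ hA hi hmem'

/-- A ring automorphism mapping units (among algebraic integers) of `A` to units of `A'`
maps `A` into `A'`. -/
theorem map_mem_of_forall (A A' : ValuationSubring Qb) {ℓ : ℕ} (hℓ : ℓ.Prime)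
    (hA : (ℓ : Qb) ∈ A.nonunits) (τ : G)
    (hτ : ∀ s : Zbar, s ∉ primeOf A → τ • s ∉ primeOf A') {x : Qb} (hx : x ∈ A) :
    τ x ∈ A' := by
  obtain ⟨b, s, hs, hxs⟩ := exists_fraction A hℓ hA hx
  have hτs := hτ s hs
  rw [mem_primeOf, coe_smul_Zbar] at hτs
  obtain ⟨hne, hinv⟩ := inv_mem_of_not_mem_nonunits A' hτs
  have h1 : τ x * τ (s : Qb) = τ (b : Qb) := by rw [← map_mul, hxs]
  have h2 : τ x = τ (b : Qb) * (τ (s : Qb))⁻¹ := by
    rw [← h1, mul_assoc, mul_inv_cancel₀ hne, mul_one]
  rw [h2]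
  exact A'.mul_mem _ _ (coe_mem A' (τ • b)) hinv

/-- If `τ` maps the prime of `A'` onto the prime of `A`, it maps `A'` onto `A`. -/
theorem smul_eq_of_primeOf (A A' : ValuationSubring Qb) {ℓ : ℕ} (hℓ : ℓ.Prime)
    (hA : (ℓ : Qb) ∈ A.nonunits) (hA' : (ℓ : Qb) ∈ A'.nonunits) (τ : G)
    (hτ : ∀ s : Zbar, s ∈ primeOf A' ↔ τ • s ∈ primeOf A) : τ • A' = A := by
  apply le_antisymm
  · intro x hx
    rw [ValuationSubring.mem_pointwise_smul_iff_inv_smul_mem] at hx
    have h5 := map_mem_of_forall A' A hℓ hA' τ (fun s hs h => hs ((hτ s).mpr h)) hx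
    have h6 : τ (τ⁻¹ • x) = x := by
      show τ (τ⁻¹ x) = x
      exact τ.apply_symm_apply x
    rwa [h6] at h5
  · intro x hx
    rw [ValuationSubring.mem_pointwise_smul_iff_inv_smul_mem]
    refine map_mem_of_forall A A' hℓ hA τ⁻¹ (fun s hs h => hs ?_) hx
    have := (hτ (τ⁻¹ • s)).mp h
    rwa [smul_inv_smul] at this

/-- Conversely a `τ` mapping `A'` onto `A` maps the prime of `A'` onto the prime of `A`. -/
theorem mem_primeOf_smul_iff {A A' : ValuationSubring Qb} {τ : G} (h : τ • A' = A) (s : Zbar) :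
    s ∈ primeOf A' ↔ τ • s ∈ primeOf A := by
  rw [mem_primeOf, mem_primeOf, coe_smul_Zbar]
  have key : ∀ x : Qb, x ∈ A' ↔ τ x ∈ A := by
    intro x
    rw [← h, ValuationSubring.mem_pointwise_smul_iff_inv_smul_mem]
    have : τ⁻¹ • τ x = x := by
      show τ⁻¹ (τ x) = x
      exact τ.symm_apply_apply x
    rw [this]
  rw [ValuationSubring.mem_nonunits_iff_or, ValuationSubring.mem_nonunits_iff_or, key,
    map_inv₀]
  simp

/-- A valuation subring of `ℚ̄` is either everything, or lies over a prime number. -/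
theorem eq_top_or_liesOver (A : ValuationSubring Qb) :
    A = ⊤ ∨ ∃ ℓ : ℕ, ℓ.Prime ∧ (ℓ : Qb) ∈ A.nonunits := by
  by_cases h : ∃ ℓ : ℕ, ℓ.Prime ∧ (ℓ : Qb) ∈ A.nonunits
  · exact Or.inr h
  left
  push Not at h
  -- every nonzero natural number is a unit of `A`
  have hnat : ∀ n : ℕ, n ≠ 0 → ((n : Qb))⁻¹ ∈ A := by
    intro n
    induction n using Nat.recOnMul with
    | zero => intro h0; exact absurd rfl h0
    | one => intro _; simp
    | prime ℓ hℓ =>
      intro _
      exact (inv_mem_of_not_mem_nonunits A (h ℓ hℓ)).2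
    | mul a b iha ihb =>
      intro hab
      have ha : a ≠ 0 := left_ne_zero_of_mul hab
      have hb : b ≠ 0 := right_ne_zero_of_mul hab
      rw [Nat.cast_mul, mul_inv]
      exact A.mul_mem _ _ (iha ha) (ihb hb)
  have hrat : ∀ q : ℚ, (algebraMap ℚ Qb q) ∈ A := by
    intro q
    have hq : algebraMap ℚ Qb q = (q.num : Qb) * ((q.den : Qb))⁻¹ := by
      conv_lhs => rw [← Rat.num_div_den q]
      rw [map_div₀, div_eq_mul_inv]
      simp
    rw [hq]
    exact A.mul_mem _ _ (intCast_mem A _) (hnat q.den q.den_nz)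
  rw [eq_top_iff]
  intro x _
  -- `x` is integral over `ℚ ⊆ A`
  have hint : IsIntegral ℚ x := Algebra.IsIntegral.isIntegral x
  obtain ⟨P, hP, hroot⟩ := hint
  have h : IsIntegral A x := by
    refine ⟨P.map (RingHom.codRestrict (algebraMap ℚ Qb) A.toSubring hrat), hP.map _, ?_⟩
    rw [eval₂_map]
    have : (A.subtype : A →+* Qb).comp (RingHom.codRestrict (algebraMap ℚ Qb) A.toSubring hrat) =
        algebraMap ℚ Qb := rfl
    have h2 : (algebraMap A Qb) = (A.subtype : A →+* Qb) := rfl
    rw [h2, this]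
    exact hroot
  obtain ⟨y, hy⟩ := (IsIntegrallyClosed.isIntegral_iff (R := A) (K := Qb)).mp h
  rw [← hy]
  exact y.2

end Fermat.Agent.S14.H714

end
-- ===== PACK-END S14/H714/Val.lean

-- ===== PACK-BEGIN S55/Local/Spec.lean
section


/-!
# S55, layer L (local class field theory, cohomological core) : FROZEN INTERFACE

Architect: helper715.  Plan / proofs on paper: `origin/helper715:coord/S55-L.md`.

Every `...Statement : Prop` below is a deliverable.  A piece is DONE when some file proves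
`theorem <name> : Fermat.Agent.S55.Local.<Name>Statement` (sorry-free, std. axioms only).
Glue theorems (in `Glue*.lean`) take the statements as hypotheses.

Conventions: see `Defs.lean`.  BASE `(A, F)`: complete DVR with finite residue field and its
fraction field, characteristic zero.  Local fields `K, L, N`: finite extensions of `F`.
The Galois group `L ≃ₐ[K] L` acts on `Lˣ` by the Mathlib instance (`AlgEquiv.smul_units_def`);
cocycle predicates are Mathlib's `groupCohomology.IsMulCocycle₁/₂`, `IsMulCoboundary₁/₂`,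
`IsCocycle₁/₂`, `IsCoboundary₁/₂`.
-/

set_option autoImplicit false

namespace Fermat.Agent.S55.Local

open groupCohomology

/-! ## Part A : abstract algebra (no number theory) -/

/-- (A1) successive approximation for 1-cocycles along a complete separated `G`-stable
filtration. -/
def FiltH1Statement : Prop :=
  ∀ (G M : Type) [Group G] [CommGroup M] [MulDistribMulAction G M] (Fil : ℕ → Subgroup M),
    (∀ j, Fil (j + 1) ≤ Fil j) → (∀ j (g : G), ∀ x ∈ Fil j, g • x ∈ Fil j) →
    (∀ u : ℕ → M, (∀ j, u j ∈ Fil j) →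
      ∃ s : M, ∀ n, s / ∏ j ∈ Finset.range n, u j ∈ Fil n) →
    (∀ x : M, (∀ j, x ∈ Fil j) → x = 1) →
    (∀ j (c : G → M), IsMulCocycle₁ c → (∀ g, c g ∈ Fil j) →
      ∃ m ∈ Fil j, ∀ g, c g / (g • m / m) ∈ Fil (j + 1)) →
    ∀ c : G → M, IsMulCocycle₁ c → (∀ g, c g ∈ Fil 0) → ∃ m ∈ Fil 0, ∀ g, g • m / m = c g

/-- (A2) successive approximation for 2-cocycles (`G` finite). -/
def FiltH2Statement : Prop :=
  ∀ (G M : Type) [Group G] [Finite G] [CommGroup M] [MulDistribMulAction G M]
    (Fil : ℕ → Subgroup M),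
    (∀ j, Fil (j + 1) ≤ Fil j) → (∀ j (g : G), ∀ x ∈ Fil j, g • x ∈ Fil j) →
    (∀ u : ℕ → M, (∀ j, u j ∈ Fil j) →
      ∃ s : M, ∀ n, s / ∏ j ∈ Finset.range n, u j ∈ Fil n) →
    (∀ x : M, (∀ j, x ∈ Fil j) → x = 1) →
    (∀ j (c : G × G → M), IsMulCocycle₂ c → (∀ p, c p ∈ Fil j) →
      ∃ x : G → M, (∀ g, x g ∈ Fil j) ∧
        ∀ g h, c (g, h) / (g • x h / x (g * h) * x g) ∈ Fil (j + 1)) →
    ∀ c : G × G → M, IsMulCocycle₂ c → (∀ p, c p ∈ Fil 0) →
      ∃ x : G → M, (∀ g, x g ∈ Fil 0) ∧ ∀ g h, g • x h / x (g * h) * x g = c (g, h)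

/-- (A3) successive approximation for `ker f ⊆ im g` (used with `(f, g) = (σ - 1, N)` and
`(N, σ - 1)` for a cyclic group). -/
def FiltKerImStatement : Prop :=
  ∀ (M : Type) [CommGroup M] (f g : M →* M) (Fil : ℕ → Subgroup M),
    (∀ j, Fil (j + 1) ≤ Fil j) → (∀ j, ∀ x ∈ Fil j, g x ∈ Fil j) →
    (∀ u : ℕ → M, (∀ j, u j ∈ Fil j) →
      ∃ s : M, ∀ n, s / ∏ j ∈ Finset.range n, u j ∈ Fil n) →
    (∀ x : M, (∀ j, x ∈ Fil j) → x = 1) →
    (∀ x, f (g x) = 1) →
    (∀ j, ∀ x ∈ Fil j, f x = 1 → ∃ y ∈ Fil j, x / g y ∈ Fil (j + 1)) →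
    ∀ x ∈ Fil 0, f x = 1 → ∃ y ∈ Fil 0, g y = x

/-- (A4a) the standard cyclic 2-cocycle is a 2-cocycle. -/
def CycCocycleIsCocycleStatement : Prop :=
  ∀ (G M : Type) [Group G] [Finite G] [CommGroup M] [MulDistribMulAction G M] (σ : G),
    (∀ g, g ∈ Subgroup.zpowers σ) → ∀ x : M, σ • x = x → IsMulCocycle₂ (cycCocycle σ x)

/-- (A4b) the standard cyclic 2-cocycle of `x` is a coboundary iff `x` is a norm. -/
def CycCocycleCoboundaryIffStatement : Prop :=
  ∀ (G M : Type) [Group G] [Fintype G] [CommGroup M] [MulDistribMulAction G M] (σ : G),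
    (∀ g, g ∈ Subgroup.zpowers σ) → ∀ x : M, σ • x = x →
      (IsMulCoboundary₂ (cycCocycle σ x) ↔ ∃ y : M, ∏ g : G, g • y = x)

/-- (A4c) every 2-cocycle of a finite cyclic group is cohomologous to a standard one. -/
def CycCocycleSurjStatement : Prop :=
  ∀ (G M : Type) [Group G] [Finite G] [CommGroup M] [MulDistribMulAction G M] (σ : G),
    (∀ g, g ∈ Subgroup.zpowers σ) → ∀ c : G × G → M, IsMulCocycle₂ c →
      ∃ x : M, σ • x = x ∧ IsMulCoboundary₂ (fun p => c p / cycCocycle σ x p)

/-- (A4d) functoriality of the standard cocycle under an injective homomorphism of cyclic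
groups `ρ : H → G` with `ρ τ = σ ^ (|G| / |H|)`. -/
def CycCocyclePullbackStatement : Prop :=
  ∀ (G H M : Type) [Group G] [Finite G] [Group H] [Finite H] [CommGroup M] (σ : G) (τ : H)
    (ρ : H →* G),
    (∀ g, g ∈ Subgroup.zpowers σ) → (∀ h, h ∈ Subgroup.zpowers τ) → Function.Injective ρ →
    ρ τ = σ ^ (Nat.card G / Nat.card H) →
    ∀ x : M, ∀ p : H × H, cycCocycle σ x (ρ p.1, ρ p.2) = cycCocycle τ x p

/-! ## Part FF : finite Galois extensions, finite fields (Mathlib only) -/

/-- (FF1a) additive `H¹` of a finite Galois extension vanishes. -/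
def AddH1Statement : Prop :=
  ∀ (k l : Type) [Field k] [Field l] [Algebra k l] [FiniteDimensional k l] [IsGalois k l]
    (c : (l ≃ₐ[k] l) → l), IsCocycle₁ c → IsCoboundary₁ c

/-- (FF1b) additive `H²` of a finite Galois extension vanishes. -/
def AddH2Statement : Prop :=
  ∀ (k l : Type) [Field k] [Field l] [Algebra k l] [FiniteDimensional k l] [IsGalois k l]
    (c : (l ≃ₐ[k] l) × (l ≃ₐ[k] l) → l), IsCocycle₂ c → IsCoboundary₂ c

/-- (FF2) multiplicative `H²` of an extension of finite fields vanishes. -/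
def MulH2FiniteFieldStatement : Prop :=
  ∀ (k l : Type) [Field k] [Finite k] [Field l] [Algebra k l] [FiniteDimensional k l]
    (c : (l ≃ₐ[k] l) × (l ≃ₐ[k] l) → lˣ), IsMulCocycle₂ c → IsMulCoboundary₂ c

/-! ## Part LF : basic structure of local fields -/
/-- (LF1) integers of a local field form a valuation ring. -/
def IntOrInvStatement : Prop :=
  ∀ (A F : Type) [CommRing A] [IsDomain A] [IsDiscreteValuationRing A]
    [IsAdicComplete (IsLocalRing.maximalIdeal A) A] [Finite (IsLocalRing.ResidueField A)]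
    [Field F] [CharZero F] [Algebra A F] [IsFractionRing A F]
    (L : Type) [Field L] [Algebra F L] [FiniteDimensional F L] (x : L),
    IsInt A F L x ∨ IsInt A F L x⁻¹

/-- (LF2) existence of a uniformizer. -/
def ExistsUnifStatement : Prop :=
  ∀ (A F : Type) [CommRing A] [IsDomain A] [IsDiscreteValuationRing A]
    [IsAdicComplete (IsLocalRing.maximalIdeal A) A] [Finite (IsLocalRing.ResidueField A)]
    [Field F] [CharZero F] [Algebra A F] [IsFractionRing A F]
    (L : Type) [Field L] [Algebra F L] [FiniteDimensional F L],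
    ∃ ϖ : Lˣ, IsUnif A F L ϖ

/-- (LF3) `K`-rational integral units: `U_L ∩ Kˣ = U_K`. -/
def IntUnitsComapStatement : Prop :=
  ∀ (A F : Type) [CommRing A] [IsDomain A] [IsDiscreteValuationRing A]
    [IsAdicComplete (IsLocalRing.maximalIdeal A) A] [Finite (IsLocalRing.ResidueField A)]
    [Field F] [CharZero F] [Algebra A F] [IsFractionRing A F]
    (K : Type) [Field K] [Algebra F K] [FiniteDimensional F K]
    (L : Type) [Field L] [Algebra F L] [Algebra K L] [IsScalarTower F K L]
    [FiniteDimensional K L] (y : Kˣ),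
    unitsIncl L K y ∈ intUnits A F L ↔ y ∈ intUnits A F K

/-- (LF4) automorphisms preserve the valuation. -/
def GaloisInvStatement : Prop :=
  ∀ (A F : Type) [CommRing A] [IsDomain A] [IsDiscreteValuationRing A]
    [IsAdicComplete (IsLocalRing.maximalIdeal A) A] [Finite (IsLocalRing.ResidueField A)]
    [Field F] [CharZero F] [Algebra A F] [IsFractionRing A F]
    (K : Type) [Field K] [Algebra F K] [FiniteDimensional F K]
    (L : Type) [Field L] [Algebra F L] [Algebra K L] [IsScalarTower F K L]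
    [FiniteDimensional K L] (σ : L ≃ₐ[K] L) (x : Lˣ),
    σ • x / x ∈ intUnits A F L

/-- (LF5) completeness and separatedness of the unit group for the `ϖ`-adic filtration,
`ϖ` any nonzero integral non-unit of `L`. -/
def UnitsCompleteStatement : Prop :=
  ∀ (A F : Type) [CommRing A] [IsDomain A] [IsDiscreteValuationRing A]
    [IsAdicComplete (IsLocalRing.maximalIdeal A) A] [Finite (IsLocalRing.ResidueField A)]
    [Field F] [CharZero F] [Algebra A F] [IsFractionRing A F]
    (L : Type) [Field L] [Algebra F L] [FiniteDimensional F L] (ϖ : L),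
    IsInt A F L ϖ → ϖ ≠ 0 → ¬ IsInt A F L ϖ⁻¹ →
    (∀ u : ℕ → Lˣ, (∀ j, u j ∈ higherUnits A F L ϖ j) →
      ∃ s : Lˣ, ∀ n, s / ∏ j ∈ Finset.range n, u j ∈ higherUnits A F L ϖ n) ∧
    (∀ x : Lˣ, (∀ j, x ∈ higherUnits A F L ϖ j) → x = 1)

/-- (LF6) higher unit groups have finite index in the unit group. -/
def HigherUnitsFiniteIndexStatement : Prop :=
  ∀ (A F : Type) [CommRing A] [IsDomain A] [IsDiscreteValuationRing A]
    [IsAdicComplete (IsLocalRing.maximalIdeal A) A] [Finite (IsLocalRing.ResidueField A)]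
    [Field F] [CharZero F] [Algebra A F] [IsFractionRing A F]
    (L : Type) [Field L] [Algebra F L] [FiniteDimensional F L] (ϖ : L),
    IsInt A F L ϖ → ϖ ≠ 0 → ∀ j, (higherUnits A F L ϖ j).relIndex (intUnits A F L) ≠ 0

/-- (LF7) valuation of a norm, general form: if `ϖK`, `ϖL` are uniformizers of `K`, `L` then
`N(ϖL) = unit * ϖK ^ f` and `ϖK = unit * ϖL ^ e` with `e * f = [L : K]`. -/
def RamificationStatement : Prop :=
  ∀ (A F : Type) [CommRing A] [IsDomain A] [IsDiscreteValuationRing A]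
    [IsAdicComplete (IsLocalRing.maximalIdeal A) A] [Finite (IsLocalRing.ResidueField A)]
    [Field F] [CharZero F] [Algebra A F] [IsFractionRing A F]
    (K : Type) [Field K] [Algebra F K] [FiniteDimensional F K]
    (L : Type) [Field L] [Algebra F L] [Algebra K L] [IsScalarTower F K L]
    [FiniteDimensional K L] (ϖK : Kˣ) (ϖL : Lˣ),
    IsUnif A F K ϖK → IsUnif A F L ϖL →
    ∃ e f : ℕ, e * f = Module.finrank K L ∧
      unitsIncl L K ϖK * ϖL ^ (-(e : ℤ)) ∈ intUnits A F L ∧
      normUnits L K ϖL * ϖK ^ (-(f : ℤ)) ∈ intUnits A F K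

/-- (LF8) norms of integral units are integral units. -/
def NormUnitsIntStatement : Prop :=
  ∀ (A F : Type) [CommRing A] [IsDomain A] [IsDiscreteValuationRing A]
    [IsAdicComplete (IsLocalRing.maximalIdeal A) A] [Finite (IsLocalRing.ResidueField A)]
    [Field F] [CharZero F] [Algebra A F] [IsFractionRing A F]
    (K : Type) [Field K] [Algebra F K] [FiniteDimensional F K]
    (L : Type) [Field L] [Algebra F L] [Algebra K L] [IsScalarTower F K L]
    [FiniteDimensional K L] (x : Lˣ),
    x ∈ intUnits A F L → normUnits L K x ∈ intUnits A F K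

/-! ## Part UR : unramified extensions -/

/-- (UR1) an unramified Galois extension is cyclic. -/
def UnramCyclicStatement : Prop :=
  ∀ (A F : Type) [CommRing A] [IsDomain A] [IsDiscreteValuationRing A]
    [IsAdicComplete (IsLocalRing.maximalIdeal A) A] [Finite (IsLocalRing.ResidueField A)]
    [Field F] [CharZero F] [Algebra A F] [IsFractionRing A F]
    (K : Type) [Field K] [Algebra F K] [FiniteDimensional F K]
    (L : Type) [Field L] [Algebra F L] [Algebra K L] [IsScalarTower F K L]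
    [FiniteDimensional K L] [IsGalois K L],
    IsUnram A F L K → IsCyclic (L ≃ₐ[K] L)

/-- (UR2) graded step for 1-cocycles with values in units of an unramified extension. -/
def UnramGradedH1Statement : Prop :=
  ∀ (A F : Type) [CommRing A] [IsDomain A] [IsDiscreteValuationRing A]
    [IsAdicComplete (IsLocalRing.maximalIdeal A) A] [Finite (IsLocalRing.ResidueField A)]
    [Field F] [CharZero F] [Algebra A F] [IsFractionRing A F]
    (K : Type) [Field K] [Algebra F K] [FiniteDimensional F K]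
    (L : Type) [Field L] [Algebra F L] [Algebra K L] [IsScalarTower F K L]
    [FiniteDimensional K L] [IsGalois K L] (ϖK : Kˣ),
    IsUnram A F L K → IsUnif A F K ϖK →
    ∀ j (c : (L ≃ₐ[K] L) → Lˣ), IsMulCocycle₁ c →
      (∀ g, c g ∈ higherUnits A F L (algebraMap K L ϖK) j) →
      ∃ m ∈ higherUnits A F L (algebraMap K L ϖK) j,
        ∀ g, c g / (g • m / m) ∈ higherUnits A F L (algebraMap K L ϖK) (j + 1)

/-- (UR3) graded step for 2-cocycles with values in units of an unramified extension. -/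
def UnramGradedH2Statement : Prop :=
  ∀ (A F : Type) [CommRing A] [IsDomain A] [IsDiscreteValuationRing A]
    [IsAdicComplete (IsLocalRing.maximalIdeal A) A] [Finite (IsLocalRing.ResidueField A)]
    [Field F] [CharZero F] [Algebra A F] [IsFractionRing A F]
    (K : Type) [Field K] [Algebra F K] [FiniteDimensional F K]
    (L : Type) [Field L] [Algebra F L] [Algebra K L] [IsScalarTower F K L]
    [FiniteDimensional K L] [IsGalois K L] (ϖK : Kˣ),
    IsUnram A F L K → IsUnif A F K ϖK →
    ∀ j (c : (L ≃ₐ[K] L) × (L ≃ₐ[K] L) → Lˣ), IsMulCocycle₂ c →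
      (∀ p, c p ∈ higherUnits A F L (algebraMap K L ϖK) j) →
      ∃ x : (L ≃ₐ[K] L) → Lˣ, (∀ g, x g ∈ higherUnits A F L (algebraMap K L ϖK) j) ∧
        ∀ g h, c (g, h) / (g • x h / x (g * h) * x g) ∈
          higherUnits A F L (algebraMap K L ϖK) (j + 1)

/-- (T1a) `H¹(Gal(L/K), U_L) = 0` for `L / K` unramified. -/
def UnramUnitsH1Statement : Prop :=
  ∀ (A F : Type) [CommRing A] [IsDomain A] [IsDiscreteValuationRing A]
    [IsAdicComplete (IsLocalRing.maximalIdeal A) A] [Finite (IsLocalRing.ResidueField A)]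
    [Field F] [CharZero F] [Algebra A F] [IsFractionRing A F]
    (K : Type) [Field K] [Algebra F K] [FiniteDimensional F K]
    (L : Type) [Field L] [Algebra F L] [Algebra K L] [IsScalarTower F K L]
    [FiniteDimensional K L] [IsGalois K L],
    IsUnram A F L K →
    ∀ c : (L ≃ₐ[K] L) → Lˣ, IsMulCocycle₁ c → (∀ g, c g ∈ intUnits A F L) →
      ∃ m ∈ intUnits A F L, ∀ g, g • m / m = c g

/-- (T1b) `H²(Gal(L/K), U_L) = 0` for `L / K` unramified. -/
def UnramUnitsH2Statement : Prop :=
  ∀ (A F : Type) [CommRing A] [IsDomain A] [IsDiscreteValuationRing A]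
    [IsAdicComplete (IsLocalRing.maximalIdeal A) A] [Finite (IsLocalRing.ResidueField A)]
    [Field F] [CharZero F] [Algebra A F] [IsFractionRing A F]
    (K : Type) [Field K] [Algebra F K] [FiniteDimensional F K]
    (L : Type) [Field L] [Algebra F L] [Algebra K L] [IsScalarTower F K L]
    [FiniteDimensional K L] [IsGalois K L],
    IsUnram A F L K →
    ∀ c : (L ≃ₐ[K] L) × (L ≃ₐ[K] L) → Lˣ, IsMulCocycle₂ c → (∀ p, c p ∈ intUnits A F L) →
      ∃ x : (L ≃ₐ[K] L) → Lˣ, (∀ g, x g ∈ intUnits A F L) ∧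
        ∀ g h, g • x h / x (g * h) * x g = c (g, h)

/-- (UR4) in an unramified extension every unit of `K` is the norm of a unit of `L`. -/
def UnramNormUnitsStatement : Prop :=
  ∀ (A F : Type) [CommRing A] [IsDomain A] [IsDiscreteValuationRing A]
    [IsAdicComplete (IsLocalRing.maximalIdeal A) A] [Finite (IsLocalRing.ResidueField A)]
    [Field F] [CharZero F] [Algebra A F] [IsFractionRing A F]
    (K : Type) [Field K] [Algebra F K] [FiniteDimensional F K]
    (L : Type) [Field L] [Algebra F L] [Algebra K L] [IsScalarTower F K L]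
    [FiniteDimensional K L] [IsGalois K L],
    IsUnram A F L K →
    ∀ u ∈ intUnits A F K, ∃ w ∈ intUnits A F L, normUnits L K w = u

/-- (T2) norm group of an unramified extension of degree `n`: `unit * ϖK ^ m` is a norm iff
`n ∣ m`. -/
def UnramNormRangeStatement : Prop :=
  ∀ (A F : Type) [CommRing A] [IsDomain A] [IsDiscreteValuationRing A]
    [IsAdicComplete (IsLocalRing.maximalIdeal A) A] [Finite (IsLocalRing.ResidueField A)]
    [Field F] [CharZero F] [Algebra A F] [IsFractionRing A F]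
    (K : Type) [Field K] [Algebra F K] [FiniteDimensional F K]
    (L : Type) [Field L] [Algebra F L] [Algebra K L] [IsScalarTower F K L]
    [FiniteDimensional K L] [IsGalois K L] (ϖK : Kˣ),
    IsUnram A F L K → IsUnif A F K ϖK →
    ∀ (u : Kˣ) (m : ℤ), u ∈ intUnits A F K →
      (u * ϖK ^ m ∈ (normUnits L K).range ↔ (Module.finrank K L : ℤ) ∣ m)

/-- (UR5) existence of unramified extensions on top of a given Galois extension: for `L / K`
finite Galois and `n ≥ 1` there is a finite extension `N / L`, Galois over `K`, with `N / L`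
unramified (cyclic) of degree `n`. -/
def ExistsUnramExtStatement : Prop :=
  ∀ (A F : Type) [CommRing A] [IsDomain A] [IsDiscreteValuationRing A]
    [IsAdicComplete (IsLocalRing.maximalIdeal A) A] [Finite (IsLocalRing.ResidueField A)]
    [Field F] [CharZero F] [Algebra A F] [IsFractionRing A F]
    (K : Type) [Field K] [Algebra F K] [FiniteDimensional F K]
    (L : Type) [Field L] [Algebra F L] [Algebra K L] [IsScalarTower F K L]
    [FiniteDimensional K L] [IsGalois K L] (n : ℕ), 0 < n →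
    ∃ (N : Type) (_ : Field N) (_ : Algebra F N) (_ : Algebra K N) (_ : Algebra L N)
      (_ : IsScalarTower F K N) (_ : IsScalarTower F L N) (_ : IsScalarTower K L N)
      (_ : FiniteDimensional K N) (_ : IsGalois K N),
      IsUnram A F N L ∧ Module.finrank L N = n

/-- (UR6) inertia: in a finite Galois extension `N / K` there is a normal subgroup `I` of
`Gal(N/K)` such that, for every intermediate field `E`, `N / E` is unramified iff
`Gal(N/E) ⊓ I = ⊥`, and `E / K` is unramified iff `I ≤ Gal(N/E)`. -/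
def InertiaStatement : Prop :=
  ∀ (A F : Type) [CommRing A] [IsDomain A] [IsDiscreteValuationRing A]
    [IsAdicComplete (IsLocalRing.maximalIdeal A) A] [Finite (IsLocalRing.ResidueField A)]
    [Field F] [CharZero F] [Algebra A F] [IsFractionRing A F]
    (K : Type) [Field K] [Algebra F K] [FiniteDimensional F K]
    (N : Type) [Field N] [Algebra F N] [Algebra K N] [IsScalarTower F K N]
    [FiniteDimensional K N] [IsGalois K N],
    ∃ I : Subgroup (N ≃ₐ[K] N), I.Normal ∧
      ∀ E : IntermediateField K N,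
        letI : Algebra F E := ((algebraMap K E).comp (algebraMap F K)).toAlgebra
        (IsUnram A F N E ↔ E.fixingSubgroup ⊓ I = ⊥) ∧
        (IsUnram A F E K ↔ I ≤ E.fixingSubgroup)

/-! ## Part CY : cyclic extensions (Herbrand quotient) -/

/-- (CY1) a cohomologically trivial subgroup of finite index in the units of a cyclic
extension. -/
def CyclicGoodSubgroupStatement : Prop :=
  ∀ (A F : Type) [CommRing A] [IsDomain A] [IsDiscreteValuationRing A]
    [IsAdicComplete (IsLocalRing.maximalIdeal A) A] [Finite (IsLocalRing.ResidueField A)]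
    [Field F] [CharZero F] [Algebra A F] [IsFractionRing A F]
    (K : Type) [Field K] [Algebra F K] [FiniteDimensional F K]
    (L : Type) [Field L] [Algebra F L] [Algebra K L] [IsScalarTower F K L]
    [FiniteDimensional K L] [IsGalois K L] (σ : L ≃ₐ[K] L), (∀ g, g ∈ Subgroup.zpowers σ) →
    ∃ V : Subgroup Lˣ, V ≤ intUnits A F L ∧ V.relIndex (intUnits A F L) ≠ 0 ∧
      (∀ g : L ≃ₐ[K] L, ∀ x ∈ V, g • x ∈ V) ∧
      (∀ x ∈ V, σ • x = x → ∃ y ∈ V, ∏ g : L ≃ₐ[K] L, g • y = x) ∧
      (∀ x ∈ V, ∏ g : L ≃ₐ[K] L, g • x = 1 → ∃ y ∈ V, σ • y / y = x)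

/-- (T3) local norm index: `[Kˣ : N(Lˣ)] = [L : K]` for `L / K` cyclic. -/
def CyclicNormIndexStatement : Prop :=
  ∀ (A F : Type) [CommRing A] [IsDomain A] [IsDiscreteValuationRing A]
    [IsAdicComplete (IsLocalRing.maximalIdeal A) A] [Finite (IsLocalRing.ResidueField A)]
    [Field F] [CharZero F] [Algebra A F] [IsFractionRing A F]
    (K : Type) [Field K] [Algebra F K] [FiniteDimensional F K]
    (L : Type) [Field L] [Algebra F L] [Algebra K L] [IsScalarTower F K L]
    [FiniteDimensional K L] [IsGalois K L],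
    IsCyclic (L ≃ₐ[K] L) → (normUnits L K).range.index = Module.finrank K L

/-- (T3') `|H²(Gal(L/K), Lˣ)| = [L : K]` for `L / K` cyclic. -/
def CyclicH2CardStatement : Prop :=
  ∀ (A F : Type) [CommRing A] [IsDomain A] [IsDiscreteValuationRing A]
    [IsAdicComplete (IsLocalRing.maximalIdeal A) A] [Finite (IsLocalRing.ResidueField A)]
    [Field F] [CharZero F] [Algebra A F] [IsFractionRing A F]
    (K : Type) [Field K] [Algebra F K] [FiniteDimensional F K]
    (L : Type) [Field L] [Algebra F L] [Algebra K L] [IsScalarTower F K L]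
    [FiniteDimensional K L] [IsGalois K L],
    IsCyclic (L ≃ₐ[K] L) → Nat.card (H2 (Rep.ofAlgebraAutOnUnits K L)) = Module.finrank K L

/-! ## Part G : general Galois extensions -/

/-- (T4) upper bound: `|H²(Gal(L/K), Lˣ)|` divides `[L : K]`. -/
def H2CardDvdStatement : Prop :=
  ∀ (A F : Type) [CommRing A] [IsDomain A] [IsDiscreteValuationRing A]
    [IsAdicComplete (IsLocalRing.maximalIdeal A) A] [Finite (IsLocalRing.ResidueField A)]
    [Field F] [CharZero F] [Algebra A F] [IsFractionRing A F]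
    (K : Type) [Field K] [Algebra F K] [FiniteDimensional F K]
    (L : Type) [Field L] [Algebra F L] [Algebra K L] [IsScalarTower F K L]
    [FiniteDimensional K L] [IsGalois K L],
    Nat.card (H2 (Rep.ofAlgebraAutOnUnits K L)) ∣ Module.finrank K L

/-- (T5) MAIN THEOREM of the layer: `H²(Gal(L/K), Lˣ)` is cyclic of order `[L : K]`. -/
def H2CyclicStatement : Prop :=
  ∀ (A F : Type) [CommRing A] [IsDomain A] [IsDiscreteValuationRing A]
    [IsAdicComplete (IsLocalRing.maximalIdeal A) A] [Finite (IsLocalRing.ResidueField A)]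
    [Field F] [CharZero F] [Algebra A F] [IsFractionRing A F]
    (K : Type) [Field K] [Algebra F K] [FiniteDimensional F K]
    (L : Type) [Field L] [Algebra F L] [Algebra K L] [IsScalarTower F K L]
    [FiniteDimensional K L] [IsGalois K L],
    Nat.card (H2 (Rep.ofAlgebraAutOnUnits K L)) = Module.finrank K L ∧
      IsAddCyclic (H2 (Rep.ofAlgebraAutOnUnits K L))

end Fermat.Agent.S55.Local

end
-- ===== PACK-END S55/Local/Spec.lean

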