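import Mathlib
import Fermat.Prelude.Thm_Algebra_finite_maximalSpectrum_and_bijective_localization_of_module_finite
import Fermat.Prelude.Thm_IsLocalRing_isAdicComplete_of_module_finite

-- ===== PACK-BEGIN S13/H175/InertiaLift.lean
section


set_option autoImplicit false

/-!
# Lifting inertia elements along a closed normal subgroup of a profinite group

`G` profinite acting continuously on a discrete commutative ring `B`, `N` a closed normal
subgroup, `Q` a prime of `B`.  If `g₀ ∈ G` acts trivially modulo `Q` on the `N`-invariants of `B`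
then there is `σ ∈ g₀ N` acting trivially modulo `Q` on all of `B`.
-/

open scoped Pointwise

namespace Fermat.Agent.S13.H175

universe u

section

variable {B : Type*} [CommRing B]
variable {G : Type u} [Group G] [MulSemiringAction G B]

theorem isInvariant_fixedPoints (N : Subgroup G) :
    Algebra.IsInvariant (FixedPoints.subalgebra ℤ B N) B N :=
  ⟨fun b hb => ⟨⟨b, fun n => hb n⟩, rfl⟩⟩

theorem smul_mem_fixedPoints (N : Subgroup G) [hn : N.Normal] (g : G) {x : B}
    (hx : ∀ n ∈ N, n • x = x) : ∀ n ∈ N, n • (g • x) = g • x := by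
  intro n hnN
  have h1 : g⁻¹ * n * g ∈ N := by
    have := hn.conj_mem n hnN g⁻¹
    simpa using this
  have h2 := hx _ h1
  calc n • (g • x) = g • ((g⁻¹ * n * g) • x) := by
        simp [mul_smul]
    _ = g • x := by rw [h2]

end

variable {B : Type*} [CommRing B]
variable {G : Type u} [Group G] [MulSemiringAction G B]
variable [TopologicalSpace G] [CompactSpace G] [TotallyDisconnectedSpace G]
variable [IsTopologicalGroup G] [TopologicalSpace B] [DiscreteTopology B] [ContinuousSMul G B]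

theorem exists_inertia_lift (N : Subgroup G) [hn : N.Normal] (hN : IsClosed (N : Set G))
    (Q : Ideal B) [hQ : Q.IsPrime] (g₀ : G)
    (h₀ : ∀ x : B, (∀ n ∈ N, n • x = x) → g₀ • x - x ∈ Q) :
    ∃ σ : G, g₀⁻¹ * σ ∈ N ∧ ∀ x : B, σ • x - x ∈ Q := by
  have : CompactSpace N := isCompact_iff_compactSpace.mp hN.isCompact
  have := isInvariant_fixedPoints (B := B) N
  -- Step 1: move `g₀ • Q` back to `Q` by an element of `N`.
  have hunder : (g₀ • Q).under (FixedPoints.subalgebra ℤ B N) =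
      Q.under (FixedPoints.subalgebra ℤ B N) := by
    ext ⟨x, hx⟩
    have hx' : ∀ n ∈ N, n • x = x := fun n hn' => hx ⟨n, hn'⟩
    simp only [Ideal.mem_comap]
    show x ∈ g₀ • Q ↔ x ∈ Q
    rw [Ideal.mem_pointwise_smul_iff_inv_smul_mem]
    have hy : ∀ n ∈ N, n • (g₀⁻¹ • x) = g₀⁻¹ • x := smul_mem_fixedPoints N g₀⁻¹ hx'
    have h1 := h₀ _ hy
    rw [smul_inv_smul] at h1
    constructor
    · intro h
      have := Q.add_mem h1 h
      simpa using this
    · intro h
      have := Q.sub_mem h h1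
      simpa using this
  obtain ⟨n, hn1⟩ := Algebra.IsInvariant.exists_smul_of_under_eq_of_profinite
    (A := FixedPoints.subalgebra ℤ B N) (G := N) (g₀ • Q) Q hunder
  -- `g₁ = n g₀` stabilises `Q` and still acts trivially mod `Q` on the `N`-invariants
  set g₁ : G := (n : G) * g₀ with hg₁
  have hg₁Q : g₁ • Q = Q := by
    rw [hg₁, mul_smul]
    exact hn1.symm
  have hg₁fix : ∀ x : B, (∀ m ∈ N, m • x = x) → g₁ • x - x ∈ Q := by
    intro x hx
    have h1 : (n : G) • (g₀ • x) = g₀ • x := smul_mem_fixedPoints N g₀ hx n n.2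
    rw [hg₁, mul_smul, h1]
    exact h₀ x hx
  -- Step 2: the automorphism of `B ⧸ Q` induced by `g₁` is `B' ⧸ Q'`-linear
  let e₀ : (B ⧸ Q) ≃ₐ[ℤ ⧸ Q.under ℤ] (B ⧸ Q) :=
    Ideal.Quotient.stabilizerHom Q (Q.under ℤ) G ⟨g₁, hg₁Q⟩
  have he₀ : ∀ x : B, e₀ (Ideal.Quotient.mk Q x) = Ideal.Quotient.mk Q (g₁ • x) := fun x => rfl
  let e : (B ⧸ Q) ≃ₐ[FixedPoints.subalgebra ℤ B N ⧸ Q.under (FixedPoints.subalgebra ℤ B N)]
      (B ⧸ Q) :=
    AlgEquiv.ofRingEquiv (f := e₀.toRingEquiv) (by
      intro x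
      obtain ⟨⟨b, hb⟩, rfl⟩ := Ideal.Quotient.mk_surjective x
      have hb' : ∀ m ∈ N, m • b = b := fun m hm => hb ⟨m, hm⟩
      show e₀ (Ideal.Quotient.mk Q b) = Ideal.Quotient.mk Q b
      rw [he₀, Ideal.Quotient.eq]
      exact hg₁fix b hb')
  obtain ⟨n', hn'⟩ := Ideal.Quotient.stabilizerHom_surjective_of_profinite (G := N)
    (Q.under (FixedPoints.subalgebra ℤ B N)) Q e
  have hn'Q : (n' : N) • Q = Q := n'.2
  have hkey : ∀ x : B, ((n' : N) : G) • x - g₁ • x ∈ Q := by
    intro x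
    have h1 := congrArg (fun t => t (Ideal.Quotient.mk Q x)) hn'
    simp only [Ideal.Quotient.stabilizerHom_apply] at h1
    have h2 : e (Ideal.Quotient.mk Q x) = Ideal.Quotient.mk Q (g₁ • x) := he₀ x
    rw [h2] at h1
    exact Ideal.Quotient.eq.mp h1
  refine ⟨((n' : N) : G)⁻¹ * g₁, ?_, fun x => ?_⟩
  · have h1 : ((n' : N) : G)⁻¹ * (n : G) ∈ N := N.mul_mem (N.inv_mem (n' : N).2) n.2
    have h2 := hn.conj_mem _ h1 g₀⁻¹
    have h3 : g₀⁻¹ * (((n' : N) : G)⁻¹ * g₁) = g₀⁻¹ * (((n' : N) : G)⁻¹ * (n : G)) * g₀⁻¹⁻¹ := by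
      rw [hg₁]; group
    rw [h3]
    exact h2
  · have h1 : g₁ • x - ((n' : N) : G) • x ∈ Q := by
      have := Q.neg_mem (hkey x)
      simpa using this
    have h2 : ((n' : N) : G)⁻¹ • (g₁ • x - ((n' : N) : G) • x) ∈ Q := by
      have h3 : g₁ • x - ((n' : N) : G) • x ∈ ((n' : N) : G) • Q := by
        have : ((n' : N) : G) • Q = Q := hn'Q
        rw [this]; exact h1
      exact Ideal.mem_pointwise_smul_iff_inv_smul_mem.mp h3
    have h4 : ((n' : N) : G)⁻¹ • (g₁ • x - ((n' : N) : G) • x) =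
        (((n' : N) : G)⁻¹ * g₁) • x - x := by
      rw [smul_sub, inv_smul_smul, ← mul_smul]
    rw [← h4]
    exact h2

end Fermat.Agent.S13.H175

end
-- ===== PACK-END S13/H175/InertiaLift.lean

-- ===== PACK-BEGIN S56/H734/KumCount.lean
section


/-!
# S56 / FLAT-O, leaf KUM (helper734), part 1: fixed points of a `p`-semilinear map

`κ` a field, `V` a finite-dimensional `κ`-vector space, `T : V →+ V` additive with
`T (a • x) = a ^ p • T x`, `1 < p`.  Then `T` has at most `p ^ dim V` fixed points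
(`card_fixed_le`).  (Lang's count; only the upper bound, no characteristic assumption.)
-/

set_option autoImplicit false
set_option linter.style.haveILetI false

namespace Fermat.Agent.S56.H734

open Polynomial

/-- The solutions of `a ^ p = a` in a field: at most `p` of them. -/
theorem card_pow_eq_self_le {κ : Type*} [Field κ] {p : ℕ} (hp : 1 < p) :
    Finite {a : κ // a ^ p = a} ∧ Nat.card {a : κ // a ^ p = a} ≤ p := by
  classical
  have hne : (X ^ p - X : κ[X]) ≠ 0 := FiniteField.X_pow_card_sub_X_ne_zero κ hp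
  have hdeg : (X ^ p - X : κ[X]).natDegree = p := FiniteField.X_pow_card_sub_X_natDegree_eq κ hp
  have hsub : {a : κ | a ^ p = a} ⊆ ((X ^ p - X : κ[X]).roots.toFinset : Set κ) := by
    intro a ha
    simp only [Finset.mem_coe, Multiset.mem_toFinset, mem_roots hne, IsRoot.def, eval_sub,
      eval_pow, eval_X]
    rw [Set.mem_ofPred_eq] at ha
    rw [ha, sub_self]
  have hfin : {a : κ | a ^ p = a}.Finite := (Finset.finite_toSet _).subset hsub
  refine ⟨hfin.to_subtype, ?_⟩
  have h1 : Nat.card {a : κ // a ^ p = a} = {a : κ | a ^ p = a}.ncard := rfl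
  rw [h1]
  calc {a : κ | a ^ p = a}.ncard
      ≤ ((X ^ p - X : κ[X]).roots.toFinset : Set κ).ncard :=
        Set.ncard_le_ncard hsub (Finset.finite_toSet _)
    _ = (X ^ p - X : κ[X]).roots.toFinset.card := Set.ncard_coe_finset _
    _ ≤ Multiset.card (X ^ p - X : κ[X]).roots := Multiset.toFinset_card_le _
    _ ≤ (X ^ p - X : κ[X]).natDegree := card_roots' _
    _ = p := hdeg

/-- **Lang's count, upper bound.**  A `p`-semilinear additive endomorphism of a
finite-dimensional vector space has at most `p ^ dim` fixed points. -/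
theorem card_fixed_le {κ V : Type*} [Field κ] [AddCommGroup V] [Module κ V]
    [Module.Finite κ V] {p : ℕ} (hp : 1 < p) (T : V →+ V)
    (hT : ∀ (a : κ) (x : V), T (a • x) = a ^ p • T x) :
    Finite {x : V // T x = x} ∧ Nat.card {x : V // T x = x} ≤ p ^ Module.finrank κ V := by
  classical
  obtain ⟨b, hbS, hspan, hli⟩ := exists_linearIndependent κ {x : V | T x = x}
  haveI : Finite b := hli.finite
  haveI : Fintype b := Fintype.ofFinite b
  have hcard : Fintype.card b ≤ Module.finrank κ V := hli.fintype_card_le_finrank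
  obtain ⟨hRfin, hRcard⟩ := card_pow_eq_self_le (κ := κ) hp
  haveI := hRfin
  -- coefficients of a fixed point
  have hrep : ∀ x : {x : V // T x = x}, ∃ l : b → {a : κ // a ^ p = a},
      ∑ i, (l i : κ) • (i : V) = (x : V) := by
    rintro ⟨x, hx⟩
    have hxs : x ∈ Submodule.span κ (Set.range (Subtype.val : b → V)) := by
      rw [Subtype.range_coe, hspan]
      exact Submodule.subset_span hx
    obtain ⟨c, hc⟩ := (Submodule.mem_span_range_iff_exists_fun κ).mp hxs
    have hTx : T x = ∑ i, (c i) ^ p • (i : V) := by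
      rw [← hc, map_sum]
      refine Finset.sum_congr rfl fun i _ => ?_
      rw [hT, (hbS i.2 : T (i : V) = (i : V))]
    have hzero : ∑ i, ((c i) ^ p - c i) • (i : V) = 0 := by
      simp only [sub_smul, Finset.sum_sub_distrib]
      rw [← hTx, hc, hx, sub_self]
    have hci := Fintype.linearIndependent_iff.mp hli _ hzero
    refine ⟨fun i => ⟨c i, sub_eq_zero.mp (hci i)⟩, hc⟩
  choose l hl using hrep
  have hinj : Function.Injective l := by
    intro x y hxy
    apply Subtype.ext
    rw [← hl x, ← hl y, hxy]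
  haveI : Finite {x : V // T x = x} := Finite.of_injective l hinj
  refine ⟨inferInstance, ?_⟩
  have hR1 : 0 < Nat.card {a : κ // a ^ p = a} :=
    Nat.card_pos_iff.mpr ⟨⟨⟨0, zero_pow (by omega)⟩⟩, hRfin⟩
  calc Nat.card {x : V // T x = x}
      ≤ Nat.card (b → {a : κ // a ^ p = a}) := Nat.card_le_card_of_injective l hinj
    _ = Nat.card {a : κ // a ^ p = a} ^ Fintype.card b := by
        rw [Nat.card_fun, Nat.card_eq_fintype_card (α := b)]
    _ ≤ p ^ Fintype.card b := Nat.pow_le_pow_left hRcard _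
    _ ≤ p ^ Module.finrank κ V := Nat.pow_le_pow_right (by omega) hcard

end Fermat.Agent.S56.H734

end
-- ===== PACK-END S56/H734/KumCount.lean

-- ===== PACK-BEGIN S55/G/Rec/H379Core.lean
section


/-!
# S55 / G / REC, leaf (A4): `H²` of a finite cyclic group via the explicit cocycles `cupChar`

Plain-level (no category theory) statements, in the vocabulary of Mathlib's
`groupCohomology.IsCocycle₂` / `IsCoboundary₂`.

* `carry n x y = (x.val + y.val) / n` : the carry of the addition in `ZMod n`.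
* `cupChar n χ a (g, h) = carry n (χ g) (χ h) • a`.
* `isCocycle₂_cupChar` : (A1) `cupChar n χ a` is a 2-cocycle if `χ` is additive and `a` invariant.
* `exists_cupChar_cohomologous` : (A4, surjectivity) if `χ` is injective and `χ σ = 1`
  (i.e. `G = ⟨σ⟩` is cyclic of order `n`), every 2-cocycle is cohomologous to some
  `cupChar n χ a`, `a` invariant.
* `isCoboundary₂_cupChar_iff` : (A4, injectivity) for invariant `a`, `cupChar n χ a` is a
  coboundary iff `a` is a norm `∑ k < n, σ ^ k • b` (`= ∑ g : G, g • b`).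
-/

set_option autoImplicit false
set_option linter.unusedSectionVars false
set_option linter.style.haveILetI false

namespace Fermat.Agent.S55.G.Rec.H379

open groupCohomology Finset

/-! ## The carry -/

/-- The carry of the addition of `x` and `y` in `ZMod n` (it is `0` or `1` when `n ≠ 0`). -/
def carry (n : ℕ) (x y : ZMod n) : ℕ := (x.val + y.val) / n

lemma div_add_mod_add_div (a c n : ℕ) : a / n + (a % n + c) / n = (a + c) / n := by
  rcases Nat.eq_zero_or_pos n with rfl | hn
  · simp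
  · conv_rhs => rw [← Nat.div_add_mod a n]
    rw [add_assoc, Nat.mul_add_div hn, ]

lemma carry_assoc (n : ℕ) [NeZero n] (x y z : ZMod n) :
    _root_.Fermat.Agent.S55.G.Rec.H379.carry n (x + y) z + _root_.Fermat.Agent.S55.G.Rec.H379.carry n x y = _root_.Fermat.Agent.S55.G.Rec.H379.carry n y z + _root_.Fermat.Agent.S55.G.Rec.H379.carry n x (y + z) := by
  unfold _root_.Fermat.Agent.S55.G.Rec.H379.carry
  rw [ZMod.val_add x y, ZMod.val_add y z]
  rw [add_comm (((x.val + y.val) % n + z.val) / n), div_add_mod_add_div,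
    add_comm x.val ((y.val + z.val) % n), div_add_mod_add_div]
  congr 1
  ring

lemma carry_le_one (n : ℕ) [NeZero n] (x y : ZMod n) : _root_.Fermat.Agent.S55.G.Rec.H379.carry n x y ≤ 1 := by
  unfold _root_.Fermat.Agent.S55.G.Rec.H379.carry
  have hx := ZMod.val_lt x
  have hy := ZMod.val_lt y
  have hn : 0 < n := Nat.pos_of_ne_zero (NeZero.ne n)
  rw [← Nat.lt_succ_iff, Nat.div_lt_iff_lt_mul hn]
  omega

lemma carry_comm (n : ℕ) (x y : ZMod n) : _root_.Fermat.Agent.S55.G.Rec.H379.carry n x y = _root_.Fermat.Agent.S55.G.Rec.H379.carry n y x := by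
  unfold _root_.Fermat.Agent.S55.G.Rec.H379.carry; rw [add_comm]

@[simp] lemma carry_zero_left (n : ℕ) [NeZero n] (y : ZMod n) : _root_.Fermat.Agent.S55.G.Rec.H379.carry n 0 y = 0 := by
  unfold _root_.Fermat.Agent.S55.G.Rec.H379.carry
  rw [ZMod.val_zero, zero_add]
  exact Nat.div_eq_of_lt (ZMod.val_lt y)

@[simp] lemma carry_zero_right (n : ℕ) [NeZero n] (x : ZMod n) : _root_.Fermat.Agent.S55.G.Rec.H379.carry n x 0 = 0 := by
  rw [carry_comm, carry_zero_left]

/-! ## The cocycle `cupChar` -/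

section CupChar

variable {G : Type*} {A : Type*}

/-- The explicit 2-cochain `(g, h) ↦ ε_χ(g, h) • a`, where `ε_χ(g, h) ∈ {0, 1}` is the carry of
`χ g + χ h` in `ZMod n`. -/
def cupChar [AddMonoid A] (n : ℕ) (χ : G → ZMod n) (a : A) : G × G → A :=
  fun p => _root_.Fermat.Agent.S55.G.Rec.H379.carry n (χ p.1) (χ p.2) • a

@[simp] lemma cupChar_apply [AddMonoid A] (n : ℕ) (χ : G → ZMod n) (a : A) (g h : G) :
    _root_.Fermat.Agent.S55.G.Rec.H379.cupChar n χ a (g, h) = _root_.Fermat.Agent.S55.G.Rec.H379.carry n (χ g) (χ h) • a := rfl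

lemma cupChar_add [AddCommMonoid A] (n : ℕ) (χ : G → ZMod n) (a b : A) :
    _root_.Fermat.Agent.S55.G.Rec.H379.cupChar n χ (a + b) = _root_.Fermat.Agent.S55.G.Rec.H379.cupChar n χ a + _root_.Fermat.Agent.S55.G.Rec.H379.cupChar n χ b := by
  funext p; simp [_root_.Fermat.Agent.S55.G.Rec.H379.cupChar, smul_add]

lemma cupChar_zero [AddMonoid A] (n : ℕ) (χ : G → ZMod n) :
    _root_.Fermat.Agent.S55.G.Rec.H379.cupChar n χ (0 : A) = 0 := by
  funext p; simp [_root_.Fermat.Agent.S55.G.Rec.H379.cupChar]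

lemma cupChar_neg [AddCommGroup A] (n : ℕ) (χ : G → ZMod n) (a : A) :
    _root_.Fermat.Agent.S55.G.Rec.H379.cupChar n χ (-a) = -_root_.Fermat.Agent.S55.G.Rec.H379.cupChar n χ a := by
  funext p; simp [_root_.Fermat.Agent.S55.G.Rec.H379.cupChar]

lemma cupChar_sub [AddCommGroup A] (n : ℕ) (χ : G → ZMod n) (a b : A) :
    _root_.Fermat.Agent.S55.G.Rec.H379.cupChar n χ (a - b) = _root_.Fermat.Agent.S55.G.Rec.H379.cupChar n χ a - _root_.Fermat.Agent.S55.G.Rec.H379.cupChar n χ b := by
  funext p; simp [_root_.Fermat.Agent.S55.G.Rec.H379.cupChar, smul_sub]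

variable [Group G] [AddCommGroup A] [DistribMulAction G A]

/-- **(A1)** `cupChar n χ a` is a 2-cocycle when `χ` is additive and `a` is `G`-invariant. -/
theorem isCocycle₂_cupChar {n : ℕ} [NeZero n] {χ : G → ZMod n}
    (hχ : ∀ g h, χ (g * h) = χ g + χ h) {a : A} (ha : ∀ g : G, g • a = a) :
    IsCocycle₂ (_root_.Fermat.Agent.S55.G.Rec.H379.cupChar n χ a) := by
  intro g h j
  simp only [_root_.Fermat.Agent.S55.G.Rec.H379.cupChar_apply, hχ, smul_comm g, ha]
  rw [← add_smul, ← add_smul, carry_assoc]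

end CupChar


/-! ## Generalities on 2-cocycles and 2-coboundaries (plain level) -/

section General

variable {G : Type*} {A : Type*} [Group G] [AddCommGroup A] [DistribMulAction G A]

/-- The coboundary of a 1-cochain. -/
def dOne (u : G → A) : G × G → A := fun p => p.1 • u p.2 - u (p.1 * p.2) + u p.1

@[simp] lemma dOne_apply (u : G → A) (g h : G) : dOne u (g, h) = g • u h - u (g * h) + u g := rfl

lemma isCoboundary₂_iff {f : G × G → A} : IsCoboundary₂ f ↔ ∃ u : G → A, f = dOne u := by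
  constructor
  · rintro ⟨u, hu⟩
    exact ⟨u, funext fun p => (hu p.1 p.2).symm⟩
  · rintro ⟨u, rfl⟩
    exact ⟨u, fun g h => rfl⟩

lemma isCocycle₂_dOne (u : G → A) : IsCocycle₂ (dOne u) := by
  intro g h j
  simp only [dOne_apply, smul_add, smul_sub, mul_smul, mul_assoc]
  abel

lemma IsCoboundary₂.isCocycle₂' {f : G × G → A} (hf : IsCoboundary₂ f) : IsCocycle₂ f := by
  obtain ⟨u, rfl⟩ := isCoboundary₂_iff.1 hf
  exact isCocycle₂_dOne u

lemma isCocycle₂_sub {f f' : G × G → A} (hf : IsCocycle₂ f) (hf' : IsCocycle₂ f') :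
    IsCocycle₂ (f - f') := by
  intro g h j
  have h1 := hf g h j
  have h2 := hf' g h j
  simp only [Pi.sub_apply, smul_sub]
  rw [sub_add_sub_comm, h1, h2, sub_add_sub_comm]

lemma isCocycle₂_add {f f' : G × G → A} (hf : IsCocycle₂ f) (hf' : IsCocycle₂ f') :
    IsCocycle₂ (f + f') := by
  intro g h j
  have h1 := hf g h j
  have h2 := hf' g h j
  simp only [Pi.add_apply, smul_add]
  rw [add_add_add_comm, h1, h2, add_add_add_comm]

lemma dOne_add (u v : G → A) : dOne (u + v) = dOne u + dOne v := by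
  funext p
  simp only [dOne, Pi.add_apply, smul_add]
  abel

lemma dOne_sub (u v : G → A) : dOne (u - v) = dOne u - dOne v := by
  funext p
  simp only [dOne, Pi.sub_apply, smul_sub]
  abel

lemma isCoboundary₂_add {f f' : G × G → A} (hf : IsCoboundary₂ f) (hf' : IsCoboundary₂ f') :
    IsCoboundary₂ (f + f') := by
  obtain ⟨u, rfl⟩ := isCoboundary₂_iff.1 hf
  obtain ⟨v, rfl⟩ := isCoboundary₂_iff.1 hf'
  exact isCoboundary₂_iff.2 ⟨u + v, (dOne_add u v).symm⟩

lemma isCoboundary₂_sub {f f' : G × G → A} (hf : IsCoboundary₂ f) (hf' : IsCoboundary₂ f') :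
    IsCoboundary₂ (f - f') := by
  obtain ⟨u, rfl⟩ := isCoboundary₂_iff.1 hf
  obtain ⟨v, rfl⟩ := isCoboundary₂_iff.1 hf'
  exact isCoboundary₂_iff.2 ⟨u - v, (dOne_sub u v).symm⟩

/-- **Vanishing lemma.**  If every element of `G` is a power of `σ`, a 2-cocycle vanishing on
all pairs `(g, σ)` is zero. -/
theorem eq_zero_of_isCocycle₂_of_forall_snd {σ : G} (hσ : ∀ g : G, ∃ k : ℕ, g = σ ^ k)
    {f : G × G → A} (hf : IsCocycle₂ f) (h0 : ∀ g : G, f (g, σ) = 0) : f = 0 := by
  have step : ∀ (g : G) (j : ℕ), f (g, σ ^ (j + 1)) = f (g, σ ^ j) := by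
    intro g j
    have := hf g (σ ^ j) σ
    rw [h0, h0, smul_zero, zero_add, zero_add, ← pow_succ] at this
    exact this.symm
  have all : ∀ (g : G) (j : ℕ), f (g, σ ^ j) = 0 := by
    intro g j
    induction j with
    | zero => rw [← step g 0, zero_add, pow_one, h0]
    | succ j ih => rw [step, ih]
  funext ⟨g, h⟩
  obtain ⟨k, rfl⟩ := hσ h
  exact all g k

end General

/-! ## Cyclic groups: a character `χ : G → ZMod n`, additive and injective, with `χ σ = 1` -/

section Cyclic

variable {G : Type*} {A : Type*} [Group G] [AddCommGroup A] [DistribMulAction G A]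
variable {n : ℕ} [NeZero n] {χ : G → ZMod n} {σ : G}

lemma chi_one (hχ : ∀ g h, χ (g * h) = χ g + χ h) : χ 1 = 0 := by
  have := hχ 1 1
  rw [mul_one] at this
  exact left_eq_add.1 this

lemma chi_pow (hχ : ∀ g h, χ (g * h) = χ g + χ h) (hσ : χ σ = 1) (k : ℕ) :
    χ (σ ^ k) = (k : ZMod n) := by
  induction k with
  | zero => rw [pow_zero, chi_one hχ, Nat.cast_zero]
  | succ k ih => rw [pow_succ, hχ, ih, hσ, Nat.cast_succ]

lemma eq_pow_val (hχ : ∀ g h, χ (g * h) = χ g + χ h) (hinj : Function.Injective χ)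
    (hσ : χ σ = 1) (g : G) : g = σ ^ (χ g).val := by
  apply hinj
  rw [chi_pow hχ hσ, ZMod.natCast_zmod_val]

lemma exists_eq_pow (hχ : ∀ g h, χ (g * h) = χ g + χ h) (hinj : Function.Injective χ)
    (hσ : χ σ = 1) (g : G) : ∃ k : ℕ, g = σ ^ k :=
  ⟨_, eq_pow_val hχ hinj hσ g⟩

lemma pow_card_eq_one (hχ : ∀ g h, χ (g * h) = χ g + χ h) (hinj : Function.Injective χ)
    (hσ : χ σ = 1) : σ ^ n = 1 := by
  apply hinj
  rw [chi_pow hχ hσ, chi_one hχ, ZMod.natCast_self]

lemma val_chi_pow (hχ : ∀ g h, χ (g * h) = χ g + χ h) (hσ : χ σ = 1) {k : ℕ} (hk : k < n) :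
    (χ (σ ^ k)).val = k := by
  rw [chi_pow hχ hσ, ZMod.val_natCast, Nat.mod_eq_of_lt hk]

omit [DistribMulAction G A] in
/-- Shift invariance of sums over a full period. -/
lemma sum_range_pow_succ (hχ : ∀ g h, χ (g * h) = χ g + χ h) (hinj : Function.Injective χ)
    (hσ : χ σ = 1) (F : G → A) :
    ∑ k ∈ range n, F (σ ^ (k + 1)) = ∑ k ∈ range n, F (σ ^ k) := by
  have h1 := Finset.sum_range_succ (fun k => F (σ ^ k)) n
  have h2 := Finset.sum_range_succ' (fun k => F (σ ^ k)) n
  rw [h1] at h2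
  simp only [pow_card_eq_one hχ hinj hσ, pow_zero] at h2
  exact (add_right_cancel h2).symm

omit [DistribMulAction G A] in
/-- The sum over the group equals the sum over the powers of the generator. -/
lemma sum_univ_eq_sum_range (hχ : ∀ g h, χ (g * h) = χ g + χ h) (hinj : Function.Injective χ)
    (hσ : χ σ = 1) [Fintype G] (F : G → A) :
    ∑ g : G, F g = ∑ k ∈ range n, F (σ ^ k) := by
  symm
  refine Finset.sum_bij (fun k _ => σ ^ k) (fun _ _ => mem_univ _) ?_ ?_ (fun _ _ => rfl)
  · intro k hk l hl h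
    have := congrArg (fun g => (χ g).val) h
    simp only [val_chi_pow hχ hσ (mem_range.1 hk), val_chi_pow hχ hσ (mem_range.1 hl)] at this
    exact this
  · intro g _
    exact ⟨(χ g).val, mem_range.2 (ZMod.val_lt _), (eq_pow_val hχ hinj hσ g).symm⟩

/-- Invariance under the generator implies invariance under the group. -/
lemma smul_eq_of_generator (hχ : ∀ g h, χ (g * h) = χ g + χ h) (hinj : Function.Injective χ)
    (hσ : χ σ = 1) {a : A} (ha : σ • a = a) (g : G) : g • a = a := by
  obtain ⟨k, rfl⟩ := exists_eq_pow hχ hinj hσ g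
  induction k with
  | zero => rw [pow_zero, one_smul]
  | succ k ih => rw [pow_succ, mul_smul, ha, ih]

/-- The norm `∑_{k<n} σ^k • b` is invariant. -/
lemma smul_norm_eq (hχ : ∀ g h, χ (g * h) = χ g + χ h) (hinj : Function.Injective χ)
    (hσ : χ σ = 1) (b : A) (g : G) :
    g • (∑ k ∈ range n, σ ^ k • b) = ∑ k ∈ range n, σ ^ k • b := by
  refine smul_eq_of_generator hχ hinj hσ ?_ g
  rw [Finset.smul_sum]
  simp only [← mul_smul, ← pow_succ']
  exact sum_range_pow_succ hχ hinj hσ (fun g => g • b)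

/-- For a 2-cocycle `f`, the element `∑_{k<n} f (σ^k, σ)` is invariant. -/
lemma smul_sum_cocycle_eq (hχ : ∀ g h, χ (g * h) = χ g + χ h) (hinj : Function.Injective χ)
    (hσ : χ σ = 1) {f : G × G → A} (hf : IsCocycle₂ f) (g : G) :
    g • (∑ k ∈ range n, f (σ ^ k, σ)) = ∑ k ∈ range n, f (σ ^ k, σ) := by
  refine smul_eq_of_generator hχ hinj hσ ?_ g
  have key : ∀ k : ℕ, f (σ ^ (k + 1), σ) + f (σ, σ ^ k) =
      σ • f (σ ^ k, σ) + f (σ, σ ^ (k + 1)) := by
    intro k
    have := hf σ (σ ^ k) σ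
    rwa [← pow_succ', ← pow_succ] at this
  have hsum := congrArg (fun F : ℕ → A => ∑ k ∈ range n, F k) (funext key)
  simp only [Finset.sum_add_distrib] at hsum
  rw [sum_range_pow_succ hχ hinj hσ (fun g => f (g, σ)),
    sum_range_pow_succ hχ hinj hσ (fun g => f (σ, g)), ← Finset.smul_sum] at hsum
  exact (add_right_cancel hsum).symm


lemma subsingleton_of_card_one (hinj : Function.Injective χ) (hn : n = 1) : Subsingleton G := by
  haveI : Subsingleton (ZMod n) := by
    subst hn
    infer_instance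
  exact hinj.subsingleton

lemma val_chi_gen (hσ : χ σ = 1) (hn : 1 < n) : (χ σ).val = 1 := by
  rw [hσ, ZMod.val_one_eq_one_mod, Nat.mod_eq_of_lt hn]

lemma val_chi_mul_gen (hχ : ∀ g h, χ (g * h) = χ g + χ h) (hσ : χ σ = 1) (hn : 1 < n) (g : G) :
    (χ (g * σ)).val = ((χ g).val + 1) % n := by
  rw [hχ, ZMod.val_add, val_chi_gen hσ hn]

lemma carry_chi_gen (hσ : χ σ = 1) (hn : 1 < n) (g : G) :
    _root_.Fermat.Agent.S55.G.Rec.H379.carry n (χ g) (χ σ) = ((χ g).val + 1) / n := by
  unfold _root_.Fermat.Agent.S55.G.Rec.H379.carry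
  rw [val_chi_gen hσ hn]

omit [NeZero n] in
lemma carry_split (t : ℕ → A) (ht0 : t 0 = 0) {i : ℕ} (hi : i < n) :
    ((i + 1) / n) • t n + t ((i + 1) % n) = t (i + 1) := by
  rcases Nat.lt_or_ge (i + 1) n with h | h
  · rw [Nat.div_eq_of_lt h, Nat.mod_eq_of_lt h, zero_smul, zero_add]
  · have h' : i + 1 = n := by omega
    rw [h', Nat.div_self (by omega), Nat.mod_self, one_smul, ht0, add_zero]

omit [NeZero n] in
lemma sum_carry_smul (a : A) (hn : 0 < n) : ∑ k ∈ range n, ((k + 1) / n) • a = a := by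
  obtain ⟨m, rfl⟩ : ∃ m, n = m + 1 := ⟨n - 1, by omega⟩
  rw [Finset.sum_range_succ, Nat.div_self (by omega), one_smul]
  rw [Finset.sum_eq_zero, zero_add]
  intro k hk
  rw [Nat.div_eq_of_lt (by have := mem_range.1 hk; omega), zero_smul]

/-- **(A4), surjectivity.**  If `χ : G → ZMod n` is additive and injective and `χ σ = 1`
(so `G = ⟨σ⟩` is cyclic of order `n`), every 2-cocycle is cohomologous to `cupChar n χ a` for
some invariant `a` (namely `a = ∑_{k<n} f (σ^k, σ)`). -/
theorem exists_cupChar_cohomologous (hχ : ∀ g h, χ (g * h) = χ g + χ h)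
    (hinj : Function.Injective χ) (hσ : χ σ = 1) {f : G × G → A} (hf : IsCocycle₂ f) :
    ∃ a : A, (∀ g : G, g • a = a) ∧ IsCoboundary₂ (f - _root_.Fermat.Agent.S55.G.Rec.H379.cupChar n χ a) := by
  by_cases hn1 : n = 1
  · haveI := subsingleton_of_card_one hinj hn1
    refine ⟨0, fun g => smul_zero g, ?_⟩
    rw [cupChar_zero, sub_zero]
    refine ⟨fun _ => f (1, 1), fun g h => ?_⟩
    rw [Subsingleton.elim g 1, Subsingleton.elim h 1, one_smul, sub_add_cancel]
  · have hn : 1 < n := by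
      have := NeZero.ne n
      omega
    set t : ℕ → A := fun i => ∑ k ∈ range i, f (σ ^ k, σ) with ht
    set u : G → A := fun g => f (1, σ) - t (χ g).val with hu
    refine ⟨t n, smul_sum_cocycle_eq hχ hinj hσ hf, isCoboundary₂_iff.2 ⟨u, ?_⟩⟩
    have hcoc : IsCocycle₂ (f - _root_.Fermat.Agent.S55.G.Rec.H379.cupChar n χ (t n) - dOne u) :=
      isCocycle₂_sub (isCocycle₂_sub hf
        (isCocycle₂_cupChar hχ (smul_sum_cocycle_eq hχ hinj hσ hf))) (isCocycle₂_dOne u)
    have hzero := eq_zero_of_isCocycle₂_of_forall_snd (exists_eq_pow hχ hinj hσ) hcoc ?_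
    · exact sub_eq_zero.1 hzero
    intro g
    have huσ : u σ = 0 := by
      simp only [hu, ht, val_chi_gen hσ hn, Finset.sum_range_one, pow_zero, sub_self]
    have hug : u g = f (1, σ) - t (χ g).val := rfl
    have hugσ : u (g * σ) = f (1, σ) - t (((χ g).val + 1) % n) := by
      simp only [hu, val_chi_mul_gen hχ hσ hn]
    have hsplit := carry_split t (by simp [ht]) (ZMod.val_lt (χ g))
    have hsucc : t ((χ g).val + 1) = t (χ g).val + f (g, σ) := by
      simp only [ht]
      rw [Finset.sum_range_succ, ← eq_pow_val hχ hinj hσ g]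
    rw [← hsplit] at hsucc
    have e1 : f (g, σ) = (((χ g).val + 1) / n) • t n + t (((χ g).val + 1) % n) - t (χ g).val :=
      eq_sub_of_add_eq' hsucc.symm
    show f (g, σ) - _root_.Fermat.Agent.S55.G.Rec.H379.carry n (χ g) (χ σ) • t n - (g • u σ - u (g * σ) + u g) = 0
    rw [carry_chi_gen hσ hn, huσ, hugσ, hug, smul_zero, e1]
    abel

/-- **(A4), injectivity.**  `cupChar n χ a` is a coboundary iff `a` is a norm. -/
theorem isCoboundary₂_cupChar_iff (hχ : ∀ g h, χ (g * h) = χ g + χ h)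
    (hinj : Function.Injective χ) (hσ : χ σ = 1) {a : A} :
    IsCoboundary₂ (_root_.Fermat.Agent.S55.G.Rec.H379.cupChar n χ a) ↔ ∃ b : A, a = ∑ k ∈ range n, σ ^ k • b := by
  by_cases hn1 : n = 1
  · haveI := subsingleton_of_card_one hinj hn1
    constructor
    · intro _
      refine ⟨a, ?_⟩
      subst hn1
      rw [Finset.sum_range_one, pow_zero, one_smul]
    · intro _
      refine ⟨fun _ => 0, fun g h => ?_⟩
      have : _root_.Fermat.Agent.S55.G.Rec.H379.carry n (χ g) (χ h) = 0 := by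
        rw [Subsingleton.elim g 1, chi_one hχ, carry_zero_left]
      simp [_root_.Fermat.Agent.S55.G.Rec.H379.cupChar_apply, this]
  have hn : 1 < n := by
    have := NeZero.ne n
    omega
  constructor
  · rintro ⟨u, hu⟩
    refine ⟨u σ, ?_⟩
    have key : ∀ k ∈ range n, σ ^ k • u σ - u (σ ^ (k + 1)) + u (σ ^ k) = ((k + 1) / n) • a := by
      intro k hk
      have := hu (σ ^ k) σ
      rw [_root_.Fermat.Agent.S55.G.Rec.H379.cupChar_apply, carry_chi_gen hσ hn, val_chi_pow hχ hσ (mem_range.1 hk),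
        ← pow_succ] at this
      exact this
    have hsum := Finset.sum_congr rfl key
    rw [sum_carry_smul a (by omega), Finset.sum_add_distrib, Finset.sum_sub_distrib,
      sum_range_pow_succ hχ hinj hσ u, sub_add_cancel] at hsum
    exact hsum.symm
  · rintro ⟨b, rfl⟩
    set s : ℕ → A := fun i => ∑ k ∈ range i, σ ^ k • b with hs
    set u : G → A := fun g => s (χ g).val with hu
    refine isCoboundary₂_iff.2 ⟨u, ?_⟩
    have hcoc : IsCocycle₂ (_root_.Fermat.Agent.S55.G.Rec.H379.cupChar n χ (s n) - dOne u) :=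
      isCocycle₂_sub (isCocycle₂_cupChar hχ (smul_norm_eq hχ hinj hσ b)) (isCocycle₂_dOne u)
    have hzero := eq_zero_of_isCocycle₂_of_forall_snd (exists_eq_pow hχ hinj hσ) hcoc ?_
    · exact sub_eq_zero.1 hzero
    intro g
    have huσ : u σ = b := by
      simp only [hu, hs, val_chi_gen hσ hn, Finset.sum_range_one, pow_zero, one_smul]
    have hug : u g = s (χ g).val := rfl
    have hugσ : u (g * σ) = s (((χ g).val + 1) % n) := by
      simp only [hu, val_chi_mul_gen hχ hσ hn]
    have hsplit := carry_split s (by simp [hs]) (ZMod.val_lt (χ g))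
    have hsucc : s ((χ g).val + 1) = s (χ g).val + g • b := by
      simp only [hs]
      rw [Finset.sum_range_succ, ← eq_pow_val hχ hinj hσ g]
    rw [← hsplit] at hsucc
    have e1 : g • b = (((χ g).val + 1) / n) • s n + s (((χ g).val + 1) % n) - s (χ g).val :=
      eq_sub_of_add_eq' hsucc.symm
    show _root_.Fermat.Agent.S55.G.Rec.H379.carry n (χ g) (χ σ) • s n - (g • u σ - u (g * σ) + u g) = 0
    rw [carry_chi_gen hσ hn, huσ, hugσ, hug, e1]
    abel

/-- Variant of `isCoboundary₂_cupChar_iff` with the norm written as a sum over the group. -/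
theorem isCoboundary₂_cupChar_iff' (hχ : ∀ g h, χ (g * h) = χ g + χ h)
    (hinj : Function.Injective χ) (hσ : χ σ = 1) [Fintype G] {a : A} :
    IsCoboundary₂ (_root_.Fermat.Agent.S55.G.Rec.H379.cupChar n χ a) ↔ ∃ b : A, a = ∑ g : G, g • b := by
  rw [isCoboundary₂_cupChar_iff hχ hinj hσ]
  simp only [sum_univ_eq_sum_range hχ hinj hσ]

end Cyclic

/-! ## Norms from the kernel of `χ` (no injectivity needed)

If `χ : G → ZMod n` is additive with `χ σ = 1` and `b` is fixed by `ker χ`, then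
`a = ∑_{k<n} σ^k • b` (the norm of `b` for the cyclic quotient `G / ker χ`) is `G`-invariant and
`cupChar n χ a` is a coboundary.  This is "inflation of (A4)" at the level of cochains. -/

section Norm

variable {G : Type*} {A : Type*} [Group G] [AddCommGroup A] [DistribMulAction G A]
variable {n : ℕ} [NeZero n] {χ : G → ZMod n} {σ : G}

lemma chi_inv (hχ : ∀ g h, χ (g * h) = χ g + χ h) (g : G) : χ g⁻¹ = -χ g := by
  have := hχ g⁻¹ g
  rw [inv_mul_cancel, chi_one hχ] at this
  exact eq_neg_of_add_eq_zero_left this.symm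

/-- `g • σ^k • b = σ^(χ̃ g + k) • b` when `b` is fixed by the kernel of `χ`. -/
lemma smul_pow_smul_eq (hχ : ∀ g h, χ (g * h) = χ g + χ h) (hσ : χ σ = 1) {b : A}
    (hb : ∀ g : G, χ g = 0 → g • b = b) (g : G) (k : ℕ) :
    g • σ ^ k • b = σ ^ ((χ g).val + k) • b := by
  have h0 : χ ((σ ^ ((χ g).val + k))⁻¹ * (g * σ ^ k)) = 0 := by
    rw [hχ, chi_inv hχ, hχ, chi_pow hχ hσ, chi_pow hχ hσ, Nat.cast_add, ZMod.natCast_zmod_val]
    abel
  have := hb _ h0
  rw [mul_smul, inv_smul_eq_iff, mul_smul] at this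
  exact this

lemma pow_card_smul_eq (hχ : ∀ g h, χ (g * h) = χ g + χ h) (hσ : χ σ = 1) {b : A}
    (hb : ∀ g : G, χ g = 0 → g • b = b) : σ ^ n • b = b :=
  hb _ (by rw [chi_pow hχ hσ, ZMod.natCast_self])

lemma pow_add_card_smul_eq (hχ : ∀ g h, χ (g * h) = χ g + χ h) (hσ : χ σ = 1) {b : A}
    (hb : ∀ g : G, χ g = 0 → g • b = b) (l : ℕ) : σ ^ (l + n) • b = σ ^ l • b := by
  rw [pow_add, mul_smul, pow_card_smul_eq hχ hσ hb]

/-- partial norms: `s (l + n) = s l + s n`. -/
lemma partialNorm_add_card (hχ : ∀ g h, χ (g * h) = χ g + χ h) (hσ : χ σ = 1) {b : A}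
    (hb : ∀ g : G, χ g = 0 → g • b = b) (l : ℕ) :
    ∑ k ∈ range (l + n), σ ^ k • b = ∑ k ∈ range l, σ ^ k • b + ∑ k ∈ range n, σ ^ k • b := by
  induction l with
  | zero => simp
  | succ l ih =>
    rw [Nat.succ_add, Finset.sum_range_succ, ih, Finset.sum_range_succ,
      pow_add_card_smul_eq hχ hσ hb]
    abel

lemma partialNorm_add_mul (hχ : ∀ g h, χ (g * h) = χ g + χ h) (hσ : χ σ = 1) {b : A}
    (hb : ∀ g : G, χ g = 0 → g • b = b) (m c : ℕ) :
    ∑ k ∈ range (m + n * c), σ ^ k • b =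
      ∑ k ∈ range m, σ ^ k • b + c • ∑ k ∈ range n, σ ^ k • b := by
  induction c with
  | zero => simp
  | succ c ih =>
    rw [Nat.mul_succ, ← add_assoc, partialNorm_add_card hχ hσ hb, ih, succ_nsmul, add_assoc]

lemma partialNorm_mod_add_div (hχ : ∀ g h, χ (g * h) = χ g + χ h) (hσ : χ σ = 1) {b : A}
    (hb : ∀ g : G, χ g = 0 → g • b = b) (l : ℕ) :
    ∑ k ∈ range l, σ ^ k • b =
      ∑ k ∈ range (l % n), σ ^ k • b + (l / n) • ∑ k ∈ range n, σ ^ k • b := by
  have := partialNorm_add_mul hχ hσ hb (l % n) (l / n)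
  rwa [Nat.mod_add_div] at this

/-- `g • s j = s (χ̃ g + j) - s (χ̃ g)` for the partial norms `s`. -/
lemma smul_partialNorm (hχ : ∀ g h, χ (g * h) = χ g + χ h) (hσ : χ σ = 1) {b : A}
    (hb : ∀ g : G, χ g = 0 → g • b = b) (g : G) (j : ℕ) :
    g • (∑ k ∈ range j, σ ^ k • b) =
      ∑ k ∈ range ((χ g).val + j), σ ^ k • b - ∑ k ∈ range (χ g).val, σ ^ k • b := by
  rw [Finset.sum_range_add, add_sub_cancel_left, Finset.smul_sum]
  exact Finset.sum_congr rfl (fun k _ => smul_pow_smul_eq hχ hσ hb g k)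

/-- The norm `∑_{k<n} σ^k • b` of an element fixed by `ker χ` is `G`-invariant. -/
theorem smul_norm_eq_of_ker (hχ : ∀ g h, χ (g * h) = χ g + χ h) (hσ : χ σ = 1) {b : A}
    (hb : ∀ g : G, χ g = 0 → g • b = b) (g : G) :
    g • (∑ k ∈ range n, σ ^ k • b) = ∑ k ∈ range n, σ ^ k • b := by
  rw [smul_partialNorm hχ hσ hb, partialNorm_add_card hχ hσ hb, add_sub_cancel_left]

/-- **(A4) + inflation, cochain level.**  If `b` is fixed by `ker χ` and `χ σ = 1`, then
`cupChar n χ (∑_{k<n} σ^k • b)` is the coboundary of `g ↦ ∑_{k<χ̃ g} σ^k • b`. -/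
theorem isCoboundary₂_cupChar_of_norm (hχ : ∀ g h, χ (g * h) = χ g + χ h) (hσ : χ σ = 1)
    {b : A} (hb : ∀ g : G, χ g = 0 → g • b = b) :
    IsCoboundary₂ (_root_.Fermat.Agent.S55.G.Rec.H379.cupChar n χ (∑ k ∈ range n, σ ^ k • b)) := by
  refine ⟨fun g => ∑ k ∈ range (χ g).val, σ ^ k • b, fun g h => ?_⟩
  show g • (∑ k ∈ range (χ h).val, σ ^ k • b) - ∑ k ∈ range (χ (g * h)).val, σ ^ k • b +
      ∑ k ∈ range (χ g).val, σ ^ k • b = _root_.Fermat.Agent.S55.G.Rec.H379.carry n (χ g) (χ h) • ∑ k ∈ range n, σ ^ k • b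
  rw [smul_partialNorm hχ hσ hb, hχ, ZMod.val_add,
    partialNorm_mod_add_div hχ hσ hb ((χ g).val + (χ h).val)]
  show _ = (((χ g).val + (χ h).val) / n) • ∑ k ∈ range n, σ ^ k • b
  abel

end Norm

/-! ## Characters of a cyclic group with a chosen generator -/

section Generator

variable {G : Type*} [Group G] {n : ℕ} [NeZero n] {χ : G → ZMod n} {σ : G}

lemma exists_nat_pow_of_mem_zpowers [Finite G] (hgen : ∀ g : G, g ∈ Subgroup.zpowers σ)
    (g : G) : ∃ k : ℕ, σ ^ k = g := by
  have := (isOfFinOrder_of_finite σ).mem_powers_iff_mem_zpowers.2 (hgen g)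
  exact (Submonoid.mem_powers_iff _ _).1 this

/-- An additive `χ : G → ZMod n` with `χ σ = 1` is injective as soon as `σ` generates `G` and
`G` has order `n`. -/
theorem injective_of_generator [Finite G] (hχ : ∀ g h, χ (g * h) = χ g + χ h) (hσ : χ σ = 1)
    (hgen : ∀ g : G, g ∈ Subgroup.zpowers σ) (hcard : Nat.card G = n) :
    Function.Injective χ := by
  intro g h hgh
  obtain ⟨k, rfl⟩ := exists_nat_pow_of_mem_zpowers hgen g
  obtain ⟨l, rfl⟩ := exists_nat_pow_of_mem_zpowers hgen h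
  rw [chi_pow hχ hσ, chi_pow hχ hσ, ZMod.natCast_eq_natCast_iff] at hgh
  rw [pow_eq_pow_iff_modEq, orderOf_eq_card_of_forall_mem_zpowers hgen, hcard]
  exact hgh

/-- For a finite cyclic group `G` of order `n` with a chosen generator `σ` there is an additive,
injective `χ : G → ZMod n` with `χ σ = 1`. -/
theorem exists_character_of_generator [Finite G] (hgen : ∀ g : G, g ∈ Subgroup.zpowers σ)
    (hcard : Nat.card G = n) :
    ∃ χ : G → ZMod n, (∀ g h, χ (g * h) = χ g + χ h) ∧ Function.Injective χ ∧ χ σ = 1 := by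
  classical
  have hord : orderOf σ = n := by rw [orderOf_eq_card_of_forall_mem_zpowers hgen, hcard]
  let e : G → ℕ := fun g => (exists_nat_pow_of_mem_zpowers hgen g).choose
  have he : ∀ g, σ ^ e g = g := fun g => (exists_nat_pow_of_mem_zpowers hgen g).choose_spec
  have key : ∀ (g : G) (k : ℕ), σ ^ k = g → ((e g : ℕ) : ZMod n) = (k : ZMod n) := by
    intro g k hk
    rw [ZMod.natCast_eq_natCast_iff, ← hord, ← pow_eq_pow_iff_modEq, he, hk]
  have hadd : ∀ g h, ((e (g * h) : ℕ) : ZMod n) = (e g : ZMod n) + (e h : ZMod n) := by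
    intro g h
    rw [key (g * h) (e g + e h) (by rw [pow_add, he, he]), Nat.cast_add]
  have hone : ((e σ : ℕ) : ZMod n) = 1 := by
    rw [key σ 1 (pow_one σ), Nat.cast_one]
  exact ⟨fun g => (e g : ZMod n), hadd, injective_of_generator hadd hone hgen hcard, hone⟩

end Generator

end Fermat.Agent.S55.G.Rec.H379

end
-- ===== PACK-END S55/G/Rec/H379Core.lean

-- ===== PACK-BEGIN S55/G/Rec/ZsigmondyH897.lean
section


/-!
# REC auxiliary lemma (helper897): a prime `ℓ ≠ p` modulo which `p` has exact order `p ^ n`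

For a prime `p` and `n ≥ 1`, every prime factor `ℓ` of `Φ_{p^n}(p)` is different from `p`
and `p` has multiplicative order exactly `p ^ n` modulo `ℓ`.  In particular `ℓ ≡ 1 mod p ^ n`.
This is the auxiliary tame prime used in step 1 of the elementary proof of the sum formula
(`coord/S55-G-recip.md`).
-/

set_option autoImplicit false

namespace Fermat.Agent.S55.G.Rec.H897

open Polynomial Nat

/-- `Φ_{p^(m+1)}(p) ≡ 1 mod p`. -/
lemma cyclotomic_prime_pow_eval_self_modEq_one (p : ℕ) (hp : p.Prime) (m : ℕ) :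
    (eval (p : ℤ) (cyclotomic (p ^ (m + 1)) ℤ)) ≡ 1 [ZMOD (p : ℤ)] := by
  rw [cyclotomic_prime_pow_eq_geom_sum hp]
  simp only [eval_finsetSum, eval_pow, eval_X]
  have hp0 : 0 < p := hp.pos
  obtain ⟨k, rfl⟩ : ∃ k, p = k + 1 := ⟨p - 1, by omega⟩
  rw [Finset.sum_range_succ']
  simp only [pow_zero]
  have : ∀ i ∈ Finset.range k,
      (((((k + 1 : ℕ) : ℤ)) ^ (k + 1) ^ m) ^ (i + 1)) ≡ 0 [ZMOD ((k + 1 : ℕ) : ℤ)] := by
    intro i _
    rw [Int.modEq_zero_iff_dvd, ← pow_mul]
    exact dvd_pow_self _ (Nat.mul_ne_zero (pow_ne_zero _ (Nat.succ_ne_zero k)) (Nat.succ_ne_zero i))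
  have hsum : (∑ i ∈ Finset.range k, ((((k + 1 : ℕ) : ℤ)) ^ (k + 1) ^ m) ^ (i + 1))
      ≡ 0 [ZMOD ((k + 1 : ℕ) : ℤ)] := by
    rw [Int.modEq_zero_iff_dvd]
    exact Finset.dvd_sum fun i hi => (Int.modEq_zero_iff_dvd.1 (this i hi))
  simpa using hsum.add_right 1

/-- **Zsigmondy-lite.** For a prime `p` and `n ≥ 1` there is a prime `ℓ ≠ p` such that the
multiplicative order of `p` modulo `ℓ` is exactly `p ^ n`. -/
theorem exists_prime_orderOf_eq_prime_pow (p : ℕ) (hp : p.Prime) (n : ℕ) (hn : 1 ≤ n) :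
    ∃ ℓ : ℕ, ℓ.Prime ∧ ℓ ≠ p ∧ orderOf ((p : ZMod ℓ)) = p ^ n := by
  obtain ⟨m, rfl⟩ : ∃ m, n = m + 1 := ⟨n - 1, by omega⟩
  have hk1 : 1 < p ^ (m + 1) := Nat.one_lt_pow (Nat.succ_ne_zero m) hp.one_lt
  have hgt : 1 < (eval (p : ℤ) (cyclotomic (p ^ (m + 1)) ℤ)).natAbs := by
    calc
      1 ≤ p - 1 := le_tsub_of_add_le_left hp.two_le
      _ < (eval (p : ℤ) (cyclotomic (p ^ (m + 1)) ℤ)).natAbs :=
        sub_one_lt_natAbs_cyclotomic_eval hk1 hp.one_lt.ne'
  set ℓ := minFac (eval (p : ℤ) (cyclotomic (p ^ (m + 1)) ℤ)).natAbs with hℓ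
  have hprime : Fact ℓ.Prime := ⟨minFac_prime hgt.ne'⟩
  have hdvd : (ℓ : ℤ) ∣ eval (p : ℤ) (cyclotomic (p ^ (m + 1)) ℤ) := by
    apply Int.dvd_natAbs.1
    exact mod_cast minFac_dvd (eval (p : ℤ) (cyclotomic (p ^ (m + 1)) ℤ)).natAbs
  have hne : ℓ ≠ p := by
    intro h
    have h1 := cyclotomic_prime_pow_eval_self_modEq_one p hp m
    rw [h] at hdvd
    have h0 : eval (p : ℤ) (cyclotomic (p ^ (m + 1)) ℤ) ≡ 0 [ZMOD (p : ℤ)] :=
      Int.modEq_zero_iff_dvd.2 hdvd
    have h10 : (1 : ℤ) ≡ 0 [ZMOD (p : ℤ)] := h1.symm.trans h0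
    have : (p : ℤ) ∣ 1 := Int.modEq_zero_iff_dvd.1 h10
    have hp1 : p ∣ 1 := by exact_mod_cast this
    exact hp.one_lt.ne' (Nat.dvd_one.1 hp1)
  have hroot : IsRoot (cyclotomic (p ^ (m + 1)) (ZMod ℓ)) ((p : ℕ) : ZMod ℓ) := by
    have : (((p : ℕ) : ℤ) : ZMod ℓ) = ↑(Int.castRingHom (ZMod ℓ) (p : ℤ)) := by simp
    rw [IsRoot.def, ← map_cyclotomic_int (p ^ (m + 1)) (ZMod ℓ), eval_map,
      ← Int.cast_natCast, this, eval₂_hom, Int.coe_castRingHom,
      ZMod.intCast_zmod_eq_zero_iff_dvd]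
    exact hdvd
  have hnz : NeZero ((p ^ (m + 1) : ℕ) : ZMod ℓ) := by
    refine NeZero.of_not_dvd (ZMod ℓ) fun hdiv => hne ?_
    exact (Nat.prime_dvd_prime_iff_eq hprime.1 hp).1 (hprime.1.dvd_of_dvd_pow hdiv)
  refine ⟨ℓ, hprime.1, hne, ?_⟩
  exact ((isRoot_cyclotomic_iff.mp hroot).eq_orderOf).symm

/-- Consequence: such an `ℓ` satisfies `ℓ ≡ 1 mod p ^ n`. -/
theorem exists_prime_orderOf_eq_prime_pow' (p : ℕ) (hp : p.Prime) (n : ℕ) (hn : 1 ≤ n) :
    ∃ ℓ : ℕ, ℓ.Prime ∧ ℓ ≠ p ∧ orderOf ((p : ZMod ℓ)) = p ^ n ∧ p ^ n ∣ ℓ - 1 := by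
  obtain ⟨ℓ, hℓ, hne, hord⟩ := exists_prime_orderOf_eq_prime_pow p hp n hn
  have : Fact ℓ.Prime := ⟨hℓ⟩
  refine ⟨ℓ, hℓ, hne, hord, ?_⟩
  have hpl : ¬ ℓ ∣ p := fun h => hne ((Nat.prime_dvd_prime_iff_eq hℓ hp).1 h)
  have hdiv : orderOf ((p : ZMod ℓ)) ∣ ℓ - 1 :=
    ZMod.orderOf_dvd_card_sub_one (mt (CharP.cast_eq_zero_iff _ _ _).1 hpl)
  rwa [hord] at hdiv

/-- There are infinitely many such primes as `n` varies: for every bound `B` there are `n` and
a prime `ℓ > B`, `ℓ ≠ p`, with `orderOf (p : ZMod ℓ) = p ^ n` and `n ≥ n₀`. -/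
theorem exists_prime_gt_orderOf_eq_prime_pow (p : ℕ) (hp : p.Prime) (n₀ B : ℕ) :
    ∃ n ℓ : ℕ, n₀ ≤ n ∧ ℓ.Prime ∧ ℓ ≠ p ∧ B < ℓ ∧ orderOf ((p : ZMod ℓ)) = p ^ n := by
  -- `ℓ ≡ 1 mod p ^ n` forces `ℓ > p ^ n ≥ 2 ^ n > n`
  obtain ⟨ℓ, hℓ, hne, hord, hdvd⟩ :=
    exists_prime_orderOf_eq_prime_pow' p hp (max n₀ B + 1) (by omega)
  refine ⟨max n₀ B + 1, ℓ, by omega, hℓ, hne, ?_, hord⟩
  have h1 : p ^ (max n₀ B + 1) ≤ ℓ - 1 :=
    Nat.le_of_dvd (by have := hℓ.two_le; omega) hdvd
  have h2 : max n₀ B + 1 < p ^ (max n₀ B + 1) := Nat.lt_pow_self hp.one_lt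
  omega

end Fermat.Agent.S55.G.Rec.H897

end
-- ===== PACK-END S55/G/Rec/ZsigmondyH897.lean

-- ===== PACK-BEGIN S55/H954/H2InfResCore.lean
section


/-!
# Inflation–restriction in degree 2: the cochain-level core

Pure function-level statements (no category theory): `ρ : Representation k G A`, `S` a normal
subgroup of `G` with `H¹(S, A) = 0` (stated on cocycles).

* `exists_inflated_of_res_coboundary`: a 2-cocycle of `G` whose restriction to `S` is a coboundary
  is cohomologous to a 2-cocycle which is `S`-bi-invariant with values in `A^S`.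
* `exists_invariant_cochain_of_inf_coboundary`: if the inflation of a 2-cocycle of `G ⧸ S` is the
  coboundary of `c`, then `c` can be corrected by a 0-coboundary to an `S`-invariant cochain with
  values in `A^S`.
-/

set_option autoImplicit false
set_option linter.unusedSectionVars false
set_option linter.unusedSimpArgs false

namespace Fermat.Agent.S55.H954

variable {k G A : Type*} [CommRing k] [Group G] [AddCommGroup A] [Module k A]

/-- 2-cocycle identity for `f : G × G → A`. -/
def IsTwoCocycle (ρ : Representation k G A) (f : G × G → A) : Prop :=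
  ∀ g h j : G, f (g * h, j) + f (g, h) = ρ g (f (h, j)) + f (g, h * j)

/-- The coboundary of a 1-cochain. -/
def dOne (ρ : Representation k G A) (c : G → A) : G × G → A :=
  fun p => ρ p.1 (c p.2) - c (p.1 * p.2) + c p.1

lemma dOne_apply (ρ : Representation k G A) (c : G → A) (g h : G) :
    dOne ρ c (g, h) = ρ g (c h) - c (g * h) + c g := rfl

lemma isTwoCocycle_dOne (ρ : Representation k G A) (c : G → A) : IsTwoCocycle ρ (dOne ρ c) := by
  intro g h j
  simp only [dOne_apply, map_add, map_sub, map_mul, Module.End.mul_apply, mul_assoc]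
  abel

lemma IsTwoCocycle.sub {ρ : Representation k G A} {f f' : G × G → A}
    (hf : IsTwoCocycle ρ f) (hf' : IsTwoCocycle ρ f') : IsTwoCocycle ρ (f - f') := by
  intro g h j
  have h1 := hf g h j
  have h2 := hf' g h j
  simp only [Pi.sub_apply, map_sub]
  rw [sub_add_sub_comm, h1, h2]; abel

/-- `H¹(S, A) = 0`, on the level of cocycles. -/
def HOneVanishes (ρ : Representation k G A) (S : Subgroup G) : Prop :=
  ∀ w : S → A, (∀ s t : S, w (s * t) = ρ s (w t) + w s) → ∃ a : A, ∀ s : S, w s = ρ s a - a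


section Rep

variable (S : Subgroup G) [S.Normal]

open Classical in
/-- A coset representative function, normalised to be `1` on `S`. -/
noncomputable def cosetRep (g : G) : G :=
  if g ∈ S then 1 else (QuotientGroup.mk (s := S) g).out

lemma cosetRep_of_mem {s : G} (hs : s ∈ S) : cosetRep S s = 1 := by
  simp [cosetRep, hs]

lemma cosetRep_inv_mul_mem (g : G) : (cosetRep S g)⁻¹ * g ∈ S := by
  unfold cosetRep
  split_ifs with h
  · simpa using h
  · exact QuotientGroup.eq.1 (QuotientGroup.out_eq' (QuotientGroup.mk (s := S) g))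

lemma mul_cosetRep_inv_mem (g : G) : g * (cosetRep S g)⁻¹ ∈ S := by
  have h := cosetRep_inv_mul_mem S g
  have := Subgroup.Normal.conj_mem ‹S.Normal› _ h (cosetRep S g)
  simpa [mul_assoc] using this

lemma cosetRep_mul_right (g : G) {s : G} (hs : s ∈ S) : cosetRep S (g * s) = cosetRep S g := by
  unfold cosetRep
  have hmem : g * s ∈ S ↔ g ∈ S := Subgroup.mul_mem_cancel_right S hs
  have hq : (QuotientGroup.mk (s := S) (g * s)) = QuotientGroup.mk g := by
    rw [QuotientGroup.eq]
    simpa [mul_assoc] using S.inv_mem hs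
  rw [hq]
  by_cases h : g ∈ S
  · rw [if_pos h, if_pos (hmem.2 h)]
  · rw [if_neg h, if_neg (fun h' => h (hmem.1 h'))]

lemma cosetRep_mul_left (g : G) {s : G} (hs : s ∈ S) : cosetRep S (s * g) = cosetRep S g := by
  have : s * g = g * (g⁻¹ * s * g) := by group
  rw [this]
  exact cosetRep_mul_right S g (Subgroup.Normal.conj_mem' ‹S.Normal› _ hs _)

end Rep

section Steps

variable (ρ : Representation k G A) (S : Subgroup G) [S.Normal]

/-- Step 0: make the restriction to `S × S` vanish. -/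
lemma step0 {f : G × G → A} (φ : S → A)
    (hφ : ∀ s t : S, f (s, t) = ρ s (φ t) - φ (s * t) + φ s) :
    ∃ c : G → A, ∀ s ∈ S, ∀ t ∈ S, (f - dOne ρ c) (s, t) = 0 := by
  classical
  refine ⟨fun g => if h : g ∈ S then φ ⟨g, h⟩ else 0, fun s hs t ht => ?_⟩
  have := hφ ⟨s, hs⟩ ⟨t, ht⟩
  simp only [Pi.sub_apply, dOne_apply, hs, ht, S.mul_mem hs ht, dif_pos]
  simp only [Subgroup.coe_mk] at this
  rw [this]
  simp

/-- Step 1: make `f (s, g)` vanish for `s ∈ S`. -/
lemma step1 {f : G × G → A} (hf : IsTwoCocycle ρ f)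
    (h0 : ∀ s ∈ S, ∀ t ∈ S, f (s, t) = 0) :
    ∃ c : G → A, ∀ s ∈ S, ∀ g : G, (f - dOne ρ c) (s, g) = 0 := by
  refine ⟨fun g => - f (g * (cosetRep S g)⁻¹, cosetRep S g), fun s hs g => ?_⟩
  have ht := mul_cosetRep_inv_mem S g
  set r := cosetRep S g with hr
  set t := g * r⁻¹ with htdef
  have hg : g = t * r := by simp [htdef]
  have hcoc := hf s t r
  rw [h0 s hs t ht, add_zero, ← hg] at hcoc
  simp only [Pi.sub_apply, dOne_apply, cosetRep_mul_left S g hs, cosetRep_of_mem S hs]
  rw [← hr]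
  have e1 : s * g * r⁻¹ = s * t := by simp [htdef, mul_assoc]
  have e2 : f (s * 1⁻¹, (1 : G)) = 0 := by simpa using h0 s hs 1 S.one_mem
  rw [e1, e2, hcoc, map_neg]
  abel

/-- For a cocycle vanishing on `S × G`, the functions `s ↦ ρ g⁻¹ (f (g, s))` are 1-cocycles of
`S`. -/
lemma isOneCocycle_of_vanish_left {f : G × G → A} (hf : IsTwoCocycle ρ f)
    (h1 : ∀ s ∈ S, ∀ g : G, f (s, g) = 0) (g : G) (s t : S) :
    ρ g⁻¹ (f (g, ((s * t : S) : G))) = ρ s (ρ g⁻¹ (f (g, (t : G)))) + ρ g⁻¹ (f (g, (s : G))) := by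
  -- (g, s, t): f (g s, t) + f (g, s) = ρ g (f (s, t)) + f (g, s t)
  have c1 := hf g s t
  rw [h1 s s.2 t, map_zero, zero_add] at c1
  -- (g s g⁻¹, g, t): f (g s, t) + f (g s g⁻¹, g) = ρ (g s g⁻¹) (f (g, t)) + f (g s g⁻¹, g t)
  have hconj : g * s * g⁻¹ ∈ S := Subgroup.Normal.conj_mem ‹S.Normal› _ s.2 g
  have c2 := hf (g * s * g⁻¹) g t
  rw [h1 _ hconj g, h1 _ hconj (g * t), add_zero, add_zero] at c2
  have e : g * s * g⁻¹ * g = g * s := by group
  rw [e] at c2
  have hfgst : f (g, (s : G) * t) = ρ (g * s * g⁻¹) (f (g, (t : G))) + f (g, (s : G)) := by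
    rw [← c1, c2]
  have hcomm : ∀ x : A, ρ g⁻¹ (ρ (g * s * g⁻¹) x) = ρ s (ρ g⁻¹ x) := by
    intro x
    simp only [map_mul, Module.End.mul_apply, Representation.inv_self_apply]
  rw [Subgroup.coe_mul, hfgst, map_add, hcomm]

/-- Step 2: make `f (g, s)` vanish for `s ∈ S`, keeping `f (s, g) = 0`. -/
lemma step2 (hH1 : HOneVanishes ρ S) {f : G × G → A} (hf : IsTwoCocycle ρ f)
    (h1 : ∀ s ∈ S, ∀ g : G, f (s, g) = 0) :
    ∃ c : G → A, (∀ s ∈ S, ∀ g : G, (f - dOne ρ c) (s, g) = 0) ∧
      ∀ s ∈ S, ∀ g : G, (f - dOne ρ c) (g, s) = 0 := by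
  classical
  have hex : ∀ g : G, ∃ a : A, ∀ s : S, ρ g⁻¹ (f (g, (s : G))) = ρ s a - a := fun g =>
    hH1 (fun s => ρ g⁻¹ (f (g, (s : G)))) (fun s t => isOneCocycle_of_vanish_left ρ S hf h1 g s t)
  choose a ha using hex
  -- a' is constant on cosets and vanishes on `S`
  set a' : G → A := fun g => if g ∈ S then 0 else a (cosetRep S g) with ha'
  have ha'_right : ∀ g : G, ∀ s ∈ S, a' (g * s) = a' g := by
    intro g s hs
    simp only [ha', Subgroup.mul_mem_cancel_right S hs, cosetRep_mul_right S g hs]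
  have ha'_left : ∀ g : G, ∀ s ∈ S, a' (s * g) = a' g := by
    intro g s hs
    simp only [ha', Subgroup.mul_mem_cancel_left S hs, cosetRep_mul_left S g hs]
  have ha'_mem : ∀ s ∈ S, a' s = 0 := fun s hs => by simp [ha', hs]
  have key : ∀ g : G, ∀ s ∈ S, f (g, s) = ρ (g * s) (a' g) - ρ g (a' g) := by
    intro g s hs
    by_cases hg : g ∈ S
    · rw [h1 g hg s, ha'_mem g hg]; simp
    · have hr : a' g = a (cosetRep S g) := by simp [ha', hg]
      rw [hr]
      set r := cosetRep S g with hrdef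
      set t := r⁻¹ * g with htdef
      have ht : t ∈ S := cosetRep_inv_mul_mem S g
      have hgrt : g = r * t := by simp [htdef]
      -- (r, t, s): f (r t, s) + f (r, t) = ρ r (f (t, s)) + f (r, t s)
      have c := hf r t s
      rw [h1 t ht s, map_zero, zero_add, ← hgrt] at c
      have e1 := ha r ⟨t * s, S.mul_mem ht hs⟩
      have e2 := ha r ⟨t, ht⟩
      simp only [Subgroup.coe_mk] at e1 e2
      have e1' : f (r, t * s) = ρ r (ρ (t * s) (a r) - a r) := by
        rw [← e1, ← Module.End.mul_apply, ← map_mul]; simp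
      have e2' : f (r, t) = ρ r (ρ t (a r) - a r) := by
        rw [← e2, ← Module.End.mul_apply, ← map_mul]; simp
      have : f (g, s) = f (r, t * s) - f (r, t) := eq_sub_of_add_eq c
      rw [this, e1', e2', hgrt]
      simp only [map_sub, map_mul, Module.End.mul_apply]
      abel
  refine ⟨fun g => - ρ g (a' g), fun s hs g => ?_, fun s hs g => ?_⟩
  · simp only [Pi.sub_apply, dOne_apply, h1 s hs g, ha'_left g s hs, ha'_mem s hs, map_neg,
      map_zero, map_mul, Module.End.mul_apply]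
    abel
  · simp only [Pi.sub_apply, dOne_apply, key g s hs, ha'_right g s hs, ha'_mem s hs, map_neg,
      map_zero, map_mul, Module.End.mul_apply]
    abel

/-- Step 3: a cocycle vanishing on `S × G` and `G × S` is `S`-bi-invariant with values in
`A^S`. -/
lemma step3 {f : G × G → A} (hf : IsTwoCocycle ρ f)
    (h1 : ∀ s ∈ S, ∀ g : G, f (s, g) = 0) (h2 : ∀ s ∈ S, ∀ g : G, f (g, s) = 0) :
    (∀ s ∈ S, ∀ g h : G, f (g, h * s) = f (g, h)) ∧
    (∀ s ∈ S, ∀ g h : G, f (g * s, h) = f (g, h)) ∧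
    (∀ s ∈ S, ∀ g h : G, ρ s (f (g, h)) = f (g, h)) := by
  have hsnd : ∀ s ∈ S, ∀ g h : G, f (g, h * s) = f (g, h) := by
    intro s hs g h
    have c := hf g h s
    rw [h2 s hs (g * h), h2 s hs h, map_zero, zero_add, zero_add] at c
    exact c.symm
  have hleft : ∀ s ∈ S, ∀ g h : G, f (s * g, h) = ρ s (f (g, h)) := by
    intro s hs g h
    have c := hf s g h
    rw [h1 s hs g, h1 s hs (g * h), add_zero, add_zero] at c
    exact c
  have hfst : ∀ s ∈ S, ∀ g h : G, f (g * s, h) = f (g, h) := by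
    intro s hs g h
    have c := hf g s h
    rw [h2 s hs g, add_zero, h1 s hs h, map_zero, zero_add] at c
    rw [c]
    have : s * h = h * (h⁻¹ * s * h) := by group
    rw [this]
    exact hsnd _ (Subgroup.Normal.conj_mem' ‹S.Normal› _ hs _) g h
  refine ⟨hsnd, hfst, fun s hs g h => ?_⟩
  rw [← hleft s hs g h]
  have : s * g = g * (g⁻¹ * s * g) := by group
  rw [this]
  exact hfst _ (Subgroup.Normal.conj_mem' ‹S.Normal› _ hs _) g h

/-- **Inflation–restriction in degree 2, exactness at `H²(G, A)`** (cochain form). -/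
theorem exists_inflated_of_res_coboundary (hH1 : HOneVanishes ρ S) {f : G × G → A}
    (hf : IsTwoCocycle ρ f) (φ : S → A)
    (hφ : ∀ s t : S, f (s, t) = ρ s (φ t) - φ (s * t) + φ s) :
    ∃ (c : G → A) (f' : G × G → A), f = f' + dOne ρ c ∧ IsTwoCocycle ρ f' ∧
      (∀ s ∈ S, ∀ g h : G, f' (g, h * s) = f' (g, h)) ∧
      (∀ s ∈ S, ∀ g h : G, f' (g * s, h) = f' (g, h)) ∧
      (∀ s ∈ S, ∀ g h : G, ρ s (f' (g, h)) = f' (g, h)) := by
  obtain ⟨c0, h0⟩ := step0 ρ S φ hφ
  have hf0 : IsTwoCocycle ρ (f - dOne ρ c0) := hf.sub (isTwoCocycle_dOne ρ c0)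
  obtain ⟨c1, h1⟩ := step1 ρ S hf0 h0
  have hf1 : IsTwoCocycle ρ (f - dOne ρ c0 - dOne ρ c1) := hf0.sub (isTwoCocycle_dOne ρ c1)
  obtain ⟨c2, h2, h2'⟩ := step2 ρ S hH1 hf1 h1
  have hf2 : IsTwoCocycle ρ (f - dOne ρ c0 - dOne ρ c1 - dOne ρ c2) :=
    hf1.sub (isTwoCocycle_dOne ρ c2)
  obtain ⟨i1, i2, i3⟩ := step3 ρ S hf2 h2 h2'
  refine ⟨c0 + c1 + c2, f - dOne ρ c0 - dOne ρ c1 - dOne ρ c2, ?_, hf2, i1, i2, i3⟩
  funext ⟨g, h⟩
  simp only [Pi.add_apply, Pi.sub_apply, dOne_apply, map_add]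
  abel

/-- **Inflation–restriction in degree 2, injectivity of inflation** (cochain form): if an
`S`-bi-invariant `A^S`-valued function `f'` equals `dOne c`, then after correcting `c` by a
0-coboundary it becomes `S`-invariant with values in `A^S`. -/
theorem exists_invariant_cochain_of_inf_coboundary (hH1 : HOneVanishes ρ S) {f' : G × G → A}
    (hinv2 : ∀ s ∈ S, ∀ g h : G, f' (g, h * s) = f' (g, h))
    (hinv1 : ∀ s ∈ S, ∀ g h : G, f' (g * s, h) = f' (g, h))
    (hval : ∀ s ∈ S, ∀ g h : G, ρ s (f' (g, h)) = f' (g, h))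
    (c : G → A) (hc : f' = dOne ρ c) :
    ∃ c' : G → A, f' = dOne ρ c' ∧ (∀ s ∈ S, ∀ g : G, c' (g * s) = c' g) ∧
      (∀ s ∈ S, ∀ g : G, ρ s (c' g) = c' g) := by
  set e := f' (1, 1) with he
  have hfe : ∀ s ∈ S, ∀ t ∈ S, f' (s, t) = e := by
    intro s hs t ht
    have := hinv1 s hs 1 t
    rw [one_mul] at this
    rw [this]
    have := hinv2 t ht 1 1
    rwa [one_mul] at this
  have hρe : ∀ s ∈ S, ρ s e = e := fun s hs => hval s hs 1 1
  -- `c - e` restricted to `S` is a 1-cocycle
  obtain ⟨a, ha⟩ := hH1 (fun s => c s - e) (by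
    intro s t
    have h := hfe s s.2 t t.2
    rw [hc, dOne_apply] at h
    simp only [Subgroup.coe_mul, map_sub, hρe s s.2]
    have : c (↑s * ↑t) = ρ ↑s (c ↑t) + c ↑s - e := by rw [← h]; abel
    rw [this]; abel)
  have hcS : ∀ s ∈ S, c s - (ρ s a - a) = e := by
    intro s hs
    have := ha ⟨s, hs⟩
    simp only [Subgroup.coe_mk] at this
    rw [← this]; abel
  set c' : G → A := fun g => c g - (ρ g a - a) with hc'
  have hd : f' = dOne ρ c' := by
    rw [hc]
    funext ⟨g, h⟩
    simp only [dOne_apply, hc', map_sub, map_mul, Module.End.mul_apply]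
    abel
  have hc'S : ∀ s ∈ S, c' s = e := hcS
  have hc'1 : c' 1 = e := hc'S 1 S.one_mem
  have hfg1 : ∀ g : G, f' (g, 1) = ρ g e := by
    intro g
    have := congr_fun hd (g, 1)
    rw [dOne_apply, mul_one, hc'1] at this
    rw [this]; abel
  have hf1g : ∀ g : G, f' (1, g) = e := by
    intro g
    have := congr_fun hd (1, g)
    rw [dOne_apply, one_mul, hc'1, map_one, Module.End.one_apply] at this
    rw [this]; abel
  have hright : ∀ s ∈ S, ∀ g : G, c' (g * s) = c' g := by
    intro s hs g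
    have h1 := congr_fun hd (g, s)
    rw [dOne_apply, hc'S s hs] at h1
    have h2 := hinv2 s hs g 1
    rw [one_mul, hfg1 g] at h2
    rw [h2] at h1
    have h3 : c' g - c' (g * s) = 0 := by
      have := sub_eq_zero.2 h1.symm
      rw [← this]; abel
    exact (sub_eq_zero.1 h3).symm
  refine ⟨c', hd, hright, fun s hs g => ?_⟩
  have h1 := congr_fun hd (s, g)
  rw [dOne_apply, hc'S s hs] at h1
  have h2 := hinv1 s hs 1 g
  rw [one_mul, hf1g g] at h2
  rw [h2] at h1
  have h3 : c' (s * g) = c' g := by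
    have : s * g = g * (g⁻¹ * s * g) := by group
    rw [this]
    exact hright _ (Subgroup.Normal.conj_mem' ‹S.Normal› _ hs _) g
  rw [h3] at h1
  have h4 : ρ s (c' g) - c' g = 0 := by
    have := sub_eq_zero.2 h1.symm
    rw [← this]; abel
  exact sub_eq_zero.1 h4

end Steps

end Fermat.Agent.S55.H954

end
-- ===== PACK-END S55/H954/H2InfResCore.lean

-- ===== PACK-BEGIN S55/L/H355/FinField.lean
section


/-!
# S55, layer L, helper355: two elementary lemmas on finite fields and powers of `q`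
-/

set_option autoImplicit false

namespace Fermat.Agent.S55.L.H355

/-- If `x ^ m = x ^ m'` for all `x` in a finite field `k` then `m ≡ m'` modulo `|k| - 1`. -/
theorem modEq_of_forall_pow_eq {k : Type} [Field k] [Finite k] {m m' : ℕ}
    (h : ∀ x : k, x ^ m = x ^ m') : m ≡ m' [MOD Nat.card k - 1] := by
  obtain ⟨g, hg⟩ := IsCyclic.exists_generator (α := kˣ)
  have hord : orderOf g = Nat.card k - 1 := by
    rw [orderOf_eq_card_of_forall_mem_zpowers hg, Nat.card_units]
  have h1 : g ^ m = g ^ m' := by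
    apply Units.ext
    simpa using h (g : k)
  rw [← hord]
  exact pow_eq_pow_iff_modEq.1 h1

/-- The multiplicative order of `q` modulo `q ^ n - 1` is `n`. -/
theorem modEq_of_pow_modEq {q n a b : ℕ} (hq : 2 ≤ q) (hn : 0 < n)
    (h : q ^ a ≡ q ^ b [MOD q ^ n - 1]) : a ≡ b [MOD n] := by
  rcases Nat.lt_or_ge 1 n with hn2 | hn1
  · -- `n ≥ 2`
    have hqn : q ^ n ≡ 1 [MOD q ^ n - 1] := by
      have h1 : 1 ≤ q ^ n := Nat.one_le_pow _ _ (by omega)
      exact ((Nat.modEq_iff_dvd' h1).2 (dvd_refl _)).symm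
    have hred : ∀ c : ℕ, q ^ c ≡ q ^ (c % n) [MOD q ^ n - 1] := by
      intro c
      conv_lhs => rw [← Nat.div_add_mod c n]
      rw [pow_add, pow_mul]
      calc (q ^ n) ^ (c / n) * q ^ (c % n) ≡ 1 ^ (c / n) * q ^ (c % n) [MOD q ^ n - 1] :=
            (hqn.pow _).mul_right _
        _ = q ^ (c % n) := by rw [one_pow, one_mul]
    have h2 : q ^ (a % n) ≡ q ^ (b % n) [MOD q ^ n - 1] := ((hred a).symm.trans h).trans (hred b)
    have hlt : ∀ c : ℕ, c < n → q ^ c < q ^ n - 1 := by
      intro c hc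
      have h3 : q ^ c ≤ q ^ (n - 1) := Nat.pow_le_pow_right (by omega) (by omega)
      have h4 : q ^ n = q ^ (n - 1) * q := by
        rw [← pow_succ]; congr 1; omega
      have h5 : 2 ≤ q ^ (n - 1) := by
        calc 2 ≤ q := hq
          _ = q ^ 1 := (pow_one q).symm
          _ ≤ q ^ (n - 1) := Nat.pow_le_pow_right (by omega) (by omega)
      have h6 : q ^ (n - 1) * 2 ≤ q ^ (n - 1) * q := Nat.mul_le_mul_left _ hq
      omega
    have h3 := h2.eq_of_lt_of_lt (hlt _ (Nat.mod_lt _ hn)) (hlt _ (Nat.mod_lt _ hn))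
    exact Nat.pow_right_injective hq h3
  · have : n = 1 := by omega
    rw [this]
    exact Nat.modEq_one

end Fermat.Agent.S55.L.H355

end
-- ===== PACK-END S55/L/H355/FinField.lean

-- ===== PACK-BEGIN S55/L/H355/CycIdx.lean
section


/-!
# S55, layer L, helper355: discrete logarithm in a finite cyclic group and the carry function

`cidx σ g` is the least `i` with `σ ^ i = g` (when `σ` generates the finite group `G`).
-/

set_option autoImplicit false

namespace Fermat.Agent.S55.L.H355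

section

variable {G : Type} [Group G]

open Classical in
/-- Discrete logarithm: the least `i < orderOf σ` with `σ ^ i = g` (junk value `0` if none). -/
noncomputable def cidx (σ g : G) : ℕ :=
  if h : ∃ i, i < orderOf σ ∧ σ ^ i = g then Nat.find h else 0

variable [Finite G] {σ : G}

theorem exists_lt_pow_eq (hσ : ∀ x, x ∈ Subgroup.zpowers σ) (g : G) :
    ∃ i, i < orderOf σ ∧ σ ^ i = g := by
  have h1 : g ∈ Submonoid.powers σ := mem_powers_iff_mem_zpowers.2 (hσ g)
  obtain ⟨m, hm⟩ := (Submonoid.mem_powers_iff g σ).1 h1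
  exact ⟨m % orderOf σ, Nat.mod_lt _ (orderOf_pos σ), by rw [pow_mod_orderOf, hm]⟩

theorem cidx_lt (σ g : G) : cidx σ g < orderOf σ := by
  classical
  unfold cidx
  split_ifs with h
  · exact (Nat.find_spec h).1
  · exact orderOf_pos σ

theorem pow_cidx (hσ : ∀ x, x ∈ Subgroup.zpowers σ) (g : G) : σ ^ cidx σ g = g := by
  classical
  unfold cidx
  rw [dif_pos (exists_lt_pow_eq hσ g)]
  exact (Nat.find_spec (exists_lt_pow_eq hσ g)).2

theorem cidx_eq_of_lt {i : ℕ} (hi : i < orderOf σ) {g : G} (h : σ ^ i = g) : cidx σ g = i := by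
  classical
  have hex : ∃ i, i < orderOf σ ∧ σ ^ i = g := ⟨i, hi, h⟩
  have h1 : cidx σ g < orderOf σ := cidx_lt σ g
  have h2 : σ ^ cidx σ g = g := by
    unfold cidx
    rw [dif_pos hex]
    exact (Nat.find_spec hex).2
  exact pow_injOn_Iio_orderOf (Set.mem_Iio.2 h1) (Set.mem_Iio.2 hi) (h2.trans h.symm)

theorem cidx_pow (i : ℕ) : cidx σ (σ ^ i) = i % orderOf σ :=
  cidx_eq_of_lt (Nat.mod_lt _ (orderOf_pos σ)) (pow_mod_orderOf σ i)

theorem cidx_one : cidx σ (1 : G) = 0 :=
  cidx_eq_of_lt (orderOf_pos σ) (pow_zero σ)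

theorem cidx_mul (hσ : ∀ x, x ∈ Subgroup.zpowers σ) (g h : G) :
    cidx σ (g * h) = (cidx σ g + cidx σ h) % orderOf σ := by
  have : g * h = σ ^ (cidx σ g + cidx σ h) := by
    rw [pow_add, pow_cidx hσ, pow_cidx hσ]
  rw [this, cidx_pow]

theorem cidx_self : cidx σ σ = 1 % orderOf σ := by
  have := cidx_pow (σ := σ) 1
  rwa [pow_one] at this

theorem cidx_mul_eq_ite (hσ : ∀ x, x ∈ Subgroup.zpowers σ) (g h : G) :
    cidx σ (g * h) = if cidx σ g + cidx σ h < orderOf σ then cidx σ g + cidx σ h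
      else cidx σ g + cidx σ h - orderOf σ := by
  rw [cidx_mul hσ]
  have h1 := cidx_lt σ g
  have h2 := cidx_lt σ h
  split_ifs with hlt
  · exact Nat.mod_eq_of_lt hlt
  · rw [Nat.mod_eq_sub_mod (not_lt.1 hlt)]
    exact Nat.mod_eq_of_lt (by omega)

end

end Fermat.Agent.S55.L.H355

end
-- ===== PACK-END S55/L/H355/CycIdx.lean

-- ===== PACK-BEGIN S55/H713/Approx.lean
section


/-!
# Successive approximation in a complete filtered commutative group

Let `V` be a commutative group with a decreasing, separated, complete filtration `W k` by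
subgroups, and let `f g : V →* V` with `f ∘ g = 1`, `g` preserving the filtration.  If the
sequence `g, f` is exact on every graded piece `W k / W (k+1)`, then it is exact on `W 0`.
-/

set_option autoImplicit false

namespace Fermat.Agent.S55.H713

variable {V : Type*} [CommGroup V]

/-- The recursive data of the successive approximation. -/
private noncomputable def approxSeq (W : ℕ → Subgroup V) (f g : V →* V)
    (hfg : ∀ u, f (g u) = 1)
    (hgr : ∀ k, ∀ u ∈ W k, f u ∈ W (k + 1) → ∃ w ∈ W k, u / g w ∈ W (k + 1))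
    (u : V) (hu0 : u ∈ W 0) (hu : f u = 1) :
    (k : ℕ) → { p : V × V // p.1 ∈ W k ∧ f p.1 = 1 ∧ p.2 ∈ W k ∧ p.1 / g p.2 ∈ W (k + 1) }
  | 0 =>
    let h := hgr 0 u hu0 (by rw [hu]; exact one_mem _)
    ⟨(u, h.choose), hu0, hu, h.choose_spec.1, h.choose_spec.2⟩
  | k + 1 =>
    let prev := approxSeq W f g hfg hgr u hu0 hu k
    let u' := prev.1.1 / g prev.1.2
    have hu' : u' ∈ W (k + 1) := prev.2.2.2.2
    have hfu' : f u' = 1 := by
      simp only [u', map_div, hfg, prev.2.2.1, div_one]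
    let h := hgr (k + 1) u' hu' (by rw [hfu']; exact one_mem _)
    ⟨(u', h.choose), hu', hfu', h.choose_spec.1, h.choose_spec.2⟩

/-- **Successive approximation**: exactness on graded pieces implies exactness. -/
theorem exists_eq_of_filtration (W : ℕ → Subgroup V) (f g : V →* V)
    (hsep : ∀ u, (∀ k, u ∈ W k) → u = 1)
    (hcomplete : ∀ w : ℕ → V, (∀ i, w i ∈ W i) →
      ∃ y ∈ W 0, ∀ k, y / ∏ i ∈ Finset.range k, w i ∈ W k)
    (hgW : ∀ k, ∀ u ∈ W k, g u ∈ W k)
    (hfg : ∀ u, f (g u) = 1)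
    (hgr : ∀ k, ∀ u ∈ W k, f u ∈ W (k + 1) → ∃ w ∈ W k, u / g w ∈ W (k + 1))
    (u : V) (hu0 : u ∈ W 0) (hu : f u = 1) : ∃ y ∈ W 0, g y = u := by
  classical
  set s := approxSeq W f g hfg hgr u hu0 hu with hs
  -- the sequences
  let us : ℕ → V := fun k => (s k).1.1
  let ws : ℕ → V := fun k => (s k).1.2
  have hws : ∀ k, ws k ∈ W k := fun k => (s k).2.2.2.1
  have hus : ∀ k, us k ∈ W k := fun k => (s k).2.1
  have hu0' : us 0 = u := rfl
  have hstep : ∀ k, us (k + 1) = us k / g (ws k) := fun k => rfl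
  have hprod : ∀ k, u / ∏ i ∈ Finset.range k, g (ws i) = us k := by
    intro k
    induction k with
    | zero => simp [hu0']
    | succ k ih =>
      rw [Finset.prod_range_succ, hstep, ← ih, div_div]
  obtain ⟨y, hy0, hy⟩ := hcomplete ws hws
  refine ⟨y, hy0, ?_⟩
  have key : ∀ k, u / g y ∈ W k := by
    intro k
    have h1 : g (y / ∏ i ∈ Finset.range k, ws i) ∈ W k := hgW k _ (hy k)
    rw [map_div, map_prod] at h1
    have h2 : u / ∏ i ∈ Finset.range k, g (ws i) ∈ W k := by rw [hprod]; exact hus k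
    have : u / g y = (u / ∏ i ∈ Finset.range k, g (ws i)) /
        (g y / ∏ i ∈ Finset.range k, g (ws i)) := by
      rw [div_div_div_cancel_right]
    rw [this]
    exact (W k).div_mem h2 h1
  have := hsep _ key
  exact (div_eq_one.mp this).symm

end Fermat.Agent.S55.H713

end
-- ===== PACK-END S55/H713/Approx.lean

-- ===== PACK-BEGIN S55/Herbrand/Index.lean
section


/-!
# Herbrand quotient, abstract form (index calculus inside one group)

`B` is an additive commutative group with two endomorphisms `f g` such that `f ∘ g = 0` and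
`g ∘ f = 0`.  We write `hIndex f g = [ker f : im g]` (a natural number, `0` if infinite).
For a subgroup `A ≤ B` stable under `f` and `g` we express the three numbers attached to
`A`, `B` and `B ⧸ A` as indices of subgroups of `B` and prove the exact-hexagon identity
purely by index calculus.
-/

set_option autoImplicit false

namespace Fermat.Agent.S55.Herbrand

open AddSubgroup

variable {B : Type*} [AddCommGroup B]

/-- `[ker f : im g]` as a natural number (`0` when infinite). -/
noncomputable def hIndex (f g : B →+ B) : ℕ := g.range.relIndex f.ker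

section Internal

variable (f g : B →+ B) (A : AddSubgroup B)

/-- internal version of `hIndex` for the restriction of `f, g` to `A`. -/
noncomputable def hIndexSub : ℕ := (A.map g).relIndex (A ⊓ f.ker)

/-- internal version of `hIndex` for the maps induced by `f, g` on `B ⧸ A`. -/
noncomputable def hIndexQuot : ℕ := (g.range ⊔ A).relIndex (A.comap f)

/-- auxiliary index `[A ∩ im f : f A]` -/
noncomputable def auxAlpha : ℕ := (A.map f).relIndex (A ⊓ f.range)

/-- auxiliary index `[A ∩ ker f : A ∩ im g]` -/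
noncomputable def auxBeta : ℕ := (A ⊓ g.range).relIndex (A ⊓ f.ker)

/-- auxiliary index `[ker f : (A ∩ ker f) + im g]` -/
noncomputable def auxGamma : ℕ := ((A ⊓ f.ker) ⊔ g.range).relIndex f.ker

variable {f g A}

lemma range_le_ker (hfg : ∀ b, f (g b) = 0) : g.range ≤ f.ker := by
  rintro _ ⟨b, rfl⟩
  exact hfg b

lemma map_le_inf_range (hgA : ∀ a ∈ A, g a ∈ A) : A.map g ≤ A ⊓ g.range := by
  rintro _ ⟨a, ha, rfl⟩
  exact ⟨hgA a ha, ⟨a, rfl⟩⟩

lemma hIndexSub_eq (hfg : ∀ b, f (g b) = 0) (hgA : ∀ a ∈ A, g a ∈ A) :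
    hIndexSub f g A = (A.map g).relIndex (A ⊓ g.range) * auxBeta f g A := by
  unfold hIndexSub auxBeta
  rw [relIndex_mul_relIndex _ _ _ (map_le_inf_range hgA)
    (inf_le_inf_left A (range_le_ker hfg))]

lemma hIndex_eq (hfg : ∀ b, f (g b) = 0) :
    hIndex f g = auxBeta f g A * auxGamma f g A := by
  unfold hIndex auxBeta auxGamma
  have h1 : g.range ≤ (A ⊓ f.ker) ⊔ g.range := le_sup_right
  have h2 : (A ⊓ f.ker) ⊔ g.range ≤ f.ker := sup_le inf_le_right (range_le_ker hfg)
  rw [← relIndex_mul_relIndex _ _ _ h1 h2]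
  congr 1
  rw [relIndex_sup_right, ← inf_relIndex_right]
  congr 1
  apply le_antisymm
  · exact le_inf (inf_le_right.trans inf_le_left) inf_le_left
  · exact le_inf inf_le_right (inf_le_inf_left A (range_le_ker hfg))

lemma sup_inf_ker_eq (hfg : ∀ b, f (g b) = 0) :
    (g.range ⊔ A) ⊓ f.ker = (A ⊓ f.ker) ⊔ g.range := by
  apply le_antisymm
  · rintro x ⟨hx, hxk⟩
    obtain ⟨y, hy, z, hz, rfl⟩ := AddSubgroup.mem_sup.1 hx
    refine AddSubgroup.mem_sup.2 ⟨z, ⟨hz, ?_⟩, y, hy, add_comm _ _⟩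
    have hyk : y ∈ f.ker := range_le_ker hfg hy
    have : z = (y + z) - y := by abel
    rw [this]
    exact f.ker.sub_mem hxk hyk
  · refine sup_le ?_ ?_
    · exact le_inf (inf_le_left.trans le_sup_right) inf_le_right
    · exact le_inf le_sup_left (range_le_ker hfg)

lemma hIndexQuot_eq (hfg : ∀ b, f (g b) = 0) (hfA : ∀ a ∈ A, f a ∈ A) :
    hIndexQuot f g A = auxGamma f g A * auxAlpha f A := by
  unfold hIndexQuot auxGamma auxAlpha
  have h1 : g.range ⊔ A ≤ f.ker ⊔ A := sup_le_sup_right (range_le_ker hfg) A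
  have h2 : f.ker ⊔ A ≤ A.comap f := by
    refine sup_le ?_ ?_
    · intro x hx
      rw [AddSubgroup.mem_comap, AddMonoidHom.mem_ker.1 hx]
      exact A.zero_mem
    · intro x hx
      exact hfA x hx
  rw [← relIndex_mul_relIndex _ _ _ h1 h2]
  congr 1
  · -- first factor
    have : f.ker ⊔ A = f.ker ⊔ (g.range ⊔ A) := by
      rw [← sup_assoc, sup_eq_left.2 (range_le_ker hfg)]
    rw [this, relIndex_sup_right, ← inf_relIndex_right, sup_inf_ker_eq hfg]
  · -- second factor
    have hk : f.ker ⊔ A = (A.map f).comap f := by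
      rw [AddSubgroup.comap_map_eq, sup_comm]
    rw [hk, relIndex_comap, AddSubgroup.map_comap_eq, inf_comm]

/-- The **hexagon identity** in index form (valid in `ℕ`, including the infinite cases). -/
theorem hexagon (hfg : ∀ b, f (g b) = 0) (hgf : ∀ b, g (f b) = 0)
    (hfA : ∀ a ∈ A, f a ∈ A) (hgA : ∀ a ∈ A, g a ∈ A) :
    hIndexSub f g A * hIndexQuot f g A * hIndex g f =
      hIndexSub g f A * hIndexQuot g f A * hIndex f g := by
  rw [hIndexSub_eq hfg hgA, hIndexQuot_eq hfg hfA, hIndex_eq (A := A) hgf,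
    hIndexSub_eq hgf hfA, hIndexQuot_eq hgf hgA, hIndex_eq (A := A) hfg]
  unfold auxAlpha
  ring

end Internal

end Fermat.Agent.S55.Herbrand

end
-- ===== PACK-END S55/Herbrand/Index.lean

-- ===== PACK-BEGIN S55/T/Spec.lean
section


/-!
# S55, layer T (finite-group cohomology toolkit): frozen interface (Spec pattern)

Architect: helper53.  Everything in this file is a *definition* or a `def XxxSpec : Prop`.
Producers prove `theorem xxx : XxxSpec`; consumers take `(h : XxxSpec)` as a hypothesis.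

Conventions.
* `G : Type` is a finite group, `k : Type` a commutative ring, `A : Rep.{0} k G`.
  Every statement is GENERIC in `k` (this avoids the `Module ℤ` instance diamond: inside a
  generic statement the only `Module k A.V` instance is `A.hV2`).  Consumers use `k := ℤ`.
* `Hⁿ(G, A) = groupCohomology A n : ModuleCat k` (Mathlib).
* restriction to `H ≤ G`: `resSub A H = Rep.res H.subtype A`, `resMap A H n : Hⁿ(G,A) ⟶ Hⁿ(H,A)`.
* inflation from `G ⧸ S`: `infMap A S n : Hⁿ(G ⧸ S, A^S) ⟶ Hⁿ(G,A)` (formula of Mathlib `H1InfRes`).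
* Tate cohomology: Mathlib `tateCohomology A n` (`n : ℤ`); it needs `[Fintype G]`, which is
  universally quantified in the specs (so any instance may be plugged in).
-/

set_option autoImplicit false

open CategoryTheory groupCohomology

namespace Fermat.Agent.S55.T

/-! ## 0. Vocabulary -/

section Vocabulary

variable {k G : Type} [CommRing k] [Group G]

/-- `A` restricted to a subgroup `H ≤ G`. -/
noncomputable abbrev resSub (A : Rep.{0} k G) (H : Subgroup G) : Rep.{0} k H :=
  Rep.res H.subtype A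

/-- The restriction map `Hⁿ(G, A) ⟶ Hⁿ(H, A)`. -/
noncomputable abbrev resMap (A : Rep.{0} k G) (H : Subgroup G) (n : ℕ) :
    groupCohomology A n ⟶ groupCohomology (resSub A H) n :=
  groupCohomology.map H.subtype (𝟙 (resSub A H)) n

/-- The inflation map `Hⁿ(G ⧸ S, A^S) ⟶ Hⁿ(G, A)` (same formula as Mathlib's `H1InfRes`). -/
noncomputable abbrev infMap (A : Rep.{0} k G) (S : Subgroup G) [S.Normal] (n : ℕ) :
    groupCohomology (A.quotientToInvariants S) n ⟶ groupCohomology A n :=
  groupCohomology.map (QuotientGroup.mk' S) (Rep.ofHom <| A.ρ.quotientToInvariants_lift S) n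

/-- The map induced on `Hⁿ(G, -)` by a morphism of representations. -/
noncomputable abbrev coeffMap {A B : Rep.{0} k G} (f : A ⟶ B) (n : ℕ) :
    groupCohomology A n ⟶ groupCohomology B n :=
  groupCohomology.map (MonoidHom.id G) f n

/-- `Ĥ⁰`-index: the index of `N_G A` in `A^G` (`0` if infinite). -/
noncomputable def hat0Card [Fintype G] (A : Rep.{0} k G) : ℕ :=
  (LinearMap.range A.ρ.norm).toAddSubgroup.relIndex A.ρ.invariants.toAddSubgroup

/-- `Ĥ⁻¹`-index: the index of `I_G A = ∑_g (g - 1) A` in `ker N_G` (`0` if infinite). -/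
noncomputable def hatNeg1Card [Fintype G] (A : Rep.{0} k G) : ℕ :=
  (⨆ g : G, LinearMap.range (A.ρ g - 1)).toAddSubgroup.relIndex
    (LinearMap.ker A.ρ.norm).toAddSubgroup

/-- `Ĥ⁰(G, A) = A^G / N_G A` as a `k`-module (elementary form). -/
abbrev hat0 [Fintype G] (A : Rep.{0} k G) : Type :=
  ↥A.ρ.invariants ⧸ (LinearMap.range A.ρ.norm).comap A.ρ.invariants.subtype

/-- The norm `N_G ψ = ∑_g g ∘ ψ ∘ g⁻¹` of an additive map `ψ : A → B` (as a function). -/
noncomputable def normAdd [Fintype G] {A B : Rep.{0} k G} (ψ : A.V →+ B.V) (a : A.V) : B.V :=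
  ∑ g : G, B.ρ g (ψ (A.ρ g⁻¹ a))

/-- `A` is cohomologically trivial: all Tate cohomology groups of all subgroups vanish. -/
def IsCohTriv [Finite G] (A : Rep.{0} k G) : Prop :=
  ∀ (H : Subgroup G) [Fintype H] (n : ℤ), Limits.IsZero (tateCohomology (resSub A H) n)

/-- `(C, γ)` is a *class module*: for every subgroup `H ≤ G`, `H¹(H, C) = 0`, and `H²(H, C)` is
generated by `res_H γ` with annihilator exactly `|H| • k`
(for `k = ℤ`: `H²(H, C)` is cyclic of order `|H|`, generated by `res_H γ`). -/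
def IsClassModule [Finite G] (C : Rep.{0} k G) (γ : groupCohomology C 2) : Prop :=
  ∀ H : Subgroup G,
    Limits.IsZero (groupCohomology (resSub C H) 1) ∧
    (∀ x : groupCohomology (resSub C H) 2, ∃ c : k, x = c • (resMap C H 2).hom γ) ∧
    (∀ c : k, c • (resMap C H 2).hom γ = 0 → ∃ d : k, c = (Nat.card H : k) * d) ∧
    ((Nat.card H : k) • (resMap C H 2).hom γ = 0)

/-- `Hⁿ(G, A)` is finite and its cardinality divides `m`. -/
def CardDvd (M : ModuleCat.{0} k) (m : ℕ) : Prop :=
  Finite M ∧ Nat.card M ∣ m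

end Vocabulary

/-! ## T1. Restriction / corestriction -/

/-- **T1a.**  If `res_H x = 0` then `[G : H] • x = 0`  (all degrees `n ≥ 1`). -/
def ResIndexSpec : Prop :=
  ∀ (k G : Type) [CommRing k] [Group G] [Finite G] (A : Rep.{0} k G) (H : Subgroup G) (n : ℕ),
    0 < n → ∀ x : groupCohomology A n, (resMap A H n).hom x = 0 → H.index • x = 0

/-- **T1b.**  `|G|` kills `Hⁿ(G, A)` for `n ≥ 1`. -/
def CardTorsionSpec : Prop :=
  ∀ (k G : Type) [CommRing k] [Group G] [Finite G] (A : Rep.{0} k G) (n : ℕ),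
    0 < n → ∀ x : groupCohomology A n, Nat.card G • x = 0

/-- **T1c.**  Corestriction: a family `cor_A : Hⁿ(H, A) ⟶ Hⁿ(G, A)`, natural in `A`, with
`cor ∘ res = [G : H]`. -/
def CoresSpec : Prop :=
  ∀ (k G : Type) [CommRing k] [Group G] [Finite G] (H : Subgroup G) (n : ℕ),
    ∃ cor : ∀ A : Rep.{0} k G, groupCohomology (resSub A H) n ⟶ groupCohomology A n,
      (∀ (A : Rep.{0} k G) (x : groupCohomology A n),
        (cor A).hom ((resMap A H n).hom x) = H.index • x) ∧
      (∀ (A B : Rep.{0} k G) (f : A ⟶ B) (y : groupCohomology (resSub A H) n),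
        (cor B).hom ((coeffMap ((Rep.resFunctor H.subtype).map f) n).hom y) =
          (coeffMap f n).hom ((cor A).hom y))

/-! ## T2. Cyclic groups: Herbrand quotient in cohomological form -/

/-- **T2a.**  For a finite cyclic group, `|H²(G, A)| = [A^G : N_G A]` and
`|H¹(G, A)| = [ker N_G : I_G A]` (both sides `0` when infinite). -/
def CyclicCardSpec : Prop :=
  ∀ (k G : Type) [CommRing k] [Group G] [Fintype G] [IsCyclic G] (A : Rep.{0} k G),
    Nat.card (groupCohomology A 2) = hat0Card A ∧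
    Nat.card (groupCohomology A 1) = hatNeg1Card A

/-- **T2b.**  Herbrand quotient: for a short exact sequence `0 → A → B → C → 0` of
representations of a finite cyclic group, if two of the three have finite `H¹` and `H²`, so has
the third, and `|H²(B)| · |H¹(A)| · |H¹(C)| = |H¹(B)| · |H²(A)| · |H²(C)|`. -/
def HerbrandSpec : Prop :=
  ∀ (k G : Type) [CommRing k] [Group G] [Finite G] [IsCyclic G]
    (S : ShortComplex (Rep.{0} k G)), S.ShortExact →
    let fin : Rep.{0} k G → Prop :=
      fun A => Finite (groupCohomology A 1) ∧ Finite (groupCohomology A 2)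
    (fin S.X₁ → fin S.X₃ → fin S.X₂) ∧ (fin S.X₁ → fin S.X₂ → fin S.X₃) ∧
    (fin S.X₂ → fin S.X₃ → fin S.X₁) ∧
    (fin S.X₁ → fin S.X₂ → fin S.X₃ →
      Nat.card (groupCohomology S.X₂ 2) * Nat.card (groupCohomology S.X₁ 1) *
          Nat.card (groupCohomology S.X₃ 1) =
        Nat.card (groupCohomology S.X₂ 1) * Nat.card (groupCohomology S.X₁ 2) *
          Nat.card (groupCohomology S.X₃ 2))

/-- **T2c.**  A finite module over a finite cyclic group has Herbrand quotient `1`. -/
def HerbrandFiniteSpec : Prop :=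
  ∀ (k G : Type) [CommRing k] [Group G] [Finite G] [IsCyclic G] (A : Rep.{0} k G),
    Finite A.V →
    Finite (groupCohomology A 1) ∧ Finite (groupCohomology A 2) ∧
      Nat.card (groupCohomology A 1) = Nat.card (groupCohomology A 2)

/-! ## T3. Inflation–restriction in degree 2 -/

/-- **T3.**  If `S ⊴ G` and `H¹(S, A) = 0`, then
`0 → H²(G ⧸ S, A^S) → H²(G, A) → H²(S, A)` is exact. -/
def InfRes2Spec : Prop :=
  ∀ (k G : Type) [CommRing k] [Group G] [Finite G] (A : Rep.{0} k G) (S : Subgroup G) [S.Normal],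
    Limits.IsZero (groupCohomology (resSub A S) 1) →
    Function.Injective (infMap A S 2).hom ∧
    (∀ y, (resMap A S 2).hom ((infMap A S 2).hom y) = 0) ∧
    (∀ x, (resMap A S 2).hom x = 0 → ∃ y, (infMap A S 2).hom y = x)

/-! ## T3'. The "ugly lemma" (order of `H²` from the cyclic prime case) -/

/-- **T3'.**  Let `H¹(H, A) = 0` for all `H ≤ G`.  If for all `K ⊴ H ≤ G` with `[H : K]` prime
`|H²(H ⧸ K, A^K)|` divides `[H : K]`, then `|H²(H, A)|` divides `|H|` for all `H ≤ G`. -/
def UglySpec : Prop :=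
  ∀ (k G : Type) [CommRing k] [Group G] [Finite G] (A : Rep.{0} k G),
    (∀ H : Subgroup G, Limits.IsZero (groupCohomology (resSub A H) 1)) →
    (∀ (H : Subgroup G) (K : Subgroup H) [K.Normal], (Nat.card (H ⧸ K)).Prime →
      CardDvd (groupCohomology ((resSub A H).quotientToInvariants K) 2) (Nat.card (H ⧸ K))) →
    ∀ H : Subgroup G, CardDvd (groupCohomology (resSub A H) 2) (Nat.card H)

/-! ## T4. Cohomological triviality -/

/-- **T4a.**  Twin vanishing: `H¹(H, A) = H²(H, A) = 0` for all `H ≤ G` implies that `A` is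
cohomologically trivial. -/
def TwinVanishingSpec : Prop :=
  ∀ (k G : Type) [CommRing k] [Group G] [Finite G] (A : Rep.{0} k G),
    (∀ H : Subgroup G, Limits.IsZero (groupCohomology (resSub A H) 1) ∧
      Limits.IsZero (groupCohomology (resSub A H) 2)) →
    IsCohTriv A

/-- **T4b.**  Coinduced-from-trivial modules are cohomologically trivial. -/
def CoindCohTrivSpec : Prop :=
  ∀ (k G : Type) [CommRing k] [Group G] [Finite G] (B : Rep.{0} k (⊥ : Subgroup G)),
    IsCohTriv (Rep.coind (⊥ : Subgroup G).subtype B)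

/-! ## T5. Tate's theorem -/

/-- **T5a.**  Tate's theorem (generic `k`, assuming `H¹(H, k) = 0` for all `H ≤ G`, which holds
for `k = ℤ`): for a class module `(C, γ)` there are isomorphisms `Ĥⁿ(H, k) ≅ Ĥⁿ⁺²(H, C)` for all
`n : ℤ` and all `H ≤ G`. -/
def TateSpec : Prop :=
  ∀ (k G : Type) [CommRing k] [Group G] [Finite G] (C : Rep.{0} k G) (γ : groupCohomology C 2),
    (∀ H : Subgroup G, Limits.IsZero (groupCohomology (Rep.trivial k H k) 1)) →
    IsClassModule C γ →
    ∀ (H : Subgroup G) [Fintype H] (n : ℤ),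
      Nonempty (tateCohomology (Rep.trivial k H k) n ≅ tateCohomology (resSub C H) (n + 2))

/-- **T5a'.**  `H¹(G, ℤ) = 0` for a finite group `G`. -/
def H1TrivIntSpec : Prop :=
  ∀ (G : Type) [Group G] [Finite G], Limits.IsZero (groupCohomology (Rep.trivial ℤ G ℤ) 1)

/-- **T5b.**  `H³` of a class module over `ℤ` vanishes. -/
def TateH3Spec : Prop :=
  ∀ (G : Type) [Group G] [Finite G] (C : Rep.{0} ℤ G) (γ : groupCohomology C 2),
    IsClassModule C γ → ∀ H : Subgroup G, Limits.IsZero (groupCohomology (resSub C H) 3)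

/-- **T5c.**  Abstract reciprocity isomorphism of a class module over `ℤ`:
`H^ab ≃ C^H / N_H C` (as groups). -/
def TateReciprocitySpec : Prop :=
  ∀ (G : Type) [Group G] [Finite G] (C : Rep.{0} ℤ G) (γ : groupCohomology C 2),
    IsClassModule C γ → ∀ (H : Subgroup G) [Fintype H],
      Nonempty (Additive (Abelianization H) ≃+ hat0 (resSub C H))

/-! ## T6. Tate–Nakayama for lattices (TENTATIVE: shape to be confirmed by the D-architect) -/

/-- **T6.**  Let `(C, γ)` be a class module over `ℤ` and `R` a `G`-lattice (f.g. free over `ℤ`).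
Then `Hom_G(R, C) → Hom(H²(G, R), H²(G, C))`, `f ↦ f_*`, is surjective with kernel
`N_G Hom_ℤ(R, C)`; i.e. `Ĥ⁰(G, Hom(R, C)) ≅ Hom(H²(G, R), H²(G, C))`. -/
def TateNakayamaSpec : Prop :=
  ∀ (G : Type) [Group G] [Fintype G] (C : Rep.{0} ℤ G) (γ : groupCohomology C 2),
    IsClassModule C γ →
    ∀ (R : Rep.{0} ℤ G), @Module.Free ℤ R.V _ _ R.hV2 → @Module.Finite ℤ R.V _ _ R.hV2 →
      (∀ φ : groupCohomology R 2 →+ groupCohomology C 2,
        ∃ f : R ⟶ C, ∀ x, (coeffMap f 2).hom x = φ x) ∧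
      (∀ f : R ⟶ C, (∀ x, (coeffMap f 2).hom x = 0) ↔
        ∃ ψ : R.V →+ C.V, ∀ r, f.hom r = normAdd ψ r)

end Fermat.Agent.S55.T

end
-- ===== PACK-END S55/T/Spec.lean

-- ===== PACK-BEGIN S55/KL/Defs.lean
section


/-!
# S55, layer KL / KB ("Kummer bridge"): definitions                       (architect: helper183)

Purpose of the layer: translate the FINITE-LEVEL class field theory of layers L (local), G (global)
and T (finite-group toolkit) into the statements on level-constant cohomology that the duality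
engine (layer D, `coord/S55-D.md` of helper835) consumes: A2 (finiteness of `H¹`),
A4 / A3 (`H²` is right exact, i.e. `cd_p ≤ 2`), A5 / A6 (`H²(μ_p)` is one-dimensional).

Everything in this file is ABSTRACT and elementary:

* `Γ` is any group (think `Gal(ℚ̄_q/K)`, `K/ℚ_q` finite, or `G_S(K)`),
* a *level* is a normal subgroup `W` of finite index of `Γ` (think `G_E`, `E/K` finite Galois),
* `B : Rep k Γ` is a `Γ`-module (think `ℚ̄_qˣ` with `k = ℤ`, or a finite `𝔽_p[Γ]`-module);
  all definitions are GENERIC in `k` (this avoids the `Module ℤ` instance diamond),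
* `HL B W n = Hⁿ(Γ ⧸ W, B^W)` is the finite-level cohomology (Mathlib `groupCohomology`),
* `HLmap f hf φ n : HL B W n ⟶ HL B' W' n` is the functoriality for `f : Γ' →* Γ` with
  `f(W') ≤ W` and an equivariant `φ : B → B'`; special cases: inflation `infl` (`f = id`,
  `W' ≤ W`), restriction `rest` to a subgroup `U` (levels `W.subgroupOf U`), push-forward `push`.

No `sorry`, Mathlib only.
-/

set_option autoImplicit false
set_option linter.style.haveILetI false

open CategoryTheory groupCohomology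

namespace Fermat.Agent.S55.KL

variable {k : Type} [CommRing k] {Γ Γ' : Type} [Group Γ] [Group Γ']

/-! ## Finite-level cohomology and its functoriality -/

/-- The finite-level cohomology `Hⁿ(Γ ⧸ W, B^W)`. -/
noncomputable abbrev HL (B : Rep.{0} k Γ) (W : Subgroup Γ) [W.Normal] (n : ℕ) : ModuleCat.{0} k :=
  groupCohomology (B.quotientToInvariants W) n

/-- An equivariant map `φ : B → B'` along `f : Γ' → Γ` maps `B^W` to `B'^{W'}` if `f(W') ≤ W`. -/
def invMapLin {B : Rep.{0} k Γ} {B' : Rep.{0} k Γ'} (f : Γ' →* Γ) {W : Subgroup Γ}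
    {W' : Subgroup Γ'} (hf : W' ≤ W.comap f) (φ : Rep.res f B ⟶ B') :
    ↥(Representation.invariants (B.ρ.comp W.subtype)) →ₗ[k]
      ↥(Representation.invariants (B'.ρ.comp W'.subtype)) where
  toFun b := ⟨φ.hom b.1, fun w => by
    have h1 : B.ρ (f w.1) b.1 = b.1 := b.2 ⟨f w.1, hf w.2⟩
    have h2 := Rep.hom_comm_apply φ w.1 b.1
    show B'.ρ w.1 (φ.hom b.1) = φ.hom b.1
    rw [← h2]
    exact congrArg φ.hom h1⟩
  map_add' _ _ := Subtype.ext (map_add _ _ _)
  map_smul' _ _ := Subtype.ext (map_smul _ _ _)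

@[simp] lemma invMapLin_coe {B : Rep.{0} k Γ} {B' : Rep.{0} k Γ'} (f : Γ' →* Γ)
    {W : Subgroup Γ} {W' : Subgroup Γ'} (hf : W' ≤ W.comap f) (φ : Rep.res f B ⟶ B')
    (b : ↥(Representation.invariants (B.ρ.comp W.subtype))) :
    ((invMapLin f hf φ b : _) : B'.V) = φ.hom b.1 := rfl

/-- The map `B^W → B'^{W'}` as a morphism of representations of `Γ' ⧸ W'`. -/
noncomputable def invMap {B : Rep.{0} k Γ} {B' : Rep.{0} k Γ'} (f : Γ' →* Γ) {W : Subgroup Γ}
    [W.Normal] {W' : Subgroup Γ'} [W'.Normal] (hf : W' ≤ W.comap f) (φ : Rep.res f B ⟶ B') :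
    Rep.res (QuotientGroup.map W' W f hf) (B.quotientToInvariants W) ⟶
      B'.quotientToInvariants W' :=
  Rep.ofHom ⟨invMapLin f hf φ, fun g => by
    induction g using QuotientGroup.induction_on with
    | H g =>
      ext b
      exact Rep.hom_comm_apply φ g b.1⟩

/-- **Functoriality of finite-level cohomology.** -/
noncomputable def HLmap {B : Rep.{0} k Γ} {B' : Rep.{0} k Γ'} (f : Γ' →* Γ) {W : Subgroup Γ}
    [W.Normal] {W' : Subgroup Γ'} [W'.Normal] (hf : W' ≤ W.comap f) (φ : Rep.res f B ⟶ B')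
    (n : ℕ) : HL B W n ⟶ HL B' W' n :=
  groupCohomology.map (QuotientGroup.map W' W f hf) (invMap f hf φ) n


/-- **Inflation** `Hⁿ(Γ ⧸ W, B^W) ⟶ Hⁿ(Γ ⧸ W', B^{W'})` for `W' ≤ W`. -/
noncomputable abbrev infl (B : Rep.{0} k Γ) {W' W : Subgroup Γ} [W'.Normal] [W.Normal]
    (h : W' ≤ W) (n : ℕ) : HL B W n ⟶ HL B W' n :=
  HLmap (MonoidHom.id Γ) (W := W) (W' := W') (by simpa using h) (𝟙 B) n

/-- **Push-forward** along a morphism of representations. -/
noncomputable abbrev push {B B' : Rep.{0} k Γ} (φ : B ⟶ B') (W : Subgroup Γ) [W.Normal] (n : ℕ) :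
    HL B W n ⟶ HL B' W n :=
  HLmap (MonoidHom.id Γ) (W := W) (W' := W) (by simp) φ n

/-- **Restriction** to a subgroup `U ≤ Γ`:
`Hⁿ(Γ ⧸ W, B^W) ⟶ Hⁿ(U ⧸ (W ∩ U), B^{W ∩ U})`. -/
noncomputable abbrev rest (B : Rep.{0} k Γ) (U W : Subgroup Γ) [W.Normal] (n : ℕ) :
    HL B W n ⟶ HL (Rep.res U.subtype B) (W.subgroupOf U) n :=
  HLmap U.subtype (W := W) (W' := W.subgroupOf U) le_rfl (𝟙 (Rep.res U.subtype B)) n

/-! ## Level systems -/

/-- A nonempty directed family of normal subgroups of finite index of `Γ` ("levels"). -/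
structure NLevels (Γ : Type) [Group Γ] where
  /-- the levels -/
  carrier : Set (Subgroup Γ)
  normal : ∀ W ∈ carrier, W.Normal
  finiteIndex : ∀ W ∈ carrier, W.FiniteIndex
  nonempty : carrier.Nonempty
  directed : ∀ W ∈ carrier, ∀ W' ∈ carrier, ∃ X ∈ carrier, X ≤ W ⊓ W'

namespace NLevels

/-- A level, bundled (so that `Normal` is found by instance resolution). -/
structure Lvl (N : NLevels Γ) where
  /-- the underlying normal subgroup -/
  W : Subgroup Γ
  mem : W ∈ N.carrier

instance (N : NLevels Γ) (V : N.Lvl) : V.W.Normal := N.normal V.W V.mem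

instance (N : NLevels Γ) (V : N.Lvl) : V.W.FiniteIndex := N.finiteIndex V.W V.mem

instance (N : NLevels Γ) : Nonempty N.Lvl :=
  let ⟨W, hW⟩ := N.nonempty
  ⟨⟨W, hW⟩⟩

lemma exists_le (N : NLevels Γ) (V V' : N.Lvl) : ∃ X : N.Lvl, X.W ≤ V.W ∧ X.W ≤ V'.W := by
  obtain ⟨X, hX, hle⟩ := N.directed V.W V.mem V'.W V'.mem
  exact ⟨⟨X, hX⟩, (le_inf_iff.1 hle).1, (le_inf_iff.1 hle).2⟩

/-- `U` is open: it contains a level. -/
def IsOpen (N : NLevels Γ) (U : Subgroup Γ) : Prop := ∃ W ∈ N.carrier, W ≤ U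

/-- The induced level system on a subgroup `U` (levels `W ∩ U`). -/
def restrict (N : NLevels Γ) (U : Subgroup Γ) : NLevels ↥U where
  carrier := {X | ∃ W ∈ N.carrier, X = W.subgroupOf U}
  normal := by
    rintro X ⟨W, hW, rfl⟩
    haveI := N.normal W hW
    infer_instance
  finiteIndex := by
    rintro X ⟨W, hW, rfl⟩
    haveI := N.finiteIndex W hW
    infer_instance
  nonempty := by
    obtain ⟨W, hW⟩ := N.nonempty
    exact ⟨_, W, hW, rfl⟩
  directed := by
    rintro X ⟨W, hW, rfl⟩ X' ⟨W', hW', rfl⟩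
    obtain ⟨Y, hY, hle⟩ := N.directed W hW W' hW'
    refine ⟨_, ⟨Y, hY, rfl⟩, ?_⟩
    intro u hu
    have hu' : (u : Γ) ∈ Y := Subgroup.mem_subgroupOf.1 hu
    exact ⟨Subgroup.mem_subgroupOf.2 ((le_inf_iff.1 hle).1 hu'),
      Subgroup.mem_subgroupOf.2 ((le_inf_iff.1 hle).2 hu')⟩

/-- The level of `N.restrict U` induced by a level of `N`. -/
def Lvl.restrict {N : NLevels Γ} (V : N.Lvl) (U : Subgroup Γ) : (N.restrict U).Lvl :=
  ⟨V.W.subgroupOf U, V.W, V.mem, rfl⟩

end NLevels

/-! ## Smoothness, torsion, effaceability -/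

/-- `B` is smooth: every element is fixed by some level. -/
def IsSmooth (N : NLevels Γ) (B : Rep.{0} k Γ) : Prop :=
  ∀ b : B.V, ∃ W ∈ N.carrier, ∀ w ∈ W, B.ρ w b = b

/-- `B` is `p`-divisible. -/
def IsDivisibleBy (B : Rep.{0} k Γ) (p : ℕ) : Prop := ∀ b : B.V, ∃ c : B.V, p • c = b

/-- The `p`-torsion of `B`, as a submodule. -/
def torsSub (B : Rep.{0} k Γ) (p : ℕ) : Submodule k B.V where
  carrier := {b | p • b = 0}
  add_mem' {a b} ha hb := by
    show p • (a + b) = 0
    rw [smul_add, show p • a = 0 from ha, show p • b = 0 from hb, add_zero]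
  zero_mem' := smul_zero p
  smul_mem' c b hb := by
    show p • (c • b) = 0
    rw [smul_comm, show p • b = 0 from hb, smul_zero]

lemma mem_torsSub {B : Rep.{0} k Γ} {p : ℕ} {b : B.V} : b ∈ torsSub B p ↔ p • b = 0 := Iff.rfl

/-- The `p`-torsion subrepresentation `B[p]` (think `μ_p`). -/
noncomputable def tors (B : Rep.{0} k Γ) (p : ℕ) : Rep.{0} k Γ :=
  Rep.of (B.ρ.subrepresentation (torsSub B p) (fun g b hb => by
    show p • (B.ρ g b) = 0
    rw [← map_nsmul, show p • b = 0 from hb, map_zero]))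

/-- The inclusion `B[p] ⟶ B`. -/
noncomputable def torsIncl (B : Rep.{0} k Γ) (p : ℕ) : tors B p ⟶ B :=
  Rep.ofHom ⟨(torsSub B p).subtype, fun _ => rfl⟩

/-- The class `y ∈ Hⁿ(Γ ⧸ V, B^V)` is *effaceable*: it dies after inflation to a smaller level. -/
def IsEff (N : NLevels Γ) (B : Rep.{0} k Γ) (n : ℕ) (V : N.Lvl) (y : HL B V.W n) : Prop :=
  ∃ (V' : N.Lvl) (h : V'.W ≤ V.W), (infl B h n).hom y = 0

/-- `colim_V Hⁿ(Γ ⧸ V, B^V) = 0`. -/
def EffAll (N : NLevels Γ) (B : Rep.{0} k Γ) (n : ℕ) : Prop :=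
  ∀ (V : N.Lvl) (y : HL B V.W n), IsEff N B n V y

/-- `colim_V Hⁿ(Γ ⧸ V, B^V)[p] = 0` (elementwise form). -/
def EffTors (N : NLevels Γ) (B : Rep.{0} k Γ) (p n : ℕ) : Prop :=
  ∀ (V : N.Lvl) (y : HL B V.W n), p • y = 0 → IsEff N B n V y

/-- `colim_V Hⁿ(Γ ⧸ V, B^V) ⊗ ℤ/p = 0`: every class becomes divisible by `p` at a smaller level. -/
def EffDiv (N : NLevels Γ) (B : Rep.{0} k Γ) (p n : ℕ) : Prop :=
  ∀ (V : N.Lvl) (x : HL B V.W n),
    ∃ (V' : N.Lvl) (h : V'.W ≤ V.W) (w : HL B V'.W n), (infl B h n).hom x = p • w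

/-- `cd_p ≤ 2` in finite-level form: for every finite smooth `p`-torsion module `R`,
`colim_V H³(Γ ⧸ V, R^V) = 0`. -/
def CdLeTwo (N : NLevels Γ) (k : Type) [CommRing k] (p : ℕ) : Prop :=
  ∀ R : Rep.{0} k Γ, Finite R.V → (∀ r : R.V, p • r = 0) → IsSmooth N R → EffAll N R 3


/-! ## Level-constant cochains (elementwise vocabulary for the adapters to layer D) -/

/-- `f : Γ → X` is level-constant: it factors through `Γ ⧸ W` for some level `W`. -/
def IsLC₁ (N : NLevels Γ) {X : Type*} (f : Γ → X) : Prop :=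
  ∃ W ∈ N.carrier, ∀ g s : Γ, s ∈ W → f (g * s) = f g

/-- `f : Γ × Γ → X` is level-constant. -/
def IsLC₂ (N : NLevels Γ) {X : Type*} (f : Γ × Γ → X) : Prop :=
  ∃ W ∈ N.carrier, ∀ g g' s s' : Γ, s ∈ W → s' ∈ W → f (g * s, g' * s') = f (g, g')

/-- The level `W` acts trivially on `B`. -/
def ActsTrivially (W : Subgroup Γ) (B : Rep.{0} k Γ) : Prop := ∀ w ∈ W, ∀ b : B.V, B.ρ w b = b

/-! ## The level system of a Galois extension -/

section Galois

variable (K Ω : Type) [Field K] [Field Ω] [Algebra K Ω] [IsGalois K Ω]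

/-- The levels of `Gal(Ω/K)`: the subgroups `Gal(Ω/E)`, `E/K` finite Galois. -/
def galLevels : NLevels (Ω ≃ₐ[K] Ω) where
  carrier := {W | ∃ E : FiniteGaloisIntermediateField K Ω, W = E.toIntermediateField.fixingSubgroup}
  normal := by
    rintro W ⟨E, rfl⟩
    rw [← IntermediateField.restrictNormalHom_ker]
    infer_instance
  finiteIndex := by
    rintro W ⟨E, rfl⟩
    refine ⟨?_⟩
    rw [← IntermediateField.finrank_eq_fixingSubgroup_index]
    exact Module.finrank_pos.ne'
  nonempty := ⟨_, ⊥, rfl⟩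
  directed := by
    rintro W ⟨E, rfl⟩ W' ⟨E', rfl⟩
    refine ⟨_, ⟨E ⊔ E', rfl⟩, ?_⟩
    show (E.toIntermediateField ⊔ E'.toIntermediateField).fixingSubgroup ≤ _
    rw [IntermediateField.fixingSubgroup_sup]

/-- The level `Gal(Ω/E)` attached to a finite Galois subextension `E`. -/
def galLvl (E : FiniteGaloisIntermediateField K Ω) : (galLevels K Ω).Lvl :=
  ⟨E.toIntermediateField.fixingSubgroup, E, rfl⟩

end Galois

end Fermat.Agent.S55.KL

end
-- ===== PACK-END S55/KL/Defs.lean

-- ===== PACK-BEGIN S55/H572/TateLow.lean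
section


/-!
# Tate cohomology in degrees `0` and `-1`: concrete exactness criteria

For a finite group `G` and `M : Rep R G` (Mathlib's `tateComplex`):

* `exactAt_zero_iff`    : `Ĥ⁰(G, M) = 0` iff every invariant is a norm;
* `exactAt_neg_one_iff` : `Ĥ⁻¹(G, M) = 0` iff every element of norm `0` lies in the image of
  `d₁₀` (i.e. in `I_G M`).
-/

set_option autoImplicit false

open CategoryTheory groupCohomology groupHomology Rep Limits

universe u

namespace Fermat.Agent.S55.H572

variable {R G : Type u} [CommRing R] [Group G] [Fintype G]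

noncomputable section

/-- The concrete short complex `M --N--> M --d₀₁--> (G → M)`. -/
abbrev scZero (M : Rep.{u} R G) : ShortComplex (ModuleCat.{u} R) :=
  ShortComplex.mk M.norm.toModuleCatHom (d₀₁ M) (Rep.norm_comp_d_eq_zero M)

/-- The concrete short complex `(G →₀ M) --d₁₀--> M --N--> M`. -/
abbrev scNegOne (M : Rep.{u} R G) : ShortComplex (ModuleCat.{u} R) :=
  ShortComplex.mk (d₁₀ M) M.norm.toModuleCatHom (Rep.comp_eq_zero M)

/-- The Tate complex around degree `0` is the concrete complex `scZero`. -/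
def scZeroIso (M : Rep.{u} R G) : (tateComplex M).sc' (-1) 0 1 ≅ scZero M :=
  ShortComplex.isoMk (chainsIso₀ M) (cochainsIso₀ M) (cochainsIso₁ M)
    (by
      change (chainsIso₀ M).hom ≫ M.norm.toModuleCatHom = M.tateNorm ≫ (cochainsIso₀ M).hom
      simp [Rep.tateNorm])
    (by
      change (cochainsIso₀ M).hom ≫ d₀₁ M = (inhomogeneousCochains M).d 0 1 ≫ (cochainsIso₁ M).hom
      exact comp_d₀₁_eq M)

/-- The Tate complex around degree `-1` is the concrete complex `scNegOne`. -/
def scNegOneIso (M : Rep.{u} R G) : (tateComplex M).sc' (-2) (-1) 0 ≅ scNegOne M :=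
  ShortComplex.isoMk (chainsIso₁ M) (chainsIso₀ M) (cochainsIso₀ M)
    (by
      change (chainsIso₁ M).hom ≫ d₁₀ M = (inhomogeneousChains M).d 1 0 ≫ (chainsIso₀ M).hom
      exact comp_d₁₀_eq M)
    (by
      change (chainsIso₀ M).hom ≫ M.norm.toModuleCatHom = M.tateNorm ≫ (cochainsIso₀ M).hom
      simp [Rep.tateNorm])

/-- `Ĥ⁰(G, M) = 0` iff every invariant element is a norm. -/
theorem exactAt_zero_iff (M : Rep.{u} R G) :
    (tateComplex M).ExactAt 0 ↔
      ∀ x : M, (∀ g : G, M.ρ g x = x) → ∃ y : M, M.ρ.norm y = x := by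
  rw [HomologicalComplex.exactAt_iff' _ (-1) 0 1 (by simp) (by simp),
    ShortComplex.exact_iff_of_iso (scZeroIso M), ShortComplex.moduleCat_exact_iff]
  constructor
  · intro h x hx
    refine h x ?_
    change (d₀₁ M).hom x = 0
    funext g
    rw [d₀₁_hom_apply, hx g, sub_self]
    rfl
  · intro h x hx
    refine h x fun g => ?_
    have hx' : (d₀₁ M).hom x = 0 := hx
    have := congrFun hx' g
    rw [d₀₁_hom_apply] at this
    exact sub_eq_zero.mp this

/-- `Ĥ⁻¹(G, M) = 0` iff every element of norm zero is in the image of `d₁₀`. -/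
theorem exactAt_neg_one_iff (M : Rep.{u} R G) :
    (tateComplex M).ExactAt (-1) ↔
      ∀ x : M, M.ρ.norm x = 0 → ∃ z : G →₀ M, (d₁₀ M).hom z = x := by
  rw [HomologicalComplex.exactAt_iff' _ (-2) (-1) 0 (by simp) (by simp),
    ShortComplex.exact_iff_of_iso (scNegOneIso M), ShortComplex.moduleCat_exact_iff]
  rfl

theorem isZero_tateCohomology_zero_iff (M : Rep.{u} R G) :
    IsZero (tateCohomology M 0) ↔
      ∀ x : M, (∀ g : G, M.ρ g x = x) → ∃ y : M, M.ρ.norm y = x := by
  rw [← exactAt_zero_iff, HomologicalComplex.exactAt_iff_isZero_homology]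
  rfl

theorem isZero_tateCohomology_neg_one_iff (M : Rep.{u} R G) :
    IsZero (tateCohomology M (-1)) ↔
      ∀ x : M, M.ρ.norm x = 0 → ∃ z : G →₀ M, (d₁₀ M).hom z = x := by
  rw [← exactAt_neg_one_iff, HomologicalComplex.exactAt_iff_isZero_homology]
  rfl

end

end Fermat.Agent.S55.H572

end
-- ===== PACK-END S55/H572/TateLow.lean

-- ===== PACK-BEGIN S55/L/H661/IntClosure.lean
section




/-!
# The ring of integers of a finite extension of a complete discretely valued field
(S55, layer L, foundation "LF0")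

`A` a complete discrete valuation ring, `K = Frac A`, `L / K` a finite separable extension and
`C` the integral closure of `A` in `L` (any model, `[IsIntegralClosure C A L]`).  Then `C` is

* a domain, finite and free over `A`                       (`intClosure_finite`, `intClosure_free`)
* a local ring                                              (`intClosure_isLocalRing`)
* a discrete valuation ring                                 (`intClosure_isDVR`)
* complete for its maximal ideal                            (`intClosure_isAdicComplete`)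
* with finite residue field if `A` has one                  (`intClosure_finite_residueField`)
* with fraction field `L`                                   (`intClosure_isFractionRing`)

and `A → C` is a local homomorphism.  Everything is in `Type` (the Prelude lemmas used for
"finite over complete local is a product of local rings" are stated in `Type`).
-/

set_option linter.unusedSectionVars false

namespace Fermat.Agent.S55.L.H661

open IsLocalRing

section DomainLocal

/-- A domain which is module-finite over a complete Noetherian local ring is local. -/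
theorem isLocalRing_of_finite_of_isDomain (A : Type) [CommRing A] [IsLocalRing A]
    [IsNoetherianRing A] [IsAdicComplete (maximalIdeal A) A]
    (C : Type) [CommRing C] [IsDomain C] [Algebra A C] [Module.Finite A C] : IsLocalRing C := by
  classical
  obtain ⟨-, hbij, -, -⟩ :=
    Algebra.finite_maximalSpectrum_and_bijective_localization_of_module_finite (𝒪 := A) C
  set φ : C →+* (∀ I : MaximalSpectrum C, Localization.AtPrime I.asIdeal) :=
    RingHom.pi fun I : MaximalSpectrum C => algebraMap C (Localization.AtPrime I.asIdeal) with hφ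
  have huniq : ∀ I J : MaximalSpectrum C, I = J := by
    intro I J
    by_contra hIJ
    let e : ∀ I : MaximalSpectrum C, Localization.AtPrime I.asIdeal := Pi.single I 1
    obtain ⟨x, hx⟩ := hbij.2 e
    obtain ⟨y, hy⟩ := hbij.2 (1 - e)
    have hxy : x * y = 0 := by
      apply hbij.1
      rw [map_mul, hx, hy, map_zero]
      funext K
      by_cases hK : K = I
      · subst hK
        simp [e]
      · simp [e, Pi.single_eq_of_ne hK]
    rcases mul_eq_zero.mp hxy with h0 | h0
    · have : e I = 0 := by rw [← hx, h0, map_zero]; rfl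
      simp [e] at this
    · have : (1 - e) J = 0 := by rw [← hy, h0, map_zero]; rfl
      have hJ : e J = 0 := Pi.single_eq_of_ne (Ne.symm hIJ) _
      simp [hJ] at this
  obtain ⟨m, hm⟩ := Ideal.exists_maximal C
  refine IsLocalRing.of_unique_max_ideal ⟨m, hm, fun J hJ => ?_⟩
  exact congrArg MaximalSpectrum.asIdeal (huniq ⟨J, hJ⟩ ⟨m, hm⟩)

end DomainLocal

section IntClosure

variable (A K : Type) [CommRing A] [IsDomain A] [IsDiscreteValuationRing A]
  [IsAdicComplete (maximalIdeal A) A] [Field K] [Algebra A K] [IsFractionRing A K]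
  (L : Type) [Field L] [Algebra K L] [FiniteDimensional K L] [Algebra.IsSeparable K L]
  [Algebra A L] [IsScalarTower A K L]
  (C : Type) [CommRing C] [Algebra C L] [IsIntegralClosure C A L] [Algebra A C]
  [IsScalarTower A C L]

include A K L

theorem intClosure_isDomain : IsDomain C :=
  (IsIntegralClosure.algebraMap_injective C A L).isDomain _

theorem intClosure_finite : Module.Finite A C := IsIntegralClosure.finite A K L C

theorem intClosure_faithfulSMul : FaithfulSMul A C := by
  rw [faithfulSMul_iff_algebraMap_injective]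
  intro a b hab
  have h1 : algebraMap A L a = algebraMap A L b := by
    rw [IsScalarTower.algebraMap_apply A C L, IsScalarTower.algebraMap_apply A C L, hab]
  have hinj : Function.Injective (algebraMap A L) := by
    rw [IsScalarTower.algebraMap_eq A K L]
    exact (algebraMap K L).injective.comp (IsFractionRing.injective A K)
  exact hinj h1

theorem intClosure_isTorsionFree : Module.IsTorsionFree A C :=
  haveI : Module.IsTorsionFree A L := .trans_faithfulSMul A K L
  IsIntegralClosure.isTorsionFree A L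

theorem intClosure_free : Module.Free A C :=
  haveI : Module.IsTorsionFree A L := .trans_faithfulSMul A K L
  IsIntegralClosure.module_free A K L C

theorem intClosure_isIntegral : Algebra.IsIntegral A C := IsIntegralClosure.isIntegral_algebra A L

theorem intClosure_isLocalRing : IsLocalRing C :=
  have := intClosure_isDomain A K L C
  have := intClosure_finite A K L C
  isLocalRing_of_finite_of_isDomain A C

theorem intClosure_isDedekindDomain : IsDedekindDomain C := by
  have := intClosure_isDomain A K L C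
  exact IsIntegralClosure.isDedekindDomain A K L C

theorem intClosure_not_isField : ¬ IsField C := by
  have := intClosure_isDomain A K L C
  have := intClosure_isIntegral A K L C
  have := intClosure_faithfulSMul A K L C
  intro h
  exact IsDiscreteValuationRing.not_isField A
    ((Algebra.IsIntegral.isField_iff_isField (FaithfulSMul.algebraMap_injective A C)).mpr h)

theorem intClosure_isDVR [IsDomain C] : IsDiscreteValuationRing C := by
  have := intClosure_isLocalRing A K L C
  have hD : IsDedekindDomain C := intClosure_isDedekindDomain A K L C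
  exact ((IsDiscreteValuationRing.TFAE C (intClosure_not_isField A K L C)).out 0 2).mpr hD

theorem intClosure_isLocalHom [IsLocalRing C] : IsLocalHom (algebraMap A C) := by
  have := intClosure_isIntegral A K L C
  have := intClosure_faithfulSMul A K L C
  infer_instance

theorem intClosure_isAdicComplete [IsLocalRing C] : IsAdicComplete (maximalIdeal C) C := by
  have := intClosure_finite A K L C
  have := intClosure_isLocalHom A K L C
  exact IsLocalRing.isAdicComplete_of_module_finite (𝒪 := A) (T := C)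

theorem intClosure_map_maximalIdeal_le [IsLocalRing C] :
    (maximalIdeal A).map (algebraMap A C) ≤ maximalIdeal C := by
  have := intClosure_isLocalHom A K L C
  exact IsLocalRing.map_maximalIdeal_le (algebraMap A C)

theorem intClosure_finite_residueField [IsLocalRing C] [Finite (ResidueField A)] :
    Finite (ResidueField C) := by
  have := intClosure_finite A K L C
  have hfinA : Finite (A ⧸ maximalIdeal A) := ‹Finite (ResidueField A)›
  have h1 : Module.Finite (A ⧸ maximalIdeal A) (C ⧸ (maximalIdeal A).map (algebraMap A C)) :=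
    Module.Finite.of_restrictScalars_finite A _ _
  have h2 : Finite (C ⧸ (maximalIdeal A).map (algebraMap A C)) :=
    Module.finite_of_finite (A ⧸ maximalIdeal A)
  have hle := intClosure_map_maximalIdeal_le A K L C
  exact Finite.of_surjective (Ideal.Quotient.factor hle) (Ideal.Quotient.factor_surjective hle)

theorem intClosure_isFractionRing : IsFractionRing C L := by
  have := intClosure_isDomain A K L C
  exact IsIntegralClosure.isFractionRing_of_finite_extension A K L C

end IntClosure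

end Fermat.Agent.S55.L.H661

end
-- ===== PACK-END S55/L/H661/IntClosure.lean

-- ===== PACK-BEGIN S55/H953/Discrete.lean
section


/-!
# S55 / local norm index: discreteness of the value group and compactness of the units

`L` is a proper (locally compact) ultrametric normed field with nontrivial norm.

* `exists_uniformizer` : there is `ϖ ≠ 0` of maximal norm `< 1`;
* `exists_zpow_norm_eq` : every nonzero element has norm `‖ϖ‖ ^ k`, `k : ℤ`;
* `valZ` : the normalised valuation `Lˣ →* Multiplicative ℤ`;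
* `finiteIndex_of_ball` : a subgroup of the norm-one units containing a ball around `1` has
  finite index in the group of norm-one units.
-/

set_option autoImplicit false

namespace Fermat.Agent.S55.H953

open Metric

variable {L : Type*} [NormedField L] [IsUltrametricDist L] [ProperSpace L]

/-- there is an element of maximal norm `< 1` -/
lemma exists_uniformizer (hnt : ∃ x : L, x ≠ 0 ∧ ‖x‖ < 1) :
    ∃ ϖ : L, ϖ ≠ 0 ∧ ‖ϖ‖ < 1 ∧ ∀ x : L, ‖x‖ < 1 → ‖x‖ ≤ ‖ϖ‖ := by
  have hcl : IsClosed (ball (0 : L) 1) := IsUltrametricDist.isClosed_ball 0 1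
  have hcomp : IsCompact (ball (0 : L) 1) :=
    IsCompact.of_isClosed_subset (isCompact_closedBall (0 : L) 1) hcl ball_subset_closedBall
  obtain ⟨ϖ, hϖ, hmax⟩ := hcomp.exists_isMaxOn ⟨0, mem_ball_self one_pos⟩
    (continuous_norm.continuousOn)
  rw [mem_ball_zero_iff] at hϖ
  obtain ⟨x₀, hx₀, hx₀'⟩ := hnt
  have h1 : ∀ x : L, ‖x‖ < 1 → ‖x‖ ≤ ‖ϖ‖ := fun x hx => hmax (mem_ball_zero_iff.2 hx)
  refine ⟨ϖ, ?_, hϖ, h1⟩
  intro h0
  have := h1 x₀ hx₀'
  rw [h0, norm_zero] at this
  exact hx₀ (norm_le_zero_iff.1 this)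

omit [IsUltrametricDist L] [ProperSpace L] in
lemma exists_zpow_norm_eq {ϖ : L} (h0 : ϖ ≠ 0) (h1 : ‖ϖ‖ < 1)
    (hmax : ∀ x : L, ‖x‖ < 1 → ‖x‖ ≤ ‖ϖ‖) {x : L} (hx : x ≠ 0) :
    ∃ k : ℤ, ‖x‖ = ‖ϖ‖ ^ k := by
  have hr0 : 0 < ‖ϖ‖ := norm_pos_iff.2 h0
  have hinv : 1 < ‖ϖ‖⁻¹ := (one_lt_inv₀ hr0).2 h1
  obtain ⟨m, hm1, hm2⟩ := exists_mem_Ico_zpow (norm_pos_iff.2 hx) hinv
  -- (‖ϖ‖⁻¹)^m ≤ ‖x‖ < (‖ϖ‖⁻¹)^(m+1)
  refine ⟨-m, ?_⟩
  have hy : ‖x * ϖ ^ m‖ = ‖x‖ * ‖ϖ‖ ^ m := by rw [norm_mul, norm_zpow]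
  have hpos : 0 < ‖ϖ‖ ^ m := zpow_pos hr0 m
  have hge : 1 ≤ ‖x * ϖ ^ m‖ := by
    rw [hy]
    rw [inv_zpow, ← zpow_neg] at hm1
    have := mul_le_mul_of_nonneg_right hm1 hpos.le
    rwa [← zpow_add₀ hr0.ne', neg_add_cancel, zpow_zero] at this
  have hlt : ‖x * ϖ ^ m * ϖ‖ < 1 := by
    rw [norm_mul, hy]
    rw [inv_zpow, ← zpow_neg] at hm2
    have := mul_lt_mul_of_pos_right hm2 (zpow_pos hr0 (m + 1))
    rwa [← zpow_add₀ hr0.ne', neg_add_cancel, zpow_zero, zpow_add₀ hr0.ne', zpow_one,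
      ← mul_assoc] at this
  have hle : ‖x * ϖ ^ m * ϖ‖ ≤ ‖ϖ‖ := hmax _ hlt
  rw [norm_mul] at hle
  have hle1 : ‖x * ϖ ^ m‖ ≤ 1 := by
    by_contra hcon
    rw [not_le] at hcon
    have := mul_lt_mul_of_pos_right hcon hr0
    rw [one_mul] at this
    exact absurd hle (not_le.2 this)
  have heq : ‖x‖ * ‖ϖ‖ ^ m = 1 := by rw [← hy]; exact le_antisymm hle1 hge
  rw [zpow_neg]
  field_simp
  exact heq

section Val

omit [IsUltrametricDist L] [ProperSpace L]

variable {ϖ : L} (h0 : ϖ ≠ 0) (h1 : ‖ϖ‖ < 1) (hmax : ∀ x : L, ‖x‖ < 1 → ‖x‖ ≤ ‖ϖ‖)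

/-- the normalised valuation, as a function -/
noncomputable def valFun (x : Lˣ) : ℤ :=
  Classical.choose (exists_zpow_norm_eq h0 h1 hmax x.ne_zero)

lemma norm_eq_zpow_valFun (x : Lˣ) : ‖(x : L)‖ = ‖ϖ‖ ^ valFun h0 h1 hmax x :=
  Classical.choose_spec (exists_zpow_norm_eq h0 h1 hmax x.ne_zero)

include h0 h1 in
lemma zpow_norm_injective : Function.Injective fun k : ℤ => ‖ϖ‖ ^ k :=
  zpow_right_injective₀ (norm_pos_iff.2 h0) h1.ne

lemma valFun_eq_iff (x : Lˣ) (k : ℤ) : valFun h0 h1 hmax x = k ↔ ‖(x : L)‖ = ‖ϖ‖ ^ k := by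
  constructor
  · rintro rfl
    exact norm_eq_zpow_valFun h0 h1 hmax x
  · intro h
    apply zpow_norm_injective h0 h1
    simp only
    rw [← norm_eq_zpow_valFun h0 h1 hmax x, h]

/-- the normalised valuation `Lˣ → ℤ` as an additive homomorphism -/
noncomputable def valA : Additive Lˣ →+ ℤ where
  toFun x := valFun h0 h1 hmax (Additive.toMul x)
  map_zero' := by
    rw [valFun_eq_iff]
    simp
  map_add' x y := by
    rw [valFun_eq_iff]
    simp only [toMul_add, Units.val_mul, norm_mul]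
    rw [zpow_add₀ (norm_pos_iff.2 h0).ne', ← norm_eq_zpow_valFun, ← norm_eq_zpow_valFun]

lemma valA_apply (x : Lˣ) : valA h0 h1 hmax (Additive.ofMul x) = valFun h0 h1 hmax x := rfl

lemma valA_eq_iff (x : Lˣ) (k : ℤ) :
    valA h0 h1 hmax (Additive.ofMul x) = k ↔ ‖(x : L)‖ = ‖ϖ‖ ^ k :=
  valFun_eq_iff h0 h1 hmax x k

lemma valA_eq_zero_iff (x : Lˣ) : valA h0 h1 hmax (Additive.ofMul x) = 0 ↔ ‖(x : L)‖ = 1 := by
  rw [valA_eq_iff, zpow_zero]

lemma valA_surjective : Function.Surjective (valA h0 h1 hmax) := by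
  intro k
  refine ⟨Additive.ofMul ((Units.mk0 ϖ h0) ^ k), ?_⟩
  rw [valA_eq_iff]
  simp

lemma valA_eq_of_norm_eq {x y : Lˣ} (h : ‖(x : L)‖ = ‖(y : L)‖) :
    valA h0 h1 hmax (Additive.ofMul x) = valA h0 h1 hmax (Additive.ofMul y) := by
  rw [valA_eq_iff, h]
  exact norm_eq_zpow_valFun h0 h1 hmax y

end Val

/-- the group of units of norm one -/
def unitsNormOne (L : Type*) [NormedField L] : Subgroup Lˣ where
  carrier := {u | ‖(u : L)‖ = 1}
  one_mem' := by simp
  mul_mem' := by
    intro a b ha hb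
    simp only [Set.mem_setOf_eq] at ha hb ⊢
    rw [Units.val_mul, norm_mul, ha, hb, mul_one]
  inv_mem' := by
    intro a ha
    simp only [Set.mem_setOf_eq] at ha ⊢
    rw [Units.val_inv_eq_inv_val, norm_inv, ha, inv_one]

omit [IsUltrametricDist L] [ProperSpace L] in
lemma mem_unitsNormOne {u : Lˣ} : u ∈ unitsNormOne L ↔ ‖(u : L)‖ = 1 := Iff.rfl

/-- A subgroup of the norm-one units containing a ball around `1` has finite index in the group
of norm-one units. -/
theorem finite_quotient_of_ball (V : Subgroup Lˣ) {ε : ℝ} (hε : 0 < ε)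
    (hV : ∀ u : Lˣ, ‖(u : L) - 1‖ < ε → u ∈ V) :
    Finite (↥(unitsNormOne L) ⧸ V.subgroupOf (unitsNormOne L)) := by
  have hcomp : IsCompact {x : L | ‖x‖ = 1} := by
    refine IsCompact.of_isClosed_subset (isCompact_closedBall (0 : L) 1) ?_ ?_
    · exact isClosed_eq continuous_norm continuous_const
    · intro x hx
      rw [mem_closedBall_zero_iff]
      exact le_of_eq hx
  obtain ⟨T, hTs, hTfin, hTcov⟩ := hcomp.finite_cover_balls hε
  haveI : Finite T := hTfin
  have hne : ∀ t : T, (t : L) ≠ 0 := by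
    intro t h
    have := hTs t.2
    simp only [Set.mem_setOf_eq] at this
    rw [h, norm_zero] at this
    exact zero_ne_one this
  let f : T → ↥(unitsNormOne L) ⧸ V.subgroupOf (unitsNormOne L) := fun t =>
    QuotientGroup.mk ⟨Units.mk0 (t : L) (hne t), hTs t.2⟩
  refine Finite.of_surjective f ?_
  intro q
  obtain ⟨⟨u, hu⟩, rfl⟩ := QuotientGroup.mk_surjective q
  have hu' : (u : L) ∈ {x : L | ‖x‖ = 1} := hu
  obtain ⟨t, ht, hut⟩ := Set.mem_iUnion₂.1 (hTcov hu')
  refine ⟨⟨t, ht⟩, ?_⟩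
  simp only [f]
  rw [QuotientGroup.eq]
  rw [Subgroup.mem_subgroupOf]
  apply hV
  simp only [Subgroup.coe_mul, Subgroup.coe_inv, Units.val_mul, Units.val_inv_eq_inv_val,
    Units.val_mk0]
  have ht1 : ‖t‖ = 1 := hTs ht
  have ht0 : t ≠ 0 := hne ⟨t, ht⟩
  have e : t⁻¹ * (u : L) - 1 = t⁻¹ * ((u : L) - t) := by
    field_simp
  rw [e, norm_mul, norm_inv, ht1, inv_one, one_mul]
  rw [mem_ball, dist_eq_norm] at hut
  exact hut

end Fermat.Agent.S55.H953

end
-- ===== PACK-END S55/H953/Discrete.lean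

-- ===== PACK-BEGIN S55/T/IntSMul.lean
section


/-!
# The `ℤ`-scalar diamond

For `M : ModuleCat ℤ` (e.g. `groupCohomology A n` with `A : Rep ℤ G`) there are two scalar
actions of `ℤ`: the one of the `Module ℤ M` instance (this is what appears when a statement that
is generic in the coefficient ring `k` is instantiated at `k := ℤ`) and the `zsmul` of the
additive group (this is what `c • x` elaborates to when `c : ℤ` is written directly).
They are equal but not syntactically; `modSMul_eq_zsmul` rewrites the former into the latter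
(`rw [modSMul_eq_zsmul]` / `simp only [modSMul_eq_zsmul]`).
-/

set_option autoImplicit false

namespace Fermat.Agent.S55.T

theorem modSMul_eq_zsmul {M : Type*} [AddCommGroup M] (inst : Module ℤ M) (n : ℤ) (x : M) :
    (@HSMul.hSMul ℤ M M (@instHSMul ℤ M inst.toSMul) n x) =
      @HSMul.hSMul ℤ M M (@instHSMul ℤ M ZSMul.toSMul) n x :=
  int_smul_eq_zsmul inst n x

end Fermat.Agent.S55.T

end
-- ===== PACK-END S55/T/IntSMul.lean

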