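import Mathlib
import Fermat.Prelude.Def_GaloisRep_Flat
import Fermat.Prelude.Def_ModularCurve_ArithmeticGalois
import Mathlib.RepresentationTheory.Homological.GroupCohomology.Shapiro
import Mathlib.RepresentationTheory.Homological.GroupCohomology.LongExactSequence
import Mathlib.RepresentationTheory.Homological.GroupCohomology.Functoriality
import Mathlib.RepresentationTheory.Homological.GroupCohomology.LowDegree
import Mathlib.RepresentationTheory.Homological.GroupCohomology.FiniteCyclic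
import Mathlib.GroupTheory.Sylow

-- ===== PACK-BEGIN S19/H435/Indep.lean
section
/-
A3 / WP-C (helper435): Galois descent lemmas for lattices of equivariant functions.

* `linearIndependent_Qb_of_int` (F1): `ℤ`-linearly independent Galois-equivariant functions
  `M → Qb` are `Qb`-linearly independent (minimal relation argument, `Qb^Gal = ℚ`).
-/



set_option autoImplicit false

noncomputable section

namespace Fermat.Agent.S19.H435

/-- The algebraic closure of `ℚ` used by the Prelude. -/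
abbrev Qb : Type := AlgebraicClosure ℚ

/-- The absolute Galois group, as in the Prelude. -/
abbrev Gal : Type := _root_.Fermat.Agent.S19.H435.Qb ≃ₐ[ℚ] _root_.Fermat.Agent.S19.H435.Qb

/-- `ℤ_(ℓ)` as in the Prelude. -/
abbrev Zl (ℓ : ℕ) : Type := ↥(GaloisRep.ratLocalizedAt ℓ)

/-- Equivariance of a `Qb`-valued function for a (set-theoretic) Galois action. -/
def IsEquivariantFun {M : Type*} (act : Gal → M → M) (f : M → _root_.Fermat.Agent.S19.H435.Qb) : Prop :=
  ∀ (σ : Gal) (m : M), f (act σ m) = σ (f m)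

theorem fixed_mem_range_rat (x : _root_.Fermat.Agent.S19.H435.Qb) (hx : ∀ σ : Gal, σ x = x) :
    ∃ q : ℚ, algebraMap ℚ _root_.Fermat.Agent.S19.H435.Qb q = x := by
  have h1 : Algebra.IsAlgebraic ℚ _root_.Fermat.Agent.S19.H435.Qb := AlgebraicClosure.isAlgebraic ℚ
  have h2 : IsAlgClosure ℚ _root_.Fermat.Agent.S19.H435.Qb := ⟨inferInstance, inferInstance⟩
  have h3 : IsGalois ℚ _root_.Fermat.Agent.S19.H435.Qb := IsAlgClosure.isGalois ℚ _root_.Fermat.Agent.S19.H435.Qb
  exact (InfiniteGalois.mem_range_algebraMap_iff_fixed (k := ℚ) (K := _root_.Fermat.Agent.S19.H435.Qb) x).mpr hx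

/-- **F1.** `ℤ`-linearly independent equivariant functions are `Qb`-linearly independent. -/
theorem linearIndependent_Qb_of_int {M : Type*} {act : Gal → M → M} {ι : Type*} [Fintype ι]
    (f : ι → M → _root_.Fermat.Agent.S19.H435.Qb) (hf : ∀ i, IsEquivariantFun act (f i)) (hli : LinearIndependent ℤ f) :
    LinearIndependent _root_.Fermat.Agent.S19.H435.Qb f := by
  classical
  rw [Fintype.linearIndependent_iff]
  suffices H : ∀ n : ℕ, ∀ c : ι → _root_.Fermat.Agent.S19.H435.Qb, (Finset.univ.filter (fun i => c i ≠ 0)).card = n →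
      ∑ i, c i • f i = 0 → ∀ i, c i = 0 from fun c hc i => H _ c rfl hc i
  intro n
  induction n using Nat.strong_induction_on with
  | _ n ih =>
    intro c hn hc
    by_contra hne
    push Not at hne
    obtain ⟨i₀, hi₀⟩ := hne
    set c' : ι → _root_.Fermat.Agent.S19.H435.Qb := fun i => c i / c i₀ with hc'
    have hc'0 : ∑ i, c' i • f i = 0 := by
      have : ∑ i, c' i • f i = (c i₀)⁻¹ • ∑ i, c i • f i := by
        rw [Finset.smul_sum]
        refine Finset.sum_congr rfl fun i _ => ?_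
        rw [smul_smul]
        congr 1
        simp only [hc', div_eq_inv_mul]
      rw [this, hc, smul_zero]
    have hc'i₀ : c' i₀ = 1 := div_self hi₀
    have hsupp : ∀ i, c i = 0 → c' i = 0 := fun i hi => by simp [hc', hi]
    have hpt : ∀ m : M, ∑ i, c' i * f i m = 0 := by
      intro m
      have := congrFun hc'0 m
      simpa [Finset.sum_apply] using this
    have hfix : ∀ (σ : Gal) (i : ι), σ (c' i) = c' i := by
      intro σ
      set d : ι → _root_.Fermat.Agent.S19.H435.Qb := fun i => σ (c' i) - c' i with hd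
      have hd0 : ∑ i, d i • f i = 0 := by
        funext m
        simp only [Finset.sum_apply, Pi.smul_apply, smul_eq_mul, Pi.zero_apply, hd, sub_mul,
          Finset.sum_sub_distrib]
        have h2 : ∑ i, σ (c' i) * f i m = 0 := by
          have h3 := congrArg σ (hpt (act σ⁻¹ m))
          rw [map_sum, map_zero] at h3
          rw [← h3]
          refine Finset.sum_congr rfl fun i _ => ?_
          rw [map_mul, hf i σ⁻¹ m]
          congr 1
          exact (AlgEquiv.apply_symm_apply σ (f i m)).symm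
        rw [hpt m, h2, sub_zero]
      have hlt : (Finset.univ.filter (fun i => d i ≠ 0)).card < n := by
        rw [← hn]
        apply Finset.card_lt_card
        rw [Finset.ssubset_iff_of_subset]
        · exact ⟨i₀, by simp [hi₀], by simp [hd, hc'i₀]⟩
        · intro i hi
          simp only [Finset.mem_filter, Finset.mem_univ, true_and] at hi ⊢
          intro hci
          apply hi
          simp [hd, hsupp i hci]
      intro i
      have := ih _ hlt d rfl hd0 i
      exact sub_eq_zero.mp this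
    choose q hq using fun i => fixed_mem_range_rat (c' i) (fun σ => hfix σ i)
    set D : ℕ := ∏ i, (q i).den with hD
    have hDpos : 0 < D := Finset.prod_pos fun i _ => (q i).den_pos
    have hz : ∀ i, ∃ z : ℤ, (z : ℚ) = D * q i := by
      intro i
      have hdvd : (q i).den ∣ D := Finset.dvd_prod_of_mem _ (Finset.mem_univ i)
      obtain ⟨e, he⟩ := hdvd
      refine ⟨(q i).num * e, ?_⟩
      rw [he]
      push_cast
      rw [← Rat.den_mul_eq_num (q i)]
      ring
    choose z hz using hz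
    have hsum : ∑ i, z i • f i = 0 := by
      funext m
      simp only [Finset.sum_apply, Pi.zero_apply, zsmul_eq_mul, Pi.mul_apply, Pi.intCast_apply]
      have h1 : ∀ i, ((z i : ℤ) : _root_.Fermat.Agent.S19.H435.Qb) = (D : _root_.Fermat.Agent.S19.H435.Qb) * c' i := by
        intro i
        rw [← hq i]
        have := congrArg (algebraMap ℚ _root_.Fermat.Agent.S19.H435.Qb) (hz i)
        rw [map_mul, map_intCast, map_natCast] at this
        exact this
      simp only [h1, mul_assoc]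
      rw [← Finset.mul_sum, hpt m, mul_zero]
    have hz0 := (Fintype.linearIndependent_iff.mp hli) z hsum
    have h0 : c' i₀ = 0 := by
      have h1 : (z i₀ : ℚ) = 0 := by rw [hz0 i₀]; simp
      rw [hz] at h1
      have h2 : q i₀ = 0 := by
        rcases mul_eq_zero.mp h1 with h | h
        · exact absurd (by exact_mod_cast h) hDpos.ne'
        · exact h
      rw [← hq i₀, h2, map_zero]
    rw [hc'i₀] at h0
    exact one_ne_zero h0

end Fermat.Agent.S19.H435

end
end
-- ===== PACK-END S19/H435/Indep.lean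

-- ===== PACK-BEGIN S19/Defs.lean
section




/-!
# Cell A3 (S19) — FROZEN top-level interface (row-lead helper15)

Route Z (origin/helper15:coord/A3.md, origin/helper19:coord/A3-route-helper19.md):

    frozen S19  <==  FIN (torsion finite)  +  ORDER (an `OrderDatum` for the torsion)
    ORD block   :  `OrdStatement`   : OrderDatum  ==>  HopfModel          (pure algebra)
    glue        :  `S19_of_hopfModel` (file `Glue.lean`)                  (unfolding)

Everything here is definitions only.  Interfaces are frozen; ask helper15 (note kind 'interface')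
before proposing a change.
-/

set_option autoImplicit false

noncomputable section

namespace Fermat.Agent.S19

/-- `Q̄`. -/
abbrev Qb : Type := AlgebraicClosure ℚ

/-- `Gal(Q̄/Q)`. -/
abbrev GalQ : Type := Qb ≃ₐ[ℚ] Qb

/-- `Z_(ℓ)` as a subring of `ℚ` (the Prelude ring). -/
abbrev Rl (ℓ : ℕ) : Subring ℚ := GaloisRep.ratLocalizedAt ℓ

/-- The integral closure of `Z_(ℓ)` in `Q̄`. -/
abbrev Zb (ℓ : ℕ) : Subalgebra (Rl ℓ) Qb := integralClosure (Rl ℓ) Qb

/-- The S19-shaped conclusion for an abstract module `M` with a map `act : Gal → M → M`: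
a finite flat commutative cocommutative Hopf algebra over `Z_(ℓ)` whose `Q̄`-points are `M`,
additively and Galois-equivariantly. -/
def HopfModel (ℓ : ℕ) (M : Type) [AddCommGroup M] (act : GalQ → M → M) : Prop :=
  ∃ (H : Type) (_ : CommRing H) (_ : HopfAlgebra (Rl ℓ) H),
    Module.Finite (Rl ℓ) H ∧ Module.Flat (Rl ℓ) H ∧ Coalgebra.IsCocomm (Rl ℓ) H ∧
    ∃ e : WithConv (H →ₐ[Rl ℓ] Qb) ≃ M,
      (∀ f g, e (f * g) = e f + e g) ∧
      ∀ (σ : GalQ) (f g : WithConv (H →ₐ[Rl ℓ] Qb)),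
        (∀ h : H, g h = σ (f h)) → e g = act σ (e f)

/-- The two families of "coordinate functions" on `M × M` coming from a set of functions on `M`. -/
def coordFunctions {M : Type} (S : Set (M → Qb)) : Set (M × M → Qb) :=
  {g | ∃ h ∈ S, g = fun p => h p.1} ∪ {g | ∃ h ∈ S, g = fun p => h p.2}

/-- **ORDER datum** (route Z, §0): a set `gens` of functions `M → Q̄` which are
Galois-equivariant, have values integral over `Z_(ℓ)`, separate the points of `M`, and whose
translates `(s,t) ↦ f (s+t)` are `Z̄_(ℓ)`-polynomial in the coordinate functions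
`(s,t) ↦ h s`, `(s,t) ↦ h t`  (`h ∈ gens`).

* The only axiom on `act` is additivity `act_add` (v2, 18:30Z: without it `OrdStatement` is
  false — counterexamples by helper979, helper259, helper79); no finiteness of `gens`, no
  closure of `gens` under anything.
* `add_mem` is over `Zb ℓ` (integral closure in `Q̄`), which is WEAKER than over `Z_(ℓ)`;
  the ORD block proves that it implies the statement over `Z_(ℓ)`. -/
structure OrderDatum (ℓ : ℕ) (M : Type) [AddCommGroup M] (act : GalQ → M → M) where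
  act_add : ∀ (σ : GalQ) (a b : M), act σ (a + b) = act σ a + act σ b
  gens : Set (M → Qb)
  equivariant : ∀ f ∈ gens, ∀ (σ : GalQ) (m : M), f (act σ m) = σ (f m)
  integral : ∀ f ∈ gens, ∀ m : M, IsIntegral (Rl ℓ) (f m)
  separates : ∀ m m' : M, (∀ f ∈ gens, f m = f m') → m = m'
  add_mem : ∀ f ∈ gens, (fun p : M × M => f (p.1 + p.2)) ∈
    Algebra.adjoin (Zb ℓ) (coordFunctions gens)

/-- **ORD block** (pure algebra): an order datum on a finite module gives a Hopf model. -/
def OrdStatement : Prop :=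
  ∀ (ℓ : ℕ) [Fact ℓ.Prime] (M : Type) [AddCommGroup M] [Finite M] (act : GalQ → M → M),
    Nonempty (OrderDatum ℓ M act) → HopfModel ℓ M act

/-- The torsion module of S19 with its Galois action. -/
abbrev Tors (N ℓ k : ℕ) : Type := ↥(Submodule.torsionBy ℤ (ModularCurve.JZero N) ((ℓ : ℤ) ^ k))

/-- Galois action on the torsion. -/
def torsAct (N ℓ k : ℕ) (σ : GalQ) (m : Tors N ℓ k) : Tors N ℓ k :=
  ⟨σ • (m : ModularCurve.JZero N), by
    have h := m.2
    rw [Submodule.mem_torsionBy_iff] at h ⊢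
    have h2 := (DistribSMul.toAddMonoidHom (ModularCurve.JZero N) σ).map_zsmul
      ((ℓ : ℤ) ^ k) (m : ModularCurve.JZero N)
    rw [h, map_zero] at h2
    exact h2.symm⟩

@[simp] theorem coe_torsAct (N ℓ k : ℕ) (σ : GalQ) (m : Tors N ℓ k) :
    ((torsAct N ℓ k σ m : Tors N ℓ k) : ModularCurve.JZero N) = σ • (m : ModularCurve.JZero N) :=
  rfl

/-- **FIN block**: the torsion is finite. -/
def FinStatement : Prop :=
  ∀ (N : ℕ) [NeZero N] (ℓ : ℕ) [Fact ℓ.Prime] (k : ℕ), Finite (Tors N ℓ k)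

theorem torsAct_add (N ℓ k : ℕ) (σ : GalQ) (a b : Tors N ℓ k) :
    torsAct N ℓ k σ (a + b) = torsAct N ℓ k σ a + torsAct N ℓ k σ b :=
  Subtype.ext (smul_add σ (a : ModularCurve.JZero N) (b : ModularCurve.JZero N))

/-- **ORDER block** (the geometric wall): the torsion carries an order datum. -/
def OrderStatement : Prop :=
  ∀ (N : ℕ) [NeZero N] (ℓ : ℕ) [Fact ℓ.Prime], ¬ ℓ ∣ N → ∀ k : ℕ,
    Nonempty (OrderDatum ℓ (Tors N ℓ k) (torsAct N ℓ k))

end Fermat.Agent.S19

end

end
-- ===== PACK-END S19/Defs.lean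

-- ===== PACK-BEGIN S55/H414/CycloOrder.lean
section


/-!
# S55, leaf CYC-INF (helper414), part 2: orders of integers modulo `p ^ n`

Elementary number theory: if `q ≥ 2` then the `p`-part of the multiplicative order of `q`
modulo `p ^ n` tends to infinity with `n`.
-/

set_option autoImplicit false

namespace Fermat.Agent.S55.H414

/-- If `o ∣ (p - 1) * p ^ m` and `p ^ k ∤ o` (with `k ≥ 1`), then `o ∣ (p - 1) * p ^ (k - 1)`. -/
theorem dvd_pred_mul_pow_of_not_pow_dvd {p : ℕ} (hp : p.Prime) {o m k : ℕ}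
    (ho : o ∣ (p - 1) * p ^ m) (hk : ¬ p ^ k ∣ o) : o ∣ (p - 1) * p ^ (k - 1) := by
  have ho0 : o ≠ 0 := by
    rintro rfl
    exact hk (dvd_zero _)
  obtain ⟨j, a, ha, rfl⟩ := Nat.exists_eq_pow_mul_and_not_dvd ho0 p hp.ne_one
  have hcop : Nat.Coprime a (p ^ m) := Nat.Coprime.pow_right _
    ((Nat.Prime.coprime_iff_not_dvd hp).2 ha).symm
  have ha1 : a ∣ p - 1 := by
    have : a ∣ (p - 1) * p ^ m := (Dvd.intro_left _ rfl).trans ho
    exact hcop.dvd_of_dvd_mul_right this
  have hj : j < k := by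
    by_contra hjk
    exact hk ((pow_dvd_pow p (Nat.le_of_not_lt hjk)).trans (Dvd.intro _ rfl))
  have hj' : p ^ j ∣ p ^ (k - 1) := pow_dvd_pow p (by omega)
  rw [mul_comm (p - 1)]
  exact Nat.mul_dvd_mul hj' ha1

/-- For `q ≥ 2` and every `k`, for all large `n`, every unit of `ZMod (p ^ n)` which is the class
of `q` has order divisible by `p ^ k`. -/
theorem exists_forall_pow_dvd_orderOf (p q : ℕ) (hp : p.Prime) (hq : 2 ≤ q) (k : ℕ) :
    ∃ n₀ : ℕ, ∀ n, n₀ ≤ n → ∀ u : (ZMod (p ^ n))ˣ, (u : ZMod (p ^ n)) = (q : ZMod (p ^ n)) →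
      p ^ k ∣ orderOf u := by
  set E : ℕ := (p - 1) * p ^ (k - 1) with hE
  have hE0 : 0 < E := Nat.mul_pos (Nat.sub_pos_of_lt hp.one_lt) (pow_pos hp.pos _)
  set m : ℕ := q ^ E with hm
  have hm2 : 2 ≤ m := by
    calc 2 ≤ q := hq
      _ = q ^ 1 := (pow_one q).symm
      _ ≤ q ^ E := Nat.pow_le_pow_right (by omega) hE0
  refine ⟨m, fun n hn u hu => ?_⟩
  by_contra hk
  haveI : NeZero (p ^ n) := ⟨pow_ne_zero _ hp.ne_zero⟩
  have hn0 : n ≠ 0 := by
    rintro rfl
    omega
  have hcard : Nat.card (ZMod (p ^ n))ˣ = (p - 1) * p ^ (n - 1) := by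
    rw [Nat.card_eq_fintype_card, ZMod.card_units_eq_totient,
      Nat.totient_prime_pow hp (Nat.pos_of_ne_zero hn0), mul_comm]
  have ho : orderOf u ∣ (p - 1) * p ^ (n - 1) := by
    rw [← hcard]
    exact orderOf_dvd_natCard u
  have hoE : orderOf u ∣ E := dvd_pred_mul_pow_of_not_pow_dvd hp ho hk
  have h1 : u ^ E = 1 := orderOf_dvd_iff_pow_eq_one.1 hoE
  have h2 : ((m : ℕ) : ZMod (p ^ n)) = 1 := by
    have := congrArg (fun v : (ZMod (p ^ n))ˣ => (v : ZMod (p ^ n))) h1
    simp only [Units.val_pow_eq_pow_val, Units.val_one, hu] at this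
    rw [hm, Nat.cast_pow]
    exact this
  have h3 : ((m - 1 : ℕ) : ZMod (p ^ n)) = 0 := by
    rw [Nat.cast_sub (by omega), h2]
    simp
  have h4 : p ^ n ∣ m - 1 := (ZMod.natCast_eq_zero_iff _ _).1 h3
  have h5 : p ^ n ≤ m - 1 := Nat.le_of_dvd (by omega) h4
  have h6 : m < p ^ m := Nat.lt_pow_self hp.one_lt
  have h7 : p ^ m ≤ p ^ n := Nat.pow_le_pow_right hp.pos hn
  omega

end Fermat.Agent.S55.H414

end
-- ===== PACK-END S55/H414/CycloOrder.lean

-- ===== PACK-BEGIN S55/G/Rec/Hilbert90H844.lean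
section


/-!
# S55 / G / REC, leaf K5 (helper844): Hilbert 90 for level-constant cocycles

Abstract (Mathlib-only) statement.  Let a group `H` act on a field `Ω` by automorphisms, let
`N ≤ H` be a subgroup of finite index and `ι : T →* Ω` a multiplicative map whose image is fixed
pointwise by exactly the elements of `N` (think: `T = E`, a finite extension, `N = Gal(Ω/E) ∩ H`).
Then every 1-cocycle `X : H → Ωˣ` which is constant on the cosets `g N` is a coboundary:
there is `β ∈ Ωˣ` with `g • β * X g = β`.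

The proof is the classical one: the Poincaré series `∑_{t ∈ H/N} X(t) · t(θ)` does not vanish for
a suitable `θ ∈ T` by Dedekind's independence of characters.
-/

set_option autoImplicit false
set_option linter.unusedSectionVars false
set_option linter.style.haveILetI false

namespace Fermat.Agent.S55.G.Rec.H844

theorem exists_unit_of_levelCocycle844 {H Ω T : Type*} [Group H] [Field Ω]
    [MulSemiringAction H Ω] [Monoid T] (ι : T →* Ω) (N : Subgroup H) [Finite (H ⧸ N)]
    (hN : ∀ g : H, (∀ θ : T, g • ι θ = ι θ) → g ∈ N)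
    (hN' : ∀ g ∈ N, ∀ θ : T, g • ι θ = ι θ)
    (X : H → Ωˣ) (hX : ∀ g h, (X (g * h) : Ω) = g • (X h : Ω) * X g)
    (hXN : ∀ g, ∀ s ∈ N, X (g * s) = X g) :
    ∃ β : Ωˣ, ∀ g : H, g • (β : Ω) * X g = β := by
  classical
  haveI : Fintype (H ⧸ N) := Fintype.ofFinite _
  -- the characters `ψ_g : T →* Ω`, `θ ↦ g • ι θ`
  obtain ⟨ψ, hψ_apply⟩ : ∃ ψ : H → (T →* Ω), ∀ g θ, ψ g θ = g • ι θ :=
    ⟨fun g => ((MulSemiringAction.toRingHom H Ω g : Ω →+* Ω) : Ω →* Ω).comp ι, fun g θ => rfl⟩
  have hψ : ∀ g, ∀ s ∈ N, ψ (g * s) = ψ g := by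
    intro g s hs
    ext θ
    rw [hψ_apply, hψ_apply, mul_smul, hN' s hs θ]
  have hψinj : ∀ g g', ψ g = ψ g' → g⁻¹ * g' ∈ N := by
    intro g g' h
    apply hN
    intro θ
    have := DFunLike.congr_fun h θ
    rw [hψ_apply, hψ_apply] at this
    rw [mul_smul, ← this, inv_smul_smul]
  have hinj : Function.Injective (fun t : H ⧸ N => ψ (Quotient.out t)) := by
    intro t t' h
    have := hψinj _ _ h
    rw [← QuotientGroup.eq, QuotientGroup.out_eq', QuotientGroup.out_eq'] at this
    exact this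
  have hli' : LinearIndependent Ω (fun t : H ⧸ N => (ψ (Quotient.out t) : T → Ω)) :=
    (linearIndependent_monoidHom T Ω).comp _ hinj
  -- nonvanishing of the Poincaré series
  have hex : ∃ θ : T, ∑ t : H ⧸ N, (X (Quotient.out t) : Ω) * ψ (Quotient.out t) θ ≠ 0 := by
    by_contra hcon
    push Not at hcon
    have h0 : ∑ t : H ⧸ N, (X (Quotient.out t) : Ω) • (ψ (Quotient.out t) : T → Ω) = 0 := by
      ext θ
      rw [Finset.sum_apply]
      simpa using hcon θ
    have := Fintype.linearIndependent_iff.mp hli' _ h0 ((1 : H) : H ⧸ N)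
    exact (X _).ne_zero this
  obtain ⟨θ, hθ⟩ := hex
  -- `F g = X g * g • ι θ` is constant on cosets
  obtain ⟨F, hF⟩ : ∃ F : H → Ω, ∀ g, F g = (X g : Ω) * ψ g θ := ⟨_, fun _ => rfl⟩
  have hFN : ∀ g, ∀ s ∈ N, F (g * s) = F g := by
    intro g s hs
    rw [hF, hF, hXN g s hs, hψ g s hs]
  have hFbar : ∀ g : H, F g = F (Quotient.out (g : H ⧸ N)) := by
    intro g
    have hmem : g⁻¹ * Quotient.out (g : H ⧸ N) ∈ N := by
      rw [← QuotientGroup.eq, QuotientGroup.out_eq']
    have := hFN g _ hmem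
    rw [← this]
    congr 1
    group
  refine ⟨Units.mk0 _ hθ, fun g => ?_⟩
  rw [Units.val_mk0, Finset.smul_sum, Finset.sum_mul]
  calc ∑ t : H ⧸ N, g • ((X (Quotient.out t) : Ω) * ψ (Quotient.out t) θ) * (X g : Ω)
      = ∑ t : H ⧸ N, F (Quotient.out (g • t)) := by
        refine Finset.sum_congr rfl fun t _ => ?_
        have h1 : g • ((X (Quotient.out t) : Ω) * ψ (Quotient.out t) θ) * (X g : Ω) =
            F (g * Quotient.out t) := by
          rw [hF, hψ_apply, hψ_apply, smul_mul', hX, mul_smul]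
          ring
        rw [h1, hFbar (g * Quotient.out t)]
        congr 2
        conv_rhs => rw [← QuotientGroup.out_eq' t]
        rfl
    _ = ∑ t : H ⧸ N, F (Quotient.out t) :=
        Fintype.sum_equiv (MulAction.toPerm g) _ _ (fun t => rfl)
    _ = ∑ t : H ⧸ N, (X (Quotient.out t) : Ω) * ψ (Quotient.out t) θ :=
        Finset.sum_congr rfl fun t _ => hF _

end Fermat.Agent.S55.G.Rec.H844

end
-- ===== PACK-END S55/G/Rec/Hilbert90H844.lean

-- ===== PACK-BEGIN S55/G/Rec/Glob/Inst.lean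
section


/-!
# S55 / REC / global dictionary: shortcut instances (helper64)

Instance search for the action of `Gal(L/K)` on `Lˣ` (`AlgEquiv.instMulDistribMulActionUnits`)
is slow (more than the default `synthInstance.maxHeartbeats`) when `L` is (the coercion to a type
of) an intermediate field.  The following shortcut instances are definitionally the Mathlib
instances.
-/

set_option autoImplicit false

namespace Fermat.Agent.S55.G.Rec.Glob

variable {K E : Type} [Field K] [Field E] [Algebra K E] (L : IntermediateField K E)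

/-- Shortcut instance. -/
instance instMulDistribMulActionIF : MulDistribMulAction (L ≃ₐ[K] L) (↥L)ˣ :=
  AlgEquiv.instMulDistribMulActionUnits

/-- Shortcut instance. -/
instance instSMulIF : SMul (L ≃ₐ[K] L) (↥L)ˣ :=
  (instMulDistribMulActionIF L).toMulAction.toSMul

end Fermat.Agent.S55.G.Rec.Glob

end
-- ===== PACK-END S55/G/Rec/Glob/Inst.lean

-- ===== PACK-BEGIN S55/H413/WRIrred.lean
section


/-!
# S55, leaf WR, part 3a: the cyclotomic polynomial of `p`-power level is irreducible over `ℚ_[p]`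

(Eisenstein's criterion over `ℤ_[p]` + Gauss's lemma.)  Consequences for a cyclotomic extension
`F/ℚ_[p]` of level `p ^ (n + 1)`: degree `φ(p^(n+1))`, Galois group `≃* (ZMod (p^(n+1)))ˣ`,
and `N(ζ - 1) = p` for odd `p`.
-/

set_option autoImplicit false

namespace Fermat.Agent.S55.H413

open Polynomial

variable (p : ℕ) [hp : Fact p.Prime]

theorem isEisensteinAt_cyclotomic_comp_padicInt (n : ℕ) :
    ((cyclotomic (p ^ (n + 1)) ℤ_[p]).comp (X + 1)).IsEisensteinAt
      (Ideal.span {(p : ℤ_[p])}) := by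
  have hZ := cyclotomic_prime_pow_comp_X_add_one_isEisensteinAt p n
  have hmonicZ : ((cyclotomic (p ^ (n + 1)) ℤ).comp (X + 1)).Monic := by
    rw [show (X + 1 : ℤ[X]) = X + C 1 by simp]
    refine (cyclotomic.monic _ ℤ).comp (monic_X_add_C 1) fun h => ?_
    rw [natDegree_X_add_C] at h
    exact zero_ne_one h.symm
  have hmap : (cyclotomic (p ^ (n + 1)) ℤ_[p]).comp (X + 1) =
      ((cyclotomic (p ^ (n + 1)) ℤ).comp (X + 1)).map (Int.castRingHom ℤ_[p]) := by
    simp [Polynomial.map_comp, map_cyclotomic]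
  have hprime : (Ideal.span {(p : ℤ_[p])}).IsPrime :=
    (Ideal.span_singleton_prime (PadicInt.prime_p (p := p)).ne_zero).2 PadicInt.prime_p
  refine Monic.isEisensteinAt_of_mem_of_notMem ?_ hprime.ne_top ?_ ?_
  · rw [hmap]; exact hmonicZ.map _
  · intro i hi
    rw [hmap] at hi ⊢
    rw [hmonicZ.natDegree_map] at hi
    have := hZ.mem hi
    rw [Ideal.submodule_span_eq, Ideal.mem_span_singleton] at this
    obtain ⟨c, hc⟩ := this
    rw [coeff_map, hc, Ideal.mem_span_singleton]
    exact ⟨(c : ℤ_[p]), by simp⟩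
  · rw [coeff_zero_eq_eval_zero, eval_comp, eval_add, eval_X, eval_one, zero_add,
      eval_one_cyclotomic_prime_pow, Ideal.span_singleton_pow, Ideal.mem_span_singleton]
    rintro ⟨c, hc⟩
    have hp0 : (p : ℤ_[p]) ≠ 0 := (PadicInt.prime_p (p := p)).ne_zero
    have h1 : (p : ℤ_[p]) * 1 = (p : ℤ_[p]) * ((p : ℤ_[p]) * c) := by
      rw [mul_one, ← mul_assoc, ← pow_two]; exact hc
    have h2 : (1 : ℤ_[p]) = (p : ℤ_[p]) * c := mul_left_cancel₀ hp0 h1
    exact (PadicInt.prime_p (p := p)).not_isUnit (IsUnit.of_mul_eq_one c h2.symm)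

theorem irreducible_cyclotomic_padicInt (n : ℕ) :
    Irreducible (cyclotomic (p ^ (n + 1)) ℤ_[p]) := by
  have hE := isEisensteinAt_cyclotomic_comp_padicInt p n
  have hprime : (Ideal.span {(p : ℤ_[p])}).IsPrime :=
    (Ideal.span_singleton_prime (PadicInt.prime_p (p := p)).ne_zero).2 PadicInt.prime_p
  have hmonic : ((cyclotomic (p ^ (n + 1)) ℤ_[p]).comp (X + 1)).Monic := by
    rw [show (X + 1 : ℤ_[p][X]) = X + C 1 by simp]
    refine (cyclotomic.monic _ _).comp (monic_X_add_C 1) fun h => ?_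
    rw [natDegree_X_add_C] at h
    exact zero_ne_one h.symm
  have hdeg : 0 < ((cyclotomic (p ^ (n + 1)) ℤ_[p]).comp (X + 1)).natDegree := by
    rw [natDegree_comp, show (X + 1 : ℤ_[p][X]) = X + C 1 by simp, natDegree_X_add_C, mul_one,
      natDegree_cyclotomic]
    exact Nat.totient_pos.mpr (pow_pos hp.out.pos _)
  have hirr := hE.irreducible hprime hmonic.isPrimitive hdeg
  have hcomp : (cyclotomic (p ^ (n + 1)) ℤ_[p]).comp (X + 1) =
      algEquivAevalXAddC (1 : ℤ_[p]) (cyclotomic (p ^ (n + 1)) ℤ_[p]) := by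
    simp [algEquivAevalXAddC, aeval_def, eval₂_eq_eval_map, comp]
  rw [hcomp] at hirr
  exact (MulEquiv.irreducible_iff (algEquivAevalXAddC (1 : ℤ_[p])).toMulEquiv).mp hirr

/-- The cyclotomic polynomial of level `p ^ (n + 1)` is irreducible over `ℚ_[p]`. -/
theorem irreducible_cyclotomic_padic (n : ℕ) :
    Irreducible (cyclotomic (p ^ (n + 1)) ℚ_[p]) := by
  have h := (Monic.irreducible_iff_irreducible_map_fraction_map (K := ℚ_[p])
    (cyclotomic.monic (p ^ (n + 1)) ℤ_[p])).mp (irreducible_cyclotomic_padicInt p n)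
  rwa [map_cyclotomic] at h

end Fermat.Agent.S55.H413

end
-- ===== PACK-END S55/H413/WRIrred.lean

-- ===== PACK-BEGIN S55/G/Rec/HP/InflInj.lean
section


/-!
# S55 / REC / HP : injectivity of inflation in degree 2, cochain form

Abstract lemma (no finiteness, no topology): let `ρ : Γ → D` be a surjective homomorphism,
`A` a `Γ`-module, `B` a `D`-module and `φ : B → A` an injective `ρ`-equivariant additive map
whose image contains the `ker ρ`-invariants of `A`.  Let `f` be a 2-cocycle of `D` in `B` whose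
inflation `φ ∘ f ∘ (ρ × ρ)` is the coboundary of a 1-cochain `b : Γ → A`.  If the 1-cocycle
`n ↦ b n - φ (f (1, 1))` of `ker ρ` is a coboundary (Hilbert 90), then `f` is a coboundary.
-/

set_option autoImplicit false

open CategoryTheory groupCohomology

namespace Fermat.Agent.S55.G.Rec.HP

variable {k Γ D : Type} [CommRing k] [Group Γ] [Group D]

/-- **Inflation is injective on `H²`** (cochain form, Hilbert 90 as hypothesis `ha`). -/
theorem mem_coboundaries₂_of_infl (A : Rep.{0} k Γ) (B : Rep.{0} k D) (ρ : Γ →* D)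
    (hρ : Function.Surjective ρ) (φ : B.V →+ A.V) (hφinj : Function.Injective φ)
    (hφeq : ∀ (τ : Γ) (y : B.V), φ (B.ρ (ρ τ) y) = A.ρ τ (φ y))
    (hφrange : ∀ a : A.V, (∀ n : Γ, ρ n = 1 → A.ρ n a = a) → ∃ y, φ y = a)
    (f : D × D → B.V) (hf : f ∈ cocycles₂ B) (b : Γ → A.V)
    (hb : ∀ τ τ' : Γ, A.ρ τ (b τ') - b (τ * τ') + b τ = φ (f (ρ τ, ρ τ')))
    (a : A.V) (ha : ∀ n : Γ, ρ n = 1 → b n - φ (f (1, 1)) = A.ρ n a - a) :
    f ∈ coboundaries₂ B := by
  classical
  set e : A.V := φ (f (1, 1)) with he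
  -- the corrected cochain
  set b' : Γ → A.V := fun τ => b τ - e - (A.ρ τ a - a) with hb'
  have hker : ∀ n : Γ, ρ n = 1 → b' n = 0 := by
    intro n hn
    simp only [hb']
    rw [ha n hn, sub_self]
  have hne : ∀ n : Γ, ρ n = 1 → A.ρ n e = e := by
    intro n hn
    rw [he, ← hφeq, hn, map_one]
    rfl
  -- coboundary of `b'`
  have hdb' : ∀ τ τ' : Γ, A.ρ τ (b' τ') - b' (τ * τ') + b' τ = φ (f (ρ τ, ρ τ')) - A.ρ τ e := by
    intro τ τ'
    have h := hb τ τ'
    simp only [hb', map_sub, map_mul, Module.End.mul_apply]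
    rw [← h]
    abel
  have hf1 : ∀ x : D, f (x, 1) = B.ρ x (f (1, 1)) := fun x =>
    cocycles₂_map_one_snd ⟨f, hf⟩ x
  have hf2 : ∀ x : D, f (1, x) = f (1, 1) := fun x =>
    cocycles₂_map_one_fst ⟨f, hf⟩ x
  -- right invariance
  have hright : ∀ (τ n : Γ), ρ n = 1 → b' (τ * n) = b' τ := by
    intro τ n hn
    have h := hdb' τ n
    rw [hker n hn, map_zero, zero_sub, hn, hf1, hφeq, ← he, sub_self] at h
    rwa [neg_add_eq_zero] at h
  -- values are fixed by `ker ρ`
  have hfix : ∀ (τ n : Γ), ρ n = 1 → A.ρ n (b' τ) = b' τ := by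
    intro τ n hn
    have h := hdb' n τ
    have hconj : b' (n * τ) = b' τ := by
      have : n * τ = τ * (τ⁻¹ * n * τ) := by group
      rw [this]
      apply hright
      simp [hn]
    rw [hconj, hker n hn, add_zero, hn, hf2, ← he, hne n hn, sub_self, sub_eq_zero] at h
    exact h
  -- descend
  have hex : ∀ τ : Γ, ∃ y : B.V, φ y = b' τ := fun τ => hφrange _ (hfix τ)
  choose y hy using hex
  let s : D → Γ := Function.surjInv hρ
  have hs : ∀ x, ρ (s x) = x := Function.surjInv_eq hρ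
  have hbar : ∀ τ : Γ, φ (y (s (ρ τ))) = b' τ := by
    intro τ
    rw [hy]
    have : τ = s (ρ τ) * ((s (ρ τ))⁻¹ * τ) := by group
    conv_rhs => rw [this]
    symm
    apply hright
    simp [hs]
  refine ⟨fun x => y (s x) + f (1, 1), ?_⟩
  funext ⟨x, x'⟩
  rw [d₁₂_hom_apply]
  apply hφinj
  obtain ⟨τ, rfl⟩ := hρ x
  obtain ⟨τ', rfl⟩ := hρ x'
  have h := hdb' τ τ'
  simp only [map_add, map_sub, hφeq, ← map_mul, hbar]
  rw [← he]
  have h' : A.ρ τ (b' τ') - b' (τ * τ') + b' τ + A.ρ τ e = φ (f (ρ τ, ρ τ')) := by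
    rw [h]; abel
  rw [← h']
  abel

end Fermat.Agent.S55.G.Rec.HP

end
-- ===== PACK-END S55/G/Rec/HP/InflInj.lean

-- ===== PACK-BEGIN S55/H595/Herbrand.lean
section
/-
Herbrand quotients, elementary version (helper595, S55 class-field-theory build).

For a commutative group `A` with two endomorphisms `f g` such that `f ∘ g = 1 = g ∘ f`
(trivial compositions) we put `mhIdx f g = [ker f : im g]` (a natural number, `0` when
infinite).  The Herbrand quotient is `mhIdx f g / mhIdx g f`.  We prove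

* `mhIdx_eq_of_finite` : for finite `A`, `mhIdx f g = mhIdx g f ≠ 0`;
* `exists_six_factors_mul`, `MHExact.*` : multiplicativity in short exact sequences together
  with the two-out-of-three finiteness statements.

Every declaration has an additive twin (generated by `to_additive`): `hIdx`, `HFinite`,
`herbrandQ`, `HExact`, ...   Everything is Mathlib-only.
-/


namespace Fermat.Agent.S55.H595

open Subgroup Function

variable {A B C : Type*} [CommGroup A] [CommGroup B] [CommGroup C]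

/-- `mhIdx f g = [ker f : im g ∩ ker f]`; when `f ∘ g = 1` this is the order of
`ker f / im g` (`0` if infinite). -/
@[to_additive hIdx /-- `hIdx f g = [ker f : im g ∩ ker f]`; when `f ∘ g = 0` this is the order
of `ker f / im g` (`0` if infinite). -/]
noncomputable def mhIdx (f g : A →* A) : ℕ := g.range.relIndex f.ker

/-- Both Herbrand indices are finite (i.e. nonzero as natural numbers). -/
@[to_additive HFinite /-- Both Herbrand indices are finite (i.e. nonzero as natural numbers). -/]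
def MHFinite (f g : A →* A) : Prop := mhIdx f g ≠ 0 ∧ mhIdx g f ≠ 0

/-- The Herbrand quotient `[ker f : im g] / [ker g : im f]`. -/
@[to_additive herbrandQ /-- The Herbrand quotient `[ker f : im g] / [ker g : im f]`. -/]
noncomputable def mherbrandQ (f g : A →* A) : ℚ := (mhIdx f g : ℚ) / (mhIdx g f : ℚ)

@[to_additive HFinite.symm]
lemma MHFinite.symm {f g : A →* A} (h : MHFinite f g) : MHFinite g f := ⟨h.2, h.1⟩

@[to_additive herbrandQ_ne_zero]
lemma mherbrandQ_ne_zero {f g : A →* A} (h : MHFinite f g) : mherbrandQ f g ≠ 0 := by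
  unfold mherbrandQ
  exact div_ne_zero (Nat.cast_ne_zero.2 h.1) (Nat.cast_ne_zero.2 h.2)

@[to_additive herbrandQ_swap]
lemma mherbrandQ_swap (f g : A →* A) : mherbrandQ g f = (mherbrandQ f g)⁻¹ := by
  unfold mherbrandQ; rw [inv_div]

/-! ### Finite groups -/

/-- For a finite abelian group the Herbrand quotient is `1`. -/
@[to_additive hIdx_eq_of_finite]
theorem mhIdx_eq_of_finite [Finite A] (f g : A →* A) (hfg : ∀ a, f (g a) = 1)
    (hgf : ∀ a, g (f a) = 1) : mhIdx f g = mhIdx g f ∧ mhIdx f g ≠ 0 := by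
  have hgle : g.range ≤ f.ker := by
    rintro _ ⟨a, rfl⟩; exact hfg a
  have hfle : f.range ≤ g.ker := by
    rintro _ ⟨a, rfl⟩; exact hgf a
  have h1 : Nat.card g.range * mhIdx f g = Nat.card f.ker := by
    unfold mhIdx
    have := relIndex_mul_relIndex (⊥ : Subgroup A) g.range f.ker bot_le hgle
    simpa [relIndex_bot_left] using this
  have h2 : Nat.card f.range * mhIdx g f = Nat.card g.ker := by
    unfold mhIdx
    have := relIndex_mul_relIndex (⊥ : Subgroup A) f.range g.ker bot_le hfle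
    simpa [relIndex_bot_left] using this
  have h3 : Nat.card f.ker * Nat.card f.range = Nat.card A := by
    have := f.ker.card_mul_index
    rwa [index_ker] at this
  have h4 : Nat.card g.ker * Nat.card g.range = Nat.card A := by
    have := g.ker.card_mul_index
    rwa [index_ker] at this
  have hfr : 0 < Nat.card f.range := Nat.card_pos
  have hgr : 0 < Nat.card g.range := Nat.card_pos
  have hfk : 0 < Nat.card f.ker := Nat.card_pos
  have key : (Nat.card g.range * Nat.card f.range) * mhIdx f g =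
      (Nat.card g.range * Nat.card f.range) * mhIdx g f := by
    calc (Nat.card g.range * Nat.card f.range) * mhIdx f g
        = (Nat.card g.range * mhIdx f g) * Nat.card f.range := by
          rw [Nat.mul_assoc, Nat.mul_comm (Nat.card f.range), ← Nat.mul_assoc]
      _ = Nat.card A := by rw [h1, h3]
      _ = (Nat.card f.range * mhIdx g f) * Nat.card g.range := by rw [h2, h4]
      _ = (Nat.card g.range * Nat.card f.range) * mhIdx g f := by
          rw [Nat.mul_comm, ← Nat.mul_assoc]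
  refine ⟨Nat.eq_of_mul_eq_mul_left (Nat.mul_pos hgr hfr) key, ?_⟩
  intro h0
  rw [h0, Nat.mul_zero] at h1
  exact hfk.ne h1

@[to_additive hFinite_of_finite]
theorem mhFinite_of_finite [Finite A] (f g : A →* A) (hfg : ∀ a, f (g a) = 1)
    (hgf : ∀ a, g (f a) = 1) : MHFinite f g :=
  ⟨(mhIdx_eq_of_finite f g hfg hgf).2, (mhIdx_eq_of_finite g f hgf hfg).2⟩

@[to_additive herbrandQ_eq_one_of_finite]
theorem mherbrandQ_eq_one_of_finite [Finite A] (f g : A →* A) (hfg : ∀ a, f (g a) = 1)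
    (hgf : ∀ a, g (f a) = 1) : mherbrandQ f g = 1 := by
  unfold mherbrandQ
  rw [(mhIdx_eq_of_finite f g hfg hgf).1]
  exact div_self (Nat.cast_ne_zero.2 (mhIdx_eq_of_finite g f hgf hfg).2)

/-! ### Short exact sequences -/

section Exact

variable (i : A →* B) (p : B →* C) (fA gA : A →* A) (fB gB : B →* B) (fC gC : C →* C)

/-- Transport of `mhIdx` of the sub-object to the ambient group. -/
@[to_additive hIdx_sub]
lemma mhIdx_sub (hi : Injective i) (hf : ∀ a, i (fA a) = fB (i a))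
    (hg : ∀ a, i (gA a) = gB (i a)) :
    mhIdx fA gA = (i.range.map gB).relIndex (fB.ker ⊓ i.range) := by
  unfold mhIdx
  rw [← relIndex_map_map_of_injective gA.range fA.ker hi]
  congr 1
  · ext x
    constructor
    · rintro ⟨_, ⟨a, rfl⟩, rfl⟩
      exact ⟨i a, ⟨a, rfl⟩, (hg a).symm⟩
    · rintro ⟨_, ⟨a, rfl⟩, rfl⟩
      exact ⟨gA a, ⟨a, rfl⟩, hg a⟩
  · ext x
    constructor
    · rintro ⟨a, ha, rfl⟩
      refine ⟨?_, ⟨a, rfl⟩⟩
      have ha' : fA a = 1 := ha
      show fB (i a) = 1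
      rw [← hf, ha', map_one]
    · rintro ⟨hx, ⟨a, rfl⟩⟩
      refine ⟨a, ?_, rfl⟩
      have hx' : fB (i a) = 1 := hx
      show fA a = 1
      apply hi
      rw [hf, hx', map_one]

/-- Transport of `mhIdx` of the quotient object to the ambient group. -/
@[to_additive hIdx_quot]
lemma mhIdx_quot (hp : Surjective p) (hf : ∀ b, p (fB b) = fC (p b))
    (hg : ∀ b, p (gB b) = gC (p b)) (hpres : p.ker ≤ p.ker.comap fB) :
    mhIdx fC gC = (gB.range ⊔ p.ker).relIndex (p.ker.comap fB) := by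
  unfold mhIdx
  have h1 : gC.range = gB.range.map p := by
    ext x
    constructor
    · rintro ⟨c, rfl⟩
      obtain ⟨b, rfl⟩ := hp c
      exact ⟨gB b, ⟨b, rfl⟩, hg b⟩
    · rintro ⟨_, ⟨b, rfl⟩, rfl⟩
      exact ⟨p b, (hg b).symm⟩
  have h2 : fC.ker = (p.ker.comap fB).map p := by
    ext x
    constructor
    · intro hx
      obtain ⟨b, rfl⟩ := hp x
      refine ⟨b, ?_, rfl⟩
      have hx' : fC (p b) = 1 := hx
      show p (fB b) = 1
      rw [hf, hx']
    · rintro ⟨b, hb, rfl⟩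
      have hb' : p (fB b) = 1 := hb
      show fC (p b) = 1
      rw [← hf, hb']
  rw [h1, h2, relIndex_map_map, sup_eq_left.2 hpres]

/-- Index computation for a pair `(f, g)` of endomorphisms of `B` preserving a subgroup `A'`. -/
@[to_additive hIdx_main_aux]
lemma mhIdx_main_aux (A' : Subgroup B) (f g : B →* B) (hfg : ∀ b, f (g b) = 1)
    (hf : A' ≤ A'.comap f) (hg : A' ≤ A'.comap g) :
    ∃ w y : ℕ,
      (A'.map g).relIndex (f.ker ⊓ A') = (A'.map g).relIndex (A' ⊓ g.range) * w ∧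
      g.range.relIndex f.ker = w * y ∧
      (g.range ⊔ A').relIndex (A'.comap f) = (A'.map f).relIndex (A' ⊓ f.range) * y := by
  have hgZ : g.range ≤ f.ker := by rintro _ ⟨b, rfl⟩; exact hfg b
  refine ⟨(g.range ⊓ A').relIndex (f.ker ⊓ A'), (g.range ⊔ A').relIndex f.ker, ?_, ?_, ?_⟩
  · -- a = E_g * w
    have h1 : A'.map g ≤ g.range ⊓ A' := by
      rintro _ ⟨x, hx, rfl⟩
      exact ⟨⟨x, rfl⟩, hg hx⟩
    have h2 : g.range ⊓ A' ≤ f.ker ⊓ A' := inf_le_inf_right _ hgZ
    rw [inf_comm A' g.range]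
    exact (relIndex_mul_relIndex _ _ _ h1 h2).symm
  · -- b = w * y
    have h := relIndex_inf_mul_relIndex g.range (g.range ⊔ A') f.ker
    rw [inf_eq_left.2 (le_sup_left : g.range ≤ g.range ⊔ A')] at h
    rw [← h]
    congr 1
    -- modular law
    have hmod : (g.range ⊔ A') ⊓ f.ker = g.range ⊔ (A' ⊓ f.ker) := by
      apply le_antisymm
      · intro x hx
        have hx1 : x ∈ g.range ⊔ A' := hx.1
        have hx2 : x ∈ f.ker := hx.2
        rw [mem_sup] at hx1
        obtain ⟨u, hu, v, hv, rfl⟩ := hx1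
        rw [mem_sup]
        refine ⟨u, hu, v, ⟨hv, ?_⟩, rfl⟩
        have : v = u⁻¹ * (u * v) := by rw [inv_mul_cancel_left]
        rw [this]
        exact f.ker.mul_mem (f.ker.inv_mem (hgZ hu)) hx2
      · exact le_inf (sup_le_sup_left inf_le_left _) (sup_le hgZ inf_le_right)
    rw [hmod]
    rw [relIndex_sup_left (A' ⊓ f.ker) g.range, ← inf_relIndex_right g.range (A' ⊓ f.ker),
      ← inf_relIndex_right (g.range ⊓ A') (f.ker ⊓ A')]
    congr 1
    · apply le_antisymm
      · exact le_inf (le_inf inf_le_left (inf_le_right.trans inf_le_left))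
          (le_inf (inf_le_left.trans hgZ) (inf_le_right.trans inf_le_left))
      · exact le_inf (inf_le_left.trans inf_le_left) (le_inf (inf_le_left.trans inf_le_right)
          (inf_le_right.trans inf_le_left))
    · exact inf_comm _ _
  · -- c = E_f * y
    have hle1 : g.range ⊔ A' ≤ f.ker ⊔ A' := sup_le_sup_right hgZ _
    have hle2 : f.ker ⊔ A' ≤ A'.comap f := by
      refine sup_le ?_ hf
      intro x hx
      have hx' : f x = 1 := hx
      show f x ∈ A'
      rw [hx']; exact A'.one_mem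
    rw [← relIndex_mul_relIndex _ _ _ hle1 hle2, Nat.mul_comm]
    congr 1
    · -- [f⁻¹A' : ker f ⊔ A'] = E_f
      have : f.ker ⊔ A' = (A'.map f).comap f := by rw [comap_map_eq, sup_comm]
      rw [this, relIndex_comap, map_comap_eq, inf_comm]
    · -- [ker f ⊔ A' : im g ⊔ A'] = y
      have : f.ker ⊔ A' = (g.range ⊔ A') ⊔ f.ker := by
        rw [sup_comm, sup_assoc, sup_comm A' f.ker, ← sup_assoc, sup_eq_right.2 hgZ, sup_comm]
      rw [this]
      exact relIndex_sup_left f.ker (g.range ⊔ A')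

/-- **Core index computation** behind the multiplicativity of the Herbrand quotient.
All six Herbrand indices of a short exact sequence `1 → A → B → C → 1` (compatible with the
pairs of endomorphisms) are products of two out of six auxiliary indices. -/
@[to_additive exists_six_factors]
theorem exists_six_factors_mul (hi : Injective i) (hp : Surjective p) (hex : i.range = p.ker)
    (hfi : ∀ a, i (fA a) = fB (i a)) (hgi : ∀ a, i (gA a) = gB (i a))
    (hfp : ∀ b, p (fB b) = fC (p b)) (hgp : ∀ b, p (gB b) = gC (p b))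
    (hfg : ∀ b, fB (gB b) = 1) (hgf : ∀ b, gB (fB b) = 1) :
    ∃ Ef Eg w y w' y' : ℕ,
      mhIdx fA gA = Eg * w ∧ mhIdx fB gB = w * y ∧ mhIdx fC gC = Ef * y ∧
      mhIdx gA fA = Ef * w' ∧ mhIdx gB fB = w' * y' ∧ mhIdx gC fC = Eg * y' := by
  have hker : p.ker = i.range := hex.symm
  have hfpres : i.range ≤ i.range.comap fB := by
    rintro _ ⟨a, rfl⟩
    exact ⟨fA a, hfi a⟩
  have hgpres : i.range ≤ i.range.comap gB := by
    rintro _ ⟨a, rfl⟩
    exact ⟨gA a, hgi a⟩
  obtain ⟨w, y, h1, h2, h3⟩ := mhIdx_main_aux i.range fB gB hfg hfpres hgpres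
  obtain ⟨w', y', h1', h2', h3'⟩ := mhIdx_main_aux i.range gB fB hgf hgpres hfpres
  refine ⟨(i.range.map fB).relIndex (i.range ⊓ fB.range),
    (i.range.map gB).relIndex (i.range ⊓ gB.range), w, y, w', y', ?_, ?_, ?_, ?_, ?_, ?_⟩
  · rw [mhIdx_sub i fA gA fB gB hi hfi hgi]; exact h1
  · exact h2
  · rw [mhIdx_quot p fB gB fC gC hp hfp hgp (hker ▸ hfpres), hker]; exact h3
  · rw [mhIdx_sub i gA fA gB fB hi hgi hfi]; exact h1'
  · exact h2'
  · rw [mhIdx_quot p gB fB gC fC hp hgp hfp (hker ▸ hgpres), hker]; exact h3'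

/-- Hypotheses describing a short exact sequence `1 → A → B → C → 1` of commutative groups
with compatible pairs of endomorphisms. -/
@[to_additive HExact /-- Hypotheses describing a short exact sequence `0 → A → B → C → 0` of
abelian groups with compatible pairs of endomorphisms. -/]
def MHExact : Prop :=
  Injective i ∧ Surjective p ∧ i.range = p.ker ∧
    (∀ a, i (fA a) = fB (i a)) ∧ (∀ a, i (gA a) = gB (i a)) ∧
    (∀ b, p (fB b) = fC (p b)) ∧ (∀ b, p (gB b) = gC (p b)) ∧
    (∀ b, fB (gB b) = 1) ∧ (∀ b, gB (fB b) = 1)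

variable {i p fA gA fB gB fC gC}

@[to_additive HExact.six]
theorem MHExact.six (h : MHExact i p fA gA fB gB fC gC) :
    ∃ Ef Eg w y w' y' : ℕ,
      mhIdx fA gA = Eg * w ∧ mhIdx fB gB = w * y ∧ mhIdx fC gC = Ef * y ∧
      mhIdx gA fA = Ef * w' ∧ mhIdx gB fB = w' * y' ∧ mhIdx gC fC = Eg * y' :=
  exists_six_factors_mul i p fA gA fB gB fC gC h.1 h.2.1 h.2.2.1 h.2.2.2.1 h.2.2.2.2.1
    h.2.2.2.2.2.1 h.2.2.2.2.2.2.1 h.2.2.2.2.2.2.2.1 h.2.2.2.2.2.2.2.2

/-- Multiplicativity of Herbrand indices, unconditional form (`0` = infinite). -/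
@[to_additive HExact.hIdx_mul_eq]
theorem MHExact.mhIdx_mul_eq (h : MHExact i p fA gA fB gB fC gC) :
    mhIdx fB gB * (mhIdx gA fA * mhIdx gC fC) = mhIdx gB fB * (mhIdx fA gA * mhIdx fC gC) := by
  obtain ⟨Ef, Eg, w, y, w', y', h1, h2, h3, h4, h5, h6⟩ := h.six
  rw [h1, h2, h3, h4, h5, h6]
  simp only [Nat.mul_assoc, Nat.mul_comm, Nat.mul_left_comm]

@[to_additive HExact.hFinite_mid]
theorem MHExact.mhFinite_mid (h : MHExact i p fA gA fB gB fC gC) (hA : MHFinite fA gA)
    (hC : MHFinite fC gC) : MHFinite fB gB := by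
  obtain ⟨Ef, Eg, w, y, w', y', h1, h2, h3, h4, h5, h6⟩ := h.six
  obtain ⟨a1, a2⟩ := hA
  obtain ⟨c1, c2⟩ := hC
  rw [h1] at a1; rw [h4] at a2; rw [h3] at c1; rw [h6] at c2
  refine ⟨?_, ?_⟩
  · rw [h2]; exact Nat.mul_ne_zero (right_ne_zero_of_mul a1) (right_ne_zero_of_mul c1)
  · rw [h5]; exact Nat.mul_ne_zero (right_ne_zero_of_mul a2) (right_ne_zero_of_mul c2)

@[to_additive HExact.hFinite_right]
theorem MHExact.mhFinite_right (h : MHExact i p fA gA fB gB fC gC) (hA : MHFinite fA gA)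
    (hB : MHFinite fB gB) : MHFinite fC gC := by
  obtain ⟨Ef, Eg, w, y, w', y', h1, h2, h3, h4, h5, h6⟩ := h.six
  obtain ⟨a1, a2⟩ := hA
  obtain ⟨b1, b2⟩ := hB
  rw [h1] at a1; rw [h4] at a2; rw [h2] at b1; rw [h5] at b2
  refine ⟨?_, ?_⟩
  · rw [h3]; exact Nat.mul_ne_zero (left_ne_zero_of_mul a2) (right_ne_zero_of_mul b1)
  · rw [h6]; exact Nat.mul_ne_zero (left_ne_zero_of_mul a1) (right_ne_zero_of_mul b2)

@[to_additive HExact.hFinite_left]
theorem MHExact.mhFinite_left (h : MHExact i p fA gA fB gB fC gC) (hB : MHFinite fB gB)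
    (hC : MHFinite fC gC) : MHFinite fA gA := by
  obtain ⟨Ef, Eg, w, y, w', y', h1, h2, h3, h4, h5, h6⟩ := h.six
  obtain ⟨b1, b2⟩ := hB
  obtain ⟨c1, c2⟩ := hC
  rw [h2] at b1; rw [h5] at b2; rw [h3] at c1; rw [h6] at c2
  refine ⟨?_, ?_⟩
  · rw [h1]; exact Nat.mul_ne_zero (left_ne_zero_of_mul c2) (left_ne_zero_of_mul b1)
  · rw [h4]; exact Nat.mul_ne_zero (left_ne_zero_of_mul c1) (left_ne_zero_of_mul b2)

/-- **Multiplicativity of the Herbrand quotient.** -/
@[to_additive HExact.herbrandQ_mul]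
theorem MHExact.mherbrandQ_mul (h : MHExact i p fA gA fB gB fC gC) (hA : MHFinite fA gA)
    (hC : MHFinite fC gC) : mherbrandQ fB gB = mherbrandQ fA gA * mherbrandQ fC gC := by
  have hB := h.mhFinite_mid hA hC
  have key := h.mhIdx_mul_eq
  unfold mherbrandQ
  have a2 : (mhIdx gA fA : ℚ) ≠ 0 := Nat.cast_ne_zero.2 hA.2
  have b2 : (mhIdx gB fB : ℚ) ≠ 0 := Nat.cast_ne_zero.2 hB.2
  have c2 : (mhIdx gC fC : ℚ) ≠ 0 := Nat.cast_ne_zero.2 hC.2
  have key' : (mhIdx fB gB : ℚ) * (mhIdx gA fA * mhIdx gC fC) =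
      mhIdx gB fB * (mhIdx fA gA * mhIdx fC gC) := by exact_mod_cast key
  field_simp
  linear_combination key'

/-- If the sub-object is finite, the Herbrand quotients of `B` and `C` agree. -/
@[to_additive HExact.herbrandQ_eq_of_finite_left]
theorem MHExact.mherbrandQ_eq_of_finite_left [Finite A] (h : MHExact i p fA gA fB gB fC gC)
    (hC : MHFinite fC gC) : MHFinite fB gB ∧ mherbrandQ fB gB = mherbrandQ fC gC := by
  obtain ⟨hinj, hsurj, hex, hfi, hgi, hfp, hgp, hfg, hgf⟩ := id h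
  have hfgA : ∀ a, fA (gA a) = 1 := fun a => hinj (by rw [hfi, hgi, hfg, map_one])
  have hgfA : ∀ a, gA (fA a) = 1 := fun a => hinj (by rw [hgi, hfi, hgf, map_one])
  have hA := mhFinite_of_finite fA gA hfgA hgfA
  refine ⟨h.mhFinite_mid hA hC, ?_⟩
  rw [h.mherbrandQ_mul hA hC, mherbrandQ_eq_one_of_finite fA gA hfgA hgfA, one_mul]

/-- If the quotient object is finite, the Herbrand quotients of `A` and `B` agree. -/
@[to_additive HExact.herbrandQ_eq_of_finite_right]
theorem MHExact.mherbrandQ_eq_of_finite_right [Finite C] (h : MHExact i p fA gA fB gB fC gC)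
    (hA : MHFinite fA gA) : MHFinite fB gB ∧ mherbrandQ fB gB = mherbrandQ fA gA := by
  obtain ⟨hinj, hsurj, hex, hfi, hgi, hfp, hgp, hfg, hgf⟩ := id h
  have hfgC : ∀ c, fC (gC c) = 1 := fun c => by
    obtain ⟨b, rfl⟩ := hsurj c
    rw [← hgp, ← hfp, hfg, map_one]
  have hgfC : ∀ c, gC (fC c) = 1 := fun c => by
    obtain ⟨b, rfl⟩ := hsurj c
    rw [← hfp, ← hgp, hgf, map_one]
  have hC := mhFinite_of_finite fC gC hfgC hgfC
  refine ⟨h.mhFinite_mid hA hC, ?_⟩
  rw [h.mherbrandQ_mul hA hC, mherbrandQ_eq_one_of_finite fC gC hfgC hgfC, mul_one]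

end Exact

end Fermat.Agent.S55.H595

end
-- ===== PACK-END S55/H595/Herbrand.lean

-- ===== PACK-BEGIN S55/G/LocH897/Alg.lean
section


/-!
# S55 / layer G / leaf G-LOC (helper897), part 1: semi-local rings with a group action

`R` is a reduced Artinian commutative ring (a finite product of fields, e.g. `L ⊗_ℚ ℚ_S`), and a
group `G` acts on `R` by ring automorphisms `φ : G →* (R ≃+* R)`.

* `decomp φ I` : the decomposition group (stabiliser) of an ideal `I`;
* `resAut φ I : decomp φ I →* (R ⧸ I ≃+* R ⧸ I)` : the induced action on the residue ring;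
* `existsUnique_ring` : for maximal ideals `𝔪 i` (`i : ι`) representing the `G`-orbits on the
  maximal spectrum, every family `f i : G → R ⧸ 𝔪 i` with `f i (s g) = s • f i g`
  (`s ∈ decomp φ (𝔪 i)`) is `g ↦ (g • b mod 𝔪 i)` for a unique `b : R`, i.e.
  `R ≃ ∏ᵢ CoInd_{D_i}^G (R ⧸ 𝔪 i)`;
* `existsUnique_units` : the same for units, i.e. `Rˣ ≃ ∏ᵢ CoInd_{D_i}^G (R ⧸ 𝔪 i)ˣ`.
-/

set_option autoImplicit false

namespace Fermat.Agent.S55.G.LocH897

variable {G R : Type} [Group G] [CommRing R] (φ : G →* (R ≃+* R))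

/-- The decomposition group of an ideal `I`: the stabiliser of `I` under the action `φ`. -/
def decomp (I : Ideal R) : Subgroup G where
  carrier := {g | ∀ x, φ g x ∈ I ↔ x ∈ I}
  one_mem' := by intro x; simp
  mul_mem' := by
    intro a b ha hb x
    have ha' : ∀ x, φ a x ∈ I ↔ x ∈ I := ha
    have hb' : ∀ x, φ b x ∈ I ↔ x ∈ I := hb
    show φ (a * b) x ∈ I ↔ x ∈ I
    rw [map_mul, RingAut.mul_apply, ha', hb']
  inv_mem' := by
    intro a ha x
    have ha' : ∀ x, φ a x ∈ I ↔ x ∈ I := ha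
    show φ a⁻¹ x ∈ I ↔ x ∈ I
    rw [← ha' (φ a⁻¹ x), ← RingAut.mul_apply, ← map_mul, mul_inv_cancel, map_one,
      RingAut.one_apply]

lemma mem_decomp {I : Ideal R} {g : G} : g ∈ _root_.Fermat.Agent.S55.G.LocH897.decomp φ I ↔ ∀ x, φ g x ∈ I ↔ x ∈ I := Iff.rfl

lemma map_eq_of_mem_decomp {I : Ideal R} {g : G} (hg : g ∈ _root_.Fermat.Agent.S55.G.LocH897.decomp φ I) :
    I = I.map ((φ g : R ≃+* R) : R →+* R) := by
  ext y
  constructor
  · intro hy
    have : (φ g) ((φ g).symm y) ∈ I.map ((φ g : R ≃+* R) : R →+* R) :=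
      Ideal.mem_map_of_mem _ (((mem_decomp φ).1 hg _).1 (by simpa using hy))
    simpa using this
  · intro hy
    have hle : I.map ((φ g : R ≃+* R) : R →+* R) ≤ I := by
      rw [Ideal.map_le_iff_le_comap]
      intro x hx
      exact ((mem_decomp φ).1 hg x).2 hx
    exact hle hy

/-- The action of the decomposition group on the residue ring `R ⧸ I`. -/
def resAut (I : Ideal R) : _root_.Fermat.Agent.S55.G.LocH897.decomp φ I →* (R ⧸ I ≃+* R ⧸ I) where
  toFun s := Ideal.quotientEquiv I I (φ s) (_root_.Fermat.Agent.S55.G.LocH897.map_eq_of_mem_decomp φ s.2)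
  map_one' := by
    ext x
    obtain ⟨x, rfl⟩ := Ideal.Quotient.mk_surjective x
    simp
  map_mul' s t := by
    ext x
    obtain ⟨x, rfl⟩ := Ideal.Quotient.mk_surjective x
    simp

@[simp] lemma resAut_mk (I : Ideal R) (s : _root_.Fermat.Agent.S55.G.LocH897.decomp φ I) (x : R) :
    resAut φ I s (Ideal.Quotient.mk I x) = Ideal.Quotient.mk I (φ s x) := by
  simp [resAut]

lemma resAut_mul_apply (I : Ideal R) (s t : _root_.Fermat.Agent.S55.G.LocH897.decomp φ I) (x : R ⧸ I) :
    resAut φ I (s * t) x = resAut φ I s (resAut φ I t x) := by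
  rw [map_mul, RingAut.mul_apply]

/-- Translating membership: `x ∈ g⁻¹ I ↔ g x ∈ I`. -/
lemma apply_apply_inv (g : G) (x : R) :
    φ g (φ g⁻¹ x) = x := by
  rw [← RingAut.mul_apply, ← map_mul, mul_inv_cancel, map_one, RingAut.one_apply]

lemma apply_inv_apply (g : G) (x : R) : φ g⁻¹ (φ g x) = x := by
  rw [← RingAut.mul_apply, ← map_mul, inv_mul_cancel, map_one, RingAut.one_apply]

section Main

variable [IsArtinianRing R] [IsReduced R]

/-- In a reduced Artinian ring, an element lying in all maximal ideals is zero. -/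
lemma eq_zero_of_forall_mem_maximal (x : R) (h : ∀ 𝔫 : Ideal R, 𝔫.IsMaximal → x ∈ 𝔫) :
    x = 0 := by
  apply (IsArtinianRing.equivPi R).injective
  funext 𝔫
  rw [IsArtinianRing.equivPi_apply, map_zero, Pi.zero_apply]
  exact Ideal.Quotient.eq_zero_iff_mem.2 (h 𝔫.asIdeal 𝔫.isMaximal)

/-- Chinese remainder theorem in a reduced Artinian ring. -/
lemma exists_forall_sub_mem_maximal (a : ∀ 𝔫 : Ideal R, 𝔫.IsMaximal → R) :
    ∃ b : R, ∀ (𝔫 : Ideal R) (h𝔫 : 𝔫.IsMaximal), b - a 𝔫 h𝔫 ∈ 𝔫 := by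
  refine ⟨(IsArtinianRing.equivPi R).symm
    (fun 𝔫 => Ideal.Quotient.mk 𝔫.asIdeal (a 𝔫.asIdeal 𝔫.isMaximal)), fun 𝔫 h𝔫 => ?_⟩
  have h := congrFun ((IsArtinianRing.equivPi R).apply_symm_apply
    (fun 𝔫 => Ideal.Quotient.mk 𝔫.asIdeal (a 𝔫.asIdeal 𝔫.isMaximal))) ⟨𝔫, h𝔫⟩
  rw [IsArtinianRing.equivPi_apply] at h
  exact Ideal.Quotient.eq.1 h

variable {ι : Type} (𝔪 : ι → Ideal R)

/-- **Semi-local decomposition, ring level.**  If the maximal ideals `𝔪 i` represent the
`G`-orbits on the maximal spectrum of the reduced Artinian ring `R`, then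
`R ≃ ∏ᵢ CoInd_{D_i}^G (R ⧸ 𝔪 i)` via `b ↦ (g ↦ g • b mod 𝔪 i)`. -/
theorem existsUnique_ring (hmax𝔪 : ∀ i, (𝔪 i).IsMaximal)
    (hcover : ∀ 𝔫 : Ideal R, 𝔫.IsMaximal → ∃ i g, ∀ x, x ∈ 𝔫 ↔ φ g x ∈ 𝔪 i)
    (hdisj : ∀ i j g, (∀ x, x ∈ 𝔪 j ↔ φ g x ∈ 𝔪 i) → i = j)
    (f : ∀ i, G → R ⧸ 𝔪 i)
    (hf : ∀ i (s : _root_.Fermat.Agent.S55.G.LocH897.decomp φ (𝔪 i)) g, f i (s * g) = resAut φ (𝔪 i) s (f i g)) :
    ∃! b : R, ∀ i g, Ideal.Quotient.mk (𝔪 i) (φ g b) = f i g := by
  classical
  -- uniqueness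
  have huniq : ∀ b b' : R, (∀ i g, Ideal.Quotient.mk (𝔪 i) (φ g b) = f i g) →
      (∀ i g, Ideal.Quotient.mk (𝔪 i) (φ g b') = f i g) → b = b' := by
    intro b b' hb hb'
    rw [← sub_eq_zero]
    apply eq_zero_of_forall_mem_maximal
    intro 𝔫 h𝔫
    obtain ⟨i, g, hig⟩ := hcover 𝔫 h𝔫
    rw [hig, map_sub]
    exact Ideal.Quotient.eq.1 ((hb i g).trans (hb' i g).symm)
  -- existence
  choose ci cg hc using hcover
  have hlift : ∀ i g, ∃ r : R, Ideal.Quotient.mk (𝔪 i) r = f i g :=
    fun i g => Ideal.Quotient.mk_surjective _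
  choose r hr using hlift
  obtain ⟨b, hb⟩ := exists_forall_sub_mem_maximal
    (fun 𝔫 h𝔫 => φ (cg 𝔫 h𝔫)⁻¹ (r (ci 𝔫 h𝔫) (cg 𝔫 h𝔫)))
  have key : ∀ 𝔫 : Ideal R, 𝔫.IsMaximal → ∃ j g, (∀ x, x ∈ 𝔫 ↔ φ g x ∈ 𝔪 j) ∧
      Ideal.Quotient.mk (𝔪 j) (φ g b) = f j g := by
    intro 𝔫 h𝔫
    refine ⟨ci 𝔫 h𝔫, cg 𝔫 h𝔫, hc 𝔫 h𝔫, ?_⟩
    rw [← hr]
    apply Ideal.Quotient.eq.2
    have h1 := (hc 𝔫 h𝔫 _).1 (hb 𝔫 h𝔫)
    rwa [map_sub, apply_apply_inv φ] at h1
  have hbprop : ∀ i g, Ideal.Quotient.mk (𝔪 i) (φ g b) = f i g := by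
    intro i g'
    have hmax : (Ideal.comap ((φ g' : R ≃+* R) : R →+* R) (𝔪 i)).IsMaximal :=
      haveI := hmax𝔪 i
      Ideal.comap_isMaximal_of_surjective _ (φ g').surjective
    obtain ⟨j, g, hjg, hval⟩ := key _ hmax
    have hmem : ∀ x, φ g' x ∈ 𝔪 i ↔ φ g x ∈ 𝔪 j := fun x => by
      rw [← hjg x]; rfl
    obtain rfl : j = i := by
      refine hdisj j i (g * g'⁻¹) fun y => ?_
      rw [map_mul, RingAut.mul_apply, ← hmem, apply_apply_inv φ]
    have hs : g' * g⁻¹ ∈ _root_.Fermat.Agent.S55.G.LocH897.decomp φ (𝔪 j) := by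
      rw [mem_decomp]
      intro y
      rw [map_mul, RingAut.mul_apply, hmem, apply_apply_inv φ]
    have hg' : g' = ((⟨g' * g⁻¹, hs⟩ : _root_.Fermat.Agent.S55.G.LocH897.decomp φ (𝔪 j)) : G) * g := by simp
    rw [hg', hf, ← hval, resAut_mk, ← hg', map_mul, RingAut.mul_apply, apply_inv_apply φ]
  exact ⟨b, hbprop, fun b' hb' => huniq b' b hb' hbprop⟩

/-- **Semi-local decomposition, unit level.**  If the maximal ideals `𝔪 i` represent the
`G`-orbits on the maximal spectrum of the reduced Artinian ring `R`, then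
`Rˣ ≃ ∏ᵢ CoInd_{D_i}^G (R ⧸ 𝔪 i)ˣ` via `b ↦ (g ↦ g • b mod 𝔪 i)`. -/
theorem existsUnique_units (hmax𝔪 : ∀ i, (𝔪 i).IsMaximal)
    (hcover : ∀ 𝔫 : Ideal R, 𝔫.IsMaximal → ∃ i g, ∀ x, x ∈ 𝔫 ↔ φ g x ∈ 𝔪 i)
    (hdisj : ∀ i j g, (∀ x, x ∈ 𝔪 j ↔ φ g x ∈ 𝔪 i) → i = j)
    (f : ∀ i, G → (R ⧸ 𝔪 i)ˣ)
    (hf : ∀ i (s : _root_.Fermat.Agent.S55.G.LocH897.decomp φ (𝔪 i)) g,
      ((f i (s * g) : (R ⧸ 𝔪 i)ˣ) : R ⧸ 𝔪 i) = resAut φ (𝔪 i) s (f i g)) :
    ∃! b : Rˣ, ∀ i g, Ideal.Quotient.mk (𝔪 i) (φ g (b : R)) = (f i g : R ⧸ 𝔪 i) := by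
  have hfu : ∀ i (s : _root_.Fermat.Agent.S55.G.LocH897.decomp φ (𝔪 i)) g,
      f i (s * g) = Units.map ((resAut φ (𝔪 i) s : R ⧸ 𝔪 i ≃+* R ⧸ 𝔪 i) :
        R ⧸ 𝔪 i →* R ⧸ 𝔪 i) (f i g) := fun i s g => Units.ext (hf i s g)
  have hf' : ∀ i (s : _root_.Fermat.Agent.S55.G.LocH897.decomp φ (𝔪 i)) g,
      (((f i (s * g))⁻¹ : (R ⧸ 𝔪 i)ˣ) : R ⧸ 𝔪 i) =
        resAut φ (𝔪 i) s (((f i g)⁻¹ : (R ⧸ 𝔪 i)ˣ) : R ⧸ 𝔪 i) := fun i s g => by
    rw [hfu, ← map_inv]; rfl
  obtain ⟨b, hb, hbu⟩ := existsUnique_ring φ 𝔪 hmax𝔪 hcover hdisj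
    (fun i g => (f i g : R ⧸ 𝔪 i)) hf
  obtain ⟨b', hb', -⟩ := existsUnique_ring φ 𝔪 hmax𝔪 hcover hdisj
    (fun i g => (((f i g)⁻¹ : (R ⧸ 𝔪 i)ˣ) : R ⧸ 𝔪 i)) hf'
  obtain ⟨c, -, hcu⟩ := existsUnique_ring φ 𝔪 hmax𝔪 hcover hdisj
    (fun i _ => (1 : R ⧸ 𝔪 i)) (fun i s g => by simp)
  have h1 : b * b' = 1 := by
    rw [hcu (b * b') (fun i g => by
      simp only [map_mul]; rw [hb i g, hb' i g]; exact Units.mul_inv _),
      hcu 1 (fun i g => by simp)]
  refine ⟨⟨b, b', h1, by rw [mul_comm]; exact h1⟩, fun i g => hb i g, fun u hu => ?_⟩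
  exact Units.ext (hbu (u : R) hu)

end Main

/-! ### A canonical system of orbit representatives -/

section Reps

/-- The orbit relation on the maximal spectrum: `𝔫 ∼ 𝔫'` iff `𝔫 = g⁻¹ 𝔫'` for some `g`. -/
def specSetoid : Setoid (MaximalSpectrum R) where
  r a b := ∃ g : G, ∀ x, x ∈ a.asIdeal ↔ φ g x ∈ b.asIdeal
  iseqv :=
    { refl := fun a => ⟨1, fun x => by simp⟩
      symm := by
        rintro a b ⟨g, hg⟩
        refine ⟨g⁻¹, fun x => ?_⟩
        rw [hg, apply_apply_inv φ]
      trans := by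
        rintro a b c ⟨g, hg⟩ ⟨h, hh⟩
        refine ⟨h * g, fun x => ?_⟩
        rw [hg, hh, map_mul, RingAut.mul_apply] }

/-- The set of `G`-orbits on the maximal spectrum of `R`. -/
def OrbitIdx : Type := Quotient (specSetoid φ)

instance [IsArtinianRing R] : Finite (OrbitIdx φ) :=
  inferInstanceAs (Finite (Quotient (specSetoid φ)))

/-- A representative maximal ideal in each orbit. -/
noncomputable def orbitRep (o : OrbitIdx φ) : Ideal R :=
  (Quotient.out (s := specSetoid φ) o).asIdeal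

lemma orbitRep_isMaximal (o : OrbitIdx φ) : (orbitRep φ o).IsMaximal :=
  (Quotient.out (s := specSetoid φ) o).isMaximal

lemma orbitRep_cover (𝔫 : Ideal R) (h𝔫 : 𝔫.IsMaximal) :
    ∃ (o : OrbitIdx φ) (g : G), ∀ x, x ∈ 𝔫 ↔ φ g x ∈ orbitRep φ o := by
  refine ⟨Quotient.mk (specSetoid φ) ⟨𝔫, h𝔫⟩, ?_⟩
  have h := Quotient.mk_out (s := specSetoid φ) ⟨𝔫, h𝔫⟩
  obtain ⟨g, hg⟩ := (specSetoid φ).symm h
  exact ⟨g, hg⟩

lemma orbitRep_disj (i j : OrbitIdx φ) (g : G)
    (h : ∀ x, x ∈ orbitRep φ j ↔ φ g x ∈ orbitRep φ i) : i = j := by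
  have hr : (specSetoid φ).r (Quotient.out (s := specSetoid φ) j)
      (Quotient.out (s := specSetoid φ) i) := ⟨g, h⟩
  have := Quotient.sound (s := specSetoid φ) hr
  exact (Quotient.out_eq (s := specSetoid φ) i).symm.trans
    (this.symm.trans (Quotient.out_eq (s := specSetoid φ) j))

end Reps

end Fermat.Agent.S55.G.LocH897

end
-- ===== PACK-END S55/G/LocH897/Alg.lean

-- ===== PACK-BEGIN S55/L/H661/NormHensel.lean
section


/-!
# Hensel-type lifting for the norm of a finite free algebra  (S55, layer L, leaf UNR)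

`A` a commutative ring, `B` a finite free `A`-algebra, `I` an ideal of `A` with `A` being
`I`-adically complete.  If some element of `B` has trace `1`, then every unit `u` of `A` which
is a norm modulo `I` is a norm.

Main results (all Mathlib-only):

* `norm_sub_norm_mem` : `x - y ∈ J B → N x - N y ∈ J`.
* `norm_one_add_smul` : `N (1 + a • x) = 1 + a * Tr x + c * a ^ 2`.
* `isPrecomplete_of_basis` : a finite free module over an `I`-precomplete ring is precomplete.
* `exists_norm_eq_of_trace_eq_one` : the lifting statement.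
-/

namespace Fermat.Agent.S55.L.H661

open Module

section Coordinates

variable {A M : Type*} [CommRing A] [AddCommGroup M] [Module A M]
variable {ι : Type*}

/-- Coordinates of an element of `J • ⊤` lie in `J`. -/
theorem repr_mem_of_mem_smul_top (b : Basis ι A M) (J : Ideal A) {x : M}
    (hx : x ∈ (J • ⊤ : Submodule A M)) (i : ι) : b.repr x i ∈ J := by
  induction hx using Submodule.smul_induction_on' with
  | smul r hr m _ =>
    rw [map_smul, Finsupp.smul_apply, smul_eq_mul]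
    exact J.mul_mem_right _ hr
  | add x _ y _ hx hy =>
    rw [map_add, Finsupp.add_apply]
    exact J.add_mem hx hy

/-- An element all of whose coordinates lie in `J` is in `J • ⊤`. -/
theorem mem_smul_top_of_repr_mem [Fintype ι] (b : Basis ι A M) (J : Ideal A) {x : M}
    (hx : ∀ i, b.repr x i ∈ J) : x ∈ (J • ⊤ : Submodule A M) := by
  rw [← b.sum_repr x]
  exact Submodule.sum_mem _ fun i _ => Submodule.smul_mem_smul (hx i) Submodule.mem_top

theorem mem_smul_top_iff_repr_mem [Fintype ι] (b : Basis ι A M) (J : Ideal A) {x : M} :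
    x ∈ (J • ⊤ : Submodule A M) ↔ ∀ i, b.repr x i ∈ J :=
  ⟨fun h i => repr_mem_of_mem_smul_top b J h i, mem_smul_top_of_repr_mem b J⟩

/-- A module with a finite basis over an `I`-precomplete ring is `I`-precomplete. -/
theorem isPrecomplete_of_basis [Fintype ι] (b : Basis ι A M) (I : Ideal A)
    [IsPrecomplete I A] : IsPrecomplete I M := by
  refine ⟨fun f hf => ?_⟩
  have hcoord : ∀ i : ι, ∃ L : A, ∀ n, b.repr (f n) i ≡ L [SMOD (I ^ n • ⊤ : Submodule A A)] := by
    intro i
    refine IsPrecomplete.prec ‹_› (f := fun n => b.repr (f n) i) ?_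
    intro m n hmn
    have h := hf hmn
    rw [SModEq.sub_mem] at h ⊢
    have := repr_mem_of_mem_smul_top b (I ^ m) h i
    rw [map_sub, Finsupp.sub_apply] at this
    simpa using this
  choose L hL using hcoord
  refine ⟨∑ i, L i • b i, fun n => ?_⟩
  rw [SModEq.sub_mem]
  apply mem_smul_top_of_repr_mem b
  intro i
  have h := hL i n
  rw [SModEq.sub_mem] at h
  have h' : b.repr (f n) i - L i ∈ I ^ n := by simpa using h
  have hrepr : b.repr (∑ j, L j • b j) i = L i := by
    classical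
    simp [map_sum, Finsupp.single_apply]
  rw [map_sub, Finsupp.sub_apply, hrepr]
  exact h'

end Coordinates

section Norm

variable {A B : Type*} [CommRing A] [CommRing B] [Algebra A B]
variable [Module.Free A B] [Module.Finite A B]

/-- The norm is compatible with congruences: `x ≡ y mod J B` implies `N x ≡ N y mod J`. -/
theorem norm_sub_norm_mem (J : Ideal A) {x y : B}
    (h : x - y ∈ J.map (algebraMap A B)) :
    Algebra.norm A x - Algebra.norm A y ∈ J := by
  classical
  let b := Module.Free.chooseBasis A B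
  let φ := Ideal.Quotient.mk J
  let ψ : B →+* Matrix (Module.Free.ChooseBasisIndex A B) (Module.Free.ChooseBasisIndex A B)
      (A ⧸ J) := φ.mapMatrix.comp (Algebra.leftMulMatrix b).toRingHom
  have hker : J.map (algebraMap A B) ≤ RingHom.ker ψ := by
    rw [Ideal.map_le_iff_le_comap]
    intro a ha
    rw [Ideal.mem_comap, RingHom.mem_ker]
    have h1 : Algebra.leftMulMatrix b (algebraMap A B a) = algebraMap A _ a :=
      (Algebra.leftMulMatrix b).commutes a
    change φ.mapMatrix (Algebra.leftMulMatrix b (algebraMap A B a)) = 0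
    rw [h1]
    ext i j
    simp only [RingHom.mapMatrix_apply, Matrix.map_apply, Matrix.algebraMap_matrix_apply,
      Matrix.zero_apply]
    split_ifs
    · simpa [φ] using Ideal.Quotient.eq_zero_iff_mem.mpr ha
    · simp
  have hψ : ψ x = ψ y := by
    have := hker h
    rw [RingHom.mem_ker, map_sub, sub_eq_zero] at this
    exact this
  rw [← Ideal.Quotient.eq, Algebra.norm_eq_matrix_det b, Algebra.norm_eq_matrix_det b,
    RingHom.map_det, RingHom.map_det]
  exact congrArg Matrix.det hψ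

/-- Same with the congruence stated in the `A`-submodule `J • ⊤` of `B`. -/
theorem norm_sub_norm_mem' (J : Ideal A) {x y : B}
    (h : x - y ∈ (J • ⊤ : Submodule A B)) :
    Algebra.norm A x - Algebra.norm A y ∈ J := by
  apply norm_sub_norm_mem J
  rw [Ideal.smul_top_eq_map] at h
  exact h

/-- First-order expansion of the norm at `1`. -/
theorem norm_one_add_smul (a : A) (x : B) :
    ∃ c : A, Algebra.norm A (1 + a • x) = 1 + a * Algebra.trace A B x + c * a ^ 2 := by
  classical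
  let b := Module.Free.chooseBasis A B
  have h := Matrix.det_one_add_smul a (Algebra.leftMulMatrix b x)
  refine ⟨Polynomial.eval a (1 + (Polynomial.X : Polynomial A) •
    ((Algebra.leftMulMatrix b) x).map ⇑Polynomial.C).det.divX.divX, ?_⟩
  rw [Algebra.norm_eq_matrix_det b, Algebra.trace_eq_matrix_trace b, map_add, map_one, map_smul,
    h, mul_comm a]

/-- An element whose norm is a unit is a unit. -/
theorem isUnit_of_isUnit_norm {x : B} (h : IsUnit (Algebra.norm A x)) : IsUnit x := by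
  rw [Algebra.norm_apply] at h
  have h2 := (LinearMap.isUnit_iff_isUnit_det (Algebra.lmul A B x)).mpr h
  obtain ⟨g, hg⟩ := h2
  have hsurj : Function.Surjective (Algebra.lmul A B x) := by
    rw [← hg]
    intro z
    refine ⟨(g⁻¹ : (B →ₗ[A] B)ˣ).1 z, ?_⟩
    have := LinearMap.congr_fun g.mul_inv z
    exact this
  obtain ⟨y, hy⟩ := hsurj 1
  exact IsUnit.of_mul_eq_one y (by simpa using hy)

end Norm

section Lifting

variable {A B : Type*} [CommRing A] [CommRing B] [Algebra A B]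
variable [Module.Free A B] [Module.Finite A B]

/-- The approximating sequence: `v (m+1) = v m * (1 + (u⁻¹ * (u - N (v m))) • x₀)`. -/
noncomputable def normLiftSeq (u : Aˣ) (x₀ v₀ : B) : ℕ → B
  | 0 => v₀
  | (m + 1) => normLiftSeq u x₀ v₀ m *
      (1 + ((↑u⁻¹ : A) * ((u : A) - Algebra.norm A (normLiftSeq u x₀ v₀ m))) • x₀)

omit [Module.Free A B] [Module.Finite A B] in
theorem normLiftSeq_zero (u : Aˣ) (x₀ v₀ : B) : normLiftSeq u x₀ v₀ 0 = v₀ := rfl

omit [Module.Free A B] [Module.Finite A B] in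
theorem normLiftSeq_succ (u : Aˣ) (x₀ v₀ : B) (m : ℕ) :
    normLiftSeq u x₀ v₀ (m + 1) = normLiftSeq u x₀ v₀ m *
      (1 + ((↑u⁻¹ : A) * ((u : A) - Algebra.norm A (normLiftSeq u x₀ v₀ m))) • x₀) := rfl

/-- One step of the approximation squares the error ideal. -/
theorem norm_step_mem (J : Ideal A) (u : Aˣ) {x₀ : B} (hx₀ : Algebra.trace A B x₀ = 1) (w : B)
    (hw : (u : A) - Algebra.norm A w ∈ J) :
    (u : A) - Algebra.norm A (w * (1 + ((↑u⁻¹ : A) * ((u : A) - Algebra.norm A w)) • x₀))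
      ∈ J * J := by
  set e : A := (u : A) - Algebra.norm A w with he
  set a : A := (↑u⁻¹ : A) * e with ha
  obtain ⟨c, hc⟩ := norm_one_add_smul a x₀
  rw [map_mul, hc, hx₀, mul_one]
  have haJ : a ∈ J := J.mul_mem_left _ hw
  have hua : (u : A) * a = e := by
    rw [ha, ← mul_assoc, Units.mul_inv, one_mul]
  have hN : Algebra.norm A w = (u : A) - e := by rw [he]; ring
  have key : (u : A) - Algebra.norm A w * (1 + a + c * a ^ 2) =
      a * (e - Algebra.norm A w * c * a) := by
    rw [hN]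
    have : (u : A) - ((u : A) - e) * (1 + a + c * a ^ 2)
        = e - (u : A) * a + a * (e - ((u : A) - e) * c * a) := by ring
    rw [this, hua, sub_self, zero_add]
  rw [key]
  exact Ideal.mul_mem_mul haJ (J.sub_mem hw (J.mul_mem_left _ haJ))

theorem normLiftSeq_error_mem (I : Ideal A) (u : Aˣ) {x₀ : B}
    (hx₀ : Algebra.trace A B x₀ = 1) (v₀ : B) (hv₀ : (u : A) - Algebra.norm A v₀ ∈ I) (m : ℕ) :
    (u : A) - Algebra.norm A (normLiftSeq u x₀ v₀ m) ∈ I ^ (m + 1) := by
  induction m with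
  | zero => simpa [normLiftSeq_zero] using hv₀
  | succ m ih =>
    rw [normLiftSeq_succ]
    have h := norm_step_mem (I ^ (m + 1)) u hx₀ _ ih
    have hle : I ^ (m + 1) * I ^ (m + 1) ≤ I ^ (m + 1 + 1) := by
      rw [← pow_add]
      exact Ideal.pow_le_pow_right (by omega)
    exact hle h

theorem normLiftSeq_succ_sub_mem (I : Ideal A) (u : Aˣ) {x₀ : B}
    (hx₀ : Algebra.trace A B x₀ = 1) (v₀ : B) (hv₀ : (u : A) - Algebra.norm A v₀ ∈ I) (m : ℕ) :
    normLiftSeq u x₀ v₀ (m + 1) - normLiftSeq u x₀ v₀ m ∈ (I ^ (m + 1) • ⊤ : Submodule A B) := by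
  rw [normLiftSeq_succ]
  have h := normLiftSeq_error_mem I u hx₀ v₀ hv₀ m
  set w := normLiftSeq u x₀ v₀ m
  have : w * (1 + ((↑u⁻¹ : A) * ((u : A) - Algebra.norm A w)) • x₀) - w =
      ((↑u⁻¹ : A) * ((u : A) - Algebra.norm A w)) • (w * x₀) := by
    rw [mul_add, mul_one, add_sub_cancel_left, mul_smul_comm]
  rw [this]
  exact Submodule.smul_mem_smul (Ideal.mul_mem_left _ _ h) Submodule.mem_top

theorem normLiftSeq_sub_mem (I : Ideal A) (u : Aˣ) {x₀ : B}
    (hx₀ : Algebra.trace A B x₀ = 1) (v₀ : B) (hv₀ : (u : A) - Algebra.norm A v₀ ∈ I)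
    {m n : ℕ} (hmn : m ≤ n) :
    normLiftSeq u x₀ v₀ n - normLiftSeq u x₀ v₀ m ∈ (I ^ (m + 1) • ⊤ : Submodule A B) := by
  induction n, hmn using Nat.le_induction with
  | base => simp
  | succ n hmn ih =>
    have h1 := normLiftSeq_succ_sub_mem I u hx₀ v₀ hv₀ n
    have hle : (I ^ (n + 1) • ⊤ : Submodule A B) ≤ I ^ (m + 1) • ⊤ :=
      Submodule.smul_mono_left (Ideal.pow_le_pow_right (by omega))
    have := Submodule.add_mem _ (hle h1) ih
    simpa using this

/-- **Hensel lifting for the norm.**  Let `B` be a finite free `A`-algebra containing an element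
of trace `1`, and let `A` be `I`-adically complete.  If a unit `u` of `A` is congruent modulo `I`
to the norm of `v₀`, then `u` is the norm of some `v ≡ v₀ mod I B`. -/
theorem exists_norm_eq_of_trace_eq_one (I : Ideal A) [IsAdicComplete I A]
    {x₀ : B} (hx₀ : Algebra.trace A B x₀ = 1) (u : Aˣ) (v₀ : B)
    (hv₀ : (u : A) - Algebra.norm A v₀ ∈ I) :
    ∃ v : B, Algebra.norm A v = u ∧ v - v₀ ∈ I.map (algebraMap A B) := by
  classical
  have : IsPrecomplete I B := isPrecomplete_of_basis (Module.Free.chooseBasis A B) I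
  have hcauchy : ∀ {m n : ℕ}, m ≤ n →
      normLiftSeq u x₀ v₀ m ≡ normLiftSeq u x₀ v₀ n [SMOD (I ^ m • ⊤ : Submodule A B)] := by
    intro m n hmn
    rw [SModEq.sub_mem]
    have h := normLiftSeq_sub_mem I u hx₀ v₀ hv₀ hmn
    have hle : (I ^ (m + 1) • ⊤ : Submodule A B) ≤ I ^ m • ⊤ :=
      Submodule.smul_mono_left (Ideal.pow_le_pow_right (by omega))
    have := Submodule.neg_mem _ (hle h)
    simpa using this
  obtain ⟨v, hv⟩ := IsPrecomplete.prec ‹IsPrecomplete I B› hcauchy
  refine ⟨v, ?_, ?_⟩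
  · symm
    rw [IsHausdorff.eq_iff_smodEq (I := I)]
    intro n
    rw [SModEq.sub_mem]
    have h1 := normLiftSeq_error_mem I u hx₀ v₀ hv₀ n
    have h2 : Algebra.norm A (normLiftSeq u x₀ v₀ n) - Algebra.norm A v ∈ I ^ n := by
      apply norm_sub_norm_mem'
      have := hv n
      rwa [SModEq.sub_mem] at this
    have h3 : (u : A) - Algebra.norm A v ∈ I ^ n := by
      have := (I ^ n).add_mem (Ideal.pow_le_pow_right (Nat.le_succ n) h1) h2
      simpa using this
    simpa using h3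
  · have h1 := hv 1
    rw [SModEq.sub_mem, pow_one] at h1
    have h2 := normLiftSeq_sub_mem I u hx₀ v₀ hv₀ (Nat.zero_le 1)
    rw [zero_add, pow_one, normLiftSeq_zero] at h2
    have := Submodule.sub_mem _ h2 h1
    rw [Ideal.smul_top_eq_map] at this
    simpa using this

end Lifting

end Fermat.Agent.S55.L.H661

end
-- ===== PACK-END S55/L/H661/NormHensel.lean

-- ===== PACK-BEGIN S55/H119/ResCores1.lean
section


/-!
# Restriction–corestriction in degree 1 (helper119, S55 layer T leaf)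

`G` a group, `H ≤ G` of finite index, `A` a `G`-module.  If a 1-cocycle `f : G → A` restricts
to a coboundary on `H`, then `[G : H] • f` is a coboundary on `G`.

Everything is stated with Mathlib's concrete predicates `groupCohomology.IsCocycle₁` and
`groupCohomology.IsCoboundary₁`.
-/

set_option autoImplicit false
set_option linter.style.haveILetI false

namespace Fermat.Agent.S55.H119

open groupCohomology

variable {G : Type*} [Group G] {A : Type*} [AddCommGroup A] [DistribMulAction G A]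

/-- the coboundary of `x : A` is a 1-cocycle -/
theorem isCocycle₁_d (x : A) : IsCocycle₁ (fun g : G => g • x - x) := by
  intro g h
  simp only [mul_smul, smul_sub]
  abel

theorem IsCocycle₁.sub {f f' : G → A} (hf : IsCocycle₁ f) (hf' : IsCocycle₁ f') :
    IsCocycle₁ (fun g => f g - f' g) := by
  intro g h
  simp only [hf g h, hf' g h, smul_sub]
  abel

/-- **Restriction–corestriction, degree 1**: if the restriction to a finite index subgroup `H`
of a 1-cocycle `f` is a coboundary, then `[G : H] • f` is a coboundary. -/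
theorem isCoboundary₁_index_nsmul (H : Subgroup G) [H.FiniteIndex] {f : G → A}
    (hf : IsCocycle₁ f) (hres : IsCoboundary₁ (fun h : H => f (h : G))) :
    IsCoboundary₁ (fun g => H.index • f g) := by
  classical
  obtain ⟨x, hx⟩ := hres
  -- normalise: `f'` vanishes on `H`
  set f' : G → A := fun g => f g - (g • x - x) with hf'def
  have hf' : IsCocycle₁ f' := IsCocycle₁.sub hf (isCocycle₁_d x)
  have hf'H : ∀ h : H, f' (h : G) = 0 := by
    intro h
    have := hx h
    simp only [hf'def, Subgroup.smul_def] at this ⊢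
    rw [← this, sub_self]
  have hconst : ∀ (g : G) (h : H), f' (g * h) = f' g := by
    intro g h
    rw [hf' g h, hf'H h, smul_zero, zero_add]
  -- `f'` factors through `G ⧸ H`
  let F : G ⧸ H → A := fun c => f' c.out
  have hF : ∀ g : G, F (g : G ⧸ H) = f' g := by
    intro g
    have h1 : ((g : G ⧸ H).out : G ⧸ H) = (g : G ⧸ H) := Quotient.out_eq' _
    rw [QuotientGroup.eq] at h1
    have h2 := hconst (g : G ⧸ H).out ⟨_, h1⟩
    simp only [mul_inv_cancel_left] at h2
    exact h2.symm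
  letI : Fintype (G ⧸ H) := Subgroup.fintypeQuotientOfFiniteIndex
  set a : A := ∑ c : G ⧸ H, F c with ha
  have hkey : ∀ g : G, g • a = a - H.index • f' g := by
    intro g
    have h1 : ∀ c : G ⧸ H, g • F c = F (g • c) - f' g := by
      intro c
      induction c using QuotientGroup.induction_on with
      | H y =>
        have : (g • (y : G ⧸ H)) = ((g * y : G) : G ⧸ H) := rfl
        rw [this, hF, hF, hf' g y]
        abel
    rw [ha, Finset.smul_sum, Finset.sum_congr rfl (fun c _ => h1 c), Finset.sum_sub_distrib,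
      Finset.sum_const, Finset.card_univ]
    congr 1
    · exact Equiv.sum_comp (MulAction.toPerm g : G ⧸ H ≃ G ⧸ H) F
    · rw [Subgroup.index_eq_card, Nat.card_eq_fintype_card]
  refine ⟨H.index • x - a, fun g => ?_⟩
  have h2 : H.index • f' g = H.index • f g - (H.index • (g • x) - H.index • x) := by
    rw [hf'def, nsmul_sub, nsmul_sub]
  have h3 : g • (H.index • x) = H.index • (g • x) := by
    rw [← natCast_zsmul, ← natCast_zsmul, smul_comm]
  show g • (H.index • x - a) - (H.index • x - a) = H.index • f g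
  rw [smul_sub, hkey g, h3, h2]
  abel

end Fermat.Agent.S55.H119

end
-- ===== PACK-END S55/H119/ResCores1.lean

-- ===== PACK-BEGIN S55/H119/ResCores2.lean
section


/-!
# Restriction–corestriction in degree 2 (helper119, S55 layer T leaf)

`G` a group, `H ≤ G` of finite index, `A` a `G`-module.  If a 2-cocycle `f : G × G → A`
restricts to a coboundary on `H`, then `[G : H] • f` is a coboundary on `G`.

Proof: pass to homogeneous cochains, extend the trivialisation on `H` to an `H`-equivariant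
trivialisation on `G` (prism operator for an `H`-equivariant retraction `G → H`), and take the
transfer.
-/

set_option autoImplicit false
set_option linter.style.haveILetI false

namespace Fermat.Agent.S55.H119

open groupCohomology

variable {G : Type*} [Group G] {A : Type*} [AddCommGroup A] [DistribMulAction G A]

/-- homogeneous version of an inhomogeneous 2-cochain -/
def hom₂ (f : G × G → A) (x0 x1 x2 : G) : A := x0 • f (x0⁻¹ * x1, x1⁻¹ * x2)

/-- homogeneous version of an inhomogeneous 1-cochain -/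
def hom₁ (u : G → A) (x0 x1 : G) : A := x0 • u (x0⁻¹ * x1)

theorem hom₂_mul (f : G × G → A) (g x0 x1 x2 : G) :
    hom₂ f (g * x0) (g * x1) (g * x2) = g • hom₂ f x0 x1 x2 := by
  simp only [hom₂, mul_inv_rev, mul_smul]
  congr 3
  group

theorem hom₂_one (f : G × G → A) (g h : G) : hom₂ f 1 g (g * h) = f (g, h) := by
  simp [hom₂]

theorem hom₂_cocycle {f : G × G → A} (hf : IsCocycle₂ f) (x0 x1 x2 x3 : G) :
    hom₂ f x1 x2 x3 - hom₂ f x0 x2 x3 + hom₂ f x0 x1 x3 - hom₂ f x0 x1 x2 = 0 := by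
  have h := hf (x0⁻¹ * x1) (x1⁻¹ * x2) (x2⁻¹ * x3)
  have e1 : x0⁻¹ * x1 * (x1⁻¹ * x2) = x0⁻¹ * x2 := by group
  have e2 : x1⁻¹ * x2 * (x2⁻¹ * x3) = x1⁻¹ * x3 := by group
  rw [e1, e2] at h
  have h' : x1 • f (x1⁻¹ * x2, x2⁻¹ * x3) =
      x0 • ((x0⁻¹ * x1) • f (x1⁻¹ * x2, x2⁻¹ * x3)) := by
    rw [← mul_smul]; congr 1; group
  simp only [hom₂]
  rw [h', ← smul_sub, ← smul_add, ← smul_sub, ← smul_zero x0]
  congr 1
  have h2 : (x0⁻¹ * x1) • f (x1⁻¹ * x2, x2⁻¹ * x3) =
      f (x0⁻¹ * x2, x2⁻¹ * x3) + f (x0⁻¹ * x1, x1⁻¹ * x2) - f (x0⁻¹ * x1, x1⁻¹ * x3) := by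
    rw [h]; abel
  rw [h2]; abel

/-- An `H`-equivariant retraction-like map `G → H`. -/
theorem exists_equivariant_map (H : Subgroup G) :
    ∃ π : G → H, ∀ (h : H) (x : G), π (h * x) = h * π x := by
  classical
  let r : G → G := fun x => (Quotient.mk'' x : Quotient (QuotientGroup.rightRel H)).out
  have hr : ∀ x, x * (r x)⁻¹ ∈ H := by
    intro x
    have h1 : (Quotient.mk'' (r x) : Quotient (QuotientGroup.rightRel H)) = Quotient.mk'' x :=
      Quotient.out_eq' _
    have h2 := Quotient.exact' h1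
    rwa [QuotientGroup.rightRel_apply] at h2
  have hr' : ∀ (h : H) (x : G), r (h * x) = r x := by
    intro h x
    have : (Quotient.mk'' ((h : G) * x) : Quotient (QuotientGroup.rightRel H)) =
        Quotient.mk'' x := by
      apply Quotient.sound'
      rw [QuotientGroup.rightRel_apply]
      simp
    simp only [r, this]
  refine ⟨fun x => ⟨x * (r x)⁻¹, hr x⟩, fun h x => ?_⟩
  apply Subtype.ext
  simp only [Subgroup.coe_mul, hr' h x, mul_assoc]

section Transfer

variable (H : Subgroup G) [H.FiniteIndex]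

/-- **Restriction–corestriction, degree 2**: if the restriction to a finite index subgroup `H`
of a 2-cocycle `f` is a coboundary, then `[G : H] • f` is a coboundary. -/
theorem isCoboundary₂_index_nsmul {f : G × G → A}
    (hf : IsCocycle₂ f) (hres : IsCoboundary₂ (fun p : H × H => f ((p.1 : G), (p.2 : G)))) :
    IsCoboundary₂ (fun p => H.index • f p) := by
  classical
  obtain ⟨φ, hφ⟩ := hres
  obtain ⟨π, hπ⟩ := exists_equivariant_map H
  -- homogeneous versions
  set F : G → G → G → A := hom₂ f with hFdef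
  have hFmul : ∀ g x0 x1 x2, F (g * x0) (g * x1) (g * x2) = g • F x0 x1 x2 := hom₂_mul f
  have hFco : ∀ x0 x1 x2 x3, F x1 x2 x3 - F x0 x2 x3 + F x0 x1 x3 - F x0 x1 x2 = 0 :=
    hom₂_cocycle hf
  let Φ : H → H → A := fun h0 h1 => (h0 : G) • φ (h0⁻¹ * h1)
  have hΦmul : ∀ (h h0 h1 : H), Φ (h * h0) (h * h1) = (h : G) • Φ h0 h1 := by
    intro h h0 h1
    simp only [Φ, Subgroup.coe_mul, mul_smul]
    congr 3
    group
  have hΦd : ∀ h0 h1 h2 : H, Φ h1 h2 - Φ h0 h2 + Φ h0 h1 = F h0 h1 h2 := by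
    intro h0 h1 h2
    have h := hφ (h0⁻¹ * h1) (h1⁻¹ * h2)
    simp only [Subgroup.smul_def, Subgroup.coe_mul, Subgroup.coe_inv] at h
    have e1 : h0⁻¹ * h1 * (h1⁻¹ * h2) = h0⁻¹ * h2 := by group
    rw [e1] at h
    simp only [Φ, hFdef, hom₂]
    rw [← h]
    have h' : (h1 : G) • φ (h1⁻¹ * h2) = (h0 : G) • (((h0 : G)⁻¹ * h1) • φ (h1⁻¹ * h2)) := by
      rw [← mul_smul]; congr 1; group
    rw [h', smul_add, smul_sub]
  -- the `H`-equivariant trivialisation on `G`
  let Ψ : G → G → A := fun x0 x1 =>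
    Φ (π x0) (π x1) + F (π x0) x0 x1 - F (π x0) (π x1) x1
  have hΨmul : ∀ (h : H) (x0 x1 : G), Ψ (h * x0) (h * x1) = (h : G) • Ψ x0 x1 := by
    intro h x0 x1
    simp only [Ψ, hπ, hΦmul, Subgroup.coe_mul, hFmul, smul_add, smul_sub]
  have hΨd : ∀ x0 x1 x2 : G, Ψ x1 x2 - Ψ x0 x2 + Ψ x0 x1 = F x0 x1 x2 := by
    intro x0 x1 x2
    have c1 := hFco (π x0) (π x1) (π x2) x2
    have c2 := hFco (π x0) (π x1) x1 x2
    have c3 := hFco (π x0) x0 x1 x2
    have c0 := hΦd (π x0) (π x1) (π x2)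
    simp only [Ψ]
    linear_combination (norm := abel) c0 - c1 + c2 - c3
  -- the transfer of `Ψ`
  letI : Fintype (G ⧸ H) := Subgroup.fintypeQuotientOfFiniteIndex
  let T : G → G → G → A := fun x0 x1 y => y • Ψ (y⁻¹ * x0) (y⁻¹ * x1)
  have hT : ∀ (x0 x1 y : G) (h : H), T x0 x1 (y * h) = T x0 x1 y := by
    intro x0 x1 y h
    have h1 := hΨmul h⁻¹ (y⁻¹ * x0) (y⁻¹ * x1)
    simp only [T, mul_inv_rev, mul_smul, mul_assoc]
    simp only [Subgroup.coe_inv] at h1
    rw [h1, smul_inv_smul]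
  let Tbar : G → G → G ⧸ H → A := fun x0 x1 c => T x0 x1 c.out
  have hTbar : ∀ (x0 x1 y : G), Tbar x0 x1 (y : G ⧸ H) = T x0 x1 y := by
    intro x0 x1 y
    have h1 : (((y : G ⧸ H)).out : G ⧸ H) = (y : G ⧸ H) := Quotient.out_eq' _
    rw [QuotientGroup.eq] at h1
    have h2 := hT x0 x1 (y : G ⧸ H).out ⟨_, h1⟩
    simp only [mul_inv_cancel_left] at h2
    exact h2.symm
  let U : G → G → A := fun x0 x1 => ∑ c : G ⧸ H, Tbar x0 x1 c
  have hUmul : ∀ g x0 x1 : G, U (g * x0) (g * x1) = g • U x0 x1 := by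
    intro g x0 x1
    have h1 : ∀ c : G ⧸ H, Tbar (g * x0) (g * x1) c = g • Tbar x0 x1 (g⁻¹ • c) := by
      intro c
      induction c using QuotientGroup.induction_on with
      | H y =>
        have e : (g⁻¹ • (y : G ⧸ H)) = ((g⁻¹ * y : G) : G ⧸ H) := rfl
        rw [e, hTbar, hTbar]
        simp only [T, mul_inv_rev, inv_inv, mul_smul, smul_inv_smul, mul_assoc]
    simp only [U]
    rw [Finset.smul_sum, Finset.sum_congr rfl (fun c _ => h1 c)]
    exact Equiv.sum_comp (MulAction.toPerm g⁻¹ : G ⧸ H ≃ G ⧸ H) (fun c => g • Tbar x0 x1 c)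
  have hUd : ∀ x0 x1 x2 : G, U x1 x2 - U x0 x2 + U x0 x1 = H.index • F x0 x1 x2 := by
    intro x0 x1 x2
    have h1 : ∀ c : G ⧸ H, Tbar x1 x2 c - Tbar x0 x2 c + Tbar x0 x1 c = F x0 x1 x2 := by
      intro c
      induction c using QuotientGroup.induction_on with
      | H y =>
        rw [hTbar, hTbar, hTbar]
        simp only [T]
        rw [← smul_sub, ← smul_add, hΨd, ← hFmul]
        simp only [mul_inv_cancel_left]
    simp only [U]
    rw [← Finset.sum_sub_distrib, ← Finset.sum_add_distrib, Finset.sum_congr rfl (fun c _ => h1 c),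
      Finset.sum_const, Finset.card_univ, Subgroup.index_eq_card, Nat.card_eq_fintype_card]
  refine ⟨fun g => U 1 g, fun g h => ?_⟩
  have h1 := hUd 1 g (g * h)
  have h2 := hUmul g 1 h
  rw [mul_one] at h2
  rw [hFdef, hom₂_one] at h1
  show g • U 1 h - U 1 (g * h) + U 1 g = H.index • f (g, h)
  rw [← h2, h1]

end Transfer

end Fermat.Agent.S55.H119

end
-- ===== PACK-END S55/H119/ResCores2.lean

-- ===== PACK-BEGIN S55/H535/Filtration.lean
section


/-!
# Successive approximation along a complete filtration  (S55 toolkit, helper535)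

The classical lemma behind the cohomological triviality of unit groups of local fields
(Serre, *Local Fields*, Ch. V §1 Lemma 2 and Ch. XII §3 Lemma 3), stated in the "Herbrand" style
(two composable homomorphisms with zero composite), with no category theory.

* `exact_of_graded_exact` (multiplicative), `add_exact_of_graded_exact` (additive):
  if `g : B → A`, `f : A → C` satisfy `f ∘ g = 1`, `B` is complete and `A` separated for decreasing
  filtrations respected by `g`, and exactness holds "modulo the next step" on every graded piece,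
  then `ker f = im g`.
-/

set_option autoImplicit false

namespace Fermat.Agent.S55.H535

section Mul

variable {A B C : Type*} [CommGroup A] [CommGroup B] [CommGroup C]

/-- A filtration `F` is *separated* if the only element lying in every step is `1`. -/
def MulSeparated (F : ℕ → Subgroup A) : Prop := ∀ x : A, (∀ n, x ∈ F n) → x = 1

/-- A filtration `F` is *product-complete* if every sequence `a n ∈ F n` has a "convergent
infinite product": an element `s` with `s / ∏_{i<n} a i ∈ F n` for every `n`. -/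
def MulComplete (F : ℕ → Subgroup B) : Prop :=
  ∀ a : ℕ → B, (∀ n, a n ∈ F n) → ∃ s : B, ∀ n, s / ∏ i ∈ Finset.range n, a i ∈ F n

/-- **Successive approximation.**  Let `g : B →* A` and `f : A →* C` with `f ∘ g = 1`.  Let `FA`,
`FB` be filtrations with `g (FB n) ⊆ FA n`, `FA` separated, `FB` product-complete.  If every
`x ∈ FA n ∩ ker f` can be corrected by some `g y`, `y ∈ FB n`, into `FA (n+1)`, then every
`x ∈ FA 0 ∩ ker f` is of the form `g y` with `y ∈ FB 0`. -/
theorem exact_of_graded_exact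
    (FA : ℕ → Subgroup A) (FB : ℕ → Subgroup B)
    (g : B →* A) (f : A →* C) (hfg : ∀ b, f (g b) = 1)
    (hg : ∀ n b, b ∈ FB n → g b ∈ FA n)
    (hsep : MulSeparated FA) (hcomp : MulComplete FB)
    (hgr : ∀ n x, x ∈ FA n → f x = 1 → ∃ y ∈ FB n, x / g y ∈ FA (n + 1))
    (x : A) (hx0 : x ∈ FA 0) (hx : f x = 1) : ∃ y ∈ FB 0, g y = x := by
  classical
  -- the recursion on pairs (level-`n` element of `ker f`)
  let P : ℕ → Type _ := fun n => {z : A // z ∈ FA n ∧ f z = 1}
  let corr : ∀ n, P n → B := fun n z => (hgr n z.1 z.2.1 z.2.2).choose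
  have hcorr : ∀ n (z : P n), corr n z ∈ FB n ∧ z.1 / g (corr n z) ∈ FA (n + 1) :=
    fun n z => (hgr n z.1 z.2.1 z.2.2).choose_spec
  let step : ∀ n, P n → P (n + 1) := fun n z =>
    ⟨z.1 / g (corr n z), (hcorr n z).2, by rw [map_div, z.2.2, hfg, div_one]⟩
  let seq : ∀ n, P n := fun n => Nat.rec (motive := P) ⟨x, hx0, hx⟩ step n
  let y : ℕ → B := fun n => corr n (seq n)
  have hy : ∀ n, y n ∈ FB n := fun n => (hcorr n (seq n)).1
  have hseq : ∀ n, (seq n).1 = x / g (∏ i ∈ Finset.range n, y i) := by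
    intro n
    induction n with
    | zero => simp [seq]
    | succ n ih =>
      have h1 : (seq (n + 1)).1 = (seq n).1 / g (y n) := rfl
      rw [h1, ih, Finset.prod_range_succ, map_mul, div_div]
  obtain ⟨s, hs⟩ := hcomp y hy
  refine ⟨s, by simpa using hs 0, ?_⟩
  have hmem : ∀ n, x / g s ∈ FA n := by
    intro n
    have h1 : x / g s = (seq n).1 / g (s / ∏ i ∈ Finset.range n, y i) := by
      rw [hseq n, map_div, div_div_div_cancel_right]
    rw [h1]
    exact (FA n).div_mem (seq n).2.1 (hg n _ (hs n))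
  have := hsep _ hmem
  exact (div_eq_one.1 this).symm

end Mul

section Add

variable {A B C : Type*} [AddCommGroup A] [AddCommGroup B] [AddCommGroup C]

/-- Additive version of `MulSeparated`. -/
def AddSeparated (F : ℕ → AddSubgroup A) : Prop := ∀ x : A, (∀ n, x ∈ F n) → x = 0

/-- Additive version of `MulComplete`: every series `∑ a n`, `a n ∈ F n`, converges. -/
def AddComplete (F : ℕ → AddSubgroup B) : Prop :=
  ∀ a : ℕ → B, (∀ n, a n ∈ F n) → ∃ s : B, ∀ n, s - ∑ i ∈ Finset.range n, a i ∈ F n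

/-- Additive version of `exact_of_graded_exact`. -/
theorem add_exact_of_graded_exact
    (FA : ℕ → AddSubgroup A) (FB : ℕ → AddSubgroup B)
    (g : B →+ A) (f : A →+ C) (hfg : ∀ b, f (g b) = 0)
    (hg : ∀ n b, b ∈ FB n → g b ∈ FA n)
    (hsep : AddSeparated FA) (hcomp : AddComplete FB)
    (hgr : ∀ n x, x ∈ FA n → f x = 0 → ∃ y ∈ FB n, x - g y ∈ FA (n + 1))
    (x : A) (hx0 : x ∈ FA 0) (hx : f x = 0) : ∃ y ∈ FB 0, g y = x := by
  classical
  let P : ℕ → Type _ := fun n => {z : A // z ∈ FA n ∧ f z = 0}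
  let corr : ∀ n, P n → B := fun n z => (hgr n z.1 z.2.1 z.2.2).choose
  have hcorr : ∀ n (z : P n), corr n z ∈ FB n ∧ z.1 - g (corr n z) ∈ FA (n + 1) :=
    fun n z => (hgr n z.1 z.2.1 z.2.2).choose_spec
  let step : ∀ n, P n → P (n + 1) := fun n z =>
    ⟨z.1 - g (corr n z), (hcorr n z).2, by rw [map_sub, z.2.2, hfg, sub_zero]⟩
  let seq : ∀ n, P n := fun n => Nat.rec (motive := P) ⟨x, hx0, hx⟩ step n
  let y : ℕ → B := fun n => corr n (seq n)
  have hy : ∀ n, y n ∈ FB n := fun n => (hcorr n (seq n)).1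
  have hseq : ∀ n, (seq n).1 = x - g (∑ i ∈ Finset.range n, y i) := by
    intro n
    induction n with
    | zero => simp [seq]
    | succ n ih =>
      have h1 : (seq (n + 1)).1 = (seq n).1 - g (y n) := rfl
      rw [h1, ih, Finset.sum_range_succ, map_add, sub_sub]
  obtain ⟨s, hs⟩ := hcomp y hy
  refine ⟨s, by simpa using hs 0, ?_⟩
  have hmem : ∀ n, x - g s ∈ FA n := by
    intro n
    have h1 : x - g s = (seq n).1 - g (s - ∑ i ∈ Finset.range n, y i) := by
      rw [hseq n, map_sub]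
      abel
    rw [h1]
    exact (FA n).sub_mem (seq n).2.1 (hg n _ (hs n))
  have := hsep _ hmem
  exact (sub_eq_zero.1 this).symm

end Add

end Fermat.Agent.S55.H535

end
-- ===== PACK-END S55/H535/Filtration.lean

-- ===== PACK-BEGIN S55/H953/Approx.lean
section


/-!
# S55 / local norm index: successive approximation along a multiplicative filtration

Abstract setting: `L` a proper (locally compact) normed field, `σ` a ring automorphism of `L`
which is an isometry with `σ ^ n = 1`, and `Λ 0 ⊇ Λ 1 ⊇ …` a filtration of `L` by closed bounded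
`σ`-stable additive subgroups with `Λ 0 * Λ i ⊆ Λ (i+1)`, elements of `Λ i` of norm `≤ c i`,
`c i → 0`, `c 0 < 1`.  If the additive "cohomology" of the graded pieces vanishes
(`hTr`, `hSub`), then on `V = 1 + Λ 0`:

* every `σ`-fixed element of `V` is a norm `∏_{j<n} σ^j y` of an element `y ∈ V`;
* every element of `V` of norm `1` is of the form `σ y / y` with `y ∈ V`.
-/

set_option autoImplicit false

namespace Fermat.Agent.S55.H953

open Finset Filter Topology

variable {L : Type*} [NormedField L]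

/-- Data of the filtration. -/
structure Filtration (L : Type*) [NormedField L] (σ : L ≃+* L) (n : ℕ) where
  /-- the filtration -/
  Λ : ℕ → AddSubgroup L
  /-- bounds for the norms -/
  c : ℕ → ℝ
  anti : ∀ i, Λ (i + 1) ≤ Λ i
  mul_mem : ∀ i x y, x ∈ Λ 0 → y ∈ Λ i → x * y ∈ Λ (i + 1)
  closed : ∀ i, IsClosed (Λ i : Set L)
  norm_le : ∀ i x, x ∈ Λ i → ‖x‖ ≤ c i
  c_tendsto : Tendsto c atTop (𝓝 0)
  c_zero_lt : c 0 < 1
  stable : ∀ i x, x ∈ Λ i → σ x ∈ Λ i
  isom : ∀ x, ‖σ x‖ = ‖x‖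
  pow_eq : ∀ x, (σ ^ n) x = x
  hTr : ∀ i a, a ∈ Λ i → σ a = a → ∃ b ∈ Λ i, (∑ j ∈ range n, (σ ^ j) b) - a ∈ Λ (i + 1)
  hSub : ∀ i a, a ∈ Λ i → (∑ j ∈ range n, (σ ^ j) a) ∈ Λ (i + 1) →
    ∃ b ∈ Λ i, σ b - b - a ∈ Λ (i + 1)

namespace Filtration

variable {σ : L ≃+* L} {n : ℕ} (F : Filtration L σ n)

lemma anti_le {i j : ℕ} (h : i ≤ j) : F.Λ j ≤ F.Λ i := by
  induction h with
  | refl => exact le_rfl
  | step _ ih => exact (F.anti _).trans ih

lemma mem_zero {i : ℕ} {x : L} (hx : x ∈ F.Λ i) : x ∈ F.Λ 0 := F.anti_le (Nat.zero_le i) hx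

lemma mul_mem' {i : ℕ} {x y : L} (hx : x ∈ F.Λ i) (hy : y ∈ F.Λ 0) : x * y ∈ F.Λ (i + 1) := by
  rw [mul_comm]
  exact F.mul_mem i y x hy hx

lemma mul_mem_same {i : ℕ} {x y : L} (hx : x ∈ F.Λ i) (hy : y ∈ F.Λ 0) : x * y ∈ F.Λ i :=
  F.anti i (F.mul_mem' hx hy)

lemma norm_lt_one {x : L} (hx : x ∈ F.Λ 0) : ‖x‖ < 1 :=
  (F.norm_le 0 x hx).trans_lt F.c_zero_lt

lemma one_add_ne_zero {x : L} (hx : x ∈ F.Λ 0) : 1 + x ≠ 0 := by
  intro h
  have : x = -1 := by linear_combination h
  have h1 := F.norm_lt_one hx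
  rw [this, norm_neg, norm_one] at h1
  exact lt_irrefl _ h1

lemma pow_succ_mem {x : L} (hx : x ∈ F.Λ 0) (k : ℕ) : x ^ (k + 1) ∈ F.Λ 0 := by
  induction k with
  | zero => simpa using hx
  | succ k ih =>
    rw [pow_succ]
    exact F.mul_mem_same ih hx

/-- `x / (1 + x) ∈ Λ 0` for `x ∈ Λ 0`, by the geometric series and closedness. -/
lemma div_one_add_mem [CompleteSpace L] {x : L} (hx : x ∈ F.Λ 0) : x / (1 + x) ∈ F.Λ 0 := by
  have hlt : ‖-x‖ < 1 := by rw [norm_neg]; exact F.norm_lt_one hx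
  have hsum : HasSum (fun k : ℕ => (-x) ^ k) (1 - (-x))⁻¹ := hasSum_geometric_of_norm_lt_one hlt
  have hsum2 : HasSum (fun k : ℕ => x * (-x) ^ k) (x * (1 - (-x))⁻¹) := hsum.mul_left x
  have hmem : ∀ s : Finset ℕ, ∑ k ∈ s, x * (-x) ^ k ∈ F.Λ 0 := by
    intro s
    refine AddSubgroup.sum_mem _ (fun k _ => ?_)
    have : x * (-x) ^ k = (-1) ^ k * x ^ (k + 1) := by
      rw [neg_pow, pow_succ]; ring
    rw [this]
    rcases neg_one_pow_eq_or L k with h | h
    · rw [h, one_mul]; exact F.pow_succ_mem hx k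
    · rw [h, neg_one_mul]; exact (F.Λ 0).neg_mem (F.pow_succ_mem hx k)
  have := (F.closed 0).mem_of_tendsto hsum2 (Eventually.of_forall hmem)
  have e : x / (1 + x) = x * (1 - (-x))⁻¹ := by
    rw [div_eq_mul_inv, sub_neg_eq_add]
  rw [e]
  exact this

/-! ### The groups `V i = 1 + Λ i` -/

lemma V_one (i : ℕ) : (1 : L) - 1 ∈ F.Λ i := by
  rw [sub_self]; exact (F.Λ i).zero_mem

lemma V_mul {i : ℕ} {x y : L} (hx : x - 1 ∈ F.Λ i) (hy : y - 1 ∈ F.Λ i) :
    x * y - 1 ∈ F.Λ i := by
  have e : x * y - 1 = (x - 1) * (y - 1) + (x - 1) + (y - 1) := by ring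
  rw [e]
  exact (F.Λ i).add_mem ((F.Λ i).add_mem (F.mul_mem_same hx (F.mem_zero hy)) hx) hy

lemma V_ne_zero {x : L} (hx : x - 1 ∈ F.Λ 0) : x ≠ 0 := by
  have := F.one_add_ne_zero hx
  simpa using this

lemma V_inv [CompleteSpace L] {i : ℕ} {x : L} (hx : x - 1 ∈ F.Λ i) : x⁻¹ - 1 ∈ F.Λ i := by
  have hx0 : x ≠ 0 := F.V_ne_zero (F.mem_zero hx)
  set a := x - 1 with ha
  have hxa : x = 1 + a := by rw [ha]; ring
  have h0 : a / (1 + a) ∈ F.Λ 0 := F.div_one_add_mem (F.mem_zero hx)
  have h1a : (1 + a) ≠ 0 := by rw [← hxa]; exact hx0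
  have e : x⁻¹ - 1 = -(a - a * (a / (1 + a))) := by
    rw [hxa]; field_simp; ring
  rw [e]
  exact (F.Λ i).neg_mem ((F.Λ i).sub_mem hx (F.mul_mem_same hx h0))

lemma V_div [CompleteSpace L] {i : ℕ} {x y : L} (hx : x - 1 ∈ F.Λ i) (hy : y - 1 ∈ F.Λ i) :
    x / y - 1 ∈ F.Λ i := by
  rw [div_eq_mul_inv]
  exact F.V_mul hx (F.V_inv hy)

lemma V_prod {i : ℕ} {ι : Type*} (s : Finset ι) (x : ι → L) (hx : ∀ j ∈ s, x j - 1 ∈ F.Λ i) :
    (∏ j ∈ s, x j) - 1 ∈ F.Λ i := by
  classical
  induction s using Finset.induction_on with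
  | empty => simp
  | insert a s ha ih =>
    rw [Finset.prod_insert ha]
    exact F.V_mul (hx a (Finset.mem_insert_self a s))
      (ih (fun j hj => hx j (Finset.mem_insert_of_mem hj)))

/-- `u / w ∈ Λ i` for `u ∈ Λ i` and `w ∈ V 0`. -/
lemma div_mem [CompleteSpace L] {i : ℕ} {u w : L} (hu : u ∈ F.Λ i) (hw : w - 1 ∈ F.Λ 0) :
    u / w ∈ F.Λ i := by
  have e : u / w = u + u * (w⁻¹ - 1) := by rw [div_eq_mul_inv]; ring
  rw [e]
  exact (F.Λ i).add_mem hu (F.mul_mem_same hu (F.V_inv hw))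

/-- product expansion: `∏ (1 + x j) ≡ 1 + ∑ x j` modulo `Λ (i+1)` for `x j ∈ Λ i`. -/
lemma prod_one_add_sub {i : ℕ} {ι : Type*} (s : Finset ι) (x : ι → L)
    (hx : ∀ j ∈ s, x j ∈ F.Λ i) :
    (∏ j ∈ s, (1 + x j)) - 1 - ∑ j ∈ s, x j ∈ F.Λ (i + 1) := by
  classical
  induction s using Finset.induction_on with
  | empty => simp
  | insert a s ha ih =>
    rw [Finset.prod_insert ha, Finset.sum_insert ha]
    have hxa : x a ∈ F.Λ i := hx a (Finset.mem_insert_self a s)
    have hs : ∀ j ∈ s, x j ∈ F.Λ i := fun j hj => hx j (Finset.mem_insert_of_mem hj)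
    have ih' := ih hs
    have hP : (∏ j ∈ s, (1 + x j)) - 1 ∈ F.Λ i :=
      F.V_prod s (fun j => 1 + x j) (fun j hj => by simpa using hs j hj)
    have e : (1 + x a) * ∏ j ∈ s, (1 + x j) - 1 - (x a + ∑ j ∈ s, x j) =
        ((∏ j ∈ s, (1 + x j)) - 1 - ∑ j ∈ s, x j) + ((∏ j ∈ s, (1 + x j)) - 1) * x a := by ring
    rw [e]
    exact (F.Λ (i + 1)).add_mem ih' (F.mul_mem' hP (F.mem_zero hxa))

/-! ### The automorphism -/

lemma stable_pow {i : ℕ} {x : L} (hx : x ∈ F.Λ i) (j : ℕ) : (σ ^ j) x ∈ F.Λ i := by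
  induction j with
  | zero => simpa using hx
  | succ j ih =>
    rw [pow_succ']
    exact F.stable i _ ih

lemma V_stable {i : ℕ} {x : L} (hx : x - 1 ∈ F.Λ i) (j : ℕ) : (σ ^ j) x - 1 ∈ F.Λ i := by
  have := F.stable_pow hx j
  simpa using this

include F in
lemma isom_pow (j : ℕ) (x : L) : ‖(σ ^ j) x‖ = ‖x‖ := by
  induction j with
  | zero => simp
  | succ j ih =>
    rw [pow_succ']
    exact (F.isom _).trans ih

/-- the norm `∏_{j<n} σ^j` -/
noncomputable def nm (_F : Filtration L σ n) (x : L) : L := ∏ j ∈ range n, (σ ^ j) x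

/-- the trace `∑_{j<n} σ^j` -/
noncomputable def tr (_F : Filtration L σ n) (x : L) : L := ∑ j ∈ range n, (σ ^ j) x

lemma nm_mul (x y : L) : F.nm (x * y) = F.nm x * F.nm y := by
  simp [nm, Finset.prod_mul_distrib]

lemma nm_one : F.nm 1 = 1 := by simp [nm]

lemma nm_inv (x : L) : F.nm x⁻¹ = (F.nm x)⁻¹ := by
  simp [nm, map_inv₀]

lemma nm_div (x y : L) : F.nm (x / y) = F.nm x / F.nm y := by
  rw [div_eq_mul_inv, nm_mul, nm_inv, div_eq_mul_inv]

lemma prod_shift {M : Type*} [CommMonoid M] (f : ℕ → M) (m : ℕ) (h : f m = f 0) :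
    ∏ j ∈ range m, f (j + 1) = ∏ j ∈ range m, f j := by
  cases m with
  | zero => simp
  | succ m =>
    rw [Finset.prod_range_succ (fun j => f (j + 1)) m, Finset.prod_range_succ' f m, h]

lemma sum_shift {M : Type*} [AddCommMonoid M] (f : ℕ → M) (m : ℕ) (h : f m = f 0) :
    ∑ j ∈ range m, f (j + 1) = ∑ j ∈ range m, f j := by
  cases m with
  | zero => simp
  | succ m =>
    rw [Finset.sum_range_succ (fun j => f (j + 1)) m, Finset.sum_range_succ' f m, h]

lemma sigma_nm (x : L) : σ (F.nm x) = F.nm x := by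
  unfold nm
  rw [map_prod]
  have h : ∀ j, σ ((σ ^ j) x) = (σ ^ (j + 1)) x := fun j => by rw [pow_succ']; rfl
  simp_rw [h]
  exact prod_shift (fun j => (σ ^ j) x) n (by simpa using F.pow_eq x)

lemma sigma_tr (x : L) : σ (F.tr x) = F.tr x := by
  unfold tr
  rw [map_sum]
  have h : ∀ j, σ ((σ ^ j) x) = (σ ^ (j + 1)) x := fun j => by rw [pow_succ']; rfl
  simp_rw [h]
  exact sum_shift (fun j => (σ ^ j) x) n (by simpa using F.pow_eq x)

lemma nm_sigma (x : L) : F.nm (σ x) = F.nm x := by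
  unfold nm
  have h : ∀ j, (σ ^ j) (σ x) = (σ ^ (j + 1)) x := fun j => by rw [pow_succ]; rfl
  simp_rw [h]
  exact prod_shift (fun j => (σ ^ j) x) n (by simpa using F.pow_eq x)

lemma norm_nm (x : L) : ‖F.nm x‖ = ‖x‖ ^ n := by
  unfold nm
  rw [norm_prod, Finset.prod_congr rfl (fun j _ => F.isom_pow j x)]
  simp

include F in
lemma continuous_sigma_pow (j : ℕ) : Continuous fun x : L => (σ ^ j) x := by
  have : Isometry fun x : L => (σ ^ j) x := by
    refine Isometry.of_dist_eq (fun x y => ?_)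
    rw [dist_eq_norm, dist_eq_norm, ← map_sub, F.isom_pow]
  exact this.continuous

lemma continuous_nm : Continuous F.nm := by
  unfold nm
  exact continuous_finsetProd _ (fun j _ => F.continuous_sigma_pow j)

/-- `nm (1 + b) ≡ 1 + tr b` modulo `Λ (i+1)`. -/
lemma nm_one_add_sub {i : ℕ} {b : L} (hb : b ∈ F.Λ i) :
    F.nm (1 + b) - 1 - F.tr b ∈ F.Λ (i + 1) := by
  unfold nm tr
  simp only [map_add, map_one]
  exact F.prod_one_add_sub (range n) (fun j => (σ ^ j) b) (fun j _ => F.stable_pow hb j)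

lemma V_nm {i : ℕ} {x : L} (hx : x - 1 ∈ F.Λ i) : F.nm x - 1 ∈ F.Λ i :=
  F.V_prod _ _ (fun j _ => F.V_stable hx j)

/-- one step of the approximation for `Ĥ⁰`. -/
lemma step_fixed [CompleteSpace L] {i : ℕ} {x : L} (hx : x - 1 ∈ F.Λ i) (hσ : σ x = x) :
    ∃ y, y - 1 ∈ F.Λ i ∧ x / F.nm y - 1 ∈ F.Λ (i + 1) ∧ σ (x / F.nm y) = x / F.nm y := by
  have hσa : σ (x - 1) = x - 1 := by rw [map_sub, map_one, hσ]
  obtain ⟨b, hb, hb'⟩ := F.hTr i (x - 1) hx hσa
  refine ⟨1 + b, by simpa using hb, ?_, ?_⟩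
  · have h1 := F.nm_one_add_sub hb
    have hN : F.nm (1 + b) - 1 ∈ F.Λ 0 := F.mem_zero (F.V_nm (by simpa using hb))
    have hN0 : F.nm (1 + b) ≠ 0 := F.V_ne_zero hN
    have e : x / F.nm (1 + b) - 1 =
        (-(F.nm (1 + b) - 1 - F.tr b) - (F.tr b - (x - 1))) / F.nm (1 + b) := by
      field_simp; ring
    rw [e]
    refine F.div_mem ((F.Λ (i + 1)).sub_mem ((F.Λ (i + 1)).neg_mem h1) ?_) hN
    exact hb'
  · rw [map_div₀, hσ, F.sigma_nm]

/-- one step of the approximation for `Ĥ⁻¹`. -/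
lemma step_norm_one [CompleteSpace L] {i : ℕ} {x : L} (hx : x - 1 ∈ F.Λ i) (hN : F.nm x = 1) :
    ∃ y, y - 1 ∈ F.Λ i ∧ x / (σ y / y) - 1 ∈ F.Λ (i + 1) ∧ F.nm (x / (σ y / y)) = 1 := by
  have h1 := F.nm_one_add_sub hx
  have htr : F.tr (x - 1) ∈ F.Λ (i + 1) := by
    have e : F.tr (x - 1) = -(F.nm (1 + (x - 1)) - 1 - F.tr (x - 1)) := by
      have : (1 : L) + (x - 1) = x := by ring
      rw [this, hN]; ring
    rw [e]
    exact (F.Λ (i + 1)).neg_mem h1
  obtain ⟨b, hb, hb'⟩ := F.hSub i (x - 1) hx htr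
  have hy : (1 + b) - 1 ∈ F.Λ i := by simpa using hb
  have hy0 : (1 + b) ≠ 0 := F.V_ne_zero (F.mem_zero hy)
  have hσy : σ (1 + b) - 1 ∈ F.Λ i := by
    have := F.V_stable hy 1
    simpa using this
  have hσy0 : σ (1 + b) ≠ 0 := F.V_ne_zero (F.mem_zero hσy)
  refine ⟨1 + b, hy, ?_, ?_⟩
  · -- x / (σ y / y) - 1 = (x * y - σ y) / σ y
    have e : x / (σ (1 + b) / (1 + b)) - 1 =
        (-(σ b - b - (x - 1)) + (x - 1) * b) / σ (1 + b) := by
      rw [map_add, map_one] at hσy0 ⊢
      field_simp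
      ring
    rw [e]
    refine F.div_mem ((F.Λ (i + 1)).add_mem ((F.Λ (i + 1)).neg_mem hb') ?_) (F.mem_zero hσy)
    exact F.mul_mem' hx (F.mem_zero hb)
  · rw [nm_div, nm_div, F.nm_sigma, hN, div_self, div_one]
    exact F.V_ne_zero (F.mem_zero (F.V_nm hy))

lemma approx_fixed [CompleteSpace L] {x : L} (hx : x - 1 ∈ F.Λ 0) (hσ : σ x = x) (k : ℕ) :
    ∃ Y, Y - 1 ∈ F.Λ 0 ∧ x / F.nm Y - 1 ∈ F.Λ k ∧ σ (x / F.nm Y) = x / F.nm Y := by
  induction k with
  | zero =>
    refine ⟨1, F.V_one 0, ?_, ?_⟩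
    · rw [F.nm_one, div_one]; exact hx
    · rw [F.nm_one, div_one]; exact hσ
  | succ k ih =>
    obtain ⟨Y, hY, hY', hYσ⟩ := ih
    obtain ⟨y, hy, hy', hyσ⟩ := F.step_fixed hY' hYσ
    have e : x / F.nm (Y * y) = x / F.nm Y / F.nm y := by
      rw [F.nm_mul, div_div]
    refine ⟨Y * y, F.V_mul hY (F.mem_zero hy), ?_, ?_⟩
    · rw [e]; exact hy'
    · rw [e]; exact hyσ

lemma approx_norm_one [CompleteSpace L] {x : L} (hx : x - 1 ∈ F.Λ 0) (hN : F.nm x = 1) (k : ℕ) :
    ∃ Y, Y - 1 ∈ F.Λ 0 ∧ x / (σ Y / Y) - 1 ∈ F.Λ k ∧ F.nm (x / (σ Y / Y)) = 1 := by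
  induction k with
  | zero =>
    refine ⟨1, F.V_one 0, ?_, ?_⟩
    · rw [map_one, div_one, div_one]; exact hx
    · rw [map_one, div_one, div_one]; exact hN
  | succ k ih =>
    obtain ⟨Y, hY, hY', hYN⟩ := ih
    obtain ⟨y, hy, hy', hyN⟩ := F.step_norm_one hY' hYN
    have hY0 : Y ≠ 0 := F.V_ne_zero hY
    have hy0 : y ≠ 0 := F.V_ne_zero (F.mem_zero hy)
    have hσY0 : σ Y ≠ 0 := by simpa using hY0
    have hσy0 : σ y ≠ 0 := by simpa using hy0
    have e : x / (σ (Y * y) / (Y * y)) = x / (σ Y / Y) / (σ y / y) := by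
      rw [map_mul]
      field_simp
    refine ⟨Y * y, F.V_mul hY (F.mem_zero hy), ?_, ?_⟩
    · rw [e]; exact hy'
    · rw [e]; exact hyN

lemma isCompact_V [ProperSpace L] : IsCompact {y : L | y - 1 ∈ F.Λ 0} := by
  refine IsCompact.of_isClosed_subset (isCompact_closedBall (0 : L) 2) ?_ ?_
  · exact (F.closed 0).preimage (continuous_id.sub continuous_const)
  · intro y hy
    rw [mem_closedBall_zero_iff]
    have h1 : ‖y - 1‖ < 1 := F.norm_lt_one hy
    calc ‖y‖ = ‖(y - 1) + 1‖ := by rw [sub_add_cancel]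
      _ ≤ ‖y - 1‖ + ‖(1 : L)‖ := norm_add_le _ _
      _ ≤ 1 + 1 := by rw [norm_one]; linarith
      _ = 2 := by norm_num

lemma tendsto_of_mem {z : ℕ → L} (hz : ∀ k, z k - 1 ∈ F.Λ k) : Tendsto z atTop (𝓝 1) := by
  have h0 : Tendsto (fun k => z k - 1) atTop (𝓝 0) := by
    refine squeeze_zero_norm (fun k => F.norm_le k _ (hz k)) F.c_tendsto
  have := h0.add_const 1
  simpa using this

/-- **Every `σ`-fixed element of `V = 1 + Λ 0` is a norm from `V`.** -/
theorem exists_nm_eq [ProperSpace L] {x : L} (hx : x - 1 ∈ F.Λ 0) (hσ : σ x = x) :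
    ∃ y, y - 1 ∈ F.Λ 0 ∧ F.nm y = x := by
  have hx0 : x ≠ 0 := F.V_ne_zero hx
  choose Y hY hY' _ using F.approx_fixed hx hσ
  have hcl : IsClosed (F.nm '' {y : L | y - 1 ∈ F.Λ 0}) :=
    (F.isCompact_V.image F.continuous_nm).isClosed
  have hlim : Tendsto (fun k => F.nm (Y k)) atTop (𝓝 x) := by
    have h1 : Tendsto (fun k => x / F.nm (Y k)) atTop (𝓝 1) := F.tendsto_of_mem hY'
    have h2 : Tendsto (fun k => x / (x / F.nm (Y k))) atTop (𝓝 (x / 1)) :=
      tendsto_const_nhds.div h1 one_ne_zero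
    rw [div_one] at h2
    refine h2.congr (fun k => ?_)
    have hN0 : F.nm (Y k) ≠ 0 := F.V_ne_zero (F.V_nm (hY k))
    field_simp
  obtain ⟨y, hy, hyx⟩ := hcl.mem_of_tendsto hlim (Eventually.of_forall fun k => ⟨Y k, hY k, rfl⟩)
  exact ⟨y, hy, hyx⟩

/-- **Every element of `V = 1 + Λ 0` of norm one is of the form `σ y / y` with `y ∈ V`.** -/
theorem exists_div_eq [ProperSpace L] {x : L} (hx : x - 1 ∈ F.Λ 0) (hN : F.nm x = 1) :
    ∃ y, y - 1 ∈ F.Λ 0 ∧ σ y / y = x := by
  have hx0 : x ≠ 0 := F.V_ne_zero hx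
  choose Y hY hY' _ using F.approx_norm_one hx hN
  have hcont : ContinuousOn (fun y : L => σ y / y) {y : L | y - 1 ∈ F.Λ 0} := by
    have hσc : Continuous fun y : L => σ y := by
      have := F.continuous_sigma_pow 1
      simpa using this
    exact hσc.continuousOn.div continuousOn_id (fun y hy => F.V_ne_zero hy)
  have hcl : IsClosed ((fun y : L => σ y / y) '' {y : L | y - 1 ∈ F.Λ 0}) :=
    (F.isCompact_V.image_of_continuousOn hcont).isClosed
  have hlim : Tendsto (fun k => σ (Y k) / Y k) atTop (𝓝 x) := by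
    have h1 : Tendsto (fun k => x / (σ (Y k) / Y k)) atTop (𝓝 1) := F.tendsto_of_mem hY'
    have h2 : Tendsto (fun k => x / (x / (σ (Y k) / Y k))) atTop (𝓝 (x / 1)) :=
      tendsto_const_nhds.div h1 one_ne_zero
    rw [div_one] at h2
    refine h2.congr (fun k => ?_)
    have hY0 : Y k ≠ 0 := F.V_ne_zero (hY k)
    have hσY0 : σ (Y k) ≠ 0 := by simpa using hY0
    field_simp
  obtain ⟨y, hy, hyx⟩ := hcl.mem_of_tendsto hlim (Eventually.of_forall fun k => ⟨Y k, hY k, rfl⟩)
  exact ⟨y, hy, hyx⟩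

end Filtration

end Fermat.Agent.S55.H953

end
-- ===== PACK-END S55/H953/Approx.lean

-- ===== PACK-BEGIN S55/H783/Shift.lean
section







/-!
# S55 / T-layer (helper783): dimension shifting with the module of all functions `G → A`

* `funRep V`      : the representation of `G` on `G → V` by right translation;
* `isZero_funRep` : `Hⁿ⁺¹(G, G → V) = 0` (Shapiro);
-/

set_option autoImplicit false

open CategoryTheory CategoryTheory.Limits groupCohomology

namespace Fermat.Agent.S55.H783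

universe u

variable {k G : Type u} [CommRing k] [Group G]

/-- Right translation on functions `G → V`. -/
def funRho (k : Type u) (G : Type u) [CommRing k] [Group G] (V : Type u) [AddCommGroup V]
    [Module k V] : Representation k G (G → V) where
  toFun g := LinearMap.funLeft k V (fun x => x * g)
  map_one' := by
    ext f x
    simp [LinearMap.funLeft]
  map_mul' g h := by
    ext f x
    simp [LinearMap.funLeft, mul_assoc]

@[simp]
lemma funRho_apply (V : Type u) [AddCommGroup V] [Module k V] (g : G) (f : G → V) (x : G) :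
    funRho k G V g f x = f (x * g) := rfl

/-- The representation of `G` on `G → V` by right translation. -/
abbrev funRep (k : Type u) (G : Type u) [CommRing k] [Group G] (V : Type u) [AddCommGroup V]
    [Module k V] : Rep k G := Rep.of (funRho k G V)

/-- `G → V` is coinduced from the trivial subgroup. -/
noncomputable def funRepIsoCoind (V : Type u) [AddCommGroup V] [Module k V] :
    funRep k G V ≅ Rep.coind (⊥ : Subgroup G).subtype (Rep.trivial k (⊥ : Subgroup G) V) :=
  Rep.mkIso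
    { toLinearEquiv :=
        { toFun := fun f => ⟨f, fun g h => by
            have hg : (g : G) = 1 := Subgroup.mem_bot.mp g.2
            simp [hg]⟩
          invFun := fun f => f.1
          map_add' := fun _ _ => rfl
          map_smul' := fun _ _ => rfl
          left_inv := fun _ => rfl
          right_inv := fun _ => rfl }
      isIntertwining' := fun g => by
        ext f
        rfl }

theorem isZero_funRep (V : Type u) [AddCommGroup V] [Module k V] (n : ℕ) :
    IsZero (groupCohomology (funRep k G V) (n + 1)) := by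
  have h1 : IsZero (groupCohomology (Rep.trivial k (⊥ : Subgroup G) V) (n + 1)) :=
    isZero_groupCohomology_succ_of_subsingleton _ n
  have e1 := groupCohomology.coindIso (Rep.trivial k (⊥ : Subgroup G) V) (n + 1)
  have e2 : groupCohomology (funRep k G V) (n + 1) ≅
      groupCohomology (Rep.coind (⊥ : Subgroup G).subtype (Rep.trivial k (⊥ : Subgroup G) V))
        (n + 1) :=
    (groupCohomology.functor k G (n + 1)).mapIso (funRepIsoCoind V)
  exact (h1.of_iso e1).of_iso e2


/-! ### the dimension shifting sequence `0 → A → (G → A) → A' → 0` -/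

section Shift

variable (A : Rep k G)

/-- The embedding `a ↦ (x ↦ ρ(x) a)` of `A` into `G → A`. -/
def shiftIncl : A ⟶ funRep k G A.V :=
  Rep.ofHom (ρ := A.ρ) (σ := funRho k G A.V)
    ⟨{ toFun := fun a x => A.ρ x a
       map_add' := fun a b => by ext x; simp
       map_smul' := fun c a => by ext x; simp }, fun g => by
      ext a x
      simp⟩

@[simp]
lemma shiftIncl_apply (a : A.V) (x : G) : (shiftIncl A).hom a x = A.ρ x a := rfl

lemma shiftIncl_injective : Function.Injective (shiftIncl A).hom := by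
  intro a b h
  have h1 : A.ρ 1 a = A.ρ 1 b := congrFun h 1
  simpa using h1

/-- The image of `A` in `G → A`. -/
def shiftRange : Submodule k (G → A.V) := LinearMap.range (shiftIncl A).hom.toLinearMap

lemma mem_shiftRange (f : G → A.V) : f ∈ shiftRange A ↔ ∃ a : A.V, ∀ x, f x = A.ρ x a := by
  constructor
  · rintro ⟨a, rfl⟩
    exact ⟨a, fun x => rfl⟩
  · rintro ⟨a, ha⟩
    exact ⟨a, funext fun x => (ha x).symm⟩

lemma shiftRange_le_comap (g : G) :
    shiftRange A ≤ (shiftRange A).comap ((funRep k G A.V).ρ g) := by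
  intro f hf
  rw [Submodule.mem_comap]
  obtain ⟨a, ha⟩ := (mem_shiftRange A f).1 hf
  refine (mem_shiftRange A _).2 ⟨A.ρ g a, fun x => ?_⟩
  change f (x * g) = _
  rw [ha, map_mul]
  rfl

/-- The shifted module `A' = (G → A) / A`. -/
abbrev shiftRep : Rep k G :=
  Rep.quotient (funRep k G A.V) (shiftRange A) (shiftRange_le_comap A)

/-- The projection `(G → A) → A'`. -/
abbrev shiftProj : funRep k G A.V ⟶ shiftRep A :=
  Rep.mkQ (funRep k G A.V) (shiftRange A) (shiftRange_le_comap A)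

lemma shiftProj_surjective : Function.Surjective (shiftProj A).hom :=
  Submodule.mkQ_surjective _

lemma shiftProj_eq_zero_iff (f : G → A.V) : (shiftProj A).hom f = 0 ↔ f ∈ shiftRange A :=
  Submodule.Quotient.mk_eq_zero _

lemma shiftIncl_comp_shiftProj : shiftIncl A ≫ shiftProj A = 0 := by
  ext a
  exact (shiftProj_eq_zero_iff A _).2 ⟨a, rfl⟩

/-- The dimension shifting short complex. -/
def shiftSC : ShortComplex (Rep k G) :=
  ShortComplex.mk (shiftIncl A) (shiftProj A) (shiftIncl_comp_shiftProj A)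

lemma shiftSC_shortExact : (shiftSC A).ShortExact where
  exact := by
    rw [← ShortComplex.exact_map_iff_of_faithful _ (forget₂ (Rep k G) (ModuleCat k)),
      ShortComplex.moduleCat_exact_iff_ker_sub_range]
    intro f hf
    exact (shiftProj_eq_zero_iff A f).1 hf
  mono_f := (Rep.mono_iff_injective _).2 (shiftIncl_injective A)
  epi_g := (Rep.epi_iff_surjective _).2 (shiftProj_surjective A)

end Shift

/-! ### restriction to a subgroup -/

section Res

variable (S : Subgroup G) (V : Type u) [AddCommGroup V] [Module k V]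

lemma out_inv_mul_mem (x : G) : ((x : G ⧸ S).out)⁻¹ * x ∈ S := by
  rw [← QuotientGroup.eq]
  exact QuotientGroup.out_eq' _

/-- `G → V ≃ S → (G ⧸ S → V)`, compatible with right translation by `S`. -/
noncomputable def resFunEquiv : (G → V) ≃ₗ[k] (S → (G ⧸ S → V)) where
  toFun f := fun s q => f (q.out * s)
  invFun F := fun x => F ⟨((x : G ⧸ S).out)⁻¹ * x, out_inv_mul_mem S x⟩ (x : G ⧸ S)
  map_add' _ _ := rfl
  map_smul' _ _ := rfl
  left_inv f := by
    funext x
    simp
  right_inv F := by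
    funext s q
    have h1 : ((q.out * (s : G) : G) : G ⧸ S) = q := by
      rw [QuotientGroup.mk_mul_of_mem _ s.2]
      exact QuotientGroup.out_eq' q
    simp only
    have h2 : (⟨(((q.out * (s : G) : G) : G ⧸ S).out)⁻¹ * (q.out * s),
        out_inv_mul_mem S (q.out * s)⟩ : S) = s := by
      apply Subtype.ext
      simp only
      rw [h1]
      group
    rw [h2, h1]

/-- The restriction of `G → V` to a subgroup `S` is again a module of all functions on `S`. -/
noncomputable def resFunRepIso :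
    Rep.res S.subtype (funRep k G V) ≅ funRep k S (G ⧸ S → V) :=
  Rep.mkIso (ρ := (funRho k G V).comp S.subtype) (σ := funRho k S (G ⧸ S → V))
    { toLinearEquiv := resFunEquiv S V
      isIntertwining' := fun s => by
        ext f t q
        simp [resFunEquiv, mul_assoc] }

theorem isZero_res_funRep (n : ℕ) :
    IsZero (groupCohomology (Rep.res S.subtype (funRep k G V)) (n + 1)) :=
  (isZero_funRep (k := k) (G := S) (G ⧸ S → V) n).of_iso
    ((groupCohomology.functor k S (n + 1)).mapIso (resFunRepIso S V))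

end Res

end Fermat.Agent.S55.H783

end
-- ===== PACK-END S55/H783/Shift.lean

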