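import Mathlib
import Fermat.Prelude.Def_FLTPrelim_Ramification
import Fermat.Prelude.Def_GaloisRep_CompletionBridge
import Fermat.Agent.Pack.S56.E0L2
import Fermat.Agent.Pack.S56.E0L1
import Fermat.Agent.Pack.S56.E0L3
import Fermat.Agent.Pack.S56.E1L1
import Fermat.Agent.Pack.S56.E0L0
import Fermat.Agent.Pack.S56.E1L0

-- ===== PACK-BEGIN S56/H726/Coc.lean
section


/-!
# S56 / P3(b) — twisted cocycles in `Ψ`-form (helper726)

`G` a group, `ρ : G →* M₂(k)`, `ψ : G → sl₂(k)` a cocycle for the twisted adjoint action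
`g · X = det ρ(g) · ρ(g) X ρ(g)⁻¹`.  We work with `Ψ g = ψ g * ρ g`, which satisfies
`Ψ (g h) = Ψ g * ρ h + det ρ(g) • ρ g * Ψ h`.  `H` is a normal subgroup on which `det ρ = 1`
and `ρ(H)` spans `M₂(k)`; `Ψ` vanishes on `H ∩ ker ρ`.
-/

set_option autoImplicit false

namespace Fermat.Agent.S56.H726

open Matrix

/-- The data of a twisted cocycle in `Ψ`-form. -/
structure TwData (k : Type*) [Field k] (G : Type*) [Group G] where
  /-- the representation -/
  ρ : G →* Matrix (Fin 2) (Fin 2) k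
  /-- the cocycle, multiplied on the right by `ρ` -/
  Ψ : G → Matrix (Fin 2) (Fin 2) k
  /-- the normal subgroup -/
  H : Subgroup G
  normal : H.Normal
  det_H : ∀ h ∈ H, (ρ h).det = 1
  Ψ_mul : ∀ g h, Ψ (g * h) = Ψ g * ρ h + (ρ g).det • (ρ g * Ψ h)
  tr_zero : ∀ g, (Ψ g * ρ g⁻¹).trace = 0
  Ψ_N : ∀ h ∈ H, ρ h = 1 → Ψ h = 0
  span : Submodule.span k (ρ '' (H : Set G)) = ⊤
  split : ∀ h ∈ H, ∃ α β : k, (ρ h).trace = α + β ∧ α * β = 1

namespace TwData

variable {k : Type*} [Field k] {G : Type*} [Group G] (D : TwData k G)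

theorem ρ_mul_inv (g : G) : D.ρ g * D.ρ g⁻¹ = 1 := by
  rw [← map_mul, mul_inv_cancel, map_one]

theorem ρ_inv_mul (g : G) : D.ρ g⁻¹ * D.ρ g = 1 := by
  rw [← map_mul, inv_mul_cancel, map_one]

theorem det_ne_zero (g : G) : (D.ρ g).det ≠ 0 := by
  intro h
  have := congrArg Matrix.det (D.ρ_mul_inv g)
  rw [Matrix.det_mul, h, zero_mul, Matrix.det_one] at this
  exact zero_ne_one this

theorem Ψ_one : D.Ψ 1 = 0 := by
  have := D.Ψ_mul 1 1
  simp only [mul_one, map_one, Matrix.det_one, one_smul, one_mul] at this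
  exact left_eq_add.mp this |>.symm ▸ rfl

/-- `Ψ (h⁻¹) = - ρ(h)⁻¹ Ψ(h) ρ(h)⁻¹` on `H`. -/
theorem Ψ_inv {h : G} (hh : h ∈ D.H) : D.Ψ h⁻¹ = -(D.ρ h⁻¹ * D.Ψ h * D.ρ h⁻¹) := by
  have e := D.Ψ_mul h h⁻¹
  rw [mul_inv_cancel, D.Ψ_one, D.det_H h hh, one_smul] at e
  have e2 : D.ρ h * D.Ψ h⁻¹ = -(D.Ψ h * D.ρ h⁻¹) := by
    rw [eq_neg_iff_add_eq_zero, add_comm]; exact e.symm
  calc D.Ψ h⁻¹ = (D.ρ h⁻¹ * D.ρ h) * D.Ψ h⁻¹ := by rw [D.ρ_inv_mul, one_mul]
    _ = D.ρ h⁻¹ * (D.ρ h * D.Ψ h⁻¹) := by rw [mul_assoc]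
    _ = _ := by rw [e2, mul_neg, mul_assoc]

/-- General form: `det ρ(g) • Ψ (g⁻¹) = - ρ(g)⁻¹ Ψ(g) ρ(g)⁻¹`. -/
theorem Ψ_inv' (g : G) : (D.ρ g).det • D.Ψ g⁻¹ = -(D.ρ g⁻¹ * D.Ψ g * D.ρ g⁻¹) := by
  have e := D.Ψ_mul g g⁻¹
  rw [mul_inv_cancel, D.Ψ_one] at e
  have e2 : (D.ρ g).det • (D.ρ g * D.Ψ g⁻¹) = -(D.Ψ g * D.ρ g⁻¹) := by
    rw [eq_neg_iff_add_eq_zero, add_comm]; exact e.symm
  calc (D.ρ g).det • D.Ψ g⁻¹ = (D.ρ g).det • ((D.ρ g⁻¹ * D.ρ g) * D.Ψ g⁻¹) := by
        rw [D.ρ_inv_mul, one_mul]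
    _ = D.ρ g⁻¹ * ((D.ρ g).det • (D.ρ g * D.Ψ g⁻¹)) := by
        rw [mul_assoc, Matrix.mul_smul]
    _ = _ := by rw [e2, mul_neg, mul_assoc]

/-- (I) the trace identity. -/
theorem f_add {σ τ : G} (hσ : σ ∈ D.H) (hτ : τ ∈ D.H) :
    (D.Ψ (σ * τ)).trace + (D.Ψ (σ * τ⁻¹)).trace =
      (D.ρ σ).trace * (D.Ψ τ).trace + (D.ρ τ).trace * (D.Ψ σ).trace := by
  have h1 := D.Ψ_mul σ τ
  have h2 := D.Ψ_mul σ τ⁻¹
  rw [D.det_H σ hσ, one_smul] at h1 h2
  rw [D.Ψ_inv hτ] at h2
  have hadd := m2_add_inv (D.det_H τ hτ) (D.ρ_mul_inv τ)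
  have hsub := m2_sub_conj (D.det_H τ hτ) (D.ρ_mul_inv τ) (D.tr_zero τ)
  have e : D.Ψ (σ * τ) + D.Ψ (σ * τ⁻¹) =
      (D.ρ τ).trace • D.Ψ σ + (D.Ψ τ).trace • D.ρ σ := by
    rw [h1, h2]
    calc _ = D.Ψ σ * (D.ρ τ + D.ρ τ⁻¹) +
          D.ρ σ * (D.Ψ τ - D.ρ τ⁻¹ * D.Ψ τ * D.ρ τ⁻¹) := by noncomm_ring
      _ = _ := by rw [hadd, hsub]; simp
  have := congrArg Matrix.trace e
  simp only [Matrix.trace_add, Matrix.trace_smul, smul_eq_mul] at this
  rw [this]; ring

/-- (II) conjugation by `G`. -/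
theorem f_conj (g : G) {σ : G} (hσ : σ ∈ D.H) :
    (D.Ψ (g * σ * g⁻¹)).trace = (D.ρ g).det * (D.Ψ σ).trace := by
  have h1 := D.Ψ_mul (g * σ) g⁻¹
  have h2 := D.Ψ_mul g σ
  have h3 := D.Ψ_inv' g
  have hdet : (D.ρ (g * σ)).det = (D.ρ g).det := by
    rw [map_mul, Matrix.det_mul, D.det_H σ hσ, mul_one]
  rw [hdet, map_mul, mul_assoc (D.ρ g) (D.ρ σ), ← Matrix.mul_smul, ← Matrix.mul_smul, h3, h2]
    at h1
  rw [h1]
  simp only [Matrix.trace_add, Matrix.add_mul, Matrix.mul_neg, Matrix.trace_neg,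
    Matrix.smul_mul, Matrix.trace_smul, smul_eq_mul]
  have t1 : (D.ρ g * D.Ψ σ * D.ρ g⁻¹).trace = (D.Ψ σ).trace := by
    rw [Matrix.trace_mul_comm, ← mul_assoc, D.ρ_inv_mul, one_mul]
  have t2 : (D.ρ g * (D.ρ σ * (D.ρ g⁻¹ * D.Ψ g * D.ρ g⁻¹))).trace =
      (D.Ψ g * D.ρ σ * D.ρ g⁻¹).trace := by
    rw [Matrix.trace_mul_comm]
    have : D.ρ σ * (D.ρ g⁻¹ * D.Ψ g * D.ρ g⁻¹) * D.ρ g = (D.ρ σ * D.ρ g⁻¹) * D.Ψ g := by
      rw [mul_assoc, mul_assoc, mul_assoc, D.ρ_inv_mul, mul_one, mul_assoc]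
    rw [this, Matrix.trace_mul_comm, mul_assoc]
  rw [t1, t2]; ring

/-- `Ψ` is right invariant under `H ∩ ker ρ`. -/
theorem Ψ_mul_N (σ : G) {ν : G} (hν : ν ∈ D.H) (h1 : D.ρ ν = 1) : D.Ψ (σ * ν) = D.Ψ σ := by
  rw [D.Ψ_mul, h1, D.Ψ_N ν hν h1, mul_one, mul_zero, smul_zero, add_zero]

theorem det_pow {σ : G} (hσ : σ ∈ D.H) (m : ℕ) : (D.ρ (σ ^ m)).det = 1 :=
  D.det_H _ (D.H.pow_mem hσ m)

/-- (III), trace form. -/
theorem trace_pow {σ : G} (hσ : σ ∈ D.H) (m : ℕ) :
    (D.Ψ (σ ^ m) * D.ρ σ⁻¹ ^ m * D.ρ σ).trace = (m : k) * (D.Ψ σ).trace := by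
  induction m with
  | zero => simp [D.Ψ_one]
  | succ m ih =>
    have hc : Commute (D.ρ σ) (D.ρ σ⁻¹) := by
      rw [Commute, SemiconjBy, D.ρ_mul_inv, D.ρ_inv_mul]
    have e := D.Ψ_mul (σ ^ m) σ
    rw [D.det_pow hσ, one_smul, ← pow_succ, map_pow] at e
    rw [e, add_mul, add_mul, Matrix.trace_add]
    have a1 : D.Ψ (σ ^ m) * D.ρ σ * D.ρ σ⁻¹ ^ (m + 1) * D.ρ σ =
        D.Ψ (σ ^ m) * D.ρ σ⁻¹ ^ m * D.ρ σ := by
      rw [pow_succ', mul_assoc (D.Ψ (σ ^ m)), ← mul_assoc (D.ρ σ) (D.ρ σ⁻¹), D.ρ_mul_inv,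
        one_mul]
    have a2 : (D.ρ σ ^ m * D.Ψ σ * D.ρ σ⁻¹ ^ (m + 1) * D.ρ σ).trace = (D.Ψ σ).trace := by
      rw [pow_succ, mul_assoc _ (D.ρ σ⁻¹ ^ m * D.ρ σ⁻¹), mul_assoc (D.ρ σ⁻¹ ^ m),
        D.ρ_inv_mul, mul_one, mul_assoc, Matrix.trace_mul_comm, mul_assoc,
        ← hc.symm.mul_pow m, D.ρ_inv_mul, one_pow, mul_one]
    rw [a1, a2, ih]; push_cast; ring

/-- (III): if `ρ(σ)^m = 1` then `m • f(σ) = 0`. -/
theorem natCast_mul_f_eq_zero {σ : G} (hσ : σ ∈ D.H) (m : ℕ) (hm : D.ρ σ ^ m = 1) :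
    (m : k) * (D.Ψ σ).trace = 0 := by
  rw [← D.trace_pow hσ m, D.Ψ_N (σ ^ m) (D.H.pow_mem hσ m) (by rw [map_pow, hm])]
  simp

end TwData

end Fermat.Agent.S56.H726

end
-- ===== PACK-END S56/H726/Coc.lean

-- ===== PACK-BEGIN S56/H794/TameFaithful.lean
section




/-!
# S56 / LOC-TAME (helper794), part 1: the tame character is faithful on prime-to-residue-char
quotients of inertia

`L/K` algebraic, `A` a valuation subring of `L`, `τ ∈ A.inertiaSubgroupIn K`.
`tameHom A hτ : Lˣ →* kˣ` is the tame character of `Fermat.Agent.A2.H708`.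

* `tameHom_pow` : `tame(τ ^ n) = tame(τ) ^ n`.
* `tameHom_ne_one_of_pow_apply_eq` : if `τ ^ m` fixes `x`, `m` is a unit of `A` (i.e. prime to the
  residue characteristic) and `τ x ≠ x`, then the tame character of `τ` is nontrivial on
  `τ x - x`.  (Proof: `y = τ x - x` has `∑_{i<m} τ^i y = 0`; if `tame τ y = 1` then every
  `τ^i y ≡ y mod y𝔪`, so `m y ∈ y𝔪`.)
* `exists_tameHom_ne_one` : for a homomorphism `f` of finite level (open kernel) on
  `Gal(L/K)`: if `f τ ≠ 1` and `f τ ^ m = 1` with `m` a unit of `A`, then the tame character of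
  `τ` is nontrivial.
-/

set_option autoImplicit false

namespace Fermat.Agent.S56.H794

open Fermat.Agent.A2.H708

section general

variable {K L : Type*} [Field K] [Field L] [Algebra K L] [Algebra.IsAlgebraic K L]
  (A : ValuationSubring L)

/-- The tame character only depends on the automorphism (proof irrelevance helper). -/
theorem tameHom_congr {σ τ : L ≃ₐ[K] L} (h : σ = τ) (hσ : σ ∈ A.inertiaSubgroupIn K)
    (hτ : τ ∈ A.inertiaSubgroupIn K) (c : Lˣ) : tameHom A hσ c = tameHom A hτ c := by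
  subst h
  rfl

/-- The tame character of the identity is trivial. -/
theorem tameHom_one (c : Lˣ) : tameHom A (one_mem (A.inertiaSubgroupIn K)) c = 1 :=
  tameHom_eq_one_of_fixed A _ c rfl

/-- The tame character of a power. -/
theorem tameHom_pow {τ : L ≃ₐ[K] L} (hτ : τ ∈ A.inertiaSubgroupIn K) (n : ℕ) (c : Lˣ) :
    tameHom A (pow_mem hτ n) c = tameHom A hτ c ^ n := by
  induction n with
  | zero =>
    exact (tameHom_congr A (pow_zero τ) (pow_mem hτ 0) (one_mem _) c).trans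
      ((tameHom_one A c).trans (pow_zero _).symm)
  | succ n ih =>
    calc tameHom A (pow_mem hτ (n + 1)) c
        = tameHom A (mul_mem (pow_mem hτ n) hτ) c :=
          tameHom_congr A (pow_succ τ n) _ _ c
      _ = tameHom A (pow_mem hτ n) c * tameHom A hτ c := tameHom_mul A _ _ c
      _ = tameHom A hτ c ^ n * tameHom A hτ c := congrArg (· * tameHom A hτ c) ih
      _ = tameHom A hτ c ^ (n + 1) := (pow_succ _ _).symm

omit [Algebra.IsAlgebraic K L] in
/-- Telescoping sum: `∑_{i<m} τ^i (τ x - x) = τ^m x - x`. -/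
theorem sum_pow_apply_sub (τ : L ≃ₐ[K] L) (x : L) (m : ℕ) :
    ∑ i ∈ Finset.range m, (τ ^ i) (τ x - x) = (τ ^ m) x - x := by
  induction m with
  | zero => simp
  | succ m ih =>
    rw [Finset.sum_range_succ, ih, map_sub]
    have h1 : (τ ^ m) (τ x) = (τ ^ (m + 1)) x := by
      rw [pow_succ]
      rfl
    rw [h1]
    ring

/-- **Faithfulness of the tame character.**  If `τ ^ m` fixes `x`, where `m` is prime to the
residue characteristic (`v m = 1`), and `τ x ≠ x`, then the tame character of `τ` is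
nontrivial on `τ x - x`. -/
theorem tameHom_ne_one_of_pow_apply_eq {τ : L ≃ₐ[K] L} (hτ : τ ∈ A.inertiaSubgroupIn K)
    {x : L} {m : ℕ} (hm : A.valuation (m : L) = 1) (hx : (τ ^ m) x = x) (hne : τ x ≠ x) :
    tameHom A hτ (Units.mk0 (τ x - x) (sub_ne_zero.mpr hne)) ≠ 1 := by
  intro h1
  have hy : τ x - x ≠ 0 := sub_ne_zero.mpr hne
  have hvy : A.valuation (τ x - x) ≠ 0 := (Valuation.ne_zero_iff _).mpr hy
  have hi : ∀ i : ℕ, A.valuation ((τ ^ i) (τ x - x) - (τ x - x)) < A.valuation (τ x - x) := by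
    intro i
    have h2 := tameHom_pow A hτ i (Units.mk0 (τ x - x) hy)
    rw [h1, one_pow] at h2
    exact (tameHom_eq_one_iff A (pow_mem hτ i) _).mp h2
  have hsum : ∑ i ∈ Finset.range m, ((τ ^ i) (τ x - x) - (τ x - x)) = - ((m : L) * (τ x - x)) := by
    rw [Finset.sum_sub_distrib, sum_pow_apply_sub, hx, sub_self, Finset.sum_const,
      Finset.card_range, nsmul_eq_mul, zero_sub]
  have hlt : A.valuation (∑ i ∈ Finset.range m, ((τ ^ i) (τ x - x) - (τ x - x))) <
      A.valuation (τ x - x) :=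
    Valuation.map_sum_lt _ hvy (fun i _ => hi i)
  rw [hsum, Valuation.map_neg, map_mul, hm, one_mul] at hlt
  exact lt_irrefl _ hlt

end general

/-- A homomorphism on `Gal(L/K)` is of *finite level* if it is trivial on the subgroup fixing
some finite subextension. -/
def FiniteLevel {K L : Type*} [Field K] [Field L] [Algebra K L] {G : Type*} [Group G]
    (f : (L ≃ₐ[K] L) →* G) : Prop :=
  ∃ E : IntermediateField K L, FiniteDimensional K E ∧ ∀ τ : L ≃ₐ[K] L, (∀ x ∈ E, τ x = x) → f τ = 1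

section finiteLevel

variable {K L : Type*} [Field K] [Field L] [Algebra K L] [IsGalois K L]
  (A : ValuationSubring L)

/-- The kernel of a homomorphism of finite level is the group fixing its fixed field. -/
theorem mem_ker_of_fixes_fixedField {G : Type*} [Group G] {f : (L ≃ₐ[K] L) →* G}
    (hf : FiniteLevel f) {τ : L ≃ₐ[K] L}
    (hτ : ∀ x ∈ IntermediateField.fixedField f.ker, τ x = x) : f τ = 1 := by
  obtain ⟨E, hE, hEf⟩ := hf
  have hle : E.fixingSubgroup ≤ f.ker := by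
    intro σ hσ
    rw [MonoidHom.mem_ker]
    apply hEf
    intro x hx
    exact (IntermediateField.mem_fixingSubgroup_iff E σ).mp hσ x hx
  have hopen : IsOpen (f.ker : Set (L ≃ₐ[K] L)) :=
    Subgroup.isOpen_mono hle E.fixingSubgroup_isOpen
  have hclosed : IsClosed (f.ker : Set (L ≃ₐ[K] L)) :=
    OpenSubgroup.isClosed ⟨f.ker, hopen⟩
  have h := InfiniteGalois.fixingSubgroup_fixedField (k := K) (K := L) ⟨f.ker, hclosed⟩
  have hmem : τ ∈ (IntermediateField.fixedField f.ker).fixingSubgroup := by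
    rw [IntermediateField.mem_fixingSubgroup_iff]
    exact hτ
  have h2 : τ ∈ f.ker := by
    have h3 : (IntermediateField.fixedField (⟨f.ker, hclosed⟩ : ClosedSubgroup (L ≃ₐ[K] L)).1).fixingSubgroup
        = f.ker := h
    rw [← h3]
    exact hmem
  exact MonoidHom.mem_ker.mp h2

/-- **Faithfulness, finite-level form.**  If `f τ ≠ 1` but `f τ ^ m = 1` with `m` prime to the
residue characteristic, then the tame character of `τ` is nontrivial on some element of the
fixed field of `ker f`. -/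
theorem exists_tameHom_ne_one {G : Type*} [Group G] {f : (L ≃ₐ[K] L) →* G}
    (hf : FiniteLevel f) {τ : L ≃ₐ[K] L} (hτ : τ ∈ A.inertiaSubgroupIn K)
    {m : ℕ} (hm : A.valuation (m : L) = 1) (hfm : f τ ^ m = 1) (hne : f τ ≠ 1) :
    ∃ c : Lˣ, (c : L) ∈ IntermediateField.fixedField f.ker ∧ tameHom A hτ c ≠ 1 := by
  by_contra hcon
  have hcon' : ∀ c : Lˣ, (c : L) ∈ IntermediateField.fixedField f.ker → tameHom A hτ c = 1 := by
    intro c hc
    by_contra h
    exact hcon ⟨c, hc, h⟩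
  apply hne
  apply mem_ker_of_fixes_fixedField hf
  intro x hx
  by_contra hx'
  have hτm : τ ^ m ∈ f.ker := by
    rw [MonoidHom.mem_ker, map_pow, hfm]
  have hxm : (τ ^ m) x = x := by
    have := (IntermediateField.mem_fixedField_iff f.ker x).mp hx
    exact this (τ ^ m) hτm
  have hτx : τ x ∈ IntermediateField.fixedField f.ker := by
    rw [IntermediateField.mem_fixedField_iff]
    intro σ hσ
    -- σ (τ x) = τ ((τ⁻¹ σ τ) x) = τ x since ker is normal
    have hconj : τ⁻¹ * σ * τ ∈ f.ker := by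
      have := f.normal_ker.conj_mem σ hσ τ⁻¹
      simpa [mul_assoc] using this
    have h1 : (τ⁻¹ * σ * τ) x = x :=
      (IntermediateField.mem_fixedField_iff f.ker x).mp hx _ hconj
    have h2 : τ ((τ⁻¹ * σ * τ) x) = σ (τ x) := by
      show (τ * (τ⁻¹ * σ * τ)) x = (σ * τ) x
      congr 1
      group
    rw [← h2, h1]
  have hmem : (τ x - x) ∈ IntermediateField.fixedField f.ker := sub_mem hτx hx
  exact tameHom_ne_one_of_pow_apply_eq A hτ hm hxm hx' (hcon' _ hmem)

end finiteLevel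

end Fermat.Agent.S56.H794

end
-- ===== PACK-END S56/H794/TameFaithful.lean

-- ===== PACK-BEGIN S14/H366/ValQ.lean
section




/-!
# S14, block LOCAL-D (helper366): valuations of rational numbers and of `ζ - 1`

`A` is a valuation subring of a field `L` of characteristic zero lying over the prime `p`.
-/

set_option autoImplicit false
set_option linter.style.haveILetI false

namespace Fermat.Agent.S14.H366

variable {L : Type*} [Field L] {A : ValuationSubring L} {p : ℕ}

theorem val_prime_lt_one (hA : A.LiesOverPrime p) : A.valuation (p : L) < 1 :=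
  (ValuationSubring.mem_nonunits_iff (A := A)).mp hA

theorem val_int_le_one (n : ℤ) : A.valuation (n : L) ≤ 1 :=
  (A.valuation_le_one_iff _).mpr (intCast_mem A n)

theorem val_nat_le_one (n : ℕ) : A.valuation (n : L) ≤ 1 :=
  (A.valuation_le_one_iff _).mpr (natCast_mem A n)

theorem val_int_eq_one (hp : p.Prime) (hA : A.LiesOverPrime p) (n : ℤ) (hn : ¬ (p : ℤ) ∣ n) :
    A.valuation (n : L) = 1 := by
  refine le_antisymm (val_int_le_one n) (not_lt.mp fun hlt => hn ?_)
  exact Fermat.Agent.S54.dvd_of_intCast_mem_nonunits A p hp hA n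
    ((ValuationSubring.mem_nonunits_iff (A := A)).mpr hlt)

theorem val_int_eq_pow (hp : p.Prime) (hA : A.LiesOverPrime p) (n : ℤ) (hn : n ≠ 0) :
    ∃ k : ℕ, A.valuation (n : L) = A.valuation (p : L) ^ k := by
  have hfin : FiniteMultiplicity (p : ℤ) n := by
    rw [Int.finiteMultiplicity_iff]
    exact ⟨by
      intro h
      have := hp.one_lt
      omega, hn⟩
  obtain ⟨c, hc, hcn⟩ := hfin.exists_eq_pow_mul_and_not_dvd
  refine ⟨multiplicity (p : ℤ) n, ?_⟩
  conv_lhs => rw [hc]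
  push_cast
  rw [map_mul, map_pow, val_int_eq_one hp hA c hcn, mul_one]

variable [CharZero L]

theorem val_prime_ne_zero (hp : p.Prime) : A.valuation (p : L) ≠ 0 :=
  (Valuation.ne_zero_iff _).mpr (Nat.cast_ne_zero.mpr hp.ne_zero)

/-- The valuation of a nonzero rational is an integral power of the valuation of `p`. -/
theorem val_rat_eq_zpow (hp : p.Prime) (hA : A.LiesOverPrime p) (q : ℚ) (hq : q ≠ 0) :
    ∃ k : ℤ, A.valuation (q : L) = A.valuation (p : L) ^ k := by
  obtain ⟨k₁, h₁⟩ := val_int_eq_pow (L := L) hp hA q.num (Rat.num_ne_zero.mpr hq)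
  obtain ⟨k₂, h₂⟩ := val_int_eq_pow (L := L) hp hA (q.den : ℤ) (by exact_mod_cast q.den_ne_zero)
  refine ⟨(k₁ : ℤ) - k₂, ?_⟩
  have hq' : (q : L) = (q.num : L) / ((q.den : ℤ) : L) := by
    conv_lhs => rw [← Rat.num_div_den q]
    push_cast
    rfl
  rw [hq', map_div₀, h₁, h₂, zpow_sub₀ (val_prime_ne_zero hp), zpow_natCast, zpow_natCast]

/-- A rational number in `A` is congruent to an integer modulo `p`. -/
theorem exists_int_sub_rat (hp : p.Prime) (hA : A.LiesOverPrime p) (q : ℚ)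
    (hq : A.valuation (q : L) ≤ 1) :
    ∃ m : ℤ, A.valuation ((q : L) - (m : L)) ≤ A.valuation (p : L) := by
  have hden : ¬ (p : ℤ) ∣ (q.den : ℤ) := by
    intro hd
    have hnum : ¬ (p : ℤ) ∣ q.num := by
      intro hn
      have h1 : (p : ℤ) ∣ Int.gcd q.num (q.den : ℤ) := Int.dvd_coe_gcd hn hd
      have h2 : Int.gcd q.num (q.den : ℤ) = 1 := by
        have := q.reduced
        simpa [Int.gcd, Nat.Coprime] using this
      rw [h2] at h1
      have := Int.le_of_dvd one_pos h1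
      have := hp.one_lt
      omega
    have h3 : A.valuation ((q.den : ℤ) : L) < 1 := by
      obtain ⟨c, hc⟩ := hd
      rw [hc]
      push_cast
      rw [map_mul]
      calc A.valuation (p : L) * A.valuation (c : L)
          ≤ A.valuation (p : L) * 1 := by
            gcongr
            exact val_int_le_one c
        _ < 1 := by
            rw [mul_one]
            exact val_prime_lt_one hA
    have h4 : (q : L) * ((q.den : ℤ) : L) = (q.num : L) := by
      have := Rat.mul_den_eq_num q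
      have h5 : ((q * (q.den : ℚ) : ℚ) : L) = ((q.num : ℚ) : L) := by rw [this]
      push_cast at h5 ⊢
      exact h5
    have h6 := congrArg A.valuation h4
    rw [map_mul, val_int_eq_one hp hA _ hnum] at h6
    have h7 : A.valuation (q : L) * A.valuation ((q.den : ℤ) : L) < 1 := by
      calc A.valuation (q : L) * A.valuation ((q.den : ℤ) : L)
          ≤ 1 * A.valuation ((q.den : ℤ) : L) := by
            gcongr
        _ < 1 := by
            rw [one_mul]
            exact h3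
    rw [h6] at h7
    exact lt_irrefl _ h7
  have hcop : IsCoprime (p : ℤ) (q.den : ℤ) :=
    (Nat.prime_iff_prime_int.mp hp).coprime_iff_not_dvd.mpr hden
  obtain ⟨u, t, hut⟩ := hcop
  refine ⟨q.num * t, ?_⟩
  have hdv : A.valuation ((q.den : ℤ) : L) = 1 := val_int_eq_one hp hA _ hden
  have hd0 : ((q.den : ℤ) : L) ≠ 0 := by
    have := q.den_ne_zero
    exact_mod_cast this
  have h4 : (q : L) * ((q.den : ℤ) : L) = (q.num : L) := by
    have := Rat.mul_den_eq_num q
    have h5 : ((q * (q.den : ℚ) : ℚ) : L) = ((q.num : ℚ) : L) := by rw [this]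
    push_cast at h5 ⊢
    exact h5
  have key : ((q : L) - ((q.num * t : ℤ) : L)) * ((q.den : ℤ) : L) =
      (q.num : L) * (u : L) * (p : L) := by
    have h8 : ((u * (p : ℤ) + t * (q.den : ℤ) : ℤ) : L) = 1 := by rw [hut]; simp
    push_cast at h8 h4 ⊢
    linear_combination h4 - (q.num : L) * h8
  have h9 := congrArg A.valuation key
  rw [map_mul, hdv, mul_one, map_mul, map_mul] at h9
  rw [h9]
  calc A.valuation (q.num : L) * A.valuation (u : L) * A.valuation (p : L)
      ≤ 1 * 1 * A.valuation (p : L) := by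
        gcongr
        · exact val_int_le_one _
        · exact val_int_le_one _
    _ = A.valuation (p : L) := by rw [one_mul, one_mul]

end Fermat.Agent.S14.H366

end
-- ===== PACK-END S14/H366/ValQ.lean

-- ===== PACK-BEGIN S56/H434/RootGalois.lean
section



/-!
# S56 / W-FLAT-SS / ROOT, part R3 (helper434): the Galois-theoretic steps

* `isClosed_decompositionSubgroup`, `mem_decompositionSubgroup_of_fixes` (G1): an automorphism
  of `ℚ̄` fixing the decomposition ring `P ∩ ℚ̄^{D_P}` pointwise lies in `D_P`.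
* `fracField B` : the fraction field of a subring `B ⊆ ℚ̄` as an intermediate field.
* `fixes_of_fixes` (G2): degree count.  `G`, `G'` monic of degree `e` with coefficients in `B`,
  `G(ϖ) = 0`, `G'(ϖ') = 0`, `1, ϖ, …, ϖ^(e-1)` linearly independent over `B`.  If every
  automorphism fixing `B` and `ϖ'` fixes `ϖ`, then every automorphism fixing `B` and `ϖ` fixes `ϖ'`.
-/

set_option autoImplicit false
set_option linter.style.haveILetI false

open scoped Pointwise
open Polynomial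

namespace Fermat.Agent.S56.H434

/-- `ℚ̄/ℚ` is algebraic (for the `Algebra ℚ ℚ̄` instance found by instance search). -/
theorem isAlgebraic_Qb434 : Algebra.IsAlgebraic ℚ (AlgebraicClosure ℚ) :=
  AlgebraicClosure.isAlgebraic ℚ

/-- `ℚ̄/ℚ` is Galois (for the `Algebra ℚ ℚ̄` instance found by instance search). -/
theorem isGalois_Qb434 : IsGalois ℚ (AlgebraicClosure ℚ) := by
  haveI : Algebra.IsAlgebraic ℚ (AlgebraicClosure ℚ) := isAlgebraic_Qb434
  haveI : IsAlgClosure ℚ (AlgebraicClosure ℚ) := ⟨inferInstance, inferInstance⟩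
  haveI : Normal ℚ (AlgebraicClosure ℚ) := IsAlgClosure.normal ℚ (AlgebraicClosure ℚ)
  exact isGalois_iff.mpr ⟨inferInstance, inferInstance⟩

attribute [local instance] isAlgebraic_Qb434 isGalois_Qb434

section G1

/-- The decomposition group is closed in the Krull topology. -/
theorem isClosed_decompositionSubgroup (P : ValuationSubring (AlgebraicClosure ℚ)) :
    IsClosed ((P.decompositionSubgroup ℚ : Subgroup (AlgebraicClosure ℚ ≃ₐ[ℚ] AlgebraicClosure ℚ)) :
      Set (AlgebraicClosure ℚ ≃ₐ[ℚ] AlgebraicClosure ℚ)) := by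
  have : ((P.decompositionSubgroup ℚ : Subgroup (AlgebraicClosure ℚ ≃ₐ[ℚ] AlgebraicClosure ℚ)) :
      Set (AlgebraicClosure ℚ ≃ₐ[ℚ] AlgebraicClosure ℚ))
      = ⋂ x ∈ (P : Set (AlgebraicClosure ℚ)),
        {σ : AlgebraicClosure ℚ ≃ₐ[ℚ] AlgebraicClosure ℚ | σ x ∈ (P : Set (AlgebraicClosure ℚ))} := by
    ext σ
    simp only [SetLike.mem_coe, Set.mem_iInter, Set.mem_ofPred_eq]
    constructor
    · intro hσ x hx
      exact Fermat.Agent.A2.IF.H9.apply_mem_of_smul_eq (MulAction.mem_stabilizer_iff.mp hσ) hx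
    · intro h
      exact MulAction.mem_stabilizer_iff.mpr (Fermat.Agent.A2.IF.H9.smul_eq_of_forall_mem P σ h)
  rw [this]
  exact isClosed_biInter fun x _ => Fermat.Agent.A2.IF.H9.isClosed_setOf_apply_mem x _

/-- **(G1)** An automorphism fixing pointwise the decomposition ring `P ∩ ℚ̄^{D_P}` lies in the
decomposition group `D_P`. -/
theorem mem_decompositionSubgroup_of_fixes (P : ValuationSubring (AlgebraicClosure ℚ))
    (σ : AlgebraicClosure ℚ ≃ₐ[ℚ] AlgebraicClosure ℚ)
    (h : ∀ x ∈ P, (∀ τ ∈ P.decompositionSubgroup ℚ, τ x = x) → σ x = x) :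
    σ ∈ P.decompositionSubgroup ℚ := by
  let Hc : ClosedSubgroup (AlgebraicClosure ℚ ≃ₐ[ℚ] AlgebraicClosure ℚ) :=
    ⟨P.decompositionSubgroup ℚ, isClosed_decompositionSubgroup P⟩
  have hH := InfiniteGalois.fixingSubgroup_fixedField Hc
  have hσ : σ ∈ (IntermediateField.fixedField
      (Hc : Subgroup (AlgebraicClosure ℚ ≃ₐ[ℚ] AlgebraicClosure ℚ))).fixingSubgroup := by
    rw [IntermediateField.mem_fixingSubgroup_iff]
    intro x hx
    have hxfix : ∀ τ ∈ P.decompositionSubgroup ℚ, τ x = x := by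
      intro τ hτ
      exact (IntermediateField.mem_fixedField_iff _ x).mp hx τ hτ
    rcases P.mem_or_inv_mem x with hxP | hxP
    · exact h x hxP hxfix
    · have h1 := h x⁻¹ hxP (fun τ hτ => by rw [map_inv₀, hxfix τ hτ])
      rw [map_inv₀] at h1
      exact inv_injective h1
  rw [hH] at hσ
  exact hσ

end G1

section G2

/-- The fraction field of a subring of `ℚ̄`, as an intermediate field. -/
def fracField (B : Subring (AlgebraicClosure ℚ)) : IntermediateField ℚ (AlgebraicClosure ℚ) where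
  carrier := {x | ∃ a ∈ B, ∃ d ∈ B, d ≠ 0 ∧ x * d = a}
  mul_mem' := by
    rintro x y ⟨a, ha, d, hd, hd0, hx⟩ ⟨a', ha', d', hd', hd'0, hy⟩
    refine ⟨a * a', B.mul_mem ha ha', d * d', B.mul_mem hd hd', mul_ne_zero hd0 hd'0, ?_⟩
    rw [← hx, ← hy]; ring
  one_mem' := ⟨1, B.one_mem, 1, B.one_mem, one_ne_zero, by ring⟩
  add_mem' := by
    rintro x y ⟨a, ha, d, hd, hd0, hx⟩ ⟨a', ha', d', hd', hd'0, hy⟩
    refine ⟨a * d' + a' * d, B.add_mem (B.mul_mem ha hd') (B.mul_mem ha' hd), d * d',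
      B.mul_mem hd hd', mul_ne_zero hd0 hd'0, ?_⟩
    rw [← hx, ← hy]; ring
  zero_mem' := ⟨0, B.zero_mem, 1, B.one_mem, one_ne_zero, by ring⟩
  algebraMap_mem' := by
    intro q
    refine ⟨(q.num : AlgebraicClosure ℚ), intCast_mem B _, (q.den : AlgebraicClosure ℚ),
      natCast_mem B _, by exact_mod_cast q.den_nz, ?_⟩
    have h1 : (algebraMap ℚ (AlgebraicClosure ℚ)) q * ((q.den : ℚ) : AlgebraicClosure ℚ)
        = ((q.num : ℚ) : AlgebraicClosure ℚ) := by
      have h2 : q * (q.den : ℚ) = (q.num : ℚ) := Rat.mul_den_eq_num q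
      have h3 := congrArg (algebraMap ℚ (AlgebraicClosure ℚ)) h2
      rw [map_mul] at h3
      simpa using h3
    simpa using h1
  inv_mem' := by
    rintro x ⟨a, ha, d, hd, hd0, hx⟩
    rcases eq_or_ne a 0 with rfl | ha0
    · have hx0 : x = 0 := by
        rcases mul_eq_zero.mp hx with h | h
        · exact h
        · exact absurd h hd0
      refine ⟨0, B.zero_mem, 1, B.one_mem, one_ne_zero, ?_⟩
      rw [hx0]; simp
    · refine ⟨d, hd, a, ha, ha0, ?_⟩
      have hx0 : x ≠ 0 := by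
        rintro rfl
        rw [zero_mul] at hx
        exact ha0 hx.symm
      rw [← hx]
      field_simp

theorem mem_fracField {B : Subring (AlgebraicClosure ℚ)} {x : AlgebraicClosure ℚ} :
    x ∈ fracField B ↔ ∃ a ∈ B, ∃ d ∈ B, d ≠ 0 ∧ x * d = a := Iff.rfl

theorem subring_le_fracField (B : Subring (AlgebraicClosure ℚ)) {b : AlgebraicClosure ℚ}
    (hb : b ∈ B) : b ∈ fracField B :=
  ⟨b, hb, 1, B.one_mem, one_ne_zero, mul_one b⟩

/-- An automorphism fixing `B` pointwise fixes its fraction field pointwise. -/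
theorem fixes_fracField (B : Subring (AlgebraicClosure ℚ))
    (σ : AlgebraicClosure ℚ ≃ₐ[ℚ] AlgebraicClosure ℚ) (hσ : ∀ b ∈ B, σ b = b)
    {x : AlgebraicClosure ℚ} (hx : x ∈ fracField B) : σ x = x := by
  obtain ⟨a, ha, d, hd, hd0, hxd⟩ := hx
  have h1 : σ x * d = x * d := by
    have := congrArg σ hxd
    rw [map_mul, hσ d hd, hσ a ha] at this
    rw [this, hxd]
  exact mul_right_cancel₀ hd0 h1

/-- Clearing the denominators of a finite family of elements of the fraction field. -/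
theorem exists_common_denominator (B : Subring (AlgebraicClosure ℚ)) (s : Finset ℕ)
    (c : ℕ → AlgebraicClosure ℚ) (hc : ∀ i ∈ s, c i ∈ fracField B) :
    ∃ D ∈ B, D ≠ 0 ∧ ∀ i ∈ s, c i * D ∈ B := by
  classical
  induction s using Finset.induction_on with
  | empty => exact ⟨1, B.one_mem, one_ne_zero, by simp⟩
  | insert j s hj ih =>
    obtain ⟨D, hD, hD0, hDs⟩ := ih fun i hi => hc i (Finset.mem_insert_of_mem hi)
    obtain ⟨a, ha, d, hd, hd0, hjd⟩ := hc j (Finset.mem_insert_self j s)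
    refine ⟨D * d, B.mul_mem hD hd, mul_ne_zero hD0 hd0, fun i hi => ?_⟩
    rcases Finset.mem_insert.mp hi with rfl | hi
    · have : c i * (D * d) = D * a := by rw [← hjd]; ring
      rw [this]
      exact B.mul_mem hD ha
    · have : c i * (D * d) = c i * D * d := by ring
      rw [this]
      exact B.mul_mem (hDs i hi) hd

/-- **(G2)** degree count. -/
theorem fixes_of_fixes (B : Subring (AlgebraicClosure ℚ)) (ϖ ϖ' : AlgebraicClosure ℚ) (e : ℕ)
    (G' : (AlgebraicClosure ℚ)[X]) (hG'm : G'.Monic) (hG'deg : G'.natDegree = e)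
    (hG'coef : ∀ i, G'.coeff i ∈ B) (hroot' : G'.eval ϖ' = 0)
    (hindep : ∀ a : Fin e → AlgebraicClosure ℚ, (∀ i, a i ∈ B) →
      ∑ i, a i * ϖ ^ (i : ℕ) = 0 → ∀ i, a i = 0)
    (h : ∀ σ : AlgebraicClosure ℚ ≃ₐ[ℚ] AlgebraicClosure ℚ,
      (∀ b ∈ B, σ b = b) → σ ϖ' = ϖ' → σ ϖ = ϖ) :
    ∀ τ : AlgebraicClosure ℚ ≃ₐ[ℚ] AlgebraicClosure ℚ,
      (∀ b ∈ B, τ b = b) → τ ϖ = ϖ → τ ϖ' = ϖ' := by
  classical
  set K : IntermediateField ℚ (AlgebraicClosure ℚ) := fracField B with hK
  haveI : IsGalois K (AlgebraicClosure ℚ) := IsGalois.tower_top_intermediateField K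
  haveI : Algebra.IsAlgebraic K (AlgebraicClosure ℚ) := inferInstance
  have hint : ∀ x : AlgebraicClosure ℚ, IsIntegral K x :=
    fun x => (Algebra.IsAlgebraic.isAlgebraic x).isIntegral
  -- Step A: the degree of `ϖ'` over `K` is at most `e`
  have hlifts : G' ∈ Polynomial.lifts (algebraMap K (AlgebraicClosure ℚ)) := by
    rw [Polynomial.lifts_iff_coeff_lifts]
    intro i
    exact ⟨⟨G'.coeff i, subring_le_fracField B (hG'coef i)⟩, rfl⟩
  obtain ⟨q, hqmap, hqdeg, hqm⟩ := Polynomial.lifts_and_natDegree_eq_and_monic hlifts hG'm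
  have hqroot : Polynomial.aeval ϖ' q = 0 := by
    rw [Polynomial.aeval_def, ← Polynomial.eval_map, hqmap, hroot']
  have hA : (minpoly K ϖ').natDegree ≤ e := by
    rw [← hG'deg, ← hqdeg]
    exact Polynomial.natDegree_le_of_dvd (minpoly.dvd K ϖ' hqroot) hqm.ne_zero
  -- Step B: the degree of `ϖ` over `K` is at least `e`
  have hB : e ≤ (minpoly K ϖ).natDegree := by
    by_contra hcon
    rw [not_le] at hcon
    set m := (minpoly K ϖ).natDegree with hm
    have hmonic : (minpoly K ϖ).Monic := minpoly.monic (hint ϖ)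
    let c : ℕ → AlgebraicClosure ℚ := fun i => ((minpoly K ϖ).coeff i : AlgebraicClosure ℚ)
    obtain ⟨D, hD, hD0, hDc⟩ := exists_common_denominator B (Finset.range (m + 1)) c
      (fun i _ => ((minpoly K ϖ).coeff i).2)
    have hsum : ∑ i ∈ Finset.range (m + 1), c i * ϖ ^ i = 0 := by
      have h1 := minpoly.aeval K ϖ
      rw [Polynomial.aeval_eq_sum_range] at h1
      rw [← h1]
      refine Finset.sum_congr rfl fun i _ => ?_
      rw [Algebra.smul_def]
      rfl
    have key := hindep (fun i : Fin e => if (i : ℕ) ≤ m then c i * D else 0)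
      (fun i => by
        by_cases hi : (i : ℕ) ≤ m
        · simp only [hi, if_true]
          exact hDc i (Finset.mem_range.mpr (Nat.lt_succ_of_le hi))
        · simp only [hi, if_false]
          exact B.zero_mem)
      (by
        have h2 : ∑ i : Fin e, (if (i : ℕ) ≤ m then c i * D else 0) * ϖ ^ (i : ℕ)
            = ∑ i ∈ Finset.range e, (if i ≤ m then c i * D else 0) * ϖ ^ i :=
          (Finset.sum_range (fun i => (if i ≤ m then c i * D else 0) * ϖ ^ i)).symm
        rw [h2]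
        have h3 : ∑ i ∈ Finset.range e, (if i ≤ m then c i * D else 0) * ϖ ^ i
            = ∑ i ∈ Finset.range (m + 1), c i * D * ϖ ^ i := by
          have hsub : Finset.range (m + 1) ⊆ Finset.range e :=
            Finset.range_subset_range.mpr hcon
          rw [← Finset.sum_subset hsub (f := fun i => (if i ≤ m then c i * D else 0) * ϖ ^ i)]
          · refine Finset.sum_congr rfl fun i hi => ?_
            have : i ≤ m := Nat.lt_succ_iff.mp (Finset.mem_range.mp hi)
            simp only [this, if_true]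
          · intro i _ hi
            have : ¬ i ≤ m := fun h => hi (Finset.mem_range.mpr (Nat.lt_succ_of_le h))
            simp only [this, if_false, zero_mul]
        rw [h3]
        have h4 : ∑ i ∈ Finset.range (m + 1), c i * D * ϖ ^ i
            = D * ∑ i ∈ Finset.range (m + 1), c i * ϖ ^ i := by
          rw [Finset.mul_sum]
          refine Finset.sum_congr rfl fun i _ => ?_
          ring
        rw [h4, hsum, mul_zero])
      ⟨m, hcon⟩
    simp only [le_refl, if_true] at key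
    have hcm : c m = 1 := by
      show (((minpoly K ϖ).coeff m : K) : AlgebraicClosure ℚ) = 1
      rw [hm, Polynomial.coeff_natDegree, hmonic.leadingCoeff]
      rfl
    rw [hcm, one_mul] at key
    exact hD0 key
  -- Step C: `ϖ ∈ K(ϖ')`
  have hC : ϖ ∈ IntermediateField.adjoin K {ϖ'} := by
    have hfix := InfiniteGalois.fixedField_fixingSubgroup (IntermediateField.adjoin K {ϖ'})
    rw [← hfix, IntermediateField.mem_fixedField_iff]
    intro σ hσ
    have hσ' := (IntermediateField.mem_fixingSubgroup_iff _ σ).mp hσ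
    have h1 : ∀ b ∈ B, (σ.restrictScalars ℚ) b = b := by
      intro b hb
      exact σ.commutes ⟨b, subring_le_fracField B hb⟩
    have h2 : (σ.restrictScalars ℚ) ϖ' = ϖ' :=
      hσ' ϖ' (IntermediateField.subset_adjoin K _ (Set.mem_singleton _))
    exact h (σ.restrictScalars ℚ) h1 h2
  -- Step D: `K(ϖ) = K(ϖ')`
  have hle : IntermediateField.adjoin K {ϖ} ≤ IntermediateField.adjoin K {ϖ'} := by
    rw [IntermediateField.adjoin_le_iff]
    rintro x hx
    rw [Set.mem_singleton_iff] at hx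
    rw [hx]
    exact hC
  haveI : FiniteDimensional K (IntermediateField.adjoin K {ϖ'}) :=
    IntermediateField.adjoin.finiteDimensional (hint ϖ')
  have hfr : Module.finrank K (IntermediateField.adjoin K {ϖ'})
      ≤ Module.finrank K (IntermediateField.adjoin K {ϖ}) := by
    rw [IntermediateField.adjoin.finrank (hint ϖ'), IntermediateField.adjoin.finrank (hint ϖ)]
    exact hA.trans hB
  have heq : IntermediateField.adjoin K {ϖ} = IntermediateField.adjoin K {ϖ'} :=
    IntermediateField.eq_of_le_of_finrank_le hle hfr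
  have hϖ' : ϖ' ∈ IntermediateField.adjoin K {ϖ} := by
    rw [heq]
    exact IntermediateField.subset_adjoin K _ (Set.mem_singleton _)
  -- Step E
  intro τ hτB hτϖ
  let τ' : AlgebraicClosure ℚ ≃ₐ[K] AlgebraicClosure ℚ :=
    { τ.toRingEquiv with
      commutes' := fun x => fixes_fracField B τ hτB x.2 }
  have hτ'app : ∀ x, τ' x = τ x := fun x => rfl
  have hmem : ϖ ∈ IntermediateField.fixedField (Subgroup.zpowers τ') := by
    rw [IntermediateField.mem_fixedField_iff]
    intro g hg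
    obtain ⟨n, rfl⟩ := Subgroup.mem_zpowers_iff.mp hg
    have hfix1 : τ' ϖ = ϖ := hτϖ
    have : ∀ n : ℕ, (τ' ^ n) ϖ = ϖ := by
      intro n
      induction n with
      | zero => rfl
      | succ n ih => rw [pow_succ, AlgEquiv.mul_apply, hfix1, ih]
    have hinv : ∀ n : ℕ, ((τ' ^ n)⁻¹) ϖ = ϖ := by
      intro n
      have h1 := this n
      have h2 : ((τ' ^ n)⁻¹) ((τ' ^ n) ϖ) = ϖ := by
        rw [← AlgEquiv.mul_apply, inv_mul_cancel]
        rfl
      rw [h1] at h2
      exact h2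
    cases n with
    | ofNat n => simpa using this n
    | negSucc n => simpa [zpow_negSucc] using hinv (n + 1)
  have hle2 : IntermediateField.adjoin K {ϖ} ≤ IntermediateField.fixedField (Subgroup.zpowers τ') := by
    rw [IntermediateField.adjoin_le_iff]
    rintro x hx
    rw [Set.mem_singleton_iff] at hx
    rw [hx]
    exact hmem
  have h3 := hle2 hϖ'
  rw [IntermediateField.mem_fixedField_iff] at h3
  exact h3 τ' (Subgroup.mem_zpowers τ')

end G2

end Fermat.Agent.S56.H434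

end
-- ===== PACK-END S56/H434/RootGalois.lean

-- ===== PACK-BEGIN S56/H434/ConvNorm.lean
section



/-!
# S56 / W2-SS, piece A (helper434): the sup-norm on the convolution ring `Hom_R(M, Ω)`

`M` is a finite free cocommutative `R`-coalgebra with a basis `b`, `Ω` a field with a valuation
`v` such that the image of `R` is integral.  `convNorm v b hR` is the sup-norm with respect to the
basis, an ultrametric submultiplicative norm (`UNorm`) on `WithConv (M →ₗ[R] Ω)`.
-/

set_option autoImplicit false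

open WithConv

namespace Fermat.Agent.S56.H434

section SupNorm

variable {R : Type*} [CommRing R] {Ω : Type*} [Field Ω] [Algebra R Ω]
  {Γ : Type*} [LinearOrderedCommGroupWithZero Γ] (v : Valuation Ω Γ)
  {M : Type*} [AddCommGroup M] [Module R M] {ι : Type*} [Fintype ι] (b : Module.Basis ι R M)

/-- The sup-norm of a linear functional with respect to a basis. -/
noncomputable def supN (f : M →ₗ[R] Ω) : Γ := Finset.univ.sup fun i => v (f (b i))

theorem supN_le_iff {f : M →ₗ[R] Ω} {γ : Γ} : supN v b f ≤ γ ↔ ∀ i, v (f (b i)) ≤ γ := by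
  simp [supN, Finset.sup_le_iff]

theorem le_supN (f : M →ₗ[R] Ω) (i : ι) : v (f (b i)) ≤ supN v b f :=
  Finset.le_sup (f := fun i => v (f (b i))) (Finset.mem_univ i)

theorem apply_le_of_forall (hR : ∀ r : R, v (algebraMap R Ω r) ≤ 1) (f : M →ₗ[R] Ω) {γ : Γ}
    (hf : ∀ i, v (f (b i)) ≤ γ) (h : M) : v (f h) ≤ γ := by
  conv_lhs => rw [← b.sum_repr h]
  rw [map_sum]
  refine v.map_sum_le fun i _ => ?_
  rw [map_smul, Algebra.smul_def, map_mul]
  calc v (algebraMap R Ω (b.repr h i)) * v (f (b i)) ≤ 1 * γ := mul_le_mul' (hR _) (hf i)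
    _ = γ := one_mul _

theorem apply_le_supN (hR : ∀ r : R, v (algebraMap R Ω r) ≤ 1) (f : M →ₗ[R] Ω) (h : M) :
    v (f h) ≤ supN v b f :=
  apply_le_of_forall v b hR f (le_supN v b f) h

variable [Coalgebra R M] [Coalgebra.IsCocomm R M]

/-- The sup-norm on the convolution ring. -/
noncomputable def convNorm (hR : ∀ r : R, v (algebraMap R Ω r) ≤ 1) :
    UNorm (WithConv (M →ₗ[R] Ω)) Γ where
  N f := supN v b f.ofConv
  zero := by simp [supN]
  eq_zero f hf := by
    apply WithConv.ext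
    apply b.ext
    intro i
    have h1 := le_supN v b f.ofConv i
    rw [hf] at h1
    have h2 : v (f.ofConv (b i)) = 0 := le_antisymm h1 zero_le
    simpa using h2
  add_le f g := by
    rw [supN_le_iff]
    intro i
    simp only [ofConv_add, LinearMap.add_apply]
    exact (v.map_add _ _).trans (max_le_max (le_supN v b _ i) (le_supN v b _ i))
  neg f := by simp [supN, Valuation.map_neg]
  mul_le f g := by
    rw [supN_le_iff]
    intro i
    have := (Coalgebra.Repr.arbitrary R (b i)).convMul_apply f g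
    rw [show (f * g).ofConv (b i) = (f * g) (b i) from rfl, this]
    refine v.map_sum_le fun α _ => ?_
    rw [map_mul]
    exact mul_le_mul' (apply_le_supN v b hR _ _) (apply_le_supN v b hR _ _)
  one_le := by
    rw [supN_le_iff]
    intro i
    exact hR _

variable (hR : ∀ r : R, v (algebraMap R Ω r) ≤ 1)

theorem convNorm_N (f : WithConv (M →ₗ[R] Ω)) : (convNorm v b hR).N f = supN v b f.ofConv := rfl

theorem convNorm_le_iff {f : WithConv (M →ₗ[R] Ω)} {γ : Γ} :
    (convNorm v b hR).N f ≤ γ ↔ ∀ i, v (f.ofConv (b i)) ≤ γ :=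
  supN_le_iff v b

theorem apply_le_convNorm (f : WithConv (M →ₗ[R] Ω)) (h : M) :
    v (f.ofConv h) ≤ (convNorm v b hR).N f :=
  apply_le_supN v b hR _ h

omit [Fintype ι] [Coalgebra.IsCocomm R M] in
theorem natCast_mul_apply (n : ℕ) (a : WithConv (M →ₗ[R] Ω)) (h : M) :
    ((n : WithConv (M →ₗ[R] Ω)) * a).ofConv h = (n : Ω) * a.ofConv h := by
  rw [← nsmul_eq_mul]
  have : (n • a).ofConv = n • a.ofConv := map_nsmul (WithConv.addEquiv _) n a
  rw [this, LinearMap.smul_apply, nsmul_eq_mul]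

theorem convNorm_natCast_mul (n : ℕ) (a : WithConv (M →ₗ[R] Ω)) :
    (convNorm v b hR).N ((n : WithConv (M →ₗ[R] Ω)) * a) = v (n : Ω) * (convNorm v b hR).N a := by
  refine le_antisymm ?_ ?_
  · rw [convNorm_le_iff]
    intro i
    rw [natCast_mul_apply, map_mul]
    exact mul_le_mul' le_rfl (apply_le_convNorm v b hR a (b i))
  · rcases eq_or_ne (v (n : Ω)) 0 with h0 | h0
    · rw [h0, zero_mul]; exact zero_le
    · have hpos : 0 < v (n : Ω) := lt_of_le_of_ne zero_le (Ne.symm h0)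
      have : (convNorm v b hR).N a
          ≤ (v (n : Ω))⁻¹ * (convNorm v b hR).N ((n : WithConv (M →ₗ[R] Ω)) * a) := by
        rw [convNorm_le_iff]
        intro i
        have h1 := apply_le_convNorm v b hR ((n : WithConv (M →ₗ[R] Ω)) * a) (b i)
        rw [natCast_mul_apply, map_mul] at h1
        calc v (a.ofConv (b i)) = (v (n : Ω))⁻¹ * (v (n : Ω) * v (a.ofConv (b i))) := by
              rw [← mul_assoc, inv_mul_cancel₀ h0, one_mul]
          _ ≤ _ := mul_le_mul' le_rfl h1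
      calc v (n : Ω) * (convNorm v b hR).N a
          ≤ v (n : Ω) * ((v (n : Ω))⁻¹ *
              (convNorm v b hR).N ((n : WithConv (M →ₗ[R] Ω)) * a)) := mul_le_mul' le_rfl this
        _ = _ := by rw [← mul_assoc, mul_inv_cancel₀ h0, one_mul]

theorem convNorm_pdata {p : ℕ} (hp : p.Prime) : (convNorm v b hR).PData p (v (p : Ω)) where
  prime := hp
  π_le := by
    have := hR (p : R)
    simpa using this
  N_p_mul a := convNorm_natCast_mul v b hR p a

omit [Fintype ι] in
theorem exists_natCast_mul_eq {p : ℕ} (hp0 : (p : Ω) ≠ 0) (a : WithConv (M →ₗ[R] Ω)) :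
    ∃ z : WithConv (M →ₗ[R] Ω), (p : WithConv (M →ₗ[R] Ω)) * z = a := by
  refine ⟨toConv ((p : Ω)⁻¹ • a.ofConv), ?_⟩
  apply WithConv.ext
  apply LinearMap.ext
  intro h
  rw [natCast_mul_apply]
  simp only [LinearMap.smul_apply, smul_eq_mul]
  rw [← mul_assoc, mul_inv_cancel₀ hp0, one_mul]

end SupNorm

end Fermat.Agent.S56.H434

end
-- ===== PACK-END S56/H434/ConvNorm.lean

-- ===== PACK-BEGIN S56/H334/RamTheta.lean
section


/-!
# S56 / W-FLAT-SS, piece FL-RAM (helper334), part 2: the maps `θ₀`, `θ_n`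

Setting as in `RamBasic`: a DVR `B`, a group `Γ` acting by ring automorphisms, `π` a uniformizer.

* `InertiaResidue Γ B` (hypothesis (H)): every residue class of `B` contains an element fixed by
  the inertia group `Γ₀`.  `inertiaResidue_of_finite`: (H) holds if `Γ` and the residue field are
  finite.
* `mem_ramGroup_iff_dvd_smul_sub` (Serre LF IV §2 Prop. 5): under (H), for `σ ∈ Γ₀`:
  `σ ∈ Γ_n ↔ π^(n+1) ∣ σ π - π`.
* `cOf hπ σ` : the unit `σ π / π` (a crossed homomorphism `Γ → Bˣ`: `cOf_mul`).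
* `theta0 hπ : Γ₀ →* κˣ`, `σ ↦ σ π / π mod 𝔪`, with kernel `Γ₁` (`theta0_eq_one_iff`).
* `theta hπ n : Γ_{n+1} →* Multiplicative κ`, `σ ↦ (σ π / π - 1) / π^(n+1) mod 𝔪`, with kernel
  `Γ_{n+2}` (`theta_eq_zero_iff`).
* equivariance: `theta0_conj`, `theta_conj`:
  `θ_n (g σ g⁻¹) = (g π / π)^n · g • θ_n σ` (`g • ` = induced action on the residue field);
  for `g ∈ Γ₀`: `θ_n (g σ g⁻¹) = θ₀(g)^n · θ_n σ`.
* `isPGroup_ramGroup_one` : `Γ₁` is a `p`-group (`p` = residue characteristic; `Γ` finite, faithful).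
* `pow_card_mem` ... : `Γ₀/Γ₁` is cyclic of order prime to `p`.
-/

set_option autoImplicit false
set_option linter.unusedSectionVars false
set_option linter.style.haveILetI false

open IsLocalRing

namespace Fermat.Agent.S56.H334

variable {B : Type*} [CommRing B] [IsDomain B] [IsDiscreteValuationRing B]
variable {Γ : Type*} [Group Γ] [MulSemiringAction Γ B]

/-! ### Hypothesis (H) -/

/-- Hypothesis (H): every residue class contains an element fixed by the inertia group. -/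
def InertiaResidue (Γ : Type*) (B : Type*) [CommRing B] [IsDomain B] [IsDiscreteValuationRing B]
    [Group Γ] [MulSemiringAction Γ B] : Prop :=
  ∀ b : B, ∃ a : B, (∀ σ ∈ ramGroup Γ B 0, σ • a = a) ∧ b - a ∈ maximalIdeal B

theorem isInvariant_fixedPoints (H : Type*) [Group H] [MulSemiringAction H B] :
    Algebra.IsInvariant (FixedPoints.subring B H) B H :=
  ⟨fun b hb => ⟨⟨b, hb⟩, rfl⟩⟩

attribute [local instance] Ideal.Quotient.field in
/-- (H) holds when `Γ` and the residue field are finite. -/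
theorem inertiaResidue_of_finite [Finite Γ] [Finite (ResidueField B)] : InertiaResidue Γ B := by
  classical
  intro b
  let H := ramGroup Γ B 0
  let B₀ := FixedPoints.subring B H
  let Q : Ideal B := maximalIdeal B
  let P : Ideal B₀ := Q.under B₀
  haveI : Algebra.IsInvariant B₀ B H := isInvariant_fixedPoints H
  haveI : Q.LiesOver P := ⟨rfl⟩
  haveI hQ : Q.IsMaximal := maximalIdeal.isMaximal B
  haveI : Algebra.IsIntegral B₀ B := Algebra.IsInvariant.isIntegral B₀ B H
  haveI hP : P.IsMaximal := Ideal.isMaximal_comap_of_isIntegral_of_isMaximal Q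
  haveI : Finite (B ⧸ Q) := inferInstanceAs (Finite (ResidueField B))
  have hinj : Function.Injective (algebraMap (B₀ ⧸ P) (B ⧸ Q)) :=
    (algebraMap (B₀ ⧸ P) (B ⧸ Q)).injective
  haveI : Finite (B₀ ⧸ P) := Finite.of_injective _ hinj
  haveI : Normal (B₀ ⧸ P) (B ⧸ Q) := Ideal.Quotient.normal H P Q
  haveI : IsGalois (B₀ ⧸ P) (B ⧸ Q) := { }
  have hsurj := Ideal.Quotient.stabilizerHom_surjective H P Q
  have hfix : ∀ f : (B ⧸ Q) ≃ₐ[B₀ ⧸ P] (B ⧸ Q),
      f (Ideal.Quotient.mk Q b) = Ideal.Quotient.mk Q b := by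
    intro f
    obtain ⟨σ, rfl⟩ := hsurj f
    rw [Ideal.Quotient.stabilizerHom_apply, Ideal.Quotient.eq]
    have h := (σ : H).2 b
    rw [zero_add, pow_one] at h
    exact h
  have hbot : Ideal.Quotient.mk Q b ∈ (⊥ : IntermediateField (B₀ ⧸ P) (B ⧸ Q)) :=
    (IsGalois.mem_bot_iff_fixed _).2 hfix
  obtain ⟨a', ha'⟩ := IntermediateField.mem_bot.1 hbot
  obtain ⟨a, rfl⟩ := Ideal.Quotient.mk_surjective a'
  refine ⟨(a : B), fun σ hσ => a.2 ⟨σ, hσ⟩, ?_⟩
  have h2 : Ideal.Quotient.mk Q (a : B) = Ideal.Quotient.mk Q b := ha'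
  exact (Ideal.Quotient.eq.1 h2.symm)

/-! ### The key lemma -/

/-- **Serre, Local Fields IV §2 Prop. 5.**  Under (H), for `σ` in the inertia group:
`σ ∈ Γ_n ↔ π^(n+1) ∣ σ π - π`. -/
theorem mem_ramGroup_iff_dvd_smul_sub (hH : InertiaResidue Γ B) {π : B} (hπ : Irreducible π)
    {σ : Γ} (hσ : σ ∈ ramGroup Γ B 0) (n : ℕ) :
    σ ∈ ramGroup Γ B n ↔ π ^ (n + 1) ∣ σ • π - π := by
  constructor
  · intro h
    exact (mem_ramGroup_iff_dvd hπ).1 h π
  · intro h
    rw [mem_ramGroup_iff_dvd hπ]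
    have key : ∀ m, m ≤ n + 1 → ∀ x : B, π ^ m ∣ σ • x - x := by
      intro m
      induction m with
      | zero =>
        intro _ x
        rw [pow_zero]
        exact one_dvd _
      | succ m ih =>
        intro hm x
        obtain ⟨a, ha, hxa⟩ := hH x
        rw [hπ.maximalIdeal_eq, Ideal.mem_span_singleton] at hxa
        obtain ⟨y, hy⟩ := hxa
        have hx : x = a + π * y := by rw [← hy]; ring
        have h1 : σ • x - x = (σ • π - π) * σ • y + π * (σ • y - y) := by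
          rw [hx, smul_add, smul_mul', ha σ hσ]; ring
        rw [h1]
        apply dvd_add
        · exact ((pow_dvd_pow π hm).trans h).mul_right _
        · rw [pow_succ']
          exact mul_dvd_mul_left π (ih (by omega) y)
    exact key (n + 1) le_rfl

/-! ### The crossed homomorphism `σ ↦ σ π / π` -/

section cOf

variable {π : B} (hπ : Irreducible π)

/-- The unit `σ π / π`. -/
noncomputable def cOf (σ : Γ) : B :=
  Classical.choose (associated_smul σ hπ).symm.dvd

theorem smul_eq_mul_cOf (σ : Γ) : σ • π = π * cOf hπ σ :=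
  Classical.choose_spec (associated_smul σ hπ).symm.dvd

theorem isUnit_cOf (σ : Γ) : IsUnit (cOf hπ σ) := by
  have h := irreducible_smul σ hπ
  rw [smul_eq_mul_cOf hπ σ] at h
  exact (h.isUnit_or_isUnit rfl).resolve_left hπ.not_isUnit

theorem cOf_mul (σ τ : Γ) : cOf hπ (σ * τ) = cOf hπ σ * σ • cOf hπ τ := by
  have h1 : (σ * τ) • π = π * (cOf hπ σ * σ • cOf hπ τ) := by
    rw [mul_smul, smul_eq_mul_cOf hπ τ, smul_mul', smul_eq_mul_cOf hπ σ, mul_assoc]
  rw [smul_eq_mul_cOf hπ (σ * τ)] at h1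
  exact mul_left_cancel₀ hπ.ne_zero h1

theorem cOf_one : cOf hπ (1 : Γ) = 1 := by
  have h1 := smul_eq_mul_cOf hπ (1 : Γ)
  rw [one_smul] at h1
  have h2 : π * 1 = π * cOf hπ (1 : Γ) := by rw [mul_one]; exact h1
  exact (mul_left_cancel₀ hπ.ne_zero h2).symm

theorem smul_sub_eq (σ : Γ) : σ • π - π = π * (cOf hπ σ - 1) := by
  rw [smul_eq_mul_cOf hπ σ]; ring

theorem pow_dvd_cOf_sub_one_iff (σ : Γ) (n : ℕ) :
    π ^ n ∣ cOf hπ σ - 1 ↔ π ^ (n + 1) ∣ σ • π - π := by
  rw [smul_sub_eq hπ σ, pow_succ']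
  exact (mul_dvd_mul_iff_left hπ.ne_zero).symm

theorem residue_smul_eq_of_mem {σ : Γ} (hσ : σ ∈ ramGroup Γ B 0) (x : B) :
    residue B (σ • x) = residue B x := by
  have h := hσ x
  rw [zero_add, pow_one] at h
  rw [← sub_eq_zero, ← map_sub]
  exact (residue_eq_zero_iff _).2 h

include hπ in
theorem residue_eq_zero_iff_dvd (x : B) : residue B x = 0 ↔ π ∣ x := by
  rw [residue_eq_zero_iff, hπ.maximalIdeal_eq, Ideal.mem_span_singleton]

include hπ in
theorem residue_pi : residue B π = 0 :=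
  (residue_eq_zero_iff_dvd hπ π).2 dvd_rfl

/-- Comparison of `σ π' / π'` with `σ π / π` for another uniformizer: congruent modulo
`𝔪^(n+1)` when `σ ∈ Γ_n`. -/
theorem cOf_conj_sub_dvd (g : Γ) {σ : Γ} {n : ℕ} (hσ : σ ∈ ramGroup Γ B n) :
    π ^ (n + 1) ∣ cOf hπ (g * σ * g⁻¹) - g • cOf hπ σ := by
  -- `c_{gσg⁻¹} = c_g · g(c_σ) · gσ(c_{g⁻¹})` and `c_g · g(c_{g⁻¹}) = 1`
  have h1 : cOf hπ (g * σ * g⁻¹) = cOf hπ g * g • cOf hπ σ * (g * σ) • cOf hπ g⁻¹ := by
    rw [cOf_mul, cOf_mul]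
  have h2 : cOf hπ g * g • cOf hπ g⁻¹ = 1 := by
    rw [← cOf_mul, mul_inv_cancel, cOf_one]
  have h3 : π ^ (n + 1) ∣ σ • cOf hπ g⁻¹ - cOf hπ g⁻¹ := (mem_ramGroup_iff_dvd hπ).1 hσ _
  have h4 : π ^ (n + 1) ∣ g • (σ • cOf hπ g⁻¹ - cOf hπ g⁻¹) :=
    (pow_dvd_smul_iff g hπ (n + 1) _).2 h3
  have h5 : cOf hπ (g * σ * g⁻¹) - g • cOf hπ σ =
      cOf hπ g * g • cOf hπ σ * (g • (σ • cOf hπ g⁻¹ - cOf hπ g⁻¹)) := by
    rw [h1, smul_sub, mul_smul]
    have : cOf hπ g * g • cOf hπ σ * (g • σ • cOf hπ g⁻¹ - g • cOf hπ g⁻¹) =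
        cOf hπ g * g • cOf hπ σ * g • σ • cOf hπ g⁻¹ -
          (cOf hπ g * g • cOf hπ g⁻¹) * g • cOf hπ σ := by ring
    rw [this, h2, one_mul]
  rw [h5]
  exact Dvd.dvd.mul_left h4 _

end cOf

/-! ### `θ₀` -/

section theta0

variable {π : B} (hπ : Irreducible π)

/-- `θ₀ : Γ₀ → κ`, `σ ↦ σ π / π mod 𝔪` (as a monoid homomorphism into `κ`). -/
noncomputable def theta0Hom : ramGroup Γ B 0 →* ResidueField B where
  toFun σ := residue B (cOf hπ (σ : Γ))
  map_one' := by
    show residue B (cOf hπ ((1 : ramGroup Γ B 0) : Γ)) = 1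
    rw [Subgroup.coe_one, cOf_one, map_one]
  map_mul' σ τ := by
    show residue B (cOf hπ ((σ * τ : ramGroup Γ B 0) : Γ)) =
      residue B (cOf hπ (σ : Γ)) * residue B (cOf hπ (τ : Γ))
    rw [Subgroup.coe_mul, cOf_mul, map_mul, residue_smul_eq_of_mem σ.2]

/-- `θ₀ : Γ₀ →* κˣ`. -/
noncomputable def theta0 : ramGroup Γ B 0 →* (ResidueField B)ˣ :=
  (theta0Hom hπ).toHomUnits

theorem theta0_apply (σ : ramGroup Γ B 0) :
    ((theta0 hπ σ : (ResidueField B)ˣ) : ResidueField B) = residue B (cOf hπ (σ : Γ)) :=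
  rfl

/-- The kernel of `θ₀` is `Γ₁`. -/
theorem theta0_eq_one_iff (hH : InertiaResidue Γ B) (σ : ramGroup Γ B 0) :
    theta0 hπ σ = 1 ↔ (σ : Γ) ∈ ramGroup Γ B 1 := by
  rw [mem_ramGroup_iff_dvd_smul_sub hH hπ σ.2 1, ← pow_dvd_cOf_sub_one_iff hπ, pow_one,
    ← residue_eq_zero_iff_dvd hπ, map_sub, map_one, sub_eq_zero, ← theta0_apply hπ σ]
  constructor
  · intro h
    rw [h, Units.val_one]
  · intro h
    exact Units.ext h

/-- Equivariance of `θ₀`: `θ₀(g σ g⁻¹) = g • θ₀(σ)`. -/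
theorem theta0_conj (g : Γ) (σ : ramGroup Γ B 0) :
    residue B (cOf hπ (g * (σ : Γ) * g⁻¹)) = g • residue B (cOf hπ (σ : Γ)) := by
  have h := cOf_conj_sub_dvd hπ g σ.2
  rw [zero_add, pow_one, ← residue_eq_zero_iff_dvd hπ, map_sub, sub_eq_zero] at h
  rw [h, IsLocalRing.ResidueField.residue_smul]

end theta0

/-! ### `θ_n`, `n ≥ 1` -/

section theta

variable {π : B} (hπ : Irreducible π)

/-- `(σ π / π - 1) / π^(n+1)` (and `0` if `σ π / π - 1` is not divisible by `π^(n+1)`). -/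
noncomputable def aOf (n : ℕ) (σ : Γ) : B :=
  open Classical in
  if h : π ^ (n + 1) ∣ cOf hπ σ - 1 then Classical.choose h else 0

theorem cOf_eq_of_mem {n : ℕ} {σ : Γ} (hσ : σ ∈ ramGroup Γ B (n + 1)) :
    cOf hπ σ = 1 + π ^ (n + 1) * aOf hπ n σ := by
  have h : π ^ (n + 1) ∣ cOf hπ σ - 1 :=
    (pow_dvd_cOf_sub_one_iff hπ σ (n + 1)).2 ((mem_ramGroup_iff_dvd hπ).1 hσ π)
  rw [aOf, dif_pos h, ← Classical.choose_spec h]
  ring

/-- Characterisation of the residue of `aOf`. -/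
theorem residue_aOf_eq {n : ℕ} {σ : Γ} (hσ : σ ∈ ramGroup Γ B (n + 1)) {a : B}
    (ha : π ^ (n + 2) ∣ cOf hπ σ - 1 - π ^ (n + 1) * a) :
    residue B (aOf hπ n σ) = residue B a := by
  rw [cOf_eq_of_mem hπ hσ] at ha
  have h1 : 1 + π ^ (n + 1) * aOf hπ n σ - 1 - π ^ (n + 1) * a =
      π ^ (n + 1) * (aOf hπ n σ - a) := by ring
  rw [h1, pow_succ π (n + 1)] at ha
  have h2 : π ∣ aOf hπ n σ - a := (mul_dvd_mul_iff_left (pow_ne_zero _ hπ.ne_zero)).1 ha
  rw [← sub_eq_zero, ← map_sub]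
  exact (residue_eq_zero_iff_dvd hπ _).2 h2

theorem residue_aOf_mul {n : ℕ} (σ τ : ramGroup Γ B (n + 1)) :
    residue B (aOf hπ n ((σ * τ : ramGroup Γ B (n + 1)) : Γ)) =
      residue B (aOf hπ n (σ : Γ)) + residue B (aOf hπ n (τ : Γ)) := by
  rw [← map_add]
  apply residue_aOf_eq hπ (σ * τ).2
  rw [Subgroup.coe_mul, cOf_mul, cOf_eq_of_mem hπ σ.2, cOf_eq_of_mem hπ τ.2]
  set a := aOf hπ n (σ : Γ) with ha
  set b := aOf hπ n (τ : Γ) with hb
  have hσa : π ^ (n + 2) ∣ (σ : Γ) • b - b := (mem_ramGroup_iff_dvd hπ).1 σ.2 _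
  obtain ⟨d, hd⟩ := hσa
  have hd' : (σ : Γ) • b = b + π ^ (n + 2) * d := by rw [← hd]; ring
  have hσπ : (σ : Γ) • π = π * (1 + π ^ (n + 1) * a) := by
    rw [ha, ← cOf_eq_of_mem hπ σ.2]
    exact smul_eq_mul_cOf hπ _
  obtain ⟨s, hs⟩ : ∃ s : B, (1 + π ^ (n + 1) * a) ^ (n + 1) = 1 + π ^ (n + 1) * a * s := by
    obtain ⟨s, hs⟩ := sub_dvd_pow_sub_pow (1 + π ^ (n + 1) * a) 1 (n + 1)
    refine ⟨s, ?_⟩
    rw [one_pow] at hs
    have : (1 + π ^ (n + 1) * a) ^ (n + 1) = 1 + (1 + π ^ (n + 1) * a - 1) * s := by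
      rw [← hs]; ring
    rw [this]; ring
  have e1 : (σ : Γ) • (1 + π ^ (n + 1) * b) =
      1 + π ^ (n + 1) * (1 + π ^ (n + 1) * a * s) * (b + π ^ (n + 2) * d) := by
    rw [smul_add, smul_one, smul_mul', smul_pow', hσπ, hd', mul_pow, hs]
  rw [e1]
  refine ⟨π ^ n * a * s * b + π ^ (n + 1) * d * (1 + π ^ (n + 1) * a * s)
    + π ^ n * a * (1 + π ^ (n + 1) * a * s) * (b + π ^ (n + 2) * d), ?_⟩
  ring

/-- `θ_{n+1} : Γ_{n+1} →* (κ, +)`, `σ ↦ (σ π / π - 1) / π^(n+1) mod 𝔪`. -/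
noncomputable def theta (n : ℕ) : ramGroup Γ B (n + 1) →* Multiplicative (ResidueField B) where
  toFun σ := Multiplicative.ofAdd (residue B (aOf hπ n (σ : Γ)))
  map_one' := by
    have h : residue B (aOf hπ n ((1 : ramGroup Γ B (n + 1)) : Γ)) = residue B 0 := by
      apply residue_aOf_eq hπ (1 : ramGroup Γ B (n + 1)).2
      rw [Subgroup.coe_one, cOf_one, sub_self, mul_zero, sub_zero]
      exact dvd_zero _
    rw [h, map_zero]
    rfl
  map_mul' σ τ := by
    rw [residue_aOf_mul hπ σ τ]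
    rfl

theorem theta_apply (n : ℕ) (σ : ramGroup Γ B (n + 1)) :
    Multiplicative.toAdd (theta hπ n σ) = residue B (aOf hπ n (σ : Γ)) :=
  rfl

/-- The kernel of `θ_{n+1}` is `Γ_{n+2}`. -/
theorem theta_eq_one_iff (hH : InertiaResidue Γ B) (n : ℕ) (σ : ramGroup Γ B (n + 1)) :
    theta hπ n σ = 1 ↔ (σ : Γ) ∈ ramGroup Γ B (n + 2) := by
  have hσ0 : (σ : Γ) ∈ ramGroup Γ B 0 := ramGroup_antitone (Nat.zero_le _) σ.2
  rw [mem_ramGroup_iff_dvd_smul_sub hH hπ hσ0 (n + 2), ← pow_dvd_cOf_sub_one_iff hπ]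
  have h1 : cOf hπ (σ : Γ) - 1 = π ^ (n + 1) * aOf hπ n (σ : Γ) := by
    rw [cOf_eq_of_mem hπ σ.2]; ring
  rw [h1, pow_succ' π (n + 1), mul_comm π (π ^ (n + 1)),
    mul_dvd_mul_iff_left (pow_ne_zero _ hπ.ne_zero), ← residue_eq_zero_iff_dvd hπ,
    ← theta_apply hπ n σ]
  constructor
  · intro h
    rw [h]
    rfl
  · intro h
    exact Multiplicative.toAdd.injective h

/-- Equivariance of `θ_{n+1}`: `θ(g σ g⁻¹) = (g π / π)^(n+1) · g • θ(σ)`. -/
theorem theta_conj (n : ℕ) (g : Γ) (σ : ramGroup Γ B (n + 1)) :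
    residue B (aOf hπ n (g * (σ : Γ) * g⁻¹)) =
      residue B (cOf hπ g) ^ (n + 1) * g • residue B (aOf hπ n (σ : Γ)) := by
  have hmem : g * (σ : Γ) * g⁻¹ ∈ ramGroup Γ B (n + 1) :=
    (ramGroup_normal (n + 1)).conj_mem _ σ.2 g
  rw [← IsLocalRing.ResidueField.residue_smul, ← map_pow, ← map_mul]
  apply residue_aOf_eq hπ hmem
  have h := cOf_conj_sub_dvd hπ g σ.2
  have h2 : g • cOf hπ (σ : Γ) = 1 + π ^ (n + 1) * (cOf hπ g ^ (n + 1) * g • aOf hπ n (σ : Γ)) := by
    rw [cOf_eq_of_mem hπ σ.2, smul_add, smul_one, smul_mul', smul_pow', smul_eq_mul_cOf hπ g,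
      mul_pow]
    ring
  have h3 : cOf hπ (g * (σ : Γ) * g⁻¹) - 1 -
      π ^ (n + 1) * (cOf hπ g ^ (n + 1) * g • aOf hπ n (σ : Γ)) =
      cOf hπ (g * (σ : Γ) * g⁻¹) - g • cOf hπ (σ : Γ) := by
    rw [h2]; ring
  rw [h3]
  exact h

/-- For `g` in the inertia group: `θ(g σ g⁻¹) = θ₀(g)^(n+1) · θ(σ)`. -/
theorem theta_conj_of_mem (n : ℕ) {g : Γ} (hg : g ∈ ramGroup Γ B 0)
    (σ : ramGroup Γ B (n + 1)) :
    residue B (aOf hπ n (g * (σ : Γ) * g⁻¹)) =
      residue B (cOf hπ g) ^ (n + 1) * residue B (aOf hπ n (σ : Γ)) := by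
  rw [theta_conj hπ n g σ, ← IsLocalRing.ResidueField.residue_smul, residue_smul_eq_of_mem hg]

end theta

/-! ### Consequences for the group structure -/

section Structure

variable {π : B} (hπ : Irreducible π)

include hπ in
/-- `σ ∈ Γ_{n+1}` implies `σ ^ p ∈ Γ_{n+2}` (`p` the residue characteristic). -/
theorem pow_char_mem_ramGroup (hH : InertiaResidue Γ B) (p : ℕ) [CharP (ResidueField B) p]
    {n : ℕ} {σ : Γ} (hσ : σ ∈ ramGroup Γ B (n + 1)) : σ ^ p ∈ ramGroup Γ B (n + 2) := by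
  have h := (theta_eq_one_iff hπ hH n (⟨σ, hσ⟩ ^ p)).1 (by
    rw [map_pow]
    apply Multiplicative.toAdd.injective
    rw [toAdd_pow, toAdd_one, nsmul_eq_mul, CharP.cast_eq_zero, zero_mul])
  exact h

/-- `Γ₁` is a `p`-group (`Γ` finite acting faithfully, `p` the residue characteristic). -/
theorem isPGroup_ramGroup_one (hH : InertiaResidue Γ B) (p : ℕ) [CharP (ResidueField B) p]
    [Finite Γ] [FaithfulSMul Γ B] : IsPGroup p (ramGroup Γ B 1) := by
  obtain ⟨π, hπ⟩ := IsDiscreteValuationRing.exists_irreducible B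
  obtain ⟨N, hN⟩ := exists_ramGroup_eq_bot (Γ := Γ) (B := B)
  have key : ∀ k : ℕ, ∀ σ : Γ, σ ∈ ramGroup Γ B 1 → σ ^ (p ^ k) ∈ ramGroup Γ B (k + 1) := by
    intro k
    induction k with
    | zero =>
      intro σ hσ
      rwa [pow_zero, pow_one]
    | succ k ih =>
      intro σ hσ
      rw [pow_succ, pow_mul]
      exact pow_char_mem_ramGroup hπ hH p (ih σ hσ)
  intro σ
  refine ⟨N, ?_⟩
  have h := key N σ σ.2
  have h' : (σ : Γ) ^ (p ^ N) ∈ ramGroup Γ B N := ramGroup_antitone (Nat.le_succ N) h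
  rw [hN, Subgroup.mem_bot] at h'
  exact Subtype.ext h'

/-- `θ₀` separates the cosets of `Γ₁` in `Γ₀`. -/
theorem theta0_eq_iff (hH : InertiaResidue Γ B) (σ τ : ramGroup Γ B 0) :
    theta0 hπ σ = theta0 hπ τ ↔ ((σ⁻¹ * τ : ramGroup Γ B 0) : Γ) ∈ ramGroup Γ B 1 := by
  rw [← theta0_eq_one_iff hπ hH, map_mul, map_inv, inv_mul_eq_one]

/-- `Γ₀ / Γ₁` embeds into `κˣ`. -/
noncomputable def theta0Quot (hH : InertiaResidue Γ B) :
    (ramGroup Γ B 0 ⧸ (ramGroup Γ B 1).subgroupOf (ramGroup Γ B 0)) →* (ResidueField B)ˣ :=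
  QuotientGroup.lift _ (theta0 hπ) (fun σ hσ => (theta0_eq_one_iff hπ hH σ).2 hσ)

theorem theta0Quot_injective (hH : InertiaResidue Γ B) :
    Function.Injective (theta0Quot hπ hH) := by
  rw [injective_iff_map_eq_one]
  intro x hx
  obtain ⟨σ, rfl⟩ := QuotientGroup.mk_surjective x
  have h1 : theta0 hπ σ = 1 := hx
  rw [QuotientGroup.eq_one_iff]
  exact (theta0_eq_one_iff hπ hH σ).1 h1

/-- `Γ₀ / Γ₁` is cyclic. -/
theorem isCyclic_inertia_quotient (hH : InertiaResidue Γ B) [Finite Γ] :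
    IsCyclic (ramGroup Γ B 0 ⧸ (ramGroup Γ B 1).subgroupOf (ramGroup Γ B 0)) := by
  obtain ⟨π, hπ⟩ := IsDiscreteValuationRing.exists_irreducible B
  exact isCyclic_of_injective_ringHom
    ((Units.coeHom (ResidueField B)).comp (theta0Quot hπ hH))
    (Units.val_injective.comp (theta0Quot_injective hπ hH))

/-- The order of `Γ₀ / Γ₁` is prime to the residue characteristic. -/
theorem not_dvd_card_inertia_quotient (hH : InertiaResidue Γ B) [Finite Γ] (p : ℕ)
    [hp : Fact p.Prime] [CharP (ResidueField B) p] :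
    ¬ p ∣ Nat.card (ramGroup Γ B 0 ⧸ (ramGroup Γ B 1).subgroupOf (ramGroup Γ B 0)) := by
  obtain ⟨π, hπ⟩ := IsDiscreteValuationRing.exists_irreducible B
  intro hdvd
  obtain ⟨x, hx⟩ := exists_prime_orderOf_dvd_card' p hdvd
  have h1 : x ^ p = 1 := by rw [← hx]; exact pow_orderOf_eq_one x
  have h2 : ((theta0Quot hπ hH x : (ResidueField B)ˣ) : ResidueField B) ^ p = 1 := by
    rw [← Units.val_pow_eq_pow_val, ← map_pow, h1, map_one, Units.val_one]
  have h3 : ((theta0Quot hπ hH x : (ResidueField B)ˣ) : ResidueField B) = 1 := by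
    have h4 : (((theta0Quot hπ hH x : (ResidueField B)ˣ) : ResidueField B) - 1) ^ p = 0 := by
      rw [sub_pow_char, one_pow, h2, sub_self]
    exact sub_eq_zero.1 (pow_eq_zero_iff (hp.out.ne_zero) |>.1 h4)
  have h5 : theta0Quot hπ hH x = 1 := Units.ext h3
  have h6 : x = 1 := theta0Quot_injective hπ hH (h5.trans (map_one _).symm)
  rw [h6, orderOf_one] at hx
  exact hp.out.one_lt.ne hx

end Structure

end Fermat.Agent.S56.H334

end
-- ===== PACK-END S56/H334/RamTheta.lean

-- ===== PACK-BEGIN S14/H937/Lift.lean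
section



/-!
# Lifting decomposition-group elements along a closed normal subgroup of a profinite group

Companion of `Fermat.Agent.S13.H175.exists_inertia_lift` (helper175): `G` profinite acting
continuously on a discrete commutative ring `B`, `N` a closed normal subgroup, `Q` a prime of `B`.
If `g₀ ∈ G` stabilises `Q ∩ B^N` then some `σ ∈ g₀ N` stabilises `Q`.
-/

set_option autoImplicit false

open scoped Pointwise

namespace Fermat.Agent.S14.H937

universe u

variable {B : Type*} [CommRing B]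
variable {G : Type u} [Group G] [MulSemiringAction G B]
variable [TopologicalSpace G] [CompactSpace G] [TotallyDisconnectedSpace G]
variable [IsTopologicalGroup G] [TopologicalSpace B] [DiscreteTopology B] [ContinuousSMul G B]

theorem exists_stabilizer_lift (N : Subgroup G) [hn : N.Normal] (hN : IsClosed (N : Set G))
    (Q : Ideal B) [hQ : Q.IsPrime] (g₀ : G)
    (h₀ : ∀ x : B, (∀ n ∈ N, n • x = x) → (g₀ • x ∈ Q ↔ x ∈ Q)) :
    ∃ σ : G, g₀⁻¹ * σ ∈ N ∧ σ • Q = Q := by
  have : CompactSpace N := isCompact_iff_compactSpace.mp hN.isCompact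
  have := Fermat.Agent.S13.H175.isInvariant_fixedPoints (B := B) N
  have hunder : (g₀ • Q).under (FixedPoints.subalgebra ℤ B N) =
      Q.under (FixedPoints.subalgebra ℤ B N) := by
    ext ⟨x, hx⟩
    have hx' : ∀ n ∈ N, n • x = x := fun n hn' => hx ⟨n, hn'⟩
    simp only [Ideal.mem_comap]
    show x ∈ g₀ • Q ↔ x ∈ Q
    rw [Ideal.mem_pointwise_smul_iff_inv_smul_mem]
    have hy : ∀ n ∈ N, n • (g₀⁻¹ • x) = g₀⁻¹ • x :=
      Fermat.Agent.S13.H175.smul_mem_fixedPoints N g₀⁻¹ hx'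
    have h1 := h₀ _ hy
    rw [smul_inv_smul] at h1
    exact h1.symm
  obtain ⟨n, hn1⟩ := Algebra.IsInvariant.exists_smul_of_under_eq_of_profinite
    (A := FixedPoints.subalgebra ℤ B N) (G := N) (g₀ • Q) Q hunder
  refine ⟨(n : G) * g₀, ?_, ?_⟩
  · have h2 := hn.conj_mem _ n.2 g₀⁻¹
    simpa [mul_assoc] using h2
  · rw [mul_smul]
    exact hn1.symm

end Fermat.Agent.S14.H937

end
-- ===== PACK-END S14/H937/Lift.lean

-- ===== PACK-BEGIN S56/H786/KummerH90.lean
section



/-!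
# S56 / LOC-SO, sub-leaf KUMMER-P (helper786), part 2: Hilbert 90 for `μ_p`-valued cocycles

`D` any subgroup of `G_ℚ`, `ζ` a primitive `p`-th root of unity, `f : G_ℚ → ZMod p` a twisted
cocycle on `D` (`f(στ) = f(σ) + ω(σ) f(τ)`) of finite level.  Then there is `β ≠ 0` in `ℚ̄` with
`σ β = ζ ^ f(σ) · β` for all `σ ∈ D` (`hilbert90`).  Proof: Poincaré series on a finite normal
level, Dedekind independence of characters.
-/

set_option autoImplicit false
set_option linter.style.haveILetI false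

namespace Fermat.Agent.S56.H786

open Fermat.Agent.S56

section Zp

variable {p : ℕ}

/-- `ζ ^ n` for `n : ZMod p`. -/
noncomputable def zp (ζ : Qb) (n : ZMod p) : Qb := ζ ^ n.val

theorem zp_natCast [NeZero p] {ζ : Qb} (h1 : ζ ^ p = 1) (k : ℕ) :
    zp ζ (k : ZMod p) = ζ ^ k := by
  unfold zp
  rw [ZMod.val_natCast]
  exact (pow_eq_pow_mod k h1).symm

theorem zp_add [NeZero p] {ζ : Qb} (h1 : ζ ^ p = 1) (m n : ZMod p) :
    zp ζ (m + n) = zp ζ m * zp ζ n := by
  conv_lhs => rw [← ZMod.natCast_zmod_val m, ← ZMod.natCast_zmod_val n, ← Nat.cast_add]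
  rw [zp_natCast h1, pow_add]
  rfl

theorem zp_natCast_mul [NeZero p] {ζ : Qb} (h1 : ζ ^ p = 1) (a : ℕ) (n : ZMod p) :
    zp ζ ((a : ZMod p) * n) = zp ζ n ^ a := by
  conv_lhs => rw [← ZMod.natCast_zmod_val n, ← Nat.cast_mul]
  rw [zp_natCast h1, mul_comm, pow_mul]
  rfl

theorem zp_zero [NeZero p] (ζ : Qb) : zp ζ (0 : ZMod p) = 1 := by
  unfold zp
  rw [ZMod.val_zero, pow_zero]

theorem zp_ne_zero {ζ : Qb} (h0 : ζ ≠ 0) (n : ZMod p) : zp ζ n ≠ 0 :=
  pow_ne_zero _ h0

theorem zp_pow_self {ζ : Qb} (h1 : ζ ^ p = 1) (n : ZMod p) : zp ζ n ^ p = 1 := by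
  unfold zp
  rw [← pow_mul, mul_comm, pow_mul, h1, one_pow]

theorem zp_neg_mul_self [NeZero p] {ζ : Qb} (h1 : ζ ^ p = 1) (n : ZMod p) :
    zp ζ (-n) * zp ζ n = 1 := by
  rw [← zp_add h1, neg_add_cancel, zp_zero]

theorem zp_injective [NeZero p] {ζ : Qb} (hζ : IsPrimitiveRoot ζ p) :
    Function.Injective (zp (p := p) ζ) := by
  intro m n h
  have := hζ.pow_inj (ZMod.val_lt m) (ZMod.val_lt n) h
  exact ZMod.val_injective p this

theorem exists_zp_eq [NeZero p] {ζ : Qb} (hζ : IsPrimitiveRoot ζ p) {ξ : Qb} (hξ : ξ ^ p = 1) :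
    ∃ n : ZMod p, ξ = zp ζ n := by
  obtain ⟨i, -, hi⟩ := hζ.eq_pow_of_pow_eq_one hξ
  exact ⟨(i : ZMod p), by rw [zp_natCast hζ.pow_eq_one, hi]⟩

theorem apply_zp [NeZero p] {ζ : Qb} (h1 : ζ ^ p = 1) {σ : GQ} {a : ℕ} (hσ : IsCycExp p σ a)
    (n : ZMod p) : σ (zp ζ n) = zp ζ ((a : ZMod p) * n) := by
  rw [zp_natCast_mul h1]
  exact hσ _ (zp_pow_self h1 n)

/-- Every element of `G_ℚ` has a cyclotomic exponent. -/
theorem exists_isCycExp [NeZero p] {ζ : Qb} (hζ : IsPrimitiveRoot ζ p) (σ : GQ) :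
    ∃ a : ℕ, IsCycExp p σ a := by
  have h1 : (σ ζ) ^ p = 1 := by rw [← map_pow, hζ.pow_eq_one, map_one]
  obtain ⟨a, -, ha⟩ := hζ.eq_pow_of_pow_eq_one h1
  refine ⟨a, fun μ hμ => ?_⟩
  obtain ⟨j, -, hj⟩ := hζ.eq_pow_of_pow_eq_one hμ
  rw [← hj, map_pow, ← ha, ← pow_mul, ← pow_mul, mul_comm]

/-- Two cyclotomic exponents of the same element agree modulo `p`. -/
theorem isCycExp_unique [NeZero p] {ζ : Qb} (hζ : IsPrimitiveRoot ζ p) {σ : GQ} {a b : ℕ}
    (ha : IsCycExp p σ a) (hb : IsCycExp p σ b) : (a : ZMod p) = (b : ZMod p) := by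
  have h1 := ha ζ hζ.pow_eq_one
  have h2 := hb ζ hζ.pow_eq_one
  rw [h1] at h2
  apply zp_injective hζ
  rw [zp_natCast hζ.pow_eq_one, zp_natCast hζ.pow_eq_one, h2]

end Zp

section H90

variable {p : ℕ}

/-- **Hilbert 90** for twisted `ZMod p`-valued cocycles of finite level on a subgroup of `G_ℚ`. -/
theorem hilbert90 [NeZero p] {ζ : Qb} (hζ : IsPrimitiveRoot ζ p) (D : Subgroup GQ)
    (f : GQ → ZMod p)
    (hcoc : ∀ σ ∈ D, ∀ τ ∈ D, ∀ a : ℕ, IsCycExp p σ a → f (σ * τ) = f σ + (a : ZMod p) * f τ)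
    (hlev : ∃ L : IntermediateField ℚ Qb, FiniteDimensional ℚ L ∧
      ∀ σ ∈ D, ∀ τ ∈ D, (∀ x ∈ L, τ x = x) → f (σ * τ) = f σ) :
    ∃ β : Qb, β ≠ 0 ∧ ∀ σ ∈ D, σ β = zp ζ (f σ) * β := by
  classical
  have hζ1 : ζ ^ p = 1 := hζ.pow_eq_one
  have hζ0 : ζ ≠ 0 := hζ.ne_zero (NeZero.ne p)
  obtain ⟨L, hL, hlev⟩ := hlev
  let M : IntermediateField ℚ Qb := IntermediateField.normalClosure ℚ L Qb
  haveI : Algebra.IsAlgebraic ℚ Qb := AlgebraicClosure.isAlgebraic ℚ
  haveI : IsAlgClosure ℚ Qb := ⟨inferInstance, inferInstance⟩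
  haveI : Normal ℚ Qb := IsAlgClosure.normal ℚ Qb
  haveI : Normal ℚ M := normalClosure.normal ℚ L Qb
  haveI : FiniteDimensional ℚ M := normalClosure.is_finiteDimensional ℚ L Qb
  have hLM : L ≤ M := IntermediateField.le_normalClosure L
  let r : GQ →* (M ≃ₐ[ℚ] M) := AlgEquiv.restrictNormalHom M
  have hr : ∀ (σ : GQ) (x : M), ((r σ x : M) : Qb) = σ (x : Qb) :=
    fun σ x => AlgEquiv.restrictNormal_commutes σ M x
  let Φ : Subgroup (M ≃ₐ[ℚ] M) := D.map r
  let F : (M ≃ₐ[ℚ] M) → ZMod p := fun g => if h : ∃ σ ∈ D, r σ = g then f h.choose else 0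
  have hF : ∀ σ ∈ D, F (r σ) = f σ := by
    intro σ hσ
    have h : ∃ σ' ∈ D, r σ' = r σ := ⟨σ, hσ, rfl⟩
    simp only [F, dif_pos h]
    obtain ⟨hσ', hrσ'⟩ := h.choose_spec
    have hτD : h.choose⁻¹ * σ ∈ D := D.mul_mem (D.inv_mem hσ') hσ
    have hτfix : ∀ x ∈ L, (h.choose⁻¹ * σ) x = x := by
      intro x hx
      have h1 : σ x = h.choose x := by
        have := congrArg (fun g : M ≃ₐ[ℚ] M => ((g ⟨x, hLM hx⟩ : M) : Qb)) hrσ'
        simp only [hr] at this
        exact this.symm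
      rw [AlgEquiv.mul_apply, h1]
      exact h.choose.symm_apply_apply x
    have := hlev _ hσ' _ hτD hτfix
    rw [mul_inv_cancel_left] at this
    exact this.symm
  let c : (M ≃ₐ[ℚ] M) → Qb := fun g => if g ∈ Φ then zp ζ (-(F g)) else 0
  let β : M → Qb := fun θ => ∑ g : M ≃ₐ[ℚ] M, c g * ((g θ : M) : Qb)
  -- equivariance
  have hc : ∀ σ ∈ D, ∀ g : M ≃ₐ[ℚ] M, σ (c g) = zp ζ (f σ) * c (r σ * g) := by
    intro σ hσ g
    obtain ⟨a, ha⟩ := exists_isCycExp hζ σ
    by_cases hg : g ∈ Φ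
    · obtain ⟨σg, hσg, rfl⟩ := hg
      have hmem : r σ * r σg ∈ Φ := ⟨σ * σg, D.mul_mem hσ hσg, map_mul r σ σg⟩
      have hmem' : r σg ∈ Φ := ⟨σg, hσg, rfl⟩
      simp only [c, if_pos hmem, if_pos hmem']
      rw [← map_mul, hF _ (D.mul_mem hσ hσg), hF _ hσg, hcoc σ hσ σg hσg a ha,
        apply_zp hζ1 ha, ← zp_add hζ1]
      congr 1
      ring
    · have hmem : r σ * g ∉ Φ := by
        intro h
        apply hg
        have h2 : (r σ)⁻¹ ∈ Φ := Φ.inv_mem ⟨σ, hσ, rfl⟩
        have := Φ.mul_mem h2 h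
        rwa [inv_mul_cancel_left] at this
      simp only [c, if_neg hg, if_neg hmem, map_zero, mul_zero]
  have hβ : ∀ σ ∈ D, ∀ θ : M, σ (β θ) = zp ζ (f σ) * β θ := by
    intro σ hσ θ
    simp only [β]
    rw [map_sum, Finset.mul_sum]
    rw [← Equiv.sum_comp (Equiv.mulLeft (r σ))
      (fun g => zp ζ (f σ) * (c g * ((g θ : M) : Qb)))]
    refine Finset.sum_congr rfl fun g _ => ?_
    rw [map_mul, hc σ hσ g, ← hr σ (g θ)]
    simp only [Equiv.coe_mulLeft, AlgEquiv.mul_apply]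
    ring
  -- non-vanishing
  have hne : ∃ θ : M, β θ ≠ 0 := by
    by_contra hall
    push Not at hall
    let m : (M ≃ₐ[ℚ] M) → (M →* Qb) := fun g =>
      ((algebraMap M Qb).comp (g : M →+* M) : M →+* Qb)
    have hm : Function.Injective m := by
      intro g g' h
      ext x
      have := congrArg (fun φ : M →* Qb => φ x) h
      exact this
    have hli : LinearIndependent Qb (fun g : M ≃ₐ[ℚ] M => ((m g : M →* Qb) : M → Qb)) :=
      (linearIndependent_monoidHom M Qb).comp m hm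
    have h0 := Fintype.linearIndependent_iff.mp hli c (by
      funext θ
      have := hall θ
      simp only [β] at this
      simpa [m, Finset.sum_apply, Pi.smul_apply, smul_eq_mul] using this) 1
    have h1 : c 1 = zp ζ (-(F 1)) := by
      simp only [c, if_pos Φ.one_mem]
    rw [h1] at h0
    exact zp_ne_zero hζ0 _ h0
  obtain ⟨θ, hθ⟩ := hne
  exact ⟨β θ, hθ, fun σ hσ => hβ σ hσ θ⟩

end H90

end Fermat.Agent.S56.H786

end
-- ===== PACK-END S56/H786/KummerH90.lean

-- ===== PACK-BEGIN S56/H554/TameLevel.lean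
section




/-!
# S56 / local engine at `q ≠ p` (helper554): finite levels are discretely valued

`P` a valuation subring of `ℚ̄` over the prime `q`, `L ⊆ ℚ̄` a finite extension of `ℚ`.

* `primeAt P L` : the prime of `𝓞 L` below `P`, as a `HeightOneSpectrum`;
* `valuation_le_one_of_primeAt`, `valuation_eq_one_of_primeAt` : the `primeAt`-adic valuation
  controls `P.valuation` on `L`;
* `exists_uniformizer` : there is `ϖ ∈ L`, `ϖ ≠ 0`, with `v_P(c) ∈ v_P(ϖ)^ℤ` for all `c ∈ Lˣ`,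
  and `v_P(ϖ) < 1`;
* `exists_int_approx` : every element of `L ∩ P` is congruent mod `𝔪_P` to an element of `𝓞 L`.
-/

set_option autoImplicit false

open IsDedekindDomain NumberField

namespace Fermat.Agent.S56.H554

variable (P : ValuationSubring Qb) (L : IntermediateField ℚ Qb)

/-- A finite subextension of `ℚ̄/ℚ` is a number field. -/
theorem numberField_level [FiniteDimensional ℚ L] : NumberField L :=
  { to_charZero := inferInstance, to_finiteDimensional := inferInstance }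

attribute [local instance] numberField_level

theorem int_mem [FiniteDimensional ℚ L] (x : 𝓞 L) : (((x : L) : Qb)) ∈ P :=
  Fermat.Agent.S54.isIntegral_mem_valuationSubring P
    (map_isIntegral_int (algebraMap L Qb) (RingOfIntegers.isIntegral_coe x))

theorem int_val_le [FiniteDimensional ℚ L] (x : 𝓞 L) : P.valuation (((x : L) : Qb)) ≤ 1 :=
  (P.valuation_le_one_iff _).mpr (int_mem P L x)

/-- The prime ideal of `𝓞 L` below `P`. -/
def idealAt [FiniteDimensional ℚ L] : Ideal (𝓞 L) where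
  carrier := {x | P.valuation (((x : L) : Qb)) < 1}
  add_mem' := by
    intro a b ha hb
    simp only [Set.mem_ofPred_eq] at ha hb ⊢
    have : (((a + b : 𝓞 L) : L) : Qb) = ((a : L) : Qb) + ((b : L) : Qb) := by
      push_cast; rfl
    rw [this]
    exact lt_of_le_of_lt (P.valuation.map_add _ _) (max_lt ha hb)
  zero_mem' := by
    simp only [Set.mem_ofPred_eq]
    have : (((0 : 𝓞 L) : L) : Qb) = 0 := by push_cast; rfl
    rw [this, map_zero]
    exact zero_lt_one
  smul_mem' := by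
    intro c x hx
    simp only [Set.mem_ofPred_eq, smul_eq_mul] at hx ⊢
    have : (((c * x : 𝓞 L) : L) : Qb) = ((c : L) : Qb) * ((x : L) : Qb) := by
      push_cast; rfl
    rw [this, map_mul]
    exact mul_lt_one_of_nonneg_of_lt_one_right (int_val_le P L c) zero_le hx

theorem mem_idealAt [FiniteDimensional ℚ L] (x : 𝓞 L) :
    x ∈ idealAt P L ↔ P.valuation (((x : L) : Qb)) < 1 := Iff.rfl

theorem idealAt_isPrime [FiniteDimensional ℚ L] : (idealAt P L).IsPrime := by
  refine ⟨?_, ?_⟩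
  · intro h
    have h1 : (1 : 𝓞 L) ∈ idealAt P L := by rw [h]; trivial
    rw [mem_idealAt] at h1
    have : (((1 : 𝓞 L) : L) : Qb) = 1 := by push_cast; rfl
    rw [this, map_one] at h1
    exact lt_irrefl _ h1
  · intro x y hxy
    rw [mem_idealAt] at hxy
    have : (((x * y : 𝓞 L) : L) : Qb) = ((x : L) : Qb) * ((y : L) : Qb) := by
      push_cast; rfl
    rw [this, map_mul] at hxy
    by_contra hcon
    push Not at hcon
    have hx : P.valuation (((x : L) : Qb)) = 1 :=
      le_antisymm (int_val_le P L x) (not_lt.mp hcon.1)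
    have hy : P.valuation (((y : L) : Qb)) = 1 :=
      le_antisymm (int_val_le P L y) (not_lt.mp hcon.2)
    rw [hx, hy, one_mul] at hxy
    exact lt_irrefl _ hxy

variable {P} in
theorem natCast_mem_idealAt [FiniteDimensional ℚ L] {q : ℕ} (hP : P.LiesOverPrime q) :
    (q : 𝓞 L) ∈ idealAt P L := by
  rw [mem_idealAt]
  have : (((q : 𝓞 L) : L) : Qb) = (q : Qb) := by push_cast; rfl
  rw [this]
  exact P.mem_nonunits_iff.mp hP

variable {P} in
/-- The prime of `𝓞 L` below `P`. -/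
noncomputable def primeAt [FiniteDimensional ℚ L] {q : ℕ} (hq : q.Prime)
    (hP : P.LiesOverPrime q) : HeightOneSpectrum (𝓞 L) where
  asIdeal := idealAt P L
  isPrime := idealAt_isPrime P L
  ne_bot := by
    intro h
    have h1 := natCast_mem_idealAt L hP
    rw [h, Ideal.mem_bot] at h1
    exact hq.ne_zero (by exact_mod_cast h1)

variable {P} {L}
variable [FiniteDimensional ℚ L] {q : ℕ}

section
variable (hq : q.Prime) (hP : P.LiesOverPrime q)

theorem val_eq_one_of_notMem {d : 𝓞 L} (hd : d ∉ (primeAt L hq hP).asIdeal) :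
    P.valuation (((d : L) : Qb)) = 1 :=
  le_antisymm (int_val_le P L d) (not_lt.mp hd)

/-- Dictionary: `primeAt`-integral elements of `L` lie in `P`. -/
theorem valuation_le_one_of_primeAt {x : L}
    (hx : (primeAt L hq hP).valuation L x ≤ 1) : P.valuation (x : Qb) ≤ 1 := by
  obtain ⟨n, d, hnd⟩ := (primeAt L hq hP).exists_primeCompl_mul_eq_of_integer x hx
  have hd := val_eq_one_of_notMem hq hP d.2
  have h1 : (x : Qb) * (((d : 𝓞 L) : L) : Qb) = ((n : L) : Qb) := by
    have := congrArg (fun t : L => (t : Qb)) hnd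
    simpa using this
  have h2 := congrArg P.valuation h1
  rw [map_mul, hd, mul_one] at h2
  rw [h2]
  exact int_val_le P L n

/-- Dictionary: `primeAt`-units of `L` are units of `P`. -/
theorem valuation_eq_one_of_primeAt {x : L}
    (hx : (primeAt L hq hP).valuation L x = 1) : P.valuation (x : Qb) = 1 := by
  have hx0 : x ≠ 0 := by
    rintro rfl
    simp at hx
  have hx0' : (x : Qb) ≠ 0 := by
    intro h
    exact hx0 (by exact_mod_cast h)
  have h1 := valuation_le_one_of_primeAt hq hP hx.le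
  have h2 : P.valuation ((x⁻¹ : L) : Qb) ≤ 1 := by
    apply valuation_le_one_of_primeAt hq hP
    rw [map_inv₀, hx, inv_one]
  have h3 : ((x⁻¹ : L) : Qb) = (x : Qb)⁻¹ := by push_cast; rfl
  rw [h3, map_inv₀] at h2
  refine le_antisymm h1 ?_
  have hv0 : P.valuation (x : Qb) ≠ 0 := (Valuation.ne_zero_iff _).mpr hx0'
  exact (inv_le_one₀ (lt_of_le_of_ne zero_le (Ne.symm hv0))).mp h2

end

/-- **Discreteness at finite level.** -/
theorem exists_uniformizer (hq : q.Prime) (hP : P.LiesOverPrime q) :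
    ∃ ϖ : L, ϖ ≠ 0 ∧ P.valuation (ϖ : Qb) < 1 ∧
      ∀ c : L, c ≠ 0 → ∃ n : ℤ, P.valuation (c : Qb) = P.valuation (ϖ : Qb) ^ n := by
  obtain ⟨π, hπ⟩ := (primeAt L hq hP).valuation_exists_uniformizer' L
  set ϖ : L := algebraMap (𝓞 L) L π with hϖ
  have hϖv : (primeAt L hq hP).valuation L ϖ = WithZero.exp (-1 : ℤ) := hπ
  have hϖ0 : ϖ ≠ 0 := by
    have h1 : (primeAt L hq hP).valuation L ϖ ≠ 0 := by
      rw [hϖv]
      exact WithZero.exp_ne_zero
    exact (Valuation.ne_zero_iff _).mp h1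
  have hπmem : π ∈ (primeAt L hq hP).asIdeal := by
    rw [← (primeAt L hq hP).valuation_lt_one_iff_mem (K := L)]
    change (primeAt L hq hP).valuation L ϖ < 1
    rw [hϖv, ← WithZero.exp_zero]
    exact WithZero.exp_lt_exp.mpr (by norm_num)
  have hϖlt : P.valuation (ϖ : Qb) < 1 := hπmem
  refine ⟨ϖ, hϖ0, hϖlt, fun c hc => ?_⟩
  have hc0 : (primeAt L hq hP).valuation L c ≠ 0 := (Valuation.ne_zero_iff _).mpr hc
  obtain ⟨m, hm⟩ : ∃ m : ℤ, (primeAt L hq hP).valuation L c = WithZero.exp m :=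
    ⟨WithZero.log ((primeAt L hq hP).valuation L c), (WithZero.exp_log hc0).symm⟩
  have h1 : (primeAt L hq hP).valuation L (c * ϖ ^ m) = 1 := by
    rw [map_mul, map_zpow₀, hm, hϖv, ← WithZero.exp_zsmul, ← WithZero.exp_add]
    simp
  have h2 := valuation_eq_one_of_primeAt hq hP h1
  have h3 : ((c * ϖ ^ m : L) : Qb) = (c : Qb) * (ϖ : Qb) ^ m := by
    push_cast; rfl
  rw [h3, map_mul, map_zpow₀] at h2
  refine ⟨-m, ?_⟩
  rw [zpow_neg]
  exact eq_inv_of_mul_eq_one_left h2

end Fermat.Agent.S56.H554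

end
-- ===== PACK-END S56/H554/TameLevel.lean

-- ===== PACK-BEGIN S55/H175/LocalDecomp.lean
section




set_option autoImplicit false
set_option linter.style.haveILetI false

/-!
# The local Galois group at `q` is the decomposition group of the `q`-adic place of `ℚ̄`

`localGaloisToGlobal q : Gal(ℚ̄_q/ℚ_q) →* Gal(ℚ̄/ℚ)` is injective with range the decomposition
subgroup of `padicPlace q`.
-/

open scoped NNReal Pointwise
open Polynomial

namespace Fermat.Agent.S55.H175

variable (q : ℕ) [Fact q.Prime]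

theorem mem_padicPlace_iff_norm {x : AlgebraicClosure ℚ} :
    x ∈ padicPlace q ↔ ‖padicEmbedding q x‖ ≤ 1 := by
  rw [mem_padicPlace_iff]
  exact Iff.rfl

theorem padicEmbedding_injective : Function.Injective (padicEmbedding q) :=
  (padicEmbedding q).toRingHom.injective

theorem norm_padicEmbedding_natCast_self : ‖padicEmbedding q (q : AlgebraicClosure ℚ)‖ = (q : ℝ)⁻¹ := by
  rw [map_natCast]
  have h := PadicAlgCl.valuation_p q
  have h2 : ((Valued.v (q : PadicAlgCl q) : ℝ≥0) : ℝ) = ‖(q : PadicAlgCl q)‖ :=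
    PadicAlgCl.valuation_coe q _
  rw [← h2, h]
  simp

/-- Elements of the decomposition group are isometries for the `q`-adic norm. -/
theorem norm_padicEmbedding_smul (σ : AlgebraicClosure ℚ ≃ₐ[ℚ] AlgebraicClosure ℚ)
    (hσ : σ ∈ (padicPlace q).decompositionSubgroup ℚ) (x : AlgebraicClosure ℚ) :
    ‖padicEmbedding q (σ x)‖ = ‖padicEmbedding q x‖ := by
  have hstab : σ • padicPlace q = padicPlace q := MulAction.mem_stabilizer_iff.mp hσ
  have hmem : ∀ y : AlgebraicClosure ℚ, σ y ∈ padicPlace q ↔ y ∈ padicPlace q := by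
    intro y
    constructor
    · intro h
      rw [← hstab] at h
      obtain ⟨z, hz, hzy⟩ := (ValuationSubring.mem_smul_pointwise_iff_exists σ (σ y) _).mp h
      have : z = y := σ.injective hzy
      exact this ▸ hz
    · intro h
      rw [← hstab]
      exact (ValuationSubring.mem_smul_pointwise_iff_exists σ (σ y) _).mpr ⟨y, h, rfl⟩
  let f : AlgebraicClosure ℚ →*₀ ℝ :=
    (normHom : PadicAlgCl q →*₀ ℝ).comp
      ((padicEmbedding q).toRingHom.toMonoidWithZeroHom)
  let g : AlgebraicClosure ℚ →*₀ ℝ :=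
    f.comp (σ : AlgebraicClosure ℚ →+* AlgebraicClosure ℚ).toMonoidWithZeroHom
  have hf : ∀ y, f y = ‖padicEmbedding q y‖ := fun y => rfl
  have hg : ∀ y, g y = ‖padicEmbedding q (σ y)‖ := fun y => rfl
  have hq : (1 : ℝ) < q := by exact_mod_cast (Fact.out : q.Prime).one_lt
  have hfq : f (q : AlgebraicClosure ℚ) = (q : ℝ)⁻¹ := by
    rw [hf]; exact norm_padicEmbedding_natCast_self q
  have hgq : g (q : AlgebraicClosure ℚ) = (q : ℝ)⁻¹ := by
    rw [hg, map_natCast]; exact norm_padicEmbedding_natCast_self q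
  have key := eq_of_le_one_iff g f (fun y => by rw [hg]; exact norm_nonneg _)
    (fun y => by rw [hf]; exact norm_nonneg _) (q : AlgebraicClosure ℚ)
    (by rw [hfq, hgq]) (by rw [hgq]; positivity)
    (by rw [hgq]; exact inv_lt_one_of_one_lt₀ hq)
    (fun y => by
      rw [hg, hf, ← mem_padicPlace_iff_norm, ← mem_padicPlace_iff_norm]
      exact hmem y) x
  exact key

/-- The algebraic numbers are dense in `ℚ̄_q`. -/
theorem denseRange_padicEmbedding : DenseRange (padicEmbedding q) := by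
  rw [Metric.denseRange_iff]
  intro y ε hε
  have hyint : IsIntegral ℚ_[q] y := (Algebra.IsAlgebraic.isAlgebraic y).isIntegral
  set f : ℚ_[q][X] := minpoly ℚ_[q] y with hfdef
  have fmon : f.Monic := minpoly.monic hyint
  have fa0 : f.aeval y = 0 := minpoly.aeval ℚ_[q] y
  have fnatdeg0 : f.natDegree ≠ 0 := (minpoly.natDegree_pos hyint).ne'
  have hε' : (ε / (max ‖y‖ 1)) ^ f.natDegree / (f.natDegree + 1) > 0 := by positivity
  have hdense : DenseRange (algebraMap ℚ ℚ_[q]) := by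
    have h := Padic.denseRange_ratCast q
    convert h using 1
    funext r
    exact eq_ratCast _ r
  obtain ⟨g, gmon, gdeg, gcoeff⟩ :=
    exists_monic_and_natDegree_eq_and_norm_map_algebraMap_coeff_sub_lt hdense fmon hε'
  obtain ⟨b, hb, hab⟩ := exists_aroots_norm_sub_lt_of_norm_coeff_sub_lt (L := PadicAlgCl q)
      hε' fa0 fmon (gmon.map _) (gdeg ▸ (g.natDegree_map _)) gcoeff
      (IsAlgClosed.splits _)
  have hab' : ‖y - b‖ < ε := by
    rw [← Real.rpow_natCast, ← mul_comm_div, div_self, one_mul,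
        ← Real.rpow_mul (div_pos hε (by positivity)).le, mul_inv_cancel₀] at hab
    · simpa [mul_assoc, div_mul_cancel₀ _ (by positivity : (max ‖y‖ 1) > 0).ne'] using hab
    · simp [fnatdeg0]
    · positivity
  -- `b` is a root of a rational polynomial, hence algebraic over `ℚ`
  have hbroot : (g.map (algebraMap ℚ (PadicAlgCl q))).IsRoot b := by
    rw [Polynomial.aroots_def, Polynomial.map_map] at hb
    have h1 := (Polynomial.mem_roots'.mp hb).2
    have h2 : (algebraMap ℚ_[q] (PadicAlgCl q)).comp (algebraMap ℚ ℚ_[q]) =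
        algebraMap ℚ (PadicAlgCl q) := Subsingleton.elim _ _
    rw [h2] at h1
    exact h1
  have hgQ : ((g.map (algebraMap ℚ (AlgebraicClosure ℚ))).map
      (padicEmbedding q).toRingHom) = g.map (algebraMap ℚ (PadicAlgCl q)) := by
    rw [Polynomial.map_map]
    congr 1
    exact (padicEmbedding q).comp_algebraMap
  have hsplit : (g.map (algebraMap ℚ (AlgebraicClosure ℚ))).Splits := IsAlgClosed.splits _
  have hbmem : b ∈ ((g.map (algebraMap ℚ (AlgebraicClosure ℚ))).map
      (padicEmbedding q).toRingHom).roots := by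
    rw [hgQ, Polynomial.mem_roots']
    refine ⟨?_, hbroot⟩
    exact (gmon.map _).ne_zero
  rw [Polynomial.Splits.roots_map hsplit, Multiset.mem_map] at hbmem
  obtain ⟨x, -, hx⟩ := hbmem
  refine ⟨x, ?_⟩
  rw [dist_eq_norm]
  have : (padicEmbedding q) x = b := hx
  rw [this]
  exact hab'

/-- Every element of the decomposition group of the `q`-adic place comes from the local Galois
group. -/
theorem exists_local_of_mem_decomposition (σ : AlgebraicClosure ℚ ≃ₐ[ℚ] AlgebraicClosure ℚ)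
    (hσ : σ ∈ (padicPlace q).decompositionSubgroup ℚ) :
    ∃ τ : PadicAlgCl q ≃ₐ[ℚ_[q]] PadicAlgCl q, localGaloisToGlobal q τ = σ := by
  let j : PadicAlgCl q →+* ℂ_[q] := algebraMap (PadicAlgCl q) ℂ_[q]
  have hj : ∀ y : PadicAlgCl q, ‖j y‖ = ‖y‖ := fun y => PadicComplex.norm_extends q y
  let ι' : AlgebraicClosure ℚ →+* ℂ_[q] := j.comp (padicEmbedding q).toRingHom
  have hι' : ∀ x, ι' x = j (padicEmbedding q x) := fun x => rfl
  letI : PseudoMetricSpace (AlgebraicClosure ℚ) := PseudoMetricSpace.induced ι' inferInstance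
  have hdist : ∀ x y : AlgebraicClosure ℚ, dist x y = dist (ι' x) (ι' y) := fun x y => rfl
  have hiso : Isometry ι' := Isometry.of_dist_eq fun x y => rfl
  have hue : IsUniformInducing ι' := hiso.isUniformInducing
  have hdr : DenseRange ι' := by
    have h1 : DenseRange (j : PadicAlgCl q → ℂ_[q]) := UniformSpace.Completion.denseRange_coe
    have h2 : Continuous (j : PadicAlgCl q → ℂ_[q]) := UniformSpace.Completion.continuous_coe _
    exact h1.comp (denseRange_padicEmbedding q) h2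
  let f : AlgebraicClosure ℚ →+* ℂ_[q] :=
    ι'.comp (σ : AlgebraicClosure ℚ →+* AlgebraicClosure ℚ)
  have hfapp : ∀ x, f x = ι' (σ x) := fun x => rfl
  have hfiso : Isometry f := by
    apply Isometry.of_dist_eq
    intro x y
    rw [hdist, hfapp, hfapp, dist_eq_norm, dist_eq_norm, ← map_sub, ← map_sub, ← map_sub,
      hι', hι', hj, hj]
    exact norm_padicEmbedding_smul q σ hσ (x - y)
  have hf : UniformContinuous f := hfiso.uniformContinuous
  let τh : ℂ_[q] →+* ℂ_[q] := IsDenseInducing.extendRingHom hue hdr hf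
  have hτh : ∀ x, τh (ι' x) = ι' (σ x) := fun x =>
    IsDenseInducing.extend_eq (hue.isDenseInducing hdr) hf.continuous x
  have hτcont : Continuous τh := (uniformContinuous_uniformly_extend hue hdr hf).continuous
  -- `τh` fixes `ℚ_q`
  have hτQq : ∀ a : ℚ_[q], τh (algebraMap ℚ_[q] ℂ_[q] a) = algebraMap ℚ_[q] ℂ_[q] a := by
    intro a
    have h1 : Continuous (fun a : ℚ_[q] => τh (algebraMap ℚ_[q] ℂ_[q] a)) :=
      hτcont.comp (continuous_algebraMap ℚ_[q] ℂ_[q])
    have h2 : Continuous (fun a : ℚ_[q] => algebraMap ℚ_[q] ℂ_[q] a) :=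
      continuous_algebraMap ℚ_[q] ℂ_[q]
    refine congrFun (DenseRange.equalizer (Padic.denseRange_ratCast q) h1 h2 ?_) a
    funext r
    show τh (algebraMap ℚ_[q] ℂ_[q] (r : ℚ_[q])) = algebraMap ℚ_[q] ℂ_[q] (r : ℚ_[q])
    have h3 : algebraMap ℚ_[q] ℂ_[q] (r : ℚ_[q]) = ι' (r : AlgebraicClosure ℚ) := by
      rw [map_ratCast, map_ratCast]
    rw [h3, hτh, map_ratCast]
  let τA : ℂ_[q] →ₐ[ℚ_[q]] ℂ_[q] := { τh with commutes' := hτQq }
  have hτA : ∀ z, τA z = τh z := fun z => rfl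
  let jA : PadicAlgCl q →ₐ[ℚ_[q]] ℂ_[q] := IsScalarTower.toAlgHom ℚ_[q] (PadicAlgCl q) ℂ_[q]
  have hjA : ∀ y, jA y = j y := fun y => rfl
  have hjinj : Function.Injective jA := (algebraMap (PadicAlgCl q) ℂ_[q]).injective
  -- `τA` preserves the algebraic closure
  have hrange : ∀ y : PadicAlgCl q, (τA.comp jA) y ∈ jA.range := by
    intro y
    have hyint : IsIntegral ℚ_[q] y := (Algebra.IsAlgebraic.isAlgebraic y).isIntegral
    set P : ℚ_[q][X] := minpoly ℚ_[q] y with hP
    have hPy : Polynomial.aeval y P = 0 := minpoly.aeval ℚ_[q] y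
    have h1 : Polynomial.aeval ((τA.comp jA) y) P = 0 := by
      rw [Polynomial.aeval_algHom_apply, hPy, map_zero]
    have hsplit : (P.map (algebraMap ℚ_[q] (PadicAlgCl q))).Splits := IsAlgClosed.splits _
    have hmem : (τA.comp jA) y ∈ ((P.map (algebraMap ℚ_[q] (PadicAlgCl q))).map j).roots := by
      rw [Polynomial.mem_roots', Polynomial.map_map]
      refine ⟨?_, ?_⟩
      · exact ((minpoly.monic hyint).map _).ne_zero
      · rw [Polynomial.IsRoot.def, Polynomial.eval_map]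
        have h2 : j.comp (algebraMap ℚ_[q] (PadicAlgCl q)) = algebraMap ℚ_[q] ℂ_[q] :=
          (IsScalarTower.algebraMap_eq ℚ_[q] (PadicAlgCl q) ℂ_[q]).symm
        rw [h2]
        exact h1
    rw [Polynomial.Splits.roots_map hsplit, Multiset.mem_map] at hmem
    obtain ⟨z, -, hz⟩ := hmem
    exact ⟨z, hz⟩
  let τ₀ : PadicAlgCl q →ₐ[ℚ_[q]] PadicAlgCl q :=
    (AlgEquiv.ofInjective jA hjinj).symm.toAlgHom.comp ((τA.comp jA).codRestrict jA.range hrange)
  have hτ₀ : ∀ y, jA (τ₀ y) = τA (jA y) := by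
    intro y
    have := (AlgEquiv.ofInjective jA hjinj).apply_symm_apply
      ((τA.comp jA).codRestrict jA.range hrange y)
    exact congrArg Subtype.val this
  have hbij : Function.Bijective τ₀ := Algebra.IsAlgebraic.algHom_bijective τ₀
  refine ⟨AlgEquiv.ofBijective τ₀ hbij, ?_⟩
  ext x
  apply padicEmbedding_injective q
  rw [padicEmbedding_localGaloisToGlobal]
  apply hjinj
  show jA (τ₀ (padicEmbedding q x)) = jA (padicEmbedding q (σ x))
  rw [hτ₀, hτA, hjA, ← hι', hτh, hjA, hι']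

/-- The range of `localGaloisToGlobal q` is the decomposition subgroup of the `q`-adic place. -/
theorem range_localGaloisToGlobal :
    (localGaloisToGlobal q).range = (padicPlace q).decompositionSubgroup ℚ := by
  apply le_antisymm
  · rintro _ ⟨τ, rfl⟩
    exact localGaloisToGlobal_mem_decompositionSubgroup q τ
  · intro σ hσ
    obtain ⟨τ, hτ⟩ := exists_local_of_mem_decomposition q σ hσ
    exact ⟨τ, hτ⟩

theorem continuous_padicAlgCl_algEquiv (τ : PadicAlgCl q ≃ₐ[ℚ_[q]] PadicAlgCl q) :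
    Continuous τ := by
  have hiso : Isometry τ := by
    apply Isometry.of_dist_eq
    intro x y
    rw [dist_eq_norm, dist_eq_norm, ← map_sub]
    have := nnnorm_padicAlgCl_algEquiv q τ (x - y)
    exact congrArg NNReal.toReal this
  exact hiso.continuous

/-- `localGaloisToGlobal q` is injective. -/
theorem localGaloisToGlobal_injective : Function.Injective (localGaloisToGlobal q) := by
  rw [injective_iff_map_eq_one]
  intro τ hτ
  have h1 : ∀ x : AlgebraicClosure ℚ, τ (padicEmbedding q x) = padicEmbedding q x := by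
    intro x
    rw [← padicEmbedding_localGaloisToGlobal, hτ]
    rfl
  have h2 : (τ : PadicAlgCl q → PadicAlgCl q) = id :=
    DenseRange.equalizer (denseRange_padicEmbedding q) (continuous_padicAlgCl_algEquiv q τ)
      continuous_id (funext h1)
  ext y
  exact congrFun h2 y

/-- The local Galois group at `q` is isomorphic to the decomposition group of the `q`-adic
place of `ℚ̄`. -/
noncomputable def localGaloisEquivDecomposition :
    (PadicAlgCl q ≃ₐ[ℚ_[q]] PadicAlgCl q) ≃* (padicPlace q).decompositionSubgroup ℚ :=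
  (MonoidHom.ofInjective (localGaloisToGlobal_injective q)).trans
    (MulEquiv.subgroupCongr (range_localGaloisToGlobal q))

theorem localGaloisEquivDecomposition_apply (τ : PadicAlgCl q ≃ₐ[ℚ_[q]] PadicAlgCl q) :
    ((localGaloisEquivDecomposition q τ : (padicPlace q).decompositionSubgroup ℚ) :
      AlgebraicClosure ℚ ≃ₐ[ℚ] AlgebraicClosure ℚ) = localGaloisToGlobal q τ := rfl

end Fermat.Agent.S55.H175

end
-- ===== PACK-END S55/H175/LocalDecomp.lean

-- ===== PACK-BEGIN S55/H424/KummerIntermediate.lean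
section


/-!
# Kummer level for intermediate fields (input of `FIN-loc`)

`k₀` a field of characteristic zero with algebraic closure `Ω`.  Assume that for every finite
subextension `E / k₀` of `Ω` the group `Eˣ / (Eˣ)ⁿ` is finite (true for `k₀ = ℚ_q`).  Then for
every finite `E` there is a finite `E₁ ⊇ E` such that every map `φ : Gal(Ω/k₀) → ℤ/n` which is
additive on `Gal(Ω/E)` and vanishes on some `Gal(Ω/E')` (`E'` finite) vanishes on `Gal(Ω/E₁)`.

No root of unity is required in `E`: `E₁` contains `E(ζ_n)`.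
-/

set_option autoImplicit false
set_option linter.unusedSectionVars false
set_option linter.style.haveILetI false

namespace Fermat.Agent.S55.H424

section KummerIntermediate

variable {k₀ Ω : Type*} [Field k₀] [Field Ω] [Algebra k₀ Ω] [CharZero k₀] [IsAlgClosure k₀ Ω]

/-- An automorphism fixing an intermediate field `E`, as an `E`-algebra automorphism. -/
noncomputable def fixingToAlgEquiv (E : IntermediateField k₀ Ω) (g : Ω ≃ₐ[k₀] Ω)
    (hg : g ∈ E.fixingSubgroup) : Ω ≃ₐ[E] Ω :=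
  IntermediateField.fixingSubgroupEquiv E ⟨g, hg⟩

theorem fixingToAlgEquiv_apply (E : IntermediateField k₀ Ω) (g : Ω ≃ₐ[k₀] Ω)
    (hg : g ∈ E.fixingSubgroup) (x : Ω) : fixingToAlgEquiv E g hg x = g x := rfl

theorem restrictScalars_mem_fixingSubgroup (E : IntermediateField k₀ Ω) (σ : Ω ≃ₐ[E] Ω) :
    σ.restrictScalars k₀ ∈ E.fixingSubgroup := by
  rw [IntermediateField.mem_fixingSubgroup_iff]
  intro x hx
  exact σ.commutes ⟨x, hx⟩

theorem exists_kummer_level_intermediate (n : ℕ) (hn : n ≠ 0)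
    (hLPI : ∀ E : IntermediateField k₀ Ω, FiniteDimensional k₀ E →
      (powMonoidHom n : (↥E)ˣ →* (↥E)ˣ).range.index ≠ 0)
    (E : IntermediateField k₀ Ω) [FiniteDimensional k₀ E] :
    ∃ E₁ : IntermediateField k₀ Ω, FiniteDimensional k₀ E₁ ∧ E ≤ E₁ ∧
      ∀ φ : (Ω ≃ₐ[k₀] Ω) → ZMod n,
        (∀ g ∈ E.fixingSubgroup, ∀ h ∈ E.fixingSubgroup, φ (g * h) = φ g + φ h) →
        (∃ E' : IntermediateField k₀ Ω, FiniteDimensional k₀ E' ∧
          ∀ g ∈ E'.fixingSubgroup, φ g = 0) →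
        ∀ g ∈ E₁.fixingSubgroup, φ g = 0 := by
  classical
  haveI : IsAlgClosed Ω := IsAlgClosure.isAlgClosed k₀
  haveI : Algebra.IsAlgebraic k₀ Ω := IsAlgClosure.isAlgebraic
  haveI : CharZero Ω := charZero_of_injective_algebraMap (algebraMap k₀ Ω).injective
  haveI : NeZero (n : Ω) := ⟨Nat.cast_ne_zero.2 hn⟩
  obtain ⟨ζ, hζ⟩ := HasEnoughRootsOfUnity.exists_primitiveRoot Ω n
  -- the field `E(ζ)`
  let Z : IntermediateField k₀ Ω := IntermediateField.adjoin k₀ {ζ}
  haveI : FiniteDimensional k₀ Z :=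
    IntermediateField.adjoin.finiteDimensional (Algebra.IsIntegral.isIntegral ζ)
  let Ez : IntermediateField k₀ Ω := E ⊔ Z
  haveI : FiniteDimensional k₀ Ez := IntermediateField.finiteDimensional_sup E Z
  have hEEz : E ≤ Ez := le_sup_left
  have hζEz : ζ ∈ Ez :=
    (le_sup_right : Z ≤ Ez) (IntermediateField.subset_adjoin k₀ _ (Set.mem_singleton ζ))
  haveI : IsAlgClosure Ez Ω := ⟨inferInstance, inferInstance⟩
  have hζ' : IsPrimitiveRoot (⟨ζ, hζEz⟩ : Ez) n :=
    IsPrimitiveRoot.of_map_of_injective (f := algebraMap Ez Ω) (by exact hζ)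
      (algebraMap Ez Ω).injective
  obtain ⟨K', hK'fin, hK'⟩ :=
    exists_kummer_level_add (K := Ez) (Ω := Ω) n hn ⟨ζ, hζEz⟩ hζ' (hLPI Ez inferInstance)
  haveI := hK'fin
  refine ⟨K'.restrictScalars k₀, ?_, ?_, ?_⟩
  · -- finite-dimensionality
    haveI : Module.Finite Ez K' := hK'fin
    exact Module.Finite.trans (R := k₀) (A := Ez) (M := K')
  · intro x hx
    exact K'.algebraMap_mem (⟨x, hEEz hx⟩ : Ez)
  · rintro φ hφ ⟨E', hE'fin, hE'⟩ g hg
    haveI := hE'fin
    -- `g` fixes `Ez`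
    have hgEz : g ∈ Ez.fixingSubgroup := by
      rw [IntermediateField.mem_fixingSubgroup_iff]
      intro x hx
      exact (IntermediateField.mem_fixingSubgroup_iff _ g).1 hg x
        (K'.algebraMap_mem (⟨x, hx⟩ : Ez))
    -- the character on `Gal(Ω/Ez)`
    let φ' : (Ω ≃ₐ[Ez] Ω) → ZMod n := fun σ => φ (σ.restrictScalars k₀)
    have hφ' : ∀ σ τ : Ω ≃ₐ[Ez] Ω, φ' (σ * τ) = φ' σ + φ' τ := by
      intro σ τ
      have h1 : (σ * τ).restrictScalars k₀ = σ.restrictScalars k₀ * τ.restrictScalars k₀ := rfl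
      show φ ((σ * τ).restrictScalars k₀) = _
      rw [h1]
      exact hφ _ (IntermediateField.fixingSubgroup_le hEEz
        (restrictScalars_mem_fixingSubgroup Ez σ)) _
        (IntermediateField.fixingSubgroup_le hEEz (restrictScalars_mem_fixingSubgroup Ez τ))
    -- a finite level on which `φ'` vanishes
    let M₀ : IntermediateField k₀ Ω := E' ⊔ Ez
    haveI : FiniteDimensional k₀ M₀ := IntermediateField.finiteDimensional_sup E' Ez
    have hEzM₀ : Ez ≤ M₀ := le_sup_right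
    let M : IntermediateField Ez Ω := IntermediateField.extendScalars hEzM₀
    have hMfin : FiniteDimensional Ez M := by
      haveI : Module.Finite k₀ M := (inferInstance : FiniteDimensional k₀ M₀)
      exact Module.Finite.right k₀ Ez M
    have hM : ∀ σ ∈ M.fixingSubgroup, φ' σ = 0 := by
      intro σ hσ
      apply hE'
      rw [IntermediateField.mem_fixingSubgroup_iff]
      intro x hx
      have hxM : x ∈ M := (IntermediateField.mem_extendScalars hEzM₀).2
        ((le_sup_left : E' ≤ M₀) hx)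
      exact (IntermediateField.mem_fixingSubgroup_iff M σ).1 hσ x hxM
    have key := hK' φ' hφ' ⟨M, hMfin, hM⟩ (fixingToAlgEquiv Ez g hgEz) (by
      rw [IntermediateField.mem_fixingSubgroup_iff]
      intro x hx
      rw [fixingToAlgEquiv_apply]
      exact (IntermediateField.mem_fixingSubgroup_iff _ g).1 hg x hx)
    have hres : (fixingToAlgEquiv Ez g hgEz).restrictScalars k₀ = g := by
      apply AlgEquiv.ext
      intro x
      rfl
    show φ g = 0
    have : φ' (fixingToAlgEquiv Ez g hgEz) = φ g := by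
      show φ ((fixingToAlgEquiv Ez g hgEz).restrictScalars k₀) = φ g
      rw [hres]
    rw [← this]
    exact key

end KummerIntermediate

end Fermat.Agent.S55.H424

end
-- ===== PACK-END S55/H424/KummerIntermediate.lean

-- ===== PACK-BEGIN S55/Herbrand/Basic.lean
section


/-!
# Herbrand quotient, abstract form: short exact sequences, finite groups

Main results (all for additive commutative groups with endomorphisms `f, g`, `f ∘ g = g ∘ f = 0`):

* `hexagon_of_exact` : for a short exact sequence `0 → A → B → C → 0` compatible with `f, g`: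
  `h_f(A) * h_f(C) * h_g(B) = h_g(A) * h_g(C) * h_f(B)` (an identity in `ℕ`);
* `isDefined_of_exact_left/right/mid` : two-out-of-three;
* `q_mul_of_exact` : `q B = q A * q C`;
* `q_eq_one_of_finite` : the Herbrand quotient of a finite group is `1`.
-/

set_option autoImplicit false

namespace Fermat.Agent.S55.Herbrand

open AddSubgroup

variable {A B C : Type*} [AddCommGroup A] [AddCommGroup B] [AddCommGroup C]

/-- The Herbrand quotient of `(B, f, g)` is *defined* when `ker f / im g` and `ker g / im f`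
are both finite. -/
def IsDefined (f g : B →+ B) : Prop := hIndex f g ≠ 0 ∧ hIndex g f ≠ 0

/-- The Herbrand quotient `|ker f / im g| / |ker g / im f|` (junk value `0` if undefined). -/
noncomputable def q (f g : B →+ B) : ℚ := (hIndex f g : ℚ) / (hIndex g f : ℚ)

lemma IsDefined.symm {f g : B →+ B} (h : IsDefined f g) : IsDefined g f := ⟨h.2, h.1⟩

lemma IsDefined.q_ne_zero {f g : B →+ B} (h : IsDefined f g) : q f g ≠ 0 := by
  unfold q
  exact div_ne_zero (Nat.cast_ne_zero.2 h.1) (Nat.cast_ne_zero.2 h.2)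

lemma q_swap (f g : B →+ B) : q g f = (q f g)⁻¹ := by
  unfold q
  rw [inv_div]

section Exact

variable {fA gA : A →+ A} {fB gB : B →+ B} {fC gC : C →+ C}
variable {i : A →+ B} {p : B →+ C}

lemma hIndex_eq_hIndexSub (hi : Function.Injective i)
    (hif : ∀ a, i (fA a) = fB (i a)) (hig : ∀ a, i (gA a) = gB (i a)) :
    hIndex fA gA = hIndexSub fB gB i.range := by
  unfold hIndex hIndexSub
  rw [← relIndex_map_map_of_injective _ _ hi]
  have h1 : gA.range.map i = i.range.map gB := by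
    ext x
    simp only [AddSubgroup.mem_map, AddMonoidHom.mem_range]
    constructor
    · rintro ⟨_, ⟨a, rfl⟩, rfl⟩
      exact ⟨i a, ⟨a, rfl⟩, (hig a).symm⟩
    · rintro ⟨_, ⟨a, rfl⟩, rfl⟩
      exact ⟨gA a, ⟨a, rfl⟩, hig a⟩
  have h2 : fA.ker.map i = i.range ⊓ fB.ker := by
    ext x
    simp only [AddSubgroup.mem_map, AddSubgroup.mem_inf, AddMonoidHom.mem_range,
      AddMonoidHom.mem_ker]
    constructor
    · rintro ⟨a, ha, rfl⟩
      exact ⟨⟨a, rfl⟩, by rw [← hif, ha, map_zero]⟩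
    · rintro ⟨⟨a, rfl⟩, hx⟩
      exact ⟨a, hi (by rw [hif, hx, map_zero]), rfl⟩
  rw [h1, h2]

lemma hIndex_eq_hIndexQuot (hp : Function.Surjective p) (hex : p.ker = i.range)
    (hpf : ∀ b, p (fB b) = fC (p b)) (hpg : ∀ b, p (gB b) = gC (p b)) :
    hIndex fC gC = hIndexQuot fB gB i.range := by
  unfold hIndex hIndexQuot
  have h1 : gB.range ⊔ i.range = gC.range.comap p := by
    rw [← hex]
    ext x
    rw [AddSubgroup.mem_comap]
    constructor
    · intro hx
      obtain ⟨y, ⟨b, rfl⟩, z, hz, rfl⟩ := AddSubgroup.mem_sup.1 hx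
      rw [map_add, AddMonoidHom.mem_ker.1 hz, add_zero, hpg]
      exact ⟨p b, rfl⟩
    · rintro ⟨c, hc⟩
      obtain ⟨b, rfl⟩ := hp c
      refine AddSubgroup.mem_sup.2 ⟨gB b, ⟨b, rfl⟩, x - gB b, ?_, by abel⟩
      rw [AddMonoidHom.mem_ker, map_sub, hpg, hc, sub_self]
  have h2 : i.range.comap fB = fC.ker.comap p := by
    rw [← hex]
    ext x
    simp only [AddSubgroup.mem_comap, AddMonoidHom.mem_ker, hpf]
  rw [h1, h2, relIndex_comap, AddSubgroup.map_comap_eq,
    AddMonoidHom.range_eq_top.2 hp, top_inf_eq]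

/-- **Hexagon identity** for a short exact sequence `0 → A → B → C → 0` compatible with the
endomorphisms. -/
theorem hexagon_of_exact (hfg : ∀ b, fB (gB b) = 0) (hgf : ∀ b, gB (fB b) = 0)
    (hi : Function.Injective i) (hp : Function.Surjective p) (hex : p.ker = i.range)
    (hif : ∀ a, i (fA a) = fB (i a)) (hig : ∀ a, i (gA a) = gB (i a))
    (hpf : ∀ b, p (fB b) = fC (p b)) (hpg : ∀ b, p (gB b) = gC (p b)) :
    hIndex fA gA * hIndex fC gC * hIndex gB fB =
      hIndex gA fA * hIndex gC fC * hIndex fB gB := by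
  rw [hIndex_eq_hIndexSub hi hif hig, hIndex_eq_hIndexSub hi hig hif,
    hIndex_eq_hIndexQuot hp hex hpf hpg, hIndex_eq_hIndexQuot hp hex hpg hpf]
  refine hexagon hfg hgf ?_ ?_
  · rintro _ ⟨a, rfl⟩
    exact ⟨fA a, hif a⟩
  · rintro _ ⟨a, rfl⟩
    exact ⟨gA a, hig a⟩

/-- the six auxiliary factorizations, packaged: all three `hIndex` pairs are products of
six common numbers. -/
theorem exists_factorization (hfg : ∀ b, fB (gB b) = 0) (hgf : ∀ b, gB (fB b) = 0)
    (hi : Function.Injective i) (hp : Function.Surjective p) (hex : p.ker = i.range)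
    (hif : ∀ a, i (fA a) = fB (i a)) (hig : ∀ a, i (gA a) = gB (i a))
    (hpf : ∀ b, p (fB b) = fC (p b)) (hpg : ∀ b, p (gB b) = gC (p b)) :
    ∃ αf αg βf βg γf γg : ℕ,
      hIndex fA gA = αg * βf ∧ hIndex gA fA = αf * βg ∧
      hIndex fB gB = βf * γf ∧ hIndex gB fB = βg * γg ∧
      hIndex fC gC = γf * αf ∧ hIndex gC fC = γg * αg := by
  have hfA : ∀ a ∈ i.range, fB a ∈ i.range := by
    rintro _ ⟨a, rfl⟩
    exact ⟨fA a, hif a⟩
  have hgA : ∀ a ∈ i.range, gB a ∈ i.range := by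
    rintro _ ⟨a, rfl⟩
    exact ⟨gA a, hig a⟩
  refine ⟨auxAlpha fB i.range, auxAlpha gB i.range, auxBeta fB gB i.range,
    auxBeta gB fB i.range, auxGamma fB gB i.range, auxGamma gB fB i.range, ?_, ?_, ?_, ?_, ?_, ?_⟩
  · rw [hIndex_eq_hIndexSub hi hif hig, hIndexSub_eq hfg hgA]; rfl
  · rw [hIndex_eq_hIndexSub hi hig hif, hIndexSub_eq hgf hfA]; rfl
  · exact hIndex_eq hfg
  · exact hIndex_eq hgf
  · rw [hIndex_eq_hIndexQuot hp hex hpf hpg, hIndexQuot_eq hfg hfA]
  · rw [hIndex_eq_hIndexQuot hp hex hpg hpf, hIndexQuot_eq hgf hgA]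

variable (hfg : ∀ b, fB (gB b) = 0) (hgf : ∀ b, gB (fB b) = 0)
    (hi : Function.Injective i) (hp : Function.Surjective p) (hex : p.ker = i.range)
    (hif : ∀ a, i (fA a) = fB (i a)) (hig : ∀ a, i (gA a) = gB (i a))
    (hpf : ∀ b, p (fB b) = fC (p b)) (hpg : ∀ b, p (gB b) = gC (p b))

include hfg hgf hi hp hex hif hig hpf hpg

/-- two out of three: `A`, `C` defined ⟹ `B` defined. -/
theorem isDefined_mid (hA : IsDefined fA gA) (hC : IsDefined fC gC) : IsDefined fB gB := by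
  obtain ⟨αf, αg, βf, βg, γf, γg, h1, h2, h3, h4, h5, h6⟩ :=
    exists_factorization hfg hgf hi hp hex hif hig hpf hpg
  obtain ⟨a1, a2⟩ := hA
  obtain ⟨c1, c2⟩ := hC
  rw [h1] at a1; rw [h2] at a2; rw [h5] at c1; rw [h6] at c2
  refine ⟨?_, ?_⟩
  · rw [h3]; exact Nat.mul_ne_zero (right_ne_zero_of_mul a1) (left_ne_zero_of_mul c1)
  · rw [h4]; exact Nat.mul_ne_zero (right_ne_zero_of_mul a2) (left_ne_zero_of_mul c2)

/-- two out of three: `A`, `B` defined ⟹ `C` defined. -/
theorem isDefined_right (hA : IsDefined fA gA) (hB : IsDefined fB gB) : IsDefined fC gC := by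
  obtain ⟨αf, αg, βf, βg, γf, γg, h1, h2, h3, h4, h5, h6⟩ :=
    exists_factorization hfg hgf hi hp hex hif hig hpf hpg
  obtain ⟨a1, a2⟩ := hA
  obtain ⟨b1, b2⟩ := hB
  rw [h1] at a1; rw [h2] at a2; rw [h3] at b1; rw [h4] at b2
  refine ⟨?_, ?_⟩
  · rw [h5]; exact Nat.mul_ne_zero (right_ne_zero_of_mul b1) (left_ne_zero_of_mul a2)
  · rw [h6]; exact Nat.mul_ne_zero (right_ne_zero_of_mul b2) (left_ne_zero_of_mul a1)

/-- two out of three: `B`, `C` defined ⟹ `A` defined. -/
theorem isDefined_left (hB : IsDefined fB gB) (hC : IsDefined fC gC) : IsDefined fA gA := by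
  obtain ⟨αf, αg, βf, βg, γf, γg, h1, h2, h3, h4, h5, h6⟩ :=
    exists_factorization hfg hgf hi hp hex hif hig hpf hpg
  obtain ⟨b1, b2⟩ := hB
  obtain ⟨c1, c2⟩ := hC
  rw [h3] at b1; rw [h4] at b2; rw [h5] at c1; rw [h6] at c2
  refine ⟨?_, ?_⟩
  · rw [h1]; exact Nat.mul_ne_zero (right_ne_zero_of_mul c2) (left_ne_zero_of_mul b1)
  · rw [h2]; exact Nat.mul_ne_zero (right_ne_zero_of_mul c1) (left_ne_zero_of_mul b2)

/-- **Multiplicativity of the Herbrand quotient** in short exact sequences. -/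
theorem q_mul_of_exact (hA : IsDefined fA gA) (hC : IsDefined fC gC) :
    q fB gB = q fA gA * q fC gC := by
  obtain ⟨αf, αg, βf, βg, γf, γg, h1, h2, h3, h4, h5, h6⟩ :=
    exists_factorization hfg hgf hi hp hex hif hig hpf hpg
  obtain ⟨a1, a2⟩ := hA
  obtain ⟨c1, c2⟩ := hC
  unfold q
  rw [h1] at a1 ⊢; rw [h2] at a2 ⊢; rw [h5] at c1 ⊢; rw [h6] at c2 ⊢
  rw [h3, h4]
  have hαf : (αf : ℚ) ≠ 0 := Nat.cast_ne_zero.2 (left_ne_zero_of_mul a2)
  have hαg : (αg : ℚ) ≠ 0 := Nat.cast_ne_zero.2 (left_ne_zero_of_mul a1)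
  have hβf : (βf : ℚ) ≠ 0 := Nat.cast_ne_zero.2 (right_ne_zero_of_mul a1)
  have hβg : (βg : ℚ) ≠ 0 := Nat.cast_ne_zero.2 (right_ne_zero_of_mul a2)
  have hγf : (γf : ℚ) ≠ 0 := Nat.cast_ne_zero.2 (left_ne_zero_of_mul c1)
  have hγg : (γg : ℚ) ≠ 0 := Nat.cast_ne_zero.2 (left_ne_zero_of_mul c2)
  push_cast
  field_simp

end Exact

section Finite

variable (f g : B →+ B)

lemma hIndex_mul_card_range (hfg : ∀ b, f (g b) = 0) :
    hIndex f g * Nat.card g.range = Nat.card f.ker := by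
  unfold hIndex
  have h := AddSubgroup.relIndex_mul_relIndex (⊥ : AddSubgroup B) g.range f.ker bot_le
    (range_le_ker hfg)
  rw [relIndex_bot_left, relIndex_bot_left] at h
  rw [mul_comm, h]

/-- The Herbrand quotient of a finite group is defined and equal to `1`:
`[ker f : im g] = [ker g : im f]`. -/
theorem hIndex_comm_of_finite [Finite B] (hfg : ∀ b, f (g b) = 0) (hgf : ∀ b, g (f b) = 0) :
    hIndex f g = hIndex g f := by
  have h1 := hIndex_mul_card_range f g hfg
  have h2 := hIndex_mul_card_range g f hgf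
  have k1 : Nat.card f.ker * Nat.card f.range = Nat.card B := by
    have := AddSubgroup.card_mul_index f.ker
    rwa [AddSubgroup.index_ker] at this
  have k2 : Nat.card g.ker * Nat.card g.range = Nat.card B := by
    have := AddSubgroup.card_mul_index g.ker
    rwa [AddSubgroup.index_ker] at this
  have hpos1 : Nat.card f.range ≠ 0 := Nat.card_pos.ne'
  have hpos2 : Nat.card g.range ≠ 0 := Nat.card_pos.ne'
  have : hIndex f g * (Nat.card g.range * Nat.card f.range) =
      hIndex g f * (Nat.card g.range * Nat.card f.range) := by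
    calc hIndex f g * (Nat.card g.range * Nat.card f.range)
        = (hIndex f g * Nat.card g.range) * Nat.card f.range := by ring
      _ = Nat.card B := by rw [h1, k1]
      _ = (hIndex g f * Nat.card f.range) * Nat.card g.range := by rw [h2, k2]
      _ = hIndex g f * (Nat.card g.range * Nat.card f.range) := by ring
  exact Nat.eq_of_mul_eq_mul_right (Nat.pos_of_ne_zero (Nat.mul_ne_zero hpos2 hpos1)) this

lemma hIndex_ne_zero_of_finite [Finite B] : hIndex f g ≠ 0 := by
  unfold hIndex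
  intro h
  have : (g.range.addSubgroupOf f.ker).index = 0 := h
  exact (AddSubgroup.index_ne_zero_of_finite (H := g.range.addSubgroupOf f.ker)) this

theorem isDefined_of_finite [Finite B] : IsDefined f g :=
  ⟨hIndex_ne_zero_of_finite f g, hIndex_ne_zero_of_finite g f⟩

theorem q_eq_one_of_finite [Finite B] (hfg : ∀ b, f (g b) = 0) (hgf : ∀ b, g (f b) = 0) :
    q f g = 1 := by
  unfold q
  rw [hIndex_comm_of_finite f g hfg hgf]
  exact div_self (Nat.cast_ne_zero.2 (hIndex_ne_zero_of_finite g f))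

end Finite

end Fermat.Agent.S55.Herbrand

end
-- ===== PACK-END S55/Herbrand/Basic.lean

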