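import Fermat.Prelude.Def_GaloisRep_DeformationCondition
import Mathlib
import Fermat.Prelude.Def_FLTPrelim_Ramification
import Fermat.Agent.Pack.S56.E0L1
import Fermat.Agent.Pack.S56.E0L0
import Fermat.Agent.Pack.S56.E0L3
import Fermat.Agent.Pack.S56.E0L2
import Fermat.Agent.Pack.S56.E1L2
import Fermat.Agent.Pack.S56.E1L0
import Fermat.Agent.Pack.S56.E1L1

-- ===== PACK-BEGIN Lib/Cheb/H943/Frob.lean
section


/-!
# CHEB piece D: `Spec.FrobStatement` (helper943)

Outside the finite set of prime divisors of the absolute norm of the different ideal of a Galois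
number field `L/ℚ`, every prime `P` of `𝓞 L` has trivial inertia group, an arithmetic Frobenius
`τ`, and decomposition group `zpowers τ`.

Ingredients (all Mathlib): `not_dvd_differentIdeal_iff` (unramified ⇔ not dividing the
different), `AlgHom.IsArithFrobAt.eq_of_isUnramifiedAt` (uniqueness of Frobenius),
`IsArithFrobAt.exists_of_isInvariant` (existence), `Ideal.Quotient.stabilizerHom` and
`FiniteField.bijective_frobeniusAlgEquivOfAlgebraic_pow` (Galois groups of finite fields are
generated by Frobenius).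
-/

set_option autoImplicit false
set_option linter.unusedSectionVars false
set_option linter.style.haveILetI false

open NumberField
open scoped Pointwise

namespace Fermat.Agent.Lib.Cheb.H943

section Bad

attribute [local instance] FractionRing.liftAlgebra

variable (L : Type) [Field L] [NumberField L]

/-- The bad number: the absolute norm of the different ideal (`= |discr L|`). -/
noncomputable def badNat : ℕ := Ideal.absNorm (differentIdeal ℤ (𝓞 L))

lemma badNat_ne_zero : badNat L ≠ 0 := by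
  unfold badNat
  rw [Ne, Ideal.absNorm_eq_zero_iff]
  exact differentIdeal_ne_bot

variable {L}

/-- A rational prime contained in a prime ideal divides its absolute norm. -/
lemma prime_dvd_absNorm {p : ℕ} (hp : p.Prime) {P : Ideal (𝓞 L)} (hP : P.IsPrime)
    (hpP : (p : 𝓞 L) ∈ P) : p ∣ Ideal.absNorm P := by
  by_contra h
  have hcop : Nat.Coprime p (Ideal.absNorm P) := (Nat.Prime.coprime_iff_not_dvd hp).mpr h
  have h1 : ((Nat.gcd p (Ideal.absNorm P) : ℤ) : 𝓞 L) ∈ P := by
    rw [Nat.gcd_eq_gcd_ab]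
    push_cast
    exact P.add_mem (P.mul_mem_right _ hpP) (P.mul_mem_right _ (Ideal.absNorm_mem P))
  rw [hcop] at h1
  simp only [Nat.cast_one, Int.cast_one] at h1
  exact hP.ne_top ((Ideal.eq_top_iff_one P).mpr h1)

/-- Primes not dividing `badNat L` are unramified in `L`. -/
lemma isUnramifiedAt_of_not_dvd_badNat {p : ℕ} (hp : p.Prime) (hpB : ¬ p ∣ badNat L)
    {P : Ideal (𝓞 L)} [hP : P.IsPrime] (hpP : (p : 𝓞 L) ∈ P) :
    Algebra.IsUnramifiedAt ℤ P := by
  rw [← not_dvd_differentIdeal_iff]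
  intro hdvd
  apply hpB
  exact (prime_dvd_absNorm hp hP hpP).trans
    (Ideal.absNorm_dvd_absNorm_of_le (Ideal.le_of_dvd hdvd))

end Bad

variable {L : Type} [Field L] [NumberField L] [IsGalois ℚ L]

lemma faithful_gal : FaithfulSMul (L ≃ₐ[ℚ] L) (𝓞 L) :=
  IsGaloisGroup.faithful ℤ

lemma prime_ne_bot {p : ℕ} (hp : p.Prime) {P : Ideal (𝓞 L)} (hpP : (p : 𝓞 L) ∈ P) : P ≠ ⊥ := by
  rintro rfl
  rw [Ideal.mem_bot] at hpP
  exact hp.ne_zero (by exact_mod_cast hpP)

lemma finite_quot {p : ℕ} (hp : p.Prime) {P : Ideal (𝓞 L)} (hpP : (p : 𝓞 L) ∈ P) :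
    Finite (𝓞 L ⧸ P) :=
  Ideal.finiteQuotientOfFreeOfNeBot P (prime_ne_bot hp hpP)

/-- Existence of an arithmetic Frobenius at every prime above `p`. -/
lemma exists_isArithFrobAt {p : ℕ} (hp : p.Prime) {P : Ideal (𝓞 L)} [hP : P.IsPrime]
    (hpP : (p : 𝓞 L) ∈ P) : ∃ τ : L ≃ₐ[ℚ] L, IsArithFrobAt ℤ τ P := by
  haveI := finite_quot hp hpP
  exact IsArithFrobAt.exists_of_isInvariant ℤ (L ≃ₐ[ℚ] L) P

/-- Inertia is trivial at an unramified prime. -/
lemma inertiaTrivial_of_isUnramifiedAt {p : ℕ} (hp : p.Prime) {P : Ideal (𝓞 L)} [hP : P.IsPrime]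
    (hpP : (p : 𝓞 L) ∈ P) [Algebra.IsUnramifiedAt ℤ P] : Spec.InertiaTrivial L P := by
  intro ι hι
  obtain ⟨τ, hτ⟩ := exists_isArithFrobAt hp hpP
  have hιτ : IsArithFrobAt ℤ (ι * τ) P := by
    intro x
    have h1 := hι (τ • x)
    have h2 := hτ x
    have : (MulSemiringAction.toAlgHom ℤ (𝓞 L) (ι * τ)) x - x ^ Nat.card (ℤ ⧸ P.under ℤ)
        = (ι • (τ • x) - τ • x) + ((MulSemiringAction.toAlgHom ℤ (𝓞 L) τ) x
            - x ^ Nat.card (ℤ ⧸ P.under ℤ)) := by
      simp [mul_smul]
    rw [this]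
    exact P.add_mem h1 h2
  have heq := AlgHom.IsArithFrobAt.eq_of_isUnramifiedAt hιτ hτ
    (by intro x hx; exact mem_nonZeroDivisors_of_ne_zero (by rintro rfl; exact hx P.zero_mem))
  haveI := faithful_gal (L := L)
  have h3 : ι * τ = τ := by
    apply FaithfulSMul.eq_of_smul_eq_smul (α := 𝓞 L)
    intro x
    exact DFunLike.congr_fun heq x
  simpa using h3

attribute [local instance] Ideal.Quotient.field in
/-- If the inertia group is trivial, the decomposition group is generated by any Frobenius. -/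
lemma decomp_eq_zpowers {p : ℕ} (hp : p.Prime) {P : Ideal (𝓞 L)} [hP : P.IsPrime]
    (hpP : (p : 𝓞 L) ∈ P) (hI : Spec.InertiaTrivial L P) {τ : L ≃ₐ[ℚ] L}
    (hτ : IsArithFrobAt ℤ τ P) : Spec.decomp L P = Subgroup.zpowers τ := by
  have hne : P ≠ ⊥ := prime_ne_bot hp hpP
  haveI hmax : P.IsMaximal := Ideal.IsPrime.isMaximal hP hne
  haveI : Finite (𝓞 L ⧸ P) := Ideal.finiteQuotientOfFreeOfNeBot P hne
  haveI hmax' : (P.under ℤ).IsMaximal := Ideal.IsMaximal.under ℤ P
  haveI : Finite (ℤ ⧸ P.under ℤ) := hτ.finite_quotient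
  letI : Fintype (ℤ ⧸ P.under ℤ) := Fintype.ofFinite _
  have hτmem : τ ∈ MulAction.stabilizer (L ≃ₐ[ℚ] L) P := hτ.mem_stabilizer
  apply le_antisymm
  · intro σ hσ
    obtain ⟨n, hn⟩ := (FiniteField.bijective_frobeniusAlgEquivOfAlgebraic_pow
      (ℤ ⧸ P.under ℤ) (𝓞 L ⧸ P)).2
      (Ideal.Quotient.stabilizerHom P (P.under ℤ) (L ≃ₐ[ℚ] L) ⟨σ, hσ⟩)
    have hfrob : Ideal.Quotient.stabilizerHom P (P.under ℤ) (L ≃ₐ[ℚ] L) ⟨τ, hτmem⟩
        = FiniteField.frobeniusAlgEquivOfAlgebraic (ℤ ⧸ P.under ℤ) (𝓞 L ⧸ P) := by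
      ext x
      obtain ⟨y, rfl⟩ := Ideal.Quotient.mk_surjective x
      rw [FiniteField.coe_frobeniusAlgEquivOfAlgebraic]
      simp only [Ideal.Quotient.stabilizerHom_apply]
      rw [← Nat.card_eq_fintype_card]
      exact hτ.mk_apply y
    have hker : Ideal.Quotient.stabilizerHom P (P.under ℤ) (L ≃ₐ[ℚ] L)
        (⟨σ, hσ⟩ * (⟨τ, hτmem⟩ ^ n.1)⁻¹) = 1 := by
      rw [map_mul, map_inv, map_pow, hfrob]
      simp only at hn
      rw [hn, mul_inv_cancel]
    have h1 : σ * (τ ^ n.1)⁻¹ = 1 := by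
      apply hI
      intro x
      have := DFunLike.congr_fun hker (Ideal.Quotient.mk P x)
      simp only [Ideal.Quotient.stabilizerHom_apply, AlgEquiv.one_apply] at this
      rw [Ideal.Quotient.eq] at this
      exact this
    rw [mul_inv_eq_one] at h1
    rw [h1]
    exact Subgroup.pow_mem _ (Subgroup.mem_zpowers τ) _
  · rw [Subgroup.zpowers_le]
    exact hτmem

/-- Piece D with an explicit bad set: all conclusions at every prime not dividing `badNat L`. -/
theorem frob_of_not_dvd_badNat {p : ℕ} (hp : p.Prime) (hpB : ¬ p ∣ badNat L)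
    (P : Ideal (𝓞 L)) (hP : P.IsPrime) (hpP : (p : 𝓞 L) ∈ P) :
    Algebra.IsUnramifiedAt ℤ P ∧ Spec.InertiaTrivial L P ∧
      ∃ τ : L ≃ₐ[ℚ] L, IsArithFrobAt ℤ τ P ∧ Spec.decomp L P = Subgroup.zpowers τ := by
  haveI := hP
  haveI hU : Algebra.IsUnramifiedAt ℤ P := isUnramifiedAt_of_not_dvd_badNat hp hpB hpP
  have hI := inertiaTrivial_of_isUnramifiedAt hp hpP
  obtain ⟨τ, hτ⟩ := exists_isArithFrobAt hp hpP
  exact ⟨hU, hI, τ, hτ, decomp_eq_zpowers hp hpP hI hτ⟩

/-- **Piece D** of row CHEB: `Spec.FrobStatement`. -/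
theorem frobStatement : Spec.FrobStatement := by
  intro L _ _ _
  refine ⟨(badNat L).primeFactors, fun p hp hpB P hP hpP => ?_⟩
  have hpB' : ¬ p ∣ badNat L := fun h =>
    hpB (Nat.mem_primeFactors.mpr ⟨hp, h, badNat_ne_zero L⟩)
  obtain ⟨-, hI, hτ⟩ := frob_of_not_dvd_badNat hp hpB' P hP hpP
  exact ⟨hI, hτ⟩

end Fermat.Agent.Lib.Cheb.H943

end
-- ===== PACK-END Lib/Cheb/H943/Frob.lean

-- ===== PACK-BEGIN S53/DictTan.lean
section



set_option autoImplicit false
set_option linter.unusedSectionVars false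

namespace Fermat.Agent.S53

open IsLocalRing GaloisRep

section Tan

variable (𝒪 : Type) [CommRing 𝒪] [IsLocalRing 𝒪]

/-- The `𝒪`-algebra structure on the dual numbers over the residue field which is used in the
Prelude definition `GaloisRep.TangentFinite` (there it is a `letI`). -/
@[reducible] noncomputable def dualAlgebra : Algebra 𝒪 (DualNumber (ResidueField 𝒪)) :=
  ((algebraMap (ResidueField 𝒪) (DualNumber (ResidueField 𝒪))).comp
    (algebraMap 𝒪 (ResidueField 𝒪))).toAlgebra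

/-- The `k`-algebra structure on the residue field of the dual numbers which is used in the
Prelude definition `GaloisRep.TangentFinite` (there it is a `letI`). -/
@[reducible] noncomputable def dualResAlgebra :
    Algebra (ResidueField 𝒪) (ResidueField (DualNumber (ResidueField 𝒪))) :=
  ((IsLocalRing.residue (DualNumber (ResidueField 𝒪))).comp
    (algebraMap (ResidueField 𝒪) (DualNumber (ResidueField 𝒪)))).toAlgebra

lemma dualAlgebra_algebraMap_apply (x : 𝒪) :
    @algebraMap 𝒪 (DualNumber (ResidueField 𝒪)) _ _ (dualAlgebra 𝒪) x =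
      algebraMap (ResidueField 𝒪) (DualNumber (ResidueField 𝒪)) (residue 𝒪 x) := rfl

theorem isLocalHom_dualAlgebra :
    IsLocalHom (@algebraMap 𝒪 (DualNumber (ResidueField 𝒪)) _ _ (dualAlgebra 𝒪)) := by
  refine ⟨fun x hx => ?_⟩
  rw [dualAlgebra_algebraMap_apply] at hx
  rw [← residue_ne_zero_iff_isUnit]
  intro h0
  rw [h0, map_zero] at hx
  exact not_isUnit_zero hx

theorem residue_dualAlgebra_surjective :
    Function.Surjective (IsLocalRing.residue (DualNumber (ResidueField 𝒪)) ∘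
      @algebraMap 𝒪 (DualNumber (ResidueField 𝒪)) _ _ (dualAlgebra 𝒪)) := by
  intro y
  obtain ⟨z, rfl⟩ := residue_surjective y
  obtain ⟨a, ha⟩ := residue_surjective (TrivSqZeroExt.fst z)
  refine ⟨a, ?_⟩
  rw [Function.comp_apply, dualAlgebra_algebraMap_apply, ha, ← sub_eq_zero, ← map_sub,
    residue_eq_zero_iff, DualNumber.maximalIdeal_eq_span_singleton_eps,
    Ideal.mem_span_singleton, ← DualNumber.fst_eq_zero_iff_eps_dvd]
  simp [TrivSqZeroExt.algebraMap_eq_inl]

/-- The two ring homomorphisms `k → ResidueField k[ε]` (the one of `TangentFinite` and the one of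
`DeformationRingData`) agree. -/
theorem dual_residueMap_eq :
    (IsLocalRing.residue (DualNumber (ResidueField 𝒪))).comp
      (algebraMap (ResidueField 𝒪) (DualNumber (ResidueField 𝒪))) =
    @ResidueField.map 𝒪 (DualNumber (ResidueField 𝒪)) _ _ _ _
      (@algebraMap 𝒪 (DualNumber (ResidueField 𝒪)) _ _ (dualAlgebra 𝒪))
      (isLocalHom_dualAlgebra 𝒪) := by
  have _ := isLocalHom_dualAlgebra 𝒪
  apply RingHom.ext
  intro y
  obtain ⟨a, rfl⟩ := residue_surjective y
  rw [ResidueField.map_residue]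
  rfl

theorem isArtinianRing_dualNumber (k : Type) [Field k] : IsArtinianRing (DualNumber k) := by
  have _ : Module.Finite k (DualNumber k) := inferInstanceAs (Module.Finite k (k × k))
  exact IsArtinianRing.of_finite k (DualNumber k)

/-- The dual numbers, with the algebra structure of `TangentFinite`, are an Artinian test
algebra. -/
theorem isArtinianTestAlgebra_dualNumber :
    @IsArtinianTestAlgebra 𝒪 _ (DualNumber (ResidueField 𝒪)) _ _ (dualAlgebra 𝒪) := by
  letI : Algebra 𝒪 (DualNumber (ResidueField 𝒪)) := dualAlgebra 𝒪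
  exact ⟨isLocalHom_dualAlgebra 𝒪, residue_dualAlgebra_surjective 𝒪,
    isArtinianRing_dualNumber (ResidueField 𝒪)⟩

variable {𝒪}

/-- **Tangent bridge.** From `TangentFinite`, any family of pairwise inequivalent matrix liftings
of type `𝒟` to the dual numbers (with the algebra structure `dualAlgebra 𝒪`) is finite. -/
theorem finite_of_tangentFinite (ρbar : ResidualGaloisRep (ResidueField 𝒪))
    (𝒟 : ∀ ⦃A : Type⦄ [CommRing A] [IsLocalRing A] [Algebra 𝒪 A], GaloisRepAdic A → Prop)
    (hfin : TangentFinite 𝒪 ρbar 𝒟)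
    (rb : GQ →* M2 (ResidueField 𝒪)) (hrb : GaloisFactorsThroughFiniteLevel rb)
    (hρbar : ρbar.IsEquiv (toRes rb hrb))
    (X : Type) (f : X → GQ →* M2 (DualNumber (ResidueField 𝒪))) (hc : ∀ x, MatCont (f x))
    (hl : ∀ x σ, (f x σ).map (IsLocalRing.residue (DualNumber (ResidueField 𝒪))) =
      (rb σ).map (@ResidueField.map 𝒪 (DualNumber (ResidueField 𝒪)) _ _ _ _
        (@algebraMap 𝒪 (DualNumber (ResidueField 𝒪)) _ _ (dualAlgebra 𝒪))
        (isLocalHom_dualAlgebra 𝒪)))
    (hD : ∀ x, @𝒟 (DualNumber (ResidueField 𝒪)) _ _ (dualAlgebra 𝒪) (toAdic (f x) (hc x)))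
    (hinj : ∀ x y, (toAdic (f x) (hc x)).IsEquiv (toAdic (f y) (hc y)) → x = y) :
    Finite X := by
  let _ : Algebra 𝒪 (DualNumber (ResidueField 𝒪)) := dualAlgebra 𝒪
  have _ : IsLocalHom (algebraMap 𝒪 (DualNumber (ResidueField 𝒪))) := isLocalHom_dualAlgebra 𝒪
  have hres : ∀ x, (toAdic (f x) (hc x)).residual.IsEquiv
      (ρbar.baseChangeAlong ((IsLocalRing.residue (DualNumber (ResidueField 𝒪))).comp
        (algebraMap (ResidueField 𝒪) (DualNumber (ResidueField 𝒪))))) := by
    intro x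
    rw [dual_residueMap_eq]
    exact residual_isEquiv_of_lift ρbar rb hrb hρbar (f x) (hc x) (hl x)
  unfold TangentFinite at hfin
  refine @Finite.of_injective _ _ hfin (fun x => Quotient.mk _ ⟨toAdic (f x) (hc x), hD x, hres x⟩)
    ?_
  intro x y hxy
  exact hinj x y (Quotient.exact hxy)

end Tan

end Fermat.Agent.S53

end
-- ===== PACK-END S53/DictTan.lean

-- ===== PACK-BEGIN S56/H596/Cotangent.lean
section



/-!
# S56, piece TAN/T1 (helper596): tangent count ⟹ quotient of a power series ring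

Let `𝒪` be a complete Noetherian local ring with residue field `k`, and let `R` be a complete
Noetherian local `𝒪`-algebra with `𝒪 → R` local and `𝒪 → R/𝔪_R` onto.  If there are at most
`|k| ^ r` homomorphisms of `𝒪`-algebras `R → k[ε]`, then `R` is a quotient of
`𝒪⟦X₁, …, X_r⟧`.

Main statements (all in `Fermat.Agent.S56.H596`):
* `exists_algHom_dualNumber_of_min`   : for a minimal system `x` of generators of `𝔪_R` modulo
  `𝔪_𝒪 R + 𝔪_R²` and any `c : Fin d → k` there is `φ : R →ₐ[𝒪] k[ε]` with `φ (x i) = c i • ε`;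
* `exists_surjective_of_forall_injective_le` : the injective-family form of the tangent bound;
* `exists_surjective_of_card_le`, `exists_surjective_of_finrank_le` : counting forms.
-/

set_option autoImplicit false
set_option linter.unusedSectionVars false
set_option linter.unusedVariables false
set_option linter.style.haveILetI false

namespace Fermat.Agent.S56.H596

noncomputable section

open IsLocalRing Fermat.Agent.S53.H596

/-! ### Linear part of a power series -/

section LinPart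

variable {σ : Type*} [Fintype σ] [DecidableEq σ] {𝒪 : Type*} [CommRing 𝒪]

/-- The part of total degree `≤ 1` of a power series. -/
def linPart (f : MvPowerSeries σ 𝒪) : MvPowerSeries σ 𝒪 :=
  MvPowerSeries.C (MvPowerSeries.coeff 0 f) +
    ∑ i, MvPowerSeries.C (MvPowerSeries.coeff (Finsupp.single i 1) f) * MvPowerSeries.X i

theorem eq_zero_or_single_of_degree_lt_two (e : σ →₀ ℕ) (he : e.degree < 2) :
    e = 0 ∨ ∃ i, e = Finsupp.single i 1 := by
  by_cases h0 : e = 0
  · exact Or.inl h0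
  right
  obtain ⟨i, hi⟩ : ∃ i, e i ≠ 0 := by
    by_contra hcon
    simp only [not_exists, not_not] at hcon
    exact h0 (Finsupp.ext hcon)
  refine ⟨i, ?_⟩
  have hsum : e.degree = ∑ j, e j := Finsupp.degree_eq_sum e
  have hsplit : ∑ j, e j = e i + ∑ j ∈ Finset.univ.erase i, e j :=
    (Finset.add_sum_erase _ _ (Finset.mem_univ i)).symm
  have hi1 : e i = 1 := by omega
  have hrest : ∑ j ∈ Finset.univ.erase i, e j = 0 := by omega
  ext j
  by_cases hji : j = i
  · subst hji
    simp [hi1]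
  · have : e j = 0 := by
      have := (Finset.sum_eq_zero_iff.1 hrest) j (Finset.mem_erase.2 ⟨hji, Finset.mem_univ j⟩)
      exact this
    rw [this, Finsupp.single_apply, if_neg (fun h => hji h.symm)]

theorem coeff_zero_linPart (f : MvPowerSeries σ 𝒪) :
    MvPowerSeries.coeff 0 (linPart f) = MvPowerSeries.coeff 0 f := by
  classical
  simp [linPart]

theorem coeff_single_linPart (f : MvPowerSeries σ 𝒪) (j : σ) :
    MvPowerSeries.coeff (Finsupp.single j 1) (linPart f) =
      MvPowerSeries.coeff (Finsupp.single j 1) f := by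
  classical
  simp [linPart, MvPowerSeries.coeff_C, MvPowerSeries.coeff_C_mul, MvPowerSeries.coeff_X,
    Finsupp.single_left_inj, Finset.sum_ite_eq]

theorem sub_linPart_mem_span_X_sq (f : MvPowerSeries σ 𝒪) :
    f - linPart f ∈
      (Ideal.span (Set.range (MvPowerSeries.X : σ → MvPowerSeries σ 𝒪))) ^ 2 := by
  have h := sub_truncTotal_mem_span_X_pow 2 (f - linPart f)
  have h0 : (MvPowerSeries.truncTotal 2 (f - linPart f) : MvPolynomial σ 𝒪) = 0 := by
    ext e
    rw [MvPolynomial.coeff_zero]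
    by_cases he : e.degree < 2
    · rw [MvPowerSeries.coeff_truncTotal _ he, map_sub, sub_eq_zero]
      rcases eq_zero_or_single_of_degree_lt_two e he with rfl | ⟨i, rfl⟩
      · exact (coeff_zero_linPart f).symm
      · exact (coeff_single_linPart f i).symm
    · exact MvPowerSeries.coeff_truncTotal_eq_zero _ (not_lt.1 he)
  rw [h0] at h
  simpa using h

/-- Any algebra map out of `𝒪⟦X⟧` sending the variables into an ideal `I` is, modulo `I²`,
given by the linear part. -/
theorem map_sub_linear_mem_sq {A : Type*} [CommRing A] [Algebra 𝒪 A]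
    (χ : MvPowerSeries σ 𝒪 →ₐ[𝒪] A) (I : Ideal A) (hχ : ∀ i, χ (MvPowerSeries.X i) ∈ I)
    (f : MvPowerSeries σ 𝒪) :
    χ f - (algebraMap 𝒪 A (MvPowerSeries.coeff 0 f) +
      ∑ i, algebraMap 𝒪 A (MvPowerSeries.coeff (Finsupp.single i 1) f) *
        χ (MvPowerSeries.X i)) ∈ I ^ 2 := by
  have hC : ∀ a : 𝒪, χ (MvPowerSeries.C a) = algebraMap 𝒪 A a := by
    intro a
    have : (MvPowerSeries.C a : MvPowerSeries σ 𝒪) = algebraMap 𝒪 (MvPowerSeries σ 𝒪) a := by
      rw [MvPowerSeries.algebraMap_apply]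
      rfl
    rw [this, AlgHom.commutes]
  have hlin : χ (linPart f) = algebraMap 𝒪 A (MvPowerSeries.coeff 0 f) +
      ∑ i, algebraMap 𝒪 A (MvPowerSeries.coeff (Finsupp.single i 1) f) *
        χ (MvPowerSeries.X i) := by
    simp only [linPart, map_add, map_sum, map_mul, hC]
  rw [← hlin, ← map_sub]
  have hle : Ideal.map χ (Ideal.span (Set.range (MvPowerSeries.X : σ → MvPowerSeries σ 𝒪))) ≤ I := by
    rw [Ideal.map_span, Ideal.span_le]
    rintro _ ⟨_, ⟨i, rfl⟩, rfl⟩
    exact hχ i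
  have h1 : χ (f - linPart f) ∈ Ideal.map χ
      ((Ideal.span (Set.range (MvPowerSeries.X : σ → MvPowerSeries σ 𝒪))) ^ 2) :=
    Ideal.mem_map_of_mem _ (sub_linPart_mem_span_X_sq f)
  rw [Ideal.map_pow] at h1
  exact Ideal.pow_right_mono hle 2 h1

end LinPart

/-! ### Minimal systems of generators of the relative cotangent space -/

section Gen

variable (𝒪 : Type*) [CommRing 𝒪] [IsLocalRing 𝒪]
variable (R : Type*) [CommRing R] [IsLocalRing R] [Algebra 𝒪 R]

/-- `GenProp 𝒪 R d`: the maximal ideal of `R` is generated, modulo `𝔪_𝒪 R + 𝔪_R²`, by `d`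
elements. -/
def GenProp (d : ℕ) : Prop :=
  ∃ x : Fin d → R, (∀ i, x i ∈ maximalIdeal R) ∧
    maximalIdeal R ≤ Ideal.map (algebraMap 𝒪 R) (maximalIdeal 𝒪) ⊔
      Ideal.span (Set.range x) ⊔ maximalIdeal R ^ 2

variable {𝒪 R}

theorem exists_genProp [IsNoetherianRing R] : ∃ d, GenProp 𝒪 R d := by
  obtain ⟨n, s, hs⟩ := Submodule.fg_iff_exists_fin_generating_family.1
    (IsNoetherian.noetherian (maximalIdeal R))
  refine ⟨n, s, fun i => ?_, ?_⟩
  · rw [← hs]
    exact Submodule.subset_span ⟨i, rfl⟩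
  · have : maximalIdeal R = Ideal.span (Set.range s) := hs.symm
    rw [this]
    exact le_sup_of_le_left le_sup_right

theorem GenProp.mono {d r : ℕ} (hdr : d ≤ r) (h : GenProp 𝒪 R d) : GenProp 𝒪 R r := by
  obtain ⟨x, hx, hgen⟩ := h
  refine ⟨fun i => if h : (i : ℕ) < d then x ⟨i, h⟩ else 0, fun i => ?_, ?_⟩
  · by_cases h : (i : ℕ) < d
    · simp only [h, dif_pos]
      exact hx _
    · simp only [h, dif_neg, not_false_eq_true]
      exact Ideal.zero_mem _
  · refine hgen.trans (sup_le_sup_right (sup_le_sup_left ?_ _) _)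
    rw [Ideal.span_le]
    rintro _ ⟨i, rfl⟩
    apply Ideal.subset_span
    refine ⟨⟨i, lt_of_lt_of_le i.2 hdr⟩, ?_⟩
    simp

/-- **Independence from minimality.** If `x` is a system of `d` generators of `𝔪_R` modulo
`𝔪_𝒪 R + 𝔪_R²` and no system with fewer elements exists, then an `𝒪`-linear combination of the
`x i` lying in `𝔪_𝒪 R + 𝔪_R²` has all its coefficients in `𝔪_𝒪`. -/
theorem coeff_mem_of_min {d : ℕ} (hmin : ∀ d' < d, ¬ GenProp 𝒪 R d')
    (x : Fin d → R) (hx : ∀ i, x i ∈ maximalIdeal R)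
    (hgen : maximalIdeal R ≤ Ideal.map (algebraMap 𝒪 R) (maximalIdeal 𝒪) ⊔
      Ideal.span (Set.range x) ⊔ maximalIdeal R ^ 2)
    (a : Fin d → 𝒪)
    (ha : ∑ i, algebraMap 𝒪 R (a i) * x i ∈
      Ideal.map (algebraMap 𝒪 R) (maximalIdeal 𝒪) ⊔ maximalIdeal R ^ 2)
    (j : Fin d) : a j ∈ maximalIdeal 𝒪 := by
  by_contra hj
  have hu : IsUnit (a j) := by
    rw [mem_maximalIdeal, mem_nonunits_iff, not_not] at hj
    exact hj
  obtain ⟨n, rfl⟩ : ∃ n, d = n + 1 := ⟨d - 1, by have := j.pos; omega⟩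
  apply hmin n (Nat.lt_succ_self n)
  refine ⟨x ∘ j.succAbove, fun i => hx _, ?_⟩
  set K : Ideal R := Ideal.map (algebraMap 𝒪 R) (maximalIdeal 𝒪) ⊔
      Ideal.span (Set.range (x ∘ j.succAbove)) ⊔ maximalIdeal R ^ 2 with hK
  have hspan : ∀ z, x (j.succAbove z) ∈ K := fun z =>
    (le_sup_of_le_left le_sup_right : Ideal.span (Set.range (x ∘ j.succAbove)) ≤ K)
      (Ideal.subset_span ⟨z, rfl⟩)
  have hJK : Ideal.map (algebraMap 𝒪 R) (maximalIdeal 𝒪) ⊔ maximalIdeal R ^ 2 ≤ K :=
    sup_le (le_sup_of_le_left le_sup_left) le_sup_right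
  have hxK : ∀ i, x i ∈ K := by
    intro i
    by_cases hij : i = j
    · subst hij
      have hsum := Fin.sum_univ_succAbove (fun i => algebraMap 𝒪 R (a i) * x i) i
      have h1 : algebraMap 𝒪 R (a i) * x i ∈ K := by
        have h2 : algebraMap 𝒪 R (a i) * x i = (∑ i, algebraMap 𝒪 R (a i) * x i) -
            ∑ z, algebraMap 𝒪 R (a (i.succAbove z)) * x (i.succAbove z) := by
          rw [hsum]; ring
        rw [h2]
        refine K.sub_mem (hJK ha) ?_
        exact K.sum_mem fun z _ => K.mul_mem_left _ (hspan z)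
      have hu' : IsUnit (algebraMap 𝒪 R (a i)) := hu.map _
      exact (Ideal.unit_mul_mem_iff_mem K hu').1 h1
    · obtain ⟨z, hz⟩ := Fin.exists_succAbove_eq hij
      rw [← hz]
      exact hspan z
  refine hgen.trans (sup_le (sup_le ?_ ?_) ?_)
  · exact le_sup_of_le_left le_sup_left
  · rw [Ideal.span_le]
    rintro _ ⟨i, rfl⟩
    exact hxK i
  · exact le_sup_right

end Gen

/-! ### Dual numbers -/

section DualBasic

variable (k : Type*) [Field k]

theorem isArtinianRing_dualNumber : IsArtinianRing (DualNumber k) := by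
  have _ : Module.Finite k (DualNumber k) := inferInstanceAs (Module.Finite k (k × k))
  exact IsArtinianRing.of_finite k (DualNumber k)

theorem isAdicComplete_dualNumber :
    IsAdicComplete (maximalIdeal (DualNumber k)) (DualNumber k) := by
  haveI := isArtinianRing_dualNumber k
  infer_instance

theorem maximalIdeal_dualNumber_sq : maximalIdeal (DualNumber k) ^ 2 = ⊥ := by
  rw [DualNumber.maximalIdeal_eq_span_singleton_eps, Ideal.span_singleton_pow, pow_two,
    DualNumber.eps_mul_eps, Ideal.span_singleton_eq_bot]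

variable {k}

theorem inr_mem_maximalIdeal (c : k) :
    (TrivSqZeroExt.inr c : DualNumber k) ∈ maximalIdeal (DualNumber k) := by
  rw [mem_maximalIdeal, mem_nonunits_iff, TrivSqZeroExt.isUnit_iff_isUnit_fst,
    TrivSqZeroExt.fst_inr]
  exact not_isUnit_zero

theorem mem_maximalIdeal_dualNumber_iff (z : DualNumber k) :
    z ∈ maximalIdeal (DualNumber k) ↔ TrivSqZeroExt.fst z = 0 := by
  rw [mem_maximalIdeal, mem_nonunits_iff, TrivSqZeroExt.isUnit_iff_isUnit_fst, isUnit_iff_ne_zero,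
    not_not]

end DualBasic

/-! ### Construction of tangent vectors -/

section Tangent

variable {𝒪 : Type*} [CommRing 𝒪] [IsLocalRing 𝒪] [IsNoetherianRing 𝒪]
  [IsAdicComplete (maximalIdeal 𝒪) 𝒪]
variable {R : Type*} [CommRing R] [IsLocalRing R] [IsNoetherianRing R]
  [IsAdicComplete (maximalIdeal R) R] [Algebra 𝒪 R]
variable [Algebra 𝒪 (DualNumber (ResidueField 𝒪))]

/-- **Tangent vectors from a minimal system of generators.**  -/
theorem exists_algHom_dualNumber_of_min
    (hloc : IsLocalHom (algebraMap 𝒪 R))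
    (hres : Function.Surjective (IsLocalRing.residue R ∘ algebraMap 𝒪 R))
    (halg : ∀ a : 𝒪, algebraMap 𝒪 (DualNumber (ResidueField 𝒪)) a =
      TrivSqZeroExt.inl (residue 𝒪 a))
    {d : ℕ} (hmin : ∀ d' < d, ¬ GenProp 𝒪 R d')
    (x : Fin d → R) (hx : ∀ i, x i ∈ maximalIdeal R)
    (hgen : maximalIdeal R ≤ Ideal.map (algebraMap 𝒪 R) (maximalIdeal 𝒪) ⊔
      Ideal.span (Set.range x) ⊔ maximalIdeal R ^ 2)
    (c : Fin d → ResidueField 𝒪) :
    ∃ φ : R →ₐ[𝒪] DualNumber (ResidueField 𝒪), ∀ i, φ (x i) = TrivSqZeroExt.inr (c i) := by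
  classical
  obtain ⟨π, hπsurj, hπX⟩ := exists_surjective_algHom_of_generators_mod_sq hloc hres x hx hgen
  haveI := isAdicComplete_dualNumber (ResidueField 𝒪)
  set ψ : MvPowerSeries (Fin d) 𝒪 →ₐ[𝒪] DualNumber (ResidueField 𝒪) :=
    evalCNL (R := 𝒪) (maximalIdeal (DualNumber (ResidueField 𝒪)))
      (fun i => (TrivSqZeroExt.inr (c i) : DualNumber (ResidueField 𝒪)))
      (fun i => inr_mem_maximalIdeal (c i)) with hψ
  have hψX : ∀ i, ψ (MvPowerSeries.X i) = TrivSqZeroExt.inr (c i) := fun i =>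
    evalCNL_X _ _ _ i
  have hker : RingHom.ker π.toRingHom ≤ RingHom.ker ψ.toRingHom := by
    intro f hf
    have hf0 : π f = 0 := hf
    have hπ2 := map_sub_linear_mem_sq π (maximalIdeal R) (fun i => by rw [hπX i]; exact hx i) f
    have hψ2 := map_sub_linear_mem_sq ψ (maximalIdeal (DualNumber (ResidueField 𝒪)))
      (fun i => by rw [hψX i]; exact inr_mem_maximalIdeal (c i)) f
    rw [maximalIdeal_dualNumber_sq, Ideal.mem_bot, sub_eq_zero] at hψ2
    rw [hf0, zero_sub, Ideal.neg_mem_iff] at hπ2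
    simp only [hπX] at hπ2
    simp only [hψX] at hψ2
    -- the constant coefficient lies in `𝔪_𝒪`
    have hsq_le : maximalIdeal R ^ 2 ≤ maximalIdeal R := Ideal.pow_le_self two_ne_zero
    have hsum_mem : ∑ i, algebraMap 𝒪 R (MvPowerSeries.coeff (Finsupp.single i 1) f) * x i ∈
        maximalIdeal R :=
      Ideal.sum_mem _ fun i _ => Ideal.mul_mem_left _ _ (hx i)
    have h0 : MvPowerSeries.coeff 0 f ∈ maximalIdeal 𝒪 := by
      by_contra hcon
      rw [mem_maximalIdeal, mem_nonunits_iff, not_not] at hcon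
      have hu : IsUnit (algebraMap 𝒪 R (MvPowerSeries.coeff 0 f)) := hcon.map _
      have hm : algebraMap 𝒪 R (MvPowerSeries.coeff 0 f) ∈ maximalIdeal R := by
        have := Ideal.sub_mem _ (hsq_le hπ2) hsum_mem
        rwa [add_sub_cancel_right] at this
      exact (mem_maximalIdeal _).1 hm hu
    -- the linear combination lies in `𝔪_𝒪 R + 𝔪_R²`
    have hlin : ∑ i, algebraMap 𝒪 R (MvPowerSeries.coeff (Finsupp.single i 1) f) * x i ∈
        Ideal.map (algebraMap 𝒪 R) (maximalIdeal 𝒪) ⊔ maximalIdeal R ^ 2 := by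
      have h1 : algebraMap 𝒪 R (MvPowerSeries.coeff 0 f) ∈
          Ideal.map (algebraMap 𝒪 R) (maximalIdeal 𝒪) ⊔ maximalIdeal R ^ 2 :=
        Ideal.mem_sup_left (Ideal.mem_map_of_mem _ h0)
      have h2 := Ideal.sub_mem _ (Ideal.mem_sup_right hπ2 :
        _ ∈ Ideal.map (algebraMap 𝒪 R) (maximalIdeal 𝒪) ⊔ maximalIdeal R ^ 2) h1
      rwa [add_sub_cancel_left] at h2
    have hcoef := coeff_mem_of_min hmin x hx hgen _ hlin
    -- conclusion
    show ψ f = 0
    rw [hψ2, halg, (residue_eq_zero_iff _).2 h0, TrivSqZeroExt.inl_zero, zero_add]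
    refine Finset.sum_eq_zero fun i _ => ?_
    rw [halg, (residue_eq_zero_iff _).2 (hcoef i), TrivSqZeroExt.inl_zero, zero_mul]
  refine ⟨AlgHom.liftOfSurjective π hπsurj ψ hker, fun i => ?_⟩
  rw [← hπX i, AlgHom.liftOfSurjective_apply, hψX]

/-- **T1, injective-family form.** If every injective family of `𝒪`-algebra maps `R → k[ε]`
indexed by `k ^ d` has `d ≤ r`, then `R` is a quotient of `𝒪⟦X₁, …, X_r⟧`. -/
theorem exists_surjective_of_forall_injective_le
    (hloc : IsLocalHom (algebraMap 𝒪 R))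
    (hres : Function.Surjective (IsLocalRing.residue R ∘ algebraMap 𝒪 R))
    (halg : ∀ a : 𝒪, algebraMap 𝒪 (DualNumber (ResidueField 𝒪)) a =
      TrivSqZeroExt.inl (residue 𝒪 a))
    (r : ℕ)
    (h : ∀ d : ℕ, ∀ F : (Fin d → ResidueField 𝒪) → (R →ₐ[𝒪] DualNumber (ResidueField 𝒪)),
      Function.Injective F → d ≤ r) :
    ∃ γ : MvPowerSeries (Fin r) 𝒪 →ₐ[𝒪] R, Function.Surjective γ := by
  classical
  have hex := exists_genProp (𝒪 := 𝒪) (R := R)
  have hP : GenProp 𝒪 R (Nat.find hex) := Nat.find_spec hex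
  have hmin : ∀ d' < Nat.find hex, ¬ GenProp 𝒪 R d' := fun d' hd' => Nat.find_min hex hd'
  obtain ⟨x, hx, hgen⟩ := hP
  have hφ := fun c => exists_algHom_dualNumber_of_min hloc hres halg hmin x hx hgen c
  choose F hF using hφ
  have hinj : Function.Injective F := by
    intro c c' hcc'
    funext i
    have := hF c i
    rw [hcc', hF c' i] at this
    exact (TrivSqZeroExt.inr_injective this).symm
  have hdr : Nat.find hex ≤ r := h _ F hinj
  obtain ⟨x', hx', hgen'⟩ := GenProp.mono hdr ⟨x, hx, hgen⟩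
  obtain ⟨γ, hγ, -⟩ := exists_surjective_algHom_of_generators_mod_sq hloc hres x' hx' hgen'
  exact ⟨γ, hγ⟩

/-- **T1, counting form.** If the `𝒪`-algebra maps `R → k[ε]` inject into a finite set with at
most `|k| ^ r` elements, then `R` is a quotient of `𝒪⟦X₁, …, X_r⟧`. -/
theorem exists_surjective_of_card_le [Finite (ResidueField 𝒪)]
    (hloc : IsLocalHom (algebraMap 𝒪 R))
    (hres : Function.Surjective (IsLocalRing.residue R ∘ algebraMap 𝒪 R))
    (halg : ∀ a : 𝒪, algebraMap 𝒪 (DualNumber (ResidueField 𝒪)) a =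
      TrivSqZeroExt.inl (residue 𝒪 a))
    (r : ℕ) {ι : Type*} [Finite ι]
    (G : (R →ₐ[𝒪] DualNumber (ResidueField 𝒪)) → ι) (hG : Function.Injective G)
    (hι : Nat.card ι ≤ Nat.card (ResidueField 𝒪) ^ r) :
    ∃ γ : MvPowerSeries (Fin r) 𝒪 →ₐ[𝒪] R, Function.Surjective γ := by
  apply exists_surjective_of_forall_injective_le hloc hres halg r
  intro d F hF
  have h1 : Nat.card (Fin d → ResidueField 𝒪) ≤ Nat.card ι :=
    Nat.card_le_card_of_injective (G ∘ F) (hG.comp hF)
  rw [Nat.card_fun, Nat.card_fin] at h1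
  have h2 : 1 < Nat.card (ResidueField 𝒪) := Finite.one_lt_card
  exact (Nat.pow_le_pow_iff_right h2).1 (h1.trans hι)

/-- **T1, dimension form.** If the `𝒪`-algebra maps `R → k[ε]` inject into a `k`-vector space
of dimension at most `r`, then `R` is a quotient of `𝒪⟦X₁, …, X_r⟧`. -/
theorem exists_surjective_of_finrank_le [Finite (ResidueField 𝒪)]
    (hloc : IsLocalHom (algebraMap 𝒪 R))
    (hres : Function.Surjective (IsLocalRing.residue R ∘ algebraMap 𝒪 R))
    (halg : ∀ a : 𝒪, algebraMap 𝒪 (DualNumber (ResidueField 𝒪)) a =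
      TrivSqZeroExt.inl (residue 𝒪 a))
    (r : ℕ) {V : Type*} [AddCommGroup V] [Module (ResidueField 𝒪) V]
    [Module.Finite (ResidueField 𝒪) V]
    (G : (R →ₐ[𝒪] DualNumber (ResidueField 𝒪)) → V) (hG : Function.Injective G)
    (hV : Module.finrank (ResidueField 𝒪) V ≤ r) :
    ∃ γ : MvPowerSeries (Fin r) 𝒪 →ₐ[𝒪] R, Function.Surjective γ := by
  haveI : Finite V := Module.finite_of_finite (ResidueField 𝒪)
  refine exists_surjective_of_card_le hloc hres halg r G hG ?_
  rw [Module.natCard_eq_pow_finrank (K := ResidueField 𝒪) (V := V)]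
  exact Nat.pow_le_pow_right Nat.card_pos hV

end Tangent

/-! ### Algebra maps between local algebras with the same residue field are local -/

section Local

variable {𝒪 : Type*} [CommRing 𝒪]
variable {R : Type*} [CommRing R] [IsLocalRing R] [Algebra 𝒪 R]
variable {A : Type*} [CommRing A] [IsLocalRing A] [Algebra 𝒪 A]

theorem isLocalHom_of_residue_surjective
    (hresA : Function.Surjective (IsLocalRing.residue A ∘ algebraMap 𝒪 A))
    (φ : R →ₐ[𝒪] A) : IsLocalHom (φ : R →+* A) := by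
  refine ⟨fun x hu => ?_⟩
  by_contra hx
  have hu' : IsUnit (φ x) := hu
  obtain ⟨a, ha⟩ := hresA ((residue A (φ x))⁻¹)
  have hy : IsUnit (1 - algebraMap 𝒪 R a * x) := by
    have hm : algebraMap 𝒪 R a * x ∈ maximalIdeal R :=
      Ideal.mul_mem_left _ _ ((mem_maximalIdeal x).2 hx)
    by_contra hcon
    have h1 : (1 : R) - algebraMap 𝒪 R a * x ∈ maximalIdeal R := (mem_maximalIdeal _).2 hcon
    have h2 := Ideal.add_mem _ h1 hm
    rw [sub_add_cancel] at h2
    exact (mem_maximalIdeal (1 : R)).1 h2 isUnit_one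
  have hφy : IsUnit (φ (1 - algebraMap 𝒪 R a * x)) := hy.map φ
  rw [map_sub, map_one, map_mul, AlgHom.commutes] at hφy
  have hres0 : residue A (1 - algebraMap 𝒪 A a * φ x) = 0 := by
    have hne : residue A (φ x) ≠ 0 := by
      intro h0
      exact ((residue_eq_zero_iff _).1 h0) hu'
    rw [map_sub, map_one, map_mul]
    have : residue A (algebraMap 𝒪 A a) = (residue A (φ x))⁻¹ := ha
    rw [this, inv_mul_cancel₀ hne, sub_self]
  exact ((residue_eq_zero_iff _).1 hres0) hφy

end Local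

end

end Fermat.Agent.S56.H596

end
-- ===== PACK-END S56/H596/Cotangent.lean

-- ===== PACK-BEGIN S55/BLocal/Range.lean
section


/-!
# S55, layer B-local: the image of the local Galois group is the decomposition group

`range (localGaloisToGlobal q) = (padicPlace q).decompositionSubgroup ℚ`.
-/

set_option autoImplicit false
set_option linter.style.haveILetI false

open scoped Pointwise

namespace Fermat.Agent.S55.BLocal

variable (q : ℕ) [Fact q.Prime]

/-- An element of the decomposition group fixes every algebraic number which is `q`-adically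
rational. -/
theorem apply_eq_of_padicEmbedding_mem_range (σ : GQ)
    (hσ : σ ∈ (padicPlace q).decompositionSubgroup ℚ) (x : Qb) (a : ℚ_[q])
    (hx : padicEmbedding q x = algebraMap ℚ_[q] (PadicAlgCl q) a) : σ x = x := by
  rw [← sub_eq_zero, ← qnorm_eq_zero_iff q]
  refine le_antisymm ?_ (qnorm_nonneg q _)
  refine le_of_forall_pos_le_add fun ε hε => ?_
  rw [zero_add]
  obtain ⟨r, hr⟩ := Padic.rat_dense q a hε
  have h1 : qnorm q (x - (r : Qb)) < ε := by
    unfold qnorm
    rw [map_sub, hx, map_ratCast]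
    have h2 : ((r : ℚ) : PadicAlgCl q) = algebraMap ℚ_[q] (PadicAlgCl q) (r : ℚ_[q]) := by
      rw [map_ratCast]
    rw [h2, ← map_sub]
    have h3 := PadicAlgCl.norm_extends q (a - (r : ℚ_[q]))
    rw [h3]
    exact hr
  have h4 : qnorm q (σ (x - (r : Qb))) = qnorm q (x - (r : Qb)) :=
    qnorm_eq_of_mem_decomposition q σ hσ _
  have h5 : σ x - x = σ (x - (r : Qb)) - (x - (r : Qb)) := by
    rw [map_sub, map_ratCast]
    ring
  rw [h5]
  refine (qnorm_sub_le_max q _ _).trans ?_
  rw [h4, max_self]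
  exact h1.le

/-- `PadicAlgCl q / ℚ_q` is Galois. -/
theorem isGalois_padicAlgCl : IsGalois ℚ_[q] (PadicAlgCl q) := by
  haveI : IsAlgClosure ℚ_[q] (PadicAlgCl q) := ⟨inferInstance, inferInstance⟩
  haveI : Normal ℚ_[q] (PadicAlgCl q) := IsAlgClosure.normal ℚ_[q] (PadicAlgCl q)
  exact isGalois_iff.mpr ⟨inferInstance, inferInstance⟩

/-- An algebraic number fixed by the image of the local Galois group is `q`-adically rational. -/
theorem padicEmbedding_mem_range_of_fixed (x : Qb)
    (hx : ∀ τ : PadicAlgCl q ≃ₐ[ℚ_[q]] PadicAlgCl q, localGaloisToGlobal q τ x = x) :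
    ∃ a : ℚ_[q], padicEmbedding q x = algebraMap ℚ_[q] (PadicAlgCl q) a := by
  haveI := isGalois_padicAlgCl q
  have hfix : padicEmbedding q x ∈ IntermediateField.fixedField
      (⊤ : Subgroup (PadicAlgCl q ≃ₐ[ℚ_[q]] PadicAlgCl q)) := by
    rintro ⟨τ, -⟩
    show τ (padicEmbedding q x) = padicEmbedding q x
    rw [← padicEmbedding_localGaloisToGlobal, hx τ]
  rw [InfiniteGalois.fixedField_bot, IntermediateField.mem_bot] at hfix
  obtain ⟨a, ha⟩ := hfix
  exact ⟨a, ha.symm⟩

/-- The restriction map from the local to the global Galois group is continuous. -/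
theorem continuous_localGaloisToGlobal : Continuous (localGaloisToGlobal q) := by
  haveI : Algebra.IsAlgebraic ℚ Qb := AlgebraicClosure.isAlgebraic ℚ
  apply continuous_of_continuousAt_one
  rw [ContinuousAt, map_one]
  intro U hU
  rw [krullTopology_mem_nhds_one_iff] at hU
  obtain ⟨E, hEfin, hEU⟩ := hU
  haveI := hEfin
  rw [Filter.mem_map, krullTopology_mem_nhds_one_iff]
  -- a primitive element of `E`
  obtain ⟨α, hα⟩ := Field.exists_primitive_element ℚ E
  refine ⟨IntermediateField.adjoin ℚ_[q] {padicEmbedding q (α : Qb)},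
    IntermediateField.adjoin.finiteDimensional (Algebra.IsIntegral.isIntegral _), ?_⟩
  intro τ hτ
  apply hEU
  show localGaloisToGlobal q τ ∈ E.fixingSubgroup
  rw [IntermediateField.mem_fixingSubgroup_iff]
  have hτα : τ (padicEmbedding q (α : Qb)) = padicEmbedding q (α : Qb) :=
    (IntermediateField.mem_fixingSubgroup_iff _ τ).mp hτ _
      (IntermediateField.subset_adjoin ℚ_[q] _ (Set.mem_singleton _))
  have hα' : localGaloisToGlobal q τ (α : Qb) = α := by
    apply (padicEmbedding q).toRingHom.injective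
    show padicEmbedding q (localGaloisToGlobal q τ (α : Qb)) = padicEmbedding q (α : Qb)
    rw [padicEmbedding_localGaloisToGlobal, hτα]
  -- two algebra maps `E → ℚ̄` agreeing on the generator
  have hadj : Algebra.adjoin ℚ {α} = (⊤ : Subalgebra ℚ E) := by
    rw [← IntermediateField.adjoin_simple_toSubalgebra_of_isAlgebraic
      (Algebra.IsAlgebraic.isAlgebraic α), hα]
    rfl
  have hext : ((localGaloisToGlobal q τ : Qb →ₐ[ℚ] Qb).comp E.val) = E.val := by
    apply AlgHom.ext_of_adjoin_eq_top hadj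
    intro y hy
    rw [Set.mem_singleton_iff] at hy
    subst hy
    exact hα'
  intro x hxE
  exact congrArg (fun f : E →ₐ[ℚ] Qb => f ⟨x, hxE⟩) hext

/-- **The image of the local Galois group at `q` is the decomposition group of the `q`-adic
place.** -/
theorem range_localGaloisToGlobal :
    (localGaloisToGlobal q).range = (padicPlace q).decompositionSubgroup ℚ := by
  haveI : Algebra.IsAlgebraic ℚ Qb := AlgebraicClosure.isAlgebraic ℚ
  haveI : IsAlgClosure ℚ Qb := ⟨inferInstance, inferInstance⟩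
  haveI : Normal ℚ Qb := IsAlgClosure.normal ℚ Qb
  haveI : IsGalois ℚ Qb := isGalois_iff.mpr ⟨inferInstance, inferInstance⟩
  haveI := isGalois_padicAlgCl q
  apply le_antisymm
  · rintro _ ⟨τ, rfl⟩
    exact localGaloisToGlobal_mem_decompositionSubgroup q τ
  · intro σ hσ
    have hclosed : IsClosed ((localGaloisToGlobal q).range : Set GQ) := by
      have : ((localGaloisToGlobal q).range : Set GQ) = Set.range (localGaloisToGlobal q) := rfl
      rw [this]
      exact (isCompact_range (continuous_localGaloisToGlobal q)).isClosed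
    have hH := InfiniteGalois.fixingSubgroup_fixedField
      (⟨(localGaloisToGlobal q).range, hclosed⟩ : ClosedSubgroup GQ)
    have hσH : σ ∈ (IntermediateField.fixedField
        ((⟨(localGaloisToGlobal q).range, hclosed⟩ : ClosedSubgroup GQ) : Subgroup GQ)
          ).fixingSubgroup := by
      rw [IntermediateField.mem_fixingSubgroup_iff]
      intro x hx
      obtain ⟨a, ha⟩ := padicEmbedding_mem_range_of_fixed q x (fun τ => hx ⟨_, ⟨τ, rfl⟩⟩)
      exact apply_eq_of_padicEmbedding_mem_range q σ hσ x a ha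
    rw [hH] at hσH
    exact hσH

end Fermat.Agent.S55.BLocal

end
-- ===== PACK-END S55/BLocal/Range.lean

-- ===== PACK-BEGIN S56/H176/FLDUnrTot.lean
section



/-!
# S56 / FL-D-UNR, part 3: equal residue fields imply total ramification

`A' ⊂ B` discrete valuation rings, `B` finite over `A'`, with the same residue field
(`hres : ∀ b, ∃ a, b - a ∈ 𝔪_B`).  Then `v_B(a) = n · v_{A'}(a)` for `a ∈ A'` with
`n = [Frac B : Frac A']` (`FLD_tot_hram`): the extension is totally ramified, and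
`1, ϖ, …, ϖ^(n-1)` is an `A'`-basis of `B` for every uniformiser `ϖ` of `B`.
-/

set_option autoImplicit false
set_option linter.unusedSectionVars false
set_option linter.style.haveILetI false

namespace Fermat.Agent.S56.H176

open IsDiscreteValuationRing

attribute [local instance] FractionRing.liftAlgebra FractionRing.isScalarTower_liftAlgebra

section Tot

variable {A' : Type*} [CommRing A'] [IsDomain A'] [IsDiscreteValuationRing A']
  {B : Type*} [CommRing B] [IsDomain B] [IsDiscreteValuationRing B] [Algebra A' B]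
  [Module.Finite A' B] [FaithfulSMul A' B]

variable (A' B) in
/-- The ramification index. -/
theorem FLD_tot_exists_ramIdx :
    ∃ e : ℕ, 0 < e ∧ ∀ a : A', addVal B (algebraMap A' B a) = e • addVal A' a := by
  obtain ⟨ϖ', hϖ'⟩ := exists_irreducible A'
  have hne : algebraMap A' B ϖ' ≠ 0 := by
    intro h0
    exact hϖ'.ne_zero (FaithfulSMul.algebraMap_injective A' B (by rw [h0, map_zero]))
  have htop : addVal B (algebraMap A' B ϖ') ≠ ⊤ := fun h => hne (addVal_eq_top_iff.mp h)
  obtain ⟨e, he⟩ := ENat.ne_top_iff_exists.mp htop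
  have he0 : 0 < e := by
    rcases Nat.eq_zero_or_pos e with h0 | h0
    · exfalso
      rw [h0] at he
      have hu : IsUnit (algebraMap A' B ϖ') := addVal_eq_zero_iff.mp (by rw [← he]; rfl)
      exact hϖ'.not_isUnit (IsLocalHom.map_nonunit (f := algebraMap A' B) ϖ' hu)
    · exact h0
  refine ⟨e, he0, fun a => ?_⟩
  by_cases ha : a = 0
  · rw [ha, map_zero, addVal_zero, addVal_zero]
    have : e ≠ 0 := by omega
    simp [this]
  · obtain ⟨m, u, hu⟩ := eq_unit_mul_pow_irreducible ha hϖ'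
    rw [hu, addVal_def' u hϖ' m, map_mul, map_pow, addVal_mul, addVal_pow, ← he,
      addVal_eq_zero_iff.mpr (u.isUnit.map (algebraMap A' B)), zero_add]
    simp [mul_comm]

/-- `ϖ'` and `ϖ ^ e` are associated in `B`. -/
theorem FLD_tot_associated {e : ℕ}
    (hram : ∀ a : A', addVal B (algebraMap A' B a) = e • addVal A' a)
    {ϖ : B} (hϖ : addVal B ϖ = 1) {ϖ' : A'} (hϖ' : Irreducible ϖ') :
    Associated (ϖ ^ e) (algebraMap A' B ϖ') := by
  rw [← addVal_eq_iff_associated, addVal_pow, hϖ, hram, addVal_uniformizer hϖ']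

/-- Approximation of `b : B` by `A'`-combinations of powers of a uniformiser. -/
theorem FLD_tot_approx (hres : ∀ b : B, ∃ a : A', b - algebraMap A' B a ∈ IsLocalRing.maximalIdeal B)
    {ϖ : B} (hϖ : addVal B ϖ = 1) (e : ℕ) (b : B) (n : ℕ) (hn : n ≤ e) :
    ∃ s ∈ Submodule.span A' (Set.range fun j : Fin e => ϖ ^ (j : ℕ)), ∃ c : B,
      b - s = ϖ ^ n * c := by
  have hirr : Irreducible ϖ := by
    rw [irreducible_iff_uniformizer]
    apply le_antisymm
    · intro x hx
      rw [Ideal.mem_span_singleton, ← addVal_le_iff_dvd, hϖ]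
      rw [IsLocalRing.mem_maximalIdeal, mem_nonunits_iff, ← addVal_eq_zero_iff] at hx
      exact Order.one_le_iff_pos.mpr (pos_iff_ne_zero.mpr hx)
    · rw [Ideal.span_le]
      intro x hx
      rw [Set.mem_singleton_iff] at hx
      rw [hx, SetLike.mem_coe, IsLocalRing.mem_maximalIdeal, mem_nonunits_iff, ← addVal_eq_zero_iff, hϖ]
      exact one_ne_zero
  have hmax : IsLocalRing.maximalIdeal B = Ideal.span {ϖ} := (irreducible_iff_uniformizer ϖ).mp hirr
  induction n with
  | zero => exact ⟨0, Submodule.zero_mem _, b, by simp⟩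
  | succ n ih =>
    obtain ⟨s, hs, c, hc⟩ := ih (by omega)
    obtain ⟨a, ha⟩ := hres c
    rw [hmax, Ideal.mem_span_singleton] at ha
    obtain ⟨c', hc'⟩ := ha
    refine ⟨s + a • ϖ ^ n, Submodule.add_mem _ hs
      (Submodule.smul_mem _ _ (Submodule.subset_span ⟨⟨n, by omega⟩, rfl⟩)), c', ?_⟩
    have : b - (s + a • ϖ ^ n) = (b - s) - a • ϖ ^ n := by ring
    rw [this, hc, Algebra.smul_def, pow_succ, mul_assoc, ← hc']
    ring

/-- The powers `ϖ^j`, `j < e`, span `B` over `A'`. -/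
theorem FLD_tot_span (hres : ∀ b : B, ∃ a : A', b - algebraMap A' B a ∈ IsLocalRing.maximalIdeal B)
    {e : ℕ} (hram : ∀ a : A', addVal B (algebraMap A' B a) = e • addVal A' a)
    {ϖ : B} (hϖ : addVal B ϖ = 1) :
    Submodule.span A' (Set.range fun j : Fin e => ϖ ^ (j : ℕ)) = ⊤ := by
  obtain ⟨ϖ', hϖ'⟩ := exists_irreducible A'
  rw [← top_le_iff]
  apply Submodule.le_of_le_smul_of_le_jacobson_bot (I := IsLocalRing.maximalIdeal A')
  · exact Module.finite_def.mp inferInstance
  · exact (IsLocalRing.jacobson_eq_maximalIdeal ⊥ bot_ne_top).ge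
  · intro b _
    obtain ⟨s, hs, c, hc⟩ := FLD_tot_approx hres hϖ e b e le_rfl
    obtain ⟨u, hu⟩ := FLD_tot_associated hram hϖ hϖ'
    have hb : b = s + ϖ' • ((u⁻¹ : Bˣ) * c) := by
      rw [Algebra.smul_def, ← hu]
      have : ϖ ^ e * ↑u * (↑u⁻¹ * c) = ϖ ^ e * c := by
        rw [mul_assoc, ← mul_assoc (u : B), Units.mul_inv, one_mul]
      rw [this, ← hc]
      ring
    rw [hb]
    apply Submodule.add_mem_sup hs
    apply Submodule.smul_mem_smul _ Submodule.mem_top
    exact (IsLocalRing.mem_maximalIdeal _).mpr hϖ'.not_isUnit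

/-- The powers `ϖ^j`, `j < e`, are linearly independent over `A'`. -/
theorem FLD_tot_linearIndependent
    {e : ℕ} (hram : ∀ a : A', addVal B (algebraMap A' B a) = e • addVal A' a)
    {ϖ : B} (hϖ : addVal B ϖ = 1) :
    LinearIndependent A' (fun j : Fin e => ϖ ^ (j : ℕ)) := by
  rw [Fintype.linearIndependent_iff]
  intro c hc i
  have h1 := Fin.sum_univ_eq_sum_range
    (fun j => algebraMap A' B (if h : j < e then c ⟨j, h⟩ else 0) * ϖ ^ j) e
  have h2 : ∑ j ∈ Finset.range e,
      algebraMap A' B (if h : j < e then c ⟨j, h⟩ else 0) * ϖ ^ j = 0 := by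
    rw [← h1, ← hc]
    refine Finset.sum_congr rfl fun j _ => ?_
    rw [Algebra.smul_def]
    simp
  have := FLD_coeff_eq_zero hram hϖ (fun j => if h : j < e then c ⟨j, h⟩ else 0) h2 i.2
  simpa using this

/-- `[B : A'] = e`. -/
theorem FLD_tot_finrank (hres : ∀ b : B, ∃ a : A', b - algebraMap A' B a ∈ IsLocalRing.maximalIdeal B)
    {e : ℕ} (hram : ∀ a : A', addVal B (algebraMap A' B a) = e • addVal A' a) :
    Module.finrank A' B = e := by
  obtain ⟨ϖ, hϖ⟩ := exists_irreducible B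
  have hϖ1 := addVal_uniformizer hϖ
  have b := Module.Basis.mk (FLD_tot_linearIndependent hram hϖ1)
    (FLD_tot_span hres hram hϖ1).ge
  rw [Module.finrank_eq_card_basis b, Fintype.card_fin]

/-- `[Frac B : Frac A'] = e`. -/
theorem FLD_tot_finrank_frac
    (hres : ∀ b : B, ∃ a : A', b - algebraMap A' B a ∈ IsLocalRing.maximalIdeal B)
    {e : ℕ} (hram : ∀ a : A', addVal B (algebraMap A' B a) = e • addVal A' a) :
    Module.finrank (FractionRing A') (FractionRing B) = e := by
  rw [IsFractionRing.finrank_eq A' (FractionRing A') B (FractionRing B)]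
  exact FLD_tot_finrank hres hram

/-- **Total ramification**: `v_B(a) = [Frac B : Frac A'] · v_{A'}(a)`. -/
theorem FLD_tot_hram (hres : ∀ b : B, ∃ a : A', b - algebraMap A' B a ∈ IsLocalRing.maximalIdeal B)
    (a : A') : addVal B (algebraMap A' B a) =
      (Module.finrank (FractionRing A') (FractionRing B)) • addVal A' a := by
  obtain ⟨e, -, hram⟩ := FLD_tot_exists_ramIdx A' B
  rw [FLD_tot_finrank_frac hres hram]
  exact hram a

end Tot

end Fermat.Agent.S56.H176

end
-- ===== PACK-END S56/H176/FLDUnrTot.lean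

-- ===== PACK-BEGIN S56/H384/ApproxAlg.lean
section


/-!
# S56 / W2-SS piece A5 (helper384): finite commutative algebras over an algebraically closed
valued field

* `exists_algHom_of_isRoot_charpoly` : every root of the characteristic polynomial of
  multiplication by `a` is the value at `a` of a character;
* `IntC` : elements with integral coordinates in a basis, and the approximate Cayley-Hamilton
  estimate `approx_prod` / `exists_root_near` for an approximately multiplicative functional.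
-/

set_option autoImplicit false
set_option linter.unusedSectionVars false
set_option linter.style.haveILetI false

namespace Fermat.Agent.S56.H384

open Polynomial

section Char

variable {Ω : Type*} [Field Ω] [IsAlgClosed Ω] {A : Type*} [CommRing A] [Algebra Ω A]
  [Module.Finite Ω A]

/-- Every root of the characteristic polynomial of multiplication by `a` in a finite
commutative algebra over an algebraically closed field is `χ a` for a character `χ`. -/
theorem exists_algHom_of_isRoot_charpoly (a : A) {lam : Ω}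
    (h : (LinearMap.mulLeft Ω a).charpoly.IsRoot lam) : ∃ χ : A →ₐ[Ω] Ω, χ a = lam := by
  have hev := (Module.End.hasEigenvalue_iff_isRoot_charpoly (LinearMap.mulLeft Ω a) lam).mpr h
  obtain ⟨y, hy⟩ := hev.exists_hasEigenvector
  have hy1 : a * y = lam • y := hy.apply_eq_smul
  have hy0 : y ≠ 0 := hy.2
  have hnu : a - algebraMap Ω A lam ∈ nonunits A := by
    intro hu
    apply hy0
    have h0 : (a - algebraMap Ω A lam) * y = 0 := by
      rw [sub_mul, hy1, Algebra.smul_def, sub_self]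
    exact (hu.mul_right_eq_zero).mp h0
  obtain ⟨m, hm, ham⟩ := exists_max_ideal_of_mem_nonunits hnu
  letI := Ideal.Quotient.field m
  have hbij : Function.Bijective (algebraMap Ω (A ⧸ m)) :=
    IsAlgClosed.algebraMap_bijective_of_isIntegral
  let e : Ω ≃ₐ[Ω] (A ⧸ m) := AlgEquiv.ofBijective (Algebra.ofId Ω (A ⧸ m)) hbij
  refine ⟨(e.symm : (A ⧸ m) →ₐ[Ω] Ω).comp (Ideal.Quotient.mkₐ Ω m), ?_⟩
  have h0 : ((e.symm : (A ⧸ m) →ₐ[Ω] Ω).comp (Ideal.Quotient.mkₐ Ω m))
      (a - algebraMap Ω A lam) = 0 := by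
    have : (Ideal.Quotient.mkₐ Ω m) (a - algebraMap Ω A lam) = 0 :=
      Ideal.Quotient.eq_zero_iff_mem.mpr ham
    rw [AlgHom.comp_apply, this, map_zero]
  rw [map_sub, AlgHom.commutes, sub_eq_zero] at h0
  simpa using h0

end Char

section Approx

variable {Ω : Type*} [Field Ω] {Γ : Type*} [LinearOrderedCommGroupWithZero Γ] (v : Valuation Ω Γ)
variable {A : Type*} [CommRing A] [Algebra Ω A] {ι : Type*} [Fintype ι]
  (B : Module.Basis ι Ω A)

/-- Elements of `A` with `v`-integral coordinates in the basis `B`. -/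
def IntC (a : A) : Prop := ∀ i, v (B.repr a i) ≤ 1

variable {v B}

theorem IntC.zero : IntC v B 0 := fun i => by simp

theorem IntC.add {a a' : A} (ha : IntC v B a) (ha' : IntC v B a') : IntC v B (a + a') :=
  fun i => by
    rw [map_add, Finsupp.add_apply]
    exact v.map_add_le (ha i) (ha' i)

theorem IntC.sub {a a' : A} (ha : IntC v B a) (ha' : IntC v B a') : IntC v B (a - a') :=
  fun i => by
    rw [map_sub, Finsupp.sub_apply]
    exact v.map_sub_le (ha i) (ha' i)

theorem IntC.smul {s : Ω} (hs : v s ≤ 1) {a : A} (ha : IntC v B a) : IntC v B (s • a) :=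
  fun i => by
    rw [map_smul, Finsupp.smul_apply, smul_eq_mul, map_mul]
    exact mul_le_one' hs (ha i)

theorem IntC.sum {κ : Type*} (s : Finset κ) (g : κ → A) (hg : ∀ k ∈ s, IntC v B (g k)) :
    IntC v B (∑ k ∈ s, g k) := fun i => by
  rw [map_sum, Finsupp.coe_finsetSum, Finset.sum_apply]
  exact v.map_sum_le fun k hk => hg k hk i

theorem mul_eq_sum_sum (a a' : A) :
    a * a' = ∑ i, ∑ j, (B.repr a i * B.repr a' j) • (B i * B j) := by
  conv_lhs => rw [← B.sum_repr a, ← B.sum_repr a']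
  rw [Finset.sum_mul_sum]
  refine Finset.sum_congr rfl fun i _ => Finset.sum_congr rfl fun j _ => ?_
  rw [smul_mul_smul_comm]

theorem IntC.mul (hBmul : ∀ i j, IntC v B (B i * B j)) {a a' : A} (ha : IntC v B a)
    (ha' : IntC v B a') : IntC v B (a * a') := by
  rw [mul_eq_sum_sum (B := B) a a']
  refine IntC.sum _ _ fun i _ => IntC.sum _ _ fun j _ => IntC.smul ?_ (hBmul i j)
  rw [map_mul]
  exact mul_le_one' (ha i) (ha' j)

variable (φ : A →ₗ[Ω] Ω) {μ : Γ}

theorem apply_eq_sum (a : A) : φ a = ∑ i, B.repr a i * φ (B i) := by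
  conv_lhs => rw [← B.sum_repr a]
  rw [map_sum]
  refine Finset.sum_congr rfl fun i _ => ?_
  rw [map_smul, smul_eq_mul]

theorem IntC.val_apply_le (hφ : ∀ i, v (φ (B i)) ≤ 1) {a : A} (ha : IntC v B a) :
    v (φ a) ≤ 1 := by
  rw [apply_eq_sum (B := B) φ a]
  refine v.map_sum_le fun i _ => ?_
  rw [map_mul]
  exact mul_le_one' (ha i) (hφ i)

/-- Approximate multiplicativity on the basis extends to the integral lattice. -/
theorem IntC.approx_mul (hmul : ∀ i j, v (φ (B i * B j) - φ (B i) * φ (B j)) ≤ μ)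
    {a a' : A} (ha : IntC v B a) (ha' : IntC v B a') :
    v (φ (a * a') - φ a * φ a') ≤ μ := by
  have e : φ (a * a') - φ a * φ a' =
      ∑ i, ∑ j, (B.repr a i * B.repr a' j) * (φ (B i * B j) - φ (B i) * φ (B j)) := by
    rw [mul_eq_sum_sum (B := B) a a', apply_eq_sum (B := B) φ a, apply_eq_sum (B := B) φ a',
      Finset.sum_mul_sum, map_sum, ← Finset.sum_sub_distrib]
    refine Finset.sum_congr rfl fun i _ => ?_
    rw [map_sum, ← Finset.sum_sub_distrib]
    refine Finset.sum_congr rfl fun j _ => ?_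
    rw [map_smul, smul_eq_mul]
    ring
  rw [e]
  refine v.map_sum_le fun i _ => v.map_sum_le fun j _ => ?_
  rw [map_mul, map_mul]
  exact mul_le_of_le_one_of_le (mul_le_one' (ha i) (ha' j)) (hmul i j)

/-- The approximate Cayley-Hamilton estimate: for integral `a` and integral scalars `lam`,
`φ (∏ (a - lam)) ≈ ∏ (φ a - lam)` up to `μ`. -/
theorem IntC.approx_prod (h1 : IntC v B 1) (hBmul : ∀ i j, IntC v B (B i * B j))
    (hφ : ∀ i, v (φ (B i)) ≤ 1) (hone : v (φ 1 - 1) ≤ μ)
    (hmul : ∀ i j, v (φ (B i * B j) - φ (B i) * φ (B j)) ≤ μ)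
    {a : A} (ha : IntC v B a) (s : Multiset Ω) (hs : ∀ lam ∈ s, v lam ≤ 1) :
    IntC v B (s.map fun lam => a - algebraMap Ω A lam).prod ∧
      v (s.map fun lam => φ a - lam).prod ≤ 1 ∧
      v (φ (s.map fun lam => a - algebraMap Ω A lam).prod - (s.map fun lam => φ a - lam).prod)
        ≤ μ := by
  induction s using Multiset.induction_on with
  | empty => simpa using ⟨h1, hone⟩
  | cons lam s ih =>
    obtain ⟨ihP, ihp, ihd⟩ := ih fun l hl => hs l (Multiset.mem_cons_of_mem hl)
    have hlam : v lam ≤ 1 := hs lam (Multiset.mem_cons_self _ _)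
    have hal : IntC v B (a - algebraMap Ω A lam) := by
      rw [Algebra.algebraMap_eq_smul_one]
      exact ha.sub (IntC.smul hlam h1)
    have hφa : v (φ a) ≤ 1 := ha.val_apply_le φ hφ
    have hφal : v (φ (a - algebraMap Ω A lam)) ≤ 1 := hal.val_apply_le φ hφ
    simp only [Multiset.map_cons, Multiset.prod_cons]
    set P := (s.map fun lam => a - algebraMap Ω A lam).prod with hP
    set p := (s.map fun lam => φ a - lam).prod with hp
    refine ⟨hal.mul hBmul ihP, ?_, ?_⟩
    · rw [map_mul]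
      exact mul_le_one' (v.map_sub_le hφa hlam) ihp
    · have e : φ ((a - algebraMap Ω A lam) * P) - (φ a - lam) * p =
          (φ ((a - algebraMap Ω A lam) * P) - φ (a - algebraMap Ω A lam) * φ P) +
            (φ (a - algebraMap Ω A lam) * (φ P - p) + (-(lam * (φ 1 - 1))) * p) := by
        have : φ (a - algebraMap Ω A lam) = φ a - lam * φ 1 := by
          rw [map_sub, Algebra.algebraMap_eq_smul_one, map_smul, smul_eq_mul]
        rw [this]
        ring
      rw [e]
      refine v.map_add_le (hal.approx_mul φ hmul ihP) (v.map_add_le ?_ ?_)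
      · rw [map_mul]
        exact mul_le_of_le_one_of_le hφal ihd
      · rw [map_mul, Valuation.map_neg, map_mul, mul_comm]
        exact mul_le_of_le_one_of_le ihp (mul_le_of_le_one_of_le hlam hone)

/-- For integral `a` some root `lam` of the characteristic polynomial of multiplication by `a`
has `v (φ a - lam) < γ`, provided the defect `μ` is `< γ ^ rank` and all roots are integral. -/
theorem IntC.exists_root_near [IsAlgClosed Ω] [Module.Finite Ω A] (h1 : IntC v B 1)
    (hBmul : ∀ i j, IntC v B (B i * B j))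
    (hφ : ∀ i, v (φ (B i)) ≤ 1) (hone : v (φ 1 - 1) ≤ μ)
    (hmul : ∀ i j, v (φ (B i * B j) - φ (B i) * φ (B j)) ≤ μ)
    {γ : Γ} (hγ : γ ≤ 1) (hμ : μ < γ ^ Fintype.card ι)
    {a : A} (ha : IntC v B a)
    (hroots : ∀ lam ∈ (LinearMap.mulLeft Ω a).charpoly.roots, v lam ≤ 1) :
    ∃ lam ∈ (LinearMap.mulLeft Ω a).charpoly.roots, v (φ a - lam) < γ := by
  set s := (LinearMap.mulLeft Ω a).charpoly.roots with hs
  have hsplit : (LinearMap.mulLeft Ω a).charpoly.Splits := IsAlgClosed.splits _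
  have hcp : (LinearMap.mulLeft Ω a).charpoly = (s.map (X - C ·)).prod :=
    hsplit.eq_prod_roots_of_monic (LinearMap.charpoly_monic _)
  have hzero : (s.map fun lam => a - algebraMap Ω A lam).prod = 0 := by
    have h0 : aeval (LinearMap.mulLeft Ω a) (LinearMap.mulLeft Ω a).charpoly = 0 :=
      LinearMap.aeval_self_charpoly _
    have h2 : aeval (Algebra.lmul Ω A a) (LinearMap.mulLeft Ω a).charpoly
        = Algebra.lmul Ω A (aeval a (LinearMap.mulLeft Ω a).charpoly) :=
      Polynomial.aeval_algHom_apply (Algebra.lmul Ω A) a _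
    have h3 : aeval a (LinearMap.mulLeft Ω a).charpoly = 0 := by
      have h4 : Algebra.lmul Ω A (aeval a (LinearMap.mulLeft Ω a).charpoly) 1 = 0 := by
        rw [← h2]
        have : (Algebra.lmul Ω A a) = LinearMap.mulLeft Ω a := rfl
        rw [this, h0]
        rfl
      simpa using h4
    rw [hcp, map_multiset_prod, Multiset.map_map] at h3
    simpa using h3
  obtain ⟨-, -, hd⟩ := IntC.approx_prod φ h1 hBmul hφ hone hmul ha s hroots
  rw [hzero, map_zero, zero_sub, Valuation.map_neg] at hd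
  by_contra hcon
  push Not at hcon
  have hcard : Multiset.card s ≤ Fintype.card ι := by
    have := Polynomial.card_roots' (LinearMap.mulLeft Ω a).charpoly
    rwa [LinearMap.charpoly_natDegree, Module.finrank_eq_card_basis B] at this
  have hge : γ ^ Multiset.card s ≤ v (s.map fun lam => φ a - lam).prod := by
    rw [map_multiset_prod, Multiset.map_map]
    have := Multiset.pow_card_le_prod (s := s.map (fun lam => v (φ a - lam))) (a := γ)
      (by
        intro x hx
        obtain ⟨lam, hl, rfl⟩ := Multiset.mem_map.mp hx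
        exact hcon lam hl)
    simpa using this
  have : γ ^ Fintype.card ι ≤ μ :=
    (pow_le_pow_right_of_le_one' hγ hcard).trans (hge.trans hd)
  exact absurd hμ (not_lt.mpr this)

end Approx

end Fermat.Agent.S56.H384

end
-- ===== PACK-END S56/H384/ApproxAlg.lean

-- ===== PACK-BEGIN S56/H194/SSAd.lean
section


/-!
# S56 / W-FLAT-SS, piece FL-SS: corollaries of the structure theorem for `ad⁰`
(helper194; Mathlib only, on top of `SSAbs.lean`)

In the situation of `SS.Hyp` (`ρ` two-dimensional, irreducible on `D`, eigenvalues in `k`,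
`D ⊇ I ⊇ W`, Frobenius `φ`):

* `Hyp.frob_sq`             : `ρ φ * ρ φ = c • 1`, `c ≠ 0`.
* `Hyp.image_pow`           : `ρ σ ^ (2 * (Nat.card k - 1)) = 1` for `σ ∈ D`; the exponent is prime to `p`.
* `Hyp.exists_exponent`     : `∃ N, ¬ p ∣ N ∧ ∀ σ ∈ D, ρ σ ^ N = 1`.
* `Hyp.ad_coords`           : coordinates of `Ad ρ` in the basis of the structure theorem:
  inertia multiplies the `(0,1)`-coefficient by `ψ = χ/χ'` and the `(1,0)`-coefficient by `ψ⁻¹`,
  `ψ ≠ 1`, `ψ ^ (p + 1) = 1`; Frobenius exchanges the two diagonal coefficients and exchanges the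
  off-diagonal ones up to `u`, `u⁻¹`.
* `Hyp.commutant_scalar`    : an endomorphism commuting with `ρ D` is a scalar.
* `Hyp.ad_invariant_eq_zero`: for `p ≠ 2` a trace-zero endomorphism commuting with `ρ D` is `0`.
-/

set_option autoImplicit false

open Polynomial

namespace Fermat.Agent.S56.H194.SS

variable {k : Type*} [Field k] {V : Type*} [AddCommGroup V] [Module k V]

/-! ### Coordinates in a basis of a plane -/

section Coords

variable (b : Module.Basis (Fin 2) k V)

theorem eq_repr_smul_add (v : V) : v = b.repr v 0 • b 0 + b.repr v 1 • b 1 := by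
  conv_lhs => rw [← b.sum_repr v, Fin.sum_univ_two]

theorem repr_smul_add_zero (x y : k) : b.repr (x • b 0 + y • b 1) 0 = x := by
  simp

theorem repr_smul_add_one (x y : k) : b.repr (x • b 0 + y • b 1) 1 = y := by
  simp

theorem repr_diag {f : Module.End k V} {c₀ c₁ : k} (h₀ : f (b 0) = c₀ • b 0)
    (h₁ : f (b 1) = c₁ • b 1) (v : V) :
    b.repr (f v) 0 = c₀ * b.repr v 0 ∧ b.repr (f v) 1 = c₁ * b.repr v 1 := by
  have hv : f v = (c₀ * b.repr v 0) • b 0 + (c₁ * b.repr v 1) • b 1 := by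
    conv_lhs => rw [eq_repr_smul_add b v]
    rw [map_add, map_smul, map_smul, h₀, h₁, smul_smul, smul_smul, mul_comm, mul_comm _ c₁]
  rw [hv]
  exact ⟨repr_smul_add_zero b _ _, repr_smul_add_one b _ _⟩

theorem repr_antidiag {f : Module.End k V} {c₀ c₁ : k} (h₀ : f (b 0) = c₀ • b 1)
    (h₁ : f (b 1) = c₁ • b 0) (v : V) :
    b.repr (f v) 0 = c₁ * b.repr v 1 ∧ b.repr (f v) 1 = c₀ * b.repr v 0 := by
  have hv : f v = (c₁ * b.repr v 1) • b 0 + (c₀ * b.repr v 0) • b 1 := by
    conv_lhs => rw [eq_repr_smul_add b v]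
    rw [map_add, map_smul, map_smul, h₀, h₁, smul_smul, smul_smul, mul_comm, mul_comm _ c₁,
      add_comm]
  rw [hv]
  exact ⟨repr_smul_add_zero b _ _, repr_smul_add_one b _ _⟩

theorem ext_basis_two {f g : Module.End k V} (h₀ : f (b 0) = g (b 0)) (h₁ : f (b 1) = g (b 1)) :
    f = g := by
  apply b.ext
  intro i
  fin_cases i
  · exact h₀
  · exact h₁

/-- `f` is monomial in the basis `b`: diagonal or anti-diagonal with non-zero entries. -/
def IsMonomial (f : Module.End k V) : Prop :=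
  (∃ c₀ c₁ : k, c₀ ≠ 0 ∧ c₁ ≠ 0 ∧ f (b 0) = c₀ • b 0 ∧ f (b 1) = c₁ • b 1) ∨
  (∃ c₀ c₁ : k, c₀ ≠ 0 ∧ c₁ ≠ 0 ∧ f (b 0) = c₀ • b 1 ∧ f (b 1) = c₁ • b 0)

theorem IsMonomial.one : IsMonomial b (1 : Module.End k V) :=
  Or.inl ⟨1, 1, one_ne_zero, one_ne_zero, by simp, by simp⟩

theorem IsMonomial.mul {f g : Module.End k V} (hf : IsMonomial b f) (hg : IsMonomial b g) :
    IsMonomial b (f * g) := by
  rcases hf with ⟨c₀, c₁, hc₀, hc₁, hf₀, hf₁⟩ | ⟨c₀, c₁, hc₀, hc₁, hf₀, hf₁⟩ <;>
  rcases hg with ⟨d₀, d₁, hd₀, hd₁, hg₀, hg₁⟩ | ⟨d₀, d₁, hd₀, hd₁, hg₀, hg₁⟩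
  · exact Or.inl ⟨d₀ * c₀, d₁ * c₁, mul_ne_zero hd₀ hc₀, mul_ne_zero hd₁ hc₁,
      by rw [Module.End.mul_apply, hg₀, map_smul, hf₀, smul_smul],
      by rw [Module.End.mul_apply, hg₁, map_smul, hf₁, smul_smul]⟩
  · exact Or.inr ⟨d₀ * c₁, d₁ * c₀, mul_ne_zero hd₀ hc₁, mul_ne_zero hd₁ hc₀,
      by rw [Module.End.mul_apply, hg₀, map_smul, hf₁, smul_smul],
      by rw [Module.End.mul_apply, hg₁, map_smul, hf₀, smul_smul]⟩
  · exact Or.inr ⟨d₀ * c₀, d₁ * c₁, mul_ne_zero hd₀ hc₀, mul_ne_zero hd₁ hc₁,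
      by rw [Module.End.mul_apply, hg₀, map_smul, hf₀, smul_smul],
      by rw [Module.End.mul_apply, hg₁, map_smul, hf₁, smul_smul]⟩
  · exact Or.inl ⟨d₀ * c₁, d₁ * c₀, mul_ne_zero hd₀ hc₁, mul_ne_zero hd₁ hc₀,
      by rw [Module.End.mul_apply, hg₀, map_smul, hf₁, smul_smul],
      by rw [Module.End.mul_apply, hg₁, map_smul, hf₀, smul_smul]⟩

theorem IsMonomial.pow {f : Module.End k V} (hf : IsMonomial b f) (n : ℕ) :
    IsMonomial b (f ^ n) := by
  induction n with
  | zero => rw [pow_zero]; exact IsMonomial.one b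
  | succ n ih => rw [pow_succ]; exact ih.mul b hf

theorem pow_eq_one_of_diag [Finite k] {f : Module.End k V} {c₀ c₁ : k} (hc₀ : c₀ ≠ 0)
    (hc₁ : c₁ ≠ 0) (h₀ : f (b 0) = c₀ • b 0) (h₁ : f (b 1) = c₁ • b 1) :
    f ^ (Nat.card k - 1) = 1 := by
  have key : ∀ c : k, c ≠ 0 → c ^ (Nat.card k - 1) = 1 := by
    intro c hc
    let _ := Fintype.ofFinite k
    rw [Nat.card_eq_fintype_card]
    exact FiniteField.pow_card_sub_one_eq_one c hc
  apply ext_basis_two b
  · rw [Hyp.pow_apply_eigen h₀, key c₀ hc₀, one_smul, Module.End.one_apply]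
  · rw [Hyp.pow_apply_eigen h₁, key c₁ hc₁, one_smul, Module.End.one_apply]

theorem IsMonomial.pow_eq_one [Finite k] {f : Module.End k V} (hf : IsMonomial b f) :
    f ^ (2 * (Nat.card k - 1)) = 1 := by
  rcases hf with ⟨c₀, c₁, hc₀, hc₁, hf₀, hf₁⟩ | ⟨c₀, c₁, hc₀, hc₁, hf₀, hf₁⟩
  · rw [mul_comm, pow_mul, pow_eq_one_of_diag b hc₀ hc₁ hf₀ hf₁, one_pow]
  · rw [pow_mul]
    apply pow_eq_one_of_diag b (mul_ne_zero hc₀ hc₁) (mul_ne_zero hc₁ hc₀)
    · rw [pow_two, Module.End.mul_apply, hf₀, map_smul, hf₁, smul_smul]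
    · rw [pow_two, Module.End.mul_apply, hf₁, map_smul, hf₀, smul_smul]

end Coords

namespace Hyp

variable [Module.Finite k V] {p : ℕ} [Fact p.Prime] [CharP k p] {G : Type*} [Group G]
  {ρ : G →* Module.End k V} {D I W : Subgroup G} {φ : G}

variable (h : _root_.Fermat.Agent.S56.H194.SS.Hyp p ρ D I W φ)

include h

/-- Matrix-free form of the structure theorem: explicit action on the basis, characters
multiplicative. -/
theorem structure_thm' [Finite k] :
    ∃ (b : Module.Basis (Fin 2) k V) (χ χ' : G → k) (a a' : k),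
      (∀ τ ∈ I, ρ τ (b 0) = χ τ • b 0 ∧ ρ τ (b 1) = χ' τ • b 1) ∧
      (∃ τ ∈ I, χ τ ≠ χ' τ) ∧
      (∀ τ ∈ I, χ' τ = χ τ ^ p ∧ χ τ = χ' τ ^ p) ∧
      (∀ τ ∈ I, χ τ ≠ 0 ∧ χ' τ ≠ 0) ∧
      a ≠ 0 ∧ a' ≠ 0 ∧ ρ φ (b 0) = a • b 1 ∧ ρ φ (b 1) = a' • b 0 := by
  obtain ⟨b, χ, χ', a, a', h1, h2, h3, ha, ha', h4, h5⟩ := h.structure_thm
  refine ⟨b, χ, χ', a, a', h1, h2, h3, ?_, ha, ha', h4, h5⟩
  intro τ hτ
  constructor
  · intro h0
    have := (h1 τ hτ).1
    rw [h0, zero_smul] at this
    exact b.ne_zero 0 (rho_injective τ (this.trans (map_zero _).symm))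
  · intro h0
    have := (h1 τ hτ).2
    rw [h0, zero_smul] at this
    exact b.ne_zero 1 (rho_injective τ (this.trans (map_zero _).symm))

/-- `ρ φ * ρ φ` is a non-zero scalar. -/
theorem frob_sq [Finite k] : ∃ c : k, c ≠ 0 ∧ ρ φ * ρ φ = c • (1 : Module.End k V) := by
  obtain ⟨b, χ, χ', a, a', -, -, -, -, ha, ha', h4, h5⟩ := h.structure_thm'
  refine ⟨a * a', mul_ne_zero ha ha', ?_⟩
  apply ext_basis_two b
  · rw [Module.End.mul_apply, h4, map_smul, h5, smul_smul, LinearMap.smul_apply,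
      Module.End.one_apply]
  · rw [Module.End.mul_apply, h5, map_smul, h4, smul_smul, LinearMap.smul_apply,
      Module.End.one_apply, mul_comm]

/-- Every `ρ σ`, `σ ∈ D`, is monomial in the basis of the structure theorem. -/
theorem exists_basis_monomial [Finite k] :
    ∃ b : Module.Basis (Fin 2) k V, ∀ σ ∈ D, IsMonomial b (ρ σ) := by
  obtain ⟨b, χ, χ', a, a', h1, -, -, hne, ha, ha', h4, h5⟩ := h.structure_thm'
  refine ⟨b, fun σ hσ => ?_⟩
  obtain ⟨n, τ, hτ, hστ⟩ := h.gen σ hσ
  rw [hστ, map_mul, map_pow]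
  refine IsMonomial.mul b (IsMonomial.pow b (Or.inr ⟨a, a', ha, ha', h4, h5⟩) n) ?_
  exact Or.inl ⟨χ τ, χ' τ, (hne τ hτ).1, (hne τ hτ).2, (h1 τ hτ).1, (h1 τ hτ).2⟩

/-- The image `ρ D` has exponent dividing `2 (|k| - 1)`. -/
theorem image_pow [Finite k] : ∀ σ ∈ D, ρ σ ^ (2 * (Nat.card k - 1)) = 1 := by
  obtain ⟨b, hb⟩ := h.exists_basis_monomial
  exact fun σ hσ => (hb σ hσ).pow_eq_one b

omit h in
theorem not_dvd_two_mul_card_sub_one [Finite k] (hp : p ≠ 2) :
    ¬ p ∣ 2 * (Nat.card k - 1) := by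
  have hpp : p.Prime := Fact.out
  intro hdvd
  rcases (Nat.Prime.dvd_mul hpp).mp hdvd with h2 | h2
  · exact hp ((Nat.prime_dvd_prime_iff_eq hpp Nat.prime_two).mp h2)
  · let _ := Fintype.ofFinite k
    obtain ⟨n, hn⟩ := FiniteField.card k p
    rw [Nat.card_eq_fintype_card, hn.2] at h2
    have h3 : p ∣ p ^ (n : ℕ) := dvd_pow_self p n.ne_zero
    have h4 : 1 ≤ p ^ (n : ℕ) := Nat.one_le_pow _ _ hpp.pos
    have h5 : p ∣ 1 := by
      have := Nat.dvd_sub h3 h2
      rwa [Nat.sub_sub_self h4] at this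
    exact hpp.one_lt.ne' (Nat.dvd_one.mp h5)

/-- The image `ρ D` has exponent prime to `p` (for `p` odd). -/
theorem exists_exponent [Finite k] (hp : p ≠ 2) : ∃ N : ℕ, ¬ p ∣ N ∧ ∀ σ ∈ D, ρ σ ^ N = 1 :=
  ⟨_, not_dvd_two_mul_card_sub_one hp, h.image_pow⟩

/-- Schur: an endomorphism commuting with `ρ D` is a scalar. -/
theorem commutant_scalar [Finite k] (m : Module.End k V)
    (hm : ∀ σ ∈ D, ρ σ * m = m * ρ σ) : ∃ c : k, m = c • (1 : Module.End k V) := by
  obtain ⟨b, χ, χ', a, a', h1, ⟨τ₀, hτ₀, hreg⟩, -, -, ha, ha', h4, h5⟩ := h.structure_thm'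
  have hτ := hm τ₀ (h.I_le hτ₀)
  -- `m` is diagonal
  have e0 := congrArg (fun u : Module.End k V => b.repr (u (b 0)) 1) hτ
  have e1 := congrArg (fun u : Module.End k V => b.repr (u (b 1)) 0) hτ
  simp only [Module.End.mul_apply] at e0 e1
  rw [(repr_diag b (h1 τ₀ hτ₀).1 (h1 τ₀ hτ₀).2 _).2, (h1 τ₀ hτ₀).1, map_smul, map_smul,
    Finsupp.smul_apply, smul_eq_mul] at e0
  rw [(repr_diag b (h1 τ₀ hτ₀).1 (h1 τ₀ hτ₀).2 _).1, (h1 τ₀ hτ₀).2, map_smul, map_smul,
    Finsupp.smul_apply, smul_eq_mul] at e1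
  have z0 : b.repr (m (b 0)) 1 = 0 := by
    have : (χ' τ₀ - χ τ₀) * b.repr (m (b 0)) 1 = 0 := by rw [sub_mul, e0, sub_self]
    rcases mul_eq_zero.mp this with h0 | h0
    · exact (hreg (sub_eq_zero.mp h0).symm).elim
    · exact h0
  have z1 : b.repr (m (b 1)) 0 = 0 := by
    have : (χ τ₀ - χ' τ₀) * b.repr (m (b 1)) 0 = 0 := by rw [sub_mul, e1, sub_self]
    rcases mul_eq_zero.mp this with h0 | h0
    · exact (hreg (sub_eq_zero.mp h0)).elim
    · exact h0
  have hm0 : m (b 0) = b.repr (m (b 0)) 0 • b 0 := by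
    conv_lhs => rw [eq_repr_smul_add b (m (b 0)), z0, zero_smul, add_zero]
  have hm1 : m (b 1) = b.repr (m (b 1)) 1 • b 1 := by
    conv_lhs => rw [eq_repr_smul_add b (m (b 1)), z1, zero_smul, zero_add]
  -- Frobenius identifies the two diagonal entries
  have hφ := congrArg (fun u : Module.End k V => u (b 0)) (hm φ h.phi_mem)
  simp only [Module.End.mul_apply] at hφ
  rw [hm0, map_smul, h4, map_smul, hm1, smul_smul, smul_smul] at hφ
  have hxy : b.repr (m (b 0)) 0 * a = a * b.repr (m (b 1)) 1 :=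
    smul_left_injective k (b.ne_zero 1) hφ
  have hxy' : b.repr (m (b 0)) 0 = b.repr (m (b 1)) 1 :=
    mul_left_cancel₀ ha ((mul_comm _ _).trans hxy)
  refine ⟨b.repr (m (b 0)) 0, ext_basis_two b ?_ ?_⟩
  · rw [LinearMap.smul_apply, Module.End.one_apply]; exact hm0
  · rw [LinearMap.smul_apply, Module.End.one_apply, hxy']; exact hm1

/-- For `p ≠ 2`, `ad⁰` has no invariants: a trace-zero endomorphism commuting with `ρ D`
vanishes. -/
theorem ad_invariant_eq_zero [Finite k] (hp : p ≠ 2) (m : Module.End k V)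
    (htr : LinearMap.trace k V m = 0) (hm : ∀ σ ∈ D, ρ σ * m = m * ρ σ) : m = 0 := by
  obtain ⟨c, rfl⟩ := h.commutant_scalar m hm
  rw [map_smul, LinearMap.trace_one, h.finrank_eq, smul_eq_mul] at htr
  have h2 : ((2 : ℕ) : k) ≠ 0 := by
    intro h0
    have hpp : p.Prime := Fact.out
    have := (CharP.cast_eq_zero_iff k p 2).mp h0
    exact hp ((Nat.prime_dvd_prime_iff_eq hpp Nat.prime_two).mp this)
  rcases mul_eq_zero.mp htr with h0 | h0
  · rw [h0, zero_smul]
  · exact (h2 h0).elim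

/-- **Coordinates of `Ad ρ`.**  With `M i j := b.repr (m (b j)) i` the matrix coefficients of an
endomorphism `m` in the basis of the structure theorem: inertia `τ` fixes the diagonal
coefficients, multiplies `M 0 1` by `ψ τ` and `M 1 0` by `(ψ τ)⁻¹`, where `ψ = χ / χ'` is
non-trivial on `I` and `ψ ^ (p + 1) = 1`, `ψ ^ p = ψ⁻¹`; Frobenius exchanges the diagonal
coefficients and maps `M 1 0` to `u * M 1 0` in position `(0, 1)`, `M 0 1` to `u⁻¹ * M 0 1` in
position `(1, 0)`. -/
theorem ad_coords [Finite k] :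
    ∃ (b : Module.Basis (Fin 2) k V) (ψ : G → k) (u : k), u ≠ 0 ∧
      (∃ τ ∈ I, ψ τ ≠ 1) ∧
      (∀ τ ∈ I, ψ τ ≠ 0 ∧ ψ τ ^ (p + 1) = 1 ∧ ψ τ ^ p = (ψ τ)⁻¹) ∧
      (∀ τ ∈ I, ∀ m : Module.End k V,
        b.repr ((ρ τ * m * ρ τ⁻¹) (b 0)) 0 = b.repr (m (b 0)) 0 ∧
        b.repr ((ρ τ * m * ρ τ⁻¹) (b 1)) 1 = b.repr (m (b 1)) 1 ∧
        b.repr ((ρ τ * m * ρ τ⁻¹) (b 1)) 0 = ψ τ * b.repr (m (b 1)) 0 ∧
        b.repr ((ρ τ * m * ρ τ⁻¹) (b 0)) 1 = (ψ τ)⁻¹ * b.repr (m (b 0)) 1) ∧
      (∀ m : Module.End k V,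
        b.repr ((ρ φ * m * ρ φ⁻¹) (b 0)) 0 = b.repr (m (b 1)) 1 ∧
        b.repr ((ρ φ * m * ρ φ⁻¹) (b 1)) 1 = b.repr (m (b 0)) 0 ∧
        b.repr ((ρ φ * m * ρ φ⁻¹) (b 1)) 0 = u * b.repr (m (b 0)) 1 ∧
        b.repr ((ρ φ * m * ρ φ⁻¹) (b 0)) 1 = u⁻¹ * b.repr (m (b 1)) 0) := by
  obtain ⟨b, χ, χ', a, a', h1, ⟨τ₀, hτ₀, hreg⟩, h3, hne, ha, ha', h4, h5⟩ := h.structure_thm'
  -- inverse images of the basis vectors
  have inv_diag : ∀ τ ∈ I, ρ τ⁻¹ (b 0) = (χ τ)⁻¹ • b 0 ∧ ρ τ⁻¹ (b 1) = (χ' τ)⁻¹ • b 1 := by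
    intro τ hτ
    constructor
    · apply rho_injective (ρ := ρ) τ
      rw [← Module.End.mul_apply, rho_mul_inv, Module.End.one_apply, map_smul, (h1 τ hτ).1,
        smul_smul, inv_mul_cancel₀ (hne τ hτ).1, one_smul]
    · apply rho_injective (ρ := ρ) τ
      rw [← Module.End.mul_apply, rho_mul_inv, Module.End.one_apply, map_smul, (h1 τ hτ).2,
        smul_smul, inv_mul_cancel₀ (hne τ hτ).2, one_smul]
  have inv_φ : ρ φ⁻¹ (b 0) = a'⁻¹ • b 1 ∧ ρ φ⁻¹ (b 1) = a⁻¹ • b 0 := by
    constructor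
    · apply rho_injective (ρ := ρ) φ
      rw [← Module.End.mul_apply, rho_mul_inv, Module.End.one_apply, map_smul, h5,
        smul_smul, inv_mul_cancel₀ ha', one_smul]
    · apply rho_injective (ρ := ρ) φ
      rw [← Module.End.mul_apply, rho_mul_inv, Module.End.one_apply, map_smul, h4,
        smul_smul, inv_mul_cancel₀ ha, one_smul]
  refine ⟨b, fun τ => χ τ * (χ' τ)⁻¹, a' * a⁻¹, mul_ne_zero ha' (inv_ne_zero ha),
    ⟨τ₀, hτ₀, ?_⟩, ?_, ?_, ?_⟩
  · intro h0
    apply hreg
    have := congrArg (· * χ' τ₀) h0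
    simpa [mul_assoc, inv_mul_cancel₀ (hne τ₀ hτ₀).2] using this
  · intro τ hτ
    have hx := (hne τ hτ).1
    have hy := (hne τ hτ).2
    have e1 : χ' τ = χ τ ^ p := (h3 τ hτ).1
    have e2 : χ τ = χ' τ ^ p := (h3 τ hτ).2
    refine ⟨mul_ne_zero hx (inv_ne_zero hy), ?_, ?_⟩
    · rw [mul_pow, inv_pow, pow_succ, pow_succ, ← e1, ← e2]
      field_simp
    · rw [mul_pow, inv_pow, ← e1, ← e2, mul_inv, inv_inv, mul_comm]
  · intro τ hτ m
    have d := repr_diag b (h1 τ hτ).1 (h1 τ hτ).2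
    have hx := (hne τ hτ).1
    have hy := (hne τ hτ).2
    refine ⟨?_, ?_, ?_, ?_⟩
    · rw [Module.End.mul_apply, Module.End.mul_apply, (inv_diag τ hτ).1, map_smul, map_smul,
        map_smul, Finsupp.smul_apply, smul_eq_mul, (d _).1, ← mul_assoc, inv_mul_cancel₀ hx,
        one_mul]
    · rw [Module.End.mul_apply, Module.End.mul_apply, (inv_diag τ hτ).2, map_smul, map_smul,
        map_smul, Finsupp.smul_apply, smul_eq_mul, (d _).2, ← mul_assoc, inv_mul_cancel₀ hy,
        one_mul]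
    · rw [Module.End.mul_apply, Module.End.mul_apply, (inv_diag τ hτ).2, map_smul, map_smul,
        map_smul, Finsupp.smul_apply, smul_eq_mul, (d _).1, ← mul_assoc, mul_comm (χ' τ)⁻¹]
    · rw [Module.End.mul_apply, Module.End.mul_apply, (inv_diag τ hτ).1, map_smul, map_smul,
        map_smul, Finsupp.smul_apply, smul_eq_mul, (d _).2, ← mul_assoc, mul_inv, inv_inv,
        mul_comm (χ τ)⁻¹]
  · intro m
    have d := repr_antidiag b h4 h5
    refine ⟨?_, ?_, ?_, ?_⟩
    · rw [Module.End.mul_apply, Module.End.mul_apply, inv_φ.1, map_smul, map_smul,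
        map_smul, Finsupp.smul_apply, smul_eq_mul, (d _).1, ← mul_assoc, inv_mul_cancel₀ ha',
        one_mul]
    · rw [Module.End.mul_apply, Module.End.mul_apply, inv_φ.2, map_smul, map_smul,
        map_smul, Finsupp.smul_apply, smul_eq_mul, (d _).2, ← mul_assoc, inv_mul_cancel₀ ha,
        one_mul]
    · rw [Module.End.mul_apply, Module.End.mul_apply, inv_φ.2, map_smul, map_smul,
        map_smul, Finsupp.smul_apply, smul_eq_mul, (d _).1, ← mul_assoc, mul_comm a⁻¹]
    · rw [Module.End.mul_apply, Module.End.mul_apply, inv_φ.1, map_smul, map_smul,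
        map_smul, Finsupp.smul_apply, smul_eq_mul, (d _).2, ← mul_assoc, mul_inv, inv_inv,
        mul_comm a'⁻¹]

end Hyp

end Fermat.Agent.S56.H194.SS

end
-- ===== PACK-END S56/H194/SSAd.lean

-- ===== PACK-BEGIN S13/H175/InertiaMem.lean
section




set_option autoImplicit false

/-!
# Membership criteria for the Prelude inertia subgroup `A.inertiaSubgroupIn K`
-/

open scoped Pointwise

namespace Fermat.Agent.S13.H175

/-- An automorphism stabilising `A` and acting trivially on the residue field of `A` lies in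
the inertia subgroup. -/
theorem mem_inertiaSubgroupIn_of {K L : Type*} [Field K] [Field L] [Algebra K L]
    (A : ValuationSubring L) (σ : L ≃ₐ[K] L) (hstab : σ • A = A)
    (h : ∀ x : L, x ∈ A → σ x - x ∈ A.nonunits) : σ ∈ A.inertiaSubgroupIn K := by
  unfold ValuationSubring.inertiaSubgroupIn
  rw [Subgroup.mem_map]
  refine ⟨⟨σ, hstab⟩, ?_, rfl⟩
  unfold ValuationSubring.inertiaSubgroup
  rw [MonoidHom.mem_ker]
  ext r
  obtain ⟨x, rfl⟩ := IsLocalRing.residue_surjective r
  show (⟨σ, hstab⟩ : A.decompositionSubgroup K) • IsLocalRing.residue A x = IsLocalRing.residue A x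
  rw [← IsLocalRing.ResidueField.residue_smul]
  rw [← sub_eq_zero, ← map_sub, IsLocalRing.residue_eq_zero_iff]
  have h1 := h x x.2
  rw [ValuationSubring.mem_nonunits_iff_exists_mem_maximalIdeal] at h1
  obtain ⟨h2, h3⟩ := h1
  convert h3 using 1
  exact Subtype.ext rfl

/-- Over an algebraic extension of `ℚ`: an automorphism acting trivially modulo the maximal
ideal of `A` on all algebraic integers lies in the inertia subgroup of `A`. -/
theorem mem_inertiaSubgroupIn_of_integral
    (A : ValuationSubring (AlgebraicClosure ℚ)) (ℓ : ℕ) (hℓ : ℓ.Prime) (hA : A.LiesOverPrime ℓ)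
    (σ : AlgebraicClosure ℚ ≃ₐ[ℚ] AlgebraicClosure ℚ)
    (h : ∀ x : AlgebraicClosure ℚ, IsIntegral ℤ x → σ x - x ∈ A.nonunits) :
    σ ∈ A.inertiaSubgroupIn ℚ := by
  have : Algebra.IsAlgebraic ℚ (AlgebraicClosure ℚ) := AlgebraicClosure.isAlgebraic ℚ
  -- `σ` maps integral elements to integral elements
  have hint : ∀ (τ : AlgebraicClosure ℚ ≃ₐ[ℚ] AlgebraicClosure ℚ) (x : AlgebraicClosure ℚ),
      IsIntegral ℤ x → IsIntegral ℤ (τ x) := by
    intro τ x hx
    exact hx.map τ
  -- the same hypothesis holds for `σ⁻¹`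
  have h' : ∀ x : AlgebraicClosure ℚ, IsIntegral ℤ x → σ.symm x - x ∈ A.nonunits := by
    intro x hx
    have h1 := h (σ.symm x) (hint σ.symm x hx)
    rw [AlgEquiv.apply_symm_apply] at h1
    have := A.nonunits.neg_mem h1
    simpa using this
  -- key: such a `τ` maps `A` into `A` and acts trivially on the residue field
  have key : ∀ (τ : AlgebraicClosure ℚ ≃ₐ[ℚ] AlgebraicClosure ℚ),
      (∀ x : AlgebraicClosure ℚ, IsIntegral ℤ x → τ x - x ∈ A.nonunits) →
      ∀ x : AlgebraicClosure ℚ, x ∈ A → τ x ∈ A ∧ τ x - x ∈ A.nonunits := by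
    intro τ hτ x hx
    obtain ⟨b, s, hb, hs, hsA, hxs⟩ := (Fermat.Agent.S54.mem_valuationSubring_iff A ℓ hℓ hA x).mp hx
    have hbA : b ∈ A := Fermat.Agent.S54.isIntegral_mem_valuationSubring A hb
    have hsmem : s ∈ A := Fermat.Agent.S54.isIntegral_mem_valuationSubring A hs
    have hτs_mem : τ s ∈ A := Fermat.Agent.S54.isIntegral_mem_valuationSubring A (hint τ s hs)
    have hτb_mem : τ b ∈ A := Fermat.Agent.S54.isIntegral_mem_valuationSubring A (hint τ b hb)
    have hs0 : s ≠ 0 := fun h0 => hsA (h0 ▸ A.nonunits.zero_mem)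
    have hτs0 : τ s ≠ 0 := fun h0 => hs0 (by simpa using h0)
    -- `τ s` is a unit of `A`
    have hτsA : τ s ∉ A.nonunits := by
      intro hcon
      have h1 := hτ s hs
      have h2 : s = τ s - (τ s - s) := by ring
      apply hsA
      rw [h2]
      exact A.nonunits.sub_mem hcon h1
    have hsinv : s⁻¹ ∈ A := by
      by_contra hc
      exact hsA (A.mem_nonunits_iff_or.mpr (Or.inr hc))
    have hτsinv : (τ s)⁻¹ ∈ A := by
      by_contra hc
      exact hτsA (A.mem_nonunits_iff_or.mpr (Or.inr hc))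
    have hx_eq : x = b * s⁻¹ := by
      rw [← hxs]; field_simp
    have hτx_eq : τ x = τ b * (τ s)⁻¹ := by
      rw [hx_eq, map_mul, map_inv₀]
    refine ⟨?_, ?_⟩
    · rw [hτx_eq]
      exact A.mul_mem _ _ hτb_mem hτsinv
    · have hdiff : τ x - x = ((τ b - b) * s - b * (τ s - s)) * ((τ s)⁻¹ * s⁻¹) := by
        rw [hτx_eq, hx_eq]
        field_simp
        ring
      rw [hdiff]
      -- nonunits form an ideal-like subset
      have hmul : ∀ u v : AlgebraicClosure ℚ, u ∈ A.nonunits → v ∈ A → u * v ∈ A.nonunits := by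
        intro u v hu hv
        obtain ⟨h1, h2⟩ := ValuationSubring.mem_nonunits_iff_exists_mem_maximalIdeal.mp hu
        have := Ideal.mul_mem_right (⟨v, hv⟩ : A) _ h2
        exact ValuationSubring.mem_nonunits_iff_exists_mem_maximalIdeal.mpr ⟨_, this⟩
      apply hmul _ _ _ (A.mul_mem _ _ hτsinv hsinv)
      apply A.nonunits.sub_mem
      · exact hmul _ _ (hτ b hb) hsmem
      · rw [mul_comm]
        exact hmul _ _ (hτ s hs) hbA
  apply mem_inertiaSubgroupIn_of A σ
  · -- `σ • A = A`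
    apply le_antisymm
    · intro y hy
      obtain ⟨x, hx, rfl⟩ := (ValuationSubring.mem_smul_pointwise_iff_exists σ y A).mp hy
      exact (key σ h x hx).1
    · intro y hy
      rw [ValuationSubring.mem_smul_pointwise_iff_exists]
      refine ⟨σ.symm y, (key σ.symm h' y hy).1, ?_⟩
      simp
  · intro x hx
    exact (key σ h x hx).2

end Fermat.Agent.S13.H175

end
-- ===== PACK-END S13/H175/InertiaMem.lean

-- ===== PACK-BEGIN S56/H186/TameWild.lean
section



/-!
# S56 / leaf TAME-CYC (helper186), part 2: the kernel of the tame character is "wild"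

`L/K` algebraic, `A` a valuation subring of `L`, `τ` in the inertia group of `A` (Prelude form).

* `valuation_pow_apply_sub_lt` : if `v (τ x - x) < v x` then `v (τ ^ j x - x) < v x` for all `j`.
* `apply_eq_of_pow_apply_eq` : if `τ ^ ℓ` fixes `y`, `ℓ` is a unit of `A`, and the tame character of
  `τ` is trivial at `τ y - y`, then `τ` fixes `y` (trace argument).
* `exists_pow_fixes_of_tame_trivial` : if the tame character of `τ` is trivial on a `τ`-stable
  subfield `E` on which `τ ^ n` is trivial (`n > 0`), and all primes `≠ q` are units of `A`, then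
  `τ ^ (q ^ a)` is trivial on `E` for some `a`.
-/

set_option autoImplicit false
set_option linter.unusedSectionVars false

namespace Fermat.Agent.S56.H186

open Fermat.Agent.A2.H708

variable {K L : Type*} [Field K] [Field L] [Algebra K L] [Algebra.IsAlgebraic K L]
  (A : ValuationSubring L)

theorem pow_succ_apply' (τ : L ≃ₐ[K] L) (j : ℕ) (x : L) : (τ ^ (j + 1)) x = τ ((τ ^ j) x) := by
  rw [pow_succ']; rfl

/-- If `τ` moves `x` by less than `v x`, so does every power of `τ`. -/
theorem valuation_pow_apply_sub_lt {τ : L ≃ₐ[K] L} (hτ : τ ∈ A.decompositionSubgroup K) {x : L}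
    (hx : A.valuation (τ x - x) < A.valuation x) (j : ℕ) :
    A.valuation ((τ ^ j) x - x) < A.valuation x := by
  induction j with
  | zero =>
    have h0 : (τ ^ 0) x - x = 0 := by simp
    rw [h0, map_zero]
    exact lt_of_le_of_lt zero_le hx
  | succ j ih =>
    have h1 : (τ ^ (j + 1)) x - x = τ ((τ ^ j) x - x) + (τ x - x) := by
      rw [pow_succ_apply', map_sub]; ring
    rw [h1]
    refine lt_of_le_of_lt (Valuation.map_add _ _ _) (max_lt ?_ hx)
    rw [valuation_apply_of_mem_decomposition A hτ]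
    exact ih

/-- Trace argument: an inertia element `τ` such that `τ ^ ℓ` fixes `y`, with `ℓ` a unit of `A`
and trivial tame character at `τ y - y`, fixes `y`. -/
theorem apply_eq_of_pow_apply_eq {τ : L ≃ₐ[K] L} (hτ : τ ∈ A.decompositionSubgroup K) {ℓ : ℕ}
    (hℓ : A.valuation (ℓ : L) = 1) {y : L} (hy : (τ ^ ℓ) y = y)
    (htame : τ y - y ≠ 0 →
      A.valuation (τ (τ y - y) - (τ y - y)) < A.valuation (τ y - y)) :
    τ y = y := by
  by_contra hne
  set x := τ y - y with hx
  have hx0 : x ≠ 0 := sub_ne_zero.mpr hne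
  have hvx : A.valuation x ≠ 0 := (Valuation.ne_zero_iff _).mpr hx0
  have hlt := htame hx0
  -- telescoping sum
  have htel : ∀ n : ℕ, ∑ j ∈ Finset.range n, (τ ^ j) x = (τ ^ n) y - y := by
    intro n
    induction n with
    | zero => simp
    | succ n ih =>
      rw [Finset.sum_range_succ, ih, hx, map_sub]
      have : (τ ^ n) (τ y) = (τ ^ (n + 1)) y := by
        rw [pow_succ]; rfl
      rw [this]; ring
  have hsum : ∑ j ∈ Finset.range ℓ, (τ ^ j) x = 0 := by rw [htel, hy, sub_self]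
  have hsplit : (ℓ : L) * x = - ∑ j ∈ Finset.range ℓ, ((τ ^ j) x - x) := by
    rw [Finset.sum_sub_distrib, hsum, Finset.sum_const, Finset.card_range, nsmul_eq_mul]
    ring
  have h1 : A.valuation ((ℓ : L) * x) = A.valuation x := by rw [map_mul, hℓ, one_mul]
  have h2 : A.valuation (∑ j ∈ Finset.range ℓ, ((τ ^ j) x - x)) < A.valuation x :=
    Valuation.map_sum_lt _ hvx (fun j _ => valuation_pow_apply_sub_lt A hτ hlt j)
  rw [hsplit, Valuation.map_neg] at h1
  exact absurd h1 (ne_of_lt h2)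

/-- The kernel of the tame character acts through a `q`-group: if the tame character of `τ` is
trivial on a `τ`-stable subfield `E` on which some positive power of `τ` is trivial, and all
primes different from `q` are units of `A`, then `τ ^ (q ^ a)` is trivial on `E` for some `a`. -/
theorem exists_pow_fixes_of_tame_trivial {τ : L ≃ₐ[K] L} (hτ : τ ∈ A.decompositionSubgroup K)
    (E : IntermediateField K L) (hE : ∀ y ∈ E, τ y ∈ E)
    (htame : ∀ x ∈ E, x ≠ 0 → A.valuation (τ x - x) < A.valuation x)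
    {q : ℕ} (hq : q.Prime) (hunit : ∀ ℓ : ℕ, ℓ.Prime → ℓ ≠ q → A.valuation (ℓ : L) = 1)
    {n : ℕ} (hn : n ≠ 0) (hfix : ∀ y ∈ E, (τ ^ n) y = y) :
    ∃ a : ℕ, ∀ y ∈ E, (τ ^ (q ^ a)) y = y := by
  obtain ⟨a, m, hm, rfl⟩ := Nat.exists_eq_pow_mul_and_not_dvd hn q hq.ne_one
  refine ⟨a, ?_⟩
  -- stability under powers
  have hEpow : ∀ (k : ℕ), ∀ y ∈ E, (τ ^ k) y ∈ E := by
    intro k
    induction k with
    | zero => intro y hy; simpa using hy
    | succ k ih => intro y hy; rw [pow_succ_apply']; exact hE _ (ih y hy)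
  -- strong induction on m
  have key : ∀ m : ℕ, m ≠ 0 → ¬ q ∣ m → (∀ y ∈ E, (τ ^ (q ^ a * m)) y = y) →
      ∀ y ∈ E, (τ ^ (q ^ a)) y = y := by
    intro m
    induction m using Nat.strong_induction_on with
    | _ m ih =>
      intro hm0 hqm hfix
      rcases eq_or_ne m 1 with rfl | hm1
      · simpa using hfix
      obtain ⟨ℓ, hℓ, m', hm'⟩ : ∃ ℓ : ℕ, ℓ.Prime ∧ ℓ ∣ m :=
        ⟨m.minFac, Nat.minFac_prime hm1, Nat.minFac_dvd m⟩
      have hℓq : ℓ ≠ q := by
        rintro rfl
        exact hqm ⟨m', hm'⟩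
      have hm'0 : m' ≠ 0 := by
        rintro rfl
        rw [mul_zero] at hm'
        exact hm0 hm'
      have hm'lt : m' < m := by
        have h2 : 2 ≤ ℓ := hℓ.two_le
        have hpos : 0 < m' := Nat.pos_of_ne_zero hm'0
        calc m' < 2 * m' := by omega
          _ ≤ ℓ * m' := Nat.mul_le_mul_right _ h2
          _ = m := hm'.symm
      have hqm' : ¬ q ∣ m' := fun h => hqm (hm' ▸ Dvd.dvd.mul_left h _)
      apply ih m' hm'lt hm'0 hqm'
      intro y hy
      set σ := τ ^ (q ^ a * m') with hσ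
      have hσD : σ ∈ A.decompositionSubgroup K := pow_mem hτ _
      have hσℓ : (σ ^ ℓ) y = y := by
        rw [hσ, ← pow_mul]
        have : q ^ a * m' * ℓ = q ^ a * m := by rw [hm']; ring
        rw [this]
        exact hfix y hy
      refine apply_eq_of_pow_apply_eq A hσD (hunit _ hℓ hℓq) hσℓ ?_
      intro hx0
      have hxE : σ y - y ∈ E := E.sub_mem (hEpow _ y hy) hy
      exact valuation_pow_apply_sub_lt A hτ (htame _ hxE hx0) _
  have hm0 : m ≠ 0 := by
    rintro rfl
    simp at hn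
  exact key m hm0 hm hfix

end Fermat.Agent.S56.H186

end
-- ===== PACK-END S56/H186/TameWild.lean

-- ===== PACK-BEGIN S55/PT/Coh.lean
section


/-!
# S55 / PT layer, part 2: functoriality of level-constant cohomology

* push-forward along an equivariant linear map `φ : A → B` (`pushZ1`, `pushH1`, `pushZ2`, `pushH2`,
  `pushH0`);
* restriction along a level-compatible group homomorphism `r : G' → G`
  (`resZ1`, `resH1`, `resZ2`, `resH2`, `resH0`).
-/

set_option autoImplicit false

noncomputable section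

namespace Fermat.Agent.S55.PT

open groupCohomology

variable {k : Type} [Field k] {G : Type} [Group G]

/-- `φ : A → B` is equivariant. -/
@[reducible] def IsEquivariant {A B : Rep.{0, 0, 0} k G} (φ : A →ₗ[k] B) : Prop :=
  ∀ (g : G) (a : A), φ (A.ρ g a) = B.ρ g (φ a)

section Push

variable {A B : Rep.{0, 0, 0} k G} (φ : A →ₗ[k] B) (hφ : IsEquivariant φ)

include hφ in
lemma push_d₀₁ (m : A) : (d₀₁ B).hom (φ m) = φ ∘ (d₀₁ A).hom m := by
  have hφ' : ∀ (g : G) (a : A), φ (A.ρ g a) = B.ρ g (φ a) := hφ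
  funext g
  simp only [d₀₁_hom_apply, Function.comp_apply, map_sub, hφ']

include hφ in
lemma push_d₁₂ (f : G → A) : (d₁₂ B).hom (φ ∘ f) = φ ∘ (d₁₂ A).hom f := by
  have hφ' : ∀ (g : G) (a : A), φ (A.ρ g a) = B.ρ g (φ a) := hφ
  funext ⟨g, h⟩
  simp only [d₁₂_hom_apply, Function.comp_apply, map_add, map_sub, hφ']

include hφ in
lemma push_d₂₃ (f : G × G → A) : (d₂₃ B).hom (φ ∘ f) = φ ∘ (d₂₃ A).hom f := by
  have hφ' : ∀ (g : G) (a : A), φ (A.ρ g a) = B.ρ g (φ a) := hφ
  funext ⟨g, h, j⟩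
  simp only [d₂₃_hom_apply, Function.comp_apply, map_add, map_sub, hφ']

include hφ in
lemma push_mem_cocycles₁ {f : G → A} (hf : f ∈ cocycles₁ A) : φ ∘ f ∈ cocycles₁ B := by
  have h0 : (d₁₂ A).hom f = 0 := hf
  show (d₁₂ B).hom (φ ∘ f) = 0
  rw [push_d₁₂ φ hφ, h0]
  funext x
  exact map_zero φ

include hφ in
lemma push_mem_cocycles₂ {f : G × G → A} (hf : f ∈ cocycles₂ A) : φ ∘ f ∈ cocycles₂ B := by
  have h0 : (d₂₃ A).hom f = 0 := hf
  show (d₂₃ B).hom (φ ∘ f) = 0
  rw [push_d₂₃ φ hφ, h0]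
  funext x
  exact map_zero φ

variable (L : LevelSys G)

include hφ in
lemma push_mem_Z1 {f : G → A} (hf : f ∈ L.Z1 A) : φ ∘ f ∈ L.Z1 B :=
  ⟨push_mem_cocycles₁ φ hφ hf.1, LevelSys.IsLC₁.comp hf.2 φ⟩

include hφ in
lemma push_mem_Z2 {f : G × G → A} (hf : f ∈ L.Z2 A) : φ ∘ f ∈ L.Z2 B :=
  ⟨push_mem_cocycles₂ φ hφ hf.1, LevelSys.IsLC₂.comp hf.2 φ⟩

include hφ in
lemma push_mem_B1 {f : G → A} (hf : f ∈ LevelSys.B1 A) : φ ∘ f ∈ LevelSys.B1 B := by
  obtain ⟨m, rfl⟩ := hf
  exact ⟨φ m, push_d₀₁ φ hφ m⟩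

include hφ in
lemma push_mem_B2 {f : G × G → A} (hf : f ∈ L.B2 A) : φ ∘ f ∈ L.B2 B := by
  obtain ⟨x, hx, rfl⟩ := hf
  exact ⟨φ ∘ x, LevelSys.IsLC₁.comp hx φ, push_d₁₂ φ hφ x⟩

/-- Push-forward of level-constant 1-cocycles. -/
def pushZ1 : ↥(L.Z1 A) →ₗ[k] ↥(L.Z1 B) :=
  (φ.compLeft G).restrict fun _ hf => push_mem_Z1 φ hφ L hf

/-- Push-forward of level-constant 2-cocycles. -/
def pushZ2 : ↥(L.Z2 A) →ₗ[k] ↥(L.Z2 B) :=
  (φ.compLeft (G × G)).restrict fun _ hf => push_mem_Z2 φ hφ L hf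

@[simp] lemma coe_pushZ1 (c : ↥(L.Z1 A)) : (pushZ1 φ hφ L c : G → B) = φ ∘ (c : G → A) := rfl
@[simp] lemma coe_pushZ2 (c : ↥(L.Z2 A)) :
    (pushZ2 φ hφ L c : G × G → B) = φ ∘ (c : G × G → A) := rfl

/-- Push-forward on `H¹`. -/
def pushH1 : L.H1 A →ₗ[k] L.H1 B :=
  Submodule.mapQ ((LevelSys.B1 A).comap (L.Z1 A).subtype)
    ((LevelSys.B1 B).comap (L.Z1 B).subtype) (pushZ1 φ hφ L) fun c hc => by
    simp only [Submodule.mem_comap, Submodule.subtype_apply] at hc ⊢
    exact push_mem_B1 φ hφ hc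

/-- Push-forward on `H²`. -/
def pushH2 : L.H2 A →ₗ[k] L.H2 B :=
  Submodule.mapQ ((L.B2 A).comap (L.Z2 A).subtype)
    ((L.B2 B).comap (L.Z2 B).subtype) (pushZ2 φ hφ L) fun c hc => by
    simp only [Submodule.mem_comap, Submodule.subtype_apply] at hc ⊢
    exact push_mem_B2 φ hφ L hc

@[simp] lemma pushH1_mk (c : ↥(L.Z1 A)) :
    pushH1 φ hφ L (L.H1π A c) = L.H1π B (pushZ1 φ hφ L c) := rfl

@[simp] lemma pushH2_mk (c : ↥(L.Z2 A)) :
    pushH2 φ hφ L (L.H2π A c) = L.H2π B (pushZ2 φ hφ L c) := rfl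

/-- Push-forward on invariants. -/
def pushH0 : ↥(LevelSys.H0 A) →ₗ[k] ↥(LevelSys.H0 B) :=
  φ.restrict fun a ha g => by rw [← hφ g a, ha g]

@[simp] lemma coe_pushH0 (a : ↥(LevelSys.H0 A)) : (pushH0 φ hφ a : B) = φ a := rfl

end Push

section Res

variable {G' : Type} [Group G'] (r : G' →* G) (L : LevelSys G) (L' : LevelSys G')

/-- `r : G' → G` is compatible with the level systems (continuity). -/
def IsLevelCompatible : Prop := ∀ U ∈ L.levels, ∃ V ∈ L'.levels, V ≤ U.comap r

variable {r L L'} (hr : IsLevelCompatible r L L') (A : Rep.{0, 0, 0} k G)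

lemma res_d₁₂ (f : G → A) :
    (d₁₂ (Rep.res r A)).hom (f ∘ r) = (d₁₂ A).hom f ∘ Prod.map r r := by
  funext ⟨g, h⟩
  simp only [d₁₂_hom_apply, Function.comp_apply, Prod.map_apply, map_mul]
  rfl

lemma res_d₂₃ (f : G × G → A) :
    (d₂₃ (Rep.res r A)).hom (f ∘ Prod.map r r) =
      (d₂₃ A).hom f ∘ Prod.map r (Prod.map r r) := by
  funext ⟨g, h, j⟩
  simp only [d₂₃_hom_apply, Function.comp_apply, Prod.map_apply, map_mul]
  rfl

lemma res_d₀₁ (m : A) : (d₀₁ (Rep.res r A)).hom m = (d₀₁ A).hom m ∘ r := by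
  funext g
  simp only [d₀₁_hom_apply, Function.comp_apply]
  rfl

include hr in
lemma IsLC₁.res {X : Type*} {f : G → X} (hf : L.IsLC₁ f) : L'.IsLC₁ (f ∘ r) := by
  obtain ⟨U, hU, h⟩ := hf
  obtain ⟨V, hV, hle⟩ := hr U hU
  refine ⟨V, hV, fun g s hs => ?_⟩
  simp only [Function.comp_apply, map_mul]
  exact h (r g) (r s) (hle hs)

include hr in
lemma IsLC₂.res {X : Type*} {f : G × G → X} (hf : L.IsLC₂ f) : L'.IsLC₂ (f ∘ Prod.map r r) := by
  obtain ⟨U, hU, h⟩ := hf
  obtain ⟨V, hV, hle⟩ := hr U hU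
  refine ⟨V, hV, fun g g' s s' hs hs' => ?_⟩
  simp only [Function.comp_apply, Prod.map_apply, map_mul]
  exact h (r g) (r g') (r s) (r s') (hle hs) (hle hs')

include hr in
lemma res_mem_Z1 {f : G → A} (hf : f ∈ L.Z1 A) : f ∘ r ∈ L'.Z1 (Rep.res r A) := by
  refine ⟨?_, IsLC₁.res hr hf.2⟩
  have h0 : (d₁₂ A).hom f = 0 := hf.1
  show (d₁₂ (Rep.res r A)).hom (f ∘ r) = 0
  rw [res_d₁₂, h0]
  rfl

include hr in
lemma res_mem_Z2 {f : G × G → A} (hf : f ∈ L.Z2 A) :
    f ∘ Prod.map r r ∈ L'.Z2 (Rep.res r A) := by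
  refine ⟨?_, IsLC₂.res hr hf.2⟩
  have h0 : (d₂₃ A).hom f = 0 := hf.1
  show (d₂₃ (Rep.res r A)).hom (f ∘ Prod.map r r) = 0
  rw [res_d₂₃, h0]
  rfl

lemma res_mem_B1 {f : G → A} (hf : f ∈ LevelSys.B1 A) :
    f ∘ r ∈ LevelSys.B1 (Rep.res r A) := by
  obtain ⟨m, rfl⟩ := hf
  exact ⟨m, res_d₀₁ A m⟩

include hr in
lemma res_mem_B2 {f : G × G → A} (hf : f ∈ L.B2 A) :
    f ∘ Prod.map r r ∈ L'.B2 (Rep.res r A) := by
  obtain ⟨x, hx, rfl⟩ := hf
  exact ⟨x ∘ r, IsLC₁.res hr hx, res_d₁₂ A x⟩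

/-- precomposition with `r` as a linear map on 1-cochains -/
def precomp₁ : (G → A) →ₗ[k] (G' → Rep.res r A) where
  toFun f := f ∘ r
  map_add' _ _ := rfl
  map_smul' _ _ := rfl

/-- precomposition with `r × r` as a linear map on 2-cochains -/
def precomp₂ : (G × G → A) →ₗ[k] (G' × G' → Rep.res r A) where
  toFun f := f ∘ Prod.map r r
  map_add' _ _ := rfl
  map_smul' _ _ := rfl

/-- Restriction of level-constant 1-cocycles. -/
def resZ1 : ↥(L.Z1 A) →ₗ[k] ↥(L'.Z1 (Rep.res r A)) :=
  (precomp₁ (r := r) A).restrict fun _ hf => res_mem_Z1 hr A hf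

/-- Restriction of level-constant 2-cocycles. -/
def resZ2 : ↥(L.Z2 A) →ₗ[k] ↥(L'.Z2 (Rep.res r A)) :=
  (precomp₂ (r := r) A).restrict fun _ hf => res_mem_Z2 hr A hf

@[simp] lemma coe_resZ1 (c : ↥(L.Z1 A)) :
    (resZ1 hr A c : G' → Rep.res r A) = (c : G → A) ∘ r := rfl
@[simp] lemma coe_resZ2 (c : ↥(L.Z2 A)) :
    (resZ2 hr A c : G' × G' → Rep.res r A) = (c : G × G → A) ∘ Prod.map r r := rfl

/-- Restriction on `H¹`. -/
def resH1 : L.H1 A →ₗ[k] L'.H1 (Rep.res r A) :=
  Submodule.mapQ ((LevelSys.B1 A).comap (L.Z1 A).subtype)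
    ((LevelSys.B1 (Rep.res r A)).comap (L'.Z1 (Rep.res r A)).subtype) (resZ1 hr A) fun c hc => by
    simp only [Submodule.mem_comap, Submodule.subtype_apply] at hc ⊢
    exact res_mem_B1 A hc

/-- Restriction on `H²`. -/
def resH2 : L.H2 A →ₗ[k] L'.H2 (Rep.res r A) :=
  Submodule.mapQ ((L.B2 A).comap (L.Z2 A).subtype)
    ((L'.B2 (Rep.res r A)).comap (L'.Z2 (Rep.res r A)).subtype) (resZ2 hr A) fun c hc => by
    simp only [Submodule.mem_comap, Submodule.subtype_apply] at hc ⊢
    exact res_mem_B2 hr A hc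

@[simp] lemma resH1_mk (c : ↥(L.Z1 A)) :
    resH1 hr A (L.H1π A c) = L'.H1π (Rep.res r A) (resZ1 hr A c) := rfl

@[simp] lemma resH2_mk (c : ↥(L.Z2 A)) :
    resH2 hr A (L.H2π A c) = L'.H2π (Rep.res r A) (resZ2 hr A c) := rfl

/-- Restriction on invariants (inclusion `A^G ⊆ A^{G'}`). -/
def resH0 (r : G' →* G) (A : Rep.{0, 0, 0} k G) :
    ↥(LevelSys.H0 A) →ₗ[k] ↥(LevelSys.H0 (Rep.res r A)) where
  toFun a := ⟨(a : A), fun g => a.2 (r g)⟩
  map_add' _ _ := rfl
  map_smul' _ _ := rfl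

@[simp] lemma coe_resH0 (a : ↥(LevelSys.H0 A)) : ((resH0 r A a : Rep.res r A) : A) = a := rfl

end Res

end Fermat.Agent.S55.PT

end

end
-- ===== PACK-END S55/PT/Coh.lean

-- ===== PACK-BEGIN S55/G/Rec/H473CupChar.lean
section



/-!
# S55 / layer G / block REC, leaves A1–A3: the cocycle `cupChar a χ`

`G` a group, `n ≠ 0`, `χ : G →* Multiplicative (ZMod n)` a character, `A : Rep k G`,
`a ∈ A^G`.  The function `(g, h) ↦ ε_χ(g,h) • a` (`ε_χ = carry χ ∈ {0,1}`) is a 2-cocycle
(`cupChar`), whose class `cc A χ a ∈ H²(G, A)` is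

* `k`-linear in `a` (`cc A χ` is a linear map `A^G →ₗ[k] H²(G,A)`),
* additive in `χ` (`cc_mul`, `cc_one`, packaged as `ccHom`), killed by `n`,
* functorial in `(G, A)` (`map_cc`; special cases: restriction `map_cc_subtype`,
  coefficient maps `map_cc_id`).

Everything is generic in the coefficient ring `k` (consumers use `k = ℤ`).
-/

set_option autoImplicit false

open CategoryTheory groupCohomology

namespace Fermat.Agent.S55.G.Rec

variable {k G : Type} [CommRing k] [Group G] {n : ℕ} [NeZero n]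

section Cocycle

variable (A : Rep.{0} k G) (χ χ' : G →* Multiplicative (ZMod n))

/-- The function `(g, h) ↦ ε_χ(g, h) • a`. -/
def cupCharFun (a : A.V) : G × G → A.V :=
  fun p => carry χ p.1 p.2 • a

omit [NeZero n] in
@[simp] theorem cupCharFun_apply (a : A.V) (g h : G) :
    cupCharFun A χ a (g, h) = carry χ g h • a := rfl

theorem cupCharFun_mem_cocycles₂ {a : A.V} (ha : a ∈ A.ρ.invariants) :
    cupCharFun A χ a ∈ cocycles₂ A := by
  rw [mem_cocycles₂_iff]
  intro g h j
  simp only [cupCharFun_apply, map_nsmul, ha g, ← add_nsmul]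
  rw [carry_cocycle]

/-- **A1.** The 2-cocycle `cupChar a χ`, as a `k`-linear map in `a ∈ A^G`. -/
def cupChar : A.ρ.invariants →ₗ[k] cocycles₂ A where
  toFun a := ⟨cupCharFun A χ a, cupCharFun_mem_cocycles₂ A χ a.2⟩
  map_add' a b := by
    apply cocycles₂_ext
    intro g h
    change carry χ g h • ((a : A.V) + b) = carry χ g h • (a : A.V) + carry χ g h • (b : A.V)
    exact nsmul_add _ _ _
  map_smul' c a := by
    apply cocycles₂_ext
    intro g h
    change carry χ g h • (c • (a : A.V)) = c • (carry χ g h • (a : A.V))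
    exact (smul_comm c (carry χ g h) (a : A.V)).symm

@[simp] theorem cupChar_apply (a : A.ρ.invariants) (g h : G) :
    cupChar A χ a (g, h) = carry χ g h • (a : A.V) := rfl

/-- The class `cc a χ ∈ H²(G, A)` of `cupChar a χ`, as a `k`-linear map in `a ∈ A^G`. -/
noncomputable def cc : A.ρ.invariants →ₗ[k] H2 A :=
  (H2π A).hom ∘ₗ cupChar A χ

theorem cc_apply (a : A.ρ.invariants) : cc A χ a = H2π A (cupChar A χ a) := rfl

/-- `cupChar a 1 = 0`. -/
theorem cupChar_one (a : A.ρ.invariants) :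
    cupChar A (1 : G →* Multiplicative (ZMod n)) a = 0 := by
  apply cocycles₂_ext
  intro g h
  rw [cupChar_apply, carry_one_char, zero_smul]
  rfl

theorem cc_one (a : A.ρ.invariants) : cc A (1 : G →* Multiplicative (ZMod n)) a = 0 := by
  rw [cc_apply, cupChar_one, map_zero]

/-- **A2** (cochain level): `cupChar a χ + cupChar a χ' - cupChar a (χχ') = d (g ↦ η(g) • a)`. -/
theorem cupChar_mul_eq (a : A.ρ.invariants) :
    (cupChar A χ a : G × G → A.V) + cupChar A χ' a - cupChar A (χ * χ') a =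
      (d₁₂ A).hom (fun g => carryChar χ χ' g • (a : A.V)) := by
  funext ⟨g, h⟩
  have ha : ∀ g : G, A.ρ g (a : A.V) = a := a.2
  have key := carry_mul χ χ' g h
  have key' : carry χ g h • (a : A.V) + carry χ' g h • (a : A.V) +
      carryChar χ χ' (g * h) • (a : A.V) =
      carry (χ * χ') g h • (a : A.V) + carryChar χ χ' g • (a : A.V) +
        carryChar χ χ' h • (a : A.V) := by
    rw [← add_nsmul, ← add_nsmul, ← add_nsmul, ← add_nsmul, key]
  simp only [Pi.add_apply, Pi.sub_apply, cupChar_apply, d₁₂_hom_apply, map_nsmul, ha]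
  rw [eq_sub_of_add_eq key']
  abel

/-- **A2.** `cc a (χ χ') = cc a χ + cc a χ'`. -/
theorem cc_mul (a : A.ρ.invariants) : cc A (χ * χ') a = cc A χ a + cc A χ' a := by
  rw [cc_apply, cc_apply, cc_apply, ← map_add, eq_comm, H2π_eq_iff]
  change (cupChar A χ a : G × G → A.V) + cupChar A χ' a - cupChar A (χ * χ') a ∈ coboundaries₂ A
  rw [cupChar_mul_eq]
  exact LinearMap.mem_range_self _ _

variable (n) in
/-- `cc a · ` as a homomorphism from the character group. -/
noncomputable def ccHom (a : A.ρ.invariants) :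
    Additive (G →* Multiplicative (ZMod n)) →+ H2 A where
  toFun χ := cc A (Additive.toMul χ) a
  map_zero' := cc_one A a
  map_add' χ χ' := cc_mul A (Additive.toMul χ) (Additive.toMul χ') a

@[simp] theorem ccHom_apply (a : A.ρ.invariants) (χ : G →* Multiplicative (ZMod n)) :
    ccHom n A a (Additive.ofMul χ) = cc A χ a := rfl

theorem cc_pow (a : A.ρ.invariants) (m : ℕ) : cc A (χ ^ m) a = m • cc A χ a := by
  exact map_nsmul (ccHom n A a) m (Additive.ofMul χ)

theorem cc_inv (a : A.ρ.invariants) : cc A χ⁻¹ a = - cc A χ a := by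
  exact map_neg (ccHom n A a) (Additive.ofMul χ)

/-- `n` kills `cc a χ`. -/
theorem nsmul_cc (a : A.ρ.invariants) : n • cc A χ a = 0 := by
  rw [← cc_pow]
  have : χ ^ n = 1 := by
    ext g
    rw [MonoidHom.pow_apply, MonoidHom.one_apply]
    apply Multiplicative.toAdd.injective
    rw [toAdd_pow, toAdd_one]
    simp
  rw [this, cc_one]

end Cocycle

section Functoriality

variable {G' : Type} [Group G'] (A : Rep.{0} k G) (B : Rep.{0} k G')
  (f : G' →* G) (φ : Rep.res f A ⟶ B) (χ : G →* Multiplicative (ZMod n))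

/-- The image of an invariant under an equivariant map is invariant. -/
theorem map_mem_invariants {a : A.V} (ha : a ∈ A.ρ.invariants) :
    φ.hom a ∈ B.ρ.invariants := by
  intro g'
  have := Rep.hom_comm_apply φ g' a
  rw [← this]
  congr 1
  exact ha (f g')

/-- The map `A^G → B^{G'}` induced by `(f, φ)`. -/
def mapInvariants : A.ρ.invariants →ₗ[k] B.ρ.invariants where
  toFun a := ⟨φ.hom (a : A.V), map_mem_invariants A B f φ a.2⟩
  map_add' a b := Subtype.ext (map_add φ.hom (a : A.V) b)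
  map_smul' c a := Subtype.ext (map_smul φ.hom c (a : A.V))

@[simp] theorem coe_mapInvariants (a : A.ρ.invariants) :
    (mapInvariants A B f φ a : B.V) = φ.hom (a : A.V) := rfl

/-- **A3** (cocycle level). -/
theorem mapCocycles₂_cupChar (a : A.ρ.invariants) :
    mapCocycles₂ f φ (cupChar A χ a) = cupChar B (χ.comp f) (mapInvariants A B f φ a) := by
  apply cocycles₂_ext
  intro g h
  rw [coe_mapCocycles₂]
  change φ.hom (carry χ (f g) (f h) • (a : A.V)) = carry (χ.comp f) g h • φ.hom (a : A.V)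
  rw [map_nsmul, carry_comp]

/-- **A3.** Functoriality of `cc`: `(f, φ)_* (cc a χ) = cc (φ a) (χ ∘ f)`. -/
theorem map_cc (a : A.ρ.invariants) :
    (groupCohomology.map f φ 2).hom (cc A χ a) =
      cc B (χ.comp f) (mapInvariants A B f φ a) := by
  rw [cc_apply, cc_apply, ← mapCocycles₂_cupChar]
  exact congr($(H2π_comp_map f φ) (cupChar A χ a))

/-- **A3**, coefficient maps: `f_* (cc a χ) = cc (f a) χ` for `f : A ⟶ B`. -/
theorem map_cc_id {A B : Rep.{0} k G} (f : A ⟶ B) (χ : G →* Multiplicative (ZMod n))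
    (a : A.ρ.invariants) :
    (groupCohomology.map (MonoidHom.id G) f 2).hom (cc A χ a) =
      cc B χ (mapInvariants A B (MonoidHom.id G) f a) :=
  map_cc A B (MonoidHom.id G) f χ a

/-- **A3**, restriction to a subgroup: `res_H (cc a χ) = cc a (χ|_H)`. -/
theorem map_cc_subtype (H : Subgroup G) (a : A.ρ.invariants) :
    (groupCohomology.map H.subtype (𝟙 (Rep.res H.subtype A)) 2).hom (cc A χ a) =
      cc (Rep.res H.subtype A) (χ.comp H.subtype)
        (mapInvariants A (Rep.res H.subtype A) H.subtype (𝟙 _) a) :=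
  map_cc A (Rep.res H.subtype A) H.subtype (𝟙 _) χ a

/-- **A3**, inflation from a quotient: `inf (cc ā χ̄) = cc a (χ̄ ∘ π)`. -/
theorem map_cc_quotient (S : Subgroup G) [S.Normal] (χbar : G ⧸ S →* Multiplicative (ZMod n))
    (a : (A.quotientToInvariants S).ρ.invariants) :
    (groupCohomology.map (QuotientGroup.mk' S)
        (Rep.ofHom <| A.ρ.quotientToInvariants_lift S) 2).hom
        (cc (A.quotientToInvariants S) χbar a) =
      cc A (χbar.comp (QuotientGroup.mk' S))
        (mapInvariants (A.quotientToInvariants S) A (QuotientGroup.mk' S)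
          (Rep.ofHom <| A.ρ.quotientToInvariants_lift S) a) :=
  map_cc (A.quotientToInvariants S) A (QuotientGroup.mk' S) _ χbar a

end Functoriality

section Multiplicative

variable {M : Type} [CommGroup M] [MulDistribMulAction G M]

/-- A `G`-fixed element of a multiplicative `G`-module, as an invariant of
`Rep.ofMulDistribMulAction G M`. -/
def invariantOfFixed (a : M) (ha : ∀ g : G, g • a = a) :
    (Rep.ofMulDistribMulAction G M).ρ.invariants :=
  ⟨Additive.ofMul a, fun g => congrArg Additive.ofMul (ha g)⟩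

/-- In multiplicative notation `cupChar a χ (g, h) = a ^ ε_χ(g, h)`. -/
theorem cupChar_invariantOfFixed (χ : G →* Multiplicative (ZMod n)) (a : M)
    (ha : ∀ g : G, g • a = a) (g h : G) :
    cupChar (Rep.ofMulDistribMulAction G M) χ (invariantOfFixed a ha) (g, h) =
      Additive.ofMul (a ^ carry χ g h) := rfl

end Multiplicative

end Fermat.Agent.S55.G.Rec

end
-- ===== PACK-END S55/G/Rec/H473CupChar.lean

-- ===== PACK-BEGIN S55/Local/H64/InfResMul.lean
section



/-!
# Inflation–restriction in degree 2, multiplicative cocycle form (S55, layer L; helper64)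

`G → Q` a surjective group homomorphism with kernel `S`, `M` a multiplicative `G`-module, `MQ` a
multiplicative `Q`-module, `ι : MQ → M` an equivariant embedding onto the `S`-invariants of `M`,
and `H¹(S, M) = 0` (cocycle form).  Then

* `isMulCoboundary₂_of_inflation` : inflation is injective on `H²`;
* `exists_inflation_of_restriction` : a 2-cocycle of `G` whose restriction to `S` is a coboundary is
  cohomologous to an inflated 2-cocycle.

Everything is stated with Mathlib's `IsMulCocycle₂` / `IsMulCoboundary₂`.  The cochain-level core is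
helper954's `Fermat.Agent.S55.H954` (`exists_inflated_of_res_coboundary`,
`exists_invariant_cochain_of_inf_coboundary`).
-/

set_option autoImplicit false

namespace Fermat.Agent.S55.Local.H64

open groupCohomology Fermat.Agent.S55.H954

section Abstract

variable {G M : Type} [Group G] [CommGroup M] [MulDistribMulAction G M]

/-- The representation of `G` on `Additive M`. -/
noncomputable abbrev addRep (G M : Type) [Group G] [CommGroup M] [MulDistribMulAction G M] :
    Representation ℤ G (Additive M) :=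
  Representation.ofMulDistribMulAction G M

lemma addRep_apply (g : G) (m : Additive M) :
    addRep G M g m = Additive.ofMul (g • Additive.toMul m) := rfl

/-- additive version of a multiplicative cochain -/
def toAdd₂ (c : G × G → M) : G × G → Additive M := fun p => Additive.ofMul (c p)

/-- additive version of a multiplicative 1-cochain -/
def toAdd₁ (b : G → M) : G → Additive M := fun g => Additive.ofMul (b g)

lemma isTwoCocycle_toAdd₂ {c : G × G → M} (hc : IsMulCocycle₂ c) :
    IsTwoCocycle (addRep G M) (toAdd₂ c) := by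
  intro g h j
  exact congrArg Additive.ofMul (hc g h j)

lemma isMulCocycle₂_of_isTwoCocycle {f : G × G → Additive M}
    (hf : IsTwoCocycle (addRep G M) f) : IsMulCocycle₂ (fun p => Additive.toMul (f p)) := by
  intro g h j
  exact congrArg Additive.toMul (hf g h j)

lemma dOne_toAdd₁ (b : G → M) (g h : G) :
    dOne (addRep G M) (toAdd₁ b) (g, h) = Additive.ofMul (g • b h / b (g * h) * b g) := rfl

end Abstract

section Main

variable {G Q M MQ : Type} [Group G] [Group Q] [CommGroup M] [CommGroup MQ]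
  [MulDistribMulAction G M] [MulDistribMulAction Q MQ]

/-- `H¹(ker π, M) = 0` in multiplicative cocycle form gives helper954's `HOneVanishes`. -/
lemma hOneVanishes_of_mul (π : G →* Q)
    (hH1 : ∀ w : π.ker → M, (∀ s t : π.ker, w (s * t) = (s : G) • w t * w s) →
      ∃ m : M, ∀ s : π.ker, w s = (s : G) • m / m) :
    HOneVanishes (addRep G M) π.ker := by
  intro w hw
  obtain ⟨m, hm⟩ := hH1 (fun s => Additive.toMul (w s)) (fun s t => by
    have := hw s t
    exact congrArg Additive.toMul this)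
  exact ⟨Additive.ofMul m, fun s => congrArg Additive.ofMul (hm s)⟩

/-- The data of an inflation situation. -/
structure InflData (π : G →* Q) (ι : MQ →* M) : Prop where
  surj : Function.Surjective π
  inj : Function.Injective ι
  equiv : ∀ (g : G) (x : MQ), ι (π g • x) = g • ι x
  inv : ∀ m : M, (∀ s ∈ π.ker, s • m = m) → ∃ x : MQ, ι x = m
  h1 : ∀ w : π.ker → M, (∀ s t : π.ker, w (s * t) = (s : G) • w t * w s) →
      ∃ m : M, ∀ s : π.ker, w s = (s : G) • m / m

variable {π : G →* Q} {ι : MQ →* M}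

/-- a set-theoretic section of `π` -/
noncomputable def InflData.lift (D : InflData π ι) (q : Q) : G := (D.surj q).choose

lemma InflData.π_lift (D : InflData π ι) (q : Q) : π (D.lift q) = q := (D.surj q).choose_spec

lemma InflData.exists_mul_eq (D : InflData π ι) (g : G) :
    ∃ s ∈ π.ker, g = D.lift (π g) * s := by
  refine ⟨(D.lift (π g))⁻¹ * g, ?_, by group⟩
  rw [MonoidHom.mem_ker, map_mul, map_inv, D.π_lift, inv_mul_cancel]

/-- **Inflation is injective on `H²`** (multiplicative cocycle form). -/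
theorem isMulCoboundary₂_of_inflation (D : InflData π ι) {c' : Q × Q → MQ}
    (h : IsMulCoboundary₂ (fun p : G × G => ι (c' (π p.1, π p.2)))) :
    IsMulCoboundary₂ c' := by
  classical
  obtain ⟨x, hx⟩ := h
  set f' : G × G → Additive M := toAdd₂ (fun p : G × G => ι (c' (π p.1, π p.2))) with hf'
  have hinv2 : ∀ s ∈ π.ker, ∀ g h : G, f' (g, h * s) = f' (g, h) := by
    intro s hs g h
    simp only [hf', toAdd₂, map_mul, MonoidHom.mem_ker.1 hs, mul_one]
  have hinv1 : ∀ s ∈ π.ker, ∀ g h : G, f' (g * s, h) = f' (g, h) := by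
    intro s hs g h
    simp only [hf', toAdd₂, map_mul, MonoidHom.mem_ker.1 hs, mul_one]
  have hval : ∀ s ∈ π.ker, ∀ g h : G, addRep G M s (f' (g, h)) = f' (g, h) := by
    intro s hs g h
    change Additive.ofMul (s • ι (c' (π g, π h))) = Additive.ofMul (ι (c' (π g, π h)))
    rw [← D.equiv, MonoidHom.mem_ker.1 hs, one_smul]
  have hc : f' = dOne (addRep G M) (toAdd₁ x) := by
    funext ⟨g, h⟩
    rw [dOne_toAdd₁, hx g h]
    rfl
  obtain ⟨c₁, hd, hright, hfix⟩ :=
    exists_invariant_cochain_of_inf_coboundary (addRep G M) π.ker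
      (hOneVanishes_of_mul π D.h1) hinv2 hinv1 hval (toAdd₁ x) hc
  -- descend `c₁` to `Q`
  have hex : ∀ g : G, ∃ y : MQ, ι y = Additive.toMul (c₁ g) := fun g =>
    D.inv _ (fun s hs => congrArg Additive.toMul (hfix s hs g))
  choose y₀ hy₀ using hex
  set y : Q → MQ := fun q => y₀ (D.lift q) with hy
  have hyπ : ∀ g : G, ι (y (π g)) = Additive.toMul (c₁ g) := by
    intro g
    obtain ⟨s, hs, hg⟩ := D.exists_mul_eq g
    rw [hy, hy₀]
    conv_rhs => rw [hg, hright s hs]
  refine ⟨y, fun q r => D.inj ?_⟩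
  obtain ⟨g, rfl⟩ := D.surj q
  obtain ⟨h, rfl⟩ := D.surj r
  rw [map_mul, map_div, D.equiv, ← map_mul π, hyπ, hyπ, hyπ]
  have := congrFun hd (g, h)
  exact (congrArg Additive.toMul this).symm

/-- **Exactness of inflation–restriction at `H²(G, M)`** (multiplicative cocycle form): a
2-cocycle whose restriction to `ker π` is a coboundary is cohomologous to an inflated
2-cocycle. -/
theorem exists_inflation_of_restriction (D : InflData π ι) {c : G × G → M}
    (hc : IsMulCocycle₂ c)
    (hres : ∃ b : π.ker → M, ∀ s t : π.ker,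
      c ((s : G), (t : G)) = (s : G) • b t / b (s * t) * b s) :
    ∃ c' : Q × Q → MQ, IsMulCocycle₂ c' ∧
      IsMulCoboundary₂ (fun p : G × G => c p / ι (c' (π p.1, π p.2))) := by
  classical
  obtain ⟨b, hb⟩ := hres
  obtain ⟨x, f', hff', hf'coc, hinv2, hinv1, hval⟩ :=
    exists_inflated_of_res_coboundary (addRep G M) π.ker (hOneVanishes_of_mul π D.h1)
      (isTwoCocycle_toAdd₂ hc) (fun s => Additive.ofMul (b s))
      (fun s t => congrArg Additive.ofMul (hb s t))
  have hex : ∀ g h : G, ∃ y : MQ, ι y = Additive.toMul (f' (g, h)) := fun g h =>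
    D.inv _ (fun s hs => congrArg Additive.toMul (hval s hs g h))
  choose y₀ hy₀ using hex
  set c' : Q × Q → MQ := fun p => y₀ (D.lift p.1) (D.lift p.2) with hc'
  have hc'π : ∀ g h : G, ι (c' (π g, π h)) = Additive.toMul (f' (g, h)) := by
    intro g h
    obtain ⟨s, hs, hg⟩ := D.exists_mul_eq g
    obtain ⟨t, ht, hh⟩ := D.exists_mul_eq h
    rw [hc', hy₀]
    conv_rhs => rw [hg, hh, hinv1 s hs, hinv2 t ht]
  refine ⟨c', ?_, ?_⟩
  · intro q r u
    obtain ⟨g, rfl⟩ := D.surj q
    obtain ⟨h, rfl⟩ := D.surj r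
    obtain ⟨j, rfl⟩ := D.surj u
    apply D.inj
    rw [map_mul, map_mul, D.equiv, ← map_mul π, ← map_mul π, hc'π, hc'π, hc'π, hc'π]
    exact congrArg Additive.toMul (hf'coc g h j)
  · refine ⟨fun g => Additive.toMul (x g), fun g h => ?_⟩
    show g • Additive.toMul (x h) / Additive.toMul (x (g * h)) * Additive.toMul (x g) =
      c (g, h) / ι (c' (π g, π h))
    rw [hc'π]
    have := congrFun hff' (g, h)
    have h2 : c (g, h) = Additive.toMul (f' (g, h)) *
        (g • Additive.toMul (x h) / Additive.toMul (x (g * h)) * Additive.toMul (x g)) :=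
      congrArg Additive.toMul this
    rw [h2]
    simp

end Main

end Fermat.Agent.S55.Local.H64

end
-- ===== PACK-END S55/Local/H64/InfResMul.lean

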