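import Mathlib
import Fermat.Agent.Pack.S56.E0L1
import Fermat.Agent.Pack.S56.E0L0
import Fermat.Agent.Pack.S56.E1L0
import Fermat.Agent.Pack.S56.E1L1
import Fermat.Agent.Pack.S56.E1L2

-- ===== PACK-BEGIN Lib/Cheb/H761/ZetaEuler.lean
section


/-!
# Euler product and prime-ideal sum for the Dedekind zeta function

For a number field `K` and real `s > 1`:
* `zetaI K s = ∑_I N(I)^(-s)` (sum over all ideals; the zero ideal contributes `0`), equal to
  Mathlib's `dedekindZeta K s`;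
* `tendsto_prod_zetaI` : `∏_{𝔭 ∈ T} (1 - N𝔭^(-s)) → (zetaI K s)⁻¹`;
* `primeSum K s = ∑_𝔭 N𝔭^(-s)` and `primeSum K s ≤ log (zetaI K s) ≤ primeSum K s + 2 primeSum K (2 s)`;
* `exists_primeSum_bound` : `|primeSum K s - log (1 / (s - 1))| ≤ C` for `1 < s ≤ 2`.
-/

set_option autoImplicit false

namespace Fermat.Agent.Lib.Cheb.H761

open IsDedekindDomain Filter Topology NumberField Ideal Asymptotics

set_option linter.unusedSectionVars false
set_option linter.unusedVariables false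

noncomputable section

variable (K : Type*) [Field K] [NumberField K]

/-- `N(I)^(-s)` -/
def normPow (s : ℝ) (I : Ideal (𝓞 K)) : ℝ := (absNorm I : ℝ) ^ (-s)

lemma normPow_nonneg (s : ℝ) (I : Ideal (𝓞 K)) : 0 ≤ normPow K s I :=
  Real.rpow_nonneg (Nat.cast_nonneg _) _

lemma normPow_mul (s : ℝ) (I J : Ideal (𝓞 K)) :
    normPow K s (I * J) = normPow K s I * normPow K s J := by
  simp only [normPow, map_mul, Nat.cast_mul]
  exact Real.mul_rpow (Nat.cast_nonneg _) (Nat.cast_nonneg _)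

lemma normPow_top (s : ℝ) : normPow K s ⊤ = 1 := by
  simp [normPow]

lemma normPow_bot {s : ℝ} (hs : s ≠ 0) : normPow K s ⊥ = 0 := by
  simp [normPow, Real.zero_rpow (neg_ne_zero.mpr hs)]

/-- number of ideals of norm `n` -/
def idealCount (n : ℕ) : ℕ := Nat.card {I : Ideal (𝓞 K) // absNorm I = n}

/-- The sum of `N(I)^(-s)` over all ideals of norm `n`. -/
lemma tsum_fiber (s : ℝ) (n : ℕ) :
    ∑' I : {I : Ideal (𝓞 K) // absNorm I = n}, normPow K s I.1 =
      (idealCount K n : ℝ) * (n : ℝ) ^ (-s) := by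
  have hfin : Finite {I : Ideal (𝓞 K) // absNorm I = n} :=
    (Ideal.finite_setOfPred_absNorm_eq n).to_subtype
  have : Fintype {I : Ideal (𝓞 K) // absNorm I = n} := Fintype.ofFinite _
  rw [tsum_fintype]
  have : ∀ I : {I : Ideal (𝓞 K) // absNorm I = n}, normPow K s I.1 = (n : ℝ) ^ (-s) := by
    intro I
    simp only [normPow, I.2]
  simp only [this, Finset.sum_const, Finset.card_univ, nsmul_eq_mul, idealCount,
    Nat.card_eq_fintype_card]

lemma tendsto_sum_idealCount_div :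
    Tendsto (fun n : ℕ ↦ (∑ k ∈ Finset.Icc 1 n, (idealCount K k : ℝ)) / (n : ℝ)) atTop
      (𝓝 (dedekindZeta_residue K)) := by
  refine ((Ideal.tendsto_norm_le_div_atTop₀ K).comp tendsto_natCast_atTop_atTop).congr fun n ↦ ?_
  simp only [Function.comp_apply, Nat.cast_le, idealCount, ← Nat.cast_sum]
  congr
  rw [← add_left_inj 1, ← card_norm_le_eq_card_norm_le_add_one,
    show Finset.Icc 1 n = Finset.Ioc 0 n from Finset.Icc_succ_left_eq_Ioc _ _,
    show 1 = Nat.card {I : Ideal (𝓞 K) // absNorm I = 0} by simp [Ideal.absNorm_eq_zero_iff],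
    Finset.sum_Ioc_add_eq_sum_Icc (n.zero_le),
    ← Finset.card_preimage_eq_sum_card_image_eq (fun k _ ↦ finite_setOfPred_absNorm_eq k)]
  simp [Set.coe_eq_subtype]

lemma lseriesSummable_idealCount {s : ℝ} (hs : 1 < s) :
    LSeriesSummable (fun n ↦ ((idealCount K n : ℝ) : ℂ)) (s : ℂ) := by
  refine LSeriesSummable_of_sum_norm_bigO_and_nonneg ?_ (fun n => Nat.cast_nonneg _) zero_le_one
    (by simpa using hs)
  exact isBigO_atTop_natCast_rpow_of_tendsto_div_rpow
    (by simpa using tendsto_sum_idealCount_div K)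

lemma term_eq {s : ℝ} (hs : 1 < s) (n : ℕ) :
    LSeries.term (fun n ↦ ((idealCount K n : ℝ) : ℂ)) (s : ℂ) n =
      (((idealCount K n : ℝ) * (n : ℝ) ^ (-s) : ℝ) : ℂ) := by
  rcases eq_or_ne n 0 with rfl | hn
  · have : (0 : ℝ) ^ (-s) = 0 := Real.zero_rpow (by linarith)
    simp [this]
  · rw [LSeries.term_of_ne_zero hn, Complex.ofReal_mul,
      Complex.ofReal_cpow (Nat.cast_nonneg n), Complex.ofReal_neg, Complex.cpow_neg]
    simp [div_eq_mul_inv]

/-- the `ℕ`-indexed real series is summable for `s > 1` -/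
lemma summable_idealCount {s : ℝ} (hs : 1 < s) :
    Summable (fun n : ℕ ↦ (idealCount K n : ℝ) * (n : ℝ) ^ (-s)) := by
  have h := lseriesSummable_idealCount K hs
  have h2 : Summable (fun n : ℕ ↦ (((idealCount K n : ℝ) * (n : ℝ) ^ (-s) : ℝ) : ℂ)) :=
    h.congr fun n ↦ term_eq K hs n
  exact Complex.summable_ofReal.mp h2

/-- `N(I)^(-s)` is summable over all ideals, `s > 1`. -/
theorem summable_normPow {s : ℝ} (hs : 1 < s) : Summable (normPow K s) := by
  have key : Summable (fun x : Σ n : ℕ, {I : Ideal (𝓞 K) // absNorm I = n} =>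
      normPow K s x.2.1) := by
    rw [summable_sigma_of_nonneg (fun x => normPow_nonneg K s _)]
    refine ⟨fun n => ?_, ?_⟩
    · have hfin : Finite {I : Ideal (𝓞 K) // absNorm I = n} :=
        (Ideal.finite_setOfPred_absNorm_eq n).to_subtype
      exact Summable.of_finite
    · refine (summable_idealCount K hs).congr fun n => ?_
      exact (tsum_fiber K s n).symm
  exact ((Equiv.sigmaFiberEquiv (fun I : Ideal (𝓞 K) => absNorm I)).summable_iff
    (f := normPow K s)).mp key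

/-- the Dedekind zeta function as a sum over ideals -/
def zetaI (s : ℝ) : ℝ := ∑' I : Ideal (𝓞 K), normPow K s I

lemma zetaI_eq_tsum_nat {s : ℝ} (hs : 1 < s) :
    zetaI K s = ∑' n : ℕ, (idealCount K n : ℝ) * (n : ℝ) ^ (-s) := by
  have hsum := summable_normPow K hs
  have hsum' : Summable (fun x : Σ n : ℕ, {I : Ideal (𝓞 K) // absNorm I = n} =>
      normPow K s x.2.1) :=
    ((Equiv.sigmaFiberEquiv (fun I : Ideal (𝓞 K) => absNorm I)).summable_iff
      (f := normPow K s)).mpr hsum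
  calc zetaI K s
      = ∑' x : Σ n : ℕ, {I : Ideal (𝓞 K) // absNorm I = n}, normPow K s x.2.1 :=
        ((Equiv.sigmaFiberEquiv (fun I : Ideal (𝓞 K) => absNorm I)).tsum_eq (normPow K s)).symm
    _ = ∑' n : ℕ, ∑' I : {I : Ideal (𝓞 K) // absNorm I = n}, normPow K s I.1 :=
        hsum'.tsum_sigma
    _ = _ := tsum_congr fun n => tsum_fiber K s n

theorem dedekindZeta_eq_zetaI {s : ℝ} (hs : 1 < s) :
    dedekindZeta K (s : ℂ) = ((zetaI K s : ℝ) : ℂ) := by
  rw [zetaI_eq_tsum_nat K hs, dedekindZeta, LSeries, Complex.ofReal_tsum]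
  refine tsum_congr fun n ↦ ?_
  rw [← term_eq K hs n]
  rcases eq_or_ne n 0 with rfl | hn
  · simp
  · rw [LSeries.term_of_ne_zero hn, LSeries.term_of_ne_zero hn]
    simp [idealCount]

theorem tendsto_sub_one_mul_zetaI :
    Tendsto (fun s : ℝ ↦ (s - 1) * zetaI K s) (𝓝[>] 1) (𝓝 (dedekindZeta_residue K)) := by
  have h := tendsto_sub_one_mul_dedekindZeta_nhdsGT K
  have h2 : Tendsto (fun s : ℝ ↦ (((s - 1) * zetaI K s : ℝ) : ℂ)) (𝓝[>] 1)
      (𝓝 (dedekindZeta_residue K : ℂ)) := by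
    refine h.congr' ?_
    filter_upwards [self_mem_nhdsWithin] with s hs
    rw [dedekindZeta_eq_zetaI K hs]
    push_cast
    ring
  have h3 := (Complex.continuous_re.tendsto _).comp h2
  simpa [Function.comp_def] using h3

/-- the sum over nonzero ideals is `zetaI` -/
lemma tsum_sieveSet_empty {s : ℝ} (hs : 1 < s) :
    ∑' I : sieveSet (∅ : Set (HeightOneSpectrum (𝓞 K))), normPow K s I = zetaI K s := by
  have hsum := summable_normPow K hs
  have h : sieveSet (∅ : Set (HeightOneSpectrum (𝓞 K))) = ({⊥} : Set (Ideal (𝓞 K)))ᶜ := by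
    ext I
    simp [mem_sieveSet_empty]
  rw [tsum_congr_set_coe _ h, zetaI,
    ← (hsum.subtype _).tsum_add_tsum_compl (s := ({⊥} : Set (Ideal (𝓞 K)))) (hsum.subtype _),
    tsum_singleton (⊥ : Ideal (𝓞 K)) (normPow K s), normPow_bot K (by linarith), zero_add]

theorem one_le_zetaI {s : ℝ} (hs : 1 < s) : 1 ≤ zetaI K s := by
  have hsum := summable_normPow K hs
  have := hsum.sum_le_tsum {⊤} (fun I _ => normPow_nonneg K s I)
  simpa [normPow_top, zetaI] using this

theorem zetaI_pos {s : ℝ} (hs : 1 < s) : 0 < zetaI K s :=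
  lt_of_lt_of_le one_pos (one_le_zetaI K hs)

/-- **Euler product** for the Dedekind zeta function. -/
theorem tendsto_prod_zetaI {s : ℝ} (hs : 1 < s) :
    Tendsto (fun T : Finset (HeightOneSpectrum (𝓞 K)) =>
      ∏ 𝔭 ∈ T, (1 - normPow K s 𝔭.asIdeal)) atTop (𝓝 (zetaI K s)⁻¹) := by
  have h := tendsto_prod_one_sub (summable_normPow K hs) (normPow_mul K s) (normPow_top K s)
  rwa [tsum_sieveSet_empty K hs] at h

/-- the prime ideal sum `∑_𝔭 N𝔭^(-s)` -/
def primeSum (s : ℝ) : ℝ := ∑' 𝔭 : HeightOneSpectrum (𝓞 K), normPow K s 𝔭.asIdeal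

lemma asIdeal_injective :
    Function.Injective (fun 𝔭 : HeightOneSpectrum (𝓞 K) => 𝔭.asIdeal) :=
  fun _ _ h => HeightOneSpectrum.ext h

theorem summable_primeSum {s : ℝ} (hs : 1 < s) :
    Summable (fun 𝔭 : HeightOneSpectrum (𝓞 K) => normPow K s 𝔭.asIdeal) :=
  (summable_normPow K hs).comp_injective (asIdeal_injective K)

lemma two_le_absNorm (𝔭 : HeightOneSpectrum (𝓞 K)) : 2 ≤ absNorm 𝔭.asIdeal := by
  have h0 : absNorm 𝔭.asIdeal ≠ 0 := by
    rw [Ne, Ideal.absNorm_eq_zero_iff]; exact 𝔭.ne_bot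
  have h1 : absNorm 𝔭.asIdeal ≠ 1 := by
    rw [Ne, Ideal.absNorm_eq_one_iff]; exact 𝔭.isPrime.ne_top
  omega

lemma normPow_le_half {s : ℝ} (hs : 1 ≤ s) (𝔭 : HeightOneSpectrum (𝓞 K)) :
    normPow K s 𝔭.asIdeal ≤ 1 / 2 := by
  have h2 : (2 : ℝ) ≤ absNorm 𝔭.asIdeal := by exact_mod_cast two_le_absNorm K 𝔭
  have h0 : (0 : ℝ) < absNorm 𝔭.asIdeal := by linarith
  rw [normPow, Real.rpow_neg h0.le, one_div]
  apply inv_anti₀ (by norm_num)
  calc (2 : ℝ) ≤ absNorm 𝔭.asIdeal := h2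
    _ = (absNorm 𝔭.asIdeal : ℝ) ^ (1 : ℝ) := (Real.rpow_one _).symm
    _ ≤ (absNorm 𝔭.asIdeal : ℝ) ^ s := Real.rpow_le_rpow_of_exponent_le (by linarith) hs

lemma normPow_sq (s : ℝ) (I : Ideal (𝓞 K)) : normPow K s I ^ 2 = normPow K (2 * s) I := by
  rw [normPow, normPow, ← Real.rpow_natCast, ← Real.rpow_mul (Nat.cast_nonneg _)]
  congr 1
  push_cast
  ring

/-- `-log (1 - x) ≥ x` and `≤ x + 2 x²` for `0 ≤ x ≤ 1/2`. -/
lemma neg_log_one_sub_bounds {x : ℝ} (h0 : 0 ≤ x) (h1 : x ≤ 1 / 2) :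
    x ≤ -Real.log (1 - x) ∧ -Real.log (1 - x) ≤ x + 2 * x ^ 2 := by
  have hpos : 0 < 1 - x := by linarith
  constructor
  · have := Real.log_le_sub_one_of_pos hpos
    linarith
  · have h := Real.log_le_sub_one_of_pos (inv_pos.mpr hpos)
    rw [Real.log_inv] at h
    have h2 : (1 - x)⁻¹ - 1 ≤ x + 2 * x ^ 2 := by
      rw [sub_le_iff_le_add, inv_le_iff_one_le_mul₀ hpos]
      nlinarith [mul_nonneg h0 h0, mul_nonneg (mul_nonneg h0 h0) h0]
    linarith

/-- The sum of `log (1 - N𝔭^(-s))` over the primes is `-log ζ_K(s)`. -/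
theorem hasSum_log_one_sub {s : ℝ} (hs : 1 < s) :
    HasSum (fun 𝔭 : HeightOneSpectrum (𝓞 K) => Real.log (1 - normPow K s 𝔭.asIdeal))
      (-Real.log (zetaI K s)) := by
  have h := tendsto_prod_zetaI K hs
  have hZ : (zetaI K s)⁻¹ ≠ 0 := inv_ne_zero (zetaI_pos K hs).ne'
  have h2 := (Real.continuousAt_log hZ).tendsto.comp h
  rw [Real.log_inv] at h2
  rw [HasSum]
  refine h2.congr fun T => ?_
  simp only [Function.comp_apply]
  rw [Real.log_prod]
  intro 𝔭 _
  have := normPow_le_half K hs.le 𝔭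
  linarith

/-- `∑_𝔭 N𝔭^(-s) ≤ log ζ_K(s) ≤ ∑_𝔭 N𝔭^(-s) + 2 ∑_𝔭 N𝔭^(-2s)`. -/
theorem primeSum_le_log_zetaI {s : ℝ} (hs : 1 < s) :
    primeSum K s ≤ Real.log (zetaI K s) ∧
      Real.log (zetaI K s) ≤ primeSum K s + 2 * primeSum K (2 * s) := by
  have hlog := (hasSum_log_one_sub K hs).neg
  rw [neg_neg] at hlog
  have hP := (summable_primeSum K hs).hasSum
  have hP2 := (summable_primeSum K (show 1 < 2 * s by linarith)).hasSum
  constructor
  · refine hasSum_le (fun 𝔭 => ?_) hP hlog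
    exact (neg_log_one_sub_bounds (normPow_nonneg K s _) (normPow_le_half K hs.le 𝔭)).1
  · refine hasSum_le (fun 𝔭 => ?_) hlog (hP.add (hP2.mul_left 2))
    have := (neg_log_one_sub_bounds (normPow_nonneg K s _) (normPow_le_half K hs.le 𝔭)).2
    rw [normPow_sq] at this
    exact this

lemma normPow_anti {s t : ℝ} (hst : s ≤ t) (I : Ideal (𝓞 K)) (h0 : 0 < s) :
    normPow K t I ≤ normPow K s I := by
  rcases eq_or_ne I ⊥ with rfl | hI
  · rw [normPow_bot K h0.ne', normPow_bot K (h0.trans_le hst).ne']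
  · have h1 : (1 : ℝ) ≤ absNorm I := by
      have : absNorm I ≠ 0 := by rwa [Ne, Ideal.absNorm_eq_zero_iff]
      exact_mod_cast Nat.one_le_iff_ne_zero.mpr this
    exact Real.rpow_le_rpow_of_exponent_le h1 (by linarith)

theorem zetaI_anti {s t : ℝ} (hs : 1 < s) (hst : s ≤ t) : zetaI K t ≤ zetaI K s :=
  (summable_normPow K (hs.trans_le hst)).tsum_le_tsum
    (fun I => normPow_anti K hst I (by linarith)) (summable_normPow K hs)

theorem primeSum_nonneg (s : ℝ) : 0 ≤ primeSum K s :=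
  tsum_nonneg fun _ => normPow_nonneg K s _

theorem primeSum_anti {s t : ℝ} (hs : 1 < s) (hst : s ≤ t) : primeSum K t ≤ primeSum K s :=
  (summable_primeSum K (hs.trans_le hst)).tsum_le_tsum
    (fun 𝔭 => normPow_anti K hst 𝔭.asIdeal (by linarith)) (summable_primeSum K hs)

/-- `(s - 1) ζ_K(s)` is bounded above and below by positive constants on `(1, 2]`. -/
theorem exists_bounds_sub_one_mul_zetaI :
    ∃ c₁ c₂ : ℝ, 0 < c₁ ∧ c₁ ≤ c₂ ∧ ∀ s : ℝ, 1 < s → s ≤ 2 →
      c₁ ≤ (s - 1) * zetaI K s ∧ (s - 1) * zetaI K s ≤ c₂ := by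
  have hρ := dedekindZeta_residue_pos K
  set ρ := dedekindZeta_residue K with hρdef
  have h := tendsto_sub_one_mul_zetaI K
  have hev : ∀ᶠ s : ℝ in 𝓝[>] 1, ρ / 2 < (s - 1) * zetaI K s ∧ (s - 1) * zetaI K s < 2 * ρ :=
    (h.eventually (lt_mem_nhds (show ρ / 2 < ρ by linarith))).and
      (h.eventually (gt_mem_nhds (show ρ < 2 * ρ by linarith)))
  rw [eventually_nhdsWithin_iff, Metric.eventually_nhds_iff] at hev
  obtain ⟨δ, hδ, hδ2⟩ := hev
  set δ' := min δ 1 with hδ'
  have hδ'pos : 0 < δ' := lt_min hδ one_pos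
  have hδ'le : δ' ≤ δ := min_le_left _ _
  set s₀ : ℝ := 1 + δ' / 2 with hs₀
  have hs₀1 : 1 < s₀ := by rw [hs₀]; linarith
  have hZ₀ := one_le_zetaI K hs₀1
  refine ⟨min (ρ / 2) (δ' / 2), max (2 * ρ) (zetaI K s₀), lt_min (by linarith) (by linarith),
    (min_le_left _ _).trans ((by linarith : ρ / 2 ≤ 2 * ρ).trans (le_max_left _ _)),
    fun s hs1 hs2 => ?_⟩
  rcases lt_or_ge s s₀ with hlt | hge
  · have hd : dist s 1 < δ := by
      rw [Real.dist_eq, abs_of_pos (by linarith)]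
      rw [hs₀] at hlt
      linarith
    have := hδ2 hd hs1
    exact ⟨(min_le_left _ _).trans this.1.le, this.2.le.trans (le_max_left _ _)⟩
  · have h1 := one_le_zetaI K hs1
    have h2 := zetaI_anti K hs₀1 hge
    have hs0 : 0 < s - 1 := by linarith
    constructor
    · calc min (ρ / 2) (δ' / 2) ≤ δ' / 2 := min_le_right _ _
        _ ≤ (s - 1) * 1 := by rw [hs₀] at hge; linarith
        _ ≤ (s - 1) * zetaI K s := by gcongr
    · calc (s - 1) * zetaI K s ≤ 1 * zetaI K s₀ := by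
            apply mul_le_mul (by linarith) h2 (by linarith) (by norm_num)
        _ ≤ max (2 * ρ) (zetaI K s₀) := by rw [one_mul]; exact le_max_right _ _

/-- **The prime ideal sum** `∑_𝔭 N𝔭^(-s)` is `log (1 / (s - 1)) + O(1)` on `(1, 2]`. -/
theorem exists_primeSum_bound :
    ∃ C : ℝ, ∀ s : ℝ, 1 < s → s ≤ 2 → |primeSum K s + Real.log (s - 1)| ≤ C := by
  obtain ⟨c₁, c₂, hc₁, hc₁₂, hb⟩ := exists_bounds_sub_one_mul_zetaI K
  have hc₂ : 0 < c₂ := hc₁.trans_le hc₁₂
  refine ⟨max |Real.log c₁| |Real.log c₂| + 2 * primeSum K 2, fun s hs1 hs2 => ?_⟩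
  obtain ⟨hlo, hhi⟩ := hb s hs1 hs2
  obtain ⟨hP1, hP2⟩ := primeSum_le_log_zetaI K hs1
  have hs0 : 0 < s - 1 := by linarith
  have hZ := zetaI_pos K hs1
  have hlog : Real.log ((s - 1) * zetaI K s) = Real.log (s - 1) + Real.log (zetaI K s) :=
    Real.log_mul hs0.ne' hZ.ne'
  have hl1 : Real.log c₁ ≤ Real.log ((s - 1) * zetaI K s) := Real.log_le_log hc₁ hlo
  have hl2 : Real.log ((s - 1) * zetaI K s) ≤ Real.log c₂ :=
    Real.log_le_log (hc₁.trans_le hlo) hhi
  have hB : primeSum K (2 * s) ≤ primeSum K 2 :=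
    primeSum_anti K (by norm_num) (by linarith)
  have hB0 := primeSum_nonneg K 2
  have hm1 : -max |Real.log c₁| |Real.log c₂| ≤ Real.log c₁ :=
    (neg_le_neg (le_max_left _ _)).trans (neg_abs_le _)
  have hm2 : Real.log c₂ ≤ max |Real.log c₁| |Real.log c₂| :=
    (le_abs_self _).trans (le_max_right _ _)
  rw [abs_le]
  constructor <;> linarith

end

end Fermat.Agent.Lib.Cheb.H761

end
-- ===== PACK-END Lib/Cheb/H761/ZetaEuler.lean

-- ===== PACK-BEGIN Lib/Cheb/H764/Count.lean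
section



/-!
# CHEB / piece A: `Spec.CountStatement`

For a Galois number field `L/ℚ`, a subgroup `H ≤ Gal(L/ℚ)`, `F = L^H` and a prime `p` not dividing
the discriminant of `L`:
`#{primes of 𝓞 F of norm p} * |H| = ∑_{P ∣ p, D_P ≤ H} |D_P|`.
-/

set_option autoImplicit false
set_option linter.unusedSectionVars false
set_option linter.unusedVariables false
set_option linter.style.haveILetI false

open NumberField Ideal MulAction
open scoped Pointwise

namespace Fermat.Agent.Lib.Cheb.H764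

open Fermat.Agent.Lib.Cheb.Spec

section

variable (L : Type) [Field L] [NumberField L] [IsGalois ℚ L]

/-- the bad set: primes dividing the discriminant -/
noncomputable def badPrimes : Finset ℕ := (NumberField.discr L).natAbs.primeFactors

lemma not_dvd_discr_of_not_mem_badPrimes {p : ℕ} (hp : p.Prime) (hpB : p ∉ badPrimes L) :
    ¬ (p : ℤ) ∣ NumberField.discr L := by
  intro h
  apply hpB
  rw [badPrimes, Nat.mem_primeFactors]
  refine ⟨hp, ?_, ?_⟩
  · exact Int.natCast_dvd.mp h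
  · exact Int.natAbs_ne_zero.mpr (NumberField.discr_ne_zero L)

lemma liesOver_of_mem {F : Type} [Field F] [NumberField F] {p : ℕ} (hp : p.Prime)
    (P : Ideal (𝓞 F)) [P.IsPrime] (hP : (p : 𝓞 F) ∈ P) :
    P.LiesOver (Ideal.span {(p : ℤ)}) := by
  have hp' : Prime (p : ℤ) := Nat.prime_iff_prime_int.mp hp
  rw [Ideal.liesOver_span_iff (IsPrime.ne_top inferInstance) hp']
  simpa using hP

lemma mem_of_liesOver {F : Type} [Field F] [NumberField F] {p : ℕ} (hp : p.Prime)
    (P : Ideal (𝓞 F)) [P.IsPrime] [hP : P.LiesOver (Ideal.span {(p : ℤ)})] :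
    (p : 𝓞 F) ∈ P := by
  have hp' : Prime (p : ℤ) := Nat.prime_iff_prime_int.mp hp
  have := (Ideal.liesOver_span_iff (IsPrime.ne_top inferInstance) hp').mp hP
  simpa using this

lemma ramificationIdx_eq_one_of_not_mem_badPrimes {p : ℕ} (hp : p.Prime) (hpB : p ∉ badPrimes L)
    (P : Ideal (𝓞 L)) [P.IsPrime] (hP : (p : 𝓞 L) ∈ P) : P.ramificationIdx ℤ = 1 := by
  have hp' : Prime (p : ℤ) := Nat.prime_iff_prime_int.mp hp
  have h := (NumberField.not_dvd_discr_iff_forall_mem L (𝓞 L) hp').mp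
    (not_dvd_discr_of_not_mem_badPrimes L hp hpB) P inferInstance (by simpa using hP)
  exact Ideal.ramificationIdx_eq_one_of_isUnramifiedAt

end

section main

variable (L : Type) [Field L] [NumberField L] [IsGalois ℚ L] (H : Subgroup (L ≃ₐ[ℚ] L))

lemma isGaloisGroup_fixedField :
    IsGaloisGroup H (IntermediateField.fixedField H) L :=
  IsGaloisGroup.subgroup (L ≃ₐ[ℚ] L) ℚ L H

lemma isGaloisGroup_ringOfIntegers :
    IsGaloisGroup H (𝓞 (IntermediateField.fixedField H)) (𝓞 L) := by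
  haveI := isGaloisGroup_fixedField L H
  exact IsGaloisGroup.of_isFractionRing H (𝓞 (IntermediateField.fixedField H)) (𝓞 L)
    (IntermediateField.fixedField H) L

lemma span_isPrime {p : ℕ} (hp : p.Prime) : (Ideal.span {(p : ℤ)}).IsPrime :=
  (Ideal.span_singleton_prime (by exact_mod_cast hp.ne_zero)).mpr (Nat.prime_iff_prime_int.mp hp)

/-- data attached to a prime `𝔮` of `𝓞 F` of norm `p` -/
lemma ef_eq_one_of_absNorm_eq {p : ℕ} (hp : p.Prime) (hpB : p ∉ badPrimes L)
    (q : Ideal (𝓞 (IntermediateField.fixedField H))) [q.IsPrime] (hq : absNorm q = p) :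
    q.LiesOver (Ideal.span {(p : ℤ)}) ∧ q.ramificationIdx ℤ * q.inertiaDeg ℤ = 1 := by
  have hmem : (p : 𝓞 (IntermediateField.fixedField H)) ∈ q := by
    have := Ideal.absNorm_mem q
    rwa [hq] at this
  haveI hlo : q.LiesOver (Ideal.span {(p : ℤ)}) := liesOver_of_mem hp q hmem
  refine ⟨hlo, ?_⟩
  have hf : q.inertiaDeg ℤ = 1 := by
    have h1 := Ideal.pow_inertiaDeg p q
    rw [hq] at h1
    exact Nat.pow_right_injective hp.two_le (by simpa using h1)
  obtain ⟨⟨P, hP1, hP2⟩⟩ := (inferInstance : Nonempty (q.primesOver (𝓞 L)))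
  haveI := hP1
  haveI := hP2
  have hPmem : (p : 𝓞 L) ∈ P := by
    have h2 : algebraMap (𝓞 (IntermediateField.fixedField H)) (𝓞 L)
        (p : 𝓞 (IntermediateField.fixedField H)) ∈ P := by
      rw [← Ideal.mem_comap, ← Ideal.under_def, ← Ideal.over_def P q]
      exact hmem
    simpa using h2
  have he := ramificationIdx_eq_one_of_not_mem_badPrimes L hp hpB P hPmem
  rw [Ideal.ramificationIdx_tower (R := ℤ) q P] at he
  rw [hf, mul_one]
  exact Nat.eq_one_of_mul_eq_one_right he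

/-- a prime `P` of `𝓞 L` over `p` with `D_P ≤ H` restricts to a prime of `𝓞 F` of norm `p` -/
lemma absNorm_under_eq {p : ℕ} (hp : p.Prime)
    (P : Ideal (𝓞 L)) [P.IsPrime] (hP : (p : 𝓞 L) ∈ P)
    (hle : stabilizer (L ≃ₐ[ℚ] L) P ≤ H) :
    (P.under (𝓞 (IntermediateField.fixedField H))).IsPrime ∧
      absNorm (P.under (𝓞 (IntermediateField.fixedField H))) = p := by
  haveI := isGaloisGroup_ringOfIntegers L H
  haveI := span_isPrime hp
  haveI : P.LiesOver (Ideal.span {(p : ℤ)}) := liesOver_of_mem hp P hP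
  haveI hqp : (P.under (𝓞 (IntermediateField.fixedField H))).IsPrime := inferInstance
  haveI : (P.under (𝓞 (IntermediateField.fixedField H))).LiesOver (Ideal.span {(p : ℤ)}) :=
    LiesOver.tower_bot P _ _
  refine ⟨hqp, ?_⟩
  have h1 := (ramificationIdx_mul_inertiaDeg_eq_one_iff (G := L ≃ₐ[ℚ] L) H
    (Ideal.span {(p : ℤ)}) (P.under (𝓞 (IntermediateField.fixedField H))) P).mpr hle
  have hf : (P.under (𝓞 (IntermediateField.fixedField H))).inertiaDeg ℤ = 1 :=
    Nat.eq_one_of_mul_eq_one_left h1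
  have h2 := Ideal.pow_inertiaDeg p (P.under (𝓞 (IntermediateField.fixedField H)))
  rw [hf, pow_one] at h2
  exact h2.symm

/-- **Piece A**, for primes not dividing the discriminant. -/
theorem count_of_not_mem_badPrimes {p : ℕ} (hp : p.Prime) (hpB : p ∉ badPrimes L) :
    primeCount (IntermediateField.fixedField H) p * Nat.card H = decompWeight L H p := by
  classical
  haveI := isGaloisGroup_ringOfIntegers L H
  haveI := span_isPrime hp
  have hfinT : {q : Ideal (𝓞 (IntermediateField.fixedField H)) |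
      q.IsPrime ∧ absNorm q = p}.Finite :=
    (Ideal.finite_setOf_absNorm_eq p).subset (fun q h => h.2)
  have hfinS : (primesLe L H p).Finite := by
    refine Set.Finite.subset
      (Algebra.QuasiFinite.finite_primesOver (S := 𝓞 L) (Ideal.span {(p : ℤ)})) ?_
    rintro P ⟨hP1, hP2, -⟩
    haveI := hP1
    exact ⟨hP1, liesOver_of_mem hp P hP2⟩
  -- the left-hand side
  have hL : primeCount (IntermediateField.fixedField H) p = hfinT.toFinset.card := by
    rw [← Set.ncard_eq_toFinset_card _ hfinT, ← Nat.card_coe_set_eq]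
    rfl
  -- the right-hand side
  have hR : decompWeight L H p = ∑ P ∈ hfinS.toFinset, Nat.card (decomp L P) := by
    rw [decompWeight, finsum_set_coe_eq_finsum_mem (f := fun P => Nat.card (decomp L P)),
      finsum_mem_eq_finite_toFinset_sum _ hfinS]
  rw [hL, hR]
  have hmaps : ∀ P ∈ hfinS.toFinset,
      P.under (𝓞 (IntermediateField.fixedField H)) ∈ hfinT.toFinset := by
    intro P hP
    rw [Set.Finite.mem_toFinset] at hP ⊢
    obtain ⟨hP1, hP2, hP3⟩ := hP
    haveI := hP1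
    exact absNorm_under_eq L H hp P hP2 hP3
  rw [← Finset.sum_fiberwise_of_maps_to hmaps, Finset.card_eq_sum_ones, Finset.sum_mul]
  refine Finset.sum_congr rfl fun q hq => ?_
  rw [Set.Finite.mem_toFinset] at hq
  obtain ⟨hq1, hq2⟩ := hq
  haveI := hq1
  obtain ⟨hlo, hef⟩ := ef_eq_one_of_absNorm_eq L H hp hpB q hq2
  haveI := hlo
  rw [one_mul, ← finsum_card_stabilizer_primesOver (G := L ≃ₐ[ℚ] L) H (Ideal.span {(p : ℤ)}) q hef
    (Algebra.QuasiFinite.finite_primesOver (S := 𝓞 L) q) Set.Nonempty.of_subtype,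
    ← finsum_mem_coe_finset]
  refine finsum_mem_congr ?_ (fun _ _ => rfl)
  ext P
  rw [Finset.coe_filter, Set.mem_setOf_eq, Set.Finite.mem_toFinset]
  constructor
  · intro hP
    have hP1 : P.IsPrime := hP.1
    have hP2 : P.LiesOver q := hP.2
    haveI := hP1
    haveI := hP2
    haveI : P.LiesOver (Ideal.span {(p : ℤ)}) := LiesOver.trans P q _
    refine ⟨⟨hP1, mem_of_liesOver hp P, ?_⟩, (Ideal.over_def P q).symm⟩
    exact (ramificationIdx_mul_inertiaDeg_eq_one_iff (G := L ≃ₐ[ℚ] L) H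
      (Ideal.span {(p : ℤ)}) q P).mp hef
  · rintro ⟨hP, hP4⟩
    exact ⟨hP.1, ⟨hP4.symm⟩⟩

/-- **Piece A** of the CHEB library: `Spec.CountStatement`. -/
theorem count : Spec.CountStatement := by
  intro L _ _ _ H
  exact ⟨badPrimes L, fun p hp hpB => count_of_not_mem_badPrimes L H hp hpB⟩

end main

end Fermat.Agent.Lib.Cheb.H764

end
-- ===== PACK-END Lib/Cheb/H764/Count.lean

-- ===== PACK-BEGIN S56/H254/FlatProd.lean
section


/-!
# S56 / W-FLAT, bridge piece FL-BR (PROD): products of flat Galois modules (helper254)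

`IsFlatMod.prod` : if `X₁`, `X₂` are flat (points of `H₁`, `H₂`) then `X₁ × X₂` with the diagonal
action is flat (points of `H₁ ⊗ H₂`).
-/

set_option autoImplicit false

open scoped TensorProduct
open WithConv

noncomputable section

namespace Fermat.Agent.S56.H254

local notation "Qb" => AlgebraicClosure ℚ
local notation "GQ" => (AlgebraicClosure ℚ ≃ₐ[ℚ] AlgebraicClosure ℚ)
local notation "Zloc" => GaloisRep.ratLocalizedAt

section incl

variable (R : Type) [CommRing R] (A B : Type) [CommRing A] [CommRing B]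
  [Bialgebra R A] [Bialgebra R B]

/-- `a ↦ a ⊗ 1` as a bialgebra homomorphism. -/
def inclLeftBialg : A →ₐc[R] A ⊗[R] B :=
  (Bialgebra.TensorProduct.map (BialgHom.id R A) (Bialgebra.unitBialgHom R B)).comp
    ((Bialgebra.TensorProduct.rid R R A).symm : A →ₐc[R] A ⊗[R] R)

/-- `b ↦ 1 ⊗ b` as a bialgebra homomorphism. -/
def inclRightBialg : B →ₐc[R] A ⊗[R] B :=
  (Bialgebra.TensorProduct.map (Bialgebra.unitBialgHom R A) (BialgHom.id R B)).comp
    ((Bialgebra.TensorProduct.lid R B).symm : B →ₐc[R] R ⊗[R] B)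

@[simp] theorem inclLeftBialg_apply (a : A) : inclLeftBialg R A B a = a ⊗ₜ[R] (1 : B) := by
  show (Bialgebra.TensorProduct.map (BialgHom.id R A) (Bialgebra.unitBialgHom R B))
    ((Bialgebra.TensorProduct.rid R R A).symm a) = _
  rw [Bialgebra.TensorProduct.rid_symm_apply, Bialgebra.TensorProduct.map_tmul]
  simp [Bialgebra.unitBialgHom]

@[simp] theorem inclRightBialg_apply (b : B) : inclRightBialg R A B b = (1 : A) ⊗ₜ[R] b := by
  show (Bialgebra.TensorProduct.map (Bialgebra.unitBialgHom R A) (BialgHom.id R B))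
    ((Bialgebra.TensorProduct.lid R B).symm b) = _
  rw [Bialgebra.TensorProduct.lid_symm_apply, Bialgebra.TensorProduct.map_tmul]
  simp [Bialgebra.unitBialgHom]

end incl

section prod

variable {p : ℕ} {X₁ X₂ : Type} [AddCommGroup X₁] [AddCommGroup X₂]

/-- **(PROD)** the product of two flat Galois modules is flat. -/
theorem IsFlatMod.prod {act₁ : GQ → X₁ → X₁} {act₂ : GQ → X₂ → X₂}
    (h₁ : IsFlatMod p X₁ act₁) (h₂ : IsFlatMod p X₂ act₂) :
    IsFlatMod p (X₁ × X₂) (fun σ x => (act₁ σ x.1, act₂ σ x.2)) := by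
  obtain ⟨H₁, i1, i2, hfin₁, hflat₁, hco₁, e₁, hadd₁, heq₁⟩ := h₁
  obtain ⟨H₂, j1, j2, hfin₂, hflat₂, hco₂, e₂, hadd₂, heq₂⟩ := h₂
  let ι₁ : H₁ →ₐc[Zloc p] H₁ ⊗[Zloc p] H₂ := inclLeftBialg (Zloc p) H₁ H₂
  let ι₂ : H₂ →ₐc[Zloc p] H₁ ⊗[Zloc p] H₂ := inclRightBialg (Zloc p) H₁ H₂
  -- restriction of points to the two factors
  let r₁ : WithConv (H₁ ⊗[Zloc p] H₂ →ₐ[Zloc p] Qb) → WithConv (H₁ →ₐ[Zloc p] Qb) :=
    fun f => toConv (f.ofConv.comp (ι₁ : H₁ →ₐ[Zloc p] H₁ ⊗[Zloc p] H₂))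
  let r₂ : WithConv (H₁ ⊗[Zloc p] H₂ →ₐ[Zloc p] Qb) → WithConv (H₂ →ₐ[Zloc p] Qb) :=
    fun f => toConv (f.ofConv.comp (ι₂ : H₂ →ₐ[Zloc p] H₁ ⊗[Zloc p] H₂))
  have hr₁ : ∀ f g, r₁ (f * g) = r₁ f * r₁ g := by
    intro f g
    apply WithConv.ofConv_injective
    exact AlgHom.convMul_comp_bialgHom_distrib f g ι₁
  have hr₂ : ∀ f g, r₂ (f * g) = r₂ f * r₂ g := by
    intro f g
    apply WithConv.ofConv_injective
    exact AlgHom.convMul_comp_bialgHom_distrib f g ι₂
  have hr₁a : ∀ (f : WithConv (H₁ ⊗[Zloc p] H₂ →ₐ[Zloc p] Qb)) (a : H₁),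
      r₁ f a = f (a ⊗ₜ[Zloc p] (1 : H₂)) := by
    intro f a
    show f.ofConv (ι₁ a) = _
    rw [inclLeftBialg_apply]
  have hr₂a : ∀ (f : WithConv (H₁ ⊗[Zloc p] H₂ →ₐ[Zloc p] Qb)) (b : H₂),
      r₂ f b = f ((1 : H₁) ⊗ₜ[Zloc p] b) := by
    intro f b
    show f.ofConv (ι₂ b) = _
    rw [inclRightBialg_apply]
  -- the equivalence `Hom(H₁ ⊗ H₂, ℚ̄) ≃ Hom(H₁, ℚ̄) × Hom(H₂, ℚ̄)`
  let E : WithConv (H₁ ⊗[Zloc p] H₂ →ₐ[Zloc p] Qb) ≃ X₁ × X₂ :=
    { toFun := fun f => (e₁ (r₁ f), e₂ (r₂ f))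
      invFun := fun x => toConv (Algebra.TensorProduct.productMap (e₁.symm x.1).ofConv
        (e₂.symm x.2).ofConv)
      left_inv := by
        intro f
        apply WithConv.ofConv_injective
        simp only [Equiv.symm_apply_apply]
        apply Algebra.TensorProduct.ext'
        intro a b
        rw [Algebra.TensorProduct.productMap_apply_tmul]
        have h1 : (r₁ f).ofConv a = f (a ⊗ₜ[Zloc p] (1 : H₂)) := hr₁a f a
        have h2 : (r₂ f).ofConv b = f ((1 : H₁) ⊗ₜ[Zloc p] b) := hr₂a f b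
        rw [h1, h2]
        show f.ofConv _ * f.ofConv _ = f.ofConv _
        rw [← map_mul, Algebra.TensorProduct.tmul_mul_tmul, mul_one, one_mul]
      right_inv := by
        rintro ⟨x₁, x₂⟩
        have h1 : r₁ (toConv (Algebra.TensorProduct.productMap (e₁.symm x₁).ofConv
            (e₂.symm x₂).ofConv)) = e₁.symm x₁ := by
          apply WithConv.ofConv_injective
          ext a
          have := hr₁a (toConv (Algebra.TensorProduct.productMap (e₁.symm x₁).ofConv
            (e₂.symm x₂).ofConv)) a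
          rw [show (r₁ (toConv (Algebra.TensorProduct.productMap (e₁.symm x₁).ofConv
            (e₂.symm x₂).ofConv))).ofConv a = _ from this]
          show Algebra.TensorProduct.productMap (e₁.symm x₁).ofConv (e₂.symm x₂).ofConv
            (a ⊗ₜ[Zloc p] (1 : H₂)) = _
          rw [Algebra.TensorProduct.productMap_apply_tmul, map_one, mul_one]
        have h2 : r₂ (toConv (Algebra.TensorProduct.productMap (e₁.symm x₁).ofConv
            (e₂.symm x₂).ofConv)) = e₂.symm x₂ := by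
          apply WithConv.ofConv_injective
          ext b
          have := hr₂a (toConv (Algebra.TensorProduct.productMap (e₁.symm x₁).ofConv
            (e₂.symm x₂).ofConv)) b
          rw [show (r₂ (toConv (Algebra.TensorProduct.productMap (e₁.symm x₁).ofConv
            (e₂.symm x₂).ofConv))).ofConv b = _ from this]
          show Algebra.TensorProduct.productMap (e₁.symm x₁).ofConv (e₂.symm x₂).ofConv
            ((1 : H₁) ⊗ₜ[Zloc p] b) = _
          rw [Algebra.TensorProduct.productMap_apply_tmul, map_one, one_mul]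
        show (e₁ (r₁ _), e₂ (r₂ _)) = (x₁, x₂)
        rw [h1, h2, Equiv.apply_symm_apply, Equiv.apply_symm_apply] }
  refine ⟨H₁ ⊗[Zloc p] H₂, inferInstance, inferInstance, inferInstance, inferInstance,
    inferInstance, E, fun f g => ?_, fun σ f g hfg => ?_⟩
  · show (e₁ (r₁ (f * g)), e₂ (r₂ (f * g))) = (e₁ (r₁ f), e₂ (r₂ f)) + (e₁ (r₁ g), e₂ (r₂ g))
    rw [hr₁, hr₂, hadd₁, hadd₂]
    rfl
  · show (e₁ (r₁ g), e₂ (r₂ g)) = (act₁ σ (e₁ (r₁ f)), act₂ σ (e₂ (r₂ f)))
    rw [heq₁ σ (r₁ f) (r₁ g) (fun a => by rw [hr₁a, hr₁a]; exact hfg _),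
      heq₂ σ (r₂ f) (r₂ g) (fun b => by rw [hr₂a, hr₂a]; exact hfg _)]

end prod

end Fermat.Agent.S56.H254

end

end
-- ===== PACK-END S56/H254/FlatProd.lean

-- ===== PACK-BEGIN S56/H846/FLCnt/Basic.lean
section


/-!
# FL-CNT: basic consequences of `FLCnt.Hyp` and step C1 (`W = Γ₁`)
(helper846)  Mathlib only, nothing unproved.
-/

set_option autoImplicit false
set_option linter.unusedSectionVars false
set_option linter.style.haveILetI false
set_option linter.unusedVariables false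

namespace Fermat.Agent.S56.H846.FLCnt

variable {Γ k Z : Type} [Group Γ] [Field k] [AddCommGroup Z] [Module k Z]

/-- If `x ^ a` and `x ^ b` lie in a subgroup and `a`, `b` are coprime, then so does `x`. -/
theorem mem_of_pow_mem_coprime (H : Subgroup Γ) (x : Γ) {a b : ℕ} (hab : Nat.Coprime a b)
    (ha : x ^ a ∈ H) (hb : x ^ b ∈ H) : x ∈ H := by
  have h1 : (1 : ℤ) = a * Nat.gcdA a b + b * Nat.gcdB a b := by
    have := Nat.gcd_eq_gcd_ab a b
    rw [hab.gcd_eq_one] at this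
    exact_mod_cast this
  have h2 : x = (x ^ a) ^ (Nat.gcdA a b) * (x ^ b) ^ (Nat.gcdB a b) := by
    rw [← zpow_natCast, ← zpow_natCast, ← zpow_mul, ← zpow_mul, ← zpow_add, ← h1, zpow_one]
  rw [h2]
  exact H.mul_mem (H.zpow_mem ha _) (H.zpow_mem hb _)

/-- `c` is additive and equivariant on `W`. -/
structure IsCoc (D : Data Γ k Z) (c : Γ → Z) : Prop where
  mul : ∀ w ∈ D.W, ∀ w' ∈ D.W, c (w * w') = c w + c w'
  conj : ∀ (g : Γ), ∀ w ∈ D.W, c (g * w * g⁻¹) = D.ρ g (c w)

namespace IsCoc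

variable {D : Data Γ k Z} {c : Γ → Z} (hc : IsCoc D c)
include hc

theorem one : c 1 = 0 := by
  have := hc.mul 1 D.W.one_mem 1 D.W.one_mem
  simpa using this

theorem inv {w : Γ} (hw : w ∈ D.W) : c w⁻¹ = - c w := by
  have := hc.mul w hw w⁻¹ (D.W.inv_mem hw)
  rw [mul_inv_cancel, hc.one] at this
  exact eq_neg_of_add_eq_zero_right this.symm

theorem div {w w' : Γ} (hw : w ∈ D.W) (hw' : w' ∈ D.W) : c (w * w'⁻¹) = c w - c w' := by
  rw [hc.mul w hw _ (D.W.inv_mem hw'), hc.inv hw', sub_eq_add_neg]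

theorem pow {w : Γ} (hw : w ∈ D.W) (n : ℕ) : c (w ^ n) = n • c w := by
  induction n with
  | zero => simp [hc.one]
  | succ n ih => rw [pow_succ, hc.mul _ (D.W.pow_mem hw n) _ hw, ih, succ_nsmul]

theorem comm (hW : D.W.Normal) (g : Γ) {w : Γ} (hw : w ∈ D.W) :
    c (g * w * g⁻¹ * w⁻¹) = D.ρ g (c w) - c w := by
  rw [hc.div (hW.conj_mem w hw g) hw, hc.conj g w hw]

end IsCoc

namespace Hyp

variable {p : ℕ} [Fact p.Prime] {D : Data Γ k Z} (h : _root_.Fermat.Agent.S56.H846.FLCnt.Hyp p D)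
include h

theorem isCoc₁ : IsCoc D D.c₁ := ⟨h.c₁_mul, h.c₁_conj⟩
theorem isCoc₂ : IsCoc D D.c₂ := ⟨h.c₂_mul, h.c₂_conj⟩

theorem eq_of_c_eq {w w' : Γ} (hw : w ∈ D.W) (hw' : w' ∈ D.W) (h1 : D.c₁ w = D.c₁ w')
    (h2 : D.c₂ w = D.c₂ w') : w = w' := by
  have := h.c_inj (w * w'⁻¹) (D.W.mul_mem hw (D.W.inv_mem hw'))
    (by rw [h.isCoc₁.div hw hw', h1, sub_self]) (by rw [h.isCoc₂.div hw hw', h2, sub_self])
  exact mul_inv_eq_one.mp this

/-- equality of elements of `Z` can be checked on coordinates -/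
theorem eq_of_coord {z z' : Z} (h1 : D.ℓ₁ z = D.ℓ₁ z') (h2 : D.ℓp z = D.ℓp z')
    (h3 : D.ℓm z = D.ℓm z') : z = z' := by
  have := h.coord_inj (z - z') (by rw [map_sub, h1, sub_self]) (by rw [map_sub, h2, sub_self])
    (by rw [map_sub, h3, sub_self])
  exact sub_eq_zero.mp this

theorem W_comm {w w' : Γ} (hw : w ∈ D.W) (hw' : w' ∈ D.W) : w * w' = w' * w :=
  h.eq_of_c_eq (D.W.mul_mem hw hw') (D.W.mul_mem hw' hw)
    (by rw [h.c₁_mul w hw w' hw', h.c₁_mul w' hw' w hw, add_comm])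
    (by rw [h.c₂_mul w hw w' hw', h.c₂_mul w' hw' w hw, add_comm])

theorem p_nsmul (z : Z) : p • z = 0 := by
  haveI := h.charP
  rw [← Nat.cast_smul_eq_nsmul k, CharP.cast_eq_zero, zero_smul]

theorem pow_p_eq_one {w : Γ} (hw : w ∈ D.W) : w ^ p = 1 :=
  h.c_inj _ (D.W.pow_mem hw p) (by rw [h.isCoc₁.pow hw, h.p_nsmul])
    (by rw [h.isCoc₂.pow hw, h.p_nsmul])

theorem p_prime : p.Prime := Fact.out

theorem p_ge_three : 3 ≤ p := by
  have h2 := (h.p_prime).two_le
  have := h.p_odd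
  omega

theorem p_odd' : Odd p := (h.p_prime).odd_of_ne_two h.p_odd

theorem m_pos : 0 < D.m := by
  rcases Nat.eq_zero_or_pos D.m with h0 | h0
  · have := h.m_dvd
    rw [h0, zero_dvd_iff] at this
    omega
  · exact h0

theorem m_even : 2 ∣ D.m := by
  obtain ⟨t, ht⟩ := h.m_dvd
  have hodd := h.m_odd
  rw [ht, Nat.mul_div_cancel_left _ h.m_pos] at hodd
  have hp := h.p_odd'
  have hev : Even (D.m * t) := by
    rw [← ht]
    exact hp.add_one
  rcases Nat.even_mul.mp hev with h1 | h1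
  · exact even_iff_two_dvd.mp h1
  · exact absurd h1 (Nat.not_even_iff_odd.mpr hodd)

theorem m_ge_two : 2 ≤ D.m := Nat.le_of_dvd h.m_pos h.m_even

theorem m_le : D.m ≤ p + 1 := Nat.le_of_dvd (by omega) h.m_dvd

theorem m_coprime_p : Nat.Coprime D.m p := by
  have h1 : Nat.Coprime (p + 1) p := by simp
  exact Nat.Coprime.coprime_dvd_left h.m_dvd h1

theorem ψ₀_pow_m : D.ψ₀ ^ D.m = 1 := (h.ψ₀_pow D.m).2 dvd_rfl

theorem ψ₀_ne_zero : D.ψ₀ ≠ 0 := by
  intro h0
  have := h.ψ₀_pow_m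
  rw [h0, zero_pow (by have := h.m_pos; omega)] at this
  exact zero_ne_one this

theorem ψ₀_inv_pow (j : ℕ) : D.ψ₀⁻¹ ^ j = 1 ↔ D.m ∣ j := by
  rw [inv_pow, inv_eq_one, h.ψ₀_pow]

theorem ψ₀_ne_one : D.ψ₀ ≠ 1 := by
  intro h1
  have := (h.ψ₀_pow 1).1 (by rw [pow_one, h1])
  have := Nat.le_of_dvd one_pos this
  have := h.m_ge_two
  omega

/-! ### the action of tame inertia on coordinates -/

theorem tame_pow_ℓ₁ (j : ℕ) (z : Z) : D.ℓ₁ ((D.ρ D.τ₀ ^ j) z) = D.ℓ₁ z := by
  induction j generalizing z with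
  | zero => simp
  | succ j ih => rw [pow_succ, Module.End.mul_apply, ih, h.tame_ℓ₁]

theorem tame_pow_ℓp (j : ℕ) (z : Z) : D.ℓp ((D.ρ D.τ₀ ^ j) z) = D.ψ₀ ^ j * D.ℓp z := by
  induction j generalizing z with
  | zero => simp
  | succ j ih => rw [pow_succ, Module.End.mul_apply, ih, h.tame_ℓp, pow_succ, mul_assoc]

theorem tame_pow_ℓm (j : ℕ) (z : Z) : D.ℓm ((D.ρ D.τ₀ ^ j) z) = D.ψ₀⁻¹ ^ j * D.ℓm z := by
  induction j generalizing z with
  | zero => simp
  | succ j ih => rw [pow_succ, Module.End.mul_apply, ih, h.tame_ℓm, pow_succ, mul_assoc]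

/-! ### inertia and wild inertia -/

theorem F_anti (N : Subgroup Γ) (hN : N.Normal) (hNW : N ≤ D.W) (hN1 : N ≤ D.F ⊥ 1) (n : ℕ) :
    D.F N (n + 1) ≤ D.F N n := by
  intro σ hσ
  rw [h.mem_F N hN hNW hN1] at hσ ⊢
  rcases hσ with hσ | hσ
  · exact Or.inl hσ
  · exact Or.inr (by omega)

theorem F_anti' (N : Subgroup Γ) (hN : N.Normal) (hNW : N ≤ D.W) (hN1 : N ≤ D.F ⊥ 1) {n n' : ℕ}
    (hn : n ≤ n') : D.F N n' ≤ D.F N n := by
  intro σ hσ
  rw [h.mem_F N hN hNW hN1] at hσ ⊢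
  rcases hσ with hσ | hσ
  · exact Or.inl hσ
  · exact Or.inr (by omega)

theorem le_F (N : Subgroup Γ) (hN : N.Normal) (hNW : N ≤ D.W) (hN1 : N ≤ D.F ⊥ 1) (n : ℕ) :
    N ≤ D.F N n := by
  intro σ hσ
  rw [h.mem_F N hN hNW hN1]
  exact Or.inl hσ

theorem bot_normal : (⊥ : Subgroup Γ).Normal := Subgroup.normal_bot

theorem wild_le_inertia : D.F ⊥ 1 ≤ D.F ⊥ 0 :=
  h.F_anti ⊥ Subgroup.normal_bot bot_le bot_le 0

theorem inertia_normal : (D.F ⊥ 0).Normal := h.F_normal ⊥ Subgroup.normal_bot bot_le bot_le 0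

theorem wild_normal : (D.F ⊥ 1).Normal := h.F_normal ⊥ Subgroup.normal_bot bot_le bot_le 1

theorem wild_le_W : D.F ⊥ 1 ≤ D.W := by
  intro γ hγ
  haveI := h.W_normal
  obtain ⟨r, hr⟩ := h.wild_pgroup ⟨γ, hγ⟩
  have hr' : γ ^ (p ^ r) = 1 := by
    have := congrArg Subtype.val hr
    simpa using this
  have h1 : γ ^ D.W.index ∈ D.W := Subgroup.pow_index_mem D.W γ
  have h2 : γ ^ (p ^ r) ∈ D.W := by rw [hr']; exact D.W.one_mem
  have hcop : Nat.Coprime D.W.index (p ^ r) :=
    Nat.Coprime.pow_right r (((h.p_prime).coprime_iff_not_dvd.mpr h.W_index).symm)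
  exact mem_of_pow_mem_coprime D.W γ hcop h1 h2

theorem W_inf_inertia_le : D.W ⊓ D.F ⊥ 0 ≤ D.F ⊥ 1 := by
  intro w hw
  refine h.tame_no_p w hw.2 ?_
  rw [h.pow_p_eq_one hw.1]
  exact (D.F ⊥ 1).one_mem

theorem W_inf_inertia : D.W ⊓ D.F ⊥ 0 = D.F ⊥ 1 :=
  le_antisymm h.W_inf_inertia_le (le_inf h.wild_le_W h.wild_le_inertia)

/-- commutators of inertia elements with `W` lie in wild inertia -/
theorem comm_tame_mem {τ w : Γ} (hτ : τ ∈ D.F ⊥ 0) (hw : w ∈ D.W) :
    τ * w * τ⁻¹ * w⁻¹ ∈ D.F ⊥ 1 := by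
  apply h.W_inf_inertia_le
  refine ⟨D.W.mul_mem (h.W_normal.conj_mem w hw τ) (D.W.inv_mem hw), ?_⟩
  have h1 : w * τ⁻¹ * w⁻¹ ∈ D.F ⊥ 0 :=
    h.inertia_normal.conj_mem τ⁻¹ ((D.F ⊥ 0).inv_mem hτ) w
  have h2 : τ * w * τ⁻¹ * w⁻¹ = τ * (w * τ⁻¹ * w⁻¹) := by group
  rw [h2]
  exact (D.F ⊥ 0).mul_mem hτ h1

theorem comm_frob_mem {w : Γ} (hw : w ∈ D.W) : D.φ * w * D.φ⁻¹ * w⁻¹ ∈ D.F ⊥ 1 := by
  apply h.W_inf_inertia_le
  exact ⟨D.W.mul_mem (h.W_normal.conj_mem w hw D.φ) (D.W.inv_mem hw), h.frob_comm w hw⟩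

theorem τ₀_pow_mem (j : ℕ) : D.τ₀ ^ j ∈ D.F ⊥ 0 := (D.F ⊥ 0).pow_mem h.τ₀_mem j

/-! ### Step C1: `W ≤ Γ₀`, hence `W = Γ₁` -/

/-- the product `∏_{j < n} τ ^ j w τ ^ (-j)` -/
def avg (τ w : Γ) : ℕ → Γ
  | 0 => 1
  | n + 1 => avg τ w n * (τ ^ n * w * (τ ^ n)⁻¹)

omit h in
theorem avg_zero (τ w : Γ) : avg τ w 0 = 1 := rfl

omit h in
theorem avg_succ (τ w : Γ) (n : ℕ) : avg τ w (n + 1) = avg τ w n * (τ ^ n * w * (τ ^ n)⁻¹) :=
  rfl

theorem avg_mem (τ : Γ) {w : Γ} (hw : w ∈ D.W) (n : ℕ) : avg τ w n ∈ D.W := by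
  induction n with
  | zero => exact D.W.one_mem
  | succ n ih => exact D.W.mul_mem ih (h.W_normal.conj_mem w hw _)

theorem coc_avg {c : Γ → Z} (hc : IsCoc D c) (τ : Γ) {w : Γ} (hw : w ∈ D.W) (n : ℕ) :
    c (avg τ w n) = ∑ j ∈ Finset.range n, (D.ρ τ ^ j) (c w) := by
  induction n with
  | zero => simp [Hyp.avg_zero, hc.one]
  | succ n ih =>
    rw [Hyp.avg_succ, hc.mul _ (h.avg_mem τ hw n) _ (h.W_normal.conj_mem w hw _), ih,
      Finset.sum_range_succ, hc.conj _ w hw, map_pow]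

omit h in
/-- pure group theory: if all `[τ ^ n, w]` lie in a normal subgroup `H`, then
`avg τ w n ≡ w ^ n` modulo `H`. -/
theorem avg_mul_inv_mem_of (H : Subgroup Γ) (hH : H.Normal) (τ w : Γ)
    (hcomm : ∀ n : ℕ, τ ^ n * w * (τ ^ n)⁻¹ * w⁻¹ ∈ H) (n : ℕ) :
    avg τ w n * (w ^ n)⁻¹ ∈ H := by
  induction n with
  | zero => simp [avg_zero, H.one_mem]
  | succ n ih =>
    have h2 : w ^ n * (τ ^ n * w * (τ ^ n)⁻¹ * w⁻¹) * (w ^ n)⁻¹ ∈ H :=
      hH.conj_mem _ (hcomm n) _
    have h3 : avg τ w (n + 1) * (w ^ (n + 1))⁻¹ =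
        (avg τ w n * (w ^ n)⁻¹) * (w ^ n * (τ ^ n * w * (τ ^ n)⁻¹ * w⁻¹) * (w ^ n)⁻¹) := by
      rw [avg_succ, pow_succ]
      group
    rw [h3]
    exact H.mul_mem ih h2

theorem avg_mul_inv_mem {w : Γ} (hw : w ∈ D.W) (n : ℕ) :
    avg D.τ₀ w n * (w ^ n)⁻¹ ∈ D.F ⊥ 1 :=
  avg_mul_inv_mem_of _ h.wild_normal _ _ (fun n => h.comm_tame_mem (h.τ₀_pow_mem n) hw) n

omit h in
theorem geom_zero {r : k} {n : ℕ} (h1 : r ^ n = 1) (h2 : r ≠ 1) :
    ∑ j ∈ Finset.range n, r ^ j = 0 := by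
  have h3 := geom_sum_mul r n
  rw [h1, sub_self] at h3
  rcases mul_eq_zero.mp h3 with h4 | h4
  · exact h4
  · exact absurd (sub_eq_zero.mp h4) h2

theorem ρ_tame_pow (j i : ℕ) : D.ρ (D.τ₀ ^ j) ^ i = D.ρ D.τ₀ ^ (j * i) := by
  rw [map_pow, ← pow_mul]

theorem coc_avg_ℓ₁ {c : Γ → Z} (hc : IsCoc D c) (j : ℕ) {w : Γ} (hw : w ∈ D.W) (n : ℕ) :
    D.ℓ₁ (c (avg (D.τ₀ ^ j) w n)) = n * D.ℓ₁ (c w) := by
  rw [h.coc_avg hc _ hw, map_sum]
  simp_rw [h.ρ_tame_pow, h.tame_pow_ℓ₁]
  simp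

theorem coc_avg_ℓp {c : Γ → Z} (hc : IsCoc D c) (j : ℕ) (hj : D.ψ₀ ^ j ≠ 1) {w : Γ}
    (hw : w ∈ D.W) : D.ℓp (c (avg (D.τ₀ ^ j) w D.m)) = 0 := by
  rw [h.coc_avg hc _ hw, map_sum]
  simp_rw [h.ρ_tame_pow, h.tame_pow_ℓp, pow_mul]
  rw [← Finset.sum_mul, geom_zero (by rw [← pow_mul, mul_comm, pow_mul, h.ψ₀_pow_m, one_pow]) hj,
    zero_mul]

theorem coc_avg_ℓm {c : Γ → Z} (hc : IsCoc D c) (j : ℕ) (hj : D.ψ₀ ^ j ≠ 1) {w : Γ}
    (hw : w ∈ D.W) : D.ℓm (c (avg (D.τ₀ ^ j) w D.m)) = 0 := by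
  rw [h.coc_avg hc _ hw, map_sum]
  simp_rw [h.ρ_tame_pow, h.tame_pow_ℓm, pow_mul]
  have hj' : D.ψ₀⁻¹ ^ j ≠ 1 := by
    rw [inv_pow]
    exact fun h' => hj (inv_eq_one.mp h')
  rw [← Finset.sum_mul, geom_zero (by
    rw [← pow_mul, mul_comm, pow_mul, (h.ψ₀_inv_pow D.m).2 dvd_rfl, one_pow]) hj', zero_mul]

/-- coordinates of commutators with tame inertia -/
theorem coc_comm_ℓ₁ {c : Γ → Z} (hc : IsCoc D c) (j : ℕ) {w : Γ} (hw : w ∈ D.W) :
    D.ℓ₁ (c (D.τ₀ ^ j * w * (D.τ₀ ^ j)⁻¹ * w⁻¹)) = 0 := by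
  rw [hc.comm h.W_normal _ hw, map_sub, map_pow, h.tame_pow_ℓ₁, sub_self]

theorem coc_comm_ℓp {c : Γ → Z} (hc : IsCoc D c) (j : ℕ) {w : Γ} (hw : w ∈ D.W) :
    D.ℓp (c (D.τ₀ ^ j * w * (D.τ₀ ^ j)⁻¹ * w⁻¹)) = (D.ψ₀ ^ j - 1) * D.ℓp (c w) := by
  rw [hc.comm h.W_normal _ hw, map_sub, map_pow, h.tame_pow_ℓp]
  ring

theorem coc_comm_ℓm {c : Γ → Z} (hc : IsCoc D c) (j : ℕ) {w : Γ} (hw : w ∈ D.W) :
    D.ℓm (c (D.τ₀ ^ j * w * (D.τ₀ ^ j)⁻¹ * w⁻¹)) = (D.ψ₀⁻¹ ^ j - 1) * D.ℓm (c w) := by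
  rw [hc.comm h.W_normal _ hw, map_sub, map_pow, h.tame_pow_ℓm]
  ring

/-- for `w'` in `W` with vanishing `ψ`-coordinates, `[φ, w'] = w' ^ (-2)` -/
theorem coc_frob_comm_eq {c : Γ → Z} (hc : IsCoc D c) {w : Γ} (hw : w ∈ D.W)
    (h1 : D.ℓp (c w) = 0) (h2 : D.ℓm (c w) = 0) :
    c (D.φ * w * D.φ⁻¹ * w⁻¹) = c (w ^ 2)⁻¹ := by
  rw [hc.comm h.W_normal _ hw, hc.inv (D.W.pow_mem hw 2), hc.pow hw]
  apply h.eq_of_coord
  · rw [map_sub, h.frob_ℓ₁, map_neg, map_nsmul]
    simp only [nsmul_eq_mul]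
    ring
  · rw [map_sub, h.frob_ℓp, map_neg, map_nsmul, h1, h2]
    simp
  · rw [map_sub, h.frob_ℓm, map_neg, map_nsmul, h1, h2]
    simp

/-- **C1**: `W` is contained in wild inertia. -/
theorem W_le_wild : D.W ≤ D.F ⊥ 1 := by
  intro w hw
  have hψ1 : D.ψ₀ ^ 1 ≠ 1 := by rw [pow_one]; exact h.ψ₀_ne_one
  set w' := avg D.τ₀ w D.m with hw'def
  have hw'eq : w' = avg (D.τ₀ ^ 1) w D.m := by rw [pow_one]
  have hw' : w' ∈ D.W := h.avg_mem _ hw _
  -- `[φ, w'] = w' ^ (-2)`
  have e1 : D.φ * w' * D.φ⁻¹ * w'⁻¹ = (w' ^ 2)⁻¹ :=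
    h.eq_of_c_eq (D.W.mul_mem (h.W_normal.conj_mem w' hw' _) (D.W.inv_mem hw'))
      (D.W.inv_mem (D.W.pow_mem hw' 2))
      (h.coc_frob_comm_eq h.isCoc₁ hw' (by rw [hw'eq]; exact h.coc_avg_ℓp h.isCoc₁ 1 hψ1 hw)
        (by rw [hw'eq]; exact h.coc_avg_ℓm h.isCoc₁ 1 hψ1 hw))
      (h.coc_frob_comm_eq h.isCoc₂ hw' (by rw [hw'eq]; exact h.coc_avg_ℓp h.isCoc₂ 1 hψ1 hw)
        (by rw [hw'eq]; exact h.coc_avg_ℓm h.isCoc₂ 1 hψ1 hw))
  have e2 : w' ^ 2 ∈ D.F ⊥ 1 := by
    have := h.comm_frob_mem hw'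
    rw [e1] at this
    exact (Subgroup.inv_mem_iff _).mp this
  have e3 : w' ^ p ∈ D.F ⊥ 1 := by
    rw [h.pow_p_eq_one hw']
    exact (D.F ⊥ 1).one_mem
  have e4 : w' ∈ D.F ⊥ 1 :=
    mem_of_pow_mem_coprime _ w' ((Nat.coprime_primes Nat.prime_two h.p_prime).mpr
      (Ne.symm h.p_odd)) e2 e3
  have e5 : w ^ D.m ∈ D.F ⊥ 1 := by
    have := h.avg_mul_inv_mem hw D.m
    have h6 : w ^ D.m = (avg D.τ₀ w D.m * (w ^ D.m)⁻¹)⁻¹ * w' := by
      rw [hw'def]; group
    rw [h6]
    exact (D.F ⊥ 1).mul_mem ((D.F ⊥ 1).inv_mem this) e4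
  have e6 : w ^ p ∈ D.F ⊥ 1 := by
    rw [h.pow_p_eq_one hw]
    exact (D.F ⊥ 1).one_mem
  exact mem_of_pow_mem_coprime _ w h.m_coprime_p e5 e6

theorem W_eq_wild : D.W = D.F ⊥ 1 := le_antisymm h.W_le_wild h.wild_le_W

theorem W_le_inertia : D.W ≤ D.F ⊥ 0 := h.W_le_wild.trans h.wild_le_inertia

theorem card_inertia' : Nat.card (D.F ⊥ 0) = (p - 1) * D.m * Nat.card D.W := by
  have := h.card_inertia
  rwa [inf_eq_left.mpr h.W_le_inertia] at this

end Hyp

end Fermat.Agent.S56.H846.FLCnt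

end
-- ===== PACK-END S56/H846/FLCnt/Basic.lean

-- ===== PACK-BEGIN S56/H334/RamFixed.lean
section


/-!
# S56 / W-FLAT-SS, piece FL-RAM (helper334), part 6: the fixed ring `B^H` of a DVR

`A ⊆ B` discrete valuation rings, `B` finite over `A`, `H` a group acting on `B` by
`A`-algebra automorphisms.  Then `B^H = FixedPoints.subalgebra A B H` is a discrete valuation
ring, finite over `A`, and `B` is finite over `B^H`.

* `finite_fixedPoints`, `finite_over_fixedPoints`, `isNoetherianRing_fixedPoints`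
* `isDiscreteValuationRing_fixedPoints`
* `fixedPoints_dvd_iff` : divisibility in `B^H` is divisibility in `B`.
* `fixedPoints_isUnit_iff`, `fixedPoints_mem_maximalIdeal_iff`
-/

set_option autoImplicit false
set_option linter.unusedSectionVars false

open IsLocalRing

namespace Fermat.Agent.S56.H334

section FixedRing

variable (A B : Type*) [CommRing A] [CommRing B] [IsDomain B] [Algebra A B]
  (H : Type*) [Group H] [MulSemiringAction H B] [SMulCommClass H A B]

/-- Divisibility in `B^H` is divisibility in `B`. -/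
theorem fixedPoints_dvd_iff (a b : FixedPoints.subalgebra A B H) :
    a ∣ b ↔ (a : B) ∣ (b : B) := by
  constructor
  · rintro ⟨c, rfl⟩
    exact ⟨c, rfl⟩
  · rintro ⟨c, hc⟩
    by_cases ha : (a : B) = 0
    · refine ⟨0, ?_⟩
      apply Subtype.ext
      rw [hc, ha, zero_mul]
      simp
    · have hfix : ∀ h : H, h • c = c := by
        intro h
        have h1 : h • (b : B) = b := b.2 h
        rw [hc, smul_mul', a.2 h] at h1
        exact mul_left_cancel₀ ha h1
      exact ⟨⟨c, hfix⟩, Subtype.ext hc⟩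

theorem fixedPoints_isUnit_iff (a : FixedPoints.subalgebra A B H) :
    IsUnit a ↔ IsUnit (a : B) := by
  rw [isUnit_iff_dvd_one, isUnit_iff_dvd_one, fixedPoints_dvd_iff]
  rfl

/-- `B^H` is a valuation ring if `B` is. -/
theorem valuationRing_fixedPoints [ValuationRing B] :
    ValuationRing (FixedPoints.subalgebra A B H) := by
  haveI : PreValuationRing (FixedPoints.subalgebra A B H) := ⟨fun a b => ?_⟩
  · exact {}
  obtain ⟨c, hc | hc⟩ := ValuationRing.cond (a : B) (b : B)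
  · obtain ⟨c', hc'⟩ := (fixedPoints_dvd_iff A B H a b).2 ⟨c, hc.symm⟩
    exact ⟨c', Or.inl hc'.symm⟩
  · obtain ⟨c', hc'⟩ := (fixedPoints_dvd_iff A B H b a).2 ⟨c, hc.symm⟩
    exact ⟨c', Or.inr hc'.symm⟩

variable [IsDomain A] [IsDiscreteValuationRing A] [IsDiscreteValuationRing B]
  [Module.Finite A B] [FaithfulSMul A B]

theorem finite_fixedPoints : Module.Finite A (FixedPoints.subalgebra A B H) := by
  have : IsNoetherian A B := isNoetherian_of_isNoetherianRing_of_finite A B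
  have : IsNoetherian A (FixedPoints.subalgebra A B H).toSubmodule := inferInstance
  exact Module.IsNoetherian.finite A (FixedPoints.subalgebra A B H).toSubmodule

theorem finite_over_fixedPoints : Module.Finite (FixedPoints.subalgebra A B H) B :=
  Module.Finite.of_restrictScalars_finite A (FixedPoints.subalgebra A B H) B

theorem isNoetherianRing_fixedPoints : IsNoetherianRing (FixedPoints.subalgebra A B H) := by
  have := finite_fixedPoints A B H
  exact IsNoetherianRing.of_finite A (FixedPoints.subalgebra A B H)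

/-- The fixed ring `B^H` is a discrete valuation ring. -/
theorem isDiscreteValuationRing_fixedPoints :
    IsDiscreteValuationRing (FixedPoints.subalgebra A B H) := by
  have := valuationRing_fixedPoints A B H
  have := isNoetherianRing_fixedPoints A B H
  have hpid : IsPrincipalIdealRing (FixedPoints.subalgebra A B H) := inferInstance
  have hloc : IsLocalRing (FixedPoints.subalgebra A B H) := inferInstance
  refine { hpid, hloc with not_a_field' := ?_ }
  obtain ⟨π, hπ⟩ := IsDiscreteValuationRing.exists_irreducible A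
  intro hbot
  have hmem : algebraMap A (FixedPoints.subalgebra A B H) π ∈
      maximalIdeal (FixedPoints.subalgebra A B H) := by
    rw [mem_maximalIdeal, mem_nonunits_iff, fixedPoints_isUnit_iff]
    intro hu
    have hloc : IsLocalHom (algebraMap A B) := inferInstance
    exact hπ.not_isUnit (hloc.map_nonunit π hu)
  rw [hbot, Ideal.mem_bot] at hmem
  have h2 : algebraMap A B π = 0 := congrArg Subtype.val hmem
  rw [FaithfulSMul.algebraMap_eq_zero_iff] at h2
  exact hπ.ne_zero h2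

end FixedRing

end Fermat.Agent.S56.H334

end
-- ===== PACK-END S56/H334/RamFixed.lean

-- ===== PACK-BEGIN S56/H554/TameWild.lean
section



/-!
# S56 / local engine at `q ≠ p` (helper554): wild elements of inertia act through order prime to `p`

`L/K` algebraic, `A` a valuation subring of `L`, `τ` in the inertia group of `A`.
`τ` is *wild on* a set `E ⊆ L` if `v (τ c - c) < v c` for all nonzero `c ∈ E`
(equivalently the tame character `tameHom A hτ` of `A2/H708/Tame.lean` is trivial on `E`).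

* `IsWildOn.pow` : powers of wild elements of the decomposition group are wild.
* `fixes_of_pow_fixes` : if `τ` is wild on a `τ`-stable intermediate field `E`, `τ ^ n` fixes `E`
  pointwise and `n` is a unit of `A`, then `τ` fixes `E` pointwise.  (Norm argument:
  `∏_{j<n} τ^j (τ x / x) = 1`; no ramification theory, no discreteness.)
* `map_eq_one_of_wild` : a group hom `f` on `Gal(L/K)`, trivial on the fixing subgroup of a
  finite-dimensional `τ`-stable `E`, kills a wild `τ` as soon as `f τ ^ p ^ k = 1` with `p` prime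
  and a unit of `A`.
-/

set_option autoImplicit false

namespace Fermat.Agent.S56.H554

open Fermat.Agent.A2.H708

variable {K L : Type*} [Field K] [Field L] [Algebra K L] (A : ValuationSubring L)

/-- `τ` is wild on `E`: it moves every nonzero `c ∈ E` by something of smaller valuation. -/
def IsWildOn (τ : L ≃ₐ[K] L) (E : Set L) : Prop :=
  ∀ c ∈ E, c ≠ 0 → A.valuation (τ c - c) < A.valuation c

variable {A}

theorem pow_succ_apply' (τ : L ≃ₐ[K] L) (j : ℕ) (x : L) : (τ ^ (j + 1)) x = τ ((τ ^ j) x) := by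
  rw [pow_succ']
  rfl

theorem pow_succ_apply (τ : L ≃ₐ[K] L) (j : ℕ) (x : L) : (τ ^ (j + 1)) x = (τ ^ j) (τ x) := by
  rw [pow_succ]
  rfl

theorem IsWildOn.pow [Algebra.IsAlgebraic K L] {τ : L ≃ₐ[K] L}
    (hτ : τ ∈ A.decompositionSubgroup K) {E : Set L} (h : IsWildOn A τ E) (j : ℕ) :
    IsWildOn A (τ ^ j) E := by
  intro c hc hc0
  have hpos : 0 < A.valuation c := pos_iff_ne_zero.mpr ((Valuation.ne_zero_iff _).mpr hc0)
  induction j with
  | zero =>
    have : (τ ^ 0) c - c = 0 := by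
      rw [pow_zero]
      show c - c = 0
      exact sub_self c
    rw [this, map_zero]
    exact hpos
  | succ j ih =>
    have h1 : (τ ^ (j + 1)) c - c = τ ((τ ^ j) c - c) + (τ c - c) := by
      rw [pow_succ_apply', map_sub]
      ring
    rw [h1]
    refine lt_of_le_of_lt (A.valuation.map_add _ _) (max_lt ?_ (h c hc hc0))
    rw [valuation_apply_of_mem_decomposition A hτ]
    exact ih

/-- Expansion of `∏ (1 + a * b i)` to first order in `a`, with remainder in `A`. -/
theorem exists_prod_one_add_mul {ι : Type*} (s : Finset ι) (a : L) (ha : a ∈ A) (b : ι → L)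
    (hb : ∀ i ∈ s, b i ∈ A) :
    ∃ t ∈ A, ∏ i ∈ s, (1 + a * b i) = 1 + a * ∑ i ∈ s, b i + a ^ 2 * t := by
  classical
  induction s using Finset.induction_on with
  | empty => exact ⟨0, A.zero_mem, by simp⟩
  | insert i s hi ih =>
    obtain ⟨t, ht, hprod⟩ := ih (fun j hj => hb j (Finset.mem_insert_of_mem hj))
    have hbi : b i ∈ A := hb i (Finset.mem_insert_self i s)
    have hsum : ∑ j ∈ s, b j ∈ A :=
      A.toSubring.sum_mem (fun j hj => hb j (Finset.mem_insert_of_mem hj))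
    refine ⟨t + b i * ∑ j ∈ s, b j + a * b i * t, ?_, ?_⟩
    · exact A.add_mem _ _ (A.add_mem _ _ ht (A.mul_mem _ _ hbi hsum))
        (A.mul_mem _ _ (A.mul_mem _ _ ha hbi) ht)
    · rw [Finset.prod_insert hi, Finset.sum_insert hi, hprod]
      ring

/-- Telescoping: `∏_{j<n} τ^j (τ x / x) = τ^n x / x`. -/
theorem prod_pow_apply_ratio (τ : L ≃ₐ[K] L) {x : L} (hx : x ≠ 0) (n : ℕ) :
    ∏ j ∈ Finset.range n, (τ ^ j) (τ x / x) = (τ ^ n) x / x := by
  induction n with
  | zero =>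
    rw [Finset.range_zero, Finset.prod_empty, pow_zero]
    show 1 = x / x
    rw [div_self hx]
  | succ n ih =>
    rw [Finset.prod_range_succ, ih, map_div₀, ← pow_succ_apply]
    have h0 : (τ ^ n) x ≠ 0 := fun h =>
      hx ((map_eq_zero_iff (τ ^ n) (τ ^ n).injective).mp h)
    field_simp

/-- **Wild lemma.** If `τ` (in the inertia group) is wild on the `τ`-stable intermediate field
`E`, `τ ^ n` fixes `E` pointwise and `n` is a unit of `A`, then `τ` fixes `E` pointwise. -/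
theorem fixes_of_pow_fixes [Algebra.IsAlgebraic K L] {τ : L ≃ₐ[K] L}
    (hτ : τ ∈ A.inertiaSubgroupIn K) (E : IntermediateField K L)
    (hstab : ∀ x ∈ E, τ x ∈ E) (hwild : IsWildOn A τ (E : Set L))
    (n : ℕ) (hn : A.valuation (n : L) = 1) (hfix : ∀ x ∈ E, (τ ^ n) x = x) :
    ∀ x ∈ E, τ x = x := by
  have hD : τ ∈ A.decompositionSubgroup K := mem_decomposition_of_mem_inertiaIn A hτ
  intro x hxE
  by_contra hne
  have hx0 : x ≠ 0 := by
    rintro rfl
    exact hne (map_zero τ)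
  -- the element `a = τ x / x - 1`
  set a : L := τ x / x - 1 with ha
  have haE : a ∈ E := E.sub_mem (E.div_mem (hstab x hxE) hxE) E.one_mem
  have ha0 : a ≠ 0 := by
    intro h0
    apply hne
    have h1 : τ x / x = 1 := by
      rw [ha] at h0
      exact sub_eq_zero.mp h0
    rwa [div_eq_one_iff_eq hx0] at h1
  have hax : a = (τ x - x) / x := by
    rw [ha]
    field_simp
  have hva : A.valuation a < 1 := by
    rw [hax, map_div₀,
      div_lt_one₀ (pos_iff_ne_zero.mpr ((Valuation.ne_zero_iff _).mpr hx0))]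
    exact hwild x hxE hx0
  have haA : a ∈ A := (A.valuation_le_one_iff a).mp hva.le
  -- the conjugates of `a`
  set m : ℕ → L := fun j => ((τ ^ j) a - a) / a with hm
  have hmv : ∀ j, A.valuation (m j) < 1 := by
    intro j
    rw [hm]
    show A.valuation (((τ ^ j) a - a) / a) < 1
    rw [map_div₀, div_lt_one₀ (pos_iff_ne_zero.mpr ((Valuation.ne_zero_iff _).mpr ha0))]
    exact (hwild.pow hD j) a haE ha0
  have hconj : ∀ j, (τ ^ j) (τ x / x) = 1 + a * (1 + m j) := by
    intro j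
    have h1 : τ x / x = 1 + a := by rw [ha]; ring
    rw [h1, map_add, map_one, hm]
    show 1 + (τ ^ j) a = 1 + a * (1 + ((τ ^ j) a - a) / a)
    field_simp
    ring
  have hprod : ∏ j ∈ Finset.range n, (1 + a * (1 + m j)) = 1 := by
    have h1 := prod_pow_apply_ratio τ hx0 n
    rw [hfix x hxE, div_self hx0] at h1
    exact (Finset.prod_congr rfl fun j _ => (hconj j).symm).trans h1
  obtain ⟨t, ht, hexp⟩ := exists_prod_one_add_mul (A := A) (Finset.range n) a haA
    (fun j => 1 + m j)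
    (fun j _ => A.add_mem _ _ A.one_mem ((A.valuation_le_one_iff _).mp (hmv j).le))
  rw [hprod] at hexp
  -- `n + ∑ m j + a t = 0`
  have hsum : ∑ j ∈ Finset.range n, (1 + m j) = (n : L) + ∑ j ∈ Finset.range n, m j := by
    rw [Finset.sum_add_distrib, Finset.sum_const, Finset.card_range, nsmul_eq_mul, mul_one]
  have hzero : (n : L) + (∑ j ∈ Finset.range n, m j + a * t) = 0 := by
    have h2 : a * ((n : L) + (∑ j ∈ Finset.range n, m j + a * t)) = 0 := by
      have h3 : (1 : L) = 1 + a * ((n : L) + ∑ j ∈ Finset.range n, m j) + a ^ 2 * t := by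
        rw [← hsum]
        exact hexp
      linear_combination -h3
    exact (mul_eq_zero.mp h2).resolve_left ha0
  have hlt : A.valuation (∑ j ∈ Finset.range n, m j + a * t) < 1 := by
    refine lt_of_le_of_lt (A.valuation.map_add _ _) (max_lt ?_ ?_)
    · exact A.valuation.map_sum_lt (zero_ne_one' _).symm fun j _ => hmv j
    · rw [map_mul]
      exact mul_lt_one_of_nonneg_of_lt_one_left zero_le hva
        ((A.valuation_le_one_iff t).mpr ht)
  have hn' : (n : L) = -(∑ j ∈ Finset.range n, m j + a * t) := eq_neg_of_add_eq_zero_left hzero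
  rw [hn', Valuation.map_neg] at hn
  exact absurd hn hlt.ne

/-- Some positive power of `τ` fixes a finite-dimensional intermediate field pointwise. -/
theorem exists_pow_fixes (τ : L ≃ₐ[K] L) (E : IntermediateField K L) [FiniteDimensional K E] :
    ∃ N : ℕ, 0 < N ∧ ∀ x ∈ E, (τ ^ N) x = x := by
  have : Finite (E →ₐ[K] L) := Finite.of_fintype _
  let g : ℕ → (E →ₐ[K] L) := fun n => ((τ ^ n : L ≃ₐ[K] L) : L →ₐ[K] L).comp E.val
  obtain ⟨a, b, hab, h⟩ := Finite.exists_ne_map_eq_of_infinite g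
  wlog hlt : a < b generalizing a b
  · exact this b a hab.symm h.symm (lt_of_le_of_ne (not_lt.mp hlt) hab.symm)
  refine ⟨b - a, Nat.sub_pos_of_lt hlt, fun x hx => ?_⟩
  have h1 : (τ ^ a) x = (τ ^ b) x := congrArg (fun φ : E →ₐ[K] L => φ ⟨x, hx⟩) h
  have hb : b = a + (b - a) := by omega
  have h2 : (τ ^ b) x = (τ ^ a) ((τ ^ (b - a)) x) := by
    conv_lhs => rw [hb, pow_add]
    rfl
  rw [h2] at h1
  exact ((τ ^ a).injective h1).symm

theorem pow_mul_apply (τ : L ≃ₐ[K] L) (a b : ℕ) (x : L) :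
    ((τ ^ a) ^ b) x = (τ ^ (a * b)) x := by
  rw [pow_mul]

theorem pow_apply_mem (τ : L ≃ₐ[K] L) (E : IntermediateField K L) (hstab : ∀ x ∈ E, τ x ∈ E)
    (j : ℕ) : ∀ x ∈ E, (τ ^ j) x ∈ E := by
  induction j with
  | zero => intro x hx; rw [pow_zero]; exact hx
  | succ j ih => intro x hx; rw [pow_succ_apply']; exact hstab _ (ih x hx)

/-- **Wild elements die in `p`-groups.**  A group hom `f` on `Gal(L/K)` which is trivial on the
fixing subgroup of a finite-dimensional `τ`-stable intermediate field `E` kills every element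
`τ` of the inertia group which is wild on `E` and such that `f τ` has `p`-power order, `p` a
prime which is a unit of `A`. -/
theorem map_eq_one_of_wild [Algebra.IsAlgebraic K L] {Γ : Type*} [Group Γ]
    (f : (L ≃ₐ[K] L) →* Γ) (E : IntermediateField K L) [FiniteDimensional K E]
    (hf : ∀ σ : L ≃ₐ[K] L, (∀ x ∈ E, σ x = x) → f σ = 1)
    {τ : L ≃ₐ[K] L} (hτ : τ ∈ A.inertiaSubgroupIn K)
    (hstab : ∀ x ∈ E, τ x ∈ E) (hwild : IsWildOn A τ (E : Set L))
    (p : ℕ) (hp : p.Prime) (hpA : A.valuation (p : L) = 1) (k : ℕ) (hk : f τ ^ p ^ k = 1) :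
    f τ = 1 := by
  have hD : τ ∈ A.decompositionSubgroup K := mem_decomposition_of_mem_inertiaIn A hτ
  obtain ⟨N, hN, hfix⟩ := exists_pow_fixes τ E
  obtain ⟨j, m', hm', hNeq⟩ := Nat.exists_eq_pow_mul_and_not_dvd hN.ne' p hp.ne_one
  -- `τ ^ m'` fixes `E`
  have hfix' : ∀ x ∈ E, (τ ^ m') x = x := by
    refine fixes_of_pow_fixes (A := A) (pow_mem hτ m') E (pow_apply_mem τ E hstab m')
      (hwild.pow hD m') (p ^ j) ?_ ?_
    · rw [Nat.cast_pow, map_pow, hpA, one_pow]
    · intro x hx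
      rw [pow_mul_apply, mul_comm, ← hNeq]
      exact hfix x hx
  have h1 : f τ ^ m' = 1 := by
    rw [← map_pow]
    exact hf _ hfix'
  have ho1 : orderOf (f τ) ∣ m' := orderOf_dvd_of_pow_eq_one h1
  have ho2 : orderOf (f τ) ∣ p ^ k := orderOf_dvd_of_pow_eq_one hk
  have hcop : Nat.Coprime m' (p ^ k) :=
    Nat.Coprime.pow_right k ((Nat.Prime.coprime_iff_not_dvd hp).mpr hm').symm
  have ho : orderOf (f τ) = 1 :=
    Nat.Coprime.eq_one_of_dvd (Nat.Coprime.coprime_dvd_left ho1 hcop) ho2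
  exact orderOf_eq_one_iff.mp ho

/-- **Wild elements die in `p`-groups, subgroup version.**  Same as `map_eq_one_of_wild` for a
hom `f` defined only on a subgroup `H` of `Gal(L/K)` containing `τ` (e.g. the inertia or the
decomposition group). -/
theorem map_eq_one_of_wild_subgroup [Algebra.IsAlgebraic K L] {Γ : Type*} [Group Γ]
    (H : Subgroup (L ≃ₐ[K] L)) (f : H →* Γ) (E : IntermediateField K L) [FiniteDimensional K E]
    (hf : ∀ σ : H, (∀ x ∈ E, (σ : L ≃ₐ[K] L) x = x) → f σ = 1)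
    {τ : L ≃ₐ[K] L} (hτH : τ ∈ H) (hτ : τ ∈ A.inertiaSubgroupIn K)
    (hstab : ∀ x ∈ E, τ x ∈ E) (hwild : IsWildOn A τ (E : Set L))
    (p : ℕ) (hp : p.Prime) (hpA : A.valuation (p : L) = 1) (k : ℕ)
    (hk : f ⟨τ, hτH⟩ ^ p ^ k = 1) :
    f ⟨τ, hτH⟩ = 1 := by
  have hD : τ ∈ A.decompositionSubgroup K := mem_decomposition_of_mem_inertiaIn A hτ
  obtain ⟨N, hN, hfix⟩ := exists_pow_fixes τ E
  obtain ⟨j, m', hm', hNeq⟩ := Nat.exists_eq_pow_mul_and_not_dvd hN.ne' p hp.ne_one
  have hfix' : ∀ x ∈ E, (τ ^ m') x = x := by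
    refine fixes_of_pow_fixes (A := A) (pow_mem hτ m') E (pow_apply_mem τ E hstab m')
      (hwild.pow hD m') (p ^ j) ?_ ?_
    · rw [Nat.cast_pow, map_pow, hpA, one_pow]
    · intro x hx
      rw [pow_mul_apply, mul_comm, ← hNeq]
      exact hfix x hx
  have h1 : f ⟨τ, hτH⟩ ^ m' = 1 := by
    rw [← map_pow]
    exact hf _ hfix'
  have ho1 : orderOf (f ⟨τ, hτH⟩) ∣ m' := orderOf_dvd_of_pow_eq_one h1
  have ho2 : orderOf (f ⟨τ, hτH⟩) ∣ p ^ k := orderOf_dvd_of_pow_eq_one hk
  have hcop : Nat.Coprime m' (p ^ k) :=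
    Nat.Coprime.pow_right k ((Nat.Prime.coprime_iff_not_dvd hp).mpr hm').symm
  have ho : orderOf (f ⟨τ, hτH⟩) = 1 :=
    Nat.Coprime.eq_one_of_dvd (Nat.Coprime.coprime_dvd_left ho1 hcop) ho2
  exact orderOf_eq_one_iff.mp ho

/-- Wildness in terms of the tame character of `A2/H708/Tame.lean`. -/
theorem isWildOn_iff_tameHom [Algebra.IsAlgebraic K L] {τ : L ≃ₐ[K] L}
    (hτ : τ ∈ A.inertiaSubgroupIn K) (E : Set L) :
    IsWildOn A τ E ↔ ∀ c : Lˣ, (c : L) ∈ E → tameHom A hτ c = 1 := by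
  constructor
  · intro h c hc
    rw [tameHom_eq_one_iff]
    exact h c hc c.ne_zero
  · intro h c hc hc0
    have := h (Units.mk0 c hc0) hc
    rw [tameHom_eq_one_iff] at this
    exact this

end Fermat.Agent.S56.H554

end
-- ===== PACK-END S56/H554/TameWild.lean

-- ===== PACK-BEGIN S55/G/Rec/Spec.lean
section


/-!
# S55 / layer G / block REC : FROZEN INTERFACE (cochain level, Prelude style)

Sub-architect: helper1.  Blueprint: `origin/helper1:coord/S55-G-REC.md`.

* `LocalInvSystem` : what REC consumes from the local layer (invariant maps on the Brauer groups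
  `lBr q V` of ALL finite extensions of `ℚ_q` inside `PadicAlgCl q`: injective, restriction
  multiplies by the degree, vanishing on unramified unit cocycles, normalisation on unramified
  cyclic classes).
* `HassePrincipleSpec p` : what REC consumes from the inequalities
  (`Br(K)(p) ↪ ∏_v Br(K_v)`, `K` any number field inside `ℚ̄`).
* `ReciprocitySpec I p` : the deliverable, `∑_v inv_v (x_v) = 0` for `x ∈ Br(K)(p)`.

All statements are about level-constant cochains on subgroups of `G_ℚ`, `G_{ℚ_q}` with values in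
`ℚ̄ˣ`, `ℚ̄_qˣ` (see `Defs.lean`); inflation is invisible, restriction is restriction of functions.
-/

set_option autoImplicit false

noncomputable section

namespace Fermat.Agent.S55.G.Rec

open groupCohomology

local notation "Qb" => AlgebraicClosure ℚ
local notation "GQ" => (AlgebraicClosure ℚ ≃ₐ[ℚ] AlgebraicClosure ℚ)

/-! ## Cyclic ("cup with a character") cocycles -/

/-- `c` is the 2-cochain `(g, h) ↦ ε_χ(g, h) • a`, where `ε_χ(g, h) = (χ̃ g + χ̃ h) / n ∈ {0, 1}`
is the carry of the canonical lifts `χ̃ ∈ {0, …, n-1}` of the character `χ : G → ℤ/n`.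
(For `a` invariant this is the cup product of `a` with `δχ ∈ H²(G, ℤ)`.) -/
def IsCupChar {G A : Type*} [Group G] [AddCommGroup A] {n : ℕ} (a : A)
    (χ : G →* Multiplicative (ZMod n)) (c : G × G → A) : Prop :=
  ∀ g h : G, c (g, h) =
    (((Multiplicative.toAdd (χ g)).val + (Multiplicative.toAdd (χ h)).val) / n) • a

/-! ## Local arithmetic vocabulary (inside `PadicAlgCl q`, norm = the `q`-adic norm) -/

section Local

variable (q : ℕ) [Fact q.Prime]

local notation "Gq" => (PadicAlgCl q ≃ₐ[ℚ_[q]] PadicAlgCl q)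

/-- `τ` acts trivially on the residue field of `ℚ̄_q`. -/
def IsInertial (τ : Gq) : Prop := ∀ x : PadicAlgCl q, ‖x‖ ≤ 1 → ‖τ x - x‖ < 1

/-- `x` lies in the fixed field `K_v` of `V`. -/
def IsFixedBy (V : Subgroup Gq) (x : PadicAlgCl q) : Prop := ∀ τ ∈ V, τ x = x

/-- `f` is the residue degree of the fixed field of `V`: its residue field is `𝔽_{q^f}`. -/
def IsResidueDegree (V : Subgroup Gq) (f : ℕ) : Prop :=
  0 < f ∧ (∀ x, IsFixedBy q V x → ‖x‖ ≤ 1 → ‖x ^ (q ^ f) - x‖ < 1) ∧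
    ∀ m, 0 < m → (∀ x, IsFixedBy q V x → ‖x‖ ≤ 1 → ‖x ^ (q ^ m) - x‖ < 1) → f ≤ m

/-- `φ ∈ V` is an (arithmetic) Frobenius element of the fixed field of `V`: it acts on the
residue field of `ℚ̄_q` by `x ↦ x ^ (q ^ f)`, `f` the residue degree. -/
def IsFrobenius (V : Subgroup Gq) (φ : Gq) : Prop :=
  φ ∈ V ∧ ∃ f, IsResidueDegree q V f ∧ ∀ x : PadicAlgCl q, ‖x‖ ≤ 1 → ‖φ x - x ^ (q ^ f)‖ < 1

/-- `π` is a uniformizer of the fixed field of `V`. -/
def IsUniformizer (V : Subgroup Gq) (π : PadicAlgCl q) : Prop :=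
  IsFixedBy q V π ∧ π ≠ 0 ∧ ‖π‖ < 1 ∧ ∀ x, IsFixedBy q V x → ‖x‖ < 1 → ‖x‖ ≤ ‖π‖

end Local

/-! ## The local interface -/

/-- A system of local invariant maps `inv_{K_v} : Br(K_v) → ℚ/ℤ` for all finite extensions
`K_v = ℚ̄_q^V` of `ℚ_q` (all primes `q`). -/
structure LocalInvSystem where
  /-- the invariant map -/
  inv : ∀ (q : ℕ) [Fact q.Prime] (V : Subgroup (PadicAlgCl q ≃ₐ[ℚ_[q]] PadicAlgCl q)),
    lBr q V →+ AddCircle (1 : ℚ)
  /-- `inv` is injective -/
  inv_injective : ∀ (q : ℕ) [Fact q.Prime] (V : Subgroup (PadicAlgCl q ≃ₐ[ℚ_[q]] PadicAlgCl q)),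
    IsOpenL q V → Function.Injective (inv q V)
  /-- restriction multiplies the invariant by the degree -/
  inv_res : ∀ (q : ℕ) [Fact q.Prime] (V V' : Subgroup (PadicAlgCl q ≃ₐ[ℚ_[q]] PadicAlgCl q))
    (h : V' ≤ V), IsOpenL q V' → ∀ x : lBr q V,
      inv q V' (lRes q h x) = V'.relIndex V • inv q V x
  /-- unramified cocycles with unit values are trivial (`H²(Gal(K^{ur}/K), 𝒪^×) = 0`):
  if `c` has values of norm `1`, is invariant under right translation by inertial elements and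
  its values are fixed by the inertial elements of `V`, then `inv c = 0`. -/
  inv_unram : ∀ (q : ℕ) [Fact q.Prime] (V : Subgroup (PadicAlgCl q ≃ₐ[ℚ_[q]] PadicAlgCl q)),
    IsOpenL q V → ∀ c : ↥(levelCocycles₂ (lHom q V) (lModOn q V)),
      (∀ g h : ↥V, ‖((Additive.toMul ((c : ↥V × ↥V → lModOn q V) (g, h)) :
        (PadicAlgCl q)ˣ) : PadicAlgCl q)‖ = 1) →
      (∀ g h i j : ↥V, IsInertial q (i : PadicAlgCl q ≃ₐ[ℚ_[q]] PadicAlgCl q) →
        IsInertial q (j : PadicAlgCl q ≃ₐ[ℚ_[q]] PadicAlgCl q) →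
        (c : ↥V × ↥V → lModOn q V) (g * i, h * j) = (c : ↥V × ↥V → lModOn q V) (g, h)) →
      (∀ g h i : ↥V, IsInertial q (i : PadicAlgCl q ≃ₐ[ℚ_[q]] PadicAlgCl q) →
        (lModOn q V).ρ i ((c : ↥V × ↥V → lModOn q V) (g, h)) =
          (c : ↥V × ↥V → lModOn q V) (g, h)) →
      inv q V (continuousH2π (lHom q V) (lModOn q V) c) = 0
  /-- normalisation: `inv (π ∪ δχ) = χ(Frob)` for unramified `χ` -/
  inv_unif : ∀ (q : ℕ) [Fact q.Prime] (V : Subgroup (PadicAlgCl q ≃ₐ[ℚ_[q]] PadicAlgCl q)),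
    IsOpenL q V → ∀ (n : ℕ) [NeZero n] (χ : ↥V →* Multiplicative (ZMod n)),
      (∀ τ : ↥V, IsInertial q (τ : PadicAlgCl q ≃ₐ[ℚ_[q]] PadicAlgCl q) → χ τ = 1) →
      ∀ (φ : PadicAlgCl q ≃ₐ[ℚ_[q]] PadicAlgCl q) (hφ : IsFrobenius q V φ),
      ∀ π : (PadicAlgCl q)ˣ, IsUniformizer q V (π : PadicAlgCl q) →
      ∀ c : ↥(levelCocycles₂ (lHom q V) (lModOn q V)),
        IsCupChar (toLMod q V π) χ
          (c : ↥V × ↥V → lModOn q V) →
        inv q V (continuousH2π (lHom q V) (lModOn q V) c) =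
          (((((Multiplicative.toAdd (χ ⟨φ, hφ.1⟩)).val : ℚ) / (n : ℚ) : ℚ)) : AddCircle (1 : ℚ))

/-! ## Global statements -/

/-- The local invariant of a global class at the place of `ℚ̄^U` induced by `ι_q ∘ g⁻¹`. -/
def LocalInvSystem.invAt (I : LocalInvSystem) (q : Nat.Primes) (g : GQ) (U : Subgroup GQ)
    (x : gBr U) : AddCircle (1 : ℚ) :=
  haveI : Fact (q : ℕ).Prime := ⟨q.2⟩
  I.inv (q : ℕ) (locSub (q : ℕ) g U) (locBr (q : ℕ) g U x)

/-- **Hasse principle** (`p`-primary part): a class of `p`-power order in `Br(K)` which is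
trivial at all finite places is trivial.  (`K = ℚ̄^U` any number field.) -/
def HassePrincipleSpec (p : ℕ) : Prop :=
  ∀ (U : Subgroup GQ), IsOpenQ U → ∀ x : gBr U, (∃ k : ℕ, p ^ k • x = 0) →
    (∀ (q : ℕ) [Fact q.Prime] (g : GQ), locBr q g U x = 0) → x = 0

/-- **Reciprocity law** (`p`-primary part): for `x ∈ Br(K)` of `p`-power order, almost all local
invariants vanish and `∑_v inv_v (x_v) = 0`, the sum over all finite places `v` of `K`
(= over all primes `q` and representatives of `U \\ G_ℚ / D_q`). -/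
def ReciprocitySpec (I : LocalInvSystem) (p : ℕ) : Prop :=
  ∀ (U : Subgroup GQ), IsOpenQ U → ∀ x : gBr U, (∃ k : ℕ, p ^ k • x = 0) →
    ∀ R : Nat.Primes → Finset GQ,
      (∀ q : Nat.Primes,
        haveI : Fact (q : ℕ).Prime := ⟨q.2⟩
        IsDoubleCosetReps U (localGaloisToGlobal (q : ℕ)).range (R q)) →
      (Function.support fun q : Nat.Primes => ∑ r ∈ R q, I.invAt q r U x).Finite ∧
        ∑ᶠ q : Nat.Primes, ∑ r ∈ R q, I.invAt q r U x = 0

end Fermat.Agent.S55.G.Rec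

end
end
-- ===== PACK-END S55/G/Rec/Spec.lean

-- ===== PACK-BEGIN S55/G/Rec/H379Rep.lean
section


/-!
# S55 / G / REC, leaf (A4), `Rep`-level form

For `A : Rep k G` (Mathlib), `χ : G → ZMod n` additive:

* `cupCocycle A χ hχ : A.ρ.invariants →ₗ[k] cocycles₂ A`, `a ↦ cupChar n χ a`;
* `cc A χ hχ : A.ρ.invariants →ₗ[k] H2 A`, the class of `cupChar n χ a`;
* if moreover `χ` is injective and `χ σ = 1` (i.e. `G = ⟨σ⟩` is cyclic of order `n`):
  `cc_surjective`, `cc_eq_zero_iff`, `ker_cc`, and the isomorphism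
  `ccEquiv : A^G / N_G A ≃ₗ[k] H²(G, A)`.
-/

set_option autoImplicit false
set_option linter.unusedSectionVars false
set_option linter.style.haveILetI false

universe u

namespace Fermat.Agent.S55.G.Rec.H379

open groupCohomology Finset

section Rep

variable {k G : Type u} [CommRing k] [Group G]

/-- The `DistribMulAction` of `G` on the underlying module of `A : Rep k G` (a local instance,
only used to talk about `IsCocycle₂` / `IsCoboundary₂`). -/
@[reducible] def repAct (A : Rep.{u} k G) : DistribMulAction G A.V where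
  smul g x := A.ρ g x
  one_smul x := by simp [HSMul.hSMul]
  mul_smul g h x := by simp [HSMul.hSMul]
  smul_zero g := by simp [HSMul.hSMul]
  smul_add g x y := by simp [HSMul.hSMul]

lemma repAct_smul (A : Rep.{u} k G) (g : G) (x : A.V) :
    (letI := repAct A; g • x) = A.ρ g x := rfl

lemma mem_cocycles₂_iff_isCocycle₂ (A : Rep.{u} k G) (f : G × G → A.V) :
    f ∈ cocycles₂ A ↔ (letI := repAct A; IsCocycle₂ f) :=
  mem_cocycles₂_iff f

lemma mem_coboundaries₂_iff_isCoboundary₂ (A : Rep.{u} k G) (f : G × G → A.V) :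
    f ∈ coboundaries₂ A ↔ (letI := repAct A; IsCoboundary₂ f) := by
  letI := repAct A
  constructor
  · rintro ⟨x, rfl⟩
    exact ⟨x, fun g h => rfl⟩
  · rintro ⟨x, hx⟩
    exact ⟨x, funext fun p => hx p.1 p.2⟩

variable (A : Rep.{u} k G) {n : ℕ} [NeZero n] (χ : G → ZMod n)

/-- **(A1)**, `Rep`-level. -/
theorem cupChar_mem_cocycles₂ (hχ : ∀ g h, χ (g * h) = χ g + χ h) {a : A.V}
    (ha : a ∈ A.ρ.invariants) : _root_.Fermat.Agent.S55.G.Rec.H379.cupChar n χ a ∈ cocycles₂ A := by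
  rw [mem_cocycles₂_iff_isCocycle₂]
  letI := repAct A
  exact isCocycle₂_cupChar hχ (fun g => (Representation.mem_invariants A.ρ a).1 ha g)

/-- `a ↦ cupChar n χ a` as a linear map from the invariants to the 2-cocycles. -/
noncomputable def cupCocycle (hχ : ∀ g h, χ (g * h) = χ g + χ h) : A.ρ.invariants →ₗ[k] cocycles₂ A where
  toFun a := ⟨_root_.Fermat.Agent.S55.G.Rec.H379.cupChar n χ (a : A.V), cupChar_mem_cocycles₂ A χ hχ a.2⟩
  map_add' a b := by
    apply Subtype.ext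
    exact cupChar_add n χ (a : A.V) (b : A.V)
  map_smul' c a := by
    apply Subtype.ext
    funext p
    show _root_.Fermat.Agent.S55.G.Rec.H379.carry n (χ p.1) (χ p.2) • (c • (a : A.V)) = c • (_root_.Fermat.Agent.S55.G.Rec.H379.carry n (χ p.1) (χ p.2) • (a : A.V))
    rw [smul_comm]

@[simp] lemma cupCocycle_apply (hχ : ∀ g h, χ (g * h) = χ g + χ h) (a : A.ρ.invariants)
    (g h : G) : (cupCocycle A χ hχ a : G × G → A.V) (g, h) = _root_.Fermat.Agent.S55.G.Rec.H379.carry n (χ g) (χ h) • (a : A.V) :=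
  rfl

lemma coe_cupCocycle (hχ : ∀ g h, χ (g * h) = χ g + χ h) (a : A.ρ.invariants) :
    ((cupCocycle A χ hχ a : cocycles₂ A) : G × G → A.V) = _root_.Fermat.Agent.S55.G.Rec.H379.cupChar n χ (a : A.V) := rfl

/-- The class `cc a χ ∈ H²(G, A)` of `cupChar n χ a`, as a linear map in `a ∈ A^G`. -/
noncomputable def cc (hχ : ∀ g h, χ (g * h) = χ g + χ h) : A.ρ.invariants →ₗ[k] H2 A :=
  (H2π A).hom ∘ₗ cupCocycle A χ hχ

lemma cc_apply (hχ : ∀ g h, χ (g * h) = χ g + χ h) (a : A.ρ.invariants) :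
    _root_.Fermat.Agent.S55.G.Rec.H379.cc A χ hχ a = H2π A (cupCocycle A χ hχ a) := rfl

variable {A χ}

/-- **(A4), surjectivity**, `Rep`-level: every class in `H²(G, A)` is `cc a χ`. -/
theorem cc_surjective (hχ : ∀ g h, χ (g * h) = χ g + χ h) (hinj : Function.Injective χ)
    {σ : G} (hσ : χ σ = 1) : Function.Surjective (_root_.Fermat.Agent.S55.G.Rec.H379.cc A χ hχ) := by
  intro x
  induction x using H2_induction_on with
  | h f =>
    letI := repAct A
    have hf : IsCocycle₂ (f : G × G → A.V) := (mem_cocycles₂_iff_isCocycle₂ A _).1 f.2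
    obtain ⟨a, ha, hcob⟩ := exists_cupChar_cohomologous hχ hinj hσ hf
    refine ⟨⟨a, (Representation.mem_invariants A.ρ a).2 ha⟩, ?_⟩
    rw [_root_.Fermat.Agent.S55.G.Rec.H379.cc_apply, H2π_eq_iff]
    have := (mem_coboundaries₂_iff_isCoboundary₂ A _).2 hcob
    rw [← neg_sub] at this
    exact (Submodule.neg_mem_iff _).1 this

/-- **(A4), injectivity**, `Rep`-level: `cc a χ = 0` iff `a` is a norm. -/
theorem cc_eq_zero_iff (hχ : ∀ g h, χ (g * h) = χ g + χ h) (hinj : Function.Injective χ)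
    {σ : G} (hσ : χ σ = 1) [Fintype G] (a : A.ρ.invariants) :
    _root_.Fermat.Agent.S55.G.Rec.H379.cc A χ hχ a = 0 ↔ ∃ b : A.V, A.ρ.norm b = (a : A.V) := by
  rw [_root_.Fermat.Agent.S55.G.Rec.H379.cc_apply, H2π_eq_zero_iff, coe_cupCocycle, mem_coboundaries₂_iff_isCoboundary₂]
  letI := repAct A
  rw [isCoboundary₂_cupChar_iff' hχ hinj hσ]
  constructor
  · rintro ⟨b, hb⟩
    refine ⟨b, ?_⟩
    rw [hb, Representation.norm, LinearMap.sum_apply]
    rfl
  · rintro ⟨b, hb⟩
    refine ⟨b, ?_⟩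
    rw [← hb, Representation.norm, LinearMap.sum_apply]
    rfl

/-- In particular (A4): `cc (N_G b) χ = 0`. -/
theorem cc_norm_eq_zero (hχ : ∀ g h, χ (g * h) = χ g + χ h) (hinj : Function.Injective χ)
    {σ : G} (hσ : χ σ = 1) [Fintype G] (a : A.ρ.invariants) (b : A.V)
    (hb : A.ρ.norm b = (a : A.V)) : _root_.Fermat.Agent.S55.G.Rec.H379.cc A χ hχ a = 0 :=
  (_root_.Fermat.Agent.S55.G.Rec.H379.cc_eq_zero_iff hχ hinj hσ a).2 ⟨b, hb⟩

/-- The kernel of `cc` is the submodule of norms. -/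
theorem ker_cc (hχ : ∀ g h, χ (g * h) = χ g + χ h) (hinj : Function.Injective χ)
    {σ : G} (hσ : χ σ = 1) [Fintype G] :
    LinearMap.ker (_root_.Fermat.Agent.S55.G.Rec.H379.cc A χ hχ) = (LinearMap.range A.ρ.norm).comap A.ρ.invariants.subtype := by
  ext a
  rw [LinearMap.mem_ker, _root_.Fermat.Agent.S55.G.Rec.H379.cc_eq_zero_iff hχ hinj hσ, Submodule.mem_comap, LinearMap.mem_range]
  rfl

/-- **(A4)**: `A^G / N_G A ≃ H²(G, A)` for `G` cyclic of order `n`, induced by `a ↦ cc a χ`. -/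
noncomputable def ccEquiv (hχ : ∀ g h, χ (g * h) = χ g + χ h) (hinj : Function.Injective χ)
    {σ : G} (hσ : χ σ = 1) [Fintype G] :
    (A.ρ.invariants ⧸ (LinearMap.range A.ρ.norm).comap A.ρ.invariants.subtype) ≃ₗ[k] H2 A :=
  (Submodule.quotEquivOfEq _ _ (ker_cc hχ hinj hσ).symm).trans
    ((_root_.Fermat.Agent.S55.G.Rec.H379.cc A χ hχ).quotKerEquivOfSurjective (_root_.Fermat.Agent.S55.G.Rec.H379.cc_surjective hχ hinj hσ))

@[simp] lemma ccEquiv_mk (hχ : ∀ g h, χ (g * h) = χ g + χ h) (hinj : Function.Injective χ)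
    {σ : G} (hσ : χ σ = 1) [Fintype G] (a : A.ρ.invariants) :
    _root_.Fermat.Agent.S55.G.Rec.H379.ccEquiv hχ hinj hσ (Submodule.Quotient.mk a) = _root_.Fermat.Agent.S55.G.Rec.H379.cc A χ hχ a := rfl


/-- The norm (for the cyclic quotient `G / ker χ`) of an element fixed by `ker χ` is
`G`-invariant. -/
theorem norm_ker_mem_invariants (hχ : ∀ g h, χ (g * h) = χ g + χ h) {σ : G} (hσ : χ σ = 1)
    {b : A.V} (hb : ∀ g : G, χ g = 0 → A.ρ g b = b) :
    (∑ k ∈ range n, A.ρ (σ ^ k) b) ∈ A.ρ.invariants := by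
  rw [Representation.mem_invariants]
  letI := repAct A
  exact fun g => smul_norm_eq_of_ker hχ hσ hb g

/-- **(A4) + inflation**, `Rep`-level (no injectivity of `χ` needed): if `a` is the norm, for the
cyclic quotient `G / ker χ = ⟨σ̄⟩`, of an element `b` fixed by `ker χ`, then `cc a χ = 0`. -/
theorem cc_eq_zero_of_norm_ker (hχ : ∀ g h, χ (g * h) = χ g + χ h) {σ : G} (hσ : χ σ = 1)
    {b : A.V} (hb : ∀ g : G, χ g = 0 → A.ρ g b = b) (a : A.ρ.invariants)
    (ha : (a : A.V) = ∑ k ∈ range n, A.ρ (σ ^ k) b) : _root_.Fermat.Agent.S55.G.Rec.H379.cc A χ hχ a = 0 := by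
  rw [_root_.Fermat.Agent.S55.G.Rec.H379.cc_apply, H2π_eq_zero_iff, coe_cupCocycle, mem_coboundaries₂_iff_isCoboundary₂, ha]
  letI := repAct A
  exact isCoboundary₂_cupChar_of_norm hχ hσ hb

end Rep

end Fermat.Agent.S55.G.Rec.H379

end
-- ===== PACK-END S55/G/Rec/H379Rep.lean

-- ===== PACK-BEGIN S55/L/SpecInv.lean
section


/-!
# S55, layer L (local class field theory): frozen interface, part 2

Unramified extensions, Frobenius, the invariant maps and their compatibilities (stated on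
cocycles, so that no identification of `Rep`-objects is needed), local existence modulo `p`.
-/

set_option autoImplicit false

namespace Fermat.Agent.S55.L

open groupCohomology

/-! ### Uniformizers, unramified extensions, Frobenius -/

/-- `π` is a uniformizer of the valuation subring `A`. -/
def IsUniformizer {K : Type} [Field K] (A : ValuationSubring K) (π : K) : Prop :=
  ∃ h : π ∈ A, Irreducible (⟨π, h⟩ : A)

/-- `L/K` is an unramified extension of local fields: a uniformizer of `K` stays a uniformizer. -/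
def IsUnramifiedExt (K L : Type) [Field K] [Field L] [Algebra K L] : Prop :=
  ∃ (A : ValuationSubring K) (B : ValuationSubring L) (π : K),
    IsLocalRingOfIntegers A ∧ IsLocalRingOfIntegers B ∧
      IsUniformizer A π ∧ IsUniformizer B (algebraMap K L π)

/-- `φ ∈ Gal(L/K)` is a Frobenius element: `φ x ≡ x ^ |k_K|` modulo the maximal ideal of the
ring of integers of `L`. -/
def IsFrobeniusElt (K L : Type) [Field K] [Field L] [Algebra K L] (φ : L ≃ₐ[K] L) : Prop :=
  ∃ (A : ValuationSubring K) (B : ValuationSubring L),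
    IsLocalRingOfIntegers A ∧ IsLocalRingOfIntegers B ∧
      ∀ x ∈ B, φ x - x ^ Nat.card (IsLocalRing.ResidueField A) ∈ B.nonunits

/-- **L-A2a** existence of the unramified extension of each degree. -/
def UnramifiedExistsSpec : Prop :=
  ∀ (K : Type) [Field K] [IsLocalFld K] (n : ℕ), 0 < n →
    ∃ (L : Type) (_ : Field L) (_ : Algebra K L), FiniteDimensional K L ∧
      IsUnramifiedExt K L ∧ Module.finrank K L = n

/-- **L-A2b** an unramified extension is Galois and cyclic, generated by a Frobenius element. -/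
def UnramifiedCyclicSpec : Prop :=
  ∀ (K L : Type) [Field K] [Field L] [Algebra K L] [FiniteDimensional K L] [IsLocalFld K],
    IsUnramifiedExt K L →
      IsGalois K L ∧ ∃ φ : L ≃ₐ[K] L, IsFrobeniusElt K L φ ∧ ∀ g : L ≃ₐ[K] L, g ∈ Subgroup.zpowers φ

/-- **L-A2c** inside a finite extension `M/K`, two unramified subextensions of the same degree
coincide (as intermediate fields). -/
def UnramifiedUniqueSpec : Prop :=
  ∀ (K M : Type) [Field K] [Field M] [Algebra K M] [FiniteDimensional K M] [IsLocalFld K]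
    (E E' : IntermediateField K M), IsUnramifiedExt K E → IsUnramifiedExt K E' →
      Module.finrank K E = Module.finrank K E' → E = E'

/-- **L-B1** in an unramified extension every unit of `K` is the norm of a unit of `L`. -/
def UnramifiedNormUnitsSpec : Prop :=
  ∀ (K L : Type) [Field K] [Field L] [Algebra K L] [FiniteDimensional K L] [IsLocalFld K],
    IsUnramifiedExt K L →
    ∀ (A : ValuationSubring K) (B : ValuationSubring L),
      IsLocalRingOfIntegers A → IsLocalRingOfIntegers B →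
        ∀ u : Kˣ, u ∈ A.unitGroup →
          ∃ w : Lˣ, w ∈ B.unitGroup ∧ Algebra.norm K (w : L) = (u : K)

/-! ### Cocycles -/

/-- The class in `H²` of a `2`-cocycle. -/
noncomputable abbrev cls {K L : Type} [Field K] [Field L] [Algebra K L]
    (f : cocycles₂ (unitsRep K L)) : H2 (unitsRep K L) :=
  (H2π (unitsRep K L)).hom f

/-- `f` is the cyclic-algebra cocycle of `(φ, a)`: `f (φ^i, φ^j) = 1` if `i + j < n` and `= a`
otherwise, for `0 ≤ i, j < n = [L : K]`. -/
def IsCyclicCocycle {K L : Type} [Field K] [Field L] [Algebra K L]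
    (φ : L ≃ₐ[K] L) (a : Kˣ) (f : cocycles₂ (unitsRep K L)) : Prop :=
  ∀ i j : ℕ, i < Module.finrank K L → j < Module.finrank K L →
    (f : (L ≃ₐ[K] L) × (L ≃ₐ[K] L) → unitsRep K L) (φ ^ i, φ ^ j) =
      if i + j < Module.finrank K L then 0
      else Additive.ofMul (Units.map (algebraMap K L : K →* L) a)

/-- `f'` (on `Gal(L'/K)`) is the inflation of `f` (on `Gal(L/K)`), for a tower `K ⊆ L ⊆ L'` with
`L/K` normal. -/
def IsInflation {K L L' : Type} [Field K] [Field L] [Field L'] [Algebra K L] [Algebra K L']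
    [Algebra L L'] [IsScalarTower K L L'] [Normal K L]
    (f : cocycles₂ (unitsRep K L)) (f' : cocycles₂ (unitsRep K L')) : Prop :=
  ∀ g h : L' ≃ₐ[K] L',
    (f' : (L' ≃ₐ[K] L') × (L' ≃ₐ[K] L') → unitsRep K L') (g, h) =
      Additive.ofMul (Units.map (algebraMap L L' : L →* L')
        (Additive.toMul ((f : (L ≃ₐ[K] L) × (L ≃ₐ[K] L) → unitsRep K L)
          (AlgEquiv.restrictNormalHom L g, AlgEquiv.restrictNormalHom L h))))

/-- `f'` (on `Gal(L/K')`) is the restriction of `f` (on `Gal(L/K)`), for a tower `K ⊆ K' ⊆ L`. -/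
def IsRestriction {K K' L : Type} [Field K] [Field K'] [Field L] [Algebra K K'] [Algebra K L]
    [Algebra K' L] [IsScalarTower K K' L]
    (f : cocycles₂ (unitsRep K L)) (f' : cocycles₂ (unitsRep K' L)) : Prop :=
  ∀ g h : L ≃ₐ[K'] L,
    (f' : (L ≃ₐ[K'] L) × (L ≃ₐ[K'] L) → unitsRep K' L) (g, h) =
      (f : (L ≃ₐ[K] L) × (L ≃ₐ[K] L) → unitsRep K L)
        (g.restrictScalars K, h.restrictScalars K)

/-- `f'` is the transport of `f` along compatible field isomorphisms `K ≃ K'`, `L ≃ L'`. -/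
def IsTransport {K L K' L' : Type} [Field K] [Field L] [Algebra K L] [Field K'] [Field L']
    [Algebra K' L'] (e : L ≃+* L') (c : (L ≃ₐ[K] L) ≃* (L' ≃ₐ[K'] L'))
    (f : cocycles₂ (unitsRep K L)) (f' : cocycles₂ (unitsRep K' L')) : Prop :=
  ∀ g h : L ≃ₐ[K] L,
    (f' : (L' ≃ₐ[K'] L') × (L' ≃ₐ[K'] L') → unitsRep K' L') (c g, c h) =
      Additive.ofMul (Units.map (e : L →* L')
        (Additive.toMul ((f : (L ≃ₐ[K] L) × (L ≃ₐ[K] L) → unitsRep K L) (g, h))))

/-! ### The invariant maps -/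

/-- A compatible family of local invariant maps `inv_{L/K} : H²(Gal(L/K), Lˣ) → ℚ/ℤ`. -/
structure InvFamily where
  /-- the invariant map -/
  inv : ∀ (K L : Type) [Field K] [Field L] [Algebra K L] [FiniteDimensional K L] [IsGalois K L]
    [IsLocalFld K], H2 (unitsRep K L) →+ AddCircle (1 : ℚ)
  inv_injective : ∀ (K L : Type) [Field K] [Field L] [Algebra K L] [FiniteDimensional K L]
    [IsGalois K L] [IsLocalFld K], Function.Injective (inv K L)
  inv_inflation : ∀ (K L L' : Type) [Field K] [Field L] [Field L'] [Algebra K L] [Algebra K L']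
    [Algebra L L'] [IsScalarTower K L L'] [FiniteDimensional K L] [FiniteDimensional K L']
    [IsGalois K L] [IsGalois K L'] [IsLocalFld K]
    (f : cocycles₂ (unitsRep K L)) (f' : cocycles₂ (unitsRep K L')),
    IsInflation f f' → inv K L' (cls f') = inv K L (cls f)
  inv_restriction : ∀ (K K' L : Type) [Field K] [Field K'] [Field L] [Algebra K K'] [Algebra K L]
    [Algebra K' L] [IsScalarTower K K' L] [FiniteDimensional K L] [FiniteDimensional K' L]
    [IsGalois K L] [IsGalois K' L] [IsLocalFld K] [IsLocalFld K']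
    (f : cocycles₂ (unitsRep K L)) (f' : cocycles₂ (unitsRep K' L)),
    IsRestriction f f' → inv K' L (cls f') = Module.finrank K K' • inv K L (cls f)
  inv_transport : ∀ (K L K' L' : Type) [Field K] [Field L] [Algebra K L] [Field K'] [Field L']
    [Algebra K' L'] [FiniteDimensional K L] [FiniteDimensional K' L'] [IsGalois K L]
    [IsGalois K' L'] [IsLocalFld K] [IsLocalFld K']
    (e : L ≃+* L') (c : (L ≃ₐ[K] L) ≃* (L' ≃ₐ[K'] L'))
    (_ : ∀ (g : L ≃ₐ[K] L) (x : L), c g (e x) = e (g x))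
    (f : cocycles₂ (unitsRep K L)) (f' : cocycles₂ (unitsRep K' L')),
    IsTransport e c f f' → inv K' L' (cls f') = inv K L (cls f)
  inv_unramified : ∀ (K L : Type) [Field K] [Field L] [Algebra K L] [FiniteDimensional K L]
    [IsGalois K L] [IsLocalFld K], IsUnramifiedExt K L →
    ∀ (A : ValuationSubring K), IsLocalRingOfIntegers A →
    ∀ (φ : L ≃ₐ[K] L), IsFrobeniusElt K L φ →
    ∀ (π : Kˣ), IsUniformizer A (π : K) →
    ∀ (f : cocycles₂ (unitsRep K L)), IsCyclicCocycle φ π f →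
      inv K L (cls f) = (((Module.finrank K L : ℚ)⁻¹ : ℚ) : AddCircle (1 : ℚ))

/-- **L-C2** existence of the invariant maps. -/
def InvSpec : Prop := Nonempty InvFamily

/-! ### Existence theorem modulo `p` -/

/-- **L-D2** local existence theorem modulo `n`: every local field `K` has a finite Galois
extension `L` whose norm group is contained in `(Kˣ)ⁿ`. -/
def ExistenceModSpec : Prop :=
  ∀ (K : Type) [Field K] [IsLocalFld K] (n : ℕ), 0 < n →
    ∃ (L : Type) (_ : Field L) (_ : Algebra K L), FiniteDimensional K L ∧ IsGalois K L ∧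
      ∀ x : L, x ≠ 0 → ∃ y : K, Algebra.norm K x = y ^ n

end Fermat.Agent.S55.L

end
-- ===== PACK-END S55/L/SpecInv.lean

-- ===== PACK-BEGIN S55/H413/WRGlobal.lean
section


/-!
# S55, leaf WR (weak reciprocity), part 2: the elementary product formula

For a prime `p` and `m : ℕ` we define explicit local characters with values in `(ZMod (p ^ m))ˣ`
(the Galois group of `ℚ(ζ_{p^m})/ℚ`):
* `tameChar p m ℓ : ℚ_[ℓ]ˣ →* (ZMod (p ^ m))ˣ`, `x ↦ ℓ ^ v_ℓ(x)` for `ℓ ≠ p`,
* `wildChar p m : ℚ_[p]ˣ →* (ZMod (p ^ m))ˣ`, `x ↦ (unit part of x mod p ^ m)⁻¹`,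
* `signChar p m : ℚˣ →* (ZMod (p ^ m))ˣ`, the sign,
and prove the product formula `signChar b * wildChar b * ∏ᶠ ℓ ≠ p, tameChar ℓ b = 1` for `b : ℚˣ`.
-/

set_option autoImplicit false

namespace Fermat.Agent.S55.H413

open Padic

/-- Two homomorphisms on `ℚˣ` which agree on `-1` and on all primes are equal. -/
theorem ratUnits_hom_ext {G : Type*} [CommGroup G] (f g : ℚˣ →* G)
    (hneg : f (-1) = g (-1))
    (hprime : ∀ q : ℕ, q.Prime → ∀ u : ℚˣ, (u : ℚ) = q → f u = g u) : f = g := by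
  have hnat : ∀ n : ℕ, n ≠ 0 → ∀ u : ℚˣ, (u : ℚ) = n → f u = g u := by
    intro n
    induction n using Nat.recOnMul with
    | zero => intro h; exact absurd rfl h
    | one =>
      intro _ u hu
      have : u = 1 := Units.ext (by simpa using hu)
      rw [this, map_one, map_one]
    | prime q hq => intro _ u hu; exact hprime q hq u hu
    | mul a b iha ihb =>
      intro hab u hu
      have ha : a ≠ 0 := fun h => hab (by simp [h])
      have hb : b ≠ 0 := fun h => hab (by simp [h])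
      have hu' : u = Units.mk0 (a : ℚ) (by exact_mod_cast ha) *
          Units.mk0 (b : ℚ) (by exact_mod_cast hb) := by
        apply Units.ext
        simp [hu]
      rw [hu', map_mul, map_mul, iha ha _ rfl, ihb hb _ rfl]
  have hint : ∀ z : ℤ, z ≠ 0 → ∀ u : ℚˣ, (u : ℚ) = z → f u = g u := by
    intro z hz u hu
    have hn : z.natAbs ≠ 0 := Int.natAbs_ne_zero.mpr hz
    rcases Int.natAbs_eq z with h | h
    · apply hnat z.natAbs hn u
      rw [hu]
      conv_lhs => rw [h]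
      simp
    · have hu' : u = -1 * Units.mk0 (z.natAbs : ℚ) (by exact_mod_cast hn) := by
        apply Units.ext
        rw [hu]
        conv_lhs => rw [h]
        simp
      rw [hu', map_mul, map_mul, hneg, hnat z.natAbs hn _ rfl]
  ext b
  have hnum : (b : ℚ).num ≠ 0 := Rat.num_ne_zero.mpr b.ne_zero
  have hden : ((b : ℚ).den : ℤ) ≠ 0 := by exact_mod_cast (b : ℚ).den_nz
  have hb : b = Units.mk0 ((b : ℚ).num : ℚ) (by exact_mod_cast hnum) *
      (Units.mk0 (((b : ℚ).den : ℤ) : ℚ) (by exact_mod_cast hden))⁻¹ := by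
    apply Units.ext
    simp only [Units.val_mul, Units.val_mk0, Units.val_inv_eq_inv_val, Int.cast_natCast]
    rw [← div_eq_mul_inv, Rat.num_div_den]
  rw [hb, map_mul, map_mul, map_inv, map_inv, hint _ hnum _ rfl, hint _ hden _ rfl]

variable (p : ℕ) [hp : Fact p.Prime] (m : ℕ)

/-- A prime `ℓ ≠ p` as a unit of `ZMod (p ^ m)`. -/
noncomputable def primeUnit (ℓ : ℕ) [hℓ : Fact ℓ.Prime] (h : ℓ ≠ p) : (ZMod (p ^ m))ˣ :=
  ZMod.unitOfCoprime ℓ (Nat.Coprime.pow_right m ((Nat.coprime_primes hℓ.out hp.out).mpr h))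

@[simp] lemma coe_primeUnit (ℓ : ℕ) [hℓ : Fact ℓ.Prime] (h : ℓ ≠ p) :
    ((primeUnit p m ℓ h : (ZMod (p ^ m))ˣ) : ZMod (p ^ m)) = (ℓ : ZMod (p ^ m)) := rfl

/-- The explicit (tame) local character at `ℓ ≠ p`: `x ↦ ℓ ^ v_ℓ(x)`. -/
noncomputable def tameChar (ℓ : ℕ) [hℓ : Fact ℓ.Prime] (h : ℓ ≠ p) : ℚ_[ℓ]ˣ →* (ZMod (p ^ m))ˣ :=
  (zpowersHom (ZMod (p ^ m))ˣ (primeUnit p m ℓ h)).comp (valHom ℓ)

lemma tameChar_apply (ℓ : ℕ) [hℓ : Fact ℓ.Prime] (h : ℓ ≠ p) (x : ℚ_[ℓ]ˣ) :
    tameChar p m ℓ h x = primeUnit p m ℓ h ^ (x : ℚ_[ℓ]).valuation := rfl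

/-- The explicit (wild) local character at `p`: `x ↦ (unit part of x mod p ^ m)⁻¹`. -/
noncomputable def wildChar : ℚ_[p]ˣ →* (ZMod (p ^ m))ˣ :=
  (unitResidue p m).comp (MonoidHom.id _) |>.comp (invMonoidHom (α := ℚ_[p]ˣ))

lemma wildChar_apply (x : ℚ_[p]ˣ) : wildChar p m x = (unitResidue p m x)⁻¹ := by
  simp [wildChar]

/-- The sign of a nonzero rational, with values in `(ZMod (p ^ m))ˣ`. -/
noncomputable def signChar : ℚˣ →* (ZMod (p ^ m))ˣ where
  toFun b := if 0 < (b : ℚ) then 1 else -1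
  map_one' := by simp
  map_mul' a b := by
    rcases lt_or_gt_of_ne a.ne_zero with ha | ha <;> rcases lt_or_gt_of_ne b.ne_zero with hb | hb
    · simp [mul_pos_of_neg_of_neg ha hb, not_lt.mpr ha.le, not_lt.mpr hb.le]
    · simp [not_lt.mpr (mul_neg_of_neg_of_pos ha hb).le, not_lt.mpr ha.le, hb]
    · simp [not_lt.mpr (mul_neg_of_pos_of_neg ha hb).le, not_lt.mpr hb.le, ha]
    · simp [mul_pos ha hb, ha, hb]

omit hp in
lemma signChar_of_pos (b : ℚˣ) (hb : 0 < (b : ℚ)) : signChar p m b = 1 := by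
  simp [signChar, hb]

omit hp in
lemma signChar_neg_one : signChar p m (-1) = -1 := by
  simp [signChar]

/-- The image of a nonzero rational in `ℚ_[ℓ]ˣ`. -/
noncomputable def toPadicUnits (ℓ : ℕ) [Fact ℓ.Prime] : ℚˣ →* ℚ_[ℓ]ˣ :=
  Units.map (Rat.castHom ℚ_[ℓ]).toMonoidHom

@[simp] lemma coe_toPadicUnits (ℓ : ℕ) [Fact ℓ.Prime] (b : ℚˣ) :
    ((toPadicUnits ℓ b : ℚ_[ℓ]ˣ) : ℚ_[ℓ]) = ((b : ℚ) : ℚ_[ℓ]) := rfl

/-- The tame character at the prime `q` evaluated on a global element (and `1` if `q = p`). -/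
noncomputable def tameGlobal (q : Nat.Primes) (b : ℚˣ) : (ZMod (p ^ m))ˣ :=
  haveI : Fact (q : ℕ).Prime := ⟨q.2⟩
  if h : (q : ℕ) = p then 1 else tameChar p m (q : ℕ) h (toPadicUnits (q : ℕ) b)

lemma tameGlobal_of_ne (q : Nat.Primes) (h : (q : ℕ) ≠ p) (b : ℚˣ) :
    tameGlobal p m q b =
      (haveI : Fact (q : ℕ).Prime := ⟨q.2⟩; primeUnit p m (q : ℕ) h) ^ padicValRat (q : ℕ) (b : ℚ) := by
  have : Fact (q : ℕ).Prime := ⟨q.2⟩
  rw [tameGlobal, dif_neg h, tameChar_apply, coe_toPadicUnits, Padic.valuation_ratCast]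

lemma tameGlobal_of_eq (q : Nat.Primes) (h : (q : ℕ) = p) (b : ℚˣ) :
    tameGlobal p m q b = 1 := by
  rw [tameGlobal, dif_pos h]

lemma tameGlobal_mul (q : Nat.Primes) (a b : ℚˣ) :
    tameGlobal p m q (a * b) = tameGlobal p m q a * tameGlobal p m q b := by
  have : Fact (q : ℕ).Prime := ⟨q.2⟩
  by_cases h : (q : ℕ) = p
  · simp [tameGlobal, h]
  · simp [tameGlobal, h, map_mul]

lemma tameGlobal_one (q : Nat.Primes) : tameGlobal p m q 1 = 1 := by
  have : Fact (q : ℕ).Prime := ⟨q.2⟩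
  by_cases h : (q : ℕ) = p
  · simp [tameGlobal, h]
  · simp [tameGlobal, h, map_one]

/-- `tameGlobal q b = 1` unless `q` divides the numerator or the denominator of `b`. -/
lemma tameGlobal_eq_one_of_not_dvd (q : Nat.Primes) (b : ℚˣ)
    (h : ¬ (q : ℕ) ∣ (b : ℚ).num.natAbs * (b : ℚ).den) : tameGlobal p m q b = 1 := by
  have : Fact (q : ℕ).Prime := ⟨q.2⟩
  by_cases hq : (q : ℕ) = p
  · exact tameGlobal_of_eq p m q hq b
  · rw [tameGlobal_of_ne p m q hq]
    have h1 : ¬ (q : ℕ) ∣ (b : ℚ).num.natAbs := fun hh => h (hh.mul_right _)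
    have h2 : ¬ (q : ℕ) ∣ (b : ℚ).den := fun hh => h (hh.mul_left _)
    have : padicValRat (q : ℕ) (b : ℚ) = 0 := by
      rw [padicValRat, padicValInt, padicValNat.eq_zero_of_not_dvd h1,
        padicValNat.eq_zero_of_not_dvd h2]
      simp
    rw [this, zpow_zero]

lemma finite_mulSupport_tameGlobal (b : ℚˣ) :
    (Function.mulSupport fun q : Nat.Primes => tameGlobal p m q b).Finite := by
  have hfin : {n : ℕ | n ∣ (b : ℚ).num.natAbs * (b : ℚ).den}.Finite := by
    apply Set.Finite.subset (Set.finite_Iic ((b : ℚ).num.natAbs * (b : ℚ).den))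
    intro n hn
    apply Nat.le_of_dvd _ hn
    exact Nat.mul_pos (Int.natAbs_pos.mpr (Rat.num_ne_zero.mpr b.ne_zero)) (b : ℚ).den_pos
  apply Set.Finite.subset (hfin.preimage (Nat.Primes.coe_nat_injective.injOn))
  intro q hq
  by_contra hh
  exact hq (tameGlobal_eq_one_of_not_dvd p m q b hh)

/-- The product of all tame characters, as a homomorphism on `ℚˣ`. -/
noncomputable def tameProd : ℚˣ →* (ZMod (p ^ m))ˣ where
  toFun b := ∏ᶠ q : Nat.Primes, tameGlobal p m q b
  map_one' := by simp [tameGlobal_one]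
  map_mul' a b := by
    simp only [tameGlobal_mul]
    exact finprod_mul_distrib (finite_mulSupport_tameGlobal p m a)
      (finite_mulSupport_tameGlobal p m b)

lemma tameProd_apply (b : ℚˣ) : tameProd p m b = ∏ᶠ q : Nat.Primes, tameGlobal p m q b := rfl

/-- **Elementary product formula** for the explicit local characters of `ℚ(ζ_{p^m})/ℚ`. -/
theorem signChar_mul_wildChar_mul_tameProd (b : ℚˣ) :
    signChar p m b * wildChar p m (toPadicUnits p b) * tameProd p m b = 1 := by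
  have key : (signChar p m * (wildChar p m).comp (toPadicUnits p) * tameProd p m) = 1 := by
    apply ratUnits_hom_ext
    · -- `-1`
      simp only [MonoidHom.mul_apply, MonoidHom.comp_apply, MonoidHom.one_apply, signChar_neg_one,
        wildChar_apply, tameProd_apply]
      have h1 : unitResidue p m (toPadicUnits p (-1)) = -1 := by
        apply Units.ext
        rw [unitResidue_intCast p m (-1) _ _ (by simp)]
        · simp
        · intro h
          have := Int.natAbs_dvd_natAbs.mpr h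
          simp only [Int.natAbs_natCast, Int.natAbs_neg, Int.natAbs_one, Nat.dvd_one] at this
          exact hp.out.ne_one this
      have h2 : ∀ q : Nat.Primes, tameGlobal p m q (-1) = 1 := by
        intro q
        apply tameGlobal_eq_one_of_not_dvd
        have e1 : ((-1 : ℚˣ) : ℚ).num.natAbs = 1 := by
          rw [Units.val_neg, Units.val_one]; rfl
        have e2 : ((-1 : ℚˣ) : ℚ).den = 1 := by
          rw [Units.val_neg, Units.val_one]; rfl
        rw [e1, e2, mul_one, Nat.dvd_one]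
        exact q.2.ne_one
      simp [h1, h2]
    · intro q hq u hu
      simp only [MonoidHom.mul_apply, MonoidHom.comp_apply, MonoidHom.one_apply, wildChar_apply,
        tameProd_apply]
      have hupos : 0 < (u : ℚ) := by rw [hu]; exact_mod_cast hq.pos
      rw [signChar_of_pos p m u hupos, one_mul]
      have hsingle : ∀ q' : Nat.Primes, (q' : ℕ) ≠ q → tameGlobal p m q' u = 1 := by
        intro q' hq'
        apply tameGlobal_eq_one_of_not_dvd
        rw [hu]
        simp only [Rat.num_natCast, Int.natAbs_natCast, Rat.den_natCast, mul_one]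
        intro hdvd
        exact hq' ((Nat.prime_dvd_prime_iff_eq q'.2 hq).mp hdvd)
      by_cases hqp : q = p
      · -- `q = p`: unit part is `1`, all tame characters are trivial
        have h1 : unitResidue p m (toPadicUnits p u) = 1 := by
          rw [unitResidue, MonoidHom.comp_apply, unitPart_self p _ (by simp [hu, hqp]), map_one]
        have h2 : ∀ q' : Nat.Primes, tameGlobal p m q' u = 1 := by
          intro q'
          by_cases h : (q' : ℕ) = p
          · exact tameGlobal_of_eq p m q' h u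
          · exact hsingle q' (by rw [hqp]; exact h)
        simp [h1, h2]
      · -- `q ≠ p`
        have : Fact q.Prime := ⟨hq⟩
        have h1 : unitResidue p m (toPadicUnits p u) = primeUnit p m q hqp := by
          apply Units.ext
          rw [unitResidue_intCast p m (q : ℤ) _ _ (by simp [hu])]
          · simp
          · intro h
            have h' : p ∣ q := by exact_mod_cast h
            exact hqp ((Nat.prime_dvd_prime_iff_eq hp.out hq).mp h').symm
        have h2 : (∏ᶠ q' : Nat.Primes, tameGlobal p m q' u) = primeUnit p m q hqp := by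
          rw [finprod_eq_single (fun q' : Nat.Primes => tameGlobal p m q' u) (⟨q, hq⟩ : Nat.Primes)
            (fun q' hq' => hsingle q' (fun h => hq' (Subtype.ext h)))]
          rw [tameGlobal_of_ne p m ⟨q, hq⟩ hqp, hu]
          have : padicValRat q (q : ℚ) = 1 := by
            have := padicValRat.self (p := q) hq.one_lt
            simpa using this
          simp [this]
        rw [h1, h2, inv_mul_cancel]
  have := congrArg (fun f : ℚˣ →* (ZMod (p ^ m))ˣ => f b) key
  simpa using this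

end Fermat.Agent.S55.H413

end
-- ===== PACK-END S55/H413/WRGlobal.lean

-- ===== PACK-BEGIN S55/H713/Lattice.lean
section


/-!
# Units of a complete local ring: an exact open subgroup from a good lattice

`O` is an adically complete local domain with an action of a finite group `G` by ring
automorphisms.  A *good lattice* `(σ, π, M)` is an additive subgroup `M ⊆ 𝔪` stable under `G`
and `π`, open, with `M * M ⊆ π M`, such that `σ - 1` and the trace are exact on `M / π M`.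
Then on `W 0 = 1 + M ≤ Oˣ` the maps `u ↦ σ u / u` and the norm are exact.
-/

set_option autoImplicit false
set_option linter.unusedSectionVars false

open IsLocalRing

namespace Fermat.Agent.S55.H713

variable {O : Type*} [CommRing O]

section Basic

/-- `π ^ k * M`. -/
def lat (π : O) (M : AddSubgroup O) (k : ℕ) : AddSubgroup O :=
  M.map (AddMonoidHom.mulLeft (π ^ k))

lemma mem_lat {π : O} {M : AddSubgroup O} {k : ℕ} {x : O} :
    x ∈ lat π M k ↔ ∃ a ∈ M, π ^ k * a = x := by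
  simp [lat, AddSubgroup.mem_map]

lemma lat_zero (π : O) (M : AddSubgroup O) : lat π M 0 = M := by
  ext x; simp [mem_lat]

end Basic

variable [IsDomain O] [IsLocalRing O]
variable {G : Type*} [Group G] [Fintype G] [MulSemiringAction G O]

/-- A good lattice. -/
structure IsGoodLattice (σ : G) (π : O) (M : AddSubgroup O) : Prop where
  pi_fixed : ∀ g : G, g • π = π
  pi_mem : π ∈ maximalIdeal O
  pi_ne : π ≠ 0
  smul_mem : ∀ g : G, ∀ a ∈ M, g • a ∈ M
  pi_mul_mem : ∀ a ∈ M, π * a ∈ M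
  mul_mem : ∀ a ∈ M, ∀ b ∈ M, ∃ c ∈ M, a * b = π * c
  isOpen : ∀ k, ∃ j, ∀ x ∈ maximalIdeal O ^ j, x ∈ lat π M k
  le_max : ∀ a ∈ M, a ∈ maximalIdeal O
  ex1 : ∀ a ∈ M, σ • a - a ∈ lat π M 1 → ∃ b ∈ M, a - ∑ g : G, g • b ∈ lat π M 1
  ex2 : ∀ a ∈ M, ∑ g : G, g • a ∈ lat π M 1 → ∃ b ∈ M, a - (σ • b - b) ∈ lat π M 1

namespace IsGoodLattice

variable {σ : G} {π : O} {M : AddSubgroup O} (h : IsGoodLattice σ π M)
include h

lemma lat_succ_le (k : ℕ) : lat π M (k + 1) ≤ lat π M k := by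
  intro x hx
  obtain ⟨a, ha, rfl⟩ := mem_lat.1 hx
  exact mem_lat.2 ⟨π * a, h.pi_mul_mem a ha, by ring⟩

lemma lat_antitone : Antitone (lat π M) :=
  antitone_nat_of_succ_le h.lat_succ_le

lemma lat_le_M (k : ℕ) : lat π M k ≤ M := by
  have := h.lat_antitone (Nat.zero_le k)
  rwa [lat_zero] at this

lemma lat_mul_lat {i j : ℕ} {x y : O} (hx : x ∈ lat π M i) (hy : y ∈ lat π M j) :
    x * y ∈ lat π M (i + j + 1) := by
  obtain ⟨a, ha, rfl⟩ := mem_lat.1 hx
  obtain ⟨b, hb, rfl⟩ := mem_lat.1 hy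
  obtain ⟨c, hc, hab⟩ := h.mul_mem a ha b hb
  refine mem_lat.2 ⟨c, hc, ?_⟩
  calc π ^ (i + j + 1) * c = π ^ i * π ^ j * (π * c) := by ring
    _ = π ^ i * a * (π ^ j * b) := by rw [← hab]; ring

lemma lat_mul_lat_left {i j : ℕ} {x y : O} (hx : x ∈ lat π M i) (hy : y ∈ lat π M j) :
    x * y ∈ lat π M i :=
  h.lat_antitone (by omega) (h.lat_mul_lat hx hy)

lemma lat_mul_lat_right {i j : ℕ} {x y : O} (hx : x ∈ lat π M i) (hy : y ∈ lat π M j) :
    x * y ∈ lat π M j :=
  h.lat_antitone (by omega) (h.lat_mul_lat hx hy)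

/-- `lat k * lat k ⊆ lat (k+1)`. -/
lemma lat_mul_self {k : ℕ} {x y : O} (hx : x ∈ lat π M k) (hy : y ∈ lat π M k) :
    x * y ∈ lat π M (k + 1) :=
  h.lat_antitone (by omega) (h.lat_mul_lat hx hy)

lemma lat_le_pow (k : ℕ) : ∀ x ∈ lat π M k, x ∈ maximalIdeal O ^ k := by
  intro x hx
  obtain ⟨a, -, rfl⟩ := mem_lat.1 hx
  exact Ideal.mul_mem_right _ _ (Ideal.pow_mem_pow h.pi_mem k)

lemma lat_le_max (k : ℕ) : ∀ x ∈ lat π M k, x ∈ maximalIdeal O :=
  fun x hx => h.le_max x (h.lat_le_M k hx)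

lemma smul_mem_lat (g : G) {k : ℕ} {x : O} (hx : x ∈ lat π M k) : g • x ∈ lat π M k := by
  obtain ⟨a, ha, rfl⟩ := mem_lat.1 hx
  refine mem_lat.2 ⟨g • a, h.smul_mem g a ha, ?_⟩
  rw [smul_mul', smul_pow', h.pi_fixed]

lemma cancel_pow {k j : ℕ} {x : O} (hx : π ^ k * x ∈ lat π M (k + j)) : x ∈ lat π M j := by
  obtain ⟨a, ha, hax⟩ := mem_lat.1 hx
  refine mem_lat.2 ⟨a, ha, ?_⟩
  have hk : π ^ k ≠ 0 := pow_ne_zero _ h.pi_ne
  apply mul_left_cancel₀ hk
  rw [← hax]; ring

/-- Multiplying by an element of `1 + M` preserves `lat k`. -/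
lemma lat_mul_one_add {k : ℕ} {x y : O} (hx : x ∈ lat π M k) (hy : y - 1 ∈ M) :
    x * y ∈ lat π M k := by
  have : x * y = x + x * (y - 1) := by ring
  rw [this]
  have hy' : y - 1 ∈ lat π M 0 := by rwa [lat_zero]
  exact (lat π M k).add_mem hx (h.lat_mul_lat_left hx hy')

end IsGoodLattice

end Fermat.Agent.S55.H713

end
-- ===== PACK-END S55/H713/Lattice.lean

-- ===== PACK-BEGIN S55/G/Rec/NormExtractH844.lean
section



/-!
# S55 / G / REC, leaf K5 (helper844): norm extraction from a trivialised cup cocycle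

Abstract (Mathlib-only + `H379.carry`) statement.  Let `G` act on a commutative group `M`, let
`χ : G →* ℤ/n` be a character (not necessarily surjective), `a ∈ M^G`, and let `X : G → M` be a
1-cochain with

  `g • X h * X g = X (g * h) * a ^ carry n (χ g) (χ h)`      (i.e. `d X = a ∪ δχ`)

which is trivial on `ker χ`.  Then `a` is the norm of an element `b` fixed by `ker χ`:
`a = ∏_{t ∈ G / ker χ} t • b`.
-/

set_option autoImplicit false
set_option linter.unusedSectionVars false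
set_option linter.style.haveILetI false

namespace Fermat.Agent.S55.G.Rec.H844

open Fermat.Agent.S55.G.Rec.H379

section NormExtract

variable {G M : Type*} [Group G] [CommGroup M] [MulDistribMulAction G M]
variable {n : ℕ} [NeZero n] (χ : G →* Multiplicative (ZMod n))

/-- the value of `χ` as a natural number `< n`. -/
def chiVal844 (g : G) : ℕ := (Multiplicative.toAdd (χ g)).val

lemma chiVal844_lt (g : G) : chiVal844 χ g < n := ZMod.val_lt _

lemma chiVal844_mul (g h : G) : chiVal844 χ (g * h) = (chiVal844 χ g + chiVal844 χ h) % n := by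
  unfold chiVal844
  rw [map_mul, toAdd_mul, ZMod.val_add]

lemma chiVal844_eq_zero_iff (g : G) : chiVal844 χ g = 0 ↔ g ∈ χ.ker := by
  unfold chiVal844
  rw [ZMod.val_eq_zero, MonoidHom.mem_ker]
  constructor
  · intro h
    exact Multiplicative.toAdd.injective h
  · intro h
    rw [h]; rfl

lemma chiVal844_congr {g h : G} (hgh : g⁻¹ * h ∈ χ.ker) : chiVal844 χ g = chiVal844 χ h := by
  unfold chiVal844
  rw [MonoidHom.mem_ker, map_mul, map_inv, inv_mul_eq_one] at hgh
  rw [hgh]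

variable {χ}

/-- Fact A: `X` is constant on the cosets `g * ker χ`. -/
lemma X_mul_ker844 {a : M} {X : G → M}
    (hR : ∀ g h, g • X h * X g =
      X (g * h) * a ^ _root_.Fermat.Agent.S55.G.Rec.H379.carry n (Multiplicative.toAdd (χ g)) (Multiplicative.toAdd (χ h)))
    (h1 : ∀ h ∈ χ.ker, X h = 1) (g : G) {h : G} (hh : h ∈ χ.ker) : X (g * h) = X g := by
  have := hR g h
  rw [h1 h hh, smul_one, one_mul] at this
  have hc : _root_.Fermat.Agent.S55.G.Rec.H379.carry n (Multiplicative.toAdd (χ g)) (Multiplicative.toAdd (χ h)) = 0 := by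
    rw [MonoidHom.mem_ker] at hh
    rw [hh]
    exact carry_zero_right n _
  rw [hc, pow_zero, mul_one] at this
  exact this.symm

/-- Fact B: the values of `X` are fixed by `ker χ`. -/
lemma ker_smul_X844 {a : M} {X : G → M}
    (hR : ∀ g h, g • X h * X g =
      X (g * h) * a ^ _root_.Fermat.Agent.S55.G.Rec.H379.carry n (Multiplicative.toAdd (χ g)) (Multiplicative.toAdd (χ h)))
    (h1 : ∀ h ∈ χ.ker, X h = 1) (g : G) {h : G} (hh : h ∈ χ.ker) : h • X g = X g := by
  have := hR h g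
  rw [h1 h hh, mul_one] at this
  have hc : _root_.Fermat.Agent.S55.G.Rec.H379.carry n (Multiplicative.toAdd (χ h)) (Multiplicative.toAdd (χ g)) = 0 := by
    rw [MonoidHom.mem_ker] at hh
    rw [hh]
    exact carry_zero_left n _
  rw [hc, pow_zero, mul_one] at this
  rw [this]
  have hconj : g⁻¹ * h * g ∈ χ.ker := by
    have := (inferInstance : χ.ker.Normal).conj_mem h hh g⁻¹
    simpa using this
  have := X_mul_ker844 hR h1 g hconj
  rw [← this]
  congr 1
  group

/-- **Norm extraction.**  If `d X = a ∪ δχ` and `X` is trivial on `ker χ`, then `a` is the norm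
from the fixed points of `ker χ` of an element `b` (namely `b = X σ`, where `χ σ` is the minimal
positive value of `χ`). -/
theorem exists_norm_of_trivialized844 {a : M} (ha : ∀ g : G, g • a = a) {X : G → M}
    (hR : ∀ g h, g • X h * X g =
      X (g * h) * a ^ _root_.Fermat.Agent.S55.G.Rec.H379.carry n (Multiplicative.toAdd (χ g)) (Multiplicative.toAdd (χ h)))
    (h1 : ∀ h ∈ χ.ker, X h = 1) :
    ∃ b : M, (∀ h ∈ χ.ker, h • b = b) ∧
      a = ∏ᶠ t : G ⧸ χ.ker, (Quotient.out t : G) • b := by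
  classical
  haveI : Finite (G ⧸ χ.ker) := Finite.of_injective _ (QuotientGroup.kerLift_injective χ)
  haveI : Fintype (G ⧸ χ.ker) := Fintype.ofFinite _
  by_cases htriv : ∀ g, chiVal844 χ g = 0
  · -- trivial character
    refine ⟨a, fun h _ => ha h, ?_⟩
    rw [finprod_eq_prod_of_fintype]
    have hsub : Subsingleton (G ⧸ χ.ker) := by
      refine ⟨fun s t => ?_⟩
      induction s using QuotientGroup.induction_on with
      | H g =>
        induction t using QuotientGroup.induction_on with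
        | H h =>
          rw [QuotientGroup.eq]
          rw [← chiVal844_eq_zero_iff]
          exact htriv _
    haveI : Unique (G ⧸ χ.ker) := ⟨⟨1⟩, fun t => Subsingleton.elim _ _⟩
    rw [Fintype.prod_unique, ha]
  · push Not at htriv
    obtain ⟨g₀, hg₀⟩ := htriv
    have hex : ∃ m, 0 < m ∧ ∃ g, chiVal844 χ g = m := ⟨_, Nat.pos_of_ne_zero hg₀, g₀, rfl⟩
    obtain ⟨hm0, σ, hσ⟩ := Nat.find_spec hex
    have hmin : ∀ g, chiVal844 χ g ≠ 0 → Nat.find hex ≤ chiVal844 χ g := fun g hg =>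
      Nat.find_min' hex ⟨Nat.pos_of_ne_zero hg, g, rfl⟩
    generalize Nat.find hex = m at hm0 hσ hmin
    have hmn : m < n := hσ ▸ chiVal844_lt χ σ
    -- carry characterisation
    have hcarry : ∀ g, _root_.Fermat.Agent.S55.G.Rec.H379.carry n (Multiplicative.toAdd (χ g)) (Multiplicative.toAdd (χ σ)) =
        if g * σ ∈ χ.ker then 1 else 0 := by
      intro g
      have hv := chiVal844_mul χ g σ
      have hg := chiVal844_lt χ g
      show (chiVal844 χ g + chiVal844 χ σ) / n = _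
      rw [hσ] at hv ⊢
      split_ifs with hk
      · rw [← chiVal844_eq_zero_iff] at hk
        rw [hk] at hv
        obtain ⟨k, hk'⟩ := Nat.dvd_of_mod_eq_zero hv.symm
        rw [hk']
        have hn0 : 0 < n := by omega
        rw [Nat.mul_div_cancel_left _ hn0]
        have h1 : 0 < n * k := by omega
        have h2 : n * k < n * 2 := by omega
        have h3 : 0 < k := Nat.pos_of_mul_pos_left h1
        have h4 : k < 2 := Nat.lt_of_mul_lt_mul_left h2
        omega
      · rw [← chiVal844_eq_zero_iff] at hk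
        have := hmin _ hk
        rw [hv] at this
        rw [Nat.div_eq_zero_iff]
        right
        by_contra hlt
        push Not at hlt
        have h5 : (chiVal844 χ g + m) % n = chiVal844 χ g + m - n := by
          rw [Nat.mod_eq_sub_mod hlt, Nat.mod_eq_of_lt (by omega)]
        omega
    refine ⟨X σ, fun h hh => ker_smul_X844 hR h1 σ hh, ?_⟩
    rw [finprod_eq_prod_of_fintype]
    have hprod : (∏ t : G ⧸ χ.ker, ((Quotient.out t : G) • X σ)) *
        ∏ t : G ⧸ χ.ker, X (Quotient.out t) =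
        (∏ t : G ⧸ χ.ker, X (Quotient.out t * σ)) *
          a ^ (∑ t : G ⧸ χ.ker,
            _root_.Fermat.Agent.S55.G.Rec.H379.carry n (Multiplicative.toAdd (χ (Quotient.out t))) (Multiplicative.toAdd (χ σ))) := by
      rw [← Finset.prod_mul_distrib, ← Finset.prod_pow_eq_pow_sum, ← Finset.prod_mul_distrib]
      exact Finset.prod_congr rfl fun t _ => hR _ _
    have hXbar : ∀ g : G, X g = X (Quotient.out (g : G ⧸ χ.ker)) := by
      intro g
      have hmem : g⁻¹ * Quotient.out (g : G ⧸ χ.ker) ∈ χ.ker := by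
        rw [← QuotientGroup.eq, QuotientGroup.out_eq']
      have := X_mul_ker844 hR h1 g hmem
      rw [← this]
      congr 1
      group
    have hreindex : ∏ t : G ⧸ χ.ker, X (Quotient.out t * σ) =
        ∏ t : G ⧸ χ.ker, X (Quotient.out t) := by
      calc ∏ t : G ⧸ χ.ker, X (Quotient.out t * σ)
          = ∏ t : G ⧸ χ.ker, X (Quotient.out (t * (σ : G ⧸ χ.ker))) := by
            refine Finset.prod_congr rfl fun t _ => ?_
            rw [hXbar (Quotient.out t * σ)]
            congr 2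
            rw [QuotientGroup.mk_mul, QuotientGroup.out_eq']
        _ = ∏ t : G ⧸ χ.ker, X (Quotient.out t) :=
            Equiv.prod_comp (Equiv.mulRight (σ : G ⧸ χ.ker)) (fun t => X (Quotient.out t))
    have hsum : ∑ t : G ⧸ χ.ker,
        _root_.Fermat.Agent.S55.G.Rec.H379.carry n (Multiplicative.toAdd (χ (Quotient.out t))) (Multiplicative.toAdd (χ σ)) = 1 := by
      simp_rw [hcarry]
      have hiff : ∀ t : G ⧸ χ.ker, (Quotient.out t * σ ∈ χ.ker) ↔ t = (σ : G ⧸ χ.ker)⁻¹ := by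
        intro t
        rw [← QuotientGroup.eq_one_iff, QuotientGroup.mk_mul, QuotientGroup.out_eq',
          mul_eq_one_iff_eq_inv]
      simp_rw [hiff]
      simp
    rw [hreindex, hsum, pow_one, mul_comm] at hprod
    exact (mul_left_cancel hprod).symm

end NormExtract

end Fermat.Agent.S55.G.Rec.H844

end
-- ===== PACK-END S55/G/Rec/NormExtractH844.lean

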