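import Mathlib
import Fermat.Prelude.Def_GroupCohomology_ContinuousUnramified

-- ===== PACK-BEGIN S55/H963/BrHensel.lean
section


/-!
# S55 / G-SI bridge (helper963): `n`-th roots by contraction in a `P`-adically complete ring

Pure algebra.  `R` a commutative ring, `P : R`.  `PHaus P` : `⋂ Pᵏ R = 0`;
`PPrec P` : every `P`-adic Cauchy sequence has a limit.  Under these hypotheses:

* `exists_fixed_point` : a map `Φ : R → R` with `P (Y - Y') ∣ Φ Y - Φ Y'` has a fixed point;
* `exists_pow_eq` : if `P ^ a = n * t` then every `1 + P ^ (2 a + 2) z` is an `n`-th power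
  (of an element `≡ 1 mod P ^ (a+1)`);
* `exists_mul_eq_one` : `1 + P w` is invertible.
-/

set_option autoImplicit false

namespace Fermat.Agent.S55.H963.Br

variable {R : Type*} [CommRing R]

/-- `P`-adic separation: `⋂ₖ Pᵏ R = 0`. -/
def PHaus (P : R) : Prop := ∀ y : R, (∀ k : ℕ, P ^ k ∣ y) → y = 0

/-- `P`-adic precompleteness: every sequence with `Pᵏ ∣ f (k+1) - f k` has a limit. -/
def PPrec (P : R) : Prop :=
  ∀ f : ℕ → R, (∀ k : ℕ, P ^ k ∣ f (k + 1) - f k) → ∃ L : R, ∀ k : ℕ, P ^ k ∣ L - f k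

theorem exists_fixed_point {P : R} (hH : PHaus P) (hC : PPrec P) (Φ : R → R)
    (hΦ : ∀ Y Y' : R, P * (Y - Y') ∣ Φ Y - Φ Y') : ∃ Y : R, Φ Y = Y := by
  let f : ℕ → R := fun k => Φ^[k] 0
  have hf : ∀ k : ℕ, P ^ k ∣ f (k + 1) - f k := by
    intro k
    induction k with
    | zero => simp
    | succ k ih =>
      have h1 : f (k + 1 + 1) - f (k + 1) = Φ (f (k + 1)) - Φ (f k) := by
        simp only [f, Function.iterate_succ_apply']
      rw [h1]
      refine dvd_trans ?_ (hΦ _ _)
      rw [pow_succ']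
      exact mul_dvd_mul_left P ih
  obtain ⟨L, hL⟩ := hC f hf
  refine ⟨L, ?_⟩
  have key : ∀ k : ℕ, P ^ k ∣ Φ L - L := by
    intro k
    have h1 : P ^ (k + 1) ∣ Φ L - Φ (f k) := by
      refine dvd_trans ?_ (hΦ _ _)
      rw [pow_succ']
      exact mul_dvd_mul_left P (hL k)
    have h2 : P ^ (k + 1) ∣ L - f (k + 1) := hL (k + 1)
    have h3 : Φ L - L = (Φ L - Φ (f k)) - (L - f (k + 1)) := by
      have : f (k + 1) = Φ (f k) := by simp only [f, Function.iterate_succ_apply']
      rw [this]; ring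
    rw [h3]
    exact dvd_trans (pow_dvd_pow P (Nat.le_succ k)) (dvd_sub h1 h2)
  exact sub_eq_zero.mp (hH _ key)

/-- The polynomial `q_n` with `(1 + X) ^ n = 1 + n X + X² q_n(X)`, as a function. -/
def binQ : ℕ → R → R
  | 0, _ => 0
  | (n + 1), X => n + (1 + X) * binQ n X

theorem one_add_pow_eq (n : ℕ) (X : R) :
    (1 + X) ^ n = 1 + n * X + X ^ 2 * binQ n X := by
  induction n with
  | zero => simp [binQ]
  | succ n ih =>
    rw [pow_succ, ih]
    simp only [binQ, Nat.cast_succ]
    ring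

theorem sub_dvd_binQ_sub (n : ℕ) (X X' : R) : X - X' ∣ binQ n X - binQ n X' := by
  induction n with
  | zero => simp [binQ]
  | succ n ih =>
    have : binQ (n + 1) X - binQ (n + 1) X' =
        (1 + X) * (binQ n X - binQ n X') + (X - X') * binQ n X' := by
      simp only [binQ]; ring
    rw [this]
    exact dvd_add (Dvd.dvd.mul_left ih _) (Dvd.intro _ rfl)

/-- **Hensel for `n`-th roots, non-simple root.** -/
theorem exists_pow_eq {P : R} (hH : PHaus P) (hC : PPrec P) (n a : ℕ) (t : R)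
    (ht : P ^ a = n * t) (z : R) :
    ∃ Y : R, (1 + P ^ (a + 1) * Y) ^ n = 1 + P ^ (2 * a + 2) * z := by
  set c : R := P ^ (a + 1) with hc
  let Φ : R → R := fun Y => t * P * (z - Y ^ 2 * binQ n (c * Y))
  have hΦ : ∀ Y Y' : R, P * (Y - Y') ∣ Φ Y - Φ Y' := by
    intro Y Y'
    have h1 : Y - Y' ∣ Y ^ 2 * binQ n (c * Y) - Y' ^ 2 * binQ n (c * Y') := by
      have e : Y ^ 2 * binQ n (c * Y) - Y' ^ 2 * binQ n (c * Y') =
          (Y - Y') * ((Y + Y') * binQ n (c * Y)) +
            Y' ^ 2 * (binQ n (c * Y) - binQ n (c * Y')) := by ring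
      rw [e]
      refine dvd_add (Dvd.intro _ rfl) (Dvd.dvd.mul_left ?_ _)
      refine dvd_trans ?_ (sub_dvd_binQ_sub n (c * Y) (c * Y'))
      exact ⟨c, by ring⟩
    obtain ⟨u, hu⟩ := h1
    refine ⟨-(t * u), ?_⟩
    simp only [Φ]
    linear_combination (-(t * P)) * hu
  obtain ⟨Y, hY⟩ := exists_fixed_point hH hC Φ hΦ
  refine ⟨Y, ?_⟩
  rw [one_add_pow_eq]
  have hcc : c = (n : R) * t * P := by
    rw [hc, pow_succ, ht]
  have hc2 : P ^ (2 * a + 2) = c ^ 2 := by
    rw [hc, ← pow_mul]; congr 1; ring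
  rw [hc2]
  have hY' : Y = t * P * (z - Y ^ 2 * binQ n (c * Y)) := hY.symm
  have : (n : R) * (c * Y) = c ^ 2 * z - (c * Y) ^ 2 * binQ n (c * Y) := by
    calc (n : R) * (c * Y) = c * ((n : R) * Y) := by ring
      _ = c * ((n : R) * (t * P * (z - Y ^ 2 * binQ n (c * Y)))) := by rw [← hY']
      _ = c * (((n : R) * t * P) * (z - Y ^ 2 * binQ n (c * Y))) := by ring
      _ = c * (c * (z - Y ^ 2 * binQ n (c * Y))) := by rw [← hcc]
      _ = c ^ 2 * z - (c * Y) ^ 2 * binQ n (c * Y) := by ring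
  linear_combination this

/-- `1 + P w` is invertible in a `P`-adically complete ring. -/
theorem exists_mul_eq_one {P : R} (hH : PHaus P) (hC : PPrec P) (w : R) :
    ∃ u : R, (1 + P * w) * u = 1 := by
  obtain ⟨u, hu⟩ := exists_fixed_point hH hC (fun u => 1 - P * w * u) (fun Y Y' => by
    refine ⟨-w, ?_⟩
    ring)
  exact ⟨u, by linear_combination -hu⟩

end Fermat.Agent.S55.H963.Br

end
-- ===== PACK-END S55/H963/BrHensel.lean

-- ===== PACK-BEGIN S55/H963/BrFinQuot.lean
section


/-!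
# S55 / G-SI bridge (helper963): bounding a group of finite exponent by its finite quotients

If `A` is an abelian group killed by `n > 0` all of whose finite quotients have at most `d`
elements, then `A` is finite with at most `d` elements.
-/

set_option autoImplicit false

namespace Fermat.Agent.S55.H963.Br

theorem exists_injective_fin_of_not {A : Type*} (d : ℕ) (h : ¬ (Finite A ∧ Nat.card A ≤ d)) :
    ∃ f : Fin (d + 1) → A, Function.Injective f := by
  by_cases hfin : Finite A
  · have hcard : d < Nat.card A := by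
      by_contra hle
      exact h ⟨hfin, not_lt.mp hle⟩
    have _ : Fintype A := Fintype.ofFinite A
    rw [Nat.card_eq_fintype_card] at hcard
    have : Fintype.card (Fin (d + 1)) ≤ Fintype.card A := by
      rw [Fintype.card_fin]; exact hcard
    obtain ⟨e⟩ := Function.Embedding.nonempty_of_card_le this
    exact ⟨e, e.injective⟩
  · rw [not_finite_iff_infinite] at hfin
    exact ⟨fun i => Infinite.natEmbedding A i.1,
      fun i j hij => Fin.ext ((Infinite.natEmbedding A).injective hij)⟩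

theorem finite_and_card_le_of_quotients {A : Type*} [AddCommGroup A] {n : ℕ} (hn : 0 < n)
    (hA : ∀ a : A, n • a = 0) (d : ℕ)
    (h : ∀ B : AddSubgroup A, Finite (A ⧸ B) → Nat.card (A ⧸ B) ≤ d) :
    Finite A ∧ Nat.card A ≤ d := by
  classical
  by_contra hcon
  obtain ⟨f, hf⟩ := exists_injective_fin_of_not d hcon
  have hex : ∀ p : Fin (d + 1) × Fin (d + 1), ∃ c : A →+ AddCircle (1 : ℚ),
      p.1 ≠ p.2 → c (f p.1 - f p.2) ≠ 0 := by
    intro p
    by_cases hp : p.1 = p.2
    · exact ⟨0, fun h => absurd hp h⟩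
    · have hne : f p.1 - f p.2 ≠ 0 := fun h0 => hp (hf (sub_eq_zero.mp h0))
      obtain ⟨c, hc⟩ := CharacterModule.exists_character_apply_ne_zero_of_ne_zero hne
      exact ⟨c, fun _ => hc⟩
  choose c hc using hex
  let χ : A →+ (Fin (d + 1) × Fin (d + 1) → AddCircle (1 : ℚ)) := AddMonoidHom.pi c
  let B : AddSubgroup A := χ.ker
  have hT : {u : AddCircle (1 : ℚ) | n • u = 0}.Finite := AddCircle.finite_torsion (1 : ℚ) hn
  have hrange : (Set.range χ).Finite := by
    refine (Set.Finite.pi' (fun _ : Fin (d + 1) × Fin (d + 1) => hT)).subset ?_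
    rintro _ ⟨a, rfl⟩ p
    show n • (c p a) = 0
    rw [← map_nsmul, hA a, map_zero]
  have hfinQ : Finite (A ⧸ B) := by
    have e : A ⧸ B ≃+ χ.range := QuotientAddGroup.quotientKerEquivRange χ
    have : Finite χ.range := hrange.to_subtype
    exact Finite.of_equiv _ e.symm.toEquiv
  have hinj : Function.Injective (fun i : Fin (d + 1) => (QuotientAddGroup.mk (f i) : A ⧸ B)) := by
    intro i j hij
    by_contra hne
    have h1 : f i - f j ∈ B := by
      have := (QuotientAddGroup.eq (s := B)).mp hij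
      have h2 : f i - f j = -(-f i + f j) := by abel
      rw [h2]
      exact B.neg_mem this
    have h2 : χ (f i - f j) = 0 := h1
    have h3 := congrFun h2 (i, j)
    exact hc (i, j) hne h3
  have h1 := Nat.card_le_card_of_injective _ hinj
  rw [Nat.card_eq_fintype_card, Fintype.card_fin] at h1
  have h2 := h B hfinQ
  omega

/-- A submonoid of an abelian group of finite exponent is a subgroup. -/
def subgroupOfTorsion {A : Type*} [AddCommGroup A] (T : AddSubmonoid A) {n : ℕ} (hn : 0 < n)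
    (hA : ∀ a : A, n • a = 0) : AddSubgroup A :=
  { T with
    neg_mem' := by
      intro a ha
      have h2 : (n - 1) • a + a = 0 := by
        rw [← succ_nsmul, Nat.sub_add_cancel hn]
        exact hA a
      have h1 : -a = (n - 1) • a := neg_eq_of_add_eq_zero_left h2
      rw [h1]
      exact T.nsmul_mem ha _ }

theorem mem_subgroupOfTorsion {A : Type*} [AddCommGroup A] (T : AddSubmonoid A) {n : ℕ}
    (hn : 0 < n) (hA : ∀ a : A, n • a = 0) (a : A) :
    a ∈ subgroupOfTorsion T hn hA ↔ a ∈ T := Iff.rfl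

end Fermat.Agent.S55.H963.Br

end
-- ===== PACK-END S55/H963/BrFinQuot.lean

-- ===== PACK-BEGIN S14/H34/Defs.lean
section


/-!
# S14, block DENSITY (helper34): basic definitions

Sums over the nonzero ideals of the ring of integers of a number field.
-/

set_option autoImplicit false

namespace Fermat.Agent.S14.H34

open NumberField Ideal nonZeroDivisors IsDedekindDomain

noncomputable section

variable (K : Type*) [Field K] [NumberField K]

/-- `N(I)^(-s)` for a nonzero ideal `I`. -/
def nrm (s : ℝ) (I : (Ideal (𝓞 K))⁰) : ℝ :=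
  (absNorm (I : Ideal (𝓞 K)) : ℝ) ^ (-s)

/-- The Dedekind zeta function as a sum over nonzero ideals (real argument). -/
def zetaI (s : ℝ) : ℝ := ∑' I : (Ideal (𝓞 K))⁰, nrm K s I

/-- The `L`-series of a character of the class group (real argument). -/
def Lser (χ : ClassGroup (𝓞 K) →* ℂˣ) (s : ℝ) : ℂ :=
  ∑' I : (Ideal (𝓞 K))⁰, (χ (ClassGroup.mk0 I) : ℂ) * ((nrm K s I : ℝ) : ℂ)

/-- The `L`-series of `χ` is bounded on `(1, 2]` (output of block N1 for `χ ≠ 1`). -/
def LBounded (χ : ClassGroup (𝓞 K) →* ℂˣ) : Prop :=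
  ∃ B : ℝ, ∀ s : ℝ, 1 < s → s ≤ 2 → ‖Lser K χ s‖ ≤ B

variable {K}

/-- A nonzero prime ideal as a nonzero ideal. -/
def primeNZ (v : HeightOneSpectrum (𝓞 K)) : (Ideal (𝓞 K))⁰ :=
  ⟨v.asIdeal, mem_nonZeroDivisors_of_ne_zero v.ne_bot⟩

@[simp] theorem coe_primeNZ (v : HeightOneSpectrum (𝓞 K)) :
    ((primeNZ v : (Ideal (𝓞 K))⁰) : Ideal (𝓞 K)) = v.asIdeal := rfl

/-- `N(v)^(-s)` for a nonzero prime ideal. -/
def pN (s : ℝ) (v : HeightOneSpectrum (𝓞 K)) : ℝ := nrm K s (primeNZ v)

theorem pN_def (s : ℝ) (v : HeightOneSpectrum (𝓞 K)) :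
    pN s v = (absNorm v.asIdeal : ℝ) ^ (-s) := rfl

end

end Fermat.Agent.S14.H34

end
-- ===== PACK-END S14/H34/Defs.lean

-- ===== PACK-BEGIN S55/G/H357/LocalFactor.lean
section


/-!
# S55, layer G (helper357): the local Euler factor of a product of `L`-series

For a finite commutative group `D` (in the application: the dual of a finite abelian group `A`)
and a homomorphism `e : D →* ℂˣ` (in the application: evaluation at an element of `A`),
`∏_{d} (1 - e d * x) = (1 - x ^ m) ^ k` with `m = #range e`, `k = #ker e`.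
-/

set_option autoImplicit false

namespace Fermat.Agent.S55.G.H357

open Finset

/-- A finite set of complex numbers of cardinality `m` all of whose elements are `m`-th roots
of unity is the set of all `m`-th roots of unity; hence `∏ (1 - ω x) = 1 - x ^ m`. -/
theorem prod_one_sub_mul_of_card (S : Finset ℂ) (hS : ∀ ω ∈ S, ω ^ S.card = 1) (hne : S.Nonempty)
    (x : ℂ) : ∏ ω ∈ S, (1 - ω * x) = 1 - x ^ S.card := by
  have hpos : 0 < S.card := Finset.card_pos.mpr hne
  have hprim := Complex.isPrimitiveRoot_exp S.card hpos.ne'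
  have hset : S = Polynomial.nthRootsFinset S.card (1 : ℂ) := by
    apply Finset.eq_of_subset_of_card_le
    · intro ω hω
      rw [Polynomial.mem_nthRootsFinset hpos]
      exact hS ω hω
    · rw [hprim.card_nthRootsFinset]
  have h := hprim.pow_sub_pow_eq_prod_sub_mul (1 : ℂ) x hpos
  rw [one_pow] at h
  rw [h]
  exact Finset.prod_congr hset fun _ _ => rfl

/-- The product of `1 - e d * x` over a finite group `D`, for a homomorphism `e : D →* ℂˣ`. -/
theorem exists_prod_one_sub_eq {D : Type*} [Group D] [Fintype D] (e : D →* ℂˣ) (x : ℂ) :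
    ∃ m k : ℕ, 0 < m ∧ ∏ d : D, (1 - ((e d : ℂˣ) : ℂ) * x) = (1 - x ^ m) ^ k := by
  classical
  set g : D → ℂ := fun d => ((e d : ℂˣ) : ℂ) with hg
  set S : Finset ℂ := Finset.univ.image g with hSdef
  have hne : S.Nonempty := ⟨g 1, Finset.mem_image_of_mem _ (Finset.mem_univ _)⟩
  -- the fibres all have the same cardinality
  set k : ℕ := (Finset.univ.filter fun d : D => g d = 1).card with hk
  have hfib : ∀ ω ∈ S, (Finset.univ.filter fun d : D => g d = ω).card = k := by
    intro ω hω
    obtain ⟨d₀, -, rfl⟩ := Finset.mem_image.mp hω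
    have h1 := MonoidHom.card_fiber_eq_of_mem_range e (x := e d₀) (y := 1) ⟨d₀, rfl⟩ ⟨1, map_one e⟩
    have e1 : (Finset.univ.filter fun d : D => g d = g d₀) =
        Finset.univ.filter fun d : D => e d = e d₀ := by
      ext d
      simp only [Finset.mem_filter, Finset.mem_univ, true_and, hg]
      exact Units.val_inj
    have e2 : (Finset.univ.filter fun d : D => g d = 1) =
        Finset.univ.filter fun d : D => e d = 1 := by
      ext d
      simp only [Finset.mem_filter, Finset.mem_univ, true_and, hg]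
      exact Units.val_eq_one
    rw [hk, e1, e2]
    exact h1
  -- every element of `S` is a `#S`-th root of unity
  have hcard : S.card = Nat.card e.range := by
    have h1 : S = (Finset.univ.image fun d : D => e d).image (fun u : ℂˣ => (u : ℂ)) := by
      rw [Finset.image_image]
      rfl
    rw [h1, Finset.card_image_of_injective _ Units.val_injective]
    have h2 : ((Finset.univ.image fun d : D => e d : Finset ℂˣ) : Set ℂˣ) = (e.range : Set ℂˣ) := by
      ext u
      simp [MonoidHom.mem_range]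
    rw [← Set.ncard_coe_finset, h2]
    rfl
  have hroot : ∀ ω ∈ S, ω ^ S.card = 1 := by
    intro ω hω
    obtain ⟨d₀, -, rfl⟩ := Finset.mem_image.mp hω
    have h1 : (⟨e d₀, ⟨d₀, rfl⟩⟩ : e.range) ^ Nat.card e.range = 1 := pow_card_eq_one'
    have h2 : (e d₀) ^ Nat.card e.range = 1 := by
      have := congrArg (fun u : e.range => (u : ℂˣ)) h1
      simpa using this
    rw [hcard, hg]
    have := congrArg (fun u : ℂˣ => (u : ℂ)) h2
    simpa using this
  refine ⟨S.card, k, Finset.card_pos.mpr hne, ?_⟩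
  have h1 : ∏ d : D, (1 - ((e d : ℂˣ) : ℂ) * x) = ∏ d : D, (fun ω : ℂ => 1 - ω * x) (g d) := rfl
  rw [h1, Finset.prod_comp (fun ω : ℂ => 1 - ω * x) g]
  rw [← prod_one_sub_mul_of_card S hroot hne x, ← Finset.prod_pow]
  refine Finset.prod_congr rfl fun ω hω => ?_
  rw [hfib ω hω]

/-- The norm of the local factor is at most one. -/
theorem norm_prod_one_sub_le_one {D : Type*} [Group D] [Fintype D] (e : D →* ℂˣ) {x : ℝ}
    (hx0 : 0 ≤ x) (hx1 : x ≤ 1) : ‖∏ d : D, (1 - ((e d : ℂˣ) : ℂ) * (x : ℂ))‖ ≤ 1 := by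
  obtain ⟨m, k, hm, h⟩ := exists_prod_one_sub_eq e (x : ℂ)
  rw [h, norm_pow]
  have hxm0 : 0 ≤ x ^ m := pow_nonneg hx0 m
  have hxm1 : x ^ m ≤ 1 := pow_le_one₀ hx0 hx1
  have hn : ‖(1 : ℂ) - (x : ℂ) ^ m‖ = 1 - x ^ m := by
    rw [← Complex.ofReal_one, ← Complex.ofReal_pow, ← Complex.ofReal_sub, Complex.norm_real,
      Real.norm_of_nonneg (by linarith)]
  rw [hn]
  exact pow_le_one₀ (by linarith) (by linarith)

/-- The inverse local factor has norm at least one. -/
theorem one_le_norm_prod_inv {D : Type*} [Group D] [Fintype D] (e : D →* ℂˣ) {x : ℝ}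
    (hx0 : 0 ≤ x) (hx1 : x < 1) : 1 ≤ ‖∏ d : D, (1 - ((e d : ℂˣ) : ℂ) * (x : ℂ))⁻¹‖ := by
  rw [Finset.prod_inv_distrib, norm_inv]
  have hle := norm_prod_one_sub_le_one e hx0 hx1.le
  have hpos : 0 < ‖∏ d : D, (1 - ((e d : ℂˣ) : ℂ) * (x : ℂ))‖ := by
    rw [norm_pos_iff]
    refine Finset.prod_ne_zero_iff.mpr fun d _ => ?_
    intro h0
    have h1 : ((e d : ℂˣ) : ℂ) * (x : ℂ) = 1 := by
      rw [sub_eq_zero] at h0
      exact h0.symm
    have h2 : ‖((e d : ℂˣ) : ℂ) * (x : ℂ)‖ = 1 := by rw [h1, norm_one]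
    have h3 : ‖((e d : ℂˣ) : ℂ)‖ = 1 := by
      have hfin : (e d) ^ Fintype.card D = 1 := by
        rw [← map_pow, pow_card_eq_one, map_one]
      have h4 : (((e d : ℂˣ) : ℂ)) ^ Fintype.card D = 1 := by
        have := congrArg (fun u : ℂˣ => (u : ℂ)) hfin
        simpa using this
      have h5 : ‖((e d : ℂˣ) : ℂ)‖ ^ Fintype.card D = 1 := by rw [← norm_pow, h4, norm_one]
      exact (pow_eq_one_iff_of_nonneg (norm_nonneg _) Fintype.card_ne_zero).mp h5
    rw [norm_mul, h3, one_mul, Complex.norm_real, Real.norm_of_nonneg hx0] at h2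
    linarith
  exact (one_le_inv₀ hpos).mpr hle

/-- For the trivial homomorphism the inverse local factor is `(1 - x)^(-#D) ≥ (1 + x)^#D`. -/
theorem pow_le_norm_prod_inv_of_trivial {D : Type*} [Group D] [Fintype D] (e : D →* ℂˣ)
    (he : ∀ d, e d = 1) {x : ℝ} (hx0 : 0 ≤ x) (hx1 : x < 1) :
    (1 + x) ^ Fintype.card D ≤ ‖∏ d : D, (1 - ((e d : ℂˣ) : ℂ) * (x : ℂ))⁻¹‖ := by
  have h1x : 0 < 1 - x := by linarith
  have h : ∏ d : D, (1 - ((e d : ℂˣ) : ℂ) * (x : ℂ))⁻¹ = (((1 - x)⁻¹ : ℝ) : ℂ) ^ Fintype.card D := by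
    rw [Finset.prod_congr rfl (fun d _ => by rw [he d, Units.val_one, one_mul]),
      Finset.prod_const, Finset.card_univ]
    congr 1
    push_cast
    rfl
  rw [h, norm_pow, Complex.norm_real, Real.norm_of_nonneg (inv_nonneg.mpr h1x.le)]
  apply pow_le_pow_left₀ (by linarith)
  rw [← one_div, le_div_iff₀ h1x]
  nlinarith

end Fermat.Agent.S55.G.H357

end
-- ===== PACK-END S55/G/H357/LocalFactor.lean

-- ===== PACK-BEGIN S55/L/UnrInv/CycSum.lean
section


/-!
# S55, layer L, unramified invariants: the cyclic sum of a 2-cocycle (pure algebra)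

For `σ : G`, `n : ℕ` and a 2-cochain `c : G × G → A` put `cycSum σ n c = ∑_{i<n} c (σ^i, σ)`.
If `σ ^ n = 1` and `w : A → ℤ` is additive and `G`-invariant, then `w (cycSum σ n c) mod n` only
depends on the cohomology class of the cocycle `c`; this is the isomorphism
`H²(⟨σ⟩, A) ≅ A^G / N A` made explicit, without any choice of normalised cocycles.

Main results:
* `cycSum_d₁₂`, `w_cycSum_of_mem_coboundaries₂`: the cyclic sum of a coboundary is a norm.
* `sum_pow_mul_eq`: the base change identity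
  `∑_{i<n'} c (σ^(f i), σ^f) = (f n'/n) • cycSum σ n c + ∑_{i<n'} σ^(f i) • (c (1,1) - D)`.
* `w_sum_pow_mul`: its consequence for `w`.
-/

set_option autoImplicit false

namespace Fermat.Agent.S55.L.UnrInv

open groupCohomology

variable {G : Type} [Group G] {A : Rep ℤ G}

/-- The cyclic sum `∑_{i<n} c (σ^i, σ)` of a 2-cochain. -/
def cycSum (σ : G) (n : ℕ) (c : G × G → A) : A := ∑ i ∈ Finset.range n, c (σ ^ i, σ)

theorem cycSum_add (σ : G) (n : ℕ) (c c' : G × G → A) :
    cycSum σ n (c + c') = cycSum σ n c + cycSum σ n c' := by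
  simp only [cycSum, Pi.add_apply, Finset.sum_add_distrib]

theorem cycSum_zero (σ : G) (n : ℕ) : cycSum σ n (0 : G × G → A) = 0 := by
  simp [cycSum]

/-- The cyclic sum of a coboundary is a norm. -/
theorem cycSum_d₁₂ (σ : G) (n : ℕ) (hσ : σ ^ n = 1) (b : G → A) :
    cycSum σ n ((d₁₂ A).hom b) = ∑ i ∈ Finset.range n, A.ρ (σ ^ i) (b σ) := by
  have h1 : ∀ i : ℕ, (d₁₂ A).hom b (σ ^ i, σ) =
      A.ρ (σ ^ i) (b σ) - (b (σ ^ (i + 1)) - b (σ ^ i)) := by
    intro i
    rw [d₁₂_hom_apply]
    simp only [pow_succ]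
    abel
  simp only [cycSum, h1]
  rw [Finset.sum_sub_distrib, Finset.sum_range_sub (fun i => b (σ ^ i)), hσ, pow_zero, sub_self,
    sub_zero]

/-- For an additive `G`-invariant `w`, the value of `w` on the cyclic sum of a coboundary is
divisible by `n`. -/
theorem w_cycSum_d₁₂ (σ : G) (n : ℕ) (hσ : σ ^ n = 1) (w : A →+ ℤ)
    (hw : ∀ (g : G) (x : A), w (A.ρ g x) = w x) (b : G → A) :
    w (cycSum σ n ((d₁₂ A).hom b)) = n * w (b σ) := by
  rw [cycSum_d₁₂ σ n hσ, map_sum]
  simp only [hw, Finset.sum_const, Finset.card_range, nsmul_eq_mul]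

theorem w_cycSum_of_mem_coboundaries₂ (σ : G) (n : ℕ) (hσ : σ ^ n = 1) (w : A →+ ℤ)
    (hw : ∀ (g : G) (x : A), w (A.ρ g x) = w x) (c : G × G → A) (hc : c ∈ coboundaries₂ A) :
    (n : ℤ) ∣ w (cycSum σ n c) := by
  obtain ⟨b, rfl⟩ := hc
  exact ⟨w (b σ), w_cycSum_d₁₂ σ n hσ w hw b⟩

/-- Step (a): `c (g, σ^f) = c (g, 1) + ∑_{j<f} c (g σ^j, σ) - g • ∑_{j<f} c (σ^j, σ)`. -/
theorem cocycle_pow_snd (c : cocycles₂ A) (σ g : G) (f : ℕ) :
    c (g, σ ^ f) = c (g, 1) + ∑ j ∈ Finset.range f, c (g * σ ^ j, σ)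
      - A.ρ g (∑ j ∈ Finset.range f, c (σ ^ j, σ)) := by
  induction f with
  | zero => simp
  | succ f ih =>
    have h := (mem_cocycles₂_iff (c : G × G → A)).1 c.2 g (σ ^ f) σ
    rw [Finset.sum_range_succ, Finset.sum_range_succ, map_add, pow_succ]
    have h' : c (g, σ ^ f * σ) = c (g * σ ^ f, σ) + c (g, σ ^ f) - A.ρ g (c (σ ^ f, σ)) := by
      rw [h]; abel
    rw [h', ih]
    abel

/-- Periodic sums. -/
theorem sum_range_mul_of_periodic {M : Type*} [AddCommMonoid M] (F : ℕ → M) (n : ℕ)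
    (hF : ∀ k, F (k + n) = F k) (m : ℕ) :
    ∑ k ∈ Finset.range (m * n), F k = m • ∑ k ∈ Finset.range n, F k := by
  induction m with
  | zero => simp
  | succ m ih =>
    have hper : ∀ (t k : ℕ), F (t * n + k) = F k := by
      intro t
      induction t with
      | zero => intro k; simp
      | succ t iht =>
        intro k
        rw [show (t + 1) * n + k = (t * n + k) + n by ring, hF, iht]
    rw [Nat.succ_mul, Finset.sum_range_add, ih, succ_nsmul]
    congr 1
    exact Finset.sum_congr rfl fun k _ => hper m k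

/-- Double sum as a single sum. -/
theorem sum_range_sum_range {M : Type*} [AddCommMonoid M] (F : ℕ → M) (f n' : ℕ) :
    ∑ i ∈ Finset.range n', ∑ j ∈ Finset.range f, F (f * i + j) =
      ∑ k ∈ Finset.range (f * n'), F k := by
  induction n' with
  | zero => simp
  | succ n' ih =>
    rw [Finset.sum_range_succ, ih, Nat.mul_succ, Finset.sum_range_add]

/-- **Base change identity** for the cyclic sum. -/
theorem sum_pow_mul_eq (c : cocycles₂ A) (σ : G) (n f n' m : ℕ) (hσ : σ ^ n = 1)
    (hm : f * n' = m * n) :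
    ∑ i ∈ Finset.range n', c (σ ^ (f * i), σ ^ f) =
      m • cycSum σ n c +
        ∑ i ∈ Finset.range n', A.ρ (σ ^ (f * i))
          (c (1, 1) - ∑ j ∈ Finset.range f, c (σ ^ j, σ)) := by
  have h1 : ∀ i : ℕ, c (σ ^ (f * i), σ ^ f) =
      (∑ j ∈ Finset.range f, c (σ ^ (f * i + j), σ)) +
        A.ρ (σ ^ (f * i)) (c (1, 1) - ∑ j ∈ Finset.range f, c (σ ^ j, σ)) := by
    intro i
    rw [cocycle_pow_snd c σ (σ ^ (f * i)) f, cocycles₂_map_one_snd, map_sub]
    simp only [pow_add]
    abel
  simp only [h1, Finset.sum_add_distrib]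
  congr 1
  rw [sum_range_sum_range (fun k => c (σ ^ k, σ)) f n', hm]
  exact sum_range_mul_of_periodic (fun k => c (σ ^ k, σ)) n
    (fun k => by simp only [pow_add, hσ, mul_one]) m

/-- Consequence of the base change identity for an invariant additive function. -/
theorem w_sum_pow_mul (c : cocycles₂ A) (σ : G) (n f n' m : ℕ) (hσ : σ ^ n = 1)
    (hm : f * n' = m * n) (w : A →+ ℤ) (hw : ∀ (g : G) (x : A), w (A.ρ g x) = w x) :
    w (∑ i ∈ Finset.range n', c (σ ^ (f * i), σ ^ f)) =
      m * w (cycSum σ n c) +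
        n' * w (c (1, 1) - ∑ j ∈ Finset.range f, c (σ ^ j, σ)) := by
  rw [sum_pow_mul_eq c σ n f n' m hσ hm, map_add, map_nsmul, map_sum]
  simp only [hw, Finset.sum_const, Finset.card_range, nsmul_eq_mul]

end Fermat.Agent.S55.L.UnrInv

end
-- ===== PACK-END S55/L/UnrInv/CycSum.lean

-- ===== PACK-BEGIN S55/Spec/Tower.lean
section
/-
S55 moonshot — frozen shared definitions: the tower of finite levels.
Chief architect: helper55.  Mathlib + Prelude only.  NO sorry.  FROZEN (additions go to new files).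
Namespace `Fermat.Agent.S55.Tow`.

`G_ℚ = Gal(ℚ̄/ℚ)`; a *level* is a finite Galois `F/ℚ` inside `ℚ̄` unramified outside `S`;
`Gal(F/ℚ)` is modelled as the quotient `G_ℚ ⧸ F.fixingSubgroup`; the decomposition group at `q`
as the quotient of the Prelude local group `Gal(ℚ̄_q/ℚ_q)` by the preimage of `F.fixingSubgroup`;
`F_qˣ` as the invariants of `ℚ̄_qˣ`; `∏_{w|q} F_wˣ` as a coinduced module.
-/



open CategoryTheory

namespace Fermat.Agent.S55.Tow

noncomputable section

/-- `ℚ̄`. -/
abbrev Qbar : Type := AlgebraicClosure ℚ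
/-- `G_ℚ`. -/
abbrev GQ : Type := Qbar ≃ₐ[ℚ] Qbar
/-- The Prelude local Galois group `Gal(ℚ̄_q/ℚ_q)`. -/
abbrev GQp (q : Nat.Primes) : Type := ExtCitation.primeLocalGaloisGroup q
/-- The Prelude map `Gal(ℚ̄_q/ℚ_q) → G_ℚ`. -/
abbrev locQ (q : Nat.Primes) : GQp q →* GQ := ExtCitation.primeLocalToGlobal q

variable (S : Finset Nat.Primes)

/-- A level: a finite Galois extension `F/ℚ` inside `ℚ̄`, unramified outside `S`.
Galois-ness is recorded as normality of the subgroup `Gal(ℚ̄/F)` (equivalent by infinite Galois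
theory; this form avoids the `Algebra ℚ F` instance diamond). -/
structure Level where
  /-- the field -/
  F : IntermediateField ℚ Qbar
  unram : F.IsUnramifiedOutside S
  normalU : (F.fixingSubgroup).Normal

variable {S}

instance : Preorder (Level S) := Preorder.lift Level.F

/-- The open normal subgroup `U_F = Gal(ℚ̄/F)` of `G_ℚ`. -/
def Level.U (L : Level S) : Subgroup GQ := L.F.fixingSubgroup

instance Level.instNormalU (L : Level S) : (L.U).Normal := L.normalU

/-- `Gal(F/ℚ)`, as a quotient of `G_ℚ`. -/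
abbrev Level.Gal (L : Level S) : Type := GQ ⧸ L.U

lemma Level.U_anti {L L' : Level S} (h : L ≤ L') : L'.U ≤ L.U :=
  IntermediateField.fixingSubgroup_antitone h

/-- The projection `Gal(F'/ℚ) → Gal(F/ℚ)` for `F ≤ F'`. -/
def Level.proj {L L' : Level S} (h : L ≤ L') : L'.Gal →* L.Gal :=
  QuotientGroup.map L'.U L.U (MonoidHom.id GQ) (Level.U_anti h)

/-- `Gal(F'/F)` as a subgroup of `Gal(F'/ℚ)`. -/
def Level.relGal {L L' : Level S} (h : L ≤ L') : Subgroup L'.Gal := (Level.proj h).ker

/-- The open normal subgroup `Gal(ℚ̄_q/F_q)` of the local group (preimage of `U_F`). -/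
def Level.V (L : Level S) (q : Nat.Primes) : Subgroup (GQp q) := L.U.comap (locQ q)

instance Level.normalV (L : Level S) (q : Nat.Primes) : (L.V q).Normal := by
  unfold Level.V
  infer_instance

/-- The decomposition group `Gal(F_q/ℚ_q)`, as a quotient of the local group. -/
abbrev Level.Dec (L : Level S) (q : Nat.Primes) : Type := GQp q ⧸ L.V q

/-- The (injective) map `Gal(F_q/ℚ_q) → Gal(F/ℚ)`. -/
def Level.decHom (L : Level S) (q : Nat.Primes) : L.Dec q →* L.Gal :=
  QuotientGroup.map (L.V q) L.U (locQ q) le_rfl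

/-- `ℚ̄ˣ` as a `G_ℚ`-module. -/
def unitsQbar : Rep.{0} ℤ GQ := Rep.ofAlgebraAutOnUnits ℚ Qbar

/-- `ℚ̄_qˣ` as a module over the local Galois group. -/
def unitsQpbar (q : Nat.Primes) : Rep.{0} ℤ (GQp q) :=
  letI : Fact (q : ℕ).Prime := ⟨q.2⟩
  Rep.ofAlgebraAutOnUnits ℚ_[(q : ℕ)] (PadicAlgCl (q : ℕ))

/-- `Fˣ` as a `Gal(F/ℚ)`-module (the `U_F`-invariants of `ℚ̄ˣ`). -/
def Level.units (L : Level S) : Rep.{0} ℤ L.Gal := unitsQbar.quotientToInvariants L.U

/-- `F_qˣ` as a `Gal(F_q/ℚ_q)`-module (the invariants of `ℚ̄_qˣ`). -/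
def Level.locUnits (L : Level S) (q : Nat.Primes) : Rep.{0} ℤ (L.Dec q) :=
  (unitsQpbar q).quotientToInvariants (L.V q)

/-- `J_q(F) = ∏_{w | q} F_wˣ` as a `Gal(F/ℚ)`-module: coinduced from the decomposition group. -/
def Level.J (L : Level S) (q : Nat.Primes) : Rep.{0} ℤ L.Gal :=
  Rep.coind (L.decHom q) (L.locUnits q)

end

end Fermat.Agent.S55.Tow

end
-- ===== PACK-END S55/Spec/Tower.lean

-- ===== PACK-BEGIN S55/E1/LimAbs.lean
section


/-!
# S55 / engine E1 / block LIM (helper474): the abstract limit argument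

This file contains the pure bookkeeping behind steps LIM0 and LIM6 of `coord/S55-E1.md`, with
NO reference to Galois groups.  It avoids Mathlib's `DirectLimit`: a "colimit" is described
elementwise (jointly surjective + separated), exactly the shape in which the bridge layer
describes the Prelude cohomology groups.

Setting: a directed preorder `I` (the levels), four systems of additive groups

* `Sh i`  (think `Ш²_F ⊆ H²(G_F, N')`), with colimit `X` (think `sha₂ S N'`),
* `K i`   (think `ker (𝔈²_F(E) → 𝔈²_F(J))`),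
* `T' i`  (think `A_F(C') / im A_F(J)`),
* `T i`   (think `A_F(C) / (im A_F(J) + res Bc_F(C))`), finite of constant cardinality `s`,

and level-wise maps `e : Sh → K`, `∂ : T' → K` (bijective), `c : T' → T`, compatible with the
transition maps.  If `e` and `c` are *eventually injective* and *eventually surjective* and the
transition maps of `T` are injective, then `X` is finite and `Nat.card X = s`.
-/

set_option autoImplicit false
set_option linter.unusedSectionVars false
set_option linter.style.haveILetI false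

namespace Fermat.Agent.S55.E1

/-- A system of additive groups over a preorder, with functorial transition maps. -/
structure AddSys (I : Type) [Preorder I] where
  /-- the groups -/
  obj : I → Type
  /-- the group structures -/
  grp : ∀ i, AddCommGroup (obj i)
  /-- the transition maps -/
  tr : ∀ {i j : I}, i ≤ j → obj i →+ obj j
  tr_tr : ∀ {i j k : I} (hij : i ≤ j) (hjk : j ≤ k) (x : obj i),
    tr hjk (tr hij x) = tr (hij.trans hjk) x

attribute [instance] AddSys.grp

namespace AddSys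

variable {I : Type} [Preorder I]

/-- A morphism of systems: level-wise additive maps commuting with the transition maps. -/
structure Hom (A B : AddSys I) where
  /-- the level-wise maps -/
  app : ∀ i, A.obj i →+ B.obj i
  comm : ∀ {i j : I} (hij : i ≤ j) (x : A.obj i), app j (A.tr hij x) = B.tr hij (app i x)

/-- `f` is eventually injective: elements of the kernel die at a higher level. -/
def Hom.EvInj {A B : AddSys I} (f : Hom A B) : Prop :=
  ∀ i (x : A.obj i), f.app i x = 0 → ∃ j, ∃ hij : i ≤ j, A.tr hij x = 0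

/-- `f` is eventually surjective: every element is hit after pushing it to a higher level. -/
def Hom.EvSurj {A B : AddSys I} (f : Hom A B) : Prop :=
  ∀ i (y : B.obj i), ∃ j, ∃ hij : i ≤ j, ∃ x : A.obj j, f.app j x = B.tr hij y

/-- `f` is a level-wise bijection. -/
def Hom.LevelBij {A B : AddSys I} (f : Hom A B) : Prop :=
  ∀ i, Function.Bijective (f.app i)

/-- `X`, with the maps `ι i : A.obj i → X`, is a colimit of the system `A`
(elementwise description). -/
structure IsColim (A : AddSys I) (X : Type) [AddCommGroup X] (ι : ∀ i, A.obj i →+ X) : Prop where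
  compat : ∀ {i j : I} (hij : i ≤ j) (x : A.obj i), ι j (A.tr hij x) = ι i x
  surj : ∀ x : X, ∃ i, ∃ a : A.obj i, ι i a = x
  sep : ∀ i (a : A.obj i), ι i a = 0 → ∃ j, ∃ hij : i ≤ j, A.tr hij a = 0

end AddSys

section Main

open AddSys

variable {I : Type} [Preorder I] [IsDirected I (· ≤ ·)]
variable {Sh K T' T : AddSys I} {X : Type} [AddCommGroup X] {ι : ∀ i, Sh.obj i →+ X}

/-- The relation between `X` and `T.obj i₀` underlying the comparison bijection:
`x` and `t` are related if at some level `j ≥ i₀` there are `a ∈ Sh j` representing `x` and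
`b ∈ T' j` with `∂ b = e a` and `c b = tr t`. -/
def LimRel (ι : ∀ i, Sh.obj i →+ X) (e : Hom Sh K) (d : Hom T' K) (c : Hom T' T) (i₀ : I)
    (x : X) (t : T.obj i₀) : Prop :=
  ∃ j, ∃ h : i₀ ≤ j, ∃ a : Sh.obj j, ∃ b : T'.obj j,
    ι j a = x ∧ d.app j b = e.app j a ∧ c.app j b = T.tr h t

variable (hX : IsColim Sh X ι) (e : Hom Sh K) (d : Hom T' K) (c : Hom T' T) (i₀ : I)

include hX in
/-- A witness of `LimRel` can be pushed to any higher level. -/
theorem LimRel.push {x : X} {t : T.obj i₀} {j : I} {h : i₀ ≤ j} {a : Sh.obj j} {b : T'.obj j}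
    (h1 : ι j a = x) (h2 : d.app j b = e.app j a) (h3 : c.app j b = T.tr h t)
    {k : I} (hjk : j ≤ k) :
    ι k (Sh.tr hjk a) = x ∧ d.app k (T'.tr hjk b) = e.app k (Sh.tr hjk a) ∧
      c.app k (T'.tr hjk b) = T.tr (h.trans hjk) t := by
  refine ⟨by rw [hX.compat, h1], by rw [d.comm, e.comm, h2], ?_⟩
  rw [c.comm, h3, T.tr_tr]

include hX in
/-- Two representatives of the same element of the colimit agree at a higher level. -/
theorem exists_tr_eq_of_ι_eq {j k : I} {a : Sh.obj j} {a' : Sh.obj k}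
    (h : ι j a = ι k a') :
    ∃ n, ∃ hjn : j ≤ n, ∃ hkn : k ≤ n, Sh.tr hjn a = Sh.tr hkn a' := by
  obtain ⟨m, hjm, hkm⟩ := exists_ge_ge j k
  have h0 : ι m (Sh.tr hjm a - Sh.tr hkm a') = 0 := by
    rw [map_sub, hX.compat, hX.compat, h, sub_self]
  obtain ⟨n, hmn, hn⟩ := hX.sep m _ h0
  refine ⟨n, hjm.trans hmn, hkm.trans hmn, ?_⟩
  rw [map_sub, sub_eq_zero, Sh.tr_tr, Sh.tr_tr] at hn
  exact hn

variable (hd : d.LevelBij) (hT_inj : ∀ {i j : I} (hij : i ≤ j), Function.Injective (T.tr hij))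

include hX hd hT_inj in
/-- `LimRel` is functional: `t` is determined by `x`. -/
theorem LimRel.unique_right {x : X} {t t' : T.obj i₀}
    (h : LimRel ι e d c i₀ x t) (h' : LimRel ι e d c i₀ x t') : t = t' := by
  obtain ⟨j, hj, a, b, h1, h2, h3⟩ := h
  obtain ⟨k, hk, a', b', h1', h2', h3'⟩ := h'
  obtain ⟨n, hjn, hkn, hn⟩ := exists_tr_eq_of_ι_eq hX (h1.trans h1'.symm)
  obtain ⟨-, p2, p3⟩ := LimRel.push hX e d c i₀ h1 h2 h3 hjn
  obtain ⟨-, q2, q3⟩ := LimRel.push hX e d c i₀ h1' h2' h3' hkn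
  have hb : T'.tr hjn b = T'.tr hkn b' := (hd n).1 (by rw [p2, q2, hn])
  apply hT_inj (hj.trans hjn)
  rw [← p3, ← q3, hb]

variable (he_inj : e.EvInj) (hc_inj : c.EvInj)

include hX hd he_inj hc_inj in
/-- `LimRel` is injective: `x` is determined by `t`. -/
theorem LimRel.unique_left {x x' : X} {t : T.obj i₀}
    (h : LimRel ι e d c i₀ x t) (h' : LimRel ι e d c i₀ x' t) : x = x' := by
  obtain ⟨j, hj, a, b, h1, h2, h3⟩ := h
  obtain ⟨k, hk, a', b', h1', h2', h3'⟩ := h'
  obtain ⟨n, hjn, hkn⟩ := exists_ge_ge j k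
  obtain ⟨p1, p2, p3⟩ := LimRel.push hX e d c i₀ h1 h2 h3 hjn
  obtain ⟨q1, q2, q3⟩ := LimRel.push hX e d c i₀ h1' h2' h3' hkn
  -- `c (b - b') = 0` at level `n`
  have hc0 : c.app n (T'.tr hjn b - T'.tr hkn b') = 0 := by
    rw [map_sub, p3, q3, sub_self]
  obtain ⟨m, hnm, hm⟩ := hc_inj n _ hc0
  -- hence `e (a - a') = 0` at level `m`
  have he0 : e.app m (Sh.tr hnm (Sh.tr hjn a - Sh.tr hkn a')) = 0 := by
    rw [e.comm, map_sub, ← p2, ← q2, ← map_sub, ← d.comm, hm, map_zero]
  obtain ⟨l, hml, hl⟩ := he_inj m _ he0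
  have := congrArg (ι l) hl
  rw [map_zero, hX.compat, hX.compat, map_sub, p1, q1, sub_eq_zero] at this
  exact this

variable (he_surj : e.EvSurj) (hc_surj : c.EvSurj)

include hX hd he_surj hc_surj in
/-- `LimRel` is surjective: every `t` is related to some `x`. -/
theorem LimRel.exists_left (t : T.obj i₀) : ∃ x : X, LimRel ι e d c i₀ x t := by
  obtain ⟨j, hj, b, hb⟩ := hc_surj i₀ t
  obtain ⟨k, hjk, a, ha⟩ := he_surj j (d.app j b)
  refine ⟨ι k a, k, hj.trans hjk, a, T'.tr hjk b, rfl, ?_, ?_⟩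
  · rw [d.comm, ha]
  · rw [c.comm, hb, T.tr_tr]

variable (s : ℕ) (hs : 0 < s) (hT_card : ∀ i, Nat.card (T.obj i) = s)

include hs hT_card hT_inj in
/-- The transition maps of `T` are bijective. -/
theorem tr_bijective_of_card {i j : I} (hij : i ≤ j) : Function.Bijective (T.tr hij) := by
  haveI : Finite (T.obj j) := Nat.finite_of_card_ne_zero (by rw [hT_card j]; exact hs.ne')
  exact (hT_inj hij).bijective_of_nat_card_le (by rw [hT_card i, hT_card j])

include hX hd hs hT_card hT_inj in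
/-- `LimRel` is total: every `x` is related to some `t`. -/
theorem LimRel.exists_right (x : X) : ∃ t : T.obj i₀, LimRel ι e d c i₀ x t := by
  obtain ⟨i, a, ha⟩ := hX.surj x
  obtain ⟨j, hij, hj⟩ := exists_ge_ge i i₀
  obtain ⟨b, hb⟩ := (hd j).2 (e.app j (Sh.tr hij a))
  obtain ⟨t, ht⟩ := (tr_bijective_of_card hT_inj s hs hT_card hj).2 (c.app j b)
  exact ⟨t, j, hj, Sh.tr hij a, b, by rw [hX.compat, ha], hb, ht.symm⟩

include hX hd he_inj he_surj hc_inj hc_surj hs hT_card hT_inj in
/-- **Abstract limit argument (LIM0 + LIM6).**  If `X = colim Sh`, `e : Sh → K` and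
`c : T' → T` are eventually injective and eventually surjective, `∂ : T' → K` is a level-wise
bijection, and `T` has injective transition maps and constant finite cardinality `s`, then
`X` is finite of cardinality `s`. -/
theorem card_colim_eq [Nonempty I] : Finite X ∧ Nat.card X = s := by
  obtain ⟨i₀⟩ := ‹Nonempty I›
  have hex : ∀ x : X, ∃ t : T.obj i₀, LimRel ι e d c i₀ x t :=
    LimRel.exists_right hX e d c i₀ hd hT_inj s hs hT_card
  choose φ hφ using hex
  have hinj : Function.Injective φ := by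
    intro x x' hxx
    have h1 := hφ x
    have h2 := hφ x'
    rw [hxx] at h1
    exact LimRel.unique_left hX e d c i₀ hd he_inj hc_inj h1 h2
  have hsurj : Function.Surjective φ := by
    intro t
    obtain ⟨x, hx⟩ := LimRel.exists_left hX e d c i₀ hd he_surj hc_surj t
    exact ⟨x, LimRel.unique_right hX e d c i₀ hd hT_inj (hφ x) hx⟩
  haveI : Finite (T.obj i₀) :=
    Nat.finite_of_card_ne_zero (by rw [hT_card i₀]; exact hs.ne')
  refine ⟨Finite.of_injective φ hinj, ?_⟩
  rw [← hT_card i₀]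
  exact Nat.card_congr (Equiv.ofBijective φ ⟨hinj, hsurj⟩)

end Main

end Fermat.Agent.S55.E1

end
-- ===== PACK-END S55/E1/LimAbs.lean

-- ===== PACK-BEGIN S55/E1/H423/Alg4.lean
section


/-!
# S55, engine E1, leaves ALG2 and ALG4 (NORM-KILL) — interface-free form

Setting: `G` a finite group, `P`, `C` abelian groups with `G`-action (`Representation ℤ G _`),
`R ≤ P` a `G`-stable subgroup, `p` a prime with `p P ⊆ R` (so `N := P / R` is an `𝔽_p`-vector
space; in E1: `P = ℤ[G]^{(N)}`, `R = ker (P → N)`).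

* `alg2` : for a `G`-homomorphism `f : R → X`, the map `p • f` extends to a `G`-homomorphism
  `P → X` (`x ↦ f (p x)`).
* `alg4` (**NORM-KILL**) : let `H ≤ G` act trivially on `P / R` and assume
  `N_H(C) ⊆ p · C^H`.  Then for every ADDITIVE `g : R → C` the norm
  `N_G(g) = ∑_σ σ ∘ g ∘ σ⁻¹` extends to a `G`-homomorphism `P → C`.
-/

set_option autoImplicit false
set_option linter.style.haveILetI false

namespace Fermat.Agent.S55.E1.H423

open Finset

section Extend

variable {P C : Type*} [AddCommGroup P] [AddCommGroup C]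

/-- Extension of an additive map from a subgroup `R` to `P = R + ∑ ℤ x i`, with prescribed
values `y i` at the `x i`, provided the values are compatible with all relations. -/
theorem exists_linearMap_extend (R : Submodule ℤ P) (f : R →ₗ[ℤ] C) {I : Type*} (x : I → P)
    (y : I → C) (hgen : R ⊔ Submodule.span ℤ (Set.range x) = ⊤)
    (hrel : ∀ (m : I →₀ ℤ) (hm : Finsupp.linearCombination ℤ x m ∈ R),
      f ⟨_, hm⟩ = Finsupp.linearCombination ℤ y m) :
    ∃ k : P →ₗ[ℤ] C, (∀ r : R, k r = f r) ∧ ∀ i, k (x i) = y i := by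
  classical
  let φ : (R × (I →₀ ℤ)) →ₗ[ℤ] P := R.subtype.coprod (Finsupp.linearCombination ℤ x)
  let ψ : (R × (I →₀ ℤ)) →ₗ[ℤ] C := f.coprod (Finsupp.linearCombination ℤ y)
  have hφ : Function.Surjective φ := by
    rw [← LinearMap.range_eq_top, LinearMap.range_coprod, Submodule.range_subtype,
      Finsupp.range_linearCombination]
    exact hgen
  have hker : LinearMap.ker φ ≤ LinearMap.ker ψ := by
    rintro ⟨r, m⟩ h
    rw [LinearMap.mem_ker] at h ⊢
    simp only [φ, ψ, LinearMap.coprod_apply, Submodule.subtype_apply] at h ⊢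
    have hm : Finsupp.linearCombination ℤ x m ∈ R := by
      have : Finsupp.linearCombination ℤ x m = -(r : P) := by
        rw [eq_neg_iff_add_eq_zero, add_comm]; exact h
      rw [this]
      exact R.neg_mem r.2
    rw [← hrel m hm, ← map_add]
    have : r + ⟨_, hm⟩ = (0 : R) := Subtype.ext h
    rw [this, map_zero]
  let e := φ.quotKerEquivOfSurjective hφ
  let k : P →ₗ[ℤ] C := (LinearMap.ker φ).liftQ ψ hker ∘ₗ e.symm.toLinearMap
  have hk : ∀ z, k (φ z) = ψ z := by
    intro z
    have : e.symm (φ z) = Submodule.Quotient.mk z := by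
      rw [LinearEquiv.symm_apply_eq]
      rfl
    simp only [k, LinearMap.comp_apply, LinearEquiv.coe_coe, this]
    rfl
  refine ⟨k, fun r => ?_, fun i => ?_⟩
  · have := hk (r, 0)
    simpa [φ, ψ] using this
  · have := hk (0, Finsupp.single i 1)
    simpa [φ, ψ] using this

end Extend

section Lift

universe u

variable {P : Type u} [AddCommGroup P]

/-- If `p P ⊆ R` (`p` prime) there is a family `x i` in `P` lifting an `𝔽_p`-basis of `P / R`:
`P = R + ∑ ℤ x i`, and `∑ m i • x i ∈ R` forces `p ∣ m i` for all `i`. -/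
theorem exists_lift_family (R : Submodule ℤ P) (p : ℕ) [Fact p.Prime]
    (hp : ∀ x : P, (p : ℤ) • x ∈ R) :
    ∃ (I : Type u) (x : I → P), R ⊔ Submodule.span ℤ (Set.range x) = ⊤ ∧
      ∀ m : I →₀ ℤ, Finsupp.linearCombination ℤ x m ∈ R → ∀ i, (p : ℤ) ∣ m i := by
  classical
  have hkill : ∀ v : P ⧸ R, p • v = 0 := by
    intro v
    obtain ⟨z, rfl⟩ := Submodule.Quotient.mk_surjective R v
    rw [← Submodule.Quotient.mk_smul, Submodule.Quotient.mk_eq_zero]
    have := hp z
    rwa [Nat.cast_smul_eq_nsmul] at this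
  haveI : Module (ZMod p) (P ⧸ R) := AddCommGroup.zmodModule hkill
  let b : Module.Basis (Module.Basis.ofVectorSpaceIndex (ZMod p) (P ⧸ R)) (ZMod p) (P ⧸ R) :=
    Module.Basis.ofVectorSpace (ZMod p) (P ⧸ R)
  have hsurj : ∀ i, ∃ z : P, Submodule.Quotient.mk (p := R) z = b i :=
    fun i => Submodule.Quotient.mk_surjective R (b i)
  choose x hx using hsurj
  -- the class of an integral combination of the `x i`
  have hmk : ∀ m : Module.Basis.ofVectorSpaceIndex (ZMod p) (P ⧸ R) →₀ ℤ,
      Submodule.Quotient.mk (p := R) (Finsupp.linearCombination ℤ x m) =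
        Finsupp.linearCombination (ZMod p) b (m.mapRange (Int.cast : ℤ → ZMod p) Int.cast_zero) := by
    intro m
    rw [Finsupp.linearCombination_apply, Finsupp.linearCombination_apply,
      Finsupp.sum_mapRange_index (by intro i; exact zero_smul _ _), Finsupp.sum, Finsupp.sum]
    rw [← Submodule.mkQ_apply, map_sum]
    refine Finset.sum_congr rfl fun i _ => ?_
    rw [map_smul, Submodule.mkQ_apply, hx, Int.cast_smul_eq_zsmul]
  refine ⟨_, x, ?_, ?_⟩
  · rw [eq_top_iff]
    rintro z -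
    let c := b.repr (Submodule.Quotient.mk z)
    let m : Module.Basis.ofVectorSpaceIndex (ZMod p) (P ⧸ R) →₀ ℤ :=
      c.mapRange (ZMod.cast : ZMod p → ℤ) (by simp)
    have h1 : Submodule.Quotient.mk (p := R) (Finsupp.linearCombination ℤ x m) =
        Submodule.Quotient.mk z := by
      rw [hmk]
      have : m.mapRange (Int.cast : ℤ → ZMod p) Int.cast_zero = c := by
        ext i
        simp [m]
      rw [this]
      exact b.linearCombination_repr _
    have h2 : z - Finsupp.linearCombination ℤ x m ∈ R := by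
      rw [← Submodule.Quotient.mk_eq_zero, Submodule.Quotient.mk_sub, h1, sub_self]
    have h3 : Finsupp.linearCombination ℤ x m ∈ Submodule.span ℤ (Set.range x) := by
      rw [← Finsupp.range_linearCombination]
      exact ⟨m, rfl⟩
    have : z = (z - Finsupp.linearCombination ℤ x m) + Finsupp.linearCombination ℤ x m := by
      abel
    rw [this]
    exact Submodule.add_mem_sup h2 h3
  · intro m hm i
    have h0 : Finsupp.linearCombination (ZMod p) b
        (m.mapRange (Int.cast : ℤ → ZMod p) Int.cast_zero) = 0 := by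
      rw [← hmk, Submodule.Quotient.mk_eq_zero]
      exact hm
    have h1 : m.mapRange (Int.cast : ℤ → ZMod p) Int.cast_zero = 0 := by
      have hli := b.linearIndependent
      rw [linearIndependent_iff] at hli
      exact hli _ h0
    have h2 : ((m i : ℤ) : ZMod p) = 0 := by
      have := DFunLike.congr_fun h1 i
      simpa using this
    exact (ZMod.intCast_zmod_eq_zero_iff_dvd (m i) p).mp h2

end Lift

section Defs

variable {G : Type*} [Group G]
variable {P C : Type*} [AddCommGroup P] [AddCommGroup C]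
variable (ρP : Representation ℤ G P) (ρC : Representation ℤ G C)
variable (R : Submodule ℤ P) (hR : ∀ (σ : G), ∀ r ∈ R, ρP σ r ∈ R)

/-- The conjugate `σ ∘ g ∘ σ⁻¹` of an additive map `g : R → C`. -/
def conjHom (g : R →ₗ[ℤ] C) (σ : G) : R →ₗ[ℤ] C :=
  ρC σ ∘ₗ g ∘ₗ (ρP σ⁻¹).restrict (hR σ⁻¹)

theorem conjHom_apply (g : R →ₗ[ℤ] C) (σ : G) (r : R) :
    conjHom ρP ρC R hR g σ r = ρC σ (g ⟨ρP σ⁻¹ r, hR σ⁻¹ r r.2⟩) := rfl

/-- `N_G(g) = ∑_σ σ ∘ g ∘ σ⁻¹`, a `G`-homomorphism `R → C`. -/
def normHom [Fintype G] (g : R →ₗ[ℤ] C) : R →ₗ[ℤ] C := ∑ σ : G, conjHom ρP ρC R hR g σ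

theorem normHom_apply [Fintype G] (g : R →ₗ[ℤ] C) (r : R) :
    normHom ρP ρC R hR g r = ∑ σ : G, ρC σ (g ⟨ρP σ⁻¹ r, hR σ⁻¹ r r.2⟩) := by
  simp [normHom, LinearMap.sum_apply, conjHom_apply]

/-- Extension by zero of `g : R → C` to a plain function on `P` (bookkeeping device). -/
noncomputable def extZero (g : R →ₗ[ℤ] C) : P → C := by
  classical
  exact fun z => if h : z ∈ R then g ⟨z, h⟩ else 0

theorem extZero_of_mem (g : R →ₗ[ℤ] C) {z : P} (h : z ∈ R) : extZero R g z = g ⟨z, h⟩ := by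
  simp [extZero, h]

theorem extZero_coe (g : R →ₗ[ℤ] C) (r : R) : extZero R g (r : P) = g r := by
  rw [extZero_of_mem R g r.2]

theorem extZero_add (g : R →ₗ[ℤ] C) {z z' : P} (h : z ∈ R) (h' : z' ∈ R) :
    extZero R g (z + z') = extZero R g z + extZero R g z' := by
  rw [extZero_of_mem R g h, extZero_of_mem R g h', extZero_of_mem R g (R.add_mem h h'),
    ← map_add]
  rfl

theorem extZero_sub (g : R →ₗ[ℤ] C) {z z' : P} (h : z ∈ R) (h' : z' ∈ R) :
    extZero R g (z - z') = extZero R g z - extZero R g z' := by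
  rw [extZero_of_mem R g h, extZero_of_mem R g h', extZero_of_mem R g (R.sub_mem h h'),
    ← map_sub]
  rfl

theorem extZero_zsmul (g : R →ₗ[ℤ] C) (n : ℤ) {z : P} (h : z ∈ R) :
    extZero R g (n • z) = n • extZero R g z := by
  rw [extZero_of_mem R g h, extZero_of_mem R g (R.smul_mem n h), ← map_smul]
  rfl

end Defs

section Main

universe u

variable {G : Type*} [Group G]
variable {P : Type u} {C : Type*} [AddCommGroup P] [AddCommGroup C]
variable (ρP : Representation ℤ G P) (ρC : Representation ℤ G C)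
variable (R : Submodule ℤ P) (hR : ∀ (σ : G), ∀ r ∈ R, ρP σ r ∈ R)

omit [AddCommGroup C] in
private theorem rho_mul_apply {V : Type*} [AddCommGroup V] (ρ : Representation ℤ G V) (σ τ : G)
    (v : V) : ρ (σ * τ) v = ρ σ (ρ τ v) := by
  rw [map_mul]; rfl

private theorem rho_inv_apply {V : Type*} [AddCommGroup V] (ρ : Representation ℤ G V) (σ : G)
    (v : V) : ρ σ⁻¹ (ρ σ v) = v := by
  rw [← rho_mul_apply, inv_mul_cancel, map_one]; rfl

private theorem rho_apply_inv {V : Type*} [AddCommGroup V] (ρ : Representation ℤ G V) (σ : G)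
    (v : V) : ρ σ (ρ σ⁻¹ v) = v := by
  rw [← rho_mul_apply, mul_inv_cancel, map_one]; rfl

include hR in
/-- **ALG4, step 1** (`H`-level): under the hypotheses of NORM-KILL, the `H`-norm
`f = ∑_{t ∈ H} t g t⁻¹` of an additive map `g : R → C` extends to an `H`-homomorphism
`k : P → C`. -/
theorem exists_extend_normH (p : ℕ) [Fact p.Prime] (hp : ∀ x : P, (p : ℤ) • x ∈ R)
    (H : Subgroup G) [Fintype H] (hH : ∀ h ∈ H, ∀ x : P, ρP h x - x ∈ R)
    (hC : ∀ c : C, ∃ c' : C, (∀ h ∈ H, ρC h c' = c') ∧ ∑ h : H, ρC (h : G) c = (p : ℤ) • c')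
    (g : R →ₗ[ℤ] C) :
    ∃ k : P →ₗ[ℤ] C, (∀ h ∈ H, ∀ z : P, k (ρP h z) = ρC h (k z)) ∧
      ∀ r : R, k r = ∑ t : H, ρC (t : G) (extZero R g (ρP (t : G)⁻¹ r)) := by
  classical
  obtain ⟨I, x, hgen, hdvd⟩ := exists_lift_family R p hp
  -- the `H`-norm of `g` as a function on `P`
  let F : P → C := fun z => ∑ t : H, ρC (t : G) (extZero R g (ρP (t : G)⁻¹ z))
  have hF_add : ∀ z z', z ∈ R → z' ∈ R → F (z + z') = F z + F z' := by
    intro z z' hz hz'
    simp only [F]
    rw [← Finset.sum_add_distrib]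
    refine Finset.sum_congr rfl fun t _ => ?_
    rw [map_add, extZero_add R g (hR _ z hz) (hR _ z' hz'), map_add]
  have hF_smul : ∀ (n : ℤ) z, z ∈ R → F (n • z) = n • F z := by
    intro n z hz
    simp only [F]
    rw [Finset.smul_sum]
    refine Finset.sum_congr rfl fun t _ => ?_
    rw [map_smul, extZero_zsmul R g n (hR _ z hz), map_smul]
  let f : R →ₗ[ℤ] C :=
    { toFun := fun r => F r
      map_add' := fun r r' => hF_add r r' r.2 r'.2
      map_smul' := fun n r => hF_smul n r r.2 }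
  have hf : ∀ r : R, f r = F r := fun r => rfl
  -- `F` is `H`-equivariant
  have hF_equiv : ∀ h ∈ H, ∀ z : P, F (ρP h z) = ρC h (F z) := by
    intro h hh z
    simp only [F]
    rw [map_sum]
    refine Fintype.sum_equiv (Equiv.mulLeft (⟨h, hh⟩ : H)⁻¹) _ _ fun t => ?_
    simp only [Equiv.coe_mulLeft, Subgroup.coe_mul, Subgroup.coe_inv, mul_inv_rev, inv_inv]
    rw [rho_mul_apply ρP, ← rho_mul_apply ρC, mul_inv_cancel_left]
  -- the elements `w i t = t⁻¹ x i - x i ∈ R`
  have hw : ∀ (i : I) (t : H), ρP (t : G)⁻¹ (x i) - x i ∈ R := fun i t =>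
    hH _ (H.inv_mem t.2) (x i)
  let a : I → C := fun i => ∑ t : H, ρC (t : G) (extZero R g (ρP (t : G)⁻¹ (x i) - x i))
  have hc : ∀ i : I, ∃ c' : C, (∀ h ∈ H, ρC h c' = c') ∧
      ∑ h : H, ρC (h : G) (extZero R g ((p : ℤ) • x i)) = (p : ℤ) • c' := fun i => hC _
  choose c hcinv hcsum using hc
  let y : I → C := fun i => a i + c i
  -- (F1) `F (p x i) = p y i`
  have hF1 : ∀ i, F ((p : ℤ) • x i) = (p : ℤ) • y i := by
    intro i
    simp only [F, y, a]
    rw [smul_add, Finset.smul_sum, ← hcsum i, ← Finset.sum_add_distrib]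
    refine Finset.sum_congr rfl fun t _ => ?_
    have h1 : ρP (t : G)⁻¹ ((p : ℤ) • x i) =
        (p : ℤ) • (ρP (t : G)⁻¹ (x i) - x i) + (p : ℤ) • x i := by
      rw [map_smul, smul_sub, sub_add_cancel]
    rw [h1, extZero_add R g (R.smul_mem _ (hw i t)) (hp (x i)),
      extZero_zsmul R g _ (hw i t), map_add, map_smul]
  -- (F2) `F (h x i - x i) = h a i - a i`
  have hF2 : ∀ i, ∀ h ∈ H, F (ρP h (x i) - x i) = ρC h (a i) - a i := by
    intro i h hh
    simp only [F, a]
    rw [map_sum, ← Finset.sum_sub_distrib]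
    have key : ∀ t : H, ρC (t : G) (extZero R g (ρP (t : G)⁻¹ (ρP h (x i) - x i))) =
        ρC (t : G) (extZero R g (ρP ((⟨h, hh⟩ : H)⁻¹ * t : H).1⁻¹ (x i) - x i)) -
          ρC (t : G) (extZero R g (ρP (t : G)⁻¹ (x i) - x i)) := by
      intro t
      have h1 : ρP (t : G)⁻¹ (ρP h (x i) - x i) =
          (ρP ((⟨h, hh⟩ : H)⁻¹ * t : H).1⁻¹ (x i) - x i) - (ρP (t : G)⁻¹ (x i) - x i) := by
        simp only [Subgroup.coe_mul, Subgroup.coe_inv, mul_inv_rev, inv_inv]
        rw [map_sub, rho_mul_apply ρP]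
        abel
      rw [h1, extZero_sub R g (hw i _) (hw i t), map_sub]
    rw [Finset.sum_congr rfl fun t _ => key t, Finset.sum_sub_distrib, Finset.sum_sub_distrib]
    congr 1
    refine Fintype.sum_equiv (Equiv.mulLeft (⟨h, hh⟩ : H)⁻¹) _ _ fun t => ?_
    simp only [Equiv.coe_mulLeft, Subgroup.coe_mul, Subgroup.coe_inv, mul_inv_rev, inv_inv]
    rw [← rho_mul_apply ρC, mul_inv_cancel_left]
  -- the relations
  have hrel : ∀ (m : I →₀ ℤ) (hm : Finsupp.linearCombination ℤ x m ∈ R),
      f ⟨_, hm⟩ = Finsupp.linearCombination ℤ y m := by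
    intro m hm
    have hd := hdvd m hm
    have hl : ∀ i, (m i / (p : ℤ)) * (p : ℤ) = m i := fun i => Int.ediv_mul_cancel (hd i)
    let l : I →₀ ℤ := m.mapRange (fun n => n / (p : ℤ)) (by simp)
    let xr : I → R := fun i => ⟨(p : ℤ) • x i, hp (x i)⟩
    have h1 : (⟨_, hm⟩ : R) = Finsupp.linearCombination ℤ xr l := by
      apply Subtype.ext
      have e1 : ((Finsupp.linearCombination ℤ xr l : R) : P) =
          Finsupp.linearCombination ℤ (fun i => (p : ℤ) • x i) l := by
        rw [← Submodule.subtype_apply, LinearMap.map_finsupp_linearCombination]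
        rfl
      rw [e1]
      show Finsupp.linearCombination ℤ x m = _
      rw [Finsupp.linearCombination_apply, Finsupp.linearCombination_apply,
        Finsupp.sum_mapRange_index (by intro i; exact zero_smul _ _)]
      refine Finsupp.sum_congr fun i _ => ?_
      rw [smul_smul, hl]
    rw [h1, LinearMap.map_finsupp_linearCombination, Finsupp.linearCombination_apply,
      Finsupp.linearCombination_apply, Finsupp.sum_mapRange_index (by intro i; exact zero_smul _ _)]
    refine Finsupp.sum_congr fun i _ => ?_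
    show (m i / (p : ℤ)) • f (xr i) = m i • y i
    rw [hf]
    show (m i / (p : ℤ)) • F ((p : ℤ) • x i) = m i • y i
    rw [hF1, smul_smul, hl]
  obtain ⟨k, hkR, hkx⟩ := exists_linearMap_extend R f x y hgen hrel
  have hk_equiv : ∀ h ∈ H, ∀ z : P, k (ρP h z) = ρC h (k z) := by
    intro h hh
    have hle : (⊤ : Submodule ℤ P) ≤ LinearMap.eqLocus (k ∘ₗ ρP h) (ρC h ∘ₗ k) := by
      rw [← hgen, sup_le_iff]
      refine ⟨fun r hr => ?_, Submodule.span_le.mpr ?_⟩
      · show k (ρP h r) = ρC h (k r)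
        have e1 : k (ρP h r) = f ⟨ρP h r, hR h r hr⟩ := hkR ⟨_, _⟩
        have e2 : k r = f ⟨r, hr⟩ := hkR ⟨r, hr⟩
        rw [e1, e2, hf, hf]
        exact hF_equiv h hh r
      · rintro _ ⟨i, rfl⟩
        show k (ρP h (x i)) = ρC h (k (x i))
        have e2 : k (ρP h (x i) - x i) = f ⟨_, hH h hh (x i)⟩ := hkR ⟨_, _⟩
        have e3 : k (ρP h (x i)) = k (ρP h (x i) - x i) + k (x i) := by
          rw [← map_add, sub_add_cancel]
        rw [e3, e2, hf, hkx]
        show F (ρP h (x i) - x i) + y i = ρC h (y i)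
        rw [hF2 i h hh]
        simp only [y, map_add, hcinv i h hh]
        abel
    intro z
    exact hle (Submodule.mem_top : z ∈ ⊤)
  exact ⟨k, hk_equiv, fun r => by rw [hkR, hf]⟩

/-- The bijection `(G ⧸ H) × H ≃ G`, `(q, t) ↦ q.out * t`. -/
noncomputable def cosetProdEquiv (H : Subgroup G) : (G ⧸ H) × H ≃ G where
  toFun x := x.1.out * x.2
  invFun σ := (QuotientGroup.mk σ, ⟨(QuotientGroup.mk σ : G ⧸ H).out⁻¹ * σ, by
    rw [← QuotientGroup.eq]; exact QuotientGroup.out_eq' _⟩)
  left_inv x := by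
    have h1 : (QuotientGroup.mk (x.1.out * (x.2 : G)) : G ⧸ H) = x.1 := by
      rw [QuotientGroup.mk_mul_of_mem _ x.2.2, QuotientGroup.out_eq']
    refine Prod.ext h1 (Subtype.ext ?_)
    show (QuotientGroup.mk (x.1.out * (x.2 : G)) : G ⧸ H).out⁻¹ * (x.1.out * (x.2 : G)) = x.2
    rw [h1, inv_mul_cancel_left]
  right_inv σ := by
    show (QuotientGroup.mk σ : G ⧸ H).out * ((QuotientGroup.mk σ : G ⧸ H).out⁻¹ * σ) = σ
    rw [mul_inv_cancel_left]

include hR in
/-- **ALG4 (NORM-KILL).**  `G` finite, `R ≤ P` a `G`-stable subgroup with `p P ⊆ R`, `H ≤ G`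
acting trivially on `P / R`, `C` a `G`-module with `N_H(C) ⊆ p · C^H`.  Then for every ADDITIVE
map `g : R → C` the norm `N_G(g) = ∑_σ σ g σ⁻¹` is the restriction of a `G`-homomorphism
`P → C`. -/
theorem alg4 [Fintype G] (p : ℕ) [Fact p.Prime] (hp : ∀ x : P, (p : ℤ) • x ∈ R)
    (H : Subgroup G) [Fintype H] (hH : ∀ h ∈ H, ∀ x : P, ρP h x - x ∈ R)
    (hC : ∀ c : C, ∃ c' : C, (∀ h ∈ H, ρC h c' = c') ∧ ∑ h : H, ρC (h : G) c = (p : ℤ) • c')
    (g : R →ₗ[ℤ] C) :
    ∃ K : P →ₗ[ℤ] C, (∀ (σ : G) (z : P), K (ρP σ z) = ρC σ (K z)) ∧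
      ∀ r : R, K r = normHom ρP ρC R hR g r := by
  classical
  obtain ⟨k, hk, hkR⟩ := exists_extend_normH ρP ρC R hR p hp H hH hC g
  let cj : G → (P →ₗ[ℤ] C) := fun σ => ρC σ ∘ₗ k ∘ₗ ρP σ⁻¹
  have hcj : ∀ (σ : G) (z : P), cj σ z = ρC σ (k (ρP σ⁻¹ z)) := fun σ z => rfl
  have hcj_mul : ∀ (σ h : G), h ∈ H → cj (σ * h) = cj σ := by
    intro σ h hh
    ext z
    rw [hcj, hcj, mul_inv_rev, rho_mul_apply ρC, rho_mul_apply ρP, ← hk h hh, rho_apply_inv]
  haveI : Fintype (G ⧸ H) := Fintype.ofFinite _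
  have hcj_out : ∀ σ : G, cj ((QuotientGroup.mk σ : G ⧸ H).out) = cj σ := by
    intro σ
    obtain ⟨h, hh⟩ := QuotientGroup.mk_out_eq_mul H σ
    rw [hh, hcj_mul σ h h.2]
  refine ⟨∑ q : G ⧸ H, cj q.out, ?_, ?_⟩
  · intro τ z
    simp only [LinearMap.sum_apply, map_sum]
    have h1 : ∀ q : G ⧸ H, cj q.out (ρP τ z) = ρC τ (cj ((τ⁻¹ • q).out) z) := by
      intro q
      have e : (τ⁻¹ • q) = QuotientGroup.mk (τ⁻¹ * q.out) := by
        conv_lhs => rw [← QuotientGroup.out_eq' q]
        rfl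
      rw [e, hcj_out, hcj, hcj, mul_inv_rev, inv_inv, rho_mul_apply ρP, ← rho_mul_apply ρC,
        mul_inv_cancel_left]
    rw [Finset.sum_congr rfl fun q _ => h1 q]
    exact Fintype.sum_equiv (MulAction.toPerm τ⁻¹) _ _ fun q => rfl
  · intro r
    rw [normHom_apply]
    simp only [LinearMap.sum_apply]
    have h1 : ∀ q : G ⧸ H, cj q.out r =
        ∑ t : H, ρC (q.out * t) (extZero R g (ρP (q.out * (t : G))⁻¹ r)) := by
      intro q
      have e1 := hkR ⟨ρP q.out⁻¹ r, hR _ r r.2⟩
      rw [hcj, e1, map_sum]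
      refine Finset.sum_congr rfl fun t _ => ?_
      rw [rho_mul_apply ρC, mul_inv_rev, rho_mul_apply ρP]
    rw [Finset.sum_congr rfl fun q _ => h1 q, ← Fintype.sum_prod_type'
      (f := fun (q : G ⧸ H) (t : H) => ρC (q.out * t) (extZero R g (ρP (q.out * (t : G))⁻¹ r)))]
    refine Fintype.sum_equiv (cosetProdEquiv H) _ _ fun x => ?_
    show _ = ρC (x.1.out * x.2) (g ⟨ρP (x.1.out * (x.2 : G))⁻¹ r, _⟩)
    rw [extZero_of_mem R g (hR _ r r.2)]

/-- **ALG2.**  If `p P ⊆ R` and `f : R → X` is a `G`-homomorphism then `p • f` is the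
restriction of a `G`-homomorphism `P → X`, namely `x ↦ f (p x)`. -/
theorem alg2 {X : Type*} [AddCommGroup X] (ρX : Representation ℤ G X) (p : ℕ)
    (hp : ∀ x : P, (p : ℤ) • x ∈ R) (f : R →ₗ[ℤ] X)
    (hf : ∀ (σ : G) (r : R), f ⟨ρP σ r, hR σ r r.2⟩ = ρX σ (f r)) :
    ∃ K : P →ₗ[ℤ] X, (∀ (σ : G) (z : P), K (ρP σ z) = ρX σ (K z)) ∧
      ∀ r : R, K r = (p : ℤ) • f r := by
  let K : P →ₗ[ℤ] X :=
    { toFun := fun z => f ⟨(p : ℤ) • z, hp z⟩
      map_add' := fun z z' => by
        rw [← map_add]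
        exact congrArg f (Subtype.ext (smul_add _ _ _))
      map_smul' := fun n z => by
        rw [RingHom.id_apply, ← map_smul]
        exact congrArg f (Subtype.ext (smul_comm _ _ _)) }
  refine ⟨K, fun σ z => ?_, fun r => ?_⟩
  · show f ⟨(p : ℤ) • ρP σ z, _⟩ = ρX σ (f ⟨(p : ℤ) • z, hp z⟩)
    rw [← hf]
    exact congrArg f (Subtype.ext (map_smul _ _ _).symm)
  · show f ⟨(p : ℤ) • (r : P), _⟩ = _
    rw [← map_smul]
    exact congrArg f (Subtype.ext rfl)

end Main

end Fermat.Agent.S55.E1.H423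

end
-- ===== PACK-END S55/E1/H423/Alg4.lean

-- ===== PACK-BEGIN S55/G/Exist121/Index.lean
section


/-!
# S55, layer G, block EXIST (global existence theorem mod `p`): the abstract index identity

Pure algebra, Mathlib only.  Author: helper121.

Setting (all groups additive, abelian).  `X`, `J`, `I` abelian groups, `ι : X →+ J`, `d : X →+ I`,
`p : ℕ` such that `I` has no `p`-torsion.  Think of

* `X = Fˣ`, `J = ∏_{w ∈ S} F_wˣ`, `I =` group of fractional ideals prime to `S`,
* `ι` the diagonal embedding, `d` the divisor map,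
* `C = (J × I) / X` the `S`-idèle class group, `E = ker d` the `S`-units, `Cl = I / d X` the
  `S`-class group, `V = d⁻¹(p I)` (so `V / p X` is the Selmer group `F(S, p)`),
  `Sha = V ∩ ι⁻¹(p J)` (elements of `V` which are local `p`-th powers at all `w ∈ S`).

Main result `Exist121.index_identity`:
`[C : pC] * [E : pE] = [J : pJ] * [Sha : pX]` as soon as `d X` has finite index in `I`.

All indices are expressed by `AddSubgroup.index` / `AddSubgroup.relIndex` of subgroups of `X`, `J`,
`I` and `J × I`; no quotient types are needed by consumers.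
-/

set_option autoImplicit false

namespace Fermat.Agent.S55.G.Exist121

section Defs

variable {X J I : Type*} [AddCommGroup X] [AddCommGroup J] [AddCommGroup I]

/-- The subgroup `p A` of an abelian group. -/
def pMul (A : Type*) [AddCommGroup A] (p : ℕ) : AddSubgroup A :=
  (nsmulAddMonoidHom p : A →+ A).range

lemma mem_pMul {A : Type*} [AddCommGroup A] {p : ℕ} {a : A} :
    a ∈ pMul A p ↔ ∃ b : A, p • b = a := Iff.rfl

lemma nsmul_mem_pMul {A : Type*} [AddCommGroup A] (p : ℕ) (b : A) : p • b ∈ pMul A p :=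
  ⟨b, rfl⟩

/-- The diagonal map `X → J × I`. -/
def diag (ι : X →+ J) (d : X →+ I) : X →+ J × I := ι.prod d

@[simp] lemma diag_apply (ι : X →+ J) (d : X →+ I) (x : X) : diag ι d x = (ι x, d x) := rfl

/-- The subgroup `X + p (J × I)` of `J × I`; its index is `[C : pC]` for `C = (J × I)/X`. -/
def classP (ι : X →+ J) (d : X →+ I) (p : ℕ) : AddSubgroup (J × I) :=
  (diag ι d).range ⊔ pMul (J × I) p

/-- `V = d⁻¹(p I)`: elements whose divisor is a `p`-th multiple. -/
def selV (d : X →+ I) (p : ℕ) : AddSubgroup X := (pMul I p).comap d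

/-- `Sha = V ∩ ι⁻¹(p J)`. -/
def sha (ι : X →+ J) (d : X →+ I) (p : ℕ) : AddSubgroup X := (pMul J p).comap ι ⊓ selV d p

lemma pMul_le_selV (d : X →+ I) (p : ℕ) : pMul X p ≤ selV d p := by
  rintro _ ⟨x, rfl⟩
  exact ⟨d x, by simp⟩

lemma pMul_le_sha (ι : X →+ J) (d : X →+ I) (p : ℕ) : pMul X p ≤ sha ι d p := by
  intro y hy
  refine ⟨?_, pMul_le_selV d p hy⟩
  obtain ⟨x, rfl⟩ := hy
  exact ⟨ι x, by simp⟩

lemma sha_le_selV (ι : X →+ J) (d : X →+ I) (p : ℕ) : sha ι d p ≤ selV d p := inf_le_right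

lemma ker_le_selV (d : X →+ I) (p : ℕ) : d.ker ≤ selV d p := by
  intro x hx
  have hx0 : d x = 0 := hx
  show d x ∈ pMul I p
  rw [hx0]
  exact zero_mem _

end Defs

section Identity

variable {X J I : Type*} [AddCommGroup X] [AddCommGroup J] [AddCommGroup I]
variable (ι : X →+ J) (d : X →+ I) (p : ℕ)

/-- `p E` where `E = ker d`. -/
def pKer : AddSubgroup X := (d.ker).map (nsmulAddMonoidHom p : X →+ X)

lemma pKer_le_ker : pKer d p ≤ d.ker := by
  rintro _ ⟨x, hx, rfl⟩
  have hx0 : d x = 0 := hx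
  show d ((nsmulAddMonoidHom p : X →+ X) x) = 0
  simp [hx0]

/-- If `I` has no `p`-torsion then `p X ∩ E = p E`. -/
lemma pMul_inf_ker (hI : ∀ i : I, p • i = 0 → i = 0) : pMul X p ⊓ d.ker = pKer d p := by
  apply le_antisymm
  · rintro y ⟨⟨x, rfl⟩, hy⟩
    have hy0 : d ((nsmulAddMonoidHom p : X →+ X) x) = 0 := hy
    refine ⟨x, ?_, rfl⟩
    show d x = 0
    apply hI
    simpa using hy0
  · intro y hy
    refine ⟨?_, pKer_le_ker d p hy⟩
    obtain ⟨x, -, rfl⟩ := hy
    exact ⟨x, rfl⟩

/-- Step 1: the comap of `X + p (J × I)` along `J → J × I` is `p J + ι V`. -/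
lemma comap_inl_classP :
    (classP ι d p).comap (AddMonoidHom.inl J I) = pMul J p ⊔ (selV d p).map ι := by
  apply le_antisymm
  · intro j hj
    have hj' : ((j, 0) : J × I) ∈ classP ι d p := hj
    rw [classP, AddSubgroup.mem_sup] at hj'
    obtain ⟨_, ⟨x, rfl⟩, _, ⟨⟨j', i'⟩, rfl⟩, h⟩ := hj'
    have h1 : ι x + p • j' = j := by simpa using congrArg Prod.fst h
    have h2 : d x + p • i' = 0 := by simpa using congrArg Prod.snd h
    rw [AddSubgroup.mem_sup]
    refine ⟨p • j', nsmul_mem_pMul p j', ι x, ⟨x, ?_, rfl⟩, by rw [add_comm]; exact h1⟩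
    show d x ∈ pMul I p
    refine ⟨-i', ?_⟩
    have : d x = -(p • i') := eq_neg_of_add_eq_zero_left h2
    simp [this]
  · rw [sup_le_iff]
    constructor
    · rintro _ ⟨j', rfl⟩
      show ((_, 0) : J × I) ∈ classP ι d p
      refine AddSubgroup.mem_sup_right ⟨(j', 0), ?_⟩
      simp
    · rintro _ ⟨x, ⟨i', hi'⟩, rfl⟩
      show ((ι x, 0) : J × I) ∈ classP ι d p
      rw [classP, AddSubgroup.mem_sup]
      refine ⟨(ι x, d x), ⟨x, rfl⟩, p • ((0 : J), -i'), nsmul_mem_pMul p _, ?_⟩
      have hi'' : p • i' = d x := hi'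
      ext
      · simp
      · simp [← hi'']

/-- The subgroup of `J × I` of pairs whose second component lies in `d X + p I`. -/
def bigK : AddSubgroup (J × I) := (d.range ⊔ pMul I p).comap (AddMonoidHom.snd J I)

lemma classP_le_bigK : classP ι d p ≤ bigK (J := J) d p := by
  rw [classP, sup_le_iff]
  constructor
  · rintro _ ⟨x, rfl⟩
    exact AddSubgroup.mem_sup_left ⟨x, rfl⟩
  · rintro _ ⟨⟨j, i⟩, rfl⟩
    exact AddSubgroup.mem_sup_right ⟨i, by simp⟩

lemma bigK_eq : bigK (J := J) d p = classP ι d p ⊔ (AddMonoidHom.inl J I).range := by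
  apply le_antisymm
  · rintro ⟨j, i⟩ hji
    have hi : i ∈ d.range ⊔ pMul I p := hji
    rw [AddSubgroup.mem_sup] at hi
    obtain ⟨_, ⟨x, rfl⟩, _, ⟨i', rfl⟩, rfl⟩ := hi
    rw [AddSubgroup.mem_sup]
    refine ⟨(ι x, d x) + (0, p • i'), ?_, (j - ι x, 0), ⟨j - ι x, rfl⟩, ?_⟩
    · refine (classP ι d p).add_mem (AddSubgroup.mem_sup_left ⟨x, rfl⟩)
        (AddSubgroup.mem_sup_right ⟨(0, i'), ?_⟩)
      simp
    · ext <;> simp
  · rw [sup_le_iff]
    refine ⟨classP_le_bigK ι d p, ?_⟩
    rintro _ ⟨j, rfl⟩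
    show (0 : I) ∈ d.range ⊔ pMul I p
    exact zero_mem _

/-- Step 1, index form: `[J × I : X + p(J × I)] = [I : dX + pI] * [J : pJ + ιV]`. -/
lemma index_classP :
    (classP ι d p).index =
      (d.range ⊔ pMul I p).index * (pMul J p ⊔ (selV d p).map ι).index := by
  have h1 : (classP ι d p).relIndex (bigK (J := J) d p) * (bigK (J := J) d p).index =
      (classP ι d p).index := AddSubgroup.relIndex_mul_index (classP_le_bigK ι d p)
  have h2 : (bigK (J := J) d p).index = (d.range ⊔ pMul I p).index := by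
    unfold bigK
    exact AddSubgroup.index_comap_of_surjective _ (fun i => ⟨(0, i), rfl⟩)
  have h3 : (classP ι d p).relIndex (bigK (J := J) d p) =
      (pMul J p ⊔ (selV d p).map ι).index := by
    rw [bigK_eq ι d p, AddSubgroup.relIndex_sup_left, ← comap_inl_classP,
      ← AddSubgroup.relIndex_top_right, AddSubgroup.relIndex_comap, ← AddMonoidHom.range_eq_map]
  rw [← h1, h2, h3, mul_comm]

/-- Step 2: `[J : pJ] = [J : pJ + ιV] * [V : Sha]`. -/
lemma index_pMul_J :
    (pMul J p).index =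
      (pMul J p ⊔ (selV d p).map ι).index * (sha ι d p).relIndex (selV d p) := by
  have h1 : (pMul J p).relIndex (pMul J p ⊔ (selV d p).map ι) *
      (pMul J p ⊔ (selV d p).map ι).index = (pMul J p).index :=
    AddSubgroup.relIndex_mul_index le_sup_left
  have h2 : (pMul J p).relIndex (pMul J p ⊔ (selV d p).map ι) =
      (sha ι d p).relIndex (selV d p) := by
    rw [AddSubgroup.relIndex_sup_left, ← AddSubgroup.relIndex_comap, sha,
      AddSubgroup.inf_relIndex_right]
  rw [← h1, h2, mul_comm]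

/-- Step 3: `[V : pX] = [V : Sha] * [Sha : pX]`. -/
lemma relIndex_pMul_selV :
    (pMul X p).relIndex (selV d p) =
      (pMul X p).relIndex (sha ι d p) * (sha ι d p).relIndex (selV d p) :=
  (AddSubgroup.relIndex_mul_relIndex _ _ _ (pMul_le_sha ι d p) (sha_le_selV ι d p)).symm

/-- `E + pX = d⁻¹(d(pX))`. -/
lemma ker_sup_pMul : d.ker ⊔ pMul X p = ((pMul X p).map d).comap d := by
  apply le_antisymm
  · rw [sup_le_iff]
    constructor
    · intro x hx
      have hx0 : d x = 0 := hx
      show d x ∈ (pMul X p).map d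
      rw [hx0]; exact zero_mem _
    · intro x hx
      exact ⟨x, hx, rfl⟩
  · intro x hx
    obtain ⟨y, hy, hxy⟩ := hx
    rw [AddSubgroup.mem_sup]
    refine ⟨x - y, ?_, y, hy, by abel⟩
    show d (x - y) = 0
    rw [map_sub, hxy, sub_self]

/-- `d V = pI ∩ dX`. -/
lemma map_selV : (selV d p).map d = pMul I p ⊓ d.range := by
  apply le_antisymm
  · rintro _ ⟨x, hx, rfl⟩
    exact ⟨hx, x, rfl⟩
  · rintro _ ⟨hi, x, rfl⟩
    exact ⟨x, hi, rfl⟩

/-- `d (pX) = p (dX)`. -/
lemma map_pMul : (pMul X p).map d = (d.range).map (nsmulAddMonoidHom p : I →+ I) := by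
  apply le_antisymm
  · rintro _ ⟨_, ⟨x, rfl⟩, rfl⟩
    exact ⟨d x, ⟨x, rfl⟩, by simp⟩
  · rintro _ ⟨_, ⟨x, rfl⟩, rfl⟩
    exact ⟨p • x, ⟨x, rfl⟩, by simp⟩

/-- Step 4a: `[V : E + pX] = [pI ∩ dX : p dX]`. -/
lemma relIndex_ker_sup_pMul :
    (d.ker ⊔ pMul X p).relIndex (selV d p) =
      ((pMul X p).map d).relIndex (pMul I p ⊓ d.range) := by
  rw [ker_sup_pMul, AddSubgroup.relIndex_comap, map_selV]

/-- Step 4b (`|Cl/p| = |Cl[p]|` for finite `Cl`): if `dX` has finite index in `I` and `I` has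
no `p`-torsion, then `[pI ∩ dX : p dX] = [I : dX + pI]`. -/
lemma relIndex_tor_eq (hI : ∀ i : I, p • i = 0 → i = 0) (hfin : d.range.index ≠ 0) :
    ((pMul X p).map d).relIndex (pMul I p ⊓ d.range) = (d.range ⊔ pMul I p).index := by
  have hinj : Function.Injective (nsmulAddMonoidHom p : I →+ I) := by
    rw [injective_iff_map_eq_zero]
    intro i hi
    exact hI i (by simpa using hi)
  -- `[pI : p dX] = [I : dX]`
  have e1 : ((pMul X p).map d).relIndex (pMul I p) = d.range.index := by
    have hp : pMul I p = (⊤ : AddSubgroup I).map (nsmulAddMonoidHom p : I →+ I) :=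
      AddMonoidHom.range_eq_map _
    rw [map_pMul, hp,
      AddSubgroup.relIndex_map_map_of_injective _ _ hinj, AddSubgroup.relIndex_top_right]
  -- `p dX ≤ pI ∩ dX ≤ pI`
  have hle1 : (pMul X p).map d ≤ pMul I p ⊓ d.range := by
    rintro _ ⟨_, ⟨x, rfl⟩, rfl⟩
    exact ⟨⟨d x, by simp⟩, ⟨p • x, rfl⟩⟩
  have e2 : ((pMul X p).map d).relIndex (pMul I p ⊓ d.range) *
      (pMul I p ⊓ d.range).relIndex (pMul I p) = ((pMul X p).map d).relIndex (pMul I p) :=
    AddSubgroup.relIndex_mul_relIndex _ _ _ hle1 inf_le_left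
  have e3 : (pMul I p ⊓ d.range).relIndex (pMul I p) = d.range.relIndex (d.range ⊔ pMul I p) := by
    rw [AddSubgroup.inf_relIndex_left, AddSubgroup.relIndex_sup_left]
  have e4 : d.range.relIndex (d.range ⊔ pMul I p) * (d.range ⊔ pMul I p).index =
      d.range.index := AddSubgroup.relIndex_mul_index le_sup_left
  have hne : d.range.relIndex (d.range ⊔ pMul I p) ≠ 0 := by
    intro h0
    rw [h0, zero_mul] at e4
    exact hfin e4.symm
  have : ((pMul X p).map d).relIndex (pMul I p ⊓ d.range) *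
      d.range.relIndex (d.range ⊔ pMul I p) =
      (d.range ⊔ pMul I p).index * d.range.relIndex (d.range ⊔ pMul I p) := by
    rw [← e3, e2, e1, ← e4, e3, mul_comm]
  exact Nat.eq_of_mul_eq_mul_right (Nat.pos_of_ne_zero hne) this

/-- Step 4: `[V : pX] = [E : pE] * [I : dX + pI]`. -/
lemma relIndex_pMul_selV' (hI : ∀ i : I, p • i = 0 → i = 0) (hfin : d.range.index ≠ 0) :
    (pMul X p).relIndex (selV d p) =
      (pKer d p).relIndex d.ker * (d.range ⊔ pMul I p).index := by
  have h1 : (pMul X p).relIndex (d.ker ⊔ pMul X p) * (d.ker ⊔ pMul X p).relIndex (selV d p) =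
      (pMul X p).relIndex (selV d p) :=
    AddSubgroup.relIndex_mul_relIndex _ _ _ le_sup_right
      (sup_le (ker_le_selV d p) (pMul_le_selV d p))
  have h2 : (pMul X p).relIndex (d.ker ⊔ pMul X p) = (pKer d p).relIndex d.ker := by
    rw [AddSubgroup.relIndex_sup_right, ← AddSubgroup.inf_relIndex_right, pMul_inf_ker d p hI]
  rw [← h1, h2, relIndex_ker_sup_pMul, relIndex_tor_eq d p hI hfin]

/-- **Index identity.**  `[C : pC] * [E : pE] = [J : pJ] * [Sha : pX]`, where
`C = (J × I)/X`, `E = ker d`, `Sha = {x ∈ X : d x ∈ pI, ι x ∈ pJ}`; valid as soon as `I` has no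
`p`-torsion and `d X` has finite index in `I`.  (Indices of infinite-index subgroups are `0`.) -/
theorem index_identity (hI : ∀ i : I, p • i = 0 → i = 0) (hfin : d.range.index ≠ 0) :
    (classP ι d p).index * (pKer d p).relIndex d.ker =
      (pMul J p).index * (pMul X p).relIndex (sha ι d p) := by
  rw [index_classP, index_pMul_J ι d p]
  have h3 := relIndex_pMul_selV ι d p
  have h4 := relIndex_pMul_selV' d p hI hfin
  -- a*b*e = b*s*t  where  v = t*s,  v = e*a
  calc (d.range ⊔ pMul I p).index * (pMul J p ⊔ (selV d p).map ι).index *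
        (pKer d p).relIndex d.ker
      = (pMul J p ⊔ (selV d p).map ι).index *
          ((pKer d p).relIndex d.ker * (d.range ⊔ pMul I p).index) := by ring
    _ = (pMul J p ⊔ (selV d p).map ι).index * (pMul X p).relIndex (selV d p) := by rw [h4]
    _ = (pMul J p ⊔ (selV d p).map ι).index *
          ((pMul X p).relIndex (sha ι d p) * (sha ι d p).relIndex (selV d p)) := by rw [h3]
    _ = (pMul J p ⊔ (selV d p).map ι).index * (sha ι d p).relIndex (selV d p) *
          (pMul X p).relIndex (sha ι d p) := by ring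

end Identity

end Fermat.Agent.S55.G.Exist121

end
-- ===== PACK-END S55/G/Exist121/Index.lean

-- ===== PACK-BEGIN S55/KG/Abs.lean
section


/-!
# S55, layer KG (global Kummer hypotheses), abstract part            (architect: helper183)

Purpose: input A3 of the duality engine (`PT.Surj2GlobSpec`, i.e. `cd_p(G_S) ≤ 2`) from the
finite-level class field theory of the tower, through the closed abstract machine of layer KL.

This file is ABSTRACT and Mathlib-only: towers of groups, systems of modules over a tower,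
"eventual" properties of their cohomology classes, and the frozen statements (Spec pattern,
`def XxxSpec : Prop`, no `sorry`) of the purely formal leaves:

* `ChaseET3Spec` : `colim H³(E)[p] = 0` from a levelwise short exact sequence `E → J → C`;
* `ChaseED2Spec` : `colim H²(E) ⊗ ℤ/p = 0`;
* `CapKerSpec`   : capitulation kills `ker(Hⁿ(C') → Hⁿ(C))`, `p`-primary part (`n = 1, 2`);
* `LiftCapSpec`, `DivCapSpec`, `LiftCycSpec` : formal consequences.

Blueprint with proofs: `coord/S55-KG.md` on `origin/helper183`.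
-/

set_option autoImplicit false

open CategoryTheory groupCohomology

namespace Fermat.Agent.S55.KG

/-! ## Towers of groups and systems of modules -/

/-- A tower of groups: groups `G i` indexed by a preorder, with transition maps
`π h : G j →* G i` for `h : i ≤ j` (think `G i = Gal(F_i/K)`, `F_i ⊂ F_j`). -/
structure GTower where
  /-- the index set ("levels") -/
  ι : Type
  /-- the order on levels -/
  pre : Preorder ι
  /-- the groups -/
  G : ι → Type
  /-- group structures -/
  grp : ∀ i, Group (G i)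
  /-- the transition maps -/
  π : ∀ {i j : ι}, i ≤ j → (G j →* G i)
  /-- transitivity -/
  π_trans : ∀ {i j k : ι} (h : i ≤ j) (h' : j ≤ k) (g : G k), π h (π h' g) = π (h.trans h') g

attribute [instance] GTower.pre GTower.grp

/-- The tower is directed. -/
def GTower.Directed (𝒯 : GTower) : Prop := ∀ i j : 𝒯.ι, ∃ k : 𝒯.ι, i ≤ k ∧ j ≤ k

/-- A system of modules over a tower: a `G i`-module `M i` for every level, with transition maps
`M i → M j` (`i ≤ j`), equivariant along `π`, transitive. -/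
structure GTower.Mod (𝒯 : GTower) where
  /-- the modules -/
  M : ∀ i : 𝒯.ι, Rep.{0} ℤ (𝒯.G i)
  /-- the transition maps -/
  t : ∀ {i j : 𝒯.ι} (h : i ≤ j), Rep.res (𝒯.π h) (M i) ⟶ M j
  /-- transitivity -/
  t_trans : ∀ {i j k : 𝒯.ι} (h : i ≤ j) (h' : j ≤ k) (x : (M i).V),
    (t h').hom ((t h).hom x) = (t (h.trans h')).hom x

namespace GTower.Mod

variable {𝒯 : GTower}

/-- Inflation `Hⁿ(G i, M i) ⟶ Hⁿ(G j, M j)` for `i ≤ j`. -/
noncomputable def infl (X : 𝒯.Mod) {i j : 𝒯.ι} (h : i ≤ j) (n : ℕ) :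
    groupCohomology (X.M i) n ⟶ groupCohomology (X.M j) n :=
  groupCohomology.map (𝒯.π h) (X.t h) n

/-- The class `y` dies at a higher level. -/
def EvZero (X : 𝒯.Mod) (n : ℕ) {i : 𝒯.ι} (y : groupCohomology (X.M i) n) : Prop :=
  ∃ (j : 𝒯.ι) (h : i ≤ j), (X.infl h n).hom y = 0

/-- `colim Hⁿ(M)[p] = 0` (elementwise). -/
def EvTors (X : 𝒯.Mod) (p n : ℕ) : Prop :=
  ∀ (i : 𝒯.ι) (y : groupCohomology (X.M i) n), p • y = 0 → X.EvZero n y

/-- `colim Hⁿ(M) ⊗ ℤ/p = 0` (elementwise): every class becomes divisible by `p`. -/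
def EvDiv (X : 𝒯.Mod) (p n : ℕ) : Prop :=
  ∀ (i : 𝒯.ι) (x : groupCohomology (X.M i) n),
    ∃ (j : 𝒯.ι) (h : i ≤ j) (w : groupCohomology (X.M j) n), (X.infl h n).hom x = p • w

/-- A morphism of systems of modules. -/
structure Hom (X Y : 𝒯.Mod) where
  /-- the levelwise morphisms -/
  f : ∀ i : 𝒯.ι, X.M i ⟶ Y.M i
  /-- compatibility with the transition maps -/
  comm : ∀ {i j : 𝒯.ι} (h : i ≤ j) (x : (X.M i).V),
    (Y.t h).hom ((f i).hom x) = (f j).hom ((X.t h).hom x)

/-- Composition of morphisms of systems. -/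
def Hom.comp {X Y Z : 𝒯.Mod} (φ : Hom X Y) (ψ : Hom Y Z) : Hom X Z where
  f i := φ.f i ≫ ψ.f i
  comm h x := by
    show (Z.t h).hom ((ψ.f _).hom ((φ.f _).hom x)) = (ψ.f _).hom ((φ.f _).hom ((X.t h).hom x))
    rw [ψ.comm h, φ.comm h]

/-- The map induced on cohomology by a morphism of systems. -/
noncomputable def Hom.map {X Y : 𝒯.Mod} (φ : Hom X Y) (i : 𝒯.ι) (n : ℕ) :
    groupCohomology (X.M i) n ⟶ groupCohomology (Y.M i) n :=
  groupCohomology.map (MonoidHom.id (𝒯.G i)) (φ.f i) n

/-- `E → J → C` is levelwise short exact (elementwise form). -/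
def IsSES {E J C : 𝒯.Mod} (φ : Hom E J) (ψ : Hom J C) : Prop :=
  ∀ i : 𝒯.ι, Function.Injective (φ.f i).hom ∧ Function.Surjective (ψ.f i).hom ∧
    ∀ x : (J.M i).V, (ψ.f i).hom x = 0 ↔ ∃ e : (E.M i).V, (φ.f i).hom e = x

/-- Every `p`-torsion class of `Hⁿ(C)` comes, at a higher level, from a `p`-torsion class of
`Hⁿ(J)`. -/
def LiftTors {J C : 𝒯.Mod} (ψ : Hom J C) (p n : ℕ) : Prop :=
  ∀ (i : 𝒯.ι) (z : groupCohomology (C.M i) n), p • z = 0 →
    ∃ (j : 𝒯.ι) (h : i ≤ j) (t : groupCohomology (J.M j) n),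
      p • t = 0 ∧ (ψ.map j n).hom t = (C.infl h n).hom z

/-- Capitulation data for a subsystem `C' ⊂ C`: `C/C'` is torsion, and its `p`-primary part dies
in the tower. -/
def IsCap {C' C : 𝒯.Mod} (incl : Hom C' C) (p : ℕ) : Prop :=
  (∀ i : 𝒯.ι, Function.Injective (incl.f i).hom) ∧
  (∀ (i : 𝒯.ι) (c : (C.M i).V), ∃ m : ℕ, 0 < m ∧ m • c ∈ Set.range (incl.f i).hom) ∧
  (∀ (i : 𝒯.ι) (c : (C.M i).V) (a : ℕ), p ^ a • c ∈ Set.range (incl.f i).hom →
    ∃ (j : 𝒯.ι) (h : i ≤ j), (C.t h).hom c ∈ Set.range (incl.f j).hom)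

end GTower.Mod

/-- The `p`-torsion of `A` is cyclic: any `p`-torsion element is a multiple of any non-zero
`p`-torsion element. -/
def PTorsCyclic (A : Type) [AddCommGroup A] (p : ℕ) : Prop :=
  ∀ z z' : A, p • z = 0 → p • z' = 0 → z' ≠ 0 → ∃ n : ℕ, z = n • z'

open GTower.Mod

/-! ## The formal leaves -/

/-- **KG-AB1** (chase in degree 3).  `E → J → C` levelwise short exact, `colim H³(J)[p] = 0`,
`colim H²(J) ⊗ ℤ/p = 0`, and `p`-torsion classes of `H²(C)` lift to `p`-torsion classes of `H²(J)`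
at a higher level.  Then `colim H³(E)[p] = 0`.

Proof.  `y ∈ H³(E_i)[p]`.  `φ_* y` is `p`-torsion in `H³(J_i)`, so it dies at `j ≥ i`; replace `y`
by its inflation: `y = δ c`, `c ∈ H²(C_j)`.  `δ(p c) = 0`, so `p c = ψ_* x`, `x ∈ H²(J_j)`;
`infl x = p x'` at `k ≥ j`; `c' := infl c - ψ_* x'` is `p`-torsion; `infl c' = ψ_* t` at `m ≥ k`.
Then `infl y = δ(infl c) = δ(ψ_*(t + infl x')) = 0`.  (Long exact sequence of Mathlib;
naturality of `δ` and of `φ_*`, `ψ_*` with respect to `infl`: `groupCohomology.map` is functorial,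
`δ` is natural — see `KL.DeltaNatSpec`, proved on main in `KL/DeltaNatH304.lean`, Mathlib-only.) -/
def ChaseET3Spec : Prop :=
  ∀ (𝒯 : GTower) (E J C : 𝒯.Mod) (φ : Hom E J) (ψ : Hom J C) (p : ℕ), p.Prime → IsSES φ ψ →
    J.EvTors p 3 → J.EvDiv p 2 → LiftTors ψ p 2 → E.EvTors p 3

/-- **KG-AB2** (chase in degree 2).  `E → J → C` levelwise short exact,
`colim H²(J) ⊗ ℤ/p = 0`, `p`-torsion classes of `H²(C)` lift to `p`-torsion classes of `H²(J)` at
a higher level, and `colim H¹(C) ⊗ ℤ/p = 0`.  Then `colim H²(E) ⊗ ℤ/p = 0`.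

Proof.  `x ∈ H²(E_i)`; `infl φ_* x = p z` at `j`; `ζ := ψ_* z` is `p`-torsion, so
`infl ζ = ψ_* t`, `p t = 0`, at `k`; `infl z - t = φ_* w`; `φ_*(infl x - p w) = p t = 0`, so
`infl x - p w = δ c`, `c ∈ H¹(C_k)`; `infl c = p c'` at `m`; `infl x = p (infl w + δ c')`. -/
def ChaseED2Spec : Prop :=
  ∀ (𝒯 : GTower) (E J C : 𝒯.Mod) (φ : Hom E J) (ψ : Hom J C) (p : ℕ), p.Prime → IsSES φ ψ →
    J.EvDiv p 2 → LiftTors ψ p 2 → C.EvDiv p 1 → E.EvDiv p 2

/-- **KG-AB3a** (capitulation on cohomology).  Finite groups, directed tower, `C' ⊂ C` with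
capitulation.  A `p`-primary class `z ∈ Hⁿ(C'_i)` (`n = 1, 2`) which dies in `Hⁿ(C_i)` dies in
`Hⁿ(C'_j)` for some `j ≥ i`.

Proof.  Represent `z` by a cocycle with values in `C'_i`, `= d b` with `b` a cochain with values
in `C_i` (finitely many values).  Some `m > 0` has `m b ∈ C'`; `m = p^a m'`, `p ∤ m'`; capitulation
applied to the values of `m' b`: at some `j ≥ i` (common upper bound; membership in `C'` is stable
under transition by `incl.comm`), `m' · t(b)` has values in `C'_j`; so `m' · infl z = 0`; as `z` is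
`p`-primary, `infl z = 0`. -/
def CapKerSpec : Prop :=
  ∀ (𝒯 : GTower), 𝒯.Directed → (∀ i, Finite (𝒯.G i)) →
    ∀ (C' C : 𝒯.Mod) (incl : Hom C' C) (p : ℕ), p.Prime → IsCap incl p →
    ∀ n : ℕ, n = 1 ∨ n = 2 → ∀ (i : 𝒯.ι) (z : groupCohomology (C'.M i) n) (a : ℕ),
      p ^ a • z = 0 → (incl.map i n).hom z = 0 → C'.EvZero n z

/-- **KG-AB3b.**  Lifting of `p`-torsion classes of `H²` passes from `C` to the subsystem `C'`
(formal from `CapKerSpec`). -/
def LiftCapSpec : Prop :=
  ∀ (𝒯 : GTower), 𝒯.Directed → (∀ i, Finite (𝒯.G i)) →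
    ∀ (J C' C : 𝒯.Mod) (ψ : Hom J C') (incl : Hom C' C) (p : ℕ), p.Prime → IsCap incl p →
      LiftTors (ψ.comp incl) p 2 → LiftTors ψ p 2

/-- **KG-AB3c.**  If the `p`-primary part of `H¹(C_k)` vanishes for all large `k`, then
`colim H¹(C') ⊗ ℤ/p = 0` (formal from `CapKerSpec`: the prime-to-`p` part of a class of the finite
group `G_i` is divisible by `p`, the `p`-primary part dies). -/
def DivCapSpec : Prop :=
  ∀ (𝒯 : GTower), 𝒯.Directed → (∀ i, Finite (𝒯.G i)) →
    ∀ (C' C : 𝒯.Mod) (incl : Hom C' C) (p : ℕ), p.Prime → IsCap incl p →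
      (∀ i : 𝒯.ι, ∃ j : 𝒯.ι, i ≤ j ∧ ∀ k : 𝒯.ι, j ≤ k →
        ∀ (c : groupCohomology (C.M k) 1) (a : ℕ), p ^ a • c = 0 → c = 0) →
      C'.EvDiv p 1

/-- **KG-AB4.**  If the `p`-torsion of `H²(C_k)` is cyclic for all large `k` and, at arbitrarily
high levels, some `p`-torsion class of `H²(J)` has non-zero image in `H²(C)`, then `p`-torsion
classes of `H²(C)` lift to `p`-torsion classes of `H²(J)` at a higher level. -/
def LiftCycSpec : Prop :=
  ∀ (𝒯 : GTower) (J C : 𝒯.Mod) (ψ : Hom J C) (p : ℕ), p.Prime →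
    (∀ i : 𝒯.ι, ∃ j : 𝒯.ι, i ≤ j ∧ ∀ k : 𝒯.ι, j ≤ k →
      PTorsCyclic (groupCohomology (C.M k) 2) p) →
    (∀ i : 𝒯.ι, ∃ (j : 𝒯.ι) (_ : i ≤ j) (y : groupCohomology (J.M j) 2),
      p • y = 0 ∧ (ψ.map j 2).hom y ≠ 0) →
    LiftTors ψ p 2

/-- **KG-ABS** (goal of the abstract part).  Systems `E → J → C' ⊂ C` over a directed tower of
finite groups with: `E → J → C'` short exact, capitulation for `C' ⊂ C`, `H³(J)[p]` and
`H²(J) ⊗ ℤ/p` eventually zero, the `p`-primary part of `H¹(C)` eventually zero, the `p`-torsion of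
`H²(C)` eventually cyclic, local classes surviving in `H²(C)` at arbitrarily high levels.  Then
`colim H³(E)[p] = 0` and `colim H²(E) ⊗ ℤ/p = 0`. -/
def AbsKummerSpec : Prop :=
  ∀ (𝒯 : GTower), 𝒯.Directed → (∀ i, Finite (𝒯.G i)) →
    ∀ (E J C' C : 𝒯.Mod) (φ : Hom E J) (ψ : Hom J C') (incl : Hom C' C) (p : ℕ), p.Prime →
      IsSES φ ψ → IsCap incl p → J.EvTors p 3 → J.EvDiv p 2 →
      (∀ i : 𝒯.ι, ∃ j : 𝒯.ι, i ≤ j ∧ ∀ k : 𝒯.ι, j ≤ k →
        ∀ (c : groupCohomology (C.M k) 1) (a : ℕ), p ^ a • c = 0 → c = 0) →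
      (∀ i : 𝒯.ι, ∃ j : 𝒯.ι, i ≤ j ∧ ∀ k : 𝒯.ι, j ≤ k →
        PTorsCyclic (groupCohomology (C.M k) 2) p) →
      (∀ i : 𝒯.ι, ∃ (j : 𝒯.ι) (_ : i ≤ j) (y : groupCohomology (J.M j) 2),
        p • y = 0 ∧ ((ψ.comp incl).map j 2).hom y ≠ 0) →
      E.EvTors p 3 ∧ E.EvDiv p 2

/-- The abstract part, assembled. -/
theorem absKummer_of (h1 : ChaseET3Spec) (h2 : ChaseED2Spec) (h3b : LiftCapSpec)
    (h3c : DivCapSpec) (h4 : LiftCycSpec) : AbsKummerSpec := by
  intro 𝒯 hdir hfin E J C' C φ ψ incl p hp hses hcap hJ3 hJ2 hH1 hcyc hloc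
  have hlift : LiftTors ψ p 2 :=
    h3b 𝒯 hdir hfin J C' C ψ incl p hp hcap (h4 𝒯 J C (ψ.comp incl) p hp hcyc hloc)
  exact ⟨h1 𝒯 E J C' φ ψ p hp hses hJ3 hJ2 hlift,
    h2 𝒯 E J C' φ ψ p hp hses hJ2 hlift (h3c 𝒯 hdir hfin C' C incl p hp hcap hH1)⟩

end Fermat.Agent.S55.KG

end
-- ===== PACK-END S55/KG/Abs.lean

-- ===== PACK-BEGIN S56/H419/EulerAddCore.lean
section


/-!
# S56 / W-BASE / leaf ADD, part 1 (helper419): abstract linear algebra

Alternating sum of dimensions along a nine-term exact sequence of finite-dimensional vector spaces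
`0 → V₁ → V₂ → … → V₉ → 0`.
-/

set_option autoImplicit false

namespace Fermat.Agent.S56.H419

open Module

section NineTerm

variable {k : Type*} [Field k]

/-- Rank–nullity in the form used along an exact sequence: if `range f = ker g` then
`dim V = dim (range f) + dim (range g)`. -/
theorem finrank_eq_of_exact {U V W : Type*} [AddCommGroup U] [Module k U]
    [AddCommGroup V] [Module k V] [AddCommGroup W] [Module k W] [FiniteDimensional k V]
    (f : U →ₗ[k] V) (g : V →ₗ[k] W) (h : LinearMap.range f = LinearMap.ker g) :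
    finrank k V = finrank k (LinearMap.range f) + finrank k (LinearMap.range g) := by
  rw [h, add_comm]
  exact (LinearMap.finrank_range_add_finrank_ker g).symm

/-- The alternating sum of the dimensions of a nine-term exact sequence vanishes, in the form
`dim V₂ + dim V₅ + dim V₈ … ` used for Euler characteristics:
`(d₁ - d₄ + d₇) + (d₃ - d₆ + d₉) = d₂ - d₅ + d₈`. -/
theorem nineTerm_alternating
    {V₁ V₂ V₃ V₄ V₅ V₆ V₇ V₈ V₉ : Type*}
    [AddCommGroup V₁] [Module k V₁] [AddCommGroup V₂] [Module k V₂]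
    [AddCommGroup V₃] [Module k V₃] [AddCommGroup V₄] [Module k V₄]
    [AddCommGroup V₅] [Module k V₅] [AddCommGroup V₆] [Module k V₆]
    [AddCommGroup V₇] [Module k V₇] [AddCommGroup V₈] [Module k V₈]
    [AddCommGroup V₉] [Module k V₉]
    [FiniteDimensional k V₁] [FiniteDimensional k V₂] [FiniteDimensional k V₃]
    [FiniteDimensional k V₄] [FiniteDimensional k V₅] [FiniteDimensional k V₆]
    [FiniteDimensional k V₇] [FiniteDimensional k V₈] [FiniteDimensional k V₉]
    (f₁ : V₁ →ₗ[k] V₂) (f₂ : V₂ →ₗ[k] V₃) (f₃ : V₃ →ₗ[k] V₄) (f₄ : V₄ →ₗ[k] V₅)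
    (f₅ : V₅ →ₗ[k] V₆) (f₆ : V₆ →ₗ[k] V₇) (f₇ : V₇ →ₗ[k] V₈) (f₈ : V₈ →ₗ[k] V₉)
    (h₁ : Function.Injective f₁)
    (h₁₂ : LinearMap.range f₁ = LinearMap.ker f₂)
    (h₂₃ : LinearMap.range f₂ = LinearMap.ker f₃)
    (h₃₄ : LinearMap.range f₃ = LinearMap.ker f₄)
    (h₄₅ : LinearMap.range f₄ = LinearMap.ker f₅)
    (h₅₆ : LinearMap.range f₅ = LinearMap.ker f₆)
    (h₆₇ : LinearMap.range f₆ = LinearMap.ker f₇)
    (h₇₈ : LinearMap.range f₇ = LinearMap.ker f₈)
    (h₈ : Function.Surjective f₈) :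
    ((finrank k V₁ : ℤ) - finrank k V₄ + finrank k V₇) +
        ((finrank k V₃ : ℤ) - finrank k V₆ + finrank k V₉) =
      (finrank k V₂ : ℤ) - finrank k V₅ + finrank k V₈ := by
  have e₁ : finrank k V₁ = finrank k (LinearMap.range f₁) :=
    (LinearMap.finrank_range_of_inj h₁).symm
  have e₂ := finrank_eq_of_exact f₁ f₂ h₁₂
  have e₃ := finrank_eq_of_exact f₂ f₃ h₂₃
  have e₄ := finrank_eq_of_exact f₃ f₄ h₃₄
  have e₅ := finrank_eq_of_exact f₄ f₅ h₄₅
  have e₆ := finrank_eq_of_exact f₅ f₆ h₅₆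
  have e₇ := finrank_eq_of_exact f₆ f₇ h₆₇
  have e₈ := finrank_eq_of_exact f₇ f₈ h₇₈
  have e₉ : finrank k V₉ = finrank k (LinearMap.range f₈) := by
    rw [LinearMap.range_eq_top.2 h₈, finrank_top]
  omega

end NineTerm

end Fermat.Agent.S56.H419

end
-- ===== PACK-END S56/H419/EulerAddCore.lean

-- ===== PACK-BEGIN S56/H419/H0Perm.lean
section


/-!
# S56 / W-BASE / leaf EUL-H0, part 1 (helper419): invariants of permutation modules

Mathlib-only.  `D` a group acting on a finite set `X`, `M` a `k`-module.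
The functions `a : X →₀ M` that are constant on the `D`-orbits form a submodule
`orbitInv k D X M`, and

  `orbitInvEquiv : orbitInv k D X M ≃ₗ[k] (MulAction.orbitRel.Quotient D X →₀ M)`,
  `(orbitInvEquiv a) ⟦x⟧ = a x`.

A permutation `σ` of `X` commuting with `D` induces a permutation `orbitPerm σ` of the orbit
set, and `orbitInvEquiv` intertwines `Finsupp.mapDomain σ` with `Finsupp.mapDomain (orbitPerm σ)`
(`orbitInvEquiv_mapDomain`).
-/

set_option autoImplicit false
set_option linter.style.haveILetI false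

noncomputable section

namespace Fermat.Agent.S56.H419

open MulAction

section Orbit

variable (k : Type*) [CommRing k] (D : Type*) [Group D] (X : Type*) [MulAction D X]
  (M : Type*) [AddCommGroup M] [Module k M]

/-- The finitely supported functions on `X` which are constant on the `D`-orbits. -/
def orbitInv : Submodule k (X →₀ M) where
  carrier := {a | ∀ (d : D) (x : X), a (d • x) = a x}
  add_mem' := by
    intro a b ha hb d x
    simp only [Finsupp.coe_add, Pi.add_apply, ha d x, hb d x]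
  zero_mem' := by
    intro d x
    simp
  smul_mem' := by
    intro c a ha d x
    simp only [Finsupp.coe_smul, Pi.smul_apply, ha d x]

variable {k D X M}

theorem mem_orbitInv {a : X →₀ M} : a ∈ orbitInv k D X M ↔ ∀ (d : D) (x : X), a (d • x) = a x :=
  Iff.rfl

/-- An orbit-constant function takes the same value at two points of the same orbit. -/
theorem orbitInv_apply_eq_of_rel {a : X →₀ M} (ha : a ∈ orbitInv k D X M) {x y : X}
    (h : (orbitRel D X).r x y) : a x = a y := by
  obtain ⟨d, rfl⟩ := h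
  exact ha d y

variable (k D X M)

/-- The value of an orbit-constant function on an orbit. -/
def orbitVal (a : ↥(orbitInv k D X M)) : orbitRel.Quotient D X → M :=
  Quotient.lift (s := orbitRel D X) (fun x => a.1 x)
    (fun _ _ h => orbitInv_apply_eq_of_rel a.2 h)

@[simp] theorem orbitVal_mk (a : ↥(orbitInv k D X M)) (x : X) :
    orbitVal k D X M a (Quotient.mk (orbitRel D X) x) = a.1 x := rfl

/-- Orbit-constant functions on a finite `D`-set `X` are the functions on the orbit set. -/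
def orbitInvEquiv [Finite X] :
    ↥(orbitInv k D X M) ≃ₗ[k] (orbitRel.Quotient D X →₀ M) where
  toFun a := Finsupp.equivFunOnFinite.symm (orbitVal k D X M a)
  map_add' a b := by
    ext ω
    induction ω using Quotient.inductionOn with
    | h x => rfl
  map_smul' c a := by
    ext ω
    induction ω using Quotient.inductionOn with
    | h x => rfl
  invFun b := ⟨Finsupp.equivFunOnFinite.symm (fun x => b (Quotient.mk (orbitRel D X) x)), by
    intro d x
    simp only [Finsupp.equivFunOnFinite_symm_apply_apply]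
    congr 1
    exact Quotient.sound (s := orbitRel D X) ⟨d, rfl⟩⟩
  left_inv a := by
    apply Subtype.ext
    ext x
    simp [orbitVal]
  right_inv b := by
    ext ω
    induction ω using Quotient.inductionOn with
    | h x => rfl

@[simp] theorem orbitInvEquiv_apply_mk [Finite X] (a : ↥(orbitInv k D X M)) (x : X) :
    orbitInvEquiv k D X M a (Quotient.mk (orbitRel D X) x) = a.1 x := by
  simp [orbitInvEquiv, orbitVal]

@[simp] theorem orbitInvEquiv_symm_apply [Finite X] (b : orbitRel.Quotient D X →₀ M) (x : X) :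
    ((orbitInvEquiv k D X M).symm b).1 x = b (Quotient.mk (orbitRel D X) x) := by
  simp [orbitInvEquiv]

end Orbit

section Perm

variable {k : Type*} [CommRing k] {D : Type*} [Group D] {X : Type*} [MulAction D X]
  {M : Type*} [AddCommGroup M] [Module k M]

/-- A permutation of `X` commuting with the `D`-action induces a permutation of the orbits. -/
def orbitPerm (σ : Equiv.Perm X) (hσ : ∀ (d : D) (x : X), σ (d • x) = d • σ x) :
    Equiv.Perm (orbitRel.Quotient D X) where
  toFun := Quotient.map (sa := orbitRel D X) (sb := orbitRel D X) σ (by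
    rintro x y ⟨d, rfl⟩
    exact ⟨d, (hσ d y).symm⟩)
  invFun := Quotient.map (sa := orbitRel D X) (sb := orbitRel D X) σ.symm (by
    rintro x y ⟨d, rfl⟩
    refine ⟨d, ?_⟩
    apply σ.injective
    simp only [hσ, Equiv.apply_symm_apply])
  left_inv ω := by
    induction ω using Quotient.inductionOn with
    | h x => simp [Quotient.map_mk]
  right_inv ω := by
    induction ω using Quotient.inductionOn with
    | h x => simp [Quotient.map_mk]

@[simp] theorem orbitPerm_mk (σ : Equiv.Perm X) (hσ : ∀ (d : D) (x : X), σ (d • x) = d • σ x)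
    (x : X) :
    orbitPerm σ hσ (Quotient.mk (orbitRel D X) x) = Quotient.mk (orbitRel D X) (σ x) := rfl

@[simp] theorem orbitPerm_symm_mk (σ : Equiv.Perm X)
    (hσ : ∀ (d : D) (x : X), σ (d • x) = d • σ x) (x : X) :
    (orbitPerm σ hσ).symm (Quotient.mk (orbitRel D X) x) =
      Quotient.mk (orbitRel D X) (σ.symm x) := rfl

/-- `mapDomain` along a permutation, evaluated. -/
theorem mapDomain_perm_apply {Y : Type*} (σ : Equiv.Perm Y) (a : Y →₀ M) (y : Y) :
    Finsupp.mapDomain σ a y = a (σ.symm y) := by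
  conv_lhs => rw [← σ.apply_symm_apply y]
  exact Finsupp.mapDomain_apply σ.injective a (σ.symm y)

/-- `mapDomain σ` preserves orbit-constant functions when `σ` commutes with `D`. -/
theorem mapDomain_mem_orbitInv (σ : Equiv.Perm X)
    (hσ : ∀ (d : D) (x : X), σ (d • x) = d • σ x) {a : X →₀ M} (ha : a ∈ orbitInv k D X M) :
    Finsupp.mapDomain σ a ∈ orbitInv k D X M := by
  intro d x
  rw [mapDomain_perm_apply, mapDomain_perm_apply]
  have h : σ.symm (d • x) = d • σ.symm x := by
    apply σ.injective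
    rw [hσ, Equiv.apply_symm_apply, Equiv.apply_symm_apply]
  rw [h]
  exact ha d _

/-- **Intertwining.** Under `orbitInvEquiv`, `mapDomain σ` on orbit-constant functions is
`mapDomain` along the induced permutation of the orbit set. -/
theorem orbitInvEquiv_mapDomain [Finite X] (σ : Equiv.Perm X)
    (hσ : ∀ (d : D) (x : X), σ (d • x) = d • σ x) (a : ↥(orbitInv k D X M)) :
    orbitInvEquiv k D X M ⟨Finsupp.mapDomain σ a.1, mapDomain_mem_orbitInv σ hσ a.2⟩ =
      Finsupp.mapDomain (orbitPerm σ hσ) (orbitInvEquiv k D X M a) := by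
  ext ω
  induction ω using Quotient.inductionOn with
  | h x =>
    rw [orbitInvEquiv_apply_mk, mapDomain_perm_apply, mapDomain_perm_apply, orbitPerm_symm_mk,
      orbitInvEquiv_apply_mk]

/-- The dimension of the orbit-constant functions is `#orbits · dim M`. -/
theorem finrank_orbitInv {K : Type*} [Field K] {D' : Type*} [Group D'] {X' : Type} [MulAction D' X']
    {N : Type} [AddCommGroup N] [Module K N] [Finite X'] [Module.Finite K N] :
    Module.finrank K ↥(orbitInv K D' X' N) =
      Nat.card (orbitRel.Quotient D' X') * Module.finrank K N := by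
  classical
  letI : Fintype (orbitRel.Quotient D' X') := Fintype.ofFinite _
  rw [(orbitInvEquiv K D' X' N).finrank_eq, Module.finrank_finsupp, Nat.card_eq_fintype_card]

end Perm

end Fermat.Agent.S56.H419

end

end
-- ===== PACK-END S56/H419/H0Perm.lean

-- ===== PACK-BEGIN S56/Euler/IndDefs.lean
section


/-!
# Row S56 / wall W-BASE / Euler characteristic — leaf IND: definitions (helper366)

Modular Artin induction for additive invariants of finite-dimensional representations of a finite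
group over `ZMod p`.  Plan: `coord/S56-EULER-helper366.md` (§2).  Mathlib only.

* `FDRepData k G`   — a finite-dimensional representation of `G` over `k` on a module in `Type`.
* `RepInv k G`      — `ℤ`-valued invariants of such representations.
* `IsAdditiveInv f` — `f B = f A + f C` for every short exact sequence `0 → A → B → C → 0`.
* `permData B N`    — `k[G/B] ⊗ N = (G ⧸ B →₀ N)` with the diagonal action
                      (`single x n ↦ single (g • x) (g n)`; the `indRep` of S55 layer D).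
* `IsPRegular p g`  — the order of `g` is prime to `p`.
-/

set_option autoImplicit false

noncomputable section

namespace Fermat.Agent.S56.Euler

/-- A finite-dimensional representation of `G` over `k`, bundled (carrier in `Type`). -/
structure FDRepData (k G : Type) [Field k] [Group G] where
  /-- the carrier -/
  V : Type
  [acg : AddCommGroup V]
  [mod : Module k V]
  [fin : Module.Finite k V]
  /-- the action -/
  ρ : Representation k G V

attribute [instance] FDRepData.acg FDRepData.mod FDRepData.fin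

variable {k G : Type} [Field k] [Group G]

/-- `ℤ`-valued invariants of finite-dimensional representations. -/
abbrev RepInv (k G : Type) [Field k] [Group G] : Type 1 := FDRepData k G → ℤ

/-- `i : A → B` is equivariant. -/
def IsEquivar (A B : FDRepData k G) (i : A.V →ₗ[k] B.V) : Prop :=
  ∀ g a, i (A.ρ g a) = B.ρ g (i a)

/-- `0 → A → B → C → 0` is a short exact sequence of representations. -/
structure IsShortExact (A B C : FDRepData k G) (i : A.V →ₗ[k] B.V) (q : B.V →ₗ[k] C.V) :
    Prop where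
  equivar_i : IsEquivar A B i
  equivar_q : IsEquivar B C q
  inj : Function.Injective i
  surj : Function.Surjective q
  exact : LinearMap.range i = LinearMap.ker q

/-- Additive invariants. -/
def IsAdditiveInv (f : RepInv k G) : Prop :=
  ∀ (A B C : FDRepData k G) (i : A.V →ₗ[k] B.V) (q : B.V →ₗ[k] C.V),
    IsShortExact A B C i q → f B = f A + f C

/-- Isomorphism of representations. -/
def RepIso (A B : FDRepData k G) : Prop :=
  ∃ e : A.V ≃ₗ[k] B.V, ∀ g a, e (A.ρ g a) = B.ρ g (e a)

/-- Simple (irreducible) representations. -/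
def IsSimpleRep (A : FDRepData k G) : Prop :=
  Nontrivial A.V ∧ ∀ W : Submodule k A.V, (∀ g, ∀ w ∈ W, A.ρ g w ∈ W) → W = ⊥ ∨ W = ⊤

/-- `g` has order prime to `p`. -/
def IsPRegular (p : ℕ) (g : G) : Prop := ¬ p ∣ orderOf g

/-- The operator `single x n ↦ single (σ x) (T n)` on `X →₀ N`. -/
def permTensor {X N : Type} [AddCommGroup N] [Module k N] (σ : X → X) (T : N →ₗ[k] N) :
    (X →₀ N) →ₗ[k] (X →₀ N) :=
  (Finsupp.lmapDomain N k σ) ∘ₗ (Finsupp.mapRange.linearMap T)

@[simp] lemma permTensor_single {X N : Type} [AddCommGroup N] [Module k N] (σ : X → X)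
    (T : N →ₗ[k] N) (x : X) (n : N) :
    permTensor σ T (Finsupp.single x n) = Finsupp.single (σ x) (T n) := by
  rw [permTensor, LinearMap.comp_apply, Finsupp.mapRange.linearMap_apply,
    Finsupp.mapRange_single, Finsupp.lmapDomain_apply, Finsupp.mapDomain_single]

/-- The diagonal action of `G` on `X →₀ N` for a `G`-set `X`. -/
def diagRho (X : Type) [MulAction G X] {N : Type} [AddCommGroup N] [Module k N]
    (ρ : Representation k G N) : Representation k G (X →₀ N) where
  toFun g := permTensor (fun x : X => g • x) (ρ g)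
  map_one' := by
    apply Finsupp.lhom_ext
    intro x n
    simp
  map_mul' g h := by
    apply Finsupp.lhom_ext
    intro x n
    simp [mul_smul]

@[simp] lemma diagRho_single (X : Type) [MulAction G X] {N : Type} [AddCommGroup N] [Module k N]
    (ρ : Representation k G N) (g : G) (x : X) (n : N) :
    diagRho X ρ g (Finsupp.single x n) = Finsupp.single (g • x) (ρ g n) :=
  permTensor_single _ _ x n

lemma diagRho_apply (X : Type) [MulAction G X] {N : Type} [AddCommGroup N] [Module k N]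
    (ρ : Representation k G N) (g : G) :
    diagRho X ρ g = permTensor (fun x : X => g • x) (ρ g) := rfl

/-- `k[G/B] ⊗ N` as a bundled representation (`G` finite). -/
def permData [Finite G] (B : Subgroup G) (N : FDRepData k G) : FDRepData k G where
  V := (G ⧸ B) →₀ N.V
  fin := by
    have : Fintype (G ⧸ B) := Fintype.ofFinite _
    exact Module.Finite.of_basis (Finsupp.basis (fun _ : G ⧸ B => Module.Free.chooseBasis k N.V))
  ρ := diagRho (G ⧸ B) N.ρ

end Fermat.Agent.S56.Euler

end

end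
-- ===== PACK-END S56/Euler/IndDefs.lean

-- ===== PACK-BEGIN S55/H244/EngineLocal.lean
section


/-!
# S55, duality engine: the final step WITHOUT local duality in degree 1

(helper244; complements `Fermat/Agent/S55/PT/Engine.lean` of helper835.)

The last step of the Poitou–Tate engine ("route C′") identifies `Ш²` with the dual of `Ш¹` from
* the cone exact sequence `L¹ →j T² →u H² →loc₂ L²`  (`T² = H²_c`),
* the shifted global duality `θ : T² ≃ Dual X¹`  (`X¹ = H¹(G_S, M')`),
* the identity `Ann_{X¹} (θ (j L¹)) = ker loc`.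

In the original design the last identity was obtained from a *local duality isomorphism*
`λ_v : H¹(G_v, M) ≃ Dual H¹(G_v, M')`, which needs local effaceability (local existence theorem
mod `p`, finiteness of local `H¹`, ...).  Here we show that it follows from the **top-degree**
local pairings alone (`LocalTop.ann_iff`): one only needs, for the short exact sequence
`0 → R → P → M → 0` used in the global shift and for each place `v`,

* exactness of `H¹(G_v, M) →∂ H²(G_v, R) → H²(G_v, P)` and of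
  `H⁰(G_v, P') → H⁰(G_v, R') →δ H¹(G_v, M')`,
* `Θ_v(R) : H²(G_v, R) → Dual H⁰(G_v, R')` surjective, `Θ_v(P)` injective, naturality.

No statement about `H¹(G_v, -)` other than these two exactness properties is used.

Everything in this file is linear algebra over a field.
-/

set_option autoImplicit false

namespace Fermat.Agent.S55.H244

open Module

section DoubleAnnihilator

variable {k : Type*} [Field k] {V : Type*} [AddCommGroup V] [Module k V]

/-- Double annihilator of a subspace: a vector killed by every functional vanishing on `W` lies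
in `W`. -/
theorem mem_of_forall_dual_eq_zero (W : Submodule k V) (x : V)
    (h : ∀ φ : Dual k V, (∀ w ∈ W, φ w = 0) → φ x = 0) : x ∈ W := by
  by_contra hx
  obtain ⟨φ, hφx, hφW⟩ := Submodule.exists_dual_map_eq_bot_of_notMem hx inferInstance
  apply hφx
  apply h φ
  intro w hw
  have : φ w ∈ W.map φ := ⟨w, hw, rfl⟩
  rw [hφW] at this
  simpa using this

/-- Double annihilator of a finite-dimensional space of functionals: a functional vanishing on
the common kernel of `A ⊆ Dual V` lies in `A`, when `V` is finite-dimensional. -/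
theorem mem_of_forall_ker_le [FiniteDimensional k V] (A : Submodule k (Dual k V))
    (ψ : Dual k V) (h : ∀ y : V, (∀ φ ∈ A, φ y = 0) → ψ y = 0) : ψ ∈ A := by
  -- apply the previous lemma in `Dual k V`, using reflexivity
  apply mem_of_forall_dual_eq_zero A ψ
  intro Φ hΦ
  obtain ⟨y, rfl⟩ := (Module.evalEquiv k V).surjective Φ
  simp only [Module.evalEquiv_apply, Module.Dual.eval_apply] at hΦ ⊢
  exact h y hΦ

end DoubleAnnihilator

section Local

variable {k : Type*} [Field k]
variable {L1 T2R T2P H0R H0P Y1 : Type*}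
  [AddCommGroup L1] [Module k L1] [AddCommGroup T2R] [Module k T2R]
  [AddCommGroup T2P] [Module k T2P] [AddCommGroup H0R] [Module k H0R]
  [AddCommGroup H0P] [Module k H0P] [AddCommGroup Y1] [Module k Y1]

/-- Top-degree local data at one place `v` for a short exact sequence `0 → R → P → M → 0`:
`L1 = H¹(G_v, M)`, `T2R = H²(G_v, R)`, `T2P = H²(G_v, P)`, `H0R = H⁰(G_v, R')`,
`H0P = H⁰(G_v, P')`, `Y1 = H¹(G_v, M')`. -/
structure LocalTop (k : Type*) [Field k] (L1 T2R T2P H0R H0P Y1 : Type*)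
    [AddCommGroup L1] [Module k L1] [AddCommGroup T2R] [Module k T2R]
    [AddCommGroup T2P] [Module k T2P] [AddCommGroup H0R] [Module k H0R]
    [AddCommGroup H0P] [Module k H0P] [AddCommGroup Y1] [Module k Y1] where
  /-- connecting map `H¹(G_v, M) → H²(G_v, R)` -/
  dv : L1 →ₗ[k] T2R
  /-- `H²(G_v, R) → H²(G_v, P)` -/
  tv : T2R →ₗ[k] T2P
  /-- `H⁰(G_v, P') → H⁰(G_v, R')` -/
  r0 : H0P →ₗ[k] H0R
  /-- connecting map `H⁰(G_v, R') → H¹(G_v, M')` -/
  del : H0R →ₗ[k] Y1
  /-- top-degree local pairing for `R` -/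
  ThR : T2R →ₗ[k] Dual k H0R
  /-- top-degree local pairing for `P` -/
  ThP : T2P →ₗ[k] Dual k H0P
  dv_range : LinearMap.range dv = LinearMap.ker tv
  del_ker : LinearMap.ker del = LinearMap.range r0
  ThR_surj : Function.Surjective ThR
  ThP_inj : Function.Injective ThP
  nat : ∀ (z : T2R) (g : H0P), ThP (tv z) g = ThR z (r0 g)

/-- **Key local lemma.**  `f ∈ H⁰(G_v, R')` pairs trivially with `∂ H¹(G_v, M)` iff
`δ f = 0` in `H¹(G_v, M')`. -/
theorem LocalTop.ann_iff (D : LocalTop k L1 T2R T2P H0R H0P Y1) (f : H0R) :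
    (∀ b : L1, D.ThR (D.dv b) f = 0) ↔ D.del f = 0 := by
  constructor
  · intro h
    have hf : f ∈ LinearMap.range D.r0 := by
      apply mem_of_forall_dual_eq_zero
      intro φ hφ
      obtain ⟨z, rfl⟩ := D.ThR_surj φ
      have hz : D.tv z = 0 := by
        apply D.ThP_inj
        rw [map_zero]
        apply LinearMap.ext
        intro g
        rw [D.nat, LinearMap.zero_apply]
        exact hφ _ ⟨g, rfl⟩
      have : z ∈ LinearMap.range D.dv := by rw [D.dv_range]; exact hz
      obtain ⟨b, rfl⟩ := this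
      exact h b
    rw [← D.del_ker] at hf
    exact hf
  · intro h b
    have hf : f ∈ LinearMap.range D.r0 := by rw [← D.del_ker]; exact h
    obtain ⟨g, rfl⟩ := hf
    rw [← D.nat]
    have : D.tv (D.dv b) = 0 := by
      have : D.dv b ∈ LinearMap.ker D.tv := by rw [← D.dv_range]; exact ⟨b, rfl⟩
      exact this
    rw [this, map_zero, LinearMap.zero_apply]

end Local

section Final

variable {k : Type*} [Field k]
variable {T2 H2 L1 L2 X1 Y1 : Type*}
  [AddCommGroup T2] [Module k T2] [AddCommGroup H2] [Module k H2]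
  [AddCommGroup L1] [Module k L1] [AddCommGroup L2] [Module k L2]
  [AddCommGroup X1] [Module k X1] [AddCommGroup Y1] [Module k Y1]

/-- **Final step of the engine, annihilator form.**  Given the cone exact sequence
`L¹ →j T² →u H² →loc₂ L²`, a duality `θ : T² ≃ Dual X¹` with `X¹` finite-dimensional, and
`Ann_{X¹} (θ (j L¹)) = ker loc`, we get `ker loc₂ ≃ Dual (ker loc)`, i.e. `Ш² ≃ Dual Ш¹`. -/
theorem sha_equiv_of_ann [FiniteDimensional k X1]
    (j : L1 →ₗ[k] T2) (u : T2 →ₗ[k] H2) (loc2 : H2 →ₗ[k] L2) (loc : X1 →ₗ[k] Y1)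
    (hju : LinearMap.ker u = LinearMap.range j)
    (hu2 : LinearMap.range u = LinearMap.ker loc2)
    (θ : T2 ≃ₗ[k] Dual k X1)
    (hann : ∀ y : X1, (∀ b : L1, θ (j b) y = 0) ↔ loc y = 0) :
    Nonempty (LinearMap.ker loc2 ≃ₗ[k] Dual k (LinearMap.ker loc)) := by
  classical
  let rest : Dual k X1 →ₗ[k] Dual k (LinearMap.ker loc) :=
    Module.Dual.transpose (R := k) (LinearMap.ker loc).subtype
  have hrest_surj : Function.Surjective rest := by
    intro φ
    obtain ⟨ψ, hψ⟩ := LinearMap.exists_extend (p := LinearMap.ker loc) φ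
    exact ⟨ψ, by
      apply LinearMap.ext
      intro x
      simp only [rest, Module.Dual.transpose_apply, LinearMap.comp_apply, Submodule.subtype_apply]
      rw [← hψ]; rfl⟩
  let F : T2 →ₗ[k] Dual k (LinearMap.ker loc) := rest ∘ₗ θ.toLinearMap
  have hF_surj : Function.Surjective F := hrest_surj.comp θ.surjective
  have hF_ker : LinearMap.ker F = LinearMap.range j := by
    apply le_antisymm
    · intro x hx
      have hx' : ∀ y : X1, loc y = 0 → θ x y = 0 := by
        intro y hy
        have := congrArg (fun φ : Dual k (LinearMap.ker loc) => φ ⟨y, hy⟩) hx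
        simpa [F, rest, Module.Dual.transpose_apply] using this
      -- `θ x` lies in the space of functionals `θ (j L¹)` by the double annihilator lemma
      have hmem : θ x ∈ (LinearMap.range j).map θ.toLinearMap := by
        apply mem_of_forall_ker_le
        intro y hy
        apply hx'
        rw [← hann]
        intro b
        exact hy _ ⟨j b, ⟨b, rfl⟩, rfl⟩
      obtain ⟨x', hx'j, hx'x⟩ := hmem
      have : x' = x := θ.injective hx'x
      rw [← this]; exact hx'j
    · rintro x ⟨b, rfl⟩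
      rw [LinearMap.mem_ker]
      apply LinearMap.ext
      rintro ⟨y, hy⟩
      have hy' : loc y = 0 := hy
      simp only [F, rest, LinearMap.comp_apply, LinearEquiv.coe_coe, Module.Dual.transpose_apply,
        Submodule.subtype_apply, LinearMap.zero_apply]
      exact (hann y).2 hy' b
  have e1 : (T2 ⧸ LinearMap.ker u) ≃ₗ[k] LinearMap.range u := u.quotKerEquivRange
  have e2 : (T2 ⧸ LinearMap.ker F) ≃ₗ[k] Dual k (LinearMap.ker loc) :=
    F.quotKerEquivOfSurjective hF_surj
  have hk : LinearMap.ker u = LinearMap.ker F := by rw [hju, hF_ker]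
  have e3 : (T2 ⧸ LinearMap.ker u) ≃ₗ[k] (T2 ⧸ LinearMap.ker F) :=
    Submodule.quotEquivOfEq _ _ hk
  have e4 : LinearMap.range u ≃ₗ[k] LinearMap.ker loc2 := LinearEquiv.ofEq _ _ hu2
  exact ⟨e4.symm.trans (e1.symm.trans (e3.trans e2))⟩

end Final

section Assembly

variable {k : Type*} [Field k]
variable {ι : Type*} [Fintype ι] [DecidableEq ι]
variable {T2 H2 L2 X1 H0R : Type*}
  [AddCommGroup T2] [Module k T2] [AddCommGroup H2] [Module k H2]
  [AddCommGroup L2] [Module k L2] [AddCommGroup X1] [Module k X1]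
  [AddCommGroup H0R] [Module k H0R]
variable {L1 T2R T2P H0Rv H0Pv Y1 : ι → Type*}
  [∀ v, AddCommGroup (L1 v)] [∀ v, Module k (L1 v)]
  [∀ v, AddCommGroup (T2R v)] [∀ v, Module k (T2R v)]
  [∀ v, AddCommGroup (T2P v)] [∀ v, Module k (T2P v)]
  [∀ v, AddCommGroup (H0Rv v)] [∀ v, Module k (H0Rv v)]
  [∀ v, AddCommGroup (H0Pv v)] [∀ v, Module k (H0Pv v)]
  [∀ v, AddCommGroup (Y1 v)] [∀ v, Module k (Y1 v)]

/-- **Engine, assembled.**  Global input: the cone sequence, the shifted duality `θ`, the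
surjection `δ : H⁰(G_S, R') → X¹ = H¹(G_S, M')` (global (E2)).  Local input: top-degree data
`LocalTop` at every place.  Compatibilities: `loc_v ∘ δ = δ_v ∘ res_v` and the formula
`θ (j b) (δ f) = c • ∑_v Θ_v(R) (∂_v b_v) (res_v f)` (with `c = ± 1`), which is the definition of the
global top-degree pairing as the sum of the local ones.  Conclusion: `Ш² ≃ Dual Ш¹`. -/
theorem sha_equiv_of_localTop [FiniteDimensional k X1]
    (j : (∀ v, L1 v) →ₗ[k] T2) (u : T2 →ₗ[k] H2) (loc2 : H2 →ₗ[k] L2)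
    (loc : X1 →ₗ[k] (∀ v, Y1 v))
    (hju : LinearMap.ker u = LinearMap.range j)
    (hu2 : LinearMap.range u = LinearMap.ker loc2)
    (θ : T2 ≃ₗ[k] Dual k X1)
    (del : H0R →ₗ[k] X1) (hdel : Function.Surjective del)
    (D : ∀ v, LocalTop k (L1 v) (T2R v) (T2P v) (H0Rv v) (H0Pv v) (Y1 v))
    (res : ∀ v, H0R →ₗ[k] H0Rv v)
    (hloc : ∀ v f, (D v).del (res v f) = loc (del f) v)
    (c : k) (hc : c ≠ 0)
    (hθ : ∀ (b : ∀ v, L1 v) (f : H0R),
      θ (j b) (del f) = c * ∑ v, (D v).ThR ((D v).dv (b v)) (res v f)) :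
    Nonempty (LinearMap.ker loc2 ≃ₗ[k] Dual k (LinearMap.ker loc)) := by
  classical
  refine sha_equiv_of_ann j u loc2 loc hju hu2 θ ?_
  intro y
  obtain ⟨f, rfl⟩ := hdel y
  constructor
  · intro h
    funext v
    rw [← hloc, Pi.zero_apply, ← (D v).ann_iff]
    intro bv
    have h1 := h (Pi.single v bv)
    rw [hθ] at h1
    have h2 : ∑ w, (D w).ThR ((D w).dv ((Pi.single v bv : ∀ v, L1 v) w)) (res w f) =
        (D v).ThR ((D v).dv bv) (res v f) := by
      rw [Finset.sum_eq_single v]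
      · rw [Pi.single_eq_same]
      · intro w _ hw
        rw [Pi.single_eq_of_ne hw, map_zero, map_zero, LinearMap.zero_apply]
      · intro hv
        exact absurd (Finset.mem_univ v) hv
    rw [h2] at h1
    exact (mul_eq_zero.1 h1).resolve_left hc
  · intro h b
    rw [hθ]
    have : ∀ v, (D v).ThR ((D v).dv (b v)) (res v f) = 0 := by
      intro v
      apply ((D v).ann_iff (res v f)).2
      rw [hloc, h, Pi.zero_apply]
    simp [this]

end Assembly

end Fermat.Agent.S55.H244

end
-- ===== PACK-END S55/H244/EngineLocal.lean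

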