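import Mathlib

-- ===== PACK-BEGIN S14/H74/Defs.lean
section


/-!
# S14, analytic block N1 (helper74): definitions

Partial zeta functions of ideal classes and the smoothed lattice sums used to compare them.
-/

namespace Fermat.Agent.S14.H74

open NumberField NumberField.mixedEmbedding NumberField.Units
  NumberField.Units.dirichletUnitTheorem

open scoped nonZeroDivisors

variable (K : Type*) [Field K] [NumberField K]

/-- The partial zeta function of the ideal class `C`, for a real argument `s`. -/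
noncomputable def classZeta (C : ClassGroup (𝓞 K)) (s : ℝ) : ℝ :=
  ∑' I : {I : (Ideal (𝓞 K))⁰ // ClassGroup.mk0 I = C},
    (Ideal.absNorm (I.1 : Ideal (𝓞 K)) : ℝ) ^ (-s)

/-- The sum over all nonzero ideals of `N(I)^(-s)`. -/
noncomputable def idealZeta (s : ℝ) : ℝ :=
  ∑' I : (Ideal (𝓞 K))⁰, (Ideal.absNorm (I : Ideal (𝓞 K)) : ℝ) ^ (-s)

/-- The tent function `max 0 (1 - |c|)`. -/
noncomputable def tent (c : ℝ) : ℝ := max 0 (1 - |c|)

open scoped Classical in
/-- Coordinates of `logMap x` in the real basis of `logSpace K` given by the unit lattice. -/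
noncomputable def logCoord (x : mixedSpace K) (j : Fin (rank K)) : ℝ :=
  ((basisUnitLattice K).ofZLatticeBasis ℝ (unitLattice K)).repr (logMap x) j

/-- The smooth cut-off: a partition of unity for the action of the units. -/
noncomputable def rho (x : mixedSpace K) : ℝ :=
  if mixedEmbedding.norm x = 0 then 0 else ∏ j, tent (logCoord K x j)

/-- The summand `ρ(x) N(x)^(-s)`. -/
noncomputable def fS (s : ℝ) (x : mixedSpace K) : ℝ :=
  rho K x * (mixedEmbedding.norm x) ^ (-s)

end Fermat.Agent.S14.H74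

end
-- ===== PACK-END S14/H74/Defs.lean

-- ===== PACK-BEGIN S14/H163/IdealEuler.lean
section


/-!
# Euler products over the nonzero ideals of a Dedekind domain (helper163, S14 density block)

Trick: code nonzero ideals injectively and multiplicatively into `ℕ` (prime ideals go to distinct
prime numbers) and use Mathlib's Euler product for completely multiplicative functions on `ℕ`.
-/

set_option autoImplicit false
set_option linter.unusedSectionVars false

namespace Fermat.Agent.S14.H163

open UniqueFactorizationMonoid IsDedekindDomain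

section Coding

variable {R : Type*} [CommRing R] [IsDedekindDomain R]

/-- The multiplicative code of an ideal: product of the codes of its prime factors. -/
noncomputable def code (c : Ideal R → ℕ) (I : Ideal R) : ℕ :=
  ((normalizedFactors I).map c).prod

variable {c : Ideal R → ℕ}

theorem code_ne_zero (hc : ∀ I, (c I).Prime) (I : Ideal R) : code c I ≠ 0 := by
  unfold code
  rw [Ne, Multiset.prod_eq_zero_iff]
  intro h
  obtain ⟨J, -, hJ⟩ := Multiset.mem_map.mp h
  exact (hc J).ne_zero hJ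

theorem code_mul {I J : Ideal R} (hI : I ≠ ⊥) (hJ : J ≠ ⊥) :
    code c (I * J) = code c I * code c J := by
  unfold code
  rw [normalizedFactors_mul (by simpa using hI) (by simpa using hJ), Multiset.map_add,
    Multiset.prod_add]

theorem code_one : code c (1 : Ideal R) = 1 := by
  unfold code
  rw [normalizedFactors_one]
  simp

theorem code_prime {P : Ideal R} (hP : Prime P) : code c P = c P := by
  unfold code
  rw [normalizedFactors_irreducible hP.irreducible, normalize_eq]
  simp

theorem code_multiset_prod {s : Multiset (Ideal R)} (hs : ∀ P ∈ s, Prime P) :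
    code c s.prod = (s.map c).prod := by
  unfold code
  rw [normalizedFactors_prod_of_prime hs]

theorem code_injective (hinj : Function.Injective c) (hc : ∀ I, (c I).Prime)
    {I J : Ideal R} (hI : I ≠ ⊥) (hJ : J ≠ ⊥) (h : code c I = code c J) : I = J := by
  unfold code at h
  have h1 : ∀ p ∈ (normalizedFactors I).map c, Prime p := by
    intro p hp
    obtain ⟨P, -, rfl⟩ := Multiset.mem_map.mp hp
    exact (hc P).prime
  have h2 : ∀ p ∈ (normalizedFactors J).map c, Prime p := by
    intro p hp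
    obtain ⟨P, -, rfl⟩ := Multiset.mem_map.mp hp
    exact (hc P).prime
  have h3 := congrArg normalizedFactors h
  rw [normalizedFactors_prod_of_prime h1, normalizedFactors_prod_of_prime h2] at h3
  have h4 := Multiset.map_injective hinj h3
  have h5 := prod_normalizedFactors (a := I) (by simpa using hI)
  have h6 := prod_normalizedFactors (a := J) (by simpa using hJ)
  rw [associated_iff_eq] at h5 h6
  rw [← h5, ← h6, h4]

end Coding

section NatExt

variable {𝔽 : Type*} [NormedField 𝔽]

/-- The completely multiplicative extension to `ℕ` of a function given on primes. -/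
noncomputable def natExt (g : ℕ → 𝔽) : ℕ →*₀ 𝔽 where
  toFun n := if n = 0 then 0 else n.factorization.prod (fun p e => g p ^ e)
  map_zero' := by simp
  map_one' := by simp
  map_mul' m n := by
    by_cases hm : m = 0
    · simp [hm]
    by_cases hn : n = 0
    · simp [hn]
    have hmn : m * n ≠ 0 := mul_ne_zero hm hn
    simp only [hm, hn, hmn, if_false]
    rw [Nat.factorization_mul hm hn]
    exact Finsupp.prod_add_index' (fun _ => pow_zero _) (fun _ _ _ => pow_add _ _ _)

theorem natExt_prime (g : ℕ → 𝔽) {p : ℕ} (hp : p.Prime) : natExt g p = g p := by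
  change (if p = 0 then 0 else p.factorization.prod (fun p e => g p ^ e)) = g p
  rw [if_neg hp.ne_zero, hp.factorization,
    Finsupp.prod_single_index (h := fun p e => g p ^ e) (pow_zero _), pow_one]

theorem natExt_apply_ne_zero (g : ℕ → 𝔽) {n : ℕ} (hn : n ≠ 0) :
    natExt g n = n.factorization.prod (fun p e => g p ^ e) := by
  change (if n = 0 then 0 else n.factorization.prod (fun p e => g p ^ e)) = _
  rw [if_neg hn]

theorem natExt_ne_zero_imp (g : ℕ → 𝔽) {n : ℕ} (h : natExt g n ≠ 0) :
    n ≠ 0 ∧ ∀ p ∈ n.primeFactorsList, g p ≠ 0 := by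
  have hn : n ≠ 0 := by
    rintro rfl
    exact h (map_zero _)
  refine ⟨hn, fun p hp hgp => h ?_⟩
  rw [natExt_apply_ne_zero g hn, Finsupp.prod]
  apply Finset.prod_eq_zero (i := p)
  · rw [Nat.support_factorization]
    exact Nat.mem_primeFactors_iff_mem_primeFactorsList.mpr hp
  · rw [hgp, zero_pow]
    have : p ∈ n.factorization.support := by
      rw [Nat.support_factorization]
      exact Nat.mem_primeFactors_iff_mem_primeFactorsList.mpr hp
    exact Finsupp.mem_support_iff.mp this

end NatExt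

section Transport

open scoped nonZeroDivisors

variable {R : Type*} [CommRing R] [IsDedekindDomain R]
variable {𝔽 : Type*} [NormedField 𝔽]

/-- A height one prime as a nonzero ideal. -/
noncomputable def toI0 (v : HeightOneSpectrum R) : (Ideal R)⁰ :=
  ⟨v.asIdeal, mem_nonZeroDivisors_of_ne_zero v.ne_bot⟩

@[simp] theorem toI0_coe (v : HeightOneSpectrum R) : ((toI0 v : (Ideal R)⁰) : Ideal R) = v.asIdeal :=
  rfl

variable (c : Ideal R → ℕ) (F : (Ideal R)⁰ →* 𝔽)

open Classical in
/-- Extension by zero of `F` to all ideals. -/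
noncomputable def ext0 (I : Ideal R) : 𝔽 := if h : I ∈ (Ideal R)⁰ then F ⟨I, h⟩ else 0

theorem ext0_coe (I : (Ideal R)⁰) : ext0 F (I : Ideal R) = F I := by
  unfold ext0
  rw [dif_pos I.2]

theorem ext0_mul {I J : Ideal R} (hI : I ≠ ⊥) (hJ : J ≠ ⊥) :
    ext0 F (I * J) = ext0 F I * ext0 F J := by
  have hI' : I ∈ (Ideal R)⁰ := mem_nonZeroDivisors_of_ne_zero hI
  have hJ' : J ∈ (Ideal R)⁰ := mem_nonZeroDivisors_of_ne_zero hJ
  have h1 := ext0_coe F (⟨I, hI'⟩ * ⟨J, hJ'⟩)
  have h2 := ext0_coe F ⟨I, hI'⟩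
  have h3 := ext0_coe F ⟨J, hJ'⟩
  simp only [Submonoid.coe_mul] at h1 h2 h3
  rw [h1, h2, h3, map_mul]

theorem ext0_one : ext0 F (1 : Ideal R) = 1 := by
  have h1 := ext0_coe F (1 : (Ideal R)⁰)
  simpa using h1

theorem ext0_multiset_prod {s : Multiset (Ideal R)} (hs : ∀ P ∈ s, Prime P) :
    ext0 F s.prod = (s.map (ext0 F)).prod := by
  induction s using Multiset.induction_on with
  | empty => simpa using ext0_one F
  | cons P s ih =>
    have hs' : ∀ Q ∈ s, Prime Q := fun Q hQ => hs Q (Multiset.mem_cons_of_mem hQ)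
    have hP : Prime P := hs P (Multiset.mem_cons_self P s)
    have hne : s.prod ≠ ⊥ := by
      rw [← Ideal.zero_eq_bot]
      apply Multiset.prod_ne_zero
      intro h0
      exact (hs' 0 h0).ne_zero rfl
    rw [Multiset.prod_cons, Multiset.map_cons, Multiset.prod_cons,
      ext0_mul F (by simpa using hP.ne_zero) hne, ih hs']

open Classical in
/-- The value on prime numbers induced by the coding `c`. -/
noncomputable def primeVal (p : ℕ) : 𝔽 :=
  if h : ∃ P : Ideal R, Prime P ∧ c P = p then ext0 F h.choose else 0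

variable {c}

theorem primeVal_code (hinj : Function.Injective c) {P : Ideal R} (hP : Prime P) :
    primeVal c F (c P) = ext0 F P := by
  unfold primeVal
  have h : ∃ Q : Ideal R, Prime Q ∧ c Q = c P := ⟨P, hP, rfl⟩
  rw [dif_pos h]
  exact congrArg _ (hinj h.choose_spec.2)

theorem natExt_code (hinj : Function.Injective c) (hc : ∀ I, (c I).Prime)
    {I : Ideal R} (hI : I ≠ ⊥) : natExt (primeVal c F) (code c I) = ext0 F I := by
  have h5 := prod_normalizedFactors (a := I) (by simpa using hI)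
  rw [associated_iff_eq] at h5
  have hpr : ∀ P ∈ normalizedFactors I, Prime P := fun P hP => prime_of_normalized_factor P hP
  conv_rhs => rw [← h5]
  rw [ext0_multiset_prod F hpr]
  unfold code
  rw [map_multiset_prod, Multiset.map_map]
  congr 1
  apply Multiset.map_congr rfl
  intro P hP
  simp only [Function.comp_apply]
  rw [natExt_prime _ (hc P), primeVal_code F hinj (hpr P hP)]

theorem exists_code_of_natExt_ne_zero {n : ℕ} (h : natExt (primeVal c F) n ≠ 0) :
    ∃ I : Ideal R, I ≠ ⊥ ∧ code c I = n := by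
  classical
  obtain ⟨hn, hp⟩ := natExt_ne_zero_imp _ h
  have hex : ∀ p ∈ n.primeFactorsList, ∃ P : Ideal R, Prime P ∧ c P = p := by
    intro p hpm
    by_contra hcon
    apply hp p hpm
    unfold primeVal
    rw [dif_neg hcon]
  let sel : ℕ → Ideal R := fun p =>
    if h : ∃ P : Ideal R, Prime P ∧ c P = p then h.choose else ⊤
  have hsel : ∀ p ∈ n.primeFactorsList, Prime (sel p) ∧ c (sel p) = p := by
    intro p hpm
    have := hex p hpm
    simp only [sel, dif_pos this]
    exact this.choose_spec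
  let s : Multiset (Ideal R) := (n.primeFactorsList : Multiset ℕ).map sel
  have hs : ∀ P ∈ s, Prime P := by
    intro P hP
    obtain ⟨p, hpm, rfl⟩ := Multiset.mem_map.mp hP
    exact (hsel p (by simpa using hpm)).1
  refine ⟨s.prod, ?_, ?_⟩
  · rw [← Ideal.zero_eq_bot]
    apply Multiset.prod_ne_zero
    intro h0
    exact (hs 0 h0).ne_zero rfl
  · rw [code_multiset_prod hs, Multiset.map_map]
    have : Multiset.map (c ∘ sel) (n.primeFactorsList : Multiset ℕ) =
        (n.primeFactorsList : Multiset ℕ) := by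
      conv_rhs => rw [← Multiset.map_id (n.primeFactorsList : Multiset ℕ)]
      apply Multiset.map_congr rfl
      intro p hpm
      exact (hsel p (by simpa using hpm)).2
    rw [this, Multiset.prod_coe, Nat.prod_primeFactorsList hn]

/-- The coding map on nonzero ideals. -/
noncomputable def code0 (c : Ideal R → ℕ) (I : (Ideal R)⁰) : ℕ := code c (I : Ideal R)

theorem code0_injective (hinj : Function.Injective c) (hc : ∀ I, (c I).Prime) :
    Function.Injective (code0 c) := by
  intro I J h
  apply Subtype.ext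
  exact code_injective hinj hc (nonZeroDivisors.ne_zero I.2) (nonZeroDivisors.ne_zero J.2) h

theorem natExt_code0 (hinj : Function.Injective c) (hc : ∀ I, (c I).Prime) (I : (Ideal R)⁰) :
    natExt (primeVal c F) (code0 c I) = F I := by
  unfold code0
  rw [natExt_code F hinj hc (nonZeroDivisors.ne_zero I.2), ext0_coe]

theorem natExt_eq_zero_of_not_mem_range {n : ℕ} (hn : n ∉ Set.range (code0 (R := R) c)) :
    natExt (primeVal c F) n = 0 := by
  by_contra h
  obtain ⟨I, hI, rfl⟩ := exists_code_of_natExt_ne_zero F h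
  exact hn ⟨⟨I, mem_nonZeroDivisors_of_ne_zero hI⟩, rfl⟩

/-- **Euler product** over the height one primes of a Dedekind domain, for a monoid homomorphism
on nonzero ideals which is absolutely summable, given an injective prime-valued coding of ideals. -/
theorem hasProd_of_coding [CompleteSpace 𝔽] (hinj : Function.Injective c) (hc : ∀ I, (c I).Prime)
    (hsum : Summable (fun I : (Ideal R)⁰ => ‖F I‖)) :
    HasProd (fun v : HeightOneSpectrum R => (1 - F (toI0 v))⁻¹) (∑' I : (Ideal R)⁰, F I) := by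
  have hcinj := code0_injective (R := R) hinj hc
  -- summability on ℕ
  have hsumN : Summable (fun n : ℕ => ‖natExt (primeVal c F) n‖) := by
    rw [← (hcinj.summable_iff (f := fun n : ℕ => ‖natExt (primeVal c F) n‖) ?_)]
    · refine hsum.congr fun I => ?_
      simp only [Function.comp_apply]
      rw [natExt_code0 F hinj hc]
    · intro n hn
      rw [natExt_eq_zero_of_not_mem_range F hn, norm_zero]
  have hEP := EulerProduct.eulerProduct_completely_multiplicative_hasProd hsumN
  -- rewrite the sum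
  have hts : (∑' n : ℕ, natExt (primeVal c F) n) = ∑' I : (Ideal R)⁰, F I := by
    rw [← hcinj.tsum_eq (f := fun n : ℕ => natExt (primeVal c F) n)]
    · exact tsum_congr fun I => natExt_code0 F hinj hc I
    · intro n hn
      by_contra hcon
      exact hn (natExt_eq_zero_of_not_mem_range F hcon)
  rw [hts] at hEP
  -- rewrite the product
  let j : HeightOneSpectrum R → Nat.Primes := fun v => ⟨c v.asIdeal, hc _⟩
  have hj : Function.Injective j := by
    intro v w h
    apply HeightOneSpectrum.ext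
    exact hinj (congrArg Subtype.val h)
  have hval : ∀ v : HeightOneSpectrum R,
      natExt (primeVal c F) (j v : ℕ) = F (toI0 v) := by
    intro v
    change natExt (primeVal c F) (c v.asIdeal) = _
    rw [natExt_prime _ (hc _), primeVal_code F hinj v.prime]
    exact ext0_coe F (toI0 v)
  have hout : ∀ p : Nat.Primes, p ∉ Set.range j →
      (1 - natExt (primeVal c F) (p : ℕ))⁻¹ = 1 := by
    intro p hp
    have : natExt (primeVal c F) (p : ℕ) = 0 := by
      rw [natExt_prime _ p.2]
      unfold primeVal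
      rw [dif_neg]
      rintro ⟨P, hP, hPc⟩
      apply hp
      exact ⟨⟨P, Ideal.isPrime_of_prime hP, by simpa using hP.ne_zero⟩, Subtype.ext hPc⟩
    rw [this, sub_zero, inv_one]
  have := (hj.hasProd_iff (f := fun p : Nat.Primes => (1 - natExt (primeVal c F) (p : ℕ))⁻¹)
    (a := ∑' I : (Ideal R)⁰, F I) hout).mpr hEP
  refine this.congr_fun ?_
  intro v
  simp only [Function.comp_apply]
  rw [hval v]

end Transport

end Fermat.Agent.S14.H163

end
-- ===== PACK-END S14/H163/IdealEuler.lean

-- ===== PACK-BEGIN S55/L/Unram784/Nakayama.lean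
section


/-!
# S55, layer L, leaf L-A2 (helper784): complete Nakayama for unramified extensions

* `u784_isPrecomplete_pi`: a finite power of a precomplete ring is precomplete;
* `u784_exists_eq_sum_smul`: if `R → S` is a local homomorphism with `𝔪_R S = 𝔪_S`, `R` is
  precomplete, `S` is Hausdorff and the `b i` span `S` modulo `𝔪_S`, then the `b i` span `S`.
-/

set_option autoImplicit false

namespace Fermat.Agent.S55.L

open IsLocalRing

section Pi

variable {R : Type*} [CommRing R] (I : Ideal R) {ι : Type*}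

theorem u784_mem_smul_top_pi_imp (n : ℕ) (x : ι → R)
    (hx : x ∈ (I ^ n • ⊤ : Submodule R (ι → R))) (i : ι) : x i ∈ I ^ n := by
  refine Submodule.smul_induction_on (p := fun y : ι → R => y i ∈ I ^ n) hx ?_ ?_
  · intro r hr m _
    exact Ideal.mul_mem_right _ _ hr
  · intro x y hx hy
    exact Ideal.add_mem _ hx hy

theorem u784_mem_smul_top_pi_of [Fintype ι] [DecidableEq ι] (n : ℕ) (x : ι → R)
    (hx : ∀ i, x i ∈ I ^ n) : x ∈ (I ^ n • ⊤ : Submodule R (ι → R)) := by
  have hsum : x = ∑ i, x i • (Pi.single i (1 : R) : ι → R) := by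
    funext j
    simp [Finset.sum_apply, Pi.single_apply]
  rw [hsum]
  exact Submodule.sum_mem _ fun i _ => Submodule.smul_mem_smul (hx i) Submodule.mem_top

theorem u784_isPrecomplete_pi [IsPrecomplete I R] [Finite ι] : IsPrecomplete I (ι → R) := by
  classical
  have := Fintype.ofFinite ι
  refine ⟨fun f hf => ?_⟩
  have hcoord : ∀ i, ∃ L : R, ∀ n, f n i ≡ L [SMOD (I ^ n • ⊤ : Submodule R R)] := by
    intro i
    apply IsPrecomplete.prec ‹IsPrecomplete I R›
    intro m n hmn
    have h1 := hf hmn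
    rw [SModEq.sub_mem] at h1 ⊢
    have h2 := u784_mem_smul_top_pi_imp I m _ h1 i
    simpa using h2
  choose L hL using hcoord
  refine ⟨L, fun n => ?_⟩
  rw [SModEq.sub_mem]
  apply u784_mem_smul_top_pi_of
  intro i
  have h1 := hL i n
  rw [SModEq.sub_mem] at h1
  simpa using h1

end Pi

section Nakayama

variable {R S : Type*} [CommRing R] [CommRing S] [Algebra R S] [IsLocalRing R] [IsLocalRing S]

/-- Complete Nakayama: generators modulo the maximal ideal are generators. -/
theorem u784_exists_eq_sum_smul [IsPrecomplete (maximalIdeal R) R]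
    [IsHausdorff (maximalIdeal S) S]
    (hunr : (maximalIdeal R).map (algebraMap R S) = maximalIdeal S)
    {ι : Type*} [Fintype ι] (b : ι → S)
    (hb : ∀ x : S, ∃ a : ι → R, x - ∑ i, a i • b i ∈ maximalIdeal S) (x : S) :
    ∃ a : ι → R, x = ∑ i, a i • b i := by
  classical
  have : IsPrecomplete (maximalIdeal R) (ι → R) := u784_isPrecomplete_pi _
  have : IsHausdorff (maximalIdeal R) S := by
    have h : IsHausdorff ((maximalIdeal R).map (algebraMap R S)) S := by
      rw [hunr]; infer_instance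
    exact IsHausdorff.map_algebraMap_iff.mp h
  let f : (ι → R) →ₗ[R] S := Fintype.linearCombination R b
  have hf : ∀ a : ι → R, f a = ∑ i, a i • b i := fun a => by
    simp [f, Fintype.linearCombination_apply]
  have hsurj : Function.Surjective f := by
    apply surjective_of_mkQ_comp_surjective (I := maximalIdeal R)
    intro y
    obtain ⟨x, rfl⟩ := Submodule.mkQ_surjective _ y
    obtain ⟨a, ha⟩ := hb x
    refine ⟨a, ?_⟩
    rw [LinearMap.comp_apply, Submodule.mkQ_apply, Submodule.mkQ_apply,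
      Submodule.Quotient.eq, hf]
    have hmem : (∑ i, a i • b i) - x ∈ maximalIdeal S := by
      have := neg_mem ha
      simpa using this
    have htop : ((maximalIdeal R) • ⊤ : Submodule R S) =
        ((maximalIdeal R).map (algebraMap R S)).restrictScalars R := by
      rw [Ideal.smul_top_eq_map]
    rw [htop, hunr]
    exact hmem
  obtain ⟨a, ha⟩ := hsurj x
  exact ⟨a, by rw [← ha, hf]⟩

end Nakayama

end Fermat.Agent.S55.L

end
-- ===== PACK-END S55/L/Unram784/Nakayama.lean

-- ===== PACK-BEGIN S55/Bridge/HDesc.lean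
section


/-!
# S55 bridge: linear maps out of Mathlib's `H1`, `H2`

`H1desc`, `H2desc`: a linear map on cocycles vanishing on coboundaries descends to cohomology.
-/

set_option autoImplicit false

namespace Fermat.Agent.S55.Bridge

open groupCohomology CategoryTheory

universe u

variable {k G : Type u} [CommRing k] [Group G] (A : Rep.{u, u, u} k G)
  {X : Type*} [AddCommGroup X] [Module k X]

theorem H2π_surjective : Function.Surjective (H2π A).hom :=
  (ModuleCat.epi_iff_surjective (H2π A)).1 inferInstance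

theorem H1π_surjective : Function.Surjective (H1π A).hom :=
  (ModuleCat.epi_iff_surjective (H1π A)).1 inferInstance

/-- Descend a linear map on 2-cocycles that kills coboundaries to `H2`. -/
noncomputable def H2desc (g : cocycles₂ A →ₗ[k] X)
    (hg : ∀ c : cocycles₂ A, (c : G × G → A) ∈ coboundaries₂ A → g c = 0) : H2 A →ₗ[k] X :=
  (Submodule.liftQ (LinearMap.ker (H2π A).hom) g (by
      intro c hc
      rw [LinearMap.mem_ker] at hc ⊢
      exact hg c ((H2π_eq_zero_iff c).1 hc))).comp
    ((H2π A).hom.quotKerEquivOfSurjective (H2π_surjective A)).symm.toLinearMap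

@[simp] theorem H2desc_H2π (g : cocycles₂ A →ₗ[k] X)
    (hg : ∀ c : cocycles₂ A, (c : G × G → A) ∈ coboundaries₂ A → g c = 0) (c : cocycles₂ A) :
    H2desc A g hg ((H2π A).hom c) = g c := by
  unfold H2desc
  rw [LinearMap.comp_apply]
  have h : ((H2π A).hom.quotKerEquivOfSurjective (H2π_surjective A)).symm ((H2π A).hom c)
      = Submodule.Quotient.mk c := by
    rw [LinearEquiv.symm_apply_eq]
    rfl
  rw [LinearEquiv.coe_coe, h]
  rfl

/-- Descend a linear map on 1-cocycles that kills coboundaries to `H1`. -/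
noncomputable def H1desc (g : cocycles₁ A →ₗ[k] X)
    (hg : ∀ c : cocycles₁ A, (c : G → A) ∈ coboundaries₁ A → g c = 0) : H1 A →ₗ[k] X :=
  (Submodule.liftQ (LinearMap.ker (H1π A).hom) g (by
      intro c hc
      rw [LinearMap.mem_ker] at hc ⊢
      exact hg c ((H1π_eq_zero_iff c).1 hc))).comp
    ((H1π A).hom.quotKerEquivOfSurjective (H1π_surjective A)).symm.toLinearMap

@[simp] theorem H1desc_H1π (g : cocycles₁ A →ₗ[k] X)
    (hg : ∀ c : cocycles₁ A, (c : G → A) ∈ coboundaries₁ A → g c = 0) (c : cocycles₁ A) :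
    H1desc A g hg ((H1π A).hom c) = g c := by
  unfold H1desc
  rw [LinearMap.comp_apply]
  have h : ((H1π A).hom.quotKerEquivOfSurjective (H1π_surjective A)).symm ((H1π A).hom c)
      = Submodule.Quotient.mk c := by
    rw [LinearEquiv.symm_apply_eq]
    rfl
  rw [LinearEquiv.coe_coe, h]
  rfl

end Fermat.Agent.S55.Bridge

end
-- ===== PACK-END S55/Bridge/HDesc.lean

-- ===== PACK-BEGIN S55/E1/H957/AbsExt.lean
section
/-
S55 engine E1, block ALG (helper957): abstract linear algebra over `𝔽_p` for ALG7/ALG8.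
Mathlib only.
-/


set_option autoImplicit false

namespace Fermat.Agent.S55.E1.H957

/-- A linear map `g` of vector spaces which kills `ker r` factors through `r`. -/
theorem exists_linear_factor {K V V' U : Type} [Field K] [AddCommGroup V] [AddCommGroup V']
    [AddCommGroup U] [Module K V] [Module K V'] [Module K U] (r : V →ₗ[K] V') (g : V →ₗ[K] U)
    (hle : LinearMap.ker r ≤ LinearMap.ker g) : ∃ g' : V' →ₗ[K] U, ∀ x, g' (r x) = g x := by
  have hrbar : LinearMap.ker ((LinearMap.ker r).liftQ r le_rfl) = ⊥ :=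
    Submodule.ker_liftQ_eq_bot _ _ _ le_rfl
  obtain ⟨s, hs⟩ := ((LinearMap.ker r).liftQ r le_rfl).exists_leftInverse_of_injective hrbar
  refine ⟨((LinearMap.ker r).liftQ g hle).comp s, fun x => ?_⟩
  have h1 : s (r x) = (LinearMap.ker r).mkQ x := by
    have := LinearMap.congr_fun hs ((LinearMap.ker r).mkQ x)
    simpa using this
  rw [LinearMap.comp_apply, h1]
  simp

/-- **Factorisation through a map of `𝔽_p`-vector spaces, stated for abelian groups.**
`V`, `V'` abelian groups killed by a prime `p`, `r : V →+ V'`, `g : V →+ U` killing `ker r`.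
Then `g` factors through `r`. -/
theorem exists_factor_of_ker_le (p : ℕ) (hp : p.Prime) {V V' U : Type} [AddCommGroup V]
    [AddCommGroup V'] [AddCommGroup U] (hV : ∀ x : V, p • x = 0) (hV' : ∀ x : V', p • x = 0)
    (r : V →+ V') (g : V →+ U) (h : ∀ x, r x = 0 → g x = 0) :
    ∃ g' : V' →+ U, ∀ x, g' (r x) = g x := by
  have : Fact p.Prime := ⟨hp⟩
  -- the range of `g` is killed by `p`
  have hK : ∀ y : g.range, p • y = 0 := by
    rintro ⟨y, x, rfl⟩
    apply Subtype.ext
    show p • g x = 0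
    rw [← map_nsmul, hV x, map_zero]
  letI i1 : Module (ZMod p) V := AddCommGroup.zmodModule hV
  letI i2 : Module (ZMod p) V' := AddCommGroup.zmodModule hV'
  letI i3 : Module (ZMod p) g.range := AddCommGroup.zmodModule hK
  obtain ⟨g', hg'⟩ := exists_linear_factor (K := ZMod p) (r.toZModLinearMap p)
    (g.rangeRestrict.toZModLinearMap p) (by
      intro x hx
      rw [LinearMap.mem_ker] at hx ⊢
      apply Subtype.ext
      exact h x hx)
  refine ⟨(g.range.subtype).comp g'.toAddMonoidHom, fun x => ?_⟩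
  have := congrArg Subtype.val (hg' x)
  exact this

end Fermat.Agent.S55.E1.H957

end
-- ===== PACK-END S55/E1/H957/AbsExt.lean

-- ===== PACK-BEGIN S55/E1/H114/Extend.lean
section
/-
S55 engine E1, block ALG — helper114.
Additive extension lemma used by the norm-kill lemma ALG4.

`0 → R → P → N → 0` exact sequence of abelian groups with `p N = 0`; an additive map
`g₀ : R → D` whose values are all divisible by `p` in `D` extends to `P`.
-/


set_option autoImplicit false

namespace Fermat.Agent.S55.E1.H114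

open Finsupp

/-- Auxiliary form of the additive extension lemma, with the `ZMod p`-module structure on `N` as
an instance argument. -/
theorem exists_extension_aux
    {R P N D : Type*} [AddCommGroup R] [AddCommGroup P] [AddCommGroup N] [AddCommGroup D]
    (p : ℕ) [Fact p.Prime] [Module (ZMod p) N] (ι : R →+ P) (ε : P →+ N)
    (hι : Function.Injective ι) (hε : Function.Surjective ε)
    (hex : ∀ x : P, ε x = 0 → ∃ r, ι r = x) (hιε : ∀ r, ε (ι r) = 0)
    (hN : ∀ n : N, p • n = 0)
    (g₀ : R →+ D) (hdiv : ∀ r : R, ∃ d : D, p • d = g₀ r) :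
    ∃ c : P →+ D, ∀ r, c (ι r) = g₀ r := by
  classical
  let I := Module.Basis.ofVectorSpaceIndex (ZMod p) N
  let b : Module.Basis I (ZMod p) N := Module.Basis.ofVectorSpace (ZMod p) N
  choose x hx using fun i : I => hε (b i)
  have hpx : ∀ i, ε (p • x i) = 0 := fun i => by rw [map_nsmul, hN]
  choose ρ hρ using fun i => hex _ (hpx i)
  choose d hd using fun i => hdiv (ρ i)
  -- the three "linear combination" maps
  let X : (I →₀ ℤ) →+ P := Finsupp.liftAddHom (fun i => zmultiplesHom P (x i))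
  let Rm : (I →₀ ℤ) →+ R := Finsupp.liftAddHom (fun i => zmultiplesHom R (ρ i))
  let Dm : (I →₀ ℤ) →+ D := Finsupp.liftAddHom (fun i => zmultiplesHom D (d i))
  have hX : ∀ i (a : ℤ), X (Finsupp.single i a) = a • x i := fun i a => by
    simp [X]
  have hRm : ∀ i (a : ℤ), Rm (Finsupp.single i a) = a • ρ i := fun i a => by
    simp [Rm]
  have hDm : ∀ i (a : ℤ), Dm (Finsupp.single i a) = a • d i := fun i a => by
    simp [Dm]
  -- `ι ∘ Rm = p • X`
  have h1 : ∀ m, ι (Rm m) = p • X m := by
    intro m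
    have : ι.comp Rm = (p • X : (I →₀ ℤ) →+ P) := by
      refine Finsupp.addHom_ext fun i a => ?_
      simp only [AddMonoidHom.comp_apply, hRm, AddMonoidHom.smul_apply, hX, map_zsmul, hρ]
      rw [smul_comm]
    exact DFunLike.congr_fun this m
  -- `g₀ ∘ Rm = p • Dm`
  have h2 : ∀ m, g₀ (Rm m) = p • Dm m := by
    intro m
    have : g₀.comp Rm = (p • Dm : (I →₀ ℤ) →+ D) := by
      refine Finsupp.addHom_ext fun i a => ?_
      simp only [AddMonoidHom.comp_apply, hRm, AddMonoidHom.smul_apply, hDm, map_zsmul, ← hd]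
      rw [smul_comm]
    exact DFunLike.congr_fun this m
  -- `ε ∘ X` in terms of the basis
  let cast : (I →₀ ℤ) →+ (I →₀ ZMod p) := Finsupp.mapRange.addMonoidHom (Int.castAddHom (ZMod p))
  have h3 : ∀ m, ε (X m) = b.repr.symm (cast m) := by
    intro m
    have : ε.comp X = (b.repr.symm : (I →₀ ZMod p) →+ N).comp cast := by
      refine Finsupp.addHom_ext fun i a => ?_
      simp only [AddMonoidHom.comp_apply, hX, map_zsmul, hx, cast]
      simp [Int.cast_smul_eq_zsmul]
    exact DFunLike.congr_fun this m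
  let π : R × (I →₀ ℤ) →+ P := AddMonoidHom.coprod ι X
  let c' : R × (I →₀ ℤ) →+ D := AddMonoidHom.coprod g₀ Dm
  have hπ : Function.Surjective π := by
    intro y
    let m : I →₀ ℤ := (b.repr (ε y)).mapRange (fun c => (c.val : ℤ)) (by simp)
    have hm : cast m = b.repr (ε y) := by
      ext i
      simp [cast, m]
    have hy : ε (y - X m) = 0 := by
      rw [map_sub, h3, hm, b.repr.symm_apply_apply, sub_self]
    obtain ⟨r, hr⟩ := hex _ hy
    exact ⟨(r, m), by simp [π, hr]⟩
  have hker : π.ker ≤ c'.ker := by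
    rintro ⟨r, m⟩ hrm
    rw [AddMonoidHom.mem_ker] at hrm ⊢
    simp only [π, AddMonoidHom.coprod_apply] at hrm
    have hεm : ε (X m) = 0 := by
      have := congrArg ε hrm
      rw [map_add, map_zero] at this
      rwa [hιε, zero_add] at this
    have hcast : cast m = 0 := by
      rw [h3] at hεm
      exact (LinearEquiv.map_eq_zero_iff _).1 hεm
    have hdvd : ∀ i, (p : ℤ) ∣ m i := by
      intro i
      have := DFunLike.congr_fun hcast i
      simp only [cast, Finsupp.mapRange.addMonoidHom_apply, Finsupp.mapRange_apply,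
        Int.coe_castAddHom, Finsupp.coe_zero, Pi.zero_apply] at this
      exact (ZMod.intCast_zmod_eq_zero_iff_dvd _ _).1 this
    let m' : I →₀ ℤ := m.mapRange (fun a => a / (p : ℤ)) (by simp)
    have hm' : m = p • m' := by
      ext i
      simp only [m', Finsupp.smul_apply, Finsupp.mapRange_apply, nsmul_eq_mul]
      exact (Int.mul_ediv_cancel' (hdvd i)).symm
    have hXm : X m = ι (Rm m') := by
      rw [h1, hm', map_nsmul]
    have hr : r = - Rm m' := by
      apply hι
      rw [map_neg, ← hXm]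
      exact eq_neg_of_add_eq_zero_left hrm
    simp only [c', AddMonoidHom.coprod_apply]
    rw [hr, map_neg, h2]
    conv_lhs => rw [hm', map_nsmul]
    exact neg_add_cancel _
  refine ⟨AddMonoidHom.liftOfSurjective π hπ ⟨c', hker⟩, fun r => ?_⟩
  have := AddMonoidHom.liftOfRightInverse_comp_apply π (Function.surjInv hπ)
    (Function.rightInverse_surjInv hπ) ⟨c', hker⟩ (r, 0)
  simpa [π, c'] using this

/-- **Additive extension lemma.**  Let `0 → R → P → N → 0` be an exact sequence of abelian groups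
with `p N = 0`, `p` prime.  If every value of the additive map `g₀ : R → D` is divisible by `p`
in `D`, then `g₀` extends to an additive map `P → D`. -/
theorem exists_extension_of_pTorsion_quotient
    {R P N D : Type*} [AddCommGroup R] [AddCommGroup P] [AddCommGroup N] [AddCommGroup D]
    (p : ℕ) (hp : p.Prime) (ι : R →+ P) (ε : P →+ N)
    (hι : Function.Injective ι) (hε : Function.Surjective ε)
    (hex : ∀ x : P, ε x = 0 → ∃ r, ι r = x) (hιε : ∀ r, ε (ι r) = 0)
    (hN : ∀ n : N, p • n = 0)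
    (g₀ : R →+ D) (hdiv : ∀ r : R, ∃ d : D, p • d = g₀ r) :
    ∃ c : P →+ D, ∀ r, c (ι r) = g₀ r :=
  @exists_extension_aux R P N D _ _ _ _ p ⟨hp⟩ (AddCommGroup.zmodModule hN) ι ε hι hε hex hιε hN
    g₀ hdiv

end Fermat.Agent.S55.E1.H114

end
-- ===== PACK-END S55/E1/H114/Extend.lean

-- ===== PACK-BEGIN S55/G/Exist/H361/SplitNorm.lean
section
/-
S55 / layer G / block EXIST, leaf EX-KUM (helper361), part 1: the SPLIT NORM lemma (Mathlib only).

Abstract setting: a commutative ring `R` with an action `act : Γ →* (R ≃+* R)` of a finite group,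
a field `K` with a ring homomorphism `ι : K →+* R` whose image is fixed by `Γ`, a prime `p`
invertible in `K` with a primitive `p`-th root of unity in `K`, and a finite family of elements
`t i ∈ R` with `t i ^ p = 1` on which `Γ` acts through characters `χ i : Γ →* μ_p(K)`
(`g (t i) = χ i g · t i`) which separate the elements of `Γ`.

Then there is a "torsor idempotent" `e ∈ R`: the translates `g e` are pairwise orthogonal and
sum to `1` (`exists_torsor_idempotent`).  Consequently every `Γ`-invariant unit of `R` is a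
norm (`exists_units_prod_eq`).

Application (file `KummerField.lean`): `R = M ⊗ ℚ_S` for a Kummer extension `M = K(ᵖ√B)` in
which every `b ∈ B` is a `p`-th power in `K ⊗ ℚ_S` (all places above `S` split completely).
-/


set_option autoImplicit false

namespace Fermat.Agent.S55.G.Exist.H361

open Finset

section Averaging

variable {R : Type*} [CommRing R]

/-- The averaging element `c · ∑_{i<p} s^i` (with `c = p⁻¹`). -/
def avgPow (p : ℕ) (c s : R) : R := c * ∑ i ∈ range p, s ^ i

lemma mul_avgPow {p : ℕ} (c : R) {s : R} (hs : s ^ p = 1) : s * avgPow p c s = avgPow p c s := by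
  unfold avgPow
  have h : s * ∑ i ∈ range p, s ^ i = ∑ i ∈ range p, s ^ i := by
    rw [mul_sum]
    have h1 : ∑ i ∈ range p, s * s ^ i = ∑ i ∈ range p, s ^ (i + 1) :=
      sum_congr rfl fun i _ => by rw [pow_succ, mul_comm]
    rw [h1]
    have h2 := sum_range_succ (fun i => s ^ i) p
    have h3 := sum_range_succ' (fun i => s ^ i) p
    simp only [pow_zero] at h3
    rw [h2, hs] at h3
    exact (add_right_cancel h3).symm
  rw [mul_left_comm, h]

lemma pow_mul_avgPow {p : ℕ} (c : R) {s : R} (hs : s ^ p = 1) (i : ℕ) :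
    s ^ i * avgPow p c s = avgPow p c s := by
  induction i with
  | zero => rw [pow_zero, one_mul]
  | succ i ih => rw [pow_succ, mul_assoc, mul_avgPow c hs, ih]

/-- `P(s) · P(η s) = 0` if `∑_{i<p} η^i = 0`. -/
lemma avgPow_mul_avgPow_eq_zero {p : ℕ} (c : R) {s η : R} (hs : s ^ p = 1)
    (hη : ∑ i ∈ range p, η ^ i = 0) : avgPow p c s * avgPow p c (η * s) = 0 := by
  have h : avgPow p c s * avgPow p c (η * s) = c * ((∑ i ∈ range p, η ^ i) * avgPow p c s) := by
    conv_lhs => rw [avgPow.eq_def p c (η * s)]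
    rw [mul_left_comm, mul_sum, sum_mul]
    congr 1
    refine sum_congr rfl fun i _ => ?_
    rw [mul_pow, mul_comm (avgPow p c s), mul_assoc, pow_mul_avgPow c hs]
  rw [h, hη, zero_mul, mul_zero]

lemma map_avgPow {R' F : Type*} [CommRing R'] [FunLike F R R'] [RingHomClass F R R'] (f : F)
    (p : ℕ) (c s : R) :
    f (avgPow p c s) = avgPow p (f c) (f s) := by
  simp [avgPow, map_sum]

/-- A product `∏ (1 + x g)` of pairwise orthogonal elements. -/
lemma prod_one_add_of_orthogonal {α : Type*} [DecidableEq α] (s : Finset α) (x : α → R)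
    (h : ∀ a ∈ s, ∀ b ∈ s, a ≠ b → x a * x b = 0) :
    ∏ a ∈ s, (1 + x a) = 1 + ∑ a ∈ s, x a := by
  induction s using Finset.induction_on with
  | empty => simp
  | insert a s ha ih =>
    rw [prod_insert ha, sum_insert ha, ih fun b hb c hc => h b (mem_insert_of_mem hb) c
      (mem_insert_of_mem hc)]
    have h0 : x a * ∑ b ∈ s, x b = 0 := by
      rw [mul_sum]
      refine sum_eq_zero fun b hb => ?_
      exact h a (mem_insert_self a s) b (mem_insert_of_mem hb) (fun hab => ha (hab ▸ hb))
    calc (1 + x a) * (1 + ∑ b ∈ s, x b)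
        = 1 + (x a + ∑ b ∈ s, x b) + x a * ∑ b ∈ s, x b := by ring
      _ = 1 + (x a + ∑ b ∈ s, x b) := by rw [h0, add_zero]

end Averaging

section RootSums

variable {K : Type*} [Field K] {p : ℕ}

lemma rootsOfUnity_val_pow (η : rootsOfUnity p K) : ((η : Kˣ) : K) ^ p = 1 := by
  have h := (mem_rootsOfUnity p (η : Kˣ)).1 η.2
  have h2 := congrArg Units.val h
  simpa using h2

/-- `∑_{i<p} η^i = 0` for a `p`-th root of unity `η ≠ 1` in a field. -/
lemma geom_sum_rootsOfUnity_eq_zero (η : rootsOfUnity p K) (hη : η ≠ 1) :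
    ∑ i ∈ range p, ((η : Kˣ) : K) ^ i = 0 := by
  have h1 : ((η : Kˣ) : K) ^ p = 1 := rootsOfUnity_val_pow η
  have h2 : ((η : Kˣ) : K) - 1 ≠ 0 := by
    intro h
    apply hη
    ext
    rw [sub_eq_zero] at h
    simpa using h
  have h3 := mul_geom_sum ((η : Kˣ) : K) p
  rw [h1, sub_self] at h3
  exact (mul_eq_zero.1 h3).resolve_left h2

variable [NeZero p] [Fintype (rootsOfUnity p K)]

/-- `∑_{η ∈ μ_p} η^i = 0` for `0 < i < p`, `p` prime, when `μ_p` has a primitive root. -/
lemma sum_rootsOfUnity_pow_eq_zero {ζ : K} (hζ : IsPrimitiveRoot ζ p) {i : ℕ}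
    (hi0 : 0 < i) (hip : i < p) :
    ∑ η : rootsOfUnity p K, ((η : Kˣ) : K) ^ i = 0 := by
  -- the element `ζ` of `μ_p`
  have hζu : IsUnit ζ := hζ.isUnit (NeZero.ne p)
  have hmem : hζu.unit ∈ rootsOfUnity p K := by
    rw [mem_rootsOfUnity]
    ext
    simp [hζ.pow_eq_one]
  let z : rootsOfUnity p K := ⟨hζu.unit, hmem⟩
  have hz : ((z : Kˣ) : K) = ζ := rfl
  have hzi : ζ ^ i ≠ 1 := by
    intro h
    have := hζ.dvd_of_pow_eq_one i h
    exact absurd (Nat.le_of_dvd hi0 this) (not_le.2 hip)
  have key : ζ ^ i * ∑ η : rootsOfUnity p K, ((η : Kˣ) : K) ^ i =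
      ∑ η : rootsOfUnity p K, ((η : Kˣ) : K) ^ i := by
    rw [mul_sum]
    refine Fintype.sum_equiv (Equiv.mulLeft z) _ _ fun η => ?_
    simp only [Equiv.coe_mulLeft, Subgroup.coe_mul, Units.val_mul, mul_pow, hz]
  have h : (ζ ^ i - 1) * ∑ η : rootsOfUnity p K, ((η : Kˣ) : K) ^ i = 0 := by
    rw [sub_mul, key, one_mul, sub_self]
  exact (mul_eq_zero.1 h).resolve_left (sub_ne_zero.2 hzi)

/-- `∑_{η ∈ μ_p} ∑_{i<p} (η s)^i = p` (in any `K`-algebra-like ring). -/
lemma sum_rootsOfUnity_geom {R : Type*} [CommRing R] (ι : K →+* R) (hp : p.Prime) {ζ : K}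
    (hζ : IsPrimitiveRoot ζ p) (s : R) :
    ∑ η : rootsOfUnity p K, ∑ i ∈ range p, (ι ((η : Kˣ) : K) * s) ^ i = (p : R) := by
  rw [sum_comm]
  have h : ∀ i ∈ range p, ∑ η : rootsOfUnity p K, (ι ((η : Kˣ) : K) * s) ^ i =
      if i = 0 then (p : R) else 0 := by
    intro i hi
    rw [mem_range] at hi
    split_ifs with h0
    · subst h0
      simp only [pow_zero, sum_const, card_univ, nsmul_eq_mul, mul_one]
      rw [← Nat.card_eq_fintype_card, hζ.card_rootsOfUnity]
    · have h1 : ∑ η : rootsOfUnity p K, (ι ((η : Kˣ) : K) * s) ^ i =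
          ι (∑ η : rootsOfUnity p K, ((η : Kˣ) : K) ^ i) * s ^ i := by
        rw [map_sum, sum_mul]
        refine sum_congr rfl fun η _ => ?_
        rw [mul_pow, map_pow]
      rw [h1, sum_rootsOfUnity_pow_eq_zero hζ (Nat.pos_of_ne_zero h0) hi, map_zero, zero_mul]
  rw [sum_congr rfl h, sum_ite_eq' (range p) 0]
  simp [hp.pos]

end RootSums

section Torsor

variable {K R Γ I : Type*} [Field K] [CommRing R] [Group Γ] [Fintype Γ] [Fintype I]
  [DecidableEq I]
  {p : ℕ} [NeZero p] (hp : p.Prime) (ι : K →+* R) (hpK : (p : K) ≠ 0) {ζ : K}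
  (hζ : IsPrimitiveRoot ζ p)
  (act : Γ →* (R ≃+* R)) (hfix : ∀ (g : Γ) (x : K), act g (ι x) = ι x)
  (t : I → R) (ht : ∀ i, t i ^ p = 1) (χ : I → Γ →* rootsOfUnity p K)
  (hact : ∀ i g, act g (t i) = ι ((χ i g : Kˣ) : K) * t i)
  (hsep : ∀ g : Γ, g ≠ 1 → ∃ i, χ i g ≠ 1)

/-- The joint eigenprojector attached to `k : I → μ_p`. -/
noncomputable def eigenProj (ι : K →+* R) (t : I → R) (k : I → rootsOfUnity p K) : R :=
  ∏ i, avgPow p (ι ((p : K)⁻¹)) (ι (((k i)⁻¹ : rootsOfUnity p K) : Kˣ) * t i)

omit [NeZero p] [Fintype Γ] [Fintype I] [DecidableEq I] in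
include ht in
lemma rootMul_pow_eq_one (i : I) (η : rootsOfUnity p K) :
    (ι ((η : Kˣ) : K) * t i) ^ p = 1 := by
  rw [mul_pow, ht, mul_one, ← map_pow, rootsOfUnity_val_pow η, map_one]

omit [NeZero p] [Fintype Γ] [DecidableEq I] in
include hfix hact in
/-- The combined character `Γ → (I → μ_p)`. -/
lemma act_eigenProj (g : Γ) (k : I → rootsOfUnity p K) :
    act g (eigenProj ι t k) = eigenProj ι t (fun i => k i * (χ i g)⁻¹) := by
  unfold eigenProj
  rw [map_prod]
  refine prod_congr rfl fun i _ => ?_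
  rw [map_avgPow (act g)]
  rw [map_mul, hfix, hfix, hact, ← mul_assoc, ← map_mul]
  congr 3
  simp [mul_comm]

omit [NeZero p] [Fintype Γ] [DecidableEq I] in
include ht in
lemma eigenProj_mul_eigenProj_of_ne {k l : I → rootsOfUnity p K} (hkl : k ≠ l) :
    eigenProj ι t k * eigenProj ι t l = 0 := by
  classical
  obtain ⟨i, hi⟩ := Function.ne_iff.1 hkl
  unfold eigenProj
  rw [← prod_mul_distrib]
  refine prod_eq_zero (mem_univ i) ?_
  -- `s = (k i)⁻¹ t`, `η = k i (l i)⁻¹`
  have hη : (k i * (l i)⁻¹ : rootsOfUnity p K) ≠ 1 := by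
    intro h
    exact hi (mul_inv_eq_one.1 h)
  have h1 := avgPow_mul_avgPow_eq_zero (ι ((p : K)⁻¹)) (η := ι (((k i * (l i)⁻¹ :
    rootsOfUnity p K) : Kˣ) : K))
    (rootMul_pow_eq_one ι t ht i (k i)⁻¹)
    (by
      rw [← geom_sum_rootsOfUnity_eq_zero _ hη |> congrArg ι |>.trans (map_zero ι) |>.symm.symm]
      rw [map_sum]
      simp only [map_pow])
  rw [← mul_assoc, ← map_mul] at h1
  have h2 : ((((k i * (l i)⁻¹ : rootsOfUnity p K) : Kˣ) : K) *
      ((((k i)⁻¹ : rootsOfUnity p K) : Kˣ) : K)) = ((((l i)⁻¹ : rootsOfUnity p K) : Kˣ) : K) := by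
    rw [← Units.val_mul, ← Subgroup.coe_mul]
    congr 2
    rw [mul_comm (k i), mul_assoc, mul_inv_cancel, mul_one]
  rw [h2] at h1
  exact h1

include hp hζ hpK in
omit [Fintype Γ] in
lemma sum_eigenProj [Fintype (rootsOfUnity p K)] :
    ∑ k : I → rootsOfUnity p K, eigenProj ι t k = 1 := by
  unfold eigenProj
  have h := (Finset.prod_univ_sum (fun _ : I => (univ : Finset (rootsOfUnity p K)))
    (fun i η => avgPow p (ι ((p : K)⁻¹)) (ι (((η)⁻¹ : rootsOfUnity p K) : Kˣ) * t i))).symm
  rw [Fintype.piFinset_univ] at h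
  rw [h]
  refine prod_eq_one fun i _ => ?_
  have h1 : ∑ η : rootsOfUnity p K, avgPow p (ι ((p : K)⁻¹))
      (ι (((η)⁻¹ : rootsOfUnity p K) : Kˣ) * t i) =
      ∑ η : rootsOfUnity p K, avgPow p (ι ((p : K)⁻¹)) (ι ((η : Kˣ) : K) * t i) :=
    Fintype.sum_equiv (Equiv.inv _) _ _ fun η => rfl
  rw [h1]
  unfold avgPow
  rw [← mul_sum, sum_rootsOfUnity_geom ι hp hζ, ← map_natCast ι, ← map_mul, inv_mul_cancel₀ hpK,
    map_one]

include hp hζ hpK hfix ht hact hsep in
/-- **Torsor idempotent.**  There is `e ∈ R` whose `Γ`-translates are pairwise orthogonal and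
sum to `1`. -/
theorem exists_torsor_idempotent :
    ∃ e : R, (∀ g h : Γ, g ≠ h → act g e * act h e = 0) ∧ ∑ g : Γ, act g e = 1 := by
  classical
  letI : Fintype (rootsOfUnity p K) := Fintype.ofFinite _
  -- the character `X : Γ →* V`, `V = I → μ_p`
  let V := I → rootsOfUnity p K
  let X : Γ →* V :=
    { toFun := fun g i => χ i g
      map_one' := by funext i; exact map_one (χ i)
      map_mul' := fun g h => by funext i; exact map_mul (χ i) g h }
  have hX : Function.Injective X := by
    rw [injective_iff_map_eq_one]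
    intro g hg
    by_contra hne
    obtain ⟨i, hi⟩ := hsep g hne
    exact hi (congrFun hg i)
  have hactE : ∀ (g : Γ) (k : V), act g (eigenProj ι t k) = eigenProj ι t (k * (X g)⁻¹) :=
    fun g k => act_eigenProj ι act hfix t χ hact g k
  -- coset representatives of `V / X(Γ)`
  let H : Subgroup V := X.range
  let Ω : Finset V := univ.filter fun k => (QuotientGroup.mk k : V ⧸ H).out = k
  let e : R := ∑ k ∈ Ω, eigenProj ι t k
  have hacte : ∀ g : Γ, act g e = ∑ k ∈ Ω, eigenProj ι t (k * (X g)⁻¹) := by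
    intro g
    rw [map_sum]
    exact sum_congr rfl fun k _ => hactE g k
  -- the map `(g, k) ↦ k (X g)⁻¹` is injective on `Γ × Ω`
  have hinj : ∀ g h : Γ, ∀ k ∈ Ω, ∀ l ∈ Ω, k * (X g)⁻¹ = l * (X h)⁻¹ → g = h ∧ k = l := by
    intro g h k hk l hl hkl
    have hk' : (QuotientGroup.mk k : V ⧸ H).out = k := (mem_filter.1 hk).2
    have hl' : (QuotientGroup.mk l : V ⧸ H).out = l := (mem_filter.1 hl).2
    have hmk : (QuotientGroup.mk k : V ⧸ H) = QuotientGroup.mk l := by
      rw [QuotientGroup.eq]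
      have : k⁻¹ * l = X (g⁻¹ * h) := by
        rw [map_mul, map_inv]
        have h1 : l = k * (X g)⁻¹ * X h := by rw [hkl, inv_mul_cancel_right]
        rw [h1, mul_assoc, inv_mul_cancel_left]
      rw [this]
      exact ⟨_, rfl⟩
    have hkl' : k = l := by rw [← hk', ← hl', hmk]
    subst hkl'
    refine ⟨hX ?_, rfl⟩
    have := mul_left_cancel hkl
    exact inv_injective this
  refine ⟨e, fun g h hgh => ?_, ?_⟩
  · rw [hacte, hacte, sum_mul_sum]
    refine sum_eq_zero fun k hk => sum_eq_zero fun l hl => ?_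
    refine eigenProj_mul_eigenProj_of_ne ι t ht fun hkl => ?_
    exact hgh (hinj g h k hk l hl hkl).1
  · rw [← sum_eigenProj hp ι hpK hζ t]
    simp_rw [hacte]
    rw [← sum_product' univ Ω (fun g k => eigenProj ι t (k * (X g)⁻¹))]
    refine sum_bij (fun x _ => x.2 * (X x.1)⁻¹) (fun _ _ => mem_univ _) ?_ ?_ (fun _ _ => rfl)
    · rintro ⟨g, k⟩ hgk ⟨h, l⟩ hhl hEq
      have hk : k ∈ Ω := (mem_product.1 hgk).2
      have hl : l ∈ Ω := (mem_product.1 hhl).2
      obtain ⟨h1, h2⟩ := hinj g h k hk l hl hEq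
      rw [h1, h2]
    · intro v _
      obtain ⟨h, hh⟩ := QuotientGroup.mk_out_eq_mul H v
      obtain ⟨g, hg⟩ := h.2
      refine ⟨(g, (QuotientGroup.mk v : V ⧸ H).out), ?_, ?_⟩
      · refine mem_product.2 ⟨mem_univ _, mem_filter.2 ⟨mem_univ _, ?_⟩⟩
        rw [QuotientGroup.out_eq']
      · show (QuotientGroup.mk v : V ⧸ H).out * (X g)⁻¹ = v
        rw [hh, hg, mul_inv_cancel_right]

include hp hζ hpK hfix ht hact hsep in
/-- **Split norms.**  Every `Γ`-invariant unit of `R` is a norm. -/
theorem exists_units_prod_eq (j : Rˣ) (hj : ∀ g : Γ, act g (j : R) = j) :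
    ∃ j' : Rˣ, ∏ g : Γ, Units.map ((act g : R ≃+* R) : R →* R) j' = j := by
  classical
  obtain ⟨e, horth, hsum⟩ := exists_torsor_idempotent hp ι hpK hζ act hfix t ht χ hact hsep
  have he1 : act 1 e = e := by rw [map_one]; rfl
  have hidem : e * e = e := by
    have h1 : e * ∑ g : Γ, act g e = e * e := by
      rw [mul_sum, sum_eq_single (1 : Γ)]
      · rw [he1]
      · intro g _ hg
        have := horth 1 g (Ne.symm hg)
        rwa [he1] at this
      · intro h; exact absurd (mem_univ _) h
    rw [← h1, hsum, mul_one]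
  have hjinv : ∀ g : Γ, act g ((j⁻¹ : Rˣ) : R) = ((j⁻¹ : Rˣ) : R) := by
    intro g
    have h1 : act g ((j⁻¹ : Rˣ) : R) * (j : R) = 1 := by
      conv_lhs => rw [← hj g]
      rw [← map_mul, Units.inv_mul, map_one]
    calc act g ((j⁻¹ : Rˣ) : R) = act g ((j⁻¹ : Rˣ) : R) * ((j : R) * ((j⁻¹ : Rˣ) : R)) := by
          rw [Units.mul_inv, mul_one]
      _ = ((j⁻¹ : Rˣ) : R) := by rw [← mul_assoc, h1, one_mul]
  let j' : Rˣ :=
    { val := 1 + ((j : R) - 1) * e
      inv := 1 + (((j⁻¹ : Rˣ) : R) - 1) * e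
      val_inv := by
        have h : (j : R) * ((j⁻¹ : Rˣ) : R) = 1 := Units.mul_inv j
        calc (1 + ((j : R) - 1) * e) * (1 + (((j⁻¹ : Rˣ) : R) - 1) * e)
            = 1 + (((j : R) - 1) + (((j⁻¹ : Rˣ) : R) - 1)) * e
              + ((j : R) * ((j⁻¹ : Rˣ) : R) - (j : R) - ((j⁻¹ : Rˣ) : R) + 1) * (e * e) := by ring
          _ = 1 := by rw [hidem, h]; ring
      inv_val := by
        have h : ((j⁻¹ : Rˣ) : R) * (j : R) = 1 := Units.inv_mul j
        calc (1 + (((j⁻¹ : Rˣ) : R) - 1) * e) * (1 + ((j : R) - 1) * e)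
            = 1 + (((j : R) - 1) + (((j⁻¹ : Rˣ) : R) - 1)) * e
              + (((j⁻¹ : Rˣ) : R) * (j : R) - (j : R) - ((j⁻¹ : Rˣ) : R) + 1) * (e * e) := by ring
          _ = 1 := by rw [hidem, h]; ring }
  refine ⟨j', Units.ext ?_⟩
  rw [Units.coe_prod]
  have h1 : ∀ g : Γ, ((Units.map ((act g : R ≃+* R) : R →* R) j' : Rˣ) : R) =
      1 + ((j : R) - 1) * act g e := by
    intro g
    show act g (1 + ((j : R) - 1) * e) = _
    rw [map_add, map_one, map_mul, map_sub, map_one, hj]
  simp_rw [h1]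
  rw [prod_one_add_of_orthogonal univ (fun g => ((j : R) - 1) * act g e)]
  · rw [← mul_sum, hsum]; ring
  · intro g _ h _ hgh
    calc ((j : R) - 1) * act g e * (((j : R) - 1) * act h e)
        = ((j : R) - 1) * ((j : R) - 1) * (act g e * act h e) := by ring
      _ = 0 := by rw [horth g h hgh, mul_zero]

end Torsor

end Fermat.Agent.S55.G.Exist.H361

end
-- ===== PACK-END S55/G/Exist/H361/SplitNorm.lean

-- ===== PACK-BEGIN S55/H424/PowBij.lean
section


/-!
# LPI (local power index), part 1: `x ↦ x ^ n` on principal congruence units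

Setting: a commutative ring `A`, an element `ϖ : A` such that `A` is `ϖ`-adically
complete and Hausdorff, a natural number `n` and `v : ℕ` with `(n : A) ∣ ϖ ^ v`
(for a discrete valuation ring with uniformiser `ϖ` this says `v(n) ≤ v`).

Main results (for `v + 1 ≤ m`):

* `H424.eq_one_of_pow_eq_one` : if `x ≡ 1 mod ϖ ^ m` and `x ^ n = 1` then `x = 1`
  (needs `n` to be a non-zero-divisor);
* `H424.exists_pow_eq` : every `w ≡ 1 mod n * ϖ ^ m` is `x ^ n` for some `x ≡ 1 mod ϖ ^ m`.

Everything is elementary (a Newton iteration), Mathlib only.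
-/

set_option autoImplicit false

namespace Fermat.Agent.S55.H424

variable {A : Type*} [CommRing A]

/-- Second-order binomial expansion: `(1 + a) ^ n = 1 + n a + c a ^ 2`. -/
lemma one_add_pow_expand (a : A) (n : ℕ) :
    ∃ c : A, (1 + a) ^ n = 1 + (n : A) * a + c * a ^ 2 := by
  induction n with
  | zero => exact ⟨0, by simp⟩
  | succ n ih =>
    obtain ⟨c, hc⟩ := ih
    refine ⟨n + c + c * a, ?_⟩
    rw [pow_succ, hc]
    push_cast
    ring

/-- `ϖ`-adic Hausdorffness in elementary form. -/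
lemma eq_zero_of_forall_pow_dvd (ϖ : A) [IsHausdorff (Ideal.span {ϖ}) A] {x : A}
    (h : ∀ k : ℕ, ϖ ^ k ∣ x) : x = 0 := by
  apply IsHausdorff.haus' (I := Ideal.span {ϖ}) x
  intro k
  rw [SModEq.zero, smul_eq_mul, Ideal.mul_top, Ideal.span_singleton_pow,
    Ideal.mem_span_singleton]
  exact h k

/-- A sequence whose consecutive differences are divisible by `ϖ ^ k` is Cauchy. -/
lemma pow_dvd_sub_of_succ (ϖ : A) (f : ℕ → A) (h : ∀ k : ℕ, ϖ ^ k ∣ f (k + 1) - f k)
    (k j : ℕ) : ϖ ^ k ∣ f (k + j) - f k := by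
  induction j with
  | zero => simp
  | succ j ih =>
    have h1 : ϖ ^ k ∣ f (k + j + 1) - f (k + j) :=
      (pow_dvd_pow ϖ (Nat.le_add_right k j)).trans (h (k + j))
    have h2 : f (k + (j + 1)) - f k = (f (k + j + 1) - f (k + j)) + (f (k + j) - f k) := by
      rw [← add_assoc]; ring
    rw [h2]
    exact dvd_add h1 ih

/-- `ϖ`-adic precompleteness in elementary form. -/
lemma exists_adic_limit (ϖ : A) [IsPrecomplete (Ideal.span {ϖ}) A] (f : ℕ → A)
    (h : ∀ k : ℕ, ϖ ^ k ∣ f (k + 1) - f k) : ∃ L : A, ∀ k : ℕ, ϖ ^ k ∣ L - f k := by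
  obtain ⟨L, hL⟩ := IsPrecomplete.prec' (I := Ideal.span {ϖ}) f (by
    intro m n hmn
    rw [SModEq.sub_mem, smul_eq_mul, Ideal.mul_top, Ideal.span_singleton_pow,
      Ideal.mem_span_singleton]
    obtain ⟨j, rfl⟩ := Nat.exists_eq_add_of_le hmn
    have h3 := pow_dvd_sub_of_succ ϖ f h m j
    have h4 : f m - f (m + j) = -(f (m + j) - f m) := by ring
    rw [h4]
    exact (dvd_neg).2 h3)
  refine ⟨L, fun k => ?_⟩
  have h5 := hL k
  rw [SModEq.sub_mem, smul_eq_mul, Ideal.mul_top, Ideal.span_singleton_pow,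
    Ideal.mem_span_singleton] at h5
  have h6 : L - f k = -(f k - L) := by ring
  rw [h6]
  exact (dvd_neg).2 h5

/-- If `(n : A) ∣ ϖ ^ v` and `ϖ` is a non-zero-divisor then so is `n`. -/
lemma natCast_nzd_of_dvd_pow {ϖ : A} {n v : ℕ} (hϖ : ∀ x : A, ϖ * x = 0 → x = 0)
    (hN : (n : A) ∣ ϖ ^ v) : ∀ x : A, (n : A) * x = 0 → x = 0 := by
  obtain ⟨w, hw⟩ := hN
  have hpow : ∀ (k : ℕ) (x : A), ϖ ^ k * x = 0 → x = 0 := by
    intro k
    induction k with
    | zero => intro x hx; simpa using hx
    | succ k ih =>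
      intro x hx
      apply ih
      apply hϖ
      rw [← hx]; ring
  intro x hx
  apply hpow v
  rw [hw]
  calc (n : A) * w * x = w * ((n : A) * x) := by ring
    _ = 0 := by rw [hx, mul_zero]

/-- One induction step of the uniqueness argument. -/
lemma pow_succ_dvd_of_pow_eq_one {ϖ : A} {n v : ℕ} (hN : (n : A) ∣ ϖ ^ v)
    (hnzd : ∀ x : A, (n : A) * x = 0 → x = 0) {j : ℕ} (hj : v + 1 ≤ j) {a : A}
    (ha : ϖ ^ j ∣ a) (han : (1 + a) ^ n = 1) : ϖ ^ (j + 1) ∣ a := by
  obtain ⟨w, hw⟩ := hN
  obtain ⟨a', rfl⟩ := ha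
  obtain ⟨d, rfl⟩ := Nat.exists_eq_add_of_le hj
  obtain ⟨c, hc⟩ := one_add_pow_expand (ϖ ^ (v + 1 + d) * a') n
  rw [han] at hc
  have h1 : (ϖ ^ (v + 1 + d) * a') ^ 2 = ϖ ^ v * (ϖ ^ (v + 1 + d + 1) * (ϖ ^ d * a' ^ 2)) := by
    ring
  rw [h1, hw] at hc
  have h2 : (n : A) * (ϖ ^ (v + 1 + d) * a' + c * w * (ϖ ^ (v + 1 + d + 1) * (ϖ ^ d * a' ^ 2)))
      = 0 := by
    have h3 : (1 : A) + (n : A) * (ϖ ^ (v + 1 + d) * a')
        + c * ((n : A) * w * (ϖ ^ (v + 1 + d + 1) * (ϖ ^ d * a' ^ 2))) - 1 = 0 := by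
      rw [← hc]; ring
    rw [← h3]; ring
  have h4 := hnzd _ h2
  have h5 : ϖ ^ (v + 1 + d) * a' = ϖ ^ (v + 1 + d + 1) * (-(c * w * (ϖ ^ d * a' ^ 2))) := by
    have h6 := eq_neg_of_add_eq_zero_left h4
    rw [h6]; ring
  rw [h5]
  exact Dvd.intro _ rfl

/-- **Uniqueness.** If `x ≡ 1 mod ϖ ^ m` with `m ≥ v + 1`, `(n : A) ∣ ϖ ^ v`, `n` a
non-zero-divisor and `A` is `ϖ`-adically Hausdorff, then `x ^ n = 1` forces `x = 1`. -/
theorem eq_one_of_pow_eq_one (ϖ : A) [IsHausdorff (Ideal.span {ϖ}) A] {n v m : ℕ}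
    (hN : (n : A) ∣ ϖ ^ v) (hnzd : ∀ x : A, (n : A) * x = 0 → x = 0) (hm : v + 1 ≤ m)
    {x : A} (hx : ϖ ^ m ∣ x - 1) (hxn : x ^ n = 1) : x = 1 := by
  have han : (1 + (x - 1)) ^ n = 1 := by
    rw [← hxn]; congr 1; ring
  have key : ∀ j : ℕ, m ≤ j → ϖ ^ j ∣ x - 1 := by
    intro j hj
    induction j, hj using Nat.le_induction with
    | base => exact hx
    | succ j hj ih => exact pow_succ_dvd_of_pow_eq_one hN hnzd (hm.trans hj) ih han
  have h0 : x - 1 = 0 := by
    apply eq_zero_of_forall_pow_dvd ϖ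
    intro k
    exact (pow_dvd_pow ϖ (Nat.le_add_left k m)).trans (key (m + k) (Nat.le_add_right m k))
  exact sub_eq_zero.1 h0

/-- One Newton step. -/
lemma newton_step {ϖ : A} {n v m : ℕ} (hN : (n : A) ∣ ϖ ^ v) (hm : v + 1 ≤ m) {w : A}
    (k : ℕ) {x : A} (hx1 : ϖ ^ m ∣ x - 1) (hx2 : (n : A) * ϖ ^ (m + k) ∣ w - x ^ n) :
    ∃ x' : A, ϖ ^ m ∣ x' - 1 ∧ (n : A) * ϖ ^ (m + k + 1) ∣ w - x' ^ n ∧
      ϖ ^ (m + k) ∣ x' - x := by
  obtain ⟨w0, hw0⟩ := hN
  obtain ⟨t, ht⟩ := hx2
  obtain ⟨d, rfl⟩ := Nat.exists_eq_add_of_le hm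
  obtain ⟨e, he⟩ := one_add_pow_expand (ϖ ^ (v + 1 + d + k) * t) n
  -- `ϖ ∣ 1 - x ^ n`
  have hϖ1 : ϖ ∣ x - 1 := (dvd_pow_self ϖ (by omega : v + 1 + d ≠ 0)).trans hx1
  obtain ⟨r, hr⟩ : ϖ ∣ x ^ n - 1 := by
    have h1 := sub_dvd_pow_sub_pow x 1 n
    rw [one_pow] at h1
    exact hϖ1.trans h1
  refine ⟨x * (1 + ϖ ^ (v + 1 + d + k) * t), ?_, ?_, ?_⟩
  · have h2 : x * (1 + ϖ ^ (v + 1 + d + k) * t) - 1
        = (x - 1) + ϖ ^ (v + 1 + d) * (ϖ ^ k * t * x) := by ring
    rw [h2]
    exact dvd_add hx1 (Dvd.intro _ rfl)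
  · have h3 : w - (x * (1 + ϖ ^ (v + 1 + d + k) * t)) ^ n
        = (w - x ^ n) - x ^ n * ((n : A) * (ϖ ^ (v + 1 + d + k) * t))
          - x ^ n * e * (ϖ ^ (v + 1 + d + k) * t) ^ 2 := by
      rw [mul_pow, he]; ring
    have h4 : (ϖ ^ (v + 1 + d + k) * t) ^ 2
        = ϖ ^ v * (ϖ ^ (v + 1 + d + k + 1) * (ϖ ^ (d + k) * t ^ 2)) := by ring
    have hx' : x ^ n = 1 + ϖ * r := by rw [← hr]; ring
    rw [h3, h4, hw0, ht, hx']
    refine ⟨-(r * t) - (1 + ϖ * r) * (r * t) * 0 - (1 + ϖ * r) * e * w0 * (ϖ ^ (d + k) * t ^ 2), ?_⟩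
    ring
  · have h5 : x * (1 + ϖ ^ (v + 1 + d + k) * t) - x = ϖ ^ (v + 1 + d + k) * (t * x) := by ring
    rw [h5]
    exact Dvd.intro _ rfl

/-- **Existence.** If `A` is `ϖ`-adically complete, `(n : A) ∣ ϖ ^ v` and `m ≥ v + 1`, then
every `w ≡ 1 mod n * ϖ ^ m` is the `n`-th power of some `x ≡ 1 mod ϖ ^ m`. -/
theorem exists_pow_eq (ϖ : A) [IsAdicComplete (Ideal.span {ϖ}) A] {n v m : ℕ}
    (hN : (n : A) ∣ ϖ ^ v) (hm : v + 1 ≤ m) {w : A} (hw : (n : A) * ϖ ^ m ∣ w - 1) :
    ∃ x : A, ϖ ^ m ∣ x - 1 ∧ x ^ n = w := by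
  -- the Newton sequence
  choose g hg1 hg2 hg3 using
    fun (k : ℕ) (x : {x : A // ϖ ^ m ∣ x - 1 ∧ (n : A) * ϖ ^ (m + k) ∣ w - x ^ n}) =>
      newton_step hN hm (w := w) k x.2.1 x.2.2
  let s : ∀ k : ℕ, {x : A // ϖ ^ m ∣ x - 1 ∧ (n : A) * ϖ ^ (m + k) ∣ w - x ^ n} :=
    fun k => Nat.rec (motive := fun k =>
        {x : A // ϖ ^ m ∣ x - 1 ∧ (n : A) * ϖ ^ (m + k) ∣ w - x ^ n})
      ⟨1, by simp, by simpa using hw⟩
      (fun k x => ⟨g k x, hg1 k x, hg2 k x⟩) k
  have hs : ∀ k, (s (k + 1)).1 = g k (s k) := fun k => rfl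
  have hcauchy : ∀ k : ℕ, ϖ ^ k ∣ (s (k + 1)).1 - (s k).1 := by
    intro k
    rw [hs]
    exact (pow_dvd_pow ϖ (Nat.le_add_left k m)).trans (hg3 k (s k))
  obtain ⟨L, hL⟩ := exists_adic_limit ϖ (fun k => (s k).1) hcauchy
  refine ⟨L, ?_, ?_⟩
  · have h1 : L - 1 = (L - (s m).1) + ((s m).1 - 1) := by ring
    rw [h1]
    exact dvd_add (hL m) (s m).2.1
  · have h0 : w - L ^ n = 0 := by
      apply eq_zero_of_forall_pow_dvd ϖ
      intro k
      have h2 : w - L ^ n = (w - (s k).1 ^ n) - (L ^ n - (s k).1 ^ n) := by ring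
      rw [h2]
      apply dvd_sub
      · have h7 : ϖ ^ k ∣ (n : A) * ϖ ^ (m + k) :=
          (pow_dvd_pow ϖ (Nat.le_add_left k m)).trans (Dvd.intro_left _ rfl)
        exact h7.trans (s k).2.2
      · exact (hL k).trans (sub_dvd_pow_sub_pow L (s k).1 n)
    exact (sub_eq_zero.1 h0).symm

end Fermat.Agent.S55.H424

end
-- ===== PACK-END S55/H424/PowBij.lean

-- ===== PACK-BEGIN S55/G/SIndH237/H95/SemiLocal.lean
section
/-
S55 / layer G / G-SIND:UCT (helper95).  Part 1 (Mathlib only).

Hilbert 90 for the unit group of a commutative ring `A` with finitely many maximal ideals on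
which a finite group `H` acts with trivial inertia at every maximal ideal ("Galois action"):
every multiplicative `1`-cocycle `H → Aˣ` is a coboundary, and `A` contains an element of
trace `1`.  Proof: Poincaré series `θ(z) = ∑_h c(h) · h(z)` + Dedekind independence of
characters + Chinese remainder theorem.
-/


set_option autoImplicit false
set_option linter.unusedSectionVars false
set_option linter.style.haveILetI false

namespace Fermat.Agent.S55.G.SIndH237.H95

open groupCohomology

/-- The action of `H` on the units of a ring on which it acts by ring automorphisms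
(a definition, NOT a global instance; use `attribute [local instance]` or `letI`). -/
@[reducible] def unitsAct (H A : Type*) [Group H] [CommRing A] [MulSemiringAction H A] :
    MulDistribMulAction H Aˣ where
  smul g u := Units.map (MulSemiringAction.toRingHom H A g : A →* A) u
  one_smul u := Units.ext (one_smul H (u : A))
  mul_smul g h u := Units.ext (mul_smul g h (u : A))
  smul_mul g u v := Units.ext (smul_mul' g (u : A) (v : A))
  smul_one g := Units.ext (smul_one g)

attribute [local instance] unitsAct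

lemma coe_unitsAct_smul {H A : Type*} [Group H] [CommRing A] [MulSemiringAction H A]
    (g : H) (u : Aˣ) : ((g • u : Aˣ) : A) = g • (u : A) := rfl

section Core

variable {A : Type*} [CommRing A] {H : Type*} [Group H] [Fintype H] [MulSemiringAction H A]

/-- The Poincaré series of a `1`-cochain `c : H → Aˣ`. -/
def theta (c : H → Aˣ) (z : A) : A := ∑ h : H, (c h : A) * h • z

lemma theta_add (c : H → Aˣ) (z w : A) : theta c (z + w) = theta c z + theta c w := by
  simp only [theta, smul_add, mul_add, Finset.sum_add_distrib]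

lemma theta_mul_of_invariant (c : H → Aˣ) (a z : A) (ha : ∀ h : H, h • a = a) :
    theta c (a * z) = a * theta c z := by
  simp only [theta, smul_mul', ha, Finset.mul_sum]
  refine Finset.sum_congr rfl fun h _ => ?_
  ring

/-- The functional equation of the Poincaré series of a `1`-cocycle. -/
lemma mul_smul_theta (c : H → Aˣ) (hc : IsMulCocycle₁ c) (g : H) (z : A) :
    (c g : A) * g • theta c z = theta c z := by
  have h1 : ∀ h : H, (c g : A) * g • ((c h : A) * h • z) = (c (g * h) : A) * (g * h) • z := by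
    intro h
    rw [smul_mul', hc g h, Units.val_mul, mul_smul, coe_unitsAct_smul]
    ring
  rw [theta, Finset.smul_sum, Finset.mul_sum]
  rw [Finset.sum_congr rfl fun h _ => h1 h]
  exact Fintype.sum_equiv (Equiv.mulLeft g) _ _ fun h => rfl

lemma smul_theta_mem_iff (c : H → Aˣ) (hc : IsMulCocycle₁ c) (g : H) (z : A) (m : Ideal A) :
    g • theta c z ∈ m ↔ theta c z ∈ m := by
  constructor
  · intro h
    rw [← mul_smul_theta c hc g z]
    exact m.mul_mem_left _ h
  · intro h
    have h2 : g • theta c z = ((c g)⁻¹ : Aˣ) * theta c z := by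
      conv_rhs => rw [← mul_smul_theta c hc g z, ← mul_assoc, Units.inv_mul, one_mul]
    rw [h2]
    exact m.mul_mem_left _ h

/-- Dedekind independence: at a maximal ideal with trivial inertia the Poincaré series is not
identically zero. -/
lemma exists_theta_notMem (c : H → Aˣ) (m : Ideal A) [hm : m.IsMaximal]
    (hin : ∀ h : H, (∀ x : A, h • x - x ∈ m) → h = 1) : ∃ z : A, theta c z ∉ m := by
  classical
  by_contra hcon
  push Not at hcon
  letI : Field (A ⧸ m) := Ideal.Quotient.field m
  let φ : H → (A →* (A ⧸ m)) := fun h =>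
    ((Ideal.Quotient.mk m).comp (MulSemiringAction.toRingHom H A h)).toMonoidHom
  have hφ : ∀ (h : H) (x : A), φ h x = Ideal.Quotient.mk m (h • x) := fun _ _ => rfl
  have hinj : Function.Injective φ := by
    intro h h' hh
    have h1 : h * h'⁻¹ = 1 := by
      refine hin _ fun x => ?_
      have h2 : φ h (h'⁻¹ • x) = φ h' (h'⁻¹ • x) := by rw [hh]
      rw [hφ, hφ, smul_inv_smul, Ideal.Quotient.eq, ← mul_smul] at h2
      exact h2
    exact mul_inv_eq_one.1 h1
  have hli := (linearIndependent_monoidHom A (A ⧸ m)).comp φ hinj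
  rw [Fintype.linearIndependent_iff] at hli
  have h0 := hli (fun h => Ideal.Quotient.mk m (c h : A)) (by
    funext x
    simp only [Function.comp_apply, Finset.sum_apply, Pi.smul_apply, smul_eq_mul, Pi.zero_apply,
      hφ]
    rw [← Ideal.Quotient.eq_zero_iff_mem.2 (hcon x), theta, map_sum]
    simp only [map_mul]) 1
  rw [Ideal.Quotient.eq_zero_iff_mem] at h0
  exact hm.ne_top (Ideal.eq_top_of_isUnit_mem _ h0 (c 1).isUnit)

/-- An `H`-invariant element of `A` lying in the maximal ideals of a finite `H`-stable "good" set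
and outside those of the complementary "bad" set. -/
lemma exists_invariant_separating (S : Finset (Ideal A)) (hS : ∀ m ∈ S, m.IsMaximal)
    (hst : ∀ m ∈ S, ∀ h : H, m.comap (MulSemiringAction.toRingHom H A h) ∈ S)
    (bad : Ideal A → Prop) (hbad : ∀ m ∈ S, bad m → ∀ h : H,
      bad (m.comap (MulSemiringAction.toRingHom H A h))) :
    ∃ a : A, (∀ h : H, h • a = a) ∧ (∀ m ∈ S, ¬ bad m → a ∈ m) ∧ (∀ m ∈ S, bad m → a ∉ m) := by
  classical
  have hcop : Pairwise (Function.onFun IsCoprime fun i : S => (i : Ideal A)) := by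
    intro i j hij
    haveI := hS i.1 i.2
    haveI := hS j.1 j.2
    exact Ideal.isCoprime_of_isMaximal fun h => hij (Subtype.ext h)
  obtain ⟨a₀, ha₀⟩ := Ideal.exists_forall_sub_mem_ideal hcop
    (fun i : S => if bad i.1 then (1 : A) else 0)
  refine ⟨∏ h : H, h • a₀, fun g => ?_, fun m hm hb => ?_, fun m hm hb hcon => ?_⟩
  · rw [Finset.smul_prod']
    simp only [← mul_smul]
    exact Fintype.prod_equiv (Equiv.mulLeft g) _ _ fun h => rfl
  · have h1 := ha₀ ⟨m, hm⟩
    simp only [hb, if_false, sub_zero] at h1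
    have h2 : (1 : H) • a₀ ∈ m := by rwa [one_smul]
    exact Ideal.prod_mem m (Finset.mem_univ (1 : H)) h2
  · haveI := hS m hm
    obtain ⟨h, -, hh⟩ := Ideal.IsPrime.prod_mem_iff.1 hcon
    have h1 := ha₀ ⟨m.comap (MulSemiringAction.toRingHom H A h), hst m hm h⟩
    simp only [hbad m hm hb h, if_true] at h1
    have h2 : a₀ ∈ m.comap (MulSemiringAction.toRingHom H A h) := hh
    have h3 := (Ideal.sub_mem _ h2 h1)
    rw [sub_sub_cancel] at h3
    have hmax : (m.comap (MulSemiringAction.toRingHom H A h)).IsMaximal := hS _ (hst m hm h)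
    exact hmax.ne_top ((Ideal.eq_top_iff_one _).2 h3)

/-- **Key lemma.**  If `A` has finitely many maximal ideals, all with trivial inertia, then the
Poincaré series of any `1`-cocycle takes a unit value. -/
theorem exists_isUnit_theta (hfin : {m : Ideal A | m.IsMaximal}.Finite)
    (hin : ∀ m : Ideal A, m.IsMaximal → ∀ h : H, (∀ x : A, h • x - x ∈ m) → h = 1)
    (c : H → Aˣ) (hc : IsMulCocycle₁ c) : ∃ z : A, IsUnit (theta c z) := by
  classical
  set S : Finset (Ideal A) := hfin.toFinset with hSdef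
  have hS : ∀ m, m ∈ S ↔ m.IsMaximal := fun m => by rw [hSdef, Set.Finite.mem_toFinset]; rfl
  have hst : ∀ m ∈ S, ∀ h : H, m.comap (MulSemiringAction.toRingHom H A h) ∈ S := by
    intro m hm h
    rw [hS] at hm ⊢
    haveI := hm
    exact Ideal.comap_isMaximal_of_surjective _
      (MulSemiringAction.toRingEquiv H A h).surjective
  have key : ∀ n : ℕ, ∀ z : A, (S.filter fun m => theta c z ∈ m).card = n →
      ∃ z' : A, IsUnit (theta c z') := by
    intro n
    induction n using Nat.strong_induction_on with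
    | _ n ih =>
      intro z hz
      by_cases hempty : (S.filter fun m => theta c z ∈ m) = ∅
      · refine ⟨z, ?_⟩
        by_contra hnu
        obtain ⟨m, hm, hmem⟩ := exists_max_ideal_of_mem_nonunits hnu
        have : m ∈ S.filter fun m => theta c z ∈ m :=
          Finset.mem_filter.2 ⟨(hS m).2 hm, hmem⟩
        rw [hempty] at this
        exact absurd this (Finset.notMem_empty m)
      · obtain ⟨n₀, hn₀⟩ := Finset.nonempty_iff_ne_empty.2 hempty
        obtain ⟨hn₀S, hn₀b⟩ := Finset.mem_filter.1 hn₀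
        haveI hn₀max : n₀.IsMaximal := (hS n₀).1 hn₀S
        obtain ⟨z₀, hz₀⟩ := exists_theta_notMem c n₀ (hin n₀ hn₀max)
        obtain ⟨a, hainv, hagood, habad⟩ := exists_invariant_separating S
          (fun m hm => (hS m).1 hm) hst (fun m => theta c z ∈ m)
          (fun m _ hb h => (smul_theta_mem_iff c hc h z m).2 hb)
        have hth : theta c (z + a * z₀) = theta c z + a * theta c z₀ := by
          rw [theta_add, theta_mul_of_invariant c a z₀ hainv]
        have hsub : (S.filter fun m => theta c (z + a * z₀) ∈ m) ⊂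
            (S.filter fun m => theta c z ∈ m) := by
          refine Finset.ssubset_iff_of_subset ?_ |>.2 ⟨n₀, hn₀, ?_⟩
          · intro m hm
            obtain ⟨hmS, hmb⟩ := Finset.mem_filter.1 hm
            refine Finset.mem_filter.2 ⟨hmS, ?_⟩
            by_contra hgood
            rw [hth] at hmb
            have := (Ideal.add_mem_iff_left m (m.mul_mem_right _ (hagood m hmS hgood))).1 hmb
            exact hgood this
          · intro hcon
            obtain ⟨-, hb⟩ := Finset.mem_filter.1 hcon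
            rw [hth] at hb
            have h1 := (Ideal.add_mem_iff_right n₀ hn₀b).1 hb
            rcases (inferInstance : n₀.IsPrime).mem_or_mem h1 with h2 | h2
            · exact habad n₀ hn₀S hn₀b h2
            · exact hz₀ h2
        exact ih _ (hz ▸ Finset.card_lt_card hsub) (z + a * z₀) rfl
  exact key _ 0 rfl

/-- **Hilbert 90** for rings with finitely many maximal ideals and trivial inertia. -/
theorem isMulCoboundary₁_of_trivial_inertia (hfin : {m : Ideal A | m.IsMaximal}.Finite)
    (hin : ∀ m : Ideal A, m.IsMaximal → ∀ h : H, (∀ x : A, h • x - x ∈ m) → h = 1)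
    (c : H → Aˣ) (hc : IsMulCocycle₁ c) : IsMulCoboundary₁ c := by
  obtain ⟨z, hz⟩ := exists_isUnit_theta hfin hin c hc
  refine ⟨hz.unit⁻¹, fun g => ?_⟩
  have h1 : c g * g • hz.unit = hz.unit := Units.ext (by
    rw [Units.val_mul, coe_unitsAct_smul, IsUnit.unit_spec]
    exact mul_smul_theta c hc g z)
  have h2 : g • hz.unit = (c g)⁻¹ * hz.unit := by
    rw [eq_inv_mul_iff_mul_eq]
    exact h1
  rw [smul_inv', h2, mul_inv, inv_inv, div_eq_mul_inv, inv_inv, mul_assoc, inv_mul_cancel,
    mul_one]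

/-- An element of trace `1`. -/
theorem exists_trace_eq_one (hfin : {m : Ideal A | m.IsMaximal}.Finite)
    (hin : ∀ m : Ideal A, m.IsMaximal → ∀ h : H, (∀ x : A, h • x - x ∈ m) → h = 1) :
    ∃ b : A, ∑ h : H, h • b = 1 := by
  have hc : IsMulCocycle₁ (fun _ : H => (1 : Aˣ)) := fun g h => by simp
  obtain ⟨z, u, hu⟩ := exists_isUnit_theta hfin hin _ hc
  have hinv : ∀ g : H, g • (u : A) = u := by
    intro g
    have := mul_smul_theta _ hc g z
    rw [← hu] at this
    simpa using this
  have hth : (u : A) = ∑ h : H, h • z := by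
    rw [hu]
    simp [theta]
  have hinv' : ∀ g : H, g • ((u⁻¹ : Aˣ) : A) = ((u⁻¹ : Aˣ) : A) := by
    intro g
    have h1 : g • ((u⁻¹ : Aˣ) : A) * u = 1 := by
      conv_lhs => rw [← hinv g, ← smul_mul']
      rw [Units.inv_mul, smul_one]
    calc g • ((u⁻¹ : Aˣ) : A)
        = g • ((u⁻¹ : Aˣ) : A) * (u * ((u⁻¹ : Aˣ) : A)) := by
          rw [Units.mul_inv, mul_one]
      _ = ((u⁻¹ : Aˣ) : A) := by rw [← mul_assoc, h1, one_mul]
  refine ⟨z * ((u⁻¹ : Aˣ) : A), ?_⟩
  simp only [smul_mul', hinv']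
  rw [← Finset.sum_mul, ← hth, Units.mul_inv]

end Core

end Fermat.Agent.S55.G.SIndH237.H95

end
-- ===== PACK-END S55/G/SIndH237/H95/SemiLocal.lean

-- ===== PACK-BEGIN S55/G/PL1H173/DvrVal.lean
section


/-!
# S55 layer G, leaf G-PL1 (helper173): the normalised valuation of a discrete valuation subring

Generic lemmas (Mathlib only):
* `dvrVal A : Valuation K ℤᵐ⁰` for a valuation subring `A` of `K` which is a DVR;
* `valuation_eq_of_isEquiv`: equivalent `ℤᵐ⁰`-valued valuations which both attain `exp (-1)`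
  are equal.
-/

set_option autoImplicit false
set_option linter.unusedSectionVars false
set_option linter.style.haveILetI false

open IsDedekindDomain WithZero

namespace Fermat.Agent.S55.G.PL1H173

section DvrVal

variable {K : Type} [Field K] (A : ValuationSubring K) [IsDiscreteValuationRing A]

/-- The normalised valuation of the discrete valuation subring `A`. -/
noncomputable def dvrVal : Valuation K ℤᵐ⁰ :=
  (IsDiscreteValuationRing.maximalIdeal A).valuation K

lemma heightOne_eq_maximalIdeal (v : HeightOneSpectrum A) :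
    v = IsDiscreteValuationRing.maximalIdeal A := by
  apply HeightOneSpectrum.ext
  exact IsLocalRing.eq_maximalIdeal (v.isPrime.isMaximal v.ne_bot)

lemma dvrVal_le_one_iff (y : K) : dvrVal A y ≤ 1 ↔ y ∈ A := by
  constructor
  · intro h
    have := HeightOneSpectrum.mem_integers_of_valuation_le_one (R := A) K y
      (fun v => by rw [heightOne_eq_maximalIdeal A v]; exact h)
    obtain ⟨z, rfl⟩ := this
    exact z.2
  · intro h
    exact HeightOneSpectrum.valuation_le_one (IsDiscreteValuationRing.maximalIdeal A)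
      (⟨y, h⟩ : A)

lemma dvrVal_lt_one_iff (y : K) : dvrVal A y < 1 ↔ y ∈ A.nonunits := by
  rw [ValuationSubring.mem_nonunits_iff_exists_mem_maximalIdeal]
  constructor
  · intro h
    have hy : y ∈ A := (dvrVal_le_one_iff A y).1 h.le
    refine ⟨hy, ?_⟩
    exact (HeightOneSpectrum.valuation_lt_one_iff_mem
      (IsDiscreteValuationRing.maximalIdeal A) (⟨y, hy⟩ : A)).1 h
  · rintro ⟨hy, h⟩
    exact (HeightOneSpectrum.valuation_lt_one_iff_mem
      (IsDiscreteValuationRing.maximalIdeal A) (⟨y, hy⟩ : A)).2 h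

lemma dvrVal_eq_one_iff (y : K) : dvrVal A y = 1 ↔ y ∈ A ∧ y ∉ A.nonunits := by
  rw [← dvrVal_le_one_iff, ← dvrVal_lt_one_iff, not_lt]
  exact ⟨fun h => ⟨h.le, h.ge⟩, fun h => le_antisymm h.1 h.2⟩

lemma exists_dvrVal_eq_exp_neg_one : ∃ π : K, dvrVal A π = exp (-1 : ℤ) :=
  HeightOneSpectrum.valuation_exists_uniformizer K (IsDiscreteValuationRing.maximalIdeal A)

end DvrVal

section Equiv

variable {F : Type} [Field F]

/-- Equivalent `ℤᵐ⁰`-valued valuations on a field which both attain the value `exp (-1)` are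
equal. -/
theorem valuation_eq_of_isEquiv (V₁ V₂ : Valuation F ℤᵐ⁰) (h : V₁.IsEquiv V₂)
    (h₁ : ∃ x, V₁ x = exp (-1 : ℤ)) (h₂ : ∃ π, V₂ π = exp (-1 : ℤ)) : V₁ = V₂ := by
  obtain ⟨π, hπ⟩ := h₂
  obtain ⟨x₁, hx₁⟩ := h₁
  have hπ0 : π ≠ 0 := by
    rintro rfl
    rw [map_zero] at hπ
    exact exp_ne_zero hπ.symm
  have hV1π : V₁ π ≠ 0 := (Valuation.ne_zero_iff V₁).2 hπ0
  -- key formula
  have key : ∀ x : F, x ≠ 0 → log (V₁ x) = log (V₁ π) * (- log (V₂ x)) := by
    intro x hx
    have hV2x : V₂ x ≠ 0 := (Valuation.ne_zero_iff V₂).2 hx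
    have hV1x : V₁ x ≠ 0 := (Valuation.ne_zero_iff V₁).2 hx
    have h2 : V₂ (x * π ^ (log (V₂ x))) = 1 := by
      rw [map_mul, map_zpow₀, hπ, ← exp_zsmul, smul_eq_mul, mul_neg, mul_one]
      conv_lhs => rw [← exp_log hV2x]
      rw [← exp_add, log_exp, add_neg_cancel, exp_zero]
    have h1 : V₁ (x * π ^ (log (V₂ x))) = 1 := (Valuation.isEquiv_iff_val_eq_one.1 h).2 h2
    rw [map_mul, map_zpow₀] at h1
    have h3 := congrArg log h1
    rw [log_mul hV1x (zpow_ne_zero _ hV1π), log_zpow, log_one, smul_eq_mul] at h3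
    linarith [h3, mul_comm (log (V₁ π)) (log (V₂ x))]
  have hx₁0 : x₁ ≠ 0 := by
    rintro rfl
    rw [map_zero] at hx₁
    exact exp_ne_zero hx₁.symm
  have h4 := key x₁ hx₁0
  rw [hx₁, log_exp] at h4
  have hlt : V₁ π < 1 := (Valuation.isEquiv_iff_val_lt_one.1 h).2 (by
    rw [hπ, ← exp_zero, exp_lt_exp]
    norm_num)
  have hneg : log (V₁ π) < 0 := by
    have := (log_lt_log hV1π one_ne_zero).2 hlt
    simpa using this
  have he : log (V₁ π) = -1 := by
    have hdvd : log (V₁ π) ∣ -1 := ⟨- log (V₂ x₁), h4⟩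
    have h5 : log (V₁ π) ∣ 1 := (dvd_neg.1 hdvd)
    rcases Int.isUnit_iff.1 (isUnit_of_dvd_one h5) with h6 | h6
    · omega
    · exact h6
  ext x
  by_cases hx : x = 0
  · subst hx
    simp
  · have hV2x : V₂ x ≠ 0 := (Valuation.ne_zero_iff V₂).2 hx
    have hV1x : V₁ x ≠ 0 := (Valuation.ne_zero_iff V₁).2 hx
    have h7 := key x hx
    rw [he] at h7
    have h8 : log (V₁ x) = log (V₂ x) := by linarith
    rw [← exp_log hV1x, ← exp_log hV2x, h8]

end Equiv

end Fermat.Agent.S55.G.PL1H173

end
-- ===== PACK-END S55/G/PL1H173/DvrVal.lean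

-- ===== PACK-BEGIN S55/H696/DevFixed.lean
section


/-!
# S55 / dévissage (helper696), part 2: invariant functionals for `p`-power actions

* `exists_fixed_ne_zero`         : a `p`-group acting additively on a finite abelian group of order
                                   divisible by `p` has a nonzero fixed point;
* `exists_invariant_functional`  : let `ρ : Representation (ZMod p) H V` be such that every
  `ρ h` has `p`-power order, and let `N ≠ ⊥` be a stable finite-dimensional subspace.
  Then there is a linear form `ℓ` on `V`, invariant on `N`, which does not vanish on `N`;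
* `rho_eq_one_of_finrank_eq_one` : if moreover `V` is one-dimensional then `ρ h = 1`.

Mathlib only.
-/

set_option autoImplicit false

noncomputable section

namespace Fermat.Agent.S55.H696

/-- A `p`-group acting additively on a finite abelian group of order divisible by `p` has a
nonzero fixed point. -/
theorem exists_fixed_ne_zero {Γ M : Type*} [Group Γ] [AddCommGroup M] [DistribMulAction Γ M]
    [Finite M] {p : ℕ} [hp : Fact p.Prime] (hΓ : IsPGroup p Γ) (hM : p ∣ Nat.card M) :
    ∃ m : M, m ≠ 0 ∧ ∀ γ : Γ, γ • m = m := by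
  classical
  have h1 : Nat.card M ≡ Nat.card (MulAction.fixedPoints Γ M) [MOD p] :=
    hΓ.card_modEq_card_fixedPoints M
  have h0 : (0 : M) ∈ MulAction.fixedPoints Γ M := fun g => smul_zero g
  have hdvd : p ∣ Nat.card (MulAction.fixedPoints Γ M) :=
    (Nat.modEq_zero_iff_dvd).1 (h1.symm.trans (Nat.modEq_zero_iff_dvd.2 hM))
  have hpos : 0 < Nat.card (MulAction.fixedPoints Γ M) := Finite.card_pos_iff.2 ⟨⟨0, h0⟩⟩
  have hle : 2 ≤ Nat.card (MulAction.fixedPoints Γ M) :=
    hp.out.two_le.trans (Nat.le_of_dvd hpos hdvd)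
  by_contra hcon
  simp only [not_exists, not_and, not_forall, ne_eq] at hcon
  have hsub : Subsingleton (MulAction.fixedPoints Γ M) := by
    refine ⟨fun a b => ?_⟩
    have ha : (a : M) = 0 := by
      by_contra ha
      obtain ⟨γ, hγ⟩ := hcon a ha
      exact hγ (a.2 γ)
    have hb : (b : M) = 0 := by
      by_contra hb
      obtain ⟨γ, hγ⟩ := hcon b hb
      exact hγ (b.2 γ)
    exact Subtype.ext (ha.trans hb.symm)
  have : Nat.card (MulAction.fixedPoints Γ M) ≤ 1 := Finite.card_le_one_iff_subsingleton.2 hsub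
  omega

section Functional

variable {p : ℕ} [hp : Fact p.Prime] {H V : Type} [Group H] [AddCommGroup V]
  [Module (ZMod p) V]

/-- Invariant linear forms on a stable subspace, for an action through elements of `p`-power
order. -/
theorem exists_invariant_functional (ρ : Representation (ZMod p) H V)
    (hpow : ∀ h : H, ∃ n : ℕ, ρ (h ^ p ^ n) = 1)
    (N : Submodule (ZMod p) V) [FiniteDimensional (ZMod p) N] (hN : N ≠ ⊥)
    (hst : ∀ h : H, N ≤ N.comap (ρ h)) :
    ∃ ℓ : V →ₗ[ZMod p] ZMod p,
      (∀ (h : H) (n : V), n ∈ N → ℓ (ρ h n) = ℓ n) ∧ ∃ n₀ ∈ N, ℓ n₀ ≠ 0 := by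
  classical
  -- the representation on `N` and its dual
  let ρN : Representation (ZMod p) H N := ρ.subrepresentation N hst
  let ρD : Representation (ZMod p) H (Module.Dual (ZMod p) N) := ρN.dual
  let Γ : Subgroup (Module.End (ZMod p) (Module.Dual (ZMod p) N))ˣ :=
    (Representation.asGroupHom ρD).range
  have hΓ : IsPGroup p Γ := by
    rintro ⟨γ, hγ⟩
    obtain ⟨h, rfl⟩ := hγ
    obtain ⟨n, hn⟩ := hpow h
    refine ⟨n, ?_⟩
    apply Subtype.ext
    show (Representation.asGroupHom ρD h) ^ p ^ n = 1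
    rw [← map_pow]
    apply Units.ext
    show ρD (h ^ p ^ n) = 1
    have h1 : ρN (h ^ p ^ n) = 1 := by
      apply LinearMap.ext
      intro x
      apply Subtype.ext
      show ρ (h ^ p ^ n) (x : V) = x
      rw [hn]
      rfl
    apply LinearMap.ext
    intro f
    apply LinearMap.ext
    intro x
    show (ρN.dual (h ^ p ^ n) f) x = f x
    rw [Representation.dual_apply, Module.Dual.transpose_apply, LinearMap.comp_apply]
    have h2 : ρN ((h ^ p ^ n)⁻¹) = 1 := by
      have := map_mul ρN ((h ^ p ^ n)⁻¹) (h ^ p ^ n)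
      rw [inv_mul_cancel, map_one, h1, mul_one] at this
      exact this.symm
    rw [h2]
    rfl
  have : Finite (ZMod p) := inferInstance
  have : Finite (Module.Dual (ZMod p) N) := Module.finite_of_finite (ZMod p)
  have hcard : p ∣ Nat.card (Module.Dual (ZMod p) N) := by
    rw [Module.natCard_eq_pow_finrank (K := ZMod p), Nat.card_zmod, Subspace.dual_finrank_eq]
    have hpos : 0 < Module.finrank (ZMod p) N := by
      rw [Module.finrank_pos_iff]
      exact (Submodule.nontrivial_iff_ne_bot).2 hN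
    exact dvd_pow_self p hpos.ne'
  obtain ⟨f, hf0, hfix⟩ := exists_fixed_ne_zero (Γ := Γ) (M := Module.Dual (ZMod p) N) hΓ hcard
  -- invariance of `f`
  have hinv : ∀ (h : H) (x : N), f (ρN h x) = f x := by
    intro h x
    have h1 : (⟨Representation.asGroupHom ρD h⁻¹, ⟨h⁻¹, rfl⟩⟩ : Γ) • f = f := hfix _
    have h2 : ρD h⁻¹ f = f := h1
    have h3 := LinearMap.congr_fun h2 x
    rw [show ρD h⁻¹ f = (ρN.dual h⁻¹) f from rfl, Representation.dual_apply,
      Module.Dual.transpose_apply, LinearMap.comp_apply, inv_inv] at h3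
    exact h3
  -- extend to `V`
  obtain ⟨ℓ, hℓ⟩ := LinearMap.exists_extend f
  have hℓ' : ∀ x : N, ℓ (x : V) = f x := fun x => LinearMap.congr_fun hℓ x
  refine ⟨ℓ, fun h n hn => ?_, ?_⟩
  · have := hinv h ⟨n, hn⟩
    rw [← hℓ', ← hℓ'] at this
    exact this
  · obtain ⟨x, hx⟩ : ∃ x : N, f x ≠ 0 := by
      by_contra hcon
      simp only [not_exists, not_not] at hcon
      exact hf0 (LinearMap.ext hcon)
    exact ⟨x, x.2, by rw [hℓ']; exact hx⟩

/-- An action on a line over `ZMod p` through elements of `p`-power order is trivial. -/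
theorem rho_eq_one_of_finrank_eq_one (ρ : Representation (ZMod p) H V)
    (hV : Module.finrank (ZMod p) V = 1) (h : H) (n : ℕ) (hn : ρ (h ^ p ^ n) = 1) :
    ρ h = 1 := by
  obtain ⟨m₀, hm₀⟩ := finrank_eq_one_iff'.1 hV
  obtain ⟨c, hc⟩ := hm₀.2 (ρ h m₀)
  have hpowc : ∀ j : ℕ, ρ (h ^ j) m₀ = c ^ j • m₀ := by
    intro j
    induction j with
    | zero => simp
    | succ j ih =>
      rw [pow_succ', map_mul, Module.End.mul_apply, ih, map_smul, ← hc, smul_smul, pow_succ]
  have hcp : ∀ j : ℕ, c ^ p ^ j = c := by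
    intro j
    induction j with
    | zero => simp
    | succ j ih => rw [pow_succ, pow_mul, ih, ZMod.pow_card]
  have h1 : c • m₀ = m₀ := by
    have := hpowc (p ^ n)
    rw [hn, hcp] at this
    exact this.symm
  apply LinearMap.ext
  intro v
  obtain ⟨a, rfl⟩ := hm₀.2 v
  rw [map_smul, ← hc, h1]
  rfl

end Functional

end Fermat.Agent.S55.H696

end

end
-- ===== PACK-END S55/H696/DevFixed.lean

-- ===== PACK-BEGIN S55/K/GO3H535/H371/ClassGp.lean
section


/-!
# S55 / layer K / GO3-CAPDIV (helper371), part 4: effective divisors are torsion in the class group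

`R` a Dedekind domain with finite class group, `c` a finitely supported function on the primes
of `R` with values in `ℕ`.  Then there are `h > 0` and `κ ≠ 0` in `R` with
`v_w(κ) = h · c(w)` for ALL primes `w` (the ideal `∏ w ^ c(w)` has finite order in the class
group).  Mathlib only.
-/

set_option autoImplicit false

noncomputable section

namespace Fermat.Agent.S55.K.GO3H535.H371

open IsDedekindDomain FractionalIdeal
open scoped nonZeroDivisors

section

variable {R : Type*} [CommRing R] [IsDedekindDomain R]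

/-- The valuation of a generator of an ideal, in terms of `FractionalIdeal.count`. -/
theorem intValuation_eq_exp_neg_count (K : Type*) [Field K] [Algebra R K] [IsFractionRing R K]
    (w : HeightOneSpectrum R) {κ : R} (hκ : κ ≠ 0) :
    w.intValuation κ =
      WithZero.exp (-(count K w ((Ideal.span {κ} : Ideal R) : FractionalIdeal R⁰ K))) := by
  have hsp : (Ideal.span {κ} : Ideal R) ≠ 0 := by
    rw [Ne, Ideal.zero_eq_bot, Ideal.span_singleton_eq_bot]
    exact hκ
  rw [w.intValuation_if_neg hκ, count_coe K w hsp]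

/-- `count` of a finite product of prime powers. -/
theorem count_prod_pow (K : Type*) [Field K] [Algebra R K] [IsFractionRing R K]
    (s : Finset (HeightOneSpectrum R)) (c : HeightOneSpectrum R → ℕ)
    (hc : ∀ w, w ∉ s → c w = 0) (v : HeightOneSpectrum R) :
    count K v (((∏ w ∈ s, w.asIdeal ^ c w : Ideal R)) : FractionalIdeal R⁰ K) = c v := by
  classical
  have hcoe : (((∏ w ∈ s, w.asIdeal ^ c w : Ideal R)) : FractionalIdeal R⁰ K) =
      ∏ w ∈ s, (w.asIdeal : FractionalIdeal R⁰ K) ^ c w := by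
    rw [← coeIdealHom_apply, map_prod]
    refine Finset.prod_congr rfl fun w _ => ?_
    rw [coeIdealHom_apply, coeIdeal_pow]
  rw [hcoe, count_prod K v s _ (fun w _ => pow_ne_zero _ (coeIdeal_ne_zero.mpr w.ne_bot))]
  simp only [count_pow, count_maximal, mul_ite, mul_one, mul_zero, Finset.sum_ite_eq']
  split_ifs with hv
  · rfl
  · rw [hc v hv]
    rfl

/-- **Effective divisors are torsion in the class group.** -/
theorem exists_elt_intValuation_eq [Finite (ClassGroup R)]
    (s : Finset (HeightOneSpectrum R)) (c : HeightOneSpectrum R → ℕ)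
    (hc : ∀ w, w ∉ s → c w = 0) :
    ∃ h : ℕ, 0 < h ∧ ∃ κ : R, κ ≠ 0 ∧
      ∀ w : HeightOneSpectrum R, w.intValuation κ = WithZero.exp (-((h * c w : ℕ) : ℤ)) := by
  classical
  haveI : Fintype (ClassGroup R) := Fintype.ofFinite _
  set I : Ideal R := ∏ w ∈ s, w.asIdeal ^ c w with hI
  have hI0 : I ≠ 0 := by
    rw [hI, Finset.prod_ne_zero_iff]
    intro w _
    exact pow_ne_zero _ w.ne_bot
  have hImem : I ∈ (Ideal R)⁰ := mem_nonZeroDivisors_of_ne_zero hI0
  set h : ℕ := Fintype.card (ClassGroup R) with hh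
  have hpos : 0 < h := Fintype.card_pos
  have hpow : ClassGroup.mk0 (⟨I, hImem⟩ ^ h : (Ideal R)⁰) = 1 := by
    rw [map_pow, hh]
    exact pow_card_eq_one
  have hprin : (I ^ h).IsPrincipal := by
    have hmem : I ^ h ∈ (Ideal R)⁰ := pow_mem hImem h
    have : ClassGroup.mk0 ⟨I ^ h, hmem⟩ = 1 := by
      rw [← hpow]
      rfl
    exact (ClassGroup.mk0_eq_one_iff hmem).1 this
  obtain ⟨κ, hκ⟩ := hprin
  have hκ' : I ^ h = Ideal.span {κ} := hκ
  have hκ0 : κ ≠ 0 := by
    rintro rfl
    rw [Ideal.span_singleton_eq_bot.2 rfl] at hκ'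
    exact pow_ne_zero h hI0 hκ'
  refine ⟨h, hpos, κ, hκ0, fun w => ?_⟩
  rw [intValuation_eq_exp_neg_count (FractionRing R) w hκ0, ← hκ', coeIdeal_pow, count_pow,
    count_prod_pow (FractionRing R) s c hc w]
  norm_cast

end

end Fermat.Agent.S55.K.GO3H535.H371

end
end
-- ===== PACK-END S55/K/GO3H535/H371/ClassGp.lean

-- ===== PACK-BEGIN S56/H614/CharpolySES.lean
section


/-!
# S56 / W-BASE / W3-UNITS (helper614): characteristic polynomials in split exact sequences

Mathlib-only linear algebra used for the characteristic polynomial of a Galois element on the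
`T`-units modulo `p`:

* `charpoly_triMap` : block upper triangular maps on a product.
* `charpoly_of_split` : `charpoly f = charpoly (r f ι) * charpoly (g f s)` for a split exact
  sequence `0 → V₁ →ι V →g V₂ → 0` (retraction `r`, section `s`) with `f`-stable kernel.
* `charpoly_baseChange_of_exact` : the same after base change `k ⊗_R -` of an exact sequence
  `0 → N → E →g F → 0` of `R`-modules with `F` free of finite rank.
-/

set_option autoImplicit false

noncomputable section

namespace Fermat.Agent.S56.H614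

open Polynomial Module

section Triangular

variable {R : Type*} [CommRing R] {M₁ M₂ : Type*}
  [AddCommGroup M₁] [Module R M₁] [AddCommGroup M₂] [Module R M₂]

/-- The block upper triangular endomorphism `(x, y) ↦ (a x + b y, d y)` of `M₁ × M₂`. -/
def triMap (a : M₁ →ₗ[R] M₁) (b : M₂ →ₗ[R] M₁) (d : M₂ →ₗ[R] M₂) :
    (M₁ × M₂) →ₗ[R] (M₁ × M₂) :=
  (a.coprod b).prod (d.comp (LinearMap.snd R M₁ M₂))

@[simp] lemma triMap_apply (a : M₁ →ₗ[R] M₁) (b : M₂ →ₗ[R] M₁) (d : M₂ →ₗ[R] M₂)
    (x : M₁ × M₂) : triMap a b d x = (a x.1 + b x.2, d x.2) := rfl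

variable [Module.Finite R M₁] [Module.Free R M₁] [Module.Finite R M₂] [Module.Free R M₂]

/-- The characteristic polynomial of a block upper triangular map. -/
theorem charpoly_triMap (a : M₁ →ₗ[R] M₁) (b : M₂ →ₗ[R] M₁) (d : M₂ →ₗ[R] M₂) :
    (triMap a b d).charpoly = a.charpoly * d.charpoly := by
  classical
  let b₁ := Free.chooseBasis R M₁
  let b₂ := Free.chooseBasis R M₂
  rw [← LinearMap.charpoly_toMatrix a b₁, ← LinearMap.charpoly_toMatrix d b₂,
    ← LinearMap.charpoly_toMatrix (triMap a b d) (b₁.prod b₂)]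
  have h : LinearMap.toMatrix (b₁.prod b₂) (b₁.prod b₂) (triMap a b d) =
      Matrix.fromBlocks (LinearMap.toMatrix b₁ b₁ a) (LinearMap.toMatrix b₂ b₁ b) 0
        (LinearMap.toMatrix b₂ b₂ d) := by
    ext i j
    rcases i with i | i <;> rcases j with j | j <;>
      simp [LinearMap.toMatrix_apply, triMap_apply]
  rw [h, Matrix.charpoly_fromBlocks_zero₂₁]

end Triangular

section Split

variable {R : Type*} [CommRing R] {V V₁ V₂ : Type*}
  [AddCommGroup V] [Module R V] [Module.Finite R V] [Module.Free R V]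
  [AddCommGroup V₁] [Module R V₁] [Module.Finite R V₁] [Module.Free R V₁]
  [AddCommGroup V₂] [Module R V₂] [Module.Finite R V₂] [Module.Free R V₂]

/-- The linear equivalence `V ≃ V₁ × V₂` of a split exact sequence. -/
def splitEquiv (ι : V₁ →ₗ[R] V) (r : V →ₗ[R] V₁) (s : V₂ →ₗ[R] V) (g : V →ₗ[R] V₂)
    (hrι : r ∘ₗ ι = LinearMap.id) (hgs : g ∘ₗ s = LinearMap.id) (hgι : g ∘ₗ ι = 0)
    (hrs : r ∘ₗ s = 0) (hsum : ι ∘ₗ r + s ∘ₗ g = LinearMap.id) : V ≃ₗ[R] (V₁ × V₂) :=
  LinearEquiv.ofLinearMap (r.prod g) (ι.coprod s)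
    (by
      apply LinearMap.ext
      rintro ⟨x, y⟩
      have h1 := LinearMap.congr_fun hrι x
      have h2 := LinearMap.congr_fun hgs y
      have h3 := LinearMap.congr_fun hgι x
      have h4 := LinearMap.congr_fun hrs y
      simp only [LinearMap.comp_apply, LinearMap.id_apply, LinearMap.zero_apply] at h1 h2 h3 h4
      simp [h1, h2, h3, h4])
    (by
      apply LinearMap.ext
      intro x
      have h := LinearMap.congr_fun hsum x
      simpa using h)

/-- Characteristic polynomial in a split exact sequence. -/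
theorem charpoly_of_split (ι : V₁ →ₗ[R] V) (r : V →ₗ[R] V₁) (s : V₂ →ₗ[R] V) (g : V →ₗ[R] V₂)
    (hrι : r ∘ₗ ι = LinearMap.id) (hgs : g ∘ₗ s = LinearMap.id) (hgι : g ∘ₗ ι = 0)
    (hrs : r ∘ₗ s = 0) (hsum : ι ∘ₗ r + s ∘ₗ g = LinearMap.id)
    (f : V →ₗ[R] V) (hf : g ∘ₗ f ∘ₗ ι = 0) :
    f.charpoly = (r ∘ₗ f ∘ₗ ι).charpoly * (g ∘ₗ f ∘ₗ s).charpoly := by
  let e := splitEquiv ι r s g hrι hgs hgι hrs hsum
  have hconj : e.conj f = triMap (r ∘ₗ f ∘ₗ ι) (r ∘ₗ f ∘ₗ s) (g ∘ₗ f ∘ₗ s) := by
    apply LinearMap.ext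
    rintro ⟨x, y⟩
    have h3 := LinearMap.congr_fun hf x
    simp only [LinearMap.comp_apply, LinearMap.zero_apply] at h3
    simp [e, splitEquiv, LinearEquiv.conj_apply, h3]
  rw [← LinearEquiv.charpoly_conj e f, hconj, charpoly_triMap]

end Split

section BaseChange

open scoped TensorProduct

variable {R : Type*} [CommRing R] (k : Type*) [Field k] [Algebra R k]
  {E F : Type*} [AddCommGroup E] [Module R E] [Module.Finite R E]
  [AddCommGroup F] [Module R F] [Module.Free R F] [Module.Finite R F]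

/-- **Characteristic polynomials after base change in an exact sequence with free cokernel.**
`0 → N → E →g F → 0` exact, `F` free of finite rank, `f` an endomorphism of `E` inducing `f'` on
`F`.  Then over a field `k`: `charpoly (k ⊗ f) = charpoly (k ⊗ f|_N) * charpoly (k ⊗ f')`. -/
theorem charpoly_baseChange_of_exact (N : Submodule R E) [Module.Finite R N]
    (g : E →ₗ[R] F) (hg : Function.Surjective g) (hker : LinearMap.ker g = N)
    (f : E →ₗ[R] E) (f' : F →ₗ[R] F) (hfg : g ∘ₗ f = f' ∘ₗ g) (hN : N ≤ N.comap f) :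
    (f.baseChange k).charpoly =
      ((f.restrict hN).baseChange k).charpoly * (f'.baseChange k).charpoly := by
  obtain ⟨s, hs⟩ := Module.projective_lifting_property g (LinearMap.id : F →ₗ[R] F) hg
  have hgs' : ∀ y, g (s y) = y := fun y => LinearMap.congr_fun hs y
  have hmem : ∀ x : E, ((LinearMap.id : E →ₗ[R] E) - s ∘ₗ g) x ∈ N := by
    intro x
    rw [← hker, LinearMap.mem_ker]
    simp [hgs']
  let r : E →ₗ[R] N := LinearMap.codRestrict N ((LinearMap.id : E →ₗ[R] E) - s ∘ₗ g) hmem
  have hNg : ∀ n : N, g (n : E) = 0 := by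
    intro n
    have : (n : E) ∈ LinearMap.ker g := by rw [hker]; exact n.2
    exact this
  have hrι : r ∘ₗ N.subtype = LinearMap.id := by
    apply LinearMap.ext
    intro n
    apply Subtype.ext
    simp [r, hNg]
  have hgι : g ∘ₗ N.subtype = 0 := by
    apply LinearMap.ext
    intro n
    simp [hNg]
  have hrs : r ∘ₗ s = 0 := by
    apply LinearMap.ext
    intro y
    apply Subtype.ext
    simp [r, hgs']
  have hsum : N.subtype ∘ₗ r + s ∘ₗ g = LinearMap.id := by
    apply LinearMap.ext
    intro x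
    simp [r]
  have hrest : r ∘ₗ f ∘ₗ N.subtype = f.restrict hN := by
    apply LinearMap.ext
    intro n
    apply Subtype.ext
    have h1 : g (f (n : E)) = 0 := by
      have := LinearMap.congr_fun hfg (n : E)
      simp only [LinearMap.comp_apply] at this
      rw [this, hNg, map_zero]
    simp [r, h1, LinearMap.restrict_apply]
  have hquot : g ∘ₗ f ∘ₗ s = f' := by
    apply LinearMap.ext
    intro y
    have := LinearMap.congr_fun hfg (s y)
    simp only [LinearMap.comp_apply] at this
    simp [this, hgs']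
  have hzero : g ∘ₗ f ∘ₗ N.subtype = 0 := by
    apply LinearMap.ext
    intro n
    have := LinearMap.congr_fun hfg (n : E)
    simp only [LinearMap.comp_apply] at this
    simp [this, hNg]
  have key := charpoly_of_split (R := k) (N.subtype.baseChange k) (r.baseChange k)
    (s.baseChange k) (g.baseChange k)
    (by rw [← LinearMap.baseChange_comp, hrι, LinearMap.baseChange_id])
    (by rw [← LinearMap.baseChange_comp, hs, LinearMap.baseChange_id])
    (by rw [← LinearMap.baseChange_comp, hgι, LinearMap.baseChange_zero])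
    (by rw [← LinearMap.baseChange_comp, hrs, LinearMap.baseChange_zero])
    (by rw [← LinearMap.baseChange_comp, ← LinearMap.baseChange_comp, ← LinearMap.baseChange_add,
      hsum, LinearMap.baseChange_id])
    (f.baseChange k)
    (by rw [← LinearMap.baseChange_comp, ← LinearMap.baseChange_comp, hzero,
      LinearMap.baseChange_zero])
  rw [key, ← LinearMap.baseChange_comp, ← LinearMap.baseChange_comp, hrest,
    ← LinearMap.baseChange_comp, ← LinearMap.baseChange_comp, hquot]

/-- Finite generation of the middle term of an exact sequence. -/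
theorem finite_of_exact {N E F : Type*} [AddCommGroup N] [Module R N] [Module.Finite R N]
    [AddCommGroup E] [Module R E] [AddCommGroup F] [Module R F] [Module.Finite R F]
    (i : N →ₗ[R] E) (g : E →ₗ[R] F) (hg : Function.Surjective g)
    (hex : LinearMap.range i = LinearMap.ker g) :
    Module.Finite R E := by
  have h1 : (LinearMap.range i).FG := by
    rw [LinearMap.range_eq_map]
    exact Submodule.FG.map i Module.Finite.fg_top
  have h2 : (⊤ : Submodule R E).FG := by
    apply Submodule.fg_of_fg_map_of_fg_inf_ker g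
    · rw [Submodule.map_top, LinearMap.range_eq_top.mpr hg]
      exact Module.Finite.fg_top
    · rw [top_inf_eq, ← hex]; exact h1
  exact ⟨h2⟩

/-- **Characteristic polynomials after base change in an exact sequence with free cokernel**
(version with explicit maps).  `0 → N →i E →g F → 0` exact, `F` free of finite rank, compatible
endomorphisms `fN, fE, fF`.  Then over a field `k`:
`charpoly (k ⊗ fE) = charpoly (k ⊗ fN) * charpoly (k ⊗ fF)`. -/
theorem charpoly_baseChange_of_exact' {N : Type*} [AddCommGroup N] [Module R N]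
    [Module.Finite R N]
    (i : N →ₗ[R] E) (hi : Function.Injective i) (g : E →ₗ[R] F) (hg : Function.Surjective g)
    (hex : LinearMap.range i = LinearMap.ker g)
    (fN : N →ₗ[R] N) (fE : E →ₗ[R] E) (fF : F →ₗ[R] F)
    (h1 : i ∘ₗ fN = fE ∘ₗ i) (h2 : g ∘ₗ fE = fF ∘ₗ g) :
    (fE.baseChange k).charpoly = (fN.baseChange k).charpoly * (fF.baseChange k).charpoly := by
  obtain ⟨s, hs⟩ := Module.projective_lifting_property g (LinearMap.id : F →ₗ[R] F) hg
  have hgs' : ∀ y, g (s y) = y := fun y => LinearMap.congr_fun hs y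
  have hgi : ∀ n, g (i n) = 0 := by
    intro n
    have : i n ∈ LinearMap.ker g := by rw [← hex]; exact LinearMap.mem_range_self i n
    exact this
  have hmem : ∀ x : E, ((LinearMap.id : E →ₗ[R] E) - s ∘ₗ g) x ∈ LinearMap.range i := by
    intro x
    rw [hex, LinearMap.mem_ker]
    simp [hgs']
  let r : E →ₗ[R] N := (LinearEquiv.ofInjective i hi).symm.toLinearMap ∘ₗ
    LinearMap.codRestrict (LinearMap.range i) ((LinearMap.id : E →ₗ[R] E) - s ∘ₗ g) hmem
  have hir : ∀ x, i (r x) = x - s (g x) := by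
    intro x
    simp [r]
  have hrι : r ∘ₗ i = LinearMap.id := by
    apply LinearMap.ext
    intro n
    apply hi
    simp [hir, hgi]
  have hgι : g ∘ₗ i = 0 := by
    apply LinearMap.ext
    intro n
    simp [hgi]
  have hrs : r ∘ₗ s = 0 := by
    apply LinearMap.ext
    intro y
    apply hi
    simp [hir, hgs']
  have hsum : i ∘ₗ r + s ∘ₗ g = LinearMap.id := by
    apply LinearMap.ext
    intro x
    simp [hir]
  have hfi : ∀ n, fE (i n) = i (fN n) := fun n => (LinearMap.congr_fun h1 n).symm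
  have hgf : ∀ x, g (fE x) = fF (g x) := fun x => LinearMap.congr_fun h2 x
  have hrest : r ∘ₗ fE ∘ₗ i = fN := by
    apply LinearMap.ext
    intro n
    apply hi
    simp [hir, hgi, hfi]
  have hquot : g ∘ₗ fE ∘ₗ s = fF := by
    apply LinearMap.ext
    intro y
    simp [hgf, hgs']
  have hzero : g ∘ₗ fE ∘ₗ i = 0 := by
    apply LinearMap.ext
    intro n
    simp [hgf, hgi]
  have key := charpoly_of_split (R := k) (i.baseChange k) (r.baseChange k)
    (s.baseChange k) (g.baseChange k)
    (by rw [← LinearMap.baseChange_comp, hrι, LinearMap.baseChange_id])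
    (by rw [← LinearMap.baseChange_comp, hs, LinearMap.baseChange_id])
    (by rw [← LinearMap.baseChange_comp, hgι, LinearMap.baseChange_zero])
    (by rw [← LinearMap.baseChange_comp, hrs, LinearMap.baseChange_zero])
    (by rw [← LinearMap.baseChange_comp, ← LinearMap.baseChange_comp, ← LinearMap.baseChange_add,
      hsum, LinearMap.baseChange_id])
    (fE.baseChange k)
    (by rw [← LinearMap.baseChange_comp, ← LinearMap.baseChange_comp, hzero,
      LinearMap.baseChange_zero])
  rw [key, ← LinearMap.baseChange_comp, ← LinearMap.baseChange_comp, hrest,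
    ← LinearMap.baseChange_comp, ← LinearMap.baseChange_comp, hquot]

end BaseChange

end Fermat.Agent.S56.H614

end

end
-- ===== PACK-END S56/H614/CharpolySES.lean

-- ===== PACK-BEGIN S55/KL/H73/QInfCore.lean
section


/-!
# S55, layer KL (architect helper53), leaf KL-QInf: injectivity of inflation in degree 2
(cochain form)                                                                   (helper73)

Mathlib-only core: a direct cochain proof of the injectivity part of inflation–restriction in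
degree 2.  Let `V' ≤ V` be normal subgroups of `G`, `B` a `G`-module with
`H¹(V ⧸ V', B^{V'}) = 0`.  If a 2-cochain `f` inflated from `(G ⧸ V, B^V)` is the coboundary of a
1-cochain inflated from `(G ⧸ V', B^{V'})`, then it is the coboundary of a 1-cochain inflated
from `(G ⧸ V, B^V)`.

The statement `qInf_core` is the Spec `QInfSpec` of layer KL with the definitions `IsAt₁`,
`IsAt₂`, `IsCobAt₂`, `Z2At` unfolded; it does not depend on any interface file.
-/

set_option autoImplicit false

open CategoryTheory groupCohomology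

namespace Fermat.Agent.S55.KL.H73

/-- If `H¹(G, A) = 0` then every 1-cocycle is a coboundary (elementwise form). -/
lemma exists_cob_of_subsingleton_H1 {k G : Type} [CommRing k] [Group G] (A : Rep.{0, 0, 0} k G)
    (h : Subsingleton (H1 A)) (z : G → A) (hz : z ∈ cocycles₁ A) :
    ∃ b : A, ∀ g : G, A.ρ g b - b = z g := by
  have h0 : H1π A ⟨z, hz⟩ = 0 := Subsingleton.elim _ _
  have h1 := (H1π_eq_zero_iff (A := A) ⟨z, hz⟩).1 h0
  obtain ⟨b, hb⟩ := h1
  refine ⟨b, fun g => ?_⟩
  have := congrFun hb g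
  simpa using this

section

variable {G : Type} [Group G] (B : Rep.{0, 0, 0} ℤ G) (V' V : Subgroup G) [V'.Normal]

omit [V'.Normal] in
/-- A right-`V'`-invariant function takes the same value on any representative of a coset. -/
lemma apply_out_eq {X : Type*} (x : G → X) (hx : ∀ g s : G, s ∈ V' → x (g * s) = x g) (g : G) :
    x (Quotient.out (QuotientGroup.mk g : G ⧸ V')) = x g := by
  obtain ⟨h, hh⟩ := QuotientGroup.mk_out_eq_mul V' g
  rw [hh]
  exact hx g h h.2

/-- `H¹(V ⧸ V', B^{V'}) = 0` in elementwise form: a function `x` on `G` with values in `B^{V'}`,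
right-`V'`-invariant, and satisfying the cocycle identity on `V`, is a coboundary on `V`. -/
lemma exists_cob_on (hle : V' ≤ V)
    (h1 : Subsingleton (H1 (Rep.res (V.map (QuotientGroup.mk' V')).subtype
      (B.quotientToInvariants V'))))
    (x : G → B) (hxc : ∀ g s : G, s ∈ V' → x (g * s) = x g)
    (hxi : ∀ g s : G, s ∈ V' → B.ρ s (x g) = x g)
    (hcoc : ∀ s t : G, s ∈ V → t ∈ V → x (s * t) = B.ρ s (x t) + x s) :
    ∃ b : B, (∀ s ∈ V', B.ρ s b = b) ∧ ∀ s ∈ V, B.ρ s b - b = x s := by
  classical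
  -- the cocycle on `W = V/V'` with values in `B^{V'}`
  let W : Subgroup (G ⧸ V') := V.map (QuotientGroup.mk' V')
  let A : Rep.{0, 0, 0} ℤ ↥W := Rep.res W.subtype (B.quotientToInvariants V')
  have hout : ∀ w : ↥W, Quotient.out (w : G ⧸ V') ∈ V := by
    rintro ⟨w, s, hs, rfl⟩
    obtain ⟨h, hh⟩ := QuotientGroup.mk_out_eq_mul V' s
    show Quotient.out (QuotientGroup.mk s : G ⧸ V') ∈ V
    rw [hh]
    exact V.mul_mem hs (hle h.2)
  let z : ↥W → A := fun w => ⟨x (Quotient.out (w : G ⧸ V')), fun s => hxi _ s.1 s.2⟩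
  have hzval : ∀ w : ↥W, (z w).1 = x (Quotient.out (w : G ⧸ V')) := fun _ => rfl
  have hρ : ∀ (w : ↥W) (a : A), (A.ρ w a).1 = B.ρ (Quotient.out (w : G ⧸ V')) a.1 := by
    intro w a
    have key : ∀ (q : G ⧸ V') (g : G), q = QuotientGroup.mk g →
        ((B.quotientToInvariants V').ρ q a).1 = B.ρ g a.1 := by
      rintro _ g rfl
      rfl
    exact key _ _ (QuotientGroup.out_eq' _).symm
  have hz : z ∈ cocycles₁ A := by
    rw [mem_cocycles₁_iff]
    intro w₁ w₂
    apply Subtype.ext
    show (z (w₁ * w₂)).1 = (A.ρ w₁ (z w₂)).1 + (z w₁).1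
    rw [hρ, hzval, hzval, hzval]
    have e : ((w₁ * w₂ : ↥W) : G ⧸ V') =
        QuotientGroup.mk (Quotient.out (w₁ : G ⧸ V') * Quotient.out (w₂ : G ⧸ V')) := by
      rw [QuotientGroup.mk_mul, QuotientGroup.out_eq', QuotientGroup.out_eq']
      rfl
    rw [e, apply_out_eq V' x hxc]
    exact hcoc _ _ (hout w₁) (hout w₂)
  obtain ⟨b, hb⟩ := exists_cob_of_subsingleton_H1 A h1 z hz
  refine ⟨b.1, fun s hs => b.2 ⟨s, hs⟩, fun s hs => ?_⟩
  have hw : (QuotientGroup.mk s : G ⧸ V') ∈ W := ⟨s, hs, rfl⟩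
  have h2 : (A.ρ ⟨_, hw⟩ b - b).1 = (z ⟨_, hw⟩).1 := congrArg Subtype.val (hb ⟨_, hw⟩)
  have h3 : (A.ρ ⟨_, hw⟩ b - b).1 = B.ρ s b.1 - b.1 := rfl
  have h4 : (z ⟨_, hw⟩).1 = x s := apply_out_eq V' x hxc s
  rw [← h3, ← h4]
  exact h2

/-- **KL-QInf, core.**  Injectivity of inflation `H²(G ⧸ V, B^V) → H²(G ⧸ V', B^{V'})` in
cochain form, from `H¹(V ⧸ V', B^{V'}) = 0`. -/
theorem qInf_core [V.Normal] (hle : V' ≤ V)
    (h1 : Subsingleton (H1 (Rep.res (V.map (QuotientGroup.mk' V')).subtype
      (B.quotientToInvariants V'))))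
    (f : G × G → B)
    (hf : ∀ g h s t : G, s ∈ V → t ∈ V →
      f (g * s, h * t) = f (g, h) ∧ B.ρ s (f (g, h)) = f (g, h))
    (x : G → B) (hx : ∀ g s : G, s ∈ V' → x (g * s) = x g ∧ B.ρ s (x g) = x g)
    (hdx : (d₁₂ B).hom x = f) :
    ∃ y : G → B, (∀ g s : G, s ∈ V → y (g * s) = y g ∧ B.ρ s (y g) = y g) ∧
      (d₁₂ B).hom y = f := by
  have hd : ∀ g h : G, f (g, h) = B.ρ g (x h) - x (g * h) + x g := by
    intro g h
    rw [← hdx]
    rfl
  have hc1 : f (1, 1) = x 1 := by
    rw [hd 1 1]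
    simp
  have hcV : ∀ s ∈ V, B.ρ s (x 1) = x 1 := by
    intro s hs
    have := (hf 1 1 s 1 hs V.one_mem).2
    rwa [hc1] at this
  have hfV : ∀ s t : G, s ∈ V → t ∈ V → f (s, t) = x 1 := by
    intro s t hs ht
    have := (hf 1 1 s t hs ht).1
    rwa [one_mul, one_mul, hc1] at this
  have hx₁c : ∀ g s : G, s ∈ V' → x (g * s) - x 1 = x g - x 1 := by
    intro g s hs
    rw [(hx g s hs).1]
  have hx₁i : ∀ g s : G, s ∈ V' → B.ρ s (x g - x 1) = x g - x 1 := by
    intro g s hs
    rw [map_sub, (hx g s hs).2, hcV s (hle hs)]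
  have hcoc : ∀ s t : G, s ∈ V → t ∈ V →
      x (s * t) - x 1 = B.ρ s (x t - x 1) + (x s - x 1) := by
    intro s t hs ht
    have h2 := hd s t
    rw [hfV s t hs ht] at h2
    rw [map_sub, hcV s hs]
    have h3 : x (s * t) = B.ρ s (x t) + x s - x 1 := by
      rw [h2]
      abel
    rw [h3]
    abel
  obtain ⟨b, -, hb⟩ := exists_cob_on B V' V hle h1 (fun g => x g - x 1) hx₁c hx₁i hcoc
  have hdy : ∀ g h : G, f (g, h) = B.ρ g (x h - (B.ρ h b - b)) -
      (x (g * h) - (B.ρ (g * h) b - b)) + (x g - (B.ρ g b - b)) := by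
    intro g h
    rw [hd g h, map_sub, map_sub, map_mul]
    simp only [Module.End.mul_apply]
    abel
  have hyV : ∀ s ∈ V, x s - (B.ρ s b - b) = x 1 := by
    intro s hs
    rw [hb s hs]
    abel
  have hy1 : x 1 - (B.ρ 1 b - b) = x 1 := hyV 1 V.one_mem
  have hyr : ∀ g s : G, s ∈ V →
      x (g * s) - (B.ρ (g * s) b - b) = x g - (B.ρ g b - b) := by
    intro g s hs
    have e1 := hdy g s
    have e2 := hdy g 1
    have e3 : f (g, s) = f (g, 1) := by
      have := (hf g 1 1 s V.one_mem hs).1
      rwa [mul_one, one_mul] at this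
    rw [hyV s hs] at e1
    rw [hy1, mul_one] at e2
    rw [e3, e2] at e1
    have e4 : x (g * s) - (B.ρ (g * s) b - b) =
        (B.ρ g (x 1) - (x (g * s) - (B.ρ (g * s) b - b)) + (x g - (B.ρ g b - b))) -
          (B.ρ g (x 1) - (x g - (B.ρ g b - b)) + (x g - (B.ρ g b - b))) +
            (x (g * s) - (B.ρ (g * s) b - b)) := by
      rw [← e1]
      abel
    rw [e4]
    abel
  refine ⟨fun g => x g - (B.ρ g b - b), fun g s hs => ⟨hyr g s hs, ?_⟩, ?_⟩
  · have e1 := hdy s g
    have e2 := hdy 1 g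
    have e3 : f (s, g) = f (1, g) := by
      have := (hf 1 g s 1 hs V.one_mem).1
      rwa [one_mul, mul_one] at this
    rw [hyV s hs] at e1
    have hρ1 : ∀ a : B.V, B.ρ 1 a = a := fun a => by rw [map_one]; rfl
    rw [hy1, one_mul, hρ1] at e2
    have e5 : x (s * g) - (B.ρ (s * g) b - b) = x g - (B.ρ g b - b) := by
      have : s * g = g * (g⁻¹ * s * g) := by group
      rw [this]
      exact hyr g _ (Subgroup.Normal.conj_mem' inferInstance s hs g)
    rw [e5, e3, e2] at e1
    show B.ρ s (x g - (B.ρ g b - b)) = x g - (B.ρ g b - b)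
    have e6 : B.ρ s (x g - (B.ρ g b - b)) =
        (B.ρ s (x g - (B.ρ g b - b)) - (x g - (B.ρ g b - b)) + x 1) -
          ((x g - (B.ρ g b - b)) - (x g - (B.ρ g b - b)) + x 1) + (x g - (B.ρ g b - b)) := by
      abel
    rw [e6, ← e1]
    abel
  · rw [← hdx]
    funext ⟨g, h⟩
    have e1 := hdy g h
    rw [hd g h] at e1
    show B.ρ g (x h - (B.ρ h b - b)) - (x (g * h) - (B.ρ (g * h) b - b)) +
      (x g - (B.ρ g b - b)) = B.ρ g (x h) - x (g * h) + x g
    exact e1.symm

end

end Fermat.Agent.S55.KL.H73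

end
-- ===== PACK-END S55/KL/H73/QInfCore.lean

-- ===== PACK-BEGIN S55/G/Rec/K5H379/Poincare.lean
section


/-!
# S55 / G / REC, leaf K5 (helper379): Hilbert 90 by Poincaré series, for infinite groups

`Γ` acts on a field `L` by ring automorphisms, `φ : Γ → Lˣ` is a 1-cocycle which is invariant
under right translation by a subgroup `N` of finite index, and `N` is exactly the stabiliser of
the image of a monoid `X → L`.  Then `φ` is a coboundary (Dedekind's independence of characters
applied to the Poincaré series `∑_{t ∈ Γ/N} φ(t) · t(x)`).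

No finiteness of `Γ`, no topology, no Galois theory.
-/

set_option autoImplicit false

namespace Fermat.Agent.S55.G.Rec.K5H379

section Poincare

variable {Γ L X : Type*} [Group Γ] [Field L] [MulSemiringAction Γ L] [Monoid X]

/-- The character `x ↦ g • ι x` of the monoid `X`. -/
def twistHom (ι : X →* L) (g : Γ) : X →* L where
  toFun x := g • ι x
  map_one' := by rw [map_one, smul_one]
  map_mul' x y := by rw [map_mul, smul_mul']

@[simp] lemma twistHom_apply (ι : X →* L) (g : Γ) (x : X) : twistHom ι g x = g • ι x := rfl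

lemma twistHom_eq_of_coset (ι : X →* L) {N : Subgroup Γ} (hfix : ∀ s ∈ N, ∀ x, s • ι x = ι x)
    {g g' : Γ} (h : (g : Γ ⧸ N) = (g' : Γ ⧸ N)) : twistHom ι g = twistHom ι g' := by
  ext x
  have h1 : g⁻¹ * g' ∈ N := QuotientGroup.eq.mp h
  have h2 := hfix _ h1 x
  simp only [twistHom_apply]
  calc g • ι x = g • ((g⁻¹ * g') • ι x) := by rw [h2]
    _ = g' • ι x := by rw [smul_smul, mul_inv_cancel_left]

lemma twistHom_out_injective (ι : X →* L) {N : Subgroup Γ}
    (hN : ∀ g : Γ, (∀ x, g • ι x = ι x) → g ∈ N) :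
    Function.Injective fun t : Γ ⧸ N => twistHom ι (Quotient.out t : Γ) := by
  intro t t' h
  have h1 : (Quotient.out t : Γ)⁻¹ * (Quotient.out t' : Γ) ∈ N := by
    refine hN _ fun x => ?_
    have h2 : (Quotient.out t : Γ) • ι x = (Quotient.out t' : Γ) • ι x := DFunLike.congr_fun h x
    rw [mul_smul, ← h2, smul_smul, inv_mul_cancel, one_smul]
  have h3 : ((Quotient.out t : Γ) : Γ ⧸ N) = ((Quotient.out t' : Γ) : Γ ⧸ N) :=
    QuotientGroup.eq.mpr h1
  rwa [QuotientGroup.out_eq', QuotientGroup.out_eq'] at h3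

/-- **Hilbert 90 by Poincaré series.** -/
theorem exists_mul_smul_eq (ι : X →* L) (N : Subgroup Γ) [N.FiniteIndex]
    (hfix : ∀ s ∈ N, ∀ x, s • ι x = ι x) (hN : ∀ g : Γ, (∀ x, g • ι x = ι x) → g ∈ N)
    (φ : Γ → L) (hφ0 : ∀ g, φ g ≠ 0) (hφ : ∀ g h, φ (g * h) = φ g * g • φ h)
    (hlev : ∀ g, ∀ s ∈ N, φ (g * s) = φ g) :
    ∃ c : L, c ≠ 0 ∧ ∀ g, φ g * g • c = c := by
  classical
  let _ : Fintype (Γ ⧸ N) := Subgroup.fintypeQuotientOfFiniteIndex
  -- `φ` and the twisted characters only depend on the coset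
  have hφcoset : ∀ g g' : Γ, (g : Γ ⧸ N) = (g' : Γ ⧸ N) → φ g = φ g' := by
    intro g g' h
    have h1 : g⁻¹ * g' ∈ N := QuotientGroup.eq.mp h
    have := hlev g _ h1
    rw [mul_inv_cancel_left] at this
    exact this.symm
  -- Dedekind
  have hli : LinearIndependent L (fun t : Γ ⧸ N => (twistHom ι (Quotient.out t : Γ) : X → L)) :=
    (linearIndependent_monoidHom X L).comp _ (twistHom_out_injective ι hN)
  have hne : ∃ x : X, ∑ t : Γ ⧸ N, φ (Quotient.out t : Γ) * (Quotient.out t : Γ) • ι x ≠ 0 := by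
    by_contra hcon
    have hcon' : ∀ x : X,
        ∑ t : Γ ⧸ N, φ (Quotient.out t : Γ) * (Quotient.out t : Γ) • ι x = 0 := by
      intro x
      by_contra hx
      exact hcon ⟨x, hx⟩
    have hzero : ∑ t : Γ ⧸ N, φ (Quotient.out t : Γ) •
        (twistHom ι (Quotient.out t : Γ) : X → L) = 0 := by
      funext x
      simp only [Finset.sum_apply, Pi.smul_apply, twistHom_apply, smul_eq_mul, Pi.zero_apply]
      exact hcon' x
    have := (linearIndependent_iff'.1 hli) Finset.univ _ hzero
      ((1 : Γ) : Γ ⧸ N) (Finset.mem_univ _)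
    exact hφ0 _ this
  obtain ⟨x, hx⟩ := hne
  refine ⟨_, hx, fun g => ?_⟩
  rw [Finset.smul_sum, Finset.mul_sum]
  -- reindex by `t ↦ g • t`
  rw [← Equiv.sum_comp (MulAction.toPerm g : Equiv.Perm (Γ ⧸ N))
    (fun t => φ (Quotient.out t : Γ) * (Quotient.out t : Γ) • ι x)]
  refine Finset.sum_congr rfl fun t _ => ?_
  have hcos : ((g * (Quotient.out t : Γ) : Γ) : Γ ⧸ N) =
      ((Quotient.out (g • t) : Γ) : Γ ⧸ N) := by
    rw [QuotientGroup.out_eq']
    conv_rhs => rw [← QuotientGroup.out_eq' t]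
    rfl
  have e1 : φ (Quotient.out (g • t) : Γ) = φ g * g • φ (Quotient.out t : Γ) := by
    rw [← hφ]
    exact (hφcoset _ _ hcos).symm
  have e2 : (Quotient.out (g • t) : Γ) • ι x = g • ((Quotient.out t : Γ) • ι x) := by
    have := DFunLike.congr_fun (twistHom_eq_of_coset ι hfix hcos) x
    simp only [twistHom_apply] at this
    rw [← this, mul_smul]
  simp only [MulAction.toPerm_apply]
  rw [e1, e2, smul_mul', mul_assoc]

end Poincare

end Fermat.Agent.S55.G.Rec.K5H379

end
-- ===== PACK-END S55/G/Rec/K5H379/Poincare.lean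

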