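import Fermat.Prelude.Thm_Algebra_finite_maximalSpectrum_and_bijective_localization_of_module_finite
import Fermat.Prelude.Thm_IsAdicComplete_of_module_finite
import Fermat.Prelude.Thm_IsLocalRing_isAdicComplete_of_module_finite
import Mathlib
import Fermat.Agent.Pack.S56.E1L1
import Fermat.Agent.Pack.S56.E1L2
import Fermat.Agent.Pack.S56.E1L3
import Fermat.Agent.Pack.S56.E1L0
import Fermat.Agent.Pack.S56.E2L2
import Fermat.Agent.Pack.S56.E2L3
import Fermat.Agent.Pack.S56.E0L1

-- ===== PACK-BEGIN S55/Local/H964/Cocycle.lean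
section


/-!
# S55, layer L, T5 glue: multiplicative form of inflation–restriction in degree 2 (helper964)

Multiplicative wrappers around helper954's cochain-level core
(`Fermat.Agent.S55.H954.exists_inflated_of_res_coboundary`,
`exists_invariant_cochain_of_inf_coboundary`), for a group `G` acting on a commutative group `M`
by a `MulDistribMulAction`.
-/

set_option autoImplicit false
set_option linter.style.haveILetI false

namespace Fermat.Agent.S55.Local.H964

open groupCohomology Fermat.Agent.S55.H954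

variable {G : Type} (M : Type) [Group G] [CommGroup M] [MulDistribMulAction G M]

/-- `H¹(S, M) = 1`, on multiplicative cocycles. -/
def MulHOneVanishes (S : Subgroup G) : Prop :=
  ∀ w : S → M, (∀ s t : S, w (s * t) = (s : G) • w t * w s) →
    ∃ a : M, ∀ s : S, w s = (s : G) • a / a

variable {M}

/-- The multiplicative coboundary of a 1-cochain. -/
def dMul (c : G → M) : G × G → M := fun p => p.1 • c p.2 / c (p.1 * p.2) * c p.1

lemma dMul_apply (c : G → M) (g h : G) : dMul c (g, h) = g • c h / c (g * h) * c g := rfl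

lemma isMulCoboundary₂_iff (f : G × G → M) :
    IsMulCoboundary₂ f ↔ ∃ c : G → M, ∀ g h, f (g, h) = dMul c (g, h) := by
  constructor
  · rintro ⟨c, hc⟩
    exact ⟨c, fun g h => (hc g h).symm⟩
  · rintro ⟨c, hc⟩
    exact ⟨c, fun g h => (hc g h).symm⟩

private lemma hOneVanishes_of_mul {S : Subgroup G} (h : MulHOneVanishes M S) :
    HOneVanishes (Representation.ofMulDistribMulAction G M) S := by
  intro w hw
  obtain ⟨a, ha⟩ := h (fun s => Additive.toMul (w s)) (fun s t => by
    have := hw s t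
    have h2 := congrArg Additive.toMul this
    simpa [Representation.ofMulDistribMulAction_apply_apply, mul_comm] using h2)
  refine ⟨Additive.ofMul a, fun s => ?_⟩
  have := ha s
  apply Additive.toMul.injective
  simpa [Representation.ofMulDistribMulAction_apply_apply] using this

private lemma isTwoCocycle_of_mul {f : G × G → M} (hf : IsMulCocycle₂ f) :
    IsTwoCocycle (Representation.ofMulDistribMulAction G M) (fun p => Additive.ofMul (f p)) := by
  intro g h j
  have := hf g h j
  apply Additive.toMul.injective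
  simpa [Representation.ofMulDistribMulAction_apply_apply] using this

private lemma isMulCocycle₂_of_add {f : G × G → Additive M}
    (hf : IsTwoCocycle (Representation.ofMulDistribMulAction G M) f) :
    IsMulCocycle₂ (fun p => Additive.toMul (f p)) := by
  intro g h j
  have := hf g h j
  have h2 := congrArg Additive.toMul this
  simpa [Representation.ofMulDistribMulAction_apply_apply] using h2

/-- **Inflation–restriction in degree 2, exactness** (multiplicative cochain form). -/
theorem mul_exists_inflated (S : Subgroup G) [S.Normal] (hH1 : MulHOneVanishes M S)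
    {f : G × G → M} (hf : IsMulCocycle₂ f) (φ : S → M)
    (hφ : ∀ s t : S, f ((s : G), (t : G)) = (s : G) • φ t / φ (s * t) * φ s) :
    ∃ (c : G → M) (f' : G × G → M), (∀ g h, f (g, h) = f' (g, h) * dMul c (g, h)) ∧
      IsMulCocycle₂ f' ∧
      (∀ s ∈ S, ∀ g h : G, f' (g, h * s) = f' (g, h)) ∧
      (∀ s ∈ S, ∀ g h : G, f' (g * s, h) = f' (g, h)) ∧
      (∀ s ∈ S, ∀ g h : G, s • f' (g, h) = f' (g, h)) := by
  obtain ⟨c, f', hff', hf', i2, i1, i3⟩ :=
    exists_inflated_of_res_coboundary (Representation.ofMulDistribMulAction G M) S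
      (hOneVanishes_of_mul hH1) (isTwoCocycle_of_mul hf) (fun s => Additive.ofMul (φ s))
      (fun s t => by
        have := hφ s t
        apply Additive.toMul.injective
        simpa [Representation.ofMulDistribMulAction_apply_apply] using this)
  refine ⟨fun g => Additive.toMul (c g), fun p => Additive.toMul (f' p), ?_,
    isMulCocycle₂_of_add hf', ?_, ?_, ?_⟩
  · intro g h
    have := congr_fun hff' (g, h)
    have h2 := congrArg Additive.toMul this
    simpa [dOne_apply, dMul_apply, Representation.ofMulDistribMulAction_apply_apply] using h2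
  · intro s hs g h
    exact congrArg Additive.toMul (i2 s hs g h)
  · intro s hs g h
    exact congrArg Additive.toMul (i1 s hs g h)
  · intro s hs g h
    have := congrArg Additive.toMul (i3 s hs g h)
    simpa [Representation.ofMulDistribMulAction_apply_apply] using this

/-- **Inflation–restriction in degree 2, injectivity of inflation** (multiplicative cochain
form). -/
theorem mul_exists_invariant_cochain (S : Subgroup G) [S.Normal] (hH1 : MulHOneVanishes M S)
    {f' : G × G → M}
    (hinv2 : ∀ s ∈ S, ∀ g h : G, f' (g, h * s) = f' (g, h))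
    (hinv1 : ∀ s ∈ S, ∀ g h : G, f' (g * s, h) = f' (g, h))
    (hval : ∀ s ∈ S, ∀ g h : G, s • f' (g, h) = f' (g, h))
    (c : G → M) (hc : ∀ g h, f' (g, h) = dMul c (g, h)) :
    ∃ c' : G → M, (∀ g h, f' (g, h) = dMul c' (g, h)) ∧
      (∀ s ∈ S, ∀ g : G, c' (g * s) = c' g) ∧ (∀ s ∈ S, ∀ g : G, s • c' g = c' g) := by
  obtain ⟨c', hd, hr, hv⟩ :=
    exists_invariant_cochain_of_inf_coboundary (Representation.ofMulDistribMulAction G M) S
      (hOneVanishes_of_mul hH1) (f' := fun p => Additive.ofMul (f' p))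
      (fun s hs g h => congrArg Additive.ofMul (hinv2 s hs g h))
      (fun s hs g h => congrArg Additive.ofMul (hinv1 s hs g h))
      (fun s hs g h => by
        have := hval s hs g h
        apply Additive.toMul.injective
        simpa [Representation.ofMulDistribMulAction_apply_apply] using this)
      (fun g => Additive.ofMul (c g))
      (by
        funext ⟨g, h⟩
        have := hc g h
        apply Additive.toMul.injective
        simpa [dOne_apply, dMul_apply, Representation.ofMulDistribMulAction_apply_apply]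
          using this)
  refine ⟨fun g => Additive.toMul (c' g), ?_, ?_, ?_⟩
  · intro g h
    have := congr_fun hd (g, h)
    have h2 := congrArg Additive.toMul this
    simpa [dOne_apply, dMul_apply, Representation.ofMulDistribMulAction_apply_apply] using h2
  · intro s hs g
    exact congrArg Additive.toMul (hr s hs g)
  · intro s hs g
    have := congrArg Additive.toMul (hv s hs g)
    simpa [Representation.ofMulDistribMulAction_apply_apply] using this

end Fermat.Agent.S55.Local.H964

end
-- ===== PACK-END S55/Local/H964/Cocycle.lean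

-- ===== PACK-BEGIN S55/Local/H585/IntCore.lean
section





/-!
# S55, layer L, piece LF0 (helper585): the ring of integers of a local field

`A` complete DVR, `F = Frac A` of characteristic zero, `L / F` finite.  With an `A`-algebra
structure on `L` compatible with `F` (`[Algebra A L] [IsScalarTower A F L]`),
`B := integralClosure A L` is a finite `A`-module, a Dedekind domain, local, hence a DVR, and it
is complete for the `m_A`-adic topology.
-/

set_option autoImplicit false
set_option linter.unusedSectionVars false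

namespace Fermat.Agent.S55.Local.H585

open IsLocalRing

section Core

variable (A F : Type) [CommRing A] [IsDomain A] [IsDiscreteValuationRing A]
    [IsAdicComplete (IsLocalRing.maximalIdeal A) A]
    [Field F] [CharZero F] [Algebra A F] [IsFractionRing A F]
    (L : Type) [Field L] [Algebra F L] [FiniteDimensional F L]
    [Algebra A L] [IsScalarTower A F L]

include F in
theorem isFractionRing_int : IsFractionRing (integralClosure A L) L :=
  integralClosure.isFractionRing_of_finite_extension F L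

include F in
theorem isDedekindDomain_int : IsDedekindDomain (integralClosure A L) :=
  integralClosure.isDedekindDomain A F L

include F in
theorem moduleFinite_int : Module.Finite A (integralClosure A L) :=
  IsIntegralClosure.finite A F L (integralClosure A L)

/-- A domain which is a finite algebra over a complete noetherian local ring is local. -/
theorem isLocalRing_of_finite_of_isDomain (𝒪 : Type) [CommRing 𝒪] [IsLocalRing 𝒪]
    [IsNoetherianRing 𝒪] [IsAdicComplete (IsLocalRing.maximalIdeal 𝒪) 𝒪]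
    (B : Type) [CommRing B] [IsDomain B] [Algebra 𝒪 B] [Module.Finite 𝒪 B] : IsLocalRing B := by
  classical
  obtain ⟨-, hbij, -, -⟩ :=
    Algebra.finite_maximalSpectrum_and_bijective_localization_of_module_finite (𝒪 := 𝒪) B
  have hsub : Subsingleton (MaximalSpectrum B) := by
    refine ⟨fun I J => ?_⟩
    by_contra hIJ
    obtain ⟨b, hb⟩ := hbij.2 (Pi.single I 1)
    obtain ⟨b', hb'⟩ := hbij.2 (Pi.single J 1)
    have hzero : b * b' = 0 := by
      apply hbij.1
      rw [map_mul, hb, hb', map_zero]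
      funext K
      by_cases hK : K = I
      · subst hK
        simp [Pi.single_eq_of_ne hIJ]
      · simp [Pi.single_eq_of_ne hK]
    rcases mul_eq_zero.mp hzero with h | h
    · have := congrFun hb I
      rw [h, map_zero] at this
      simp at this
    · have := congrFun hb' J
      rw [h, map_zero] at this
      simp at this
  obtain ⟨m, hm⟩ := Ideal.exists_maximal B
  refine IsLocalRing.of_unique_max_ideal ⟨m, hm, fun J hJ => ?_⟩
  have := hsub.elim ⟨J, hJ⟩ ⟨m, hm⟩
  exact congrArg MaximalSpectrum.asIdeal this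

include F in
theorem isLocalRing_int : IsLocalRing (integralClosure A L) :=
  haveI := moduleFinite_int A F L
  isLocalRing_of_finite_of_isDomain A (integralClosure A L)

include F in
theorem algebraMap_int_injective :
    Function.Injective (algebraMap A (integralClosure A L)) := by
  intro x y h
  have h' := congrArg (algebraMap (integralClosure A L) L) h
  rw [← IsScalarTower.algebraMap_apply, ← IsScalarTower.algebraMap_apply,
    IsScalarTower.algebraMap_apply A F L, IsScalarTower.algebraMap_apply A F L] at h'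
  exact IsFractionRing.injective A F ((algebraMap F L).injective h')

include F in
theorem not_isField_int : ¬ IsField (integralClosure A L) := fun h =>
  IsDiscreteValuationRing.not_isField A
    (isField_of_isIntegral_of_isField (algebraMap_int_injective A F L) h)

include F in
theorem isDVR_int : IsDiscreteValuationRing (integralClosure A L) := by
  have := isLocalRing_int A F L
  have hD := isDedekindDomain_int A F L
  exact ((IsDiscreteValuationRing.TFAE (integralClosure A L) (not_isField_int A F L)).out 0 2).mpr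
    hD

include F in
theorem isAdicComplete_int :
    haveI := isLocalRing_int A F L
    IsAdicComplete (IsLocalRing.maximalIdeal (integralClosure A L)) (integralClosure A L) := by
  have := isLocalRing_int A F L
  have := moduleFinite_int A F L
  have : FaithfulSMul A (integralClosure A L) :=
    (faithfulSMul_iff_algebraMap_injective A _).mpr (algebraMap_int_injective A F L)
  exact IsLocalRing.isAdicComplete_of_module_finite (𝒪 := A) (T := integralClosure A L)

include F in
theorem finite_residueField_int [Finite (ResidueField A)] :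
    haveI := isLocalRing_int A F L
    Finite (ResidueField (integralClosure A L)) := by
  have := isLocalRing_int A F L
  have := moduleFinite_int A F L
  have : FaithfulSMul A (integralClosure A L) :=
    (faithfulSMul_iff_algebraMap_injective A _).mpr (algebraMap_int_injective A F L)
  exact Module.finite_of_finite (ResidueField A)

include F in
/-- Every nonzero ideal of the ring of integers is a power of the maximal ideal. -/
theorem exists_eq_maximalIdeal_pow (I : Ideal (integralClosure A L)) (hI : I ≠ ⊥) :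
    haveI := isLocalRing_int A F L
    ∃ k : ℕ, I = IsLocalRing.maximalIdeal (integralClosure A L) ^ k := by
  have := isLocalRing_int A F L
  have := isDVR_int A F L
  obtain ⟨π, hπ⟩ := IsDiscreteValuationRing.exists_irreducible (integralClosure A L)
  obtain ⟨k, hk⟩ := IsDiscreteValuationRing.ideal_eq_span_pow_irreducible hI hπ
  refine ⟨k, ?_⟩
  rw [hk, (IsDiscreteValuationRing.irreducible_iff_uniformizer π).mp hπ, Ideal.span_singleton_pow]

include F in
theorem finite_quotient_int [Finite (ResidueField A)] (I : Ideal (integralClosure A L))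
    (hI : I ≠ ⊥) : Finite (integralClosure A L ⧸ I) := by
  have := isLocalRing_int A F L
  have := isDVR_int A F L
  obtain ⟨k, hk⟩ := exists_eq_maximalIdeal_pow A F L I hI
  rw [hk]
  have : Finite (integralClosure A L ⧸ IsLocalRing.maximalIdeal (integralClosure A L)) :=
    finite_residueField_int A F L
  exact Ideal.finite_quotient_pow (IsNoetherian.noetherian _) k

end Core

end Fermat.Agent.S55.Local.H585

end
-- ===== PACK-END S55/Local/H585/IntCore.lean

-- ===== PACK-BEGIN S55/H953/Lattice.lean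
section


/-!
# S55 / local norm index: the normal-basis lattice filtration

`K` is a complete ultrametric nontrivially normed field, `L/K` a finite Galois extension which is
a normed field extension.  For the normal basis `b g = g θ` we consider the additive subgroups
`lam ρ = {x | ∀ g, ‖b.repr x g‖ ≤ ρ}` and show that for a generator `σ` of the (cyclic) Galois
group they give a `Filtration` in the sense of `Approx.lean`.
-/

set_option autoImplicit false

namespace Fermat.Agent.S55.H953

open Module Finset NNReal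

variable (K L : Type*) [NontriviallyNormedField K] [IsUltrametricDist K]
  [NormedField L] [NormedAlgebra K L] [FiniteDimensional K L] [IsGalois K L]

/-- The lattice of elements whose normal-basis coordinates have norm `≤ ρ`. -/
noncomputable def lam (ρ : ℝ≥0) : AddSubgroup L where
  carrier := {x | ∀ g, ‖(IsGalois.normalBasis K L).repr x g‖ ≤ ρ}
  zero_mem' := by
    intro g
    simp
  add_mem' := by
    intro x y hx hy g
    simp only [map_add, Finsupp.coe_add, Pi.add_apply]
    exact (IsUltrametricDist.norm_add_le_max _ _).trans (max_le (hx g) (hy g))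
  neg_mem' := by
    intro x hx g
    simpa using hx g

variable {K L}

lemma mem_lam {ρ : ℝ≥0} {x : L} :
    x ∈ lam K L ρ ↔ ∀ g, ‖(IsGalois.normalBasis K L).repr x g‖ ≤ ρ := Iff.rfl

lemma lam_mono {ρ ρ' : ℝ≥0} (h : ρ ≤ ρ') : lam K L ρ ≤ lam K L ρ' :=
  fun _ hx g => (hx g).trans (by exact_mod_cast h)

lemma smul_mem_lam {ρ : ℝ≥0} {x : L} (hx : x ∈ lam K L ρ) (a : K) :
    a • x ∈ lam K L (‖a‖₊ * ρ) := by
  intro g
  simp only [map_smul, Finsupp.coe_smul, Pi.smul_apply, smul_eq_mul, norm_mul, NNReal.coe_mul,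
    coe_nnnorm]
  exact mul_le_mul_of_nonneg_left (hx g) (norm_nonneg a)

lemma basis_mem_lam (g : L ≃ₐ[K] L) : IsGalois.normalBasis K L g ∈ lam K L 1 := by
  classical
  intro h
  rw [Basis.repr_self, Finsupp.single_apply]
  split_ifs <;> simp

omit [IsUltrametricDist K] in
/-- the action of the Galois group on normal-basis coordinates -/
lemma repr_apply_algEquiv (h : L ≃ₐ[K] L) (x : L) (g : L ≃ₐ[K] L) :
    (IsGalois.normalBasis K L).repr (h x) g = (IsGalois.normalBasis K L).repr x (h⁻¹ * g) := by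
  classical
  set b := IsGalois.normalBasis K L with hb
  have hx : x = ∑ k, b.repr x k • b k := (b.sum_repr x).symm
  conv_lhs => rw [hx]
  simp only [map_sum, map_smul]
  have : ∀ k, h (b k) = b (h * k) := by
    intro k
    rw [hb, IsGalois.normalBasis_apply, IsGalois.normalBasis_apply (h * k)]
    rfl
  simp only [this, Basis.repr_self, Finsupp.coe_finsetSum, Finsupp.coe_smul, Finset.sum_apply,
    Pi.smul_apply, smul_eq_mul, Finsupp.single_apply]
  rw [Finset.sum_eq_single (h⁻¹ * g)]
  · simp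
  · intro k _ hk
    have : h * k ≠ g := by
      intro e
      apply hk
      rw [← e]; simp
    simp [this]
  · intro hh
    exact absurd (Finset.mem_univ _) hh

lemma algEquiv_mem_lam {ρ : ℝ≥0} {x : L} (hx : x ∈ lam K L ρ) (h : L ≃ₐ[K] L) :
    h x ∈ lam K L ρ := by
  intro g
  rw [repr_apply_algEquiv]
  exact hx _

variable (K L) in
/-- a bound for the structure constants of the normal basis -/
noncomputable def structBound : ℝ≥0 :=
  Finset.univ.sup fun t : (L ≃ₐ[K] L) × (L ≃ₐ[K] L) × (L ≃ₐ[K] L) =>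
    ‖(IsGalois.normalBasis K L).repr
      (IsGalois.normalBasis K L t.1 * IsGalois.normalBasis K L t.2.1) t.2.2‖₊

variable (K L) in
/-- a bound for the norms of the elements of the normal basis -/
noncomputable def basisBound : ℝ≥0 :=
  Finset.univ.sup fun g : (L ≃ₐ[K] L) => ‖IsGalois.normalBasis K L g‖₊

lemma basis_mul_mem_lam (g h : L ≃ₐ[K] L) :
    IsGalois.normalBasis K L g * IsGalois.normalBasis K L h ∈ lam K L (structBound K L) := by
  intro k
  have := Finset.le_sup (f := fun t : (L ≃ₐ[K] L) × (L ≃ₐ[K] L) × (L ≃ₐ[K] L) =>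
    ‖(IsGalois.normalBasis K L).repr
      (IsGalois.normalBasis K L t.1 * IsGalois.normalBasis K L t.2.1) t.2.2‖₊)
    (Finset.mem_univ (g, h, k))
  exact_mod_cast this

lemma mul_mem_lam {ρ ρ' : ℝ≥0} {x y : L} (hx : x ∈ lam K L ρ) (hy : y ∈ lam K L ρ') :
    x * y ∈ lam K L (structBound K L * ρ * ρ') := by
  classical
  set b := IsGalois.normalBasis K L with hb
  have ex : x = ∑ k, b.repr x k • b k := (b.sum_repr x).symm
  have ey : y = ∑ k, b.repr y k • b k := (b.sum_repr y).symm
  rw [ex, ey, Finset.sum_mul_sum]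
  refine AddSubgroup.sum_mem _ (fun g _ => AddSubgroup.sum_mem _ (fun h _ => ?_))
  have e : b.repr x g • b g * b.repr y h • b h = (b.repr x g * b.repr y h) • (b g * b h) := by
    rw [smul_mul_smul_comm]
  rw [e]
  refine lam_mono ?_ (smul_mem_lam (basis_mul_mem_lam g h) _)
  rw [nnnorm_mul]
  have h1 : ‖b.repr x g‖₊ ≤ ρ := by exact_mod_cast hx g
  have h2 : ‖b.repr y h‖₊ ≤ ρ' := by exact_mod_cast hy h
  calc ‖b.repr x g‖₊ * ‖b.repr y h‖₊ * structBound K L
      ≤ ρ * ρ' * structBound K L := by gcongr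
    _ = structBound K L * ρ * ρ' := by ring

lemma norm_le_of_mem_lam {ρ : ℝ≥0} {x : L} (hx : x ∈ lam K L ρ) :
    ‖x‖ ≤ ρ * basisBound K L := by
  classical
  have : IsUltrametricDist L := IsUltrametricDist.of_normedAlgebra K
  set b := IsGalois.normalBasis K L with hb
  have ex : x = ∑ k, b.repr x k • b k := (b.sum_repr x).symm
  rw [ex]
  refine IsUltrametricDist.norm_sum_le_of_forall_le_of_nonneg (by positivity) (fun g _ => ?_)
  rw [norm_smul]
  have h2 : ‖b g‖₊ ≤ basisBound K L :=
    Finset.le_sup (f := fun g : (L ≃ₐ[K] L) => ‖IsGalois.normalBasis K L g‖₊) (Finset.mem_univ g)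
  have h2' : ‖b g‖ ≤ basisBound K L := by exact_mod_cast h2
  exact mul_le_mul (hx g) h2' (norm_nonneg _) (by positivity)

lemma isClosed_lam [CompleteSpace K] (ρ : ℝ≥0) : IsClosed (lam K L ρ : Set L) := by
  have : (lam K L ρ : Set L) =
      ⋂ g, {x | ‖(IsGalois.normalBasis K L).repr x g‖ ≤ ρ} := by
    ext x
    simp only [SetLike.mem_coe, mem_lam, Set.mem_iInter, Set.mem_ofPred_eq]
  rw [this]
  refine isClosed_iInter (fun g => ?_)
  have hc : Continuous fun x : L => (IsGalois.normalBasis K L).repr x g :=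
    LinearMap.continuous_of_finiteDimensional ((IsGalois.normalBasis K L).coord g)
  exact isClosed_le (continuous_norm.comp hc) continuous_const

lemma isOpen_lam [CompleteSpace K] {ρ : ℝ≥0} (hρ : ρ ≠ 0) : IsOpen (lam K L ρ : Set L) := by
  have : (lam K L ρ : Set L) =
      ⋂ g, {x | ‖(IsGalois.normalBasis K L).repr x g‖ ≤ ρ} := by
    ext x
    simp only [SetLike.mem_coe, mem_lam, Set.mem_iInter, Set.mem_ofPred_eq]
  rw [this]
  refine isOpen_iInter_of_finite (fun g => ?_)
  have hc : Continuous fun x : L => (IsGalois.normalBasis K L).repr x g :=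
    LinearMap.continuous_of_finiteDimensional ((IsGalois.normalBasis K L).coord g)
  have : {x : L | ‖(IsGalois.normalBasis K L).repr x g‖ ≤ ρ} =
      (fun x : L => (IsGalois.normalBasis K L).repr x g) ⁻¹' Metric.closedBall 0 ρ := by
    ext x; simp
  rw [this]
  exact (IsUltrametricDist.isOpen_closedBall 0 (by exact_mod_cast hρ)).preimage hc

/-- every `K`-automorphism of `L` is an isometry -/
lemma norm_algEquiv [CompleteSpace K] (g : L ≃ₐ[K] L) (x : L) : ‖g x‖ = ‖x‖ := by
  rw [NormedAlgebra.norm_eq_spectralNorm K, NormedAlgebra.norm_eq_spectralNorm K x]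
  exact (spectralNorm_eq_of_equiv g x).symm

/-! ### Sums over powers of a generator -/

section Cyclic

variable (σ : L ≃ₐ[K] L) (hσ : ∀ g : L ≃ₐ[K] L, g ∈ Subgroup.zpowers σ)

lemma toRingEquiv_pow_apply (j : ℕ) (x : L) :
    ((σ : L ≃+* L) ^ j) x = (σ ^ j) x := by
  induction j generalizing x with
  | zero => rfl
  | succ j ih =>
    rw [pow_succ, pow_succ]
    change ((σ : L ≃+* L) ^ j) (σ x) = (σ ^ j) (σ x)
    exact ih (σ x)

include hσ in
lemma sum_range_pow_eq_sum_univ {M : Type*} [AddCommMonoid M] (f : (L ≃ₐ[K] L) → M) :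
    ∑ j ∈ range (orderOf σ), f (σ ^ j) = ∑ g, f g := by
  classical
  rw [← IsCyclic.image_range_orderOf hσ, Finset.sum_image]
  intro i hi j hj hij
  exact pow_injOn_Iio_orderOf (by simpa using hi) (by simpa using hj) hij

include hσ in
lemma prod_range_pow_eq_prod_univ {M : Type*} [CommMonoid M] (f : (L ≃ₐ[K] L) → M) :
    ∏ j ∈ range (orderOf σ), f (σ ^ j) = ∏ g, f g := by
  classical
  rw [← IsCyclic.image_range_orderOf hσ, Finset.prod_image]
  intro i hi j hj hij
  exact pow_injOn_Iio_orderOf (by simpa using hi) (by simpa using hj) hij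

include hσ in
lemma apply_eq_of_generator_apply_eq {a : L} (ha : σ a = a) (g : L ≃ₐ[K] L) : g a = a := by
  have h1 : Subgroup.zpowers σ ≤ MulAction.stabilizer (L ≃ₐ[K] L) a := by
    rw [Subgroup.zpowers_le]
    exact ha
  exact h1 (hσ g)

include hσ in
lemma exists_pow_eq (g : L ≃ₐ[K] L) : ∃ k : ℕ, σ ^ k = g := by
  exact mem_powers_iff_mem_zpowers.mpr (hσ g)

include hσ in
/-- coordinates of a `σ`-fixed element are all equal -/
lemma repr_eq_of_fixed {a : L} (ha : σ a = a) (g : L ≃ₐ[K] L) :
    (IsGalois.normalBasis K L).repr a g = (IsGalois.normalBasis K L).repr a 1 := by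
  have h1 : g⁻¹ a = a := apply_eq_of_generator_apply_eq σ hσ ha g⁻¹
  conv_rhs => rw [← h1]
  rw [repr_apply_algEquiv]
  simp

include hσ in
lemma trace_surj_lam {ρ : ℝ≥0} {a : L} (ha : a ∈ lam K L ρ) (hfix : σ a = a) :
    ∃ b ∈ lam K L ρ, ∑ j ∈ range (orderOf σ), ((σ : L ≃+* L) ^ j) b = a := by
  classical
  set B := IsGalois.normalBasis K L with hB
  refine ⟨B.repr a 1 • B 1, ?_, ?_⟩
  · refine lam_mono ?_ (smul_mem_lam (basis_mem_lam 1) _)
    rw [mul_one]
    exact_mod_cast ha 1
  · simp_rw [toRingEquiv_pow_apply]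
    rw [sum_range_pow_eq_sum_univ σ hσ (fun g => g (B.repr a 1 • B 1))]
    conv_rhs => rw [← B.sum_repr a]
    refine Finset.sum_congr rfl (fun g _ => ?_)
    rw [map_smul, repr_eq_of_fixed σ hσ hfix g, hB, IsGalois.normalBasis_apply g]

omit [IsUltrametricDist K] in
lemma sum_repr_trace (a : L) (g : L ≃ₐ[K] L) :
    (IsGalois.normalBasis K L).repr (∑ h : L ≃ₐ[K] L, h a) g =
      ∑ k, (IsGalois.normalBasis K L).repr a k := by
  classical
  rw [map_sum, Finsupp.coe_finsetSum, Finset.sum_apply]
  simp_rw [repr_apply_algEquiv]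
  exact Fintype.sum_equiv ((Equiv.inv _).trans (Equiv.mulRight g)) _ _ (fun h => by simp)

include hσ in
lemma sub_surj_lam {ρ ρ' : ℝ≥0} {a : L} (ha : a ∈ lam K L ρ)
    (htr : ∑ j ∈ range (orderOf σ), ((σ : L ≃+* L) ^ j) a ∈ lam K L ρ') :
    ∃ b ∈ lam K L ρ, σ b - b - a ∈ lam K L ρ' := by
  classical
  set B := IsGalois.normalBasis K L with hB
  simp_rw [toRingEquiv_pow_apply] at htr
  rw [sum_range_pow_eq_sum_univ σ hσ (fun g => g a)] at htr
  have hs : ‖∑ k, B.repr a k‖ ≤ ρ' := by
    have := htr 1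
    rwa [sum_repr_trace a 1] at this
  choose e he using exists_pow_eq σ hσ
  have hpow : ∀ m : ℕ, (σ ^ m) (B 1) = B (σ ^ m) := fun m => by
    rw [hB, IsGalois.normalBasis_apply (σ ^ m)]
  refine ⟨∑ g, B.repr a g • ∑ m ∈ range (e g), (σ ^ m) (B 1), ?_, ?_⟩
  · refine AddSubgroup.sum_mem _ (fun g _ => ?_)
    have h1 : ∑ m ∈ range (e g), (σ ^ m) (B 1) ∈ lam K L 1 := by
      refine AddSubgroup.sum_mem _ (fun m _ => ?_)
      rw [hpow]
      exact basis_mem_lam _
    refine lam_mono ?_ (smul_mem_lam h1 _)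
    rw [mul_one]
    exact_mod_cast ha g
  · have key : σ (∑ g, B.repr a g • ∑ m ∈ range (e g), (σ ^ m) (B 1)) -
        (∑ g, B.repr a g • ∑ m ∈ range (e g), (σ ^ m) (B 1)) =
        a - (∑ k, B.repr a k) • B 1 := by
      rw [map_sum, ← Finset.sum_sub_distrib]
      have : ∀ g, σ (B.repr a g • ∑ m ∈ range (e g), (σ ^ m) (B 1)) -
          B.repr a g • ∑ m ∈ range (e g), (σ ^ m) (B 1) = B.repr a g • B g - B.repr a g • B 1 := by
        intro g
        rw [map_smul, ← smul_sub, ← smul_sub, map_sum, ← Finset.sum_sub_distrib]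
        congr 1
        have h2 : ∀ m, σ ((σ ^ m) (B 1)) - (σ ^ m) (B 1) =
            (fun m => (σ ^ m) (B 1)) (m + 1) - (fun m => (σ ^ m) (B 1)) m := by
          intro m
          simp only [pow_succ']
          rfl
        simp_rw [h2]
        rw [Finset.sum_range_sub (fun m => (σ ^ m) (B 1))]
        simp only [pow_zero, AlgEquiv.one_apply]
        rw [hpow, he]
      simp_rw [this]
      rw [Finset.sum_sub_distrib, B.sum_repr a, Finset.sum_smul]
    rw [key]
    have e2 : a - (∑ k, B.repr a k) • B 1 - a = -((∑ k, B.repr a k) • B 1) := by ring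
    rw [e2]
    refine (lam K L ρ').neg_mem (lam_mono ?_ (smul_mem_lam (basis_mem_lam 1) _))
    rw [mul_one]
    exact_mod_cast hs

/-- the radius of the `0`-th lattice -/
noncomputable def rho0 (K L : Type*) [NontriviallyNormedField K] [IsUltrametricDist K]
    [NormedField L] [NormedAlgebra K L] [FiniteDimensional K L] [IsGalois K L] : ℝ≥0 :=
  (2 * (structBound K L + basisBound K L + 1))⁻¹

lemma rho0_pos : 0 < rho0 K L := by
  unfold rho0
  positivity

lemma structBound_mul_rho0_le : structBound K L * rho0 K L ≤ 2⁻¹ := by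
  unfold rho0
  rw [mul_inv, ← mul_assoc, mul_comm (structBound K L), mul_assoc]
  refine mul_le_of_le_one_right (by positivity) ?_
  rw [← div_eq_mul_inv]
  refine div_le_one_of_le₀ ?_ (by positivity)
  calc structBound K L ≤ structBound K L + (basisBound K L + 1) := le_self_add
    _ = structBound K L + basisBound K L + 1 := by ring

lemma rho0_mul_basisBound_lt : rho0 K L * basisBound K L < 1 := by
  unfold rho0
  rw [mul_inv, mul_assoc]
  have h1 : (structBound K L + basisBound K L + 1)⁻¹ * basisBound K L ≤ 1 := by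
    rw [mul_comm, ← div_eq_mul_inv]
    refine div_le_one_of_le₀ ?_ (by positivity)
    calc basisBound K L ≤ basisBound K L + (structBound K L + 1) := le_self_add
      _ = structBound K L + basisBound K L + 1 := by ring
  calc (2 : ℝ≥0)⁻¹ * ((structBound K L + basisBound K L + 1)⁻¹ * basisBound K L)
      ≤ 2⁻¹ * 1 := by gcongr
    _ < 1 := by rw [mul_one]; exact inv_lt_one_of_one_lt₀ (by norm_num)

/-- **The normal-basis filtration.** -/
noncomputable def normalFiltration [CompleteSpace K] :
    Filtration L (σ : L ≃+* L) (orderOf σ) where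
  Λ i := lam K L (rho0 K L * 2⁻¹ ^ i)
  c i := rho0 K L * 2⁻¹ ^ i * basisBound K L
  anti i := by
    refine lam_mono ?_
    rw [pow_succ, ← mul_assoc]
    exact mul_le_of_le_one_right (by positivity) (by rw [inv_le_one₀] <;> norm_num)
  mul_mem i x y hx hy := by
    refine lam_mono ?_ (mul_mem_lam hx hy)
    rw [pow_zero, mul_one, pow_succ]
    calc structBound K L * rho0 K L * (rho0 K L * 2⁻¹ ^ i)
        ≤ 2⁻¹ * (rho0 K L * 2⁻¹ ^ i) := by gcongr; exact structBound_mul_rho0_le
      _ = rho0 K L * (2⁻¹ ^ i * 2⁻¹) := by ring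
  closed i := isClosed_lam _
  norm_le i x hx := by
    have := norm_le_of_mem_lam hx
    exact_mod_cast this
  c_tendsto := by
    have h : Filter.Tendsto (fun i : ℕ => ((2 : ℝ)⁻¹) ^ i) Filter.atTop (nhds 0) :=
      tendsto_pow_atTop_nhds_zero_of_lt_one (by norm_num) (by norm_num)
    have h2 := (h.const_mul (rho0 K L : ℝ)).mul_const (basisBound K L : ℝ)
    simp only [mul_zero, zero_mul] at h2
    refine h2.congr (fun i => ?_)
    push_cast
    ring
  c_zero_lt := by
    have := rho0_mul_basisBound_lt (K := K) (L := L)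
    rw [pow_zero, mul_one]
    exact_mod_cast this
  stable i x hx := algEquiv_mem_lam hx σ
  isom x := norm_algEquiv σ x
  pow_eq x := by
    rw [toRingEquiv_pow_apply, pow_orderOf_eq_one]
    rfl
  hTr i a ha hfix := by
    obtain ⟨b, hb, hb'⟩ := trace_surj_lam σ hσ ha hfix
    refine ⟨b, hb, ?_⟩
    rw [hb', sub_self]
    exact AddSubgroup.zero_mem _
  hSub i a ha htr := sub_surj_lam σ hσ ha htr

end Cyclic

end Fermat.Agent.S55.H953

end
-- ===== PACK-END S55/H953/Lattice.lean

-- ===== PACK-BEGIN S55/H954/H2InfRes.lean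
section



/-!
# Inflation–restriction exact sequence in degree 2 (Mathlib `groupCohomology`)

For `A : Rep k G`, `S ≤ G` normal with `H¹(S, A) = 0`:
`0 ⟶ H²(G ⧸ S, A^S) ⟶ H²(G, A) ⟶ H²(S, A)` is exact.
-/

set_option autoImplicit false
set_option linter.unusedSectionVars false

namespace Fermat.Agent.S55.H954

open CategoryTheory groupCohomology Rep

universe u

variable {k G : Type u} [CommRing k] [Group G]

section MapOne

variable {H : Type u} [Group H] {A : Rep k H} {B : Rep k G}

/-- The map induced on `H²` by the trivial group homomorphism is zero. -/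
theorem map₂_one (φ : res (1 : G →* H) A ⟶ B) : map (1 : G →* H) φ 2 = 0 := by
  rw [← cancel_epi (H2π A), H2π_comp_map, Limits.comp_zero]
  ext x
  simp only [ModuleCat.hom_comp, LinearMap.coe_comp, Function.comp_apply, ModuleCat.hom_zero,
    LinearMap.zero_apply]
  rw [H2π_eq_zero_iff]
  refine ⟨fun _ => φ.hom (x (1, 1)), ?_⟩
  funext ⟨g, h⟩
  have := hom_comm_apply φ g (x (1, 1))
  rw [d₁₂_hom_apply]
  change _ = φ.hom (x ((1 : G →* H) g, (1 : G →* H) h))
  rw [← this]
  have h1 : (res (1 : G →* H) A).ρ g (x (1, 1)) = x (1, 1) := by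
    change A.ρ ((1 : G →* H) g) (x (1, 1)) = x (1, 1)
    simp
  rw [h1]
  simp

end MapOne

section InfRes

variable (A : Rep k G) (S : Subgroup G) [S.Normal]

/-- The short complex `H²(G ⧸ S, A^S) ⟶ H²(G, A) ⟶ H²(S, A)`. -/
@[simps X₁ X₂ X₃ f g]
noncomputable def H2InfRes : ShortComplex (ModuleCat k) where
  X₁ := groupCohomology (A.quotientToInvariants S) 2
  X₂ := groupCohomology A 2
  X₃ := groupCohomology (res S.subtype A) 2
  f := map (QuotientGroup.mk' S) (ofHom <| A.ρ.quotientToInvariants_lift S) 2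
  g := map S.subtype (𝟙 _) 2
  zero := by rw [← map_comp, Category.comp_id, groupCohomology.congr (QuotientGroup.mk'_comp_subtype S)
    (fun f φ => map f φ 2), map₂_one]

variable {A S}

lemma hOneVanishes_of_H1_eq_zero (h : ∀ x : H1 (res S.subtype A), x = 0) :
    HOneVanishes A.ρ S := by
  intro w hw
  have hmem : w ∈ cocycles₁ (res S.subtype A) :=
    (mem_cocycles₁_iff (A := res S.subtype A) w).2 (fun s t => hw s t)
  have h0 := h (H1π _ ⟨w, hmem⟩)
  rw [H1π_eq_zero_iff] at h0
  obtain ⟨a, ha⟩ := h0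
  refine ⟨a, fun s => ?_⟩
  have := congr_fun ha s
  rw [d₀₁_hom_apply] at this
  exact this.symm

variable (A S)

set_option backward.defeqAttrib.useBackward true in
set_option backward.isDefEq.respectTransparency false in
/-- **Inflation–restriction in degree 2**: if `H¹(S, A) = 0`, then
`H²(G ⧸ S, A^S) ⟶ H²(G, A) ⟶ H²(S, A)` is exact. -/
theorem H2InfRes_exact (h : ∀ x : H1 (res S.subtype A), x = 0) : (H2InfRes A S).Exact := by
  rw [ShortComplex.moduleCat_exact_iff_ker_sub_range]
  intro x hx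
  induction x using H2_induction_on with | @h x =>
  simp_all only [H2InfRes_X₂, H2InfRes_X₃, H2InfRes_g, H2InfRes_X₁, LinearMap.mem_ker,
    H2π_comp_map_apply S.subtype, H2InfRes_f]
  obtain ⟨(φ : S → A), hφ⟩ := (H2π_eq_zero_iff _).1 hx
  have hcoc : IsTwoCocycle A.ρ x := (mem_cocycles₂_iff _).1 x.2
  have hφ' : ∀ s t : S, x ((s : G), (t : G)) = A.ρ s (φ t) - φ (s * t) + φ s := by
    intro s t
    have := congr_fun hφ (s, t)
    rw [d₁₂_hom_apply] at this
    exact this.symm
  obtain ⟨c, f', hff', hf'coc, i2, i1, i3⟩ :=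
    exists_inflated_of_res_coboundary A.ρ S (hOneVanishes_of_H1_eq_zero h) hcoc φ hφ'
  -- the descended cocycle on `G ⧸ S` with values in `A^S`
  have hwd : ∀ g₁ h₁ g₂ h₂ : G, QuotientGroup.leftRel S g₁ g₂ → QuotientGroup.leftRel S h₁ h₂ →
      f' (g₁, h₁) = f' (g₂, h₂) := by
    intro g₁ h₁ g₂ h₂ hg hh
    rw [QuotientGroup.leftRel_apply] at hg hh
    have e1 : g₂ = g₁ * (g₁⁻¹ * g₂) := by group
    have e2 : h₂ = h₁ * (h₁⁻¹ * h₂) := by group
    rw [e1, e2, i1 _ hg, i2 _ hh]
  have hinvar : ∀ g h : G, f' (g, h) ∈ Representation.invariants (A.ρ.comp S.subtype) := by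
    intro g h s
    exact i3 s s.2 g h
  let fbar : (G ⧸ S) × (G ⧸ S) → (A.quotientToInvariants S) := fun p =>
    Quotient.liftOn₂' p.1 p.2 (fun g h => (⟨f' (g, h), hinvar g h⟩ : (A.quotientToInvariants S)))
      (fun g₁ h₁ g₂ h₂ hg hh => Subtype.ext (hwd g₁ h₁ g₂ h₂ hg hh))
  have hfbar : fbar ∈ cocycles₂ (A.quotientToInvariants S) := by
    rw [mem_cocycles₂_iff]
    intro g h j
    induction g using QuotientGroup.induction_on with | @H g =>
    induction h using QuotientGroup.induction_on with | @H h =>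
    induction j using QuotientGroup.induction_on with | @H j =>
    apply Subtype.ext
    exact hf'coc g h j
  refine ⟨H2π _ ⟨fbar, hfbar⟩, ?_⟩
  rw [H2π_comp_map_apply (QuotientGroup.mk' S), H2π_eq_iff]
  refine ⟨-c, ?_⟩
  funext ⟨g, j⟩
  have := congr_fun hff' (g, j)
  rw [d₁₂_hom_apply]
  change _ = f' (g, j) - x (g, j)
  rw [this]
  simp only [Pi.add_apply, dOne_apply, Pi.neg_apply, map_neg]
  abel

set_option backward.defeqAttrib.useBackward true in
set_option backward.isDefEq.respectTransparency false in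
/-- **Inflation–restriction in degree 2**: if `H¹(S, A) = 0`, then the inflation map
`H²(G ⧸ S, A^S) ⟶ H²(G, A)` is a monomorphism. -/
theorem H2InfRes_mono (h : ∀ x : H1 (res S.subtype A), x = 0) : Mono (H2InfRes A S).f := by
  rw [ModuleCat.mono_iff_injective, injective_iff_map_eq_zero]
  intro x hx
  induction x using H2_induction_on with | @h x =>
  simp_all only [H2InfRes_X₂, H2InfRes_X₁, H2InfRes_f, H2π_comp_map_apply (QuotientGroup.mk' S)]
  obtain ⟨(c : G → A), hc⟩ := (H2π_eq_zero_iff _).1 hx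
  set f' : G × G → A := fun p => ((x ((p.1 : G ⧸ S), (p.2 : G ⧸ S)) : A.quotientToInvariants S) : A)
    with hf'
  have hc' : f' = dOne A.ρ c := by
    funext ⟨g, j⟩
    have := congr_fun hc (g, j)
    rw [d₁₂_hom_apply] at this
    rw [dOne_apply, this]
    rfl
  have hq : ∀ s ∈ S, ∀ g : G, ((g * s : G) : G ⧸ S) = (g : G ⧸ S) := by
    intro s hs g
    rw [QuotientGroup.mk_mul, (QuotientGroup.eq_one_iff s).2 hs, mul_one]
  obtain ⟨c', hd, hright, hval⟩ := exists_invariant_cochain_of_inf_coboundary A.ρ S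
    (hOneVanishes_of_H1_eq_zero h) (f' := f')
    (fun s hs g j => by simp only [hf', hq s hs])
    (fun s hs g j => by simp only [hf', hq s hs])
    (fun s hs g j => (x ((g : G ⧸ S), (j : G ⧸ S))).2 ⟨s, hs⟩) c hc'
  rw [H2π_eq_zero_iff]
  refine ⟨fun q => Quotient.liftOn' q
    (fun g => (⟨c' g, fun s => hval s s.2 g⟩ : (A.quotientToInvariants S)))
    (fun g₁ g₂ hg => Subtype.ext ?_), ?_⟩
  · rw [QuotientGroup.leftRel_apply] at hg
    have e1 : g₂ = g₁ * (g₁⁻¹ * g₂) := by group
    change c' g₁ = c' g₂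
    rw [e1, hright _ hg]
  · funext ⟨g, j⟩
    induction g using QuotientGroup.induction_on with | @H g =>
    induction j using QuotientGroup.induction_on with | @H j =>
    apply Subtype.ext
    have := congr_fun hd (g, j)
    rw [d₁₂_hom_apply]
    exact this.symm

/-- Elementwise form: a class in `H²(G, A)` restricting to `0` on `S` is inflated from
`H²(G ⧸ S, A^S)`, provided `H¹(S, A) = 0`. -/
theorem exists_inf_eq_of_res_eq_zero (h : ∀ x : H1 (res S.subtype A), x = 0)
    (x : H2 A) (hx : map S.subtype (𝟙 (res S.subtype A)) 2 x = 0) :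
    ∃ y : H2 (A.quotientToInvariants S),
      map (QuotientGroup.mk' S) (ofHom <| A.ρ.quotientToInvariants_lift S) 2 y = x := by
  have hex := H2InfRes_exact A S h
  rw [ShortComplex.moduleCat_exact_iff_ker_sub_range] at hex
  exact hex (LinearMap.mem_ker.2 hx)

/-- Elementwise form: inflation `H²(G ⧸ S, A^S) → H²(G, A)` is injective if `H¹(S, A) = 0`. -/
theorem inf_injective (h : ∀ x : H1 (res S.subtype A), x = 0) :
    Function.Injective
      (map (QuotientGroup.mk' S) (ofHom <| A.ρ.quotientToInvariants_lift S) 2 :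
        H2 (A.quotientToInvariants S) → H2 A) := by
  have := H2InfRes_mono A S h
  exact (ModuleCat.mono_iff_injective _).1 this

end InfRes

end Fermat.Agent.S55.H954

end
-- ===== PACK-END S55/H954/H2InfRes.lean

-- ===== PACK-BEGIN S55/T/Hat0H539.lean
section


/-!
# S55, layer T, leaf T7 (bridges): Tate cohomology in degree `0` is `A^G / N_G A`

`tateZeroEquivHat0 A : tateCohomology A 0 ≃ₗ[k] hat0 A` for every `A : Rep k G`, `G` finite.
Mathlib-only (plus the vocabulary of `Spec.lean`).
-/

set_option autoImplicit false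

namespace Fermat.Agent.S55.T.H539

open CategoryTheory groupCohomology groupHomology

variable {k G : Type} [CommRing k] [Group G] [Fintype G] (A : Rep.{0} k G)

/-- The concrete short complex `A --N_G--> A --d₀₁--> (G → A)`. -/
noncomputable def normSc : ShortComplex (ModuleCat.{0} k) :=
  ShortComplex.mk (Rep.Hom.toModuleCatHom A.norm) (d₀₁ A) (Rep.norm_comp_d_eq_zero A)

/-- The degree-`0` part of the Tate complex is the concrete short complex `normSc`. -/
noncomputable def tateScZeroIso : (tateComplex A).sc' (-1) 0 1 ≅ normSc A :=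
  ShortComplex.isoMk (chainsIso₀ A) (cochainsIso₀ A) (cochainsIso₁ A)
    (by
      change (chainsIso₀ A).hom ≫ Rep.Hom.toModuleCatHom A.norm =
        A.tateNorm ≫ (cochainsIso₀ A).hom
      simp [Rep.tateNorm])
    (by
      change (cochainsIso₀ A).hom ≫ d₀₁ A =
        (inhomogeneousCochains A).d 0 1 ≫ (cochainsIso₁ A).hom
      exact comp_d₀₁_eq A)

/-- Tate cohomology in degree `0` is the homology of `normSc`. -/
noncomputable def tateZeroIsoHomology : tateCohomology A 0 ≅ (normSc A).homology :=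
  (tateComplex A).homologyIsoSc' (-1) 0 1 (by simp) (by simp) ≪≫
    ShortComplex.homologyMapIso (tateScZeroIso A)

/-- The kernel of `d₀₁` is the module of invariants. -/
noncomputable def kerEquivInvariants :
    ↥(LinearMap.ker (normSc A).g.hom) ≃ₗ[k] ↥A.ρ.invariants :=
  LinearEquiv.ofEq _ _ (d₀₁_ker_eq_invariants A)

theorem map_range_toCycles :
    Submodule.map (kerEquivInvariants A : ↥(LinearMap.ker (normSc A).g.hom) →ₗ[k] ↥A.ρ.invariants)
        (LinearMap.range (normSc A).moduleCatToCycles) =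
      (LinearMap.range A.ρ.norm).comap A.ρ.invariants.subtype := by
  ext x
  simp only [Submodule.mem_map, LinearMap.mem_range, Submodule.mem_comap, Submodule.subtype_apply]
  constructor
  · rintro ⟨y, ⟨a, rfl⟩, rfl⟩
    exact ⟨a, rfl⟩
  · rintro ⟨a, ha⟩
    refine ⟨(normSc A).moduleCatToCycles a, ⟨a, rfl⟩, ?_⟩
    apply Subtype.ext
    exact ha

/-- The homology of `normSc` is `A^G / N_G A`. -/
noncomputable def homologyEquivHat0 : (normSc A).homology ≃ₗ[k] hat0 A :=
  ((normSc A).moduleCatHomologyIso).toLinearEquiv ≪≫ₗ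
    Submodule.Quotient.equiv _ _ (kerEquivInvariants A) (map_range_toCycles A)

/-- **T7.**  `Ĥ⁰(G, A) ≃ A^G / N_G A`. -/
noncomputable def tateZeroEquivHat0 : tateCohomology A 0 ≃ₗ[k] hat0 A :=
  (tateZeroIsoHomology A).toLinearEquiv ≪≫ₗ homologyEquivHat0 A

/-- `tateZeroEquivHat0` as an additive equivalence (avoids the `Module ℤ` diamond for
consumers working over `ℤ`). -/
noncomputable def tateZeroAddEquivHat0 : tateCohomology A 0 ≃+ hat0 A :=
  (tateZeroEquivHat0 A).toAddEquiv

/-- An isomorphism in `ModuleCat k` as an additive equivalence (generic in `k`, so that no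
`Module ℤ` instance is re-synthesised at `k = ℤ`). -/
noncomputable def moduleIsoToAddEquiv {R : Type} [Ring R] {X Y : ModuleCat.{0} R} (e : X ≅ Y) :
    X ≃+ Y :=
  e.toLinearEquiv.toAddEquiv

end Fermat.Agent.S55.T.H539

end
-- ===== PACK-END S55/T/Hat0H539.lean

-- ===== PACK-BEGIN S55/G/ClsH604.lean
section
/-
S55, layer G, leaf G-SES part (b) (helper604), on top of helper421's `G/Defs.lean`.

The divisor map `ordHom S L : Lˣ → Div^S(L)` has FINITE cokernel (finiteness of the class group),
hence `C_S(L) / C'_S(L)` (`C'_S = jImage = J_S / E_S`) is finite.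
-/



set_option autoImplicit false
set_option linter.unusedSectionVars false

open scoped NumberField nonZeroDivisors
open IsDedekindDomain FractionalIdeal

noncomputable section

namespace Fermat.Agent.S55.G.ClsH604

open Fermat.Agent.S55.G

variable (S : Finset Nat.Primes) (L : Type) [Field L] [NumberField L]

variable {L} in
/-- `ord_w x` is the multiplicity of `w` in the principal fractional ideal `(x)`. -/
lemma ordAt_eq_count (w : HeightOneSpectrum (𝓞 L)) (x : Additive Lˣ) :
    ordAt w x = count L w (spanSingleton (𝓞 L)⁰ ((x.toMul : Lˣ) : L)) := by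
  rw [ordAt_apply, ← HeightOneSpectrum.valuationOfNeZero_eq,
    Fermat.Agent.S55.H901.valuationOfNeZero_eq_count]
  simp
  rfl

/-- The prime `w`, as a unit of the monoid of fractional ideals. -/
def primeUnit (w : HeightOneSpectrum (𝓞 L)) : (FractionalIdeal (𝓞 L)⁰ L)ˣ :=
  FractionalIdeal.mk0 L ⟨w.asIdeal, mem_nonZeroDivisors_of_ne_zero w.ne_bot⟩

lemma coe_primeUnit (w : HeightOneSpectrum (𝓞 L)) :
    ((primeUnit L w : (FractionalIdeal (𝓞 L)⁰ L)ˣ) : FractionalIdeal (𝓞 L)⁰ L) =
      (w.asIdeal : FractionalIdeal (𝓞 L)⁰ L) := rfl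

/-- The fractional ideal `∏ w ^ (d w)` attached to a divisor prime to `S`, as a homomorphism. -/
def divIdeal : (PrimeOut S L →₀ ℤ) →+ Additive (FractionalIdeal (𝓞 L)⁰ L)ˣ :=
  Finsupp.liftAddHom fun w : PrimeOut S L =>
    (zmultiplesHom (Additive (FractionalIdeal (𝓞 L)⁰ L)ˣ)) (Additive.ofMul (primeUnit L w.1))

lemma divIdeal_single (w : PrimeOut S L) (n : ℤ) :
    divIdeal S L (Finsupp.single w n) = Additive.ofMul (primeUnit L w.1 ^ n) := by
  simp [divIdeal]

/-- the multiplicity of `v` in the fractional ideal attached to `d`. -/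
def cnt (v : HeightOneSpectrum (𝓞 L)) : Additive (FractionalIdeal (𝓞 L)⁰ L)ˣ →+ ℤ where
  toFun I := count L v ((I.toMul : (FractionalIdeal (𝓞 L)⁰ L)ˣ) : FractionalIdeal (𝓞 L)⁰ L)
  map_zero' := by simp [count_one]
  map_add' I J := by
    simp only [toMul_add, Units.val_mul]
    exact count_mul L v (Units.ne_zero _) (Units.ne_zero _)

lemma cnt_apply (v : HeightOneSpectrum (𝓞 L)) (I : Additive (FractionalIdeal (𝓞 L)⁰ L)ˣ) :
    cnt L v I = count L v ((I.toMul : (FractionalIdeal (𝓞 L)⁰ L)ˣ) : FractionalIdeal (𝓞 L)⁰ L) :=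
  rfl

lemma cnt_divIdeal (v : PrimeOut S L) (d : PrimeOut S L →₀ ℤ) :
    cnt L v.1 (divIdeal S L d) = d v := by
  classical
  induction d using Finsupp.induction_linear with
  | zero => simp
  | add f g hf hg => rw [map_add, map_add, hf, hg, Finsupp.add_apply]
  | single w n =>
    rw [divIdeal_single, cnt_apply, toMul_ofMul, Units.val_zpow_eq_zpow_val, coe_primeUnit,
      count_zpow]
    by_cases h : w = v
    · subst h
      rw [count_self, mul_one, Finsupp.single_eq_same]
    · have h' : w.1 ≠ v.1 := fun h' => h (Subtype.ext h')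
      rw [count_maximal_coprime L v.1 h', mul_zero, Finsupp.single_eq_of_ne (Ne.symm h)]

/-- The class of a divisor in the class group. -/
def divClass : (PrimeOut S L →₀ ℤ) →+ Additive (ClassGroup (𝓞 L)) :=
  (MonoidHom.toAdditive (ClassGroup.mk L)).comp (divIdeal S L)

/-- A divisor prime to `S` whose class is trivial is the divisor of an element of `Lˣ`. -/
theorem ker_divClass_le : (divClass S L).ker ≤ (ordHom S L).range := by
  intro d hd
  have h1 : ClassGroup.mk L ((divIdeal S L d).toMul) = 1 := hd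
  rw [ClassGroup.mk_eq_one_iff] at h1
  obtain ⟨x, hx⟩ := h1.principal
  have hx' : (((divIdeal S L d).toMul : (FractionalIdeal (𝓞 L)⁰ L)ˣ) :
      FractionalIdeal (𝓞 L)⁰ L) = spanSingleton (𝓞 L)⁰ x := by
    apply Subtype.coe_injective
    simp only [val_eq_coe, hx, coe_spanSingleton]
  have hx0 : x ≠ 0 := by
    rintro rfl
    have : (((divIdeal S L d).toMul : (FractionalIdeal (𝓞 L)⁰ L)ˣ) :
      FractionalIdeal (𝓞 L)⁰ L) = 0 := by rw [hx']; simp
    exact Units.ne_zero _ this
  refine ⟨Additive.ofMul (Units.mk0 x hx0), ?_⟩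
  ext w
  rw [ordHom_apply, ordAt_eq_count, toMul_ofMul, Units.val_mk0, ← hx', ← cnt_apply, cnt_divIdeal]

/-- **G-SES (b).** The image of the divisor map `Lˣ → Div^S(L)` has finite index
(the quotient is the `S`-class group). -/
instance ordHom_range_finiteIndex : (ordHom S L).range.FiniteIndex :=
  AddSubgroup.finiteIndex_of_le (ker_divClass_le S L)

/-- the index of the image of the divisor map is nonzero. -/
theorem ordHom_range_index_ne_zero : (ordHom S L).range.index ≠ 0 :=
  AddSubgroup.FiniteIndex.index_ne_zero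

instance finite_div_quotient : Finite ((PrimeOut S L →₀ ℤ) ⧸ (ordHom S L).range) :=
  AddSubgroup.finite_quotient_of_finiteIndex

end Fermat.Agent.S55.G.ClsH604

end
end
-- ===== PACK-END S55/G/ClsH604.lean

-- ===== PACK-BEGIN S14/H34/Interface.lean
section


/-!
# S14, block DENSITY (helper34): the four interface statements

`ZetaBounds`, `GoodMass`, `CharBound`, `KummerBound` are the four pieces from which
`Fermat.Agent.S14.H34.exists_prime_of_density_of` (file `Density.lean`) is assembled.
-/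

set_option autoImplicit false

namespace Fermat.Agent.S14.H34

open NumberField Ideal nonZeroDivisors IsDedekindDomain

noncomputable section

variable (K : Type*) [Field K] [NumberField K]

/-- (Z) the pole of the zeta function: two-sided bound near `1`. -/
def ZetaBounds : Prop :=
  ∃ c C δ : ℝ, 0 < c ∧ 0 < δ ∧ ∀ s : ℝ, 1 < s → s < 1 + δ →
    c / (s - 1) ≤ zetaI K s ∧ zetaI K s ≤ C / (s - 1)

/-- (A) the primes of degree one outside a finite set carry the mass of the zeta function. -/
def GoodMass : Prop :=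
  ∀ Bad : Finset (HeightOneSpectrum (𝓞 K)),
    ∃ C : ℝ, 0 < C ∧ ∀ s : ℝ, 1 < s → s ≤ 2 → ∃ T : Finset (HeightOneSpectrum (𝓞 K)),
      (∀ v ∈ T, (absNorm v.asIdeal).Prime ∧ v ∉ Bad) ∧
        zetaI K s ≤ C * ∏ v ∈ T, (1 + pN s v)

/-- (C) primes in the kernel of a character of order `p` have density at most `1/p`. -/
def CharBound : Prop :=
  ∀ (p : ℕ), p.Prime → ∀ χ : ClassGroup (𝓞 K) →* ℂˣ, χ ^ p = 1 →
    (∀ k : ℕ, 0 < k → k < p → LBounded K (χ ^ k)) →
    ∃ C : ℝ, 0 < C ∧ ∀ s : ℝ, 1 < s → s ≤ 2 → ∀ T : Finset (HeightOneSpectrum (𝓞 K)),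
      (∀ v ∈ T, χ (ClassGroup.mk0 (primeNZ v)) = 1) →
        (∏ v ∈ T, (1 + pN s v)) ^ p ≤ C * zetaI K s

/-- (N3) primes modulo which `η` is a `p`-th power have density at most `1/p`. -/
def KummerBound : Prop :=
  ∀ (p : ℕ), p.Prime → ∀ ζ : K, IsPrimitiveRoot ζ p →
    ∀ η : 𝓞 K, (∀ y : K, y ^ p ≠ (η : K)) →
    ∃ C δ : ℝ, 0 < C ∧ 0 < δ ∧ ∀ s : ℝ, 1 < s → s < 1 + δ →
      ∀ T : Finset (HeightOneSpectrum (𝓞 K)),
        (∀ v ∈ T, (p : 𝓞 K) ∉ v.asIdeal ∧ η ∉ v.asIdeal ∧ ∃ y : 𝓞 K, y ^ p - η ∈ v.asIdeal) →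
          (∏ v ∈ T, (1 + pN s v)) ^ p ≤ C / (s - 1)

end

end Fermat.Agent.S14.H34

end
-- ===== PACK-END S14/H34/Interface.lean

-- ===== PACK-BEGIN S55/L/UnrInv/CycInv.lean
section


/-!
# S55, layer L, unramified invariants: the abstract invariant map of a cyclic datum

Data: `σ : G`, `n > 0` with `σ ^ n = 1`, an additive `G`-invariant `w : A → ℤ`.
`cycInv σ n hσ w hw : H2 A →+ ℚ/ℤ` is the additive map with
`cycInv (class of c) = w (∑_{i<n} c (σ^i, σ)) / n  mod ℤ`.
-/

set_option autoImplicit false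

namespace Fermat.Agent.S55.L.UnrInv

open groupCohomology CategoryTheory

variable {G : Type} [Group G] {A : Rep.{0} ℤ G}

/-- The invariant on cocycles. -/
noncomputable def cycInvCocycle (σ : G) (n : ℕ) (w : A →+ ℤ) :
    cocycles₂ A →+ AddCircle (1 : ℚ) where
  toFun c := (((w (cycSum σ n (c : G × G → A)) : ℤ) : ℚ) / (n : ℚ) : ℚ)
  map_zero' := by
    have : ((0 : cocycles₂ A) : G × G → A) = 0 := rfl
    simp [this, cycSum_zero]
  map_add' c c' := by
    have : ((c + c' : cocycles₂ A) : G × G → A) = (c : G × G → A) + (c' : G × G → A) := rfl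
    rw [this, cycSum_add, map_add, Int.cast_add, add_div, AddCircle.coe_add]

theorem cycInvCocycle_apply (σ : G) (n : ℕ) (w : A →+ ℤ) (c : cocycles₂ A) :
    cycInvCocycle σ n w c = (((w (cycSum σ n (c : G × G → A)) : ℤ) : ℚ) / (n : ℚ) : ℚ) := rfl

theorem coe_eq_zero_of_dvd {n : ℕ} (hn : 0 < n) {k : ℤ} (h : (n : ℤ) ∣ k) :
    (((k : ℚ) / (n : ℚ) : ℚ) : AddCircle (1 : ℚ)) = 0 := by
  obtain ⟨t, rfl⟩ := h
  rw [AddCircle.coe_eq_zero_iff]
  refine ⟨t, ?_⟩
  have hn' : (n : ℚ) ≠ 0 := by exact_mod_cast hn.ne'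
  push_cast
  field_simp
  simp

theorem cycInvCocycle_eq_zero_of_mem_coboundaries₂ (σ : G) (n : ℕ) (hn : 0 < n) (hσ : σ ^ n = 1)
    (w : A →+ ℤ) (hw : ∀ (g : G) (x : A), w (A.ρ g x) = w x) (c : cocycles₂ A)
    (hc : (c : G × G → A) ∈ coboundaries₂ A) : cycInvCocycle σ n w c = 0 := by
  rw [cycInvCocycle_apply]
  exact coe_eq_zero_of_dvd hn (w_cycSum_of_mem_coboundaries₂ σ n hσ w hw _ hc)

theorem H2π_surjective : Function.Surjective (H2π A).hom :=
  (ModuleCat.epi_iff_surjective (H2π A)).1 inferInstance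

/-- The invariant map on `H²`. -/
noncomputable def cycInv (σ : G) (n : ℕ) (hn : 0 < n) (hσ : σ ^ n = 1)
    (w : A →+ ℤ) (hw : ∀ (g : G) (x : A), w (A.ρ g x) = w x) :
    H2 A →+ AddCircle (1 : ℚ) :=
  AddMonoidHom.liftOfRightInverse (H2π A).hom.toAddMonoidHom
    (Function.surjInv (H2π_surjective (A := A)))
    (Function.rightInverse_surjInv (H2π_surjective (A := A)))
    ⟨cycInvCocycle σ n w, by
      intro c hc
      rw [AddMonoidHom.mem_ker] at hc ⊢
      have hc' : (H2π A).hom c = 0 := hc
      rw [H2π_eq_zero_iff] at hc'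
      exact cycInvCocycle_eq_zero_of_mem_coboundaries₂ σ n hn hσ w hw c hc'⟩

theorem cycInv_H2π (σ : G) (n : ℕ) (hn : 0 < n) (hσ : σ ^ n = 1)
    (w : A →+ ℤ) (hw : ∀ (g : G) (x : A), w (A.ρ g x) = w x) (c : cocycles₂ A) :
    cycInv σ n hn hσ w hw ((H2π A).hom c) =
      (((w (cycSum σ n (c : G × G → A)) : ℤ) : ℚ) / (n : ℚ) : ℚ) :=
  AddMonoidHom.liftOfRightInverse_comp_apply _ _ _ _ c

end Fermat.Agent.S55.L.UnrInv

end
-- ===== PACK-END S55/L/UnrInv/CycInv.lean

-- ===== PACK-BEGIN S55/E1/H114/NormKill.lean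
section
/-
S55 engine E1, block ALG — helper114.
Abstract core of the norm-kill lemma ALG4 (pure additive-group form, Mathlib only).

`G` finite group, `H ≤ G`, `0 → R → P → N → 0` an exact sequence of `G`-modules (only the actions
on `R`, `P` are used), `p N = 0`, `H` acts trivially on `N`, `C` a `G`-module with
`N_H(C) ⊆ p • C^H`.  Then for every ADDITIVE `ψ : R → C` the norm `N_G ψ = ∑_g g ψ g⁻¹`
extends to an additive `G`-equivariant map `P → C`.
-/



set_option autoImplicit false

namespace Fermat.Agent.S55.E1.H114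

section actions

/-- An additive endomorphism as an additive homomorphism. -/
def endHom {C : Type*} [AddCommGroup C] (f : AddMonoid.End C) : C →+ C := f

@[simp] lemma endHom_apply {C : Type*} [AddCommGroup C] (f : AddMonoid.End C) (c : C) :
    endHom f c = f c := rfl

variable {G : Type*} [Group G] {C : Type*} [AddCommGroup C] (aC : G →* AddMonoid.End C)

lemma act_mul (g h : G) (c : C) : aC (g * h) c = aC g (aC h c) := by
  rw [map_mul]; rfl

lemma act_one (c : C) : aC 1 c = c := by
  rw [map_one]; rfl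

lemma act_inv_act (g : G) (c : C) : aC g⁻¹ (aC g c) = c := by
  rw [← act_mul, inv_mul_cancel, act_one]

lemma act_act_inv (g : G) (c : C) : aC g (aC g⁻¹ c) = c := by
  rw [← act_mul, mul_inv_cancel, act_one]

end actions

section cosets

variable {G : Type*} [Group G] (H : Subgroup G) {C : Type*} [AddCommMonoid C]

/-- The bijection `(G ⧸ H) × H ≃ G`, `(q, t) ↦ q.out * t`. -/
noncomputable def cosetEquiv : (G ⧸ H) × H ≃ G where
  toFun x := x.1.out * (x.2 : G)
  invFun g := ((g : G ⧸ H), ⟨(g : G ⧸ H).out⁻¹ * g, by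
    rw [← QuotientGroup.eq, QuotientGroup.out_eq']⟩)
  left_inv := by
    rintro ⟨q, t⟩
    have h : ((q.out * (t : G) : G) : G ⧸ H) = q := by
      rw [QuotientGroup.mk_mul_of_mem _ t.2, QuotientGroup.out_eq']
    refine Prod.ext h (Subtype.ext ?_)
    simp only [h, inv_mul_cancel_left]
  right_inv g := by simp

lemma sum_eq_sum_quot_sum [Fintype G] [Fintype H] [Fintype (G ⧸ H)] (Φ : G → C) :
    ∑ g : G, Φ g = ∑ q : G ⧸ H, ∑ t : H, Φ (q.out * (t : G)) := by
  rw [← Fintype.sum_prod_type' (f := fun (q : G ⧸ H) (t : H) => Φ (q.out * (t : G)))]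
  exact (Fintype.sum_equiv (cosetEquiv H) _ _ (fun _ => rfl)).symm

lemma sum_quot_translate [Fintype (G ⧸ H)] (F : G → C)
    (hF : ∀ g : G, ∀ h ∈ H, F (g * h) = F g) (τ : G) :
    ∑ q : G ⧸ H, F (τ * q.out) = ∑ q : G ⧸ H, F q.out := by
  refine Fintype.sum_equiv (MulAction.toPerm τ) _ _ (fun q => ?_)
  have hmem : (τ * q.out)⁻¹ * ((MulAction.toPerm τ q : G ⧸ H)).out ∈ H := by
    rw [← QuotientGroup.eq, QuotientGroup.out_eq']
    simp only [MulAction.toPerm_apply]
    conv_rhs => rw [← QuotientGroup.out_eq' q]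
    rfl
  have := hF (τ * q.out) _ hmem
  rw [mul_inv_cancel_left] at this
  exact this.symm

end cosets

section lift

variable {R P Q : Type*} [AddCommGroup R] [AddCommGroup P] [AddCommGroup Q]

/-- Lift of an additive map with values in `range ι` through the injection `ι`. -/
noncomputable def liftKer (ι : R →+ P) (hι : Function.Injective ι) (φ : Q →+ P)
    (hφ : ∀ q, φ q ∈ ι.range) : Q →+ R :=
  (AddMonoidHom.ofInjective hι).symm.toAddMonoidHom.comp (φ.codRestrict ι.range hφ)

lemma ι_liftKer (ι : R →+ P) (hι : Function.Injective ι) (φ : Q →+ P)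
    (hφ : ∀ q, φ q ∈ ι.range) (q : Q) : ι (liftKer ι hι φ hφ q) = φ q := by
  simp only [liftKer, AddMonoidHom.coe_comp, AddEquiv.coe_toAddMonoidHom, Function.comp_apply]
  exact AddMonoidHom.apply_ofInjective_symm hι _

end lift

section core

variable {G : Type*} [Group G] [Fintype G] (H : Subgroup G) [Fintype H]
variable {R P C N : Type*} [AddCommGroup R] [AddCommGroup P] [AddCommGroup C] [AddCommGroup N]
variable (aR : G →* AddMonoid.End R) (aP : G →* AddMonoid.End P) (aC : G →* AddMonoid.End C)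

omit [Fintype G] in
/-- Step 1 of norm-kill: the `H`-norm `N_H ψ` of an additive map `ψ : R → C` extends to an
additive `H`-equivariant map `P → C`. -/
theorem exists_H_extension (p : ℕ) (hp : p.Prime) (ι : R →+ P) (ε : P →+ N)
    (hι : Function.Injective ι) (hε : Function.Surjective ε)
    (hex : ∀ x : P, ε x = 0 → ∃ r, ι r = x) (hιε : ∀ r, ε (ι r) = 0)
    (hιeq : ∀ g r, ι (aR g r) = aP g (ι r))
    (hεH : ∀ h ∈ H, ∀ x, ε (aP h x) = ε x)
    (hN : ∀ n : N, p • n = 0)
    (hnorm : ∀ c : C, ∃ c₀ : C, (∀ h ∈ H, aC h c₀ = c₀) ∧ ∑ h : H, aC (h : G) c = p • c₀)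
    (ψ : R →+ C) :
    ∃ k : P →+ C, (∀ h ∈ H, ∀ x, k (aP h x) = aC h (k x)) ∧
      ∀ r, k (ι r) = ∑ t : H, aC (t : G) (ψ (aR (t : G)⁻¹ r)) := by
  classical
  have hrange : ∀ x, x ∈ ι.range ↔ ε x = 0 := fun x =>
    ⟨by rintro ⟨r, rfl⟩; exact hιε r, fun hx => hex x hx⟩
  have hw_mem : ∀ (t : H) (x : P),
      (endHom (aP (t : G)⁻¹) - AddMonoidHom.id P) x ∈ ι.range := by
    intro t x
    rw [hrange, AddMonoidHom.sub_apply, map_sub, AddMonoidHom.id_apply, endHom_apply,
      hεH _ (H.inv_mem t.2), sub_self]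
  let w : H → P →+ R := fun t => liftKer ι hι _ (hw_mem t)
  have hw : ∀ (t : H) (x : P), ι (w t x) = aP (t : G)⁻¹ x - x := fun t x =>
    ι_liftKer ι hι _ (hw_mem t) x
  let a : P →+ C := ∑ t : H, (endHom (aC (t : G))).comp (ψ.comp (w t))
  have ha : ∀ x, a x = ∑ t : H, aC (t : G) (ψ (w t x)) := by
    intro x
    simp only [a, AddMonoidHom.finsetSum_apply, AddMonoidHom.comp_apply, endHom_apply]
  -- the subgroup of `H`-invariants
  let D : AddSubgroup C :=
    { carrier := {c | ∀ h ∈ H, aC h c = c}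
      add_mem' := fun {x y} hx hy h hh => by rw [map_add, hx h hh, hy h hh]
      zero_mem' := fun h _ => map_zero _
      neg_mem' := fun {x} hx h hh => by rw [map_neg, hx h hh] }
  have hnormD : ∀ c : C, ∑ t : H, aC (t : G) c ∈ D := by
    intro c h hh
    rw [map_sum]
    refine Fintype.sum_equiv (Equiv.mulLeft (⟨h, hh⟩ : H)) _ _ (fun t => ?_)
    simp only [Equiv.coe_mulLeft, Subgroup.coe_mul, act_mul]
  let NH : R →+ C := ∑ t : H, (endHom (aC (t : G))).comp ψ
  have hNH : ∀ r, NH r = ∑ t : H, aC (t : G) (ψ r) := by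
    intro r
    simp only [NH, AddMonoidHom.finsetSum_apply, AddMonoidHom.comp_apply, endHom_apply]
  let g₀ : R →+ D := NH.codRestrict D (fun r => by rw [hNH]; exact hnormD (ψ r))
  have hg₀ : ∀ r, ((g₀ r : D) : C) = ∑ t : H, aC (t : G) (ψ r) := fun r => hNH r
  have hdiv : ∀ r, ∃ d : D, p • d = g₀ r := by
    intro r
    obtain ⟨c₀, hc₀, hc⟩ := hnorm (ψ r)
    refine ⟨⟨c₀, hc₀⟩, Subtype.ext ?_⟩
    rw [hg₀, hc]
    rfl
  obtain ⟨c, hc⟩ := exists_extension_of_pTorsion_quotient p hp ι ε hι hε hex hιε hN g₀ hdiv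
  refine ⟨a + D.subtype.comp c, ?_, ?_⟩
  · intro h hh x
    let h' : H := ⟨h, hh⟩
    set v : R := w h'⁻¹ x with hv
    have hιv : ι v = aP h x - x := by
      rw [hv, hw]
      simp [h']
    have hx' : aP h x = x + ι v := by rw [hιv]; abel
    have hwt : ∀ t : H, w t (aP h x) = w (h'⁻¹ * t) x - v := by
      intro t
      apply hι
      rw [map_sub, hw, hw, hιv]
      simp only [Subgroup.coe_mul, Subgroup.coe_inv, mul_inv_rev, inv_inv, act_mul, h']
      abel
    have h1 : a (aP h x) = aC h (a x) - ∑ t : H, aC (t : G) (ψ v) := by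
      rw [ha, ha, map_sum, ← Finset.sum_sub_distrib]
      have : ∀ t : H, aC (t : G) (ψ (w t (aP h x))) =
          aC (t : G) (ψ (w (h'⁻¹ * t) x)) - aC (t : G) (ψ v) := by
        intro t
        rw [hwt, map_sub, map_sub]
      simp only [this, Finset.sum_sub_distrib]
      congr 1
      refine (Fintype.sum_equiv (Equiv.mulLeft h') _ _ (fun s => ?_)).symm
      simp only [Equiv.coe_mulLeft, Subgroup.coe_mul, act_mul, inv_mul_cancel_left, h']
    have h2 : ((c (aP h x) : D) : C) = (c x : C) + ∑ t : H, aC (t : G) (ψ v) := by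
      rw [hx', map_add, hc, AddSubgroup.coe_add, hg₀]
    have h3 : aC h ((c x : D) : C) = (c x : C) := (c x).2 h hh
    simp only [AddMonoidHom.add_apply, AddMonoidHom.comp_apply, AddSubgroup.coe_subtype, map_add]
    rw [h1, h2, h3]
    abel
  · intro r
    have hwr : ∀ t : H, w t (ι r) = aR (t : G)⁻¹ r - r := by
      intro t
      apply hι
      rw [hw, map_sub, hιeq]
    simp only [AddMonoidHom.add_apply, AddMonoidHom.comp_apply, AddSubgroup.coe_subtype]
    rw [ha, hc, hg₀]
    simp only [hwr, map_sub, Finset.sum_sub_distrib]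
    abel

/-- Step 2 of norm-kill: an additive `H`-equivariant map `k : P → C` gives the additive
`G`-equivariant map `N_{G/H} k = ∑_{σ ∈ G/H} σ k σ⁻¹`, whose restriction along an equivariant
`ι : R → P` is the `G/H`-norm of the restriction of `k`. -/
theorem exists_G_of_H (ι : R →+ P) (hιeq : ∀ g r, ι (aR g r) = aP g (ι r))
    (k : P →+ C) (hk : ∀ h ∈ H, ∀ x, k (aP h x) = aC h (k x))
    (ψ : R →+ C) (hkψ : ∀ r, k (ι r) = ∑ t : H, aC (t : G) (ψ (aR (t : G)⁻¹ r))) :
    ∃ K : P →+ C, (∀ g x, K (aP g x) = aC g (K x)) ∧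
      ∀ r, K (ι r) = ∑ g : G, aC g (ψ (aR g⁻¹ r)) := by
  classical
  let _ : Fintype (G ⧸ H) := Fintype.ofFinite _
  let K : P →+ C := ∑ q : G ⧸ H, (endHom (aC q.out)).comp (k.comp (endHom (aP q.out⁻¹)))
  have hK : ∀ x, K x = ∑ q : G ⧸ H, aC q.out (k (aP q.out⁻¹ x)) := by
    intro x
    simp only [K, AddMonoidHom.finsetSum_apply, AddMonoidHom.comp_apply, endHom_apply]
  -- right `H`-invariance of `g ↦ g k g⁻¹`
  have hinv : ∀ (x : P) (g : G), ∀ h ∈ H,
      aC (g * h) (k (aP (g * h)⁻¹ x)) = aC g (k (aP g⁻¹ x)) := by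
    intro x g h hh
    rw [mul_inv_rev, act_mul, act_mul, hk _ (H.inv_mem hh), act_act_inv]
  refine ⟨K, ?_, ?_⟩
  · intro g x
    rw [hK, hK, map_sum]
    have h1 : ∀ q : G ⧸ H, aC q.out (k (aP q.out⁻¹ (aP g x))) =
        aC g (aC (g⁻¹ * q.out) (k (aP (g⁻¹ * q.out)⁻¹ x))) := by
      intro q
      rw [← act_mul, ← act_mul, mul_inv_rev, inv_inv, mul_inv_cancel_left]
    simp only [h1]
    rw [← map_sum, ← map_sum]
    congr 1
    exact sum_quot_translate H (fun g' => aC g' (k (aP g'⁻¹ x))) (hinv x) g⁻¹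
  · intro r
    rw [hK, sum_eq_sum_quot_sum H]
    refine Finset.sum_congr rfl (fun q _ => ?_)
    rw [← hιeq, hkψ, map_sum]
    refine Finset.sum_congr rfl (fun t _ => ?_)
    rw [act_mul, mul_inv_rev, act_mul]

/-- **Norm-kill, abstract form.**  `0 → R → P → N → 0` exact, `p N = 0`, `H ≤ G` acting trivially
on `N` (through `ε`), `N_H(C) ⊆ p • C^H`.  Then for every additive `ψ : R → C` the norm
`N_G ψ = ∑_g g ψ g⁻¹` extends to an additive `G`-equivariant map `P → C`. -/
theorem normKill_core (p : ℕ) (hp : p.Prime) (ι : R →+ P) (ε : P →+ N)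
    (hι : Function.Injective ι) (hε : Function.Surjective ε)
    (hex : ∀ x : P, ε x = 0 → ∃ r, ι r = x) (hιε : ∀ r, ε (ι r) = 0)
    (hιeq : ∀ g r, ι (aR g r) = aP g (ι r))
    (hεH : ∀ h ∈ H, ∀ x, ε (aP h x) = ε x)
    (hN : ∀ n : N, p • n = 0)
    (hnorm : ∀ c : C, ∃ c₀ : C, (∀ h ∈ H, aC h c₀ = c₀) ∧ ∑ h : H, aC (h : G) c = p • c₀)
    (ψ : R →+ C) :
    ∃ K : P →+ C, (∀ g x, K (aP g x) = aC g (K x)) ∧
      ∀ r, K (ι r) = ∑ g : G, aC g (ψ (aR g⁻¹ r)) := by
  obtain ⟨k, hk, hkψ⟩ := exists_H_extension H aR aP aC p hp ι ε hι hε hex hιε hιeq hεH hN hnorm ψ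
  exact exists_G_of_H H aR aP aC ι hιeq k hk ψ hkψ

end core

end Fermat.Agent.S55.E1.H114

end
-- ===== PACK-END S55/E1/H114/NormKill.lean

-- ===== PACK-BEGIN S55/Cap/Chase.lean
section


/-!
# S55 / layer K, input A8 (CAP): the abstract capitulation chase   (helper303)

Pure algebra.  `G` a group with a level system `L`; two rows of `G`-modules

```
   M  --ι-->  E  --i-->  J            ("level U":  Ind_U μ_p, Ind_U 𝔼, Ind_U 𝕁)
   |lM        |lE        |lJ
   v          v          v
   M' --ι'--> E' --i'--> J'           ("level V")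
```

(`𝔼` = `S`-units of the maximal `S`-unramified extension, `𝕁` = `S`-idèles).  Hypotheses:
`i, i', ι'` injective, `p M = p M' = 0`, `E'[p] ⊆ ι'(M')`, `E'` `p`-divisible, smoothness,

* `h1J` : level-constant `E`-valued 1-cocycles are coboundaries in `J`   (Hilbert 90 + Shapiro);
* `hC1` : `H¹(J/E)` has no `p`-part (class module + capitulation), in cochain form;
* `hC2` : the "norm" `lJ` maps `(J/E)^G` into `p (J'/E')^G` up to a prime-to-`p` factor
          (existence theorem mod `p` + capitulation), in element form.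

Conclusion (`chase`): if a 2-cochain `c : G × G → M` becomes the coboundary of a level-constant
1-cochain in `J`, then `lM ∘ c` is the coboundary of a level-constant 1-cochain in `M'`.

Classical meaning: `cores : Ш²(G_S(K'), μ_p) → Ш²(G_S(K), μ_p)` is zero as soon as
`N_{K'/K} C_S(K') ⊆ p C_S(K)`.
-/

set_option autoImplicit false

namespace Fermat.Agent.S55.Cap

open Fermat.Agent.S55.PT

section LC

variable {G : Type} [Group G] (L : LevelSys G)

lemma isLC₁_of_comp_injective {X Y : Type} {f : G → X} (φ : X → Y)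
    (hφ : Function.Injective φ) (h : L.IsLC₁ (fun g => φ (f g))) : L.IsLC₁ f := by
  obtain ⟨U, hU, hf⟩ := h
  exact ⟨U, hU, fun g s hs => hφ (hf g s hs)⟩

lemma isLC₁_congr {X : Type} {f f' : G → X} (h : L.IsLC₁ f') (hff : ∀ g, f g = f' g) :
    L.IsLC₁ f := by
  obtain ⟨U, hU, hf⟩ := h
  exact ⟨U, hU, fun g s hs => by rw [hff, hff, hf g s hs]⟩

lemma isLC₁_map {X Y : Type} {f : G → X} (φ : X → Y) (h : L.IsLC₁ f) :
    L.IsLC₁ (fun g => φ (f g)) := by
  obtain ⟨U, hU, hf⟩ := h
  exact ⟨U, hU, fun g s hs => by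
    show φ (f (g * s)) = φ (f g)
    rw [hf g s hs]⟩

lemma isLC₁_map₂ {X Y Z : Type} {f : G → X} {f' : G → Y} (φ : X → Y → Z)
    (h : L.IsLC₁ f) (h' : L.IsLC₁ f') : L.IsLC₁ (fun g => φ (f g) (f' g)) := by
  obtain ⟨U, hU, hf⟩ := h
  obtain ⟨V, hV, hf'⟩ := h'
  obtain ⟨W, hW, hle⟩ := L.directed U hU V hV
  exact ⟨W, hW, fun g s hs => by
    show φ (f (g * s)) (f' (g * s)) = φ (f g) (f' g)
    rw [hf g s (hle hs).1, hf' g s (hle hs).2]⟩

lemma isLC₁_d0 {A : Type} [AddCommGroup A] [DistribMulAction G A] (a : A)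
    (ha : ∃ U ∈ L.levels, ∀ s ∈ U, s • a = a) : L.IsLC₁ (fun g : G => g • a - a) := by
  obtain ⟨U, hU, h⟩ := ha
  exact ⟨U, hU, fun g s hs => by
    show (g * s) • a - a = g • a - a
    rw [mul_smul, h s hs]⟩

end LC

section Chase

variable {G : Type} [Group G] (L : LevelSys G)
variable {M E J M' E' J' : Type}
  [AddCommGroup M] [AddCommGroup E] [AddCommGroup J]
  [AddCommGroup M'] [AddCommGroup E'] [AddCommGroup J']
  [DistribMulAction G E] [DistribMulAction G J]
  [DistribMulAction G M'] [DistribMulAction G E'] [DistribMulAction G J']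

/-- `d⁰ d⁰ = 0`-type identity: the coboundary of `g ↦ g a - a` vanishes. -/
lemma d1_d0 {A : Type} [AddCommGroup A] [DistribMulAction G A] (a : A) (g h : G) :
    g • (h • a - a) - ((g * h) • a - a) + (g • a - a) = 0 := by
  rw [smul_sub, mul_smul]
  abel

lemma nsmul_eq_of_mod_eq_one {A : Type} [AddCommGroup A] {p N : ℕ} (h : N % p = 1) (x : A)
    (hx : p • x = 0) : N • x = x := by
  conv_lhs => rw [← Nat.div_add_mod N p, h]
  rw [add_nsmul, mul_nsmul, one_nsmul, hx, nsmul_zero, zero_add]

/-- **The capitulation chase.** -/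
theorem chase (p : ℕ) (hp : p.Prime)
    (ι : M →+ E) (i : E →+ J) (ι' : M' →+ E') (i' : E' →+ J')
    (lM : M →+ M') (lE : E →+ E') (lJ : J →+ J')
    (hi : ∀ (g : G) (e : E), i (g • e) = g • i e)
    (hι' : ∀ (g : G) (m : M'), ι' (g • m) = g • ι' m)
    (hi' : ∀ (g : G) (e : E'), i' (g • e) = g • i' e)
    (hlE : ∀ (g : G) (e : E), lE (g • e) = g • lE e)
    (hlJ : ∀ (g : G) (x : J), lJ (g • x) = g • lJ x)
    (hιl : ∀ m : M, lE (ι m) = ι' (lM m))
    (hil : ∀ e : E, lJ (i e) = i' (lE e))
    (i_inj : Function.Injective i) (i'_inj : Function.Injective i')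
    (ι'_inj : Function.Injective ι')
    (hpM : ∀ m : M, p • m = 0) (hpM' : ∀ m : M', p • m = 0)
    (htors' : ∀ e : E', p • e = 0 → ∃ m : M', ι' m = e)
    (hdiv' : ∀ e : E', ∃ η : E', p • η = e)
    (smJ : ∀ x : J, ∃ U ∈ L.levels, ∀ s ∈ U, s • x = x)
    (smJ' : ∀ x : J', ∃ U ∈ L.levels, ∀ s ∈ U, s • x = x)
    (smE' : ∀ x : E', ∃ U ∈ L.levels, ∀ s ∈ U, s • x = x)
    (h1J : ∀ u : G → E, L.IsLC₁ u → (∀ g h, u (g * h) = u g + g • u h) →
      ∃ q : J, ∀ g, i (u g) = g • q - q)
    (hC1 : ∀ b : G → J, L.IsLC₁ b → (∀ g h, ∃ e : E, i e = g • b h - b (g * h) + b g) →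
      ∃ (m : ℕ) (q₁ : J), m.Coprime p ∧ ∀ g, ∃ e : E, i e = m • b g - (g • q₁ - q₁))
    (hC2 : ∀ q : J, (∀ g : G, ∃ e : E, i e = g • q - q) →
      ∃ (n : ℕ) (q₂ : J'), n.Coprime p ∧ (∀ g : G, ∃ e : E', i' e = g • q₂ - q₂) ∧
        ∃ ε : E', i' ε = n • lJ q - p • q₂)
    (c : G × G → M) (b : G → J) (hb : L.IsLC₁ b)
    (hcb : ∀ g h, i (ι (c (g, h))) = g • b h - b (g * h) + b g) :
    ∃ β : G → M', L.IsLC₁ β ∧ ∀ g h, lM (c (g, h)) = g • β h - β (g * h) + β g := by
  classical
  have hpιc : ∀ g h, p • ι (c (g, h)) = 0 := fun g h => by rw [← map_nsmul, hpM, map_zero]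
  -- Step 2: lift `m • b` to `E` modulo a coboundary
  obtain ⟨m, q₁, hm, hq₁⟩ := hC1 b hb (fun g h => ⟨ι (c (g, h)), hcb g h⟩)
  choose bE hbE using hq₁
  have bE_LC : L.IsLC₁ bE := by
    apply isLC₁_of_comp_injective L i i_inj
    refine isLC₁_congr L (f' := fun g => m • b g - (g • q₁ - q₁)) ?_ hbE
    exact isLC₁_map₂ L (fun x y => m • x - y) hb (isLC₁_d0 L q₁ (smJ q₁))
  have dbE : ∀ g h, g • bE h - bE (g * h) + bE g = m • ι (c (g, h)) := by
    intro g h
    apply i_inj
    rw [map_add, map_sub, hi, hbE, hbE, hbE, map_nsmul, hcb]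
    simp only [smul_sub, smul_add, mul_smul, smul_comm g m]
    abel
  -- Step 3: divide by `m` modulo `p`
  obtain ⟨m', -, hm'⟩ := Nat.exists_mul_mod_eq_one_of_coprime hm hp.one_lt
  have db' : ∀ g h, g • (m' • bE h) - m' • bE (g * h) + m' • bE g = ι (c (g, h)) := by
    intro g h
    have h1 : g • (m' • bE h) - m' • bE (g * h) + m' • bE g
        = m' • (g • bE h - bE (g * h) + bE g) := by
      simp only [smul_sub, smul_add, smul_comm g m']
    rw [h1, dbE, ← mul_nsmul, nsmul_eq_of_mod_eq_one hm' _ (hpιc g h)]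
  -- Step 4: `u = p • b'` is a cocycle in `E`, hence a coboundary in `J`
  have hu_coc : ∀ g h, p • (m' • bE (g * h)) = p • (m' • bE g) + g • (p • (m' • bE h)) := by
    intro g h
    have h1 : p • (g • (m' • bE h) - m' • bE (g * h) + m' • bE g) = 0 := by
      rw [db', hpιc]
    have h2 : g • (p • (m' • bE h)) = p • (g • (m' • bE h)) := smul_comm g p _
    rw [h2]
    rw [smul_add, smul_sub, sub_add_eq_add_sub, sub_eq_zero] at h1
    rw [← h1]
    abel
  have hu_LC : L.IsLC₁ (fun g => p • (m' • bE g)) :=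
    isLC₁_map L (fun x => p • (m' • x)) bE_LC
  obtain ⟨q, hq⟩ := h1J (fun g => p • (m' • bE g)) hu_LC hu_coc
  -- Step 5: the norm step
  obtain ⟨n, q₂, hn, hq₂, ε, hε⟩ := hC2 q (fun g => ⟨p • (m' • bE g), hq g⟩)
  choose w hw using hq₂
  have w_LC : L.IsLC₁ w := by
    apply isLC₁_of_comp_injective L i' i'_inj
    exact isLC₁_congr L (isLC₁_d0 L q₂ (smJ' q₂)) hw
  have dw : ∀ g h, g • w h - w (g * h) + w g = 0 := by
    intro g h
    apply i'_inj
    rw [map_add, map_sub, hi', hw, hw, hw, map_zero]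
    exact d1_d0 q₂ g h
  obtain ⟨η, hη⟩ := hdiv' ε
  have key : ∀ g, p • (n • lE (m' • bE g) - w g - (g • η - η)) = 0 := by
    intro g
    apply i'_inj
    have h1 : p • i' (lE (m' • bE g)) = g • lJ q - lJ q := by
      rw [← hil, ← map_nsmul, ← map_nsmul, hq g, map_sub, hlJ]
    have h3 : p • i' η = n • lJ q - p • q₂ := by rw [← map_nsmul, hη, hε]
    rw [map_zero, map_nsmul, map_sub, map_sub, map_sub, map_nsmul, hi', hw]
    have h4 : p • (n • i' (lE (m' • bE g)) - (g • q₂ - q₂) - (g • i' η - i' η))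
        = n • (p • i' (lE (m' • bE g))) - (g • (p • q₂) - p • q₂)
          - (g • (p • i' η) - p • i' η) := by
      simp only [smul_sub, smul_comm g p, smul_comm p n]
    rw [h4, h1, h3]
    simp only [smul_sub, smul_comm g n, smul_comm g p]
    abel
  choose β₀ hβ₀ using fun g => htors' _ (key g)
  have β₀_LC : L.IsLC₁ β₀ := by
    apply isLC₁_of_comp_injective L ι' ι'_inj
    refine isLC₁_congr L (f' := fun g => (n • lE (m' • bE g) - w g) - (g • η - η)) ?_ hβ₀
    refine isLC₁_map₂ L (fun x y => x - y) ?_ (isLC₁_d0 L η (smE' η))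
    exact isLC₁_map₂ L (fun x y => n • lE (m' • x) - y) bE_LC w_LC
  have dβ₀ : ∀ g h, g • β₀ h - β₀ (g * h) + β₀ g = n • lM (c (g, h)) := by
    intro g h
    apply ι'_inj
    have hR : ι' (n • lM (c (g, h)))
        = n • (g • lE (m' • bE h) - lE (m' • bE (g * h)) + lE (m' • bE g)) := by
      rw [map_nsmul, ← hιl, ← db' g h, map_add, map_sub, hlE]
    rw [map_add, map_sub, hι', hβ₀, hβ₀, hβ₀, hR]
    have hw0 := dw g h
    have hη0 := d1_d0 η g h
    have e1 : g • (n • lE (m' • bE h) - w h - (h • η - η))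
          - (n • lE (m' • bE (g * h)) - w (g * h) - ((g * h) • η - η))
          + (n • lE (m' • bE g) - w g - (g • η - η))
        = n • (g • lE (m' • bE h) - lE (m' • bE (g * h)) + lE (m' • bE g))
          - (g • w h - w (g * h) + w g)
          - (g • (h • η - η) - ((g * h) • η - η) + (g • η - η)) := by
      simp only [smul_sub, smul_add, smul_comm g n]
      abel
    rw [e1, hw0, hη0, sub_zero, sub_zero]
  obtain ⟨n', -, hn'⟩ := Nat.exists_mul_mod_eq_one_of_coprime hn hp.one_lt
  refine ⟨fun g => n' • β₀ g, isLC₁_map L (fun x => n' • x) β₀_LC, fun g h => ?_⟩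
  have h1 : g • (n' • β₀ h) - n' • β₀ (g * h) + n' • β₀ g
      = n' • (g • β₀ h - β₀ (g * h) + β₀ g) := by
    simp only [smul_sub, smul_add, smul_comm g n']
  show lM (c (g, h)) = g • (n' • β₀ h) - n' • β₀ (g * h) + n' • β₀ g
  rw [h1, dβ₀, ← mul_nsmul, nsmul_eq_of_mod_eq_one hn' _ (hpM' _)]

end Chase

end Fermat.Agent.S55.Cap

end
-- ===== PACK-END S55/Cap/Chase.lean

-- ===== PACK-BEGIN S55/E1/H594/LevelField.lean
section
/-
S55 / engine E1 / G-ADAPTER leaf LVL (helper594), part 1.

A tower level `L : Tow.Level S` (frozen `Spec/Tower.lean`) as INPUT of layer G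
(`G/Defs.lean`, `G/Spec.lean`): the field `L.F` is a number field, Galois over `ℚ`, and the
finite-level group `L.Gal = G_ℚ ⧸ U_F` acts on it faithfully by field automorphisms, with
`IsGaloisGroup L.Gal ℚ L.F`.

Conventions: everything is a `theorem`/`def`; the instances are `scoped`
(activate with `open Fermat.Agent.S55.E1.H594`).  No `sorry`.
-/



set_option autoImplicit false
set_option linter.unusedSectionVars false
set_option linter.style.haveILetI false

namespace Fermat.Agent.S55.E1.H594

open Fermat.Agent.S55 Fermat.Agent.S55.Tow Fermat.Agent.S55.Bridge NumberField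

attribute [local instance] isAlgebraic_Qbar isGalois_Qbar

noncomputable section

variable {S : Finset Nat.Primes} (L : Level S)

/-- A level is finite over `ℚ`. -/
theorem level_finiteDimensional : FiniteDimensional ℚ L.F := L.unram.1

/-- A level is Galois over `ℚ`. -/
theorem level_isGalois : IsGalois ℚ L.F :=
  (InfiniteGalois.normal_iff_isGalois L.F).1 L.normalU

/-- A level is a number field. -/
theorem level_numberField : NumberField L.F :=
  haveI := level_finiteDimensional L
  { to_charZero := inferInstance, to_finiteDimensional := inferInstance }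

scoped instance instFiniteDimensionalLevel : FiniteDimensional ℚ L.F := level_finiteDimensional L
scoped instance instIsGaloisLevel : IsGalois ℚ L.F := level_isGalois L
scoped instance instNumberFieldLevel : NumberField L.F := level_numberField L

/-- Restriction `G_ℚ → Gal(F/ℚ)`. -/
def levelRestrict : _root_.Fermat.Agent.S55.Tow.GQ →* (L.F ≃ₐ[ℚ] L.F) := AlgEquiv.restrictNormalHom L.F

theorem levelRestrict_apply (σ : _root_.Fermat.Agent.S55.Tow.GQ) (x : L.F) :
    ((levelRestrict L σ x : L.F) : Qbar) = σ (x : Qbar) :=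
  AlgEquiv.restrictNormal_commutes σ L.F x

theorem levelRestrict_ker : (levelRestrict L).ker = L.U := by
  ext σ
  rw [MonoidHom.mem_ker]
  change _ ↔ σ ∈ L.F.fixingSubgroup
  rw [IntermediateField.mem_fixingSubgroup_iff]
  constructor
  · intro h x hx
    have := levelRestrict_apply L σ ⟨x, hx⟩
    rw [h] at this
    exact this.symm
  · intro h
    ext x
    rw [levelRestrict_apply]
    exact h x x.2

theorem levelRestrict_surjective : Function.Surjective (levelRestrict L) :=
  AlgEquiv.restrictNormalHom_surjective (F := ℚ) (K₁ := L.F) Qbar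

/-- The isomorphism `L.Gal = G_ℚ ⧸ U_F ≃* Gal(F/ℚ)`. -/
def levelGalEquiv : L.Gal ≃* (L.F ≃ₐ[ℚ] L.F) :=
  (QuotientGroup.quotientMulEquivOfEq (levelRestrict_ker L).symm).trans
    (QuotientGroup.quotientKerEquivOfSurjective (levelRestrict L) (levelRestrict_surjective L))

theorem levelGalEquiv_mk (σ : _root_.Fermat.Agent.S55.Tow.GQ) :
    levelGalEquiv L (QuotientGroup.mk σ : L.Gal) = levelRestrict L σ := rfl

/-- The action of `L.Gal` on the field `L.F` (a definition; `scoped instance` below). -/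
@[reducible] def levelAction : MulSemiringAction L.Gal L.F :=
  MulSemiringAction.compHom L.F (levelGalEquiv L).toMonoidHom

scoped instance instMulSemiringActionLevel : MulSemiringAction L.Gal L.F := levelAction L

theorem level_smul_def (g : L.Gal) (x : L.F) : g • x = levelGalEquiv L g x := rfl

theorem level_mk_smul (σ : _root_.Fermat.Agent.S55.Tow.GQ) (x : L.F) :
    (((QuotientGroup.mk σ : L.Gal) • x : L.F) : Qbar) = σ (x : Qbar) :=
  levelRestrict_apply L σ x

theorem level_faithfulSMul : FaithfulSMul L.Gal L.F :=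
  ⟨fun H => (levelGalEquiv L).injective (AlgEquiv.ext H)⟩

scoped instance instFaithfulSMulLevel : FaithfulSMul L.Gal L.F := level_faithfulSMul L

theorem level_isGaloisGroup : IsGaloisGroup L.Gal ℚ L.F :=
  IsGaloisGroup.of_mulEquiv (levelGalEquiv L) (fun _ _ => rfl)

scoped instance instIsGaloisGroupLevel : IsGaloisGroup L.Gal ℚ L.F := level_isGaloisGroup L

theorem level_finite_gal : Finite L.Gal :=
  Finite.of_equiv _ (levelGalEquiv L).symm.toEquiv

scoped instance instFiniteLevelGal : Finite L.Gal := level_finite_gal L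

theorem level_card_gal : Nat.card L.Gal = Module.finrank ℚ L.F := by
  rw [Nat.card_congr (levelGalEquiv L).toEquiv]
  exact IsGalois.card_aut_eq_finrank ℚ L.F

end

end Fermat.Agent.S55.E1.H594

end
-- ===== PACK-END S55/E1/H594/LevelField.lean

-- ===== PACK-BEGIN S55/G/LocH897/AlgEv.lean
section


/-!
# S55 / layer G (helper897): semi-local decomposition along evaluation maps

Abstract form of the bridge between the tensor model `(L ⊗ ℚ_S)ˣ` and the tower model
`∏_q Coind_{D_q}^{G} F_qˣ`.

`R` reduced Artinian with an action `φ` of `G`; for each `i : ι` an evaluation `ev i : R →+* Ω i`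
into a domain, a "local group" `T i` with `loc i : T i →* G` acting on `Ω i` (`act i`), such that
* `ev i (φ (loc i τ) r) = act i τ (ev i r)`                                  (equivariance);
* every `s : G` stabilising `ker (ev i)` is of the form `loc i τ`            (decomposition);
* every maximal ideal of `R` is `(φ g)⁻¹ (ker (ev i))` for a unique `i`      (orbits).
Then every family `f i : G → Ω i` with values in the range of `ev i` and
`f i (loc i τ * g) = act i τ (f i g)` is `g ↦ ev i (φ g b)` for a unique `b : R`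
(`existsUnique_ev`), and `b` is a unit if all `f i g` are nonzero (`existsUnique_ev_units`).
-/

set_option autoImplicit false
set_option linter.style.haveILetI false

namespace Fermat.Agent.S55.G.LocH897

variable {G R : Type} [Group G] [CommRing R] (φ : G →* (R ≃+* R))
  [IsArtinianRing R] [IsReduced R]
  {ι : Type} {Ω : ι → Type} [∀ i, CommRing (Ω i)] [∀ i, IsDomain (Ω i)]
  (ev : ∀ i, R →+* Ω i)
  {T : ι → Type} [∀ i, Group (T i)] (loc : ∀ i, T i →* G) (act : ∀ i, T i → Ω i → Ω i)

theorem existsUnique_ev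
    (hequiv : ∀ i (τ : T i) (r : R), ev i (φ (loc i τ) r) = act i τ (ev i r))
    (hdec : ∀ i (s : G), (∀ x, ev i (φ s x) = 0 ↔ ev i x = 0) → ∃ τ : T i, loc i τ = s)
    (hcover : ∀ 𝔫 : Ideal R, 𝔫.IsMaximal → ∃ i g, ∀ x, x ∈ 𝔫 ↔ ev i (φ g x) = 0)
    (hdisj : ∀ i j g, (∀ x, ev j x = 0 ↔ ev i (φ g x) = 0) → i = j)
    (f : ∀ i, G → Ω i) (hrange : ∀ i g, ∃ r : R, ev i r = f i g)
    (hf : ∀ i (τ : T i) g, f i (loc i τ * g) = act i τ (f i g)) :
    ∃! b : R, ∀ i g, ev i (φ g b) = f i g := by
  classical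
  have huniq : ∀ b b' : R, (∀ i g, ev i (φ g b) = f i g) →
      (∀ i g, ev i (φ g b') = f i g) → b = b' := by
    intro b b' hb hb'
    rw [← sub_eq_zero]
    apply eq_zero_of_forall_mem_maximal
    intro 𝔫 h𝔫
    obtain ⟨i, g, hig⟩ := hcover 𝔫 h𝔫
    rw [hig, map_sub, map_sub, hb, hb', sub_self]
  choose ci cg hc using hcover
  choose r hr using hrange
  obtain ⟨b, hb⟩ := exists_forall_sub_mem_maximal
    (fun 𝔫 h𝔫 => φ (cg 𝔫 h𝔫)⁻¹ (r (ci 𝔫 h𝔫) (cg 𝔫 h𝔫)))
  have key : ∀ 𝔫 : Ideal R, 𝔫.IsMaximal → ∃ j g, (∀ x, x ∈ 𝔫 ↔ ev j (φ g x) = 0) ∧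
      ev j (φ g b) = f j g := by
    intro 𝔫 h𝔫
    refine ⟨ci 𝔫 h𝔫, cg 𝔫 h𝔫, hc 𝔫 h𝔫, ?_⟩
    rw [← hr]
    have h1 := (hc 𝔫 h𝔫 _).1 (hb 𝔫 h𝔫)
    rwa [map_sub, apply_apply_inv φ, map_sub, sub_eq_zero] at h1
  have hbprop : ∀ i g, ev i (φ g b) = f i g := by
    intro i g'
    have hmax : (Ideal.comap ((φ g' : R ≃+* R) : R →+* R) (RingHom.ker (ev i))).IsMaximal := by
      haveI : (RingHom.ker (ev i)).IsPrime := RingHom.ker_isPrime (ev i)
      haveI : (RingHom.ker (ev i)).IsMaximal := IsArtinianRing.isMaximal_of_isPrime _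
      exact Ideal.comap_isMaximal_of_surjective _ (φ g').surjective
    obtain ⟨j, g, hjg, hval⟩ := key _ hmax
    have hmem : ∀ x, ev i (φ g' x) = 0 ↔ ev j (φ g x) = 0 := fun x => by
      rw [← hjg x]; rfl
    obtain rfl : j = i := by
      refine hdisj j i (g * g'⁻¹) fun y => ?_
      rw [map_mul, RingAut.mul_apply, ← hmem, apply_apply_inv φ]
    obtain ⟨τ, hτ⟩ := hdec j (g' * g⁻¹) (fun y => by
      rw [map_mul, RingAut.mul_apply, hmem, apply_apply_inv φ])
    have hg' : g' = loc j τ * g := by rw [hτ]; simp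
    rw [hg', hf, ← hval, map_mul, RingAut.mul_apply, hequiv]
  exact ⟨b, hbprop, fun b' hb' => huniq b' b hb' hbprop⟩

/-- Unit version: if all the `f i g` are nonzero, the element `b` is a unit. -/
theorem existsUnique_ev_units
    (hequiv : ∀ i (τ : T i) (r : R), ev i (φ (loc i τ) r) = act i τ (ev i r))
    (hdec : ∀ i (s : G), (∀ x, ev i (φ s x) = 0 ↔ ev i x = 0) → ∃ τ : T i, loc i τ = s)
    (hcover : ∀ 𝔫 : Ideal R, 𝔫.IsMaximal → ∃ i g, ∀ x, x ∈ 𝔫 ↔ ev i (φ g x) = 0)
    (hdisj : ∀ i j g, (∀ x, ev j x = 0 ↔ ev i (φ g x) = 0) → i = j)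
    (f : ∀ i, G → Ω i) (hrange : ∀ i g, ∃ r : R, ev i r = f i g)
    (hf : ∀ i (τ : T i) g, f i (loc i τ * g) = act i τ (f i g))
    (hne : ∀ i g, f i g ≠ 0) :
    ∃! b : Rˣ, ∀ i g, ev i (φ g (b : R)) = f i g := by
  obtain ⟨b, hb, hbu⟩ := existsUnique_ev φ ev loc act hequiv hdec hcover hdisj f hrange hf
  have hunit : IsUnit b := by
    by_contra hnu
    obtain ⟨𝔫, h𝔫, hb𝔫⟩ := exists_max_ideal_of_mem_nonunits hnu
    obtain ⟨i, g, hig⟩ := hcover 𝔫 h𝔫
    exact hne i g ((hb i g).symm.trans ((hig b).1 hb𝔫))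
  refine ⟨hunit.unit, fun i g => hb i g, fun u hu => ?_⟩
  exact Units.ext (hbu (u : R) hu)

end Fermat.Agent.S55.G.LocH897

end
-- ===== PACK-END S55/G/LocH897/AlgEv.lean

-- ===== PACK-BEGIN S55/G/DescH537/Tensor.lean
section
/-
S55, layer G, leaf G-DESC (Galois descent for the `S`-idèle class group), helper537.
Part 1: base change `𝔸_S(K) → 𝔸_S(L)` and Galois invariants of `𝔸_S(L)` and of `J_S(L)`.

`K ⊂ L` fields of characteristic `0`, `G` a finite group with `IsGaloisGroup G K L`.
* `asBC K L S : AS S K →ₐ[ℚ] AS S L` (injective), `asAut_asBC` (image is `G`-invariant);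
* `exists_asBC_eq_of_invariant` : `(L ⊗ ℚ_S)^G = K ⊗ ℚ_S`;
* `jBC K L S : J_S(K) → J_S(L)` (additive), `jBC_injective`, `exists_jBC_eq_of_invariant`.
-/



set_option autoImplicit false

open scoped TensorProduct

noncomputable section

namespace Fermat.Agent.S55.G.DescH537

section Tensor

variable (G K L : Type) [Group G] [Field K] [Field L] [Algebra K L]
  [CharZero K] [CharZero L] [MulSemiringAction G L]
variable (S : Finset Nat.Primes)

/-- The inclusion `K → L` as a `ℚ`-algebra homomorphism. -/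
def ratIncl : K →ₐ[ℚ] L := (algebraMap K L).toRatAlgHom

@[simp] lemma ratIncl_apply (x : K) : ratIncl K L x = algebraMap K L x := rfl

/-- Base change of `S`-adèles `𝔸_S(K) = K ⊗ ℚ_S → L ⊗ ℚ_S = 𝔸_S(L)`. -/
def asBC : AS S K →ₐ[ℚ] AS S L := Algebra.TensorProduct.map (ratIncl K L) (AlgHom.id ℚ (QS S))

@[simp] lemma asBC_tmul (x : K) (y : QS S) :
    asBC K L S (x ⊗ₜ[ℚ] y) = algebraMap K L x ⊗ₜ[ℚ] y := by
  simp [asBC]

lemma asBC_asDiag (x : K) : asBC K L S (asDiag S K x) = asDiag S L (algebraMap K L x) := by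
  simp

lemma asBC_injective : Function.Injective (asBC K L S) := by
  have h : Function.Injective ((ratIncl K L).toLinearMap.rTensor (QS S)) :=
    Module.Flat.rTensor_preserves_injective_linearMap _ (algebraMap K L).injective
  intro a b hab
  apply h
  have key : ∀ z : AS S K, (ratIncl K L).toLinearMap.rTensor (QS S) z = asBC K L S z := by
    intro z
    induction z using TensorProduct.induction_on with
    | zero => simp
    | tmul x y => simp
    | add a b ha hb => simp only [map_add, ha, hb]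
  rw [key, key, hab]

variable [IsGaloisGroup G K L]

lemma asAut_asBC (g : G) (z : AS S K) : asAut S G L g (asBC K L S z) = asBC K L S z := by
  induction z using TensorProduct.induction_on with
  | zero => simp
  | tmul x y => simp [smul_algebraMap]
  | add a b ha hb => simp only [map_add, ha, hb]

lemma sum_asAut_mem_range [Fintype G] (z : AS S L) :
    ∃ y : AS S K, asBC K L S y = ∑ g : G, asAut S G L g z := by
  induction z using TensorProduct.induction_on with
  | zero => exact ⟨0, by simp⟩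
  | tmul x n =>
    have hinv : ∀ h : G, h • (∑ g : G, g • x) = ∑ g : G, g • x := by
      intro h
      rw [Finset.smul_sum]
      exact Fintype.sum_equiv (Equiv.mulLeft h) _ _ (fun g => by simp [mul_smul])
    obtain ⟨k, hk⟩ := Algebra.IsInvariant.isInvariant (A := K) (∑ g : G, g • x) hinv
    refine ⟨k ⊗ₜ[ℚ] n, ?_⟩
    rw [asBC_tmul, hk, TensorProduct.sum_tmul]
    simp
  | add a b ha hb =>
    obtain ⟨ya, hya⟩ := ha
    obtain ⟨yb, hyb⟩ := hb
    exact ⟨ya + yb, by simp [hya, hyb, Finset.sum_add_distrib]⟩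

variable [Finite G]

/-- **Galois invariants of the `S`-adèles**: `(L ⊗ ℚ_S)^G = K ⊗ ℚ_S`. -/
theorem exists_asBC_eq_of_invariant (z : AS S L) (hz : ∀ g : G, asAut S G L g z = z) :
    ∃ y : AS S K, asBC K L S y = z := by
  classical
  let _ : Fintype G := Fintype.ofFinite G
  obtain ⟨y, hy⟩ := sum_asAut_mem_range G K L S z
  have hsum : ∑ g : G, asAut S G L g z = (Fintype.card G : ℚ) • z := by
    simp [hz, Finset.sum_const, Finset.card_univ, Nat.cast_smul_eq_nsmul]
  refine ⟨((Fintype.card G : ℚ)⁻¹) • y, ?_⟩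
  rw [map_smul, hy, hsum, smul_smul, inv_mul_cancel₀, one_smul]
  exact Nat.cast_ne_zero.2 Fintype.card_ne_zero

end Tensor

section Units

variable (G K L : Type) [Group G] [Field K] [Field L] [Algebra K L]
  [CharZero K] [CharZero L] [MulSemiringAction G L]
variable (S : Finset Nat.Primes)

/-- Base change of units `Kˣ → Lˣ`, additively. -/
def unitsBC : Additive Kˣ →+ Additive Lˣ :=
  MonoidHom.toAdditive (Units.map ((algebraMap K L : K →+* L) : K →* L))

omit [CharZero K] [CharZero L] in
lemma coe_unitsBC_apply (x : Additive Kˣ) :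
    (((unitsBC K L x).toMul : Lˣ) : L) = algebraMap K L ((x.toMul : Kˣ) : K) := rfl

omit [CharZero K] [CharZero L] in
lemma unitsBC_injective : Function.Injective (unitsBC K L) := by
  intro a b hab
  apply Additive.toMul.injective
  apply Units.ext
  apply (algebraMap K L).injective
  rw [← coe_unitsBC_apply, ← coe_unitsBC_apply, hab]

/-- Base change of `S`-idèles `J_S(K) → J_S(L)`, additively. -/
def jBC : Additive (AS S K)ˣ →+ Additive (AS S L)ˣ :=
  MonoidHom.toAdditive (Units.map ((asBC K L S : AS S K →ₐ[ℚ] AS S L) : AS S K →* AS S L))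

lemma coe_jBC_apply (x : Additive (AS S K)ˣ) :
    (((jBC K L S x).toMul : (AS S L)ˣ) : AS S L) =
      asBC K L S ((x.toMul : (AS S K)ˣ) : AS S K) := rfl

lemma jBC_injective : Function.Injective (jBC K L S) := by
  intro a b hab
  apply Additive.toMul.injective
  apply Units.ext
  apply asBC_injective K L S
  rw [← coe_jBC_apply, ← coe_jBC_apply, hab]

lemma jBC_unitsDiag (x : Additive Kˣ) :
    jBC K L S (unitsDiag S K x) = unitsDiag S L (unitsBC K L x) := by
  apply Additive.toMul.injective
  apply Units.ext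
  rw [coe_jBC_apply, coe_unitsDiag_apply, coe_unitsDiag_apply, coe_unitsBC_apply, asBC_asDiag]

variable [IsGaloisGroup G K L]

omit [CharZero K] [CharZero L] in
lemma lRepr_unitsBC (g : G) (x : Additive Kˣ) :
    lRepr G L g (unitsBC K L x) = unitsBC K L x := by
  apply Additive.toMul.injective
  apply Units.ext
  rw [coe_lRepr_apply, coe_unitsBC_apply, smul_algebraMap]

lemma jRepr_jBC (g : G) (x : Additive (AS S K)ˣ) :
    jRepr G S L g (jBC K L S x) = jBC K L S x := by
  apply Additive.toMul.injective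
  apply Units.ext
  rw [coe_jRepr_apply, coe_jBC_apply, asAut_asBC]

omit [CharZero K] [CharZero L] in
/-- Galois invariants of `Lˣ`. -/
theorem exists_unitsBC_eq_of_invariant (u : Additive Lˣ) (hu : ∀ g : G, lRepr G L g u = u) :
    ∃ y : Additive Kˣ, unitsBC K L y = u := by
  have hinv : ∀ g : G, g • ((u.toMul : Lˣ) : L) = ((u.toMul : Lˣ) : L) := by
    intro g
    rw [← coe_lRepr_apply, hu]
  obtain ⟨k, hk⟩ := Algebra.IsInvariant.isInvariant (A := K) ((u.toMul : Lˣ) : L) hinv
  have hk0 : k ≠ 0 := by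
    rintro rfl
    rw [map_zero] at hk
    exact (Units.ne_zero (u.toMul : Lˣ)) hk.symm
  refine ⟨Additive.ofMul (Units.mk0 k hk0), ?_⟩
  apply Additive.toMul.injective
  apply Units.ext
  rw [coe_unitsBC_apply]
  exact hk

variable [Finite G]

/-- **Galois invariants of the `S`-idèles**: `J_S(L)^G = J_S(K)`. -/
theorem exists_jBC_eq_of_invariant (u : Additive (AS S L)ˣ)
    (hu : ∀ g : G, jRepr G S L g u = u) : ∃ y : Additive (AS S K)ˣ, jBC K L S y = u := by
  have h1 : ∀ g : G, asAut S G L g ((u.toMul : (AS S L)ˣ) : AS S L) =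
      ((u.toMul : (AS S L)ˣ) : AS S L) := by
    intro g
    rw [← coe_jRepr_apply, hu]
  have h2 : ∀ g : G, asAut S G L g (((u.toMul)⁻¹ : (AS S L)ˣ) : AS S L) =
      (((u.toMul)⁻¹ : (AS S L)ˣ) : AS S L) := by
    intro g
    have hu' : jRepr G S L g (-u) = -u := by rw [map_neg, hu]
    rw [← toMul_neg, ← coe_jRepr_apply, hu']
  obtain ⟨a, ha⟩ := exists_asBC_eq_of_invariant G K L S _ h1
  obtain ⟨b, hb⟩ := exists_asBC_eq_of_invariant G K L S _ h2
  have hab : a * b = 1 := by
    apply asBC_injective K L S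
    rw [map_mul, ha, hb, map_one, Units.mul_inv]
  have hba : b * a = 1 := by rw [mul_comm, hab]
  refine ⟨Additive.ofMul ⟨a, b, hab, hba⟩, ?_⟩
  apply Additive.toMul.injective
  apply Units.ext
  rw [coe_jBC_apply]
  exact ha

end Units

end Fermat.Agent.S55.G.DescH537

end
end
-- ===== PACK-END S55/G/DescH537/Tensor.lean

-- ===== PACK-BEGIN S55/G/Exist121/Count.lean
section


/-!
# S55, layer G, block EXIST: the counting argument of the existence theorem mod `p`

Pure algebra, Mathlib only.  Author: helper121.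

With the notation of `Index.lean` (`C = (J × I)/X`, `E = ker d`, `V = d⁻¹(pI)`, `Sha`):
if
* `[J : pJ] = [E : pE]²`  (local power index + `S`-unit theorem; `F ∋ μ_p` totally complex),
* `[Sha : pX] ≤ [I : dX + pI]`  (the everywhere unramified, `S`-split Kummer extension
  `F(Sha^{1/p})` has degree at most `|Cl_S / p|`: reciprocity for that extension),
* `N ⊆ J × I` is a subgroup containing `X + p(J × I)` with `[J × I : N] = [V : pX]`
  (`N` = preimage of the norm group of `F' = F(V^{1/p})`: reciprocity isomorphism + Kummer degree),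

then `N = X + p (J × I)`, i.e. the norm group of `F'` is exactly `p C(F)`.
-/

set_option autoImplicit false

namespace Fermat.Agent.S55.G.Exist121

variable {X J I : Type*} [AddCommGroup X] [AddCommGroup J] [AddCommGroup I]
variable (ι : X →+ J) (d : X →+ I) (p : ℕ)

/-- Two nested subgroups of the same finite index coincide. -/
lemma eq_of_le_of_index_le {A : Type*} [AddCommGroup A] {H K : AddSubgroup A} (hle : H ≤ K)
    (hH : H.index ≠ 0) (hidx : H.index ≤ K.index) : H = K := by
  have h1 : H.relIndex K * K.index = H.index := AddSubgroup.relIndex_mul_index hle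
  have hK : K.index ≠ 0 := fun h0 => hH (by rw [← h1, h0, mul_zero])
  have hr : H.relIndex K ≠ 0 := fun h0 => hH (by rw [← h1, h0, zero_mul])
  have hr1 : H.relIndex K = 1 := by
    by_contra hne
    have h2 : 2 ≤ H.relIndex K := by omega
    have : 2 * K.index ≤ H.index := by
      rw [← h1]; exact Nat.mul_le_mul_right _ h2
    omega
  exact le_antisymm hle (AddSubgroup.relIndex_eq_one.mp hr1)

/-- `[C : pC] = [E : pE] * [Sha : pX]` when `[J : pJ] = [E : pE]²` (finite, nonzero). -/
theorem index_classP_eq (hI : ∀ i : I, p • i = 0 → i = 0) (hfin : d.range.index ≠ 0)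
    (hE : (pKer d p).relIndex d.ker ≠ 0)
    (hJ : (pMul J p).index = (pKer d p).relIndex d.ker ^ 2) :
    (classP ι d p).index = (pKer d p).relIndex d.ker * (pMul X p).relIndex (sha ι d p) := by
  have h := index_identity ι d p hI hfin
  rw [hJ, pow_two, mul_assoc] at h
  have h' : (pKer d p).relIndex d.ker * (classP ι d p).index =
      (pKer d p).relIndex d.ker *
        ((pKer d p).relIndex d.ker * (pMul X p).relIndex (sha ι d p)) := by
    rw [mul_comm, h]
  exact Nat.eq_of_mul_eq_mul_left (Nat.pos_of_ne_zero hE) h'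

/-- `[C : pC] ≤ [V : pX]` under the numerical hypotheses. -/
theorem index_classP_le (hI : ∀ i : I, p • i = 0 → i = 0) (hfin : d.range.index ≠ 0)
    (hE : (pKer d p).relIndex d.ker ≠ 0)
    (hJ : (pMul J p).index = (pKer d p).relIndex d.ker ^ 2)
    (hSha : (pMul X p).relIndex (sha ι d p) ≤ (d.range ⊔ pMul I p).index) :
    (classP ι d p).index ≤ (pMul X p).relIndex (selV d p) := by
  rw [index_classP_eq ι d p hI hfin hE hJ, relIndex_pMul_selV' d p hI hfin]
  exact Nat.mul_le_mul_left _ hSha

/-- `[C : pC] ≠ 0` under the numerical hypotheses (`C / pC` is finite). -/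
theorem index_classP_ne_zero (hfin : d.range.index ≠ 0)
    (hE : (pKer d p).relIndex d.ker ≠ 0)
    (hJ : (pMul J p).index = (pKer d p).relIndex d.ker ^ 2) :
    (classP ι d p).index ≠ 0 := by
  rw [index_classP ι d p]
  have h1 : (d.range ⊔ pMul I p).index ≠ 0 := by
    intro h0
    have := AddSubgroup.relIndex_mul_index (le_sup_left : d.range ≤ d.range ⊔ pMul I p)
    rw [h0, mul_zero] at this
    exact hfin this.symm
  have h2 : (pMul J p ⊔ (selV d p).map ι).index ≠ 0 := by
    intro h0
    have := AddSubgroup.relIndex_mul_index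
      (le_sup_left : pMul J p ≤ pMul J p ⊔ (selV d p).map ι)
    rw [h0, mul_zero, hJ] at this
    exact (pow_ne_zero 2 hE) this.symm
  exact Nat.mul_ne_zero h1 h2

/-- **Counting form of the existence theorem mod `p`.**  A subgroup `N ⊇ X + p(J × I)` of index
`[V : pX]` is equal to `X + p(J × I)`. -/
theorem eq_classP_of_index (hI : ∀ i : I, p • i = 0 → i = 0) (hfin : d.range.index ≠ 0)
    (hE : (pKer d p).relIndex d.ker ≠ 0)
    (hJ : (pMul J p).index = (pKer d p).relIndex d.ker ^ 2)
    (hSha : (pMul X p).relIndex (sha ι d p) ≤ (d.range ⊔ pMul I p).index)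
    (N : AddSubgroup (J × I)) (hN : classP ι d p ≤ N)
    (hNidx : N.index = (pMul X p).relIndex (selV d p)) :
    classP ι d p = N :=
  eq_of_le_of_index_le hN (index_classP_ne_zero ι d p hfin hE hJ)
    (hNidx ▸ index_classP_le ι d p hI hfin hE hJ hSha)

/-- Variant: it suffices to know `[J × I : N] ≥ [V : pX]`. -/
theorem eq_classP_of_le_index (hI : ∀ i : I, p • i = 0 → i = 0) (hfin : d.range.index ≠ 0)
    (hE : (pKer d p).relIndex d.ker ≠ 0)
    (hJ : (pMul J p).index = (pKer d p).relIndex d.ker ^ 2)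
    (hSha : (pMul X p).relIndex (sha ι d p) ≤ (d.range ⊔ pMul I p).index)
    (N : AddSubgroup (J × I)) (hN : classP ι d p ≤ N)
    (hNidx : (pMul X p).relIndex (selV d p) ≤ N.index) :
    classP ι d p = N :=
  eq_of_le_of_index_le hN (index_classP_ne_zero ι d p hfin hE hJ)
    ((index_classP_le ι d p hI hfin hE hJ hSha).trans hNidx)

end Fermat.Agent.S55.G.Exist121

end
-- ===== PACK-END S55/G/Exist121/Count.lean

-- ===== PACK-BEGIN S55/G/SIndH237/H95/UnitFil.lean
section
/-
S55 / layer G / G-SIND:UCT (helper95).  Part 3 (Mathlib only).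

The filtration `Fil n = {u ∈ Rˣ : u ≡ 1 mod Iⁿ}` of the unit group of a ring `R` which is
complete for an ideal `I`; the induced action on `R ⧸ I`; lifting of units.
-/


set_option autoImplicit false
set_option linter.unusedSectionVars false
set_option linter.style.haveILetI false

namespace Fermat.Agent.S55.G.SIndH237.H95

attribute [local instance] unitsAct

section Units

variable {R : Type*} [CommRing R] (I : Ideal R)

lemma isUnit_one_add_of_mem (hJ : I ≤ Ideal.jacobson ⊥) {x : R} (hx : x ∈ I) :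
    IsUnit (1 + x) := by
  have := Ideal.mem_jacobson_bot.1 (hJ hx) 1
  rwa [mul_one, add_comm] at this

lemma isUnit_of_sub_mem (hJ : I ≤ Ideal.jacobson ⊥) (u : Rˣ) {x : R} (h : x - u ∈ I) :
    IsUnit x := by
  have h1 : x = u * (1 + ((u⁻¹ : Rˣ) : R) * (x - u)) := by
    rw [mul_add, mul_one, ← mul_assoc, Units.mul_inv, one_mul]
    ring
  rw [h1]
  exact u.isUnit.mul (isUnit_one_add_of_mem I hJ (I.mul_mem_left _ h))

/-- Units of `R ⧸ I` lift to units of `R` when `I` lies in the Jacobson radical. -/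
lemma exists_unit_lift (hJ : I ≤ Ideal.jacobson ⊥) (v : (R ⧸ I)ˣ) :
    ∃ u : Rˣ, Ideal.Quotient.mk I (u : R) = (v : R ⧸ I) := by
  obtain ⟨r, hr⟩ := Ideal.Quotient.mk_surjective (v : R ⧸ I)
  obtain ⟨r', hr'⟩ := Ideal.Quotient.mk_surjective ((v⁻¹ : (R ⧸ I)ˣ) : R ⧸ I)
  have h1 : r * r' - 1 ∈ I := by
    rw [← Ideal.Quotient.eq, map_mul, hr, hr', Units.mul_inv, map_one]
  have h2 : IsUnit (r * r') := isUnit_of_sub_mem I hJ 1 (by simpa using h1)
  have h3 : IsUnit r := isUnit_of_mul_isUnit_left h2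
  exact ⟨h3.unit, by rw [IsUnit.unit_spec, hr]⟩

/-- The subgroup of units congruent to `1` modulo `Iⁿ`. -/
def unitFil (n : ℕ) : Subgroup Rˣ where
  carrier := {u | (u : R) - 1 ∈ I ^ n}
  one_mem' := by simp
  mul_mem' {a b} ha hb := by
    have h : ((a * b : Rˣ) : R) - 1 = (a : R) * ((b : R) - 1) + ((a : R) - 1) := by
      push_cast; ring
    change ((a * b : Rˣ) : R) - 1 ∈ I ^ n
    rw [h]
    exact (I ^ n).add_mem ((I ^ n).mul_mem_left _ hb) ha
  inv_mem' {a} ha := by
    have h : ((a⁻¹ : Rˣ) : R) - 1 = -(((a⁻¹ : Rˣ) : R) * ((a : R) - 1)) := by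
      rw [mul_sub, Units.inv_mul]; ring
    change ((a⁻¹ : Rˣ) : R) - 1 ∈ I ^ n
    rw [h]
    exact (I ^ n).neg_mem ((I ^ n).mul_mem_left _ ha)

lemma mem_unitFil_iff (n : ℕ) (u : Rˣ) : u ∈ unitFil I n ↔ (u : R) - 1 ∈ I ^ n := Iff.rfl

lemma div_mem_unitFil_iff (n : ℕ) (a b : Rˣ) :
    a / b ∈ unitFil I n ↔ (a : R) - (b : R) ∈ I ^ n := by
  rw [mem_unitFil_iff]
  have h1 : ((a / b : Rˣ) : R) - 1 = ((a : R) - b) * ((b⁻¹ : Rˣ) : R) := by
    rw [div_eq_mul_inv, Units.val_mul, sub_mul, Units.mul_inv]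
  have h2 : (a : R) - b = (((a / b : Rˣ) : R) - 1) * b := by
    rw [h1, mul_assoc, Units.inv_mul, mul_one]
  constructor
  · intro h; rw [h2]; exact (I ^ n).mul_mem_right _ h
  · intro h; rw [h1]; exact (I ^ n).mul_mem_right _ h

lemma unitFil_anti (n : ℕ) : unitFil I (n + 1) ≤ unitFil I n :=
  fun _ hu => Ideal.pow_le_pow_right (Nat.le_succ n) hu

lemma unitFil_antitone {m n : ℕ} (h : m ≤ n) : unitFil I n ≤ unitFil I m :=
  fun _ hu => Ideal.pow_le_pow_right h hu

lemma mem_unitFil_zero (u : Rˣ) : u ∈ unitFil I 0 := by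
  rw [mem_unitFil_iff, pow_zero, Ideal.one_eq_top]
  exact Submodule.mem_top

lemma unitFil_separated [IsHausdorff I R] (x : Rˣ) (hx : ∀ j, x ∈ unitFil I j) : x = 1 := by
  have h : (x : R) - 1 = 0 := by
    refine IsHausdorff.haus ‹IsHausdorff I R› _ fun n => ?_
    rw [SModEq.zero, smul_eq_mul, Ideal.mul_top]
    exact hx n
  exact Units.ext (by rw [Units.val_one]; exact sub_eq_zero.1 h)

lemma unitFil_complete [IsAdicComplete I R] (u : ℕ → Rˣ) (hu : ∀ j, u j ∈ unitFil I j) :
    ∃ s : Rˣ, ∀ n, s / ∏ j ∈ Finset.range n, u j ∈ unitFil I n := by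
  have hJ : I ≤ Ideal.jacobson ⊥ := IsAdicComplete.le_jacobson_bot I
  have hcauchy : ∀ {m n : ℕ}, m ≤ n →
      (((∏ j ∈ Finset.range m, u j : Rˣ) : R)) ≡ (((∏ j ∈ Finset.range n, u j : Rˣ) : R))
        [SMOD (I ^ m • ⊤ : Submodule R R)] := by
    intro m n hmn
    rw [SModEq.sub_mem, smul_eq_mul, Ideal.mul_top, ← div_mem_unitFil_iff]
    have h1 : (∏ j ∈ Finset.range m, u j) / ∏ j ∈ Finset.range n, u j =
        (∏ j ∈ Finset.Ico m n, u j)⁻¹ := by
      rw [Finset.prod_Ico_eq_div u hmn, inv_div]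
    rw [h1]
    refine (unitFil I m).inv_mem (Subgroup.prod_mem _ fun j hj => ?_)
    exact unitFil_antitone I (Finset.mem_Ico.1 hj).1 (hu j)
  obtain ⟨L, hL⟩ := IsPrecomplete.prec ‹IsAdicComplete I R›.toIsPrecomplete
    (f := fun n => ((∏ j ∈ Finset.range n, u j : Rˣ) : R)) hcauchy
  have hL' : ∀ n, L - ((∏ j ∈ Finset.range n, u j : Rˣ) : R) ∈ I ^ n := by
    intro n
    have := (hL n).symm
    rwa [SModEq.sub_mem, smul_eq_mul, Ideal.mul_top] at this
  have hLu : IsUnit L := by
    refine isUnit_of_sub_mem I hJ (∏ j ∈ Finset.range 1, u j) ?_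
    have := hL' 1
    rwa [pow_one] at this
  refine ⟨hLu.unit, fun n => ?_⟩
  rw [div_mem_unitFil_iff, IsUnit.unit_spec]
  exact hL' n

end Units

section Action

variable {R : Type*} [CommRing R] {H : Type*} [Group H] [MulSemiringAction H R] (I : Ideal R)

lemma smul_mem_pow (hI : ∀ (h : H) (x : R), x ∈ I → h • x ∈ I) (n : ℕ) (h : H) {x : R}
    (hx : x ∈ I ^ n) : h • x ∈ I ^ n := by
  have h1 : I.map (MulSemiringAction.toRingHom H R h) ≤ I := by
    rw [Ideal.map_le_iff_le_comap]
    exact fun y hy => hI h y hy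
  have h2 : (I ^ n).map (MulSemiringAction.toRingHom H R h) ≤ I ^ n := by
    rw [Ideal.map_pow]
    exact Ideal.pow_right_mono h1 n
  exact h2 (Ideal.mem_map_of_mem _ hx)

lemma smul_mem_unitFil (hI : ∀ (h : H) (x : R), x ∈ I → h • x ∈ I) (n : ℕ) (h : H) {u : Rˣ}
    (hu : u ∈ unitFil I n) : h • u ∈ unitFil I n := by
  rw [mem_unitFil_iff] at hu ⊢
  have := smul_mem_pow I hI n h hu
  rwa [smul_sub, smul_one] at this

lemma le_comap_of_stable (hI : ∀ (h : H) (x : R), x ∈ I → h • x ∈ I) (h : H) :
    I ≤ I.comap (MulSemiringAction.toRingHom H R h) := fun x hx => hI h x hx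

/-- The ring endomorphism of `R ⧸ I` induced by `h ∈ H`. -/
def quotMap (hI : ∀ (h : H) (x : R), x ∈ I → h • x ∈ I) (h : H) : R ⧸ I →+* R ⧸ I :=
  Ideal.quotientMap I (MulSemiringAction.toRingHom H R h) (le_comap_of_stable I hI h)

lemma quotMap_mk (hI : ∀ (h : H) (x : R), x ∈ I → h • x ∈ I) (h : H) (r : R) :
    quotMap I hI h (Ideal.Quotient.mk I r) = Ideal.Quotient.mk I (h • r) := rfl

/-- The action induced on `R ⧸ I` by an action on `R` stabilising `I`
(a definition, NOT a global instance). -/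
@[reducible] def quotAct (hI : ∀ (h : H) (x : R), x ∈ I → h • x ∈ I) :
    MulSemiringAction H (R ⧸ I) where
  smul h := quotMap I hI h
  one_smul x := by
    obtain ⟨r, rfl⟩ := Ideal.Quotient.mk_surjective x
    change quotMap I hI 1 (Ideal.Quotient.mk I r) = _
    rw [quotMap_mk, one_smul]
  mul_smul g h x := by
    obtain ⟨r, rfl⟩ := Ideal.Quotient.mk_surjective x
    change quotMap I hI (g * h) (Ideal.Quotient.mk I r) =
      quotMap I hI g (quotMap I hI h (Ideal.Quotient.mk I r))
    simp only [quotMap_mk, mul_smul]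
  smul_zero h := map_zero (quotMap I hI h)
  smul_add h x y := map_add (quotMap I hI h) x y
  smul_one h := map_one (quotMap I hI h)
  smul_mul h x y := map_mul (quotMap I hI h) x y

lemma quotAct_smul_mk (hI : ∀ (h : H) (x : R), x ∈ I → h • x ∈ I) (h : H) (r : R) :
    letI := quotAct I hI
    h • (Ideal.Quotient.mk I r) = Ideal.Quotient.mk I (h • r) := rfl

end Action

end Fermat.Agent.S55.G.SIndH237.H95

end
-- ===== PACK-END S55/G/SIndH237/H95/UnitFil.lean

-- ===== PACK-BEGIN S56/H614/Lattice.lean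
section



/-!
# S56 / W-BASE / W3-UNITS (helper614): characteristic polynomials of lattices

* `permCharpoly R σ` : characteristic polynomial of `a ↦ a ∘ σ` on `X → R`; compatible with
  ring homomorphisms (`permCharpoly_map`).
* `charpoly_restrict_of_smul_mem` : a stable sublattice of finite index has the same
  characteristic polynomial.
* `charpoly_of_real_lattice` : a lattice `Λ₀ → W` in a real vector space, spanning a subspace
  `H`: the characteristic polynomial on `H` is the one on `Λ₀`.
* `charpoly_of_exact` : characteristic polynomials in exact sequences of vector spaces.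
-/

set_option autoImplicit false

noncomputable section

namespace Fermat.Agent.S56.H614

open Polynomial Module

open scoped TensorProduct

section Perm

variable (R : Type*) [CommRing R] {X : Type*} [Finite X]

/-- The characteristic polynomial of the map `a ↦ a ∘ σ` on `X → R`. -/
def permCharpoly (σ : X → X) : R[X] := (LinearMap.funLeft R R σ).charpoly

lemma permCharpoly_eq_matrix [Fintype X] [DecidableEq X] (σ : X → X) :
    permCharpoly R σ =
      (Matrix.of fun i j : X => if σ i = j then (1 : R) else 0).charpoly := by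
  rw [permCharpoly, ← LinearMap.charpoly_toMatrix _ (Pi.basisFun R X)]
  congr 1
  ext i j
  simp [LinearMap.funLeft_apply, Pi.single_apply, eq_comm]

theorem permCharpoly_map {S : Type*} [CommRing S] (f : R →+* S) (σ : X → X) :
    (permCharpoly R σ).map f = permCharpoly S σ := by
  classical
  let _ : Fintype X := Fintype.ofFinite X
  rw [permCharpoly_eq_matrix, permCharpoly_eq_matrix, ← Matrix.charpoly_map]
  congr 1
  ext i j
  simp only [Matrix.map_apply, Matrix.of_apply]
  split_ifs <;> simp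

end Perm

section Field

variable {k : Type*} [Field k] {N E F : Type*}
  [AddCommGroup N] [Module k N] [Module.Finite k N]
  [AddCommGroup E] [Module k E] [Module.Finite k E]
  [AddCommGroup F] [Module k F] [Module.Finite k F]

/-- Characteristic polynomials in an exact sequence of finite-dimensional vector spaces. -/
theorem charpoly_of_exact (i : N →ₗ[k] E) (hi : Function.Injective i) (g : E →ₗ[k] F)
    (hg : Function.Surjective g) (hex : LinearMap.range i = LinearMap.ker g)
    (fN : N →ₗ[k] N) (fE : E →ₗ[k] E) (fF : F →ₗ[k] F)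
    (h1 : i ∘ₗ fN = fE ∘ₗ i) (h2 : g ∘ₗ fE = fF ∘ₗ g) :
    fE.charpoly = fN.charpoly * fF.charpoly := by
  have h := charpoly_baseChange_of_exact' (R := k) k i hi g hg hex fN fE fF h1 h2
  rw [LinearMap.charpoly_baseChange, LinearMap.charpoly_baseChange,
    LinearMap.charpoly_baseChange] at h
  simpa using h

end Field

section FiniteIndex

variable {M : Type*} [AddCommGroup M] [Module.Free ℤ M] [Module.Finite ℤ M]

/-- A stable sublattice of finite index has the same characteristic polynomial. -/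
theorem charpoly_restrict_of_smul_mem (f : M →ₗ[ℤ] M) (Λ : Submodule ℤ M)
    (hΛ : Λ ≤ Λ.comap f) (m : ℤ) (hm : m ≠ 0) (hmem : ∀ x : M, m • x ∈ Λ) :
    (f.restrict hΛ).charpoly = f.charpoly := by
  have hinj : Function.Injective (Λ.subtype.baseChange ℚ) := by
    rw [LinearMap.baseChange_eq_ltensor]
    exact Module.Flat.lTensor_preserves_injective_linearMap _ Λ.injective_subtype
  have hsurj : Function.Surjective (Λ.subtype.baseChange ℚ) := by
    intro y
    induction y using TensorProduct.induction_on with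
    | zero => exact ⟨0, map_zero _⟩
    | tmul q x =>
      refine ⟨(q / (m : ℚ)) ⊗ₜ[ℤ] (⟨m • x, hmem x⟩ : Λ), ?_⟩
      rw [LinearMap.baseChange_tmul]
      simp only [Submodule.subtype_apply]
      rw [TensorProduct.tmul_smul, TensorProduct.smul_tmul']
      congr 1
      have hm' : (m : ℚ) ≠ 0 := by exact_mod_cast hm
      rw [zsmul_eq_mul]
      field_simp
    | add a b ha hb =>
      obtain ⟨a', rfl⟩ := ha
      obtain ⟨b', rfl⟩ := hb
      exact ⟨a' + b', map_add _ _ _⟩
  let e : (ℚ ⊗[ℤ] Λ) ≃ₗ[ℚ] (ℚ ⊗[ℤ] M) :=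
    LinearEquiv.ofBijective (Λ.subtype.baseChange ℚ) ⟨hinj, hsurj⟩
  have hconj : e.conj ((f.restrict hΛ).baseChange ℚ) = f.baseChange ℚ := by
    apply LinearMap.ext
    intro y
    obtain ⟨x, rfl⟩ := e.surjective y
    rw [LinearEquiv.conj_apply_apply, LinearEquiv.symm_apply_apply]
    change (Λ.subtype.baseChange ℚ) (((f.restrict hΛ).baseChange ℚ) x) =
      (f.baseChange ℚ) ((Λ.subtype.baseChange ℚ) x)
    rw [← LinearMap.comp_apply, ← LinearMap.comp_apply, ← LinearMap.baseChange_comp,
      ← LinearMap.baseChange_comp]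
    rfl
  have h := LinearEquiv.charpoly_conj e ((f.restrict hΛ).baseChange ℚ)
  rw [hconj, LinearMap.charpoly_baseChange, LinearMap.charpoly_baseChange] at h
  exact (Polynomial.map_injective (algebraMap ℤ ℚ) (algebraMap ℤ ℚ).injective_int h).symm

end FiniteIndex

section RealLattice

variable {Λ₀ W ι : Type*} [Fintype ι] [DecidableEq ι] [AddCommGroup Λ₀] [Module.Free ℤ Λ₀]
  [Module.Finite ℤ Λ₀] [AddCommGroup W] [Module ℝ W]

/-- A lattice `j : Λ₀ → W` in a real vector space whose `ℤ`-basis is `ℝ`-linearly independent,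
spanning the subspace `H`; `P` an endomorphism of `W` inducing `f₀` on `Λ₀`.  Then the
characteristic polynomial of `P` on `H` is the one of `f₀`. -/
theorem charpoly_of_real_lattice (bΛ : Basis ι ℤ Λ₀) (j : Λ₀ →ₗ[ℤ] W)
    (hb : LinearIndependent ℝ (fun i => j (bΛ i)))
    (f₀ : Λ₀ →ₗ[ℤ] Λ₀) (P : W →ₗ[ℝ] W) (hP : ∀ x, P (j x) = j (f₀ x))
    (H : Submodule ℝ W) (hH : Submodule.span ℝ (Set.range fun i => j (bΛ i)) = H)
    [Module.Finite ℝ H] (hHP : H ≤ H.comap P) :
    (P.restrict hHP).charpoly = f₀.charpoly.map (Int.castRingHom ℝ) := by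
  let bH : Basis ι ℝ H := (Basis.span hb).map (LinearEquiv.ofEq _ _ hH)
  have hbH : ∀ i, ((bH i : H) : W) = j (bΛ i) := by
    intro i
    simp [bH, Basis.span_apply]
  have key : ∀ k, (P.restrict hHP) (bH k) =
      ∑ i, ((bΛ.repr (f₀ (bΛ k)) i : ℤ) : ℝ) • bH i := by
    intro k
    apply Subtype.ext
    rw [LinearMap.coe_restrict_apply, hbH, hP]
    conv_lhs => rw [← bΛ.sum_repr (f₀ (bΛ k))]
    rw [map_sum, Submodule.coe_sum]
    refine Finset.sum_congr rfl fun i _ => ?_
    rw [map_zsmul, Submodule.coe_smul, hbH, Int.cast_smul_eq_zsmul]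
  rw [← LinearMap.charpoly_toMatrix (P.restrict hHP) bH, ← LinearMap.charpoly_toMatrix f₀ bΛ,
    ← Matrix.charpoly_map]
  congr 1
  ext i k
  rw [LinearMap.toMatrix_apply, key, Matrix.map_apply, LinearMap.toMatrix_apply]
  simp [Finsupp.single_apply]

end RealLattice

end Fermat.Agent.S56.H614

end

end
-- ===== PACK-END S56/H614/Lattice.lean

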