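import Mathlib.NumberTheory.NumberField.ProductFormula
import Mathlib.NumberTheory.NumberField.Units.DirichletTheorem
import Mathlib.RingTheory.DedekindDomain.SInteger
import Mathlib.NumberTheory.NumberField.ClassNumber
import Mathlib.GroupTheory.IndexNSmul
import Mathlib.GroupTheory.Index
import Mathlib.LinearAlgebra.FreeModule.PID
import Mathlib
import Mathlib.RepresentationTheory.Homological.GroupCohomology.LowDegree
import Mathlib.RepresentationTheory.Invariants

-- ===== PACK-BEGIN S55/H604/SUnitLog.lean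
section





/-!
# S55 / layer G / leaf HQU, part (B): the logarithmic lattice of the `S`-units

`L` a number field, `S` a finite set of finite places of `L`, `T = ∞ ⊔ S`.
We define `logS : Additive (S-units) →+ (T → ℝ)` and prove

* `sum_logS` : the coordinates sum to `0` (product formula),
* `finite_logS_le` : only finitely many `S`-units have all coordinates bounded by `r`
  (so the kernel is finite and the image is discrete),
* (in later files) the image spans the hyperplane, and equivariance.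
-/

set_option autoImplicit false

open NumberField IsDedekindDomain

namespace Fermat.Agent.S55.H604

variable (L : Type*) [Field L] [NumberField L] (S : Finset (HeightOneSpectrum (𝓞 L)))

/-- The index set `∞ ⊔ S` of places. -/
abbrev PlaceIdx : Type _ := InfinitePlace L ⊕ {v : HeightOneSpectrum (𝓞 L) // v ∈ S}

/-- The `S`-units of `L` as a subgroup of `Lˣ` (Mathlib's `Set.unit`). -/
noncomputable abbrev SUnit : Subgroup Lˣ := (S : Set (HeightOneSpectrum (𝓞 L))).unit L

variable {L}

/-- The finite absolute value attached to `v` is `1` iff the valuation is `1`. -/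
lemma finitePlace_mk_eq_one_iff (v : HeightOneSpectrum (𝓞 L)) (x : L) :
    FinitePlace.mk v x = 1 ↔ v.valuation L x = 1 := by
  rw [FinitePlace.mk_apply, FinitePlace.norm_embedding, NumberField.HeightOneSpectrum.adicAbv_def]
  rw [show ((1 : ℝ) = ((1 : NNReal) : ℝ)) by simp, NNReal.coe_inj]
  exact WithZeroMulInt.toNNReal_eq_one_iff _ _
    (NumberField.HeightOneSpectrum.one_lt_absNorm_nnreal v).ne'

/-- The finite absolute value attached to `v` is `≤ 1` iff the valuation is `≤ 1`. -/
lemma finitePlace_mk_le_one_iff (v : HeightOneSpectrum (𝓞 L)) (x : L) :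
    FinitePlace.mk v x ≤ 1 ↔ v.valuation L x ≤ 1 := by
  rw [FinitePlace.mk_apply, FinitePlace.norm_embedding, NumberField.HeightOneSpectrum.adicAbv_def]
  rw [show ((1 : ℝ) = ((1 : NNReal) : ℝ)) by simp, NNReal.coe_le_coe]
  exact WithZeroMulInt.toNNReal_le_one_iff (NumberField.HeightOneSpectrum.one_lt_absNorm_nnreal v)

lemma finitePlace_mk_pos (v : HeightOneSpectrum (𝓞 L)) {x : L} (hx : x ≠ 0) :
    0 < FinitePlace.mk v x := FinitePlace.pos_iff.2 hx

variable (L)

/-- The coordinate functions of the logarithmic map. -/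
noncomputable def logComp (t : PlaceIdx L S) (x : L) : ℝ :=
  match t with
  | Sum.inl w => (w.mult : ℝ) * Real.log (w x)
  | Sum.inr v => Real.log (FinitePlace.mk v.1 x)

@[simp] lemma logComp_inl (w : InfinitePlace L) (x : L) :
    logComp L S (Sum.inl w) x = (w.mult : ℝ) * Real.log (w x) := rfl

@[simp] lemma logComp_inr (v : {v : HeightOneSpectrum (𝓞 L) // v ∈ S}) (x : L) :
    logComp L S (Sum.inr v) x = Real.log (FinitePlace.mk v.1 x) := rfl

lemma logComp_one (t : PlaceIdx L S) : logComp L S t 1 = 0 := by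
  cases t <;> simp

lemma logComp_mul (t : PlaceIdx L S) {x y : L} (hx : x ≠ 0) (hy : y ≠ 0) :
    logComp L S t (x * y) = logComp L S t x + logComp L S t y := by
  cases t with
  | inl w =>
    simp only [logComp_inl, map_mul]
    rw [Real.log_mul ((map_ne_zero w).2 hx) ((map_ne_zero w).2 hy)]
    ring
  | inr v =>
    simp only [logComp_inr, map_mul]
    rw [Real.log_mul (finitePlace_mk_pos v.1 hx).ne' (finitePlace_mk_pos v.1 hy).ne']

/-- The logarithmic map on the `S`-units. -/
noncomputable def logS : Additive (SUnit L S) →+ (PlaceIdx L S → ℝ) where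
  toFun x := fun t => logComp L S t (((Additive.toMul x : SUnit L S) : Lˣ) : L)
  map_zero' := by
    funext t
    simp [logComp_one]
  map_add' x y := by
    funext t
    simp only [toMul_add, Subgroup.coe_mul, Units.val_mul, Pi.add_apply]
    exact logComp_mul L S t (Units.ne_zero _) (Units.ne_zero _)

lemma logS_apply (x : Additive (SUnit L S)) (t : PlaceIdx L S) :
    logS L S x t = logComp L S t (((Additive.toMul x : SUnit L S) : Lˣ) : L) := rfl

variable {L S}

/-- an `S`-unit has absolute value `1` at every finite place outside `S`. -/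
lemma sUnit_finitePlace_eq_one (x : SUnit L S) {v : HeightOneSpectrum (𝓞 L)} (hv : v ∉ S) :
    FinitePlace.mk v ((x : Lˣ) : L) = 1 :=
  (finitePlace_mk_eq_one_iff v _).2
    (Set.unit_valuation_eq_one (S : Set (HeightOneSpectrum (𝓞 L))) L x (by simpa using hv))


/-- the finite part of the product formula for an `S`-unit only involves `S`. -/
lemma finprod_finitePlace_sUnit (x : SUnit L S) :
    ∏ᶠ w : FinitePlace L, w ((x : Lˣ) : L) = ∏ v ∈ S, FinitePlace.mk v ((x : Lˣ) : L) := by
  have h1 : ∏ᶠ w : FinitePlace L, w ((x : Lˣ) : L) =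
      ∏ᶠ v : HeightOneSpectrum (𝓞 L), FinitePlace.mk v ((x : Lˣ) : L) := by
    refine (finprod_eq_of_bijective (fun v => FinitePlace.mk v) ?_ (fun v => rfl)).symm
    refine ⟨fun v₁ v₂ h => FinitePlace.mk_eq_iff.1 h, fun w => ⟨w.maximalIdeal, ?_⟩⟩
    exact FinitePlace.mk_maximalIdeal w
  rw [h1]
  refine finprod_eq_prod_of_mulSupport_subset _ ?_
  intro v hv
  by_contra hvS
  exact hv (sUnit_finitePlace_eq_one x hvS)

variable (L S)

/-- **(B1)** the coordinates of `logS x` sum to zero (product formula). -/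
theorem sum_logS (x : Additive (SUnit L S)) : ∑ t, logS L S x t = 0 := by
  set y : SUnit L S := Additive.toMul x with hy
  have hx0 : ((y : Lˣ) : L) ≠ 0 := Units.ne_zero _
  have hprod := prod_abs_eq_one hx0
  rw [finprod_finitePlace_sUnit y] at hprod
  have hlog := congrArg Real.log hprod
  rw [Real.log_one, Real.log_mul, Real.log_prod, Real.log_prod] at hlog
  · rw [Fintype.sum_sum_type]
    simp only [logS_apply, logComp_inl, logComp_inr]
    rw [← hlog]
    congr 1
    · refine Finset.sum_congr rfl fun w _ => ?_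
      rw [Real.log_pow]
    · rw [← Finset.sum_coe_sort S (fun v => Real.log (FinitePlace.mk v ((y : Lˣ) : L)))]
  · intro v _
    exact (finitePlace_mk_pos v hx0).ne'
  · intro w _
    exact pow_ne_zero _ ((map_ne_zero w).2 hx0)
  · exact Finset.prod_ne_zero_iff.2 fun w _ => pow_ne_zero _ ((map_ne_zero w).2 hx0)
  · exact Finset.prod_ne_zero_iff.2 fun v _ => (finitePlace_mk_pos v hx0).ne'

end Fermat.Agent.S55.H604

end
-- ===== PACK-END S55/H604/SUnitLog.lean

-- ===== PACK-BEGIN S55/H604/IndexNSmul.lean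
section




/-!
# S55 / arithmetic leaf: `[A : nA] = |A[n]| · n ^ r` for an extension of a free module of rank `r`
by a finite group
-/

set_option autoImplicit false

namespace Fermat.Agent.S55.H604

open Module

/-- If `f : A → Λ` is a surjective homomorphism with finite kernel onto a free `ℤ`-module of finite
rank `r`, then `[A : nA] = |A[n]| · n ^ r`. -/
theorem index_range_nsmul_of_finite_ker {A Λ : Type*} [AddCommGroup A] [AddCommGroup Λ]
    [Module.Free ℤ Λ] [Module.Finite ℤ Λ] (f : A →+ Λ) (hf : Function.Surjective f)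
    [Finite f.ker] (n : ℕ) (hn : n ≠ 0) :
    (nsmulAddMonoidHom (α := A) n).range.index =
      Nat.card (nsmulAddMonoidHom (α := A) n).ker * n ^ Module.finrank ℤ Λ := by
  have htf : ∀ x : Λ, n • x = 0 → x = 0 := by
    intro x hx
    have := AddSubgroup.nsmulAddMonoidHom_injective_of_isTorsionFree (M := Λ) hn
    exact this (by simpa using hx)
  set N : AddSubgroup A := (nsmulAddMonoidHom (α := A) n).range with hN
  set K : AddSubgroup A := f.ker with hK
  -- step 1
  have h1 : N.index = N.relIndex (N ⊔ K) * (N ⊔ K).index :=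
    (AddSubgroup.relIndex_mul_index le_sup_left).symm
  -- step 2
  have hmap : N.map f = (nsmulAddMonoidHom (α := Λ) n).range := by
    ext y
    constructor
    · rintro ⟨_, ⟨a, rfl⟩, rfl⟩
      exact ⟨f a, by simp⟩
    · rintro ⟨z, rfl⟩
      obtain ⟨a, rfl⟩ := hf z
      exact ⟨n • a, ⟨a, rfl⟩, by simp⟩
  have h2 : (N ⊔ K).index = n ^ Module.finrank ℤ Λ := by
    rw [← AddSubgroup.comap_map_eq, hmap, AddSubgroup.index_comap_of_surjective _ hf,
      AddSubgroup.index_range_nsmul]
  -- step 3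
  have h3 : N.relIndex (N ⊔ K) = N.relIndex K := AddSubgroup.relIndex_sup_left K N
  have h4 : N.addSubgroupOf K = (nsmulAddMonoidHom (α := K) n).range := by
    ext ⟨x, hx⟩
    rw [AddSubgroup.mem_addSubgroupOf]
    constructor
    · rintro ⟨a, ha⟩
      have ha' : n • a = x := ha
      have haK : a ∈ K := by
        rw [hK, AddMonoidHom.mem_ker]
        apply htf
        rw [← map_nsmul, ha']
        exact hx
      exact ⟨⟨a, haK⟩, Subtype.ext ha'⟩
    · rintro ⟨⟨a, haK⟩, ha⟩
      exact ⟨a, congrArg Subtype.val ha⟩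
  have h5 : N.relIndex K = Nat.card (nsmulAddMonoidHom (α := K) n).ker := by
    rw [AddSubgroup.relIndex, h4]
    exact AddSubgroup.index_range
  have h6 : Nat.card (nsmulAddMonoidHom (α := K) n).ker =
      Nat.card (nsmulAddMonoidHom (α := A) n).ker := by
    refine Nat.card_congr
      { toFun := fun x => ⟨x.1.1, by
          have := x.2
          rw [AddMonoidHom.mem_ker] at this ⊢
          exact congrArg Subtype.val this⟩
        invFun := fun a => ⟨⟨a.1, by
          have := a.2
          rw [AddMonoidHom.mem_ker] at this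
          rw [hK, AddMonoidHom.mem_ker]
          apply htf
          rw [← map_nsmul]
          have h' : n • a.1 = 0 := this
          rw [h', map_zero]⟩, by
          have := a.2
          rw [AddMonoidHom.mem_ker] at this ⊢
          exact Subtype.ext this⟩
        left_inv := fun x => rfl
        right_inv := fun a => rfl }
  rw [h1, h2, h3, h5, h6]

end Fermat.Agent.S55.H604

end
-- ===== PACK-END S55/H604/IndexNSmul.lean

-- ===== PACK-BEGIN S14/N3H850/ZetaBound.lean
section


/-!
# S14 / density block N3, part 1: finite Euler products are bounded by the Dedekind zeta function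

For every number field `F` there is a constant `C` such that for every `s ∈ (1, 2]` and every
finite set `T` of nonzero prime ideals of `𝓞 F`
`∏_{𝔔 ∈ T} (1 + N(𝔔)^(-s)) ≤ C / (s - 1)`.

Only input: Mathlib's class number formula `NumberField.tendsto_sub_one_mul_dedekindZeta_nhdsGT`
(simple pole of the Dedekind zeta function at `s = 1`) and unique factorisation of ideals.
-/

set_option autoImplicit false

open Filter Topology NumberField Ideal Finset Asymptotics

namespace Fermat.Agent.S14.N3H850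

variable (F : Type*) [Field F] [NumberField F]

/-- number of integral ideals of norm `n`, as a real number -/
noncomputable def idealCount (n : ℕ) : ℝ :=
  (Nat.card {I : Ideal (𝓞 F) // absNorm I = n} : ℝ)

lemma idealCount_nonneg (n : ℕ) : 0 ≤ idealCount F n := Nat.cast_nonneg _

/-- the real Dirichlet series `∑ a(n) n^(-s)` -/
noncomputable def zetaR (s : ℝ) : ℝ := ∑' n : ℕ, idealCount F n * (n : ℝ) ^ (-s)

lemma tendsto_sum_idealCount_div :
    Tendsto (fun n : ℕ ↦ (∑ k ∈ Icc 1 n, idealCount F k) / (n : ℝ)) atTop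
      (𝓝 (dedekindZeta_residue F)) := by
  refine ((Ideal.tendsto_norm_le_div_atTop₀ F).comp tendsto_natCast_atTop_atTop).congr fun n ↦ ?_
  simp only [Function.comp_apply, Nat.cast_le, idealCount, ← Nat.cast_sum]
  congr
  rw [← add_left_inj 1, ← card_norm_le_eq_card_norm_le_add_one,
    show Finset.Icc 1 n = Finset.Ioc 0 n from Finset.Icc_succ_left_eq_Ioc _ _,
    show 1 = Nat.card {I : Ideal (𝓞 F) // absNorm I = 0} by simp [Ideal.absNorm_eq_zero_iff],
    Finset.sum_Ioc_add_eq_sum_Icc (n.zero_le),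
    ← Finset.card_preimage_eq_sum_card_image_eq (fun k _ ↦ finite_setOfPred_absNorm_eq k)]
  simp [Set.coe_eq_subtype]

lemma lseriesSummable_idealCount {s : ℝ} (hs : 1 < s) :
    LSeriesSummable (fun n ↦ (idealCount F n : ℂ)) (s : ℂ) := by
  refine LSeriesSummable_of_sum_norm_bigO_and_nonneg ?_ (idealCount_nonneg F) zero_le_one
    (by simpa using hs)
  exact isBigO_atTop_natCast_rpow_of_tendsto_div_rpow (by simpa using tendsto_sum_idealCount_div F)

/-- the real series is summable for `s > 1` -/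
lemma summable_idealCount {s : ℝ} (hs : 1 < s) :
    Summable (fun n : ℕ ↦ idealCount F n * (n : ℝ) ^ (-s)) := by
  have h := lseriesSummable_idealCount F hs
  have h2 : Summable (fun n : ℕ ↦ ((idealCount F n * (n : ℝ) ^ (-s) : ℝ) : ℂ)) := by
    refine h.congr fun n ↦ ?_
    rcases eq_or_ne n 0 with rfl | hn
    · have : (0 : ℝ) ^ (-s) = 0 := Real.zero_rpow (by linarith)
      simp [this]
    · rw [LSeries.term_of_ne_zero hn, Complex.ofReal_mul,
        Complex.ofReal_cpow (Nat.cast_nonneg n), Complex.ofReal_neg, Complex.cpow_neg]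
      simp [div_eq_mul_inv]
  exact Complex.summable_ofReal.mp h2

lemma dedekindZeta_eq_zetaR {s : ℝ} (hs : 1 < s) :
    dedekindZeta F (s : ℂ) = ((zetaR F s : ℝ) : ℂ) := by
  rw [dedekindZeta, LSeries, zetaR, Complex.ofReal_tsum]
  refine tsum_congr fun n ↦ ?_
  rcases eq_or_ne n 0 with rfl | hn
  · have : (0 : ℝ) ^ (-s) = 0 := Real.zero_rpow (by linarith)
    simp [this]
  · rw [LSeries.term_of_ne_zero hn, Complex.ofReal_mul,
      Complex.ofReal_cpow (Nat.cast_nonneg n), Complex.ofReal_neg, Complex.cpow_neg]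
    simp [div_eq_mul_inv, idealCount]

lemma card_filter_le_idealCount (J : Finset (Ideal (𝓞 F))) (n : ℕ) :
    ((J.filter fun I ↦ absNorm I = n).card : ℝ) ≤ idealCount F n := by
  classical
  have hfin : {I : Ideal (𝓞 F) | absNorm I = n}.Finite := finite_setOfPred_absNorm_eq n
  rw [idealCount, Nat.cast_le]
  have h1 : Nat.card {I : Ideal (𝓞 F) // absNorm I = n} = hfin.toFinset.card := by
    rw [← Set.ncard_eq_toFinset_card _ hfin]
    rfl
  rw [h1]
  refine Finset.card_le_card fun I hI ↦ ?_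
  simpa using (Finset.mem_filter.mp hI).2

/-- A finite sum of `N(I)^(-s)` is bounded by the zeta series. -/
lemma sum_le_zetaR {s : ℝ} (hs : 1 < s) (J : Finset (Ideal (𝓞 F))) :
    ∑ I ∈ J, (absNorm I : ℝ) ^ (-s) ≤ zetaR F s := by
  classical
  have h1 : ∑ I ∈ J, (absNorm I : ℝ) ^ (-s)
      = ∑ n ∈ J.image (fun I ↦ absNorm I),
          ((J.filter fun I ↦ absNorm I = n).card : ℝ) * (n : ℝ) ^ (-s) := by
    rw [Finset.sum_comp (fun n : ℕ ↦ (n : ℝ) ^ (-s)) (fun I : Ideal (𝓞 F) ↦ absNorm I)]
    refine Finset.sum_congr rfl fun n _ ↦ ?_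
    rw [nsmul_eq_mul]
  rw [h1]
  calc ∑ n ∈ J.image (fun I ↦ absNorm I),
          ((J.filter fun I ↦ absNorm I = n).card : ℝ) * (n : ℝ) ^ (-s)
      ≤ ∑ n ∈ J.image (fun I ↦ absNorm I), idealCount F n * (n : ℝ) ^ (-s) := by
        refine Finset.sum_le_sum fun n _ ↦ ?_
        exact mul_le_mul_of_nonneg_right (card_filter_le_idealCount F J n)
          (Real.rpow_nonneg (Nat.cast_nonneg n) _)
    _ ≤ zetaR F s := by
        refine (summable_idealCount F hs).sum_le_tsum _ fun n _ ↦ ?_
        exact mul_nonneg (idealCount_nonneg F n) (Real.rpow_nonneg (Nat.cast_nonneg n) _)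

lemma zetaR_nonneg (s : ℝ) : 0 ≤ zetaR F s :=
  tsum_nonneg fun n ↦ mul_nonneg (idealCount_nonneg F n) (Real.rpow_nonneg (Nat.cast_nonneg n) _)

/-- `(s - 1) ζ_F(s)` is bounded near `1⁺`. -/
lemma exists_zetaR_bound_near_one :
    ∃ R : ℝ, 0 < R ∧ ∃ δ : ℝ, 0 < δ ∧ ∀ s : ℝ, 1 < s → s < 1 + δ → (s - 1) * zetaR F s ≤ R := by
  have h := tendsto_sub_one_mul_dedekindZeta_nhdsGT F
  have h2 : ∀ᶠ s : ℝ in 𝓝[>] 1, ‖((s : ℂ) - 1) * dedekindZeta F s‖ < dedekindZeta_residue F + 1 := by
    have h3 := (continuous_norm.tendsto _).comp h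
    refine h3.eventually_lt_const ?_
    simp only [Complex.norm_real, Real.norm_eq_abs, abs_of_pos (dedekindZeta_residue_pos F)]
    linarith
  rw [eventually_nhdsWithin_iff, Metric.eventually_nhds_iff] at h2
  obtain ⟨δ, hδ, hδ2⟩ := h2
  refine ⟨dedekindZeta_residue F + 1, by linarith [dedekindZeta_residue_pos F], δ, hδ,
    fun s hs1 hs2 ↦ ?_⟩
  have h4 := hδ2 (y := s) (by rw [Real.dist_eq, abs_of_pos (by linarith)]; linarith) hs1
  rw [dedekindZeta_eq_zetaR F hs1, ← Complex.ofReal_one, ← Complex.ofReal_sub,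
    ← Complex.ofReal_mul, Complex.norm_real, Real.norm_eq_abs] at h4
  exact (le_abs_self _).trans h4.le

/-- **Uniform bound for finite sums of `N(I)^(-s)`**, `1 < s ≤ 2`. -/
theorem exists_sum_bound :
    ∃ C : ℝ, 0 < C ∧ ∀ s : ℝ, 1 < s → s ≤ 2 → ∀ J : Finset (Ideal (𝓞 F)),
      (∀ I ∈ J, I ≠ ⊥) → ∑ I ∈ J, (absNorm I : ℝ) ^ (-s) ≤ C / (s - 1) := by
  obtain ⟨R, hR, δ, hδ, hb⟩ := exists_zetaR_bound_near_one F
  refine ⟨max R (2 * R / δ), lt_max_of_lt_left hR, fun s hs1 hs2 J hJ ↦ ?_⟩
  have hs0 : 0 < s - 1 := by linarith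
  rcases lt_or_ge s (1 + δ) with hlt | hge
  · have h1 := sum_le_zetaR F hs1 J
    have h2 := hb s hs1 hlt
    calc ∑ I ∈ J, (absNorm I : ℝ) ^ (-s) ≤ zetaR F s := h1
      _ ≤ R / (s - 1) := by rw [le_div_iff₀ hs0]; linarith
      _ ≤ max R (2 * R / δ) / (s - 1) := by gcongr; exact le_max_left _ _
  · set s₀ : ℝ := 1 + δ / 2 with hs₀
    have hs₀1 : 1 < s₀ := by rw [hs₀]; linarith
    have hs₀2 : s₀ < 1 + δ := by rw [hs₀]; linarith
    have h2 := hb s₀ hs₀1 hs₀2
    have h3 : zetaR F s₀ ≤ 2 * R / δ := by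
      rw [le_div_iff₀ hδ]
      have : s₀ - 1 = δ / 2 := by rw [hs₀]; ring
      rw [this] at h2
      linarith
    have h4 : ∑ I ∈ J, (absNorm I : ℝ) ^ (-s) ≤ ∑ I ∈ J, (absNorm I : ℝ) ^ (-s₀) := by
      refine Finset.sum_le_sum fun I hI ↦ ?_
      have hI0 : absNorm I ≠ 0 := by
        rw [Ne, Ideal.absNorm_eq_zero_iff]; exact hJ I hI
      have h1 : (1 : ℝ) ≤ (absNorm I : ℝ) := by
        exact_mod_cast Nat.one_le_iff_ne_zero.mpr hI0
      exact Real.rpow_le_rpow_of_exponent_le h1 (by linarith)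
    calc ∑ I ∈ J, (absNorm I : ℝ) ^ (-s) ≤ ∑ I ∈ J, (absNorm I : ℝ) ^ (-s₀) := h4
      _ ≤ zetaR F s₀ := sum_le_zetaR F hs₀1 J
      _ ≤ 2 * R / δ := h3
      _ ≤ max R (2 * R / δ) := le_max_right _ _
      _ ≤ max R (2 * R / δ) / (s - 1) := by
          rw [le_div_iff₀ hs0]
          have : 0 < max R (2 * R / δ) := lt_max_of_lt_left hR
          nlinarith

/-- A set of nonzero primes is determined by its product. -/
lemma prod_primes_injOn (T : Finset (Ideal (𝓞 F))) (hT : ∀ Q ∈ T, Q.IsPrime ∧ Q ≠ ⊥) :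
    Set.InjOn (fun U : Finset (Ideal (𝓞 F)) ↦ ∏ Q ∈ U, Q) (T.powerset : Set (Finset _)) := by
  classical
  have key : ∀ U : Finset (Ideal (𝓞 F)), U ⊆ T → U = T.filter (fun Q ↦ Q ∣ ∏ Q' ∈ U, Q') := by
    intro U hU
    ext Q
    simp only [Finset.mem_filter]
    constructor
    · intro hQ
      exact ⟨hU hQ, Finset.dvd_prod_of_mem _ hQ⟩
    · rintro ⟨hQT, hdvd⟩
      have hQp : Prime Q := Ideal.prime_of_isPrime (hT Q hQT).2 (hT Q hQT).1
      obtain ⟨Q', hQ'U, hQQ'⟩ := (Prime.dvd_finsetProd_iff hQp _).mp hdvd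
      have hle : Q' ≤ Q := Ideal.dvd_iff_le.mp hQQ'
      have hQ'max : Q'.IsMaximal :=
        Ring.DimensionLEOne.maximalOfPrime (hT Q' (hU hQ'U)).2 (hT Q' (hU hQ'U)).1
      have : Q' = Q := hQ'max.eq_of_le (hT Q hQT).1.ne_top hle
      rwa [← this]
  intro U hU V hV hUV
  simp only [Finset.coe_powerset, Set.mem_preimage, Set.mem_powerset_iff, Finset.coe_subset] at hU hV
  simp only at hUV
  rw [key U hU, key V hV, hUV]

/-- **Finite Euler products are `O(1/(s-1))`**, uniformly in the finite set of primes. -/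
theorem exists_prod_bound :
    ∃ C : ℝ, 0 < C ∧ ∀ s : ℝ, 1 < s → s ≤ 2 → ∀ T : Finset (Ideal (𝓞 F)),
      (∀ Q ∈ T, Q.IsPrime ∧ Q ≠ ⊥) →
        ∏ Q ∈ T, (1 + (absNorm Q : ℝ) ^ (-s)) ≤ C / (s - 1) := by
  classical
  obtain ⟨C, hC, hb⟩ := exists_sum_bound F
  refine ⟨C, hC, fun s hs1 hs2 T hT ↦ ?_⟩
  rw [Finset.prod_one_add]
  have h1 : ∀ U ∈ T.powerset, ∏ Q ∈ U, (absNorm Q : ℝ) ^ (-s)
      = (absNorm (∏ Q ∈ U, Q) : ℝ) ^ (-s) := by
    intro U _
    rw [map_prod, Nat.cast_prod, Real.finsetProd_rpow _ _ (fun Q _ ↦ Nat.cast_nonneg _)]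
  rw [Finset.sum_congr rfl h1]
  rw [← Finset.sum_image (f := fun I : Ideal (𝓞 F) ↦ (absNorm I : ℝ) ^ (-s))
    (g := fun U : Finset (Ideal (𝓞 F)) ↦ ∏ Q ∈ U, Q) (prod_primes_injOn F T hT)]
  refine hb s hs1 hs2 _ fun I hI ↦ ?_
  obtain ⟨U, hU, rfl⟩ := Finset.mem_image.mp hI
  rw [Finset.mem_powerset] at hU
  rw [← Ideal.zero_eq_bot, Finset.prod_ne_zero_iff]
  intro Q hQ
  exact (hT Q (hU hQ)).2

end Fermat.Agent.S14.N3H850

end
-- ===== PACK-END S14/N3H850/ZetaBound.lean

-- ===== PACK-BEGIN S55/G/Rec/H541/Core.lean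
section


/-!
# S55 / layer G / block REC — leaf `REC-Ltame` (helper541), part 1: pure algebra

Mathlib-only.  Contents:

* `core_identity_int`: the exponent bookkeeping behind the skew-symmetry of the Kummer symbol;
* `cexp σ hσ g`: the exponent `k < orderOf σ` with `σ ^ k = g` in a finite group generated by `σ`,
  with `cexp_mul : cexp (g * h) = (cexp g + cexp h) % orderOf σ`;
* `kummer_sum_mem_coboundaries`: for a `G`-module `A` (written additively) containing `ζ, α, β`
  with `n • ζ = 0`, `g ζ = ζ`, `g α = α + (s * i g) • ζ`, `g β = β + (t * j g) • ζ`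
  (`i, j : G → ℕ` "logarithms" of characters of orders `d, d'`), the 2-cochain
  `(g, h) ↦ (m * carry_i (g, h)) • (n • β) + (m' * carry_j (g, h)) • (n • α)`
  (`n * m = s * d`, `n * m' = t * d'`) is the coboundary of the explicit 1-cochain
  `g ↦ (t * j g) • α + (s * i g) • β + (s * t * i g * j g) • ζ`.
  Multiplicatively: `x(g) = α^{t j(g)} β^{s i(g)} ζ^{s t i(g) j(g)}`.
-/

set_option autoImplicit false

namespace Fermat.Agent.S55.G.Rec.H541

open groupCohomology

/-- Exponent bookkeeping for `kummer_sum_mem_coboundaries` (integer form). -/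
theorem core_identity_int {A : Type*} [AddCommGroup A]
    (ζ α β : A) (n d d' s t m m' I I' I'' J J' J'' e e' : ℤ)
    (hζ : n • ζ = 0) (hi : I'' + d * e = I + I') (hj : J'' + d' * e' = J + J')
    (hm : n * m = s * d) (hm' : n * m' = t * d') :
    (t * J') • (α + (s * I) • ζ) + (s * I') • (β + (t * J) • ζ) + (s * t * I' * J') • ζ
      - ((t * J'') • α + (s * I'') • β + (s * t * I'' * J'') • ζ)
      + ((t * J) • α + (s * I) • β + (s * t * I * J) • ζ)
    = (m * e) • (n • β) + (m' * e') • (n • α) := by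
  obtain rfl : I' = I'' + d * e - I := by linarith
  obtain rfl : J' = J'' + d' * e' - J := by linarith
  linear_combination (norm := module)
    (m * e * t * J'' + m' * e' * s * I'' + n * m * m' * e * e') • hζ
      + (-e' * hm') • α + (-e * hm) • β
      + (-(e * t * J'') * hm - (e' * s * I'') * hm' - (e * e' * s * d) * hm'
          - (e * e' * n * m') * hm) • ζ

/-- Exponent bookkeeping for `kummer_sum_mem_coboundaries` (natural number form). -/
theorem core_identity_nat {A : Type*} [AddCommGroup A]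
    (ζ α β : A) (n d d' s t m m' I I' I'' J J' J'' e e' : ℕ)
    (hζ : n • ζ = 0) (hi : I'' + d * e = I + I') (hj : J'' + d' * e' = J + J')
    (hm : n * m = s * d) (hm' : n * m' = t * d') :
    (t * J') • (α + (s * I) • ζ) + (s * I') • (β + (t * J) • ζ) + (s * t * I' * J') • ζ
      - ((t * J'') • α + (s * I'') • β + (s * t * I'' * J'') • ζ)
      + ((t * J) • α + (s * I) • β + (s * t * I * J) • ζ)
    = (m * e) • (n • β) + (m' * e') • (n • α) := by
  have h := core_identity_int ζ α β (n : ℤ) d d' s t m m' I I' I'' J J' J'' e e'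
    (by rw [natCast_zsmul]; exact hζ) (by exact_mod_cast hi) (by exact_mod_cast hj)
    (by exact_mod_cast hm) (by exact_mod_cast hm')
  simp only [← Nat.cast_mul, natCast_zsmul] at h
  exact h

section CycExp

variable {G : Type*} [Group G] [Finite G]

theorem exists_pow_lt_orderOf (σ g : G) (h : g ∈ Subgroup.zpowers σ) :
    ∃ k, k < orderOf σ ∧ σ ^ k = g := by
  obtain ⟨z, rfl⟩ := Subgroup.mem_zpowers_iff.1 h
  have hpos : (0 : ℤ) < orderOf σ := by exact_mod_cast orderOf_pos σ
  refine ⟨(z % (orderOf σ : ℤ)).toNat, ?_, ?_⟩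
  · have h1 := Int.emod_lt_of_pos z hpos
    have h0 := Int.emod_nonneg z hpos.ne'
    omega
  · rw [← zpow_natCast, Int.toNat_of_nonneg (Int.emod_nonneg z hpos.ne'), zpow_mod_orderOf]

/-- The exponent `k < orderOf σ` with `σ ^ k = g`, in a finite group generated by `σ`. -/
noncomputable def cexp (σ : G) (hσ : ∀ g, g ∈ Subgroup.zpowers σ) (g : G) : ℕ :=
  (exists_pow_lt_orderOf σ g (hσ g)).choose

theorem cexp_lt (σ : G) (hσ : ∀ g, g ∈ Subgroup.zpowers σ) (g : G) :
    cexp σ hσ g < orderOf σ :=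
  (exists_pow_lt_orderOf σ g (hσ g)).choose_spec.1

theorem pow_cexp (σ : G) (hσ : ∀ g, g ∈ Subgroup.zpowers σ) (g : G) :
    σ ^ cexp σ hσ g = g :=
  (exists_pow_lt_orderOf σ g (hσ g)).choose_spec.2

theorem cexp_eq_of_pow_eq (σ : G) (hσ : ∀ g, g ∈ Subgroup.zpowers σ) (g : G) (k : ℕ)
    (hk : k < orderOf σ) (h : σ ^ k = g) : cexp σ hσ g = k := by
  have h1 : σ ^ cexp σ hσ g = σ ^ k := by rw [pow_cexp, h]
  have h2 := pow_eq_pow_iff_modEq.1 h1
  exact (Nat.ModEq.eq_of_lt_of_lt h2 (cexp_lt σ hσ g) hk)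

theorem cexp_pow (σ : G) (hσ : ∀ g, g ∈ Subgroup.zpowers σ) (k : ℕ) (hk : k < orderOf σ) :
    cexp σ hσ (σ ^ k) = k :=
  cexp_eq_of_pow_eq σ hσ _ k hk rfl

theorem cexp_mul (σ : G) (hσ : ∀ g, g ∈ Subgroup.zpowers σ) (g h : G) :
    cexp σ hσ (g * h) = (cexp σ hσ g + cexp σ hσ h) % orderOf σ := by
  apply cexp_eq_of_pow_eq
  · exact Nat.mod_lt _ (orderOf_pos σ)
  · rw [pow_mod_orderOf, pow_add, pow_cexp, pow_cexp]

theorem cexp_add_div_le_one (σ : G) (hσ : ∀ g, g ∈ Subgroup.zpowers σ) (g h : G) :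
    (cexp σ hσ g + cexp σ hσ h) / orderOf σ ≤ 1 := by
  have h1 := cexp_lt σ hσ g
  have h2 := cexp_lt σ hσ h
  have : (cexp σ hσ g + cexp σ hσ h) / orderOf σ < 2 := by
    rw [Nat.div_lt_iff_lt_mul (orderOf_pos σ)]
    omega
  omega

end CycExp

section RepLevel

variable {G : Type} [Group G]

/-- **Explicit coboundary** behind the skew-symmetry of the Kummer symbol. -/
theorem kummer_sum_mem_coboundaries (A : Rep.{0} ℤ G)
    (ζ α β : A.V) (n d d' s t m m' : ℕ) (i j : G → ℕ)
    (hζn : n • ζ = 0)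
    (hα : ∀ g, A.ρ g α = α + (s * i g) • ζ) (hβ : ∀ g, A.ρ g β = β + (t * j g) • ζ)
    (hζ : ∀ g, A.ρ g ζ = ζ)
    (hi : ∀ g h, i (g * h) + d * ((i g + i h) / d) = i g + i h)
    (hj : ∀ g h, j (g * h) + d' * ((j g + j h) / d') = j g + j h)
    (hm : n * m = s * d) (hm' : n * m' = t * d')
    (F : G × G → A.V)
    (hF : ∀ g h, F (g, h) =
      (m * ((i g + i h) / d)) • (n • β) + (m' * ((j g + j h) / d')) • (n • α)) :
    F ∈ coboundaries₂ A := by
  refine ⟨fun g => (t * j g) • α + (s * i g) • β + (s * t * i g * j g) • ζ, ?_⟩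
  funext ⟨g, h⟩
  rw [hF]
  simp only [d₁₂_hom_apply, map_add, map_nsmul, hα, hβ, hζ]
  exact core_identity_nat ζ α β n d d' s t m m' (i g) (i h) (i (g * h)) (j g) (j h) (j (g * h))
    _ _ hζn (hi g h) (hj g h) hm hm'

end RepLevel

end Fermat.Agent.S55.G.Rec.H541

end
-- ===== PACK-END S55/G/Rec/H541/Core.lean

-- ===== PACK-BEGIN S55/L/Inv481/Cyclic.lean
section


/-!
# S55 / layer L / leaf L-C2 (helper481): subgroups of a finite cyclic group

Two injective homomorphisms from groups of order `n` into a finite cyclic group have the same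
range (the `n`-torsion subgroup).
-/

set_option autoImplicit false
set_option linter.style.haveILetI false

namespace Fermat.Agent.S55.L.Inv481

section Cyclic

variable {G H : Type} [AddCommGroup G] [AddCommGroup H]

/-- the range of an injective homomorphism from a group of order `n` into a finite cyclic group
is the `n`-torsion subgroup -/
theorem range_eq_torsion_of_cyclic (n N : ℕ) (hn : 0 < n) [NeZero N] (eG : G ≃+ ZMod N)
    (eH : H ≃+ ZMod n) (f : H →+ G) (hf : Function.Injective f) :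
    f.range = (nsmulAddMonoidHom n : G →+ G).ker := by
  haveI : NeZero n := ⟨hn.ne'⟩
  haveI : Finite G := Finite.of_equiv _ eG.symm.toEquiv
  haveI : Finite H := Finite.of_equiv _ eH.symm.toEquiv
  haveI : IsAddCyclic G := isAddCyclic_of_surjective eG.symm.toAddMonoidHom eG.symm.surjective
  have hcardH : Nat.card H = n := by
    rw [Nat.card_congr eH.toEquiv, Nat.card_eq_fintype_card, ZMod.card]
  have hle : f.range ≤ (nsmulAddMonoidHom n : G →+ G).ker := by
    rintro _ ⟨h, rfl⟩
    rw [AddMonoidHom.mem_ker]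
    change n • f h = 0
    rw [← map_nsmul]
    have : n • h = 0 := by
      rw [← hcardH]
      exact card_nsmul_eq_zero'
    rw [this, map_zero]
  apply AddSubgroup.eq_of_le_of_card_ge hle
  have h1 : Nat.card f.range = n := by
    rw [← hcardH]
    exact Nat.card_congr (AddMonoidHom.ofInjective hf).symm.toEquiv
  rw [h1]
  classical
  letI : Fintype G := Fintype.ofFinite G
  have h2 := IsAddCyclic.card_nsmul_eq_zero_le (α := G) hn
  refine le_trans (le_of_eq ?_) h2
  rw [Nat.card_eq_fintype_card, ← Fintype.card_coe]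
  apply Fintype.card_congr
  refine Equiv.subtypeEquivRight (fun z => ?_)
  simp [AddMonoidHom.mem_ker]

/-- two injective homomorphisms from groups of order `n` into a finite cyclic group have the
same range -/
theorem range_eq_range_of_cyclic {H' : Type} [AddCommGroup H'] (n N : ℕ) (hn : 0 < n)
    [NeZero N] (eG : G ≃+ ZMod N) (eH : H ≃+ ZMod n) (eH' : H' ≃+ ZMod n)
    (f : H →+ G) (hf : Function.Injective f) (f' : H' →+ G) (hf' : Function.Injective f') :
    f.range = f'.range := by
  rw [range_eq_torsion_of_cyclic n N hn eG eH f hf,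
    range_eq_torsion_of_cyclic n N hn eG eH' f' hf']

end Cyclic

end Fermat.Agent.S55.L.Inv481

end
-- ===== PACK-END S55/L/Inv481/Cyclic.lean

-- ===== PACK-BEGIN S55/E1/H353/PTorsion.lean
section


/-!
# S55, engine E1, blocks ALG7/ALG8 (helper353): homomorphisms into a group with cyclic `p`-torsion

Let `W` be an abelian group whose `p`-torsion is generated by one element `w₀ ≠ 0`
(think `W = H²(G, C)` for a class module at `p`), and let `M` be an `𝔽_p`-vector space.
Then `Hom(M, W) ≃+ Dual 𝔽_p M` (`PGen.homEquivDual`).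
-/

set_option autoImplicit false
set_option linter.unusedSectionVars false
set_option linter.style.haveILetI false

namespace Fermat.Agent.S55.E1.H353

/-- The `p`-torsion of `W` is cyclic: any nonzero `p`-torsion element generates it. -/
def CyclicPTorsion (p : ℕ) (W : Type) [AddCommGroup W] : Prop :=
  ∀ w w' : W, p • w = 0 → p • w' = 0 → w ≠ 0 → ∃ k : ℕ, w' = k • w

/-- A generator of the (nonzero) `p`-torsion of `W`. -/
structure PGen (p : ℕ) (W : Type) [AddCommGroup W] where
  /-- the generator -/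
  w₀ : W
  tors : p • w₀ = 0
  ne : w₀ ≠ 0
  gen : ∀ w : W, p • w = 0 → ∃ k : ℕ, w = k • w₀

/-- If the `p`-torsion of `W` is cyclic and nonzero, it has a generator. -/
def CyclicPTorsion.pGen {p : ℕ} {W : Type} [AddCommGroup W] (hcyc : CyclicPTorsion p W)
    (w₀ : W) (hw₀ : p • w₀ = 0) (hne : w₀ ≠ 0) : PGen p W where
  w₀ := w₀
  tors := hw₀
  ne := hne
  gen w hw := hcyc w₀ w hw₀ hw hne

section zmodHom

variable (p : ℕ) {W : Type} [AddCommGroup W]

/-- The homomorphism `ℤ/p → W`, `k ↦ k • w`, for a `p`-torsion element `w`. -/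
noncomputable def zmodHom (w : W) (hw : p • w = 0) : ZMod p →+ W :=
  ZMod.lift p ⟨zmultiplesHom W w, by
    change ((p : ℕ) : ℤ) • w = 0
    rw [natCast_zsmul]
    exact hw⟩

lemma zmodHom_intCast (w : W) (hw : p • w = 0) (m : ℤ) :
    zmodHom p w hw (m : ZMod p) = m • w := by
  unfold zmodHom
  rw [ZMod.lift_coe]
  rfl

lemma zmodHom_natCast (w : W) (hw : p • w = 0) (k : ℕ) :
    zmodHom p w hw (k : ZMod p) = k • w := by
  have := zmodHom_intCast p w hw (k : ℤ)
  rw [natCast_zsmul] at this
  rw [← this]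
  simp

/-- Compatibility of `zmodHom` with homomorphisms. -/
lemma map_zmodHom {W' : Type} [AddCommGroup W'] (κ : W →+ W') (w : W) (hw : p • w = 0)
    (hw' : p • κ w = 0) (k : ZMod p) : κ (zmodHom p w hw k) = zmodHom p (κ w) hw' k := by
  obtain ⟨m, rfl⟩ := ZMod.intCast_surjective k
  rw [zmodHom_intCast, zmodHom_intCast, map_zsmul]

end zmodHom

namespace PGen

variable {p : ℕ} [Fact p.Prime] {W : Type} [AddCommGroup W] (g : PGen p W)

/-- The homomorphism `𝔽_p → W`, `k ↦ k • w₀`. -/
noncomputable def eHom : ZMod p →+ W := zmodHom p g.w₀ g.tors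

lemma eHom_intCast (m : ℤ) : g.eHom (m : ZMod p) = m • g.w₀ := zmodHom_intCast p g.w₀ g.tors m

lemma eHom_natCast (k : ℕ) : g.eHom (k : ZMod p) = k • g.w₀ := zmodHom_natCast p g.w₀ g.tors k

lemma eHom_injective : Function.Injective g.eHom := by
  unfold eHom zmodHom
  rw [ZMod.lift_injective]
  intro m hm
  change m • g.w₀ = 0 at hm
  rw [ZMod.intCast_zmod_eq_zero_iff_dvd]
  have h1 := (addOrderOf_dvd_iff_zsmul_eq_zero).2 hm
  rwa [addOrderOf_eq_prime g.tors g.ne] at h1

lemma nsmul_eHom (k : ZMod p) : p • g.eHom k = 0 := by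
  rw [← map_nsmul]
  have : p • k = 0 := by
    rw [nsmul_eq_mul]
    simp
  rw [this, map_zero]

lemma mem_range_eHom (w : W) (hw : p • w = 0) : w ∈ g.eHom.range := by
  obtain ⟨k, rfl⟩ := g.gen w hw
  exact ⟨(k : ZMod p), g.eHom_natCast k⟩

variable (M : Type) [AddCommGroup M] [Module (ZMod p) M]

omit g in
lemma nsmul_eq_zero_of_zmod (m : M) : p • m = 0 := by
  have h1 : ((p : ℕ) : ZMod p) • m = 0 := by
    rw [ZMod.natCast_self, zero_smul]
  rwa [Nat.cast_smul_eq_nsmul] at h1

lemma apply_mem_range_eHom (χ : M →+ W) (m : M) : χ m ∈ g.eHom.range := by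
  apply g.mem_range_eHom
  rw [← map_nsmul, nsmul_eq_zero_of_zmod M m, map_zero]

/-- The additive map `M → 𝔽_p` attached to `χ : M →+ W`. -/
noncomputable def toFp (χ : M →+ W) : M →+ ZMod p :=
  (AddMonoidHom.ofInjective g.eHom_injective).symm.toAddMonoidHom.comp
    (χ.codRestrict g.eHom.range (g.apply_mem_range_eHom M χ))

lemma eHom_toFp (χ : M →+ W) (m : M) : g.eHom (g.toFp M χ m) = χ m := by
  have h := (AddMonoidHom.ofInjective g.eHom_injective).apply_symm_apply
    (χ.codRestrict g.eHom.range (g.apply_mem_range_eHom M χ) m)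
  have h2 := congrArg Subtype.val h
  exact h2

lemma toFp_comp (φ : M →+ ZMod p) : g.toFp M (g.eHom.comp φ) = φ := by
  ext m
  apply g.eHom_injective
  rw [eHom_toFp]
  rfl

/-- `Hom(M, W) ≃+ Dual 𝔽_p M` when the `p`-torsion of `W` is cyclic generated by `w₀ ≠ 0`. -/
noncomputable def homEquivDual : (M →+ W) ≃+ Module.Dual (ZMod p) M where
  toFun χ := AddMonoidHom.toZModLinearMap p (g.toFp M χ)
  invFun φ := g.eHom.comp φ.toAddMonoidHom
  left_inv χ := by
    ext m
    exact g.eHom_toFp M χ m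
  right_inv φ := by
    ext m
    have := g.toFp_comp M φ.toAddMonoidHom
    exact congrArg (fun f => f m) this
  map_add' χ χ' := by
    ext m
    apply g.eHom_injective
    change g.eHom (g.toFp M (χ + χ') m) = g.eHom (g.toFp M χ m + g.toFp M χ' m)
    rw [map_add, eHom_toFp, eHom_toFp, eHom_toFp]
    rfl

lemma eHom_homEquivDual (χ : M →+ W) (m : M) : g.eHom (g.homEquivDual M χ m) = χ m :=
  g.eHom_toFp M χ m

lemma homEquivDual_apply_eq_zero_iff (χ : M →+ W) (m : M) :
    g.homEquivDual M χ m = 0 ↔ χ m = 0 := by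
  rw [← g.eHom_homEquivDual M χ m]
  constructor
  · intro h
    rw [h, map_zero]
  · intro h
    apply g.eHom_injective
    rw [h, map_zero]

lemma homEquivDual_symm_apply (φ : Module.Dual (ZMod p) M) (m : M) :
    (g.homEquivDual M).symm φ m = g.eHom (φ m) := rfl

end PGen

end Fermat.Agent.S55.E1.H353

end
-- ===== PACK-END S55/E1/H353/PTorsion.lean

-- ===== PACK-BEGIN S55/Bridge/LinAlg.lean
section


/-!
# S55 bridge, part B1: pure linear algebra

Two vector spaces of equal finite dimension admit a bilinear pairing which is nondegenerate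
on both sides.  Also: a linear equivalence `V ≃ Dual W` (no finiteness needed) gives one.
-/

set_option autoImplicit false

namespace Fermat.Agent.S55.Bridge

open Module

variable {K V W : Type*} [Field K] [AddCommGroup V] [Module K V] [AddCommGroup W] [Module K W]

/-- A linear equivalence `V ≃ₗ Dual W` is a perfect pairing (in the weak, two-sided
injectivity sense used by the frozen statement S55). -/
theorem exists_pairing_of_equiv_dual (e : V ≃ₗ[K] Module.Dual K W) :
    ∃ B : V →ₗ[K] W →ₗ[K] K,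
      (∀ y, (∀ x, B y x = 0) → y = 0) ∧ (∀ x, (∀ y, B y x = 0) → x = 0) := by
  refine ⟨e.toLinearMap, ?_, ?_⟩
  · intro y hy
    have : e y = 0 := LinearMap.ext hy
    exact e.map_eq_zero_iff.mp this
  · intro x hx
    refine (Module.forall_dual_apply_eq_zero_iff K x).mp ?_
    intro f
    obtain ⟨y, rfl⟩ := e.surjective f
    exact hx y

/-- Two finite-dimensional spaces of the same dimension admit a two-sided nondegenerate pairing. -/
theorem exists_pairing_of_finrank_eq [FiniteDimensional K V] [FiniteDimensional K W]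
    (h : finrank K V = finrank K W) :
    ∃ B : V →ₗ[K] W →ₗ[K] K,
      (∀ y, (∀ x, B y x = 0) → y = 0) ∧ (∀ x, (∀ y, B y x = 0) → x = 0) := by
  have h' : finrank K V = finrank K (Module.Dual K W) := by
    rw [h, Subspace.dual_finrank_eq]
  exact exists_pairing_of_equiv_dual (LinearEquiv.ofFinrankEq V (Module.Dual K W) h')

/-- Variant: it suffices to have injective linear maps in both directions into the duals
(finite-dimensionality is then automatic from one side being finite-dimensional). -/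
theorem exists_pairing_of_injective [FiniteDimensional K W]
    (f : V →ₗ[K] Module.Dual K W) (hf : Function.Injective f)
    (g : W →ₗ[K] Module.Dual K V) (hg : Function.Injective g) :
    ∃ B : V →ₗ[K] W →ₗ[K] K,
      (∀ y, (∀ x, B y x = 0) → y = 0) ∧ (∀ x, (∀ y, B y x = 0) → x = 0) := by
  haveI : FiniteDimensional K V := FiniteDimensional.of_injective f hf
  have h1 : finrank K V ≤ finrank K W := by
    have := LinearMap.finrank_le_finrank_of_injective hf
    rwa [Subspace.dual_finrank_eq] at this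
  have h2 : finrank K W ≤ finrank K V := by
    have := LinearMap.finrank_le_finrank_of_injective hg
    rwa [Subspace.dual_finrank_eq] at this
  exact exists_pairing_of_finrank_eq (le_antisymm h1 h2)

end Fermat.Agent.S55.Bridge

end
-- ===== PACK-END S55/Bridge/LinAlg.lean

-- ===== PACK-BEGIN S55/E1/H295/Alg11Ker.lean
section
/-
S55 engine E1, leaf ALG11 (local injectivity) -- part 1: the kernel of `ρ : P' → P`.
helper295.  Pure additive algebra on `α →₀ ℤ[G']`; complete proofs.

`freeBasisLift v : (α →₀ ℤ[G]) →+ M`, `single a (single g m) ↦ m • v a g`;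
`free_induction`; `ker_vanish`: an additive map on `M ↪ P'` which kills the
lifts of all `g' e_a - s(π g') e_a` kills every element mapping to `ker ρ`.
-/


set_option autoImplicit false

namespace Fermat.Agent.S55.E1.H295

section FreeLift

variable {α G M : Type} [AddCommGroup M]

/-- The additive map `α →₀ ℤ[G] → M` with `single a (single g m) ↦ m • v a g`. -/
noncomputable def freeBasisLift (v : α → G → M) : (α →₀ MonoidAlgebra ℤ G) →+ M :=
  Finsupp.liftAddHom (fun a =>
    (Finsupp.liftAddHom (fun g => zmultiplesHom M (v a g))).comp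
      MonoidAlgebra.coeffAddEquiv.toAddMonoidHom)

@[simp]
lemma freeBasisLift_single_single (v : α → G → M) (a : α) (g : G) (m : ℤ) :
    freeBasisLift v (Finsupp.single a (MonoidAlgebra.single g m)) = m • v a g := by
  simp [freeBasisLift]

lemma zsmul_single_single (a : α) (g : G) (m : ℤ) :
    m • (Finsupp.single a (MonoidAlgebra.single g 1) : α →₀ MonoidAlgebra ℤ G) =
      Finsupp.single a (MonoidAlgebra.single g m) := by
  rw [Finsupp.smul_single, MonoidAlgebra.smul_single, smul_eq_mul, mul_one]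

/-- Induction principle for `α →₀ ℤ[G]`. -/
lemma free_induction {motive : (α →₀ MonoidAlgebra ℤ G) → Prop} (x : α →₀ MonoidAlgebra ℤ G)
    (zero : motive 0) (add : ∀ x y, motive x → motive y → motive (x + y))
    (single : ∀ (a : α) (g : G) (m : ℤ), motive (Finsupp.single a (MonoidAlgebra.single g m))) :
    motive x := by
  induction x using Finsupp.induction_linear with
  | zero => exact zero
  | add x y hx hy => exact add x y hx hy
  | single a b =>
    induction b using MonoidAlgebra.induction_linear with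
    | zero => simpa using zero
    | add x y hx hy =>
      rw [Finsupp.single_add]
      exact add _ _ hx hy
    | single g m => exact single a g m

/-- Two additive maps on `α →₀ ℤ[G]` which agree on the `single a (single g m)` are equal. -/
lemma free_addHom_ext {f f' : (α →₀ MonoidAlgebra ℤ G) →+ M}
    (h : ∀ (a : α) (g : G) (m : ℤ), f (Finsupp.single a (MonoidAlgebra.single g m)) =
      f' (Finsupp.single a (MonoidAlgebra.single g m))) (x : α →₀ MonoidAlgebra ℤ G) :
    f x = f' x := by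
  induction x using free_induction with
  | zero => rw [map_zero, map_zero]
  | add x y hx hy => rw [map_add, map_add, hx, hy]
  | single a g m => exact h a g m

end FreeLift

section Ker

variable {α β G G' M Y : Type} [AddCommGroup M] [AddCommGroup Y]

/-- **Kernel lemma.**  `ρ : α →₀ ℤ[G'] → β →₀ ℤ[G]`, `g' e_a ↦ π(g') e_{ν a}` with `ν` injective
and `s` a section of `π`.  `ι : M → α →₀ ℤ[G']` injective with `ker ρ ⊆ range ι`.  If the
additive map `θ : M → Y` kills every `u` with `ι u = g' e_a - s(π g') e_a`, then `θ` kills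
every `r` with `ρ (ι r) = 0`. -/
theorem ker_vanish (π : G' → G) (s : G → G') (ν : α → β) (hν : Function.Injective ν)
    (ρ : (α →₀ MonoidAlgebra ℤ G') →+ (β →₀ MonoidAlgebra ℤ G))
    (hρ : ∀ (a : α) (g' : G') (m : ℤ), ρ (Finsupp.single a (MonoidAlgebra.single g' m)) =
      Finsupp.single (ν a) (MonoidAlgebra.single (π g') m))
    (hs : ∀ g, π (s g) = g)
    (ι : M →+ (α →₀ MonoidAlgebra ℤ G')) (hι : Function.Injective ι)
    (hker : ∀ x, ρ x = 0 → ∃ r, ι r = x)
    (θ : M →+ Y)
    (hθ : ∀ (a : α) (g' : G') (u : M),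
      ι u = Finsupp.single a (MonoidAlgebra.single g' 1) -
        Finsupp.single a (MonoidAlgebra.single (s (π g')) 1) → θ u = 0)
    (r : M) (hr : ρ (ι r) = 0) : θ r = 0 := by
  classical
  -- the additive section `σ` of `ρ` (on the image)
  let σ : (β →₀ MonoidAlgebra ℤ G) →+ (α →₀ MonoidAlgebra ℤ G') :=
    freeBasisLift (fun b g =>
      if h : ∃ a, ν a = b then Finsupp.single h.choose (MonoidAlgebra.single (s g) 1) else 0)
  have hσ : ∀ (a : α) (g : G) (m : ℤ), σ (Finsupp.single (ν a) (MonoidAlgebra.single g m)) =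
      Finsupp.single a (MonoidAlgebra.single (s g) m) := by
    intro a g m
    have hex : ∃ a', ν a' = ν a := ⟨a, rfl⟩
    have hch : hex.choose = a := hν hex.choose_spec
    simp only [σ, freeBasisLift_single_single, dif_pos hex, hch]
    exact zsmul_single_single a (s g) m
  -- the differences `g' e_a - s(π g') e_a` lift to `M`
  have hlift : ∀ (a : α) (g' : G'), ∃ u : M,
      ι u = Finsupp.single a (MonoidAlgebra.single g' 1) -
        Finsupp.single a (MonoidAlgebra.single (s (π g')) 1) := by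
    intro a g'
    apply hker
    rw [map_sub, hρ, hρ, hs, sub_self]
  choose v hv using hlift
  let Λ : (α →₀ MonoidAlgebra ℤ G') →+ M := freeBasisLift v
  have hΛ : ∀ x, ι (Λ x) = x - σ (ρ x) := by
    intro x
    have := free_addHom_ext (f := ι.comp Λ)
      (f' := AddMonoidHom.id _ - σ.comp ρ) (fun a g' m => by
        simp only [AddMonoidHom.comp_apply, AddMonoidHom.sub_apply, AddMonoidHom.id_apply, Λ,
          freeBasisLift_single_single, map_zsmul, hv, hρ, hσ]
        rw [smul_sub, zsmul_single_single, zsmul_single_single]) x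
    exact this
  have hθΛ : ∀ x, θ (Λ x) = 0 := by
    intro x
    have := free_addHom_ext (f := θ.comp Λ) (f' := 0) (fun a g' m => by
        simp only [AddMonoidHom.comp_apply, AddMonoidHom.zero_apply, Λ,
          freeBasisLift_single_single, map_zsmul, hθ a g' (v a g') (hv a g'), smul_zero]) x
    exact this
  have h1 : Λ (ι r) = r := by
    apply hι
    rw [hΛ, hr, map_zero, sub_zero]
  rw [← h1]
  exact hθΛ _

end Ker

end Fermat.Agent.S55.E1.H295

end
-- ===== PACK-END S55/E1/H295/Alg11Ker.lean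

-- ===== PACK-BEGIN S55/H361/Kummer.lean
section
/-
Multi-generator Kummer theory (leaf KUM of row S55), Mathlib only.

`K` is a field containing a primitive `n`-th root of unity (`[HasEnoughRootsOfUnity K n]`),
`M / K` a field extension.

* `kummerSubgroup K M n : Subgroup Kˣ` : the units of `K` which become `n`-th powers in `M`.
* `powSubgroup K n : Subgroup Kˣ` : the `n`-th powers `Kˣ ^ n`.
* `kummerPairing K M n : Gal(M/K) →* (kummerSubgroup K M n →* rootsOfUnity n K)`,
  `(σ, a) ↦ σ(α)/α` where `α ^ n = a`.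
-/


set_option autoImplicit false

namespace Fermat.Agent.S55.H361

open IntermediateField Polynomial

section Defs

variable (K M : Type*) [Field K] [Field M] [Algebra K M] (n : ℕ)

/-- The subgroup `Kˣ ^ n` of `n`-th powers. -/
def powSubgroup : Subgroup Kˣ := (powMonoidHom n : Kˣ →* Kˣ).range

/-- The Kummer subgroup of `M / K`: the units of `K` that become `n`-th powers in `M`. -/
def kummerSubgroup : Subgroup Kˣ :=
  (powMonoidHom n : Mˣ →* Mˣ).range.comap (Units.map (algebraMap K M : K →* M))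

variable {K M n}

theorem mem_powSubgroup_iff {a : Kˣ} : a ∈ powSubgroup K n ↔ ∃ b : Kˣ, b ^ n = a := Iff.rfl

theorem mem_powSubgroup_iff' {a : Kˣ} : a ∈ powSubgroup K n ↔ ∃ b : K, b ^ n = a := by
  constructor
  · rintro ⟨b, rfl⟩
    exact ⟨b, by simp⟩
  · rintro ⟨b, hb⟩
    by_cases hb0 : b = 0
    · subst hb0
      refine ⟨1, Units.ext ?_⟩
      rcases Nat.eq_zero_or_pos n with hn | hn
      · subst hn
        simpa using hb
      · rw [zero_pow hn.ne'] at hb
        exact absurd hb.symm a.ne_zero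
    · exact ⟨Units.mk0 b hb0, Units.ext (by simpa using hb)⟩

theorem mem_kummerSubgroup_iff {a : Kˣ} :
    a ∈ kummerSubgroup K M n ↔ ∃ β : Mˣ, β ^ n = Units.map (algebraMap K M : K →* M) a :=
  Iff.rfl

theorem mem_kummerSubgroup_iff' {a : Kˣ} :
    a ∈ kummerSubgroup K M n ↔ ∃ β : M, β ^ n = algebraMap K M a := by
  constructor
  · rintro ⟨β, hβ⟩
    refine ⟨β, ?_⟩
    have := congrArg Units.val hβ
    simpa using this
  · rintro ⟨β, hβ⟩
    by_cases hb0 : β = 0
    · subst hb0
      refine ⟨1, Units.ext ?_⟩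
      rcases Nat.eq_zero_or_pos n with hn | hn
      · subst hn
        simpa using hβ
      · rw [zero_pow hn.ne'] at hβ
        have h0 : algebraMap K M a ≠ 0 := by
          simpa using a.ne_zero
        exact absurd hβ.symm h0
    · exact ⟨Units.mk0 β hb0, Units.ext (by simpa using hβ)⟩

theorem powSubgroup_le_kummerSubgroup : powSubgroup K n ≤ kummerSubgroup K M n := by
  rintro a ⟨b, rfl⟩
  exact ⟨Units.map (algebraMap K M : K →* M) b, by simp [map_pow]⟩

theorem pow_mem_powSubgroup (a : Kˣ) : a ^ n ∈ powSubgroup K n := ⟨a, rfl⟩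

end Defs

section Pairing

variable {K M : Type*} [Field K] [Field M] [Algebra K M] {n : ℕ} [NeZero n]
  [HasEnoughRootsOfUnity K n]

/-- Every `n`-th root of unity of `M` comes from `K`. -/
theorem exists_rootsOfUnity_eq_of_pow_eq_one {η : M} (hη : η ^ n = 1) :
    ∃ ζ : rootsOfUnity n K, algebraMap K M ((ζ : Kˣ) : K) = η := by
  obtain ⟨ζ₀, hζ₀⟩ := HasEnoughRootsOfUnity.exists_primitiveRoot K n
  have hM : IsPrimitiveRoot (algebraMap K M ζ₀) n :=
    hζ₀.map_of_injective (algebraMap K M).injective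
  obtain ⟨i, -, hi⟩ := hM.eq_pow_of_pow_eq_one hη
  have hu : IsUnit ζ₀ := hζ₀.isUnit (NeZero.ne n)
  refine ⟨⟨hu.unit ^ i, ?_⟩, ?_⟩
  · rw [mem_rootsOfUnity]
    ext
    simp only [Units.val_pow_eq_pow_val, IsUnit.unit_spec, Units.val_one]
    rw [← pow_mul, mul_comm, pow_mul, hζ₀.pow_eq_one, one_pow]
  · simp [← hi]

/-- For `σ ∈ Gal(M/K)` and `a` in the Kummer subgroup there is an `n`-th root of unity `ζ ∈ K`
with `σ β = ζ β` for every `n`-th root `β` of `a` in `M`. -/
theorem exists_kummer_root (σ : M ≃ₐ[K] M) {a : Kˣ} (ha : a ∈ kummerSubgroup K M n) :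
    ∃ ζ : rootsOfUnity n K, ∀ β : M, β ^ n = algebraMap K M a →
      σ β = algebraMap K M ((ζ : Kˣ) : K) * β := by
  obtain ⟨α, hα⟩ := mem_kummerSubgroup_iff'.1 ha
  have ha0 : algebraMap K M a ≠ 0 := by simpa using a.ne_zero
  have hα0 : α ≠ 0 := by
    rintro rfl
    rw [zero_pow (NeZero.ne n)] at hα
    exact ha0 hα.symm
  have h1 : (σ α / α) ^ n = 1 := by
    rw [div_pow, ← map_pow, hα, AlgEquiv.commutes, div_self ha0]
  obtain ⟨ζ, hζ⟩ := exists_rootsOfUnity_eq_of_pow_eq_one (K := K) h1
  refine ⟨ζ, fun β hβ => ?_⟩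
  have h2 : (β / α) ^ n = 1 := by
    rw [div_pow, hβ, hα, div_self ha0]
  obtain ⟨η, hη⟩ := exists_rootsOfUnity_eq_of_pow_eq_one (K := K) h2
  have hβ' : β = algebraMap K M ((η : Kˣ) : K) * α := by
    rw [hη]; field_simp
  have hσα : σ α = algebraMap K M ((ζ : Kˣ) : K) * α := by
    rw [hζ]; field_simp
  rw [hβ', map_mul, AlgEquiv.commutes, hσα]
  ring

variable (K M n) in
/-- The Kummer pairing as a function: `kummerRoot σ a = σ(α)/α` where `α ^ n = a`. -/
noncomputable def kummerRoot (σ : M ≃ₐ[K] M) (a : kummerSubgroup K M n) : rootsOfUnity n K :=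
  Classical.choose (exists_kummer_root σ a.2)

theorem kummerRoot_spec (σ : M ≃ₐ[K] M) (a : kummerSubgroup K M n) {β : M}
    (hβ : β ^ n = algebraMap K M ((a : Kˣ) : K)) :
    σ β = algebraMap K M ((kummerRoot K M n σ a : Kˣ) : K) * β :=
  Classical.choose_spec (exists_kummer_root σ a.2) β hβ

theorem kummerRoot_eq_of (σ : M ≃ₐ[K] M) (a : kummerSubgroup K M n) {β : M}
    (hβ : β ^ n = algebraMap K M ((a : Kˣ) : K)) {ζ : rootsOfUnity n K}
    (h : σ β = algebraMap K M ((ζ : Kˣ) : K) * β) : kummerRoot K M n σ a = ζ := by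
  have ha0 : algebraMap K M ((a : Kˣ) : K) ≠ 0 := by simpa using (a : Kˣ).ne_zero
  have hβ0 : β ≠ 0 := by
    rintro rfl
    rw [zero_pow (NeZero.ne n)] at hβ
    exact ha0 hβ.symm
  have := kummerRoot_spec σ a hβ
  rw [h] at this
  have h3 := mul_right_cancel₀ hβ0 this
  have h4 := (algebraMap K M).injective h3
  exact (Subtype.ext (Units.ext h4)).symm

theorem kummerRoot_eq_iff (σ : M ≃ₐ[K] M) (a : kummerSubgroup K M n) {β : M}
    (hβ : β ^ n = algebraMap K M ((a : Kˣ) : K)) {ζ : rootsOfUnity n K} :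
    kummerRoot K M n σ a = ζ ↔ σ β = algebraMap K M ((ζ : Kˣ) : K) * β :=
  ⟨fun h => h ▸ kummerRoot_spec σ a hβ, kummerRoot_eq_of σ a hβ⟩

theorem kummerRoot_eq_one_iff (σ : M ≃ₐ[K] M) (a : kummerSubgroup K M n) {β : M}
    (hβ : β ^ n = algebraMap K M ((a : Kˣ) : K)) :
    kummerRoot K M n σ a = 1 ↔ σ β = β := by
  rw [kummerRoot_eq_iff σ a hβ]
  simp

theorem exists_root_of_mem (a : kummerSubgroup K M n) :
    ∃ β : M, β ^ n = algebraMap K M ((a : Kˣ) : K) :=
  mem_kummerSubgroup_iff'.1 a.2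

theorem kummerRoot_mul_right (σ : M ≃ₐ[K] M) (a b : kummerSubgroup K M n) :
    kummerRoot K M n σ (a * b) = kummerRoot K M n σ a * kummerRoot K M n σ b := by
  obtain ⟨α, hα⟩ := exists_root_of_mem a
  obtain ⟨β, hβ⟩ := exists_root_of_mem b
  have hαβ : (α * β) ^ n = algebraMap K M (((a * b : kummerSubgroup K M n) : Kˣ) : K) := by
    simp [mul_pow, hα, hβ]
  apply kummerRoot_eq_of σ (a * b) hαβ
  rw [map_mul, kummerRoot_spec σ a hα, kummerRoot_spec σ b hβ]
  simp only [Subgroup.coe_mul, Units.val_mul, map_mul]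
  ring

theorem kummerRoot_one_right (σ : M ≃ₐ[K] M) :
    kummerRoot K M n σ 1 = 1 := by
  have h1 : (1 : M) ^ n = algebraMap K M (((1 : kummerSubgroup K M n) : Kˣ) : K) := by simp
  apply kummerRoot_eq_of σ 1 h1
  simp

theorem kummerRoot_mul_left (σ τ : M ≃ₐ[K] M) (a : kummerSubgroup K M n) :
    kummerRoot K M n (σ * τ) a = kummerRoot K M n σ a * kummerRoot K M n τ a := by
  obtain ⟨α, hα⟩ := exists_root_of_mem a
  apply kummerRoot_eq_of (σ * τ) a hα
  rw [AlgEquiv.mul_apply, kummerRoot_spec τ a hα, map_mul, AlgEquiv.commutes,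
    kummerRoot_spec σ a hα]
  simp only [Subgroup.coe_mul, Units.val_mul, map_mul]
  ring

theorem kummerRoot_one_left (a : kummerSubgroup K M n) :
    kummerRoot K M n 1 a = 1 := by
  obtain ⟨α, hα⟩ := exists_root_of_mem a
  apply kummerRoot_eq_of 1 a hα
  simp

variable (K M n) in
/-- The Kummer pairing `Gal(M/K) →* (Δ →* μ_n(K))`, `(σ, a) ↦ σ(α)/α` with `α ^ n = a`. -/
noncomputable def kummerPairing :
    (M ≃ₐ[K] M) →* (kummerSubgroup K M n →* rootsOfUnity n K) where
  toFun σ :=
    { toFun := kummerRoot K M n σ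
      map_one' := kummerRoot_one_right σ
      map_mul' := kummerRoot_mul_right σ }
  map_one' := by
    ext a
    simp [kummerRoot_one_left]
  map_mul' σ τ := by
    ext a
    simp [kummerRoot_mul_left]

@[simp]
theorem kummerPairing_apply (σ : M ≃ₐ[K] M) (a : kummerSubgroup K M n) :
    kummerPairing K M n σ a = kummerRoot K M n σ a := rfl

variable (K M n) in
/-- The flipped Kummer pairing `Δ →* (Gal(M/K) →* μ_n(K))`. -/
noncomputable def kummerDual :
    kummerSubgroup K M n →* ((M ≃ₐ[K] M) →* rootsOfUnity n K) :=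
  (kummerPairing K M n).flip

@[simp]
theorem kummerDual_apply (σ : M ≃ₐ[K] M) (a : kummerSubgroup K M n) :
    kummerDual K M n a σ = kummerRoot K M n σ a := rfl

end Pairing

section Galois

variable {K M : Type*} [Field K] [Field M] [Algebra K M] {n : ℕ} [NeZero n]
  [HasEnoughRootsOfUnity K n]

/-- The pairing is trivial on `n`-th powers. -/
theorem kummerRoot_eq_one_of_mem_powSubgroup (σ : M ≃ₐ[K] M) (a : kummerSubgroup K M n)
    (ha : (a : Kˣ) ∈ powSubgroup K n) : kummerRoot K M n σ a = 1 := by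
  obtain ⟨b, hb⟩ := ha
  have hβ : (algebraMap K M (b : K)) ^ n = algebraMap K M ((a : Kˣ) : K) := by
    rw [← map_pow, ← hb]; simp
  rw [kummerRoot_eq_one_iff σ a hβ, AlgEquiv.commutes]

/-- For a Galois extension (possibly infinite), the right kernel of the Kummer pairing is
`Kˣ ^ n`. -/
theorem kummerDual_eq_one_iff [IsGalois K M] (a : kummerSubgroup K M n) :
    kummerDual K M n a = 1 ↔ (a : Kˣ) ∈ powSubgroup K n := by
  constructor
  · intro h
    obtain ⟨β, hβ⟩ := exists_root_of_mem a
    have hfix : ∀ σ : M ≃ₐ[K] M, σ β = β := fun σ => by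
      rw [← kummerRoot_eq_one_iff σ a hβ, ← kummerDual_apply, h]; rfl
    obtain ⟨b, rfl⟩ := (InfiniteGalois.mem_range_algebraMap_iff_fixed β).2 hfix
    rw [mem_powSubgroup_iff']
    refine ⟨b, (algebraMap K M).injective ?_⟩
    rw [map_pow, hβ]
  · intro h
    ext σ
    rw [kummerDual_apply, kummerRoot_eq_one_of_mem_powSubgroup σ a h]
    rfl

theorem kummerDual_ker [IsGalois K M] :
    (kummerDual K M n).ker = (powSubgroup K n).subgroupOf (kummerSubgroup K M n) := by
  ext a
  rw [MonoidHom.mem_ker, kummerDual_eq_one_iff, Subgroup.mem_subgroupOf]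

/-- **Kummer theory, Hilbert 90 step**: for a finite Galois extension, every character
`Gal(M/K) → μ_n(K)` is of the form `σ ↦ σ(α)/α` with `α ^ n ∈ K`. -/
theorem kummerDual_surjective [FiniteDimensional K M] [IsGalois K M] :
    Function.Surjective (kummerDual K M n) := by
  intro χ
  let f : (M ≃ₐ[K] M) → Mˣ := fun σ => Units.map (algebraMap K M : K →* M) (χ σ : Kˣ)
  have hf : groupCohomology.IsMulCocycle₁ f := by
    intro g h
    simp only [f, map_mul, AlgEquiv.smul_units_def]
    ext
    simp [mul_comm]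
  obtain ⟨β, hβ⟩ := groupCohomology.isMulCoboundary₁_of_isMulCocycle₁_of_aut_to_units f hf
  have hβ' : ∀ σ : M ≃ₐ[K] M, σ (β : M) = algebraMap K M ((χ σ : Kˣ) : K) * β := by
    intro σ
    have := congrArg Units.val (hβ σ)
    simp only [f, AlgEquiv.smul_units_def, Units.val_div_eq_div_val, Units.coe_map,
      MonoidHom.coe_coe] at this
    rw [div_eq_iff β.ne_zero] at this
    simpa using this
  have hfix : ∀ σ : M ≃ₐ[K] M, σ ((β : M) ^ n) = (β : M) ^ n := by
    intro σ
    rw [map_pow, hβ' σ, mul_pow, ← map_pow]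
    have : ((χ σ : Kˣ) : K) ^ n = 1 := by
      have h := (mem_rootsOfUnity _ _).1 (χ σ).2
      have := congrArg Units.val h
      simpa using this
    rw [this, map_one, one_mul]
  obtain ⟨a, ha⟩ := (InfiniteGalois.mem_range_algebraMap_iff_fixed ((β : M) ^ n)).2 hfix
  have ha0 : a ≠ 0 := by
    rintro rfl
    rw [map_zero] at ha
    exact pow_ne_zero n β.ne_zero ha.symm
  have haΔ : Units.mk0 a ha0 ∈ kummerSubgroup K M n :=
    mem_kummerSubgroup_iff'.2 ⟨β, by simp [ha]⟩
  refine ⟨⟨Units.mk0 a ha0, haΔ⟩, ?_⟩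
  ext1 σ
  rw [kummerDual_apply]
  exact kummerRoot_eq_of σ _ (β := (β : M)) (by simp [ha]) (hβ' σ)

/-- **Kummer theory**: for a finite Galois extension `M / K` (with `μ_n ⊆ K`),
`Δ / Kˣ^n ≃ Hom(Gal(M/K), μ_n)` where `Δ = Kˣ ∩ Mˣ^n`. -/
noncomputable def kummerQuotientEquiv [FiniteDimensional K M] [IsGalois K M] :
    (kummerSubgroup K M n ⧸ (kummerDual K M n).ker) ≃* ((M ≃ₐ[K] M) →* rootsOfUnity n K) :=
  QuotientGroup.quotientKerEquivOfSurjective _ kummerDual_surjective

theorem relIndex_powSubgroup_kummerSubgroup [FiniteDimensional K M] [IsGalois K M] :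
    (powSubgroup K n).relIndex (kummerSubgroup K M n) =
      Nat.card ((M ≃ₐ[K] M) →* rootsOfUnity n K) := by
  rw [Subgroup.relIndex, ← kummerDual_ker, Subgroup.index_ker,
    MonoidHom.range_eq_top.2 kummerDual_surjective]
  exact Nat.card_congr Subgroup.topEquiv.toEquiv

end Galois

section Duality

variable (K : Type*) [Field K] (n : ℕ) [NeZero n] [HasEnoughRootsOfUnity K n]

/-- For a group killed by `n`, characters with values in `Kˣ` are the same as characters with
values in `μ_n(K)`. -/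
def homRootsOfUnityEquiv (G : Type*) [Group G] (hexp : ∀ g : G, g ^ n = 1) :
    (G →* rootsOfUnity n K) ≃ (G →* Kˣ) where
  toFun χ := (rootsOfUnity n K).subtype.comp χ
  invFun ψ := ψ.codRestrict (rootsOfUnity n K) (fun g => by
    rw [mem_rootsOfUnity, ← map_pow, hexp, map_one])
  left_inv χ := by ext; rfl
  right_inv ψ := by ext; rfl

/-- A finite abelian group killed by `n` has as many `μ_n(K)`-valued characters as elements. -/
theorem card_hom_rootsOfUnity (G : Type*) [Group G] [Finite G]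
    (hcomm : ∀ a b : G, a * b = b * a) (hexp : ∀ g : G, g ^ n = 1) :
    Nat.card (G →* rootsOfUnity n K) = Nat.card G := by
  rw [Nat.card_congr (homRootsOfUnityEquiv K n G hexp)]
  letI : CommGroup G := { (inferInstance : Group G) with mul_comm := hcomm }
  haveI : HasEnoughRootsOfUnity K (Monoid.exponent G) :=
    HasEnoughRootsOfUnity.of_dvd K (Monoid.exponent_dvd_of_forall_pow_eq_one hexp)
  exact CommGroup.card_monoidHom_of_hasEnoughRootsOfUnity G K

/-- `μ_n(K)`-valued characters separate the points of a finite abelian group killed by `n`. -/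
theorem exists_hom_rootsOfUnity_ne_one (G : Type*) [Group G] [Finite G]
    (hcomm : ∀ a b : G, a * b = b * a) (hexp : ∀ g : G, g ^ n = 1) {g : G} (hg : g ≠ 1) :
    ∃ χ : G →* rootsOfUnity n K, χ g ≠ 1 := by
  letI : CommGroup G := { (inferInstance : Group G) with mul_comm := hcomm }
  haveI : HasEnoughRootsOfUnity K (Monoid.exponent G) :=
    HasEnoughRootsOfUnity.of_dvd K (Monoid.exponent_dvd_of_forall_pow_eq_one hexp)
  obtain ⟨φ, hφ⟩ := CommGroup.exists_apply_ne_one_of_hasEnoughRootsOfUnity G K hg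
  refine ⟨(homRootsOfUnityEquiv K n G hexp).symm φ, fun h => hφ ?_⟩
  have := congrArg (fun x : rootsOfUnity n K => (x : Kˣ)) h
  simpa [homRootsOfUnityEquiv] using this

instance finite_hom_rootsOfUnity (G : Type*) [Group G] [Finite G] :
    Finite (G →* rootsOfUnity n K) :=
  Finite.of_injective (fun f => (f : G → rootsOfUnity n K)) DFunLike.coe_injective

end Duality

section Abelian

variable {K M : Type*} [Field K] [Field M] [Algebra K M] {n : ℕ} [NeZero n]
  [HasEnoughRootsOfUnity K n]

/-- **Kummer theory, degree formula** (Galois side): if `M / K` is finite Galois with abelian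
Galois group killed by `n`, then `[Δ : Kˣ^n] = [M : K]`. -/
theorem relIndex_powSubgroup_kummerSubgroup_eq_finrank [FiniteDimensional K M] [IsGalois K M]
    (hcomm : ∀ σ τ : M ≃ₐ[K] M, σ * τ = τ * σ) (hexp : ∀ σ : M ≃ₐ[K] M, σ ^ n = 1) :
    (powSubgroup K n).relIndex (kummerSubgroup K M n) = Module.finrank K M := by
  rw [relIndex_powSubgroup_kummerSubgroup, card_hom_rootsOfUnity K n _ hcomm hexp,
    IsGalois.card_aut_eq_finrank]

/-- **Kummer theory, left nondegeneracy** (Galois side): if `M / K` is finite Galois with abelian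
Galois group killed by `n`, an automorphism fixing all `n`-th roots of elements of `K` is
trivial. -/
theorem exists_kummerRoot_ne_one [FiniteDimensional K M] [IsGalois K M]
    (hcomm : ∀ σ τ : M ≃ₐ[K] M, σ * τ = τ * σ) (hexp : ∀ σ : M ≃ₐ[K] M, σ ^ n = 1)
    {σ : M ≃ₐ[K] M} (hσ : σ ≠ 1) :
    ∃ a : kummerSubgroup K M n, kummerRoot K M n σ a ≠ 1 := by
  obtain ⟨χ, hχ⟩ := exists_hom_rootsOfUnity_ne_one K n _ hcomm hexp hσ
  obtain ⟨a, rfl⟩ := kummerDual_surjective (K := K) (M := M) (n := n) χ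
  exact ⟨a, hχ⟩

theorem kummerPairing_injective [FiniteDimensional K M] [IsGalois K M]
    (hcomm : ∀ σ τ : M ≃ₐ[K] M, σ * τ = τ * σ) (hexp : ∀ σ : M ≃ₐ[K] M, σ ^ n = 1) :
    Function.Injective (kummerPairing K M n) := by
  rw [injective_iff_map_eq_one]
  intro σ hσ
  by_contra hne
  obtain ⟨a, ha⟩ := exists_kummerRoot_ne_one hcomm hexp hne
  apply ha
  rw [← kummerPairing_apply, hσ]
  rfl

/-- The set of all `n`-th roots in `M` of elements of a subgroup `A ≤ Kˣ`. -/
def rootSetOf (M : Type*) [Field M] [Algebra K M] (n : ℕ) (A : Subgroup Kˣ) : Set M :=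
  {β : M | ∃ a ∈ A, β ^ n = algebraMap K M ((a : Kˣ) : K)}

/-- **Every abelian extension of exponent `n` is a Kummer extension**: if `M / K` is finite
Galois with abelian Galois group killed by `n`, then `M` is generated by `n`-th roots of
elements of `K`. -/
theorem adjoin_rootSetOf_kummerSubgroup_eq_top [FiniteDimensional K M] [IsGalois K M]
    (hcomm : ∀ σ τ : M ≃ₐ[K] M, σ * τ = τ * σ) (hexp : ∀ σ : M ≃ₐ[K] M, σ ^ n = 1) :
    IntermediateField.adjoin K (rootSetOf M n (kummerSubgroup K M n)) = ⊤ := by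
  set F := IntermediateField.adjoin K (rootSetOf M n (kummerSubgroup K M n)) with hF
  have h1 : F.fixingSubgroup = ⊥ := by
    rw [eq_bot_iff]
    intro σ hσ
    rw [Subgroup.mem_bot]
    by_contra hne
    obtain ⟨a, ha⟩ := exists_kummerRoot_ne_one hcomm hexp hne
    apply ha
    obtain ⟨β, hβ⟩ := exists_root_of_mem a
    rw [kummerRoot_eq_one_iff σ a hβ]
    exact (IntermediateField.mem_fixingSubgroup_iff F σ).1 hσ β
      (IntermediateField.subset_adjoin K _ ⟨a, a.2, hβ⟩)
  rw [← IsGalois.fixedField_fixingSubgroup F, h1, IntermediateField.fixedField_bot]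

end Abelian

section Generated

variable {K M : Type*} [Field K] [Field M] [Algebra K M] {n : ℕ} [NeZero n]
  [HasEnoughRootsOfUnity K n] {A : Subgroup Kˣ}

theorem natCast_ne_zero_of_hasEnoughRootsOfUnity (K : Type*) [Field K] (n : ℕ) [NeZero n]
    [HasEnoughRootsOfUnity K n] : (n : K) ≠ 0 := by
  obtain ⟨ζ₀, hζ₀⟩ := HasEnoughRootsOfUnity.exists_primitiveRoot K n
  exact (hζ₀.neZero').ne

theorem rootSetOf_spec {β : M} (hβ : β ∈ rootSetOf M n A) :
    IsIntegral K β ∧ ((minpoly K β).map (algebraMap K M)).Splits ∧ IsSeparable K β := by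
  obtain ⟨a, -, ha⟩ := hβ
  obtain ⟨ζ₀, hζ₀⟩ := HasEnoughRootsOfUnity.exists_primitiveRoot K n
  have hM : IsPrimitiveRoot (algebraMap K M ζ₀) n :=
    hζ₀.map_of_injective (algebraMap K M).injective
  have hroot : Polynomial.aeval β (X ^ n - C ((a : Kˣ) : K)) = 0 := by
    simp [ha]
  have hmonic : (X ^ n - C ((a : Kˣ) : K)).Monic := monic_X_pow_sub_C _ (NeZero.ne n)
  have hint : IsIntegral K β := ⟨_, hmonic, hroot⟩
  have hdvd : minpoly K β ∣ X ^ n - C ((a : Kˣ) : K) := minpoly.dvd K β hroot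
  have hsplit : ((X ^ n - C ((a : Kˣ) : K)).map (algebraMap K M)).Splits := by
    have := X_pow_sub_C_splits_of_isPrimitiveRoot hM ha
    simpa using this
  have hsep : (X ^ n - C ((a : Kˣ) : K)).Separable :=
    separable_X_pow_sub_C _ (natCast_ne_zero_of_hasEnoughRootsOfUnity K n) a.ne_zero
  refine ⟨hint, ?_, hsep.of_dvd hdvd⟩
  exact hsplit.of_dvd (Polynomial.map_ne_zero hmonic.ne_zero) (Polynomial.map_dvd _ hdvd)

/-- An extension generated by `n`-th roots of elements of `K` (where `μ_n ⊆ K`) is Galois. -/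
theorem isGalois_of_adjoin_rootSetOf_eq_top
    (hgen : IntermediateField.adjoin K (rootSetOf M n A) = ⊤) : IsGalois K M := by
  have halg : Algebra.IsAlgebraic K (IntermediateField.adjoin K (rootSetOf M n A)) :=
    IntermediateField.isAlgebraic_adjoin fun x hx => (rootSetOf_spec hx).1
  have hint : ∀ x : M, IsIntegral K x := by
    intro x
    have hx : x ∈ IntermediateField.adjoin K (rootSetOf M n A) := hgen ▸ IntermediateField.mem_top
    have := (halg.isAlgebraic ⟨x, hx⟩).isIntegral
    exact (isIntegral_algHom_iff (IntermediateField.adjoin K (rootSetOf M n A)).val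
      Subtype.val_injective).2 this
  have hnormal : Normal K M := normal_iff.2 fun x =>
    ⟨hint x, IntermediateField.splits_of_mem_adjoin K M
      (fun y hy => ⟨(rootSetOf_spec hy).1, (rootSetOf_spec hy).2.1⟩)
      (hgen ▸ IntermediateField.mem_top)⟩
  have hsep' : Algebra.IsSeparable K (IntermediateField.adjoin K (rootSetOf M n A)) :=
    (IntermediateField.isSeparable_adjoin_iff_isSeparable K M).2
      fun x hx => (rootSetOf_spec hx).2.2
  have hsep : Algebra.IsSeparable K M := by
    rw [hgen] at hsep'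
    exact (IntermediateField.isSeparable_top K M).1 hsep'
  exact ⟨⟩

/-- An automorphism fixing all the generating roots is trivial. -/
theorem eq_one_of_forall_rootSetOf
    (hgen : IntermediateField.adjoin K (rootSetOf M n A) = ⊤) {σ : M ≃ₐ[K] M}
    (hσ : ∀ β ∈ rootSetOf M n A, σ β = β) : σ = 1 := by
  have h1 : IntermediateField.adjoin K (rootSetOf M n A) ≤
      IntermediateField.fixedField (Subgroup.zpowers σ) := by
    rw [IntermediateField.adjoin_le_iff]
    intro β hβ
    rw [SetLike.mem_coe, IntermediateField.mem_fixedField_iff]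
    intro τ hτ
    obtain ⟨k, rfl⟩ := Subgroup.mem_zpowers_iff.1 hτ
    have hfix : σ ∈ MulAction.stabilizer (M ≃ₐ[K] M) β := hσ β hβ
    exact (zpow_mem hfix k : σ ^ k ∈ MulAction.stabilizer (M ≃ₐ[K] M) β)
  ext x
  have hx : x ∈ IntermediateField.fixedField (Subgroup.zpowers σ) :=
    h1 (hgen ▸ IntermediateField.mem_top)
  exact (IntermediateField.mem_fixedField_iff _ _).1 hx σ (Subgroup.mem_zpowers σ)

variable (M n) in
/-- The Kummer pairing restricted to a subgroup `A` of the Kummer group. -/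
noncomputable def kummerPairingOn (hA : A ≤ kummerSubgroup K M n) :
    (M ≃ₐ[K] M) →* (A →* rootsOfUnity n K) where
  toFun σ := (kummerPairing K M n σ).comp (Subgroup.inclusion hA)
  map_one' := by ext; simp
  map_mul' σ τ := by ext; simp

@[simp]
theorem kummerPairingOn_apply (hA : A ≤ kummerSubgroup K M n) (σ : M ≃ₐ[K] M) (a : A) :
    kummerPairingOn M n hA σ a = kummerRoot K M n σ (Subgroup.inclusion hA a) := rfl

theorem kummerPairingOn_injective (hA : A ≤ kummerSubgroup K M n)
    (hgen : IntermediateField.adjoin K (rootSetOf M n A) = ⊤) :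
    Function.Injective (kummerPairingOn M n hA) := by
  rw [injective_iff_map_eq_one]
  intro σ hσ
  apply eq_one_of_forall_rootSetOf hgen
  rintro β ⟨a, ha, hβ⟩
  have h1 : kummerRoot K M n σ (Subgroup.inclusion hA ⟨a, ha⟩) = 1 := by
    rw [← kummerPairingOn_apply, hσ]; rfl
  exact (kummerRoot_eq_one_iff σ _ (by simpa using hβ)).1 h1

/-- The Galois group of a Kummer extension is abelian. -/
theorem mul_comm_of_adjoin_rootSetOf_eq_top (hA : A ≤ kummerSubgroup K M n)
    (hgen : IntermediateField.adjoin K (rootSetOf M n A) = ⊤) (σ τ : M ≃ₐ[K] M) :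
    σ * τ = τ * σ := by
  apply kummerPairingOn_injective hA hgen
  rw [map_mul, map_mul, mul_comm]

/-- The Galois group of a Kummer extension is killed by `n`. -/
theorem pow_eq_one_of_adjoin_rootSetOf_eq_top (hA : A ≤ kummerSubgroup K M n)
    (hgen : IntermediateField.adjoin K (rootSetOf M n A) = ⊤) (σ : M ≃ₐ[K] M) :
    σ ^ n = 1 := by
  apply kummerPairingOn_injective hA hgen
  rw [map_pow, map_one]
  ext a
  have h := (mem_rootsOfUnity _ _).1 (kummerPairingOn M n hA σ a).2
  simpa using congrArg Units.val h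

variable (M n) in
/-- The Kummer pairing `Gal(M/K) →* (A ⧸ Kˣ^n →* μ_n(K))`. -/
noncomputable def kummerPairingQuot (hA : A ≤ kummerSubgroup K M n) :
    (M ≃ₐ[K] M) →* ((A ⧸ (powSubgroup K n).subgroupOf A) →* rootsOfUnity n K) where
  toFun σ := QuotientGroup.lift _ (kummerPairingOn M n hA σ) (by
    intro a ha
    rw [Subgroup.mem_subgroupOf] at ha
    exact kummerRoot_eq_one_of_mem_powSubgroup σ _ ha)
  map_one' := by
    refine MonoidHom.ext fun x => ?_
    induction x using QuotientGroup.induction_on with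
    | H a =>
      change kummerPairingOn M n hA 1 a = 1
      rw [map_one]; rfl
  map_mul' σ τ := by
    refine MonoidHom.ext fun x => ?_
    induction x using QuotientGroup.induction_on with
    | H a =>
      change kummerPairingOn M n hA (σ * τ) a =
        kummerPairingOn M n hA σ a * kummerPairingOn M n hA τ a
      rw [map_mul]; rfl

@[simp]
theorem kummerPairingQuot_mk (hA : A ≤ kummerSubgroup K M n) (σ : M ≃ₐ[K] M) (a : A) :
    kummerPairingQuot M n hA σ (QuotientGroup.mk a) =
      kummerRoot K M n σ (Subgroup.inclusion hA a) := rfl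

theorem kummerPairingQuot_injective (hA : A ≤ kummerSubgroup K M n)
    (hgen : IntermediateField.adjoin K (rootSetOf M n A) = ⊤) :
    Function.Injective (kummerPairingQuot M n hA) := by
  intro σ τ h
  apply kummerPairingOn_injective hA hgen
  ext1 a
  have := DFunLike.congr_fun h (QuotientGroup.mk a)
  simpa using this

end Generated

section Main

variable {K M : Type*} [Field K] [Field M] [Algebra K M] {n : ℕ} [NeZero n]
  [HasEnoughRootsOfUnity K n] {A : Subgroup Kˣ}

theorem quotient_powSubgroup_pow_eq_one (A : Subgroup Kˣ) (n : ℕ)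
    (x : A ⧸ (powSubgroup K n).subgroupOf A) : x ^ n = 1 := by
  induction x using QuotientGroup.induction_on with
  | H a =>
    rw [← QuotientGroup.mk_pow, QuotientGroup.eq_one_iff, Subgroup.mem_subgroupOf]
    exact ⟨(a : Kˣ), by simp⟩

theorem card_hom_quotient_powSubgroup (hfin : (powSubgroup K n).relIndex A ≠ 0) :
    Nat.card ((A ⧸ (powSubgroup K n).subgroupOf A) →* rootsOfUnity n K) =
      (powSubgroup K n).relIndex A := by
  haveI : Finite (A ⧸ (powSubgroup K n).subgroupOf A) :=
    Subgroup.index_ne_zero_iff_finite.1 hfin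
  rw [card_hom_rootsOfUnity K n _ (fun a b => mul_comm a b)
    (quotient_powSubgroup_pow_eq_one A n)]
  rfl

theorem finite_aut_of_adjoin_rootSetOf_eq_top (hA : A ≤ kummerSubgroup K M n)
    (hgen : IntermediateField.adjoin K (rootSetOf M n A) = ⊤)
    (hfin : (powSubgroup K n).relIndex A ≠ 0) : Finite (M ≃ₐ[K] M) := by
  haveI : Finite (A ⧸ (powSubgroup K n).subgroupOf A) :=
    Subgroup.index_ne_zero_iff_finite.1 hfin
  exact Finite.of_injective _ (kummerPairingQuot_injective hA hgen)

theorem card_aut_le_relIndex (hA : A ≤ kummerSubgroup K M n)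
    (hgen : IntermediateField.adjoin K (rootSetOf M n A) = ⊤)
    (hfin : (powSubgroup K n).relIndex A ≠ 0) :
    Nat.card (M ≃ₐ[K] M) ≤ (powSubgroup K n).relIndex A := by
  haveI : Finite (A ⧸ (powSubgroup K n).subgroupOf A) :=
    Subgroup.index_ne_zero_iff_finite.1 hfin
  rw [← card_hom_quotient_powSubgroup hfin]
  exact Nat.card_le_card_of_injective _ (kummerPairingQuot_injective hA hgen)

/-- A Kummer extension `K(A^{1/n})` with `[A : Kˣ^n] < ∞` is finite. -/
theorem finiteDimensional_of_adjoin_rootSetOf_eq_top (hA : A ≤ kummerSubgroup K M n)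
    (hgen : IntermediateField.adjoin K (rootSetOf M n A) = ⊤)
    (hfin : (powSubgroup K n).relIndex A ≠ 0) : FiniteDimensional K M := by
  haveI := isGalois_of_adjoin_rootSetOf_eq_top hgen
  haveI := finite_aut_of_adjoin_rootSetOf_eq_top hA hgen hfin
  exact IsGaloisGroup.finiteDimensional (M ≃ₐ[K] M) K M

/-- **Kummer theory, main theorem** (group side): if `Kˣ^n ≤ A` with `[A : Kˣ^n] < ∞` and
`M = K(A^{1/n})`, then the elements of `K` which are `n`-th powers in `M` are exactly those
of `A`. -/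
theorem kummerSubgroup_eq_of_adjoin_rootSetOf_eq_top (hPA : powSubgroup K n ≤ A)
    (hA : A ≤ kummerSubgroup K M n)
    (hgen : IntermediateField.adjoin K (rootSetOf M n A) = ⊤)
    (hfin : (powSubgroup K n).relIndex A ≠ 0) : kummerSubgroup K M n = A := by
  haveI := isGalois_of_adjoin_rootSetOf_eq_top hgen
  haveI := finiteDimensional_of_adjoin_rootSetOf_eq_top hA hgen hfin
  have h1 := relIndex_powSubgroup_kummerSubgroup_eq_finrank (K := K) (M := M) (n := n)
    (mul_comm_of_adjoin_rootSetOf_eq_top hA hgen) (pow_eq_one_of_adjoin_rootSetOf_eq_top hA hgen)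
  have h2 := card_aut_le_relIndex hA hgen hfin
  rw [IsGalois.card_aut_eq_finrank] at h2
  have h3 := Subgroup.relIndex_mul_relIndex _ _ _ hPA hA
  have hpos : 0 < Module.finrank K M := Module.finrank_pos
  have h4 : A.relIndex (kummerSubgroup K M n) = 1 := by
    rw [h1] at h3
    have h5 : (powSubgroup K n).relIndex A * A.relIndex (kummerSubgroup K M n) ≤
        (powSubgroup K n).relIndex A * 1 := by
      rw [h3, mul_one]; exact h2
    have h6 := Nat.le_of_mul_le_mul_left h5 (Nat.pos_of_ne_zero hfin)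
    have h7 : A.relIndex (kummerSubgroup K M n) ≠ 0 := by
      intro h0
      rw [h0, mul_zero] at h3
      omega
    omega
  exact le_antisymm (Subgroup.relIndex_eq_one.1 h4) hA

/-- **Kummer theory, degree formula**: if `Kˣ^n ≤ A` with `[A : Kˣ^n] < ∞` and
`M = K(A^{1/n})`, then `[M : K] = [A : Kˣ^n]`. -/
theorem finrank_eq_relIndex_of_adjoin_rootSetOf_eq_top (hPA : powSubgroup K n ≤ A)
    (hA : A ≤ kummerSubgroup K M n)
    (hgen : IntermediateField.adjoin K (rootSetOf M n A) = ⊤)
    (hfin : (powSubgroup K n).relIndex A ≠ 0) :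
    Module.finrank K M = (powSubgroup K n).relIndex A := by
  haveI := isGalois_of_adjoin_rootSetOf_eq_top hgen
  haveI := finiteDimensional_of_adjoin_rootSetOf_eq_top hA hgen hfin
  have h1 := relIndex_powSubgroup_kummerSubgroup_eq_finrank (K := K) (M := M) (n := n)
    (mul_comm_of_adjoin_rootSetOf_eq_top hA hgen) (pow_eq_one_of_adjoin_rootSetOf_eq_top hA hgen)
  rw [← h1, kummerSubgroup_eq_of_adjoin_rootSetOf_eq_top hPA hA hgen hfin]

/-- **Kummer theory, perfectness**: for `M = K(A^{1/n})` with `Kˣ^n ≤ A`, `[A : Kˣ^n] < ∞`,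
the Kummer pairing induces a bijection `Gal(M/K) → Hom(A ⧸ Kˣ^n, μ_n)`. -/
theorem kummerPairingQuot_bijective (hPA : powSubgroup K n ≤ A)
    (hA : A ≤ kummerSubgroup K M n)
    (hgen : IntermediateField.adjoin K (rootSetOf M n A) = ⊤)
    (hfin : (powSubgroup K n).relIndex A ≠ 0) :
    Function.Bijective (kummerPairingQuot M n hA) := by
  haveI := isGalois_of_adjoin_rootSetOf_eq_top hgen
  haveI := finiteDimensional_of_adjoin_rootSetOf_eq_top hA hgen hfin
  haveI : Finite (A ⧸ (powSubgroup K n).subgroupOf A) :=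
    Subgroup.index_ne_zero_iff_finite.1 hfin
  have hinj := kummerPairingQuot_injective hA hgen
  refine (Nat.bijective_iff_injective_and_card _).2 ⟨hinj, ?_⟩
  rw [card_hom_quotient_powSubgroup hfin, IsGalois.card_aut_eq_finrank,
    finrank_eq_relIndex_of_adjoin_rootSetOf_eq_top hPA hA hgen hfin]

/-- **Kummer theory, perfectness (dual side)**: for `M = K(A^{1/n})` with `Kˣ^n ≤ A`,
`[A : Kˣ^n] < ∞`, every character `Gal(M/K) → μ_n` is `σ ↦ σ(α)/α` for some `α` with
`α ^ n ∈ A`. -/
theorem exists_mem_kummerRoot_eq (hPA : powSubgroup K n ≤ A)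
    (hA : A ≤ kummerSubgroup K M n)
    (hgen : IntermediateField.adjoin K (rootSetOf M n A) = ⊤)
    (hfin : (powSubgroup K n).relIndex A ≠ 0) (χ : (M ≃ₐ[K] M) →* rootsOfUnity n K) :
    ∃ a : A, ∀ σ : M ≃ₐ[K] M, kummerRoot K M n σ (Subgroup.inclusion hA a) = χ σ := by
  haveI := isGalois_of_adjoin_rootSetOf_eq_top hgen
  haveI := finiteDimensional_of_adjoin_rootSetOf_eq_top hA hgen hfin
  obtain ⟨a, rfl⟩ := kummerDual_surjective (K := K) (M := M) (n := n) χ
  have ha : (a : Kˣ) ∈ A := by
    rw [← kummerSubgroup_eq_of_adjoin_rootSetOf_eq_top hPA hA hgen hfin]; exact a.2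
  exact ⟨⟨a, ha⟩, fun σ => rfl⟩

end Main

section KummerField

variable {K L : Type*} [Field K] [Field L] [Algebra K L] {n : ℕ} [NeZero n]
  [HasEnoughRootsOfUnity K n] {A : Subgroup Kˣ}

variable (L n) in
/-- The Kummer extension `K(A^{1/n})` inside an ambient extension `L / K`: generated by all
`n`-th roots in `L` of elements of `A`. -/
def kummerField (A : Subgroup Kˣ) : IntermediateField K L :=
  IntermediateField.adjoin K (rootSetOf L n A)

theorem mem_kummerField_of_pow_eq {β : L} {a : Kˣ} (ha : a ∈ A)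
    (hβ : β ^ n = algebraMap K L (a : K)) : β ∈ kummerField L n A :=
  IntermediateField.subset_adjoin K _ ⟨a, ha, hβ⟩

theorem kummerField_mono {A B : Subgroup Kˣ} (h : A ≤ B) :
    kummerField L n A ≤ kummerField L n B :=
  IntermediateField.adjoin.mono K _ _ fun _ ⟨a, ha, hβ⟩ => ⟨a, h ha, hβ⟩

theorem val_image_rootSetOf_kummerField :
    Subtype.val '' (rootSetOf (kummerField L n A) n A) = rootSetOf L n A := by
  ext β
  constructor
  · rintro ⟨β', ⟨a, ha, hβ'⟩, rfl⟩
    refine ⟨a, ha, ?_⟩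
    have := congrArg Subtype.val hβ'
    simpa using this
  · rintro ⟨a, ha, hβ⟩
    refine ⟨⟨β, mem_kummerField_of_pow_eq ha hβ⟩, ⟨a, ha, ?_⟩, rfl⟩
    apply Subtype.ext
    simpa using hβ

theorem adjoin_rootSetOf_kummerField_eq_top :
    IntermediateField.adjoin K (rootSetOf (kummerField L n A) n A) = ⊤ := by
  apply IntermediateField.lift_injective
  rw [IntermediateField.lift_adjoin, IntermediateField.lift_top,
    val_image_rootSetOf_kummerField]
  rfl

theorem le_kummerSubgroup_kummerField (hA : A ≤ kummerSubgroup K L n) :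
    A ≤ kummerSubgroup K (kummerField L n A) n := by
  intro a ha
  obtain ⟨β, hβ⟩ := mem_kummerSubgroup_iff'.1 (hA ha)
  refine mem_kummerSubgroup_iff'.2 ⟨⟨β, mem_kummerField_of_pow_eq ha hβ⟩, ?_⟩
  apply Subtype.ext
  simpa using hβ

theorem kummerSubgroup_kummerField_le :
    kummerSubgroup K (kummerField L n A) n ≤ kummerSubgroup K L n := by
  intro a ha
  obtain ⟨β, hβ⟩ := mem_kummerSubgroup_iff'.1 ha
  refine mem_kummerSubgroup_iff'.2 ⟨(β : L), ?_⟩
  have := congrArg Subtype.val hβ
  simpa using this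

instance isGalois_kummerField : IsGalois K (kummerField L n A) :=
  isGalois_of_adjoin_rootSetOf_eq_top adjoin_rootSetOf_kummerField_eq_top

theorem finiteDimensional_kummerField (hA : A ≤ kummerSubgroup K L n)
    (hfin : (powSubgroup K n).relIndex A ≠ 0) : FiniteDimensional K (kummerField L n A) :=
  finiteDimensional_of_adjoin_rootSetOf_eq_top (le_kummerSubgroup_kummerField hA)
    adjoin_rootSetOf_kummerField_eq_top hfin

theorem mul_comm_aut_kummerField (hA : A ≤ kummerSubgroup K L n)
    (σ τ : kummerField L n A ≃ₐ[K] kummerField L n A) : σ * τ = τ * σ :=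
  mul_comm_of_adjoin_rootSetOf_eq_top (le_kummerSubgroup_kummerField hA)
    adjoin_rootSetOf_kummerField_eq_top σ τ

theorem pow_eq_one_aut_kummerField (hA : A ≤ kummerSubgroup K L n)
    (σ : kummerField L n A ≃ₐ[K] kummerField L n A) : σ ^ n = 1 :=
  pow_eq_one_of_adjoin_rootSetOf_eq_top (le_kummerSubgroup_kummerField hA)
    adjoin_rootSetOf_kummerField_eq_top σ

/-- **Kummer theory**: `Kˣ ∩ (K(A^{1/n})ˣ)^n = A` when `Kˣ^n ≤ A`, `[A : Kˣ^n] < ∞` and all
elements of `A` have `n`-th roots in `L`. -/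
theorem kummerSubgroup_kummerField (hPA : powSubgroup K n ≤ A) (hA : A ≤ kummerSubgroup K L n)
    (hfin : (powSubgroup K n).relIndex A ≠ 0) :
    kummerSubgroup K (kummerField L n A) n = A :=
  kummerSubgroup_eq_of_adjoin_rootSetOf_eq_top hPA (le_kummerSubgroup_kummerField hA)
    adjoin_rootSetOf_kummerField_eq_top hfin

/-- **Kummer theory**: `[K(A^{1/n}) : K] = [A : Kˣ^n]`. -/
theorem finrank_kummerField (hPA : powSubgroup K n ≤ A) (hA : A ≤ kummerSubgroup K L n)
    (hfin : (powSubgroup K n).relIndex A ≠ 0) :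
    Module.finrank K (kummerField L n A) = (powSubgroup K n).relIndex A :=
  finrank_eq_relIndex_of_adjoin_rootSetOf_eq_top hPA (le_kummerSubgroup_kummerField hA)
    adjoin_rootSetOf_kummerField_eq_top hfin

/-- An `n`-th root `β ∈ L` of `a ∈ Kˣ` lies in `K(A^{1/n})` iff `a ∈ A`. -/
theorem mem_kummerField_iff (hPA : powSubgroup K n ≤ A) (hA : A ≤ kummerSubgroup K L n)
    (hfin : (powSubgroup K n).relIndex A ≠ 0) {β : L} {a : Kˣ}
    (hβ : β ^ n = algebraMap K L (a : K)) : β ∈ kummerField L n A ↔ a ∈ A := by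
  refine ⟨fun h => ?_, fun h => mem_kummerField_of_pow_eq h hβ⟩
  rw [← kummerSubgroup_kummerField (L := L) hPA hA hfin]
  refine mem_kummerSubgroup_iff'.2 ⟨⟨β, h⟩, ?_⟩
  apply Subtype.ext
  simpa using hβ

/-- **Kummer correspondence, injectivity**: `A ↦ K(A^{1/n})` reflects inclusions. -/
theorem kummerField_le_iff {A B : Subgroup Kˣ} (hPB : powSubgroup K n ≤ B)
    (hA : A ≤ kummerSubgroup K L n) (hB : B ≤ kummerSubgroup K L n)
    (hfinB : (powSubgroup K n).relIndex B ≠ 0) :
    kummerField L n A ≤ kummerField L n B ↔ A ≤ B := by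
  refine ⟨fun h a ha => ?_, kummerField_mono⟩
  obtain ⟨β, hβ⟩ := mem_kummerSubgroup_iff'.1 (hA ha)
  exact (mem_kummerField_iff hPB hB hfinB hβ).1 (h (mem_kummerField_of_pow_eq ha hβ))

end KummerField

end Fermat.Agent.S55.H361

end
-- ===== PACK-END S55/H361/Kummer.lean

-- ===== PACK-BEGIN S56/H486/T4Charpoly.lean
section
/-
S56 / W-BASE leaf T4 (helper486), part 1: multiplicativity of the characteristic polynomial
along an invariant submodule (Mathlib-only).
-/


namespace Fermat.Agent.S56.H486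

open Module

section

variable {R V : Type*} [CommRing R] [AddCommGroup V]
    [Module R V] [Module.Finite R V] [Module.Free R V]
    (W : Submodule R V) [Module.Free R W] [Module.Finite R W] [Module.Free R (V ⧸ W)]

open Module.Basis in
/-- The characteristic polynomial of an endomorphism preserving a submodule `W` is the product
of the characteristic polynomials of the restriction to `W` and of the induced map on `V ⧸ W`. -/
theorem t4_charpoly_eq_restrict_mul_mapQ (e : V →ₗ[R] V) (he : W ≤ W.comap e) :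
    e.charpoly = (e.restrict he).charpoly * (W.mapQ W e he).charpoly := by
  classical
  let m := Module.Free.ChooseBasisIndex R W
  let bW : Basis m R W := Module.Free.chooseBasis R W
  let n := Module.Free.ChooseBasisIndex R (V ⧸ W)
  let bQ : Basis n R (V ⧸ W) := Module.Free.chooseBasis R (V ⧸ W)
  let b := sumQuot bW bQ
  let A : Matrix m m R := LinearMap.toMatrix bW bW (e.restrict he)
  let B : Matrix m n R := Matrix.of fun i l ↦
    ((sumQuot bW bQ).repr (e ((sumQuot bW bQ) (Sum.inr l)))) (Sum.inl i)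
  let D : Matrix n n R := LinearMap.toMatrix bQ bQ (W.mapQ W e he)
  suffices LinearMap.toMatrix b b e = Matrix.fromBlocks A B 0 D by
    rw [← LinearMap.charpoly_toMatrix e b, this, ← LinearMap.charpoly_toMatrix (e.restrict he) bW,
      ← LinearMap.charpoly_toMatrix (W.mapQ W e he) bQ, Matrix.charpoly_fromBlocks_zero₂₁]
  ext u v
  cases u with
  | inl i =>
    cases v with
    | inl k =>
      simp only [b, sumQuot_inl, Matrix.fromBlocks_apply₁₁, A, LinearMap.toMatrix_apply]
      apply sumQuot_repr_inl_of_mem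
    | inr l => simp [b, LinearMap.toMatrix_apply, Matrix.fromBlocks_apply₁₂, B]
  | inr j =>
    cases v with
    | inl k =>
      suffices W.mkQ (e (bW k)) = 0 by simp [LinearMap.toMatrix_apply, b, this]
      rw [← LinearMap.mem_ker, Submodule.ker_mkQ]
      exact he (Submodule.coe_mem (bW k))
    | inr l =>
      simp only [LinearMap.toMatrix_apply, sumQuot_repr_inr,
        Matrix.fromBlocks_apply₂₂, b, D]
      rw [← sumQuot_inr bW bQ l, W.mapQ_apply]
      simp

end

section

variable {R M₁ M₂ : Type*} [CommRing R] [AddCommGroup M₁] [AddCommGroup M₂]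
    [Module R M₁] [Module R M₂] [Module.Finite R M₁] [Module.Free R M₁]
    [Module.Finite R M₂] [Module.Free R M₂]

/-- Equivariantly isomorphic endomorphisms have the same characteristic polynomial. -/
theorem t4_charpoly_eq_of_equiv (e : M₁ ≃ₗ[R] M₂) (φ : Module.End R M₁) (ψ : Module.End R M₂)
    (h : ∀ x, e (φ x) = ψ (e x)) : φ.charpoly = ψ.charpoly := by
  have : e.conj φ = ψ := by
    ext y
    simp [LinearEquiv.conj_apply, h]
  rw [← this, LinearEquiv.charpoly_conj]

end

section

variable {R M : Type*} [CommRing R] [AddCommGroup M] [Module R M]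

/-- The characteristic polynomial of an endomorphism of a trivial module is `1`. -/
theorem t4_charpoly_of_subsingleton [Subsingleton M] (φ : Module.End R M) :
    haveI : Module.Finite R M := Module.Finite.of_finite
    haveI : Module.Free R M := Module.Free.of_subsingleton R M
    φ.charpoly = 1 := by
  have : Module.Finite R M := Module.Finite.of_finite
  have : Module.Free R M := Module.Free.of_subsingleton R M
  nontriviality R
  have h1 : φ.charpoly.natDegree = 0 := by
    rw [LinearMap.charpoly_natDegree]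
    exact Module.finrank_zero_of_subsingleton
  exact Polynomial.eq_one_of_monic_natDegree_zero (LinearMap.charpoly_monic φ) h1

end

end Fermat.Agent.S56.H486

end
-- ===== PACK-END S56/H486/T4Charpoly.lean

-- ===== PACK-BEGIN S55/KC/CyclicUnionH287.lean
section


/-!
# S55 / layer KC, leaf KC-D2 (abstract part)                                   (helper287)

Pure group theory (Mathlib only): an additive commutative group `X` which is a directed union of
finite cyclic subgroups `S i` of orders `n i`, with unbounded `p`-parts, is `p`-divisible and has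
exactly `p` elements killed by `p`.

* `exists_nsmul_eq_of_directed_cyclic` : `∀ x, ∃ y, p • y = x`;
* `card_torsion_of_directed_cyclic`    : `Nat.card {x : X // p • x = 0} = p`.
-/

set_option autoImplicit false

namespace Fermat.Agent.S55.KC.H287

/-- In `ZMod N`, an element killed by `d > 0` is divisible by `p` as soon as `p ^ d ∣ N`. -/
lemma zmod_exists_nsmul_eq {N : ℕ} (p : ℕ) [Fact p.Prime] (d : ℕ) (hd : 0 < d)
    (hN : 0 < N) (hpN : p ^ d ∣ N) (c : ZMod N) (hc : d • c = 0) : ∃ y : ZMod N, p • y = c := by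
  have : NeZero N := ⟨hN.ne'⟩
  have h1 : N ∣ d * c.val := by
    have : ((d * c.val : ℕ) : ZMod N) = 0 := by
      rw [Nat.cast_mul, ZMod.natCast_zmod_val, ← nsmul_eq_mul]; exact hc
    exact (ZMod.natCast_eq_zero_iff _ _).1 this
  have h2 : p ^ d ∣ d * c.val := hpN.trans h1
  have h3 : p ∣ c.val := by
    by_contra hp
    have hcop : Nat.Coprime (p ^ d) c.val :=
      Nat.Coprime.pow_left d ((Nat.Prime.coprime_iff_not_dvd Fact.out).2 hp)
    have h4 : p ^ d ∣ d := hcop.dvd_of_dvd_mul_right h2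
    have h5 := Nat.le_of_dvd hd h4
    have h6 := Nat.lt_pow_self (Fact.out : p.Prime).one_lt (n := d)
    omega
  obtain ⟨t, ht⟩ := h3
  refine ⟨(t : ZMod N), ?_⟩
  rw [nsmul_eq_mul, ← Nat.cast_mul, ← ht, ZMod.natCast_zmod_val]

section

variable {X : Type*} [AddCommGroup X] (p : ℕ) [Fact p.Prime]
  {I : Type*} (S : I → AddSubgroup X) (n : I → ℕ)

/-- elements of a subgroup isomorphic to `ZMod n` are killed by `n` -/
lemma nsmul_eq_zero_of_mem {S₀ : AddSubgroup X} {n₀ : ℕ} (e : S₀ ≃+ ZMod n₀) {x : X}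
    (hx : x ∈ S₀) : n₀ • x = 0 := by
  have h : e (n₀ • (⟨x, hx⟩ : S₀)) = 0 := by
    rw [map_nsmul, nsmul_eq_mul, ZMod.natCast_self, zero_mul]
  have h' : n₀ • (⟨x, hx⟩ : S₀) = 0 := by
    apply e.injective
    rw [h, map_zero]
  simpa using congrArg (fun y : S₀ => (y : X)) h'

lemma card_of_equiv_zmod {S₀ : AddSubgroup X} {n₀ : ℕ} (e : S₀ ≃+ ZMod n₀) :
    Nat.card S₀ = n₀ := by
  rw [Nat.card_congr e.toEquiv, Nat.card_zmod]

variable {S n}

lemma dvd_of_le_of_equiv_zmod {i j : I} (hS : ∀ i, Nonempty (S i ≃+ ZMod (n i)))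
    (h : S i ≤ S j) : n i ∣ n j := by
  obtain ⟨ei⟩ := hS i
  obtain ⟨ej⟩ := hS j
  rw [← card_of_equiv_zmod ei, ← card_of_equiv_zmod ej]
  exact AddSubgroup.card_dvd_of_le h

/-- **Divisibility.**  A directed union of finite cyclic groups of orders `n i` with unbounded
`p`-parts is `p`-divisible. -/
theorem exists_nsmul_eq_of_directed_cyclic
    (hn : ∀ i, 0 < n i) (hS : ∀ i, Nonempty (S i ≃+ ZMod (n i)))
    (hdir : ∀ i j, ∃ k, S i ≤ S k ∧ S j ≤ S k)
    (hcov : ∀ x : X, ∃ i, x ∈ S i)
    (hunb : ∀ m : ℕ, ∃ i, p ^ m ∣ n i) (x : X) :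
    ∃ y : X, p • y = x := by
  obtain ⟨i, hxi⟩ := hcov x
  obtain ⟨ei⟩ := hS i
  obtain ⟨j, hj⟩ := hunb (n i)
  obtain ⟨k, hik, hjk⟩ := hdir i j
  obtain ⟨ek⟩ := hS k
  have hdvd : p ^ n i ∣ n k := hj.trans (dvd_of_le_of_equiv_zmod hS hjk)
  have hkill : n i • x = 0 := nsmul_eq_zero_of_mem ei hxi
  have hc : n i • ek ⟨x, hik hxi⟩ = 0 := by
    rw [← map_nsmul]
    have : n i • (⟨x, hik hxi⟩ : S k) = 0 := Subtype.ext (by simpa using hkill)
    rw [this, map_zero]
  obtain ⟨y, hy⟩ := zmod_exists_nsmul_eq p (n i) (hn i) (hn k) hdvd _ hc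
  refine ⟨(ek.symm y : X), ?_⟩
  have h1 : p • ek.symm y = ⟨x, hik hxi⟩ := by
    apply ek.injective
    rw [map_nsmul, AddEquiv.apply_symm_apply, hy]
  simpa using congrArg (fun z : S k => (z : X)) h1

end

/-- In `ZMod N`, every element killed by `p` is a multiple of any element of order `p`. -/
lemma zmod_mem_zmultiples_of_nsmul_eq_zero {N : ℕ} (hN : 0 < N) (p : ℕ) [Fact p.Prime]
    (g c : ZMod N) (hg : addOrderOf g = p) (hc : p • c = 0) :
    c ∈ AddSubgroup.zmultiples g := by
  have : NeZero N := ⟨hN.ne'⟩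
  classical
  have hT : (Finset.univ.filter (fun a : ZMod N => p • a = 0)).card ≤ p :=
    IsAddCyclic.card_nsmul_eq_zero_le (Fact.out : p.Prime).pos
  have hZT : (Finset.univ.filter (fun a : ZMod N => a ∈ AddSubgroup.zmultiples g)) ⊆
      (Finset.univ.filter (fun a : ZMod N => p • a = 0)) := by
    intro a ha
    rw [Finset.mem_filter] at ha ⊢
    refine ⟨Finset.mem_univ _, ?_⟩
    obtain ⟨t, rfl⟩ := AddSubgroup.mem_zmultiples_iff.1 ha.2
    rw [smul_comm, ← hg, addOrderOf_nsmul_eq_zero, smul_zero]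
  have hZ : (Finset.univ.filter (fun a : ZMod N => a ∈ AddSubgroup.zmultiples g)).card = p := by
    rw [← hg, ← Nat.card_zmultiples, Nat.card_eq_fintype_card, Fintype.card_subtype]
  have hEq := Finset.eq_of_subset_of_card_le hZT (by rw [hZ]; exact hT)
  have hcT : c ∈ Finset.univ.filter (fun a : ZMod N => p • a = 0) := by
    rw [Finset.mem_filter]; exact ⟨Finset.mem_univ _, hc⟩
  rw [← hEq, Finset.mem_filter] at hcT
  exact hcT.2

section

variable {X : Type*} [AddCommGroup X] (p : ℕ) [Fact p.Prime]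
  {I : Type*} {S : I → AddSubgroup X} {n : I → ℕ}

/-- **The `p`-torsion is cyclic of order `p`**: there is an element `g` of order `p` whose
multiples are exactly the elements killed by `p`. -/
theorem exists_generator_torsion_of_directed_cyclic
    (hn : ∀ i, 0 < n i) (hS : ∀ i, Nonempty (S i ≃+ ZMod (n i)))
    (hdir : ∀ i j, ∃ k, S i ≤ S k ∧ S j ≤ S k)
    (hcov : ∀ x : X, ∃ i, x ∈ S i)
    (hunb : ∀ m : ℕ, ∃ i, p ^ m ∣ n i) :
    ∃ g : X, addOrderOf g = p ∧ ∀ x : X, p • x = 0 ↔ x ∈ AddSubgroup.zmultiples g := by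
  have hp : p.Prime := Fact.out
  obtain ⟨i₁, hi₁⟩ := hunb 1
  rw [pow_one] at hi₁
  obtain ⟨e₁⟩ := hS i₁
  obtain ⟨N', hN'⟩ := hi₁
  have hNpos : 0 < n i₁ := hn i₁
  have hN'pos : 0 < N' := by
    rcases Nat.eq_zero_or_pos N' with h | h
    · rw [h, mul_zero] at hN'; omega
    · exact h
  have : NeZero (n i₁) := ⟨hNpos.ne'⟩
  -- the generator
  set c₁ : ZMod (n i₁) := ((N' : ℕ) : ZMod (n i₁)) with hc₁
  have hc₁0 : c₁ ≠ 0 := by
    intro h
    have h1 : n i₁ ∣ N' := (ZMod.natCast_eq_zero_iff _ _).1 h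
    have h2 := Nat.le_of_dvd hN'pos h1
    have h3 : N' < n i₁ := by
      rw [hN']
      have := hp.one_lt
      nlinarith
    omega
  have hc₁p : p • c₁ = 0 := by
    rw [hc₁, nsmul_eq_mul, ← Nat.cast_mul, ← hN', ZMod.natCast_self]
  set g : X := (e₁.symm c₁ : X) with hg
  have hgp : p • g = 0 := by
    have h1 : p • e₁.symm c₁ = 0 := by
      rw [← map_nsmul, hc₁p, map_zero]
    simpa using congrArg (fun z : S i₁ => (z : X)) h1
  have hg0 : g ≠ 0 := by
    intro h
    have h1 : e₁.symm c₁ = 0 := Subtype.ext (by rw [AddSubgroup.coe_zero]; exact h)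
    have h2 : c₁ = 0 := by
      have := congrArg e₁ h1
      simpa using this
    exact hc₁0 h2
  have hgord : addOrderOf g = p := addOrderOf_eq_prime hgp hg0
  have hgmem : g ∈ S i₁ := (e₁.symm c₁).2
  refine ⟨g, hgord, fun x => ⟨fun hx => ?_, fun hx => ?_⟩⟩
  · obtain ⟨i, hxi⟩ := hcov x
    obtain ⟨k, hik, h1k⟩ := hdir i i₁
    obtain ⟨ek⟩ := hS k
    have hord : addOrderOf (ek ⟨g, h1k hgmem⟩) = p := by
      have h1 : addOrderOf (⟨g, h1k hgmem⟩ : S k) = p := by
        rw [← hgord]
        exact (addOrderOf_injective (S k).subtype Subtype.coe_injective ⟨g, h1k hgmem⟩).symm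
      rw [← h1]
      exact addOrderOf_injective (ek : S k →+ ZMod (n k)) ek.injective _
    have hcx : p • ek ⟨x, hik hxi⟩ = 0 := by
      rw [← map_nsmul]
      have : p • (⟨x, hik hxi⟩ : S k) = 0 := Subtype.ext (by simpa using hx)
      rw [this, map_zero]
    obtain ⟨t, ht⟩ := AddSubgroup.mem_zmultiples_iff.1
      (zmod_mem_zmultiples_of_nsmul_eq_zero (hn k) p _ _ hord hcx)
    refine AddSubgroup.mem_zmultiples_iff.2 ⟨t, ?_⟩
    have h2 : t • (⟨g, h1k hgmem⟩ : S k) = ⟨x, hik hxi⟩ := by
      apply ek.injective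
      rw [map_zsmul, ht]
    simpa using congrArg (fun z : S k => (z : X)) h2
  · obtain ⟨t, rfl⟩ := AddSubgroup.mem_zmultiples_iff.1 hx
    rw [smul_comm, hgp, smul_zero]

/-- **The `p`-torsion has `p` elements.** -/
theorem card_torsion_of_directed_cyclic
    (hn : ∀ i, 0 < n i) (hS : ∀ i, Nonempty (S i ≃+ ZMod (n i)))
    (hdir : ∀ i j, ∃ k, S i ≤ S k ∧ S j ≤ S k)
    (hcov : ∀ x : X, ∃ i, x ∈ S i)
    (hunb : ∀ m : ℕ, ∃ i, p ^ m ∣ n i) :
    Nat.card {x : X // p • x = 0} = p := by
  obtain ⟨g, hg, h⟩ := exists_generator_torsion_of_directed_cyclic p hn hS hdir hcov hunb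
  rw [Nat.card_congr (Equiv.subtypeEquivRight h), Nat.card_zmultiples, hg]

end

end Fermat.Agent.S55.KC.H287

end
-- ===== PACK-END S55/KC/CyclicUnionH287.lean

-- ===== PACK-BEGIN S55/H321/QDict.lean
section



/-!
# S55 / layer KL, block Q (helper321): dictionary cochain form ↔ `groupCohomology` of `G ⧸ V`

Mathlib only.  For a `ℤ`-representation `B` of a group `G` and a normal subgroup `V`:

* `q1_core`  : `H¹(G ⧸ V, B^V) = 0` ⇒ every 1-cocycle of `G` inflated from `(G ⧸ V, B^V)` is the
  coboundary of a `V`-invariant element  (`KL.Q1Spec`, unfolded);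
* `q2_core`  : cocycles inflated from `(G ⧸ V, B^V)` modulo coboundaries of inflated 1-cochains
  is `H²(G ⧸ V, B^V)`  (`KL.Q2Spec`, for any pair of additive subgroups with the carriers of
  `KL.Z2At`, `KL.B2At`).
-/

set_option autoImplicit false

noncomputable section

namespace Fermat.Agent.S55.H321

open groupCohomology

variable {G : Type} [Group G] (B : Rep.{0, 0, 0} ℤ G) (V : Subgroup G) [V.Normal]

/-- the action of `G ⧸ V` on `B^V`, on representatives -/
lemma qinv_ρ_mk_val (g : G) (x : B.quotientToInvariants V) :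
    (((B.quotientToInvariants V).ρ (g : G ⧸ V) x : B.quotientToInvariants V) : B) =
      B.ρ g (x : B) := rfl

/-- elements of `B^V` are `V`-invariant -/
lemma qinv_val_inv (x : B.quotientToInvariants V) (s : G) (hs : s ∈ V) :
    B.ρ s (x : B) = (x : B) := x.2 ⟨s, hs⟩

/-- a `V`-invariant element of `B`, as an element of `B^V` -/
def qinvMk (b : B) (hb : ∀ s ∈ V, B.ρ s b = b) : B.quotientToInvariants V :=
  ⟨b, fun s => hb s.1 s.2⟩

@[simp] lemma qinvMk_val (b : B) (hb : ∀ s ∈ V, B.ρ s b = b) :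
    ((qinvMk B V b hb : B.quotientToInvariants V) : B) = b := rfl

/-- inflation of 1-cochains -/
def infl₁ (x : G ⧸ V → B.quotientToInvariants V) : G → B := fun g => ((x (g : G ⧸ V)) : B)

/-- inflation of 2-cochains -/
def infl₂ (f : (G ⧸ V) × (G ⧸ V) → B.quotientToInvariants V) : G × G → B :=
  fun p => ((f ((p.1 : G ⧸ V), (p.2 : G ⧸ V))) : B)

@[simp] lemma infl₁_apply (x : G ⧸ V → B.quotientToInvariants V) (g : G) :
    infl₁ B V x g = ((x (g : G ⧸ V)) : B) := rfl

@[simp] lemma infl₂_apply (f : (G ⧸ V) × (G ⧸ V) → B.quotientToInvariants V) (g h : G) :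
    infl₂ B V f (g, h) = ((f ((g : G ⧸ V), (h : G ⧸ V))) : B) := rfl

lemma infl₁_injective : Function.Injective (infl₁ B V) := by
  intro x y h
  funext q
  induction q using QuotientGroup.induction_on with
  | H g => exact Subtype.ext (congrFun h g)

lemma infl₂_injective : Function.Injective (infl₂ B V) := by
  intro x y h
  funext ⟨q, r⟩
  induction q using QuotientGroup.induction_on with
  | H g =>
    induction r using QuotientGroup.induction_on with
    | H h' => exact Subtype.ext (congrFun h (g, h'))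

lemma infl₁_add (x y : G ⧸ V → B.quotientToInvariants V) :
    infl₁ B V (x + y) = infl₁ B V x + infl₁ B V y := rfl

lemma infl₂_add (x y : (G ⧸ V) × (G ⧸ V) → B.quotientToInvariants V) :
    infl₂ B V (x + y) = infl₂ B V x + infl₂ B V y := rfl

lemma mk_mul_mem (g s : G) (hs : s ∈ V) : ((g * s : G) : G ⧸ V) = (g : G ⧸ V) := by
  rw [QuotientGroup.mk_mul, (QuotientGroup.eq_one_iff s).2 hs, mul_one]

/-- inflated 1-cochains are inflated -/
lemma infl₁_isAt (x : G ⧸ V → B.quotientToInvariants V) (g s : G) (hs : s ∈ V) :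
    infl₁ B V x (g * s) = infl₁ B V x g ∧ B.ρ s (infl₁ B V x g) = infl₁ B V x g :=
  ⟨by simp only [infl₁_apply, mk_mul_mem V g s hs], qinv_val_inv B V _ s hs⟩

/-- inflated 2-cochains are inflated -/
lemma infl₂_isAt (f : (G ⧸ V) × (G ⧸ V) → B.quotientToInvariants V) (g h s t : G)
    (hs : s ∈ V) (ht : t ∈ V) :
    infl₂ B V f (g * s, h * t) = infl₂ B V f (g, h) ∧
      B.ρ s (infl₂ B V f (g, h)) = infl₂ B V f (g, h) :=
  ⟨by simp only [infl₂_apply, mk_mul_mem V g s hs, mk_mul_mem V h t ht],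
    qinv_val_inv B V _ s hs⟩

/-- every 1-cochain inflated from `(G ⧸ V, B^V)` is an inflation -/
lemma exists_infl₁ (x : G → B)
    (hx : ∀ g s : G, s ∈ V → x (g * s) = x g ∧ B.ρ s (x g) = x g) :
    ∃ x' : G ⧸ V → B.quotientToInvariants V, infl₁ B V x' = x := by
  refine ⟨fun q => qinvMk B V (x q.out) fun s hs => (hx _ s hs).2, ?_⟩
  funext g
  obtain ⟨s, hs⟩ := QuotientGroup.mk_out_eq_mul V g
  show x (g : G ⧸ V).out = x g
  rw [hs]
  exact (hx g s s.2).1

/-- every 2-cochain inflated from `(G ⧸ V, B^V)` is an inflation -/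
lemma exists_infl₂ (f : G × G → B)
    (hf : ∀ g h s t : G, s ∈ V → t ∈ V →
      f (g * s, h * t) = f (g, h) ∧ B.ρ s (f (g, h)) = f (g, h)) :
    ∃ f' : (G ⧸ V) × (G ⧸ V) → B.quotientToInvariants V, infl₂ B V f' = f := by
  refine ⟨fun q => qinvMk B V (f (q.1.out, q.2.out)) fun s hs =>
    (hf _ _ s 1 hs V.one_mem).2, ?_⟩
  funext ⟨g, h⟩
  obtain ⟨s, hs⟩ := QuotientGroup.mk_out_eq_mul V g
  obtain ⟨t, ht⟩ := QuotientGroup.mk_out_eq_mul V h
  show f ((g : G ⧸ V).out, (h : G ⧸ V).out) = f (g, h)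
  rw [hs, ht]
  exact (hf g h s t s.2 t.2).1

/-- `d⁰` commutes with inflation -/
lemma d₀₁_infl (a : B.quotientToInvariants V) :
    (d₀₁ B).hom (a : B) = infl₁ B V ((d₀₁ (B.quotientToInvariants V)).hom a) := by
  funext g
  rfl

/-- `d¹` commutes with inflation -/
lemma d₁₂_infl (x : G ⧸ V → B.quotientToInvariants V) :
    (d₁₂ B).hom (infl₁ B V x) = infl₂ B V ((d₁₂ (B.quotientToInvariants V)).hom x) := by
  funext ⟨g, h⟩
  rfl

/-- `d²` commutes with inflation -/
lemma d₂₃_infl (f : (G ⧸ V) × (G ⧸ V) → B.quotientToInvariants V) (g h j : G) :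
    (d₂₃ B).hom (infl₂ B V f) (g, h, j) =
      (((d₂₃ (B.quotientToInvariants V)).hom f
        ((g : G ⧸ V), (h : G ⧸ V), (j : G ⧸ V)) : B.quotientToInvariants V) : B) := rfl

lemma infl₁_mem_cocycles₁_iff (x : G ⧸ V → B.quotientToInvariants V) :
    infl₁ B V x ∈ cocycles₁ B ↔ x ∈ cocycles₁ (B.quotientToInvariants V) := by
  constructor
  · intro h
    have h' : (d₁₂ B).hom (infl₁ B V x) = 0 := h
    rw [d₁₂_infl] at h'
    have : (d₁₂ (B.quotientToInvariants V)).hom x = 0 := infl₂_injective B V h'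
    exact this
  · intro h
    have h' : (d₁₂ (B.quotientToInvariants V)).hom x = 0 := h
    show (d₁₂ B).hom (infl₁ B V x) = 0
    rw [d₁₂_infl, h']
    rfl

lemma infl₂_mem_cocycles₂_iff (f : (G ⧸ V) × (G ⧸ V) → B.quotientToInvariants V) :
    infl₂ B V f ∈ cocycles₂ B ↔ f ∈ cocycles₂ (B.quotientToInvariants V) := by
  constructor
  · intro h
    have h' : (d₂₃ B).hom (infl₂ B V f) = 0 := h
    show (d₂₃ (B.quotientToInvariants V)).hom f = 0
    funext ⟨q, r, t⟩
    induction q using QuotientGroup.induction_on with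
    | H g =>
      induction r using QuotientGroup.induction_on with
      | H h'' =>
        induction t using QuotientGroup.induction_on with
        | H j =>
          apply Subtype.ext
          have := congrFun h' (g, h'', j)
          rw [d₂₃_infl] at this
          exact this
  · intro h
    have h' : (d₂₃ (B.quotientToInvariants V)).hom f = 0 := h
    show (d₂₃ B).hom (infl₂ B V f) = 0
    funext ⟨g, h'', j⟩
    rw [d₂₃_infl, h']
    rfl

/-- **KL-Q1**, unfolded. -/
theorem q1_core (h1 : Subsingleton (H1 (B.quotientToInvariants V)))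
    (f : G → B) (hf : f ∈ cocycles₁ B)
    (hat : ∀ g s : G, s ∈ V → f (g * s) = f g ∧ B.ρ s (f g) = f g) :
    ∃ a : B, (∀ s ∈ V, B.ρ s a = a) ∧ (d₀₁ B).hom a = f := by
  obtain ⟨x, rfl⟩ := exists_infl₁ B V f hat
  have hx : x ∈ cocycles₁ (B.quotientToInvariants V) := (infl₁_mem_cocycles₁_iff B V x).1 hf
  have h0 : H1π (B.quotientToInvariants V) ⟨x, hx⟩ = 0 := Subsingleton.elim _ _
  rw [H1π_eq_zero_iff] at h0
  obtain ⟨a, ha⟩ := h0
  refine ⟨(a : B), fun s hs => qinv_val_inv B V a s hs, ?_⟩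
  rw [d₀₁_infl]
  exact congrArg (infl₁ B V) ha

/-- **KL-Q2**, for any pair of additive subgroups `Z`, `Bd` of `G × G → B` whose carriers are the
2-cocycles inflated from `(G ⧸ V, B^V)`, resp. the coboundaries of the 1-cochains inflated from
`(G ⧸ V, B^V)`. -/
theorem q2_core (Z Bd : AddSubgroup (G × G → B))
    (hZ : ∀ f : G × G → B, f ∈ Z ↔ (f ∈ cocycles₂ B ∧ ∀ g h s t : G, s ∈ V → t ∈ V →
      f (g * s, h * t) = f (g, h) ∧ B.ρ s (f (g, h)) = f (g, h)))
    (hB : ∀ f : G × G → B, f ∈ Bd ↔ ∃ x : G → B,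
      (∀ g s : G, s ∈ V → x (g * s) = x g ∧ B.ρ s (x g) = x g) ∧ (d₁₂ B).hom x = f) :
    Nonempty ((↥Z ⧸ Bd.addSubgroupOf Z) ≃+ H2 (B.quotientToInvariants V)) := by
  have hmem : ∀ c : cocycles₂ (B.quotientToInvariants V), infl₂ B V c.1 ∈ Z := fun c =>
    (hZ _).2 ⟨(infl₂_mem_cocycles₂_iff B V c.1).2 c.2, fun g h s t hs ht =>
      infl₂_isAt B V c.1 g h s t hs ht⟩
  -- inflation of cocycles, as an additive map to `Z`
  let φ : cocycles₂ (B.quotientToInvariants V) →+ Z :=
    { toFun := fun c => ⟨infl₂ B V c.1, hmem c⟩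
      map_zero' := rfl
      map_add' := fun _ _ => rfl }
  have hφ : Function.Surjective φ := by
    rintro ⟨f, hf⟩
    obtain ⟨hfc, hfat⟩ := (hZ f).1 hf
    obtain ⟨f', rfl⟩ := exists_infl₂ B V f hfat
    exact ⟨⟨f', (infl₂_mem_cocycles₂_iff B V f').1 hfc⟩, rfl⟩
  let ψ : cocycles₂ (B.quotientToInvariants V) →+ (↥Z ⧸ Bd.addSubgroupOf Z) :=
    (QuotientAddGroup.mk' (Bd.addSubgroupOf Z)).comp φ
  have hψ : Function.Surjective ψ :=
    (QuotientAddGroup.mk'_surjective (Bd.addSubgroupOf Z)).comp hφ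
  let π : cocycles₂ (B.quotientToInvariants V) →+ H2 (B.quotientToInvariants V) :=
    (H2π (B.quotientToInvariants V)).hom.toAddMonoidHom
  have hπ : Function.Surjective π :=
    (ModuleCat.epi_iff_surjective (H2π (B.quotientToInvariants V))).1 inferInstance
  have hker : ψ.ker = π.ker := by
    ext c
    rw [AddMonoidHom.mem_ker, AddMonoidHom.mem_ker]
    have h1 : ψ c = 0 ↔ infl₂ B V c.1 ∈ Bd := by
      show (QuotientAddGroup.mk (φ c) : ↥Z ⧸ Bd.addSubgroupOf Z) = 0 ↔ _
      rw [QuotientAddGroup.eq_zero_iff, AddSubgroup.mem_addSubgroupOf]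
      rfl
    have h2 : π c = 0 ↔ (c : (G ⧸ V) × (G ⧸ V) → B.quotientToInvariants V) ∈
        coboundaries₂ (B.quotientToInvariants V) := H2π_eq_zero_iff c
    rw [h1, h2, hB]
    constructor
    · rintro ⟨x, hx, hxc⟩
      obtain ⟨x', rfl⟩ := exists_infl₁ B V x hx
      rw [d₁₂_infl] at hxc
      exact ⟨x', infl₂_injective B V hxc⟩
    · rintro ⟨x', hx'⟩
      refine ⟨infl₁ B V x', fun g s hs => infl₁_isAt B V x' g s hs, ?_⟩
      rw [d₁₂_infl]
      exact congrArg (infl₂ B V) hx'
  exact ⟨(QuotientAddGroup.quotientKerEquivOfSurjective ψ hψ).symm.trans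
    ((QuotientAddGroup.quotientAddEquivOfEq hker).trans
      (QuotientAddGroup.quotientKerEquivOfSurjective π hπ))⟩

end Fermat.Agent.S55.H321

end

end
-- ===== PACK-END S55/H321/QDict.lean

-- ===== PACK-BEGIN S55/KC/ResQuotH323.lean
section


/-!
# S55 / layer KC: a formal dictionary for finite-level cohomology of subgroups   (helper323)

For a group `G`, a normal subgroup `V`, a subgroup `H'` of `G ⧸ V` with preimage `U` in `G`, and a
representation `A` of `G`:

  `Hⁿ(H', Res_{H'} (A^V))  ≅  Hⁿ(U ⧸ (V ∩ U), (Res_U A)^{V ∩ U})`      (`resQuotIso_h323`)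

(both sides are the cohomology of "the same" group acting on "the same" module `A^V`), together
with `Nat.card (U ⧸ V ∩ U) = Nat.card H'`.  Mathlib only.
-/

set_option autoImplicit false

noncomputable section

namespace Fermat.Agent.S55.KC.H323

open groupCohomology CategoryTheory

variable {k G : Type} [CommRing k] [Group G]

section Group

variable (V : Subgroup G) [V.Normal] (H' : Subgroup (G ⧸ V))

/-- The preimage of `H' ≤ G ⧸ V` in `G`. -/
abbrev preimg_h323 : Subgroup G := H'.comap (QuotientGroup.mk' V)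

lemma le_preimg_h323 : V ≤ preimg_h323 V H' := by
  intro v hv
  show QuotientGroup.mk' V v ∈ H'
  have h1 : QuotientGroup.mk' V v = 1 := (QuotientGroup.eq_one_iff v).2 hv
  rw [h1]
  exact H'.one_mem

/-- The projection `U → H'`. -/
def toSub_h323 : ↥(preimg_h323 V H') →* ↥H' where
  toFun u := ⟨QuotientGroup.mk' V u.1, u.2⟩
  map_one' := rfl
  map_mul' _ _ := rfl

lemma toSub_h323_surjective : Function.Surjective (toSub_h323 V H') := by
  rintro ⟨x, hx⟩
  obtain ⟨g, rfl⟩ := QuotientGroup.mk'_surjective V x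
  exact ⟨⟨g, hx⟩, rfl⟩

lemma toSub_h323_ker : (toSub_h323 V H').ker = V.subgroupOf (preimg_h323 V H') := by
  ext u
  rw [MonoidHom.mem_ker, Subgroup.mem_subgroupOf]
  constructor
  · intro h
    have h1 : (QuotientGroup.mk' V (u : G) : G ⧸ V) = 1 := congrArg Subtype.val h
    exact (QuotientGroup.eq_one_iff _).1 h1
  · intro h
    exact Subtype.ext ((QuotientGroup.eq_one_iff (u : G)).2 h)

/-- `U ⧸ (V ∩ U) ≃* H'`. -/
def quotEquiv_h323 : (↥(preimg_h323 V H') ⧸ V.subgroupOf (preimg_h323 V H')) ≃* ↥H' :=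
  (QuotientGroup.quotientMulEquivOfEq (toSub_h323_ker V H').symm).trans
    (QuotientGroup.quotientKerEquivOfSurjective (toSub_h323 V H') (toSub_h323_surjective V H'))

lemma quotEquiv_h323_mk (u : ↥(preimg_h323 V H')) :
    quotEquiv_h323 V H' (QuotientGroup.mk u) = toSub_h323 V H' u := rfl

lemma card_quot_h323 :
    Nat.card (↥(preimg_h323 V H') ⧸ V.subgroupOf (preimg_h323 V H')) = Nat.card ↥H' :=
  Nat.card_congr (quotEquiv_h323 V H').toEquiv

end Group

section Rep

variable (A : Rep.{0, 0, 0} k G) (V : Subgroup G) [V.Normal] (H' : Subgroup (G ⧸ V))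

/-- The source: `(Res_U A)^{V ∩ U}` as a representation of `U ⧸ (V ∩ U)`. -/
abbrev srcRep_h323 : Rep.{0, 0, 0} k (↥(preimg_h323 V H') ⧸ V.subgroupOf (preimg_h323 V H')) :=
  (Rep.res (preimg_h323 V H').subtype A).quotientToInvariants (V.subgroupOf (preimg_h323 V H'))

/-- The target: `Res_{H'} (A^V)` as a representation of `H'`. -/
abbrev tgtRep_h323 : Rep.{0, 0, 0} k ↥H' :=
  Rep.res H'.subtype (A.quotientToInvariants V)

/-- The identity `(Res_U A)^{V ∩ U} → A^V`. -/
def srcToTgt_h323 : (srcRep_h323 A V H').V →ₗ[k] (tgtRep_h323 A V H').V where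
  toFun a := ⟨a.1, fun v => a.2 ⟨⟨v.1, le_preimg_h323 V H' v.2⟩, v.2⟩⟩
  map_add' _ _ := rfl
  map_smul' _ _ := rfl

/-- The identity `A^V → (Res_U A)^{V ∩ U}`. -/
def tgtToSrc_h323 : (tgtRep_h323 A V H').V →ₗ[k] (srcRep_h323 A V H').V where
  toFun a := ⟨a.1, fun v => a.2 ⟨v.1.1, v.2⟩⟩
  map_add' _ _ := rfl
  map_smul' _ _ := rfl

/-- `(Res_U A)^{V ∩ U} ≃ A^V`. -/
def srcEquivTgt_h323 : (srcRep_h323 A V H').V ≃ₗ[k] (tgtRep_h323 A V H').V where
  toLinearMap := srcToTgt_h323 A V H'
  invFun := tgtToSrc_h323 A V H'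
  left_inv _ := rfl
  right_inv _ := rfl

lemma srcEquivTgt_h323_equivariant
    (g : ↥(preimg_h323 V H') ⧸ V.subgroupOf (preimg_h323 V H')) :
    (srcEquivTgt_h323 A V H').toLinearMap ∘ₗ (srcRep_h323 A V H').ρ g =
      (tgtRep_h323 A V H').ρ (quotEquiv_h323 V H' g) ∘ₗ (srcEquivTgt_h323 A V H').toLinearMap := by
  induction g using QuotientGroup.induction_on with
  | H u =>
    refine LinearMap.ext fun a => ?_
    apply Subtype.ext
    rfl

/-- **The dictionary.**  `Hⁿ(U ⧸ (V ∩ U), (Res_U A)^{V ∩ U}) ≅ Hⁿ(H', Res_{H'} (A^V))`. -/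
def resQuotIso_h323 (n : ℕ) :
    groupCohomology (srcRep_h323 A V H') n ≅ groupCohomology (tgtRep_h323 A V H') n :=
  groupCohomology.mapIso (quotEquiv_h323 V H') (srcEquivTgt_h323 A V H')
    (srcEquivTgt_h323_equivariant A V H') n

end Rep

end Fermat.Agent.S55.KC.H323

end

end
-- ===== PACK-END S55/KC/ResQuotH323.lean

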