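import Mathlib
import Fermat.Prelude.Def_GroupCohomology_ContinuousUnramified

-- ===== PACK-BEGIN S55/H963/Kernel.lean
section


/-!
# S55 / leaf RAY-N1 (helper963): abstract smoothing kernel for the unit action

`UnitKernel K` packages the analytic input of the "smoothed lattice sum" method
(S14 block N1, helper74 / helper124): a family `F s : 𝓞 K → ℝ` of nonnegative summable
functions such that
* summing `F s` over the orbit of a nonzero `x` under the units gives `w * N(x)^(-s)`;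
* the translates `F s (y + t)` differ from `F s y` by a summable function, uniformly in
  `s ∈ (1, 2]`.

From these two properties we derive the coset comparison
`N(J) * ∑_{y ∈ J} F s (y + t) = ∑_{x ∈ 𝓞 K} F s x + O(1)`.
-/

set_option autoImplicit false

namespace Fermat.Agent.S55.H963

open NumberField

/-- Abstract smoothing kernel for the action of the units of `𝓞 K` (see the file header). -/
structure UnitKernel (K : Type*) [Field K] [NumberField K] where
  /-- the smoothed summand `ρ(x) N(x)^(-s)` -/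
  F : ℝ → 𝓞 K → ℝ
  /-- the number of roots of unity -/
  w : ℝ
  w_pos : 0 < w
  nonneg : ∀ s x, 0 ≤ F s x
  map_zero : ∀ s, F s 0 = 0
  summable : ∀ s, 1 < s → Summable (F s)
  orbit : ∀ s, 1 < s → ∀ x : 𝓞 K, x ≠ 0 →
    HasSum (fun u : (𝓞 K)ˣ => F s ((u : 𝓞 K) * x))
      (w * (Ideal.absNorm (Ideal.span {x}) : ℝ) ^ (-s))
  shift : ∀ t : 𝓞 K, ∃ g : 𝓞 K → ℝ, Summable g ∧
    ∀ s, 1 < s → s ≤ 2 → ∀ y, |F s (y + t) - F s y| ≤ g y

variable {K : Type*} [Field K] [NumberField K] (κ : UnitKernel K)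

namespace UnitKernel

/-- The total smoothed sum `Φ(s) = ∑_{x ∈ 𝓞 K} F s x`. -/
noncomputable def total (s : ℝ) : ℝ := ∑' x : 𝓞 K, κ.F s x

theorem total_nonneg (s : ℝ) : 0 ≤ κ.total s := tsum_nonneg (κ.nonneg s)

/-- The smoothed sum over the coset `t + J`. -/
noncomputable def cosetSum (J : Ideal (𝓞 K)) (t : 𝓞 K) (s : ℝ) : ℝ :=
  ∑' y : J, κ.F s ((y : 𝓞 K) + t)

theorem cosetSum_nonneg (J : Ideal (𝓞 K)) (t : 𝓞 K) (s : ℝ) : 0 ≤ κ.cosetSum J t s :=
  tsum_nonneg fun _ => κ.nonneg s _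

theorem summable_coset (J : Ideal (𝓞 K)) (t : 𝓞 K) {s : ℝ} (hs : 1 < s) :
    Summable fun y : J => κ.F s ((y : 𝓞 K) + t) := by
  refine (κ.summable s hs).comp_injective (i := fun y : J => (y : 𝓞 K) + t) ?_
  intro y y' h
  exact Subtype.ext (add_right_cancel h)

/-- Shifting the coset changes the smoothed sum by a bounded amount. -/
theorem exists_shift_bound (J : Ideal (𝓞 K)) (t : 𝓞 K) : ∃ B : ℝ, ∀ s : ℝ, 1 < s → s ≤ 2 →
    |κ.cosetSum J t s - κ.cosetSum J 0 s| ≤ B := by
  obtain ⟨g, hg, hgb⟩ := κ.shift t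
  have hg0 : ∀ y, 0 ≤ g y := fun y =>
    (abs_nonneg _).trans (hgb 2 (by norm_num) le_rfl y)
  refine ⟨∑' y : J, g (y : 𝓞 K), fun s hs1 hs2 => ?_⟩
  have h1 := κ.summable_coset J t hs1
  have h0 := κ.summable_coset J 0 hs1
  unfold cosetSum
  rw [← h1.tsum_sub h0, ← Real.norm_eq_abs]
  have hgJ : Summable fun y : J => g (y : 𝓞 K) := hg.comp_injective Subtype.val_injective
  refine tsum_of_norm_bounded hgJ.hasSum fun y => ?_
  rw [Real.norm_eq_abs, add_zero]
  exact hgb s hs1 hs2 y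

/-- Coset decomposition of `𝓞 K` along an ideal. -/
noncomputable def cosetEquiv (J : Ideal (𝓞 K)) : (𝓞 K ⧸ J) × J ≃ 𝓞 K where
  toFun p := (p.2 : 𝓞 K) + Quotient.out p.1
  invFun x := (Ideal.Quotient.mk J x, ⟨x - Quotient.out (Ideal.Quotient.mk J x), by
    rw [← Ideal.Quotient.eq, Ideal.Quotient.mk_out]⟩)
  left_inv := by
    rintro ⟨q, y⟩
    have h1 : Ideal.Quotient.mk J ((y : 𝓞 K) + Quotient.out q) = q := by
      rw [map_add, Ideal.Quotient.mk_out, Ideal.Quotient.eq_zero_iff_mem.mpr y.2, zero_add]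
    ext
    · exact h1
    · simp only
      rw [h1, add_sub_cancel_right]
  right_inv := by
    intro x
    simp

theorem cosetEquiv_apply (J : Ideal (𝓞 K)) (q : 𝓞 K ⧸ J) (y : J) :
    cosetEquiv J (q, y) = (y : 𝓞 K) + Quotient.out q := rfl

/-- The total sum is the sum of the coset sums. -/
theorem total_eq_sum_cosetSum (J : Ideal (𝓞 K)) [Fintype (𝓞 K ⧸ J)] {s : ℝ} (hs : 1 < s) :
    κ.total s = ∑ q : 𝓞 K ⧸ J, κ.cosetSum J (Quotient.out q) s := by
  have hsumF := κ.summable s hs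
  have hs' : Summable (κ.F s ∘ cosetEquiv J) :=
    ((cosetEquiv J).summable_iff (f := κ.F s)).mpr hsumF
  have e1 : ∑' x : 𝓞 K, κ.F s x = ∑' p : (𝓞 K ⧸ J) × J, (κ.F s ∘ cosetEquiv J) p :=
    ((cosetEquiv J).tsum_eq (κ.F s)).symm
  have hsumq' : ∀ q : 𝓞 K ⧸ J, Summable fun y : J => (κ.F s ∘ cosetEquiv J) (q, y) := by
    intro q
    simp only [Function.comp_apply, cosetEquiv_apply]
    exact κ.summable_coset J _ hs
  unfold total cosetSum
  rw [e1, hs'.tsum_prod' hsumq', tsum_fintype]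
  simp only [Function.comp_apply, cosetEquiv_apply]

/-- **Coset comparison**: `N(J) * ∑_{y ∈ J} F s (y + t) = ∑_x F s x + O(1)` uniformly in
`s ∈ (1, 2]`. -/
theorem exists_coset_bound (J : Ideal (𝓞 K)) (hJ : J ≠ ⊥) (t : 𝓞 K) :
    ∃ B : ℝ, ∀ s : ℝ, 1 < s → s ≤ 2 →
      |(Ideal.absNorm J : ℝ) * κ.cosetSum J t s - κ.total s| ≤ B := by
  classical
  have : Finite (𝓞 K ⧸ J) := Ideal.finiteQuotientOfFreeOfNeBot J hJ
  let _ : Fintype (𝓞 K ⧸ J) := Fintype.ofFinite _
  have hcard : (Ideal.absNorm J : ℝ) = Fintype.card (𝓞 K ⧸ J) := by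
    rw [Ideal.absNorm_apply, Submodule.cardQuot_apply, Nat.card_eq_fintype_card]
  choose B hB using fun t : 𝓞 K => κ.exists_shift_bound J t
  refine ⟨(Ideal.absNorm J : ℝ) * B t + ∑ q : 𝓞 K ⧸ J, B (Quotient.out q),
    fun s hs1 hs2 => ?_⟩
  have h1 := κ.total_eq_sum_cosetSum J hs1
  have h2 : (Ideal.absNorm J : ℝ) * κ.cosetSum J 0 s =
      ∑ _q : 𝓞 K ⧸ J, κ.cosetSum J 0 s := by
    rw [Finset.sum_const, Finset.card_univ, nsmul_eq_mul, hcard]
  have h3 : |(Ideal.absNorm J : ℝ) * κ.cosetSum J 0 s - κ.total s| ≤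
      ∑ q : 𝓞 K ⧸ J, B (Quotient.out q) := by
    rw [h1, h2, ← Finset.sum_sub_distrib]
    refine (Finset.abs_sum_le_sum_abs _ _).trans (Finset.sum_le_sum fun q _ => ?_)
    rw [abs_sub_comm]
    exact hB _ s hs1 hs2
  have h4 : |(Ideal.absNorm J : ℝ) * κ.cosetSum J t s -
      (Ideal.absNorm J : ℝ) * κ.cosetSum J 0 s| ≤ (Ideal.absNorm J : ℝ) * B t := by
    rw [← mul_sub, abs_mul, abs_of_nonneg (Nat.cast_nonneg _)]
    exact mul_le_mul_of_nonneg_left (hB t s hs1 hs2) (Nat.cast_nonneg _)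
  calc |(Ideal.absNorm J : ℝ) * κ.cosetSum J t s - κ.total s|
      = |((Ideal.absNorm J : ℝ) * κ.cosetSum J t s -
          (Ideal.absNorm J : ℝ) * κ.cosetSum J 0 s) +
          ((Ideal.absNorm J : ℝ) * κ.cosetSum J 0 s - κ.total s)| := by ring_nf
    _ ≤ _ := (abs_add_le _ _).trans (add_le_add h4 h3)

end UnitKernel

end Fermat.Agent.S55.H963

end
-- ===== PACK-END S55/H963/Kernel.lean

-- ===== PACK-BEGIN S55/L/Inv481/InflInjCore.lean
section


/-!
# Inflation is injective on `H²` when `H¹` of the kernel vanishes (cochain level, `Rep` form)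
-/

set_option autoImplicit false

namespace Fermat.Agent.S55.L.Inv481

open groupCohomology

variable {G G' : Type} [Group G] [Group G']

/-- Abstract inflation injectivity in degree 2: let `f : G' ↠ G`, `ι : A ↪ B` equivariant with
`ι A = B^{ker f}` and `H¹(ker f, B) = 0`.  If the inflation of a 2-cocycle `c` is a
coboundary, then `c` is a coboundary. -/
theorem mem_coboundaries₂_of_inflation (A : Rep ℤ G) (B : Rep ℤ G')
    (f : G' →* G) (hf : Function.Surjective f) (ι : A →+ B) (hι : Function.Injective ι)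
    (hcomm : ∀ (g : G') (x : A), ι (A.ρ (f g) x) = B.ρ g (ι x))
    (hfix : ∀ y : B, (∀ s : G', f s = 1 → B.ρ s y = y) → ∃ x : A, ι x = y)
    (hH1 : ∀ z : G' → B, (∀ s t : G', f s = 1 → f t = 1 → z (s * t) = B.ρ s (z t) + z s) →
      ∃ m : B, ∀ s : G', f s = 1 → B.ρ s m - m = z s)
    (c : cocycles₂ A)
    (hb : (fun p : G' × G' => ι (c (f p.1, f p.2))) ∈ coboundaries₂ B) :
    ⇑c ∈ coboundaries₂ A := by
  obtain ⟨h, hh⟩ := hb
  have hh : ∀ g k : G', B.ρ g (h k) - h (g * k) + h g = ι (c (f g, f k)) := by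
    intro g k
    have := congr_fun hh (g, k)
    rw [d₁₂_hom_apply] at this
    exact this
  set a : B := ι (c (1, 1)) with ha
  have hc1 : ∀ σ : G, c (1, σ) = c (1, 1) := fun σ => cocycles₂_map_one_fst c σ
  have hc2 : ∀ σ : G, c (σ, 1) = A.ρ σ (c (1, 1)) := fun σ => cocycles₂_map_one_snd c σ
  have hsa : ∀ s : G', f s = 1 → B.ρ s a = a := by
    intro s hs
    rw [ha, ← hcomm, hs, map_one]
    rfl
  -- `h - a` restricted to the kernel is a 1-cocycle
  obtain ⟨m, hm⟩ := hH1 (fun s => h s - a) (by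
    intro s t hs ht
    have := hh s t
    rw [hs, ht, ← ha] at this
    have h1 : h (s * t) = B.ρ s (h t) + h s - a := by
      rw [← this]; abel
    simp only [h1, map_sub, hsa s hs]
    abel)
  -- modified cochain
  set h₁ : G' → B := fun g => h g - (B.ρ g m - m) with hh₁
  have hd : ∀ g k : G', B.ρ g (h₁ k) - h₁ (g * k) + h₁ g = ι (c (f g, f k)) := by
    intro g k
    rw [← hh g k]
    simp only [hh₁, map_sub, map_mul, Module.End.mul_apply]
    abel
  have hS : ∀ s : G', f s = 1 → h₁ s = a := by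
    intro s hs
    simp only [hh₁]
    rw [hm s hs]
    abel
  -- right invariance
  have hr : ∀ (g s : G'), f s = 1 → h₁ (g * s) = h₁ g := by
    intro g s hs
    have := hd g s
    rw [hs, hc2, hcomm, ← ha, hS s hs] at this
    have h3 : h₁ (g * s) = h₁ g + (B.ρ g a - (B.ρ g a - h₁ (g * s) + h₁ g)) := by abel
    rw [h3, this]; abel
  -- left invariance / fixedness
  have hl : ∀ (g s : G'), f s = 1 → B.ρ s (h₁ g) = h₁ g := by
    intro g s hs
    have := hd s g
    rw [hs, hc1, ← ha, hS s hs] at this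
    have h5 : B.ρ s (h₁ g) = h₁ (s * g) := by
      have h6 : B.ρ s (h₁ g) = h₁ (s * g) + ((B.ρ s (h₁ g) - h₁ (s * g) + a) - a) := by abel
      rw [h6, this]; abel
    rw [h5]
    have : s * g = g * (g⁻¹ * s * g) := by group
    rw [this]
    apply hr
    simp [hs]
  -- descend
  have hex : ∀ σ : G, ∃ x : A, ∀ g : G', f g = σ → ι x = h₁ g := by
    intro σ
    obtain ⟨g₀, hg₀⟩ := hf σ
    obtain ⟨x, hx⟩ := hfix (h₁ g₀) (fun s hs => hl g₀ s hs)
    refine ⟨x, fun g hg => ?_⟩
    rw [hx]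
    have : g = g₀ * (g₀⁻¹ * g) := by group
    rw [this]
    symm
    apply hr
    simp [hg, hg₀]
  choose hbar hhbar using hex
  refine ⟨hbar, ?_⟩
  funext ⟨σ, τ⟩
  rw [d₁₂_hom_apply]
  obtain ⟨g, rfl⟩ := hf σ
  obtain ⟨k, rfl⟩ := hf τ
  apply hι
  simp only
  rw [map_add, map_sub, hcomm, hhbar (f k) k rfl, hhbar (f g) g rfl,
    hhbar (f g * f k) (g * k) (map_mul f g k)]
  exact hd g k

end Fermat.Agent.S55.L.Inv481

end
-- ===== PACK-END S55/L/Inv481/InflInjCore.lean

-- ===== PACK-BEGIN S55/L/Unr534/Teich.lean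
section


/-!
# S55, layer L, unramified extensions (helper534): Teichmüller lifts

`R` a local domain, complete for its maximal ideal, with finite residue field of cardinality `q`.

* `exists_teich534`       : there is `ω : R` with `ω ^ (q - 1) = 1` whose residue generates the
                            multiplicative group of the residue field;
* `eq_one_of_pow_eq_one534` : roots of unity of order prime to the residue characteristic
                            inject into the residue field.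
-/

set_option autoImplicit false
set_option linter.style.haveILetI false
set_option linter.unusedSectionVars false

namespace Fermat.Agent.S55.L.Unr534

open IsLocalRing Polynomial

section Teich

variable (R : Type) [CommRing R] [IsLocalRing R] [IsAdicComplete (maximalIdeal R) R]
  [Finite (ResidueField R)]

theorem two_le_card_residue534 : 2 ≤ Nat.card (ResidueField R) := by
  have := Finite.one_lt_card (α := ResidueField R)
  omega

theorem card_residue_cast534 : ((Nat.card (ResidueField R) : ℕ) : ResidueField R) = 0 := by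
  letI := Fintype.ofFinite (ResidueField R)
  rw [Nat.card_eq_fintype_card]
  exact FiniteField.cast_card_eq_zero _

theorem residue_pow_card_sub_one534 (x : ResidueField R) (hx : x ≠ 0) :
    x ^ (Nat.card (ResidueField R) - 1) = 1 := by
  letI := Fintype.ofFinite (ResidueField R)
  rw [Nat.card_eq_fintype_card]
  exact FiniteField.pow_card_sub_one_eq_one x hx

/-- A Teichmüller generator: `ω ^ (q - 1) = 1` and every unit of `R` is congruent to a power of
`ω` modulo the maximal ideal; moreover `ω` has exact order `q - 1`. -/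
theorem exists_teich534 :
    ∃ ω : R, ω ^ (Nat.card (ResidueField R) - 1) = 1 ∧
      (∀ l : ℕ, ω ^ l = 1 → (Nat.card (ResidueField R) - 1) ∣ l) ∧
      ∀ x : R, x ∉ maximalIdeal R → ∃ i : ℕ, x - ω ^ i ∈ maximalIdeal R := by
  classical
  set q := Nat.card (ResidueField R) with hq
  have hq2 : 2 ≤ q := two_le_card_residue534 R
  obtain ⟨g, hg⟩ := IsCyclic.exists_generator (α := (ResidueField R)ˣ)
  have hord : orderOf g = q - 1 := by
    rw [orderOf_eq_card_of_forall_mem_zpowers hg, Nat.card_units]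
  obtain ⟨a₀, ha₀⟩ := residue_surjective (R := R) (g : ResidueField R)
  have hmonic : (X ^ (q - 1) - 1 : R[X]).Monic :=
    monic_X_pow_sub_C (1 : R) (by omega)
  have hg0 : (g : ResidueField R) ≠ 0 := g.ne_zero
  have h1 : eval a₀ (X ^ (q - 1) - 1 : R[X]) ∈ maximalIdeal R := by
    rw [← residue_eq_zero_iff]
    simp only [eval_sub, eval_pow, eval_X, eval_one, map_sub, map_pow, map_one, ha₀]
    rw [residue_pow_card_sub_one534 R _ hg0, sub_self]
  have h2 : IsUnit (Ideal.Quotient.mk (maximalIdeal R)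
      (eval a₀ (derivative (X ^ (q - 1) - 1 : R[X])))) := by
    have h3 : Ideal.Quotient.mk (maximalIdeal R)
        (eval a₀ (derivative (X ^ (q - 1) - 1 : R[X]))) =
        ((q - 1 : ℕ) : ResidueField R) * (g : ResidueField R) ^ (q - 1 - 1) := by
      simp only [derivative_sub, derivative_X_pow, derivative_one, sub_zero, eval_mul,
        eval_pow, eval_X, eval_natCast, map_mul, map_pow, map_natCast]
      rw [← ha₀]
      rfl
    rw [h3]
    have h4 : ((q - 1 : ℕ) : ResidueField R) = -1 := by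
      have := card_residue_cast534 R
      rw [← hq] at this
      rw [Nat.cast_sub (by omega), this]
      simp
    rw [h4]
    exact (isUnit_one.neg).mul (IsUnit.pow _ g.isUnit)
  obtain ⟨ω, hω, hωa⟩ := HenselianRing.is_henselian (I := maximalIdeal R) _ hmonic a₀ h1 h2
  have hres : residue R ω = (g : ResidueField R) := by
    rw [← ha₀, ← sub_eq_zero, ← map_sub, residue_eq_zero_iff]
    exact hωa
  have hω1 : ω ^ (q - 1) = 1 := by
    have : eval ω (X ^ (q - 1) - 1 : R[X]) = 0 := hω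
    simpa [sub_eq_zero] using this
  refine ⟨ω, hω1, fun l hl => ?_, fun x hx => ?_⟩
  · have h5 : (g : ResidueField R) ^ l = 1 := by
      rw [← hres, ← map_pow, hl, map_one]
    have h6 : g ^ l = 1 := Units.ext (by simpa using h5)
    rw [← hord]
    exact orderOf_dvd_of_pow_eq_one h6
  · have hx0 : residue R x ≠ 0 := fun h => hx ((residue_eq_zero_iff x).mp h)
    obtain ⟨i, hi⟩ := (Subgroup.mem_zpowers_iff).mp (hg (Units.mk0 _ hx0))
    -- reduce to a natural exponent
    have hfin : IsOfFinOrder g := isOfFinOrder_of_finite g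
    obtain ⟨j, hj⟩ : ∃ j : ℕ, g ^ j = Units.mk0 _ hx0 := by
      have : Units.mk0 _ hx0 ∈ Submonoid.powers g :=
        (hfin.mem_powers_iff_mem_zpowers).mpr (hg _)
      obtain ⟨j, hj⟩ := this
      exact ⟨j, hj⟩
    refine ⟨j, ?_⟩
    rw [← residue_eq_zero_iff, map_sub, map_pow, hres, sub_eq_zero]
    have := congrArg (fun u : (ResidueField R)ˣ => (u : ResidueField R)) hj
    simpa using this.symm

end Teich

section Inj

variable {R : Type} [CommRing R] [IsDomain R] [IsLocalRing R]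

/-- Roots of unity of order `m`, `m` a unit of `R`, inject into the residue field. -/
theorem eq_one_of_pow_eq_one534 {m : ℕ} (hm : IsUnit ((m : ℕ) : R)) {ζ : R} (hζ : ζ ^ m = 1)
    (h1 : ζ - 1 ∈ maximalIdeal R) : ζ = 1 := by
  have h2 : (ζ - 1) * ∑ i ∈ Finset.range m, ζ ^ i = 0 := by
    rw [mul_geom_sum, hζ, sub_self]
  have h3 : IsUnit (∑ i ∈ Finset.range m, ζ ^ i) := by
    rw [← notMem_maximalIdeal, ← residue_eq_zero_iff]
    have hz : residue R ζ = 1 := by
      rw [← sub_eq_zero, ← map_one (residue R), ← map_sub, residue_eq_zero_iff]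
      exact h1
    simp only [map_sum, map_pow, hz, one_pow, Finset.sum_const, Finset.card_range,
      nsmul_eq_mul, mul_one]
    rw [← map_natCast (residue R), residue_eq_zero_iff]
    exact notMem_maximalIdeal.mpr hm
  rcases mul_eq_zero.mp h2 with h | h
  · exact sub_eq_zero.mp h
  · exact absurd h h3.ne_zero

end Inj

end Fermat.Agent.S55.L.Unr534

end
-- ===== PACK-END S55/L/Unr534/Teich.lean

-- ===== PACK-BEGIN S55/Bridge/Averaging.lean
section



/-!
# S55 bridge, part B3a: cohomology of a finite group whose order is invertible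

For a finite group `H` and a commutative ring `k` in which `Nat.card H` is invertible,
every 1-cocycle and every 2-cocycle with values in a `k`-linear representation is a coboundary
(averaging argument).  We give the statements needed for the Prelude objects
`groupCohomology.H1` and `groupCohomology.continuousH2`.
-/

set_option autoImplicit false

namespace Fermat.Agent.S55.Bridge

open groupCohomology CategoryTheory

universe u

variable {k H : Type u} [CommRing k] [Group H] [Fintype H] (B : Rep k H)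

/-- Averaging: a 1-cocycle on a finite group with invertible order is a coboundary. -/
theorem mem_coboundaries₁_of_card_inv (c : k) (hc : c * (Fintype.card H : k) = 1)
    (f : H → B) (hf : f ∈ cocycles₁ B) : f ∈ coboundaries₁ B := by
  rw [mem_cocycles₁_iff] at hf
  set a : B := ∑ h : H, f h with ha
  have key : ∀ g : H, (Fintype.card H : k) • f g = a - B.ρ g a := by
    intro g
    have h1 : ∑ h : H, f (g * h) = a :=
      Fintype.sum_equiv (Equiv.mulLeft g) (fun h => f (g * h)) f (fun _ => rfl)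
    have h2 : ∑ h : H, f (g * h) = B.ρ g a + (Fintype.card H : k) • f g := by
      simp_rw [hf]
      rw [Finset.sum_add_distrib, ← map_sum, Finset.sum_const, Finset.card_univ,
        Nat.cast_smul_eq_nsmul]
    rw [h1] at h2
    rw [eq_sub_iff_add_eq, add_comm]
    exact h2.symm
  refine ⟨-(c • a), ?_⟩
  funext g
  have : f g = c • (a - B.ρ g a) := by
    rw [← key g, smul_smul, hc, one_smul]
  rw [d₀₁_hom_apply, this]
  simp only [map_neg, map_smul, smul_sub]
  abel

/-- Averaging: a 2-cocycle on a finite group with invertible order is the coboundary of the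
averaged 1-cochain `g ↦ c • ∑ j, f (g, j)`. -/
theorem d₁₂_average_eq (c : k) (hc : c * (Fintype.card H : k) = 1)
    (f : H × H → B) (hf : f ∈ cocycles₂ B) :
    (d₁₂ B).hom (fun g => c • ∑ j : H, f (g, j)) = f := by
  rw [mem_cocycles₂_iff] at hf
  set u : H → B := fun g => ∑ j : H, f (g, j) with hu
  have key : ∀ g h : H, (Fintype.card H : k) • f (g, h) = B.ρ g (u h) - u (g * h) + u g := by
    intro g h
    have h1 : ∑ j : H, (f (g * h, j) + f (g, h)) = ∑ j : H, (B.ρ g (f (h, j)) + f (g, h * j)) :=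
      Finset.sum_congr rfl fun j _ => hf g h j
    rw [Finset.sum_add_distrib, Finset.sum_add_distrib, Finset.sum_const, Finset.card_univ,
      ← map_sum] at h1
    have h2 : ∑ j : H, f (g, h * j) = u g :=
      Fintype.sum_equiv (Equiv.mulLeft h) (fun j => f (g, h * j)) (fun j => f (g, j))
        (fun _ => rfl)
    rw [h2, ← Nat.cast_smul_eq_nsmul k] at h1
    have h3 : (Fintype.card H : k) • f (g, h) = B.ρ g (u h) + u g - u (g * h) := by
      rw [eq_sub_iff_add_eq, add_comm]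
      exact h1
    rw [h3]
    abel
  funext ⟨g, h⟩
  have : f (g, h) = c • (B.ρ g (u h) - u (g * h) + u g) := by
    rw [← key g h, smul_smul, hc, one_smul]
  rw [d₁₂_hom_apply, this]
  simp only [map_smul, smul_sub, smul_add]
  rfl

theorem mem_coboundaries₂_of_card_inv (c : k) (hc : c * (Fintype.card H : k) = 1)
    (f : H × H → B) (hf : f ∈ cocycles₂ B) : f ∈ coboundaries₂ B :=
  ⟨_, d₁₂_average_eq B c hc f hf⟩

/-- `H¹` of a finite group with invertible order vanishes. -/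
theorem H1_eq_zero_of_card_inv (c : k) (hc : c * (Fintype.card H : k) = 1) (x : H1 B) : x = 0 := by
  induction x using H1_induction_on with
  | h f => exact (H1π_eq_zero_iff f).2 (mem_coboundaries₁_of_card_inv B c hc f f.2)

/-- `H²` of a finite group with invertible order vanishes. -/
theorem H2_eq_zero_of_card_inv (c : k) (hc : c * (Fintype.card H : k) = 1) (x : H2 B) : x = 0 := by
  induction x using H2_induction_on with
  | h f => exact (H2π_eq_zero_iff f).2 (mem_coboundaries₂_of_card_inv B c hc f f.2)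

/-- The Prelude's continuous `H²` (level-constant cochains with respect to
`r : H →* Gal(ℚ̄/ℚ)`) of a finite group with invertible order vanishes. -/
theorem continuousH2_eq_zero_of_card_inv
    (r : H →* (AlgebraicClosure ℚ ≃ₐ[ℚ] AlgebraicClosure ℚ))
    (c : k) (hc : c * (Fintype.card H : k) = 1) (x : continuousH2 r B) : x = 0 := by
  obtain ⟨f, rfl⟩ := Submodule.Quotient.mk_surjective _ x
  rw [Submodule.Quotient.mk_eq_zero, Submodule.mem_comap, Submodule.subtype_apply,
    mem_levelCoboundaries₂_iff]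
  obtain ⟨hfc, F, hF, hlev⟩ := f.2
  refine ⟨fun g => c • ∑ j : H, (f : H × H → B) (g, j), ⟨F, hF, fun g s hs => ?_⟩,
    d₁₂_average_eq B c hc _ hfc⟩
  refine congrArg (c • ·) (Finset.sum_congr rfl fun j _ => ?_)
  have := hlev g j s 1 hs (by rw [map_one]; exact Subgroup.one_mem _)
  simpa using this

end Fermat.Agent.S55.Bridge

end
-- ===== PACK-END S55/Bridge/Averaging.lean

-- ===== PACK-BEGIN S55/E1/H603/CoeffInt.lean
section
/-
S55 bridge (helper603): change of coefficient ring `Rep k G → Rep ℤ G`.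

The Prelude works with `Rep (ZMod p) G_ℚ`, engine E1 with `Rep ℤ G`.  For `A : Rep k G`:
* `toInt A : Rep ℤ G` (same underlying additive group, same action);
* `H1IntEquiv A : H1 (toInt A) ≃+ H1 A`, `H2IntEquiv A : H2 (toInt A) ≃+ H2 A`
  (identity on cocycles: `H1IntEquiv_mk`, `H2IntEquiv_mk`);
* `toIntHom f φ : Rep.res f (toInt A) ⟶ toInt B` for `φ : Rep.res f A ⟶ B`, and naturality
  `H1IntEquiv_map`, `H2IntEquiv_map` with respect to `groupCohomology.map f φ n`.
Mathlib only.  No sorry.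
-/


set_option autoImplicit false

namespace Fermat.Agent.S55.E1.H603

open groupCohomology CategoryTheory

noncomputable section

variable {k G : Type} [CommRing k] [Group G] (A : Rep.{0, 0, 0} k G)

/-- The underlying `ℤ`-linear representation. -/
def intRepr : Representation ℤ G A.V where
  toFun g := (A.ρ g).toAddMonoidHom.toIntLinearMap
  map_one' := by
    refine LinearMap.ext fun x => ?_
    simp
  map_mul' g h := by
    refine LinearMap.ext fun x => ?_
    simp

/-- `A` as a representation over `ℤ`. -/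
def toInt : Rep.{0, 0, 0} ℤ G := Rep.of (intRepr A)

@[simp] theorem toInt_ρ_apply (g : G) (a : A.V) : (toInt A).ρ g a = A.ρ g a := rfl

/-! ### Descending additive maps from cocycles -/

theorem H1π_surjective' : Function.Surjective (H1π A).hom :=
  (ModuleCat.epi_iff_surjective (H1π A)).1 inferInstance

theorem H2π_surjective' : Function.Surjective (H2π A).hom :=
  (ModuleCat.epi_iff_surjective (H2π A)).1 inferInstance

/-- `H1π` as an additive map. -/
def H1πAdd : cocycles₁ A →+ H1 A := (H1π A).hom.toAddMonoidHom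

/-- `H2π` as an additive map. -/
def H2πAdd : cocycles₂ A →+ H2 A := (H2π A).hom.toAddMonoidHom

@[simp] theorem H1πAdd_apply (c : cocycles₁ A) : H1πAdd A c = (H1π A).hom c := rfl
@[simp] theorem H2πAdd_apply (c : cocycles₂ A) : H2πAdd A c = (H2π A).hom c := rfl

/-- An additive map on 1-cocycles killing the coboundaries descends to `H¹`. -/
def H1descAdd {X : Type} [AddCommGroup X] (φ : cocycles₁ A →+ X)
    (h : ∀ c : cocycles₁ A, (c : G → A) ∈ coboundaries₁ A → φ c = 0) : H1 A →+ X :=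
  (QuotientAddGroup.lift (H1πAdd A).ker φ (fun c hc =>
      h c ((H1π_eq_zero_iff c).1 ((AddMonoidHom.mem_ker).1 hc)))).comp
    (QuotientAddGroup.quotientKerEquivOfSurjective (H1πAdd A)
      (H1π_surjective' A)).symm.toAddMonoidHom

theorem H1descAdd_mk {X : Type} [AddCommGroup X] (φ : cocycles₁ A →+ X)
    (h : ∀ c : cocycles₁ A, (c : G → A) ∈ coboundaries₁ A → φ c = 0) (c : cocycles₁ A) :
    H1descAdd A φ h ((H1π A).hom c) = φ c := by
  have : (QuotientAddGroup.quotientKerEquivOfSurjective (H1πAdd A)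
      (H1π_surjective' A)).symm ((H1π A).hom c) = QuotientAddGroup.mk c := by
    rw [AddEquiv.symm_apply_eq]
    rfl
  simp only [H1descAdd, AddMonoidHom.comp_apply, AddEquiv.coe_toAddMonoidHom, this]
  rfl

/-- An additive map on 2-cocycles killing the coboundaries descends to `H²`. -/
def H2descAdd {X : Type} [AddCommGroup X] (φ : cocycles₂ A →+ X)
    (h : ∀ c : cocycles₂ A, (c : G × G → A) ∈ coboundaries₂ A → φ c = 0) : H2 A →+ X :=
  (QuotientAddGroup.lift (H2πAdd A).ker φ (fun c hc =>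
      h c ((H2π_eq_zero_iff c).1 ((AddMonoidHom.mem_ker).1 hc)))).comp
    (QuotientAddGroup.quotientKerEquivOfSurjective (H2πAdd A)
      (H2π_surjective' A)).symm.toAddMonoidHom

theorem H2descAdd_mk {X : Type} [AddCommGroup X] (φ : cocycles₂ A →+ X)
    (h : ∀ c : cocycles₂ A, (c : G × G → A) ∈ coboundaries₂ A → φ c = 0) (c : cocycles₂ A) :
    H2descAdd A φ h ((H2π A).hom c) = φ c := by
  have : (QuotientAddGroup.quotientKerEquivOfSurjective (H2πAdd A)
      (H2π_surjective' A)).symm ((H2π A).hom c) = QuotientAddGroup.mk c := by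
    rw [AddEquiv.symm_apply_eq]
    rfl
  simp only [H2descAdd, AddMonoidHom.comp_apply, AddEquiv.coe_toAddMonoidHom, this]
  rfl

/-! ### Cocycles and coboundaries do not depend on the coefficient ring -/

theorem mem_cocycles₁_toInt_iff (f : G → A.V) : f ∈ cocycles₁ (toInt A) ↔ f ∈ cocycles₁ A :=
  (mem_cocycles₁_iff (A := toInt A) f).trans (mem_cocycles₁_iff (A := A) f).symm

theorem mem_cocycles₂_toInt_iff (f : G × G → A.V) :
    f ∈ cocycles₂ (toInt A) ↔ f ∈ cocycles₂ A :=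
  (mem_cocycles₂_iff (A := toInt A) f).trans (mem_cocycles₂_iff (A := A) f).symm

theorem mem_coboundaries₁_toInt_iff (f : G → A.V) :
    f ∈ coboundaries₁ (toInt A) ↔ f ∈ coboundaries₁ A := by
  constructor
  · rintro ⟨a, ha⟩
    exact ⟨a, ha⟩
  · rintro ⟨a, ha⟩
    exact ⟨a, ha⟩

theorem mem_coboundaries₂_toInt_iff (f : G × G → A.V) :
    f ∈ coboundaries₂ (toInt A) ↔ f ∈ coboundaries₂ A := by
  constructor
  · rintro ⟨a, ha⟩
    exact ⟨a, ha⟩
  · rintro ⟨a, ha⟩
    exact ⟨a, ha⟩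

/-- 1-cocycles of `A` as 1-cocycles of `toInt A`. -/
def cocToInt₁ : cocycles₁ A →+ cocycles₁ (toInt A) where
  toFun c := ⟨(c : G → A.V), (mem_cocycles₁_toInt_iff A _).2 c.2⟩
  map_zero' := rfl
  map_add' _ _ := rfl

/-- 1-cocycles of `toInt A` as 1-cocycles of `A`. -/
def cocOfInt₁ : cocycles₁ (toInt A) →+ cocycles₁ A where
  toFun c := ⟨(c : G → A.V), (mem_cocycles₁_toInt_iff A _).1 c.2⟩
  map_zero' := rfl
  map_add' _ _ := rfl

/-- 2-cocycles of `A` as 2-cocycles of `toInt A`. -/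
def cocToInt₂ : cocycles₂ A →+ cocycles₂ (toInt A) where
  toFun c := ⟨(c : G × G → A.V), (mem_cocycles₂_toInt_iff A _).2 c.2⟩
  map_zero' := rfl
  map_add' _ _ := rfl

/-- 2-cocycles of `toInt A` as 2-cocycles of `A`. -/
def cocOfInt₂ : cocycles₂ (toInt A) →+ cocycles₂ A where
  toFun c := ⟨(c : G × G → A.V), (mem_cocycles₂_toInt_iff A _).1 c.2⟩
  map_zero' := rfl
  map_add' _ _ := rfl

@[simp] theorem coe_cocToInt₁ (c : cocycles₁ A) : (cocToInt₁ A c : G → A.V) = c := rfl
@[simp] theorem coe_cocOfInt₁ (c : cocycles₁ (toInt A)) : (cocOfInt₁ A c : G → A.V) = c := rfl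
@[simp] theorem coe_cocToInt₂ (c : cocycles₂ A) : (cocToInt₂ A c : G × G → A.V) = c := rfl
@[simp] theorem coe_cocOfInt₂ (c : cocycles₂ (toInt A)) :
    (cocOfInt₂ A c : G × G → A.V) = c := rfl

/-! ### The comparison isomorphisms -/

/-- `H¹(G, A_ℤ) → H¹(G, A)`. -/
def H1OfInt : H1 (toInt A) →+ H1 A :=
  H1descAdd (toInt A) ((H1πAdd A).comp (cocOfInt₁ A)) (fun c hc => by
    rw [AddMonoidHom.comp_apply, H1πAdd_apply, H1π_eq_zero_iff]
    exact (mem_coboundaries₁_toInt_iff A _).1 hc)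

/-- `H¹(G, A) → H¹(G, A_ℤ)`. -/
def H1ToInt : H1 A →+ H1 (toInt A) :=
  H1descAdd A ((H1πAdd (toInt A)).comp (cocToInt₁ A)) (fun c hc => by
    rw [AddMonoidHom.comp_apply, H1πAdd_apply, H1π_eq_zero_iff]
    exact (mem_coboundaries₁_toInt_iff A _).2 hc)

@[simp] theorem H1OfInt_mk (c : cocycles₁ (toInt A)) :
    H1OfInt A ((H1π (toInt A)).hom c) = (H1π A).hom (cocOfInt₁ A c) :=
  H1descAdd_mk (toInt A) _ _ c

@[simp] theorem H1ToInt_mk (c : cocycles₁ A) :
    H1ToInt A ((H1π A).hom c) = (H1π (toInt A)).hom (cocToInt₁ A c) :=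
  H1descAdd_mk A _ _ c

/-- `H¹(G, A_ℤ) ≃+ H¹(G, A)`. -/
def H1IntEquiv : H1 (toInt A) ≃+ H1 A where
  toFun := H1OfInt A
  invFun := H1ToInt A
  left_inv x := by
    induction x using H1_induction_on with | @h c =>
    rw [H1OfInt_mk, H1ToInt_mk]
    rfl
  right_inv x := by
    induction x using H1_induction_on with | @h c =>
    rw [H1ToInt_mk, H1OfInt_mk]
    rfl
  map_add' := map_add _

@[simp] theorem H1IntEquiv_mk (c : cocycles₁ (toInt A)) :
    H1IntEquiv A ((H1π (toInt A)).hom c) = (H1π A).hom (cocOfInt₁ A c) := H1OfInt_mk A c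

/-- `H²(G, A_ℤ) → H²(G, A)`. -/
def H2OfInt : H2 (toInt A) →+ H2 A :=
  H2descAdd (toInt A) ((H2πAdd A).comp (cocOfInt₂ A)) (fun c hc => by
    rw [AddMonoidHom.comp_apply, H2πAdd_apply, H2π_eq_zero_iff]
    exact (mem_coboundaries₂_toInt_iff A _).1 hc)

/-- `H²(G, A) → H²(G, A_ℤ)`. -/
def H2ToInt : H2 A →+ H2 (toInt A) :=
  H2descAdd A ((H2πAdd (toInt A)).comp (cocToInt₂ A)) (fun c hc => by
    rw [AddMonoidHom.comp_apply, H2πAdd_apply, H2π_eq_zero_iff]
    exact (mem_coboundaries₂_toInt_iff A _).2 hc)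

@[simp] theorem H2OfInt_mk (c : cocycles₂ (toInt A)) :
    H2OfInt A ((H2π (toInt A)).hom c) = (H2π A).hom (cocOfInt₂ A c) :=
  H2descAdd_mk (toInt A) _ _ c

@[simp] theorem H2ToInt_mk (c : cocycles₂ A) :
    H2ToInt A ((H2π A).hom c) = (H2π (toInt A)).hom (cocToInt₂ A c) :=
  H2descAdd_mk A _ _ c

/-- `H²(G, A_ℤ) ≃+ H²(G, A)`. -/
def H2IntEquiv : H2 (toInt A) ≃+ H2 A where
  toFun := H2OfInt A
  invFun := H2ToInt A
  left_inv x := by
    induction x using H2_induction_on with | @h c =>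
    rw [H2OfInt_mk, H2ToInt_mk]
    rfl
  right_inv x := by
    induction x using H2_induction_on with | @h c =>
    rw [H2ToInt_mk, H2OfInt_mk]
    rfl
  map_add' := map_add _

@[simp] theorem H2IntEquiv_mk (c : cocycles₂ (toInt A)) :
    H2IntEquiv A ((H2π (toInt A)).hom c) = (H2π A).hom (cocOfInt₂ A c) := H2OfInt_mk A c

/-! ### Naturality -/

section Naturality

variable {A}
variable {G' : Type} [Group G'] {B : Rep.{0, 0, 0} k G'} (f : G' →* G) (φ : Rep.res f A ⟶ B)

/-- The morphism over `ℤ` underlying a morphism over `k`. -/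
def toIntHom : Rep.res f (toInt A) ⟶ toInt B :=
  Rep.ofHom ⟨(φ.hom : A.V →ₗ[k] B.V).toAddMonoidHom.toIntLinearMap, fun g =>
    LinearMap.ext fun x => Rep.hom_comm_apply φ g x⟩

@[simp] theorem toIntHom_apply (a : A.V) : (toIntHom f φ).hom a = φ.hom a := rfl

theorem H1IntEquiv_map (x : H1 (toInt A)) :
    H1IntEquiv B ((groupCohomology.map f (toIntHom f φ) 1).hom x) =
      (groupCohomology.map f φ 1).hom (H1IntEquiv A x) := by
  induction x using H1_induction_on with | @h c =>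
  have h1 : (groupCohomology.map f (toIntHom f φ) 1).hom ((H1π (toInt A)).hom c) =
      (H1π (toInt B)).hom ((mapCocycles₁ f (toIntHom f φ)).hom c) :=
    H1π_comp_map_apply f (toIntHom f φ) c
  have h2 : (groupCohomology.map f φ 1).hom ((H1π A).hom (cocOfInt₁ A c)) =
      (H1π B).hom ((mapCocycles₁ f φ).hom (cocOfInt₁ A c)) :=
    H1π_comp_map_apply f φ (cocOfInt₁ A c)
  rw [h1, H1IntEquiv_mk, H1IntEquiv_mk, h2]
  rfl

theorem H2IntEquiv_map (x : H2 (toInt A)) :
    H2IntEquiv B ((groupCohomology.map f (toIntHom f φ) 2).hom x) =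
      (groupCohomology.map f φ 2).hom (H2IntEquiv A x) := by
  induction x using H2_induction_on with | @h c =>
  have h1 : (groupCohomology.map f (toIntHom f φ) 2).hom ((H2π (toInt A)).hom c) =
      (H2π (toInt B)).hom ((mapCocycles₂ f (toIntHom f φ)).hom c) := by
    have hcomp := congrArg (fun ψ => ψ.hom c)
      (H2π_comp_map (A := toInt A) (B := toInt B) f (toIntHom f φ))
    simp only [ModuleCat.hom_comp, LinearMap.comp_apply] at hcomp
    exact hcomp
  have h2 : (groupCohomology.map f φ 2).hom ((H2π A).hom (cocOfInt₂ A c)) =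
      (H2π B).hom ((mapCocycles₂ f φ).hom (cocOfInt₂ A c)) := by
    have hcomp := congrArg (fun ψ => ψ.hom (cocOfInt₂ A c))
      (H2π_comp_map (A := A) (B := B) f φ)
    simp only [ModuleCat.hom_comp, LinearMap.comp_apply] at hcomp
    exact hcomp
  rw [h1, H2IntEquiv_mk, H2IntEquiv_mk, h2]
  rfl

/-- `toInt` commutes with restriction (definitionally). -/
theorem toInt_res : toInt (Rep.res f A) = Rep.res f (toInt A) := rfl

end Naturality

end

end Fermat.Agent.S55.E1.H603

end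
-- ===== PACK-END S55/E1/H603/CoeffInt.lean

-- ===== PACK-BEGIN S55/Bridge/H175/InvUnits.lean
section


set_option autoImplicit false
set_option linter.style.haveILetI false
set_option linter.unusedSectionVars false

/-!
# Invariants of `K'ˣ` under `Gal(K'/E)` are `Eˣ` (as Galois modules)

`K'/k` a Galois extension (possibly infinite), `E` a normal subextension (given as a type with
`Algebra k E`, `Algebra E K'`, `IsScalarTower k E K'`: no instance is hard-wired),
`N = ker (Gal(K'/k) → Gal(E/k)) = Gal(K'/E)`.  Then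

* `quotEquiv : Gal(K'/k) ⧸ N ≃* Gal(E/k)`;
* `invUnitsEquiv : ((K'ˣ)^N as Rep ℤ (Gal(K'/k) ⧸ N)) ≃+ (Rep.ofAlgebraAutOnUnits k E).V`,
  equivariant along `quotEquiv` (`invUnitsEquiv_ρ`).
-/

namespace Fermat.Agent.S55.Bridge.H175

open IntermediateField

section General

variable {k K' : Type} [Field k] [Field K'] [Algebra k K']

/-- The element of `K'` underlying a vector of the representation `K'ˣ`. -/
def uval (x : (Rep.ofAlgebraAutOnUnits k K').V) : K' :=
  ((Additive.toMul (show Additive K'ˣ from x) : K'ˣ) : K')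

theorem uval_injective : Function.Injective (uval (k := k) (K' := K')) := by
  intro x y h
  have h1 : (Additive.toMul (show Additive K'ˣ from x) : K'ˣ) =
      Additive.toMul (show Additive K'ˣ from y) := Units.ext h
  exact Additive.toMul.injective h1

theorem uval_ne_zero (x : (Rep.ofAlgebraAutOnUnits k K').V) : uval x ≠ 0 :=
  (Additive.toMul (show Additive K'ˣ from x) : K'ˣ).ne_zero

theorem uval_ρ (σ : K' ≃ₐ[k] K') (x : (Rep.ofAlgebraAutOnUnits k K').V) :
    uval ((Rep.ofAlgebraAutOnUnits k K').ρ σ x) = σ (uval x) := rfl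

/-- The vector of the representation `K'ˣ` attached to a nonzero element. -/
def umk (a : K') (ha : a ≠ 0) : (Rep.ofAlgebraAutOnUnits k K').V :=
  (show Additive K'ˣ from Additive.ofMul (Units.mk0 a ha))

theorem uval_umk (a : K') (ha : a ≠ 0) : uval (umk (k := k) a ha) = a := rfl

variable (E : Type) [Field E] [Algebra k E] [Algebra E K'] [IsScalarTower k E K']

/-- The inclusion `Eˣ → K'ˣ` on the level of representation spaces. -/
noncomputable def unitsIncl :
    (Rep.ofAlgebraAutOnUnits k E).V →+ (Rep.ofAlgebraAutOnUnits k K').V :=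
  (show Additive Eˣ →+ Additive K'ˣ from
    MonoidHom.toAdditive (Units.map (algebraMap E K' : E →* K')))

theorem uval_unitsIncl (y : (Rep.ofAlgebraAutOnUnits k E).V) :
    uval (unitsIncl (k := k) (K' := K') E y) = algebraMap E K' (uval y) := rfl

theorem unitsIncl_injective : Function.Injective (unitsIncl (k := k) (K' := K') E) := by
  intro y y' h
  have h1 := congrArg uval h
  rw [uval_unitsIncl, uval_unitsIncl] at h1
  exact uval_injective ((algebraMap E K').injective h1)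

/-- A unit of `K'` lying in the image of `E` is the image of a unit of `E`. -/
theorem exists_unitsIncl_eq (x : (Rep.ofAlgebraAutOnUnits k K').V)
    (hx : ∃ a : E, algebraMap E K' a = uval x) :
    ∃ y : (Rep.ofAlgebraAutOnUnits k E).V, unitsIncl (k := k) (K' := K') E y = x := by
  obtain ⟨a, ha⟩ := hx
  have ha0 : a ≠ 0 := by
    intro h
    rw [h, map_zero] at ha
    exact uval_ne_zero x ha.symm
  refine ⟨umk a ha0, ?_⟩
  apply uval_injective
  rw [uval_unitsIncl, uval_umk, ha]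

variable [IsGalois k K'] [hE : Normal k E]
variable (N : Subgroup (K' ≃ₐ[k] K')) [hNn : N.Normal]

/-- `Gal(K'/k) ⧸ Gal(K'/E) ≃* Gal(E/k)`. -/
noncomputable def quotEquiv
    (hN : N = (AlgEquiv.restrictNormalHom (F := k) (K₁ := K') E).ker) :
    (K' ≃ₐ[k] K') ⧸ N ≃* (E ≃ₐ[k] E) :=
  QuotientGroup.liftEquiv N (φ := AlgEquiv.restrictNormalHom (F := k) (K₁ := K') E)
    (AlgEquiv.restrictNormalHom_surjective (F := k) (K₁ := E) K') hN

theorem quotEquiv_mk (hN : N = (AlgEquiv.restrictNormalHom (F := k) (K₁ := K') E).ker)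
    (σ : K' ≃ₐ[k] K') :
    quotEquiv E N hN (QuotientGroup.mk σ) = AlgEquiv.restrictNormalHom E σ := rfl

theorem quotEquiv_mk_apply (hN : N = (AlgEquiv.restrictNormalHom (F := k) (K₁ := K') E).ker)
    (σ : K' ≃ₐ[k] K') (x : E) :
    algebraMap E K' (quotEquiv E N hN (QuotientGroup.mk σ) x) = σ (algebraMap E K' x) := by
  rw [quotEquiv_mk]
  exact AlgEquiv.restrictNormal_commutes σ E x

/-- `σ ∈ ker (Gal(K'/k) → Gal(E/k))` iff `σ` fixes the image of `E`. -/
theorem mem_ker_restrictNormalHom_iff (σ : K' ≃ₐ[k] K') :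
    σ ∈ (AlgEquiv.restrictNormalHom (F := k) (K₁ := K') E).ker ↔
      ∀ a : E, σ (algebraMap E K' a) = algebraMap E K' a := by
  rw [MonoidHom.mem_ker]
  constructor
  · intro h a
    have h1 := AlgEquiv.restrictNormal_commutes σ E a
    have h2 : AlgEquiv.restrictNormal σ E = 1 := h
    rw [h2] at h1
    exact h1.symm
  · intro h
    apply AlgEquiv.ext
    intro a
    apply (algebraMap E K').injective
    have h1 := AlgEquiv.restrictNormal_commutes σ E a
    exact h1.trans (h a)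

/-- Membership in the invariants of `K'ˣ` under `N = Gal(K'/E)`. -/
theorem mem_invariants_units_iff
    (hN : N = (AlgEquiv.restrictNormalHom (F := k) (K₁ := K') E).ker)
    (x : (Rep.ofAlgebraAutOnUnits k K').V) :
    x ∈ Representation.invariants ((Rep.ofAlgebraAutOnUnits k K').ρ.comp N.subtype) ↔
      ∃ a : E, algebraMap E K' a = uval x := by
  rw [Representation.mem_invariants]
  constructor
  · intro h
    have hmem : uval x ∈ (IsScalarTower.toAlgHom k E K').fieldRange := by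
      rw [← InfiniteGalois.fixedField_fixingSubgroup (IsScalarTower.toAlgHom k E K').fieldRange,
        IntermediateField.mem_fixedField_iff]
      intro σ hσ
      have hσN : σ ∈ N := by
        rw [hN, mem_ker_restrictNormalHom_iff]
        intro a
        exact (IntermediateField.mem_fixingSubgroup_iff _ σ).mp hσ _ ⟨a, rfl⟩
      have h1 := h ⟨σ, hσN⟩
      exact congrArg uval h1
    obtain ⟨a, ha⟩ := hmem
    exact ⟨a, ha⟩
  · rintro ⟨a, ha⟩ σ
    have hσ : ∀ b : E, (σ : K' ≃ₐ[k] K') (algebraMap E K' b) = algebraMap E K' b :=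
      (mem_ker_restrictNormalHom_iff E _).mp (hN ▸ σ.2)
    apply uval_injective
    change (σ : K' ≃ₐ[k] K') (uval x) = uval x
    rw [← ha]
    exact hσ a

/-- The range of `Eˣ → K'ˣ` is the submodule of `N`-invariants. -/
theorem range_unitsIncl (hN : N = (AlgEquiv.restrictNormalHom (F := k) (K₁ := K') E).ker) :
    (unitsIncl (k := k) (K' := K') E).range =
      (Representation.invariants
        ((Rep.ofAlgebraAutOnUnits k K').ρ.comp N.subtype)).toAddSubgroup := by
  ext x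
  rw [Submodule.mem_toAddSubgroup, mem_invariants_units_iff E N hN]
  constructor
  · rintro ⟨y, rfl⟩
    exact ⟨uval y, (uval_unitsIncl E y).symm⟩
  · intro h
    exact exists_unitsIncl_eq E x h

/-- **`(K'ˣ)^N ≃+ Eˣ`.** -/
noncomputable def invUnitsEquiv
    (hN : N = (AlgEquiv.restrictNormalHom (F := k) (K₁ := K') E).ker) :
    ((Rep.ofAlgebraAutOnUnits k K').quotientToInvariants N).V ≃+
      (Rep.ofAlgebraAutOnUnits k E).V :=
  ((AddEquiv.addSubgroupCongr (range_unitsIncl E N hN)).symm.trans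
    (AddMonoidHom.ofInjective (unitsIncl_injective (k := k) (K' := K') E)).symm :
    ((Representation.invariants
      ((Rep.ofAlgebraAutOnUnits k K').ρ.comp N.subtype)).toAddSubgroup) ≃+
        (Rep.ofAlgebraAutOnUnits k E).V)

/-- The inclusion of the invariants into `K'ˣ`. -/
def invVal (x : ((Rep.ofAlgebraAutOnUnits k K').quotientToInvariants N).V) :
    (Rep.ofAlgebraAutOnUnits k K').V :=
  (show ↥(Representation.invariants
    ((Rep.ofAlgebraAutOnUnits k K').ρ.comp N.subtype)) from x).1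

theorem unitsIncl_invUnitsEquiv
    (hN : N = (AlgEquiv.restrictNormalHom (F := k) (K₁ := K') E).ker)
    (x : ((Rep.ofAlgebraAutOnUnits k K').quotientToInvariants N).V) :
    unitsIncl E (invUnitsEquiv E N hN x) = invVal N x := by
  have h := (AddMonoidHom.ofInjective (unitsIncl_injective (k := k) (K' := K') E)).apply_symm_apply
    ((AddEquiv.addSubgroupCongr (range_unitsIncl E N hN)).symm x)
  exact congrArg Subtype.val h

theorem uval_invUnitsEquiv
    (hN : N = (AlgEquiv.restrictNormalHom (F := k) (K₁ := K') E).ker)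
    (x : ((Rep.ofAlgebraAutOnUnits k K').quotientToInvariants N).V) :
    algebraMap E K' (uval (invUnitsEquiv E N hN x)) = uval (invVal N x) := by
  rw [← uval_unitsIncl, unitsIncl_invUnitsEquiv]

theorem invVal_ρ_mk (σ : K' ≃ₐ[k] K')
    (x : ((Rep.ofAlgebraAutOnUnits k K').quotientToInvariants N).V) :
    invVal N (((Rep.ofAlgebraAutOnUnits k K').quotientToInvariants N).ρ
      (QuotientGroup.mk σ) x) = (Rep.ofAlgebraAutOnUnits k K').ρ σ (invVal N x) := rfl

/-- **Equivariance** of `(K'ˣ)^N ≃+ Eˣ` along `Gal(K'/k) ⧸ N ≃* Gal(E/k)`. -/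
theorem invUnitsEquiv_ρ
    (hN : N = (AlgEquiv.restrictNormalHom (F := k) (K₁ := K') E).ker)
    (g : (K' ≃ₐ[k] K') ⧸ N)
    (x : ((Rep.ofAlgebraAutOnUnits k K').quotientToInvariants N).V) :
    invUnitsEquiv E N hN (((Rep.ofAlgebraAutOnUnits k K').quotientToInvariants N).ρ g x) =
      (Rep.ofAlgebraAutOnUnits k E).ρ (quotEquiv E N hN g) (invUnitsEquiv E N hN x) := by
  obtain ⟨σ, rfl⟩ := QuotientGroup.mk_surjective g
  apply unitsIncl_injective (k := k) (K' := K') E
  rw [unitsIncl_invUnitsEquiv]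
  apply uval_injective
  rw [uval_unitsIncl, uval_ρ, quotEquiv_mk_apply, uval_invUnitsEquiv, invVal_ρ_mk, uval_ρ]

end General

end Fermat.Agent.S55.Bridge.H175

end
-- ===== PACK-END S55/Bridge/H175/InvUnits.lean

-- ===== PACK-BEGIN S55/G/Exist/IdxH901Group.lean
section
/-
S55, layer G, block EXIST, leaf EX-IDX (helper901) — part 1: group-theoretic bookkeeping.
Mathlib only.  Sorry-free.

* `index_pi_dep` : index of a product subgroup in a dependent finite product;
* `index_range_pow_pi` : `[∏ Gᵢ : (∏ Gᵢ)ⁿ] = ∏ [Gᵢ : Gᵢⁿ]`;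
* `index_range_pow_congr` : invariance under isomorphisms;
* `index_range_nsmul_additive` : additive form.
-/


set_option autoImplicit false

namespace Fermat.Agent.S55.G.Exist.H901

/-- Dependent version of `Subgroup.index_pi`. -/
lemma index_pi_dep {ι : Type*} [Fintype ι] {G : ι → Type*} [∀ i, Group (G i)]
    (H : ∀ i, Subgroup (G i)) :
    (Subgroup.pi Set.univ H).index = ∏ i, (H i).index := by
  simp_rw [Subgroup.index, ← Nat.card_pi]
  refine Nat.card_congr
    ((Quotient.congrRight (fun x y ↦ ?_)).trans (Setoid.piQuotientEquiv _).symm)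
  rw [QuotientGroup.leftRel_pi]

lemma range_powMonoidHom_pi {ι : Type*} {G : ι → Type*} [∀ i, CommGroup (G i)] (n : ℕ) :
    (powMonoidHom n : (∀ i, G i) →* (∀ i, G i)).range =
      Subgroup.pi Set.univ (fun i => (powMonoidHom n : G i →* G i).range) := by
  ext f
  simp only [MonoidHom.mem_range, powMonoidHom_apply, Subgroup.mem_pi, Set.mem_univ,
    forall_true_left]
  constructor
  · rintro ⟨g, rfl⟩ i
    exact ⟨g i, rfl⟩
  · intro h
    choose g hg using h
    exact ⟨g, funext hg⟩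

/-- `[∏ Gᵢ : (∏ Gᵢ)ⁿ] = ∏ [Gᵢ : Gᵢⁿ]` for a finite family of commutative groups. -/
theorem index_range_pow_pi {ι : Type*} [Fintype ι] {G : ι → Type*} [∀ i, CommGroup (G i)]
    (n : ℕ) :
    (powMonoidHom n : (∀ i, G i) →* (∀ i, G i)).range.index =
      ∏ i, (powMonoidHom n : G i →* G i).range.index := by
  rw [range_powMonoidHom_pi, index_pi_dep]

/-- The index of the `n`-th powers is invariant under isomorphisms. -/
theorem index_range_pow_congr {G H : Type*} [CommGroup G] [CommGroup H] (e : G ≃* H) (n : ℕ) :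
    (powMonoidHom n : G →* G).range.index = (powMonoidHom n : H →* H).range.index := by
  have h : ((powMonoidHom n : G →* G).range).map (e : G →* H) = (powMonoidHom n : H →* H).range := by
    ext y
    simp only [Subgroup.mem_map, MonoidHom.mem_range, powMonoidHom_apply, MonoidHom.coe_coe]
    constructor
    · rintro ⟨_, ⟨x, rfl⟩, rfl⟩
      exact ⟨e x, (map_pow e x n).symm⟩
    · rintro ⟨x, rfl⟩
      exact ⟨e.symm x ^ n, ⟨e.symm x, rfl⟩, by rw [map_pow, e.apply_symm_apply]⟩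
  rw [← h, Subgroup.index_map_equiv]

/-- Additive form of the index of the `n`-th powers. -/
theorem index_range_nsmul_additive (G : Type*) [CommGroup G] (n : ℕ) :
    (nsmulAddMonoidHom (α := Additive G) n).range.index = (powMonoidHom n : G →* G).range.index := by
  rw [← Subgroup.index_toAddSubgroup]
  rfl

/-- The index of the `n`-th powers in the units of a finite product of rings. -/
theorem index_range_pow_units_pi {ι : Type*} [Fintype ι] {R : ι → Type*} [∀ i, CommRing (R i)]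
    (n : ℕ) :
    (powMonoidHom n : (∀ i, R i)ˣ →* (∀ i, R i)ˣ).range.index =
      ∏ i, (powMonoidHom n : (R i)ˣ →* (R i)ˣ).range.index := by
  rw [index_range_pow_congr (MulEquiv.piUnits (M := R)) n, index_range_pow_pi]

/-- The index of the `n`-th powers in the units is invariant under ring isomorphisms. -/
theorem index_range_pow_units_congr {R R' : Type*} [CommRing R] [CommRing R'] (e : R ≃+* R')
    (n : ℕ) :
    (powMonoidHom n : Rˣ →* Rˣ).range.index = (powMonoidHom n : R'ˣ →* R'ˣ).range.index :=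
  index_range_pow_congr (Units.mapEquiv e.toMulEquiv) n

end Fermat.Agent.S55.G.Exist.H901

end
-- ===== PACK-END S55/G/Exist/IdxH901Group.lean

-- ===== PACK-BEGIN S55/ColH543/Cochain.lean
section


/-!
# S55 / colimit dictionary (helper543), part 1: inflation of cochains

`G` any group, `U ⊴ G` a normal subgroup, `A : Rep k G`.  We compare inhomogeneous cochains of
`G` with values in `A` with inhomogeneous cochains of `G ⧸ U` with values in
`A^U = A.quotientToInvariants U`, in degrees `0, 1, 2, 3` (and `4` for the cocycle condition in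
degree `3`), in the explicit "function on `G × ⋯ × G`" form used by Mathlib's low-degree API
(`d₀₁`, `d₁₂`, `d₂₃`) and by the cochain-level layers `PT`, `K` of S55.

* `IsRInv₁ … IsRInv₄ U f` : `f` is invariant under right translation by `U` in every variable;
* `d34 A` : the differential `C³ → C⁴` (same formula as `K.d34`), `d34Lin` its linear version;
* `inf₁ … inf₄ A U` : inflation of cochains `Cⁱ(G ⧸ U, A^U) → Cⁱ(G, A)`, injective, commuting
  with the differentials, with right `U`-invariant image;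
* `exists_inf₁ … exists_inf₃` : a right `U`-invariant cochain with values in `A^U` is inflated;
* **key remark** `mem_invariants_of_isRInv₀ … ₃` : if `b` and `d b` are right `U`-invariant then
  all values of `b` are `U`-invariant (no smoothness hypothesis is needed for cocycles).

Mathlib only.
-/

set_option autoImplicit false

noncomputable section

open groupCohomology

namespace Fermat.Agent.S55.ColH543

variable {k : Type} [CommRing k] {G : Type} [Group G]

/-! ## Right invariance -/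

section RInv

variable {X : Type*}

/-- `f` is invariant under right translation by `U`. -/
def IsRInv₁ (U : Subgroup G) (f : G → X) : Prop := ∀ g s : G, s ∈ U → f (g * s) = f g

/-- `f` is invariant under right translation by `U` in both variables. -/
def IsRInv₂ (U : Subgroup G) (f : G × G → X) : Prop :=
  ∀ g g' s s' : G, s ∈ U → s' ∈ U → f (g * s, g' * s') = f (g, g')

/-- `f` is invariant under right translation by `U` in all three variables. -/
def IsRInv₃ (U : Subgroup G) (f : G × G × G → X) : Prop :=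
  ∀ g₁ g₂ g₃ s₁ s₂ s₃ : G, s₁ ∈ U → s₂ ∈ U → s₃ ∈ U →
    f (g₁ * s₁, g₂ * s₂, g₃ * s₃) = f (g₁, g₂, g₃)

/-- `f` is invariant under right translation by `U` in all four variables. -/
def IsRInv₄ (U : Subgroup G) (f : G × G × G × G → X) : Prop :=
  ∀ g₁ g₂ g₃ g₄ s₁ s₂ s₃ s₄ : G, s₁ ∈ U → s₂ ∈ U → s₃ ∈ U → s₄ ∈ U →
    f (g₁ * s₁, g₂ * s₂, g₃ * s₃, g₄ * s₄) = f (g₁, g₂, g₃, g₄)

lemma IsRInv₁.mono {U U' : Subgroup G} (h : U' ≤ U) {f : G → X} (hf : IsRInv₁ U f) :
    IsRInv₁ U' f := fun g s hs => hf g s (h hs)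

lemma IsRInv₂.mono {U U' : Subgroup G} (h : U' ≤ U) {f : G × G → X} (hf : IsRInv₂ U f) :
    IsRInv₂ U' f := fun g g' s s' hs hs' => hf g g' s s' (h hs) (h hs')

lemma IsRInv₃.mono {U U' : Subgroup G} (h : U' ≤ U) {f : G × G × G → X} (hf : IsRInv₃ U f) :
    IsRInv₃ U' f := fun g₁ g₂ g₃ s₁ s₂ s₃ h₁ h₂ h₃ => hf g₁ g₂ g₃ s₁ s₂ s₃ (h h₁) (h h₂) (h h₃)

lemma IsRInv₄.mono {U U' : Subgroup G} (h : U' ≤ U) {f : G × G × G × G → X}
    (hf : IsRInv₄ U f) : IsRInv₄ U' f :=
  fun g₁ g₂ g₃ g₄ s₁ s₂ s₃ s₄ h₁ h₂ h₃ h₄ => hf g₁ g₂ g₃ g₄ s₁ s₂ s₃ s₄ (h h₁) (h h₂) (h h₃) (h h₄)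

lemma isRInv₄_zero (U : Subgroup G) {X : Type*} [Zero X] : IsRInv₄ U (0 : G × G × G × G → X) :=
  fun _ _ _ _ _ _ _ _ _ _ _ _ => rfl

lemma isRInv₃_zero (U : Subgroup G) {X : Type*} [Zero X] : IsRInv₃ U (0 : G × G × G → X) :=
  fun _ _ _ _ _ _ _ _ _ => rfl

lemma isRInv₂_zero (U : Subgroup G) {X : Type*} [Zero X] : IsRInv₂ U (0 : G × G → X) :=
  fun _ _ _ _ _ _ => rfl

lemma isRInv₁_zero (U : Subgroup G) {X : Type*} [Zero X] : IsRInv₁ U (0 : G → X) :=
  fun _ _ _ => rfl

/-- A right `U`-invariant function only depends on the classes mod `U`. -/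
lemma IsRInv₁.eq_of_mk_eq {U : Subgroup G} {f : G → X} (hf : IsRInv₁ U f) {g g' : G}
    (h : (g : G ⧸ U) = (g' : G ⧸ U)) : f g = f g' := by
  have h1 : g⁻¹ * g' ∈ U := QuotientGroup.eq.1 h
  have h2 := hf g (g⁻¹ * g') h1
  rw [mul_inv_cancel_left] at h2
  exact h2.symm

lemma IsRInv₂.eq_of_mk_eq {U : Subgroup G} {f : G × G → X} (hf : IsRInv₂ U f) {g₁ g₁' g₂ g₂' : G}
    (h₁ : (g₁ : G ⧸ U) = (g₁' : G ⧸ U)) (h₂ : (g₂ : G ⧸ U) = (g₂' : G ⧸ U)) :
    f (g₁, g₂) = f (g₁', g₂') := by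
  have h := hf g₁ g₂ (g₁⁻¹ * g₁') (g₂⁻¹ * g₂') (QuotientGroup.eq.1 h₁) (QuotientGroup.eq.1 h₂)
  rw [mul_inv_cancel_left, mul_inv_cancel_left] at h
  exact h.symm

lemma IsRInv₃.eq_of_mk_eq {U : Subgroup G} {f : G × G × G → X} (hf : IsRInv₃ U f)
    {g₁ g₁' g₂ g₂' g₃ g₃' : G}
    (h₁ : (g₁ : G ⧸ U) = (g₁' : G ⧸ U)) (h₂ : (g₂ : G ⧸ U) = (g₂' : G ⧸ U))
    (h₃ : (g₃ : G ⧸ U) = (g₃' : G ⧸ U)) :
    f (g₁, g₂, g₃) = f (g₁', g₂', g₃') := by
  have h := hf g₁ g₂ g₃ (g₁⁻¹ * g₁') (g₂⁻¹ * g₂') (g₃⁻¹ * g₃') (QuotientGroup.eq.1 h₁)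
    (QuotientGroup.eq.1 h₂) (QuotientGroup.eq.1 h₃)
  rw [mul_inv_cancel_left, mul_inv_cancel_left, mul_inv_cancel_left] at h
  exact h.symm

lemma IsRInv₄.eq_of_mk_eq {U : Subgroup G} {f : G × G × G × G → X} (hf : IsRInv₄ U f)
    {g₁ g₁' g₂ g₂' g₃ g₃' g₄ g₄' : G}
    (h₁ : (g₁ : G ⧸ U) = (g₁' : G ⧸ U)) (h₂ : (g₂ : G ⧸ U) = (g₂' : G ⧸ U))
    (h₃ : (g₃ : G ⧸ U) = (g₃' : G ⧸ U)) (h₄ : (g₄ : G ⧸ U) = (g₄' : G ⧸ U)) :
    f (g₁, g₂, g₃, g₄) = f (g₁', g₂', g₃', g₄') := by
  have h := hf g₁ g₂ g₃ g₄ (g₁⁻¹ * g₁') (g₂⁻¹ * g₂') (g₃⁻¹ * g₃') (g₄⁻¹ * g₄')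
    (QuotientGroup.eq.1 h₁) (QuotientGroup.eq.1 h₂) (QuotientGroup.eq.1 h₃)
    (QuotientGroup.eq.1 h₄)
  rw [mul_inv_cancel_left, mul_inv_cancel_left, mul_inv_cancel_left, mul_inv_cancel_left] at h
  exact h.symm

end RInv

/-! ## The differential `C³ → C⁴` -/

/-- The differential `C³ → C⁴` of inhomogeneous cochains (explicit form). -/
def d34 (A : Rep.{0, 0, 0} k G) (f : G × G × G → A) : G × G × G × G → A := fun x =>
  A.ρ x.1 (f (x.2.1, x.2.2.1, x.2.2.2)) - f (x.1 * x.2.1, x.2.2.1, x.2.2.2)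
    + f (x.1, x.2.1 * x.2.2.1, x.2.2.2) - f (x.1, x.2.1, x.2.2.1 * x.2.2.2)
    + f (x.1, x.2.1, x.2.2.1)

lemma d34_apply (A : Rep.{0, 0, 0} k G) (f : G × G × G → A) (g₁ g₂ g₃ g₄ : G) :
    d34 A f (g₁, g₂, g₃, g₄) =
      A.ρ g₁ (f (g₂, g₃, g₄)) - f (g₁ * g₂, g₃, g₄) + f (g₁, g₂ * g₃, g₄) - f (g₁, g₂, g₃ * g₄)
        + f (g₁, g₂, g₃) := rfl

/-- `d34` as a linear map. -/
def d34Lin (A : Rep.{0, 0, 0} k G) : (G × G × G → A) →ₗ[k] (G × G × G × G → A) where
  toFun := d34 A
  map_add' f f' := by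
    funext x
    simp only [d34, Pi.add_apply, map_add]
    abel
  map_smul' c f := by
    funext x
    simp only [d34, Pi.smul_apply, map_smul, RingHom.id_apply, smul_add, smul_sub]

@[simp] lemma d34Lin_apply (A : Rep.{0, 0, 0} k G) (f : G × G × G → A) :
    d34Lin A f = d34 A f := rfl

/-- `d ∘ d = 0` in degrees `2, 3, 4`. -/
lemma d34_d₂₃ (A : Rep.{0, 0, 0} k G) (b : G × G → A) : d34 A ((d₂₃ A).hom b) = 0 := by
  funext x
  obtain ⟨g₁, g₂, g₃, g₄⟩ := x
  simp only [d34_apply, d₂₃_hom_apply, map_add, map_sub, Pi.zero_apply, mul_assoc]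
  rw [← Module.End.mul_apply, ← map_mul]
  abel

/-- The 3-cocycles, in explicit form. -/
def cocycles₃ (A : Rep.{0, 0, 0} k G) : Submodule k (G × G × G → A) := LinearMap.ker (d34Lin A)

lemma mem_cocycles₃_iff (A : Rep.{0, 0, 0} k G) (f : G × G × G → A) :
    f ∈ cocycles₃ A ↔ d34 A f = 0 := Iff.rfl

/-- The 3-coboundaries, in explicit form. -/
def coboundaries₃ (A : Rep.{0, 0, 0} k G) : Submodule k (G × G × G → A) :=
  LinearMap.range (d₂₃ A).hom

lemma coboundaries₃_le_cocycles₃ (A : Rep.{0, 0, 0} k G) : coboundaries₃ A ≤ cocycles₃ A := by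
  rintro _ ⟨b, rfl⟩
  exact d34_d₂₃ A b

/-! ## Invariant elements -/

/-- `a ∈ A` is `U`-invariant. -/
def IsInv (A : Rep.{0, 0, 0} k G) (U : Subgroup G) (a : A.V) : Prop := ∀ s ∈ U, A.ρ s a = a

lemma isInv_iff_mem {A : Rep.{0, 0, 0} k G} {U : Subgroup G} {a : A.V} :
    IsInv A U a ↔ a ∈ Representation.invariants (A.ρ.comp U.subtype) :=
  ⟨fun h s => h s.1 s.2, fun h s hs => h ⟨s, hs⟩⟩

lemma IsInv.mono {A : Rep.{0, 0, 0} k G} {U U' : Subgroup G} (h : U' ≤ U) {a : A.V}
    (ha : IsInv A U a) : IsInv A U' a := fun s hs => ha s (h hs)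

/-! ## Inflation of cochains -/

section Inf

variable (A : Rep.{0, 0, 0} k G) (U : Subgroup G) [U.Normal]

/-- The action of `G ⧸ U` on `A^U`, on representatives. -/
lemma quot_ρ_mk_coe (g : G) (x : A.quotientToInvariants U) :
    (((A.quotientToInvariants U).ρ (g : G ⧸ U) x : A.quotientToInvariants U) : A.V) =
      A.ρ g (x : A.V) := rfl

/-- The values of a cochain with values in `A^U` are `U`-invariant. -/
lemma coe_ρ_of_mem (x : A.quotientToInvariants U) {s : G} (hs : s ∈ U) :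
    A.ρ s (x : A.V) = (x : A.V) := x.2 ⟨s, hs⟩

lemma isInv_coe (x : A.quotientToInvariants U) : IsInv A U (x : A.V) :=
  fun _ hs => coe_ρ_of_mem A U x hs

/-- Inflation in degree `0`: the inclusion `A^U → A`. -/
def inf₀ : (A.quotientToInvariants U) →ₗ[k] A.V :=
  (Representation.invariants (A.ρ.comp U.subtype)).subtype

/-- Inflation of 1-cochains. -/
def inf₁ : (G ⧸ U → A.quotientToInvariants U) →ₗ[k] (G → A) where
  toFun c g := (c (g : G ⧸ U) : A.V)
  map_add' _ _ := rfl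
  map_smul' _ _ := rfl

/-- Inflation of 2-cochains. -/
def inf₂ : ((G ⧸ U) × (G ⧸ U) → A.quotientToInvariants U) →ₗ[k] (G × G → A) where
  toFun c g := (c ((g.1 : G ⧸ U), (g.2 : G ⧸ U)) : A.V)
  map_add' _ _ := rfl
  map_smul' _ _ := rfl

/-- Inflation of 3-cochains. -/
def inf₃ : ((G ⧸ U) × (G ⧸ U) × (G ⧸ U) → A.quotientToInvariants U) →ₗ[k] (G × G × G → A) where
  toFun c g := (c ((g.1 : G ⧸ U), (g.2.1 : G ⧸ U), (g.2.2 : G ⧸ U)) : A.V)
  map_add' _ _ := rfl
  map_smul' _ _ := rfl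

/-- Inflation of 4-cochains. -/
def inf₄ : ((G ⧸ U) × (G ⧸ U) × (G ⧸ U) × (G ⧸ U) → A.quotientToInvariants U) →ₗ[k]
    (G × G × G × G → A) where
  toFun c g := (c ((g.1 : G ⧸ U), (g.2.1 : G ⧸ U), (g.2.2.1 : G ⧸ U), (g.2.2.2 : G ⧸ U)) : A.V)
  map_add' _ _ := rfl
  map_smul' _ _ := rfl

@[simp] lemma inf₀_apply (a : A.quotientToInvariants U) : inf₀ A U a = (a : A.V) := rfl

@[simp] lemma inf₁_apply (c : G ⧸ U → A.quotientToInvariants U) (g : G) :
    inf₁ A U c g = (c (g : G ⧸ U) : A.V) := rfl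

@[simp] lemma inf₂_apply (c : (G ⧸ U) × (G ⧸ U) → A.quotientToInvariants U) (g h : G) :
    inf₂ A U c (g, h) = (c ((g : G ⧸ U), (h : G ⧸ U)) : A.V) := rfl

@[simp] lemma inf₃_apply (c : (G ⧸ U) × (G ⧸ U) × (G ⧸ U) → A.quotientToInvariants U)
    (g₁ g₂ g₃ : G) :
    inf₃ A U c (g₁, g₂, g₃) = (c ((g₁ : G ⧸ U), (g₂ : G ⧸ U), (g₃ : G ⧸ U)) : A.V) := rfl

@[simp] lemma inf₄_apply (c : (G ⧸ U) × (G ⧸ U) × (G ⧸ U) × (G ⧸ U) → A.quotientToInvariants U)
    (g₁ g₂ g₃ g₄ : G) :
    inf₄ A U c (g₁, g₂, g₃, g₄) =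
      (c ((g₁ : G ⧸ U), (g₂ : G ⧸ U), (g₃ : G ⧸ U), (g₄ : G ⧸ U)) : A.V) := rfl

lemma inf₀_injective : Function.Injective (inf₀ A U) := Subtype.val_injective

lemma inf₁_injective : Function.Injective (inf₁ A U) := by
  intro c c' h
  funext x
  induction x using QuotientGroup.induction_on with
  | H g => exact Subtype.ext (congrFun h g)

lemma inf₂_injective : Function.Injective (inf₂ A U) := by
  intro c c' h
  funext ⟨x, y⟩
  induction x using QuotientGroup.induction_on with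
  | H g =>
  induction y using QuotientGroup.induction_on with
  | H g' => exact Subtype.ext (congrFun h (g, g'))

lemma inf₃_injective : Function.Injective (inf₃ A U) := by
  intro c c' h
  funext ⟨x, y, z⟩
  induction x using QuotientGroup.induction_on with
  | H g₁ =>
  induction y using QuotientGroup.induction_on with
  | H g₂ =>
  induction z using QuotientGroup.induction_on with
  | H g₃ => exact Subtype.ext (congrFun h (g₁, g₂, g₃))

lemma inf₄_injective : Function.Injective (inf₄ A U) := by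
  intro c c' h
  funext ⟨x, y, z, w⟩
  induction x using QuotientGroup.induction_on with
  | H g₁ =>
  induction y using QuotientGroup.induction_on with
  | H g₂ =>
  induction z using QuotientGroup.induction_on with
  | H g₃ =>
  induction w using QuotientGroup.induction_on with
  | H g₄ => exact Subtype.ext (congrFun h (g₁, g₂, g₃, g₄))

/-! ### Inflation commutes with the differentials -/

lemma d₀₁_inf₀ (a : A.quotientToInvariants U) :
    (d₀₁ A).hom (inf₀ A U a) = inf₁ A U ((d₀₁ (A.quotientToInvariants U)).hom a) := by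
  funext g
  rfl

lemma d₁₂_inf₁ (c : G ⧸ U → A.quotientToInvariants U) :
    (d₁₂ A).hom (inf₁ A U c) = inf₂ A U ((d₁₂ (A.quotientToInvariants U)).hom c) := by
  funext ⟨g, h⟩
  rfl

lemma d₂₃_inf₂ (c : (G ⧸ U) × (G ⧸ U) → A.quotientToInvariants U) :
    (d₂₃ A).hom (inf₂ A U c) = inf₃ A U ((d₂₃ (A.quotientToInvariants U)).hom c) := by
  funext ⟨g₁, g₂, g₃⟩
  rfl

lemma d34_inf₃ (c : (G ⧸ U) × (G ⧸ U) × (G ⧸ U) → A.quotientToInvariants U) :
    d34 A (inf₃ A U c) = inf₄ A U (d34 (A.quotientToInvariants U) c) := by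
  funext ⟨g₁, g₂, g₃, g₄⟩
  rfl

/-! ### The image of inflation -/

lemma mk_mul_of_mem (g : G) {s : G} (hs : s ∈ U) : ((g * s : G) : G ⧸ U) = (g : G ⧸ U) := by
  rw [QuotientGroup.mk_mul, (QuotientGroup.eq_one_iff s).2 hs, mul_one]

lemma isRInv₁_inf₁ (c : G ⧸ U → A.quotientToInvariants U) : IsRInv₁ U (inf₁ A U c) := by
  intro g s hs
  simp only [inf₁_apply, mk_mul_of_mem U g hs]

lemma isRInv₂_inf₂ (c : (G ⧸ U) × (G ⧸ U) → A.quotientToInvariants U) :
    IsRInv₂ U (inf₂ A U c) := by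
  intro g g' s s' hs hs'
  simp only [inf₂_apply, mk_mul_of_mem U g hs, mk_mul_of_mem U g' hs']

lemma isRInv₃_inf₃ (c : (G ⧸ U) × (G ⧸ U) × (G ⧸ U) → A.quotientToInvariants U) :
    IsRInv₃ U (inf₃ A U c) := by
  intro g₁ g₂ g₃ s₁ s₂ s₃ h₁ h₂ h₃
  simp only [inf₃_apply, mk_mul_of_mem U g₁ h₁, mk_mul_of_mem U g₂ h₂, mk_mul_of_mem U g₃ h₃]

lemma isRInv₄_inf₄ (c : (G ⧸ U) × (G ⧸ U) × (G ⧸ U) × (G ⧸ U) → A.quotientToInvariants U) :
    IsRInv₄ U (inf₄ A U c) := by
  intro g₁ g₂ g₃ g₄ s₁ s₂ s₃ s₄ h₁ h₂ h₃ h₄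
  simp only [inf₄_apply, mk_mul_of_mem U g₁ h₁, mk_mul_of_mem U g₂ h₂, mk_mul_of_mem U g₃ h₃,
    mk_mul_of_mem U g₄ h₄]

lemma isInv_inf₁ (c : G ⧸ U → A.quotientToInvariants U) (g : G) : IsInv A U (inf₁ A U c g) :=
  isInv_coe A U _

lemma isInv_inf₂ (c : (G ⧸ U) × (G ⧸ U) → A.quotientToInvariants U) (x : G × G) :
    IsInv A U (inf₂ A U c x) :=
  isInv_coe A U _

lemma isInv_inf₃ (c : (G ⧸ U) × (G ⧸ U) × (G ⧸ U) → A.quotientToInvariants U) (x : G × G × G) :
    IsInv A U (inf₃ A U c x) :=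
  isInv_coe A U _

variable {A U}

/-- A `U`-invariant element is inflated. -/
lemma exists_inf₀ {a : A.V} (ha : IsInv A U a) : ∃ a' : A.quotientToInvariants U,
    inf₀ A U a' = a :=
  ⟨⟨a, isInv_iff_mem.1 ha⟩, rfl⟩

/-- A right `U`-invariant 1-cochain with `U`-invariant values is inflated. -/
lemma exists_inf₁ {f : G → A} (hf : IsRInv₁ U f) (hv : ∀ g, IsInv A U (f g)) :
    ∃ c : G ⧸ U → A.quotientToInvariants U, inf₁ A U c = f := by
  refine ⟨fun x => ⟨f x.out, isInv_iff_mem.1 (hv _)⟩, ?_⟩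
  funext g
  exact hf.eq_of_mk_eq (QuotientGroup.out_eq' (g : G ⧸ U))

/-- A right `U`-invariant 2-cochain with `U`-invariant values is inflated. -/
lemma exists_inf₂ {f : G × G → A} (hf : IsRInv₂ U f) (hv : ∀ x, IsInv A U (f x)) :
    ∃ c : (G ⧸ U) × (G ⧸ U) → A.quotientToInvariants U, inf₂ A U c = f := by
  refine ⟨fun x => ⟨f (x.1.out, x.2.out), isInv_iff_mem.1 (hv _)⟩, ?_⟩
  funext ⟨g, h⟩
  exact hf.eq_of_mk_eq (QuotientGroup.out_eq' (g : G ⧸ U)) (QuotientGroup.out_eq' (h : G ⧸ U))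

/-- A right `U`-invariant 3-cochain with `U`-invariant values is inflated. -/
lemma exists_inf₃ {f : G × G × G → A} (hf : IsRInv₃ U f) (hv : ∀ x, IsInv A U (f x)) :
    ∃ c : (G ⧸ U) × (G ⧸ U) × (G ⧸ U) → A.quotientToInvariants U, inf₃ A U c = f := by
  refine ⟨fun x => ⟨f (x.1.out, x.2.1.out, x.2.2.out), isInv_iff_mem.1 (hv _)⟩, ?_⟩
  funext ⟨g₁, g₂, g₃⟩
  exact hf.eq_of_mk_eq (QuotientGroup.out_eq' (g₁ : G ⧸ U)) (QuotientGroup.out_eq' (g₂ : G ⧸ U))
    (QuotientGroup.out_eq' (g₃ : G ⧸ U))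

end Inf

/-! ## The key remark: values of cochains with invariant coboundary are invariant -/

section Key

variable {A : Rep.{0, 0, 0} k G} {U : Subgroup G} [U.Normal]

omit [U.Normal] in
/-- **Key remark, degree 0.** -/
lemma isInv_of_isRInv₀ {a : A.V} (hd : IsRInv₁ U ((d₀₁ A).hom a)) : IsInv A U a := by
  intro s hs
  have h1 := hd 1 s hs
  simp only [d₀₁_hom_apply, one_mul, map_one, Module.End.one_apply, sub_self] at h1
  exact sub_eq_zero.1 h1

lemma conj_mul_eq (h s : G) : h * (h⁻¹ * s * h) = s * h := by group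

/-- **Key remark, degree 1.** -/
lemma isInv_of_isRInv₁ {b : G → A} (hb : IsRInv₁ U b) (hd : IsRInv₂ U ((d₁₂ A).hom b)) (h : G) :
    IsInv A U (b h) := by
  intro s hs
  have h1 := hd 1 h s 1 hs U.one_mem
  simp only [d₁₂_hom_apply, one_mul, mul_one, map_one, Module.End.one_apply] at h1
  have h2 : b (s * h) = b h := by
    have := hb h (h⁻¹ * s * h) (Subgroup.Normal.conj_mem' ‹U.Normal› s hs h)
    rwa [conj_mul_eq] at this
  have h3 : b s = b 1 := by simpa using hb 1 s hs
  rw [h2, h3] at h1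
  have h4 : A.ρ s (b h) - b h = 0 := by
    have := congrArg (fun x => x - b 1) h1
    simpa using this
  exact sub_eq_zero.1 h4

/-- **Key remark, degree 2.** -/
lemma isInv_of_isRInv₂ {b : G × G → A} (hb : IsRInv₂ U b) (hd : IsRInv₃ U ((d₂₃ A).hom b))
    (x : G × G) : IsInv A U (b x) := by
  obtain ⟨g, h⟩ := x
  intro s hs
  have h1 := hd 1 g h s 1 1 hs U.one_mem U.one_mem
  simp only [d₂₃_hom_apply, one_mul, mul_one, map_one, Module.End.one_apply] at h1
  have h2 : b (s * g, h) = b (g, h) := by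
    have := hb g h (g⁻¹ * s * g) 1 (Subgroup.Normal.conj_mem' ‹U.Normal› s hs g) U.one_mem
    rwa [conj_mul_eq, mul_one] at this
  have h3 : ∀ y, b (s, y) = b (1, y) := fun y => by simpa using hb 1 y s 1 hs U.one_mem
  rw [h2, h3, h3] at h1
  have h4 : A.ρ s (b (g, h)) - b (g, h) = 0 := by
    have := congrArg (fun x => x + b (1, g) - b (1, g * h)) h1
    simpa using this
  exact sub_eq_zero.1 h4

/-- **Key remark, degree 3.** -/
lemma isInv_of_isRInv₃ {b : G × G × G → A} (hb : IsRInv₃ U b) (hd : IsRInv₄ U (d34 A b))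
    (x : G × G × G) : IsInv A U (b x) := by
  obtain ⟨g₁, g₂, g₃⟩ := x
  intro s hs
  have h1 := hd 1 g₁ g₂ g₃ s 1 1 1 hs U.one_mem U.one_mem U.one_mem
  simp only [d34_apply, one_mul, mul_one, map_one, Module.End.one_apply] at h1
  have h2 : b (s * g₁, g₂, g₃) = b (g₁, g₂, g₃) := by
    have := hb g₁ g₂ g₃ (g₁⁻¹ * s * g₁) 1 1 (Subgroup.Normal.conj_mem' ‹U.Normal› s hs g₁)
      U.one_mem U.one_mem
    rwa [conj_mul_eq, mul_one, mul_one] at this
  have h3 : ∀ y z, b (s, y, z) = b (1, y, z) := fun y z => by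
    simpa using hb 1 y z s 1 1 hs U.one_mem U.one_mem
  rw [h2, h3, h3, h3] at h1
  have h4 : A.ρ s (b (g₁, g₂, g₃)) - b (g₁, g₂, g₃) = 0 := by
    have := congrArg (fun x => x - b (1, g₁, g₂) + b (1, g₁, g₂ * g₃) - b (1, g₁ * g₂, g₃)) h1
    simpa using this
  exact sub_eq_zero.1 h4

end Key

end Fermat.Agent.S55.ColH543

end

end
-- ===== PACK-END S55/ColH543/Cochain.lean

-- ===== PACK-BEGIN S55/Smooth/HomElem.lean
section


/-!
# S55, D-layer foundation: elementwise description of the homology of a cochain complex of modules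

For `K : CochainComplex (ModuleCat k) ℕ` we provide the linear map
`clsₗ K n : ker (d : Kⁿ → Kⁿ⁺¹) →ₗ[k] Hⁿ(K)`, show that it is surjective, and describe its kernel.
-/

set_option autoImplicit false

universe u

open CategoryTheory

namespace Fermat.Agent.S55.Smooth

variable {k : Type u} [Ring k] (K : CochainComplex (ModuleCat.{u} k) ℕ)

/-- The cocycles of degree `n`, as a submodule. -/
abbrev Zₗ (n : ℕ) : Submodule k (K.X n) := LinearMap.ker (K.d n (n + 1)).hom

/-- The map from elementwise cocycles to categorical cycles. -/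
noncomputable def toCyclesₗ (n : ℕ) : Zₗ K n →ₗ[k] K.cycles n :=
  (K.liftCycles (ModuleCat.ofHom (Zₗ K n).subtype) (n + 1) (by simp)
    (by ext x; exact x.2)).hom

@[simp]
theorem iCycles_toCyclesₗ (n : ℕ) (x : Zₗ K n) :
    (K.iCycles n).hom (toCyclesₗ K n x) = x.1 := by
  have := K.liftCycles_i (ModuleCat.ofHom (Zₗ K n).subtype) (n + 1) (by simp)
    (by ext x; exact x.2)
  exact congr($(this) x)

theorem iCycles_injective (n : ℕ) : Function.Injective (K.iCycles n).hom :=
  (ModuleCat.mono_iff_injective _).1 inferInstance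

theorem toCyclesₗ_injective (n : ℕ) : Function.Injective (toCyclesₗ K n) := by
  intro x y h
  apply Subtype.ext
  rw [← iCycles_toCyclesₗ, ← iCycles_toCyclesₗ, h]

theorem d_iCycles (n : ℕ) (z : K.cycles n) : (K.d n (n + 1)).hom ((K.iCycles n).hom z) = 0 :=
  congr($(K.iCycles_d n (n + 1)) z)

theorem toCyclesₗ_surjective (n : ℕ) : Function.Surjective (toCyclesₗ K n) := by
  intro z
  refine ⟨⟨(K.iCycles n).hom z, d_iCycles K n z⟩, ?_⟩
  apply iCycles_injective
  simp

/-- The class of a cocycle. -/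
noncomputable def clsₗ (n : ℕ) : Zₗ K n →ₗ[k] K.homology n :=
  (K.homologyπ n).hom ∘ₗ toCyclesₗ K n

theorem clsₗ_surjective (n : ℕ) : Function.Surjective (clsₗ K n) :=
  ((ModuleCat.epi_iff_surjective (K.homologyπ n)).1 inferInstance).comp (toCyclesₗ_surjective K n)

theorem clsₗ_eq_zero_iff (n : ℕ) (x : Zₗ K (n + 1)) :
    clsₗ K (n + 1) x = 0 ↔ ∃ y : K.X n, (K.d n (n + 1)).hom y = x.1 := by
  have hex : (ShortComplex.mk (K.toCycles n (n + 1)) (K.homologyπ (n + 1))
      (K.toCycles_comp_homologyπ n (n + 1))).Exact :=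
    ShortComplex.exact_of_g_is_cokernel _ (K.homologyIsCokernel n (n + 1) (by simp))
  rw [ShortComplex.moduleCat_exact_iff] at hex
  constructor
  · intro h
    obtain ⟨y, hy⟩ := hex (toCyclesₗ K (n + 1) x) h
    refine ⟨y, ?_⟩
    have := congr_arg (K.iCycles (n + 1)).hom hy
    rw [iCycles_toCyclesₗ] at this
    rw [← this]
    exact congr($(K.toCycles_i n (n + 1)) y).symm
  · rintro ⟨y, hy⟩
    have : toCyclesₗ K (n + 1) x = (K.toCycles n (n + 1)).hom y := by
      apply iCycles_injective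
      rw [iCycles_toCyclesₗ, ← hy]
      exact congr($(K.toCycles_i n (n + 1)) y).symm
    show (K.homologyπ (n + 1)).hom (toCyclesₗ K (n + 1) x) = 0
    rw [this]
    exact congr($(K.toCycles_comp_homologyπ n (n + 1)) y)

theorem clsₗ_zero_injective : Function.Injective (clsₗ K 0) := by
  have hex : (ShortComplex.mk (K.toCycles 0 0) (K.homologyπ 0)
      (K.toCycles_comp_homologyπ 0 0)).Exact :=
    ShortComplex.exact_of_g_is_cokernel _ (K.homologyIsCokernel 0 0 (by simp))
  rw [ShortComplex.moduleCat_exact_iff] at hex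
  rw [← LinearMap.ker_eq_bot, LinearMap.ker_eq_bot']
  intro x hx
  obtain ⟨y, hy⟩ := hex (toCyclesₗ K 0 x) hx
  apply toCyclesₗ_injective
  rw [map_zero, ← hy]
  apply iCycles_injective
  have h1 : (K.iCycles 0).hom ((K.toCycles 0 0).hom y) = (K.d 0 0).hom y :=
    congr($(K.toCycles_i 0 0) y)
  have h2 : K.d 0 0 = 0 := K.shape _ _ (by simp)
  rw [map_zero, h1, h2]
  rfl

section Map

variable {K} {L : CochainComplex (ModuleCat.{u} k) ℕ} (φ : K ⟶ L)

/-- The map induced on elementwise cocycles by a chain map. -/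
def mapZₗ (n : ℕ) : Zₗ K n →ₗ[k] Zₗ L n :=
  (φ.f n).hom.restrict fun x hx => by
    have := congr($(φ.comm n (n + 1)) x)
    simp only [ModuleCat.hom_comp, LinearMap.comp_apply] at this
    rw [LinearMap.mem_ker] at hx ⊢
    rw [this, hx, map_zero]

@[simp]
theorem mapZₗ_coe (n : ℕ) (x : Zₗ K n) : (mapZₗ φ n x : L.X n) = (φ.f n).hom x.1 := rfl

theorem homologyMap_clsₗ (n : ℕ) (x : Zₗ K n) :
    (HomologicalComplex.homologyMap φ n).hom (clsₗ K n x) = clsₗ L n (mapZₗ φ n x) := by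
  have h1 := congr($(HomologicalComplex.homologyπ_naturality φ n) (toCyclesₗ K n x))
  simp only [ModuleCat.hom_comp, LinearMap.comp_apply] at h1
  show (HomologicalComplex.homologyMap φ n).hom ((K.homologyπ n).hom (toCyclesₗ K n x)) = _
  rw [h1]
  show _ = (L.homologyπ n).hom (toCyclesₗ L n (mapZₗ φ n x))
  congr 1
  apply iCycles_injective
  rw [iCycles_toCyclesₗ, mapZₗ_coe]
  have h2 := congr($(HomologicalComplex.cyclesMap_i φ n) (toCyclesₗ K n x))
  simp only [ModuleCat.hom_comp, LinearMap.comp_apply] at h2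
  rw [h2, iCycles_toCyclesₗ]

end Map

end Fermat.Agent.S55.Smooth

end
-- ===== PACK-END S55/Smooth/HomElem.lean

-- ===== PACK-BEGIN S55/KL/H496/TrGalois.lean
section


/-!
# S55 / layer KL, leaf KL-TR (helper496), part 1: the compositum `E·E'` over `E`

`Ω/K` Galois, `E` any intermediate field, `E'/K` finite Galois.  Then `M = E ⊔ E'`, viewed as an
intermediate field of `Ω/E`, is finite Galois over `E`.
-/

set_option autoImplicit false

noncomputable section

namespace Fermat.Agent.S55.KL.H496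

open IntermediateField Polynomial

variable {K Ω : Type} [Field K] [Field Ω] [Algebra K Ω]

/-- The compositum `E ⊔ E'` as an intermediate field of `Ω/E` (same as `KL.compositumOver`). -/
abbrev comp496 (E E' : IntermediateField K Ω) : IntermediateField ↥E Ω :=
  IntermediateField.extendScalars (le_sup_left : E ≤ E ⊔ E')

theorem exists_splitting_comp496 (E E' : IntermediateField K Ω) [FiniteDimensional K E']
    [IsGalois K E'] :
    ∃ T : (↥E)[X], T.Separable ∧ T.IsSplittingField ↥E ↥(comp496 E E') := by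
  obtain ⟨T, hT₁, hT₂⟩ := IsGalois.is_separable_splitting_field K E'
  refine ⟨T.map (algebraMap K E), hT₁.map, ?_⟩
  rw [IntermediateField.isSplittingField_iff] at hT₂ ⊢
  have hroot : (T.map (algebraMap K E)).rootSet Ω = T.rootSet Ω := by
    ext x
    simp [Polynomial.mem_rootSet', Polynomial.map_map, ← IsScalarTower.algebraMap_eq]
  constructor
  · rw [Polynomial.map_map, ← IsScalarTower.algebraMap_eq]
    have hle : E' ≤ E ⊔ E' := le_sup_right
    exact Polynomial.Splits.of_algHom hT₂.1 (IntermediateField.inclusion hle)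
  · apply restrictScalars_injective K
    rw [restrictScalars_adjoin, adjoin_union, adjoin_self, hroot, ← hT₂.2]
    rfl

theorem isGalois_comp496 (E E' : IntermediateField K Ω) [FiniteDimensional K E']
    [IsGalois K E'] : IsGalois ↥E ↥(comp496 E E') := by
  obtain ⟨T, hT₁, hT₂⟩ := exists_splitting_comp496 E E'
  exact IsGalois.of_separable_splitting_field hT₁

theorem finiteDimensional_comp496 (E E' : IntermediateField K Ω) [FiniteDimensional K E']
    [IsGalois K E'] : FiniteDimensional ↥E ↥(comp496 E E') := by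
  obtain ⟨T, hT₁, hT₂⟩ := exists_splitting_comp496 E E'
  exact Polynomial.IsSplittingField.finiteDimensional _ T

end Fermat.Agent.S55.KL.H496

end
end
-- ===== PACK-END S55/KL/H496/TrGalois.lean

-- ===== PACK-BEGIN S56/H614/AvgLA.lean
section


/-!
# S56 / W-BASE / EUL-RED, part 1 (helper614): averaging over an operator of finite order

Pure linear algebra (Mathlib only).  `k` a field, `S` an endomorphism with `S ^ n = 1`, `n ≠ 0`
in `k`:

* `avgOp S n = n⁻¹ • ∑_{j < n} S ^ j` is a projector onto `ker (S - 1)` (`range_avgOp`);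
* `finrank_ker_sub_one_of_exact`: `dim ker (S - 1)` is additive on short exact sequences;
* `matOp M T` on `J → V`: `(matOp M T z) i = ∑ j, M i j • T (z j)` (the operator `M ⊗ T` on
  `k^J ⊗ V`), `matOp_mul`, `matOp_pow`.
-/

set_option autoImplicit false

noncomputable section

namespace Fermat.Agent.S56.H614

open Module

section Avg

variable {k : Type} [Field k] {V : Type} [AddCommGroup V] [Module k V]

/-- `n⁻¹ • ∑_{j < n} S ^ j`. -/
def avgOp (S : V →ₗ[k] V) (n : ℕ) : V →ₗ[k] V :=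
  ((n : k)⁻¹) • ∑ j ∈ Finset.range n, S ^ j

theorem sum_pow_mul_eq (S : V →ₗ[k] V) (n : ℕ) (hS : S ^ n = 1) :
    S * ∑ j ∈ Finset.range n, S ^ j = ∑ j ∈ Finset.range n, S ^ j := by
  rw [Finset.mul_sum]
  have h1 : ∑ j ∈ Finset.range n, S * S ^ j = ∑ j ∈ Finset.range n, S ^ (j + 1) :=
    Finset.sum_congr rfl fun j _ => (pow_succ' S j).symm
  rw [h1]
  cases n with
  | zero => simp
  | succ m =>
    rw [Finset.sum_range_succ, hS, Finset.sum_range_succ' (fun j => S ^ j) m, pow_zero]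

theorem mul_avgOp (S : V →ₗ[k] V) (n : ℕ) (hS : S ^ n = 1) : S * avgOp S n = avgOp S n := by
  unfold avgOp
  rw [mul_smul_comm, sum_pow_mul_eq S n hS]

theorem avgOp_apply_of_fixed (S : V →ₗ[k] V) (n : ℕ) (hn : (n : k) ≠ 0) {x : V} (hx : S x = x) :
    avgOp S n x = x := by
  have h1 : ∀ j : ℕ, (S ^ j) x = x := by
    intro j
    induction j with
    | zero => simp
    | succ j ih => rw [pow_succ, Module.End.mul_apply, hx, ih]
  unfold avgOp
  rw [LinearMap.smul_apply, LinearMap.sum_apply, Finset.sum_congr rfl fun j _ => h1 j,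
    Finset.sum_const, Finset.card_range, ← Nat.cast_smul_eq_nsmul k, smul_smul,
    inv_mul_cancel₀ hn, one_smul]

theorem range_avgOp (S : V →ₗ[k] V) (n : ℕ) (hn : (n : k) ≠ 0) (hS : S ^ n = 1) :
    LinearMap.range (avgOp S n) = LinearMap.ker (S - 1) := by
  apply le_antisymm
  · rintro _ ⟨x, rfl⟩
    rw [LinearMap.mem_ker, LinearMap.sub_apply, Module.End.one_apply, sub_eq_zero,
      ← Module.End.mul_apply, mul_avgOp S n hS]
  · intro x hx
    rw [LinearMap.mem_ker, LinearMap.sub_apply, Module.End.one_apply, sub_eq_zero] at hx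
    exact ⟨x, avgOp_apply_of_fixed S n hn hx⟩

theorem avgOp_mem_ker (S : V →ₗ[k] V) (n : ℕ) (hS : S ^ n = 1) (x : V) :
    avgOp S n x ∈ LinearMap.ker (S - 1) := by
  rw [LinearMap.mem_ker, LinearMap.sub_apply, Module.End.one_apply, sub_eq_zero,
    ← Module.End.mul_apply, mul_avgOp S n hS]

/-- intertwining: if `q ∘ S = S' ∘ q` then `q ∘ avgOp S = avgOp S' ∘ q`. -/
theorem avgOp_comm {W : Type} [AddCommGroup W] [Module k W] (S : V →ₗ[k] V) (S' : W →ₗ[k] W)
    (q : V →ₗ[k] W) (h : ∀ x, q (S x) = S' (q x)) (n : ℕ) (x : V) :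
    q (avgOp S n x) = avgOp S' n (q x) := by
  have h1 : ∀ j : ℕ, ∀ x, q ((S ^ j) x) = (S' ^ j) (q x) := by
    intro j
    induction j with
    | zero => intro x; simp
    | succ j ih =>
      intro x
      rw [pow_succ, Module.End.mul_apply, ih, h, pow_succ, Module.End.mul_apply]
  unfold avgOp
  simp only [LinearMap.smul_apply, LinearMap.sum_apply, map_smul, map_sum, h1]

end Avg

section Exact

variable {k : Type} [Field k] {V₁ V₂ V₃ : Type} [AddCommGroup V₁] [Module k V₁]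
  [AddCommGroup V₂] [Module k V₂] [AddCommGroup V₃] [Module k V₃]

/-- **Invariants of an operator of order prime to the characteristic are exact.** -/
theorem finrank_ker_sub_one_of_exact [FiniteDimensional k V₂]
    (i : V₁ →ₗ[k] V₂) (q : V₂ →ₗ[k] V₃) (hi : Function.Injective i)
    (hq : Function.Surjective q) (hex : LinearMap.range i = LinearMap.ker q)
    (S₁ : V₁ →ₗ[k] V₁) (S₂ : V₂ →ₗ[k] V₂) (S₃ : V₃ →ₗ[k] V₃)
    (h₁ : ∀ x, i (S₁ x) = S₂ (i x)) (h₂ : ∀ x, q (S₂ x) = S₃ (q x))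
    (n : ℕ) (hn : (n : k) ≠ 0) (hS : S₂ ^ n = 1) :
    finrank k (LinearMap.ker (S₂ - 1)) =
      finrank k (LinearMap.ker (S₁ - 1)) + finrank k (LinearMap.ker (S₃ - 1)) := by
  have hS₃ : S₃ ^ n = 1 := by
    apply LinearMap.ext
    intro y
    obtain ⟨x, rfl⟩ := hq y
    have h1 : ∀ j : ℕ, ∀ x, q ((S₂ ^ j) x) = (S₃ ^ j) (q x) := by
      intro j
      induction j with
      | zero => intro x; simp
      | succ j ih =>
        intro x
        rw [pow_succ, Module.End.mul_apply, ih, h₂, pow_succ, Module.End.mul_apply]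
    rw [← h1, hS]
    rfl
  -- the maps on invariants
  let i' : ↥(LinearMap.ker (S₁ - 1)) →ₗ[k] ↥(LinearMap.ker (S₂ - 1)) :=
    (i ∘ₗ (LinearMap.ker (S₁ - 1)).subtype).codRestrict _ (fun x => by
      have hx := x.2
      rw [LinearMap.mem_ker, LinearMap.sub_apply, Module.End.one_apply, sub_eq_zero] at hx
      rw [LinearMap.mem_ker, LinearMap.sub_apply, Module.End.one_apply, sub_eq_zero,
        LinearMap.comp_apply, Submodule.subtype_apply, ← h₁, hx])
  let q' : ↥(LinearMap.ker (S₂ - 1)) →ₗ[k] ↥(LinearMap.ker (S₃ - 1)) :=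
    (q ∘ₗ (LinearMap.ker (S₂ - 1)).subtype).codRestrict _ (fun x => by
      have hx := x.2
      rw [LinearMap.mem_ker, LinearMap.sub_apply, Module.End.one_apply, sub_eq_zero] at hx
      rw [LinearMap.mem_ker, LinearMap.sub_apply, Module.End.one_apply, sub_eq_zero,
        LinearMap.comp_apply, Submodule.subtype_apply, ← h₂, hx])
  have hi' : Function.Injective i' := by
    intro x y hxy
    apply Subtype.ext
    apply hi
    exact congrArg Subtype.val hxy
  have hq' : Function.Surjective q' := by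
    intro w
    obtain ⟨b, hb⟩ := hq w.1
    refine ⟨⟨avgOp S₂ n b, avgOp_mem_ker S₂ n hS b⟩, ?_⟩
    apply Subtype.ext
    show q (avgOp S₂ n b) = w.1
    rw [avgOp_comm S₂ S₃ q h₂ n b, hb]
    have hw := w.2
    rw [LinearMap.mem_ker, LinearMap.sub_apply, Module.End.one_apply, sub_eq_zero] at hw
    exact avgOp_apply_of_fixed S₃ n hn hw
  have hex' : LinearMap.range i' = LinearMap.ker q' := by
    ext b
    constructor
    · rintro ⟨a, rfl⟩
      rw [LinearMap.mem_ker]
      apply Subtype.ext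
      show q (i a.1) = 0
      have : i a.1 ∈ LinearMap.ker q := by rw [← hex]; exact ⟨a.1, rfl⟩
      exact this
    · intro hb
      rw [LinearMap.mem_ker] at hb
      have hb' : q b.1 = 0 := congrArg Subtype.val hb
      have hmem : b.1 ∈ LinearMap.range i := by rw [hex]; exact hb'
      obtain ⟨a, ha⟩ := hmem
      have ha' : a ∈ LinearMap.ker (S₁ - 1) := by
        rw [LinearMap.mem_ker, LinearMap.sub_apply, Module.End.one_apply, sub_eq_zero]
        apply hi
        have hb2 := b.2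
        rw [LinearMap.mem_ker, LinearMap.sub_apply, Module.End.one_apply, sub_eq_zero] at hb2
        rw [h₁, ha, hb2]
      exact ⟨⟨a, ha'⟩, Subtype.ext ha⟩
  have h1 := LinearMap.finrank_range_add_finrank_ker q'
  rw [LinearMap.range_eq_top.2 hq', finrank_top, ← hex',
    LinearMap.finrank_range_of_inj hi'] at h1
  omega

end Exact

section MatOp

variable {k : Type} [Field k] {J : Type} [Fintype J] [DecidableEq J]
  {V : Type} [AddCommGroup V] [Module k V]

/-- The operator `M ⊗ T` on `k^J ⊗ V = (J → V)`: `(matOp M T z) i = ∑ j, M i j • T (z j)`. -/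
def matOp (M : Matrix J J k) (T : V →ₗ[k] V) : (J → V) →ₗ[k] (J → V) :=
  LinearMap.pi fun i => ∑ j, (M i j) • (T ∘ₗ LinearMap.proj j)

omit [DecidableEq J] in
theorem matOp_apply (M : Matrix J J k) (T : V →ₗ[k] V) (z : J → V) (i : J) :
    matOp M T z i = ∑ j, M i j • T (z j) := by
  simp [matOp, LinearMap.sum_apply]

theorem matOp_one_id : matOp (1 : Matrix J J k) (LinearMap.id : V →ₗ[k] V) = LinearMap.id := by
  apply LinearMap.ext
  intro z
  funext i
  rw [matOp_apply]
  simp [Matrix.one_apply]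

omit [DecidableEq J] in
theorem matOp_comp (M M' : Matrix J J k) (T T' : V →ₗ[k] V) :
    matOp M T ∘ₗ matOp M' T' = matOp (M * M') (T ∘ₗ T') := by
  apply LinearMap.ext
  intro z
  funext i
  rw [LinearMap.comp_apply, matOp_apply, matOp_apply]
  simp only [matOp_apply, map_sum, map_smul, Finset.smul_sum, smul_smul, Matrix.mul_apply,
    Finset.sum_smul, LinearMap.comp_apply]
  rw [Finset.sum_comm]

theorem matOp_pow (M : Matrix J J k) (T : V →ₗ[k] V) (n : ℕ) :
    (matOp M T) ^ n = matOp (M ^ n) (T ^ n) := by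
  induction n with
  | zero =>
    rw [pow_zero, pow_zero, pow_zero]
    exact matOp_one_id.symm
  | succ n ih =>
    rw [pow_succ, ih, pow_succ, pow_succ]
    exact matOp_comp _ _ _ _

theorem matOp_pow_eq_one (M : Matrix J J k) (T : V →ₗ[k] V) (n : ℕ) (hM : M ^ n = 1)
    (hT : T ^ n = 1) : (matOp M T) ^ n = 1 := by
  rw [matOp_pow, hM, hT]
  exact matOp_one_id

omit [DecidableEq J] in
/-- naturality of `matOp` in `V`. -/
theorem matOp_natural {W : Type} [AddCommGroup W] [Module k W] (M : Matrix J J k)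
    (T : V →ₗ[k] V) (T' : W →ₗ[k] W) (q : V →ₗ[k] W) (h : ∀ x, q (T x) = T' (q x))
    (z : J → V) : (fun j => q (matOp M T z j)) = matOp M T' (fun j => q (z j)) := by
  funext i
  simp only [matOp_apply, map_sum, map_smul, h]

end MatOp

end Fermat.Agent.S56.H614

end

end
-- ===== PACK-END S56/H614/AvgLA.lean

-- ===== PACK-BEGIN S56/Euler/H74/ClassKill.lean
section


/-!
# S56 / W-BASE, leaf EUL-CL (helper74), part A: killing the class group (Mathlib only)

For a number field `K` there is a nonzero natural number `N` such that every finite prime `𝔭`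
of `K` not containing `N` is "principal outside `N`": there is `π ∈ 𝒪_K` with
`π ∈ 𝔭 ∖ 𝔭²` and `π ∉ 𝔮` for every other prime `𝔮` not containing `N`.

(`N` = product of the absolute norms of integral representatives of the ideal classes.)
-/

set_option autoImplicit false
set_option linter.style.haveILetI false

open NumberField IsDedekindDomain

namespace Fermat.Agent.S56.Euler.H74

/-- **Killing the class group.** -/
theorem exists_prime_generators (K : Type*) [Field K] [NumberField K] :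
    ∃ N : ℕ, N ≠ 0 ∧ ∀ 𝔭 : HeightOneSpectrum (𝓞 K), (N : 𝓞 K) ∉ 𝔭.asIdeal →
      ∃ π : 𝓞 K, π ∈ 𝔭.asIdeal ∧ π ∉ 𝔭.asIdeal ^ 2 ∧
        ∀ 𝔮 : HeightOneSpectrum (𝓞 K), 𝔮 ≠ 𝔭 → (N : 𝓞 K) ∉ 𝔮.asIdeal → π ∉ 𝔮.asIdeal := by
  classical
  letI : Fintype (ClassGroup (𝓞 K)) := Fintype.ofFinite _
  -- integral representatives of the classes
  choose rep hrep using
    (ClassGroup.mk0_surjective : Function.Surjective (ClassGroup.mk0 (R := 𝓞 K)))
  have hrep0 : ∀ C, ((rep C : nonZeroDivisors (Ideal (𝓞 K))) : Ideal (𝓞 K)) ≠ ⊥ := fun C =>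
    mem_nonZeroDivisors_iff_ne_zero.1 (rep C).2
  refine ⟨∏ C : ClassGroup (𝓞 K), Ideal.absNorm ((rep C : nonZeroDivisors (Ideal (𝓞 K))) :
    Ideal (𝓞 K)), ?_, ?_⟩
  · rw [Finset.prod_ne_zero_iff]
    intro C _ h
    exact hrep0 C (Ideal.absNorm_eq_zero_iff.1 h)
  intro 𝔭 hN
  -- a representative of the inverse class
  have h𝔭0 : 𝔭.asIdeal ∈ nonZeroDivisors (Ideal (𝓞 K)) :=
    mem_nonZeroDivisors_iff_ne_zero.2 𝔭.ne_bot
  set 𝔞 : nonZeroDivisors (Ideal (𝓞 K)) := rep (ClassGroup.mk0 ⟨𝔭.asIdeal, h𝔭0⟩)⁻¹ with h𝔞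
  have h𝔞cls : ClassGroup.mk0 𝔞 = (ClassGroup.mk0 ⟨𝔭.asIdeal, h𝔭0⟩)⁻¹ := hrep _
  -- primes not containing `N` do not contain `𝔞`
  have hnotle : ∀ 𝔮 : HeightOneSpectrum (𝓞 K),
      ((∏ C : ClassGroup (𝓞 K), Ideal.absNorm ((rep C : nonZeroDivisors (Ideal (𝓞 K))) :
        Ideal (𝓞 K)) : ℕ) : 𝓞 K) ∉ 𝔮.asIdeal → ¬ ((𝔞 : Ideal (𝓞 K)) ≤ 𝔮.asIdeal) := by
    intro 𝔮 h𝔮 hle
    apply h𝔮
    have h1 : ((Ideal.absNorm (𝔞 : Ideal (𝓞 K)) : ℕ) : 𝓞 K) ∈ 𝔮.asIdeal :=
      hle (by exact_mod_cast Ideal.absNorm_mem (𝔞 : Ideal (𝓞 K)))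
    have h2 : Ideal.absNorm (𝔞 : Ideal (𝓞 K)) ∣
        ∏ C : ClassGroup (𝓞 K), Ideal.absNorm ((rep C : nonZeroDivisors (Ideal (𝓞 K))) :
          Ideal (𝓞 K)) :=
      Finset.dvd_prod_of_mem _ (Finset.mem_univ _)
    obtain ⟨m, hm⟩ := h2
    rw [hm, Nat.cast_mul]
    exact Ideal.mul_mem_right _ _ h1
  -- the product is principal
  have hprod : (𝔭.asIdeal * (𝔞 : Ideal (𝓞 K))) ∈ nonZeroDivisors (Ideal (𝓞 K)) :=
    mul_mem h𝔭0 𝔞.2
  have hone : ClassGroup.mk0 ⟨𝔭.asIdeal * (𝔞 : Ideal (𝓞 K)), hprod⟩ = 1 := by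
    have : (⟨𝔭.asIdeal * (𝔞 : Ideal (𝓞 K)), hprod⟩ : nonZeroDivisors (Ideal (𝓞 K)))
        = ⟨𝔭.asIdeal, h𝔭0⟩ * 𝔞 := rfl
    rw [this, map_mul, h𝔞cls, mul_inv_cancel]
  obtain ⟨π, hπ⟩ := ((ClassGroup.mk0_eq_one_iff hprod).1 hone).principal
  have hπ' : 𝔭.asIdeal * (𝔞 : Ideal (𝓞 K)) = Ideal.span {π} := hπ
  have hmem : ∀ I : Ideal (𝓞 K), π ∈ I ↔ 𝔭.asIdeal * (𝔞 : Ideal (𝓞 K)) ≤ I := by
    intro I
    rw [hπ', Ideal.span_singleton_le_iff_mem]
  refine ⟨π, ?_, ?_, ?_⟩
  · rw [hmem]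
    exact Ideal.mul_le_left (I := 𝔭.asIdeal) (J := (𝔞 : Ideal (𝓞 K)))
  · intro h
    rw [hmem, ← Ideal.dvd_iff_le, pow_two] at h
    have h2 : 𝔭.asIdeal ∣ (𝔞 : Ideal (𝓞 K)) :=
      (mul_dvd_mul_iff_left 𝔭.ne_bot).1 h
    exact hnotle 𝔭 hN (Ideal.dvd_iff_le.1 h2)
  · intro 𝔮 hne h𝔮 h
    rw [hmem, 𝔮.isPrime.mul_le] at h
    rcases h with h | h
    · apply hne
      have := 𝔭.isMaximal.eq_of_le 𝔮.isPrime.ne_top h
      exact (HeightOneSpectrum.ext this).symm
    · exact hnotle 𝔮 h𝔮 h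

end Fermat.Agent.S56.Euler.H74

end
-- ===== PACK-END S56/Euler/H74/ClassKill.lean

-- ===== PACK-BEGIN S55/H593/Dev/Basic.lean
section


/-!
# S55: abstract dévissage for `H³` of level-constant cochains, part 1 (helper593)

`G` any group, `𝓛 : Set (Subgroup G)` a family of subgroups ("levels"; think `PT.LevelSys.levels`).
Cochain-level vocabulary (identical, up to unfolding, to `K.H3Vanish` of helper4 and
`KL.H3Vanish` of helper53):

* `IsLC2 𝓛 f`, `IsLC3 𝓛 f` : level-constant 2- and 3-cochains;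
* `IsCoc3 A z`            : the inhomogeneous 3-cocycle condition;
* `H3V 𝓛 A`               : every level-constant 3-cocycle of `A` is `d₂₃` of a level-constant
                            2-cochain (`H³_lc(G, A) = 0`).

Closure properties:

* `H3V.of_retract`   : `A` a retract of `B`, `H3V B` ⇒ `H3V A`;
* `H3V.of_extension` : `0 → A' → A → A'' → 0` exact, some normal level acts trivially on `A`,
                       `H3V A'`, `H3V A''` ⇒ `H3V A`;
* `H3V.of_subsingleton`.

Mathlib only.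
-/

set_option autoImplicit false

namespace Fermat.Agent.S55.H593.Dev

open groupCohomology

variable {G : Type} [Group G] {k : Type} [CommRing k]

/-! ## Vocabulary -/

/-- Level-constant 2-cochains. -/
def IsLC2 (𝓛 : Set (Subgroup G)) {X : Type*} (f : G × G → X) : Prop :=
  ∃ U ∈ 𝓛, ∀ g g' s s' : G, s ∈ U → s' ∈ U → f (g * s, g' * s') = f (g, g')

/-- Level-constant 3-cochains. -/
def IsLC3 (𝓛 : Set (Subgroup G)) {X : Type*} (f : G × G × G → X) : Prop :=
  ∃ U ∈ 𝓛, ∀ g₁ g₂ g₃ s₁ s₂ s₃ : G, s₁ ∈ U → s₂ ∈ U → s₃ ∈ U →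
    f (g₁ * s₁, g₂ * s₂, g₃ * s₃) = f (g₁, g₂, g₃)

/-- The inhomogeneous 3-cocycle condition `d₃₄ f = 0`. -/
def IsCoc3 (A : Rep.{0, 0, 0} k G) (f : G × G × G → A) : Prop :=
  ∀ g h i j : G,
    A.ρ g (f (h, i, j)) - f (g * h, i, j) + f (g, h * i, j) - f (g, h, i * j) + f (g, h, i) = 0

/-- `H³_lc(G, A) = 0`: every level-constant 3-cocycle is `d` of a level-constant 2-cochain. -/
def H3V (𝓛 : Set (Subgroup G)) (A : Rep.{0, 0, 0} k G) : Prop :=
  ∀ z : G × G × G → A, IsLC3 𝓛 z → IsCoc3 A z →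
    ∃ b : G × G → A, IsLC2 𝓛 b ∧ (d₂₃ A).hom b = z

/-- The family of levels is directed. -/
def Directed' (𝓛 : Set (Subgroup G)) : Prop :=
  ∀ U ∈ 𝓛, ∀ V ∈ 𝓛, ∃ W ∈ 𝓛, W ≤ U ⊓ V

/-- Normal levels are cofinal. -/
def NormalCofinal' (𝓛 : Set (Subgroup G)) : Prop :=
  ∀ U ∈ 𝓛, ∃ V ∈ 𝓛, V ≤ U ∧ V.Normal

/-- Some level acts trivially on `A`. -/
def USmooth (𝓛 : Set (Subgroup G)) (A : Rep.{0, 0, 0} k G) : Prop :=
  ∃ U ∈ 𝓛, ∀ s ∈ U, ∀ a : A, A.ρ s a = a

/-- `H` contains a level. -/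
def IsOpenSub (𝓛 : Set (Subgroup G)) (H : Subgroup G) : Prop := ∃ U ∈ 𝓛, U ≤ H

/-! ## Elementary properties of level-constant cochains -/

lemma IsLC2.comp {𝓛 : Set (Subgroup G)} {X Y : Type*} {f : G × G → X} (hf : IsLC2 𝓛 f)
    (φ : X → Y) : IsLC2 𝓛 (φ ∘ f) := by
  obtain ⟨U, hU, h⟩ := hf
  exact ⟨U, hU, fun g g' s s' hs hs' => by simp only [Function.comp_apply, h g g' s s' hs hs']⟩

lemma IsLC3.comp {𝓛 : Set (Subgroup G)} {X Y : Type*} {f : G × G × G → X} (hf : IsLC3 𝓛 f)
    (φ : X → Y) : IsLC3 𝓛 (φ ∘ f) := by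
  obtain ⟨U, hU, h⟩ := hf
  exact ⟨U, hU, fun g₁ g₂ g₃ s₁ s₂ s₃ h₁ h₂ h₃ => by
    simp only [Function.comp_apply, h g₁ g₂ g₃ s₁ s₂ s₃ h₁ h₂ h₃]⟩

lemma IsLC3.of_comp_injective {𝓛 : Set (Subgroup G)} {X Y : Type*} {f : G × G × G → X}
    {φ : X → Y} (hφ : Function.Injective φ) (hf : IsLC3 𝓛 (φ ∘ f)) : IsLC3 𝓛 f := by
  obtain ⟨U, hU, h⟩ := hf
  exact ⟨U, hU, fun g₁ g₂ g₃ s₁ s₂ s₃ h₁ h₂ h₃ => hφ (h g₁ g₂ g₃ s₁ s₂ s₃ h₁ h₂ h₃)⟩

lemma IsLC2.add {𝓛 : Set (Subgroup G)} (hd : Directed' 𝓛) {X : Type*} [Add X]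
    {f f' : G × G → X} (hf : IsLC2 𝓛 f) (hf' : IsLC2 𝓛 f') : IsLC2 𝓛 (f + f') := by
  obtain ⟨U, hU, h⟩ := hf
  obtain ⟨V, hV, h'⟩ := hf'
  obtain ⟨W, hW, hle⟩ := hd U hU V hV
  refine ⟨W, hW, fun g g' s s' hs hs' => ?_⟩
  simp only [Pi.add_apply]
  rw [h g g' s s' (hle hs).1 (hle hs').1, h' g g' s s' (hle hs).2 (hle hs').2]

lemma IsLC3.sub {𝓛 : Set (Subgroup G)} (hd : Directed' 𝓛) {X : Type*} [Sub X]
    {f f' : G × G × G → X} (hf : IsLC3 𝓛 f) (hf' : IsLC3 𝓛 f') : IsLC3 𝓛 (f - f') := by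
  obtain ⟨U, hU, h⟩ := hf
  obtain ⟨V, hV, h'⟩ := hf'
  obtain ⟨W, hW, hle⟩ := hd U hU V hV
  refine ⟨W, hW, fun g₁ g₂ g₃ s₁ s₂ s₃ h₁ h₂ h₃ => ?_⟩
  simp only [Pi.sub_apply]
  rw [h g₁ g₂ g₃ s₁ s₂ s₃ (hle h₁).1 (hle h₂).1 (hle h₃).1,
    h' g₁ g₂ g₃ s₁ s₂ s₃ (hle h₁).2 (hle h₂).2 (hle h₃).2]

/-- `d₂₃`, evaluated. -/
lemma d23_apply (A : Rep.{0, 0, 0} k G) (b : G × G → A) (g h j : G) :
    (d₂₃ A).hom b (g, h, j) = A.ρ g (b (h, j)) - b (g * h, j) + b (g, h * j) - b (g, h) :=
  d₂₃_hom_apply A b (g, h, j)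

/-- `d ∘ d = 0` in degrees `2 → 3 → 4`. -/
lemma isCoc3_d23 (A : Rep.{0, 0, 0} k G) (b : G × G → A) : IsCoc3 A ((d₂₃ A).hom b) := by
  intro g h i j
  rw [d23_apply A b h i j, d23_apply A b (g * h) i j, d23_apply A b g (h * i) j,
    d23_apply A b g h (i * j), d23_apply A b g h i]
  simp only [map_sub, map_add, mul_assoc]
  have e : A.ρ g (A.ρ h (b (i, j))) = A.ρ (g * h) (b (i, j)) := by
    rw [map_mul]; rfl
  rw [e]
  abel

lemma IsCoc3.sub {A : Rep.{0, 0, 0} k G} {f f' : G × G × G → A} (hf : IsCoc3 A f)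
    (hf' : IsCoc3 A f') : IsCoc3 A (f - f') := by
  intro g h i j
  have h1 := hf g h i j
  have h2 := hf' g h i j
  simp only [Pi.sub_apply, map_sub]
  have : A.ρ g (f (h, i, j)) - A.ρ g (f' (h, i, j)) - (f (g * h, i, j) - f' (g * h, i, j))
      + (f (g, h * i, j) - f' (g, h * i, j)) - (f (g, h, i * j) - f' (g, h, i * j))
      + (f (g, h, i) - f' (g, h, i))
      = (A.ρ g (f (h, i, j)) - f (g * h, i, j) + f (g, h * i, j) - f (g, h, i * j) + f (g, h, i))
        - (A.ρ g (f' (h, i, j)) - f' (g * h, i, j) + f' (g, h * i, j) - f' (g, h, i * j)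
          + f' (g, h, i)) := by abel
  rw [this, h1, h2, sub_zero]

/-- Equivariant additive maps preserve 3-cocycles. -/
lemma IsCoc3.map {A B : Rep.{0, 0, 0} k G} (φ : A →ₗ[k] B)
    (hφ : ∀ (g : G) (a : A), φ (A.ρ g a) = B.ρ g (φ a)) {f : G × G × G → A} (hf : IsCoc3 A f) :
    IsCoc3 B (φ ∘ f) := by
  intro g h i j
  have h1 := congrArg φ (hf g h i j)
  simp only [map_sub, map_add, map_zero, hφ] at h1
  exact h1

/-- Injective equivariant additive maps reflect 3-cocycles. -/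
lemma IsCoc3.of_map {A B : Rep.{0, 0, 0} k G} (φ : A →ₗ[k] B) (hinj : Function.Injective φ)
    (hφ : ∀ (g : G) (a : A), φ (A.ρ g a) = B.ρ g (φ a)) {f : G × G × G → A}
    (hf : IsCoc3 B (φ ∘ f)) : IsCoc3 A f := by
  intro g h i j
  apply hinj
  have h1 := hf g h i j
  simp only [Function.comp_apply] at h1
  simp only [map_sub, map_add, map_zero, hφ]
  exact h1

/-- Equivariant linear maps commute with `d₂₃`. -/
lemma d23_comp {A B : Rep.{0, 0, 0} k G} (φ : A →ₗ[k] B)
    (hφ : ∀ (g : G) (a : A), φ (A.ρ g a) = B.ρ g (φ a)) (b : G × G → A) :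
    (d₂₃ B).hom (φ ∘ b) = φ ∘ (d₂₃ A).hom b := by
  funext ⟨g, h, j⟩
  rw [d23_apply B (φ ∘ b) g h j]
  simp only [Function.comp_apply]
  rw [d23_apply A b g h j]
  simp only [map_sub, map_add, hφ]

/-- If a normal level acts trivially on `A`, then `d₂₃` of a level-constant cochain is
level-constant. -/
lemma IsLC2.d23 {𝓛 : Set (Subgroup G)} (hd : Directed' 𝓛) (hn : NormalCofinal' 𝓛)
    {A : Rep.{0, 0, 0} k G} (hA : USmooth 𝓛 A) {b : G × G → A} (hb : IsLC2 𝓛 b) :
    IsLC3 𝓛 ((d₂₃ A).hom b) := by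
  obtain ⟨U, hU, hUA⟩ := hA
  obtain ⟨V, hV, hVb⟩ := hb
  obtain ⟨W, hW, hle⟩ := hd U hU V hV
  obtain ⟨W', hW', hle', hnorm⟩ := hn W hW
  refine ⟨W', hW', fun g₁ g₂ g₃ s₁ s₂ s₃ h₁ h₂ h₃ => ?_⟩
  have hV' : ∀ s ∈ W', s ∈ V := fun s hs => (hle (hle' hs)).2
  have hU' : ∀ s ∈ W', s ∈ U := fun s hs => (hle (hle' hs)).1
  have c1 : ∀ s ∈ W', ∀ g : G, g⁻¹ * s * g ∈ W' := fun s hs g => by
    have := hnorm.conj_mem s hs g⁻¹
    simpa using this
  rw [d23_apply A b (g₁ * s₁) (g₂ * s₂) (g₃ * s₃), d23_apply A b g₁ g₂ g₃]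
  have e1 : b (g₂ * s₂, g₃ * s₃) = b (g₂, g₃) := hVb _ _ _ _ (hV' _ h₂) (hV' _ h₃)
  have e2 : b (g₁ * s₁ * (g₂ * s₂), g₃ * s₃) = b (g₁ * g₂, g₃) := by
    have : g₁ * s₁ * (g₂ * s₂) = g₁ * g₂ * (g₂⁻¹ * s₁ * g₂ * s₂) := by group
    rw [this]
    exact hVb _ _ _ _ (hV' _ (W'.mul_mem (c1 _ h₁ _) h₂)) (hV' _ h₃)
  have e3 : b (g₁ * s₁, g₂ * s₂ * (g₃ * s₃)) = b (g₁, g₂ * g₃) := by
    have : g₂ * s₂ * (g₃ * s₃) = g₂ * g₃ * (g₃⁻¹ * s₂ * g₃ * s₃) := by group
    rw [this]
    exact hVb _ _ _ _ (hV' _ h₁) (hV' _ (W'.mul_mem (c1 _ h₂ _) h₃))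
  have e4 : b (g₁ * s₁, g₂ * s₂) = b (g₁, g₂) := hVb _ _ _ _ (hV' _ h₁) (hV' _ h₂)
  have e5 : A.ρ (g₁ * s₁) (b (g₂, g₃)) = A.ρ g₁ (b (g₂, g₃)) := by
    rw [map_mul]
    show A.ρ g₁ (A.ρ s₁ (b (g₂, g₃))) = _
    rw [hUA _ (hU' _ h₁)]
  rw [e1, e2, e3, e4, e5]

/-! ## Closure properties of `H3V` -/

/-- `H3V` for a module with one element. -/
theorem H3V.of_subsingleton (𝓛 : Set (Subgroup G)) (h𝓛 : 𝓛.Nonempty) (A : Rep.{0, 0, 0} k G)
    [Subsingleton A] : H3V 𝓛 A := by
  intro z _ _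
  obtain ⟨U, hU⟩ := h𝓛
  refine ⟨0, ⟨U, hU, fun _ _ _ _ _ _ => rfl⟩, ?_⟩
  funext x
  exact Subsingleton.elim _ _

/-- **Retracts.**  If `r ∘ i = id` with `i : A → B`, `r : B → A` equivariant, then
`H3V B ⇒ H3V A`. -/
theorem H3V.of_retract {𝓛 : Set (Subgroup G)} {A B : Rep.{0, 0, 0} k G} (i : A →ₗ[k] B)
    (r : B →ₗ[k] A) (hi : ∀ (g : G) (a : A), i (A.ρ g a) = B.ρ g (i a))
    (hr : ∀ (g : G) (b : B), r (B.ρ g b) = A.ρ g (r b)) (hri : ∀ a, r (i a) = a)
    (hB : H3V 𝓛 B) : H3V 𝓛 A := by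
  intro z hz hcoc
  obtain ⟨b, hb, hdb⟩ := hB (i ∘ z) (hz.comp i) (hcoc.map i hi)
  refine ⟨r ∘ b, hb.comp r, ?_⟩
  rw [d23_comp r hr, hdb]
  funext x
  exact hri _

/-- **Extensions.**  If `0 → A' → A → A'' → 0` is exact (equivariant linear maps), the levels are
directed with cofinal normal levels, and some level acts trivially on `A`, then
`H3V A'` and `H3V A''` imply `H3V A`. -/
theorem H3V.of_extension {𝓛 : Set (Subgroup G)} (hd : Directed' 𝓛) (hn : NormalCofinal' 𝓛)
    {A' A A'' : Rep.{0, 0, 0} k G} (hA : USmooth 𝓛 A)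
    (i : A' →ₗ[k] A) (π : A →ₗ[k] A'')
    (hi : ∀ (g : G) (a : A'), i (A'.ρ g a) = A.ρ g (i a))
    (hπ : ∀ (g : G) (a : A), π (A.ρ g a) = A''.ρ g (π a))
    (hinj : Function.Injective i) (hsurj : Function.Surjective π)
    (hex : ∀ a : A, π a = 0 → ∃ a' : A', i a' = a)
    (h' : H3V 𝓛 A') (h'' : H3V 𝓛 A'') : H3V 𝓛 A := by
  classical
  intro z hz hcoc
  -- push to `A''`
  obtain ⟨b'', hb'', hdb''⟩ := h'' (π ∘ z) (hz.comp π) (hcoc.map π hπ)
  -- lift `b''` by a set-theoretic section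
  let s : A'' → A := Function.surjInv hsurj
  have hs : ∀ x, π (s x) = x := Function.surjInv_eq hsurj
  let bt : G × G → A := s ∘ b''
  have hbt : IsLC2 𝓛 bt := hb''.comp s
  have hπbt : (π : A → A'') ∘ bt = b'' := by
    funext x
    exact hs _
  -- the difference has values in `ker π`
  let w : G × G × G → A := z - (d₂₃ A).hom bt
  have hw0 : ∀ x, π (w x) = 0 := by
    intro x
    have h1 : (π : A → A'') ∘ (d₂₃ A).hom bt = (d₂₃ A'').hom ((π : A → A'') ∘ bt) :=
      (d23_comp π hπ bt).symm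
    have h2 : π ((d₂₃ A).hom bt x) = π (z x) := by
      have := congrFun h1 x
      simp only [Function.comp_apply] at this
      rw [this, hπbt, hdb'']
      rfl
    show π (z x - (d₂₃ A).hom bt x) = 0
    rw [map_sub, h2, sub_self]
  have hwLC : IsLC3 𝓛 w := hz.sub hd (hbt.d23 hd hn hA)
  have hwcoc : IsCoc3 A w := hcoc.sub (isCoc3_d23 A bt)
  -- descend to `A'`
  choose z' hz' using fun x => hex (w x) (hw0 x)
  have hiz' : (i : A' → A) ∘ z' = w := funext hz'
  have hz'LC : IsLC3 𝓛 z' := IsLC3.of_comp_injective hinj (by rw [hiz']; exact hwLC)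
  have hz'coc : IsCoc3 A' z' := IsCoc3.of_map i hinj hi (by rw [hiz']; exact hwcoc)
  obtain ⟨b', hb', hdb'⟩ := h' z' hz'LC hz'coc
  refine ⟨bt + (i : A' → A) ∘ b', hbt.add hd (hb'.comp i), ?_⟩
  rw [map_add, d23_comp i hi, hdb', hiz']
  funext x
  show (d₂₃ A).hom bt x + (z x - (d₂₃ A).hom bt x) = z x
  abel

end Fermat.Agent.S55.H593.Dev

end
-- ===== PACK-END S55/H593/Dev/Basic.lean

-- ===== PACK-BEGIN S55/H919/Q3Core.lean
section


/-!
# S55 / layer KL, leaf Q3 (helper919): Mathlib-only core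

`Subsingleton (groupCohomology (B.quotientToInvariants V) 3)` implies that every inhomogeneous
3-cocycle `z : G × G × G → B` which is inflated from `(G ⧸ V, B^V)` (constant on cosets of `V` in
each variable, values fixed by `V`) is `d₂₃` of a 2-cochain inflated from `(G ⧸ V, B^V)`.

All statements are spelled out with Mathlib notions only, so that the file is independent of the
location of the interface (`KL/Spec.lean`); the adapter to `Q3Spec` is a one-liner.

Main results:
* `d34_apply_h919`, `d23_apply_h919` : explicit formulas for the differentials `C³ → C⁴`, `C² → C³`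
  of Mathlib's `inhomogeneousCochains`;
* `exists_of_d34_eq_zero_h919` : `H³ = 0` ⇒ every 3-cocycle is a coboundary (Mathlib complex);
* `h3VanishAt_of_subsingleton_h919` : the statement of `Q3Spec`, unfolded.
-/

set_option autoImplicit false

open CategoryTheory groupCohomology

namespace Fermat.Agent.S55.H919

section General

universe u

variable {k G : Type u} [CommRing k] [Group G] (A : Rep k G)

theorem contractNth_zero_four_h919 (g : Fin 4 → G) :
    Fin.contractNth (0 : Fin 4) (· * ·) g = ![g 0 * g 1, g 2, g 3] := by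
  ext i; fin_cases i <;> rfl

theorem contractNth_one_four_h919 (g : Fin 4 → G) :
    Fin.contractNth (1 : Fin 4) (· * ·) g = ![g 0, g 1 * g 2, g 3] := by
  ext i; fin_cases i <;> rfl

theorem contractNth_two_four_h919 (g : Fin 4 → G) :
    Fin.contractNth (2 : Fin 4) (· * ·) g = ![g 0, g 1, g 2 * g 3] := by
  ext i; fin_cases i <;> rfl

theorem contractNth_three_four_h919 (g : Fin 4 → G) :
    Fin.contractNth (3 : Fin 4) (· * ·) g = ![g 0, g 1, g 2] := by
  ext i; fin_cases i <;> rfl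

theorem contractNth_zero_three_h919 (g : Fin 3 → G) :
    Fin.contractNth (0 : Fin 3) (· * ·) g = ![g 0 * g 1, g 2] := by
  ext i; fin_cases i <;> rfl

theorem contractNth_one_three_h919 (g : Fin 3 → G) :
    Fin.contractNth (1 : Fin 3) (· * ·) g = ![g 0, g 1 * g 2] := by
  ext i; fin_cases i <;> rfl

theorem contractNth_two_three_h919 (g : Fin 3 → G) :
    Fin.contractNth (2 : Fin 3) (· * ·) g = ![g 0, g 1] := by
  ext i; fin_cases i <;> rfl

/-- The differential `C³(G, A) → C⁴(G, A)` of Mathlib's complex of inhomogeneous cochains. -/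
theorem d34_apply_h919 (f : (Fin 3 → G) → A) (g : Fin 4 → G) :
    (inhomogeneousCochains.d A 3).hom f g =
      A.ρ (g 0) (f ![g 1, g 2, g 3]) - f ![g 0 * g 1, g 2, g 3] + f ![g 0, g 1 * g 2, g 3]
        - f ![g 0, g 1, g 2 * g 3] + f ![g 0, g 1, g 2] := by
  rw [inhomogeneousCochains.d_hom_apply]
  rw [Fin.sum_univ_four, contractNth_zero_four_h919, contractNth_one_four_h919,
    contractNth_two_four_h919, contractNth_three_four_h919]
  have e : (fun i : Fin 3 => g i.succ) = ![g 1, g 2, g 3] := by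
    ext i; fin_cases i <;> rfl
  rw [e]
  simp only [Fin.val_zero, Fin.val_one, Fin.val_two, zero_add, pow_one, neg_smul, one_smul]
  norm_num
  abel

/-- The differential `C²(G, A) → C³(G, A)` of Mathlib's complex of inhomogeneous cochains. -/
theorem d23_apply_h919 (f : (Fin 2 → G) → A) (g : Fin 3 → G) :
    (inhomogeneousCochains.d A 2).hom f g =
      A.ρ (g 0) (f ![g 1, g 2]) - f ![g 0 * g 1, g 2] + f ![g 0, g 1 * g 2]
        - f ![g 0, g 1] := by
  rw [inhomogeneousCochains.d_hom_apply]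
  rw [Fin.sum_univ_three, contractNth_zero_three_h919, contractNth_one_three_h919,
    contractNth_two_three_h919]
  have e : (fun i : Fin 2 => g i.succ) = ![g 1, g 2] := by
    ext i; fin_cases i <;> rfl
  rw [e]
  simp only [Fin.val_zero, Fin.val_one, Fin.val_two, zero_add, pow_one, neg_smul, one_smul]
  norm_num
  abel

/-- If `H³(G, A) = 0`, every 3-cocycle of Mathlib's complex of inhomogeneous cochains is a
coboundary. -/
theorem exists_of_d34_eq_zero_h919 (h : Subsingleton (groupCohomology A 3))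
    (f : (Fin 3 → G) → A) (hf : (inhomogeneousCochains.d A 3).hom f = 0) :
    ∃ b : (Fin 2 → G) → A, (inhomogeneousCochains.d A 2).hom b = f := by
  have hz : Limits.IsZero (groupCohomology A 3) := ModuleCat.isZero_of_subsingleton _
  have hex : (inhomogeneousCochains A).ExactAt 3 :=
    (HomologicalComplex.exactAt_iff_isZero_homology _ _).mpr hz
  rw [HomologicalComplex.exactAt_iff' _ 2 3 4 (by simp) (by simp)] at hex
  rw [ShortComplex.moduleCat_exact_iff] at hex
  obtain ⟨b, hb⟩ := hex f (by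
    change ((inhomogeneousCochains A).d 3 4).hom f = 0
    rw [inhomogeneousCochains.d_def]
    exact hf)
  refine ⟨b, ?_⟩
  have hb' : ((inhomogeneousCochains A).d 2 3).hom b = f := hb
  rw [inhomogeneousCochains.d_def] at hb'
  exact hb'

end General

section Main

variable {G : Type} [Group G] (B : Rep.{0, 0, 0} ℤ G) (V : Subgroup G) [V.Normal]

/-- **KL-Q3** (unfolded form of `Q3Spec`): if Mathlib's `H³(G ⧸ V, B^V)` vanishes then every
3-cocycle `z : G × G × G → B` inflated from `(G ⧸ V, B^V)` is `d₂₃` of a 2-cochain inflated from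
`(G ⧸ V, B^V)`. -/
theorem h3VanishAt_of_subsingleton_h919
    (h : Subsingleton (groupCohomology (B.quotientToInvariants V) 3))
    (z : G × G × G → B)
    (hz : ∀ g h i s t u : G, s ∈ V → t ∈ V → u ∈ V →
      z (g * s, h * t, i * u) = z (g, h, i) ∧ B.ρ s (z (g, h, i)) = z (g, h, i))
    (hc : ∀ g h i j : G,
      B.ρ g (z (h, i, j)) - z (g * h, i, j) + z (g, h * i, j) - z (g, h, i * j)
        + z (g, h, i) = 0) :
    ∃ b : G × G → B,
      (∀ g h s t : G, s ∈ V → t ∈ V →
        b (g * s, h * t) = b (g, h) ∧ B.ρ s (b (g, h)) = b (g, h)) ∧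
      (d₂₃ B).hom b = z := by
  classical
  -- `z` only depends on the cosets
  have hzq : ∀ g h i g' h' i' : G, (g : G ⧸ V) = g' → (h : G ⧸ V) = h' → (i : G ⧸ V) = i' →
      z (g, h, i) = z (g', h', i') := by
    intro g h i g' h' i' e1 e2 e3
    have h1 := QuotientGroup.eq.mp e1
    have h2 := QuotientGroup.eq.mp e2
    have h3 := QuotientGroup.eq.mp e3
    have := (hz g h i _ _ _ h1 h2 h3).1
    simpa using this.symm
  -- the cochain on the quotient
  let zbar : (Fin 3 → G ⧸ V) → (B.quotientToInvariants V) := fun x =>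
    ⟨z ((x 0).out, (x 1).out, (x 2).out), fun s => (hz _ _ _ s.1 1 1 s.2 V.one_mem V.one_mem).2⟩
  have zbar_mk : ∀ g h i : G,
      ((zbar ![(g : G ⧸ V), (h : G ⧸ V), (i : G ⧸ V)] : (B.quotientToInvariants V)) : B)
        = z (g, h, i) := by
    intro g h i
    exact hzq _ _ _ _ _ _ (QuotientGroup.out_eq' _) (QuotientGroup.out_eq' _)
      (QuotientGroup.out_eq' _)
  have hρ : ∀ (g : G) (a : (B.quotientToInvariants V)),
      (((B.quotientToInvariants V).ρ (g : G ⧸ V) a : (B.quotientToInvariants V)) : B)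
        = B.ρ g (a : B) := fun g a => rfl
  -- `zbar` is a cocycle
  have hzbar : (inhomogeneousCochains.d (B.quotientToInvariants V) 3).hom zbar = 0 := by
    funext x
    obtain ⟨g0, hg0⟩ := QuotientGroup.mk_surjective (s := V) (x 0)
    obtain ⟨g1, hg1⟩ := QuotientGroup.mk_surjective (s := V) (x 1)
    obtain ⟨g2, hg2⟩ := QuotientGroup.mk_surjective (s := V) (x 2)
    obtain ⟨g3, hg3⟩ := QuotientGroup.mk_surjective (s := V) (x 3)
    rw [d34_apply_h919]
    apply Subtype.ext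
    rw [← hg0, ← hg1, ← hg2, ← hg3]
    simp only [← QuotientGroup.mk_mul]
    push_cast
    rw [hρ, zbar_mk, zbar_mk, zbar_mk, zbar_mk, zbar_mk]
    exact hc g0 g1 g2 g3
  obtain ⟨bbar, hbbar⟩ := exists_of_d34_eq_zero_h919 _ h zbar hzbar
  refine ⟨fun x => ((bbar ![(x.1 : G ⧸ V), (x.2 : G ⧸ V)] : (B.quotientToInvariants V)) : B),
    ?_, ?_⟩
  · intro g h s t hs ht
    refine ⟨?_, ?_⟩
    · simp only [QuotientGroup.mk_mul_of_mem _ hs, QuotientGroup.mk_mul_of_mem _ ht]
    · exact (bbar ![(g : G ⧸ V), (h : G ⧸ V)]).2 ⟨s, hs⟩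
  · funext x
    obtain ⟨g, h, i⟩ := x
    rw [d₂₃_hom_apply]
    have key := congrArg (fun f => ((f ![(g : G ⧸ V), (h : G ⧸ V), (i : G ⧸ V)] :
      (B.quotientToInvariants V)) : B)) hbbar
    simp only at key
    rw [zbar_mk, d23_apply_h919] at key
    rw [← key]
    push_cast
    rw [hρ]
    rfl

end Main

end Fermat.Agent.S55.H919

end
-- ===== PACK-END S55/H919/Q3Core.lean

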