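import Mathlib
import Fermat.Agent.Pack.S56.E0L0
import Fermat.Agent.Pack.S56.E3L3
import Fermat.Agent.Pack.S56.E1L0
import Fermat.Agent.Pack.S56.E1L1
import Fermat.Agent.Pack.S56.E1L3
import Fermat.Agent.Pack.S56.E1L2
import Fermat.Agent.Pack.S56.E2L3
import Fermat.Agent.Pack.S56.E2L0
import Fermat.Agent.Pack.S56.E2L1
import Fermat.Agent.Pack.S56.E2L2

-- ===== PACK-BEGIN S56/P3/Spec.lean
section



/-!
# S56, piece P3 (`Fermat.Agent.S56.TWElementStatement`) : FROZEN SUB-INTERFACE

Sub-architect: helper306.  Plan + mathematics of every piece: `origin/helper306:coord/S56-P3.md`.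
Top glue (PROVED, sorry-free): `Fermat/Agent/S56/P3/Glue.lean`

    twElement_of_pieces : AbstractTWElementStatement → ExistsRegularStatement →
      CycloQuotientStatement → CycExpExistsStatement → DetOrderStatement →
      Fermat.Agent.S56.TWElementStatement

Every `...Statement : Prop` below is a deliverable: a piece is DONE when some file proves
`theorem <name> : Fermat.Agent.S56.P3.<Name>Statement` (sorry-free, standard axioms).
Glue pieces take the statements they need as hypotheses.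
-/

set_option autoImplicit false

open Polynomial

namespace Fermat.Agent.S56.P3

/-! ## Part A : abstract group theory (`Γ` any group, `ρ : Γ →* End V`, `dim V = 2`) -/

/-- (IRR) under `TWHyp`, `ad⁰ρ` is irreducible: a nonzero conjugation-stable subspace of the
trace-zero endomorphisms contains every trace-zero endomorphism. -/
def Ad0IrreducibleStatement : Prop :=
  ∀ (k : Type) [Field k] (V : Type) [AddCommGroup V] [Module k V] [Module.Finite k V]
    (Γ : Type) [Group Γ] (ρ : Γ →* Module.End k V) (p : ℕ) [Fact p.Prime], p ≠ 2 → TWHyp ρ p →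
    ∀ W : Submodule k (Module.End k V), (∀ A ∈ W, LinearMap.trace k V A = 0) →
      (∀ g : Γ, ∀ A ∈ W, ρ g * A * ρ g⁻¹ ∈ W) → W ≠ ⊥ →
      ∀ A : Module.End k V, LinearMap.trace k V A = 0 → A ∈ W

/-- (SPAN) `ρ|_Δ` is absolutely irreducible for `Δ ⊴ Γ` with cyclic quotient, in Burnside form:
the `k`-span of `ρ(Δ)` is all of `End V`. -/
def SpanDeltaStatement : Prop :=
  ∀ (k : Type) [Field k] (V : Type) [AddCommGroup V] [Module k V] [Module.Finite k V]
    (Γ : Type) [Group Γ] (ρ : Γ →* Module.End k V) (p : ℕ) [Fact p.Prime], p ≠ 2 → TWHyp ρ p →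
    ∀ (Δ : Subgroup Γ) [Δ.Normal], IsCyclic (Γ ⧸ Δ) →
      Submodule.span k (Set.range fun δ : Δ => ρ (δ : Γ)) = ⊤

/-- (REG) `Δ` contains an element with two distinct eigenvalues. -/
def ExistsRegularStatement : Prop :=
  ∀ (k : Type) [Field k] (V : Type) [AddCommGroup V] [Module k V] [Module.Finite k V]
    (Γ : Type) [Group Γ] (ρ : Γ →* Module.End k V) (p : ℕ) [Fact p.Prime], p ≠ 2 → TWHyp ρ p →
    ∀ (Δ : Subgroup Γ) [Δ.Normal], IsCyclic (Γ ⧸ Δ) → ∃ σ ∈ Δ, IsRegular ρ σ

/-- (H1-CORE) the matrix core of `H¹(Gal(F_n/ℚ), ad⁰ρ̄(1)) = 0` (helper726's classification-free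
theorem): `ρ : G →* M₂(k)`, `H ⊴ G` with `det ρ = 1` on `H` and `span ρ(H) = M₂(k)`, some
`det ρ(g) ∉ {1, -1}` if `p = 5`; a twisted trace-zero cocycle vanishing on `H ∩ ker ρ` is a
coboundary. -/
def H1CoreStatement : Prop :=
  ∀ (k : Type) [Field k] [Finite k] (p : ℕ) [Fact p.Prime], p ≠ 2 → (p : k) = 0 →
    ∀ (G : Type) [Group G] (ρ : G →* Matrix (Fin 2) (Fin 2) k) (H : Subgroup G) [H.Normal],
    (∀ h ∈ H, (ρ h).det = 1) → Submodule.span k (Set.range fun h : H => ρ (h : G)) = ⊤ →
    (p = 5 → ∃ g : G, (ρ g).det ≠ 1 ∧ (ρ g).det ≠ -1) →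
    ∀ ψ : G → Matrix (Fin 2) (Fin 2) k, (∀ g, (ψ g).trace = 0) →
      (∀ g h, ψ (g * h) = ψ g + (ρ g).det • (ρ g * ψ h * ρ g⁻¹)) →
      (∀ h ∈ H, ρ h = 1 → ψ h = 0) →
      ∃ m : Matrix (Fin 2) (Fin 2) k, m.trace = 0 ∧
        ∀ g, ψ g = (ρ g).det • (ρ g * m * ρ g⁻¹) - m

/-- (H1) `H¹(Gal(F_n/ℚ), ad⁰ρ̄(1)) = 0`: a cocycle vanishing on `Δ ∩ ker ρ` is a coboundary. -/
def H1VanishStatement : Prop :=
  ∀ (k : Type) [Field k] [Finite k] (V : Type) [AddCommGroup V] [Module k V]
    [Module.Finite k V] (Γ : Type) [Group Γ] (ρ : Γ →* Module.End k V) (p : ℕ)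
    [Fact p.Prime], p ≠ 2 → TWHyp ρ p →
    ∀ (Δ : Subgroup Γ) [Δ.Normal], IsCyclic (Γ ⧸ Δ) → (∀ δ ∈ Δ, LinearMap.det (ρ δ) = 1) →
    (∃ γ : Γ, orderOf (LinearMap.det (ρ γ)) = p - 1) →
    ∀ ψ : Γ → Module.End k V, _root_.Fermat.Agent.S56.P3.IsTwCocycle ρ ψ → (∀ δ ∈ Δ, ρ δ = 1 → ψ δ = 0) →
      _root_.Fermat.Agent.S56.P3.IsTwCoboundary ρ ψ

/-- (SEL) selection of a Taylor–Wiles element for a non-trivial class. -/
def AbstractTWElementStatement : Prop :=
  ∀ (k : Type) [Field k] [Finite k] (V : Type) [AddCommGroup V] [Module k V]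
    [Module.Finite k V] (Γ : Type) [Group Γ] (ρ : Γ →* Module.End k V) (p : ℕ)
    [Fact p.Prime], p ≠ 2 → TWHyp ρ p →
    ∀ (Δ : Subgroup Γ) [Δ.Normal], IsCyclic (Γ ⧸ Δ) → (∀ δ ∈ Δ, LinearMap.det (ρ δ) = 1) →
    (∃ γ : Γ, orderOf (LinearMap.det (ρ γ)) = p - 1) →
    ∀ ψ : Γ → Module.End k V, _root_.Fermat.Agent.S56.P3.IsTwCocycle ρ ψ → ¬ _root_.Fermat.Agent.S56.P3.IsTwCoboundary ρ ψ →
      ∃ σ ∈ Δ, IsTWElement ρ ψ σ

/-! ## Part B : arithmetic inputs for `Γ = G_ℚ` -/

/-- (CYC) `G_{ℚ(ζ_{p^(n+1)})}` is normal in `G_ℚ` with cyclic quotient (`p` odd). -/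
def CycloQuotientStatement : Prop :=
  ∀ (p : ℕ) [Fact p.Prime], p ≠ 2 → ∀ n : ℕ,
    ∃ _ : (fixRootsSubgroup p n).Normal, IsCyclic (_root_.Fermat.Agent.S56.P3.GQ ⧸ fixRootsSubgroup p n)

/-- (CYCEXP) every `σ ∈ G_ℚ` has a cyclotomic exponent on `μ_p`. -/
def CycExpExistsStatement : Prop :=
  ∀ (p : ℕ) [Fact p.Prime] (σ : _root_.Fermat.Agent.S56.P3.GQ), ∃ a : ℕ, Fermat.Agent.S56.IsCycExp p σ a

/-- (DETORD) the mod `p` cyclotomic character is onto `𝔽_p^×`: if `det ρ̄` is cyclotomic, it
takes a value of exact order `p - 1`. -/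
def DetOrderStatement : Prop :=
  ∀ (k : Type) [Field k] (p : ℕ) [Fact p.Prime] (ρbar : ResidualGaloisRep k),
    (GaloisRepAdic.ofResidualGaloisRep ρbar).DetIsCyclotomic p →
      ∃ γ : _root_.Fermat.Agent.S56.P3.GQ, orderOf (LinearMap.det (ρbar.ρ γ)) = p - 1

end Fermat.Agent.S56.P3

end
-- ===== PACK-END S56/P3/Spec.lean

-- ===== PACK-BEGIN S55/G/H953/Hilbert90.lean
section


/-!
# S55, layer G (helper953): Hilbert 90 for a finite group acting faithfully on a field

`hilbert90_ringAut` : Noether's form of Hilbert 90 for a finite group `D` acting on a field `E`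
through an injective homomorphism `φ : D →* (E ≃+* E)` (no base field needed).
`isZero_H1_unitsRepr` : `H¹(D, Eˣ) = 0` for the representation `unitsRepr D φ` of `G/Defs.lean`.
-/

set_option autoImplicit false

namespace Fermat.Agent.S55.G.H953

open CategoryTheory groupCohomology

/-- Noether's form of Hilbert 90 for a finite group `D` acting faithfully on a field `E` by ring
automorphisms. -/
theorem hilbert90_ringAut {D E : Type} [Group D] [Finite D] [Field E]
    (φ : D →* (E ≃+* E)) (hφ : Function.Injective φ) (f : D → Eˣ)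
    (hf : ∀ g h : D, f (g * h) = Units.map ((φ g : E ≃+* E) : E →* E) (f h) * f g) :
    ∃ β : Eˣ, ∀ g : D, Units.map ((φ g : E ≃+* E) : E →* E) β / β = f g := by
  classical
  have : Fintype D := Fintype.ofFinite D
  -- Dedekind independence of the characters `φ d : E → E`
  have hli : LinearIndependent E (fun d : D => ((φ d : E ≃+* E) : E → E)) :=
    LinearIndependent.comp (ι' := D) (linearIndependent_monoidHom E E)
      (fun d => ((φ d : E ≃+* E) : E →* E))
      (fun x y h => hφ (by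
        ext z
        exact DFunLike.congr_fun h z))
  have hne : (∑ d : D, (f d : E) • ((φ d : E ≃+* E) : E → E)) ≠ 0 := by
    intro h0
    have := Fintype.linearIndependent_iff.1 hli (fun d => (f d : E)) h0 1
    exact Units.ne_zero (f 1) this
  obtain ⟨z, hz⟩ : ∃ z, (∑ d : D, (f d : E) • ((φ d : E ≃+* E) : E → E)) z ≠ 0 :=
    not_forall.1 (fun hall => hne (funext hall))
  have hz' : (∑ d : D, (f d : E) * φ d z) ≠ 0 := by
    simpa [Finset.sum_apply] using hz
  refine ⟨(Units.mk0 _ hz')⁻¹, fun g => ?_⟩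
  rw [map_inv, div_inv_eq_mul, inv_mul_eq_iff_eq_mul]
  apply Units.ext
  simp only [Units.val_mul, Units.val_mk0, Units.coe_map, MonoidHom.coe_coe]
  rw [map_sum, Finset.sum_mul]
  have := Fintype.sum_bijective (fun i : D => g * i) (Group.mulLeft_bijective g)
    (fun i => (f (g * i) : E) * φ (g * i) z)
    (fun i => (f i : E) * φ i z) (fun i => rfl)
  rw [← this]
  refine Finset.sum_congr rfl fun i _ => ?_
  rw [hf g i, map_mul φ g i]
  simp only [Units.val_mul, Units.coe_map, MonoidHom.coe_coe, RingAut.mul_apply, map_mul]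
  ring

/-- `H¹(D, Eˣ) = 0` for a finite group `D` acting faithfully on a field `E`. -/
theorem isZero_H1_unitsRepr {D E : Type} [Group D] [Finite D] [Field E]
    (φ : D →* (E ≃+* E)) (hφ : Function.Injective φ) :
    Limits.IsZero (groupCohomology (Rep.of (unitsRepr D φ)) 1) := by
  rw [ModuleCat.isZero_iff_subsingleton]
  refine ⟨fun a b => ?_⟩
  suffices h : ∀ x : H1 (Rep.of (unitsRepr D φ)), x = 0 by
    rw [h a, h b]
  intro x
  induction x using H1_induction_on with
  | h c =>
    rw [H1π_eq_zero_iff]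
    have hc := (mem_cocycles₁_iff (c : D → _)).1 c.2
    obtain ⟨β, hβ⟩ := hilbert90_ringAut φ hφ (fun h => Additive.toMul (c h)) (fun g h => by
      have := hc g h
      exact congrArg Additive.toMul this)
    refine ⟨Additive.ofMul β, funext fun g => ?_⟩
    have := hβ g
    exact congrArg Additive.ofMul this

end Fermat.Agent.S55.G.H953

end
-- ===== PACK-END S55/G/H953/Hilbert90.lean

-- ===== PACK-BEGIN S55/H572/CoindTriv.lean
section


/-!
# Tate cohomology of modules coinduced from the trivial subgroup vanishes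

For a finite group `G` and `A₀ : Rep R (⊥ : Subgroup G)`, the coinduced module
`coind (⊥ : Subgroup G).subtype A₀` (functions `G → A₀`, right translation action) has
vanishing Tate cohomology in every degree.
-/

set_option autoImplicit false

open CategoryTheory groupCohomology groupHomology Rep Limits

universe u

namespace Fermat.Agent.S55.H572

noncomputable section

section general

variable {R G : Type u} [CommRing R] [Group G]

/-- Every function lies in the coinduction from the trivial subgroup. -/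
lemma mem_coindV_bot (A₀ : Rep.{u} R (⊥ : Subgroup G)) (f : G → A₀) :
    f ∈ Representation.coindV (⊥ : Subgroup G).subtype A₀.ρ := by
  intro g h
  have hg : g = 1 := Subsingleton.elim _ _
  subst hg
  simp

/-- Build an element of `coind ⊥ A₀` from an arbitrary function. -/
def mkCoind (A₀ : Rep.{u} R (⊥ : Subgroup G)) (f : G → A₀) :
    coind (⊥ : Subgroup G).subtype A₀ :=
  ⟨f, mem_coindV_bot A₀ f⟩

@[simp]
lemma mkCoind_coe (A₀ : Rep.{u} R (⊥ : Subgroup G)) (f : G → A₀) (x : G) :
    (mkCoind A₀ f).1 x = f x := rfl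

lemma coind_ρ_coe (A₀ : Rep.{u} R (⊥ : Subgroup G)) (g : G)
    (f : coind (⊥ : Subgroup G).subtype A₀) (x : G) :
    ((coind (⊥ : Subgroup G).subtype A₀).ρ g f).1 x = f.1 (x * g) := rfl

lemma d₁₀_hom_single (M : Rep.{u} R G) (g : G) (a : M) :
    (d₁₀ M).hom (Finsupp.single g a) = M.ρ g⁻¹ a - a := d₁₀_single M g a

end general

variable {R G : Type u} [CommRing R] [Group G] [Fintype G]

lemma coind_norm_coe (A₀ : Rep.{u} R (⊥ : Subgroup G))
    (f : coind (⊥ : Subgroup G).subtype A₀) (x : G) :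
    ((coind (⊥ : Subgroup G).subtype A₀).ρ.norm f).1 x = ∑ g : G, f.1 (x * g) := by
  simp only [Representation.norm, LinearMap.sum_apply]
  rw [Submodule.coe_sum, Finset.sum_apply]
  rfl

theorem isZero_tateCohomology_coind_bot_zero (A₀ : Rep.{u} R (⊥ : Subgroup G)) :
    IsZero (tateCohomology (coind (⊥ : Subgroup G).subtype A₀) 0) := by
  classical
  rw [isZero_tateCohomology_zero_iff]
  intro x hx
  refine ⟨mkCoind A₀ (fun t => if t = 1 then x.1 1 else 0), ?_⟩
  apply Subtype.ext
  funext t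
  rw [coind_norm_coe]
  simp only [mkCoind_coe]
  have hconst : x.1 t = x.1 1 := by
    have h1 : ((coind (⊥ : Subgroup G).subtype A₀).ρ t x).1 1 = x.1 1 := by rw [hx t]
    rw [coind_ρ_coe, one_mul] at h1
    exact h1
  rw [hconst]
  have h2 : ∀ g : G, (t * g = 1) ↔ g = t⁻¹ := fun g => by
    rw [mul_eq_one_iff_eq_inv']
  simp only [h2]
  simp

theorem isZero_tateCohomology_coind_bot_neg_one (A₀ : Rep.{u} R (⊥ : Subgroup G)) :
    IsZero (tateCohomology (coind (⊥ : Subgroup G).subtype A₀) (-1)) := by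
  classical
  rw [isZero_tateCohomology_neg_one_iff]
  intro x hx
  have hsum : ∑ g : G, x.1 g = 0 := by
    have h1 := coind_norm_coe A₀ x 1
    rw [hx] at h1
    simpa using h1.symm
  refine ⟨∑ g : G, Finsupp.single g (mkCoind A₀ (fun t => if t = 1 then x.1 g else 0)), ?_⟩
  rw [map_sum]
  rw [Finset.sum_congr rfl (fun g _ => d₁₀_hom_single (coind (⊥ : Subgroup G).subtype A₀) g _)]
  apply Subtype.ext
  funext t
  rw [Submodule.coe_sum, Finset.sum_apply]
  have key : ∀ g : G,
      ((coind (⊥ : Subgroup G).subtype A₀).ρ g⁻¹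
          (mkCoind A₀ (fun s => if s = 1 then x.1 g else 0)) -
        mkCoind A₀ (fun s => if s = 1 then x.1 g else 0)).1 t =
      (if t = g then x.1 g else 0) - (if t = 1 then x.1 g else 0) := by
    intro g
    have h1 : ((coind (⊥ : Subgroup G).subtype A₀).ρ g⁻¹
          (mkCoind A₀ (fun s => if s = 1 then x.1 g else 0))).1 t =
        (if t * g⁻¹ = 1 then x.1 g else 0) := rfl
    have h2 : (t * g⁻¹ = 1) ↔ t = g := by
      rw [mul_inv_eq_one]
    rw [Submodule.coe_sub, Pi.sub_apply, h1, mkCoind_coe]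
    simp only [h2]
  rw [Finset.sum_congr rfl (fun g _ => key g), Finset.sum_sub_distrib]
  have h2 : ∑ g : G, (if t = 1 then x.1 g else 0) = 0 := by
    by_cases ht : t = 1
    · simp [ht, hsum]
    · simp [ht]
  rw [h2, sub_zero]
  simp

theorem isZero_tateCohomology_coind_bot_pos (A₀ : Rep.{u} R (⊥ : Subgroup G)) (n : ℕ) :
    IsZero (tateCohomology (coind (⊥ : Subgroup G).subtype A₀) ((n + 1 : ℕ) : ℤ)) :=
  IsZero.of_iso (isZero_groupCohomology_succ_of_subsingleton A₀ n)
    ((TateCohomology.isoGroupCohomology (n + 1)).app (coind (⊥ : Subgroup G).subtype A₀) ≪≫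
      groupCohomology.coindIso A₀ (n + 1))

theorem isZero_tateCohomology_coind_bot_neg (A₀ : Rep.{u} R (⊥ : Subgroup G)) (n : ℕ) :
    IsZero (tateCohomology (coind (⊥ : Subgroup G).subtype A₀) (-((n + 1 : ℕ) + 1 : ℤ))) := by
  classical
  exact IsZero.of_iso (isZero_groupHomology_succ_of_subsingleton A₀ n)
    ((TateCohomology.isoGroupHomology (-((n + 1 : ℕ) + 1 : ℤ)) (n + 1) rfl).app _ ≪≫
      (groupHomology.functor R G (n + 1)).mapIso (Rep.indCoindIso A₀).symm ≪≫
      groupHomology.indIso _ A₀ (n + 1))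

/-- **Tate cohomology of a module coinduced from the trivial subgroup vanishes in all degrees.** -/
theorem isZero_tateCohomology_coind_bot (A₀ : Rep.{u} R (⊥ : Subgroup G)) (n : ℤ) :
    IsZero (tateCohomology (coind (⊥ : Subgroup G).subtype A₀) n) := by
  rcases lt_trichotomy n (-1) with h | h | h
  · obtain ⟨m, rfl⟩ : ∃ m : ℕ, n = -((m + 1 : ℕ) + 1 : ℤ) := ⟨(-n - 2).toNat, by omega⟩
    exact isZero_tateCohomology_coind_bot_neg A₀ m
  · subst h; exact isZero_tateCohomology_coind_bot_neg_one A₀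
  · rcases eq_or_lt_of_le (show (0 : ℤ) ≤ n by omega) with h0 | h0
    · subst h0; exact isZero_tateCohomology_coind_bot_zero A₀
    · obtain ⟨m, rfl⟩ : ∃ m : ℕ, n = ((m + 1 : ℕ) : ℤ) := ⟨(n - 1).toNat, by omega⟩
      exact isZero_tateCohomology_coind_bot_pos A₀ m

end

end Fermat.Agent.S55.H572

end
-- ===== PACK-END S55/H572/CoindTriv.lean

-- ===== PACK-BEGIN S55/H595/Relative.lean
section
/-
Relative Herbrand indices of stable subgroups (helper595, S55 class-field-theory build).

`mrhIdx f g U = [ker f ∩ U : g(U)]` for a subgroup `U` of an ambient commutative group `B`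
with endomorphisms `f g`.  Additive twins: `rhIdx`, `RHFinite`, `rherbrandQ`, ...
-/


namespace Fermat.Agent.S55.H595

open Subgroup Function

variable {A B C : Type*} [CommGroup A] [CommGroup B] [CommGroup C]

/-- Relative Herbrand index of a subgroup `U` of `B` (meaningful when `U` is stable under
`f` and `g`): `[ker f ∩ U : g(U)]`. -/
@[to_additive rhIdx /-- Relative Herbrand index of a subgroup `U` of `B` (meaningful when `U`
is stable under `f` and `g`): `[ker f ∩ U : g(U)]`. -/]
noncomputable def mrhIdx (f g : B →* B) (U : Subgroup B) : ℕ := (U.map g).relIndex (f.ker ⊓ U)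

/-- Both relative Herbrand indices are finite. -/
@[to_additive RHFinite /-- Both relative Herbrand indices are finite. -/]
def MRHFinite (f g : B →* B) (U : Subgroup B) : Prop := mrhIdx f g U ≠ 0 ∧ mrhIdx g f U ≠ 0

/-- The relative Herbrand quotient. -/
@[to_additive rherbrandQ /-- The relative Herbrand quotient. -/]
noncomputable def mrherbrandQ (f g : B →* B) (U : Subgroup B) : ℚ :=
  (mrhIdx f g U : ℚ) / (mrhIdx g f U : ℚ)

/-- Restriction of an endomorphism to a stable subgroup. -/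
@[to_additive resHom /-- Restriction of an endomorphism to a stable subgroup. -/]
def mresHom (f : B →* B) (U : Subgroup B) (hU : U ≤ U.comap f) : U →* U :=
  (f.comp U.subtype).codRestrict U (fun x => hU x.2)

@[to_additive (attr := simp) coe_resHom]
lemma coe_mresHom (f : B →* B) (U : Subgroup B) (hU : U ≤ U.comap f) (x : U) :
    (mresHom f U hU x : B) = f x := rfl

@[to_additive rhIdx_eq_hIdx]
lemma mrhIdx_eq_mhIdx (f g : B →* B) (U : Subgroup B) (hf : U ≤ U.comap f)
    (hg : U ≤ U.comap g) : mrhIdx f g U = mhIdx (mresHom f U hf) (mresHom g U hg) := by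
  rw [mhIdx_sub U.subtype (mresHom f U hf) (mresHom g U hg) f g U.subtype_injective
    (fun _ => rfl) (fun _ => rfl)]
  unfold mrhIdx
  rw [Subgroup.range_subtype]

@[to_additive rhIdx_top]
lemma mrhIdx_top (f g : B →* B) : mrhIdx f g ⊤ = mhIdx f g := by
  unfold mrhIdx mhIdx
  rw [inf_top_eq, ← MonoidHom.range_eq_map]

@[to_additive RHFinite_iff]
lemma MRHFinite_iff (f g : B →* B) (U : Subgroup B) (hf : U ≤ U.comap f)
    (hg : U ≤ U.comap g) : MRHFinite f g U ↔ MHFinite (mresHom f U hf) (mresHom g U hg) := by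
  unfold MRHFinite MHFinite
  rw [mrhIdx_eq_mhIdx f g U hf hg, mrhIdx_eq_mhIdx g f U hg hf]

@[to_additive rherbrandQ_eq]
lemma mrherbrandQ_eq (f g : B →* B) (U : Subgroup B) (hf : U ≤ U.comap f)
    (hg : U ≤ U.comap g) : mrherbrandQ f g U = mherbrandQ (mresHom f U hf) (mresHom g U hg) := by
  unfold mrherbrandQ mherbrandQ
  rw [mrhIdx_eq_mhIdx f g U hf hg, mrhIdx_eq_mhIdx g f U hg hf]

/-- **Relative exact sequence.**  `U ≤ B` stable under `f, g` with `f g = g f = 1` on `U`;
`φ : B → C` intertwines `(f, g)` with `(f', g')`.  Then `1 → ker φ ∩ U → U → φ(U) → 1` is an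
exact sequence of Herbrand pairs. -/
@[to_additive rh_exact]
theorem mrh_exact (f g : B →* B) (f' g' : C →* C) (φ : B →* C)
    (hφf : ∀ b, φ (f b) = f' (φ b)) (hφg : ∀ b, φ (g b) = g' (φ b))
    (U : Subgroup B) (hUf : U ≤ U.comap f) (hUg : U ≤ U.comap g)
    (hfg : ∀ b ∈ U, f (g b) = 1) (hgf : ∀ b ∈ U, g (f b) = 1) :
    ∃ Ef Eg w y w' y' : ℕ,
      mrhIdx f g (φ.ker ⊓ U) = Eg * w ∧ mrhIdx f g U = w * y ∧ mrhIdx f' g' (U.map φ) = Ef * y ∧
      mrhIdx g f (φ.ker ⊓ U) = Ef * w' ∧ mrhIdx g f U = w' * y' ∧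
      mrhIdx g' f' (U.map φ) = Eg * y' := by
  -- stability of the kernel part and of the image
  have hKf : φ.ker ⊓ U ≤ (φ.ker ⊓ U).comap f := by
    rintro x ⟨hx1, hx2⟩
    refine ⟨?_, hUf hx2⟩
    have hx1' : φ x = 1 := hx1
    show φ (f x) = 1
    rw [hφf, hx1', map_one]
  have hKg : φ.ker ⊓ U ≤ (φ.ker ⊓ U).comap g := by
    rintro x ⟨hx1, hx2⟩
    refine ⟨?_, hUg hx2⟩
    have hx1' : φ x = 1 := hx1
    show φ (g x) = 1
    rw [hφg, hx1', map_one]
  have hVf : U.map φ ≤ (U.map φ).comap f' := by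
    rintro _ ⟨x, hx, rfl⟩
    exact ⟨f x, hUf hx, hφf x⟩
  have hVg : U.map φ ≤ (U.map φ).comap g' := by
    rintro _ ⟨x, hx, rfl⟩
    exact ⟨g x, hUg hx, hφg x⟩
  -- the maps of the exact sequence
  let i : ↥(φ.ker ⊓ U) →* ↥U := Subgroup.inclusion inf_le_right
  let p : ↥U →* ↥(U.map φ) := (φ.comp U.subtype).codRestrict (U.map φ)
    (fun x => ⟨x, x.2, rfl⟩)
  have hi : Injective i := Subgroup.inclusion_injective _
  have hp : Surjective p := by
    rintro ⟨_, x, hx, rfl⟩
    exact ⟨⟨x, hx⟩, rfl⟩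
  have hex : i.range = p.ker := by
    ext x
    constructor
    · rintro ⟨⟨y, hy1, hy2⟩, rfl⟩
      rw [MonoidHom.mem_ker]
      apply Subtype.ext
      exact hy1
    · intro hx
      rw [MonoidHom.mem_ker] at hx
      have hx' : φ x = 1 := congrArg Subtype.val hx
      exact ⟨⟨x, hx', x.2⟩, rfl⟩
  have key := exists_six_factors_mul i p (mresHom f _ hKf) (mresHom g _ hKg)
    (mresHom f U hUf) (mresHom g U hUg) (mresHom f' _ hVf) (mresHom g' _ hVg) hi hp hex
    (fun _ => rfl) (fun _ => rfl)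
    (fun b => Subtype.ext (hφf b)) (fun b => Subtype.ext (hφg b))
    (fun b => Subtype.ext (hfg b b.2)) (fun b => Subtype.ext (hgf b b.2))
  rw [← mrhIdx_eq_mhIdx f g _ hKf hKg, ← mrhIdx_eq_mhIdx g f _ hKg hKf,
    ← mrhIdx_eq_mhIdx f g U hUf hUg, ← mrhIdx_eq_mhIdx g f U hUg hUf,
    ← mrhIdx_eq_mhIdx f' g' _ hVf hVg, ← mrhIdx_eq_mhIdx g' f' _ hVg hVf] at key
  exact key

/-- Relative version: finite kernel part. If `ker φ ∩ U` is finite then `U` and `φ(U)` have the
same Herbrand indices ratio. -/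
@[to_additive rh_of_finite_ker]
theorem mrh_of_finite_ker (f g : B →* B) (f' g' : C →* C) (φ : B →* C)
    (hφf : ∀ b, φ (f b) = f' (φ b)) (hφg : ∀ b, φ (g b) = g' (φ b))
    (U : Subgroup B) (hUf : U ≤ U.comap f) (hUg : U ≤ U.comap g)
    (hfg : ∀ b ∈ U, f (g b) = 1) (hgf : ∀ b ∈ U, g (f b) = 1)
    (hfin : Finite ↥(φ.ker ⊓ U)) :
    (MRHFinite f g U ↔ MRHFinite f' g' (U.map φ)) ∧
      mrhIdx f g U * mrhIdx g' f' (U.map φ) = mrhIdx g f U * mrhIdx f' g' (U.map φ) := by
  obtain ⟨Ef, Eg, w, y, w', y', h1, h2, h3, h4, h5, h6⟩ :=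
    mrh_exact f g f' g' φ hφf hφg U hUf hUg hfg hgf
  -- finiteness of the kernel part
  have hKf : φ.ker ⊓ U ≤ (φ.ker ⊓ U).comap f := by
    rintro x ⟨hx1, hx2⟩
    refine ⟨?_, hUf hx2⟩
    have hx1' : φ x = 1 := hx1
    show φ (f x) = 1
    rw [hφf, hx1', map_one]
  have hKg : φ.ker ⊓ U ≤ (φ.ker ⊓ U).comap g := by
    rintro x ⟨hx1, hx2⟩
    refine ⟨?_, hUg hx2⟩
    have hx1' : φ x = 1 := hx1
    show φ (g x) = 1
    rw [hφg, hx1', map_one]
  have hK := mhIdx_eq_of_finite (mresHom f _ hKf) (mresHom g _ hKg)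
    (fun b => Subtype.ext (hfg b b.2.2)) (fun b => Subtype.ext (hgf b b.2.2))
  rw [← mrhIdx_eq_mhIdx f g _ hKf hKg, ← mrhIdx_eq_mhIdx g f _ hKg hKf] at hK
  obtain ⟨hKeq, hKne⟩ := hK
  have hKne' : mrhIdx g f (φ.ker ⊓ U) ≠ 0 := hKeq ▸ hKne
  rw [h1] at hKeq hKne
  rw [h4] at hKeq hKne'
  have hEg : Eg ≠ 0 := left_ne_zero_of_mul hKne
  have hw : w ≠ 0 := right_ne_zero_of_mul hKne
  have hEf : Ef ≠ 0 := left_ne_zero_of_mul hKne'
  have hw' : w' ≠ 0 := right_ne_zero_of_mul hKne'
  refine ⟨?_, ?_⟩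
  · unfold MRHFinite
    rw [h2, h3, h5, h6]
    constructor
    · rintro ⟨a, b⟩
      exact ⟨Nat.mul_ne_zero hEf (right_ne_zero_of_mul a),
        Nat.mul_ne_zero hEg (right_ne_zero_of_mul b)⟩
    · rintro ⟨a, b⟩
      exact ⟨Nat.mul_ne_zero hw (right_ne_zero_of_mul a),
        Nat.mul_ne_zero hw' (right_ne_zero_of_mul b)⟩
  · rw [h2, h3, h5, h6]
    calc w * y * (Eg * y') = (Eg * w) * (y * y') := by
          simp only [Nat.mul_comm, Nat.mul_left_comm]
      _ = (Ef * w') * (y * y') := by rw [hKeq]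
      _ = w' * y' * (Ef * y) := by simp only [Nat.mul_comm, Nat.mul_left_comm]

/-- Relative version: finite index. If `U ≤ W` are stable with `[W : U]` finite, the Herbrand
index ratios of `U` and `W` agree. -/
@[to_additive rh_of_finite_index]
theorem mrh_of_finite_index (f g : B →* B) (U W : Subgroup B) (hUW : U ≤ W)
    (hidx : U.relIndex W ≠ 0)
    (hUf : U ≤ U.comap f) (hUg : U ≤ U.comap g) (hWf : W ≤ W.comap f) (hWg : W ≤ W.comap g)
    (hfg : ∀ b ∈ W, f (g b) = 1) (hgf : ∀ b ∈ W, g (f b) = 1) :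
    (MRHFinite f g U ↔ MRHFinite f g W) ∧
      mrhIdx f g U * mrhIdx g f W = mrhIdx g f U * mrhIdx f g W := by
  -- exact sequence 1 → U → W → W/U → 1
  let U' : Subgroup ↥W := U.subgroupOf W
  let i : ↥U →* ↥W := Subgroup.inclusion hUW
  let p : ↥W →* ↥W ⧸ U' := QuotientGroup.mk' U'
  have hU'f : U' ≤ U'.comap (mresHom f W hWf) := fun x hx => hUf hx
  have hU'g : U' ≤ U'.comap (mresHom g W hWg) := fun x hx => hUg hx
  let fC : ↥W ⧸ U' →* ↥W ⧸ U' := QuotientGroup.map U' U' (mresHom f W hWf) hU'f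
  let gC : ↥W ⧸ U' →* ↥W ⧸ U' := QuotientGroup.map U' U' (mresHom g W hWg) hU'g
  have hi : Injective i := Subgroup.inclusion_injective _
  have hp : Surjective p := QuotientGroup.mk'_surjective U'
  have hex : i.range = p.ker := by
    rw [QuotientGroup.ker_mk']
    ext x
    constructor
    · rintro ⟨y, rfl⟩
      exact y.2
    · intro hx
      exact ⟨⟨x, hx⟩, rfl⟩
  have hfinC : Finite (↥W ⧸ U') := by
    have : U'.index ≠ 0 := hidx
    haveI : U'.FiniteIndex := ⟨this⟩
    exact Subgroup.finite_quotient_of_finiteIndex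
  obtain ⟨Ef, Eg, w, y, w', y', h1, h2, h3, h4, h5, h6⟩ :=
    exists_six_factors_mul i p (mresHom f U hUf) (mresHom g U hUg)
      (mresHom f W hWf) (mresHom g W hWg) fC gC hi hp hex
      (fun _ => rfl) (fun _ => rfl) (fun _ => rfl) (fun _ => rfl)
      (fun b => Subtype.ext (hfg b b.2)) (fun b => Subtype.ext (hgf b b.2))
  have hfgC : ∀ c, fC (gC c) = 1 := by
    intro c
    obtain ⟨b, rfl⟩ := hp c
    show p (mresHom f W hWf (mresHom g W hWg b)) = 1
    rw [show mresHom f W hWf (mresHom g W hWg b) = 1 from Subtype.ext (hfg b b.2), map_one]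
  have hgfC : ∀ c, gC (fC c) = 1 := by
    intro c
    obtain ⟨b, rfl⟩ := hp c
    show p (mresHom g W hWg (mresHom f W hWf b)) = 1
    rw [show mresHom g W hWg (mresHom f W hWf b) = 1 from Subtype.ext (hgf b b.2), map_one]
  obtain ⟨hCeq, hCne⟩ := mhIdx_eq_of_finite fC gC hfgC hgfC
  have hCne' : mhIdx gC fC ≠ 0 := hCeq ▸ hCne
  rw [← mrhIdx_eq_mhIdx f g U hUf hUg] at h1
  rw [← mrhIdx_eq_mhIdx g f U hUg hUf] at h4
  rw [← mrhIdx_eq_mhIdx f g W hWf hWg] at h2
  rw [← mrhIdx_eq_mhIdx g f W hWg hWf] at h5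
  rw [h3] at hCeq hCne
  rw [h6] at hCeq hCne'
  have hEf : Ef ≠ 0 := left_ne_zero_of_mul hCne
  have hy : y ≠ 0 := right_ne_zero_of_mul hCne
  have hEg : Eg ≠ 0 := left_ne_zero_of_mul hCne'
  have hy' : y' ≠ 0 := right_ne_zero_of_mul hCne'
  refine ⟨?_, ?_⟩
  · unfold MRHFinite
    rw [h1, h2, h4, h5]
    constructor
    · rintro ⟨a, b⟩
      exact ⟨Nat.mul_ne_zero (right_ne_zero_of_mul a) hy,
        Nat.mul_ne_zero (right_ne_zero_of_mul b) hy'⟩
    · rintro ⟨a, b⟩
      exact ⟨Nat.mul_ne_zero hEg (left_ne_zero_of_mul a),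
        Nat.mul_ne_zero hEf (left_ne_zero_of_mul b)⟩
  · rw [h1, h2, h4, h5]
    calc Eg * w * (w' * y') = (Eg * y') * (w * w') := by
          simp only [Nat.mul_comm, Nat.mul_left_comm]
      _ = (Ef * y) * (w * w') := by rw [hCeq]
      _ = Ef * w' * (w * y) := by simp only [Nat.mul_comm, Nat.mul_left_comm]

end Fermat.Agent.S55.H595

end
-- ===== PACK-END S55/H595/Relative.lean

-- ===== PACK-BEGIN S55/L/RingOfIntegersUnique775.lean
section


/-!
# S55, layer L, leaf L-A0 (helper775): the ring of integers of a local field is unique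

If `A` and `A'` are valuation subrings of a field `K`, `A` is `𝔪`-adically complete with finite
residue field and `A'` is a Noetherian (e.g. discrete) valuation ring, then `A ≤ A'`.
Consequently two complete discrete valuation subrings with finite residue fields coincide:
`ringOfIntegersUnique775 : RingOfIntegersUniqueSpec`.

Proof: by Hensel's lemma every principal unit of `A` is an `n`-th power for every `n ≡ 1` modulo the
cardinality `q` of the residue field; an element of `K` with `n`-th roots for arbitrarily large `n`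
is integral for `A'` by Krull's intersection theorem; a unit `u` of `A` has `u ^ (q - 1)` principal.
-/

set_option autoImplicit false

namespace Fermat.Agent.S55.L

open IsLocalRing Polynomial

section

variable {K : Type} [Field K]

/-- Hensel: in a complete local ring, an element `x ≡ 1` is an `n`-th power if `n ≡ 1`. -/
theorem exists_pow_eq_of_sub_one_mem775 {R : Type*} [CommRing R] [IsLocalRing R]
    [IsAdicComplete (maximalIdeal R) R] {n : ℕ} (hn : ((n : ℕ) : R) - 1 ∈ maximalIdeal R)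
    {x : R} (hx : x - 1 ∈ maximalIdeal R) : ∃ y : R, y ^ n = x := by
  have hn0 : n ≠ 0 := by
    rintro rfl
    have h1 : (1 : R) ∈ maximalIdeal R := by
      have := (maximalIdeal R).neg_mem hn
      simp at this
    exact (Ideal.ne_top_iff_one _).mp (maximalIdeal.isMaximal R).ne_top h1
  have hmonic : (X ^ n - C x : R[X]).Monic := monic_X_pow_sub_C x hn0
  obtain ⟨a, ha, -⟩ := HenselianRing.is_henselian (I := maximalIdeal R) (X ^ n - C x : R[X])
    hmonic 1 (by
      have : (X ^ n - C x : R[X]).eval 1 = -(x - 1) := by simp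
      rw [this]
      exact (maximalIdeal R).neg_mem hx) (by
      have : (derivative (X ^ n - C x : R[X])).eval 1 = (n : R) := by
        simp [derivative_X_pow]
      rw [this]
      have h1 : Ideal.Quotient.mk (maximalIdeal R) (n : R) = 1 := by
        rw [← sub_eq_zero, ← map_one (Ideal.Quotient.mk (maximalIdeal R)), ← map_sub]
        exact Ideal.Quotient.eq_zero_iff_mem.mpr hn
      rw [h1]
      exact isUnit_one)
  refine ⟨a, ?_⟩
  have : (X ^ n - C x : R[X]).eval a = 0 := ha
  simpa [sub_eq_zero] using this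

/-- Krull: an element of `K` having `n`-th roots for arbitrarily large `n` lies in every
Noetherian valuation subring. -/
theorem mem_of_forall_exists_pow_eq775 (A' : ValuationSubring K) [IsNoetherianRing A']
    {z : K} (hz : z ≠ 0) (h : ∀ N : ℕ, ∃ n, N ≤ n ∧ ∃ y : K, y ^ n = z) : z ∈ A' := by
  by_contra hzA
  have hinv : z⁻¹ ∈ A' := (A'.mem_or_inv_mem z).resolve_left hzA
  set w : A' := ⟨z⁻¹, hinv⟩ with hw
  have hmem : ∀ N : ℕ, w ∈ maximalIdeal A' ^ N := by
    intro N
    obtain ⟨n, hNn, y, hy⟩ := h N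
    have hyA : y ∉ A' := fun hyA => hzA (hy ▸ pow_mem hyA n)
    have hyinv : y⁻¹ ∈ A' := (A'.mem_or_inv_mem y).resolve_left hyA
    set t : A' := ⟨y⁻¹, hyinv⟩ with ht
    have htm : t ∈ maximalIdeal A' := by
      rw [mem_maximalIdeal, mem_nonunits_iff]
      intro htu
      obtain ⟨s, hs⟩ := htu.exists_right_inv
      have hs' : y⁻¹ * (s : K) = 1 := by
        have := congrArg (fun a : A' => (a : K)) hs
        simpa [ht] using this
      have hy0 : y ≠ 0 := by
        rintro rfl
        simp at hs'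
      have : (s : K) = y := by
        field_simp at hs'
        exact hs'
      exact hyA (this ▸ s.2)
    have hwt : w = t ^ n := by
      apply Subtype.ext
      simp [hw, ht, ← hy]
    rw [hwt]
    exact Ideal.pow_le_pow_right hNn (Ideal.pow_mem_pow htm n)
  have hbot : w ∈ (⨅ i : ℕ, maximalIdeal A' ^ i) := by
    simp only [Ideal.mem_iInf]
    exact hmem
  rw [Ideal.iInf_pow_eq_bot_of_isLocalRing _ (maximalIdeal.isMaximal A').ne_top] at hbot
  have hw0 : w = 0 := by simpa using hbot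
  have : z⁻¹ = 0 := by
    have := congrArg (fun a : A' => (a : K)) hw0
    simpa [hw] using this
  exact hz (inv_eq_zero.mp this)

/-- A principal unit of a complete valuation subring with finite residue field lies in every
Noetherian valuation subring. -/
theorem mem_of_sub_one_mem_maximalIdeal775 (A A' : ValuationSubring K)
    [IsAdicComplete (maximalIdeal A) A] [Finite (ResidueField A)] [IsNoetherianRing A']
    {x : A} (hx : x - 1 ∈ maximalIdeal A) : (x : K) ∈ A' := by
  classical
  let _ : Fintype (ResidueField A) := Fintype.ofFinite _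
  set q : ℕ := Fintype.card (ResidueField A) with hq
  have hqm : ((q : ℕ) : A) ∈ maximalIdeal A := by
    rw [← residue_eq_zero_iff, map_natCast]
    exact FiniteField.cast_card_eq_zero (ResidueField A)
  have hx0 : (x : K) ≠ 0 := by
    intro h0
    have hx0' : x = 0 := Subtype.ext h0
    rw [hx0', zero_sub] at hx
    have h1 : (1 : A) ∈ maximalIdeal A := by simpa using (maximalIdeal A).neg_mem hx
    exact (Ideal.ne_top_iff_one _).mp (maximalIdeal.isMaximal A).ne_top h1
  refine mem_of_forall_exists_pow_eq775 A' hx0 fun N => ?_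
  refine ⟨q * N + 1, ?_, ?_⟩
  · have hq1 : 1 ≤ q := Fintype.card_pos
    nlinarith
  · have hn : (((q * N + 1 : ℕ) : ℕ) : A) - 1 ∈ maximalIdeal A := by
      have : (((q * N + 1 : ℕ) : ℕ) : A) - 1 = (q : A) * (N : A) := by push_cast; ring
      rw [this]
      exact Ideal.mul_mem_right _ _ hqm
    obtain ⟨y, hy⟩ := exists_pow_eq_of_sub_one_mem775 hn hx
    exact ⟨(y : K), by rw [← hy]; simp⟩

/-- A complete valuation subring with finite residue field is contained in every Noetherian
valuation subring (of the same field) -/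
theorem le_of_complete_of_noetherian775 (A A' : ValuationSubring K)
    [IsAdicComplete (maximalIdeal A) A] [Finite (ResidueField A)] [IsNoetherianRing A'] :
    A ≤ A' := by
  classical
  let _ : Fintype (ResidueField A) := Fintype.ofFinite _
  -- units of `A` lie in `A'`
  have hunit : ∀ u : A, IsUnit u → (u : K) ∈ A' := by
    intro u hu
    set q : ℕ := Fintype.card (ResidueField A) with hq
    have hres : residue A u ≠ 0 := by
      rw [Ne, residue_eq_zero_iff, mem_maximalIdeal, mem_nonunits_iff]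
      exact not_not.mpr hu
    have hpow : residue A (u ^ (q - 1)) = 1 := by
      rw [map_pow]
      exact FiniteField.pow_card_sub_one_eq_one _ hres
    have hx : u ^ (q - 1) - 1 ∈ maximalIdeal A := by
      rw [← residue_eq_zero_iff, map_sub, hpow, map_one, sub_self]
    have hmem : ((u ^ (q - 1) : A) : K) ∈ A' := mem_of_sub_one_mem_maximalIdeal775 A A' hx
    have hq2 : q - 1 ≠ 0 := by
      have : 1 < q := Fintype.one_lt_card
      omega
    -- `A'` is integrally closed
    by_contra huA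
    have huinv : (u : K)⁻¹ ∈ A' := (A'.mem_or_inv_mem _).resolve_left huA
    have hu0 : (u : K) ≠ 0 := by
      intro h0
      exact huA (h0 ▸ A'.zero_mem)
    obtain ⟨m, hm⟩ : ∃ m, q - 1 = m + 1 := Nat.exists_eq_succ_of_ne_zero hq2
    have : (u : K) = ((u ^ (q - 1) : A) : K) * ((u : K)⁻¹) ^ m := by
      rw [hm]
      push_cast
      rw [pow_succ, inv_pow, mul_comm ((u : K) ^ m) (u : K), mul_assoc,
        mul_inv_cancel₀ (pow_ne_zero m hu0), mul_one]
    exact huA (this ▸ A'.mul_mem _ _ hmem (pow_mem huinv _))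
  intro a ha
  by_cases hau : IsUnit (⟨a, ha⟩ : A)
  · exact hunit ⟨a, ha⟩ hau
  · have h1 : IsUnit ((1 : A) + ⟨a, ha⟩) := by
      have hm : (⟨a, ha⟩ : A) ∈ maximalIdeal A := by
        rw [mem_maximalIdeal, mem_nonunits_iff]
        exact hau
      have := IsLocalRing.isUnit_one_sub_self_of_mem_nonunits (-(⟨a, ha⟩ : A))
        (by
          rw [← mem_maximalIdeal]
          exact (maximalIdeal A).neg_mem hm)
      simpa using this
    have h2 := hunit _ h1
    have h3 : a = (((1 : A) + ⟨a, ha⟩ : A) : K) - 1 := by simp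
    rw [h3]
    exact A'.sub_mem h2 A'.one_mem

end

/-- **L-A0** The ring of integers of a local field is unique. -/
theorem ringOfIntegersUnique775 : RingOfIntegersUniqueSpec := by
  intro K _ _ A A' hA hA'
  obtain ⟨hdvr, hcomp, hfin⟩ := hA
  obtain ⟨hdvr', hcomp', hfin'⟩ := hA'
  have := hdvr
  have := hdvr'
  have := hcomp
  have := hcomp'
  have := hfin
  have := hfin'
  exact le_antisymm (le_of_complete_of_noetherian775 A A') (le_of_complete_of_noetherian775 A' A)

end Fermat.Agent.S55.L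

end
-- ===== PACK-END S55/L/RingOfIntegersUnique775.lean

-- ===== PACK-BEGIN S55/L/H661/UnramNorm.lean
section


/-!
# Norms of units in unramified extensions of complete local rings  (S55, layer L, leaf UNR)

`A` a complete local ring with finite residue field, `B` a finite free `A`-algebra with
`𝔪_A B` a maximal ideal of `B` (the "unramified, one prime above" condition; for discrete
valuation rings this says `𝔪_A B = 𝔪_B`).  Then the norm `Bˣ → Aˣ` is surjective.

* `norm_quotient_mk` : the norm commutes with reduction modulo the maximal ideal.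
* `exists_trace_eq_one_of_unramified` : some element of `B` has trace `1`.
* `unitsMap_norm_surjective_of_unramified` : surjectivity of the norm on units.
* `unitsMap_norm_surjective_of_dvr` : the version for discrete valuation rings, with hypothesis
  `𝔪_A B = 𝔪_B`.
-/

namespace Fermat.Agent.S55.L.H661

open Module IsLocalRing

section Quotient

variable {R S : Type*} [CommRing R] [CommRing S] [Algebra R S]
variable [Module.Free R S] [Module.Finite R S]

attribute [local instance] Ideal.Quotient.field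

/-- The norm commutes with reduction modulo the maximal ideal (the analogue of Mathlib's
`Algebra.trace_quotient_mk`). -/
theorem norm_quotient_mk [IsLocalRing R] (x : S) :
    Algebra.norm (R ⧸ maximalIdeal R)
        (Ideal.Quotient.mk (Ideal.map (algebraMap R S) (maximalIdeal R)) x) =
      Ideal.Quotient.mk (maximalIdeal R) (Algebra.norm R x) := by
  classical
  let ι := Module.Free.ChooseBasisIndex R S
  let b : Module.Basis ι R S := Module.Free.chooseBasis R S
  rw [Algebra.norm_eq_matrix_det b, Algebra.norm_eq_matrix_det (basisQuotient b),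
    RingHom.map_det]
  congr 1
  ext i j
  simp only [Algebra.leftMulMatrix_apply, Algebra.coe_lmul_eq_mul, LinearMap.toMatrix_apply,
    basisQuotient_apply, LinearMap.mul_apply', RingHom.mapMatrix_apply, Matrix.map_apply,
    ← map_mul, basisQuotient_repr]

end Quotient

section Unramified

variable {A B : Type*} [CommRing A] [IsLocalRing A] [CommRing B] [Algebra A B]
variable [Module.Free A B] [Module.Finite A B]

attribute [local instance] Ideal.Quotient.field

/-- In an unramified finite free extension of a local ring with finite residue field, some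
element has trace `1`. -/
theorem exists_trace_eq_one_of_unramified [Finite (ResidueField A)]
    (hmax : (Ideal.map (algebraMap A B) (maximalIdeal A)).IsMaximal) :
    ∃ x₀ : B, Algebra.trace A B x₀ = 1 := by
  have := hmax
  have : Finite (A ⧸ maximalIdeal A) := ‹Finite (ResidueField A)›
  have : Module.Finite (A ⧸ maximalIdeal A) (B ⧸ Ideal.map (algebraMap A B) (maximalIdeal A)) :=
    Module.Finite.of_restrictScalars_finite A _ _
  have : Finite (B ⧸ Ideal.map (algebraMap A B) (maximalIdeal A)) :=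
    Module.finite_of_finite (A ⧸ maximalIdeal A)
  obtain ⟨y, hy⟩ := Algebra.trace_surjective (A ⧸ maximalIdeal A)
    (B ⧸ Ideal.map (algebraMap A B) (maximalIdeal A)) 1
  obtain ⟨x, rfl⟩ := Ideal.Quotient.mk_surjective y
  rw [Algebra.trace_quotient_mk] at hy
  have hunit : IsUnit (Algebra.trace A B x) := by
    by_contra h
    have hmem : Algebra.trace A B x ∈ maximalIdeal A := (mem_maximalIdeal _).mpr h
    rw [Ideal.Quotient.eq_zero_iff_mem.mpr hmem] at hy
    exact zero_ne_one hy
  obtain ⟨w, hw⟩ := hunit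
  refine ⟨(↑w⁻¹ : A) • x, ?_⟩
  rw [map_smul, ← hw, smul_eq_mul, Units.inv_mul]

/-- **Norm of units in an unramified extension is surjective.**  `A` complete local with finite
residue field, `B` finite free over `A` with `𝔪_A B` maximal. -/
theorem exists_unit_norm_eq_of_unramified [IsAdicComplete (maximalIdeal A) A]
    [Finite (ResidueField A)]
    (hmax : (Ideal.map (algebraMap A B) (maximalIdeal A)).IsMaximal) (u : Aˣ) :
    ∃ v : Bˣ, Algebra.norm A (v : B) = u := by
  obtain ⟨x₀, hx₀⟩ := exists_trace_eq_one_of_unramified (A := A) (B := B) hmax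
  have := hmax
  have : Finite (A ⧸ maximalIdeal A) := ‹Finite (ResidueField A)›
  have : Module.Finite (A ⧸ maximalIdeal A) (B ⧸ Ideal.map (algebraMap A B) (maximalIdeal A)) :=
    Module.Finite.of_restrictScalars_finite A _ _
  have : Finite (B ⧸ Ideal.map (algebraMap A B) (maximalIdeal A)) :=
    Module.finite_of_finite (A ⧸ maximalIdeal A)
  obtain ⟨y, hy⟩ := FiniteField.norm_surjective (A ⧸ maximalIdeal A)
    (B ⧸ Ideal.map (algebraMap A B) (maximalIdeal A)) (Ideal.Quotient.mk _ (u : A))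
  obtain ⟨v₀, rfl⟩ := Ideal.Quotient.mk_surjective y
  rw [norm_quotient_mk, Ideal.Quotient.eq] at hy
  have hv₀ : (u : A) - Algebra.norm A v₀ ∈ maximalIdeal A := by
    have := (maximalIdeal A).neg_mem hy
    simpa using this
  obtain ⟨v, hv, -⟩ := exists_norm_eq_of_trace_eq_one (maximalIdeal A) hx₀ u v₀ hv₀
  have hvu : IsUnit v := isUnit_of_isUnit_norm (A := A) (by rw [hv]; exact u.isUnit)
  exact ⟨hvu.unit, by simpa using hv⟩

theorem unitsMap_norm_surjective_of_unramified [IsAdicComplete (maximalIdeal A) A]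
    [Finite (ResidueField A)]
    (hmax : (Ideal.map (algebraMap A B) (maximalIdeal A)).IsMaximal) :
    Function.Surjective (Units.map (Algebra.norm A : B →* A)) := by
  intro u
  obtain ⟨v, hv⟩ := exists_unit_norm_eq_of_unramified (B := B) hmax u
  exact ⟨v, Units.ext (by simpa using hv)⟩

/-- Version for local rings `B`: hypothesis `𝔪_A B = 𝔪_B`. -/
theorem unitsMap_norm_surjective_of_map_maximalIdeal_eq [IsLocalRing B]
    [IsAdicComplete (maximalIdeal A) A] [Finite (ResidueField A)]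
    (hunr : Ideal.map (algebraMap A B) (maximalIdeal A) = maximalIdeal B) :
    Function.Surjective (Units.map (Algebra.norm A : B →* A)) :=
  unitsMap_norm_surjective_of_unramified (hunr ▸ inferInstance)

end Unramified

end Fermat.Agent.S55.L.H661

end
-- ===== PACK-END S55/L/H661/UnramNorm.lean

-- ===== PACK-BEGIN S55/H295/SplitDefs.lean
section



/-!
# The splitting module of a 2-cocycle: definitions

Let `G` be a finite group, `k` a commutative ring, `C : Rep k G` and `c ∈ Z²(G, C)`.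

* `augP k G = Fun(G, k)` with `G` acting by right translation, `augε : augP ⟶ k` the sum map,
  `augI k G = ker augε` ("augmentation ideal"), and the short exact sequence
  `augSES : 0 → augI → augP → k → 0`;
* `splitRep c : Rep k G` on `C × augI`, with the twisted action
  `g • (a, φ) = (g a + ∑ₓ φ(x) • c(g, x⁻¹), g φ)`, and the short exact sequence
  `splitSES c : 0 → C → splitRep c → augI → 0`.

No normalisation of the cocycle is needed.
-/

set_option autoImplicit false
set_option linter.unusedSectionVars false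

open CategoryTheory groupCohomology Rep Limits

universe u

namespace Fermat.Agent.S55.H295

open Fermat.Agent.S55.H783

noncomputable section

variable (k G : Type u) [CommRing k] [Group G] [Fintype G]

/-- The sum map `Fun(G, k) → k`. -/
def augLin : (G → k) →ₗ[k] k where
  toFun φ := ∑ x : G, φ x
  map_add' φ ψ := by simp [Finset.sum_add_distrib]
  map_smul' r φ := by simp [Finset.mul_sum]

lemma augLin_apply (φ : G → k) : augLin k G φ = ∑ x : G, φ x := rfl

lemma augLin_funRho (g : G) (φ : G → k) : augLin k G (funRho k G k g φ) = augLin k G φ := by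
  rw [augLin_apply, augLin_apply]
  exact Fintype.sum_equiv (Equiv.mulRight g) _ _ fun x => rfl

/-- `P = Fun(G, k)` with right translation. -/
abbrev augP : Rep.{u} k G := funRep k G k

/-- The augmentation `P ⟶ k`. -/
def augε : augP k G ⟶ Rep.trivial k G k :=
  Rep.ofHom (ρ := funRho k G k) (σ := (Rep.trivial k G k).ρ) ⟨augLin k G, fun g => by
    apply LinearMap.ext
    intro φ
    exact augLin_funRho k G g φ⟩

lemma augε_apply (φ : G → k) : (augε k G).hom φ = ∑ x : G, φ x := rfl

/-- The underlying submodule of the augmentation ideal. -/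
def augIsub : Submodule k (G → k) := LinearMap.ker (augLin k G)

lemma mem_augIsub (φ : G → k) : φ ∈ augIsub k G ↔ ∑ x : G, φ x = 0 := LinearMap.mem_ker

lemma augIsub_le_comap (g : G) : augIsub k G ≤ (augIsub k G).comap (funRho k G k g) := by
  intro φ hφ
  rw [Submodule.mem_comap, augIsub, LinearMap.mem_ker, augLin_funRho]
  exact hφ

/-- The action of `G` on the augmentation ideal. -/
abbrev augIrho : Representation k G (augIsub k G) :=
  Representation.subrepresentation (funRho k G k) (augIsub k G) (augIsub_le_comap k G)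

/-- The augmentation ideal `I = ker (P ⟶ k)`. -/
abbrev augI : Rep.{u} k G := Rep.of (augIrho k G)

lemma augIrho_apply_coe (g : G) (φ : augIsub k G) (x : G) :
    (augIrho k G g φ).1 x = φ.1 (x * g) := rfl

/-- The inclusion `I ⟶ P`. -/
def augj : augI k G ⟶ augP k G :=
  Rep.ofHom (ρ := augIrho k G) (σ := funRho k G k) ⟨(augIsub k G).subtype, fun _ => rfl⟩

lemma augj_apply (φ : augIsub k G) : (augj k G).hom φ = φ.1 := rfl

lemma augj_comp_augε : augj k G ≫ augε k G = 0 := by
  apply Rep.hom_ext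
  apply Representation.IntertwiningMap.ext
  apply LinearMap.ext
  intro φ
  exact φ.2

/-- The augmentation sequence `0 → I → P → k → 0`. -/
def augSES : ShortComplex (Rep.{u} k G) :=
  ShortComplex.mk (augj k G) (augε k G) (augj_comp_augε k G)

lemma augSES_shortExact : (augSES k G).ShortExact := by
  classical
  apply rep_shortExact_of
  · intro φ ψ h
    exact Subtype.ext h
  · intro φ hφ
    exact ⟨⟨φ, hφ⟩, rfl⟩
  · intro r
    refine ⟨Pi.single 1 r, ?_⟩
    change ∑ x : G, (Pi.single 1 r : G → k) x = r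
    rw [Finset.sum_pi_single']
    simp

variable {k G}

section Split

variable {C : Rep.{u} k G}

/-- The twisting map `β_g(φ) = ∑ₓ φ(x) • c(g, x⁻¹)`. -/
def splitβ (c : G × G → C.V) (g : G) : (G → k) →ₗ[k] C.V where
  toFun φ := ∑ x : G, φ x • c (g, x⁻¹)
  map_add' φ ψ := by simp [add_smul, Finset.sum_add_distrib]
  map_smul' r φ := by simp [mul_smul, Finset.smul_sum]

lemma splitβ_apply (c : G × G → C.V) (g : G) (φ : G → k) :
    splitβ c g φ = ∑ x : G, φ x • c (g, x⁻¹) := rfl

/-- `β₁` vanishes on the augmentation ideal. -/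
lemma splitβ_one (c : cocycles₂ C) (φ : G → k) (hφ : ∑ x : G, φ x = 0) :
    splitβ (c : G × G → C.V) 1 φ = 0 := by
  rw [splitβ_apply]
  have h : ∀ x : G, φ x • (c : G × G → C.V) (1, x⁻¹) = φ x • (c : G × G → C.V) (1, 1) :=
    fun x => by rw [cocycles₂_map_one_fst c x⁻¹]
  rw [Finset.sum_congr rfl (fun x _ => h x), ← Finset.sum_smul, hφ, zero_smul]

/-- The cocycle relation for `β` on the augmentation ideal. -/
lemma splitβ_mul (c : cocycles₂ C) (g h : G) (φ : G → k) (hφ : ∑ x : G, φ x = 0) :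
    splitβ (c : G × G → C.V) (g * h) φ =
      C.ρ g (splitβ (c : G × G → C.V) h φ) + splitβ (c : G × G → C.V) g (funRho k G k h φ) := by
  have hc := (mem_cocycles₂_iff (c : G × G → C.V)).1 c.2
  simp only [splitβ_apply, map_sum, map_smul]
  -- reindex the last sum by `x ↦ x * h⁻¹`
  have h3 : ∑ x : G, (funRho k G k h φ) x • (c : G × G → C.V) (g, x⁻¹) =
      ∑ y : G, φ y • (c : G × G → C.V) (g, h * y⁻¹) := by
    refine Fintype.sum_equiv (Equiv.mulRight h) _ _ fun x => ?_
    change φ (x * h) • (c : G × G → C.V) (g, x⁻¹) = φ (x * h) • (c : G × G → C.V) (g, h * (x * h)⁻¹)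
    rw [mul_inv_rev, mul_inv_cancel_left]
  rw [h3, ← Finset.sum_add_distrib]
  have h4 : ∀ x : G, φ x • (c : G × G → C.V) (g * h, x⁻¹) =
      (φ x • C.ρ g ((c : G × G → C.V) (h, x⁻¹)) + φ x • (c : G × G → C.V) (g, h * x⁻¹)) -
        φ x • (c : G × G → C.V) (g, h) := by
    intro x
    rw [← smul_add, ← smul_sub, ← hc g h x⁻¹, add_sub_cancel_right]
  rw [Finset.sum_congr rfl (fun x _ => h4 x), Finset.sum_sub_distrib, ← Finset.sum_smul, hφ,
    zero_smul, sub_zero]

/-- The underlying linear map of the action of `g` on the splitting module. -/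
def splitLin (c : G × G → C.V) (g : G) : (C.V × augIsub k G) →ₗ[k] (C.V × augIsub k G) :=
  LinearMap.prod
    ((C.ρ g).coprod ((splitβ c g).comp (augIsub k G).subtype))
    ((augIrho k G g).comp (LinearMap.snd k C.V (augIsub k G)))

lemma splitLin_apply (c : G × G → C.V) (g : G) (p : C.V × augIsub k G) :
    splitLin c g p = (C.ρ g p.1 + splitβ c g p.2.1, augIrho k G g p.2) := rfl

/-- The action of `G` on the splitting module `C × I`. -/
def splitRho (c : cocycles₂ C) : Representation k G (C.V × augIsub k G) where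
  toFun g := splitLin (c : G × G → C.V) g
  map_one' := by
    apply LinearMap.ext
    intro p
    rw [splitLin_apply, splitβ_one c p.2.1 ((mem_augIsub k G _).1 p.2.2)]
    refine Prod.ext ?_ ?_
    · simp
    · change augIrho k G 1 p.2 = p.2
      rw [map_one]
      rfl
  map_mul' g h := by
    apply LinearMap.ext
    intro p
    rw [Module.End.mul_apply, splitLin_apply, splitLin_apply, splitLin_apply,
      splitβ_mul c g h p.2.1 ((mem_augIsub k G _).1 p.2.2)]
    refine Prod.ext ?_ ?_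
    · simp only [map_mul, Module.End.mul_apply, map_add]
      rw [add_assoc]
      rfl
    · simp only [map_mul, Module.End.mul_apply]

lemma splitRho_apply (c : cocycles₂ C) (g : G) (p : C.V × augIsub k G) :
    splitRho c g p = (C.ρ g p.1 + splitβ (c : G × G → C.V) g p.2.1, augIrho k G g p.2) := rfl

/-- The splitting module of the 2-cocycle `c`. -/
abbrev splitRep (c : cocycles₂ C) : Rep.{u} k G := Rep.of (splitRho c)

/-- The inclusion `C ⟶ C(c)`. -/
def spliti (c : cocycles₂ C) : C ⟶ splitRep c :=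
  Rep.ofHom (ρ := C.ρ) (σ := splitRho c) ⟨LinearMap.inl k C.V (augIsub k G), fun g => by
    apply LinearMap.ext
    intro a
    change ((C.ρ g a, (0 : augIsub k G)) : C.V × augIsub k G) = splitRho c g (a, 0)
    rw [splitRho_apply]
    simp⟩

lemma spliti_apply (c : cocycles₂ C) (a : C.V) : (spliti c).hom a = (a, 0) := rfl

/-- The projection `C(c) ⟶ I`. -/
def splitπ (c : cocycles₂ C) : splitRep c ⟶ augI k G :=
  Rep.ofHom (ρ := splitRho c) (σ := augIrho k G) ⟨LinearMap.snd k C.V (augIsub k G),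
    fun _ => rfl⟩

lemma splitπ_apply (c : cocycles₂ C) (p : C.V × augIsub k G) : (splitπ c).hom p = p.2 := rfl

lemma spliti_comp_splitπ (c : cocycles₂ C) : spliti c ≫ splitπ c = 0 := by
  apply Rep.hom_ext
  apply Representation.IntertwiningMap.ext
  apply LinearMap.ext
  intro a
  rfl

/-- The sequence `0 → C → C(c) → I → 0`. -/
def splitSES (c : cocycles₂ C) : ShortComplex (Rep.{u} k G) :=
  ShortComplex.mk (spliti c) (splitπ c) (spliti_comp_splitπ c)

lemma splitSES_shortExact (c : cocycles₂ C) : (splitSES c).ShortExact := by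
  apply rep_shortExact_of
  · intro a b h
    exact congrArg Prod.fst h
  · intro p hp
    refine ⟨p.1, ?_⟩
    change ((p.1, (0 : augIsub k G)) : C.V × augIsub k G) = p
    have hp' : p.2 = 0 := hp
    exact Prod.ext rfl hp'.symm
  · intro φ
    exact ⟨(0, φ), rfl⟩

end Split

end

end Fermat.Agent.S55.H295

end
-- ===== PACK-END S55/H295/SplitDefs.lean

-- ===== PACK-BEGIN S55/E1/Defs.lean
section
/-
S55 engine E1 (Milne ADT I.1/I.4 at finite level) — FROZEN definitions, block ALG.
Chief architect: helper55.  Blueprint: coord/S55-E1.md.  Mathlib + T/Spec only.  NO sorry.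

Setting: `G : Type` a group, `N : Rep ℤ G` (in applications finite and killed by `p`).
STANDARD PRESENTATION `0 → R → P → N → 0`, `P = ℤ[G]^{(N)}` = `Rep.free ℤ G N.V`.
-/



set_option autoImplicit false

open CategoryTheory CategoryTheory.Limits

namespace Fermat.Agent.S55.E1

noncomputable section

variable {G : Type} [Group G]

/-- `P = ℤ[G]^{(N)}`: the free `ℤ[G]`-module on the underlying SET of `N`. -/
abbrev stdP (N : Rep.{0} ℤ G) : Rep.{0} ℤ G := Rep.free ℤ G N.V

/-- `ε : P → N`, `g • e_n ↦ g • n`. -/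
def stdε (N : Rep.{0} ℤ G) : stdP N ⟶ N := Rep.freeLift ℤ G N (fun n : N.V => n)

/-- `R = ker ε`. -/
def stdR (N : Rep.{0} ℤ G) : Rep.{0} ℤ G := kernel (stdε N)

/-- The inclusion `R → P`. -/
def stdι (N : Rep.{0} ℤ G) : stdR N ⟶ stdP N := kernel.ι (stdε N)

/-- The basis element `e_n ∈ P`. -/
def stdE (N : Rep.{0} ℤ G) (n : N.V) : (stdP N).V :=
  Finsupp.single n (MonoidAlgebra.single (1 : G) (1 : ℤ))

/-- The standard presentation as a short complex `R → P → N`. -/
def stdSC (N : Rep.{0} ℤ G) : ShortComplex (Rep.{0} ℤ G) :=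
  ShortComplex.mk (stdι N) (stdε N) (kernel.condition (stdε N))

/-- `A(X) = Hom_G(R, X)`. -/
abbrev homA (N X : Rep.{0} ℤ G) : Type := stdR N ⟶ X

/-- `Bc(X) = Hom_G(P, X)`. -/
abbrev homB (N X : Rep.{0} ℤ G) : Type := stdP N ⟶ X

/-- `res : Bc(X) → A(X)`, restriction to `R`. -/
def resBA (N X : Rep.{0} ℤ G) : homB N X →+ homA N X where
  toFun h := stdι N ≫ h
  map_zero' := by simp
  map_add' := by intros; simp

/-- `𝔈²(X) = H¹(G, Hom_ℤ(R, X))`. -/
abbrev E2 (N X : Rep.{0} ℤ G) : Type := groupCohomology ((Rep.ihom (stdR N)).obj X) 1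

/-- `f ∈ A(X)` extends to `P`, i.e. lies in `res Bc(X)`. -/
def Extends {N X : Rep.{0} ℤ G} (f : homA N X) : Prop := ∃ h : homB N X, stdι N ≫ h = f

theorem stdε_stdE (N : Rep.{0} ℤ G) (n : N.V) : (stdε N).hom (stdE N n) = n := by
  simp [stdε, stdE]
  exact @one_smul ℤ N.V _ N.hV2.toMulAction n

theorem stdε_surjective (N : Rep.{0} ℤ G) : Function.Surjective (stdε N).hom :=
  fun n => ⟨stdE N n, stdε_stdE N n⟩

theorem stdι_mono (N : Rep.{0} ℤ G) : Mono (stdι N) := by
  unfold stdι
  exact equalizer.ι_mono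

/-- `0 → R → P → N → 0` is short exact. -/
theorem stdSC_shortExact (N : Rep.{0} ℤ G) : (stdSC N).ShortExact := by
  have h1 : Epi (stdε N) := (Rep.epi_iff_surjective _).2 (stdε_surjective N)
  have h2 : Mono (stdι N) := stdι_mono N
  exact { exact := ShortComplex.exact_of_f_is_kernel _ (kernelIsKernel (stdε N))
          mono_f := h2
          epi_g := h1 }

/-- The connecting map `δ : H¹(G, N) → H²(G, R)` of the standard presentation. -/
def stdδ (N : Rep.{0} ℤ G) : groupCohomology N 1 →ₗ[ℤ] groupCohomology (stdR N) 2 :=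
  (groupCohomology.δ (stdSC_shortExact N) 1 2 rfl).hom

/-- The pairing `⟨f, x⟩ = f_*(δ x) ∈ H²(G, X)` for `f ∈ A(X) = Hom_G(R, X)`, `x ∈ H¹(G, N)`. -/
def pair {N X : Rep.{0} ℤ G} (f : homA N X) (x : groupCohomology N 1) : groupCohomology X 2 :=
  (T.coeffMap f 2).hom (stdδ N x)

/-- `(C, γ)` is a class module AT `p`: the class-module conditions for all `p`-subgroups. -/
def IsClassModuleAt (p : ℕ) [Finite G] (C : Rep.{0} ℤ G) (γ : groupCohomology C 2) : Prop :=
  ∀ H : Subgroup G, IsPGroup p H →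
    IsZero (groupCohomology (T.resSub C H) 1) ∧
    Nat.card (groupCohomology (T.resSub C H) 2) = Nat.card H ∧
    ∀ x : groupCohomology (T.resSub C H) 2, ∃ n : ℕ, x = n • (T.resMap C H 2).hom γ

/-- `x` is `p`-primary torsion. -/
def IsPPrimary (p : ℕ) {A : Type} [AddCommGroup A] (x : A) : Prop := ∃ k : ℕ, p ^ k • x = 0

/-- **T6p = Tate–Nakayama at `p`, degree (0,2)** (input from layer T; see coord/S55-E1.md §2). -/
def TateNakayamaAtSpec : Prop :=
  ∀ (p : ℕ), p.Prime → ∀ (G : Type) [Group G] [Fintype G]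
    (C : Rep.{0} ℤ G) (γ : groupCohomology C 2), IsClassModuleAt p C γ →
    ∀ (R : Rep.{0} ℤ G), @Module.Free ℤ R.V _ _ R.hV2 → @Module.Finite ℤ R.V _ _ R.hV2 →
      (∀ χ : groupCohomology R 2 →+ groupCohomology C 2,
        ∃ f : R ⟶ C, ∀ x : groupCohomology R 2, IsPPrimary p x → (T.coeffMap f 2).hom x = χ x) ∧
      (∀ f : R ⟶ C,
        (∀ x : groupCohomology R 2, IsPPrimary p x → (T.coeffMap f 2).hom x = 0) →
        ∃ (m : ℕ) (ψ : R.V →+ C.V), Nat.Coprime m p ∧ ∀ r : R.V, m • f.hom r = T.normAdd ψ r)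

end

end Fermat.Agent.S55.E1

end
-- ===== PACK-END S55/E1/Defs.lean

-- ===== PACK-BEGIN S14/H74/Tent.lean
section


/-!
# S14/N1 (helper74): the tent function and its partition of unity (piece P1)
-/

namespace Fermat.Agent.S14.H74

theorem tent_nonneg (c : ℝ) : 0 ≤ tent c := le_max_left _ _

theorem tent_le_one (c : ℝ) : tent c ≤ 1 := by
  unfold tent
  exact max_le zero_le_one (by linarith [abs_nonneg c])

theorem tent_eq_zero_of_one_le {c : ℝ} (h : 1 ≤ |c|) : tent c = 0 := by
  unfold tent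
  exact max_eq_left (by linarith)

theorem tent_of_abs_le_one {c : ℝ} (h : |c| ≤ 1) : tent c = 1 - |c| := by
  unfold tent
  exact max_eq_right (by linarith)

theorem abs_lt_one_of_tent_ne_zero {c : ℝ} (h : tent c ≠ 0) : |c| < 1 := by
  by_contra h'
  exact h (tent_eq_zero_of_one_le (not_lt.mp h'))

theorem tent_lipschitz (a b : ℝ) : |tent a - tent b| ≤ |a - b| := by
  unfold tent
  rw [max_comm 0 (1 - |a|), max_comm 0 (1 - |b|)]
  have h1 := abs_max_sub_max_le_abs (1 - |a|) (1 - |b|) 0
  have h2 : |(1 - |a|) - (1 - |b|)| ≤ |a - b| := by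
    have : (1 - |a|) - (1 - |b|) = |b| - |a| := by ring
    rw [this, abs_sub_comm a b]
    exact abs_abs_sub_abs_le_abs_sub b a
  exact h1.trans h2

/-- `|∏ a - ∏ b| ≤ ∑ |a - b|` for families with values in `[0, 1]`. -/
theorem abs_prod_sub_prod_le_sum {ι : Type*} (s : Finset ι) (a b : ι → ℝ)
    (ha0 : ∀ i, 0 ≤ a i) (ha1 : ∀ i, a i ≤ 1) (hb0 : ∀ i, 0 ≤ b i) (hb1 : ∀ i, b i ≤ 1) :
    |∏ i ∈ s, a i - ∏ i ∈ s, b i| ≤ ∑ i ∈ s, |a i - b i| := by
  classical
  induction s using Finset.induction_on with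
  | empty => simp
  | insert i s hi ih =>
    rw [Finset.prod_insert hi, Finset.prod_insert hi, Finset.sum_insert hi]
    have hA0 : 0 ≤ ∏ j ∈ s, a j := Finset.prod_nonneg fun j _ ↦ ha0 j
    have hA1 : ∏ j ∈ s, a j ≤ 1 := Finset.prod_le_one (fun j _ ↦ ha0 j) fun j _ ↦ ha1 j
    have key : a i * ∏ j ∈ s, a j - b i * ∏ j ∈ s, b j
        = (a i - b i) * ∏ j ∈ s, a j + b i * (∏ j ∈ s, a j - ∏ j ∈ s, b j) := by ring
    rw [key]
    refine (abs_add_le _ _).trans (add_le_add ?_ ?_)
    · rw [abs_mul, abs_of_nonneg hA0]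
      exact mul_le_of_le_one_right (abs_nonneg _) hA1
    · rw [abs_mul, abs_of_nonneg (hb0 i)]
      exact (mul_le_of_le_one_left (abs_nonneg _) (hb1 i)).trans ih

/-- The integer translates of the tent function sum to `1`. -/
theorem tent_hasSum (c : ℝ) : HasSum (fun k : ℤ ↦ tent (c + k)) 1 := by
  have hfl := Int.floor_le c
  have hlt := Int.lt_floor_add_one c
  set m : ℤ := ⌊c⌋ with hm
  have hne : (-m : ℤ) ≠ -m - 1 := by omega
  have hsupp : ∀ k : ℤ, k ∉ ({-m, -m - 1} : Finset ℤ) → tent (c + k) = 0 := by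
    intro k hk
    simp only [Finset.mem_insert, Finset.mem_singleton, not_or] at hk
    apply tent_eq_zero_of_one_le
    rcases lt_or_gt_of_ne hk.1 with h | h
    · have h2 : k ≤ -m - 2 := by
        have : k ≠ -m - 1 := hk.2
        omega
      have h3 : (k : ℝ) ≤ -m - 2 := by exact_mod_cast h2
      rw [abs_of_nonpos (by linarith)]
      linarith
    · have h2 : -m + 1 ≤ k := by omega
      have h3 : (-m : ℝ) + 1 ≤ k := by exact_mod_cast h2
      rw [abs_of_nonneg (by linarith)]
      linarith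
  have h : HasSum (fun k : ℤ ↦ tent (c + k)) (∑ k ∈ ({-m, -m - 1} : Finset ℤ), tent (c + k)) :=
    hasSum_sum_of_ne_finset_zero hsupp
  convert h using 1
  rw [Finset.sum_pair hne]
  have e1 : tent (c + ((-m : ℤ) : ℝ)) = 1 - (c - m) := by
    rw [tent_of_abs_le_one]
    · rw [abs_of_nonneg] <;> push_cast <;> linarith
    · rw [abs_of_nonneg] <;> push_cast <;> linarith
  have e2 : tent (c + ((-m - 1 : ℤ) : ℝ)) = c - m := by
    rw [tent_of_abs_le_one]
    · rw [abs_of_nonpos] <;> push_cast <;> linarith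
    · rw [abs_of_nonpos] <;> push_cast <;> linarith
  rw [e1, e2]
  ring

/-- Product version of the partition of unity. -/
theorem tent_prod_hasSum {ι : Type*} [Fintype ι] (c : ι → ℝ) :
    HasSum (fun k : ι → ℤ ↦ ∏ j, tent (c j + k j)) 1 := by
  classical
  let S : ι → Finset ℤ := fun j ↦ {-⌊c j⌋, -⌊c j⌋ - 1}
  have hS : ∀ j (k : ℤ), k ∉ S j → tent (c j + k) = 0 := by
    intro j k hk
    by_contra h
    have h1 := abs_lt_one_of_tent_ne_zero h
    have hfl := Int.floor_le (c j)
    have hlt := Int.lt_floor_add_one (c j)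
    rw [abs_lt] at h1
    apply hk
    simp only [S, Finset.mem_insert, Finset.mem_singleton]
    have h2 : (-⌊c j⌋ - 2 : ℝ) < k := by linarith
    have h3 : (k : ℝ) < -⌊c j⌋ + 1 := by linarith
    have h2' : -⌊c j⌋ - 2 < k := by exact_mod_cast h2
    have h3' : k < -⌊c j⌋ + 1 := by exact_mod_cast h3
    omega
  have hsum : ∀ j, ∑ k ∈ S j, tent (c j + k) = 1 := by
    intro j
    have h : HasSum (fun k : ℤ ↦ tent (c j + k)) (∑ k ∈ S j, tent (c j + k)) :=
      hasSum_sum_of_ne_finset_zero (hS j)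
    exact h.unique (tent_hasSum (c j))
  have hsupp : ∀ k : ι → ℤ, k ∉ Fintype.piFinset S → ∏ j, tent (c j + k j) = 0 := by
    intro k hk
    rw [Fintype.mem_piFinset] at hk
    push Not at hk
    obtain ⟨j, hj⟩ := hk
    exact Finset.prod_eq_zero (Finset.mem_univ j) (hS j _ hj)
  have h : HasSum (fun k : ι → ℤ ↦ ∏ j, tent (c j + k j))
      (∑ k ∈ Fintype.piFinset S, ∏ j, tent (c j + k j)) :=
    hasSum_sum_of_ne_finset_zero hsupp
  convert h using 1
  have := Finset.prod_univ_sum S (fun j (k : ℤ) ↦ tent (c j + k))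
  rw [← this]
  simp [hsum]

end Fermat.Agent.S14.H74

end
-- ===== PACK-END S14/H74/Tent.lean

-- ===== PACK-BEGIN S14/H74/Zeta.lean
section



/-!
# S14/N1 (helper74): summability and the upper bound for the sums over ideals (piece Z)

Uses the landed `Fermat.Agent.S14.N3H850.exists_sum_bound` (helper850).
-/

namespace Fermat.Agent.S14.H74

open NumberField

open scoped nonZeroDivisors

variable (K : Type*) [Field K] [NumberField K]

theorem one_le_absNorm (I : (Ideal (𝓞 K))⁰) : (1 : ℝ) ≤ Ideal.absNorm (I : Ideal (𝓞 K)) := by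
  have h : Ideal.absNorm (I : Ideal (𝓞 K)) ≠ 0 := by
    rw [Ne, Ideal.absNorm_eq_zero_iff]
    exact nonZeroDivisors.coe_ne_zero I
  exact_mod_cast Nat.one_le_iff_ne_zero.mpr h

theorem absNorm_rpow_nonneg (s : ℝ) (I : (Ideal (𝓞 K))⁰) :
    0 ≤ (Ideal.absNorm (I : Ideal (𝓞 K)) : ℝ) ^ (-s) :=
  Real.rpow_nonneg (Nat.cast_nonneg _) _

/-- Uniform bound for finite sums over nonzero ideals. -/
theorem exists_finset_sum_bound : ∃ Z : ℝ, 0 < Z ∧ ∀ s : ℝ, 1 < s → s ≤ 2 →
    ∀ T : Finset (Ideal (𝓞 K))⁰,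
      ∑ I ∈ T, (Ideal.absNorm (I : Ideal (𝓞 K)) : ℝ) ^ (-s) ≤ Z / (s - 1) := by
  obtain ⟨Z, hZ, h⟩ := Fermat.Agent.S14.N3H850.exists_sum_bound K
  refine ⟨Z, hZ, fun s hs1 hs2 T ↦ ?_⟩
  have h1 := h s hs1 hs2 (T.map ⟨Subtype.val, Subtype.val_injective⟩) (by
    intro I hI
    rw [Finset.mem_map] at hI
    obtain ⟨I', -, rfl⟩ := hI
    exact nonZeroDivisors.coe_ne_zero I')
  rwa [Finset.sum_map] at h1

theorem idealZeta_summable {s : ℝ} (hs : 1 < s) :
    Summable fun I : (Ideal (𝓞 K))⁰ ↦ (Ideal.absNorm (I : Ideal (𝓞 K)) : ℝ) ^ (-s) := by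
  obtain ⟨Z, hZ, h⟩ := exists_finset_sum_bound K
  have h2 : Summable fun I : (Ideal (𝓞 K))⁰ ↦
      (Ideal.absNorm (I : Ideal (𝓞 K)) : ℝ) ^ (-(min s 2)) :=
    summable_of_sum_le (fun I ↦ absNorm_rpow_nonneg K _ I)
      (h (min s 2) (lt_min hs (by norm_num)) (min_le_right _ _))
  refine Summable.of_nonneg_of_le (fun I ↦ absNorm_rpow_nonneg K _ I) (fun I ↦ ?_) h2
  exact Real.rpow_le_rpow_of_exponent_le (one_le_absNorm K I) (neg_le_neg (min_le_left _ _))

theorem classZeta_summable (C : ClassGroup (𝓞 K)) {s : ℝ} (hs : 1 < s) :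
    Summable fun I : {I : (Ideal (𝓞 K))⁰ // ClassGroup.mk0 I = C} ↦
      (Ideal.absNorm (I.1 : Ideal (𝓞 K)) : ℝ) ^ (-s) :=
  (idealZeta_summable K hs).comp_injective Subtype.val_injective

theorem classZeta_nonneg (C : ClassGroup (𝓞 K)) (s : ℝ) : 0 ≤ classZeta K C s :=
  tsum_nonneg fun I ↦ absNorm_rpow_nonneg K s I.1

theorem idealZeta_le : ∃ Z : ℝ, 0 < Z ∧ ∀ s : ℝ, 1 < s → s ≤ 2 → idealZeta K s ≤ Z / (s - 1) := by
  obtain ⟨Z, hZ, h⟩ := exists_finset_sum_bound K
  exact ⟨Z, hZ, fun s hs1 hs2 ↦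
    (idealZeta_summable K hs1).tsum_le_of_sum_le (h s hs1 hs2)⟩

theorem classZeta_le_idealZeta (C : ClassGroup (𝓞 K)) {s : ℝ} (hs : 1 < s) :
    classZeta K C s ≤ idealZeta K s :=
  tsum_comp_le_tsum_of_inj (idealZeta_summable K hs) (fun I ↦ absNorm_rpow_nonneg K s I)
    Subtype.val_injective

theorem classZeta_le : ∃ Z : ℝ, 0 < Z ∧ ∀ s : ℝ, 1 < s → s ≤ 2 → ∀ C : ClassGroup (𝓞 K),
    classZeta K C s ≤ Z / (s - 1) := by
  obtain ⟨Z, hZ, h⟩ := idealZeta_le K
  exact ⟨Z, hZ, fun s hs1 hs2 C ↦ (classZeta_le_idealZeta K C hs1).trans (h s hs1 hs2)⟩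

/-- The sum over all ideals splits along the classes. -/
theorem idealZeta_eq_sum {s : ℝ} (hs : 1 < s) :
    idealZeta K s = ∑ C : ClassGroup (𝓞 K), classZeta K C s := by
  have h1 := (idealZeta_summable K hs).hasSum.tsum_fiberwise
    (fun I : (Ideal (𝓞 K))⁰ ↦ ClassGroup.mk0 I)
  have h2 : (fun C : ClassGroup (𝓞 K) ↦ ∑' I : ((fun I : (Ideal (𝓞 K))⁰ ↦ ClassGroup.mk0 I) ⁻¹'
      {C} : Set (Ideal (𝓞 K))⁰), (Ideal.absNorm ((I : (Ideal (𝓞 K))⁰) : Ideal (𝓞 K)) : ℝ) ^ (-s))
      = fun C ↦ classZeta K C s := rfl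
  rw [h2] at h1
  exact h1.unique (hasSum_fintype _)

end Fermat.Agent.S14.H74

end
-- ===== PACK-END S14/H74/Zeta.lean

-- ===== PACK-BEGIN S55/L/Unram784/Core.lean
section


/-!
# S55, layer L, leaf L-A2 (helper784): structure of unramified extensions, ring level

Setting: `R → S` a local homomorphism of complete discrete valuation rings with finite residue
fields `k → l`, unramified (`𝔪_R S = 𝔪_S`).  For a monic `g : R[X]` whose reduction is
irreducible of degree `[l : k]`:
* the reduction of `g` splits in `l` with distinct roots, each of which lifts uniquely to a root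
  of `g` in `S` (Hensel);
* `S = R[β]` for every root `β` of `g` in `S` (complete Nakayama).
-/

set_option autoImplicit false

namespace Fermat.Agent.S55.L

open IsLocalRing Polynomial

section Residue

variable {R S : Type} [CommRing R] [CommRing S] [IsLocalRing R] [IsLocalRing S]
  [Algebra R S] [IsLocalHom (algebraMap R S)]

theorem u784_map_map_residue (g : R[X]) :
    (g.map (algebraMap R S)).map (residue S) =
      (g.map (residue R)).map (algebraMap (ResidueField R) (ResidueField S)) := by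
  rw [Polynomial.map_map, Polynomial.map_map]
  congr 1

theorem u784_residue_eval (p : S[X]) (a : S) :
    residue S (p.eval a) = (p.map (residue S)).eval (residue S a) := by
  rw [Polynomial.eval_map, Polynomial.eval₂_at_apply]

variable [Finite (ResidueField R)] [Finite (ResidueField S)]

/-- An irreducible polynomial of degree `[l : k]` over the finite field `k` splits in `l`. -/
theorem u784_splits_of_natDegree_eq (f : (ResidueField R)[X]) (hirr : Irreducible f)
    (hdeg : f.natDegree = Module.finrank (ResidueField R) (ResidueField S)) :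
    (f.map (algebraMap (ResidueField R) (ResidueField S))).Splits := by
  have hdvd := (hirr.natDegree_dvd_iff_dvd_X_pow_card_pow_sub_X
    (n := Module.finrank (ResidueField R) (ResidueField S))).mp (hdeg ▸ dvd_rfl)
  have := Fintype.ofFinite (ResidueField S)
  have hcard : Nat.card (ResidueField R) ^ Module.finrank (ResidueField R) (ResidueField S) =
      Fintype.card (ResidueField S) := by
    rw [← Module.natCard_eq_pow_finrank, Nat.card_eq_fintype_card]
  rw [hcard] at hdvd
  have hsp := (FiniteField.isSplittingField_sub (ResidueField S) (ResidueField R)).splits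
  refine Splits.of_dvd hsp ?_ (Polynomial.map_dvd _ hdvd)
  exact (Polynomial.map_ne_zero_iff
    (algebraMap (ResidueField R) (ResidueField S)).injective).mpr
    (FiniteField.X_pow_card_sub_X_ne_zero _ Fintype.one_lt_card)

end Residue

section Hensel

variable {R S : Type} [CommRing R] [CommRing S] [IsLocalRing R] [IsLocalRing S]
  [Algebra R S] [IsLocalHom (algebraMap R S)] [IsAdicComplete (maximalIdeal S) S]

/-- Hensel: simple roots of the reduction lift to roots in `S`. -/
theorem u784_exists_lift_root (g : R[X]) (hg : g.Monic) (hsep : (g.map (residue R)).Separable)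
    (r : ResidueField S)
    (hr : ((g.map (residue R)).map (algebraMap (ResidueField R) (ResidueField S))).IsRoot r) :
    ∃ a : S, (g.map (algebraMap R S)).IsRoot a ∧ residue S a = r := by
  obtain ⟨a₀, rfl⟩ := residue_surjective r
  have hH : HenselianRing S (maximalIdeal S) := IsAdicComplete.henselianRing S _
  have hsep' : ((g.map (algebraMap R S)).map (residue S)).Separable := by
    rw [u784_map_map_residue]
    exact hsep.map
  have hm : eval a₀ (g.map (algebraMap R S)) ∈ maximalIdeal S := by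
    rw [← residue_eq_zero_iff, u784_residue_eval, u784_map_map_residue]
    exact hr
  have hu : IsUnit (Ideal.Quotient.mk (maximalIdeal S)
      (eval a₀ (derivative (g.map (algebraMap R S))))) := by
    have h1 : residue S (eval a₀ (derivative (g.map (algebraMap R S)))) ≠ 0 := by
      rw [u784_residue_eval, ← Polynomial.derivative_map]
      have h2 := hsep'.eval₂_derivative_ne_zero (RingHom.id _) (x := residue S a₀) (by
        rw [Polynomial.eval₂_id, u784_map_map_residue]
        exact hr)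
      rwa [Polynomial.eval₂_id] at h2
    exact (isUnit_iff_ne_zero.mpr h1 :)
  obtain ⟨a, ha, haa⟩ := hH.is_henselian (g.map (algebraMap R S)) (hg.map _) a₀ hm hu
  refine ⟨a, ha, ?_⟩
  rw [← sub_eq_zero, ← map_sub, residue_eq_zero_iff]
  exact haa

omit [IsAdicComplete (maximalIdeal S) S] in
/-- Uniqueness of the Hensel lift. -/
theorem u784_lift_root_unique (g : R[X]) (hsep : (g.map (residue R)).Separable)
    (a b : S) (ha : (g.map (algebraMap R S)).IsRoot a) (hb : (g.map (algebraMap R S)).IsRoot b)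
    (hab : residue S a = residue S b) : a = b := by
  have hsep' : ((g.map (algebraMap R S)).map (residue S)).Separable := by
    rw [u784_map_map_residue]
    exact hsep.map
  refine IsLocalRing.eq_of_eval_eq_zero_of_not_isUnit_sub ha hb ?_ ?_
  · rw [← mem_nonunits_iff, ← mem_maximalIdeal, ← residue_eq_zero_iff, map_sub, hab, sub_self]
  · have h1 : residue S (eval a (derivative (g.map (algebraMap R S)))) ≠ 0 := by
      rw [u784_residue_eval, ← Polynomial.derivative_map]
      have h2 := hsep'.eval₂_derivative_ne_zero (RingHom.id _) (x := residue S a) (by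
        rw [Polynomial.eval₂_id, ← u784_residue_eval, ha, map_zero])
      rwa [Polynomial.eval₂_id] at h2
    by_contra hnu
    exact h1 ((residue_eq_zero_iff _).mpr ((mem_maximalIdeal _).mpr hnu))

end Hensel

section Field

/-- In an extension `l/k` of degree `deg f`, with `f` monic irreducible, every element of `l` is a
polynomial of degree `< deg f` in any root of `f`. -/
theorem u784_exists_aeval_eq {k l : Type} [Field k] [Field l] [Algebra k l]
    [FiniteDimensional k l] (f : k[X]) (hf : f.Monic) (hirr : Irreducible f)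
    (hdeg : f.natDegree = Module.finrank k l) (r₀ : l) (hr₀ : aeval r₀ f = 0) (x : l) :
    ∃ p : k[X], p.natDegree < f.natDegree ∧ aeval r₀ p = x := by
  have hmin : minpoly k r₀ = f := (minpoly.eq_of_irreducible_of_monic hirr hr₀ hf).symm
  have hint : IsIntegral k r₀ := Algebra.IsIntegral.isIntegral r₀
  have htop : IntermediateField.adjoin k {r₀} = ⊤ :=
    (Field.primitive_element_iff_minpoly_natDegree_eq k r₀).mpr (by rw [hmin, hdeg])
  have hx : x ∈ (IntermediateField.adjoin k {r₀}).toSubalgebra := by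
    rw [htop]
    exact Algebra.mem_top
  rw [IntermediateField.adjoin_simple_toSubalgebra_of_isAlgebraic hint.isAlgebraic,
    Algebra.adjoin_singleton_eq_range_aeval] at hx
  obtain ⟨p, rfl⟩ := hx
  refine ⟨p %ₘ f, Polynomial.natDegree_modByMonic_lt p hf ?_, ?_⟩
  · rintro rfl
    exact hirr.not_isUnit isUnit_one
  · exact Polynomial.aeval_modByMonic_eq_self_of_root hr₀

end Field

section Span

variable {R S : Type} [CommRing R] [CommRing S] [IsLocalRing R] [IsLocalRing S]
  [Algebra R S] [IsLocalHom (algebraMap R S)]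
  [IsAdicComplete (maximalIdeal R) R] [IsAdicComplete (maximalIdeal S) S]
  [Finite (ResidueField R)] [Finite (ResidueField S)]

omit [IsAdicComplete (maximalIdeal R) R] [IsAdicComplete (maximalIdeal S) S]
  [Finite (ResidueField R)] [Finite (ResidueField S)] in
theorem u784_aeval_residue_eq_zero (g : R[X]) (β : S)
    (hβ : (g.map (algebraMap R S)).IsRoot β) : aeval (residue S β) (g.map (residue R)) = 0 := by
  have h1 : residue S (eval β (g.map (algebraMap R S))) = 0 := by rw [hβ, map_zero]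
  rw [u784_residue_eval, u784_map_map_residue] at h1
  rw [Polynomial.aeval_def, Polynomial.eval₂_eq_eval_map]
  exact h1

/-- `S = R[β]` for a root `β` of a monic polynomial whose reduction is irreducible of degree
`[l : k]`. -/
theorem u784_span_pow (hunr : (maximalIdeal R).map (algebraMap R S) = maximalIdeal S)
    (g : R[X]) (hg : g.Monic) (hirr : Irreducible (g.map (residue R)))
    (hdeg : g.natDegree = Module.finrank (ResidueField R) (ResidueField S))
    (β : S) (hβ : (g.map (algebraMap R S)).IsRoot β) (x : S) :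
    ∃ a : Fin g.natDegree → R, x = ∑ i, a i • β ^ (i : ℕ) := by
  refine u784_exists_eq_sum_smul hunr (fun i : Fin g.natDegree => β ^ (i : ℕ)) ?_ x
  intro x
  have hr₀ := u784_aeval_residue_eq_zero g β hβ
  have hdeg' : (g.map (residue R)).natDegree =
      Module.finrank (ResidueField R) (ResidueField S) := by
    rw [hg.natDegree_map, hdeg]
  obtain ⟨p, hpdeg, hp⟩ := u784_exists_aeval_eq (g.map (residue R)) (hg.map _) hirr hdeg'
    (residue S β) hr₀ (residue S x)
  rw [hg.natDegree_map] at hpdeg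
  choose c hc using fun i : ℕ => residue_surjective (p.coeff i)
  refine ⟨fun i => c i, ?_⟩
  rw [← residue_eq_zero_iff, map_sub, map_sum, sub_eq_zero, ← hp,
    Polynomial.aeval_eq_sum_range' hpdeg, ← Fin.sum_univ_eq_sum_range
      (fun i => p.coeff i • residue S β ^ i)]
  refine Finset.sum_congr rfl fun i _ => ?_
  rw [Algebra.smul_def, Algebra.smul_def, map_mul, map_pow, ← hc,
    ResidueField.algebraMap_residue]

end Span

end Fermat.Agent.S55.L

end
-- ===== PACK-END S55/L/Unram784/Core.lean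

-- ===== PACK-BEGIN S55/GAD/DivExt.lean
section
/-
S55 / G-ADAPTER (helper955): extension of divisors `Div^S(K) → Div^S(L)` along an extension of
number fields `K → L`, `v ↦ ∑_{w | v} e(w | v) [w]`, compatible with the divisor maps
(`ord_w(x) = e(w | v) · ord_v(x)` for `x ∈ Kˣ`).  Mathlib + `G/Defs.lean` only.  No `sorry`.
-/


set_option autoImplicit false
set_option linter.unusedSectionVars false

open scoped NumberField
open IsDedekindDomain

namespace Fermat.Agent.S55.GAD

open Fermat.Agent.S55.G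

noncomputable section

variable (S : Finset Nat.Primes) (K L : Type) [Field K] [NumberField K] [Field L] [NumberField L]
  [Algebra K L]

/-- The prime of `K` below a prime of `L`. -/
def underPrime (w : HeightOneSpectrum (𝓞 L)) : HeightOneSpectrum (𝓞 K) := w.under (𝓞 K)

instance underPrime_liesOver (w : HeightOneSpectrum (𝓞 L)) :
    w.asIdeal.LiesOver (underPrime K L w).asIdeal := ⟨rfl⟩

lemma mem_underPrime_iff (w : HeightOneSpectrum (𝓞 L)) (x : 𝓞 K) :
    x ∈ (underPrime K L w).asIdeal ↔ algebraMap (𝓞 K) (𝓞 L) x ∈ w.asIdeal := Iff.rfl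

lemma isAbove_underPrime_iff (w : HeightOneSpectrum (𝓞 L)) :
    IsAbove S K (underPrime K L w) ↔ IsAbove S L w := by
  unfold IsAbove
  simp only [mem_underPrime_iff, map_natCast]

/-- The prime of `K` outside `S` below a prime of `L` outside `S`. -/
def underOut (w : PrimeOut S L) : PrimeOut S K :=
  ⟨underPrime K L w.1, fun h => w.2 ((isAbove_underPrime_iff S K L w.1).1 h)⟩

/-- The ramification index `e(w | v)`, `v` the prime below `w`. -/
def ramIdx (w : HeightOneSpectrum (𝓞 L)) : ℕ :=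
  (underPrime K L w).asIdeal.ramificationIdx' w.asIdeal

/-- `ord_w(x) = e(w | v) · ord_v(x)` for `x ∈ Kˣ`. -/
lemma ordAt_lMap (w : HeightOneSpectrum (𝓞 L)) (x : Additive Kˣ) :
    ordAt w (lMap K L x) = (ramIdx K L w : ℤ) * ordAt (underPrime K L w) x := by
  have h := HeightOneSpectrum.valuation_liesOver (K := K) L (underPrime K L w) w
    ((x.toMul : Kˣ) : K)
  rw [ordAt_apply, ordAt_apply]
  have h2 : ((lMap K L x).toMul : Lˣ).val = algebraMap K L ((x.toMul : Kˣ) : K) := rfl
  rw [h2, ← h, WithZero.log_pow]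
  simp only [ramIdx, nsmul_eq_mul]
  ring

lemma ramIdx_ne_zero (w : HeightOneSpectrum (𝓞 L)) : ramIdx K L w ≠ 0 :=
  Ideal.IsDedekindDomain.ramificationIdx'_ne_zero_of_liesOver w.asIdeal
    (underPrime K L w).ne_bot

/-- The primes of `L` above a given prime of `K` are finite in number. -/
lemma underPrime_fiber_finite (v : HeightOneSpectrum (𝓞 K)) :
    {w : HeightOneSpectrum (𝓞 L) | underPrime K L w = v}.Finite := by
  have hfin := IsDedekindDomain.primesOver_finite v.asIdeal (𝓞 L)
  refine Set.Finite.of_finite_image (f := HeightOneSpectrum.asIdeal) (hfin.subset ?_)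
    (fun a _ b _ hab => HeightOneSpectrum.ext hab)
  rintro _ ⟨w, hw, rfl⟩
  refine ⟨w.isPrime, ⟨?_⟩⟩
  rw [← hw]
  rfl

lemma underOut_fiber_finite (v : PrimeOut S K) :
    (underOut S K L ⁻¹' {v}).Finite := by
  have h := underPrime_fiber_finite K L v.1
  refine Set.Finite.of_finite_image (f := Subtype.val) (h.subset ?_)
    (fun a _ b _ hab => Subtype.ext hab)
  rintro _ ⟨w, hw, rfl⟩
  exact congrArg Subtype.val hw

/-- Extension of divisors `Div^S(K) → Div^S(L)`: `v ↦ ∑_{w | v} e(w | v) [w]`. -/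
def divExt : (PrimeOut S K →₀ ℤ) →+ (PrimeOut S L →₀ ℤ) where
  toFun d := Finsupp.ofSupportFinite
    (fun w : PrimeOut S L => (ramIdx K L w.1 : ℤ) * d (underOut S K L w)) (by
      refine (Set.Finite.preimage' d.hasFiniteSupport
        (fun v _ => underOut_fiber_finite S K L v)).subset ?_
      intro w hw
      simp only [Function.mem_support, ne_eq, mul_eq_zero, not_or] at hw
      simpa using hw.2)
  map_zero' := by
    ext w
    simp [Finsupp.ofSupportFinite_coe]
  map_add' d d' := by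
    ext w
    simp [Finsupp.ofSupportFinite_coe, mul_add]

@[simp] lemma divExt_apply (d : PrimeOut S K →₀ ℤ) (w : PrimeOut S L) :
    divExt S K L d w = (ramIdx K L w.1 : ℤ) * d (underOut S K L w) := rfl

/-- The divisor maps are compatible with extension of divisors. -/
lemma divExt_ordHom (x : Additive Kˣ) :
    divExt S K L (ordHom S K x) = ordHom S L (lMap K L x) := by
  ext w
  rw [divExt_apply]
  exact (ordAt_lMap K L w.1 x).symm

lemma divExt_injective : Function.Injective (divExt S K L) := by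
  intro d d' h
  ext v
  obtain ⟨P, hPm, hP⟩ := Ideal.exists_maximal_ideal_liesOver_of_isIntegral (S := 𝓞 L) v.1.asIdeal
  have hPbot : P ≠ ⊥ := Ideal.ne_bot_of_liesOver_of_ne_bot v.1.ne_bot P
  let w : HeightOneSpectrum (𝓞 L) := ⟨P, hPm.isPrime, hPbot⟩
  have hwv : underPrime K L w = v.1 := HeightOneSpectrum.ext hP.over.symm
  have hw : ¬ IsAbove S L w := fun hh =>
    v.2 (by rw [← hwv]; exact (isAbove_underPrime_iff S K L w).2 hh)
  have h2 : underOut S K L ⟨w, hw⟩ = v := Subtype.ext hwv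
  have h1 : (ramIdx K L w : ℤ) * d (underOut S K L ⟨w, hw⟩) =
      (ramIdx K L w : ℤ) * d' (underOut S K L ⟨w, hw⟩) :=
    DFunLike.congr_fun h (⟨w, hw⟩ : PrimeOut S L)
  rw [h2] at h1
  exact mul_left_cancel₀ (Nat.cast_ne_zero.2 (ramIdx_ne_zero K L w)) h1

/-! ### Galois equivariance -/

section Equivariance

variable (G G' : Type) [Group G] [Group G'] [MulSemiringAction G K] [MulSemiringAction G' L]
  (π : G' →* G)

variable {K L G G'} in
lemma algebraMap_int_smul {π : G' →* G}
    (hπ : ∀ (g : G') (x : K), algebraMap K L (π g • x) = g • algebraMap K L x)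
    (g : G') (x : 𝓞 K) :
    algebraMap (𝓞 K) (𝓞 L) (π g • x) = g • algebraMap (𝓞 K) (𝓞 L) x :=
  Subtype.ext (hπ g (x : K))

variable {K L G G'} in
lemma underPrime_primeSMul {π : G' →* G}
    (hπ : ∀ (g : G') (x : K), algebraMap K L (π g • x) = g • algebraMap K L x)
    (g : G') (w : HeightOneSpectrum (𝓞 L)) :
    underPrime K L (primeSMul G' g w) = primeSMul G (π g) (underPrime K L w) := by
  refine HeightOneSpectrum.ext (Ideal.ext fun x => ?_)
  rw [mem_underPrime_iff, mem_primeSMul_iff, mem_primeSMul_iff, mem_underPrime_iff,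
    ← map_inv, algebraMap_int_smul hπ]

variable {K L G G'} in
lemma underOut_primeOutMap {π : G' →* G}
    (hπ : ∀ (g : G') (x : K), algebraMap K L (π g • x) = g • algebraMap K L x)
    (g : G') (w : PrimeOut S L) :
    underOut S K L (primeOutMap S G' L g w) = primeOutMap S G K (π g) (underOut S K L w) :=
  Subtype.ext (underPrime_primeSMul hπ g w.1)

variable {K L G G'} in
lemma lMap_lRepr {π : G' →* G}
    (hπ : ∀ (g : G') (x : K), algebraMap K L (π g • x) = g • algebraMap K L x)
    (g : G') (x : Additive Kˣ) :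
    lMap K L (lRepr G K (π g) x) = lRepr G' L g (lMap K L x) := by
  apply Additive.toMul.injective
  apply Units.ext
  exact hπ g _

variable {K L G G'} in
/-- The ramification index is Galois invariant. -/
lemma ramIdx_primeSMul {π : G' →* G}
    (hπ : ∀ (g : G') (x : K), algebraMap K L (π g • x) = g • algebraMap K L x)
    (g : G') (w : HeightOneSpectrum (𝓞 L)) :
    ramIdx K L (primeSMul G' g w) = ramIdx K L w := by
  obtain ⟨ϖ, hϖ⟩ := (underPrime K L w).valuation_exists_uniformizer K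
  have hϖ0 : ϖ ≠ 0 := by
    rintro rfl
    rw [map_zero] at hϖ
    exact WithZero.exp_ne_zero hϖ.symm
  let x : Additive Kˣ := Additive.ofMul (Units.mk0 ϖ hϖ0)
  have hx : ordAt (underPrime K L w) x = 1 := by
    rw [ordAt_apply]
    change -WithZero.log ((underPrime K L w).valuation K ϖ) = 1
    rw [hϖ]
    simp
  have h1 := ordAt_lMap K L w x
  have h2 := ordAt_lMap K L (primeSMul G' g w) (lRepr G K (π g) x)
  rw [lMap_lRepr hπ, ordAt_primeSMul, underPrime_primeSMul hπ, ordAt_primeSMul, hx, mul_one] at h2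
  rw [hx, mul_one] at h1
  exact_mod_cast h2.symm.trans h1

variable {K L G G'} in
/-- Extension of divisors is Galois equivariant. -/
lemma divExt_equivariant {π : G' →* G}
    (hπ : ∀ (g : G') (x : K), algebraMap K L (π g • x) = g • algebraMap K L x)
    (g : G') (d : PrimeOut S K →₀ ℤ) :
    divExt S K L (divRepr S G K (π g) d) = divRepr S G' L g (divExt S K L d) := by
  ext w
  have hw : w = primeOutMap S G' L g (primeOutMap S G' L g⁻¹ w) := by
    rw [← primeOutMap_mul, mul_inv_cancel, primeOutMap_one]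
  rw [hw, divRepr_apply_apply, divExt_apply, divExt_apply, underOut_primeOutMap S hπ,
    divRepr_apply_apply, primeOutMap_val, ramIdx_primeSMul hπ]

end Equivariance

end

end Fermat.Agent.S55.GAD

end
-- ===== PACK-END S55/GAD/DivExt.lean

-- ===== PACK-BEGIN S55/LocalSpec/H964/Transport.lean
section




/-!
# S55, `Tow.LocalSpec` (helper964): transport of subgroup cohomology along an isomorphism

`(φ : G ≃* G', e : C ≃+ C')` equivariant.  For every subgroup `H ≤ G`:
`Hⁿ(H, C) ≅ Hⁿ(φ H, C')` (`subgroupIso`), hence the "numerical class module" data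
(`H¹ = 0`, `H² ≃+ ZMod |H|` for all subgroups) transports (`classData_transport`).
-/

set_option autoImplicit false
set_option linter.style.haveILetI false

open CategoryTheory groupCohomology

namespace Fermat.Agent.S55.LocalSpec.H964

open Fermat.Agent.S55

section Generic

variable {k : Type} [CommRing k] {G G' : Type} [Group G] [Group G']

/-- Transport of the cohomology of a subgroup along an equivariant isomorphism (generic
coefficient ring). -/
noncomputable def subgroupIsoGen (φ : G ≃* G') (C : Rep.{0} k G) (C' : Rep.{0} k G')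
    (e : C.V ≃ₗ[k] C'.V) (he : ∀ g x, e (C.ρ g x) = C'.ρ (φ g) (e x)) (H : Subgroup G) (n : ℕ) :
    groupCohomology (T.resSub C H) n ≅
      groupCohomology (T.resSub C' (H.map (φ : G →* G'))) n :=
  groupCohomology.mapIso (φ.subgroupMap H) e
    (fun g => LinearMap.ext fun x => he (g : G) x) n

end Generic

variable {G G' : Type} [Group G] [Group G']

/-- An additive equivalence between the underlying groups of two `ℤ`-representations is
`ℤ`-linear (for whatever `Module ℤ` instances the representations carry). -/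
def toIntLin (C : Rep.{0} ℤ G) (C' : Rep.{0} ℤ G') (e : C.V ≃+ C'.V) :
    @LinearEquiv ℤ ℤ _ _ (RingHom.id ℤ) (RingHom.id ℤ) _ _ C.V C'.V _ _ C.hV2 C'.hV2 :=
  @LinearEquiv.mk ℤ ℤ _ _ (RingHom.id ℤ) (RingHom.id ℤ) _ _ C.V C'.V _ _ C.hV2 C'.hV2
    (@LinearMap.mk ℤ ℤ _ _ (RingHom.id ℤ) C.V C'.V _ _ C.hV2 C'.hV2
      ⟨e, e.map_add⟩ (fun c x => by
        show e (@HSMul.hSMul ℤ C.V C.V (@instHSMul ℤ C.V C.hV2.toSMul) c x) =
          @HSMul.hSMul ℤ C'.V C'.V (@instHSMul ℤ C'.V C'.hV2.toSMul) c (e x)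
        exact (congrArg e (T.modSMul_eq_zsmul C.hV2 c x)).trans
          ((map_zsmul e c x).trans (T.modSMul_eq_zsmul C'.hV2 c (e x)).symm)))
    e.symm e.left_inv e.right_inv

lemma toIntLin_apply (C : Rep.{0} ℤ G) (C' : Rep.{0} ℤ G') (e : C.V ≃+ C'.V) (x : C.V) :
    (toIntLin C C' e) x = e x := rfl

/-- Transport of the cohomology of a subgroup along an equivariant isomorphism. -/
noncomputable def subgroupIso (φ : G ≃* G') (C : Rep.{0} ℤ G) (C' : Rep.{0} ℤ G')
    (e : C.V ≃+ C'.V) (he : ∀ g x, e (C.ρ g x) = C'.ρ (φ g) (e x)) (H : Subgroup G) (n : ℕ) :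
    groupCohomology (T.resSub C H) n ≅
      groupCohomology (T.resSub C' (H.map (φ : G →* G'))) n :=
  subgroupIsoGen (k := ℤ) φ C C' (toIntLin C C' e) he H n

/-- Transport of the numerical class-module data. -/
theorem classData_transport (φ : G ≃* G') (C : Rep.{0} ℤ G) (C' : Rep.{0} ℤ G')
    (e : C.V ≃+ C'.V) (he : ∀ g x, e (C.ρ g x) = C'.ρ (φ g) (e x))
    (h' : ∀ H' : Subgroup G', Subsingleton (groupCohomology (T.resSub C' H') 1) ∧
      Nonempty (groupCohomology (T.resSub C' H') 2 ≃+ ZMod (Nat.card H')))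
    (H : Subgroup G) :
    Limits.IsZero (groupCohomology (T.resSub C H) 1) ∧
      Nonempty (groupCohomology (T.resSub C H) 2 ≃+ ZMod (Nat.card H)) := by
  obtain ⟨h1, ⟨e2⟩⟩ := h' (H.map (φ : G →* G'))
  constructor
  · have hz : Limits.IsZero (groupCohomology (T.resSub C' (H.map (φ : G →* G'))) 1) :=
      ModuleCat.isZero_of_subsingleton _
    exact hz.of_iso (subgroupIso φ C C' e he H 1)
  · have hcard : Nat.card (H.map (φ : G →* G')) = Nat.card H :=
      (Nat.card_congr (φ.subgroupMap H).toEquiv).symm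
    rw [hcard] at e2
    exact ⟨((subgroupIso φ C C' e he H 2).toLinearEquiv.toAddEquiv).trans e2⟩

end Fermat.Agent.S55.LocalSpec.H964

end
-- ===== PACK-END S55/LocalSpec/H964/Transport.lean

-- ===== PACK-BEGIN S55/H424/PowIndex.lean
section


/-!
# LPI (local power index), part 2: the index of `n`-th powers in the unit group

Setting: a commutative ring `A`, a non-zero-divisor `ϖ : A` such that `A` is `ϖ`-adically
complete with `A ⧸ (ϖ)` finite, and `n ≠ 0` with `(n : A) ∣ ϖ ^ v`.

Main result: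

* `H424.index_range_pow_units` :
  `[Aˣ : (Aˣ) ^ n] = |μ_n(A)| * |A ⧸ (n)|`.
-/

set_option autoImplicit false

namespace Fermat.Agent.S55.H424

variable {A : Type*} [CommRing A]

/-- Units congruent to `1` modulo `x`. -/
def congrUnits (x : A) : Subgroup Aˣ where
  carrier := {u | x ∣ (u : A) - 1}
  one_mem' := by
    show x ∣ ((1 : Aˣ) : A) - 1
    simp
  mul_mem' := by
    intro u u' hu hu'
    have hu1 : x ∣ (u : A) - 1 := hu
    have hu2 : x ∣ (u' : A) - 1 := hu'
    show x ∣ ((u * u' : Aˣ) : A) - 1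
    have h1 : ((u * u' : Aˣ) : A) - 1 = ((u : A) - 1) * u' + ((u' : A) - 1) := by
      push_cast; ring
    rw [h1]
    exact dvd_add (hu1.mul_right _) hu2
  inv_mem' := by
    intro u hu
    have hu1 : x ∣ (u : A) - 1 := hu
    show x ∣ ((u⁻¹ : Aˣ) : A) - 1
    have h1 : ((u⁻¹ : Aˣ) : A) - 1 = -(((u⁻¹ : Aˣ) : A) * ((u : A) - 1)) := by
      rw [mul_sub, Units.inv_mul]; ring
    rw [h1]
    exact (dvd_neg).2 (hu1.mul_left _)

lemma mem_congrUnits {x : A} {u : Aˣ} : u ∈ congrUnits x ↔ x ∣ (u : A) - 1 := Iff.rfl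

lemma congrUnits_mono {x y : A} (h : x ∣ y) : congrUnits y ≤ congrUnits x :=
  fun _ hu => h.trans hu

lemma congrUnits_eq_ker (x : A) :
    congrUnits x
      = (Units.map (Ideal.Quotient.mk (Ideal.span {x})).toMonoidHom).ker := by
  ext u
  rw [mem_congrUnits, MonoidHom.mem_ker, Units.ext_iff, Units.coe_map, Units.val_one]
  change _ ↔ Ideal.Quotient.mk (Ideal.span {x}) (u : A) = 1
  rw [← map_one (Ideal.Quotient.mk (Ideal.span {x})), Ideal.Quotient.eq,
    Ideal.mem_span_singleton]

lemma congrUnits_index_ne_zero (x : A) [Finite (A ⧸ Ideal.span {x})] :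
    (congrUnits x).index ≠ 0 := by
  rw [congrUnits_eq_ker, Subgroup.index_ker]
  exact Nat.card_pos.ne'

/-- If `ϖ` is a non-zero-divisor, so are its powers. -/
lemma pow_nzd {ϖ : A} (hϖ : ∀ x : A, ϖ * x = 0 → x = 0) (k : ℕ) :
    ∀ x : A, ϖ ^ k * x = 0 → x = 0 := by
  induction k with
  | zero => intro x hx; simpa using hx
  | succ k ih =>
    intro x hx
    apply ih
    apply hϖ
    rw [← hx]; ring

lemma pow_mul_cancel {ϖ : A} (hϖ : ∀ x : A, ϖ * x = 0 → x = 0) (k : ℕ) {x y : A}
    (h : ϖ ^ k * x = ϖ ^ k * y) : x = y := by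
  have h1 : ϖ ^ k * (x - y) = 0 := by rw [mul_sub, h, sub_self]
  exact sub_eq_zero.1 (pow_nzd hϖ k _ h1)

/-- If `x ≡ 1 mod ϖ ^ m`, `(n : A) ∣ ϖ ^ v` and `v ≤ m`, then `x ^ n ≡ 1 mod n * ϖ ^ m`. -/
lemma natCast_mul_pow_dvd_pow_sub_one {ϖ : A} {n v m : ℕ} (hN : (n : A) ∣ ϖ ^ v)
    (hm : v ≤ m) {x : A} (hx : ϖ ^ m ∣ x - 1) : (n : A) * ϖ ^ m ∣ x ^ n - 1 := by
  obtain ⟨w, hw⟩ := hN
  obtain ⟨a, ha⟩ := hx
  obtain ⟨d, rfl⟩ := Nat.exists_eq_add_of_le hm
  obtain ⟨c, hc⟩ := one_add_pow_expand (ϖ ^ (v + d) * a) n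
  have hx' : x = 1 + ϖ ^ (v + d) * a := by rw [← ha]; ring
  have h1 : (ϖ ^ (v + d) * a) ^ 2 = ϖ ^ v * (ϖ ^ (v + d) * (ϖ ^ d * a ^ 2)) := by ring
  rw [hx', hc, h1, hw]
  refine ⟨a + c * w * (ϖ ^ d * a ^ 2), ?_⟩
  ring

section Complete

variable (ϖ : A)

/-- The image of `1 + ϖ ^ m A` under `x ↦ x ^ n` is `1 + n ϖ ^ m A` for `m ≥ v + 1`. -/
theorem map_pow_congrUnits [IsAdicComplete (Ideal.span {ϖ}) A] {n v m : ℕ} (hn : n ≠ 0)
    (hN : (n : A) ∣ ϖ ^ v) (hm : v + 1 ≤ m) :
    (congrUnits (ϖ ^ m)).map (powMonoidHom n : Aˣ →* Aˣ) = congrUnits ((n : A) * ϖ ^ m) := by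
  ext w
  constructor
  · rintro ⟨u, hu, rfl⟩
    rw [mem_congrUnits]
    have h1 := natCast_mul_pow_dvd_pow_sub_one hN (Nat.le_of_succ_le hm) (mem_congrUnits.1 hu)
    simpa using h1
  · intro hw
    obtain ⟨x, hx1, hx2⟩ := exists_pow_eq ϖ hN hm (mem_congrUnits.1 hw)
    have hxu : IsUnit x := by
      have h2 : IsUnit (x ^ n) := by rw [hx2]; exact w.isUnit
      exact (isUnit_pow_iff hn).1 h2
    obtain ⟨u, rfl⟩ := hxu
    refine ⟨u, hx1, ?_⟩
    apply Units.ext
    simpa using hx2

/-- `x ↦ x ^ n` is injective on `1 + ϖ ^ m A` for `m ≥ v + 1`. -/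
theorem ker_pow_inf_congrUnits [IsHausdorff (Ideal.span {ϖ}) A] {n v m : ℕ}
    (hN : (n : A) ∣ ϖ ^ v) (hnzd : ∀ x : A, (n : A) * x = 0 → x = 0) (hm : v + 1 ≤ m) :
    congrUnits (ϖ ^ m) ⊓ (powMonoidHom n : Aˣ →* Aˣ).ker = ⊥ := by
  rw [eq_bot_iff]
  rintro u ⟨hu1, hu2⟩
  rw [Subgroup.mem_bot]
  apply Units.ext
  rw [Units.val_one]
  refine eq_one_of_pow_eq_one ϖ hN hnzd hm (mem_congrUnits.1 hu1) ?_
  have h1 : u ^ n = 1 := by simpa [MonoidHom.mem_ker] using hu2
  have h2 := congrArg (fun z : Aˣ => (z : A)) h1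
  simpa using h2

/-- `1 + ϖ x` is a unit in a `ϖ`-adically complete ring. -/
lemma isUnit_one_add_mul [IsAdicComplete (Ideal.span {ϖ}) A] (x : A) : IsUnit (1 + ϖ * x) := by
  have h1 : ϖ ∈ (⊥ : Ideal A).jacobson :=
    IsAdicComplete.le_jacobson_bot (Ideal.span {ϖ}) (Ideal.mem_span_singleton_self ϖ)
  have h2 := Ideal.mem_jacobson_bot.1 h1 x
  rwa [add_comm] at h2

/-- The "logarithm to first order" `u ↦ (u - 1) / ϖ ^ m`. -/
noncomputable def congrQuot (m : ℕ) (u : congrUnits (ϖ ^ m)) : A := Classical.choose u.2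

lemma congrQuot_spec (m : ℕ) (u : congrUnits (ϖ ^ m)) :
    ((u : Aˣ) : A) - 1 = ϖ ^ m * congrQuot ϖ m u := Classical.choose_spec u.2

/-- The group homomorphism `1 + ϖ ^ m A → A ⧸ (n)`, `1 + ϖ ^ m t ↦ t`, for `m ≥ v`. -/
noncomputable def congrQuotHom (hϖ : ∀ x : A, ϖ * x = 0 → x = 0) {n v m : ℕ}
    (hN : (n : A) ∣ ϖ ^ v) (hm : v ≤ m) :
    congrUnits (ϖ ^ m) →* Multiplicative (A ⧸ Ideal.span {(n : A)}) where
  toFun u := Multiplicative.ofAdd (Ideal.Quotient.mk _ (congrQuot ϖ m u))
  map_one' := by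
    have h1 := congrQuot_spec ϖ m (1 : congrUnits (ϖ ^ m))
    have h2 : congrQuot ϖ m (1 : congrUnits (ϖ ^ m)) = 0 := by
      apply pow_nzd hϖ m
      rw [← h1]; simp
    rw [h2, map_zero, ofAdd_zero]
  map_mul' := by
    intro u u'
    rw [← ofAdd_add, ← map_add]
    congr 1
    rw [Ideal.Quotient.eq, Ideal.mem_span_singleton]
    have h1 := congrQuot_spec ϖ m u
    have h2 := congrQuot_spec ϖ m u'
    have h3 := congrQuot_spec ϖ m (u * u')
    have h4 : congrQuot ϖ m (u * u')
        = congrQuot ϖ m u + congrQuot ϖ m u' + ϖ ^ m * (congrQuot ϖ m u * congrQuot ϖ m u') := by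
      apply pow_mul_cancel hϖ m
      rw [← h3]
      have h5 : (((u * u' : congrUnits (ϖ ^ m)) : Aˣ) : A) - 1
          = (((u : Aˣ) : A) - 1) + (((u' : Aˣ) : A) - 1)
            + (((u : Aˣ) : A) - 1) * (((u' : Aˣ) : A) - 1) := by
        push_cast; ring
      rw [h5, h1, h2]; ring
    rw [h4]
    obtain ⟨w, hw⟩ := hN
    obtain ⟨d, rfl⟩ := Nat.exists_eq_add_of_le hm
    refine ⟨w * ϖ ^ d * (congrQuot ϖ (v + d) u * congrQuot ϖ (v + d) u'), ?_⟩
    rw [pow_add, hw]; ring

lemma congrQuotHom_apply (hϖ : ∀ x : A, ϖ * x = 0 → x = 0) {n v m : ℕ}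
    (hN : (n : A) ∣ ϖ ^ v) (hm : v ≤ m) (u : congrUnits (ϖ ^ m)) :
    congrQuotHom ϖ hϖ hN hm u
      = Multiplicative.ofAdd (Ideal.Quotient.mk _ (congrQuot ϖ m u)) := rfl

lemma congrQuotHom_ker (hϖ : ∀ x : A, ϖ * x = 0 → x = 0) {n v m : ℕ}
    (hN : (n : A) ∣ ϖ ^ v) (hm : v ≤ m) :
    (congrQuotHom ϖ hϖ hN hm).ker
      = (congrUnits ((n : A) * ϖ ^ m)).subgroupOf (congrUnits (ϖ ^ m)) := by
  ext u
  rw [MonoidHom.mem_ker, congrQuotHom_apply, Subgroup.mem_subgroupOf, mem_congrUnits,
    congrQuot_spec ϖ m u]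
  have h0 : Multiplicative.ofAdd (Ideal.Quotient.mk (Ideal.span {(n : A)}) (congrQuot ϖ m u)) = 1
      ↔ (n : A) ∣ congrQuot ϖ m u := by
    rw [← ofAdd_zero, Multiplicative.ofAdd.apply_eq_iff_eq, Ideal.Quotient.eq_zero_iff_mem,
      Ideal.mem_span_singleton]
  rw [h0]
  constructor
  · rintro ⟨s, hs⟩
    exact ⟨s, by rw [hs]; ring⟩
  · rintro ⟨s, hs⟩
    refine ⟨s, ?_⟩
    apply pow_mul_cancel hϖ m
    rw [hs]; ring

lemma congrQuotHom_surjective [IsAdicComplete (Ideal.span {ϖ}) A]
    (hϖ : ∀ x : A, ϖ * x = 0 → x = 0) {n v m : ℕ}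
    (hN : (n : A) ∣ ϖ ^ v) (hm : v ≤ m) (hm1 : 1 ≤ m) :
    Function.Surjective (congrQuotHom ϖ hϖ hN hm) := by
  intro y
  obtain ⟨t, ht⟩ := Ideal.Quotient.mk_surjective (Multiplicative.toAdd y)
  obtain ⟨d, rfl⟩ := Nat.exists_eq_add_of_le hm1
  have hu : IsUnit (1 + ϖ * (ϖ ^ d * t)) := isUnit_one_add_mul ϖ _
  obtain ⟨u, hu⟩ := hu
  have hmem : u ∈ congrUnits (ϖ ^ (1 + d)) := by
    rw [mem_congrUnits, hu]
    exact ⟨t, by ring⟩
  refine ⟨⟨u, hmem⟩, ?_⟩
  rw [congrQuotHom_apply]
  have h1 := congrQuot_spec ϖ (1 + d) ⟨u, hmem⟩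
  have h2 : congrQuot ϖ (1 + d) ⟨u, hmem⟩ = t := by
    apply pow_mul_cancel hϖ (1 + d)
    rw [← h1]
    change (u : A) - 1 = _
    rw [hu]; ring
  rw [h2, ht]
  rfl

/-- `[1 + ϖ ^ m A : 1 + n ϖ ^ m A] = |A ⧸ (n)|` for `m ≥ max v 1`. -/
theorem relIndex_congrUnits [IsAdicComplete (Ideal.span {ϖ}) A]
    (hϖ : ∀ x : A, ϖ * x = 0 → x = 0) {n v m : ℕ}
    (hN : (n : A) ∣ ϖ ^ v) (hm : v ≤ m) (hm1 : 1 ≤ m) :
    (congrUnits ((n : A) * ϖ ^ m)).relIndex (congrUnits (ϖ ^ m))
      = Nat.card (A ⧸ Ideal.span {(n : A)}) := by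
  rw [Subgroup.relIndex, ← congrQuotHom_ker ϖ hϖ hN hm, Subgroup.index_ker,
    MonoidHom.range_eq_top.2 (congrQuotHom_surjective ϖ hϖ hN hm hm1)]
  rw [Nat.card_congr (Subgroup.topEquiv (G := Multiplicative (A ⧸ Ideal.span {(n : A)}))).toEquiv]
  exact Nat.card_congr Multiplicative.toAdd

lemma ker_powMonoidHom_units (n : ℕ) :
    (powMonoidHom n : Aˣ →* Aˣ).ker = rootsOfUnity n A := by
  ext u
  rw [MonoidHom.mem_ker, mem_rootsOfUnity]
  rfl

/-- **Local power index, unit form.** For a `ϖ`-adically complete ring `A` with `ϖ` a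
non-zero-divisor, `A ⧸ (ϖ)` finite, `n ≠ 0` and `(n : A) ∣ ϖ ^ v`:
`[Aˣ : (Aˣ) ^ n] = |μ_n(A)| * |A ⧸ (n)|`. -/
theorem index_range_pow_units [IsAdicComplete (Ideal.span {ϖ}) A]
    [Finite (A ⧸ Ideal.span {ϖ})]
    (hϖ : ∀ x : A, ϖ * x = 0 → x = 0) {n v : ℕ} (hn : n ≠ 0) (hN : (n : A) ∣ ϖ ^ v) :
    (powMonoidHom n : Aˣ →* Aˣ).range.index
      = Nat.card (rootsOfUnity n A) * Nat.card (A ⧸ Ideal.span {(n : A)}) := by
  set φ : Aˣ →* Aˣ := powMonoidHom n with hφ
  set V : Subgroup Aˣ := congrUnits (ϖ ^ (v + 1)) with hV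
  set V' : Subgroup Aˣ := congrUnits ((n : A) * ϖ ^ (v + 1)) with hV'
  have hnzd := natCast_nzd_of_dvd_pow hϖ hN
  -- `V` has finite index
  have : Finite (A ⧸ Ideal.span {ϖ ^ (v + 1)}) := by
    rw [← Ideal.span_singleton_pow]
    exact Ideal.finite_quotient_pow ⟨{ϖ}, by simp⟩ (v + 1)
  have hVfin : V.index ≠ 0 := congrUnits_index_ne_zero _
  -- the four index identities
  have e1 : (V.map φ).index = (V ⊔ φ.ker).index * φ.range.index := Subgroup.index_map V φ
  have e2 : V.map φ = V' := map_pow_congrUnits ϖ hn hN le_rfl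
  have e3 : V'.relIndex V * V.index = V'.index :=
    Subgroup.relIndex_mul_index (congrUnits_mono (Dvd.intro_left _ rfl))
  have e4 : V.relIndex (V ⊔ φ.ker) * (V ⊔ φ.ker).index = V.index :=
    Subgroup.relIndex_mul_index le_sup_left
  have e5 : V.relIndex (V ⊔ φ.ker) = Nat.card (rootsOfUnity n A) := by
    rw [Subgroup.relIndex_sup_left, ← Subgroup.inf_relIndex_right,
      ker_pow_inf_congrUnits ϖ hN hnzd le_rfl, Subgroup.relIndex_bot_left,
      ker_powMonoidHom_units]
  have e6 : V'.relIndex V = Nat.card (A ⧸ Ideal.span {(n : A)}) :=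
    relIndex_congrUnits ϖ hϖ hN (Nat.le_succ v) (Nat.succ_le_succ (Nat.zero_le v))
  have hne : (V ⊔ φ.ker).index ≠ 0 := by
    intro h0
    rw [h0, mul_zero] at e4
    exact hVfin e4.symm
  rw [e2, ← e3, ← e4, e5, e6] at e1
  -- cancel
  have e7 : (V ⊔ φ.ker).index * (Nat.card (rootsOfUnity n A) * Nat.card (A ⧸ Ideal.span {(n : A)}))
      = (V ⊔ φ.ker).index * φ.range.index := by
    rw [← e1]; ring
  exact (Nat.eq_of_mul_eq_mul_left (Nat.pos_of_ne_zero hne) e7).symm

/-- In the setting of `index_range_pow_units`, the group of `n`-th powers has finite index. -/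
theorem index_range_pow_units_ne_zero [IsAdicComplete (Ideal.span {ϖ}) A]
    [Finite (A ⧸ Ideal.span {ϖ})]
    (hϖ : ∀ x : A, ϖ * x = 0 → x = 0) {n v : ℕ} (hn : n ≠ 0) (hN : (n : A) ∣ ϖ ^ v) :
    (powMonoidHom n : Aˣ →* Aˣ).range.index ≠ 0 := by
  have hnzd := natCast_nzd_of_dvd_pow hϖ hN
  have : Finite (A ⧸ Ideal.span {ϖ ^ (v + 1)}) := by
    rw [← Ideal.span_singleton_pow]
    exact Ideal.finite_quotient_pow ⟨{ϖ}, by simp⟩ (v + 1)
  have : Finite (A ⧸ Ideal.span {ϖ ^ (v + 1 + v)}) := by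
    rw [← Ideal.span_singleton_pow]
    exact Ideal.finite_quotient_pow ⟨{ϖ}, by simp⟩ (v + 1 + v)
  -- `(Aˣ)^n ⊇ 1 + n ϖ^(v+1) A ⊇ 1 + ϖ^(2v+1) A`
  have h1 : congrUnits (ϖ ^ (v + 1 + v)) ≤ (powMonoidHom n : Aˣ →* Aˣ).range := by
    have h2 : congrUnits (ϖ ^ (v + 1 + v)) ≤ congrUnits ((n : A) * ϖ ^ (v + 1)) := by
      apply congrUnits_mono
      obtain ⟨w, hw⟩ := hN
      exact ⟨w, by rw [pow_add, hw]; ring⟩
    refine h2.trans ?_
    rw [← map_pow_congrUnits ϖ hn hN le_rfl]
    rintro _ ⟨u, _, rfl⟩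
    exact ⟨u, rfl⟩
  intro h0
  have h3 := Subgroup.index_dvd_of_le h1
  rw [h0, zero_dvd_iff] at h3
  exact congrUnits_index_ne_zero (ϖ ^ (v + 1 + v)) h3

end Complete

end Fermat.Agent.S55.H424

end
-- ===== PACK-END S55/H424/PowIndex.lean

-- ===== PACK-BEGIN S55/ColH543/Deg3.lean
section



/-!
# S55 / colimit dictionary (helper543), part 2: `H³` in explicit low-degree form

Mathlib's low-degree API (`cocycles₂`, `H2π`, …) stops in degree `2`.  We add degree `3`:

* `d_three_apply` : Mathlib's differential `C³ → C⁴` is `d34` (explicit formula on `G⁴`);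
* `cocycles₃ A`, `coboundaries₃ A` (defined in `Cochain.lean`) and
  `H3π A : cocycles₃ A →ₗ[k] groupCohomology A 3`, surjective, with kernel `coboundaries₃ A`;
* `map_H3π` : functoriality of `groupCohomology.map` on explicit 3-cocycles;
* `subsingleton_H3_iff`, `isZero_H3_iff` : `H³(G, A) = 0` iff every explicit 3-cocycle is a
  coboundary.
-/

set_option autoImplicit false

noncomputable section

open groupCohomology CategoryTheory Fermat.Agent.S55.Smooth

namespace Fermat.Agent.S55.ColH543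

variable {k : Type} [CommRing k] {G : Type} [Group G] (A : Rep.{0, 0, 0} k G)

lemma cochainsIso₃_hom_apply (f : (Fin 3 → G) → A) (x : G × G × G) :
    (cochainsIso₃ A).hom f x = f ![x.1, x.2.1, x.2.2] := rfl

lemma cochainsIso₃_inv_apply (c : G × G × G → A) (g : Fin 3 → G) :
    (cochainsIso₃ A).inv c g = c (g 0, g 1, g 2) := rfl

lemma cochainsIso₃_hom_inv_apply (c : G × G × G → A) :
    (cochainsIso₃ A).hom ((cochainsIso₃ A).inv c) = c := by
  funext ⟨g₁, g₂, g₃⟩
  rfl

lemma cochainsIso₃_inv_hom_apply (f : (Fin 3 → G) → A) :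
    (cochainsIso₃ A).inv ((cochainsIso₃ A).hom f) = f := by
  funext g
  show f ![g 0, g 1, g 2] = f g
  congr 1
  funext i
  fin_cases i <;> rfl

/-- Mathlib's differential `C³ → C⁴` in explicit form. -/
theorem d_three_apply (f : (Fin 3 → G) → A) (x : G × G × G × G) :
    (inhomogeneousCochains.d A 3).hom f ![x.1, x.2.1, x.2.2.1, x.2.2.2] =
      d34 A ((cochainsIso₃ A).hom f) x := by
  obtain ⟨g₁, g₂, g₃, g₄⟩ := x
  rw [inhomogeneousCochains.d_hom_apply, Fin.sum_univ_four]
  have h3 : ((3 : Fin 4) : ℕ) = 3 := rfl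
  have e : ((-1 : k) ^ (3 + 1)) = 1 := by norm_num
  simp only [d34_apply, h3, e]
  simp only [sub_eq_add_neg, add_assoc, Fin.val_zero, zero_add, pow_one, neg_smul,
    one_smul, Fin.val_one, Fin.val_two, pow_succ' (-1 : k) 2, neg_sq,
    Nat.one_add, one_pow, mul_one]
  rcongr i <;> fin_cases i <;> rfl

theorem d_three_eq_zero_iff (f : (Fin 3 → G) → A) :
    (inhomogeneousCochains.d A 3).hom f = 0 ↔ d34 A ((cochainsIso₃ A).hom f) = 0 := by
  constructor
  · intro h
    funext x
    rw [← d_three_apply, h]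
    rfl
  · intro h
    funext g
    have hg : g = ![g 0, g 1, g 2, g 3] := by
      funext i
      fin_cases i <;> rfl
    rw [hg, d_three_apply A f (g 0, g 1, g 2, g 3), h]
    rfl

/-- Explicit 3-cocycles as elementwise cocycles of the complex of inhomogeneous cochains. -/
def cocycles₃ToZ : cocycles₃ A →ₗ[k] Zₗ (inhomogeneousCochains A) 3 :=
  LinearMap.codRestrict _ ((cochainsIso₃ A).inv.hom ∘ₗ (cocycles₃ A).subtype) fun c => by
    rw [LinearMap.mem_ker, inhomogeneousCochains.d_def]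
    rw [d_three_eq_zero_iff]
    simp only [LinearMap.comp_apply, Submodule.subtype_apply]
    rw [cochainsIso₃_hom_inv_apply]
    exact c.2

@[simp] lemma cocycles₃ToZ_coe (c : cocycles₃ A) :
    ((cocycles₃ToZ A c : Zₗ (inhomogeneousCochains A) 3) : (Fin 3 → G) → A) =
      (cochainsIso₃ A).inv (c : G × G × G → A) := rfl

lemma cocycles₃ToZ_surjective : Function.Surjective (cocycles₃ToZ A) := by
  intro z
  have hz : (inhomogeneousCochains.d A 3).hom z.1 = 0 := by
    have := z.2
    rw [LinearMap.mem_ker, inhomogeneousCochains.d_def] at this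
    exact this
  refine ⟨⟨(cochainsIso₃ A).hom z.1, (d_three_eq_zero_iff A z.1).1 hz⟩, ?_⟩
  apply Subtype.ext
  exact cochainsIso₃_inv_hom_apply A z.1

/-- The class of an explicit 3-cocycle. -/
def H3π : cocycles₃ A →ₗ[k] groupCohomology A 3 :=
  clsₗ (inhomogeneousCochains A) 3 ∘ₗ cocycles₃ToZ A

lemma H3π_surjective : Function.Surjective (H3π A) :=
  (clsₗ_surjective (inhomogeneousCochains A) 3).comp (cocycles₃ToZ_surjective A)

variable {A}

lemma H3π_eq_zero_iff (c : cocycles₃ A) :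
    H3π A c = 0 ↔ (c : G × G × G → A) ∈ coboundaries₃ A := by
  show clsₗ (inhomogeneousCochains A) 3 (cocycles₃ToZ A c) = 0 ↔ _
  rw [clsₗ_eq_zero_iff]
  constructor
  · rintro ⟨y, hy⟩
    refine ⟨(cochainsIso₂ A).hom y, ?_⟩
    have h1 := congr($(comp_d₂₃_eq A) y)
    simp only [ModuleCat.hom_comp, LinearMap.comp_apply] at h1
    rw [h1, hy, cocycles₃ToZ_coe, cochainsIso₃_hom_inv_apply]
  · rintro ⟨b, hb⟩
    refine ⟨(cochainsIso₂ A).inv b, ?_⟩
    have h1 := congr($(eq_d₂₃_comp_inv A) b)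
    simp only [ModuleCat.hom_comp, LinearMap.comp_apply] at h1
    rw [h1, hb]
    rfl

lemma H3π_eq_iff (c c' : cocycles₃ A) :
    H3π A c = H3π A c' ↔ (c : G × G × G → A) - c' ∈ coboundaries₃ A := by
  rw [← sub_eq_zero, ← map_sub, H3π_eq_zero_iff]
  rfl

@[elab_as_elim]
theorem H3_induction_on {C : groupCohomology A 3 → Prop} (x : groupCohomology A 3)
    (h : ∀ c : cocycles₃ A, C (H3π A c)) : C x := by
  obtain ⟨c, rfl⟩ := H3π_surjective A x
  exact h c

/-- `H³(G, A) = 0` iff every explicit 3-cocycle is a coboundary. -/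
theorem subsingleton_H3_iff :
    Subsingleton (groupCohomology A 3) ↔ cocycles₃ A ≤ coboundaries₃ A := by
  constructor
  · intro h c hc
    exact (H3π_eq_zero_iff ⟨c, hc⟩).1 (Subsingleton.elim _ _)
  · intro h
    refine ⟨fun x y => ?_⟩
    induction x using H3_induction_on with
    | h c =>
    induction y using H3_induction_on with
    | h c' =>
    rw [(H3π_eq_zero_iff c).2 (h c.2), (H3π_eq_zero_iff c').2 (h c'.2)]

theorem isZero_H3_iff :
    Limits.IsZero (groupCohomology A 3) ↔ cocycles₃ A ≤ coboundaries₃ A := by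
  rw [ModuleCat.isZero_iff_subsingleton, subsingleton_H3_iff]

/-! ## Functoriality -/

section Map

variable {H : Type} [Group H] {B : Rep.{0, 0, 0} k H} (f : H →* G) (φ : Rep.res f A ⟶ B)

/-- The map on explicit 3-cochains induced by `f : H → G` and `φ : res f A → B`. -/
def mapCochains₃ : (G × G × G → A) →ₗ[k] (H × H × H → B) where
  toFun c x := φ.hom (c (f x.1, f x.2.1, f x.2.2))
  map_add' _ _ := by
    funext x
    simp
  map_smul' _ _ := by
    funext x
    simp

@[simp] lemma mapCochains₃_apply (c : G × G × G → A) (h₁ h₂ h₃ : H) :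
    mapCochains₃ f φ c (h₁, h₂, h₃) = φ.hom (c (f h₁, f h₂, f h₃)) := rfl

lemma d34_mapCochains₃ (c : G × G × G → A) :
    d34 B (mapCochains₃ f φ c) = fun x => φ.hom (d34 A c (f x.1, f x.2.1, f x.2.2.1, f x.2.2.2)) := by
  funext ⟨h₁, h₂, h₃, h₄⟩
  simp only [d34_apply, mapCochains₃_apply, map_add, map_sub, map_mul]
  have := Rep.hom_comm_apply φ h₁ (c (f h₂, f h₃, f h₄))
  rw [← this]
  rfl

/-- The map on explicit 3-cocycles. -/
def mapCocycles₃ : cocycles₃ A →ₗ[k] cocycles₃ B :=
  (mapCochains₃ f φ).restrict fun c hc => by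
    rw [mem_cocycles₃_iff] at hc ⊢
    rw [d34_mapCochains₃, hc]
    funext x
    simp

@[simp] lemma mapCocycles₃_coe (c : cocycles₃ A) :
    ((mapCocycles₃ f φ c : cocycles₃ B) : H × H × H → B) = mapCochains₃ f φ c := rfl

/-- `groupCohomology.map` on explicit 3-cocycles. -/
theorem map_H3π (c : cocycles₃ A) :
    (groupCohomology.map f φ 3).hom (H3π A c) = H3π B (mapCocycles₃ f φ c) := by
  show (HomologicalComplex.homologyMap (cochainsMap f φ) 3).hom
    (clsₗ (inhomogeneousCochains A) 3 (cocycles₃ToZ A c)) = _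
  rw [homologyMap_clsₗ]
  show _ = clsₗ (inhomogeneousCochains B) 3 (cocycles₃ToZ B (mapCocycles₃ f φ c))
  congr 1

end Map

end Fermat.Agent.S55.ColH543

end

end
-- ===== PACK-END S55/ColH543/Deg3.lean

-- ===== PACK-BEGIN S55/PT/SpecE.lean
section


/-!
# S55 / layer D: the abstract engine, version 3 (leaf D-E1)

Pure linear algebra over a field.  Compared with `H244.sha_equiv_of_localTop`:
`θ` is not given; instead the global shift data (`dT`, `del`, `ThR`, `ThP`) and the weak
effaceability `hcap : dT x = 0 → u x = 0` (CAP) are given.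
-/

set_option autoImplicit false

namespace Fermat.Agent.S55.PT

open Module Fermat.Agent.S55.H244

/-- **D-E1 (engine v3).**
Global: cone sequence `∏ L1 →j T2 →u H2 →loc2 L2`; shift `dT : T2 → T3R` with
`range dT = ker tT`; `H0P →r0 H0R →del X1` with `del` onto and `ker del = range r0`;
top maps `ThR` (bijective), `ThP` (injective), natural.
Local: `LocalTop` data at each place, `hloc`, and the formula for `ThR (dT (j b))`.
CAP: `dT x = 0 → u x = 0`.
Conclusion: `ker loc2 ≃ Dual (ker loc)`. -/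
def EngineSpec : Prop :=
  ∀ (k : Type) [Field k] (ι : Type) [Fintype ι] [DecidableEq ι]
    (T2 H2 L2 X1 T3R T3P H0R H0P : Type)
    [AddCommGroup T2] [Module k T2] [AddCommGroup H2] [Module k H2]
    [AddCommGroup L2] [Module k L2] [AddCommGroup X1] [Module k X1]
    [AddCommGroup T3R] [Module k T3R] [AddCommGroup T3P] [Module k T3P]
    [AddCommGroup H0R] [Module k H0R] [AddCommGroup H0P] [Module k H0P]
    (L1 T2R T2P H0Rv H0Pv Y1 : ι → Type)
    [∀ v, AddCommGroup (L1 v)] [∀ v, Module k (L1 v)]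
    [∀ v, AddCommGroup (T2R v)] [∀ v, Module k (T2R v)]
    [∀ v, AddCommGroup (T2P v)] [∀ v, Module k (T2P v)]
    [∀ v, AddCommGroup (H0Rv v)] [∀ v, Module k (H0Rv v)]
    [∀ v, AddCommGroup (H0Pv v)] [∀ v, Module k (H0Pv v)]
    [∀ v, AddCommGroup (Y1 v)] [∀ v, Module k (Y1 v)]
    [FiniteDimensional k X1]
    (j : (∀ v, L1 v) →ₗ[k] T2) (u : T2 →ₗ[k] H2) (loc2 : H2 →ₗ[k] L2)
    (loc : X1 →ₗ[k] (∀ v, Y1 v))
    (_hju : LinearMap.ker u = LinearMap.range j)
    (_hu2 : LinearMap.range u = LinearMap.ker loc2)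
    (dT : T2 →ₗ[k] T3R) (tT : T3R →ₗ[k] T3P)
    (_hdT : LinearMap.range dT = LinearMap.ker tT)
    (r0 : H0P →ₗ[k] H0R) (del : H0R →ₗ[k] X1)
    (_hdel : Function.Surjective del) (_hdelker : LinearMap.ker del = LinearMap.range r0)
    (ThR : T3R →ₗ[k] Dual k H0R) (ThP : T3P →ₗ[k] Dual k H0P)
    (_hThR : Function.Bijective ThR) (_hThP : Function.Injective ThP)
    (_hnat : ∀ (t : T3R) (g : H0P), ThP (tT t) g = ThR t (r0 g))
    (_hcap : ∀ x : T2, dT x = 0 → u x = 0)
    (D : ∀ v, LocalTop k (L1 v) (T2R v) (T2P v) (H0Rv v) (H0Pv v) (Y1 v))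
    (res : ∀ v, H0R →ₗ[k] H0Rv v)
    (_hloc : ∀ v f, (D v).del (res v f) = loc (del f) v)
    (c : k) (_hc : c ≠ 0)
    (_hform : ∀ (b : ∀ v, L1 v) (f : H0R),
      ThR (dT (j b)) f = c * ∑ v, (D v).ThR ((D v).dv (b v)) (res v f)),
    Nonempty (LinearMap.ker loc2 ≃ₗ[k] Dual k (LinearMap.ker loc))

end Fermat.Agent.S55.PT

end
-- ===== PACK-END S55/PT/SpecE.lean

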