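import Mathlib
import Fermat.Agent.Pack.S56.E3L3
import Fermat.Agent.Pack.S56.E3L0
import Fermat.Agent.Pack.S56.E3L1
import Fermat.Agent.Pack.S56.E3L2
import Fermat.Agent.Pack.S56.E1L3
import Fermat.Agent.Pack.S56.E0L2
import Fermat.Agent.Pack.S56.E4L1
import Fermat.Agent.Pack.S56.E1L1
import Fermat.Agent.Pack.S56.E4L0

-- ===== PACK-BEGIN S56/H716/TBDefs.lean
section


/-!
# Row S56 — tangent bound (TB), layer 1: FROZEN definitions (deputy helper716)

Same conventions as the frozen layer 0 (`Fermat/Agent/S56/Defs.lean`): cocycles are plain functions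
`c : G_ℚ → End_k V`, `V = ρbar.V`.

* `IsAdCocycle ρbar c`   — `c ∈ Z¹(G_ℚ, ad⁰ρ̄)` (UNTWISTED): `tr c(σ) = 0`,
  `c(στ) = c(σ) + ρ̄(σ) c(τ) ρ̄(σ)⁻¹`, finite level.
* `IsAdCoboundary ρbar c` — `c(σ) = ρ̄(σ) m ρ̄(σ)⁻¹ − m` for some `m`.
* `liftEnd ρbar c σ`     — the endomorphism `(1 + ε c(σ)) ρ̄(σ)` of `k[ε] ⊗ V`.
* `IsLiftOf ρbar c ρ'`   — `ρ' : GaloisRepAdic k[ε]` is isomorphic to `σ ↦ liftEnd ρbar c σ`.
* `IsTanCocycle 𝒪 ρbar 𝒟 c` — `c` is an ad⁰-cocycle whose lift to `k[ε]` is of type `𝒟`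
  (for the `𝒪`-algebra structure `tanAlgebra 𝒪` on `k[ε]`).

Nothing unproved in this file.  Plan: `coord/S56-TB.md` on `origin/helper716`.
-/

set_option autoImplicit false

open Polynomial IsLocalRing
open scoped TensorProduct

noncomputable section

namespace Fermat.Agent.S56.H716

open Fermat.Agent.S56

section Cocycles

variable {k : Type} [Field k] (ρbar : ResidualGaloisRep k)

/-- `c` is an (untwisted) cocycle with values in trace-zero endomorphisms, of finite level. -/
structure IsAdCocycle (c : GQ → Module.End k ρbar.V) : Prop where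
  trace_eq_zero : ∀ σ, LinearMap.trace k ρbar.V (c σ) = 0
  map_mul : ∀ σ τ, c (σ * τ) = c σ + ρbar.ρ σ * c τ * ρbar.ρ σ⁻¹
  level : ∃ L : IntermediateField ℚ Qb, FiniteDimensional ℚ L ∧
    ∀ σ τ : GQ, (∀ x ∈ L, τ x = x) → c (σ * τ) = c σ

/-- `c` is the (untwisted) coboundary of some endomorphism `m`. -/
def IsAdCoboundary (c : GQ → Module.End k ρbar.V) : Prop :=
  ∃ m : Module.End k ρbar.V, ∀ σ, c σ = ρbar.ρ σ * m * ρbar.ρ σ⁻¹ - m

/-- The endomorphism `(1 + ε c(σ)) ρ̄(σ)` of `k[ε] ⊗_k V`. -/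
def liftEnd (c : GQ → Module.End k ρbar.V) (σ : GQ) :
    Module.End (DualNumber k) (DualNumber k ⊗[k] ρbar.V) :=
  (ρbar.ρ σ).baseChange (DualNumber k) +
    (DualNumber.eps : DualNumber k) • (c σ * ρbar.ρ σ).baseChange (DualNumber k)

/-- `ρ'` is (isomorphic to) the lift `σ ↦ (1 + ε c(σ)) ρ̄(σ)` of `ρ̄` to the dual numbers. -/
def IsLiftOf (c : GQ → Module.End k ρbar.V) (ρ' : GaloisRepAdic (DualNumber k)) : Prop :=
  ∃ e : ρ'.V ≃ₗ[DualNumber k] (DualNumber k ⊗[k] ρbar.V),
    ∀ (σ : GQ) (v : ρ'.V), e (ρ'.ρ σ v) = liftEnd ρbar c σ (e v)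

end Cocycles

section Tan

variable (𝒪 : Type) [CommRing 𝒪] [IsLocalRing 𝒪]
  (ρbar : ResidualGaloisRep (ResidueField 𝒪))

/-- `c` is an ad⁰-cocycle whose lift to the dual numbers is a deformation of type `𝒟`. -/
def IsTanCocycle (𝒟 : DefCond 𝒪) (c : GQ → Module.End (ResidueField 𝒪) ρbar.V) : Prop :=
  IsAdCocycle ρbar c ∧
    ∃ ρ' : GaloisRepAdic (DualNumber (ResidueField 𝒪)),
      IsLiftOf ρbar c ρ' ∧ @𝒟 (DualNumber (ResidueField 𝒪)) _ _ (tanAlgebra 𝒪) ρ'

end Tan

end Fermat.Agent.S56.H716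

end

end
-- ===== PACK-END S56/H716/TBDefs.lean

-- ===== PACK-BEGIN S56/H334/RamHilbert.lean
section


/-!
# S56 / W-FLAT-SS, piece FL-RAM (helper334), part 3: Hilbert's formula for the different

AKLB setting: `A ⊆ B` integrally closed domains with fraction fields `K ⊆ L`, `L/K` finite
separable, `B` Dedekind and the integral closure of `A` in `L`, `Γ` a finite group with
`IsGaloisGroup Γ A B`, and `B = A[x]` monogenic.

* `eval_derivative_charpoly` : `f'(x) = ∏_{σ ≠ 1} (x - σ x)` for `f = ∏_σ (X - σ x)`.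
* `minpoly_map_eq_charpoly` : the minimal polynomial of `x` over `A` is `∏_σ (X - σ x)`.
* `differentIdeal_eq_span_prod` : `𝔇_{B/A} = (∏_{σ ≠ 1} (x - σ x))`.
* `lowIdx Γ B σ` : the lower index `i_Γ(σ) = min {n | σ ∉ Γ_n}` (so `σ ∈ Γ_n ↔ n < i_Γ(σ)`).
* `differentIdeal_eq_pow_sum_lowIdx` (**Hilbert's formula**, Serre LF IV §1 Prop. 4):
  for `B` a DVR, `𝔇_{B/A} = 𝔪_B ^ (∑_{σ ≠ 1} i_Γ(σ))`.
-/

set_option autoImplicit false
set_option linter.unusedSectionVars false
set_option linter.style.haveILetI false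

open IsLocalRing Polynomial

namespace Fermat.Agent.S56.H334

section Charpoly

variable {B : Type*} [CommRing B] {Γ : Type*} [Group Γ] [Fintype Γ] [MulSemiringAction Γ B]

/-- `f'(x) = ∏_{σ ≠ 1} (x - σ x)` for `f = ∏_σ (X - σ x)`. -/
theorem eval_derivative_charpoly [DecidableEq Γ] (x : B) :
    (derivative (MulSemiringAction.charpoly Γ x)).eval x =
      ∏ σ ∈ Finset.univ.erase (1 : Γ), (x - σ • x) := by
  rw [MulSemiringAction.charpoly_eq, derivative_prod_finset, eval_finsetSum]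
  rw [Finset.sum_eq_single (1 : Γ)]
  · rw [eval_mul, eval_prod]
    simp
  · intro σ _ hσ
    rw [eval_mul, eval_prod]
    have : (1 : Γ) ∈ Finset.univ.erase σ := Finset.mem_erase.2 ⟨hσ.symm, Finset.mem_univ _⟩
    rw [Finset.prod_eq_zero this (by simp), zero_mul]
  · intro h
    exact absurd (Finset.mem_univ _) h

end Charpoly

section Minpoly

variable (A B : Type*) [CommRing A] [CommRing B] [Algebra A B] [IsDomain A] [IsIntegrallyClosed A]
  [IsDomain B] [Module.IsTorsionFree A B] [Module.Finite A B]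
  (Γ : Type*) [Group Γ] [Fintype Γ] [MulSemiringAction Γ B] [IsGaloisGroup Γ A B]

/-- If `B = A[x]` and `Γ` is a Galois group of `B/A`, then the minimal polynomial of `x` is
`∏_σ (X - σ x)`. -/
theorem minpoly_map_eq_charpoly {x : B} (hx : Algebra.adjoin A {x} = ⊤) :
    (minpoly A x).map (algebraMap A B) = MulSemiringAction.charpoly Γ x := by
  classical
  have hint : IsIntegral A x := Algebra.IsIntegral.isIntegral x
  -- a monic lift of the characteristic polynomial
  obtain ⟨M, hM, hMdeg, hMmonic⟩ := Polynomial.lifts_and_natDegree_eq_and_monic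
    (Algebra.IsInvariant.charpoly_mem_lifts A B Γ x) (MulSemiringAction.monic_charpoly Γ x)
  have hroot : aeval x M = 0 := by
    rw [aeval_def, ← eval_map, hM, MulSemiringAction.eval_charpoly]
  have hdvd : minpoly A x ∣ M := minpoly.isIntegrallyClosed_dvd hint hroot
  -- degrees
  have hdeg1 : M.natDegree = Nat.card Γ := by
    rw [hMdeg, MulSemiringAction.charpoly_eq,
      natDegree_prod_of_monic _ _ (fun σ _ => monic_X_sub_C _)]
    simp
  have hdeg2 : (minpoly A x).natDegree = Module.finrank A B := by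
    rw [← Algebra.adjoin.powerBasis'_dim hint, ← PowerBasis.finrank]
    exact LinearEquiv.finrank_eq
      ((Subalgebra.equivOfEq _ _ hx).trans Subalgebra.topEquiv).toLinearEquiv
  have hcard : Nat.card Γ = Module.finrank A B := IsGaloisGroup.card_eq_finrank' Γ A B
  have heq : M = minpoly A x := by
    refine Polynomial.eq_of_monic_of_dvd_of_natDegree_le (minpoly.monic hint) hMmonic hdvd ?_
    rw [hdeg1, hdeg2, hcard]
  rw [← heq, hM]

end Minpoly

section Different

variable (A K L : Type*) {B : Type*} [CommRing A] [Field K] [CommRing B] [Field L]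
  [Algebra A K] [Algebra B L] [Algebra A B] [Algebra K L] [Algebra A L]
  [IsScalarTower A K L] [IsScalarTower A B L]
  [IsDomain A] [IsFractionRing A K] [IsFractionRing B L] [FiniteDimensional K L]

omit [IsDomain A] [IsFractionRing A K] in
/-- If `B = A[x]`, then `L = K[x]`. -/
theorem adjoin_field_eq_top [IsDomain B] {x : B} (hx : Algebra.adjoin A {x} = ⊤) :
    Algebra.adjoin K {algebraMap B L x} = ⊤ := by
  rw [eq_top_iff]
  intro y _
  have hB : ∀ b : B, algebraMap B L b ∈ Algebra.adjoin K {algebraMap B L x} := by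
    intro b
    have hb : b ∈ Algebra.adjoin A {x} := by rw [hx]; exact Algebra.mem_top
    induction hb using Algebra.adjoin_induction with
    | mem z hz =>
      rw [Set.mem_singleton_iff] at hz
      rw [hz]
      exact Algebra.subset_adjoin (Set.mem_singleton _)
    | algebraMap a =>
      rw [← IsScalarTower.algebraMap_apply A B L, IsScalarTower.algebraMap_apply A K L]
      exact Subalgebra.algebraMap_mem _ _
    | add y z _ _ hy hz =>
      rw [map_add]
      exact add_mem hy hz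
    | mul y z _ _ hy hz =>
      rw [map_mul]
      exact mul_mem hy hz
  obtain ⟨b, s, hs, rfl⟩ := IsFractionRing.div_surjective (A := B) y
  rw [div_eq_mul_inv]
  refine mul_mem (hB b) ?_
  have halg : IsAlgebraic K ((⟨algebraMap B L s, hB s⟩ :
      Algebra.adjoin K {algebraMap B L x}) : L) := Algebra.IsAlgebraic.isAlgebraic _
  exact Subalgebra.inv_mem_of_algebraic (Algebra.adjoin K {algebraMap B L x})
    (x := ⟨algebraMap B L s, hB s⟩) halg

variable [Algebra.IsSeparable K L] [IsIntegralClosure B A L] [IsIntegrallyClosed A]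
  [IsDedekindDomain B] [Module.IsTorsionFree A B] [Module.Finite A B]
  (Γ : Type*) [Group Γ] [Fintype Γ] [MulSemiringAction Γ B] [IsGaloisGroup Γ A B]

include K L in
/-- `𝔇_{B/A} = (∏_{σ ≠ 1} (x - σ x))` if `B = A[x]`. -/
theorem differentIdeal_eq_span_prod [DecidableEq Γ] {x : B} (hx : Algebra.adjoin A {x} = ⊤) :
    differentIdeal A B = Ideal.span {∏ σ ∈ Finset.univ.erase (1 : Γ), (x - σ • x)} := by
  have h := conductor_mul_differentIdeal A K L x (adjoin_field_eq_top A K L hx)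
  rw [conductor_eq_top_of_adjoin_eq_top hx, Ideal.top_mul] at h
  rw [h, aeval_def, ← eval_map, ← derivative_map, minpoly_map_eq_charpoly A B Γ hx,
    eval_derivative_charpoly]

end Different

/-! ### The lower index and Hilbert's formula -/

section LowIdx

variable {B : Type*} [CommRing B] [IsDomain B] [IsDiscreteValuationRing B]
variable {Γ : Type*} [Group Γ] [MulSemiringAction Γ B]

/-- The lower index `i_Γ(σ) = min {n | σ ∉ Γ_n}` (and `0` if `σ` lies in all `Γ_n`). -/
noncomputable def lowIdx (Γ : Type*) (B : Type*) [CommRing B] [IsDomain B]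
    [IsDiscreteValuationRing B] [Group Γ] [MulSemiringAction Γ B] (σ : Γ) : ℕ :=
  open Classical in
  if h : ∃ n, σ ∉ ramGroup Γ B n then Nat.find h else 0

theorem exists_not_mem_ramGroup [FaithfulSMul Γ B] {σ : Γ} (hσ : σ ≠ 1) :
    ∃ n, σ ∉ ramGroup Γ B n := by
  by_contra h
  rw [not_exists] at h
  exact hσ (eq_one_of_forall_mem_ramGroup fun n => not_not.1 (h n))

/-- `σ ∈ Γ_n ↔ n < i_Γ(σ)` for `σ ≠ 1`. -/
theorem mem_ramGroup_iff_lt_lowIdx [FaithfulSMul Γ B] {σ : Γ} (hσ : σ ≠ 1) (n : ℕ) :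
    σ ∈ ramGroup Γ B n ↔ n < lowIdx Γ B σ := by
  classical
  have h := exists_not_mem_ramGroup (B := B) hσ
  rw [lowIdx, dif_pos h, Nat.lt_find_iff]
  constructor
  · intro hn m hm
    rw [not_not]
    exact ramGroup_antitone hm hn
  · intro hn
    exact not_not.1 (hn n le_rfl)

theorem span_eq_maximalIdeal_pow {y : B} {k : ℕ} (h1 : y ∈ maximalIdeal B ^ k)
    (h2 : y ∉ maximalIdeal B ^ (k + 1)) : Ideal.span {y} = maximalIdeal B ^ k := by
  obtain ⟨π, hπ⟩ := IsDiscreteValuationRing.exists_irreducible B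
  rw [mem_maximalIdeal_pow_iff_dvd hπ] at h1 h2
  obtain ⟨u, rfl⟩ := h1
  have hu : IsUnit u := by
    by_contra hu
    have : π ∣ u := by
      have hmem : u ∈ maximalIdeal B := (mem_maximalIdeal u).2 hu
      rwa [hπ.maximalIdeal_eq, Ideal.mem_span_singleton] at hmem
    exact h2 (by rw [pow_succ]; exact mul_dvd_mul_left _ this)
  rw [hπ.maximalIdeal_eq, Ideal.span_singleton_pow]
  exact Ideal.span_singleton_eq_span_singleton.2 (associated_mul_unit_left _ _ hu)

variable {A : Type*} [CommRing A] [Algebra A B] [SMulCommClass Γ A B]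

/-- If `B = A[x]`, then `(σ x - x) = 𝔪 ^ i_Γ(σ)` for `σ ≠ 1`. -/
theorem span_smul_sub_eq [FaithfulSMul Γ B] {x : B} (hx : Algebra.adjoin A {x} = ⊤) {σ : Γ}
    (hσ : σ ≠ 1) : Ideal.span {σ • x - x} = maximalIdeal B ^ lowIdx Γ B σ := by
  apply span_eq_maximalIdeal_pow
  · rcases Nat.eq_zero_or_pos (lowIdx Γ B σ) with h0 | hpos
    · rw [h0, pow_zero, Ideal.one_eq_top]
      exact Submodule.mem_top (R := B) (M := B)
    · have h1 : σ ∈ ramGroup Γ B (lowIdx Γ B σ - 1) :=
        (mem_ramGroup_iff_lt_lowIdx hσ _).2 (by omega)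
      have h2 := (mem_ramGroup_of_adjoin (A := A) hx).1 h1
      rwa [Nat.sub_add_cancel hpos] at h2
  · intro h
    have h1 : σ ∈ ramGroup Γ B (lowIdx Γ B σ) := (mem_ramGroup_of_adjoin (A := A) hx).2 h
    exact lt_irrefl _ ((mem_ramGroup_iff_lt_lowIdx hσ _).1 h1)

end LowIdx

section Hilbert

variable (A K L : Type*) {B : Type*} [CommRing A] [Field K] [CommRing B] [Field L]
  [Algebra A K] [Algebra B L] [Algebra A B] [Algebra K L] [Algebra A L]
  [IsScalarTower A K L] [IsScalarTower A B L]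
  [IsDomain A] [IsFractionRing A K] [IsFractionRing B L] [FiniteDimensional K L]
  [Algebra.IsSeparable K L] [IsIntegralClosure B A L] [IsIntegrallyClosed A]
  [IsDomain B] [IsDiscreteValuationRing B] [Module.IsTorsionFree A B] [Module.Finite A B]
  (Γ : Type*) [Group Γ] [Fintype Γ] [MulSemiringAction Γ B] [IsGaloisGroup Γ A B]

include K L in
/-- **Hilbert's formula** (Serre, Local Fields IV §1 Prop. 4): if `B = A[x]` is a DVR and `Γ` is
a Galois group of `B/A`, then `𝔇_{B/A} = 𝔪_B ^ (∑_{σ ≠ 1} i_Γ(σ))`. -/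
theorem differentIdeal_eq_pow_sum_lowIdx [DecidableEq Γ] {x : B}
    (hx : Algebra.adjoin A {x} = ⊤) :
    differentIdeal A B = maximalIdeal B ^ (∑ σ ∈ Finset.univ.erase (1 : Γ), lowIdx Γ B σ) := by
  haveI : FaithfulSMul Γ B := IsGaloisGroup.faithful A
  haveI : SMulCommClass Γ A B := IsGaloisGroup.commutes
  rw [differentIdeal_eq_span_prod A K L Γ hx, ← Ideal.prod_span_singleton,
    ← Finset.prod_pow_eq_pow_sum]
  refine Finset.prod_congr rfl fun σ hσ => ?_
  have hσ1 : σ ≠ 1 := (Finset.mem_erase.1 hσ).1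
  rw [← span_smul_sub_eq (A := A) hx hσ1, ← neg_sub, Ideal.span_singleton_neg]

end Hilbert

end Fermat.Agent.S56.H334

end
-- ===== PACK-END S56/H334/RamHilbert.lean

-- ===== PACK-BEGIN S55/PT/Les.lean
section


/-!
# S55 / PT layer, part 3: connecting homomorphisms `δ⁰ : H⁰(C) → H¹(A)`, `δ¹ : H¹(C) → H²(A)`
for a short exact sequence `0 → A → B → C → 0` of uniformly smooth representations.

Everything is `k`-linear because we use `k`-linear (non-equivariant) splittings `sec`, `ret`.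
The exactness statements are leaves (see `Spec.lean`).
-/

set_option autoImplicit false

noncomputable section

namespace Fermat.Agent.S55.PT

open groupCohomology

variable {k : Type} [Field k] {G : Type} [Group G]

/-! ### level-constancy of coboundaries -/

namespace LevelSys

variable (L : LevelSys G) {A : Rep.{0, 0, 0} k G}

lemma d₀₁_isLC₁ (hA : L.IsUSmooth A) (m : A) : L.IsLC₁ ((d₀₁ A).hom m) := by
  obtain ⟨U, hU, h⟩ := hA
  refine ⟨U, hU, fun g s hs => ?_⟩
  simp only [d₀₁_hom_apply, map_mul, Module.End.mul_apply, h s hs m]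

lemma B1_le_C1 (hA : L.IsUSmooth A) : B1 A ≤ L.C1 A := by
  rintro f ⟨m, rfl⟩
  exact L.d₀₁_isLC₁ hA m

lemma d₁₂_isLC₂ (hN : L.NormalCofinal) (hA : L.IsUSmooth A) {x : G → A} (hx : L.IsLC₁ x) :
    L.IsLC₂ ((d₁₂ A).hom x) := by
  obtain ⟨U, hU, h⟩ := hA
  obtain ⟨V, hV, hx⟩ := hx
  obtain ⟨W, hW, hWle⟩ := L.directed U hU V hV
  obtain ⟨N, hNl, hNW, hNn⟩ := hN W hW
  refine ⟨N, hNl, fun g g' s s' hs hs' => ?_⟩
  have hsU : s ∈ U := (hWle (hNW hs)).1
  have hs'V : s' ∈ V := (hWle (hNW hs')).2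
  have hconj : g'⁻¹ * s * g' ∈ N := by
    have := hNn.conj_mem s hs g'⁻¹
    simpa using this
  have hmem : g'⁻¹ * s * g' * s' ∈ V := (hWle (hNW (N.mul_mem hconj hs'))).2
  have e1 : g * s * (g' * s') = g * g' * (g'⁻¹ * s * g' * s') := by group
  simp only [d₁₂_hom_apply]
  rw [e1, hx (g * g') _ hmem, hx g' s' hs'V, hx g s (hWle (hNW hs)).2, map_mul,
    Module.End.mul_apply, h s hsU]

lemma B2_le_C2 (hN : L.NormalCofinal) (hA : L.IsUSmooth A) : L.B2 A ≤ L.C2 A := by
  rintro f ⟨x, hx, rfl⟩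
  exact L.d₁₂_isLC₂ hN hA hx

lemma B2_le_Z2 (hN : L.NormalCofinal) (hA : L.IsUSmooth A) : L.B2 A ≤ L.Z2 A := by
  rintro f hf
  refine ⟨?_, L.B2_le_C2 hN hA hf⟩
  obtain ⟨x, -, rfl⟩ := hf
  show (d₂₃ A).hom ((d₁₂ A).hom x) = 0
  have := d₁₂_comp_d₂₃ A
  have h2 := congrArg (fun f => f.hom x) this
  simpa using h2

lemma B1_le_Z1 (hA : L.IsUSmooth A) : B1 A ≤ L.Z1 A := by
  rintro f hf
  refine ⟨?_, L.B1_le_C1 hA hf⟩
  obtain ⟨m, rfl⟩ := hf
  show (d₁₂ A).hom ((d₀₁ A).hom m) = 0
  have := d₀₁_comp_d₁₂ A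
  have h2 := congrArg (fun f => f.hom m) this
  simpa using h2

end LevelSys

/-- A short exact sequence `0 → A → B → C → 0` of representations (maps are plain linear maps
together with equivariance proofs). -/
structure SES (A B C : Rep.{0, 0, 0} k G) where
  /-- the injection -/
  i : A →ₗ[k] B
  /-- the surjection -/
  π : B →ₗ[k] C
  hi : IsEquivariant i
  hπ : IsEquivariant π
  inj : Function.Injective i
  surj : Function.Surjective π
  exact : LinearMap.range i = LinearMap.ker π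

namespace SES

variable {A B C : Rep.{0, 0, 0} k G} (E : SES A B C)

/-- a `k`-linear section of `π` -/
def sec : C →ₗ[k] B := Classical.choose (LinearMap.exists_rightInverse_of_surjective E.π
  (LinearMap.range_eq_top.2 E.surj))

lemma π_sec (c : C) : E.π (E.sec c) = c :=
  LinearMap.congr_fun (Classical.choose_spec (LinearMap.exists_rightInverse_of_surjective E.π
    (LinearMap.range_eq_top.2 E.surj))) c

/-- a `k`-linear retraction of `i` -/
def ret : B →ₗ[k] A := Classical.choose (LinearMap.exists_leftInverse_of_injective E.i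
  (LinearMap.ker_eq_bot.2 E.inj))

lemma ret_i (a : A) : E.ret (E.i a) = a :=
  LinearMap.congr_fun (Classical.choose_spec (LinearMap.exists_leftInverse_of_injective E.i
    (LinearMap.ker_eq_bot.2 E.inj))) a

lemma i_ret {b : B} (hb : E.π b = 0) : E.i (E.ret b) = b := by
  have : b ∈ LinearMap.range E.i := by rw [E.exact]; exact hb
  obtain ⟨a, rfl⟩ := this
  rw [E.ret_i]

lemma π_i (a : A) : E.π (E.i a) = 0 := by
  have : E.i a ∈ LinearMap.ker E.π := by rw [← E.exact]; exact ⟨a, rfl⟩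
  exact this

lemma i_comp_ret_comp {X : Type*} {f : X → B} (hf : ∀ x, E.π (f x) = 0) :
    (E.i ∘ (E.ret ∘ f) : X → B) = f := by
  funext x
  exact E.i_ret (hf x)

variable (L : LevelSys G)

/-- cochain-level `δ⁰`: `c ↦ (g ↦ ret (g • sec c - sec c))` -/
def del0Fun : C →ₗ[k] (G → A) :=
  (E.ret.compLeft G) ∘ₗ (d₀₁ B).hom ∘ₗ E.sec

/-- cochain-level `δ¹`: `c ↦ ret ∘ d(sec ∘ c)` -/
def del1Fun : (G → C) →ₗ[k] (G × G → A) :=
  (E.ret.compLeft (G × G)) ∘ₗ (d₁₂ B).hom ∘ₗ (E.sec.compLeft G)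

lemma del0Fun_apply (c : C) : E.del0Fun c = E.ret ∘ (d₀₁ B).hom (E.sec c) := rfl

lemma del1Fun_apply (c : G → C) : E.del1Fun c = E.ret ∘ (d₁₂ B).hom (E.sec ∘ c) := rfl

lemma π_d₀₁_sec (c : ↥(LevelSys.H0 C)) (g : G) : E.π ((d₀₁ B).hom (E.sec (c : C)) g) = 0 := by
  have hπ : ∀ (g : G) (b : B), E.π (B.ρ g b) = C.ρ g (E.π b) := E.hπ
  simp only [d₀₁_hom_apply, map_sub, hπ, E.π_sec]
  rw [c.2 g, sub_self]

lemma i_comp_del0Fun (c : ↥(LevelSys.H0 C)) :
    (E.i ∘ E.del0Fun (c : C) : G → B) = (d₀₁ B).hom (E.sec (c : C)) :=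
  E.i_comp_ret_comp (E.π_d₀₁_sec c)

lemma π_d₁₂_sec {c : G → C} (hc : c ∈ cocycles₁ C) (x : G × G) :
    E.π ((d₁₂ B).hom (E.sec ∘ c) x) = 0 := by
  have h1 : (E.π ∘ (d₁₂ B).hom (E.sec ∘ c) : G × G → C) = (d₁₂ C).hom (E.π ∘ (E.sec ∘ c)) :=
    (push_d₁₂ E.π E.hπ (E.sec ∘ c)).symm
  have h2 : (E.π ∘ (E.sec ∘ c) : G → C) = c := by
    funext g
    exact E.π_sec (c g)
  have h3 : (d₁₂ C).hom c = 0 := hc
  have := congrFun h1 x
  rw [h2, h3] at this
  exact this

lemma i_comp_del1Fun {c : G → C} (hc : c ∈ cocycles₁ C) :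
    (E.i ∘ E.del1Fun c : G × G → B) = (d₁₂ B).hom (E.sec ∘ c) :=
  E.i_comp_ret_comp (E.π_d₁₂_sec hc)

/-- `δ⁰` of an invariant is a level-constant cocycle. -/
theorem del0Fun_mem_Z1 (hB : L.IsUSmooth B) (c : ↥(LevelSys.H0 C)) :
    E.del0Fun (c : C) ∈ L.Z1 A := by
  refine ⟨?_, ?_⟩
  · show (d₁₂ A).hom (E.del0Fun (c : C)) = 0
    have h1 : (E.i ∘ (d₁₂ A).hom (E.del0Fun (c : C)) : G × G → B) = 0 := by
      rw [← push_d₁₂ E.i E.hi, E.i_comp_del0Fun c]
      have := d₀₁_comp_d₁₂ B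
      have h2 := congrArg (fun f => f.hom (E.sec (c : C))) this
      simpa using h2
    funext x
    apply E.inj
    rw [Pi.zero_apply, map_zero]
    exact congrFun h1 x
  · exact LevelSys.IsLC₁.comp (L.d₀₁_isLC₁ hB (E.sec (c : C))) E.ret

/-- `δ¹` of a level-constant cocycle is a level-constant cocycle. -/
theorem del1Fun_mem_Z2 (hN : L.NormalCofinal) (hB : L.IsUSmooth B) (c : ↥(L.Z1 C)) :
    E.del1Fun (c : G → C) ∈ L.Z2 A := by
  refine ⟨?_, ?_⟩
  · show (d₂₃ A).hom (E.del1Fun (c : G → C)) = 0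
    have h1 : (E.i ∘ (d₂₃ A).hom (E.del1Fun (c : G → C)) : G × G × G → B) = 0 := by
      rw [← push_d₂₃ E.i E.hi, E.i_comp_del1Fun c.2.1]
      have := d₁₂_comp_d₂₃ B
      have h2 := congrArg (fun f => f.hom (E.sec ∘ (c : G → C))) this
      simpa using h2
    funext x
    apply E.inj
    rw [Pi.zero_apply, map_zero]
    exact congrFun h1 x
  · exact LevelSys.IsLC₂.comp (L.d₁₂_isLC₂ hN hB (LevelSys.IsLC₁.comp c.2.2 E.sec)) E.ret

/-- `δ¹` of a coboundary is a level-constant coboundary. -/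
theorem del1Fun_mem_B2 (hB : L.IsUSmooth B) (hC : L.IsUSmooth C) (c : ↥(L.Z1 C))
    (hc : (c : G → C) ∈ LevelSys.B1 C) :
    E.del1Fun (c : G → C) ∈ L.B2 A := by
  obtain ⟨m, hm⟩ := hc
  -- `y := sec ∘ d m - d (sec m)` has values in `ker π`
  set y : G → B := (E.sec ∘ (c : G → C)) - (d₀₁ B).hom (E.sec m) with hy
  have hπy : ∀ g, E.π (y g) = 0 := by
    intro g
    have hπ : ∀ (g : G) (b : B), E.π (B.ρ g b) = C.ρ g (E.π b) := E.hπ
    have hmg : (c : G → C) g = C.ρ g m - m := by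
      rw [← hm]; simp only [d₀₁_hom_apply]
    simp only [hy, Pi.sub_apply, Function.comp_apply, map_sub, E.π_sec, d₀₁_hom_apply, hπ]
    rw [hmg, sub_self]
  have hyLC : L.IsLC₁ y := by
    have h1 : L.IsLC₁ (E.sec ∘ (c : G → C)) := LevelSys.IsLC₁.comp c.2.2 E.sec
    have h2 : L.IsLC₁ ((d₀₁ B).hom (E.sec m)) := L.d₀₁_isLC₁ hB (E.sec m)
    obtain ⟨U, hU, h⟩ := h1
    obtain ⟨V, hV, h'⟩ := h2
    obtain ⟨W, hW, hle⟩ := L.directed U hU V hV
    refine ⟨W, hW, fun g s hs => ?_⟩
    simp only [hy, Pi.sub_apply]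
    rw [h g s (hle hs).1, h' g s (hle hs).2]
  refine ⟨E.ret ∘ y, LevelSys.IsLC₁.comp hyLC E.ret, ?_⟩
  -- `d (ret ∘ y) = ret ∘ d y = ret ∘ d (sec ∘ c)`
  have hdy : (d₁₂ B).hom y = (d₁₂ B).hom (E.sec ∘ (c : G → C)) := by
    have h0 : (d₁₂ B).hom ((d₀₁ B).hom (E.sec m)) = 0 := by
      have := d₀₁_comp_d₁₂ B
      have h2 := congrArg (fun f => f.hom (E.sec m)) this
      simpa using h2
    rw [hy, map_sub, h0, sub_zero]
  have h1 : (E.i ∘ (d₁₂ A).hom (E.ret ∘ y) : G × G → B) = (d₁₂ B).hom y := by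
    rw [← push_d₁₂ E.i E.hi, E.i_comp_ret_comp hπy]
  funext x
  apply E.inj
  have h2 := congrFun h1 x
  have h3 := congrFun (E.i_comp_del1Fun c.2.1) x
  simp only [Function.comp_apply] at h2 h3
  rw [h2, h3, hdy]

/-- The connecting homomorphism `δ⁰ : H⁰(C) → H¹(A)`. -/
def del0 (hB : L.IsUSmooth B) : ↥(LevelSys.H0 C) →ₗ[k] L.H1 A :=
  L.H1π A ∘ₗ (E.del0Fun ∘ₗ (LevelSys.H0 C).subtype).codRestrict (L.Z1 A)
    (fun c => E.del0Fun_mem_Z1 L hB c)

/-- The connecting homomorphism `δ¹ : H¹(C) → H²(A)`. -/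
def del1 (hN : L.NormalCofinal) (hB : L.IsUSmooth B) (hC : L.IsUSmooth C) :
    L.H1 C →ₗ[k] L.H2 A :=
  Submodule.liftQ ((LevelSys.B1 C).comap (L.Z1 C).subtype)
    (L.H2π A ∘ₗ (E.del1Fun ∘ₗ (L.Z1 C).subtype).codRestrict (L.Z2 A)
      (fun c => E.del1Fun_mem_Z2 L hN hB c))
    (fun c hc => by
      rw [LinearMap.mem_ker, LinearMap.comp_apply, LevelSys.H2π_eq_zero_iff]
      exact E.del1Fun_mem_B2 L hB hC c hc)

lemma del0_apply (hB : L.IsUSmooth B) (c : ↥(LevelSys.H0 C)) :
    E.del0 L hB c = L.H1π A ⟨E.del0Fun (c : C), E.del0Fun_mem_Z1 L hB c⟩ := rfl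

lemma del1_mk (hN : L.NormalCofinal) (hB : L.IsUSmooth B) (hC : L.IsUSmooth C) (c : ↥(L.Z1 C)) :
    E.del1 L hN hB hC (L.H1π C c) =
      L.H2π A ⟨E.del1Fun (c : G → C), E.del1Fun_mem_Z2 L hN hB c⟩ := rfl

/-! ### Restriction of a short exact sequence along `r : G' → G` -/

variable {G' : Type} [Group G'] (r : G' →* G)

/-- The restricted short exact sequence. NB: `sec` and `ret` of the restricted sequence are
again CHOSEN, so they may differ from those of `E`; compatibility statements are therefore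
formulated on cohomology classes. -/
def res : SES (Rep.res r A) (Rep.res r B) (Rep.res r C) where
  i := E.i
  π := E.π
  hi := fun g a => E.hi (r g) a
  hπ := fun g b => E.hπ (r g) b
  inj := E.inj
  surj := E.surj
  exact := E.exact

end SES

end Fermat.Agent.S55.PT

end

end
-- ===== PACK-END S55/PT/Les.lean

-- ===== PACK-BEGIN S55/Bridge/DualTwist.lean
section


/-!
# S55 bridge, part B2c: `M.dualTwist (cycloChar p)` satisfies the hypotheses of S55 again,
and both `M` and `M.dualTwist (cycloChar p)` factor through one finite Galois level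
unramified outside `S` (when `p ∈ S`).
-/

set_option autoImplicit false

namespace Fermat.Agent.S55.Bridge

open ExtCitation IntermediateField

attribute [local instance] isAlgebraic_Qbar isGalois_Qbar

/-- If `g` acts trivially on `A` and `χ g = 1` then `g` acts trivially on `A.dualTwist χ`. -/
theorem dualTwist_ρ_eq_one {k G : Type} [CommRing k] [Group G] (A : Rep.{0, 0, 0} k G)
    (χ : G →* kˣ) (g : G) (hA : A.ρ g = 1) (hχ : χ g = 1) : (A.dualTwist χ).ρ g = 1 := by
  have hinv : A.ρ g⁻¹ = 1 := by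
    have h : A.ρ g⁻¹ * A.ρ g = 1 := by rw [← map_mul, inv_mul_cancel, map_one]
    rwa [hA, mul_one] at h
  apply LinearMap.ext
  intro f
  rw [Rep.dualTwist_ρ_apply, hχ, hinv, Units.val_one, one_smul]
  rfl

section cyclo

variable (p : ℕ) [Fact p.Prime]

/-- The field generated by the `p`-th roots of unity. -/
noncomputable def cycloLevel : IntermediateField ℚ (AlgebraicClosure ℚ) :=
  IntermediateField.adjoin ℚ {x : AlgebraicClosure ℚ | x ^ p = 1}

theorem cycloLevel_finiteDimensional : FiniteDimensional ℚ (cycloLevel p) := by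
  have hp : p.Prime := Fact.out
  have hfin : Set.Finite {x : AlgebraicClosure ℚ | x ^ p = 1} := by
    have h := (Polynomial.X ^ p - 1 : Polynomial (AlgebraicClosure ℚ)).roots.toFinset.finite_toSet
    refine h.subset fun x hx => ?_
    have hne : (Polynomial.X ^ p - 1 : Polynomial (AlgebraicClosure ℚ)) ≠ 0 :=
      Polynomial.X_pow_sub_C_ne_zero hp.pos 1
    simp only [Finset.mem_coe, Multiset.mem_toFinset, Polynomial.mem_roots hne,
      Polynomial.IsRoot, Polynomial.eval_sub, Polynomial.eval_pow, Polynomial.eval_X,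
      Polynomial.eval_one]
    exact sub_eq_zero.2 hx
  haveI : Finite {x : AlgebraicClosure ℚ | x ^ p = 1} := hfin
  exact IntermediateField.finiteDimensional_adjoin
    (fun x _ => Algebra.IsIntegral.isIntegral x)

theorem cycloChar_eq_one_of_mem_fixingSubgroup
    (σ : AlgebraicClosure ℚ ≃ₐ[ℚ] AlgebraicClosure ℚ) (hσ : σ ∈ (cycloLevel p).fixingSubgroup) :
    cycloChar p σ = 1 := by
  apply cycloChar_eq_one_of_fixes
  intro t ht
  have htp : (t : AlgebraicClosure ℚ) ^ p = 1 := by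
    have := (mem_rootsOfUnity p t).1 ht
    rw [← Units.val_pow_eq_pow_val, this, Units.val_one]
  exact (IntermediateField.mem_fixingSubgroup_iff _ σ).1 hσ t
    (IntermediateField.subset_adjoin ℚ _ htp)

end cyclo

section Rep

variable {p : ℕ} [Fact p.Prime]
  (M : Rep.{0, 0, 0} (ZMod p) (AlgebraicClosure ℚ ≃ₐ[ℚ] AlgebraicClosure ℚ))

/-- Smoothness passes to the Tate-twisted dual. -/
theorem dualTwist_smooth [FiniteDimensional (ZMod p) M]
    (hsm : ∀ m : M, ∃ F : IntermediateField ℚ (AlgebraicClosure ℚ), FiniteDimensional ℚ F ∧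
      ∀ s ∈ F.fixingSubgroup, M.ρ s m = m) :
    ∀ f : M.dualTwist (cycloChar p), ∃ F : IntermediateField ℚ (AlgebraicClosure ℚ),
      FiniteDimensional ℚ F ∧ ∀ s ∈ F.fixingSubgroup, (M.dualTwist (cycloChar p)).ρ s f = f := by
  obtain ⟨F, hFfin, hF⟩ := exists_finite_level_of_smooth M hsm
  intro f
  haveI := hFfin
  haveI := cycloLevel_finiteDimensional p
  refine ⟨F ⊔ cycloLevel p, IntermediateField.finiteDimensional_sup F (cycloLevel p), ?_⟩
  intro s hs
  rw [IntermediateField.fixingSubgroup_sup] at hs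
  rw [dualTwist_ρ_eq_one M (cycloChar p) s (hF s hs.1)
    (cycloChar_eq_one_of_mem_fixingSubgroup p s hs.2)]
  rfl

/-- Unramifiedness outside `S ∋ p` passes to the Tate-twisted dual. -/
theorem dualTwist_unramified (S : Finset Nat.Primes) (hpS : pPrime p ∈ S)
    (hMur : ∀ q : Nat.Primes, q ∉ S → ∀ A : ValuationSubring (AlgebraicClosure ℚ),
      A.LiesOverPrime (q : ℕ) → ∀ g ∈ A.inertiaSubgroupIn ℚ, M.ρ g = 1) :
    ∀ q : Nat.Primes, q ∉ S → ∀ A : ValuationSubring (AlgebraicClosure ℚ),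
      A.LiesOverPrime (q : ℕ) → ∀ g ∈ A.inertiaSubgroupIn ℚ,
        (M.dualTwist (cycloChar p)).ρ g = 1 := by
  intro q hq A hA g hg
  have hqp : (q : ℕ) ≠ p := by
    intro h
    apply hq
    have : q = pPrime p := Subtype.ext h
    rw [this]
    exact hpS
  exact dualTwist_ρ_eq_one M (cycloChar p) g (hMur q hq A hA g hg)
    (cycloChar_eq_one_of_mem_inertia p q.2 hqp A hA g hg)

/-- **B2.** Under the hypotheses of S55 there is a single finite Galois extension `L/ℚ`,
unramified outside `S`, such that `G_L` acts trivially on `M` and on `M.dualTwist (cycloChar p)`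
and `cycloChar p` is trivial on `G_L`. -/
theorem exists_common_galois_level [FiniteDimensional (ZMod p) M]
    (S : Finset Nat.Primes) (hpS : pPrime p ∈ S)
    (hsm : ∀ m : M, ∃ F : IntermediateField ℚ (AlgebraicClosure ℚ), FiniteDimensional ℚ F ∧
      ∀ s ∈ F.fixingSubgroup, M.ρ s m = m)
    (hMur : ∀ q : Nat.Primes, q ∉ S → ∀ A : ValuationSubring (AlgebraicClosure ℚ),
      A.LiesOverPrime (q : ℕ) → ∀ g ∈ A.inertiaSubgroupIn ℚ, M.ρ g = 1) :
    ∃ L : IntermediateField ℚ (AlgebraicClosure ℚ),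
      L.IsUnramifiedOutside S ∧ IsGalois ℚ L ∧
      (∀ s ∈ L.fixingSubgroup, M.ρ s = 1) ∧
      (∀ s ∈ L.fixingSubgroup, cycloChar p s = 1) ∧
      (∀ s ∈ L.fixingSubgroup, (M.dualTwist (cycloChar p)).ρ s = 1) := by
  obtain ⟨F, hFfin, hF⟩ := exists_finite_level_of_smooth M hsm
  haveI := hFfin
  haveI := cycloLevel_finiteDimensional p
  have hsupfin : FiniteDimensional ℚ ↥(F ⊔ cycloLevel p) :=
    IntermediateField.finiteDimensional_sup F (cycloLevel p)
  obtain ⟨L, hL, hgal, hfix, -⟩ := exists_galois_level_of_subgroup S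
    (MonoidHom.ker M.ρ ⊓ MonoidHom.ker (cycloChar p)) (F ⊔ cycloLevel p) hsupfin
    (fun s hs => by
      rw [IntermediateField.fixingSubgroup_sup] at hs
      exact ⟨MonoidHom.mem_ker.2 (hF s hs.1),
        MonoidHom.mem_ker.2 (cycloChar_eq_one_of_mem_fixingSubgroup p s hs.2)⟩)
    (fun q hq A hA g hg => by
      have hqp : (q : ℕ) ≠ p := by
        intro h
        apply hq
        have : q = pPrime p := Subtype.ext h
        rw [this]
        exact hpS
      exact ⟨MonoidHom.mem_ker.2 (hMur q hq A hA g hg),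
        MonoidHom.mem_ker.2 (cycloChar_eq_one_of_mem_inertia p q.2 hqp A hA g hg)⟩)
  have hmem : ∀ s ∈ L.fixingSubgroup, M.ρ s = 1 ∧ cycloChar p s = 1 := by
    intro s hs
    rw [hfix] at hs
    exact ⟨MonoidHom.mem_ker.1 hs.1, MonoidHom.mem_ker.1 hs.2⟩
  exact ⟨L, hL, hgal, fun s hs => (hmem s hs).1, fun s hs => (hmem s hs).2,
    fun s hs => dualTwist_ρ_eq_one M (cycloChar p) s (hmem s hs).1 (hmem s hs).2⟩

end Rep

end Fermat.Agent.S55.Bridge

end
-- ===== PACK-END S55/Bridge/DualTwist.lean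

-- ===== PACK-BEGIN S55/H424/FinH1Core.lean
section


/-!
# Finiteness of level-constant `H¹` from Kummer theory (abstract core of `FIN-loc`)

`k₀` a field of characteristic zero with algebraic closure `Ω`, `G = Gal(Ω/k₀)`, such that
`Eˣ / (Eˣ)^p` is finite for every finite `E / k₀` inside `Ω`.  Let `N` be an `𝔽_p[G]`-module on
which `Gal(Ω/E₀)` acts trivially for some finite `E₀`.

* `cocycle_right_invariant_of_kummer` : there is ONE finite `E₁ ⊇ E₀` such that every
  level-constant 1-cocycle `G → N` is right-invariant under `Gal(Ω/E₁)`.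
* `finiteDimensional_of_kummer` : if moreover `N` is finite-dimensional, any submodule of
  level-constant 1-cocycles is finite-dimensional.
-/

set_option autoImplicit false
set_option linter.unusedSectionVars false
set_option linter.style.haveILetI false

namespace Fermat.Agent.S55.H424

open groupCohomology

section Abstract

/-- A space of functions `G → N` which are right-invariant under a subgroup of finite index
is finite-dimensional. -/
theorem finite_of_right_invariant {k G N : Type*} [Field k] [Group G] [AddCommGroup N]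
    [Module k N] [FiniteDimensional k N] (W : Subgroup G) [W.FiniteIndex]
    (C : Submodule k (G → N)) (hC : ∀ c ∈ C, ∀ g : G, ∀ s ∈ W, c (g * s) = c g) :
    FiniteDimensional k C := by
  classical
  haveI : Finite (G ⧸ W) := Subgroup.finite_quotient_of_finiteIndex
  let Φ : C →ₗ[k] (G ⧸ W → N) :=
    { toFun := fun c x => (c : G → N) (Quotient.out x)
      map_add' := fun c c' => rfl
      map_smul' := fun a c => rfl }
  have hΦ : Function.Injective Φ := by
    rw [injective_iff_map_eq_zero]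
    intro c hc
    apply Subtype.ext
    funext g
    obtain ⟨h, hh⟩ := QuotientGroup.mk_out_eq_mul W g
    have h1 : (c : G → N) (Quotient.out (QuotientGroup.mk g : G ⧸ W)) = 0 :=
      congrFun hc (QuotientGroup.mk g)
    rw [hh, hC c c.2 g h h.2] at h1
    exact h1
  exact Module.Finite.of_injective Φ hΦ

/-- The Galois group of `Ω` over a finite subextension has finite index. -/
theorem fixingSubgroup_finiteIndex {k₀ Ω : Type*} [Field k₀] [Field Ω] [Algebra k₀ Ω]
    [Normal k₀ Ω] (E : IntermediateField k₀ Ω) [FiniteDimensional k₀ E] :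
    E.fixingSubgroup.FiniteIndex := by
  let M : IntermediateField k₀ Ω := IntermediateField.normalClosure k₀ E Ω
  haveI : FiniteDimensional k₀ M := normalClosure.is_finiteDimensional k₀ E Ω
  haveI : Normal k₀ M := normalClosure.normal k₀ E Ω
  haveI : Finite (M ≃ₐ[k₀] M) := inferInstance
  haveI : (AlgEquiv.restrictNormalHom (F := k₀) (K₁ := Ω) M).ker.FiniteIndex :=
    Subgroup.finiteIndex_ker _
  refine Subgroup.finiteIndex_of_le (H := (AlgEquiv.restrictNormalHom (F := k₀) (K₁ := Ω) M).ker) ?_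
  rw [IntermediateField.restrictNormalHom_ker]
  exact IntermediateField.fixingSubgroup_le (IntermediateField.le_normalClosure E)

end Abstract

section Kummer

variable {k₀ Ω : Type} [Field k₀] [Field Ω] [Algebra k₀ Ω] [CharZero k₀] [IsAlgClosure k₀ Ω]

theorem cocycle_right_invariant_of_kummer (p : ℕ) [Fact p.Prime]
    (hLPI : ∀ E : IntermediateField k₀ Ω, FiniteDimensional k₀ E →
      (powMonoidHom p : (↥E)ˣ →* (↥E)ˣ).range.index ≠ 0)
    (N : Rep.{0, 0, 0} (ZMod p) (Ω ≃ₐ[k₀] Ω))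
    (E₀ : IntermediateField k₀ Ω) [FiniteDimensional k₀ E₀]
    (hN : ∀ s ∈ E₀.fixingSubgroup, ∀ a : N, N.ρ s a = a) :
    ∃ E₁ : IntermediateField k₀ Ω, FiniteDimensional k₀ E₁ ∧ E₀ ≤ E₁ ∧
      ∀ c ∈ cocycles₁ N,
        (∃ E' : IntermediateField k₀ Ω, FiniteDimensional k₀ E' ∧
          ∀ g s : Ω ≃ₐ[k₀] Ω, s ∈ E'.fixingSubgroup → c (g * s) = c g) →
        ∀ g s : Ω ≃ₐ[k₀] Ω, s ∈ E₁.fixingSubgroup → c (g * s) = c g := by
  classical
  obtain ⟨E₁, hE₁fin, hle, hE₁⟩ :=
    exists_kummer_level_intermediate (k₀ := k₀) (Ω := Ω) p (Fact.out : p.Prime).ne_zero hLPI E₀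
  refine ⟨E₁, hE₁fin, hle, ?_⟩
  rintro c hc ⟨E', hE'fin, hE'⟩ g s hs
  have hcoc := (mem_cocycles₁_iff c).1 hc
  have hc1 : c 1 = 0 := cocycles₁_map_one ⟨c, hc⟩
  have hsE₀ : s ∈ E₀.fixingSubgroup := IntermediateField.fixingSubgroup_le hle hs
  -- `c s = 0`
  have hcs : c s = 0 := by
    rw [← Module.forall_dual_apply_eq_zero_iff (ZMod p) (c s)]
    intro l
    refine hE₁ (fun t => l (c t)) ?_ ⟨E', hE'fin, ?_⟩ s hs
    · intro g' hg' h' _
      show l (c (g' * h')) = l (c g') + l (c h')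
      rw [hcoc g' h', hN g' hg', map_add, add_comm]
    · intro t ht
      show l (c t) = 0
      have h1 := hE' 1 t ht
      rw [one_mul, hc1] at h1
      rw [h1, map_zero]
  rw [hcoc g s, hcs, map_zero, zero_add]

theorem finiteDimensional_of_kummer (p : ℕ) [Fact p.Prime]
    (hLPI : ∀ E : IntermediateField k₀ Ω, FiniteDimensional k₀ E →
      (powMonoidHom p : (↥E)ˣ →* (↥E)ˣ).range.index ≠ 0)
    (N : Rep.{0, 0, 0} (ZMod p) (Ω ≃ₐ[k₀] Ω)) [FiniteDimensional (ZMod p) N]
    (E₀ : IntermediateField k₀ Ω) [FiniteDimensional k₀ E₀]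
    (hN : ∀ s ∈ E₀.fixingSubgroup, ∀ a : N, N.ρ s a = a)
    (C : Submodule (ZMod p) ((Ω ≃ₐ[k₀] Ω) → N))
    (hC : ∀ c ∈ C, c ∈ cocycles₁ N ∧
      ∃ E' : IntermediateField k₀ Ω, FiniteDimensional k₀ E' ∧
        ∀ g s : Ω ≃ₐ[k₀] Ω, s ∈ E'.fixingSubgroup → c (g * s) = c g) :
    FiniteDimensional (ZMod p) C := by
  haveI : Normal k₀ Ω := IsAlgClosure.normal k₀ Ω
  obtain ⟨E₁, hE₁fin, -, hE₁⟩ := cocycle_right_invariant_of_kummer p hLPI N E₀ hN
  haveI := hE₁fin
  haveI : E₁.fixingSubgroup.FiniteIndex := fixingSubgroup_finiteIndex E₁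
  exact finite_of_right_invariant E₁.fixingSubgroup C
    (fun c hc g s hs => hE₁ c (hC c hc).1 (hC c hc).2 g s hs)

end Kummer

end Fermat.Agent.S55.H424

end
-- ===== PACK-END S55/H424/FinH1Core.lean

-- ===== PACK-BEGIN S55/L/SpecClass.lean
section


/-!
# S55, layer L (local class field theory): frozen interface, part 3

Output statements consumed by the layers T (Tate's theorem), G and D, and the instantiation at
the `q`-adic fields of the Prelude.
-/

set_option autoImplicit false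

namespace Fermat.Agent.S55.L

open groupCohomology

/-- **L-CM** `(Gal(L/K), Lˣ)` is a class module: for every subgroup `H`, `H¹(H, Lˣ) = 0` and
`H²(H, Lˣ)` is cyclic of order `|H|`.  (Input of Tate's theorem, layer T.) -/
def ClassModuleSpec : Prop :=
  ∀ (K L : Type) [Field K] [Field L] [Algebra K L] [FiniteDimensional K L] [IsGalois K L]
    [IsLocalFld K] (H : Subgroup (L ≃ₐ[K] L)),
    Subsingleton (H1 (Rep.res H.subtype (unitsRep K L))) ∧
      Nonempty (H2 (Rep.res H.subtype (unitsRep K L)) ≃+ ZMod (Nat.card H))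

/-- **L-D1a** `H³(Gal(L/K), Lˣ) = 0`. -/
def H3Spec : Prop :=
  ∀ (K L : Type) [Field K] [Field L] [Algebra K L] [FiniteDimensional K L] [IsGalois K L]
    [IsLocalFld K], Subsingleton (groupCohomology (unitsRep K L) 3)

/-- **L-D1b** norm index: `[Kˣ : N Lˣ] = |Gal(L/K)^ab|`. -/
def NormIndexSpec : Prop :=
  ∀ (K L : Type) [Field K] [Field L] [Algebra K L] [FiniteDimensional K L] [IsGalois K L]
    [IsLocalFld K],
    (MonoidHom.range (Units.map (Algebra.norm K : L →* K))).index =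
      Nat.card (Abelianization (L ≃ₐ[K] L))

/-- **L-INST1** `ℚ_q` is a local field. -/
def PadicInstSpec : Prop :=
  ∀ (q : ℕ) [Fact q.Prime], IsLocalFld ℚ_[q]

/-- **L-INST2** the finite extensions of `ℚ_q` inside `PadicAlgCl q` are local fields, with ring
of integers the unit ball of the norm. -/
def PadicExtInstSpec : Prop :=
  ∀ (q : ℕ) [Fact q.Prime] (E : IntermediateField ℚ_[q] (PadicAlgCl q)),
    FiniteDimensional ℚ_[q] E →
      IsLocalFld E ∧ ∀ A : ValuationSubring E, IsLocalRingOfIntegers A →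
        ∀ x : E, x ∈ A ↔ ‖(x : PadicAlgCl q)‖ ≤ 1

end Fermat.Agent.S55.L

end
-- ===== PACK-END S55/L/SpecClass.lean

-- ===== PACK-BEGIN S55/H413/WRNormP.lean
section




/-!
# S55, leaf WR, part 3c: the norm group of `ℚ_p(ζ_{p^(n+1)})/ℚ_p`

For an odd prime `p` and a cyclotomic extension `F/ℚ_[p]` of level `p ^ (n + 1)`:
* `ker (wildChar p (n+1)) ≤ N(Fˣ)` unconditionally (`p = N(ζ - 1)`, and units `≡ 1 mod p^(n+1)`
  are `φ(p^(n+1))`-th powers, hence norms);
* `wildChar` is surjective, so its kernel has index `φ(p^(n+1)) = [F : ℚ_p]`;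
* hence `N(Fˣ) = ker (wildChar p (n+1))` as soon as the local norm index theorem
  `[ℚ_pˣ : N(Fˣ)] = [F : ℚ_p]` is known (hypothesis `hNI`; this is the instance `K = ℚ_[p]`,
  `L = F` of `Fermat.Agent.S55.L.NormIndexCyclicSpec`).
-/

set_option autoImplicit false

namespace Fermat.Agent.S55.H413

open Polynomial

variable (p : ℕ) [hp : Fact p.Prime]

/-- The inclusion `ℤ_[p]ˣ → ℚ_[p]ˣ`. -/
noncomputable def padicIntUnitsToPadic : ℤ_[p]ˣ →* ℚ_[p]ˣ :=
  Units.map (PadicInt.Coe.ringHom (p := p)).toMonoidHom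

@[simp] lemma coe_padicIntUnitsToPadic (w : ℤ_[p]ˣ) :
    ((padicIntUnitsToPadic p w : ℚ_[p]ˣ) : ℚ_[p]) = ((w : ℤ_[p]) : ℚ_[p]) := rfl

lemma valuation_eq_zero_of_norm_eq_one {x : ℚ_[p]} (hx : ‖x‖ = 1) : x.valuation = 0 := by
  have hx0 : x ≠ 0 := by
    rintro rfl
    simp at hx
  rw [Padic.norm_eq_zpow_neg_valuation hx0] at hx
  have hp1 : (1 : ℝ) < p := by exact_mod_cast hp.out.one_lt
  have := (zpow_eq_one_iff_right₀ (by linarith : (0 : ℝ) ≤ p) hp1.ne').mp hx
  omega

lemma unitPart_padicIntUnitsToPadic (w : ℤ_[p]ˣ) : unitPart p (padicIntUnitsToPadic p w) = w := by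
  apply Units.ext
  apply Subtype.ext
  rw [coe_unitPart, coe_padicIntUnitsToPadic,
    valuation_eq_zero_of_norm_eq_one p (by simp)]
  simp

/-- Units of `ZMod (p ^ m)` lift to units of `ℤ_[p]` (for `m ≥ 1`). -/
lemma exists_padicInt_unit_toZModPow (m : ℕ) (hm : 0 < m) (c : (ZMod (p ^ m))ˣ) :
    ∃ w : ℤ_[p]ˣ, PadicInt.toZModPow m (w : ℤ_[p]) = (c : ZMod (p ^ m)) := by
  have : NeZero (p ^ m) := ⟨(pow_pos hp.out.pos m).ne'⟩
  set a : ℤ_[p] := ((c : ZMod (p ^ m)).val : ℤ_[p]) with ha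
  have hac : PadicInt.toZModPow m a = (c : ZMod (p ^ m)) := by
    rw [ha, map_natCast, ZMod.natCast_zmod_val]
  have haunit : IsUnit a := by
    rw [PadicInt.isUnit_iff]
    refine le_antisymm (PadicInt.norm_le_one _) ?_
    by_contra hlt
    rw [not_le, PadicInt.norm_lt_one_iff_dvd] at hlt
    obtain ⟨b, hb⟩ := hlt
    have h1 : (c : ZMod (p ^ m)) = (p : ZMod (p ^ m)) * PadicInt.toZModPow m b := by
      rw [← hac, hb, map_mul, map_natCast]
    have h2 : IsUnit (p : ZMod (p ^ m)) := by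
      have hc : IsUnit ((p : ZMod (p ^ m)) * PadicInt.toZModPow m b) := by
        rw [← h1]; exact c.isUnit
      exact isUnit_of_mul_isUnit_left hc
    have h3 : (p : ZMod (p ^ m)) ^ m = 0 := by
      have h5 : ((p ^ m : ℕ) : ZMod (p ^ m)) = 0 := ZMod.natCast_self _
      rw [Nat.cast_pow] at h5
      exact h5
    have h4 : IsUnit ((p : ZMod (p ^ m)) ^ m) := h2.pow m
    rw [h3] at h4
    have : Nontrivial (ZMod (p ^ m)) :=
      ZMod.nontrivial_iff.mpr (Nat.one_lt_pow hm.ne' hp.out.one_lt).ne'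
    exact not_isUnit_zero h4
  exact ⟨haunit.unit, by rw [IsUnit.unit_spec, hac]⟩

lemma wildChar_surjective (m : ℕ) (hm : 0 < m) : Function.Surjective (wildChar p m) := by
  intro c
  obtain ⟨w, hw⟩ := exists_padicInt_unit_toZModPow p m hm c⁻¹
  refine ⟨padicIntUnitsToPadic p w, ?_⟩
  rw [wildChar_apply, inv_eq_iff_eq_inv]
  apply Units.ext
  rw [coe_unitResidue, unitPart_padicIntUnitsToPadic, hw]

lemma index_ker_wildChar (m : ℕ) (hm : 0 < m) : (wildChar p m).ker.index = (p ^ m).totient := by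
  have : NeZero (p ^ m) := ⟨(pow_pos hp.out.pos m).ne'⟩
  rw [Subgroup.index_ker, MonoidHom.range_eq_top.mpr (wildChar_surjective p m hm),
    Subgroup.card_top, Nat.card_eq_fintype_card, ZMod.card_units_eq_totient]

lemma mem_ker_wildChar_iff (m : ℕ) (x : ℚ_[p]ˣ) :
    x ∈ (wildChar p m).ker ↔ PadicInt.toZModPow m ((unitPart p x : ℤ_[p]ˣ) : ℤ_[p]) = 1 := by
  rw [MonoidHom.mem_ker, wildChar_apply, inv_eq_one, ← coe_unitResidue]
  exact ⟨fun h => by rw [h]; rfl, fun h => Units.ext (by rw [h]; rfl)⟩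

section Cyclotomic

variable (n : ℕ) (F : Type*) [Field F] [Algebra ℚ_[p] F]
  [IsCyclotomicExtension {p ^ (n + 1)} ℚ_[p] F]

/-- The norm group of `F/ℚ_p`. -/
noncomputable abbrev normRange : Subgroup ℚ_[p]ˣ :=
  MonoidHom.range (Units.map (Algebra.norm ℚ_[p] : F →* ℚ_[p]))

lemma finrank_cyclotomic_padic : Module.finrank ℚ_[p] F = (p ^ (n + 1)).totient :=
  IsCyclotomicExtension.finrank F (irreducible_cyclotomic_padic p n)

/-- `ker (wildChar) ≤ N(Fˣ)`: unconditional. -/
theorem ker_wildChar_le_normRange (hp2 : p ≠ 2) :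
    (wildChar p (n + 1)).ker ≤ normRange p F := by
  have : NeZero (p ^ (n + 1)) := ⟨(pow_pos hp.out.pos _).ne'⟩
  have : FiniteDimensional ℚ_[p] F :=
    IsCyclotomicExtension.finiteDimensional {p ^ (n + 1)} ℚ_[p] F
  have hirr := irreducible_cyclotomic_padic p n
  have hζ := IsCyclotomicExtension.zeta_spec (p ^ (n + 1)) ℚ_[p] F
  set ζ := IsCyclotomicExtension.zeta (p ^ (n + 1)) ℚ_[p] F with hζdef
  have hnorm : Algebra.norm ℚ_[p] (ζ - 1) = (p : ℚ_[p]) :=
    hζ.norm_sub_one_of_prime_ne_two hirr hp2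
  have hζ1 : ζ - 1 ≠ 0 :=
    hζ.sub_one_ne_zero (Nat.one_lt_pow (Nat.succ_ne_zero n) hp.out.one_lt)
  intro x hx
  rw [mem_ker_wildChar_iff] at hx
  obtain ⟨w, hw⟩ := exists_pow_totient_eq p hp2 (n + 1) (Nat.succ_pos n) (unitPart p x) hx
  -- the preimage
  set N : Fˣ →* ℚ_[p]ˣ := Units.map (Algebra.norm ℚ_[p] : F →* ℚ_[p]) with hN
  set wF : Fˣ := Units.map (algebraMap ℚ_[p] F : ℚ_[p] →* F) (padicIntUnitsToPadic p w) with hwF
  set π : Fˣ := Units.mk0 (ζ - 1) hζ1 with hπ
  have hNw : N wF = padicIntUnitsToPadic p (unitPart p x) := by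
    apply Units.ext
    rw [hN, Units.coe_map, hwF, Units.coe_map]
    show Algebra.norm ℚ_[p] (algebraMap ℚ_[p] F ((w : ℤ_[p]) : ℚ_[p])) = _
    rw [Algebra.norm_algebraMap, finrank_cyclotomic_padic p n F, ← hw]
    simp
  have hNπ : ((N π : ℚ_[p]ˣ) : ℚ_[p]) = (p : ℚ_[p]) := by
    rw [hN, Units.coe_map, hπ, Units.val_mk0]
    exact hnorm
  refine ⟨wF * π ^ (x : ℚ_[p]).valuation, ?_⟩
  rw [map_mul, map_zpow, hNw]
  apply Units.ext
  rw [Units.val_mul, Units.val_zpow_eq_zpow_val, hNπ, coe_padicIntUnitsToPadic]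
  exact (eq_unitPart_mul p x).symm

/-- **The norm group of `ℚ_p(ζ_{p^(n+1)})/ℚ_p`** is the kernel of the explicit character
`wildChar`, given the local norm index theorem for this (cyclic) extension. -/
theorem normRange_eq_ker_wildChar (hp2 : p ≠ 2)
    (hNI : (normRange p F).index = Module.finrank ℚ_[p] F) :
    normRange p F = (wildChar p (n + 1)).ker := by
  have hle := ker_wildChar_le_normRange p n F hp2
  have h1 := Subgroup.relIndex_mul_index hle
  rw [hNI, finrank_cyclotomic_padic p n F, index_ker_wildChar p (n + 1) (Nat.succ_pos n)] at h1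
  have hpos : 0 < (p ^ (n + 1)).totient := Nat.totient_pos.mpr (pow_pos hp.out.pos _)
  have h2 : (wildChar p (n + 1)).ker.relIndex (normRange p F) = 1 := by
    have : (wildChar p (n + 1)).ker.relIndex (normRange p F) * (p ^ (n + 1)).totient =
        1 * (p ^ (n + 1)).totient := by rw [h1, one_mul]
    exact Nat.eq_of_mul_eq_mul_right hpos this
  exact le_antisymm (Subgroup.relIndex_eq_one.mp h2) hle

end Cyclotomic

end Fermat.Agent.S55.H413

end
-- ===== PACK-END S55/H413/WRNormP.lean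

-- ===== PACK-BEGIN S55/H713/UnitsFiltration.lean
section


/-!
# The filtration `W k = 1 + π^k M` of the unit group and the Galois maps on units
-/

set_option autoImplicit false
set_option linter.unusedSectionVars false

open IsLocalRing

namespace Fermat.Agent.S55.H713

variable {O : Type*} [CommRing O]
variable {G : Type*} [Group G] [MulSemiringAction G O]

section Action

/-- The action of `g` on units. -/
def actU (g : G) : Oˣ →* Oˣ :=
  Units.map ((MulSemiringAction.toRingHom G O g : O →+* O) : O →* O)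

@[simp] lemma coe_actU (g : G) (u : Oˣ) : ((actU g u : Oˣ) : O) = g • (u : O) := rfl

lemma actU_mul (g g' : G) (u : Oˣ) : actU (g * g') u = actU g (actU g' u) := by
  ext; simp [mul_smul]

lemma actU_one (u : Oˣ) : actU (1 : G) u = u := by
  ext; simp

variable [Fintype G]

/-- The norm on units. -/
noncomputable def normU (G : Type*) [Group G] [MulSemiringAction G O] [Fintype G] :
    Oˣ →* Oˣ := ∏ g : G, actU g

lemma normU_apply (u : Oˣ) : normU G u = ∏ g : G, actU g u := by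
  simp [normU]

lemma coe_normU (u : Oˣ) : ((normU G u : Oˣ) : O) = ∏ g : G, g • (u : O) := by
  rw [normU_apply, Units.coe_prod]; rfl

/-- `u ↦ σ u / u`. -/
def sigmaSubOne (σ : G) : Oˣ →* Oˣ := actU σ / MonoidHom.id _

lemma sigmaSubOne_apply (σ : G) (u : Oˣ) : sigmaSubOne σ u = actU σ u / u := rfl

lemma actU_normU (σ : G) (u : Oˣ) : actU σ (normU G u) = normU G u := by
  rw [normU_apply, map_prod]
  refine Fintype.prod_equiv (Equiv.mulLeft σ) _ _ (fun g => ?_)
  simp [actU_mul]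

lemma normU_actU (σ : G) (u : Oˣ) : normU G (actU σ u) = normU G u := by
  rw [normU_apply, normU_apply]
  refine Fintype.prod_equiv (Equiv.mulRight σ) _ _ (fun g => ?_)
  simp [actU_mul]

lemma sigmaSubOne_normU (σ : G) (u : Oˣ) : sigmaSubOne σ (normU G u) = 1 := by
  rw [sigmaSubOne_apply, actU_normU, div_self']

lemma normU_sigmaSubOne (σ : G) (u : Oˣ) : normU G (sigmaSubOne σ u) = 1 := by
  rw [sigmaSubOne_apply, map_div, normU_actU, div_self']

end Action


section Filtration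

variable [IsDomain O] [IsLocalRing O] [Fintype G]
variable {σ : G} {π : O} {M : AddSubgroup O}

namespace IsGoodLattice

variable (h : IsGoodLattice σ π M)
include h

lemma pow_mem_lat {k : ℕ} {x : O} (hx : x ∈ lat π M k) (i : ℕ) : x ^ (i + 1) ∈ lat π M k := by
  induction i with
  | zero => simpa using hx
  | succ i ih => rw [pow_succ]; exact h.lat_mul_lat_left ih hx

/-- If `u - 1 ∈ lat k` for a unit `u` then `u⁻¹ - 1 ∈ lat k`. -/
lemma inv_sub_one_mem {k : ℕ} (u : Oˣ) (hu : (u : O) - 1 ∈ lat π M k) :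
    ((u⁻¹ : Oˣ) : O) - 1 ∈ lat π M k := by
  obtain ⟨j, hj⟩ := h.isOpen k
  set x : O := 1 - (u : O) with hx
  have hxl : x ∈ lat π M k := by
    have : x = -((u : O) - 1) := by rw [hx]; ring
    rw [this]; exact (lat π M k).neg_mem hu
  have hxm : x ∈ maximalIdeal O := h.lat_le_max k x hxl
  have hgeom : (∑ i ∈ Finset.range (j + 1), x ^ i) * (u : O) = 1 - x ^ (j + 1) := by
    have h1 := geom_sum_mul x (j + 1)
    have : (u : O) = -(x - 1) := by rw [hx]; ring
    rw [this, mul_neg, h1]; ring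
  have hinv : ((u⁻¹ : Oˣ) : O) =
      (∑ i ∈ Finset.range (j + 1), x ^ i) + x ^ (j + 1) * ((u⁻¹ : Oˣ) : O) := by
    have h2 : (∑ i ∈ Finset.range (j + 1), x ^ i) * (u : O) * ((u⁻¹ : Oˣ) : O) =
        (1 - x ^ (j + 1)) * ((u⁻¹ : Oˣ) : O) := by rw [hgeom]
    rw [mul_assoc, Units.mul_inv, mul_one] at h2
    rw [h2]; ring
  have hsum : (∑ i ∈ Finset.range (j + 1), x ^ i) - 1 ∈ lat π M k := by
    rw [Finset.sum_range_succ', pow_zero, add_sub_cancel_right]
    exact (lat π M k).sum_mem (fun i _ => h.pow_mem_lat hxl i)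
  have htail : x ^ (j + 1) * ((u⁻¹ : Oˣ) : O) ∈ lat π M k := by
    apply hj
    apply Ideal.mul_mem_right
    exact Ideal.pow_le_pow_right (Nat.le_succ j) (Ideal.pow_mem_pow hxm (j + 1))
  have : ((u⁻¹ : Oˣ) : O) - 1 =
      ((∑ i ∈ Finset.range (j + 1), x ^ i) - 1) + x ^ (j + 1) * ((u⁻¹ : Oˣ) : O) := by
    nth_rewrite 1 [hinv]; ring
  rw [this]
  exact (lat π M k).add_mem hsum htail

/-- The subgroup `1 + π^k M` of `Oˣ`. -/
def W (k : ℕ) : Subgroup Oˣ where
  carrier := {u | (u : O) - 1 ∈ lat π M k}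
  one_mem' := by simp
  mul_mem' := by
    intro u v hu hv
    simp only [Set.mem_ofPred_eq, Units.val_mul] at hu hv ⊢
    have : (u : O) * v - 1 = ((u : O) - 1) + ((v : O) - 1) + ((u : O) - 1) * ((v : O) - 1) := by
      ring
    rw [this]
    exact (lat π M k).add_mem ((lat π M k).add_mem hu hv) (h.lat_mul_lat_left hu hv)
  inv_mem' := by
    intro u hu
    exact h.inv_sub_one_mem u hu

lemma mem_W {k : ℕ} {u : Oˣ} : u ∈ h.W k ↔ (u : O) - 1 ∈ lat π M k := Iff.rfl

lemma W_antitone : Antitone h.W := by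
  intro i j hij u hu
  exact h.lat_antitone hij hu

lemma W_le_zero (k : ℕ) : h.W k ≤ h.W 0 := h.W_antitone (Nat.zero_le k)

lemma sub_one_mem_M {k : ℕ} {u : Oˣ} (hu : u ∈ h.W k) : (u : O) - 1 ∈ M :=
  h.lat_le_M k hu

/-- Elements `1 + x`, `x ∈ lat k`, are units in `W k`. -/
lemma exists_unit {k : ℕ} {x : O} (hx : x ∈ lat π M k) : ∃ u ∈ h.W k, (u : O) = 1 + x := by
  have hu : IsUnit (1 + x) := by
    have := isUnit_one_sub_self_of_mem_nonunits (-x)
      (by rw [← mem_maximalIdeal]; exact neg_mem (h.lat_le_max k x hx))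
    simpa using this
  refine ⟨hu.unit, ?_, rfl⟩
  rw [mem_W]
  simpa using hx

lemma actU_mem_W (g : G) {k : ℕ} {u : Oˣ} (hu : u ∈ h.W k) : actU g u ∈ h.W k := by
  rw [mem_W] at hu ⊢
  have : ((actU g u : Oˣ) : O) - 1 = g • ((u : O) - 1) := by
    simp [smul_sub]
  rw [this]
  exact h.smul_mem_lat g hu

lemma normU_mem_W {k : ℕ} {u : Oˣ} (hu : u ∈ h.W k) : normU G u ∈ h.W k := by
  rw [normU_apply]
  exact Subgroup.prod_mem _ (fun g _ => h.actU_mem_W g hu)

lemma sigmaSubOne_mem_W {k : ℕ} {u : Oˣ} (hu : u ∈ h.W k) : sigmaSubOne σ u ∈ h.W k := by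
  rw [sigmaSubOne_apply]
  exact (h.W k).div_mem (h.actU_mem_W σ hu) hu

/-- `u / v - 1 ∈ lat k` as soon as `u - v ∈ lat k` and `v ∈ W 0`. -/
lemma div_mem_W {k : ℕ} {u v : Oˣ} (hv : v ∈ h.W 0) (huv : (u : O) - v ∈ lat π M k) :
    u / v ∈ h.W k := by
  rw [mem_W]
  have hvi : v⁻¹ ∈ h.W 0 := (h.W 0).inv_mem hv
  have : ((u / v : Oˣ) : O) - 1 = ((u : O) - v) * ((v⁻¹ : Oˣ) : O) := by
    rw [div_eq_mul_inv, Units.val_mul, sub_mul, Units.mul_inv]
  rw [this]
  exact h.lat_mul_one_add huv (h.sub_one_mem_M hvi)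

/-- Conversely. -/
lemma sub_mem_of_div_mem_W {k : ℕ} {u v : Oˣ} (hv : v ∈ h.W 0) (huv : u / v ∈ h.W k) :
    (u : O) - v ∈ lat π M k := by
  rw [mem_W] at huv
  have : (u : O) - v = (((u / v : Oˣ) : O) - 1) * (v : O) := by
    rw [div_eq_mul_inv, Units.val_mul, sub_mul, mul_assoc, Units.inv_mul, mul_one, one_mul]
  rw [this]
  exact h.lat_mul_one_add huv (h.sub_one_mem_M hv)

end IsGoodLattice

end Filtration

end Fermat.Agent.S55.H713

end
-- ===== PACK-END S55/H713/UnitsFiltration.lean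

-- ===== PACK-BEGIN S55/H713/HerbrandSub.lean
section


/-!
# Herbrand quotient: a stable exact subgroup of finite index
-/

set_option autoImplicit false
set_option linter.unusedSectionVars false

namespace Fermat.Agent.S55.H713

open Fermat.Agent.S55.Herbrand

variable {B : Type*} [AddCommGroup B]

/-- If `A ≤ B` is stable under `f, g`, the pairs `(f, g)` and `(g, f)` are exact on `A`, and
`B ⧸ A` is finite, then the Herbrand quotient of `B` is defined and equal to `1`. -/
theorem q_eq_one_of_exact_of_finite (f g : B →+ B)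
    (hfg : ∀ b, f (g b) = 0) (hgf : ∀ b, g (f b) = 0) (A : AddSubgroup B)
    (hfA : ∀ a ∈ A, f a ∈ A) (hgA : ∀ a ∈ A, g a ∈ A)
    (hex1 : ∀ a ∈ A, f a = 0 → ∃ y ∈ A, g y = a)
    (hex2 : ∀ a ∈ A, g a = 0 → ∃ y ∈ A, f y = a)
    [Finite (B ⧸ A)] : IsDefined f g ∧ q f g = 1 := by
  -- restricted maps
  let fA : A →+ A := (f.comp A.subtype).codRestrict A (fun a => hfA a a.2)
  let gA : A →+ A := (g.comp A.subtype).codRestrict A (fun a => hgA a a.2)
  -- induced maps
  let fC : B ⧸ A →+ B ⧸ A := QuotientAddGroup.map A A f (fun a ha => hfA a ha)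
  let gC : B ⧸ A →+ B ⧸ A := QuotientAddGroup.map A A g (fun a ha => hgA a ha)
  have hi : Function.Injective A.subtype := A.subtype_injective
  have hp : Function.Surjective (QuotientAddGroup.mk' A) := QuotientAddGroup.mk'_surjective A
  have hex : (QuotientAddGroup.mk' A).ker = A.subtype.range := by
    rw [QuotientAddGroup.ker_mk', AddSubgroup.range_subtype]
  have hif : ∀ a, A.subtype (fA a) = f (A.subtype a) := fun a => rfl
  have hig : ∀ a, A.subtype (gA a) = g (A.subtype a) := fun a => rfl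
  have hpf : ∀ b, QuotientAddGroup.mk' A (f b) = fC (QuotientAddGroup.mk' A b) := fun b => rfl
  have hpg : ∀ b, QuotientAddGroup.mk' A (g b) = gC (QuotientAddGroup.mk' A b) := fun b => rfl
  -- exactness on `A`
  have h1 : hIndex fA gA = 1 := by
    unfold hIndex
    rw [AddSubgroup.relIndex_eq_one]
    intro a ha
    obtain ⟨y, hy, hya⟩ := hex1 a a.2 (by
      have := AddMonoidHom.mem_ker.1 ha
      exact congrArg Subtype.val this)
    exact ⟨⟨y, hy⟩, Subtype.ext hya⟩
  have h2 : hIndex gA fA = 1 := by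
    unfold hIndex
    rw [AddSubgroup.relIndex_eq_one]
    intro a ha
    obtain ⟨y, hy, hya⟩ := hex2 a a.2 (by
      have := AddMonoidHom.mem_ker.1 ha
      exact congrArg Subtype.val this)
    exact ⟨⟨y, hy⟩, Subtype.ext hya⟩
  have hA : IsDefined fA gA := ⟨by rw [h1]; exact one_ne_zero, by rw [h2]; exact one_ne_zero⟩
  have hqA : q fA gA = 1 := by unfold q; rw [h1, h2]; simp
  have hfgC : ∀ c, fC (gC c) = 0 := by
    intro c
    obtain ⟨b, rfl⟩ := hp c
    rw [← hpg, ← hpf, hfg, map_zero]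
  have hgfC : ∀ c, gC (fC c) = 0 := by
    intro c
    obtain ⟨b, rfl⟩ := hp c
    rw [← hpf, ← hpg, hgf, map_zero]
  have hC : IsDefined fC gC := isDefined_of_finite fC gC
  have hqC : q fC gC = 1 := q_eq_one_of_finite fC gC hfgC hgfC
  refine ⟨isDefined_mid hfg hgf hi hp hex hif hig hpf hpg hA hC, ?_⟩
  rw [q_mul_of_exact hfg hgf hi hp hex hif hig hpf hpg hA hC, hqA, hqC, one_mul]

/-- The Herbrand quotient of `ℤ` with `f = 0`, `g = n`. -/
theorem q_int (n : ℕ) (hn : n ≠ 0) :
    IsDefined (0 : ℤ →+ ℤ) (n • AddMonoidHom.id ℤ) ∧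
      q (0 : ℤ →+ ℤ) (n • AddMonoidHom.id ℤ) = n := by
  have hr : (n • AddMonoidHom.id ℤ).range = AddSubgroup.zmultiples (n : ℤ) := by
    ext x
    simp only [AddMonoidHom.mem_range, AddMonoidHom.smul_apply, AddMonoidHom.id_apply,
      nsmul_eq_mul, Int.mem_zmultiples_iff]
    constructor
    · rintro ⟨y, rfl⟩; exact ⟨y, rfl⟩
    · rintro ⟨y, rfl⟩; exact ⟨y, rfl⟩
  have hk : (n • AddMonoidHom.id ℤ).ker = ⊥ := by
    ext x
    simp only [AddMonoidHom.mem_ker, AddMonoidHom.smul_apply, AddMonoidHom.id_apply,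
      nsmul_eq_mul, AddSubgroup.mem_bot]
    constructor
    · intro h
      rcases mul_eq_zero.1 h with h | h
      · exact absurd (by exact_mod_cast h) hn
      · exact h
    · rintro rfl; simp
  have h1 : hIndex (0 : ℤ →+ ℤ) (n • AddMonoidHom.id ℤ) = n := by
    unfold hIndex
    rw [hr, AddMonoidHom.ker_zero, AddSubgroup.relIndex_top_right, Int.index_zmultiples]
    simp
  have h2 : hIndex (n • AddMonoidHom.id ℤ) (0 : ℤ →+ ℤ) = 1 := by
    unfold hIndex
    rw [hk, AddSubgroup.relIndex_eq_one]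
    exact bot_le
  refine ⟨⟨by rw [h1]; exact hn, by rw [h2]; exact one_ne_zero⟩, ?_⟩
  unfold q
  rw [h1, h2]; simp

end Fermat.Agent.S55.H713

end
-- ===== PACK-END S55/H713/HerbrandSub.lean

-- ===== PACK-BEGIN S55/G/SpecUnits.lean
section
/-
S55, layer G (global class field theory), block **G-U : Herbrand quotient of units and S-units**
(arithmetic input of the FIRST INEQUALITY).      Sub-architect: helper595.

This file contains ONLY definitions and `Spec` propositions (no `sorry`).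
Producers prove `theorem xxx : XxxSpec`; the assembly files prove the two top specs
`UnitsHerbrandSpec`, `SUnitsHerbrandSpec` from the leaf specs.

Vocabulary: helper895's `Fermat.Agent.S55.Herbrand` (on main):
  `hIndex f g = [ker f : im g]`,  `hIndexSub f g A = [A ∩ ker f : g A]`  (`0` = infinite).
-/



set_option autoImplicit false

namespace Fermat.Agent.S55.G

open Fermat.Agent.S55.Herbrand NumberField

universe u v

/-! ## 1. Permutation lattices -/

section Perm

variable (G : Type u) [Group G] (X : Type v) [MulAction G X]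

/-- Permutation action of `τ` on `ℤ`-valued functions: `(permHom τ a) x = a (τ⁻¹ • x)`. -/
def permHom (τ : G) : (X → ℤ) →+ (X → ℤ) where
  toFun a x := a (τ⁻¹ • x)
  map_zero' := rfl
  map_add' _ _ := rfl

/-- Permutation action of `τ` on `ℝ`-valued functions. -/
def permHomR (τ : G) : (X → ℝ) →+ (X → ℝ) where
  toFun a x := a (τ⁻¹ • x)
  map_zero' := rfl
  map_add' _ _ := rfl

/-- `σ - 1` on `ℤ^X`. -/
def permAug (σ : G) : (X → ℤ) →+ (X → ℤ) := permHom G X σ - AddMonoidHom.id _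

/-- `σ - 1` on `ℝ^X`. -/
def permAugR (σ : G) : (X → ℝ) →+ (X → ℝ) := permHomR G X σ - AddMonoidHom.id _

/-- The norm `∑_τ τ` on `ℤ^X`. -/
noncomputable def permNorm [Fintype G] : (X → ℤ) →+ (X → ℤ) := ∑ τ : G, permHom G X τ

/-- The norm `∑_τ τ` on `ℝ^X`. -/
noncomputable def permNormR [Fintype G] : (X → ℝ) →+ (X → ℝ) := ∑ τ : G, permHomR G X τ

/-- The sum of all coordinates. -/
def sumHom [Fintype X] : (X → ℤ) →+ ℤ where
  toFun a := ∑ x, a x
  map_zero' := by simp
  map_add' a b := by simp [Finset.sum_add_distrib]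

/-- The trace-zero sublattice of `ℤ^X`. -/
def traceZero [Fintype X] : AddSubgroup (X → ℤ) := (sumHom X).ker

/-- The product over the `G`-orbits of `X` of the orders of the stabilisers. -/
noncomputable def stabProd [Fintype X] : ℕ :=
  letI := Classical.decEq (MulAction.orbitRel.Quotient G X)
  haveI : Fintype (MulAction.orbitRel.Quotient G X) := Fintype.ofFinite _
  ∏ o : MulAction.orbitRel.Quotient G X, Nat.card (MulAction.stabilizer G o.out)

end Perm

/-- **(P1) permutation modules.** `G = ⟨σ⟩` finite cyclic, `X` a finite `G`-set: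
`Ĥ⁰(G, ℤ^X)` has order `∏_{orbits} |Stab|` and `Ĥ⁻¹(G, ℤ^X) = 0`. -/
def PermSpec : Prop :=
  ∀ (G : Type u) [Group G] [Fintype G] (X : Type v) [Fintype X] [MulAction G X] (σ : G),
    (∀ τ : G, τ ∈ Subgroup.zpowers σ) →
      hIndex (permAug G X σ) (permNorm G X) = stabProd G X ∧
      hIndex (permNorm G X) (permAug G X σ) = 1

/-- **(P2) trace-zero sublattice.** For nonempty `X`:
`h(Λ₀) = ∏_{orbits} |Stab| / |G|`, both indices finite. -/
def TraceZeroSpec : Prop :=
  ∀ (G : Type u) [Group G] [Fintype G] (X : Type v) [Fintype X] [Nonempty X] [MulAction G X]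
    (σ : G), (∀ τ : G, τ ∈ Subgroup.zpowers σ) →
      hIndexSub (permAug G X σ) (permNorm G X) (traceZero X) ≠ 0 ∧
      hIndexSub (permNorm G X) (permAug G X σ) (traceZero X) ≠ 0 ∧
      hIndexSub (permAug G X σ) (permNorm G X) (traceZero X) * Fintype.card G =
        hIndexSub (permNorm G X) (permAug G X σ) (traceZero X) * stabProd G X

/-! ## 2. The lattice lemma -/

/-- **(LAT) lattice lemma.** Two `s`-stable `ℤ`-lattices `Λ₁ = ⊕ ℤ b₁ i`, `Λ₂ = ⊕ ℤ b₂ i` spanning
the same real subspace of `V` (where `s` is a linear map of finite order) have finite Herbrand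
indices with respect to `(s - 1, 1 + s + ⋯ + s^(n-1))` and the same Herbrand quotient. -/
def LatticeSpec : Prop :=
  ∀ (V : Type u) [AddCommGroup V] [Module ℝ V] (s : V →ₗ[ℝ] V) (n r : ℕ), 0 < n → s ^ n = 1 →
    ∀ (b₁ b₂ : Fin r → V), LinearIndependent ℝ b₁ → LinearIndependent ℝ b₂ →
      Submodule.span ℝ (Set.range b₁) = Submodule.span ℝ (Set.range b₂) →
      (∀ i, s (b₁ i) ∈ Submodule.span ℤ (Set.range b₁)) →
      (∀ i, s (b₂ i) ∈ Submodule.span ℤ (Set.range b₂)) →
      let F : V →+ V := (s - 1 : V →ₗ[ℝ] V).toAddMonoidHom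
      let N : V →+ V := (∑ k ∈ Finset.range n, s ^ k : V →ₗ[ℝ] V).toAddMonoidHom
      let Λ₁ : AddSubgroup V := (Submodule.span ℤ (Set.range b₁)).toAddSubgroup
      let Λ₂ : AddSubgroup V := (Submodule.span ℤ (Set.range b₂)).toAddSubgroup
      hIndexSub F N Λ₁ ≠ 0 ∧ hIndexSub N F Λ₁ ≠ 0 ∧ hIndexSub F N Λ₂ ≠ 0 ∧ hIndexSub N F Λ₂ ≠ 0 ∧
        hIndexSub F N Λ₁ * hIndexSub N F Λ₂ = hIndexSub F N Λ₂ * hIndexSub N F Λ₁

/-! ## 3. Units of number fields -/

section Units

variable (K : Type u) (L : Type v) [Field K] [Field L] [Algebra K L]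

/-- The action of `τ ∈ Gal(L/K)` on `Lˣ`, additively. -/
def unitsHom (τ : L ≃ₐ[K] L) : Additive Lˣ →+ Additive Lˣ :=
  MonoidHom.toAdditive (Units.map ((τ : L →+* L) : L →* L))

/-- `x ↦ σ x / x` on `Lˣ`, additively. -/
def unitsAug (σ : L ≃ₐ[K] L) : Additive Lˣ →+ Additive Lˣ :=
  unitsHom K L σ - AddMonoidHom.id _

/-- The norm `x ↦ ∏_τ τ x` on `Lˣ`, additively. -/
noncomputable def unitsNorm [FiniteDimensional K L] : Additive Lˣ →+ Additive Lˣ :=
  ∑ τ : (L ≃ₐ[K] L), unitsHom K L τ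

variable [NumberField L]

/-- The units of the ring of integers, as a subgroup of `Lˣ` (additively). -/
def intUnits : AddSubgroup (Additive Lˣ) :=
  (Units.map ((algebraMap (𝓞 L) L : 𝓞 L →+* L) : 𝓞 L →* L)).range.toAddSubgroup

variable [NumberField K]

/-- The primes of `L` lying over a prime of `K` in the finite set `T`. -/
def primesAbove (T : Finset (IsDedekindDomain.HeightOneSpectrum (𝓞 K))) :
    Set (IsDedekindDomain.HeightOneSpectrum (𝓞 L)) :=
  {w | ∃ v ∈ T, w.asIdeal.under (𝓞 K) = v.asIdeal}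

/-- The `T`-units of `L` (units outside the primes above `T`), as a subgroup of `Lˣ`
(additively). -/
noncomputable def sUnits (T : Finset (IsDedekindDomain.HeightOneSpectrum (𝓞 K))) :
    AddSubgroup (Additive Lˣ) :=
  ((primesAbove K L T).unit L).toAddSubgroup

/-- The product of the local degrees at the infinite places of `K`. -/
noncomputable def infDegProd : ℕ :=
  ∏ v : InfinitePlace K, (letI := Classical.propDecidable (v.IsUnramifiedIn L)
    if v.IsUnramifiedIn L then 1 else 2)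

/-- The product of the local degrees `e_v f_v` at the primes in `T`. -/
noncomputable def finDegProd (T : Finset (IsDedekindDomain.HeightOneSpectrum (𝓞 K))) : ℕ :=
  ∏ v ∈ T, (v.asIdeal.ramificationIdxIn (𝓞 L) * v.asIdeal.inertiaDegIn (𝓞 L))

/-- The real hyperplane of trace-zero functions on the infinite places. -/
noncomputable def traceZeroR : Submodule ℝ (InfinitePlace L → ℝ) :=
  LinearMap.ker (∑ w : InfinitePlace L, LinearMap.proj w : (InfinitePlace L → ℝ) →ₗ[ℝ] ℝ)

end Units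

/-- **(U-LOG) equivariant logarithmic lattice of the units.** -/
def UnitsLogSpec : Prop :=
  ∀ (K : Type u) (L : Type v) [Field K] [Field L] [NumberField K] [NumberField L] [Algebra K L]
    [IsGalois K L],
    ∃ φ : Additive Lˣ →+ (InfinitePlace L → ℝ),
      (∀ (τ : L ≃ₐ[K] L) (x : Additive Lˣ),
        φ (unitsHom K L τ x) = permHomR (L ≃ₐ[K] L) (InfinitePlace L) τ (φ x)) ∧
      Finite ↥(φ.ker ⊓ intUnits L) ∧
      ∃ (r : ℕ) (b : Fin r → (InfinitePlace L → ℝ)), LinearIndependent ℝ b ∧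
        Submodule.span ℝ (Set.range b) = traceZeroR L ∧
        (intUnits L).map φ = (Submodule.span ℤ (Set.range b)).toAddSubgroup

/-- **(U-ORB) orbits of the infinite places.** -/
def OrbitInfSpec : Prop :=
  ∀ (K : Type u) (L : Type v) [Field K] [Field L] [NumberField K] [NumberField L] [Algebra K L]
    [IsGalois K L], stabProd (L ≃ₐ[K] L) (InfinitePlace L) = infDegProd K L

/-- **(U) Herbrand quotient of the units**: for `L/K` cyclic of degree `n`,
`h(𝒪_L^×) = (∏_{v | ∞} n_v) / n`. -/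
def UnitsHerbrandSpec : Prop :=
  ∀ (K : Type u) (L : Type v) [Field K] [Field L] [NumberField K] [NumberField L] [Algebra K L]
    [IsGalois K L] (σ : L ≃ₐ[K] L), (∀ τ : L ≃ₐ[K] L, τ ∈ Subgroup.zpowers σ) →
      hIndexSub (unitsAug K L σ) (unitsNorm K L) (intUnits L) ≠ 0 ∧
      hIndexSub (unitsNorm K L) (unitsAug K L σ) (intUnits L) ≠ 0 ∧
      hIndexSub (unitsAug K L σ) (unitsNorm K L) (intUnits L) * Module.finrank K L =
        hIndexSub (unitsNorm K L) (unitsAug K L σ) (intUnits L) * infDegProd K L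

/-- **(S-ORD) the valuation map on `T`-units.**  There is an equivariant map from `Lˣ` to the
permutation lattice on the primes above `T` whose kernel on the `T`-units is the group of
units and whose image on the `T`-units has finite index; the stabiliser product of the
`G`-set of primes above `T` is `∏_{v ∈ T} e_v f_v`. -/
def SUnitsOrdSpec : Prop :=
  ∀ (K : Type u) (L : Type v) [Field K] [Field L] [NumberField K] [NumberField L] [Algebra K L]
    [IsGalois K L] (T : Finset (IsDedekindDomain.HeightOneSpectrum (𝓞 K))),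
    ∃ (_ : MulAction (L ≃ₐ[K] L) ↥(primesAbove K L T)) (_ : Fintype ↥(primesAbove K L T))
      (ψ : Additive Lˣ →+ (↥(primesAbove K L T) → ℤ)),
      (∀ (τ : L ≃ₐ[K] L) (x : Additive Lˣ),
        ψ (unitsHom K L τ x) = permHom (L ≃ₐ[K] L) ↥(primesAbove K L T) τ (ψ x)) ∧
      ψ.ker ⊓ sUnits K L T = intUnits L ∧
      ((sUnits K L T).map ψ).index ≠ 0 ∧
      stabProd (L ≃ₐ[K] L) ↥(primesAbove K L T) = finDegProd K L T

/-- **(S) Herbrand quotient of the `T`-units**: for `L/K` cyclic of degree `n`,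
`h(𝒪_{L,T}^×) = (∏_{v | ∞} n_v) (∏_{v ∈ T} e_v f_v) / n`. -/
def SUnitsHerbrandSpec : Prop :=
  ∀ (K : Type u) (L : Type v) [Field K] [Field L] [NumberField K] [NumberField L] [Algebra K L]
    [IsGalois K L] (σ : L ≃ₐ[K] L), (∀ τ : L ≃ₐ[K] L, τ ∈ Subgroup.zpowers σ) →
    ∀ T : Finset (IsDedekindDomain.HeightOneSpectrum (𝓞 K)),
      hIndexSub (unitsAug K L σ) (unitsNorm K L) (sUnits K L T) ≠ 0 ∧
      hIndexSub (unitsNorm K L) (unitsAug K L σ) (sUnits K L T) ≠ 0 ∧
      hIndexSub (unitsAug K L σ) (unitsNorm K L) (sUnits K L T) * Module.finrank K L =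
        hIndexSub (unitsNorm K L) (unitsAug K L σ) (sUnits K L T) *
          (infDegProd K L * finDegProd K L T)

end Fermat.Agent.S55.G

end
-- ===== PACK-END S55/G/SpecUnits.lean

-- ===== PACK-BEGIN S55/G/HerbrandRel.lean
section
/-
S55, layer G, block G-U (helper595): relative Herbrand calculus in helper895's vocabulary
(`hIndex`, `hIndexSub`).  Everything here is about an ambient additive commutative group `B`
with two endomorphisms `f g` and stable subgroups.

* `hIndexSub_six`            : six-factor form of `0 → ker φ ∩ U → U → φ(U) → 0`;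
* `hIndexSub_of_finite_ker`  : finite kernel part ⇒ same Herbrand quotient;
* `hIndexSub_of_finite_index`: finite-index subgroup ⇒ same Herbrand quotient;
* `hIndexSub_map_of_injective`: transport along an injective equivariant map.
-/




set_option autoImplicit false

namespace Fermat.Agent.S55.G

open Fermat.Agent.S55.Herbrand Fermat.Agent.S55.H595

variable {B C : Type*} [AddCommGroup B] [AddCommGroup C]

lemma hIndexSub_eq_rhIdx (f g : B →+ B) (A : AddSubgroup B) :
    hIndexSub f g A = rhIdx f g A := by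
  unfold hIndexSub rhIdx
  rw [inf_comm]

lemma hIndex_eq_hIdx (f g : B →+ B) : hIndex f g = hIdx f g := rfl

lemma hIndexSub_top (f g : B →+ B) : hIndexSub f g ⊤ = hIndex f g := by
  rw [hIndexSub_eq_rhIdx, rhIdx_top, hIndex_eq_hIdx]

/-- Six-factor form of the exact sequence `0 → ker φ ∩ U → U → φ(U) → 0`. -/
theorem hIndexSub_six (f g : B →+ B) (f' g' : C →+ C) (φ : B →+ C)
    (hφf : ∀ b, φ (f b) = f' (φ b)) (hφg : ∀ b, φ (g b) = g' (φ b))
    (U : AddSubgroup B) (hUf : ∀ x ∈ U, f x ∈ U) (hUg : ∀ x ∈ U, g x ∈ U)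
    (hfg : ∀ b ∈ U, f (g b) = 0) (hgf : ∀ b ∈ U, g (f b) = 0) :
    ∃ Ef Eg w y w' y' : ℕ,
      hIndexSub f g (φ.ker ⊓ U) = Eg * w ∧ hIndexSub f g U = w * y ∧
      hIndexSub f' g' (U.map φ) = Ef * y ∧
      hIndexSub g f (φ.ker ⊓ U) = Ef * w' ∧ hIndexSub g f U = w' * y' ∧
      hIndexSub g' f' (U.map φ) = Eg * y' := by
  simp only [hIndexSub_eq_rhIdx]
  exact rh_exact f g f' g' φ hφf hφg U hUf hUg hfg hgf

/-- Finite kernel part: `U` and `φ(U)` have the same Herbrand quotient. -/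
theorem hIndexSub_of_finite_ker (f g : B →+ B) (f' g' : C →+ C) (φ : B →+ C)
    (hφf : ∀ b, φ (f b) = f' (φ b)) (hφg : ∀ b, φ (g b) = g' (φ b))
    (U : AddSubgroup B) (hUf : ∀ x ∈ U, f x ∈ U) (hUg : ∀ x ∈ U, g x ∈ U)
    (hfg : ∀ b ∈ U, f (g b) = 0) (hgf : ∀ b ∈ U, g (f b) = 0)
    (hfin : Finite ↥(φ.ker ⊓ U)) :
    ((hIndexSub f g U ≠ 0 ∧ hIndexSub g f U ≠ 0) ↔
        (hIndexSub f' g' (U.map φ) ≠ 0 ∧ hIndexSub g' f' (U.map φ) ≠ 0)) ∧
      hIndexSub f g U * hIndexSub g' f' (U.map φ) =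
        hIndexSub g f U * hIndexSub f' g' (U.map φ) := by
  simp only [hIndexSub_eq_rhIdx]
  exact rh_of_finite_ker f g f' g' φ hφf hφg U hUf hUg hfg hgf hfin

/-- Finite index: `U ≤ W` stable with `[W : U]` finite have the same Herbrand quotient. -/
theorem hIndexSub_of_finite_index (f g : B →+ B) (U W : AddSubgroup B) (hUW : U ≤ W)
    (hidx : U.relIndex W ≠ 0)
    (hUf : ∀ x ∈ U, f x ∈ U) (hUg : ∀ x ∈ U, g x ∈ U)
    (hWf : ∀ x ∈ W, f x ∈ W) (hWg : ∀ x ∈ W, g x ∈ W)
    (hfg : ∀ b ∈ W, f (g b) = 0) (hgf : ∀ b ∈ W, g (f b) = 0) :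
    ((hIndexSub f g U ≠ 0 ∧ hIndexSub g f U ≠ 0) ↔
        (hIndexSub f g W ≠ 0 ∧ hIndexSub g f W ≠ 0)) ∧
      hIndexSub f g U * hIndexSub g f W = hIndexSub g f U * hIndexSub f g W := by
  simp only [hIndexSub_eq_rhIdx]
  exact rh_of_finite_index f g U W hUW hidx hUf hUg hWf hWg hfg hgf

/-- Transport of relative Herbrand indices along an injective equivariant map. -/
theorem hIndexSub_map_of_injective (f g : B →+ B) (f' g' : C →+ C) (ι : B →+ C)
    (hι : Function.Injective ι)
    (hf : ∀ b, ι (f b) = f' (ι b)) (hg : ∀ b, ι (g b) = g' (ι b)) (A : AddSubgroup B) :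
    hIndexSub f' g' (A.map ι) = hIndexSub f g A := by
  unfold hIndexSub
  rw [← AddSubgroup.relIndex_map_map_of_injective _ _ hι]
  congr 1
  · ext x
    simp only [AddSubgroup.mem_map]
    constructor
    · rintro ⟨_, ⟨a, ha, rfl⟩, rfl⟩
      exact ⟨g a, ⟨a, ha, rfl⟩, hg a⟩
    · rintro ⟨_, ⟨a, ha, rfl⟩, rfl⟩
      exact ⟨ι a, ⟨a, ha, rfl⟩, (hg a).symm⟩
  · ext x
    simp only [AddSubgroup.mem_map, AddSubgroup.mem_inf, AddMonoidHom.mem_ker]
    constructor
    · rintro ⟨⟨a, ha, rfl⟩, hx⟩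
      refine ⟨a, ⟨ha, hι ?_⟩, rfl⟩
      rw [hf, hx, map_zero]
    · rintro ⟨a, ⟨ha, hx⟩, rfl⟩
      exact ⟨⟨a, ha, rfl⟩, by rw [← hf, hx, map_zero]⟩

end Fermat.Agent.S55.G

end
-- ===== PACK-END S55/G/HerbrandRel.lean

-- ===== PACK-BEGIN S55/Local/H593/CycCocycleA4a.lean
section


/-!
# S55, layer L, piece A4a: the standard cyclic 2-cocycle is a 2-cocycle

Deliverable: `Fermat.Agent.S55.Local.H593.cycCocycle_isMulCocycle₂ :
  Fermat.Agent.S55.Local.CycCocycleIsCocycleStatement`.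

Also exported (useful for A4b / A4c / A4d): basic API for the discrete logarithm `cycIdx`.
-/

set_option autoImplicit false

namespace Fermat.Agent.S55.Local.H593

open groupCohomology Fermat.Agent.S55.Local

section Idx

variable {G : Type} [Group G]

/-- If `g` is a power of `σ` (natural exponent), then `σ ^ cycIdx σ g = g`. -/
lemma pow_cycIdx_of_exists {σ g : G} (h : ∃ k : ℕ, σ ^ k = g) : σ ^ cycIdx σ g = g :=
  Nat.sInf_mem (s := {k : ℕ | σ ^ k = g}) h

/-- `cycIdx σ g` is the least exponent. -/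
lemma cycIdx_le {σ g : G} {k : ℕ} (h : σ ^ k = g) : cycIdx σ g ≤ k :=
  Nat.sInf_le (s := {k : ℕ | σ ^ k = g}) h

variable [Finite G]

/-- In a finite group, every element of `zpowers σ` is a natural power of `σ`. -/
lemma exists_pow_eq_of_mem_zpowers {σ g : G} (hg : g ∈ Subgroup.zpowers σ) :
    ∃ k : ℕ, σ ^ k = g := by
  have h := (mem_powers_iff_mem_zpowers (x := σ) (y := g)).2 hg
  exact Submonoid.mem_powers_iff _ _ |>.1 h

omit [Finite G] in
/-- If `σ` generates the group `G`, then `orderOf σ = Nat.card G`. -/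
lemma orderOf_eq_card_of_gen {σ : G} (hσ : ∀ g, g ∈ Subgroup.zpowers σ) :
    orderOf σ = Nat.card G :=
  orderOf_eq_card_of_forall_mem_zpowers hσ

lemma pow_cycIdx {σ : G} (hσ : ∀ g, g ∈ Subgroup.zpowers σ) (g : G) : σ ^ cycIdx σ g = g :=
  pow_cycIdx_of_exists (exists_pow_eq_of_mem_zpowers (hσ g))

lemma cycIdx_lt_card {σ : G} (hσ : ∀ g, g ∈ Subgroup.zpowers σ) (g : G) :
    cycIdx σ g < Nat.card G := by
  have hn : 0 < orderOf σ := orderOf_pos σ
  have h1 : σ ^ (cycIdx σ g % orderOf σ) = g := by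
    rw [pow_mod_orderOf, pow_cycIdx hσ g]
  have h2 : cycIdx σ g ≤ cycIdx σ g % orderOf σ := cycIdx_le h1
  have h3 : cycIdx σ g % orderOf σ < orderOf σ := Nat.mod_lt _ hn
  rw [← orderOf_eq_card_of_gen hσ]
  omega

/-- The discrete logarithm of `σ ^ k` is `k % n`. -/
lemma cycIdx_pow {σ : G} (hσ : ∀ g, g ∈ Subgroup.zpowers σ) (k : ℕ) :
    cycIdx σ (σ ^ k) = k % Nat.card G := by
  have hn : orderOf σ = Nat.card G := orderOf_eq_card_of_gen hσ
  have h1 : σ ^ cycIdx σ (σ ^ k) = σ ^ k := pow_cycIdx hσ _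
  have h2 := (pow_eq_pow_iff_modEq (x := σ)).1 h1
  rw [hn] at h2
  have h3 : cycIdx σ (σ ^ k) < Nat.card G := cycIdx_lt_card hσ _
  have h4 : cycIdx σ (σ ^ k) % Nat.card G = k % Nat.card G := h2
  rw [Nat.mod_eq_of_lt h3] at h4
  exact h4

/-- Additivity of the discrete logarithm modulo `n`. -/
lemma cycIdx_mul {σ : G} (hσ : ∀ g, g ∈ Subgroup.zpowers σ) (g h : G) :
    cycIdx σ (g * h) = (cycIdx σ g + cycIdx σ h) % Nat.card G := by
  have : g * h = σ ^ (cycIdx σ g + cycIdx σ h) := by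
    rw [pow_add, pow_cycIdx hσ g, pow_cycIdx hσ h]
  rw [this, cycIdx_pow hσ]

omit [Finite G] in
lemma cycIdx_one (σ : G) : cycIdx σ (1 : G) = 0 := by
  have h : σ ^ 0 = (1 : G) := pow_zero σ
  exact Nat.le_zero.1 (cycIdx_le h)

/-- The carry formula: `i(g) + i(h) = i(gh) + n * ⌊(i(g) + i(h)) / n⌋`. -/
lemma cycIdx_add_eq {σ : G} (hσ : ∀ g, g ∈ Subgroup.zpowers σ) (g h : G) :
    cycIdx σ g + cycIdx σ h =
      cycIdx σ (g * h) + Nat.card G * ((cycIdx σ g + cycIdx σ h) / Nat.card G) := by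
  rw [cycIdx_mul hσ]
  exact (Nat.mod_add_div _ _).symm

end Idx

section Action

variable {G M : Type} [Group G] [CommGroup M] [MulDistribMulAction G M]

/-- An element fixed by a generator is fixed by the whole group. -/
lemma smul_eq_of_gen {σ : G} (hσ : ∀ g, g ∈ Subgroup.zpowers σ) {x : M} (hx : σ • x = x)
    (g : G) : g • x = x := by
  have hmem : g ∈ MulAction.stabilizer G x := by
    have hle : Subgroup.zpowers σ ≤ MulAction.stabilizer G x := by
      rw [Subgroup.zpowers_le]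
      exact hx
    exact hle (hσ g)
  exact hmem

end Action

/-- A purely arithmetic identity behind the cocycle condition. -/
lemma carry_identity (n a b c : ℕ) :
    ((a + b) % n + c) / n + (a + b) / n = (b + c) / n + (a + (b + c) % n) / n := by
  rcases Nat.eq_zero_or_pos n with rfl | hn
  · simp
  · have h1 : ((a + b) % n + c) / n + (a + b) / n = (a + b + c) / n := by
      have : a + b + c = ((a + b) % n + c) + n * ((a + b) / n) := by
        have := Nat.mod_add_div (a + b) n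
        omega
      rw [this, Nat.add_mul_div_left _ _ hn]
    have h2 : (b + c) / n + (a + (b + c) % n) / n = (a + b + c) / n := by
      have : a + b + c = (a + (b + c) % n) + n * ((b + c) / n) := by
        have := Nat.mod_add_div (b + c) n
        omega
      rw [this, Nat.add_mul_div_left _ _ hn]
      ring
    rw [h1, h2]

/-- **(A4a)** The standard cyclic 2-cocycle is a 2-cocycle. -/
theorem cycCocycle_isMulCocycle₂ : CycCocycleIsCocycleStatement := by
  intro G M _ _ _ _ σ hσ x hx g h j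
  have hfix : ∀ (g : G) (k : ℕ), g • (x ^ k) = x ^ k := by
    intro g k
    rw [smul_pow', smul_eq_of_gen hσ hx g]
  simp only [cycCocycle]
  rw [hfix, ← pow_add, ← pow_add, cycIdx_mul hσ g h, cycIdx_mul hσ h j]
  congr 1
  exact carry_identity (Nat.card G) (cycIdx σ g) (cycIdx σ h) (cycIdx σ j)

end Fermat.Agent.S55.Local.H593

end
-- ===== PACK-END S55/Local/H593/CycCocycleA4a.lean

-- ===== PACK-BEGIN S55/Local/H542/CycPullback.lean
section
/-
S55, layer L, piece A4d (helper542): functoriality of the standard cyclic 2-cocycle under an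
injective homomorphism of finite cyclic groups.

  theorem cycCocyclePullback : Fermat.Agent.S55.Local.CycCocyclePullbackStatement
-/


set_option autoImplicit false

namespace Fermat.Agent.S55.Local.H542

open Fermat.Agent.S55.Local

/-- `cycIdx σ (σ ^ k) = k` for `k < orderOf σ`. -/
theorem cycIdx_pow_of_lt {G : Type} [Group G] (σ : G) {k : ℕ} (hk : k < orderOf σ) :
    cycIdx σ (σ ^ k) = k := by
  unfold cycIdx
  apply le_antisymm
  · exact Nat.sInf_le (by simp)
  · apply le_csInf ⟨k, by simp⟩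
    intro m hm
    by_contra hlt
    push Not at hlt
    have hm' : σ ^ m = σ ^ k := hm
    have hmo : m < orderOf σ := lt_trans hlt hk
    exact hlt.ne (pow_injOn_Iio_orderOf (by simpa using hmo) (by simpa using hk) hm')

/-- Every element of a finite cyclic group generated by `σ` is `σ ^ k` with `k < orderOf σ`,
and then `cycIdx σ g = k`. -/
theorem exists_pow_eq_of_generator {G : Type} [Group G] [Finite G] (σ : G)
    (hσ : ∀ g, g ∈ Subgroup.zpowers σ) (g : G) :
    ∃ k : ℕ, k < orderOf σ ∧ σ ^ k = g := by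
  have hg := hσ g
  rw [← mem_powers_iff_mem_zpowers] at hg
  obtain ⟨m, hm⟩ := hg
  refine ⟨m % orderOf σ, Nat.mod_lt _ (orderOf_pos σ), ?_⟩
  rw [pow_mod_orderOf]
  exact hm

theorem orderOf_eq_card_of_generator {G : Type} [Group G] [Finite G] (σ : G)
    (hσ : ∀ g, g ∈ Subgroup.zpowers σ) : orderOf σ = Nat.card G :=
  orderOf_eq_card_of_forall_mem_zpowers hσ

/-- **A4d.** -/
theorem cycCocyclePullback : CycCocyclePullbackStatement := by
  intro G H M _ _ _ _ _ σ τ ρ hσ hτ hρ hρτ x p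
  have hoσ : orderOf σ = Nat.card G := orderOf_eq_card_of_generator σ hσ
  have hoτ : orderOf τ = Nat.card H := orderOf_eq_card_of_generator τ hτ
  have hGpos : 0 < Nat.card G := Nat.card_pos
  have hHpos : 0 < Nat.card H := Nat.card_pos
  -- `|H|` divides `|G|`
  have hdvd : Nat.card H ∣ Nat.card G := by
    have h1 : Nat.card H = Nat.card ρ.range :=
      Nat.card_congr (MonoidHom.ofInjective hρ).toEquiv
    rw [h1]
    exact Subgroup.card_subgroup_dvd_card ρ.range
  obtain ⟨d, hd⟩ := hdvd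
  have hdpos : 0 < d := by
    rcases Nat.eq_zero_or_pos d with h0 | h0
    · rw [h0, Nat.mul_zero] at hd; omega
    · exact h0
  have hdiv : Nat.card G / Nat.card H = d := by
    rw [hd, Nat.mul_div_cancel_left d hHpos]
  -- index computation
  have key : ∀ a : H, cycIdx σ (ρ a) = d * cycIdx τ a := by
    intro a
    obtain ⟨i, hi, rfl⟩ := exists_pow_eq_of_generator τ hτ a
    rw [cycIdx_pow_of_lt τ hi, map_pow, hρτ, hdiv, ← pow_mul]
    apply cycIdx_pow_of_lt
    rw [hoσ, hd, Nat.mul_comm (Nat.card H) d]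
    rw [hoτ] at hi
    exact Nat.mul_lt_mul_of_pos_left hi hdpos
  unfold cycCocycle
  simp only
  rw [key p.1, key p.2, ← Nat.mul_add, hd, Nat.mul_comm (Nat.card H) d,
    Nat.mul_div_mul_left _ _ hdpos]

end Fermat.Agent.S55.Local.H542

end
-- ===== PACK-END S55/Local/H542/CycPullback.lean

-- ===== PACK-BEGIN S55/Local/H415/T1.lean
section


/-!
# S55, layer L, glue T1a + T1b by the cyclic shortcut (helper415)

* `unramUnitsH1 : UnramUnitsH1Statement` is proved UNCONDITIONALLY: Hilbert 90 (Mathlib) gives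
  `c g = g • m₀ / m₀` with `m₀ : Lˣ`; `IsUnram` writes `m₀ = y * u` with `y ∈ Kˣ`, `u ∈ U_L`, and
  `g • m₀ / m₀ = g • u / u`.  No completeness, no filtration.
* `unramUnitsH2_of : UnramCyclicStatement → CycCocycleCoboundaryIffStatement →
    CycCocycleSurjStatement → UnramNormUnitsStatement → UnramUnitsH2Statement`:
  the Galois group is cyclic (UR1); in the `G`-module `U_L` every 2-cocycle is cohomologous to a
  standard cyclic cocycle `cycCocycle σ x`, `x ∈ U_L^G = U_K` (A4c); `x` is the norm of a unit (UR4),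
  hence the standard cocycle is a coboundary in `U_L` (A4b).

So the pieces UR2, UR3, A1, A2, FF1a, FF1b, FF2 are not needed for T1a/T1b.
-/

set_option autoImplicit false

namespace Fermat.Agent.S55.Local.H415

open groupCohomology Fermat.Agent.S55.Local

section Basic

variable (A F : Type) [CommRing A] [Field F] [Algebra A F]
variable (K : Type) [Field K] [Algebra F K]
variable (L : Type) [Field L] [Algebra F L] [Algebra K L] [IsScalarTower F K L]

/-- `toL A F L` factors through `K`. -/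
lemma toL_eq_comp (a : A) : toL A F L a = algebraMap K L (toL A F K a) := by
  simp only [toL_apply]
  exact IsScalarTower.algebraMap_apply F K L _

variable {A F K L} in
/-- A `K`-algebra automorphism of `L` preserves integrality over `A`. -/
lemma isInt_algEquiv (σ : L ≃ₐ[K] L) {x : L} (hx : IsInt A F L x) : IsInt A F L (σ x) := by
  obtain ⟨p, hp, hpx⟩ := hx
  refine ⟨p, hp, ?_⟩
  have h1 : (σ : L →+* L).comp (toL A F L) = toL A F L := by
    ext a
    simp only [RingHom.comp_apply, toL_eq_comp A F K L a]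
    exact σ.commutes _
  have h2 := Polynomial.hom_eval₂ p (toL A F L) (σ : L →+* L) x
  rw [h1] at h2
  rw [← show (σ : L →+* L) x = σ x from rfl, ← h2, hpx, map_zero]

variable {A F K L} in
/-- Integrality over `A` of an element of `K` can be tested in `L`. -/
lemma isInt_of_isInt_algebraMap {y : K} (hy : IsInt A F L (algebraMap K L y)) : IsInt A F K y := by
  obtain ⟨p, hp, hpx⟩ := hy
  refine ⟨p, hp, ?_⟩
  have h1 : (algebraMap K L).comp (toL A F K) = toL A F L := by
    ext a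
    simp only [RingHom.comp_apply, toL_eq_comp A F K L a]
  have h2 := Polynomial.hom_eval₂ p (toL A F K) (algebraMap K L) y
  rw [h1, hpx] at h2
  exact (algebraMap K L).injective (by rw [h2, map_zero])

variable {A F K L} in
/-- The Galois group preserves the integral units. -/
lemma smul_mem_intUnits (σ : L ≃ₐ[K] L) {x : Lˣ} (hx : x ∈ intUnits A F L) :
    σ • x ∈ intUnits A F L := by
  refine ⟨?_, ?_⟩
  · have : ((σ • x : Lˣ) : L) = σ (x : L) := rfl
    rw [this]
    exact isInt_algEquiv σ hx.1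
  · have : (((σ • x)⁻¹ : Lˣ) : L) = σ ((x⁻¹ : Lˣ) : L) := by
      rw [← smul_inv']
      rfl
    rw [this]
    exact isInt_algEquiv σ hx.2

end Basic

/-- **(T1a)** `H¹(Gal(L/K), U_L) = 0` for `L / K` unramified: unconditional. -/
theorem unramUnitsH1 : UnramUnitsH1Statement := by
  intro A F _ _ _ _ _ _ _ _ _ K _ _ _ L _ _ _ _ _ _ hur c hc _
  obtain ⟨m₀, hm₀⟩ := isMulCoboundary₁_of_isMulCocycle₁_of_aut_to_units c hc
  obtain ⟨y, hy⟩ := hur m₀
  refine ⟨m₀ * (unitsIncl L K y)⁻¹, hy, fun g => ?_⟩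
  have hfix : g • unitsIncl L K y = unitsIncl L K y := by
    ext
    change g (algebraMap K L y) = algebraMap K L y
    exact g.commutes _
  rw [smul_mul', smul_inv', hfix, ← hm₀ g]
  rw [div_eq_mul_inv, div_eq_mul_inv, mul_inv, inv_inv]
  rw [mul_mul_mul_comm, mul_comm (unitsIncl L K y)⁻¹, mul_inv_cancel, mul_one]

section T1b

variable (A F : Type) [CommRing A] [Field F] [Algebra A F]
variable (K : Type) [Field K] [Algebra F K]
variable (L : Type) [Field L] [Algebra F L] [Algebra K L] [IsScalarTower F K L]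

/-- The Galois group acts on the integral units `U_L`. -/
@[reducible] noncomputable def intUnitsAction :
    MulDistribMulAction (L ≃ₐ[K] L) (intUnits A F L) where
  smul g x := ⟨g • (x : Lˣ), smul_mem_intUnits g x.2⟩
  one_smul x := Subtype.ext (one_smul _ _)
  mul_smul g h x := Subtype.ext (mul_smul _ _ _)
  smul_mul g x y := Subtype.ext (smul_mul' _ _ _)
  smul_one g := Subtype.ext (smul_one _)

end T1b

/-- **(T1b)** `H²(Gal(L/K), U_L) = 0` for `L / K` unramified, from the cyclic pieces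
UR1, A4b, A4c and UR4. -/
theorem unramUnitsH2_of (hUR1 : UnramCyclicStatement)
    (hA4b : CycCocycleCoboundaryIffStatement) (hA4c : CycCocycleSurjStatement)
    (hUR4 : UnramNormUnitsStatement) : UnramUnitsH2Statement := by
  intro A F _ _ _ _ _ _ _ _ _ K _ _ _ L _ _ _ _ _ _ hur c hc hcU
  haveI : IsCyclic (L ≃ₐ[K] L) := hUR1 A F K L hur
  obtain ⟨σ, hσ⟩ := IsCyclic.exists_generator (α := L ≃ₐ[K] L)
  letI : MulDistribMulAction (L ≃ₐ[K] L) (intUnits A F L) := intUnitsAction A F K L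
  have hsmul : ∀ (g : L ≃ₐ[K] L) (x : intUnits A F L), ((g • x : intUnits A F L) : Lˣ) = g • (x : Lˣ) :=
    fun _ _ => rfl
  -- the cocycle with values in `U_L`
  let c' : (L ≃ₐ[K] L) × (L ≃ₐ[K] L) → intUnits A F L := fun p => ⟨c p, hcU p⟩
  have hc' : IsMulCocycle₂ c' := by
    intro g h j
    apply Subtype.ext
    simp only [Subgroup.coe_mul, hsmul]
    exact hc g h j
  obtain ⟨x, hσx, b, hb⟩ := hA4c (L ≃ₐ[K] L) (intUnits A F L) σ hσ c' hc'
  -- `x` is fixed by the whole group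
  have hfix : ∀ g : L ≃ₐ[K] L, g • x = x := by
    intro g
    obtain ⟨k, rfl⟩ := Subgroup.mem_zpowers_iff.1 (hσ g)
    have hstab : σ ∈ MulAction.stabilizer (L ≃ₐ[K] L) x := hσx
    exact (MulAction.stabilizer (L ≃ₐ[K] L) x).zpow_mem hstab k
  -- hence `x` comes from `K`
  have hxK : ((x : Lˣ) : L) ∈ Set.range (algebraMap K L) := by
    rw [IsGalois.mem_range_algebraMap_iff_fixed]
    intro g
    have := congrArg (fun u : intUnits A F L => ((u : Lˣ) : L)) (hfix g)
    exact this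
  obtain ⟨y, hy⟩ := hxK
  have hy0 : y ≠ 0 := by
    rintro rfl
    rw [map_zero] at hy
    exact (x : Lˣ).ne_zero hy.symm
  let yu : Kˣ := Units.mk0 y hy0
  have hyu : unitsIncl L K yu = (x : Lˣ) := Units.ext hy
  have hyuU : yu ∈ intUnits A F K := by
    refine ⟨isInt_of_isInt_algebraMap (L := L) ?_, isInt_of_isInt_algebraMap (L := L) ?_⟩
    · change IsInt A F L (algebraMap K L y)
      rw [hy]; exact x.2.1
    · have : algebraMap K L ((yu⁻¹ : Kˣ) : K) = (((x : Lˣ)⁻¹ : Lˣ) : L) := by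
        rw [← hyu]; rfl
      rw [this]; exact x.2.2
  obtain ⟨w, hw, hNw⟩ := hUR4 A F K L hur yu hyuU
  -- the norm is the product over the Galois group
  have hprod : ∏ g : L ≃ₐ[K] L, g • (⟨w, hw⟩ : intUnits A F L) = x := by
    apply Subtype.ext
    apply Units.ext
    have h1 : (((∏ g : L ≃ₐ[K] L, g • (⟨w, hw⟩ : intUnits A F L) : intUnits A F L) : Lˣ) : L)
        = ∏ g : L ≃ₐ[K] L, g (w : L) := by
      rw [Subgroup.val_finsetProd, Units.coe_prod]
      rfl
    rw [h1, ← Algebra.norm_eq_prod_automorphisms K (w : L), ← hy]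
    have := congrArg (fun u : Kˣ => (u : K)) hNw
    simp only [normUnits_coe] at this
    rw [this]
    rfl
  obtain ⟨b', hb'⟩ := ((hA4b (L ≃ₐ[K] L) (intUnits A F L) σ hσ x hσx).2 ⟨⟨w, hw⟩, hprod⟩)
  refine ⟨fun g => ((b g * b' g : intUnits A F L) : Lˣ), fun g => (b g * b' g).2, fun g h => ?_⟩
  have e1 := congrArg (fun u : intUnits A F L => (u : Lˣ)) (hb g h)
  have e2 := congrArg (fun u : intUnits A F L => (u : Lˣ)) (hb' g h)
  simp only [Subgroup.coe_mul, Subgroup.coe_div, hsmul] at e1 e2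
  have e3 : c (g, h) = ((c' (g, h) : intUnits A F L) : Lˣ) := rfl
  rw [e3]
  have e4 : ((c' (g, h) : intUnits A F L) : Lˣ)
      = (g • (b h : Lˣ) / (b (g * h) : Lˣ) * (b g : Lˣ)) *
        (g • (b' h : Lˣ) / (b' (g * h) : Lˣ) * (b' g : Lˣ)) := by
    rw [e1, e2, div_mul_cancel]
  rw [e4]
  simp only [Subgroup.coe_mul, smul_mul', div_eq_mul_inv, mul_inv]
  ac_rfl

end Fermat.Agent.S55.Local.H415

end
-- ===== PACK-END S55/Local/H415/T1.lean

-- ===== PACK-BEGIN S55/L/H661/UnramNormField.lean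
section



/-!
# Norms of units in unramified extensions of complete discretely valued fields
(S55, layer L, leaf UR4 -- field form)

`R` a complete DVR with finite residue field, `K = Frac R`, `L / K` finite separable.
"Unramified" is expressed as `Lˣ = Kˣ · U_L`.  Then every unit of `R` is the norm of a unit of
the ring of integers of `L`.
-/

set_option linter.unusedSectionVars false

namespace Fermat.Agent.S55.L.H661

open IsLocalRing

section Core

variable (R K L : Type) [CommRing R] [IsDomain R] [IsDiscreteValuationRing R]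
  [IsAdicComplete (maximalIdeal R) R] [Finite (ResidueField R)]
  [Field K] [Algebra R K] [IsFractionRing R K]
  [Field L] [Algebra K L] [FiniteDimensional K L] [Algebra.IsSeparable K L]
  [Algebra R L] [IsScalarTower R K L]

/-- If `Lˣ = Kˣ · U_L` then the maximal ideal of `R` generates the maximal ideal of the
integral closure of `R` in `L`. -/
theorem map_maximalIdeal_eq_of_isUnram
    (hunr : ∀ x : Lˣ, ∃ y : Kˣ, IsIntegral R ((x : L) * (algebraMap K L (y : K))⁻¹) ∧
      IsIntegral R ((algebraMap K L (y : K)) * ((x⁻¹ : Lˣ) : L)))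
    [IsLocalRing (integralClosure R L)] :
    (maximalIdeal R).map (algebraMap R (integralClosure R L)) =
      maximalIdeal (integralClosure R L) := by
  have hdvr : IsDiscreteValuationRing (integralClosure R L) :=
    intClosure_isDVR R K L (integralClosure R L)
  refine le_antisymm (intClosure_map_maximalIdeal_le R K L (integralClosure R L)) ?_
  obtain ⟨ϖ, hϖ⟩ := IsDiscreteValuationRing.exists_irreducible (integralClosure R L)
  rw [hϖ.maximalIdeal_eq, Ideal.span_singleton_le_iff_mem]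
  have hϖ0 : (ϖ : L) ≠ 0 := by
    intro h
    exact hϖ.ne_zero (Subtype.ext h)
  obtain ⟨y, hz, hz'⟩ := hunr (Units.mk0 (ϖ : L) hϖ0)
  rw [Units.val_mk0] at hz
  have hy0 : algebraMap K L (y : K) ≠ 0 := by
    simp
  -- the unit `z = ϖ / y` of the integral closure
  let z : integralClosure R L := ⟨(ϖ : L) * (algebraMap K L (y : K))⁻¹, hz⟩
  let z' : integralClosure R L :=
    ⟨algebraMap K L (y : K) * ((Units.mk0 (ϖ : L) hϖ0)⁻¹ : Lˣ), hz'⟩
  have hzz' : z * z' = 1 := by
    apply Subtype.ext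
    change (ϖ : L) * (algebraMap K L (y : K))⁻¹ *
      (algebraMap K L (y : K) * ((Units.mk0 (ϖ : L) hϖ0)⁻¹ : Lˣ)) = 1
    rw [Units.val_inv_eq_inv_val, Units.val_mk0]
    field_simp
  -- `y` is integral, hence in `R`
  have hyint : IsIntegral R (algebraMap K L (y : K)) := by
    have h1 : algebraMap K L (y : K) = ((ϖ * z' : integralClosure R L) : L) := by
      change algebraMap K L (y : K) =
        (ϖ : L) * (algebraMap K L (y : K) * ((Units.mk0 (ϖ : L) hϖ0)⁻¹ : Lˣ))
      rw [Units.val_inv_eq_inv_val, Units.val_mk0]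
      field_simp
    rw [h1]
    exact (ϖ * z').2
  have hyintK : IsIntegral R (y : K) :=
    (isIntegral_algebraMap_iff (algebraMap K L).injective).mp hyint
  obtain ⟨r, hr⟩ := IsIntegrallyClosed.isIntegral_iff.mp hyintK
  have hrz : algebraMap R (integralClosure R L) r * z = ϖ := by
    apply Subtype.ext
    change algebraMap R L r * ((ϖ : L) * (algebraMap K L (y : K))⁻¹) = ϖ
    rw [IsScalarTower.algebraMap_apply R K L, hr]
    field_simp
  have hrnonunit : r ∈ maximalIdeal R := by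
    rw [mem_maximalIdeal, mem_nonunits_iff]
    intro hru
    have h1 : IsUnit (algebraMap R (integralClosure R L) r) := hru.map _
    have h2 : IsUnit z := IsUnit.of_mul_eq_one _ hzz'
    exact hϖ.not_isUnit (hrz ▸ h1.mul h2)
  rw [← hrz]
  exact Ideal.mul_mem_right _ _ (Ideal.mem_map_of_mem _ hrnonunit)

/-- **UR4, field form.** -/
theorem exists_unit_norm_eq_of_isUnram
    (hunr : ∀ x : Lˣ, ∃ y : Kˣ, IsIntegral R ((x : L) * (algebraMap K L (y : K))⁻¹) ∧
      IsIntegral R ((algebraMap K L (y : K)) * ((x⁻¹ : Lˣ) : L)))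
    (u : Rˣ) :
    ∃ w : Lˣ, IsIntegral R (w : L) ∧ IsIntegral R ((w⁻¹ : Lˣ) : L) ∧
      Algebra.norm K (w : L) = algebraMap R K u := by
  have hloc : IsLocalRing (integralClosure R L) :=
    intClosure_isLocalRing R K L (integralClosure R L)
  have hfin : Module.Finite R (integralClosure R L) :=
    intClosure_finite R K L (integralClosure R L)
  have hfree : Module.Free R (integralClosure R L) :=
    intClosure_free R K L (integralClosure R L)
  have hmax : ((maximalIdeal R).map (algebraMap R (integralClosure R L))).IsMaximal := by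
    rw [map_maximalIdeal_eq_of_isUnram R K L hunr]
    infer_instance
  obtain ⟨v, hv⟩ := exists_unit_norm_eq_of_unramified (A := R) (B := integralClosure R L) hmax u
  have hlocz : IsLocalization (Algebra.algebraMapSubmonoid (integralClosure R L)
      (nonZeroDivisors R)) L := IsIntegralClosure.isLocalization R K L (integralClosure R L)
  have hnorm := Algebra.norm_localization (R := R) (S := integralClosure R L) (Rₘ := K)
    (Sₘ := L) (nonZeroDivisors R) (v : integralClosure R L)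
  refine ⟨Units.map (algebraMap (integralClosure R L) L).toMonoidHom v, ?_, ?_, ?_⟩
  · exact (v : integralClosure R L).2
  · have : ((Units.map (algebraMap (integralClosure R L) L).toMonoidHom v)⁻¹ : Lˣ) =
        Units.map (algebraMap (integralClosure R L) L).toMonoidHom v⁻¹ := by
      rw [map_inv]
    rw [this]
    exact ((v⁻¹ : (integralClosure R L)ˣ) : integralClosure R L).2
  · change Algebra.norm K (algebraMap (integralClosure R L) L (v : integralClosure R L)) = _
    rw [hnorm, hv]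

end Core

end Fermat.Agent.S55.L.H661

end
-- ===== PACK-END S55/L/H661/UnramNormField.lean

-- ===== PACK-BEGIN S55/Local/H775/Ord.lean
section


/-!
# S55 layer L (helper775): the order function attached to a uniformizer

For a uniformizer `ϖ` of `L` (`IsUnif A F L ϖ`) we define `ord ϖ x : ℤ` for `x : Lˣ` by
`x * ϖ ^ (-ord ϖ x) ∈ intUnits A F L`, and prove its basic properties.  Everything here is formal
(no hypotheses on `A`, `F`, `L` besides the existence of the uniformizer).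
-/

set_option autoImplicit false
set_option linter.unusedSectionVars false

namespace Fermat.Agent.S55.Local.H775

open Fermat.Agent.S55.Local

section Ord

variable (A F : Type) [CommRing A] [Field F] [Algebra A F]
variable (L : Type) [Field L] [Algebra F L]

lemma isInt_pow {x : L} (hx : IsInt A F L x) (n : ℕ) : IsInt A F L (x ^ n) := by
  induction n with
  | zero => simpa using isInt_one A F L
  | succ k ih => rw [pow_succ]; exact ih.mul hx

/-- The order of `x` with respect to `ϖ` (junk value `0` if `x` is not a unit times a power of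
`ϖ`). -/
noncomputable def ord (ϖ x : Lˣ) : ℤ :=
  open Classical in
  if h : ∃ n : ℤ, x * ϖ ^ (-n) ∈ intUnits A F L then h.choose else 0

variable {A F L}
variable {ϖ : Lˣ} (hϖ : IsUnif A F L ϖ)

include hϖ

lemma zpow_mem_intUnits_iff {j : ℤ} : ϖ ^ j ∈ intUnits A F L ↔ j = 0 := by
  obtain ⟨h1, h2, -⟩ := hϖ
  constructor
  · intro hj
    -- a positive power of `ϖ` is not a unit
    have key : ∀ n : ℕ, 0 < n → ϖ ^ n ∉ intUnits A F L := by
      intro n hn h
      apply h2
      rw [mem_intUnits]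
      refine ⟨h1, ?_⟩
      obtain ⟨k, rfl⟩ : ∃ k, n = k + 1 := ⟨n - 1, by omega⟩
      have e : (ϖ⁻¹ : Lˣ) = ϖ ^ k * (ϖ ^ (k + 1))⁻¹ := by
        rw [pow_succ, mul_inv_rev, mul_comm (ϖ⁻¹), ← mul_assoc, mul_inv_cancel, one_mul]
      rw [e, Units.val_mul, Units.val_pow_eq_pow_val]
      exact (isInt_pow A F L h1 k).mul ((mem_intUnits A F L).mp h).2
    by_contra hne
    rcases lt_or_gt_of_ne hne with hlt | hgt
    · have h := (intUnits A F L).inv_mem hj
      rw [← zpow_neg] at h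
      obtain ⟨n, hn⟩ : ∃ n : ℕ, -j = (n : ℤ) := ⟨(-j).toNat, by omega⟩
      rw [hn, zpow_natCast] at h
      exact key n (by omega) h
    · obtain ⟨n, hn⟩ : ∃ n : ℕ, j = (n : ℤ) := ⟨j.toNat, by omega⟩
      rw [hn, zpow_natCast] at hj
      exact key n (by omega) hj
  · rintro rfl
    simp

lemma ord_spec (x : Lˣ) : x * ϖ ^ (-(ord A F L ϖ x)) ∈ intUnits A F L := by
  have h : ∃ n : ℤ, x * ϖ ^ (-n) ∈ intUnits A F L := hϖ.2.2 x
  unfold ord
  rw [dif_pos h]
  exact h.choose_spec

lemma ord_eq_of {x : Lˣ} {n : ℤ} (h : x * ϖ ^ (-n) ∈ intUnits A F L) : ord A F L ϖ x = n := by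
  have h1 := ord_spec hϖ x
  have h2 : ϖ ^ (n - ord A F L ϖ x) ∈ intUnits A F L := by
    have := (intUnits A F L).mul_mem ((intUnits A F L).inv_mem h) h1
    have e : (x * ϖ ^ (-n))⁻¹ * (x * ϖ ^ (-(ord A F L ϖ x))) = ϖ ^ (n - ord A F L ϖ x) := by
      rw [mul_inv, ← zpow_neg, neg_neg, sub_eq_add_neg, zpow_add]
      rw [mul_comm x⁻¹, mul_assoc, ← mul_assoc x⁻¹, inv_mul_cancel, one_mul]
    rwa [e] at this
  have := (zpow_mem_intUnits_iff hϖ).mp h2
  omega

lemma ord_eq_iff {x : Lˣ} {n : ℤ} : ord A F L ϖ x = n ↔ x * ϖ ^ (-n) ∈ intUnits A F L :=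
  ⟨fun h => h ▸ ord_spec hϖ x, ord_eq_of hϖ⟩

lemma ord_eq_zero_iff {x : Lˣ} : ord A F L ϖ x = 0 ↔ x ∈ intUnits A F L := by
  rw [ord_eq_iff hϖ]
  simp

lemma ord_mul (x y : Lˣ) : ord A F L ϖ (x * y) = ord A F L ϖ x + ord A F L ϖ y := by
  apply ord_eq_of hϖ
  have := (intUnits A F L).mul_mem (ord_spec hϖ x) (ord_spec hϖ y)
  have e : x * ϖ ^ (-(ord A F L ϖ x)) * (y * ϖ ^ (-(ord A F L ϖ y))) =
      x * y * ϖ ^ (-(ord A F L ϖ x + ord A F L ϖ y)) := by
    rw [neg_add, zpow_add]
    exact mul_mul_mul_comm _ _ _ _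
  rwa [e] at this

lemma ord_one : ord A F L ϖ 1 = 0 := (ord_eq_zero_iff hϖ).mpr (intUnits A F L).one_mem

lemma ord_inv (x : Lˣ) : ord A F L ϖ x⁻¹ = -ord A F L ϖ x := by
  have h := ord_mul hϖ x x⁻¹
  rw [mul_inv_cancel, ord_one hϖ] at h
  omega

lemma ord_div (x y : Lˣ) : ord A F L ϖ (x / y) = ord A F L ϖ x - ord A F L ϖ y := by
  rw [div_eq_mul_inv, ord_mul hϖ, ord_inv hϖ, sub_eq_add_neg]

lemma ord_pow (x : Lˣ) (n : ℕ) : ord A F L ϖ (x ^ n) = n * ord A F L ϖ x := by
  induction n with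
  | zero => simp [ord_one hϖ]
  | succ k ih => rw [pow_succ, ord_mul hϖ, ih]; push_cast; ring

lemma ord_zpow (x : Lˣ) (n : ℤ) : ord A F L ϖ (x ^ n) = n * ord A F L ϖ x := by
  obtain ⟨k, rfl | rfl⟩ := n.eq_nat_or_neg
  · rw [zpow_natCast, ord_pow hϖ]
  · rw [zpow_neg, zpow_natCast, ord_inv hϖ, ord_pow hϖ]; ring

lemma ord_self : ord A F L ϖ ϖ = 1 := by
  apply ord_eq_of hϖ
  rw [zpow_neg, zpow_one, mul_inv_cancel]
  exact (intUnits A F L).one_mem

lemma ord_eq_of_div_mem {x y : Lˣ} (h : x * y⁻¹ ∈ intUnits A F L) :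
    ord A F L ϖ x = ord A F L ϖ y := by
  have := (ord_eq_zero_iff hϖ).mpr h
  rw [ord_mul hϖ, ord_inv hϖ] at this
  omega

lemma div_mem_of_ord_eq {x y : Lˣ} (h : ord A F L ϖ x = ord A F L ϖ y) :
    x * y⁻¹ ∈ intUnits A F L := by
  apply (ord_eq_zero_iff hϖ).mp
  rw [ord_mul hϖ, ord_inv hϖ]
  omega

/-- An element is integral iff its order is nonnegative. -/
lemma isInt_iff_ord_nonneg (x : Lˣ) : IsInt A F L (x : L) ↔ 0 ≤ ord A F L ϖ x := by
  have hx := ord_spec hϖ x
  set n := ord A F L ϖ x with hn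
  constructor
  · intro hint
    by_contra hneg
    have hneg : n < 0 := not_le.mp hneg
    -- `ϖ⁻¹` would be integral
    obtain ⟨k, hk⟩ : ∃ k : ℕ, -n = (k : ℤ) + 1 := ⟨(-n - 1).toNat, by omega⟩
    apply hϖ.2.1
    rw [mem_intUnits]
    refine ⟨hϖ.1, ?_⟩
    have e : (ϖ⁻¹ : Lˣ) = (x * ϖ ^ (-n))⁻¹ * x * ϖ ^ k := by
      rw [hk, zpow_add, zpow_one, zpow_natCast, mul_inv, mul_inv, mul_comm x⁻¹,
        mul_assoc, mul_assoc, ← mul_assoc x⁻¹, inv_mul_cancel, one_mul, mul_comm (ϖ ^ k)⁻¹,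
        mul_assoc, inv_mul_cancel, mul_one]
    rw [e, Units.val_mul, Units.val_mul, Units.val_pow_eq_pow_val]
    exact (((mem_intUnits A F L).mp hx).2.mul hint).mul (isInt_pow A F L hϖ.1 k)
  · intro hnn
    obtain ⟨k, hk⟩ : ∃ k : ℕ, n = (k : ℤ) := ⟨n.toNat, by omega⟩
    have e : x = x * ϖ ^ (-n) * ϖ ^ k := by
      rw [hk, zpow_neg, zpow_natCast, mul_assoc, inv_mul_cancel, mul_one]
    rw [e, Units.val_mul, Units.val_pow_eq_pow_val]
    exact ((mem_intUnits A F L).mp hx).1.mul (isInt_pow A F L hϖ.1 k)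

/-- `x / ϖ ^ n` is integral iff `n ≤ ord x`. -/
lemma isInt_div_pow_iff (x : Lˣ) (n : ℕ) :
    IsInt A F L ((x : L) / (ϖ : L) ^ n) ↔ (n : ℤ) ≤ ord A F L ϖ x := by
  have e : ((x : L) / (ϖ : L) ^ n) = ((x * (ϖ ^ n)⁻¹ : Lˣ) : L) := by
    rw [Units.val_mul, Units.val_inv_eq_inv_val, Units.val_pow_eq_pow_val, div_eq_mul_inv]
  rw [e, isInt_iff_ord_nonneg hϖ, ord_mul hϖ, ord_inv hϖ, ord_pow hϖ, ord_self hϖ]
  constructor <;> intro h <;> omega

/-- Any two uniformizers have the same order function. -/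
lemma ord_eq_ord {ϖ' : Lˣ} (hϖ' : IsUnif A F L ϖ') (x : Lˣ) :
    ord A F L ϖ' x = ord A F L ϖ x := by
  -- `ord ϖ ϖ' = 1`
  have h1 : 0 < ord A F L ϖ ϖ' := by
    have h0 : 0 ≤ ord A F L ϖ ϖ' := (isInt_iff_ord_nonneg hϖ ϖ').mp hϖ'.1
    rcases h0.lt_or_eq with h | h
    · exact h
    · exact absurd ((ord_eq_zero_iff hϖ).mp h.symm) hϖ'.2.1
  have h2 : 0 < ord A F L ϖ' ϖ := by
    have h0 : 0 ≤ ord A F L ϖ' ϖ := (isInt_iff_ord_nonneg hϖ' ϖ).mp hϖ.1
    rcases h0.lt_or_eq with h | h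
    · exact h
    · exact absurd ((ord_eq_zero_iff hϖ').mp h.symm) hϖ.2.1
  -- `ϖ = u * ϖ' ^ a` gives `1 = a * ord ϖ ϖ'`
  have h3 : ord A F L ϖ ϖ = ord A F L ϖ' ϖ * ord A F L ϖ ϖ' := by
    have := ord_spec hϖ' ϖ
    have := (ord_eq_zero_iff hϖ).mpr this
    rw [ord_mul hϖ, ord_zpow hϖ] at this
    linarith
  rw [ord_self hϖ] at h3
  have h4 : ord A F L ϖ ϖ' = 1 := by
    have : ord A F L ϖ ϖ' ∣ 1 := ⟨ord A F L ϖ' ϖ, by rw [h3]; ring⟩
    exact Int.eq_one_of_dvd_one h1.le this
  have := ord_spec hϖ' x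
  have := (ord_eq_zero_iff hϖ).mpr this
  rw [ord_mul hϖ, ord_zpow hϖ, h4] at this
  linarith

end Ord

end Fermat.Agent.S55.Local.H775

end
-- ===== PACK-END S55/Local/H775/Ord.lean

-- ===== PACK-BEGIN S55/H954/Devissage.lean
section



/-!
# Dévissage along a normal subgroup (degrees 1 and 2)

`A : Rep k G`, `N ⊴ G`.

* `H1_eq_zero_of_normal`: `H¹(N, A) = 0` and `H¹(G ⧸ N, A^N) = 0` imply `H¹(G, A) = 0`.
* `card_H2_dvd_of_normal`: if moreover `H²(N, A)` and `H²(G ⧸ N, A^N)` are finite, then `H²(G, A)`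
  is finite and `|H²(G, A)|` divides `|H²(G ⧸ N, A^N)| * |H²(N, A)|`.

These are the induction steps in the proof that a module whose prime-degree cyclic subquotients
satisfy `H¹ = 0`, `|H²| ∣ p` satisfies `H¹ = 0`, `|H²| ∣ |G|` (local and global class field theory).
-/

set_option autoImplicit false
set_option linter.unusedSectionVars false
set_option linter.style.haveILetI false

namespace Fermat.Agent.S55.H954

open CategoryTheory groupCohomology Rep

section Counting

variable {X₁ X₂ X₃ : Type*} [AddCommGroup X₁] [AddCommGroup X₂] [AddCommGroup X₃]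

/-- Counting in a left exact sequence `0 → X₁ → X₂ → X₃` of abelian groups. -/
theorem finite_and_card_dvd_of_exact (f : X₁ →+ X₂) (g : X₂ →+ X₃)
    (hf : Function.Injective f) (hex : ∀ x, g x = 0 → ∃ y, f y = x)
    [Finite X₁] [Finite X₃] :
    Finite X₂ ∧ Nat.card X₂ ∣ Nat.card X₁ * Nat.card X₃ := by
  have hker : g.ker ≤ f.range := fun x hx => by
    obtain ⟨y, hy⟩ := hex x (AddMonoidHom.mem_ker.1 hx)
    exact ⟨y, hy⟩
  haveI hfr : Finite f.range := Finite.of_surjective (fun y : X₁ => (⟨f y, y, rfl⟩ : f.range))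
    (fun ⟨_, y, rfl⟩ => ⟨y, rfl⟩)
  haveI : Finite g.ker := Finite.of_injective (fun x : g.ker => (⟨x.1, hker x.2⟩ : f.range))
    (fun a b h => Subtype.ext (by simpa using congrArg Subtype.val h))
  haveI : Finite g.range := inferInstance
  have e := QuotientAddGroup.quotientKerEquivRange g
  haveI : Finite (X₂ ⧸ g.ker) := Finite.of_equiv _ e.symm.toEquiv
  haveI hX₂ : Finite X₂ := by
    have := AddSubgroup.card_eq_card_quotient_mul_card_addSubgroup g.ker
    refine Nat.finite_of_card_ne_zero ?_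
    rw [this]
    exact Nat.mul_ne_zero Nat.card_pos.ne' Nat.card_pos.ne'
  refine ⟨hX₂, ?_⟩
  rw [AddSubgroup.card_eq_card_quotient_mul_card_addSubgroup g.ker, mul_comm]
  refine Nat.mul_dvd_mul ?_ ?_
  · -- `|ker g| ∣ |X₁|`: `ker g` is a subgroup of `range f ≅ X₁`
    have h1 : Nat.card g.ker ∣ Nat.card f.range := by
      have := AddSubgroup.card_dvd_of_le hker
      simpa using this
    have h2 : Nat.card f.range = Nat.card X₁ :=
      (Nat.card_congr (AddMonoidHom.ofInjective hf).toEquiv).symm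
    rwa [h2] at h1
  · rw [Nat.card_congr e.toEquiv]
    exact AddSubgroup.card_addSubgroup_dvd_card g.range

end Counting

universe u

variable {k G : Type u} [CommRing k] [Group G] (A : Rep k G) (N : Subgroup G) [N.Normal]

/-- Dévissage for `H¹`: if `H¹(N, A) = 0` and `H¹(G ⧸ N, A^N) = 0` then `H¹(G, A) = 0`. -/
theorem H1_eq_zero_of_normal (hN : ∀ x : H1 (res N.subtype A), x = 0)
    (hQ : ∀ x : H1 (A.quotientToInvariants N), x = 0) (x : H1 A) : x = 0 := by
  have hex := H1InfRes_exact A N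
  rw [ShortComplex.moduleCat_exact_iff_ker_sub_range] at hex
  obtain ⟨y, hy⟩ := hex (LinearMap.mem_ker.2 (hN ((H1InfRes A N).g.hom x)))
  have hy0 : y = 0 := hQ y
  rw [← hy, hy0]
  exact map_zero (H1InfRes A N).f.hom

/-- Dévissage for `H²`: if `H¹(N, A) = 0` and `H²(N, A)`, `H²(G ⧸ N, A^N)` are finite, then
`H²(G, A)` is finite and its order divides `|H²(G ⧸ N, A^N)| * |H²(N, A)|`. -/
theorem card_H2_dvd_of_normal (hN : ∀ x : H1 (res N.subtype A), x = 0)
    [Finite (H2 (res N.subtype A))] [Finite (H2 (A.quotientToInvariants N))] :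
    Finite (H2 A) ∧
      Nat.card (H2 A) ∣ Nat.card (H2 (A.quotientToInvariants N)) * Nat.card (H2 (res N.subtype A)) :=
  finite_and_card_dvd_of_exact
    (X₁ := H2 (A.quotientToInvariants N)) (X₂ := H2 A) (X₃ := H2 (res N.subtype A))
    (H2InfRes A N).f.hom.toAddMonoidHom (H2InfRes A N).g.hom.toAddMonoidHom
    (inf_injective A N hN)
    (fun x hx => exists_inf_eq_of_res_eq_zero A N hN x hx)

/-- Combined form with explicit bounds. -/
theorem H2_card_dvd_mul_of_normal (hN : ∀ x : H1 (res N.subtype A), x = 0) {a b : ℕ}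
    (hfN : Finite (H2 (res N.subtype A))) (hfQ : Finite (H2 (A.quotientToInvariants N)))
    (ha : Nat.card (H2 (res N.subtype A)) ∣ a)
    (hb : Nat.card (H2 (A.quotientToInvariants N)) ∣ b) :
    Finite (H2 A) ∧ Nat.card (H2 A) ∣ b * a := by
  obtain ⟨h1, h2⟩ := card_H2_dvd_of_normal A N hN
  exact ⟨h1, h2.trans (Nat.mul_dvd_mul hb ha)⟩

end Fermat.Agent.S55.H954

end
-- ===== PACK-END S55/H954/Devissage.lean

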