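import Mathlib
import Fermat.Prelude.Thm_Algebra_finite_maximalSpectrum_and_bijective_localization_of_module_finite
import Fermat.Prelude.Thm_IsLocalRing_isAdicComplete_of_module_finite
import Fermat.Agent.Pack.S56.E3L3
import Fermat.Agent.Pack.S56.E3L0
import Fermat.Agent.Pack.S56.E0L2
import Fermat.Agent.Pack.S56.E0L1
import Fermat.Agent.Pack.S56.E3L2
import Fermat.Agent.Pack.S56.E1L0
import Fermat.Agent.Pack.S56.E1L1
import Fermat.Agent.Pack.S56.E1L2
import Fermat.Agent.Pack.S56.E1L3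
import Fermat.Agent.Pack.S56.E2L2
import Fermat.Agent.Pack.S56.E2L1
import Fermat.Agent.Pack.S56.E2L0

-- ===== PACK-BEGIN S56/Glue.lean
section


/-!
# Row S56 — top glue (sorry-free): `TB(ord) + TB(flat) + P1 + TWP ⇒ S56`
-/

set_option autoImplicit false

open Polynomial IsLocalRing

namespace Fermat.Agent.S56

/-- One half of S56 from the layer-0 inputs, for a family of conditions `cond`. -/
theorem half_of_inputs (hP1 : PowerSeriesSurjStatement) (hTWP : TWPrimesStatement)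
    {𝒪 : Type} [CommRing 𝒪] [IsDomain 𝒪] [IsDiscreteValuationRing 𝒪]
    [IsAdicComplete (maximalIdeal 𝒪) 𝒪] [Finite (ResidueField 𝒪)]
    (p : ℕ) (ρbar : ResidualGaloisRep (ResidueField 𝒪)) (S Smin : Finset ℕ)
    (H : Hyp 𝒪 p ρbar S Smin) (cond : Finset ℕ → DefCond 𝒪)
    (hTB : TangentBound 𝒪 p ρbar S cond) :
    ∃ r : ℕ, ∀ n : ℕ, ∃ qv : Fin r → ℕ, Function.Injective qv ∧
      (∀ i, (qv i).Prime ∧ qv i ∉ S ∧ p ^ (n + 1) ∣ qv i - 1) ∧
      (∀ i, ∀ P : ValuationSubring (AlgebraicClosure ℚ), P.LiesOverPrime (qv i) →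
        ∀ φ : AlgebraicClosure ℚ ≃ₐ[ℚ] AlgebraicClosure ℚ, P.IsFrobeniusAt φ (qv i) →
          ∃ α β : ResidueField 𝒪, α ≠ β ∧
            LinearMap.charpoly (ρbar.ρ φ) = (X - C α) * (X - C β)) ∧
      ∀ DQ : GaloisRep.DeformationRingData 𝒪 ρbar (cond (Finset.univ.image qv)),
        ∃ γ : MvPowerSeries (Fin r) 𝒪 →ₐ[𝒪] DQ.R, Function.Surjective γ := by
  obtain ⟨D, hD, hbound⟩ := hTB
  refine ⟨Module.finrank (ResidueField 𝒪) D, fun n => ?_⟩
  obtain ⟨qv, hinj, hq, hfrob, hkill⟩ := hTWP 𝒪 p ρbar S Smin H D hD n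
  refine ⟨qv, hinj, hq, hfrob, fun DQ => ?_⟩
  have hTWQ : ∀ q ∈ Finset.univ.image qv, IsTWPrime ρbar p S q := by
    intro q hqQ
    obtain ⟨i, -, rfl⟩ := Finset.mem_image.mp hqQ
    refine ⟨(hq i).1, (hq i).2.1, ?_, hfrob i⟩
    exact dvd_trans (dvd_pow_self p (Nat.succ_ne_zero n)) (hq i).2.2
  obtain ⟨hfin, hcard⟩ := hbound (Finset.univ.image qv) hTWQ hkill DQ
  have hQcard : (Finset.univ.image qv).card = Module.finrank (ResidueField 𝒪) D := by
    rw [Finset.card_image_of_injective _ hinj, Finset.card_univ, Fintype.card_fin]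
  rw [hQcard] at hcard
  exact hP1 𝒪 DQ.R DQ.residue_surjective _ hfin hcard

/-- **S56 from the layer-0 inputs.** -/
theorem result_of_inputs (hTBo : TangentBoundOrdStatement) (hTBf : TangentBoundFlatStatement)
    (hP1 : PowerSeriesSurjStatement) (hTWP : TWPrimesStatement)
    {𝒪 : Type} [CommRing 𝒪] [IsDomain 𝒪] [IsDiscreteValuationRing 𝒪]
    [IsAdicComplete (maximalIdeal 𝒪) 𝒪] [Finite (ResidueField 𝒪)]
    (p : ℕ) [Fact p.Prime] (hp2 : p ≠ 2) (hp𝒪 : (p : 𝒪) ∈ maximalIdeal 𝒪)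
    (ρbar : ResidualGaloisRep (ResidueField 𝒪))
    (habs : ρbar.IsAbsolutelyIrreducible)
    (hdet : (GaloisRepAdic.ofResidualGaloisRep ρbar).DetIsCyclotomic p)
    (hsplit : ∀ σ : AlgebraicClosure ℚ ≃ₐ[ℚ] AlgebraicClosure ℚ,
      ∃ α β : ResidueField 𝒪, LinearMap.charpoly (ρbar.ρ σ) = (X - C α) * (X - C β))
    (hTW : ∀ (K : Type) [Field K] [Algebra (ResidueField 𝒪) K]
      (G : Subgroup (AlgebraicClosure ℚ ≃ₐ[ℚ] AlgebraicClosure ℚ)), G.index = 2 →
      ∀ V : Submodule K (ρbar.baseChange K).V,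
        (∀ σ ∈ G, ∀ x ∈ V, (ρbar.baseChange K).ρ σ x ∈ V) → V = ⊥ ∨ V = ⊤)
    (S Smin : Finset ℕ) (hpSmin : p ∈ Smin) (hSmin : Smin ⊆ S) (hS : ∀ q ∈ S, q.Prime)
    (hmin : ∀ q : ℕ, q.Prime → q ≠ p → (q ∈ Smin ↔ ¬ ρbar.IsUnramifiedAt q)) :
    (∃ r : ℕ, ∀ n : ℕ, ∃ qv : Fin r → ℕ, Function.Injective qv ∧
      (∀ i, (qv i).Prime ∧ qv i ∉ S ∧ p ^ (n + 1) ∣ qv i - 1) ∧
      (∀ i, ∀ P : ValuationSubring (AlgebraicClosure ℚ), P.LiesOverPrime (qv i) →
        ∀ φ : AlgebraicClosure ℚ ≃ₐ[ℚ] AlgebraicClosure ℚ, P.IsFrobeniusAt φ (qv i) →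
          ∃ α β : ResidueField 𝒪, α ≠ β ∧ LinearMap.charpoly (ρbar.ρ φ) = (X - C α) * (X - C β)) ∧
      ∀ DQ : GaloisRep.DeformationRingData 𝒪 ρbar (fun _A _ _ _ ρ =>
          GaloisRep.strictOrdinaryCondition 𝒪 p (Smin ∪ Finset.univ.image qv) ρ ∧
            ∀ q ∈ Smin, q.Prime → q ≠ p → ρ.IsUnipotentOnInertiaAt q),
        ∃ γ : MvPowerSeries (Fin r) 𝒪 →ₐ[𝒪] DQ.R, Function.Surjective γ) ∧
    (∃ r : ℕ, ∀ n : ℕ, ∃ qv : Fin r → ℕ, Function.Injective qv ∧
      (∀ i, (qv i).Prime ∧ qv i ∉ S ∧ p ^ (n + 1) ∣ qv i - 1) ∧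
      (∀ i, ∀ P : ValuationSubring (AlgebraicClosure ℚ), P.LiesOverPrime (qv i) →
        ∀ φ : AlgebraicClosure ℚ ≃ₐ[ℚ] AlgebraicClosure ℚ, P.IsFrobeniusAt φ (qv i) →
          ∃ α β : ResidueField 𝒪, α ≠ β ∧ LinearMap.charpoly (ρbar.ρ φ) = (X - C α) * (X - C β)) ∧
      ∀ DQ : GaloisRep.DeformationRingData 𝒪 ρbar (fun _A _ _ _ ρ =>
          GaloisRep.flatCondition 𝒪 p (Smin ∪ Finset.univ.image qv) ρ ∧
            ∀ q ∈ Smin, q.Prime → q ≠ p → ρ.IsUnipotentOnInertiaAt q),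
        ∃ γ : MvPowerSeries (Fin r) 𝒪 →ₐ[𝒪] DQ.R, Function.Surjective γ) := by
  have H : Hyp 𝒪 p ρbar S Smin :=
    ⟨Fact.out, hp2, hp𝒪, habs, hdet, hsplit, hTW, hpSmin, hSmin, hS, hmin⟩
  exact ⟨half_of_inputs hP1 hTWP p ρbar S Smin H (ordCond 𝒪 p Smin)
      (hTBo 𝒪 p ρbar S Smin H),
    half_of_inputs hP1 hTWP p ρbar S Smin H (flatCond 𝒪 p Smin) (hTBf 𝒪 p ρbar S Smin H)⟩

end Fermat.Agent.S56

end
-- ===== PACK-END S56/Glue.lean

-- ===== PACK-BEGIN S56/H726/Rec.lean
section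




/-!
# S56 / P3(b) — the recurrence along a unipotent element (helper726)

(IV) `f = tr Ψ` vanishes on elements of `H` with distinct eigenvalues; the sequence
`F j = f (σ₀ τ^j)` for a unipotent `ρ τ = 1 + n` satisfies the recurrence of `Seq.lean`.
-/

set_option autoImplicit false

namespace Fermat.Agent.S56.H726

open Matrix

namespace TwData

variable {k : Type*} [Field k] {G : Type*} [Group G] (D : TwData k G)

/-- (IV) `f` vanishes on regular elements of `H`. -/
theorem f_eq_zero_of_trace_sq_ne [Finite k] {σ : G} (hσ : σ ∈ D.H)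
    (h : (D.ρ σ).trace ^ 2 ≠ 4) : (D.Ψ σ).trace = 0 := by
  haveI := Fintype.ofFinite k
  obtain ⟨α, β, htr, hαβ⟩ := D.split σ hσ
  have hne : α ≠ β := by
    intro hab
    apply h
    rw [htr, hab]
    rw [hab] at hαβ
    linear_combination 4 * hαβ
  have hpow := m2_pow_card_sub_one (D.det_H σ hσ) htr hαβ hne
  have h0 := D.natCast_mul_f_eq_zero hσ _ hpow
  have hcard : ((Fintype.card k - 1 : ℕ) : k) = -1 := by
    rw [Nat.cast_sub Fintype.card_pos, FiniteField.cast_card_eq_zero]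
    simp
  rw [hcard] at h0
  linear_combination -h0

variable {τ σ₀ : G} {n : Matrix (Fin 2) (Fin 2) k}

theorem ρ_pow_unip (hn : D.ρ τ = 1 + n) (hn2 : n * n = 0) (j : ℕ) :
    D.ρ (τ ^ j) = 1 + (j : k) • n := by
  rw [map_pow, hn, m2_unip_pow hn2]

theorem trace_mul_pow_unip (hn : D.ρ τ = 1 + n) (hn2 : n * n = 0) (j : ℕ) :
    (D.ρ (σ₀ * τ ^ j)).trace = (D.ρ σ₀).trace + (j : k) * (D.ρ σ₀ * n).trace := by
  rw [map_mul, D.ρ_pow_unip hn hn2, mul_add, mul_one, Matrix.mul_smul, Matrix.trace_add,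
    Matrix.trace_smul, smul_eq_mul]

/-- The recurrence (R). -/
theorem rec_step (hτ : τ ∈ D.H) (hσ₀ : σ₀ ∈ D.H) (hn : D.ρ τ = 1 + n) (hn2 : n * n = 0)
    (j : ℕ) :
    (D.Ψ (σ₀ * τ ^ (j + 2))).trace - 2 * (D.Ψ (σ₀ * τ ^ (j + 1))).trace +
      (D.Ψ (σ₀ * τ ^ j)).trace =
      (D.Ψ τ).trace * ((D.ρ σ₀).trace + ((j : k) + 1) * (D.ρ σ₀ * n).trace) := by
  have h := D.f_add (D.H.mul_mem hσ₀ (D.H.pow_mem hτ (j + 1))) hτ
  have e1 : σ₀ * τ ^ (j + 1) * τ = σ₀ * τ ^ (j + 2) := by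
    rw [mul_assoc, ← pow_succ]
  have e2 : σ₀ * τ ^ (j + 1) * τ⁻¹ = σ₀ * τ ^ j := by
    rw [pow_succ, ← mul_assoc, mul_inv_cancel_right]
  have e3 : (D.ρ τ).trace = 2 := by
    rw [hn, Matrix.trace_add, m2_trace_of_sq_zero hn2, Matrix.trace_one, Fintype.card_fin]
    norm_num
  rw [e1, e2, e3, D.trace_mul_pow_unip hn hn2] at h
  push_cast at h
  linear_combination h

/-- Periodicity. -/
theorem periodic (p : ℕ) [CharP k p] (hτ : τ ∈ D.H) (hn : D.ρ τ = 1 + n) (hn2 : n * n = 0)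
    (j : ℕ) : D.Ψ (σ₀ * τ ^ (j + p)) = D.Ψ (σ₀ * τ ^ j) := by
  rw [pow_add, ← mul_assoc]
  apply D.Ψ_mul_N _ (D.H.pow_mem hτ p)
  rw [D.ρ_pow_unip hn hn2, CharP.cast_eq_zero, zero_smul, add_zero]

/-- Vanishing. -/
theorem vanish [Finite k] (hτ : τ ∈ D.H) (hσ₀ : σ₀ ∈ D.H) (hn : D.ρ τ = 1 + n)
    (hn2 : n * n = 0) (j : ℕ)
    (h : ((D.ρ σ₀).trace + (j : k) * (D.ρ σ₀ * n).trace) ^ 2 ≠ 4) :
    (D.Ψ (σ₀ * τ ^ j)).trace = 0 := by
  apply D.f_eq_zero_of_trace_sq_ne (D.H.mul_mem hσ₀ (D.H.pow_mem hτ j))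
  rw [D.trace_mul_pow_unip hn hn2]
  exact h

/-- The cases `p = 3` and `p ≥ 7`: `f(τ) · tr(ρ(σ₀) n) = 0`. -/
theorem unip_contra [Finite k] (p : ℕ) [Fact p.Prime] [CharP k p] (hp : p = 3 ∨ 7 ≤ p)
    (hτ : τ ∈ D.H) (hσ₀ : σ₀ ∈ D.H) (hn : D.ρ τ = 1 + n) (hn2 : n * n = 0) :
    (D.Ψ τ).trace * (D.ρ σ₀ * n).trace = 0 := by
  rcases hp with hp | hp
  · subst hp
    exact seq_three (fun j => (D.Ψ (σ₀ * τ ^ j)).trace) _ (D.ρ σ₀).trace _
      (fun j => D.rec_step hτ hσ₀ hn hn2 j)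
      (fun j => by
        show (D.Ψ (σ₀ * τ ^ (j + 3))).trace = _
        rw [D.periodic 3 hτ hn hn2])
  · exact seq_cubic p hp (fun j => (D.Ψ (σ₀ * τ ^ j)).trace) _ (D.ρ σ₀).trace _
      (fun j => D.rec_step hτ hσ₀ hn hn2 j)
      (fun j h => D.vanish hτ hσ₀ hn hn2 j h)

end TwData

end Fermat.Agent.S56.H726

end
-- ===== PACK-END S56/H726/Rec.lean

-- ===== PACK-BEGIN Lib/Cheb/H761/PrimeSum.lean
section



/-!
# Piece Z of the shared library CHEB: `Spec.PrimeSumStatement`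

`∑_p c_F(p) p^(-s) = log (1 / (s - 1)) + O(1)` on `(1, 2]`, where `c_F(p)` is the number of prime
ideals of `𝓞 F` of norm `p`.
-/

set_option autoImplicit false
set_option linter.unusedSectionVars false
set_option linter.unusedVariables false

namespace Fermat.Agent.Lib.Cheb.H761

open IsDedekindDomain Filter Topology NumberField Ideal

noncomputable section

variable (F : Type*) [Field F] [NumberField F]

/-- At most `[F : ℚ]` primes of `𝓞 F` contain a given rational prime. -/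
lemma card_le_of_natCast_mem {p : ℕ} (hp : p.Prime) (T : Finset (HeightOneSpectrum (𝓞 F)))
    (hT : ∀ 𝔭 ∈ T, (p : 𝓞 F) ∈ 𝔭.asIdeal) : T.card ≤ Module.finrank ℤ (𝓞 F) := by
  classical
  have hdvd : ∀ 𝔭 ∈ T, 𝔭.asIdeal ∣ span {(p : 𝓞 F)} := fun 𝔭 h𝔭 =>
    Ideal.dvd_iff_le.mpr ((span_singleton_le_iff_mem _).mpr (hT 𝔭 h𝔭))
  have hprod : ∏ 𝔭 ∈ T, 𝔭.asIdeal ∣ span {(p : 𝓞 F)} := by
    have := Finset.prod_primes_dvd (s := T.image (fun 𝔭 => 𝔭.asIdeal)) (span {(p : 𝓞 F)})
      (by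
        intro a ha
        obtain ⟨𝔭, -, rfl⟩ := Finset.mem_image.mp ha
        exact 𝔭.prime)
      (by
        intro a ha
        obtain ⟨𝔭, h𝔭, rfl⟩ := Finset.mem_image.mp ha
        exact hdvd 𝔭 h𝔭)
    rwa [Finset.prod_image (fun x _ y _ h => HeightOneSpectrum.ext h)] at this
  have hnorm := Ideal.absNorm_dvd_absNorm_of_le (Ideal.dvd_iff_le.mp hprod)
  rw [Ideal.absNorm_span_natCast, map_prod] at hnorm
  have hle : ∀ 𝔭 ∈ T, p ≤ absNorm 𝔭.asIdeal := by
    intro 𝔭 h𝔭
    have h1 := Ideal.absNorm_dvd_absNorm_of_le (Ideal.dvd_iff_le.mp (hdvd 𝔭 h𝔭))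
    rw [Ideal.absNorm_span_natCast] at h1
    obtain ⟨k, -, hk⟩ := (Nat.dvd_prime_pow hp).mp h1
    have hk0 : k ≠ 0 := by
      rintro rfl
      rw [pow_zero, Ideal.absNorm_eq_one_iff] at hk
      exact 𝔭.isPrime.ne_top hk
    rw [hk]
    exact Nat.le_self_pow hk0 p
  have h2 : p ^ T.card ≤ ∏ 𝔭 ∈ T, absNorm 𝔭.asIdeal := by
    rw [← Finset.prod_const]
    exact Finset.prod_le_prod' hle
  have h3 : ∏ 𝔭 ∈ T, absNorm 𝔭.asIdeal ≤ p ^ Module.finrank ℤ (𝓞 F) :=
    Nat.le_of_dvd (pow_pos hp.pos _) hnorm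
  exact (Nat.pow_le_pow_iff_right hp.one_lt).mp (h2.trans h3)

/-- the rational prime below a prime ideal -/
def primeBelow (𝔭 : HeightOneSpectrum (𝓞 F)) : ℕ :=
  haveI := 𝔭.isMaximal
  (Ideal.exists_prime_and_absNorm_eq_pow 𝔭.asIdeal).choose

lemma primeBelow_spec (𝔭 : HeightOneSpectrum (𝓞 F)) :
    ∃ n, 0 < n ∧ (primeBelow F 𝔭 : 𝓞 F) ∈ 𝔭.asIdeal ∧ (primeBelow F 𝔭).Prime ∧
      absNorm 𝔭.asIdeal = primeBelow F 𝔭 ^ n :=
  haveI := 𝔭.isMaximal
  (Ideal.exists_prime_and_absNorm_eq_pow 𝔭.asIdeal).choose_spec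

/-- For a prime of non-prime norm, `N𝔭 ≥ p²`. -/
lemma sq_primeBelow_le (𝔭 : HeightOneSpectrum (𝓞 F)) (h : ¬ (absNorm 𝔭.asIdeal).Prime) :
    primeBelow F 𝔭 ^ 2 ≤ absNorm 𝔭.asIdeal := by
  obtain ⟨n, hn, -, hp, hN⟩ := primeBelow_spec F 𝔭
  have hn2 : 2 ≤ n := by
    by_contra hlt
    have : n = 1 := by omega
    rw [this, pow_one] at hN
    exact h (hN ▸ hp)
  rw [hN]
  exact Nat.pow_le_pow_right hp.pos hn2

/-- the primes of non-prime norm -/
def highPrimes : Set (HeightOneSpectrum (𝓞 F)) := {𝔭 | ¬ (absNorm 𝔭.asIdeal).Prime}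

/-- the constant bounding the contribution of the primes of degree `≥ 2` -/
def highBound : ℝ := (Module.finrank ℤ (𝓞 F) : ℝ) * ∑' n : ℕ, ((n : ℝ) ^ 2)⁻¹

lemma summable_inv_sq : Summable (fun n : ℕ => ((n : ℝ) ^ 2)⁻¹) := by
  have := (Real.summable_nat_pow_inv (p := 2)).mpr (by norm_num)
  exact this

lemma sum_highPrimes_le {s : ℝ} (hs : 1 ≤ s) (T : Finset (HeightOneSpectrum (𝓞 F)))
    (hT : ∀ 𝔭 ∈ T, ¬ (absNorm 𝔭.asIdeal).Prime) :
    ∑ 𝔭 ∈ T, normPow F s 𝔭.asIdeal ≤ highBound F := by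
  classical
  have h1 : ∀ 𝔭 ∈ T, normPow F s 𝔭.asIdeal ≤ (((primeBelow F 𝔭 : ℕ) : ℝ) ^ 2)⁻¹ := by
    intro 𝔭 h𝔭
    have hsq := sq_primeBelow_le F 𝔭 (hT 𝔭 h𝔭)
    obtain ⟨n, hn, -, hp, hN⟩ := primeBelow_spec F 𝔭
    have hpos : (0 : ℝ) < (primeBelow F 𝔭 : ℝ) ^ 2 := by
      have : (0 : ℝ) < primeBelow F 𝔭 := by exact_mod_cast hp.pos
      positivity
    have hle : ((primeBelow F 𝔭 : ℝ)) ^ 2 ≤ (absNorm 𝔭.asIdeal : ℝ) := by exact_mod_cast hsq
    have h1N : (1 : ℝ) ≤ absNorm 𝔭.asIdeal := by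
      have : (1 : ℝ) ≤ (primeBelow F 𝔭 : ℝ) ^ 2 := by
        have : (1 : ℝ) ≤ primeBelow F 𝔭 := by exact_mod_cast hp.one_lt.le
        nlinarith
      linarith
    calc normPow F s 𝔭.asIdeal ≤ normPow F 1 𝔭.asIdeal :=
          normPow_anti F hs 𝔭.asIdeal one_pos
      _ = (absNorm 𝔭.asIdeal : ℝ)⁻¹ := by
          rw [normPow, Real.rpow_neg_one]
      _ ≤ (((primeBelow F 𝔭 : ℕ) : ℝ) ^ 2)⁻¹ := inv_anti₀ hpos hle
  calc ∑ 𝔭 ∈ T, normPow F s 𝔭.asIdeal
      ≤ ∑ 𝔭 ∈ T, (((primeBelow F 𝔭 : ℕ) : ℝ) ^ 2)⁻¹ := Finset.sum_le_sum h1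
    _ = ∑ p ∈ T.image (primeBelow F),
          ∑ 𝔭 ∈ T.filter (fun 𝔭 => primeBelow F 𝔭 = p), (((primeBelow F 𝔭 : ℕ) : ℝ) ^ 2)⁻¹ := by
        rw [Finset.sum_fiberwise_of_maps_to (fun 𝔭 h𝔭 => Finset.mem_image_of_mem _ h𝔭)]
    _ ≤ ∑ p ∈ T.image (primeBelow F), (Module.finrank ℤ (𝓞 F) : ℝ) * ((p : ℝ) ^ 2)⁻¹ := by
        refine Finset.sum_le_sum fun p hp => ?_
        obtain ⟨𝔮, h𝔮, rfl⟩ := Finset.mem_image.mp hp
        have hcard : (T.filter (fun 𝔭 => primeBelow F 𝔭 = primeBelow F 𝔮)).card ≤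
            Module.finrank ℤ (𝓞 F) := by
          obtain ⟨n, -, -, hpr, -⟩ := primeBelow_spec F 𝔮
          refine card_le_of_natCast_mem F hpr _ fun 𝔭 h𝔭 => ?_
          obtain ⟨-, h⟩ := Finset.mem_filter.mp h𝔭
          obtain ⟨m, -, hmem, -, -⟩ := primeBelow_spec F 𝔭
          rwa [h] at hmem
        calc ∑ 𝔭 ∈ T.filter (fun 𝔭 => primeBelow F 𝔭 = primeBelow F 𝔮),
              (((primeBelow F 𝔭 : ℕ) : ℝ) ^ 2)⁻¹
            = ∑ 𝔭 ∈ T.filter (fun 𝔭 => primeBelow F 𝔭 = primeBelow F 𝔮),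
              (((primeBelow F 𝔮 : ℕ) : ℝ) ^ 2)⁻¹ := by
              refine Finset.sum_congr rfl fun 𝔭 h𝔭 => ?_
              rw [(Finset.mem_filter.mp h𝔭).2]
          _ = ((T.filter (fun 𝔭 => primeBelow F 𝔭 = primeBelow F 𝔮)).card : ℝ) *
              (((primeBelow F 𝔮 : ℕ) : ℝ) ^ 2)⁻¹ := by
              rw [Finset.sum_const, nsmul_eq_mul]
          _ ≤ (Module.finrank ℤ (𝓞 F) : ℝ) * (((primeBelow F 𝔮 : ℕ) : ℝ) ^ 2)⁻¹ := by
              gcongr
    _ = (Module.finrank ℤ (𝓞 F) : ℝ) * ∑ p ∈ T.image (primeBelow F), ((p : ℝ) ^ 2)⁻¹ := by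
        rw [Finset.mul_sum]
    _ ≤ highBound F := by
        rw [highBound]
        gcongr
        exact summable_inv_sq.sum_le_tsum _ (fun n _ => by positivity)

lemma highBound_nonneg : 0 ≤ highBound F := by
  rw [highBound]
  have : 0 ≤ ∑' n : ℕ, ((n : ℝ) ^ 2)⁻¹ := tsum_nonneg fun n => by positivity
  positivity

/-- The primes of degree `≥ 2` contribute at most `highBound F`. -/
theorem tsum_highPrimes_le {s : ℝ} (hs : 1 < s) :
    ∑' 𝔭 : highPrimes F, normPow F s 𝔭.1.asIdeal ≤ highBound F := by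
  classical
  have hsum : Summable (fun 𝔭 : highPrimes F => normPow F s 𝔭.1.asIdeal) :=
    (summable_primeSum F hs).subtype _
  refine hsum.tsum_le_of_sum_le fun T => ?_
  have := sum_highPrimes_le F hs.le (T.image Subtype.val) (by
    intro 𝔭 h𝔭
    obtain ⟨x, -, rfl⟩ := Finset.mem_image.mp h𝔭
    exact x.2)
  rwa [Finset.sum_image (fun x _ y _ h => Subtype.ext h)] at this

/-- the primes of prime norm -/
def lowPrimes : Set (HeightOneSpectrum (𝓞 F)) := {𝔭 | (absNorm 𝔭.asIdeal).Prime}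

/-- the norm map on primes of prime norm -/
def lowNorm (𝔭 : lowPrimes F) : Nat.Primes := ⟨absNorm 𝔭.1.asIdeal, 𝔭.2⟩

/-- the fibre of `lowNorm` is the set counted by `Spec.primeCount` -/
def fibreEquiv (p : Nat.Primes) :
    {𝔭 : lowPrimes F // lowNorm F 𝔭 = p} ≃
      {𝔮 : Ideal (𝓞 F) // 𝔮.IsPrime ∧ Ideal.absNorm 𝔮 = (p : ℕ)} where
  toFun x := ⟨x.1.1.asIdeal, x.1.1.isPrime, congrArg Subtype.val x.2⟩
  invFun 𝔮 := ⟨⟨⟨𝔮.1, 𝔮.2.1, by
      rintro h
      have := 𝔮.2.2
      rw [h, Ideal.absNorm_bot] at this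
      exact p.2.ne_zero this.symm⟩, by
      show (absNorm 𝔮.1).Prime
      rw [𝔮.2.2]; exact p.2⟩, Subtype.ext 𝔮.2.2⟩
  left_inv x := by
    apply Subtype.ext
    apply Subtype.ext
    apply HeightOneSpectrum.ext
    rfl
  right_inv 𝔮 := by
    apply Subtype.ext
    rfl

end

noncomputable section Final

variable (F : Type) [Field F] [NumberField F]

lemma finite_fibre (p : Nat.Primes) : Finite {𝔭 : lowPrimes F // lowNorm F 𝔭 = p} := by
  have hfin : Finite {𝔮 : Ideal (𝓞 F) // 𝔮.IsPrime ∧ Ideal.absNorm 𝔮 = (p : ℕ)} :=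
    ((Ideal.finite_setOfPred_absNorm_eq (S := 𝓞 F) (p : ℕ)).subset
      (fun 𝔮 h𝔮 => h𝔮.2)).to_subtype
  exact Finite.of_equiv _ (fibreEquiv F p).symm

lemma card_fibre (p : Nat.Primes) :
    Nat.card {𝔭 : lowPrimes F // lowNorm F 𝔭 = p} = Spec.primeCount F p :=
  Nat.card_congr (fibreEquiv F p)

lemma tsum_fibre (s : ℝ) (p : Nat.Primes) :
    ∑' x : {𝔭 : lowPrimes F // lowNorm F 𝔭 = p}, normPow F s x.1.1.asIdeal =
      (Spec.primeCount F p : ℝ) * ((p : ℕ) : ℝ) ^ (-s) := by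
  have := finite_fibre F p
  have : Fintype {𝔭 : lowPrimes F // lowNorm F 𝔭 = p} := Fintype.ofFinite _
  rw [tsum_fintype]
  have h : ∀ x : {𝔭 : lowPrimes F // lowNorm F 𝔭 = p},
      normPow F s x.1.1.asIdeal = ((p : ℕ) : ℝ) ^ (-s) := by
    intro x
    have := congrArg Subtype.val x.2
    simp only [lowNorm] at this
    simp only [normPow, this]
  simp only [h, Finset.sum_const, Finset.card_univ, nsmul_eq_mul, ← card_fibre F p,
    Nat.card_eq_fintype_card]

/-- The sum over the primes of prime norm, indexed by the rational primes. -/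
theorem tsum_lowPrimes_eq {s : ℝ} (hs : 1 < s) :
    ∑' 𝔭 : lowPrimes F, normPow F s 𝔭.1.asIdeal =
      ∑' p : Nat.Primes, (Spec.primeCount F p : ℝ) * ((p : ℕ) : ℝ) ^ (-s) := by
  have hsum : Summable (fun 𝔭 : lowPrimes F => normPow F s 𝔭.1.asIdeal) :=
    (summable_primeSum F hs).subtype _
  have hsum' : Summable (fun y : Σ p : Nat.Primes, {𝔭 : lowPrimes F // lowNorm F 𝔭 = p} =>
      normPow F s y.2.1.1.asIdeal) :=
    ((Equiv.sigmaFiberEquiv (lowNorm F)).summable_iff
      (f := fun 𝔭 : lowPrimes F => normPow F s 𝔭.1.asIdeal)).mpr hsum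
  calc ∑' 𝔭 : lowPrimes F, normPow F s 𝔭.1.asIdeal
      = ∑' y : Σ p : Nat.Primes, {𝔭 : lowPrimes F // lowNorm F 𝔭 = p},
          normPow F s y.2.1.1.asIdeal :=
        ((Equiv.sigmaFiberEquiv (lowNorm F)).tsum_eq
          (fun 𝔭 : lowPrimes F => normPow F s 𝔭.1.asIdeal)).symm
    _ = ∑' p : Nat.Primes, ∑' x : {𝔭 : lowPrimes F // lowNorm F 𝔭 = p},
          normPow F s x.1.1.asIdeal := hsum'.tsum_sigma
    _ = _ := tsum_congr fun p => tsum_fibre F s p

/-- **Piece Z**: `Spec.PrimeSumStatement`. -/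
theorem primeSum_statement : Spec.PrimeSumStatement := by
  intro F _ _
  obtain ⟨C, hC⟩ := exists_primeSum_bound F
  refine ⟨C + highBound F, fun s hs1 hs2 => ?_⟩
  have h1 := hC s hs1 hs2
  have hsum := summable_primeSum F hs1
  have hsplit : primeSum F s =
      (∑' 𝔭 : lowPrimes F, normPow F s 𝔭.1.asIdeal) +
        ∑' 𝔭 : highPrimes F, normPow F s 𝔭.1.asIdeal := by
    have hc : highPrimes F = (lowPrimes F)ᶜ := rfl
    rw [primeSum, hc]
    exact ((hsum.subtype _).tsum_add_tsum_compl (hsum.subtype _)).symm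
  have hhigh := tsum_highPrimes_le F hs1
  have hhigh0 : 0 ≤ ∑' 𝔭 : highPrimes F, normPow F s 𝔭.1.asIdeal :=
    tsum_nonneg fun _ => normPow_nonneg F s _
  have hlog : Real.log (1 / (s - 1)) = -Real.log (s - 1) := by
    rw [one_div, Real.log_inv]
  rw [← tsum_lowPrimes_eq F hs1, hlog]
  rw [abs_le] at h1 ⊢
  rw [hsplit] at h1
  constructor <;> linarith [h1.1, h1.2]

end Final

end Fermat.Agent.Lib.Cheb.H761

end
-- ===== PACK-END Lib/Cheb/H761/PrimeSum.lean

-- ===== PACK-BEGIN S55/G/DefsLocal.lean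
section
/-
S55 (Poitou–Tate), layer G — DEFINITIONS, part 2: the places above `S` in the tensor model.
Sub-architect: helper421.

`AS S L = L ⊗[ℚ] ℚ_S` is a finite product of local fields.  We use its maximal ideals as the
places of `L` above `S`:

* `SPlace S L        = MaximalSpectrum (AS S L)`            (the places of `L` above `S`);
* `sPlaceSMul S G L g 𝔪`                                    (Galois action on the places);
* `decomp S G L 𝔪 : Subgroup G`                             (decomposition group);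
* `LocField S L 𝔪   = AS S L ⧸ 𝔪`                           (the completion `L_𝔪`, a field);
* `locAut S G L 𝔪 : decomp 𝔪 →* (L_𝔪 ≃+* L_𝔪)`, `LocRep S G L 𝔪 : Rep ℤ (decomp 𝔪)` (`= L_𝔪ˣ`);
* `toLoc S L 𝔪 : L →+* L_𝔪`,  `jToLoc`, `lToLoc` and the morphisms
  `jToLocRepHom : res_{D_𝔪} J_S(L) ⟶ L_𝔪ˣ`, `lToLocRepHom : res_{D_𝔪} Lˣ ⟶ L_𝔪ˣ`;
* `locMapJ S G L 𝔪 n : Hⁿ(G, J_S(L)) ⟶ Hⁿ(D_𝔪, L_𝔪ˣ)`,
  `locMapL S G L 𝔪 n : Hⁿ(G, Lˣ) ⟶ Hⁿ(D_𝔪, L_𝔪ˣ)`           (localisation maps).

No `sorry`.  Mathlib + `Defs.lean` only.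
-/


set_option autoImplicit false
set_option linter.unusedSectionVars false

open scoped NumberField TensorProduct
open IsDedekindDomain CategoryTheory

noncomputable section

namespace Fermat.Agent.S55.G

variable (S : Finset Nat.Primes) (G L : Type) [Group G] [Field L] [CharZero L]
  [MulSemiringAction G L]

/-- The places of `L` above `S`: the maximal ideals of `L ⊗[ℚ] ℚ_S`. -/
abbrev SPlace : Type := MaximalSpectrum (AS S L)

variable {L} in
/-- The Galois action on the places above `S`: `g 𝔪 = (g ⊗ 1)(𝔪)`. -/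
def sPlaceSMul (g : G) (𝔪 : SPlace S L) : SPlace S L where
  asIdeal := 𝔪.asIdeal.map (asRingAut G S L g)
  isMaximal :=
    haveI := 𝔪.isMaximal
    Ideal.map_isMaximal_of_equiv (asRingAut G S L g)

variable {L} in
lemma mem_sPlaceSMul_iff (g : G) (𝔪 : SPlace S L) (x : AS S L) :
    x ∈ (sPlaceSMul S G g 𝔪).asIdeal ↔ asAut S G L g⁻¹ x ∈ 𝔪.asIdeal := by
  change x ∈ 𝔪.asIdeal.map (asRingAut G S L g) ↔ _
  rw [← Ideal.comap_symm, Ideal.mem_comap]
  have : (asRingAut G S L g).symm x = asAut S G L g⁻¹ x := by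
    rw [← asRingAut_apply, map_inv]
    rfl
  rw [← this]

/-- The action of `G` on the places above `S` (a definition, NOT a global instance). -/
abbrev sPlaceAction : MulAction G (SPlace S L) where
  smul g 𝔪 := sPlaceSMul S G g 𝔪
  one_smul 𝔪 := by
    refine MaximalSpectrum.ext (Ideal.ext fun x => ?_)
    change x ∈ (sPlaceSMul S G 1 𝔪).asIdeal ↔ _
    rw [mem_sPlaceSMul_iff, inv_one, map_one]
    rfl
  mul_smul g h 𝔪 := by
    refine MaximalSpectrum.ext (Ideal.ext fun x => ?_)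
    change x ∈ (sPlaceSMul S G (g * h) 𝔪).asIdeal ↔
      x ∈ (sPlaceSMul S G g (sPlaceSMul S G h 𝔪)).asIdeal
    rw [mem_sPlaceSMul_iff, mem_sPlaceSMul_iff, mem_sPlaceSMul_iff, mul_inv_rev, map_mul]
    rfl

variable {L} in
/-- The decomposition group of the place `𝔪`. -/
def decomp (𝔪 : SPlace S L) : Subgroup G where
  carrier := {g | sPlaceSMul S G g 𝔪 = 𝔪}
  one_mem' := (sPlaceAction S G L).one_smul 𝔪
  mul_mem' {g h} hg hh := by
    change sPlaceSMul S G (g * h) 𝔪 = 𝔪
    have := (sPlaceAction S G L).mul_smul g h 𝔪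
    change sPlaceSMul S G (g * h) 𝔪 = sPlaceSMul S G g (sPlaceSMul S G h 𝔪) at this
    rw [this, show sPlaceSMul S G h 𝔪 = 𝔪 from hh, show sPlaceSMul S G g 𝔪 = 𝔪 from hg]
  inv_mem' {g} hg := by
    change sPlaceSMul S G g⁻¹ 𝔪 = 𝔪
    have := (sPlaceAction S G L).mul_smul g⁻¹ g 𝔪
    change sPlaceSMul S G (g⁻¹ * g) 𝔪 = sPlaceSMul S G g⁻¹ (sPlaceSMul S G g 𝔪) at this
    rw [show sPlaceSMul S G g 𝔪 = 𝔪 from hg, inv_mul_cancel] at this
    rw [← this]
    exact (sPlaceAction S G L).one_smul 𝔪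

variable {L} in
lemma mem_decomp_iff (𝔪 : SPlace S L) (g : G) :
    g ∈ decomp S G 𝔪 ↔ sPlaceSMul S G g 𝔪 = 𝔪 := Iff.rfl

variable {L} in
lemma map_eq_of_mem_decomp (𝔪 : SPlace S L) (g : decomp S G 𝔪) :
    𝔪.asIdeal = 𝔪.asIdeal.map (asRingAut G S L (g : G)) :=
  (congrArg MaximalSpectrum.asIdeal g.2).symm

variable {L} in
/-- The local field `L_𝔪 = (L ⊗[ℚ] ℚ_S) ⧸ 𝔪` at the place `𝔪`. -/
def LocField (𝔪 : SPlace S L) : Type := AS S L ⧸ 𝔪.asIdeal

variable {L} in
instance LocField.instField (𝔪 : SPlace S L) : Field (LocField S 𝔪) :=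
  haveI := 𝔪.isMaximal
  Ideal.Quotient.field 𝔪.asIdeal

variable {L} in
/-- The projection `L ⊗[ℚ] ℚ_S → L_𝔪`. -/
def LocField.mk (𝔪 : SPlace S L) : AS S L →+* LocField S 𝔪 := Ideal.Quotient.mk 𝔪.asIdeal

variable {L} in
lemma LocField.mk_surjective (𝔪 : SPlace S L) : Function.Surjective (LocField.mk S 𝔪) :=
  Ideal.Quotient.mk_surjective

variable {L} in
lemma LocField.mk_eq_zero_iff (𝔪 : SPlace S L) (x : AS S L) :
    LocField.mk S 𝔪 x = 0 ↔ x ∈ 𝔪.asIdeal :=
  Ideal.Quotient.eq_zero_iff_mem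

variable {L} in
/-- The `ℚ_S`-algebra structure of `L_𝔪` (it factors through exactly one `ℚ_q`, `q ∈ S`). -/
def LocField.ofQS (𝔪 : SPlace S L) : QS S →+* LocField S 𝔪 :=
  (LocField.mk S 𝔪).comp (asIncl S L : QS S →ₐ[ℚ] AS S L)

variable {L} in
/-- The embedding `L → L_𝔪`. -/
def toLoc (𝔪 : SPlace S L) : L →+* LocField S 𝔪 :=
  (LocField.mk S 𝔪).comp (asDiag S L : L →ₐ[ℚ] AS S L)

variable {L} in
/-- The action of the decomposition group on the local field. -/
def locAut (𝔪 : SPlace S L) : decomp S G 𝔪 →* (LocField S 𝔪 ≃+* LocField S 𝔪) where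
  toFun g := Ideal.quotientEquiv 𝔪.asIdeal 𝔪.asIdeal (asRingAut G S L (g : G))
    (map_eq_of_mem_decomp S G 𝔪 g)
  map_one' := by
    refine RingEquiv.ext fun x => ?_
    obtain ⟨x, rfl⟩ := Ideal.Quotient.mk_surjective x
    change Ideal.Quotient.mk _ (asRingAut G S L ((1 : decomp S G 𝔪) : G) x) = _
    rw [Subgroup.coe_one, map_one]
    rfl
  map_mul' g h := by
    refine RingEquiv.ext fun x => ?_
    obtain ⟨x, rfl⟩ := Ideal.Quotient.mk_surjective x
    change Ideal.Quotient.mk _ (asRingAut G S L ((g * h : decomp S G 𝔪) : G) x) = _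
    rw [Subgroup.coe_mul, map_mul]
    rfl

variable {L} in
@[simp] lemma locAut_mk (𝔪 : SPlace S L) (g : decomp S G 𝔪) (x : AS S L) :
    locAut S G 𝔪 g (LocField.mk S 𝔪 x) = LocField.mk S 𝔪 (asAut S G L (g : G) x) := rfl

variable {L} in
lemma locAut_toLoc (𝔪 : SPlace S L) (g : decomp S G 𝔪) (x : L) :
    locAut S G 𝔪 g (toLoc S 𝔪 x) = toLoc S 𝔪 ((g : G) • x) := by
  change locAut S G 𝔪 g (LocField.mk S 𝔪 (asDiag S L x)) = LocField.mk S 𝔪 (asDiag S L _)
  rw [locAut_mk, asAut_asDiag]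

variable {L} in
/-- The representation of the decomposition group on `L_𝔪ˣ`. -/
def locRepr (𝔪 : SPlace S L) : Representation ℤ (decomp S G 𝔪) (Additive (LocField S 𝔪)ˣ) :=
  unitsRepr (decomp S G 𝔪) (locAut S G 𝔪)

variable {L} in
/-- `L_𝔪ˣ` as an object of `Rep ℤ (decomp 𝔪)`. -/
def LocRep (𝔪 : SPlace S L) : Rep ℤ (decomp S G 𝔪) := Rep.of (locRepr S G 𝔪)

variable {L} in
/-- The projection `J_S(L) → L_𝔪ˣ`, additively. -/
def jToLoc (𝔪 : SPlace S L) : Additive (AS S L)ˣ →+ Additive (LocField S 𝔪)ˣ :=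
  MonoidHom.toAdditive (Units.map (LocField.mk S 𝔪 : AS S L →* LocField S 𝔪))

variable {L} in
/-- The localisation `Lˣ → L_𝔪ˣ`, additively. -/
def lToLoc (𝔪 : SPlace S L) : Additive Lˣ →+ Additive (LocField S 𝔪)ˣ :=
  MonoidHom.toAdditive (Units.map (toLoc S 𝔪 : L →* LocField S 𝔪))

variable {L} in
lemma jToLoc_unitsDiag (𝔪 : SPlace S L) (x : Additive Lˣ) :
    jToLoc S 𝔪 (unitsDiag S L x) = lToLoc S 𝔪 x := rfl

variable {L} in
lemma jToLoc_equivariant (𝔪 : SPlace S L) (g : decomp S G 𝔪) (x : Additive (AS S L)ˣ) :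
    jToLoc S 𝔪 (jRepr G S L (g : G) x) = locRepr S G 𝔪 g (jToLoc S 𝔪 x) := rfl

variable {L} in
lemma lToLoc_equivariant (𝔪 : SPlace S L) (g : decomp S G 𝔪) (x : Additive Lˣ) :
    lToLoc S 𝔪 (lRepr G L (g : G) x) = locRepr S G 𝔪 g (lToLoc S 𝔪 x) := by
  rw [← jToLoc_unitsDiag, unitsDiag_equivariant, jToLoc_equivariant, jToLoc_unitsDiag]

variable {L} in
/-- `res_{D_𝔪} J_S(L) ⟶ L_𝔪ˣ` in `Rep ℤ (decomp 𝔪)`. -/
def jToLocRepHom (𝔪 : SPlace S L) :
    Rep.res (decomp S G 𝔪).subtype (JRep G S L) ⟶ LocRep S G 𝔪 :=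
  Rep.ofHom ⟨(jToLoc S 𝔪).toIntLinearMap,
    fun g => LinearMap.ext fun x => jToLoc_equivariant S G 𝔪 g x⟩

variable {L} in
/-- `res_{D_𝔪} Lˣ ⟶ L_𝔪ˣ` in `Rep ℤ (decomp 𝔪)`. -/
def lToLocRepHom (𝔪 : SPlace S L) :
    Rep.res (decomp S G 𝔪).subtype (LRep G L) ⟶ LocRep S G 𝔪 :=
  Rep.ofHom ⟨(lToLoc S 𝔪).toIntLinearMap,
    fun g => LinearMap.ext fun x => lToLoc_equivariant S G 𝔪 g x⟩

variable {L} in
/-- The localisation map `Hⁿ(G, J_S(L)) ⟶ Hⁿ(D_𝔪, L_𝔪ˣ)`. -/
def locMapJ (𝔪 : SPlace S L) (n : ℕ) :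
    groupCohomology (JRep G S L) n ⟶ groupCohomology (LocRep S G 𝔪) n :=
  groupCohomology.map (decomp S G 𝔪).subtype (jToLocRepHom S G 𝔪) n

variable {L} in
/-- The localisation map `Hⁿ(G, Lˣ) ⟶ Hⁿ(D_𝔪, L_𝔪ˣ)`. -/
def locMapL (𝔪 : SPlace S L) (n : ℕ) :
    groupCohomology (LRep G L) n ⟶ groupCohomology (LocRep S G 𝔪) n :=
  groupCohomology.map (decomp S G 𝔪).subtype (lToLocRepHom S G 𝔪) n

end Fermat.Agent.S55.G

end
end
-- ===== PACK-END S55/G/DefsLocal.lean

-- ===== PACK-BEGIN S55/KL/Spec.lean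
section


/-!
# S55, layer KB ("Kummer bridge", abstract part): frozen interface         (architect: helper183)

Spec pattern: every statement is a `def XxxSpec : Prop`; producers prove `theorem xxx : XxxSpec`
in `Fermat/Agent/S55/KL/<Name>H<seat>.lean` (namespace `Fermat.Agent.S55.KL.H<seat>`), consumers
take `(h : XxxSpec)`.  Blueprint with proofs: `coord/S55-KL.md` on `origin/helper183`.

Content: `cd_p ≤ 2` from a `p`-divisible smooth module `A` (`A = ℚ̄_qˣ` locally, `A = 𝒪_S^×` of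
`ℚ_S` globally) whose finite-level cohomology satisfies
`colim H³(A)[p] = 0` and `colim H²(A) ⊗ ℤ/p = 0`.
-/

set_option autoImplicit false

open CategoryTheory groupCohomology

namespace Fermat.Agent.S55.KL

/-! ## KB-NAT: naturality of the connecting homomorphism along group homomorphisms -/

/-- **KB-NAT.**  Let `f : G → H` be a group homomorphism, `X` a short exact sequence of
`H`-modules, `Y` a short exact sequence of `G`-modules and `φ : res_f X → Y` a morphism of
sequences.  Then `δ_Y ∘ (f, φ₃)^* = (f, φ₁)^* ∘ δ_X` on cohomology. -/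
def DeltaNatSpec : Prop :=
  ∀ (k G H : Type) [CommRing k] [Group G] [Group H] (f : G →* H)
    (X : ShortComplex (Rep.{0} k H)) (hX : X.ShortExact)
    (Y : ShortComplex (Rep.{0} k G)) (hY : Y.ShortExact)
    (φ₁ : Rep.res f X.X₁ ⟶ Y.X₁) (φ₂ : Rep.res f X.X₂ ⟶ Y.X₂) (φ₃ : Rep.res f X.X₃ ⟶ Y.X₃),
    (Rep.resFunctor f).map X.f ≫ φ₂ = φ₁ ≫ Y.f →
    (Rep.resFunctor f).map X.g ≫ φ₃ = φ₂ ≫ Y.g →
    ∀ (i j : ℕ) (hij : i + 1 = j),
      δ hX i j hij ≫ groupCohomology.map f φ₁ j = groupCohomology.map f φ₃ i ≫ δ hY i j hij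

/-! ## KB-KUM3: the Kummer chase in degree 3 -/

/-- **KB-KUM3.**  If `A` is smooth and `p`-divisible, `colim H³(A)[p] = 0` and
`colim H²(A)/p = 0`, then `colim H³(A[p]) = 0`. -/
def KummerH3Spec : Prop :=
  ∀ (k Γ : Type) [CommRing k] [Group Γ] (N : NLevels Γ) (A : Rep.{0} k Γ) (p : ℕ), p.Prime →
    IsSmooth N A → IsDivisibleBy A p → EffTors N A p 3 → EffDiv N A p 2 →
      EffAll N (tors A p) 3

/-! ## KB-DEV: dévissage (Sylow + filtration) -/

/-- **KB-DEV.**  Let `μ` be a smooth module of order `p` such that `colim H³(U, μ) = 0` for every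
open subgroup `U`.  Then `colim H³(Γ, R) = 0` for every finite smooth `p`-torsion module `R`.
(`k` is a quotient of `ℤ`, e.g. `ℤ` or `ZMod p`, so that modules of order `p` are isomorphic.) -/
def DevissageSpec : Prop :=
  ∀ (k Γ : Type) [CommRing k] [Group Γ], Function.Surjective (Int.cast : ℤ → k) →
    ∀ (N : NLevels Γ) (μ : Rep.{0} k Γ) (p : ℕ), p.Prime → Nat.card μ.V = p → IsSmooth N μ →
      (∀ U : Subgroup Γ, N.IsOpen U → EffAll (N.restrict U) (Rep.res U.subtype μ) 3) →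
        CdLeTwo N k p

/-- **KB-DEV-C** (filtration induction).  If `Γ` acts on `R` through a finite `p`-group and `μ` is
a module of order `p` with trivial action and `colim H³(Γ, μ) = 0`, then `colim H³(Γ, R) = 0`.
(Induct on `|R|`: a `p`-group acting on `R ≠ 0` has a stable subgroup `R₁` of index `p` with
trivial action on `R/R₁ ≅ μ`; long exact sequence in degree 3 + `DeltaNatSpec`.) -/
def DevPGroupSpec : Prop :=
  ∀ (k Γ : Type) [CommRing k] [Group Γ], Function.Surjective (Int.cast : ℤ → k) →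
    ∀ (N : NLevels Γ) (μ : Rep.{0} k Γ) (p : ℕ), p.Prime → Nat.card μ.V = p →
      (∀ (g : Γ) (m : μ.V), μ.ρ g m = m) → EffAll N μ 3 →
      ∀ R : Rep.{0} k Γ, Finite R.V → (∀ r : R.V, p • r = 0) →
        (∃ V : N.Lvl, ActsTrivially V.W R ∧ IsPGroup p (Γ ⧸ V.W)) → EffAll N R 3

/-- **KB-DEV-B** (Sylow reduction).  To prove `colim H³(Γ, R) = 0` for a finite smooth
`p`-torsion module `R` it suffices to prove `colim H³(U, R) = 0` for the open subgroups `U` such
that `U/V` is a `p`-group for some level `V ≤ V₀` acting trivially on `R`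
(`V₀` an arbitrary level).  (Take `U` = preimage of a Sylow `p`-subgroup of `Γ/V`;
restriction is injective on `p`-torsion: layer T `ResIndexSpec`.) -/
def DevSylowSpec : Prop :=
  ∀ (k Γ : Type) [CommRing k] [Group Γ] (N : NLevels Γ) (p : ℕ), p.Prime →
    ∀ R : Rep.{0} k Γ, Finite R.V → (∀ r : R.V, p • r = 0) → IsSmooth N R → ∀ V₀ : N.Lvl,
      (∀ (U : Subgroup Γ) (V : N.Lvl), V.W ≤ U → V.W ≤ V₀.W → ActsTrivially V.W R →
          IsPGroup p (↥U ⧸ V.W.subgroupOf U) →
            EffAll (N.restrict U) (Rep.res U.subtype R) 3) →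
        EffAll N R 3

/-! ## KB-CD: the abstract theorem -/

/-- The hypotheses on `(Γ, N, A, p)`: `A` is smooth and `p`-divisible, `A[p]` has order `p`, and
for every open subgroup `U`: `colim_V H³(U/V, A^V)[p] = 0`, `colim_V H²(U/V, A^V) ⊗ ℤ/p = 0`. -/
def KummerHyp {k Γ : Type} [CommRing k] [Group Γ] (N : NLevels Γ) (A : Rep.{0} k Γ) (p : ℕ) :
    Prop :=
  IsSmooth N A ∧ IsDivisibleBy A p ∧ Nat.card (tors A p).V = p ∧
    ∀ U : Subgroup Γ, N.IsOpen U →
      EffTors (N.restrict U) (Rep.res U.subtype A) p 3 ∧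
        EffDiv (N.restrict U) (Rep.res U.subtype A) p 2

/-- **KB-CD.**  `KummerHyp ⇒ cd_p ≤ 2` (finite-level form). -/
def CdSpec : Prop :=
  ∀ (k Γ : Type) [CommRing k] [Group Γ], Function.Surjective (Int.cast : ℤ → k) →
    ∀ (N : NLevels Γ) (A : Rep.{0} k Γ) (p : ℕ), p.Prime → KummerHyp N A p → CdLeTwo N k p


/-! ## KB-DICT: level-constant cocycles versus finite levels (degree 2) -/

/-- **KB-DICT2a.**  A level-constant 2-cocycle with values in a smooth module is inflated from a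
finite level (which may be chosen below any given level `V₀`). -/
def DictCocycle₂Spec : Prop :=
  ∀ (k Γ : Type) [CommRing k] [Group Γ] (N : NLevels Γ) (R : Rep.{0} k Γ), IsSmooth N R →
    ∀ c ∈ cocycles₂ R, IsLC₂ N c → ∀ V₀ : N.Lvl,
      ∃ (V : N.Lvl) (_ : V.W ≤ V₀.W) (c' : cocycles₂ (R.quotientToInvariants V.W)),
        ∀ g h : Γ, ((c'.1 ((g : Γ ⧸ V.W), (h : Γ ⧸ V.W)) : _) : R.V) = c (g, h)

/-- **KB-DICT2b.**  Inflation on classes is inflation on cocycles. -/
def DictInfl₂Spec : Prop :=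
  ∀ (k Γ : Type) [CommRing k] [Group Γ] (N : NLevels Γ) (R : Rep.{0} k Γ) (V' V : N.Lvl)
    (h : V'.W ≤ V.W) (c : cocycles₂ (R.quotientToInvariants V.W))
    (c' : cocycles₂ (R.quotientToInvariants V'.W)),
    (∀ g g' : Γ, ((c'.1 ((g : Γ ⧸ V'.W), (g' : Γ ⧸ V'.W)) : _) : R.V) =
        ((c.1 ((g : Γ ⧸ V.W), (g' : Γ ⧸ V.W)) : _) : R.V)) →
      (infl R h 2).hom ((H2π _).hom c) = (H2π _).hom c'

/-! ## KB-A4: `cd_p ≤ 2` ⇒ `H²` is right exact on level-constant cohomology (input A3 / A4 of D) -/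

/-- **KB-A4.**  If `cd_p ≤ 2` (finite-level form) then every level-constant 2-cocycle with values
in a quotient `Q` of a finite smooth `p`-torsion module `P` lifts to `P` up to the coboundary of a
level-constant 1-cochain. -/
def SurjH2Spec : Prop :=
  ∀ (k Γ : Type) [CommRing k] [Group Γ] (N : NLevels Γ) (p : ℕ), p.Prime → CdLeTwo N k p →
    ∀ (P Q : Rep.{0} k Γ) (φ : P ⟶ Q), Function.Surjective φ.hom → Finite P.V →
      (∀ x : P.V, p • x = 0) → IsSmooth N P →
      ∀ c ∈ cocycles₂ Q, IsLC₂ N c →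
        ∃ c' ∈ cocycles₂ P, IsLC₂ N c' ∧ ∃ b : Γ → Q.V, IsLC₁ N b ∧
          ∀ g h : Γ, φ.hom (c' (g, h)) = c (g, h) + (d₁₂ Q).hom b (g, h)

end Fermat.Agent.S55.KL

end
-- ===== PACK-END S55/KL/Spec.lean

-- ===== PACK-BEGIN S55/G/LocH897/ASRing.lean
section


/-!
# S55 / layer G / leaf G-LOC (helper897), part 3: `L ⊗[ℚ] ℚ_S` is a reduced Artinian ring

For a number field `L` and a finite set `S` of primes, the `S`-adèle ring
`AS S L = L ⊗[ℚ] ℚ_S` is Artinian and reduced, i.e. a finite product of fields.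
-/

set_option autoImplicit false
set_option linter.style.haveILetI false

open scoped TensorProduct

namespace Fermat.Agent.S55.G.LocH897

/-- `L ⊗_ℚ F` is reduced for a number field `L` and a field `F` of characteristic `0`. -/
lemma isReduced_tensor_field (L F : Type) [Field L] [NumberField L] [Field F] [Algebra ℚ F] :
    IsReduced (L ⊗[ℚ] F) := by
  haveI : Algebra.FormallyUnramified ℚ L := Algebra.FormallyUnramified.of_isSeparable ℚ L
  haveI : IsReduced (F ⊗[ℚ] L) := Algebra.FormallyUnramified.isReduced_of_field F (F ⊗[ℚ] L)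
  exact isReduced_of_injective (Algebra.TensorProduct.comm ℚ L F)
    (Algebra.TensorProduct.comm ℚ L F).injective

/-- `L ⊗_ℚ F` is Artinian for a number field `L` and a field `F` of characteristic `0`. -/
lemma isArtinianRing_tensor_field (L F : Type) [Field L] [NumberField L] [Field F]
    [Algebra ℚ F] : IsArtinianRing (L ⊗[ℚ] F) := by
  haveI : IsArtinianRing (F ⊗[ℚ] L) := IsArtinianRing.of_finite F (F ⊗[ℚ] L)
  exact (Algebra.TensorProduct.comm ℚ F L).toRingEquiv.isArtinianRing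

lemma isReduced_pi' {ι : Type} (R : ι → Type) [∀ i, CommRing (R i)] [∀ i, IsReduced (R i)] :
    IsReduced (∀ i, R i) :=
  ⟨fun x ⟨n, hn⟩ => funext fun i => IsReduced.eq_zero _ ⟨n, by simpa using congrFun hn i⟩⟩

variable (S : Finset Nat.Primes) (L : Type) [Field L] [NumberField L]

/-- `L ⊗[ℚ] ℚ_S ≃ ∏_{q ∈ S} L ⊗[ℚ] ℚ_q`. -/
noncomputable def asEquivPi : AS S L ≃ₐ[ℚ] (∀ q : S, L ⊗[ℚ] Qq q.1) :=
  letI : DecidableEq S := Classical.decEq _
  (Algebra.TensorProduct.congr AlgEquiv.refl (QS.toPi S)).trans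
    (Algebra.TensorProduct.piRight ℚ ℚ L (fun q : S => Qq q.1))

lemma asEquivPi_tmul (x : L) (y : QS S) (q : S) :
    asEquivPi S L (x ⊗ₜ[ℚ] y) q = x ⊗ₜ[ℚ] (QS.proj S q y) := rfl

theorem isReduced_AS : IsReduced (AS S L) := by
  haveI : ∀ q : S, IsReduced (L ⊗[ℚ] Qq q.1) := fun q => isReduced_tensor_field L (Qq q.1)
  haveI := isReduced_pi' (fun q : S => L ⊗[ℚ] Qq q.1)
  exact isReduced_of_injective (asEquivPi S L) (asEquivPi S L).injective

theorem isArtinianRing_AS : IsArtinianRing (AS S L) := by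
  haveI : ∀ q : S, IsArtinianRing (L ⊗[ℚ] Qq q.1) :=
    fun q => isArtinianRing_tensor_field L (Qq q.1)
  exact (asEquivPi S L).symm.toRingEquiv.isArtinianRing

end Fermat.Agent.S55.G.LocH897

end
-- ===== PACK-END S55/G/LocH897/ASRing.lean

-- ===== PACK-BEGIN S55/L/FiniteExt286.lean
section





/-!
# S55, layer L, leaf L-A1: a finite extension of a local field is a local field

`finiteExt286 : FiniteExtSpec`.

Route: `A` a complete DVR with finite residue field and fraction field `K` (characteristic `0`),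
`L / K` finite.  The integral closure `C` of `A` in `L` is a Dedekind domain, finite over `A`
(separability).  It is local because a domain that is finite over a complete Noetherian local ring
has only one maximal ideal (Prelude: such an algebra is the product of its localisations at the
finitely many maximal ideals).  Hence `C` is a DVR; it is complete (Prelude) with finite residue
field, and it is a valuation subring of `L`.
-/

set_option autoImplicit false

namespace Fermat.Agent.S55.L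

open IsLocalRing

/-- A domain that is module-finite over a complete Noetherian local ring is local. -/
theorem isLocalRing_of_finite_of_isDomain286 (𝒪 : Type) [CommRing 𝒪] [IsLocalRing 𝒪]
    [IsNoetherianRing 𝒪] [IsAdicComplete (maximalIdeal 𝒪) 𝒪]
    (B : Type) [CommRing B] [IsDomain B] [Algebra 𝒪 B] [Module.Finite 𝒪 B] :
    IsLocalRing B := by
  classical
  obtain ⟨-, hbij, -, -⟩ :=
    Algebra.finite_maximalSpectrum_and_bijective_localization_of_module_finite (𝒪 := 𝒪) B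
  refine IsLocalRing.of_unique_max_ideal ?_
  obtain ⟨I, hI⟩ := Ideal.exists_maximal B
  refine ⟨I, hI, fun J hJ => ?_⟩
  by_contra hne
  let I' : MaximalSpectrum B := ⟨I, hI⟩
  let J' : MaximalSpectrum B := ⟨J, hJ⟩
  have hne' : J' ≠ I' := fun h => hne (congrArg MaximalSpectrum.asIdeal h)
  obtain ⟨e, he⟩ := hbij.2 (Pi.single I' 1)
  have h0 : e * (1 - e) = 0 := by
    apply hbij.1
    rw [map_mul, map_sub, map_one, map_zero, he]
    ext K
    by_cases hK : K = I'
    · subst hK; simp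
    · simp [Pi.single_eq_of_ne hK]
  rcases mul_eq_zero.mp h0 with h | h
  · have h2 := congrFun he I'
    rw [h, map_zero] at h2
    simp at h2
  · have h1 : e = 1 := (sub_eq_zero.mp h).symm
    have h2 := congrFun he J'
    rw [h1, map_one] at h2
    simp [Pi.single_eq_of_ne hne'] at h2

section Generic

variable {K L : Type} [Field K] [Field L] [Algebra K L] [FiniteDimensional K L] [CharZero K]

/-- Any integral closure `C` of a complete DVR `A` (with finite residue field, `Frac A = K` of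
characteristic zero) in a finite extension `L / K` is a complete DVR with finite residue field. -/
theorem isLocalRingOfIntegers_integralClosure286 (A : ValuationSubring K)
    (hA : IsLocalRingOfIntegers A) (C : Type) [CommRing C] [IsDomain C] [Algebra A L] [IsScalarTower A K L]
    [Algebra C L] [IsIntegralClosure C A L] [Algebra A C] [IsScalarTower A C L] :
    ∃ _ : IsLocalRing C, IsDiscreteValuationRing C ∧ IsAdicComplete (maximalIdeal C) C ∧
      Finite (ResidueField C) := by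
  obtain ⟨hdvr, hcomplete, hfin⟩ := hA
  have := hdvr
  have := hcomplete
  have : Algebra.IsSeparable K L := inferInstance
  have : Module.Finite A C := IsIntegralClosure.finite A K L C
  have : IsDedekindDomain C := IsIntegralClosure.isDedekindDomain A K L C
  have : IsLocalRing C := isLocalRing_of_finite_of_isDomain286 A C
  have : Algebra.IsIntegral A C := IsIntegralClosure.isIntegral_algebra A L
  have hinjL : Function.Injective (algebraMap A L) := by
    rw [IsScalarTower.algebraMap_eq A K L]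
    exact (algebraMap K L).injective.comp (IsFractionRing.injective A K)
  have hinj : Function.Injective (algebraMap A C) := by
    intro x y hxy
    apply hinjL
    rw [IsScalarTower.algebraMap_apply A C L, IsScalarTower.algebraMap_apply A C L, hxy]
  have : FaithfulSMul A C := (faithfulSMul_iff_algebraMap_injective A C).mpr hinj
  have hnf : ¬ IsField C := fun h =>
    IsDiscreteValuationRing.not_isField A (isField_of_isIntegral_of_isField hinj h)
  have h02 : IsDiscreteValuationRing C ↔ IsDedekindDomain C :=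
    (IsDiscreteValuationRing.TFAE C hnf).out 0 2
  have : IsDiscreteValuationRing C := h02.mpr inferInstance
  have hloc : IsLocalHom (algebraMap (↥A) C) := Algebra.IsIntegral.isLocalHom _ _
  have hfinC : Finite (ResidueField C) :=
    @IsLocalRing.ResidueField.finite_of_finite (↥A) C _ _ _ _ _ hloc _ hfin
  refine ⟨inferInstance, inferInstance, ?_, hfinC⟩
  exact IsLocalRing.isAdicComplete_of_module_finite (𝒪 := A) (T := C)

end Generic

/-- Refined form of **L-A1**: for a ring of integers `A` of `K` there is a ring of integers `B`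
of the finite extension `L` which is exactly the integral closure of `A` in `L` (for any algebra
structure `A → L` compatible with `A → K → L`), and `A` is the preimage of `B` in `K`. -/
theorem exists_ringOfIntegers_eq_integralClosure286 {K L : Type} [Field K] [Field L] [Algebra K L]
    [FiniteDimensional K L] [CharZero K] (A : ValuationSubring K) (hA : IsLocalRingOfIntegers A)
    [Algebra A L] [IsScalarTower A K L] :
    ∃ B : ValuationSubring L, IsLocalRingOfIntegers B ∧ (∀ x : L, x ∈ B ↔ IsIntegral A x) ∧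
      (∀ x : K, algebraMap K L x ∈ B ↔ x ∈ A) := by
  obtain ⟨_, hB, -, -⟩ :=
    isLocalRingOfIntegers_integralClosure286 (K := K) (L := L) A hA (integralClosure A L)
  have : IsFractionRing (integralClosure A L) L :=
    IsIntegralClosure.isFractionRing_of_finite_extension A K L _
  have hval : ∀ x : L, x ∈ integralClosure A L ∨ x⁻¹ ∈ integralClosure A L := by
    intro x
    rcases ValuationRing.isInteger_or_isInteger (integralClosure A L) x with ⟨b, hb⟩ | ⟨b, hb⟩
    · left; rw [← hb]; exact b.2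
    · right; rw [← hb]; exact b.2
  let BV : ValuationSubring L :=
    { (integralClosure A L).toSubring with mem_or_inv_mem' := hval }
  have hmem : ∀ x : L, x ∈ BV ↔ IsIntegral A x := fun x => Iff.rfl
  let _ : Algebra A BV :=
    ((algebraMap A L).codRestrict BV (fun a => (hmem _).mpr isIntegral_algebraMap)).toAlgebra
  have : IsScalarTower A BV L := IsScalarTower.of_algebraMap_eq (fun _ => rfl)
  have : IsIntegralClosure BV A L :=
    ⟨Subtype.val_injective, fun {x} => ⟨fun h => ⟨⟨x, (hmem x).mpr h⟩, rfl⟩,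
      fun ⟨y, hy⟩ => hy ▸ (hmem _).mp y.2⟩⟩
  obtain ⟨_, h1, h2, h3⟩ := isLocalRingOfIntegers_integralClosure286 (K := K) (L := L) A hA BV
  refine ⟨BV, ⟨h1, h2, h3⟩, hmem, fun x => ?_⟩
  have := hA.1
  rw [hmem]
  constructor
  · intro hx
    have hx' : IsIntegral A x := by
      rw [← isIntegral_algebraMap_iff (algebraMap K L).injective]
      exact hx
    obtain ⟨a, ha⟩ := IsIntegrallyClosed.isIntegral_iff.mp hx'
    rw [← ha]
    exact a.2
  · intro hx
    have : algebraMap K L x = algebraMap A L ⟨x, hx⟩ := by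
      rw [IsScalarTower.algebraMap_apply A K L]
      rfl
    rw [this]
    exact isIntegral_algebraMap

/-- **L-A1.** A finite extension of a local field is a local field. -/
theorem finiteExt286 : FiniteExtSpec := by
  intro K L _ _ _ _ hK
  have hchar : CharZero K := hK.charZero
  obtain ⟨A, hA⟩ := hK.exists_ringOfIntegers
  let _ : Algebra A L := ((algebraMap K L).comp (algebraMap A K)).toAlgebra
  have : IsScalarTower A K L := IsScalarTower.of_algebraMap_eq (fun _ => rfl)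
  obtain ⟨B, hB, -, -⟩ := exists_ringOfIntegers_eq_integralClosure286 (K := K) (L := L) A hA
  exact { charZero := charZero_of_injective_algebraMap (algebraMap K L).injective
          exists_ringOfIntegers := ⟨B, hB⟩ }

end Fermat.Agent.S55.L

end
-- ===== PACK-END S55/L/FiniteExt286.lean

-- ===== PACK-BEGIN S55/H119/ResCoresRep.lean
section



/-!
# Restriction–corestriction for `groupCohomology` in degrees 1 and 2 (helper119)

For `A : Rep k G`, `H ≤ G` of finite index and `x ∈ Hⁿ(G, A)` (`n = 1, 2`) with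
`res_H x = 0`, we have `[G : H] • x = 0`.
-/

set_option autoImplicit false
set_option linter.style.haveILetI false

namespace Fermat.Agent.S55.H119

open groupCohomology Rep CategoryTheory

universe u

variable {k G : Type u} [CommRing k] [Group G] (A : Rep k G) (H : Subgroup G)

/-- The restriction map `Hⁿ(G, A) ⟶ Hⁿ(H, A)`. -/
noncomputable abbrev resMap (n : ℕ) :
    groupCohomology A n ⟶ groupCohomology (res H.subtype A) n :=
  groupCohomology.map H.subtype (𝟙 (res H.subtype A)) n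

/-- The `G`-action on the underlying module of a representation, as a `DistribMulAction`
(not an instance). -/
@[reducible] noncomputable def repDistribMulAction : DistribMulAction G A.V :=
  DistribMulAction.compHom A.V (A.ρ : G →* Module.End k A.V)

theorem repDistribMulAction_smul (g : G) (a : A.V) :
    letI := repDistribMulAction A
    g • a = A.ρ g a := rfl

variable [H.FiniteIndex]

theorem index_nsmul_eq_zero_of_resMap_eq_zero_one (x : H1 A)
    (hx : resMap A H 1 x = 0) : H.index • x = 0 := by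
  letI := repDistribMulAction A
  induction x using H1_induction_on with
  | h c =>
    rw [resMap, H1π_comp_map_apply, H1π_eq_zero_iff] at hx
    rw [← map_nsmul, H1π_eq_zero_iff]
    obtain ⟨y, hy⟩ := hx
    have hc : IsCocycle₁ (c : G → A.V) := fun g h => (mem_cocycles₁_iff (c : G → A.V)).1 c.2 g h
    have hres : IsCoboundary₁ (fun h : H => (c : G → A.V) (h : G)) := by
      refine ⟨y, fun h => ?_⟩
      have := congrFun hy h
      exact this
    obtain ⟨z, hz⟩ := isCoboundary₁_index_nsmul H hc hres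
    refine ⟨z, funext fun g => ?_⟩
    exact hz g

theorem index_nsmul_eq_zero_of_resMap_eq_zero_two (x : H2 A)
    (hx : resMap A H 2 x = 0) : H.index • x = 0 := by
  letI := repDistribMulAction A
  induction x using H2_induction_on with
  | h c =>
    rw [resMap, H2π_comp_map_apply, H2π_eq_zero_iff] at hx
    rw [← map_nsmul, H2π_eq_zero_iff]
    obtain ⟨y, hy⟩ := hx
    have hc : IsCocycle₂ (c : G × G → A.V) :=
      fun g h j => (mem_cocycles₂_iff (c : G × G → A.V)).1 c.2 g h j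
    have hres : IsCoboundary₂ (fun p : H × H => (c : G × G → A.V) ((p.1 : G), (p.2 : G))) := by
      refine ⟨y, fun h₁ h₂ => ?_⟩
      have := congrFun hy (h₁, h₂)
      exact this
    obtain ⟨z, hz⟩ := isCoboundary₂_index_nsmul H hc hres
    refine ⟨z, funext fun g => ?_⟩
    exact hz g.1 g.2

end Fermat.Agent.S55.H119

end
-- ===== PACK-END S55/H119/ResCoresRep.lean

-- ===== PACK-BEGIN S55/Local/H964/Galois.lean
section


/-!
# S55, layer L, T5 glue: Galois-theoretic transport (helper964)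

Setting: a tower `K ⊆ L ⊆ N` with `N / K` finite Galois and `L / K` normal.
`resHom : Gal(N/K) →* Gal(L/K)` is the restriction, `kerRes` its kernel (`≃ Gal(N/L)`).

* `unitsIncl_resHom_smul` : equivariance of `Lˣ → Nˣ`.
* `exists_unitsIncl_eq_of_fixed` : the units of `N` fixed by `kerRes` are the units of `L`.
* `hilbert90_kerRes` : `H¹(kerRes, Nˣ) = 1` on cocycles.
* `prod_kerRes_smul` : `∏_{s ∈ kerRes} s • y = N_{N/L}(y)`.
* `card_kerRes` : `|kerRes| = [N : L]`.
-/

set_option autoImplicit false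
set_option linter.style.haveILetI false

namespace Fermat.Agent.S55.Local.H964

open Fermat.Agent.S55.Local

section Tower

variable (K L N : Type) [Field K] [Field L] [Field N] [Algebra K L] [Algebra K N] [Algebra L N]
  [IsScalarTower K L N] [Normal K L]

/-- Restriction `Gal(N/K) →* Gal(L/K)`. -/
noncomputable def resHom : (N ≃ₐ[K] N) →* (L ≃ₐ[K] L) := AlgEquiv.restrictNormalHom L

/-- The kernel of the restriction `Gal(N/K) →* Gal(L/K)` (`≃ Gal(N/L)`). -/
noncomputable def kerRes : Subgroup (N ≃ₐ[K] N) := (resHom K L N).ker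

instance : (kerRes K L N).Normal := by unfold kerRes; infer_instance

variable {K L N}

lemma algebraMap_resHom (g : N ≃ₐ[K] N) (x : L) :
    algebraMap L N (resHom K L N g x) = g (algebraMap L N x) :=
  AlgEquiv.restrictNormal_commutes g L x

lemma mem_kerRes_iff (g : N ≃ₐ[K] N) :
    g ∈ kerRes K L N ↔ ∀ x : L, g (algebraMap L N x) = algebraMap L N x := by
  unfold kerRes
  rw [MonoidHom.mem_ker]
  constructor
  · intro h x
    rw [← algebraMap_resHom, h]; rfl
  · intro h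
    ext x
    apply (algebraMap L N).injective
    rw [algebraMap_resHom, h]; rfl

/-- Equivariance of the inclusion `Lˣ → Nˣ`. -/
lemma unitsIncl_resHom_smul (g : N ≃ₐ[K] N) (y : Lˣ) :
    unitsIncl N L (resHom K L N g • y) = g • unitsIncl N L y := by
  apply Units.ext
  rw [AlgEquiv.smul_units_def, AlgEquiv.smul_units_def]
  simp only [unitsIncl_coe, Units.coe_map, MonoidHom.coe_coe]
  exact algebraMap_resHom g (y : L)

lemma unitsIncl_injective : Function.Injective (unitsIncl N L) := by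
  intro a b h
  apply Units.ext
  apply (algebraMap L N).injective
  have := congrArg (fun u : Nˣ => (u : N)) h
  simpa using this

lemma smul_unitsIncl_of_mem_kerRes {s : N ≃ₐ[K] N} (hs : s ∈ kerRes K L N) (y : Lˣ) :
    s • unitsIncl N L y = unitsIncl N L y := by
  apply Units.ext
  rw [AlgEquiv.smul_units_def]
  simp only [unitsIncl_coe, Units.coe_map, MonoidHom.coe_coe]
  exact (mem_kerRes_iff s).1 hs _

/-- An `L`-automorphism of `N`, viewed in `kerRes`. -/
def toKerRes (σ : N ≃ₐ[L] N) : kerRes K L N :=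
  ⟨σ.restrictScalars K, (mem_kerRes_iff _).2 fun x => σ.commutes x⟩

/-- An element of `kerRes` as an `L`-automorphism of `N`. -/
def ofKerRes (s : kerRes K L N) : N ≃ₐ[L] N :=
  { (s : N ≃ₐ[K] N).toRingEquiv with
    commutes' := fun x => (mem_kerRes_iff _).1 s.2 x }

@[simp] lemma ofKerRes_apply (s : kerRes K L N) (x : N) :
    ofKerRes s x = (s : N ≃ₐ[K] N) x := rfl

@[simp] lemma toKerRes_apply (σ : N ≃ₐ[L] N) (x : N) :
    ((toKerRes σ : kerRes K L N) : N ≃ₐ[K] N) x = σ x := rfl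

/-- `kerRes ≃ Gal(N/L)`. -/
def kerResEquiv : kerRes K L N ≃ (N ≃ₐ[L] N) where
  toFun := ofKerRes
  invFun := toKerRes
  left_inv s := by
    apply Subtype.ext
    ext x
    rfl
  right_inv σ := by
    ext x
    rfl

lemma ofKerRes_mul (s t : kerRes K L N) : ofKerRes (s * t) = ofKerRes s * ofKerRes t := by
  ext x
  rfl

lemma ofKerRes_smul (s : kerRes K L N) (z : Nˣ) :
    ofKerRes s • z = (s : N ≃ₐ[K] N) • z := by
  apply Units.ext
  rw [AlgEquiv.smul_units_def, AlgEquiv.smul_units_def]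
  rfl

variable [FiniteDimensional K N] [IsGalois K N]

lemma card_kerRes : Nat.card (kerRes K L N) = Module.finrank L N := by
  haveI : FiniteDimensional L N := Module.Finite.of_restrictScalars_finite K L N
  haveI : IsGalois L N := IsGalois.tower_top_of_isGalois K L N
  rw [Nat.card_congr (kerResEquiv (K := K) (L := L) (N := N)), IsGalois.card_aut_eq_finrank]

lemma resHom_surjective : Function.Surjective (resHom K L N) :=
  AlgEquiv.restrictNormalHom_surjective N

/-- The units of `N` fixed by `kerRes` come from `L`. -/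
lemma exists_unitsIncl_eq_of_fixed (z : Nˣ)
    (hz : ∀ s ∈ kerRes K L N, s • z = z) : ∃ y : Lˣ, unitsIncl N L y = z := by
  haveI : FiniteDimensional L N := Module.Finite.of_restrictScalars_finite K L N
  haveI : IsGalois L N := IsGalois.tower_top_of_isGalois K L N
  have hfix : ∀ σ : N ≃ₐ[L] N, σ (z : N) = z := by
    intro σ
    have := hz (toKerRes σ : kerRes K L N) (toKerRes σ).2
    have h2 := congrArg (fun u : Nˣ => (u : N)) this
    simpa [AlgEquiv.smul_units_def] using h2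
  obtain ⟨y₀, hy₀⟩ := (IsGalois.mem_range_algebraMap_iff_fixed (F := L) (E := N) (z : N)).2 hfix
  have hne : y₀ ≠ 0 := by
    rintro rfl
    rw [map_zero] at hy₀
    exact z.ne_zero hy₀.symm
  refine ⟨Units.mk0 y₀ hne, ?_⟩
  apply Units.ext
  simpa using hy₀

/-- Hilbert 90 for `kerRes ≃ Gal(N/L)` acting on `Nˣ`, on cocycles. -/
lemma hilbert90_kerRes (w : kerRes K L N → Nˣ)
    (hw : ∀ s t : kerRes K L N, w (s * t) = (s : N ≃ₐ[K] N) • w t * w s) :
    ∃ a : Nˣ, ∀ s : kerRes K L N, w s = (s : N ≃ₐ[K] N) • a / a := by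
  haveI : FiniteDimensional L N := Module.Finite.of_restrictScalars_finite K L N
  have hcoc : groupCohomology.IsMulCocycle₁ (fun σ : N ≃ₐ[L] N => w (toKerRes σ)) := by
    intro σ τ
    have := hw (toKerRes σ) (toKerRes τ)
    have e : (toKerRes (σ * τ) : kerRes K L N) = toKerRes σ * toKerRes τ := by
      apply Subtype.ext
      ext x
      rfl
    show w (toKerRes (σ * τ)) = σ • w (toKerRes τ) * w (toKerRes σ)
    rw [e, this]
    congr 1
  obtain ⟨a, ha⟩ := groupCohomology.isMulCoboundary₁_of_isMulCocycle₁_of_aut_to_units _ hcoc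
  refine ⟨a, fun s => ?_⟩
  have := ha (ofKerRes s)
  have e : (toKerRes (ofKerRes s) : kerRes K L N) = s := by
    apply Subtype.ext
    ext x
    rfl
  simp only [e] at this
  rw [← this, ofKerRes_smul]

/-- The product over `kerRes` is the norm `N → L`. -/
lemma prod_kerRes_smul [Fintype (kerRes K L N)] (y : Nˣ) :
    ∏ s : kerRes K L N, (s : N ≃ₐ[K] N) • y = unitsIncl N L (normUnits N L y) := by
  classical
  haveI : FiniteDimensional L N := Module.Finite.of_restrictScalars_finite K L N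
  haveI : IsGalois L N := IsGalois.tower_top_of_isGalois K L N
  apply Units.ext
  rw [unitsIncl_coe, normUnits_coe, Algebra.norm_eq_prod_automorphisms L (y : N)]
  rw [Units.coe_prod]
  refine Finset.prod_bij' (fun s _ => ofKerRes s) (fun σ _ => toKerRes σ) ?_ ?_ ?_ ?_ ?_
  · intro s _; exact Finset.mem_univ _
  · intro σ _; exact Finset.mem_univ _
  · intro s _
    apply Subtype.ext
    ext x
    rfl
  · intro σ _
    ext x
    rfl
  · intro s _
    rw [AlgEquiv.smul_units_def]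
    rfl

end Tower

end Fermat.Agent.S55.Local.H964

end
-- ===== PACK-END S55/Local/H964/Galois.lean

-- ===== PACK-BEGIN S55/H963/BrComplete.lean
section


/-!
# S55 / G-SI bridge (helper963): `P`-adic completeness, module form, and transfer

`MHaus P M`, `MPrec P M` for an abelian group `M` and an integer `P`: separation and
precompleteness for the filtration `Pᵏ M`.  Stable under additive equivalences and arbitrary
products; hold for `ℤ_[q]` when `P = q * unit`.
-/

set_option autoImplicit false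
set_option linter.style.haveILetI false

namespace Fermat.Agent.S55.H963.Br

section Module

variable (P : ℤ) (M : Type*) [AddCommGroup M]

/-- `⋂ₖ Pᵏ M = 0`. -/
def MHaus : Prop := ∀ y : M, (∀ k : ℕ, ∃ u : M, y = P ^ k • u) → y = 0

/-- Every `P`-adic Cauchy sequence of `M` has a limit. -/
def MPrec : Prop :=
  ∀ f : ℕ → M, (∀ k : ℕ, ∃ u : M, f (k + 1) - f k = P ^ k • u) →
    ∃ L : M, ∀ k : ℕ, ∃ u : M, L - f k = P ^ k • u

variable {P M}

theorem MHaus.of_addEquiv {N : Type*} [AddCommGroup N] (e : M ≃+ N) (h : MHaus P N) :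
    MHaus P M := by
  intro y hy
  have : e y = 0 := h (e y) fun k => by
    obtain ⟨u, hu⟩ := hy k
    exact ⟨e u, by rw [hu, map_zsmul]⟩
  simpa using this

theorem MPrec.of_addEquiv {N : Type*} [AddCommGroup N] (e : M ≃+ N) (h : MPrec P N) :
    MPrec P M := by
  intro f hf
  obtain ⟨L, hL⟩ := h (fun k => e (f k)) fun k => by
    obtain ⟨u, hu⟩ := hf k
    exact ⟨e u, by rw [← map_sub, hu, map_zsmul]⟩
  refine ⟨e.symm L, fun k => ?_⟩
  obtain ⟨u, hu⟩ := hL k
  refine ⟨e.symm u, ?_⟩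
  apply e.injective
  rw [map_sub, map_zsmul, e.apply_symm_apply, e.apply_symm_apply, hu]

theorem MHaus.pi {ι : Type*} {N : ι → Type*} [∀ i, AddCommGroup (N i)]
    (h : ∀ i, MHaus P (N i)) : MHaus P (∀ i, N i) := by
  intro y hy
  funext i
  refine h i (y i) fun k => ?_
  obtain ⟨u, hu⟩ := hy k
  exact ⟨u i, by rw [hu]; rfl⟩

theorem MPrec.pi {ι : Type*} {N : ι → Type*} [∀ i, AddCommGroup (N i)]
    (h : ∀ i, MPrec P (N i)) : MPrec P (∀ i, N i) := by
  intro f hf
  have h1 : ∀ i, ∃ L : N i, ∀ k : ℕ, ∃ u : N i, L - f k i = P ^ k • u := fun i =>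
    h i (fun k => f k i) fun k => by
      obtain ⟨u, hu⟩ := hf k
      exact ⟨u i, by rw [← Pi.sub_apply, hu]; rfl⟩
  choose L hL using h1
  refine ⟨L, fun k => ?_⟩
  choose u hu using fun i => hL i k
  exact ⟨u, funext fun i => by rw [Pi.sub_apply, hu i]; rfl⟩

end Module

section Ring

variable {R : Type*} [CommRing R]

theorem pHaus_of_mHaus {P : ℤ} (h : MHaus P R) : PHaus ((P : ℤ) : R) := by
  intro y hy
  refine h y fun k => ?_
  obtain ⟨u, hu⟩ := hy k
  exact ⟨u, by rw [hu, zsmul_eq_mul]; push_cast; rfl⟩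

theorem pPrec_of_mPrec {P : ℤ} (h : MPrec P R) : PPrec ((P : ℤ) : R) := by
  intro f hf
  obtain ⟨L, hL⟩ := h f fun k => by
    obtain ⟨u, hu⟩ := hf k
    exact ⟨u, by rw [hu, zsmul_eq_mul]; push_cast; rfl⟩
  refine ⟨L, fun k => ?_⟩
  obtain ⟨u, hu⟩ := hL k
  exact ⟨u, by rw [hu, zsmul_eq_mul]; push_cast; rfl⟩

theorem mHaus_of_pHaus {P : ℤ} (h : PHaus ((P : ℤ) : R)) : MHaus P R := by
  intro y hy
  refine h y fun k => ?_
  obtain ⟨u, hu⟩ := hy k
  exact ⟨u, by rw [hu, zsmul_eq_mul]; push_cast; rfl⟩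

theorem mPrec_of_pPrec {P : ℤ} (h : PPrec ((P : ℤ) : R)) : MPrec P R := by
  intro f hf
  obtain ⟨L, hL⟩ := h f fun k => by
    obtain ⟨u, hu⟩ := hf k
    exact ⟨u, by rw [hu, zsmul_eq_mul]; push_cast; rfl⟩
  refine ⟨L, fun k => ?_⟩
  obtain ⟨u, hu⟩ := hL k
  exact ⟨u, by rw [hu, zsmul_eq_mul]; push_cast; rfl⟩

theorem mem_span_pow_smul_top_iff (P : R) (k : ℕ) (y : R) :
    y ∈ ((Ideal.span {P}) ^ k • ⊤ : Submodule R R) ↔ P ^ k ∣ y := by
  rw [Ideal.span_singleton_pow, smul_eq_mul, Ideal.mul_top, Ideal.mem_span_singleton]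

theorem pHaus_of_isAdicComplete (P : R) [IsAdicComplete (Ideal.span {P}) R] : PHaus P := by
  intro y hy
  refine IsHausdorff.haus (I := Ideal.span {P}) inferInstance y fun k => ?_
  rw [SModEq.zero, mem_span_pow_smul_top_iff]
  exact hy k

theorem pPrec_of_isAdicComplete (P : R) [IsAdicComplete (Ideal.span {P}) R] : PPrec P := by
  intro f hf
  have hmn : ∀ m n : ℕ, m ≤ n → P ^ m ∣ f n - f m := by
    intro m n hmn
    induction n, hmn using Nat.le_induction with
    | base => simp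
    | succ n hn ih =>
      have : f (n + 1) - f m = (f (n + 1) - f n) + (f n - f m) := by ring
      rw [this]
      exact dvd_add (dvd_trans (pow_dvd_pow P hn) (hf n)) ih
  obtain ⟨L, hL⟩ := IsPrecomplete.prec (I := Ideal.span {P}) inferInstance (f := f)
    (fun {m n} h => by
      rw [SModEq.sub_mem, mem_span_pow_smul_top_iff]
      have := hmn m n h
      rw [← neg_sub]
      exact (dvd_neg).mpr this)
  refine ⟨L, fun k => ?_⟩
  have := hL k
  rw [SModEq.sub_mem, mem_span_pow_smul_top_iff] at this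
  rw [← neg_sub]
  exact (dvd_neg).mpr this

end Ring

section Padic

variable (q : ℕ) [Fact q.Prime]

theorem isAdicComplete_padicInt_span {P : ℤ_[q]} (hP : Associated (q : ℤ_[q]) P) :
    IsAdicComplete (Ideal.span {P}) ℤ_[q] := by
  have : Ideal.span {P} = IsLocalRing.maximalIdeal ℤ_[q] := by
    rw [PadicInt.maximalIdeal_eq_span_p, Ideal.span_singleton_eq_span_singleton]
    exact hP.symm
  rw [this]
  infer_instance

theorem mHaus_padicInt {P : ℤ} (hP : Associated (q : ℤ_[q]) ((P : ℤ) : ℤ_[q])) :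
    MHaus P ℤ_[q] := by
  haveI := isAdicComplete_padicInt_span q hP
  exact mHaus_of_pHaus (pHaus_of_isAdicComplete _)

theorem mPrec_padicInt {P : ℤ} (hP : Associated (q : ℤ_[q]) ((P : ℤ) : ℤ_[q])) :
    MPrec P ℤ_[q] := by
  haveI := isAdicComplete_padicInt_span q hP
  exact mPrec_of_pPrec (pPrec_of_isAdicComplete _)

end Padic

end Fermat.Agent.S55.H963.Br

end
-- ===== PACK-END S55/H963/BrComplete.lean

-- ===== PACK-BEGIN S55/H963/Principal.lean
section


/-!
# S55 / leaf RAY-N1 (helper963): sums over generators versus sums over principal ideals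

For a set `P` of ideals of `𝓞 K`, the smoothed sum over all nonzero `x` with `(x) ∈ P` equals
`w` times the sum of `N(I)^(-s)` over the nonzero principal ideals `I ∈ P`.
-/

set_option autoImplicit false

namespace Fermat.Agent.S55.H963

open NumberField

variable {K : Type*} [Field K] [NumberField K] (κ : UnitKernel K)

/-- The nonzero elements generating an ideal in `P`. -/
def genSet (P : Set (Ideal (𝓞 K))) : Set (𝓞 K) := {x | x ≠ 0 ∧ Ideal.span {x} ∈ P}

/-- The nonzero principal ideals in `P`. -/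
def prinSet (P : Set (Ideal (𝓞 K))) : Set (Ideal (𝓞 K)) :=
  {I | I ≠ ⊥ ∧ Submodule.IsPrincipal I ∧ I ∈ P}

theorem mem_genSet {P : Set (Ideal (𝓞 K))} {x : 𝓞 K} :
    x ∈ genSet P ↔ x ≠ 0 ∧ Ideal.span {x} ∈ P := Iff.rfl

theorem mem_prinSet {P : Set (Ideal (𝓞 K))} {I : Ideal (𝓞 K)} :
    I ∈ prinSet P ↔ I ≠ ⊥ ∧ Submodule.IsPrincipal I ∧ I ∈ P := Iff.rfl

theorem span_mem_prinSet {P : Set (Ideal (𝓞 K))} {x : 𝓞 K} (hx : x ∈ genSet P) :
    Ideal.span {x} ∈ prinSet P :=
  ⟨by simpa [Ideal.span_singleton_eq_bot] using hx.1, ⟨⟨x, rfl⟩⟩, hx.2⟩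

/-- The map `x ↦ (x)` from generators to principal ideals. -/
def genToPrin (P : Set (Ideal (𝓞 K))) (x : genSet P) : prinSet P :=
  ⟨Ideal.span {(x : 𝓞 K)}, span_mem_prinSet x.2⟩

/-- The fibre of `x ↦ (x)` over `(x₀)` is a torsor under the units. -/
noncomputable def unitsEquivFiber (P : Set (Ideal (𝓞 K))) (I : prinSet P) (x₀ : 𝓞 K)
    (hx₀ : Ideal.span {x₀} = (I : Ideal (𝓞 K))) :
    (𝓞 K)ˣ ≃ {x : genSet P // genToPrin P x = I} := by
  have hx₀0 : x₀ ≠ 0 := by
    intro h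
    apply I.2.1
    rw [← hx₀, h]
    simp
  refine Equiv.ofBijective (fun u => ⟨⟨(u : 𝓞 K) * x₀, ?_, ?_⟩, ?_⟩) ⟨?_, ?_⟩
  · exact mul_ne_zero u.ne_zero hx₀0
  · have : Ideal.span {(u : 𝓞 K) * x₀} = Ideal.span {x₀} :=
      Ideal.span_singleton_eq_span_singleton.mpr ⟨u⁻¹, by
        rw [mul_comm, ← mul_assoc, Units.inv_mul, one_mul]⟩
    rw [this, hx₀]
    exact I.2.2.2
  · apply Subtype.ext
    show Ideal.span {(u : 𝓞 K) * x₀} = (I : Ideal (𝓞 K))
    rw [← hx₀]
    exact Ideal.span_singleton_eq_span_singleton.mpr ⟨u⁻¹, by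
        rw [mul_comm, ← mul_assoc, Units.inv_mul, one_mul]⟩
  · intro u v h
    have h' : (u : 𝓞 K) * x₀ = (v : 𝓞 K) * x₀ := congrArg (fun z => ((z.1 : genSet P) : 𝓞 K)) h
    exact Units.ext (mul_right_cancel₀ hx₀0 h')
  · rintro ⟨⟨x, hx⟩, hxI⟩
    have h1 : Ideal.span {x} = Ideal.span {x₀} := by
      rw [hx₀]
      exact congrArg Subtype.val hxI
    obtain ⟨u, hu⟩ := Ideal.span_singleton_eq_span_singleton.mp h1
    refine ⟨u⁻¹, ?_⟩
    apply Subtype.ext
    apply Subtype.ext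
    show ((u⁻¹ : (𝓞 K)ˣ) : 𝓞 K) * x₀ = x
    rw [← hu, mul_comm x, ← mul_assoc, Units.inv_mul, one_mul]

theorem unitsEquivFiber_apply (P : Set (Ideal (𝓞 K))) (I : prinSet P) (x₀ : 𝓞 K)
    (hx₀ : Ideal.span {x₀} = (I : Ideal (𝓞 K))) (u : (𝓞 K)ˣ) :
    (((unitsEquivFiber P I x₀ hx₀ u : {x : genSet P // genToPrin P x = I}) : genSet P) : 𝓞 K) =
      (u : 𝓞 K) * x₀ := rfl

theorem summable_genSet (P : Set (Ideal (𝓞 K))) {s : ℝ} (hs : 1 < s) :
    Summable fun x : genSet P => κ.F s x :=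
  (κ.summable s hs).comp_injective Subtype.val_injective

/-- **Orbit decomposition**: the smoothed sum over the generators of the ideals in `P` is
`w` times the partial zeta sum over the principal ideals in `P`. -/
theorem hasSum_prinSet (P : Set (Ideal (𝓞 K))) {s : ℝ} (hs : 1 < s) :
    HasSum (fun I : prinSet P => κ.w * (Ideal.absNorm (I : Ideal (𝓞 K)) : ℝ) ^ (-s))
      (∑' x : genSet P, κ.F s x) := by
  have h0 : HasSum (fun x : genSet P => κ.F s x) (∑' x : genSet P, κ.F s x) :=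
    (summable_genSet κ P hs).hasSum
  have h1 : HasSum (fun p : (Σ I : prinSet P, {x : genSet P // genToPrin P x = I}) =>
      κ.F s ((Equiv.sigmaFiberEquiv (genToPrin P) p : genSet P) : 𝓞 K))
      (∑' x : genSet P, κ.F s x) :=
    (Equiv.hasSum_iff (Equiv.sigmaFiberEquiv (genToPrin P))).mpr h0
  refine h1.sigma fun I => ?_
  obtain ⟨x₀, hx₀⟩ := I.2.2.1
  have hx₀' : Ideal.span {x₀} = (I : Ideal (𝓞 K)) := hx₀.symm
  have hx₀0 : x₀ ≠ 0 := by
    intro h
    apply I.2.1
    rw [← hx₀', h]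
    simp
  have h2 := κ.orbit s hs x₀ hx₀0
  rw [hx₀'] at h2
  rw [← (unitsEquivFiber P I x₀ hx₀').hasSum_iff]
  exact h2

include κ in
theorem summable_prinSet (P : Set (Ideal (𝓞 K))) {s : ℝ} (hs : 1 < s) :
    Summable fun I : prinSet P => (Ideal.absNorm (I : Ideal (𝓞 K)) : ℝ) ^ (-s) := by
  have h := (hasSum_prinSet κ P hs).summable
  have h2 := h.mul_left (κ.w)⁻¹
  refine h2.congr fun I => ?_
  rw [← mul_assoc, inv_mul_cancel₀ κ.w_pos.ne', one_mul]

theorem tsum_prinSet (P : Set (Ideal (𝓞 K))) {s : ℝ} (hs : 1 < s) :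
    κ.w * ∑' I : prinSet P, (Ideal.absNorm (I : Ideal (𝓞 K)) : ℝ) ^ (-s) =
      ∑' x : genSet P, κ.F s x := by
  rw [← tsum_mul_left]
  exact (hasSum_prinSet κ P hs).tsum_eq

end Fermat.Agent.S55.H963

end
-- ===== PACK-END S55/H963/Principal.lean

-- ===== PACK-BEGIN S55/Spec/Tower2.lean
section
/-
S55 moonshot — frozen shared definitions, part 2: finiteness, transition maps, S-units,
diagonal embedding.  Chief architect: helper55.  NO sorry.  Namespace `Fermat.Agent.S55.Tow`.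
-/



set_option autoImplicit false

open CategoryTheory

namespace Fermat.Agent.S55.Tow

noncomputable section

variable {S : Finset Nat.Primes}

/-- `q` is prime (instance for `q : Nat.Primes`). -/
instance factPrimes (q : Nat.Primes) : Fact (q : ℕ).Prime := ⟨q.2⟩

/-! ## Finiteness -/

instance Level.finiteGal (L : Level S) : Finite L.Gal := by
  have : FiniteDimensional ℚ L.F := L.unram.1
  have hopen : IsOpen (L.F.fixingSubgroup : Set GQ) := IntermediateField.fixingSubgroup_isOpen L.F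
  have := Fermat.Agent.S55.Bridge.isAlgebraic_Qbar
  have := Fermat.Agent.S55.Bridge.isGalois_Qbar
  exact Subgroup.quotient_finite_of_isOpen (L.F.fixingSubgroup) hopen

theorem Level.decHom_injective (L : Level S) (q : Nat.Primes) :
    Function.Injective (L.decHom q) := by
  rw [injective_iff_map_eq_one]
  intro x
  induction x using QuotientGroup.induction_on with
  | H g =>
    intro h
    have h' : (QuotientGroup.mk (locQ q g) : L.Gal) = 1 := h
    rw [QuotientGroup.eq_one_iff] at h' ⊢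
    exact h'

instance Level.finiteDec (L : Level S) (q : Nat.Primes) : Finite (L.Dec q) :=
  Finite.of_injective _ (L.decHom_injective q)

/-! ## Transition maps of groups -/

lemma Level.V_anti {L L' : Level S} (h : L ≤ L') (q : Nat.Primes) : L'.V q ≤ L.V q :=
  Subgroup.comap_mono (Level.U_anti h)

/-- The projection `Gal(F'_q/ℚ_q) → Gal(F_q/ℚ_q)` for `F ≤ F'`. -/
def Level.projDec {L L' : Level S} (h : L ≤ L') (q : Nat.Primes) : L'.Dec q →* L.Dec q :=
  QuotientGroup.map (L'.V q) (L.V q) (MonoidHom.id (GQp q)) (Level.V_anti h q)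

@[simp] lemma Level.proj_mk {L L' : Level S} (h : L ≤ L') (g : GQ) :
    Level.proj h (QuotientGroup.mk g) = QuotientGroup.mk g := rfl

@[simp] lemma Level.projDec_mk {L L' : Level S} (h : L ≤ L') (q : Nat.Primes) (g : GQp q) :
    Level.projDec h q (QuotientGroup.mk g) = QuotientGroup.mk g := rfl

@[simp] lemma Level.decHom_mk (L : Level S) (q : Nat.Primes) (g : GQp q) :
    L.decHom q (QuotientGroup.mk g) = QuotientGroup.mk (locQ q g) := rfl

lemma Level.proj_decHom {L L' : Level S} (h : L ≤ L') (q : Nat.Primes) (d : L'.Dec q) :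
    Level.proj h (L'.decHom q d) = L.decHom q (Level.projDec h q d) := by
  induction d using QuotientGroup.induction_on with
  | H g => rfl

/-! ## Underlying elements -/

/-- The element of `ℚ̄ˣ` underlying `x ∈ Fˣ`. -/
def Level.val (L : Level S) (x : L.units.V) : Qbarˣ := Additive.toMul x.1

/-- The element of `ℚ̄_qˣ` underlying `x ∈ F_qˣ`. -/
def Level.locVal (L : Level S) (q : Nat.Primes) (x : (L.locUnits q).V) :
    (PadicAlgCl (q : ℕ))ˣ := Additive.toMul x.1

/-- `x ∈ Fˣ` is an `S`-unit: a unit at every place of `ℚ̄` over a prime `ℓ ∉ S`. -/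
def Level.IsSUnit (L : Level S) (x : L.units.V) : Prop :=
  ∀ ℓ : Nat.Primes, ℓ ∉ S → ∀ A : ValuationSubring Qbar, A.LiesOverPrime (ℓ : ℕ) →
    ((L.val x : Qbarˣ) : Qbar) ∈ A ∧ (((L.val x)⁻¹ : Qbarˣ) : Qbar) ∈ A

end

end Fermat.Agent.S55.Tow

end
-- ===== PACK-END S55/Spec/Tower2.lean

-- ===== PACK-BEGIN S55/Bridge/Archimedean.lean
section


/-!
# S55 bridge, part B3: the archimedean place contributes nothing when `2` is invertible

`archimedeanDecomposition = ⟨complex conjugation⟩` has order dividing `2`, so its `H¹` and its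
(Prelude-)continuous `H²` with coefficients in a vector space over a field with `2 ≠ 0` vanish.
Consequently `sha₁`/`sha₂` are cut out by the finite places `q ∈ S` only.
-/

set_option autoImplicit false

namespace Fermat.Agent.S55.Bridge

open groupCohomology CategoryTheory ExtCitation

/-- The absolute Galois group of `ℚ` (as an abstract group), as used by the Prelude. -/
abbrev GQ : Type := AlgebraicClosure ℚ ≃ₐ[ℚ] AlgebraicClosure ℚ

theorem archimedean_isOfFinOrder : IsOfFinOrder complexConjugation :=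
  isOfFinOrder_iff_pow_eq_one.2 ⟨2, by norm_num, complexConjugation_sq⟩

instance archimedean_finite : Finite ↥archimedeanDecomposition := by
  unfold archimedeanDecomposition
  exact archimedean_isOfFinOrder.finite_zpowers

theorem archimedean_card_dvd_two : Nat.card ↥archimedeanDecomposition ∣ 2 := by
  unfold archimedeanDecomposition
  rw [Nat.card_zpowers]
  exact orderOf_dvd_of_pow_eq_one complexConjugation_sq

/-- In a field where `2 ≠ 0`, the order of the archimedean decomposition group is invertible. -/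
theorem archimedean_exists_inv {K : Type} [Field K] (h2 : (2 : K) ≠ 0) :
    ∃ c : K, c * (Nat.card ↥archimedeanDecomposition : K) = 1 := by
  have hd := archimedean_card_dvd_two
  have hne : (Nat.card ↥archimedeanDecomposition : K) ≠ 0 := by
    have hle : Nat.card ↥archimedeanDecomposition ≤ 2 := Nat.le_of_dvd (by norm_num) hd
    have hpos : 0 < Nat.card ↥archimedeanDecomposition := Nat.pos_of_dvd_of_pos hd (by norm_num)
    interval_cases h : Nat.card ↥archimedeanDecomposition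
    · simp
    · simpa using h2
  exact ⟨(Nat.card ↥archimedeanDecomposition : K)⁻¹, inv_mul_cancel₀ hne⟩

variable {K : Type} [Field K]

/-- `H¹(⟨c⟩, B) = 0` if `2 ≠ 0` in `K`. -/
theorem archimedean_H1_eq_zero (h2 : (2 : K) ≠ 0) (B : Rep K ↥archimedeanDecomposition)
    (x : H1 B) : x = 0 := by
  letI : Fintype ↥archimedeanDecomposition := Fintype.ofFinite _
  obtain ⟨c, hc⟩ := archimedean_exists_inv (K := K) h2
  rw [Nat.card_eq_fintype_card] at hc
  exact H1_eq_zero_of_card_inv B c hc x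

/-- The Prelude-continuous `H²` of `⟨c⟩` vanishes if `2 ≠ 0` in `K`. -/
theorem archimedean_continuousH2_eq_zero (h2 : (2 : K) ≠ 0)
    (B : Rep K ↥archimedeanDecomposition)
    (x : continuousH2 archimedeanLoc B) : x = 0 := by
  letI : Fintype ↥archimedeanDecomposition := Fintype.ofFinite _
  obtain ⟨c, hc⟩ := archimedean_exists_inv (K := K) h2
  rw [Nat.card_eq_fintype_card] at hc
  exact continuousH2_eq_zero_of_card_inv B archimedeanLoc c hc x

variable (S : Finset Nat.Primes)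

/-- The archimedean component of the total localisation map on `H¹` vanishes. -/
theorem locTotal_inl_eq_zero (h2 : (2 : K) ≠ 0) (A : Rep K GQ) (x : H1 A) (u : Unit) :
    locTotal (extArithLoc S) A x (Sum.inl u) = 0 :=
  archimedean_H1_eq_zero h2 (Rep.res archimedeanLoc A) _

/-- The archimedean component of the total localisation map on continuous `H²` vanishes. -/
theorem locTotal₂S_inl_eq_zero (h2 : (2 : K) ≠ 0) (M : Rep K GQ) (x : continuousH2S S M)
    (u : Unit) : locTotal₂S S M x (Sum.inl u) = 0 :=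
  archimedean_continuousH2_eq_zero h2 (Rep.res archimedeanLoc M) _

/-- `sha₁` is cut out by the finite places only (when `2 ≠ 0`). -/
theorem mem_sha₁_iff (h2 : (2 : K) ≠ 0) (A : Rep K GQ) (x : H1 A) :
    x ∈ sha₁ S A ↔ x ∈ continuousH1S S A ∧
      ∀ q : ↥S, (groupCohomology.map (primeLocalToGlobal q.1)
        (𝟙 (Rep.res (primeLocalToGlobal q.1) A)) 1).hom x = 0 := by
  unfold sha₁
  rw [Submodule.mem_inf, LinearMap.mem_ker]
  refine and_congr Iff.rfl ⟨fun h q => ?_, fun h => ?_⟩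
  · exact congrFun h (Sum.inr q)
  · funext v
    rcases v with u | q
    · exact locTotal_inl_eq_zero S h2 A x u
    · exact h q

/-- `sha₂` is cut out by the finite places only (when `2 ≠ 0`). -/
theorem mem_sha₂_iff (h2 : (2 : K) ≠ 0) (M : Rep K GQ) (x : continuousH2S S M) :
    x ∈ sha₂ S M ↔ ∀ q : ↥S, locRes₂S S M (primeLocalToGlobal q.1) x = 0 := by
  unfold sha₂
  rw [LinearMap.mem_ker]
  refine ⟨fun h q => ?_, fun h => ?_⟩
  · exact congrFun h (Sum.inr q)
  · funext v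
    rcases v with u | q
    · exact locTotal₂S_inl_eq_zero S h2 M x u
    · exact h q

/-- In `ZMod p` with `p` an odd prime, `2 ≠ 0`. -/
theorem two_ne_zero_zmod {p : ℕ} [Fact p.Prime] (hp2 : p ≠ 2) : (2 : ZMod p) ≠ 0 := by
  intro h
  have h' : ((2 : ℕ) : ZMod p) = 0 := by exact_mod_cast h
  rw [ZMod.natCast_eq_zero_iff] at h'
  exact hp2 ((Nat.prime_dvd_prime_iff_eq Fact.out Nat.prime_two).1 h')

end Fermat.Agent.S55.Bridge

end
-- ===== PACK-END S55/Bridge/Archimedean.lean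

-- ===== PACK-BEGIN S55/E1/H353/Alg8Core.lean
section


/-!
# S55, engine E1, block ALG8 (helper353): the abstract count

Pure algebra (Mathlib only).  Setting: `V` an abelian group killed by `p` (think `H¹(G, N)`), `W`
an abelian group with cyclic `p`-torsion (think `H²(G, C)`), `A` an abelian group with an
additive pairing `α : A → Hom(V, W)` (think `A = Hom_G(R, C)`, `α f = ⟨f, ·⟩`), a subgroup
`B = ker α` (think `res Bc(C)`), subgroups `A_i ≤ A` and `K_i ≤ V` with
`α(A_i) = {χ | χ(K_i) = 0}` (think `A_i = j_i ∘ A(J_i)`, `K_i = ker res_i`: this is ALG7).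

* `mem_sup_iff_core` : `a ∈ B ⊔ ⨆ i, A_i ↔ α a` vanishes on `⨅ i, K_i`;
* `card_quotient_core` : if moreover `α` is surjective and `V` is finite, then
  `A ⧸ (B ⊔ ⨆ i, A_i)` is finite of cardinality `|⨅ i, K_i|`.
-/

set_option autoImplicit false
set_option linter.unusedSectionVars false
set_option linter.style.haveILetI false

namespace Fermat.Agent.S55.E1.H353

section Core

variable {p : ℕ} [Fact p.Prime] {A V W : Type} [AddCommGroup A] [AddCommGroup V] [AddCommGroup W]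

/-- The subgroup of those `a : A` whose pairing `α a` vanishes on `K`. -/
def annSub (α : A →+ (V →+ W)) (K : AddSubgroup V) : AddSubgroup A where
  carrier := {a | ∀ v ∈ K, α a v = 0}
  zero_mem' := fun v _ => by simp
  add_mem' := fun {a b} ha hb v hv => by
    rw [map_add, AddMonoidHom.add_apply, ha v hv, hb v hv, add_zero]
  neg_mem' := fun {a} ha v hv => by
    rw [map_neg, AddMonoidHom.neg_apply, ha v hv, neg_zero]

lemma mem_annSub (α : A →+ (V →+ W)) (K : AddSubgroup V) (a : A) :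
    a ∈ annSub α K ↔ ∀ v ∈ K, α a v = 0 := Iff.rfl

/-- Every homomorphism from a group killed by `p` to a group without `p`-torsion is zero. -/
lemma hom_eq_zero_of_no_torsion (hV : ∀ v : V, p • v = 0)
    (hW : ∀ w : W, p • w = 0 → w = 0) (χ : V →+ W) : χ = 0 := by
  ext v
  apply hW
  rw [← map_nsmul, hV, map_zero]

variable (hV : ∀ v : V, p • v = 0) (hcyc : CyclicPTorsion p W)
  (α : A →+ (V →+ W)) (B : AddSubgroup A) (hB : ∀ a, a ∈ B ↔ α a = 0)
  {ι : Type} [Finite ι] (Ai : ι → AddSubgroup A) (Ki : ι → AddSubgroup V)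
  (hi : ∀ (i : ι) (χ : V →+ W), (∃ a ∈ Ai i, α a = χ) ↔ ∀ v ∈ Ki i, χ v = 0)

include hB hi in
lemma sup_le_annSub : B ⊔ ⨆ i, Ai i ≤ annSub α (⨅ i, Ki i) := by
  refine sup_le ?_ (iSup_le ?_)
  · intro b hb v _
    rw [(hB b).1 hb]
    rfl
  · intro i a ha v hv
    exact (hi i (α a)).1 ⟨a, ha, rfl⟩ v ((iInf_le Ki i) hv)

/-- The subspace of `V` attached to the subgroup `K_i`. -/
abbrev subK [Module (ZMod p) V] (Ki : ι → AddSubgroup V) (i : ι) : Submodule (ZMod p) V :=
  AddSubgroup.toZModSubmodule p (Ki i)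

lemma mem_iInf_subK [Module (ZMod p) V] (Ki : ι → AddSubgroup V) (v : V) :
    v ∈ (⨅ i, subK (p := p) Ki i) ↔ v ∈ ⨅ i, Ki i := by
  rw [Submodule.mem_iInf, AddSubgroup.mem_iInf]
  exact forall_congr' fun i => AddSubgroup.mem_toZModSubmodule p

include hB hi in
/-- The case where `W` has nonzero `p`-torsion generated by `g.w₀`. -/
lemma annSub_le_sup_of_pGen [Module (ZMod p) V] (g : PGen p W) :
    annSub α (⨅ i, Ki i) ≤ B ⊔ ⨆ i, Ai i := by
  intro a ha
  -- the functional attached to `α a`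
  have hφ : g.homEquivDual V (α a) ∈ Submodule.dualAnnihilator (⨅ i, subK (p := p) Ki i) := by
    rw [Submodule.mem_dualAnnihilator]
    intro v hv
    rw [g.homEquivDual_apply_eq_zero_iff]
    apply ha
    exact (mem_iInf_subK Ki v).1 hv
  rw [Subspace.dualAnnihilator_iInf_eq] at hφ
  have key : ∃ a' ∈ ⨆ i, Ai i, g.homEquivDual V (α a') = g.homEquivDual V (α a) := by
    refine Submodule.iSup_induction (fun i => (subK (p := p) Ki i).dualAnnihilator)
      (motive := fun ψ => ∃ a' ∈ ⨆ i, Ai i, g.homEquivDual V (α a') = ψ) hφ ?_ ?_ ?_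
    · intro i ψ hψ
      rw [Submodule.mem_dualAnnihilator] at hψ
      have h1 : ∀ v ∈ Ki i, (g.homEquivDual V).symm ψ v = 0 := by
        intro v hv
        rw [g.homEquivDual_symm_apply, hψ v ((AddSubgroup.mem_toZModSubmodule p).2 hv), map_zero]
      obtain ⟨a', ha', hα⟩ := (hi i _).2 h1
      exact ⟨a', (le_iSup Ai i) ha', by rw [hα, AddEquiv.apply_symm_apply]⟩
    · exact ⟨0, zero_mem _, by rw [map_zero, map_zero]⟩
    · rintro ψ ψ' ⟨a₁, h₁, rfl⟩ ⟨a₂, h₂, rfl⟩
      exact ⟨a₁ + a₂, add_mem h₁ h₂, by rw [map_add, map_add]⟩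
  obtain ⟨a', ha', hα⟩ := key
  have h2 : α a' = α a := (g.homEquivDual V).injective hα
  have h3 : a - a' ∈ B := by
    rw [hB, map_sub, h2, sub_self]
  have h4 : a = (a - a') + a' := by abel
  rw [h4]
  exact AddSubgroup.add_mem_sup h3 ha'

include hV hcyc hB hi in
/-- **ALG8, membership criterion.**  `a ∈ B + ∑ A_i` iff `α a` vanishes on `⋂ K_i`. -/
theorem mem_sup_iff_core (a : A) :
    a ∈ B ⊔ ⨆ i, Ai i ↔ ∀ v ∈ ⨅ i, Ki i, α a v = 0 := by
  constructor
  · intro ha
    exact sup_le_annSub α B hB Ai Ki hi ha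
  · intro ha
    by_cases hW : ∀ w : W, p • w = 0 → w = 0
    · have h0 : α a = 0 := hom_eq_zero_of_no_torsion hV hW _
      exact (le_sup_left : B ≤ B ⊔ ⨆ i, Ai i) ((hB a).2 h0)
    · obtain ⟨w₀, hw⟩ := not_forall.1 hW
      obtain ⟨hw₀, hne⟩ := Classical.not_imp.1 hw
      letI : Module (ZMod p) V := AddCommGroup.zmodModule hV
      exact annSub_le_sup_of_pGen α B hB Ai Ki hi (hcyc.pGen w₀ hw₀ hne) ha

/-- The cardinality of the dual of a finite `𝔽_p`-vector space. -/
lemma card_dual_eq (M : Type) [AddCommGroup M] [Module (ZMod p) M] [Finite M] :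
    Nat.card (Module.Dual (ZMod p) M) = Nat.card M := by
  classical
  haveI : Module.Finite (ZMod p) M := Module.Finite.of_finite
  have b := Module.Free.chooseBasis (ZMod p) M
  exact (Nat.card_congr (b.toDualEquiv).toEquiv).symm

lemma finite_dual (M : Type) [AddCommGroup M] [Module (ZMod p) M] [Finite M] :
    Finite (Module.Dual (ZMod p) M) :=
  DFunLike.finite (Module.Dual (ZMod p) M)

section Count

variable [Module (ZMod p) V]

/-- The composite `A → Hom(V, W) ≃ Dual V → Dual Ш`, `Ш = ⋂ K_i`. -/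
noncomputable def psiHom (g : PGen p W) (α : A →+ (V →+ W)) (K : AddSubgroup V) :
    A →+ Module.Dual (ZMod p) ↥(AddSubgroup.toZModSubmodule p K) :=
  ((AddSubgroup.toZModSubmodule p K).dualRestrict).toAddMonoidHom.comp
    ((g.homEquivDual V).toAddMonoidHom.comp α)

lemma psiHom_apply (g : PGen p W) (α : A →+ (V →+ W)) (K : AddSubgroup V) (a : A)
    (v : ↥(AddSubgroup.toZModSubmodule p K)) :
    psiHom g α K a v = g.homEquivDual V (α a) (v : V) := rfl

lemma psiHom_surjective (g : PGen p W) (α : A →+ (V →+ W)) (hsurj : Function.Surjective α)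
    (K : AddSubgroup V) : Function.Surjective (psiHom g α K) := by
  intro ψ
  obtain ⟨φ, hφ⟩ := Subspace.dualRestrict_surjective (W := AddSubgroup.toZModSubmodule p K) ψ
  obtain ⟨a, ha⟩ := hsurj ((g.homEquivDual V).symm φ)
  refine ⟨a, ?_⟩
  change (AddSubgroup.toZModSubmodule p K).dualRestrict (g.homEquivDual V (α a)) = ψ
  rw [ha, AddEquiv.apply_symm_apply, hφ]

lemma mem_ker_psiHom (g : PGen p W) (α : A →+ (V →+ W)) (K : AddSubgroup V) (a : A) :
    a ∈ (psiHom g α K).ker ↔ ∀ v ∈ K, α a v = 0 := by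
  rw [AddMonoidHom.mem_ker]
  constructor
  · intro h v hv
    have h1 := congrArg
      (fun ψ : Module.Dual (ZMod p) ↥(AddSubgroup.toZModSubmodule p K) =>
        ψ ⟨v, (AddSubgroup.mem_toZModSubmodule p).2 hv⟩) h
    change g.homEquivDual V (α a) v = 0 at h1
    exact (g.homEquivDual_apply_eq_zero_iff V (α a) v).1 h1
  · intro h
    ext ⟨v, hv⟩
    change g.homEquivDual V (α a) v = 0
    exact (g.homEquivDual_apply_eq_zero_iff V (α a) v).2
      (h v ((AddSubgroup.mem_toZModSubmodule p).1 hv))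

lemma card_quotient_ker_psiHom [Finite V] (g : PGen p W) (α : A →+ (V →+ W))
    (hsurj : Function.Surjective α) (K : AddSubgroup V) :
    Finite (A ⧸ (psiHom g α K).ker) ∧ Nat.card (A ⧸ (psiHom g α K).ker) = Nat.card ↥K := by
  have e1 : A ⧸ (psiHom g α K).ker ≃+ Module.Dual (ZMod p) ↥(AddSubgroup.toZModSubmodule p K) :=
    QuotientAddGroup.quotientKerEquivOfSurjective _ (psiHom_surjective g α hsurj K)
  haveI : Finite ↥(AddSubgroup.toZModSubmodule p K) :=
    Finite.of_injective (fun x : ↥(AddSubgroup.toZModSubmodule p K) => (x : V))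
      Subtype.val_injective
  haveI : Finite (Module.Dual (ZMod p) ↥(AddSubgroup.toZModSubmodule p K)) := finite_dual _
  refine ⟨Finite.of_equiv _ e1.symm.toEquiv, ?_⟩
  rw [Nat.card_congr e1.toEquiv, card_dual_eq]
  exact Nat.card_congr (Equiv.setCongr (AddSubgroup.coe_toZModSubmodule p K))

end Count

include hV hcyc hB hi in
/-- **ALG8, the count.**  If `α` is surjective and `V` is finite (and `W` has nonzero
`p`-torsion as soon as `V ≠ 0`), then `A ⧸ (B + ∑ A_i)` is finite of cardinality `|⋂ K_i|`. -/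
theorem card_quotient_core [Finite V] (hsurj : Function.Surjective α)
    (hVW : (∃ v : V, v ≠ 0) → ∃ w : W, w ≠ 0 ∧ p • w = 0) :
    Finite (A ⧸ (B ⊔ ⨆ i, Ai i)) ∧
      Nat.card (A ⧸ (B ⊔ ⨆ i, Ai i)) = Nat.card ↥(⨅ i, Ki i) := by
  by_cases hVtriv : ∀ v : V, v = 0
  · -- `V = 0`: both sides are trivial
    have hB' : ∀ a : A, a ∈ B ⊔ ⨆ i, Ai i := by
      intro a
      apply (le_sup_left : B ≤ B ⊔ ⨆ i, Ai i)
      rw [hB]
      ext v
      rw [hVtriv v, map_zero]
      rfl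
    haveI : Subsingleton (A ⧸ (B ⊔ ⨆ i, Ai i)) := by
      refine ⟨fun x y => ?_⟩
      induction x using QuotientAddGroup.induction_on with
      | H a =>
        induction y using QuotientAddGroup.induction_on with
        | H b =>
          rw [QuotientAddGroup.eq]
          exact hB' _
    haveI : Subsingleton ↥(⨅ i, Ki i) :=
      ⟨fun x y => Subtype.ext ((hVtriv x).trans (hVtriv y).symm)⟩
    refine ⟨inferInstance, ?_⟩
    rw [Nat.card_unique, Nat.card_unique]
  · obtain ⟨v₁, hv₁⟩ := not_forall.1 hVtriv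
    obtain ⟨w₀, hne, hw₀⟩ := hVW ⟨v₁, hv₁⟩
    letI : Module (ZMod p) V := AddCommGroup.zmodModule hV
    have hker : (psiHom (hcyc.pGen w₀ hw₀ hne) α (⨅ i, Ki i)).ker = B ⊔ ⨆ i, Ai i := by
      ext a
      rw [mem_ker_psiHom, mem_sup_iff_core hV hcyc α B hB Ai Ki hi a]
    obtain ⟨h1, h2⟩ := card_quotient_ker_psiHom (hcyc.pGen w₀ hw₀ hne) α hsurj (⨅ i, Ki i)
    rw [hker] at h1 h2
    exact ⟨h1, h2⟩

end Core

end Fermat.Agent.S55.E1.H353

end
-- ===== PACK-END S55/E1/H353/Alg8Core.lean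

-- ===== PACK-BEGIN S56/H486/T4.lean
section
/-
S56 / W-BASE leaf T4 (helper486): for a finite abelian group `A` with an endomorphism `g`,
the characteristic polynomials of `g` on `A[p]` and on `A / pA` coincide (Mathlib-only).

The `p`-torsion and the `p`-cotorsion are presented abstractly: `V₁` (resp. `V₂`) is any finite
`ZMod p`-module with an injection `ι : V₁ →+ A` whose range is `A[p]` (resp. a surjection
`π : A →+ V₂` whose kernel is `pA`), so that the consumer can plug in whatever model is at hand.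
-/


namespace Fermat.Agent.S56.H486

open Module

universe u v w

/-- Induction engine for `t4_charpoly_torsion_eq_cotorsion` (strong induction on `Nat.card A`). -/
theorem t4_charpoly_torsion_eq_cotorsion_aux (p : ℕ) [Fact p.Prime] (n : ℕ) :
    ∀ (A : Type u) [AddCommGroup A] [Finite A]
      (V₁ : Type v) [AddCommGroup V₁] [Module (ZMod p) V₁] [Finite V₁]
      (V₂ : Type w) [AddCommGroup V₂] [Module (ZMod p) V₂] [Finite V₂]
      (g : A →+ A) (g₁ : V₁ →ₗ[ZMod p] V₁) (g₂ : V₂ →ₗ[ZMod p] V₂)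
      (ι : V₁ →+ A) (π : A →+ V₂),
      Nat.card A = n →
      Function.Injective ι → (∀ a, a ∈ ι.range ↔ p • a = 0) →
      Function.Surjective π → (∀ a, π a = 0 ↔ ∃ b, a = p • b) →
      (∀ v, ι (g₁ v) = g (ι v)) → (∀ a, π (g a) = g₂ (π a)) →
      g₁.charpoly = g₂.charpoly := by
  induction n using Nat.strong_induction_on with
  | _ n ih =>
  intro A _ _ V₁ _ _ _ V₂ _ _ _ g g₁ g₂ ι π hcard hι hιr hπ hπk hg₁ hg₂
  let pm : A →+ A := nsmulAddMonoidHom p
  have hpm : ∀ a, pm a = p • a := fun a => rfl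
  let B : AddSubgroup A := pm.range
  have hBmem : ∀ a, a ∈ B ↔ ∃ b, a = p • b := fun a =>
    ⟨fun ⟨b, hb⟩ => ⟨b, hb.symm⟩, fun ⟨b, hb⟩ => ⟨b, hb.symm⟩⟩
  by_cases hB : B = ⊤
  · -- multiplication by `p` is bijective: both sides are trivial
    have hsurj : Function.Surjective pm := AddMonoidHom.range_eq_top.mp hB
    have hinj : Function.Injective pm := Finite.injective_iff_surjective.mpr hsurj
    have h1 : Subsingleton V₁ := ⟨fun x y => hι (hinj (by
      have hx : p • ι x = 0 := (hιr _).1 ⟨x, rfl⟩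
      have hy : p • ι y = 0 := (hιr _).1 ⟨y, rfl⟩
      rw [hpm, hpm, hx, hy]))⟩
    have h0 : ∀ x : V₂, x = 0 := fun x => by
      obtain ⟨a, rfl⟩ := hπ x
      obtain ⟨c, hc⟩ := hsurj a
      exact (hπk a).2 ⟨c, hc.symm⟩
    have h2 : Subsingleton V₂ := ⟨fun x y => by rw [h0 x, h0 y]⟩
    rw [t4_charpoly_of_subsingleton g₁, t4_charpoly_of_subsingleton g₂]
  · -- `B = pA` is a proper subgroup
    have hlt : Nat.card B < n := by
      rw [← hcard]
      refine lt_of_le_of_ne (Nat.card_le_card_of_injective _ Subtype.val_injective) ?_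
      exact fun h => hB ((AddSubgroup.card_eq_iff_eq_top B).1 h)
    let L : V₁ →ₗ[ZMod p] V₂ := (π.comp ι).toZModLinearMap p
    have hL : ∀ v, L v = π (ι v) := fun v => rfl
    let K : Submodule (ZMod p) V₁ := LinearMap.ker L
    let W : Submodule (ZMod p) V₂ := LinearMap.range L
    have hKmem : ∀ v, v ∈ K ↔ π (ι v) = 0 := fun v => Iff.rfl
    have hWmem : ∀ x, x ∈ W ↔ ∃ v, π (ι v) = x := fun x => Iff.rfl
    have hK : K ≤ K.comap g₁ := by
      intro v hv
      rw [Submodule.mem_comap, hKmem, hg₁, hg₂, (hKmem v).1 hv, map_zero]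
    have hW : W ≤ W.comap g₂ := by
      rintro _ ⟨v, rfl⟩
      exact ⟨g₁ v, by rw [hL, hL, hg₁, hg₂]⟩
    -- the two filtrations
    have e1 := t4_charpoly_eq_restrict_mul_mapQ K g₁ hK
    have e2 := t4_charpoly_eq_restrict_mul_mapQ W g₂ hW
    -- `V₁ / K ≃ W`, equivariantly
    have e3 : (K.mapQ K g₁ hK).charpoly = (g₂.restrict hW).charpoly :=
      t4_charpoly_eq_of_equiv L.quotKerEquivRange _ _ (by
        intro x
        obtain ⟨v, rfl⟩ := Submodule.mkQ_surjective _ x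
        apply Subtype.ext
        rw [Submodule.mkQ_apply, Submodule.mapQ_apply, LinearMap.quotKerEquivRange_apply_mk,
          LinearMap.coe_restrict_apply, LinearMap.quotKerEquivRange_apply_mk, hL, hL, hg₁, hg₂])
    -- the induction hypothesis for `B`, `K`, `V₂ ⧸ W`
    let g' : B →+ B := (g.comp B.subtype).codRestrict B (fun b => by
      obtain ⟨a, ha⟩ := (hBmem _).1 b.2
      exact (hBmem _).2 ⟨g a, by
        rw [AddMonoidHom.comp_apply, AddSubgroup.coe_subtype, ha, map_nsmul]⟩)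
    have hg' : ∀ b : B, (g' b : A) = g b := fun b => rfl
    let ι' : K →+ B := (ι.comp K.subtype.toAddMonoidHom).codRestrict B (fun v =>
      (hBmem _).2 ((hπk _).1 ((hKmem _).1 v.2)))
    have hι' : ∀ v : K, (ι' v : A) = ι v := fun v => rfl
    let φ : A →+ V₂ ⧸ W := (W.mkQ.toAddMonoidHom).comp π
    have hφ' : ∀ a, φ a = W.mkQ (π a) := fun a => rfl
    have hφ : pm.ker ≤ φ.ker := by
      intro a ha
      obtain ⟨v, rfl⟩ := (hιr a).2 ha
      rw [AddMonoidHom.mem_ker, hφ', Submodule.mkQ_apply, Submodule.Quotient.mk_eq_zero]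
      exact ⟨v, rfl⟩
    let π' : B →+ V₂ ⧸ W := (QuotientAddGroup.lift pm.ker φ hφ).comp
      (QuotientAddGroup.quotientKerEquivRange pm).symm.toAddMonoidHom
    have hπ' : ∀ (a : A) (ha : p • a ∈ B), π' ⟨p • a, ha⟩ = W.mkQ (π a) := by
      intro a ha
      have h1 : (QuotientAddGroup.quotientKerEquivRange pm).symm ⟨p • a, ha⟩ =
          (QuotientAddGroup.mk a : A ⧸ pm.ker) := by
        rw [AddEquiv.symm_apply_eq]
        rfl
      show QuotientAddGroup.lift pm.ker φ hφ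
        ((QuotientAddGroup.quotientKerEquivRange pm).symm ⟨p • a, ha⟩) = _
      rw [h1, QuotientAddGroup.lift_mk, hφ']
    have hBrep : ∀ b : B, ∃ (a : A) (ha : p • a ∈ B), b = ⟨p • a, ha⟩ := fun b => by
      obtain ⟨a, ha⟩ := (hBmem _).1 b.2
      exact ⟨a, (hBmem _).2 ⟨a, rfl⟩, Subtype.ext ha⟩
    have : Finite (V₂ ⧸ W) := Finite.of_surjective _ (Submodule.mkQ_surjective W)
    have e4 : (g₁.restrict hK).charpoly = (W.mapQ W g₂ hW).charpoly := by
      refine ih (Nat.card B) hlt B K (V₂ ⧸ W) g' (g₁.restrict hK) (W.mapQ W g₂ hW) ι' π' rfl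
        ?_ ?_ ?_ ?_ ?_ ?_
      · -- injectivity of `ι'`
        intro x y hxy
        exact Subtype.ext (hι (congrArg Subtype.val hxy))
      · -- range of `ι'` is `B[p]`
        intro b
        constructor
        · rintro ⟨v, rfl⟩
          apply Subtype.ext
          rw [AddSubgroup.coe_nsmul, hι', AddSubgroup.coe_zero]
          exact (hιr _).1 ⟨v, rfl⟩
        · intro hb
          have hb' : p • (b : A) = 0 := by
            rw [← AddSubgroup.coe_nsmul, hb, AddSubgroup.coe_zero]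
          obtain ⟨v, hv⟩ := (hιr _).2 hb'
          have hvK : v ∈ K := by
            rw [hKmem, hv]
            exact (hπk _).2 ((hBmem _).1 b.2)
          exact ⟨⟨v, hvK⟩, Subtype.ext hv⟩
      · -- surjectivity of `π'`
        intro x
        obtain ⟨y, rfl⟩ := Submodule.mkQ_surjective _ x
        obtain ⟨a, rfl⟩ := hπ y
        exact ⟨⟨p • a, (hBmem _).2 ⟨a, rfl⟩⟩, hπ' a _⟩
      · -- kernel of `π'` is `pB`
        intro b
        obtain ⟨a, ha, rfl⟩ := hBrep b
        rw [hπ', Submodule.mkQ_apply, Submodule.Quotient.mk_eq_zero, hWmem]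
        constructor
        · rintro ⟨v, hv⟩
          have h0 : π (a - ι v) = 0 := by rw [map_sub, hv, sub_self]
          obtain ⟨c, hc⟩ := (hπk _).1 h0
          refine ⟨⟨p • c, (hBmem _).2 ⟨c, rfl⟩⟩, Subtype.ext ?_⟩
          rw [AddSubgroup.coe_nsmul]
          show p • a = p • (p • c)
          have hv0 : p • ι v = 0 := (hιr _).1 ⟨v, rfl⟩
          rw [← hc, smul_sub, hv0, sub_zero]
        · rintro ⟨b', hb'⟩
          obtain ⟨c, hc, rfl⟩ := hBrep b'
          have h1 : p • a = p • (p • c) := by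
            have := congrArg Subtype.val hb'
            rwa [AddSubgroup.coe_nsmul] at this
          have h2 : p • (a - p • c) = 0 := by rw [smul_sub, h1, sub_self]
          obtain ⟨v, hv⟩ := (hιr _).2 h2
          refine ⟨v, ?_⟩
          rw [hv, map_sub, (hπk (p • c)).2 ⟨c, rfl⟩, sub_zero]
      · -- equivariance of `ι'`
        intro v
        apply Subtype.ext
        rw [hι', hg', hι', LinearMap.coe_restrict_apply, hg₁]
      · -- equivariance of `π'`
        intro b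
        obtain ⟨a, ha, rfl⟩ := hBrep b
        have h1 : g' ⟨p • a, ha⟩ = ⟨p • g a, (hBmem _).2 ⟨g a, rfl⟩⟩ :=
          Subtype.ext (by rw [hg']; exact map_nsmul g p a)
        rw [h1, hπ', hπ', hg₂, Submodule.mkQ_apply, Submodule.mkQ_apply, Submodule.mapQ_apply]
    rw [e1, e2, e3, e4, mul_comm]

/-- **T4.** Let `A` be a finite abelian group with an endomorphism `g`, let `V₁` be (a model of)
its `p`-torsion `A[p]` and `V₂` (a model of) its `p`-cotorsion `A / pA`, with the induced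
endomorphisms `g₁`, `g₂`.  Then `g₁` and `g₂` have the same characteristic polynomial. -/
theorem t4_charpoly_torsion_eq_cotorsion (p : ℕ) [Fact p.Prime]
    {A : Type u} [AddCommGroup A] [Finite A]
    {V₁ : Type v} [AddCommGroup V₁] [Module (ZMod p) V₁] [Finite V₁]
    {V₂ : Type w} [AddCommGroup V₂] [Module (ZMod p) V₂] [Finite V₂]
    (g : A →+ A) (g₁ : V₁ →ₗ[ZMod p] V₁) (g₂ : V₂ →ₗ[ZMod p] V₂)
    (ι : V₁ →+ A) (π : A →+ V₂)
    (hι : Function.Injective ι) (hιr : ∀ a, a ∈ ι.range ↔ p • a = 0)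
    (hπ : Function.Surjective π) (hπk : ∀ a, π a = 0 ↔ ∃ b, a = p • b)
    (hg₁ : ∀ v, ι (g₁ v) = g (ι v)) (hg₂ : ∀ a, π (g a) = g₂ (π a)) :
    g₁.charpoly = g₂.charpoly :=
  t4_charpoly_torsion_eq_cotorsion_aux p (Nat.card A) A V₁ V₂ g g₁ g₂ ι π rfl hι hιr hπ hπk hg₁ hg₂

/-- Consequence of **T4**: `A[p]` and `A / pA` have the same dimension over `ZMod p`. -/
theorem t4_finrank_torsion_eq_cotorsion (p : ℕ) [Fact p.Prime]
    {A : Type u} [AddCommGroup A] [Finite A]
    {V₁ : Type v} [AddCommGroup V₁] [Module (ZMod p) V₁] [Finite V₁]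
    {V₂ : Type w} [AddCommGroup V₂] [Module (ZMod p) V₂] [Finite V₂]
    (ι : V₁ →+ A) (π : A →+ V₂)
    (hι : Function.Injective ι) (hιr : ∀ a, a ∈ ι.range ↔ p • a = 0)
    (hπ : Function.Surjective π) (hπk : ∀ a, π a = 0 ↔ ∃ b, a = p • b) :
    Module.finrank (ZMod p) V₁ = Module.finrank (ZMod p) V₂ := by
  have h := t4_charpoly_torsion_eq_cotorsion p (AddMonoidHom.id A) (LinearMap.id : V₁ →ₗ[ZMod p] V₁)
    (LinearMap.id : V₂ →ₗ[ZMod p] V₂) ι π hι hιr hπ hπk (fun _ => rfl) (fun _ => rfl)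
  have := congrArg Polynomial.natDegree h
  rwa [LinearMap.charpoly_natDegree, LinearMap.charpoly_natDegree] at this

end Fermat.Agent.S56.H486

end
-- ===== PACK-END S56/H486/T4.lean

-- ===== PACK-BEGIN S55/H593/Dev/Ind.lean
section


/-!
# S55: abstract dévissage, part 2: induced modules `(G ⧸ P →₀ A)` and their filtrations (helper593)

* `dInd P A = (G ⧸ P →₀ A)` with the diagonal action (the same definition as `PT.indRep`,
  `K.indG`, `KL.indR`);
* `aug`, `diag` (`P` of finite index): `A` is a retract of `dInd P A` if `[G : P]` is invertible;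
* `subI P A N` for a submodule `N ≤ A`: the `G`-stable submodule
  `{f | ∀ g, g⁻¹ • f(gP) ∈ N}` of `dInd P A`  (`= Ind_P^G N` if `N` is `P`-stable);
* `piPsi ψ : subI P A N → (G ⧸ P →₀ k)` for a `P`-invariant functional `ψ : N → k`:
  equivariant, kernel `subI P A (ker ψ)`, surjective if `ψ ≠ 0`;
* `theta m₀ : (G ⧸ P →₀ k) → dInd P A` for a `P`-fixed vector `m₀` (equivariant).

Mathlib only.
-/

set_option autoImplicit false
set_option linter.style.haveILetI false

noncomputable section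

namespace Fermat.Agent.S55.H593.Dev

open groupCohomology

variable {G : Type} [Group G] {k : Type} [CommRing k]

/-! ## The induced module -/

/-- The diagonal representation of `G` on `(G ⧸ P →₀ A)`:
`g • single x a = single (g • x) (g • a)`. -/
def dIndρ (P : Subgroup G) (A : Rep.{0, 0, 0} k G) : Representation k G ((G ⧸ P) →₀ A) where
  toFun g := (Finsupp.lmapDomain A k (fun x : G ⧸ P => g • x)).comp
    (Finsupp.mapRange.linearMap (A.ρ g))
  map_one' := by
    ext x a : 2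
    simp
  map_mul' g h := by
    ext x a : 2
    simp [mul_smul]

/-- `Ind_P A = (G ⧸ P →₀ A)` with the diagonal action. -/
def dInd (P : Subgroup G) (A : Rep.{0, 0, 0} k G) : Rep.{0, 0, 0} k G := Rep.of (dIndρ P A)

lemma dIndρ_single (P : Subgroup G) (A : Rep.{0, 0, 0} k G) (g : G) (x : G ⧸ P) (a : A) :
    dIndρ P A g (Finsupp.single x a) = Finsupp.single (g • x) (A.ρ g a) := by
  simp [dIndρ]

/-- The action in coordinates: `(g • f)(y) = g • f(g⁻¹ • y)`. -/
lemma dIndρ_apply (P : Subgroup G) (A : Rep.{0, 0, 0} k G) (g : G) (f : (G ⧸ P) →₀ A)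
    (y : G ⧸ P) : dIndρ P A g f y = A.ρ g (f (g⁻¹ • y)) := by
  have hy : y = g • (g⁻¹ • y) := by rw [smul_inv_smul]
  show (Finsupp.mapDomain (fun x : G ⧸ P => g • x) (Finsupp.mapRange (A.ρ g) (map_zero _) f)) y = _
  conv_lhs => rw [hy]
  rw [Finsupp.mapDomain_apply (MulAction.injective g), Finsupp.mapRange_apply]

/-! ## Augmentation and diagonal -/

/-- The augmentation `Ind_P A → A`, `single x a ↦ a`. -/
def aug (P : Subgroup G) (A : Rep.{0, 0, 0} k G) : ((G ⧸ P) →₀ A) →ₗ[k] A :=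
  Finsupp.lsum k (fun _ : G ⧸ P => (LinearMap.id : A →ₗ[k] A))

@[simp] lemma aug_single (P : Subgroup G) (A : Rep.{0, 0, 0} k G) (x : G ⧸ P) (a : A) :
    aug P A (Finsupp.single x a) = a := by
  simp [aug]

lemma aug_equivariant (P : Subgroup G) (A : Rep.{0, 0, 0} k G) (g : G) (f : (G ⧸ P) →₀ A) :
    aug P A (dIndρ P A g f) = A.ρ g (aug P A f) := by
  induction f using Finsupp.induction_linear with
  | zero => simp
  | add f f' hf hf' => simp only [map_add, hf, hf']
  | single x a => rw [dIndρ_single, aug_single, aug_single]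

variable (P : Subgroup G) [Finite (G ⧸ P)]

/-- The diagonal `A → Ind_P A`, `a ↦ Σ_x single x a` (`P` of finite index). -/
def diag (A : Rep.{0, 0, 0} k G) : A →ₗ[k] ((G ⧸ P) →₀ A) :=
  ((Finsupp.linearEquivFunOnFinite k A (G ⧸ P)).symm : ((G ⧸ P) → A) →ₗ[k] ((G ⧸ P) →₀ A)) ∘ₗ
    LinearMap.pi (fun _ => LinearMap.id)

@[simp] lemma diag_apply (A : Rep.{0, 0, 0} k G) (a : A) (y : G ⧸ P) : diag P A a y = a := by
  simp [diag, Finsupp.linearEquivFunOnFinite]

lemma diag_equivariant (A : Rep.{0, 0, 0} k G) (g : G) (a : A) :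
    diag P A (A.ρ g a) = dIndρ P A g (diag P A a) := by
  ext y
  rw [dIndρ_apply, diag_apply, diag_apply]

lemma aug_diag (A : Rep.{0, 0, 0} k G) (a : A) :
    aug P A (diag P A a) = Nat.card (G ⧸ P) • a := by
  classical
  haveI := Fintype.ofFinite (G ⧸ P)
  have h : diag P A a = ∑ x : G ⧸ P, Finsupp.single x a := by
    ext y
    rw [diag_apply, Finsupp.finsetSum_apply]
    simp [Finsupp.single_apply]
  rw [h, map_sum]
  simp only [aug_single, Finset.sum_const, Finset.card_univ, Nat.card_eq_fintype_card]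

omit [Finite (G ⧸ P)] in
lemma smul_aug_equivariant (A : Rep.{0, 0, 0} k G) (c : k) (g : G) (f : (G ⧸ P) →₀ A) :
    (c • aug P A) (dIndρ P A g f) = A.ρ g ((c • aug P A) f) := by
  rw [LinearMap.smul_apply, LinearMap.smul_apply, aug_equivariant, map_smul]

/-- `A` is a retract of `Ind_P A` if `[G : P]` is invertible in `k`. -/
lemma smul_aug_diag (A : Rep.{0, 0, 0} k G) (c : k) (hc : c * (Nat.card (G ⧸ P) : k) = 1)
    (a : A) : (c • aug P A) (diag P A a) = a := by
  rw [LinearMap.smul_apply, aug_diag, ← Nat.cast_smul_eq_nsmul k, smul_smul, hc, one_smul]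

/-! ## The filtration pieces `subI P A N` -/

variable {P}

omit [Finite (G ⧸ P)] in
/-- `{f ∈ Ind_P A | ∀ g, g⁻¹ • f(gP) ∈ N}`. -/
def subI (P : Subgroup G) (A : Rep.{0, 0, 0} k G) (N : Submodule k A) :
    Submodule k ((G ⧸ P) →₀ A) where
  carrier := {f | ∀ g : G, A.ρ g⁻¹ (f (g : G ⧸ P)) ∈ N}
  add_mem' {f f'} hf hf' g := by
    rw [Finsupp.add_apply, map_add]
    exact N.add_mem (hf g) (hf' g)
  zero_mem' g := by
    rw [Finsupp.zero_apply, map_zero]
    exact N.zero_mem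
  smul_mem' c f hf g := by
    rw [Finsupp.smul_apply, map_smul]
    exact N.smul_mem c (hf g)

omit [Finite (G ⧸ P)] in
lemma mem_subI {A : Rep.{0, 0, 0} k G} {N : Submodule k A} {f : (G ⧸ P) →₀ A} :
    f ∈ subI P A N ↔ ∀ g : G, A.ρ g⁻¹ (f (g : G ⧸ P)) ∈ N := Iff.rfl

omit [Finite (G ⧸ P)] in
lemma subI_stable (A : Rep.{0, 0, 0} k G) (N : Submodule k A) (g₀ : G) :
    subI P A N ≤ (subI P A N).comap (dIndρ P A g₀) := by
  intro f hf g
  rw [dIndρ_apply]
  have h1 := hf (g₀⁻¹ * g)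
  have h2 : ((g₀⁻¹ * g : G) : G ⧸ P) = g₀⁻¹ • (g : G ⧸ P) := rfl
  rw [h2, mul_inv_rev, inv_inv, map_mul] at h1
  exact h1

omit [Finite (G ⧸ P)] in
/-- `subI P A N` as a representation of `G`. -/
def subIRep (P : Subgroup G) (A : Rep.{0, 0, 0} k G) (N : Submodule k A) : Rep.{0, 0, 0} k G :=
  Rep.of ((dIndρ P A).subrepresentation (subI P A N) (subI_stable A N))

omit [Finite (G ⧸ P)] in
lemma subIRep_ρ_coe (A : Rep.{0, 0, 0} k G) (N : Submodule k A) (g : G)
    (f : ↥(subI P A N)) :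
    (show ↥(subI P A N) from (subIRep P A N).ρ g f).1 = dIndρ P A g f.1 := rfl

omit [Finite (G ⧸ P)] in
lemma subI_mono (A : Rep.{0, 0, 0} k G) {N N' : Submodule k A} (h : N' ≤ N) :
    subI P A N' ≤ subI P A N := fun _ hf g => h (hf g)

omit [Finite (G ⧸ P)] in
lemma subI_top (A : Rep.{0, 0, 0} k G) : subI P A ⊤ = ⊤ :=
  eq_top_iff.2 fun _ _ _ => Submodule.mem_top

omit [Finite (G ⧸ P)] in
lemma subI_bot (A : Rep.{0, 0, 0} k G) : subI P A ⊥ = ⊥ := by
  rw [eq_bot_iff]
  intro f hf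
  rw [Submodule.mem_bot]
  ext y
  induction y using QuotientGroup.induction_on with
  | H g =>
    have h1 : A.ρ g⁻¹ (f (g : G ⧸ P)) = 0 := (Submodule.mem_bot k).1 (hf g)
    have h2 := congrArg (A.ρ g) h1
    rw [map_zero, ← Module.End.mul_apply, ← map_mul, mul_inv_cancel, map_one,
      Module.End.one_apply] at h2
    rw [h2, Finsupp.zero_apply]

/-! ## The maps `piFull φ` and `theta n₀` -/

section maps

variable (P) (A : Rep.{0, 0, 0} k G)

/-- The trivial representation on `k`. -/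
abbrev trivK (k G : Type) [CommRing k] [Group G] : Rep.{0, 0, 0} k G := Rep.trivial k G k

omit [Finite (G ⧸ P)] in
lemma dIndρ_trivK_apply (g : G) (F : (G ⧸ P) →₀ k) (y : G ⧸ P) :
    dIndρ P (trivK k G) g F y = F (g⁻¹ • y) := by
  rw [dIndρ_apply]
  rfl

/-- `piFull φ f = (x ↦ φ(x̃⁻¹ • f(x)))`, `x̃ = x.out` the chosen representative of `x`. -/
def piFull (φ : A →ₗ[k] k) : ((G ⧸ P) →₀ A) →ₗ[k] ((G ⧸ P) →₀ k) :=
  ((Finsupp.linearEquivFunOnFinite k k (G ⧸ P)).symm : ((G ⧸ P) → k) →ₗ[k] ((G ⧸ P) →₀ k)) ∘ₗ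
    LinearMap.pi (fun x : G ⧸ P => φ ∘ₗ (A.ρ (x.out)⁻¹) ∘ₗ Finsupp.lapply x)

lemma piFull_apply (φ : A →ₗ[k] k) (f : (G ⧸ P) →₀ A) (x : G ⧸ P) :
    piFull P A φ f x = φ (A.ρ (x.out)⁻¹ (f x)) := by
  simp [piFull, Finsupp.linearEquivFunOnFinite]

/-- `theta n₀ F = (x ↦ F(x) • x̃ • n₀)`. -/
def theta (n₀ : A) : ((G ⧸ P) →₀ k) →ₗ[k] ((G ⧸ P) →₀ A) :=
  ((Finsupp.linearEquivFunOnFinite k A (G ⧸ P)).symm : ((G ⧸ P) → A) →ₗ[k] ((G ⧸ P) →₀ A)) ∘ₗ
    LinearMap.pi (fun x : G ⧸ P =>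
      (LinearMap.toSpanSingleton k A (A.ρ x.out n₀)) ∘ₗ Finsupp.lapply x)

lemma theta_apply (n₀ : A) (F : (G ⧸ P) →₀ k) (x : G ⧸ P) :
    theta P A n₀ F x = F x • A.ρ x.out n₀ := by
  simp [theta, Finsupp.linearEquivFunOnFinite]

/-- `piFull φ ∘ theta n₀ = φ(n₀) • id`. -/
lemma piFull_theta (φ : A →ₗ[k] k) (n₀ : A) (F : (G ⧸ P) →₀ k) :
    piFull P A φ (theta P A n₀ F) = φ n₀ • F := by
  ext x
  rw [piFull_apply, theta_apply, map_smul, ← Module.End.mul_apply, ← map_mul, inv_mul_cancel,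
    map_one, Module.End.one_apply, map_smul, Finsupp.smul_apply, smul_eq_mul, smul_eq_mul,
    mul_comm]

lemma piFull_theta_of_eq_one (φ : A →ₗ[k] k) (n₀ : A) (h : φ n₀ = 1) (F : (G ⧸ P) →₀ k) :
    piFull P A φ (theta P A n₀ F) = F := by
  rw [piFull_theta, h, one_smul]

variable {P A}

omit [Finite (G ⧸ P)] in
/-- Two representatives of the same coset differ by an element of `P`. -/
lemma exists_out_eq (g : G) : ∃ h ∈ P, ((g : G ⧸ P)).out = g * h := by
  obtain ⟨h, hh⟩ := QuotientGroup.mk_out_eq_mul P g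
  exact ⟨h.1, h.2, hh⟩

/-- On `subI P A N`, `piFull φ` may be computed with any representative, if `φ` is
`P`-invariant on `N`. -/
lemma piFull_apply_mk {N : Submodule k A} {φ : A →ₗ[k] k}
    (hφ : ∀ h ∈ P, ∀ n ∈ N, φ (A.ρ h n) = φ n) {f : (G ⧸ P) →₀ A} (hf : f ∈ subI P A N)
    (g : G) : piFull P A φ f (g : G ⧸ P) = φ (A.ρ g⁻¹ (f (g : G ⧸ P))) := by
  rw [piFull_apply]
  obtain ⟨h, hh, hout⟩ := exists_out_eq (P := P) g
  rw [hout, mul_inv_rev, map_mul]
  exact hφ h⁻¹ (P.inv_mem hh) _ (hf g)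

/-- `piFull φ` is equivariant on `subI P A N`. -/
lemma piFull_equivariant {N : Submodule k A} {φ : A →ₗ[k] k}
    (hφ : ∀ h ∈ P, ∀ n ∈ N, φ (A.ρ h n) = φ n) {f : (G ⧸ P) →₀ A} (hf : f ∈ subI P A N)
    (g₀ : G) :
    piFull P A φ (dIndρ P A g₀ f) = dIndρ P (trivK k G) g₀ (piFull P A φ f) := by
  ext y
  induction y using QuotientGroup.induction_on with
  | H g =>
    rw [piFull_apply_mk hφ (subI_stable A N g₀ hf) g, dIndρ_trivK_apply, dIndρ_apply]
    have h2 : g₀⁻¹ • (g : G ⧸ P) = ((g₀⁻¹ * g : G) : G ⧸ P) := rfl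
    rw [h2, piFull_apply_mk hφ hf (g₀⁻¹ * g), ← Module.End.mul_apply, ← map_mul, mul_inv_rev,
      inv_inv]

/-- The kernel of `piFull φ` on `subI P A N` is `subI P A (N ⊓ ker φ)`. -/
lemma piFull_eq_zero_iff {N : Submodule k A} {φ : A →ₗ[k] k}
    (hφ : ∀ h ∈ P, ∀ n ∈ N, φ (A.ρ h n) = φ n) {f : (G ⧸ P) →₀ A} (hf : f ∈ subI P A N) :
    piFull P A φ f = 0 ↔ f ∈ subI P A (N ⊓ LinearMap.ker φ) := by
  constructor
  · intro h0 g
    refine ⟨hf g, ?_⟩
    show φ (A.ρ g⁻¹ (f (g : G ⧸ P))) = 0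
    rw [← piFull_apply_mk hφ hf g, h0, Finsupp.zero_apply]
  · intro h
    ext y
    induction y using QuotientGroup.induction_on with
    | H g =>
      rw [piFull_apply_mk hφ hf g, Finsupp.zero_apply]
      exact (h g).2

/-- `theta n₀ F ∈ subI P A N` if `n₀ ∈ N` and `N` is `P`-stable. -/
lemma theta_mem_subI {N : Submodule k A} (hN : ∀ h ∈ P, ∀ n ∈ N, A.ρ h n ∈ N) {n₀ : A}
    (hn₀ : n₀ ∈ N) (F : (G ⧸ P) →₀ k) : theta P A n₀ F ∈ subI P A N := by
  intro g
  rw [theta_apply, map_smul]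
  obtain ⟨h, hh, hout⟩ := exists_out_eq (P := P) g
  rw [hout, ← Module.End.mul_apply, ← map_mul, inv_mul_cancel_left]
  exact N.smul_mem _ (hN h hh _ hn₀)

/-- `theta m₀` is equivariant if `m₀` is fixed by `P`. -/
lemma theta_equivariant {m₀ : A} (hm₀ : ∀ h ∈ P, A.ρ h m₀ = m₀) (g₀ : G)
    (F : (G ⧸ P) →₀ k) :
    theta P A m₀ (dIndρ P (trivK k G) g₀ F) = dIndρ P A g₀ (theta P A m₀ F) := by
  have key : ∀ g : G, A.ρ ((g : G ⧸ P)).out m₀ = A.ρ g m₀ := by
    intro g
    obtain ⟨h, hh, hout⟩ := exists_out_eq (P := P) g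
    rw [hout, map_mul, Module.End.mul_apply, hm₀ h hh]
  ext y
  induction y using QuotientGroup.induction_on with
  | H g =>
    rw [theta_apply, dIndρ_trivK_apply, dIndρ_apply, theta_apply, (A.ρ g₀).map_smul]
    have h2 : g₀⁻¹ • (g : G ⧸ P) = ((g₀⁻¹ * g : G) : G ⧸ P) := rfl
    rw [h2, key g, key (g₀⁻¹ * g), ← Module.End.mul_apply, ← map_mul, mul_inv_cancel_left]

end maps

end Fermat.Agent.S55.H593.Dev

end

end
-- ===== PACK-END S55/H593/Dev/Ind.lean

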