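import Mathlib
import Fermat.Prelude.Def_EllipticCurve_FrobeniusTrace
import Fermat.Prelude.Thm_Algebra_finite_maximalSpectrum_and_bijective_localization_of_module_finite
import Fermat.Prelude.Thm_IsLocalRing_isAdicComplete_of_module_finite
import Fermat.Agent.Pack.S56.E0L1
import Fermat.Agent.Pack.S56.E3L3
import Fermat.Agent.Pack.S56.E1L1
import Fermat.Agent.Pack.S56.E1L2
import Fermat.Agent.Pack.S56.E1L3
import Fermat.Agent.Pack.S56.E1L0
import Fermat.Agent.Pack.S56.E2L0
import Fermat.Agent.Pack.S56.E2L3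
import Fermat.Agent.Pack.S56.E2L1
import Fermat.Agent.Pack.S56.E2L2

-- ===== PACK-BEGIN Lib/Cheb/H476/FrobAt.lean
section





/-!
# CHEB piece F6 (bridge), part 1: Frobenius elements at a GIVEN valuation subring of `ℚ̄`

`exists_frobenius_at`: for every valuation subring `A` of `ℚ̄` over a prime number `ℓ` there is
`σ ∈ Gal(ℚ̄/ℚ)` which is a Frobenius element at `A`, and which satisfies `σ x ≡ x ^ ℓ` modulo
the prime of `ℤ̄` below `A`.

Also: elementwise descriptions of Frobenius elements and of the inertia group.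
-/

set_option autoImplicit false

open scoped Pointwise

namespace Fermat.Agent.Lib.Cheb.H476

open Fermat.Agent.Lib.Cheb.Spec

/-- Frobenius elements exist at every valuation subring of `ℚ̄` over a prime number. -/
theorem exists_frobenius_at (ℓ : ℕ) (hℓ : ℓ.Prime) (A : ValuationSubring Qb)
    (hA : A.LiesOverPrime ℓ) :
    ∃ σ : GQ, A.IsFrobeniusAt σ ℓ ∧
      ∀ x : integralClosure ℤ Qb, σ • x - x ^ ℓ ∈ Fermat.Agent.S54.primeBelow A := by
  have : Algebra.IsAlgebraic ℚ (AlgebraicClosure ℚ) := AlgebraicClosure.isAlgebraic ℚ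
  have := Fermat.Agent.S54.primeBelow_isPrime A
  have hℓQ : (ℓ : integralClosure ℤ (AlgebraicClosure ℚ)) ∈ Fermat.Agent.S54.primeBelow A := by
    rw [Fermat.Agent.S54.mem_primeBelow]
    exact hA
  obtain ⟨σ, hσQ', hσF⟩ :=
    Fermat.Agent.S54.exists_frob_integralClosure ℓ hℓ (Fermat.Agent.S54.primeBelow A) hℓQ
  have hσQ : ∀ x, σ • x ∈ Fermat.Agent.S54.primeBelow A ↔
      x ∈ Fermat.Agent.S54.primeBelow A := by
    intro x
    conv_lhs => rw [← hσQ']
    exact Ideal.smul_mem_pointwise_smul_iff
  have key : ∀ τ : AlgebraicClosure ℚ ≃ₐ[ℚ] AlgebraicClosure ℚ,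
      (∀ x, τ • x ∈ Fermat.Agent.S54.primeBelow A ↔ x ∈ Fermat.Agent.S54.primeBelow A) →
      ∀ x ∈ A, τ x ∈ A := by
    intro τ hτ x hx
    obtain ⟨b, s, hb, hs, hsA, hxs⟩ :=
      (Fermat.Agent.S54.mem_valuationSubring_iff A ℓ hℓ hA x).mp hx
    refine (Fermat.Agent.S54.mem_valuationSubring_iff A ℓ hℓ hA (τ x)).mpr
      ⟨τ b, τ s, hb.map τ, hs.map τ, ?_, ?_⟩
    · exact (hτ ⟨s, hs⟩).not.mpr hsA
    · rw [← map_mul, hxs]
  have hσA : σ ∈ A.decompositionSubgroup ℚ := by
    rw [MulAction.mem_stabilizer_iff]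
    ext x
    rw [ValuationSubring.mem_smul_pointwise_iff_exists]
    constructor
    · rintro ⟨s, hs, rfl⟩
      exact key σ hσQ s hs
    · intro hx
      refine ⟨σ⁻¹ • x, key σ⁻¹ ?_ x hx, by simp⟩
      intro y
      rw [← hσQ (σ⁻¹ • y)]
      simp
  refine ⟨σ, ⟨hσA, ?_⟩, hσF⟩
  intro x
  obtain ⟨a, rfl⟩ := IsLocalRing.residue_surjective x
  obtain ⟨b, s, hb, hs, hsA, hxs⟩ :=
    (Fermat.Agent.S54.mem_valuationSubring_iff A ℓ hℓ hA a).mp a.2
  have hbA : b ∈ A := Fermat.Agent.S54.isIntegral_mem_valuationSubring A hb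
  have hsA' : s ∈ A := Fermat.Agent.S54.isIntegral_mem_valuationSubring A hs
  have hint : ∀ (y : AlgebraicClosure ℚ) (hy : IsIntegral ℤ y),
      (⟨σ, hσA⟩ : A.decompositionSubgroup ℚ) •
        IsLocalRing.residue A ⟨y, Fermat.Agent.S54.isIntegral_mem_valuationSubring A hy⟩ =
      (IsLocalRing.residue A ⟨y, Fermat.Agent.S54.isIntegral_mem_valuationSubring A hy⟩) ^ ℓ := by
    intro y hy
    rw [← IsLocalRing.ResidueField.residue_smul, ← map_pow, ← sub_eq_zero, ← map_sub,
      IsLocalRing.residue_eq_zero_iff, ← ValuationSubring.coe_mem_nonunits_iff]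
    exact hσF ⟨y, hy⟩
  have h1 : IsLocalRing.residue A a * IsLocalRing.residue A ⟨s, hsA'⟩ =
      IsLocalRing.residue A ⟨b, hbA⟩ := by
    rw [← map_mul]
    congr 1
    exact Subtype.ext hxs
  have h2 : IsLocalRing.residue A ⟨s, hsA'⟩ ≠ 0 := by
    rw [Ne, IsLocalRing.residue_eq_zero_iff, ← ValuationSubring.coe_mem_nonunits_iff]
    exact hsA
  have h3 := congrArg (fun z => (⟨σ, hσA⟩ : A.decompositionSubgroup ℚ) • z) h1
  simp only [smul_mul'] at h3
  rw [hint s hs, hint b hb, ← h1, mul_pow] at h3
  exact mul_right_cancel₀ (pow_ne_zero _ h2) h3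

/-- Elements of the inertia group move elements of the valuation ring by nonunits. -/
theorem sub_mem_nonunits_of_mem_inertia (A : ValuationSubring Qb) (ι : GQ)
    (hι : ι ∈ A.inertiaSubgroupIn ℚ) (a : Qb) (ha : a ∈ A) : ι a - a ∈ A.nonunits := by
  obtain ⟨ι', hι', rfl⟩ := hι
  have h1 : ι' • IsLocalRing.residue A ⟨a, ha⟩ = IsLocalRing.residue A ⟨a, ha⟩ := by
    have := congrArg (fun f => f (IsLocalRing.residue A ⟨a, ha⟩)) (MonoidHom.mem_ker.mp hι')
    simpa using this
  rw [← IsLocalRing.ResidueField.residue_smul, ← sub_eq_zero, ← map_sub,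
    IsLocalRing.residue_eq_zero_iff, ← ValuationSubring.coe_mem_nonunits_iff] at h1
  exact h1

end Fermat.Agent.Lib.Cheb.H476

end
-- ===== PACK-END Lib/Cheb/H476/FrobAt.lean

-- ===== PACK-BEGIN S55/T/Spec2.lean
section


/-!
# S55, layer T: interface additions (v2).  Nothing in `Spec.lean` changes.

* `ClassModuleOfCyclicSpec` : bridge from the "numerical" class-module statement produced by
  layers L / G (`H¹(H, C) = 0`, `H²(H, C) ≃+ ZMod |H|` for all `H ≤ G`) to `IsClassModule`.
* `SplitModuleSpec` : the splitting module of a class module (output of the T5a owners, input of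
  T6).
* `NakayamaSpec` : `Hom(lattice, coh. trivial)` is cohomologically trivial (Serre, Local Fields
  IX §5–7), input of T6.
* `LatticeDualitySpec` : elementary duality `Ĥ⁰(G, Hom(R, ℤ)) ≅ Hom(Ĥ⁰(G, R), ℤ/|G|)`.
-/

set_option autoImplicit false

open CategoryTheory groupCohomology

namespace Fermat.Agent.S55.T

/-- **T5d.**  Over `ℤ`: if `H¹(H, C) = 0` and `H²(H, C)` is cyclic of order `|H|` for every
subgroup `H ≤ G`, then EVERY generator `γ` of `H²(G, C)` makes `(C, γ)` a class module; in
particular a fundamental class exists.  (Proof: `cor ∘ res = [G : H]`, i.e. `ResIndexSpec`.) -/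
def ClassModuleOfCyclicSpec : Prop :=
  ∀ (G : Type) [Group G] [Finite G] (C : Rep.{0} ℤ G),
    (∀ H : Subgroup G, Limits.IsZero (groupCohomology (resSub C H) 1)) →
    (∀ H : Subgroup G, Nonempty (groupCohomology (resSub C H) 2 ≃+ ZMod (Nat.card H))) →
    (∃ γ : groupCohomology C 2, IsClassModule C γ) ∧
    (∀ γ : groupCohomology C 2, (∀ x : groupCohomology C 2, ∃ c : ℤ, x = c • γ) →
      IsClassModule C γ)

/-- **T5e.**  Splitting module of a class module `(C, γ)` over `ℤ`: short exact sequences
`0 → C → X → I → 0` and `0 → I → P → ℤ → 0` with `X` and `P` cohomologically trivial. -/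
def SplitModuleSpec : Prop :=
  ∀ (G : Type) [Group G] [Finite G] (C : Rep.{0} ℤ G) (γ : groupCohomology C 2),
    IsClassModule C γ →
    ∃ (X I P : Rep.{0} ℤ G) (i : C ⟶ X) (π : X ⟶ I) (j : I ⟶ P) (ε : P ⟶ Rep.trivial ℤ G ℤ)
      (w₁ : i ≫ π = 0) (w₂ : j ≫ ε = 0),
      (ShortComplex.mk i π w₁).ShortExact ∧ (ShortComplex.mk j ε w₂).ShortExact ∧
      IsCohTriv X ∧ IsCohTriv P

/-- **T6a.**  Nakayama: if `X` is cohomologically trivial and `R` is a `G`-lattice (finitely
generated free over `ℤ`), then `Hom_ℤ(R, X)` is cohomologically trivial. -/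
def NakayamaSpec : Prop :=
  ∀ (G : Type) [Group G] [Finite G] (X R : Rep.{0} ℤ G),
    @Module.Free ℤ R.V _ _ R.hV2 → @Module.Finite ℤ R.V _ _ R.hV2 →
    IsCohTriv X → IsCohTriv ((Rep.ihom R).obj X)

/-- **T6b.**  Elementary lattice duality in degree `0`: for a `G`-lattice `R` and `n = |G|`,
a `G`-invariant `r ∈ R^G` is a norm iff `g r ∈ nℤ` for every `G`-equivariant additive
`g : R → ℤ`; and an equivariant `g : R → ℤ` is a norm `N_G ψ` iff `g (R^G) ⊆ nℤ`. -/
def LatticeDualitySpec : Prop :=
  ∀ (G : Type) [Group G] [Fintype G] (R : Rep.{0} ℤ G),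
    @Module.Free ℤ R.V _ _ R.hV2 → @Module.Finite ℤ R.V _ _ R.hV2 →
    (∀ r : R.V, (∀ g : G, R.ρ g r = r) →
      ((∃ s : R.V, r = ∑ g : G, R.ρ g s) ↔
        ∀ f : R.V →+ ℤ, (∀ (g : G) (x : R.V), f (R.ρ g x) = f x) →
          (Fintype.card G : ℤ) ∣ f r)) ∧
    (∀ f : R.V →+ ℤ, (∀ (g : G) (x : R.V), f (R.ρ g x) = f x) →
      ((∃ ψ : R.V →+ ℤ, ∀ x, f x = ∑ g : G, ψ (R.ρ g⁻¹ x)) ↔
        ∀ r : R.V, (∀ g : G, R.ρ g r = r) → (Fintype.card G : ℤ) ∣ f r))

end Fermat.Agent.S55.T

end
-- ===== PACK-END S55/T/Spec2.lean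

-- ===== PACK-BEGIN S55/Local/H715/Integers.lean
section




/-!
# S55 layer L, piece LF0 : the ring of integers of a local field  (helper715)

`A` complete DVR with finite residue field, `F = Frac A` of characteristic zero, `L / F` finite.
We work with an `A`-algebra structure on `L` compatible with the tower
(`[Algebra A L] [IsScalarTower A F L]`); to apply the results to the instance-free definitions of
`Defs.lean` use

```
letI : Algebra A L := algAL A F L
haveI : IsScalarTower A F L := isScalarTower_algAL A F L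
```

Main results: `integralClosure A L` is a complete discrete valuation ring with finite residue
field, finite over `A`, with fraction field `L`.
-/

set_option autoImplicit false
set_option linter.unusedSectionVars false
set_option linter.style.haveILetI false

namespace Fermat.Agent.S55.Local.H715

open Fermat.Agent.S55.Local IsLocalRing

section Alg

variable (A F : Type) [CommRing A] [Field F] [Algebra A F]
  (L : Type) [Field L] [Algebra F L]

/-- The `A`-algebra structure on `L` (NOT a global instance). -/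
@[reducible] def algAL : Algebra A L := (toL A F L).toAlgebra

lemma isScalarTower_algAL : @IsScalarTower A F L _ _ (algAL A F L).toSMul :=
  letI := algAL A F L
  IsScalarTower.of_algebraMap_eq (fun _ => rfl)

variable [Algebra A L] [IsScalarTower A F L]

lemma toL_eq_algebraMap : toL A F L = algebraMap A L := by
  ext a
  rw [toL_apply, ← IsScalarTower.algebraMap_apply]

lemma isInt_iff (x : L) : IsInt A F L x ↔ IsIntegral A x := by
  unfold IsInt IsIntegral
  rw [toL_eq_algebraMap]

lemma isInt_iff_mem (x : L) : IsInt A F L x ↔ x ∈ integralClosure A L := isInt_iff A F L x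

end Alg

section Integers

variable (A F : Type) [CommRing A] [IsDomain A] [IsDiscreteValuationRing A]
  [IsAdicComplete (IsLocalRing.maximalIdeal A) A] [Finite (IsLocalRing.ResidueField A)]
  [Field F] [CharZero F] [Algebra A F] [IsFractionRing A F]
  (L : Type) [Field L] [Algebra F L] [FiniteDimensional F L]
  [Algebra A L] [IsScalarTower A F L]

include F

lemma isFractionRing_OL : IsFractionRing (integralClosure A L) L :=
  IsIntegralClosure.isFractionRing_of_finite_extension A F L (integralClosure A L)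

lemma finite_OL : Module.Finite A (integralClosure A L) :=
  IsIntegralClosure.finite A F L (integralClosure A L)

lemma isDedekindDomain_OL : IsDedekindDomain (integralClosure A L) :=
  IsIntegralClosure.isDedekindDomain A F L (integralClosure A L)

lemma isNoetherianRing_OL : IsNoetherianRing (integralClosure A L) :=
  haveI := isDedekindDomain_OL A F L
  inferInstance

lemma algebraMap_injective_OL : Function.Injective (algebraMap A (integralClosure A L)) := by
  have h1 : Function.Injective (algebraMap A L) := by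
    rw [IsScalarTower.algebraMap_eq A F L]
    exact (algebraMap F L).injective.comp (IsFractionRing.injective A F)
  intro x y h
  apply h1
  have := congrArg (algebraMap (integralClosure A L) L) h
  simpa [← IsScalarTower.algebraMap_apply] using this

lemma not_isField_OL : ¬ IsField (integralClosure A L) := by
  intro h
  have hint : Algebra.IsIntegral A (integralClosure A L) := inferInstance
  exact IsDiscreteValuationRing.not_isField A
    (isField_of_isIntegral_of_isField (algebraMap_injective_OL A F L) h)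

/-- The ring of integers has a unique maximal ideal. -/
lemma subsingleton_maximalSpectrum_OL : Subsingleton (MaximalSpectrum (integralClosure A L)) := by
  haveI := finite_OL A F L
  obtain ⟨-, hbij, -, -⟩ :=
    Algebra.finite_maximalSpectrum_and_bijective_localization_of_module_finite (𝒪 := A)
      (integralClosure A L)
  classical
  refine ⟨fun I J => ?_⟩
  by_contra hIJ
  obtain ⟨b, hb⟩ := hbij.2 (Pi.single I 1)
  obtain ⟨b', hb'⟩ := hbij.2 (Pi.single J 1)
  have hbb' : b * b' = 0 := by
    apply hbij.1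
    rw [map_mul, hb, hb', map_zero]
    ext K
    simp only [Pi.mul_apply, Pi.zero_apply]
    by_cases hK : K = I
    · subst hK
      rw [Pi.single_eq_of_ne hIJ, mul_zero]
    · rw [Pi.single_eq_of_ne hK, zero_mul]
  rcases mul_eq_zero.1 hbb' with h0 | h0
  · rw [h0, map_zero] at hb
    have := congrFun hb I
    simp at this
  · rw [h0, map_zero] at hb'
    have := congrFun hb' J
    simp at this

lemma isLocalRing_OL : IsLocalRing (integralClosure A L) := by
  haveI := subsingleton_maximalSpectrum_OL A F L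
  obtain ⟨M, hM⟩ := Ideal.exists_maximal (integralClosure A L)
  refine IsLocalRing.of_unique_max_ideal ⟨M, hM, fun J hJ => ?_⟩
  have := Subsingleton.elim (⟨J, hJ⟩ : MaximalSpectrum (integralClosure A L)) ⟨M, hM⟩
  exact congrArg MaximalSpectrum.asIdeal this

lemma isDiscreteValuationRing_OL : IsDiscreteValuationRing (integralClosure A L) := by
  haveI := isLocalRing_OL A F L
  haveI := isNoetherianRing_OL A F L
  exact ((IsDiscreteValuationRing.TFAE (integralClosure A L) (not_isField_OL A F L)).out 0 2).2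
    (isDedekindDomain_OL A F L)

lemma isLocalHom_OL :
    letI := isLocalRing_OL A F L
    IsLocalHom (algebraMap A (integralClosure A L)) := by
  letI := isLocalRing_OL A F L
  have hint : (algebraMap A (integralClosure A L)).IsIntegral :=
    fun x => Algebra.IsIntegral.isIntegral (R := A) x
  exact hint.isLocalHom (algebraMap_injective_OL A F L)

lemma isAdicComplete_OL :
    letI := isLocalRing_OL A F L
    IsAdicComplete (maximalIdeal (integralClosure A L)) (integralClosure A L) := by
  letI := isLocalRing_OL A F L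
  haveI := finite_OL A F L
  haveI := isLocalHom_OL A F L
  exact IsLocalRing.isAdicComplete_of_module_finite (𝒪 := A)

lemma finite_residueField_OL :
    letI := isLocalRing_OL A F L
    Finite (ResidueField (integralClosure A L)) := by
  letI := isLocalRing_OL A F L
  haveI := finite_OL A F L
  haveI := isLocalHom_OL A F L
  have h1 : Finite (A ⧸ maximalIdeal A) := ‹Finite (ResidueField A)›
  have h2 : Finite ((integralClosure A L) ⧸
      (maximalIdeal A • (⊤ : Submodule A (integralClosure A L)))) :=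
    Submodule.finite_quotient_smul (maximalIdeal A) Module.Finite.fg_top
  have hle : (maximalIdeal A • (⊤ : Submodule A (integralClosure A L))).toAddSubgroup ≤
      (maximalIdeal (integralClosure A L)).toAddSubgroup := by
    intro x hx
    have hx' : x ∈ maximalIdeal A • (⊤ : Submodule A (integralClosure A L)) := hx
    refine Submodule.smul_induction_on hx' ?_ ?_
    · intro a ha b _
      show a • b ∈ maximalIdeal (integralClosure A L)
      rw [Algebra.smul_def]
      refine Ideal.mul_mem_right _ _ ?_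
      rw [mem_maximalIdeal, mem_nonunits_iff] at ha ⊢
      exact fun h => ha (isUnit_of_map_unit (algebraMap A (integralClosure A L)) a h)
    · intro x y hx hy
      exact (maximalIdeal (integralClosure A L)).add_mem hx hy
  haveI h3 : Finite ((integralClosure A L) ⧸
      (maximalIdeal A • (⊤ : Submodule A (integralClosure A L))).toAddSubgroup) := h2
  haveI : (maximalIdeal A • (⊤ : Submodule A (integralClosure A L))).toAddSubgroup.FiniteIndex :=
    AddSubgroup.finiteIndex_of_finite_quotient
  haveI : (maximalIdeal (integralClosure A L)).toAddSubgroup.FiniteIndex :=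
    AddSubgroup.finiteIndex_of_le hle
  exact (maximalIdeal (integralClosure A L)).toAddSubgroup.finite_quotient_of_finiteIndex

lemma finite_quotient_OL (I : Ideal (integralClosure A L)) (hI : I ≠ ⊥) :
    Finite ((integralClosure A L) ⧸ I) := by
  letI := isLocalRing_OL A F L
  haveI := isDiscreteValuationRing_OL A F L
  haveI := isNoetherianRing_OL A F L
  haveI := finite_residueField_OL A F L
  rw [IsLocalRing.finite_quotient_iff]
  have key : ∀ (I : Ideal (integralClosure A L)) (_ : I ≠ ⊥),
      ∃ n : ℕ, I = maximalIdeal (integralClosure A L) ^ n :=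
    ((IsDiscreteValuationRing.TFAE (integralClosure A L)
      (not_isField_OL A F L)).out 0 6).1 (isDiscreteValuationRing_OL A F L)
  obtain ⟨n, hn⟩ := key I hI
  exact ⟨n, hn.ge⟩

end Integers

end Fermat.Agent.S55.Local.H715

end
-- ===== PACK-END S55/Local/H715/Integers.lean

-- ===== PACK-BEGIN S55/H783/Natural.lean
section


/-!
# S55 / T-layer (helper783): naturality of the connecting homomorphism under change of groups
-/

set_option autoImplicit false

open CategoryTheory CategoryTheory.Limits groupCohomology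

namespace Fermat.Agent.S55.H783

universe u

variable {k : Type u} [CommRing k] {G₁ G₂ : Type u} [Group G₁] [Group G₂]

/-- The morphism of short complexes of cochain complexes induced by a group homomorphism
`f : G₁ →* G₂` and a morphism of short complexes `Res(f)(X₂) ⟶ X₁`. -/
noncomputable def cochainsMapSC (f : G₁ →* G₂) {X₂ : ShortComplex (Rep k G₂)}
    {X₁ : ShortComplex (Rep k G₁)} (Φ : X₂.map (Rep.resFunctor f) ⟶ X₁) :
    X₂.map (cochainsFunctor k G₂) ⟶ X₁.map (cochainsFunctor k G₁) where
  τ₁ := cochainsMap f Φ.τ₁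
  τ₂ := cochainsMap f Φ.τ₂
  τ₃ := cochainsMap f Φ.τ₃
  comm₁₂ := by
    have h := Φ.comm₁₂
    apply HomologicalComplex.hom_ext
    intro n
    apply ModuleCat.hom_ext
    apply LinearMap.ext
    intro x
    funext g
    exact congrArg (fun φ : (X₂.map (Rep.resFunctor f)).X₁ ⟶ X₁.X₂ => φ.hom (x (f ∘ g))) h
  comm₂₃ := by
    have h := Φ.comm₂₃
    apply HomologicalComplex.hom_ext
    intro n
    apply ModuleCat.hom_ext
    apply LinearMap.ext
    intro x
    funext g
    exact congrArg (fun φ : (X₂.map (Rep.resFunctor f)).X₂ ⟶ X₁.X₃ => φ.hom (x (f ∘ g))) h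

/-- **Naturality of `δ` under change of groups.** -/
theorem δ_naturality_map (f : G₁ →* G₂) {X₂ : ShortComplex (Rep k G₂)}
    {X₁ : ShortComplex (Rep k G₁)} (hX₂ : X₂.ShortExact) (hX₁ : X₁.ShortExact)
    (Φ : X₂.map (Rep.resFunctor f) ⟶ X₁) (i j : ℕ) (hij : i + 1 = j) :
    δ hX₂ i j hij ≫ map f Φ.τ₁ j = map f Φ.τ₃ i ≫ δ hX₁ i j hij :=
  HomologicalComplex.HomologySequence.δ_naturality (cochainsMapSC f Φ)
    (map_cochainsFunctor_shortExact hX₂) (map_cochainsFunctor_shortExact hX₁) i j hij

end Fermat.Agent.S55.H783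

end
-- ===== PACK-END S55/H783/Natural.lean

-- ===== PACK-BEGIN S55/G/DefsRes.lean
section
/-
S55 (Poitou–Tate), layer G — DEFINITIONS, part 3: change of the set `S`.
Sub-architect: helper421.   Mathlib + `Defs.lean` only.  No `sorry`.

For `S ⊆ S'`:
* `QS.res h : QS S' →ₐ[ℚ] QS S`                 (projection `ℚ_{S'} → ℚ_S`);
* `asRes h L : AS S' L →ₐ[ℚ] AS S L`,  `jRes h L : J_{S'}(L) → J_S(L)` (additively), equivariant;
* `primeOutIncl h L : PrimeOut S' L → PrimeOut S L`,  `divIncl h L : Div^{S'}(L) → Div^S(L)`, equivariant.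
-/


set_option autoImplicit false
set_option linter.unusedSectionVars false

open scoped NumberField TensorProduct
open IsDedekindDomain CategoryTheory

noncomputable section

namespace Fermat.Agent.S55.G

section Res

variable {S S' : Finset Nat.Primes} (h : S ⊆ S')

/-- The projection `ℚ_{S'} → ℚ_S` for `S ⊆ S'`. -/
def QS.res : QS S' →ₐ[ℚ] QS S where
  toFun x := fun q : S => QS.toPi S' x ⟨q.1, h q.2⟩
  map_one' := rfl
  map_mul' _ _ := rfl
  map_zero' := rfl
  map_add' _ _ := rfl
  commutes' _ := rfl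

@[simp] lemma QS.res_apply (x : QS S') (q : S) :
    QS.toPi S (QS.res h x) q = QS.toPi S' x ⟨q.1, h q.2⟩ := rfl

variable (L : Type) [Field L] [CharZero L]

/-- The projection `𝔸_{S'}(L) → 𝔸_S(L)` for `S ⊆ S'`. -/
def asRes : AS S' L →ₐ[ℚ] AS S L :=
  Algebra.TensorProduct.map (AlgHom.id ℚ L) (QS.res h)

@[simp] lemma asRes_tmul (x : L) (y : QS S') :
    asRes h L (x ⊗ₜ[ℚ] y) = x ⊗ₜ[ℚ] QS.res h y := by
  simp [asRes]

lemma asRes_asDiag (x : L) : asRes h L (asDiag S' L x) = asDiag S L x := by
  simp [map_one]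

/-- The projection `J_{S'}(L) → J_S(L)` for `S ⊆ S'`, additively. -/
def jRes : Additive (AS S' L)ˣ →+ Additive (AS S L)ˣ :=
  MonoidHom.toAdditive (Units.map ((asRes h L : AS S' L →ₐ[ℚ] AS S L) : AS S' L →* AS S L))

lemma coe_jRes_apply (y : Additive (AS S' L)ˣ) :
    (((jRes h L y).toMul : (AS S L)ˣ) : AS S L) =
      asRes h L ((y.toMul : (AS S' L)ˣ) : AS S' L) := rfl

lemma jRes_unitsDiag (x : Additive Lˣ) : jRes h L (unitsDiag S' L x) = unitsDiag S L x := by
  apply Additive.toMul.injective
  apply Units.ext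
  change asRes h L (asDiag S' L _) = asDiag S L _
  rw [asRes_asDiag]

variable (G : Type) [Group G] [MulSemiringAction G L]

lemma asRes_asAut (g : G) (y : AS S' L) :
    asRes h L (asAut S' G L g y) = asAut S G L g (asRes h L y) := by
  induction y using TensorProduct.induction_on with
  | zero => simp
  | tmul a b => simp
  | add a b ha hb => simp only [map_add, ha, hb]

lemma jRes_equivariant (g : G) (y : Additive (AS S' L)ˣ) :
    jRes h L (jRepr G S' L g y) = jRepr G S L g (jRes h L y) := by
  apply Additive.toMul.injective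
  apply Units.ext
  change asRes h L (asAut S' G L g _) = asAut S G L g (asRes h L _)
  rw [asRes_asAut]

end Res

section DivIncl

variable {S S' : Finset Nat.Primes} (h : S ⊆ S') (G L : Type) [Group G] [Field L]
  [NumberField L] [MulSemiringAction G L]

include h in
lemma not_isAbove_of_subset {w : HeightOneSpectrum (𝓞 L)} (hw : ¬ IsAbove S' L w) :
    ¬ IsAbove S L w := fun ⟨q, hq, hmem⟩ => hw ⟨q, h hq, hmem⟩

/-- A prime not above `S'` is not above `S ⊆ S'`. -/
def primeOutIncl (w : PrimeOut S' L) : PrimeOut S L := ⟨w.1, not_isAbove_of_subset h L w.2⟩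

lemma primeOutIncl_injective : Function.Injective (primeOutIncl h L) := fun a b hab =>
  Subtype.ext (show a.1 = b.1 from congrArg (fun w : PrimeOut S L => w.1) hab)

lemma primeOutIncl_primeOutMap (g : G) (w : PrimeOut S' L) :
    primeOutIncl h L (primeOutMap S' G L g w) = primeOutMap S G L g (primeOutIncl h L w) := rfl

/-- The inclusion `Div^{S'}(L) → Div^S(L)` for `S ⊆ S'`. -/
def divIncl : (PrimeOut S' L →₀ ℤ) →+ (PrimeOut S L →₀ ℤ) :=
  (Finsupp.mapDomain.addMonoidHom (primeOutIncl h L))

@[simp] lemma divIncl_single (w : PrimeOut S' L) (n : ℤ) :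
    divIncl h L (Finsupp.single w n) = Finsupp.single (primeOutIncl h L w) n := by
  simp [divIncl]

lemma divIncl_apply (d : PrimeOut S' L →₀ ℤ) (w : PrimeOut S' L) :
    divIncl h L d (primeOutIncl h L w) = d w :=
  Finsupp.mapDomain_apply (primeOutIncl_injective h L) d w

lemma divIncl_equivariant (g : G) (d : PrimeOut S' L →₀ ℤ) :
    divIncl h L (divRepr S' G L g d) = divRepr S G L g (divIncl h L d) := by
  induction d using Finsupp.induction_linear with
  | zero => simp
  | add a b ha hb => simp only [map_add, ha, hb]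
  | single w n =>
    rw [divRepr_single, divIncl_single, divIncl_single, divRepr_single,
      primeOutIncl_primeOutMap]

end DivIncl

end Fermat.Agent.S55.G

end
end
-- ===== PACK-END S55/G/DefsRes.lean

-- ===== PACK-BEGIN S55/H604/SUnitFinite.lean
section


/-!
# S55 / HQU (B): finiteness — `logS` has finite fibres over bounded sets
-/

set_option autoImplicit false

open NumberField IsDedekindDomain

namespace Fermat.Agent.S55.H604

variable {L : Type*} [Field L] [NumberField L]

/-- the absolute norm of `v` has `v`-adic absolute value at most `1/2`. -/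
lemma finitePlace_mk_absNorm_le (v : HeightOneSpectrum (𝓞 L)) :
    FinitePlace.mk v ((Ideal.absNorm v.asIdeal : ℕ) : L) ≤ 1 / 2 := by
  set N : ℕ := Ideal.absNorm v.asIdeal with hN
  have hN2 : 2 ≤ N := NumberField.HeightOneSpectrum.one_lt_absNorm v
  have hmem : ((N : ℕ) : 𝓞 L) ∈ v.asIdeal := Ideal.absNorm_mem v.asIdeal
  have hne : ((N : ℕ) : 𝓞 L) ≠ 0 := by
    have : (N : 𝓞 L) = ((N : ℤ) : 𝓞 L) := by push_cast; rfl
    rw [this]
    intro h
    have := (FaithfulSMul.algebraMap_injective ℤ (𝓞 L)) (by simpa using h : algebraMap ℤ (𝓞 L) (N : ℤ) = algebraMap ℤ (𝓞 L) 0)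
    omega
  have h1 := FinitePlace.apply_mul_absNorm_pow_eq_one (FinitePlace.mk v) hne
  rw [FinitePlace.maximalIdeal_mk] at h1
  have hcast : ((((N : ℕ) : 𝓞 L) : L)) = ((N : ℕ) : L) := by simp
  rw [hcast] at h1
  have hm : 1 ≤ multiplicity v.asIdeal (Ideal.span {((N : ℕ) : 𝓞 L)}) := by
    have hdvd : v.asIdeal ∣ Ideal.span {((N : ℕ) : 𝓞 L)} := by
      rw [Ideal.dvd_span_singleton]
      exact hmem
    have hfin : FiniteMultiplicity v.asIdeal (Ideal.span {((N : ℕ) : 𝓞 L)}) := by
      apply FiniteMultiplicity.of_not_isUnit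
      · exact fun h => v.isPrime.ne_top (Ideal.isUnit_iff.1 h)
      · simpa using hne
    exact hfin.le_multiplicity_of_pow_dvd (by simpa using hdvd)
  set m := multiplicity v.asIdeal (Ideal.span {((N : ℕ) : 𝓞 L)}) with hmdef
  have hNpos : (0 : ℝ) < N := by positivity
  have hNm : (2 : ℝ) ≤ (N : ℝ) ^ m := by
    calc (2 : ℝ) ≤ N := by exact_mod_cast hN2
      _ = (N : ℝ) ^ 1 := (pow_one _).symm
      _ ≤ (N : ℝ) ^ m := pow_le_pow_right₀ (by exact_mod_cast (by omega : 1 ≤ N)) hm
  have hval : FinitePlace.mk v ((N : ℕ) : L) = 1 / (N : ℝ) ^ m := by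
    rw [eq_div_iff (by positivity)]
    exact h1
  rw [hval]
  exact one_div_le_one_div_of_le (by norm_num) hNm


/-- natural numbers have finite absolute values `≤ 1`. -/
lemma finitePlace_mk_natCast_le_one (v : HeightOneSpectrum (𝓞 L)) (n : ℕ) :
    FinitePlace.mk v (n : L) ≤ 1 := by
  rw [FinitePlace.mk_apply, FinitePlace.norm_embedding]
  exact NumberField.HeightOneSpectrum.adicAbv_natCast_le_one L v n

variable (S : Finset (HeightOneSpectrum (𝓞 L)))

/-- the clearing denominator `d = (∏_{v ∈ S} N v)^k`. -/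
noncomputable def clearDenom (k : ℕ) : ℕ := (∏ v ∈ S, Ideal.absNorm v.asIdeal) ^ k

lemma clearDenom_ne_zero (k : ℕ) : clearDenom S k ≠ 0 := by
  unfold clearDenom
  refine pow_ne_zero _ (Finset.prod_ne_zero_iff.2 fun v _ => ?_)
  have := NumberField.HeightOneSpectrum.one_lt_absNorm v
  omega

lemma finitePlace_mk_clearDenom_le {v : HeightOneSpectrum (𝓞 L)} (hv : v ∈ S) (k : ℕ) :
    FinitePlace.mk v ((clearDenom S k : ℕ) : L) ≤ (1 / 2) ^ k := by
  classical
  unfold clearDenom
  rw [Nat.cast_pow, map_pow]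
  refine pow_le_pow_left₀ (apply_nonneg _ _) ?_ k
  rw [← Finset.mul_prod_erase S _ hv, Nat.cast_mul, map_mul]
  calc FinitePlace.mk v ((Ideal.absNorm v.asIdeal : ℕ) : L) *
        FinitePlace.mk v ((∏ x ∈ S.erase v, Ideal.absNorm x.asIdeal : ℕ) : L)
      ≤ (1 / 2) * 1 := by
        refine mul_le_mul (finitePlace_mk_absNorm_le v) (finitePlace_mk_natCast_le_one v _)
          (apply_nonneg _ _) (by norm_num)
    _ = 1 / 2 := mul_one _

variable (L)

/-- **(B2)+(B3)** only finitely many `S`-units have all logarithmic coordinates bounded by `r`.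
In particular `logS` has finite kernel and discrete image. -/
theorem finite_logS_le (r : ℝ) :
    {x : Additive (SUnit L S) | ∀ t, |logS L S x t| ≤ r}.Finite := by
  classical
  obtain ⟨k, hk⟩ : ∃ k : ℕ, Real.exp r ≤ 2 ^ k := by
    obtain ⟨k, hk⟩ := pow_unbounded_of_one_lt (Real.exp r) (by norm_num : (1 : ℝ) < 2)
    exact ⟨k, hk.le⟩
  set d : ℕ := clearDenom S k with hd
  have hd0 : (d : L) ≠ 0 := Nat.cast_ne_zero.2 (clearDenom_ne_zero S k)
  set B : ℝ := d * Real.exp r with hB
  have hfin := Embeddings.finite_of_norm_le L ℂ B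
  let f : Additive (SUnit L S) → L := fun x => (d : L) * (((Additive.toMul x : SUnit L S) : Lˣ) : L)
  have hf : Function.Injective f := by
    intro x y hxy
    have h1 : (((Additive.toMul x : SUnit L S) : Lˣ) : L) =
        (((Additive.toMul y : SUnit L S) : Lˣ) : L) := mul_left_cancel₀ hd0 hxy
    have h2 : (Additive.toMul x : SUnit L S) = Additive.toMul y :=
      Subtype.ext (Units.ext h1)
    exact Additive.toMul.injective h2
  refine (hfin.preimage hf.injOn).subset ?_
  intro x hx
  simp only [Set.mem_ofPred_eq] at hx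
  set y : SUnit L S := Additive.toMul x with hy
  have hy0 : ((y : Lˣ) : L) ≠ 0 := Units.ne_zero _
  simp only [Set.mem_preimage, Set.mem_ofPred_eq, f]
  constructor
  · -- integrality
    have hmem : (d : L) * ((y : Lˣ) : L) ∈ (algebraMap (𝓞 L) L).range := by
      refine HeightOneSpectrum.mem_integers_of_valuation_le_one L _ fun v => ?_
      rw [← finitePlace_mk_le_one_iff]
      rw [map_mul]
      by_cases hv : v ∈ S
      · have h1 := finitePlace_mk_clearDenom_le S hv k
        have h2 : FinitePlace.mk v ((y : Lˣ) : L) ≤ Real.exp r := by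
          have h3 := hx (Sum.inr ⟨v, hv⟩)
          rw [logS_apply, logComp_inr] at h3
          have h4 := (abs_le.1 h3).2
          calc FinitePlace.mk v ((y : Lˣ) : L)
              = Real.exp (Real.log (FinitePlace.mk v ((y : Lˣ) : L))) :=
                (Real.exp_log (finitePlace_mk_pos v hy0)).symm
            _ ≤ Real.exp r := Real.exp_le_exp.2 h4
        calc FinitePlace.mk v ((d : ℕ) : L) * FinitePlace.mk v ((y : Lˣ) : L)
            ≤ (1 / 2) ^ k * 2 ^ k :=
              mul_le_mul h1 (h2.trans hk) (apply_nonneg _ _) (by positivity)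
          _ = 1 := by rw [← mul_pow]; norm_num
      · rw [sUnit_finitePlace_eq_one y hv, mul_one]
        exact finitePlace_mk_natCast_le_one v d
    obtain ⟨z, hz⟩ := hmem
    rw [← hz]
    exact z.isIntegral_coe
  · intro φ
    rw [map_mul, norm_mul, map_natCast, Complex.norm_natCast, hB]
    refine mul_le_mul_of_nonneg_left ?_ (Nat.cast_nonneg _)
    have h3 := hx (Sum.inl (InfinitePlace.mk φ))
    rw [logS_apply, logComp_inl] at h3
    have h4 := (abs_le.1 h3).2
    have hpos : 0 < (InfinitePlace.mk φ) ((y : Lˣ) : L) :=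
      (InfinitePlace.pos_iff).2 hy0
    rw [← InfinitePlace.apply φ]
    by_cases hlog : Real.log ((InfinitePlace.mk φ) ((y : Lˣ) : L)) ≤ 0
    · calc (InfinitePlace.mk φ) ((y : Lˣ) : L)
          = Real.exp (Real.log ((InfinitePlace.mk φ) ((y : Lˣ) : L))) := (Real.exp_log hpos).symm
        _ ≤ Real.exp 0 := Real.exp_le_exp.2 hlog
        _ ≤ Real.exp r := Real.exp_le_exp.2 ((abs_nonneg _).trans h3)
    · push Not at hlog
      have h5 : Real.log ((InfinitePlace.mk φ) ((y : Lˣ) : L)) ≤ r := by
        calc Real.log ((InfinitePlace.mk φ) ((y : Lˣ) : L))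
            = 1 * Real.log ((InfinitePlace.mk φ) ((y : Lˣ) : L)) := (one_mul _).symm
          _ ≤ ((InfinitePlace.mk φ).mult : ℝ) * Real.log ((InfinitePlace.mk φ) ((y : Lˣ) : L)) :=
              mul_le_mul_of_nonneg_right InfinitePlace.one_le_mult hlog.le
          _ ≤ r := h4
      calc (InfinitePlace.mk φ) ((y : Lˣ) : L)
          = Real.exp (Real.log ((InfinitePlace.mk φ) ((y : Lˣ) : L))) := (Real.exp_log hpos).symm
        _ ≤ Real.exp r := Real.exp_le_exp.2 h5

end Fermat.Agent.S55.H604

end
-- ===== PACK-END S55/H604/SUnitFinite.lean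

-- ===== PACK-BEGIN S55/G/DescH773/Base.lean
section
/-
S55 (Poitou–Tate), layer G, leaf G-DESC (helper773): base change maps for an extension of
number fields `L/K`:

* `asBase   : K ⊗ ℚ_S →ₐ[ℚ] L ⊗ ℚ_S`;
* `lBase    : Kˣ → Lˣ`,  `jBase : J_S(K) → J_S(L)`;
* `primeUnder`, `primeOutUnder` : primes of `L` (outside `S`) → primes of `K` (outside `S`);
* `eAt w`   : the ramification index of `w` over `K`;
* `divBase  : Div^S(K) → Div^S(L)`,  `(divBase d) w = e(w) * d (w ∩ K)`;
* `jdBase`, `cBase : C_S(K) → C_S(L)`.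

(complete proofs)
-/


set_option autoImplicit false
set_option linter.unusedSectionVars false

open scoped NumberField TensorProduct
open IsDedekindDomain

noncomputable section

namespace Fermat.Agent.S55.G.DescH773

open Fermat.Agent.S55.G

/-! ## 1. Adèles and units -/

section Units

variable (S : Finset Nat.Primes) (K L : Type) [Field K] [CharZero K] [Field L] [CharZero L]
  [Algebra K L]

/-- The inclusion `K → L` as a `ℚ`-algebra homomorphism. -/
def fieldBase : K →ₐ[ℚ] L := (algebraMap K L).toRatAlgHom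

@[simp] lemma fieldBase_apply (x : K) : fieldBase K L x = algebraMap K L x := rfl

/-- The base change map `K ⊗ ℚ_S → L ⊗ ℚ_S`. -/
def asBase : AS S K →ₐ[ℚ] AS S L :=
  Algebra.TensorProduct.map (fieldBase K L) (AlgHom.id ℚ (QS S))

@[simp] lemma asBase_tmul (x : K) (y : QS S) :
    asBase S K L (x ⊗ₜ[ℚ] y) = (algebraMap K L x) ⊗ₜ[ℚ] y := by
  simp [asBase]

lemma asBase_asDiag (x : K) : asBase S K L (asDiag S K x) = asDiag S L (algebraMap K L x) := by
  simp

/-- `Kˣ → Lˣ`, additively. -/
def lBase : Additive Kˣ →+ Additive Lˣ :=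
  MonoidHom.toAdditive (Units.map ((algebraMap K L : K →+* L) : K →* L))

lemma coe_lBase_apply (x : Additive Kˣ) :
    (((lBase K L x).toMul : Lˣ) : L) = algebraMap K L ((x.toMul : Kˣ) : K) := rfl

lemma lBase_injective : Function.Injective (lBase K L) := by
  intro x y h
  apply Additive.toMul.injective
  apply Units.ext
  apply (algebraMap K L).injective
  have := congrArg (fun z : Additive Lˣ => ((z.toMul : Lˣ) : L)) h
  simpa only [coe_lBase_apply] using this

/-- `J_S(K) → J_S(L)`, additively. -/
def jBase : Additive (AS S K)ˣ →+ Additive (AS S L)ˣ :=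
  MonoidHom.toAdditive (Units.map ((asBase S K L : AS S K →ₐ[ℚ] AS S L) : AS S K →* AS S L))

lemma coe_jBase_apply (x : Additive (AS S K)ˣ) :
    (((jBase S K L x).toMul : (AS S L)ˣ) : AS S L) =
      asBase S K L ((x.toMul : (AS S K)ˣ) : AS S K) := rfl

lemma jBase_unitsDiag (x : Additive Kˣ) :
    jBase S K L (unitsDiag S K x) = unitsDiag S L (lBase K L x) := by
  apply Additive.toMul.injective
  apply Units.ext
  rw [coe_jBase_apply, coe_unitsDiag_apply, coe_unitsDiag_apply, coe_lBase_apply, asBase_asDiag]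

end Units

/-! ## 2. Primes -/

section Primes

variable (S : Finset Nat.Primes) (K L : Type) [Field K] [NumberField K] [Field L] [NumberField L]
  [Algebra K L]


variable {L} in
/-- The prime of `K` below a finite prime `w` of `L`. -/
def primeUnder (w : HeightOneSpectrum (𝓞 L)) : HeightOneSpectrum (𝓞 K) where
  asIdeal := w.asIdeal.under (𝓞 K)
  isPrime := inferInstance
  ne_bot := Ideal.under_ne_bot (𝓞 K) w.ne_bot

variable {L} in
instance primeUnder_liesOver (w : HeightOneSpectrum (𝓞 L)) :
    w.asIdeal.LiesOver (primeUnder K w).asIdeal := ⟨rfl⟩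

variable {L} in
lemma mem_primeUnder_iff (w : HeightOneSpectrum (𝓞 L)) (x : 𝓞 K) :
    x ∈ (primeUnder K w).asIdeal ↔ algebraMap (𝓞 K) (𝓞 L) x ∈ w.asIdeal := Iff.rfl

variable {L} in
lemma isAbove_primeUnder_iff (w : HeightOneSpectrum (𝓞 L)) :
    IsAbove S K (primeUnder K w) ↔ IsAbove S L w := by
  unfold IsAbove
  simp only [mem_primeUnder_iff, map_natCast]

/-- The prime of `K` outside `S` below a prime of `L` outside `S`. -/
def primeOutUnder (w : PrimeOut S L) : PrimeOut S K :=
  ⟨primeUnder K w.1, fun h => w.2 ((isAbove_primeUnder_iff S K w.1).1 h)⟩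

lemma primeOutUnder_val (w : PrimeOut S L) : (primeOutUnder S K L w).1 = primeUnder K w.1 := rfl

variable {K} in
lemma exists_primeUnder_eq (v : HeightOneSpectrum (𝓞 K)) :
    ∃ w : HeightOneSpectrum (𝓞 L), primeUnder K w = v := by
  obtain ⟨Q, hQ, hQv⟩ := Ideal.exists_maximal_ideal_liesOver_of_isIntegral (S := 𝓞 L) v.asIdeal
  have hQ0 : Q ≠ ⊥ := Ideal.ne_bot_of_liesOver_of_ne_bot v.ne_bot Q
  refine ⟨⟨Q, hQ.isPrime, hQ0⟩, ?_⟩
  apply HeightOneSpectrum.ext
  exact (hQv.over).symm

lemma primeOutUnder_surjective : Function.Surjective (primeOutUnder S K L) := by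
  intro v
  obtain ⟨w, hw⟩ := exists_primeUnder_eq L v.1
  refine ⟨⟨w, fun h => v.2 ?_⟩, Subtype.ext hw⟩
  rw [← hw]
  exact (isAbove_primeUnder_iff S K w).2 h

variable {K} in
lemma primeUnder_fiber_finite (v : HeightOneSpectrum (𝓞 K)) :
    {w : HeightOneSpectrum (𝓞 L) | primeUnder K w = v}.Finite := by
  have h1 : (Ideal.primesOver v.asIdeal (𝓞 L)).Finite := by
    rw [← IsDedekindDomain.coe_primesOverFinset v.ne_bot]
    exact Finset.finite_toSet _
  refine Set.Finite.of_finite_image (f := fun w => w.asIdeal) (h1.subset ?_) ?_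
  · rintro _ ⟨w, hw, rfl⟩
    refine ⟨w.isPrime, ?_⟩
    rw [← (show primeUnder K w = v from hw)]
    infer_instance
  · intro a _ b _ h
    exact HeightOneSpectrum.ext h

lemma primeOutUnder_fiber_finite (v : PrimeOut S K) :
    {w : PrimeOut S L | primeOutUnder S K L w = v}.Finite := by
  refine Set.Finite.of_finite_image (f := Subtype.val)
    ((primeUnder_fiber_finite L v.1).subset ?_) Subtype.val_injective.injOn
  rintro _ ⟨w, hw, rfl⟩
  exact congrArg Subtype.val hw

end Primes

/-! ## 3. Ramification indices, the order maps and divisors -/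

section Ord

variable (S : Finset Nat.Primes) (K L : Type) [Field K] [NumberField K] [Field L] [NumberField L]
  [Algebra K L]

variable {L} in
/-- The ramification index of the finite prime `w` of `L` over `K`. -/
def eAt (w : HeightOneSpectrum (𝓞 L)) : ℕ :=
  Ideal.ramificationIdx' (primeUnder K w).asIdeal w.asIdeal

variable {L} in
lemma eAt_ne_zero (w : HeightOneSpectrum (𝓞 L)) : eAt K w ≠ 0 :=
  Ideal.IsDedekindDomain.ramificationIdx'_ne_zero_of_liesOver w.asIdeal (primeUnder K w).ne_bot

variable {L} in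
lemma valuation_algebraMap (w : HeightOneSpectrum (𝓞 L)) (x : K) :
    w.valuation L (algebraMap K L x) = (primeUnder K w).valuation K x ^ eAt K w :=
  (HeightOneSpectrum.valuation_liesOver L (primeUnder K w) w x).symm

variable {L} in
/-- `ord_w(x) = e(w) · ord_v(x)` for `x ∈ Kˣ`, `v = w ∩ K`. -/
lemma ordAt_lBase (w : HeightOneSpectrum (𝓞 L)) (x : Additive Kˣ) :
    ordAt w (lBase K L x) = (eAt K w : ℤ) * ordAt (primeUnder K w) x := by
  rw [ordAt_apply, ordAt_apply, coe_lBase_apply, valuation_algebraMap, WithZero.log_pow]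
  simp

/-- The base change of divisors `Div^S(K) → Div^S(L)`: `(divBase d) w = e(w) · d (w ∩ K)`,
i.e. `[v] ↦ ∑_{w | v} e(w|v) [w]`. -/
def divBase : (PrimeOut S K →₀ ℤ) →+ (PrimeOut S L →₀ ℤ) where
  toFun d := Finsupp.ofSupportFinite
    (fun w : PrimeOut S L => (eAt K w.1 : ℤ) * d (primeOutUnder S K L w)) (by
      refine ((d.support.finite_toSet).biUnion
        (fun v _ => primeOutUnder_fiber_finite S K L v)).subset ?_
      intro w hw
      simp only [Function.mem_support, ne_eq, mul_eq_zero, not_or] at hw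
      simp only [Set.mem_iUnion, Set.mem_ofPred_eq, Finset.mem_coe, Finsupp.mem_support_iff]
      exact ⟨primeOutUnder S K L w, hw.2, rfl⟩)
  map_zero' := by
    ext w
    simp [Finsupp.ofSupportFinite_coe]
  map_add' x y := by
    ext w
    simp [Finsupp.ofSupportFinite_coe, mul_add]

@[simp] lemma divBase_apply (d : PrimeOut S K →₀ ℤ) (w : PrimeOut S L) :
    divBase S K L d w = (eAt K w.1 : ℤ) * d (primeOutUnder S K L w) := rfl

lemma divBase_ordHom (x : Additive Kˣ) :
    divBase S K L (ordHom S K x) = ordHom S L (lBase K L x) := by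
  ext w
  rw [divBase_apply, ordHom_apply, ordHom_apply, ordAt_lBase, primeOutUnder_val]

lemma divBase_injective : Function.Injective (divBase S K L) := by
  rw [injective_iff_map_eq_zero]
  intro d hd
  ext v
  obtain ⟨w, rfl⟩ := primeOutUnder_surjective S K L v
  have := DFunLike.congr_fun hd w
  rw [divBase_apply, Finsupp.zero_apply, mul_eq_zero] at this
  rcases this with h | h
  · exact absurd (by exact_mod_cast h) (eAt_ne_zero K w.1)
  · simpa using h

end Ord

/-! ## 4. The class group -/

section ClassGroup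

variable (S : Finset Nat.Primes) (K L : Type) [Field K] [NumberField K] [Field L] [NumberField L]
  [Algebra K L]

/-- The base change `J_S(K) × Div^S(K) → J_S(L) × Div^S(L)`. -/
def jdBase : JD S K →+ JD S L := (jBase S K L).prodMap (divBase S K L)

@[simp] lemma jdBase_fst (y : JD S K) : (jdBase S K L y).1 = jBase S K L y.1 := rfl

@[simp] lemma jdBase_snd (y : JD S K) : (jdBase S K L y).2 = divBase S K L y.2 := rfl

lemma jdBase_diagHom (x : Additive Kˣ) :
    jdBase S K L (diagHom S K x) = diagHom S L (lBase K L x) :=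
  Prod.ext (jBase_unitsDiag S K L x) (divBase_ordHom S K L x)

lemma principal_le_comap_jdBase :
    principal S K ≤ (principal S L).comap (jdBase S K L).toIntLinearMap := by
  rintro _ ⟨x, rfl⟩
  exact ⟨lBase K L x, (jdBase_diagHom S K L x).symm⟩

/-- The base change map on `S`-idèle class groups `C_S(K) → C_S(L)`. -/
def cBaseₗ : CS S K →ₗ[ℤ] CS S L :=
  (principal S K).mapQ (principal S L) (jdBase S K L).toIntLinearMap
    (principal_le_comap_jdBase S K L)

/-- The base change map on `S`-idèle class groups `C_S(K) → C_S(L)`. -/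
def cBase : CS S K →+ CS S L := (cBaseₗ S K L).toAddMonoidHom

@[simp] lemma cBase_mk (y : JD S K) :
    cBase S K L (Submodule.Quotient.mk y) = Submodule.Quotient.mk (jdBase S K L y) := rfl

end ClassGroup

/-! ## 5. The representations on representatives -/

section Rep

variable (S : Finset Nat.Primes) (G L : Type) [Group G] [Field L] [NumberField L]
  [MulSemiringAction G L]

lemma jdRepr_apply (g : G) (y : JD S L) :
    jdRepr S G L g y = (jRepr G S L g y.1, divRepr S G L g y.2) := rfl

lemma cRepr_mk (g : G) (y : JD S L) :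
    cRepr S G L g (Submodule.Quotient.mk y) = Submodule.Quotient.mk (jdRepr S G L g y) := rfl

end Rep

end Fermat.Agent.S55.G.DescH773

end
end
-- ===== PACK-END S55/G/DescH773/Base.lean

-- ===== PACK-BEGIN S14/H163/ZetaIdeal.lean
section



/-!
# Ideal-indexed Dirichlet series of a number field (helper163, S14 density block)
-/

set_option autoImplicit false
set_option linter.unusedSectionVars false

namespace Fermat.Agent.S14.H163

open NumberField IsDedekindDomain Filter Topology
open scoped nonZeroDivisors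

variable (K : Type*) [Field K] [NumberField K]

theorem countable_ideal : Countable (Ideal (𝓞 K)) := by
  have h : (Set.univ : Set (Ideal (𝓞 K))) = ⋃ n : ℕ, {I | Ideal.absNorm I = n} := by
    ext I
    simp
  have hc : (Set.univ : Set (Ideal (𝓞 K))).Countable := by
    rw [h]
    exact Set.countable_iUnion fun n => (Ideal.finite_setOfPred_absNorm_eq n).countable
  exact Set.countable_univ_iff.mp hc

theorem exists_coding : ∃ c : Ideal (𝓞 K) → ℕ, Function.Injective c ∧ ∀ I, (c I).Prime := by
  haveI := countable_ideal K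
  obtain ⟨e, he⟩ := exists_injective_nat (Ideal (𝓞 K))
  refine ⟨fun I => Nat.nth Nat.Prime (e I), ?_, fun I => Nat.prime_nth_prime _⟩
  exact (Nat.nth_injective Nat.infinite_setOfPred_prime).comp he

variable {K}

/-- **Euler product** for a monoid homomorphism on the nonzero ideals of `𝓞 K` whose norms are
summable. -/
theorem hasProd_ideal {𝔽 : Type*} [NormedField 𝔽] [CompleteSpace 𝔽]
    (F : (Ideal (𝓞 K))⁰ →* 𝔽) (hsum : Summable (fun I : (Ideal (𝓞 K))⁰ => ‖F I‖)) :
    HasProd (fun v : HeightOneSpectrum (𝓞 K) => (1 - F (toI0 v))⁻¹)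
      (∑' I : (Ideal (𝓞 K))⁰, F I) := by
  obtain ⟨c, hinj, hc⟩ := exists_coding K
  exact hasProd_of_coding F hinj hc hsum

/-- The norm of a nonzero ideal is a positive natural number. -/
theorem absNorm_pos (I : (Ideal (𝓞 K))⁰) : 0 < Ideal.absNorm (I : Ideal (𝓞 K)) := by
  rw [Nat.pos_iff_ne_zero, Ne, Ideal.absNorm_eq_zero_iff]
  exact nonZeroDivisors.ne_zero I.2

theorem one_le_absNorm (I : (Ideal (𝓞 K))⁰) : (1 : ℝ) ≤ Ideal.absNorm (I : Ideal (𝓞 K)) := by
  exact_mod_cast absNorm_pos I

/-- `I ↦ N(I)^(-s)` as a monoid hom to `ℝ`. -/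
noncomputable def normPow (s : ℝ) : (Ideal (𝓞 K))⁰ →* ℝ where
  toFun I := (Ideal.absNorm (I : Ideal (𝓞 K)) : ℝ) ^ (-s)
  map_one' := by simp
  map_mul' I J := by
    simp only [Submonoid.coe_mul, map_mul, Nat.cast_mul]
    rw [Real.mul_rpow (Nat.cast_nonneg _) (Nat.cast_nonneg _)]

theorem normPow_apply (s : ℝ) (I : (Ideal (𝓞 K))⁰) :
    normPow s I = (Ideal.absNorm (I : Ideal (𝓞 K)) : ℝ) ^ (-s) := rfl

theorem normPow_pos (s : ℝ) (I : (Ideal (𝓞 K))⁰) : 0 < normPow s I := by
  rw [normPow_apply]
  exact Real.rpow_pos_of_pos (by exact_mod_cast absNorm_pos I) _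

theorem normPow_le_one {s : ℝ} (hs : 0 ≤ s) (I : (Ideal (𝓞 K))⁰) : normPow s I ≤ 1 := by
  rw [normPow_apply]
  exact Real.rpow_le_one_of_one_le_of_nonpos (one_le_absNorm I) (by linarith)

theorem normPow_anti {s t : ℝ} (hst : s ≤ t) (I : (Ideal (𝓞 K))⁰) : normPow t I ≤ normPow s I := by
  rw [normPow_apply, normPow_apply]
  exact Real.rpow_le_rpow_of_exponent_le (one_le_absNorm I) (by linarith)

section Summability

open Ideal in
theorem tendsto_sum_card_div (K : Type*) [Field K] [NumberField K] :
    Tendsto (fun n : ℕ => (∑ k ∈ Finset.Icc 1 n,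
      (Nat.card {I : Ideal (𝓞 K) // absNorm I = k} : ℝ)) / (n : ℝ)) atTop
      (𝓝 (dedekindZeta_residue K)) := by
  refine ((Ideal.tendsto_norm_le_div_atTop₀ K).comp tendsto_natCast_atTop_atTop).congr fun n ↦ ?_
  simp only [Function.comp_apply, Nat.cast_le, ← Nat.cast_sum]
  congr
  rw [← add_left_inj 1, ← card_norm_le_eq_card_norm_le_add_one,
    show Finset.Icc 1 n = Finset.Ioc 0 n from Finset.Icc_succ_left_eq_Ioc _ _,
    show 1 = Nat.card {I : Ideal (𝓞 K) // absNorm I = 0} by simp [Ideal.absNorm_eq_zero_iff],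
    Finset.sum_Ioc_add_eq_sum_Icc (n.zero_le),
    ← Finset.card_preimage_eq_sum_card_image_eq (fun k _ ↦ finite_setOfPred_absNorm_eq k)]
  simp [Set.coe_eq_subtype]

theorem lseriesSummable_card (K : Type*) [Field K] [NumberField K] {s : ℝ} (hs : 1 < s) :
    LSeriesSummable (fun n => (Nat.card {I : Ideal (𝓞 K) // Ideal.absNorm I = n} : ℂ)) (s : ℂ) := by
  have := LSeriesSummable_of_sum_norm_bigO_and_nonneg
    (f := fun n => (Nat.card {I : Ideal (𝓞 K) // Ideal.absNorm I = n} : ℝ)) (r := 1) (s := (s : ℂ))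
    ?_ (fun _ => Nat.cast_nonneg _) zero_le_one (by simpa using hs)
  · simpa using this
  · exact Asymptotics.isBigO_atTop_natCast_rpow_of_tendsto_div_rpow (a := dedekindZeta_residue K)
      (by simpa using tendsto_sum_card_div K)

/-- The fibre of the norm on nonzero ideals over `n ≠ 0` is the fibre on all ideals. -/
noncomputable def fiberEquiv (K : Type*) [Field K] [NumberField K] {n : ℕ} (hn : n ≠ 0) :
    {I : (Ideal (𝓞 K))⁰ // Ideal.absNorm (I : Ideal (𝓞 K)) = n} ≃
      {I : Ideal (𝓞 K) // Ideal.absNorm I = n} where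
  toFun I := ⟨I.1.1, I.2⟩
  invFun I := ⟨⟨I.1, mem_nonZeroDivisors_of_ne_zero (by
    intro h
    apply hn
    rw [← I.2, h]
    simp)⟩, I.2⟩
  left_inv I := rfl
  right_inv I := rfl

instance fiber_finite (K : Type*) [Field K] [NumberField K] (n : ℕ) :
    Finite {I : (Ideal (𝓞 K))⁰ // Ideal.absNorm (I : Ideal (𝓞 K)) = n} := by
  have : Finite {I : Ideal (𝓞 K) // Ideal.absNorm I = n} :=
    (Ideal.finite_setOfPred_absNorm_eq n).to_subtype
  refine Finite.of_injective
    (fun I => (⟨I.1.1, I.2⟩ : {I : Ideal (𝓞 K) // Ideal.absNorm I = n})) (fun I J h => ?_)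
  have h' := congrArg Subtype.val h
  exact Subtype.ext (Subtype.ext h')

theorem fiber_empty (K : Type*) [Field K] [NumberField K] :
    IsEmpty {I : (Ideal (𝓞 K))⁰ // Ideal.absNorm (I : Ideal (𝓞 K)) = 0} :=
  ⟨fun I => (absNorm_pos I.1).ne' I.2⟩

theorem tsum_fiber (s : ℝ) (n : ℕ) :
    (∑' I : {I : (Ideal (𝓞 K))⁰ // Ideal.absNorm (I : Ideal (𝓞 K)) = n}, normPow s I.1) =
      (Nat.card {I : (Ideal (𝓞 K))⁰ // Ideal.absNorm (I : Ideal (𝓞 K)) = n} : ℝ) *
        (n : ℝ) ^ (-s) := by
  have : ∀ I : {I : (Ideal (𝓞 K))⁰ // Ideal.absNorm (I : Ideal (𝓞 K)) = n},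
      normPow s I.1 = (n : ℝ) ^ (-s) := fun I => by rw [normPow_apply, I.2]
  simp_rw [this]
  rw [tsum_const, nsmul_eq_mul]

theorem norm_term_card (s : ℝ) (n : ℕ) :
    ‖LSeries.term (fun n => (Nat.card {I : Ideal (𝓞 K) // Ideal.absNorm I = n} : ℂ)) (s : ℂ) n‖ =
      (Nat.card {I : (Ideal (𝓞 K))⁰ // Ideal.absNorm (I : Ideal (𝓞 K)) = n} : ℝ) *
        (n : ℝ) ^ (-s) := by
  rw [LSeries.norm_term_eq]
  by_cases hn : n = 0
  · subst hn
    haveI := fiber_empty K
    simp
  · rw [if_neg hn, Nat.card_congr (fiberEquiv K hn)]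
    simp only [Complex.norm_natCast, Complex.ofReal_re]
    rw [Real.rpow_neg (Nat.cast_nonneg _), div_eq_mul_inv]

/-- `∑ N(I)^(-s)` over nonzero ideals converges for `s > 1`. -/
theorem summable_sigma_normPow {s : ℝ} (hs : 1 < s) :
    Summable (fun p : (Σ n : ℕ, {I : (Ideal (𝓞 K))⁰ // Ideal.absNorm (I : Ideal (𝓞 K)) = n}) =>
      normPow s p.2.1) := by
  refine (summable_sigma_of_nonneg (fun x => (normPow_pos s _).le)).mpr
    ⟨fun n => Summable.of_finite, ?_⟩
  have h := (lseriesSummable_card K hs).norm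
  refine h.congr fun n => ?_
  rw [norm_term_card s n]
  exact (tsum_fiber s n).symm

theorem summable_normPow {s : ℝ} (hs : 1 < s) :
    Summable (fun I : (Ideal (𝓞 K))⁰ => normPow s I) := by
  rw [← (Equiv.sigmaFiberEquiv
    (fun I : (Ideal (𝓞 K))⁰ => Ideal.absNorm (I : Ideal (𝓞 K)))).summable_iff]
  exact summable_sigma_normPow hs

theorem summable_norm_normPow {s : ℝ} (hs : 1 < s) :
    Summable (fun I : (Ideal (𝓞 K))⁰ => ‖normPow s I‖) :=
  (summable_normPow hs).norm

/-- The real Dedekind zeta function as a sum over nonzero ideals. -/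
noncomputable def zetaR (K : Type*) [Field K] [NumberField K] (s : ℝ) : ℝ :=
  ∑' I : (Ideal (𝓞 K))⁰, normPow s I

theorem dedekindZeta_eq_zetaR {s : ℝ} (hs : 1 < s) :
    dedekindZeta K (s : ℂ) = (zetaR K s : ℂ) := by
  unfold dedekindZeta zetaR LSeries
  have e1 : (∑' I : (Ideal (𝓞 K))⁰, normPow s I) =
      ∑' p : (Σ n : ℕ, {I : (Ideal (𝓞 K))⁰ // Ideal.absNorm (I : Ideal (𝓞 K)) = n}),
        normPow s p.2.1 :=
    ((Equiv.sigmaFiberEquiv
      (fun I : (Ideal (𝓞 K))⁰ => Ideal.absNorm (I : Ideal (𝓞 K)))).tsum_eq _).symm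
  rw [e1, Summable.tsum_sigma' (fun n => Summable.of_finite) (summable_sigma_normPow hs)]
  rw [Complex.ofReal_tsum]
  refine tsum_congr fun n => ?_
  have h1 := tsum_fiber (K := K) s n
  rw [h1]
  by_cases hn : n = 0
  · subst hn
    haveI := fiber_empty K
    simp
  · rw [LSeries.term_of_ne_zero hn, Nat.card_congr (fiberEquiv K hn)]
    rw [Complex.ofReal_mul, Complex.ofReal_natCast, Complex.ofReal_cpow (Nat.cast_nonneg _),
      Complex.ofReal_natCast, Complex.ofReal_neg, Complex.cpow_neg, div_eq_mul_inv]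

theorem zetaR_pos {s : ℝ} (hs : 1 < s) : 0 < zetaR K s :=
  (summable_normPow hs).tsum_pos (fun I => (normPow_pos s I).le) 1 (normPow_pos s 1)

/-- `(s - 1) ζ_K(s) → residue` as `s → 1⁺`, in terms of `zetaR`. -/
theorem tendsto_sub_one_mul_zetaR (K : Type*) [Field K] [NumberField K] :
    Tendsto (fun s : ℝ => (s - 1) * zetaR K s) (𝓝[>] 1) (𝓝 (dedekindZeta_residue K)) := by
  have h := tendsto_sub_one_mul_dedekindZeta_nhdsGT K
  have h2 : Tendsto (fun s : ℝ => (((s - 1) * zetaR K s : ℝ) : ℂ)) (𝓝[>] 1)
      (𝓝 (dedekindZeta_residue K : ℂ)) := by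
    refine h.congr' ?_
    filter_upwards [self_mem_nhdsWithin] with s hs
    rw [dedekindZeta_eq_zetaR (Set.mem_Ioi.mp hs)]
    push_cast
    rfl
  exact (Complex.continuous_re.tendsto _).comp h2 |>.congr (fun s => by simp) |>.mono_right
    (by simp)

end Summability

end Fermat.Agent.S14.H163

end
-- ===== PACK-END S14/H163/ZetaIdeal.lean

-- ===== PACK-BEGIN S55/L/Unram784/AdjoinRootDVR.lean
section


/-!
# S55, layer L, leaf L-A2 (helper784): `R[X]/(g)` for `g` monic with irreducible reduction

Let `R` be a complete discrete valuation ring with finite residue field `k`, and `g : R[X]` monic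
with irreducible reduction.  Then `S = R[X]/(g)` is a complete discrete valuation ring with
maximal ideal `𝔪_R S`, and its residue field is finite of degree `deg g` over `k`.
-/

set_option autoImplicit false
set_option linter.unusedSectionVars false

namespace Fermat.Agent.S55.L

open IsLocalRing Polynomial

section Transfer

variable {R : Type*} [CommRing R] (I : Ideal R) {M N : Type*} [AddCommGroup M] [Module R M]
  [AddCommGroup N] [Module R N]

theorem u784_mem_smul_top_map (e : M ≃ₗ[R] N) (n : ℕ) (x : M) :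
    e x ∈ (I ^ n • ⊤ : Submodule R N) ↔ x ∈ (I ^ n • ⊤ : Submodule R M) := by
  have h : (I ^ n • ⊤ : Submodule R N) = (I ^ n • ⊤ : Submodule R M).map e.toLinearMap := by
    rw [Submodule.map_smul'', Submodule.map_top, LinearMap.range_eq_top.mpr e.surjective]
  rw [h]
  constructor
  · rintro ⟨y, hy, hxy⟩
    have : y = x := e.injective hxy
    rwa [← this]
  · intro hx
    exact ⟨x, hx, rfl⟩

theorem u784_isPrecomplete_of_linearEquiv (e : M ≃ₗ[R] N) [IsPrecomplete I M] :
    IsPrecomplete I N := by
  refine ⟨fun f hf => ?_⟩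
  obtain ⟨L, hL⟩ := IsPrecomplete.prec ‹IsPrecomplete I M› (f := fun n => e.symm (f n)) (by
    intro m n hmn
    have h1 := hf hmn
    rw [SModEq.sub_mem] at h1 ⊢
    rw [← u784_mem_smul_top_map I e, map_sub, e.apply_symm_apply, e.apply_symm_apply]
    exact h1)
  refine ⟨e L, fun n => ?_⟩
  have h1 := hL n
  rw [SModEq.sub_mem] at h1 ⊢
  rw [← u784_mem_smul_top_map I e, map_sub, e.apply_symm_apply] at h1
  exact h1

end Transfer

section AdjoinRoot

variable {R : Type} [CommRing R] [IsDomain R] [IsDiscreteValuationRing R]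
  [IsAdicComplete (maximalIdeal R) R] [Finite (ResidueField R)]
  (g : R[X]) (hg : g.Monic) (hirr : Irreducible (g.map (residue R)))

include hg in
theorem u784_adjoinRoot_isAdicComplete :
    IsAdicComplete ((maximalIdeal R).map (algebraMap R (AdjoinRoot g))) (AdjoinRoot g) := by
  rw [IsAdicComplete.map_algebraMap_iff]
  have hfin : Module.Finite R (AdjoinRoot g) := (AdjoinRoot.powerBasis' hg).finite
  have hpre : IsPrecomplete (maximalIdeal R) (AdjoinRoot g) := by
    have := u784_isPrecomplete_pi (maximalIdeal R) (R := R)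
      (ι := Fin (AdjoinRoot.powerBasis' hg).dim)
    exact u784_isPrecomplete_of_linearEquiv (maximalIdeal R)
      (AdjoinRoot.powerBasis' hg).basis.equivFun.symm
  exact { toIsHausdorff := inferInstance, toIsPrecomplete := hpre }

include hirr in
theorem u784_adjoinRoot_isMaximal :
    ((maximalIdeal R).map (algebraMap R (AdjoinRoot g))).IsMaximal := by
  apply Ideal.Quotient.maximal_of_isField
  have hmax : (Ideal.span {g.map (residue R)} : Ideal (ResidueField R)[X]).IsMaximal :=
    PrincipalIdealRing.isMaximal_of_irreducible hirr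
  have hfield : IsField ((ResidueField R)[X] ⧸
      (Ideal.span {g.map (residue R)} : Ideal (ResidueField R)[X])) :=
    (Ideal.Quotient.maximal_ideal_iff_isField_quotient _).mp hmax
  exact (AdjoinRoot.quotEquivQuotMap g (maximalIdeal R)).toRingEquiv.toMulEquiv.isField hfield

include hg hirr in
theorem u784_adjoinRoot_isDomain : IsDomain (AdjoinRoot g) := by
  have h1 : Irreducible g := Monic.irreducible_of_irreducible_map (residue R) g hg hirr
  exact AdjoinRoot.isDomain_of_prime h1.prime

include hg hirr in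
theorem u784_adjoinRoot_degree_ne_zero : g.degree ≠ 0 := by
  have h1 : 0 < (g.map (residue R)).degree := Polynomial.degree_pos_of_irreducible hirr
  rw [hg.degree_map] at h1
  exact h1.ne'

include hg hirr in
/-- `R[X]/(g)` is a complete discrete valuation ring, unramified over `R`, with finite residue
field of cardinality `|k| ^ deg g`. -/
theorem u784_adjoinRoot_package :
    ∃ (_ : IsDomain (AdjoinRoot g)) (_ : IsDiscreteValuationRing (AdjoinRoot g)),
      (maximalIdeal R).map (algebraMap R (AdjoinRoot g)) = maximalIdeal (AdjoinRoot g) ∧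
      IsAdicComplete (maximalIdeal (AdjoinRoot g)) (AdjoinRoot g) ∧
      Finite (ResidueField (AdjoinRoot g)) ∧
      Nat.card (ResidueField (AdjoinRoot g)) = Nat.card (ResidueField R) ^ g.natDegree ∧
      IsLocalHom (algebraMap R (AdjoinRoot g)) := by
  have hdom : IsDomain (AdjoinRoot g) := u784_adjoinRoot_isDomain g hg hirr
  have hmaxI := u784_adjoinRoot_isMaximal g hirr
  have hcomp := u784_adjoinRoot_isAdicComplete g hg
  have hloc : IsLocalRing (AdjoinRoot g) := isLocalRing_of_isAdicComplete_maximal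
    ((maximalIdeal R).map (algebraMap R (AdjoinRoot g)))
  have hmeq : (maximalIdeal R).map (algebraMap R (AdjoinRoot g)) =
      maximalIdeal (AdjoinRoot g) := IsLocalRing.eq_maximalIdeal hmaxI
  have hfin : Module.Finite R (AdjoinRoot g) := (AdjoinRoot.powerBasis' hg).finite
  have hnoeth : IsNoetherianRing (AdjoinRoot g) := IsNoetherianRing.of_finite R _
  obtain ⟨π, hπ⟩ := IsDiscreteValuationRing.exists_irreducible R
  have hspan : maximalIdeal (AdjoinRoot g) = Ideal.span {algebraMap R (AdjoinRoot g) π} := by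
    rw [← hmeq, (IsDiscreteValuationRing.irreducible_iff_uniformizer π).mp hπ, Ideal.map_span,
      Set.image_singleton]
  have hinj : Function.Injective (algebraMap R (AdjoinRoot g)) :=
    AdjoinRoot.of.injective_of_degree_ne_zero (u784_adjoinRoot_degree_ne_zero g hg hirr)
  have hπ0 : algebraMap R (AdjoinRoot g) π ≠ 0 := by
    rw [Ne, map_eq_zero_iff _ hinj]
    exact hπ.ne_zero
  have hprinc : Submodule.IsPrincipal (maximalIdeal (AdjoinRoot g)) := ⟨⟨_, hspan⟩⟩
  have hpir : IsPrincipalIdealRing (AdjoinRoot g) :=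
    ((tfae_of_isNoetherianRing_of_isLocalRing_of_isDomain (AdjoinRoot g)).out 4 0).mp hprinc
  have hdvr : IsDiscreteValuationRing (AdjoinRoot g) := by
    refine IsDiscreteValuationRing.mk ?_
    rw [hspan, Ne, Ideal.span_singleton_eq_bot]
    exact hπ0
  -- the residue field
  have hne : g.map (residue R) ≠ 0 := (hg.map _).ne_zero
  have hFfin : Module.Finite (ResidueField R)
      ((ResidueField R)[X] ⧸ (Ideal.span {g.map (residue R)} : Ideal (ResidueField R)[X])) :=
    (AdjoinRoot.powerBasis hne).finite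
  have hFfinite : Finite
      ((ResidueField R)[X] ⧸ (Ideal.span {g.map (residue R)} : Ideal (ResidueField R)[X])) :=
    Module.finite_of_finite (ResidueField R)
  have hFcard : Nat.card
      ((ResidueField R)[X] ⧸ (Ideal.span {g.map (residue R)} : Ideal (ResidueField R)[X])) =
      Nat.card (ResidueField R) ^ g.natDegree := by
    rw [Module.natCard_eq_pow_finrank (K := ResidueField R), finrank_quotient_span_eq_natDegree,
      hg.natDegree_map]
  let e : ResidueField (AdjoinRoot g) ≃
      ((ResidueField R)[X] ⧸ (Ideal.span {g.map (residue R)} : Ideal (ResidueField R)[X])) :=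
    (Ideal.quotEquivOfEq hmeq.symm).toEquiv.trans
      (AdjoinRoot.quotEquivQuotMap g (maximalIdeal R)).toEquiv
  refine ⟨hdom, hdvr, hmeq, hmeq ▸ hcomp, Finite.of_equiv _ e.symm, ?_, ?_⟩
  · rw [Nat.card_congr e, hFcard]
  · refine ⟨fun a ha => ?_⟩
    by_contra hna
    have h1 : a ∈ maximalIdeal R := (IsLocalRing.mem_maximalIdeal a).mpr hna
    have h2 : algebraMap R (AdjoinRoot g) a ∈ maximalIdeal (AdjoinRoot g) := by
      rw [← hmeq]
      exact Ideal.mem_map_of_mem _ h1
    exact (IsLocalRing.mem_maximalIdeal _).mp h2 ha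

end AdjoinRoot

end Fermat.Agent.S55.L

end
-- ===== PACK-END S55/L/Unram784/AdjoinRootDVR.lean

-- ===== PACK-BEGIN S55/G/LocH897/Invariants.lean
section


/-!
# S55 / layer G (helper897): Galois invariants of `L ⊗[ℚ] P`

If a finite group `G` acts on the field `L` (characteristic `0`) with fixed field `ℚ`, then the
invariants of `L ⊗[ℚ] P` under `g ⊗ 1` are exactly `1 ⊗ P`, for every `ℚ`-module `P`
(`exists_tmul_of_invariant`).  Proof by averaging.
-/

set_option autoImplicit false
set_option linter.style.haveILetI false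

open scoped TensorProduct

namespace Fermat.Agent.S55.G.LocH897

section

variable (Γ L : Type) [Group Γ] [Field L] [CharZero L] [MulSemiringAction Γ L]

/-- `g ∈ Γ` as a `ℚ`-linear endomorphism of `L`. -/
noncomputable def actLin (g : Γ) : L →ₗ[ℚ] L := (fieldAut Γ L g).toLinearMap

@[simp] lemma actLin_apply (g : Γ) (x : L) : actLin Γ L g x = g • x := rfl

variable [Fintype Γ]

/-- The averaging operator `x ↦ |Γ|⁻¹ ∑_g g x`. -/
noncomputable def avg : L →ₗ[ℚ] L := ((Fintype.card Γ : ℚ)⁻¹) • ∑ g : Γ, actLin Γ L g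

lemma avg_apply (x : L) : avg Γ L x = ((Fintype.card Γ : ℚ)⁻¹) • ∑ g : Γ, g • x := by
  simp [avg, LinearMap.sum_apply]

lemma smul_avg (h : Γ) (x : L) : h • avg Γ L x = avg Γ L x := by
  rw [avg_apply]
  have h1 : h • (((Fintype.card Γ : ℚ)⁻¹) • ∑ g : Γ, g • x) =
      ((Fintype.card Γ : ℚ)⁻¹) • (h • ∑ g : Γ, g • x) :=
    (actLin Γ L h).map_smul _ _
  rw [h1, Finset.smul_sum]
  congr 1
  exact Fintype.sum_bijective (fun g => h * g) (Group.mulLeft_bijective h) _ _
    (fun g => (mul_smul h g x).symm)

/-- The averaging operator factors through `ℚ` when the fixed field is `ℚ`. -/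
lemma exists_avg_factor
    (hfix : ∀ x : L, (∀ g : Γ, g • x = x) → ∃ c : ℚ, algebraMap ℚ L c = x) :
    ∃ t : L →ₗ[ℚ] ℚ, (Algebra.linearMap ℚ L) ∘ₗ t = avg Γ L := by
  have hinj : Function.Injective (Algebra.linearMap ℚ L) := (algebraMap ℚ L).injective
  have hmem : ∀ x : L, avg Γ L x ∈ LinearMap.range (Algebra.linearMap ℚ L) := by
    intro x
    obtain ⟨c, hc⟩ := hfix (avg Γ L x) (fun g => smul_avg Γ L g x)
    exact ⟨c, hc⟩
  refine ⟨(LinearEquiv.ofInjective (Algebra.linearMap ℚ L) hinj).symm.toLinearMap ∘ₗ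
    (avg Γ L).codRestrict _ hmem, ?_⟩
  ext x
  have := (LinearEquiv.ofInjective (Algebra.linearMap ℚ L) hinj).apply_symm_apply
    ((avg Γ L).codRestrict _ hmem x)
  have h2 := congrArg Subtype.val this
  exact h2

variable (P : Type) [AddCommGroup P] [Module ℚ P]

/-- **Invariants of `L ⊗ P`.**  If `Γ` (finite) acts on `L` with fixed field `ℚ`, every element
of `L ⊗[ℚ] P` fixed by all `g ⊗ 1` is of the form `1 ⊗ y`. -/
theorem exists_tmul_of_invariant
    (hfix : ∀ x : L, (∀ g : Γ, g • x = x) → ∃ c : ℚ, algebraMap ℚ L c = x)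
    (α : Γ → (L ⊗[ℚ] P →ₗ[ℚ] L ⊗[ℚ] P))
    (hα : ∀ g x y, α g (x ⊗ₜ[ℚ] y) = (g • x) ⊗ₜ[ℚ] y)
    (r : L ⊗[ℚ] P) (hr : ∀ g, α g r = r) : ∃ y : P, r = (1 : L) ⊗ₜ[ℚ] y := by
  obtain ⟨t, ht⟩ := exists_avg_factor Γ L hfix
  have hαg : ∀ g, (actLin Γ L g).rTensor P = α g := by
    intro g
    refine TensorProduct.ext' fun x y => ?_
    rw [LinearMap.rTensor_tmul, hα]
    rfl
  have hcard : (Fintype.card Γ : ℚ) ≠ 0 := by
    exact_mod_cast Fintype.card_ne_zero
  have h1 : (avg Γ L).rTensor P r = r := by
    have : (avg Γ L).rTensor P = ((Fintype.card Γ : ℚ)⁻¹) • ∑ g : Γ, α g := by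
      show LinearMap.rTensorHom P (avg Γ L) = _
      rw [avg, map_smul, map_sum]
      congr 1
      exact Finset.sum_congr rfl fun g _ => hαg g
    rw [this, LinearMap.smul_apply, LinearMap.sum_apply, Finset.sum_congr rfl (fun g _ => hr g),
      Finset.sum_const, Finset.card_univ, ← Nat.cast_smul_eq_nsmul ℚ, smul_smul,
      inv_mul_cancel₀ hcard, one_smul]
  have h2 : ∀ z : ℚ ⊗[ℚ] P, (Algebra.linearMap ℚ L).rTensor P z =
      (1 : L) ⊗ₜ[ℚ] (TensorProduct.lid ℚ P z) := by
    intro z
    induction z using TensorProduct.induction_on with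
    | zero => simp
    | tmul c y =>
      rw [LinearMap.rTensor_tmul, TensorProduct.lid_tmul, Algebra.linearMap_apply,
        Algebra.algebraMap_eq_smul_one, TensorProduct.smul_tmul]
    | add a b ha hb => rw [map_add, ha, hb, map_add, TensorProduct.tmul_add]
  refine ⟨TensorProduct.lid ℚ P (t.rTensor P r), ?_⟩
  rw [← h2, ← LinearMap.comp_apply, ← LinearMap.rTensor_comp, ht, h1]

end

end Fermat.Agent.S55.G.LocH897

end
-- ===== PACK-END S55/G/LocH897/Invariants.lean

-- ===== PACK-BEGIN S55/T/InfResTorsCoreH244.lean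
section



/-!
# Inflation–restriction in degree 2 when `H¹(S, A)` is only killed by `m`  (cochain-level core)

(helper244; generalises `Fermat.Agent.S55.H954.H2InfResCore` of helper954, whose lemmas
`step0`, `step1`, `step3`, `isOneCocycle_of_vanish_left` are reused verbatim.)

`ρ : Representation k G A`, `S ⊴ G`, `m : ℕ`.  Hypothesis `HOneKilledBy m ρ S`: for every
1-cocycle `w` of `S` with values in `A`, `m • w` is a coboundary.  (For `m = 1` this is
`HOneVanishes`.)  Typical use: `S` any finite group, `P ≤ S` a Sylow `p`-subgroup with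
`H¹(P, A) = 0`; then `m = [S : P]` is prime to `p` and kills `H¹(S, A)`.

* `exists_inflated_of_res_coboundary_nsmul`: if the restriction to `S` of a 2-cocycle `f` of `G`
  is a coboundary, then `m • f` is cohomologous to an `S`-bi-invariant 2-cocycle with values in
  `A^S`.
* `exists_invariant_cochain_of_inf_coboundary_nsmul`: if an inflated 2-cocycle `f'` is the
  coboundary of `c`, then `m • f'` is the coboundary of an `S`-invariant cochain with values in
  `A^S`.
-/

set_option autoImplicit false
set_option linter.unusedSectionVars false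
set_option linter.unusedSimpArgs false

namespace Fermat.Agent.S55.T.H244

open Fermat.Agent.S55.H954

variable {k G A : Type*} [CommRing k] [Group G] [AddCommGroup A] [Module k A]

/-- `m` kills `H¹(S, A)`, on the level of cocycles. -/
def HOneKilledBy (m : ℕ) (ρ : Representation k G A) (S : Subgroup G) : Prop :=
  ∀ w : S → A, (∀ s t : S, w (s * t) = ρ s (w t) + w s) → ∃ a : A, ∀ s : S, m • w s = ρ s a - a

lemma hOneKilledBy_one_of_hOneVanishes {ρ : Representation k G A} {S : Subgroup G}
    (h : HOneVanishes ρ S) : HOneKilledBy 1 ρ S := by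
  intro w hw
  obtain ⟨a, ha⟩ := h w hw
  exact ⟨a, fun s => by rw [one_smul]; exact ha s⟩

lemma dOne_nsmul (ρ : Representation k G A) (m : ℕ) (c : G → A) :
    dOne ρ (m • c) = m • dOne ρ c := by
  funext ⟨g, h⟩
  simp only [dOne_apply, Pi.smul_apply, map_nsmul, smul_add, smul_sub]

lemma isTwoCocycle_nsmul {ρ : Representation k G A} {f : G × G → A} (hf : IsTwoCocycle ρ f)
    (m : ℕ) : IsTwoCocycle ρ (m • f) := by
  intro g h j
  have h1 := hf g h j
  simp only [Pi.smul_apply, map_nsmul]
  rw [← smul_add, ← smul_add, h1]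

section Steps

variable (ρ : Representation k G A) (S : Subgroup G) [S.Normal]

/-- Step 2, `m`-version: for a cocycle `f` vanishing on `S × G`, make `(m • f) (g, s)` vanish
for `s ∈ S`, keeping `(m • f) (s, g) = 0`. -/
lemma step2_nsmul {m : ℕ} (hH1 : HOneKilledBy m ρ S) {f : G × G → A} (hf : IsTwoCocycle ρ f)
    (h1 : ∀ s ∈ S, ∀ g : G, f (s, g) = 0) :
    ∃ c : G → A, (∀ s ∈ S, ∀ g : G, (m • f - dOne ρ c) (s, g) = 0) ∧
      ∀ s ∈ S, ∀ g : G, (m • f - dOne ρ c) (g, s) = 0 := by
  classical
  have hF : IsTwoCocycle ρ (m • f) := isTwoCocycle_nsmul hf m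
  have hF1 : ∀ s ∈ S, ∀ g : G, (m • f) (s, g) = 0 := fun s hs g => by
    simp only [Pi.smul_apply, h1 s hs g, smul_zero]
  have hex : ∀ g : G, ∃ a : A, ∀ s : S, ρ g⁻¹ ((m • f) (g, (s : G))) = ρ s a - a := fun g => by
    obtain ⟨a, ha⟩ := hH1 (fun s => ρ g⁻¹ (f (g, (s : G))))
      (fun s t => isOneCocycle_of_vanish_left ρ S hf h1 g s t)
    exact ⟨a, fun s => by simp only [Pi.smul_apply, map_nsmul]; exact ha s⟩
  choose a ha using hex
  set F : G × G → A := m • f with hFdef
  set a' : G → A := fun g => if g ∈ S then 0 else a (cosetRep S g) with ha'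
  have ha'_right : ∀ g : G, ∀ s ∈ S, a' (g * s) = a' g := by
    intro g s hs
    simp only [ha', Subgroup.mul_mem_cancel_right S hs, cosetRep_mul_right S g hs]
  have ha'_left : ∀ g : G, ∀ s ∈ S, a' (s * g) = a' g := by
    intro g s hs
    simp only [ha', Subgroup.mul_mem_cancel_left S hs, cosetRep_mul_left S g hs]
  have ha'_mem : ∀ s ∈ S, a' s = 0 := fun s hs => by simp [ha', hs]
  have key : ∀ g : G, ∀ s ∈ S, F (g, s) = ρ (g * s) (a' g) - ρ g (a' g) := by
    intro g s hs
    by_cases hg : g ∈ S
    · rw [hF1 g hg s, ha'_mem g hg]; simp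
    · have hr : a' g = a (cosetRep S g) := by simp [ha', hg]
      rw [hr]
      set r := cosetRep S g with hrdef
      set t := r⁻¹ * g with htdef
      have ht : t ∈ S := cosetRep_inv_mul_mem S g
      have hgrt : g = r * t := by simp [htdef]
      have c := hF r t s
      rw [hF1 t ht s, map_zero, zero_add, ← hgrt] at c
      have e1 := ha r ⟨t * s, S.mul_mem ht hs⟩
      have e2 := ha r ⟨t, ht⟩
      simp only [Subgroup.coe_mk] at e1 e2
      have e1' : F (r, t * s) = ρ r (ρ (t * s) (a r) - a r) := by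
        rw [← e1, ← Module.End.mul_apply, ← map_mul]; simp
      have e2' : F (r, t) = ρ r (ρ t (a r) - a r) := by
        rw [← e2, ← Module.End.mul_apply, ← map_mul]; simp
      have : F (g, s) = F (r, t * s) - F (r, t) := eq_sub_of_add_eq c
      rw [this, e1', e2', hgrt]
      simp only [map_sub, map_mul, Module.End.mul_apply]
      abel
  refine ⟨fun g => - ρ g (a' g), fun s hs g => ?_, fun s hs g => ?_⟩
  · simp only [Pi.sub_apply, dOne_apply, hF1 s hs g, ha'_left g s hs, ha'_mem s hs, map_neg,
      map_zero, map_mul, Module.End.mul_apply]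
    abel
  · simp only [Pi.sub_apply, dOne_apply, key g s hs, ha'_right g s hs, ha'_mem s hs, map_neg,
      map_zero, map_mul, Module.End.mul_apply]
    abel

/-- **Inflation–restriction in degree 2, exactness at `H²(G, A)` up to `m`** (cochain form). -/
theorem exists_inflated_of_res_coboundary_nsmul {m : ℕ} (hH1 : HOneKilledBy m ρ S)
    {f : G × G → A} (hf : IsTwoCocycle ρ f) (φ : S → A)
    (hφ : ∀ s t : S, f (s, t) = ρ s (φ t) - φ (s * t) + φ s) :
    ∃ (c : G → A) (f' : G × G → A), m • f = f' + dOne ρ c ∧ IsTwoCocycle ρ f' ∧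
      (∀ s ∈ S, ∀ g h : G, f' (g, h * s) = f' (g, h)) ∧
      (∀ s ∈ S, ∀ g h : G, f' (g * s, h) = f' (g, h)) ∧
      (∀ s ∈ S, ∀ g h : G, ρ s (f' (g, h)) = f' (g, h)) := by
  obtain ⟨c0, h0⟩ := step0 ρ S φ hφ
  have hf0 : IsTwoCocycle ρ (f - dOne ρ c0) := hf.sub (isTwoCocycle_dOne ρ c0)
  obtain ⟨c1, h1⟩ := step1 ρ S hf0 h0
  have hf1 : IsTwoCocycle ρ (f - dOne ρ c0 - dOne ρ c1) := hf0.sub (isTwoCocycle_dOne ρ c1)
  obtain ⟨c2, h2, h2'⟩ := step2_nsmul ρ S hH1 hf1 h1
  have hf2 : IsTwoCocycle ρ (m • (f - dOne ρ c0 - dOne ρ c1) - dOne ρ c2) :=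
    (isTwoCocycle_nsmul hf1 m).sub (isTwoCocycle_dOne ρ c2)
  obtain ⟨i1, i2, i3⟩ := step3 ρ S hf2 h2 h2'
  refine ⟨m • c0 + m • c1 + c2, m • (f - dOne ρ c0 - dOne ρ c1) - dOne ρ c2, ?_, hf2, i1, i2, i3⟩
  funext ⟨g, h⟩
  simp only [Pi.add_apply, Pi.sub_apply, Pi.smul_apply, dOne_apply, map_add, map_nsmul,
    smul_sub, smul_add]
  abel

/-- **Inflation–restriction in degree 2, injectivity of inflation up to `m`** (cochain form):
if an `S`-bi-invariant `A^S`-valued function `f'` equals `dOne c`, then `m • f'` is the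
coboundary of an `S`-invariant cochain with values in `A^S`. -/
theorem exists_invariant_cochain_of_inf_coboundary_nsmul {m : ℕ} (hH1 : HOneKilledBy m ρ S)
    {f' : G × G → A}
    (hinv2 : ∀ s ∈ S, ∀ g h : G, f' (g, h * s) = f' (g, h))
    (hinv1 : ∀ s ∈ S, ∀ g h : G, f' (g * s, h) = f' (g, h))
    (hval : ∀ s ∈ S, ∀ g h : G, ρ s (f' (g, h)) = f' (g, h))
    (c : G → A) (hc : f' = dOne ρ c) :
    ∃ c' : G → A, m • f' = dOne ρ c' ∧ (∀ s ∈ S, ∀ g : G, c' (g * s) = c' g) ∧
      (∀ s ∈ S, ∀ g : G, ρ s (c' g) = c' g) := by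
  set e := f' (1, 1) with he
  have hfe : ∀ s ∈ S, ∀ t ∈ S, f' (s, t) = e := by
    intro s hs t ht
    have := hinv1 s hs 1 t
    rw [one_mul] at this
    rw [this]
    have := hinv2 t ht 1 1
    rwa [one_mul] at this
  have hρe : ∀ s ∈ S, ρ s e = e := fun s hs => hval s hs 1 1
  -- `c - e` restricted to `S` is a 1-cocycle
  obtain ⟨a, ha⟩ := hH1 (fun s => c s - e) (by
    intro s t
    have h := hfe s s.2 t t.2
    rw [hc, dOne_apply] at h
    simp only [Subgroup.coe_mul, map_sub, hρe s s.2]
    have : c (↑s * ↑t) = ρ ↑s (c ↑t) + c ↑s - e := by rw [← h]; abel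
    rw [this]; abel)
  -- the new objects: `F = m • f'`, `C = m • c`, `E = m • e`
  set F : G × G → A := m • f' with hFdef
  set E : A := m • e with hEdef
  have hFinv2 : ∀ s ∈ S, ∀ g h : G, F (g, h * s) = F (g, h) := fun s hs g h => by
    simp only [hFdef, Pi.smul_apply, hinv2 s hs g h]
  have hFinv1 : ∀ s ∈ S, ∀ g h : G, F (g * s, h) = F (g, h) := fun s hs g h => by
    simp only [hFdef, Pi.smul_apply, hinv1 s hs g h]
  have hF11 : F (1, 1) = E := rfl
  have hcS : ∀ s ∈ S, m • c s - (ρ s a - a) = E := by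
    intro s hs
    have := ha ⟨s, hs⟩
    simp only [Subgroup.coe_mk, smul_sub] at this
    rw [← this, hEdef]; abel
  set c' : G → A := fun g => m • c g - (ρ g a - a) with hc'
  have hd : F = dOne ρ c' := by
    rw [hFdef, hc, ← dOne_nsmul]
    funext ⟨g, h⟩
    simp only [dOne_apply, hc', Pi.smul_apply, map_sub, map_mul, Module.End.mul_apply]
    abel
  have hc'S : ∀ s ∈ S, c' s = E := hcS
  have hc'1 : c' 1 = E := hc'S 1 S.one_mem
  have hfg1 : ∀ g : G, F (g, 1) = ρ g E := by
    intro g
    have := congr_fun hd (g, 1)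
    rw [dOne_apply, mul_one, hc'1] at this
    rw [this]; abel
  have hf1g : ∀ g : G, F (1, g) = E := by
    intro g
    have := congr_fun hd (1, g)
    rw [dOne_apply, one_mul, hc'1, map_one, Module.End.one_apply] at this
    rw [this]; abel
  have hright : ∀ s ∈ S, ∀ g : G, c' (g * s) = c' g := by
    intro s hs g
    have h1 := congr_fun hd (g, s)
    rw [dOne_apply, hc'S s hs] at h1
    have h2 := hFinv2 s hs g 1
    rw [one_mul, hfg1 g] at h2
    rw [h2] at h1
    have h3 : c' g - c' (g * s) = 0 := by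
      have := sub_eq_zero.2 h1.symm
      rw [← this]; abel
    exact (sub_eq_zero.1 h3).symm
  refine ⟨c', hd, hright, fun s hs g => ?_⟩
  have h1 := congr_fun hd (s, g)
  rw [dOne_apply, hc'S s hs] at h1
  have h2 := hFinv1 s hs 1 g
  rw [one_mul, hf1g g] at h2
  rw [h2] at h1
  have h3 : c' (s * g) = c' g := by
    have : s * g = g * (g⁻¹ * s * g) := by group
    rw [this]
    exact hright _ (Subgroup.Normal.conj_mem' ‹S.Normal› _ hs _) g
  rw [h3] at h1
  have h4 : ρ s (c' g) - c' g = 0 := by
    have := sub_eq_zero.2 h1.symm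
    rw [← this]; abel
  exact sub_eq_zero.1 h4

end Steps

end Fermat.Agent.S55.T.H244

end
-- ===== PACK-END S55/T/InfResTorsCoreH244.lean

-- ===== PACK-BEGIN S55/H901/H1FinCore.lean
section



/-!
# S55 / G5 (finiteness of `H¹(G_S, M)`): Mathlib-only core lemmas

* `dvd_toAdd_valuationOfNeZero_of_pow_eq`, `dvd_toAdd_valuationOfNeZero_of_unramified`:
  an element that becomes an `n`-th power in an extension unramified at `v` has `n ∣ v(b)`.
* `exists_finset_selmer_reps`: finitely many representatives modulo `n`-th powers for the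
  elements with `n ∣ v(b)` outside a finite set `S` (from finiteness of the Selmer group).
* `exists_ne_zero_forall_smul_eq`: Hilbert 90 for a character of a finite group of automorphisms.
-/

set_option autoImplicit false
set_option linter.style.haveILetI false
set_option linter.unusedSectionVars false

open IsDedekindDomain HeightOneSpectrum
open scoped NumberField

namespace Fermat.Agent.S55.H901

section AKLB

variable {A K : Type*} (L : Type*) {B : Type*}
variable [CommRing A] [IsDedekindDomain A] [CommRing B] [IsDedekindDomain B] [Algebra A B]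
  [Module.IsTorsionFree A B]
variable [Field K] [Field L] [Algebra K L]
variable [Algebra A K] [IsFractionRing A K] [Algebra A L] [IsScalarTower A K L]
variable [Algebra B L] [IsFractionRing B L] [IsScalarTower A B L]

/-- If `w | v` is unramified and `b ∈ Kˣ` becomes an `n`-th power in `L`, then `n ∣ v(b)`. -/
theorem dvd_toAdd_valuationOfNeZero_of_pow_eq
    (v : HeightOneSpectrum A) (w : HeightOneSpectrum B) [w.asIdeal.LiesOver v.asIdeal]
    (he : v.asIdeal.ramificationIdx' w.asIdeal = 1) (n : ℕ) (b : Kˣ) (β : L)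
    (hβ : β ^ n = algebraMap K L (b : K)) :
    (n : ℤ) ∣ Multiplicative.toAdd (v.valuationOfNeZero b) := by
  have h1 := valuation_liesOver L v w (b : K)
  rw [he, pow_one, ← hβ, map_pow, ← valuationOfNeZero_eq] at h1
  rcases Nat.eq_zero_or_pos n with hn | hn
  · subst hn
    rw [pow_zero] at h1
    have : v.valuationOfNeZero b = 1 := by exact_mod_cast h1
    rw [this]
    simp
  · have hβ0 : β ≠ 0 := by
      rintro rfl
      rw [zero_pow hn.ne'] at hβ
      exact b.ne_zero ((map_eq_zero _).1 hβ.symm)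
    have hy : w.valuation L β ≠ 0 := (Valuation.ne_zero_iff _).2 hβ0
    obtain ⟨u, hu⟩ := WithZero.ne_zero_iff_exists.1 hy
    rw [← hu] at h1
    have h2 : v.valuationOfNeZero b = u ^ n := by exact_mod_cast h1
    rw [h2]
    exact ⟨Multiplicative.toAdd u, by simp⟩

end AKLB

section NumberField

variable {K E : Type*} [Field K] [NumberField K] [Field E] [NumberField E] [Algebra K E]

omit [NumberField K] in
/-- The residue characteristic of a finite prime of a number field. -/
theorem exists_prime_natCast_mem (v : HeightOneSpectrum (𝓞 K)) :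
    ∃ q : ℕ, q.Prime ∧ ((q : ℕ) : 𝓞 K) ∈ v.asIdeal ∧
      v.asIdeal.under ℤ = Ideal.span {(q : ℤ)} := by
  have hprime : (v.asIdeal.under ℤ).IsPrime := inferInstance
  have hne : v.asIdeal.under ℤ ≠ ⊥ := Ideal.under_ne_bot ℤ v.ne_bot
  rcases Ideal.isPrime_int_iff.1 hprime with h | ⟨q, hq, h⟩
  · exact absurd h hne
  · refine ⟨q, hq, ?_, h⟩
    have : (q : ℤ) ∈ v.asIdeal.under ℤ := by
      rw [h]; exact Ideal.mem_span_singleton_self _
    rw [Ideal.under_def, Ideal.mem_comap] at this
    simpa using this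

/-- **Unramified `n`-th roots have valuation divisible by `n`.**  `E/K` number fields such that
every prime of `E` with residue characteristic outside `S` is unramified over `ℤ`; `v` a prime
of `K` with residue characteristic outside `S`.  If `b ∈ Kˣ` is an `n`-th power in `E`, then
`n ∣ v(b)`. -/
theorem dvd_toAdd_valuationOfNeZero_of_unramified (S : Set ℕ)
    (hE : ∀ (w : HeightOneSpectrum (𝓞 E)) (q : ℕ), q.Prime → q ∉ S →
      ((q : ℕ) : 𝓞 E) ∈ w.asIdeal → (Ideal.span {(q : ℤ)}).ramificationIdx' w.asIdeal = 1)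
    (v : HeightOneSpectrum (𝓞 K)) (hv : ∀ q ∈ S, ((q : ℕ) : 𝓞 K) ∉ v.asIdeal)
    (n : ℕ) (b : Kˣ) (β : E) (hβ : β ^ n = algebraMap K E (b : K)) :
    (n : ℤ) ∣ Multiplicative.toAdd (v.valuationOfNeZero b) := by
  obtain ⟨q, hq, hqv, hunder⟩ := exists_prime_natCast_mem v
  have hqS : q ∉ S := fun h => hv q h hqv
  obtain ⟨W, hWmax, hWover⟩ := Ideal.exists_maximal_ideal_liesOver_of_isIntegral (S := 𝓞 E) v.asIdeal
  have hWne : W ≠ ⊥ := by
    intro h
    have h1 : v.asIdeal = W.under (𝓞 K) := hWover.over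
    rw [h] at h1
    have : v.asIdeal = ⊥ := by
      rw [h1]
      exact Ideal.under_bot _ _
    exact v.ne_bot this
  let w : HeightOneSpectrum (𝓞 E) := ⟨W, hWmax.isPrime, hWne⟩
  have : w.asIdeal.LiesOver v.asIdeal := hWover
  have hqw : ((q : ℕ) : 𝓞 E) ∈ w.asIdeal := by
    have h1 : algebraMap (𝓞 K) (𝓞 E) ((q : ℕ) : 𝓞 K) ∈ W := by
      have : ((q : ℕ) : 𝓞 K) ∈ W.under (𝓞 K) := by rw [← hWover.over]; exact hqv
      exact this
    simpa using h1
  have he := hE w q hq hqS hqw
  have hq0 : ((q : ℤ)) ≠ 0 := by exact_mod_cast hq.ne_zero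
  have htower := Ideal.ramificationIdx'_algebra_tower (R := ℤ) (S := 𝓞 K) (T := 𝓞 E)
    (p := Ideal.span {(q : ℤ)}) (P := v.asIdeal) (Q := w.asIdeal) ?_ ?_ ?_
  · rw [he] at htower
    have he' : v.asIdeal.ramificationIdx' w.asIdeal = 1 :=
      (Nat.eq_one_of_mul_eq_one_left htower.symm)
    exact dvd_toAdd_valuationOfNeZero_of_pow_eq E v w he' n b β hβ
  · intro h
    rw [Ideal.map_eq_bot_iff_of_injective (FaithfulSMul.algebraMap_injective _ _)] at h
    exact v.ne_bot h
  · intro h
    rw [Ideal.map_eq_bot_iff_of_injective (FaithfulSMul.algebraMap_injective _ _)] at h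
    rw [Ideal.span_singleton_eq_bot] at h
    exact hq0 h
  · exact Ideal.map_le_iff_le_comap.2 (le_of_eq hWover.over)

end NumberField

/-- Finitely many representatives for the elements of a number field whose valuations outside a
finite set `S` of primes are all divisible by `n`. -/
theorem exists_finset_selmer_reps {F : Type*} [Field F] [NumberField F]
    {S : Set (HeightOneSpectrum (𝓞 F))} (hS : S.Finite) {n : ℕ} (hn : 0 < n) :
    ∃ R : Finset Fˣ, ∀ b : Fˣ,
      (∀ v : HeightOneSpectrum (𝓞 F), v ∉ S →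
        (n : ℤ) ∣ Multiplicative.toAdd (v.valuationOfNeZero b)) →
      ∃ r ∈ R, ∃ y : Fˣ, b = r * y ^ n := by
  classical
  haveI := selmerGroup_finite (F := F) hS hn
  haveI : Fintype (selmerGroup (R := 𝓞 F) (K := F) (S := S) (n := n)) := Fintype.ofFinite _
  refine ⟨Finset.univ.image
    (fun x : selmerGroup (R := 𝓞 F) (K := F) (S := S) (n := n) => Quotient.out x.1), ?_⟩
  intro b hb
  have hmem : (QuotientGroup.mk b : Fˣ ⧸ (powMonoidHom n : Fˣ →* Fˣ).range) ∈
      selmerGroup (R := 𝓞 F) (K := F) (S := S) (n := n) := by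
    intro v hv
    exact (valuationOfNeZeroMod_mk_eq_one_iff v n b).2 (hb v hv)
  refine ⟨Quotient.out (QuotientGroup.mk b : Fˣ ⧸ (powMonoidHom n : Fˣ →* Fˣ).range), ?_, ?_⟩
  · exact Finset.mem_image.2 ⟨⟨_, hmem⟩, Finset.mem_univ _, rfl⟩
  · have h1 : (QuotientGroup.mk (Quotient.out
        (QuotientGroup.mk b : Fˣ ⧸ (powMonoidHom n : Fˣ →* Fˣ).range)) :
        Fˣ ⧸ (powMonoidHom n : Fˣ →* Fˣ).range) = QuotientGroup.mk b :=
      Quotient.out_eq _
    rw [QuotientGroup.eq] at h1
    obtain ⟨y, hy⟩ := h1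
    refine ⟨y, ?_⟩
    simp only [powMonoidHom_apply] at hy
    rw [hy]
    simp

/-- Hilbert 90 for a character: a finite group `T` acting faithfully on a field `E` by
automorphisms, and a homomorphism `z : T → Eˣ` with `T`-fixed values.  Then `z` is a coboundary:
there is `β ≠ 0` with `σ β = z(σ) β`. -/
theorem exists_ne_zero_forall_smul_eq {E T : Type*} [Field E] [Group T] [Finite T]
    [MulSemiringAction T E] [FaithfulSMul T E]
    (z : T →* Eˣ) (hz : ∀ σ τ : T, σ • ((z τ : Eˣ) : E) = z τ) :
    ∃ β : E, β ≠ 0 ∧ ∀ σ : T, σ • β = (z σ : E) * β := by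
  classical
  have : Fintype T := Fintype.ofFinite T
  -- Dedekind independence
  have hli : LinearIndependent E (fun τ : T => ((MulSemiringAction.toRingHom T E τ : E →* E) : E → E)) := by
    refine LinearIndependent.comp (ι' := T) (linearIndependent_monoidHom E E)
      (fun τ => (MulSemiringAction.toRingHom T E τ : E →* E)) ?_
    intro σ τ h
    apply FaithfulSMul.eq_of_smul_eq_smul (α := E)
    intro x
    exact DFunLike.congr_fun h x
  have hne : ∃ x : E, ∑ τ : T, (((z τ)⁻¹ : Eˣ) : E) * τ • x ≠ 0 := by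
    by_contra hcon
    push Not at hcon
    have h0 : ∑ τ : T, (((z τ)⁻¹ : Eˣ) : E) •
        ((MulSemiringAction.toRingHom T E τ : E →* E) : E → E) = 0 := by
      funext x
      simp only [Finset.sum_apply, Pi.smul_apply, smul_eq_mul, Pi.zero_apply]
      exact hcon x
    have := (Fintype.linearIndependent_iff.1 hli) (fun τ => (((z τ)⁻¹ : Eˣ) : E)) h0 1
    exact Units.ne_zero _ this
  obtain ⟨x, hx⟩ := hne
  refine ⟨∑ τ : T, (((z τ)⁻¹ : Eˣ) : E) * τ • x, hx, fun σ => ?_⟩
  rw [Finset.smul_sum, Finset.mul_sum]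
  refine Fintype.sum_bijective (fun τ => σ * τ) (Group.mulLeft_bijective σ) _ _ (fun τ => ?_)
  have h2 : σ • (((z τ)⁻¹ : Eˣ) : E) = ((z τ)⁻¹ : Eˣ) := by
    rw [Units.val_inv_eq_inv_val, smul_inv'', hz σ τ]
  rw [smul_mul', ← mul_smul, h2, map_mul, ← mul_assoc, ← Units.val_mul, mul_inv,
    mul_inv_cancel_left]

end Fermat.Agent.S55.H901

end
-- ===== PACK-END S55/H901/H1FinCore.lean

-- ===== PACK-BEGIN S55/KL/H496/TrGroup.lean
section


/-!
# S55 / layer KL, leaf KL-TR (helper496), part 2: `U/(V ∩ U) ≃* Gal(M/E)`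

`U = Gal(Ω/E)`, `V = Gal(Ω/E')`, `M = E·E'`.
-/

set_option autoImplicit false

noncomputable section

namespace Fermat.Agent.S55.KL.H496

open IntermediateField Polynomial

variable {K Ω : Type} [Field K] [Field Ω] [Algebra K Ω] [IsGalois K Ω]
variable (E E' : IntermediateField K Ω) [FiniteDimensional K E'] [IsGalois K E']

instance normal_comp496 : Normal ↥E ↥(comp496 E E') :=
  (isGalois_comp496 E E').to_normal

/-- Restriction `Gal(Ω/E) = U → Gal(M/E)`. -/
def resHom496 : ↥E.fixingSubgroup →* (↥(comp496 E E') ≃ₐ[↥E] ↥(comp496 E E')) :=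
  (AlgEquiv.restrictNormalHom (F := ↥E) (K₁ := Ω) ↥(comp496 E E')).comp
    (IntermediateField.fixingSubgroupEquiv E).toMonoidHom

omit [IsGalois K Ω] in
theorem resHom496_apply (u : ↥E.fixingSubgroup) (x : ↥(comp496 E E')) :
    ((resHom496 E E' u x : ↥(comp496 E E')) : Ω) = (u : Ω ≃ₐ[K] Ω) (x : Ω) := by
  have := AlgEquiv.restrictNormalHom_apply (F := ↥E) (K₁ := Ω) (comp496 E E')
    (IntermediateField.fixingSubgroupEquiv E u) x
  exact this

theorem resHom496_surjective : Function.Surjective (resHom496 E E') := by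
  intro σ
  obtain ⟨τ, hτ⟩ := AlgEquiv.restrictNormalHom_surjective (F := ↥E) (K₁ := ↥(comp496 E E')) Ω σ
  obtain ⟨u, rfl⟩ := (IntermediateField.fixingSubgroupEquiv E).surjective τ
  exact ⟨u, hτ⟩

omit [IsGalois K Ω] in
theorem resHom496_ker :
    (resHom496 E E').ker = (E'.fixingSubgroup).subgroupOf E.fixingSubgroup := by
  ext u
  rw [MonoidHom.mem_ker, Subgroup.mem_subgroupOf, IntermediateField.mem_fixingSubgroup_iff]
  constructor
  · intro h x hx
    have hx' : x ∈ comp496 E E' := (le_sup_right : E' ≤ E ⊔ E') hx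
    have := resHom496_apply E E' u ⟨x, hx'⟩
    rw [h] at this
    exact this.symm
  · intro h
    ext ⟨x, hx⟩
    rw [resHom496_apply]
    show (u : Ω ≃ₐ[K] Ω) x = x
    have hu : (u : Ω ≃ₐ[K] Ω) ∈ (E ⊔ E').fixingSubgroup := by
      rw [IntermediateField.fixingSubgroup_sup]
      exact ⟨u.2, (IntermediateField.mem_fixingSubgroup_iff _ _).2 h⟩
    exact (IntermediateField.mem_fixingSubgroup_iff _ _).1 hu x hx

/-- `U/(V ∩ U) ≃* Gal(M/E)`. -/
def quotEquiv496 :
    (↥E.fixingSubgroup ⧸ (E'.fixingSubgroup).subgroupOf E.fixingSubgroup) ≃*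
      (↥(comp496 E E') ≃ₐ[↥E] ↥(comp496 E E')) :=
  (QuotientGroup.quotientMulEquivOfEq (resHom496_ker E E').symm).trans
    (QuotientGroup.quotientKerEquivOfSurjective (resHom496 E E') (resHom496_surjective E E'))

theorem quotEquiv496_mk (u : ↥E.fixingSubgroup) :
    quotEquiv496 E E' (QuotientGroup.mk u) = resHom496 E E' u := rfl

theorem card_quot496 :
    Nat.card (↥E.fixingSubgroup ⧸ (E'.fixingSubgroup).subgroupOf E.fixingSubgroup) =
      Module.finrank ↥E ↥(comp496 E E') := by
  have h1 := isGalois_comp496 E E'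
  have h2 := finiteDimensional_comp496 E E'
  rw [Nat.card_congr (quotEquiv496 E E').toEquiv, IsGalois.card_aut_eq_finrank]

end Fermat.Agent.S55.KL.H496

end
end
-- ===== PACK-END S55/KL/H496/TrGroup.lean

-- ===== PACK-BEGIN S56/Euler/IndSpec.lean
section


/-!
# Row S56 / wall W-BASE / Euler characteristic — leaf IND: FROZEN statements (helper366)

`IndStatement` (modular Artin induction): an additive `ℤ`-valued invariant of finite-dimensional
`𝔽_p[G]`-modules (`G` finite) which vanishes on all `𝔽_p[G/B] ⊗ N`, `B` cyclic of order prime to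
`p`, vanishes identically.

    IND ⇐ KEY + PERM + ARTIN        KEY ⇐ COMP + UNIQ        UNIQ ⇐ TRIND + TRSS
    (glue: `Euler/IndGlue.lean`)

Leaves (all Mathlib-only, independent of each other):
* `TraceIndepStatement` (TRIND): the trace functions `g ↦ tr(g | S_i)` of pairwise non-isomorphic
  simple modules are linearly independent over `𝔽_p`
  (Jacobson density `jacobson_density` + little Wedderburn + separability of finite fields).
* `TraceSSStatement` (TRSS): `tr(g | W) = tr(g_s | W)`, `g_s` the `p`-regular part of `g`.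
* `CompSeriesStatement` (COMP): composition factors `T_1..T_n` of `W`: every additive invariant
  satisfies `f W = ∑ f T_j`, and `charpoly(g | W) = ∏ charpoly(g | T_j)`.
* `PermCharpolyStatement` (PERM): for permutations `σ_i` of finite sets and one operator `T`:
  the (weighted) numbers of fixed points of all powers determine the (weighted) product of the
  characteristic polynomials of `σ_i ⊗ T` (cycle decomposition).
* `ArtinCountStatement` (ARTIN): Artin's formula on `p`-regular elements:
  `|G| = ∑_B a_B · |(G/B)^g|`, `B` cyclic of order prime to `p`, `a_B ∈ ℤ`.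

Plan and proofs on paper: `coord/S56-EULER-helper366.md` §2.  Nothing unproved in this file.
-/

set_option autoImplicit false

open Polynomial

noncomputable section

namespace Fermat.Agent.S56.Euler

/-- (IND) modular Artin induction for additive invariants. -/
def IndStatement : Prop :=
  ∀ (p : ℕ) [Fact p.Prime] (G : Type) [Group G] [Finite G] (f : RepInv (ZMod p) G),
    IsAdditiveInv f →
    (∀ B : Subgroup G, IsCyclic B → ¬ p ∣ Nat.card B →
      ∀ N : FDRepData (ZMod p) G, f (permData B N) = 0) →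
    ∀ N : FDRepData (ZMod p) G, f N = 0

/-- (TRIND) linear independence of the traces of pairwise non-isomorphic simple modules. -/
def TraceIndepStatement : Prop :=
  ∀ (p : ℕ) [Fact p.Prime] (G : Type) [Group G] [Finite G] (ι : Type) [Fintype ι]
    (S : ι → FDRepData (ZMod p) G),
    (∀ i, IsSimpleRep (S i)) → (∀ i j, RepIso (S i) (S j) → i = j) →
    ∀ a : ι → ZMod p,
      (∀ g : G, ∑ i, a i * LinearMap.trace (ZMod p) (S i).V ((S i).ρ g) = 0) →
      ∀ i, a i = 0

/-- (TRSS) the trace of `g` is the trace of a `p`-regular element (a power of `g`). -/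
def TraceSSStatement : Prop :=
  ∀ (p : ℕ) [Fact p.Prime] (G : Type) [Group G] [Finite G] (g : G),
    ∃ h : G, IsPRegular p h ∧ ∀ W : FDRepData (ZMod p) G,
      LinearMap.trace (ZMod p) W.V (W.ρ g) = LinearMap.trace (ZMod p) W.V (W.ρ h)

/-- (COMP) composition factors. -/
def CompSeriesStatement : Prop :=
  ∀ (k : Type) [Field k] (G : Type) [Group G] (W : FDRepData k G),
    ∃ (n : ℕ) (T : Fin n → FDRepData k G), (∀ j, IsSimpleRep (T j)) ∧
      (∀ f : RepInv k G, IsAdditiveInv f → f W = ∑ j, f (T j)) ∧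
      (∀ g : G, LinearMap.charpoly (W.ρ g) = ∏ j, LinearMap.charpoly ((T j).ρ g))

/-- (UNIQ) multiplicative independence of the characteristic polynomials on `p`-regular elements
(= uniqueness of composition multiplicities = independence of Brauer characters). -/
def UniqStatement : Prop :=
  ∀ (p : ℕ) [Fact p.Prime] (G : Type) [Group G] [Finite G] (ι : Type) [Fintype ι]
    (S : ι → FDRepData (ZMod p) G),
    (∀ i, IsSimpleRep (S i)) → (∀ i j, RepIso (S i) (S j) → i = j) →
    ∀ m m' : ι → ℕ,
      (∀ g : G, IsPRegular p g →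
        ∏ i, LinearMap.charpoly ((S i).ρ g) ^ m i = ∏ i, LinearMap.charpoly ((S i).ρ g) ^ m' i) →
      m = m'

/-- (KEY) additive invariants only see the characteristic polynomials of `p`-regular elements
(weighted form). -/
def KeyStatement : Prop :=
  ∀ (p : ℕ) [Fact p.Prime] (G : Type) [Group G] [Finite G] (I : Type) [Fintype I]
    (W : I → FDRepData (ZMod p) G) (n n' : I → ℕ),
    (∀ g : G, IsPRegular p g →
      ∏ i, LinearMap.charpoly ((W i).ρ g) ^ n i = ∏ i, LinearMap.charpoly ((W i).ρ g) ^ n' i) →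
    ∀ f : RepInv (ZMod p) G, IsAdditiveInv f →
      ∑ i, (n i : ℤ) * f (W i) = ∑ i, (n' i : ℤ) * f (W i)

/-- (PERM) characteristic polynomials of `σ ⊗ T` from fixed-point counts. -/
def PermCharpolyStatement : Prop :=
  ∀ (k : Type) [Field k] (N : Type) [AddCommGroup N] [Module k N] [Module.Finite k N]
    (T : N →ₗ[k] N) (I : Type) [Fintype I] (X : I → Type) [∀ i, Fintype (X i)]
    (σ : ∀ i, Equiv.Perm (X i)) (n n' : I → ℕ),
    (∀ t : ℕ, ∑ i, n i * Nat.card {x : X i // (σ i ^ t) x = x} =
      ∑ i, n' i * Nat.card {x : X i // (σ i ^ t) x = x}) →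
    ∏ i, LinearMap.charpoly (permTensor (⇑(σ i)) T) ^ n i =
      ∏ i, LinearMap.charpoly (permTensor (⇑(σ i)) T) ^ n' i

/-- (ARTIN) Artin's counting formula on `p`-regular elements. -/
def ArtinCountStatement : Prop :=
  ∀ (p : ℕ) [Fact p.Prime] (G : Type) [Group G] [Finite G],
    ∃ (s : Finset (Subgroup G)) (a : Subgroup G → ℤ),
      (∀ B ∈ s, IsCyclic B ∧ ¬ p ∣ Nat.card B) ∧
      ∀ g : G, IsPRegular p g →
        ∑ B ∈ s, a B * (Nat.card {x : G ⧸ B // g • x = x} : ℤ) = (Nat.card G : ℤ)

end Fermat.Agent.S56.Euler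

end

end
-- ===== PACK-END S56/Euler/IndSpec.lean

-- ===== PACK-BEGIN S56/Euler/H896/HerbAlg.lean
section
/-
S56 / W-BASE / leaf EUL-HERB (helper896), part 1: pure algebra (Mathlib + the landed
Mathlib-only file `S56/H486/T4Charpoly`).

* `charpoly_of_exact`     : multiplicativity of the characteristic polynomial in short exact
                            sequences of finite free modules;
* `cpMod p f`             : the characteristic polynomial of `f ⊗ 𝔽_p` on `𝔽_p ⊗ A` for an
                            endomorphism `f` of a finitely generated abelian group `A`;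
* `cpMod_free`            : `cpMod p f = f.charpoly mod p` for a lattice;
* `cpMod_of_exact`        : multiplicativity of `cpMod` in short exact sequences with FREE cokernel;
* `charpoly_eq_cpMod_of_model` : any model `π : A ↠ V`, `ker π = pA` of `A/pA` computes `cpMod`.
-/



set_option autoImplicit false
set_option linter.style.haveILetI false
set_option linter.unusedSimpArgs false

namespace Fermat.Agent.S56.Euler.H896

open Polynomial TensorProduct

/-! ## 1. Short exact sequences -/

section SES

variable {R : Type*} [CommRing R]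
  {V' V V'' : Type*} [AddCommGroup V'] [AddCommGroup V] [AddCommGroup V'']
  [Module R V'] [Module R V] [Module R V'']
  [Module.Free R V'] [Module.Finite R V'] [Module.Free R V] [Module.Finite R V]
  [Module.Free R V''] [Module.Finite R V'']

/-- The characteristic polynomial is multiplicative in short exact sequences of finite free
modules with compatible endomorphisms. -/
theorem charpoly_of_exact (i : V' →ₗ[R] V) (q : V →ₗ[R] V'')
    (hi : Function.Injective i) (hq : Function.Surjective q) (hex : Function.Exact i q)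
    (f' : V' →ₗ[R] V') (f : V →ₗ[R] V) (f'' : V'' →ₗ[R] V'')
    (h1 : ∀ x, i (f' x) = f (i x)) (h2 : ∀ x, q (f x) = f'' (q x)) :
    f.charpoly = f'.charpoly * f''.charpoly := by
  classical
  set W : Submodule R V := LinearMap.range i with hW
  have hker : LinearMap.ker q = W := (LinearMap.exact_iff.mp hex)
  let e1 : V' ≃ₗ[R] W := LinearEquiv.ofInjective i hi
  let e2 : (V ⧸ W) ≃ₗ[R] V'' :=
    (Submodule.quotEquivOfEq W (LinearMap.ker q) hker.symm).trans (q.quotKerEquivOfSurjective hq)
  haveI : Module.Free R W := Module.Free.of_equiv e1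
  haveI : Module.Finite R W := Module.Finite.equiv e1
  haveI : Module.Free R (V ⧸ W) := Module.Free.of_equiv e2.symm
  have he : W ≤ W.comap f := by
    rintro _ ⟨x, rfl⟩
    exact ⟨f' x, h1 x⟩
  rw [Fermat.Agent.S56.H486.t4_charpoly_eq_restrict_mul_mapQ W f he]
  congr 1
  · symm
    apply Fermat.Agent.S56.H486.t4_charpoly_eq_of_equiv e1
    intro x
    apply Subtype.ext
    change i (f' x) = f (i x)
    exact h1 x
  · apply Fermat.Agent.S56.H486.t4_charpoly_eq_of_equiv e2
    intro x
    induction x using Submodule.Quotient.induction_on with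
    | _ x =>
      simp only [Submodule.mapQ_apply]
      change q (f x) = f'' (q x)
      exact h2 x

end SES

/-! ## 2. The characteristic polynomial mod `p` of an endomorphism of a f.g. abelian group -/

section CpMod

variable (p : ℕ) [Fact p.Prime]

/-- The characteristic polynomial of `f ⊗ 𝔽_p` acting on `𝔽_p ⊗_ℤ A`. -/
noncomputable def cpMod {A : Type*} [AddCommGroup A] [Module.Finite ℤ A] (f : A →ₗ[ℤ] A) :
    (ZMod p)[X] :=
  (f.baseChange (ZMod p)).charpoly

/-- For a lattice, `cpMod` is the reduction of the integral characteristic polynomial. -/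
theorem cpMod_free {A : Type*} [AddCommGroup A] [Module.Finite ℤ A] [Module.Free ℤ A]
    (f : A →ₗ[ℤ] A) : cpMod p f = f.charpoly.map (Int.castRingHom (ZMod p)) := by
  unfold cpMod
  rw [LinearMap.charpoly_baseChange]
  rfl

/-- Equivariantly isomorphic endomorphisms have the same `cpMod`. -/
theorem cpMod_congr {A B : Type*} [AddCommGroup A] [Module.Finite ℤ A] [AddCommGroup B]
    [Module.Finite ℤ B] (e : A ≃ₗ[ℤ] B) (f : A →ₗ[ℤ] A) (g : B →ₗ[ℤ] B)
    (h : ∀ x, e (f x) = g (e x)) : cpMod p f = cpMod p g := by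
  unfold cpMod
  apply Fermat.Agent.S56.H486.t4_charpoly_eq_of_equiv (e.baseChange ℤ (ZMod p) A B)
  intro x
  induction x using TensorProduct.induction_on with
  | zero => simp
  | tmul a x => simp [h]
  | add x y hx hy => simp only [map_add, hx, hy]

/-- `cpMod` is multiplicative in short exact sequences with free cokernel. -/
theorem cpMod_of_exact {A' A A'' : Type*} [AddCommGroup A'] [AddCommGroup A] [AddCommGroup A'']
    [Module.Finite ℤ A'] [Module.Finite ℤ A] [Module.Finite ℤ A''] [Module.Free ℤ A'']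
    (i : A' →ₗ[ℤ] A) (q : A →ₗ[ℤ] A'')
    (hi : Function.Injective i) (hq : Function.Surjective q) (hex : Function.Exact i q)
    (f' : A' →ₗ[ℤ] A') (f : A →ₗ[ℤ] A) (f'' : A'' →ₗ[ℤ] A'')
    (h1 : ∀ x, i (f' x) = f (i x)) (h2 : ∀ x, q (f x) = f'' (q x)) :
    cpMod p f = cpMod p f' * cpMod p f'' := by
  classical
  unfold cpMod
  -- a section of `q` and the induced retraction of `i`
  obtain ⟨s, hs⟩ := Module.projective_lifting_property q LinearMap.id hq
  have hs' : ∀ x, q (s x) = x := fun x => by
    have := congrArg (fun l => l x) hs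
    simpa using this
  have hmem : ∀ a : A, a - s (q a) ∈ LinearMap.range i := by
    intro a
    rw [← LinearMap.exact_iff.mp hex, LinearMap.mem_ker, map_sub, hs', sub_self]
  let e1 : A' ≃ₗ[ℤ] LinearMap.range i := LinearEquiv.ofInjective i hi
  let r : A →ₗ[ℤ] A' :=
    e1.symm.toLinearMap ∘ₗ
      (LinearMap.codRestrict (LinearMap.range i) (LinearMap.id - s ∘ₗ q) hmem)
  have hr : r ∘ₗ i = LinearMap.id := by
    ext x
    have h0 : q (i x) = 0 := hex.apply_apply_eq_zero x
    have : LinearMap.codRestrict (LinearMap.range i) (LinearMap.id - s ∘ₗ q) hmem (i x) =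
        e1 x := by
      apply Subtype.ext
      simp [e1, h0]
    simp [r, this]
  have hinj : Function.Injective (i.baseChange (ZMod p)) := by
    have h : (r.baseChange (ZMod p)) ∘ₗ (i.baseChange (ZMod p)) = LinearMap.id := by
      rw [← LinearMap.baseChange_comp, hr, LinearMap.baseChange_id]
    exact Function.LeftInverse.injective (g := r.baseChange (ZMod p))
      (fun x => by
        have := congrArg (fun l => l x) h
        simpa using this)
  have hsurj : Function.Surjective (q.baseChange (ZMod p)) := by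
    rw [LinearMap.baseChange_eq_ltensor]
    exact LinearMap.lTensor_surjective _ hq
  have hexact : Function.Exact (i.baseChange (ZMod p)) (q.baseChange (ZMod p)) := by
    rw [LinearMap.baseChange_eq_ltensor, LinearMap.baseChange_eq_ltensor]
    exact lTensor_exact (ZMod p) hex hq
  apply charpoly_of_exact (i.baseChange (ZMod p)) (q.baseChange (ZMod p)) hinj hsurj hexact
  · intro x
    induction x using TensorProduct.induction_on with
    | zero => simp
    | tmul a x => simp [h1]
    | add x y hx hy => simp only [map_add, hx, hy]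
  · intro x
    induction x using TensorProduct.induction_on with
    | zero => simp
    | tmul a x => simp [h2]
    | add x y hx hy => simp only [map_add, hx, hy]

/-- Every element of `𝔽_p ⊗ A` is of the form `1 ⊗ a`. -/
theorem exists_one_tmul {A : Type*} [AddCommGroup A] (x : ZMod p ⊗[ℤ] A) :
    ∃ a : A, x = (1 : ZMod p) ⊗ₜ[ℤ] a := by
  induction x using TensorProduct.induction_on with
  | zero => exact ⟨0, by simp⟩
  | tmul c a =>
    obtain ⟨n, rfl⟩ := ZMod.intCast_surjective c
    refine ⟨n • a, ?_⟩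
    rw [TensorProduct.tmul_smul, TensorProduct.smul_tmul', zsmul_one]
  | add x y hx hy =>
    obtain ⟨a, rfl⟩ := hx
    obtain ⟨b, rfl⟩ := hy
    exact ⟨a + b, by rw [TensorProduct.tmul_add]⟩

/-- **Models.** If `π : A ↠ V` is a surjection onto an `𝔽_p`-vector space with kernel `pA` and
`g` is the endomorphism of `V` induced by `f`, then `g.charpoly = cpMod p f`. -/
theorem charpoly_eq_cpMod_of_model {A : Type*} [AddCommGroup A] [Module.Finite ℤ A]
    (f : A →ₗ[ℤ] A)
    {V : Type*} [AddCommGroup V] [Module (ZMod p) V] [Module.Finite (ZMod p) V]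
    (g : V →ₗ[ZMod p] V) (π : A →+ V) (hπ : Function.Surjective π)
    (hπk : ∀ a, π a = 0 → ∃ b, a = p • b) (hg : ∀ a, π (f a) = g (π a)) :
    g.charpoly = cpMod p f := by
  classical
  unfold cpMod
  symm
  let l : ZMod p ⊗[ℤ] A →ₗ[ZMod p] V := LinearMap.liftBaseChange (ZMod p) π.toIntLinearMap
  have hl : ∀ (c : ZMod p) (a : A), l (c ⊗ₜ a) = c • π a := by
    intro c a
    simp [l]
  have hlinj : Function.Injective l := by
    rw [injective_iff_map_eq_zero]
    intro x hx
    obtain ⟨a, rfl⟩ := exists_one_tmul p x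
    rw [hl, one_smul] at hx
    obtain ⟨b, rfl⟩ := hπk a hx
    rw [← Nat.cast_smul_eq_nsmul ℤ, TensorProduct.tmul_smul, TensorProduct.smul_tmul']
    simp
  have hlsurj : Function.Surjective l := by
    intro v
    obtain ⟨a, rfl⟩ := hπ v
    exact ⟨1 ⊗ₜ a, by rw [hl, one_smul]⟩
  apply Fermat.Agent.S56.H486.t4_charpoly_eq_of_equiv (LinearEquiv.ofBijective l ⟨hlinj, hlsurj⟩)
  intro x
  obtain ⟨a, rfl⟩ := exists_one_tmul p x
  rw [LinearMap.baseChange_tmul]
  change l (1 ⊗ₜ f a) = g (l (1 ⊗ₜ a))
  rw [hl, hl, one_smul, one_smul, hg]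

end CpMod

/-! ## 3. Lattices: comparison of characteristic polynomials -/

section Lattice

/-- **Base change along a basis.**  If `j : Λ → W` is an `R`-linear equivariant map from a free
`R`-module to a free `S`-module carrying a basis to a basis, the characteristic polynomial on `W`
is the image of the one on `Λ`. -/
theorem charpoly_map_of_basis {R S : Type*} [CommRing R] [CommRing S] [Algebra R S]
    {Λ W : Type*} [AddCommGroup Λ] [Module R Λ] [AddCommGroup W] [Module S W] [Module R W]
    [IsScalarTower R S W]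
    [Module.Free R Λ] [Module.Finite R Λ] [Module.Free S W] [Module.Finite S W]
    {ι : Type*} [Fintype ι] [DecidableEq ι] (bΛ : Module.Basis ι R Λ) (bW : Module.Basis ι S W)
    (j : Λ →ₗ[R] W) (hj : ∀ i, j (bΛ i) = bW i)
    (f : Λ →ₗ[R] Λ) (F : W →ₗ[S] W) (hf : ∀ x, j (f x) = F (j x)) :
    F.charpoly = f.charpoly.map (algebraMap R S) := by
  have key : ∀ x : Λ, ∀ i, bW.repr (j x) i = algebraMap R S (bΛ.repr x i) := by
    intro x i
    have hx : j x = ∑ l, (algebraMap R S (bΛ.repr x l)) • bW l := by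
      conv_lhs => rw [← bΛ.sum_repr x]
      rw [map_sum]
      refine Finset.sum_congr rfl fun l _ => ?_
      rw [map_smul, hj, algebraMap_smul]
    rw [hx, bW.repr_sum_self]
  rw [← F.charpoly_toMatrix bW, ← f.charpoly_toMatrix bΛ, ← Matrix.charpoly_map]
  congr 1
  ext i k
  rw [LinearMap.toMatrix_apply, Matrix.map_apply, LinearMap.toMatrix_apply, ← hj, ← hf, key]

/-- **Isogenous lattices.**  Two lattices related by equivariant maps `j`, `k` with
`j ∘ k = m`, `k ∘ j = m` (`m ≠ 0`) have the same characteristic polynomial. -/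
theorem charpoly_eq_of_isogeny {Λ' Λ₀ : Type*} [AddCommGroup Λ'] [AddCommGroup Λ₀]
    [Module.Free ℤ Λ'] [Module.Finite ℤ Λ'] [Module.Free ℤ Λ₀] [Module.Finite ℤ Λ₀]
    (j : Λ' →ₗ[ℤ] Λ₀) (k : Λ₀ →ₗ[ℤ] Λ') (m : ℤ) (hm : m ≠ 0)
    (hjk : ∀ x, j (k x) = m • x) (hkj : ∀ x, k (j x) = m • x)
    (f' : Λ' →ₗ[ℤ] Λ') (f₀ : Λ₀ →ₗ[ℤ] Λ₀) (h : ∀ x, j (f' x) = f₀ (j x)) :
    f'.charpoly = f₀.charpoly := by
  apply Polynomial.map_injective (Int.castRingHom ℚ) Int.cast_injective
  have e1 := LinearMap.charpoly_baseChange f' ℚ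
  have e2 := LinearMap.charpoly_baseChange f₀ ℚ
  change _ = f'.charpoly.map (Int.castRingHom ℚ) at e1
  change _ = f₀.charpoly.map (Int.castRingHom ℚ) at e2
  rw [← e1, ← e2]
  have hmQ : (m : ℚ) ≠ 0 := by exact_mod_cast hm
  have h1 : (j.baseChange ℚ) ∘ₗ ((m : ℚ)⁻¹ • k.baseChange ℚ) = LinearMap.id := by
    ext x
    simp only [TensorProduct.AlgebraTensorModule.curry_apply, LinearMap.restrictScalars_comp,
      TensorProduct.curry_apply, LinearMap.coe_comp, LinearMap.coe_restrictScalars,
      Function.comp_apply, LinearMap.smul_apply, LinearMap.baseChange_tmul, map_smul, hjk,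
      LinearMap.id_coe, id_eq]
    rw [TensorProduct.tmul_smul, ← Int.cast_smul_eq_zsmul ℚ, smul_smul, inv_mul_cancel₀ hmQ,
      one_smul]
  have h2 : ((m : ℚ)⁻¹ • k.baseChange ℚ) ∘ₗ (j.baseChange ℚ) = LinearMap.id := by
    ext x
    simp only [TensorProduct.AlgebraTensorModule.curry_apply, LinearMap.restrictScalars_comp,
      TensorProduct.curry_apply, LinearMap.coe_comp, LinearMap.coe_restrictScalars,
      Function.comp_apply, LinearMap.smul_apply, LinearMap.baseChange_tmul, hkj,
      LinearMap.id_coe, id_eq]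
    rw [TensorProduct.tmul_smul, ← Int.cast_smul_eq_zsmul ℚ, smul_smul, inv_mul_cancel₀ hmQ,
      one_smul]
  apply Fermat.Agent.S56.H486.t4_charpoly_eq_of_equiv
    (LinearEquiv.ofLinearMap (j.baseChange ℚ) ((m : ℚ)⁻¹ • k.baseChange ℚ) h1 h2)
  intro x
  induction x using TensorProduct.induction_on with
  | zero => simp
  | tmul a x => simp [h]
  | add x y hx hy => simp only [map_add, hx, hy]

/-- The permutation-type endomorphism `a ↦ a ∘ s` of `X → R`. -/
abbrev permLin (R : Type*) [CommRing R] {X : Type*} (s : X → X) : (X → R) →ₗ[R] (X → R) :=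
  LinearMap.funLeft R R s

/-- The characteristic polynomial of `permLin` is compatible with change of rings. -/
theorem permLin_charpoly_map (R S : Type*) [CommRing R] [CommRing S] [Algebra R S]
    {X : Type*} [Fintype X] (s : X → X) :
    (permLin S s).charpoly = (permLin R s).charpoly.map (algebraMap R S) := by
  classical
  letI : Module R (X → S) := Pi.module _ _ _
  apply charpoly_map_of_basis (Pi.basisFun R X) (Pi.basisFun S X)
    ((Algebra.linearMap R S).compLeft X)
  · intro i
    ext x
    by_cases hx : x = i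
    · subst hx; simp
    · simp [hx]
  · intro a
    ext x
    simp [LinearMap.funLeft]

end Lattice

end Fermat.Agent.S56.Euler.H896

end
-- ===== PACK-END S56/Euler/H896/HerbAlg.lean

-- ===== PACK-BEGIN S55/KL/FinLocCoreH539.lean
section


/-!
# S55 / layer KL, leaf KL-P1 (core): finiteness of `H¹_lc(G, N)` from finiteness of the
`p`-Frattini quotients

Setting: an abstract group `G` with a level system `L` whose levels have finite index, a field
`k`, and a uniformly smooth representation `N` of `G` over `k`, finite-dimensional.  Suppose that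
for every level `U` there is a level `V ≤ U` which is killed by every level-constant function
`χ : G → k` that is additive on `U`.  Then `H¹_lc(G, N)` is finite-dimensional.

Proof: let `U` act trivially on `N`, and `V ≤ U` as above.  For a level-constant `1`-cocycle `c`
and a functional `ℓ` on `N` the function `ℓ ∘ c` is level-constant and additive on `U`, hence
vanishes on `V`; so `c` vanishes on `V` and is therefore right-`V`-invariant.  The space of
right-`V`-invariant functions `G → N` is `(G ⧸ V → N)`, which is finite-dimensional.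

This file imports only `PT/Levels.lean`.
-/

set_option autoImplicit false
set_option linter.style.haveILetI false

noncomputable section

namespace Fermat.Agent.S55.KL.H539

open groupCohomology Fermat.Agent.S55.PT

variable {G : Type} [Group G] {k : Type} [Field k]

/-- The space of right-`V`-invariant functions `G → N`. -/
def constMod (V : Subgroup G) (N : Type) [AddCommGroup N] [Module k N] : Submodule k (G → N) where
  carrier := {f | ∀ g s : G, s ∈ V → f (g * s) = f g}
  add_mem' := by
    intro f f' hf hf' g s hs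
    simp only [Pi.add_apply, hf g s hs, hf' g s hs]
  zero_mem' := fun _ _ _ => rfl
  smul_mem' := by
    intro c f hf g s hs
    simp only [Pi.smul_apply, hf g s hs]

lemma mem_constMod_iff (V : Subgroup G) (N : Type) [AddCommGroup N] [Module k N] (f : G → N) :
    f ∈ constMod (k := k) V N ↔ ∀ g s : G, s ∈ V → f (g * s) = f g := Iff.rfl

/-- Restriction of a right-`V`-invariant function to `G ⧸ V`, as a linear map into
`(G ⧸ V → N)`; injective. -/
def constModToQuot (V : Subgroup G) (N : Type) [AddCommGroup N] [Module k N] :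
    ↥(constMod (k := k) V N) →ₗ[k] (G ⧸ V → N) where
  toFun f := fun x => (f : G → N) (Quotient.out x)
  map_add' _ _ := rfl
  map_smul' _ _ := rfl

lemma constModToQuot_injective (V : Subgroup G) (N : Type) [AddCommGroup N] [Module k N] :
    Function.Injective (constModToQuot (k := k) V N) := by
  intro f f' h
  apply Subtype.ext
  funext g
  obtain ⟨u, hu⟩ := QuotientGroup.mk_out_eq_mul V g
  have h1 := congrFun h (g : G ⧸ V)
  simp only [constModToQuot, LinearMap.coe_mk, AddHom.coe_mk] at h1
  rw [hu] at h1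
  rw [f.2 g u u.2, f'.2 g u u.2] at h1
  exact h1

/-- The space of right-`V`-invariant functions is finite-dimensional if `V` has finite index and
`N` is finite-dimensional. -/
lemma finiteDimensional_constMod (V : Subgroup G) [V.FiniteIndex] (N : Type) [AddCommGroup N]
    [Module k N] [FiniteDimensional k N] : FiniteDimensional k ↥(constMod (k := k) V N) := by
  haveI : Finite (G ⧸ V) := Subgroup.finite_quotient_of_finiteIndex
  haveI : Fintype (G ⧸ V) := Fintype.ofFinite _
  exact FiniteDimensional.of_injective (constModToQuot (k := k) V N)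
    (constModToQuot_injective V N)

/-- A cocycle whose composites with all functionals vanish on `V` is right-`V`-invariant. -/
lemma cocycle_mem_constMod (N : Rep.{0, 0, 0} k G) (V : Subgroup G) (c : G → N)
    (hc : c ∈ cocycles₁ N) (hV : ∀ s ∈ V, c s = 0) : c ∈ constMod (k := k) V N := by
  intro g s hs
  have h := (mem_cocycles₁_iff c).1 hc g s
  rw [h, hV s hs, map_zero, zero_add]

/-- **KL-P1 (core).**  Finiteness of the `p`-Frattini quotients (in the cochain form of
`KL.PFrattiniFinite`, over any field `k`) implies that `H¹_lc(G, N)` is finite-dimensional for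
every finite-dimensional uniformly smooth `N`. -/
theorem finiteDimensional_H1_of_frattini (L : LevelSys G) (hFI : L.FiniteIndex)
    (hFr : ∀ U ∈ L.levels, ∃ V ∈ L.levels, V ≤ U ∧
      ∀ χ : G → k, (∀ s t : G, s ∈ U → t ∈ U → χ (s * t) = χ s + χ t) → L.IsLC₁ χ →
        ∀ s ∈ V, χ s = 0)
    (N : Rep.{0, 0, 0} k G) [FiniteDimensional k N] (hN : L.IsUSmooth N) :
    FiniteDimensional k (L.H1 N) := by
  obtain ⟨U, hU, hUN⟩ := hN
  obtain ⟨V, hV, hVU, hkill⟩ := hFr U hU
  haveI : V.FiniteIndex := hFI V hV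
  -- every level-constant cocycle is right-`V`-invariant
  have hle : L.Z1 N ≤ constMod (k := k) V N := by
    intro c hc
    apply cocycle_mem_constMod N V c hc.1
    intro s hs
    -- all functionals vanish on `c s`
    rw [← Module.forall_dual_apply_eq_zero_iff k (c s)]
    intro ℓ
    have hadd : ∀ s t : G, s ∈ U → t ∈ U → (ℓ ∘ c) (s * t) = (ℓ ∘ c) s + (ℓ ∘ c) t := by
      intro s t hs _
      have h := (mem_cocycles₁_iff c).1 hc.1 s t
      simp only [Function.comp_apply]
      rw [h, hUN s hs (c t), map_add, add_comm]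
    exact hkill (ℓ ∘ c) hadd (LevelSys.IsLC₁.comp hc.2 ℓ) s hs
  haveI : FiniteDimensional k ↥(constMod (k := k) V N) := finiteDimensional_constMod V N
  haveI : FiniteDimensional k ↥(L.Z1 N) :=
    FiniteDimensional.of_injective (Submodule.inclusion hle) (Submodule.inclusion_injective hle)
  exact Module.Finite.of_surjective (L.H1π N) (L.H1π_surjective N)

/-- Set-theoretic finiteness of the level-constant cocycles, for a finite field. -/
theorem finite_Z1_of_frattini [Finite k] (L : LevelSys G) (hFI : L.FiniteIndex)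
    (hFr : ∀ U ∈ L.levels, ∃ V ∈ L.levels, V ≤ U ∧
      ∀ χ : G → k, (∀ s t : G, s ∈ U → t ∈ U → χ (s * t) = χ s + χ t) → L.IsLC₁ χ →
        ∀ s ∈ V, χ s = 0)
    (N : Rep.{0, 0, 0} k G) [FiniteDimensional k N] (hN : L.IsUSmooth N) :
    Finite (L.H1 N) := by
  haveI := finiteDimensional_H1_of_frattini L hFI hFr N hN
  exact Module.finite_of_finite k

end Fermat.Agent.S55.KL.H539

end

end
-- ===== PACK-END S55/KL/FinLocCoreH539.lean

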