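import Mathlib
import Fermat.Prelude.Def_FLTPrelim_Ramification
import Fermat.Prelude.Def_EllipticCurve_FrobeniusTrace
import Fermat.Prelude.Def_GaloisRep_Flat
import Fermat.Prelude.Def_GaloisRep_CompletionBridge
import Fermat.Prelude.Def_ExtEndgame_ProductionDatum
import Fermat.Prelude.Thm_Algebra_finite_maximalSpectrum_and_bijective_localization_of_module_finite
import Fermat.Prelude.Thm_IsLocalRing_isAdicComplete_of_module_finite
import Fermat.Agent.Pack.S56.E3L3
import Fermat.Agent.Pack.S56.E0L1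
import Fermat.Agent.Pack.S56.E3L0
import Fermat.Agent.Pack.S56.E0L0
import Fermat.Agent.Pack.S56.E1L3
import Fermat.Agent.Pack.S56.E4L2
import Fermat.Agent.Pack.S56.E1L1
import Fermat.Agent.Pack.S56.E1L2
import Fermat.Agent.Pack.S56.E4L3
import Fermat.Agent.Pack.S56.E4L0

-- ===== PACK-BEGIN S55/Bridge/InertiaConj.lean
section


/-!
# S55 bridge: inertia groups of valuation subrings of `ℚ̄` — membership criterion, conjugation,
and normal (Galois) levels unramified outside `S`.
-/

set_option autoImplicit false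

namespace Fermat.Agent.S55.Bridge

open IntermediateField
open scoped Pointwise

attribute [local instance] isAlgebraic_Qbar isGalois_Qbar

section inertia

variable (A : ValuationSubring (AlgebraicClosure ℚ))

/-- Membership in the decomposition group, elementwise. -/
theorem mem_decompositionSubgroup_iff (σ : AlgebraicClosure ℚ ≃ₐ[ℚ] AlgebraicClosure ℚ) :
    σ ∈ A.decompositionSubgroup ℚ ↔ ∀ x, σ x ∈ A ↔ x ∈ A := by
  rw [MulAction.mem_stabilizer_iff]
  constructor
  · intro h x
    have hinv : σ⁻¹ • A = A := by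
      conv_lhs => rw [← h]
      rw [inv_smul_smul]
    have h1 := ValuationSubring.mem_pointwise_smul_iff_inv_smul_mem (S := A)
      (g := σ⁻¹) (x := x)
    rw [hinv, inv_inv] at h1
    rw [h1]
    rfl
  · intro h
    apply SetLike.ext
    intro x
    rw [ValuationSubring.mem_pointwise_smul_iff_inv_smul_mem]
    have h2 := h (σ⁻¹ • x)
    rw [AlgEquiv.smul_def] at h2 ⊢
    rw [← h2]
    have : σ (σ⁻¹ x) = x := by
      show (σ * σ⁻¹) x = x
      rw [mul_inv_cancel]
      rfl
    rw [this]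

/-- Membership in the inertia group, elementwise. -/
theorem mem_inertiaSubgroupIn_iff (σ : AlgebraicClosure ℚ ≃ₐ[ℚ] AlgebraicClosure ℚ) :
    σ ∈ A.inertiaSubgroupIn ℚ ↔
      σ ∈ A.decompositionSubgroup ℚ ∧ ∀ z ∈ A, σ z - z ∈ A.nonunits := by
  constructor
  · intro hσ
    have hD : σ ∈ A.decompositionSubgroup ℚ := by
      obtain ⟨g, -, rfl⟩ := hσ
      exact g.2
    refine ⟨hD, fun z hz => ?_⟩
    rw [ValuationSubring.mem_nonunits_iff]
    exact inertia_val_sub_lt_one A hσ z ((A.valuation_le_one_iff z).2 hz)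
  · rintro ⟨hD, h⟩
    refine ⟨⟨σ, hD⟩, ?_, rfl⟩
    show (⟨σ, hD⟩ : A.decompositionSubgroup ℚ) ∈ MonoidHom.ker
      (MulSemiringAction.toRingAut (A.decompositionSubgroup ℚ) (IsLocalRing.ResidueField A))
    rw [MonoidHom.mem_ker]
    apply RingEquiv.ext
    intro y
    obtain ⟨x, rfl⟩ := IsLocalRing.residue_surjective y
    show (⟨σ, hD⟩ : A.decompositionSubgroup ℚ) • (IsLocalRing.residue A x)
      = IsLocalRing.residue A x
    rw [← IsLocalRing.ResidueField.residue_smul]
    rw [← sub_eq_zero, ← map_sub, IsLocalRing.residue_eq_zero_iff]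
    have h3 := h x.1 x.2
    rw [ValuationSubring.mem_nonunits_iff] at h3
    rw [ValuationSubring.valuation_lt_one_iff]
    exact h3

theorem mem_smul_valuationSubring_iff (b : AlgebraicClosure ℚ ≃ₐ[ℚ] AlgebraicClosure ℚ)
    (x : AlgebraicClosure ℚ) : x ∈ b • A ↔ b⁻¹ x ∈ A := by
  rw [ValuationSubring.mem_pointwise_smul_iff_inv_smul_mem]
  rfl

theorem mem_nonunits_iff_inv_not_mem (x : AlgebraicClosure ℚ) :
    x ∈ A.nonunits ↔ x = 0 ∨ x⁻¹ ∉ A := by
  rw [ValuationSubring.mem_nonunits_iff]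
  rcases eq_or_ne x 0 with rfl | hx
  · simp
  · simp only [hx, false_or]
    rw [← A.valuation_le_one_iff, map_inv₀, not_le]
    have hpos : 0 < A.valuation x := by
      rw [zero_lt_iff]
      exact (A.valuation.ne_zero_iff).2 hx
    rw [one_lt_inv₀ hpos]

theorem mem_nonunits_smul_iff (b : AlgebraicClosure ℚ ≃ₐ[ℚ] AlgebraicClosure ℚ)
    (x : AlgebraicClosure ℚ) : x ∈ (b • A).nonunits ↔ b⁻¹ x ∈ A.nonunits := by
  rw [mem_nonunits_iff_inv_not_mem, mem_nonunits_iff_inv_not_mem, mem_smul_valuationSubring_iff,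
    map_inv₀]
  have : b⁻¹ x = 0 ↔ x = 0 := by
    rw [map_eq_zero_iff _ (b⁻¹).injective]
  rw [this]

theorem liesOverPrime_smul (b : AlgebraicClosure ℚ ≃ₐ[ℚ] AlgebraicClosure ℚ) (q : ℕ)
    (hA : A.LiesOverPrime q) : (b • A).LiesOverPrime q := by
  show (q : AlgebraicClosure ℚ) ∈ (b • A).nonunits
  rw [mem_nonunits_smul_iff, map_natCast]
  exact hA

theorem apply_inv_conj (b σ : AlgebraicClosure ℚ ≃ₐ[ℚ] AlgebraicClosure ℚ)
    (x : AlgebraicClosure ℚ) : b⁻¹ ((b * σ * b⁻¹) x) = σ (b⁻¹ x) := by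
  show (b⁻¹ * (b * σ * b⁻¹)) x = (σ * b⁻¹) x
  congr 1
  group

/-- Conjugation carries the inertia group of `A` to that of `b • A`. -/
theorem conj_mem_inertiaSubgroupIn (b σ : AlgebraicClosure ℚ ≃ₐ[ℚ] AlgebraicClosure ℚ)
    (hσ : σ ∈ A.inertiaSubgroupIn ℚ) : b * σ * b⁻¹ ∈ (b • A).inertiaSubgroupIn ℚ := by
  rw [mem_inertiaSubgroupIn_iff] at hσ ⊢
  obtain ⟨hD, hI⟩ := hσ
  rw [mem_decompositionSubgroup_iff] at hD
  refine ⟨?_, ?_⟩
  · rw [mem_decompositionSubgroup_iff]
    intro x
    rw [mem_smul_valuationSubring_iff, mem_smul_valuationSubring_iff, apply_inv_conj, hD]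
  · intro z hz
    rw [mem_smul_valuationSubring_iff] at hz
    rw [mem_nonunits_smul_iff, map_sub, apply_inv_conj]
    exact hI _ hz

end inertia

section Levels

variable (S : Finset Nat.Primes)

/-- Every finite extension unramified outside `S` is contained in a finite GALOIS extension
unramified outside `S`. -/
theorem exists_galois_level_ge (F : IntermediateField ℚ (AlgebraicClosure ℚ))
    (hF : F.IsUnramifiedOutside S) :
    ∃ L : IntermediateField ℚ (AlgebraicClosure ℚ),
      L.IsUnramifiedOutside S ∧ IsGalois ℚ L ∧ F ≤ L := by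
  haveI := hF.1
  haveI : (F.fixingSubgroup.normalCore).Normal := Subgroup.normalCore_normal _
  -- the normal closure is a finite Galois extension containing `F`
  have hfinN : FiniteDimensional ℚ (IntermediateField.normalClosure ℚ F (AlgebraicClosure ℚ)) :=
    normalClosure.is_finiteDimensional ℚ F (AlgebraicClosure ℚ)
  have hgalN : IsGalois ℚ (IntermediateField.normalClosure ℚ F (AlgebraicClosure ℚ)) :=
    IsGalois.normalClosure ℚ F (AlgebraicClosure ℚ)
  have hnormal : (IntermediateField.normalClosure ℚ F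
      (AlgebraicClosure ℚ)).fixingSubgroup.Normal :=
    (InfiniteGalois.normal_iff_isGalois _).2 hgalN
  have hle : (IntermediateField.normalClosure ℚ F (AlgebraicClosure ℚ)).fixingSubgroup
      ≤ F.fixingSubgroup.normalCore := by
    rw [Subgroup.normal_le_normalCore]
    exact IntermediateField.fixingSubgroup_antitone (IntermediateField.le_normalClosure F)
  obtain ⟨L, hL, hgal, hfix, -⟩ := exists_galois_level_of_subgroup S F.fixingSubgroup.normalCore
    (IntermediateField.normalClosure ℚ F (AlgebraicClosure ℚ)) hfinN hle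
    (by
      intro q hq A hA σ hσ
      rw [Subgroup.normalCore]
      intro b
      have h1 := conj_mem_inertiaSubgroupIn A b σ hσ
      exact hF.2 q hq (b • A) (liesOverPrime_smul A b q hA) h1)
  refine ⟨L, hL, hgal, ?_⟩
  have h2 : L.fixingSubgroup ≤ F.fixingSubgroup := by
    rw [hfix]
    exact Subgroup.normalCore_le _
  rw [← InfiniteGalois.fixedField_fixingSubgroup F, ← InfiniteGalois.fixedField_fixingSubgroup L]
  exact IntermediateField.fixedField_antitone h2

end Levels

end Fermat.Agent.S55.Bridge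

end
-- ===== PACK-END S55/Bridge/InertiaConj.lean

-- ===== PACK-BEGIN S56/H794/TameFrob.lean
section






/-!
# S56 / LOC-TAME (helper794), part 2: commutativity and the Frobenius relation

`L/K` Galois, `A` a valuation subring of `L`, `I = A.inertiaSubgroupIn K`, `f` a homomorphism of
finite level on `Gal(L/K)` such that every `f τ`, `τ ∈ I`, has order prime to the residue
characteristic (`PrimeToResChar A f`).

* `conj_mem_inertiaIn` : inertia is normalised by the decomposition group.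
* `tameHom_conj_frobenius` : `tame(φ τ φ⁻¹) = tame(τ) ^ q` for a Frobenius `φ` (Prelude
  `IsFrobeniusAt φ q`).
* `map_eq_one_of_tameHom_eq_one` : faithfulness in the form used below.
* `map_mul_comm_of_mem_inertiaIn` : `f` is commutative on `I`.
* `map_conj_frobenius` : `f (φ τ φ⁻¹) = f τ ^ q`.
-/

set_option autoImplicit false

namespace Fermat.Agent.S56.H794

open Fermat.Agent.A2.H708

section general

variable {K L : Type*} [Field K] [Field L] [Algebra K L] (A : ValuationSubring L)

/-- The inertia group (Prelude form) is normalised by the decomposition group. -/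
theorem conj_mem_inertiaIn {φ τ : L ≃ₐ[K] L} (hφ : φ ∈ A.decompositionSubgroup K)
    (hτ : τ ∈ A.inertiaSubgroupIn K) : φ * τ * φ⁻¹ ∈ A.inertiaSubgroupIn K := by
  obtain ⟨τ', hτ', rfl⟩ := hτ
  have hn : (A.inertiaSubgroup K).Normal := MonoidHom.normal_ker _
  have h := hn.conj_mem τ' hτ' ⟨φ, hφ⟩
  exact Subgroup.mem_map_of_mem (A.decompositionSubgroup K).subtype h

variable [Algebra.IsAlgebraic K L]

/-- The value of the tame character as a residue class. -/
theorem coe_tameHom {τ : L ≃ₐ[K] L} (hτ : τ ∈ A.inertiaSubgroupIn K) (c : Lˣ)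
    (h : τ (c : L) / c ∈ A) :
    ((tameHom A hτ c : (IsLocalRing.ResidueField A)ˣ) : IsLocalRing.ResidueField A) =
      IsLocalRing.residue A ⟨τ (c : L) / c, h⟩ := by
  unfold tameHom
  rw [MonoidHom.comp_apply, ValuationSubring.coe_unitGroupToResidueFieldUnits_apply]
  show IsLocalRing.residue A _ = IsLocalRing.residue A _
  congr 1
  apply Subtype.ext
  rw [ValuationSubring.coe_unitGroupMulEquiv_apply, coe_ratioHom]

theorem apply_div_mem {τ : L ≃ₐ[K] L} (hτ : τ ∈ A.decompositionSubgroup K) (c : Lˣ) :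
    τ (c : L) / c ∈ A := by
  rw [← A.valuation_le_one_iff]
  exact (valuation_apply_div_self A hτ c.ne_zero).le

/-- **Frobenius acts on the tame character by the `q`-th power.** -/
theorem tameHom_conj_frobenius {φ τ : L ≃ₐ[K] L} {q : ℕ} (hφ : A.IsFrobeniusAt φ q)
    (hτ : τ ∈ A.inertiaSubgroupIn K) (c : Lˣ) :
    tameHom A (conj_mem_inertiaIn A hφ.mem_decompositionSubgroup hτ) c = tameHom A hτ c ^ q := by
  have hφD := hφ.mem_decompositionSubgroup
  have hτD := mem_decomposition_of_mem_inertiaIn A hτ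
  set c' : Lˣ := Units.map ((φ⁻¹ : L ≃ₐ[K] L) : L →* L) c with hc'
  have hc'v : (c' : L) = φ⁻¹ (c : L) := rfl
  have hv : A.valuation (c' : L) = A.valuation (c : L) := by
    rw [hc'v]
    exact valuation_apply_of_mem_decomposition A (inv_mem hφD) (c : L)
  rw [← tameHom_eq_of_valuation_eq A hτ c' c hv]
  apply Units.ext
  rw [Units.val_pow_eq_pow_val, ← hφ.smul_residue_eq,
    coe_tameHom A _ c (apply_div_mem A (mem_decomposition_of_mem_inertiaIn A
      (conj_mem_inertiaIn A hφD hτ)) c),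
    coe_tameHom A hτ c' (apply_div_mem A hτD c'),
    ← IsLocalRing.ResidueField.residue_smul]
  congr 1
  apply Subtype.ext
  show (φ * τ * φ⁻¹) (c : L) / c = φ (τ (c' : L) / c')
  rw [map_div₀, hc'v]
  have h1 : φ (φ⁻¹ (c : L)) = c := by
    show (φ * φ⁻¹) (c : L) = c
    rw [mul_inv_cancel]; rfl
  rw [h1]
  rfl

end general

/-- Every element of `f(I)` has order prime to the residue characteristic of `A`. -/
def PrimeToResChar {K L : Type*} [Field K] [Field L] [Algebra K L] (A : ValuationSubring L)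
    {G : Type*} [Group G] (f : (L ≃ₐ[K] L) →* G) : Prop :=
  ∀ τ ∈ A.inertiaSubgroupIn K, ∃ m : ℕ, A.valuation (m : L) = 1 ∧ f τ ^ m = 1

section finiteLevel

variable {K L : Type*} [Field K] [Field L] [Algebra K L] [IsGalois K L]
  (A : ValuationSubring L)

variable {A}

/-- Faithfulness: an element of inertia with trivial tame character on the fixed field of
`ker f` is killed by `f`. -/
theorem map_eq_one_of_tameHom_eq_one {G : Type*} [Group G] {f : (L ≃ₐ[K] L) →* G}
    (hf : FiniteLevel f) (hp : PrimeToResChar A f) {τ : L ≃ₐ[K] L}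
    (hτ : τ ∈ A.inertiaSubgroupIn K)
    (h : ∀ c : Lˣ, (c : L) ∈ IntermediateField.fixedField f.ker → tameHom A hτ c = 1) :
    f τ = 1 := by
  by_contra hne
  obtain ⟨m, hm, hfm⟩ := hp τ hτ
  obtain ⟨c, hc, hc1⟩ := exists_tameHom_ne_one A hf hτ hm hfm hne
  exact hc1 (h c hc)

/-- `f` is commutative on inertia. -/
theorem map_mul_comm_of_mem_inertiaIn {G : Type*} [Group G] {f : (L ≃ₐ[K] L) →* G}
    (hf : FiniteLevel f) (hp : PrimeToResChar A f) {σ τ : L ≃ₐ[K] L}
    (hσ : σ ∈ A.inertiaSubgroupIn K) (hτ : τ ∈ A.inertiaSubgroupIn K) :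
    f σ * f τ = f τ * f σ := by
  have hγ : σ * τ * (σ⁻¹ * τ⁻¹) ∈ A.inertiaSubgroupIn K :=
    mul_mem (mul_mem hσ hτ) (mul_mem (inv_mem hσ) (inv_mem hτ))
  have h1 : f (σ * τ * (σ⁻¹ * τ⁻¹)) = 1 := by
    apply map_eq_one_of_tameHom_eq_one hf hp hγ
    intro c _
    rw [tameHom_mul A (mul_mem hσ hτ) (mul_mem (inv_mem hσ) (inv_mem hτ)),
      tameHom_mul A hσ hτ, tameHom_mul A (inv_mem hσ) (inv_mem hτ), tameHom_inv A hσ,
      tameHom_inv A hτ]
    rw [mul_mul_mul_comm, mul_inv_cancel, mul_inv_cancel, one_mul]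
  rw [map_mul, map_mul, map_mul, map_inv, map_inv] at h1
  have h2 : f σ * f τ = (f σ * f τ * ((f σ)⁻¹ * (f τ)⁻¹)) * (f τ * f σ) := by group
  rw [h2, h1, one_mul]

/-- **Frobenius relation**: `f (φ τ φ⁻¹) = f τ ^ q` for `τ` in inertia and `φ` a Frobenius. -/
theorem map_conj_frobenius {G : Type*} [Group G] {f : (L ≃ₐ[K] L) →* G}
    (hf : FiniteLevel f) (hp : PrimeToResChar A f) {φ τ : L ≃ₐ[K] L} {q : ℕ}
    (hφ : A.IsFrobeniusAt φ q) (hτ : τ ∈ A.inertiaSubgroupIn K) :
    f (φ * τ * φ⁻¹) = f τ ^ q := by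
  have hc := conj_mem_inertiaIn A hφ.mem_decompositionSubgroup hτ
  have hγ : φ * τ * φ⁻¹ * (τ ^ q)⁻¹ ∈ A.inertiaSubgroupIn K :=
    mul_mem hc (inv_mem (pow_mem hτ q))
  have h1 : f (φ * τ * φ⁻¹ * (τ ^ q)⁻¹) = 1 := by
    apply map_eq_one_of_tameHom_eq_one hf hp hγ
    intro c _
    rw [tameHom_mul A hc (inv_mem (pow_mem hτ q)), tameHom_inv A (pow_mem hτ q),
      tameHom_pow A hτ, tameHom_conj_frobenius A hφ hτ, mul_inv_cancel]
  rw [map_mul, map_inv, map_pow, mul_inv_eq_one] at h1
  exact h1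

end finiteLevel

end Fermat.Agent.S56.H794

end
-- ===== PACK-END S56/H794/TameFrob.lean

-- ===== PACK-BEGIN S14/H894/Profinite.lean
section




/-!
# S14 / H894 : profinite lifting for closed subgroups of `Gal(ℚ̄/ℚ)` acting on `ℤ̄`

Two wrappers around Mathlib's `RingTheory/Invariant/Profinite`, specialised to a closed subgroup
`H` of the absolute Galois group of `ℚ` acting on the ring `ℤ̄` of all algebraic integers, with
the ring of `H`-invariants as base ring (no Galois correspondence needed at this stage).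
-/

set_option autoImplicit false
set_option linter.style.haveILetI false

open scoped Pointwise

namespace Fermat.Agent.S14.H894

local notation "Qb" => AlgebraicClosure ℚ
local notation "GQ" => (AlgebraicClosure ℚ ≃ₐ[ℚ] AlgebraicClosure ℚ)
local notation "Zb" => integralClosure ℤ (AlgebraicClosure ℚ)

/-- Transitivity: a closed subgroup `H` of `Gal(ℚ̄/ℚ)` acts transitively on the primes of `ℤ̄`
having the same intersection with the ring of `H`-invariants. -/
theorem exists_smul_eq_of_closed (H : Subgroup GQ) (hH : IsClosed (H : Set GQ))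
    (P Q : Ideal Zb) [P.IsPrime] [Q.IsPrime]
    (hPQ : ∀ y : Zb, (∀ h ∈ H, h • y = y) → (y ∈ P ↔ y ∈ Q)) :
    ∃ g ∈ H, Q = g • P := by
  haveI := Fermat.Agent.S54.isGalois_algebraicClosure_rat
  letI : TopologicalSpace Zb := ⊥
  haveI : DiscreteTopology Zb := ⟨rfl⟩
  haveI := Fermat.Agent.S54.continuousSMul_integralClosure
  haveI : CompactSpace H := isCompact_iff_compactSpace.mp hH.isCompact
  haveI : TotallyDisconnectedSpace H := Subtype.totallyDisconnectedSpace
  haveI : SMulCommClass H ℤ Zb := ⟨fun g n x => smul_comm (g : GQ) n x⟩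
  let A0 := FixedPoints.subalgebra ℤ Zb H
  haveI : SMulCommClass H A0 Zb :=
    ⟨fun g a x => by
      show g • ((a : Zb) * x) = (a : Zb) * g • x
      rw [smul_mul', a.2 g]⟩
  haveI : Algebra.IsInvariant A0 Zb H := ⟨fun b hb => ⟨⟨b, hb⟩, rfl⟩⟩
  have hunder : P.under A0 = Q.under A0 := by
    ext y
    simp only [Ideal.under_def, Ideal.mem_comap]
    exact hPQ y.1 (fun h hh => y.2 ⟨h, hh⟩)
  obtain ⟨g, hg⟩ :=
    Algebra.IsInvariant.exists_smul_of_under_eq_of_profinite (A := A0) (G := H) P Q hunder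
  exact ⟨g.1, g.2, hg⟩

/-- Surjectivity of the stabiliser onto residue automorphisms, in elementwise form: if `σ`
stabilises the prime `Q` of `ℤ̄` and acts trivially modulo `Q` on the `H`-invariants, then some
`g ∈ H` stabilises `Q` and acts on `ℤ̄ / Q` like `σ`. -/
theorem exists_mem_stabilizer_of_closed (H : Subgroup GQ) (hH : IsClosed (H : Set GQ))
    (Q : Ideal Zb) [Q.IsPrime] (σ : GQ) (hσQ : σ • Q = Q)
    (hσ : ∀ y : Zb, (∀ h ∈ H, h • y = y) → σ • y - y ∈ Q) :
    ∃ g ∈ H, g • Q = Q ∧ ∀ x : Zb, g • x - σ • x ∈ Q := by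
  haveI := Fermat.Agent.S54.isGalois_algebraicClosure_rat
  letI : TopologicalSpace Zb := ⊥
  haveI : DiscreteTopology Zb := ⟨rfl⟩
  haveI := Fermat.Agent.S54.continuousSMul_integralClosure
  haveI : CompactSpace H := isCompact_iff_compactSpace.mp hH.isCompact
  haveI : TotallyDisconnectedSpace H := Subtype.totallyDisconnectedSpace
  haveI : SMulCommClass H ℤ Zb := ⟨fun g n x => smul_comm (g : GQ) n x⟩
  let A0 := FixedPoints.subalgebra ℤ Zb H
  haveI : SMulCommClass H A0 Zb :=
    ⟨fun g a x => by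
      show g • ((a : Zb) * x) = (a : Zb) * g • x
      rw [smul_mul', a.2 g]⟩
  haveI : Algebra.IsInvariant A0 Zb H := ⟨fun b hb => ⟨⟨b, hb⟩, rfl⟩⟩
  let P : Ideal A0 := Q.under A0
  haveI : Q.LiesOver P := ⟨rfl⟩
  let eσ : Zb ≃+* Zb := MulSemiringAction.toRingEquiv GQ Zb σ
  have hmap : Q = Q.map (eσ : Zb →+* Zb) := by
    conv_lhs => rw [← hσQ]
    rfl
  let f : (Zb ⧸ Q) ≃+* (Zb ⧸ Q) := Ideal.quotientEquiv Q Q eσ hmap
  have hf : ∀ x : Zb, f (Ideal.Quotient.mk Q x) = Ideal.Quotient.mk Q (σ • x) := fun x => rfl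
  let e : (Zb ⧸ Q) ≃ₐ[A0 ⧸ P] (Zb ⧸ Q) :=
    AlgEquiv.ofRingEquiv (f := f) (by
      intro x
      obtain ⟨a, rfl⟩ := Ideal.Quotient.mk_surjective x
      have h1 : algebraMap (A0 ⧸ P) (Zb ⧸ Q) (Ideal.Quotient.mk P a) =
          Ideal.Quotient.mk Q (a : Zb) :=
        Ideal.Quotient.algebraMap_mk_of_liesOver Q P a
      rw [h1, hf, Ideal.Quotient.eq]
      exact hσ a.1 (fun h hh => a.2 ⟨h, hh⟩))
  obtain ⟨g, hg⟩ := Ideal.Quotient.stabilizerHom_surjective_of_profinite (G := H) P Q e
  refine ⟨g.1.1, g.1.2, g.2, fun x => ?_⟩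
  have h2 := congrArg (fun t => t (Ideal.Quotient.mk Q x)) hg
  simp only [Ideal.Quotient.stabilizerHom_apply] at h2
  rw [← Ideal.Quotient.eq]
  exact h2

end Fermat.Agent.S14.H894

end
-- ===== PACK-END S14/H894/Profinite.lean

-- ===== PACK-BEGIN S56/H734/KummerCore.lean
section





/-!
# S56 / H734 : Kummer count at `p`, core (`𝔽_p`-coefficients, abstract local datum)

`D ≤ G_ℚ` is the image of `loc : Gal(ℚ̄_p/ℚ_p) → G_ℚ`, compatible with an embedding
`ι : ℚ̄ → ℚ̄_p`.  Every twisted cocycle `c : D → 𝔽_p(1)` of finite level is, on `D`,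
`x κ₁ + y κ₂ + coboundary`, where `κ₁, κ₂` are the Kummer cocycles of `p` and `1 + p`.
-/

set_option autoImplicit false
set_option linter.style.haveILetI false

namespace Fermat.Agent.S56.H734

open Fermat.Agent.S56

section Roots

variable {p : ℕ} [hp : Fact p.Prime]

theorem pow_mod_of_isPrimitiveRoot {F : Type*} [Field F] {ζ : F} (hζ : IsPrimitiveRoot ζ p)
    (n : ℕ) : ζ ^ n = ζ ^ (n % p) := by
  conv_lhs => rw [← Nat.div_add_mod n p, pow_add, pow_mul, hζ.pow_eq_one, one_pow, one_mul]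

/-- Powers of a primitive `p`-th root of unity are equal iff the exponents agree in `ZMod p`. -/
theorem pow_eq_pow_iff_zmod {F : Type*} [Field F] {ζ : F} (hζ : IsPrimitiveRoot ζ p)
    (n m : ℕ) : ζ ^ n = ζ ^ m ↔ (n : ZMod p) = (m : ZMod p) := by
  rw [pow_mod_of_isPrimitiveRoot hζ n, pow_mod_of_isPrimitiveRoot hζ m,
    ZMod.natCast_eq_natCast_iff']
  constructor
  · intro h
    exact hζ.pow_inj (Nat.mod_lt _ hp.out.pos) (Nat.mod_lt _ hp.out.pos) h
  · intro h
    rw [h]

theorem pow_val_eq {F : Type*} [Field F] {ζ : F} (hζ : IsPrimitiveRoot ζ p)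
    (j : ZMod p) (n : ℕ) (h : (n : ZMod p) = j) : ζ ^ j.val = ζ ^ n := by
  rw [pow_eq_pow_iff_zmod hζ, ZMod.natCast_zmod_val, h]

/-- Every element of `G_ℚ` has a cyclotomic exponent. -/
theorem exists_isCycExp {ζ : Qb} (hζ : IsPrimitiveRoot ζ p) (σ : GQ) :
    ∃ a : ℕ, IsCycExp p σ a := by
  haveI : NeZero p := ⟨hp.out.ne_zero⟩
  have h1 : (σ ζ) ^ p = 1 := by rw [← map_pow, hζ.pow_eq_one, map_one]
  obtain ⟨a, -, ha⟩ := hζ.eq_pow_of_pow_eq_one h1
  refine ⟨a, fun μ hμ => ?_⟩
  obtain ⟨i, -, hi⟩ := hζ.eq_pow_of_pow_eq_one hμ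
  rw [← hi, map_pow, ← ha, ← pow_mul, ← pow_mul, mul_comm]

/-- The Kummer exponent of `σ` on a `p`-th root `θ` of a rational number. -/
theorem exists_kummer_exp {ζ : Qb} (hζ : IsPrimitiveRoot ζ p) (θ : Qb) (hθ : θ ≠ 0)
    (r : ℚ) (hr : θ ^ p = algebraMap ℚ Qb r) (σ : GQ) :
    ∃ j : ZMod p, σ θ = ζ ^ j.val * θ := by
  haveI : NeZero p := ⟨hp.out.ne_zero⟩
  have h1 : (σ θ / θ) ^ p = 1 := by
    rw [div_pow, ← map_pow, hr, AlgEquiv.commutes, div_self]
    rw [← hr]
    exact pow_ne_zero _ hθ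
  obtain ⟨i, -, hi⟩ := hζ.eq_pow_of_pow_eq_one h1
  refine ⟨(i : ZMod p), ?_⟩
  rw [pow_val_eq hζ (i : ZMod p) i rfl, hi, div_mul_cancel₀ _ hθ]

/-- A Kummer exponent function is a twisted cocycle on all of `G_ℚ`. -/
theorem kummer_exp_cocycle {ζ : Qb} (hζ : IsPrimitiveRoot ζ p) (θ : Qb) (hθ : θ ≠ 0)
    (κ : GQ → ZMod p) (hκ : ∀ σ, σ θ = ζ ^ (κ σ).val * θ) (σ τ : GQ) (a : ℕ)
    (ha : IsCycExp p σ a) : κ (σ * τ) = κ σ + (a : ZMod p) * κ τ := by
  haveI : NeZero p := ⟨hp.out.ne_zero⟩
  have h1 : (σ * τ) θ = σ (τ θ) := rfl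
  rw [hκ (σ * τ), hκ τ, map_mul, map_pow, ha ζ hζ.pow_eq_one, hκ σ, ← mul_assoc, ← pow_mul,
    ← pow_add] at h1
  have h2 := mul_right_cancel₀ hθ h1
  rw [pow_eq_pow_iff_zmod hζ] at h2
  push_cast at h2
  rw [ZMod.natCast_zmod_val, ZMod.natCast_zmod_val, ZMod.natCast_zmod_val] at h2
  rw [h2]
  ring

/-- A Kummer exponent function has finite level. -/
theorem kummer_exp_level {ζ : Qb} (hζ : IsPrimitiveRoot ζ p) (θ : Qb) (hθ : θ ≠ 0)
    (κ : GQ → ZMod p) (hκ : ∀ σ, σ θ = ζ ^ (κ σ).val * θ) :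
    ∃ L : IntermediateField ℚ Qb, FiniteDimensional ℚ L ∧
      ∀ σ τ : GQ, (∀ x ∈ L, τ x = x) → κ (σ * τ) = κ σ := by
  haveI : NeZero p := ⟨hp.out.ne_zero⟩
  haveI : Algebra.IsAlgebraic ℚ Qb := AlgebraicClosure.isAlgebraic ℚ
  refine ⟨IntermediateField.adjoin ℚ {θ},
    IntermediateField.adjoin.finiteDimensional (Algebra.IsIntegral.isIntegral θ), ?_⟩
  intro σ τ hτ
  have h0 : τ θ = θ := hτ θ (IntermediateField.subset_adjoin ℚ _ (Set.mem_singleton θ))
  have h1 : (σ * τ) θ = σ θ := by
    show σ (τ θ) = σ θ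
    rw [h0]
  rw [hκ (σ * τ), hκ σ] at h1
  have h2 := mul_right_cancel₀ hθ h1
  rw [pow_eq_pow_iff_zmod hζ, ZMod.natCast_zmod_val, ZMod.natCast_zmod_val] at h2
  exact h2

end Roots

section Core

variable (p : ℕ) [hp : Fact p.Prime]

/-- **Kummer count, core form.**  Abstract local datum `(ι, loc)` with image `D`. -/
theorem kummer_core (hp2 : p ≠ 2) (D : Subgroup GQ)
    (ι : Qb →+* PadicAlgCl p) (loc : (PadicAlgCl p ≃ₐ[ℚ_[p]] PadicAlgCl p) →* GQ)
    (compat : ∀ τ x, ι (loc τ x) = τ (ι x)) (hrange : loc.range = D)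
    (hlevel : ∀ L : IntermediateField ℚ Qb, FiniteDimensional ℚ L →
      ∃ E : IntermediateField ℚ_[p] (PadicAlgCl p), FiniteDimensional ℚ_[p] E ∧
        ∀ τ : PadicAlgCl p ≃ₐ[ℚ_[p]] PadicAlgCl p, (∀ y ∈ E, τ y = y) →
          ∀ x ∈ L, loc τ x = x)
    (ζ π β : Qb) (hζ : IsPrimitiveRoot ζ p) (hπ : π ^ p = (p : Qb)) (hβ : β ^ p = 1 + (p : Qb))
    (κ₁ κ₂ : GQ → ZMod p) (hκ₁ : ∀ σ, σ π = ζ ^ (κ₁ σ).val * π)
    (hκ₂ : ∀ σ, σ β = ζ ^ (κ₂ σ).val * β)
    (c : GQ → ZMod p)
    (hcoc : ∀ σ ∈ D, ∀ τ ∈ D, ∀ a, IsCycExp p σ a → c (σ * τ) = c σ + (a : ZMod p) * c τ)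
    (hlev : ∃ L : IntermediateField ℚ Qb, FiniteDimensional ℚ L ∧
      ∀ σ ∈ D, ∀ τ ∈ D, (∀ x ∈ L, τ x = x) → c (σ * τ) = c σ) :
    ∃ x y m : ZMod p, ∀ σ ∈ D, ∀ a, IsCycExp p σ a →
      c σ = x * κ₁ σ + y * κ₂ σ + ((a : ZMod p) - 1) * m := by
  haveI : NeZero p := ⟨hp.out.ne_zero⟩
  have hιinj : Function.Injective ι := ι.injective
  have hmemD : ∀ τ, loc τ ∈ D := fun τ => hrange ▸ ⟨τ, rfl⟩
  have hζ0 : ζ ≠ 0 := hζ.ne_zero hp.out.ne_zero
  have hp0 : (p : Qb) ≠ 0 := by exact_mod_cast hp.out.ne_zero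
  have hπ0 : π ≠ 0 := by
    intro h
    rw [h, zero_pow hp.out.ne_zero] at hπ
    exact hp0 hπ.symm
  have h1p : (1 : Qb) + (p : Qb) ≠ 0 := by
    have : ((1 + p : ℕ) : Qb) ≠ 0 := by exact_mod_cast (Nat.succ_ne_zero p ∘ (by omega))
    simpa using this
  have hβ0 : β ≠ 0 := by
    intro h
    rw [h, zero_pow hp.out.ne_zero] at hβ
    exact h1p hβ.symm
  -- the multiplicative cocycle on the local Galois group
  set F : (PadicAlgCl p ≃ₐ[ℚ_[p]] PadicAlgCl p) → PadicAlgCl p :=
    fun τ => ι (ζ ^ (c (loc τ)).val) with hF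
  have hF0 : ∀ τ, F τ ≠ 0 := fun τ => by
    rw [hF]
    exact (map_ne_zero ι).mpr (pow_ne_zero _ hζ0)
  have hFp : ∀ τ, F τ ^ p = 1 := fun τ => by
    rw [hF]
    simp only
    rw [← map_pow, ← pow_mul, mul_comm, pow_mul, hζ.pow_eq_one, one_pow, map_one]
  have hFcoc : ∀ τ₁ τ₂, F (τ₁ * τ₂) = F τ₁ * τ₁ (F τ₂) := by
    intro τ₁ τ₂
    obtain ⟨a, ha⟩ := exists_isCycExp hζ (loc τ₁)
    have h1 := hcoc (loc τ₁) (hmemD τ₁) (loc τ₂) (hmemD τ₂) a ha
    rw [hF]
    simp only
    rw [← compat, ← map_mul, map_mul loc, h1]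
    congr 1
    have h2 : loc τ₁ (ζ ^ (c (loc τ₂)).val) = (ζ ^ (c (loc τ₂)).val) ^ a := by
      apply ha
      rw [← pow_mul, mul_comm, pow_mul, hζ.pow_eq_one, one_pow]
    rw [h2, ← pow_mul, ← pow_add]
    apply pow_val_eq hζ
    push_cast
    rw [ZMod.natCast_zmod_val, ZMod.natCast_zmod_val, mul_comm]
  obtain ⟨L, hLfin, hL⟩ := hlev
  obtain ⟨E, hEfin, hE⟩ := hlevel L hLfin
  have hFlev : ∀ τ₁ τ₂ : PadicAlgCl p ≃ₐ[ℚ_[p]] PadicAlgCl p, (∀ y ∈ E, τ₂ y = y) →
      F (τ₁ * τ₂) = F τ₁ := by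
    intro τ₁ τ₂ h
    rw [hF]
    simp only
    rw [map_mul loc, hL (loc τ₁) (hmemD τ₁) (loc τ₂) (hmemD τ₂) (hE τ₂ h)]
  obtain ⟨α, hα0, hα⟩ := hilbert90_of_level F hF0 hFcoc E hFlev
  -- `A = α⁻¹` satisfies `τ A = F τ * A`
  set A : PadicAlgCl p := α⁻¹ with hA
  have hA0 : A ≠ 0 := inv_ne_zero hα0
  have hAτ : ∀ τ : PadicAlgCl p ≃ₐ[ℚ_[p]] PadicAlgCl p, τ A = F τ * A := by
    intro τ
    have h1 : τ α ≠ 0 := (map_ne_zero τ).mpr hα0
    rw [hA, map_inv₀]
    field_simp
    rw [mul_comm]
    exact (hα τ).symm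
  -- `A ^ p ∈ ℚ_p`
  have hfix : ∀ τ : PadicAlgCl p ≃ₐ[ℚ_[p]] PadicAlgCl p, τ (A ^ p) = A ^ p := by
    intro τ
    rw [map_pow, hAτ, mul_pow, hFp, one_mul]
  obtain ⟨x, hx⟩ : ∃ x : ℚ_[p], algebraMap ℚ_[p] (PadicAlgCl p) x = A ^ p := by
    have := (InfiniteGalois.mem_bot_iff_fixed (k := ℚ_[p]) (K := PadicAlgCl p) (A ^ p)).2 hfix
    exact IntermediateField.mem_bot.1 this
  have hx0 : x ≠ 0 := by
    intro h
    rw [h, map_zero] at hx
    exact pow_ne_zero _ hA0 hx.symm
  obtain ⟨i, j, w, hw0, hxw⟩ := padic_eq_pow_mul_nat p hp2 x hx0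
  set W : PadicAlgCl p := algebraMap ℚ_[p] (PadicAlgCl p) w with hW
  have hW0 : W ≠ 0 := (map_ne_zero _).mpr hw0
  have hWτ : ∀ τ : PadicAlgCl p ≃ₐ[ℚ_[p]] PadicAlgCl p, τ W = W := fun τ => τ.commutes w
  -- the `p`-th root of unity `γ`
  set γ : PadicAlgCl p := A / (ι π ^ i * ι β ^ j * W) with hγ
  have hden0 : ι π ^ i * ι β ^ j * W ≠ 0 :=
    mul_ne_zero (mul_ne_zero (pow_ne_zero _ ((map_ne_zero ι).mpr hπ0))
      (pow_ne_zero _ ((map_ne_zero ι).mpr hβ0))) hW0
  have hιπ : ι π ^ p = (p : PadicAlgCl p) := by rw [← map_pow, hπ, map_natCast]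
  have hιβ : ι β ^ p = 1 + (p : PadicAlgCl p) := by
    rw [← map_pow, hβ, map_add, map_one, map_natCast]
  have hAp : A ^ p = (p : PadicAlgCl p) ^ i * (1 + (p : PadicAlgCl p)) ^ j * W ^ p := by
    rw [← hx, hxw, hW]
    simp only [map_mul, map_pow, map_add, map_one, map_natCast]
  have hγp : γ ^ p = 1 := by
    have h1 : (ι π ^ i * ι β ^ j * W) ^ p =
        (p : PadicAlgCl p) ^ i * (1 + (p : PadicAlgCl p)) ^ j * W ^ p := by
      rw [mul_pow, mul_pow, ← pow_mul, ← pow_mul, mul_comm i p, mul_comm j p, pow_mul, pow_mul,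
        hιπ, hιβ]
    rw [hγ, div_pow, h1, hAp, div_self]
    rw [← h1]
    exact pow_ne_zero _ hden0
  have hιζ : IsPrimitiveRoot (ι ζ) p := hζ.map_of_injective hιinj
  obtain ⟨m, -, hm⟩ := hιζ.eq_pow_of_pow_eq_one hγp
  -- `A = ι ξ * W`
  set ξ : Qb := ζ ^ m * π ^ i * β ^ j with hξ
  have hξ0 : ξ ≠ 0 := mul_ne_zero (mul_ne_zero (pow_ne_zero _ hζ0) (pow_ne_zero _ hπ0))
    (pow_ne_zero _ hβ0)
  have hAξ : A = ι ξ * W := by
    have h1 : A = γ * (ι π ^ i * ι β ^ j * W) := by
      rw [hγ, div_mul_cancel₀ _ hden0]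
    rw [h1, ← hm, hξ]
    simp only [map_mul, map_pow]
    ring
  have hkey : ∀ τ : PadicAlgCl p ≃ₐ[ℚ_[p]] PadicAlgCl p,
      loc τ ξ = ζ ^ (c (loc τ)).val * ξ := by
    intro τ
    apply hιinj
    have h1 := hAτ τ
    rw [hAξ, map_mul, hWτ, ← compat, ← mul_assoc] at h1
    have h2 := mul_right_cancel₀ hW0 h1
    rw [h2, hF]
    simp only [map_mul]
  refine ⟨(i : ZMod p), (j : ZMod p), (m : ZMod p), ?_⟩
  intro σ hσ a ha
  obtain ⟨τ, rfl⟩ : ∃ τ, loc τ = σ := by
    rw [← hrange] at hσ
    exact hσ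
  have h1 := hkey τ
  have hζa : loc τ ζ = ζ ^ a := ha ζ hζ.pow_eq_one
  rw [hξ, map_mul, map_mul, map_pow, map_pow, map_pow, hζa, hκ₁, hκ₂, mul_pow, mul_pow] at h1
  have h2 : ζ ^ (a * m + (κ₁ (loc τ)).val * i + (κ₂ (loc τ)).val * j) * (π ^ i * β ^ j) =
      ζ ^ ((c (loc τ)).val + m) * (π ^ i * β ^ j) := by
    rw [pow_add, pow_add, pow_add, pow_mul, pow_mul, pow_mul]
    rw [← mul_assoc] at h1
    linear_combination h1
  have h3 := mul_right_cancel₀ (mul_ne_zero (pow_ne_zero _ hπ0) (pow_ne_zero _ hβ0)) h2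
  rw [pow_eq_pow_iff_zmod hζ] at h3
  push_cast at h3
  rw [ZMod.natCast_zmod_val, ZMod.natCast_zmod_val, ZMod.natCast_zmod_val] at h3
  linear_combination -h3

end Core

end Fermat.Agent.S56.H734

end
-- ===== PACK-END S56/H734/KummerCore.lean

-- ===== PACK-BEGIN S19/H435/Lattice.lean
section
/-
A3 / WP-C (helper435): Hopf lattices of equivariant functions (helper135's `HopfLattice`),
bases, and the descent lemma `Zb·Λ ∩ {equivariant} = Λ`.
-/





set_option autoImplicit false
set_option linter.style.haveILetI false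

noncomputable section

namespace Fermat.Agent.S19.H435

/-- A *Hopf lattice* on a `Gal`-set-with-addition `M`: a `ℤ_(ℓ)`-subalgebra of functions
`M → Qb`, finitely generated as a module, consisting of equivariant functions, separating the
points of `M`, and closed under the comultiplication `f ↦ ((x, y) ↦ f (x + y))`. -/
structure IsHopfLattice (ℓ : ℕ) {M : Type*} [AddCommGroup M] (act : Gal → M → M)
    (Λ : Subalgebra (Zl ℓ) (M → _root_.Fermat.Agent.S19.H435.Qb)) : Prop where
  fg : (Subalgebra.toSubmodule Λ).FG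
  equivariant : ∀ f ∈ Λ, IsEquivariantFun act f
  separates : ∀ m n : M, m ≠ n → ∃ f ∈ Λ, f m ≠ f n
  comul_mem : ∀ f ∈ Λ, ∃ (n : ℕ) (a b : Fin n → M → _root_.Fermat.Agent.S19.H435.Qb), (∀ k, a k ∈ Λ) ∧ (∀ k, b k ∈ Λ) ∧
    ∀ x y : M, f (x + y) = ∑ k, a k x * b k y

section Zl

variable (ℓ : ℕ)

theorem algebraMap_Zl_Qb_injective : Function.Injective (algebraMap (Zl ℓ) _root_.Fermat.Agent.S19.H435.Qb) := by
  intro a b h
  have h1 : algebraMap ℚ _root_.Fermat.Agent.S19.H435.Qb (a : ℚ) = algebraMap ℚ _root_.Fermat.Agent.S19.H435.Qb (b : ℚ) := h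
  exact Subtype.ext ((algebraMap ℚ _root_.Fermat.Agent.S19.H435.Qb).injective h1)

instance faithfulSMul_Zl_Qb : FaithfulSMul (Zl ℓ) _root_.Fermat.Agent.S19.H435.Qb :=
  (faithfulSMul_iff_algebraMap_injective (Zl ℓ) _root_.Fermat.Agent.S19.H435.Qb).mpr (algebraMap_Zl_Qb_injective ℓ)

instance isTorsionFree_Zl_Qb : Module.IsTorsionFree (Zl ℓ) _root_.Fermat.Agent.S19.H435.Qb := by
  refine Module.IsTorsionFree.of_smul_eq_zero fun r m h => ?_
  rw [Algebra.smul_def, mul_eq_zero] at h
  rcases h with h | h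
  · left
    exact algebraMap_Zl_Qb_injective ℓ (by rw [h, map_zero])
  · exact Or.inr h

theorem isFractionRing_Zl : IsFractionRing (Zl ℓ) ℚ := by
  refine IsFractionRing.of_field (Zl ℓ) ℚ fun z => ?_
  refine ⟨⟨(z.num : ℚ), intCast_mem _ _⟩, ⟨(z.den : ℚ), natCast_mem _ _⟩, ?_⟩
  show z = (z.num : ℚ) / (z.den : ℚ)
  exact (Rat.num_div_den z).symm

/-- A Galois-fixed element of `Qb` which is integral over `ℤ_(ℓ)` lies in `ℤ_(ℓ)`. -/
theorem exists_Zl_of_fixed_of_isIntegral [Fact ℓ.Prime] (x : _root_.Fermat.Agent.S19.H435.Qb) (hx : ∀ σ : Gal, σ x = x)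
    (hint : IsIntegral (Zl ℓ) x) : ∃ r : Zl ℓ, algebraMap (Zl ℓ) _root_.Fermat.Agent.S19.H435.Qb r = x := by
  obtain ⟨q, rfl⟩ := fixed_mem_range_rat x hx
  have hq : IsIntegral (Zl ℓ) q :=
    (isIntegral_algebraMap_iff (algebraMap ℚ _root_.Fermat.Agent.S19.H435.Qb).injective).mp hint
  haveI := isFractionRing_Zl ℓ
  obtain ⟨r, hr⟩ := IsIntegrallyClosed.isIntegral_iff.mp hq
  exact ⟨r, by rw [← hr]; rfl⟩

end Zl

variable {ℓ : ℕ} {M : Type*} [AddCommGroup M] {act : Gal → M → M}
  {Λ : Subalgebra (Zl ℓ) (M → _root_.Fermat.Agent.S19.H435.Qb)}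

namespace IsHopfLattice

/-- Values of elements of a Hopf lattice are integral over `ℤ_(ℓ)`. -/
theorem isIntegral_apply (hΛ : IsHopfLattice ℓ act Λ) {f : M → _root_.Fermat.Agent.S19.H435.Qb} (hf : f ∈ Λ) (m : M) :
    IsIntegral (Zl ℓ) (f m) :=
  (IsIntegral.of_mem_of_fg Λ hΛ.fg f hf).map (Pi.evalAlgHom (Zl ℓ) (fun _ : M => _root_.Fermat.Agent.S19.H435.Qb) m)

/-- A Hopf lattice has an `ℤ_(ℓ)`-basis, which is `Qb`-linearly independent. -/
theorem exists_basis [Fact ℓ.Prime] (hΛ : IsHopfLattice ℓ act Λ) :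
    ∃ (n : ℕ) (e : Fin n → M → _root_.Fermat.Agent.S19.H435.Qb), (∀ i, e i ∈ Λ) ∧ LinearIndependent (Zl ℓ) e ∧
      LinearIndependent _root_.Fermat.Agent.S19.H435.Qb e ∧ ∀ f ∈ Λ, ∃ c : Fin n → Zl ℓ, f = ∑ i, c i • e i := by
  haveI : Module.Finite (Zl ℓ) (Subalgebra.toSubmodule Λ) := Module.Finite.iff_fg.mpr hΛ.fg
  haveI : Module.Free (Zl ℓ) (Subalgebra.toSubmodule Λ) :=
    Module.free_of_finite_type_torsion_free'
  let b := Module.finBasis (Zl ℓ) (Subalgebra.toSubmodule Λ)
  have hli : LinearIndependent (Zl ℓ) (fun i => ((b i : Subalgebra.toSubmodule Λ) : M → _root_.Fermat.Agent.S19.H435.Qb)) :=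
    b.linearIndependent.map' (Subalgebra.toSubmodule Λ).subtype (Submodule.ker_subtype _)
  refine ⟨_, fun i => ((b i : Subalgebra.toSubmodule Λ) : M → _root_.Fermat.Agent.S19.H435.Qb), fun i => (b i).2, hli, ?_, ?_⟩
  · exact linearIndependent_Qb_of_int (act := act) _ (fun i => hΛ.equivariant _ (b i).2)
      (LinearIndependent.restrict_scalars' ℤ hli)
  · intro f hf
    refine ⟨fun i => b.repr ⟨f, hf⟩ i, ?_⟩
    have := congrArg (Subalgebra.toSubmodule Λ).subtype (b.sum_repr ⟨f, hf⟩)
    rw [map_sum] at this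
    simpa using this.symm

/-- **Descent.** An equivariant function in the `Zb`-span of a Hopf lattice lies in the lattice
(`Zb` = integral closure of `ℤ_(ℓ)` in `Qb`). -/
theorem mem_of_mem_span_of_equivariant [Fact ℓ.Prime] (hΛ : IsHopfLattice ℓ act Λ)
    {u : M → _root_.Fermat.Agent.S19.H435.Qb}
    (hu : u ∈ Submodule.span (integralClosure (Zl ℓ) _root_.Fermat.Agent.S19.H435.Qb) (Λ : Set (M → _root_.Fermat.Agent.S19.H435.Qb)))
    (heq : IsEquivariantFun act u) : u ∈ Λ := by
  obtain ⟨n, e, he, -, hliQ, hexp⟩ := hΛ.exists_basis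
  -- coordinates with integral coefficients
  have hcoord : ∀ v ∈ Submodule.span (integralClosure (Zl ℓ) _root_.Fermat.Agent.S19.H435.Qb) (Λ : Set (M → _root_.Fermat.Agent.S19.H435.Qb)),
      ∃ W : Fin n → _root_.Fermat.Agent.S19.H435.Qb, (∀ i, IsIntegral (Zl ℓ) (W i)) ∧ v = ∑ i, W i • e i := by
    intro v hv
    induction hv using Submodule.span_induction with
    | mem f hf =>
      obtain ⟨c, hc⟩ := hexp f hf
      refine ⟨fun i => algebraMap (Zl ℓ) _root_.Fermat.Agent.S19.H435.Qb (c i), fun i => isIntegral_algebraMap, ?_⟩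
      rw [hc]
      refine Finset.sum_congr rfl fun i _ => ?_
      rw [algebraMap_smul]
    | zero => exact ⟨0, fun i => isIntegral_zero, by simp⟩
    | add x y _ _ hx hy =>
      obtain ⟨W, hW, rfl⟩ := hx
      obtain ⟨W', hW', rfl⟩ := hy
      refine ⟨W + W', fun i => (hW i).add (hW' i), ?_⟩
      simp [add_smul, Finset.sum_add_distrib]
    | smul z x _ hx =>
      obtain ⟨W, hW, rfl⟩ := hx
      refine ⟨fun i => (z : _root_.Fermat.Agent.S19.H435.Qb) * W i, fun i => z.2.mul (hW i), ?_⟩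
      show (z : _root_.Fermat.Agent.S19.H435.Qb) • (∑ i, W i • e i) = _
      rw [Finset.smul_sum]
      refine Finset.sum_congr rfl fun i _ => ?_
      rw [smul_smul]
  obtain ⟨W, hW, rfl⟩ := hcoord u hu
  have hpt : ∀ m : M, (∑ i, W i • e i) m = ∑ i, W i * e i m := by
    intro m
    simp [Finset.sum_apply]
  have hfix : ∀ (σ : Gal) (i : Fin n), σ (W i) = W i := by
    intro σ
    have h0 : ∑ i, (σ (W i) - W i) • e i = 0 := by
      funext m
      simp only [Finset.sum_apply, Pi.smul_apply, smul_eq_mul, Pi.zero_apply, sub_mul,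
        Finset.sum_sub_distrib]
      have h1 := heq σ⁻¹ m
      rw [hpt, hpt] at h1
      have h2 := congrArg σ h1
      rw [map_sum] at h2
      have h3 : σ (σ⁻¹ (∑ i, W i * e i m)) = ∑ i, W i * e i m :=
        AlgEquiv.apply_symm_apply σ _
      rw [h3] at h2
      rw [← h2, sub_eq_zero]
      refine Finset.sum_congr rfl fun i _ => ?_
      rw [map_mul, hΛ.equivariant _ (he i) σ⁻¹ m]
      congr 1
      exact (AlgEquiv.apply_symm_apply σ (e i m)).symm
    intro i
    have := (Fintype.linearIndependent_iff.mp hliQ) _ h0 i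
    exact sub_eq_zero.mp this
  choose r hr using fun i =>
    exists_Zl_of_fixed_of_isIntegral ℓ (W i) (fun σ => hfix σ i) (hW i)
  have : ∑ i, W i • e i = ∑ i, r i • e i := by
    refine Finset.sum_congr rfl fun i _ => ?_
    rw [← hr i, algebraMap_smul]
  rw [this]
  exact Subalgebra.sum_mem _ fun i _ => Subalgebra.smul_mem _ (he i) _

end IsHopfLattice

end Fermat.Agent.S19.H435

end
end
-- ===== PACK-END S19/H435/Lattice.lean

-- ===== PACK-BEGIN Lib/Cheb/H643/FrobAt.lean
section




/-!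
# Frobenius elements at a *given* valuation subring of `ℚ̄`

`Fermat.Agent.S54.exists_frobenius` produces some valuation subring over `ℓ` together with a
Frobenius element.  Here: every valuation subring `A` over `ℓ` has a Frobenius element
(same proof), and the consequences of `IsFrobeniusAt` / of membership in the inertia group on
algebraic integers.
-/

set_option autoImplicit false

namespace Fermat.Agent.Lib.Cheb.H643

open scoped Pointwise
open Fermat.Agent.S54
open Fermat.Agent.Lib.Cheb.Spec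

/-- Every valuation subring of `ℚ̄` over the prime `ℓ` has a Frobenius element. -/
theorem exists_isFrobeniusAt (ℓ : ℕ) (hℓ : ℓ.Prime) (A : ValuationSubring Qb)
    (hA : A.LiesOverPrime ℓ) : ∃ σ : GQ, A.IsFrobeniusAt σ ℓ := by
  have : Algebra.IsAlgebraic ℚ (AlgebraicClosure ℚ) := AlgebraicClosure.isAlgebraic ℚ
  have := primeBelow_isPrime A
  have hℓQ : (ℓ : integralClosure ℤ (AlgebraicClosure ℚ)) ∈ primeBelow A := by
    rw [mem_primeBelow]
    exact hA
  obtain ⟨σ, hσQ', hσF⟩ := exists_frob_integralClosure ℓ hℓ (primeBelow A) hℓQ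
  have hσQ : ∀ x, σ • x ∈ primeBelow A ↔ x ∈ primeBelow A := by
    intro x
    conv_lhs => rw [← hσQ']
    exact Ideal.smul_mem_pointwise_smul_iff
  have key : ∀ τ : AlgebraicClosure ℚ ≃ₐ[ℚ] AlgebraicClosure ℚ,
      (∀ x, τ • x ∈ primeBelow A ↔ x ∈ primeBelow A) → ∀ x ∈ A, τ x ∈ A := by
    intro τ hτ x hx
    obtain ⟨b, s, hb, hs, hsA, hxs⟩ := (mem_valuationSubring_iff A ℓ hℓ hA x).mp hx
    refine (mem_valuationSubring_iff A ℓ hℓ hA (τ x)).mpr
      ⟨τ b, τ s, hb.map τ, hs.map τ, ?_, ?_⟩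
    · exact (hτ ⟨s, hs⟩).not.mpr hsA
    · rw [← map_mul, hxs]
  have hσA : σ ∈ A.decompositionSubgroup ℚ := by
    rw [MulAction.mem_stabilizer_iff]
    ext x
    rw [ValuationSubring.mem_smul_pointwise_iff_exists]
    constructor
    · rintro ⟨s, hs, rfl⟩
      exact key σ hσQ s hs
    · intro hx
      refine ⟨σ⁻¹ • x, key σ⁻¹ ?_ x hx, by simp⟩
      intro y
      rw [← hσQ (σ⁻¹ • y)]
      simp
  refine ⟨σ, hσA, ?_⟩
  intro x
  obtain ⟨a, rfl⟩ := IsLocalRing.residue_surjective x
  obtain ⟨b, s, hb, hs, hsA, hxs⟩ := (mem_valuationSubring_iff A ℓ hℓ hA a).mp a.2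
  have hbA : b ∈ A := isIntegral_mem_valuationSubring A hb
  have hsA' : s ∈ A := isIntegral_mem_valuationSubring A hs
  have hint : ∀ (y : AlgebraicClosure ℚ) (hy : IsIntegral ℤ y),
      (⟨σ, hσA⟩ : A.decompositionSubgroup ℚ) •
        IsLocalRing.residue A ⟨y, isIntegral_mem_valuationSubring A hy⟩ =
      (IsLocalRing.residue A ⟨y, isIntegral_mem_valuationSubring A hy⟩) ^ ℓ := by
    intro y hy
    rw [← IsLocalRing.ResidueField.residue_smul, ← map_pow, ← sub_eq_zero, ← map_sub,
      IsLocalRing.residue_eq_zero_iff, ← ValuationSubring.coe_mem_nonunits_iff]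
    exact hσF ⟨y, hy⟩
  have h1 : IsLocalRing.residue A a * IsLocalRing.residue A ⟨s, hsA'⟩ =
      IsLocalRing.residue A ⟨b, hbA⟩ := by
    rw [← map_mul]
    congr 1
    exact Subtype.ext hxs
  have h2 : IsLocalRing.residue A ⟨s, hsA'⟩ ≠ 0 := by
    rw [Ne, IsLocalRing.residue_eq_zero_iff, ← ValuationSubring.coe_mem_nonunits_iff]
    exact hsA
  have h3 := congrArg (fun z => (⟨σ, hσA⟩ : A.decompositionSubgroup ℚ) • z) h1
  simp only [smul_mul'] at h3
  rw [hint s hs, hint b hb, ← h1, mul_pow] at h3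
  exact mul_right_cancel₀ (pow_ne_zero _ h2) h3

/-- A Frobenius element at `A` is congruent to `x ↦ x ^ ℓ` on `A`. -/
theorem IsFrobeniusAt_sub_pow_mem {A : ValuationSubring Qb} {σ : GQ} {ℓ : ℕ}
    (h : A.IsFrobeniusAt σ ℓ) {x : Qb} (hx : x ∈ A) : σ x - x ^ ℓ ∈ A.nonunits := by
  obtain ⟨hσ, hF⟩ := h
  have h1 := hF (IsLocalRing.residue A ⟨x, hx⟩)
  rw [← IsLocalRing.ResidueField.residue_smul, ← map_pow, ← sub_eq_zero, ← map_sub,
    IsLocalRing.residue_eq_zero_iff, ← ValuationSubring.coe_mem_nonunits_iff] at h1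
  exact h1

/-- An element of the inertia group at `A` is congruent to the identity on `A`. -/
theorem inertia_sub_mem {A : ValuationSubring Qb} {ι : GQ}
    (h : ι ∈ A.inertiaSubgroupIn ℚ) {x : Qb} (hx : x ∈ A) : ι x - x ∈ A.nonunits := by
  obtain ⟨g, hg, rfl⟩ := h
  have hg' : ∀ r : IsLocalRing.ResidueField A, g • r = r := by
    intro r
    have := MonoidHom.mem_ker.mp hg
    exact congrArg (fun e : RingAut (IsLocalRing.ResidueField A) => e r) this
  have h1 := hg' (IsLocalRing.residue A ⟨x, hx⟩)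
  rw [← IsLocalRing.ResidueField.residue_smul, ← sub_eq_zero, ← map_sub,
    IsLocalRing.residue_eq_zero_iff, ← ValuationSubring.coe_mem_nonunits_iff] at h1
  exact h1

end Fermat.Agent.Lib.Cheb.H643

end
-- ===== PACK-END Lib/Cheb/H643/FrobAt.lean

-- ===== PACK-BEGIN S55/Bridge/H175/LocalLevel.lean
section




set_option autoImplicit false
set_option linter.style.haveILetI false

/-!
# B11, part 1: the local level `F_q = ℚ_q · ι(F)` of a global level `F ⊆ ℚ̄`

For an intermediate field `F` of `ℚ̄/ℚ` and a prime `q`, `localLevel q F` is the subfield of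
`ℚ̄_q = PadicAlgCl q` generated over `ℚ_q` by the image of `F` under the Prelude embedding
`padicEmbedding q : ℚ̄ → ℚ̄_q`.

* `localLevel_adjoin` : `(ℚ(s))_q = ℚ_q(ι s)`;
* `finiteDimensional_localLevel` : `F/ℚ` finite ⇒ `F_q/ℚ_q` finite;
* `normal_localLevel`, `isGalois_localLevel` : `F/ℚ` normal ⇒ `F_q/ℚ_q` normal (Galois);
* `comap_fixingSubgroup` : `(localGaloisToGlobal q)⁻¹ (G_F) = Gal(ℚ̄_q / F_q)`.
-/

open scoped NNReal Pointwise

namespace Fermat.Agent.S55.Bridge.H175

variable (q : ℕ) [Fact q.Prime]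

/-- The local level `F_q := ℚ_q · ι(F) ⊆ ℚ̄_q` attached to a global level `F ⊆ ℚ̄`. -/
noncomputable def localLevel (F : IntermediateField ℚ (AlgebraicClosure ℚ)) :
    IntermediateField ℚ_[q] (PadicAlgCl q) :=
  IntermediateField.adjoin ℚ_[q] ((padicEmbedding q) '' (F : Set (AlgebraicClosure ℚ)))

variable {q}

theorem padicEmbedding_mem_localLevel {F : IntermediateField ℚ (AlgebraicClosure ℚ)}
    {x : AlgebraicClosure ℚ} (hx : x ∈ F) : padicEmbedding q x ∈ localLevel q F :=
  IntermediateField.subset_adjoin _ _ ⟨x, hx, rfl⟩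

theorem localLevel_mono {F F' : IntermediateField ℚ (AlgebraicClosure ℚ)} (h : F ≤ F') :
    localLevel q F ≤ localLevel q F' :=
  IntermediateField.adjoin.mono _ _ _ (Set.image_mono h)

variable (q)

/-- `ι⁻¹` of an intermediate field of `ℚ̄_q/ℚ_q` is an intermediate field of `ℚ̄/ℚ`. -/
noncomputable def globalTrace (E : IntermediateField ℚ_[q] (PadicAlgCl q)) :
    IntermediateField ℚ (AlgebraicClosure ℚ) where
  carrier := {x | padicEmbedding q x ∈ E}
  mul_mem' := fun {a b} ha hb => by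
    change padicEmbedding q (a * b) ∈ E
    rw [map_mul]
    exact E.mul_mem ha hb
  one_mem' := by
    change padicEmbedding q 1 ∈ E
    rw [map_one]
    exact E.one_mem
  add_mem' := fun {a b} ha hb => by
    change padicEmbedding q (a + b) ∈ E
    rw [map_add]
    exact E.add_mem ha hb
  zero_mem' := by
    change padicEmbedding q 0 ∈ E
    rw [map_zero]
    exact E.zero_mem
  algebraMap_mem' := fun r => by
    change padicEmbedding q (algebraMap ℚ (AlgebraicClosure ℚ) r) ∈ E
    rw [AlgHom.commutes]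
    have : (algebraMap ℚ (PadicAlgCl q)) r = algebraMap ℚ_[q] (PadicAlgCl q) (r : ℚ_[q]) := by
      simp
    rw [this]
    exact E.algebraMap_mem _
  inv_mem' := fun x hx => by
    change padicEmbedding q x⁻¹ ∈ E
    rw [map_inv₀]
    exact E.inv_mem hx

variable {q}

theorem mem_globalTrace {E : IntermediateField ℚ_[q] (PadicAlgCl q)} {x : AlgebraicClosure ℚ} :
    x ∈ globalTrace q E ↔ padicEmbedding q x ∈ E := Iff.rfl

theorem localLevel_le_iff {F : IntermediateField ℚ (AlgebraicClosure ℚ)}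
    {E : IntermediateField ℚ_[q] (PadicAlgCl q)} :
    localLevel q F ≤ E ↔ F ≤ globalTrace q E := by
  unfold localLevel
  rw [IntermediateField.adjoin_le_iff]
  constructor
  · intro h x hx
    exact h ⟨x, hx, rfl⟩
  · rintro h _ ⟨x, hx, rfl⟩
    exact h hx

variable (q)

/-- `(ℚ(s))_q = ℚ_q(ι(s))`. -/
theorem localLevel_adjoin (s : Set (AlgebraicClosure ℚ)) :
    localLevel q (IntermediateField.adjoin ℚ s) =
      IntermediateField.adjoin ℚ_[q] ((padicEmbedding q) '' s) := by
  apply le_antisymm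
  · rw [localLevel_le_iff, IntermediateField.adjoin_le_iff]
    intro x hx
    exact IntermediateField.subset_adjoin _ _ ⟨x, hx, rfl⟩
  · exact IntermediateField.adjoin.mono _ _ _
      (Set.image_mono (IntermediateField.subset_adjoin ℚ s))

/-- A finite global level has a finite local level. -/
theorem finiteDimensional_localLevel (F : IntermediateField ℚ (AlgebraicClosure ℚ))
    [FiniteDimensional ℚ F] : FiniteDimensional ℚ_[q] (localLevel q F) := by
  obtain ⟨β, hβ⟩ := Field.exists_primitive_element ℚ F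
  have hF : F = IntermediateField.adjoin ℚ {(β : AlgebraicClosure ℚ)} := by
    have h1 : IntermediateField.lift (IntermediateField.adjoin ℚ {β})
        = IntermediateField.adjoin ℚ {(β : AlgebraicClosure ℚ)} := by
      rw [IntermediateField.lift_adjoin, Set.image_singleton]
    apply le_antisymm
    · intro y hy
      have hy' : (⟨y, hy⟩ : F) ∈ IntermediateField.adjoin ℚ {β} := by rw [hβ]; trivial
      rw [← h1]
      exact (IntermediateField.mem_lift (⟨y, hy⟩ : F)).2 hy'
    · rw [IntermediateField.adjoin_le_iff]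
      intro y hy
      rw [Set.mem_singleton_iff] at hy
      subst hy
      exact β.2
  rw [hF, localLevel_adjoin, Set.image_singleton]
  exact IntermediateField.adjoin.finiteDimensional (Algebra.IsIntegral.isIntegral _)

/-- `τ(ι x) = ι(σ_τ x)`, restated. -/
theorem algEquiv_padicEmbedding (τ : PadicAlgCl q ≃ₐ[ℚ_[q]] PadicAlgCl q)
    (x : AlgebraicClosure ℚ) :
    τ (padicEmbedding q x) = padicEmbedding q (localGaloisToGlobal q τ x) :=
  (padicEmbedding_localGaloisToGlobal q τ x).symm

/-- A normal global level is stable under `Gal(ℚ̄/ℚ)`. -/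
theorem apply_mem_of_normal (F : IntermediateField ℚ (AlgebraicClosure ℚ)) [hF : Normal ℚ F]
    (σ : AlgebraicClosure ℚ ≃ₐ[ℚ] AlgebraicClosure ℚ) {x : AlgebraicClosure ℚ} (hx : x ∈ F) :
    σ x ∈ F := by
  have : Algebra.IsAlgebraic ℚ (AlgebraicClosure ℚ) := AlgebraicClosure.isAlgebraic ℚ
  have : IsAlgClosure ℚ (AlgebraicClosure ℚ) := ⟨inferInstance, inferInstance⟩
  have : Normal ℚ (AlgebraicClosure ℚ) := IsAlgClosure.normal ℚ (AlgebraicClosure ℚ)
  have h := (IntermediateField.normal_iff_forall_map_le' (K := F)).mp hF σ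
  exact h ⟨x, hx, rfl⟩

theorem normal_padicAlgCl : Normal ℚ_[q] (PadicAlgCl q) := by
  haveI : IsAlgClosure ℚ_[q] (PadicAlgCl q) := inferInstance
  exact IsAlgClosure.normal ℚ_[q] (PadicAlgCl q)

/-- The local level of a normal global level is normal over `ℚ_q`. -/
theorem normal_localLevel (F : IntermediateField ℚ (AlgebraicClosure ℚ)) [Normal ℚ F] :
    Normal ℚ_[q] (localLevel q F) := by
  haveI := normal_padicAlgCl q
  rw [IntermediateField.normal_iff_forall_map_le']
  intro τ
  unfold localLevel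
  rw [IntermediateField.adjoin_map, IntermediateField.adjoin_le_iff]
  rintro _ ⟨_, ⟨x, hx, rfl⟩, rfl⟩
  have h1 : ((τ : PadicAlgCl q ≃ₐ[ℚ_[q]] PadicAlgCl q) : PadicAlgCl q →ₐ[ℚ_[q]] PadicAlgCl q)
      (padicEmbedding q x) = padicEmbedding q (localGaloisToGlobal q τ x) :=
    algEquiv_padicEmbedding q τ x
  rw [h1]
  exact IntermediateField.subset_adjoin _ _ ⟨_, apply_mem_of_normal F _ hx, rfl⟩

/-- The local level of a normal global level is Galois over `ℚ_q`. -/
theorem isGalois_localLevel (F : IntermediateField ℚ (AlgebraicClosure ℚ)) [Normal ℚ F] :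
    IsGalois ℚ_[q] (localLevel q F) := by
  haveI := normal_localLevel q F
  exact isGalois_iff.mpr ⟨inferInstance, inferInstance⟩

/-- `τ ∈ Gal(ℚ̄_q/ℚ_q)` fixes `F_q` iff its restriction to `ℚ̄` fixes `F`. -/
theorem mem_fixingSubgroup_localLevel_iff (F : IntermediateField ℚ (AlgebraicClosure ℚ))
    (τ : PadicAlgCl q ≃ₐ[ℚ_[q]] PadicAlgCl q) :
    τ ∈ (localLevel q F).fixingSubgroup ↔ localGaloisToGlobal q τ ∈ F.fixingSubgroup := by
  rw [IntermediateField.mem_fixingSubgroup_iff, IntermediateField.mem_fixingSubgroup_iff]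
  constructor
  · intro h x hx
    apply Fermat.Agent.S55.H175.padicEmbedding_injective q
    rw [padicEmbedding_localGaloisToGlobal]
    exact h _ (padicEmbedding_mem_localLevel hx)
  · intro h
    have hle : localLevel q F ≤ IntermediateField.fixedField (Subgroup.zpowers τ) := by
      unfold localLevel
      rw [IntermediateField.adjoin_le_iff]
      rintro _ ⟨x, hx, rfl⟩
      rintro ⟨σ, hσ⟩
      obtain ⟨n, rfl⟩ := Subgroup.mem_zpowers_iff.1 hσ
      show (τ ^ n) (padicEmbedding q x) = padicEmbedding q x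
      have hfix : τ ∈ MulAction.stabilizer (PadicAlgCl q ≃ₐ[ℚ_[q]] PadicAlgCl q)
          (padicEmbedding q x) := by
        rw [MulAction.mem_stabilizer_iff]
        show τ (padicEmbedding q x) = padicEmbedding q x
        rw [algEquiv_padicEmbedding, h x hx]
      exact (Subgroup.zpow_mem _ hfix n : _)
    intro y hy
    exact hle hy ⟨τ, Subgroup.mem_zpowers τ⟩

/-- **`(localGaloisToGlobal q)⁻¹(G_F) = Gal(ℚ̄_q/F_q)`.** -/
theorem comap_fixingSubgroup (F : IntermediateField ℚ (AlgebraicClosure ℚ)) :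
    F.fixingSubgroup.comap (localGaloisToGlobal q) = (localLevel q F).fixingSubgroup := by
  ext τ
  rw [Subgroup.mem_comap, mem_fixingSubgroup_localLevel_iff]

end Fermat.Agent.S55.Bridge.H175

end
-- ===== PACK-END S55/Bridge/H175/LocalLevel.lean

-- ===== PACK-BEGIN S55/Bridge/MuP.lean
section


/-!
# S55 bridge, part B13: `μ_p` as a Galois module and `M.dualTwist (cycloChar p) ≅ Hom(M, μ_p)`

* `MuP p` : the group `μ_p(ℚ̄)` of `p`-th roots of unity written additively, an `𝔽_p`-vector space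
  of dimension one.
* `muPRep p` : the Galois representation on it.  It is *defined* as "multiply by `cycloChar p σ`"
  and `muPRep_apply` shows that this is the natural action `σ • t = σ(t)`.
* `muP p : Rep (ZMod p) G_ℚ`, `muPIsoOfChar : muP p ≅ ofChar (cycloChar p)`.
* `homMuP M := Hom_{𝔽_p}(M, μ_p)` with the conjugation action `(σ f)(m) = σ (f (σ⁻¹ m))`, and
  `dualTwistIsoHomMuP : M.dualTwist (cycloChar p) ≅ homMuP M`.
* `evalMuP` : the evaluation pairing `M × M^*(1) → μ_p`, Galois equivariant (`evalMuP_equivariant`).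
* `dualTwistDualTwistIso : (M.dualTwist χ).dualTwist χ ≅ M` for finite dimensional `M` (any field,
  any group, any character).
-/

set_option autoImplicit false
set_option linter.unusedSectionVars false
set_option linter.style.haveILetI false

namespace Fermat.Agent.S55.Bridge

open ExtCitation Module

section MuP

variable (p : ℕ) [Fact p.Prime]

/-- `μ_p(ℚ̄)`, written additively. -/
def MuP : Type := Additive (rootsOfUnity p (AlgebraicClosure ℚ))

noncomputable instance MuP.instAddCommGroup : AddCommGroup (MuP p) :=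
  inferInstanceAs (AddCommGroup (Additive (rootsOfUnity p (AlgebraicClosure ℚ))))

/-- The element of `MuP p` attached to a `p`-th root of unity. -/
def MuP.of (t : rootsOfUnity p (AlgebraicClosure ℚ)) : MuP p := Additive.ofMul t

/-- The root of unity underlying an element of `MuP p`. -/
def MuP.root (x : MuP p) : rootsOfUnity p (AlgebraicClosure ℚ) := Additive.toMul x

variable {p}

@[simp] theorem MuP.root_of (t : rootsOfUnity p (AlgebraicClosure ℚ)) :
    (MuP.of p t).root = t := rfl

@[simp] theorem MuP.of_root (x : MuP p) : MuP.of p x.root = x := rfl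

theorem MuP.root_injective : Function.Injective (MuP.root (p := p)) := fun _ _ h => h

@[simp] theorem MuP.root_add (x y : MuP p) : (x + y).root = x.root * y.root := rfl

@[simp] theorem MuP.root_zero : (0 : MuP p).root = 1 := rfl

@[simp] theorem MuP.root_nsmul (n : ℕ) (x : MuP p) : (n • x).root = x.root ^ n := rfl

theorem MuP.nsmul_p (x : MuP p) : p • x = 0 := by
  apply MuP.root_injective
  rw [MuP.root_nsmul, MuP.root_zero]
  have h := (mem_rootsOfUnity p (x.root : (AlgebraicClosure ℚ)ˣ)).1 x.root.2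
  exact Subtype.ext (by simpa using h)

variable (p)

noncomputable instance MuP.instModule : Module (ZMod p) (MuP p) :=
  AddCommGroup.zmodModule MuP.nsmul_p

variable {p}

theorem MuP.zmod_smul (a : ZMod p) (x : MuP p) : a • x = a.val • x := by
  haveI : NeZero p := ⟨(Fact.out : p.Prime).ne_zero⟩
  conv_lhs => rw [← ZMod.natCast_zmod_val a]
  exact Nat.cast_smul_eq_nsmul (ZMod p) a.val x

theorem MuP.root_zmod_smul (a : ZMod p) (x : MuP p) : (a • x).root = x.root ^ a.val := by
  rw [MuP.zmod_smul, MuP.root_nsmul]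

variable (p)

theorem MuP.natCard : Nat.card (MuP p) = p := card_rootsOfUnity_eq_self p

noncomputable instance MuP.instFinite : Finite (MuP p) :=
  Nat.finite_of_card_ne_zero (by rw [MuP.natCard]; exact (Fact.out : p.Prime).ne_zero)

theorem MuP.finrank_eq_one : finrank (ZMod p) (MuP p) = 1 := by
  have h := Module.natCard_eq_pow_finrank (K := ZMod p) (V := MuP p)
  rw [MuP.natCard, Nat.card_zmod] at h
  have hp : p.Prime := Fact.out
  have h' : p ^ 1 = p ^ finrank (ZMod p) (MuP p) := by rw [pow_one]; exact h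
  exact (Nat.pow_right_injective hp.two_le h').symm

/-- The Galois representation on `μ_p`: multiplication by the mod `p` cyclotomic character. -/
noncomputable def muPRep :
    Representation (ZMod p) (AlgebraicClosure ℚ ≃ₐ[ℚ] AlgebraicClosure ℚ) (MuP p) :=
  (Representation.trivial (ZMod p) (AlgebraicClosure ℚ ≃ₐ[ℚ] AlgebraicClosure ℚ) (MuP p)).twist
    (cycloChar p)

theorem muPRep_apply_smul (σ : AlgebraicClosure ℚ ≃ₐ[ℚ] AlgebraicClosure ℚ) (x : MuP p) :
    muPRep p σ x = ((cycloChar p σ : (ZMod p)ˣ) : ZMod p) • x := rfl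

/-- `muPRep` is the natural Galois action on roots of unity. -/
theorem muPRep_apply (σ : AlgebraicClosure ℚ ≃ₐ[ℚ] AlgebraicClosure ℚ) (x : MuP p) :
    (((muPRep p σ x).root : (AlgebraicClosure ℚ)ˣ) : AlgebraicClosure ℚ)
      = σ ((x.root : (AlgebraicClosure ℚ)ˣ) : AlgebraicClosure ℚ) := by
  rw [muPRep_apply_smul, MuP.root_zmod_smul, cycloChar_spec p σ x.root.2]
  simp

/-- `μ_p` as an object of `Rep (ZMod p) G_ℚ`. -/
noncomputable def muP : Rep.{0, 0, 0} (ZMod p) (AlgebraicClosure ℚ ≃ₐ[ℚ] AlgebraicClosure ℚ) :=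
  Rep.of (muPRep p)

/-- A (non canonical) `𝔽_p`-linear identification `𝔽_p ≃ μ_p`. -/
noncomputable def muPLinearEquiv : ZMod p ≃ₗ[ZMod p] MuP p :=
  LinearEquiv.ofFinrankEq (ZMod p) (MuP p) (by rw [Module.finrank_self, MuP.finrank_eq_one])

end MuP

section Iso

variable (p : ℕ) [Fact p.Prime]

/-- `μ_p ≅ 𝔽_p(χ_p)` (non canonically: a choice of a primitive `p`-th root of unity). -/
noncomputable def muPRepEquivOfChar :
    ((Representation.trivial (ZMod p) (AlgebraicClosure ℚ ≃ₐ[ℚ] AlgebraicClosure ℚ)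
      (ZMod p)).twist (cycloChar p)).Equiv (muPRep p) :=
  Representation.Equiv.mk (muPLinearEquiv p) (fun g => by
    ext
    simp only [LinearMap.coe_comp, LinearEquiv.coe_coe, Function.comp_apply,
      Representation.twist_apply_apply, Representation.trivial_apply, muPRep_apply_smul]
    exact map_smul _ _ _)

/-- `𝔽_p(χ_p) ≅ μ_p` in `Rep (ZMod p) G_ℚ`. -/
noncomputable def ofCharIsoMuP :
    groupCohomology.ofChar (k := ZMod p) (cycloChar p) ≅ muP p :=
  Rep.mkIso (muPRepEquivOfChar p)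

variable {p}
variable (M : Rep.{0, 0, 0} (ZMod p) (AlgebraicClosure ℚ ≃ₐ[ℚ] AlgebraicClosure ℚ))

/-- `Hom_{𝔽_p}(M, μ_p)` with the action `(σ f)(m) = σ (f (σ⁻¹ m))`. -/
noncomputable def homMuPRep :
    Representation (ZMod p) (AlgebraicClosure ℚ ≃ₐ[ℚ] AlgebraicClosure ℚ)
      (M →ₗ[ZMod p] MuP p) :=
  Representation.linHom M.ρ (muPRep p)

theorem homMuPRep_apply (σ : AlgebraicClosure ℚ ≃ₐ[ℚ] AlgebraicClosure ℚ)
    (f : M →ₗ[ZMod p] MuP p) (m : M) :
    homMuPRep M σ f m = muPRep p σ (f (M.ρ σ⁻¹ m)) := rfl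

/-- `Hom(M, μ_p)` as an object of `Rep (ZMod p) G_ℚ`. -/
noncomputable def homMuP : Rep.{0, 0, 0} (ZMod p) (AlgebraicClosure ℚ ≃ₐ[ℚ] AlgebraicClosure ℚ) :=
  Rep.of (homMuPRep M)

/-- The linear equivalence `M^* ≃ Hom(M, μ_p)`, `f ↦ e ∘ f`. -/
noncomputable def dualEquivHomMuP : Module.Dual (ZMod p) M ≃ₗ[ZMod p] (M →ₗ[ZMod p] MuP p) :=
  LinearEquiv.arrowCongr (LinearEquiv.refl (ZMod p) M) (muPLinearEquiv p)

theorem dualEquivHomMuP_apply (f : Module.Dual (ZMod p) M) (m : M) :
    dualEquivHomMuP M f m = muPLinearEquiv p (f m) := rfl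

/-- **B13.** `M^*(1) = M.dualTwist (cycloChar p)` is `Hom(M, μ_p)` as a representation. -/
noncomputable def dualTwistEquivHomMuP :
    (M.ρ.dual.twist (cycloChar p)).Equiv (homMuPRep M) :=
  Representation.Equiv.mk (dualEquivHomMuP M) (fun g => by
    ext f m
    simp only [LinearMap.coe_comp, LinearEquiv.coe_coe, Function.comp_apply,
      dualEquivHomMuP_apply, homMuPRep_apply, muPRep_apply_smul,
      Representation.twist_apply_apply, LinearMap.smul_apply, Representation.dual_apply,
      map_smul]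
    rfl)

/-- **B13.** `M.dualTwist (cycloChar p) ≅ Hom(M, μ_p)` in `Rep (ZMod p) G_ℚ`. -/
noncomputable def dualTwistIsoHomMuP : M.dualTwist (cycloChar p) ≅ homMuP M :=
  Rep.mkIso (dualTwistEquivHomMuP M)

/-- The evaluation pairing `M × M^*(1) → μ_p`. -/
noncomputable def evalMuP : M →ₗ[ZMod p] (M.dualTwist (cycloChar p)) →ₗ[ZMod p] MuP p :=
  LinearMap.mk₂ (ZMod p) (fun m f => muPLinearEquiv p ((f : Module.Dual (ZMod p) M) m))
    (fun m m' f => by simp only [map_add])
    (fun c m f => by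
      simp only [map_smul])
    (fun m f f' => by
      exact map_add _ _ _)
    (fun c m f => by
      change muPLinearEquiv p (c • ((f : Module.Dual (ZMod p) M) m)) = _
      rw [map_smul])

theorem evalMuP_apply (m : M) (f : M.dualTwist (cycloChar p)) :
    evalMuP M m f = muPLinearEquiv p ((f : Module.Dual (ZMod p) M) m) := rfl

/-- The evaluation pairing is Galois equivariant: `⟨σ m, σ f⟩ = σ ⟨m, f⟩`. -/
theorem evalMuP_equivariant (σ : AlgebraicClosure ℚ ≃ₐ[ℚ] AlgebraicClosure ℚ)
    (m : M) (f : M.dualTwist (cycloChar p)) :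
    evalMuP M (M.ρ σ m) ((M.dualTwist (cycloChar p)).ρ σ f) = muPRep p σ (evalMuP M m f) := by
  rw [evalMuP_apply, evalMuP_apply, Rep.dualTwist_ρ_apply, muPRep_apply_smul]
  have h : M.ρ σ⁻¹ (M.ρ σ m) = m := by
    rw [← Module.End.mul_apply, ← map_mul, inv_mul_cancel, map_one, Module.End.one_apply]
  simp only [LinearMap.smul_apply, LinearMap.coe_comp, Function.comp_apply, h, map_smul]

/-- The evaluation pairing is perfect on the left: `⟨m, f⟩ = 0` for all `f` forces `m = 0`. -/
theorem evalMuP_left_injective (m : M) (h : ∀ f : M.dualTwist (cycloChar p), evalMuP M m f = 0) :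
    m = 0 := by
  by_contra hm
  obtain ⟨f, hf⟩ : ∃ f : Module.Dual (ZMod p) M, f m ≠ 0 := by
    by_contra hcon
    exact hm ((Module.forall_dual_apply_eq_zero_iff (ZMod p) m).1
      (fun f => not_not.1 (fun hf => hcon ⟨f, hf⟩)))
  have := h f
  rw [evalMuP_apply, LinearEquiv.map_eq_zero_iff] at this
  exact hf this

/-- The evaluation pairing is perfect on the right. -/
theorem evalMuP_right_injective (f : M.dualTwist (cycloChar p)) (h : ∀ m : M, evalMuP M m f = 0) :
    f = 0 := by
  apply LinearMap.ext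
  intro m
  have := h m
  rw [evalMuP_apply, LinearEquiv.map_eq_zero_iff] at this
  exact this

end Iso

section DoubleDual

universe u

variable {k G : Type u} [Field k] [Group G]

/-- The evaluation map `M → M^{**}` intertwines `M` and `(M.dualTwist χ).dualTwist χ`. -/
theorem dualTwist_dualTwist_ρ_eval (M : Rep.{u, u, u} k G) (χ : G →* kˣ) (g : G) (m : M) :
    ((M.dualTwist χ).dualTwist χ).ρ g (Module.Dual.eval k M m)
      = Module.Dual.eval k M (M.ρ g m) := by
  apply LinearMap.ext
  intro f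
  rw [Rep.dualTwist_ρ_apply]
  simp only [LinearMap.smul_apply, LinearMap.coe_comp, Function.comp_apply,
    Module.Dual.eval_apply]
  have h1 : (M.dualTwist χ).ρ g⁻¹ f = ((χ g⁻¹ : kˣ) : k) • (f ∘ₗ M.ρ g⁻¹⁻¹) :=
    Rep.dualTwist_ρ_apply M χ g⁻¹ f
  rw [h1, inv_inv]
  simp only [LinearMap.smul_apply, LinearMap.coe_comp, Function.comp_apply, smul_eq_mul]
  rw [← mul_assoc, ← Units.val_mul, ← map_mul, mul_inv_cancel, map_one, Units.val_one, one_mul]

/-- `M ≃ (M^*(χ))^*(χ)` as representations, for finite dimensional `M`. -/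
noncomputable def dualTwistDualTwistEquiv (M : Rep.{u, u, u} k G) (χ : G →* kˣ)
    [FiniteDimensional k M] :
    M.ρ.Equiv ((M.dualTwist χ).ρ.dual.twist χ) :=
  Representation.Equiv.mk (Module.evalEquiv k M) (fun g => by
    ext m : 1
    exact (dualTwist_dualTwist_ρ_eval M χ g m).symm)

/-- `(M^*(χ))^*(χ) ≅ M` in `Rep k G`, for finite dimensional `M`. -/
noncomputable def dualTwistDualTwistIso (M : Rep.{u, u, u} k G) (χ : G →* kˣ)
    [FiniteDimensional k M] :
    (M.dualTwist χ).dualTwist χ ≅ M :=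
  (Rep.mkIso (ρ := M.ρ) (σ := (M.dualTwist χ).ρ.dual.twist χ)
    (dualTwistDualTwistEquiv M χ)).symm ≪≫ (Rep.mkIso (Representation.Equiv.mk
      (LinearEquiv.refl k M) (fun _ => rfl) : M.ρ.Equiv M.ρ) : Rep.of M.ρ ≅ M) 

end DoubleDual

end Fermat.Agent.S55.Bridge

end
-- ===== PACK-END S55/Bridge/MuP.lean

-- ===== PACK-BEGIN S55/H175/LocalDecompPrime.lean
section




set_option autoImplicit false
set_option linter.style.haveILetI false

/-!
# `primeLocalToGlobal` is an isomorphism onto the decomposition group of `primeLocalPlace`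
-/

open scoped Pointwise

namespace Fermat.Agent.S55.H175

open ExtCitation

theorem range_primeLocalToGlobal (q : Nat.Primes) :
    (primeLocalToGlobal q).range = (primeLocalPlace q).decompositionSubgroup ℚ :=
  letI : Fact (q : ℕ).Prime := ⟨q.2⟩
  range_localGaloisToGlobal (q : ℕ)

theorem primeLocalToGlobal_injective (q : Nat.Primes) :
    Function.Injective (primeLocalToGlobal q) :=
  letI : Fact (q : ℕ).Prime := ⟨q.2⟩
  localGaloisToGlobal_injective (q : ℕ)

theorem primeLocalToGlobal_mem_decomposition (q : Nat.Primes) (τ : primeLocalGaloisGroup q) :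
    primeLocalToGlobal q τ ∈ (primeLocalPlace q).decompositionSubgroup ℚ := by
  rw [← range_primeLocalToGlobal]
  exact ⟨τ, rfl⟩

theorem exists_primeLocal_of_mem_decomposition (q : Nat.Primes)
    (σ : AlgebraicClosure ℚ ≃ₐ[ℚ] AlgebraicClosure ℚ)
    (hσ : σ ∈ (primeLocalPlace q).decompositionSubgroup ℚ) :
    ∃ τ : primeLocalGaloisGroup q, primeLocalToGlobal q τ = σ := by
  rw [← range_primeLocalToGlobal] at hσ
  exact hσ

theorem primeLocalPlace_liesOverPrime (q : Nat.Primes) :
    (primeLocalPlace q).LiesOverPrime (q : ℕ) := by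
  letI : Fact (q : ℕ).Prime := ⟨q.2⟩
  show ((q : ℕ) : AlgebraicClosure ℚ) ∈ (padicPlace (q : ℕ)).nonunits
  rw [ValuationSubring.mem_nonunits_iff_exists_mem_maximalIdeal]
  have hmem : ((q : ℕ) : AlgebraicClosure ℚ) ∈ padicPlace (q : ℕ) := by
    rw [mem_padicPlace_iff_norm, norm_padicEmbedding_natCast_self]
    have : (1 : ℝ) ≤ (q : ℕ) := by exact_mod_cast q.2.one_lt.le
    exact inv_le_one_of_one_le₀ this
  refine ⟨hmem, ?_⟩
  rw [IsLocalRing.mem_maximalIdeal, mem_nonunits_iff]
  intro hu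
  obtain ⟨u, hu⟩ := hu
  have h1 : ((u⁻¹ : (padicPlace (q : ℕ))ˣ) : padicPlace (q : ℕ)) * u = 1 := by simp
  have h2 : (((u⁻¹ : (padicPlace (q : ℕ))ˣ) : padicPlace (q : ℕ)) : AlgebraicClosure ℚ) *
      ((q : ℕ) : AlgebraicClosure ℚ) = 1 := by
    have := congrArg (Subtype.val) h1
    rw [hu] at this
    simpa using this
  have h3 := ((u⁻¹ : (padicPlace (q : ℕ))ˣ) : padicPlace (q : ℕ)).2
  rw [mem_padicPlace_iff_norm] at h3
  have h4 := congrArg (fun z => ‖padicEmbedding (q : ℕ) z‖) h2
  simp only [map_mul, norm_mul, map_one, norm_one] at h4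
  rw [norm_padicEmbedding_natCast_self] at h4
  have hq : (1 : ℝ) < (q : ℕ) := by exact_mod_cast q.2.one_lt
  have hinv : ((q : ℕ) : ℝ)⁻¹ < 1 := inv_lt_one_of_one_lt₀ hq
  have hpos : (0 : ℝ) < ((q : ℕ) : ℝ)⁻¹ := by positivity
  nlinarith [norm_nonneg (padicEmbedding (q : ℕ)
    (((u⁻¹ : (padicPlace (q : ℕ))ˣ) : padicPlace (q : ℕ)) : AlgebraicClosure ℚ))]

end Fermat.Agent.S55.H175

end
-- ===== PACK-END S55/H175/LocalDecompPrime.lean

-- ===== PACK-BEGIN S14/H714/Trans.lean
section


/-!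
# S14, block LOCAL (helper714): transitivity and residual surjectivity

For an intermediate field `F` of `ℚ̄/ℚ` and valuation subrings of `ℚ̄` above a prime `ℓ`:
* `exists_smul_eq_of_inter_eq` (T1): two valuation subrings with the same trace on `F` are
  conjugate under `Gal(ℚ̄/F)`;
* `exists_residue_eq` (T2): an element of the decomposition group acting trivially on the residue
  field of `F` agrees on the residue field of `ℚ̄` with an element of `Gal(ℚ̄/F)` in the
  decomposition group.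
-/

set_option autoImplicit false
set_option linter.style.haveILetI false
set_option linter.unusedSectionVars false
set_option linter.unusedVariables false

namespace Fermat.Agent.S14.H714

open scoped Pointwise

variable (F : IntermediateField ℚ Qb)

instance instCompactSpaceFixingSubgroup : CompactSpace F.fixingSubgroup :=
  isCompact_iff_compactSpace.mp (InfiniteGalois.fixingSubgroup_isClosed F).isCompact

instance instIsInvariantFixingSubgroup :
    Algebra.IsInvariant (FixedPoints.subalgebra ℤ Zbar F.fixingSubgroup) Zbar F.fixingSubgroup :=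
  ⟨fun b hb => ⟨⟨b, hb⟩, rfl⟩⟩

/-- An algebraic integer fixed by `Gal(ℚ̄/F)` lies in `F`. -/
theorem coe_mem_of_mem_fixedPoints (r : FixedPoints.subalgebra ℤ Zbar F.fixingSubgroup) :
    ((r : Zbar) : Qb) ∈ F := by
  have h1 : ((r : Zbar) : Qb) ∈ IntermediateField.fixedField F.fixingSubgroup := by
    rw [IntermediateField.mem_fixedField_iff]
    intro σ hσ
    have := r.2 ⟨σ, hσ⟩
    exact congrArg Subtype.val this
  rwa [InfiniteGalois.fixedField_fixingSubgroup F] at h1

section

variable {F}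
variable {A A' : ValuationSubring Qb}

theorem mem_nonunits_iff_of_inter_eq (h : ∀ x ∈ F, x ∈ A ↔ x ∈ A') {x : Qb} (hx : x ∈ F) :
    x ∈ A.nonunits ↔ x ∈ A'.nonunits := by
  rw [ValuationSubring.mem_nonunits_iff_or, ValuationSubring.mem_nonunits_iff_or,
    h x⁻¹ (F.inv_mem hx)]

/-- **(T1)** Valuation subrings with the same trace on `F` are conjugate under `Gal(ℚ̄/F)`. -/
theorem exists_smul_eq_of_inter_eq {ℓ : ℕ} (hℓ : ℓ.Prime) (hA : (ℓ : Qb) ∈ A.nonunits)
    (hA' : (ℓ : Qb) ∈ A'.nonunits) (h : ∀ x ∈ F, x ∈ A ↔ x ∈ A') :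
    ∃ ρ ∈ F.fixingSubgroup, ρ • A' = A := by
  letI : TopologicalSpace Zbar := ⊥
  haveI : DiscreteTopology Zbar := ⟨rfl⟩
  haveI : ContinuousSMul F.fixingSubgroup Zbar := by
    rw [continuousSMul_iff_stabilizer_isOpen]
    intro x
    have hopen := stabilizer_isOpen_of_isIntegral (K := ℚ) (L := Qb) (x : Qb)
    have : (MulAction.stabilizer F.fixingSubgroup x : Set F.fixingSubgroup) =
        Subtype.val ⁻¹' (MulAction.stabilizer G (x : Qb) : Set G) := by
      ext g
      simp only [SetLike.mem_coe, MulAction.mem_stabilizer_iff, Set.mem_preimage, Subtype.ext_iff]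
      rfl
    rw [this]
    exact hopen.preimage continuous_subtype_val
  have hunder : (primeOf A').under (FixedPoints.subalgebra ℤ Zbar F.fixingSubgroup) =
      (primeOf A).under (FixedPoints.subalgebra ℤ Zbar F.fixingSubgroup) := by
    ext r
    rw [Ideal.mem_comap, Ideal.mem_comap]
    show (r : Zbar) ∈ primeOf A' ↔ (r : Zbar) ∈ primeOf A
    rw [mem_primeOf, mem_primeOf]
    exact (mem_nonunits_iff_of_inter_eq h (coe_mem_of_mem_fixedPoints F r)).symm
  obtain ⟨g, hg⟩ := Algebra.IsInvariant.exists_smul_of_under_eq_of_profinite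
    (A := FixedPoints.subalgebra ℤ Zbar F.fixingSubgroup) (G := F.fixingSubgroup)
    (primeOf A') (primeOf A) hunder
  refine ⟨g.1, g.2, smul_eq_of_primeOf A A' hℓ hA hA' g.1 fun s => ?_⟩
  rw [hg]
  exact (Ideal.smul_mem_pointwise_smul_iff (a := g) (S := primeOf A') (x := s)).symm

/-- Elements of the decomposition group preserve the maximal ideal. -/
theorem apply_mem_nonunits_of_smul_eq {σ : G} (hσA : σ • A = A) {x : Qb}
    (hx : x ∈ A.nonunits) : σ x ∈ A.nonunits := by
  have key : ∀ y : Qb, y ∈ A ↔ σ y ∈ A := by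
    intro y
    conv_rhs => rw [← hσA, ValuationSubring.mem_pointwise_smul_iff_inv_smul_mem]
    have : σ⁻¹ • σ y = y := by
      show σ⁻¹ (σ y) = y
      exact σ.symm_apply_apply y
    rw [this]
  rw [ValuationSubring.mem_nonunits_iff_or] at hx ⊢
  rcases hx with h | h
  · left; rw [h, map_zero]
  · right; rwa [← map_inv₀, ← key]

theorem apply_mem_of_smul_eq {σ : G} (hσA : σ • A = A) {x : Qb} (hx : x ∈ A) : σ x ∈ A := by
  rw [← hσA, ValuationSubring.mem_pointwise_smul_iff_inv_smul_mem]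
  have : σ⁻¹ • σ x = x := by
    show σ⁻¹ (σ x) = x
    exact σ.symm_apply_apply x
  rwa [this]

theorem inv_smul_eq_of_smul_eq {σ : G} (hσA : σ • A = A) : σ⁻¹ • A = A := by
  conv_lhs => rw [← hσA]
  rw [inv_smul_smul]

/-- **(T2)** An element `σ` of the decomposition group of `A` acting trivially on the residue
field of `A ∩ F` agrees modulo the maximal ideal with an element of `Gal(ℚ̄/F)` in the
decomposition group. -/
theorem exists_residue_eq {ℓ : ℕ} (hℓ : ℓ.Prime) (hA : (ℓ : Qb) ∈ A.nonunits) (σ : G)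
    (hσA : σ • A = A) (hσF : ∀ x ∈ F, x ∈ A → σ x - x ∈ A.nonunits) :
    ∃ ρ ∈ F.fixingSubgroup, ρ • A = A ∧ ∀ x ∈ A, ρ x - σ x ∈ A.nonunits := by
  letI : TopologicalSpace Zbar := ⊥
  haveI : DiscreteTopology Zbar := ⟨rfl⟩
  haveI : ContinuousSMul F.fixingSubgroup Zbar := by
    rw [continuousSMul_iff_stabilizer_isOpen]
    intro x
    have hopen := stabilizer_isOpen_of_isIntegral (K := ℚ) (L := Qb) (x : Qb)
    have : (MulAction.stabilizer F.fixingSubgroup x : Set F.fixingSubgroup) =
        Subtype.val ⁻¹' (MulAction.stabilizer G (x : Qb) : Set G) := by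
      ext g
      simp only [SetLike.mem_coe, MulAction.mem_stabilizer_iff, Set.mem_preimage, Subtype.ext_iff]
      rfl
    rw [this]
    exact hopen.preimage continuous_subtype_val
  set Q := primeOf A with hQ
  set R := FixedPoints.subalgebra ℤ Zbar F.fixingSubgroup with hR
  set P := Q.under R with hP
  haveI : Q.LiesOver P := ⟨rfl⟩
  -- `σ` stabilises `Q`
  have hσQ : σ ∈ MulAction.stabilizer G Q := by
    rw [MulAction.mem_stabilizer_iff]
    ext s
    rw [Ideal.mem_pointwise_smul_iff_inv_smul_mem]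
    have := mem_primeOf_smul_iff (inv_smul_eq_of_smul_eq hσA) s
    exact this.symm
  let l0 : (Zbar ⧸ Q) ≃ₐ[ℤ ⧸ Q.under ℤ] (Zbar ⧸ Q) :=
    Ideal.Quotient.stabilizerHom Q (Q.under ℤ) G ⟨σ, hσQ⟩
  have hl0 : ∀ b : Zbar, l0 (Ideal.Quotient.mk Q b) = Ideal.Quotient.mk Q (σ • b) := fun b => rfl
  let l : (Zbar ⧸ Q) ≃ₐ[R ⧸ P] (Zbar ⧸ Q) :=
    AlgEquiv.ofRingEquiv (f := l0.toRingEquiv) (fun r => by
      obtain ⟨r, rfl⟩ := Ideal.Quotient.mk_surjective r
      rw [Ideal.Quotient.algebraMap_mk_of_liesOver]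
      show l0 (Ideal.Quotient.mk Q (r : Zbar)) = Ideal.Quotient.mk Q (r : Zbar)
      rw [hl0, Ideal.Quotient.eq, mem_primeOf]
      exact hσF _ (coe_mem_of_mem_fixedPoints F r) (coe_mem A _))
  obtain ⟨⟨g, hgQ⟩, hgl⟩ :=
    Ideal.Quotient.stabilizerHom_surjective_of_profinite (G := F.fixingSubgroup) P Q l
  have hgb : ∀ b : Zbar, (g : G) • b - σ • b ∈ Q := by
    intro b
    have h2 := DFunLike.congr_fun hgl (Ideal.Quotient.mk Q b)
    have h3 : l (Ideal.Quotient.mk Q b) = Ideal.Quotient.mk Q (σ • b) := rfl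
    rw [h3] at h2
    rw [← Ideal.Quotient.eq]
    exact h2
  have hgQ' : ∀ s : Zbar, s ∈ Q ↔ (g : G) • s ∈ Q := by
    intro s
    rw [MulAction.mem_stabilizer_iff] at hgQ
    conv_rhs => rw [← hgQ]
    exact (Ideal.smul_mem_pointwise_smul_iff (a := g) (S := Q) (x := s)).symm
  have hgA : (g : G) • A = A := smul_eq_of_primeOf A A hℓ hA hA g.1 hgQ'
  refine ⟨g.1, g.2, hgA, fun x hx => ?_⟩
  obtain ⟨b, s, hs, hxs⟩ := exists_fraction A hℓ hA hx
  have hgs : ((g : G) • s) ∉ Q := fun h => hs ((hgQ' s).mpr h)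
  have hσs : (σ • s) ∉ Q := by
    intro h
    apply hs
    have := (mem_primeOf_smul_iff (inv_smul_eq_of_smul_eq hσA) (σ • s)).mp h
    rwa [inv_smul_smul] at this
  rw [mem_primeOf, coe_smul_Zbar] at hgs hσs
  obtain ⟨hgne, hginv⟩ := inv_mem_of_not_mem_nonunits A hgs
  obtain ⟨hσne, hσinv⟩ := inv_mem_of_not_mem_nonunits A hσs
  have e1 : (g : G) x * (g : G) (s : Qb) = (g : G) (b : Qb) := by rw [← map_mul, hxs]
  have e2 : σ x * σ (s : Qb) = σ (b : Qb) := by rw [← map_mul, hxs]
  have hb := mem_primeOf.mp (hgb b)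
  have hs' := mem_primeOf.mp (hgb s)
  have hb' : (g : G) (b : Qb) - σ (b : Qb) ∈ A.nonunits := hb
  have hs'' : (g : G) (s : Qb) - σ (s : Qb) ∈ A.nonunits := hs'
  have key : (g : G) x - σ x =
      (((g : G) (b : Qb) - σ (b : Qb)) - ((g : G) (s : Qb) - σ (s : Qb)) * σ x) *
        ((g : G) (s : Qb))⁻¹ := by
    rw [← e1, ← e2]
    field_simp
    ring
  rw [key]
  refine nonunits_mul_mem A (nonunits_sub_mem A hb' ?_) hginv
  exact nonunits_mul_mem A hs'' (apply_mem_of_smul_eq hσA hx)

/-- Criterion for membership in the inertia subgroup. -/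
theorem mem_inertiaSubgroupIn_of {σ : G} (hσA : σ • A = A)
    (h : ∀ x ∈ A, σ x - x ∈ A.nonunits) : σ ∈ A.inertiaSubgroupIn ℚ := by
  have hσD : σ ∈ A.decompositionSubgroup ℚ := MulAction.mem_stabilizer_iff.mpr hσA
  rw [ValuationSubring.inertiaSubgroupIn, Subgroup.mem_map]
  refine ⟨⟨σ, hσD⟩, ?_, rfl⟩
  rw [ValuationSubring.inertiaSubgroup, MonoidHom.mem_ker]
  ext r
  obtain ⟨a, rfl⟩ := IsLocalRing.residue_surjective r
  show (⟨σ, hσD⟩ : A.decompositionSubgroup ℚ) • (IsLocalRing.residue A a) = IsLocalRing.residue A a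
  rw [← IsLocalRing.ResidueField.residue_smul]
  show Ideal.Quotient.mk _ _ = Ideal.Quotient.mk _ _
  rw [Ideal.Quotient.eq, ← ValuationSubring.coe_mem_nonunits_iff]
  exact h a a.2

end

end Fermat.Agent.S14.H714

end
-- ===== PACK-END S14/H714/Trans.lean

-- ===== PACK-BEGIN S55/G/Spec.lean
section
/-
S55 (Poitou–Tate), layer G (global class field theory) — INTERFACE, part 1.
Sub-architect: helper421.   Plan and leaves: `coord/S55-G.md` on `origin/helper421`.

Only definitions and `def XxxSpec : Prop` (no `sorry`).  Producers prove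
`theorem xxx : XxxSpec`; consumers take `(h : XxxSpec)` as a hypothesis.

Vocabulary: `Defs.lean`, `DefsLocal.lean` (this layer), `T/Spec.lean` (`resSub`, `CardDvd`, …),
`L/Spec.lean` (`IsLocalFld`).

Standing conventions.
* `S : Finset Nat.Primes` is a VARIABLE finite set of rational primes.
* `G : Type` is a finite group acting on the number field `L : Type` by field automorphisms;
  "`L/K` is Galois with group `G`" is Mathlib's `[IsGaloisGroup G K L]`
  (instances: `G = L ≃ₐ[K] L`, subgroups with their fixed fields, quotients, …).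
* The archimedean places are NOT part of `J_S`; this is harmless exactly because all groups in
  the specs below have ODD order (they are `p`-groups, `p ≠ 2`).
-/




set_option autoImplicit false

open scoped NumberField TensorProduct
open IsDedekindDomain CategoryTheory groupCohomology

noncomputable section

namespace Fermat.Agent.S55.G

/-! ## 0. Hypotheses -/

/-- `L/L^G` is unramified outside `S`: for every finite prime `w` of `L` not above `S`, the
inertia group `{g | g x ≡ x mod w for all integral x}` acts trivially on `L`. -/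
def IsUnramOut (S : Finset Nat.Primes) (G L : Type) [Group G] [Field L] [NumberField L]
    [MulSemiringAction G L] : Prop :=
  ∀ w : HeightOneSpectrum (𝓞 L), ¬ IsAbove S L w →
    ∀ g : G, (∀ x : 𝓞 L, g • x - x ∈ w.asIdeal) → ∀ x : L, g • x = x

/-- `L` contains a primitive `p`-th root of unity fixed by `G` (i.e. `μ_p ⊂ L^G`). -/
def HasFixedRootOfUnity (p : ℕ) (G L : Type) [Group G] [Field L] [MulSemiringAction G L] : Prop :=
  ∃ ζ : L, IsPrimitiveRoot ζ p ∧ ∀ g : G, g • ζ = ζ

/-! ## 1. Structure of the modules -/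

/-- **G-SES.**  For `S ≠ ∅` the sequence `0 → Lˣ → J_S(L) × Div^S(L) → C_S(L) → 0` is short
exact in `Rep ℤ G`. -/
def ClassShortExactSpec : Prop :=
  ∀ (S : Finset Nat.Primes) (G L : Type) [Group G] [Field L] [NumberField L]
    [MulSemiringAction G L], S.Nonempty → (classShortComplex S G L).ShortExact

/-- **G-CL.**  Finiteness of the `S`-class group: the image `C'_S(L) = J_S(L)/E_S(L)` of `J_S(L)`
has finite index in `C_S(L)`; and for `T ⊇ S` large enough it is everything
(`Cl_T(L) = 1`), where we may moreover require `T` to contain any given finite set. -/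
def ClassGroupFiniteSpec : Prop :=
  ∀ (S : Finset Nat.Primes) (L : Type) [Field L] [NumberField L],
    (jImage S L).toAddSubgroup.index ≠ 0 ∧
    ∃ T : Finset Nat.Primes, S ⊆ T ∧ ∀ T' : Finset Nat.Primes, T ⊆ T' → jImage T' L = ⊤

/-- **G-PL0.**  There are finitely many places above `S`, and each local field `L_𝔪` is a local
field in the sense of layer `L`. -/
def LocFieldSpec : Prop :=
  ∀ (S : Finset Nat.Primes) (L : Type) [Field L] [NumberField L],
    Finite (SPlace S L) ∧ ∀ 𝔪 : SPlace S L, _root_.Fermat.Agent.S55.L.IsLocalFld (LocField S 𝔪)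

/-- **G-PL1.**  The places above `S` are the primes above `S`: a `G`-equivariant bijection
`β : SPlace S L ≃ PrimeIn S L` such that an integer `x ∈ 𝒪_L` lies in the prime `β 𝔪` iff its image
in `L_𝔪` is a non-unit of the ring of integers of `L_𝔪`. -/
def PlacePrimeSpec : Prop :=
  ∀ (S : Finset Nat.Primes) (L : Type) [Field L] [NumberField L],
    ∃ β : SPlace S L ≃ PrimeIn S L,
      (∀ (G : Type) [Group G] [MulSemiringAction G L] (g : G) (𝔪 : SPlace S L),
        (β (sPlaceSMul S G g 𝔪)).1 = primeSMul G g (β 𝔪).1) ∧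
      (∀ (𝔪 : SPlace S L) (A : ValuationSubring (LocField S 𝔪)), _root_.Fermat.Agent.S55.L.IsLocalRingOfIntegers A →
        ∀ x : 𝓞 L, x ∈ (β 𝔪).1.asIdeal ↔ toLoc S 𝔪 (x : L) ∈ A.nonunits)

/-- **G-LOC (Shapiro).**  For a finite group `G` acting on `L` and a set `R` of representatives
of the `G`-orbits of places above `S`, the localisation maps induce
`Hⁿ(G, J_S(L)) ≅ ∏_{𝔪 ∈ R} Hⁿ(D_𝔪, L_𝔪ˣ)`   (all `n`). -/
def ShapiroJSpec : Prop :=
  ∀ (S : Finset Nat.Primes) (G L : Type) [Group G] [Finite G] [Field L] [NumberField L]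
    [MulSemiringAction G L] (R : Finset (SPlace S L)),
    (∀ 𝔪 : SPlace S L, ∃! r : SPlace S L, r ∈ R ∧ ∃ g : G, sPlaceSMul S G g r = 𝔪) →
    ∀ n : ℕ, Function.Bijective
      (fun (x : groupCohomology (JRep G S L) n) (r : R) => (locMapJ S G r.1 n).hom x)

/-- **G-H1J.**  `H¹(G, J_S(L)) = 0` (Hilbert 90 for the semi-local algebra `L ⊗ ℚ_S`). -/
def H1JSpec : Prop :=
  ∀ (S : Finset Nat.Primes) (G L : Type) [Group G] [Finite G] [Field L] [NumberField L]
    [MulSemiringAction G L] [FaithfulSMul G L],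
    Limits.IsZero (groupCohomology (JRep G S L) 1)

/-! ## 2. Galois descent -/

/-- **G-DESC.**  Galois descent for the `S`-idèle class group.  Let `G` act faithfully on `L`,
unramified outside `S ≠ ∅`, let `N ⊴ G` and let `L'` be a number field with an embedding
`L' → L` whose image is the fixed field of `N`, with `G ⧸ N` acting on `L'` compatibly.
Then there is an injective additive map `ι : C_S(L') → C_S(L)`, equivariant (`ι ∘ gN = g ∘ ι`),
with image exactly the `N`-invariants `C_S(L)^N`, and which on the image of `J_S(L')` is the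
natural base-change map.  (Proof: Hilbert 90 for `L/L'`, `(L ⊗ ℚ_S)^N = L' ⊗ ℚ_S`,
`Div^S(L)^N = Div^S(L')` because `L/L'` is unramified outside `S`.) -/
def DescentSpec : Prop :=
  ∀ (S : Finset Nat.Primes) (G L L' : Type) [Group G] [Finite G] [Field L] [NumberField L]
    [Field L'] [NumberField L'] [Algebra L' L] [MulSemiringAction G L] [FaithfulSMul G L]
    (N : Subgroup G) [N.Normal] [MulSemiringAction (G ⧸ N) L'],
    S.Nonempty → IsUnramOut S G L →
    (∀ x : L, (∀ n : N, (n : G) • x = x) ↔ x ∈ (algebraMap L' L).range) →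
    (∀ (g : G) (x : L'), algebraMap L' L ((g : G ⧸ N) • x) = g • algebraMap L' L x) →
    ∃ ι : CS S L' →+ CS S L,
      Function.Injective ι ∧
      (∀ (g : G) (c : CS S L'), ι (cRepr S (G ⧸ N) L' (g : G ⧸ N) c) = cRepr S G L g (ι c)) ∧
      (∀ c : CS S L, (∀ n : N, cRepr S G L (n : G) c = c) ↔ c ∈ Set.range ι) ∧
      (∀ y : Additive (AS S L')ˣ,
        ι ((principal S L').mkQ (y, 0)) = (principal S L).mkQ (jMap S L' L y, 0))

/-! ## 3. The two inequalities (cyclic layers of degree `p`) -/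

/-- **G-FI (first inequality).**  Let `p` be an odd prime and `G` a group of order `p` acting
faithfully on the number field `L`, `S ≠ ∅`.  Then `H¹(G, C_S(L))` and `H²(G, C_S(L))` are finite
and `|H²(G, C_S(L))| = p · |H¹(G, C_S(L))|`   (Herbrand quotient `h(C_S(L)) = p`).
NO ramification hypothesis. -/
def FirstInequalitySpec : Prop :=
  ∀ (p : ℕ) [Fact p.Prime], p ≠ 2 →
  ∀ (S : Finset Nat.Primes) (G L : Type) [Group G] [Finite G] [Field L] [NumberField L]
    [MulSemiringAction G L] [FaithfulSMul G L],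
    S.Nonempty → Nat.card G = p →
    Finite (groupCohomology (CRep S G L) 1) ∧ Finite (groupCohomology (CRep S G L) 2) ∧
    Nat.card (groupCohomology (CRep S G L) 2) = p * Nat.card (groupCohomology (CRep S G L) 1)

/-- **G-SI (second inequality).**  Let `p` be an odd prime, `p ∈ S`, and `G` a group of order `p`
acting faithfully on `L`, unramified outside `S`, with `μ_p ⊂ L^G`.  Then
`|H²(G, C_S(L))|` divides `p`   (`[C_S(K) : N C_S(L)] ≤ p`, Kummer theory). -/
def SecondInequalitySpec : Prop :=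
  ∀ (p : ℕ) [hp : Fact p.Prime], p ≠ 2 →
  ∀ (S : Finset Nat.Primes) (G L : Type) [Group G] [Finite G] [Field L] [NumberField L]
    [MulSemiringAction G L] [FaithfulSMul G L],
    (⟨p, hp.out⟩ : Nat.Primes) ∈ S → Nat.card G = p → IsUnramOut S G L →
    HasFixedRootOfUnity p G L →
    T.CardDvd (groupCohomology (CRep S G L) 2) p

/-- **G-CYC.**  Consequence of G-FI and G-SI: for a cyclic layer of degree `p`,
`H¹(G, C_S(L)) = 0` and `|H²(G, C_S(L))| = p`. -/
def CyclicLayerSpec : Prop :=
  ∀ (p : ℕ) [hp : Fact p.Prime], p ≠ 2 →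
  ∀ (S : Finset Nat.Primes) (G L : Type) [Group G] [Finite G] [Field L] [NumberField L]
    [MulSemiringAction G L] [FaithfulSMul G L],
    (⟨p, hp.out⟩ : Nat.Primes) ∈ S → Nat.card G = p → IsUnramOut S G L →
    HasFixedRootOfUnity p G L →
    Limits.IsZero (groupCohomology (CRep S G L) 1) ∧
      Nat.card (groupCohomology (CRep S G L) 2) = p

/-! ## 4. The class module property for `p`-groups (OUTPUT of the layer) -/

/-- **G-UP (upper bound).**  Let `p` be an odd prime, `p ∈ S`, `G` a finite `p`-group acting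
faithfully on `L`, unramified outside `S`, with `μ_p ⊂ L^G`.  Then for every subgroup `H ≤ G`:
`H¹(H, C_S(L)) = 0` and `|H²(H, C_S(L))|` divides `|H|`.
(From G-CYC + G-DESC by inflation–restriction and `T.UglySpec`.) -/
def PClassUpperSpec : Prop :=
  ∀ (p : ℕ) [hp : Fact p.Prime], p ≠ 2 →
  ∀ (S : Finset Nat.Primes) (G L : Type) [Group G] [Finite G] [Field L] [NumberField L]
    [MulSemiringAction G L] [FaithfulSMul G L],
    (⟨p, hp.out⟩ : Nat.Primes) ∈ S → IsPGroup p G → IsUnramOut S G L →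
    HasFixedRootOfUnity p G L →
    ∀ H : Subgroup G,
      Limits.IsZero (groupCohomology (T.resSub (CRep S G L) H) 1) ∧
      T.CardDvd (groupCohomology (T.resSub (CRep S G L) H) 2) (Nat.card H)

/-- **G-CM (class module, numerical form).**  Same hypotheses: for every subgroup `H ≤ G`,
`H¹(H, C_S(L)) = 0` and `H²(H, C_S(L)) ≅ ℤ/|H|`.  This is exactly the hypothesis of
`T.ClassModuleOfCyclicSpec`, which turns it into `T.IsClassModule (CRep S G L) γ`.
(Upper bound: G-UP.  Lower bound: invariant maps + reciprocity, interface part 2.) -/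
def PClassModuleSpec : Prop :=
  ∀ (p : ℕ) [hp : Fact p.Prime], p ≠ 2 →
  ∀ (S : Finset Nat.Primes) (G L : Type) [Group G] [Finite G] [Field L] [NumberField L]
    [MulSemiringAction G L] [FaithfulSMul G L],
    (⟨p, hp.out⟩ : Nat.Primes) ∈ S → IsPGroup p G → IsUnramOut S G L →
    HasFixedRootOfUnity p G L →
    ∀ H : Subgroup G,
      Limits.IsZero (groupCohomology (T.resSub (CRep S G L) H) 1) ∧
      Nonempty (groupCohomology (T.resSub (CRep S G L) H) 2 ≃+ ZMod (Nat.card H))

end Fermat.Agent.S55.G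

end
end
-- ===== PACK-END S55/G/Spec.lean

-- ===== PACK-BEGIN S55/T/Spec3.lean
section


/-!
# S55, layer T: interface additions (v3) — Shapiro in explicit form, products / sums,
permutation modules.  Nothing in `Spec.lean`, `Spec2.lean` changes.  (Besides definitions and `Prop`-valued specs this
file contains one auxiliary lemma, `permCoeffLin_single`, and the equivariance proof inside
`permCoeff`.)

These are the statements needed to compute the cohomology of semi-local modules
(`∏_{w | v} L_wˣ ≅ Coind`, `Div^S = ℤ[primes]`) through the NATURAL localisation maps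
(restriction to the decomposition group followed by projection to one factor).
-/

set_option autoImplicit false

open CategoryTheory groupCohomology

namespace Fermat.Agent.S55.T

/-- Evaluation at `1`: the `S`-equivariant map `Res_S Coind_S^G A ⟶ A`
(counit of Mathlib's adjunction `Res ⊣ Coind`). -/
noncomputable abbrev coindEv {k G : Type} [CommRing k] [Group G] (S : Subgroup G)
    (A : Rep.{0} k S) : Rep.res S.subtype (Rep.coind S.subtype A) ⟶ A :=
  (Rep.resCoindAdjunction k S.subtype).counit.app A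

/-- **T8.**  Shapiro's lemma in explicit form: the composite
`Hⁿ(G, Coind_S^G A) --res--> Hⁿ(S, Coind_S^G A) --ev₁--> Hⁿ(S, A)` is bijective. -/
def ShapiroExplicitSpec : Prop :=
  ∀ (k G : Type) [CommRing k] [Group G] (S : Subgroup G) (A : Rep.{0} k S) (n : ℕ),
    Function.Bijective (groupCohomology.map S.subtype (coindEv S A) n).hom

/-- **T8'.**  Shapiro, recognition form: if `B : Rep k G` and `π : Res_S B ⟶ A` are such that
`b ↦ (g ↦ π (g • b))` is a bijection from `B` onto `Coind_S^G A`, then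
`Hⁿ(G, B) --res--> Hⁿ(S, B) --π--> Hⁿ(S, A)` is bijective. -/
def ShapiroRecognitionSpec : Prop :=
  ∀ (k G : Type) [CommRing k] [Group G] (S : Subgroup G) (A : Rep.{0} k S) (B : Rep.{0} k G)
    (π : Rep.res S.subtype B ⟶ A),
    (∀ f : G → A.V, (∀ (s : S) (g : G), f (s * g) = A.ρ s (f g)) →
      ∃! b : B.V, ∀ g : G, π.hom (B.ρ g b) = f g) →
    ∀ n : ℕ, Function.Bijective (groupCohomology.map S.subtype π n).hom

/-- **T9a.**  Finite products: if `C.V → ∏ᵢ (A i).V` (components `p i`) is bijective, `ι` finite,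
then `Hⁿ(G, C) → ∏ᵢ Hⁿ(G, A i)` is bijective. -/
def FiniteProdSpec : Prop :=
  ∀ (k G : Type) [CommRing k] [Group G] (ι : Type) [Finite ι] (A : ι → Rep.{0} k G)
    (C : Rep.{0} k G) (p : ∀ i, C ⟶ A i),
    Function.Bijective (fun (c : C.V) (i : ι) => (p i).hom c) →
    ∀ n : ℕ, Function.Bijective
      (fun (x : groupCohomology C n) (i : ι) => (coeffMap (p i) n).hom x)

/-- **T9b.**  Direct sums over a finite group: if `C` is the internal direct sum of the images of
the injective morphisms `inc i : A i ⟶ C` (`ι` arbitrary), then `Hⁿ(G, C)` is the internal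
direct sum of the `Hⁿ(G, A i)`: every class is a finite sum of classes coming from the `A i`,
and a family of classes `x i` (almost all zero) with `∑ᵢ inc_i(x i) = 0` vanishes. -/
def DirectSumSpec : Prop :=
  ∀ (k G : Type) [CommRing k] [Group G] [Finite G] (ι : Type) [DecidableEq ι]
    (A : ι → Rep.{0} k G) (C : Rep.{0} k G) (inc : ∀ i, A i ⟶ C),
    Function.Bijective
      (DirectSum.toModule k ι C.V (fun i => (inc i).hom.toLinearMap)) →
    ∀ n : ℕ, Function.Bijective
      (DirectSum.toModule k ι (groupCohomology C n) (fun i => (coeffMap (inc i) n).hom))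

/-- The coefficient-at-`x` linear map `k[X] → k`. -/
noncomputable def permCoeffLin (k : Type) [CommRing k] (X : Type) (x : X) :
    MonoidAlgebra k X →ₗ[k] k :=
  Finsupp.lapply x ∘ₗ (MonoidAlgebra.coeffLinearEquiv k).toLinearMap

lemma permCoeffLin_single (k : Type) [CommRing k] (X : Type) [DecidableEq X] (x y : X) (r : k) :
    permCoeffLin k X x (MonoidAlgebra.single y r) = if y = x then r else 0 := by
  simp [permCoeffLin, Finsupp.single_apply]

/-- The coefficient-at-`x` map `k[X] → k`, equivariant for the stabiliser of `x`. -/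
noncomputable def permCoeff {k G : Type} [CommRing k] [Group G] (X : Type) [MulAction G X]
    (x : X) :
    Rep.res (MulAction.stabilizer G x).subtype (Rep.ofMulAction k G X) ⟶
      Rep.trivial k (MulAction.stabilizer G x) k :=
  Rep.ofHom
    { toLinearMap := permCoeffLin k X x
      isIntertwining' := fun s => by
        classical
        refine MonoidAlgebra.lhom_ext' fun y => LinearMap.ext_ring ?_
        have hs : (s : G) • x = x := MulAction.mem_stabilizer_iff.1 s.2
        have key : ((s : G) • y = x) ↔ (y = x) := by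
          constructor
          · intro h
            have := congrArg (fun z => (s : G)⁻¹ • z) h
            simp only [inv_smul_smul] at this
            rw [this, inv_smul_eq_iff, hs]
          · intro h; rw [h, hs]
        simp [permCoeffLin_single, key] }

/-- The localisation map `Hⁿ(G, k[X]) ⟶ Hⁿ(G_x, k)` at a point `x : X`. -/
noncomputable abbrev permLoc {k G : Type} [CommRing k] [Group G] (X : Type) [MulAction G X]
    (x : X) (n : ℕ) :
    groupCohomology (Rep.ofMulAction k G X) n ⟶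
      groupCohomology (Rep.trivial k (MulAction.stabilizer G x) k) n :=
  groupCohomology.map (MulAction.stabilizer G x).subtype (permCoeff X x) n

/-- **T10.**  Permutation modules over a finite group (`X` possibly infinite): a class in
`Hⁿ(G, k[X])` vanishes iff all its localisations vanish; every family of local classes supported
on finitely many orbits, one point per orbit, is the localisation of a global class. -/
def PermSpec : Prop :=
  ∀ (k G : Type) [CommRing k] [Group G] [Finite G] (X : Type) [MulAction G X] (n : ℕ),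
    (∀ c : groupCohomology (Rep.ofMulAction k G X) n,
      (∀ x : X, (permLoc X x n).hom c = 0) → c = 0) ∧
    (∀ (x : X) (y : groupCohomology (Rep.trivial k (MulAction.stabilizer G x) k) n),
      ∃ c : groupCohomology (Rep.ofMulAction k G X) n,
        (permLoc X x n).hom c = y ∧
        ∀ x' : X, x' ∉ MulAction.orbit G x → (permLoc X x' n).hom c = 0)

/-- **T10'.**  `H¹(G, ℤ[X]) = 0` for a finite group `G`. -/
def PermH1Spec : Prop :=
  ∀ (G : Type) [Group G] [Finite G] (X : Type) [MulAction G X],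
    Limits.IsZero (groupCohomology (Rep.ofMulAction ℤ G X) 1)

end Fermat.Agent.S55.T

end
-- ===== PACK-END S55/T/Spec3.lean

-- ===== PACK-BEGIN S55/Local/H169/AddCoh.lean
section


/-!
# S55, layer L, pieces FF1a / FF1b (helper169)

Additive `H¹` and `H²` of a finite Galois extension vanish (contracting homotopy from an element
of trace one).

* `Fermat.Agent.S55.Local.H169.addH1 : Fermat.Agent.S55.Local.AddH1Statement`
* `Fermat.Agent.S55.Local.H169.addH2 : Fermat.Agent.S55.Local.AddH2Statement`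
-/

set_option autoImplicit false

namespace Fermat.Agent.S55.Local.H169

open groupCohomology

section

variable {k l : Type} [Field k] [Field l] [Algebra k l] [FiniteDimensional k l] [IsGalois k l]

/-- An element of trace one, in the form `∑ σ, σ θ = 1`. -/
theorem exists_sum_aut_eq_one : ∃ θ : l, ∑ σ : l ≃ₐ[k] l, σ θ = 1 := by
  obtain ⟨θ, hθ⟩ := Algebra.trace_surjective k l 1
  refine ⟨θ, ?_⟩
  rw [← trace_eq_sum_automorphisms (K := k) (L := l) θ, hθ, map_one]

omit [IsGalois k l] in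
/-- Reindexing the sum over the group by left translation. -/
theorem sum_mul_left_aut (g : l ≃ₐ[k] l) (f : (l ≃ₐ[k] l) → l) :
    ∑ σ : l ≃ₐ[k] l, f (g * σ) = ∑ σ : l ≃ₐ[k] l, f σ :=
  Fintype.sum_equiv (Equiv.mulLeft g) _ _ (fun _ => rfl)

end

/-- **FF1a**: additive `H¹` of a finite Galois extension vanishes. -/
theorem addH1 : Fermat.Agent.S55.Local.AddH1Statement := by
  intro k l _ _ _ _ _ c hc
  obtain ⟨θ, hθ⟩ := exists_sum_aut_eq_one (k := k) (l := l)
  refine ⟨-∑ τ : l ≃ₐ[k] l, τ θ * c τ, fun g => ?_⟩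
  have h1 : g • (-∑ τ : l ≃ₐ[k] l, τ θ * c τ) = -∑ τ : l ≃ₐ[k] l, (g * τ) θ * (g • c τ) := by
    rw [AlgEquiv.smul_def, map_neg, map_sum]
    congr 1
    refine Finset.sum_congr rfl fun τ _ => ?_
    rw [map_mul, AlgEquiv.smul_def, AlgEquiv.mul_apply]
  have h2 : ∑ τ : l ≃ₐ[k] l, (g * τ) θ * (g • c τ)
      = ∑ τ : l ≃ₐ[k] l, (g * τ) θ * c (g * τ) - c g * ∑ τ : l ≃ₐ[k] l, (g * τ) θ := by
    rw [Finset.mul_sum, ← Finset.sum_sub_distrib]
    refine Finset.sum_congr rfl fun τ _ => ?_
    rw [hc g τ]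
    ring
  have h3 : ∑ τ : l ≃ₐ[k] l, (g * τ) θ * c (g * τ) = ∑ τ : l ≃ₐ[k] l, τ θ * c τ :=
    sum_mul_left_aut g (fun σ => σ θ * c σ)
  have h4 : ∑ τ : l ≃ₐ[k] l, (g * τ) θ = 1 := by
    rw [sum_mul_left_aut g (fun σ => σ θ), hθ]
  rw [h1, h2, h3, h4]
  ring

/-- **FF1b**: additive `H²` of a finite Galois extension vanishes. -/
theorem addH2 : Fermat.Agent.S55.Local.AddH2Statement := by
  intro k l _ _ _ _ _ c hc
  obtain ⟨θ, hθ⟩ := exists_sum_aut_eq_one (k := k) (l := l)
  refine ⟨fun g => ∑ τ : l ≃ₐ[k] l, (g * τ) θ * c (g, τ), fun g h => ?_⟩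
  have h1 : g • (∑ τ : l ≃ₐ[k] l, (h * τ) θ * c (h, τ))
      = ∑ τ : l ≃ₐ[k] l, (g * h * τ) θ * (g • c (h, τ)) := by
    rw [AlgEquiv.smul_def, map_sum]
    refine Finset.sum_congr rfl fun τ _ => ?_
    rw [map_mul, AlgEquiv.smul_def, mul_assoc g h τ, AlgEquiv.mul_apply g (h * τ)]
  have h3 : ∑ τ : l ≃ₐ[k] l, (g * τ) θ * c (g, τ)
      = ∑ τ : l ≃ₐ[k] l, (g * h * τ) θ * c (g, h * τ) := by
    rw [← sum_mul_left_aut h (fun σ => (g * σ) θ * c (g, σ))]
    refine Finset.sum_congr rfl fun τ _ => ?_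
    rw [mul_assoc]
  have h4 : ∑ τ : l ≃ₐ[k] l, (g * h * τ) θ = 1 := by
    rw [sum_mul_left_aut (g * h) (fun σ => σ θ), hθ]
  have key : ∀ τ : l ≃ₐ[k] l,
      (g * h * τ) θ * (g • c (h, τ)) - (g * h * τ) θ * c (g * h, τ)
        + (g * h * τ) θ * c (g, h * τ) = (g * h * τ) θ * c (g, h) := by
    intro τ
    have := hc g h τ
    linear_combination (-(g * h * τ) θ) * this
  calc g • (∑ τ : l ≃ₐ[k] l, (h * τ) θ * c (h, τ))
        - ∑ τ : l ≃ₐ[k] l, (g * h * τ) θ * c (g * h, τ)
        + ∑ τ : l ≃ₐ[k] l, (g * τ) θ * c (g, τ)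
      = ∑ τ : l ≃ₐ[k] l, ((g * h * τ) θ * (g • c (h, τ)) - (g * h * τ) θ * c (g * h, τ)
          + (g * h * τ) θ * c (g, h * τ)) := by
        rw [h1, h3, Finset.sum_add_distrib, Finset.sum_sub_distrib]
    _ = ∑ τ : l ≃ₐ[k] l, (g * h * τ) θ * c (g, h) := Finset.sum_congr rfl fun τ _ => key τ
    _ = c (g, h) := by rw [← Finset.sum_mul, h4, one_mul]

end Fermat.Agent.S55.Local.H169

end
-- ===== PACK-END S55/Local/H169/AddCoh.lean

-- ===== PACK-BEGIN S55/Local/H608/Core.lean
section




/-!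
# S55 layer L, piece LF (helper608): the ring of integers of a local field

Core facts (an independent version of piece LF0): for a complete DVR `A` with fraction field `F`
of characteristic zero and a finite extension `L / F`, the integral closure `B` of `A` in `L`
is a discrete valuation ring, module-finite over `A`, with fraction field `L`.
-/

set_option autoImplicit false
set_option linter.unusedSectionVars false
set_option linter.style.haveILetI false

namespace Fermat.Agent.S55.Local.H608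

open IsLocalRing

/-- A module-finite domain over a complete Noetherian local ring is local. -/
theorem isLocalRing_of_finite_of_isDomain (𝒪 : Type) [CommRing 𝒪] [IsLocalRing 𝒪]
    [IsNoetherianRing 𝒪] [IsAdicComplete (maximalIdeal 𝒪) 𝒪] (B : Type) [CommRing B]
    [IsDomain B] [Algebra 𝒪 B] [Module.Finite 𝒪 B] : IsLocalRing B := by
  classical
  obtain ⟨-, hbij, -, -⟩ :=
    Algebra.finite_maximalSpectrum_and_bijective_localization_of_module_finite (𝒪 := 𝒪) B
  have : Subsingleton (MaximalSpectrum B) := by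
    constructor
    intro I J
    by_contra hIJ
    obtain ⟨eI, heI⟩ := hbij.2 (Pi.single I 1)
    obtain ⟨eJ, heJ⟩ := hbij.2 (Pi.single J 1)
    have h0 : eI * eJ = 0 := by
      apply hbij.1
      rw [map_mul, heI, heJ, map_zero]
      funext K
      by_cases hK : K = I
      · subst hK
        simp [hIJ]
      · simp [hK]
    rcases mul_eq_zero.mp h0 with h | h
    · have := congrFun heI I
      rw [h, map_zero] at this
      simp at this
    · have := congrFun heJ J
      rw [h, map_zero] at this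
      simp at this
  have : Nonempty (MaximalSpectrum B) := by
    obtain ⟨m, hm⟩ := Ideal.exists_maximal B
    exact ⟨⟨m, hm⟩⟩
  exact IsLocalRing.of_singleton_maximalSpectrum

section Tower

variable (A F : Type) [CommRing A] [IsDomain A] [IsDiscreteValuationRing A]
  [IsAdicComplete (maximalIdeal A) A]
  [Field F] [CharZero F] [Algebra A F] [IsFractionRing A F]
  (L : Type) [Field L] [Algebra F L] [FiniteDimensional F L]
  [Algebra A L] [IsScalarTower A F L]

include F

theorem finite_intCl : Module.Finite A (integralClosure A L) :=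
  IsIntegralClosure.finite A F L (integralClosure A L)

theorem isDedekindDomain_intCl : IsDedekindDomain (integralClosure A L) :=
  integralClosure.isDedekindDomain A F L

theorem isFractionRing_intCl : IsFractionRing (integralClosure A L) L :=
  IsIntegralClosure.isFractionRing_of_finite_extension A F L (integralClosure A L)

theorem isLocalRing_intCl : IsLocalRing (integralClosure A L) :=
  haveI := finite_intCl A F L
  isLocalRing_of_finite_of_isDomain A (integralClosure A L)

theorem not_isField_intCl : ¬ IsField (integralClosure A L) := by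
  intro h
  have hinj : Function.Injective (algebraMap A (integralClosure A L)) := by
    have h1 : Function.Injective (algebraMap A L) := by
      rw [IsScalarTower.algebraMap_eq A F L]
      exact (algebraMap F L).injective.comp (IsFractionRing.injective A F)
    intro a b hab
    apply h1
    have := congrArg (algebraMap (integralClosure A L) L) hab
    simpa [← IsScalarTower.algebraMap_apply] using this
  exact IsDiscreteValuationRing.not_isField A
    ((Algebra.IsIntegral.isField_iff_isField hinj).mpr h)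

theorem isDVR_intCl : IsDiscreteValuationRing (integralClosure A L) := by
  haveI := isDedekindDomain_intCl A F L
  haveI := isLocalRing_intCl A F L
  exact ((IsDiscreteValuationRing.TFAE (integralClosure A L)
    (not_isField_intCl A F L)).out 0 2).mpr (isDedekindDomain_intCl A F L)

end Tower

end Fermat.Agent.S55.Local.H608

end
-- ===== PACK-END S55/Local/H608/Core.lean

-- ===== PACK-BEGIN S55/Local/H585/IntBridge.lean
section


/-!
# S55, layer L (helper585): dictionary `IsInt / intUnits / higherUnits` <-> `integralClosure A L`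

General setting: `[Algebra A L] [IsScalarTower A F L]` (no completeness needed here).
-/

set_option autoImplicit false
set_option linter.unusedSectionVars false

namespace Fermat.Agent.S55.Local.H585

section Bridge

variable {A F L : Type} [CommRing A] [Field F] [Algebra A F] [Field L] [Algebra F L]
  [Algebra A L] [IsScalarTower A F L]

theorem isInt_iff {x : L} : IsInt A F L x ↔ IsIntegral A x := by
  unfold IsInt IsIntegral
  rw [show toL A F L = algebraMap A L from (IsScalarTower.algebraMap_eq A F L).symm]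

theorem isInt_iff_mem {x : L} : IsInt A F L x ↔ x ∈ integralClosure A L := isInt_iff

theorem isInt_coe (b : integralClosure A L) : IsInt A F L (b : L) := isInt_iff.mpr b.2

variable (A L) in
/-- The inclusion of the units of the ring of integers into `Lˣ`. -/
def unitsIncB : (integralClosure A L)ˣ →* Lˣ :=
  Units.map ((integralClosure A L).val : integralClosure A L →* L)

@[simp] theorem unitsIncB_coe (b : (integralClosure A L)ˣ) :
    ((unitsIncB A L b : Lˣ) : L) = ((b : integralClosure A L) : L) := rfl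

theorem unitsIncB_inv_coe (b : (integralClosure A L)ˣ) :
    (((unitsIncB A L b)⁻¹ : Lˣ) : L) = (((b⁻¹ : (integralClosure A L)ˣ) : integralClosure A L) : L) := by
  rw [← map_inv]; rfl

theorem unitsIncB_injective : Function.Injective (unitsIncB A L) := by
  intro b c h
  apply Units.ext
  apply Subtype.ext
  have := congrArg (fun x : Lˣ => (x : L)) h
  simpa using this

theorem unitsIncB_mem (b : (integralClosure A L)ˣ) : unitsIncB A L b ∈ intUnits A F L := by
  refine ⟨isInt_coe _, ?_⟩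
  rw [unitsIncB_inv_coe]
  exact isInt_coe _

/-- An element of `intUnits` as a unit of the ring of integers. -/
def toUnitsB {x : Lˣ} (hx : x ∈ intUnits A F L) : (integralClosure A L)ˣ where
  val := ⟨(x : L), isInt_iff_mem.mp hx.1⟩
  inv := ⟨((x⁻¹ : Lˣ) : L), isInt_iff_mem.mp hx.2⟩
  val_inv := by apply Subtype.ext; simp
  inv_val := by apply Subtype.ext; simp

@[simp] theorem unitsIncB_toUnitsB {x : Lˣ} (hx : x ∈ intUnits A F L) :
    unitsIncB A L (toUnitsB hx) = x := by
  apply Units.ext; rfl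

theorem mem_intUnits_iff {x : Lˣ} :
    x ∈ intUnits A F L ↔ ∃ b : (integralClosure A L)ˣ, unitsIncB A L b = x :=
  ⟨fun hx => ⟨toUnitsB hx, unitsIncB_toUnitsB hx⟩, fun ⟨b, hb⟩ => hb ▸ unitsIncB_mem b⟩

theorem intUnits_eq_range : intUnits A F L = (unitsIncB A L).range := by
  ext x; rw [mem_intUnits_iff]; rfl

theorem intUnits_eq_map_top : intUnits A F L = (⊤ : Subgroup (integralClosure A L)ˣ).map (unitsIncB A L) := by
  rw [intUnits_eq_range, MonoidHom.range_eq_map]

/-- `x ∈ higherUnits ϖ j` iff `x` is the image of a unit of `B` congruent to `1` modulo `ϖ^j`. -/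
theorem mem_higherUnits_iff (ϖ : integralClosure A L) (j : ℕ) {x : Lˣ} :
    x ∈ higherUnits A F L (ϖ : L) j ↔
      ∃ b : (integralClosure A L)ˣ, unitsIncB A L b = x ∧
        ((b : integralClosure A L) - 1) ∈ Ideal.span {ϖ ^ j} := by
  constructor
  · rintro ⟨hx, c, hc, hxc⟩
    refine ⟨toUnitsB hx, unitsIncB_toUnitsB hx, ?_⟩
    rw [Ideal.mem_span_singleton']
    refine ⟨⟨c, isInt_iff_mem.mp hc⟩, ?_⟩
    apply Subtype.ext
    simp only [toUnitsB]
    push_cast
    rw [hxc]; ring
  · rintro ⟨b, rfl, hb⟩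
    refine ⟨unitsIncB_mem b, ?_⟩
    rw [Ideal.mem_span_singleton'] at hb
    obtain ⟨c, hc⟩ := hb
    refine ⟨(c : L), isInt_coe c, ?_⟩
    have := congrArg (fun y : integralClosure A L => (y : L)) hc
    push_cast at this
    rw [unitsIncB_coe]
    linear_combination -this

theorem higherUnits_eq_map (ϖ : integralClosure A L) (j : ℕ) :
    higherUnits A F L (ϖ : L) j =
      (Units.map ((Ideal.Quotient.mk (Ideal.span {ϖ ^ j})) :
        integralClosure A L →* (integralClosure A L ⧸ Ideal.span {ϖ ^ j}))).ker.map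
        (unitsIncB A L) := by
  ext x
  rw [mem_higherUnits_iff, Subgroup.mem_map]
  constructor
  · rintro ⟨b, hb, hmem⟩
    refine ⟨b, ?_, hb⟩
    rw [MonoidHom.mem_ker]
    apply Units.ext
    simp only [Units.coe_map, MonoidHom.coe_coe, Units.val_one]
    rw [← map_one (Ideal.Quotient.mk (Ideal.span {ϖ ^ j})), Ideal.Quotient.eq]
    exact hmem
  · rintro ⟨b, hb, hbx⟩
    refine ⟨b, hbx, ?_⟩
    rw [MonoidHom.mem_ker] at hb
    have := congrArg (fun y : (integralClosure A L ⧸ Ideal.span {ϖ ^ j})ˣ =>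
      (y : integralClosure A L ⧸ Ideal.span {ϖ ^ j})) hb
    simp only [Units.coe_map, MonoidHom.coe_coe, Units.val_one] at this
    rw [← map_one (Ideal.Quotient.mk (Ideal.span {ϖ ^ j})), Ideal.Quotient.eq] at this
    exact this

end Bridge

end Fermat.Agent.S55.Local.H585

end
-- ===== PACK-END S55/Local/H585/IntBridge.lean

-- ===== PACK-BEGIN S55/Local/H312/UnramCore.lean
section



/-!
# S55 layer L, piece UR0/UR1 (helper312): abstract core

`G` a finite group acting on a Dedekind domain `S` with invariant ring `R` (`IsGaloisGroup G R S`).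
Unramifiedness hypothesis `hunr`: every nonzero element of `S` is an element of `R` times a unit
of `S`.  Then every prime of `S` is `G`-stable, has ramification index `1` and trivial inertia
group, and `G` embeds into the automorphism group of the residue field extension; if the residue
fields are finite, `G` is cyclic.
-/

set_option autoImplicit false
set_option linter.overlappingInstances false
set_option linter.style.haveILetI false
set_option linter.unusedSectionVars false

namespace Fermat.Agent.S55.Local.H312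

open Fermat.Agent.S55.Local
open scoped Pointwise

section Core

variable {R S G : Type} [CommRing R] [CommRing S] [Algebra R S] [Group G]
  [MulSemiringAction G S] [IsGaloisGroup G R S]

/-- If every nonzero element of `S` is an element of `R` times a unit of `S`, then every prime
ideal of `S` is `G`-stable. -/
theorem smul_mem_of_unram
    (hunr : ∀ x : S, x ≠ 0 → ∃ (y : R) (u : Sˣ), x = algebraMap R S y * u)
    (Q : Ideal S) [Q.IsPrime] (σ : G) (x : S) (hx : x ∈ Q) : σ • x ∈ Q := by
  by_cases hx0 : x = 0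
  · subst hx0; simp
  obtain ⟨y, u, rfl⟩ := hunr x hx0
  have hy : algebraMap R S y ∈ Q := by
    rcases Ideal.IsPrime.mem_or_mem ‹Q.IsPrime› hx with h | h
    · exact h
    · exact absurd (Q.eq_top_of_isUnit_mem h u.isUnit) (Ideal.IsPrime.ne_top ‹_›)
  rw [smul_mul', smul_algebraMap]
  exact Q.mul_mem_right _ hy

theorem stabilizer_eq_top_of_unram
    (hunr : ∀ x : S, x ≠ 0 → ∃ (y : R) (u : Sˣ), x = algebraMap R S y * u)
    (Q : Ideal S) [Q.IsPrime] :
    MulAction.stabilizer G Q = ⊤ := by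
  rw [eq_top_iff]
  intro σ _
  rw [MulAction.mem_stabilizer_iff]
  apply le_antisymm
  · intro x hx
    have h1 : σ⁻¹ • x ∈ Q := by
      rw [← Ideal.smul_mem_pointwise_smul_iff (a := σ), smul_inv_smul]
      exact hx
    have := smul_mem_of_unram hunr Q σ _ h1
    rwa [smul_inv_smul] at this
  · intro x hx
    have h1 := smul_mem_of_unram hunr Q σ⁻¹ x hx
    rw [← Ideal.smul_mem_pointwise_smul_iff (a := σ), smul_inv_smul] at h1
    exact h1


variable [IsDomain R] [IsDomain S] [IsDedekindDomain S] [Module.Finite R S] [Finite G]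

theorem ramificationIdx_eq_one_of_unram
    (hunr : ∀ x : S, x ≠ 0 → ∃ (y : R) (u : Sˣ), x = algebraMap R S y * u)
    (P : Ideal R) (Q : Ideal S) [Q.IsPrime] [Q.LiesOver P] (hQ0 : Q ≠ ⊥) :
    Q.ramificationIdx R = 1 := by
  have hQ1 : Q ≠ ⊤ := Ideal.IsPrime.ne_top ‹_›
  obtain ⟨x, hx1, hx2⟩ := Ideal.exists_mem_pow_notMem_pow_succ Q hQ0 hQ1 1
  rw [pow_one] at hx1
  have hx0 : x ≠ 0 := by
    rintro rfl
    exact hx2 (Ideal.zero_mem _)
  obtain ⟨y, u, rfl⟩ := hunr x hx0
  have hy : algebraMap R S y ∈ Q := by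
    rcases Ideal.IsPrime.mem_or_mem ‹Q.IsPrime› hx1 with h | h
    · exact h
    · exact absurd (Q.eq_top_of_isUnit_mem h u.isUnit) hQ1
  have hyP : y ∈ P := by
    rw [Ideal.LiesOver.over (p := P) (P := Q)]
    exact hy
  have hymap : algebraMap R S y ∈ P.map (algebraMap R S) := Ideal.mem_map_of_mem _ hyP
  have hpS : P.map (algebraMap R S) ≠ ⊥ := by
    intro h
    rw [h, Ideal.mem_bot] at hymap
    rw [hymap, zero_mul] at hx0
    exact hx0 rfl
  rw [← Ideal.ramificationIdx'_eq_ramificationIdx' P Q hpS]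
  apply Ideal.ramificationIdx'_spec
  · rw [pow_one, Ideal.map_le_iff_le_comap, Ideal.LiesOver.over (p := P) (P := Q)]
  · intro hle
    exact hx2 (Ideal.mul_mem_right _ _ (hle hymap))

theorem inertia_eq_bot_of_unram
    (hunr : ∀ x : S, x ≠ 0 → ∃ (y : R) (u : Sˣ), x = algebraMap R S y * u)
    (P : Ideal R) [P.IsPrime] (Q : Ideal S) [Q.IsPrime] [Q.LiesOver P] (hQ0 : Q ≠ ⊥)
    [PerfectField P.ResidueField] [Module.Flat R S] :
    Ideal.inertia G Q = ⊥ := by
  have h1 := Ideal.card_inertia_eq_ramificationIdxIn (G := G) P Q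
  rw [Ideal.ramificationIdxIn_eq_ramificationIdx P Q G,
    ramificationIdx_eq_one_of_unram hunr P Q hQ0] at h1
  exact (Subgroup.card_eq_one).1 h1


attribute [local instance] Ideal.Quotient.field in
theorem isCyclic_of_unram
    (hunr : ∀ x : S, x ≠ 0 → ∃ (y : R) (u : Sˣ), x = algebraMap R S y * u)
    (hS : ¬ IsField S) (hfin : ∀ P : Ideal R, P.IsMaximal → Finite (R ⧸ P))
    [Module.Flat R S] : IsCyclic G := by
  obtain ⟨Q, hQ⟩ := Ideal.exists_maximal S
  have hQ0 : Q ≠ ⊥ := Ring.ne_bot_of_isMaximal_of_not_isField hQ hS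
  have hint : Algebra.IsIntegral R S := inferInstance
  let P : Ideal R := Q.under R
  have hPmax : P.IsMaximal := Ideal.isMaximal_comap_of_isIntegral_of_isMaximal Q
  have hfinP : Finite (R ⧸ P) := hfin P hPmax
  have hfinQ : Finite (S ⧸ Q) := Module.finite_of_finite (R ⧸ P)
  have hstab := stabilizer_eq_top_of_unram (G := G) hunr Q
  have hin := inertia_eq_bot_of_unram (G := G) hunr P Q hQ0
  have hinj : Function.Injective (Ideal.Quotient.stabilizerHom Q P G) := by
    rw [← MonoidHom.ker_eq_bot_iff, Ideal.Quotient.ker_stabilizerHom, eq_bot_iff]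
    intro σ hσ
    have : (σ : G) ∈ Ideal.inertia G Q := fun x => hσ x
    rw [hin, Subgroup.mem_bot] at this
    exact Subtype.ext this
  have hcyc : IsCyclic (MulAction.stabilizer G Q) :=
    isCyclic_of_injective (Ideal.Quotient.stabilizerHom Q P G) hinj
  refine isCyclic_of_surjective (MulAction.stabilizer G Q).subtype ?_
  intro g
  exact ⟨⟨g, by rw [hstab]; trivial⟩, rfl⟩

end Core
end Fermat.Agent.S55.Local.H312

end
-- ===== PACK-END S55/Local/H312/UnramCore.lean

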