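import Mathlib
import Fermat.Prelude.Def_FLTPrelim_Ramification
import Fermat.Prelude.Thm_Algebra_finite_maximalSpectrum_and_bijective_localization_of_module_finite
import Fermat.Prelude.Thm_IsLocalRing_isAdicComplete_of_module_finite
import Fermat.Agent.Pack.S56.E3L3
import Fermat.Agent.Pack.S56.E3L0
import Fermat.Agent.Pack.S56.E3L1
import Fermat.Agent.Pack.S56.E3L2
import Fermat.Agent.Pack.S56.E0L1
import Fermat.Agent.Pack.S56.E4L2
import Fermat.Agent.Pack.S56.E4L1
import Fermat.Agent.Pack.S56.E4L3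
import Fermat.Agent.Pack.S56.E1L0

-- ===== PACK-BEGIN S14/H894/InertiaMem.lean
section




/-!
# S14 / H894 : membership criteria for the decomposition / inertia subgroup of a valuation
subring of `ℚ̄`, in terms of the prime of `ℤ̄` below it.
-/

set_option autoImplicit false
set_option linter.style.haveILetI false

open scoped Pointwise

namespace Fermat.Agent.S14.H894

open Fermat.Agent.S54

local notation "Qb" => AlgebraicClosure ℚ
local notation "GQ" => (AlgebraicClosure ℚ ≃ₐ[ℚ] AlgebraicClosure ℚ)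
local notation "Zb" => integralClosure ℤ (AlgebraicClosure ℚ)

theorem smul_mem_primeBelow_iff (A : ValuationSubring Qb) (σ : GQ)
    (hQ : σ • primeBelow A = primeBelow A) (x : Zb) :
    σ • x ∈ primeBelow A ↔ x ∈ primeBelow A := by
  conv_lhs => rw [← hQ]
  exact Ideal.smul_mem_pointwise_smul_iff

theorem map_mem_of_smul_primeBelow (A : ValuationSubring Qb) (ℓ : ℕ) (hℓ : ℓ.Prime)
    (hA : A.LiesOverPrime ℓ) (τ : GQ)
    (hτ : ∀ x : Zb, τ • x ∈ primeBelow A ↔ x ∈ primeBelow A) (x : Qb) (hx : x ∈ A) :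
    τ x ∈ A := by
  haveI : Algebra.IsAlgebraic ℚ Qb := AlgebraicClosure.isAlgebraic ℚ
  obtain ⟨b, s, hb, hs, hsA, hxs⟩ := (mem_valuationSubring_iff A ℓ hℓ hA x).mp hx
  refine (mem_valuationSubring_iff A ℓ hℓ hA (τ x)).mpr
    ⟨τ b, τ s, hb.map τ, hs.map τ, ?_, ?_⟩
  · exact (hτ ⟨s, hs⟩).not.mpr hsA
  · rw [← map_mul, hxs]

/-- An automorphism stabilising the prime of `ℤ̄` below `A` lies in the decomposition group. -/
theorem mem_decompositionSubgroup_of_smul_primeBelow (A : ValuationSubring Qb) (ℓ : ℕ)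
    (hℓ : ℓ.Prime) (hA : A.LiesOverPrime ℓ) (σ : GQ)
    (hQ : σ • primeBelow A = primeBelow A) : σ ∈ A.decompositionSubgroup ℚ := by
  have hσQ := smul_mem_primeBelow_iff A σ hQ
  rw [MulAction.mem_stabilizer_iff]
  ext x
  rw [ValuationSubring.mem_smul_pointwise_iff_exists]
  constructor
  · rintro ⟨s, hs, rfl⟩
    exact map_mem_of_smul_primeBelow A ℓ hℓ hA σ hσQ s hs
  · intro hx
    refine ⟨σ⁻¹ • x, map_mem_of_smul_primeBelow A ℓ hℓ hA σ⁻¹ ?_ x hx, by simp⟩
    intro y
    rw [← hσQ (σ⁻¹ • y)]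
    simp

/-- An automorphism stabilising the prime `Q` of `ℤ̄` below `A` and acting trivially on `ℤ̄ / Q`
lies in the inertia group of `A`. -/
theorem mem_inertiaSubgroupIn_of_forall (A : ValuationSubring Qb) (ℓ : ℕ)
    (hℓ : ℓ.Prime) (hA : A.LiesOverPrime ℓ) (σ : GQ)
    (hQ : σ • primeBelow A = primeBelow A)
    (h : ∀ x : Zb, σ • x - x ∈ primeBelow A) : σ ∈ A.inertiaSubgroupIn ℚ := by
  haveI : Algebra.IsAlgebraic ℚ Qb := AlgebraicClosure.isAlgebraic ℚ
  have hσA := mem_decompositionSubgroup_of_smul_primeBelow A ℓ hℓ hA σ hQ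
  have hσQ := smul_mem_primeBelow_iff A σ hQ
  refine ⟨⟨σ, hσA⟩, ?_, rfl⟩
  show (⟨σ, hσA⟩ : A.decompositionSubgroup ℚ) ∈ MonoidHom.ker _
  rw [MonoidHom.mem_ker]
  ext x
  show (⟨σ, hσA⟩ : A.decompositionSubgroup ℚ) • x = x
  obtain ⟨a, rfl⟩ := IsLocalRing.residue_surjective x
  obtain ⟨b, s, hb, hs, hsA, hxs⟩ := (mem_valuationSubring_iff A ℓ hℓ hA a).mp a.2
  have hbA : b ∈ A := isIntegral_mem_valuationSubring A hb
  have hsA' : s ∈ A := isIntegral_mem_valuationSubring A hs
  have hint : ∀ (y : Qb) (hy : IsIntegral ℤ y),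
      (⟨σ, hσA⟩ : A.decompositionSubgroup ℚ) •
        IsLocalRing.residue A ⟨y, isIntegral_mem_valuationSubring A hy⟩ =
      IsLocalRing.residue A ⟨y, isIntegral_mem_valuationSubring A hy⟩ := by
    intro y hy
    rw [← IsLocalRing.ResidueField.residue_smul, ← sub_eq_zero, ← map_sub,
      IsLocalRing.residue_eq_zero_iff, ← ValuationSubring.coe_mem_nonunits_iff]
    exact h ⟨y, hy⟩
  have h1 : IsLocalRing.residue A a * IsLocalRing.residue A ⟨s, hsA'⟩ =
      IsLocalRing.residue A ⟨b, hbA⟩ := by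
    rw [← map_mul]
    congr 1
    exact Subtype.ext hxs
  have h2 : IsLocalRing.residue A ⟨s, hsA'⟩ ≠ 0 := by
    rw [Ne, IsLocalRing.residue_eq_zero_iff, ← ValuationSubring.coe_mem_nonunits_iff]
    exact hsA
  have h3 := congrArg (fun z => (⟨σ, hσA⟩ : A.decompositionSubgroup ℚ) • z) h1
  simp only [smul_mul'] at h3
  rw [hint s hs, hint b hb, ← h1] at h3
  exact mul_right_cancel₀ h2 h3

end Fermat.Agent.S14.H894

end
-- ===== PACK-END S14/H894/InertiaMem.lean

-- ===== PACK-BEGIN S56/H176/FLDDiff.lean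
section



/-!
# S56 / FL-D, part 3: the different of a totally ramified extension and Eisenstein perturbation

Setting of `FLDBasis`.  For a uniformiser `ϖ` of `B` with minimal polynomial `G` over `A`:

* `FLD_differentIdeal_eq` : `differentIdeal A B = (G'(ϖ))`;
* `FLD_addVal_deriv_le`   : `v_B(G'(ϖ)) ≤ n · v_A(k · G_k) + (k - 1)` for `1 ≤ k ≤ n`;
* `FLD_addVal_deriv_le_of_perturb` : if a second uniformiser `ϖ'` has minimal polynomial
  `G + p X^k` (`1 ≤ k < n`, `k` a unit of `A`), then `v_B(G'(ϖ)) ≤ n · v_A(p) + (k - 1)`.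
-/

set_option autoImplicit false

namespace Fermat.Agent.S56.H176

open IsDiscreteValuationRing Polynomial

section Diff

variable (A K : Type*) [CommRing A] [IsDomain A] [IsDiscreteValuationRing A]
  [Field K] [Algebra A K] [IsFractionRing A K]
  (L : Type*) [Field L] [Algebra K L] [FiniteDimensional K L]
  [Algebra A L] [IsScalarTower A K L]
  (B : Type*) [CommRing B] [IsDomain B] [IsDiscreteValuationRing B] [Algebra B L]
  [IsIntegralClosure B A L] [Algebra A B] [IsScalarTower A B L]

include K L in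
/-- The different is generated by `G'(ϖ)`. -/
theorem FLD_differentIdeal_eq [Algebra.IsSeparable K L] [Module.IsTorsionFree A B]
    (hram : ∀ a : A, addVal B (algebraMap A B a) = (Module.finrank K L) • addVal A a)
    {ϖ : B} (hϖ : addVal B ϖ = 1) :
    differentIdeal A B = Ideal.span {aeval ϖ (derivative (minpoly A ϖ))} := by
  have h1 := conductor_mul_differentIdeal A K L ϖ (FLD_adjoin_field_eq_top A K L B hram hϖ)
  rw [conductor_eq_top_of_adjoin_eq_top (FLD_adjoin_eq_top A K L B hram hϖ), Ideal.top_mul] at h1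
  exact h1

include K L in
/-- `v_B(G'(ϖ)) ≤ n v_A(k G_k) + (k - 1)`. -/
theorem FLD_addVal_deriv_le
    (hram : ∀ a : A, addVal B (algebraMap A B a) = (Module.finrank K L) • addVal A a)
    {ϖ : B} (hϖ : addVal B ϖ = 1) {k : ℕ} (hk1 : 1 ≤ k) (hkn : k ≤ Module.finrank K L) :
    addVal B (aeval ϖ (derivative (minpoly A ϖ))) ≤
      (Module.finrank K L) • addVal A ((minpoly A ϖ).coeff k * (k : A)) + ((k - 1 : ℕ) : ℕ∞) := by
  have hdeg := FLD_natDegree_minpoly A K L B hram hϖ
  have hnpos : 0 < Module.finrank K L := Module.finrank_pos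
  have hdlt : (derivative (minpoly A ϖ)).natDegree < Module.finrank K L := by
    rw [← hdeg]
    apply natDegree_derivative_lt
    rw [hdeg]
    omega
  rw [FLD_aeval_eq_sum _ hdlt]
  have hk' : k - 1 < Module.finrank K L := by omega
  have := FLD_addVal_sum_le hram hϖ (fun i => (derivative (minpoly A ϖ)).coeff i) hk'
  refine le_trans this ?_
  rw [coeff_derivative]
  have hkk : k - 1 + 1 = k := by omega
  rw [hkk]
  have : ((k - 1 : ℕ) : A) + 1 = (k : A) := by
    have : ((k - 1 + 1 : ℕ) : A) = (k : A) := by rw [hkk]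
    rw [← this]
    push_cast
    rfl
  rw [this]

end Diff

end Fermat.Agent.S56.H176

end
-- ===== PACK-END S56/H176/FLDDiff.lean

-- ===== PACK-BEGIN S56/H434/Mult.lean
section



/-!
# S56 / W2-SS, piece A (helper434): multiplicativity defect in the convolution ring of `H ⊗ H`

For a commutative cocommutative bialgebra `H` and `f : H →ₗ[R] Ω` we put
`mA f = f ∘ mul` and `mB f = μ ∘ (f ⊗ f)`, two multiplicative maps
`WithConv (H →ₗ[R] Ω) → WithConv (H ⊗[R] H →ₗ[R] Ω)`; `f` is an algebra homomorphism iff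
`mA f = mB f` and `f 1 = 1`.  The quantitative lifting lemma in the convolution ring of `H ⊗ H`
bounds the multiplicativity defect `mA f - mB f` by the defect of `f ^ p = 1`.
-/

set_option autoImplicit false

open WithConv TensorProduct

namespace Fermat.Agent.S56.H434

section Mult

variable {R : Type*} [CommRing R] {Ω : Type*} [Field Ω] [Algebra R Ω]
  {H : Type*} [CommRing H] [Bialgebra R H] [Coalgebra.IsCocomm R H]

/-- `f ↦ f ∘ mul`. -/
noncomputable def mA (f : WithConv (H →ₗ[R] Ω)) : WithConv (H ⊗[R] H →ₗ[R] Ω) :=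
  toConv (f.ofConv ∘ₗ (Bialgebra.mulCoalgHom R H).toLinearMap)

/-- `f ↦ μ ∘ (f ⊗ f)`. -/
noncomputable def mB (f : WithConv (H →ₗ[R] Ω)) : WithConv (H ⊗[R] H →ₗ[R] Ω) :=
  toConv ((Algebra.TensorProduct.lmul' R (S := Ω)).toLinearMap ∘ₗ
    TensorProduct.map f.ofConv f.ofConv)

omit [Coalgebra.IsCocomm R H] in
@[simp] theorem mA_apply_tmul (f : WithConv (H →ₗ[R] Ω)) (h h' : H) :
    (mA f).ofConv (h ⊗ₜ[R] h') = f.ofConv (h * h') := by
  simp [mA]

omit [Coalgebra.IsCocomm R H] in
@[simp] theorem mB_apply_tmul (f : WithConv (H →ₗ[R] Ω)) (h h' : H) :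
    (mB f).ofConv (h ⊗ₜ[R] h') = f.ofConv h * f.ofConv h' := by
  simp [mB]

omit [Coalgebra.IsCocomm R H] in
theorem mA_mul (f g : WithConv (H →ₗ[R] Ω)) : mA (f * g) = mA f * mA g := by
  apply WithConv.ext
  exact LinearMap.convMul_comp_coalgHom_distrib f g (Bialgebra.mulCoalgHom R H)

omit [Coalgebra.IsCocomm R H] in
theorem mA_one : mA (1 : WithConv (H →ₗ[R] Ω)) = 1 := by
  apply WithConv.ext
  apply TensorProduct.ext'
  intro h h'
  rw [mA_apply_tmul]
  simp [LinearMap.convOne_def, mul_comm]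

omit [Coalgebra.IsCocomm R H] in
theorem mA_pow (f : WithConv (H →ₗ[R] Ω)) (n : ℕ) : mA (f ^ n) = mA f ^ n := by
  induction n with
  | zero => simpa using mA_one (R := R) (Ω := Ω) (H := H)
  | succ n ih => rw [pow_succ, pow_succ, mA_mul, ih]

omit [Coalgebra.IsCocomm R H] in
theorem mA_sub (f g : WithConv (H →ₗ[R] Ω)) : mA (f - g) = mA f - mA g := by
  apply WithConv.ext
  apply TensorProduct.ext'
  intro h h'
  simp [mA]

omit [Coalgebra.IsCocomm R H] in
theorem mB_mul (f g : WithConv (H →ₗ[R] Ω)) : mB (f * g) = mB f * mB g := by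
  apply WithConv.ext
  have h1 := TensorProduct.map_convMul_map (R := R) (f := f) (h := g) (g := f) (k := g)
  have h2 := LinearMap.algHom_comp_convMul_distrib (R := R) (Algebra.TensorProduct.lmul' R (S := Ω))
    (toConv (TensorProduct.map f.ofConv f.ofConv)) (toConv (TensorProduct.map g.ofConv g.ofConv))
  rw [h1] at h2
  exact h2

omit [Coalgebra.IsCocomm R H] in
theorem mB_one : mB (1 : WithConv (H →ₗ[R] Ω)) = 1 := by
  apply WithConv.ext
  apply TensorProduct.ext'
  intro h h'
  rw [mB_apply_tmul]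
  simp [LinearMap.convOne_def, mul_comm]

omit [Coalgebra.IsCocomm R H] in
theorem mB_pow (f : WithConv (H →ₗ[R] Ω)) (n : ℕ) : mB (f ^ n) = mB f ^ n := by
  induction n with
  | zero => simpa using mB_one (R := R) (Ω := Ω) (H := H)
  | succ n ih => rw [pow_succ, pow_succ, mB_mul, ih]

end Mult

section Norm

variable {R : Type*} [CommRing R] {Ω : Type*} [Field Ω] [Algebra R Ω]
  {Γ : Type*} [LinearOrderedCommGroupWithZero Γ] (v : Valuation Ω Γ)
  {H : Type*} [CommRing H] [Bialgebra R H] [Coalgebra.IsCocomm R H]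
  {ι : Type*} [Fintype ι] (b : Module.Basis ι R H)
  (hR : ∀ r : R, v (algebraMap R Ω r) ≤ 1)

theorem convNorm_mA_le (f : WithConv (H →ₗ[R] Ω)) :
    (convNorm v (b.tensorProduct b) hR).N (mA f) ≤ (convNorm v b hR).N f := by
  rw [convNorm_le_iff]
  rintro ⟨i, j⟩
  rw [Module.Basis.tensorProduct_apply, mA_apply_tmul]
  exact apply_le_convNorm v b hR f _

theorem convNorm_mB_sub_le {f g : WithConv (H →ₗ[R] Ω)} (hf : (convNorm v b hR).N f ≤ 1)
    (hg : (convNorm v b hR).N g ≤ 1) :
    (convNorm v (b.tensorProduct b) hR).N (mB f - mB g) ≤ (convNorm v b hR).N (f - g) := by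
  rw [convNorm_le_iff]
  rintro ⟨i, j⟩
  rw [Module.Basis.tensorProduct_apply, ofConv_sub, LinearMap.sub_apply, mB_apply_tmul,
    mB_apply_tmul]
  have hid : f.ofConv (b i) * f.ofConv (b j) - g.ofConv (b i) * g.ofConv (b j)
      = (f - g).ofConv (b i) * f.ofConv (b j) + g.ofConv (b i) * (f - g).ofConv (b j) := by
    simp only [ofConv_sub, LinearMap.sub_apply]
    ring
  rw [hid]
  refine (v.map_add _ _).trans (max_le ?_ ?_)
  · rw [map_mul]
    calc v ((f - g).ofConv (b i)) * v (f.ofConv (b j))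
        ≤ (convNorm v b hR).N (f - g) * 1 :=
          mul_le_mul' (apply_le_convNorm v b hR _ _) ((apply_le_convNorm v b hR _ _).trans hf)
      _ = _ := mul_one _
  · rw [map_mul]
    calc v (g.ofConv (b i)) * v ((f - g).ofConv (b j))
        ≤ 1 * (convNorm v b hR).N (f - g) :=
          mul_le_mul' ((apply_le_convNorm v b hR _ _).trans hg) (apply_le_convNorm v b hR _ _)
      _ = _ := one_mul _

theorem convNorm_mB_le_one {f : WithConv (H →ₗ[R] Ω)} (hf : (convNorm v b hR).N f ≤ 1) :
    (convNorm v (b.tensorProduct b) hR).N (mB f) ≤ 1 := by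
  rw [convNorm_le_iff]
  rintro ⟨i, j⟩
  rw [Module.Basis.tensorProduct_apply, mB_apply_tmul, map_mul]
  calc v (f.ofConv (b i)) * v (f.ofConv (b j)) ≤ 1 * 1 :=
        mul_le_mul' ((apply_le_convNorm v b hR _ _).trans hf)
          ((apply_le_convNorm v b hR _ _).trans hf)
    _ = 1 := one_mul _

/-- The multiplicativity defect of an approximate `p`-th root of unity `f` in the convolution
ring is controlled by the defect of `f ^ p = 1`. -/
theorem mul_defect_le {p : ℕ} (hp : p.Prime) {γ τ : Γ} (hγ : γ ^ (p - 1) < v (p : Ω))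
    {f : WithConv (H →ₗ[R] Ω)} (hf : (convNorm v b hR).N f ≤ 1)
    (hAB : (convNorm v (b.tensorProduct b) hR).N (mA f - mB f) ≤ γ)
    (hτ : τ < 1) (hfp : (convNorm v b hR).N (f ^ p - 1) ≤ τ) :
    v (p : Ω) * (convNorm v (b.tensorProduct b) hR).N (mA f - mB f) ≤ τ := by
  set ν := convNorm v b hR with hν
  set ν₂ := convNorm v (b.tensorProduct b) hR with hν₂
  have hfp1 : ν.N (f ^ p) ≤ 1 := ν.pow_le_one hf p
  have hBp : ν₂.N (mB f ^ p - 1) ≤ τ := by
    rw [← mB_pow, ← mB_one (R := R) (Ω := Ω) (H := H)]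
    exact (convNorm_mB_sub_le v b hR hfp1 ν.one_le).trans hfp
  have hAp : ν₂.N (mA f ^ p - 1) ≤ τ := by
    rw [← mA_pow, ← mA_one (R := R) (Ω := Ω) (H := H), ← mA_sub]
    exact (convNorm_mA_le v b hR _).trans hfp
  have key := UNorm.mul_sub_le_pow_sub_pow (convNorm_pdata v (b.tensorProduct b) hR hp) hγ
    (convNorm_mB_le_one v b hR hf) hAB (lt_of_le_of_lt hBp hτ)
  refine key.trans ?_
  have : mA f ^ p - mB f ^ p = (mA f ^ p - 1) - (mB f ^ p - 1) := by ring
  rw [this]
  exact ν₂.sub_le_of_le hAp hBp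

end Norm

end Fermat.Agent.S56.H434

end
-- ===== PACK-END S56/H434/Mult.lean

-- ===== PACK-BEGIN S56/H384/ApproxPoint.lean
section


/-!
# S56 / W2-SS piece A5 (helper384): an approximate point is close to an exact point

`exists_point_near` has VERBATIM the statement of
`Fermat.Agent.S56.H434.exists_point_near` (origin/helper434, `S56/H434/ApproxPoint.lean`).

Proof: in `A = Ω ⊗[R] H` (basis `1 ⊗ b i`, functional `φ = f.liftBaseChange Ω`) the elements with
`v`-integral coordinates form a subring on which `φ` is multiplicative up to `μ`; by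
Cayley-Hamilton for multiplication by `a = ∑ c i • (1 ⊗ b i)` and the fact that the roots of its
characteristic polynomial are the values `χ a` of characters (`= ∑ c i * x (b i)` for points `x`),
some point `x` has `v (∑ c i * (f (b i) - x (b i))) < γ`; the avoidance lemma `exists_avoid`
makes `x` independent of `c`.
-/

set_option autoImplicit false
set_option linter.style.haveILetI false

namespace Fermat.Agent.S56.H384

open TensorProduct

/-- An approximately multiplicative functional is close to a point. -/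
theorem exists_point_near
    {Ω : Type*} [Field Ω] [IsAlgClosed Ω] {Γ : Type*} [LinearOrderedCommGroupWithZero Γ]
    (v : Valuation Ω Γ) {R : Type*} [CommRing R] [Algebra R Ω]
    (hR : ∀ r : R, v (algebraMap R Ω r) ≤ 1)
    {H : Type*} [CommRing H] [Algebra R H] [Finite (H →ₐ[R] Ω)]
    {ι : Type*} [Fintype ι] (b : Module.Basis ι R H)
    (f : H →ₗ[R] Ω) {γ μ : Γ} (hγ : γ ≤ 1) (hμ : μ < γ ^ Fintype.card ι)
    (hf : ∀ i, v (f (b i)) ≤ 1)
    (hone : v (f 1 - 1) ≤ μ)
    (hmul : ∀ i j, v (f (b i * b j) - f (b i) * f (b j)) ≤ μ) :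
    ∃ x : H →ₐ[R] Ω, ∀ i, v (f (b i) - x (b i)) ≤ γ := by
  classical
  let B : Module.Basis ι Ω (Ω ⊗[R] H) := Algebra.TensorProduct.basis Ω b
  let φ : (Ω ⊗[R] H) →ₗ[Ω] Ω := f.liftBaseChange Ω
  haveI : Module.Finite Ω (Ω ⊗[R] H) := Module.Finite.of_basis B
  haveI : Module.Finite R H := Module.Finite.of_basis b
  have hBapp : ∀ i, B i = (1 : Ω) ⊗ₜ[R] b i := fun i => Algebra.TensorProduct.basis_apply b i
  have hφt : ∀ h : H, φ ((1 : Ω) ⊗ₜ[R] h) = f h := fun h => by
    simp [φ, LinearMap.liftBaseChange_tmul]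
  have hIntT : ∀ h : H, IntC v B ((1 : Ω) ⊗ₜ[R] h) := fun h i => by
    rw [Algebra.TensorProduct.basis_repr_tmul]
    simpa using hR _
  have h1 : IntC v B 1 := hIntT 1
  have hBmul : ∀ i j, IntC v B (B i * B j) := fun i j => by
    rw [hBapp, hBapp, Algebra.TensorProduct.tmul_mul_tmul, one_mul]
    exact hIntT _
  have hφB : ∀ i, v (φ (B i)) ≤ 1 := fun i => by
    rw [hBapp, hφt]
    exact hf i
  have hφ1 : v (φ 1 - 1) ≤ μ := by
    rw [Algebra.TensorProduct.one_def, hφt]
    exact hone
  have hφmul : ∀ i j, v (φ (B i * B j) - φ (B i) * φ (B j)) ≤ μ := fun i j => by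
    rw [hBapp, hBapp, Algebra.TensorProduct.tmul_mul_tmul, one_mul, hφt, hφt, hφt]
    exact hmul i j
  -- points from characters
  let pt : ((Ω ⊗[R] H) →ₐ[Ω] Ω) → (H →ₐ[R] Ω) := fun χ =>
    (χ.restrictScalars R).comp Algebra.TensorProduct.includeRight
  have hpt : ∀ χ i, pt χ (b i) = χ (B i) := fun χ i => by
    rw [hBapp]
    rfl
  have hint : ∀ (x : H →ₐ[R] Ω) (h : H), v (x h) ≤ 1 := fun x h =>
    val_le_one_of_isIntegral v hR ((IsIntegral.of_finite R h).map x)
  -- (5c): for integral `c` some point is `γ`-close in the direction `c`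
  have key : ∀ c : ι → Ω, (∀ i, v (c i) ≤ 1) →
      ∃ x : H →ₐ[R] Ω, v (∑ i, c i * (f (b i) - x (b i))) ≤ γ := by
    intro c hc
    set a : Ω ⊗[R] H := ∑ i, c i • B i with ha
    have hrepr : ∀ i, B.repr a i = c i := fun i => by
      rw [ha, B.repr_sum_self]
    have haInt : IntC v B a := fun i => by
      rw [hrepr]
      exact hc i
    have hχa : ∀ χ : (Ω ⊗[R] H) →ₐ[Ω] Ω, χ a = ∑ i, c i * pt χ (b i) := fun χ => by
      rw [ha, map_sum]
      refine Finset.sum_congr rfl fun i _ => ?_
      rw [map_smul, smul_eq_mul, hpt]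
    have hroots : ∀ lam ∈ (LinearMap.mulLeft Ω a).charpoly.roots, v lam ≤ 1 := by
      intro lam hlam
      obtain ⟨χ, hχ⟩ := exists_algHom_of_isRoot_charpoly a (Polynomial.isRoot_of_mem_roots hlam)
      rw [← hχ, hχa]
      refine v.map_sum_le fun i _ => ?_
      rw [map_mul]
      exact mul_le_one' (hc i) (hint _ _)
    obtain ⟨lam, hlam, hnear⟩ :=
      IntC.exists_root_near φ h1 hBmul hφB hφ1 hφmul hγ hμ haInt hroots
    obtain ⟨χ, hχ⟩ := exists_algHom_of_isRoot_charpoly a (Polynomial.isRoot_of_mem_roots hlam)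
    refine ⟨pt χ, ?_⟩
    have e : φ a - lam = ∑ i, c i * (f (b i) - pt χ (b i)) := by
      rw [← hχ, hχa, ha, map_sum, ← Finset.sum_sub_distrib]
      refine Finset.sum_congr rfl fun i _ => ?_
      rw [map_smul, smul_eq_mul, hBapp, hφt, mul_sub]
    rw [← e]
    exact hnear.le
  -- (5d): avoidance
  by_contra hcon
  push Not at hcon
  haveI := Fintype.ofFinite (H →ₐ[R] Ω)
  let ψ : (H →ₐ[R] Ω) → (ι → Ω) →ₗ[Ω] Ω := fun x =>
    ∑ i, (f (b i) - x (b i)) • (LinearMap.proj i : (ι → Ω) →ₗ[Ω] Ω)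
  have hψ : ∀ x c, ψ x c = ∑ i, c i * (f (b i) - x (b i)) := fun x c => by
    simp only [ψ, LinearMap.sum_apply, LinearMap.smul_apply, LinearMap.proj_apply, smul_eq_mul]
    exact Finset.sum_congr rfl fun i _ => mul_comm _ _
  obtain ⟨c, hcM, hc⟩ := exists_avoid v (fun c : ι → Ω => ∀ i, v (c i) ≤ 1)
    (fun i => by simp)
    (fun x y hx hy i => v.map_add_le (hx i) (hy i))
    (fun s x hs hx i => by
      rw [Pi.smul_apply, smul_eq_mul, map_mul]
      exact mul_le_one' hs (hx i))
    ψ γ Finset.univ (fun x _ => by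
      obtain ⟨i, hi⟩ := hcon x
      refine ⟨Pi.single i 1, fun j => ?_, ?_⟩
      · by_cases hji : j = i
        · subst hji
          simp
        · simp [Pi.single_eq_of_ne hji]
      · rw [hψ]
        simpa [Pi.single_apply] using hi)
  obtain ⟨x, hx⟩ := key c hcM
  rw [← hψ] at hx
  exact absurd (hc x (Finset.mem_univ _)) (not_lt.mpr hx)

end Fermat.Agent.S56.H384

end
-- ===== PACK-END S56/H384/ApproxPoint.lean

-- ===== PACK-BEGIN S56/H846/FLCnt/Quot.lean
section



/-!
# FL-CNT, step C2: an irreducible quotient of `W` has its unique break at `p - 1`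
(helper846)  Mathlib only, nothing unproved.
-/

set_option autoImplicit false
set_option linter.unusedSectionVars false
set_option linter.style.haveILetI false
set_option linter.unusedVariables false

namespace Fermat.Agent.S56.H846.FLCnt

variable {Γ k Z : Type} [Group Γ] [Field k] [AddCommGroup Z] [Module k Z]

/-- `N` is a maximal proper `Γ`-normal subgroup of `W` -/
structure IsMaxNormal (D : Data Γ k Z) (N : Subgroup Γ) : Prop where
  normal : N.Normal
  le : N ≤ D.W
  ne : N ≠ D.W
  max : ∀ N' : Subgroup Γ, N'.Normal → N ≤ N' → N' ≤ D.W → N' = N ∨ N' = D.W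

/-- `u` is the break of the quotient `W / N` -/
structure IsBreak (D : Data Γ k Z) (N : Subgroup Γ) (u : ℕ) : Prop where
  pos : 1 ≤ u
  le : D.W ≤ D.F N u
  inf : D.F N (u + 1) ⊓ D.W = N

namespace Hyp

variable {p : ℕ} [Fact p.Prime] {D : Data Γ k Z} (h : _root_.Fermat.Agent.S56.H846.FLCnt.Hyp p D)
include h

theorem max_exists_not_mem {N : Subgroup Γ} (M : IsMaxNormal D N) :
    ∃ σ ∈ D.W, σ ∉ N := by
  by_contra hcon
  push Not at hcon
  exact M.ne (le_antisymm M.le hcon)

theorem max_le_wild {N : Subgroup Γ} (M : IsMaxNormal D N) : N ≤ D.F ⊥ 1 :=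
  M.le.trans h.W_le_wild

theorem exists_break [Finite Γ] {N : Subgroup Γ} (M : IsMaxNormal D N) :
    ∃ u, IsBreak D N u := by
  classical
  have hN1 := h.max_le_wild M
  -- the filtration is eventually `N`
  have hB : ∃ B, D.F N B ≤ N := by
    haveI : Fintype Γ := Fintype.ofFinite Γ
    refine ⟨∑ σ : Γ, D.i N σ, fun σ hσ => ?_⟩
    rw [h.mem_F N M.normal M.le hN1] at hσ
    rcases hσ with hσ | hσ
    · exact hσ
    · exfalso
      have : D.i N σ ≤ ∑ σ : Γ, D.i N σ :=
        Finset.single_le_sum (f := fun σ => D.i N σ) (fun _ _ => Nat.zero_le _)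
          (Finset.mem_univ σ)
      omega
  have hex : ∃ n, ¬ D.W ≤ D.F N n := by
    obtain ⟨B, hB⟩ := hB
    exact ⟨B, fun hW => M.ne (le_antisymm M.le (hW.trans hB))⟩
  have h1 : D.W ≤ D.F N 1 := by
    rw [h.W_eq_wild]
    exact h.F_one N M.normal M.le hN1
  have h0 : D.W ≤ D.F N 0 := h1.trans (h.F_anti N M.normal M.le hN1 0)
  set n₀ := Nat.find hex with hn₀
  have hn₀1 : ¬ D.W ≤ D.F N n₀ := Nat.find_spec hex
  have hn₀2 : 2 ≤ n₀ := by
    by_contra hlt
    have : n₀ = 0 ∨ n₀ = 1 := by omega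
    rcases this with h' | h'
    · rw [h'] at hn₀1; exact hn₀1 h0
    · rw [h'] at hn₀1; exact hn₀1 h1
  have hu : D.W ≤ D.F N (n₀ - 1) := by
    by_contra hcon
    have := Nat.find_min' hex hcon
    omega
  refine ⟨n₀ - 1, by omega, hu, ?_⟩
  have hn : n₀ - 1 + 1 = n₀ := by omega
  rw [hn]
  haveI := h.F_normal N M.normal M.le hN1 n₀
  haveI := h.W_normal
  have hnorm : (D.F N n₀ ⊓ D.W).Normal := inferInstance
  rcases M.max _ hnorm (le_inf (h.le_F N M.normal M.le hN1 n₀) M.le) inf_le_right with h' | h'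
  · exact h'
  · exfalso
    exact hn₀1 (by rw [← h']; exact inf_le_left)

theorem break_not_mem {N : Subgroup Γ} {u : ℕ} (hu : IsBreak D N u) {σ : Γ} (hσ : σ ∈ D.W)
    (hσN : σ ∉ N) : σ ∉ D.F N (u + 1) := fun h' => hσN (by rw [← hu.inf]; exact ⟨h', hσ⟩)

theorem i_eq_of_break {N : Subgroup Γ} (M : IsMaxNormal D N) {u : ℕ} (hu : IsBreak D N u)
    {σ : Γ} (hσ : σ ∈ D.W) (hσN : σ ∉ N) : D.i N σ = u + 1 := by
  have hN1 := h.max_le_wild M
  have h1 := hu.le hσ
  have h2 := h.break_not_mem hu hσ hσN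
  rw [h.mem_F N M.normal M.le hN1] at h1 h2
  push Not at h2
  rcases h1 with h1 | h1
  · exact absurd h1 hσN
  · omega

/-- the commutator rule in the quotient `W / N` -/
theorem comm_rule_max {N : Subgroup Γ} (M : IsMaxNormal D N) {u : ℕ} (hu : IsBreak D N u)
    {σ : Γ} (hσ : σ ∈ D.W) (hσN : σ ∉ N) (j : ℕ) :
    D.τ₀ ^ j * σ * (D.τ₀ ^ j)⁻¹ * σ⁻¹ ∈ N ↔ (p - 1) * D.m ∣ j * u := by
  have hN1 := h.max_le_wild M
  have hrule := h.comm_rule N M.normal M.le hN1 u hu.pos σ (hu.le hσ)
    (h.break_not_mem hu hσ hσN) (D.τ₀ ^ j) (h.τ₀_pow_mem j)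
  have hW : D.τ₀ ^ j * σ * (D.τ₀ ^ j)⁻¹ * σ⁻¹ ∈ D.W :=
    D.W.mul_mem (h.W_normal.conj_mem σ hσ _) (D.W.inv_mem hσ)
  have e1 : D.τ₀ ^ j * σ * (D.τ₀ ^ j)⁻¹ * σ⁻¹ ∈ N ↔
      D.τ₀ ^ j * σ * (D.τ₀ ^ j)⁻¹ * σ⁻¹ ∈ D.F N (u + 1) :=
    ⟨fun h' => h.le_F N M.normal M.le hN1 _ h', fun h' => by rw [← hu.inf]; exact ⟨h', hW⟩⟩
  have e2 : (D.τ₀ ^ j) ^ u ∈ D.F N 1 ↔ D.τ₀ ^ (j * u) ∈ D.W := by
    rw [← pow_mul, h.W_eq_wild]
    exact ⟨fun h' => h.F_one' N M.normal M.le hN1 ⟨h', h.τ₀_pow_mem _⟩,
      fun h' => h.F_one N M.normal M.le hN1 h'⟩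
  rw [e1, hrule, e2, h.τ₀_pow]

/-- conjugates and commutators with elements of `N` stay in `N` -/
theorem comm_mem_of_mem {N : Subgroup Γ} (hN : N.Normal) {σ : Γ} (hσ : σ ∈ N) (g : Γ) :
    g * σ * g⁻¹ * σ⁻¹ ∈ N := N.mul_mem (hN.conj_mem σ hσ g) (N.inv_mem hσ)

/-- If `m ∣ j` then `τ₀ ^ j` commutes with `W`. -/
theorem comm_eq_one_of_dvd {j : ℕ} (hj : D.m ∣ j) {σ : Γ} (hσ : σ ∈ D.W) :
    D.τ₀ ^ j * σ * (D.τ₀ ^ j)⁻¹ * σ⁻¹ = 1 := by
  have h1 : D.ψ₀ ^ j = 1 := (h.ψ₀_pow j).2 hj
  have h2 : D.ψ₀⁻¹ ^ j = 1 := (h.ψ₀_inv_pow j).2 hj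
  refine h.c_inj _ (D.W.mul_mem (h.W_normal.conj_mem σ hσ _) (D.W.inv_mem hσ)) ?_ ?_
  · apply h.eq_of_coord
    · rw [h.coc_comm_ℓ₁ h.isCoc₁ j hσ, map_zero]
    · rw [h.coc_comm_ℓp h.isCoc₁ j hσ, h1, sub_self, zero_mul, map_zero]
    · rw [h.coc_comm_ℓm h.isCoc₁ j hσ, h2, sub_self, zero_mul, map_zero]
  · apply h.eq_of_coord
    · rw [h.coc_comm_ℓ₁ h.isCoc₂ j hσ, map_zero]
    · rw [h.coc_comm_ℓp h.isCoc₂ j hσ, h1, sub_self, zero_mul, map_zero]
    · rw [h.coc_comm_ℓm h.isCoc₂ j hσ, h2, sub_self, zero_mul, map_zero]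

/-- Claim B: `e₀ ∣ j u ↔ m ∣ j`, provided `e₀ ∤ u`. -/
theorem claim_B {N : Subgroup Γ} (M : IsMaxNormal D N) {u : ℕ} (hu : IsBreak D N u)
    (hA : ¬ (p - 1) * D.m ∣ u) (j : ℕ) : (p - 1) * D.m ∣ j * u ↔ D.m ∣ j := by
  obtain ⟨σ₀, hσ₀, hσ₀N⟩ := h.max_exists_not_mem M
  constructor
  · intro hdvd
    by_contra hmj
    have hψ : D.ψ₀ ^ j ≠ 1 := fun h' => hmj ((h.ψ₀_pow j).1 h')
    -- `σ' = [τ₀, σ₀]` is not in `N`
    set σ' := D.τ₀ ^ 1 * σ₀ * (D.τ₀ ^ 1)⁻¹ * σ₀⁻¹ with hσ'
    have hσ'W : σ' ∈ D.W := D.W.mul_mem (h.W_normal.conj_mem σ₀ hσ₀ _) (D.W.inv_mem hσ₀)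
    have hσ'N : σ' ∉ N := by
      intro h'
      have := (h.comm_rule_max M hu hσ₀ hσ₀N 1).1 h'
      rw [one_mul] at this
      exact hA this
    -- all `[τ₀ ^ (j i), σ']` lie in `N`
    have hcomm : ∀ n : ℕ, (D.τ₀ ^ j) ^ n * σ' * ((D.τ₀ ^ j) ^ n)⁻¹ * σ'⁻¹ ∈ N := by
      intro n
      rw [← pow_mul]
      refine (h.comm_rule_max M hu hσ'W hσ'N (j * n)).2 ?_
      rw [mul_assoc, mul_comm n u, ← mul_assoc]
      exact Dvd.dvd.mul_right hdvd n
    have h1 := avg_mul_inv_mem_of N M.normal (D.τ₀ ^ j) σ' hcomm D.m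
    -- the average is trivial
    have h2 : avg (D.τ₀ ^ j) σ' D.m = 1 := by
      refine h.c_inj _ (h.avg_mem _ hσ'W _) ?_ ?_
      · apply h.eq_of_coord
        · rw [h.coc_avg_ℓ₁ h.isCoc₁ j hσ'W, h.coc_comm_ℓ₁ h.isCoc₁ 1 hσ₀, mul_zero, map_zero]
        · rw [h.coc_avg_ℓp h.isCoc₁ j hψ hσ'W, map_zero]
        · rw [h.coc_avg_ℓm h.isCoc₁ j hψ hσ'W, map_zero]
      · apply h.eq_of_coord
        · rw [h.coc_avg_ℓ₁ h.isCoc₂ j hσ'W, h.coc_comm_ℓ₁ h.isCoc₂ 1 hσ₀, mul_zero, map_zero]
        · rw [h.coc_avg_ℓp h.isCoc₂ j hψ hσ'W, map_zero]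
        · rw [h.coc_avg_ℓm h.isCoc₂ j hψ hσ'W, map_zero]
    rw [h2, one_mul] at h1
    have h3 : σ' ^ D.m ∈ N := (Subgroup.inv_mem_iff _).mp h1
    have h4 : σ' ^ p ∈ N := by
      rw [h.pow_p_eq_one hσ'W]
      exact N.one_mem
    exact hσ'N (mem_of_pow_mem_coprime N σ' h.m_coprime_p h3 h4)
  · intro hmj
    refine (h.comm_rule_max M hu hσ₀ hσ₀N j).1 ?_
    rw [h.comm_eq_one_of_dvd hmj hσ₀]
    exact N.one_mem

/-! ### cardinalities -/

omit h in
theorem card_eq_filter [Fintype Γ] [DecidableEq Γ] (H : Subgroup Γ) [DecidablePred (· ∈ H)] :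
    Nat.card H = (Finset.univ.filter (· ∈ H)).card := by
  rw [Nat.card_eq_fintype_card, Fintype.card_subtype]

omit h in
theorem finsum_mem_eq_sum [Fintype Γ] (P : Γ → Prop) [DecidablePred P] (f : Γ → ℕ) :
    ∑ᶠ (σ : Γ) (_ : P σ), f σ = ∑ σ ∈ Finset.univ.filter P, f σ := by
  rw [finsum_eq_sum_of_fintype, Finset.sum_filter]
  refine Finset.sum_congr rfl (fun σ _ => ?_)
  by_cases h1 : P σ <;> simp [h1]

omit h in
theorem finsum_mem_mem_eq_sum [Fintype Γ] (P Q : Γ → Prop) [DecidablePred P] [DecidablePred Q]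
    (f : Γ → ℕ) :
    ∑ᶠ (σ : Γ) (_ : P σ) (_ : Q σ), f σ = ∑ σ ∈ Finset.univ.filter (fun σ => P σ ∧ Q σ), f σ := by
  rw [finsum_eq_sum_of_fintype, Finset.sum_filter]
  refine Finset.sum_congr rfl (fun σ _ => ?_)
  by_cases h1 : P σ <;> by_cases h2 : Q σ <;> simp [h1, h2]

omit h in
/-- reindexing a double sum over cosets -/
theorem sum_sum_mul [Fintype Γ] [DecidableEq Γ] (G₀ N : Subgroup Γ) [DecidablePred (· ∈ G₀)]
    [DecidablePred (· ∈ N)] (hN : N ≤ G₀) (f : Γ → ℕ) :
    ∑ σ ∈ Finset.univ.filter (fun σ => σ ∈ G₀ ∧ σ ∉ N),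
      ∑ w ∈ Finset.univ.filter (· ∈ N), f (σ * w) =
    Nat.card N * ∑ σ ∈ Finset.univ.filter (fun σ => σ ∈ G₀ ∧ σ ∉ N), f σ := by
  rw [Finset.sum_comm]
  have : ∀ w ∈ Finset.univ.filter (· ∈ N),
      ∑ σ ∈ Finset.univ.filter (fun σ => σ ∈ G₀ ∧ σ ∉ N), f (σ * w) =
      ∑ σ ∈ Finset.univ.filter (fun σ => σ ∈ G₀ ∧ σ ∉ N), f σ := by
    intro w hw
    have hwN : w ∈ N := (Finset.mem_filter.mp hw).2
    refine Finset.sum_equiv (Equiv.mulRight w) (fun σ => ?_) (fun σ _ => by simp)
    simp only [Finset.mem_filter, Finset.mem_univ, true_and, Equiv.coe_mulRight]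
    rw [Subgroup.mul_mem_cancel_right _ (hN hwN), Subgroup.mul_mem_cancel_right _ hwN]
  rw [Finset.sum_congr rfl this, Finset.sum_const, smul_eq_mul, card_eq_filter]

/-- The numerical bound for the break of an irreducible quotient. -/
theorem break_bound [Finite Γ] {N : Subgroup Γ} (M : IsMaxNormal D N) {u : ℕ}
    (hu : IsBreak D N u) {y : ℕ} (hy : Nat.card D.W = Nat.card N * (y + 1)) :
    y * (u + 1) ≤ (D.m + 1) * (y + 1) := by
  classical
  haveI : Fintype Γ := Fintype.ofFinite Γ
  have hN1 := h.max_le_wild M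
  have hNΓ₀ : N ≤ D.F ⊥ 0 := hN1.trans h.wild_le_inertia
  have hW1 : D.F ⊥ 1 ≠ ⊥ := by
    rw [← h.W_eq_wild]
    intro hbot
    obtain ⟨σ, hσ, hσN⟩ := h.max_exists_not_mem M
    rw [hbot, Subgroup.mem_bot] at hσ
    exact hσN (hσ ▸ N.one_mem)
  -- the sets
  set A := Finset.univ.filter (fun σ : Γ => σ ∈ D.F ⊥ 0 ∧ σ ∉ N) with hA
  set S₀ := Finset.univ.filter (fun σ : Γ => σ ∈ D.F ⊥ 0 ∧ σ ≠ 1) with hS₀
  -- the different bound
  have hD := h.D_bound hW1
  rw [finsum_mem_mem_eq_sum] at hD
  -- quotient formula summed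
  have e1 : ∑ σ ∈ A, Nat.card N * D.i N σ = Nat.card N * ∑ σ ∈ A, D.i ⊥ σ := by
    rw [← sum_sum_mul (D.F ⊥ 0) N hNΓ₀ (D.i ⊥)]
    refine Finset.sum_congr rfl (fun σ hσ => ?_)
    have hσN : σ ∉ N := (Finset.mem_filter.mp hσ).2.2
    rw [← h.quot_formula N M.normal M.le hN1 σ hσN, finsum_mem_eq_sum]
  have hNpos : 0 < Nat.card N := Nat.card_pos
  have e2 : ∑ σ ∈ A, D.i N σ = ∑ σ ∈ A, D.i ⊥ σ := by
    rw [← Finset.mul_sum] at e1
    exact Nat.eq_of_mul_eq_mul_left hNpos e1
  have e3 : ∑ σ ∈ A, D.i ⊥ σ ≤ ∑ σ ∈ S₀, D.i ⊥ σ := by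
    refine Finset.sum_le_sum_of_subset (fun σ hσ => ?_)
    rw [hA, Finset.mem_filter] at hσ
    rw [hS₀, Finset.mem_filter]
    exact ⟨hσ.1, hσ.2.1, fun h1 => hσ.2.2 (h1 ▸ N.one_mem)⟩
  -- lower bound
  have e4 : ∑ σ ∈ A, (if σ ∈ D.W then u + 1 else 1) ≤ ∑ σ ∈ A, D.i N σ := by
    refine Finset.sum_le_sum (fun σ hσ => ?_)
    rw [hA, Finset.mem_filter] at hσ
    by_cases hσW : σ ∈ D.W
    · rw [if_pos hσW, h.i_eq_of_break M hu hσW hσ.2.2]
    · rw [if_neg hσW]
      have := h.F_zero N M.normal M.le hN1 hσ.2.1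
      rw [h.mem_F N M.normal M.le hN1] at this
      rcases this with h' | h'
      · exact absurd h' hσ.2.2
      · omega
  have e5 : ∑ σ ∈ A, (if σ ∈ D.W then u + 1 else 1) =
      (A.filter (· ∈ D.W)).card * (u + 1) + (A.filter (· ∉ D.W)).card := by
    rw [Finset.sum_ite, Finset.sum_const, Finset.sum_const, smul_eq_mul, smul_eq_mul, mul_one]
  -- cardinalities
  have c1 : (A.filter (· ∈ D.W)).card + Nat.card N = Nat.card D.W := by
    rw [card_eq_filter N, card_eq_filter D.W,
      ← Finset.card_filter_add_card_filter_not (s := Finset.univ.filter (· ∈ D.W)) (· ∈ N),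
      add_comm]
    congr 1
    · congr 1
      ext σ
      simp only [Finset.mem_filter, Finset.mem_univ, true_and]
      exact ⟨fun h1 => ⟨M.le h1, h1⟩, fun h1 => h1.2⟩
    · congr 1
      ext σ
      simp only [hA, Finset.mem_filter, Finset.mem_univ, true_and]
      exact ⟨fun h1 => ⟨h1.2, h1.1.2⟩, fun h1 => ⟨⟨h.W_le_inertia h1.1, h1.2⟩, h1.1⟩⟩
  have c2 : (A.filter (· ∉ D.W)).card + Nat.card D.W = Nat.card (D.F ⊥ 0) := by
    rw [card_eq_filter D.W, card_eq_filter (D.F ⊥ 0),
      ← Finset.card_filter_add_card_filter_not (s := Finset.univ.filter (· ∈ D.F ⊥ 0)) (· ∈ D.W),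
      add_comm]
    congr 1
    · congr 1
      ext σ
      simp only [Finset.mem_filter, Finset.mem_univ, true_and]
      exact ⟨fun h1 => ⟨h.W_le_inertia h1, h1⟩, fun h1 => h1.2⟩
    · congr 1
      ext σ
      simp only [hA, Finset.mem_filter, Finset.mem_univ, true_and]
      exact ⟨fun h1 => ⟨h1.1.1, h1.2⟩, fun h1 => ⟨⟨h1.1, fun h2 => h1.2 (M.le h2)⟩, h1.2⟩⟩
  have c3 := h.card_inertia'
  -- arithmetic
  set a := Nat.card N with ha
  set b := Nat.card D.W with hb
  set g := Nat.card (D.F ⊥ 0) with hg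
  set cW := (A.filter (· ∈ D.W)).card with hcW
  set cG := (A.filter (· ∉ D.W)).card with hcG
  set S := ∑ σ ∈ S₀, D.i ⊥ σ with hS
  have hp1 : 1 ≤ p := (h.p_prime).one_le
  obtain ⟨P, hP⟩ : ∃ P, p = P + 1 := ⟨p - 1, by omega⟩
  have hPpos : 0 < P := by have := h.p_ge_three; omega
  rw [hP] at hD c3
  simp only [Nat.add_sub_cancel] at hD c3
  have e6 : cW * (u + 1) + cG ≤ S := by
    rw [← e5]
    exact e4.trans (e2 ▸ e3)
  have hcW' : cW = a * y := by
    have : cW + a = a * y + a := by rw [c1, hy]; ring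
    omega
  have e7 : P * (cW * (u + 1) + cG) ≤ (P + 1) * g := (Nat.mul_le_mul le_rfl e6).trans hD
  have e8 : P * a * (y * (u + 1)) ≤ P * a * ((D.m + 1) * (y + 1)) := by
    have hg' : g = cG + b := c2.symm
    have hb' : b = a * (y + 1) := hy
    have h1 : P * (a * y * (u + 1)) + P * cG ≤ P * cG + P * b + P * D.m * b := by
      calc P * (a * y * (u + 1)) + P * cG = P * (cW * (u + 1) + cG) := by rw [hcW']; ring
        _ ≤ (P + 1) * g := e7
        _ = P * g + g := by ring
        _ = P * (cG + b) + P * D.m * b := by rw [← hg', ← c3]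
        _ = P * cG + P * b + P * D.m * b := by ring
    have h2 : P * (a * y * (u + 1)) ≤ P * b + P * D.m * b := by omega
    calc P * a * (y * (u + 1)) = P * (a * y * (u + 1)) := by ring
      _ ≤ P * b + P * D.m * b := h2
      _ = P * a * ((D.m + 1) * (y + 1)) := by rw [hb']; ring
  exact Nat.le_of_mul_le_mul_left e8 (Nat.mul_pos hPpos hNpos)

/-! ### the index of `N` in `W` -/

theorem W_isPGroup : IsPGroup p D.W := fun w =>
  ⟨1, by rw [pow_one]; exact Subtype.ext (by simpa using h.pow_p_eq_one w.2)⟩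

theorem exists_card_quot [Finite Γ] {N : Subgroup Γ} (M : IsMaxNormal D N) :
    ∃ y d, 1 ≤ d ∧ y + 1 = p ^ d ∧ Nat.card D.W = Nat.card N * (y + 1) := by
  obtain ⟨β, hβ⟩ := IsPGroup.iff_card.mp h.W_isPGroup
  obtain ⟨α, hα⟩ := IsPGroup.iff_card.mp (h.W_isPGroup.to_le M.le)
  have hp1 : 1 < p := (h.p_prime).one_lt
  have hlt : α < β := by
    by_contra hcon
    have h1 : Nat.card D.W ≤ Nat.card N := by
      rw [hα, hβ]
      exact Nat.pow_le_pow_right (by omega) (by omega)
    exact M.ne (Subgroup.eq_of_le_of_card_ge M.le h1)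
  have hpos : 0 < p ^ (β - α) := Nat.pos_of_ne_zero (by positivity)
  refine ⟨p ^ (β - α) - 1, β - α, by omega, by omega, ?_⟩
  have : p ^ (β - α) - 1 + 1 = p ^ (β - α) := by omega
  rw [this, hα, hβ, ← pow_add]
  congr 1
  omega

/-- Claim C: if `N` has index `p` in `W`, then `τ₀ ^ (p - 1)` acts trivially on `W / N`. -/
theorem claim_C [Finite Γ] {N : Subgroup Γ} (M : IsMaxNormal D N)
    (hcard : Nat.card D.W = Nat.card N * p) {σ : Γ} (hσ : σ ∈ D.W) :
    D.τ₀ ^ (p - 1) * σ * (D.τ₀ ^ (p - 1))⁻¹ * σ⁻¹ ∈ N := by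
  classical
  haveI := M.normal
  obtain ⟨σ₀, hσ₀, hσ₀N⟩ := h.max_exists_not_mem M
  -- Step 1: `W` is generated by `σ₀` modulo `N`
  have step1 : ∀ w ∈ D.W, ∃ i : ℕ, (σ₀ ^ i)⁻¹ * w ∈ N := by
    intro w hw
    haveI : (N.subgroupOf D.W).Normal := inferInstance
    have hQ : Nat.card (↥D.W ⧸ N.subgroupOf D.W) = p := by
      have h1 := Subgroup.card_eq_card_quotient_mul_card_subgroup (N.subgroupOf D.W)
      have h2 : Nat.card (N.subgroupOf D.W) = Nat.card N :=
        Nat.card_congr (Subgroup.subgroupOfEquivOfLe M.le).toEquiv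
      rw [h2, hcard, mul_comm] at h1
      have hNpos : 0 < Nat.card N := Nat.card_pos
      exact (Nat.eq_of_mul_eq_mul_right hNpos h1).symm
    have hq₀ : (QuotientGroup.mk ⟨σ₀, hσ₀⟩ : ↥D.W ⧸ N.subgroupOf D.W) ≠ 1 := by
      rw [Ne, QuotientGroup.eq_one_iff]
      simpa [Subgroup.mem_subgroupOf] using hσ₀N
    have htop := zpowers_eq_top_of_prime_card hQ hq₀
    have hmem : (QuotientGroup.mk ⟨w, hw⟩ : ↥D.W ⧸ N.subgroupOf D.W) ∈
        Subgroup.zpowers (QuotientGroup.mk ⟨σ₀, hσ₀⟩ : ↥D.W ⧸ N.subgroupOf D.W) := by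
      rw [htop]; trivial
    rw [← mem_powers_iff_mem_zpowers] at hmem
    obtain ⟨i, hi⟩ := hmem
    refine ⟨i, ?_⟩
    have h3 : ((⟨σ₀, hσ₀⟩ : D.W) ^ i)⁻¹ * ⟨w, hw⟩ ∈ N.subgroupOf D.W := by
      rw [← QuotientGroup.eq, QuotientGroup.mk_pow]
      exact hi
    simpa [Subgroup.mem_subgroupOf] using h3
  -- work in `Γ ⧸ N`
  have hπ : ∀ x : Γ, (QuotientGroup.mk' N x = 1) ↔ x ∈ N := fun x => by
    rw [QuotientGroup.mk'_apply, QuotientGroup.eq_one_iff]
  set π := QuotientGroup.mk' N with hπdef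
  set t := π D.τ₀ with ht
  set s := π σ₀ with hs
  have hs_ne : s ≠ 1 := fun h' => hσ₀N ((hπ σ₀).1 h')
  have hsp : s ^ p = 1 := by rw [hs, ← map_pow, h.pow_p_eq_one hσ₀, map_one]
  have hpow : ∀ w ∈ D.W, ∃ i : ℕ, π w = s ^ i := by
    intro w hw
    obtain ⟨i, hi⟩ := step1 w hw
    refine ⟨i, ?_⟩
    have h1 : π ((σ₀ ^ i)⁻¹ * w) = 1 := (hπ _).2 hi
    rw [map_mul, map_inv, map_pow, inv_mul_eq_one] at h1
    exact h1.symm
  obtain ⟨a, ha⟩ := hpow (D.τ₀ * σ₀ * D.τ₀⁻¹) (h.W_normal.conj_mem σ₀ hσ₀ _)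
  have ha' : t * s * t⁻¹ = s ^ a := by
    rw [← ha, map_mul, map_mul, map_inv]
  have hind : ∀ j : ℕ, t ^ j * s * (t ^ j)⁻¹ = s ^ (a ^ j) := by
    intro j
    induction j with
    | zero => simp
    | succ j ih =>
      have h1 : t ^ (j + 1) * s * (t ^ (j + 1))⁻¹ = t * (t ^ j * s * (t ^ j)⁻¹) * t⁻¹ := by
        rw [pow_succ']; group
      rw [h1, ih, ← conj_pow, ha', ← pow_mul, ← pow_succ']
  have hpa : ¬ p ∣ a := by
    rintro ⟨b, rfl⟩
    rw [pow_mul, hsp, one_pow] at ha'
    apply hs_ne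
    have h1 : s = t⁻¹ * (t * s * t⁻¹) * t := by group
    rw [h1, ha']
    group
  have hfermat : a ^ (p - 1) ≡ 1 [MOD p] := by
    rw [← ZMod.natCast_eq_natCast_iff]
    push_cast
    exact ZMod.pow_card_sub_one_eq_one (fun h0 => hpa ((ZMod.natCast_eq_zero_iff a p).1 h0))
  have hord : orderOf s = p := orderOf_eq_prime hsp hs_ne
  have hs_pow : s ^ (a ^ (p - 1)) = s := by
    have h1 := (pow_eq_pow_iff_modEq (x := s) (n := a ^ (p - 1)) (m := 1)).2
      (by rw [hord]; exact hfermat)
    rwa [pow_one] at h1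
  have hts : t ^ (p - 1) * s * (t ^ (p - 1))⁻¹ = s := by rw [hind, hs_pow]
  obtain ⟨i, hi⟩ := hpow σ hσ
  refine (hπ _).1 ?_
  rw [map_mul, map_mul, map_mul, map_inv, map_inv, map_pow, hi, ← conj_pow, hts, mul_inv_cancel]

/-- **C2**: the break of an irreducible quotient of `W` is `p - 1`; moreover `m ≠ 2`. -/
theorem break_eq [Finite Γ] {N : Subgroup Γ} (M : IsMaxNormal D N) {u : ℕ}
    (hu : IsBreak D N u) : u = p - 1 ∧ D.m ≠ 2 := by
  obtain ⟨y, d, hd1, hyd, hy⟩ := h.exists_card_quot M
  have hb := h.break_bound M hu hy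
  have hp3 := h.p_ge_three
  have hy2 : 2 ≤ y := by
    have : p ^ 1 ≤ p ^ d := Nat.pow_le_pow_right (by omega) hd1
    rw [pow_one] at this
    omega
  have hA : ¬ (p - 1) * D.m ∣ u := arith_A hp3 h.m_ge_two hy2 hu.pos hb
  obtain ⟨σ₀, hσ₀, hσ₀N⟩ := h.max_exists_not_mem M
  refine arith_main h.p_prime hp3 h.m_even h.m_dvd h.m_odd ⟨d, hd1, hyd⟩ ?_ hu.pos
    (h.claim_B M hu hA) hb
  intro hyp
  rw [hyp] at hy
  have h1 := h.claim_C M hy hσ₀
  have h2 := (h.comm_rule_max M hu hσ₀ hσ₀N (p - 1)).1 h1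
  have h3 : D.m ∣ p - 1 := (h.claim_B M hu hA (p - 1)).1 h2
  have h4 : D.m ∣ (p + 1) - (p - 1) := Nat.dvd_sub h.m_dvd h3
  have h5 : (p + 1) - (p - 1) = 2 := by omega
  rwa [h5] at h4

theorem i_eq_p [Finite Γ] {N : Subgroup Γ} (M : IsMaxNormal D N) {σ : Γ} (hσ : σ ∈ D.W)
    (hσN : σ ∉ N) : D.i N σ = p := by
  obtain ⟨u, hu⟩ := h.exists_break M
  rw [h.i_eq_of_break M hu hσ hσN, (h.break_eq M hu).1]
  have := h.p_ge_three
  omega

theorem m_ne_two_of_max [Finite Γ] {N : Subgroup Γ} (M : IsMaxNormal D N) : D.m ≠ 2 := by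
  obtain ⟨u, hu⟩ := h.exists_break M
  exact (h.break_eq M hu).2

end Hyp

end Fermat.Agent.S56.H846.FLCnt

end
-- ===== PACK-END S56/H846/FLCnt/Quot.lean

-- ===== PACK-BEGIN S56/H846/FLCnt/Maschke.lean
section


/-!
# FL-CNT: `W` is a semisimple `𝔽_p[Γ/W]`-module (Maschke), in group language
(helper846)  Mathlib only, nothing unproved.
-/

set_option autoImplicit false
set_option linter.unusedSectionVars false
set_option linter.style.haveILetI false
set_option linter.unusedVariables false

namespace Fermat.Agent.S56.H846.FLCnt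

variable {Γ k Z : Type} [Group Γ] [Field k] [AddCommGroup Z] [Module k Z]

/-- the pair of cocycles -/
def cc (D : Data Γ k Z) (w : Γ) : Z × Z := (D.c₁ w, D.c₂ w)

namespace Hyp

variable {p : ℕ} [Fact p.Prime] {D : Data Γ k Z} (h : _root_.Fermat.Agent.S56.H846.FLCnt.Hyp p D)
include h

theorem cc_one : cc D 1 = 0 := by
  simp [cc, h.isCoc₁.one, h.isCoc₂.one]

theorem cc_mul {w w' : Γ} (hw : w ∈ D.W) (hw' : w' ∈ D.W) :
    cc D (w * w') = cc D w + cc D w' := by
  simp [cc, h.c₁_mul w hw w' hw', h.c₂_mul w hw w' hw']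

theorem cc_inv {w : Γ} (hw : w ∈ D.W) : cc D w⁻¹ = - cc D w := by
  simp [cc, h.isCoc₁.inv hw, h.isCoc₂.inv hw]

theorem cc_conj (g : Γ) {w : Γ} (hw : w ∈ D.W) :
    cc D (g * w * g⁻¹) = (D.ρ g (cc D w).1, D.ρ g (cc D w).2) := by
  simp [cc, h.c₁_conj g w hw, h.c₂_conj g w hw]

theorem cc_eq_zero {w : Γ} (hw : w ∈ D.W) (h0 : cc D w = 0) : w = 1 :=
  h.c_inj w hw (congrArg Prod.fst h0) (congrArg Prod.snd h0)

/-- **Maschke**: every `Γ`-normal subgroup of `W` has a `Γ`-normal complement in `W`. -/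
theorem exists_compl [Finite Γ] {X : Subgroup Γ} (hX : X.Normal) (hXW : X ≤ D.W) :
    ∃ N' : Subgroup Γ, N'.Normal ∧ N' ≤ D.W ∧ (∀ w, w ∈ X → w ∈ N' → w = 1) ∧
      (∀ w ∈ D.W, ∃ x ∈ X, ∃ n ∈ N', w = x * n) := by
  classical
  haveI := h.W_normal
  letI : Module (ZMod p) Z := AddCommGroup.zmodModule h.p_nsmul
  -- the representation of `Γ` on `Z × Z`
  let ρ₂ : Γ →* ((Z × Z) →ₗ[ZMod p] (Z × Z)) :=
    { toFun := fun g => AddMonoidHom.toZModLinearMap p
        (((D.ρ g).prodMap (D.ρ g) : (Z × Z) →ₗ[k] (Z × Z)) : (Z × Z) →+ (Z × Z))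
      map_one' := by
        apply LinearMap.ext
        intro v
        show ((D.ρ 1) v.1, (D.ρ 1) v.2) = v
        rw [map_one]
        rfl
      map_mul' := fun g g' => by
        apply LinearMap.ext
        intro v
        show ((D.ρ (g * g')) v.1, (D.ρ (g * g')) v.2) =
          ((D.ρ g) ((D.ρ g') v.1), (D.ρ g) ((D.ρ g') v.2))
        rw [map_mul]
        rfl }
  have hρ₂ : ∀ (g : Γ) (v : Z × Z), (ρ₂ g : (Z × Z) →ₗ[ZMod p] (Z × Z)) v =
      (D.ρ g v.1, D.ρ g v.2) := fun g v => rfl
  have hker : D.W ≤ ρ₂.ker := fun w hw => by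
    rw [MonoidHom.mem_ker]
    apply LinearMap.ext
    intro v
    rw [hρ₂, h.ρ_W w hw]
    rfl
  let ρq : Representation (ZMod p) (Γ ⧸ D.W) (Z × Z) := QuotientGroup.lift D.W ρ₂ hker
  have hρq : ∀ (g : Γ) (v : Z × Z), (ρq (g : Γ ⧸ D.W) : (Z × Z) →ₗ[ZMod p] (Z × Z)) v =
      (D.ρ g v.1, D.ρ g v.2) := fun g v => rfl
  haveI : NeZero (Nat.card (Γ ⧸ D.W) : ZMod p) := ⟨by
    rw [Ne, ZMod.natCast_eq_zero_iff]
    exact h.W_index⟩
  -- the subrepresentation defined by `X`
  let XA : AddSubgroup (Z × Z) :=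
    { carrier := {v | ∃ x ∈ X, cc D x = v}
      zero_mem' := ⟨1, X.one_mem, h.cc_one⟩
      add_mem' := by
        rintro _ _ ⟨x, hx, rfl⟩ ⟨x', hx', rfl⟩
        exact ⟨x * x', X.mul_mem hx hx', h.cc_mul (hXW hx) (hXW hx')⟩
      neg_mem' := by
        rintro _ ⟨x, hx, rfl⟩
        exact ⟨x⁻¹, X.inv_mem hx, h.cc_inv (hXW hx)⟩ }
  let XS : Subrepresentation ρq :=
    { toSubmodule := AddSubgroup.toZModSubmodule p XA
      apply_mem_toSubmodule := by
        intro q v hv
        induction q using QuotientGroup.induction_on with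
        | H g =>
          obtain ⟨x, hx, rfl⟩ := hv
          refine ⟨g * x * g⁻¹, hX.conj_mem x hx g, ?_⟩
          rw [h.cc_conj g (hXW hx), hρq] }
  obtain ⟨YS, hY⟩ := exists_isCompl XS
  have hinf : XS.toSubmodule ⊓ YS.toSubmodule = ⊥ := by
    rw [← Subrepresentation.toSubmodule_inf, hY.inf_eq_bot]
    rfl
  have hsup : XS.toSubmodule ⊔ YS.toSubmodule = ⊤ := by
    rw [← Subrepresentation.toSubmodule_sup, hY.sup_eq_top]
    rfl
  -- the complement
  let N' : Subgroup Γ :=
    { carrier := {w | w ∈ D.W ∧ cc D w ∈ YS.toSubmodule}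
      one_mem' := ⟨D.W.one_mem, by rw [h.cc_one]; exact Submodule.zero_mem _⟩
      mul_mem' := by
        rintro w w' ⟨hw, hwY⟩ ⟨hw', hwY'⟩
        exact ⟨D.W.mul_mem hw hw', by rw [h.cc_mul hw hw']; exact Submodule.add_mem _ hwY hwY'⟩
      inv_mem' := by
        rintro w ⟨hw, hwY⟩
        exact ⟨D.W.inv_mem hw, by rw [h.cc_inv hw]; exact Submodule.neg_mem _ hwY⟩ }
  refine ⟨N', ⟨?_⟩, fun w hw => hw.1, ?_, ?_⟩
  · rintro w ⟨hw, hwY⟩ g
    refine ⟨h.W_normal.conj_mem w hw g, ?_⟩
    have := YS.apply_mem_toSubmodule (g : Γ ⧸ D.W) hwY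
    rw [hρq] at this
    rw [h.cc_conj g hw]
    exact this
  · rintro w hwX ⟨hw, hwY⟩
    have h1 : cc D w ∈ XS.toSubmodule ⊓ YS.toSubmodule := ⟨⟨w, hwX, rfl⟩, hwY⟩
    rw [hinf, Submodule.mem_bot] at h1
    exact h.cc_eq_zero hw h1
  · intro w hw
    have h1 : cc D w ∈ XS.toSubmodule ⊔ YS.toSubmodule := by rw [hsup]; trivial
    obtain ⟨v, ⟨x, hx, rfl⟩, v', hv', hsum⟩ := Submodule.mem_sup.mp h1
    refine ⟨x, hx, x⁻¹ * w, ⟨D.W.mul_mem (D.W.inv_mem (hXW hx)) hw, ?_⟩, by group⟩
    rw [h.cc_mul (D.W.inv_mem (hXW hx)) hw, h.cc_inv (hXW hx), ← hsum]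
    simpa using hv'

end Hyp

end Fermat.Agent.S56.H846.FLCnt

end
-- ===== PACK-END S56/H846/FLCnt/Maschke.lean

-- ===== PACK-BEGIN S55/H414/CycloLevel.lean
section


/-!
# S55, leaf CYC-INF (helper414), part 1: the cyclotomic levels `ℚ(ζ_N) ⊆ ℚ̄`

For `N ≠ 0` we define `cycloLevel N = ℚ(ζ_N)` as an intermediate field of `ℚ̄/ℚ`, show that it is
Galois with commutative Galois group, and that it is unramified at every prime not dividing `N`
(in the Prelude sense: inertia groups of valuation subrings of `ℚ̄` fix it pointwise).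
-/

set_option autoImplicit false

namespace Fermat.Agent.S55.H414

open ExtCitation Fermat.Agent.S55.Bridge

/-- A chosen primitive `N`-th root of unity in `ℚ̄`. -/
noncomputable def zetaBar (N : ℕ) [NeZero N] : AlgebraicClosure ℚ :=
  (HasEnoughRootsOfUnity.exists_primitiveRoot (AlgebraicClosure ℚ) N).choose

theorem zetaBar_spec (N : ℕ) [NeZero N] : IsPrimitiveRoot (zetaBar N) N :=
  (HasEnoughRootsOfUnity.exists_primitiveRoot (AlgebraicClosure ℚ) N).choose_spec

/-- The cyclotomic field `ℚ(ζ_N)` inside `ℚ̄`. -/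
noncomputable def cycloLevel (N : ℕ) [NeZero N] : IntermediateField ℚ (AlgebraicClosure ℚ) :=
  IntermediateField.adjoin ℚ {zetaBar N}

theorem zetaBar_mem_cycloLevel (N : ℕ) [NeZero N] : zetaBar N ∈ _root_.Fermat.Agent.S55.H414.cycloLevel N :=
  IntermediateField.subset_adjoin ℚ _ rfl

instance isCyclotomicExtension_cycloLevel (N : ℕ) [NeZero N] :
    IsCyclotomicExtension {N} ℚ (_root_.Fermat.Agent.S55.H414.cycloLevel N) :=
  haveI : Algebra.IsAlgebraic ℚ (AlgebraicClosure ℚ) := AlgebraicClosure.isAlgebraic ℚ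
  haveI : Algebra.IsIntegral ℚ (AlgebraicClosure ℚ) := Algebra.IsAlgebraic.isIntegral
  (zetaBar_spec N).intermediateField_adjoin_isCyclotomicExtension ℚ

instance finiteDimensional_cycloLevel (N : ℕ) [NeZero N] :
    FiniteDimensional ℚ (_root_.Fermat.Agent.S55.H414.cycloLevel N) :=
  IsCyclotomicExtension.finiteDimensional {N} ℚ (_root_.Fermat.Agent.S55.H414.cycloLevel N)

instance isGalois_cycloLevel (N : ℕ) [NeZero N] : IsGalois ℚ (_root_.Fermat.Agent.S55.H414.cycloLevel N) :=
  IsCyclotomicExtension.isGalois {N} ℚ (_root_.Fermat.Agent.S55.H414.cycloLevel N)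

/-- An automorphism of `ℚ̄` fixes `ℚ(ζ_N)` pointwise iff it fixes `ζ_N`. -/
theorem mem_fixingSubgroup_cycloLevel_iff (N : ℕ) [NeZero N]
    (σ : AlgebraicClosure ℚ ≃ₐ[ℚ] AlgebraicClosure ℚ) :
    σ ∈ (_root_.Fermat.Agent.S55.H414.cycloLevel N).fixingSubgroup ↔ σ (zetaBar N) = zetaBar N := by
  constructor
  · intro h
    exact (IntermediateField.mem_fixingSubgroup_iff _ σ).1 h _ (zetaBar_mem_cycloLevel N)
  · intro h
    rw [IntermediateField.mem_fixingSubgroup_iff]
    intro x hx
    have hle : _root_.Fermat.Agent.S55.H414.cycloLevel N ≤ IntermediateField.fixedField (Subgroup.zpowers σ) := by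
      rw [_root_.Fermat.Agent.S55.H414.cycloLevel, IntermediateField.adjoin_le_iff]
      rintro y rfl
      rw [SetLike.mem_coe, IntermediateField.mem_fixedField_iff]
      intro τ hτ
      obtain ⟨k, rfl⟩ := Subgroup.mem_zpowers_iff.1 hτ
      have hfix : ∀ m : ℕ, (σ ^ m) (zetaBar N) = zetaBar N := by
        intro m
        induction m with
        | zero => simp
        | succ m ih => rw [pow_succ, AlgEquiv.mul_apply, h, ih]
      rcases Int.eq_nat_or_neg k with ⟨m, rfl | rfl⟩
      · rw [zpow_natCast]; exact hfix m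
      · rw [zpow_neg, zpow_natCast]
        have := hfix m
        calc (σ ^ m)⁻¹ (zetaBar N) = (σ ^ m)⁻¹ ((σ ^ m) (zetaBar N)) := by rw [this]
          _ = zetaBar N := by
            show ((σ ^ m)⁻¹ * (σ ^ m)) (zetaBar N) = zetaBar N
            rw [inv_mul_cancel]; rfl
    have := hle hx
    rw [IntermediateField.mem_fixedField_iff] at this
    exact this σ (Subgroup.mem_zpowers σ)

/-- Any `N`-th root of unity has valuation `1`. -/
theorem valuation_eq_one_of_pow_eq_one (A : ValuationSubring (AlgebraicClosure ℚ)) {N : ℕ}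
    (hN : N ≠ 0) {a : AlgebraicClosure ℚ} (ha : a ^ N = 1) : A.valuation a = 1 := by
  have h : (A.valuation a) ^ N = 1 := by rw [← map_pow, ha, map_one]
  exact (pow_eq_one_iff.1 h).resolve_right hN

/-- If `N` is a unit at `A` then `ℚ(ζ_N)` is fixed by the inertia group at `A`. -/
theorem inertia_le_fixingSubgroup_cycloLevel (N : ℕ) [NeZero N]
    (A : ValuationSubring (AlgebraicClosure ℚ))
    (hNv : A.valuation (N : AlgebraicClosure ℚ) = 1) :
    A.inertiaSubgroupIn ℚ ≤ (_root_.Fermat.Agent.S55.H414.cycloLevel N).fixingSubgroup := by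
  intro σ hσ
  rw [mem_fixingSubgroup_cycloLevel_iff]
  by_contra hne
  have hz : zetaBar N ^ N = 1 := (zetaBar_spec N).pow_eq_one
  have hσz : (σ (zetaBar N)) ^ N = 1 := by rw [← map_pow, hz, map_one]
  have h1 := val_sub_roots_eq_one (A := A) (NeZero.ne N) hNv hσz hz hne
  have h2 := inertia_val_sub_lt_one A hσ (zetaBar N)
    (valuation_eq_one_of_pow_eq_one A (NeZero.ne N) hz).le
  rw [h1] at h2
  exact lt_irrefl _ h2

/-- `ℚ(ζ_{p^n})` is unramified outside every set of primes containing `p`. -/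
theorem isUnramifiedOutside_cycloLevel (p : ℕ) [Fact p.Prime] (n : ℕ)
    (S : Finset Nat.Primes) (hpS : pPrime p ∈ S) :
    (_root_.Fermat.Agent.S55.H414.cycloLevel (p ^ n)).IsUnramifiedOutside S := by
  refine ⟨inferInstance, fun q hq A hA => ?_⟩
  apply inertia_le_fixingSubgroup_cycloLevel
  have hp : p.Prime := Fact.out
  have hqp : (q : ℕ) ≠ p := by
    rintro h
    apply hq
    have : q = pPrime p := Subtype.ext h
    rw [this]; exact hpS
  have := val_prime_eq_one (A := A) hA q.2 hp hqp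
  rw [Nat.cast_pow, map_pow, this, one_pow]

end Fermat.Agent.S55.H414

end
-- ===== PACK-END S55/H414/CycloLevel.lean

-- ===== PACK-BEGIN S55/L/H355/LocBasic.lean
section


/-!
# S55, layer L, helper355: the normalised valuation `ordZ` of a discrete valuation subring

For a valuation subring `B` of `L` which is a DVR with uniformizer `ϖ`, `ordZ B ϖ : Lˣ → ℤ` is the
normalised valuation; `ordHom` is the corresponding homomorphism `Lˣ →* Multiplicative ℤ`.
-/

set_option autoImplicit false

namespace Fermat.Agent.S55.L.H355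

open Fermat.Agent.S55.L

section

variable {L : Type} [Field L] {B : ValuationSubring L} {ϖ : L}

theorem isUniformizer_mem (h : IsUniformizer B ϖ) : ϖ ∈ B := h.1

theorem isUniformizer_ne_zero (h : IsUniformizer B ϖ) : ϖ ≠ 0 := by
  obtain ⟨hm, hirr⟩ := h
  intro h0
  apply hirr.ne_zero
  exact Subtype.ext h0

theorem isUniformizer_val_lt_one (h : IsUniformizer B ϖ) : B.valuation ϖ < 1 := by
  obtain ⟨hm, hirr⟩ := h
  have h1 : ¬ IsUnit (⟨ϖ, hm⟩ : B) := hirr.not_isUnit
  have h2 : (⟨ϖ, hm⟩ : B) ∈ IsLocalRing.maximalIdeal B := by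
    rw [IsLocalRing.mem_maximalIdeal]
    exact h1
  exact (B.valuation_lt_one_iff _).1 h2

theorem isUniformizer_val_pos (h : IsUniformizer B ϖ) : 0 < B.valuation ϖ := by
  rw [Valuation.pos_iff]
  exact isUniformizer_ne_zero h

theorem exists_isUniformizer (hB : IsDiscreteValuationRing B) : ∃ ϖ : L, IsUniformizer B ϖ := by
  obtain ⟨p, hp⟩ := IsDiscreteValuationRing.exists_irreducible B
  exact ⟨p.1, p.2, hp⟩

/-- Every nonzero element is a power of the uniformizer up to a unit (valuation form). -/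
theorem exists_val_eq_zpow (hB : IsDiscreteValuationRing B) (h : IsUniformizer B ϖ) (x : Lˣ) :
    ∃ m : ℤ, B.valuation (x : L) = B.valuation ϖ ^ m := by
  obtain ⟨hm, hirr⟩ := h
  have key : ∀ y : L, y ≠ 0 → y ∈ B → ∃ n : ℕ, B.valuation y = B.valuation ϖ ^ n := by
    intro y hy0 hyB
    have hy' : (⟨y, hyB⟩ : B) ≠ 0 := fun h0 => hy0 (congrArg Subtype.val h0)
    obtain ⟨n, u, hu⟩ := IsDiscreteValuationRing.eq_unit_mul_pow_irreducible hy' hirr
    refine ⟨n, ?_⟩
    have h1 : y = (u : B) * ϖ ^ n := by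
      have := congrArg Subtype.val hu
      simpa using this
    rw [h1, map_mul, map_pow, B.valuation_unit u, one_mul]
  rcases B.mem_or_inv_mem (x : L) with hx | hx
  · obtain ⟨n, hn⟩ := key x x.ne_zero hx
    exact ⟨n, by rw [hn, zpow_natCast]⟩
  · obtain ⟨n, hn⟩ := key (x : L)⁻¹ (inv_ne_zero x.ne_zero) hx
    refine ⟨-n, ?_⟩
    rw [map_inv₀] at hn
    rw [zpow_neg, zpow_natCast, ← hn, inv_inv]

open Classical in
/-- The normalised valuation of `x : Lˣ` (junk `0` if `B` is not a DVR with uniformizer `ϖ`). -/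
noncomputable def ordZ (B : ValuationSubring L) (ϖ : L) (x : Lˣ) : ℤ :=
  if h : ∃ m : ℤ, B.valuation (x : L) = B.valuation ϖ ^ m then h.choose else 0

theorem val_eq_zpow_ordZ (hB : IsDiscreteValuationRing B) (h : IsUniformizer B ϖ) (x : Lˣ) :
    B.valuation (x : L) = B.valuation ϖ ^ ordZ B ϖ x := by
  classical
  unfold ordZ
  rw [dif_pos (exists_val_eq_zpow hB h x)]
  exact (exists_val_eq_zpow hB h x).choose_spec

theorem ordZ_eq_of_val_eq (hB : IsDiscreteValuationRing B) (h : IsUniformizer B ϖ) (x : Lˣ)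
    {m : ℤ} (hm : B.valuation (x : L) = B.valuation ϖ ^ m) : ordZ B ϖ x = m := by
  have h1 := val_eq_zpow_ordZ hB h x
  rw [hm] at h1
  exact ((zpow_right_inj₀ (isUniformizer_val_pos h) (isUniformizer_val_lt_one h).ne).1 h1).symm

theorem ordZ_mul (hB : IsDiscreteValuationRing B) (h : IsUniformizer B ϖ) (x y : Lˣ) :
    ordZ B ϖ (x * y) = ordZ B ϖ x + ordZ B ϖ y := by
  apply ordZ_eq_of_val_eq hB h
  rw [Units.val_mul, map_mul, val_eq_zpow_ordZ hB h x, val_eq_zpow_ordZ hB h y,
    zpow_add₀ (isUniformizer_val_pos h).ne']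

theorem ordZ_one (hB : IsDiscreteValuationRing B) (h : IsUniformizer B ϖ) :
    ordZ B ϖ (1 : Lˣ) = 0 := by
  apply ordZ_eq_of_val_eq hB h
  simp

/-- The normalised valuation as a homomorphism. -/
noncomputable def ordHom (hB : IsDiscreteValuationRing B) (h : IsUniformizer B ϖ) :
    Lˣ →* Multiplicative ℤ where
  toFun x := Multiplicative.ofAdd (ordZ B ϖ x)
  map_one' := by rw [ordZ_one hB h]; rfl
  map_mul' x y := by rw [ordZ_mul hB h, ofAdd_add]

@[simp] theorem ordHom_apply (hB : IsDiscreteValuationRing B) (h : IsUniformizer B ϖ) (x : Lˣ) :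
    Multiplicative.toAdd (ordHom hB h x) = ordZ B ϖ x := rfl

theorem ordZ_inv (hB : IsDiscreteValuationRing B) (h : IsUniformizer B ϖ) (x : Lˣ) :
    ordZ B ϖ x⁻¹ = -ordZ B ϖ x := by
  have := ordZ_mul hB h x x⁻¹
  rw [mul_inv_cancel, ordZ_one hB h] at this
  omega

theorem ordZ_pow (hB : IsDiscreteValuationRing B) (h : IsUniformizer B ϖ) (x : Lˣ) (n : ℕ) :
    ordZ B ϖ (x ^ n) = n * ordZ B ϖ x := by
  induction n with
  | zero => simp [ordZ_one hB h]
  | succ n ih => rw [pow_succ, ordZ_mul hB h, ih]; push_cast; ring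

theorem ordZ_zpow (hB : IsDiscreteValuationRing B) (h : IsUniformizer B ϖ) (x : Lˣ) (n : ℤ) :
    ordZ B ϖ (x ^ n) = n * ordZ B ϖ x := by
  cases n with
  | ofNat n => simpa using ordZ_pow hB h x n
  | negSucc n =>
    rw [zpow_negSucc, ordZ_inv hB h, ordZ_pow hB h]
    push_cast
    rw [Int.negSucc_eq]
    ring

theorem ordZ_eq_zero_iff (hB : IsDiscreteValuationRing B) (h : IsUniformizer B ϖ) (x : Lˣ) :
    ordZ B ϖ x = 0 ↔ x ∈ B.unitGroup := by
  rw [B.mem_unitGroup_iff, val_eq_zpow_ordZ hB h x]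
  constructor
  · intro h0; rw [h0, zpow_zero]
  · intro h1
    have : B.valuation ϖ ^ ordZ B ϖ x = B.valuation ϖ ^ (0 : ℤ) := by rw [h1, zpow_zero]
    exact (zpow_right_inj₀ (isUniformizer_val_pos h) (isUniformizer_val_lt_one h).ne).1 this

theorem ordZ_nonneg_iff (hB : IsDiscreteValuationRing B) (h : IsUniformizer B ϖ) (x : Lˣ) :
    0 ≤ ordZ B ϖ x ↔ (x : L) ∈ B := by
  rw [← B.valuation_le_one_iff, val_eq_zpow_ordZ hB h x,
    zpow_le_one_iff_right_of_lt_one₀ (isUniformizer_val_pos h) (isUniformizer_val_lt_one h)]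

theorem ordZ_pos_iff (hB : IsDiscreteValuationRing B) (h : IsUniformizer B ϖ) (x : Lˣ) :
    0 < ordZ B ϖ x ↔ (x : L) ∈ B.nonunits := by
  rw [B.mem_nonunits_iff, val_eq_zpow_ordZ hB h x,
    zpow_lt_one_iff_right_of_lt_one₀ (isUniformizer_val_pos h) (isUniformizer_val_lt_one h)]

theorem ordZ_uniformizer (hB : IsDiscreteValuationRing B) (h : IsUniformizer B ϖ) (u : Lˣ)
    (hu : (u : L) = ϖ) : ordZ B ϖ u = 1 := by
  apply ordZ_eq_of_val_eq hB h
  rw [hu, zpow_one]

/-- `ordZ` of a second uniformizer is `1`. -/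
theorem ordZ_of_isUniformizer (hB : IsDiscreteValuationRing B) (h : IsUniformizer B ϖ) (u : Lˣ)
    (hu : IsUniformizer B (u : L)) : ordZ B ϖ u = 1 := by
  obtain ⟨hm, hirr⟩ := h
  obtain ⟨hm', hirr'⟩ := hu
  have hass : Associated (⟨(u : L), hm'⟩ : B) ⟨ϖ, hm⟩ :=
    IsDiscreteValuationRing.associated_of_irreducible B hirr' hirr
  obtain ⟨w, hw⟩ := hass
  apply ordZ_eq_of_val_eq hB ⟨hm, hirr⟩
  have h1 : ϖ = (u : L) * (w : B) := by
    have := congrArg Subtype.val hw
    simpa using this.symm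
  have h2 : B.valuation ϖ = B.valuation (u : L) := by
    conv_lhs => rw [h1]
    rw [map_mul, B.valuation_unit w, mul_one]
  rw [zpow_one, h2]

/-- Elements of `L` are integral iff they are `0` or have nonnegative `ordZ`. -/
theorem mem_iff_ordZ (hB : IsDiscreteValuationRing B) (h : IsUniformizer B ϖ) (x : L) :
    x ∈ B ↔ x = 0 ∨ ∃ u : Lˣ, (u : L) = x ∧ 0 ≤ ordZ B ϖ u := by
  constructor
  · intro hx
    by_cases h0 : x = 0
    · exact Or.inl h0
    · exact Or.inr ⟨Units.mk0 x h0, rfl, (ordZ_nonneg_iff hB h _).2 hx⟩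
  · rintro (rfl | ⟨u, rfl, hu⟩)
    · exact B.zero_mem
    · exact (ordZ_nonneg_iff hB h u).1 hu

end

end Fermat.Agent.S55.L.H355

end
-- ===== PACK-END S55/L/H355/LocBasic.lean

-- ===== PACK-BEGIN S55/Local/H904/Integers.lean
section




/-!
# S55, layer L, piece LF0 (helper904): the ring of integers of a local field

Setting: `A` a complete DVR with finite residue field, `F = Frac A` of characteristic `0`,
`L / F` a finite extension, and ANY `Algebra A L` instance compatible with the tower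
(`IsScalarTower A F L`).  `B := integralClosure A L`.

Main results (all about `B = integralClosure A L`):
* `lf0_finite`            : `Module.Finite A B`
* `lf0_isDedekindDomain`  : `IsDedekindDomain B`
* `lf0_isFractionRing`    : `IsFractionRing B L`
* `lf0_isLocalRing`       : `IsLocalRing B`
* `lf0_isDVR`             : `IsDiscreteValuationRing B`
* `lf0_finite_residueField` : `Finite (ResidueField B)`
* `lf0_isAdicComplete`    : `IsAdicComplete (maximalIdeal B) B`

To use them with the conventions of `Defs.lean`: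
`letI : Algebra A L := (toL A F L).toAlgebra`
`haveI : IsScalarTower A F L := IsScalarTower.of_algebraMap_eq (fun _ => rfl)`.
-/

set_option autoImplicit false
set_option linter.unusedSectionVars false
set_option linter.style.haveILetI false

namespace Fermat.Agent.S55.Local.H904

open IsLocalRing

/-- A module-finite domain over a complete Noetherian local ring is local. -/
theorem isLocalRing_of_finite_of_complete (R : Type) [CommRing R] [IsLocalRing R]
    [IsNoetherianRing R] [IsAdicComplete (maximalIdeal R) R]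
    (B : Type) [CommRing B] [IsDomain B] [Algebra R B] [Module.Finite R B] :
    IsLocalRing B := by
  classical
  obtain ⟨-, hbij, -, -⟩ :=
    Algebra.finite_maximalSpectrum_and_bijective_localization_of_module_finite (𝒪 := R) B
  have hsub : ∀ I J : MaximalSpectrum B, I = J := by
    intro I J
    by_contra hIJ
    obtain ⟨e, he⟩ := hbij.2 (Pi.single I 1)
    have heI : algebraMap B (Localization.AtPrime I.asIdeal) e = 1 := by
      have := congrFun he I
      simpa using this
    have heJ : algebraMap B (Localization.AtPrime J.asIdeal) e = 0 := by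
      have := congrFun he J
      simpa [Pi.single_eq_of_ne (Ne.symm hIJ)] using this
    have hprod : e * (1 - e) = 0 := by
      apply hbij.1
      funext K
      by_cases hK : K = I
      · subst hK
        simp [heI]
      · have : algebraMap B (Localization.AtPrime K.asIdeal) e = 0 := by
          have := congrFun he K
          simpa [Pi.single_eq_of_ne hK] using this
        simp [this]
    rcases mul_eq_zero.mp hprod with h0 | h1
    · rw [h0, map_zero] at heI
      exact zero_ne_one heI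
    · have : e = 1 := (sub_eq_zero.mp h1).symm
      rw [this, map_one] at heJ
      exact one_ne_zero heJ
  obtain ⟨m, hm⟩ := Ideal.exists_maximal B
  refine IsLocalRing.of_unique_max_ideal ⟨m, hm, fun m' hm' => ?_⟩
  exact congrArg MaximalSpectrum.asIdeal (hsub ⟨m', hm'⟩ ⟨m, hm⟩)

section Generic

variable (A F : Type) [CommRing A] [IsDomain A] [IsDiscreteValuationRing A]
  [IsAdicComplete (IsLocalRing.maximalIdeal A) A]
  [Field F] [CharZero F] [Algebra A F] [IsFractionRing A F]
  (L : Type) [Field L] [Algebra F L] [FiniteDimensional F L]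
  [Algebra A L] [IsScalarTower A F L]

include F in
theorem lf0_finite : Module.Finite A (integralClosure A L) :=
  IsIntegralClosure.finite A F L _

include F in
theorem lf0_isDedekindDomain : IsDedekindDomain (integralClosure A L) :=
  IsIntegralClosure.isDedekindDomain A F L _

include F in
theorem lf0_isFractionRing : IsFractionRing (integralClosure A L) L :=
  IsIntegralClosure.isFractionRing_of_finite_extension A F L _

include F in
theorem lf0_algebraMap_injective : Function.Injective (algebraMap A L) := by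
  rw [IsScalarTower.algebraMap_eq A F L]
  exact (algebraMap F L).injective.comp (IsFractionRing.injective A F)

include F in
theorem lf0_isLocalRing : IsLocalRing (integralClosure A L) := by
  haveI := lf0_finite A F L
  exact isLocalRing_of_finite_of_complete A (integralClosure A L)

include F in
theorem lf0_algebraMap_injective' :
    Function.Injective (algebraMap A (integralClosure A L)) := by
  intro x y hxy
  apply lf0_algebraMap_injective A F L
  have := congrArg (algebraMap (integralClosure A L) L) hxy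
  simpa [← IsScalarTower.algebraMap_apply] using this

include F in
theorem lf0_not_isField : ¬ IsField (integralClosure A L) := by
  intro h
  have hA : IsField A :=
    isField_of_isIntegral_of_isField (lf0_algebraMap_injective' A F L) h
  exact IsDiscreteValuationRing.not_isField A hA

include F in
theorem lf0_isDVR : IsDiscreteValuationRing (integralClosure A L) := by
  haveI := lf0_isLocalRing A F L
  haveI := lf0_isDedekindDomain A F L
  haveI : IsNoetherianRing (integralClosure A L) := IsDedekindRing.toIsNoetherian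
  exact ((IsDiscreteValuationRing.TFAE (integralClosure A L) (lf0_not_isField A F L)).out 0 2).mpr
    (lf0_isDedekindDomain A F L)

include F in
theorem lf0_isLocalHom :
    haveI := lf0_isLocalRing A F L
    IsLocalHom (algebraMap A (integralClosure A L)) := by
  haveI : FaithfulSMul A (integralClosure A L) :=
    (faithfulSMul_iff_algebraMap_injective _ _).mpr (lf0_algebraMap_injective' A F L)
  exact Algebra.IsIntegral.isLocalHom A (integralClosure A L)

include F in
theorem lf0_finite_residueField [Finite (ResidueField A)] :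
    haveI := lf0_isLocalRing A F L
    Finite (ResidueField (integralClosure A L)) := by
  haveI := lf0_isLocalRing A F L
  haveI := lf0_isLocalHom A F L
  haveI := lf0_finite A F L
  exact IsLocalRing.ResidueField.finite_of_finite (R := A) inferInstance

include F in
theorem lf0_isAdicComplete :
    haveI := lf0_isLocalRing A F L
    IsAdicComplete (maximalIdeal (integralClosure A L)) (integralClosure A L) := by
  haveI := lf0_isLocalRing A F L
  haveI := lf0_isLocalHom A F L
  haveI := lf0_finite A F L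
  exact IsLocalRing.isAdicComplete_of_module_finite (𝒪 := A)

end Generic

end Fermat.Agent.S55.Local.H904

end
-- ===== PACK-END S55/Local/H904/Integers.lean

-- ===== PACK-BEGIN S55/KL/Spec2.lean
section


/-!
# S55, layer KB (abstract Kummer bridge), part 2: degrees 1 and 2, change of scalars

Interface statements only (Spec pattern, no `sorry`).  Architect: helper183.
Blueprint: `coord/S55-KL.md` on `origin/helper183`.

* `ScalarsSpec`   : effaceability does not depend on the coefficient ring (`k` versus `ℤ`);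
* `FinH1Spec`     : finiteness of level-constant `H¹` (input A1 / A2 of layer D), elementwise;
* `DimH2LeSpec`   : `dim H²_LC(Γ, μ) ≤ 1` (input A5 / A6 of layer D), elementwise;
* `DimH2GeSpec`   : `H²_LC(Γ, μ) ≠ 0`.
-/

set_option autoImplicit false

open CategoryTheory groupCohomology

namespace Fermat.Agent.S55.KL

variable {k : Type} [CommRing k] {Γ : Type} [Group Γ]

/-! ## Change of scalars -/

/-- Restriction of scalars to `ℤ` of a representation. -/
noncomputable def toInt (R : Rep.{0} k Γ) : Rep.{0} ℤ Γ :=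
  Rep.of (k := ℤ) (X := R.V)
    { toFun := fun g => (R.ρ g).toAddMonoidHom.toIntLinearMap
      map_one' := by
        ext x
        simp
      map_mul' := fun g h => by
        ext x
        simp }

/-- **KB-SCAL.**  `colim Hⁿ(Γ, R) = 0` may be checked after restriction of scalars to `ℤ`
(inhomogeneous cochains do not depend on the coefficient ring). -/
def ScalarsSpec : Prop :=
  ∀ (k Γ : Type) [CommRing k] [Group Γ] (N : NLevels Γ) (R : Rep.{0} k Γ) (n : ℕ),
    EffAll N (toInt R) n → EffAll N R n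

/-- **KB-SCAL'.**  `cd_p ≤ 2` over `ℤ` implies `cd_p ≤ 2` over any `k`. -/
def CdScalarsSpec : Prop :=
  ∀ (k Γ : Type) [CommRing k] [Group Γ] (N : NLevels Γ) (p : ℕ),
    CdLeTwo N ℤ p → CdLeTwo N k p

/-! ## Degree 1: finiteness -/

/-- `(A^U)/p` is finite for every open subgroup `U` (elementwise form). -/
def PowFinite (N : NLevels Γ) (A : Rep.{0} k Γ) (p : ℕ) : Prop :=
  ∀ U : Subgroup Γ, N.IsOpen U →
    ∃ F : Finset A.V, ∀ a : A.V, (∀ u ∈ U, A.ρ u a = a) →
      ∃ f ∈ F, ∃ b : A.V, (∀ u ∈ U, A.ρ u b = b) ∧ a = f + p • b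

/-- The level-constant `H¹(Γ, R)` is finite (elementwise form: finitely many level-constant
1-cocycles represent all classes). -/
def FinLC₁ (N : NLevels Γ) (R : Rep.{0} k Γ) : Prop :=
  ∃ F : Finset (Γ → R.V), ∀ c ∈ cocycles₁ R, IsLC₁ N c →
    ∃ f ∈ F, ∃ r : R.V, ∀ g : Γ, c g = f g + (R.ρ g r - r)

/-- **KB-A2.**  If `A` is smooth and `p`-divisible with `|A[p]| = p`, `colim H¹(U, A) = 0` for
every open subgroup `U` (Hilbert 90) and `(A^U)/p` is finite for every open `U`, then the
level-constant `H¹(Γ, R)` is finite for every finite smooth `p`-torsion module `R`.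
(inflation–restriction to a level `V` acting trivially on `R` and `A[p]`; `Hom_LC(V, A[p])`
injects into `(A^V)/p` by the Kummer map.) -/
def FinH1Spec : Prop :=
  ∀ (kA k Γ : Type) [CommRing kA] [CommRing k] [Group Γ] (N : NLevels Γ) (A : Rep.{0} kA Γ)
    (p : ℕ), p.Prime → IsSmooth N A → IsDivisibleBy A p → Nat.card (tors A p).V = p →
    (∀ U : Subgroup Γ, N.IsOpen U → EffAll (N.restrict U) (Rep.res U.subtype A) 1) →
    PowFinite N A p →
    ∀ R : Rep.{0} k Γ, Finite R.V → (∀ r : R.V, p • r = 0) → IsSmooth N R → FinLC₁ N R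

/-! ## Degree 2: `H²(μ)` is one-dimensional -/

/-- `dim_{𝔽_p} H²_LC(Γ, R) ≤ 1` (elementwise form): any two level-constant 2-cocycles are
linearly dependent modulo coboundaries of level-constant cochains. -/
def DimLC₂Le (N : NLevels Γ) (R : Rep.{0} k Γ) (p : ℕ) : Prop :=
  ∀ c₁ ∈ cocycles₂ R, ∀ c₂ ∈ cocycles₂ R, IsLC₂ N c₁ → IsLC₂ N c₂ →
    ∃ a₁ a₂ : ℤ, (¬ (p : ℤ) ∣ a₁ ∨ ¬ (p : ℤ) ∣ a₂) ∧
      ∃ b : Γ → R.V, IsLC₁ N b ∧ a₁ • c₁ + a₂ • c₂ = (d₁₂ R).hom b

/-- `H²_LC(Γ, R) ≠ 0` (elementwise form). -/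
def DimLC₂Ge (N : NLevels Γ) (R : Rep.{0} k Γ) : Prop :=
  ∃ c ∈ cocycles₂ R, IsLC₂ N c ∧ ¬ ∃ b : Γ → R.V, IsLC₁ N b ∧ c = (d₁₂ R).hom b

/-- **KB-A5a.**  If `A` is smooth and `p`-divisible, `colim H¹(Γ, A) = 0` and every
`H²(Γ/V, A^V)` is cyclic, then `dim H²_LC(Γ, A[p]) ≤ 1`.
(Kummer chase in degree 2: `ker(H²(μ) → H²(A))` is effaceable; the `p`-torsion of a cyclic
group has order `≤ p`.) -/
def DimH2LeSpec : Prop :=
  ∀ (k Γ : Type) [CommRing k] [Group Γ] (N : NLevels Γ) (A : Rep.{0} k Γ) (p : ℕ), p.Prime →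
    IsSmooth N A → IsDivisibleBy A p → Finite (tors A p).V → EffAll N A 1 →
    (∀ V : N.Lvl, IsAddCyclic (HL A V.W 2)) →
      DimLC₂Le N (tors A p) p

/-- **KB-A5b.**  If moreover some `p`-torsion class of `H²(Γ/V, A^V)` is not effaceable, then
`H²_LC(Γ, A[p]) ≠ 0`. -/
def DimH2GeSpec : Prop :=
  ∀ (k Γ : Type) [CommRing k] [Group Γ] (N : NLevels Γ) (A : Rep.{0} k Γ) (p : ℕ), p.Prime →
    IsSmooth N A → IsDivisibleBy A p → Finite (tors A p).V →
    (∃ (V : N.Lvl) (x : HL A V.W 2), p • x = 0 ∧ ¬ IsEff N A 2 V x) →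
      DimLC₂Ge N (tors A p)

end Fermat.Agent.S55.KL

end
-- ===== PACK-END S55/KL/Spec2.lean

-- ===== PACK-BEGIN S55/H572/ResCoind.lean
section


/-!
# Restriction of a module coinduced from the trivial subgroup is again coinduced

For any group `G`, subgroup `H ≤ G` and `A₀ : Rep R (⊥ : Subgroup G)`:
`res H (coind_1^G A₀) ≅ coind_1^H (Fun(G ⧸ H, A₀))` (`resCoindBotIso`).

Consequences (`H` finite for Tate cohomology, arbitrary for group cohomology):
the restriction to **every** subgroup of a module coinduced from the trivial subgroup has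
vanishing (Tate) cohomology.
-/

set_option autoImplicit false

open CategoryTheory groupCohomology groupHomology Rep Limits

universe u

namespace Fermat.Agent.S55.H572

noncomputable section

variable {R G : Type u} [CommRing R] [Group G] (H : Subgroup G)

/-- The `H`-component of `x : G` with respect to the chosen representatives of `G ⧸ H`:
`x = (x H).out * hPart H x`. -/
def hPart (x : G) : H :=
  ⟨(QuotientGroup.mk x : G ⧸ H).out⁻¹ * x,
    QuotientGroup.leftRel_apply.mp (Quotient.exact' (QuotientGroup.out_eq' _))⟩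

lemma out_mul_hPart (x : G) : (QuotientGroup.mk x : G ⧸ H).out * (hPart H x : G) = x := by
  simp [hPart]

lemma mk_out_mul (q : G ⧸ H) (h : H) : (QuotientGroup.mk (q.out * (h : G)) : G ⧸ H) = q := by
  rw [QuotientGroup.mk_mul_of_mem _ h.2, QuotientGroup.out_eq']

lemma hPart_out_mul (q : G ⧸ H) (h : H) : hPart H (q.out * (h : G)) = h := by
  apply Subtype.ext
  simp only [hPart]
  rw [mk_out_mul]
  simp

/-- Coefficients of the restricted coinduced module: functions `G ⧸ H → A₀`. -/
abbrev coeffRes (A₀ : Rep.{u} R (⊥ : Subgroup G)) : Rep.{u} R (⊥ : Subgroup H) :=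
  Rep.trivial R (⊥ : Subgroup H) ((G ⧸ H) → A₀.V)

/-- The underlying linear equivalence of `resCoindBotIso`. -/
def resCoindBotLinearEquiv (A₀ : Rep.{u} R (⊥ : Subgroup G)) :
    (coind (⊥ : Subgroup G).subtype A₀).V ≃ₗ[R]
      (coind (⊥ : Subgroup H).subtype (coeffRes H A₀)).V where
  toFun f := mkCoind (coeffRes H A₀) (fun h q => f.1 (q.out * (h : G)))
  map_add' f g := rfl
  map_smul' r f := rfl
  invFun F := mkCoind A₀ (fun x => F.1 (hPart H x) (QuotientGroup.mk x))
  left_inv f := by
    apply Subtype.ext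
    funext x
    change f.1 ((QuotientGroup.mk x : G ⧸ H).out * (hPart H x : G)) = f.1 x
    rw [out_mul_hPart]
  right_inv F := by
    apply Subtype.ext
    funext h q
    change F.1 (hPart H (q.out * (h : G))) (QuotientGroup.mk (q.out * (h : G))) = F.1 h q
    rw [hPart_out_mul, mk_out_mul]

/-- `res H (coind_1^G A₀) ≅ coind_1^H (Fun(G ⧸ H, A₀))`. -/
def resCoindBotIso (A₀ : Rep.{u} R (⊥ : Subgroup G)) :
    res H.subtype (coind (⊥ : Subgroup G).subtype A₀) ≅
      coind (⊥ : Subgroup H).subtype (coeffRes H A₀) :=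
  Rep.mkIso (Representation.Equiv.mk (resCoindBotLinearEquiv H A₀) (fun h' => by
    apply LinearMap.ext
    intro f
    apply Subtype.ext
    funext h q
    change f.1 (q.out * (h : G) * (h' : G)) = f.1 (q.out * ((h * h' : H) : G))
    rw [Subgroup.coe_mul, mul_assoc]))

/-- Restriction to any subgroup of a module coinduced from the trivial subgroup has vanishing
group cohomology in positive degrees. -/
theorem isZero_groupCohomology_res_coind_bot (A₀ : Rep.{u} R (⊥ : Subgroup G)) (n : ℕ) :
    IsZero (groupCohomology (res H.subtype (coind (⊥ : Subgroup G).subtype A₀)) (n + 1)) :=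
  IsZero.of_iso (IsZero.of_iso (isZero_groupCohomology_succ_of_subsingleton (coeffRes H A₀) n)
      (groupCohomology.coindIso (coeffRes H A₀) (n + 1)))
    ((groupCohomology.functor R H (n + 1)).mapIso (resCoindBotIso H A₀))

/-- Restriction to any finite subgroup of a module coinduced from the trivial subgroup has
vanishing Tate cohomology in all degrees. -/
theorem isZero_tateCohomology_res_coind_bot [Fintype H] (A₀ : Rep.{u} R (⊥ : Subgroup G))
    (n : ℤ) :
    IsZero (tateCohomology (res H.subtype (coind (⊥ : Subgroup G).subtype A₀)) n) :=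
  IsZero.of_iso (isZero_tateCohomology_coind_bot (coeffRes H A₀) n)
    ((tateCohomologyFunctor n).mapIso (resCoindBotIso H A₀))

end

end Fermat.Agent.S55.H572

end
-- ===== PACK-END S55/H572/ResCoind.lean

-- ===== PACK-BEGIN S55/L/H715/Dict1.lean
section




/-!
# S55, layer L : DICTIONARY between the core (`Fermat.Agent.S55.Local`) and the outer layer
(`Fermat.Agent.S55.L`), part 1 : a fixed base `(A, F)`   (helper715)

Core vocabulary (`Local/Defs.lean`): base `(A, F)` (complete DVR with finite residue field and its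
fraction field), `IsInt A F L x`, `intUnits A F L`, `IsUnif A F L ϖ`, `IsUnram A F L K`.
Outer vocabulary (`L/Spec.lean`, `L/SpecInv.lean`): `ValuationSubring`, `IsLocalRingOfIntegers B`,
`B.unitGroup`, `IsUniformizer B π`, `IsUnramifiedExt K L`.

This file: for a finite extension `L / F`
* `intVS A F L : ValuationSubring L`, the ring of integers (integral closure of `A`), with
  `mem_intVS_iff : x ∈ intVS A F L ↔ IsInt A F L x` (by `Iff.rfl`),
* `isLocalRingOfIntegers_intVS : IsLocalRingOfIntegers (intVS A F L)`,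
* `mem_unitGroup_intVS_iff : u ∈ (intVS A F L).unitGroup ↔ u ∈ intUnits A F L`,
* `isUniformizer_intVS_iff : IsUniformizer (intVS A F L) π ↔ IsUnif A F L π`.
-/

set_option autoImplicit false
set_option linter.unusedSectionVars false
set_option linter.style.haveILetI false

namespace Fermat.Agent.S55.L.H715

open Fermat.Agent.S55.Local Fermat.Agent.S55.Local.H715 IsLocalRing

section Base

variable (A F : Type) [CommRing A] [IsDomain A] [IsDiscreteValuationRing A]
  [IsAdicComplete (IsLocalRing.maximalIdeal A) A] [Finite (IsLocalRing.ResidueField A)]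
  [Field F] [CharZero F] [Algebra A F] [IsFractionRing A F]
  (L : Type) [Field L] [Algebra F L] [FiniteDimensional F L]

/-- (= LF1) the integers of a local field form a valuation ring. -/
lemma isInt_or_isInt_inv (x : L) : IsInt A F L x ∨ IsInt A F L x⁻¹ := by
  letI := algAL A F L
  haveI := isScalarTower_algAL A F L
  haveI := isDiscreteValuationRing_OL A F L
  haveI := isFractionRing_OL A F L
  rcases ValuationRing.isInteger_or_isInteger (integralClosure A L) x with ⟨y, hy⟩ | ⟨y, hy⟩
  · left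
    have : (y : L) = x := hy
    rw [← this]
    exact y.2
  · right
    have : (y : L) = x⁻¹ := hy
    rw [← this]
    exact y.2

/-- The ring of integers of `L` (integral closure of `A`) as a valuation subring of `L`. -/
noncomputable def intVS : ValuationSubring L :=
  letI := algAL A F L
  { (integralClosure A L).toSubring with
    mem_or_inv_mem' := fun x => isInt_or_isInt_inv A F L x }

lemma mem_intVS_iff (x : L) : x ∈ intVS A F L ↔ IsInt A F L x := Iff.rfl

/-- The ring of integers is a complete DVR with finite residue field. -/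
theorem isLocalRingOfIntegers_intVS : IsLocalRingOfIntegers (intVS A F L) :=
  letI := algAL A F L
  haveI := isScalarTower_algAL A F L
  ⟨isDiscreteValuationRing_OL A F L, isAdicComplete_OL A F L, finite_residueField_OL A F L⟩

lemma mem_unitGroup_iff_mem_and_inv_mem {M : Type} [Field M] (B : ValuationSubring M) (u : Mˣ) :
    u ∈ B.unitGroup ↔ (u : M) ∈ B ∧ ((u⁻¹ : Mˣ) : M) ∈ B := by
  rw [ValuationSubring.mem_unitGroup_iff, ← ValuationSubring.valuation_le_one_iff,
    ← ValuationSubring.valuation_le_one_iff]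
  constructor
  · intro h
    refine ⟨h.le, ?_⟩
    rw [Units.val_inv_eq_inv_val, map_inv₀, h, inv_one]
  · rintro ⟨h1, h2⟩
    rw [Units.val_inv_eq_inv_val, map_inv₀] at h2
    have hne : B.valuation (u : M) ≠ 0 := (map_ne_zero _).2 u.ne_zero
    refine le_antisymm h1 ?_
    have := (inv_le_one₀ (zero_lt_iff.2 hne)).1 h2
    exact this

/-- Units of the ring of integers: outer `unitGroup` = core `intUnits`. -/
theorem mem_unitGroup_intVS_iff (u : Lˣ) :
    u ∈ (intVS A F L).unitGroup ↔ u ∈ intUnits A F L := by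
  rw [mem_unitGroup_iff_mem_and_inv_mem, mem_intUnits, mem_intVS_iff, mem_intVS_iff]

end Base

section Generic

variable {M : Type} [Field M] (B : ValuationSubring M)

/-- In a valuation subring which is a DVR: `π` is a uniformizer (irreducible element) iff it is
integral, not a unit, and every `x : Mˣ` is a unit times a power of `π`. -/
theorem isUniformizer_iff_aux [IsDiscreteValuationRing B] (π : Mˣ) :
    IsUniformizer B (π : M) ↔
      ((π : M) ∈ B ∧ π ∉ B.unitGroup ∧ ∀ x : Mˣ, ∃ n : ℤ, x * π ^ (-n) ∈ B.unitGroup) := by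
  have hπ0 : B.valuation (π : M) ≠ 0 := (map_ne_zero _).2 π.ne_zero
  constructor
  · rintro ⟨h, hirr⟩
    refine ⟨h, ?_, ?_⟩
    · intro hu
      rw [ValuationSubring.mem_unitGroup_iff] at hu
      exact hirr.not_isUnit ((B.valuation_eq_one_iff ⟨π, h⟩).2 hu)
    · have key : ∀ x : Mˣ, (x : M) ∈ B → ∃ n : ℕ, B.valuation (x : M) = B.valuation (π : M) ^ n := by
        intro x hx
        have hy0 : (⟨x, hx⟩ : B) ≠ 0 := fun h0 => x.ne_zero (congrArg Subtype.val h0)
        obtain ⟨n, u, hu⟩ := IsDiscreteValuationRing.eq_unit_mul_pow_irreducible hy0 hirr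
        refine ⟨n, ?_⟩
        have hx_eq : (x : M) = ((u : B) : M) * (π : M) ^ n := by
          have := congrArg Subtype.val hu
          simpa using this
        have hvu : B.valuation ((u : B) : M) = 1 := (B.valuation_eq_one_iff (u : B)).1 u.isUnit
        rw [hx_eq, map_mul, map_pow, hvu, one_mul]
      intro x
      rcases B.mem_or_inv_mem (x : M) with hx | hx
      · obtain ⟨n, hn⟩ := key x hx
        refine ⟨n, ?_⟩
        rw [ValuationSubring.mem_unitGroup_iff, Units.val_mul, Units.val_zpow_eq_zpow_val, map_mul,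
          map_zpow₀, hn, zpow_neg, zpow_natCast]
        exact mul_inv_cancel₀ (pow_ne_zero _ hπ0)
      · obtain ⟨n, hn⟩ := key x⁻¹ (by rwa [Units.val_inv_eq_inv_val])
        refine ⟨-(n : ℤ), ?_⟩
        rw [Units.val_inv_eq_inv_val, map_inv₀] at hn
        rw [ValuationSubring.mem_unitGroup_iff, Units.val_mul, Units.val_zpow_eq_zpow_val, map_mul,
          map_zpow₀, neg_neg, zpow_natCast, ← hn]
        exact mul_inv_cancel₀ ((map_ne_zero _).2 x.ne_zero)
  · rintro ⟨h, hnu, hall⟩
    refine ⟨h, ?_⟩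
    rw [IsDiscreteValuationRing.irreducible_iff_uniformizer]
    have hvπ : B.valuation (π : M) < 1 :=
      lt_of_le_of_ne ((B.valuation_le_one_iff _).2 h)
        (fun h1 => hnu ((B.mem_unitGroup_iff π).2 h1))
    apply le_antisymm
    · intro y hy
      rw [Ideal.mem_span_singleton]
      by_cases hy0 : y = 0
      · rw [hy0]; exact dvd_zero _
      have hyM : (y : M) ≠ 0 := fun h0 => hy0 (Subtype.ext h0)
      have hvy : B.valuation (y : M) < 1 :=
        (B.mem_nonunits_iff).1 (ValuationSubring.coe_mem_nonunits_iff.2 hy)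
      obtain ⟨n, hn⟩ := hall (Units.mk0 (y : M) hyM)
      rw [ValuationSubring.mem_unitGroup_iff, Units.val_mul, Units.val_zpow_eq_zpow_val, map_mul,
        map_zpow₀, Units.val_mk0, zpow_neg] at hn
      have hvy' : B.valuation (y : M) = B.valuation (π : M) ^ n := by
        have h2 := congrArg (· * B.valuation (π : M) ^ n) hn
        simp only [one_mul] at h2
        rwa [mul_assoc, inv_mul_cancel₀ (zpow_ne_zero _ hπ0), mul_one] at h2
      have hdiv : (y : M) / (π : M) ∈ B := by
        rw [← B.valuation_le_one_iff, map_div₀, hvy']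
        rcases n with k | k
        · rcases k with _ | j
          · exfalso
            rw [hvy'] at hvy
            simp at hvy
          · rw [Int.ofNat_eq_natCast, zpow_natCast, pow_succ,
              mul_div_assoc, div_self hπ0, mul_one]
            exact pow_le_one₀ zero_le hvπ.le
        · exfalso
          rw [hvy', zpow_negSucc] at hvy
          have h3 : B.valuation (π : M) ^ (k + 1) ≤ 1 := pow_le_one₀ zero_le hvπ.le
          have h4 : (1 : B.ValueGroup) ≤ (B.valuation (π : M) ^ (k + 1))⁻¹ :=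
            (one_le_inv₀ (zero_lt_iff.2 (pow_ne_zero _ hπ0))).2 h3
          exact absurd hvy (not_lt.2 h4)
      refine ⟨⟨(y : M) / (π : M), hdiv⟩, Subtype.ext ?_⟩
      show (y : M) = (π : M) * ((y : M) / (π : M))
      field_simp
    · rw [Ideal.span_singleton_le_iff_mem]
      exact ValuationSubring.coe_mem_nonunits_iff.1 ((B.mem_nonunits_iff).2 hvπ)

end Generic

section Base2

variable (A F : Type) [CommRing A] [IsDomain A] [IsDiscreteValuationRing A]
  [IsAdicComplete (IsLocalRing.maximalIdeal A) A] [Finite (IsLocalRing.ResidueField A)]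
  [Field F] [CharZero F] [Algebra A F] [IsFractionRing A F]
  (L : Type) [Field L] [Algebra F L] [FiniteDimensional F L]

/-- Uniformizers: outer `IsUniformizer` = core `IsUnif`. -/
theorem isUniformizer_intVS_iff (π : Lˣ) :
    IsUniformizer (intVS A F L) (π : L) ↔ IsUnif A F L π := by
  haveI : IsDiscreteValuationRing (intVS A F L) := (isLocalRingOfIntegers_intVS A F L).1
  rw [isUniformizer_iff_aux]
  unfold IsUnif
  simp only [mem_unitGroup_intVS_iff, mem_intVS_iff]

end Base2

end Fermat.Agent.S55.L.H715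

end
-- ===== PACK-END S55/L/H715/Dict1.lean

-- ===== PACK-BEGIN S55/Local/H724/Ramification.lean
section


/-!
# S55, layer L, piece LF7 : `RamificationStatement`   (helper724)

`theorem ramification724 : Fermat.Agent.S55.Local.RamificationStatement`.

The proof needs NO structure theory of the ring of integers (no LF0): the two uniformizer
hypotheses `IsUnif` already contain all the valuation theory.  With `n = [L : K]`:

* `ϖK = u' * ϖL ^ e` in `Lˣ` with `u' ∈ U_L`, `e : ℤ`        (`IsUnif ϖL`),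
* `N(ϖL) = u * ϖK ^ m` in `Kˣ` with `u ∈ U_K`, `m : ℤ`        (`IsUnif ϖK`),
* `ϖK ^ n = N(ϖK) = N(u') * N(ϖL) ^ e = N(u') * u ^ e * ϖK ^ (m * e)`, and `N(u') ∈ U_K`
  (norms of integral elements are integral), hence `ϖK ^ (n - m * e) ∈ U_K`, hence `n = m * e`
  because `ϖK` is an integral non-unit,
* `e ≥ 1` because otherwise `ϖK` would be a unit of the ring of integers of `L`, hence of `K`
  (integrality over the base is intrinsic).

By-products (valid for ANY base `A → F`, no DVR hypotheses):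
`isInt_algebraMap_iff724` (integrality is intrinsic), `isInt_norm724`,
`unitsIncl_mem_intUnits_iff724` (= LF3), `normUnits_mem_intUnits724` (= LF8),
`normUnits_unitsIncl724`, `zpow_mem_intUnits724`.
-/

set_option autoImplicit false

namespace Fermat.Agent.S55.Local.H724

open Fermat.Agent.S55.Local

section Basic

variable (A F : Type) [CommRing A] [Field F] [Algebra A F]
variable (K : Type) [Field K] [Algebra F K]
variable (L : Type) [Field L] [Algebra F L] [Algebra K L] [IsScalarTower F K L]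

/-- `toL A F L` factors through `K`. -/
lemma toL_eq_comp724 : toL A F L = (algebraMap K L).comp (toL A F K) := by
  ext a
  simp [toL, IsScalarTower.algebraMap_apply F K L]

/-- Integrality over the base is intrinsic: `y : K` is integral iff its image in `L` is. -/
lemma isInt_algebraMap_iff724 (y : K) :
    IsInt A F L (algebraMap K L y) ↔ IsInt A F K y := by
  unfold IsInt
  rw [toL_eq_comp724 A F K L]
  constructor
  · rintro ⟨p, hp, h⟩
    refine ⟨p, hp, ?_⟩
    rw [← Polynomial.hom_eval₂] at h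
    exact (map_eq_zero_iff _ (algebraMap K L).injective).mp h
  · rintro ⟨p, hp, h⟩
    refine ⟨p, hp, ?_⟩
    rw [← Polynomial.hom_eval₂, h, map_zero]

/-- Powers of integral elements are integral. -/
lemma isInt_pow724 {x : L} (hx : IsInt A F L x) (n : ℕ) : IsInt A F L (x ^ n) := by
  induction n with
  | zero => simpa using isInt_one A F L
  | succ k ih => rw [pow_succ]; exact ih.mul hx

/-- The norm of an integral element is integral. -/
lemma isInt_norm724 {x : L} (hx : IsInt A F L x) :
    IsInt A F K (Algebra.norm K x) := by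
  let _ : Algebra A K := (toL A F K).toAlgebra
  let _ : Algebra A L := (toL A F L).toAlgebra
  have : IsScalarTower A K L := IsScalarTower.of_algebraMap_eq (fun a => by
    show toL A F L a = algebraMap K L (toL A F K a)
    rw [toL_eq_comp724 A F K L]; rfl)
  exact Algebra.isIntegral_norm K (R := A) hx

/-- (= LF3, without any hypothesis on the base) `U_L ∩ Kˣ = U_K`. -/
lemma unitsIncl_mem_intUnits_iff724 (y : Kˣ) :
    unitsIncl L K y ∈ intUnits A F L ↔ y ∈ intUnits A F K := by
  rw [mem_intUnits, mem_intUnits]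
  have h1 : ((unitsIncl L K y : Lˣ) : L) = algebraMap K L (y : K) := rfl
  have h2 : (((unitsIncl L K y)⁻¹ : Lˣ) : L) = algebraMap K L ((y⁻¹ : Kˣ) : K) := by
    rw [← map_inv]; rfl
  rw [h1, h2, isInt_algebraMap_iff724, isInt_algebraMap_iff724]

/-- (= LF8, without any hypothesis on the base) norms of integral units are integral units. -/
lemma normUnits_mem_intUnits724 {x : Lˣ} (hx : x ∈ intUnits A F L) :
    normUnits L K x ∈ intUnits A F K := by
  rw [mem_intUnits] at hx ⊢
  refine ⟨isInt_norm724 A F K L hx.1, ?_⟩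
  have h : (((normUnits L K x)⁻¹ : Kˣ) : K) = Algebra.norm K (((x⁻¹ : Lˣ)) : L) := by
    rw [← map_inv]; rfl
  rw [h]
  exact isInt_norm724 A F K L hx.2

/-- The norm of an element of `K` is its `[L : K]`-th power. -/
lemma normUnits_unitsIncl724 (y : Kˣ) :
    normUnits L K (unitsIncl L K y) = y ^ Module.finrank K L := by
  ext
  simp [Algebra.norm_algebraMap]

end Basic

section Unif

variable (A F : Type) [CommRing A] [Field F] [Algebra A F]
variable (K : Type) [Field K] [Algebra F K]

/-- A positive power of an integral non-unit is not a unit of the ring of integers. -/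
lemma pow_not_mem_intUnits724 {ϖ : Kˣ} (h1 : IsInt A F K (ϖ : K)) (h2 : ϖ ∉ intUnits A F K)
    {n : ℕ} (hn : 0 < n) : ϖ ^ n ∉ intUnits A F K := by
  intro h
  apply h2
  rw [mem_intUnits]
  refine ⟨h1, ?_⟩
  obtain ⟨k, rfl⟩ : ∃ k, n = k + 1 := ⟨n - 1, by omega⟩
  have e : (ϖ⁻¹ : Kˣ) = ϖ ^ k * (ϖ ^ (k + 1))⁻¹ := by
    rw [pow_succ, mul_inv_rev, mul_comm (ϖ⁻¹), ← mul_assoc, mul_inv_cancel, one_mul]
  rw [e, Units.val_mul, Units.val_pow_eq_pow_val]
  exact (isInt_pow724 A F K h1 k).mul ((mem_intUnits A F K).mp h).2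

/-- If an integral power of an integral non-unit is a unit of the ring of integers, the
exponent is zero. -/
lemma zpow_mem_intUnits724 {ϖ : Kˣ} (h1 : IsInt A F K (ϖ : K)) (h2 : ϖ ∉ intUnits A F K)
    {j : ℤ} (hj : ϖ ^ j ∈ intUnits A F K) : j = 0 := by
  by_contra hne
  rcases lt_or_gt_of_ne hne with hlt | hgt
  · have h := (intUnits A F K).inv_mem hj
    rw [← zpow_neg] at h
    obtain ⟨n, hn⟩ : ∃ n : ℕ, -j = (n : ℤ) := ⟨(-j).toNat, by omega⟩
    rw [hn, zpow_natCast] at h
    exact pow_not_mem_intUnits724 A F K h1 h2 (by omega) h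
  · obtain ⟨n, hn⟩ : ∃ n : ℕ, j = (n : ℤ) := ⟨j.toNat, by omega⟩
    rw [hn, zpow_natCast] at hj
    exact pow_not_mem_intUnits724 A F K h1 h2 (by omega) hj

end Unif

/-- **LF7** (`RamificationStatement`): for uniformizers `ϖK`, `ϖL` of local fields `K ⊆ L` there
are `e f : ℕ` with `e * f = [L : K]`, `ϖK ~ ϖL ^ e` and `N_{L/K}(ϖL) ~ ϖK ^ f`.
The proof uses only the two `IsUnif` hypotheses (no hypothesis on the base is needed). -/
theorem ramification_core724 (A F : Type) [CommRing A] [Field F] [Algebra A F]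
    (K : Type) [Field K] [Algebra F K]
    (L : Type) [Field L] [Algebra F L] [Algebra K L] [IsScalarTower F K L]
    [FiniteDimensional K L] (ϖK : Kˣ) (ϖL : Lˣ)
    (hK : IsUnif A F K ϖK) (hL : IsUnif A F L ϖL) :
    ∃ e f : ℕ, e * f = Module.finrank K L ∧
      unitsIncl L K ϖK * ϖL ^ (-(e : ℤ)) ∈ intUnits A F L ∧
      normUnits L K ϖL * ϖK ^ (-(f : ℤ)) ∈ intUnits A F K := by
  obtain ⟨hK1, hK2, hK3⟩ := hK
  obtain ⟨hL1, hL2, hL3⟩ := hL
  obtain ⟨e, he⟩ := hL3 (unitsIncl L K ϖK)
  obtain ⟨m, hm⟩ := hK3 (normUnits L K ϖL)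
  have hnpos : 0 < Module.finrank K L := Module.finrank_pos
  -- the norm relation
  have hN := normUnits_mem_intUnits724 A F K L he
  rw [map_mul, map_zpow, normUnits_unitsIncl724] at hN
  have hme := (intUnits A F K).zpow_mem hm e
  have hprod := (intUnits A F K).mul_mem hN hme
  have hcalc : ϖK ^ Module.finrank K L * normUnits L K ϖL ^ (-e) *
      (normUnits L K ϖL * ϖK ^ (-m)) ^ e = ϖK ^ ((Module.finrank K L : ℤ) - m * e) := by
    rw [mul_zpow, ← zpow_mul, sub_eq_add_neg, zpow_add, zpow_natCast, zpow_neg (normUnits L K ϖL),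
      neg_mul]
    rw [mul_assoc, ← mul_assoc ((normUnits L K ϖL ^ e)⁻¹), inv_mul_cancel, one_mul]
  rw [hcalc] at hprod
  have hrel : (Module.finrank K L : ℤ) = m * e := by
    have := zpow_mem_intUnits724 A F K hK1 hK2 hprod
    omega
  -- `e ≥ 1`
  have hepos : 0 < e := by
    by_contra hle
    have hle : e ≤ 0 := not_lt.mp hle
    apply hK2
    rw [← unitsIncl_mem_intUnits_iff724 A F K L, mem_intUnits]
    refine ⟨(isInt_algebraMap_iff724 A F K L _).mpr hK1, ?_⟩
    obtain ⟨k, hk⟩ : ∃ k : ℕ, -e = (k : ℤ) := ⟨(-e).toNat, by omega⟩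
    have e1 : (unitsIncl L K ϖK)⁻¹ = (unitsIncl L K ϖK * ϖL ^ (-e))⁻¹ * ϖL ^ k := by
      rw [hk, zpow_natCast, mul_inv, mul_assoc, inv_mul_cancel, mul_one]
    rw [e1, Units.val_mul, Units.val_pow_eq_pow_val]
    exact ((mem_intUnits A F L).mp he).2.mul (isInt_pow724 A F L hL1 k)
  have hmpos : 0 < m := by
    by_contra hle
    have hle : m ≤ 0 := not_lt.mp hle
    have : m * e ≤ 0 := mul_nonpos_of_nonpos_of_nonneg hle hepos.le
    omega
  refine ⟨e.toNat, m.toNat, ?_, ?_, ?_⟩
  · have : ((e.toNat * m.toNat : ℕ) : ℤ) = (Module.finrank K L : ℤ) := by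
      rw [Nat.cast_mul, Int.toNat_of_nonneg hepos.le, Int.toNat_of_nonneg hmpos.le, hrel, mul_comm]
    exact_mod_cast this
  · rw [Int.toNat_of_nonneg hepos.le]; exact he
  · rw [Int.toNat_of_nonneg hmpos.le]; exact hm

/-- **LF7** in the exact form of the frozen interface. -/
theorem ramification724 : RamificationStatement := by
  intro A F _ _ _ _ _ _ _ _ _ K _ _ _ L _ _ _ _ _ ϖK ϖL hK hL
  exact ramification_core724 A F K L ϖK ϖL hK hL

/-- **LF3** (`IntUnitsComapStatement`) in the exact form of the frozen interface (by-product). -/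
theorem intUnitsComap724 : IntUnitsComapStatement := by
  intro A F _ _ _ _ _ _ _ _ _ K _ _ _ L _ _ _ _ _ y
  exact unitsIncl_mem_intUnits_iff724 A F K L y

/-- **LF8** (`NormUnitsIntStatement`) in the exact form of the frozen interface (by-product). -/
theorem normUnitsInt724 : NormUnitsIntStatement := by
  intro A F _ _ _ _ _ _ _ _ _ K _ _ _ L _ _ _ _ _ x hx
  exact normUnits_mem_intUnits724 A F K L hx

end Fermat.Agent.S55.Local.H724

end
-- ===== PACK-END S55/Local/H724/Ramification.lean

-- ===== PACK-BEGIN S55/Local/Spec2.lean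
section


/-!
# S55, layer L (local class field theory, cohomological core) : interface, part 2

Additions to the frozen interface `Spec.lean` found necessary in review (helper483, helper244,
helper964, helper64): the proof of the lower bound in T5 uses `|I| = e(N/K)` for the inertia
subgroup `I` of UR6, which `InertiaStatement` alone does not export.

* `IsInertiaSubgroup A F K N I` : the property of `I` in `InertiaStatement`, verbatim.
* `InertiaCardStatement` (UR6') : UR6 together with `ϖK = unit * ϖN ^ |I|` for the SAME `I`.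
  This is the statement the UR6 producers should prove; the T5 glue consumes it.
* `inertiaStatement_of_inertiaCard` : UR6' implies UR6.
* `IsInertiaSubgroup.unique` : a subgroup with the UR6 property is unique.
* `inertiaCard_forall` : UR6' implies the cardinality clause for EVERY subgroup with the UR6
  property (the form used by consumers that already hold some `I` from UR6).
-/

set_option autoImplicit false

namespace Fermat.Agent.S55.Local

/-- The property of the subgroup `I` in `InertiaStatement` (UR6), verbatim: for every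
intermediate field `E` of `N / K`, `N / E` is unramified iff `Gal(N/E) ⊓ I = ⊥`, and `E / K` is
unramified iff `I ≤ Gal(N/E)`. -/
def IsInertiaSubgroup (A F : Type) [CommRing A] [Field F] [Algebra A F]
    (K : Type) [Field K] [Algebra F K]
    (N : Type) [Field N] [Algebra F N] [Algebra K N]
    (I : Subgroup (N ≃ₐ[K] N)) : Prop :=
  ∀ E : IntermediateField K N,
    letI : Algebra F E := ((algebraMap K E).comp (algebraMap F K)).toAlgebra
    (IsUnram A F N E ↔ E.fixingSubgroup ⊓ I = ⊥) ∧
    (IsUnram A F E K ↔ I ≤ E.fixingSubgroup)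

/-- (UR6') inertia with cardinality: UR6, and moreover the order of the inertia subgroup is the
ramification index, i.e. if `ϖK`, `ϖN` are uniformizers of `K`, `N` then
`ϖK = unit * ϖN ^ |I|`. -/
def InertiaCardStatement : Prop :=
  ∀ (A F : Type) [CommRing A] [IsDomain A] [IsDiscreteValuationRing A]
    [IsAdicComplete (IsLocalRing.maximalIdeal A) A] [Finite (IsLocalRing.ResidueField A)]
    [Field F] [CharZero F] [Algebra A F] [IsFractionRing A F]
    (K : Type) [Field K] [Algebra F K] [FiniteDimensional F K]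
    (N : Type) [Field N] [Algebra F N] [Algebra K N] [IsScalarTower F K N]
    [FiniteDimensional K N] [IsGalois K N],
    ∃ I : Subgroup (N ≃ₐ[K] N), I.Normal ∧ IsInertiaSubgroup A F K N I ∧
      ∀ (ϖK : Kˣ) (ϖN : Nˣ), IsUnif A F K ϖK → IsUnif A F N ϖN →
        unitsIncl N K ϖK * ϖN ^ (-(Nat.card I : ℤ)) ∈ intUnits A F N

/-- UR6' implies UR6. -/
theorem inertiaStatement_of_inertiaCard (h : InertiaCardStatement) : InertiaStatement := by
  intro A F _ _ _ _ _ _ _ _ _ K _ _ _ N _ _ _ _ _ _
  obtain ⟨I, hI, hprop, -⟩ := h A F K N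
  exact ⟨I, hI, hprop⟩

/-- A subgroup with the UR6 property is unique (only the second clause is needed). -/
theorem IsInertiaSubgroup.unique {A F : Type} [CommRing A] [Field F] [Algebra A F]
    {K : Type} [Field K] [Algebra F K]
    {N : Type} [Field N] [Algebra F N] [Algebra K N] [FiniteDimensional K N]
    {I I' : Subgroup (N ≃ₐ[K] N)}
    (h : IsInertiaSubgroup A F K N I) (h' : IsInertiaSubgroup A F K N I') : I = I' := by
  have key : ∀ {J J' : Subgroup (N ≃ₐ[K] N)}, IsInertiaSubgroup A F K N J →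
      IsInertiaSubgroup A F K N J' → J ≤ J' := by
    intro J J' hJ hJ'
    have h1 := (hJ' (IntermediateField.fixedField J')).2
    have h2 := (hJ (IntermediateField.fixedField J')).2
    rw [IntermediateField.fixingSubgroup_fixedField] at h1 h2
    exact h2.mp (h1.mpr le_rfl)
  exact le_antisymm (key h h') (key h' h)

/-- UR6' gives the cardinality clause for every subgroup with the UR6 property. -/
theorem inertiaCard_forall (h : InertiaCardStatement)
    (A F : Type) [CommRing A] [IsDomain A] [IsDiscreteValuationRing A]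
    [IsAdicComplete (IsLocalRing.maximalIdeal A) A] [Finite (IsLocalRing.ResidueField A)]
    [Field F] [CharZero F] [Algebra A F] [IsFractionRing A F]
    (K : Type) [Field K] [Algebra F K] [FiniteDimensional F K]
    (N : Type) [Field N] [Algebra F N] [Algebra K N] [IsScalarTower F K N]
    [FiniteDimensional K N] [IsGalois K N] (I : Subgroup (N ≃ₐ[K] N))
    (hI : IsInertiaSubgroup A F K N I) (ϖK : Kˣ) (ϖN : Nˣ)
    (hK : IsUnif A F K ϖK) (hN : IsUnif A F N ϖN) :
    unitsIncl N K ϖK * ϖN ^ (-(Nat.card I : ℤ)) ∈ intUnits A F N := by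
  obtain ⟨I', -, hprop, hcard⟩ := h A F K N
  rw [hI.unique hprop]
  exact hcard ϖK ϖN hK hN

end Fermat.Agent.S55.Local

end
-- ===== PACK-END S55/Local/Spec2.lean

-- ===== PACK-BEGIN S55/Local/H478/FiltKerIm.lean
section



/-!
# S55, layer L, piece A3 (helper478): successive approximation for `ker f ⊆ im g`

`theorem filtKerIm : Fermat.Agent.S55.Local.FiltKerImStatement`.
-/

set_option autoImplicit false

namespace Fermat.Agent.S55.Local.H478

/-- **A3.** Successive approximation for `ker f ⊆ im g`. -/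
theorem filtKerIm : Fermat.Agent.S55.Local.FiltKerImStatement := by
  intro M _ f g Fil _hanti hg hcomplete hsep hfg hstep x hx hfx
  exact approx_exists g Fil Fil f.ker hg (fun m => MonoidHom.mem_ker.mpr (hfg m)) hcomplete hsep
    (fun j c hcZ hcj => hstep j c hcj (MonoidHom.mem_ker.mp hcZ)) x (MonoidHom.mem_ker.mpr hfx) hx

end Fermat.Agent.S55.Local.H478

end
-- ===== PACK-END S55/Local/H478/FiltKerIm.lean

-- ===== PACK-BEGIN S55/Local/H543/UR5.lean
section




/-!
# S55, layer L, piece UR5 (helper543): `ExistsUnramExtStatement`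

For `L / K` finite Galois and `n ≥ 1` the cyclotomic extension `N = L(ζ_m)`, `m = q_L ^ n - 1`,
is Galois over `K`, and unramified of degree `n` over `L`.
-/

set_option autoImplicit false
set_option linter.unusedSectionVars false
set_option linter.unusedVariables false
set_option linter.style.haveILetI false

namespace Fermat.Agent.S55.Local.H543

open IsLocalRing Polynomial

section Aux

variable (A F : Type) [CommRing A] [IsDomain A] [IsDiscreteValuationRing A]
  [IsAdicComplete (IsLocalRing.maximalIdeal A) A] [Finite (IsLocalRing.ResidueField A)]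
  [Field F] [CharZero F] [Algebra A F] [IsFractionRing A F]
  (L : Type) [Field L] [Algebra F L] [FiniteDimensional F L]
  [Algebra A L] [IsScalarTower A F L]

/-- The residue cardinality of the integers of `L`. -/
noncomputable def qL : ℕ :=
  haveI := isLocalRing_integralClosure A F L
  qq (integralClosure A L)

/-- `m = q_L ^ n - 1`. -/
noncomputable def mL (n : ℕ) : ℕ := qL A F L ^ n - 1

theorem mL_pos (n : ℕ) (hn : 0 < n) : 0 < mL A F L n := by
  haveI := isLocalRing_integralClosure A F L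
  haveI := finite_residueField_integralClosure A F L
  exact mm_pos (integralClosure A L) n hn

/-- Elements of the ring of integers of `N` over `integralClosure A L` are integral over `A`. -/
theorem isIntegralElem_of_mem (N : Type) [Field N] [Algebra L N]
    (x : N) (hx : ((algebraMap L N).comp (algebraMap (integralClosure A L) L)).IsIntegralElem x) :
    ((algebraMap L N).comp (algebraMap A L)).IsIntegralElem x := by
  letI : Algebra A N := ((algebraMap L N).comp (algebraMap A L)).toAlgebra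
  haveI : IsScalarTower A L N := IsScalarTower.of_algebraMap_eq (fun _ => rfl)
  have h1 : IsIntegral (integralClosure A L) x := hx
  have h2 : IsIntegral A x := isIntegral_trans x h1
  exact h2

theorem cyclo_unram (n : ℕ) (hn : 0 < n) (N : Type) [Field N] [Algebra L N]
    [IsCyclotomicExtension {mL A F L n} L N] :
    Module.finrank L N = n ∧
    ∀ x : N, x ≠ 0 → ∃ y : L, y ≠ 0 ∧
      ((algebraMap L N).comp (algebraMap A L)).IsIntegralElem (x * (algebraMap L N y)⁻¹) ∧
      ((algebraMap L N).comp (algebraMap A L)).IsIntegralElem (x⁻¹ * algebraMap L N y) := by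
  haveI : CharZero L := charZero_of_injective_algebraMap (algebraMap F L).injective
  haveI hRloc : IsLocalRing (integralClosure A L) := isLocalRing_integralClosure A F L
  haveI : IsDiscreteValuationRing (integralClosure A L) :=
    isDiscreteValuationRing_integralClosure A F L
  haveI : IsAdicComplete (maximalIdeal (integralClosure A L)) (integralClosure A L) :=
    isAdicComplete_integralClosure A F L
  haveI : Finite (ResidueField (integralClosure A L)) :=
    finite_residueField_integralClosure A F L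
  haveI : IsFractionRing (integralClosure A L) L := isFractionRing_integralClosure A F L
  have hm : 0 < mL A F L n := mL_pos A F L n hn
  haveI : NeZero (mL A F L n) := ⟨hm.ne'⟩
  haveI : FiniteDimensional L N := IsCyclotomicExtension.finiteDimensional {mL A F L n} L N
  haveI hSloc : IsLocalRing (integralClosure (integralClosure A L) N) :=
    isLocalRing_integralClosure (integralClosure A L) L N
  haveI : IsDiscreteValuationRing (integralClosure (integralClosure A L) N) :=
    isDiscreteValuationRing_integralClosure (integralClosure A L) L N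
  haveI : Module.Finite (integralClosure A L) (integralClosure (integralClosure A L) N) :=
    finite_integralClosure (integralClosure A L) L N
  haveI : IsLocalHom (algebraMap (integralClosure A L) (integralClosure (integralClosure A L) N)) :=
    isLocalHom_integralClosure (integralClosure A L) L N
  haveI : IsFractionRing (integralClosure (integralClosure A L) N) N :=
    isFractionRing_integralClosure (integralClosure A L) L N
  haveI : IsCyclotomicExtension {mm (integralClosure A L) n} L N := ‹_›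
  obtain ⟨hdeg, hmap⟩ := cyclo_unram_core (integralClosure A L)
    (integralClosure (integralClosure A L) N) L N n hn
  refine ⟨hdeg, ?_⟩
  obtain ⟨ϖ, hϖ⟩ := IsDiscreteValuationRing.exists_irreducible (integralClosure A L)
  have hπ : Irreducible (algebraMap (integralClosure A L)
      (integralClosure (integralClosure A L) N) ϖ) := by
    rw [IsDiscreteValuationRing.irreducible_iff_uniformizer, ← hmap,
      (IsDiscreteValuationRing.irreducible_iff_uniformizer ϖ).1 hϖ, Ideal.map_span,
      Set.image_singleton]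
  intro x hx
  obtain ⟨a, b, hb, hab⟩ :=
    IsFractionRing.div_surjective (A := integralClosure (integralClosure A L) N) x
  have hb0 : b ≠ 0 := nonZeroDivisors.ne_zero hb
  have ha0 : a ≠ 0 := by
    rintro rfl
    rw [map_zero, zero_div] at hab
    exact hx hab.symm
  obtain ⟨i, u, hu⟩ := IsDiscreteValuationRing.eq_unit_mul_pow_irreducible ha0 hπ
  obtain ⟨j, v, hv⟩ := IsDiscreteValuationRing.eq_unit_mul_pow_irreducible hb0 hπ
  have hp0 : algebraMap (integralClosure A L) L ϖ ≠ 0 := by
    intro h0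
    exact hϖ.ne_zero ((IsFractionRing.injective (integralClosure A L) L)
      (by rw [h0, map_zero]))
  have hP : algebraMap (integralClosure (integralClosure A L) N) N
      (algebraMap (integralClosure A L) (integralClosure (integralClosure A L) N) ϖ) =
      algebraMap L N (algebraMap (integralClosure A L) L ϖ) := by
    rw [← IsScalarTower.algebraMap_apply, ← IsScalarTower.algebraMap_apply]
  have hP0 : algebraMap L N (algebraMap (integralClosure A L) L ϖ) ≠ 0 := by
    rw [Ne, map_eq_zero]; exact hp0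
  have hU0 : algebraMap (integralClosure (integralClosure A L) N) N (u : _) ≠ 0 := by
    rw [Ne, map_eq_zero_iff _ (IsFractionRing.injective _ N)]; exact u.ne_zero
  have hV0 : algebraMap (integralClosure (integralClosure A L) N) N (v : _) ≠ 0 := by
    rw [Ne, map_eq_zero_iff _ (IsFractionRing.injective _ N)]; exact v.ne_zero
  have hx' : x = (algebraMap (integralClosure (integralClosure A L) N) N u *
      algebraMap L N (algebraMap (integralClosure A L) L ϖ) ^ i) /
      (algebraMap (integralClosure (integralClosure A L) N) N v *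
      algebraMap L N (algebraMap (integralClosure A L) L ϖ) ^ j) := by
    rw [← hab, hu, hv, map_mul, map_mul, map_pow, map_pow, hP]
  refine ⟨algebraMap (integralClosure A L) L ϖ ^ i / algebraMap (integralClosure A L) L ϖ ^ j,
    div_ne_zero (pow_ne_zero _ hp0) (pow_ne_zero _ hp0), ?_, ?_⟩
  · apply isIntegralElem_of_mem A L N
    have h1 : x * (algebraMap L N (algebraMap (integralClosure A L) L ϖ ^ i /
        algebraMap (integralClosure A L) L ϖ ^ j))⁻¹ =
        algebraMap (integralClosure (integralClosure A L) N) N ((u * v⁻¹ : _ˣ) : _) := by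
      have hv1 : algebraMap (integralClosure (integralClosure A L) N) N ((v⁻¹ : _ˣ) : _) =
          (algebraMap (integralClosure (integralClosure A L) N) N (v : _))⁻¹ := by
        exact eq_inv_of_mul_eq_one_left (by rw [← map_mul, Units.inv_mul, map_one])
      rw [Units.val_mul, map_mul, hv1, hx', map_div₀, map_pow, map_pow]
      field_simp
    rw [h1]
    exact (IsIntegralClosure.isIntegral (integralClosure A L) N _).algebraMap
  · apply isIntegralElem_of_mem A L N
    have h1 : x⁻¹ * algebraMap L N (algebraMap (integralClosure A L) L ϖ ^ i /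
        algebraMap (integralClosure A L) L ϖ ^ j) =
        algebraMap (integralClosure (integralClosure A L) N) N ((v * u⁻¹ : _ˣ) : _) := by
      have hu1 : algebraMap (integralClosure (integralClosure A L) N) N ((u⁻¹ : _ˣ) : _) =
          (algebraMap (integralClosure (integralClosure A L) N) N (u : _))⁻¹ := by
        exact eq_inv_of_mul_eq_one_left (by rw [← map_mul, Units.inv_mul, map_one])
      rw [Units.val_mul, map_mul, hu1, hx', map_div₀, map_pow, map_pow]
      field_simp
    rw [h1]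
    exact (IsIntegralClosure.isIntegral (integralClosure A L) N _).algebraMap

end Aux

/-- **UR5**: existence of unramified extensions on top of a given Galois extension. -/
theorem existsUnramExt : ExistsUnramExtStatement := by
  intro A F _ _ _ _ _ _ _ _ _ K _ _ _ L _ _ _ _ _ _ n hn
  letI algAL : Algebra A L := (toL A F L).toAlgebra
  haveI : IsScalarTower A F L := IsScalarTower.of_algebraMap_eq (fun _ => rfl)
  haveI : FiniteDimensional F L := FiniteDimensional.trans F K L
  haveI : CharZero K := charZero_of_injective_algebraMap (algebraMap F K).injective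
  haveI : CharZero L := charZero_of_injective_algebraMap (algebraMap F L).injective
  have hm : 0 < mL A F L n := mL_pos A F L n hn
  haveI : NeZero (mL A F L n) := ⟨hm.ne'⟩
  haveI : NeZero ((mL A F L n : ℕ) : L) := ⟨Nat.cast_ne_zero.2 hm.ne'⟩
  haveI tFKN : IsScalarTower F K (CyclotomicField (mL A F L n) L) :=
    IsScalarTower.of_algebraMap_eq (fun x => by
      rw [IsScalarTower.algebraMap_apply F L (CyclotomicField (mL A F L n) L),
        IsScalarTower.algebraMap_apply K L (CyclotomicField (mL A F L n) L),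
        ← IsScalarTower.algebraMap_apply F K L])
  haveI : IsCyclotomicExtension {mL A F L n} L (CyclotomicField (mL A F L n) L) :=
    CyclotomicField.isCyclotomicExtension _ _
  haveI : FiniteDimensional L (CyclotomicField (mL A F L n) L) :=
    IsCyclotomicExtension.finiteDimensional {mL A F L n} L _
  haveI fdKN : FiniteDimensional K (CyclotomicField (mL A F L n) L) :=
    FiniteDimensional.trans K L _
  haveI galKN : IsGalois K (CyclotomicField (mL A F L n) L) := by
    obtain ⟨p, hpsep, hp⟩ := IsGalois.is_separable_splitting_field K L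
    haveI := hp
    have hp0 : p ≠ 0 := hpsep.ne_zero
    have hX0 : (X ^ (mL A F L n) - 1 : K[X]) ≠ 0 := X_pow_sub_C_ne_zero hm (1 : K)
    haveI hsp : Polynomial.IsSplittingField L (CyclotomicField (mL A F L n) L)
        ((X ^ (mL A F L n) - 1 : K[X]).map (algebraMap K L)) := by
      have h1 : (X ^ (mL A F L n) - 1 : K[X]).map (algebraMap K L) = X ^ (mL A F L n) - 1 := by
        simp
      rw [h1]
      exact IsCyclotomicExtension.isSplittingField_X_pow_sub_one (mL A F L n) L _
    haveI : Polynomial.IsSplittingField K (CyclotomicField (mL A F L n) L)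
        (p * (X ^ (mL A F L n) - 1)) :=
      Polynomial.IsSplittingField.mul (K := L) _ p (X ^ (mL A F L n) - 1) hp0 hX0
    haveI : Normal K (CyclotomicField (mL A F L n) L) :=
      Normal.of_isSplittingField (p * (X ^ (mL A F L n) - 1))
    exact IsGalois.mk
  obtain ⟨hdeg, hunr⟩ := cyclo_unram A F L n hn (CyclotomicField (mL A F L n) L)
  refine ⟨CyclotomicField (mL A F L n) L, inferInstance, inferInstance, inferInstance,
    inferInstance, tFKN, inferInstance, inferInstance, fdKN, galKN, ?_, hdeg⟩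
  have hcomp : toL A F (CyclotomicField (mL A F L n) L) =
      (algebraMap L (CyclotomicField (mL A F L n) L)).comp (algebraMap A L) := by
    ext a
    show algebraMap F (CyclotomicField (mL A F L n) L) (algebraMap A F a) =
      algebraMap L (CyclotomicField (mL A F L n) L) (algebraMap F L (algebraMap A F a))
    rw [← IsScalarTower.algebraMap_apply F L (CyclotomicField (mL A F L n) L)]
  intro x
  obtain ⟨y, hy0, h1, h2⟩ := hunr (x : CyclotomicField (mL A F L n) L) x.ne_zero
  refine ⟨Units.mk0 y hy0, ?_⟩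
  rw [mem_intUnits]
  constructor
  · have : ((x * (unitsIncl (CyclotomicField (mL A F L n) L) L (Units.mk0 y hy0))⁻¹ :
        (CyclotomicField (mL A F L n) L)ˣ) : CyclotomicField (mL A F L n) L) =
        (x : CyclotomicField (mL A F L n) L) *
          (algebraMap L (CyclotomicField (mL A F L n) L) y)⁻¹ := by
      simp
    rw [this]
    show (toL A F (CyclotomicField (mL A F L n) L)).IsIntegralElem _
    rw [hcomp]
    exact h1
  · have : (((x * (unitsIncl (CyclotomicField (mL A F L n) L) L (Units.mk0 y hy0))⁻¹)⁻¹ :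
        (CyclotomicField (mL A F L n) L)ˣ) : CyclotomicField (mL A F L n) L) =
        (x : CyclotomicField (mL A F L n) L)⁻¹ *
          (algebraMap L (CyclotomicField (mL A F L n) L) y) := by
      simp [mul_comm]
    rw [this]
    show (toL A F (CyclotomicField (mL A F L n) L)).IsIntegralElem _
    rw [hcomp]
    exact h2

end Fermat.Agent.S55.Local.H543

end
-- ===== PACK-END S55/Local/H543/UR5.lean

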