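import Mathlib
import Fermat.Prelude.Def_ExtEndgame_ProductionDatum
import Fermat.Prelude.Def_FLTPrelim_Ramification
import Fermat.Agent.Pack.S56.E0L1
import Fermat.Agent.Pack.S56.E3L3
import Fermat.Agent.Pack.S56.E3L1
import Fermat.Agent.Pack.S56.E0L0
import Fermat.Agent.Pack.S56.E0L2
import Fermat.Agent.Pack.S56.E3L0
import Fermat.Agent.Pack.S56.E1L1
import Fermat.Agent.Pack.S56.E3L2
import Fermat.Agent.Pack.S56.E4L1
import Fermat.Agent.Pack.S56.E4L2
import Fermat.Agent.Pack.S56.E4L0
import Fermat.Agent.Pack.S56.E1L0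
import Fermat.Agent.Pack.S56.E1L3

-- ===== PACK-BEGIN Lib/Cheb/H993/Glue.lean
section



/-!
# Piece `M` of CHEB: the finite-level Frobenius density theorem from `Z`, `B0`, `A`, `D`

`frobFinite : PrimeSumStatement → PrimeCountBoundStatement → CountStatement → FrobStatement →
  FrobFiniteStatement`.
-/

set_option autoImplicit false

namespace Fermat.Agent.Lib.Cheb.H993

open NumberField
open scoped Pointwise Classical
open Fermat.Agent.Lib.Cheb

noncomputable section

variable (L : Type) [Field L] [NumberField L]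

/-- The primes of `𝓞 L` above `p` whose decomposition group is exactly `X`. -/
def primesEq (X : Subgroup (L ≃ₐ[ℚ] L)) (p : ℕ) : Set (Ideal (𝓞 L)) :=
  {P | P.IsPrime ∧ (p : 𝓞 L) ∈ P ∧ Spec.decomp L P = X}

/-- `|D_P|`. -/
def dcard (P : Ideal (𝓞 L)) : ℕ := Nat.card (Spec.decomp L P)

theorem finite_above {p : ℕ} (hp : p ≠ 0) : {P : Ideal (𝓞 L) | (p : 𝓞 L) ∈ P}.Finite := by
  refine (Ideal.finite_setOfPred_absNorm_le (S := 𝓞 L) (p ^ Module.finrank ℤ (𝓞 L))).subset ?_
  intro P hP
  have hle : Ideal.span {(p : 𝓞 L)} ≤ P := (Ideal.span_singleton_le_iff_mem P).mpr hP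
  have hdvd := Ideal.absNorm_dvd_absNorm_of_le hle
  rw [Ideal.absNorm_span_natCast] at hdvd
  exact Nat.le_of_dvd (pow_pos (Nat.pos_of_ne_zero hp) _) hdvd

theorem finite_primesEq (X : Subgroup (L ≃ₐ[ℚ] L)) {p : ℕ} (hp : p ≠ 0) :
    (primesEq L X p).Finite :=
  (finite_above L hp).subset fun _ h => h.2.1

theorem finite_primesLe (H : Subgroup (L ≃ₐ[ℚ] L)) {p : ℕ} (hp : p ≠ 0) :
    (Spec.primesLe L H p).Finite :=
  (finite_above L hp).subset fun _ h => h.2.1

/-- The weight of the subgroup `X` at `p`. -/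
def wt (X : Subgroup (L ≃ₐ[ℚ] L)) (p : ℕ) : ℕ := ∑ᶠ P ∈ primesEq L X p, dcard L P

theorem decompWeight_eq (H : Subgroup (L ≃ₐ[ℚ] L)) (p : ℕ) :
    Spec.decompWeight L H p = ∑ᶠ P ∈ Spec.primesLe L H p, dcard L P := by
  unfold Spec.decompWeight dcard
  exact finsum_set_coe_eq_finsum_mem (s := Spec.primesLe L H p)
    (f := fun P => Nat.card (Spec.decomp L P))

variable [IsGalois ℚ L]

theorem primesLe_eq_iUnion (H : Subgroup (L ≃ₐ[ℚ] L)) (p : ℕ) :
    Spec.primesLe L H p = ⋃ X ∈ (below H : Set (Subgroup (L ≃ₐ[ℚ] L))), primesEq L X p := by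
  ext P
  simp only [Spec.primesLe, primesEq, Set.mem_iUnion, Finset.mem_coe, mem_below,
    Set.mem_ofPred_eq, exists_prop]
  constructor
  · rintro ⟨h1, h2, h3⟩
    exact ⟨_, h3, h1, h2, rfl⟩
  · rintro ⟨X, hX, h1, h2, h3⟩
    exact ⟨h1, h2, h3 ▸ hX⟩

theorem decompWeight_eq_sum (H : Subgroup (L ≃ₐ[ℚ] L)) {p : ℕ} (hp : p ≠ 0) :
    Spec.decompWeight L H p = ∑ X ∈ below H, wt L X p := by
  rw [decompWeight_eq, primesLe_eq_iUnion, finsum_mem_biUnion]
  · exact finsum_mem_coe_finset (fun X => ∑ᶠ P ∈ primesEq L X p, dcard L P) (below H)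
  · intro X _ Y _ hXY
    rw [Function.onFun, Set.disjoint_left]
    intro P hPX hPY
    exact hXY (hPX.2.2.symm.trans hPY.2.2)
  · exact (below H).finite_toSet
  · intro X _
    exact finite_primesEq L X hp

theorem exists_of_wt_pos {X : Subgroup (L ≃ₐ[ℚ] L)} {p : ℕ} (h : 0 < wt L X p) :
    ∃ P : Ideal (𝓞 L), P.IsPrime ∧ (p : 𝓞 L) ∈ P ∧ Spec.decomp L P = X := by
  by_contra hcon
  have hempty : primesEq L X p = ∅ := by
    ext P
    simp only [primesEq, Set.mem_ofPred_eq, Set.mem_empty_iff_false, iff_false]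
    exact fun hP => hcon ⟨P, hP⟩
  unfold wt at h
  rw [hempty] at h
  simp at h

theorem wt_le_decompWeight_top (X : Subgroup (L ≃ₐ[ℚ] L)) {p : ℕ} (hp : p ≠ 0) :
    wt L X p ≤ Spec.decompWeight L ⊤ p := by
  rw [decompWeight_eq_sum L ⊤ hp]
  exact Finset.single_le_sum (f := fun X => wt L X p) (fun _ _ => Nat.zero_le _)
    (mem_below.mpr le_top)

/-- **Piece M.** -/
theorem frobFinite (hZ : Spec.PrimeSumStatement) (hB0 : Spec.PrimeCountBoundStatement)
    (hA : Spec.CountStatement) (hD : Spec.FrobStatement) : Spec.FrobFiniteStatement := by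
  intro L _ _ _ σ S
  haveI : Fintype (Subgroup (L ≃ₐ[ℚ] L)) := Fintype.ofFinite _
  -- bad primes
  choose BA hBA using fun H : Subgroup (L ≃ₐ[ℚ] L) => hA L H
  obtain ⟨BD, hBD⟩ := hD L
  let Bad : Finset ℕ := Finset.univ.biUnion BA
  have hBad : ∀ (H : Subgroup (L ≃ₐ[ℚ] L)) (p : ℕ), p ∉ Bad → p ∉ BA H := by
    intro H p hp hpH
    exact hp (Finset.mem_biUnion.mpr ⟨H, Finset.mem_univ _, hpH⟩)
  -- weights
  let v : Subgroup (L ≃ₐ[ℚ] L) → ℕ → ℝ := fun X p =>
    if p.Prime ∧ p ∉ Bad then (wt L X p : ℝ) else 0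
  let K : ℝ := (Module.finrank ℚ (IntermediateField.fixedField (⊤ : Subgroup (L ≃ₐ[ℚ] L))) : ℝ) *
    (Nat.card (⊤ : Subgroup (L ≃ₐ[ℚ] L)) : ℝ)
  have hv0 : ∀ X p, 0 ≤ v X p := by
    intro X p
    simp only [v]
    split_ifs
    · exact Nat.cast_nonneg _
    · exact le_rfl
  have hK0 : 0 ≤ K := by positivity
  have hvK : ∀ X p, v X p ≤ K := by
    intro X p
    simp only [v]
    split_ifs with h
    · have h1 := wt_le_decompWeight_top L X h.1.ne_zero
      have h2 := hBA ⊤ p h.1 (hBad ⊤ p h.2)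
      have h3 := hB0 (IntermediateField.fixedField (⊤ : Subgroup (L ≃ₐ[ℚ] L))) p
      have h4 : wt L X p ≤ Module.finrank ℚ (IntermediateField.fixedField
          (⊤ : Subgroup (L ≃ₐ[ℚ] L))) * Nat.card (⊤ : Subgroup (L ≃ₐ[ℚ] L)) := by
        rw [← h2] at h1
        exact h1.trans (Nat.mul_le_mul_right _ h3)
      simp only [K]
      exact_mod_cast h4
    · exact hK0
  -- the hypothesis of the induction
  have hW : ∀ H : Subgroup (L ≃ₐ[ℚ] L),
      LogAsymp (pSum (fun p => ∑ X ∈ below H, v X p)) (Nat.card H) := by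
    intro H
    set F := IntermediateField.fixedField H with hF
    obtain ⟨C, hC⟩ := hZ F
    -- full prime sum of `primeCount F`
    have h1 : LogAsymp (pSum (fun p => (Spec.primeCount F p : ℝ))) 1 := by
      refine ⟨C, fun s hs1 hs2 => ?_⟩
      rw [one_mul]
      exact hC s hs1 hs2
    -- the part supported on the bad primes
    let b : ℕ → ℝ := fun p => if p ∈ Bad then (Spec.primeCount F p : ℝ) else 0
    have hb0 : ∀ p, 0 ≤ b p := fun p => by
      simp only [b]; split_ifs
      · exact Nat.cast_nonneg _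
      · exact le_rfl
    have hbK : ∀ p, b p ≤ (Module.finrank ℚ F : ℝ) := fun p => by
      simp only [b]; split_ifs
      · exact_mod_cast hB0 F p
      · exact Nat.cast_nonneg _
    have h2 : LogAsymp (pSum b) 0 :=
      LogAsymp.zero_of_bounded (K := (Module.finrank ℚ F : ℝ) * Bad.card) fun s hs1 _ =>
        abs_pSum_le_of_support Bad hb0 hbK (fun p hp => by simp [b, hp]) hs1
    have h3 := (h1.sub h2).const_mul (Nat.card H : ℝ)
    rw [sub_zero, mul_one] at h3
    refine h3.congr fun s hs1 _ => ?_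
    -- pointwise identity of the coefficients at primes
    have hc0 : ∀ p, 0 ≤ (Spec.primeCount F p : ℝ) := fun p => Nat.cast_nonneg _
    have hcK : ∀ p, (Spec.primeCount F p : ℝ) ≤ (Module.finrank ℚ F : ℝ) := fun p => by
      exact_mod_cast hB0 F p
    have hs1' := summable_pSum hc0 hcK hs1
    have hs2' := summable_pSum hb0 hbK hs1
    unfold pSum
    rw [← Summable.tsum_sub hs1' hs2', ← tsum_mul_left]
    congr 1
    funext p
    by_cases hp : (p : ℕ) ∈ Bad
    · have hv : ∀ X, v X p = 0 := fun X => by simp [v, hp]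
      simp [hv, b, hp]
    · have hv : ∀ X, v X p = (wt L X p : ℝ) := fun X => by simp [v, hp, p.2]
      have h5 := decompWeight_eq_sum L H p.2.ne_zero
      have h6 := hBA H p p.2 (hBad H p hp)
      simp only [hv, b, hp, if_false, sub_zero]
      rw [← Nat.cast_sum, ← h5, ← h6]
      push_cast
      ring
  -- apply the induction to `X = zpowers σ`
  have hgens : 0 < gens (Subgroup.zpowers σ) := by
    unfold gens
    haveI : Nonempty {x : L ≃ₐ[ℚ] L // Subgroup.zpowers x = Subgroup.zpowers σ} := ⟨⟨σ, rfl⟩⟩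
    exact Nat.card_pos
  obtain ⟨p, hp, hpS, hpos⟩ :=
    exists_pos_of_gens_pos v K hv0 hvK hW (Subgroup.zpowers σ) hgens (S ∪ Bad ∪ BD)
  have hpS' : p ∉ S := fun h => hpS (Finset.mem_union_left _ (Finset.mem_union_left _ h))
  have hpBad : p ∉ Bad := fun h => hpS (Finset.mem_union_left _ (Finset.mem_union_right _ h))
  have hpBD : p ∉ BD := fun h => hpS (Finset.mem_union_right _ h)
  have hwt : 0 < wt L (Subgroup.zpowers σ) p := by
    have : v (Subgroup.zpowers σ) p = (wt L (Subgroup.zpowers σ) p : ℝ) := by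
      simp [v, hp, hpBad]
    rw [this] at hpos
    exact_mod_cast hpos
  obtain ⟨P, hP, hpP, hdec⟩ := exists_of_wt_pos L hwt
  obtain ⟨hin, τ, hτ, hτd⟩ := hBD p hp hpBD P hP hpP
  exact ⟨p, P, τ, hp, hpS', hP, hpP, hin, hτ, hτd.symm.trans hdec⟩

end

end Fermat.Agent.Lib.Cheb.H993

end
-- ===== PACK-END Lib/Cheb/H993/Glue.lean

-- ===== PACK-BEGIN S56/H134/Cotangent.lean
section




/-!
# S56, tangent-space step (pure commutative algebra)

`R` a complete Noetherian local `𝒪`-algebra with the same residue field `k` as `𝒪`.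
If the set of `𝒪`-algebra maps `R → k[ε]` injects into a set with at most `|k| ^ r` elements,
then `R` is a quotient of `𝒪⟦X₁,…,X_r⟧`.

Main results: `relCotangent_dual_injection`, `exists_surjective_of_finrank_relCotangent_le`,
`exists_surjective_of_card_algHom_le`, `exists_surjective_of_injective_algHom`.
-/

set_option autoImplicit false
set_option linter.unusedSectionVars false

namespace Fermat.Agent.S56.H134

open IsLocalRing

noncomputable section

section Setup

variable (𝒪 : Type) [CommRing 𝒪] [IsLocalRing 𝒪]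
variable (R : Type) [CommRing R] [IsLocalRing R] [Algebra 𝒪 R]

/-- The image of `𝔪_𝒪 R` in the cotangent space of `R`, as a subspace over the residue field. -/
def relSub : Submodule (ResidueField R) (CotangentSpace R) where
  carrier := {c | ∃ z : maximalIdeal R,
    (z : R) ∈ Ideal.map (algebraMap 𝒪 R) (maximalIdeal 𝒪) ∧ (maximalIdeal R).toCotangent z = c}
  add_mem' := by
    rintro _ _ ⟨z, hz, rfl⟩ ⟨w, hw, rfl⟩
    exact ⟨z + w, Ideal.add_mem _ hz hw, map_add _ _ _⟩
  zero_mem' := ⟨0, Ideal.zero_mem _, map_zero _⟩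
  smul_mem' := by
    rintro c _ ⟨z, hz, rfl⟩
    obtain ⟨r, rfl⟩ := residue_surjective c
    refine ⟨r • z, ?_, ?_⟩
    · simpa using Ideal.mul_mem_left _ r hz
    · rw [map_smul]
      exact (algebraMap_smul (ResidueField R) r ((maximalIdeal R).toCotangent z)).symm

/-- The relative cotangent space `𝔪_R / (𝔪_𝒪 R + 𝔪_R²)`. -/
abbrev RelCotangent : Type := CotangentSpace R ⧸ relSub 𝒪 R

/-- The projection `𝔪_R → 𝔪_R / (𝔪_𝒪 R + 𝔪_R²)`. -/
def toRel (z : maximalIdeal R) : RelCotangent 𝒪 R :=
  Submodule.Quotient.mk ((maximalIdeal R).toCotangent z)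

variable {𝒪 R}

theorem toRel_add (z w : maximalIdeal R) : toRel 𝒪 R (z + w) = toRel 𝒪 R z + toRel 𝒪 R w := by
  simp [toRel]

theorem toRel_zero : toRel 𝒪 R 0 = 0 := by simp [toRel]

theorem toRel_sub (z w : maximalIdeal R) : toRel 𝒪 R (z - w) = toRel 𝒪 R z - toRel 𝒪 R w := by
  simp [toRel]

theorem toRel_smul (r : R) (z : maximalIdeal R) :
    toRel 𝒪 R (r • z) = residue R r • toRel 𝒪 R z := by
  unfold toRel
  rw [map_smul, ← algebraMap_smul (ResidueField R) r ((maximalIdeal R).toCotangent z)]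
  rfl

theorem toRel_surjective : Function.Surjective (toRel 𝒪 R) := by
  intro v
  obtain ⟨c, rfl⟩ := Submodule.Quotient.mk_surjective _ v
  obtain ⟨z, rfl⟩ := (maximalIdeal R).toCotangent_surjective c
  exact ⟨z, rfl⟩

theorem toRel_eq_zero_iff (z : maximalIdeal R) :
    toRel 𝒪 R z = 0 ↔
      (z : R) ∈ Ideal.map (algebraMap 𝒪 R) (maximalIdeal 𝒪) ⊔ maximalIdeal R ^ 2 := by
  unfold toRel
  rw [Submodule.Quotient.mk_eq_zero]
  constructor
  · rintro ⟨w, hw, hwz⟩
    rw [Ideal.toCotangent_eq] at hwz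
    have : (z : R) = w - (w - z) := by ring
    rw [this]
    exact Ideal.sub_mem _ (Ideal.mem_sup_left hw) (Ideal.mem_sup_right hwz)
  · intro hz
    obtain ⟨a, ha, b, hb, hab⟩ := Submodule.mem_sup.mp hz
    have ham : a ∈ maximalIdeal R := by
      have : a = z - b := by rw [← hab]; ring
      rw [this]
      exact Ideal.sub_mem _ z.2 (Ideal.pow_le_self two_ne_zero hb)
    refine ⟨⟨a, ham⟩, ha, ?_⟩
    rw [Ideal.toCotangent_eq]
    have : ((⟨a, ham⟩ : maximalIdeal R) : R) - z = -b := by
      rw [← hab]; simp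
    rw [this]
    exact Ideal.neg_mem_iff _ |>.mpr hb

theorem toRel_of_mem_map (z : maximalIdeal R)
    (hz : (z : R) ∈ Ideal.map (algebraMap 𝒪 R) (maximalIdeal 𝒪)) : toRel 𝒪 R z = 0 :=
  (toRel_eq_zero_iff z).mpr (Ideal.mem_sup_left hz)

theorem toRel_of_mem_sq (z : maximalIdeal R) (hz : (z : R) ∈ maximalIdeal R ^ 2) :
    toRel 𝒪 R z = 0 :=
  (toRel_eq_zero_iff z).mpr (Ideal.mem_sup_right hz)

end Setup

section Hom

variable {𝒪 : Type} [CommRing 𝒪] [IsLocalRing 𝒪]
variable {R : Type} [CommRing R] [IsLocalRing R] [Algebra 𝒪 R] [IsLocalHom (algebraMap 𝒪 R)]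

theorem residueFieldMap_bijective
    (hres : Function.Surjective (IsLocalRing.residue R ∘ algebraMap 𝒪 R)) :
    Function.Bijective (ResidueField.map (algebraMap 𝒪 R)) := by
  refine ⟨RingHom.injective _, fun y => ?_⟩
  obtain ⟨a, ha⟩ := hres y
  exact ⟨residue 𝒪 a, by rw [ResidueField.map_residue]; exact ha⟩

/-- The identification of residue fields `k_𝒪 ≃ k_R`. -/
def resEquiv (hres : Function.Surjective (IsLocalRing.residue R ∘ algebraMap 𝒪 R)) :
    ResidueField 𝒪 ≃+* ResidueField R :=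
  RingEquiv.ofBijective (ResidueField.map (algebraMap 𝒪 R)) (residueFieldMap_bijective hres)

theorem resEquiv_residue
    (hres : Function.Surjective (IsLocalRing.residue R ∘ algebraMap 𝒪 R)) (a : 𝒪) :
    resEquiv hres (residue 𝒪 a) = residue R (algebraMap 𝒪 R a) := by
  simp [resEquiv, ResidueField.map_residue]

/-- The reduction map `R → k_𝒪`. -/
def redMap (hres : Function.Surjective (IsLocalRing.residue R ∘ algebraMap 𝒪 R)) :
    R →+* ResidueField 𝒪 :=
  ((resEquiv hres).symm : ResidueField R →+* ResidueField 𝒪).comp (residue R)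

theorem redMap_apply
    (hres : Function.Surjective (IsLocalRing.residue R ∘ algebraMap 𝒪 R)) (x : R) :
    redMap hres x = (resEquiv hres).symm (residue R x) := rfl

theorem redMap_algebraMap
    (hres : Function.Surjective (IsLocalRing.residue R ∘ algebraMap 𝒪 R)) (a : 𝒪) :
    redMap hres (algebraMap 𝒪 R a) = residue 𝒪 a := by
  rw [redMap_apply, ← resEquiv_residue hres, RingEquiv.symm_apply_apply]

theorem redMap_eq_zero_iff
    (hres : Function.Surjective (IsLocalRing.residue R ∘ algebraMap 𝒪 R)) (x : R) :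
    redMap hres x = 0 ↔ x ∈ maximalIdeal R := by
  rw [redMap_apply, map_eq_zero_iff _ (resEquiv hres).symm.injective, residue_eq_zero_iff]

theorem sub_algebraMap_mem
    (hres : Function.Surjective (IsLocalRing.residue R ∘ algebraMap 𝒪 R)) {x : R} {a : 𝒪}
    (ha : residue 𝒪 a = redMap hres x) : x - algebraMap 𝒪 R a ∈ maximalIdeal R := by
  rw [← redMap_eq_zero_iff hres, map_sub, redMap_algebraMap, ha, sub_self]

/-- A set-theoretic lift `R → 𝒪` of the reduction map. -/
def liftO (hres : Function.Surjective (IsLocalRing.residue R ∘ algebraMap 𝒪 R)) (x : R) : 𝒪 :=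
  Classical.choose (residue_surjective (redMap hres x))

theorem residue_liftO
    (hres : Function.Surjective (IsLocalRing.residue R ∘ algebraMap 𝒪 R)) (x : R) :
    residue 𝒪 (liftO hres x) = redMap hres x :=
  Classical.choose_spec (residue_surjective (redMap hres x))

/-- The universal relative "derivation" `R → 𝔪_R / (𝔪_𝒪 R + 𝔪_R²)`. -/
def relD (hres : Function.Surjective (IsLocalRing.residue R ∘ algebraMap 𝒪 R)) (x : R) :
    RelCotangent 𝒪 R :=
  toRel 𝒪 R ⟨x - algebraMap 𝒪 R (liftO hres x), sub_algebraMap_mem hres (residue_liftO hres x)⟩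

theorem algebraMap_mem_map_of_residue_eq_zero {d : 𝒪} (hd : residue 𝒪 d = 0) :
    algebraMap 𝒪 R d ∈ Ideal.map (algebraMap 𝒪 R) (maximalIdeal 𝒪) :=
  Ideal.mem_map_of_mem _ ((residue_eq_zero_iff d).mp hd)

/-- `relD` may be computed with any lift. -/
theorem relD_eq (hres : Function.Surjective (IsLocalRing.residue R ∘ algebraMap 𝒪 R))
    {x : R} {a : 𝒪} (ha : residue 𝒪 a = redMap hres x) :
    relD hres x = toRel 𝒪 R ⟨x - algebraMap 𝒪 R a, sub_algebraMap_mem hres ha⟩ := by
  unfold relD
  rw [← sub_eq_zero, ← toRel_sub]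
  apply toRel_of_mem_map
  have h0 : residue 𝒪 (a - liftO hres x) = 0 := by
    rw [map_sub, ha, residue_liftO, sub_self]
  have := algebraMap_mem_map_of_residue_eq_zero (R := R) h0
  convert this using 1
  simp only [AddSubgroupClass.coe_sub, map_sub]
  ring

theorem relD_of_mem (hres : Function.Surjective (IsLocalRing.residue R ∘ algebraMap 𝒪 R))
    (z : maximalIdeal R) : relD hres (z : R) = toRel 𝒪 R z := by
  have h0 : residue 𝒪 (0 : 𝒪) = redMap hres (z : R) := by
    rw [map_zero, eq_comm, redMap_eq_zero_iff]; exact z.2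
  rw [relD_eq hres h0]
  congr 1
  ext
  simp

theorem relD_algebraMap (hres : Function.Surjective (IsLocalRing.residue R ∘ algebraMap 𝒪 R))
    (a : 𝒪) : relD hres (algebraMap 𝒪 R a) = 0 := by
  rw [relD_eq hres (redMap_algebraMap hres a).symm]
  have : (⟨algebraMap 𝒪 R a - algebraMap 𝒪 R a,
      sub_algebraMap_mem hres (redMap_algebraMap hres a).symm⟩ : maximalIdeal R) = 0 := by
    ext; simp
  rw [this, toRel_zero]

theorem relD_add (hres : Function.Surjective (IsLocalRing.residue R ∘ algebraMap 𝒪 R))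
    (x y : R) : relD hres (x + y) = relD hres x + relD hres y := by
  have ha : residue 𝒪 (liftO hres x + liftO hres y) = redMap hres (x + y) := by
    rw [map_add, map_add, residue_liftO, residue_liftO]
  rw [relD_eq hres ha]
  unfold relD
  rw [← toRel_add]
  congr 1
  ext
  simp only [map_add, AddMemClass.mk_add_mk]
  ring

theorem relD_mul (hres : Function.Surjective (IsLocalRing.residue R ∘ algebraMap 𝒪 R))
    (x y : R) :
    relD hres (x * y) = residue R x • relD hres y + residue R y • relD hres x := by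
  have ha : residue 𝒪 (liftO hres x * liftO hres y) = redMap hres (x * y) := by
    rw [map_mul, map_mul, residue_liftO, residue_liftO]
  rw [relD_eq hres ha]
  have hx := sub_algebraMap_mem hres (residue_liftO hres x)
  have hy := sub_algebraMap_mem hres (residue_liftO hres y)
  have hxres : residue R x = residue R (algebraMap 𝒪 R (liftO hres x)) := by
    rw [← sub_eq_zero, ← map_sub, residue_eq_zero_iff]; exact hx
  rw [hxres]
  unfold relD
  rw [← toRel_smul, ← toRel_smul, ← toRel_add]
  congr 1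
  ext
  simp only [map_mul, Submodule.coe_add, Submodule.coe_smul, smul_eq_mul]
  ring

theorem relD_one (hres : Function.Surjective (IsLocalRing.residue R ∘ algebraMap 𝒪 R)) :
    relD hres (1 : R) = 0 := by
  have := relD_algebraMap hres (1 : 𝒪)
  rwa [map_one] at this

theorem relD_zero (hres : Function.Surjective (IsLocalRing.residue R ∘ algebraMap 𝒪 R)) :
    relD hres (0 : R) = 0 := by
  have := relD_algebraMap hres (0 : 𝒪)
  rwa [map_zero] at this

theorem resEquiv_symm_residue
    (hres : Function.Surjective (IsLocalRing.residue R ∘ algebraMap 𝒪 R)) (x : R) :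
    (resEquiv hres).symm (residue R x) = redMap hres x := rfl

/-- The `𝒪`-algebra map `R → k[ε]` attached to a functional on the relative cotangent space. -/
def homOfDual (hres : Function.Surjective (IsLocalRing.residue R ∘ algebraMap 𝒪 R))
    (l : Module.Dual (ResidueField R) (RelCotangent 𝒪 R)) :
    @AlgHom 𝒪 R (DualNumber (ResidueField 𝒪)) _ _ _ _ (Fermat.Agent.S53.dualAlgebra 𝒪) :=
  letI := Fermat.Agent.S53.dualAlgebra 𝒪
  { toFun := fun x => TrivSqZeroExt.inl (redMap hres x) +
      TrivSqZeroExt.inr ((resEquiv hres).symm (l (relD hres x)))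
    map_one' := by
      rw [relD_one, map_zero, map_zero, map_one, TrivSqZeroExt.inr_zero, add_zero]
      rfl
    map_mul' := fun x y => by
      apply TrivSqZeroExt.ext
      · simp
      · simp only [relD_mul, map_add, map_smul, smul_eq_mul, map_mul, resEquiv_symm_residue,
          TrivSqZeroExt.snd_add, TrivSqZeroExt.snd_inl, TrivSqZeroExt.snd_inr, zero_add,
          TrivSqZeroExt.snd_mul, TrivSqZeroExt.fst_add, TrivSqZeroExt.fst_inl,
          TrivSqZeroExt.fst_inr, add_zero, MulOpposite.smul_eq_mul_unop, MulOpposite.unop_op]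
        ring
    map_zero' := by
      rw [relD_zero, map_zero, map_zero, map_zero, TrivSqZeroExt.inr_zero, add_zero]
      rfl
    map_add' := fun x y => by
      apply TrivSqZeroExt.ext
      · simp
      · simp [relD_add]
    commutes' := fun a => by
      rw [relD_algebraMap, map_zero, map_zero, TrivSqZeroExt.inr_zero, add_zero,
        redMap_algebraMap, Fermat.Agent.S53.dualAlgebra_algebraMap_apply,
        TrivSqZeroExt.algebraMap_eq_inl] }

theorem homOfDual_apply (hres : Function.Surjective (IsLocalRing.residue R ∘ algebraMap 𝒪 R))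
    (l : Module.Dual (ResidueField R) (RelCotangent 𝒪 R)) (x : R) :
    homOfDual hres l x = TrivSqZeroExt.inl (redMap hres x) +
      TrivSqZeroExt.inr ((resEquiv hres).symm (l (relD hres x))) := rfl

theorem homOfDual_injective
    (hres : Function.Surjective (IsLocalRing.residue R ∘ algebraMap 𝒪 R)) :
    Function.Injective (homOfDual (𝒪 := 𝒪) (R := R) hres) := by
  intro l l' h
  apply LinearMap.ext
  intro v
  obtain ⟨z, rfl⟩ := toRel_surjective v
  have h1 := congrArg TrivSqZeroExt.snd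
    (congrArg (fun φ : @AlgHom 𝒪 R (DualNumber (ResidueField 𝒪)) _ _ _ _
      (Fermat.Agent.S53.dualAlgebra 𝒪) => φ (z : R)) h)
  simp only [homOfDual_apply, TrivSqZeroExt.snd_add, TrivSqZeroExt.snd_inl,
    TrivSqZeroExt.snd_inr, zero_add, relD_of_mem] at h1
  exact (resEquiv hres).symm.injective h1

end Hom

section Main

variable {𝒪 : Type} [CommRing 𝒪] [IsLocalRing 𝒪] [IsNoetherianRing 𝒪]
  [IsAdicComplete (maximalIdeal 𝒪) 𝒪]
variable {R : Type} [CommRing R] [IsLocalRing R] [IsNoetherianRing R]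
  [IsAdicComplete (maximalIdeal R) R] [Algebra 𝒪 R] [IsLocalHom (algebraMap 𝒪 R)]

/-- If `x i ∈ 𝔪_R` have classes spanning the relative cotangent space, then they generate
`𝔪_R` modulo `𝔪_𝒪 R + 𝔪_R²`. -/
theorem maximalIdeal_le_of_span_toRel_eq_top {r : ℕ} (x : Fin r → maximalIdeal R)
    (hspan : Submodule.span (ResidueField R) (Set.range fun i => toRel 𝒪 R (x i)) = ⊤) :
    maximalIdeal R ≤ Ideal.map (algebraMap 𝒪 R) (maximalIdeal 𝒪) ⊔
      Ideal.span (Set.range fun i => (x i : R)) ⊔ maximalIdeal R ^ 2 := by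
  set J : Ideal R := Ideal.map (algebraMap 𝒪 R) (maximalIdeal 𝒪) ⊔
      Ideal.span (Set.range fun i => (x i : R)) ⊔ maximalIdeal R ^ 2 with hJ
  have hle : Ideal.map (algebraMap 𝒪 R) (maximalIdeal 𝒪) ⊔ maximalIdeal R ^ 2 ≤ J := by
    rw [hJ]
    exact sup_le (le_sup_of_le_left le_sup_left) le_sup_right
  have hxJ : ∀ i, (x i : R) ∈ J := fun i =>
    Ideal.mem_sup_left (Ideal.mem_sup_right (Ideal.subset_span ⟨i, rfl⟩))
  have key : ∀ w ∈ Submodule.span (ResidueField R) (Set.range fun i => toRel 𝒪 R (x i)),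
      ∀ z : maximalIdeal R, toRel 𝒪 R z = w → (z : R) ∈ J := by
    intro w hw
    induction hw using Submodule.span_induction with
    | mem w hw =>
      obtain ⟨i, rfl⟩ := hw
      intro z hz
      have h0 : toRel 𝒪 R (z - x i) = 0 := by rw [toRel_sub, hz, sub_self]
      have h1 := hle ((toRel_eq_zero_iff _).mp h0)
      have : (z : R) = ((z - x i : maximalIdeal R) : R) + x i := by simp
      rw [this]
      exact Ideal.add_mem _ h1 (hxJ i)
    | zero =>
      intro z hz
      exact hle ((toRel_eq_zero_iff _).mp hz)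
    | add w₁ w₂ _ _ ih₁ ih₂ =>
      intro z hz
      obtain ⟨z₁, hz₁⟩ := toRel_surjective w₁
      have h2 : toRel 𝒪 R (z - z₁) = w₂ := by rw [toRel_sub, hz, hz₁, add_sub_cancel_left]
      have : (z : R) = z₁ + ((z - z₁ : maximalIdeal R) : R) := by simp
      rw [this]
      exact Ideal.add_mem _ (ih₁ z₁ hz₁) (ih₂ _ h2)
    | smul c w₁ _ ih =>
      intro z hz
      obtain ⟨z₁, hz₁⟩ := toRel_surjective w₁
      obtain ⟨r₀, rfl⟩ := residue_surjective c
      have h0 : toRel 𝒪 R (z - r₀ • z₁) = 0 := by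
        rw [toRel_sub, toRel_smul, hz, hz₁, sub_self]
      have h1 := hle ((toRel_eq_zero_iff _).mp h0)
      have : (z : R) = ((z - r₀ • z₁ : maximalIdeal R) : R) + r₀ * z₁ := by simp
      rw [this]
      exact Ideal.add_mem _ h1 (Ideal.mul_mem_left _ _ (ih z₁ hz₁))
  intro y hy
  exact key (toRel 𝒪 R ⟨y, hy⟩) (by rw [hspan]; exact Submodule.mem_top) ⟨y, hy⟩ rfl

/-- **Cotangent criterion.** If the relative cotangent space of `R` over `𝒪` has dimension at
most `r`, then `R` is a quotient of `𝒪⟦X₁,…,X_r⟧`. -/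
theorem exists_surjective_of_finrank_relCotangent_le
    (hres : Function.Surjective (IsLocalRing.residue R ∘ algebraMap 𝒪 R)) (r : ℕ)
    (hd : Module.finrank (ResidueField R) (RelCotangent 𝒪 R) ≤ r) :
    ∃ γ : MvPowerSeries (Fin r) 𝒪 →ₐ[𝒪] R, Function.Surjective γ := by
  classical
  set d := Module.finrank (ResidueField R) (RelCotangent 𝒪 R) with hd'
  let b := Module.finBasis (ResidueField R) (RelCotangent 𝒪 R)
  let v : Fin r → RelCotangent 𝒪 R := fun j => if h : (j : ℕ) < d then b ⟨j, h⟩ else 0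
  have hv : Submodule.span (ResidueField R) (Set.range v) = ⊤ := by
    rw [eq_top_iff, ← b.span_eq]
    apply Submodule.span_mono
    rintro _ ⟨i, rfl⟩
    refine ⟨⟨i, lt_of_lt_of_le i.2 hd⟩, ?_⟩
    simp only [v]
    rw [dif_pos i.2]
  choose x hx using fun j => toRel_surjective (𝒪 := 𝒪) (R := R) (v j)
  have hspan : Submodule.span (ResidueField R) (Set.range fun i => toRel 𝒪 R (x i)) = ⊤ := by
    have : (fun i => toRel 𝒪 R (x i)) = v := funext hx
    rw [this, hv]
  obtain ⟨φ, hφ, -⟩ := Fermat.Agent.S53.H596.exists_surjective_algHom_of_generators_mod_sq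
    (R := 𝒪) (A := R) inferInstance hres (fun i => (x i : R)) (fun i => (x i).2)
    (maximalIdeal_le_of_span_toRel_eq_top x hspan)
  exact ⟨φ, hφ⟩

/-- **Counting criterion.** If the `𝒪`-algebra maps `R → k[ε]` inject into a finite set with at
most `|k| ^ r` elements, then `R` is a quotient of `𝒪⟦X₁,…,X_r⟧`. -/
theorem exists_surjective_of_injective_algHom [Finite (ResidueField 𝒪)]
    (hres : Function.Surjective (IsLocalRing.residue R ∘ algebraMap 𝒪 R)) (r : ℕ)
    (T : Type) [Finite T] (hT : Nat.card T ≤ Nat.card (ResidueField 𝒪) ^ r)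
    (e : (@AlgHom 𝒪 R (DualNumber (ResidueField 𝒪)) _ _ _ _
      (Fermat.Agent.S53.dualAlgebra 𝒪)) → T) (he : Function.Injective e) :
    ∃ γ : MvPowerSeries (Fin r) 𝒪 →ₐ[𝒪] R, Function.Surjective γ := by
  apply exists_surjective_of_finrank_relCotangent_le hres r
  have hfinK : Finite (ResidueField R) := Finite.of_equiv _ (resEquiv hres).toEquiv
  have hcardK : Nat.card (ResidueField R) = Nat.card (ResidueField 𝒪) :=
    (Nat.card_congr (resEquiv hres).toEquiv).symm
  have h1 : Nat.card (Module.Dual (ResidueField R) (RelCotangent 𝒪 R)) ≤ Nat.card T :=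
    Nat.card_le_card_of_injective (fun l => e (homOfDual hres l))
      (he.comp (homOfDual_injective hres))
  have h2 : Nat.card (Module.Dual (ResidueField R) (RelCotangent 𝒪 R)) =
      Nat.card (ResidueField 𝒪) ^ Module.finrank (ResidueField R) (RelCotangent 𝒪 R) := by
    rw [Module.natCard_eq_pow_finrank (K := ResidueField R), Subspace.dual_finrank_eq, hcardK]
  have hk : 1 < Nat.card (ResidueField 𝒪) := Finite.one_lt_card
  rw [h2] at h1
  exact (Nat.pow_le_pow_iff_right hk).mp (h1.trans hT)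

/-- **Counting criterion, `Nat.card` form.** -/
theorem exists_surjective_of_card_algHom_le [Finite (ResidueField 𝒪)]
    (hres : Function.Surjective (IsLocalRing.residue R ∘ algebraMap 𝒪 R)) (r : ℕ)
    (hfin : Finite (@AlgHom 𝒪 R (DualNumber (ResidueField 𝒪)) _ _ _ _
      (Fermat.Agent.S53.dualAlgebra 𝒪)))
    (hcard : Nat.card (@AlgHom 𝒪 R (DualNumber (ResidueField 𝒪)) _ _ _ _
      (Fermat.Agent.S53.dualAlgebra 𝒪)) ≤ Nat.card (ResidueField 𝒪) ^ r) :
    ∃ γ : MvPowerSeries (Fin r) 𝒪 →ₐ[𝒪] R, Function.Surjective γ :=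
  exists_surjective_of_injective_algHom hres r _ hcard id Function.injective_id

end Main

end

end Fermat.Agent.S56.H134

end
-- ===== PACK-END S56/H134/Cotangent.lean

-- ===== PACK-BEGIN S55/BLocal/Prime.lean
section



/-!
# S55, layer B-local: Prelude wrappers

The image of `primeLocalToGlobal q` is the decomposition group of `primeLocalPlace q`; a cochain
condition on the local group is therefore a condition on the decomposition group.
-/

set_option autoImplicit false
set_option linter.style.haveILetI false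

open scoped Pointwise
open ExtCitation

namespace Fermat.Agent.S55.BLocal

/-- The image of the local Galois group at `q` in `Gal(ℚ̄/ℚ)` is the decomposition group of the
`q`-adic place. -/
theorem range_primeLocalToGlobal (q : Nat.Primes) :
    (primeLocalToGlobal q).range = (primeLocalPlace q).decompositionSubgroup ℚ := by
  haveI : Fact (q : ℕ).Prime := ⟨q.2⟩
  exact range_localGaloisToGlobal (q : ℕ)

theorem primeLocalToGlobal_mem (q : Nat.Primes) (τ : primeLocalGaloisGroup q) :
    primeLocalToGlobal q τ ∈ (primeLocalPlace q).decompositionSubgroup ℚ := by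
  rw [← range_primeLocalToGlobal]
  exact ⟨τ, rfl⟩

theorem exists_primeLocalToGlobal_eq (q : Nat.Primes) (σ : GQ)
    (hσ : σ ∈ (primeLocalPlace q).decompositionSubgroup ℚ) :
    ∃ τ : primeLocalGaloisGroup q, primeLocalToGlobal q τ = σ := by
  rw [← range_primeLocalToGlobal] at hσ
  exact hσ

/-- The `q`-adic place lies over `q`. -/
theorem primeLocalPlace_liesOver (q : Nat.Primes) : (primeLocalPlace q).LiesOverPrime (q : ℕ) := by
  haveI : Fact (q : ℕ).Prime := ⟨q.2⟩
  show ((q : ℕ) : Qb) ∈ (padicPlace (q : ℕ)).nonunits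
  rw [ValuationSubring.mem_nonunits_iff_exists_mem_maximalIdeal]
  have hq1 : (1 : ℝ) < (q : ℕ) := by exact_mod_cast q.2.one_lt
  have hlt : qnorm (q : ℕ) ((q : ℕ) : Qb) < 1 := by
    rw [qnorm_natCast_self]
    exact inv_lt_one_of_one_lt₀ hq1
  have hmem : ((q : ℕ) : Qb) ∈ padicPlace (q : ℕ) :=
    (mem_padicPlace_iff_qnorm (q : ℕ) _).mpr hlt.le
  refine ⟨hmem, ?_⟩
  rw [IsLocalRing.mem_maximalIdeal, mem_nonunits_iff]
  intro hu
  obtain ⟨u, hu⟩ := hu
  have hinv : (((u⁻¹ : (padicPlace (q : ℕ))ˣ) : padicPlace (q : ℕ)) : Qb) * ((q : ℕ) : Qb) = 1 := by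
    have h1 : ((u⁻¹ : (padicPlace (q : ℕ))ˣ) : padicPlace (q : ℕ)) * (u : padicPlace (q : ℕ)) = 1 :=
      Units.inv_mul u
    rw [hu] at h1
    exact congrArg Subtype.val h1
  have h2 := congrArg (qnorm (q : ℕ)) hinv
  rw [qnorm_mul] at h2
  have h3 : qnorm (q : ℕ) (1 : Qb) = 1 := by
    unfold qnorm
    rw [map_one, norm_one]
  rw [h3] at h2
  have h4 : qnorm (q : ℕ) (((u⁻¹ : (padicPlace (q : ℕ))ˣ) : padicPlace (q : ℕ)) : Qb) ≤ 1 :=
    (mem_padicPlace_iff_qnorm (q : ℕ) _).mp (Subtype.property _)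
  have h5 := qnorm_nonneg (q : ℕ) ((q : ℕ) : Qb)
  nlinarith

end Fermat.Agent.S55.BLocal

end
-- ===== PACK-END S55/BLocal/Prime.lean

-- ===== PACK-BEGIN S37/H700/Arch.lean
section



/-!
# S37 / R-a, helper700: valuation rings of `ℚ̄` over a prime have archimedean value group

`L` a field of characteristic zero, algebraic over `ℚ`; `A` a valuation subring lying over the
prime `ℓ`.  Then

* `exists_pow_le_prime` : for a non-unit `a` of `A` some power `a ^ n` is divisible by `ℓ`;
* `exists_prime_pow_le` : every `d ≠ 0` divides some power of `ℓ`;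
* **`archVal_of_liesOverPrime`** : `ArchVal A` (the hypothesis of `Cic.lean`).
-/

set_option autoImplicit false

noncomputable section

namespace Fermat.Agent.S37.H700

open Polynomial Fermat.Agent.S14.H366

variable {L : Type*} [Field L] [CharZero L] [Algebra.IsAlgebraic ℚ L]
  (A : ValuationSubring L) {ℓ : ℕ}

omit [CharZero L] [Algebra.IsAlgebraic ℚ L] in
theorem val_int_le_prime (n : ℤ) (hn : (ℓ : ℤ) ∣ n) :
    A.valuation (n : L) ≤ A.valuation (ℓ : L) := by
  obtain ⟨m, rfl⟩ := hn
  push_cast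
  rw [map_mul]
  calc A.valuation (ℓ : L) * A.valuation (m : L)
      ≤ A.valuation (ℓ : L) * 1 := by gcongr; exact val_int_le_one m
    _ = A.valuation (ℓ : L) := mul_one _

/-- every element is a root of a primitive integer polynomial -/
theorem exists_primitive_aeval_eq_zero (x : L) :
    ∃ p : ℤ[X], p.IsPrimitive ∧ p ≠ 0 ∧ aeval x p = 0 := by
  have halg : IsAlgebraic ℤ x :=
    (IsFractionRing.isAlgebraic_iff ℤ ℚ L).mpr (Algebra.IsAlgebraic.isAlgebraic x)
  obtain ⟨f, hf0, hfx⟩ := halg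
  refine ⟨f.primPart, f.isPrimitive_primPart, Polynomial.primPart_ne_zero f, ?_⟩
  have h1 : f = C f.content * f.primPart := f.eq_C_content_mul_primPart
  rw [h1, map_mul, aeval_C] at hfx
  rcases mul_eq_zero.mp hfx with h | h
  · exfalso
    have : f.content = 0 := by simpa using h
    exact hf0 (Polynomial.content_eq_zero_iff.mp this)
  · exact h

/-- a power of a non-unit is divisible by `ℓ` -/
theorem exists_pow_le_prime (hℓ : ℓ.Prime) (hA : A.LiesOverPrime ℓ) (a : L)
    (ha : a ∈ A.nonunits) : ∃ n : ℕ, A.valuation a ^ n ≤ A.valuation (ℓ : L) := by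
  classical
  by_cases ha0 : a = 0
  · refine ⟨1, ?_⟩
    rw [ha0, map_zero, pow_one]
    exact zero_le
  have hav : A.valuation a < 1 := (ValuationSubring.mem_nonunits_iff (A := A)).mp ha
  have hav0 : 0 < A.valuation a := zero_lt_iff.mpr ((Valuation.ne_zero_iff _).mpr ha0)
  obtain ⟨p, hprim, hp0, hpa⟩ := exists_primitive_aeval_eq_zero a
  have hex : ∃ i, ¬ (ℓ : ℤ) ∣ p.coeff i := by
    by_contra hcon
    push Not at hcon
    have hdvd : C (ℓ : ℤ) ∣ p := by
      rw [Polynomial.C_dvd_iff_dvd_coeff]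
      exact hcon
    have hu := hprim _ hdvd
    have := Int.isUnit_iff.mp hu
    have h2 := hℓ.two_le
    omega
  set i₀ := Nat.find hex with hi₀
  have hi₀spec : ¬ (ℓ : ℤ) ∣ p.coeff i₀ := Nat.find_spec hex
  have hi₀min : ∀ i, i < i₀ → (ℓ : ℤ) ∣ p.coeff i := fun i hi => by
    by_contra h
    exact Nat.find_min hex hi h
  refine ⟨i₀, ?_⟩
  have hi₀le : i₀ ≤ p.natDegree := by
    by_contra h
    push Not at h
    apply hi₀spec
    rw [Polynomial.coeff_eq_zero_of_natDegree_lt h]
    exact dvd_zero _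
  -- split the sum
  have hsum : ∑ i ∈ Finset.range (p.natDegree + 1), ((p.coeff i : ℤ) : L) * a ^ i = 0 := by
    have := hpa
    rw [Polynomial.aeval_eq_sum_range] at this
    simpa [zsmul_eq_mul] using this
  have hmem : i₀ ∈ Finset.range (p.natDegree + 1) := Finset.mem_range.mpr (by omega)
  rw [← Finset.add_sum_erase _ _ hmem] at hsum
  have hT : ((p.coeff i₀ : ℤ) : L) * a ^ i₀ =
      -∑ i ∈ (Finset.range (p.natDegree + 1)).erase i₀, ((p.coeff i : ℤ) : L) * a ^ i :=
    eq_neg_of_add_eq_zero_left hsum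
  have hvT : A.valuation (((p.coeff i₀ : ℤ) : L) * a ^ i₀) = A.valuation a ^ i₀ := by
    rw [map_mul, map_pow, val_int_eq_one hℓ hA _ hi₀spec, one_mul]
  have hbound : ∀ i ∈ (Finset.range (p.natDegree + 1)).erase i₀,
      A.valuation (((p.coeff i : ℤ) : L) * a ^ i) ≤
        max (A.valuation (ℓ : L)) (A.valuation a ^ (i₀ + 1)) := by
    intro i hi
    have hne : i ≠ i₀ := (Finset.mem_erase.mp hi).1
    rw [map_mul, map_pow]
    rcases Nat.lt_or_gt_of_ne hne with hlt | hgt
    · refine le_max_of_le_left ?_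
      calc A.valuation ((p.coeff i : ℤ) : L) * A.valuation a ^ i
          ≤ A.valuation (ℓ : L) * 1 :=
            mul_le_mul' (val_int_le_prime A _ (hi₀min i hlt)) (pow_le_one₀ zero_le hav.le)
        _ = A.valuation (ℓ : L) := mul_one _
    · refine le_max_of_le_right ?_
      calc A.valuation ((p.coeff i : ℤ) : L) * A.valuation a ^ i
          ≤ 1 * A.valuation a ^ (i₀ + 1) :=
            mul_le_mul' (val_int_le_one _)
              (pow_le_pow_of_le_one zero_le hav.le (Nat.succ_le_of_lt hgt))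
        _ = A.valuation a ^ (i₀ + 1) := one_mul _
  have hvR : A.valuation (∑ i ∈ (Finset.range (p.natDegree + 1)).erase i₀,
      ((p.coeff i : ℤ) : L) * a ^ i) ≤ max (A.valuation (ℓ : L)) (A.valuation a ^ (i₀ + 1)) :=
    Valuation.map_sum_le _ hbound
  rw [← hvT, hT, Valuation.map_neg]
  have hlt : A.valuation a ^ (i₀ + 1) < A.valuation a ^ i₀ := by
    rw [pow_succ]
    calc A.valuation a ^ i₀ * A.valuation a < A.valuation a ^ i₀ * 1 := by
          exact mul_lt_mul_of_pos_left hav (pow_pos hav0 _)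
      _ = A.valuation a ^ i₀ := mul_one _
  rcases le_max_iff.mp hvR with h | h
  · exact h
  · exfalso
    have h1 : A.valuation (∑ i ∈ (Finset.range (p.natDegree + 1)).erase i₀,
        ((p.coeff i : ℤ) : L) * a ^ i) = A.valuation a ^ i₀ := by
      rw [← hvT, hT, Valuation.map_neg]
    rw [h1] at h
    exact absurd h (not_le.mpr hlt)

/-- every nonzero element divides a power of `ℓ` -/
theorem exists_prime_pow_le (hℓ : ℓ.Prime) (hA : A.LiesOverPrime ℓ) (d : L) (hd : d ≠ 0) :
    ∃ m : ℕ, A.valuation (ℓ : L) ^ m ≤ A.valuation d := by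
  by_cases hdA : d ∈ A
  · obtain ⟨f, -, hf0, hfd⟩ := exists_primitive_aeval_eq_zero d
    obtain ⟨g, hfg, hg⟩ := Polynomial.exists_eq_pow_rootMultiplicity_mul_and_not_dvd f hf0 0
    have hgd : aeval d g = 0 := by
      rw [hfg, map_mul, map_pow, map_sub, aeval_X, map_zero, map_zero, sub_zero] at hfd
      rcases mul_eq_zero.mp hfd with h | h
      · exact absurd (eq_zero_of_pow_eq_zero h) hd
      · exact h
    have hg0 : g.coeff 0 ≠ 0 := by
      intro h
      apply hg
      rw [map_zero, sub_zero]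
      exact Polynomial.X_dvd_iff.mpr h
    have hdecomp : aeval d g = aeval d g.divX * d + ((g.coeff 0 : ℤ) : L) := by
      conv_lhs => rw [← Polynomial.divX_mul_X_add g]
      rw [map_add, map_mul, aeval_X, aeval_C]
      rfl
    rw [hgd] at hdecomp
    have hg0eq : ((g.coeff 0 : ℤ) : L) = -(aeval d g.divX * d) := by
      rw [eq_neg_iff_add_eq_zero, add_comm]
      exact hdecomp.symm
    obtain ⟨k, hk⟩ := val_int_eq_pow (L := L) hℓ hA (g.coeff 0) hg0
    refine ⟨k, ?_⟩
    rw [← hk, hg0eq, Valuation.map_neg, map_mul]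
    calc A.valuation (aeval d g.divX) * A.valuation d ≤ 1 * A.valuation d := by
          gcongr
          exact (A.valuation_le_one_iff _).mpr
            (Fermat.Agent.S54.aeval_mem_valuationSubring A hdA _)
      _ = A.valuation d := one_mul _
  · refine ⟨0, ?_⟩
    rw [pow_zero]
    have := (A.valuation_le_one_iff d).not.mpr hdA
    exact (not_le.mp this).le

/-- **The value group of a valuation subring of `ℚ̄` over `ℓ` is archimedean.** -/
theorem archVal_of_liesOverPrime (hℓ : ℓ.Prime) (hA : A.LiesOverPrime ℓ) : ArchVal A := by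
  intro a ha d hd
  obtain ⟨n, hn⟩ := exists_pow_le_prime A hℓ hA a ha
  obtain ⟨m, hm⟩ := exists_prime_pow_le A hℓ hA d hd
  have hdv : 0 < A.valuation d := zero_lt_iff.mpr ((Valuation.ne_zero_iff _).mpr hd)
  by_cases ha0 : a = 0
  · refine ⟨1, ?_⟩
    rw [ha0, map_zero, pow_one]
    exact hdv
  have hav : A.valuation a < 1 := (ValuationSubring.mem_nonunits_iff (A := A)).mp ha
  have hav0 : 0 < A.valuation a := zero_lt_iff.mpr ((Valuation.ne_zero_iff _).mpr ha0)
  refine ⟨n * m + 1, ?_⟩
  have h1 : A.valuation a ^ (n * m) ≤ A.valuation d := by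
    rw [pow_mul]
    exact (pow_le_pow_left₀ zero_le hn m).trans hm
  rw [pow_succ]
  calc A.valuation a ^ (n * m) * A.valuation a < A.valuation a ^ (n * m) * 1 :=
        mul_lt_mul_of_pos_left hav (pow_pos hav0 _)
    _ = A.valuation a ^ (n * m) := mul_one _
    _ ≤ A.valuation d := h1

end Fermat.Agent.S37.H700

end
end
-- ===== PACK-END S37/H700/Arch.lean

-- ===== PACK-BEGIN S56/H334/RamComm.lean
section


/-!
# S56 / W-FLAT-SS, piece FL-RAM (helper334), part 5: commutator rules

Setting as in `RamBasic`/`RamTheta`: a DVR `B`, a group `Γ` acting by ring automorphisms.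

* `smul_comm_residueField` : if the residue field is finite, the actions of any two elements of `Γ`
  on the residue field commute (automorphisms of a finite field commute).
* `commutator_mem_ramGroup_zero` : `g h g⁻¹ h⁻¹ ∈ Γ₀`  (`Γ/Γ₀` is abelian).
* `conj_mul_inv_mem_ramGroup_iff` : under (H), for `n ≥ 1`, `σ ∈ Γ_n ∖ Γ_{n+1}`, `τ ∈ Γ₀`:
  `τ σ τ⁻¹ σ⁻¹ ∈ Γ_{n+1} ↔ τ ^ n ∈ Γ₁`    (Serre, Local Fields IV §2 Prop. 9 + Cor.).
-/

set_option autoImplicit false
set_option linter.unusedSectionVars false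

open IsLocalRing

namespace Fermat.Agent.S56.H334

variable {B : Type*} [CommRing B] [IsDomain B] [IsDiscreteValuationRing B]
variable {Γ : Type*} [Group Γ] [MulSemiringAction Γ B]

/-- Automorphisms of a finite field commute: the actions of `g, h ∈ Γ` on the residue field
commute. -/
theorem smul_comm_residueField [Finite (ResidueField B)] (g h : Γ) (y : ResidueField B) :
    g • h • y = h • g • y := by
  obtain ⟨z, hz⟩ := IsCyclic.exists_generator (α := (ResidueField B)ˣ)
  have key : ∀ σ : Γ, ∃ a : ℕ, σ • (z : ResidueField B) = (z : ResidueField B) ^ a := by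
    intro σ
    have h1 := hz (Units.map (MulSemiringAction.toRingHom Γ (ResidueField B) σ).toMonoidHom z)
    rw [← mem_powers_iff_mem_zpowers] at h1
    obtain ⟨a, ha⟩ := h1
    refine ⟨a, ?_⟩
    have h2 := congrArg (Units.val) ha
    rw [Units.val_pow_eq_pow_val] at h2
    rw [h2]
    rfl
  obtain ⟨a, ha⟩ := key g
  obtain ⟨b, hb⟩ := key h
  have hzz : g • h • (z : ResidueField B) = h • g • (z : ResidueField B) := by
    rw [hb, ha, smul_pow', smul_pow', ha, hb, ← pow_mul, ← pow_mul, mul_comm]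
  by_cases hy : y = 0
  · simp only [hy, smul_zero]
  · have h1 := hz (Units.mk0 y hy)
    rw [← mem_powers_iff_mem_zpowers] at h1
    obtain ⟨k, hk⟩ := h1
    have h2 : y = (z : ResidueField B) ^ k := by
      have h3 := congrArg (Units.val) hk
      rw [Units.val_pow_eq_pow_val] at h3
      rw [h3]
      rfl
    rw [h2, smul_pow', smul_pow', smul_pow', smul_pow', hzz]

/-- `Γ / Γ₀` is abelian: all commutators lie in the inertia group. -/
theorem commutator_mem_ramGroup_zero [Finite (ResidueField B)] (g h : Γ) :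
    g * h * g⁻¹ * h⁻¹ ∈ ramGroup Γ B 0 := by
  intro x
  show (g * h * g⁻¹ * h⁻¹) • x - x ∈ ((maximalIdeal B) ^ (0 + 1)).toAddSubgroup
  rw [zero_add, pow_one]
  show (g * h * g⁻¹ * h⁻¹) • x - x ∈ maximalIdeal B
  rw [← residue_eq_zero_iff, map_sub, sub_eq_zero, IsLocalRing.ResidueField.residue_smul,
    mul_smul, mul_smul, mul_smul, smul_comm_residueField g h, smul_inv_smul, smul_inv_smul]

section CommRule

variable {π : B} (hπ : Irreducible π)

include hπ in
/-- The commutator rule: for `σ ∈ Γ_{m+1} ∖ Γ_{m+2}` and `τ ∈ Γ₀`,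
`τ σ τ⁻¹ σ⁻¹ ∈ Γ_{m+2} ↔ τ ^ (m+1) ∈ Γ₁`. -/
theorem conj_mul_inv_mem_ramGroup_iff_aux (hH : InertiaResidue Γ B) (m : ℕ) {σ τ : Γ}
    (hσ : σ ∈ ramGroup Γ B (m + 1)) (hσ' : σ ∉ ramGroup Γ B (m + 2))
    (hτ : τ ∈ ramGroup Γ B 0) :
    τ * σ * τ⁻¹ * σ⁻¹ ∈ ramGroup Γ B (m + 2) ↔ τ ^ (m + 1) ∈ ramGroup Γ B 1 := by
  have hconj : τ * σ * τ⁻¹ ∈ ramGroup Γ B (m + 1) := (ramGroup_normal (m + 1)).conj_mem _ hσ τ
  set s : ramGroup Γ B (m + 1) := ⟨σ, hσ⟩ with hs
  set c : ramGroup Γ B (m + 1) := ⟨τ * σ * τ⁻¹, hconj⟩ with hc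
  set t : ramGroup Γ B 0 := ⟨τ, hτ⟩ with ht
  have h1 : τ * σ * τ⁻¹ * σ⁻¹ = ((c * s⁻¹ : ramGroup Γ B (m + 1)) : Γ) := rfl
  have h2 : τ ^ (m + 1) = ((t ^ (m + 1) : ramGroup Γ B 0) : Γ) := rfl
  rw [h1, ← theta_eq_one_iff hπ hH m, h2, ← theta0_eq_one_iff hπ hH, map_mul, map_inv,
    mul_inv_eq_one, map_pow]
  have ha : residue B (aOf hπ m σ) ≠ 0 := by
    intro h0
    apply hσ'
    have := (theta_eq_one_iff hπ hH m s).1 (by
      apply Multiplicative.toAdd.injective
      rw [theta_apply]
      exact h0)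
    exact this
  have hconj_val : residue B (aOf hπ m (τ * σ * τ⁻¹)) =
      residue B (cOf hπ τ) ^ (m + 1) * residue B (aOf hπ m σ) :=
    theta_conj_of_mem hπ m hτ s
  constructor
  · intro h
    have h3 : residue B (aOf hπ m (τ * σ * τ⁻¹)) = residue B (aOf hπ m σ) :=
      congrArg Multiplicative.toAdd h
    rw [hconj_val] at h3
    have h4 : residue B (cOf hπ τ) ^ (m + 1) = 1 := by
      have h5 : (residue B (cOf hπ τ) ^ (m + 1) - 1) * residue B (aOf hπ m σ) = 0 := by
        rw [sub_mul, one_mul, h3, sub_self]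
      rcases mul_eq_zero.1 h5 with h6 | h6
      · exact sub_eq_zero.1 h6
      · exact absurd h6 ha
    apply Units.ext
    rw [Units.val_pow_eq_pow_val, theta0_apply, Units.val_one]
    exact h4
  · intro h
    have h4 : residue B (cOf hπ τ) ^ (m + 1) = 1 := by
      have h5 := congrArg Units.val h
      rw [Units.val_pow_eq_pow_val, theta0_apply, Units.val_one] at h5
      exact h5
    apply Multiplicative.toAdd.injective
    rw [theta_apply, theta_apply]
    show residue B (aOf hπ m (τ * σ * τ⁻¹)) = residue B (aOf hπ m σ)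
    rw [hconj_val, h4, one_mul]

end CommRule

/-- **Commutator rule** (Serre, Local Fields IV §2): under (H), for `n ≥ 1`,
`σ ∈ Γ_n ∖ Γ_{n+1}` and `τ ∈ Γ₀`:  `τ σ τ⁻¹ σ⁻¹ ∈ Γ_{n+1} ↔ τ ^ n ∈ Γ₁`. -/
theorem conj_mul_inv_mem_ramGroup_iff (hH : InertiaResidue Γ B) {n : ℕ} (hn : 1 ≤ n) {σ τ : Γ}
    (hσ : σ ∈ ramGroup Γ B n) (hσ' : σ ∉ ramGroup Γ B (n + 1)) (hτ : τ ∈ ramGroup Γ B 0) :
    τ * σ * τ⁻¹ * σ⁻¹ ∈ ramGroup Γ B (n + 1) ↔ τ ^ n ∈ ramGroup Γ B 1 := by
  obtain ⟨π, hπ⟩ := IsDiscreteValuationRing.exists_irreducible B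
  obtain ⟨m, rfl⟩ : ∃ m, n = m + 1 := ⟨n - 1, by omega⟩
  exact conj_mul_inv_mem_ramGroup_iff_aux hπ hH m hσ hσ' hτ

end Fermat.Agent.S56.H334

end
-- ===== PACK-END S56/H334/RamComm.lean

-- ===== PACK-BEGIN S14/H937/Setup.lean
section






/-!
# S14, blocks LOCAL-I / LOCAL-D (helper937): finite-level package

`A` a valuation subring of `ℚ̄`, `K` a number field inside `ℚ̄`, `M/K` a finite Galois extension
inside `ℚ̄`.  We relate `A` to the primes of `𝓞 K` and `𝓞 M` below it, and lift elements of the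
inertia / decomposition groups of `Gal(M/K)` to `Gal(ℚ̄/K)`.
-/

set_option autoImplicit false
set_option linter.style.haveILetI false

open NumberField
open scoped Pointwise

namespace Fermat.Agent.S14.H937

/-- `ℚ̄`. -/
abbrev Qb := AlgebraicClosure ℚ

theorem h937_isAlgebraic : Algebra.IsAlgebraic ℚ Qb := AlgebraicClosure.isAlgebraic ℚ

section toZbar

variable (F : Type*) [Field F] [Algebra F Qb]

/-- The ring hom from the integers of a field mapping to `ℚ̄` to the ring of all algebraic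
integers. -/
noncomputable def toZbar : 𝓞 F →+* integralClosure ℤ Qb where
  toFun x := ⟨algebraMap F Qb (x : F), map_isIntegral_int (algebraMap F Qb) x.2⟩
  map_one' := by ext; simp
  map_mul' x y := by ext; simp
  map_zero' := by ext; simp
  map_add' x y := by ext; simp

theorem toZbar_coe (x : 𝓞 F) : ((toZbar F x : integralClosure ℤ Qb) : Qb) =
    algebraMap F Qb (x : F) := rfl

/-- The prime of `𝓞 F` below a valuation subring of `ℚ̄`. -/
noncomputable def primeOf (A : ValuationSubring Qb) : Ideal (𝓞 F) :=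
  (Fermat.Agent.S54.primeBelow A).comap (toZbar F)

theorem mem_primeOf (A : ValuationSubring Qb) (x : 𝓞 F) :
    x ∈ primeOf F A ↔ algebraMap F Qb (x : F) ∈ A.nonunits := Iff.rfl

instance primeOf_isPrime (A : ValuationSubring Qb) : (primeOf F A).IsPrime :=
  haveI := Fermat.Agent.S54.primeBelow_isPrime A
  Ideal.comap_isPrime _ _

theorem natCast_mem_primeOf (A : ValuationSubring Qb) (ℓ : ℕ) (hA : A.LiesOverPrime ℓ) :
    (ℓ : 𝓞 F) ∈ primeOf F A := by
  rw [mem_primeOf]
  have hA' : (ℓ : Qb) ∈ A.nonunits := hA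
  simpa using hA'

theorem primeOf_ne_bot [CharZero F] (A : ValuationSubring Qb) (ℓ : ℕ) (hℓ : ℓ.Prime)
    (hA : A.LiesOverPrime ℓ) : primeOf F A ≠ ⊥ := by
  intro h
  have h1 := natCast_mem_primeOf F A ℓ hA
  rw [h, Ideal.mem_bot] at h1
  have : (ℓ : 𝓞 F) ≠ 0 := by
    exact_mod_cast hℓ.ne_zero
  exact this h1

end toZbar

section dict

open IsDedekindDomain

variable (F : Type*) [Field F] [NumberField F] [Algebra F Qb]
variable (A : ValuationSubring Qb) (w : HeightOneSpectrum (𝓞 F)) (hw : w.asIdeal = primeOf F A)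

omit [NumberField F] in
theorem integer_mem (x : 𝓞 F) : algebraMap F Qb (x : F) ∈ A :=
  Fermat.Agent.S54.isIntegral_mem_valuationSubring A (map_isIntegral_int (algebraMap F Qb) x.2)

theorem mul_mem_nonunits_left {a b : Qb} (ha : a ∈ A.nonunits) (hb : b ∈ A) :
    a * b ∈ A.nonunits := by
  obtain ⟨h1, h2⟩ := ValuationSubring.mem_nonunits_iff_exists_mem_maximalIdeal.mp ha
  have := Ideal.mul_mem_right (⟨b, hb⟩ : A) _ h2
  exact ValuationSubring.mem_nonunits_iff_exists_mem_maximalIdeal.mpr ⟨_, this⟩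

theorem inv_mem_of_not_mem_nonunits {a : Qb} (ha : a ∉ A.nonunits) : a⁻¹ ∈ A := by
  by_contra h
  exact ha (A.mem_nonunits_iff_or.mpr (Or.inr h))

include hw in
theorem mem_of_valuation_le_one (x : F) (hx : w.valuation F x ≤ 1) :
    algebraMap F Qb x ∈ A := by
  obtain ⟨n, d, hnd⟩ := w.exists_primeCompl_mul_eq_of_integer x hx
  have hd : algebraMap F Qb ((d : 𝓞 F) : F) ∉ A.nonunits := by
    have h1 : (d : 𝓞 F) ∉ primeOf F A := by
      rw [← hw]; exact d.2
    rw [mem_primeOf] at h1
    exact h1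
  have hd0 : algebraMap F Qb ((d : 𝓞 F) : F) ≠ 0 := fun h0 => hd (h0 ▸ A.nonunits.zero_mem)
  have h2 : algebraMap F Qb x = algebraMap F Qb ((n : 𝓞 F) : F) *
      (algebraMap F Qb ((d : 𝓞 F) : F))⁻¹ := by
    rw [eq_mul_inv_iff_mul_eq₀ hd0, ← map_mul]
    congr 1
  rw [h2]
  exact A.mul_mem _ _ (integer_mem F A n) (inv_mem_of_not_mem_nonunits A hd)

include hw in
theorem mem_nonunits_of_valuation_lt_one (x : F) (hx : w.valuation F x < 1) :
    algebraMap F Qb x ∈ A.nonunits := by
  obtain ⟨n, d, hnd⟩ := w.exists_primeCompl_mul_eq_of_integer x hx.le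
  have hd : algebraMap F Qb ((d : 𝓞 F) : F) ∉ A.nonunits := by
    have h1 : (d : 𝓞 F) ∉ primeOf F A := by
      rw [← hw]; exact d.2
    rw [mem_primeOf] at h1
    exact h1
  have hd0 : algebraMap F Qb ((d : 𝓞 F) : F) ≠ 0 := fun h0 => hd (h0 ▸ A.nonunits.zero_mem)
  have hdv : w.valuation F ((d : 𝓞 F) : F) = 1 := by
    rw [HeightOneSpectrum.valuation_of_algebraMap, HeightOneSpectrum.intValuation_eq_one_iff_mem_primeCompl]
    exact d.2
  have hn : (n : 𝓞 F) ∈ w.asIdeal := by
    rw [← HeightOneSpectrum.valuation_lt_one_iff_mem (K := F)]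
    have : w.valuation F ((n : 𝓞 F) : F) = w.valuation F x * w.valuation F ((d : 𝓞 F) : F) := by
      rw [← map_mul]; congr 1; exact hnd.symm
    rw [this, hdv, mul_one]
    exact hx
  rw [hw, mem_primeOf] at hn
  have h2 : algebraMap F Qb x = algebraMap F Qb ((n : 𝓞 F) : F) *
      (algebraMap F Qb ((d : 𝓞 F) : F))⁻¹ := by
    rw [eq_mul_inv_iff_mul_eq₀ hd0, ← map_mul]
    congr 1
  rw [h2]
  exact mul_mem_nonunits_left A hn (inv_mem_of_not_mem_nonunits A hd)

include hw in
theorem valuation_eq_one_of (x : F) (hx : w.valuation F x = 1) :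
    A.valuation (algebraMap F Qb x) = 1 := by
  have hx0 : x ≠ 0 := by
    rintro rfl
    simp at hx
  have h1 := mem_of_valuation_le_one F A w hw x hx.le
  have h2 : w.valuation F x⁻¹ ≤ 1 := by
    rw [map_inv₀, hx, inv_one]
  have h3 := mem_of_valuation_le_one F A w hw x⁻¹ h2
  rw [map_inv₀] at h3
  apply le_antisymm
  · exact (A.valuation_le_one_iff _).mpr h1
  · have h4 := (A.valuation_le_one_iff _).mpr h3
    rw [map_inv₀] at h4
    have hne : A.valuation (algebraMap F Qb x) ≠ 0 := by
      rw [Valuation.ne_zero_iff]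
      simpa using hx0
    exact (inv_le_one₀ (zero_lt_iff.mpr hne)).mp h4

include hw in
theorem valuation_le_one_of_mem (x : F) (hx : algebraMap F Qb x ∈ A) :
    w.valuation F x ≤ 1 := by
  by_contra hcon
  rw [not_le] at hcon
  have hx0 : x ≠ 0 := by
    rintro rfl
    simp at hcon
  have h1 : w.valuation F x⁻¹ < 1 := by
    rw [map_inv₀]
    exact inv_lt_one_of_one_lt₀ hcon
  have h2 := mem_nonunits_of_valuation_lt_one F A w hw x⁻¹ h1
  rw [map_inv₀, ValuationSubring.mem_nonunits_iff, map_inv₀] at h2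
  have h3 := (A.valuation_le_one_iff _).mpr hx
  have hne : A.valuation (algebraMap F Qb x) ≠ 0 := by
    rw [Valuation.ne_zero_iff]
    simpa using hx0
  have h4 : 1 < A.valuation (algebraMap F Qb x) := by
    have := (inv_lt_one₀ (zero_lt_iff.mpr hne)).mp h2
    exact this
  exact absurd h3 (not_le.mpr h4)

end dict

end Fermat.Agent.S14.H937

end
-- ===== PACK-END S14/H937/Setup.lean

-- ===== PACK-BEGIN S55/G/Rec/Defs2.lean
section



/-!
# S55 / layer G / block REC : definitions, part 2 (cup classes, norms, local degree-valuation)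

* `gcc U n χ a : gBr U`, `lcc q V n χ a : lBr q V` : the classes of the explicit cocycles
  `(g, h) ↦ a ^ ε_χ(g, h)` (`H379.cupChar`), for a continuous character `χ` of `U` (resp. `V`)
  with values in `ℤ/n` and an invariant element `a`  (junk value `0` if `χ` is not
  continuous, `a` is not invariant or `n = 0`).
* `relNorm H b = ∏_{t ∈ G/H} t • b` : the norm from the fixed field of `H` (junk unless `b` is fixed
  by `H` and `H` has finite index).
* `vdeg q V a : ℤ` : `q ^ (-vdeg) = ‖a‖ ^ [G_{ℚ_q} : V]`, i.e. `vdeg = f_v · ord_v (a)`,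
  `N(v) ^ ord_v(a) = q ^ vdeg`.
* `IsCycloChar m χ` : `χ` is trivial on the elements acting trivially on `μ_m`.
-/

set_option autoImplicit false

noncomputable section

namespace Fermat.Agent.S55.G.Rec

open groupCohomology

local notation "Qb" => AlgebraicClosure ℚ
local notation "GQ" => (AlgebraicClosure ℚ ≃ₐ[ℚ] AlgebraicClosure ℚ)

/-! ## Characters -/

/-- The additive function `G → ℤ/n` underlying a character `χ : G →* Multiplicative (ZMod n)`. -/
def chiAdd {G : Type*} [Monoid G] {n : ℕ} (χ : G →* Multiplicative (ZMod n)) : G → ZMod n :=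
  fun g => Multiplicative.toAdd (χ g)

lemma chiAdd_mul {G : Type*} [Monoid G] {n : ℕ} (χ : G →* Multiplicative (ZMod n)) (g h : G) :
    chiAdd χ (g * h) = chiAdd χ g + chiAdd χ h := by
  simp [chiAdd]

lemma isCupChar_iff {G A : Type*} [Group G] [AddCommGroup A] {n : ℕ} (a : A)
    (χ : G →* Multiplicative (ZMod n)) (c : G × G → A) :
    IsCupChar a χ c ↔ c = H379.cupChar n (chiAdd χ) a := by
  constructor
  · intro h
    funext ⟨g, k⟩
    exact h g k
  · rintro rfl g k
    rfl

/-- A general norm: `∏_{t ∈ G/H} t • b` (product over coset representatives). -/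
def relNorm {G M : Type*} [Group G] [CommGroup M] [MulDistribMulAction G M] (H : Subgroup G)
    (b : M) : M :=
  ∏ᶠ t : G ⧸ H, (Quotient.out t : G) • b

/-! ## Global cup classes -/

section Global

/-- `a ∈ ℚ̄ˣ` lies in the fixed field of `U`. -/
def GFixed (U : Subgroup GQ) (a : Qbˣ) : Prop := ∀ u ∈ U, u • a = a

lemma toGMod_mem_invariants {U : Subgroup GQ} {a : Qbˣ} (ha : GFixed U a) :
    toGMod U a ∈ (gModOn U).ρ.invariants := by
  intro u
  show Additive.ofMul ((u : GQ) • a) = Additive.ofMul a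
  rw [ha u u.2]

lemma cupChar_isLevelConstant₂ {G A : Type} [Group G] [AddCommGroup A]
    (r : G →* GQ) {n : ℕ} (χ : G →* Multiplicative (ZMod n)) (hχ : IsLevelConstant₁ r χ) (a : A) :
    IsLevelConstant₂ r (H379.cupChar n (chiAdd χ) a) := by
  obtain ⟨F, hF, h⟩ := hχ
  refine ⟨F, hF, fun g g' s s' hs hs' => ?_⟩
  simp only [H379.cupChar_apply, chiAdd, h g s hs, h g' s' hs']

lemma gcupChar_mem (U : Subgroup GQ) (n : ℕ) (χ : ↥U →* Multiplicative (ZMod n)) (a : Qbˣ)
    (h : n ≠ 0 ∧ IsLevelConstant₁ U.subtype χ ∧ GFixed U a) :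
    H379.cupChar n (chiAdd χ) (toGMod U a) ∈ levelCocycles₂ U.subtype (gModOn U) := by
  haveI : NeZero n := ⟨h.1⟩
  exact ⟨H379.cupChar_mem_cocycles₂ (gModOn U) (chiAdd χ) (chiAdd_mul χ)
    (toGMod_mem_invariants h.2.2), cupChar_isLevelConstant₂ _ χ h.2.1 _⟩

open Classical in
/-- The global cup class `a ∪ δχ ∈ Br(K)`, `K = ℚ̄^U`. -/
def gcc (U : Subgroup GQ) (n : ℕ) (χ : ↥U →* Multiplicative (ZMod n)) (a : Qbˣ) : gBr U :=
  if h : n ≠ 0 ∧ IsLevelConstant₁ U.subtype χ ∧ GFixed U a then
    continuousH2π U.subtype (gModOn U) ⟨_, gcupChar_mem U n χ a h⟩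
  else 0

lemma gcc_eq (U : Subgroup GQ) (n : ℕ) (χ : ↥U →* Multiplicative (ZMod n)) (a : Qbˣ)
    (h : n ≠ 0 ∧ IsLevelConstant₁ U.subtype χ ∧ GFixed U a) :
    gcc U n χ a = continuousH2π U.subtype (gModOn U) ⟨_, gcupChar_mem U n χ a h⟩ := by
  unfold gcc
  rw [dif_pos h]

/-- `χ` is cyclotomic mod `m`: trivial on the elements of `U` acting trivially on `μ_m`. -/
def IsCycloChar (U : Subgroup GQ) (m : ℕ) {n : ℕ} (χ : ↥U →* Multiplicative (ZMod n)) : Prop :=
  ∀ σ : ↥U, (∀ ζ : Qb, ζ ^ m = 1 → (σ : GQ) ζ = ζ) → χ σ = 1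

end Global

/-! ## Local cup classes -/

section Local

variable (q : ℕ) [Fact q.Prime]

local notation "Gq" => (PadicAlgCl q ≃ₐ[ℚ_[q]] PadicAlgCl q)

/-- `a ∈ ℚ̄_qˣ` lies in the fixed field of `V`. -/
def LFixed (V : Subgroup Gq) (a : (PadicAlgCl q)ˣ) : Prop := ∀ τ ∈ V, τ • a = a

variable {q} in
lemma toLMod_mem_invariants {V : Subgroup Gq} {a : (PadicAlgCl q)ˣ} (ha : LFixed q V a) :
    toLMod q V a ∈ (lModOn q V).ρ.invariants := by
  intro τ
  show Additive.ofMul ((τ : Gq) • a) = Additive.ofMul a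
  rw [ha τ τ.2]

lemma lcupChar_mem (V : Subgroup Gq) (n : ℕ) (χ : ↥V →* Multiplicative (ZMod n))
    (a : (PadicAlgCl q)ˣ) (h : n ≠ 0 ∧ IsLevelConstant₁ (lHom q V) χ ∧ LFixed q V a) :
    H379.cupChar n (chiAdd χ) (toLMod q V a) ∈ levelCocycles₂ (lHom q V) (lModOn q V) := by
  haveI : NeZero n := ⟨h.1⟩
  exact ⟨H379.cupChar_mem_cocycles₂ (lModOn q V) (chiAdd χ) (chiAdd_mul χ)
    (toLMod_mem_invariants h.2.2), cupChar_isLevelConstant₂ _ χ h.2.1 _⟩

open Classical in
/-- The local cup class `a ∪ δχ ∈ Br(K_v)`, `K_v = ℚ̄_q^V`. -/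
def lcc (V : Subgroup Gq) (n : ℕ) (χ : ↥V →* Multiplicative (ZMod n)) (a : (PadicAlgCl q)ˣ) :
    lBr q V :=
  if h : n ≠ 0 ∧ IsLevelConstant₁ (lHom q V) χ ∧ LFixed q V a then
    continuousH2π (lHom q V) (lModOn q V) ⟨_, lcupChar_mem q V n χ a h⟩
  else 0

lemma lcc_eq (V : Subgroup Gq) (n : ℕ) (χ : ↥V →* Multiplicative (ZMod n)) (a : (PadicAlgCl q)ˣ)
    (h : n ≠ 0 ∧ IsLevelConstant₁ (lHom q V) χ ∧ LFixed q V a) :
    lcc q V n χ a = continuousH2π (lHom q V) (lModOn q V) ⟨_, lcupChar_mem q V n χ a h⟩ := by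
  unfold lcc
  rw [dif_pos h]

/-- The degree-valuation of `a` at the place with group `V`:
`vdeg = - log_q (‖a‖ ^ [G_{ℚ_q} : V]) = f_v · ord_v (a)`, so that `N(v) ^ ord_v (a) = q ^ vdeg`. -/
def vdeg (V : Subgroup Gq) (a : (PadicAlgCl q)ˣ) : ℤ :=
  - Int.log q (‖(a : PadicAlgCl q)‖ ^ V.index)

end Local

end Fermat.Agent.S55.G.Rec

end
end
-- ===== PACK-END S55/G/Rec/Defs2.lean

-- ===== PACK-BEGIN S55/Local/H64/GalInfRes.lean
section


/-!
# Inflation–restriction in degree 2 for Galois extensions, cocycle form (S55, layer L; helper64)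

Tower of fields `K ⊆ E ⊆ N` (types with algebra instances), `N / K` finite Galois, `E / K` normal.
`G = Gal(N/K)`, `Q = Gal(E/K)`, `S = Gal(N/E)`.  With Hilbert 90 (Mathlib) for `N / E`:

* `inflCochain K E N c'` : inflation of a cochain of `Gal(E/K)` (values in `Eˣ`) to `Gal(N/K)`;
* `resCochain K E N c` : restriction of a cochain of `Gal(N/K)` to `Gal(N/E)`;
* `isMulCoboundary₂_of_inflCochain` : inflation is injective on `H²`;
* `exists_inflCochain_of_resCochain` : exactness of `H²(E/K) → H²(N/K) → H²(N/E)`.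

All statements use Mathlib's `IsMulCocycle₂` / `IsMulCoboundary₂` for the natural actions of the
Galois groups on the unit groups (`AlgEquiv.smul_units_def`).
-/

set_option autoImplicit false

namespace Fermat.Agent.S55.Local.H64

open groupCohomology

section Gal

variable (K E N : Type) [Field K] [Field E] [Field N]
  [Algebra K E] [Algebra K N] [Algebra E N] [IsScalarTower K E N]

/-- The inclusion `Eˣ → Nˣ`. -/
def unitsInc : Eˣ →* Nˣ := Units.map (algebraMap E N).toMonoidHom

@[simp] lemma unitsInc_coe (y : Eˣ) : ((unitsInc E N y : Nˣ) : N) = algebraMap E N y := rfl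

lemma unitsInc_injective : Function.Injective (unitsInc E N) := by
  intro a b h
  apply Units.ext
  apply (algebraMap E N).injective
  have := congrArg (fun u : Nˣ => (u : N)) h
  simpa using this

/-- Restriction of a 2-cochain of `Gal(N/K)` to `Gal(N/E)`. -/
def resCochain (c : (N ≃ₐ[K] N) × (N ≃ₐ[K] N) → Nˣ) : (N ≃ₐ[E] N) × (N ≃ₐ[E] N) → Nˣ :=
  fun p => c (p.1.restrictScalars K, p.2.restrictScalars K)

variable [Normal K E]

/-- Inflation of a 2-cochain of `Gal(E/K)` to `Gal(N/K)`. -/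
noncomputable def inflCochain (c' : (E ≃ₐ[K] E) × (E ≃ₐ[K] E) → Eˣ) :
    (N ≃ₐ[K] N) × (N ≃ₐ[K] N) → Nˣ :=
  fun p => unitsInc E N
    (c' (AlgEquiv.restrictNormalHom E p.1, AlgEquiv.restrictNormalHom E p.2))

lemma inflCochain_apply (c' : (E ≃ₐ[K] E) × (E ≃ₐ[K] E) → Eˣ) (g h : N ≃ₐ[K] N) :
    inflCochain K E N c' (g, h) =
      unitsInc E N (c' (AlgEquiv.restrictNormalHom E g, AlgEquiv.restrictNormalHom E h)) := rfl

lemma unitsInc_smul (g : N ≃ₐ[K] N) (x : Eˣ) :
    unitsInc E N (AlgEquiv.restrictNormalHom E g • x) = g • unitsInc E N x := by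
  apply Units.ext
  simp only [unitsInc_coe, AlgEquiv.smul_units_def, Units.coe_map, MonoidHom.coe_coe]
  exact AlgEquiv.restrictNormal_commutes g E (x : E)

/-- An element of `Gal(N/E)`, viewed in `Gal(N/K)`, lies in the kernel of restriction to `E`. -/
lemma restrictScalars_mem_ker (σ : N ≃ₐ[E] N) :
    σ.restrictScalars K ∈ (AlgEquiv.restrictNormalHom (F := K) (K₁ := N) E).ker := by
  rw [MonoidHom.mem_ker]
  ext x
  apply (algebraMap E N).injective
  change algebraMap E N ((σ.restrictScalars K).restrictNormal E x) = algebraMap E N x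
  rw [AlgEquiv.restrictNormal_commutes]
  simp

/-- An element of the kernel of restriction to `E` is `E`-linear. -/
def kerToGal (s : (AlgEquiv.restrictNormalHom (F := K) (K₁ := N) E).ker) : N ≃ₐ[E] N :=
  { (s : N ≃ₐ[K] N).toRingEquiv with
    commutes' := by
      intro x
      have h := s.2
      rw [MonoidHom.mem_ker] at h
      have h' : (s : N ≃ₐ[K] N).restrictNormal E = 1 := h
      have := AlgEquiv.restrictNormal_commutes (s : N ≃ₐ[K] N) E x
      rw [h'] at this
      simpa using this.symm }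

lemma kerToGal_apply (s : (AlgEquiv.restrictNormalHom (F := K) (K₁ := N) E).ker) (x : N) :
    kerToGal K E N s x = (s : N ≃ₐ[K] N) x := rfl

lemma kerToGal_restrictScalars (s : (AlgEquiv.restrictNormalHom (F := K) (K₁ := N) E).ker) :
    (kerToGal K E N s).restrictScalars K = (s : N ≃ₐ[K] N) := by
  ext x; rfl

lemma kerToGal_mul (s t : (AlgEquiv.restrictNormalHom (F := K) (K₁ := N) E).ker) :
    kerToGal K E N (s * t) = kerToGal K E N s * kerToGal K E N t := by
  ext x; rfl

lemma kerToGal_smul (s : (AlgEquiv.restrictNormalHom (F := K) (K₁ := N) E).ker) (m : Nˣ) :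
    kerToGal K E N s • m = (s : N ≃ₐ[K] N) • m := by
  apply Units.ext; rfl

/-- The inflation of a 2-cocycle is a 2-cocycle. -/
theorem isMulCocycle₂_inflCochain {c' : (E ≃ₐ[K] E) × (E ≃ₐ[K] E) → Eˣ}
    (hc' : IsMulCocycle₂ c') : IsMulCocycle₂ (inflCochain K E N c') := by
  intro g h j
  simp only [inflCochain_apply, map_mul]
  rw [← map_mul, hc', map_mul, unitsInc_smul]

/-- The inflation of a 2-coboundary is a 2-coboundary. -/
theorem isMulCoboundary₂_inflCochain {c' : (E ≃ₐ[K] E) × (E ≃ₐ[K] E) → Eˣ}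
    (hc' : IsMulCoboundary₂ c') : IsMulCoboundary₂ (inflCochain K E N c') := by
  obtain ⟨x, hx⟩ := hc'
  refine ⟨fun g => unitsInc E N (x (AlgEquiv.restrictNormalHom E g)), fun g h => ?_⟩
  show g • unitsInc E N (x (AlgEquiv.restrictNormalHom E h)) /
      unitsInc E N (x (AlgEquiv.restrictNormalHom E (g * h))) *
      unitsInc E N (x (AlgEquiv.restrictNormalHom E g)) = _
  rw [inflCochain_apply, ← hx, map_mul, map_mul, map_div, unitsInc_smul]

omit [Normal K E] in
/-- The restriction of a 2-cocycle is a 2-cocycle. -/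
theorem isMulCocycle₂_resCochain {c : (N ≃ₐ[K] N) × (N ≃ₐ[K] N) → Nˣ}
    (hc : IsMulCocycle₂ c) : IsMulCocycle₂ (resCochain K E N c) := by
  intro g h j
  exact hc (g.restrictScalars K) (h.restrictScalars K) (j.restrictScalars K)

omit [Normal K E] in
/-- The restriction of a 2-coboundary is a 2-coboundary. -/
theorem isMulCoboundary₂_resCochain {c : (N ≃ₐ[K] N) × (N ≃ₐ[K] N) → Nˣ}
    (hc : IsMulCoboundary₂ c) : IsMulCoboundary₂ (resCochain K E N c) := by
  obtain ⟨x, hx⟩ := hc
  exact ⟨fun g => x (g.restrictScalars K), fun g h =>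
    hx (g.restrictScalars K) (h.restrictScalars K)⟩

/-- The restriction of an inflated 2-cocycle is a 2-coboundary. -/
theorem isMulCoboundary₂_resCochain_inflCochain (c' : (E ≃ₐ[K] E) × (E ≃ₐ[K] E) → Eˣ) :
    IsMulCoboundary₂ (resCochain K E N (inflCochain K E N c')) := by
  refine ⟨fun _ => unitsInc E N (c' (1, 1)), fun g h => ?_⟩
  have hg : AlgEquiv.restrictNormalHom E (g.restrictScalars K) = 1 :=
    MonoidHom.mem_ker.1 (restrictScalars_mem_ker K E N g)
  have hh : AlgEquiv.restrictNormalHom E (h.restrictScalars K) = 1 :=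
    MonoidHom.mem_ker.1 (restrictScalars_mem_ker K E N h)
  have hfix : g • unitsInc E N (c' (1, 1)) = unitsInc E N (c' (1, 1)) := by
    have := unitsInc_smul K E N (g.restrictScalars K) (c' (1, 1))
    rw [hg, one_smul] at this
    conv_rhs => rw [this]
    apply Units.ext; rfl
  simp only [resCochain, inflCochain_apply, hg, hh, hfix]
  simp

variable [FiniteDimensional K N] [IsGalois K N]

/-- The inflation data for the tower `K ⊆ E ⊆ N`. -/
theorem inflData :
    InflData (AlgEquiv.restrictNormalHom (F := K) (K₁ := N) E) (unitsInc E N) where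
  surj := AlgEquiv.restrictNormalHom_surjective (F := K) (K₁ := E) N
  inj := unitsInc_injective E N
  equiv := unitsInc_smul K E N
  inv := by
    intro m hm
    have : FiniteDimensional E N := FiniteDimensional.right K E N
    have : IsGalois E N := IsGalois.tower_top_of_isGalois K E N
    have hfix : ∀ σ : N ≃ₐ[E] N, σ (m : N) = m := by
      intro σ
      have := hm _ (restrictScalars_mem_ker K E N σ)
      have h2 := congrArg (fun u : Nˣ => (u : N)) this
      simpa [AlgEquiv.smul_units_def] using h2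
    obtain ⟨e, he⟩ := (IsGalois.mem_range_algebraMap_iff_fixed (F := E) (E := N) (m : N)).2 hfix
    have hne : e ≠ 0 := by
      rintro rfl
      rw [map_zero] at he
      exact m.ne_zero he.symm
    refine ⟨Units.mk0 e hne, ?_⟩
    apply Units.ext
    simpa using he
  h1 := by
    intro w hw
    have : FiniteDimensional E N := FiniteDimensional.right K E N
    have hcoc : IsMulCocycle₁ (fun σ : N ≃ₐ[E] N =>
        w ⟨σ.restrictScalars K, restrictScalars_mem_ker K E N σ⟩) := by
      intro σ τ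
      have := hw ⟨σ.restrictScalars K, restrictScalars_mem_ker K E N σ⟩
        ⟨τ.restrictScalars K, restrictScalars_mem_ker K E N τ⟩
      have e1 : (⟨(σ * τ).restrictScalars K, restrictScalars_mem_ker K E N (σ * τ)⟩ :
          (AlgEquiv.restrictNormalHom (F := K) (K₁ := N) E).ker) =
          ⟨σ.restrictScalars K, restrictScalars_mem_ker K E N σ⟩ *
            ⟨τ.restrictScalars K, restrictScalars_mem_ker K E N τ⟩ := by
        apply Subtype.ext; ext x; rfl
      show w ⟨(σ * τ).restrictScalars K, restrictScalars_mem_ker K E N (σ * τ)⟩ =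
        σ • w ⟨τ.restrictScalars K, restrictScalars_mem_ker K E N τ⟩ *
          w ⟨σ.restrictScalars K, restrictScalars_mem_ker K E N σ⟩
      rw [e1, this]
      congr 1
    obtain ⟨β, hβ⟩ := isMulCoboundary₁_of_isMulCocycle₁_of_aut_to_units _ hcoc
    refine ⟨β, fun s => ?_⟩
    have := hβ (kerToGal K E N s)
    rw [kerToGal_smul] at this
    rw [this]
    show w s = w ⟨(kerToGal K E N s).restrictScalars K, _⟩
    congr 1

/-- **Inflation `H²(Gal(E/K), Eˣ) → H²(Gal(N/K), Nˣ)` is injective** (cocycle form). -/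
theorem isMulCoboundary₂_of_inflCochain {c' : (E ≃ₐ[K] E) × (E ≃ₐ[K] E) → Eˣ}
    (h : IsMulCoboundary₂ (inflCochain K E N c')) : IsMulCoboundary₂ c' :=
  isMulCoboundary₂_of_inflation (inflData K E N) h

/-- **Exactness of `H²(Gal(E/K), Eˣ) → H²(Gal(N/K), Nˣ) → H²(Gal(N/E), Nˣ)`** (cocycle form). -/
theorem exists_inflCochain_of_resCochain {c : (N ≃ₐ[K] N) × (N ≃ₐ[K] N) → Nˣ}
    (hc : IsMulCocycle₂ c) (h : IsMulCoboundary₂ (resCochain K E N c)) :
    ∃ c' : (E ≃ₐ[K] E) × (E ≃ₐ[K] E) → Eˣ, IsMulCocycle₂ c' ∧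
      IsMulCoboundary₂ (fun p => c p / inflCochain K E N c' p) := by
  obtain ⟨b, hb⟩ := h
  refine exists_inflation_of_restriction (inflData K E N) hc
    ⟨fun s => b (kerToGal K E N s), fun s t => ?_⟩
  have := hb (kerToGal K E N s) (kerToGal K E N t)
  simp only [resCochain, kerToGal_restrictScalars] at this
  show c ((s : N ≃ₐ[K] N), (t : N ≃ₐ[K] N)) =
    (s : N ≃ₐ[K] N) • b (kerToGal K E N t) / b (kerToGal K E N (s * t)) * b (kerToGal K E N s)
  rw [← this, kerToGal_smul, kerToGal_mul]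

end Gal

end Fermat.Agent.S55.Local.H64

end
-- ===== PACK-END S55/Local/H64/GalInfRes.lean

-- ===== PACK-BEGIN S55/Herbrand/FiniteIndex.lean
section


/-!
# Herbrand quotient: invariance under finite kernels and finite cokernels

* `isDefined_iff_of_finite_coker`, `q_eq_of_finite_coker` : if `i : A → B` is injective,
  compatible with the endomorphisms, and `i.range` has finite index, then `q A = q B`;
* `isDefined_iff_of_finite_ker`, `q_eq_of_finite_ker` : if `p : B → C` is surjective,
  compatible with the endomorphisms, and `p.ker` is finite, then `q B = q C`;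
* `q_eq_zero_of_not_isDefined` : the junk value of `q` is `0`.
-/

set_option autoImplicit false

namespace Fermat.Agent.S55.Herbrand

open AddSubgroup

variable {A B C : Type*} [AddCommGroup A] [AddCommGroup B] [AddCommGroup C]

lemma q_eq_zero_of_not_isDefined {f g : B →+ B} (h : ¬ IsDefined f g) : q f g = 0 := by
  unfold IsDefined at h
  unfold q
  by_cases h1 : hIndex f g = 0
  · rw [h1]; simp
  · have h2 : hIndex g f = 0 := by
      by_contra h2
      exact h ⟨h1, h2⟩
    rw [h2]; simp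

lemma isDefined_iff_q_ne_zero {f g : B →+ B} : IsDefined f g ↔ q f g ≠ 0 :=
  ⟨fun h => h.q_ne_zero, fun h => by
    by_contra h'
    exact h (q_eq_zero_of_not_isDefined h')⟩

section Equiv

variable {fA gA : A →+ A} {fB gB : B →+ B}

/-- an isomorphism compatible with the endomorphisms preserves the Herbrand indices. -/
theorem hIndex_eq_of_equiv (e : A ≃+ B) (hef : ∀ a, e (fA a) = fB (e a))
    (heg : ∀ a, e (gA a) = gB (e a)) : hIndex fA gA = hIndex fB gB := by
  rw [hIndex_eq_hIndexSub (i := e.toAddMonoidHom) e.injective hef heg]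
  unfold hIndexSub hIndex
  have h : (e.toAddMonoidHom).range = ⊤ := AddMonoidHom.range_eq_top.2 e.surjective
  rw [h, top_inf_eq, ← AddMonoidHom.range_eq_map]

theorem isDefined_iff_of_equiv (e : A ≃+ B) (hef : ∀ a, e (fA a) = fB (e a))
    (heg : ∀ a, e (gA a) = gB (e a)) : IsDefined fA gA ↔ IsDefined fB gB := by
  unfold IsDefined
  rw [hIndex_eq_of_equiv e hef heg, hIndex_eq_of_equiv e heg hef]

theorem q_eq_of_equiv (e : A ≃+ B) (hef : ∀ a, e (fA a) = fB (e a))
    (heg : ∀ a, e (gA a) = gB (e a)) : q fA gA = q fB gB := by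
  unfold q
  rw [hIndex_eq_of_equiv e hef heg, hIndex_eq_of_equiv e heg hef]

end Equiv

section FiniteCoker

variable {fA gA : A →+ A} {fB gB : B →+ B} {i : A →+ B}

/-- the endomorphism induced on `B ⧸ i.range` by an endomorphism of `B` compatible with `i`. -/
noncomputable def quotEnd (fA : A →+ A) (fB : B →+ B) (i : A →+ B)
    (hif : ∀ a, i (fA a) = fB (i a)) : (B ⧸ i.range) →+ (B ⧸ i.range) :=
  QuotientAddGroup.map i.range i.range fB (by
    rintro _ ⟨a, rfl⟩
    exact ⟨fA a, hif a⟩)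

lemma quotEnd_mk (hif : ∀ a, i (fA a) = fB (i a)) (b : B) :
    quotEnd fA fB i hif (QuotientAddGroup.mk' i.range b) = QuotientAddGroup.mk' i.range (fB b) :=
  rfl

variable (hfg : ∀ b, fB (gB b) = 0) (hgf : ∀ b, gB (fB b) = 0)
    (hi : Function.Injective i) (hfin : i.range.FiniteIndex)
    (hif : ∀ a, i (fA a) = fB (i a)) (hig : ∀ a, i (gA a) = gB (i a))

include hfg hgf hi hfin hif hig

theorem isDefined_iff_of_finite_coker : IsDefined fA gA ↔ IsDefined fB gB := by
  have : Finite (B ⧸ i.range) := AddSubgroup.finite_quotient_of_finiteIndex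
  have hC : IsDefined (quotEnd fA fB i hif) (quotEnd gA gB i hig) := isDefined_of_finite _ _
  have hp : Function.Surjective (QuotientAddGroup.mk' i.range) :=
    QuotientAddGroup.mk'_surjective _
  have hex : (QuotientAddGroup.mk' i.range).ker = i.range := QuotientAddGroup.ker_mk' _
  constructor
  · intro hA
    exact isDefined_mid hfg hgf hi hp hex hif hig (fun _ => rfl) (fun _ => rfl) hA hC
  · intro hB
    exact isDefined_left hfg hgf hi hp hex hif hig (fun _ => rfl) (fun _ => rfl) hB hC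

theorem q_eq_of_finite_coker : q fA gA = q fB gB := by
  have : Finite (B ⧸ i.range) := AddSubgroup.finite_quotient_of_finiteIndex
  have hC : IsDefined (quotEnd fA fB i hif) (quotEnd gA gB i hig) := isDefined_of_finite _ _
  have hp : Function.Surjective (QuotientAddGroup.mk' i.range) :=
    QuotientAddGroup.mk'_surjective _
  have hex : (QuotientAddGroup.mk' i.range).ker = i.range := QuotientAddGroup.ker_mk' _
  by_cases hA : IsDefined fA gA
  · rw [q_mul_of_exact hfg hgf hi hp hex hif hig (fun _ => rfl) (fun _ => rfl) hA hC]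
    have h1 : q (quotEnd fA fB i hif) (quotEnd gA gB i hig) = 1 := by
      refine q_eq_one_of_finite _ _ ?_ ?_
      · intro c
        obtain ⟨b, rfl⟩ := hp c
        rw [quotEnd_mk, quotEnd_mk, hfg, map_zero]
      · intro c
        obtain ⟨b, rfl⟩ := hp c
        rw [quotEnd_mk, quotEnd_mk, hgf, map_zero]
    rw [h1, mul_one]
  · have hB : ¬ IsDefined fB gB := fun hB =>
      hA ((isDefined_iff_of_finite_coker hfg hgf hi hfin hif hig).2 hB)
    rw [q_eq_zero_of_not_isDefined hA, q_eq_zero_of_not_isDefined hB]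

end FiniteCoker

section FiniteKer

variable {fB gB : B →+ B} {fC gC : C →+ C} {p : B →+ C}

/-- the endomorphism induced on `p.ker` by an endomorphism of `B` compatible with `p`. -/
def kerEnd (fB : B →+ B) (fC : C →+ C) (p : B →+ C)
    (hpf : ∀ b, p (fB b) = fC (p b)) : p.ker →+ p.ker :=
  (fB.comp p.ker.subtype).codRestrict p.ker (by
    rintro ⟨b, hb⟩
    rw [AddMonoidHom.mem_ker] at hb ⊢
    simp only [AddMonoidHom.coe_comp, AddSubgroup.coe_subtype, Function.comp_apply]
    rw [hpf, hb, map_zero])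

lemma kerEnd_coe (hpf : ∀ b, p (fB b) = fC (p b)) (x : p.ker) :
    (kerEnd fB fC p hpf x : B) = fB x := rfl

variable (hfg : ∀ b, fB (gB b) = 0) (hgf : ∀ b, gB (fB b) = 0)
    (hp : Function.Surjective p) (hfin : Finite p.ker)
    (hpf : ∀ b, p (fB b) = fC (p b)) (hpg : ∀ b, p (gB b) = gC (p b))

include hfg hgf hp hfin hpf hpg

theorem isDefined_iff_of_finite_ker : IsDefined fB gB ↔ IsDefined fC gC := by
  have hA : IsDefined (kerEnd fB fC p hpf) (kerEnd gB gC p hpg) := isDefined_of_finite _ _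
  have hi : Function.Injective p.ker.subtype := Subtype.val_injective
  have hex : p.ker = p.ker.subtype.range := by
    rw [AddSubgroup.range_subtype]
  constructor
  · intro hB
    exact isDefined_right hfg hgf hi hp hex (fun _ => rfl) (fun _ => rfl) hpf hpg hA hB
  · intro hC
    exact isDefined_mid hfg hgf hi hp hex (fun _ => rfl) (fun _ => rfl) hpf hpg hA hC

theorem q_eq_of_finite_ker : q fB gB = q fC gC := by
  have hA : IsDefined (kerEnd fB fC p hpf) (kerEnd gB gC p hpg) := isDefined_of_finite _ _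
  have hi : Function.Injective p.ker.subtype := Subtype.val_injective
  have hex : p.ker = p.ker.subtype.range := by
    rw [AddSubgroup.range_subtype]
  by_cases hC : IsDefined fC gC
  · rw [q_mul_of_exact hfg hgf hi hp hex (fun _ => rfl) (fun _ => rfl) hpf hpg hA hC]
    have h1 : q (kerEnd fB fC p hpf) (kerEnd gB gC p hpg) = 1 := by
      refine q_eq_one_of_finite _ _ ?_ ?_
      · intro x
        apply Subtype.ext
        rw [kerEnd_coe, kerEnd_coe, hfg]; rfl
      · intro x
        apply Subtype.ext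
        rw [kerEnd_coe, kerEnd_coe, hgf]; rfl
    rw [h1, one_mul]
  · have hB : ¬ IsDefined fB gB := fun hB =>
      hC ((isDefined_iff_of_finite_ker hfg hgf hp hfin hpf hpg).1 hB)
    rw [q_eq_zero_of_not_isDefined hB, q_eq_zero_of_not_isDefined hC]

end FiniteKer

end Fermat.Agent.S55.Herbrand

end
-- ===== PACK-END S55/Herbrand/FiniteIndex.lean

-- ===== PACK-BEGIN S55/L/UnramNormUnits423.lean
section




/-!
# S55, layer L, leaf L-B1 in Spec form: `UnramifiedNormUnitsSpec`

`unramifiedNormUnits_of423 (h0 : RingOfIntegersUniqueSpec) : UnramifiedNormUnitsSpec`.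

Bridge from the abstract norm theorem of helper661
(`H661.unitsMap_norm_surjective_of_map_maximalIdeal_eq`, Galois-free) to the valuation-subring
interface of helper54's Spec:

* by uniqueness of the ring of integers (`h0`, leaf L-A0) the rings `A`, `B` of the statement are
  the ones carrying the common uniformizer, and `B` is the valuation subring of elements of `L`
  integral over `A` (which is a ring of integers by `H661.intClosure_*`);
* `B` is finite free over `A`, and `𝔪_A B = 𝔪_B` since a uniformizer of `A` is one of `B`;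
* `Algebra.norm K` restricted to `B` is `Algebra.norm A` (`Algebra.norm_localization`).
-/

set_option autoImplicit false
set_option linter.style.haveILetI false

namespace Fermat.Agent.S55.L.H423

open IsLocalRing

/-- **L-B1** (Spec form, modulo uniqueness of the ring of integers L-A0): in an unramified
extension of local fields every unit of `K` is the norm of a unit of `L`. -/
theorem unramifiedNormUnits_of423 (h0 : RingOfIntegersUniqueSpec) : UnramifiedNormUnitsSpec := by
  intro K L _ _ _ _ hK hun A B hA hB u hu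
  classical
  obtain ⟨A₁, B₁, π, hA₁, hB₁, hπA, hπB⟩ := hun
  haveI hchar : CharZero K := hK.charZero
  haveI hcharL : CharZero L := charZero_of_injective_algebraMap (algebraMap K L).injective
  haveI hL : IsLocalFld L := ⟨hcharL, ⟨B, hB⟩⟩
  obtain rfl : A₁ = A := h0 K A₁ A hA₁ hA
  obtain rfl : B₁ = B := h0 L B₁ B hB₁ hB
  obtain ⟨hdvr, hcomp, hfin⟩ := hA
  haveI := hdvr
  haveI := hcomp
  haveI := hfin
  letI algAL : Algebra A₁ L := ((algebraMap K L).comp (algebraMap A₁ K)).toAlgebra
  haveI : IsScalarTower A₁ K L := IsScalarTower.of_algebraMap_eq (fun _ => rfl)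
  haveI : Algebra.IsSeparable K L := inferInstance
  -- the valuation subring of integral elements
  haveI : IsDomain (integralClosure A₁ L) := inferInstance
  haveI : IsDiscreteValuationRing (integralClosure A₁ L) :=
    H661.intClosure_isDVR A₁ K L (integralClosure A₁ L)
  haveI hFrac : IsFractionRing (integralClosure A₁ L) L :=
    IsIntegralClosure.isFractionRing_of_finite_extension A₁ K L _
  have hval : ∀ x : L, x ∈ integralClosure A₁ L ∨ x⁻¹ ∈ integralClosure A₁ L := by
    intro x
    rcases ValuationRing.isInteger_or_isInteger (integralClosure A₁ L) x with ⟨b, hb⟩ | ⟨b, hb⟩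
    · left; rw [← hb]; exact b.2
    · right; rw [← hb]; exact b.2
  let BV : ValuationSubring L :=
    { (integralClosure A₁ L).toSubring with mem_or_inv_mem' := hval }
  have hmem : ∀ x : L, x ∈ BV ↔ IsIntegral A₁ x := fun x => Iff.rfl
  letI algABV : Algebra A₁ BV :=
    ((algebraMap A₁ L).codRestrict BV (fun a => (hmem _).mpr isIntegral_algebraMap)).toAlgebra
  haveI : IsScalarTower A₁ BV L := IsScalarTower.of_algebraMap_eq (fun _ => rfl)
  haveI : IsIntegralClosure BV A₁ L :=
    ⟨Subtype.val_injective, fun {x} => ⟨fun h => ⟨⟨x, (hmem x).mpr h⟩, rfl⟩,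
      fun ⟨y, hy⟩ => hy ▸ (hmem _).mp y.2⟩⟩
  haveI : IsDiscreteValuationRing BV := H661.intClosure_isDVR A₁ K L BV
  haveI : IsAdicComplete (maximalIdeal BV) BV := H661.intClosure_isAdicComplete A₁ K L BV
  haveI : Finite (ResidueField BV) := H661.intClosure_finite_residueField A₁ K L BV
  haveI : Module.Finite A₁ BV := H661.intClosure_finite A₁ K L BV
  haveI : Module.Free A₁ BV := H661.intClosure_free A₁ K L BV
  have hBV : IsLocalRingOfIntegers BV := ⟨inferInstance, inferInstance, inferInstance⟩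
  have hBB : B₁ = BV := h0 L B₁ BV hB hBV
  rw [hBB] at hπB ⊢
  -- unramified: `𝔪_A B = 𝔪_B`
  obtain ⟨hπmem, hπirr⟩ := hπA
  obtain ⟨hπmemB, hπirrB⟩ := hπB
  have hunr : Ideal.map (algebraMap A₁ BV) (maximalIdeal A₁) = maximalIdeal BV := by
    rw [hπirr.maximalIdeal_eq, hπirrB.maximalIdeal_eq, Ideal.map_span, Set.image_singleton]
    rfl
  obtain ⟨v, hv⟩ := H661.unitsMap_norm_surjective_of_map_maximalIdeal_eq (A := A₁) (B := BV) hunr
    (A₁.unitGroupMulEquiv ⟨u, hu⟩)
  refine ⟨(BV.unitGroupMulEquiv.symm v : BV.unitGroup).1, (BV.unitGroupMulEquiv.symm v).2, ?_⟩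
  haveI : IsLocalization (Algebra.algebraMapSubmonoid BV (nonZeroDivisors A₁)) L :=
    IsIntegralClosure.isLocalization A₁ K L BV
  have hnorm := Algebra.norm_localization (R := A₁) (Rₘ := K) (S := BV) (Sₘ := L)
    (nonZeroDivisors A₁) (v : BV)
  have hv' : Algebra.norm A₁ (v : BV) = (A₁.unitGroupMulEquiv ⟨u, hu⟩ : A₁) := by
    simpa using congrArg Units.val hv
  have h1 : (((BV.unitGroupMulEquiv.symm v : BV.unitGroup) : Lˣ) : L) = algebraMap BV L v := rfl
  rw [h1, hnorm, hv']
  rfl

end Fermat.Agent.S55.L.H423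

end
-- ===== PACK-END S55/L/UnramNormUnits423.lean

-- ===== PACK-BEGIN S55/Local/H964/Descent.lean
section



/-!
# S55, layer L, T5 glue: descent of cochains from `Gal(N/K)` to `Gal(L/K)` (helper964)

Tower `K ⊆ L ⊆ N`, `N / K` finite Galois, `L / K` normal, `S = kerRes K L N`.
Cochains on `Gal(N/K)` with values in `Nˣ` which are right-`S`-invariant and have `S`-invariant
values descend to cochains on `Gal(L/K)` with values in `Lˣ`.
-/

set_option autoImplicit false
set_option linter.style.haveILetI false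
set_option linter.unusedSectionVars false

namespace Fermat.Agent.S55.Local.H964

open groupCohomology Fermat.Agent.S55.Local

variable {K L N : Type} [Field K] [Field L] [Field N] [Algebra K L] [Algebra K N] [Algebra L N]
  [IsScalarTower K L N] [Normal K L] [FiniteDimensional K N] [IsGalois K N]

lemma inv_mul_mem_kerRes {g g' : N ≃ₐ[K] N} (h : resHom K L N g = resHom K L N g') :
    g⁻¹ * g' ∈ kerRes K L N := by
  unfold kerRes
  rw [MonoidHom.mem_ker, map_mul, map_inv, h, inv_mul_cancel]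

/-- Hilbert 90 in the form needed by the inflation–restriction lemmas. -/
lemma mulHOneVanishes_kerRes : MulHOneVanishes (G := N ≃ₐ[K] N) Nˣ (kerRes K L N) :=
  fun w hw => hilbert90_kerRes w hw

/-- Descent of a 2-cochain. -/
theorem exists_descend₂ (f' : (N ≃ₐ[K] N) × (N ≃ₐ[K] N) → Nˣ)
    (hinv2 : ∀ s ∈ kerRes K L N, ∀ g h, f' (g, h * s) = f' (g, h))
    (hinv1 : ∀ s ∈ kerRes K L N, ∀ g h, f' (g * s, h) = f' (g, h))
    (hval : ∀ s ∈ kerRes K L N, ∀ g h, s • f' (g, h) = f' (g, h)) :
    ∃ cL : (L ≃ₐ[K] L) × (L ≃ₐ[K] L) → Lˣ,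
      ∀ g h, unitsIncl N L (cL (resHom K L N g, resHom K L N h)) = f' (g, h) := by
  classical
  have hsurj := resHom_surjective (K := K) (L := L) (N := N)
  have hex : ∀ p : (L ≃ₐ[K] L) × (L ≃ₐ[K] L), ∃ y : Lˣ,
      unitsIncl N L y = f' (Function.surjInv hsurj p.1, Function.surjInv hsurj p.2) :=
    fun p => exists_unitsIncl_eq_of_fixed _ (fun s hs => hval s hs _ _)
  choose cL hcL using hex
  refine ⟨cL, fun g h => ?_⟩
  rw [hcL]
  simp only
  set g₀ := Function.surjInv hsurj (resHom K L N g) with hg₀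
  set h₀ := Function.surjInv hsurj (resHom K L N h) with hh₀
  have e1 : resHom K L N g₀ = resHom K L N g := Function.surjInv_eq hsurj _
  have e2 : resHom K L N h₀ = resHom K L N h := Function.surjInv_eq hsurj _
  have m1 := inv_mul_mem_kerRes e1
  have m2 := inv_mul_mem_kerRes e2
  have := hinv1 _ m1 g₀ h₀
  rw [mul_inv_cancel_left] at this
  rw [← this]
  have := hinv2 _ m2 g h₀
  rw [mul_inv_cancel_left] at this
  rw [← this]

/-- Descent of a 1-cochain. -/
theorem exists_descend₁ (c' : (N ≃ₐ[K] N) → Nˣ)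
    (hinv : ∀ s ∈ kerRes K L N, ∀ g, c' (g * s) = c' g)
    (hval : ∀ s ∈ kerRes K L N, ∀ g, s • c' g = c' g) :
    ∃ b : (L ≃ₐ[K] L) → Lˣ, ∀ g, unitsIncl N L (b (resHom K L N g)) = c' g := by
  classical
  have hsurj := resHom_surjective (K := K) (L := L) (N := N)
  have hex : ∀ σ : L ≃ₐ[K] L, ∃ y : Lˣ, unitsIncl N L y = c' (Function.surjInv hsurj σ) :=
    fun σ => exists_unitsIncl_eq_of_fixed _ (fun s hs => hval s hs _)
  choose b hb using hex
  refine ⟨b, fun g => ?_⟩
  rw [hb]
  set g₀ := Function.surjInv hsurj (resHom K L N g) with hg₀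
  have e1 : resHom K L N g₀ = resHom K L N g := Function.surjInv_eq hsurj _
  have m1 := inv_mul_mem_kerRes e1
  have := hinv _ m1 g₀
  rw [mul_inv_cancel_left] at this
  rw [← this]

/-- A descended 2-cocycle is a 2-cocycle. -/
theorem isMulCocycle₂_of_descend {f' : (N ≃ₐ[K] N) × (N ≃ₐ[K] N) → Nˣ}
    (hf' : IsMulCocycle₂ f') {cL : (L ≃ₐ[K] L) × (L ≃ₐ[K] L) → Lˣ}
    (hcL : ∀ g h, unitsIncl N L (cL (resHom K L N g, resHom K L N h)) = f' (g, h)) :
    IsMulCocycle₂ cL := by
  have hsurj := resHom_surjective (K := K) (L := L) (N := N)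
  intro σ τ υ
  obtain ⟨g, rfl⟩ := hsurj σ
  obtain ⟨h, rfl⟩ := hsurj τ
  obtain ⟨j, rfl⟩ := hsurj υ
  apply unitsIncl_injective (N := N) (L := L)
  have := hf' g h j
  rw [map_mul, map_mul, ← map_mul (resHom K L N), ← map_mul (resHom K L N),
    unitsIncl_resHom_smul, hcL, hcL, hcL, hcL]
  exact this

/-- The inflation of a coboundary is a coboundary. -/
theorem inflate_dMul {f' : (N ≃ₐ[K] N) × (N ≃ₐ[K] N) → Nˣ}
    {cL : (L ≃ₐ[K] L) × (L ≃ₐ[K] L) → Lˣ}
    (hcL : ∀ g h, unitsIncl N L (cL (resHom K L N g, resHom K L N h)) = f' (g, h))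
    (b : (L ≃ₐ[K] L) → Lˣ) (hb : ∀ σ τ, cL (σ, τ) = dMul b (σ, τ)) :
    ∀ g h, f' (g, h) = dMul (fun g => unitsIncl N L (b (resHom K L N g))) (g, h) := by
  intro g h
  rw [← hcL, hb, dMul_apply, dMul_apply, map_mul, map_div, unitsIncl_resHom_smul, map_mul]

/-- The descent of a coboundary of a descended cochain is a coboundary. -/
theorem descend_dMul {f' : (N ≃ₐ[K] N) × (N ≃ₐ[K] N) → Nˣ}
    {cL : (L ≃ₐ[K] L) × (L ≃ₐ[K] L) → Lˣ}
    (hcL : ∀ g h, unitsIncl N L (cL (resHom K L N g, resHom K L N h)) = f' (g, h))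
    {c' : (N ≃ₐ[K] N) → Nˣ} (hc' : ∀ g h, f' (g, h) = dMul c' (g, h))
    {b : (L ≃ₐ[K] L) → Lˣ} (hb : ∀ g, unitsIncl N L (b (resHom K L N g)) = c' g) :
    ∀ σ τ, cL (σ, τ) = dMul b (σ, τ) := by
  have hsurj := resHom_surjective (K := K) (L := L) (N := N)
  intro σ τ
  obtain ⟨g, rfl⟩ := hsurj σ
  obtain ⟨h, rfl⟩ := hsurj τ
  apply unitsIncl_injective (N := N) (L := L)
  rw [hcL, hc', dMul_apply, dMul_apply, map_mul, map_div, unitsIncl_resHom_smul,
    ← map_mul (resHom K L N), hb, hb, hb]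

end Fermat.Agent.S55.Local.H964

end
-- ===== PACK-END S55/Local/H964/Descent.lean

-- ===== PACK-BEGIN S55/Local/H478/FiltH1.lean
section



/-!
# S55, layer L, piece A1 (helper478): successive approximation for 1-cocycles

`theorem filtH1 : Fermat.Agent.S55.Local.FiltH1Statement`.
-/

set_option autoImplicit false

namespace Fermat.Agent.S55.Local.H478

open Finset groupCohomology

section H1

variable {G M : Type} [Group G] [CommGroup M] [MulDistribMulAction G M]

/-- The multiplicative coboundary map `m ↦ (g ↦ g • m / m)`. -/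
def dZero (G M : Type) [Group G] [CommGroup M] [MulDistribMulAction G M] : M →* (G → M) where
  toFun m := fun g => g • m / m
  map_one' := by funext g; simp
  map_mul' a b := by
    funext g
    simp only [Pi.mul_apply, smul_mul']
    rw [mul_div_mul_comm]

@[simp] lemma dZero_apply (m : M) (g : G) : dZero G M m g = g • m / m := rfl

/-- Functions with values in a subgroup, as a subgroup of the function group. -/
def piFil (X : Type) (H : Subgroup M) : Subgroup (X → M) where
  carrier := {c | ∀ x, c x ∈ H}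
  one_mem' := fun _ => H.one_mem
  mul_mem' := fun ha hb x => H.mul_mem (ha x) (hb x)
  inv_mem' := fun ha x => H.inv_mem (ha x)

@[simp] lemma mem_piFil {X : Type} {H : Subgroup M} {c : X → M} :
    c ∈ piFil X H ↔ ∀ x, c x ∈ H := Iff.rfl

/-- Pointwise completeness implies completeness of the function group. -/
lemma piFil_complete (X : Type) (Fil : ℕ → Subgroup M)
    (hcomplete : ∀ u : ℕ → M, (∀ j, u j ∈ Fil j) →
      ∃ s : M, ∀ n, s / ∏ j ∈ range n, u j ∈ Fil n)
    (u : ℕ → X → M) (hu : ∀ j, u j ∈ piFil X (Fil j)) :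
    ∃ s : X → M, ∀ n, s / ∏ j ∈ range n, u j ∈ piFil X (Fil n) := by
  choose s hs using fun x => hcomplete (fun j => u j x) (fun j => hu j x)
  refine ⟨s, fun n x => ?_⟩
  simpa [Finset.prod_apply] using hs x n

/-- Pointwise separatedness implies separatedness of the function group. -/
lemma piFil_separated (X : Type) (Fil : ℕ → Subgroup M)
    (hsep : ∀ x : M, (∀ j, x ∈ Fil j) → x = 1)
    (c : X → M) (hc : ∀ j, c ∈ piFil X (Fil j)) : c = 1 := by
  funext x
  exact hsep _ fun j => hc j x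

/-- The subgroup of multiplicative 1-cocycles. -/
def mulCocycles₁ (G M : Type) [Group G] [CommGroup M] [MulDistribMulAction G M] :
    Subgroup (G → M) where
  carrier := {c | IsMulCocycle₁ c}
  one_mem' := by intro g h; simp
  mul_mem' := by
    intro a b ha hb g h
    simp only [Pi.mul_apply, ha g h, hb g h, smul_mul']
    exact mul_mul_mul_comm _ _ _ _
  inv_mem' := by
    intro a ha g h
    simp only [Pi.inv_apply, ha g h, smul_inv', mul_inv]

@[simp] lemma mem_mulCocycles₁ {c : G → M} : c ∈ mulCocycles₁ G M ↔ IsMulCocycle₁ c := Iff.rfl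

lemma dZero_mem_mulCocycles₁ (m : M) : dZero G M m ∈ mulCocycles₁ G M := by
  intro g h
  simp only [dZero_apply, smul_div', mul_smul]
  rw [div_mul_div_cancel]

end H1

/-- **A1.** Successive approximation for 1-cocycles. -/
theorem filtH1 : Fermat.Agent.S55.Local.FiltH1Statement := by
  intro G M _ _ _ Fil _hanti hstab hcomplete hsep hgraded c hc hc0
  have key := approx_exists (dZero G M) Fil (fun j => piFil G (Fil j)) (mulCocycles₁ G M)
    (fun j m hm g => by
      simp only [dZero_apply]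
      exact (Fil j).div_mem (hstab j g m hm) hm)
    (fun m => dZero_mem_mulCocycles₁ m)
    hcomplete
    (piFil_separated G Fil hsep)
    (fun j c' hc'Z hc'j => by
      obtain ⟨m, hm, h⟩ := hgraded j c' hc'Z hc'j
      exact ⟨m, hm, fun g => by simpa using h g⟩)
    c hc hc0
  obtain ⟨m, hm, h⟩ := key
  exact ⟨m, hm, fun g => by rw [← h]; rfl⟩

end Fermat.Agent.S55.Local.H478

end
-- ===== PACK-END S55/Local/H478/FiltH1.lean

-- ===== PACK-BEGIN S55/Local/H535/CycIdx.lean
section


/-!
# S55 layer L, cyclic groups: the discrete logarithm `cycIdx` — helper535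

Basic facts about `Fermat.Agent.S55.Local.cycIdx σ g` for a generator `σ` of a finite cyclic
group, used by the pieces A4a–A4d.
-/

set_option autoImplicit false

namespace Fermat.Agent.S55.Local.H535

open Fermat.Agent.S55.Local

section

variable {G : Type} [Group G] [Finite G] {σ : G}

lemma orderOf_eq_card (hσ : ∀ g, g ∈ Subgroup.zpowers σ) : orderOf σ = Nat.card G :=
  orderOf_eq_card_of_forall_mem_zpowers hσ

lemma card_pos' : 0 < Nat.card G := Nat.card_pos

lemma exists_pow_eq (hσ : ∀ g, g ∈ Subgroup.zpowers σ) (g : G) : ∃ k : ℕ, σ ^ k = g := by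
  have h := hσ g
  rw [← mem_powers_iff_mem_zpowers] at h
  exact Submonoid.mem_powers_iff g σ |>.1 h

lemma pow_cycIdx (hσ : ∀ g, g ∈ Subgroup.zpowers σ) (g : G) : σ ^ cycIdx σ g = g :=
  Nat.sInf_mem (s := {k : ℕ | σ ^ k = g}) (exists_pow_eq hσ g)

lemma pow_mod_card (hσ : ∀ g, g ∈ Subgroup.zpowers σ) (k : ℕ) :
    σ ^ (k % Nat.card G) = σ ^ k := by
  rw [← orderOf_eq_card hσ, pow_mod_orderOf]

lemma cycIdx_lt (hσ : ∀ g, g ∈ Subgroup.zpowers σ) (g : G) : cycIdx σ g < Nat.card G := by
  obtain ⟨k, hk⟩ := exists_pow_eq hσ g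
  have h1 : k % Nat.card G ∈ {k : ℕ | σ ^ k = g} := by
    show σ ^ (k % Nat.card G) = g
    rw [pow_mod_card hσ, hk]
  exact lt_of_le_of_lt (Nat.sInf_le h1) (Nat.mod_lt _ card_pos')

lemma cycIdx_pow (hσ : ∀ g, g ∈ Subgroup.zpowers σ) (k : ℕ) :
    cycIdx σ (σ ^ k) = k % Nat.card G := by
  have h1 := pow_cycIdx hσ (σ ^ k)
  have h2 := cycIdx_lt hσ (σ ^ k)
  rw [pow_eq_pow_iff_modEq, orderOf_eq_card hσ] at h1
  have h3 : cycIdx σ (σ ^ k) % Nat.card G = k % Nat.card G := h1
  rwa [Nat.mod_eq_of_lt h2] at h3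

lemma cycIdx_pow_of_lt (hσ : ∀ g, g ∈ Subgroup.zpowers σ) {k : ℕ} (hk : k < Nat.card G) :
    cycIdx σ (σ ^ k) = k := by
  rw [cycIdx_pow hσ, Nat.mod_eq_of_lt hk]

lemma cycIdx_one (hσ : ∀ g, g ∈ Subgroup.zpowers σ) : cycIdx σ (1 : G) = 0 := by
  have := cycIdx_pow hσ 0
  simpa using this

lemma cycIdx_mul (hσ : ∀ g, g ∈ Subgroup.zpowers σ) (g h : G) :
    cycIdx σ (g * h) = (cycIdx σ g + cycIdx σ h) % Nat.card G := by
  conv_lhs => rw [← pow_cycIdx hσ g, ← pow_cycIdx hσ h, ← pow_add]
  exact cycIdx_pow hσ _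

lemma cycIdx_self (hσ : ∀ g, g ∈ Subgroup.zpowers σ) (h2 : 2 ≤ Nat.card G) :
    cycIdx σ σ = 1 := by
  have := cycIdx_pow hσ 1
  rw [pow_one] at this
  rw [this, Nat.mod_eq_of_lt h2]

lemma cycIdx_injective (hσ : ∀ g, g ∈ Subgroup.zpowers σ) :
    Function.Injective (cycIdx σ) := by
  intro g h hgh
  rw [← pow_cycIdx hσ g, ← pow_cycIdx hσ h, hgh]

/-- Arithmetic of carries. -/
lemma carry_add (n a k : ℕ) (hn : 0 < n) : (a % n + k) / n + a / n = (a + k) / n := by
  conv_rhs => rw [← Nat.mod_add_div a n]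
  rw [show a % n + n * (a / n) + k = a % n + k + n * (a / n) by ring,
    Nat.add_mul_div_left _ _ hn]

/-- `G`-invariance from `σ`-invariance. -/
lemma smul_eq_of_generator {M : Type} [CommGroup M] [MulDistribMulAction G M]
    (hσ : ∀ g, g ∈ Subgroup.zpowers σ) {x : M} (hx : σ • x = x) (g : G) : g • x = x := by
  obtain ⟨k, rfl⟩ := exists_pow_eq hσ g
  induction k with
  | zero => simp
  | succ k ih => rw [pow_succ, mul_smul, hx, ih]

/-- Products over `G` are products over `range n` of powers of the generator. -/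
lemma prod_univ_eq_prod_range [Fintype G] {M : Type} [CommMonoid M]
    (hσ : ∀ g, g ∈ Subgroup.zpowers σ) (F : G → M) :
    ∏ g : G, F g = ∏ k ∈ Finset.range (Nat.card G), F (σ ^ k) := by
  symm
  apply Finset.prod_bij (fun k _ => σ ^ k)
  · intro k _; exact Finset.mem_univ _
  · intro a ha b hb hab
    rw [Finset.mem_range] at ha hb
    have := congrArg (cycIdx σ) hab
    rwa [cycIdx_pow_of_lt hσ ha, cycIdx_pow_of_lt hσ hb] at this
  · intro g _
    exact ⟨cycIdx σ g, Finset.mem_range.2 (cycIdx_lt hσ g), pow_cycIdx hσ g⟩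
  · intro k _; rfl

end

end Fermat.Agent.S55.Local.H535

end
-- ===== PACK-END S55/Local/H535/CycIdx.lean

-- ===== PACK-BEGIN S55/Local/H535/A12.lean
section



/-!
# S55 layer L, pieces A1 (`FiltH1Statement`) and A2 (`FiltH2Statement`) — helper535

Successive approximation for `1`- and `2`-cocycles along a complete separated `G`-stable
filtration, deduced from `Fermat.Agent.S55.H535.exact_of_graded_exact` applied to the
(multiplicative) inhomogeneous cochain complex `M → (G → M) → (G × G → M) → (G × G × G → M)`.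
-/

set_option autoImplicit false

namespace Fermat.Agent.S55.Local.H535

open Fermat.Agent.S55.H535 groupCohomology

section

variable {G M : Type} [Group G] [CommGroup M] [MulDistribMulAction G M]

/-- The pointwise filtration on functions `X → M`. -/
def funFil (X : Type) (Fil : ℕ → Subgroup M) (j : ℕ) : Subgroup (X → M) where
  carrier := {c | ∀ x, c x ∈ Fil j}
  one_mem' := fun _ => (Fil j).one_mem
  mul_mem' := fun ha hb x => (Fil j).mul_mem (ha x) (hb x)
  inv_mem' := fun ha x => (Fil j).inv_mem (ha x)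

lemma mem_funFil {X : Type} {Fil : ℕ → Subgroup M} {j : ℕ} {c : X → M} :
    c ∈ funFil X Fil j ↔ ∀ x, c x ∈ Fil j := Iff.rfl

lemma funFil_sep (X : Type) (Fil : ℕ → Subgroup M) (hsep : ∀ x : M, (∀ j, x ∈ Fil j) → x = 1) :
    MulSeparated (funFil X Fil) := by
  intro c hc
  funext x
  exact hsep (c x) (fun j => hc j x)

lemma funFil_complete (X : Type) (Fil : ℕ → Subgroup M)
    (hcomp : ∀ u : ℕ → M, (∀ j, u j ∈ Fil j) →
      ∃ s : M, ∀ n, s / ∏ j ∈ Finset.range n, u j ∈ Fil n) :
    MulComplete (funFil X Fil) := by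
  intro a ha
  choose s hs using fun x => hcomp (fun j => a j x) (fun j => ha j x)
  refine ⟨s, fun n x => ?_⟩
  have := hs x n
  simpa [Finset.prod_apply] using this

/-- `d⁰ : M → (G → M)`, `m ↦ (g ↦ g • m / m)`. -/
def d0 : M →* (G → M) where
  toFun m := fun g => g • m / m
  map_one' := by funext g; simp
  map_mul' a b := by funext g; simp [smul_mul', mul_div_mul_comm]

/-- `d¹ : (G → M) → (G × G → M)`, `c ↦ ((g, h) ↦ g • c h * c g / c (g h))`. -/
def d1 : (G → M) →* (G × G → M) where
  toFun c := fun p => p.1 • c p.2 * c p.1 / c (p.1 * p.2)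
  map_one' := by funext p; simp
  map_mul' a b := by
    funext p
    simp only [Pi.mul_apply, smul_mul']
    apply Additive.ofMul.injective
    simp only [ofMul_mul, ofMul_div]
    abel

/-- `d²' : (G → M) → (G × G → M)`, `x ↦ ((g, h) ↦ g • x h / x (g h) * x g)`
(the convention of `IsMulCoboundary₂`). -/
def d1' : (G → M) →* (G × G → M) where
  toFun c := fun p => p.1 • c p.2 / c (p.1 * p.2) * c p.1
  map_one' := by funext p; simp
  map_mul' a b := by
    funext p
    simp only [Pi.mul_apply, smul_mul']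
    apply Additive.ofMul.injective
    simp only [ofMul_mul, ofMul_div]
    abel

/-- `d² : (G × G → M) → (G × G × G → M)`. -/
def d2 : (G × G → M) →* (G × G × G → M) where
  toFun c := fun t => c (t.1 * t.2.1, t.2.2) * c (t.1, t.2.1) /
    (t.1 • c (t.2.1, t.2.2) * c (t.1, t.2.1 * t.2.2))
  map_one' := by funext t; simp
  map_mul' a b := by
    funext t
    simp only [Pi.mul_apply, smul_mul']
    apply Additive.ofMul.injective
    simp only [ofMul_mul, ofMul_div]
    abel

lemma d1_eq_one_iff (c : G → M) : d1 c = 1 ↔ IsMulCocycle₁ c := by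
  constructor
  · intro h g k
    have := congrFun h (g, k)
    simp only [d1, MonoidHom.coe_mk, OneHom.coe_mk, Pi.one_apply] at this
    exact (div_eq_one.1 this).symm
  · intro h
    funext p
    simp only [d1, MonoidHom.coe_mk, OneHom.coe_mk, Pi.one_apply]
    exact div_eq_one.2 (h p.1 p.2).symm

lemma d2_eq_one_iff (c : G × G → M) : d2 c = 1 ↔ IsMulCocycle₂ c := by
  constructor
  · intro h g k j
    have := congrFun h (g, k, j)
    simp only [d2, MonoidHom.coe_mk, OneHom.coe_mk, Pi.one_apply] at this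
    exact div_eq_one.1 this
  · intro h
    funext t
    simp only [d2, MonoidHom.coe_mk, OneHom.coe_mk, Pi.one_apply]
    exact div_eq_one.2 (h t.1 t.2.1 t.2.2)

lemma d1_d0 (m : M) : d1 (d0 (G := G) m) = 1 := by
  funext p
  simp only [d1, d0, MonoidHom.coe_mk, OneHom.coe_mk, Pi.one_apply, smul_div', mul_smul]
  rw [div_mul_div_cancel, div_self']

lemma d2_d1' (x : G → M) : d2 (d1' x) = 1 := by
  funext t
  obtain ⟨g, h, j⟩ := t
  simp only [d2, d1', MonoidHom.coe_mk, OneHom.coe_mk, Pi.one_apply, smul_div', smul_mul',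
    mul_smul, mul_assoc]
  apply Additive.ofMul.injective
  simp only [ofMul_mul, ofMul_div, ofMul_one]
  abel

end

/-- **A1.** Successive approximation for `1`-cocycles. -/
theorem filtH1 : Fermat.Agent.S55.Local.FiltH1Statement := by
  intro G M _ _ _ Fil _ hstab hcomp hsep hgr c hc hc0
  have key := exact_of_graded_exact (funFil G Fil) Fil (d0 (G := G) (M := M)) d1 d1_d0
    (fun j b hb g => (Fil j).div_mem (hstab j g b hb) hb)
    (funFil_sep G Fil hsep) hcomp
    (fun j x hx hx1 => by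
      obtain ⟨m, hm, h⟩ := hgr j x ((d1_eq_one_iff x).1 hx1) hx
      exact ⟨m, hm, fun g => h g⟩)
    c hc0 ((d1_eq_one_iff c).2 hc)
  obtain ⟨m, hm, h⟩ := key
  exact ⟨m, hm, fun g => congrFun h g⟩

/-- **A2.** Successive approximation for `2`-cocycles. -/
theorem filtH2 : Fermat.Agent.S55.Local.FiltH2Statement := by
  intro G M _ _ _ _ Fil _ hstab hcomp hsep hgr c hc hc0
  have key := exact_of_graded_exact (funFil (G × G) Fil) (funFil G Fil)
    (d1' (G := G) (M := M)) d2 d2_d1'
    (fun j b hb p => (Fil j).mul_mem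
      ((Fil j).div_mem (hstab j p.1 _ (hb p.2)) (hb (p.1 * p.2))) (hb p.1))
    (funFil_sep (G × G) Fil hsep) (funFil_complete G Fil hcomp)
    (fun j x hx hx1 => by
      obtain ⟨y, hy, h⟩ := hgr j x ((d2_eq_one_iff x).1 hx1) hx
      exact ⟨y, hy, fun p => h p.1 p.2⟩)
    c hc0 ((d2_eq_one_iff c).2 hc)
  obtain ⟨x, hx, h⟩ := key
  exact ⟨x, hx, fun g k => congrFun h (g, k)⟩

end Fermat.Agent.S55.Local.H535

end
-- ===== PACK-END S55/Local/H535/A12.lean

-- ===== PACK-BEGIN S55/Local/H542/FF2.lean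
section
/-
S55, layer L, piece FF2 (helper542): the multiplicative `H²` of an extension of finite fields
vanishes.

  theorem mulH2FiniteField_of (h4b : CycCocycleCoboundaryIffStatement)
      (h4c : CycCocycleSurjStatement) : MulH2FiniteFieldStatement

(glue form: takes the abstract cyclic-cocycle pieces A4b, A4c as hypotheses).
-/


set_option autoImplicit false

namespace Fermat.Agent.S55.Local.H542

open Fermat.Agent.S55.Local groupCohomology

/-- The product of two multiplicative 2-coboundaries is a 2-coboundary. -/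
theorem isMulCoboundary₂_mul {G M : Type} [Group G] [CommGroup M] [MulDistribMulAction G M]
    {c₁ c₂ : G × G → M} (h₁ : IsMulCoboundary₂ c₁) (h₂ : IsMulCoboundary₂ c₂) :
    IsMulCoboundary₂ (fun p => c₁ p * c₂ p) := by
  obtain ⟨x₁, hx₁⟩ := h₁
  obtain ⟨x₂, hx₂⟩ := h₂
  refine ⟨fun g => x₁ g * x₂ g, fun g h => ?_⟩
  simp only
  rw [← hx₁ g h, ← hx₂ g h, smul_mul']
  simp only [div_eq_mul_inv, mul_inv]
  ac_rfl

/-- In a finite Galois extension, the product over the Galois group of the conjugates of a unit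
is the image of its norm. -/
theorem prod_smul_units_eq_norm {k l : Type} [Field k] [Field l] [Algebra k l]
    [FiniteDimensional k l] [IsGalois k l] [Fintype (l ≃ₐ[k] l)] (y : lˣ) :
    ((∏ g : l ≃ₐ[k] l, g • y : lˣ) : l) = algebraMap k l (Algebra.norm k (y : l)) := by
  rw [Algebra.norm_eq_prod_automorphisms, Units.coe_prod]
  exact Finset.prod_congr (by ext; simp) fun g _ => rfl

/-- **FF2** (glue form). -/
theorem mulH2FiniteField_of (h4b : CycCocycleCoboundaryIffStatement)
    (h4c : CycCocycleSurjStatement) : MulH2FiniteFieldStatement := by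
  intro k l _ _ _ _ _ c hc
  have : Finite l := Module.finite_of_finite k
  have : IsGalois k l := inferInstance
  have : Finite (l ≃ₐ[k] l) := inferInstance
  let _ : Fintype (l ≃ₐ[k] l) := Fintype.ofFinite _
  obtain ⟨σ, hσ⟩ := IsCyclic.exists_generator (α := l ≃ₐ[k] l)
  obtain ⟨x, hx, hcob⟩ := h4c (l ≃ₐ[k] l) lˣ σ hσ c hc
  -- `x` is fixed by the whole Galois group, hence lies in `k`
  have hfix : ∀ g : l ≃ₐ[k] l, g • x = x := by
    intro g
    obtain ⟨n, rfl⟩ := Subgroup.mem_zpowers_iff.mp (hσ g)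
    have hsub : σ ∈ MulAction.stabilizer (l ≃ₐ[k] l) x := hx
    exact (MulAction.stabilizer (l ≃ₐ[k] l) x).zpow_mem hsub n
  have hxk : (x : l) ∈ (⊥ : IntermediateField k l) := by
    rw [← IsGalois.fixedField_top (F := k) (E := l), IntermediateField.mem_fixedField_iff]
    intro g _
    have := congrArg (fun u : lˣ => (u : l)) (hfix g)
    simpa using this
  obtain ⟨x₀, hx₀⟩ := IntermediateField.mem_bot.mp hxk
  have hx₀ne : x₀ ≠ 0 := by
    rintro rfl
    rw [map_zero] at hx₀
    exact x.ne_zero hx₀.symm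
  obtain ⟨y, hy⟩ := FiniteField.unitsMap_norm_surjective k l (Units.mk0 x₀ hx₀ne)
  have hnorm : ∏ g : l ≃ₐ[k] l, g • y = x := by
    apply Units.ext
    rw [prod_smul_units_eq_norm, ← hx₀]
    congr 1
    have := congrArg (fun u : kˣ => (u : k)) hy
    simpa using this
  have hstd : IsMulCoboundary₂ (cycCocycle σ x) :=
    (h4b (l ≃ₐ[k] l) lˣ σ hσ x hx).mpr ⟨y, hnorm⟩
  have := isMulCoboundary₂_mul hcob hstd
  convert this using 1
  funext p
  simp

end Fermat.Agent.S55.Local.H542

end
-- ===== PACK-END S55/Local/H542/FF2.lean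

-- ===== PACK-BEGIN S55/Local/H530/Basic.lean
section


/-!
# S55 layer L — small integrality helpers used by the glue pieces T1a/T1b/T2 (helper530)
-/

set_option autoImplicit false

namespace Fermat.Agent.S55.Local.H530

open Fermat.Agent.S55.Local

section aux

variable (A F : Type) [CommRing A] [Field F] [Algebra A F]
variable (K : Type) [Field K] [Algebra F K]
variable (L : Type) [Field L] [Algebra F L] [Algebra K L] [IsScalarTower F K L]

lemma toL_eq_comp : toL A F L = (algebraMap K L).comp (toL A F K) := by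
  ext a
  simp [toL, IsScalarTower.algebraMap_apply F K L]

variable {A F K L}

/-- Integrality over `A` passes from `K` to `L`. -/
lemma isInt_algebraMap {x : K} (hx : IsInt A F K x) : IsInt A F L (algebraMap K L x) := by
  obtain ⟨p, hp, hpx⟩ := hx
  refine ⟨p, hp, ?_⟩
  rw [toL_eq_comp A F K L, ← Polynomial.hom_eval₂, hpx, map_zero]

/-- Integrality over `A` is intrinsic: it can be tested in the bigger field. -/
lemma isInt_of_isInt_algebraMap {x : K} (hx : IsInt A F L (algebraMap K L x)) : IsInt A F K x := by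
  obtain ⟨p, hp, hpx⟩ := hx
  refine ⟨p, hp, ?_⟩
  rw [toL_eq_comp A F K L, ← Polynomial.hom_eval₂] at hpx
  exact (algebraMap K L).injective (by rw [hpx, map_zero])

lemma isInt_algebraMap_iff {x : K} : IsInt A F L (algebraMap K L x) ↔ IsInt A F K x :=
  ⟨isInt_of_isInt_algebraMap, isInt_algebraMap⟩

/-- A `K`-algebra automorphism of `L` preserves integrality over `A`. -/
lemma isInt_algEquiv (σ : L ≃ₐ[K] L) {x : L} (hx : IsInt A F L x) : IsInt A F L (σ x) := by
  obtain ⟨p, hp, hpx⟩ := hx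
  refine ⟨p, hp, ?_⟩
  have hσ : (σ : L →+* L).comp (toL A F L) = toL A F L := by
    ext a
    simp only [RingHom.comp_apply, toL_apply, RingHom.coe_coe]
    rw [IsScalarTower.algebraMap_apply F K L, σ.commutes]
  have := Polynomial.hom_eval₂ p (toL A F L) (σ : L →+* L) x
  rw [hσ, hpx, map_zero] at this
  simpa using this.symm

lemma smul_mem_intUnits (σ : L ≃ₐ[K] L) {x : Lˣ} (hx : x ∈ intUnits A F L) :
    σ • x ∈ intUnits A F L := by
  refine ⟨?_, ?_⟩
  · have : ((σ • x : Lˣ) : L) = σ (x : L) := rfl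
    rw [this]; exact isInt_algEquiv σ hx.1
  · have : (((σ • x)⁻¹ : Lˣ) : L) = σ ((x⁻¹ : Lˣ) : L) := by
      rw [← smul_inv']; rfl
    rw [this]; exact isInt_algEquiv σ hx.2

lemma smul_mem_higherUnits (σ : L ≃ₐ[K] L) (ϖ : K) (j : ℕ) {x : Lˣ}
    (hx : x ∈ higherUnits A F L (algebraMap K L ϖ) j) :
    σ • x ∈ higherUnits A F L (algebraMap K L ϖ) j := by
  obtain ⟨hxu, b, hb, hxb⟩ := hx
  refine ⟨smul_mem_intUnits σ hxu, σ b, isInt_algEquiv σ hb, ?_⟩
  have : ((σ • x : Lˣ) : L) = σ (x : L) := rfl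
  rw [this, hxb]
  simp [σ.commutes]

lemma higherUnits_succ_le {ϖ : L} (hϖ : IsInt A F L ϖ) (j : ℕ) :
    higherUnits A F L ϖ (j + 1) ≤ higherUnits A F L ϖ j := by
  rintro x ⟨hxu, b, hb, hxb⟩
  exact ⟨hxu, ϖ * b, hϖ.mul hb, by rw [hxb]; ring⟩

lemma higherUnits_zero (ϖ : L) : higherUnits A F L ϖ 0 = intUnits A F L := by
  ext x
  constructor
  · rintro ⟨hxu, -⟩; exact hxu
  · intro hx
    refine ⟨hx, (x : L) - 1, ?_, by ring⟩
    have := hx.1.add (isInt_one A F L).neg
    simpa [sub_eq_add_neg] using this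

/-- A uniformizer of `K`, viewed in `L`, is integral, nonzero, with non-integral inverse. -/
lemma unif_algebraMap_props {ϖK : Kˣ} (h : IsUnif A F K ϖK) :
    IsInt A F L (algebraMap K L ϖK) ∧ algebraMap K L (ϖK : K) ≠ 0 ∧
      ¬ IsInt A F L (algebraMap K L (ϖK : K))⁻¹ := by
  refine ⟨isInt_algebraMap h.1, ?_, ?_⟩
  · simp
  · intro hinv
    apply h.2.1
    refine ⟨h.1, ?_⟩
    rw [← map_inv₀] at hinv
    have := isInt_of_isInt_algebraMap (A := A) (F := F) hinv
    simpa using this

end aux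

end Fermat.Agent.S55.Local.H530

end
-- ===== PACK-END S55/Local/H530/Basic.lean

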