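import Mathlib
import Fermat.Agent.Pack.S56.E4L1
import Fermat.Agent.Pack.S56.E5L2
import Fermat.Agent.Pack.S56.E5L3
import Fermat.Agent.Pack.S56.E5L0
import Fermat.Agent.Pack.S56.E0L0
import Fermat.Agent.Pack.S56.E5L1
import Fermat.Agent.Pack.S56.E3L0
import Fermat.Agent.Pack.S56.E1L3
import Fermat.Agent.Pack.S56.E3L3
import Fermat.Agent.Pack.S56.E1L1

-- ===== PACK-BEGIN S56/P3/H306/Basic.lean
section


/-!
# S56 / P3 : basic lemmas on the twisted adjoint action and twisted cocycles (helper306)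
-/

set_option autoImplicit false

open Polynomial

namespace Fermat.Agent.S56.P3.H306

open Fermat.Agent.S56.P3

variable {k : Type} [Field k] {V : Type} [AddCommGroup V] [Module k V] [Module.Finite k V]
variable {Γ : Type} [Group Γ]

theorem rho_mul_inv (ρ : Γ →* Module.End k V) (g : Γ) : ρ g * ρ g⁻¹ = 1 := by
  rw [← map_mul, mul_inv_cancel, map_one]

theorem rho_inv_mul (ρ : Γ →* Module.End k V) (g : Γ) : ρ g⁻¹ * ρ g = 1 := by
  rw [← map_mul, inv_mul_cancel, map_one]

theorem det_rho_mul_inv (ρ : Γ →* Module.End k V) (g : Γ) :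
    LinearMap.det (ρ g) * LinearMap.det (ρ g⁻¹) = 1 := by
  rw [← map_mul, rho_mul_inv, map_one]

theorem det_rho_ne_zero (ρ : Γ →* Module.End k V) (g : Γ) : LinearMap.det (ρ g) ≠ 0 := by
  intro h
  have := det_rho_mul_inv ρ g
  rw [h, zero_mul] at this
  exact zero_ne_one this

theorem rho_eq_one_inv {ρ : Γ →* Module.End k V} {g : Γ} (h : ρ g = 1) : ρ g⁻¹ = 1 := by
  have := rho_inv_mul ρ g
  rwa [h, mul_one] at this

/-- conjugation as a linear map. -/
noncomputable def conjL (ρ : Γ →* Module.End k V) (g : Γ) :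
    Module.End k V →ₗ[k] Module.End k V :=
  (LinearMap.mulLeft k (ρ g)).comp (LinearMap.mulRight k (ρ g⁻¹))

@[simp] theorem conjL_apply (ρ : Γ →* Module.End k V) (g : Γ) (A : Module.End k V) :
    conjL ρ g A = ρ g * A * ρ g⁻¹ := by
  simp [conjL, mul_assoc]

theorem trace_conj (ρ : Γ →* Module.End k V) (g : Γ) (A : Module.End k V) :
    LinearMap.trace k V (ρ g * A * ρ g⁻¹) = LinearMap.trace k V A := by
  rw [LinearMap.trace_mul_comm, ← mul_assoc, rho_inv_mul, one_mul]

theorem twEnd_one (ρ : Γ →* Module.End k V) (A : Module.End k V) : twEnd ρ 1 A = A := by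
  simp [twEnd]

theorem twEnd_of_rho_eq_one {ρ : Γ →* Module.End k V} {g : Γ} (h : ρ g = 1)
    (A : Module.End k V) : twEnd ρ g A = A := by
  simp [twEnd, h, rho_eq_one_inv h]

theorem twEnd_congr {ρ : Γ →* Module.End k V} {g h : Γ} (e : ρ g = ρ h)
    (A : Module.End k V) : twEnd ρ g A = twEnd ρ h A := by
  have e' : ρ g⁻¹ = ρ h⁻¹ := by
    have h1 : ρ g⁻¹ * ρ g = 1 := rho_inv_mul ρ g
    calc ρ g⁻¹ = ρ g⁻¹ * (ρ h * ρ h⁻¹) := by rw [rho_mul_inv, mul_one]
      _ = (ρ g⁻¹ * ρ g) * ρ h⁻¹ := by rw [e, mul_assoc]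
      _ = ρ h⁻¹ := by rw [h1, one_mul]
  simp only [twEnd, e, e']

theorem twEnd_add (ρ : Γ →* Module.End k V) (g : Γ) (A B : Module.End k V) :
    twEnd ρ g (A + B) = twEnd ρ g A + twEnd ρ g B := by
  simp only [twEnd, mul_add, add_mul, smul_add]

theorem twEnd_neg (ρ : Γ →* Module.End k V) (g : Γ) (A : Module.End k V) :
    twEnd ρ g (-A) = - twEnd ρ g A := by
  simp only [twEnd, mul_neg, neg_mul, smul_neg]

theorem twEnd_sub (ρ : Γ →* Module.End k V) (g : Γ) (A B : Module.End k V) :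
    twEnd ρ g (A - B) = twEnd ρ g A - twEnd ρ g B := by
  simp only [twEnd, mul_sub, sub_mul, smul_sub]

section Cocycle

variable {ρ : Γ →* Module.End k V} {ψ : Γ → Module.End k V}

theorem cocycle_one (hψ : _root_.Fermat.Agent.S56.P3.IsTwCocycle ρ ψ) : ψ 1 = 0 := by
  have h := hψ.map_mul 1 1
  rw [mul_one, twEnd_one] at h
  exact left_eq_add.mp h

theorem cocycle_inv (hψ : _root_.Fermat.Agent.S56.P3.IsTwCocycle ρ ψ) (g : Γ) : twEnd ρ g (ψ g⁻¹) = - ψ g := by
  have h := hψ.map_mul g g⁻¹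
  rw [mul_inv_cancel, cocycle_one hψ] at h
  exact (neg_eq_of_add_eq_zero_right h.symm).symm ▸ rfl

/-- on `ker ρ`, a cocycle is equivariant for conjugation. -/
theorem cocycle_conj (hψ : _root_.Fermat.Agent.S56.P3.IsTwCocycle ρ ψ) (g ν : Γ) (hν : ρ ν = 1) :
    ψ (g * ν * g⁻¹) = twEnd ρ g (ψ ν) := by
  have e : ρ (g * ν) = ρ g := by rw [map_mul, hν, mul_one]
  rw [hψ.map_mul (g * ν) g⁻¹, hψ.map_mul g ν, twEnd_congr e, cocycle_inv hψ]
  abel

theorem cocycle_mul_of_rho_eq_one (hψ : _root_.Fermat.Agent.S56.P3.IsTwCocycle ρ ψ) (ν g : Γ) (hν : ρ ν = 1) :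
    ψ (ν * g) = ψ ν + ψ g := by
  rw [hψ.map_mul, twEnd_of_rho_eq_one hν]

end Cocycle

end Fermat.Agent.S56.P3.H306

end
-- ===== PACK-END S56/P3/H306/Basic.lean

-- ===== PACK-BEGIN S56/P3/H934/IRR.lean
section


/-!
# S56 / P3 / piece IRR : `ad⁰ρ` is irreducible   (helper934)

`theorem Fermat.Agent.S56.P3.H934.ad0Irreducible : Ad0IrreducibleStatement`

Route (coord/S56-P3.md, sec. IRR):
* a proper non-zero conjugation-stable subspace `W` of the trace-zero endomorphisms yields a stable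
  LINE `k·A` (`dim W = 1`: `W` itself; `dim W = 2`: the commutator `[A₁, A₂]` of a basis);
* a stable line contradicts `TWHyp`: over `K = k̄` take an eigenvalue `μ` of `A`; `A² = δ` is scalar,
  so `ρ(g) A ρ(g)⁻¹ = ± A` when `μ ≠ 0`; the eigenspace is stable under the subgroup
  `{g | ρ(g) A ρ(g)⁻¹ = A}` of index `≤ 2` (resp. under `Γ` when `μ = 0`).
-/

set_option autoImplicit false

open Polynomial

namespace Fermat.Agent.S56.P3.H934

open Fermat.Agent.S56.P3

/-! ## 2×2 matrices -/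

section Mat

variable {k : Type} [Field k]

lemma mat_sq_of_trace_zero (M : Matrix (Fin 2) (Fin 2) k) (h : M.trace = 0) :
    M * M = (-M.det) • (1 : Matrix (Fin 2) (Fin 2) k) := by
  rw [Matrix.trace_fin_two] at h
  ext i j
  fin_cases i <;> fin_cases j
  · simp [Matrix.mul_apply, Fin.sum_univ_two, Matrix.det_fin_two]
    linear_combination M 0 0 * h
  · simp [Matrix.mul_apply, Fin.sum_univ_two, Matrix.det_fin_two]
    linear_combination M 0 1 * h
  · simp [Matrix.mul_apply, Fin.sum_univ_two, Matrix.det_fin_two]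
    linear_combination M 1 0 * h
  · simp [Matrix.mul_apply, Fin.sum_univ_two, Matrix.det_fin_two]
    linear_combination M 1 1 * h

/-- Two commuting trace-zero `2×2` matrices are linearly dependent (`2 ≠ 0`). -/
lemma mat_dep_of_commute (h2 : (2 : k) ≠ 0) (M N : Matrix (Fin 2) (Fin 2) k)
    (hM : M.trace = 0) (hN : N.trace = 0) (hc : M * N = N * M) :
    ∃ x y : k, (x ≠ 0 ∨ y ≠ 0) ∧ x • M + y • N = 0 := by
  rw [Matrix.trace_fin_two] at hM hN
  have e00 := congrFun (congrFun hc 0) 0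
  have e01 := congrFun (congrFun hc 0) 1
  have e10 := congrFun (congrFun hc 1) 0
  simp only [Matrix.mul_apply, Fin.sum_univ_two] at e00 e01 e10
  -- notation
  set a := M 0 0 with ha
  set b := M 0 1 with hb
  set c := M 1 0 with hc'
  set d := M 1 1 with hd
  set a' := N 0 0 with ha'
  set b' := N 0 1 with hb'
  set c' := N 1 0 with hc''
  set d' := N 1 1 with hd'
  have hd1 : d = -a := by linear_combination hM
  have hd2 : d' = -a' := by linear_combination hN
  -- consequences of commutation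
  have k1 : b * c' = c * b' := by linear_combination e00
  have k2 : a * b' = b * a' := by
    have : (2 : k) * (a * b' - b * a') = 0 := by
      rw [hd1, hd2] at e01
      linear_combination e01
    have := (mul_eq_zero.1 this).resolve_left h2
    linear_combination this
  have k3 : c * a' = a * c' := by
    have : (2 : k) * (c * a' - a * c') = 0 := by
      rw [hd1, hd2] at e10
      linear_combination e10
    have := (mul_eq_zero.1 this).resolve_left h2
    linear_combination this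
  by_cases hN0 : N = 0
  · exact ⟨0, 1, Or.inr one_ne_zero, by simp [hN0]⟩
  have hex : a' ≠ 0 ∨ b' ≠ 0 ∨ c' ≠ 0 := by
    by_contra hcon
    simp only [not_or, not_not] at hcon
    obtain ⟨h1, h2', h3⟩ := hcon
    apply hN0
    ext i j
    fin_cases i <;> fin_cases j
    · exact h1
    · exact h2'
    · exact h3
    · show d' = 0
      rw [hd2, h1, neg_zero]
  rcases hex with h | h | h
  · refine ⟨a', -a, Or.inl h, ?_⟩
    ext i j
    fin_cases i <;> fin_cases j
    · show a' * a + -a * a' = 0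
      ring
    · show a' * b + -a * b' = 0
      linear_combination -k2
    · show a' * c + -a * c' = 0
      linear_combination k3
    · show a' * d + -a * d' = 0
      rw [hd1, hd2]; ring
  · refine ⟨b', -b, Or.inl h, ?_⟩
    ext i j
    fin_cases i <;> fin_cases j
    · show b' * a + -b * a' = 0
      linear_combination k2
    · show b' * b + -b * b' = 0
      ring
    · show b' * c + -b * c' = 0
      linear_combination -k1
    · show b' * d + -b * d' = 0
      rw [hd1, hd2]; linear_combination -k2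
  · refine ⟨c', -c, Or.inl h, ?_⟩
    ext i j
    fin_cases i <;> fin_cases j
    · show c' * a + -c * a' = 0
      linear_combination -k3
    · show c' * b + -c * b' = 0
      linear_combination k1
    · show c' * c + -c * c' = 0
      ring
    · show c' * d + -c * d' = 0
      rw [hd1, hd2]; linear_combination k3

end Mat

/-! ## Endomorphisms of a 2-dimensional space -/

section EndV

variable {k : Type} [Field k] {V : Type} [AddCommGroup V] [Module k V] [Module.Finite k V]

lemma end_sq_of_trace_zero (hV : Module.finrank k V = 2) (A : Module.End k V)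
    (hA : LinearMap.trace k V A = 0) : ∃ δ : k, A * A = δ • (1 : Module.End k V) := by
  let b : Module.Basis (Fin 2) k V := Module.finBasisOfFinrankEq k V hV
  have htr : (LinearMap.toMatrix b b A).trace = 0 := by
    rw [← LinearMap.trace_eq_matrix_trace k b A, hA]
  refine ⟨-(LinearMap.toMatrix b b A).det, ?_⟩
  apply (LinearMap.toMatrix b b).injective
  rw [LinearMap.toMatrix_mul, mat_sq_of_trace_zero _ htr, map_smul, LinearMap.toMatrix_one]

lemma end_dep_of_commute (hV : Module.finrank k V = 2) (h2 : (2 : k) ≠ 0)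
    (A B : Module.End k V) (hA : LinearMap.trace k V A = 0) (hB : LinearMap.trace k V B = 0)
    (hc : A * B = B * A) : ∃ x y : k, (x ≠ 0 ∨ y ≠ 0) ∧ x • A + y • B = 0 := by
  let b : Module.Basis (Fin 2) k V := Module.finBasisOfFinrankEq k V hV
  have htrA : (LinearMap.toMatrix b b A).trace = 0 := by
    rw [← LinearMap.trace_eq_matrix_trace k b A, hA]
  have htrB : (LinearMap.toMatrix b b B).trace = 0 := by
    rw [← LinearMap.trace_eq_matrix_trace k b B, hB]
  have hcm : LinearMap.toMatrix b b A * LinearMap.toMatrix b b B =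
      LinearMap.toMatrix b b B * LinearMap.toMatrix b b A := by
    rw [← LinearMap.toMatrix_mul, ← LinearMap.toMatrix_mul, hc]
  obtain ⟨x, y, hxy, h⟩ := mat_dep_of_commute h2 _ _ htrA htrB hcm
  refine ⟨x, y, hxy, ?_⟩
  apply (LinearMap.toMatrix b b).injective
  rw [map_add, map_smul, map_smul, h, map_zero]

/-- Base change to a field extension is injective on endomorphisms. -/
lemma baseChange_eq_zero (hV : Module.finrank k V = 2) (K : Type) [Field K] [Algebra k K]
    (A : Module.End k V) (h : A.baseChange K = 0) : A = 0 := by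
  let b : Module.Basis (Fin 2) k V := Module.finBasisOfFinrankEq k V hV
  apply (LinearMap.toMatrix b b).injective
  have h1 := LinearMap.toMatrix_baseChange (A := K) A b b
  rw [h, map_zero] at h1
  rw [map_zero]
  ext i j
  have h2 := congrFun (congrFun h1 i) j
  simp only [Matrix.zero_apply, Matrix.map_apply] at h2
  have hinj := (algebraMap k K).injective
  rw [Matrix.zero_apply]
  apply hinj
  rw [← h2, map_zero]

end EndV

/-! ## A conjugation-stable line contradicts `TWHyp` -/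

section Line

variable {k : Type} [Field k] {V : Type} [AddCommGroup V] [Module k V] [Module.Finite k V]
variable {Γ : Type} [Group Γ]

lemma two_ne_zero_of_char (p : ℕ) [Fact p.Prime] (hp2 : p ≠ 2) (hp : (p : k) = 0) :
    (2 : k) ≠ 0 := by
  intro h2
  obtain ⟨m, hm⟩ : ∃ m, p = 2 * m + 1 := by
    rcases Nat.Prime.eq_two_or_odd' (Fact.out : p.Prime) with h | h
    · exact absurd h hp2
    · exact h
  rw [hm] at hp
  push_cast at hp
  rw [h2, zero_mul, zero_add] at hp
  exact one_ne_zero hp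

lemma rho_mul_inv (ρ : Γ →* Module.End k V) (g : Γ) : ρ g * ρ g⁻¹ = 1 := by
  rw [← map_mul, mul_inv_cancel, map_one]

lemma rho_inv_mul (ρ : Γ →* Module.End k V) (g : Γ) : ρ g⁻¹ * ρ g = 1 := by
  rw [← map_mul, inv_mul_cancel, map_one]

/-- Conjugation by `ρ g`. -/
def conj (ρ : Γ →* Module.End k V) (g : Γ) (X : Module.End k V) : Module.End k V :=
  ρ g * X * ρ g⁻¹

lemma conj_mul (ρ : Γ →* Module.End k V) (a b : Γ) (X : Module.End k V) :
    conj ρ (a * b) X = conj ρ a (conj ρ b X) := by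
  unfold conj
  rw [mul_inv_rev, map_mul, map_mul]
  simp only [mul_assoc]

lemma conj_one (ρ : Γ →* Module.End k V) (X : Module.End k V) : conj ρ 1 X = X := by
  unfold conj
  rw [inv_one, map_one, one_mul, mul_one]

lemma conj_smul (ρ : Γ →* Module.End k V) (g : Γ) (c : k) (X : Module.End k V) :
    conj ρ g (c • X) = c • conj ρ g X := by
  unfold conj
  rw [mul_smul_comm, smul_mul_assoc]

lemma conj_neg (ρ : Γ →* Module.End k V) (g : Γ) (X : Module.End k V) :
    conj ρ g (-X) = -conj ρ g X := by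
  unfold conj
  rw [mul_neg, neg_mul]

lemma conj_inv_conj (ρ : Γ →* Module.End k V) (g : Γ) (X : Module.End k V) :
    conj ρ g⁻¹ (conj ρ g X) = X := by
  rw [← conj_mul, inv_mul_cancel, conj_one]

lemma conj_sub (ρ : Γ →* Module.End k V) (g : Γ) (X Y : Module.End k V) :
    conj ρ g (X - Y) = conj ρ g X - conj ρ g Y := by
  unfold conj
  rw [mul_sub, sub_mul]

lemma conj_add (ρ : Γ →* Module.End k V) (g : Γ) (X Y : Module.End k V) :
    conj ρ g (X + Y) = conj ρ g X + conj ρ g Y := by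
  unfold conj
  rw [mul_add, add_mul]

lemma conj_mul_mul (ρ : Γ →* Module.End k V) (g : Γ) (X Y : Module.End k V) :
    conj ρ g (X * Y) = conj ρ g X * conj ρ g Y := by
  unfold conj
  calc ρ g * (X * Y) * ρ g⁻¹ = ρ g * X * (1 : Module.End k V) * Y * ρ g⁻¹ := by
        rw [mul_one]; simp only [mul_assoc]
    _ = ρ g * X * (ρ g⁻¹ * ρ g) * Y * ρ g⁻¹ := by rw [rho_inv_mul]
    _ = ρ g * X * ρ g⁻¹ * (ρ g * Y * ρ g⁻¹) := by simp only [mul_assoc]

/-- The subgroup of elements commuting with `A`. -/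
def centr (ρ : Γ →* Module.End k V) (A : Module.End k V) : Subgroup Γ where
  carrier := {g | conj ρ g A = A}
  one_mem' := conj_one ρ A
  mul_mem' := by
    intro a b ha hb
    show conj ρ (a * b) A = A
    rw [conj_mul, (hb : conj ρ b A = A), (ha : conj ρ a A = A)]
  inv_mem' := by
    intro a ha
    show conj ρ a⁻¹ A = A
    have h := conj_inv_conj ρ a A
    rwa [(ha : conj ρ a A = A)] at h

lemma mem_centr {ρ : Γ →* Module.End k V} {A : Module.End k V} {g : Γ} :
    g ∈ centr ρ A ↔ conj ρ g A = A := Iff.rfl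

local notation "K" => AlgebraicClosure k
local notation "VK" => TensorProduct k (AlgebraicClosure k) V

theorem no_stable_line (ρ : Γ →* Module.End k V) (p : ℕ) [Fact p.Prime] (hp2 : p ≠ 2)
    (h : TWHyp ρ p) (A : Module.End k V) (hA0 : A ≠ 0) (hAtr : LinearMap.trace k V A = 0)
    (hst : ∀ g : Γ, ∃ c : k, conj ρ g A = c • A) : False := by
  classical
  have h2 : (2 : k) ≠ 0 := two_ne_zero_of_char p hp2 h.char_p
  let AK : Module.End K VK := A.baseChange K
  let R : Γ → Module.End K VK := fun g => (ρ g).baseChange K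
  have hRinv : ∀ g, R g⁻¹ * R g = 1 := fun g => by
    show (ρ g⁻¹).baseChange K * (ρ g).baseChange K = 1
    rw [← LinearMap.baseChange_mul, rho_inv_mul, LinearMap.baseChange_one]
  -- the relation `ρ(g) A = c A ρ(g)` and its base change
  have rel : ∀ (g : Γ) (c : k), conj ρ g A = c • A → ∀ y : VK,
      R g (AK y) = algebraMap k K c • AK (R g y) := by
    intro g c hc y
    have h1 : ρ g * A = c • (A * ρ g) := by
      calc ρ g * A = ρ g * A * (ρ g⁻¹ * ρ g) := by rw [rho_inv_mul, mul_one]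
        _ = (ρ g * A * ρ g⁻¹) * ρ g := by simp only [mul_assoc]
        _ = c • (A * ρ g) := by
            rw [show ρ g * A * ρ g⁻¹ = c • A from hc, smul_mul_assoc]
    have h3 : R g * AK = c • (AK * R g) := by
      show (ρ g).baseChange K * A.baseChange K = c • (A.baseChange K * (ρ g).baseChange K)
      rw [← LinearMap.baseChange_mul, ← LinearMap.baseChange_mul, h1, LinearMap.baseChange_smul]
    have h4 := congrArg (fun f : Module.End K VK => f y) h3
    simp only [Module.End.mul_apply, LinearMap.smul_apply] at h4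
    rw [h4, algebraMap_smul]
  have hc0 : ∀ (g : Γ) (c : k), conj ρ g A = c • A → c ≠ 0 := by
    intro g c hc hc0
    rw [hc0, zero_smul] at hc
    apply hA0
    have := conj_inv_conj ρ g A
    rw [hc] at this
    rw [← this]
    unfold conj
    rw [mul_zero, zero_mul]
  obtain ⟨δ, hδ⟩ := end_sq_of_trace_zero h.finrank_eq A hAtr
  have hδK : ∀ y : VK, AK (AK y) = algebraMap k K δ • y := by
    intro y
    have h3 : AK * AK = δ • (1 : Module.End K VK) := by
      show A.baseChange K * A.baseChange K = δ • 1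
      rw [← LinearMap.baseChange_mul, hδ, LinearMap.baseChange_smul, LinearMap.baseChange_one]
    have h4 := congrArg (fun f : Module.End K VK => f y) h3
    simp only [Module.End.mul_apply, LinearMap.smul_apply, Module.End.one_apply] at h4
    rw [h4, algebraMap_smul]
  have hfr : Module.finrank K VK = 2 := by
    show Module.finrank K (TensorProduct k K V) = 2
    rw [Module.finrank_baseChange, h.finrank_eq]
  haveI : Nontrivial VK := Module.nontrivial_of_finrank_pos (R := K) (by rw [hfr]; norm_num)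
  obtain ⟨μ, hμ⟩ := Module.End.exists_eigenvalue AK
  obtain ⟨x, hx⟩ := hμ.exists_hasEigenvector
  have hxe : AK x = μ • x := hx.apply_eq_smul
  have hx0 : x ≠ 0 := hx.2
  -- eigenvalues square to δ
  have hsq : ∀ (ν : K) (y : VK), y ≠ 0 → AK y = ν • y → ν * ν = algebraMap k K δ := by
    intro ν y hy hν
    have h1 := hδK y
    rw [hν, map_smul, hν, smul_smul] at h1
    have h3 : (ν * ν - algebraMap k K δ) • y = 0 :=
      (sub_smul (ν * ν) (algebraMap k K δ) y).trans (by rw [h1, sub_self])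
    rcases smul_eq_zero.1 h3 with h4 | h4
    · exact sub_eq_zero.1 h4
    · exact absurd h4 hy
  let L : Submodule K VK := Module.End.eigenspace AK μ
  have hLmem : ∀ y : VK, y ∈ L ↔ AK y = μ • y := fun y => Module.End.mem_eigenspace_iff
  have hLbot : L ≠ ⊥ := by
    intro hL
    have hxL : x ∈ L := (hLmem x).2 hxe
    rw [hL, Submodule.mem_bot] at hxL
    exact hx0 hxL
  have h2K : (2 : K) ≠ 0 := by
    intro h0
    apply h2
    apply (algebraMap k K).injective
    rw [map_ofNat, h0, map_zero]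
  have hLtop : L ≠ ⊤ := by
    intro hL
    have hall : ∀ y : VK, AK y = μ • y := fun y => (hLmem y).1 (by rw [hL]; trivial)
    have hAK : AK = μ • (1 : Module.End K VK) := by
      refine LinearMap.ext fun y => ?_
      rw [hall y]; rfl
    have htr : LinearMap.trace K VK AK = 0 := by
      show LinearMap.trace K (TensorProduct k K V) (A.baseChange K) = 0
      rw [LinearMap.trace_baseChange, hAtr, map_zero]
    rw [hAK, map_smul, LinearMap.trace_one, hfr, smul_eq_mul] at htr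
    have hμ0 : μ = 0 := by
      rcases mul_eq_zero.1 htr with h0 | h0
      · exact h0
      · exact absurd (by exact_mod_cast h0) h2K
    rw [hμ0, zero_smul] at hAK
    exact hA0 (baseChange_eq_zero h.finrank_eq K A hAK)
  -- action on eigenvectors
  have hact : ∀ (g : Γ) (c : k), conj ρ g A = c • A → ∀ (ν : K) (y : VK), AK y = ν • y →
      AK (R g y) = ((algebraMap k K c)⁻¹ * ν) • R g y := by
    intro g c hc ν y hy
    have h1 := rel g c hc y
    rw [hy, map_smul] at h1
    have hcK : algebraMap k K c ≠ 0 := by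
      intro h0
      exact hc0 g c hc ((algebraMap k K).injective (by rw [h0, map_zero]))
    rw [mul_smul, h1, smul_smul, inv_mul_cancel₀ hcK, one_smul]
  by_cases hμ0 : μ = 0
  · -- `ker A` is stable under all of `Γ`
    have hstab : ∀ g : Γ, ∀ y ∈ L, (ρ g).baseChange K y ∈ L := by
      intro g y hy
      obtain ⟨c, hc⟩ := hst g
      rw [hLmem] at hy ⊢
      have := hact g c hc μ y hy
      rw [hμ0, mul_zero, zero_smul] at this
      show AK (R g y) = μ • R g y
      rw [this, hμ0, zero_smul]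
    rcases h.absIrr L hstab with h0 | h0
    · exact hLbot h0
    · exact hLtop h0
  · -- `c(g) = ± 1`
    have hpm : ∀ g : Γ, conj ρ g A = A ∨ conj ρ g A = -A := by
      intro g
      obtain ⟨c, hc⟩ := hst g
      have hcK : algebraMap k K c ≠ 0 := by
        intro h0
        exact hc0 g c hc ((algebraMap k K).injective (by rw [h0, map_zero]))
      have hy0 : R g x ≠ 0 := by
        intro h0
        apply hx0
        have h1 : (R g⁻¹ * R g) x = x := by rw [hRinv]; rfl
        rw [Module.End.mul_apply, h0, map_zero] at h1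
        exact h1.symm
      have h1 := hsq _ (R g x) hy0 (hact g c hc μ x hxe)
      have h3 := hsq μ x hx0 hxe
      have h4 : (algebraMap k K c) * (algebraMap k K c) = 1 := by
        have h5 : (algebraMap k K c)⁻¹ * μ * ((algebraMap k K c)⁻¹ * μ) = μ * μ := by
          rw [h1, h3]
        have hμμ : μ * μ ≠ 0 := mul_ne_zero hμ0 hμ0
        have h6 : (algebraMap k K c) * (algebraMap k K c) *
            ((algebraMap k K c)⁻¹ * μ * ((algebraMap k K c)⁻¹ * μ)) = μ * μ := by
          field_simp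
        rw [h5] at h6
        exact mul_right_cancel₀ hμμ (h6.trans (one_mul _).symm)
      have h8 : c * c = 1 := by
        apply (algebraMap k K).injective
        rw [map_mul, h4, map_one]
      have h9 : (c - 1) * (c + 1) = 0 := by linear_combination h8
      rcases mul_eq_zero.1 h9 with h10 | h10
      · left
        rw [hc, sub_eq_zero.1 h10, one_smul]
      · right
        rw [hc, eq_neg_of_add_eq_zero_left h10, neg_smul, one_smul]
    have hstab : ∀ g ∈ centr ρ A, ∀ y ∈ L, (ρ g).baseChange K y ∈ L := by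
      intro g hg y hy
      have hc : conj ρ g A = (1 : k) • A := by rw [one_smul]; exact hg
      rw [hLmem] at hy ⊢
      have := hact g 1 hc μ y hy
      rw [map_one, inv_one, one_mul] at this
      exact this
    by_cases hall : ∀ g : Γ, g ∈ centr ρ A
    · rcases h.absIrr L (fun g => hstab g (hall g)) with h0 | h0
      · exact hLbot h0
      · exact hLtop h0
    · simp only [not_forall] at hall
      obtain ⟨a, ha⟩ := hall
      have ha' : conj ρ a A = -A := (hpm a).resolve_left ha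
      have hidx : (centr ρ A).index = 2 := by
        rw [Subgroup.index_eq_two_iff]
        refine ⟨a, fun b => ?_⟩
        by_cases hb : b ∈ centr ρ A
        · refine Or.inr ⟨hb, fun hba => ha ?_⟩
          have := (centr ρ A).mul_mem ((centr ρ A).inv_mem hb) hba
          rwa [inv_mul_cancel_left] at this
        · refine Or.inl ⟨?_, hb⟩
          have hb' : conj ρ b A = -A := (hpm b).resolve_left hb
          show conj ρ (b * a) A = A
          rw [conj_mul, ha', conj_neg, hb', neg_neg]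
      rcases h.tw K (centr ρ A) hidx L hstab with h0 | h0
      · exact hLbot h0
      · exact hLtop h0

end Line

/-! ## The main theorem -/

/-- **Piece IRR**: under `TWHyp`, `ad⁰ρ` is irreducible. -/
theorem ad0Irreducible : Ad0IrreducibleStatement := by
  intro k _ V _ _ _ Γ _ ρ p _ hp2 h W hWtr hWst hWne A hA
  classical
  by_contra hAW
  have h2 : (2 : k) ≠ 0 := two_ne_zero_of_char p hp2 h.char_p
  have hWst' : ∀ g : Γ, ∀ X ∈ W, conj ρ g X ∈ W := hWst
  -- `1 ≤ finrank W ≤ 2`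
  let T : Submodule k (Module.End k V) := LinearMap.ker (LinearMap.trace k V)
  have hWT : W ≤ T := fun X hX => LinearMap.mem_ker.2 (hWtr X hX)
  have hAT : A ∈ T := LinearMap.mem_ker.2 hA
  have hWltT : W < T := lt_of_le_of_ne hWT (fun heq => hAW (heq ▸ hAT))
  have hTne : T ≠ ⊤ := by
    intro hT
    have h1 : (1 : Module.End k V) ∈ T := by rw [hT]; trivial
    rw [LinearMap.mem_ker, LinearMap.trace_one, h.finrank_eq] at h1
    exact h2 (by exact_mod_cast h1)
  have hfinEnd : Module.finrank k (Module.End k V) = 4 := by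
    show Module.finrank k (V →ₗ[k] V) = 4
    rw [Module.finrank_linearMap, h.finrank_eq]
  have hT3 : Module.finrank k T < 4 := hfinEnd ▸ Submodule.finrank_lt hTne
  have hW3 : Module.finrank k W < Module.finrank k T := Submodule.finrank_lt_finrank_of_lt hWltT
  have hW0 : Module.finrank k W ≠ 0 := fun h0 => hWne (Submodule.finrank_eq_zero.1 h0)
  have hcases : Module.finrank k W = 1 ∨ Module.finrank k W = 2 := by omega
  rcases hcases with h1 | h2'
  · -- `W` is a line
    obtain ⟨v, hv0, hv⟩ := finrank_eq_one_iff'.1 h1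
    refine no_stable_line ρ p hp2 h (v : Module.End k V) ?_ (hWtr _ v.2) ?_
    · intro h0
      exact hv0 (Subtype.ext h0)
    · intro g
      obtain ⟨c, hc⟩ := hv ⟨conj ρ g v, hWst' g v v.2⟩
      exact ⟨c, (congrArg Subtype.val hc).symm⟩
  · -- `W` is a plane: the commutator of a basis spans a stable line
    let b : Module.Basis (Fin 2) k W := Module.finBasisOfFinrankEq k W h2'
    let A1 : Module.End k V := (b 0 : W)
    let A2 : Module.End k V := (b 1 : W)
    have hrep : ∀ X ∈ W, ∃ x y : k, X = x • A1 + y • A2 := by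
      intro X hX
      refine ⟨b.repr ⟨X, hX⟩ 0, b.repr ⟨X, hX⟩ 1, ?_⟩
      have h3 := b.sum_repr ⟨X, hX⟩
      rw [Fin.sum_univ_two] at h3
      have h4 := congrArg Subtype.val h3
      simpa using h4.symm
    have hindep : ∀ x y : k, x • A1 + y • A2 = 0 → x = 0 ∧ y = 0 := by
      intro x y hxy
      have hli := b.linearIndependent
      rw [Fintype.linearIndependent_iff] at hli
      have h3 : ∑ i : Fin 2, (![x, y] i) • b i = 0 := by
        rw [Fin.sum_univ_two]
        apply Subtype.ext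
        simpa using hxy
      exact ⟨by simpa using hli _ h3 0, by simpa using hli _ h3 1⟩
    have hA1tr : LinearMap.trace k V A1 = 0 := hWtr _ (b 0).2
    have hA2tr : LinearMap.trace k V A2 = 0 := hWtr _ (b 1).2
    let B : Module.End k V := A1 * A2 - A2 * A1
    refine no_stable_line ρ p hp2 h B ?_ ?_ ?_
    · intro hB
      have hcomm : A1 * A2 = A2 * A1 := sub_eq_zero.1 hB
      obtain ⟨x, y, hxy, hdep⟩ := end_dep_of_commute h.finrank_eq h2 A1 A2 hA1tr hA2tr hcomm
      obtain ⟨hx, hy⟩ := hindep x y hdep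
      rcases hxy with h0 | h0
      · exact h0 hx
      · exact h0 hy
    · show LinearMap.trace k V (A1 * A2 - A2 * A1) = 0
      rw [map_sub, LinearMap.trace_mul_comm, sub_self]
    · intro g
      obtain ⟨x1, y1, h1⟩ := hrep _ (hWst' g A1 (b 0).2)
      obtain ⟨x2, y2, h2''⟩ := hrep _ (hWst' g A2 (b 1).2)
      refine ⟨x1 * y2 - y1 * x2, ?_⟩
      show conj ρ g (A1 * A2 - A2 * A1) = (x1 * y2 - y1 * x2) • (A1 * A2 - A2 * A1)
      rw [conj_sub, conj_mul_mul, conj_mul_mul, h1, h2'']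
      simp only [add_mul, mul_add, smul_mul_assoc, mul_smul_comm]
      module

end Fermat.Agent.S56.P3.H934

end
-- ===== PACK-END S56/P3/H934/IRR.lean

-- ===== PACK-BEGIN S56/H716/TBSpec.lean
section


/-!
# Row S56 — tangent bound (TB), layer 1: FROZEN statements (deputy helper716)

`TB(cond)  ⇐  DICT(cond) + SELBOUND(cond)`     (glue: `H716/TBGlue.lean`, proved)

* `DictOrdStatement`, `DictFlatStatement` (DICT): for every universal ring `DQ` of type `cond Q`
  there is a map `f : Hom_𝒪(R_Q, k[ε]) → {functions G_ℚ → End_k V}` whose values are tangent cocycles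
  of type `cond Q` (or the zero function: so the trivial tangent vector needs no base change along
  the non-surjective map `R_Q → k → k[ε]`) and which is injective modulo coboundaries.
* `SelBoundOrdStatement`, `SelBoundFlatStatement` (SELBOUND = the cohomological wall): there is a
  dual Selmer frame `D` such that for every set `Q` of Taylor–Wiles primes killing `D`, all tangent
  cocycles of type `cond Q` lie, modulo coboundaries, in a `k`-space of cocycles of dimension
  `≤ #Q`.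

Nothing unproved in this file.
-/

set_option autoImplicit false

open Polynomial IsLocalRing

noncomputable section

namespace Fermat.Agent.S56.H716

open Fermat.Agent.S56

section

variable (𝒪 : Type) [CommRing 𝒪] [IsDomain 𝒪] [IsDiscreteValuationRing 𝒪]
  [IsAdicComplete (maximalIdeal 𝒪) 𝒪]
  (p : ℕ) (ρbar : ResidualGaloisRep (ResidueField 𝒪)) (S : Finset ℕ)

/-- (DICT) for one condition `𝒟` and one universal ring of type `𝒟`. -/
def Dict (𝒟 : DefCond 𝒪) : Prop :=
  ∀ DQ : GaloisRep.DeformationRingData 𝒪 ρbar 𝒟,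
    ∃ f : TanHom 𝒪 DQ.R → (GQ → Module.End (ResidueField 𝒪) ρbar.V),
      (∀ φ, IsTanCocycle 𝒪 ρbar 𝒟 (f φ) ∨ f φ = 0) ∧
      ∀ φ φ', IsAdCoboundary ρbar (f φ - f φ') → φ = φ'

/-- (SELBOUND) for a family of conditions indexed by the auxiliary set `Q`. -/
def SelBound (cond : Finset ℕ → DefCond 𝒪) : Prop :=
  ∃ D : Submodule (ResidueField 𝒪) (GQ → Module.End (ResidueField 𝒪) ρbar.V),
    IsDualFrame ρbar p D ∧
    ∀ Q : Finset ℕ, (∀ q ∈ Q, IsTWPrime ρbar p S q) → Kills ρbar p D Q →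
      ∃ T : Submodule (ResidueField 𝒪) (GQ → Module.End (ResidueField 𝒪) ρbar.V),
        Module.Finite (ResidueField 𝒪) T ∧ Module.finrank (ResidueField 𝒪) T ≤ Q.card ∧
        ∀ c, IsTanCocycle 𝒪 ρbar (cond Q) c → ∃ t ∈ T, IsAdCoboundary ρbar (c - t)

end

/-- (DICT-ord). -/
def DictOrdStatement : Prop :=
  ∀ (𝒪 : Type) [CommRing 𝒪] [IsDomain 𝒪] [IsDiscreteValuationRing 𝒪]
    [IsAdicComplete (maximalIdeal 𝒪) 𝒪] [Finite (ResidueField 𝒪)]
    (p : ℕ) (ρbar : ResidualGaloisRep (ResidueField 𝒪)) (S Smin : Finset ℕ),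
    Hyp 𝒪 p ρbar S Smin → ∀ Q : Finset ℕ, Dict 𝒪 ρbar (ordCond 𝒪 p Smin Q)

/-- (DICT-flat). -/
def DictFlatStatement : Prop :=
  ∀ (𝒪 : Type) [CommRing 𝒪] [IsDomain 𝒪] [IsDiscreteValuationRing 𝒪]
    [IsAdicComplete (maximalIdeal 𝒪) 𝒪] [Finite (ResidueField 𝒪)]
    (p : ℕ) (ρbar : ResidualGaloisRep (ResidueField 𝒪)) (S Smin : Finset ℕ),
    Hyp 𝒪 p ρbar S Smin → ∀ Q : Finset ℕ, Dict 𝒪 ρbar (flatCond 𝒪 p Smin Q)

/-- (SELBOUND-ord): the cohomological wall, strict-ordinary half. -/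
def SelBoundOrdStatement : Prop :=
  ∀ (𝒪 : Type) [CommRing 𝒪] [IsDomain 𝒪] [IsDiscreteValuationRing 𝒪]
    [IsAdicComplete (maximalIdeal 𝒪) 𝒪] [Finite (ResidueField 𝒪)]
    (p : ℕ) (ρbar : ResidualGaloisRep (ResidueField 𝒪)) (S Smin : Finset ℕ),
    Hyp 𝒪 p ρbar S Smin → SelBound 𝒪 p ρbar S (ordCond 𝒪 p Smin)

/-- (SELBOUND-flat): the cohomological wall, flat half. -/
def SelBoundFlatStatement : Prop :=
  ∀ (𝒪 : Type) [CommRing 𝒪] [IsDomain 𝒪] [IsDiscreteValuationRing 𝒪]
    [IsAdicComplete (maximalIdeal 𝒪) 𝒪] [Finite (ResidueField 𝒪)]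
    (p : ℕ) (ρbar : ResidualGaloisRep (ResidueField 𝒪)) (S Smin : Finset ℕ),
    Hyp 𝒪 p ρbar S Smin → SelBound 𝒪 p ρbar S (flatCond 𝒪 p Smin)

end Fermat.Agent.S56.H716

end

end
-- ===== PACK-END S56/H716/TBSpec.lean

-- ===== PACK-BEGIN S14/H894/TotRam.lean
section




/-!
# S14 / H894 : inertia surjects onto the embeddings of a totally ramified simple extension

`exists_inertia_eq_on_adjoin` : let `A` be a valuation subring of `ℚ̄` over a prime, `K` an
intermediate field, `γ` a root of a monic `f ∈ K[X]` of degree `n` such that the valuations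
`v(γ)^k`, `0 < k < n`, are not valuations of elements of `K` and all `K`-conjugates of `γ` have
the valuation of `γ`.  Then for every `τ ∈ Gal(ℚ̄/K)` there is `σ` in the inertia group of `A`,
fixing `K` pointwise, with `σ γ = τ γ`.
-/

set_option autoImplicit false
set_option linter.style.haveILetI false

open scoped Pointwise

namespace Fermat.Agent.S14.H894

open Polynomial Fermat.Agent.S54

local notation "Qb" => AlgebraicClosure ℚ
local notation "GQ" => (AlgebraicClosure ℚ ≃ₐ[ℚ] AlgebraicClosure ℚ)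
local notation "Zb" => integralClosure ℤ (AlgebraicClosure ℚ)

/-- The field `K(γ)` as an intermediate field of `ℚ̄/ℚ`. -/
noncomputable def adjoinField (K : IntermediateField ℚ Qb) (γ : Qb) : IntermediateField ℚ Qb :=
  IntermediateField.adjoin ℚ ((K : Set Qb) ∪ {γ})

theorem mem_fixingSubgroup_adjoinField_iff (K : IntermediateField ℚ Qb) (γ : Qb) (σ : GQ) :
    σ ∈ (adjoinField K γ).fixingSubgroup ↔ (∀ x ∈ K, σ x = x) ∧ σ γ = γ := by
  rw [IntermediateField.mem_fixingSubgroup_iff]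
  constructor
  · intro h
    refine ⟨fun x hx => h x ?_, h γ ?_⟩
    · exact IntermediateField.subset_adjoin ℚ _ (Set.mem_union_left _ hx)
    · exact IntermediateField.subset_adjoin ℚ _ (Set.mem_union_right _ rfl)
  · rintro ⟨hK, hγ⟩ x hx
    induction hx using IntermediateField.adjoin_induction with
    | mem x hx =>
      rcases hx with hx | hx
      · exact hK x hx
      · rw [Set.mem_singleton_iff] at hx; rw [hx]; exact hγ
    | algebraMap x => exact σ.commutes x
    | add x y _ _ hx hy => rw [map_add, hx, hy]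
    | inv x _ hx => rw [map_inv₀, hx]
    | mul x y _ _ hx hy => rw [map_mul, hx, hy]

theorem exists_coeffs_of_mem_adjoinField (K : IntermediateField ℚ Qb) (γ : Qb) (f : K[X])
    (hf : f.Monic) (hγ : aeval γ f = 0) (y : Qb) (hy : y ∈ adjoinField K γ) :
    ∃ c : ℕ → Qb, (∀ i, c i ∈ K) ∧ y = ∑ i ∈ Finset.range f.natDegree, c i * γ ^ i := by
  have h1 : adjoinField K γ = (IntermediateField.adjoin K {γ}).restrictScalars ℚ :=
    (IntermediateField.restrictScalars_adjoin ℚ K ({γ} : Set Qb)).symm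
  rw [h1] at hy
  have hy' : y ∈ IntermediateField.adjoin K {γ} := hy
  have halg : IsAlgebraic K γ := ⟨f, hf.ne_zero, hγ⟩
  have hy2 : y ∈ (IntermediateField.adjoin K {γ}).toSubalgebra := hy'
  rw [IntermediateField.adjoin_simple_toSubalgebra_of_isAlgebraic halg,
    Algebra.adjoin_singleton_eq_range_aeval] at hy2
  obtain ⟨q, rfl⟩ := hy2
  have hf1 : f ≠ 1 := by
    rintro rfl
    simp at hγ
  have hdeg : (q %ₘ f).natDegree < f.natDegree := natDegree_modByMonic_lt q hf hf1
  have hq : aeval γ q = aeval γ (q %ₘ f) := by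
    conv_lhs => rw [← modByMonic_add_div q f]
    rw [map_add, map_mul, hγ, zero_mul, add_zero]
  refine ⟨fun i => ((q %ₘ f).coeff i : Qb), fun i => SetLike.coe_mem _, ?_⟩
  show aeval γ q = _
  rw [hq, aeval_eq_sum_range' hdeg]
  refine Finset.sum_congr rfl fun i _ => ?_
  rw [Algebra.smul_def]
  rfl

section main

variable (A : ValuationSubring Qb) (K : IntermediateField ℚ Qb) (γ : Qb) (n : ℕ)

/-- The terms of a `K`-linear combination of powers of a conjugate of `γ` have pairwise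
distinct valuations. -/
theorem distinct_terms
    (hindep : ∀ k : ℕ, 0 < k → k < n → ∀ c ∈ K, A.valuation γ ^ k ≠ A.valuation c)
    (c : ℕ → Qb) (hc : ∀ i, c i ∈ K) (γ' : Qb) (hγ' : A.valuation γ' = A.valuation γ) :
    ∀ i ∈ Finset.range n, ∀ j ∈ Finset.range n, i ≠ j → c i * γ' ^ i ≠ 0 →
      A.valuation (c i * γ' ^ i) ≠ A.valuation (c j * γ' ^ j) := by
  intro i hi j hj hij hne heq
  rw [Finset.mem_range] at hi hj
  rw [map_mul, map_mul, map_pow, map_pow, hγ'] at heq
  have hn2 : 1 < n := by omega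
  have hv0 : A.valuation γ ≠ 0 := by
    have := hindep 1 one_pos hn2 0 K.zero_mem
    simpa using this
  have hci : c i ≠ 0 := left_ne_zero_of_mul hne
  have hvci : A.valuation (c i) ≠ 0 := (Valuation.ne_zero_iff _).mpr hci
  have hcj : c j ≠ 0 := by
    rintro h0
    rw [h0, map_zero, zero_mul] at heq
    exact mul_ne_zero hvci (pow_ne_zero _ hv0) heq
  have hvcj : A.valuation (c j) ≠ 0 := (Valuation.ne_zero_iff _).mpr hcj
  rcases lt_or_gt_of_ne hij with hlt | hlt
  · refine hindep (j - i) (by omega) (by omega) (c i / c j) (K.div_mem (hc i) (hc j)) ?_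
    rw [map_div₀, eq_div_iff hvcj]
    have hpow : A.valuation γ ^ j = A.valuation γ ^ (j - i) * A.valuation γ ^ i := by
      rw [← pow_add]; congr 1; omega
    rw [hpow, ← mul_assoc] at heq
    have h2 := mul_right_cancel₀ (pow_ne_zero i hv0) heq
    rw [h2, mul_comm]
  · refine hindep (i - j) (by omega) (by omega) (c j / c i) (K.div_mem (hc j) (hc i)) ?_
    rw [map_div₀, eq_div_iff hvci]
    have hpow : A.valuation γ ^ i = A.valuation γ ^ (i - j) * A.valuation γ ^ j := by
      rw [← pow_add]; congr 1; omega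
    rw [hpow, ← mul_assoc] at heq
    have h2 := mul_right_cancel₀ (pow_ne_zero j hv0) heq
    rw [← h2, mul_comm]

end main

/-- **Inertia surjects onto the embeddings of a totally ramified simple extension.** -/
theorem exists_inertia_eq_on_adjoin (A : ValuationSubring Qb) (ℓ : ℕ) (hℓ : ℓ.Prime)
    (hA : A.LiesOverPrime ℓ) (K : IntermediateField ℚ Qb) (γ : Qb) (f : K[X]) (hf : f.Monic)
    (hγ : aeval γ f = 0)
    (hindep : ∀ k : ℕ, 0 < k → k < f.natDegree → ∀ c ∈ K, A.valuation γ ^ k ≠ A.valuation c)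
    (hconj : ∀ τ : GQ, (∀ x ∈ K, τ x = x) → A.valuation (τ γ) = A.valuation γ)
    (τ : GQ) (hτ : ∀ x ∈ K, τ x = x) :
    ∃ σ ∈ A.inertiaSubgroupIn ℚ, (∀ x ∈ K, σ x = x) ∧ σ γ = τ γ := by
  haveI := isGalois_algebraicClosure_rat
  set n := f.natDegree with hn
  set L := adjoinField K γ with hL
  set H : Subgroup GQ := L.fixingSubgroup with hH
  have hHclosed : IsClosed (H : Set GQ) := InfiniteGalois.fixingSubgroup_isClosed L
  have hHmem : ∀ σ : GQ, σ ∈ H ↔ (∀ x ∈ K, σ x = x) ∧ σ γ = γ :=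
    mem_fixingSubgroup_adjoinField_iff K γ
  haveI hQprime := primeBelow_isPrime A
  set Q := primeBelow A with hQ
  -- invariants lie in `L`
  have hinv : ∀ y : Zb, (∀ h ∈ H, h • y = y) → (y : Qb) ∈ L := by
    intro y hy
    rw [← InfiniteGalois.fixedField_fixingSubgroup L, IntermediateField.mem_fixedField_iff]
    intro g hg
    exact congrArg Subtype.val (hy g hg)
  -- valuation formula
  have hval : ∀ (σ : GQ), (∀ x ∈ K, σ x = x) → ∀ y ∈ L,
      A.valuation (σ y) = A.valuation y := by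
    intro σ hσ y hy
    obtain ⟨c, hc, rfl⟩ := exists_coeffs_of_mem_adjoinField K γ f hf hγ y hy
    rw [map_sum]
    have h1 : ∀ i ∈ Finset.range n, σ (c i * γ ^ i) = c i * (σ γ) ^ i := by
      intro i _
      rw [map_mul, map_pow, hσ _ (hc i)]
    rw [Finset.sum_congr rfl h1]
    rw [valuation_sum_eq_sup _ _ _ (distinct_terms A K γ n hindep c hc (σ γ) (hconj σ hσ)),
      valuation_sum_eq_sup _ _ _ (distinct_terms A K γ n hindep c hc γ rfl)]
    refine Finset.sup_congr rfl fun i _ => ?_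
    rw [map_mul, map_mul, map_pow, map_pow, hconj σ hσ]
  -- residue formula
  have hres : ∀ (σ : GQ), (∀ x ∈ K, σ x = x) → ∀ y ∈ L, y ∈ A →
      A.valuation (σ y - y) < 1 := by
    intro σ hσ y hy hyA
    obtain ⟨c, hc, rfl⟩ := exists_coeffs_of_mem_adjoinField K γ f hf hγ y hy
    have hdist := distinct_terms A K γ n hindep c hc γ rfl
    have hle : ∀ i ∈ Finset.range n, A.valuation (c i * γ ^ i) ≤ 1 := by
      rw [← valuation_sum_le_one_iff _ _ _ hdist]
      exact (A.valuation_le_one_iff _).mpr hyA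
    have hlt : ∀ i ∈ Finset.range n, 0 < i → A.valuation (c i * γ ^ i) < 1 := by
      intro i hi hi0
      refine lt_of_le_of_ne (hle i hi) ?_
      intro h1
      by_cases hci : c i = 0
      · rw [hci, zero_mul, map_zero] at h1; exact zero_ne_one h1
      · have hvci : A.valuation (c i) ≠ 0 := (Valuation.ne_zero_iff _).mpr hci
        refine hindep i hi0 (Finset.mem_range.mp hi) (c i)⁻¹ (K.inv_mem (hc i)) ?_
        rw [map_inv₀]
        refine eq_inv_of_mul_eq_one_left ?_
        rw [mul_comm, ← map_pow, ← map_mul]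
        exact h1
    rw [map_sum, ← Finset.sum_sub_distrib]
    refine Valuation.map_sum_lt _ one_ne_zero fun i hi => ?_
    by_cases hi0 : i = 0
    · subst hi0
      simp [hσ _ (hc 0)]
    · have hi0' : 0 < i := Nat.pos_of_ne_zero hi0
      have h2 : σ (c i * γ ^ i) = c i * (σ γ) ^ i := by rw [map_mul, map_pow, hσ _ (hc i)]
      have h3 : A.valuation (σ (c i * γ ^ i)) < 1 := by
        rw [h2, map_mul, map_pow, hconj σ hσ, ← map_pow, ← map_mul]
        exact hlt i hi hi0'
      exact lt_of_le_of_lt (Valuation.map_sub _ _ _) (max_lt h3 (hlt i hi hi0'))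
  have hmemQ : ∀ y : Zb, y ∈ Q ↔ A.valuation (y : Qb) < 1 := by
    intro y
    rw [hQ, mem_primeBelow, ValuationSubring.mem_nonunits_iff]
  -- Step 3: move `τ⁻¹ • Q` back to `Q` by an element of `H`
  have hPQ : ∀ y : Zb, (∀ h ∈ H, h • y = y) → (y ∈ Q ↔ y ∈ τ⁻¹ • Q) := by
    intro y hy
    rw [Ideal.mem_inv_pointwise_smul_iff, hmemQ, hmemQ]
    have : ((τ • y : Zb) : Qb) = τ (y : Qb) := rfl
    rw [this, hval τ hτ _ (hinv y hy)]
  obtain ⟨g, hgH, hg⟩ := exists_smul_eq_of_closed H hHclosed Q (τ⁻¹ • Q) hPQ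
  have hgK := (hHmem g).mp hgH
  set σ₁ : GQ := τ * g with hσ₁
  have hσ₁Q : σ₁ • Q = Q := by
    rw [hσ₁, mul_smul, ← hg, smul_inv_smul]
  have hσ₁K : ∀ x ∈ K, σ₁ x = x := by
    intro x hx
    rw [hσ₁, AlgEquiv.mul_apply, hgK.1 x hx, hτ x hx]
  have hσ₁γ : σ₁ γ = τ γ := by
    rw [hσ₁, AlgEquiv.mul_apply, hgK.2]
  -- Step 4: correct the residue action by an element of `H`
  have hσ₁res : ∀ y : Zb, (∀ h ∈ H, h • y = y) → σ₁ • y - y ∈ Q := by
    intro y hy
    rw [hmemQ]
    exact hres σ₁ hσ₁K _ (hinv y hy) (isIntegral_mem_valuationSubring A y.2)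
  obtain ⟨g', hg'H, hg'Q, hg'⟩ := exists_mem_stabilizer_of_closed H hHclosed Q σ₁ hσ₁Q hσ₁res
  have hg'K := (hHmem g').mp hg'H
  have hg'invK : ∀ x ∈ K, g'⁻¹ x = x := by
    intro x hx
    have := hg'K.1 x hx
    calc g'⁻¹ x = g'⁻¹ (g' x) := by rw [this]
      _ = x := by rw [← AlgEquiv.mul_apply, inv_mul_cancel, AlgEquiv.one_apply]
  have hg'invγ : g'⁻¹ γ = γ := by
    calc g'⁻¹ γ = g'⁻¹ (g' γ) := by rw [hg'K.2]
      _ = γ := by rw [← AlgEquiv.mul_apply, inv_mul_cancel, AlgEquiv.one_apply]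
  refine ⟨σ₁ * g'⁻¹, ?_, ?_, ?_⟩
  · refine mem_inertiaSubgroupIn_of_forall A ℓ hℓ hA _ ?_ ?_
    · rw [mul_smul, inv_smul_eq_iff.mpr hg'Q.symm, hσ₁Q]
    · intro x
      have h1 := hg' (g'⁻¹ • x)
      rw [smul_inv_smul] at h1
      rw [mul_smul]
      have h2 : σ₁ • g'⁻¹ • x - x = -(x - σ₁ • g'⁻¹ • x) := by ring
      rw [h2]
      exact Q.neg_mem h1
  · intro x hx
    rw [AlgEquiv.mul_apply, hg'invK x hx, hσ₁K x hx]
  · rw [AlgEquiv.mul_apply, hg'invγ, hσ₁γ]

end Fermat.Agent.S14.H894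

end
-- ===== PACK-END S14/H894/TotRam.lean

-- ===== PACK-BEGIN S56/H434/Near.lean
section



/-!
# S56 / W2-SS, piece A (helper434): approximate ring homomorphisms and the convolution ring

`ApproxHom v R T η ε`: `η : Ω → Ω` is, on the subring `T`, a ring homomorphism modulo `ε`,
with integral values and `η r ≡ r` on the image of `R`.
`Near v T η ε F y`: the functional `F` is congruent to `η ∘ y` modulo `ε`; this relation is
compatible with the convolution product.
-/

set_option autoImplicit false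

open WithConv TensorProduct

namespace Fermat.Agent.S56.H434

section Val

variable {Ω : Type*} [Field Ω] {Γ : Type*} [LinearOrderedCommGroupWithZero Γ] (v : Valuation Ω Γ)

theorem val_sub_le_trans {a b c : Ω} {ε : Γ} (h1 : v (a - b) ≤ ε) (h2 : v (b - c) ≤ ε) :
    v (a - c) ≤ ε := by
  have : a - c = (a - b) + (b - c) := by ring
  rw [this]
  exact v.map_add_le h1 h2

theorem val_sub_comm (a b : Ω) : v (a - b) = v (b - a) := v.map_sub_swap a b

theorem val_mul_sub_mul_le {a a' c c' : Ω} {ε : Γ} (h1 : v (a - c) ≤ ε) (h2 : v (a' - c') ≤ ε)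
    (ha' : v a' ≤ 1) (hc : v c ≤ 1) : v (a * a' - c * c') ≤ ε := by
  have : a * a' - c * c' = (a - c) * a' + c * (a' - c') := by ring
  rw [this]
  refine v.map_add_le ?_ ?_
  · rw [map_mul]
    calc v (a - c) * v a' ≤ ε * 1 := mul_le_mul' h1 ha'
      _ = ε := mul_one _
  · rw [map_mul]
    calc v c * v (a' - c') ≤ 1 * ε := mul_le_mul' hc h2
      _ = ε := one_mul _

theorem val_sum_sub_sum_le {α : Type*} (s : Finset α) (f g : α → Ω) {ε : Γ}
    (h : ∀ i ∈ s, v (f i - g i) ≤ ε) : v (∑ i ∈ s, f i - ∑ i ∈ s, g i) ≤ ε := by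
  rw [← Finset.sum_sub_distrib]
  exact v.map_sum_le h

theorem val_le_one_of_sub_le {a b : Ω} {ε : Γ} (hε : ε ≤ 1) (h : v (a - b) ≤ ε) (hb : v b ≤ 1) :
    v a ≤ 1 := by
  have : a = (a - b) + b := by ring
  rw [this]
  exact v.map_add_le (h.trans hε) hb

end Val

section Approx

variable {Ω : Type*} [Field Ω] {Γ : Type*} [LinearOrderedCommGroupWithZero Γ] (v : Valuation Ω Γ)
  (R : Type*) [CommRing R] [Algebra R Ω]

/-- `η` is a ring homomorphism modulo `ε` on the subring `T`. -/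
structure ApproxHom (T : Subring Ω) (η : Ω → Ω) (ε : Γ) : Prop where
  int : ∀ a ∈ T, v (η a) ≤ 1
  add : ∀ a ∈ T, ∀ b ∈ T, v (η (a + b) - (η a + η b)) ≤ ε
  mul : ∀ a ∈ T, ∀ b ∈ T, v (η (a * b) - η a * η b) ≤ ε
  map_algebraMap : ∀ r : R, v (η (algebraMap R Ω r) - algebraMap R Ω r) ≤ ε

variable {v R} {T : Subring Ω} {η : Ω → Ω} {ε : Γ}

theorem ApproxHom.zero (hη : ApproxHom v R T η ε) : v (η 0) ≤ ε := by
  have h := hη.add 0 T.zero_mem 0 T.zero_mem
  have : η (0 + 0) - (η 0 + η 0) = -η 0 := by rw [add_zero]; ring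
  rwa [this, Valuation.map_neg] at h

theorem ApproxHom.sub (hη : ApproxHom v R T η ε) {a b : Ω} (ha : a ∈ T) (hb : b ∈ T) :
    v (η (a - b) - (η a - η b)) ≤ ε := by
  have h := hη.add (a - b) (T.sub_mem ha hb) b hb
  rw [sub_add_cancel] at h
  have : η (a - b) - (η a - η b) = -(η a - (η (a - b) + η b)) := by ring
  rwa [this, Valuation.map_neg]

theorem ApproxHom.sum (hη : ApproxHom v R T η ε) {α : Type*} (s : Finset α) (a : α → Ω)
    (ha : ∀ i ∈ s, a i ∈ T) : v (η (∑ i ∈ s, a i) - ∑ i ∈ s, η (a i)) ≤ ε := by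
  classical
  induction s using Finset.induction_on with
  | empty => simpa using hη.zero
  | insert j s hj ih =>
    have ha' : ∀ i ∈ s, a i ∈ T := fun i hi => ha i (Finset.mem_insert_of_mem hi)
    have hj' : a j ∈ T := ha j (Finset.mem_insert_self j s)
    rw [Finset.sum_insert hj, Finset.sum_insert hj]
    have h1 := hη.add (a j) hj' (∑ i ∈ s, a i) (T.sum_mem ha')
    have h2 : v ((η (a j) + η (∑ i ∈ s, a i)) - (η (a j) + ∑ i ∈ s, η (a i))) ≤ ε := by
      have : (η (a j) + η (∑ i ∈ s, a i)) - (η (a j) + ∑ i ∈ s, η (a i))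
          = η (∑ i ∈ s, a i) - ∑ i ∈ s, η (a i) := by ring
      rw [this]
      exact ih ha'
    exact val_sub_le_trans v h1 h2

theorem ApproxHom.sum_mul (hη : ApproxHom v R T η ε) {α : Type*} (s : Finset α) (a c : α → Ω)
    (ha : ∀ i ∈ s, a i ∈ T) (hc : ∀ i ∈ s, c i ∈ T) :
    v (η (∑ i ∈ s, a i * c i) - ∑ i ∈ s, η (a i) * η (c i)) ≤ ε := by
  have h1 := hη.sum s (fun i => a i * c i) (fun i hi => T.mul_mem (ha i hi) (hc i hi))
  have h2 : v (∑ i ∈ s, η (a i * c i) - ∑ i ∈ s, η (a i) * η (c i)) ≤ ε :=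
    val_sum_sub_sum_le v s _ _ fun i hi => hη.mul _ (ha i hi) _ (hc i hi)
  exact val_sub_le_trans v h1 h2

end Approx

section Near

variable {Ω : Type*} [Field Ω] {Γ : Type*} [LinearOrderedCommGroupWithZero Γ] (v : Valuation Ω Γ)
  {R : Type*} [CommRing R] [Algebra R Ω]
  {H : Type*} [CommRing H] [Bialgebra R H] [Coalgebra.IsCocomm R H]

/-- `F ≡ η ∘ y` modulo `ε`, where `y` has values in `T` and `F` has integral values. -/
def Near (T : Subring Ω) (η : Ω → Ω) (ε : Γ) (F y : WithConv (H →ₗ[R] Ω)) : Prop :=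
  (∀ h, y.ofConv h ∈ T) ∧ (∀ h, v (F.ofConv h) ≤ 1) ∧
    ∀ h, v (F.ofConv h - η (y.ofConv h)) ≤ ε

variable {v} {T : Subring Ω} {η : Ω → Ω} {ε : Γ}

omit [Coalgebra.IsCocomm R H] in
theorem near_one (hη : ApproxHom v R T η ε) (hR : ∀ r : R, v (algebraMap R Ω r) ≤ 1)
    (hRT : ∀ r : R, algebraMap R Ω r ∈ T) :
    Near v T η ε (1 : WithConv (H →ₗ[R] Ω)) 1 := by
  refine ⟨fun h => hRT _, fun h => hR _, fun h => ?_⟩
  have := hη.map_algebraMap (Coalgebra.counit (R := R) h)
  rw [val_sub_comm] at this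
  exact this

omit [Coalgebra.IsCocomm R H] in
theorem near_mul (hη : ApproxHom v R T η ε) {F G y z : WithConv (H →ₗ[R] Ω)}
    (hF : Near v T η ε F y) (hG : Near v T η ε G z) : Near v T η ε (F * G) (y * z) := by
  obtain ⟨hy, hF1, hFy⟩ := hF
  obtain ⟨hz, hG1, hGz⟩ := hG
  have key : ∀ h : H, (F * G).ofConv h = ∑ i ∈ (Coalgebra.Repr.arbitrary R h).index,
      F.ofConv ((Coalgebra.Repr.arbitrary R h).left i) *
        G.ofConv ((Coalgebra.Repr.arbitrary R h).right i) :=
    fun h => (Coalgebra.Repr.arbitrary R h).convMul_apply F G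
  have key' : ∀ h : H, (y * z).ofConv h = ∑ i ∈ (Coalgebra.Repr.arbitrary R h).index,
      y.ofConv ((Coalgebra.Repr.arbitrary R h).left i) *
        z.ofConv ((Coalgebra.Repr.arbitrary R h).right i) :=
    fun h => (Coalgebra.Repr.arbitrary R h).convMul_apply y z
  refine ⟨fun h => ?_, fun h => ?_, fun h => ?_⟩
  · rw [key']
    exact T.sum_mem fun i _ => T.mul_mem (hy _) (hz _)
  · rw [key]
    refine v.map_sum_le fun i _ => ?_
    rw [map_mul]
    calc v (F.ofConv _) * v (G.ofConv _) ≤ 1 * 1 := mul_le_mul' (hF1 _) (hG1 _)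
      _ = 1 := one_mul _
  · rw [key, key']
    have h1 := hη.sum_mul (Coalgebra.Repr.arbitrary R h).index
      (fun i => y.ofConv ((Coalgebra.Repr.arbitrary R h).left i))
      (fun i => z.ofConv ((Coalgebra.Repr.arbitrary R h).right i))
      (fun i _ => hy _) (fun i _ => hz _)
    rw [val_sub_comm] at h1
    have h2 : v (∑ i ∈ (Coalgebra.Repr.arbitrary R h).index,
        F.ofConv ((Coalgebra.Repr.arbitrary R h).left i) *
          G.ofConv ((Coalgebra.Repr.arbitrary R h).right i) -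
        ∑ i ∈ (Coalgebra.Repr.arbitrary R h).index,
          η (y.ofConv ((Coalgebra.Repr.arbitrary R h).left i)) *
            η (z.ofConv ((Coalgebra.Repr.arbitrary R h).right i))) ≤ ε :=
      val_sum_sub_sum_le v _ _ _ fun i _ =>
        val_mul_sub_mul_le v (hFy _) (hGz _) (hG1 _) (hη.int _ (hy _))
    exact val_sub_le_trans v h2 h1

omit [Coalgebra.IsCocomm R H] in
theorem near_pow (hη : ApproxHom v R T η ε) (hR : ∀ r : R, v (algebraMap R Ω r) ≤ 1)
    (hRT : ∀ r : R, algebraMap R Ω r ∈ T) {F y : WithConv (H →ₗ[R] Ω)}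
    (hF : Near v T η ε F y) (n : ℕ) : Near v T η ε (F ^ n) (y ^ n) := by
  induction n with
  | zero => simpa using near_one (H := H) hη hR hRT
  | succ n ih => rw [pow_succ, pow_succ]; exact near_mul hη ih hF

end Near

end Fermat.Agent.S56.H434

end
-- ===== PACK-END S56/H434/Near.lean

-- ===== PACK-BEGIN S56/H846/FLCnt/Main.lean
section



/-!
# FL-CNT: step C3 (single break of `W`) and the final step; proof of `FLCntStatement`
(helper846)  Mathlib only, nothing unproved.
-/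

set_option autoImplicit false
set_option linter.unusedSectionVars false
set_option linter.style.haveILetI false
set_option linter.unusedVariables false

namespace Fermat.Agent.S56.H846.FLCnt

variable {Γ k Z : Type} [Group Γ] [Field k] [AddCommGroup Z] [Module k Z]

namespace Hyp

variable {p : ℕ} [Fact p.Prime] {D : Data Γ k Z} (h : _root_.Fermat.Agent.S56.H846.FLCnt.Hyp p D)
include h

/-- every proper `Γ`-normal subgroup of `W` lies in a maximal one -/
theorem exists_max_normal [Finite Γ] {N₀ : Subgroup Γ} (hN₀ : N₀.Normal) (hle : N₀ ≤ D.W)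
    (hne : N₀ ≠ D.W) : ∃ N, IsMaxNormal D N ∧ N₀ ≤ N := by
  classical
  let 𝒮 : Set (Subgroup Γ) := {N | N.Normal ∧ N₀ ≤ N ∧ N ≤ D.W ∧ N ≠ D.W}
  have hfin : 𝒮.Finite := Set.toFinite _
  have hne' : 𝒮.Nonempty := ⟨N₀, hN₀, le_rfl, hle, hne⟩
  obtain ⟨N, hN, hmax⟩ := Set.exists_max_image 𝒮 (fun N => Nat.card N) hfin hne'
  refine ⟨N, ⟨hN.1, hN.2.2.1, hN.2.2.2, fun N' hN' hNN' hN'W => ?_⟩, hN.2.1⟩
  by_cases h' : N' = D.W
  · exact Or.inr h'
  · left
    have := hmax N' ⟨hN', hN.2.1.trans hNN', hN'W, h'⟩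
    exact (Subgroup.eq_of_le_of_card_ge hNN' this).symm

theorem exists_first_break [Finite Γ] (hW : D.W ≠ ⊥) :
    ∃ n₁, 1 ≤ n₁ ∧ D.W ≤ D.F ⊥ n₁ ∧ ¬ D.W ≤ D.F ⊥ (n₁ + 1) := by
  classical
  have hB : ∃ B, D.F ⊥ B ≤ ⊥ := by
    haveI : Fintype Γ := Fintype.ofFinite Γ
    refine ⟨∑ σ : Γ, D.i ⊥ σ, fun σ hσ => ?_⟩
    rw [h.mem_F ⊥ Subgroup.normal_bot bot_le bot_le] at hσ
    rcases hσ with hσ | hσ
    · exact hσ
    · exfalso
      have : D.i ⊥ σ ≤ ∑ σ : Γ, D.i ⊥ σ :=
        Finset.single_le_sum (f := fun σ => D.i ⊥ σ) (fun _ _ => Nat.zero_le _)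
          (Finset.mem_univ σ)
      omega
  have hex : ∃ n, ¬ D.W ≤ D.F ⊥ n := by
    obtain ⟨B, hB⟩ := hB
    exact ⟨B, fun hW' => hW (le_bot_iff.mp (hW'.trans hB))⟩
  have h1 : D.W ≤ D.F ⊥ 1 := h.W_le_wild
  have h0 : D.W ≤ D.F ⊥ 0 := h.W_le_inertia
  set n₀ := Nat.find hex with hn₀
  have hn₀1 : ¬ D.W ≤ D.F ⊥ n₀ := Nat.find_spec hex
  have hn₀2 : 2 ≤ n₀ := by
    by_contra hlt
    have : n₀ = 0 ∨ n₀ = 1 := by omega
    rcases this with h' | h'
    · rw [h'] at hn₀1; exact hn₀1 h0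
    · rw [h'] at hn₀1; exact hn₀1 h1
  have hu : D.W ≤ D.F ⊥ (n₀ - 1) := by
    by_contra hcon
    have := Nat.find_min' hex hcon
    omega
  refine ⟨n₀ - 1, by omega, hu, ?_⟩
  have hn : n₀ - 1 + 1 = n₀ := by omega
  rw [hn]
  exact hn₀1

/-- elements of `W` outside `F ⊥ (n₁ + 1)` have `i = n₁ + 1` -/
theorem i_bot_eq {n₁ : ℕ} (hn₁ : D.W ≤ D.F ⊥ n₁) {σ : Γ} (hσ : σ ∈ D.W)
    (hσ' : σ ∉ D.F ⊥ (n₁ + 1)) : D.i ⊥ σ = n₁ + 1 := by
  have h1 := hn₁ hσ
  rw [h.mem_F ⊥ Subgroup.normal_bot bot_le bot_le] at h1 hσ'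
  push Not at hσ'
  rcases h1 with h1 | h1
  · exact absurd h1 hσ'.1
  · omega

theorem i_bot_ge {n₁ : ℕ} {σ : Γ} (hσ : σ ∈ D.F ⊥ n₁) (hσ1 : σ ≠ 1) : n₁ + 1 ≤ D.i ⊥ σ := by
  rw [h.mem_F ⊥ Subgroup.normal_bot bot_le bot_le] at hσ
  rcases hσ with h1 | h1
  · exact absurd (Subgroup.mem_bot.mp h1) hσ1
  · exact h1

/-- **C3**: `W` has a single break, at `p - 1`. -/
theorem single_break [Finite Γ] (hW : D.W ≠ ⊥) :
    D.W = D.F ⊥ (p - 1) ∧ D.F ⊥ p = ⊥ ∧ D.m ≠ 2 := by
  classical
  haveI : Fintype Γ := Fintype.ofFinite Γ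
  obtain ⟨n₁, hn₁1, hn₁W, hn₁'⟩ := h.exists_first_break hW
  have hp3 := h.p_ge_three
  -- `W⁺`
  have hWplus_le : D.F ⊥ (n₁ + 1) ≤ D.W := by
    rw [h.W_eq_wild]
    exact h.F_anti' ⊥ Subgroup.normal_bot bot_le bot_le (by omega)
  have hWplus_ne : D.F ⊥ (n₁ + 1) ≠ D.W := fun h' => hn₁' (by rw [h'])
  have hWplus_normal : (D.F ⊥ (n₁ + 1)).Normal :=
    h.F_normal ⊥ Subgroup.normal_bot bot_le bot_le _
  -- a maximal `N` containing `W⁺`
  obtain ⟨N, M, hWN⟩ := h.exists_max_normal hWplus_normal hWplus_le hWplus_ne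
  obtain ⟨σ, hσ, hσN⟩ := h.max_exists_not_mem M
  have hN1 := h.max_le_wild M
  have hNpos : 0 < Nat.card N := Nat.card_pos
  have e1 : n₁ + 1 = p := by
    have hq := h.quot_formula N M.normal M.le hN1 σ hσN
    rw [finsum_mem_eq_sum, h.i_eq_p M hσ hσN] at hq
    have hterm : ∀ w ∈ Finset.univ.filter (· ∈ N), D.i ⊥ (σ * w) = n₁ + 1 := by
      intro w hw
      have hwN : w ∈ N := (Finset.mem_filter.mp hw).2
      have h1 : σ * w ∈ D.W := D.W.mul_mem hσ (M.le hwN)
      have h2 : σ * w ∉ N := fun h' => hσN ((Subgroup.mul_mem_cancel_right N hwN).mp h')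
      exact h.i_bot_eq hn₁W h1 (fun h' => h2 (hWN h'))
    rw [Finset.sum_congr rfl hterm, Finset.sum_const, smul_eq_mul, ← card_eq_filter] at hq
    exact Nat.eq_of_mul_eq_mul_left hNpos hq
  have hm2 : D.m ≠ 2 := h.m_ne_two_of_max M
  -- `W⁺ = ⊥`
  have hbot : D.F ⊥ (n₁ + 1) = ⊥ := by
    by_contra hne
    obtain ⟨N'', hN''normal, hN''W, hdisj, hsum⟩ := h.exists_compl hWplus_normal hWplus_le
    have hN''ne : N'' ≠ D.W := by
      intro h'
      apply hne
      rw [eq_bot_iff]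
      intro w hw
      rw [Subgroup.mem_bot]
      exact hdisj w hw (by rw [h']; exact hWplus_le hw)
    obtain ⟨N', M', hN''N'⟩ := h.exists_max_normal hN''normal hN''W hN''ne
    -- an element of `W⁺` outside `N'`
    obtain ⟨σ', hσ', hσ'N⟩ : ∃ σ' ∈ D.F ⊥ (n₁ + 1), σ' ∉ N' := by
      by_contra hcon
      push Not at hcon
      apply M'.ne
      refine le_antisymm M'.le (fun w hw => ?_)
      obtain ⟨x, hx, n, hn, rfl⟩ := hsum w hw
      exact N'.mul_mem (hcon x hx) (hN''N' hn)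
    have hσ'W : σ' ∈ D.W := hWplus_le hσ'
    have hN'1 := h.max_le_wild M'
    have hq := h.quot_formula N' M'.normal M'.le hN'1 σ' hσ'N
    rw [finsum_mem_eq_sum, h.i_eq_p M' hσ'W hσ'N] at hq
    have hterm : ∀ w ∈ Finset.univ.filter (· ∈ N'),
        p + (if w = 1 then 1 else 0) ≤ D.i ⊥ (σ' * w) := by
      intro w hw
      have hwN : w ∈ N' := (Finset.mem_filter.mp hw).2
      have h1 : σ' * w ∈ D.W := D.W.mul_mem hσ'W (M'.le hwN)
      have h2 : σ' * w ≠ 1 := fun h' => hσ'N (by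
        have : σ' = w⁻¹ := mul_eq_one_iff_eq_inv.mp h'
        rw [this]
        exact N'.inv_mem hwN)
      by_cases hw1 : w = 1
      · rw [if_pos hw1, hw1, mul_one]
        have := h.i_bot_ge hσ' (fun h' => hσ'N (h' ▸ N'.one_mem))
        omega
      · rw [if_neg hw1]
        have := h.i_bot_ge (hn₁W h1) h2
        omega
    have hsum' := Finset.sum_le_sum hterm
    rw [hq, Finset.sum_add_distrib, Finset.sum_const, smul_eq_mul, ← card_eq_filter,
      Finset.sum_ite_eq' ] at hsum'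
    have h1mem : (1 : Γ) ∈ Finset.univ.filter (· ∈ N') := by
      simp [N'.one_mem]
    rw [if_pos h1mem] at hsum'
    omega
  have hn₁p : n₁ = p - 1 := by omega
  refine ⟨?_, ?_, hm2⟩
  · rw [← hn₁p]
    refine le_antisymm hn₁W ?_
    rw [h.W_eq_wild]
    exact h.F_anti' ⊥ Subgroup.normal_bot bot_le bot_le hn₁1
  · rw [← e1]
    exact hbot

theorem m_cast_ne_zero : (D.m : k) ≠ 0 := by
  haveI := h.charP
  rw [Ne, CharP.cast_eq_zero_iff k p]
  intro hdvd
  have h1 := Nat.Coprime.eq_one_of_dvd h.m_coprime_p.symm hdvd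
  have := (h.p_prime).one_lt
  omega

/-- under a single break, `τ₀` commutes with no non-trivial element of `W` -/
theorem eq_one_of_comm_eq_one (hWeq : D.W = D.F ⊥ (p - 1)) (hbot : D.F ⊥ p = ⊥) {w : Γ}
    (hw : w ∈ D.W) (hcomm : D.τ₀ ^ 1 * w * (D.τ₀ ^ 1)⁻¹ * w⁻¹ = 1) : w = 1 := by
  by_contra hne
  have hp3 := h.p_ge_three
  have hpp : p - 1 + 1 = p := by omega
  have h1 : w ∈ D.F ⊥ (p - 1) := hWeq ▸ hw
  have h2 : w ∉ D.F ⊥ (p - 1 + 1) := by
    rw [hpp, hbot, Subgroup.mem_bot]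
    exact hne
  have hrule := h.comm_rule ⊥ Subgroup.normal_bot bot_le bot_le (p - 1) (by omega) w h1 h2
    D.τ₀ h.τ₀_mem
  rw [pow_one] at hcomm
  rw [hcomm] at hrule
  have h3 : D.τ₀ ^ (p - 1) ∈ D.W := by
    rw [h.W_eq_wild]
    exact hrule.1 (Subgroup.one_mem _)
  have h4 := (h.τ₀_pow (p - 1)).1 h3
  have h5 : (p - 1) * D.m ≤ p - 1 := Nat.le_of_dvd (by omega) h4
  have h6 := h.m_ge_two
  nlinarith

/-- under a single break, the `ℓ₁`-coordinates vanish on `W` -/
theorem ℓ₁_eq_zero (hWeq : D.W = D.F ⊥ (p - 1)) (hbot : D.F ⊥ p = ⊥) {w : Γ} (hw : w ∈ D.W) :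
    D.ℓ₁ (D.c₁ w) = 0 ∧ D.ℓ₁ (D.c₂ w) = 0 := by
  have hψ1 : D.ψ₀ ^ 1 ≠ 1 := by rw [pow_one]; exact h.ψ₀_ne_one
  set P := avg (D.τ₀ ^ 1) w D.m with hP
  have hPW : P ∈ D.W := h.avg_mem _ hw _
  have hcomm : D.τ₀ ^ 1 * P * (D.τ₀ ^ 1)⁻¹ * P⁻¹ = 1 := by
    refine h.c_inj _ (D.W.mul_mem (h.W_normal.conj_mem P hPW _) (D.W.inv_mem hPW)) ?_ ?_
    · apply h.eq_of_coord
      · rw [h.coc_comm_ℓ₁ h.isCoc₁ 1 hPW, map_zero]
      · rw [h.coc_comm_ℓp h.isCoc₁ 1 hPW, h.coc_avg_ℓp h.isCoc₁ 1 hψ1 hw, mul_zero, map_zero]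
      · rw [h.coc_comm_ℓm h.isCoc₁ 1 hPW, h.coc_avg_ℓm h.isCoc₁ 1 hψ1 hw, mul_zero, map_zero]
    · apply h.eq_of_coord
      · rw [h.coc_comm_ℓ₁ h.isCoc₂ 1 hPW, map_zero]
      · rw [h.coc_comm_ℓp h.isCoc₂ 1 hPW, h.coc_avg_ℓp h.isCoc₂ 1 hψ1 hw, mul_zero, map_zero]
      · rw [h.coc_comm_ℓm h.isCoc₂ 1 hPW, h.coc_avg_ℓm h.isCoc₂ 1 hψ1 hw, mul_zero, map_zero]
  have hP1 : P = 1 := h.eq_one_of_comm_eq_one hWeq hbot hPW hcomm
  have e1 := h.coc_avg_ℓ₁ h.isCoc₁ 1 hw D.m
  have e2 := h.coc_avg_ℓ₁ h.isCoc₂ 1 hw D.m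
  rw [← hP, hP1, h.isCoc₁.one, map_zero] at e1
  rw [← hP, hP1, h.isCoc₂.one, map_zero] at e2
  constructor
  · rcases mul_eq_zero.mp e1.symm with h' | h'
    · exact absurd h' h.m_cast_ne_zero
    · exact h'
  · rcases mul_eq_zero.mp e2.symm with h' | h'
    · exact absurd h' h.m_cast_ne_zero
    · exact h'

end Hyp

end Fermat.Agent.S56.H846.FLCnt

namespace Fermat.Agent.S56.H846

open FLCnt

/-- **FL-CNT**: the abstract count. -/
theorem flCnt : FLCntStatement := by
  intro p _ Γ k Z _ _ _ _ _ D h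
  by_cases hW : D.W = ⊥
  · refine ⟨1, 0, Or.inl one_ne_zero, fun w hw => ?_⟩
    rw [hW, Subgroup.mem_bot] at hw
    rw [hw, h.isCoc₁.one, h.isCoc₂.one]
    simp
  obtain ⟨hWeq, hbot, hm2⟩ := h.single_break hW
  obtain ⟨w₀, hw₀, hgen⟩ := h.cyc hm2 hWeq hbot
  -- choice of `(a₁, a₂)`
  obtain ⟨a₁, a₂, hne, hzero⟩ : ∃ a₁ a₂ : k, (a₁ ≠ 0 ∨ a₂ ≠ 0) ∧
      a₁ * D.ℓp (D.c₁ w₀) + a₂ * D.ℓp (D.c₂ w₀) = 0 := by
    by_cases hx : D.ℓp (D.c₁ w₀) = 0 ∧ D.ℓp (D.c₂ w₀) = 0
    · exact ⟨1, 0, Or.inl one_ne_zero, by rw [hx.1, hx.2]; ring⟩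
    · refine ⟨D.ℓp (D.c₂ w₀), - D.ℓp (D.c₁ w₀), ?_, by ring⟩
      by_contra hcon
      push Not at hcon
      exact hx ⟨neg_eq_zero.mp hcon.2, hcon.1⟩
  refine ⟨a₁, a₂, hne, ?_⟩
  set c : Γ → Z := fun w => a₁ • D.c₁ w + a₂ • D.c₂ w with hc
  have hcoc : IsCoc D c :=
    ⟨fun w hw w' hw' => by
      simp only [hc, h.c₁_mul w hw w' hw', h.c₂_mul w hw w' hw', smul_add]
      abel,
     fun g w hw => by
      simp only [hc, h.c₁_conj g w hw, h.c₂_conj g w hw, map_add, map_smul]⟩
  have hcp : ∀ w, D.ℓp (c w) = a₁ * D.ℓp (D.c₁ w) + a₂ * D.ℓp (D.c₂ w) := fun w => by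
    simp only [hc, map_add, map_smul, smul_eq_mul]
  -- the subgroup where the `ψ`-coordinate vanishes
  let H : Subgroup Γ :=
    { carrier := {w | w ∈ D.W ∧ D.ℓp (c w) = 0}
      one_mem' := ⟨D.W.one_mem, by rw [hcoc.one, map_zero]⟩
      mul_mem' := by
        rintro w w' ⟨hw, hw0⟩ ⟨hw', hw0'⟩
        exact ⟨D.W.mul_mem hw hw', by rw [hcoc.mul w hw w' hw', map_add, hw0, hw0', add_zero]⟩
      inv_mem' := by
        rintro w ⟨hw, hw0⟩
        exact ⟨D.W.inv_mem hw, by rw [hcoc.inv hw, map_neg, hw0, neg_zero]⟩ }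
  have hH : D.W ≤ H := by
    refine hgen H ⟨hw₀, by rw [hcp]; exact hzero⟩ ?_ ?_
    · rintro w ⟨hw, hw0⟩
      exact ⟨h.W_normal.conj_mem w hw _, by rw [hcoc.conj _ w hw, h.tame_ℓp, hw0, mul_zero]⟩
    · rintro w ⟨hw, hw0⟩
      refine ⟨h.W_normal.conj_mem w hw _, ?_⟩
      rw [hcoc.conj _ w hw, map_pow, pow_two, Module.End.mul_apply, h.frob_ℓp, h.frob_ℓm, hw0,
        mul_zero, mul_zero]
  have hp0 : ∀ w ∈ D.W, D.ℓp (c w) = 0 := fun w hw => (hH hw).2
  have hm0 : ∀ w ∈ D.W, D.ℓm (c w) = 0 := by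
    intro w hw
    have hw' : D.φ⁻¹ * w * D.φ ∈ D.W := by
      have := h.W_normal.conj_mem w hw D.φ⁻¹
      rwa [inv_inv] at this
    have e : w = D.φ * (D.φ⁻¹ * w * D.φ) * D.φ⁻¹ := by group
    rw [e, hcoc.conj _ _ hw', h.frob_ℓm, hp0 _ hw', mul_zero]
  intro w hw
  have h10 : D.ℓ₁ (c w) = 0 := by
    obtain ⟨e1, e2⟩ := h.ℓ₁_eq_zero hWeq hbot hw
    simp only [hc, map_add, map_smul, e1, e2, smul_zero, add_zero]
  show c w = 0
  exact h.eq_of_coord (by rw [h10, map_zero]) (by rw [hp0 w hw, map_zero])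
    (by rw [hm0 w hw, map_zero])

end Fermat.Agent.S56.H846

end
-- ===== PACK-END S56/H846/FLCnt/Main.lean

-- ===== PACK-BEGIN S14/H937/GalLift.lean
section



/-!
# S14, LOCAL-I / LOCAL-D (helper937): lifting from `Gal(M/K)` to `Gal(ℚ̄/K)`

`K ⊆ M ⊆ ℚ̄`, `M/K` finite Galois, `A` a valuation subring of `ℚ̄`.  An element of the inertia
(resp. decomposition) group of the prime of `𝓞 M` below `A` lifts to an element of
`Gal(ℚ̄/K)` acting trivially modulo (resp. stabilising) the prime of `ℤ̄` below `A`.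
-/

set_option autoImplicit false
set_option linter.style.haveILetI false

open NumberField
open scoped Pointwise

namespace Fermat.Agent.S14.H937

theorem isGalois_Qb_over (K : IntermediateField ℚ Qb) : IsGalois K Qb :=
  haveI := Fermat.Agent.S54.isGalois_algebraicClosure_rat
  IsGalois.tower_top_of_isGalois ℚ K Qb

/-- `Gal(ℚ̄/K)` acts continuously on the discrete ring of all algebraic integers. -/
theorem continuousSMul_over (K : IntermediateField ℚ Qb) :
    letI : TopologicalSpace (integralClosure ℤ Qb) := ⊥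
    ContinuousSMul (Qb ≃ₐ[K] Qb) (integralClosure ℤ Qb) := by
  letI : TopologicalSpace (integralClosure ℤ Qb) := ⊥
  haveI : DiscreteTopology (integralClosure ℤ Qb) := ⟨rfl⟩
  haveI := isGalois_Qb_over K
  refine ⟨?_⟩
  rw [continuous_prod_of_discrete_right]
  intro b
  rw [continuous_discrete_rng]
  intro c
  rw [isOpen_iff_mem_nhds]
  intro g hg
  let E : IntermediateField K Qb := IntermediateField.adjoin K {(b : Qb)}
  haveI : FiniteDimensional K E :=
    IntermediateField.adjoin.finiteDimensional (Algebra.IsIntegral.isIntegral _)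
  have hopen : IsOpen ((g • (E.fixingSubgroup : Set (Qb ≃ₐ[K] Qb)))) :=
    (E.fixingSubgroup_isOpen).smul g
  refine Filter.mem_of_superset (hopen.mem_nhds ⟨1, one_mem _, by simp⟩) ?_
  rintro _ ⟨h, hh, rfl⟩
  simp only [Set.mem_preimage, Set.mem_singleton_iff] at hg ⊢
  rw [← hg]
  apply Subtype.ext
  have hb : h (b : Qb) = b := by
    have := (IntermediateField.mem_fixingSubgroup_iff E h).mp hh b
      (IntermediateField.subset_adjoin K _ (Set.mem_singleton _))
    exact this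
  show (g * h) (b : Qb) = g (b : Qb)
  rw [AlgEquiv.mul_apply, hb]

section

variable (K : IntermediateField ℚ Qb)
variable (M : IntermediateField K Qb) [FiniteDimensional K M] [IsGalois K M]
variable (A : ValuationSubring Qb)

omit [FiniteDimensional K M] [IsGalois K M] in
/-- An algebraic integer fixed by `Gal(ℚ̄/M)` comes from `𝓞 M`. -/
theorem exists_integer_of_fixed (x : integralClosure ℤ Qb)
    (hx : ∀ n ∈ (M.fixingSubgroup : Subgroup (Qb ≃ₐ[K] Qb)), n • x = x) :
    ∃ y : 𝓞 M, toZbar M y = x := by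
  haveI := isGalois_Qb_over K
  have hxM : (x : Qb) ∈ M := by
    rw [← InfiniteGalois.fixedField_fixingSubgroup M, IntermediateField.mem_fixedField_iff]
    intro f hf
    exact congrArg Subtype.val (hx f hf)
  have hxint : IsIntegral ℤ (⟨(x : Qb), hxM⟩ : M) := by
    have h1 : IsIntegral ℤ (x : Qb) := x.2
    exact (isIntegral_algebraMap_iff (A := M) (B := Qb)
      (FaithfulSMul.algebraMap_injective M Qb)).mp h1
  exact ⟨⟨⟨(x : Qb), hxM⟩, hxint⟩, Subtype.ext rfl⟩

theorem exists_lift_inertia (τ : M ≃ₐ[K] M) (hτ : ∀ x : 𝓞 M, τ • x - x ∈ primeOf M A) :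
    ∃ σ : Qb ≃ₐ[K] Qb, (∀ x : M, σ (x : Qb) = ((τ x : M) : Qb)) ∧
      ∀ x : Qb, IsIntegral ℤ x → σ x - x ∈ A.nonunits := by
  haveI := isGalois_Qb_over K
  haveI hQ := Fermat.Agent.S54.primeBelow_isPrime A
  obtain ⟨g₀, hg₀⟩ := AlgEquiv.restrictNormalHom_surjective (F := K) (K₁ := M) Qb τ
  have hg₀M : ∀ x : M, g₀ (x : Qb) = ((τ x : M) : Qb) := by
    intro x
    rw [← hg₀]
    exact (AlgEquiv.restrictNormal_commutes g₀ M x).symm
  have h₀ : ∀ x : integralClosure ℤ Qb,
      (∀ n ∈ (M.fixingSubgroup : Subgroup (Qb ≃ₐ[K] Qb)), n • x = x) →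
        g₀ • x - x ∈ Fermat.Agent.S54.primeBelow A := by
    intro x hx
    obtain ⟨y, rfl⟩ := exists_integer_of_fixed K M x hx
    have h2 := hτ y
    rw [mem_primeOf] at h2
    rw [Fermat.Agent.S54.mem_primeBelow]
    have h4 : ((g₀ • toZbar M y - toZbar M y : integralClosure ℤ Qb) : Qb) =
        g₀ ((y : M) : Qb) - ((y : M) : Qb) := rfl
    rw [h4, hg₀M]
    exact h2
  letI : TopologicalSpace (integralClosure ℤ Qb) := ⊥
  haveI : DiscreteTopology (integralClosure ℤ Qb) := ⟨rfl⟩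
  haveI := continuousSMul_over K
  have hclosed : IsClosed ((M.fixingSubgroup : Subgroup (Qb ≃ₐ[K] Qb)) : Set (Qb ≃ₐ[K] Qb)) :=
    IntermediateField.fixingSubgroup_isClosed M
  obtain ⟨σ, hσN, hσ⟩ := Fermat.Agent.S13.H175.exists_inertia_lift
    (G := Qb ≃ₐ[K] Qb) (M.fixingSubgroup) hclosed (Fermat.Agent.S54.primeBelow A) g₀ h₀
  refine ⟨σ, fun x => ?_, fun x hx => hσ ⟨x, hx⟩⟩
  have h1 := (IntermediateField.mem_fixingSubgroup_iff M _).mp hσN x x.2
  rw [AlgEquiv.mul_apply] at h1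
  have h2 : σ (x : Qb) = g₀ (x : Qb) := by
    have := congrArg g₀ h1
    simpa using this
  rw [h2, hg₀M]

theorem exists_lift_decomp (τ : M ≃ₐ[K] M)
    (hτ : ∀ x : 𝓞 M, τ • x ∈ primeOf M A ↔ x ∈ primeOf M A) :
    ∃ σ : Qb ≃ₐ[K] Qb, (∀ x : M, σ (x : Qb) = ((τ x : M) : Qb)) ∧
      ∀ x : Qb, IsIntegral ℤ x → (σ x ∈ A.nonunits ↔ x ∈ A.nonunits) := by
  haveI := isGalois_Qb_over K
  haveI hQ := Fermat.Agent.S54.primeBelow_isPrime A
  obtain ⟨g₀, hg₀⟩ := AlgEquiv.restrictNormalHom_surjective (F := K) (K₁ := M) Qb τ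
  have hg₀M : ∀ x : M, g₀ (x : Qb) = ((τ x : M) : Qb) := by
    intro x
    rw [← hg₀]
    exact (AlgEquiv.restrictNormal_commutes g₀ M x).symm
  have h₀ : ∀ x : integralClosure ℤ Qb,
      (∀ n ∈ (M.fixingSubgroup : Subgroup (Qb ≃ₐ[K] Qb)), n • x = x) →
        (g₀ • x ∈ Fermat.Agent.S54.primeBelow A ↔ x ∈ Fermat.Agent.S54.primeBelow A) := by
    intro x hx
    obtain ⟨y, rfl⟩ := exists_integer_of_fixed K M x hx
    have h2 := hτ y
    rw [mem_primeOf, mem_primeOf] at h2
    rw [Fermat.Agent.S54.mem_primeBelow, Fermat.Agent.S54.mem_primeBelow]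
    have h4 : ((g₀ • toZbar M y : integralClosure ℤ Qb) : Qb) = g₀ ((y : M) : Qb) := rfl
    rw [h4, hg₀M]
    exact h2
  letI : TopologicalSpace (integralClosure ℤ Qb) := ⊥
  haveI : DiscreteTopology (integralClosure ℤ Qb) := ⟨rfl⟩
  haveI := continuousSMul_over K
  have hclosed : IsClosed ((M.fixingSubgroup : Subgroup (Qb ≃ₐ[K] Qb)) : Set (Qb ≃ₐ[K] Qb)) :=
    IntermediateField.fixingSubgroup_isClosed M
  obtain ⟨σ, hσN, hσ⟩ := exists_stabilizer_lift
    (G := Qb ≃ₐ[K] Qb) (M.fixingSubgroup) hclosed (Fermat.Agent.S54.primeBelow A) g₀ h₀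
  refine ⟨σ, fun x => ?_, fun x hx => ?_⟩
  · have h1 := (IntermediateField.mem_fixingSubgroup_iff M _).mp hσN x x.2
    rw [AlgEquiv.mul_apply] at h1
    have h2 : σ (x : Qb) = g₀ (x : Qb) := by
      have := congrArg g₀ h1
      simpa using this
    rw [h2, hg₀M]
  · have h2 : (σ • (⟨x, hx⟩ : integralClosure ℤ Qb)) ∈ Fermat.Agent.S54.primeBelow A ↔
        (⟨x, hx⟩ : integralClosure ℤ Qb) ∈ Fermat.Agent.S54.primeBelow A := by
      conv_lhs => rw [← hσ]
      exact Ideal.smul_mem_pointwise_smul_iff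
    exact h2

end

end Fermat.Agent.S14.H937

end
-- ===== PACK-END S14/H937/GalLift.lean

-- ===== PACK-BEGIN S55/H414/CycloPow.lean
section




/-!
# S55, leaf CYC-INF (helper414), part 3: the cyclotomic character mod `N` on `G_ℚ`, Frobenius

* `cycloPow N : G_ℚ →* (ZMod N)ˣ`, `σ ζ_N = ζ_N ^ (cycloPow N σ)`, with kernel the fixing subgroup
  of `ℚ(ζ_N)`;
* every valuation subring `A` of `ℚ̄` over a prime `q` has a Frobenius element
  (`exists_isFrobeniusAt`, the proof of `Fermat.Agent.S54.exists_frobenius` for a given `A`);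
* a Frobenius element at `A | q`, `q ∤ N`, acts on `ζ_N` by `ζ ↦ ζ ^ q`;
* hence for `q ≠ p` the local degree of `ℚ(ζ_{p^n})` at `A` is divisible by `p ^ k` for `n ≫ 0`.
-/

set_option autoImplicit false

namespace Fermat.Agent.S55.H414

open ExtCitation Fermat.Agent.S55.Bridge

/-- The cyclotomic character modulo `N` of `G_ℚ`. -/
noncomputable def cycloPow (N : ℕ) [NeZero N] :
    (AlgebraicClosure ℚ ≃ₐ[ℚ] AlgebraicClosure ℚ) →* (ZMod N)ˣ :=
  (zetaBar_spec N).autToPow ℚ

theorem cycloPow_spec (N : ℕ) [NeZero N] (σ : AlgebraicClosure ℚ ≃ₐ[ℚ] AlgebraicClosure ℚ) :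
    σ (zetaBar N) = zetaBar N ^ ((cycloPow N σ : (ZMod N)ˣ) : ZMod N).val :=
  ((zetaBar_spec N).autToPow_spec ℚ σ).symm

/-- Two powers of a primitive `N`-th root of unity agree iff the exponents agree in `ZMod N`. -/
theorem pow_eq_pow_iff_natCast_eq {R : Type*} [CommRing R] [IsDomain R] {ζ : R} {N : ℕ}
    [NeZero N] (hζ : IsPrimitiveRoot ζ N) (a b : ℕ) :
    ζ ^ a = ζ ^ b ↔ (a : ZMod N) = (b : ZMod N) := by
  obtain ⟨u, rfl⟩ := hζ.isUnit (NeZero.ne N)
  have hu : IsPrimitiveRoot u N := IsPrimitiveRoot.coe_units_iff.1 hζ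
  rw [ZMod.natCast_eq_natCast_iff, ← Units.val_pow_eq_pow_val, ← Units.val_pow_eq_pow_val,
    Units.val_inj, pow_eq_pow_iff_modEq, ← hu.eq_orderOf]

/-- Characterisation of the value of the cyclotomic character. -/
theorem cycloPow_eq_iff (N : ℕ) [NeZero N] (σ : AlgebraicClosure ℚ ≃ₐ[ℚ] AlgebraicClosure ℚ)
    (u : (ZMod N)ˣ) :
    cycloPow N σ = u ↔ σ (zetaBar N) = zetaBar N ^ (u : ZMod N).val := by
  rw [cycloPow_spec, pow_eq_pow_iff_natCast_eq (zetaBar_spec N), ZMod.natCast_zmod_val,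
    ZMod.natCast_zmod_val]
  exact Units.ext_iff

/-- If `σ ζ = ζ ^ a` then `cycloPow N σ` is the class of `a`. -/
theorem coe_cycloPow_of_apply_eq_pow (N : ℕ) [NeZero N]
    (σ : AlgebraicClosure ℚ ≃ₐ[ℚ] AlgebraicClosure ℚ) (a : ℕ)
    (h : σ (zetaBar N) = zetaBar N ^ a) :
    ((cycloPow N σ : (ZMod N)ˣ) : ZMod N) = (a : ZMod N) := by
  rw [cycloPow_spec, pow_eq_pow_iff_natCast_eq (zetaBar_spec N), ZMod.natCast_zmod_val] at h
  exact h

theorem ker_cycloPow (N : ℕ) [NeZero N] :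
    (cycloPow N).ker = (_root_.Fermat.Agent.S55.H414.cycloLevel N).fixingSubgroup := by
  ext σ
  rw [MonoidHom.mem_ker, mem_fixingSubgroup_cycloLevel_iff, cycloPow_eq_iff]
  have h1 : zetaBar N ^ ((1 : (ZMod N)ˣ) : ZMod N).val = zetaBar N := by
    conv_rhs => rw [← pow_one (zetaBar N)]
    rw [pow_eq_pow_iff_natCast_eq (zetaBar_spec N), ZMod.natCast_zmod_val, Units.val_one,
      Nat.cast_one]
  rw [h1]

/-- The local degree `[D : D ∩ G_F]` for `F = ℚ(ζ_N)` is the order of the image of `D` under the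
cyclotomic character. -/
theorem relIndex_fixingSubgroup_cycloLevel (N : ℕ) [NeZero N]
    (D : Subgroup (AlgebraicClosure ℚ ≃ₐ[ℚ] AlgebraicClosure ℚ)) :
    (_root_.Fermat.Agent.S55.H414.cycloLevel N).fixingSubgroup.relIndex D = Nat.card (D.map (cycloPow N)) := by
  rw [← ker_cycloPow, Subgroup.relIndex_ker]

/-- The local degree `[D : D ∩ G_F]` is the order of the image of `D` in `Gal(F/ℚ)`. -/
theorem relIndex_fixingSubgroup_eq_card_map_restrictNormalHom
    (F : IntermediateField ℚ (AlgebraicClosure ℚ)) [Normal ℚ F]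
    (D : Subgroup (AlgebraicClosure ℚ ≃ₐ[ℚ] AlgebraicClosure ℚ)) :
    F.fixingSubgroup.relIndex D = Nat.card (D.map (AlgEquiv.restrictNormalHom F)) := by
  have hker : (AlgEquiv.restrictNormalHom (F := ℚ) (K₁ := AlgebraicClosure ℚ) F).ker
      = F.fixingSubgroup := by
    ext x
    rw [MonoidHom.mem_ker, IntermediateField.mem_fixingSubgroup_iff]
    constructor
    · intro h a ha
      have h1 := AlgEquiv.restrictNormal_commutes x F ⟨a, ha⟩
      have h2 : x.restrictNormal F = 1 := h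
      rw [h2] at h1
      exact h1.symm
    · intro h
      apply AlgEquiv.ext
      intro a
      apply Subtype.ext
      have h1 := AlgEquiv.restrictNormal_commutes x F a
      have h2 := h a a.2
      exact h1.trans h2
  rw [← hker, Subgroup.relIndex_ker]

/-- Every valuation subring of `ℚ̄` over a prime number `ℓ` has a Frobenius element. -/
theorem exists_isFrobeniusAt (A : ValuationSubring (AlgebraicClosure ℚ)) (ℓ : ℕ) (hℓ : ℓ.Prime)
    (hA : A.LiesOverPrime ℓ) :
    ∃ σ : AlgebraicClosure ℚ ≃ₐ[ℚ] AlgebraicClosure ℚ, A.IsFrobeniusAt σ ℓ := by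
  open Fermat.Agent.S54 in
  open scoped Pointwise in
  have : Algebra.IsAlgebraic ℚ (AlgebraicClosure ℚ) := AlgebraicClosure.isAlgebraic ℚ
  have := primeBelow_isPrime A
  have hℓQ : (ℓ : integralClosure ℤ (AlgebraicClosure ℚ)) ∈ primeBelow A := by
    rw [mem_primeBelow]
    exact hA
  obtain ⟨σ, hσQ', hσF⟩ := exists_frob_integralClosure ℓ hℓ (primeBelow A) hℓQ
  have hσQ : ∀ x, σ • x ∈ primeBelow A ↔ x ∈ primeBelow A := by
    intro x
    conv_lhs => rw [← hσQ']
    exact Ideal.smul_mem_pointwise_smul_iff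
  have key : ∀ τ : AlgebraicClosure ℚ ≃ₐ[ℚ] AlgebraicClosure ℚ,
      (∀ x, τ • x ∈ primeBelow A ↔ x ∈ primeBelow A) → ∀ x ∈ A, τ x ∈ A := by
    intro τ hτ x hx
    obtain ⟨b, s, hb, hs, hsA, hxs⟩ := (mem_valuationSubring_iff A ℓ hℓ hA x).mp hx
    refine (mem_valuationSubring_iff A ℓ hℓ hA (τ x)).mpr
      ⟨τ b, τ s, hb.map τ, hs.map τ, ?_, ?_⟩
    · exact (hτ ⟨s, hs⟩).not.mpr hsA
    · rw [← map_mul, hxs]
  have hσA : σ ∈ A.decompositionSubgroup ℚ := by
    rw [MulAction.mem_stabilizer_iff]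
    ext x
    rw [ValuationSubring.mem_smul_pointwise_iff_exists]
    constructor
    · rintro ⟨s, hs, rfl⟩
      exact key σ hσQ s hs
    · intro hx
      refine ⟨σ⁻¹ • x, key σ⁻¹ ?_ x hx, by simp⟩
      intro y
      rw [← hσQ (σ⁻¹ • y)]
      simp
  refine ⟨σ, hσA, ?_⟩
  intro x
  obtain ⟨a, rfl⟩ := IsLocalRing.residue_surjective x
  obtain ⟨b, s, hb, hs, hsA, hxs⟩ := (mem_valuationSubring_iff A ℓ hℓ hA a).mp a.2
  have hbA : b ∈ A := isIntegral_mem_valuationSubring A hb
  have hsA' : s ∈ A := isIntegral_mem_valuationSubring A hs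
  have hint : ∀ (y : AlgebraicClosure ℚ) (hy : IsIntegral ℤ y),
      (⟨σ, hσA⟩ : A.decompositionSubgroup ℚ) •
        IsLocalRing.residue A ⟨y, isIntegral_mem_valuationSubring A hy⟩ =
      (IsLocalRing.residue A ⟨y, isIntegral_mem_valuationSubring A hy⟩) ^ ℓ := by
    intro y hy
    rw [← IsLocalRing.ResidueField.residue_smul, ← map_pow, ← sub_eq_zero, ← map_sub,
      IsLocalRing.residue_eq_zero_iff, ← ValuationSubring.coe_mem_nonunits_iff]
    exact hσF ⟨y, hy⟩
  have h1 : IsLocalRing.residue A a * IsLocalRing.residue A ⟨s, hsA'⟩ =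
      IsLocalRing.residue A ⟨b, hbA⟩ := by
    rw [← map_mul]
    congr 1
    exact Subtype.ext hxs
  have h2 : IsLocalRing.residue A ⟨s, hsA'⟩ ≠ 0 := by
    rw [Ne, IsLocalRing.residue_eq_zero_iff, ← ValuationSubring.coe_mem_nonunits_iff]
    exact hsA
  have h3 := congrArg (fun z => (⟨σ, hσA⟩ : A.decompositionSubgroup ℚ) • z) h1
  simp only [smul_mul'] at h3
  rw [hint s hs, hint b hb, ← h1, mul_pow] at h3
  exact mul_right_cancel₀ (pow_ne_zero _ h2) h3

/-- A Frobenius element at `A` is congruent to the `q`-th power map on `A`. -/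
theorem IsFrobeniusAt_val_sub_pow_lt_one {A : ValuationSubring (AlgebraicClosure ℚ)}
    {σ : AlgebraicClosure ℚ ≃ₐ[ℚ] AlgebraicClosure ℚ} {q : ℕ} (hσ : A.IsFrobeniusAt σ q)
    (z : AlgebraicClosure ℚ) (hz : z ∈ A) : A.valuation (σ z - z ^ q) < 1 := by
  obtain ⟨hσD, hF⟩ := hσ
  have h2 := hF (IsLocalRing.residue A ⟨z, hz⟩)
  rw [← IsLocalRing.ResidueField.residue_smul, ← map_pow] at h2
  have h3 : ((⟨σ, hσD⟩ : A.decompositionSubgroup ℚ) • (⟨z, hz⟩ : A)) - (⟨z, hz⟩ : A) ^ q
      ∈ IsLocalRing.maximalIdeal A := by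
    rw [← Ideal.Quotient.eq]
    exact h2
  rw [ValuationSubring.valuation_lt_one_iff] at h3
  exact h3

/-- A Frobenius element at `A | q` acts on `N`-th roots of unity (`N` a unit at `A`) by
`ζ ↦ ζ ^ q`. -/
theorem IsFrobeniusAt_apply_root {A : ValuationSubring (AlgebraicClosure ℚ)}
    {σ : AlgebraicClosure ℚ ≃ₐ[ℚ] AlgebraicClosure ℚ} {q : ℕ} (hσ : A.IsFrobeniusAt σ q)
    {N : ℕ} (hN : N ≠ 0) (hNv : A.valuation (N : AlgebraicClosure ℚ) = 1)
    {z : AlgebraicClosure ℚ} (hz : z ^ N = 1) : σ z = z ^ q := by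
  by_contra hne
  have hσz : (σ z) ^ N = 1 := by rw [← map_pow, hz, map_one]
  have hzq : (z ^ q) ^ N = 1 := by rw [← pow_mul, mul_comm, pow_mul, hz, one_pow]
  have h1 := val_sub_roots_eq_one (A := A) hN hNv hσz hzq hne
  have hzA : z ∈ A := (A.valuation_le_one_iff z).1 (valuation_eq_one_of_pow_eq_one A hN hz).le
  have h2 := IsFrobeniusAt_val_sub_pow_lt_one hσ z hzA
  rw [h1] at h2
  exact lt_irrefl _ h2

/-- **CYC-INF, case `q ≠ p`.** For a valuation subring `A` of `ℚ̄` over a prime `q ≠ p` and every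
`k`, for all large `n` the local degree at `A` of `ℚ(ζ_{p^n})/ℚ` is divisible by `p ^ k`. -/
theorem exists_forall_pow_dvd_relIndex_of_ne (p : ℕ) [Fact p.Prime] (q : ℕ) (hq : q.Prime)
    (hqp : q ≠ p) (A : ValuationSubring (AlgebraicClosure ℚ)) (hA : A.LiesOverPrime q) (k : ℕ) :
    ∃ n₀ : ℕ, ∀ n, n₀ ≤ n →
      p ^ k ∣ (_root_.Fermat.Agent.S55.H414.cycloLevel (p ^ n)).fixingSubgroup.relIndex (A.decompositionSubgroup ℚ) := by
  have hp : p.Prime := Fact.out
  obtain ⟨n₀, hn₀⟩ := exists_forall_pow_dvd_orderOf p q hp hq.two_le k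
  obtain ⟨σ, hσ⟩ := exists_isFrobeniusAt A q hq hA
  refine ⟨n₀, fun n hn => ?_⟩
  rw [relIndex_fixingSubgroup_cycloLevel]
  have hNv : A.valuation ((p ^ n : ℕ) : AlgebraicClosure ℚ) = 1 := by
    rw [Nat.cast_pow, map_pow, val_prime_eq_one (A := A) hA hq hp hqp, one_pow]
  have hζ : σ (zetaBar (p ^ n)) = zetaBar (p ^ n) ^ q :=
    IsFrobeniusAt_apply_root hσ (NeZero.ne _) hNv (zetaBar_spec (p ^ n)).pow_eq_one
  have hu := coe_cycloPow_of_apply_eq_pow (p ^ n) σ q hζ
  have hdvd := hn₀ n hn (cycloPow (p ^ n) σ) hu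
  have hmem : cycloPow (p ^ n) σ ∈ (A.decompositionSubgroup ℚ).map (cycloPow (p ^ n)) :=
    Subgroup.mem_map_of_mem _ hσ.mem_decompositionSubgroup
  have h2 : orderOf (cycloPow (p ^ n) σ) ∣
      Nat.card ((A.decompositionSubgroup ℚ).map (cycloPow (p ^ n))) := by
    have := Subgroup.orderOf_dvd_natCard
      ((A.decompositionSubgroup ℚ).map (cycloPow (p ^ n))) hmem
    exact this
  exact hdvd.trans h2

end Fermat.Agent.S55.H414

end
-- ===== PACK-END S55/H414/CycloPow.lean

-- ===== PACK-BEGIN S55/G/Rec/Glob/CyclicFinite.lean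
section




/-!
# S55 / REC / K4, finite-level core (helper64)

`exists_cupChar_of_res_coboundary` : let `E / K` be a finite Galois extension, `Γ = Gal(E/K)`,
`χ : Γ →* ℤ/n` a surjective character and `c` a 2-cocycle of `Γ` with values in `Eˣ` whose
restriction to `ker χ` is a coboundary.  Then `c` is cohomologous to the cup cocycle
`(γ, δ) ↦ a ^ carry(χ γ, χ δ)` for some `a ∈ Kˣ`.

Proof: inflation–restriction for the tower `K ⊆ L = E^{ker χ} ⊆ E`
(`Local/H64/GalInfRes.lean`, Hilbert 90) and the explicit description of the second cohomology of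
a cyclic group (`H379.exists_cupChar_cohomologous`).
-/

set_option autoImplicit false
set_option linter.style.haveILetI false

namespace Fermat.Agent.S55.G.Rec.Glob

open groupCohomology Fermat.Agent.S55.Local.H64 Fermat.Agent.S55.G.Rec

/-- The additive action on `Additive M` attached to a multiplicative action on `M`. -/
@[reducible] def addAct (G M : Type) [Group G] [CommGroup M] [MulDistribMulAction G M] :
    DistribMulAction G (Additive M) where
  smul g x := Additive.ofMul (g • Additive.toMul x)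
  one_smul x := by
    change Additive.ofMul ((1 : G) • Additive.toMul x) = x
    rw [one_smul]; rfl
  mul_smul g h x := by
    change Additive.ofMul ((g * h) • Additive.toMul x) =
      Additive.ofMul (g • Additive.toMul (Additive.ofMul (h • Additive.toMul x)))
    rw [mul_smul]; rfl
  smul_zero g := by
    change Additive.ofMul (g • (1 : M)) = 0
    rw [smul_one]; rfl
  smul_add g x y := by
    change Additive.ofMul (g • (Additive.toMul x * Additive.toMul y)) =
      Additive.ofMul (g • Additive.toMul x) + Additive.ofMul (g • Additive.toMul y)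
    rw [smul_mul']; rfl

section Finite

variable (K E : Type) [Field K] [Field E] [Algebra K E] [FiniteDimensional K E] [IsGalois K E]

/-- **K4, finite level.** -/
theorem exists_cupChar_of_res_coboundary (n : ℕ) [NeZero n]
    (χ : (E ≃ₐ[K] E) →* Multiplicative (ZMod n)) (hχ : Function.Surjective χ)
    (c : (E ≃ₐ[K] E) × (E ≃ₐ[K] E) → Eˣ) (hc : IsMulCocycle₂ c)
    (β : χ.ker → Eˣ)
    (hβ : ∀ s t : χ.ker, (s : E ≃ₐ[K] E) • β t / β (s * t) * β s = c ((s : E ≃ₐ[K] E), t)) :
    ∃ (a : Kˣ) (w : (E ≃ₐ[K] E) → Eˣ), ∀ γ δ : E ≃ₐ[K] E,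
      c (γ, δ) = (γ • w δ / w (γ * δ) * w γ) *
        (Units.map (algebraMap K E : K →* E) a) ^
          (H379.carry n (Multiplicative.toAdd (χ γ)) (Multiplicative.toAdd (χ δ))) := by
  classical
  -- the fixed field of `ker χ`
  let L : IntermediateField K E := IntermediateField.fixedField χ.ker
  haveI : IsGalois K L := IsGalois.of_fixedField_normal_subgroup χ.ker
  have hfix : L.fixingSubgroup = χ.ker := IntermediateField.fixingSubgroup_fixedField χ.ker
  have hmem : ∀ τ : E ≃ₐ[L] E, τ.restrictScalars K ∈ χ.ker := by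
    intro τ
    rw [← hfix, IntermediateField.mem_fixingSubgroup_iff]
    intro x hx
    exact τ.commutes ⟨x, hx⟩
  -- the restriction of `c` to `Gal(E/L)` is a coboundary
  have hres : IsMulCoboundary₂ (resCochain K L E c) := by
    refine ⟨fun τ => β ⟨τ.restrictScalars K, hmem τ⟩, fun τ τ' => ?_⟩
    exact hβ ⟨τ.restrictScalars K, hmem τ⟩ ⟨τ'.restrictScalars K, hmem τ'⟩
  obtain ⟨c₁, hc₁, y, hy⟩ := exists_inflCochain_of_resCochain K L E hc hres
  -- the character of `Gal(L/K)`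
  have hsurjL : Function.Surjective (AlgEquiv.restrictNormalHom (F := K) (K₁ := E) L) :=
    AlgEquiv.restrictNormalHom_surjective E
  have hkerL : (AlgEquiv.restrictNormalHom (F := K) (K₁ := E) L).ker = χ.ker := by
    rw [IntermediateField.restrictNormalHom_ker, hfix]
  let χL : (L ≃ₐ[K] L) →* Multiplicative (ZMod n) :=
    MonoidHom.liftOfSurjective (AlgEquiv.restrictNormalHom (F := K) (K₁ := E) L) hsurjL
      ⟨χ, hkerL.le⟩
  have hχL : ∀ γ : E ≃ₐ[K] E, χL (AlgEquiv.restrictNormalHom L γ) = χ γ := fun γ =>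
    MonoidHom.liftOfRightInverse_comp_apply _ _ _ _ γ
  let ψ : (L ≃ₐ[K] L) → ZMod n := fun σ => Multiplicative.toAdd (χL σ)
  have hψadd : ∀ g h, ψ (g * h) = ψ g + ψ h := by
    intro g h
    simp only [ψ, map_mul, toAdd_mul]
  have hψinj : Function.Injective ψ := by
    intro σ σ' h
    have h1 : χL σ = χL σ' := Multiplicative.toAdd.injective h
    obtain ⟨γ, rfl⟩ := hsurjL σ
    obtain ⟨γ', rfl⟩ := hsurjL σ'
    rw [hχL, hχL] at h1
    have h2 : γ⁻¹ * γ' ∈ (AlgEquiv.restrictNormalHom (F := K) (K₁ := E) L).ker := by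
      rw [hkerL, MonoidHom.mem_ker, map_mul, map_inv, h1, inv_mul_cancel]
    rw [MonoidHom.mem_ker, map_mul, map_inv, inv_mul_eq_one] at h2
    exact h2
  obtain ⟨γ₀, hγ₀⟩ := hχ (Multiplicative.ofAdd 1)
  have hψσ : ψ (AlgEquiv.restrictNormalHom L γ₀) = 1 := by
    simp only [ψ, hχL, hγ₀, toAdd_ofAdd]
  -- cyclic periodicity at the level of `L / K`
  obtain ⟨aL, haLfix, z, hz⟩ : ∃ (aL : (↥L)ˣ) (_ : ∀ σ : L ≃ₐ[K] L, σ • aL = aL)
      (z : (L ≃ₐ[K] L) → (↥L)ˣ), ∀ σ τ : L ≃ₐ[K] L,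
        σ • z τ / z (σ * τ) * z σ = c₁ (σ, τ) / aL ^ (H379.carry n (ψ σ) (ψ τ)) := by
    letI := addAct (L ≃ₐ[K] L) (↥L)ˣ
    have hf : IsCocycle₂ (fun p : (L ≃ₐ[K] L) × (L ≃ₐ[K] L) => Additive.ofMul (c₁ p)) := by
      intro g h j
      exact congrArg Additive.ofMul (hc₁ g h j)
    obtain ⟨aA, haA, z, hz⟩ := H379.exists_cupChar_cohomologous hψadd hψinj hψσ hf
    refine ⟨Additive.toMul aA, fun σ => congrArg Additive.toMul (haA σ),
      fun σ => Additive.toMul (z σ), fun σ τ => ?_⟩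
    have := congrArg Additive.toMul (hz σ τ)
    simp only [Pi.sub_apply, H379.cupChar_apply] at this
    exact this
  -- `a` comes from `K`
  have haK : ((aL : (↥L)ˣ) : L) ∈ (⊥ : IntermediateField K L) := by
    rw [IsGalois.mem_bot_iff_fixed]
    intro σ
    have := congrArg (fun m : (↥L)ˣ => (m : L)) (haLfix σ)
    exact this
  obtain ⟨k, hk⟩ := IntermediateField.mem_bot.1 haK
  have hk0 : k ≠ 0 := by
    rintro rfl
    rw [map_zero] at hk
    exact aL.ne_zero hk.symm
  have haL : Units.map (algebraMap K L : K →* L) (Units.mk0 k hk0) = aL :=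
    Units.ext hk
  refine ⟨Units.mk0 k hk0, fun γ => y γ * unitsInc L E
    (z (AlgEquiv.restrictNormalHom L γ)), fun γ δ => ?_⟩
  -- assemble
  have h1 := hy γ δ
  have e1 : unitsInc L E aL = Units.map (algebraMap K E : K →* E) (Units.mk0 k hk0) := by
    rw [← haL]
    apply Units.ext
    exact (IsScalarTower.algebraMap_apply K L E k).symm
  have hχγ : ψ (AlgEquiv.restrictNormalHom L γ) = Multiplicative.toAdd (χ γ) := by
    simp only [ψ, hχL]
  have hχδ : ψ (AlgEquiv.restrictNormalHom L δ) = Multiplicative.toAdd (χ δ) := by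
    simp only [ψ, hχL]
  have h3 := congrArg (unitsInc L E)
    (hz (AlgEquiv.restrictNormalHom L γ) (AlgEquiv.restrictNormalHom L δ))
  rw [hχγ, hχδ, map_mul, map_div, unitsInc_smul, map_div, map_pow, e1, ← map_mul] at h3
  simp only [inflCochain_apply] at h1
  -- now pure group algebra in `Eˣ`
  have h4 : unitsInc L E (c₁ (AlgEquiv.restrictNormalHom L γ, AlgEquiv.restrictNormalHom L δ)) =
      c (γ, δ) / (γ • y δ / y (γ * δ) * y γ) := by
    rw [h1]
    simp only [div_div_cancel]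
  rw [h4] at h3
  simp only [smul_mul']
  generalize unitsInc L E (z ((AlgEquiv.restrictNormalHom L) δ)) = Z1 at h3 ⊢
  generalize unitsInc L E (z ((AlgEquiv.restrictNormalHom L) (γ * δ))) = Z2 at h3 ⊢
  generalize unitsInc L E (z ((AlgEquiv.restrictNormalHom L) γ)) = Z3 at h3 ⊢
  generalize (Units.map (algebraMap K E : K →* E) (Units.mk0 k hk0)) ^
    (H379.carry n (Multiplicative.toAdd (χ γ)) (Multiplicative.toAdd (χ δ))) = P at h3 ⊢
  generalize γ • y δ = Y1 at h3 ⊢
  generalize y (γ * δ) = Y2 at h3 ⊢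
  generalize y γ = Y3 at h3 ⊢
  generalize γ • Z1 = Z1' at h3 ⊢
  generalize c (γ, δ) = C at h3 ⊢
  have h5 : C = (Z1' / Z2 * Z3) * P * (Y1 / Y2 * Y3) := by
    rw [h3, div_mul_cancel, div_mul_cancel]
  rw [h5]
  simp only [div_eq_mul_inv, mul_inv_rev]
  ac_rfl

end Finite

end Fermat.Agent.S55.G.Rec.Glob

end
-- ===== PACK-END S55/G/Rec/Glob/CyclicFinite.lean

-- ===== PACK-BEGIN S55/H413/WRSub.lean
section


/-!
# S55, leaf WR, part 3d: norm groups of the subfields of `ℚ_p(ζ_{p^(n+1)})`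

For an intermediate field `E` of `F = ℚ_p(ζ_{p^(n+1)})` over `ℚ_p` (`p` odd):
`x ∈ N(Eˣ) ↔ wildChar x ^ [F : E] = 1`, given the local norm index theorem for `E/ℚ_p`.
In particular for the layer of degree `p ^ n` (`[F : E] = p - 1`):
`N(Eˣ) = { x : (unit part of x) ^ (p - 1) ≡ 1 mod p ^ (n + 1) }`.
-/

set_option autoImplicit false

namespace Fermat.Agent.S55.H413

open Polynomial

/-- Two subgroups `H ≤ K` of the same finite nonzero index are equal. -/
theorem subgroup_eq_of_le_of_index_eq {G : Type*} [Group G] {H K : Subgroup G} (hle : H ≤ K)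
    (hidx : H.index = K.index) (h0 : K.index ≠ 0) : H = K := by
  have h1 := Subgroup.relIndex_mul_index hle
  rw [hidx] at h1
  have h2 : H.relIndex K = 1 := by
    have : H.relIndex K * K.index = 1 * K.index := by rw [h1, one_mul]
    exact Nat.eq_of_mul_eq_mul_right (Nat.pos_of_ne_zero h0) this
  exact le_antisymm hle (Subgroup.relIndex_eq_one.mp h2)

variable (p : ℕ) [hp : Fact p.Prime]

section Cyclotomic

variable (n : ℕ) (F : Type*) [Field F] [Algebra ℚ_[p] F]
  [IsCyclotomicExtension {p ^ (n + 1)} ℚ_[p] F]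

/-- The subgroup `{x : wildChar x ^ d = 1}` of `ℚ_[p]ˣ`. -/
noncomputable abbrev wildKer (m d : ℕ) : Subgroup ℚ_[p]ˣ :=
  ((powMonoidHom d : (ZMod (p ^ m))ˣ →* (ZMod (p ^ m))ˣ).comp (wildChar p m)).ker

lemma mem_wildKer_iff (m d : ℕ) (x : ℚ_[p]ˣ) :
    x ∈ wildKer p m d ↔ wildChar p m x ^ d = 1 := by
  rw [MonoidHom.mem_ker]; rfl

lemma index_wildKer (hp2 : p ≠ 2) (m : ℕ) (hm : 0 < m) (d : ℕ) :
    (wildKer p m d).index = (p ^ m).totient / ((p ^ m).totient.gcd d) := by
  have : NeZero (p ^ m) := ⟨(pow_pos hp.out.pos m).ne'⟩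
  have : IsCyclic (ZMod (p ^ m))ˣ := ZMod.isCyclic_units_of_prime_pow p hp.out hp2 m
  have h1 : wildKer p m d = Subgroup.comap (wildChar p m)
      (powMonoidHom d : (ZMod (p ^ m))ˣ →* (ZMod (p ^ m))ˣ).ker := by
    rw [MonoidHom.comap_ker]
  rw [h1, Subgroup.index_comap_of_surjective _ (wildChar_surjective p m hm), Subgroup.index_ker,
    IsCyclic.card_powMonoidHom_range, Nat.card_eq_fintype_card, ZMod.card_units_eq_totient]

/-- `N(Eˣ) ≤ {x : wildChar x ^ [F:E] = 1}` for every intermediate field `E`, given the norm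
index theorem for `F/ℚ_p`. -/
theorem normRange_intermediate_le (hp2 : p ≠ 2) (E : IntermediateField ℚ_[p] F)
    (hNIF : (normRange p F).index = Module.finrank ℚ_[p] F) :
    normRange p E ≤ wildKer p (n + 1) (Module.finrank E F) := by
  have : FiniteDimensional ℚ_[p] F :=
    IsCyclotomicExtension.finiteDimensional {p ^ (n + 1)} ℚ_[p] F
  rintro x ⟨e, rfl⟩
  rw [mem_wildKer_iff, ← map_pow, ← MonoidHom.mem_ker, ← normRange_eq_ker_wildChar p n F hp2 hNIF]
  refine ⟨Units.map (algebraMap E F : E →* F) e, ?_⟩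
  apply Units.ext
  rw [Units.coe_map, Units.coe_map, Units.val_pow_eq_pow_val, Units.coe_map]
  show Algebra.norm ℚ_[p] (algebraMap E F (e : E)) = (Algebra.norm ℚ_[p] (e : E)) ^ _
  rw [← Algebra.norm_norm (S := E), Algebra.norm_algebraMap, map_pow]

/-- **Norm groups of the layers of the local cyclotomic tower at `p`.** -/
theorem normRange_intermediate_eq (hp2 : p ≠ 2) (E : IntermediateField ℚ_[p] F)
    (hNIF : (normRange p F).index = Module.finrank ℚ_[p] F)
    (hNIE : (normRange p E).index = Module.finrank ℚ_[p] E) :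
    normRange p E = wildKer p (n + 1) (Module.finrank E F) := by
  have : FiniteDimensional ℚ_[p] F :=
    IsCyclotomicExtension.finiteDimensional {p ^ (n + 1)} ℚ_[p] F
  have hle := normRange_intermediate_le p n F hp2 E hNIF
  have hmul : Module.finrank ℚ_[p] E * Module.finrank E F = (p ^ (n + 1)).totient := by
    rw [Module.finrank_mul_finrank, finrank_cyclotomic_padic p n F]
  have hEpos : 0 < Module.finrank ℚ_[p] E := Module.finrank_pos
  have hFEpos : 0 < Module.finrank E F := Module.finrank_pos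
  have hidx : (wildKer p (n + 1) (Module.finrank E F)).index = Module.finrank ℚ_[p] E := by
    rw [index_wildKer p hp2 (n + 1) (Nat.succ_pos n), ← hmul,
      Nat.gcd_eq_right (Dvd.intro_left _ rfl), Nat.mul_div_cancel _ hFEpos]
  apply subgroup_eq_of_le_of_index_eq hle (by rw [hNIE, hidx]) (by rw [hidx]; exact hEpos.ne')

/-- Membership form. -/
theorem mem_normRange_intermediate_iff (hp2 : p ≠ 2) (E : IntermediateField ℚ_[p] F)
    (hNIF : (normRange p F).index = Module.finrank ℚ_[p] F)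
    (hNIE : (normRange p E).index = Module.finrank ℚ_[p] E) (x : ℚ_[p]ˣ) :
    x ∈ normRange p E ↔ wildChar p (n + 1) x ^ Module.finrank E F = 1 := by
  rw [normRange_intermediate_eq p n F hp2 E hNIF hNIE, mem_wildKer_iff]

end Cyclotomic

end Fermat.Agent.S55.H413

end
-- ===== PACK-END S55/H413/WRSub.lean

-- ===== PACK-BEGIN S55/Herbrand/Cyclic.lean
section


/-!
# Herbrand quotient of a module over a finite cyclic group

For an additive commutative group `A` with an endomorphism `σ` such that `σ ^ n = 1`, put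
`delta σ = σ - 1` and `normN σ n = 1 + σ + ⋯ + σ ^ (n - 1)`.  Then
`h0 σ n = [ker (σ - 1) : im N]` (the order of `Ĥ⁰ ≅ H²`) and
`h1 σ n = [ker N : im (σ - 1)]` (the order of `Ĥ⁻¹ ≅ H¹`), and the Herbrand quotient is
`herbrand σ n = h0 / h1`.

* `herbrand_mul_of_exact` : multiplicativity in short exact sequences;
* `herbrand_eq_one_of_finite`;
* `herbrand_eq_of_finite_coker`, `herbrand_eq_of_finite_ker`;
* `herbrand_one` : for the trivial action, `herbrand 1 n = [A : nA] / |A[n]|`;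
* `herbrand_int` : `herbrand (1 : End ℤ) n = n`.
-/

set_option autoImplicit false

namespace Fermat.Agent.S55.Herbrand

open AddSubgroup

variable {A B C : Type*} [AddCommGroup A] [AddCommGroup B] [AddCommGroup C]

/-- `σ - 1` as an endomorphism. -/
def delta (σ : AddMonoid.End A) : A →+ A := (σ - 1 : AddMonoid.End A)

/-- The norm `1 + σ + ⋯ + σ^(n-1)` as an endomorphism. -/
def normN (σ : AddMonoid.End A) (n : ℕ) : A →+ A :=
  (∑ i ∈ Finset.range n, σ ^ i : AddMonoid.End A)

@[simp] lemma delta_apply (σ : AddMonoid.End A) (a : A) : delta σ a = σ a - a := rfl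

lemma normN_apply (σ : AddMonoid.End A) (n : ℕ) (a : A) :
    normN σ n a = ∑ i ∈ Finset.range n, (σ ^ i) a := by
  simp only [normN]
  exact map_sum (AddMonoidHom.eval a) _ _

lemma delta_normN {σ : AddMonoid.End A} {n : ℕ} (hσ : σ ^ n = 1) (a : A) :
    delta σ (normN σ n a) = 0 := by
  have h : (σ - 1) * ∑ i ∈ Finset.range n, σ ^ i = 0 := by
    rw [mul_geom_sum, hσ, sub_self]
  exact DFunLike.congr_fun h a

lemma normN_delta {σ : AddMonoid.End A} {n : ℕ} (hσ : σ ^ n = 1) (a : A) :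
    normN σ n (delta σ a) = 0 := by
  have h : (∑ i ∈ Finset.range n, σ ^ i) * (σ - 1) = 0 := by
    rw [geom_sum_mul, hσ, sub_self]
  exact DFunLike.congr_fun h a

/-- `h⁰ = [ker (σ - 1) : im N]`, the order of `Ĥ⁰(⟨σ⟩, A)` (`0` if infinite). -/
noncomputable def h0 (σ : AddMonoid.End A) (n : ℕ) : ℕ := hIndex (delta σ) (normN σ n)

/-- `h¹ = [ker N : im (σ - 1)]`, the order of `H¹(⟨σ⟩, A)` (`0` if infinite). -/
noncomputable def h1 (σ : AddMonoid.End A) (n : ℕ) : ℕ := hIndex (normN σ n) (delta σ)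

/-- The Herbrand quotient is defined: `h⁰` and `h¹` are finite. -/
def HerbrandDefined (σ : AddMonoid.End A) (n : ℕ) : Prop := IsDefined (delta σ) (normN σ n)

/-- Herbrand quotient `h⁰/h¹ = [ker (σ-1) : im N] / [ker N : im (σ-1)]`. -/
noncomputable def herbrand (σ : AddMonoid.End A) (n : ℕ) : ℚ := q (delta σ) (normN σ n)

lemma herbrand_eq_div (σ : AddMonoid.End A) (n : ℕ) :
    herbrand σ n = (h0 σ n : ℚ) / (h1 σ n : ℚ) := rfl

lemma herbrandDefined_iff (σ : AddMonoid.End A) (n : ℕ) :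
    HerbrandDefined σ n ↔ h0 σ n ≠ 0 ∧ h1 σ n ≠ 0 := Iff.rfl

lemma h0_eq_relIndex (σ : AddMonoid.End A) (n : ℕ) :
    h0 σ n = (AddMonoidHom.range (normN σ n)).relIndex (AddMonoidHom.ker (delta σ)) := rfl

lemma h1_eq_relIndex (σ : AddMonoid.End A) (n : ℕ) :
    h1 σ n = (AddMonoidHom.range (delta σ)).relIndex (AddMonoidHom.ker (normN σ n)) := rfl

section Equivariant

variable {σA : AddMonoid.End A} {σB : AddMonoid.End B} {σC : AddMonoid.End C}

lemma map_pow_of_comm {i : A →+ B} (hiσ : ∀ a, i (σA a) = σB (i a)) (k : ℕ) (a : A) :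
    i ((σA ^ k) a) = (σB ^ k) (i a) := by
  induction k generalizing a with
  | zero => simp
  | succ k ih =>
    rw [pow_succ, pow_succ]
    change i ((σA ^ k) (σA a)) = (σB ^ k) (σB (i a))
    rw [ih, hiσ]

lemma map_delta_of_comm {i : A →+ B} (hiσ : ∀ a, i (σA a) = σB (i a)) (a : A) :
    i (delta σA a) = delta σB (i a) := by
  simp [hiσ]

lemma map_normN_of_comm {i : A →+ B} (hiσ : ∀ a, i (σA a) = σB (i a)) (n : ℕ) (a : A) :
    i (normN σA n a) = normN σB n (i a) := by
  rw [normN_apply, normN_apply, map_sum]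
  exact Finset.sum_congr rfl fun k _ => map_pow_of_comm hiσ k a

variable {n : ℕ} {i : A →+ B} {p : B →+ C}

/-- **Multiplicativity of the Herbrand quotient** for an equivariant short exact sequence
`0 → A → B → C → 0` of modules over a cyclic group. -/
theorem herbrand_mul_of_exact (hσ : σB ^ n = 1)
    (hi : Function.Injective i) (hp : Function.Surjective p) (hex : p.ker = i.range)
    (hiσ : ∀ a, i (σA a) = σB (i a)) (hpσ : ∀ b, p (σB b) = σC (p b))
    (hA : HerbrandDefined σA n) (hC : HerbrandDefined σC n) :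
    herbrand σB n = herbrand σA n * herbrand σC n :=
  q_mul_of_exact (delta_normN hσ) (normN_delta hσ) hi hp hex (map_delta_of_comm hiσ)
    (map_normN_of_comm hiσ n) (map_delta_of_comm hpσ) (map_normN_of_comm hpσ n) hA hC

theorem herbrandDefined_mid (hσ : σB ^ n = 1)
    (hi : Function.Injective i) (hp : Function.Surjective p) (hex : p.ker = i.range)
    (hiσ : ∀ a, i (σA a) = σB (i a)) (hpσ : ∀ b, p (σB b) = σC (p b))
    (hA : HerbrandDefined σA n) (hC : HerbrandDefined σC n) : HerbrandDefined σB n :=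
  isDefined_mid (delta_normN hσ) (normN_delta hσ) hi hp hex (map_delta_of_comm hiσ)
    (map_normN_of_comm hiσ n) (map_delta_of_comm hpσ) (map_normN_of_comm hpσ n) hA hC

theorem herbrandDefined_left (hσ : σB ^ n = 1)
    (hi : Function.Injective i) (hp : Function.Surjective p) (hex : p.ker = i.range)
    (hiσ : ∀ a, i (σA a) = σB (i a)) (hpσ : ∀ b, p (σB b) = σC (p b))
    (hB : HerbrandDefined σB n) (hC : HerbrandDefined σC n) : HerbrandDefined σA n :=
  isDefined_left (delta_normN hσ) (normN_delta hσ) hi hp hex (map_delta_of_comm hiσ)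
    (map_normN_of_comm hiσ n) (map_delta_of_comm hpσ) (map_normN_of_comm hpσ n) hB hC

theorem herbrandDefined_right (hσ : σB ^ n = 1)
    (hi : Function.Injective i) (hp : Function.Surjective p) (hex : p.ker = i.range)
    (hiσ : ∀ a, i (σA a) = σB (i a)) (hpσ : ∀ b, p (σB b) = σC (p b))
    (hA : HerbrandDefined σA n) (hB : HerbrandDefined σB n) : HerbrandDefined σC n :=
  isDefined_right (delta_normN hσ) (normN_delta hσ) hi hp hex (map_delta_of_comm hiσ)
    (map_normN_of_comm hiσ n) (map_delta_of_comm hpσ) (map_normN_of_comm hpσ n) hA hB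

/-- An equivariant injection with finite cokernel preserves the Herbrand quotient. -/
theorem herbrand_eq_of_finite_coker (hσ : σB ^ n = 1)
    (hi : Function.Injective i) (hfin : i.range.FiniteIndex)
    (hiσ : ∀ a, i (σA a) = σB (i a)) : herbrand σA n = herbrand σB n :=
  q_eq_of_finite_coker (delta_normN hσ) (normN_delta hσ) hi hfin (map_delta_of_comm hiσ)
    (map_normN_of_comm hiσ n)

theorem herbrandDefined_iff_of_finite_coker (hσ : σB ^ n = 1)
    (hi : Function.Injective i) (hfin : i.range.FiniteIndex)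
    (hiσ : ∀ a, i (σA a) = σB (i a)) : HerbrandDefined σA n ↔ HerbrandDefined σB n :=
  isDefined_iff_of_finite_coker (delta_normN hσ) (normN_delta hσ) hi hfin
    (map_delta_of_comm hiσ) (map_normN_of_comm hiσ n)

/-- An equivariant surjection with finite kernel preserves the Herbrand quotient. -/
theorem herbrand_eq_of_finite_ker (hσ : σB ^ n = 1)
    (hp : Function.Surjective p) (hfin : Finite p.ker)
    (hpσ : ∀ b, p (σB b) = σC (p b)) : herbrand σB n = herbrand σC n :=
  q_eq_of_finite_ker (delta_normN hσ) (normN_delta hσ) hp hfin (map_delta_of_comm hpσ)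
    (map_normN_of_comm hpσ n)

theorem herbrandDefined_iff_of_finite_ker (hσ : σB ^ n = 1)
    (hp : Function.Surjective p) (hfin : Finite p.ker)
    (hpσ : ∀ b, p (σB b) = σC (p b)) : HerbrandDefined σB n ↔ HerbrandDefined σC n :=
  isDefined_iff_of_finite_ker (delta_normN hσ) (normN_delta hσ) hp hfin
    (map_delta_of_comm hpσ) (map_normN_of_comm hpσ n)

/-- An equivariant isomorphism preserves `h⁰`. -/
theorem h0_eq_of_equiv (e : A ≃+ B) (heσ : ∀ a, e (σA a) = σB (e a)) (n : ℕ) :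
    h0 σA n = h0 σB n :=
  hIndex_eq_of_equiv e (map_delta_of_comm (i := e.toAddMonoidHom) heσ)
    (map_normN_of_comm (i := e.toAddMonoidHom) heσ n)

/-- An equivariant isomorphism preserves `h¹`. -/
theorem h1_eq_of_equiv (e : A ≃+ B) (heσ : ∀ a, e (σA a) = σB (e a)) (n : ℕ) :
    h1 σA n = h1 σB n :=
  hIndex_eq_of_equiv e (map_normN_of_comm (i := e.toAddMonoidHom) heσ n)
    (map_delta_of_comm (i := e.toAddMonoidHom) heσ)

theorem herbrand_eq_of_equiv (e : A ≃+ B) (heσ : ∀ a, e (σA a) = σB (e a)) (n : ℕ) :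
    herbrand σA n = herbrand σB n := by
  rw [herbrand_eq_div, herbrand_eq_div, h0_eq_of_equiv e heσ n, h1_eq_of_equiv e heσ n]

end Equivariant

section Finite

theorem herbrand_eq_one_of_finite [Finite A] {σ : AddMonoid.End A} {n : ℕ} (hσ : σ ^ n = 1) :
    herbrand σ n = 1 :=
  q_eq_one_of_finite _ _ (delta_normN hσ) (normN_delta hσ)

theorem herbrandDefined_of_finite [Finite A] (σ : AddMonoid.End A) (n : ℕ) :
    HerbrandDefined σ n :=
  isDefined_of_finite _ _

theorem h0_eq_h1_of_finite [Finite A] {σ : AddMonoid.End A} {n : ℕ} (hσ : σ ^ n = 1) :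
    h0 σ n = h1 σ n :=
  hIndex_comm_of_finite _ _ (delta_normN hσ) (normN_delta hσ)

end Finite

section Trivial

lemma delta_one : delta (1 : AddMonoid.End A) = 0 := by
  unfold delta; rw [sub_self]; rfl

lemma normN_one_apply (n : ℕ) (a : A) : normN (1 : AddMonoid.End A) n a = n • a := by
  rw [normN_apply]
  simp

/-- for the trivial action `h⁰ = [A : nA]`. -/
lemma h0_one (n : ℕ) :
    h0 (1 : AddMonoid.End A) n = (AddMonoidHom.range (nsmulAddMonoidHom (α := A) n)).index := by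
  rw [h0_eq_relIndex, delta_one]
  have h1 : AddMonoidHom.ker (0 : A →+ A) = ⊤ := by
    ext x
    simp only [AddSubgroup.mem_top, iff_true]
    exact AddMonoidHom.mem_ker.2 rfl
  have h2 : AddMonoidHom.range (normN (1 : AddMonoid.End A) n)
      = AddMonoidHom.range (nsmulAddMonoidHom (α := A) n) := by
    ext x
    constructor
    · rintro ⟨y, rfl⟩
      exact ⟨y, (normN_one_apply n y).symm⟩
    · rintro ⟨y, rfl⟩
      exact ⟨y, normN_one_apply n y⟩
  rw [h1, h2, relIndex_top_right]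

/-- for the trivial action `h¹ = |A[n]|`. -/
lemma h1_one (n : ℕ) :
    h1 (1 : AddMonoid.End A) n = Nat.card (AddMonoidHom.ker (nsmulAddMonoidHom (α := A) n)) := by
  rw [h1_eq_relIndex, delta_one]
  have h1 : AddMonoidHom.range (0 : A →+ A) = ⊥ := by
    ext x
    simp only [AddSubgroup.mem_bot]
    constructor
    · rintro ⟨y, rfl⟩; rfl
    · rintro rfl; exact ⟨0, rfl⟩
  have h2 : AddMonoidHom.ker (normN (1 : AddMonoid.End A) n)
      = AddMonoidHom.ker (nsmulAddMonoidHom (α := A) n) := by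
    ext x
    rw [AddMonoidHom.mem_ker, AddMonoidHom.mem_ker, normN_one_apply, nsmulAddMonoidHom_apply]
  rw [h1, h2, relIndex_bot_left]

theorem h0_int (n : ℕ) : h0 (1 : AddMonoid.End ℤ) n = n := by
  rw [h0_one]
  have : AddMonoidHom.range (nsmulAddMonoidHom (α := ℤ) n) = AddSubgroup.zmultiples (n : ℤ) := by
    ext x
    simp only [AddMonoidHom.mem_range, nsmulAddMonoidHom_apply, AddSubgroup.mem_zmultiples_iff,
      nsmul_eq_mul, smul_eq_mul]
    constructor
    · rintro ⟨y, rfl⟩; exact ⟨y, mul_comm _ _⟩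
    · rintro ⟨y, rfl⟩; exact ⟨y, mul_comm _ _⟩
  rw [this, Int.index_zmultiples]
  simp

theorem h1_int {n : ℕ} (hn : n ≠ 0) : h1 (1 : AddMonoid.End ℤ) n = 1 := by
  rw [h1_one]
  have : AddMonoidHom.ker (nsmulAddMonoidHom (α := ℤ) n) = ⊥ := by
    ext x
    simp only [AddMonoidHom.mem_ker, nsmulAddMonoidHom_apply, AddSubgroup.mem_bot, nsmul_eq_mul]
    constructor
    · intro h
      rcases mul_eq_zero.1 h with h | h
      · exact absurd (by exact_mod_cast h) hn
      · exact h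
    · rintro rfl; simp
  rw [this]
  simp

/-- **The Herbrand quotient of `ℤ` with trivial action of a cyclic group of order `n` is `n`.** -/
theorem herbrand_int {n : ℕ} (hn : n ≠ 0) : herbrand (1 : AddMonoid.End ℤ) n = n := by
  rw [herbrand_eq_div, h0_int, h1_int hn]
  simp

theorem herbrandDefined_int {n : ℕ} (hn : n ≠ 0) : HerbrandDefined (1 : AddMonoid.End ℤ) n := by
  rw [herbrandDefined_iff, h0_int, h1_int hn]
  exact ⟨hn, one_ne_zero⟩

end Trivial

end Fermat.Agent.S55.Herbrand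

end
-- ===== PACK-END S55/Herbrand/Cyclic.lean

-- ===== PACK-BEGIN S55/G/FI/KerCokerH895.lean
section
/-
S55, layer G, leaf G-FI (first inequality), part 0 (helper895): abstract Herbrand bookkeeping
for a map `φ : J → C` with kernel `ι(E)` and finite cokernel.

`kerCoker`: if `E ≤ U`, `ι : U → J` injective, `φ : J → C` with `ker φ = ι(E)` and
`[C : φ(J)] < ∞`, everything compatible with pairs of endomorphisms `(f, g)` with
`fg = gf = 0` on `J` and `C`, then from finiteness of the Herbrand indices of `E` and `J`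
we get finiteness for `C` and `h₀(E) h₀(C) h₁(J) = h₁(E) h₁(C) h₀(J)`.
-/





set_option autoImplicit false

namespace Fermat.Agent.S55.G.FIH895

open Fermat.Agent.S55.Herbrand Fermat.Agent.S55.G

variable {U J C : Type*} [AddCommGroup U] [AddCommGroup J] [AddCommGroup C]

/-- Herbrand indices of the kernel and of the range of an equivariant map `φ : J → C`:
`h₀(ker φ) h₀(im φ) h₁(J) = h₁(ker φ) h₁(im φ) h₀(J)` and finiteness of the indices of `im φ`. -/
theorem ker_range (fJ gJ : J →+ J) (fC gC : C →+ C) (φ : J →+ C)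
    (hφf : ∀ j, φ (fJ j) = fC (φ j)) (hφg : ∀ j, φ (gJ j) = gC (φ j))
    (hJfg : ∀ j, fJ (gJ j) = 0) (hJgf : ∀ j, gJ (fJ j) = 0)
    (hE : hIndexSub fJ gJ φ.ker ≠ 0 ∧ hIndexSub gJ fJ φ.ker ≠ 0)
    (hJ : hIndex fJ gJ ≠ 0 ∧ hIndex gJ fJ ≠ 0) :
    (hIndexSub fC gC φ.range ≠ 0 ∧ hIndexSub gC fC φ.range ≠ 0) ∧
      hIndexSub fJ gJ φ.ker * hIndexSub fC gC φ.range * hIndex gJ fJ =
        hIndexSub gJ fJ φ.ker * hIndexSub gC fC φ.range * hIndex fJ gJ := by
  obtain ⟨Ef, Eg, w, y, w', y', h1, h2, h3, h4, h5, h6⟩ :=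
    hIndexSub_six fJ gJ fC gC φ hφf hφg ⊤ (fun _ _ => trivial) (fun _ _ => trivial)
      (fun b _ => hJfg b) (fun b _ => hJgf b)
  rw [inf_top_eq] at h1 h4
  rw [hIndexSub_top] at h2 h5
  rw [← AddMonoidHom.range_eq_map] at h3 h6
  obtain ⟨e1, e2⟩ := hE
  obtain ⟨j1, j2⟩ := hJ
  rw [h1] at e1
  rw [h4] at e2
  rw [h2] at j1
  rw [h5] at j2
  rw [h1, h2, h3, h4, h5, h6]
  have hEg : Eg ≠ 0 := left_ne_zero_of_mul e1
  have hEf : Ef ≠ 0 := left_ne_zero_of_mul e2
  have hy : y ≠ 0 := right_ne_zero_of_mul j1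
  have hy' : y' ≠ 0 := right_ne_zero_of_mul j2
  refine ⟨⟨mul_ne_zero hEf hy, mul_ne_zero hEg hy'⟩, ?_⟩
  ring

/-- **Kernel–cokernel bookkeeping.**  `E ≤ U`, `ι : U → J` injective, `φ : J → C` with
`ker φ = ι(E)` and finite cokernel: finiteness of the Herbrand indices of `E` and `J` gives
finiteness for `C`, and `h₀(E) h₀(C) h₁(J) = h₁(E) h₁(C) h₀(J)`. -/
theorem kerCoker (fU gU : U →+ U) (fJ gJ : J →+ J) (fC gC : C →+ C)
    (ι : U →+ J) (φ : J →+ C) (E : AddSubgroup U)
    (hι : Function.Injective ι)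
    (hιf : ∀ u, ι (fU u) = fJ (ι u)) (hιg : ∀ u, ι (gU u) = gJ (ι u))
    (hφf : ∀ j, φ (fJ j) = fC (φ j)) (hφg : ∀ j, φ (gJ j) = gC (φ j))
    (hker : φ.ker = E.map ι) (hfin : φ.range.index ≠ 0)
    (hJfg : ∀ j, fJ (gJ j) = 0) (hJgf : ∀ j, gJ (fJ j) = 0)
    (hCfg : ∀ c, fC (gC c) = 0) (hCgf : ∀ c, gC (fC c) = 0)
    (hE : hIndexSub fU gU E ≠ 0 ∧ hIndexSub gU fU E ≠ 0)
    (hJ : hIndex fJ gJ ≠ 0 ∧ hIndex gJ fJ ≠ 0) :
    (hIndex fC gC ≠ 0 ∧ hIndex gC fC ≠ 0) ∧
      hIndexSub fU gU E * hIndex fC gC * hIndex gJ fJ =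
        hIndexSub gU fU E * hIndex gC fC * hIndex fJ gJ := by
  have t1 : hIndexSub fJ gJ φ.ker = hIndexSub fU gU E := by
    rw [hker]
    exact hIndexSub_map_of_injective fU gU fJ gJ ι hι hιf hιg E
  have t2 : hIndexSub gJ fJ φ.ker = hIndexSub gU fU E := by
    rw [hker]
    exact hIndexSub_map_of_injective gU fU gJ fJ ι hι hιg hιf E
  obtain ⟨⟨r1, r2⟩, hr⟩ := ker_range fJ gJ fC gC φ hφf hφg hJfg hJgf
    (by rw [t1, t2]; exact hE) hJ
  rw [t1, t2] at hr
  have hstab_f : ∀ x ∈ φ.range, fC x ∈ φ.range := by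
    rintro _ ⟨j, rfl⟩
    exact ⟨fJ j, hφf j⟩
  have hstab_g : ∀ x ∈ φ.range, gC x ∈ φ.range := by
    rintro _ ⟨j, rfl⟩
    exact ⟨gJ j, hφg j⟩
  obtain ⟨hiff, hq⟩ := hIndexSub_of_finite_index fC gC φ.range ⊤ le_top
    (by rwa [AddSubgroup.relIndex_top_right])
    hstab_f hstab_g (fun _ _ => trivial) (fun _ _ => trivial)
    (fun b _ => hCfg b) (fun b _ => hCgf b)
  rw [hIndexSub_top, hIndexSub_top] at hiff hq
  have hC := hiff.1 ⟨r1, r2⟩
  refine ⟨hC, ?_⟩
  -- `hr : a * r * b' = a' * r' * b`, `hq : r * c' = r' * c`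
  have key : (hIndexSub fU gU E * hIndex fC gC * hIndex gJ fJ) *
      (hIndexSub gC fC φ.range * hIndexSub fC gC φ.range) =
      (hIndexSub gU fU E * hIndex gC fC * hIndex fJ gJ) *
      (hIndexSub gC fC φ.range * hIndexSub fC gC φ.range) := by
    calc (hIndexSub fU gU E * hIndex fC gC * hIndex gJ fJ) *
        (hIndexSub gC fC φ.range * hIndexSub fC gC φ.range)
        = (hIndexSub fU gU E * hIndexSub fC gC φ.range * hIndex gJ fJ) *
          (hIndexSub gC fC φ.range * hIndex fC gC) := by ring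
      _ = (hIndexSub gU fU E * hIndexSub gC fC φ.range * hIndex fJ gJ) *
          (hIndexSub fC gC φ.range * hIndex gC fC) := by rw [hr, ← hq]
      _ = _ := by ring
  exact Nat.eq_of_mul_eq_mul_right (Nat.pos_of_ne_zero (mul_ne_zero r2 r1)) key

end Fermat.Agent.S55.G.FIH895

end
-- ===== PACK-END S55/G/FI/KerCokerH895.lean

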