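import Mathlib
import Fermat.Prelude.Def_GaloisRep_Flat
import Fermat.Prelude.Def_GaloisRep_CompletionBridge
import Fermat.Agent.Pack.S56.E4L2
import Fermat.Agent.Pack.S56.E4L1
import Fermat.Agent.Pack.S56.E5L0
import Fermat.Agent.Pack.S56.E3L1
import Fermat.Agent.Pack.S56.E3L2
import Fermat.Agent.Pack.S56.E3L3
import Fermat.Agent.Pack.S56.E5L1
import Fermat.Agent.Pack.S56.E5L2
import Fermat.Agent.Pack.S56.E0L3
import Fermat.Agent.Pack.S56.E5L3
import Fermat.Agent.Pack.S56.E0L0
import Fermat.Agent.Pack.S56.E1L3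

-- ===== PACK-BEGIN S56/H726/Five.lean
section


/-!
# S56 / P3(b) — the case `p = 5`, and vanishing of `f = tr Ψ` on `H` (helper726)
-/

set_option autoImplicit false

namespace Fermat.Agent.S56.H726

open Matrix

namespace TwData

variable {k : Type*} [Field k] {G : Type*} [Group G] (D : TwData k G)

/-- If `tr (ρ σ * Y) = 0` for all `σ ∈ H` then `Y = 0`. -/
theorem eq_zero_of_trace_ρ_mul {Y : Matrix (Fin 2) (Fin 2) k}
    (h : ∀ σ ∈ D.H, (D.ρ σ * Y).trace = 0) : Y = 0 := by
  apply m2_eq_zero_of_trace_mul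
  intro X
  set L : Matrix (Fin 2) (Fin 2) k →ₗ[k] k :=
    (Matrix.traceLinearMap (Fin 2) k k).comp (LinearMap.mulRight k Y) with hL
  have hle : Submodule.span k (D.ρ '' (D.H : Set G)) ≤ LinearMap.ker L := by
    rw [Submodule.span_le]
    rintro _ ⟨σ, hσ, rfl⟩
    exact h σ hσ
  rw [D.span] at hle
  have : X ∈ LinearMap.ker L := hle Submodule.mem_top
  exact this

/-- If `tr (Y * ρ σ) = 0` for all `σ ∈ H` then `Y = 0`. -/
theorem eq_zero_of_trace_mul_ρ {Y : Matrix (Fin 2) (Fin 2) k}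
    (h : ∀ σ ∈ D.H, (Y * D.ρ σ).trace = 0) : Y = 0 :=
  D.eq_zero_of_trace_ρ_mul (fun σ hσ => by rw [Matrix.trace_mul_comm]; exact h σ hσ)

/-- If `Y` commutes with `ρ(H)` then it commutes with everything. -/
theorem commute_of_commute_ρ {Y : Matrix (Fin 2) (Fin 2) k}
    (h : ∀ σ ∈ D.H, Y * D.ρ σ = D.ρ σ * Y) (X : Matrix (Fin 2) (Fin 2) k) :
    Y * X = X * Y := by
  set L : Matrix (Fin 2) (Fin 2) k →ₗ[k] Matrix (Fin 2) (Fin 2) k :=
    LinearMap.mulLeft k Y - LinearMap.mulRight k Y with hL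
  have hle : Submodule.span k (D.ρ '' (D.H : Set G)) ≤ LinearMap.ker L := by
    rw [Submodule.span_le]
    rintro _ ⟨σ, hσ, rfl⟩
    show L (D.ρ σ) = 0
    simp [hL, h σ hσ]
  rw [D.span] at hle
  have : X ∈ LinearMap.ker L := hle Submodule.mem_top
  have h0 : L X = 0 := this
  simp only [hL, LinearMap.sub_apply, LinearMap.mulLeft_apply, LinearMap.mulRight_apply] at h0
  exact sub_eq_zero.mp h0

variable {τ σ₀ : G} {n : Matrix (Fin 2) (Fin 2) k}

theorem exists_σ₀ (hn0 : n ≠ 0) : ∃ σ₀ ∈ D.H, (D.ρ σ₀ * n).trace ≠ 0 := by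
  by_contra h
  push Not at h
  exact hn0 (D.eq_zero_of_trace_ρ_mul h)

theorem ρ_conj (g τ : G) : D.ρ (g * τ * g⁻¹) = D.ρ g * D.ρ τ * D.ρ g⁻¹ := by
  rw [map_mul, map_mul]

theorem trace_ρ_conj (g τ : G) : (D.ρ (g * τ * g⁻¹)).trace = (D.ρ τ).trace := by
  rw [D.ρ_conj, Matrix.trace_mul_comm, ← mul_assoc, D.ρ_inv_mul, one_mul]

/-- `p = 5`, the case `e ≠ 0`. -/
theorem five_of_e_ne [Finite k] [CharP k 5] (hτ : τ ∈ D.H) (hn : D.ρ τ = 1 + n)
    (hn2 : n * n = 0) (hμ : (D.Ψ τ).trace ≠ 0) (g : G)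
    (hd1 : (D.ρ g).det ≠ 1) (hd2 : (D.ρ g).det ≠ -1)
    (he : (D.ρ (g * τ * g⁻¹) * n).trace ≠ 0) : False := by
  have hσ₀ : g * τ * g⁻¹ ∈ D.H := D.normal.conj_mem τ hτ g
  have ht₀ : (D.ρ (g * τ * g⁻¹)).trace = 2 := by
    rw [D.trace_ρ_conj, hn, Matrix.trace_add, m2_trace_of_sq_zero hn2, Matrix.trace_one,
      Fintype.card_fin]
    norm_num
  have h := seq_five (fun j => (D.Ψ (g * τ * g⁻¹ * τ ^ j)).trace) (D.Ψ τ).trace
    (D.ρ (g * τ * g⁻¹) * n).trace
    (fun j => by
      have := D.rec_step hτ hσ₀ hn hn2 j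
      rw [ht₀] at this
      exact this)
    (fun j => by
      show (D.Ψ (g * τ * g⁻¹ * τ ^ (j + 5))).trace = _
      rw [D.periodic 5 hτ hn hn2])
    (fun j h => by
      apply D.vanish hτ hσ₀ hn hn2 j
      rw [ht₀]
      exact h)
    he hμ
  simp only [pow_zero, mul_one] at h
  rw [D.f_conj g hτ] at h
  rcases h with h | h
  · apply hd1
    have : ((D.ρ g).det - 1) * (D.Ψ τ).trace = 0 := by linear_combination h
    rcases mul_eq_zero.mp this with h' | h'
    · exact sub_eq_zero.mp h'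
    · exact absurd h' hμ
  · apply hd2
    have : ((D.ρ g).det + 1) * (D.Ψ τ).trace = 0 := by linear_combination h
    rcases mul_eq_zero.mp this with h' | h'
    · exact eq_neg_of_add_eq_zero_left h'
    · exact absurd h' hμ

/-- `p = 5`: if `e(g) = 0` then `e(σ₀ g) ≠ 0`. -/
theorem five_e_of_zero (hσ₀ : σ₀ ∈ D.H) (hn : D.ρ τ = 1 + n)
    (hn2 : n * n = 0) (hn0 : n ≠ 0) (hc : (D.ρ σ₀ * n).trace ≠ 0) (g : G)
    (he : (D.ρ (g * τ * g⁻¹) * n).trace = 0) :
    (D.ρ (σ₀ * g * τ * (σ₀ * g)⁻¹) * n).trace ≠ 0 := by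
  have htn := m2_trace_of_sq_zero hn2
  -- `n' = ρ g * n * ρ g⁻¹`
  have e1 : D.ρ (g * τ * g⁻¹) = 1 + D.ρ g * n * D.ρ g⁻¹ := by
    rw [D.ρ_conj, hn, mul_add, mul_one, add_mul, D.ρ_mul_inv]
  have hn'2 : (D.ρ g * n * D.ρ g⁻¹) * (D.ρ g * n * D.ρ g⁻¹) = 0 := by
    have : (D.ρ g * n * D.ρ g⁻¹) * (D.ρ g * n * D.ρ g⁻¹) =
        D.ρ g * n * (D.ρ g⁻¹ * D.ρ g) * n * D.ρ g⁻¹ := by noncomm_ring
    rw [this, D.ρ_inv_mul, mul_one, mul_assoc (D.ρ g), hn2, mul_zero, zero_mul]
  have htr : ((D.ρ g * n * D.ρ g⁻¹) * n).trace = 0 := by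
    rw [e1, add_mul, one_mul, Matrix.trace_add, htn, zero_add] at he
    exact he
  obtain ⟨y, hy⟩ := m2_nil_prop hn2 hn'2 htr hn0
  have hy0 : y ≠ 0 := by
    rintro rfl
    rw [zero_smul] at hy
    apply hn0
    have : n = (D.ρ g⁻¹ * D.ρ g) * n * (D.ρ g⁻¹ * D.ρ g) := by
      rw [D.ρ_inv_mul, one_mul, mul_one]
    rw [this]
    have : (D.ρ g⁻¹ * D.ρ g) * n * (D.ρ g⁻¹ * D.ρ g) =
        D.ρ g⁻¹ * (D.ρ g * n * D.ρ g⁻¹) * D.ρ g := by noncomm_ring
    rw [this, hy, mul_zero, zero_mul]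
  -- the new conjugate
  have e2 : D.ρ (σ₀ * g * τ * (σ₀ * g)⁻¹) =
      1 + y • (D.ρ σ₀ * n * D.ρ σ₀⁻¹) := by
    have : σ₀ * g * τ * (σ₀ * g)⁻¹ = σ₀ * (g * τ * g⁻¹) * σ₀⁻¹ := by group
    rw [this, D.ρ_conj σ₀, e1, hy, mul_add, mul_one, add_mul, D.ρ_mul_inv, Matrix.mul_smul,
      Matrix.smul_mul]
  have hB' := m2_inv_of_det_one (D.det_H σ₀ hσ₀) (D.ρ_mul_inv σ₀)
  have e3 : (D.ρ σ₀ * n * D.ρ σ₀⁻¹ * n).trace = -((D.ρ σ₀ * n).trace) ^ 2 := by
    have s := m2_nil_sandwich hn2 htn (D.ρ σ₀⁻¹)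
    rw [mul_assoc (D.ρ σ₀ * n), mul_assoc (D.ρ σ₀), ← mul_assoc n, s, Matrix.mul_smul,
      Matrix.trace_smul, smul_eq_mul, hB', mul_sub, Matrix.trace_sub, Matrix.mul_smul, mul_one,
      Matrix.trace_smul, htn, smul_zero, zero_sub, Matrix.trace_mul_comm n (D.ρ σ₀)]
    ring
  rw [e2, add_mul, one_mul, Matrix.trace_add, htn, zero_add, Matrix.smul_mul, Matrix.trace_smul,
    e3, smul_eq_mul]
  exact mul_ne_zero hy0 (neg_ne_zero.mpr (pow_ne_zero 2 hc))

/-- A unipotent element with `f ≠ 0` from an element of trace `2`. -/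
theorem unip_of_trace_two {σ : G} (hσ : σ ∈ D.H) (ht : (D.ρ σ).trace = 2)
    (hf : (D.Ψ σ).trace ≠ 0) :
    ∃ n : Matrix (Fin 2) (Fin 2) k, D.ρ σ = 1 + n ∧ n * n = 0 ∧ n ≠ 0 := by
  refine ⟨D.ρ σ - 1, by abel, ?_, ?_⟩
  · have h := m2_sq (D.ρ σ)
    rw [ht, D.det_H σ hσ] at h
    rw [sub_mul, mul_sub, h]
    simp only [mul_one, one_mul]
    module
  · intro h0
    apply hf
    rw [D.Ψ_N σ hσ (sub_eq_zero.mp h0), Matrix.trace_zero]

theorem exists_unip [Finite k] (h2 : (2 : k) ≠ 0)
    (hex : ∃ σ ∈ D.H, (D.Ψ σ).trace ≠ 0) :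
    ∃ τ ∈ D.H, ∃ n : Matrix (Fin 2) (Fin 2) k, D.ρ τ = 1 + n ∧ n * n = 0 ∧ n ≠ 0 ∧
      (D.Ψ τ).trace ≠ 0 := by
  obtain ⟨σ, hσ, hf⟩ := hex
  have ht : (D.ρ σ).trace ^ 2 = 4 := by
    by_contra h
    exact hf (D.f_eq_zero_of_trace_sq_ne hσ h)
  have ht' : ((D.ρ σ).trace - 2) * ((D.ρ σ).trace + 2) = 0 := by linear_combination ht
  rcases mul_eq_zero.mp ht' with h | h
  · have ht2 : (D.ρ σ).trace = 2 := sub_eq_zero.mp h
    obtain ⟨n, h1, h2', h3⟩ := D.unip_of_trace_two hσ ht2 hf
    exact ⟨σ, hσ, n, h1, h2', h3, hf⟩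
  · have ht2 : (D.ρ σ).trace = -2 := eq_neg_of_add_eq_zero_left h
    have hσ2 : σ * σ ∈ D.H := D.H.mul_mem hσ hσ
    have hadd := D.f_add hσ hσ
    rw [mul_inv_cancel, D.Ψ_one, Matrix.trace_zero, add_zero, ht2] at hadd
    have hf2 : (D.Ψ (σ * σ)).trace ≠ 0 := by
      rw [hadd]
      intro h0
      apply hf
      have : (4 : k) * (D.Ψ σ).trace = 0 := by linear_combination -h0
      rcases mul_eq_zero.mp this with h' | h'
      · exfalso
        apply h2
        have : (2 : k) * 2 = 0 := by linear_combination h'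
        exact mul_self_eq_zero.mp this
      · exact h'
    have htr2 : (D.ρ (σ * σ)).trace = 2 := by
      rw [map_mul, m2_sq, Matrix.trace_sub, Matrix.trace_smul, Matrix.trace_smul, ht2,
        D.det_H σ hσ, Matrix.trace_one, Fintype.card_fin]
      simp only [smul_eq_mul]
      push_cast
      ring
    obtain ⟨n, h1, h2', h3⟩ := D.unip_of_trace_two hσ2 htr2 hf2
    exact ⟨σ * σ, hσ2, n, h1, h2', h3, hf2⟩

/-- **Vanishing of `f = tr Ψ` on `H`.** -/
theorem f_eq_zero [Finite k] (p : ℕ) [Fact p.Prime] [CharP k p] (hp2 : p ≠ 2)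
    (h5 : p = 5 → ∃ g : G, (D.ρ g).det ≠ 1 ∧ (D.ρ g).det ≠ -1) :
    ∀ σ ∈ D.H, (D.Ψ σ).trace = 0 := by
  by_contra hcon
  push Not at hcon
  have hpr : p.Prime := Fact.out
  have h2 : (2 : k) ≠ 0 := by
    have := natCast_ne_zero_of_lt (k := k) p (n := 2) (by norm_num)
      (lt_of_le_of_ne hpr.two_le (Ne.symm hp2))
    exact_mod_cast this
  obtain ⟨τ, hτ, n, hn, hn2, hn0, hμ⟩ := D.exists_unip h2 hcon
  obtain ⟨σ₀, hσ₀, hc⟩ := D.exists_σ₀ hn0
  have hp3 : p = 3 ∨ p = 5 ∨ 7 ≤ p := by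
    rcases Nat.lt_or_ge p 7 with h | h
    · have h2le := hpr.two_le
      interval_cases p
      · exact absurd rfl hp2
      · exact Or.inl rfl
      · exact absurd hpr (by decide)
      · exact Or.inr (Or.inl rfl)
      · exact absurd hpr (by decide)
    · exact Or.inr (Or.inr h)
  rcases hp3 with h | h | h
  · exact absurd (D.unip_contra p (Or.inl h) hτ hσ₀ hn hn2) (mul_ne_zero hμ hc)
  · subst h
    obtain ⟨g, hd1, hd2⟩ := h5 rfl
    by_cases he : (D.ρ (g * τ * g⁻¹) * n).trace = 0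
    · have he' := D.five_e_of_zero hσ₀ hn hn2 hn0 hc g he
      have hdet : (D.ρ (σ₀ * g)).det = (D.ρ g).det := by
        rw [map_mul, Matrix.det_mul, D.det_H σ₀ hσ₀, one_mul]
      refine D.five_of_e_ne hτ hn hn2 hμ (σ₀ * g) (by rw [hdet]; exact hd1)
        (by rw [hdet]; exact hd2) ?_
      exact he'
    · exact D.five_of_e_ne hτ hn hn2 hμ g hd1 hd2 he
  · exact absurd (D.unip_contra p (Or.inr h) hτ hσ₀ hn hn2) (mul_ne_zero hμ hc)

end TwData

end Fermat.Agent.S56.H726

end
-- ===== PACK-END S56/H726/Five.lean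

-- ===== PACK-BEGIN S56/P3/H635/REG.lean
section


/-!
# S56 / P3, piece REG (helper635): `SpanDeltaStatement → ExistsRegularStatement`

If no `ρ δ`, `δ ∈ Δ`, has two distinct eigenvalues, then `tr² = 4 det` on `ρ(Δ)`; applying this to
`δ₁`, `δ₂`, `δ₁ δ₂`, `δ₁² δ₂` gives the bilinear identity `2 tr(A₁ A₂) = tr A₁ · tr A₂` on `ρ(Δ)`,
hence (SPAN) on all of `M₂(k)`, which is absurd for `A₁ = E₁₂`, `A₂ = E₂₁` (`2 ≠ 0`).
-/

set_option autoImplicit false

open Polynomial

namespace Fermat.Agent.S56.P3.H635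

section Matrix2

variable {k : Type} [Field k]

/-- Cayley–Hamilton in trace form for `2 × 2` matrices. -/
theorem trace_sq_mul (A B : Matrix (Fin 2) (Fin 2) k) :
    (A * A * B).trace = A.trace * (A * B).trace - A.det * B.trace := by
  simp only [Matrix.trace_fin_two, Matrix.det_fin_two, Matrix.mul_apply, Fin.sum_univ_two]
  ring

/-- The key algebraic step. -/
theorem two_mul_eq_of_sq_eq {T₁ T₂ D₁ D₂ s : k} (h2 : (2 : k) ≠ 0) (hD₁ : D₁ ≠ 0)
    (hD₂ : D₂ ≠ 0) (h1 : T₁ ^ 2 = 4 * D₁) (h2' : T₂ ^ 2 = 4 * D₂) (h12 : s ^ 2 = 4 * (D₁ * D₂))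
    (h112 : (T₁ * s - D₁ * T₂) ^ 2 = 4 * (D₁ * D₁ * D₂)) : 2 * s = T₁ * T₂ := by
  have e1 : 2 * D₁ * (8 * D₁ * D₂ - T₁ * T₂ * s) = 0 := by
    linear_combination h112 - s ^ 2 * h1 - 4 * D₁ * h12 - D₁ ^ 2 * h2'
  have e2 : T₁ * T₂ * s = 8 * D₁ * D₂ := by
    have := (mul_eq_zero.1 e1).resolve_left (mul_ne_zero h2 hD₁)
    linear_combination -this
  have e3 : 8 * D₁ * D₂ * (2 * s - T₁ * T₂) = 0 := by
    linear_combination (T₁ * T₂) * e2 - s * T₂ ^ 2 * h1 - 4 * D₁ * s * h2'
  have h8 : (8 : k) ≠ 0 := by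
    have : (8 : k) = 2 * 2 * 2 := by norm_num
    rw [this]
    exact mul_ne_zero (mul_ne_zero h2 h2) h2
  have := (mul_eq_zero.1 e3).resolve_left (mul_ne_zero (mul_ne_zero h8 hD₁) hD₂)
  linear_combination this

/-- A multiplicatively closed set of invertible `2 × 2` matrices with `tr² = 4 det` cannot span
`M₂(k)` when `2 ≠ 0`. -/
theorem span_ne_top_of_trace_sq (h2 : (2 : k) ≠ 0) (s : Set (Matrix (Fin 2) (Fin 2) k))
    (hmul : ∀ A ∈ s, ∀ B ∈ s, A * B ∈ s) (hdet : ∀ A ∈ s, A.det ≠ 0)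
    (htr : ∀ A ∈ s, A.trace ^ 2 = 4 * A.det) : Submodule.span k s ≠ ⊤ := by
  intro htop
  -- the bilinear identity on `s`
  have key : ∀ A ∈ s, ∀ B ∈ s, 2 * (A * B).trace = A.trace * B.trace := by
    intro A hA B hB
    have hAB := hmul A hA B hB
    have hAAB := hmul A hA (A * B) hAB
    refine two_mul_eq_of_sq_eq h2 (hdet A hA) (hdet B hB) (htr A hA) (htr B hB) ?_ ?_
    · have := htr (A * B) hAB
      rw [Matrix.det_mul] at this
      exact this
    · have := htr (A * (A * B)) hAAB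
      rw [← mul_assoc, trace_sq_mul, Matrix.det_mul, Matrix.det_mul] at this
      linear_combination this
  -- extend to all matrices in the first variable
  have key1 : ∀ X : Matrix (Fin 2) (Fin 2) k, ∀ B ∈ s, 2 * (X * B).trace = X.trace * B.trace := by
    intro X B hB
    let f : Matrix (Fin 2) (Fin 2) k →ₗ[k] k :=
      (2 : k) • (Matrix.traceLinearMap (Fin 2) k k ∘ₗ LinearMap.mulRight k B)
    let g : Matrix (Fin 2) (Fin 2) k →ₗ[k] k := B.trace • Matrix.traceLinearMap (Fin 2) k k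
    have hfg : Set.EqOn f g s := by
      intro A hA
      have := key A hA B hB
      simp only [f, g, LinearMap.smul_apply, LinearMap.comp_apply, LinearMap.mulRight_apply,
        Matrix.traceLinearMap_apply, smul_eq_mul]
      linear_combination this
    have hX : X ∈ Submodule.span k s := by rw [htop]; trivial
    have := LinearMap.eqOn_span hfg hX
    simp only [f, g, LinearMap.smul_apply, LinearMap.comp_apply, LinearMap.mulRight_apply,
      Matrix.traceLinearMap_apply, smul_eq_mul] at this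
    linear_combination this
  -- extend to all matrices in the second variable
  have key2 : ∀ X Y : Matrix (Fin 2) (Fin 2) k, 2 * (X * Y).trace = X.trace * Y.trace := by
    intro X Y
    let f : Matrix (Fin 2) (Fin 2) k →ₗ[k] k :=
      (2 : k) • (Matrix.traceLinearMap (Fin 2) k k ∘ₗ LinearMap.mulLeft k X)
    let g : Matrix (Fin 2) (Fin 2) k →ₗ[k] k := X.trace • Matrix.traceLinearMap (Fin 2) k k
    have hfg : Set.EqOn f g s := by
      intro B hB
      have := key1 X B hB
      simp only [f, g, LinearMap.smul_apply, LinearMap.comp_apply, LinearMap.mulLeft_apply,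
        Matrix.traceLinearMap_apply, smul_eq_mul]
      linear_combination this
    have hY : Y ∈ Submodule.span k s := by rw [htop]; trivial
    have := LinearMap.eqOn_span hfg hY
    simp only [f, g, LinearMap.smul_apply, LinearMap.comp_apply, LinearMap.mulLeft_apply,
      Matrix.traceLinearMap_apply, smul_eq_mul] at this
    linear_combination this
  -- contradiction with `E₁₂ * E₂₁`
  have := key2 !![0, 1; 0, 0] !![0, 0; 1, 0]
  simp [Matrix.trace_fin_two] at this
  exact h2 this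

end Matrix2

/-- In a field of odd characteristic `p`, `2 ≠ 0`. -/
theorem two_ne_zero_of_char {k : Type} [Field k] {p : ℕ} [Fact p.Prime] (hp2 : p ≠ 2)
    (hp : (p : k) = 0) : (2 : k) ≠ 0 := by
  intro h2
  rcases (Fact.out : p.Prime).eq_two_or_odd' with h | h
  · exact hp2 h
  · obtain ⟨m, hm⟩ := h
    rw [hm] at hp
    push_cast at hp
    rw [h2, zero_mul, zero_add] at hp
    exact one_ne_zero hp

/-- Trace and determinant of a `2 × 2` matrix with a double eigenvalue. -/
theorem trace_sq_of_charpoly {k : Type} [Field k] (A : Matrix (Fin 2) (Fin 2) k) (α : k)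
    (h : A.charpoly = (X - C α) * (X - C α)) : A.trace ^ 2 = 4 * A.det := by
  rw [Matrix.charpoly_fin_two] at h
  have hr : (X - C α) * (X - C α) = X ^ 2 - C (2 * α) * X + C (α ^ 2) := by
    simp only [map_mul, map_pow, map_ofNat]
    ring
  rw [hr] at h
  have h0 := congrArg (fun q => Polynomial.coeff q 0) h
  have h1 := congrArg (fun q => Polynomial.coeff q 1) h
  simp only [coeff_add, coeff_sub, coeff_X_pow, coeff_C_mul, coeff_X, coeff_C] at h0 h1
  norm_num at h0 h1
  rw [h0, h1]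
  ring

/-- **REG.** -/
theorem reg (h : SpanDeltaStatement) : ExistsRegularStatement := by
  intro k _ V _ _ _ Γ _ ρ p _ hp2 hyp Δ _ hcyc
  by_contra hno
  have hno' : ∀ σ ∈ Δ, ¬ IsRegular ρ σ := fun σ hσ hreg => hno ⟨σ, hσ, hreg⟩
  have hspan := h k V Γ ρ p hp2 hyp Δ hcyc
  have h2 : (2 : k) ≠ 0 := two_ne_zero_of_char hp2 hyp.char_p
  let b : Module.Basis (Fin 2) k V := Module.finBasisOfFinrankEq k V hyp.finrank_eq
  let s : Set (Matrix (Fin 2) (Fin 2) k) := Set.range fun δ : Δ => LinearMap.toMatrix b b (ρ δ)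
  refine span_ne_top_of_trace_sq h2 s ?_ ?_ ?_ ?_
  · rintro A ⟨δ₁, rfl⟩ B ⟨δ₂, rfl⟩
    refine ⟨δ₁ * δ₂, ?_⟩
    simp only [Subgroup.coe_mul, map_mul]
    exact LinearMap.toMatrix_mul b _ _
  · rintro A ⟨δ, rfl⟩
    simp only
    rw [LinearMap.det_toMatrix]
    exact (((Group.isUnit (δ : Γ)).map ρ).map LinearMap.det).ne_zero
  · rintro A ⟨δ, rfl⟩
    obtain ⟨α, β, hc⟩ := hyp.split (δ : Γ)
    have hαβ : α = β := by
      by_contra hne
      exact hno' δ δ.2 ⟨α, β, hne, hc⟩
    subst hαβ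
    refine trace_sq_of_charpoly _ α ?_
    simp only
    rw [LinearMap.charpoly_toMatrix]
    exact hc
  · have hs : Submodule.span k s
        = (Submodule.span k (Set.range fun δ : Δ => ρ (δ : Γ))).map
            (LinearMap.toMatrix b b).toLinearMap := by
      rw [Submodule.map_span, ← Set.range_comp]
      rfl
    rw [hs, hspan, Submodule.map_top, LinearMap.range_eq_top]
    exact (LinearMap.toMatrix b b).surjective

end Fermat.Agent.S56.P3.H635

end
-- ===== PACK-END S56/P3/H635/REG.lean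

-- ===== PACK-BEGIN S56/H176/FLDEis.lean
section



/-!
# S56 / FL-D, part 4: Eisenstein polynomials and the perturbation comparison

* `FLD_exists_ram`        : an injective local homomorphism of DVRs has a ramification index;
* `FLD_eisenstein_root`   : a root `x` of an Eisenstein polynomial of degree `n` in a DVR of
  ramification index `e` over `A` satisfies `n · v(x) = e`;
* `FLD_minpoly_coeff_ge`, `FLD_minpoly_coeff_zero` : the minimal polynomial of a uniformiser of a
  totally ramified extension is Eisenstein;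
* `FLD_root_perturb`      : a root in `B` of `G + p X^k` is a uniformiser with that minimal
  polynomial;
* `FLD_addVal_deriv_le_of_root` : **comparison**: if `G + p X^k` has a root in `B`
  (`1 ≤ k < n`, `k` a unit of `A`, `p ∈ m_A`), then `v_B(G'(ϖ)) ≤ n · v_A(p) + (k - 1)`.
-/

set_option autoImplicit false

namespace Fermat.Agent.S56.H176

open IsDiscreteValuationRing Polynomial

section Ram

variable {A : Type*} [CommRing A] [IsDomain A] [IsDiscreteValuationRing A]
  {C : Type*} [CommRing C] [IsDomain C] [IsDiscreteValuationRing C] [Algebra A C]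

/-- An injective local homomorphism of discrete valuation rings has a ramification index. -/
theorem FLD_exists_ram (hinj : Function.Injective (algebraMap A C))
    (hloc : IsLocalHom (algebraMap A C)) :
    ∃ e : ℕ, e ≠ 0 ∧ ∀ a : A, addVal C (algebraMap A C a) = e • addVal A a := by
  obtain ⟨π, hπ⟩ := exists_irreducible A
  have hπ0 : algebraMap A C π ≠ 0 := fun h => hπ.ne_zero (hinj (by rw [h, map_zero]))
  have hne : addVal C (algebraMap A C π) ≠ ⊤ := fun h => hπ0 (addVal_eq_top_iff.mp h)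
  obtain ⟨e, he⟩ := ENat.ne_top_iff_exists.mp hne
  have he0 : e ≠ 0 := by
    rintro rfl
    have h1 : addVal C (algebraMap A C π) = 0 := by rw [← he]; rfl
    have h2 : IsUnit (algebraMap A C π) := addVal_eq_zero_iff.mp h1
    exact hπ.not_isUnit (hloc.map_nonunit π h2)
  refine ⟨e, he0, fun a => ?_⟩
  by_cases ha : a = 0
  · subst ha
    rw [map_zero, addVal_zero]
    simp [he0]
  · obtain ⟨m, u, rfl⟩ := eq_unit_mul_pow_irreducible ha hπ
    rw [map_mul, map_pow, addVal_mul, addVal_pow, ← he, addVal_def' u hπ m]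
    have hu : IsUnit (algebraMap A C (u : A)) := u.isUnit.map _
    rw [addVal_eq_zero_iff.mpr hu, zero_add]
    simp [mul_comm]

/-- A root of an Eisenstein polynomial of degree `n` has valuation `e / n`. -/
theorem FLD_eisenstein_root {e n : ℕ} (he : e ≠ 0)
    (hram : ∀ a : A, addVal C (algebraMap A C a) = e • addVal A a)
    (F : A[X]) (hF : F.Monic) (hn : F.natDegree = n) (hn0 : n ≠ 0)
    (hcoef : ∀ j < n, 1 ≤ addVal A (F.coeff j)) (h0 : addVal A (F.coeff 0) = 1)
    (x : C) (hx : aeval x F = 0) : n • addVal C x = (e : ℕ∞) := by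
  classical
  set S : C := ∑ j ∈ Finset.range n, algebraMap A C (F.coeff j) * x ^ j with hS
  have hsum : x ^ n + S = 0 := by
    have h1 := congrArg (aeval x) hF.as_sum
    rw [hx, hn] at h1
    simp only [map_add, map_pow, aeval_X, map_sum, map_mul, aeval_C] at h1
    exact h1.symm
  have hxn : addVal C (x ^ n) = addVal C S := by
    have : x ^ n = -S := eq_neg_of_add_eq_zero_left hsum
    rw [this, AddValuation.map_neg]
  -- every term has valuation `≥ e`
  have hterm : ∀ j < n, (e : ℕ∞) ≤ addVal C (algebraMap A C (F.coeff j) * x ^ j) := by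
    intro j hj
    rw [addVal_mul, hram]
    refine le_trans ?_ le_self_add
    calc (e : ℕ∞) = e • (1 : ℕ∞) := by simp
      _ ≤ e • addVal A (F.coeff j) := nsmul_le_nsmul_right (hcoef j hj) e
  have hSge : (e : ℕ∞) ≤ addVal C S :=
    FLD_le_val_sum (addVal C) _ _ _ (fun j hj => hterm j (Finset.mem_range.mp hj))
  -- `x` is not a unit
  have hx1 : 1 ≤ addVal C x := by
    rw [Order.one_le_iff_ne_zero]
    intro h
    have : addVal C (x ^ n) = 0 := by rw [addVal_pow, h, nsmul_zero]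
    rw [hxn] at this
    rw [this] at hSge
    have : (e : ℕ∞) = 0 := le_antisymm hSge zero_le
    exact he (by exact_mod_cast this)
  -- the constant term is the unique term of smallest valuation
  have h0mem : 0 ∈ Finset.range n := Finset.mem_range.mpr (Nat.pos_of_ne_zero hn0)
  have hv0 : addVal C (algebraMap A C (F.coeff 0) * x ^ 0) = (e : ℕ∞) := by
    rw [pow_zero, mul_one, hram, h0]
    simp
  have hSeq : addVal C S = (e : ℕ∞) := by
    rw [← hv0]
    refine FLD_val_sum_eq_of_lt (addVal C) _ _ 0 h0mem ?_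
    intro j hj hj0
    rw [hv0, addVal_mul, hram, addVal_pow]
    have hj' := Finset.mem_range.mp hj
    have h1 : (e : ℕ∞) ≤ e • addVal A (F.coeff j) := by
      calc (e : ℕ∞) = e • (1 : ℕ∞) := by simp
        _ ≤ e • addVal A (F.coeff j) := nsmul_le_nsmul_right (hcoef j hj') e
    have h2 : (1 : ℕ∞) ≤ j • addVal C x := by
      calc (1 : ℕ∞) ≤ addVal C x := hx1
        _ = 1 • addVal C x := (one_nsmul _).symm
        _ ≤ j • addVal C x := nsmul_le_nsmul_left zero_le (Nat.one_le_iff_ne_zero.mpr hj0)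
    calc (e : ℕ∞) < (e : ℕ∞) + 1 := by
          exact_mod_cast Nat.lt_succ_self e
      _ ≤ e • addVal A (F.coeff j) + j • addVal C x := add_le_add h1 h2
  rw [← addVal_pow, hxn, hSeq]

end Ram

section Perturb

variable (A K : Type*) [CommRing A] [IsDomain A] [IsDiscreteValuationRing A]
  [Field K] [Algebra A K] [IsFractionRing A K]
  (L : Type*) [Field L] [Algebra K L] [FiniteDimensional K L]
  [Algebra A L] [IsScalarTower A K L]
  (B : Type*) [CommRing B] [IsDomain B] [IsDiscreteValuationRing B] [Algebra B L]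
  [IsIntegralClosure B A L] [Algebra A B] [IsScalarTower A B L]

include K L in
/-- The relation `ϖ^n = -∑_{j<n} G_j ϖ^j` for the minimal polynomial `G` of a uniformiser. -/
theorem FLD_minpoly_sum
    (hram : ∀ a : A, addVal B (algebraMap A B a) = (Module.finrank K L) • addVal A a)
    {ϖ : B} (hϖ : addVal B ϖ = 1) :
    addVal B (∑ j ∈ Finset.range (Module.finrank K L),
      algebraMap A B ((minpoly A ϖ).coeff j) * ϖ ^ j) = (Module.finrank K L : ℕ∞) := by
  have hint : IsIntegral A ϖ := IsIntegralClosure.isIntegral A L ϖ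
  have hdeg := FLD_natDegree_minpoly A K L B hram hϖ
  have h1 := congrArg (aeval ϖ) (minpoly.monic hint).as_sum
  rw [minpoly.aeval, hdeg] at h1
  simp only [map_add, map_pow, aeval_X, map_sum, map_mul, aeval_C] at h1
  have h2 : (∑ j ∈ Finset.range (Module.finrank K L),
      algebraMap A B ((minpoly A ϖ).coeff j) * ϖ ^ j) = -(ϖ ^ Module.finrank K L) :=
    eq_neg_of_add_eq_zero_right h1.symm
  rw [h2, AddValuation.map_neg, addVal_pow, hϖ, nsmul_one]

include K L in
/-- The minimal polynomial of a uniformiser is Eisenstein: lower coefficients are non-units. -/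
theorem FLD_minpoly_coeff_ge
    (hram : ∀ a : A, addVal B (algebraMap A B a) = (Module.finrank K L) • addVal A a)
    {ϖ : B} (hϖ : addVal B ϖ = 1) {j : ℕ} (hj : j < Module.finrank K L) :
    1 ≤ addVal A ((minpoly A ϖ).coeff j) := by
  have h1 := FLD_addVal_sum_le hram hϖ (fun i => (minpoly A ϖ).coeff i) hj
  rw [FLD_minpoly_sum A K L B hram hϖ] at h1
  rw [Order.one_le_iff_ne_zero]
  intro h0
  rw [h0, nsmul_zero, zero_add] at h1
  have : Module.finrank K L ≤ j := by exact_mod_cast h1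
  omega

include K L in
/-- The minimal polynomial of a uniformiser is Eisenstein: the constant term is a uniformiser. -/
theorem FLD_minpoly_coeff_zero
    (hram : ∀ a : A, addVal B (algebraMap A B a) = (Module.finrank K L) • addVal A a)
    {ϖ : B} (hϖ : addVal B ϖ = 1) :
    addVal A ((minpoly A ϖ).coeff 0) = 1 := by
  set n := Module.finrank K L with hn
  have hnpos : 0 < n := Module.finrank_pos
  have hge := FLD_minpoly_coeff_ge A K L B hram hϖ hnpos
  by_contra hne
  have h2 : (2 : ℕ∞) ≤ addVal A ((minpoly A ϖ).coeff 0) := by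
    by_cases htop : addVal A ((minpoly A ϖ).coeff 0) = ⊤
    · rw [htop]; exact le_top
    obtain ⟨t, ht⟩ := ENat.ne_top_iff_exists.mp htop
    rw [← ht] at hge hne ⊢
    have h1 : 1 ≤ t := by exact_mod_cast hge
    have h3 : t ≠ 1 := fun h => hne (by rw [h]; rfl)
    have : 2 ≤ t := by omega
    exact_mod_cast this
  have hbig : ((n + 1 : ℕ) : ℕ∞) ≤ addVal B (∑ j ∈ Finset.range n,
      algebraMap A B ((minpoly A ϖ).coeff j) * ϖ ^ j) := by
    refine FLD_le_addVal_sum hram hϖ (fun i => (minpoly A ϖ).coeff i) _ ?_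
    intro j hj
    by_cases hj0 : j = 0
    · subst hj0
      refine le_trans ?_ le_self_add
      calc ((n + 1 : ℕ) : ℕ∞) ≤ ((n * 2 : ℕ) : ℕ∞) := by
            exact_mod_cast (by omega : n + 1 ≤ n * 2)
        _ = n • (2 : ℕ∞) := by simp
        _ ≤ n • addVal A ((minpoly A ϖ).coeff 0) := nsmul_le_nsmul_right h2 n
    · have h1 : (n : ℕ∞) ≤ n • addVal A ((minpoly A ϖ).coeff j) := by
        calc (n : ℕ∞) = n • (1 : ℕ∞) := by simp
          _ ≤ n • addVal A ((minpoly A ϖ).coeff j) :=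
            nsmul_le_nsmul_right (FLD_minpoly_coeff_ge A K L B hram hϖ hj) n
      have h3 : (1 : ℕ∞) ≤ (j : ℕ∞) := by
        exact_mod_cast Nat.one_le_iff_ne_zero.mpr hj0
      calc ((n + 1 : ℕ) : ℕ∞) = (n : ℕ∞) + 1 := by push_cast; rfl
        _ ≤ n • addVal A ((minpoly A ϖ).coeff j) + (j : ℕ∞) := add_le_add h1 h3
  rw [FLD_minpoly_sum A K L B hram hϖ] at hbig
  have : n + 1 ≤ n := by exact_mod_cast hbig
  omega

include K L in
/-- A root in `B` of the perturbed polynomial `G + p X^k` (`1 ≤ k < n`, `p ∈ m_A`) is a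
uniformiser, with minimal polynomial `G + p X^k`. -/
theorem FLD_root_perturb [Module.IsTorsionFree A B]
    (hram : ∀ a : A, addVal B (algebraMap A B a) = (Module.finrank K L) • addVal A a)
    {ϖ : B} (hϖ : addVal B ϖ = 1) (p : A) (hp : 1 ≤ addVal A p) {k : ℕ} (hk1 : 1 ≤ k)
    (hkn : k < Module.finrank K L) (ϖ' : B)
    (hroot : aeval ϖ' (minpoly A ϖ + C p * X ^ k) = 0) :
    addVal B ϖ' = 1 ∧ minpoly A ϖ' = minpoly A ϖ + C p * X ^ k := by
  set n := Module.finrank K L with hn
  have hnpos : 0 < n := Module.finrank_pos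
  have hint : IsIntegral A ϖ := IsIntegralClosure.isIntegral A L ϖ
  have hint' : IsIntegral A ϖ' := IsIntegralClosure.isIntegral A L ϖ'
  have hdeg := FLD_natDegree_minpoly A K L B hram hϖ
  have hmon := minpoly.monic hint
  have hlt : (C p * X ^ k : A[X]).natDegree < (minpoly A ϖ).natDegree := by
    rw [hdeg]
    exact lt_of_le_of_lt (natDegree_C_mul_X_pow_le p k) hkn
  have hdlt : (C p * X ^ k : A[X]).degree < (minpoly A ϖ).degree := by
    by_cases h0 : (C p * X ^ k : A[X]) = 0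
    · rw [h0, degree_zero]
      exact bot_lt_iff_ne_bot.mpr (fun h => hmon.ne_zero (degree_eq_bot.mp h))
    · exact degree_lt_degree hlt
  have hmon' : (minpoly A ϖ + C p * X ^ k).Monic := hmon.add_of_left hdlt
  have hdeg' : (minpoly A ϖ + C p * X ^ k).natDegree = n := by
    rw [natDegree_add_eq_left_of_natDegree_lt hlt, hdeg]
  have hcoef : ∀ j < n, 1 ≤ addVal A ((minpoly A ϖ + C p * X ^ k).coeff j) := by
    intro j hj
    rw [coeff_add, coeff_C_mul, coeff_X_pow]
    refine le_trans ?_ (addVal_add)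
    refine le_min (FLD_minpoly_coeff_ge A K L B hram hϖ hj) ?_
    split_ifs
    · rw [mul_one]; exact hp
    · rw [mul_zero, addVal_zero]; exact le_top
  have hc0 : addVal A ((minpoly A ϖ + C p * X ^ k).coeff 0) = 1 := by
    rw [coeff_add, coeff_C_mul, coeff_X_pow, if_neg (by omega), mul_zero, add_zero]
    exact FLD_minpoly_coeff_zero A K L B hram hϖ
  have h1 := FLD_eisenstein_root (Nat.pos_iff_ne_zero.mp hnpos) hram _ hmon' hdeg'
    (Nat.pos_iff_ne_zero.mp hnpos) hcoef hc0 ϖ' hroot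
  have hϖ' : addVal B ϖ' = 1 := by
    by_cases htop : addVal B ϖ' = ⊤
    · rw [htop] at h1
      have : (⊤ : ℕ∞) = (n : ℕ∞) := by
        rw [← h1]; simp [Nat.pos_iff_ne_zero.mp hnpos]
      exact absurd this.symm (ENat.natCast_ne_top n)
    obtain ⟨t, ht⟩ := ENat.ne_top_iff_exists.mp htop
    rw [← ht] at h1 ⊢
    have h2 : ((n * t : ℕ) : ℕ∞) = (n : ℕ∞) := by
      rw [← h1]; simp
    have h3 : n * t = n := by exact_mod_cast h2
    have h4 : t = 1 := by
      have : n * t = n * 1 := by rw [h3, mul_one]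
      exact Nat.eq_of_mul_eq_mul_left hnpos this
    rw [h4]; rfl
  refine ⟨hϖ', ?_⟩
  have hdvd : minpoly A ϖ' ∣ minpoly A ϖ + C p * X ^ k :=
    minpoly.isIntegrallyClosed_dvd hint' hroot
  have hdeg'' := FLD_natDegree_minpoly A K L B hram hϖ'
  exact (eq_of_monic_of_dvd_of_natDegree_le (minpoly.monic hint') hmon' hdvd
    (by rw [hdeg', hdeg''])).symm

include K L in
/-- **Comparison.**  If the perturbed polynomial `G + p X^k` (`1 ≤ k < n`, `k` a unit of `A`,
`p ∈ m_A`) has a root in `B`, then `v_B(G'(ϖ)) ≤ n · v_A(p) + (k - 1)`. -/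
theorem FLD_addVal_deriv_le_of_root [Algebra.IsSeparable K L] [Module.IsTorsionFree A B]
    (hram : ∀ a : A, addVal B (algebraMap A B a) = (Module.finrank K L) • addVal A a)
    {ϖ : B} (hϖ : addVal B ϖ = 1) (p : A) (hp : 1 ≤ addVal A p) {k : ℕ} (hk1 : 1 ≤ k)
    (hkn : k < Module.finrank K L) (hku : addVal A (k : A) = 0) (ϖ' : B)
    (hroot : aeval ϖ' (minpoly A ϖ + C p * X ^ k) = 0) :
    addVal B (aeval ϖ (derivative (minpoly A ϖ))) ≤
      (Module.finrank K L) • addVal A p + ((k - 1 : ℕ) : ℕ∞) := by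
  set n := Module.finrank K L with hn
  have hnpos : 0 < n := Module.finrank_pos
  obtain ⟨hϖ', hmin'⟩ := FLD_root_perturb A K L B hram hϖ p hp hk1 hkn ϖ' hroot
  -- both derivatives generate the different
  have hd1 := FLD_differentIdeal_eq A K L B hram hϖ
  have hd2 := FLD_differentIdeal_eq A K L B hram hϖ'
  have hassoc : Associated (aeval ϖ (derivative (minpoly A ϖ)))
      (aeval ϖ' (derivative (minpoly A ϖ'))) := by
    rw [← Ideal.span_singleton_eq_span_singleton, ← hd1, ← hd2]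
  have hval : addVal B (aeval ϖ (derivative (minpoly A ϖ))) =
      addVal B (aeval ϖ' (derivative (minpoly A ϖ'))) :=
    (addVal_eq_iff_associated _ _).mpr hassoc
  have hle1 := FLD_addVal_deriv_le A K L B hram hϖ hk1 hkn.le
  have hle2 := FLD_addVal_deriv_le A K L B hram hϖ' hk1 hkn.le
  rw [addVal_mul, hku, add_zero] at hle1 hle2
  rw [← hval] at hle2
  rw [hmin', coeff_add, coeff_C_mul, coeff_X_pow, if_pos rfl, mul_one] at hle2
  by_contra hcon
  rw [not_le] at hcon
  -- `v(G_k) > v(p)`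
  have hptop : addVal A p ≠ ⊤ := by
    intro h
    rw [h] at hcon
    have : n • (⊤ : ℕ∞) + ((k - 1 : ℕ) : ℕ∞) = ⊤ := by
      simp [Nat.pos_iff_ne_zero.mp hnpos]
    rw [this] at hcon
    exact absurd hcon (not_lt.mpr le_top)
  obtain ⟨a, ha⟩ := ENat.ne_top_iff_exists.mp hptop
  have hlt : addVal A p < addVal A ((minpoly A ϖ).coeff k) := by
    by_contra hge
    rw [not_lt] at hge
    have : n • addVal A ((minpoly A ϖ).coeff k) + ((k - 1 : ℕ) : ℕ∞) ≤
        n • addVal A p + ((k - 1 : ℕ) : ℕ∞) :=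
      add_le_add (nsmul_le_nsmul_right hge n) le_rfl
    exact absurd (lt_of_lt_of_le hcon (le_trans hle1 this)) (lt_irrefl _)
  have hsum : addVal A ((minpoly A ϖ).coeff k + p) = addVal A p := by
    rw [add_comm]
    exact AddValuation.map_add_eq_of_lt_left (addVal A) hlt
  rw [hsum] at hle2
  exact absurd (lt_of_lt_of_le hcon hle2) (lt_irrefl _)

end Perturb

end Fermat.Agent.S56.H176

end
-- ===== PACK-END S56/H176/FLDEis.lean

-- ===== PACK-BEGIN S56/H176/FLDUnrDiff.lean
section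




/-!
# S56 / FL-D-UNR, part 4: the different of `B / A` through an unramified subring

`A ⊂ B' ⊂ B` discrete valuation rings (characteristic `0`, residue field of `A` finite), `B`
finite over `A`, with `𝔪_{B'} = 𝔪_A B'` (`B'/A` unramified) and `B' → B` inducing an isomorphism
on residue fields.  Then

* `FLD_unr_differentIdeal_eq_top` : `differentIdeal A B' = ⊤`;
* `FLD_unr_differentIdeal_tower`  : `differentIdeal A B = differentIdeal B' B`;
* `FLD_unr_differentIdeal_eq`     : `differentIdeal A B = (G'(ϖ))` for a uniformiser `ϖ` of `B`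
  with minimal polynomial `G` over `B'`.
-/

set_option autoImplicit false
set_option linter.unusedSectionVars false
set_option linter.style.haveILetI false

namespace Fermat.Agent.S56.H176

open IsDiscreteValuationRing Polynomial

attribute [local instance] FractionRing.liftAlgebra FractionRing.isScalarTower_liftAlgebra

section Sep

variable (A : Type*) [CommRing A] [IsDomain A] [IsDiscreteValuationRing A] [CharZero A]
  (B : Type*) [CommRing B] [IsDomain B] [IsDiscreteValuationRing B] [Algebra A B]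
  [Module.Finite A B] [FaithfulSMul A B]

theorem FLD_finiteDimensional_frac : FiniteDimensional (FractionRing A) (FractionRing B) :=
  .of_isLocalization A B (nonZeroDivisors A)

theorem FLD_isSeparable_frac : Algebra.IsSeparable (FractionRing A) (FractionRing B) := by
  haveI := FLD_finiteDimensional_frac A B
  haveI : CharZero (FractionRing A) :=
    charZero_of_injective_algebraMap (IsFractionRing.injective A (FractionRing A))
  infer_instance

end Sep

section Unr

variable {A : Type*} [CommRing A] [IsDomain A] [IsDiscreteValuationRing A] [CharZero A]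
  {B' : Type*} [CommRing B'] [IsDomain B'] [IsDiscreteValuationRing B'] [Algebra A B']
  [Module.Finite A B'] [FaithfulSMul A B']

/-- The different of an unramified extension is trivial. -/
theorem FLD_unr_differentIdeal_eq_top [Finite (IsLocalRing.ResidueField A)]
    (hunr : IsLocalRing.maximalIdeal B' =
      (IsLocalRing.maximalIdeal A).map (algebraMap A B')) :
    differentIdeal A B' = ⊤ := by
  haveI := FLD_isSeparable_frac A B'
  haveI : Finite (A ⧸ IsLocalRing.maximalIdeal A) := ‹Finite (IsLocalRing.ResidueField A)›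
  by_contra hne
  have hle : differentIdeal A B' ≤ IsLocalRing.maximalIdeal B' :=
    IsLocalRing.le_maximalIdeal hne
  have hdvd : IsLocalRing.maximalIdeal B' ∣ differentIdeal A B' := Ideal.dvd_iff_le.mpr hle
  refine not_dvd_differentIdeal_of_isCoprime A (p := IsLocalRing.maximalIdeal A)
    (IsLocalRing.maximalIdeal B') ⊤ ?_ ?_ hdvd
  · exact Ideal.isCoprime_iff_sup_eq.mpr (sup_top_eq _)
  · rw [Ideal.mul_top, hunr]

end Unr

section Tower

variable {A : Type*} [CommRing A] [IsDomain A] [IsDiscreteValuationRing A] [CharZero A]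
  {B' : Type*} [CommRing B'] [IsDomain B'] [IsDiscreteValuationRing B'] [Algebra A B']
  [Module.Finite A B'] [FaithfulSMul A B']
  {B : Type*} [CommRing B] [IsDomain B] [IsDiscreteValuationRing B] [Algebra A B]
  [Algebra B' B] [IsScalarTower A B' B] [Module.Finite A B] [FaithfulSMul A B]
  [Module.Finite B' B] [FaithfulSMul B' B]

/-- Transitivity of the different through an unramified subring. -/
theorem FLD_unr_differentIdeal_tower [Finite (IsLocalRing.ResidueField A)]
    (hunr : IsLocalRing.maximalIdeal B' =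
      (IsLocalRing.maximalIdeal A).map (algebraMap A B')) :
    differentIdeal A B = differentIdeal B' B := by
  haveI := FLD_isSeparable_frac A B
  rw [differentIdeal_eq_differentIdeal_mul_differentIdeal A B' B,
    FLD_unr_differentIdeal_eq_top hunr, Ideal.map_top, Ideal.mul_top]

/-- The different of `B / A` is generated by `G'(ϖ)`, `G` the minimal polynomial over the
unramified subring `B'` of a uniformiser `ϖ` of `B`. -/
theorem FLD_unr_differentIdeal_eq [Finite (IsLocalRing.ResidueField A)]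
    (hunr : IsLocalRing.maximalIdeal B' =
      (IsLocalRing.maximalIdeal A).map (algebraMap A B'))
    (hres : ∀ b : B, ∃ a : B', b - algebraMap B' B a ∈ IsLocalRing.maximalIdeal B)
    {ϖ : B} (hϖ : addVal B ϖ = 1) :
    differentIdeal A B = Ideal.span {aeval ϖ (derivative (minpoly B' ϖ))} := by
  haveI : CharZero B' := charZero_of_injective_algebraMap (FaithfulSMul.algebraMap_injective A B')
  haveI := FLD_isSeparable_frac B' B
  haveI := FLD_finiteDimensional_frac B' B
  rw [FLD_unr_differentIdeal_tower hunr]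
  exact FLD_differentIdeal_eq B' (FractionRing B') (FractionRing B) B (FLD_tot_hram hres) hϖ

end Tower

end Fermat.Agent.S56.H176

end
-- ===== PACK-END S56/H176/FLDUnrDiff.lean

-- ===== PACK-BEGIN S56/H334/RamQuot.lean
section






/-!
# S56 / W-FLAT-SS, piece FL-RAM (helper334), part 8: ramification groups of a quotient

Setting (that of `FL.RCDatum`): `A ⊆ B` discrete valuation rings, `B` finite over `A`, the residue
field of `A` finite, `Γ` a finite group acting faithfully on `B` with `B^Γ = A`; `N ⊴ Γ`.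
`B^N = FixedPoints.subalgebra A B N` is a DVR with an action of `Γ ⧸ N`.

* `isGaloisGroup_of_datum`, `isGaloisGroup_quotient`, `faithfulSMul_quotient`.
* `quotRamGroup A B Γ N n` : the `n`-th ramification group of `Γ ⧸ N` acting on `B^N`, pulled back
  to `Γ`;  `quotLowIdx A B Γ N σ = i_{Γ/N}(σ N)`.
* `mem_quotRamGroup_iff_lowIdx` : `σ ∈ F N n ↔ σ ∈ N ∨ n + 1 ≤ i N σ`.
* `ramGroup_zero_le_quotRamGroup`, `ramGroup_one_le_quotRamGroup`, `quotRamGroup_one_inf_le`.
* `quot_conj_mul_inv_mem_iff` : the commutator rule for `Γ ⧸ N`.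
* `quotRamGroup_bot`, `quotLowIdx_bot` : for `N = ⊥` one recovers `Γ_n` and `i_Γ`.
-/

set_option autoImplicit false
set_option linter.unusedSectionVars false
set_option linter.style.haveILetI false

open IsLocalRing

namespace Fermat.Agent.S56.H334

section Quot

variable (A B Γ : Type*) [CommRing A] [IsDomain A] [IsDiscreteValuationRing A]
  [CommRing B] [IsDomain B] [IsDiscreteValuationRing B] [Algebra A B] [Module.Finite A B]
  [FaithfulSMul A B] [Group Γ] [Finite Γ] [MulSemiringAction Γ B] [SMulCommClass Γ A B]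
  [Algebra.IsInvariant A B Γ] [FaithfulSMul Γ B]
  (N : Subgroup Γ) [N.Normal]

theorem isGaloisGroup_of_datum : IsGaloisGroup Γ A B :=
  ⟨inferInstance, inferInstance, inferInstance⟩

theorem quot_smul_coe (σ : Γ) (x : FixedPoints.subalgebra A B N) :
    (((σ : Γ ⧸ N) • x : FixedPoints.subalgebra A B N) : B) = σ • (x : B) := rfl

/-- Galois theory: an element of `Γ` fixing `B^N` pointwise lies in `N`. -/
theorem mem_of_forall_smul_fixed {σ : Γ}
    (h : ∀ x : FixedPoints.subalgebra A B N, σ • (x : B) = x) : σ ∈ N := by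
  haveI := isGaloisGroup_of_datum A B Γ
  have h1 := IsGaloisGroup.fixingSubgroup_range_algebraMap Γ A (FixedPoints.subalgebra A B N) B N
  rw [← h1, mem_fixingSubgroup_iff]
  rintro _ ⟨x, rfl⟩
  exact h x

theorem faithfulSMul_quotient : FaithfulSMul (Γ ⧸ N) (FixedPoints.subalgebra A B N) := by
  refine ⟨fun {g₁ g₂} h => ?_⟩
  induction g₁ using QuotientGroup.induction_on with
  | H σ₁ =>
  induction g₂ using QuotientGroup.induction_on with
  | H σ₂ =>
  rw [QuotientGroup.eq]
  apply mem_of_forall_smul_fixed A B Γ N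
  intro x
  have h2 := congrArg Subtype.val (h x)
  rw [quot_smul_coe, quot_smul_coe] at h2
  rw [mul_smul, ← h2, inv_smul_smul]

theorem isGaloisGroup_quotient : IsGaloisGroup (Γ ⧸ N) A (FixedPoints.subalgebra A B N) :=
  ⟨faithfulSMul_quotient A B Γ N, inferInstance, inferInstance⟩

/-- `F N n`: the `n`-th ramification group of `Γ ⧸ N` acting on `B^N`, pulled back to `Γ`. -/
noncomputable def quotRamGroup (n : ℕ) : Subgroup Γ :=
  haveI := isDiscreteValuationRing_fixedPoints A B N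
  (ramGroup (Γ ⧸ N) (FixedPoints.subalgebra A B N) n).comap (QuotientGroup.mk' N)

/-- `i N σ = i_{Γ/N}(σ N)`. -/
noncomputable def quotLowIdx (σ : Γ) : ℕ :=
  haveI := isDiscreteValuationRing_fixedPoints A B N
  lowIdx (Γ ⧸ N) (FixedPoints.subalgebra A B N) (σ : Γ ⧸ N)

theorem mem_quotRamGroup_iff {n : ℕ} {σ : Γ} :
    haveI := isDiscreteValuationRing_fixedPoints A B N
    σ ∈ quotRamGroup A B Γ N n ↔
      (σ : Γ ⧸ N) ∈ ramGroup (Γ ⧸ N) (FixedPoints.subalgebra A B N) n :=
  Iff.rfl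

theorem quotRamGroup_normal (n : ℕ) : (quotRamGroup A B Γ N n).Normal := by
  haveI := isDiscreteValuationRing_fixedPoints A B N
  exact Subgroup.Normal.comap (ramGroup_normal n) _

theorem le_quotRamGroup (n : ℕ) : N ≤ quotRamGroup A B Γ N n := by
  haveI := isDiscreteValuationRing_fixedPoints A B N
  intro σ hσ
  rw [mem_quotRamGroup_iff, (QuotientGroup.eq_one_iff σ).2 hσ]
  exact Subgroup.one_mem _

theorem quotRamGroup_antitone {m n : ℕ} (h : m ≤ n) :
    quotRamGroup A B Γ N n ≤ quotRamGroup A B Γ N m := by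
  haveI := isDiscreteValuationRing_fixedPoints A B N
  exact Subgroup.comap_mono (ramGroup_antitone h)

/-- `σ ∈ F N n ↔ σ ∈ N ∨ n + 1 ≤ i N σ`. -/
theorem mem_quotRamGroup_iff_lowIdx (n : ℕ) (σ : Γ) :
    σ ∈ quotRamGroup A B Γ N n ↔ σ ∈ N ∨ n + 1 ≤ quotLowIdx A B Γ N σ := by
  haveI := isDiscreteValuationRing_fixedPoints A B N
  haveI := faithfulSMul_quotient A B Γ N
  by_cases hσ : σ ∈ N
  · exact ⟨fun _ => Or.inl hσ, fun _ => le_quotRamGroup A B Γ N n hσ⟩
  · have hne : (σ : Γ ⧸ N) ≠ 1 := fun h => hσ ((QuotientGroup.eq_one_iff σ).1 h)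
    rw [mem_quotRamGroup_iff, mem_ramGroup_iff_lt_lowIdx hne]
    constructor
    · intro h; exact Or.inr h
    · rintro (h | h)
      · exact absurd h hσ
      · exact h

/-- `Γ₀ ≤ F N 0`. -/
theorem ramGroup_zero_le_quotRamGroup : ramGroup Γ B 0 ≤ quotRamGroup A B Γ N 0 := by
  haveI := isDiscreteValuationRing_fixedPoints A B N
  intro σ hσ
  rw [mem_quotRamGroup_iff]
  intro x
  show (σ : Γ ⧸ N) • x - x ∈ ((maximalIdeal (FixedPoints.subalgebra A B N)) ^ (0 + 1))
  rw [zero_add, pow_one, mem_maximalIdeal, mem_nonunits_iff, fixedPoints_isUnit_iff]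
  have h1 : σ • (x : B) - x ∈ maximalIdeal B := by
    have := hσ (x : B)
    rw [zero_add, pow_one] at this
    exact this
  exact (mem_maximalIdeal _).1 h1

end Quot

/-! ### Generalities -/

section General

variable {B : Type*} [CommRing B] [IsDomain B] [IsDiscreteValuationRing B]
variable {Γ : Type*} [Group Γ] [MulSemiringAction Γ B]

/-- If `σ ∈ Γ₀` and `σ ^ (p ^ k) ∈ Γ₁` (`p` the residue characteristic), then `σ ∈ Γ₁`. -/
theorem mem_ramGroup_one_of_pow_mem (hH : InertiaResidue Γ B) (p : ℕ) [hp : Fact p.Prime]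
    [CharP (ResidueField B) p] {σ : Γ} (hσ : σ ∈ ramGroup Γ B 0) (k : ℕ)
    (h : σ ^ (p ^ k) ∈ ramGroup Γ B 1) : σ ∈ ramGroup Γ B 1 := by
  obtain ⟨π, hπ⟩ := IsDiscreteValuationRing.exists_irreducible B
  set t : ramGroup Γ B 0 := ⟨σ, hσ⟩ with ht
  have h1 : theta0 hπ (t ^ (p ^ k)) = 1 := (theta0_eq_one_iff hπ hH (t ^ (p ^ k))).2 h
  rw [map_pow] at h1
  have h2 : ((theta0 hπ t : (ResidueField B)ˣ) : ResidueField B) ^ (p ^ k) = 1 := by
    rw [← Units.val_pow_eq_pow_val, h1, Units.val_one]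
  have h3 : ((theta0 hπ t : (ResidueField B)ˣ) : ResidueField B) = 1 := by
    have h4 : (((theta0 hπ t : (ResidueField B)ˣ) : ResidueField B) - 1) ^ (p ^ k) = 0 := by
      rw [sub_pow_char_pow, one_pow, h2, sub_self]
    exact sub_eq_zero.1 (pow_eq_zero_iff (pow_ne_zero _ hp.out.ne_zero) |>.1 h4)
  exact (theta0_eq_one_iff hπ hH t).1 (Units.ext h3)

variable {B' : Type*} [CommRing B'] [IsDomain B'] [IsDiscreteValuationRing B']
variable {Γ' : Type*} [Group Γ'] [MulSemiringAction Γ' B']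

theorem lowIdx_eq_of_forall_mem_iff {σ : Γ} {σ' : Γ'}
    (h : ∀ n, σ ∈ ramGroup Γ B n ↔ σ' ∈ ramGroup Γ' B' n) :
    lowIdx Γ B σ = lowIdx Γ' B' σ' := by
  classical
  unfold lowIdx
  by_cases hex : ∃ n, σ ∉ ramGroup Γ B n
  · have hex' : ∃ n, σ' ∉ ramGroup Γ' B' n := by
      obtain ⟨n, hn⟩ := hex
      exact ⟨n, fun h' => hn ((h n).2 h')⟩
    rw [dif_pos hex, dif_pos hex']
    apply le_antisymm
    · apply Nat.find_min'
      rw [h]
      exact Nat.find_spec hex'
    · apply Nat.find_min'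
      rw [← h]
      exact Nat.find_spec hex
  · have hex' : ¬ ∃ n, σ' ∉ ramGroup Γ' B' n := by
      rintro ⟨n, hn⟩
      exact hex ⟨n, fun h' => hn ((h n).1 h')⟩
    rw [dif_neg hex, dif_neg hex']

end General

/-! ### The residue characteristic -/

section Residue

variable (A B : Type*) [CommRing A] [IsDomain A] [IsDiscreteValuationRing A]
  [CommRing B] [IsDomain B] [IsDiscreteValuationRing B] [Algebra A B] [Module.Finite A B]
  [FaithfulSMul A B]

theorem charP_residueField_of_charP (p : ℕ) [CharP (ResidueField A) p] :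
    CharP (ResidueField B) p :=
  charP_of_injective_algebraMap (algebraMap (ResidueField A) (ResidueField B)).injective p

end Residue

/-! ### Wild inertia of the quotient, commutator rule -/

section QuotWild

variable (A B Γ : Type*) [CommRing A] [IsDomain A] [IsDiscreteValuationRing A]
  [CommRing B] [IsDomain B] [IsDiscreteValuationRing B] [Algebra A B] [Module.Finite A B]
  [FaithfulSMul A B] [Group Γ] [Finite Γ] [MulSemiringAction Γ B] [SMulCommClass Γ A B]
  [Algebra.IsInvariant A B Γ] [FaithfulSMul Γ B]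
  (N : Subgroup Γ) [N.Normal] [Finite (ResidueField A)]

include A in
/-- Hypothesis (H) holds for `Γ` acting on `B`. -/
theorem inertiaResidue_of_datum : InertiaResidue Γ B := by
  haveI := finite_residueField_of_finite A B
  exact inertiaResidue_of_finite

/-- Hypothesis (H) holds for `Γ ⧸ N` acting on `B^N`. -/
theorem inertiaResidue_quotient :
    haveI := isDiscreteValuationRing_fixedPoints A B N
    InertiaResidue (Γ ⧸ N) (FixedPoints.subalgebra A B N) := by
  haveI := isDiscreteValuationRing_fixedPoints A B N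
  haveI := finite_fixedPoints A B N
  haveI := finite_residueField_of_finite A (FixedPoints.subalgebra A B N)
  exact inertiaResidue_of_finite

variable (p : ℕ) [hp : Fact p.Prime] [CharP (ResidueField A) p]

include A in
/-- `Γ₁` is a `p`-group. -/
theorem isPGroup_ramGroup_one_of_datum : IsPGroup p (ramGroup Γ B 1) := by
  haveI := charP_residueField_of_charP A B p
  exact isPGroup_ramGroup_one (inertiaResidue_of_datum A B Γ) p

include p in
/-- `Γ₁ ≤ F N 1`. -/
theorem ramGroup_one_le_quotRamGroup : ramGroup Γ B 1 ≤ quotRamGroup A B Γ N 1 := by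
  haveI := isDiscreteValuationRing_fixedPoints A B N
  haveI := finite_fixedPoints A B N
  haveI := charP_residueField_of_charP A (FixedPoints.subalgebra A B N) p
  intro σ hσ
  obtain ⟨k, hk⟩ := isPGroup_ramGroup_one_of_datum A B Γ p ⟨σ, hσ⟩
  have hk' : σ ^ (p ^ k) = 1 := congrArg Subtype.val hk
  have h0 : (σ : Γ ⧸ N) ∈ ramGroup (Γ ⧸ N) (FixedPoints.subalgebra A B N) 0 :=
    ramGroup_zero_le_quotRamGroup A B Γ N (ramGroup_antitone (Nat.zero_le 1) hσ)
  rw [mem_quotRamGroup_iff]
  apply mem_ramGroup_one_of_pow_mem (inertiaResidue_quotient A B Γ N) p h0 k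
  rw [← QuotientGroup.mk_pow, hk']
  exact Subgroup.one_mem _

include p in
/-- `F N 1 ∩ Γ₀ ≤ Γ₁` if `N ≤ Γ₁`. -/
theorem quotRamGroup_one_inf_le (hN : N ≤ ramGroup Γ B 1) :
    quotRamGroup A B Γ N 1 ⊓ ramGroup Γ B 0 ≤ ramGroup Γ B 1 := by
  haveI := isDiscreteValuationRing_fixedPoints A B N
  haveI := finite_fixedPoints A B N
  haveI := charP_residueField_of_charP A (FixedPoints.subalgebra A B N) p
  haveI := charP_residueField_of_charP A B p
  haveI := faithfulSMul_quotient A B Γ N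
  rintro σ ⟨h1, h0⟩
  have hpg : IsPGroup p (ramGroup (Γ ⧸ N) (FixedPoints.subalgebra A B N) 1) :=
    isPGroup_ramGroup_one (inertiaResidue_quotient A B Γ N) p
  obtain ⟨k, hk⟩ := hpg ⟨(σ : Γ ⧸ N), h1⟩
  have hk' : (σ : Γ ⧸ N) ^ (p ^ k) = 1 := congrArg Subtype.val hk
  rw [← QuotientGroup.mk_pow, QuotientGroup.eq_one_iff] at hk'
  exact mem_ramGroup_one_of_pow_mem (inertiaResidue_of_datum A B Γ) p h0 k (hN hk')

omit hp [CharP (ResidueField A) p] in
/-- The commutator rule for the quotient `Γ ⧸ N`. -/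
theorem quot_conj_mul_inv_mem_iff {n : ℕ} (hn : 1 ≤ n) {σ τ : Γ}
    (hσ : σ ∈ quotRamGroup A B Γ N n) (hσ' : σ ∉ quotRamGroup A B Γ N (n + 1))
    (hτ : τ ∈ ramGroup Γ B 0) :
    τ * σ * τ⁻¹ * σ⁻¹ ∈ quotRamGroup A B Γ N (n + 1) ↔ τ ^ n ∈ quotRamGroup A B Γ N 1 := by
  haveI := isDiscreteValuationRing_fixedPoints A B N
  have hτ' := ramGroup_zero_le_quotRamGroup A B Γ N hτ
  rw [mem_quotRamGroup_iff] at hσ hσ' hτ' ⊢
  rw [mem_quotRamGroup_iff]
  have := conj_mul_inv_mem_ramGroup_iff (inertiaResidue_quotient A B Γ N) hn hσ hσ' hτ'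
  simpa using this

include A in
/-- `Γ / Γ₀` is abelian. -/
theorem commutator_mem_ramGroup_zero_of_datum (g h : Γ) :
    g * h * g⁻¹ * h⁻¹ ∈ ramGroup Γ B 0 := by
  haveI := finite_residueField_of_finite A B
  exact commutator_mem_ramGroup_zero g h

end QuotWild

end Fermat.Agent.S56.H334

end
-- ===== PACK-END S56/H334/RamQuot.lean

-- ===== PACK-BEGIN S19/H435/Quot.lean
section
/-
A3 / WP-C piece F (helper435): quotients of Hopf lattices.

For a surjective additive map `π : M →+ M''` compatible with the Galois actions, the functions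
`g : M'' → Qb` with `g ∘ π ∈ Λ` form a Hopf lattice on `M''`.  No Cartier duality is used:
* the invariant sublattice is saturated, hence a direct summand (`exists_retraction`);
* `Δ`-closedness follows from `Qb`-independence of a basis (F1);
* separation of cosets uses norms `m ↦ ∏_{k ∈ ker π} h (m + k)` and Neumann's covering lemma.
-/





set_option autoImplicit false
set_option linter.style.haveILetI false

noncomputable section

namespace Fermat.Agent.S19.H435

/-- A saturated submodule of a finite module over a PID is a direct summand. -/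
theorem exists_retraction {R V : Type*} [CommRing R] [IsDomain R] [IsPrincipalIdealRing R]
    [AddCommGroup V] [Module R V] [Module.Finite R V] (N : Submodule R V)
    (hsat : ∀ (r : R) (v : V), r ≠ 0 → r • v ∈ N → v ∈ N) :
    ∃ ρ : V →ₗ[R] V, (∀ v, ρ v ∈ N) ∧ ∀ v ∈ N, ρ v = v := by
  haveI : Module.IsTorsionFree R (V ⧸ N) := by
    refine Module.IsTorsionFree.of_smul_eq_zero fun r m h => ?_
    obtain ⟨v, rfl⟩ := N.mkQ_surjective m
    by_cases hr : r = 0
    · exact Or.inl hr
    · right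
      rw [← map_smul, Submodule.mkQ_apply, Submodule.Quotient.mk_eq_zero] at h
      rw [Submodule.mkQ_apply, Submodule.Quotient.mk_eq_zero]
      exact hsat r v hr h
  haveI : Module.Free R (V ⧸ N) := Module.free_of_finite_type_torsion_free'
  obtain ⟨s, hs⟩ := Module.projective_lifting_property N.mkQ LinearMap.id N.mkQ_surjective
  refine ⟨LinearMap.id - s ∘ₗ N.mkQ, ?_, ?_⟩
  · intro v
    rw [← Submodule.Quotient.mk_eq_zero]
    have h1 := LinearMap.congr_fun hs (N.mkQ v)
    simp only [LinearMap.comp_apply, LinearMap.id_apply, Submodule.mkQ_apply] at h1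
    simp only [LinearMap.sub_apply, LinearMap.id_apply, LinearMap.comp_apply,
      Submodule.mkQ_apply, Submodule.Quotient.mk_sub, h1, sub_self]
  · intro v hv
    have h1 : N.mkQ v = 0 := by
      rw [Submodule.mkQ_apply, Submodule.Quotient.mk_eq_zero]
      exact hv
    simp only [LinearMap.sub_apply, LinearMap.id_apply, LinearMap.comp_apply, h1, map_zero,
      sub_zero]

variable {ℓ : ℕ} {M : Type*} [AddCommGroup M] {act : Gal → M → M}
  {Λ : Subalgebra (Zl ℓ) (M → _root_.Fermat.Agent.S19.H435.Qb)}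

namespace IsHopfLattice

theorem act_add (hΛ : IsHopfLattice ℓ act Λ) (σ : Gal) (x y : M) :
    act σ (x + y) = act σ x + act σ y := by
  by_contra hne
  obtain ⟨f, hf, hfne⟩ := hΛ.separates _ _ hne
  apply hfne
  obtain ⟨n, a, b, ha, hb, hab⟩ := hΛ.comul_mem f hf
  rw [hΛ.equivariant f hf σ, hab, hab, map_sum]
  refine Finset.sum_congr rfl fun k _ => ?_
  rw [map_mul, hΛ.equivariant _ (ha k) σ, hΛ.equivariant _ (hb k) σ]

theorem act_zero (hΛ : IsHopfLattice ℓ act Λ) (σ : Gal) : act σ 0 = 0 := by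
  have h := hΛ.act_add σ 0 0
  rw [add_zero] at h
  exact left_eq_add.mp h

theorem act_inv_act (hΛ : IsHopfLattice ℓ act Λ) (σ : Gal) (m : M) :
    act σ⁻¹ (act σ m) = m := by
  by_contra hne
  obtain ⟨f, hf, hfne⟩ := hΛ.separates _ _ hne
  apply hfne
  rw [hΛ.equivariant f hf σ⁻¹, hΛ.equivariant f hf σ]
  exact AlgEquiv.symm_apply_apply σ (f m)

theorem act_act_inv (hΛ : IsHopfLattice ℓ act Λ) (σ : Gal) (m : M) :
    act σ (act σ⁻¹ m) = m := by
  have := hΛ.act_inv_act σ⁻¹ m
  rwa [inv_inv] at this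

end IsHopfLattice

/-- `f` factors through `π`. -/
def IsInvFun {M'' : Type*} (π : M → M'') (f : M → _root_.Fermat.Agent.S19.H435.Qb) : Prop :=
  ∀ x y : M, π x = π y → f x = f y

omit [AddCommGroup M] in
theorem sum_smul_apply' {n : ℕ} (c : Fin n → Zl ℓ) (g : Fin n → M → _root_.Fermat.Agent.S19.H435.Qb) (x : M) :
    (∑ i, c i • g i) x = ∑ i, algebraMap (Zl ℓ) _root_.Fermat.Agent.S19.H435.Qb (c i) * g i x := by
  simp [Finset.sum_apply, Algebra.smul_def]

namespace IsHopfLattice

/-- **F3.** The comultiplication of an invariant element of a Hopf lattice can be written with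
invariant elements of the lattice. -/
theorem comul_inv [Fact ℓ.Prime] (hΛ : IsHopfLattice ℓ act Λ) {M'' : Type*} [AddCommGroup M'']
    (π : M →+ M'') {f : M → _root_.Fermat.Agent.S19.H435.Qb} (hf : f ∈ Λ) (hinv : IsInvFun π f) :
    ∃ (n : ℕ) (a b : Fin n → M → _root_.Fermat.Agent.S19.H435.Qb), (∀ k, a k ∈ Λ ∧ IsInvFun π (a k)) ∧
      (∀ k, b k ∈ Λ ∧ IsInvFun π (b k)) ∧ ∀ x y : M, f (x + y) = ∑ k, a k x * b k y := by
  classical
  obtain ⟨n, e, he, -, hliQ, hexp⟩ := hΛ.exists_basis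
  obtain ⟨p, a, b, ha, hb, hab⟩ := hΛ.comul_mem f hf
  choose β hβ using fun k => hexp (b k) (hb k)
  -- Step 1
  set u : Fin n → M → _root_.Fermat.Agent.S19.H435.Qb := fun j => ∑ k, β k j • a k with hu
  have hu_mem : ∀ j, u j ∈ Λ := fun j =>
    Subalgebra.sum_mem _ fun k _ => Subalgebra.smul_mem _ (ha k) _
  have hu_apply : ∀ j x, u j x = ∑ k, algebraMap (Zl ℓ) _root_.Fermat.Agent.S19.H435.Qb (β k j) * a k x := by
    intro j x
    simp [hu, Finset.sum_apply, Algebra.smul_def]
  have hfu : ∀ x y, f (x + y) = ∑ j, u j x * e j y := by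
    intro x y
    rw [hab]
    simp only [hu_apply, Finset.sum_mul]
    rw [Finset.sum_comm]
    refine Finset.sum_congr rfl fun k _ => ?_
    conv_lhs => rw [hβ k, sum_smul_apply', Finset.mul_sum]
    refine Finset.sum_congr rfl fun j _ => ?_
    ring
  have key : ∀ (d : Fin n → _root_.Fermat.Agent.S19.H435.Qb), (∀ y, ∑ j, d j * e j y = 0) → ∀ j, d j = 0 := by
    intro d hd
    refine Fintype.linearIndependent_iff.mp hliQ d ?_
    funext y
    simpa [Finset.sum_apply] using hd y
  have hu_inv : ∀ j, IsInvFun π (u j) := by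
    intro j x x' hxx'
    have h0 : ∀ y, ∑ j, (u j x - u j x') * e j y = 0 := by
      intro y
      simp only [sub_mul, Finset.sum_sub_distrib]
      rw [← hfu, ← hfu, sub_eq_zero]
      exact hinv _ _ (by rw [map_add, map_add, hxx'])
    exact sub_eq_zero.mp (key _ h0 j)
  -- Step 2
  choose γ hγ using fun j => hexp (u j) (hu_mem j)
  -- Step 3
  set w : Fin n → M → _root_.Fermat.Agent.S19.H435.Qb := fun i => ∑ j, γ j i • e j with hw
  have hw_mem : ∀ i, w i ∈ Λ := fun i =>
    Subalgebra.sum_mem _ fun j _ => Subalgebra.smul_mem _ (he j) _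
  have hw_apply : ∀ i y, w i y = ∑ j, algebraMap (Zl ℓ) _root_.Fermat.Agent.S19.H435.Qb (γ j i) * e j y := by
    intro i y
    simp [hw, Finset.sum_apply, Algebra.smul_def]
  have hfw : ∀ x y, f (x + y) = ∑ i, e i x * w i y := by
    intro x y
    rw [hfu]
    simp only [hw_apply, Finset.mul_sum]
    rw [Finset.sum_comm]
    refine Finset.sum_congr rfl fun j _ => ?_
    conv_lhs => rw [hγ j, sum_smul_apply', Finset.sum_mul]
    refine Finset.sum_congr rfl fun i _ => ?_
    ring
  have hw_inv : ∀ i, IsInvFun π (w i) := by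
    intro i y y' hyy'
    have h0 : ∀ x, ∑ i, (w i y - w i y') * e i x = 0 := by
      intro x
      simp only [sub_mul, Finset.sum_sub_distrib]
      have h1 := hfw x y
      have h2 := hfw x y'
      have h3 : f (x + y) = f (x + y') := hinv _ _ (by rw [map_add, map_add, hyy'])
      rw [sub_eq_zero]
      calc ∑ i, w i y * e i x = f (x + y) := by
            rw [h1]; exact Finset.sum_congr rfl fun i _ => mul_comm _ _
        _ = f (x + y') := h3
        _ = ∑ i, w i y' * e i x := by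
            rw [h2]; exact Finset.sum_congr rfl fun i _ => mul_comm _ _
    exact sub_eq_zero.mp (key _ h0 i)
  -- Step 4: the retraction
  haveI : Module.Finite (Zl ℓ) (Subalgebra.toSubmodule Λ) := Module.Finite.iff_fg.mpr hΛ.fg
  let N : Submodule (Zl ℓ) (Subalgebra.toSubmodule Λ) :=
    { carrier := {v | IsInvFun π (v : M → _root_.Fermat.Agent.S19.H435.Qb)}
      add_mem' := by
        intro v v' hv hv' x y hxy
        show (v : M → _root_.Fermat.Agent.S19.H435.Qb) x + (v' : M → _root_.Fermat.Agent.S19.H435.Qb) x = (v : M → _root_.Fermat.Agent.S19.H435.Qb) y + (v' : M → _root_.Fermat.Agent.S19.H435.Qb) y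
        rw [hv x y hxy, hv' x y hxy]
      zero_mem' := fun x y _ => rfl
      smul_mem' := by
        intro r v hv x y hxy
        show r • (v : M → _root_.Fermat.Agent.S19.H435.Qb) x = r • (v : M → _root_.Fermat.Agent.S19.H435.Qb) y
        rw [hv x y hxy] }
  have hsat : ∀ (r : Zl ℓ) (v : Subalgebra.toSubmodule Λ), r ≠ 0 → r • v ∈ N → v ∈ N := by
    intro r v hr hv x y hxy
    have h1 : r • (v : M → _root_.Fermat.Agent.S19.H435.Qb) x = r • (v : M → _root_.Fermat.Agent.S19.H435.Qb) y := hv x y hxy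
    rw [Algebra.smul_def, Algebra.smul_def] at h1
    have h2 : algebraMap (Zl ℓ) _root_.Fermat.Agent.S19.H435.Qb r ≠ 0 := fun h =>
      hr (algebraMap_Zl_Qb_injective ℓ (by rw [h, map_zero]))
    exact mul_left_cancel₀ h2 h1
  obtain ⟨ρ, hρN, hρid⟩ := exists_retraction N hsat
  let E : Fin n → Subalgebra.toSubmodule Λ := fun i => ⟨e i, he i⟩
  have hρu : ∀ j x, u j x = ∑ i, algebraMap (Zl ℓ) _root_.Fermat.Agent.S19.H435.Qb (γ j i) * ((ρ (E i) : Subalgebra.toSubmodule Λ) : M → _root_.Fermat.Agent.S19.H435.Qb) x := by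
    intro j x
    have h1 : (⟨u j, hu_mem j⟩ : Subalgebra.toSubmodule Λ) = ∑ i, γ j i • E i := by
      apply Subtype.ext
      rw [Submodule.coe_sum]
      exact hγ j
    calc u j x = ((ρ ⟨u j, hu_mem j⟩ : Subalgebra.toSubmodule Λ) : M → _root_.Fermat.Agent.S19.H435.Qb) x := by
          rw [hρid _ (hu_inv j)]
      _ = ((∑ i, γ j i • ρ (E i) : Subalgebra.toSubmodule Λ) : M → _root_.Fermat.Agent.S19.H435.Qb) x := by
          rw [h1, map_sum]
          simp only [map_smul]
      _ = (∑ i, γ j i • ((ρ (E i) : Subalgebra.toSubmodule Λ) : M → _root_.Fermat.Agent.S19.H435.Qb)) x := by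
          rw [Submodule.coe_sum]
          rfl
      _ = _ := sum_smul_apply' _ _ x
  refine ⟨n, fun i => ((ρ (E i) : Subalgebra.toSubmodule Λ) : M → _root_.Fermat.Agent.S19.H435.Qb), w,
    fun i => ⟨(ρ (E i)).2, hρN (E i)⟩, fun i => ⟨hw_mem i, hw_inv i⟩, ?_⟩
  intro x y
  rw [hfu]
  simp only [hρu, hw_apply, Finset.sum_mul, Finset.mul_sum]
  rw [Finset.sum_comm]
  refine Finset.sum_congr rfl fun i _ => Finset.sum_congr rfl fun j _ => ?_
  ring

/-- Translates of lattice elements lie in the `Zb`-span of the lattice. -/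
theorem translate_mem_span (hΛ : IsHopfLattice ℓ act Λ) {h : M → _root_.Fermat.Agent.S19.H435.Qb} (hh : h ∈ Λ) (k : M) :
    (fun m => h (m + k)) ∈
      Submodule.span (integralClosure (Zl ℓ) _root_.Fermat.Agent.S19.H435.Qb) (Λ : Set (M → _root_.Fermat.Agent.S19.H435.Qb)) := by
  obtain ⟨n, a, b, ha, hb, hab⟩ := hΛ.comul_mem h hh
  have : (fun m => h (m + k)) =
      ∑ j, (⟨b j k, hΛ.isIntegral_apply (hb j) k⟩ : integralClosure (Zl ℓ) _root_.Fermat.Agent.S19.H435.Qb) • a j := by
    funext m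
    rw [hab, Finset.sum_apply]
    refine Finset.sum_congr rfl fun j _ => ?_
    show a j m * b j k = b j k * a j m
    exact mul_comm _ _
  rw [this]
  exact Submodule.sum_mem _ fun j _ => Submodule.smul_mem _ _ (Submodule.subset_span (ha j))

omit [AddCommGroup M] in
theorem span_eq_adjoin (Λ : Subalgebra (Zl ℓ) (M → _root_.Fermat.Agent.S19.H435.Qb)) :
    Submodule.span (integralClosure (Zl ℓ) _root_.Fermat.Agent.S19.H435.Qb) (Λ : Set (M → _root_.Fermat.Agent.S19.H435.Qb)) =
      Subalgebra.toSubmodule (Algebra.adjoin (integralClosure (Zl ℓ) _root_.Fermat.Agent.S19.H435.Qb) (Λ : Set (M → _root_.Fermat.Agent.S19.H435.Qb))) := by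
  rw [Algebra.adjoin_eq_span]
  congr 1
  have : (Λ : Set (M → _root_.Fermat.Agent.S19.H435.Qb)) = ((Λ.toSubmonoid : Submonoid (M → _root_.Fermat.Agent.S19.H435.Qb)) : Set (M → _root_.Fermat.Agent.S19.H435.Qb)) := rfl
  rw [this, Submonoid.closure_eq]

section Norm

variable [Fintype M] [DecidableEq M] {M'' : Type*} [AddCommGroup M''] [DecidableEq M'']

/-- The kernel of `π` as a finset. -/
def kerFinset (π : M →+ M'') : Finset M := Finset.univ.filter (fun k => π k = 0)

omit [DecidableEq M] in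
theorem mem_kerFinset (π : M →+ M'') (k : M) : k ∈ kerFinset π ↔ π k = 0 := by
  simp [kerFinset]

/-- The norm of a function along the fibres of `π`. -/
def normFun (π : M →+ M'') (h : M → _root_.Fermat.Agent.S19.H435.Qb) : M → _root_.Fermat.Agent.S19.H435.Qb := fun m => ∏ k ∈ kerFinset π, h (m + k)

omit [DecidableEq M] in
theorem normFun_inv (π : M →+ M'') (h : M → _root_.Fermat.Agent.S19.H435.Qb) : IsInvFun π (normFun π h) := by
  intro x x' hxx'
  unfold normFun
  have hk₀ : π (x' - x) = 0 := by rw [map_sub, hxx', sub_self]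
  refine Finset.prod_nbij' (fun k => k - (x' - x)) (fun k => k + (x' - x)) ?_ ?_ ?_ ?_ ?_
  · intro k hk
    rw [mem_kerFinset] at hk ⊢
    rw [map_sub, hk, hk₀, sub_zero]
  · intro k hk
    rw [mem_kerFinset] at hk ⊢
    rw [map_add, hk, hk₀, add_zero]
  · intro k _
    abel
  · intro k _
    abel
  · intro k _
    congr 1
    abel

omit [DecidableEq M] in
theorem normFun_mem [Fact ℓ.Prime] (hΛ : IsHopfLattice ℓ act Λ) (π : M →+ M'')
    (act'' : Gal → M'' → M'') (hcompat : ∀ σ m, act'' σ (π m) = π (act σ m))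
    {h : M → _root_.Fermat.Agent.S19.H435.Qb} (hh : h ∈ Λ) : normFun π h ∈ Λ := by
  have hstab : ∀ (σ : Gal) (k : M), k ∈ kerFinset π → act σ k ∈ kerFinset π := by
    intro σ k hk
    rw [mem_kerFinset] at hk ⊢
    rw [← hcompat, hk, ← map_zero π, hcompat, hΛ.act_zero, map_zero]
  apply hΛ.mem_of_mem_span_of_equivariant
  · rw [span_eq_adjoin]
    have : normFun π h = ∏ k ∈ kerFinset π, (fun m => h (m + k)) := by
      funext m
      simp [normFun, Finset.prod_apply]
    rw [this]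
    refine Subalgebra.prod_mem _ fun k _ => ?_
    have := hΛ.translate_mem_span hh k
    rw [span_eq_adjoin] at this
    exact this
  · intro σ m
    unfold normFun
    rw [map_prod]
    refine Finset.prod_nbij' (fun k => act σ⁻¹ k) (fun k => act σ k) ?_ ?_ ?_ ?_ ?_
    · intro k hk
      exact hstab σ⁻¹ k hk
    · intro k hk
      exact hstab σ k hk
    · intro k _
      exact hΛ.act_act_inv σ k
    · intro k _
      exact hΛ.act_inv_act σ k
    · intro k _
      rw [← hΛ.equivariant h hh σ, hΛ.act_add, hΛ.act_act_inv]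

end Norm

/-- **F4.** Invariant elements of a Hopf lattice separate the fibres of `π`. -/
theorem exists_inv_separating [Fact ℓ.Prime] [Finite M] (hΛ : IsHopfLattice ℓ act Λ)
    {M'' : Type*} [AddCommGroup M''] (π : M →+ M'')
    (act'' : Gal → M'' → M'') (hcompat : ∀ σ m, act'' σ (π m) = π (act σ m))
    (x y : M) (hxy : π x ≠ π y) : ∃ f ∈ Λ, IsInvFun π f ∧ f x ≠ f y := by
  classical
  haveI : Fintype M := Fintype.ofFinite M
  by_contra hcon
  push Not at hcon
  -- Step a
  have stepa : ∀ h ∈ Λ, ∃ k ∈ kerFinset π, h x = h (y + k) := by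
    intro h hh
    let P : Polynomial _root_.Fermat.Agent.S19.H435.Qb := ∏ k ∈ kerFinset π, (Polynomial.C (h (x + k)) - Polynomial.X)
    let Q : Polynomial _root_.Fermat.Agent.S19.H435.Qb := ∏ k ∈ kerFinset π, (Polynomial.C (h (y + k)) - Polynomial.X)
    have hevalP : ∀ z : _root_.Fermat.Agent.S19.H435.Qb, Polynomial.eval z P = ∏ k ∈ kerFinset π, (h (x + k) - z) := by
      intro z
      simp [P, Polynomial.eval_prod]
    have hevalQ : ∀ z : _root_.Fermat.Agent.S19.H435.Qb, Polynomial.eval z Q = ∏ k ∈ kerFinset π, (h (y + k) - z) := by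
      intro z
      simp [Q, Polynomial.eval_prod]
    have hPQ : P = Q := by
      apply Polynomial.eq_of_infinite_eval_eq
      refine Set.infinite_of_injective_forall_mem (f := fun n : ℤ => (n : _root_.Fermat.Agent.S19.H435.Qb))
        Int.cast_injective fun c => ?_
      show Polynomial.eval (c : _root_.Fermat.Agent.S19.H435.Qb) P = Polynomial.eval (c : _root_.Fermat.Agent.S19.H435.Qb) Q
      rw [hevalP, hevalQ]
      have hmem : h - algebraMap (Zl ℓ) (M → _root_.Fermat.Agent.S19.H435.Qb) (c : Zl ℓ) ∈ Λ :=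
        Subalgebra.sub_mem _ hh (Subalgebra.algebraMap_mem _ _)
      have := hcon _ (hΛ.normFun_mem π act'' hcompat hmem) (normFun_inv π _)
      have hpt : ∀ m : M, (h - algebraMap (Zl ℓ) (M → _root_.Fermat.Agent.S19.H435.Qb) (c : Zl ℓ)) m = h m - (c : _root_.Fermat.Agent.S19.H435.Qb) := by
        intro m
        rw [Pi.sub_apply, Pi.algebraMap_apply, map_intCast]
      simpa [normFun, hpt] using this
    have h0 : Polynomial.eval (h x) P = 0 := by
      rw [hevalP]
      refine Finset.prod_eq_zero (i := 0) ((mem_kerFinset π 0).mpr (map_zero π)) ?_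
      rw [add_zero, sub_self]
    rw [hPQ, hevalQ, Finset.prod_eq_zero_iff] at h0
    obtain ⟨k, hk, hk0⟩ := h0
    exact ⟨k, hk, (sub_eq_zero.mp hk0).symm⟩
  -- Step b
  let φ : M → (Subalgebra.toSubmodule Λ) →ₗ[Zl ℓ] _root_.Fermat.Agent.S19.H435.Qb := fun k =>
    ((LinearMap.proj x : (M → _root_.Fermat.Agent.S19.H435.Qb) →ₗ[Zl ℓ] _root_.Fermat.Agent.S19.H435.Qb) -
      (LinearMap.proj (y + k) : (M → _root_.Fermat.Agent.S19.H435.Qb) →ₗ[Zl ℓ] _root_.Fermat.Agent.S19.H435.Qb)) ∘ₗ (Subalgebra.toSubmodule Λ).subtype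
  have hφ : ∀ k (v : Subalgebra.toSubmodule Λ), φ k v = (v : M → _root_.Fermat.Agent.S19.H435.Qb) x - (v : M → _root_.Fermat.Agent.S19.H435.Qb) (y + k) :=
    fun k v => rfl
  let pk : M → Submodule (Zl ℓ) (Subalgebra.toSubmodule Λ) := fun k => LinearMap.ker (φ k)
  have hcover : ⋃ k ∈ kerFinset π, ((pk k : Submodule (Zl ℓ) (Subalgebra.toSubmodule Λ)) :
      Set (Subalgebra.toSubmodule Λ)) = Set.univ := by
    rw [Set.eq_univ_iff_forall]
    intro v
    obtain ⟨k, hk, hvk⟩ := stepa v.1 v.2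
    simp only [Set.mem_iUnion]
    refine ⟨k, hk, ?_⟩
    show φ k v = 0
    rw [hφ, sub_eq_zero]
    exact hvk
  obtain ⟨k, hk, hfi⟩ := Submodule.exists_finiteIndex_of_cover hcover
  have hxk : x ≠ y + k := by
    intro h
    apply hxy
    rw [h, map_add, (mem_kerFinset π k).mp hk, add_zero]
  obtain ⟨h₀, hh₀, hne⟩ := hΛ.separates _ _ hxk
  haveI : (pk k).toAddSubgroup.FiniteIndex := hfi
  haveI : Finite ((Subalgebra.toSubmodule Λ) ⧸ (pk k).toAddSubgroup) :=
    AddSubgroup.finite_quotient_of_finiteIndex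
  let v₀ : Subalgebra.toSubmodule Λ := ⟨h₀, hh₀⟩
  have hinj : Function.Injective
      (fun n : ℕ => (QuotientAddGroup.mk (n • v₀) :
        (Subalgebra.toSubmodule Λ) ⧸ (pk k).toAddSubgroup)) := by
    intro n n' hnn'
    have h1 := QuotientAddGroup.eq.mp hnn'
    have h2 : φ k (-(n • v₀) + n' • v₀) = 0 := h1
    rw [map_add, map_neg, map_nsmul, map_nsmul, hφ] at h2
    have h3 : h₀ x - h₀ (y + k) ≠ 0 := sub_ne_zero.mpr hne
    have h4 : ((n' : _root_.Fermat.Agent.S19.H435.Qb) - (n : _root_.Fermat.Agent.S19.H435.Qb)) * (h₀ x - h₀ (y + k)) = 0 := by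
      have : (v₀ : M → _root_.Fermat.Agent.S19.H435.Qb) = h₀ := rfl
      rw [this] at h2
      rw [← h2]
      simp only [nsmul_eq_mul]
      ring
    rcases mul_eq_zero.mp h4 with h | h
    · have : (n' : _root_.Fermat.Agent.S19.H435.Qb) = (n : _root_.Fermat.Agent.S19.H435.Qb) := sub_eq_zero.mp h
      exact (Nat.cast_injective this).symm
    · exact absurd h h3
  haveI : Finite ℕ := Finite.of_injective _ hinj
  exact not_finite ℕ

end IsHopfLattice

/-- Precomposition with `π`, as a `ℤ_(ℓ)`-algebra homomorphism. -/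
def precompAlgHom (ℓ : ℕ) {M M'' : Type*} (π : M → M'') : (M'' → _root_.Fermat.Agent.S19.H435.Qb) →ₐ[Zl ℓ] (M → _root_.Fermat.Agent.S19.H435.Qb) where
  toFun g := g ∘ π
  map_one' := rfl
  map_mul' _ _ := rfl
  map_zero' := rfl
  map_add' _ _ := rfl
  commutes' _ := rfl

@[simp]
theorem precompAlgHom_apply (ℓ : ℕ) {M M'' : Type*} (π : M → M'') (g : M'' → _root_.Fermat.Agent.S19.H435.Qb) (m : M) :
    precompAlgHom ℓ π g m = g (π m) := rfl

namespace IsHopfLattice

/-- **Piece F (quotients).** If `Λ` is a Hopf lattice on `M` and `π : M →+ M''` is a surjective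
additive map compatible with the Galois actions, then the functions `g` on `M''` with
`g ∘ π ∈ Λ` form a Hopf lattice on `M''`. -/
theorem quotient [Fact ℓ.Prime] [Finite M] (hΛ : IsHopfLattice ℓ act Λ)
    {M'' : Type*} [AddCommGroup M''] (π : M →+ M'') (hπ : Function.Surjective π)
    (act'' : Gal → M'' → M'') (hcompat : ∀ σ m, act'' σ (π m) = π (act σ m)) :
    IsHopfLattice ℓ act'' (Λ.comap (precompAlgHom ℓ π)) := by
  have hdesc : ∀ f : M → _root_.Fermat.Agent.S19.H435.Qb, IsInvFun π f → (f ∘ Function.surjInv hπ) ∘ π = f := by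
    intro f hf
    funext m
    exact hf _ _ (Function.surjInv_eq hπ (π m))
  refine ⟨?_, ?_, ?_, ?_⟩
  · have hinj : Function.Injective (precompAlgHom ℓ π).toLinearMap := by
      intro g g' h
      funext m''
      obtain ⟨m, rfl⟩ := hπ m''
      exact congrFun h m
    apply Submodule.fg_of_fg_map_injective (precompAlgHom ℓ π).toLinearMap hinj
    apply Submodule.FG.of_le hΛ.fg
    rintro _ ⟨g, hg, rfl⟩
    exact hg
  · intro g hg σ m''
    obtain ⟨m, rfl⟩ := hπ m''
    rw [hcompat]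
    exact hΛ.equivariant _ hg σ m
  · intro m'' n'' hne
    obtain ⟨x, rfl⟩ := hπ m''
    obtain ⟨y, rfl⟩ := hπ n''
    obtain ⟨f, hf, hfinv, hfne⟩ := hΛ.exists_inv_separating π act'' hcompat x y hne
    refine ⟨f ∘ Function.surjInv hπ, ?_, ?_⟩
    · show (f ∘ Function.surjInv hπ) ∘ π ∈ Λ
      rw [hdesc f hfinv]
      exact hf
    · have h1 := congrFun (hdesc f hfinv) x
      have h2 := congrFun (hdesc f hfinv) y
      simp only [Function.comp_apply] at h1 h2 ⊢
      rw [h1, h2]
      exact hfne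
  · intro g hg
    have hginv : IsInvFun π (g ∘ π) := fun x y hxy => by
      simp only [Function.comp_apply, hxy]
    obtain ⟨n, a, b, ha, hb, hab⟩ := hΛ.comul_inv π (f := g ∘ π) hg hginv
    refine ⟨n, fun k => a k ∘ Function.surjInv hπ, fun k => b k ∘ Function.surjInv hπ,
      fun k => ?_, fun k => ?_, ?_⟩
    · show (a k ∘ Function.surjInv hπ) ∘ π ∈ Λ
      rw [hdesc _ (ha k).2]
      exact (ha k).1
    · show (b k ∘ Function.surjInv hπ) ∘ π ∈ Λ
      rw [hdesc _ (hb k).2]
      exact (hb k).1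
    · intro x'' y''
      obtain ⟨x, rfl⟩ := hπ x''
      obtain ⟨y, rfl⟩ := hπ y''
      have h1 := hab x y
      simp only [Function.comp_apply, map_add] at h1
      rw [h1]
      refine Finset.sum_congr rfl fun k _ => ?_
      have h2 := congrFun (hdesc _ (ha k).2) x
      have h3 := congrFun (hdesc _ (hb k).2) y
      simp only [Function.comp_apply] at h2 h3 ⊢
      rw [h2, h3]

end IsHopfLattice

end Fermat.Agent.S19.H435

end
end
-- ===== PACK-END S19/H435/Quot.lean

-- ===== PACK-BEGIN S55/Bridge/H594/PrimeBelow.lean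
section



/-!
# S55 bridge (helper594): valuation subrings of `ℚ̄` versus primes of `ℤ̄`

For a valuation subring `A` of `ℚ̄` lying over a prime number `q`, the decomposition group of `A`
is the stabiliser of the prime `primeBelow A` of the ring `ℤ̄` of all algebraic integers, and the
inertia group of `A` is the inertia group of `primeBelow A`.
-/

set_option autoImplicit false

namespace Fermat.Agent.S55.Bridge.H594

open Fermat.Agent.S54 Fermat.Agent.S55.Bridge
open scoped Pointwise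

attribute [local instance] isAlgebraic_Qbar isGalois_Qbar

section basic

variable (A : ValuationSubring (AlgebraicClosure ℚ))

/-- Algebraic integers lie in every valuation subring. -/
theorem coe_mem (b : integralClosure ℤ (AlgebraicClosure ℚ)) : (b : AlgebraicClosure ℚ) ∈ A :=
  isIntegral_mem_valuationSubring A b.2

theorem coe_smul (σ : AlgebraicClosure ℚ ≃ₐ[ℚ] AlgebraicClosure ℚ)
    (b : integralClosure ℤ (AlgebraicClosure ℚ)) :
    ((σ • b : integralClosure ℤ (AlgebraicClosure ℚ)) : AlgebraicClosure ℚ) = σ b := rfl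

/-- `σ` stabilises `primeBelow A` iff it preserves membership. -/
theorem smul_primeBelow_eq_iff (σ : AlgebraicClosure ℚ ≃ₐ[ℚ] AlgebraicClosure ℚ) :
    σ • primeBelow A = primeBelow A ↔
      ∀ b : integralClosure ℤ (AlgebraicClosure ℚ), σ • b ∈ primeBelow A ↔ b ∈ primeBelow A := by
  constructor
  · intro h b
    conv_lhs => rw [← h]
    exact Ideal.smul_mem_pointwise_smul_iff
  · intro h
    ext b
    rw [Ideal.mem_pointwise_smul_iff_inv_smul_mem]
    rw [← h (σ⁻¹ • b), smul_inv_smul]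

/-- If `σ` preserves the prime below `A`, it maps `A` into `A`. -/
theorem map_mem_of_smul_primeBelow {q : ℕ} (hq : q.Prime) (hA : A.LiesOverPrime q)
    (τ : AlgebraicClosure ℚ ≃ₐ[ℚ] AlgebraicClosure ℚ)
    (hτ : ∀ b : integralClosure ℤ (AlgebraicClosure ℚ), τ • b ∈ primeBelow A ↔ b ∈ primeBelow A)
    (x : AlgebraicClosure ℚ) (hx : x ∈ A) : τ x ∈ A := by
  obtain ⟨b, s, hb, hs, hsA, hxs⟩ := (mem_valuationSubring_iff A q hq hA x).mp hx
  refine (mem_valuationSubring_iff A q hq hA (τ x)).mpr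
    ⟨τ b, τ s, hb.map τ, hs.map τ, ?_, ?_⟩
  · exact (hτ ⟨s, hs⟩).not.mpr hsA
  · rw [← map_mul, hxs]

/-- The decomposition group of `A` is the stabiliser of the prime of `ℤ̄` below `A`. -/
theorem mem_decompositionSubgroup_iff_smul_primeBelow {q : ℕ} (hq : q.Prime)
    (hA : A.LiesOverPrime q) (σ : AlgebraicClosure ℚ ≃ₐ[ℚ] AlgebraicClosure ℚ) :
    σ ∈ A.decompositionSubgroup ℚ ↔ σ • primeBelow A = primeBelow A := by
  rw [smul_primeBelow_eq_iff]
  constructor
  · intro hσ b
    have h1 := (mem_decompositionSubgroup_iff A σ).mp hσ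
    rw [mem_primeBelow, mem_primeBelow, coe_smul, ValuationSubring.mem_nonunits_iff_or,
      ValuationSubring.mem_nonunits_iff_or, ← map_inv₀, h1, map_eq_zero_iff σ σ.injective]
  · intro hσ
    rw [mem_decompositionSubgroup_iff]
    intro x
    constructor
    · intro hx
      have h2 : ∀ b : integralClosure ℤ (AlgebraicClosure ℚ),
          σ⁻¹ • b ∈ primeBelow A ↔ b ∈ primeBelow A := by
        intro b
        rw [← hσ (σ⁻¹ • b), smul_inv_smul]
      have := map_mem_of_smul_primeBelow A hq hA σ⁻¹ h2 (σ x) hx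
      simpa using this
    · exact map_mem_of_smul_primeBelow A hq hA σ hσ x

/-- An integral element outside the prime below `A` has valuation `1`. -/
theorem valuation_eq_one_of_not_mem_nonunits {s : AlgebraicClosure ℚ} (hs : IsIntegral ℤ s)
    (hsA : s ∉ A.nonunits) : A.valuation s = 1 := by
  have h1 : A.valuation s ≤ 1 :=
    (A.valuation_le_one_iff _).mpr (isIntegral_mem_valuationSubring A hs)
  rw [ValuationSubring.mem_nonunits_iff, not_lt] at hsA
  exact le_antisymm h1 hsA

/-- The inertia group of `A` is the inertia group of the prime of `ℤ̄` below `A`. -/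
theorem mem_inertiaSubgroupIn_iff_primeBelow {q : ℕ} (hq : q.Prime)
    (hA : A.LiesOverPrime q) (σ : AlgebraicClosure ℚ ≃ₐ[ℚ] AlgebraicClosure ℚ) :
    σ ∈ A.inertiaSubgroupIn ℚ ↔
      ∀ b : integralClosure ℤ (AlgebraicClosure ℚ), σ • b - b ∈ primeBelow A := by
  constructor
  · intro hσ b
    exact ((mem_inertiaSubgroupIn_iff A σ).mp hσ).2 b (coe_mem A b)
  · intro hσ
    have hstab : ∀ b : integralClosure ℤ (AlgebraicClosure ℚ),
        σ • b ∈ primeBelow A ↔ b ∈ primeBelow A := by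
      intro b
      constructor
      · intro h
        have := (primeBelow A).sub_mem h (hσ b)
        simpa using this
      · intro h
        have := (primeBelow A).add_mem (hσ b) h
        simpa using this
    have hD : σ ∈ A.decompositionSubgroup ℚ :=
      (mem_decompositionSubgroup_iff_smul_primeBelow A hq hA σ).mpr
        ((smul_primeBelow_eq_iff A σ).mpr hstab)
    rw [mem_inertiaSubgroupIn_iff]
    refine ⟨hD, fun z hz => ?_⟩
    obtain ⟨b, s, hb, hs, hsA, hzs⟩ := (mem_valuationSubring_iff A q hq hA z).mp hz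
    have hs0 : s ≠ 0 := fun h => hsA (h ▸ A.nonunits.zero_mem)
    have hσs0 : σ s ≠ 0 := (map_ne_zero_iff σ σ.injective).mpr hs0
    have hσsA : σ s ∉ A.nonunits := (hstab ⟨s, hs⟩).not.mpr hsA
    have hvs : A.valuation s = 1 := valuation_eq_one_of_not_mem_nonunits A hs hsA
    have hvσs : A.valuation (σ s) = 1 :=
      valuation_eq_one_of_not_mem_nonunits A (hs.map σ) hσsA
    have hz' : z = b / s := by rw [← hzs]; field_simp
    have hnum : (σ b - b) * s - b * (σ s - s) ∈ A.nonunits := by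
      rw [ValuationSubring.mem_nonunits_iff]
      have h1 : A.valuation ((σ b - b) * s) < 1 := by
        rw [map_mul, hvs, mul_one]
        exact (ValuationSubring.mem_nonunits_iff A).mp (hσ ⟨b, hb⟩)
      have h2 : A.valuation (b * (σ s - s)) < 1 := by
        rw [map_mul]
        have hb1 : A.valuation b ≤ 1 :=
          (A.valuation_le_one_iff _).mpr (isIntegral_mem_valuationSubring A hb)
        have hs1 : A.valuation (σ s - s) < 1 :=
          (ValuationSubring.mem_nonunits_iff A).mp (hσ ⟨s, hs⟩)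
        exact mul_lt_one_of_nonneg_of_lt_one_right hb1 zero_le hs1
      exact lt_of_le_of_lt (Valuation.map_sub _ _ _) (max_lt h1 h2)
    have hval : σ z - z = ((σ b - b) * s - b * (σ s - s)) / (s * σ s) := by
      rw [hz', map_div₀]
      field_simp
      ring
    rw [hval, ValuationSubring.mem_nonunits_iff, map_div₀, map_mul, hvs, hvσs, mul_one,
      div_one]
    exact (ValuationSubring.mem_nonunits_iff A).mp hnum

end basic

end Fermat.Agent.S55.Bridge.H594

end
-- ===== PACK-END S55/Bridge/H594/PrimeBelow.lean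

-- ===== PACK-BEGIN S55/G/Rec/Spec2.lean
section


/-!
# S55 / layer G / block REC : leaf statements of the NORM ROUTE  (blueprint §N of coord/S55-G-REC.md)

Goal of the block:  `theorem reciprocity_of (hHP : HassePrincipleSpec p) (I : LocalInvSystem) :
ReciprocitySpec I p`  (p odd).  Every `def XxxSpec : Prop` below is a leaf: prove
`theorem xxx : XxxSpec` in `Fermat/Agent/S55/G/Rec/<Leaf>H<seat>.lean`.

Blocks:  KEY (cup classes),  LOC (local arithmetic in `PadicAlgCl q`),  GLOB (orbits, norms),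
STEP (assembly A, B, C).
-/

set_option autoImplicit false

noncomputable section

namespace Fermat.Agent.S55.G.Rec

open groupCohomology

local notation "Qb" => AlgebraicClosure ℚ
local notation "GQ" => (AlgebraicClosure ℚ ≃ₐ[ℚ] AlgebraicClosure ℚ)

/-! ## Block KEY : cup classes -/

/-- (K1) localisation of a global cup class is the local cup class. -/
def CupLocSpec : Prop :=
  ∀ (q : ℕ) [Fact q.Prime] (g : GQ) (U : Subgroup GQ) (n : ℕ)
    (χ : ↥U →* Multiplicative (ZMod n)) (a : Qbˣ),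
    n ≠ 0 → IsLevelConstant₁ U.subtype χ → GFixed U a →
    (IsLevelConstant₁ (lHom q (locSub q g U)) (χ.comp (locHom q g U)) ∧
      LFixed q (locSub q g U) (locPushMul q g a)) ∧
    locBr q g U (gcc U n χ a) =
      lcc q (locSub q g U) n (χ.comp (locHom q g U)) (locPushMul q g a)

/-- (K2) additivity of cup classes in the element and in the character (global and local). -/
def CupAddSpec : Prop :=
  (∀ (U : Subgroup GQ) (n : ℕ) (χ χ' : ↥U →* Multiplicative (ZMod n)) (a b : Qbˣ),
    n ≠ 0 → IsLevelConstant₁ U.subtype χ → IsLevelConstant₁ U.subtype χ' →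
    GFixed U a → GFixed U b →
      gcc U n χ (a * b) = gcc U n χ a + gcc U n χ b ∧
      gcc U n (χ * χ') a = gcc U n χ a + gcc U n χ' a) ∧
  (∀ (q : ℕ) [Fact q.Prime] (V : Subgroup (PadicAlgCl q ≃ₐ[ℚ_[q]] PadicAlgCl q)) (n : ℕ)
    (χ χ' : ↥V →* Multiplicative (ZMod n)) (a b : (PadicAlgCl q)ˣ),
    n ≠ 0 → IsLevelConstant₁ (lHom q V) χ → IsLevelConstant₁ (lHom q V) χ' →
    LFixed q V a → LFixed q V b →
      lcc q V n χ (a * b) = lcc q V n χ a + lcc q V n χ b ∧
      lcc q V n (χ * χ') a = lcc q V n χ a + lcc q V n χ' a)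

/-- (K4) GLOBAL CYCLIC SPLITTING (inflation–restriction + Hilbert 90 + cyclic periodicity):
a class of `Br(K)` which dies in `Br(L)`, `L/K` cyclic, is a cup class `a ∪ δχ`, where `χ` is
ANY prescribed surjective character with kernel `Gal(ℚ̄/L)`. -/
def CyclicSplitSpec : Prop :=
  ∀ (U : Subgroup GQ), IsOpenQ U → ∀ (n : ℕ) [NeZero n] (χ : ↥U →* Multiplicative (ZMod n)),
    IsLevelConstant₁ U.subtype χ → Function.Surjective χ →
    ∀ x : gBr U, gRes (U := U) (U' := χ.ker.map U.subtype) (Subgroup.map_subtype_le _) x = 0 →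
      ∃ a : Qbˣ, GFixed U a ∧ x = gcc U n χ a

/-- (K5) LOCAL NORM CRITERION (hard direction): if the local cup class `a ∪ δχ` vanishes then `a`
is a norm from the fixed field of `ker χ` (`χ` need not be surjective). -/
def LocalNormSpec : Prop :=
  ∀ (q : ℕ) [Fact q.Prime] (V : Subgroup (PadicAlgCl q ≃ₐ[ℚ_[q]] PadicAlgCl q)),
    IsOpenL q V → ∀ (n : ℕ) [NeZero n] (χ : ↥V →* Multiplicative (ZMod n)),
    IsLevelConstant₁ (lHom q V) χ → ∀ a : (PadicAlgCl q)ˣ, LFixed q V a →
    lcc q V n χ a = 0 →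
      ∃ b : (PadicAlgCl q)ˣ, LFixed q (χ.ker.map V.subtype) b ∧
        a = relNorm (G := ↥V) χ.ker b

/-! ## Block LOC : local arithmetic -/

/-- (L1) `‖a‖ ^ [G_{ℚ_q} : V] = q ^ (- vdeg)` for `a` in the fixed field of an open `V`. -/
def VdegSpec : Prop :=
  ∀ (q : ℕ) [Fact q.Prime] (V : Subgroup (PadicAlgCl q ≃ₐ[ℚ_[q]] PadicAlgCl q)),
    IsOpenL q V → ∀ a : (PadicAlgCl q)ˣ, LFixed q V a →
      ‖(a : PadicAlgCl q)‖ ^ V.index = (q : ℝ) ^ (- vdeg q V a)

/-- (L2) local structure: Frobenius elements and uniformizers exist; `vdeg = f · ord`. -/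
def LocalStructureSpec : Prop :=
  ∀ (q : ℕ) [Fact q.Prime] (V : Subgroup (PadicAlgCl q ≃ₐ[ℚ_[q]] PadicAlgCl q)),
    IsOpenL q V →
      ∃ (f : ℕ) (φ : PadicAlgCl q ≃ₐ[ℚ_[q]] PadicAlgCl q) (π : (PadicAlgCl q)ˣ),
        IsResidueDegree q V f ∧ φ ∈ V ∧
        (∀ x : PadicAlgCl q, ‖x‖ ≤ 1 → ‖φ x - x ^ (q ^ f)‖ < 1) ∧
        IsUniformizer q V (π : PadicAlgCl q) ∧ vdeg q V π = f ∧
        ∀ a : (PadicAlgCl q)ˣ, LFixed q V a →
          ∃ (k : ℤ) (u : (PadicAlgCl q)ˣ), LFixed q V u ∧ ‖(u : PadicAlgCl q)‖ = 1 ∧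
            a = π ^ k * u ∧ vdeg q V a = f * k

/-- (L3) UNRAMIFIED FORMULA: for an unramified continuous character `χ` of `V`, a Frobenius `φ`
with residue degree `f` and `a ∈ K_vˣ`:  `inv (a ∪ δχ) = ord_v(a) · χ(φ) / n`, `vdeg a = f · ord_v a`. -/
def UnramCupSpec (I : LocalInvSystem) : Prop :=
  ∀ (q : ℕ) [Fact q.Prime] (V : Subgroup (PadicAlgCl q ≃ₐ[ℚ_[q]] PadicAlgCl q)),
    IsOpenL q V → ∀ (n : ℕ) [NeZero n] (χ : ↥V →* Multiplicative (ZMod n)),
    IsLevelConstant₁ (lHom q V) χ →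
    (∀ τ : ↥V, IsInertial q (τ : PadicAlgCl q ≃ₐ[ℚ_[q]] PadicAlgCl q) → χ τ = 1) →
    ∀ (f : ℕ), IsResidueDegree q V f →
    ∀ (φ : ↥V), (∀ x : PadicAlgCl q, ‖x‖ ≤ 1 →
      ‖(φ : PadicAlgCl q ≃ₐ[ℚ_[q]] PadicAlgCl q) x - x ^ (q ^ f)‖ < 1) →
    ∀ (a : (PadicAlgCl q)ˣ), LFixed q V a → ∀ k : ℤ, vdeg q V a = f * k →
      I.inv q V (lcc q V n χ a) =
        ((((k : ℚ) * ((chiAdd χ φ).val : ℚ) / (n : ℚ) : ℚ)) : AddCircle (1 : ℚ))

/-- (L4) cyclotomic characters away from `q`: inertial elements act trivially on `μ_m` and a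
Frobenius with residue degree `f` acts by `ζ ↦ ζ ^ (q ^ f)`  (`q ∤ m`). -/
def CycloFrobSpec : Prop :=
  ∀ (q : ℕ) [Fact q.Prime] (m : ℕ), ¬ q ∣ m →
    (∀ τ : PadicAlgCl q ≃ₐ[ℚ_[q]] PadicAlgCl q, IsInertial q τ →
      ∀ ζ : PadicAlgCl q, ζ ^ m = 1 → τ ζ = ζ) ∧
    (∀ (τ : PadicAlgCl q ≃ₐ[ℚ_[q]] PadicAlgCl q) (f : ℕ),
      (∀ x : PadicAlgCl q, ‖x‖ ≤ 1 → ‖τ x - x ^ (q ^ f)‖ < 1) →
      ∀ ζ : PadicAlgCl q, ζ ^ m = 1 → τ ζ = ζ ^ (q ^ f))

/-- (L5) NORMS FROM LOCAL CYCLOTOMIC FIELDS: `ℓ` an odd prime, `m = ℓ ^ e`, `W ≤ G_{ℚ_ℓ}` a subgroup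
containing the group of `ℚ̄_ℓ/ℚ_ℓ(μ_m)`, `b` in the fixed field `E` of `W`.  Then
`N_{E/ℚ_ℓ}(b) = ± ℓ^k · u` with `u ≡ t mod m`, where `t` is the cyclotomic value of some `τ ∈ W`
(`τ ζ = ζ ^ t` on `μ_m`). -/
def LocalCycloNormSpec : Prop :=
  ∀ (ℓ : ℕ) [Fact ℓ.Prime], ℓ ≠ 2 → ∀ (e : ℕ), 0 < e →
    ∀ W : Subgroup (PadicAlgCl ℓ ≃ₐ[ℚ_[ℓ]] PadicAlgCl ℓ),
    (∀ τ : PadicAlgCl ℓ ≃ₐ[ℚ_[ℓ]] PadicAlgCl ℓ,
      (∀ ζ : PadicAlgCl ℓ, ζ ^ (ℓ ^ e) = 1 → τ ζ = ζ) → τ ∈ W) →
    ∀ b : (PadicAlgCl ℓ)ˣ, LFixed ℓ W b →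
      ∃ (k : ℤ) (s : ℤˣ) (t : ℕ) (τ : PadicAlgCl ℓ ≃ₐ[ℚ_[ℓ]] PadicAlgCl ℓ), τ ∈ W ∧
        (∀ ζ : PadicAlgCl ℓ, ζ ^ (ℓ ^ e) = 1 → τ ζ = ζ ^ t) ∧
        ‖((relNorm W b : (PadicAlgCl ℓ)ˣ) : PadicAlgCl ℓ) -
            ((s : ℤ) : PadicAlgCl ℓ) * (ℓ : PadicAlgCl ℓ) ^ k * (t : PadicAlgCl ℓ)‖
          ≤ ‖(ℓ : PadicAlgCl ℓ)‖ ^ (k + e)

/-- (L6) roots of elements close to `1`: `‖a - 1‖ < 1`, `q ∤ n` ⇒ `a` is an `n`-th power in `K_v`. -/
def LocalRootSpec : Prop :=
  ∀ (q : ℕ) [Fact q.Prime] (V : Subgroup (PadicAlgCl q ≃ₐ[ℚ_[q]] PadicAlgCl q))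
    (n : ℕ), ¬ q ∣ n → ∀ a : (PadicAlgCl q)ˣ, LFixed q V a → ‖(a : PadicAlgCl q) - 1‖ < 1 →
      ∃ b : (PadicAlgCl q)ˣ, LFixed q V b ∧ b ^ n = a

/-! ## Block GLOB : orbits, norms, approximation, support -/

/-- (G1) the global norm is rational and is the product of the local norms:
`ι_q (N_{K/ℚ} a) = ∏_{v | q} N_{K_v/ℚ_q} (a_v)`. -/
def OrbitNormSpec : Prop :=
  ∀ (U : Subgroup GQ), IsOpenQ U → ∀ a : Qbˣ, GFixed U a →
    (∃ y : ℚˣ, ((relNorm U a : Qbˣ) : Qb) = algebraMap ℚ Qb (y : ℚ)) ∧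
    ∀ (q : ℕ) [Fact q.Prime] (R : Finset GQ),
      IsDoubleCosetReps U (localGaloisToGlobal q).range R →
        locPushMul q 1 (relNorm U a) = ∏ r ∈ R, relNorm (locSub q r U) (locPushMul q r a)

/-- (G1') product formula in degree-valuation form: `v_q (N_{K/ℚ} a) = ∑_{v | q} vdeg_v (a)`. -/
def ProductFormulaSpec : Prop :=
  ∀ (U : Subgroup GQ), IsOpenQ U → ∀ a : Qbˣ, GFixed U a →
    ∀ y : ℚˣ, ((relNorm U a : Qbˣ) : Qb) = algebraMap ℚ Qb (y : ℚ) →
    ∀ (q : ℕ) [Fact q.Prime] (R : Finset GQ),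
      IsDoubleCosetReps U (localGaloisToGlobal q).range R →
        padicValRat q (y : ℚ) = ∑ r ∈ R, vdeg q (locSub q r U) (locPushMul q r a)

/-- (G3) weak approximation in `K = ℚ̄^U`: prescribed valuations at the places above `p` and
closeness to `1` at the places above another prime `r`. -/
def WeakApproxSpec : Prop :=
  ∀ (U : Subgroup GQ), IsOpenQ U → ∀ (p r : ℕ) [Fact p.Prime] [Fact r.Prime], p ≠ r →
    ∀ (Rp : Finset GQ), IsDoubleCosetReps U (localGaloisToGlobal p).range Rp →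
    ∀ (j : GQ → ℤ), ∃ a : Qbˣ, GFixed U a ∧
      (∀ g ∈ Rp, ∃ (π : (PadicAlgCl p)ˣ) (u : (PadicAlgCl p)ˣ),
        IsUniformizer p (locSub p g U) (π : PadicAlgCl p) ∧ ‖(u : PadicAlgCl p)‖ = 1 ∧
        locPushMul p g a = π ^ (j g) * u) ∧
      (∀ g : GQ, ‖((locPushMul r g a : (PadicAlgCl r)ˣ) : PadicAlgCl r) - 1‖ < 1)

/-- (G4) finiteness of the support (uses only `inv_unram`, `inv_injective`). -/
def SupportFiniteSpec : Prop :=
  LocalInvSystem → ∀ (U : Subgroup GQ), IsOpenQ U → ∀ x : gBr U,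
    {q : Nat.Primes | ∃ g : GQ,
      haveI : Fact (q : ℕ).Prime := ⟨q.2⟩
      locBr (q : ℕ) g U x ≠ 0}.Finite

/-- (G5) localisation commutes with restriction. -/
def LocResSpec : Prop :=
  ∀ (q : ℕ) [Fact q.Prime] (g : GQ) (U U' : Subgroup GQ) (h : U' ≤ U) (x : gBr U),
    locBr q g U' (gRes h x) =
      lRes q (V := locSub q g U) (V' := locSub q g U')
        (fun _ hτ => h hτ) (locBr q g U x)

/-! ## Block STEP : assembly -/

/-- The sum of all local invariants of a global class, for a choice `R` of representatives. -/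
def LocalInvSystem.sumInv (I : LocalInvSystem) (U : Subgroup GQ) (R : Nat.Primes → Finset GQ)
    (x : gBr U) : AddCircle (1 : ℚ) :=
  ∑ᶠ q : Nat.Primes, ∑ r ∈ R q, I.invAt q r U x

/-- `R` is a system of representatives of the places of `ℚ̄^U`. -/
def IsPlaceReps (U : Subgroup GQ) (R : Nat.Primes → Finset GQ) : Prop :=
  ∀ q : Nat.Primes,
    haveI : Fact (q : ℕ).Prime := ⟨q.2⟩
    IsDoubleCosetReps U (localGaloisToGlobal (q : ℕ)).range (R q)

/-- (STEP A) cyclotomic sum formula: for a cup class with a character of odd order `n` which is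
cyclotomic mod `m = ℓ ^ e`, locally trivial at all places above `ℓ`, the sum of the local
invariants vanishes. -/
def CycloSumSpec (I : LocalInvSystem) : Prop :=
  ∀ (U : Subgroup GQ), IsOpenQ U → ∀ (ℓ : ℕ) [Fact ℓ.Prime], ℓ ≠ 2 → ∀ (e : ℕ), 0 < e →
    ∀ (n : ℕ), Odd n → ∀ (χ : ↥U →* Multiplicative (ZMod n)),
    IsLevelConstant₁ U.subtype χ → IsCycloChar U (ℓ ^ e) χ →
    ∀ a : Qbˣ, GFixed U a →
    (∀ g : GQ, locBr ℓ g U (gcc U n χ a) = 0) →
    ∀ R : Nat.Primes → Finset GQ, IsPlaceReps U R → I.sumInv U R (gcc U n χ a) = 0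

/-- (STEP B) classes of `p`-power order which are trivial at the places above `p`. -/
def TrivAbovePSpec (I : LocalInvSystem) (p : ℕ) [Fact p.Prime] : Prop :=
  ∀ (U : Subgroup GQ), IsOpenQ U → ∀ x : gBr U, (∃ k : ℕ, p ^ k • x = 0) →
    (∀ g : GQ, locBr p g U x = 0) →
    ∀ R : Nat.Primes → Finset GQ, IsPlaceReps U R → I.sumInv U R x = 0

/-- (STEP C) killing the components above `p` by a cup class with vanishing sum. -/
def KillAbovePSpec (I : LocalInvSystem) (p : ℕ) [Fact p.Prime] : Prop :=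
  ∀ (U : Subgroup GQ), IsOpenQ U → ∀ x : gBr U, (∃ k : ℕ, p ^ k • x = 0) →
    ∃ y : gBr U, (∃ k : ℕ, p ^ k • y = 0) ∧ (∀ g : GQ, locBr p g U (x - y) = 0) ∧
      ∀ R : Nat.Primes → Finset GQ, IsPlaceReps U R → I.sumInv U R y = 0

end Fermat.Agent.S55.G.Rec

end
end
-- ===== PACK-END S55/G/Rec/Spec2.lean

-- ===== PACK-BEGIN S55/H424/FiniteIndexComap.lean
section


/-!
# Pull-backs of Galois groups of finite subextensions have finite index
-/

set_option autoImplicit false
set_option linter.unusedSectionVars false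
set_option linter.style.haveILetI false

namespace Fermat.Agent.S55.H424

/-- For `r : G → Gal(Ω/k₀)` and `E/k₀` finite, `r⁻¹(Gal(Ω/E))` has finite index in `G`. -/
theorem comap_fixingSubgroup_finiteIndex {G : Type*} [Group G] {k₀ Ω : Type*} [Field k₀]
    [Field Ω] [Algebra k₀ Ω] [Normal k₀ Ω] (r : G →* (Ω ≃ₐ[k₀] Ω))
    (E : IntermediateField k₀ Ω) [FiniteDimensional k₀ E] :
    (E.fixingSubgroup.comap r).FiniteIndex := by
  let M : IntermediateField k₀ Ω := IntermediateField.normalClosure k₀ E Ω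
  haveI : FiniteDimensional k₀ M := normalClosure.is_finiteDimensional k₀ E Ω
  haveI : Normal k₀ M := normalClosure.normal k₀ E Ω
  haveI : Finite (M ≃ₐ[k₀] M) := inferInstance
  let ψ : G →* (M ≃ₐ[k₀] M) := (AlgEquiv.restrictNormalHom (F := k₀) (K₁ := Ω) M).comp r
  haveI : ψ.ker.FiniteIndex := Subgroup.finiteIndex_ker ψ
  refine Subgroup.finiteIndex_of_le (H := ψ.ker) ?_
  intro g hg
  rw [Subgroup.mem_comap]
  have h1 : r g ∈ (AlgEquiv.restrictNormalHom (F := k₀) (K₁ := Ω) M).ker := hg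
  rw [IntermediateField.restrictNormalHom_ker] at h1
  exact IntermediateField.fixingSubgroup_le (IntermediateField.le_normalClosure E) h1

end Fermat.Agent.S55.H424

end
-- ===== PACK-END S55/H424/FiniteIndexComap.lean

-- ===== PACK-BEGIN S55/Inv/WrH413/Zeta.lean
section





/-!
# S55 / INV-WR (helper413), part 3: the coefficient maps `ZMod p → ℚ̄ˣ → ℚ̄_qˣ`

`kap p : ZMod p →+ Additive ℚ̄ˣ`, `a ↦ ζ ^ a` (`ζ` a primitive `p`-th root of unity): injective,
onto the `p`-torsion, equivariant for the mod `p` cyclotomic character.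
`lamq p q : ZMod p →+ Additive ℚ̄_qˣ` : its composition with `padicEmbedding q`.
-/

set_option autoImplicit false
set_option linter.style.haveILetI false

namespace Fermat.Agent.S55.Inv.H413

open ExtCitation

local notation "Qb" => AlgebraicClosure ℚ
local notation "GQ" => (AlgebraicClosure ℚ ≃ₐ[ℚ] AlgebraicClosure ℚ)

section Global

variable (p : ℕ) [Fact p.Prime]

/-- The coefficient map `ZMod p → ℚ̄ˣ`, `a ↦ ζ ^ a`. -/
noncomputable def kap : ZMod p →+ Additive Qbˣ :=
  (MonoidHom.toAdditive (Subgroup.subtype (rootsOfUnity p Qb))).comp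
    (Bridge.muPLinearEquiv p).toLinearMap.toAddMonoidHom

/-- the value of `kap` as an element of `ℚ̄` -/
noncomputable def kapV (a : ZMod p) : Qb := ((Additive.toMul (kap p a) : Qbˣ) : Qb)

lemma kapV_eq (a : ZMod p) :
    kapV p a = (((Bridge.muPLinearEquiv p a).root : Qbˣ) : Qb) := rfl

lemma kap_injective : Function.Injective (kap p) := by
  intro a a' h
  apply (Bridge.muPLinearEquiv p).injective
  apply Bridge.MuP.root_injective
  apply Subtype.ext
  exact h

lemma kap_pow (a : ZMod p) : (Additive.toMul (kap p a) : Qbˣ) ^ p = 1 := by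
  have h := (mem_rootsOfUnity p _).1 ((Bridge.muPLinearEquiv p a).root).2
  exact h

lemma kap_surj (z : Qbˣ) (hz : z ^ p = 1) : ∃ a, kap p a = Additive.ofMul z := by
  have hmem : z ∈ rootsOfUnity p Qb := (mem_rootsOfUnity p z).2 hz
  refine ⟨(Bridge.muPLinearEquiv p).symm (Bridge.MuP.of p ⟨z, hmem⟩), ?_⟩
  show Additive.ofMul ((((Bridge.muPLinearEquiv p)
    ((Bridge.muPLinearEquiv p).symm (Bridge.MuP.of p ⟨z, hmem⟩))).root : Qbˣ)) = Additive.ofMul z
  rw [LinearEquiv.apply_symm_apply]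
  rfl

lemma kapV_equivariant (σ : GQ) (a : ZMod p) :
    kapV p (((cycloChar p σ : (ZMod p)ˣ) : ZMod p) * a) = σ (kapV p a) := by
  rw [kapV_eq, kapV_eq, ← Bridge.muPRep_apply, Bridge.muPRep_apply_smul, ← smul_eq_mul,
    map_smul]

end Global

section Local

variable (p : ℕ) [Fact p.Prime] (q : ℕ) [Fact q.Prime]

local notation "Ω" => PadicAlgCl q
local notation "Gq" => (PadicAlgCl q ≃ₐ[ℚ_[q]] PadicAlgCl q)

/-- The coefficient map `ZMod p → ℚ̄_qˣ`. -/
noncomputable def lamq : ZMod p →+ Additive Ωˣ :=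
  (MonoidHom.toAdditive (Units.map ((padicEmbedding q : Qb →ₐ[ℚ] Ω) : Qb →* Ω))).comp (kap p)

lemma lamq_val (a : ZMod p) :
    ((Additive.toMul (lamq p q a) : Ωˣ) : Ω) = padicEmbedding q (kapV p a) := rfl

lemma lamq_injective : Function.Injective (lamq p q) := by
  intro a a' h
  apply kap_injective p
  apply Additive.toMul.injective
  apply Units.ext
  have hinj : Function.Injective (padicEmbedding q) := (padicEmbedding q).injective
  apply hinj
  have := congrArg (fun m : Additive Ωˣ => ((Additive.toMul m : Ωˣ) : Ω)) h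
  exact this

lemma lamq_surj (z : Ωˣ) (hz : z ^ p = 1) : ∃ a, lamq p q a = Additive.ofMul z := by
  have hp0 : p ≠ 0 := (Fact.out : p.Prime).ne_zero
  have hz' : (z : Ω) ^ p = 1 := by
    rw [← Units.val_pow_eq_pow_val, hz, Units.val_one]
  obtain ⟨w, hw⟩ := Bridge.mem_range_padicEmbedding_of_root q
    (Polynomial.X ^ p - 1 : Polynomial ℚ) (Polynomial.X_pow_sub_C_ne_zero
      (Nat.pos_of_ne_zero hp0) 1) (z : Ω) (by simp [hz'])
  have hinj : Function.Injective (padicEmbedding q) := (padicEmbedding q).injective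
  have hwp : w ^ p = 1 := by
    apply hinj
    rw [map_pow, hw, hz', map_one]
  have hw0 : w ≠ 0 := by
    rintro rfl
    rw [zero_pow hp0] at hwp
    exact zero_ne_one hwp
  obtain ⟨a, ha⟩ := kap_surj p (Units.mk0 w hw0) (by
    apply Units.ext
    rw [Units.val_pow_eq_pow_val, Units.val_mk0, hwp, Units.val_one])
  refine ⟨a, ?_⟩
  apply Additive.toMul.injective
  apply Units.ext
  rw [lamq_val]
  have : kapV p a = w := by
    unfold kapV
    rw [ha]
    rfl
  rw [this, hw]
  rfl

lemma lamq_equivariant (g : Gq) (a : ZMod p) :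
    ((Additive.toMul (lamq p q (((cycloChar p (localGaloisToGlobal q g) : (ZMod p)ˣ) : ZMod p)
      * a)) : Ωˣ) : Ω) = g ((Additive.toMul (lamq p q a) : Ωˣ) : Ω) := by
  rw [lamq_val, lamq_val, kapV_equivariant, padicEmbedding_localGaloisToGlobal]

lemma norm_lamq (a : ZMod p) (σ : GQ) : ‖padicEmbedding q (σ (kapV p a))‖ = 1 := by
  have hp0 : p ≠ 0 := (Fact.out : p.Prime).ne_zero
  have h1 : (padicEmbedding q (σ (kapV p a))) ^ p = 1 := by
    rw [← map_pow, ← map_pow]
    have : kapV p a ^ p = 1 := by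
      unfold kapV
      rw [← Units.val_pow_eq_pow_val, kap_pow, Units.val_one]
    rw [this, map_one, map_one]
  have h2 : ‖padicEmbedding q (σ (kapV p a))‖ ^ p = 1 := by
    rw [← norm_pow, h1, norm_one]
  exact (pow_eq_one_iff_of_nonneg (norm_nonneg _) hp0).1 h2

end Local

end Fermat.Agent.S55.Inv.H413

end
-- ===== PACK-END S55/Inv/WrH413/Zeta.lean

-- ===== PACK-BEGIN S55/H713/Hilbert90.lean
section


/-!
# Hilbert's theorem 90 for cyclic extensions, multiplicative form
-/

set_option autoImplicit false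
set_option linter.unusedSectionVars false

namespace Fermat.Agent.S55.H713

open groupCohomology

variable {F E : Type*} [Field F] [Field E] [Algebra F E] [FiniteDimensional F E]

/-- partial norms `∏_{i<j} σ^i x`. -/
noncomputable def partNorm (σ : Gal(E/F)) (x : Eˣ) (j : ℕ) : Eˣ :=
  ∏ i ∈ Finset.range j, actU (σ ^ i) x

lemma partNorm_add (σ : Gal(E/F)) (x : Eˣ) (j l : ℕ) :
    partNorm σ x (j + l) = partNorm σ x j * actU (σ ^ j) (partNorm σ x l) := by
  induction l with
  | zero => simp [partNorm]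
  | succ l ih =>
    rw [← add_assoc, partNorm, Finset.prod_range_succ, ← partNorm, ih]
    have : partNorm σ x (l + 1) = partNorm σ x l * actU (σ ^ l) x := by
      rw [partNorm, Finset.prod_range_succ]; rfl
    rw [this, map_mul, ← actU_mul, ← pow_add, mul_assoc]

lemma partNorm_orderOf (σ : Gal(E/F)) (hσ : ∀ g, g ∈ Subgroup.zpowers σ) (x : Eˣ) :
    partNorm σ x (orderOf σ) = normU Gal(E/F) x := by
  classical
  rw [normU_apply, partNorm, ← IsCyclic.image_range_orderOf hσ,
    Finset.prod_image]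
  intro i hi j hj hij
  exact pow_injOn_Iio_orderOf (by simpa using hi) (by simpa using hj) hij

lemma partNorm_add_mul_orderOf (σ : Gal(E/F)) (hσ : ∀ g, g ∈ Subgroup.zpowers σ) (x : Eˣ)
    (hx : normU Gal(E/F) x = 1) (j q : ℕ) :
    partNorm σ x (j + q * orderOf σ) = partNorm σ x j := by
  induction q with
  | zero => simp
  | succ q ih =>
    have : j + (q + 1) * orderOf σ = (j + q * orderOf σ) + orderOf σ := by ring
    rw [this, partNorm_add, partNorm_orderOf σ hσ, hx, map_one, mul_one, ih]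

lemma partNorm_congr (σ : Gal(E/F)) (hσ : ∀ g, g ∈ Subgroup.zpowers σ) (x : Eˣ)
    (hx : normU Gal(E/F) x = 1) {j l : ℕ} (h : σ ^ j = σ ^ l) :
    partNorm σ x j = partNorm σ x l := by
  wlog hjl : j ≤ l generalizing j l
  · exact (this h.symm (le_of_not_ge hjl)).symm
  rw [pow_eq_pow_iff_modEq] at h
  obtain ⟨q, hq⟩ := (Nat.modEq_iff_dvd' hjl).1 h
  have : l = j + q * orderOf σ := by
    have := Nat.sub_add_cancel hjl
    rw [hq] at this
    rw [← this]; ring
  rw [this, partNorm_add_mul_orderOf σ hσ x hx]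

lemma smul_units_eq_actU (g : Gal(E/F)) (y : Eˣ) : g • y = actU g y := by
  ext
  rfl

/-- **Hilbert 90**, cyclic form. -/
theorem hilbert90_cyclic (σ : Gal(E/F)) (hσ : ∀ g, g ∈ Subgroup.zpowers σ) (x : Eˣ)
    (hx : normU Gal(E/F) x = 1) : ∃ y : Eˣ, sigmaSubOne σ y = x := by
  have hpow : ∀ g : Gal(E/F), ∃ j : ℕ, σ ^ j = g := by
    intro g
    have h := hσ g
    rw [← (isOfFinOrder_of_finite σ).mem_powers_iff_mem_zpowers] at h
    exact (Submonoid.mem_powers_iff _ _).1 h
  choose j hj using hpow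
  have hcoc : IsMulCocycle₁ (fun g : Gal(E/F) => partNorm σ x (j g)) := by
    intro g h
    have h1 : partNorm σ x (j (g * h)) = partNorm σ x (j g + j h) :=
      partNorm_congr σ hσ x hx (by rw [hj, pow_add, hj, hj])
    show partNorm σ x (j (g * h)) = g • partNorm σ x (j h) * partNorm σ x (j g)
    rw [h1, partNorm_add, hj, smul_units_eq_actU, mul_comm]
  obtain ⟨y, hy⟩ := isMulCoboundary₁_of_isMulCocycle₁_of_aut_to_units _ hcoc
  refine ⟨y, ?_⟩
  have h1 : σ • y / y = partNorm σ x (j σ) := hy σ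
  have h2 : partNorm σ x (j σ) = partNorm σ x 1 :=
    partNorm_congr σ hσ x hx (by rw [hj, pow_one])
  rw [h2] at h1
  rw [sigmaSubOne_apply, ← smul_units_eq_actU, h1]
  simp [partNorm, actU_one]

end Fermat.Agent.S55.H713

end
-- ===== PACK-END S55/H713/Hilbert90.lean

-- ===== PACK-BEGIN S55/L/ClassModule.lean
section


/-!
# S55, layer L: transport to subgroups and the class-module statement

* `transportIso` : for `H ≤ Gal(L/K)` with fixed field `F`, `Hⁿ(H, Lˣ) ≅ Hⁿ(Gal(L/F), Lˣ)`.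
* `classModule_of` : `H2CyclicSpec → FiniteExtSpec → ClassModuleSpec`.
-/

set_option autoImplicit false
set_option linter.style.haveILetI false

namespace Fermat.Agent.S55.L

open groupCohomology CategoryTheory

variable (K L : Type) [Field K] [Field L] [Algebra K L] [FiniteDimensional K L]

/-- **L-TR** The cohomology of a subgroup `H ≤ Gal(L/K)` with coefficients in `Lˣ` is the
cohomology of `Gal(L/F)`, `F` the fixed field of `H`. -/
noncomputable def transportIso (H : Subgroup (L ≃ₐ[K] L)) (n : ℕ) :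
    groupCohomology (Rep.res H.subtype (unitsRep K L)) n ≅
      groupCohomology (unitsRep (IntermediateField.fixedField H) L) n :=
  groupCohomology.mapIso (IntermediateField.subgroupEquivAlgEquiv H)
    (LinearEquiv.refl ℤ _) (fun _ => rfl) n

/-- Additive version of `transportIso`. -/
noncomputable def transportAddEquiv (H : Subgroup (L ≃ₐ[K] L)) (n : ℕ) :
    groupCohomology (Rep.res H.subtype (unitsRep K L)) n ≃+
      groupCohomology (unitsRep (IntermediateField.fixedField H) L) n :=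
  (transportIso K L H n).toLinearEquiv.toAddEquiv

/-- **L-CM** from the cyclicity of `H²` for all finite Galois extensions of local fields. -/
theorem classModule_of (h2 : H2CyclicSpec) (h1 : FiniteExtSpec) : ClassModuleSpec := by
  intro K L _ _ _ _ _ _ H
  haveI : IsLocalFld (IntermediateField.fixedField H) :=
    h1 K (IntermediateField.fixedField H)
  haveI : IsGalois (IntermediateField.fixedField H) L := IsGalois.tower_top_of_isGalois K _ L
  constructor
  · haveI : Subsingleton (H1 (unitsRep (IntermediateField.fixedField H) L)) :=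
      (inferInstance : Subsingleton (H1 (Rep.ofAlgebraAutOnUnits (IntermediateField.fixedField H) L)))
    exact (transportAddEquiv K L H 1).toEquiv.subsingleton
  · obtain ⟨e⟩ := h2 (IntermediateField.fixedField H) L
    rw [IntermediateField.finrank_fixedField_eq_card] at e
    exact ⟨(transportAddEquiv K L H 2).trans e⟩

end Fermat.Agent.S55.L

end
-- ===== PACK-END S55/L/ClassModule.lean

-- ===== PACK-BEGIN S55/G/LocH897/Coh.lean
section



/-!
# S55 / layer G / leaf G-LOC (helper897), part 2: cohomology of semi-local unit groups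

* `semilocal_bijective` : **semi-local Shapiro** (recognition form, several subgroups).  If
  `B : Rep k G`, subgroups `S i ≤ G`, `A i : Rep k (S i)` and `π i : Res_{S i} B ⟶ A i`
  (`i : ι` finite) are such that `b ↦ (g ↦ π i (g • b))ᵢ` is a bijection of `B` onto
  `∏ᵢ Coind_{S i}^G (A i)`, then
  `Hⁿ(G, B) → ∏ᵢ Hⁿ(S i, A i)`, `x ↦ (π i ∘ res x)ᵢ` is bijective.
  (From the T-layer specs `ShapiroExplicitSpec` and `FiniteProdSpec`.)
* `resUnitsRepr φ I` : `(R ⧸ I)ˣ` as a representation of the decomposition group of `I`;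
* `locProj` : the localisation morphism `Res_{D} Rˣ ⟶ (R ⧸ I)ˣ`;
* `gLoc_bijective` : **G-LOC**: for a reduced Artinian ring `R` with `G`-action and maximal ideals
  `𝔪 i` representing the `G`-orbits on the maximal spectrum, the localisation maps give a
  bijection `Hⁿ(G, Rˣ) → ∏ᵢ Hⁿ(D_{𝔪 i}, (R ⧸ 𝔪 i)ˣ)`.
-/

set_option autoImplicit false

open CategoryTheory groupCohomology

namespace Fermat.Agent.S55.G.LocH897

open Fermat.Agent.S55

/-! ### Semi-local Shapiro -/

section Semilocal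

variable {k G : Type} [CommRing k] [Group G]

/-- `Hⁿ(S, π) = Hⁿ(G, π̃) ≫ sh`, where `π̃ : B ⟶ Coind A` is the adjoint of `π : Res B ⟶ A`. -/
lemma map_eq_coeffMap_comp (S : Subgroup G) (A : Rep.{0} k S) (B : Rep.{0} k G)
    (π : Rep.res S.subtype B ⟶ A) (n : ℕ) :
    groupCohomology.map S.subtype π n =
      T.coeffMap (Rep.resCoindToHom S.subtype B A π) n ≫
        groupCohomology.map S.subtype (T.coindEv S A) n := by
  rw [← groupCohomology.map_comp]
  have h : (Rep.resFunctor S.subtype).map (Rep.resCoindToHom S.subtype B A π) ≫ T.coindEv S A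
      = π := by
    have h1 := (Rep.resCoindAdjunction k S.subtype).homEquiv_counit
      (X := B) (Y := A) (g := Rep.resCoindToHom S.subtype B A π)
    rw [T.coindEv, ← h1]
    exact ((Rep.resCoindAdjunction k S.subtype).homEquiv B A).symm_apply_apply π
  exact groupCohomology.map_congr rfl (by rw [h]) n

/-- **Semi-local Shapiro** (recognition form, several subgroups). -/
theorem semilocal_bijective (h8 : T.ShapiroExplicitSpec) (h9 : T.FiniteProdSpec)
    (ι : Type) [Finite ι] (S : ι → Subgroup G)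
    (A : ∀ i, Rep.{0} k (S i)) (B : Rep.{0} k G) (π : ∀ i, Rep.res (S i).subtype B ⟶ A i)
    (hrec : ∀ f : ∀ i, G → (A i).V,
      (∀ i (s : S i) (g : G), f i (s * g) = (A i).ρ s (f i g)) →
      ∃! b : B.V, ∀ i g, (π i).hom (B.ρ g b) = f i g) (n : ℕ) :
    Function.Bijective (fun (x : groupCohomology B n) (i : ι) =>
      (groupCohomology.map (S i).subtype (π i) n).hom x) := by
  -- the adjoint maps `p i : B ⟶ Coind (A i)`
  set p : ∀ i, B ⟶ Rep.coind (S i).subtype (A i) :=
    fun i => Rep.resCoindToHom (S i).subtype B (A i) (π i) with hp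
  have hpb : Function.Bijective (fun (c : B.V) (i : ι) => (p i).hom c) := by
    constructor
    · intro b b' hbb'
      have hcond : ∀ i (s : S i) (g : G),
          (π i).hom (B.ρ (s * g) b') = (A i).ρ s ((π i).hom (B.ρ g b')) := by
        intro i s g
        rw [map_mul]
        exact Rep.hom_comm_apply (π i) s (B.ρ g b')
      obtain ⟨c, -, hc⟩ := hrec (fun i g => (π i).hom (B.ρ g b')) hcond
      rw [hc b' (fun _ _ => rfl)]
      refine hc b (fun i g => ?_)
      have := congrArg (fun y : ↥(Representation.coindV (S i).subtype (A i).ρ) => y.1 g)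
        (congrFun hbb' i)
      exact this
    · intro y
      obtain ⟨b, hb, -⟩ := hrec (fun i g => (y i).1 g) (fun i s g => (y i).2 s g)
      refine ⟨b, funext fun i => Subtype.ext (funext fun g => ?_)⟩
      exact hb i g
  have h1 := h9 k G ι (fun i => Rep.coind (S i).subtype (A i)) B p hpb n
  have h2 : Function.Bijective
      (fun (z : ∀ i, groupCohomology (Rep.coind (S i).subtype (A i)) n) (i : ι) =>
        (groupCohomology.map (S i).subtype (T.coindEv (S i) (A i)) n).hom (z i)) := by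
    constructor
    · intro z z' hzz'
      funext i
      exact (h8 k G (S i) (A i) n).1 (congrFun hzz' i)
    · intro w
      choose z hz using fun i => (h8 k G (S i) (A i) n).2 (w i)
      exact ⟨z, funext hz⟩
  have hcomp : (fun (x : groupCohomology B n) (i : ι) =>
      (groupCohomology.map (S i).subtype (π i) n).hom x) =
      (fun (z : ∀ i, groupCohomology (Rep.coind (S i).subtype (A i)) n) (i : ι) =>
        (groupCohomology.map (S i).subtype (T.coindEv (S i) (A i)) n).hom (z i)) ∘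
      (fun (x : groupCohomology B n) (i : ι) => (T.coeffMap (p i) n).hom x) := by
    funext x i
    rw [map_eq_coeffMap_comp]
    rfl
  rw [hcomp]
  exact h2.comp h1

end Semilocal

/-! ### Unit groups of residue rings as representations of decomposition groups -/

section Units

variable {G R : Type} [Group G] [CommRing R]

/-- The `ℤ`-linear representation of `G` on `Additive Rˣ` attached to `φ : G →* (R ≃+* R)`. -/
def uRepr (φ : G →* (R ≃+* R)) : Representation ℤ G (Additive Rˣ) where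
  toFun g := (MonoidHom.toAdditive (Units.map ((φ g : R ≃+* R) : R →* R))).toIntLinearMap
  map_one' := by
    refine LinearMap.ext fun x => ?_
    have h : Units.map ((φ 1 : R ≃+* R) : R →* R) x.toMul = x.toMul := Units.ext (by simp)
    exact congrArg Additive.ofMul h
  map_mul' g h := by
    refine LinearMap.ext fun x => ?_
    have h : Units.map ((φ (g * h) : R ≃+* R) : R →* R) x.toMul =
        Units.map ((φ g : R ≃+* R) : R →* R) (Units.map ((φ h : R ≃+* R) : R →* R) x.toMul) :=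
      Units.ext (by simp)
    exact congrArg Additive.ofMul h

lemma coe_uRepr_apply (φ : G →* (R ≃+* R)) (g : G) (x : Additive Rˣ) :
    (((uRepr φ g x).toMul : Rˣ) : R) = φ g ((x.toMul : Rˣ) : R) := rfl

variable (φ : G →* (R ≃+* R))

/-- `(R ⧸ I)ˣ` (additively) as a representation of the decomposition group of `I`. -/
def resUnitsRepr (I : Ideal R) : Representation ℤ (_root_.Fermat.Agent.S55.G.LocH897.decomp φ I) (Additive (R ⧸ I)ˣ) :=
  uRepr (resAut φ I)

lemma coe_resUnitsRepr_apply (I : Ideal R) (s : _root_.Fermat.Agent.S55.G.LocH897.decomp φ I) (x : Additive (R ⧸ I)ˣ) :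
    (((resUnitsRepr φ I s x).toMul : (R ⧸ I)ˣ) : R ⧸ I) =
      resAut φ I s ((x.toMul : (R ⧸ I)ˣ) : R ⧸ I) := rfl

/-- `(R ⧸ I)ˣ` as an object of `Rep ℤ (decomp φ I)`. -/
abbrev ResUnitsRep (I : Ideal R) : Rep.{0} ℤ (_root_.Fermat.Agent.S55.G.LocH897.decomp φ I) := Rep.of (resUnitsRepr φ I)

variable (ρ : Representation ℤ G (Additive Rˣ))
  (hρ : ∀ (g : G) (x : Additive Rˣ), (((ρ g x).toMul : Rˣ) : R) = φ g ((x.toMul : Rˣ) : R))

/-- The reduction map `Rˣ → (R ⧸ I)ˣ`, additively. -/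
def locLin (I : Ideal R) : Additive Rˣ →ₗ[ℤ] Additive (R ⧸ I)ˣ :=
  (MonoidHom.toAdditive (Units.map ((Ideal.Quotient.mk I : R →+* R ⧸ I) : R →* R ⧸ I))).toIntLinearMap

lemma coe_locLin_apply (I : Ideal R) (x : Additive Rˣ) :
    (((locLin I x).toMul : (R ⧸ I)ˣ) : R ⧸ I) = Ideal.Quotient.mk I ((x.toMul : Rˣ) : R) := rfl

/-- The localisation morphism `Res_{D_I} Rˣ ⟶ (R ⧸ I)ˣ` of representations of the decomposition
group `D_I`. -/
def locProj (I : Ideal R) : Rep.res (_root_.Fermat.Agent.S55.G.LocH897.decomp φ I).subtype (Rep.of ρ) ⟶ ResUnitsRep φ I :=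
  Rep.ofHom
    { toLinearMap := locLin I
      isIntertwining' := fun s => by
        refine LinearMap.ext fun x => ?_
        apply Additive.toMul.injective
        apply Units.ext
        show (((locLin I (ρ (s : G) x)).toMul : (R ⧸ I)ˣ) : R ⧸ I) =
          (((resUnitsRepr φ I s (locLin I x)).toMul : (R ⧸ I)ˣ) : R ⧸ I)
        rw [coe_locLin_apply, hρ, coe_resUnitsRepr_apply, coe_locLin_apply, resAut_mk] }

lemma locProj_hom_apply (I : Ideal R) (x : Additive Rˣ) :
    (locProj φ ρ hρ I).hom x = locLin I x := rfl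

/-- **G-LOC.**  For a reduced Artinian ring `R` with an action `φ` of `G` and maximal ideals
`𝔪 i` (`i : ι`) representing the `G`-orbits on the maximal spectrum, the localisation maps
(restriction to the decomposition group followed by reduction modulo `𝔪 i`) induce a bijection
`Hⁿ(G, Rˣ) → ∏ᵢ Hⁿ(D_{𝔪 i}, (R ⧸ 𝔪 i)ˣ)`. -/
theorem gLoc_bijective (h8 : T.ShapiroExplicitSpec) (h9 : T.FiniteProdSpec)
    [IsArtinianRing R] [IsReduced R] {ι : Type} [Finite ι] (𝔪 : ι → Ideal R)
    (hmax𝔪 : ∀ i, (𝔪 i).IsMaximal)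
    (hcover : ∀ 𝔫 : Ideal R, 𝔫.IsMaximal → ∃ i g, ∀ x, x ∈ 𝔫 ↔ φ g x ∈ 𝔪 i)
    (hdisj : ∀ i j g, (∀ x, x ∈ 𝔪 j ↔ φ g x ∈ 𝔪 i) → i = j) (n : ℕ) :
    Function.Bijective (fun (x : groupCohomology (Rep.of ρ) n) (i : ι) =>
      (groupCohomology.map (_root_.Fermat.Agent.S55.G.LocH897.decomp φ (𝔪 i)).subtype (locProj φ ρ hρ (𝔪 i)) n).hom x) := by
  refine semilocal_bijective h8 h9 ι (fun i => _root_.Fermat.Agent.S55.G.LocH897.decomp φ (𝔪 i))
    (fun i => ResUnitsRep φ (𝔪 i)) (Rep.of ρ) (fun i => locProj φ ρ hρ (𝔪 i)) ?_ n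
  intro f hf
  obtain ⟨b, hb, hbu⟩ := existsUnique_units φ 𝔪 hmax𝔪 hcover hdisj
    (fun i g => (f i g).toMul) (fun i s g => by
      have := congrArg (fun y : Additive (R ⧸ 𝔪 i)ˣ => ((y.toMul : (R ⧸ 𝔪 i)ˣ) : R ⧸ 𝔪 i))
        (hf i s g)
      exact this)
  refine ⟨Additive.ofMul b, fun i g => ?_, fun c hc => ?_⟩
  · apply Additive.toMul.injective
    apply Units.ext
    show (((locLin (𝔪 i) (ρ g (Additive.ofMul b))).toMul : (R ⧸ 𝔪 i)ˣ) : R ⧸ 𝔪 i) = _
    rw [coe_locLin_apply, hρ]
    exact hb i g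
  · apply Additive.toMul.injective
    refine hbu c.toMul fun i g => ?_
    have := congrArg (fun y : Additive (R ⧸ 𝔪 i)ˣ => ((y.toMul : (R ⧸ 𝔪 i)ˣ) : R ⧸ 𝔪 i))
      (hc i g)
    have h2 : (((locLin (𝔪 i) (ρ g c)).toMul : (R ⧸ 𝔪 i)ˣ) : R ⧸ 𝔪 i) =
        ((Additive.toMul (α := (R ⧸ 𝔪 i)ˣ) (f i g) : (R ⧸ 𝔪 i)ˣ) : R ⧸ 𝔪 i) := this
    rw [coe_locLin_apply, hρ] at h2
    exact h2

/-- **G-LOC** with the canonical orbit representatives `orbitRep φ`. -/
theorem gLoc_bijective_orbitRep (h8 : T.ShapiroExplicitSpec) (h9 : T.FiniteProdSpec)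
    [IsArtinianRing R] [IsReduced R] (n : ℕ) :
    Function.Bijective (fun (x : groupCohomology (Rep.of ρ) n) (o : OrbitIdx φ) =>
      (groupCohomology.map (_root_.Fermat.Agent.S55.G.LocH897.decomp φ (orbitRep φ o)).subtype
        (locProj φ ρ hρ (orbitRep φ o)) n).hom x) :=
  gLoc_bijective φ ρ hρ h8 h9 (orbitRep φ) (orbitRep_isMaximal φ) (orbitRep_cover φ)
    (orbitRep_disj φ) n

end Units

end Fermat.Agent.S55.G.LocH897

end
-- ===== PACK-END S55/G/LocH897/Coh.lean

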