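import Mathlib
import Fermat.Prelude.Def_EllipticCurve_FrobeniusTrace
import Fermat.Prelude.Def_GaloisRep_Residual
import Fermat.Agent.Pack.S56.E0L1
import Fermat.Agent.Pack.S56.E3L3
import Fermat.Agent.Pack.S56.E4L3
import Fermat.Agent.Pack.S56.E4L1
import Fermat.Agent.Pack.S56.E4L2
import Fermat.Agent.Pack.S56.E5L3
import Fermat.Agent.Pack.S56.E5L2
import Fermat.Agent.Pack.S56.E5L1
import Fermat.Agent.Pack.S56.E5L0
import Fermat.Agent.Pack.S56.E3L1

-- ===== PACK-BEGIN Lib/Cheb/H476/FrobConj.lean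
section







/-!
# Frobenius elements at a prime form one conjugacy class modulo inertia

For a prime number `ℓ`:

* `exists_smul_eq` : `Gal(ℚ̄/ℚ)` acts transitively on the valuation subrings of `ℚ̄` over `ℓ`;
* `isFrobeniusAt_iff`, `mem_inertiaSubgroupIn_iff'` : elementwise descriptions;
* `isFrobeniusAt_conj`, `conj_mem_inertia` : conjugation;
* `mul_inv_mem_inertia_of_isFrobeniusAt` : two Frobenius elements at `A` differ by inertia;
* `exists_conj_of_isFrobeniusAt` : any two Frobenius elements at (possibly different) valuation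
  subrings over `ℓ` are conjugate modulo inertia;
* consequences for homomorphisms: `map_inertia_eq_one_of_liesOver` (unramified at one valuation
  subring over `ℓ` ⇒ unramified at all of them), `charpoly_eq_of_isFrobeniusAt`
  (for `ResidualGaloisRep`, unramified at `ℓ`: the characteristic polynomial of Frobenius at `ℓ`
  is well defined).
-/

set_option autoImplicit false
set_option linter.style.haveILetI false

open scoped Pointwise

namespace Fermat.Agent.Lib.Cheb.H476

open Fermat.Agent.Lib.Cheb.Spec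

/-! ### Elementwise descriptions -/

theorem mem_smul_iff (g : GQ) (A : ValuationSubring Qb) (x : Qb) :
    x ∈ g • A ↔ g⁻¹ x ∈ A := by
  rw [ValuationSubring.mem_pointwise_smul_iff_inv_smul_mem]
  rfl

theorem apply_inv_apply (g : GQ) (x : Qb) : g (g⁻¹ x) = x := by
  show (g * g⁻¹) x = x
  rw [mul_inv_cancel]
  rfl

theorem inv_apply_apply (g : GQ) (x : Qb) : g⁻¹ (g x) = x := by
  show (g⁻¹ * g) x = x
  rw [inv_mul_cancel]
  rfl

theorem mem_nonunits_iff_or (A : ValuationSubring Qb) (x : Qb) :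
    x ∈ A.nonunits ↔ x = 0 ∨ x⁻¹ ∉ A :=
  A.mem_nonunits_iff_or

theorem mem_nonunits_smul_iff (g : GQ) (A : ValuationSubring Qb) (x : Qb) :
    x ∈ (g • A).nonunits ↔ g⁻¹ x ∈ A.nonunits := by
  rw [mem_nonunits_iff_or, mem_nonunits_iff_or, mem_smul_iff, map_inv₀,
    map_eq_zero_iff _ (g⁻¹).injective]

theorem liesOverPrime_smul' (g : GQ) {A : ValuationSubring Qb} {ℓ : ℕ}
    (hA : A.LiesOverPrime ℓ) : (g • A).LiesOverPrime ℓ := by
  show (ℓ : Qb) ∈ (g • A).nonunits
  rw [mem_nonunits_smul_iff, map_natCast]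
  exact hA

theorem mem_decomposition_iff (A : ValuationSubring Qb) (σ : GQ) :
    σ ∈ A.decompositionSubgroup ℚ ↔ ∀ x, σ x ∈ A ↔ x ∈ A := by
  rw [MulAction.mem_stabilizer_iff]
  constructor
  · intro h x
    have h1 : σ x ∈ σ • A ↔ x ∈ A := by
      rw [mem_smul_iff, inv_apply_apply]
    rw [h] at h1
    exact h1
  · intro h
    apply SetLike.ext
    intro x
    rw [mem_smul_iff, ← h (σ⁻¹ x), apply_inv_apply]

/-- Elementwise description of Frobenius elements. -/
theorem isFrobeniusAt_iff (A : ValuationSubring Qb) (σ : GQ) (ℓ : ℕ) :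
    A.IsFrobeniusAt σ ℓ ↔
      σ ∈ A.decompositionSubgroup ℚ ∧ ∀ x ∈ A, σ x - x ^ ℓ ∈ A.nonunits := by
  constructor
  · rintro ⟨hσ, h⟩
    refine ⟨hσ, fun x hx => ?_⟩
    have h1 := h (IsLocalRing.residue A ⟨x, hx⟩)
    rw [← IsLocalRing.ResidueField.residue_smul, ← map_pow, ← sub_eq_zero, ← map_sub,
      IsLocalRing.residue_eq_zero_iff, ← ValuationSubring.coe_mem_nonunits_iff] at h1
    exact h1
  · rintro ⟨hσ, h⟩
    refine ⟨hσ, fun y => ?_⟩
    obtain ⟨a, rfl⟩ := IsLocalRing.residue_surjective y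
    rw [← IsLocalRing.ResidueField.residue_smul, ← map_pow, ← sub_eq_zero, ← map_sub,
      IsLocalRing.residue_eq_zero_iff, ← ValuationSubring.coe_mem_nonunits_iff]
    exact h a.1 a.2

/-- Elementwise description of the inertia group. -/
theorem mem_inertiaSubgroupIn_iff' (A : ValuationSubring Qb) (σ : GQ) :
    σ ∈ A.inertiaSubgroupIn ℚ ↔
      σ ∈ A.decompositionSubgroup ℚ ∧ ∀ x ∈ A, σ x - x ∈ A.nonunits := by
  constructor
  · intro hσ
    have hD : σ ∈ A.decompositionSubgroup ℚ := by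
      obtain ⟨g, -, rfl⟩ := hσ
      exact g.2
    exact ⟨hD, fun x hx => sub_mem_nonunits_of_mem_inertia A σ hσ x hx⟩
  · rintro ⟨hD, h⟩
    refine ⟨⟨σ, hD⟩, ?_, rfl⟩
    show (⟨σ, hD⟩ : A.decompositionSubgroup ℚ) ∈ MonoidHom.ker
      (MulSemiringAction.toRingAut (A.decompositionSubgroup ℚ) (IsLocalRing.ResidueField A))
    rw [MonoidHom.mem_ker]
    apply RingEquiv.ext
    intro y
    obtain ⟨x, rfl⟩ := IsLocalRing.residue_surjective y
    show (⟨σ, hD⟩ : A.decompositionSubgroup ℚ) • (IsLocalRing.residue A x)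
      = IsLocalRing.residue A x
    rw [← IsLocalRing.ResidueField.residue_smul, ← sub_eq_zero, ← map_sub,
      IsLocalRing.residue_eq_zero_iff, ← ValuationSubring.coe_mem_nonunits_iff]
    exact h x.1 x.2

/-! ### Conjugation -/

theorem conj_apply (g σ : GQ) (x : Qb) : (g * σ * g⁻¹) x = g (σ (g⁻¹ x)) := rfl

theorem conj_mem_decomposition (g : GQ) {A : ValuationSubring Qb} {σ : GQ}
    (hσ : σ ∈ A.decompositionSubgroup ℚ) : g * σ * g⁻¹ ∈ (g • A).decompositionSubgroup ℚ := by
  rw [mem_decomposition_iff] at hσ ⊢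
  intro x
  rw [mem_smul_iff, mem_smul_iff, conj_apply, inv_apply_apply, hσ]

/-- Conjugation carries Frobenius elements at `A` to Frobenius elements at `g • A`. -/
theorem isFrobeniusAt_conj (g : GQ) {A : ValuationSubring Qb} {σ : GQ} {ℓ : ℕ}
    (hσ : A.IsFrobeniusAt σ ℓ) : (g • A).IsFrobeniusAt (g * σ * g⁻¹) ℓ := by
  rw [isFrobeniusAt_iff] at hσ ⊢
  refine ⟨conj_mem_decomposition g hσ.1, fun x hx => ?_⟩
  rw [mem_smul_iff] at hx
  rw [mem_nonunits_smul_iff, map_sub, map_pow, conj_apply, inv_apply_apply]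
  exact hσ.2 _ hx

/-- Conjugation carries the inertia group of `A` into the inertia group of `g • A`. -/
theorem conj_mem_inertia (g : GQ) {A : ValuationSubring Qb} {σ : GQ}
    (hσ : σ ∈ A.inertiaSubgroupIn ℚ) : g * σ * g⁻¹ ∈ (g • A).inertiaSubgroupIn ℚ := by
  rw [mem_inertiaSubgroupIn_iff'] at hσ ⊢
  refine ⟨conj_mem_decomposition g hσ.1, fun x hx => ?_⟩
  rw [mem_smul_iff] at hx
  rw [mem_nonunits_smul_iff, map_sub, conj_apply, inv_apply_apply]
  exact hσ.2 _ hx

/-- Two Frobenius elements at the same valuation subring differ by an element of the inertia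
group. -/
theorem mul_inv_mem_inertia_of_isFrobeniusAt {A : ValuationSubring Qb} {σ τ : GQ} {ℓ : ℕ}
    (hσ : A.IsFrobeniusAt σ ℓ) (hτ : A.IsFrobeniusAt τ ℓ) :
    τ * σ⁻¹ ∈ A.inertiaSubgroupIn ℚ := by
  rw [isFrobeniusAt_iff] at hσ hτ
  rw [mem_inertiaSubgroupIn_iff']
  refine ⟨mul_mem hτ.1 (inv_mem hσ.1), fun x hx => ?_⟩
  have hy : σ⁻¹ x ∈ A := ((mem_decomposition_iff A σ⁻¹).mp (inv_mem hσ.1) x).mpr hx
  have h1 := hτ.2 _ hy
  have h2 := hσ.2 _ hy
  rw [apply_inv_apply] at h2
  have h3 : (τ * σ⁻¹) x - x = (τ (σ⁻¹ x) - (σ⁻¹ x) ^ ℓ) - (x - (σ⁻¹ x) ^ ℓ) := by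
    rw [AlgEquiv.mul_apply]
    ring
  rw [h3]
  exact A.nonunits.sub_mem h1 h2

/-! ### Transitivity -/

/-- A valuation subring of `ℚ̄` over `ℓ` is determined by the prime of `ℤ̄` below it. -/
theorem map_mem_of_primeBelow {ℓ : ℕ} (hℓ : ℓ.Prime) {A A' : ValuationSubring Qb}
    (hA : A.LiesOverPrime ℓ) (hA' : A'.LiesOverPrime ℓ) (τ : GQ)
    (h : ∀ x : integralClosure ℤ Qb,
      τ • x ∈ Fermat.Agent.S54.primeBelow A' ↔ x ∈ Fermat.Agent.S54.primeBelow A)
    (x : Qb) (hx : x ∈ A) : τ x ∈ A' := by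
  haveI : Algebra.IsAlgebraic ℚ Qb := AlgebraicClosure.isAlgebraic ℚ
  obtain ⟨b, s, hb, hs, hsA, hxs⟩ := (Fermat.Agent.S54.mem_valuationSubring_iff A ℓ hℓ hA x).mp hx
  refine (Fermat.Agent.S54.mem_valuationSubring_iff A' ℓ hℓ hA' (τ x)).mpr
    ⟨τ b, τ s, hb.map τ, hs.map τ, ?_, ?_⟩
  · exact (h ⟨s, hs⟩).not.mpr hsA
  · rw [← map_mul, hxs]

theorem smul_eq_of_primeBelow {ℓ : ℕ} (hℓ : ℓ.Prime) {A A' : ValuationSubring Qb}
    (hA : A.LiesOverPrime ℓ) (hA' : A'.LiesOverPrime ℓ) (τ : GQ)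
    (h : ∀ x : integralClosure ℤ Qb,
      τ • x ∈ Fermat.Agent.S54.primeBelow A' ↔ x ∈ Fermat.Agent.S54.primeBelow A) :
    τ • A = A' := by
  apply SetLike.ext
  intro x
  rw [mem_smul_iff]
  constructor
  · intro hx
    have := map_mem_of_primeBelow hℓ hA hA' τ h _ hx
    rwa [apply_inv_apply] at this
  · intro hx
    refine map_mem_of_primeBelow hℓ hA' hA τ⁻¹ (fun y => ?_) x hx
    rw [← h (τ⁻¹ • y), smul_inv_smul]

/-- **Transitivity**: `Gal(ℚ̄/ℚ)` acts transitively on the valuation subrings of `ℚ̄` over a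
prime number. -/
theorem exists_smul_eq {ℓ : ℕ} (hℓ : ℓ.Prime) {A A' : ValuationSubring Qb}
    (hA : A.LiesOverPrime ℓ) (hA' : A'.LiesOverPrime ℓ) : ∃ g : GQ, g • A = A' := by
  haveI := Fermat.Agent.S54.isGalois_algebraicClosure_rat
  haveI : Algebra.IsAlgebraic ℚ (AlgebraicClosure ℚ) := AlgebraicClosure.isAlgebraic ℚ
  letI : TopologicalSpace (integralClosure ℤ (AlgebraicClosure ℚ)) := ⊥
  haveI : DiscreteTopology (integralClosure ℤ (AlgebraicClosure ℚ)) := ⟨rfl⟩
  haveI := Fermat.Agent.S54.continuousSMul_integralClosure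
  haveI := Fermat.Agent.S54.isInvariant_integralClosure
  haveI := Fermat.Agent.S54.primeBelow_isPrime A
  haveI := Fermat.Agent.S54.primeBelow_isPrime A'
  have hmax : (Ideal.span {(ℓ : ℤ)}).IsMaximal :=
    PrincipalIdealRing.isMaximal_of_irreducible (Nat.prime_iff_prime_int.mp hℓ).irreducible
  have hunder : ∀ B : ValuationSubring Qb, B.LiesOverPrime ℓ →
      (Fermat.Agent.S54.primeBelow B).under ℤ = Ideal.span {(ℓ : ℤ)} := by
    intro B hB
    haveI := Fermat.Agent.S54.primeBelow_isPrime B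
    have hle : Ideal.span {(ℓ : ℤ)} ≤ (Fermat.Agent.S54.primeBelow B).under ℤ := by
      rw [Ideal.span_le, Set.singleton_subset_iff]
      show algebraMap ℤ (integralClosure ℤ (AlgebraicClosure ℚ)) (ℓ : ℤ) ∈
        Fermat.Agent.S54.primeBelow B
      rw [Fermat.Agent.S54.mem_primeBelow]
      have : ((algebraMap ℤ (integralClosure ℤ (AlgebraicClosure ℚ)) (ℓ : ℤ) :
          integralClosure ℤ (AlgebraicClosure ℚ)) : AlgebraicClosure ℚ) = (ℓ : Qb) := by
        simp
      rw [this]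
      exact hB
    have hne : (Fermat.Agent.S54.primeBelow B).under ℤ ≠ ⊤ :=
      (Ideal.IsPrime.under ℤ (Fermat.Agent.S54.primeBelow B)).ne_top
    exact (hmax.eq_of_le hne hle).symm
  obtain ⟨g, hg⟩ := Algebra.IsInvariant.exists_smul_of_under_eq_of_profinite
    (A := ℤ) (G := GQ) (Fermat.Agent.S54.primeBelow A) (Fermat.Agent.S54.primeBelow A')
    ((hunder A hA).trans (hunder A' hA').symm)
  refine ⟨g, smul_eq_of_primeBelow hℓ hA hA' g fun x => ?_⟩
  rw [hg]
  exact Ideal.smul_mem_pointwise_smul_iff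

/-! ### Conjugacy of Frobenius elements -/

/-- **Frobenius elements over `ℓ` are conjugate modulo inertia.** -/
theorem exists_conj_of_isFrobeniusAt {ℓ : ℕ} (hℓ : ℓ.Prime) {A A' : ValuationSubring Qb}
    (hA : A.LiesOverPrime ℓ) (hA' : A'.LiesOverPrime ℓ) {φ φ' : GQ}
    (hφ : A.IsFrobeniusAt φ ℓ) (hφ' : A'.IsFrobeniusAt φ' ℓ) :
    ∃ g : GQ, g • A = A' ∧ φ' * (g * φ * g⁻¹)⁻¹ ∈ A'.inertiaSubgroupIn ℚ := by
  obtain ⟨g, hg⟩ := exists_smul_eq hℓ hA hA'
  refine ⟨g, hg, ?_⟩
  have h1 := isFrobeniusAt_conj g hφ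
  rw [hg] at h1
  exact mul_inv_mem_inertia_of_isFrobeniusAt h1 hφ'

/-- The inertia groups at the valuation subrings over `ℓ` are conjugate. -/
theorem exists_conj_of_mem_inertia {ℓ : ℕ} (hℓ : ℓ.Prime) {A A' : ValuationSubring Qb}
    (hA : A.LiesOverPrime ℓ) (hA' : A'.LiesOverPrime ℓ) {ι' : GQ}
    (hι' : ι' ∈ A'.inertiaSubgroupIn ℚ) :
    ∃ g : GQ, ∃ ι ∈ A.inertiaSubgroupIn ℚ, ι' = g * ι * g⁻¹ := by
  obtain ⟨g, hg⟩ := exists_smul_eq hℓ hA' hA
  have h1 := conj_mem_inertia g hι'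
  rw [hg] at h1
  refine ⟨g⁻¹, _, h1, ?_⟩
  group

/-! ### Consequences for homomorphisms -/

/-- A homomorphism which is trivial on the inertia group at ONE valuation subring over `ℓ` is
trivial on the inertia groups at ALL valuation subrings over `ℓ`. -/
theorem map_inertia_eq_one_of_liesOver {M : Type*} [Monoid M] (ρ : GQ →* M) {ℓ : ℕ}
    (hℓ : ℓ.Prime) {A A' : ValuationSubring Qb} (hA : A.LiesOverPrime ℓ)
    (hA' : A'.LiesOverPrime ℓ) (h : ∀ ι ∈ A.inertiaSubgroupIn ℚ, ρ ι = 1) :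
    ∀ ι ∈ A'.inertiaSubgroupIn ℚ, ρ ι = 1 := by
  intro ι' hι'
  obtain ⟨g, ι, hι, rfl⟩ := exists_conj_of_mem_inertia hℓ hA hA' hι'
  rw [map_mul, map_mul, h ι hι, mul_one, ← map_mul, mul_inv_cancel, map_one]

/-- If `ρ` is trivial on inertia at `ℓ`, the values of `ρ` at any two Frobenius elements over `ℓ`
are conjugate: `ρ φ' * ρ g = ρ g * ρ φ`. -/
theorem exists_map_conj_of_isFrobeniusAt {M : Type*} [Monoid M] (ρ : GQ →* M) {ℓ : ℕ}
    (hℓ : ℓ.Prime) {A A' : ValuationSubring Qb} (hA : A.LiesOverPrime ℓ)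
    (hA' : A'.LiesOverPrime ℓ) (h : ∀ ι ∈ A'.inertiaSubgroupIn ℚ, ρ ι = 1) {φ φ' : GQ}
    (hφ : A.IsFrobeniusAt φ ℓ) (hφ' : A'.IsFrobeniusAt φ' ℓ) :
    ∃ g : GQ, ρ φ' = ρ g * ρ φ * ρ g⁻¹ := by
  obtain ⟨g, -, hg⟩ := exists_conj_of_isFrobeniusAt hℓ hA hA' hφ hφ'
  refine ⟨g, ?_⟩
  have h1 := h _ hg
  have h2 : φ' = (φ' * (g * φ * g⁻¹)⁻¹) * (g * φ * g⁻¹) := by group
  rw [h2, map_mul, h1, one_mul, map_mul, map_mul]

/-- For a residual representation unramified at `ℓ`, the characteristic polynomial of Frobenius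
at `ℓ` does not depend on the choice of the valuation subring over `ℓ` and of the Frobenius
element. -/
theorem charpoly_eq_of_isFrobeniusAt {k : Type} [Field k] (ρ : ResidualGaloisRep k) {ℓ : ℕ}
    (hℓ : ℓ.Prime) (hur : ρ.IsUnramifiedAt ℓ) {A A' : ValuationSubring Qb}
    (hA : A.LiesOverPrime ℓ) (hA' : A'.LiesOverPrime ℓ) {φ φ' : GQ}
    (hφ : A.IsFrobeniusAt φ ℓ) (hφ' : A'.IsFrobeniusAt φ' ℓ) :
    LinearMap.charpoly (ρ.ρ φ') = LinearMap.charpoly (ρ.ρ φ) := by
  obtain ⟨g, hg⟩ := exists_map_conj_of_isFrobeniusAt ρ.ρ hℓ hA hA' (hur A' hA') hφ hφ'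
  have h1 : ρ.ρ g * ρ.ρ g⁻¹ = 1 := by rw [← map_mul, mul_inv_cancel, map_one]
  have h2 : ρ.ρ g⁻¹ * ρ.ρ g = 1 := by rw [← map_mul, inv_mul_cancel, map_one]
  let e : ρ.V ≃ₗ[k] ρ.V :=
    { toLinearMap := ρ.ρ g
      invFun := ρ.ρ g⁻¹
      left_inv := fun x => by
        show (ρ.ρ g⁻¹ * ρ.ρ g) x = x
        rw [h2]; rfl
      right_inv := fun x => by
        show (ρ.ρ g * ρ.ρ g⁻¹) x = x
        rw [h1]; rfl }
  have h3 : ρ.ρ φ' = e.conj (ρ.ρ φ) := by
    rw [hg]
    rfl
  rw [h3, LinearEquiv.charpoly_conj]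

end Fermat.Agent.Lib.Cheb.H476

end
-- ===== PACK-END Lib/Cheb/H476/FrobConj.lean

-- ===== PACK-BEGIN S56/P3/Glue.lean
section


/-!
# S56, piece P3 : top glue (sorry-free)

`twElement_of_pieces : SEL → REG → CYC → CYCEXP → DETORD → Fermat.Agent.S56.TWElementStatement`.
-/

set_option autoImplicit false

open Polynomial IsLocalRing

namespace Fermat.Agent.S56.P3

/-- In a field, `DetIsCyclotomic p` forces `p = 0`. -/
theorem natCast_eq_zero_of_detIsCyclotomic {k : Type} [Field k] {p : ℕ}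
    {ρbar : ResidualGaloisRep k}
    (hdet : (GaloisRepAdic.ofResidualGaloisRep ρbar).DetIsCyclotomic p) : (p : k) = 0 := by
  have h := hdet.1
  rwa [IsLocalRing.maximalIdeal_eq_bot, Ideal.mem_bot] at h

/-- (DET) `det ρ̄ σ` is any cyclotomic exponent of `σ` on `μ_p`. -/
theorem det_eq_of_isCycExp {k : Type} [Field k] {p : ℕ} {ρbar : ResidualGaloisRep k}
    (hdet : (GaloisRepAdic.ofResidualGaloisRep ρbar).DetIsCyclotomic p) {σ : _root_.Fermat.Agent.S56.P3.GQ} {a : ℕ}
    (h : Fermat.Agent.S56.IsCycExp p σ a) : LinearMap.det (ρbar.ρ σ) = (a : k) := by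
  have hp0 : (p : k) = 0 := natCast_eq_zero_of_detIsCyclotomic hdet
  have h1 := hdet.2 1 σ a (fun μ hμ => h μ (by simpa using hμ))
  have h0 : ((p ^ 1 : ℕ) : k) = 0 := by simpa using hp0
  rw [h0, Ideal.mem_span_singleton, zero_dvd_iff, sub_eq_zero] at h1
  exact h1

/-- `σ` fixing `μ_{p^(n+1)}` has cyclotomic exponent `1` on `μ_p`. -/
theorem isCycExp_one_of_fixesRoots {p n : ℕ} {σ : _root_.Fermat.Agent.S56.P3.GQ} (h : FixesRoots p n σ) :
    Fermat.Agent.S56.IsCycExp p σ 1 := by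
  intro μ hμ
  rw [pow_one]
  refine h μ ?_
  rw [pow_succ', pow_mul, hμ, one_pow]

/-- (HYP) the S56 hypotheses give the abstract package `TWHyp`. -/
theorem twHyp_of_hyp {𝒪 : Type} [CommRing 𝒪] [IsDomain 𝒪] [IsDiscreteValuationRing 𝒪]
    {p : ℕ} {ρbar : ResidualGaloisRep (ResidueField 𝒪)} {S Smin : Finset ℕ}
    (H : Fermat.Agent.S56.Hyp 𝒪 p ρbar S Smin) : TWHyp ρbar.ρ p where
  finrank_eq := ρbar.finrank_eq
  char_p := natCast_eq_zero_of_detIsCyclotomic H.hdet
  absIrr := fun W hW => H.habs W hW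
  tw := fun K _ _ G hG W hW => H.hTW K G hG W hW
  split := H.hsplit

/-- a cocycle in the sense of the row interface is a cocycle in End-form. -/
theorem isTwCocycle_of_row {k : Type} [Field k] {p : ℕ} {ρbar : ResidualGaloisRep k}
    (hdet : (GaloisRepAdic.ofResidualGaloisRep ρbar).DetIsCyclotomic p)
    (hexp : ∀ σ : _root_.Fermat.Agent.S56.P3.GQ, ∃ a : ℕ, Fermat.Agent.S56.IsCycExp p σ a)
    {c : _root_.Fermat.Agent.S56.P3.GQ → Module.End k ρbar.V} (hc : Fermat.Agent.S56.IsTwCocycle ρbar p c) :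
    _root_.Fermat.Agent.S56.P3.IsTwCocycle ρbar.ρ c where
  trace_zero := hc.trace_eq_zero
  map_mul := by
    intro g h
    obtain ⟨a, ha⟩ := hexp g
    rw [hc.map_mul g h a ha, twEnd, det_eq_of_isCycExp hdet ha]
    rfl

/-- a coboundary in End-form is a coboundary in the sense of the row interface. -/
theorem row_isTwCoboundary {k : Type} [Field k] {p : ℕ} {ρbar : ResidualGaloisRep k}
    (hdet : (GaloisRepAdic.ofResidualGaloisRep ρbar).DetIsCyclotomic p)
    {c : _root_.Fermat.Agent.S56.P3.GQ → Module.End k ρbar.V} (hc : _root_.Fermat.Agent.S56.P3.IsTwCoboundary ρbar.ρ c) :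
    Fermat.Agent.S56.IsTwCoboundary ρbar p c := by
  obtain ⟨m, hm, h⟩ := hc
  refine ⟨m, hm, fun σ _ a ha => ?_⟩
  rw [h σ, twEnd, det_eq_of_isCycExp hdet ha]
  rfl

/-- **P3 from its pieces.** -/
theorem twElement_of_pieces (hsel : AbstractTWElementStatement) (hreg : ExistsRegularStatement)
    (hcyc : CycloQuotientStatement) (hexp : CycExpExistsStatement) (hord : DetOrderStatement) :
    Fermat.Agent.S56.TWElementStatement := by
  intro 𝒪 _ _ _ _ _ p ρbar S Smin H
  haveI : Fact p.Prime := ⟨H.hp⟩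
  have hT : TWHyp ρbar.ρ p := twHyp_of_hyp H
  refine ⟨fun c hc hnc n => ?_, fun n => ?_⟩
  · obtain ⟨hN, hC⟩ := hcyc p H.hp2 n
    have hdet1 : ∀ δ ∈ fixRootsSubgroup p n, LinearMap.det (ρbar.ρ δ) = 1 := by
      intro δ hδ
      rw [det_eq_of_isCycExp H.hdet (isCycExp_one_of_fixesRoots hδ), Nat.cast_one]
    obtain ⟨σ, hσΔ, hσreg, hσdet, hσ⟩ :=
      hsel (ResidueField 𝒪) ρbar.V _root_.Fermat.Agent.S56.P3.GQ ρbar.ρ p H.hp2 hT (fixRootsSubgroup p n) hC hdet1
        (hord (ResidueField 𝒪) p ρbar H.hdet) c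
        (isTwCocycle_of_row H.hdet (hexp p) hc)
        (fun h => hnc (row_isTwCoboundary H.hdet h))
    refine ⟨σ, hσΔ, hσreg, fun m hm heq => hσ ⟨m, hm, ?_⟩⟩
    rw [twEnd, hσdet, one_smul]
    exact heq
  · obtain ⟨hN, hC⟩ := hcyc p H.hp2 n
    obtain ⟨σ, hσΔ, hσreg⟩ :=
      hreg (ResidueField 𝒪) ρbar.V _root_.Fermat.Agent.S56.P3.GQ ρbar.ρ p H.hp2 hT (fixRootsSubgroup p n) hC
    exact ⟨σ, hσΔ, hσreg⟩

end Fermat.Agent.S56.P3

end
-- ===== PACK-END S56/P3/Glue.lean

-- ===== PACK-BEGIN Lib/Cheb/H761/PrimeCountBound.lean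
section


/-!
# Piece B0 of the shared library CHEB: `Spec.PrimeCountBoundStatement`

There are at most `[F : ℚ]` prime ideals of `𝓞 F` of any given norm.
-/

set_option autoImplicit false

namespace Fermat.Agent.Lib.Cheb.H761

open IsDedekindDomain NumberField Ideal

/-- A nonzero prime ideal of norm `n` contains the least prime factor of `n`. -/
lemma minFac_mem_of_absNorm_eq {F : Type} [Field F] [NumberField F]
    (𝔭 : HeightOneSpectrum (𝓞 F)) : ((absNorm 𝔭.asIdeal).minFac : 𝓞 F) ∈ 𝔭.asIdeal := by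
  have := 𝔭.isMaximal
  obtain ⟨p, n, hn, hmem, hp, hN⟩ := Ideal.exists_prime_and_absNorm_eq_pow 𝔭.asIdeal
  rw [hN, hp.pow_minFac hn.ne']
  exact hmem

/-- **Piece B0**: `Spec.PrimeCountBoundStatement`. -/
theorem primeCountBound_statement : Spec.PrimeCountBoundStatement := by
  classical
  intro F _ _ p
  rw [Spec.primeCount]
  have hfinset : {𝔮 : Ideal (𝓞 F) | 𝔮.IsPrime ∧ Ideal.absNorm 𝔮 = p}.Finite :=
    (Ideal.finite_setOfPred_absNorm_eq (S := 𝓞 F) p).subset (fun 𝔮 h𝔮 => h𝔮.2)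
  have hd : 1 ≤ Module.finrank ℚ F := Module.finrank_pos
  rcases Nat.eq_zero_or_pos p with rfl | hp0
  · -- only the zero ideal has norm `0`
    have hsub : Subsingleton {𝔮 : Ideal (𝓞 F) // 𝔮.IsPrime ∧ Ideal.absNorm 𝔮 = 0} := by
      refine ⟨fun a b => Subtype.ext ?_⟩
      rw [Ideal.absNorm_eq_zero_iff.mp a.2.2, Ideal.absNorm_eq_zero_iff.mp b.2.2]
    exact (Finite.card_le_one_iff_subsingleton.mpr hsub).trans hd
  · have hfin : Finite {𝔮 : Ideal (𝓞 F) // 𝔮.IsPrime ∧ Ideal.absNorm 𝔮 = p} :=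
      hfinset.to_subtype
    have : Fintype {𝔮 : Ideal (𝓞 F) // 𝔮.IsPrime ∧ Ideal.absNorm 𝔮 = p} := Fintype.ofFinite _
    rw [Nat.card_eq_fintype_card]
    by_cases hne : Nonempty {𝔮 : Ideal (𝓞 F) // 𝔮.IsPrime ∧ Ideal.absNorm 𝔮 = p}
    · -- every such prime contains `p.minFac`, which is prime
      let ι : {𝔮 : Ideal (𝓞 F) // 𝔮.IsPrime ∧ Ideal.absNorm 𝔮 = p} → HeightOneSpectrum (𝓞 F) :=
        fun 𝔮 => ⟨𝔮.1, 𝔮.2.1, by
          rintro h
          have := 𝔮.2.2
          rw [h, Ideal.absNorm_bot] at this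
          omega⟩
      have hι : Function.Injective ι := by
        intro a b h
        apply Subtype.ext
        exact congrArg HeightOneSpectrum.asIdeal h
      have hp1 : p ≠ 1 := by
        rintro rfl
        obtain ⟨𝔮⟩ := hne
        exact 𝔮.2.1.ne_top (Ideal.absNorm_eq_one_iff.mp 𝔮.2.2)
      have hprime : p.minFac.Prime := Nat.minFac_prime hp1
      have hcard := card_le_of_natCast_mem F hprime (Finset.univ.image ι) (by
        intro 𝔭 h𝔭
        obtain ⟨𝔮, -, rfl⟩ := Finset.mem_image.mp h𝔭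
        have := minFac_mem_of_absNorm_eq (ι 𝔮)
        have hN : absNorm (ι 𝔮).asIdeal = p := 𝔮.2.2
        rwa [hN] at this)
      rw [Finset.card_image_of_injective _ hι, Finset.card_univ,
        NumberField.RingOfIntegers.rank] at hcard
      exact hcard
    · rw [not_nonempty_iff] at hne
      rw [Fintype.card_eq_zero]
      exact Nat.zero_le _

end Fermat.Agent.Lib.Cheb.H761

end
-- ===== PACK-END Lib/Cheb/H761/PrimeCountBound.lean

-- ===== PACK-BEGIN Lib/Cheb/H476/Core.lean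
section






/-!
# CHEB piece F6 (bridge), part 2: from a prime of a Galois number field inside `ℚ̄`
to a valuation subring of `ℚ̄` with a Frobenius element
-/

set_option autoImplicit false

open NumberField
open scoped Pointwise

namespace Fermat.Agent.Lib.Cheb.H476

open Fermat.Agent.Lib.Cheb.Spec

/-- The inclusion of the ring of integers of a subfield of `ℚ̄` into `ℚ̄`. -/
noncomputable def incl (L : IntermediateField ℚ Qb) : 𝓞 L →+* Qb :=
  (algebraMap L Qb).comp (algebraMap (𝓞 L) L)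

theorem incl_apply (L : IntermediateField ℚ Qb) (x : 𝓞 L) :
    incl L x = ((x : L) : Qb) := rfl

theorem incl_injective (L : IntermediateField ℚ Qb) : Function.Injective (incl L) := by
  intro x y h
  have h1 : ((x : L) : Qb) = ((y : L) : Qb) := h
  exact RingOfIntegers.ext (Subtype.ext h1)

theorem incl_isIntegral (L : IntermediateField ℚ Qb) (x : 𝓞 L) : IsIntegral ℤ (incl L x) := by
  have h1 : IsIntegral ℤ (x : L) := RingOfIntegers.isIntegral_coe x
  exact h1.map (IsScalarTower.toAlgHom ℤ L Qb)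

/-- A valuation subring of `ℚ̄` whose maximal ideal contains a given proper ideal of the ring of
integers of a subfield. -/
theorem exists_valuationSubring_over (L : IntermediateField ℚ Qb) (P : Ideal (𝓞 L))
    (hP : P ≠ ⊤) : ∃ A : ValuationSubring Qb, ∀ x ∈ P, incl L x ∈ A.nonunits := by
  let I : Ideal (incl L).range := P.map (incl L).rangeRestrict
  have hI : I ≠ ⊤ := by
    intro h
    have h1 : (1 : (incl L).range) ∈ I := by rw [h]; trivial
    rw [Ideal.mem_map_iff_of_surjective _ (incl L).rangeRestrict_surjective] at h1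
    obtain ⟨x, hx, hx1⟩ := h1
    have h2 : incl L x = incl L 1 := by
      have := congrArg Subtype.val hx1
      simpa using this
    have h3 : x = 1 := incl_injective L h2
    exact hP ((Ideal.eq_top_iff_one P).mpr (h3 ▸ hx))
  obtain ⟨A, -, hA⟩ := Ideal.image_subset_nonunits_valuationSubring I hI
  refine ⟨A, fun x hx => hA ⟨(incl L).rangeRestrict x, Ideal.mem_map_of_mem _ hx, rfl⟩⟩

/-- The maximal ideal of `A` cuts out exactly `P`. -/
theorem incl_mem_nonunits_iff (L : IntermediateField ℚ Qb) [NumberField L]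
    (A : ValuationSubring Qb) (P : Ideal (𝓞 L)) (hP : P.IsMaximal)
    (hA : ∀ x ∈ P, incl L x ∈ A.nonunits) (x : 𝓞 L) :
    incl L x ∈ A.nonunits ↔ x ∈ P := by
  refine ⟨fun hx => ?_, hA x⟩
  by_contra hxP
  obtain ⟨y, m, hm, hxy⟩ := hP.exists_inv hxP
  have h1 : incl L y * incl L x + incl L m = 1 := by
    rw [← map_mul, ← map_add, hxy, map_one]
  have hy : A.valuation (incl L y) ≤ 1 :=
    (A.valuation_le_one_iff _).mpr
      (Fermat.Agent.S54.isIntegral_mem_valuationSubring A (incl_isIntegral L y))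
  have hx' : A.valuation (incl L x) < 1 := A.mem_nonunits_iff.mp hx
  have hm' : A.valuation (incl L m) < 1 := A.mem_nonunits_iff.mp (hA m hm)
  have h2 : A.valuation (incl L y * incl L x) < 1 := by
    rw [map_mul]
    exact mul_lt_of_le_one_of_lt hy hx'
  have h3 : A.valuation (incl L y * incl L x + incl L m) < 1 :=
    lt_of_le_of_lt (A.valuation.map_add _ _) (max_lt h2 hm')
  rw [h1, map_one] at h3
  exact lt_irrefl _ h3


/-- The prime of `ℤ` below a prime of `𝓞 L` containing the prime number `p` has residue field of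
cardinality `p`. -/
theorem card_quot_under (L : IntermediateField ℚ Qb) [NumberField L] (p : ℕ) (hp : p.Prime)
    (P : Ideal (𝓞 L)) (hP : P.IsPrime) (hpP : (p : 𝓞 L) ∈ P) :
    Nat.card (ℤ ⧸ P.under ℤ) = p := by
  have : Fact p.Prime := ⟨hp⟩
  have hle : Ideal.span {(p : ℤ)} ≤ P.under ℤ := by
    rw [Ideal.span_le, Set.singleton_subset_iff]
    show algebraMap ℤ (𝓞 L) (p : ℤ) ∈ P
    simpa using hpP
  have hne : P.under ℤ ≠ ⊤ := (Ideal.IsPrime.under ℤ P).ne_top
  have heq : Ideal.span {(p : ℤ)} = P.under ℤ :=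
    (Int.ideal_span_isMaximal_of_prime p).eq_of_le hne hle
  rw [← heq, Int.card_ideal_quot]

/-- **Core of the bridge.**  A prime `P` of a Galois number field `L ⊆ ℚ̄` above `p`, with trivial
inertia group and arithmetic Frobenius `τ`, is induced by a valuation subring `A` of `ℚ̄`
over `p` carrying a Frobenius element `φ` which restricts to `τ`; the inertia group of `A` acts
trivially on `L`. -/
theorem exists_frobenius_restrict (L : IntermediateField ℚ Qb) [NumberField L] [IsGalois ℚ L]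
    (p : ℕ) (hp : p.Prime) (P : Ideal (𝓞 L)) (hP : P.IsPrime) (hpP : (p : 𝓞 L) ∈ P)
    (hI : InertiaTrivial L P) (τ : L ≃ₐ[ℚ] L) (hτ : IsArithFrobAt ℤ τ P) :
    ∃ (A : ValuationSubring Qb) (φ : GQ), A.LiesOverPrime p ∧ A.IsFrobeniusAt φ p ∧
      (∀ ι ∈ A.inertiaSubgroupIn ℚ, ∀ x : L, ι (x : Qb) = x) ∧
      (∀ x : L, φ (x : Qb) = (τ x : L)) := by
  have hP0 : P ≠ ⊥ := by
    intro h
    rw [h, Ideal.mem_bot] at hpP
    exact hp.ne_zero (by exact_mod_cast hpP)
  have hPmax : P.IsMaximal := hP.isMaximal hP0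
  obtain ⟨A, hA⟩ := exists_valuationSubring_over L P hP.ne_top
  have hAp : A.LiesOverPrime p := by
    have h := hA _ hpP
    have h' : incl L (p : 𝓞 L) = (p : Qb) := by simp
    rw [h'] at h
    exact h
  obtain ⟨φ, hφ, hφF⟩ := exists_frobenius_at p hp A hAp
  have hmem := incl_mem_nonunits_iff L A P hPmax hA
  have hres : ∀ (g : GQ) (x : L), ((AlgEquiv.restrictNormal g L x : L) : Qb) = g (x : Qb) :=
    fun g x => AlgEquiv.restrictNormal_commutes g L x
  have hcard := card_quot_under L p hp P hP hpP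
  refine ⟨A, φ, hAp, hφ, ?_, ?_⟩
  · intro ι hι x
    have h1 : AlgEquiv.restrictNormal ι L = 1 := by
      apply hI
      intro y
      rw [← hmem]
      have h2 : incl L (AlgEquiv.restrictNormal ι L • y - y) = ι (incl L y) - incl L y := by
        rw [map_sub]
        congr 1
        exact hres ι y
      rw [h2]
      exact sub_mem_nonunits_of_mem_inertia A ι hι _
        (Fermat.Agent.S54.isIntegral_mem_valuationSubring A (incl_isIntegral L y))
    rw [← hres, h1]
    rfl
  · have h1 : IsArithFrobAt ℤ (AlgEquiv.restrictNormal φ L) P := by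
      intro y
      rw [hcard]
      rw [← hmem]
      have h2 : incl L ((MulSemiringAction.toAlgHom ℤ (𝓞 L) (AlgEquiv.restrictNormal φ L)) y
          - y ^ p) = φ (incl L y) - incl L y ^ p := by
        rw [map_sub, map_pow]
        congr 1
        exact hres φ y
      rw [h2]
      exact hφF ⟨incl L y, incl_isIntegral L y⟩
    have h2 := IsArithFrobAt.mul_inv_mem_inertia h1 hτ
    have h3 : AlgEquiv.restrictNormal φ L * τ⁻¹ = 1 := hI _ h2
    have h4 : AlgEquiv.restrictNormal φ L = τ := mul_inv_eq_one.mp h3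
    intro x
    rw [← hres, h4]

end Fermat.Agent.Lib.Cheb.H476

end
-- ===== PACK-END Lib/Cheb/H476/Core.lean

-- ===== PACK-BEGIN S55/Bridge/H959/Restrict.lean
section



/-!
# S55 bridge, piece B14 (helper959): restriction is ONTO on decomposition and inertia groups

`A` a valuation subring of `ℚ̄` over a prime `ℓ`, `F/ℚ` a normal intermediate field,
`A_F := A.comap (algebraMap F ℚ̄)` the valuation subring of `F` below `A`.  Then restriction
`G_ℚ → Gal(F/ℚ)` maps the decomposition group `D_A` ONTO `D_{A_F}` and the inertia group `I_A`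
ONTO `I_{A_F}` (Prelude `inertiaSubgroupIn`).

Main results (namespace `Fermat.Agent.S55.Bridge.H959`):
* `exists_smul_prime_eq`, `exists_smul_valuationSubring_eq`: a closed subgroup `H ≤ G_ℚ` acts
  transitively on the primes of `ℤ̄` (valuation subrings of `ℚ̄`) with the same trace on the
  `H`-invariants;
* `restrict_mem_decomposition`, `restrict_mem_inertia` (easy directions);
* `exists_mem_decomposition_restrict_eq`, `exists_mem_inertia_restrict_eq` (surjectivity);
* `map_decompositionSubgroup`, `map_inertiaSubgroupIn` (equalities of subgroups of `Gal(F/ℚ)`);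
* `inertia_le_fixingSubgroup_iff`: `I_A ≤ G_F ↔ I_{A_F} = ⊥`.
-/

set_option autoImplicit false
set_option linter.style.haveILetI false

open scoped Pointwise
open IntermediateField

namespace Fermat.Agent.S55.Bridge.H959

open Fermat.Agent.S54 Fermat.Agent.S55.Bridge

/-- `ℚ̄`. -/
noncomputable abbrev Qb := AlgebraicClosure ℚ
/-- `G_ℚ`. -/
noncomputable abbrev GQ := Qb ≃ₐ[ℚ] Qb
/-- `ℤ̄`. -/
noncomputable abbrev Zb := integralClosure ℤ Qb

attribute [local instance] isAlgebraic_Qbar isGalois_Qbar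

/-! ## 0. General valuation-subring lemmas (any field) -/

section general

variable {K L : Type*} [Field K] [Field L] [Algebra K L]

/-- Nonunits of a valuation subring, without valuations. -/
theorem mem_nonunits_iff_inv_notMem (A : ValuationSubring L) (x : L) :
    x ∈ A.nonunits ↔ x = 0 ∨ x⁻¹ ∉ A := by
  rw [ValuationSubring.mem_nonunits_iff]
  rcases eq_or_ne x 0 with rfl | hx
  · simp
  · simp only [hx, false_or]
    rw [← A.valuation_le_one_iff, map_inv₀, not_le]
    have hpos : 0 < A.valuation x := by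
      rw [zero_lt_iff]
      exact (A.valuation.ne_zero_iff).2 hx
    rw [one_lt_inv₀ hpos]

/-- Nonunits of a comap. -/
theorem mem_nonunits_comap_iff {F : Type*} [Field F] (A : ValuationSubring L) (f : F →+* L)
    (x : F) : x ∈ (A.comap f).nonunits ↔ f x ∈ A.nonunits := by
  rw [mem_nonunits_iff_inv_notMem, mem_nonunits_iff_inv_notMem, ValuationSubring.mem_comap,
    map_inv₀, map_eq_zero_iff f f.injective]

/-- Membership in the decomposition group, elementwise (any field). -/
theorem mem_decomposition_iff (A : ValuationSubring L) (σ : L ≃ₐ[K] L) :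
    σ ∈ A.decompositionSubgroup K ↔ ∀ x, σ x ∈ A ↔ x ∈ A := by
  rw [MulAction.mem_stabilizer_iff]
  constructor
  · intro h x
    have hinv : σ⁻¹ • A = A := by
      conv_lhs => rw [← h]
      rw [inv_smul_smul]
    have h1 := ValuationSubring.mem_pointwise_smul_iff_inv_smul_mem (S := A)
      (g := σ⁻¹) (x := x)
    rw [hinv, inv_inv] at h1
    rw [h1]
    rfl
  · intro h
    apply SetLike.ext
    intro x
    rw [ValuationSubring.mem_pointwise_smul_iff_inv_smul_mem]
    have h2 := h (σ⁻¹ • x)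
    rw [AlgEquiv.smul_def] at h2 ⊢
    rw [← h2]
    have : σ (σ⁻¹ x) = x := by
      show (σ * σ⁻¹) x = x
      rw [mul_inv_cancel]
      rfl
    rw [this]

/-- Membership in the (Prelude) inertia group, elementwise (any field). -/
theorem mem_inertia_iff (A : ValuationSubring L) (σ : L ≃ₐ[K] L) :
    σ ∈ A.inertiaSubgroupIn K ↔
      σ ∈ A.decompositionSubgroup K ∧ ∀ z ∈ A, σ z - z ∈ A.nonunits := by
  constructor
  · rintro ⟨g, hg, rfl⟩
    refine ⟨g.2, fun z hzA => ?_⟩
    have h1 : MulSemiringAction.toRingAut (A.decompositionSubgroup K)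
        (IsLocalRing.ResidueField A) g = 1 := hg
    have h2 : g • (IsLocalRing.residue A ⟨z, hzA⟩) = IsLocalRing.residue A ⟨z, hzA⟩ := by
      have := congrArg (fun f => f (IsLocalRing.residue A ⟨z, hzA⟩)) h1
      simpa using this
    rw [← IsLocalRing.ResidueField.residue_smul] at h2
    have h3 : (g • (⟨z, hzA⟩ : A)) - ⟨z, hzA⟩ ∈ IsLocalRing.maximalIdeal A := by
      rw [← Ideal.Quotient.eq]
      exact h2
    rw [ValuationSubring.valuation_lt_one_iff] at h3
    rw [ValuationSubring.mem_nonunits_iff]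
    exact h3
  · rintro ⟨hD, h⟩
    refine ⟨⟨σ, hD⟩, ?_, rfl⟩
    show (⟨σ, hD⟩ : A.decompositionSubgroup K) ∈ MonoidHom.ker
      (MulSemiringAction.toRingAut (A.decompositionSubgroup K) (IsLocalRing.ResidueField A))
    rw [MonoidHom.mem_ker]
    apply RingEquiv.ext
    intro y
    obtain ⟨x, rfl⟩ := IsLocalRing.residue_surjective y
    show (⟨σ, hD⟩ : A.decompositionSubgroup K) • (IsLocalRing.residue A x)
      = IsLocalRing.residue A x
    rw [← IsLocalRing.ResidueField.residue_smul]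
    rw [← sub_eq_zero, ← map_sub, IsLocalRing.residue_eq_zero_iff]
    have h3 := h x.1 x.2
    rw [ValuationSubring.mem_nonunits_iff] at h3
    rw [ValuationSubring.valuation_lt_one_iff]
    exact h3

end general

/-! ## 1. Valuation subrings of `ℚ̄` and primes of `ℤ̄` -/

section primes

/-- A valuation subring of `ℚ̄` over a prime number is determined by the prime of `ℤ̄` below. -/
theorem le_of_primeBelow_eq (A A' : ValuationSubring Qb) (ℓ : ℕ) (hℓ : ℓ.Prime)
    (hA : A.LiesOverPrime ℓ) (h : primeBelow A = primeBelow A') : A ≤ A' := by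
  intro x hx
  obtain ⟨b, s, hb, hs, hsA, hxs⟩ := (mem_valuationSubring_iff A ℓ hℓ hA x).mp hx
  have hbA : b ∈ A' := isIntegral_mem_valuationSubring A' hb
  have hsA' : s ∉ A'.nonunits := by
    intro hcon
    apply hsA
    have h1 : (⟨s, hs⟩ : Zb) ∈ primeBelow A' := hcon
    rw [← h] at h1
    exact h1
  have hs0 : s ≠ 0 := fun h0 => hsA (h0 ▸ A.nonunits.zero_mem)
  have hsinv : s⁻¹ ∈ A' := by
    by_contra hcon
    exact hsA' ((mem_nonunits_iff_inv_notMem A' s).mpr (Or.inr hcon))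
  have : x = b * s⁻¹ := by
    rw [← hxs]; field_simp
  rw [this]
  exact A'.mul_mem _ _ hbA hsinv

theorem eq_of_primeBelow_eq (A A' : ValuationSubring Qb) (ℓ : ℕ) (hℓ : ℓ.Prime)
    (hA : A.LiesOverPrime ℓ) (hA' : A'.LiesOverPrime ℓ) (h : primeBelow A = primeBelow A') :
    A = A' :=
  le_antisymm (le_of_primeBelow_eq A A' ℓ hℓ hA h) (le_of_primeBelow_eq A' A ℓ hℓ hA' h.symm)

/-- The prime below `σ • A` is `σ • (prime below A)`. -/
theorem primeBelow_smul (σ : _root_.Fermat.Agent.S55.Bridge.H959.GQ) (A : ValuationSubring Qb) :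
    primeBelow (σ • A) = σ • primeBelow A := by
  ext b
  rw [Ideal.mem_pointwise_smul_iff_inv_smul_mem, mem_primeBelow, mem_primeBelow,
    mem_nonunits_smul_iff]
  rfl

/-- A closed subgroup `H` of `G_ℚ` acts transitively on the primes of `ℤ̄` having the same
`H`-invariant elements. -/
theorem exists_smul_prime_eq (H : Subgroup _root_.Fermat.Agent.S55.Bridge.H959.GQ) (hH : IsClosed (H : Set _root_.Fermat.Agent.S55.Bridge.H959.GQ))
    (P Q : Ideal Zb) [P.IsPrime] [Q.IsPrime]
    (hPQ : ∀ b : Zb, (∀ h ∈ H, h • b = b) → (b ∈ P ↔ b ∈ Q)) :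
    ∃ h ∈ H, Q = h • P := by
  letI : TopologicalSpace Zb := ⊥
  haveI : DiscreteTopology Zb := ⟨rfl⟩
  haveI : ContinuousSMul _root_.Fermat.Agent.S55.Bridge.H959.GQ Zb := continuousSMul_integralClosure
  haveI : CompactSpace H := isCompact_iff_compactSpace.mp hH.isCompact
  haveI : TotallyDisconnectedSpace H := Subtype.totallyDisconnectedSpace
  haveI : ContinuousSMul H Zb := by
    refine ⟨?_⟩
    have h1 : Continuous fun p : _root_.Fermat.Agent.S55.Bridge.H959.GQ × Zb => p.1 • p.2 := continuous_smul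
    exact h1.comp (Continuous.prodMap continuous_subtype_val continuous_id)
  letI A₀ : Subalgebra ℤ Zb := FixedPoints.subalgebra ℤ Zb H
  haveI : SMulCommClass H A₀ Zb := by
    refine ⟨fun h a b => ?_⟩
    show h • ((a : Zb) * b) = (a : Zb) * (h • b)
    rw [smul_mul']
    congr 1
    exact a.2 h
  haveI : Algebra.IsInvariant A₀ Zb H := ⟨fun b hb => ⟨⟨b, hb⟩, rfl⟩⟩
  have hunder : P.under A₀ = Q.under A₀ := by
    ext a
    simp only [Ideal.mem_comap]
    exact hPQ a.1 (fun h hh => a.2 ⟨h, hh⟩)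
  obtain ⟨g, hg⟩ := Algebra.IsInvariant.exists_smul_of_under_eq_of_profinite
    (A := A₀) (B := Zb) (G := H) P Q hunder
  exact ⟨g.1, g.2, hg⟩

/-- A closed subgroup `H` of `G_ℚ` acts transitively on the valuation subrings of `ℚ̄` over `ℓ`
having the same trace on the `H`-invariant algebraic integers. -/
theorem exists_smul_valuationSubring_eq (H : Subgroup _root_.Fermat.Agent.S55.Bridge.H959.GQ) (hH : IsClosed (H : Set _root_.Fermat.Agent.S55.Bridge.H959.GQ))
    (A A' : ValuationSubring Qb) (ℓ : ℕ) (hℓ : ℓ.Prime)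
    (hA : A.LiesOverPrime ℓ) (hA' : A'.LiesOverPrime ℓ)
    (hAA' : ∀ b : Qb, IsIntegral ℤ b → (∀ h ∈ H, h b = b) → (b ∈ A.nonunits ↔ b ∈ A'.nonunits)) :
    ∃ h ∈ H, A' = h • A := by
  haveI := primeBelow_isPrime A
  haveI := primeBelow_isPrime A'
  obtain ⟨h, hh, hP⟩ := exists_smul_prime_eq H hH (primeBelow A) (primeBelow A')
    (fun b hb => hAA' b.1 b.2 (fun h hh => congrArg Subtype.val (hb h hh)))
  refine ⟨h, hh, ?_⟩
  rw [← _root_.Fermat.Agent.S55.Bridge.H959.primeBelow_smul] at hP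
  exact eq_of_primeBelow_eq A' (h • A) ℓ hℓ hA' (liesOverPrime_smul A h ℓ hA) hP

end primes

/-! ## 2. Restriction to a normal intermediate field -/

section restrict

variable {K L : Type*} [Field K] [Field L] [Algebra K L]

/-- Elements of the decomposition group preserve the nonunits. -/
theorem apply_mem_nonunits_iff (A : ValuationSubring L) (σ : L ≃ₐ[K] L)
    (hσ : σ ∈ A.decompositionSubgroup K) (x : L) : σ x ∈ A.nonunits ↔ x ∈ A.nonunits := by
  rw [mem_decomposition_iff] at hσ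
  rw [mem_nonunits_iff_inv_notMem, mem_nonunits_iff_inv_notMem, ← map_inv₀, hσ,
    map_eq_zero_iff σ σ.injective]

variable (A : ValuationSubring Qb) (F : IntermediateField ℚ Qb) [Normal ℚ F]

/-- The defining property of restriction to `F`. -/
theorem restrict_apply (σ : _root_.Fermat.Agent.S55.Bridge.H959.GQ) (x : F) :
    algebraMap F Qb ((AlgEquiv.restrictNormalHom F σ) x) = σ (algebraMap F Qb x) :=
  AlgEquiv.restrictNormal_commutes σ F x

/-- Restriction maps `D_A` into `D_{A ∩ F}`. -/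
theorem restrict_mem_decomposition (σ : _root_.Fermat.Agent.S55.Bridge.H959.GQ) (hσ : σ ∈ A.decompositionSubgroup ℚ) :
    AlgEquiv.restrictNormalHom F σ ∈ (A.comap (algebraMap F Qb)).decompositionSubgroup ℚ := by
  rw [mem_decomposition_iff] at hσ ⊢
  intro x
  rw [ValuationSubring.mem_comap, ValuationSubring.mem_comap]
  rw [restrict_apply, hσ]

/-- Restriction maps `I_A` into `I_{A ∩ F}`. -/
theorem restrict_mem_inertia (σ : _root_.Fermat.Agent.S55.Bridge.H959.GQ) (hσ : σ ∈ A.inertiaSubgroupIn ℚ) :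
    AlgEquiv.restrictNormalHom F σ ∈ (A.comap (algebraMap F Qb)).inertiaSubgroupIn ℚ := by
  rw [mem_inertia_iff] at hσ ⊢
  refine ⟨restrict_mem_decomposition A F σ hσ.1, fun z hz => ?_⟩
  rw [mem_nonunits_comap_iff, map_sub]
  rw [restrict_apply]
  exact hσ.2 _ (ValuationSubring.mem_comap.mp hz)

/-- Elements of `G_F` restrict to the identity of `F`. -/
theorem restrict_eq_one_of_mem_fixingSubgroup (h : _root_.Fermat.Agent.S55.Bridge.H959.GQ) (hh : h ∈ F.fixingSubgroup) :
    AlgEquiv.restrictNormalHom F h = 1 := by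
  ext x
  show algebraMap F Qb ((AlgEquiv.restrictNormalHom F h) x) = algebraMap F Qb x
  rw [restrict_apply]
  exact hh ⟨x.1, x.2⟩

omit [Normal ℚ F] in
/-- An element of `ℚ̄` fixed by `G_F` lies in `F`. -/
theorem mem_of_fixed (b : Qb) (hb : ∀ h ∈ F.fixingSubgroup, h b = b) : b ∈ F := by
  rw [← InfiniteGalois.fixedField_fixingSubgroup F]
  exact fun h => hb h.1 h.2

/-- **B14, decomposition groups.**  Every element of the decomposition group of `A ∩ F` is the
restriction of an element of the decomposition group of `A`. -/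
theorem exists_mem_decomposition_restrict_eq (ℓ : ℕ) (hℓ : ℓ.Prime) (hA : A.LiesOverPrime ℓ)
    (τ : F ≃ₐ[ℚ] F) (hτ : τ ∈ (A.comap (algebraMap F Qb)).decompositionSubgroup ℚ) :
    ∃ σ ∈ A.decompositionSubgroup ℚ, AlgEquiv.restrictNormalHom F σ = τ := by
  obtain ⟨σ₀, hσ₀⟩ := AlgEquiv.restrictNormalHom_surjective Qb τ
  have key : ∀ b : Qb, IsIntegral ℤ b → (∀ h ∈ F.fixingSubgroup, h b = b) →
      (b ∈ (σ₀ • A).nonunits ↔ b ∈ A.nonunits) := by
    intro b _ hb
    have hbF : b ∈ F := mem_of_fixed F b hb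
    rw [mem_nonunits_smul_iff]
    have h1 : σ₀⁻¹ b = algebraMap F Qb (τ⁻¹ ⟨b, hbF⟩) := by
      rw [← hσ₀, ← map_inv, restrict_apply]
      rfl
    rw [h1, ← mem_nonunits_comap_iff,
      apply_mem_nonunits_iff _ τ⁻¹ (Subgroup.inv_mem _ hτ), mem_nonunits_comap_iff]
    rfl
  obtain ⟨h, hh, hA'⟩ := exists_smul_valuationSubring_eq F.fixingSubgroup
    (InfiniteGalois.fixingSubgroup_isClosed F) (σ₀ • A) A ℓ hℓ
    (liesOverPrime_smul A σ₀ ℓ hA) hA key
  refine ⟨h * σ₀, ?_, ?_⟩
  · rw [MulAction.mem_stabilizer_iff, mul_smul]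
    exact hA'.symm
  · rw [map_mul, restrict_eq_one_of_mem_fixingSubgroup F h hh, one_mul, hσ₀]

/-- An element of `G_ℚ` stabilising the prime of `ℤ̄` below `A` lies in `D_A`. -/
theorem mem_decomposition_of_smul_primeBelow (ℓ : ℕ) (hℓ : ℓ.Prime) (hA : A.LiesOverPrime ℓ)
    (g : _root_.Fermat.Agent.S55.Bridge.H959.GQ) (hg : g • primeBelow A = primeBelow A) : g ∈ A.decompositionSubgroup ℚ := by
  rw [MulAction.mem_stabilizer_iff]
  rw [← _root_.Fermat.Agent.S55.Bridge.H959.primeBelow_smul] at hg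
  exact eq_of_primeBelow_eq (g • A) A ℓ hℓ (liesOverPrime_smul A g ℓ hA) hA hg

/-- An element of `D_A` acting trivially on `ℤ̄` modulo the prime below `A` lies in `I_A`. -/
theorem mem_inertia_of_integral (ℓ : ℕ) (hℓ : ℓ.Prime) (hA : A.LiesOverPrime ℓ)
    (σ : _root_.Fermat.Agent.S55.Bridge.H959.GQ) (hσ : σ ∈ A.decompositionSubgroup ℚ)
    (h : ∀ b : Qb, IsIntegral ℤ b → σ b - b ∈ A.nonunits) : σ ∈ A.inertiaSubgroupIn ℚ := by
  rw [mem_inertia_iff]
  refine ⟨hσ, fun z hz => ?_⟩
  obtain ⟨b, s, hb, hs, hsA, hzs⟩ := (mem_valuationSubring_iff A ℓ hℓ hA z).mp hz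
  have hσs : σ s ∉ A.nonunits := by
    rw [apply_mem_nonunits_iff A σ hσ]
    exact hsA
  have hσsA : σ s ∈ A := isIntegral_mem_valuationSubring A (hs.map σ)
  have hv1 : A.valuation (σ s) = 1 := by
    rw [ValuationSubring.mem_nonunits_iff, not_lt] at hσs
    exact le_antisymm ((A.valuation_le_one_iff _).mpr hσsA) hσs
  have hid : (σ z - z) * σ s = (σ b - b) + z * (s - σ s) := by
    have : σ z * σ s = σ b := by rw [← map_mul, hzs]
    calc (σ z - z) * σ s = σ z * σ s - z * σ s := by ring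
      _ = σ b - z * σ s := by rw [this]
      _ = (σ b - b) + (z * s - z * σ s) := by rw [hzs]; ring
      _ = (σ b - b) + z * (s - σ s) := by ring
  have h1 : A.valuation (σ b - b) < 1 := (ValuationSubring.mem_nonunits_iff A).mp (h b hb)
  have h2 : A.valuation (z * (s - σ s)) < 1 := by
    rw [map_mul]
    have h3 : A.valuation (s - σ s) < 1 := by
      have := (ValuationSubring.mem_nonunits_iff A).mp (h s hs)
      rwa [← Valuation.map_neg, neg_sub] at this
    have h4 : A.valuation z ≤ 1 := (A.valuation_le_one_iff z).mpr hz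
    calc A.valuation z * A.valuation (s - σ s) ≤ 1 * A.valuation (s - σ s) :=
          mul_le_mul_left h4 _
      _ = A.valuation (s - σ s) := one_mul _
      _ < 1 := h3
  rw [ValuationSubring.mem_nonunits_iff]
  have h5 : A.valuation ((σ z - z) * σ s) < 1 := by
    rw [hid]
    exact lt_of_le_of_lt (A.valuation.map_add _ _) (max_lt h1 h2)
  rwa [map_mul, hv1, mul_one] at h5

/-- The stabiliser in a closed subgroup `H ≤ G_ℚ` of a prime `Q` of `ℤ̄` induces every
automorphism of `ℤ̄ / Q` which is trivial on the classes of the `H`-invariant elements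
(elementwise form of `Ideal.Quotient.stabilizerHom_surjective_of_profinite`). -/
theorem exists_mem_stabilizer_of_fixes (H : Subgroup _root_.Fermat.Agent.S55.Bridge.H959.GQ) (hH : IsClosed (H : Set _root_.Fermat.Agent.S55.Bridge.H959.GQ))
    (Q : Ideal Zb) [Q.IsPrime] (g : _root_.Fermat.Agent.S55.Bridge.H959.GQ) (hg : g • Q = Q)
    (hfix : ∀ a : Zb, (∀ h ∈ H, h • a = a) → g • a - a ∈ Q) :
    ∃ h ∈ H, h • Q = Q ∧ ∀ b : Zb, h • b - g • b ∈ Q := by
  letI : TopologicalSpace Zb := ⊥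
  haveI : DiscreteTopology Zb := ⟨rfl⟩
  haveI : ContinuousSMul _root_.Fermat.Agent.S55.Bridge.H959.GQ Zb := continuousSMul_integralClosure
  haveI : CompactSpace H := isCompact_iff_compactSpace.mp hH.isCompact
  haveI : TotallyDisconnectedSpace H := Subtype.totallyDisconnectedSpace
  haveI : ContinuousSMul H Zb := by
    refine ⟨?_⟩
    have h1 : Continuous fun p : _root_.Fermat.Agent.S55.Bridge.H959.GQ × Zb => p.1 • p.2 := continuous_smul
    exact h1.comp (Continuous.prodMap continuous_subtype_val continuous_id)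
  letI A₀ : Subalgebra ℤ Zb := FixedPoints.subalgebra ℤ Zb H
  haveI : SMulCommClass H A₀ Zb := by
    refine ⟨fun h a b => ?_⟩
    show h • ((a : Zb) * b) = (a : Zb) * (h • b)
    rw [smul_mul']
    congr 1
    exact a.2 h
  haveI : Algebra.IsInvariant A₀ Zb H := ⟨fun b hb => ⟨⟨b, hb⟩, rfl⟩⟩
  -- the automorphism of `ℤ̄ / Q` induced by `g`, as an algebra automorphism over `A₀ / (Q ∩ A₀)`
  let ρ : (Zb ⧸ Q) ≃ₐ[ℤ ⧸ Q.under ℤ] (Zb ⧸ Q) :=
    Ideal.Quotient.stabilizerHom Q (Q.under ℤ) _root_.Fermat.Agent.S55.Bridge.H959.GQ ⟨g, hg⟩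
  have hρ : ∀ b : Zb, ρ (Ideal.Quotient.mk Q b) = Ideal.Quotient.mk Q (g • b) := fun b => rfl
  let e : (Zb ⧸ Q) ≃ₐ[A₀ ⧸ Q.under A₀] (Zb ⧸ Q) :=
    AlgEquiv.ofRingEquiv (f := ρ.toRingEquiv) (by
      intro y
      obtain ⟨a, rfl⟩ := Ideal.Quotient.mk_surjective y
      show ρ (Ideal.Quotient.mk Q (a : Zb)) = Ideal.Quotient.mk Q (a : Zb)
      rw [hρ, Ideal.Quotient.eq]
      exact hfix a.1 (fun h hh => a.2 ⟨h, hh⟩))
  obtain ⟨h, hh⟩ := Ideal.Quotient.stabilizerHom_surjective_of_profinite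
    (G := H) (Q.under A₀) Q e
  refine ⟨h.1.1, h.1.2, h.2, fun b => ?_⟩
  have h1 := congrArg (fun f => f (Ideal.Quotient.mk Q b)) hh
  simp only [Ideal.Quotient.stabilizerHom_apply] at h1
  rw [← Ideal.Quotient.eq]
  exact h1

/-- **B14, inertia groups.**  Every element of the inertia group of `A ∩ F` is the restriction
of an element of the inertia group of `A`. -/
theorem exists_mem_inertia_restrict_eq (ℓ : ℕ) (hℓ : ℓ.Prime) (hA : A.LiesOverPrime ℓ)
    (τ : F ≃ₐ[ℚ] F) (hτ : τ ∈ (A.comap (algebraMap F Qb)).inertiaSubgroupIn ℚ) :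
    ∃ σ ∈ A.inertiaSubgroupIn ℚ, AlgEquiv.restrictNormalHom F σ = τ := by
  have hτinv := Subgroup.inv_mem _ hτ
  rw [mem_inertia_iff] at hτ hτinv
  obtain ⟨σ, hσD, hσ⟩ := _root_.Fermat.Agent.S55.Bridge.H959.exists_mem_decomposition_restrict_eq A F ℓ hℓ hA τ hτ.1
  haveI := primeBelow_isPrime A
  have hσinvD : σ⁻¹ ∈ A.decompositionSubgroup ℚ := Subgroup.inv_mem _ hσD
  have hσQ : σ⁻¹ • primeBelow A = primeBelow A := by
    rw [← _root_.Fermat.Agent.S55.Bridge.H959.primeBelow_smul]
    congr 1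
  obtain ⟨h, hh, hhQ, hcong⟩ := exists_mem_stabilizer_of_fixes F.fixingSubgroup
    (InfiniteGalois.fixingSubgroup_isClosed F) (primeBelow A) σ⁻¹ hσQ (by
      intro a ha
      have haF : (a : Qb) ∈ F :=
        mem_of_fixed F a (fun h hh => congrArg Subtype.val (ha h hh))
      rw [mem_primeBelow]
      show σ⁻¹ (a : Qb) - (a : Qb) ∈ A.nonunits
      have h1 : σ⁻¹ (a : Qb) = algebraMap F Qb (τ⁻¹ ⟨a, haF⟩) := by
        rw [← hσ, ← map_inv, restrict_apply]
        rfl
      have h3 : σ⁻¹ (a : Qb) - (a : Qb) =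
          algebraMap F Qb (τ⁻¹ (⟨a, haF⟩ : F) - (⟨a, haF⟩ : F)) := by
        rw [map_sub, ← h1]
        rfl
      rw [h3, ← mem_nonunits_comap_iff]
      refine hτinv.2 _ ?_
      rw [ValuationSubring.mem_comap]
      exact isIntegral_mem_valuationSubring A a.2)
  have hhD : h ∈ A.decompositionSubgroup ℚ :=
    mem_decomposition_of_smul_primeBelow A ℓ hℓ hA h hhQ
  refine ⟨h * σ, ?_, ?_⟩
  · refine mem_inertia_of_integral A ℓ hℓ hA (h * σ) (Subgroup.mul_mem _ hhD hσD) ?_
    intro b hb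
    have h1 := hcong ⟨σ b, hb.map σ⟩
    rw [mem_primeBelow] at h1
    have h2 : ((h • (⟨σ b, hb.map σ⟩ : Zb) - σ⁻¹ • (⟨σ b, hb.map σ⟩ : Zb) : Zb) : Qb)
        = (h * σ) b - b := by
      show h (σ b) - σ⁻¹ (σ b) = (h * σ) b - b
      have : σ⁻¹ (σ b) = b := by
        show (σ⁻¹ * σ) b = b
        rw [inv_mul_cancel]
        rfl
      rw [this]
      rfl
    rw [h2] at h1
    exact h1
  · rw [map_mul, restrict_eq_one_of_mem_fixingSubgroup F h hh, one_mul, hσ]

/-- **B14.**  The image of `D_A` in `Gal(F/ℚ)` is `D_{A ∩ F}`. -/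
theorem map_decompositionSubgroup (ℓ : ℕ) (hℓ : ℓ.Prime) (hA : A.LiesOverPrime ℓ) :
    (A.decompositionSubgroup ℚ).map (AlgEquiv.restrictNormalHom F) =
      (A.comap (algebraMap F Qb)).decompositionSubgroup ℚ := by
  ext τ
  constructor
  · rintro ⟨σ, hσ, rfl⟩
    exact restrict_mem_decomposition A F σ hσ
  · intro hτ
    obtain ⟨σ, hσ, rfl⟩ := _root_.Fermat.Agent.S55.Bridge.H959.exists_mem_decomposition_restrict_eq A F ℓ hℓ hA τ hτ
    exact ⟨σ, hσ, rfl⟩

/-- **B14.**  The image of `I_A` in `Gal(F/ℚ)` is `I_{A ∩ F}`. -/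
theorem map_inertiaSubgroupIn (ℓ : ℕ) (hℓ : ℓ.Prime) (hA : A.LiesOverPrime ℓ) :
    (A.inertiaSubgroupIn ℚ).map (AlgEquiv.restrictNormalHom F) =
      (A.comap (algebraMap F Qb)).inertiaSubgroupIn ℚ := by
  ext τ
  constructor
  · rintro ⟨σ, hσ, rfl⟩
    exact restrict_mem_inertia A F σ hσ
  · intro hτ
    obtain ⟨σ, hσ, rfl⟩ := _root_.Fermat.Agent.S55.Bridge.H959.exists_mem_inertia_restrict_eq A F ℓ hℓ hA τ hτ
    exact ⟨σ, hσ, rfl⟩

/-- `F` is unramified at `A` in the Prelude sense (`I_A ≤ G_F`) iff the inertia group of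
`A ∩ F` in `Gal(F/ℚ)` is trivial. -/
theorem inertia_le_fixingSubgroup_iff (ℓ : ℕ) (hℓ : ℓ.Prime) (hA : A.LiesOverPrime ℓ) :
    A.inertiaSubgroupIn ℚ ≤ F.fixingSubgroup ↔
      (A.comap (algebraMap F Qb)).inertiaSubgroupIn ℚ = ⊥ := by
  rw [← map_inertiaSubgroupIn A F ℓ hℓ hA, Subgroup.map_eq_bot_iff]
  constructor
  · intro h σ hσ
    rw [MonoidHom.mem_ker]
    exact restrict_eq_one_of_mem_fixingSubgroup F σ (h hσ)
  · intro h σ hσ
    have h1 : AlgEquiv.restrictNormalHom F σ = 1 := MonoidHom.mem_ker.mp (h hσ)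
    rw [IntermediateField.mem_fixingSubgroup_iff]
    intro x hx
    have h2 := restrict_apply F σ ⟨x, hx⟩
    rw [h1] at h2
    exact h2.symm

end restrict

end Fermat.Agent.S55.Bridge.H959

end
-- ===== PACK-END S55/Bridge/H959/Restrict.lean

-- ===== PACK-BEGIN S56/FL/Spec.lean
section


/-!
# Row S56 — wall W-FLAT-SS (flat tangent bound, `ρ̄|_{D_p}` irreducible): FROZEN interface
(sub-architect helper426; blueprint `coord/S56-FLATSS-helper426.md` on `origin/helper426`)

`FlatSSStatement ⇐ LocalModelStatement + RamCountStatement`   (glue: `FL/Glue.lean`)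

* `FlatSSStatement` — any two flat tangent cocycles are `k`-linearly dependent modulo coboundaries
  on the decomposition group `D_P`, `P ∣ p`, when `ρ̄|_{D_P}` is irreducible.
* `LocalModelStatement` (`ℚ̄`-side; uses flatness): the field `L` cut out over the decomposition
  field by `V'₁ ⊕ V'₂` has a finite-level model `(A ⊂ B, Γ = Gal)`, `A = P ∩ ℚ̄^{D}`, `B = P ∩ L`,
  and `B/A` satisfies the different bound of Theorem D:
  `𝔇_{B/A} ∣ (p) · 𝔪_B^{k-1}` for `p ∤ k`, `k < e`, `e < k (p - 1)`.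
* `RamCountStatement` (pure algebra, Mathlib only; ramification filtration count): a discrete
  valuation ring `B` with Galois group `Γ` over an unramified base `A`, satisfying the different
  bound, carries at most a line of classes of the relevant kind.
* `DiffCoreStatement` (pure algebra, Mathlib only; input of `LocalModelStatement`): if
  `A[X]/(G) ≅ A[X]/(G + pX^k)` for an Eisenstein polynomial `G`, then `v(G'(π)) ≤ v(p) + k - 1`.

Nothing unproved in this file.
-/

set_option autoImplicit false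

open Polynomial IsLocalRing

noncomputable section

namespace Fermat.Agent.S56.FL

open Fermat.Agent.S56 Fermat.Agent.S56.H716

/-- **W-FLAT-SS, top statement.**  In the supersingular case (`ρ̄|_{D_P}` irreducible) any two
flat tangent cocycles are linearly dependent modulo coboundaries on `D_P`. -/
def FlatSSStatement : Prop :=
  ∀ (k : Type) [Field k] [Finite k] (p : ℕ) [Fact p.Prime], p ≠ 2 → CharP k p →
    ∀ (ρbar : ResidualGaloisRep k),
      (∀ (σ : GQ) (a : ℕ), IsCycExp p σ a → LinearMap.det (ρbar.ρ σ) = (a : k)) →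
      (∀ σ : GQ, ∃ α β : k, LinearMap.charpoly (ρbar.ρ σ) = (X - C α) * (X - C β)) →
      ∀ (P : ValuationSubring Qb), P.LiesOverPrime p →
        (∀ U : Submodule k ρbar.V,
          (∀ σ ∈ P.decompositionSubgroup ℚ, ∀ x ∈ U, ρbar.ρ σ x ∈ U) → U = ⊥ ∨ U = ⊤) →
        ∀ (c₁ c₂ : GQ → Module.End k ρbar.V), IsAdCocycle ρbar c₁ → IsAdCocycle ρbar c₂ →
          ∀ (ρ₁ ρ₂ : GaloisRepAdic (DualNumber k)), IsLiftOf ρbar c₁ ρ₁ → IsLiftOf ρbar c₂ ρ₂ →
            ρ₁.IsFlatAt p → ρ₂.IsFlatAt p →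
            ∃ a₁ a₂ : k, (a₁ ≠ 0 ∨ a₂ ≠ 0) ∧ ∃ m : Module.End k ρbar.V,
              ∀ σ ∈ P.decompositionSubgroup ℚ,
                a₁ • c₁ σ + a₂ • c₂ σ = ρbar.ρ σ * m * ρbar.ρ σ⁻¹ - m

/-- **RAMCOUNT** (pure algebra).  `A ⊂ B` discrete valuation rings of characteristic `0`,
`A` with uniformizer `p` and residue field `𝔽_p`, `B/A` Galois with group `Γ`, satisfying the
different bound of Theorem D.  `ρ : Γ → GL(V)` an irreducible 2-dimensional representation over a
finite field `k` of characteristic `p` with eigenvalues in `k` and cyclotomic determinant,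
`c₁, c₂` trace-zero `Ad ρ`-cocycles such that `(ρ, c₁, c₂)` is faithful.  Then `c₁, c₂` are linearly
dependent modulo coboundaries. -/
def RamCountStatement : Prop :=
  ∀ (p : ℕ) [Fact p.Prime], p ≠ 2 →
    ∀ (A B : Type) [CommRing A] [IsDomain A] [IsDiscreteValuationRing A]
      [CommRing B] [IsDomain B] [IsDiscreteValuationRing B] [CharZero B]
      [Algebra A B] [Module.Finite A B] [FaithfulSMul A B]
      (Γ : Type) [Group Γ] [Finite Γ] [MulSemiringAction Γ B] [SMulCommClass Γ A B]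
      [Algebra.IsInvariant A B Γ] [FaithfulSMul Γ B],
      maximalIdeal A = Ideal.span {(p : A)} →
      Nat.card (ResidueField A) = p →
      ∀ e : ℕ, Ideal.span {(p : B)} = maximalIdeal B ^ e →
      (∀ j : ℕ, ¬ p ∣ j → j < e → e < j * (p - 1) →
        differentIdeal A B ∣ Ideal.span {(p : B)} * maximalIdeal B ^ (j - 1)) →
      ∀ (k : Type) [Field k] [Finite k], CharP k p →
      ∀ (V : Type) [AddCommGroup V] [Module k V] [Module.Finite k V], Module.finrank k V = 2 →
      ∀ (ρ : Γ →* Module.End k V),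
        (∀ U : Submodule k V, (∀ (σ : Γ), ∀ x ∈ U, ρ σ x ∈ U) → U = ⊥ ∨ U = ⊤) →
        (∀ σ : Γ, ∃ α β : k, LinearMap.charpoly (ρ σ) = (X - C α) * (X - C β)) →
        ∀ ζ : B, IsPrimitiveRoot ζ p →
        (∀ (σ : Γ) (a : ℕ), σ • ζ = ζ ^ a → LinearMap.det (ρ σ) = (a : k)) →
        ∀ (c₁ c₂ : Γ → Module.End k V),
          (∀ σ τ, c₁ (σ * τ) = c₁ σ + ρ σ * c₁ τ * ρ σ⁻¹) →
          (∀ σ τ, c₂ (σ * τ) = c₂ σ + ρ σ * c₂ τ * ρ σ⁻¹) →
          (∀ σ, LinearMap.trace k V (c₁ σ) = 0) →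
          (∀ σ, LinearMap.trace k V (c₂ σ) = 0) →
          (∀ σ, ρ σ = 1 → c₁ σ = 0 → c₂ σ = 0 → σ = 1) →
          ∃ a₁ a₂ : k, (a₁ ≠ 0 ∨ a₂ ≠ 0) ∧ ∃ m : Module.End k V,
            ∀ σ, a₁ • c₁ σ + a₂ • c₂ σ = ρ σ * m * ρ σ⁻¹ - m

/-- **LOCALMODEL** (`ℚ̄`-side, the only place where flatness is used).  For two flat lifts
`ρ₁, ρ₂` of `ρ̄` to the dual numbers with cocycles `c₁, c₂`, the finite quotient `Γ` of `D_P` through
which `(ρ̄, c₁, c₂)` factors is the Galois group of an extension `B/A` of discrete valuation rings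
(`A = P ∩ ℚ̄^{D_P}` unramified over `ℤ_(p)`, `B = P ∩ L`) which satisfies the different bound. -/
def LocalModelStatement : Prop :=
  ∀ (k : Type) [Field k] [Finite k] (p : ℕ) [Fact p.Prime], p ≠ 2 → CharP k p →
    ∀ (ρbar : ResidualGaloisRep k),
      (∀ (σ : GQ) (a : ℕ), IsCycExp p σ a → LinearMap.det (ρbar.ρ σ) = (a : k)) →
      ∀ (P : ValuationSubring Qb), P.LiesOverPrime p →
        ∀ (c₁ c₂ : GQ → Module.End k ρbar.V), IsAdCocycle ρbar c₁ → IsAdCocycle ρbar c₂ →
          ∀ (ρ₁ ρ₂ : GaloisRepAdic (DualNumber k)), IsLiftOf ρbar c₁ ρ₁ → IsLiftOf ρbar c₂ ρ₂ →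
            ρ₁.IsFlatAt p → ρ₂.IsFlatAt p →
            ∃ (A B : Type) (_ : CommRing A) (_ : IsDomain A) (_ : IsDiscreteValuationRing A)
              (_ : CommRing B) (_ : IsDomain B) (_ : IsDiscreteValuationRing B) (_ : CharZero B)
              (_ : Algebra A B) (_ : Module.Finite A B) (_ : FaithfulSMul A B)
              (Γ : Type) (_ : Group Γ) (_ : Finite Γ) (_ : MulSemiringAction Γ B)
              (_ : SMulCommClass Γ A B) (_ : Algebra.IsInvariant A B Γ) (_ : FaithfulSMul Γ B)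
              (π : P.decompositionSubgroup ℚ →* Γ) (ζ : B) (e : ℕ),
              Function.Surjective π ∧
              (∀ σ : P.decompositionSubgroup ℚ,
                π σ = 1 ↔ (ρbar.ρ (σ : GQ) = 1 ∧ c₁ (σ : GQ) = 0 ∧ c₂ (σ : GQ) = 0)) ∧
              maximalIdeal A = Ideal.span {(p : A)} ∧
              Nat.card (ResidueField A) = p ∧
              IsPrimitiveRoot ζ p ∧
              (∀ (σ : P.decompositionSubgroup ℚ) (a : ℕ),
                π σ • ζ = ζ ^ a → IsCycExp p (σ : GQ) a) ∧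
              Ideal.span {(p : B)} = maximalIdeal B ^ e ∧
              ∀ j : ℕ, ¬ p ∣ j → j < e → e < j * (p - 1) →
                differentIdeal A B ∣ Ideal.span {(p : B)} * maximalIdeal B ^ (j - 1)

/-- **DCORE** (pure algebra; Theorem D, step "different comparison").  `A` a discrete valuation
ring of characteristic `0` with `(p) = 𝔪_A ^ a`, `a > 0`, `G` an Eisenstein polynomial of degree `e`,
`0 < j < e`, `p ∤ j`.  If `A[X]/(G)` and `A[X]/(G + p X^j)` are isomorphic `A`-algebras, then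
`G'(π)` divides `π ^ (e a + j - 1)` in `A[X]/(G)`. -/
def DiffCoreStatement : Prop :=
  ∀ (p : ℕ) [Fact p.Prime] (A : Type) [CommRing A] [IsDomain A] [IsDiscreteValuationRing A]
    [CharZero A] (a : ℕ), 0 < a → Ideal.span {(p : A)} = maximalIdeal A ^ a →
    ∀ (G : A[X]) (e j : ℕ), G.Monic → G.natDegree = e → G.IsEisensteinAt (maximalIdeal A) →
      ¬ p ∣ j → 0 < j → j < e →
      Nonempty (AdjoinRoot G ≃ₐ[A] AdjoinRoot (G + C (p : A) * X ^ j)) →
      aeval (AdjoinRoot.root G) (derivative G) ∣ (AdjoinRoot.root G) ^ (e * a + j - 1)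

end Fermat.Agent.S56.FL

end

end
-- ===== PACK-END S56/FL/Spec.lean

-- ===== PACK-BEGIN S56/FO/H6/CharInt.lean
section


/-!
# S56 / FLAT-O / CHAR-INT (helper6): characters are integral combinations of a Hopf lattice

`Λ` a Hopf lattice (cell A3, `Fermat.Agent.S19.H435.IsHopfLattice`) on a finite abelian group `M`.

* `span_Qb_eq_top`: the `ℚ̄`-span of `Λ` is the space of all functions `M → ℚ̄` (a separating
  subalgebra of functions on a finite set).
* `isIntegral_coeff_of_character`: if `χ : M → ℚ̄` is multiplicative (`χ 0 = 1`,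
  `χ (x + y) = χ x * χ y`) and `e` is a basis of `Λ` as in `IsHopfLattice.exists_basis`, then
  `χ = ∑ c i • e i` with all `c i` INTEGRAL over `ℤ_(ℓ)`.

Proof of integrality: if `e j (x + y) = ∑ γ j i k * e i x * e k y` (`γ ∈ ℤ_(ℓ)`), multiplicativity
of `χ` gives `c i * c k = ∑ j, γ j i k * c j`; so every `c i` stabilises the finitely generated
`ℤ_(ℓ)`-module `∑ ℤ_(ℓ) c j ≠ 0`.  (No dual Hopf algebra, no group algebra.)
-/

set_option autoImplicit false
set_option linter.style.haveILetI false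
set_option linter.unusedSectionVars false

noncomputable section

namespace Fermat.Agent.S56.FO.H6

open Fermat.Agent.S19.H435
open scoped BigOperators

variable {ℓ : ℕ} {M : Type*} [AddCommGroup M] {act : Gal → M → M}
  {Λ : Subalgebra (Zl ℓ) (M → _root_.Fermat.Agent.S19.H435.Qb)}

/-- The `ℚ̄`-span of a separating `ℤ_(ℓ)`-subalgebra of functions on a finite set is everything. -/
theorem span_Qb_eq_top [Finite M] (hsep : ∀ m n : M, m ≠ n → ∃ f ∈ Λ, f m ≠ f n) :
    Submodule.span _root_.Fermat.Agent.S19.H435.Qb (Λ : Set (M → _root_.Fermat.Agent.S19.H435.Qb)) = ⊤ := by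
  classical
  haveI : Fintype M := Fintype.ofFinite M
  set A : Subalgebra _root_.Fermat.Agent.S19.H435.Qb (M → _root_.Fermat.Agent.S19.H435.Qb) := Algebra.adjoin _root_.Fermat.Agent.S19.H435.Qb (Λ : Set (M → _root_.Fermat.Agent.S19.H435.Qb)) with hA
  have hδ : ∀ m : M, (Pi.single m (1 : _root_.Fermat.Agent.S19.H435.Qb) : M → _root_.Fermat.Agent.S19.H435.Qb) ∈ A := by
    intro m
    have hex : ∀ n : M, ∃ g ∈ A, g m = 1 ∧ (n ≠ m → g n = 0) := by
      intro n
      by_cases h : n = m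
      · exact ⟨1, A.one_mem, rfl, fun h' => absurd h h'⟩
      · obtain ⟨f, hf, hne⟩ := hsep m n (Ne.symm h)
        have hne' : f m - f n ≠ 0 := sub_ne_zero.mpr hne
        refine ⟨(f m - f n)⁻¹ • (f - algebraMap _root_.Fermat.Agent.S19.H435.Qb (M → _root_.Fermat.Agent.S19.H435.Qb) (f n)), ?_, ?_, ?_⟩
        · exact A.smul_mem (A.sub_mem (Algebra.subset_adjoin hf) (A.algebraMap_mem _)) _
        · show (f m - f n)⁻¹ * (f m - f n) = 1
          exact inv_mul_cancel₀ hne'
        · intro _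
          show (f m - f n)⁻¹ * (f n - f n) = 0
          rw [sub_self, mul_zero]
    choose g hgA hgm hgn using hex
    have hprod : (Pi.single m (1 : _root_.Fermat.Agent.S19.H435.Qb) : M → _root_.Fermat.Agent.S19.H435.Qb) = ∏ n, g n := by
      funext x
      rw [Finset.prod_apply]
      by_cases hx : x = m
      · subst hx
        rw [Pi.single_eq_same]
        exact (Finset.prod_eq_one fun n _ => hgm n).symm
      · rw [Pi.single_eq_of_ne hx]
        exact (Finset.prod_eq_zero (f := fun c => g c x) (Finset.mem_univ x) (hgn x hx)).symm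
    rw [hprod]
    exact A.prod_mem fun n _ => hgA n
  have hAtop : ∀ F : M → _root_.Fermat.Agent.S19.H435.Qb, F ∈ A := by
    intro F
    have hF : F = ∑ m, F m • (Pi.single m (1 : _root_.Fermat.Agent.S19.H435.Qb) : M → _root_.Fermat.Agent.S19.H435.Qb) := by
      funext x
      rw [Finset.sum_apply, Finset.sum_eq_single x]
      · simp
      · intro b _ hb
        simp [Pi.single_eq_of_ne (Ne.symm hb)]
      · intro h
        exact absurd (Finset.mem_univ x) h
    rw [hF]
    exact A.sum_mem fun m _ => A.smul_mem (hδ m) _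
  have hspan : Subalgebra.toSubmodule A = Submodule.span _root_.Fermat.Agent.S19.H435.Qb (Λ : Set (M → _root_.Fermat.Agent.S19.H435.Qb)) := by
    rw [hA, Algebra.adjoin_eq_span]
    congr 1
    exact congrArg SetLike.coe (Submonoid.closure_eq Λ.toSubmonoid)
  rw [eq_top_iff]
  intro F _
  rw [← hspan]
  exact hAtop F

/-- Every function is a `ℚ̄`-combination of a basis of a Hopf lattice. -/
theorem exists_coeff_of_basis [Finite M] (hsep : ∀ m n : M, m ≠ n → ∃ f ∈ Λ, f m ≠ f n)
    {n : ℕ} (e : Fin n → M → _root_.Fermat.Agent.S19.H435.Qb)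
    (hexp : ∀ f ∈ Λ, ∃ c : Fin n → Zl ℓ, f = ∑ i, c i • e i) (F : M → _root_.Fermat.Agent.S19.H435.Qb) :
    ∃ c : Fin n → _root_.Fermat.Agent.S19.H435.Qb, F = ∑ i, c i • e i := by
  have h1 : F ∈ Submodule.span _root_.Fermat.Agent.S19.H435.Qb (Λ : Set (M → _root_.Fermat.Agent.S19.H435.Qb)) := by
    rw [span_Qb_eq_top hsep]
    exact Submodule.mem_top
  have h2 : Submodule.span _root_.Fermat.Agent.S19.H435.Qb (Λ : Set (M → _root_.Fermat.Agent.S19.H435.Qb)) ≤ Submodule.span _root_.Fermat.Agent.S19.H435.Qb (Set.range e) := by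
    rw [Submodule.span_le]
    intro f hf
    obtain ⟨c, rfl⟩ := hexp f hf
    refine Submodule.sum_mem _ fun i _ => ?_
    have : c i • e i = (algebraMap (Zl ℓ) _root_.Fermat.Agent.S19.H435.Qb (c i)) • e i := (algebraMap_smul _root_.Fermat.Agent.S19.H435.Qb (c i) (e i)).symm
    rw [this]
    exact Submodule.smul_mem _ _ (Submodule.subset_span ⟨i, rfl⟩)
  obtain ⟨c, hc⟩ := (Submodule.mem_span_range_iff_exists_fun _root_.Fermat.Agent.S19.H435.Qb).mp (h2 h1)
  exact ⟨c, hc.symm⟩

/-- Pointwise form of an expansion with `ℤ_(ℓ)`-coefficients. -/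
theorem sum_Zl_smul_apply {n : ℕ} (c : Fin n → Zl ℓ) (e : Fin n → M → _root_.Fermat.Agent.S19.H435.Qb) (x : M) :
    (∑ i, c i • e i) x = ∑ i, algebraMap (Zl ℓ) _root_.Fermat.Agent.S19.H435.Qb (c i) * e i x := by
  rw [Finset.sum_apply]
  refine Finset.sum_congr rfl fun i _ => ?_
  show c i • e i x = _
  rw [Algebra.smul_def]

/-- Pointwise form of an expansion with `ℚ̄`-coefficients. -/
theorem sum_Qb_smul_apply {n : ℕ} (c : Fin n → _root_.Fermat.Agent.S19.H435.Qb) (e : Fin n → M → _root_.Fermat.Agent.S19.H435.Qb) (x : M) :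
    (∑ i, c i • e i) x = ∑ i, c i * e i x := by
  rw [Finset.sum_apply]
  rfl

/-- Comultiplication constants of a Hopf lattice in a basis. -/
theorem exists_comul_constants (hΛ : IsHopfLattice ℓ act Λ) {n : ℕ} (e : Fin n → M → _root_.Fermat.Agent.S19.H435.Qb)
    (he : ∀ i, e i ∈ Λ) (hexp : ∀ f ∈ Λ, ∃ c : Fin n → Zl ℓ, f = ∑ i, c i • e i) :
    ∃ γ : Fin n → Fin n → Fin n → Zl ℓ, ∀ (j : Fin n) (x y : M),
      e j (x + y) = ∑ i, ∑ k, algebraMap (Zl ℓ) _root_.Fermat.Agent.S19.H435.Qb (γ j i k) * (e i x * e k y) := by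
  have key : ∀ j : Fin n, ∃ γ : Fin n → Fin n → Zl ℓ, ∀ x y : M,
      e j (x + y) = ∑ i, ∑ k, algebraMap (Zl ℓ) _root_.Fermat.Agent.S19.H435.Qb (γ i k) * (e i x * e k y) := by
    intro j
    obtain ⟨N, a, b, ha, hb, hab⟩ := hΛ.comul_mem (e j) (he j)
    choose α hα using fun t => hexp (a t) (ha t)
    choose β hβ using fun t => hexp (b t) (hb t)
    refine ⟨fun i k => ∑ t, α t i * β t k, fun x y => ?_⟩
    rw [hab x y]
    have h1 : ∀ t, a t x * b t y =
        ∑ i, ∑ k, algebraMap (Zl ℓ) _root_.Fermat.Agent.S19.H435.Qb (α t i * β t k) * (e i x * e k y) := by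
      intro t
      rw [hα t, hβ t, sum_Zl_smul_apply, sum_Zl_smul_apply, Finset.sum_mul_sum]
      refine Finset.sum_congr rfl fun i _ => Finset.sum_congr rfl fun k _ => ?_
      rw [map_mul]
      ring
    simp_rw [h1]
    rw [Finset.sum_comm]
    refine Finset.sum_congr rfl fun i _ => ?_
    rw [Finset.sum_comm]
    refine Finset.sum_congr rfl fun k _ => ?_
    rw [map_sum, Finset.sum_mul]
  choose γ hγ using key
  exact ⟨γ, hγ⟩

/-- `ℚ̄`-linear independence of the products `e i x * e k y`. -/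
theorem eq_zero_of_sum_mul_eq_zero {n : ℕ} (e : Fin n → M → _root_.Fermat.Agent.S19.H435.Qb) (hli : LinearIndependent _root_.Fermat.Agent.S19.H435.Qb e)
    (w : Fin n → Fin n → _root_.Fermat.Agent.S19.H435.Qb) (h : ∀ x y : M, ∑ i, ∑ k, w i k * (e i x * e k y) = 0) :
    ∀ i k, w i k = 0 := by
  have hli' := Fintype.linearIndependent_iff.mp hli
  have h1 : ∀ (y : M) (i : Fin n), ∑ k, w i k * e k y = 0 := by
    intro y
    apply hli'
    funext x
    rw [sum_Qb_smul_apply, Pi.zero_apply, ← h x y]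
    refine Finset.sum_congr rfl fun i _ => ?_
    rw [Finset.sum_mul]
    refine Finset.sum_congr rfl fun k _ => ?_
    ring
  intro i
  apply hli'
  funext y
  rw [sum_Qb_smul_apply, Pi.zero_apply]
  exact h1 y i

/-- **CHAR-INT.**  A multiplicative function on `M` is an INTEGRAL combination of any basis of a
Hopf lattice. -/
theorem isIntegral_coeff_of_character [Finite M] (hΛ : IsHopfLattice ℓ act Λ)
    {n : ℕ} (e : Fin n → M → _root_.Fermat.Agent.S19.H435.Qb) (he : ∀ i, e i ∈ Λ) (hli : LinearIndependent _root_.Fermat.Agent.S19.H435.Qb e)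
    (hexp : ∀ f ∈ Λ, ∃ c : Fin n → Zl ℓ, f = ∑ i, c i • e i)
    (χ : M → _root_.Fermat.Agent.S19.H435.Qb) (h0 : χ 0 = 1) (hadd : ∀ x y : M, χ (x + y) = χ x * χ y) :
    ∃ c : Fin n → _root_.Fermat.Agent.S19.H435.Qb, (∀ i, IsIntegral (Zl ℓ) (c i)) ∧ χ = ∑ i, c i • e i := by
  obtain ⟨c, hc⟩ := exists_coeff_of_basis hΛ.separates e hexp χ
  obtain ⟨γ, hγ⟩ := exists_comul_constants hΛ e he hexp
  refine ⟨c, ?_, hc⟩
  have hχ : ∀ x : M, χ x = ∑ i, c i * e i x := by
    intro x
    rw [hc, sum_Qb_smul_apply]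
  -- the group-like identity
  have hgl : ∀ i k : Fin n, c i * c k = ∑ j, algebraMap (Zl ℓ) _root_.Fermat.Agent.S19.H435.Qb (γ j i k) * c j := by
    have := eq_zero_of_sum_mul_eq_zero e hli
      (fun i k => c i * c k - ∑ j, algebraMap (Zl ℓ) _root_.Fermat.Agent.S19.H435.Qb (γ j i k) * c j) (by
        intro x y
        have h1 : ∑ i, ∑ k, c i * c k * (e i x * e k y) = χ x * χ y := by
          rw [hχ x, hχ y, Finset.sum_mul_sum]
          refine Finset.sum_congr rfl fun i _ => Finset.sum_congr rfl fun k _ => ?_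
          ring
        have h2 : χ (x + y) =
            ∑ i, ∑ k, (∑ j, algebraMap (Zl ℓ) _root_.Fermat.Agent.S19.H435.Qb (γ j i k) * c j) * (e i x * e k y) := by
          rw [hχ (x + y)]
          have h3 : ∀ j, c j * e j (x + y) =
              ∑ i, ∑ k, algebraMap (Zl ℓ) _root_.Fermat.Agent.S19.H435.Qb (γ j i k) * c j * (e i x * e k y) := by
            intro j
            rw [hγ j x y, Finset.mul_sum]
            refine Finset.sum_congr rfl fun i _ => ?_
            rw [Finset.mul_sum]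
            refine Finset.sum_congr rfl fun k _ => ?_
            ring
          simp_rw [h3]
          rw [Finset.sum_comm]
          refine Finset.sum_congr rfl fun i _ => ?_
          rw [Finset.sum_comm]
          refine Finset.sum_congr rfl fun k _ => ?_
          rw [Finset.sum_mul]
        simp only [sub_mul, Finset.sum_sub_distrib]
        rw [h1, ← h2, hadd, sub_self])
    intro i k
    exact sub_eq_zero.mp (this i k)
  -- the module generated by the coefficients
  set N : Submodule (Zl ℓ) _root_.Fermat.Agent.S19.H435.Qb := Submodule.span (Zl ℓ) (Set.range c) with hN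
  have hNfg : N.FG := Submodule.fg_span (Set.finite_range c)
  have hNne : N ≠ ⊥ := by
    intro hbot
    have hc0 : ∀ i, c i = 0 := by
      intro i
      have : c i ∈ N := Submodule.subset_span ⟨i, rfl⟩
      rw [hbot] at this
      exact (Submodule.mem_bot _).mp this
    have : χ 0 = 0 := by
      rw [hχ 0]
      exact Finset.sum_eq_zero fun i _ => by rw [hc0 i, zero_mul]
    rw [h0] at this
    exact one_ne_zero this
  intro i
  refine isIntegral_of_smul_mem_submodule (R := Zl ℓ) (A := _root_.Fermat.Agent.S19.H435.Qb) (M := _root_.Fermat.Agent.S19.H435.Qb) N hNne hNfg (c i) ?_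
  intro z hz
  induction hz using Submodule.span_induction with
  | mem z hz =>
    obtain ⟨k, rfl⟩ := hz
    show c i * c k ∈ N
    rw [hgl i k]
    refine Submodule.sum_mem _ fun j _ => ?_
    have : algebraMap (Zl ℓ) _root_.Fermat.Agent.S19.H435.Qb (γ j i k) * c j = γ j i k • c j := (Algebra.smul_def _ _).symm
    rw [this]
    exact Submodule.smul_mem _ _ (Submodule.subset_span ⟨j, rfl⟩)
  | zero =>
    rw [smul_zero]
    exact Submodule.zero_mem _
  | add x y _ _ hx hy =>
    rw [smul_add]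
    exact Submodule.add_mem _ hx hy
  | smul r x _ hx =>
    rw [smul_comm]
    exact Submodule.smul_mem _ _ hx

end Fermat.Agent.S56.FO.H6

end
end
-- ===== PACK-END S56/FO/H6/CharInt.lean

-- ===== PACK-BEGIN S55/G/Rec/RelNormH511.lean
section


/-!
# S55 / layer G / block REC : generic lemmas on `relNorm` (helper511)

`relNorm H b = ∏ᶠ t : G ⧸ H, out t • b`.  For `b` fixed by `H` (and `H` of finite index):
* `H511.out_smul_eq`       : `out (g H) • b = g • b`;
* `H511.relNorm_eq_prod`   : `relNorm H b = ∏ t, out t • b` (Fintype product);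
* `H511.smul_relNorm`      : the norm is fixed by all of `G`;
* `H511.relNorm_trans`     : transitivity `N_{G/H} (N_{H/H'} b) = N_{G/H'} b`;
* `H511.relNorm_mul`       : multiplicativity in `b`.
-/

set_option autoImplicit false
set_option linter.style.haveILetI false

noncomputable section

namespace Fermat.Agent.S55.G.Rec.H511

open Fermat.Agent.S55.G.Rec

variable {G M : Type*} [Group G] [CommGroup M] [MulDistribMulAction G M]

/-- Independence of the representative: `out (g H) • b = g • b` for `b` fixed by `H`. -/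
lemma out_smul_eq (H : Subgroup G) {b : M} (hb : ∀ h ∈ H, h • b = b) (g : G) :
    (Quotient.out (g : G ⧸ H) : G) • b = g • b := by
  have h1 : (Quotient.out (g : G ⧸ H) : G)⁻¹ * g ∈ H :=
    QuotientGroup.eq.mp (QuotientGroup.out_eq' (g : G ⧸ H))
  have h2 : g • b =
      (Quotient.out (g : G ⧸ H) : G) • (((Quotient.out (g : G ⧸ H) : G)⁻¹ * g) • b) := by
    rw [smul_smul, mul_inv_cancel_left]
  rw [h2, hb _ h1]

lemma relNorm_eq_prod (H : Subgroup G) [Fintype (G ⧸ H)] (b : M) :
    relNorm H b = ∏ t : G ⧸ H, (Quotient.out t : G) • b := by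
  unfold relNorm
  exact finprod_eq_prod_of_fintype _

/-- The norm is fixed by the whole group. -/
lemma smul_relNorm (H : Subgroup G) [Finite (G ⧸ H)] {b : M} (hb : ∀ h ∈ H, h • b = b)
    (g : G) : g • relNorm H b = relNorm H b := by
  classical
  haveI := Fintype.ofFinite (G ⧸ H)
  rw [relNorm_eq_prod, Finset.smul_prod']
  have h1 : ∀ t : G ⧸ H, g • ((Quotient.out t : G) • b) =
      (Quotient.out (g • t) : G) • b := by
    intro t
    rw [smul_smul]
    have : g • t = ((g * (Quotient.out t : G) : G) : G ⧸ H) := by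
      conv_lhs => rw [← QuotientGroup.out_eq' t]
      rfl
    rw [this, out_smul_eq H hb]
  simp_rw [h1]
  exact Equiv.prod_comp (MulAction.toPerm g : Equiv.Perm (G ⧸ H))
    (fun t => (Quotient.out t : G) • b)

/-- Multiplicativity of the norm. -/
lemma relNorm_mul (H : Subgroup G) [Finite (G ⧸ H)] (b b' : M) :
    relNorm H (b * b') = relNorm H b * relNorm H b' := by
  classical
  haveI := Fintype.ofFinite (G ⧸ H)
  simp only [relNorm_eq_prod, smul_mul', Finset.prod_mul_distrib]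

/-- Transitivity of the norm. -/
lemma relNorm_trans {H' H : Subgroup G} (hle : H' ≤ H) [Finite (G ⧸ H')] {b : M}
    (hb : ∀ h ∈ H', h • b = b) :
    relNorm H (relNorm (G := ↥H) (H'.subgroupOf H) b) = relNorm H' b := by
  classical
  let e := Subgroup.quotientEquivProdOfLE hle
  haveI : Finite ((G ⧸ H) × ↥H ⧸ H'.subgroupOf H) := Finite.of_equiv _ e
  haveI : Nonempty (G ⧸ H) := ⟨((1 : G) : G ⧸ H)⟩
  haveI : Nonempty (↥H ⧸ H'.subgroupOf H) := ⟨((1 : ↥H) : ↥H ⧸ H'.subgroupOf H)⟩
  haveI : Finite (G ⧸ H) := Finite.prod_left (↥H ⧸ H'.subgroupOf H)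
  haveI : Finite (↥H ⧸ H'.subgroupOf H) := Finite.prod_right (G ⧸ H)
  haveI := Fintype.ofFinite (G ⧸ H)
  haveI := Fintype.ofFinite (G ⧸ H')
  haveI := Fintype.ofFinite (↥H ⧸ H'.subgroupOf H)
  have hb' : ∀ h ∈ H'.subgroupOf H, h • b = b := fun h hh => hb (h : G) hh
  rw [relNorm_eq_prod H, relNorm_eq_prod (H'.subgroupOf H), relNorm_eq_prod H']
  simp_rw [Finset.smul_prod']
  rw [← Fintype.prod_prod_type' (f := fun (t : G ⧸ H) (u : ↥H ⧸ H'.subgroupOf H) =>
    (Quotient.out t : G) • ((Quotient.out u : ↥H) • b))]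
  refine (Fintype.prod_equiv e.symm _ _ ?_)
  rintro ⟨t, u⟩
  obtain ⟨h, rfl⟩ := QuotientGroup.mk_surjective u
  have h1 : e.symm (t, (h : ↥H ⧸ H'.subgroupOf H)) =
      (((Quotient.out t : G) * (h : G) : G) : G ⧸ H') := rfl
  rw [h1, out_smul_eq H' hb, out_smul_eq (H'.subgroupOf H) hb', mul_smul]
  rfl

end Fermat.Agent.S55.G.Rec.H511

end
end
-- ===== PACK-END S55/G/Rec/RelNormH511.lean

-- ===== PACK-BEGIN S55/L/H355/Hensel.lean
section


/-!
# S55, layer L, helper355: units of a complete DVR with finite residue field are killed by every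
homomorphism to `ℤ`

Consequences: compatibility of rings of integers in extensions and under automorphisms.
-/

set_option autoImplicit false
set_option linter.style.haveILetI false

namespace Fermat.Agent.S55.L.H355

open Fermat.Agent.S55.L

section

variable {K : Type} [Field K] {A : ValuationSubring K}

theorem card_residue_cast_eq_zero (hA : IsLocalRingOfIntegers A) :
    ((Nat.card (IsLocalRing.ResidueField A) : ℕ) : IsLocalRing.ResidueField A) = 0 := by
  haveI : Finite (IsLocalRing.ResidueField A) := hA.2.2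
  haveI : Fintype (IsLocalRing.ResidueField A) := Fintype.ofFinite _
  rw [Nat.card_eq_fintype_card]
  exact Nat.cast_card_eq_zero _

theorem one_lt_card_residue (hA : IsLocalRingOfIntegers A) :
    1 < Nat.card (IsLocalRing.ResidueField A) := by
  haveI : Finite (IsLocalRing.ResidueField A) := hA.2.2
  exact Finite.one_lt_card

/-- Hensel: an element of `1 + 𝔪` is an `n`-th power for every `n ≡ 1` modulo `|k|`. -/
theorem exists_pow_eq_of_sub_one_mem (hA : IsLocalRingOfIntegers A) (a : A)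
    (ha : a - 1 ∈ IsLocalRing.maximalIdeal A) (j : ℕ) :
    ∃ w : A, w ^ (Nat.card (IsLocalRing.ResidueField A) * j + 1) = a := by
  haveI : IsAdicComplete (IsLocalRing.maximalIdeal A) A := hA.2.1
  haveI := IsAdicComplete.henselianRing A (IsLocalRing.maximalIdeal A)
  set n := Nat.card (IsLocalRing.ResidueField A) * j + 1 with hn
  have hn0 : n ≠ 0 := by omega
  have h1 : Polynomial.eval (1 : A) (Polynomial.X ^ n - Polynomial.C a)
      ∈ IsLocalRing.maximalIdeal A := by
    simp only [Polynomial.eval_sub, Polynomial.eval_pow, Polynomial.eval_X, one_pow,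
      Polynomial.eval_C]
    have : (1 : A) - a = -(a - 1) := by ring
    rw [this]
    exact (IsLocalRing.maximalIdeal A).neg_mem ha
  have h2 : IsUnit ((Ideal.Quotient.mk (IsLocalRing.maximalIdeal A))
      (Polynomial.eval (1 : A) (Polynomial.derivative (Polynomial.X ^ n - Polynomial.C a)))) := by
    have hd : Polynomial.eval (1 : A) (Polynomial.derivative (Polynomial.X ^ n - Polynomial.C a))
        = (n : A) := by
      simp [Polynomial.derivative_X_pow]
    rw [hd, map_natCast]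
    have hq := card_residue_cast_eq_zero hA
    have : ((n : ℕ) : A ⧸ IsLocalRing.maximalIdeal A) = 1 := by
      rw [hn]
      push_cast
      have hq' : ((Nat.card (IsLocalRing.ResidueField A) : ℕ) :
          A ⧸ IsLocalRing.maximalIdeal A) = 0 := hq
      rw [hq']
      simp
    rw [this]
    exact isUnit_one
  obtain ⟨w, hw, -⟩ := HenselianRing.is_henselian (R := A) (I := IsLocalRing.maximalIdeal A)
    (Polynomial.X ^ n - Polynomial.C a) (Polynomial.monic_X_pow_sub_C a hn0) 1 h1 h2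
  refine ⟨w, ?_⟩
  have := hw
  simp only [Polynomial.IsRoot, Polynomial.eval_sub, Polynomial.eval_pow, Polynomial.eval_X,
    Polynomial.eval_C] at this
  exact sub_eq_zero.1 this

/-- A homomorphism to `ℤ` kills principal units. -/
theorem hom_principalUnit_eq_one (hA : IsLocalRingOfIntegers A) (v : Kˣ →* Multiplicative ℤ)
    {u : Kˣ} (huA : (u : K) ∈ A) (hu : (⟨(u : K), huA⟩ : A) - 1 ∈ IsLocalRing.maximalIdeal A) :
    v u = 1 := by
  set t : ℤ := Multiplicative.toAdd (v u) with ht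
  have hdiv : ∀ j : ℕ, ((Nat.card (IsLocalRing.ResidueField A) * j + 1 : ℕ) : ℤ) ∣ t := by
    intro j
    obtain ⟨w, hw⟩ := exists_pow_eq_of_sub_one_mem hA ⟨(u : K), huA⟩ hu j
    have hwK : (w : K) ^ (Nat.card (IsLocalRing.ResidueField A) * j + 1) = (u : K) := by
      have := congrArg Subtype.val hw
      simpa using this
    have hw0 : (w : K) ≠ 0 := by
      intro h0
      rw [h0, zero_pow (by omega)] at hwK
      exact u.ne_zero hwK.symm
    have hW : (Units.mk0 (w : K) hw0) ^ (Nat.card (IsLocalRing.ResidueField A) * j + 1) = u := by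
      apply Units.ext
      simpa using hwK
    refine ⟨Multiplicative.toAdd (v (Units.mk0 (w : K) hw0)), ?_⟩
    rw [ht, ← hW, map_pow]
    simp
  have hq := one_lt_card_residue hA
  by_contra hne
  have ht0 : t ≠ 0 := by
    intro h0
    apply hne
    have : Multiplicative.toAdd (v u) = Multiplicative.toAdd (1 : Multiplicative ℤ) := by
      rw [← ht, h0]; rfl
    exact Multiplicative.toAdd.injective this
  have h1 := hdiv t.natAbs
  have h2 := Int.le_of_dvd (Int.natAbs_pos.2 ht0 |> Int.natCast_pos.2)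
    ((Int.dvd_natAbs).2 h1)
  have h3 : (t.natAbs : ℤ) < ((Nat.card (IsLocalRing.ResidueField A) * t.natAbs + 1 : ℕ) : ℤ) := by
    have h4 : t.natAbs ≤ Nat.card (IsLocalRing.ResidueField A) * t.natAbs :=
      Nat.le_mul_of_pos_left _ (by omega)
    have : t.natAbs < Nat.card (IsLocalRing.ResidueField A) * t.natAbs + 1 := by omega
    exact_mod_cast this
  omega

/-- **(H)** A homomorphism to `ℤ` kills the units of a complete DVR with finite residue field. -/
theorem hom_unitGroup_eq_one (hA : IsLocalRingOfIntegers A) (v : Kˣ →* Multiplicative ℤ)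
    {u : Kˣ} (hu : u ∈ A.unitGroup) : v u = 1 := by
  haveI : Finite (IsLocalRing.ResidueField A) := hA.2.2
  haveI : Fintype (IsLocalRing.ResidueField A) := Fintype.ofFinite _
  have hq := one_lt_card_residue hA
  set q := Nat.card (IsLocalRing.ResidueField A) with hqdef
  -- `u ^ (q - 1)` is a principal unit
  have huval : A.valuation (u : K) = 1 := (A.mem_unitGroup_iff u).1 hu
  have huA : (u : K) ∈ A := (A.valuation_le_one_iff _).1 huval.le
  have hunit : IsUnit (⟨(u : K), huA⟩ : A) := (A.valuation_eq_one_iff _).2 huval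
  have hres : IsLocalRing.residue A ⟨(u : K), huA⟩ ≠ 0 := by
    rw [Ne, IsLocalRing.residue_eq_zero_iff]
    exact IsLocalRing.notMem_maximalIdeal.2 hunit
  have hpow : (IsLocalRing.residue A ⟨(u : K), huA⟩) ^ (q - 1) = 1 := by
    have := FiniteField.pow_card_sub_one_eq_one _ hres
    rwa [← Nat.card_eq_fintype_card] at this
  have hu'A : ((u ^ (q - 1) : Kˣ) : K) ∈ A := by
    rw [Units.val_pow_eq_pow_val]
    exact A.pow_mem huA _
  have hprinc : (⟨((u ^ (q - 1) : Kˣ) : K), hu'A⟩ : A) - 1 ∈ IsLocalRing.maximalIdeal A := by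
    rw [← IsLocalRing.residue_eq_zero_iff, map_sub, map_one, sub_eq_zero]
    have : (⟨((u ^ (q - 1) : Kˣ) : K), hu'A⟩ : A) = (⟨(u : K), huA⟩ : A) ^ (q - 1) := by
      apply Subtype.ext
      simp
    rw [this, map_pow, hpow]
  have h1 := hom_principalUnit_eq_one hA v hu'A hprinc
  rw [map_pow] at h1
  have h2 : (q - 1 : ℕ) • Multiplicative.toAdd (v u) = 0 := by
    have := congrArg Multiplicative.toAdd h1
    simpa using this
  have h3 : Multiplicative.toAdd (v u) = 0 := by
    rcases smul_eq_zero.1 h2 with h | h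
    · omega
    · exact h
  exact Multiplicative.toAdd.injective h3

end

section Ext

variable {K L : Type} [Field K] [Field L] {A : ValuationSubring K} {B : ValuationSubring L}

/-- Units of the ring of integers of `K` map to units of any discrete valuation subring of any
field receiving `K`. -/
theorem map_mem_unitGroup (hA : IsLocalRingOfIntegers A) (hB : IsDiscreteValuationRing B)
    (τ : K →+* L) {u : Kˣ} (hu : u ∈ A.unitGroup) : Units.map (τ : K →* L) u ∈ B.unitGroup := by
  obtain ⟨ϖ, hϖ⟩ := exists_isUniformizer hB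
  have := hom_unitGroup_eq_one hA ((ordHom hB hϖ).comp (Units.map (τ : K →* L))) hu
  rw [MonoidHom.comp_apply] at this
  rw [← ordZ_eq_zero_iff hB hϖ]
  have h2 := congrArg Multiplicative.toAdd this
  simpa using h2

/-- Integers of `K` map to integers of `L`, if some uniformizer of `K` is a non-unit of `B`. -/
theorem map_mem_of_mem (hA : IsLocalRingOfIntegers A) (hB : IsDiscreteValuationRing B)
    (τ : K →+* L) {π : K} (hπ : IsUniformizer A π) (hπB : τ π ∈ B) {x : K} (hx : x ∈ A) :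
    τ x ∈ B := by
  by_cases h0 : x = 0
  · rw [h0, map_zero]; exact B.zero_mem
  have hAd : IsDiscreteValuationRing A := hA.1
  have hm : 0 ≤ ordZ A π (Units.mk0 x h0) := (ordZ_nonneg_iff hAd hπ _).2 hx
  obtain ⟨m, hm'⟩ := Int.eq_ofNat_of_zero_le hm
  -- `x = π ^ m * u`
  have hπ0 : π ≠ 0 := isUniformizer_ne_zero hπ
  set u : Kˣ := Units.mk0 x h0 * (Units.mk0 π hπ0) ^ (-(m : ℤ)) with hu
  have hord : ordZ A π u = 0 := by
    rw [hu, ordZ_mul hAd hπ, ordZ_zpow hAd hπ, ordZ_uniformizer hAd hπ (Units.mk0 π hπ0) rfl, hm']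
    ring
  have huU : u ∈ A.unitGroup := (ordZ_eq_zero_iff hAd hπ u).1 hord
  have hx' : x = π ^ m * (u : K) := by
    have e1 : (u : K) = x * (π ^ m)⁻¹ := by
      rw [hu, Units.val_mul, zpow_neg, zpow_natCast, Units.val_inv_eq_inv_val,
        Units.val_pow_eq_pow_val]
      rfl
    rw [e1]
    field_simp
  have h1 := map_mem_unitGroup hA hB τ huU
  have h2 : τ (u : K) ∈ B := by
    have := (B.mem_unitGroup_iff _).1 h1
    exact (B.valuation_le_one_iff _).1 this.le
  rw [hx', map_mul, map_pow]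
  exact B.mul_mem _ _ (B.pow_mem hπB _) h2

end Ext

end Fermat.Agent.S55.L.H355

end
-- ===== PACK-END S55/L/H355/Hensel.lean

-- ===== PACK-BEGIN S55/H572/DimShift.lean
section


/-!
# Dimension shifting

For `A : Rep R G` we construct short exact sequences of `G`-representations

* `upSC A   : 0 → A → coind₁ A → up A → 0`       (any group `G`),
* `downSC A : 0 → down A → coind₁ A → A → 0`     (`G` finite),

where `coind₁ A = Fun(G, A)` has vanishing (Tate) cohomology over **every** subgroup `H ≤ G`.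
Hence for every subgroup `H` the connecting maps are isomorphisms:

* `groupCohomology`: `Hⁿ⁺¹(H, up A) ≅ Hⁿ⁺²(H, A)`, and `H⁰(H, up A) → H¹(H, A)` is epi;
* Tate cohomology (`H` finite): `Ĥⁿ(H, up A) ≅ Ĥⁿ⁺¹(H, A)`, `Ĥⁿ(H, A) ≅ Ĥⁿ⁺¹(H, down A)`, all `n : ℤ`.
-/

set_option autoImplicit false

open CategoryTheory groupCohomology groupHomology Rep Limits

universe u

namespace Fermat.Agent.S55.H572

noncomputable section

section up

variable {R G : Type u} [CommRing R] [Group G]

/-- `coind₁ A = Fun(G, A)` with `G` acting by right translation. -/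
abbrev coind₁ (A : Rep.{u} R G) : Rep.{u} R G :=
  coind (⊥ : Subgroup G).subtype (res (⊥ : Subgroup G).subtype A)

/-- Underlying linear map of `coind₁ι`: `a ↦ (x ↦ ρ x a)`. -/
def coind₁ιLin (A : Rep.{u} R G) : A.V →ₗ[R] (coind₁ A).V where
  toFun a := mkCoind (res (⊥ : Subgroup G).subtype A) (fun x => A.ρ x a)
  map_add' a b := by
    apply Subtype.ext
    funext x
    exact map_add (A.ρ x) a b
  map_smul' r a := by
    apply Subtype.ext
    funext x
    exact map_smul (A.ρ x) r a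

lemma coind₁ιLin_apply (A : Rep.{u} R G) (a : A.V) (x : G) :
    (coind₁ιLin A a).1 x = A.ρ x a := rfl

/-- The embedding `A ⟶ coind₁ A`, `a ↦ (x ↦ ρ x a)`. -/
def coind₁ι (A : Rep.{u} R G) : A ⟶ coind₁ A :=
  Rep.ofHom (ρ := A.ρ) (σ := (coind₁ A).ρ) ⟨coind₁ιLin A, fun g => by
    apply LinearMap.ext
    intro a
    apply Subtype.ext
    funext x
    change A.ρ x (A.ρ g a) = A.ρ (x * g) a
    rw [map_mul]
    rfl⟩

lemma coind₁ι_hom_apply (A : Rep.{u} R G) (a : A.V) (x : G) :
    ((coind₁ι A).hom a).1 x = A.ρ x a := rfl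

instance coind₁ι_mono (A : Rep.{u} R G) : Mono (coind₁ι A) := by
  rw [Rep.mono_iff_injective]
  intro a b h
  have h1 : ((coind₁ι A).hom a).1 1 = ((coind₁ι A).hom b).1 1 := by rw [h]
  rw [coind₁ι_hom_apply, coind₁ι_hom_apply, map_one] at h1
  exact h1

/-- The dimension shift `up A = coind₁ A / A`. -/
def up (A : Rep.{u} R G) : Rep.{u} R G := cokernel (coind₁ι A)

/-- The projection `coind₁ A ⟶ up A`. -/
def upπ (A : Rep.{u} R G) : coind₁ A ⟶ up A := cokernel.π (coind₁ι A)

instance upπ_epi (A : Rep.{u} R G) : Epi (upπ A) :=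
  coequalizer.π_epi

/-- The short complex `A ⟶ coind₁ A ⟶ up A`. -/
def upSC (A : Rep.{u} R G) : ShortComplex (Rep.{u} R G) :=
  ShortComplex.mk (coind₁ι A) (upπ A) (cokernel.condition _)

lemma upSC_shortExact (A : Rep.{u} R G) : (upSC A).ShortExact where
  exact := ShortComplex.exact_of_g_is_cokernel _ (cokernelIsCokernel _)
  mono_f := coind₁ι_mono A
  epi_g := upπ_epi A

variable (H : Subgroup G)

/-- The restriction of `upSC A` to a subgroup. -/
abbrev upSCRes (A : Rep.{u} R G) : ShortComplex (Rep.{u} R H) :=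
  (upSC A).map (resFunctor H.subtype)

lemma upSCRes_shortExact (A : Rep.{u} R G) : (upSCRes H A).ShortExact :=
  (Rep.shortExact_res H.subtype).2 (upSC_shortExact A)

/-- `coind₁ A` has vanishing cohomology in positive degrees over every subgroup. -/
theorem isZero_groupCohomology_res_coind₁ (A : Rep.{u} R G) (n : ℕ) :
    IsZero (groupCohomology (res H.subtype (coind₁ A)) (n + 1)) :=
  isZero_groupCohomology_res_coind_bot H _ n

/-- `coind₁ A` has vanishing Tate cohomology in all degrees over every finite subgroup. -/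
theorem isZero_tateCohomology_res_coind₁ [Fintype H] (A : Rep.{u} R G) (n : ℤ) :
    IsZero (tateCohomology (res H.subtype (coind₁ A)) n) :=
  isZero_tateCohomology_res_coind_bot H _ n

/-- Dimension shifting: `δ : Hⁿ⁺¹(H, up A) → Hⁿ⁺²(H, A)` is an isomorphism. -/
theorem isIso_δ_up (A : Rep.{u} R G) (n : ℕ) :
    IsIso (groupCohomology.δ (upSCRes_shortExact H A) (n + 1) (n + 2) rfl) :=
  groupCohomology.isIso_δ_of_isZero (upSCRes_shortExact H A) (n + 1)
    (isZero_groupCohomology_res_coind₁ H A n) (isZero_groupCohomology_res_coind₁ H A (n + 1))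

/-- Dimension shifting: `δ : H⁰(H, up A) → H¹(H, A)` is an epimorphism. -/
theorem epi_δ_up_zero (A : Rep.{u} R G) :
    Epi (groupCohomology.δ (upSCRes_shortExact H A) 0 1 rfl) :=
  groupCohomology.epi_δ_of_isZero (upSCRes_shortExact H A) 0
    (isZero_groupCohomology_res_coind₁ H A 0)

/-- Dimension shifting isomorphism `Hⁿ⁺¹(H, up A) ≅ Hⁿ⁺²(H, A)`. -/
def upIso (A : Rep.{u} R G) (n : ℕ) :
    groupCohomology (res H.subtype (up A)) (n + 1) ≅
      groupCohomology (res H.subtype A) (n + 2) :=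
  @asIso _ _ _ _ (groupCohomology.δ (upSCRes_shortExact H A) (n + 1) (n + 2) rfl)
    (isIso_δ_up H A n)

/-- Dimension shifting in Tate cohomology: `δ : Ĥⁿ(H, up A) → Ĥⁿ⁺¹(H, A)` is an isomorphism. -/
theorem isIso_tate_δ_up [Fintype H] (A : Rep.{u} R G) (n : ℤ) :
    IsIso (TateCohomology.δ (upSCRes_shortExact H A) n) :=
  ShortComplex.SnakeInput.isIso_δ _ (isZero_tateCohomology_res_coind₁ H A n)
    (isZero_tateCohomology_res_coind₁ H A (n + 1))

/-- Dimension shifting isomorphism `Ĥⁿ(H, up A) ≅ Ĥⁿ⁺¹(H, A)`. -/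
def tateUpIso [Fintype H] (A : Rep.{u} R G) (n : ℤ) :
    tateCohomology (res H.subtype (up A)) n ≅ tateCohomology (res H.subtype A) (n + 1) :=
  @asIso _ _ _ _ (TateCohomology.δ (upSCRes_shortExact H A) n) (isIso_tate_δ_up H A n)

/-! ### Functoriality of `up` -/

/-- Functoriality of `coind₁`. -/
def coind₁Map {A B : Rep.{u} R G} (f : A ⟶ B) : coind₁ A ⟶ coind₁ B :=
  coindMap (⊥ : Subgroup G).subtype ((resFunctor (⊥ : Subgroup G).subtype).map f)

lemma coind₁Map_hom_apply {A B : Rep.{u} R G} (f : A ⟶ B) (F : (coind₁ A).V) (x : G) :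
    ((coind₁Map f).hom F).1 x = f.hom (F.1 x) := rfl

lemma coind₁ι_naturality {A B : Rep.{u} R G} (f : A ⟶ B) :
    coind₁ι A ≫ coind₁Map f = f ≫ coind₁ι B := by
  apply Rep.hom_ext
  apply Representation.IntertwiningMap.ext
  apply LinearMap.ext
  intro a
  apply Subtype.ext
  funext x
  change f.hom (A.ρ x a) = B.ρ x (f.hom a)
  exact Rep.hom_comm_apply f x a

/-- Functoriality of `up`. -/
def upMap {A B : Rep.{u} R G} (f : A ⟶ B) : up A ⟶ up B :=
  cokernel.map (coind₁ι A) (coind₁ι B) f (coind₁Map f) (coind₁ι_naturality f)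

lemma upπ_naturality {A B : Rep.{u} R G} (f : A ⟶ B) :
    upπ A ≫ upMap f = coind₁Map f ≫ upπ B := by
  exact cokernel.π_desc _ _ _

/-- The morphism of short complexes `upSC A ⟶ upSC B` induced by `f : A ⟶ B`. -/
def upSCMap {A B : Rep.{u} R G} (f : A ⟶ B) : upSC A ⟶ upSC B where
  τ₁ := f
  τ₂ := coind₁Map f
  τ₃ := upMap f
  comm₁₂ := (coind₁ι_naturality f).symm
  comm₂₃ := (upπ_naturality f).symm

end up

section down

variable {R G : Type u} [CommRing R] [Group G] [Fintype G]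

/-- Underlying linear map of `coind₁ε`: `f ↦ ∑ x, ρ x⁻¹ (f x)`. -/
def coind₁εLin (A : Rep.{u} R G) : (coind₁ A).V →ₗ[R] A.V where
  toFun f := ∑ x : G, A.ρ x⁻¹ (f.1 x)
  map_add' f g := by
    rw [← Finset.sum_add_distrib]
    refine Finset.sum_congr rfl fun x _ => ?_
    exact map_add (A.ρ x⁻¹) (f.1 x) (g.1 x)
  map_smul' r f := by
    rw [RingHom.id_apply, Finset.smul_sum]
    refine Finset.sum_congr rfl fun x _ => ?_
    exact map_smul (A.ρ x⁻¹) r (f.1 x)

lemma coind₁εLin_apply (A : Rep.{u} R G) (f : (coind₁ A).V) :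
    coind₁εLin A f = ∑ x : G, A.ρ x⁻¹ (f.1 x) := rfl

/-- The projection `coind₁ A ⟶ A`, `f ↦ ∑ x, ρ x⁻¹ (f x)` (for finite `G`). -/
def coind₁ε (A : Rep.{u} R G) : coind₁ A ⟶ A :=
  Rep.ofHom (ρ := (coind₁ A).ρ) (σ := A.ρ) ⟨coind₁εLin A, fun g => by
    apply LinearMap.ext
    intro f
    change ∑ x : G, A.ρ x⁻¹ (f.1 (x * g)) = A.ρ g (∑ x : G, A.ρ x⁻¹ (f.1 x))
    rw [map_sum]
    refine Fintype.sum_equiv (Equiv.mulRight g) _ _ fun x => ?_
    change A.ρ x⁻¹ (f.1 (x * g)) = A.ρ g (A.ρ (x * g)⁻¹ (f.1 (x * g)))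
    rw [← Module.End.mul_apply, ← map_mul, mul_inv_rev, mul_inv_cancel_left]⟩

lemma coind₁ε_hom_apply (A : Rep.{u} R G) (f : (coind₁ A).V) :
    (coind₁ε A).hom f = ∑ x : G, A.ρ x⁻¹ (f.1 x) := rfl

instance coind₁ε_epi (A : Rep.{u} R G) : Epi (coind₁ε A) := by
  classical
  rw [Rep.epi_iff_surjective]
  intro a
  refine ⟨mkCoind (res (⊥ : Subgroup G).subtype A) (fun x => if x = 1 then a else 0), ?_⟩
  rw [coind₁ε_hom_apply]
  rw [Finset.sum_eq_single (1 : G)]
  · simp
  · intro x _ hx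
    simp [hx]
  · intro h; exact absurd (Finset.mem_univ _) h

/-- The dimension shift `down A = ker (coind₁ A ⟶ A)`. -/
def down (A : Rep.{u} R G) : Rep.{u} R G := kernel (coind₁ε A)

/-- The inclusion `down A ⟶ coind₁ A`. -/
def downι (A : Rep.{u} R G) : down A ⟶ coind₁ A := kernel.ι (coind₁ε A)

instance downι_mono (A : Rep.{u} R G) : Mono (downι A) :=
  equalizer.ι_mono

/-- The short complex `down A ⟶ coind₁ A ⟶ A`. -/
def downSC (A : Rep.{u} R G) : ShortComplex (Rep.{u} R G) :=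
  ShortComplex.mk (downι A) (coind₁ε A) (kernel.condition _)

lemma downSC_shortExact (A : Rep.{u} R G) : (downSC A).ShortExact where
  exact := ShortComplex.exact_of_f_is_kernel _ (kernelIsKernel _)
  mono_f := downι_mono A
  epi_g := coind₁ε_epi A

variable (H : Subgroup G)

/-- The restriction of `downSC A` to a subgroup. -/
abbrev downSCRes (A : Rep.{u} R G) : ShortComplex (Rep.{u} R H) :=
  (downSC A).map (resFunctor H.subtype)

lemma downSCRes_shortExact (A : Rep.{u} R G) : (downSCRes H A).ShortExact :=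
  (Rep.shortExact_res H.subtype).2 (downSC_shortExact A)

/-- Dimension shifting: `δ : Hⁿ⁺¹(H, A) → Hⁿ⁺²(H, down A)` is an isomorphism. -/
theorem isIso_δ_down (A : Rep.{u} R G) (n : ℕ) :
    IsIso (groupCohomology.δ (downSCRes_shortExact H A) (n + 1) (n + 2) rfl) :=
  groupCohomology.isIso_δ_of_isZero (downSCRes_shortExact H A) (n + 1)
    (isZero_groupCohomology_res_coind₁ H A n) (isZero_groupCohomology_res_coind₁ H A (n + 1))

/-- Dimension shifting isomorphism `Hⁿ⁺¹(H, A) ≅ Hⁿ⁺²(H, down A)`. -/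
def downIso (A : Rep.{u} R G) (n : ℕ) :
    groupCohomology (res H.subtype A) (n + 1) ≅
      groupCohomology (res H.subtype (down A)) (n + 2) :=
  @asIso _ _ _ _ (groupCohomology.δ (downSCRes_shortExact H A) (n + 1) (n + 2) rfl)
    (isIso_δ_down H A n)

/-- Dimension shifting in Tate cohomology: `δ : Ĥⁿ(H, A) → Ĥⁿ⁺¹(H, down A)` is an isomorphism. -/
theorem isIso_tate_δ_down [Fintype H] (A : Rep.{u} R G) (n : ℤ) :
    IsIso (TateCohomology.δ (downSCRes_shortExact H A) n) :=
  ShortComplex.SnakeInput.isIso_δ _ (isZero_tateCohomology_res_coind₁ H A n)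
    (isZero_tateCohomology_res_coind₁ H A (n + 1))

/-- Dimension shifting isomorphism `Ĥⁿ(H, A) ≅ Ĥⁿ⁺¹(H, down A)`. -/
def tateDownIso [Fintype H] (A : Rep.{u} R G) (n : ℤ) :
    tateCohomology (res H.subtype A) n ≅ tateCohomology (res H.subtype (down A)) (n + 1) :=
  @asIso _ _ _ _ (TateCohomology.δ (downSCRes_shortExact H A) n) (isIso_tate_δ_down H A n)

end down

end

end Fermat.Agent.S55.H572

end
-- ===== PACK-END S55/H572/DimShift.lean

-- ===== PACK-BEGIN S55/G/H1JH604.lean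
section
/-
S55, layer G, leaf G-H1J (helper604): `H¹(G, J_S(L)) = 0`
(Hilbert 90 for the semi-local algebra `L ⊗[ℚ] ℚ_S`), DIRECT proof by Poincaré series,
independent of the Shapiro decomposition.

For a `1`-cocycle `c : G → (L ⊗ ℚ_S)ˣ` put `b(x) = ∑_h c(h) · (h x ⊗ 1)`, `x ∈ L`.
For every maximal ideal `𝔪` of `A = L ⊗ ℚ_S` the `|G|` maps `x ↦ (h x ⊗ 1 mod 𝔪)` are pairwise
distinct characters `Lˣ → (A/𝔪)ˣ` (the action is faithful), so by Dedekind's independence the
`ℚ`-subspace `{x | b(x) ∈ 𝔪}` is proper.  There are finitely many `𝔪` (`A` is Artinian) and `ℚ` is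
infinite, so some `b(x)` lies in no maximal ideal, i.e. is a unit; then `c(g) = g(β)/β` for
`β = b(x)⁻¹`.
-/


set_option autoImplicit false
set_option linter.unusedSectionVars false

open scoped NumberField TensorProduct
open IsDedekindDomain CategoryTheory groupCohomology

noncomputable section

namespace Fermat.Agent.S55.G.H1JH604

open Fermat.Agent.S55.G

/-! ## 1. The abstract Poincaré-series argument -/

section Abstract

variable {R : Type*} [CommRing R] {G : Type*} [Group G] [Fintype G]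

/-- If some Poincaré series `∑_h c(h) · h(a)` of a `1`-cocycle `c : G → Rˣ` is a unit, then `c` is
a coboundary. -/
theorem exists_units_of_isUnit_sum (φ : G →* (R ≃+* R)) (c : G → Rˣ)
    (hc : ∀ g h, c (g * h) = Units.map ((φ g : R ≃+* R) : R →* R) (c h) * c g)
    (a : R) (ha : IsUnit (∑ h, (c h : R) * φ h a)) :
    ∃ β : Rˣ, ∀ g, Units.map ((φ g : R ≃+* R) : R →* R) β = c g * β := by
  set b : R := ∑ h, (c h : R) * φ h a with hb
  have key : ∀ g, (c g : R) * φ g b = b := by
    intro g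
    rw [hb, map_sum, Finset.mul_sum]
    rw [← Fintype.sum_bijective (fun h => g * h) (Group.mulLeft_bijective g)
      (fun h => (c g : R) * φ g ((c h : R) * φ h a)) (fun h => (c h : R) * φ h a)]
    intro h
    have h1 : ((c (g * h) : Rˣ) : R) = φ g (c h : R) * (c g : R) := by
      rw [hc g h]; rfl
    have h2 : φ (g * h) a = φ g (φ h a) := by
      rw [map_mul]; rfl
    rw [h1, h2, map_mul]
    ring
  set B : Rˣ := ha.unit with hB
  have hBval : (B : R) = b := rfl
  have keyU : ∀ g, c g * Units.map ((φ g : R ≃+* R) : R →* R) B = B := by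
    intro g
    apply Units.ext
    rw [Units.val_mul, Units.coe_map, hBval]
    exact key g
  refine ⟨B⁻¹, fun g => ?_⟩
  rw [map_inv]
  have hM : Units.map ((φ g : R ≃+* R) : R →* R) B = (c g)⁻¹ * B :=
    eq_inv_mul_of_mul_eq (keyU g)
  rw [hM, mul_inv, inv_inv, mul_comm]

end Abstract

/-! ## 2. Finiteness of the set of places -/

section Artinian

variable (S : Finset Nat.Primes) (L : Type) [Field L] [NumberField L]

instance isArtinianRing_QS : IsArtinianRing (QS S) :=
  inferInstanceAs (IsArtinianRing (∀ q : S, Qq q.1))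

/-- `L ⊗[ℚ] ℚ_S` is an Artinian ring. -/
theorem isArtinianRing_AS : IsArtinianRing (AS S L) := by
  have h1 : IsArtinianRing (QS S ⊗[ℚ] L) := IsArtinianRing.of_finite (QS S) _
  exact (Algebra.TensorProduct.comm ℚ (QS S) L).toRingEquiv.isArtinianRing

/-- There are finitely many places above `S`. -/
theorem finite_sPlace : Finite (SPlace S L) := by
  have := isArtinianRing_AS S L
  infer_instance

end Artinian

/-! ## 3. A Poincaré series which is a unit -/

section Poincare

variable (S : Finset Nat.Primes) (G L : Type) [Group G] [Fintype G] [Field L] [NumberField L]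
  [MulSemiringAction G L] [FaithfulSMul G L]

/-- The Poincaré series `x ↦ ∑_h c(h) · (h x ⊗ 1)` as a `ℚ`-linear map. -/
def poincare (c : G → (AS S L)ˣ) : L →ₗ[ℚ] AS S L :=
  ∑ h : G, (LinearMap.mulLeft ℚ ((c h : (AS S L)ˣ) : AS S L)) ∘ₗ
    (asDiag S L).toLinearMap ∘ₗ (fieldAut G L h).toLinearMap

lemma poincare_apply (c : G → (AS S L)ˣ) (x : L) :
    poincare S G L c x = ∑ h : G, ((c h : (AS S L)ˣ) : AS S L) * asDiag S L (h • x) := by
  simp [poincare, LinearMap.sum_apply]

/-- The character `x ↦ (h x ⊗ 1 mod 𝔪)`. -/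
def chi (𝔪 : SPlace S L) (h : G) : L →* LocField S 𝔪 :=
  ((toLoc S 𝔪 : L →+* LocField S 𝔪) : L →* LocField S 𝔪).comp
    ((MulSemiringAction.toRingHom G L h : L →+* L) : L →* L)

lemma chi_apply (𝔪 : SPlace S L) (h : G) (x : L) :
    chi S G L 𝔪 h x = LocField.mk S 𝔪 (asDiag S L (h • x)) := rfl

lemma chi_injective (𝔪 : SPlace S L) : Function.Injective (chi S G L 𝔪) := by
  intro g h hgh
  apply FaithfulSMul.eq_of_smul_eq_smul (α := L)
  intro x
  have h1 := DFunLike.congr_fun hgh x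
  exact (toLoc S 𝔪).injective h1

/-- For every place `𝔪`, some value of the Poincaré series is not in `𝔪`. -/
lemma exists_poincare_notMem (c : G → (AS S L)ˣ) (𝔪 : SPlace S L) :
    ∃ x : L, poincare S G L c x ∉ 𝔪.asIdeal := by
  classical
  by_contra hcon
  push Not at hcon
  have hli : LinearIndependent (LocField S 𝔪)
      (fun h : G => (chi S G L 𝔪 h : L → LocField S 𝔪)) :=
    LinearIndependent.comp (ι' := G) (linearIndependent_monoidHom L (LocField S 𝔪))
      (chi S G L 𝔪) (chi_injective S G L 𝔪)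
  have hsum : ∑ h : G, (LocField.mk S 𝔪 ((c h : (AS S L)ˣ) : AS S L)) •
      (chi S G L 𝔪 h : L → LocField S 𝔪) = 0 := by
    funext x
    have hx := hcon x
    rw [← LocField.mk_eq_zero_iff, poincare_apply, map_sum] at hx
    simp only [Finset.sum_apply, Pi.smul_apply, smul_eq_mul, Pi.zero_apply]
    rw [← hx]
    refine Finset.sum_congr rfl fun h _ => ?_
    rw [map_mul, chi_apply]
  have h0 := (Fintype.linearIndependent_iff.1 hli) _ hsum 1
  have hu : IsUnit (LocField.mk S 𝔪 ((c 1 : (AS S L)ˣ) : AS S L)) :=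
    (c 1).isUnit.map (LocField.mk S 𝔪)
  exact hu.ne_zero h0

/-- Some value of the Poincaré series is a unit. -/
theorem exists_isUnit_poincare (c : G → (AS S L)ˣ) :
    ∃ x : L, IsUnit (poincare S G L c x) := by
  classical
  have := finite_sPlace S L
  by_contra hcon
  push Not at hcon
  -- the bad subspaces
  let V : SPlace S L → Subspace ℚ L := fun 𝔪 =>
    Submodule.comap (poincare S G L c) (𝔪.asIdeal.restrictScalars ℚ)
  have hcover : ⋃ 𝔪, (V 𝔪 : Set L) = Set.univ := by
    rw [Set.eq_univ_iff_forall]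
    intro x
    obtain ⟨I, hI, hxI⟩ := exists_max_ideal_of_mem_nonunits (hcon x)
    exact Set.mem_iUnion.2 ⟨⟨I, hI⟩, hxI⟩
  obtain ⟨𝔪, h𝔪⟩ := Subspace.exists_eq_top_of_iUnion_eq_univ hcover
  obtain ⟨x, hx⟩ := exists_poincare_notMem S G L c 𝔪
  have : x ∈ V 𝔪 := by rw [h𝔪]; trivial
  exact hx this

end Poincare

/-! ## 4. Hilbert 90 for `J_S(L)` -/

section Hilbert90

variable (S : Finset Nat.Primes) (G L : Type) [Group G] [Finite G] [Field L] [NumberField L]
  [MulSemiringAction G L] [FaithfulSMul G L]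

/-- **Hilbert 90 for the `S`-idèles**, cocycle form: every `1`-cocycle `c : G → J_S(L)` is of the
form `c g = g β / β`. -/
theorem exists_units_of_cocycle (c : G → (AS S L)ˣ)
    (hc : ∀ g h, c (g * h) =
      Units.map ((asRingAut G S L g : AS S L ≃+* AS S L) : AS S L →* AS S L) (c h) * c g) :
    ∃ β : (AS S L)ˣ, ∀ g,
      Units.map ((asRingAut G S L g : AS S L ≃+* AS S L) : AS S L →* AS S L) β = c g * β := by
  classical
  have : Fintype G := Fintype.ofFinite G
  obtain ⟨x, hx⟩ := exists_isUnit_poincare S G L c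
  refine exists_units_of_isUnit_sum (asRingAut G S L) c hc (asDiag S L x) ?_
  rw [poincare_apply] at hx
  have hsum : ∑ h : G, ((c h : (AS S L)ˣ) : AS S L) * (asRingAut G S L h) (asDiag S L x) =
      ∑ h : G, ((c h : (AS S L)ˣ) : AS S L) * asDiag S L (h • x) :=
    Finset.sum_congr rfl fun h _ => by rw [asRingAut_apply, asAut_asDiag]
  rw [hsum]
  exact hx

/-- **G-H1J.** `H¹(G, J_S(L)) = 0`. -/
theorem h1JSpec : H1JSpec := by
  intro S G L _ _ _ _ _ _
  rw [ModuleCat.isZero_iff_subsingleton]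
  suffices h : ∀ a : groupCohomology (JRep G S L) 1, a = 0 from
    ⟨fun a b => by rw [h a, h b]⟩
  intro a
  induction a using H1_induction_on with
  | h x =>
    rw [H1π_eq_zero_iff]
    have hx := (mem_cocycles₁_iff (x : G → (JRep G S L))).1 x.2
    obtain ⟨β, hβ⟩ := exists_units_of_cocycle S G L (fun g => Additive.toMul (x g))
      (fun g h => by
        have := hx g h
        exact congrArg Additive.toMul this)
    refine ⟨(Additive.ofMul β : Additive (AS S L)ˣ), ?_⟩
    funext g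
    have h1 := hβ g
    change jRepr G S L g (Additive.ofMul β : Additive (AS S L)ˣ) -
      (Additive.ofMul β : Additive (AS S L)ˣ) = x g
    apply Additive.toMul.injective
    change Units.map ((asRingAut G S L g : AS S L ≃+* AS S L) : AS S L →* AS S L) β / β = _
    rw [h1, mul_div_assoc, div_self', mul_one]

end Hilbert90

end Fermat.Agent.S55.G.H1JH604

end
end
-- ===== PACK-END S55/G/H1JH604.lean

-- ===== PACK-BEGIN S55/KL/H510/KummerH3Core.lean
section


/-!
# S55 / layer KC (helper53), leaf K3 (`KummerH3Spec`): core, independent of the location of the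
interface (imports only the landed `PT` layer)

`H³_lc(G, M) = 0` if `B` is smooth and `p`-divisible, `M ≅ B[p]` (via `ι`), `H³_lc(G, B) = 0` and
`H²_lc(G, B)` is `p`-divisible.

`kummerH3_core_h510` is the statement of `KummerH3Spec` with `H3Vanish`, `H2Divisible`, `IsLC₃`,
`IsCocycle₃`, `IsPDivisible` unfolded and the three fields of `IsKummerEmb` as hypotheses.
Adapter (one line, wherever the Spec lives):

  `theorem kummerH3 : KummerH3Spec := fun G _ L p _ M B ι hNC hFI hsm hdiv hK hH3 hH2 =>`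
  `  Fermat.Agent.S55.KL.H510.kummerH3_core_h510 G L p M B ι hNC hFI hsm hdiv`
  `    hK.injective hK.equivariant hK.range_eq hH3 hH2`
-/

set_option autoImplicit false
set_option linter.style.haveILetI false

noncomputable section

namespace Fermat.Agent.S55.KL.H510

open groupCohomology ExtCitation Fermat.Agent.S55.PT

variable {G : Type} [Group G]

/-- Finitely many levels have a common lower bound among the levels. -/
theorem exists_level_le_finset_h510 (L : LevelSys G) {ι : Type*} (s : Finset ι)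
    (f : ι → Subgroup G) (hf : ∀ i ∈ s, f i ∈ L.levels) :
    ∃ W ∈ L.levels, ∀ i ∈ s, W ≤ f i := by
  classical
  induction s using Finset.induction_on with
  | empty =>
    obtain ⟨U, hU⟩ := L.nonempty
    exact ⟨U, hU, fun i hi => absurd hi (Finset.notMem_empty i)⟩
  | insert a s _ ih =>
    obtain ⟨W, hW, hWs⟩ := ih (fun i hi => hf i (Finset.mem_insert_of_mem hi))
    obtain ⟨W', hW', hle⟩ := L.directed W hW (f a) (hf a (Finset.mem_insert_self a s))
    refine ⟨W', hW', fun i hi => ?_⟩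
    rcases Finset.mem_insert.1 hi with rfl | hi
    · exact fun x hx => (hle hx).2
    · exact fun x hx => hWs i hi (hle hx).1

/-- A level-constant 1-cochain with values in a smooth module has all its values fixed by one
level (levels of finite index). -/
theorem exists_level_fixing_values_h510 {k : Type} [CommRing k] (L : LevelSys G)
    (B : Rep.{0, 0, 0} k G) (hFI : L.FiniteIndex) (hsm : L.IsSmooth B) {y : G → B}
    (hy : L.IsLC₁ y) : ∃ W ∈ L.levels, ∀ (g s : G), s ∈ W → B.ρ s (y g) = y g := by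
  classical
  obtain ⟨U, hU, hyU⟩ := hy
  haveI : U.FiniteIndex := hFI U hU
  haveI : Finite (G ⧸ U) := Subgroup.finite_quotient_of_finiteIndex
  haveI : Fintype (G ⧸ U) := Fintype.ofFinite _
  -- a level fixing `y (rep q)` for every coset `q`
  let rep : G ⧸ U → G := fun q => Quotient.out q
  choose lev hlev hfix using fun q : G ⧸ U => hsm (y (rep q))
  obtain ⟨W, hW, hWle⟩ := exists_level_le_finset_h510 L (Finset.univ : Finset (G ⧸ U)) lev
    (fun q _ => hlev q)
  refine ⟨W, hW, fun g s hs => ?_⟩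
  have hg : y g = y (rep (g : G ⧸ U)) := by
    have h1 : ((rep (g : G ⧸ U) : G) : G ⧸ U) = (g : G ⧸ U) := Quotient.out_eq _
    have h2 : (rep (g : G ⧸ U))⁻¹ * g ∈ U := QuotientGroup.eq.1 h1
    have h3 := hyU (rep (g : G ⧸ U)) _ h2
    rw [mul_inv_cancel_left] at h3
    exact h3
  rw [hg]
  exact hfix _ s (hWle _ (Finset.mem_univ _) hs)

/-- `d₁₂` of a level-constant 1-cochain with values in a smooth module is level-constant. -/
theorem d₁₂_isLC₂_of_smooth_h510 {k : Type} [CommRing k] (L : LevelSys G)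
    (B : Rep.{0, 0, 0} k G) (hNC : L.NormalCofinal) (hFI : L.FiniteIndex) (hsm : L.IsSmooth B)
    {y : G → B} (hy : L.IsLC₁ y) : L.IsLC₂ ((d₁₂ B).hom y) := by
  obtain ⟨U, hU, hfix⟩ := exists_level_fixing_values_h510 L B hFI hsm hy
  obtain ⟨V, hV, hyV⟩ := hy
  obtain ⟨W, hW, hWle⟩ := L.directed U hU V hV
  obtain ⟨N, hNl, hNW, hNn⟩ := hNC W hW
  refine ⟨N, hNl, fun g g' s s' hs hs' => ?_⟩
  have hsU : s ∈ U := (hWle (hNW hs)).1
  have hs'V : s' ∈ V := (hWle (hNW hs')).2
  have hconj : g'⁻¹ * s * g' ∈ N := by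
    have := hNn.conj_mem s hs g'⁻¹
    simpa using this
  have hmem : g'⁻¹ * s * g' * s' ∈ V := (hWle (hNW (N.mul_mem hconj hs'))).2
  have e1 : g * s * (g' * s') = g * g' * (g'⁻¹ * s * g' * s') := by group
  simp only [d₁₂_hom_apply]
  rw [e1, hyV (g * g') _ hmem, hyV g' s' hs'V, hyV g s (hWle (hNW hs)).2, map_mul,
    Module.End.mul_apply, hfix g' s hsU]

/-- **KC-K3** (`KummerH3Spec`, unfolded). -/
theorem kummerH3_core_h510 (G : Type) [Group G] (L : LevelSys G) (p : ℕ) [Fact p.Prime]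
    (M : Rep.{0, 0, 0} (ZMod p) G) (B : Rep.{0, 0, 0} ℤ G) (ι : M →+ B)
    (hNC : L.NormalCofinal) (hFI : L.FiniteIndex) (hsm : L.IsSmooth B)
    (hdiv : ∀ b : B, ∃ c : B, p • c = b)
    (hinj : Function.Injective ι)
    (heq : ∀ (g : G) (m : M), ι (M.ρ g m) = B.ρ g (ι m))
    (hrange : ∀ b : B, p • b = 0 ↔ b ∈ Set.range ι)
    (hH3 : ∀ z : G × G × G → B,
      (∃ U ∈ L.levels, ∀ g₁ g₂ g₃ s₁ s₂ s₃ : G, s₁ ∈ U → s₂ ∈ U → s₃ ∈ U →
        z (g₁ * s₁, g₂ * s₂, g₃ * s₃) = z (g₁, g₂, g₃)) →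
      (∀ g h i j : G,
        B.ρ g (z (h, i, j)) - z (g * h, i, j) + z (g, h * i, j) - z (g, h, i * j)
          + z (g, h, i) = 0) →
      ∃ b : G × G → B, L.IsLC₂ b ∧ (d₂₃ B).hom b = z)
    (hH2 : ∀ a : G × G → B, a ∈ L.Z2 B → ∃ a' : G × G → B, a' ∈ L.Z2 B ∧ a - p • a' ∈ L.B2 B) :
    ∀ z : G × G × G → M,
      (∃ U ∈ L.levels, ∀ g₁ g₂ g₃ s₁ s₂ s₃ : G, s₁ ∈ U → s₂ ∈ U → s₃ ∈ U →
        z (g₁ * s₁, g₂ * s₂, g₃ * s₃) = z (g₁, g₂, g₃)) →
      (∀ g h i j : G,
        M.ρ g (z (h, i, j)) - z (g * h, i, j) + z (g, h * i, j) - z (g, h, i * j)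
          + z (g, h, i) = 0) →
      ∃ b : G × G → M, L.IsLC₂ b ∧ (d₂₃ M).hom b = z := by
  intro z hzLC hzcoc
  -- Step 1: push `z` to `B`
  obtain ⟨b, hbLC, hb⟩ := hH3 (fun x => ι (z x))
    (by
      obtain ⟨U, hU, h⟩ := hzLC
      exact ⟨U, hU, fun g₁ g₂ g₃ s₁ s₂ s₃ h₁ h₂ h₃ => by
        show ι (z _) = ι (z _)
        rw [h g₁ g₂ g₃ s₁ s₂ s₃ h₁ h₂ h₃]⟩)
    (by
      intro g h i j
      have := congrArg ι (hzcoc g h i j)
      simpa only [map_add, map_sub, map_zero, heq] using this)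
  -- Step 2: `p • b` is a level-constant cocycle
  have hpz : ∀ x, p • ι (z x) = 0 := fun x => by
    rw [← map_nsmul, ZModModule.char_nsmul_eq_zero p (z x), map_zero]
  have hpb : p • b ∈ L.Z2 B := by
    refine ⟨?_, hbLC.comp (p • ·)⟩
    show (d₂₃ B).hom (p • b) = 0
    rw [map_nsmul, hb]
    funext x
    exact hpz x
  obtain ⟨a', ha', x, hxLC, hx⟩ := hH2 (p • b) hpb
  -- Step 3: divide `x` by `p`
  choose root hroot using hdiv
  let y : G → B := fun g => root (x g)
  have hyLC : L.IsLC₁ y := LevelSys.IsLC₁.comp hxLC root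
  have hpy : p • y = x := by
    funext g
    exact hroot (x g)
  have hdy : L.IsLC₂ ((d₁₂ B).hom y) := d₁₂_isLC₂_of_smooth_h510 L B hNC hFI hsm hyLC
  -- Step 4: the corrected cochain has values in `B[p]`
  let c : G × G → B := b - a' - (d₁₂ B).hom y
  have hcLC : L.IsLC₂ c :=
    (L.C2 B).sub_mem ((L.C2 B).sub_mem (show b ∈ L.C2 B from hbLC) ha'.2)
      (show (d₁₂ B).hom y ∈ L.C2 B from hdy)
  have hpc : ∀ u, p • c u = 0 := by
    intro u
    have h1 : p • c = 0 := by
      show p • (b - a' - (d₁₂ B).hom y) = 0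
      rw [smul_sub, smul_sub, ← map_nsmul, hpy, hx, sub_self]
    exact congrFun h1 u
  have hdd : (d₂₃ B).hom ((d₁₂ B).hom y) = 0 := by
    have := d₁₂_comp_d₂₃ B
    have h2 := congrArg (fun f => f.hom y) this
    simpa using h2
  have hdc : (d₂₃ B).hom c = fun u => ι (z u) := by
    show (d₂₃ B).hom (b - a' - (d₁₂ B).hom y) = _
    rw [map_sub, map_sub, hb, hdd, show (d₂₃ B).hom a' = 0 from ha'.1, sub_zero, sub_zero]
  -- Step 5: descend to `M`
  choose m hm using fun u => (hrange (c u)).1 (hpc u)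
  refine ⟨m, ?_, ?_⟩
  · obtain ⟨U, hU, h⟩ := hcLC
    refine ⟨U, hU, fun g g' s s' hs hs' => hinj ?_⟩
    rw [hm, hm, h g g' s s' hs hs']
  · funext u
    apply hinj
    have h1 := congrFun hdc u
    rw [← h1]
    obtain ⟨g, h, i⟩ := u
    simp only [d₂₃_hom_apply, map_add, map_sub, heq, hm]

end Fermat.Agent.S55.KL.H510

end
end
-- ===== PACK-END S55/KL/H510/KummerH3Core.lean

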