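import Mathlib
import Fermat.Prelude.Def_FLTPrelim_Ramification
import Fermat.Prelude.Def_EllipticCurve_FrobeniusTrace
import Fermat.Agent.Pack.S56.E4L1
import Fermat.Agent.Pack.S56.E0L3
import Fermat.Agent.Pack.S56.E0L2
import Fermat.Agent.Pack.S56.E3L3
import Fermat.Agent.Pack.S56.E5L1
import Fermat.Agent.Pack.S56.E0L1
import Fermat.Agent.Pack.S56.E3L0
import Fermat.Agent.Pack.S56.E5L3
import Fermat.Agent.Pack.S56.E3L2
import Fermat.Agent.Pack.S56.E5L2
import Fermat.Agent.Pack.S56.E5L0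
import Fermat.Agent.Pack.S56.E4L2

-- ===== PACK-BEGIN S56/P3/H769/Span.lean
section




/-!
# S56 / P3, piece SPAN (helper769): `spanDelta : SpanDeltaStatement`

Under `TWHyp ρ p`, for `Δ ⊴ Γ` with cyclic quotient, the `k`-span of `ρ(Δ)` is `End V`.

Proof: base change to `K = AlgebraicClosure k`; `ρ_K|_Δ` is irreducible by the Clifford-type lemma
`irr_of_normal_cyclic` (from `absIrr` and `tw`); Burnside (landed `S29.H872.burnside`) gives
`K`-span `= End_K (K ⊗ V)`, of dimension `4`; the `K`-span is generated by the image of a `k`-basis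
of the `k`-span, so the `k`-span has dimension `≥ 4`.  (`split` and `p ≠ 2` are not needed.)
-/

set_option autoImplicit false
set_option linter.style.haveILetI false

namespace Fermat.Agent.S56.P3.H769

open Module
open scoped TensorProduct

/-- **Piece SPAN** of `S56/P3`. -/
theorem spanDelta : SpanDeltaStatement := by
  intro k _ V _ _ _ Γ _ ρ p _ _ hyp Δ _ hcyc
  classical
  let β : Module.End k V →ₐ[k] Module.End (AlgebraicClosure k) (AlgebraicClosure k ⊗[k] V) :=
    Module.End.baseChangeHom k (AlgebraicClosure k) V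
  let r : Γ →* Module.End (AlgebraicClosure k) (AlgebraicClosure k ⊗[k] V) :=
    (β : Module.End k V →* _).comp ρ
  have hr : ∀ g, r g = (ρ g).baseChange (AlgebraicClosure k) := fun g => rfl
  have h2 : finrank (AlgebraicClosure k) (AlgebraicClosure k ⊗[k] V) = 2 := by
    rw [Module.finrank_baseChange, hyp.finrank_eq]
  haveI : Nontrivial (AlgebraicClosure k ⊗[k] V) :=
    Module.nontrivial_of_finrank_pos (R := AlgebraicClosure k) (by rw [h2]; norm_num)
  -- Clifford: `r|_Δ` is irreducible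
  have hirrΔ := irr_of_normal_cyclic r h2 Δ hcyc (fun W hW => hyp.absIrr W hW)
    (fun G hG W hW => hyp.tw (AlgebraicClosure k) G hG W hW)
  -- Burnside
  have hA : Algebra.adjoin (AlgebraicClosure k) (Set.range fun δ : Δ => r δ) = ⊤ :=
    Fermat.Agent.S29.H872.burnside _ (fun W hW => hirrΔ W (fun δ hδ x hx =>
      hW (r δ) (Algebra.subset_adjoin ⟨⟨δ, hδ⟩, rfl⟩) hx))
  -- descent of the dimension
  by_contra hB
  have hlt : finrank k (Submodule.span k (Set.range fun δ : Δ => ρ (δ : Γ))) < 4 := by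
    have h := Submodule.finrank_lt hB
    rwa [Module.finrank_linearMap, hyp.finrank_eq] at h
  let b := Module.finBasis k (Submodule.span k (Set.range fun δ : Δ => ρ (δ : Γ)))
  have hspan : Subalgebra.toSubmodule
        (Algebra.adjoin (AlgebraicClosure k) (Set.range fun δ : Δ => r δ)) ≤
      Submodule.span (AlgebraicClosure k)
        (Set.range fun i => β ((b i : _) : Module.End k V)) := by
    rw [Algebra.adjoin_eq_span]
    have hcl : (Submonoid.closure (Set.range fun δ : Δ => r δ) : Set _) =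
        Set.range fun δ : Δ => r δ := by
      have h1 : Set.range (fun δ : Δ => r δ) =
          ((MonoidHom.mrange (r.comp Δ.subtype) : Submonoid _) : Set _) := by
        ext y
        simp
      rw [h1, Submonoid.closure_eq]
    rw [hcl, Submodule.span_le]
    rintro _ ⟨δ, rfl⟩
    have hmem : ρ (δ : Γ) ∈ Submodule.span k (Set.range fun δ : Δ => ρ (δ : Γ)) :=
      Submodule.subset_span ⟨δ, rfl⟩
    have hrepr := b.sum_repr ⟨ρ (δ : Γ), hmem⟩
    have h3 : ρ (δ : Γ) = ∑ i, b.repr ⟨ρ (δ : Γ), hmem⟩ i • ((b i : _) : Module.End k V) := by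
      have h4 := congrArg Subtype.val hrepr
      simp only [Submodule.coe_sum, Submodule.coe_smul] at h4
      exact h4.symm
    have h5 : r δ = ∑ i, algebraMap k (AlgebraicClosure k) (b.repr ⟨ρ (δ : Γ), hmem⟩ i) •
        β ((b i : _) : Module.End k V) := by
      show β (ρ (δ : Γ)) = _
      conv_lhs => rw [h3]
      rw [map_sum]
      refine Finset.sum_congr rfl fun i _ => ?_
      rw [map_smul, algebraMap_smul]
    show r δ ∈ _
    rw [h5]
    exact Submodule.sum_mem _ fun i _ =>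
      Submodule.smul_mem _ _ (Submodule.subset_span ⟨i, rfl⟩)
  have hfr : finrank (AlgebraicClosure k) (Subalgebra.toSubmodule
        (Algebra.adjoin (AlgebraicClosure k) (Set.range fun δ : Δ => r δ))) ≤
      finrank k (Submodule.span k (Set.range fun δ : Δ => ρ (δ : Γ))) := by
    calc finrank (AlgebraicClosure k) (Subalgebra.toSubmodule
          (Algebra.adjoin (AlgebraicClosure k) (Set.range fun δ : Δ => r δ)))
        ≤ finrank (AlgebraicClosure k) (Submodule.span (AlgebraicClosure k)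
          (Set.range fun i => β ((b i : _) : Module.End k V))) := Submodule.finrank_mono hspan
      _ ≤ Fintype.card (Fin (finrank k
          (Submodule.span k (Set.range fun δ : Δ => ρ (δ : Γ))))) := finrank_range_le_card _
      _ = finrank k (Submodule.span k (Set.range fun δ : Δ => ρ (δ : Γ))) := Fintype.card_fin _
  rw [hA, Algebra.top_toSubmodule, finrank_top, Module.finrank_linearMap, h2] at hfr
  omega

end Fermat.Agent.S56.P3.H769

end
-- ===== PACK-END S56/P3/H769/Span.lean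

-- ===== PACK-BEGIN S56/H134/P1.lean
section



/-!
# S56, piece P1: `PowerSeriesSurjStatement`

At most `|k| ^ r` tangent vectors `R → k[ε]` ⇒ `𝒪⟦X₁,…,X_r⟧ ↠ R`.
Proof in `Fermat/Agent/S56/H134/Cotangent.lean` (relative cotangent space + complete Nakayama
package of S53 `H596/PowerSeriesCNL.lean`).
-/

set_option autoImplicit false

open IsLocalRing

namespace Fermat.Agent.S56.H134

/-- **P1** (`PowerSeriesSurjStatement`), verbatim. -/
theorem powerSeriesSurj : Fermat.Agent.S56.PowerSeriesSurjStatement := by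
  intro 𝒪 _ _ _ _ _ R _ _ _ _ _ _ hres r hfin hcard
  exact exists_surjective_of_card_algHom_le hres r hfin hcard

end Fermat.Agent.S56.H134

end
-- ===== PACK-END S56/H134/P1.lean

-- ===== PACK-BEGIN S56/H794/TameCyclic.lean
section







/-!
# S56 / LOC-TAME (helper794), part 3: images of inertia of prime exponent are cyclic

`L/K` Galois, `A` a valuation subring of `L` whose restriction to `K` has cyclic value group
(`RankOneOver K A`), `ℓ` a prime which is a unit of `A`, `f` a homomorphism of finite level on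
`Gal(L/K)` with `f τ ^ ℓ = 1` for all `τ` in the inertia group `I` of `A`.
Then `f(I)` is cyclic (of order `1` or `ℓ`):

* `exists_pow_eq_of_exponent_prime` : `σ τ ∈ I`, `f τ ≠ 1` ⟹ `∃ j < ℓ, f σ = f τ ^ j`.
* `exists_generator_of_exponent_prime` : `∃ τ₀ ∈ I, ∀ σ ∈ I, ∃ j < ℓ, f σ = f τ₀ ^ j`.

Auxiliary:
* `exists_pow_valuation_eq_algebraMap` : some positive power of the valuation of an element
  of `Lˣ` is the valuation of an element of `Kˣ` (`L/K` algebraic).
* `exists_coprime_zpow_div_mem` : rank-one dependence in a commutative group modulo a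
  subgroup with torsion-free quotient.
-/

set_option autoImplicit false

namespace Fermat.Agent.S56.H794

open Fermat.Agent.A2.H708

/-- Rank-one dependence: if `x ^ n ≡ t ^ r` and `y ^ n₀ ≡ t ^ r₀` modulo a subgroup `U` with
torsion-free quotient, and `y ∉ U`, then `x ^ a ≡ y ^ b` for coprime integers `a`, `b`. -/
theorem exists_coprime_zpow_div_mem {G : Type*} [CommGroup G] (U : Subgroup G)
    (htf : ∀ (x : G) (n : ℕ), 0 < n → x ^ n ∈ U → x ∈ U) (t x y : G)
    {n n₀ : ℕ} (hn : 0 < n) (hn₀ : 0 < n₀) {r r₀ : ℤ}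
    (hx : x ^ n / t ^ r ∈ U) (hy : y ^ n₀ / t ^ r₀ ∈ U) (hyU : y ∉ U) :
    ∃ a b : ℤ, IsCoprime a b ∧ x ^ a / y ^ b ∈ U := by
  have hr₀ : r₀ ≠ 0 := by
    rintro rfl
    rw [zpow_zero, div_one] at hy
    exact hyU (htf y n₀ hn₀ hy)
  set a₀ : ℤ := (n : ℤ) * r₀ with ha₀
  set b₀ : ℤ := (n₀ : ℤ) * r with hb₀
  have ha₀0 : a₀ ≠ 0 := mul_ne_zero (by exact_mod_cast hn.ne') hr₀
  have h0 : x ^ a₀ / y ^ b₀ ∈ U := by
    have h1 : (x ^ n / t ^ r) ^ r₀ / (y ^ n₀ / t ^ r₀) ^ r ∈ U :=
      U.div_mem (U.zpow_mem hx r₀) (U.zpow_mem hy r)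
    have h2 : (x ^ n / t ^ r) ^ r₀ / (y ^ n₀ / t ^ r₀) ^ r = x ^ a₀ / y ^ b₀ := by
      rw [div_zpow, div_zpow, ha₀, hb₀, zpow_mul, zpow_mul, zpow_natCast, zpow_natCast,
        ← zpow_mul, ← zpow_mul, mul_comm r r₀]
      rw [div_div_div_comm, div_self', div_one]
    rwa [h2] at h1
  have hg : 0 < Int.gcd a₀ b₀ := Int.gcd_pos_of_ne_zero_left _ ha₀0
  refine ⟨a₀ / (Int.gcd a₀ b₀ : ℤ), b₀ / (Int.gcd a₀ b₀ : ℤ), ?_, ?_⟩
  · rw [Int.isCoprime_iff_gcd_eq_one]
    exact Int.gcd_div_gcd_div_gcd hg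
  · apply htf _ (Int.gcd a₀ b₀) hg
    have ha : a₀ / (Int.gcd a₀ b₀ : ℤ) * (Int.gcd a₀ b₀ : ℤ) = a₀ :=
      Int.ediv_mul_cancel (Int.gcd_dvd_left a₀ b₀)
    have hb : b₀ / (Int.gcd a₀ b₀ : ℤ) * (Int.gcd a₀ b₀ : ℤ) = b₀ :=
      Int.ediv_mul_cancel (Int.gcd_dvd_right a₀ b₀)
    rw [div_pow, ← zpow_natCast, ← zpow_natCast, ← zpow_mul, ← zpow_mul, ha, hb]
    exact h0

section general

variable {K L : Type*} [Field K] [Field L] [Algebra K L] [Algebra.IsAlgebraic K L]
  (A : ValuationSubring L)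

/-- In an algebraic extension, a positive power of the valuation of any nonzero element is the
valuation of a nonzero element of the base field. -/
theorem exists_pow_valuation_eq_algebraMap (c : L) (hc : c ≠ 0) :
    ∃ n : ℕ, 0 < n ∧ ∃ a : K, a ≠ 0 ∧ A.valuation c ^ n = A.valuation (algebraMap K L a) := by
  classical
  have hint : IsIntegral K c := (Algebra.IsAlgebraic.isAlgebraic c).isIntegral
  set P := minpoly K c with hP
  have hP0 : P ≠ 0 := minpoly.ne_zero hint
  have hroot : Polynomial.aeval c P = 0 := minpoly.aeval K c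
  set term : ℕ → L := fun i => algebraMap K L (P.coeff i) * c ^ i with hterm
  have hsum : ∑ i ∈ P.support, term i = 0 := by
    rw [← hroot, Polynomial.aeval_def, Polynomial.eval₂_eq_sum, Polynomial.sum_def]
  have hvc : A.valuation c ≠ 0 := (Valuation.ne_zero_iff _).mpr hc
  have hterm0 : ∀ i ∈ P.support, A.valuation (term i) ≠ 0 := by
    intro i hi
    rw [Valuation.ne_zero_iff]
    refine mul_ne_zero ?_ (pow_ne_zero i hc)
    rw [Ne, map_eq_zero_iff _ (algebraMap K L).injective]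
    exact Polynomial.mem_support_iff.mp hi
  have hne : P.support.Nonempty := by
    rw [Finset.nonempty_iff_ne_empty, Ne, Polynomial.support_eq_empty]
    exact hP0
  obtain ⟨j, hj, hjmax⟩ := Finset.exists_max_image P.support (fun i => A.valuation (term i)) hne
  have hex : ∃ i ∈ P.support, i ≠ j ∧ A.valuation (term i) = A.valuation (term j) := by
    by_contra hcon
    have hlt : ∀ i ∈ P.support \ {j}, A.valuation (term i) < A.valuation (term j) := by
      intro i hi
      rw [Finset.mem_sdiff, Finset.mem_singleton] at hi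
      refine lt_of_le_of_ne (hjmax i hi.1) ?_
      intro heq
      exact hcon ⟨i, hi.1, hi.2, heq⟩
    have := Valuation.map_sum_eq_of_lt A.valuation hj hlt
    rw [hsum, map_zero] at this
    exact hterm0 j hj this.symm
  obtain ⟨i, hi, hij, heq⟩ := hex
  have hai : P.coeff i ≠ 0 := Polynomial.mem_support_iff.mp hi
  have haj : P.coeff j ≠ 0 := Polynomial.mem_support_iff.mp hj
  have hvi : A.valuation (algebraMap K L (P.coeff i)) ≠ 0 := by
    rw [Valuation.ne_zero_iff, Ne, map_eq_zero_iff _ (algebraMap K L).injective]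
    exact hai
  have hvj : A.valuation (algebraMap K L (P.coeff j)) ≠ 0 := by
    rw [Valuation.ne_zero_iff, Ne, map_eq_zero_iff _ (algebraMap K L).injective]
    exact haj
  simp only [hterm, map_mul, map_pow] at heq
  -- v(a_i) v(c)^i = v(a_j) v(c)^j
  rcases lt_or_gt_of_ne hij with hlt | hlt
  · -- i < j : v(c)^(j-i) = v(a_i / a_j)
    refine ⟨j - i, Nat.sub_pos_of_lt hlt, P.coeff i / P.coeff j, div_ne_zero hai haj, ?_⟩
    rw [map_div₀, map_div₀, eq_div_iff hvj]
    have hji : j = (j - i) + i := by omega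
    have h1 : A.valuation c ^ j = A.valuation c ^ (j - i) * A.valuation c ^ i := by
      conv_lhs => rw [hji, pow_add]
    rw [h1] at heq
    have h2 : A.valuation c ^ i ≠ 0 := pow_ne_zero _ hvc
    apply mul_right_cancel₀ h2
    rw [heq, mul_assoc]
    exact mul_left_comm _ _ _
  · -- j < i : v(c)^(i-j) = v(a_j / a_i)
    refine ⟨i - j, Nat.sub_pos_of_lt hlt, P.coeff j / P.coeff i, div_ne_zero haj hai, ?_⟩
    rw [map_div₀, map_div₀, eq_div_iff hvi]
    have hji : i = (i - j) + j := by omega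
    have h1 : A.valuation c ^ i = A.valuation c ^ (i - j) * A.valuation c ^ j := by
      conv_lhs => rw [hji, pow_add]
    rw [h1] at heq
    have h2 : A.valuation c ^ j ≠ 0 := pow_ne_zero _ hvc
    apply mul_right_cancel₀ h2
    rw [← heq, mul_assoc]
    exact mul_left_comm _ _ _

/-- The restriction of the valuation of `A` to `K` has cyclic value group, generated by the
valuation of `t`. -/
def RankOneOver (K : Type*) {L : Type*} [Field K] [Field L] [Algebra K L]
    (A : ValuationSubring L) : Prop :=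
  ∃ t : Lˣ, ∀ a : K, a ≠ 0 → ∃ z : ℤ, A.valuation (algebraMap K L a) = A.valuation ((t ^ z : Lˣ) : L)

/-- The quotient of `Lˣ` by the unit group of `A` is torsion-free. -/
theorem mem_unitGroup_of_pow_mem (x : Lˣ) (n : ℕ) (hn : 0 < n) (h : x ^ n ∈ A.unitGroup) :
    x ∈ A.unitGroup := by
  rw [ValuationSubring.mem_unitGroup_iff] at h ⊢
  rw [Units.val_pow_eq_pow_val, map_pow] at h
  have hv0 : A.valuation (x : L) ≠ 0 := (Valuation.ne_zero_iff _).mpr x.ne_zero
  rcases lt_trichotomy (A.valuation (x : L)) 1 with h1 | h1 | h1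
  · exact absurd h (pow_lt_one₀ zero_le h1 hn.ne').ne
  · exact h1
  · exact absurd h (one_lt_pow₀ h1 hn.ne').ne'

/-- Rank-one dependence of two elements of `Lˣ` modulo units. -/
theorem exists_coprime_zpow_div_mem_unitGroup (hR : RankOneOver K A) (c c₀ : Lˣ)
    (hc₀ : c₀ ∉ A.unitGroup) :
    ∃ a b : ℤ, IsCoprime a b ∧ c ^ a / c₀ ^ b ∈ A.unitGroup := by
  obtain ⟨t, ht⟩ := hR
  obtain ⟨n, hn, a, ha, hna⟩ := exists_pow_valuation_eq_algebraMap (K := K) A (c : L) c.ne_zero
  obtain ⟨n₀, hn₀, a₀, ha₀, hna₀⟩ :=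
    exists_pow_valuation_eq_algebraMap (K := K) A (c₀ : L) c₀.ne_zero
  obtain ⟨r, hr⟩ := ht a ha
  obtain ⟨r₀, hr₀⟩ := ht a₀ ha₀
  have key : ∀ (x : Lˣ) (m : ℕ) (z : ℤ),
      A.valuation (x : L) ^ m = A.valuation ((t ^ z : Lˣ) : L) → x ^ m / t ^ z ∈ A.unitGroup := by
    intro x m z h
    rw [ValuationSubring.mem_unitGroup_iff, Units.val_div_eq_div_val, map_div₀,
      Units.val_pow_eq_pow_val, map_pow, h]
    exact div_self ((Valuation.ne_zero_iff _).mpr (Units.ne_zero _))
  exact exists_coprime_zpow_div_mem A.unitGroup (mem_unitGroup_of_pow_mem A) t c c₀ hn hn₀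
    (key c n r (hna.trans hr)) (key c₀ n₀ r₀ (hna₀.trans hr₀)) hc₀

end general

/-- An element killed by two coprime integer exponents is trivial. -/
theorem eq_one_of_zpow_eq_one_of_isCoprime {G : Type*} [Group G] (u : G) {a b : ℤ}
    (h : IsCoprime a b) (ha : u ^ a = 1) (hb : u ^ b = 1) : u = 1 := by
  obtain ⟨s, t, hst⟩ := h
  have h1 : u ^ (s * a + t * b) = 1 := by
    rw [zpow_add, mul_comm s a, mul_comm t b, zpow_mul, zpow_mul, ha, hb, one_zpow, one_zpow,
      one_mul]
  rwa [hst, zpow_one] at h1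

section finiteLevel

variable {K L : Type*} [Field K] [Field L] [Algebra K L] [IsGalois K L]
  {A : ValuationSubring L}

omit [IsGalois K L] in
/-- Exponent `ℓ` (a unit of `A`) implies `PrimeToResChar`. -/
theorem primeToResChar_of_exponent {G : Type*} [Group G] {f : (L ≃ₐ[K] L) →* G} {ℓ : ℕ}
    (hℓv : A.valuation (ℓ : L) = 1) (hexp : ∀ τ ∈ A.inertiaSubgroupIn K, f τ ^ ℓ = 1) :
    PrimeToResChar A f :=
  fun τ hτ => ⟨ℓ, hℓv, hexp τ hτ⟩

/-- On the fixed field of `ker f` the tame character of `τ` is killed by any exponent killing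
`f τ`. -/
theorem tameHom_pow_eq_one_of_map_pow_eq_one {G : Type*} [Group G] {f : (L ≃ₐ[K] L) →* G}
    {τ : L ≃ₐ[K] L} (hτ : τ ∈ A.inertiaSubgroupIn K) {m : ℕ} (hfm : f τ ^ m = 1) (c : Lˣ)
    (hc : (c : L) ∈ IntermediateField.fixedField f.ker) : tameHom A hτ c ^ m = 1 := by
  rw [← tameHom_pow A hτ m c]
  apply tameHom_eq_one_of_fixed
  exact (IntermediateField.mem_fixedField_iff f.ker _).mp hc (τ ^ m)
    (by rw [MonoidHom.mem_ker, map_pow, hfm])

/-- **Images of inertia of prime exponent `ℓ ≠` residue characteristic are cyclic.** -/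
theorem exists_pow_eq_of_exponent_prime {G : Type*} [Group G] {f : (L ≃ₐ[K] L) →* G}
    (hf : FiniteLevel f) (hR : RankOneOver K A) {ℓ : ℕ} (hℓ : ℓ.Prime)
    (hℓv : A.valuation (ℓ : L) = 1) (hexp : ∀ τ ∈ A.inertiaSubgroupIn K, f τ ^ ℓ = 1)
    {σ τ : L ≃ₐ[K] L} (hσ : σ ∈ A.inertiaSubgroupIn K) (hτ : τ ∈ A.inertiaSubgroupIn K)
    (hne : f τ ≠ 1) : ∃ j : ℕ, j < ℓ ∧ f σ = f τ ^ j := by
  have hp : PrimeToResChar A f := primeToResChar_of_exponent hℓv hexp
  obtain ⟨c₀, hc₀E, hζ⟩ := exists_tameHom_ne_one A hf hτ hℓv (hexp τ hτ) hne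
  have hζℓ : tameHom A hτ c₀ ^ ℓ = 1 :=
    tameHom_pow_eq_one_of_map_pow_eq_one hτ (hexp τ hτ) c₀ hc₀E
  have hξℓ : tameHom A hσ c₀ ^ ℓ = 1 :=
    tameHom_pow_eq_one_of_map_pow_eq_one hσ (hexp σ hσ) c₀ hc₀E
  have hord : orderOf (tameHom A hτ c₀) = ℓ :=
    @orderOf_eq_prime _ _ _ ℓ (Fact.mk hℓ) hζℓ hζ
  have hprim : IsPrimitiveRoot (tameHom A hτ c₀) ℓ := hord ▸ IsPrimitiveRoot.orderOf _
  have hprim' : IsPrimitiveRoot
      ((tameHom A hτ c₀ : (IsLocalRing.ResidueField A)ˣ) : IsLocalRing.ResidueField A) ℓ :=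
    IsPrimitiveRoot.coe_units_iff.mpr hprim
  haveI : NeZero ℓ := ⟨hℓ.ne_zero⟩
  obtain ⟨j, hj, hjξ⟩ := hprim'.eq_pow_of_pow_eq_one
    (ξ := ((tameHom A hσ c₀ : (IsLocalRing.ResidueField A)ˣ) : IsLocalRing.ResidueField A))
    (by rw [← Units.val_pow_eq_pow_val, hξℓ, Units.val_one])
  have hjξ' : tameHom A hτ c₀ ^ j = tameHom A hσ c₀ :=
    Units.ext (by rw [Units.val_pow_eq_pow_val]; exact hjξ)
  refine ⟨j, hj, ?_⟩
  have hc₀U : c₀ ∉ A.unitGroup := by
    intro h
    exact hζ (tameHom_eq_one_of_valuation_eq_one A hτ c₀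
      ((ValuationSubring.mem_unitGroup_iff A c₀).mp h))
  have hγ : σ * (τ ^ j)⁻¹ ∈ A.inertiaSubgroupIn K := mul_mem hσ (inv_mem (pow_mem hτ j))
  have h1 : f (σ * (τ ^ j)⁻¹) = 1 := by
    apply map_eq_one_of_tameHom_eq_one hf hp hγ
    intro c hcE
    rw [tameHom_mul A hσ (inv_mem (pow_mem hτ j)), tameHom_inv A (pow_mem hτ j),
      tameHom_pow A hτ]
    obtain ⟨a, b, hab, hmem⟩ := exists_coprime_zpow_div_mem_unitGroup (K := K) A hR c c₀ hc₀U
    have hv : A.valuation (((c ^ a / c₀ ^ b : Lˣ)) : L) = 1 :=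
      (ValuationSubring.mem_unitGroup_iff A _).mp hmem
    have hxa : tameHom A hσ c ^ a = tameHom A hσ c₀ ^ b := by
      have := tameHom_eq_one_of_valuation_eq_one A hσ _ hv
      rwa [map_div, map_zpow, map_zpow, div_eq_one] at this
    have hya : tameHom A hτ c ^ a = tameHom A hτ c₀ ^ b := by
      have := tameHom_eq_one_of_valuation_eq_one A hτ _ hv
      rwa [map_div, map_zpow, map_zpow, div_eq_one] at this
    have hxℓ : tameHom A hσ c ^ ℓ = 1 :=
      tameHom_pow_eq_one_of_map_pow_eq_one hσ (hexp σ hσ) c hcE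
    have hyℓ : tameHom A hτ c ^ ℓ = 1 :=
      tameHom_pow_eq_one_of_map_pow_eq_one hτ (hexp τ hτ) c hcE
    set x := tameHom A hσ c with hx
    set y := tameHom A hτ c with hy
    set ζ := tameHom A hτ c₀ with hζdef
    set ξ := tameHom A hσ c₀ with hξdef
    have hua : (x * (y ^ j)⁻¹) ^ a = 1 := by
      rw [mul_zpow, inv_zpow, ← zpow_natCast y j, ← zpow_mul, mul_comm (j : ℤ) a, zpow_mul,
        hxa, hya, ← hjξ', ← zpow_natCast ζ j, ← zpow_mul, ← zpow_mul, mul_comm (j : ℤ) b,
        mul_inv_cancel]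
    have huℓ : (x * (y ^ j)⁻¹) ^ (ℓ : ℤ) = 1 := by
      rw [zpow_natCast, mul_pow, inv_pow, ← pow_mul, mul_comm j ℓ, pow_mul, hxℓ, hyℓ, one_pow,
        inv_one, mul_one]
    by_cases hdvd : (ℓ : ℤ) ∣ a
    · exfalso
      -- then ℓ ∤ b, ζ ^ b = y ^ a = 1, so ζ = 1
      obtain ⟨a', ha'⟩ := hdvd
      have hζb : ζ ^ b = 1 := by
        rw [← hya, ha', zpow_mul, zpow_natCast, hyℓ, one_zpow]
      have hcop : IsCoprime (ℓ : ℤ) b := by
        rw [ha'] at hab
        exact hab.of_mul_left_left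
      have hζℓ' : ζ ^ (ℓ : ℤ) = 1 := by rw [zpow_natCast]; exact hζℓ
      exact hζ (eq_one_of_zpow_eq_one_of_isCoprime ζ hcop hζℓ' hζb)
    · have hcop : IsCoprime a (ℓ : ℤ) := by
        have hprime : Prime (ℓ : ℤ) := Nat.prime_iff_prime_int.mp hℓ
        exact (hprime.coprime_iff_not_dvd.mpr hdvd).symm
      exact eq_one_of_zpow_eq_one_of_isCoprime _ hcop hua huℓ
  rw [map_mul, map_inv, map_pow, mul_inv_eq_one] at h1
  exact h1

/-- Existence of a generator of `f(I)` when `f(I)` has prime exponent `ℓ`. -/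
theorem exists_generator_of_exponent_prime {G : Type*} [Group G] {f : (L ≃ₐ[K] L) →* G}
    (hf : FiniteLevel f) (hR : RankOneOver K A) {ℓ : ℕ} (hℓ : ℓ.Prime)
    (hℓv : A.valuation (ℓ : L) = 1) (hexp : ∀ τ ∈ A.inertiaSubgroupIn K, f τ ^ ℓ = 1) :
    ∃ τ₀ ∈ A.inertiaSubgroupIn K, ∀ σ ∈ A.inertiaSubgroupIn K, ∃ j : ℕ, j < ℓ ∧ f σ = f τ₀ ^ j := by
  by_cases h : ∃ τ ∈ A.inertiaSubgroupIn K, f τ ≠ 1
  · obtain ⟨τ, hτ, hne⟩ := h
    exact ⟨τ, hτ, fun σ hσ => exists_pow_eq_of_exponent_prime hf hR hℓ hℓv hexp hσ hτ hne⟩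
  · refine ⟨1, one_mem _, fun σ hσ => ⟨0, hℓ.pos, ?_⟩⟩
    rw [pow_zero]
    by_contra hne
    exact h ⟨σ, hσ, hne⟩

end finiteLevel

end Fermat.Agent.S56.H794

end
-- ===== PACK-END S56/H794/TameCyclic.lean

-- ===== PACK-BEGIN S56/H254/FlatLift.lean
section



/-!
# S56 / W-FLAT, bridge piece FL-BR (LIFT, KER): flat tangent cocycles as flat modules (helper254)

For a residual representation `ρbar` over a finite field `k` and a function
`c : G_ℚ → End_k V`, the module `V_c := k[ε] ⊗_k V` with the action `σ ↦ liftEnd ρbar c σ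
= (1 + ε c(σ)) ρ̄(σ)` is the module underlying every lift `ρ'` with `IsLiftOf ρbar c ρ'`.

* `isFlatMod_of_isLiftOf` : `IsLiftOf ρbar c ρ'`, `ρ'.IsFlatAt p` ⟹ `IsFlatMod p V_c (liftEnd c)`
  (only the ideal `I = ⊥` of `IsFlatAt` is used);
* `isFlatMod_pair` : for two flat lifts, `V_{c₁} × V_{c₂}` is flat (PROD);
* `liftEnd_eq_one_iff` : (KER) `σ` acts trivially on `V_c` iff `ρ̄ σ = 1` and `c σ = 0`;
* `isFlatMod_residual` : the residual module `V` itself is flat (ideal `I = (ε)`) — not needed for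
  the count but useful for the structure of `ρ̄|_{D_p}`.
-/

set_option autoImplicit false

open scoped TensorProduct
open WithConv

noncomputable section

namespace Fermat.Agent.S56.H254

open Fermat.Agent.S56 Fermat.Agent.S56.H716

local notation "Qb" => AlgebraicClosure ℚ
local notation "Zloc" => GaloisRep.ratLocalizedAt

section components

variable {k : Type} [Field k] {V : Type} [AddCommGroup V] [Module k V]

/-- The `1`-component `k[ε] ⊗ V → V`. -/
def fstV : (DualNumber k ⊗[k] V) →ₗ[k] V :=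
  (TensorProduct.lid k V).toLinearMap ∘ₗ
    LinearMap.rTensor V ((TrivSqZeroExt.fstHom k k k).toLinearMap)

/-- The `ε`-component `k[ε] ⊗ V → V`. -/
def sndV : (DualNumber k ⊗[k] V) →ₗ[k] V :=
  (TensorProduct.lid k V).toLinearMap ∘ₗ LinearMap.rTensor V (TrivSqZeroExt.sndHom k k)

@[simp] theorem fstV_tmul (z : DualNumber k) (v : V) : fstV (z ⊗ₜ[k] v) = z.fst • v := by
  simp [fstV]

@[simp] theorem sndV_tmul (z : DualNumber k) (v : V) : sndV (z ⊗ₜ[k] v) = z.snd • v := by
  simp [sndV]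

/-- The value of `f ⊗ 1 + ε • (g ⊗ 1)` on `1 ⊗ v`. -/
theorem baseChange_add_eps_apply (f g : Module.End k V) (v : V) :
    (f.baseChange (DualNumber k) + (DualNumber.eps : DualNumber k) • g.baseChange (DualNumber k))
      ((1 : DualNumber k) ⊗ₜ[k] v)
      = (1 : DualNumber k) ⊗ₜ[k] f v + (DualNumber.eps : DualNumber k) ⊗ₜ[k] g v := by
  rw [LinearMap.add_apply, LinearMap.smul_apply, LinearMap.baseChange_tmul,
    LinearMap.baseChange_tmul, TensorProduct.smul_tmul', smul_eq_mul, mul_one]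

/-- `f ⊗ 1 + ε • (g ⊗ 1) = 1` iff `f = 1` and `g = 0`. -/
theorem baseChange_add_eps_eq_one_iff (f g : Module.End k V) :
    f.baseChange (DualNumber k) + (DualNumber.eps : DualNumber k) • g.baseChange (DualNumber k)
      = 1 ↔ f = 1 ∧ g = 0 := by
  constructor
  · intro h
    have key : ∀ v : V, (1 : DualNumber k) ⊗ₜ[k] f v + (DualNumber.eps : DualNumber k) ⊗ₜ[k] g v
        = (1 : DualNumber k) ⊗ₜ[k] v := by
      intro v
      rw [← baseChange_add_eps_apply, h]
      rfl
    refine ⟨LinearMap.ext fun v => ?_, LinearMap.ext fun v => ?_⟩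
    · have := congrArg fstV (key v)
      rw [map_add, fstV_tmul, fstV_tmul, fstV_tmul, TrivSqZeroExt.fst_one, DualNumber.fst_eps,
        one_smul, zero_smul, add_zero, one_smul] at this
      exact this
    · have := congrArg sndV (key v)
      rw [map_add, sndV_tmul, sndV_tmul, sndV_tmul, TrivSqZeroExt.snd_one, DualNumber.snd_eps,
        one_smul, zero_smul, zero_add, zero_smul] at this
      exact this
  · rintro ⟨rfl, rfl⟩
    have h0 : (DualNumber.eps : DualNumber k) •
        (0 : Module.End (DualNumber k) (DualNumber k ⊗[k] V)) = 0 := by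
      refine LinearMap.ext fun x => ?_
      rw [LinearMap.smul_apply, LinearMap.zero_apply, smul_zero]
    rw [LinearMap.baseChange_zero, h0, add_zero]
    exact LinearMap.baseChange_one (R := k) (A := DualNumber k) (M := V)

end components

section lift

variable {k : Type} [Field k] (ρbar : ResidualGaloisRep k)

/-- **(KER)** `σ` acts trivially on `V_c` iff `ρ̄ σ = 1` and `c σ = 0`. -/
theorem liftEnd_eq_one_iff (c : GQ → Module.End k ρbar.V) (σ : GQ) :
    liftEnd ρbar c σ = 1 ↔ ρbar.ρ σ = 1 ∧ c σ = 0 := by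
  unfold liftEnd
  rw [baseChange_add_eps_eq_one_iff]
  constructor
  · rintro ⟨h1, h2⟩
    refine ⟨h1, ?_⟩
    rw [h1, mul_one] at h2
    exact h2
  · rintro ⟨h1, h2⟩
    refine ⟨h1, ?_⟩
    rw [h1, h2, mul_one]

theorem finite_dualNumber [Finite k] : Finite (DualNumber k) := by
  have : Finite (k × k) := inferInstance
  exact Finite.of_injective (fun z : DualNumber k => (z.fst, z.snd))
    (fun a b h => TrivSqZeroExt.ext (congrArg Prod.fst h) (congrArg Prod.snd h))

variable {ρbar}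

/-- **(LIFT)** the module of a flat lift of `c` is a flat Galois module. -/
theorem isFlatMod_of_isLiftOf [Finite k] {p : ℕ} {c : GQ → Module.End k ρbar.V}
    {ρ' : GaloisRepAdic (DualNumber k)} (hlift : IsLiftOf ρbar c ρ') (hflat : ρ'.IsFlatAt p) :
    IsFlatMod p (DualNumber k ⊗[k] ρbar.V) (fun σ => liftEnd ρbar c σ) := by
  obtain ⟨e, he⟩ := hlift
  haveI : Finite (DualNumber k) := finite_dualNumber
  have hfin : Finite (DualNumber k ⧸ (⊥ : Ideal (DualNumber k))) :=
    Finite.of_surjective _ (Ideal.Quotient.mk_surjective (I := (⊥ : Ideal (DualNumber k))))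
  have h0 := ((isFlatAt_iff ρ' p).mp hflat).2 ⊥ hfin
  have hbot : ((⊥ : Ideal (DualNumber k)) • (⊤ : Submodule (DualNumber k) ρ'.V)) = ⊥ :=
    Submodule.bot_smul _
  let φ : (ρ'.V ⧸ ((⊥ : Ideal (DualNumber k)) • (⊤ : Submodule (DualNumber k) ρ'.V)))
      ≃ₗ[DualNumber k] (DualNumber k ⊗[k] ρbar.V) :=
    (Submodule.quotEquivOfEqBot _ hbot).trans e
  refine h0.of_equiv φ.toAddEquiv _ ?_
  intro σ x
  obtain ⟨v, rfl⟩ := Submodule.Quotient.mk_surjective _ x
  show e (Submodule.quotEquivOfEqBot _ hbot (ρ'.levelAction ⊥ σ (Submodule.Quotient.mk v)))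
    = liftEnd ρbar c σ (e (Submodule.quotEquivOfEqBot _ hbot (Submodule.Quotient.mk v)))
  have h1 : ρ'.levelAction ⊥ σ (Submodule.Quotient.mk v) = Submodule.Quotient.mk (ρ'.ρ σ v) := rfl
  rw [h1, Submodule.quotEquivOfEqBot_apply_mk, Submodule.quotEquivOfEqBot_apply_mk, he]

/-- **(PROD)** two flat tangent cocycles give a flat module `V_{c₁} × V_{c₂}`. -/
theorem isFlatMod_pair [Finite k] {p : ℕ} {c₁ c₂ : GQ → Module.End k ρbar.V}
    {ρ₁ ρ₂ : GaloisRepAdic (DualNumber k)} (h₁ : IsLiftOf ρbar c₁ ρ₁) (hf₁ : ρ₁.IsFlatAt p)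
    (h₂ : IsLiftOf ρbar c₂ ρ₂) (hf₂ : ρ₂.IsFlatAt p) :
    IsFlatMod p ((DualNumber k ⊗[k] ρbar.V) × (DualNumber k ⊗[k] ρbar.V))
      (fun σ x => (liftEnd ρbar c₁ σ x.1, liftEnd ρbar c₂ σ x.2)) :=
  (isFlatMod_of_isLiftOf h₁ hf₁).prod (isFlatMod_of_isLiftOf h₂ hf₂)

/-- **(KER)** for the pair module: `σ` acts trivially on `V_{c₁} × V_{c₂}` iff `ρ̄ σ = 1`,
`c₁ σ = 0` and `c₂ σ = 0`. -/
theorem pair_fixed_iff (c₁ c₂ : GQ → Module.End k ρbar.V) (σ : GQ) :
    (∀ x : (DualNumber k ⊗[k] ρbar.V) × (DualNumber k ⊗[k] ρbar.V),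
      (liftEnd ρbar c₁ σ x.1, liftEnd ρbar c₂ σ x.2) = x)
      ↔ ρbar.ρ σ = 1 ∧ c₁ σ = 0 ∧ c₂ σ = 0 := by
  constructor
  · intro h
    have h1 : liftEnd ρbar c₁ σ = 1 := by
      refine LinearMap.ext fun x => ?_
      have := congrArg Prod.fst (h (x, 0))
      exact this
    have h2 : liftEnd ρbar c₂ σ = 1 := by
      refine LinearMap.ext fun x => ?_
      have := congrArg Prod.snd (h (0, x))
      exact this
    rw [liftEnd_eq_one_iff] at h1 h2
    exact ⟨h1.1, h1.2, h2.2⟩
  · rintro ⟨h0, h1, h2⟩ x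
    have e1 : liftEnd ρbar c₁ σ = 1 := (liftEnd_eq_one_iff ρbar c₁ σ).mpr ⟨h0, h1⟩
    have e2 : liftEnd ρbar c₂ σ = 1 := (liftEnd_eq_one_iff ρbar c₂ σ).mpr ⟨h0, h2⟩
    rw [e1, e2]
    rfl

end lift

end Fermat.Agent.S56.H254

end

end
-- ===== PACK-END S56/H254/FlatLift.lean

-- ===== PACK-BEGIN S55/PT/Cone.lean
section


/-!
# S55 / PT layer, part 4: localisation maps, Ш¹, Ш², the cone `H²_c` and `T³`

Global group `G` with levels `L`; finitely many local groups `Gv v` with levels `Lv v` and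
level-compatible maps `r v : Gv v → G`.

* `loc1`, `loc2`, `Sha1`, `Sha2`, `T3 = coker loc2`;
* cone cocycles `Zc2`, coboundaries `Bc2`, `Hc2`;
* `jH : ∏_v H¹(G_v, A) → H²_c(A)`, `uH : H²_c(A) → H²(A)`;
* push-forwards `pushHc2`, `pushT3`, `pushSha1`, `pushSha2`, `pushLoc1`, `pushLoc2`.

Exactness statements are leaves (see `Spec.lean`).
-/

set_option autoImplicit false

noncomputable section

namespace Fermat.Agent.S55.PT

open groupCohomology

variable {k : Type} [Field k] {G : Type} [Group G]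
variable {ι : Type} [Fintype ι] [DecidableEq ι] {Gv : ι → Type} [∀ v, Group (Gv v)]
variable {L : LevelSys G} {Lv : ∀ v, LevelSys (Gv v)} {r : ∀ v, Gv v →* G}
variable (hr : ∀ v, IsLevelCompatible (r v) L (Lv v))
variable (A : Rep.{0, 0, 0} k G)

/-- restriction of an equivariant map is equivariant -/
lemma IsEquivariant.res {G' : Type} [Group G'] (s : G' →* G) {A B : Rep.{0, 0, 0} k G}
    {φ : A →ₗ[k] B} (hφ : IsEquivariant φ) :
    IsEquivariant (A := Rep.res s A) (B := Rep.res s B) φ :=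
  fun g a => hφ (s g) a

/-- total localisation on `H¹` -/
def loc1 : L.H1 A →ₗ[k] ((v : ι) → (Lv v).H1 (Rep.res (r v) A)) :=
  LinearMap.pi fun v => resH1 (hr v) A

/-- total localisation on `H²` -/
def loc2 : L.H2 A →ₗ[k] ((v : ι) → (Lv v).H2 (Rep.res (r v) A)) :=
  LinearMap.pi fun v => resH2 (hr v) A

@[simp] lemma loc1_apply (x : L.H1 A) (v : ι) : loc1 hr A x v = resH1 (hr v) A x := rfl
@[simp] lemma loc2_apply (x : L.H2 A) (v : ι) : loc2 hr A x v = resH2 (hr v) A x := rfl

/-- `Ш¹ = ker loc1` -/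
abbrev Sha1 : Submodule k (L.H1 A) := LinearMap.ker (loc1 hr A)

/-- `Ш² = ker loc2` -/
abbrev Sha2 : Submodule k (L.H2 A) := LinearMap.ker (loc2 hr A)

/-- `T³(A) = coker (H²(G, A) → ∏_v H²(G_v, A))` (this is `H³_c` when `H³` vanishes) -/
def T3 : Type := ((v : ι) → (Lv v).H2 (Rep.res (r v) A)) ⧸ LinearMap.range (loc2 hr A)

instance : AddCommGroup (T3 hr A) :=
  inferInstanceAs (AddCommGroup
    (((v : ι) → (Lv v).H2 (Rep.res (r v) A)) ⧸ LinearMap.range (loc2 hr A)))

instance : Module k (T3 hr A) :=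
  inferInstanceAs (Module k
    (((v : ι) → (Lv v).H2 (Rep.res (r v) A)) ⧸ LinearMap.range (loc2 hr A)))

/-- the class map `∏_v H²(G_v, A) → T³(A)` -/
def T3π : ((v : ι) → (Lv v).H2 (Rep.res (r v) A)) →ₗ[k] T3 hr A :=
  Submodule.mkQ (LinearMap.range (loc2 hr A))

lemma T3π_surjective : Function.Surjective (T3π hr A) := Submodule.mkQ_surjective _

lemma ker_T3π : LinearMap.ker (T3π hr A) = LinearMap.range (loc2 hr A) := Submodule.ker_mkQ _

lemma T3π_eq_zero_iff (x : (v : ι) → (Lv v).H2 (Rep.res (r v) A)) :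
    T3π hr A x = 0 ↔ x ∈ LinearMap.range (loc2 hr A) := by
  rw [← ker_T3π, LinearMap.mem_ker]

variable (r) in
/-- The differential `C¹_c → C²_c` of the cone:
`(x, m) ↦ (d x, (x ∘ r_v + d m_v)_v)`, `x` a global 1-cochain, `m_v ∈ A`. -/
def coneD : ((G → A) × (ι → A)) →ₗ[k] ((G × G → A) × ((v : ι) → Gv v → A)) where
  toFun x := ((d₁₂ A).hom x.1,
    fun v => (x.1 ∘ r v : Gv v → A) + ((d₀₁ (Rep.res (r v) A)).hom (x.2 v) : Gv v → A))
  map_add' x y := by
    ext1
    · simp
    · funext v g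
      simp only [Prod.fst_add, Prod.snd_add, Pi.add_apply, Function.comp_apply, map_add]
      abel
  map_smul' c x := by
    ext1
    · simp
    · funext v g
      simp only [Prod.smul_fst, Prod.smul_snd, Pi.smul_apply, Pi.add_apply, Function.comp_apply,
        map_smul, RingHom.id_apply, smul_add]

variable (L Lv r) in
/-- Cone 2-cocycles: `(a, b)` with `a` a level-constant global 2-cocycle, `b_v` level-constant
local 1-cochains with `d b_v = a ∘ r_v`. -/
def Zc2 : Submodule k ((G × G → A) × ((v : ι) → Gv v → A)) where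
  carrier := {x | x.1 ∈ L.Z2 A ∧
    ∀ v, (x.2 v : Gv v → Rep.res (r v) A) ∈ (Lv v).C1 (Rep.res (r v) A) ∧
    (d₁₂ (Rep.res (r v) A)).hom (x.2 v) = (x.1 ∘ Prod.map (r v) (r v) : Gv v × Gv v → A)}
  add_mem' := by
    rintro x y ⟨hx1, hx2⟩ ⟨hy1, hy2⟩
    refine ⟨(L.Z2 A).add_mem hx1 hy1, fun v => ⟨((Lv v).C1 _).add_mem (hx2 v).1 (hy2 v).1, ?_⟩⟩
    have h1 := (hx2 v).2
    have h2 := (hy2 v).2
    simp only [Prod.snd_add, Prod.fst_add, Pi.add_apply] at h1 h2 ⊢
    rw [map_add, h1, h2]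
    rfl
  zero_mem' := by
    refine ⟨(L.Z2 A).zero_mem, fun v => ⟨((Lv v).C1 _).zero_mem, ?_⟩⟩
    simp only [Prod.snd_zero, Prod.fst_zero, Pi.zero_apply, map_zero]
    rfl
  smul_mem' := by
    rintro c x ⟨hx1, hx2⟩
    refine ⟨(L.Z2 A).smul_mem c hx1, fun v => ⟨((Lv v).C1 _).smul_mem c (hx2 v).1, ?_⟩⟩
    have h1 := (hx2 v).2
    simp only [Prod.smul_snd, Prod.smul_fst, Pi.smul_apply] at h1 ⊢
    rw [map_smul, h1]
    rfl

lemma mem_Zc2_iff (x : (G × G → A) × ((v : ι) → Gv v → A)) :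
    x ∈ Zc2 L Lv r A ↔ x.1 ∈ L.Z2 A ∧
      ∀ v, (x.2 v : Gv v → Rep.res (r v) A) ∈ (Lv v).C1 (Rep.res (r v) A) ∧
      (d₁₂ (Rep.res (r v) A)).hom (x.2 v) = (x.1 ∘ Prod.map (r v) (r v) : Gv v × Gv v → A) :=
  Iff.rfl

variable (L r) in
/-- Cone 2-coboundaries: `coneD (x, m)` with `x` level-constant. -/
def Bc2 : Submodule k ((G × G → A) × ((v : ι) → Gv v → A)) :=
  ((L.C1 A).prod ⊤).map (coneD r A)

lemma mem_Bc2_iff (z : (G × G → A) × ((v : ι) → Gv v → A)) :
    z ∈ Bc2 L r A ↔ ∃ (x : G → A) (m : ι → A), L.IsLC₁ x ∧ coneD r A (x, m) = z := by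
  constructor
  · rintro ⟨⟨x, m⟩, ⟨hx, -⟩, rfl⟩
    exact ⟨x, m, hx, rfl⟩
  · rintro ⟨x, m, hx, rfl⟩
    exact ⟨(x, m), ⟨hx, trivial⟩, rfl⟩

variable (L Lv r) in
/-- The cone cohomology `H²_c`. -/
def Hc2 : Type := ↥(Zc2 L Lv r A) ⧸ (Bc2 L r A).comap (Zc2 L Lv r A).subtype

instance : AddCommGroup (Hc2 L Lv r A) :=
  inferInstanceAs (AddCommGroup (↥(Zc2 L Lv r A) ⧸ (Bc2 L r A).comap (Zc2 L Lv r A).subtype))

instance : Module k (Hc2 L Lv r A) :=
  inferInstanceAs (Module k (↥(Zc2 L Lv r A) ⧸ (Bc2 L r A).comap (Zc2 L Lv r A).subtype))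

variable (L Lv r) in
/-- class of a cone cocycle -/
def Hc2π : ↥(Zc2 L Lv r A) →ₗ[k] Hc2 L Lv r A :=
  Submodule.mkQ ((Bc2 L r A).comap (Zc2 L Lv r A).subtype)

lemma Hc2π_surjective : Function.Surjective (Hc2π L Lv r A) := Submodule.mkQ_surjective _

lemma ker_Hc2π : LinearMap.ker (Hc2π L Lv r A) = (Bc2 L r A).comap (Zc2 L Lv r A).subtype :=
  Submodule.ker_mkQ _

lemma Hc2π_eq_zero_iff (z : ↥(Zc2 L Lv r A)) :
    Hc2π L Lv r A z = 0 ↔ (z : (G × G → A) × ((v : ι) → Gv v → A)) ∈ Bc2 L r A := by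
  rw [← LinearMap.mem_ker, ker_Hc2π, Submodule.mem_comap, Submodule.subtype_apply]

/-! ### the maps `j` and `u` -/

/-- `(0, b)` is a cone cocycle when all `b_v` are level-constant cocycles. -/
theorem zero_pair_mem_Zc2 (b : (v : ι) → ↥((Lv v).Z1 (Rep.res (r v) A))) :
    ((0 : G × G → A), fun v => ((b v : Gv v → Rep.res (r v) A) : Gv v → A)) ∈ Zc2 L Lv r A := by
  refine ⟨(L.Z2 A).zero_mem, fun v => ⟨(b v).2.2, ?_⟩⟩
  have h : (d₁₂ (Rep.res (r v) A)).hom (b v : Gv v → Rep.res (r v) A) = 0 := (b v).2.1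
  rw [h]
  rfl

/-- the linear map `∏_v Z¹(G_v, A) → Z²_c`, `b ↦ (0, b)` -/
def jZ : ((v : ι) → ↥((Lv v).Z1 (Rep.res (r v) A))) →ₗ[k] ↥(Zc2 L Lv r A) where
  toFun b := ⟨((0 : G × G → A), fun v => ((b v : Gv v → Rep.res (r v) A) : Gv v → A)),
    zero_pair_mem_Zc2 A b⟩
  map_add' _ _ := by
    apply Subtype.ext
    ext1
    · simp
    · rfl
  map_smul' _ _ := by
    apply Subtype.ext
    ext1
    · simp
    · rfl

/-- `(a, b) ↦ a` on cone cocycles -/
def uZ : ↥(Zc2 L Lv r A) →ₗ[k] ↥(L.Z2 A) :=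
  ((LinearMap.fst k (G × G → A) ((v : ι) → Gv v → A)).restrict
    (p := Zc2 L Lv r A) (q := L.Z2 A) fun _ hx => hx.1)

@[simp] lemma coe_uZ (z : ↥(Zc2 L Lv r A)) :
    (uZ A z : G × G → A) = (z : (G × G → A) × ((v : ι) → Gv v → A)).1 := rfl

/-- `u : H²_c(A) → H²(A)`, `[(a, b)] ↦ [a]`. -/
def uH : Hc2 L Lv r A →ₗ[k] L.H2 A :=
  Submodule.mapQ ((Bc2 L r A).comap (Zc2 L Lv r A).subtype)
    ((L.B2 A).comap (L.Z2 A).subtype) (uZ A) (by
    intro z hz
    simp only [Submodule.mem_comap, Submodule.subtype_apply] at hz ⊢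
    obtain ⟨x, m, hx, hxz⟩ := (mem_Bc2_iff A _).1 hz
    refine ⟨x, hx, ?_⟩
    rw [coe_uZ, ← hxz]
    rfl)

@[simp] lemma uH_mk (z : ↥(Zc2 L Lv r A)) :
    uH A (Hc2π L Lv r A z) = L.H2π A (uZ A z) := rfl

/-- the `v`-component of `j`, on cocycles: `b ↦ (0, single v b)` -/
def jZv (v : ι) : ↥((Lv v).Z1 (Rep.res (r v) A)) →ₗ[k] ↥(Zc2 L Lv r A) :=
  jZ A ∘ₗ LinearMap.single k (fun w => ↥((Lv w).Z1 (Rep.res (r w) A))) v

/-- the `v`-component of `j`: `H¹(G_v, A) → H²_c(A)` -/
def jHv (v : ι) : (Lv v).H1 (Rep.res (r v) A) →ₗ[k] Hc2 L Lv r A :=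
  Submodule.liftQ _ (Hc2π L Lv r A ∘ₗ jZv (L := L) A v) (by
    intro b hb
    rw [LinearMap.mem_ker, LinearMap.comp_apply, Hc2π_eq_zero_iff]
    simp only [Submodule.mem_comap, Submodule.subtype_apply] at hb
    obtain ⟨m, hm⟩ := hb
    refine (mem_Bc2_iff A _).2 ⟨0, Pi.single v m, L.isLC₁_const (0 : A), ?_⟩
    ext1
    · simp [coneD, jZv, jZ]
    · funext w
      by_cases hw : w = v
      · subst hw
        simp only [coneD, jZv, jZ, LinearMap.coe_mk, AddHom.coe_mk, LinearMap.comp_apply,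
          LinearMap.single_apply, Pi.single_eq_same]
        rw [← hm]
        funext g
        simp
      · simp only [coneD, jZv, jZ, LinearMap.coe_mk, AddHom.coe_mk, LinearMap.comp_apply,
          LinearMap.single_apply, Pi.single_eq_of_ne hw]
        funext g
        simp only [ZeroMemClass.coe_zero, Pi.zero_comp, Pi.add_apply, Pi.zero_apply, map_zero,
          add_zero]
        exact (zero_add _).trans rfl)

/-- `j : ∏_v H¹(G_v, A) → H²_c(A)`, `([b_v])_v ↦ [(0, (b_v)_v)]`. -/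
def jH : ((v : ι) → (Lv v).H1 (Rep.res (r v) A)) →ₗ[k] Hc2 L Lv r A :=
  ∑ v : ι, jHv (L := L) A v ∘ₗ LinearMap.proj v

lemma jH_mk (b : (v : ι) → ↥((Lv v).Z1 (Rep.res (r v) A))) :
    jH (L := L) A (fun v => (Lv v).H1π _ (b v)) = Hc2π L Lv r A (jZ A b) := by
  have hb : b = ∑ v : ι, Pi.single v (b v) := (Finset.univ_sum_single b).symm
  conv_rhs => rw [hb, map_sum, map_sum]
  simp only [jH, LinearMap.sum_apply, LinearMap.comp_apply, LinearMap.proj_apply]
  rfl

/-! ### push-forwards -/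

section Push

variable {A} {B : Rep.{0, 0, 0} k G} (φ : A →ₗ[k] B) (hφ : IsEquivariant φ)

/-- push-forward on cone cochains -/
def pushC : ((G × G → A) × ((v : ι) → Gv v → A)) →ₗ[k] ((G × G → B) × ((v : ι) → Gv v → B)) :=
  LinearMap.prodMap (φ.compLeft (G × G)) (LinearMap.pi fun v => (φ.compLeft (Gv v)) ∘ₗ
    LinearMap.proj v)

@[simp] lemma pushC_fst (z : (G × G → A) × ((v : ι) → Gv v → A)) :
    (pushC (Gv := Gv) φ z).1 = φ ∘ z.1 := rfl

@[simp] lemma pushC_snd (z : (G × G → A) × ((v : ι) → Gv v → A)) (v : ι) :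
    (pushC (Gv := Gv) φ z).2 v = φ ∘ z.2 v := rfl

include hφ in
lemma pushC_mem_Zc2 {z : (G × G → A) × ((v : ι) → Gv v → A)} (hz : z ∈ Zc2 L Lv r A) :
    pushC (Gv := Gv) φ z ∈ Zc2 L Lv r B := by
  refine ⟨push_mem_Z2 φ hφ L hz.1, fun v => ⟨LevelSys.IsLC₁.comp (hz.2 v).1 φ, ?_⟩⟩
  have h1 := (hz.2 v).2
  have h2 := push_d₁₂ (A := Rep.res (r v) A) (B := Rep.res (r v) B) φ (hφ.res (r v)) (z.2 v)
  rw [pushC_snd, pushC_fst]
  rw [h2, h1]
  rfl

include hφ in
lemma pushC_mem_Bc2 {z : (G × G → A) × ((v : ι) → Gv v → A)} (hz : z ∈ Bc2 L r A) :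
    pushC (Gv := Gv) φ z ∈ Bc2 L r B := by
  obtain ⟨x, m, hx, rfl⟩ := (mem_Bc2_iff A _).1 hz
  refine (mem_Bc2_iff B _).2 ⟨φ ∘ x, φ ∘ m, LevelSys.IsLC₁.comp hx φ, ?_⟩
  ext1
  · exact push_d₁₂ φ hφ x
  · funext v g
    have h2 := congrFun (push_d₀₁ (A := Rep.res (r v) A) (B := Rep.res (r v) B) φ
      (hφ.res (r v)) (m v)) g
    simp only [coneD, LinearMap.coe_mk, AddHom.coe_mk, Pi.add_apply, Function.comp_apply,
      pushC_snd, map_add] at h2 ⊢
    rw [h2]

/-- push-forward of cone cocycles -/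
def pushZc2 : ↥(Zc2 L Lv r A) →ₗ[k] ↥(Zc2 L Lv r B) :=
  (pushC (Gv := Gv) φ).restrict fun _ hz => pushC_mem_Zc2 φ hφ hz

/-- push-forward on `H²_c` -/
def pushHc2 : Hc2 L Lv r A →ₗ[k] Hc2 L Lv r B :=
  Submodule.mapQ _ _ (pushZc2 (L := L) (Lv := Lv) (r := r) φ hφ) (by
    intro z hz
    simp only [Submodule.mem_comap, Submodule.subtype_apply] at hz ⊢
    exact pushC_mem_Bc2 φ hφ hz)

@[simp] lemma pushHc2_mk (z : ↥(Zc2 L Lv r A)) :
    pushHc2 φ hφ (Hc2π L Lv r A z) = Hc2π L Lv r B (pushZc2 φ hφ z) := rfl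

/-- push-forward on `∏_v H¹(G_v, −)` -/
def pushLoc1 : ((v : ι) → (Lv v).H1 (Rep.res (r v) A)) →ₗ[k]
    ((v : ι) → (Lv v).H1 (Rep.res (r v) B)) :=
  LinearMap.pi fun v => pushH1 (A := Rep.res (r v) A) (B := Rep.res (r v) B) φ (hφ.res (r v))
    (Lv v) ∘ₗ LinearMap.proj v

/-- push-forward on `∏_v H²(G_v, −)` -/
def pushLoc2 : ((v : ι) → (Lv v).H2 (Rep.res (r v) A)) →ₗ[k]
    ((v : ι) → (Lv v).H2 (Rep.res (r v) B)) :=
  LinearMap.pi fun v => pushH2 (A := Rep.res (r v) A) (B := Rep.res (r v) B) φ (hφ.res (r v))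
    (Lv v) ∘ₗ LinearMap.proj v

@[simp] lemma pushLoc1_apply (x : (v : ι) → (Lv v).H1 (Rep.res (r v) A)) (v : ι) :
    pushLoc1 φ hφ x v = pushH1 (A := Rep.res (r v) A) (B := Rep.res (r v) B) φ (hφ.res (r v))
      (Lv v) (x v) := rfl

@[simp] lemma pushLoc2_apply (x : (v : ι) → (Lv v).H2 (Rep.res (r v) A)) (v : ι) :
    pushLoc2 φ hφ x v = pushH2 (A := Rep.res (r v) A) (B := Rep.res (r v) B) φ (hφ.res (r v))
      (Lv v) (x v) := rfl

lemma resH1_pushH1 {G' : Type} [Group G'] {s : G' →* G} {L' : LevelSys G'}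
    (hs : IsLevelCompatible s L L') (x : L.H1 A) :
    resH1 hs B (pushH1 φ hφ L x) =
      pushH1 (A := Rep.res s A) (B := Rep.res s B) φ (hφ.res s) L' (resH1 hs A x) := by
  obtain ⟨c, rfl⟩ := L.H1π_surjective A x
  rfl

lemma resH2_pushH2 {G' : Type} [Group G'] {s : G' →* G} {L' : LevelSys G'}
    (hs : IsLevelCompatible s L L') (x : L.H2 A) :
    resH2 hs B (pushH2 φ hφ L x) =
      pushH2 (A := Rep.res s A) (B := Rep.res s B) φ (hφ.res s) L' (resH2 hs A x) := by
  obtain ⟨c, rfl⟩ := L.H2π_surjective A x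
  rfl

lemma loc1_pushH1 (x : L.H1 A) :
    loc1 hr B (pushH1 φ hφ L x) = pushLoc1 φ hφ (loc1 hr A x) := by
  funext v
  exact resH1_pushH1 φ hφ (hr v) x

lemma loc2_pushH2 (x : L.H2 A) :
    loc2 hr B (pushH2 φ hφ L x) = pushLoc2 φ hφ (loc2 hr A x) := by
  funext v
  exact resH2_pushH2 φ hφ (hr v) x

/-- push-forward on `Ш¹` -/
def pushSha1 : ↥(Sha1 hr A) →ₗ[k] ↥(Sha1 hr B) :=
  (pushH1 φ hφ L).restrict fun x hx => by
    rw [LinearMap.mem_ker] at hx ⊢
    rw [loc1_pushH1, hx, map_zero]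

/-- push-forward on `Ш²` -/
def pushSha2 : ↥(Sha2 hr A) →ₗ[k] ↥(Sha2 hr B) :=
  (pushH2 φ hφ L).restrict fun x hx => by
    rw [LinearMap.mem_ker] at hx ⊢
    rw [loc2_pushH2, hx, map_zero]

@[simp] lemma coe_pushSha1 (x : ↥(Sha1 hr A)) :
    (pushSha1 hr φ hφ x : L.H1 B) = pushH1 φ hφ L (x : L.H1 A) := rfl

@[simp] lemma coe_pushSha2 (x : ↥(Sha2 hr A)) :
    (pushSha2 hr φ hφ x : L.H2 B) = pushH2 φ hφ L (x : L.H2 A) := rfl

/-- push-forward on `T³` -/
def pushT3 : T3 hr A →ₗ[k] T3 hr B :=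
  Submodule.mapQ _ _ (pushLoc2 φ hφ) (by
    rintro x ⟨y, rfl⟩
    rw [Submodule.mem_comap, ← loc2_pushH2]
    exact ⟨_, rfl⟩)

@[simp] lemma pushT3_mk (x : (v : ι) → (Lv v).H2 (Rep.res (r v) A)) :
    pushT3 hr φ hφ (T3π hr A x) = T3π hr B (pushLoc2 φ hφ x) := rfl

end Push

end Fermat.Agent.S55.PT

end

end
-- ===== PACK-END S55/PT/Cone.lean

-- ===== PACK-BEGIN S55/Inv/WrH413/Unram.lean
section




/-!
# S55 / INV-WR (helper413), part 4: inertial elements act trivially on levels unramified at `q`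

`IsInertial q τ` (REC vocabulary: `τ` acts trivially on the residue field of `ℚ̄_q`) implies that
the restriction of `τ` to `ℚ̄` lies in the Prelude inertia group of `padicPlace q`; hence it
fixes every level `F` unramified outside `S` if `q ∉ S`.
-/

set_option autoImplicit false
set_option linter.style.haveILetI false

namespace Fermat.Agent.S55.Inv.H413

open Fermat.Agent.S55.G.Rec

local notation "Qb" => AlgebraicClosure ℚ
local notation "GQ" => (AlgebraicClosure ℚ ≃ₐ[ℚ] AlgebraicClosure ℚ)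

section

variable (q : ℕ) [Fact q.Prime]

local notation "Gq" => (PadicAlgCl q ≃ₐ[ℚ_[q]] PadicAlgCl q)

theorem padicPlace_liesOver413 : (padicPlace q).LiesOverPrime q :=
  Fermat.Agent.S55.H175.primeLocalPlace_liesOverPrime ⟨q, Fact.out⟩

theorem localGaloisToGlobal_mem_inertia (τ : Gq) (hτ : IsInertial q τ) :
    localGaloisToGlobal q τ ∈ (padicPlace q).inertiaSubgroupIn ℚ := by
  rw [Bridge.mem_inertiaSubgroupIn_iff]
  refine ⟨localGaloisToGlobal_mem_decompositionSubgroup q τ, fun z hz => ?_⟩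
  rw [Bridge.mem_nonunits_iff_inv_not_mem]
  by_cases h0 : localGaloisToGlobal q τ z - z = 0
  · exact Or.inl h0
  · right
    intro hmem
    rw [mem_padicPlace_iff] at hz hmem
    have hz' : ‖padicEmbedding q z‖ ≤ 1 := hz
    have hmem' : ‖padicEmbedding q (localGaloisToGlobal q τ z - z)⁻¹‖ ≤ 1 := hmem
    have hlt := hτ (padicEmbedding q z) hz'
    rw [← padicEmbedding_localGaloisToGlobal, ← map_sub] at hlt
    have hinj : Function.Injective (padicEmbedding q) := (padicEmbedding q).injective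
    have hne : padicEmbedding q (localGaloisToGlobal q τ z - z) ≠ 0 := by
      intro h
      apply h0
      apply hinj
      rw [h, map_zero]
    rw [map_inv₀, norm_inv] at hmem'
    have hpos : 0 < ‖padicEmbedding q (localGaloisToGlobal q τ z - z)‖ := norm_pos_iff.2 hne
    have := (inv_le_one₀ hpos).1 hmem'
    exact absurd hlt (not_lt.2 this)

theorem localGaloisToGlobal_mem_fixingSubgroup_of_inertial {S : Finset Nat.Primes}
    {F : IntermediateField ℚ Qb} (hF : F.IsUnramifiedOutside S)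
    (hq : (⟨q, Fact.out⟩ : Nat.Primes) ∉ S) (τ : Gq) (hτ : IsInertial q τ) :
    localGaloisToGlobal q τ ∈ F.fixingSubgroup :=
  hF.2 ⟨q, Fact.out⟩ hq (padicPlace q) (padicPlace_liesOver413 q)
    (localGaloisToGlobal_mem_inertia q τ hτ)

end

end Fermat.Agent.S55.Inv.H413

end
-- ===== PACK-END S55/Inv/WrH413/Unram.lean

-- ===== PACK-BEGIN S55/L/Inst63.lean
section



set_option autoImplicit false

namespace Fermat.Agent.S55.L

open scoped NormedField NNReal Valued

section UnitBall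

variable (K : Type) [NontriviallyNormedField K] [IsUltrametricDist K]

/-- The closed unit ball of an ultrametric normed field, as a valuation subring. -/
noncomputable def unitBall63 : ValuationSubring K :=
  (NormedField.valuation (K := K)).valuationSubring

lemma mem_unitBall63 (x : K) : x ∈ unitBall63 K ↔ ‖x‖ ≤ 1 := by
  change NormedField.valuation x ≤ 1 ↔ _
  rw [NormedField.valuation_apply, ← NNReal.coe_le_coe]
  simp

/-- The rank one structure of the valuation of a nontrivially normed ultrametric field. -/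
@[instance_reducible]
noncomputable def rankOne63 : Valuation.RankOne (Valued.v : Valuation K ℝ≥0) :=
  inferInstanceAs (Valuation.RankOne (NormedField.valuation (K := K)))

variable [ProperSpace K]

lemma compactSpace_integer63 : CompactSpace (Valued.integer K) := by
  have : ((Valued.integer K : Subring K) : Set K) = Metric.closedBall 0 1 := by
    ext x
    simp [Valued.integer.mem_iff]
  apply isCompact_iff_compactSpace.mp
  rw [this]
  exact isCompact_closedBall 0 1

lemma dvr_integer63 : IsDiscreteValuationRing (Valued.integer K) :=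
  letI := rankOne63 K
  haveI := compactSpace_integer63 K
  Valued.integer.isDiscreteValuationRing_of_compactSpace

lemma finite_residue63 : Finite (IsLocalRing.ResidueField (Valued.integer K)) :=
  letI := rankOne63 K
  (Valued.integer.compactSpace_iff_completeSpace_and_isDiscreteValuationRing_and_finite_residueField.mp
    (compactSpace_integer63 K)).2.2

open scoped Pointwise in
lemma isAdicComplete63 :
    IsAdicComplete (IsLocalRing.maximalIdeal (Valued.integer K)) (Valued.integer K) := by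
  have := compactSpace_integer63 K
  have := dvr_integer63 K
  refine { prec' := fun f hf => ?_ }
  let S n : Set (Valued.integer K) :=
    f n +ᵥ ((IsLocalRing.maximalIdeal (Valued.integer K) ^ n : Ideal (Valued.integer K)) :
      Set (Valued.integer K))
  have hS n : S (n + 1) ⊆ S n := by
    apply (Set.vadd_set_subset_vadd_set_iff.mpr (Ideal.pow_le_pow_right n.le_succ)).trans
    simpa [S] using (hf n.le_succ).symm
  have h n : IsClosed (S n) :=
    (IsNoetherianRing.isClosed_ideal (IsLocalRing.maximalIdeal (Valued.integer K) ^ n)).vadd (f n)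
  obtain ⟨L, hL⟩ := (h 0).isCompact.nonempty_iInter_of_sequence_nonempty_isCompact_isClosed S hS
    (by simp [S]) h
  refine ⟨L, fun n ↦ ?_⟩
  obtain ⟨y, hy, rfl⟩ := Set.mem_iInter.mp hL n
  simpa [SModEq.sub_mem] using hy

/-- **Core lemma.** The unit ball of a locally compact (proper) nontrivially normed ultrametric
field is a complete discrete valuation ring with finite residue field. -/
theorem isLocalRingOfIntegers_unitBall63 : IsLocalRingOfIntegers (unitBall63 K) :=
  ⟨dvr_integer63 K, isAdicComplete63 K, finite_residue63 K⟩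

/-- A locally compact nontrivially normed ultrametric field of characteristic zero is a local
field in the sense of layer L. -/
theorem isLocalFld_of_properSpace63 [CharZero K] : IsLocalFld K :=
  ⟨inferInstance, unitBall63 K, isLocalRingOfIntegers_unitBall63 K⟩

end UnitBall

/-- **L-INST1** `ℚ_q` is a local field. -/
theorem padicInst63 : PadicInstSpec := fun q _ => isLocalFld_of_properSpace63 ℚ_[q]

section Ext

variable (q : ℕ) [Fact q.Prime] (E : IntermediateField ℚ_[q] (PadicAlgCl q))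

lemma norm_natCast_prime63 : ‖((q : ℚ_[q]) : PadicAlgCl q)‖ = (q : ℝ)⁻¹ := by
  rw [← Padic.norm_p (p := q)]
  exact norm_algebraMap' (PadicAlgCl q) (q : ℚ_[q])

/-- The nontrivially normed field structure on a subfield of `PadicAlgCl q`. -/
@[instance_reducible]
noncomputable def nontriviallyNormedField63 : NontriviallyNormedField ↥E :=
  { (inferInstance : NormedField ↥E) with
    non_trivial := by
      refine ⟨(algebraMap ℚ_[q] E (q : ℚ_[q]))⁻¹, ?_⟩
      have h : ‖(algebraMap ℚ_[q] E (q : ℚ_[q]))‖ = (q : ℝ)⁻¹ := norm_natCast_prime63 q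
      rw [norm_inv, h, inv_inv]
      exact_mod_cast (Fact.out : q.Prime).one_lt }

lemma properSpace63 [FiniteDimensional ℚ_[q] E] : ProperSpace ↥E :=
  FiniteDimensional.proper ℚ_[q] ↥E

theorem isLocalFld_intermediateField63 [FiniteDimensional ℚ_[q] E] : IsLocalFld ↥E :=
  letI := nontriviallyNormedField63 q E
  haveI := properSpace63 q E
  isLocalFld_of_properSpace63 ↥E

/-- The unit ball of a finite extension of `ℚ_q` inside `PadicAlgCl q` is a ring of integers. -/
theorem exists_ringOfIntegers_eq_unitBall63 [FiniteDimensional ℚ_[q] E] :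
    ∃ A : ValuationSubring E, IsLocalRingOfIntegers A ∧
      ∀ x : E, x ∈ A ↔ ‖(x : PadicAlgCl q)‖ ≤ 1 :=
  letI := nontriviallyNormedField63 q E
  haveI := properSpace63 q E
  ⟨unitBall63 ↥E, isLocalRingOfIntegers_unitBall63 ↥E, fun x => mem_unitBall63 ↥E x⟩

/-- **L-INST2** from uniqueness of the ring of integers (**L-A0**). -/
theorem padicExtInst_of63 (hA0 : RingOfIntegersUniqueSpec) : PadicExtInstSpec := by
  intro q _ E hE
  have := hE
  have := isLocalFld_intermediateField63 q E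
  refine ⟨inferInstance, fun A hA x => ?_⟩
  obtain ⟨B, hB, hBx⟩ := exists_ringOfIntegers_eq_unitBall63 q E
  rw [hA0 E A B hA hB]
  exact hBx x

end Ext

end Fermat.Agent.S55.L

end
-- ===== PACK-END S55/L/Inst63.lean

-- ===== PACK-BEGIN S55/G/Rec/H413/L5Group.lean
section


/-!
# S55 / G / REC, leaf L5 (helper413), part 1: group theory of `relNorm`

* `finprod_out_quot_pow` : for `N ≤ W ≤ G`, `N` of finite index and `φ : G → M` right-`W`-invariant,
  `∏ᶠ_{G/N} φ = (∏ᶠ_{G/W} φ) ^ [W : N]`.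
* `relNorm_pow_relIndex` : `relNorm N b = relNorm W b ^ [W : N]` for `b` fixed by `W`.
* `smul_relNorm` : `relNorm W b` is fixed by `G` when `b` is fixed by `W` (finite index).
-/

set_option autoImplicit false
set_option linter.style.haveILetI false

namespace Fermat.Agent.S55.G.Rec.H413

open scoped Classical in
/-- `∏_{G/N} φ = (∏_{G/W} φ) ^ [W : N]` for a right-`W`-invariant function `φ`. -/
theorem finprod_out_quot_pow {G M : Type*} [Group G] [CommMonoid M] {N W : Subgroup G}
    (hle : N ≤ W) [N.FiniteIndex] (φ : G → M) (hφ : ∀ g : G, ∀ w ∈ W, φ (g * w) = φ g) :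
    ∏ᶠ s : G ⧸ N, φ (Quotient.out s) =
      (∏ᶠ t : G ⧸ W, φ (Quotient.out t)) ^ (N.relIndex W) := by
  have : W.FiniteIndex := Subgroup.finiteIndex_of_le hle
  letI : Fintype (G ⧸ N) := Fintype.ofFinite _
  letI : Fintype (G ⧸ W) := Fintype.ofFinite _
  have : Finite (W ⧸ N.subgroupOf W) :=
    Finite.of_injective (fun u => ((Subgroup.quotientEquivProdOfLE hle).symm
      ((QuotientGroup.mk (1 : G) : G ⧸ W), u)))
      (fun a b h => by
        have := (Subgroup.quotientEquivProdOfLE hle).symm.injective h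
        exact (Prod.mk.inj this).2)
  letI : Fintype (W ⧸ N.subgroupOf W) := Fintype.ofFinite _
  rw [finprod_eq_prod_of_fintype, finprod_eq_prod_of_fintype]
  set e := Subgroup.quotientEquivProdOfLE hle with he
  have key : ∀ s : G ⧸ N, φ (Quotient.out s) = φ (Quotient.out (e s).1) := by
    intro s
    have h1 : (e s).1 = (QuotientGroup.mk (Quotient.out s) : G ⧸ W) := by
      conv_lhs => rw [← Quotient.out_eq' s]
      rfl
    have h2 : (QuotientGroup.mk (Quotient.out (e s).1) : G ⧸ W) =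
        QuotientGroup.mk (Quotient.out s) := by
      rw [← h1]
      exact Quotient.out_eq' _
    have h3 : (Quotient.out (e s).1)⁻¹ * Quotient.out s ∈ W := QuotientGroup.eq.mp h2
    have h4 := hφ (Quotient.out (e s).1) _ h3
    rw [mul_inv_cancel_left] at h4
    exact h4
  calc ∏ s : G ⧸ N, φ (Quotient.out s)
      = ∏ s : G ⧸ N, φ (Quotient.out (e s).1) := Finset.prod_congr rfl (fun s _ => key s)
    _ = ∏ x : (G ⧸ W) × (W ⧸ N.subgroupOf W), φ (Quotient.out x.1) :=
        Equiv.prod_comp e (fun x => φ (Quotient.out x.1))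
    _ = ∏ t : G ⧸ W, ∏ _u : W ⧸ N.subgroupOf W, φ (Quotient.out t) := by
        rw [Fintype.prod_prod_type]
    _ = ∏ t : G ⧸ W, φ (Quotient.out t) ^ (N.relIndex W) := by
        refine Finset.prod_congr rfl (fun t _ => ?_)
        rw [Finset.prod_const, Finset.card_univ, Subgroup.relIndex, Subgroup.index,
          Nat.card_eq_fintype_card]
    _ = (∏ t : G ⧸ W, φ (Quotient.out t)) ^ (N.relIndex W) := Finset.prod_pow _ _ _

/-- `relNorm N b = relNorm W b ^ [W : N]` for `N ≤ W` of finite index and `b` fixed by `W`. -/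
theorem relNorm_pow_relIndex {G M : Type*} [Group G] [CommGroup M] [MulDistribMulAction G M]
    {N W : Subgroup G} (hle : N ≤ W) [N.FiniteIndex] (b : M) (hb : ∀ w ∈ W, w • b = b) :
    relNorm N b = relNorm W b ^ (N.relIndex W) := by
  unfold relNorm
  refine finprod_out_quot_pow hle (fun g => g • b) (fun g w hw => ?_)
  show (g * w) • b = g • b
  rw [mul_smul, hb w hw]

open scoped Classical in
/-- `relNorm W b` is fixed by the whole group. -/
theorem smul_relNorm {G M : Type*} [Group G] [CommGroup M] [MulDistribMulAction G M]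
    {W : Subgroup G} [W.FiniteIndex] (b : M) (hb : ∀ w ∈ W, w • b = b) (g : G) :
    g • relNorm W b = relNorm W b := by
  letI : Fintype (G ⧸ W) := Fintype.ofFinite _
  unfold relNorm
  rw [finprod_eq_prod_of_fintype, Finset.smul_prod']
  have key : ∀ t : G ⧸ W, g • ((Quotient.out t : G) • b) = (Quotient.out (g • t) : G) • b := by
    intro t
    have h1 : (QuotientGroup.mk (Quotient.out (g • t)) : G ⧸ W) =
        QuotientGroup.mk (g * Quotient.out t) := by
      rw [QuotientGroup.out_eq']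
      conv_lhs => rw [← QuotientGroup.out_eq' t]
      rfl
    have h2 : (Quotient.out (g • t))⁻¹ * (g * Quotient.out t) ∈ W := QuotientGroup.eq.mp h1
    have h3 := hb _ h2
    rw [mul_smul, mul_smul, inv_smul_eq_iff] at h3
    exact h3
  rw [Finset.prod_congr rfl (fun t _ => key t)]
  exact Equiv.prod_comp (MulAction.toPerm g : G ⧸ W ≃ G ⧸ W)
    (fun t => (Quotient.out t : G) • b)

end Fermat.Agent.S55.G.Rec.H413

end
-- ===== PACK-END S55/G/Rec/H413/L5Group.lean

-- ===== PACK-BEGIN S55/Local/H904/LF.lean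
section


/-!
# S55, layer L, pieces LF1, LF2, LF3, LF4, LF8 (helper904)

Exact `Statement`s of `Fermat/Agent/S55/Local/Spec.lean`:
* `intOrInv      : IntOrInvStatement`      (LF1)
* `existsUnif    : ExistsUnifStatement`    (LF2)
* `intUnitsComap : IntUnitsComapStatement` (LF3)
* `galoisInv     : GaloisInvStatement`     (LF4)
* `normUnitsInt  : NormUnitsIntStatement`  (LF8)
-/

set_option autoImplicit false
set_option linter.unusedSectionVars false
set_option linter.style.haveILetI false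

namespace Fermat.Agent.S55.Local.H904

open IsLocalRing

/-! ## Dictionary -/

section Dict

variable (A F : Type) [CommRing A] [Field F] [Algebra A F]
  (L : Type) [Field L] [Algebra F L]

/-- `IsInt` is integrality for the algebra structure `(toL A F L).toAlgebra`. -/
lemma isInt_iff_mem (x : L) :
    letI : Algebra A L := (toL A F L).toAlgebra
    IsInt A F L x ↔ x ∈ integralClosure A L := Iff.rfl

variable {A F L} in
/-- A unit of `L` whose value and inverse are integral is an integral unit. -/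
lemma mem_intUnits_of_isInt {x : Lˣ} (h1 : IsInt A F L (x : L))
    (h2 : IsInt A F L ((x : L)⁻¹)) : x ∈ intUnits A F L := by
  refine ⟨h1, ?_⟩
  rwa [Units.val_inv_eq_inv_val]

variable {A F L} in
lemma isInt_inv_of_mem_intUnits {x : Lˣ} (h : x ∈ intUnits A F L) :
    IsInt A F L ((x : L)⁻¹) := by
  have := h.2
  rwa [Units.val_inv_eq_inv_val] at this

variable {A F L} in
/-- Ring homomorphisms commuting with the structure maps preserve integrality. -/
lemma IsInt.map {L' : Type} [Field L'] [Algebra F L'] (φ : L →+* L')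
    (hφ : ∀ a : A, φ (toL A F L a) = toL A F L' a) {x : L} (hx : IsInt A F L x) :
    IsInt A F L' (φ x) := by
  obtain ⟨p, hp, hpx⟩ := hx
  refine ⟨p, hp, ?_⟩
  have hcomp : toL A F L' = φ.comp (toL A F L) := by
    ext a
    exact (hφ a).symm
  rw [hcomp, ← Polynomial.hom_eval₂, hpx, map_zero]

variable {A F L} in
/-- Injective ring homomorphisms commuting with the structure maps reflect integrality. -/
lemma IsInt.of_map {L' : Type} [Field L'] [Algebra F L'] (φ : L →+* L')
    (hφ : ∀ a : A, φ (toL A F L a) = toL A F L' a) {x : L} (hx : IsInt A F L' (φ x)) :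
    IsInt A F L x := by
  obtain ⟨p, hp, hpx⟩ := hx
  refine ⟨p, hp, ?_⟩
  have hcomp : toL A F L' = φ.comp (toL A F L) := by
    ext a
    exact (hφ a).symm
  rw [hcomp, ← Polynomial.hom_eval₂] at hpx
  exact φ.injective (by rw [hpx, map_zero])

end Dict

/-! ## LF1 -/

/-- (LF1) the integers of a local field form a valuation ring. -/
theorem intOrInv : IntOrInvStatement := by
  intro A F _ _ _ _ _ _ _ _ _ L _ _ _ x
  letI : Algebra A L := (toL A F L).toAlgebra
  haveI : IsScalarTower A F L := IsScalarTower.of_algebraMap_eq (fun _ => rfl)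
  haveI := lf0_isDVR A F L
  haveI := lf0_isFractionRing A F L
  rcases ValuationRing.isInteger_or_isInteger (integralClosure A L) x with ⟨b, hb⟩ | ⟨b, hb⟩
  · left
    rw [← hb]
    exact b.2
  · right
    rw [← hb]
    exact b.2

/-! ## LF3 -/

/-- (LF3) `U_L ∩ Kˣ = U_K`. -/
theorem intUnitsComap : IntUnitsComapStatement := by
  intro A F _ _ _ _ _ _ _ _ _ K _ _ _ L _ _ _ _ _ y
  have hφ : ∀ a : A, (algebraMap K L) (toL A F K a) = toL A F L a := by
    intro a
    simp only [toL_apply]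
    exact (IsScalarTower.algebraMap_apply F K L _).symm
  constructor
  · rintro ⟨h1, h2⟩
    refine ⟨IsInt.of_map (algebraMap K L) hφ (by simpa using h1), ?_⟩
    refine IsInt.of_map (algebraMap K L) hφ ?_
    have : ((unitsIncl L K y)⁻¹ : Lˣ) = unitsIncl L K y⁻¹ := (map_inv _ _).symm
    rw [this] at h2
    simpa using h2
  · rintro ⟨h1, h2⟩
    refine ⟨by simpa using IsInt.map (algebraMap K L) hφ h1, ?_⟩
    have : ((unitsIncl L K y)⁻¹ : Lˣ) = unitsIncl L K y⁻¹ := (map_inv _ _).symm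
    rw [this]
    simpa using IsInt.map (algebraMap K L) hφ h2

/-! ## LF8 -/

/-- (LF8) norms of integral units are integral units. -/
theorem normUnitsInt : NormUnitsIntStatement := by
  intro A F _ _ _ _ _ _ _ _ _ K _ _ _ L _ _ _ _ _ x hx
  letI : Algebra A L := (toL A F L).toAlgebra
  letI : Algebra A K := (toL A F K).toAlgebra
  haveI : IsScalarTower A K L := IsScalarTower.of_algebraMap_eq (fun a => by
    change toL A F L a = algebraMap K L (toL A F K a)
    simp only [toL_apply]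
    exact IsScalarTower.algebraMap_apply F K L _)
  have key : ∀ z : L, IsInt A F L z → IsInt A F K (Algebra.norm K z) := fun z hz =>
    Algebra.isIntegral_norm K (R := A) hz
  refine ⟨key _ hx.1, ?_⟩
  have : ((normUnits L K x)⁻¹ : Kˣ) = normUnits L K x⁻¹ := (map_inv _ _).symm
  rw [this]
  exact key _ hx.2

/-! ## LF4 -/

section Galois

variable (A F : Type) [CommRing A] [Field F] [Algebra A F]
  (K : Type) [Field K] [Algebra F K]
  (L : Type) [Field L] [Algebra F L] [Algebra K L] [IsScalarTower F K L]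

variable {A F K L} in
/-- Automorphisms over `K` preserve integrality. -/
lemma isInt_smul (σ : L ≃ₐ[K] L) {x : L} (hx : IsInt A F L x) : IsInt A F L (σ x) := by
  refine IsInt.map (σ : L →+* L) (fun a => ?_) hx
  simp only [toL_apply]
  rw [IsScalarTower.algebraMap_apply F K L]
  exact σ.commutes _

variable {A F K L} in
lemma smul_mem_intUnits (σ : L ≃ₐ[K] L) {x : Lˣ} (hx : x ∈ intUnits A F L) :
    σ • x ∈ intUnits A F L := by
  refine ⟨isInt_smul (A := A) (F := F) σ hx.1, ?_⟩
  have : ((σ • x)⁻¹ : Lˣ) = σ • x⁻¹ := (smul_inv' σ x).symm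
  rw [this]
  exact isInt_smul (A := A) (F := F) σ hx.2

variable {A F K L} in
/-- If `z` is integral and `∏_{i<d} σ^i z = 1` (`d ≥ 1`), then `z` is an integral unit. -/
lemma mem_intUnits_of_prod_eq_one (σ : L ≃ₐ[K] L) (d : ℕ) (z : Lˣ)
    (hz : IsInt A F L (z : L)) (hprod : ∏ i ∈ Finset.range (d + 1), (σ ^ i) • z = 1) :
    z ∈ intUnits A F L := by
  refine ⟨hz, ?_⟩
  rw [Finset.prod_range_succ', pow_zero, one_smul] at hprod
  have hinv : (z⁻¹ : Lˣ) = ∏ i ∈ Finset.range d, (σ ^ (i + 1)) • z := by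
    rw [eq_comm, ← mul_eq_one_iff_eq_inv]
    exact hprod
  rw [hinv, Units.coe_prod]
  have : ∀ (s : Finset ℕ), IsInt A F L (∏ i ∈ s, (((σ ^ (i + 1)) • z : Lˣ) : L)) := by
    intro s
    induction s using Finset.cons_induction with
    | empty => simpa using isInt_one A F L
    | cons a s ha ih =>
      rw [Finset.prod_cons]
      exact (isInt_smul (A := A) (F := F) (σ ^ (a + 1)) hz).mul ih
  exact this _

end Galois

/-- (LF4) automorphisms preserve the valuation. -/
theorem galoisInv : GaloisInvStatement := by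
  intro A F _ _ _ _ _ _ _ _ _ K _ _ _ L _ _ _ _ _ σ x
  haveI : FiniteDimensional F L := FiniteDimensional.trans F K L
  haveI : Finite (L ≃ₐ[K] L) := inferInstance
  obtain ⟨d, hd⟩ : ∃ d : ℕ, σ ^ (d + 1) = 1 := by
    have hpos : 0 < orderOf σ := orderOf_pos σ
    refine ⟨orderOf σ - 1, ?_⟩
    rw [Nat.sub_add_cancel hpos, pow_orderOf_eq_one]
  set y : Lˣ := σ • x / x with hy
  have hsmul : ∀ i : ℕ, (σ ^ i) • y = ((σ ^ (i + 1)) • x) / ((σ ^ i) • x) := by
    intro i
    rw [hy, smul_div', smul_smul, ← pow_succ]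
  have hprod : ∏ i ∈ Finset.range (d + 1), (σ ^ i) • y = 1 := by
    simp_rw [hsmul]
    rw [Finset.prod_range_div (fun i => (σ ^ i) • x), hd, pow_zero, one_smul, div_self']
  have hprod' : ∏ i ∈ Finset.range (d + 1), (σ ^ i) • y⁻¹ = 1 := by
    simp_rw [smul_inv']
    rw [Finset.prod_inv_distrib, hprod, inv_one]
  rcases intOrInv A F L (y : L) with h | h
  · exact mem_intUnits_of_prod_eq_one (A := A) (F := F) σ d y h hprod
  · have h' : IsInt A F L ((y⁻¹ : Lˣ) : L) := by rwa [Units.val_inv_eq_inv_val]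
    have := mem_intUnits_of_prod_eq_one (A := A) (F := F) σ d y⁻¹ h' hprod'
    simpa using (intUnits A F L).inv_mem this

/-! ## LF2 -/

/-- (LF2) existence of a uniformizer. -/
theorem existsUnif : ExistsUnifStatement := by
  intro A F _ _ _ _ _ _ _ _ _ L _ _ _
  letI : Algebra A L := (toL A F L).toAlgebra
  haveI : IsScalarTower A F L := IsScalarTower.of_algebraMap_eq (fun _ => rfl)
  haveI := lf0_isDVR A F L
  haveI := lf0_isFractionRing A F L
  obtain ⟨ϖ, hϖ⟩ := IsDiscreteValuationRing.exists_irreducible (integralClosure A L)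
  have hinj : Function.Injective (algebraMap (integralClosure A L) L) :=
    IsFractionRing.injective _ _
  have hϖ0 : (algebraMap (integralClosure A L) L ϖ) ≠ 0 := by
    rw [Ne, map_eq_zero_iff _ hinj]
    exact hϖ.ne_zero
  -- units of `B` give integral units of `L`
  have hunit : ∀ u : (integralClosure A L)ˣ,
      Units.map (algebraMap (integralClosure A L) L).toMonoidHom u ∈ intUnits A F L := by
    intro u
    refine ⟨(u : integralClosure A L).2, ?_⟩
    have : ((Units.map (algebraMap (integralClosure A L) L).toMonoidHom u)⁻¹ : Lˣ) =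
        Units.map (algebraMap (integralClosure A L) L).toMonoidHom u⁻¹ := (map_inv _ _).symm
    rw [this]
    exact ((u⁻¹ : (integralClosure A L)ˣ) : integralClosure A L).2
  refine ⟨Units.mk0 _ hϖ0, ϖ.2, ?_, ?_⟩
  · rintro ⟨-, h2⟩
    rw [Units.val_inv_eq_inv_val, Units.val_mk0] at h2
    apply hϖ.not_isUnit
    refine isUnit_iff_exists_inv.mpr ⟨⟨_, h2⟩, ?_⟩
    apply hinj
    simp only [map_mul, map_one]
    exact mul_inv_cancel₀ hϖ0
  · intro x
    obtain ⟨a, b, hb, hab⟩ := IsFractionRing.div_surjective (A := integralClosure A L) (x : L)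
    have hb0 : b ≠ 0 := nonZeroDivisors.ne_zero hb
    have ha0 : a ≠ 0 := by
      rintro rfl
      rw [map_zero, zero_div] at hab
      exact x.ne_zero hab.symm
    obtain ⟨m, u, hu⟩ := IsDiscreteValuationRing.eq_unit_mul_pow_irreducible ha0 hϖ
    obtain ⟨k, v, hv⟩ := IsDiscreteValuationRing.eq_unit_mul_pow_irreducible hb0 hϖ
    refine ⟨(m : ℤ) - k, ?_⟩
    have hx : x = Units.map (algebraMap (integralClosure A L) L).toMonoidHom (u / v) *
        (Units.mk0 _ hϖ0) ^ ((m : ℤ) - k) := by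
      apply Units.ext
      rw [← hab, hu, hv]
      simp only [map_mul, map_pow, Units.val_mul, Units.coe_map, RingHom.toMonoidHom_eq_coe,
        MonoidHom.coe_coe, Units.val_zpow_eq_zpow_val, Units.val_mk0, map_div, Units.val_div_eq_div_val]
      rw [zpow_sub₀ hϖ0, zpow_natCast, zpow_natCast]
      have hv0 : (algebraMap (integralClosure A L) L) (v : integralClosure A L) ≠ 0 := by
        rw [Ne, map_eq_zero_iff _ hinj]
        exact v.ne_zero
      field_simp
    have : x * (Units.mk0 _ hϖ0) ^ (-((m : ℤ) - k)) =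
        Units.map (algebraMap (integralClosure A L) L).toMonoidHom (u / v) := by
      rw [hx, mul_assoc, ← zpow_add]
      simp
    rw [this]
    exact hunit _

end Fermat.Agent.S55.Local.H904

end
-- ===== PACK-END S55/Local/H904/LF.lean

-- ===== PACK-BEGIN S55/H713/Exact.lean
section


/-!
# Exactness of `σ - 1` and the norm on `W 0 = 1 + M`
-/

set_option autoImplicit false
set_option linter.unusedSectionVars false

open IsLocalRing

namespace Fermat.Agent.S55.H713

variable {O : Type*} [CommRing O] [IsDomain O] [IsLocalRing O]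
variable {G : Type*} [Group G] [Fintype G] [MulSemiringAction G O]
variable {σ : G} {π : O} {M : AddSubgroup O}

lemma eq_zero_of_forall_mem_pow [IsHausdorff (maximalIdeal O) O] (x : O)
    (hx : ∀ n, x ∈ maximalIdeal O ^ n) : x = 0 := by
  apply IsHausdorff.haus (inferInstance : IsHausdorff (maximalIdeal O) O) x
  intro n
  rw [SModEq.zero, smul_eq_mul, Ideal.mul_top]
  exact hx n

lemma exists_limit [IsPrecomplete (maximalIdeal O) O] (x : ℕ → O)
    (hx : ∀ m n, m ≤ n → x n - x m ∈ maximalIdeal O ^ m) :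
    ∃ L : O, ∀ n, L - x n ∈ maximalIdeal O ^ n := by
  obtain ⟨L, hL⟩ := IsPrecomplete.prec (inferInstance : IsPrecomplete (maximalIdeal O) O)
    (f := x) (by
      intro m n hmn
      rw [SModEq.sub_mem, smul_eq_mul, Ideal.mul_top]
      have := hx m n hmn
      have h2 : x m - x n = -(x n - x m) := by ring
      rw [h2]; exact neg_mem this)
  refine ⟨L, fun n => ?_⟩
  have := hL n
  rw [SModEq.sub_mem, smul_eq_mul, Ideal.mul_top] at this
  have h2 : L - x n = -(x n - L) := by ring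
  rw [h2]; exact neg_mem this

namespace IsGoodLattice

variable (h : IsGoodLattice σ π M)
include h

/-- Expansion of a product `∏ (1 + x g)` modulo `lat (k+1)`. -/
lemma prod_one_add (k : ℕ) (x : G → O) (hx : ∀ g, x g ∈ lat π M k) (s : Finset G) :
    (∏ g ∈ s, (1 + x g)) - 1 - ∑ g ∈ s, x g ∈ lat π M (k + 1) ∧
      (∏ g ∈ s, (1 + x g)) - 1 ∈ lat π M k := by
  classical
  induction s using Finset.induction_on with
  | empty => simp
  | insert a s ha ih =>
    obtain ⟨ih1, ih2⟩ := ih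
    rw [Finset.prod_insert ha, Finset.sum_insert ha]
    constructor
    · have : (1 + x a) * ∏ g ∈ s, (1 + x g) - 1 - (x a + ∑ g ∈ s, x g) =
          ((∏ g ∈ s, (1 + x g)) - 1 - ∑ g ∈ s, x g) + x a * ((∏ g ∈ s, (1 + x g)) - 1) := by
        ring
      rw [this]
      exact (lat π M (k + 1)).add_mem ih1 (h.lat_mul_self (hx a) ih2)
    · have : (1 + x a) * ∏ g ∈ s, (1 + x g) - 1 =
          ((∏ g ∈ s, (1 + x g)) - 1) + x a + x a * ((∏ g ∈ s, (1 + x g)) - 1) := by
        ring
      rw [this]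
      exact (lat π M k).add_mem ((lat π M k).add_mem ih2 (hx a))
        (h.lat_mul_lat_left (hx a) ih2)

lemma W_sep [IsHausdorff (maximalIdeal O) O] (u : Oˣ) (hu : ∀ k, u ∈ h.W k) : u = 1 := by
  have : (u : O) - 1 = 0 :=
    eq_zero_of_forall_mem_pow _ (fun n => h.lat_le_pow n _ (hu n))
  ext
  simpa [sub_eq_zero] using this

lemma W_complete [IsPrecomplete (maximalIdeal O) O] (w : ℕ → Oˣ) (hw : ∀ i, w i ∈ h.W i) :
    ∃ y ∈ h.W 0, ∀ k, y / ∏ i ∈ Finset.range k, w i ∈ h.W k := by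
  set P : ℕ → Oˣ := fun k => ∏ i ∈ Finset.range k, w i with hP
  have hP0 : ∀ k, P k ∈ h.W 0 := fun k =>
    Subgroup.prod_mem _ (fun i _ => h.W_le_zero i (hw i))
  have hstep : ∀ k, ((P (k + 1) : Oˣ) : O) - P k ∈ lat π M k := by
    intro k
    have : ((P (k + 1) : Oˣ) : O) - P k = ((w k : O) - 1) * (P k : O) := by
      simp only [hP, Finset.prod_range_succ, Units.val_mul]; ring
    rw [this]
    exact h.lat_mul_one_add (hw k) (h.sub_one_mem_M (hP0 k))
  have hdiff : ∀ m n, m ≤ n → ((P n : Oˣ) : O) - P m ∈ lat π M m := by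
    intro m n hmn
    induction n, hmn using Nat.le_induction with
    | base => simp
    | succ n hmn ih =>
      have : ((P (n + 1) : Oˣ) : O) - P m = (((P (n + 1) : Oˣ) : O) - P n) +
          (((P n : Oˣ) : O) - P m) := by ring
      rw [this]
      exact (lat π M m).add_mem (h.lat_antitone hmn (hstep n)) ih
  obtain ⟨L, hL⟩ := exists_limit (fun n => ((P n : Oˣ) : O))
    (fun m n hmn => h.lat_le_pow m _ (hdiff m n hmn))
  have hLk : ∀ k, L - (P k : O) ∈ lat π M k := by
    intro k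
    obtain ⟨j, hj⟩ := h.isOpen k
    have h1 : L - (P (max j k) : O) ∈ lat π M k :=
      hj _ (Ideal.pow_le_pow_right (le_max_left j k) (hL (max j k)))
    have h2 := hdiff k (max j k) (le_max_right j k)
    have : L - (P k : O) = (L - (P (max j k) : O)) + (((P (max j k) : Oˣ) : O) - P k) := by
      ring
    rw [this]
    exact (lat π M k).add_mem h1 h2
  have hL0 : L - 1 ∈ lat π M 0 := by
    have := hLk 0
    simpa [hP] using this
  obtain ⟨y, hy, hyL⟩ := h.exists_unit hL0
  refine ⟨y, hy, fun k => ?_⟩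
  apply h.div_mem_W (hP0 k)
  have : (y : O) = L := by rw [hyL]; ring
  rw [this]
  exact hLk k

/-- Coordinates of an element of `W k`. -/
lemma exists_coord {k : ℕ} {u : Oˣ} (hu : u ∈ h.W k) : ∃ a ∈ M, (u : O) - 1 = π ^ k * a := by
  obtain ⟨a, ha, hau⟩ := mem_lat.1 (h.mem_W.1 hu)
  exact ⟨a, ha, hau.symm⟩

lemma pow_mul_mem_lat (k : ℕ) {a : O} (ha : a ∈ M) : π ^ k * a ∈ lat π M k :=
  mem_lat.2 ⟨a, ha, rfl⟩

lemma pow_mul_mem_lat_succ (k : ℕ) {a : O} (ha : a ∈ lat π M 1) :
    π ^ k * a ∈ lat π M (k + 1) := by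
  obtain ⟨c, hc, rfl⟩ := mem_lat.1 ha
  exact mem_lat.2 ⟨c, hc, by ring⟩

/-- graded exactness at `norm` after `σ - 1`. -/
lemma graded1 (k : ℕ) (u : Oˣ) (hu : u ∈ h.W k) (hfu : sigmaSubOne σ u ∈ h.W (k + 1)) :
    ∃ w ∈ h.W k, u / normU G w ∈ h.W (k + 1) := by
  obtain ⟨a, ha, hua⟩ := h.exists_coord hu
  have h1 : σ • (u : O) - u ∈ lat π M (k + 1) := by
    have := h.sub_mem_of_div_mem_W (h.W_le_zero k hu) hfu
    simpa using this
  have h2 : σ • (u : O) - u = π ^ k * (σ • a - a) := by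
    have : σ • (u : O) - u = σ • ((u : O) - 1) - ((u : O) - 1) := by
      simp [smul_sub]
    rw [this, hua, smul_mul', smul_pow', h.pi_fixed]; ring
  rw [h2] at h1
  have h3 : σ • a - a ∈ lat π M 1 := h.cancel_pow h1
  obtain ⟨b, hb, hab⟩ := h.ex1 a ha h3
  obtain ⟨w, hw, hwb⟩ := h.exists_unit (h.pow_mul_mem_lat k hb)
  refine ⟨w, hw, ?_⟩
  apply h.div_mem_W (h.W_le_zero k (h.normU_mem_W hw))
  -- expansion of the norm
  have hx : ∀ g : G, g • (π ^ k * b) ∈ lat π M k :=
    fun g => h.smul_mem_lat g (h.pow_mul_mem_lat k hb)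
  have hexp := (h.prod_one_add k (fun g => g • (π ^ k * b)) hx Finset.univ).1
  have hnorm : ((normU G w : Oˣ) : O) = ∏ g : G, (1 + g • (π ^ k * b)) := by
    rw [coe_normU]
    refine Finset.prod_congr rfl (fun g _ => ?_)
    rw [hwb, smul_add, smul_one]
  have hsum : ∑ g : G, g • (π ^ k * b) = π ^ k * ∑ g : G, g • b := by
    rw [Finset.mul_sum]
    refine Finset.sum_congr rfl (fun g _ => ?_)
    rw [smul_mul', smul_pow', h.pi_fixed]
  have : (u : O) - (normU G w : Oˣ) = π ^ k * (a - ∑ g : G, g • b) -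
      ((∏ g : G, (1 + g • (π ^ k * b))) - 1 - ∑ g : G, g • (π ^ k * b)) := by
    rw [hnorm, hsum]
    have : (u : O) = 1 + π ^ k * a := by rw [← hua]; ring
    rw [this]; ring
  rw [this]
  exact (lat π M (k + 1)).sub_mem (h.pow_mul_mem_lat_succ k hab) hexp

/-- graded exactness at `σ - 1` after `norm`. -/
lemma graded2 (k : ℕ) (u : Oˣ) (hu : u ∈ h.W k) (hfu : normU G u ∈ h.W (k + 1)) :
    ∃ w ∈ h.W k, u / sigmaSubOne σ w ∈ h.W (k + 1) := by
  obtain ⟨a, ha, hua⟩ := h.exists_coord hu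
  have hu1 : (u : O) = 1 + π ^ k * a := by rw [← hua]; ring
  have hx : ∀ g : G, g • (π ^ k * a) ∈ lat π M k :=
    fun g => h.smul_mem_lat g (h.pow_mul_mem_lat k ha)
  have hexp := (h.prod_one_add k (fun g => g • (π ^ k * a)) hx Finset.univ).1
  have hnorm : ((normU G u : Oˣ) : O) = ∏ g : G, (1 + g • (π ^ k * a)) := by
    rw [coe_normU]
    refine Finset.prod_congr rfl (fun g _ => ?_)
    rw [hu1, smul_add, smul_one]
  have hsum : ∑ g : G, g • (π ^ k * a) = π ^ k * ∑ g : G, g • a := by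
    rw [Finset.mul_sum]
    refine Finset.sum_congr rfl (fun g _ => ?_)
    rw [smul_mul', smul_pow', h.pi_fixed]
  have h1 : π ^ k * ∑ g : G, g • a ∈ lat π M (k + 1) := by
    have h0 : ((normU G u : Oˣ) : O) - 1 ∈ lat π M (k + 1) := hfu
    have : π ^ k * ∑ g : G, g • a = (((normU G u : Oˣ) : O) - 1) -
        ((∏ g : G, (1 + g • (π ^ k * a))) - 1 - ∑ g : G, g • (π ^ k * a)) := by
      rw [hnorm, hsum]; ring
    rw [this]
    exact (lat π M (k + 1)).sub_mem h0 hexp
  have h3 : ∑ g : G, g • a ∈ lat π M 1 := h.cancel_pow h1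
  obtain ⟨b, hb, hab⟩ := h.ex2 a ha h3
  obtain ⟨w, hw, hwb⟩ := h.exists_unit (h.pow_mul_mem_lat k hb)
  refine ⟨w, hw, ?_⟩
  have hsw : sigmaSubOne σ w ∈ h.W k := h.sigmaSubOne_mem_W hw
  apply h.div_mem_W (h.W_le_zero k hsw)
  -- expansion of σ w / w
  have hwinv : ((w⁻¹ : Oˣ) : O) - 1 ∈ lat π M k := (h.W k).inv_mem hw
  have hd : π ^ k * (σ • b - b) ∈ lat π M k :=
    h.pow_mul_mem_lat k (M.sub_mem (h.smul_mem σ b hb) hb)
  have hsig : ((sigmaSubOne σ w : Oˣ) : O) =
      1 + π ^ k * (σ • b - b) + π ^ k * (σ • b - b) * (((w⁻¹ : Oˣ) : O) - 1) := by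
    rw [sigmaSubOne_apply, div_eq_mul_inv, Units.val_mul, coe_actU]
    have e1 : σ • (w : O) = (w : O) + π ^ k * (σ • b - b) := by
      rw [hwb, smul_add, smul_one, smul_mul', smul_pow', h.pi_fixed]; ring
    rw [e1]
    have e2 : (w : O) * ((w⁻¹ : Oˣ) : O) = 1 := Units.mul_inv w
    have : ((w : O) + π ^ k * (σ • b - b)) * ((w⁻¹ : Oˣ) : O) =
        (w : O) * ((w⁻¹ : Oˣ) : O) + π ^ k * (σ • b - b) * ((w⁻¹ : Oˣ) : O) := by ring
    rw [this, e2]; ring
  have : (u : O) - (sigmaSubOne σ w : Oˣ) = π ^ k * (a - (σ • b - b)) -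
      π ^ k * (σ • b - b) * (((w⁻¹ : Oˣ) : O) - 1) := by
    rw [hsig, hu1]; ring
  rw [this]
  exact (lat π M (k + 1)).sub_mem (h.pow_mul_mem_lat_succ k hab) (h.lat_mul_self hd hwinv)

variable [IsAdicComplete (maximalIdeal O) O]

/-- **Exactness at the norm**: a `σ`-fixed unit in `1 + M` is a norm from `1 + M`. -/
theorem exists_normU_eq (u : Oˣ) (hu : u ∈ h.W 0) (hfix : sigmaSubOne σ u = 1) :
    ∃ y ∈ h.W 0, normU G y = u :=
  exists_eq_of_filtration h.W (sigmaSubOne σ) (normU G) h.W_sep h.W_complete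
    (fun _ _ hu => h.normU_mem_W hu) (sigmaSubOne_normU σ) h.graded1 u hu hfix

/-- **Exactness at `σ - 1`**: a unit of norm one in `1 + M` is of the form `σ y / y`. -/
theorem exists_sigmaSubOne_eq (u : Oˣ) (hu : u ∈ h.W 0) (hnorm : normU G u = 1) :
    ∃ y ∈ h.W 0, sigmaSubOne σ y = u :=
  exists_eq_of_filtration h.W (normU G) (sigmaSubOne σ) h.W_sep h.W_complete
    (fun _ _ hu => h.sigmaSubOne_mem_W hu) (normU_sigmaSubOne σ) h.graded2 u hu hnorm

end IsGoodLattice

end Fermat.Agent.S55.H713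

end
-- ===== PACK-END S55/H713/Exact.lean

-- ===== PACK-BEGIN S55/G/Rec/HP/Spec.lean
section



/-!
# S55 / layer G / block REC / adapter HP : FROZEN INTERFACE

Sub-architect: helper473 (subtask 378).  Blueprint: `origin/helper473:coord/S55-REC-HP.md`.

Goal (file `HP/Glue.lean`):

  `hassePrinciple_of : HasseFinSpec p → GlobalDescentSpec → GlobalUpSpec → LocalGlueSpec →
      HassePrincipleSpec p`

and the three leaves

* **HP-FIN** `HasseFinSpec p` : the Hasse principle at FINITE level, in helper421's intrinsic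
  model (`G/Defs.lean`, `G/DefsLocal.lean`): for a finite group `G` acting faithfully on a number
  field `L ∋ ζ_p`, a class `x ∈ H²(G, Lˣ)` of `p`-power order whose localisations
  `locMapL S G 𝔪 2 x ∈ H²(D_𝔪, L_𝔪ˣ)` vanish for all finite `S` and all places `𝔪` above `S`, is `0`.
  (From `G.PClassUpperSpec`, `G.ClassShortExactSpec`, `G.ShapiroJSpec`, `T.ResIndexSpec`.)
* **HP-GD** `GlobalDescentSpec`, `GlobalUpSpec` : dictionary between level cocycles on an open
  `U ≤ G_ℚ` with values in `ℚ̄ˣ` and cocycles of the finite group `lvlGal U F ≤ Gal(F/ℚ)`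
  (the image of `U`; it is `Gal(F / F ∩ ℚ̄^U)`) with values in `Fˣ`, `F/ℚ` finite normal.
* **HP-LG** `LocalGlueSpec` : if all absolute localisations `locBr q g U x` vanish, then all
  intrinsic localisations of the finite-level class vanish.

Only definitions and `def XxxSpec : Prop`; no `sorry`.
-/

set_option autoImplicit false

noncomputable section

namespace Fermat.Agent.S55.G.Rec.HP

open groupCohomology

local notation "Qb" => AlgebraicClosure ℚ
local notation "GQ" => (AlgebraicClosure ℚ ≃ₐ[ℚ] AlgebraicClosure ℚ)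

/-! ## Finite levels of an open subgroup `U ≤ G_ℚ` -/

/-- A finite extension of `ℚ` inside `ℚ̄` is a number field. -/
instance instNumberFieldLevel (F : IntermediateField ℚ Qb) [FiniteDimensional ℚ F] :
    NumberField F where
  to_charZero := inferInstance
  to_finiteDimensional := inferInstance

variable (U : Subgroup GQ) (F : IntermediateField ℚ Qb) [Normal ℚ F]

/-- Restriction `U → Gal(F/ℚ)`. -/
def lvlRes : ↥U →* (F ≃ₐ[ℚ] F) := (AlgEquiv.restrictNormalHom F).comp U.subtype

lemma lvlRes_apply_coe (u : ↥U) (x : F) :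
    ((lvlRes U F u x : F) : Qb) = (u : GQ) (x : Qb) := by
  change algebraMap F Qb (AlgEquiv.restrictNormal (u : GQ) F x) = _
  rw [AlgEquiv.restrictNormal_commutes]
  rfl

/-- The image of `U` in `Gal(F/ℚ)`: the finite group `Gal(F / F ∩ K)`, `K = ℚ̄^U`. -/
def lvlGal : Subgroup (F ≃ₐ[ℚ] F) := (lvlRes U F).range

/-- The surjection `U → lvlGal U F`. -/
def lvlHom : ↥U →* ↥(lvlGal U F) := (lvlRes U F).rangeRestrict

lemma lvlHom_surjective : Function.Surjective (lvlHom U F) :=
  (lvlRes U F).rangeRestrict_surjective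

@[simp] lemma lvlHom_coe (u : ↥U) : ((lvlHom U F u : ↥(lvlGal U F)) : F ≃ₐ[ℚ] F) = lvlRes U F u :=
  rfl

lemma lvlHom_smul_coe (u : ↥U) (x : F) :
    ((lvlHom U F u • x : F) : Qb) = (u : GQ) (x : Qb) :=
  lvlRes_apply_coe U F u x

/-- The inclusion `Fˣ → ℚ̄ˣ`. -/
def unitsInclG : (↥F)ˣ →* Qbˣ := Units.map (algebraMap F Qb : F →* Qb)

omit [Normal ℚ F] in
@[simp] lemma unitsInclG_coe (x : (↥F)ˣ) : ((unitsInclG F x : Qbˣ) : Qb) = ((x : F) : Qb) := rfl

/-- Inflation of finite-level 1-cochains to `U`. -/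
def gInflCochain₁ (b : ↥(lvlGal U F) → Additive (↥F)ˣ) : ↥U → gModOn U :=
  fun u => Additive.ofMul (unitsInclG F (Additive.toMul (b (lvlHom U F u))))

/-- Inflation of finite-level 2-cochains to `U`. -/
def gInflCochain₂ (f : ↥(lvlGal U F) × ↥(lvlGal U F) → Additive (↥F)ˣ) :
    ↥U × ↥U → gModOn U :=
  fun p => Additive.ofMul
    (unitsInclG F (Additive.toMul (f (lvlHom U F p.1, lvlHom U F p.2))))

/-- The level cocycle `c` on `U` is the inflation of the finite-level cocycle `f` on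
`lvlGal U F` with values in `Fˣ`. -/
def IsGInflation (f : cocycles₂ (G.LRep ↥(lvlGal U F) ↥F))
    (c : ↥(levelCocycles₂ U.subtype (gModOn U))) : Prop :=
  (c : ↥U × ↥U → gModOn U) =
    gInflCochain₂ U F (f : ↥(lvlGal U F) × ↥(lvlGal U F) → Additive (↥F)ˣ)

/-! ## The leaves -/

/-- **HP-FIN** the Hasse principle at finite level (intrinsic model of `G/Defs.lean`):
`Γ` finite acting faithfully on the number field `L ∋ ζ_p`; a class of `p`-power order in
`H²(G, Lˣ)` which is locally trivial at all places above all finite sets `S` is trivial. -/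
def HasseFinSpec (p : ℕ) : Prop :=
  ∀ (Γ L : Type) [Group Γ] [Finite Γ] [Field L] [NumberField L] [MulSemiringAction Γ L]
    [FaithfulSMul Γ L],
    (∃ ζ : L, IsPrimitiveRoot ζ p) →
    ∀ x : groupCohomology (G.LRep Γ L) 2, (∃ k : ℕ, p ^ k • x = 0) →
      (∀ (S : Finset Nat.Primes) (𝔪 : G.SPlace S L), (G.locMapL S Γ 𝔪 2).hom x = 0) → x = 0

/-- **HP-FINp** the same for `p`-groups (the case proved directly from layer G). -/
def HasseFinPSpec (p : ℕ) : Prop :=
  ∀ (Γ L : Type) [Group Γ] [Finite Γ] [Field L] [NumberField L] [MulSemiringAction Γ L]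
    [FaithfulSMul Γ L],
    IsPGroup p Γ → (∃ ζ : L, IsPrimitiveRoot ζ p) →
    ∀ x : groupCohomology (G.LRep Γ L) 2,
      (∀ (S : Finset Nat.Primes) (𝔪 : G.SPlace S L), (G.locMapL S Γ 𝔪 2).hom x = 0) → x = 0

/-- **HP-GD** descent: every level cocycle `c` on an open `U` is the inflation of a cocycle `f`
of a finite normal level `F ⊇ F₁` (`F₁` any given finite extension) with `G_F ≤ U`; if
`n • [c] = 0` in `Br(K)` then `F`, `f` can be chosen with `n • [f] = 0` in `H²(lvlGal U F, Fˣ)`.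
(`n = 0` gives plain descent.) -/
def GlobalDescentSpec : Prop :=
  ∀ (U : Subgroup GQ), IsOpenQ U →
    ∀ (c : ↥(levelCocycles₂ U.subtype (gModOn U))) (n : ℕ),
      n • continuousH2π U.subtype (gModOn U) c = 0 →
    ∀ (F₁ : IntermediateField ℚ Qb), FiniteDimensional ℚ F₁ →
      ∃ (F : IntermediateField ℚ Qb) (_ : FiniteDimensional ℚ F) (_ : Normal ℚ F)
        (f : cocycles₂ (G.LRep ↥(lvlGal U F) ↥F)),
        F₁ ≤ F ∧ F.fixingSubgroup ≤ U ∧ IsGInflation U F f c ∧
          n • (H2π (G.LRep ↥(lvlGal U F) ↥F)).hom f = 0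

/-- **HP-UP** a finite-level coboundary inflates to a level coboundary. -/
def GlobalUpSpec : Prop :=
  ∀ (U : Subgroup GQ) (F : IntermediateField ℚ Qb) [FiniteDimensional ℚ F] [Normal ℚ F],
    F.fixingSubgroup ≤ U →
    ∀ (f : cocycles₂ (G.LRep ↥(lvlGal U F) ↥F))
      (c : ↥(levelCocycles₂ U.subtype (gModOn U))),
      IsGInflation U F f c → (H2π (G.LRep ↥(lvlGal U F) ↥F)).hom f = 0 →
        continuousH2π U.subtype (gModOn U) c = 0

/-- **HP-LG** local glue: if the absolute localisations of `[c] ∈ Br(K)` vanish at all places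
`(q, g)`, then the intrinsic localisations of the finite-level class `[f]` vanish at all places
`𝔪` of `F` above all finite sets `S`. -/
def LocalGlueSpec : Prop :=
  ∀ (U : Subgroup GQ) (F : IntermediateField ℚ Qb) [FiniteDimensional ℚ F] [Normal ℚ F],
    F.fixingSubgroup ≤ U →
    ∀ (f : cocycles₂ (G.LRep ↥(lvlGal U F) ↥F))
      (c : ↥(levelCocycles₂ U.subtype (gModOn U))),
      IsGInflation U F f c →
      (∀ (q : ℕ) [Fact q.Prime] (g : GQ),
        locBr q g U (continuousH2π U.subtype (gModOn U) c) = 0) →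
      ∀ (S : Finset Nat.Primes) (𝔪 : G.SPlace S ↥F),
        (G.locMapL S ↥(lvlGal U F) 𝔪 2).hom ((H2π (G.LRep ↥(lvlGal U F) ↥F)).hom f) = 0

end Fermat.Agent.S55.G.Rec.HP

end
end
-- ===== PACK-END S55/G/Rec/HP/Spec.lean

-- ===== PACK-BEGIN S55/KL/ScalarsH795.lean
section


/-!
# S55 / KL : leaf KL:SCAL (subtask 406)                                      (helper795)

    theorem Fermat.Agent.S55.KL.H795.scalars   : ScalarsSpec
    theorem Fermat.Agent.S55.KL.H795.cdScalars : CdScalarsSpec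

Both unconditional.  Reusable tools in ANY degree `n` (no low-degree API needed):

* `IsCobdry A n f` : the `n`-cochain `f` is a coboundary (for `n = 0`: `f = 0`);
* `π_eq_zero_iff_isCobdry` : the class of a cocycle `c` vanishes iff its cochain is a coboundary;
* `map_π_eq_zero_iff` : `map f φ n (π c) = 0` iff the cochain `x ↦ φ (c (f ∘ x))` is a coboundary;
* `d_comp_eq` : an additive equivariant map between representations over possibly DIFFERENT
  coefficient rings commutes with the inhomogeneous differential;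
* `isCobdry_of_comp` : coboundaries can be detected after an equivariant additive equivalence.
-/


set_option autoImplicit false

open CategoryTheory groupCohomology

namespace Fermat.Agent.S55.KL.H795

section Criterion

variable {k : Type} [CommRing k] {G : Type} [Group G]

/-- The cochain `f` is a coboundary (in the complex of inhomogeneous cochains; in degree `0`
this means `f = 0`). -/
def IsCobdry (A : Rep.{0} k G) (n : ℕ) (f : (Fin n → G) → A.V) : Prop :=
  ∃ b : (inhomogeneousCochains A).X ((ComplexShape.up ℕ).prev n),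
    ((inhomogeneousCochains A).d ((ComplexShape.up ℕ).prev n) n).hom b = f

theorem π_eq_zero_iff_isCobdry (A : Rep.{0} k G) (n : ℕ) (c : cocycles A n) :
    (π A n).hom c = 0 ↔ IsCobdry A n ((iCocycles A n).hom c) := by
  set K := inhomogeneousCochains A with hK
  set i := (ComplexShape.up ℕ).prev n with hi
  have hex : (ShortComplex.mk (K.toCycles i n) (K.homologyπ n)
      (K.toCycles_comp_homologyπ i n)).Exact :=
    ShortComplex.exact_of_g_is_cokernel _ (K.homologyIsCokernel i n hi.symm)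
  rw [ShortComplex.moduleCat_exact_iff] at hex
  have hti : ∀ b, (K.iCycles n).hom ((K.toCycles i n).hom b) = (K.d i n).hom b := by
    intro b
    have := K.toCycles_i i n
    exact congrArg (fun φ => φ.hom b) this
  constructor
  · intro h
    obtain ⟨b, hb⟩ := hex c h
    refine ⟨b, ?_⟩
    rw [← hti]
    exact congrArg _ hb
  · rintro ⟨b, hb⟩
    have hinj : Function.Injective (K.iCycles n).hom :=
      (ModuleCat.mono_iff_injective (K.iCycles n)).1 inferInstance
    have hc : (K.toCycles i n).hom b = c := hinj (by rw [hti]; exact hb)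
    rw [← hc]
    have := K.toCycles_comp_homologyπ i n
    exact congrArg (fun φ => φ.hom b) this

end Criterion



section Compare

variable {k k' : Type} [CommRing k] [CommRing k'] {G : Type} [Group G]

lemma map_neg_one_pow_smul {M M' : Type} [AddCommGroup M] [AddCommGroup M'] [Module k M]
    [Module k' M'] (e : M →+ M') (m : ℕ) (x : M) :
    e ((-1 : k) ^ m • x) = (-1 : k') ^ m • e x := by
  rcases Nat.even_or_odd m with h | h
  · rw [h.neg_one_pow, h.neg_one_pow, one_smul, one_smul]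
  · rw [h.neg_one_pow, h.neg_one_pow, neg_one_smul, neg_one_smul, map_neg]

/-- An additive equivariant map between the underlying groups of two representations of `G`
(possibly over different coefficient rings) commutes with the inhomogeneous differential. -/
theorem d_comp_eq (A : Rep.{0} k G) (B : Rep.{0} k' G) (e : A.V →+ B.V)
    (he : ∀ g x, e (A.ρ g x) = B.ρ g (e x)) (n : ℕ) (f : (Fin n → G) → A.V) :
    (inhomogeneousCochains.d B n).hom (fun x => e (f x)) =
      fun x => e ((inhomogeneousCochains.d A n).hom f x) := by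
  funext g
  rw [inhomogeneousCochains.d_hom_apply, inhomogeneousCochains.d_hom_apply, map_add, he, map_sum]
  congr 1
  refine Finset.sum_congr rfl fun j _ => ?_
  exact (map_neg_one_pow_smul (k := k) (k' := k') e _ _).symm

theorem isCobdry_of_comp (A : Rep.{0} k G) (B : Rep.{0} k' G) (e : A.V ≃+ B.V)
    (he : ∀ g x, e (A.ρ g x) = B.ρ g (e x)) (n : ℕ) (f : (Fin n → G) → A.V)
    (h : IsCobdry B n (fun x => e (f x))) : IsCobdry A n f := by
  cases n with
  | zero =>
    obtain ⟨b, hb⟩ := h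
    have h0 : ((inhomogeneousCochains B).d ((ComplexShape.up ℕ).prev 0) 0) = 0 := by
      apply HomologicalComplex.shape
      simp
    rw [h0] at hb
    have hf : f = 0 := by
      funext x
      have := congrFun hb x
      apply e.injective
      show e (f x) = e 0
      rw [map_zero, ← this]
      rfl
    refine ⟨0, ?_⟩
    rw [map_zero, hf]
  | succ m =>
    obtain ⟨b, hb⟩ := h
    have hp : (ComplexShape.up ℕ).prev (m + 1) = m := CochainComplex.prev_nat_succ m
    have key : ∀ (i : ℕ) (hi : i = m) (b : (inhomogeneousCochains B).X i),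
        ((inhomogeneousCochains B).d i (m + 1)).hom b = (fun x => e (f x)) →
        ∃ b' : (inhomogeneousCochains A).X i,
          ((inhomogeneousCochains A).d i (m + 1)).hom b' = f := by
      rintro i rfl b hb
      refine ⟨fun x => e.symm (b x), ?_⟩
      rw [inhomogeneousCochains.d_def] at hb ⊢
      have h1 := d_comp_eq A B e.toAddMonoidHom he i (fun x => e.symm (b x))
      funext g
      apply e.injective
      have h2 := congrFun h1 g
      have h3 := congrFun hb g
      simp only [AddEquiv.toAddMonoidHom_eq_coe, AddMonoidHom.coe_coe,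
        AddEquiv.apply_symm_apply] at h2
      rw [← h3]
      exact h2.symm
    exact key _ hp b hb

end Compare


section MapCriterion

variable {k : Type} [CommRing k] {G G' : Type} [Group G] [Group G']

theorem map_π_eq_zero_iff {A : Rep.{0} k G} {B : Rep.{0} k G'} (f : G' →* G)
    (φ : Rep.res f A ⟶ B) (n : ℕ) (c : cocycles A n) :
    (groupCohomology.map f φ n).hom ((π A n).hom c) = 0 ↔
      IsCobdry B n (fun x => φ.hom ((iCocycles A n).hom c (fun i => f (x i)))) := by
  have h1 : (groupCohomology.map f φ n).hom ((π A n).hom c) =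
      (π B n).hom ((cocyclesMap f φ n).hom c) := π_map_apply f φ n c
  rw [h1, π_eq_zero_iff_isCobdry]
  have h2 : (iCocycles B n).hom ((cocyclesMap f φ n).hom c) =
      ((cochainsMap f φ).f n).hom ((iCocycles A n).hom c) := by
    have := HomologicalComplex.cyclesMap_i (cochainsMap f φ) n
    exact congrArg (fun ψ => ψ.hom c) this
  rw [h2]
  rfl

end MapCriterion

section Scalars

variable {k : Type} [CommRing k] {Γ : Type} [Group Γ]

/-- The invariants of `R` and of `toInt R` are the same additive group. -/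
def invEquiv (R : Rep.{0} k Γ) (W : Subgroup Γ) [W.Normal] :
    (R.quotientToInvariants W).V ≃+ ((toInt R).quotientToInvariants W).V where
  toFun x := ⟨x.1, fun w => x.2 w⟩
  invFun x := ⟨x.1, fun w => x.2 w⟩
  left_inv _ := rfl
  right_inv _ := rfl
  map_add' _ _ := rfl

lemma invEquiv_val (R : Rep.{0} k Γ) (W : Subgroup Γ) [W.Normal]
    (x : (R.quotientToInvariants W).V) : (invEquiv R W x).1 = x.1 := rfl

lemma invEquiv_equivariant (R : Rep.{0} k Γ) (W : Subgroup Γ) [W.Normal] (g : Γ ⧸ W)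
    (x : (R.quotientToInvariants W).V) :
    invEquiv R W ((R.quotientToInvariants W).ρ g x) =
      ((toInt R).quotientToInvariants W).ρ g (invEquiv R W x) := by
  induction g using QuotientGroup.induction_on with
  | H g => rfl

theorem d_iCocycles {G : Type} [Group G] (A : Rep.{0} k G) (n : ℕ) (c : cocycles A n) :
    (inhomogeneousCochains.d A n).hom ((iCocycles A n).hom c) = 0 := by
  have h := (inhomogeneousCochains A).iCycles_d n (n + 1)
  rw [inhomogeneousCochains.d_def] at h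
  exact congrArg (fun φ => φ.hom c) h

theorem scalars : ScalarsSpec := by
  intro k Γ _ _ N R n hZ V y
  induction y using groupCohomology_induction_on with
  | h c =>
    have hdf' : (inhomogeneousCochains.d ((toInt R).quotientToInvariants V.W) n).hom
        (fun x => invEquiv R V.W ((iCocycles (R.quotientToInvariants V.W) n).hom c x)) = 0 := by
      have h0 := d_comp_eq (R.quotientToInvariants V.W) ((toInt R).quotientToInvariants V.W)
        (invEquiv R V.W).toAddMonoidHom (invEquiv_equivariant R V.W) n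
        ((iCocycles (R.quotientToInvariants V.W) n).hom c)
      rw [d_iCocycles] at h0
      refine h0.trans ?_
      funext x
      exact map_zero _
    obtain ⟨V', h, hV'⟩ := hZ V ((π ((toInt R).quotientToInvariants V.W) n).hom
      (cocyclesMk _ hdf'))
    refine ⟨V', h, ?_⟩
    have h1 := (map_π_eq_zero_iff _ _ n _).1 hV'
    rw [iCocycles_mk] at h1
    refine (map_π_eq_zero_iff _ _ n c).2 ?_
    refine isCobdry_of_comp _ _ (invEquiv R V'.W) (invEquiv_equivariant R V'.W) n _ ?_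
    exact h1

theorem cdScalars : CdScalarsSpec := by
  intro k Γ _ _ N p hZ R hfin hp hsm
  refine scalars k Γ N R 3 (hZ (toInt R) hfin hp ?_)
  intro b
  obtain ⟨W, hW, h⟩ := hsm b
  exact ⟨W, hW, fun w hw => h w hw⟩

end Scalars

end Fermat.Agent.S55.KL.H795

end
-- ===== PACK-END S55/KL/ScalarsH795.lean

-- ===== PACK-BEGIN S55/H593/Dev/Main.lean
section


/-!
# S55: abstract dévissage, part 3: the theorem (helper593)

`G` any group, `𝓛` a directed family of finite-index subgroups with cofinal normal members,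
`k = ZMod p`, `μ` a `G`-module of order `p` on which some level acts trivially.

**Theorem** (`H3V_of_ind`).  If `H³_lc(G, Ind_H μ) = 0` for every open subgroup `H`, then
`H³_lc(G, R) = 0` for every finite-dimensional `R` on which some level acts trivially.

Proof.  `U` a normal level acting trivially on `R` and `μ`, `P ⊇ U` the preimage of a Sylow
`p`-subgroup of `G ⧸ U`.  `R` is a retract of `Ind_P R` (`[G : P]` is prime to `p`); `Ind_P R` has
a filtration by the `G`-stable submodules `subI P R N` (`N` running through a `P`-stable flag of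
`R` with trivial one-dimensional quotients: fixed point theorem for the `p`-group `P/U` acting on
the dual) with successive quotients `≅ k[G/P]`; `k[G/P]` is a retract of `Ind_P μ` (`P` acts
trivially on `μ`); `H3V` is closed under extensions and retracts.

Mathlib only.
-/

set_option autoImplicit false
set_option linter.style.haveILetI false

noncomputable section

namespace Fermat.Agent.S55.H593.Dev

open groupCohomology

variable {G : Type} [Group G] {p : ℕ} [Fact p.Prime]

/-! ## Invariant functionals -/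

/-- **Fixed point theorem.**  Let `P` act on `A` through a `p`-group (some subgroup `U` acts
trivially and every element of `P` has a `p`-power in `U`), and let `N ≠ 0` be a `P`-stable
subspace of the finite-dimensional `𝔽_p`-space `A`.  Then there is a linear functional `φ` on `A`
which is `P`-invariant on `N` and takes the value `1` on `N`. -/
theorem exists_invariant_functional (A : Rep.{0, 0, 0} (ZMod p) G)
    [FiniteDimensional (ZMod p) A] (P U : Subgroup G)
    (hPU : ∀ h ∈ P, ∃ n : ℕ, h ^ p ^ n ∈ U) (hU : ∀ s ∈ U, ∀ a : A, A.ρ s a = a)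
    (N : Submodule (ZMod p) A) (hN : ∀ h ∈ P, ∀ n ∈ N, A.ρ h n ∈ N) (hN0 : N ≠ ⊥) :
    ∃ φ : A →ₗ[ZMod p] ZMod p, (∀ h ∈ P, ∀ n ∈ N, φ (A.ρ h n) = φ n) ∧ ∃ n₀ ∈ N, φ n₀ = 1 := by
  classical
  -- the representation of `P` on `N` and on its dual `X`
  let ρP : Representation (ZMod p) ↥P A := A.ρ.comp P.subtype
  let ρN : Representation (ZMod p) ↥P ↥N :=
    ρP.subrepresentation N (fun h n hn => hN h.1 h.2 n hn)
  let Φ : ↥P →* (Module.End (ZMod p) (Module.Dual (ZMod p) ↥N))ˣ := ρN.dual.asGroupHom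
  have hΦ : ∀ (h : ↥P) (ψ : Module.Dual (ZMod p) ↥N) (n : ↥N),
      ((Φ h : Module.End (ZMod p) (Module.Dual (ZMod p) ↥N)) ψ) n =
        ψ ⟨A.ρ (h⁻¹ : ↥P).1 n.1, hN _ (h⁻¹ : ↥P).2 _ n.2⟩ := by
    intro h ψ n
    show (ρN.dual h ψ) n = _
    rw [Representation.dual_apply]
    rfl
  -- its image is a `p`-group
  have hT : IsPGroup p ↥Φ.range := by
    rintro ⟨t, h, rfl⟩
    obtain ⟨n, hn⟩ := hPU h.1 h.2
    refine ⟨n, ?_⟩
    apply Subtype.ext
    show (Φ h) ^ p ^ n = 1
    rw [← map_pow]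
    apply Units.ext
    apply LinearMap.ext
    intro ψ
    apply LinearMap.ext
    intro m
    rw [hΦ]
    show ψ _ = ψ m
    congr 1
    apply Subtype.ext
    show A.ρ ((h ^ p ^ n)⁻¹ : ↥P).1 m.1 = m.1
    have : (((h ^ p ^ n)⁻¹ : ↥P) : G) ∈ U := by
      have h1 : (((h ^ p ^ n)⁻¹ : ↥P) : G) = ((h : G) ^ p ^ n)⁻¹ := by simp
      rw [h1]
      exact U.inv_mem hn
    exact hU _ this _
  -- cardinality of the dual
  haveI : Module.Finite (ZMod p) ↥N := inferInstance
  haveI : Finite (Module.Dual (ZMod p) ↥N) := Module.finite_of_finite (ZMod p)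
  have hpos : 0 < Module.finrank (ZMod p) ↥N := by
    rw [Nat.pos_iff_ne_zero, Ne, Submodule.finrank_eq_zero]
    exact hN0
  have hcard : p ∣ Nat.card (Module.Dual (ZMod p) ↥N) := by
    rw [Module.natCard_eq_pow_finrank (K := ZMod p), Subspace.dual_finrank_eq, Nat.card_zmod]
    exact dvd_pow_self p hpos.ne'
  have h0 : (0 : Module.Dual (ZMod p) ↥N) ∈
      MulAction.fixedPoints ↥Φ.range (Module.Dual (ZMod p) ↥N) := by
    rw [MulAction.mem_fixedPoints]
    rintro ⟨t, ht⟩
    show (t : Module.End (ZMod p) (Module.Dual (ZMod p) ↥N)) 0 = 0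
    rw [map_zero]
  obtain ⟨ψ, hψfix, hψ0⟩ :=
    hT.exists_fixed_point_of_prime_dvd_card_of_fixed_point (Module.Dual (ZMod p) ↥N) hcard h0
  rw [MulAction.mem_fixedPoints] at hψfix
  -- `ψ` is `P`-invariant
  have hψinv : ∀ (h : ↥P) (n : ↥N), ψ ⟨A.ρ h.1 n.1, hN _ h.2 _ n.2⟩ = ψ n := by
    intro h n
    have h1 := hψfix ⟨Φ h⁻¹, h⁻¹, rfl⟩
    have h2 : (Φ h⁻¹ : Module.End (ZMod p) (Module.Dual (ZMod p) ↥N)) ψ = ψ := h1
    have h3 := hΦ h⁻¹ ψ n
    rw [h2] at h3
    rw [h3]
    congr 1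
    apply Subtype.ext
    show A.ρ h.1 n.1 = A.ρ ((h⁻¹)⁻¹ : ↥P).1 n.1
    rw [inv_inv]
  -- extend `ψ` to `A`
  obtain ⟨φ, hφ⟩ := LinearMap.exists_extend ψ
  have hφN : ∀ (n : A) (hn : n ∈ N), φ n = ψ ⟨n, hn⟩ := fun n hn => by
    rw [← hφ]
    rfl
  refine ⟨φ, fun h hh n hn => ?_, ?_⟩
  · rw [hφN _ (hN h hh n hn), hφN _ hn]
    exact hψinv ⟨h, hh⟩ ⟨n, hn⟩
  · have hne : ∃ n : ↥N, ψ n ≠ 0 := by
      by_contra hcon
      apply hψ0
      symm
      apply LinearMap.ext
      intro n
      by_contra hne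
      exact hcon ⟨n, hne⟩
    obtain ⟨n₁, hn₁⟩ := hne
    refine ⟨(ψ n₁)⁻¹ • n₁.1, N.smul_mem _ n₁.2, ?_⟩
    rw [map_smul, hφN _ n₁.2, smul_eq_mul]
    exact inv_mul_cancel₀ hn₁

/-- A `p`-group acts trivially on a module of order `p`. -/
theorem acts_trivially_of_card (μ : Rep.{0, 0, 0} (ZMod p) G) (hμ : Nat.card μ = p)
    (P U : Subgroup G) (hPU : ∀ h ∈ P, ∃ n : ℕ, h ^ p ^ n ∈ U)
    (hU : ∀ s ∈ U, ∀ a : μ, μ.ρ s a = a) :
    ∃ (φ : μ →ₗ[ZMod p] ZMod p) (m₀ : μ), φ m₀ = 1 ∧ (∀ h ∈ P, ∀ m : μ, μ.ρ h m = m) := by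
  classical
  have hp : p.Prime := Fact.out
  haveI : Finite μ := Nat.finite_of_card_ne_zero (by rw [hμ]; exact hp.ne_zero)
  haveI : FiniteDimensional (ZMod p) μ := Module.Finite.of_finite
  have htop : (⊤ : Submodule (ZMod p) μ) ≠ ⊥ := by
    intro h
    have h1 : ∀ m : μ, m = 0 := fun m => by
      have : m ∈ (⊤ : Submodule (ZMod p) μ) := Submodule.mem_top
      rw [h] at this
      exact (Submodule.mem_bot _).1 this
    haveI : Subsingleton μ := ⟨fun a b => by rw [h1 a, h1 b]⟩
    have h2 : Nat.card μ = 1 := Nat.card_of_subsingleton 0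
    rw [hμ] at h2
    exact hp.one_lt.ne' h2
  obtain ⟨φ, hφ, m₀, -, hm₀⟩ := exists_invariant_functional μ P U hPU hU ⊤
    (fun _ _ _ _ => Submodule.mem_top) htop
  have hsurj : Function.Surjective φ := fun c => ⟨c • m₀, by rw [map_smul, hm₀, smul_eq_mul, mul_one]⟩
  have hbij : Function.Bijective φ :=
    hsurj.bijective_of_nat_card_le (by rw [hμ, Nat.card_zmod])
  exact ⟨φ, m₀, hm₀, fun h hh m => hbij.1 (hφ h hh m Submodule.mem_top)⟩

/-! ## The filtration induction -/

/-- A normal subgroup `U ≤ P` acting trivially on `A` acts trivially on `Ind_P A`. -/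
theorem dIndρ_eq_self_of_normal (k : Type) [CommRing k] (A : Rep.{0, 0, 0} k G)
    (P U : Subgroup G) [U.Normal] (hUP : U ≤ P) (hU : ∀ s ∈ U, ∀ a : A, A.ρ s a = a)
    (s : G) (hs : s ∈ U) (f : (G ⧸ P) →₀ A) : dIndρ P A s f = f := by
  ext y
  induction y using QuotientGroup.induction_on with
  | H g =>
    rw [dIndρ_apply, hU s hs]
    congr 1
    show ((s⁻¹ * g : G) : G ⧸ P) = (g : G ⧸ P)
    rw [QuotientGroup.eq]
    have h1 : (s⁻¹ * g)⁻¹ * g = g⁻¹ * s * g := by group
    rw [h1]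
    apply hUP
    have := (inferInstance : U.Normal).conj_mem s hs g⁻¹
    simpa using this

/-- **Filtration step.**  `H3V (k[G/P]) ⇒ H3V (subI P A N)` for every `P`-stable subspace `N`. -/
theorem H3V_subIRep {𝓛 : Set (Subgroup G)} (hd : Directed' 𝓛) (hn : NormalCofinal' 𝓛)
    (P : Subgroup G) [Finite (G ⧸ P)] (U : Subgroup G) (hU𝓛 : U ∈ 𝓛) [U.Normal] (hUP : U ≤ P)
    (hPU : ∀ h ∈ P, ∃ n : ℕ, h ^ p ^ n ∈ U)
    (A : Rep.{0, 0, 0} (ZMod p) G) [FiniteDimensional (ZMod p) A]
    (hUA : ∀ s ∈ U, ∀ a : A, A.ρ s a = a)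
    (hperm : H3V 𝓛 (dInd P (trivK (ZMod p) G))) :
    ∀ (d : ℕ) (N : Submodule (ZMod p) A), (∀ h ∈ P, ∀ n ∈ N, A.ρ h n ∈ N) →
      Module.finrank (ZMod p) ↥N < d → H3V 𝓛 (subIRep P A N) := by
  intro d
  induction d with
  | zero => intro N _ h; exact absurd h (Nat.not_lt_zero _)
  | succ d ih =>
    intro N hN hd'
    by_cases hN0 : N = ⊥
    · subst hN0
      haveI : Subsingleton ↥(subI P A (⊥ : Submodule (ZMod p) A)) := by
        rw [subI_bot]
        infer_instance
      haveI : Subsingleton (subIRep P A (⊥ : Submodule (ZMod p) A)) :=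
        (inferInstance : Subsingleton ↥(subI P A (⊥ : Submodule (ZMod p) A)))
      exact H3V.of_subsingleton 𝓛 ⟨U, hU𝓛⟩ _
    · obtain ⟨φ, hφ, n₀, hn₀, hφn₀⟩ := exists_invariant_functional A P U hPU hUA N hN hN0
      -- the smaller subspace
      have hN' : ∀ h ∈ P, ∀ n ∈ N ⊓ LinearMap.ker φ, A.ρ h n ∈ N ⊓ LinearMap.ker φ := by
        rintro h hh n ⟨hn1, hn2⟩
        refine ⟨hN h hh n hn1, ?_⟩
        show φ (A.ρ h n) = 0
        rw [hφ h hh n hn1]
        exact hn2
      have hlt : N ⊓ LinearMap.ker φ < N := by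
        refine lt_of_le_of_ne inf_le_left (fun h => ?_)
        have h1 : n₀ ∈ N ⊓ LinearMap.ker φ := by rw [h]; exact hn₀
        have h2 : φ n₀ = 0 := h1.2
        rw [hφn₀] at h2
        exact one_ne_zero h2
      have hrank : Module.finrank (ZMod p) ↥(N ⊓ LinearMap.ker φ) < d :=
        lt_of_lt_of_le (Submodule.finrank_lt_finrank_of_lt hlt) (Nat.lt_succ_iff.1 hd')
      have h' := ih (N ⊓ LinearMap.ker φ) hN' hrank
      -- the extension `0 → subI N' → subI N → k[G/P] → 0`
      have hsm : USmooth 𝓛 (subIRep P A N) :=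
        ⟨U, hU𝓛, fun s hs f => Subtype.ext (dIndρ_eq_self_of_normal (ZMod p) A P U hUP hUA s hs f.1)⟩
      let i : subIRep P A (N ⊓ LinearMap.ker φ) →ₗ[ZMod p] subIRep P A N :=
        Submodule.inclusion (subI_mono A inf_le_left)
      let π : subIRep P A N →ₗ[ZMod p] dInd P (trivK (ZMod p) G) :=
        (piFull P A φ) ∘ₗ (subI P A N).subtype
      refine H3V.of_extension hd hn hsm i π (fun g a => rfl) ?_ ?_ ?_ ?_ h' hperm
      · intro g f
        exact piFull_equivariant hφ f.2 g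
      · exact Submodule.inclusion_injective _
      · intro F
        refine ⟨⟨theta P A n₀ F, theta_mem_subI hN hn₀ F⟩, ?_⟩
        exact piFull_theta_of_eq_one P A φ n₀ hφn₀ F
      · intro f hf
        have hf' : piFull P A φ f.1 = 0 := hf
        exact ⟨⟨f.1, (piFull_eq_zero_iff hφ f.2).1 hf'⟩, rfl⟩

/-! ## The theorem -/

/-- **Abstract dévissage** (sharp form).  If `H³_lc(G, Ind_H μ) = 0` for every open subgroup
`H` ACTING TRIVIALLY ON `μ` (`μ` of order `p`, fixed by some level), then `H³_lc(G, R) = 0` for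
every finite-dimensional `R` fixed by some level. -/
theorem H3V_of_ind_triv {𝓛 : Set (Subgroup G)} (hd : Directed' 𝓛) (hn : NormalCofinal' 𝓛)
    (hfi : ∀ U ∈ 𝓛, U.FiniteIndex)
    (μ : Rep.{0, 0, 0} (ZMod p) G) (hμcard : Nat.card μ = p) (hμ : USmooth 𝓛 μ)
    (hInd : ∀ H : Subgroup G, IsOpenSub 𝓛 H → (∀ s ∈ H, ∀ m : μ, μ.ρ s m = m) →
      H3V 𝓛 (dInd H μ))
    (R : Rep.{0, 0, 0} (ZMod p) G) [FiniteDimensional (ZMod p) R] (hR : USmooth 𝓛 R) :
    H3V 𝓛 R := by
  classical
  have hp : p.Prime := Fact.out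
  -- a normal level acting trivially on `R` and `μ`
  obtain ⟨U₁, hU₁, hU₁R⟩ := hR
  obtain ⟨U₂, hU₂, hU₂μ⟩ := hμ
  obtain ⟨W, hW, hWle⟩ := hd U₁ hU₁ U₂ hU₂
  obtain ⟨U, hU, hUW, hUn⟩ := hn W hW
  haveI := hUn
  have hUR : ∀ s ∈ U, ∀ a : R, R.ρ s a = a := fun s hs => hU₁R s (hWle (hUW hs)).1
  have hUμ : ∀ s ∈ U, ∀ a : μ, μ.ρ s a = a := fun s hs => hU₂μ s (hWle (hUW hs)).2
  haveI := hfi U hU
  haveI : Finite (G ⧸ U) := Subgroup.finite_quotient_of_finiteIndex
  -- the Sylow preimage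
  obtain ⟨Pbar⟩ := (Sylow.nonempty : Nonempty (Sylow p (G ⧸ U)))
  let P : Subgroup G := (Pbar : Subgroup (G ⧸ U)).comap (QuotientGroup.mk' U)
  have hUP : U ≤ P := by
    intro s hs
    show (QuotientGroup.mk' U) s ∈ (Pbar : Subgroup (G ⧸ U))
    have : (QuotientGroup.mk' U) s = 1 := (QuotientGroup.eq_one_iff s).2 hs
    rw [this]
    exact Subgroup.one_mem _
  have hPU : ∀ h ∈ P, ∃ n : ℕ, h ^ p ^ n ∈ U := by
    intro h hh
    obtain ⟨n, hn⟩ := Pbar.isPGroup' ⟨(QuotientGroup.mk' U) h, hh⟩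
    refine ⟨n, ?_⟩
    have h1 : ((QuotientGroup.mk' U) h) ^ p ^ n = 1 := congrArg Subtype.val hn
    rw [← map_pow] at h1
    exact (QuotientGroup.eq_one_iff _).1 h1
  haveI : (Pbar : Subgroup (G ⧸ U)).FiniteIndex := Subgroup.finiteIndex_of_finite_quotient
  have hindex : P.index = (Pbar : Subgroup (G ⧸ U)).index :=
    Subgroup.index_comap_of_surjective _ (QuotientGroup.mk'_surjective U)
  have hpidx : ¬ p ∣ P.index := by
    rw [hindex]
    exact Pbar.not_dvd_index
  haveI : P.FiniteIndex := ⟨by rw [hindex]; exact Subgroup.FiniteIndex.index_ne_zero⟩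
  haveI : Finite (G ⧸ P) := Subgroup.finite_quotient_of_finiteIndex
  -- `k[G/P]` is a retract of `Ind_P μ`
  obtain ⟨φ₀, m₀, hφ₀, hPμ⟩ := acts_trivially_of_card μ hμcard P U hPU hUμ
  have hperm : H3V 𝓛 (dInd P (trivK (ZMod p) G)) := by
    refine H3V.of_retract (A := dInd P (trivK (ZMod p) G)) (B := dInd P μ)
      (theta P μ m₀) (piFull P μ φ₀) ?_ ?_ ?_ (hInd P ⟨U, hU, hUP⟩ hPμ)
    · intro g F
      exact theta_equivariant (fun h hh => hPμ h hh m₀) g F
    · intro g f
      exact piFull_equivariant (N := ⊤) (fun h hh n _ => by rw [hPμ h hh n])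
        (by rw [subI_top]; exact Submodule.mem_top) g
    · intro F
      exact piFull_theta_of_eq_one P μ φ₀ m₀ hφ₀ F
  -- filtration
  have hfil : H3V 𝓛 (subIRep P R ⊤) :=
    H3V_subIRep hd hn P U hU hUP hPU R hUR hperm (Module.finrank (ZMod p) ↥(⊤ : Submodule (ZMod p) R) + 1)
      ⊤ (fun _ _ _ _ => Submodule.mem_top) (Nat.lt_succ_self _)
  -- `Ind_P R ≅ subI P R ⊤`
  have hIndR : H3V 𝓛 (dInd P R) := by
    let i : dInd P R →ₗ[ZMod p] subIRep P R ⊤ :=
      LinearMap.codRestrict (subI P R ⊤) LinearMap.id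
        (fun f => by rw [subI_top]; exact Submodule.mem_top)
    let r : subIRep P R ⊤ →ₗ[ZMod p] dInd P R := (subI P R ⊤).subtype
    exact H3V.of_retract i r (fun g a => rfl) (fun g b => rfl) (fun a => rfl) hfil
  -- `R` is a retract of `Ind_P R`
  have hc : ((P.index : ℕ) : ZMod p) ≠ 0 := by
    rw [Ne, ZMod.natCast_eq_zero_iff]
    exact hpidx
  have hc' : ((P.index : ZMod p)⁻¹) * ((Nat.card (G ⧸ P) : ℕ) : ZMod p) = 1 := by
    have : Nat.card (G ⧸ P) = P.index := rfl
    rw [this]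
    exact inv_mul_cancel₀ hc
  exact H3V.of_retract (diag P R) (((P.index : ZMod p)⁻¹) • aug P R)
    (fun g a => diag_equivariant P R g a)
    (fun g f => smul_aug_equivariant P R _ g f)
    (fun a => smul_aug_diag P R _ hc' a) hIndR

/-- **Abstract dévissage.**  If `H³_lc(G, Ind_H μ) = 0` for every open subgroup `H`
(`μ` of order `p`, fixed by some level), then `H³_lc(G, R) = 0` for every finite-dimensional
`R` fixed by some level. -/
theorem H3V_of_ind {𝓛 : Set (Subgroup G)} (hd : Directed' 𝓛) (hn : NormalCofinal' 𝓛)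
    (hfi : ∀ U ∈ 𝓛, U.FiniteIndex)
    (μ : Rep.{0, 0, 0} (ZMod p) G) (hμcard : Nat.card μ = p) (hμ : USmooth 𝓛 μ)
    (hInd : ∀ H : Subgroup G, IsOpenSub 𝓛 H → H3V 𝓛 (dInd H μ))
    (R : Rep.{0, 0, 0} (ZMod p) G) [FiniteDimensional (ZMod p) R] (hR : USmooth 𝓛 R) :
    H3V 𝓛 R :=
  H3V_of_ind_triv hd hn hfi μ hμcard hμ (fun H hH _ => hInd H hH) R hR

/-- A module of `𝔽_p`-dimension one has order `p`. -/
theorem natCard_eq_of_finrank_eq_one (μ : Rep.{0, 0, 0} (ZMod p) G)
    (h : Module.finrank (ZMod p) μ = 1) : Nat.card μ = p := by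
  haveI : Module.Finite (ZMod p) μ := Module.finite_of_finrank_pos (by rw [h]; exact one_pos)
  rw [Module.natCard_eq_pow_finrank (K := ZMod p), h, pow_one, Nat.card_zmod]

end Fermat.Agent.S55.H593.Dev

end

end
-- ===== PACK-END S55/H593/Dev/Main.lean

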