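import Mathlib
import Fermat.Agent.Pack.S56.E4L2
import Fermat.Agent.Pack.S56.E4L3
import Fermat.Agent.Pack.S56.E4L1
import Fermat.Agent.Pack.S56.E4L0
import Fermat.Agent.Pack.S56.E3L2
import Fermat.Agent.Pack.S56.E1L0
import Fermat.Agent.Pack.S56.E1L1

-- ===== PACK-BEGIN S55/H119/ResCoresCor.lean
section


/-!
# Corollaries of restriction–corestriction in degrees 1 and 2 (helper119)

* `Hⁿ(G, A)` is killed by `|G|` (`n = 1, 2`, `G` finite);
* Sylow criterion: a class whose restrictions to one Sylow `p`-subgroup for each prime `p`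
  vanish is zero;
* the `p`-primary part of `Hⁿ(G, A)` injects into `Hⁿ(P, A)`, `P` a Sylow `p`-subgroup.
-/

set_option autoImplicit false
set_option linter.style.haveILetI false

namespace Fermat.Agent.S55.H119

open groupCohomology Rep CategoryTheory

section Abstract

variable {G : Type*} [Group G] {M : Type*} [AddCommGroup M]

/-- An element killed by the index of a Sylow `p`-subgroup for every prime `p` is zero. -/
theorem eq_zero_of_forall_sylow_index_nsmul [Finite G] (x : M)
    (h : ∀ p : ℕ, p.Prime → ∃ P : Sylow p G, (P : Subgroup G).index • x = 0) : x = 0 := by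
  by_contra hx
  have h1 : addOrderOf x ≠ 1 := fun h1 => hx (AddMonoid.addOrderOf_eq_one_iff.mp h1)
  obtain ⟨q, hq, hqd⟩ := Nat.exists_prime_and_dvd h1
  haveI : Fact q.Prime := ⟨hq⟩
  obtain ⟨P, hP⟩ := h q hq
  have h2 : addOrderOf x ∣ (P : Subgroup G).index := addOrderOf_dvd_of_nsmul_eq_zero hP
  exact P.not_dvd_index (hqd.trans h2)

/-- An element killed by a power of `p` and by the index of a Sylow `p`-subgroup is zero. -/
theorem eq_zero_of_pow_nsmul_of_sylow_index_nsmul [Finite G] {p : ℕ} [Fact p.Prime]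
    (P : Sylow p G) (x : M) (k : ℕ) (h1 : p ^ k • x = 0)
    (h2 : (P : Subgroup G).index • x = 0) : x = 0 := by
  have hcop : Nat.Coprime (p ^ k) (P : Subgroup G).index :=
    Nat.Coprime.pow_left k ((Nat.Prime.coprime_iff_not_dvd Fact.out).mpr P.not_dvd_index)
  have h3 : addOrderOf x ∣ Nat.gcd (p ^ k) (P : Subgroup G).index :=
    Nat.dvd_gcd (addOrderOf_dvd_of_nsmul_eq_zero h1) (addOrderOf_dvd_of_nsmul_eq_zero h2)
  rw [hcop.gcd_eq_one, Nat.dvd_one] at h3
  exact AddMonoid.addOrderOf_eq_one_iff.mp h3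

end Abstract

section Concrete

variable {G : Type*} [Group G] {A : Type*} [AddCommGroup A] [DistribMulAction G A]

/-- 1-cocycles of a finite group are killed by the order of the group, up to coboundaries. -/
theorem isCoboundary₁_card_nsmul [Finite G] {f : G → A} (hf : IsCocycle₁ f) :
    IsCoboundary₁ (fun g => Nat.card G • f g) := by
  have h := isCoboundary₁_index_nsmul (⊥ : Subgroup G) hf (by
    refine ⟨0, fun h => ?_⟩
    have h1 : (h : G) = 1 := Subgroup.mem_bot.mp h.2
    simp [h1, map_one_of_isCocycle₁ hf])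
  rwa [Subgroup.index_bot] at h

/-- 2-cocycles of a finite group are killed by the order of the group, up to coboundaries. -/
theorem isCoboundary₂_card_nsmul [Finite G] {f : G × G → A} (hf : IsCocycle₂ f) :
    IsCoboundary₂ (fun p => Nat.card G • f p) := by
  have h := isCoboundary₂_index_nsmul (⊥ : Subgroup G) hf (by
    refine ⟨fun _ => f (1, 1), fun h₁ h₂ => ?_⟩
    have h1 : (h₁ : G) = 1 := Subgroup.mem_bot.mp h₁.2
    have h2 : (h₂ : G) = 1 := Subgroup.mem_bot.mp h₂.2
    simp [h1, h2, Subgroup.smul_def])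
  rwa [Subgroup.index_bot] at h

end Concrete

section Rep

universe u

variable {k G : Type u} [CommRing k] [Group G] (A : Rep k G)

theorem card_nsmul_eq_zero_one [Finite G] (x : H1 A) : Nat.card G • x = 0 := by
  letI := repDistribMulAction A
  induction x using H1_induction_on with
  | h c =>
    rw [← map_nsmul, H1π_eq_zero_iff]
    have hc : IsCocycle₁ (c : G → A.V) := fun g h => (mem_cocycles₁_iff (c : G → A.V)).1 c.2 g h
    obtain ⟨z, hz⟩ := isCoboundary₁_card_nsmul hc
    exact ⟨z, funext fun g => hz g⟩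

theorem card_nsmul_eq_zero_two [Finite G] (x : H2 A) : Nat.card G • x = 0 := by
  letI := repDistribMulAction A
  induction x using H2_induction_on with
  | h c =>
    rw [← map_nsmul, H2π_eq_zero_iff]
    have hc : IsCocycle₂ (c : G × G → A.V) :=
      fun g h j => (mem_cocycles₂_iff (c : G × G → A.V)).1 c.2 g h j
    obtain ⟨z, hz⟩ := isCoboundary₂_card_nsmul hc
    exact ⟨z, funext fun g => hz g.1 g.2⟩

/-- **Sylow criterion, degree 1.** -/
theorem eq_zero_of_forall_sylow_resMap_eq_zero_one [Finite G] (x : H1 A)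
    (h : ∀ p : ℕ, p.Prime → ∃ P : Sylow p G, resMap A (P : Subgroup G) 1 x = 0) : x = 0 :=
  eq_zero_of_forall_sylow_index_nsmul (G := G) x fun p hp => by
    obtain ⟨P, hP⟩ := h p hp
    exact ⟨P, index_nsmul_eq_zero_of_resMap_eq_zero_one A (P : Subgroup G) x hP⟩

/-- **Sylow criterion, degree 2.** -/
theorem eq_zero_of_forall_sylow_resMap_eq_zero_two [Finite G] (x : H2 A)
    (h : ∀ p : ℕ, p.Prime → ∃ P : Sylow p G, resMap A (P : Subgroup G) 2 x = 0) : x = 0 :=
  eq_zero_of_forall_sylow_index_nsmul (G := G) x fun p hp => by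
    obtain ⟨P, hP⟩ := h p hp
    exact ⟨P, index_nsmul_eq_zero_of_resMap_eq_zero_two A (P : Subgroup G) x hP⟩

/-- The `p`-primary part of `H¹(G, A)` injects into `H¹(P, A)` for a Sylow `p`-subgroup `P`. -/
theorem eq_zero_of_pow_nsmul_of_resMap_sylow_one [Finite G] {p : ℕ} [Fact p.Prime]
    (P : Sylow p G) (x : H1 A) (k : ℕ) (h1 : p ^ k • x = 0)
    (h2 : resMap A (P : Subgroup G) 1 x = 0) : x = 0 :=
  eq_zero_of_pow_nsmul_of_sylow_index_nsmul P x k h1
    (index_nsmul_eq_zero_of_resMap_eq_zero_one A (P : Subgroup G) x h2)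

/-- The `p`-primary part of `H²(G, A)` injects into `H²(P, A)` for a Sylow `p`-subgroup `P`. -/
theorem eq_zero_of_pow_nsmul_of_resMap_sylow_two [Finite G] {p : ℕ} [Fact p.Prime]
    (P : Sylow p G) (x : H2 A) (k : ℕ) (h1 : p ^ k • x = 0)
    (h2 : resMap A (P : Subgroup G) 2 x = 0) : x = 0 :=
  eq_zero_of_pow_nsmul_of_sylow_index_nsmul P x k h1
    (index_nsmul_eq_zero_of_resMap_eq_zero_two A (P : Subgroup G) x h2)

end Rep

end Fermat.Agent.S55.H119

end
-- ===== PACK-END S55/H119/ResCoresCor.lean

-- ===== PACK-BEGIN S55/H783/ResCor.lean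
section


/-!
# S55 / T-layer (helper783): restriction to a subgroup of finite index

* `index_nsmul_eq_zero_H1` : `x ∈ H¹(G, A)`, `res_S x = 0` ⇒ `[G : S] • x = 0` (explicit transfer);
* `index_nsmul_eq_zero_H2`, `index_nsmul_eq_zero_H3` : the same in degrees 2, 3
  (dimension shifting).
-/

set_option autoImplicit false

open CategoryTheory CategoryTheory.Limits groupCohomology

namespace Fermat.Agent.S55.H783

universe u

variable {k G : Type u} [CommRing k] [Group G]

/-- Restriction `Hⁿ(G, A) ⟶ Hⁿ(S, A)`. -/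
noncomputable abbrev resMap (A : Rep k G) (S : Subgroup G) (n : ℕ) :
    groupCohomology A n ⟶ groupCohomology (Rep.res S.subtype A) n :=
  map S.subtype (𝟙 (Rep.res S.subtype A)) n

section H1

variable (A : Rep k G) (S : Subgroup G)

/-- A cocycle vanishing on `S` is constant on left cosets of `S`. -/
lemma cocycle_mul_of_vanish (c : G → A.V) (hc : c ∈ cocycles₁ A) (h0 : ∀ s ∈ S, c s = 0)
    (g : G) (s : G) (hs : s ∈ S) : c (g * s) = c g := by
  rw [(mem_cocycles₁_iff c).1 hc g s, h0 s hs, map_zero, zero_add]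

lemma cocycle_out_smul (c : G → A.V) (hc : c ∈ cocycles₁ A) (h0 : ∀ s ∈ S, c s = 0)
    (g : G) (q : G ⧸ S) : c ((g • q).out) = c (g * q.out) := by
  have h1 : ((g * q.out : G) : G ⧸ S) = g • q := by
    conv_rhs => rw [← QuotientGroup.out_eq' q]
    rfl
  have h2 : ((g • q).out)⁻¹ * (g * q.out) ∈ S := by
    rw [← QuotientGroup.eq, QuotientGroup.out_eq', h1]
  have h3 := cocycle_mul_of_vanish A S c hc h0 ((g • q).out) _ h2
  rw [← h3]
  congr 1
  group

theorem index_nsmul_mem_coboundaries₁ [S.FiniteIndex] (c : G → A.V) (hc : c ∈ cocycles₁ A)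
    (h0 : ∀ s ∈ S, c s = 0) : S.index • c ∈ coboundaries₁ A := by
  classical
  let _ : Fintype (G ⧸ S) := Subgroup.fintypeQuotientOfFiniteIndex
  set b : A.V := ∑ q : G ⧸ S, c q.out with hb
  refine ⟨-b, ?_⟩
  funext g
  rw [d₀₁_hom_apply]
  have h1 : A.ρ g b = ∑ q : G ⧸ S, (c ((g • q).out) - c g) := by
    rw [hb, map_sum]
    refine Finset.sum_congr rfl (fun q _ => ?_)
    rw [cocycle_out_smul A S c hc h0 g q, (mem_cocycles₁_iff c).1 hc g q.out]
    abel
  have h2 : ∑ q : G ⧸ S, c ((g • q).out) = b := by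
    rw [hb]
    exact Fintype.sum_equiv (MulAction.toPerm g) _ _ (fun q => rfl)
  rw [Finset.sum_sub_distrib, h2, Finset.sum_const, Finset.card_univ] at h1
  have h3 : Fintype.card (G ⧸ S) = S.index := by
    rw [Subgroup.index_eq_card, Nat.card_eq_fintype_card]
  rw [h3] at h1
  simp only [map_neg, Pi.smul_apply, h1]
  abel

/-- **Restriction–corestriction in degree 1**: if `res_S x = 0` then `[G : S] • x = 0`. -/
theorem index_nsmul_eq_zero_H1 [S.FiniteIndex] (x : H1 A) (hx : resMap A S 1 x = 0) :
    S.index • x = 0 := by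
  induction x using H1_induction_on with
  | h c =>
    rw [resMap, H1π_comp_map_apply, H1π_eq_zero_iff] at hx
    obtain ⟨a, ha⟩ := hx
    have ha' : ∀ s : S, A.ρ s a - a = c (s : G) := by
      intro s
      exact congrFun ha s
    -- the normalised cocycle
    have hc' : (c : G → A.V) - (d₀₁ A).hom a ∈ cocycles₁ A :=
      (cocycles₁ A).sub_mem c.2 (d₀₁_apply_mem_cocycles₁ a)
    have h0 : ∀ s ∈ S, ((c : G → A.V) - (d₀₁ A).hom a) s = 0 := by
      intro s hs
      have := ha' ⟨s, hs⟩
      simp only [Pi.sub_apply, d₀₁_hom_apply]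
      rw [← this]
      simp
    have h1 := index_nsmul_mem_coboundaries₁ A S _ hc' h0
    have h2 : S.index • (c : G → A.V) ∈ coboundaries₁ A := by
      have h3 : S.index • (c : G → A.V) =
          S.index • ((c : G → A.V) - (d₀₁ A).hom a) + S.index • (d₀₁ A).hom a := by
        rw [← smul_add, sub_add_cancel]
      rw [h3]
      exact (coboundaries₁ A).add_mem h1
        ((coboundaries₁ A).smul_of_tower_mem _ ⟨a, rfl⟩)
    rw [← map_nsmul, H1π_eq_zero_iff]
    exact h2

end H1

/-! ### the shifting isomorphisms and restriction -/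

section ShiftIso

variable (A : Rep k G) (S : Subgroup G)

/-- The dimension shifting sequence restricted to `S`. -/
noncomputable abbrev shiftSCRes : ShortComplex (Rep k S) :=
  (shiftSC A).map (Rep.resFunctor S.subtype)

lemma shiftSCRes_shortExact : (shiftSCRes A S).ShortExact :=
  (Rep.shortExact_res S.subtype).2 (shiftSC_shortExact A)

/-- The dimension shifting map `Hⁿ(G, A') ⟶ Hⁿ⁺¹(G, A)`. -/
noncomputable abbrev shiftδ (n : ℕ) :
    groupCohomology (shiftRep A) n ⟶ groupCohomology A (n + 1) :=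
  δ (shiftSC_shortExact A) n (n + 1) rfl

/-- The dimension shifting map `Hⁿ(S, A') ⟶ Hⁿ⁺¹(S, A)`. -/
noncomputable abbrev shiftδRes (n : ℕ) :
    groupCohomology (Rep.res S.subtype (shiftRep A)) n ⟶
      groupCohomology (Rep.res S.subtype A) (n + 1) :=
  δ (shiftSCRes_shortExact A S) n (n + 1) rfl

lemma isIso_shiftδ (n : ℕ) : IsIso (shiftδ A (n + 1)) :=
  isIso_δ_of_isZero (shiftSC_shortExact A) (n + 1) (isZero_funRep A.V n)
    (isZero_funRep A.V (n + 1))

lemma isIso_shiftδRes (n : ℕ) : IsIso (shiftδRes A S (n + 1)) :=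
  isIso_δ_of_isZero (shiftSCRes_shortExact A S) (n + 1) (isZero_res_funRep S A.V n)
    (isZero_res_funRep S A.V (n + 1))

lemma epi_shiftδ (n : ℕ) : Epi (shiftδ A n) :=
  epi_δ_of_isZero (shiftSC_shortExact A) n (isZero_funRep A.V n)

lemma epi_shiftδRes (n : ℕ) : Epi (shiftδRes A S n) :=
  epi_δ_of_isZero (shiftSCRes_shortExact A S) n (isZero_res_funRep S A.V n)

lemma shiftδ_surjective (n : ℕ) : Function.Surjective (shiftδ A n) :=
  (ModuleCat.epi_iff_surjective _).1 (epi_shiftδ A n)

lemma shiftδRes_surjective (n : ℕ) : Function.Surjective (shiftδRes A S n) :=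
  (ModuleCat.epi_iff_surjective _).1 (epi_shiftδRes A S n)

lemma shiftδ_injective (n : ℕ) : Function.Injective (shiftδ A (n + 1)) := by
  have := isIso_shiftδ A n
  exact (ModuleCat.mono_iff_injective _).1 inferInstance

lemma shiftδRes_injective (n : ℕ) : Function.Injective (shiftδRes A S (n + 1)) := by
  have := isIso_shiftδRes A S n
  exact (ModuleCat.mono_iff_injective _).1 inferInstance

/-- Dimension shifting commutes with restriction. -/
lemma shiftδ_comp_resMap (n : ℕ) :
    shiftδ A n ≫ resMap A S (n + 1) = resMap (shiftRep A) S n ≫ shiftδRes A S n :=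
  δ_naturality_map S.subtype (shiftSC_shortExact A) (shiftSCRes_shortExact A S)
    (𝟙 ((shiftSC A).map (Rep.resFunctor S.subtype))) n (n + 1) rfl

lemma shiftδ_resMap_apply (n : ℕ) (y : groupCohomology (shiftRep A) n) :
    resMap A S (n + 1) (shiftδ A n y) = shiftδRes A S n (resMap (shiftRep A) S n y) := by
  have h := shiftδ_comp_resMap A S n
  exact congrArg (fun f => f.hom y) h

/-- vanishing transfers along the shift: `Hⁿ⁺²(S, A) = 0 ↔ Hⁿ⁺¹(S, A') = 0`. -/
lemma isZero_res_shift_iff (n : ℕ) :
    IsZero (groupCohomology (Rep.res S.subtype (shiftRep A)) (n + 1)) ↔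
      IsZero (groupCohomology (Rep.res S.subtype A) (n + 2)) := by
  have := isIso_shiftδRes A S n
  exact (asIso (shiftδRes A S (n + 1))).isZero_iff

lemma isZero_shift_iff (n : ℕ) :
    IsZero (groupCohomology (shiftRep A) (n + 1)) ↔ IsZero (groupCohomology A (n + 2)) := by
  have := isIso_shiftδ A n
  exact (asIso (shiftδ A (n + 1))).isZero_iff

end ShiftIso

/-- **Restriction–corestriction in all positive degrees**: if `res_S x = 0` then
`[G : S] • x = 0`. -/
theorem index_nsmul_eq_zero (n : ℕ) : ∀ (A : Rep k G) (S : Subgroup G) [S.FiniteIndex]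
    (x : groupCohomology A (n + 1)), resMap A S (n + 1) x = 0 → S.index • x = 0 := by
  induction n with
  | zero =>
    intro A S _ x hx
    exact index_nsmul_eq_zero_H1 A S x hx
  | succ n ih =>
    intro A S _ x hx
    obtain ⟨y, rfl⟩ := shiftδ_surjective A (n + 1) x
    rw [shiftδ_resMap_apply] at hx
    have h1 : resMap (shiftRep A) S (n + 1) y = 0 :=
      shiftδRes_injective A S n (by rw [hx, map_zero])
    have h2 := ih (shiftRep A) S y h1
    rw [← map_nsmul, h2, map_zero]

/-- `Hⁿ⁺¹(G, A)` is killed by the order of the finite group `G`. -/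
theorem card_nsmul_eq_zero [Finite G] (A : Rep k G) (n : ℕ) (x : groupCohomology A (n + 1)) :
    Nat.card G • x = 0 := by
  have h1 : IsZero (groupCohomology (Rep.res (⊥ : Subgroup G).subtype A) (n + 1)) :=
    isZero_groupCohomology_succ_of_subsingleton _ n
  have h1' := ModuleCat.subsingleton_of_isZero h1
  have h2 := index_nsmul_eq_zero n A (⊥ : Subgroup G) x (Subsingleton.elim _ _)
  rwa [Subgroup.index_bot] at h2

/-- **Sylow criterion**: a class in `Hⁿ⁺¹(G, A)` (`G` finite) whose restrictions to all Sylow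
subgroups vanish is zero. -/
theorem eq_zero_of_forall_sylow [Finite G] (A : Rep k G) (n : ℕ)
    (x : groupCohomology A (n + 1))
    (h : ∀ (p : ℕ) [Fact p.Prime] (P : Sylow p G), resMap A (P : Subgroup G) (n + 1) x = 0) :
    x = 0 := by
  by_contra hx
  have h1 : addOrderOf x ≠ 1 := by
    rwa [Ne, AddMonoid.addOrderOf_eq_one_iff]
  obtain ⟨p, hp, hpx⟩ := Nat.exists_prime_and_dvd h1
  have : Fact p.Prime := ⟨hp⟩
  obtain ⟨P⟩ : Nonempty (Sylow p G) := inferInstance
  have h2 := index_nsmul_eq_zero n A (P : Subgroup G) x (h p P)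
  have h3 : addOrderOf x ∣ (P : Subgroup G).index := addOrderOf_dvd_of_nsmul_eq_zero h2
  exact P.not_dvd_index (hpx.trans h3)

end Fermat.Agent.S55.H783

end
-- ===== PACK-END S55/H783/ResCor.lean

-- ===== PACK-BEGIN S55/G/DescH773/Descent.lean
section
/-
S55 (Poitou–Tate), layer G, leaf G-DESC (helper773): Galois descent for the `S`-idèle class
group.  For a finite Galois extension `L/K` of number fields with group `G`
(`IsGaloisGroup G K L`), `S ≠ ∅`, and `L/K` unramified outside `S`:

  `cBase S K L : C_S(K) → C_S(L)` is injective with image `C_S(L)^G`.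

Ingredients: Hilbert 90, `(L ⊗ ℚ_S)^G = K ⊗ ℚ_S` (averaging), transitivity of `G` on the primes
above a prime of `K`.
-/


set_option autoImplicit false
set_option linter.unusedSectionVars false
set_option linter.style.haveILetI false

open scoped NumberField TensorProduct Pointwise
open IsDedekindDomain

noncomputable section

namespace Fermat.Agent.S55.G.DescH773

open Fermat.Agent.S55.G

/-! ## 1. Averaging over `G` -/

section Average

variable (S : Finset Nat.Primes) (G K L : Type) [Group G] [Finite G] [Field K] [CharZero K]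
  [Field L] [CharZero L] [Algebra K L] [MulSemiringAction G L] [IsGaloisGroup G K L]

/-- The averaging operator `x ↦ |G|⁻¹ ∑_g g x` on `L`. -/
def avgL : L →ₗ[ℚ] L :=
  letI := Fintype.ofFinite G
  (Nat.card G : ℚ)⁻¹ • ∑ g : G, (fieldAut G L g).toLinearMap

lemma avgL_apply [Fintype G] (x : L) :
    avgL G L x = (Nat.card G : ℚ)⁻¹ • ∑ g : G, g • x := by
  unfold avgL
  rw [LinearMap.smul_apply, LinearMap.sum_apply]
  congr 1
  refine Finset.sum_congr (by ext; simp) fun g _ => rfl

lemma card_ne_zero : (Nat.card G : ℚ) ≠ 0 := by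
  exact_mod_cast (Nat.card_pos (α := G)).ne'

lemma smul_avgL (g : G) (x : L) : g • avgL G L x = avgL G L x := by
  let _ := Fintype.ofFinite G
  rw [avgL_apply, smul_comm, Finset.smul_sum]
  congr 1
  simp only [smul_smul]
  exact Fintype.sum_bijective (fun h => g * h) (Group.mulLeft_bijective g) _ _ (fun _ => rfl)

lemma avgL_of_fixed (x : L) (hx : ∀ g : G, g • x = x) : avgL G L x = x := by
  let _ := Fintype.ofFinite G
  rw [avgL_apply]
  simp only [hx, Finset.sum_const, Finset.card_univ, ← Nat.card_eq_fintype_card]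
  rw [← Nat.cast_smul_eq_nsmul ℚ, smul_smul, inv_mul_cancel₀ (card_ne_zero G), one_smul]

lemma avgL_algebraMap (k : K) : avgL G L (algebraMap K L k) = algebraMap K L k := by
  have := IsGaloisGroup.commutes (G := G) (A := K) (B := L)
  exact avgL_of_fixed G L _ fun g => smul_algebraMap g k

lemma exists_algebraMap_eq_avgL (x : L) : ∃ k : K, algebraMap K L k = avgL G L x :=
  (IsGaloisGroup.isInvariant (G := G) (A := K) (B := L)).isInvariant _ (fun g => smul_avgL G L g x)

lemma exists_algebraMap_eq_of_fixed (x : L) (hx : ∀ g : G, g • x = x) :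
    ∃ k : K, algebraMap K L k = x :=
  (IsGaloisGroup.isInvariant (G := G) (A := K) (B := L)).isInvariant _ hx

/-- A `ℚ`-linear retraction `L → K` of the inclusion (the normalised trace). -/
def retrL : L →ₗ[ℚ] K :=
  (LinearEquiv.ofInjective (fieldBase K L).toLinearMap (algebraMap K L).injective).symm.toLinearMap ∘ₗ
    (avgL G L).codRestrict (LinearMap.range (fieldBase K L).toLinearMap) (fun x => by
      obtain ⟨k, hk⟩ := exists_algebraMap_eq_avgL G K L x
      exact ⟨k, hk⟩)

lemma algebraMap_retrL (x : L) : algebraMap K L (retrL G K L x) = avgL G L x := by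
  unfold retrL
  have := LinearEquiv.apply_symm_apply
    (LinearEquiv.ofInjective (fieldBase K L).toLinearMap (algebraMap K L).injective)
    ((avgL G L).codRestrict (LinearMap.range (fieldBase K L).toLinearMap) (fun x => by
      obtain ⟨k, hk⟩ := exists_algebraMap_eq_avgL G K L x
      exact ⟨k, hk⟩) x)
  exact congrArg Subtype.val this

lemma fieldBase_comp_retrL :
    (fieldBase K L).toLinearMap ∘ₗ retrL G K L = avgL G L :=
  LinearMap.ext fun x => algebraMap_retrL G K L x

lemma retrL_comp_fieldBase :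
    retrL G K L ∘ₗ (fieldBase K L).toLinearMap = LinearMap.id := by
  refine LinearMap.ext fun k => (algebraMap K L).injective ?_
  change algebraMap K L (retrL G K L (algebraMap K L k)) = algebraMap K L k
  rw [algebraMap_retrL, avgL_algebraMap]

end Average

/-! ## 2. Invariants of `L ⊗ ℚ_S` and of the `S`-idèles -/

section Tensor

variable (S : Finset Nat.Primes) (G K L : Type) [Group G] [Finite G] [Field K] [CharZero K]
  [Field L] [CharZero L] [Algebra K L] [MulSemiringAction G L] [IsGaloisGroup G K L]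

lemma asAut_toLinearMap (g : G) :
    (asAut S G L g).toLinearMap = LinearMap.rTensor (QS S) (fieldAut G L g).toLinearMap := by
  ext x y
  simp

lemma asBase_toLinearMap :
    (asBase S K L).toLinearMap = LinearMap.rTensor (QS S) (fieldBase K L).toLinearMap := by
  ext x y
  simp

lemma rTensor_avgL_of_fixed (t : AS S L) (ht : ∀ g : G, asAut S G L g t = t) :
    LinearMap.rTensor (QS S) (avgL G L) t = t := by
  letI := Fintype.ofFinite G
  have h1 : LinearMap.rTensor (QS S) (avgL G L) =
      (Nat.card G : ℚ)⁻¹ • ∑ g : G, (asAut S G L g).toLinearMap := by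
    refine TensorProduct.ext' fun x y => ?_
    rw [LinearMap.rTensor_tmul, avgL_apply, LinearMap.smul_apply, LinearMap.sum_apply,
      ← TensorProduct.smul_tmul', TensorProduct.sum_tmul]
    simp
  rw [h1, LinearMap.smul_apply, LinearMap.sum_apply]
  simp only [AlgEquiv.toLinearMap_apply, ht, Finset.sum_const, Finset.card_univ,
    ← Nat.card_eq_fintype_card]
  rw [← Nat.cast_smul_eq_nsmul ℚ, smul_smul, inv_mul_cancel₀ (card_ne_zero G), one_smul]

include G in
lemma asBase_injective : Function.Injective (asBase S K L) := by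
  have h : LinearMap.rTensor (QS S) (retrL G K L) ∘ₗ (asBase S K L).toLinearMap =
      LinearMap.id := by
    rw [asBase_toLinearMap, ← LinearMap.rTensor_comp, retrL_comp_fieldBase, LinearMap.rTensor_id]
  exact Function.LeftInverse.injective (g := LinearMap.rTensor (QS S) (retrL G K L))
    fun x => LinearMap.congr_fun h x

lemma exists_asBase_eq_of_fixed (t : AS S L) (ht : ∀ g : G, asAut S G L g t = t) :
    ∃ s : AS S K, asBase S K L s = t := by
  refine ⟨LinearMap.rTensor (QS S) (retrL G K L) t, ?_⟩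
  have h : (asBase S K L).toLinearMap ∘ₗ LinearMap.rTensor (QS S) (retrL G K L) =
      LinearMap.rTensor (QS S) (avgL G L) := by
    rw [asBase_toLinearMap, ← LinearMap.rTensor_comp, fieldBase_comp_retrL]
  exact (LinearMap.congr_fun h t).trans (rTensor_avgL_of_fixed S G L t ht)

lemma asAut_asBase (g : G) (s : AS S K) : asAut S G L g (asBase S K L s) = asBase S K L s := by
  have := IsGaloisGroup.commutes (G := G) (A := K) (B := L)
  induction s using TensorProduct.induction_on with
  | zero => simp
  | tmul a b => simp [smul_algebraMap]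
  | add a b ha hb => simp only [map_add, ha, hb]

/-- `(L ⊗ ℚ_S)^G = K ⊗ ℚ_S`. -/
lemma mem_range_asBase_iff (t : AS S L) :
    (∃ s : AS S K, asBase S K L s = t) ↔ ∀ g : G, asAut S G L g t = t :=
  ⟨by rintro ⟨s, rfl⟩ g; exact asAut_asBase S G K L g s, exists_asBase_eq_of_fixed S G K L t⟩

/-- `J_S(L)^G = J_S(K)`. -/
lemma exists_jBase_eq_of_fixed (u : Additive (AS S L)ˣ) (hu : ∀ g : G, jRepr G S L g u = u) :
    ∃ u' : Additive (AS S K)ˣ, jBase S K L u' = u := by
  have h1 : ∀ g : G, asAut S G L g ((u.toMul : (AS S L)ˣ) : AS S L) = (u.toMul : (AS S L)ˣ) := by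
    intro g
    rw [← coe_jRepr_apply, hu g]
  have h2 : ∀ g : G, asAut S G L g (((u.toMul)⁻¹ : (AS S L)ˣ) : AS S L) =
      ((u.toMul)⁻¹ : (AS S L)ˣ) := by
    intro g
    have := hu g
    have h3 : jRepr G S L g (-u) = -u := by rw [map_neg, hu g]
    have := coe_jRepr_apply G S L g (-u)
    rw [h3] at this
    exact this.symm
  obtain ⟨s, hs⟩ := exists_asBase_eq_of_fixed S G K L _ h1
  obtain ⟨s', hs'⟩ := exists_asBase_eq_of_fixed S G K L _ h2
  have hss' : s * s' = 1 := by
    apply asBase_injective S G K L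
    rw [map_mul, hs, hs', map_one, Units.mul_inv]
  refine ⟨Additive.ofMul (Units.mkOfMulEqOne s s' hss'), ?_⟩
  apply Additive.toMul.injective
  apply Units.ext
  rw [coe_jBase_apply]
  exact hs

lemma jRepr_jBase (g : G) (u : Additive (AS S K)ˣ) :
    jRepr G S L g (jBase S K L u) = jBase S K L u := by
  apply Additive.toMul.injective
  apply Units.ext
  rw [coe_jRepr_apply, coe_jBase_apply, asAut_asBase]

include G in
lemma jBase_injective : Function.Injective (jBase S K L) := by
  intro x y h
  apply Additive.toMul.injective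
  apply Units.ext
  apply asBase_injective S G K L
  have := congrArg (fun z : Additive (AS S L)ˣ => ((z.toMul : (AS S L)ˣ) : AS S L)) h
  simpa only [coe_jBase_apply] using this

end Tensor

/-! ## 3. Invariants of the divisors -/

section Div

variable (S : Finset Nat.Primes) (G K L : Type) [Group G] [Finite G] [Field K] [NumberField K]
  [Field L] [NumberField L] [Algebra K L] [MulSemiringAction G L] [IsGaloisGroup G K L]

variable {L} in
lemma primeUnder_primeSMul (g : G) (w : HeightOneSpectrum (𝓞 L)) :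
    primeUnder K (primeSMul G g w) = primeUnder K w := by
  apply HeightOneSpectrum.ext
  have := IsGaloisGroup.commutes (G := G) (A := 𝓞 K) (B := 𝓞 L)
  ext x
  rw [mem_primeUnder_iff, mem_primeUnder_iff, mem_primeSMul_iff, smul_algebraMap]

lemma primeOutUnder_primeOutMap (g : G) (w : PrimeOut S L) :
    primeOutUnder S K L (primeOutMap S G L g w) = primeOutUnder S K L w :=
  Subtype.ext (primeUnder_primeSMul G K g w.1)

variable {L} in
/-- `G` acts transitively on the primes of `L` above a prime of `K`. -/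
lemma exists_primeSMul_eq (w w' : HeightOneSpectrum (𝓞 L))
    (h : primeUnder K w = primeUnder K w') : ∃ g : G, primeSMul G g w = w' := by
  haveI : w'.asIdeal.LiesOver (primeUnder K w).asIdeal := by rw [h]; infer_instance
  obtain ⟨g, hg⟩ := Ideal.exists_smul_eq_of_isGaloisGroup (primeUnder K w).asIdeal
    w.asIdeal w'.asIdeal G
  exact ⟨g, HeightOneSpectrum.ext hg⟩

lemma exists_primeOutMap_eq (w w' : PrimeOut S L)
    (h : primeOutUnder S K L w = primeOutUnder S K L w') :
    ∃ g : G, primeOutMap S G L g w = w' := by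
  obtain ⟨g, hg⟩ := exists_primeSMul_eq G K w.1 w'.1 (congrArg Subtype.val h)
  exact ⟨g, Subtype.ext hg⟩

lemma apply_primeOutMap_of_fixed (d : PrimeOut S L →₀ ℤ) (hd : ∀ g : G, divRepr S G L g d = d)
    (g : G) (w : PrimeOut S L) : d (primeOutMap S G L g w) = d w := by
  conv_lhs => rw [← hd g]
  exact divRepr_apply_apply S G L g d w

lemma apply_eq_of_fixed (d : PrimeOut S L →₀ ℤ) (hd : ∀ g : G, divRepr S G L g d = d)
    (w w' : PrimeOut S L) (h : primeOutUnder S K L w = primeOutUnder S K L w') : d w = d w' := by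
  obtain ⟨g, rfl⟩ := exists_primeOutMap_eq S G K L w w' h
  exact (apply_primeOutMap_of_fixed S G L d hd g w).symm

/-- `Div^S(L)^G = Div^S(K)` when `L/K` is unramified outside `S`. -/
lemma exists_divBase_eq_of_fixed (hur : ∀ w : PrimeOut S L, eAt K w.1 = 1)
    (d : PrimeOut S L →₀ ℤ) (hd : ∀ g : G, divRepr S G L g d = d) :
    ∃ d' : PrimeOut S K →₀ ℤ, divBase S K L d' = d := by
  classical
  let sec : PrimeOut S K → PrimeOut S L := Function.surjInv (primeOutUnder_surjective S K L)
  have hsec : ∀ v, primeOutUnder S K L (sec v) = v :=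
    Function.surjInv_eq (primeOutUnder_surjective S K L)
  refine ⟨Finsupp.onFinset (d.support.image (primeOutUnder S K L)) (fun v => d (sec v)) ?_, ?_⟩
  · intro v hv
    rw [Finset.mem_image]
    exact ⟨sec v, Finsupp.mem_support_iff.2 hv, hsec v⟩
  · ext w
    rw [divBase_apply, hur w, Finsupp.onFinset_apply, Nat.cast_one, one_mul]
    exact apply_eq_of_fixed S G K L d hd _ _ (hsec _)

variable {L} in
lemma eAt_primeSMul (g : G) (w : HeightOneSpectrum (𝓞 L)) :
    eAt K (primeSMul G g w) = eAt K w := by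
  -- both are characterised by `ord_w(x) = e · ord_v(x)` for `x ∈ Kˣ`
  obtain ⟨π, hπ⟩ := (primeUnder K w).valuation_exists_uniformizer K
  have hπ0 : π ≠ 0 := by
    rintro rfl
    rw [map_zero] at hπ
    exact WithZero.exp_ne_zero hπ.symm
  have := IsGaloisGroup.commutes (G := G) (A := K) (B := L)
  let x : Additive Kˣ := Additive.ofMul (Units.mk0 π hπ0)
  have hx : lRepr G L g (lBase K L x) = lBase K L x := by
    apply Additive.toMul.injective
    apply Units.ext
    rw [coe_lRepr_apply, coe_lBase_apply, smul_algebraMap]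
  have h1 := ordAt_primeSMul G g w (lBase K L x)
  rw [hx, ordAt_lBase, ordAt_lBase, primeUnder_primeSMul] at h1
  have h2 : ordAt (primeUnder K w) x ≠ 0 := by
    rw [ordAt_apply]
    change -WithZero.log ((primeUnder K w).valuation K π) ≠ 0
    rw [hπ]
    simp
  exact_mod_cast mul_right_cancel₀ h2 h1

lemma divRepr_divBase (g : G) (d : PrimeOut S K →₀ ℤ) :
    divRepr S G L g (divBase S K L d) = divBase S K L d := by
  ext w
  have hw : w = primeOutMap S G L g (primeOutMap S G L g⁻¹ w) := by
    rw [← primeOutMap_mul, mul_inv_cancel, primeOutMap_one]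
  conv_lhs => rw [hw]
  rw [divRepr_apply_apply, divBase_apply, divBase_apply, primeOutUnder_primeOutMap,
    primeOutMap_val, eAt_primeSMul]

end Div

/-! ## 4. Hilbert 90 and injectivity of the diagonal -/

section Hilbert90

variable (G K L : Type) [Group G] [Finite G] [Field K] [Field L] [Algebra K L]
  [MulSemiringAction G L] [IsGaloisGroup G K L]

include K in
/-- Hilbert 90 for `Lˣ` in the additive notation of `lRepr`: every `1`-cocycle
`x (g h) = x g + g • x h` is a coboundary `x g = g • β - β`. -/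
lemma hilbert90 (x : G → Additive Lˣ)
    (hx : ∀ g h : G, x (g * h) = x g + lRepr G L g (x h)) :
    ∃ β : Additive Lˣ, ∀ g : G, x g = lRepr G L g β - β := by
  haveI : FiniteDimensional K L := IsGaloisGroup.finiteDimensional G K L
  let e : G ≃* Gal(L/K) := IsGaloisGroup.mulEquivAlgEquiv G K L
  have he : ∀ (g : G) (y : L), e g y = g • y := fun g y => rfl
  let f : Gal(L/K) → Lˣ := fun σ => (x (e.symm σ)).toMul
  have hf : groupCohomology.IsMulCocycle₁ f := by
    intro σ τ
    change (x (e.symm (σ * τ))).toMul = σ • (x (e.symm τ)).toMul * (x (e.symm σ)).toMul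
    rw [map_mul, hx, mul_comm]
    apply Units.ext
    change _ = ((x (e.symm σ)).toMul : L) * σ ((x (e.symm τ)).toMul : L)
    rw [toMul_add, Units.val_mul, coe_lRepr_apply, ← he, MulEquiv.apply_symm_apply]
  obtain ⟨β, hβ⟩ := groupCohomology.isMulCoboundary₁_of_isMulCocycle₁_of_aut_to_units f hf
  refine ⟨Additive.ofMul β, fun g => ?_⟩
  have h := hβ (e g)
  simp only [f, MulEquiv.symm_apply_apply] at h
  apply Additive.toMul.injective
  rw [← h]
  apply Units.ext
  rw [toMul_sub, div_eq_mul_inv, div_eq_mul_inv]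
  rfl

end Hilbert90

section DiagInj

variable (S : Finset Nat.Primes) (L : Type) [Field L] [CharZero L]

lemma nontrivial_QS (hS : S.Nonempty) : Nontrivial (QS S) := by
  obtain ⟨q, hq⟩ := hS
  haveI : Nonempty S := ⟨⟨q, hq⟩⟩
  exact inferInstanceAs (Nontrivial (∀ q : S, Qq q.1))

lemma asDiag_injective (hS : S.Nonempty) : Function.Injective (asDiag S L) := by
  haveI := nontrivial_QS S hS
  exact Algebra.TensorProduct.includeLeft_injective (algebraMap ℚ (QS S)).injective

lemma unitsDiag_injective (hS : S.Nonempty) : Function.Injective (unitsDiag S L) := by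
  intro x y h
  apply Additive.toMul.injective
  apply Units.ext
  apply asDiag_injective S L hS
  have := congrArg (fun z : Additive (AS S L)ˣ => ((z.toMul : (AS S L)ˣ) : AS S L)) h
  simpa only [coe_unitsDiag_apply] using this

end DiagInj

/-! ## 5. Galois descent for `C_S` -/

section Main

variable (S : Finset Nat.Primes) (G K L : Type) [Group G] [Finite G] [Field K] [NumberField K]
  [Field L] [NumberField L] [Algebra K L] [MulSemiringAction G L] [IsGaloisGroup G K L]

lemma diagHom_injective (hS : S.Nonempty) : Function.Injective (diagHom S L) := fun _ _ h =>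
  unitsDiag_injective S L hS (congrArg Prod.fst h)

lemma jdRepr_jdBase (g : G) (y : JD S K) :
    jdRepr S G L g (jdBase S K L y) = jdBase S K L y := by
  rw [jdRepr_apply]
  exact Prod.ext (jRepr_jBase S G K L g y.1) (divRepr_divBase S G K L g y.2)

include G in
lemma jdBase_injective : Function.Injective (jdBase S K L) := fun _ _ h =>
  Prod.ext (jBase_injective S G K L (congrArg Prod.fst h))
    (divBase_injective S K L (congrArg Prod.snd h))

lemma exists_jdBase_eq_of_fixed (hur : ∀ w : PrimeOut S L, eAt K w.1 = 1) (y : JD S L)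
    (hy : ∀ g : G, jdRepr S G L g y = y) : ∃ y' : JD S K, jdBase S K L y' = y := by
  obtain ⟨u, hu⟩ := exists_jBase_eq_of_fixed S G K L y.1 (fun g => congrArg Prod.fst (hy g))
  obtain ⟨d, hd⟩ := exists_divBase_eq_of_fixed S G K L hur y.2
    (fun g => congrArg Prod.snd (hy g))
  exact ⟨(u, d), Prod.ext hu hd⟩

lemma exists_lBase_eq_of_fixed (x : Additive Lˣ) (hx : ∀ g : G, lRepr G L g x = x) :
    ∃ x' : Additive Kˣ, lBase K L x' = x := by
  obtain ⟨k, hk⟩ := exists_algebraMap_eq_of_fixed G K L ((x.toMul : Lˣ) : L) (fun g => by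
    rw [← coe_lRepr_apply, hx g])
  have hk0 : k ≠ 0 := by
    rintro rfl
    rw [map_zero] at hk
    exact (x.toMul : Lˣ).ne_zero hk.symm
  refine ⟨Additive.ofMul (Units.mk0 k hk0), ?_⟩
  apply Additive.toMul.injective
  apply Units.ext
  rw [coe_lBase_apply]
  exact hk

/-- The image of `C_S(K)` in `C_S(L)` consists of `G`-invariant classes. -/
theorem cRepr_cBase (g : G) (c : CS S K) : cRepr S G L g (cBase S K L c) = cBase S K L c := by
  obtain ⟨y, rfl⟩ := Submodule.Quotient.mk_surjective _ c
  rw [cBase_mk, cRepr_mk, jdRepr_jdBase]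

include G in
/-- **Galois descent, injectivity**: `C_S(K) → C_S(L)` is injective (`S ≠ ∅`). -/
theorem cBase_injective (hS : S.Nonempty) : Function.Injective (cBase S K L) := by
  rw [injective_iff_map_eq_zero]
  intro c hc
  obtain ⟨y, rfl⟩ := Submodule.Quotient.mk_surjective _ c
  rw [cBase_mk, Submodule.Quotient.mk_eq_zero] at hc
  obtain ⟨x, hx⟩ := hc
  change diagHom S L x = jdBase S K L y at hx
  have hfix : ∀ g : G, lRepr G L g x = x := by
    intro g
    apply diagHom_injective S L hS
    rw [diagHom_equivariant, hx, jdRepr_jdBase]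
  obtain ⟨x', rfl⟩ := exists_lBase_eq_of_fixed G K L x hfix
  rw [← jdBase_diagHom] at hx
  have := jdBase_injective S G K L hx
  rw [Submodule.Quotient.mk_eq_zero]
  exact ⟨x', this⟩

/-- **Galois descent, surjectivity**: every `G`-invariant class of `C_S(L)` comes from `C_S(K)`
(`S ≠ ∅`, `L/K` unramified outside `S`). -/
theorem exists_cBase_eq_of_fixed (hS : S.Nonempty) (hur : ∀ w : PrimeOut S L, eAt K w.1 = 1)
    (c : CS S L) (hc : ∀ g : G, cRepr S G L g c = c) : ∃ c' : CS S K, cBase S K L c' = c := by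
  obtain ⟨y, rfl⟩ := Submodule.Quotient.mk_surjective _ c
  have h1 : ∀ g : G, ∃ x : Additive Lˣ, diagHom S L x = jdRepr S G L g y - y := by
    intro g
    have := hc g
    rw [cRepr_mk, Submodule.Quotient.eq] at this
    exact this
  choose x hx using h1
  have hcoc : ∀ g h : G, x (g * h) = x g + lRepr G L g (x h) := by
    intro g h
    apply diagHom_injective S L hS
    rw [map_add, diagHom_equivariant, hx, hx, hx, map_sub, map_mul]
    change jdRepr S G L g (jdRepr S G L h y) - y = _
    abel
  obtain ⟨β, hβ⟩ := hilbert90 G K L x hcoc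
  have hfix : ∀ g : G, jdRepr S G L g (y - diagHom S L β) = y - diagHom S L β := by
    intro g
    have h2 := hx g
    rw [hβ g, map_sub, diagHom_equivariant] at h2
    rw [map_sub]
    rw [sub_eq_sub_iff_add_eq_add] at h2 ⊢
    rw [← h2]
    abel
  obtain ⟨y', hy'⟩ := exists_jdBase_eq_of_fixed S G K L hur _ hfix
  refine ⟨Submodule.Quotient.mk y', ?_⟩
  rw [cBase_mk, hy', Submodule.Quotient.eq]
  refine ⟨-β, ?_⟩
  change diagHom S L (-β) = _
  rw [map_neg]
  abel

/-- **Galois descent** for the `S`-idèle class group: the image of `C_S(K) → C_S(L)` is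
exactly `C_S(L)^G`. -/
theorem mem_range_cBase_iff (hS : S.Nonempty) (hur : ∀ w : PrimeOut S L, eAt K w.1 = 1)
    (c : CS S L) : c ∈ (cBase S K L).range ↔ ∀ g : G, cRepr S G L g c = c :=
  ⟨by rintro ⟨c', rfl⟩ g; exact cRepr_cBase S G K L g c',
    exists_cBase_eq_of_fixed S G K L hS hur c⟩

/-- **Galois descent** as an isomorphism `C_S(K) ≃ C_S(L)^G`. -/
def descEquiv (hS : S.Nonempty) (hur : ∀ w : PrimeOut S L, eAt K w.1 = 1) :
    CS S K ≃ₗ[ℤ] (cRepr S G L).invariants :=
  LinearEquiv.ofBijective
    ((cBaseₗ S K L).codRestrict (cRepr S G L).invariants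
      (fun c g => cRepr_cBase S G K L g c))
    ⟨fun a b h => cBase_injective S G K L hS (congrArg Subtype.val h),
      fun c => by
        obtain ⟨c', hc'⟩ := exists_cBase_eq_of_fixed S G K L hS hur c.1 c.2
        exact ⟨c', Subtype.ext hc'⟩⟩

@[simp] lemma descEquiv_apply (hS : S.Nonempty) (hur : ∀ w : PrimeOut S L, eAt K w.1 = 1)
    (c : CS S K) : ((descEquiv S G K L hS hur c : (cRepr S G L).invariants) : CS S L) =
      cBase S K L c := rfl

end Main

end Fermat.Agent.S55.G.DescH773

end
end
-- ===== PACK-END S55/G/DescH773/Descent.lean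

-- ===== PACK-BEGIN S14/H74/Support.lean
section


/-!
# S14/N1 (helper74): the support of `rho` (piece P5a)

On the support of `rho` all the `normAtPlace w x` are comparable with `‖x‖`.
-/

namespace Fermat.Agent.S14.H74

open NumberField NumberField.mixedEmbedding NumberField.Units
  NumberField.Units.dirichletUnitTheorem NumberField.InfinitePlace Module

open scoped Classical

variable {K : Type*} [Field K] [NumberField K]

theorem normAtPlace_le_norm (w : InfinitePlace K) (x : mixedSpace K) :
    normAtPlace w x ≤ ‖x‖ := by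
  classical
  rw [norm_eq_sup'_normAtPlace]
  exact Finset.le_sup' (fun w ↦ normAtPlace w x) (Finset.mem_univ w)

theorem exists_norm_eq_normAtPlace (x : mixedSpace K) : ∃ w, ‖x‖ = normAtPlace w x := by
  classical
  obtain ⟨w, -, hw⟩ := Finset.exists_mem_eq_sup' Finset.univ_nonempty
    (fun w : InfinitePlace K ↦ normAtPlace w x)
  exact ⟨w, by rw [norm_eq_sup'_normAtPlace, hw]⟩

theorem log_norm_eq_sum {x : mixedSpace K} (hx : mixedEmbedding.norm x ≠ 0) :
    Real.log (mixedEmbedding.norm x) = ∑ w, (mult w : ℝ) * Real.log (normAtPlace w x) := by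
  rw [mixedEmbedding.norm_apply, Real.log_prod]
  · exact Finset.sum_congr rfl fun w _ ↦ by rw [Real.log_pow]
  · intro w _
    exact pow_ne_zero _ (mixedEmbedding.norm_ne_zero_iff.mp hx w)

theorem norm_ne_zero_of_rho_ne_zero {x : mixedSpace K} (h : rho K x ≠ 0) :
    mixedEmbedding.norm x ≠ 0 := by
  intro h0
  exact h (by simp [rho, h0])

theorem rho_eq_prod {x : mixedSpace K} (hx : mixedEmbedding.norm x ≠ 0) :
    rho K x = ∏ j, tent (logCoord K x j) := by
  simp [rho, hx]

theorem rho_nonneg (x : mixedSpace K) : 0 ≤ rho K x := by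
  unfold rho
  split_ifs
  · exact le_rfl
  · exact Finset.prod_nonneg fun j _ ↦ tent_nonneg _

theorem rho_le_one (x : mixedSpace K) : rho K x ≤ 1 := by
  unfold rho
  split_ifs
  · exact zero_le_one
  · exact Finset.prod_le_one (fun j _ ↦ tent_nonneg _) fun j _ ↦ tent_le_one _

theorem abs_logCoord_lt_one_of_rho_ne_zero {x : mixedSpace K} (h : rho K x ≠ 0)
    (j : Fin (rank K)) : |logCoord K x j| < 1 := by
  have hx := norm_ne_zero_of_rho_ne_zero h
  rw [rho_eq_prod hx] at h
  exact abs_lt_one_of_tent_ne_zero fun h0 ↦ h (Finset.prod_eq_zero (Finset.mem_univ j) h0)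

theorem logMap_eq_sum_logCoord (x : mixedSpace K) :
    logMap x = ∑ j, logCoord K x j • ((basisUnitLattice K).ofZLatticeBasis ℝ (unitLattice K)) j :=
  (((basisUnitLattice K).ofZLatticeBasis ℝ (unitLattice K)).sum_repr (logMap x)).symm

/-- A bound for `logMap` on the support of `rho`. -/
theorem exists_logMap_bound : ∃ B : ℝ, 0 ≤ B ∧ ∀ x : mixedSpace K, rho K x ≠ 0 →
    ‖logMap x‖ ≤ B := by
  refine ⟨∑ j, ‖((basisUnitLattice K).ofZLatticeBasis ℝ (unitLattice K)) j‖,
    Finset.sum_nonneg fun j _ ↦ norm_nonneg _, fun x hx ↦ ?_⟩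
  rw [logMap_eq_sum_logCoord x]
  refine (norm_sum_le _ _).trans (Finset.sum_le_sum fun j _ ↦ ?_)
  rw [_root_.norm_smul, Real.norm_eq_abs]
  exact mul_le_of_le_one_left (norm_nonneg _) (abs_logCoord_lt_one_of_rho_ne_zero hx j).le

theorem sum_mult_mul_log_sub {x : mixedSpace K} (hx : mixedEmbedding.norm x ≠ 0) :
    ∑ w : InfinitePlace K, (mult w : ℝ) * (Real.log (normAtPlace w x) -
      Real.log (mixedEmbedding.norm x) * (finrank ℚ K : ℝ)⁻¹) = 0 := by
  have h1 : (∑ w : InfinitePlace K, (mult w : ℝ)) = (finrank ℚ K : ℝ) := by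
    rw [← Nat.cast_sum, sum_mult_eq]
  have h2 : (finrank ℚ K : ℝ) ≠ 0 := Nat.cast_ne_zero.mpr finrank_pos.ne'
  simp_rw [mul_sub]
  rw [Finset.sum_sub_distrib, ← log_norm_eq_sum hx, ← Finset.sum_mul, h1]
  field_simp
  ring

/-- On the support of `rho`, all `log (normAtPlace w x)` are within a bounded distance of
`log (norm x) / n`. -/
theorem exists_log_normAtPlace_bound : ∃ B : ℝ, 0 ≤ B ∧ ∀ x : mixedSpace K, rho K x ≠ 0 →
    ∀ w, |Real.log (normAtPlace w x) -
      Real.log (mixedEmbedding.norm x) * (finrank ℚ K : ℝ)⁻¹| ≤ B := by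
  obtain ⟨B, hB0, hB⟩ := exists_logMap_bound (K := K)
  refine ⟨(Fintype.card (InfinitePlace K) + 1) * B, by positivity, fun x hx w ↦ ?_⟩
  have hN := norm_ne_zero_of_rho_ne_zero hx
  set d : InfinitePlace K → ℝ := fun w ↦ Real.log (normAtPlace w x) -
      Real.log (mixedEmbedding.norm x) * (finrank ℚ K : ℝ)⁻¹ with hd
  have hne : ∀ w : InfinitePlace K, w ≠ w₀ → |(mult w : ℝ) * d w| ≤ B := by
    intro w hw
    have h1 : logMap x ⟨w, hw⟩ = (mult w : ℝ) * d w := by simp [hd]
    rw [← h1]
    exact (norm_le_pi_norm (logMap x) ⟨w, hw⟩).trans (hB x hx)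
  have hall : ∀ w : InfinitePlace K, |(mult w : ℝ) * d w| ≤ Fintype.card (InfinitePlace K) * B := by
    intro w
    by_cases hw : w = w₀
    · have hsum := sum_mult_mul_log_sub hN
      rw [← Finset.add_sum_erase Finset.univ _ (Finset.mem_univ w)] at hsum
      have h2 : (mult w : ℝ) * d w = - ∑ v ∈ Finset.univ.erase w, (mult v : ℝ) * d v := by
        linarith
      rw [h2, abs_neg]
      refine (Finset.abs_sum_le_sum_abs _ _).trans ?_
      calc ∑ v ∈ Finset.univ.erase w, |(mult v : ℝ) * d v|
          ≤ ∑ v ∈ Finset.univ.erase w, B := by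
            refine Finset.sum_le_sum fun v hv ↦ hne v ?_
            rw [← hw]
            exact Finset.ne_of_mem_erase hv
        _ = (Finset.univ.erase w).card * B := by rw [Finset.sum_const, nsmul_eq_mul]
        _ ≤ Fintype.card (InfinitePlace K) * B := by
            gcongr
            exact Finset.card_le_univ _
    · refine (hne w hw).trans ?_
      have : (1 : ℝ) ≤ Fintype.card (InfinitePlace K) := by
        exact_mod_cast Fintype.card_pos
      nlinarith
  have h1 : |d w| ≤ |(mult w : ℝ) * d w| := by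
    rw [abs_mul, abs_of_nonneg (by positivity : (0 : ℝ) ≤ mult w)]
    exact le_mul_of_one_le_left (abs_nonneg _) one_le_mult
  refine h1.trans ((hall w).trans ?_)
  nlinarith

/-- On the support of `rho`, all `normAtPlace w x` are comparable with `‖x‖`. -/
theorem exists_support_bound : ∃ A : ℝ, 1 ≤ A ∧ ∀ x : mixedSpace K, rho K x ≠ 0 →
    ∀ w, ‖x‖ ≤ A * normAtPlace w x := by
  obtain ⟨B, hB0, hB⟩ := exists_log_normAtPlace_bound (K := K)
  refine ⟨Real.exp (2 * B), Real.one_le_exp (by positivity), fun x hx w ↦ ?_⟩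
  have hN := norm_ne_zero_of_rho_ne_zero hx
  have hpos : ∀ v, 0 < normAtPlace v x := fun v ↦
    lt_of_le_of_ne (normAtPlace_nonneg v x) (mixedEmbedding.norm_ne_zero_iff.mp hN v).symm
  obtain ⟨v, hv⟩ := exists_norm_eq_normAtPlace x
  rw [hv]
  have h1 := abs_le.mp (hB x hx v)
  have h2 := abs_le.mp (hB x hx w)
  have h3 : Real.log (normAtPlace v x) ≤ 2 * B + Real.log (normAtPlace w x) := by linarith
  calc normAtPlace v x = Real.exp (Real.log (normAtPlace v x)) := (Real.exp_log (hpos v)).symm
    _ ≤ Real.exp (2 * B + Real.log (normAtPlace w x)) := Real.exp_le_exp.mpr h3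
    _ = Real.exp (2 * B) * normAtPlace w x := by rw [Real.exp_add, Real.exp_log (hpos w)]

end Fermat.Agent.S14.H74

end
-- ===== PACK-END S14/H74/Support.lean

-- ===== PACK-BEGIN S14/H163/ZetaBounds.lean
section




/-!
# S14 density: piece (Z) `ZetaBounds` of helper34's interface (helper163)
-/

set_option autoImplicit false
set_option linter.unusedSectionVars false

namespace Fermat.Agent.S14.H163

open NumberField IsDedekindDomain Filter Topology
open scoped nonZeroDivisors

variable (K : Type*) [Field K] [NumberField K]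

theorem zetaI_eq_zetaR (s : ℝ) : H34.zetaI K s = zetaR K s := rfl

theorem primeNZ_eq_toI0 (v : HeightOneSpectrum (𝓞 K)) : H34.primeNZ v = toI0 v := rfl

theorem pN_eq (s : ℝ) (v : HeightOneSpectrum (𝓞 K)) : H34.pN s v = normPow s (toI0 v) := rfl

/-- Piece (Z): two-sided bound for the zeta function near `1`. -/
theorem zetaBounds : H34.ZetaBounds K := by
  have h := tendsto_sub_one_mul_zetaR K
  have hκ := dedekindZeta_residue_pos K
  set κ := dedekindZeta_residue K with hκdef
  have hev : ∀ᶠ s in 𝓝[>] (1 : ℝ), (s - 1) * zetaR K s ∈ Set.Ioo (κ / 2) (2 * κ) :=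
    h.eventually (Ioo_mem_nhds (by linarith) (by linarith))
  rw [eventually_nhdsWithin_iff, Metric.eventually_nhds_iff] at hev
  obtain ⟨δ, hδ, hδ'⟩ := hev
  refine ⟨κ / 2, 2 * κ, δ, by linarith, hδ, fun s hs1 hs2 => ?_⟩
  have hmem := hδ' (y := s) (by rw [Real.dist_eq, abs_lt]; constructor <;> linarith)
    (Set.mem_Ioi.mpr hs1)
  have hpos : 0 < s - 1 := by linarith
  rw [zetaI_eq_zetaR]
  constructor
  · rw [div_le_iff₀ hpos]
    linarith [hmem.1]
  · rw [le_div_iff₀ hpos]
    linarith [hmem.2]

end Fermat.Agent.S14.H163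

end
-- ===== PACK-END S14/H163/ZetaBounds.lean

-- ===== PACK-BEGIN S55/L/Inv481/Pair.lean
section


/-!
# S55 / layer L / leaf L-C2 (helper481): compatible pairs and pull-backs on `H²(Gal(L/K), Lˣ)`

A *Galois pair morphism* `(K, L) → (K', L')` is a ring homomorphism `ι : L →+* L'` together with a
group homomorphism `f : Gal(L'/K') →* Gal(L/K)` such that `ι (f g x) = g (ι x)`.  It induces
`pull : H²(Gal(L/K), Lˣ) →+ H²(Gal(L'/K'), L'ˣ)`.  Inflation, restriction and transport are
special cases.
-/

set_option autoImplicit false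

namespace Fermat.Agent.S55.L.Inv481

open groupCohomology CategoryTheory

/-- A morphism of Galois pairs `(K, L) → (K', L')`. -/
structure GalPair (K L K' L' : Type) [Field K] [Field L] [Algebra K L] [Field K'] [Field L']
    [Algebra K' L'] where
  /-- the ring homomorphism on the top fields -/
  ι : L →+* L'
  /-- the group homomorphism on the Galois groups -/
  f : (L' ≃ₐ[K'] L') →* (L ≃ₐ[K] L)
  /-- compatibility -/
  comm : ∀ (g : L' ≃ₐ[K'] L') (x : L), ι (f g x) = g (ι x)

variable {K L K' L' : Type} [Field K] [Field L] [Algebra K L] [Field K'] [Field L']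
  [Algebra K' L']

namespace GalPair

/-- A pair is determined by its ring homomorphism. -/
theorem f_eq_of_ι_eq {P Q : GalPair K L K' L'} (h : P.ι = Q.ι) : P.f = Q.f := by
  ext g x
  apply P.ι.injective
  rw [P.comm, h, Q.comm]

@[ext]
theorem ext' {P Q : GalPair K L K' L'} (h : P.ι = Q.ι) : P = Q := by
  have hf := f_eq_of_ι_eq h
  cases P; cases Q
  simp only at h hf
  subst h; subst hf
  rfl

/-- The map on units, additively. -/
noncomputable def unitsMap (P : GalPair K L K' L') : Additive Lˣ →+ Additive L'ˣ :=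
  MonoidHom.toAdditive (Units.map (P.ι : L →* L'))

@[simp] theorem unitsMap_apply (P : GalPair K L K' L') (x : Additive Lˣ) :
    P.unitsMap x = Additive.ofMul (Units.map (P.ι : L →* L') (Additive.toMul x)) := rfl

/-- The morphism of representations induced by a pair. -/
noncomputable def repHom (P : GalPair K L K' L') :
    Rep.res P.f (unitsRep K L) ⟶ unitsRep K' L' :=
  Rep.ofHom
    (LinearMap.intertwiningMap_of_isIntertwiningMap _ _ P.unitsMap.toIntLinearMap (by
        intro g v
        apply Additive.toMul.injective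
        apply Units.ext
        exact P.comm g _))

/-- The pull-back on `H²`. -/
noncomputable def pull (P : GalPair K L K' L') :
    H2 (unitsRep K L) →+ H2 (unitsRep K' L') :=
  (groupCohomology.map P.f P.repHom 2).hom.toAddMonoidHom

/-- `f'` is the pull-back of the cocycle `f` along `P`. -/
def IsPull (P : GalPair K L K' L') (c : cocycles₂ (unitsRep K L))
    (c' : cocycles₂ (unitsRep K' L')) : Prop :=
  ∀ g h : L' ≃ₐ[K'] L',
    (c' : (L' ≃ₐ[K'] L') × (L' ≃ₐ[K'] L') → unitsRep K' L') (g, h) =
      Additive.ofMul (Units.map (P.ι : L →* L')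
        (Additive.toMul ((c : (L ≃ₐ[K] L) × (L ≃ₐ[K] L) → unitsRep K L) (P.f g, P.f h))))

/-- The pull-back of a cocycle. -/
noncomputable def pullCocycle (P : GalPair K L K' L') (c : cocycles₂ (unitsRep K L)) :
    cocycles₂ (unitsRep K' L') :=
  (mapCocycles₂ P.f P.repHom).hom c

theorem isPull_pullCocycle (P : GalPair K L K' L') (c : cocycles₂ (unitsRep K L)) :
    P.IsPull c (P.pullCocycle c) := by
  intro g h
  rfl

theorem pull_cls (P : GalPair K L K' L') (c : cocycles₂ (unitsRep K L)) :
    P.pull (cls c) = cls (P.pullCocycle c) := by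
  have := H2π_comp_map_apply P.f P.repHom c
  exact this

theorem IsPull.eq_pullCocycle {P : GalPair K L K' L'} {c : cocycles₂ (unitsRep K L)}
    {c' : cocycles₂ (unitsRep K' L')} (h : P.IsPull c c') : c' = P.pullCocycle c := by
  apply cocycles₂_ext
  intro g k
  rw [h g k]
  rfl

theorem IsPull.pull_cls {P : GalPair K L K' L'} {c : cocycles₂ (unitsRep K L)}
    {c' : cocycles₂ (unitsRep K' L')} (h : P.IsPull c c') : P.pull (cls c) = cls c' := by
  rw [h.eq_pullCocycle, GalPair.pull_cls]

end GalPair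

end Fermat.Agent.S55.L.Inv481

namespace Fermat.Agent.S55.L.Inv481

open groupCohomology CategoryTheory

section Comp

variable {K L K' L' K'' L'' : Type} [Field K] [Field L] [Algebra K L] [Field K'] [Field L']
  [Algebra K' L'] [Field K''] [Field L''] [Algebra K'' L'']

/-- every class is the class of a cocycle -/
theorem exists_cls_eq (x : H2 (unitsRep K L)) : ∃ c : cocycles₂ (unitsRep K L), cls c = x := by
  induction x using H2_induction_on with | @h c =>
  exact ⟨c, rfl⟩

/-- Composition of pairs. -/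
def GalPair.comp (P : GalPair K L K' L') (Q : GalPair K' L' K'' L'') : GalPair K L K'' L'' where
  ι := Q.ι.comp P.ι
  f := P.f.comp Q.f
  comm g x := by
    simp only [RingHom.comp_apply, MonoidHom.comp_apply]
    rw [P.comm, Q.comm]

@[simp] theorem GalPair.comp_ι (P : GalPair K L K' L') (Q : GalPair K' L' K'' L'') :
    (P.comp Q).ι = Q.ι.comp P.ι := rfl

@[simp] theorem GalPair.comp_f (P : GalPair K L K' L') (Q : GalPair K' L' K'' L'') :
    (P.comp Q).f = P.f.comp Q.f := rfl

theorem GalPair.pull_comp (P : GalPair K L K' L') (Q : GalPair K' L' K'' L'')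
    (x : H2 (unitsRep K L)) : (P.comp Q).pull x = Q.pull (P.pull x) := by
  obtain ⟨c, rfl⟩ := exists_cls_eq x
  rw [GalPair.pull_cls, GalPair.pull_cls, GalPair.pull_cls]
  congr 1

/-- if two pairs have the same ring homomorphism, they have the same pull-back -/
theorem GalPair.pull_congr {P Q : GalPair K L K' L'} (h : P.ι = Q.ι) : P.pull = Q.pull := by
  rw [GalPair.ext' h]

/-- The identity pair. -/
def GalPair.id (K L : Type) [Field K] [Field L] [Algebra K L] : GalPair K L K L where
  ι := RingHom.id L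
  f := MonoidHom.id _
  comm _ _ := rfl

theorem GalPair.pull_id (x : H2 (unitsRep K L)) : (GalPair.id K L).pull x = x := by
  obtain ⟨c, rfl⟩ := exists_cls_eq x
  rw [GalPair.pull_cls]
  congr 1

theorem GalPair.pull_eq_self_of_ι_eq_id (P : GalPair K L K L) (h : P.ι = RingHom.id L)
    (x : H2 (unitsRep K L)) : P.pull x = x := by
  have : P = GalPair.id K L := GalPair.ext' h
  rw [this, GalPair.pull_id]

end Comp

end Fermat.Agent.S55.L.Inv481

end
-- ===== PACK-END S55/L/Inv481/Pair.lean

-- ===== PACK-BEGIN S55/Spec/Tower3.lean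
section
/-
S55 moonshot — frozen shared definitions, part 3: maps in the tower.
Chief architect: helper55.  NO sorry.  Namespace `Fermat.Agent.S55.Tow`.

* `Level.unitsCoe`, `Level.locCoe`, `unitsMk`, `locMk` : underlying elements of `ℚ̄ˣ`, `ℚ̄_qˣ`;
* `embQbar`, `Level.emb q : Fˣ → F_qˣ` (Prelude `padicEmbedding`);
* `Level.trUnits h : Fˣ → F'ˣ`, `Level.trLoc h q : F_qˣ → F'_qˣ`, `Level.trJ h q : J_q(F) → J_q(F')`;
* `Level.diag q : Fˣ → J_q(F)`, `x ↦ (g ↦ emb (g x))`;
* `Level.ofLE : Level S → Level S'` for `S ⊆ S'`.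
-/


set_option autoImplicit false

open CategoryTheory

namespace Fermat.Agent.S55.Tow

noncomputable section

variable {S : Finset Nat.Primes}

/-- The embedding `ℚ̄ˣ → ℚ̄_qˣ` (additively written), induced by the Prelude `padicEmbedding`. -/
def embQbar (q : Nat.Primes) : unitsQbar.V →ₗ[ℤ] (unitsQpbar q).V :=
  (Units.map (padicEmbedding (q : ℕ)).toRingHom.toMonoidHom).toAdditive.toIntLinearMap

lemma embQbar_equivariant (q : Nat.Primes) (τ : GQp q) (x : unitsQbar.V) :
    embQbar q (unitsQbar.ρ (locQ q τ) x) = (unitsQpbar q).ρ τ (embQbar q x) := by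
  apply Additive.toMul.injective
  apply Units.ext
  exact padicEmbedding_localGaloisToGlobal (q : ℕ) τ _

/-- The underlying element of `ℚ̄ˣ` (additively written) of `x ∈ Fˣ`. -/
def Level.unitsCoe (L : Level S) : L.units.V →ₗ[ℤ] unitsQbar.V :=
  Submodule.subtype (Representation.invariants (unitsQbar.ρ.comp L.U.subtype))

/-- The underlying element of `ℚ̄_qˣ` (additively written) of `x ∈ F_qˣ`. -/
def Level.locCoe (L : Level S) (q : Nat.Primes) : (L.locUnits q).V →ₗ[ℤ] (unitsQpbar q).V :=
  Submodule.subtype (Representation.invariants ((unitsQpbar q).ρ.comp (L.V q).subtype))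

lemma Level.unitsCoe_injective (L : Level S) : Function.Injective L.unitsCoe :=
  Subtype.val_injective

lemma Level.locCoe_injective (L : Level S) (q : Nat.Primes) : Function.Injective (L.locCoe q) :=
  Subtype.val_injective

lemma Level.unitsCoe_fixed (L : Level S) (x : L.units.V) (g : GQ) (hg : g ∈ L.U) :
    unitsQbar.ρ g (L.unitsCoe x) = L.unitsCoe x := x.2 ⟨g, hg⟩

lemma Level.locCoe_fixed (L : Level S) (q : Nat.Primes) (x : (L.locUnits q).V) (g : GQp q)
    (hg : g ∈ L.V q) : (unitsQpbar q).ρ g (L.locCoe q x) = L.locCoe q x := x.2 ⟨g, hg⟩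

/-- Constructor for elements of `Fˣ`. -/
def Level.unitsMk (L : Level S) (a : unitsQbar.V) (ha : ∀ g ∈ L.U, unitsQbar.ρ g a = a) :
    L.units.V := ⟨a, fun g => ha g.1 g.2⟩

/-- Constructor for elements of `F_qˣ`. -/
def Level.locMk (L : Level S) (q : Nat.Primes) (a : (unitsQpbar q).V)
    (ha : ∀ g ∈ L.V q, (unitsQpbar q).ρ g a = a) : (L.locUnits q).V := ⟨a, fun g => ha g.1 g.2⟩

@[simp] lemma Level.unitsCoe_mk (L : Level S) (a : unitsQbar.V) (ha) :
    L.unitsCoe (L.unitsMk a ha) = a := rfl

@[simp] lemma Level.locCoe_mk (L : Level S) (q : Nat.Primes) (a : (unitsQpbar q).V) (ha) :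
    L.locCoe q (L.locMk q a ha) = a := rfl

lemma Level.units_ρ_coe (L : Level S) (g : GQ) (x : L.units.V) :
    L.unitsCoe (L.units.ρ (QuotientGroup.mk g) x) = unitsQbar.ρ g (L.unitsCoe x) := rfl

lemma Level.locUnits_ρ_coe (L : Level S) (q : Nat.Primes) (g : GQp q) (x : (L.locUnits q).V) :
    L.locCoe q ((L.locUnits q).ρ (QuotientGroup.mk g) x) = (unitsQpbar q).ρ g (L.locCoe q x) := rfl

/-- The embedding `Fˣ → F_qˣ` (linear). -/
def Level.embFun (L : Level S) (q : Nat.Primes) : L.units.V →ₗ[ℤ] (L.locUnits q).V where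
  toFun x := L.locMk q (embQbar q (L.unitsCoe x)) (fun g hg => by
    rw [← embQbar_equivariant, L.unitsCoe_fixed x _ hg])
  map_add' x y := by
    apply L.locCoe_injective q
    simp [map_add]
  map_smul' c x := by
    apply L.locCoe_injective q
    simp [map_smul]

@[simp] lemma Level.locCoe_embFun (L : Level S) (q : Nat.Primes) (x : L.units.V) :
    L.locCoe q (L.embFun q x) = embQbar q (L.unitsCoe x) := rfl

/-- The embedding `Fˣ → F_qˣ` as a morphism of `Gal(F_q/ℚ_q)`-modules. -/
def Level.emb (L : Level S) (q : Nat.Primes) : Rep.res (L.decHom q) L.units ⟶ L.locUnits q :=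
  Rep.ofHom ⟨L.embFun q, fun g => by
    induction g using QuotientGroup.induction_on with
    | H g =>
      refine LinearMap.ext fun x => ?_
      apply L.locCoe_injective q
      exact embQbar_equivariant q g (L.unitsCoe x)⟩

/-- The inclusion `Fˣ ⊂ F'ˣ` (linear). -/
def Level.inclUnits {L L' : Level S} (h : L ≤ L') : L.units.V →ₗ[ℤ] L'.units.V where
  toFun x := L'.unitsMk (L.unitsCoe x) (fun g hg => L.unitsCoe_fixed x g (Level.U_anti h hg))
  map_add' _ _ := rfl
  map_smul' _ _ := rfl

@[simp] lemma Level.unitsCoe_inclUnits {L L' : Level S} (h : L ≤ L') (x : L.units.V) :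
    L'.unitsCoe (Level.inclUnits h x) = L.unitsCoe x := rfl

/-- The inclusion `Fˣ ⊂ F'ˣ` as a morphism of `Gal(F'/ℚ)`-modules. -/
def Level.trUnits {L L' : Level S} (h : L ≤ L') : Rep.res (Level.proj h) L.units ⟶ L'.units :=
  Rep.ofHom ⟨Level.inclUnits h, fun g => by
    induction g using QuotientGroup.induction_on with
    | H g => exact LinearMap.ext fun x => rfl⟩

/-- The inclusion `F_qˣ ⊂ F'_qˣ` (linear). -/
def Level.inclLoc {L L' : Level S} (h : L ≤ L') (q : Nat.Primes) :
    (L.locUnits q).V →ₗ[ℤ] (L'.locUnits q).V where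
  toFun x := L'.locMk q (L.locCoe q x) (fun g hg => L.locCoe_fixed q x g (Level.V_anti h q hg))
  map_add' _ _ := rfl
  map_smul' _ _ := rfl

@[simp] lemma Level.locCoe_inclLoc {L L' : Level S} (h : L ≤ L') (q : Nat.Primes)
    (x : (L.locUnits q).V) : L'.locCoe q (Level.inclLoc h q x) = L.locCoe q x := rfl

/-- The inclusion `F_qˣ ⊂ F'_qˣ` as a morphism of `Gal(F'_q/ℚ_q)`-modules. -/
def Level.trLoc {L L' : Level S} (h : L ≤ L') (q : Nat.Primes) :
    Rep.res (Level.projDec h q) (L.locUnits q) ⟶ L'.locUnits q :=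
  Rep.ofHom ⟨Level.inclLoc h q, fun g => by
    induction g using QuotientGroup.induction_on with
    | H g => exact LinearMap.ext fun x => rfl⟩

/-- The diagonal embedding `Fˣ → J_q(F) = Coind F_qˣ`, `x ↦ (g ↦ emb (g x))`. -/
def Level.diagFun (L : Level S) (q : Nat.Primes) : L.units.V →ₗ[ℤ] (L.J q).V where
  toFun x := ⟨fun g => L.embFun q (L.units.ρ g x), fun d g => by
    have := Rep.hom_comm_apply (L.emb q) d (L.units.ρ g x)
    show L.embFun q (L.units.ρ (L.decHom q d * g) x) = _
    rw [map_mul]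
    exact this⟩
  map_add' x y := by
    apply Subtype.ext
    funext g
    show L.embFun q (L.units.ρ g (x + y)) = L.embFun q (L.units.ρ g x) + L.embFun q (L.units.ρ g y)
    rw [map_add, map_add]
  map_smul' c x := by
    apply Subtype.ext
    funext g
    show L.embFun q (L.units.ρ g (c • x)) = c • L.embFun q (L.units.ρ g x)
    rw [map_smul, map_smul]

/-- The diagonal embedding `Fˣ → J_q(F)` as a morphism of `Gal(F/ℚ)`-modules. -/
def Level.diag (L : Level S) (q : Nat.Primes) : L.units ⟶ L.J q :=
  Rep.ofHom ⟨L.diagFun q, fun g => by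
    refine LinearMap.ext fun x => ?_
    apply Subtype.ext
    funext g'
    show L.embFun q (L.units.ρ g' (L.units.ρ g x)) = L.embFun q (L.units.ρ (g' * g) x)
    rw [map_mul]
    rfl⟩

/-- Evaluation of an element of `J_q(F) = Coind F_qˣ` at `g ∈ Gal(F/ℚ)`. -/
def Level.Jeval (L : Level S) (q : Nat.Primes) (f : (L.J q).V) (g : L.Gal) : (L.locUnits q).V :=
  f.1 g

lemma Level.Jeval_mul (L : Level S) (q : Nat.Primes) (f : (L.J q).V) (d : L.Dec q) (g : L.Gal) :
    L.Jeval q f (L.decHom q d * g) = (L.locUnits q).ρ d (L.Jeval q f g) := f.2 d g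

lemma Level.J_ext (L : Level S) (q : Nat.Primes) {f f' : (L.J q).V}
    (h : ∀ g, L.Jeval q f g = L.Jeval q f' g) : f = f' := Subtype.ext (funext h)

lemma Level.Jeval_ρ (L : Level S) (q : Nat.Primes) (f : (L.J q).V) (g g' : L.Gal) :
    L.Jeval q ((L.J q).ρ g f) g' = L.Jeval q f (g' * g) := rfl

@[simp] lemma Level.Jeval_diag (L : Level S) (q : Nat.Primes) (x : L.units.V) (g : L.Gal) :
    L.Jeval q ((L.diag q).hom x) g = L.embFun q (L.units.ρ g x) := rfl

/-- The inclusion `J_q(F) → J_q(F')` (linear): `f ↦ (g' ↦ f (proj g'))`. -/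
def Level.inclJ {L L' : Level S} (h : L ≤ L') (q : Nat.Primes) : (L.J q).V →ₗ[ℤ] (L'.J q).V where
  toFun f := ⟨fun g' => Level.inclLoc h q (L.Jeval q f (Level.proj h g')), fun d g' => by
    show Level.inclLoc h q (L.Jeval q f (Level.proj h (L'.decHom q d * g'))) = _
    rw [map_mul, Level.proj_decHom, L.Jeval_mul]
    exact Rep.hom_comm_apply (Level.trLoc h q) d _⟩
  map_add' _ _ := rfl
  map_smul' _ _ := rfl

@[simp] lemma Level.Jeval_inclJ {L L' : Level S} (h : L ≤ L') (q : Nat.Primes) (f : (L.J q).V)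
    (g' : L'.Gal) :
    L'.Jeval q (Level.inclJ h q f) g' = Level.inclLoc h q (L.Jeval q f (Level.proj h g')) := rfl

/-- The inclusion `J_q(F) → J_q(F')` as a morphism of `Gal(F'/ℚ)`-modules. -/
def Level.trJ {L L' : Level S} (h : L ≤ L') (q : Nat.Primes) :
    Rep.res (Level.proj h) (L.J q) ⟶ L'.J q :=
  Rep.ofHom ⟨Level.inclJ h q, fun g => by
    refine LinearMap.ext fun f => ?_
    apply L'.J_ext q
    intro g'
    show Level.inclLoc h q (L.Jeval q ((L.J q).ρ (Level.proj h g) f) (Level.proj h g')) =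
      Level.inclLoc h q (L.Jeval q f (Level.proj h (g' * g)))
    rw [L.Jeval_ρ, map_mul]⟩

/-- A level for `S` is a level for every `S' ⊇ S`. -/
def Level.ofLE {S' : Finset Nat.Primes} (hS : S ⊆ S') (L : Level S) : Level S' where
  F := L.F
  unram := L.unram.mono hS
  normalU := L.normalU

@[simp] lemma Level.ofLE_F {S' : Finset Nat.Primes} (hS : S ⊆ S') (L : Level S) :
    (Level.ofLE hS L).F = L.F := rfl

end

end Fermat.Agent.S55.Tow

end
-- ===== PACK-END S55/Spec/Tower3.lean

-- ===== PACK-BEGIN S55/G/DescH537/Div.lean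
section
/-
S55, layer G, leaf G-DESC (Galois descent for the `S`-idèle class group), helper537.
Part 2: base change of divisors prime to `S` and Galois-invariant divisors.

`K ⊂ L` number fields, `G` finite with `IsGaloisGroup G K L`.
* `belowOut S K L : PrimeOut S L → PrimeOut S K` (the prime below), surjective, finite fibres,
  fibres = `G`-orbits (`exists_primeOutMap_eq_of_belowOut_eq`);
* `eIdx K L w` the ramification index of `w` over `K`; `ordAt_unitsBC`;
* `divBC S K L : Div^S(K) →+ Div^S(L)`, `v ↦ ∑_{w | v} e(w|v) w`; `ordHom_unitsBC`,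
  `divBC_injective`, `divRepr_divBC`;
* `exists_divBC_eq_of_invariant` : if `L/K` is unramified outside `S` then
  `Div^S(L)^G = Div^S(K)`.
-/




set_option autoImplicit false
set_option linter.unusedSectionVars false

open scoped NumberField
open IsDedekindDomain

noncomputable section

namespace Fermat.Agent.S55.G.DescH537

section Below

variable (S : Finset Nat.Primes) (G K L : Type) [Group G] [Field K] [Field L]
  [NumberField K] [NumberField L] [Algebra K L] [MulSemiringAction G L]

/-- The prime of `K` below a prime of `L`. -/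
def below (w : HeightOneSpectrum (𝓞 L)) : HeightOneSpectrum (𝓞 K) := w.under (𝓞 K)

lemma below_asIdeal (w : HeightOneSpectrum (𝓞 L)) :
    (below K L w).asIdeal = w.asIdeal.under (𝓞 K) := rfl

instance liesOver_below (w : HeightOneSpectrum (𝓞 L)) :
    w.asIdeal.LiesOver (below K L w).asIdeal := ⟨rfl⟩

lemma isAbove_below_iff (w : HeightOneSpectrum (𝓞 L)) :
    IsAbove S K (below K L w) ↔ IsAbove S L w := by
  unfold IsAbove
  refine exists_congr fun q => and_congr_right fun _ => ?_
  rw [below_asIdeal, Ideal.under_def, Ideal.mem_comap, map_natCast]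

/-- The prime of `K` below a prime of `L` not above `S`. -/
def belowOut (w : PrimeOut S L) : PrimeOut S K :=
  ⟨below K L w.1, fun h => w.2 ((isAbove_below_iff S K L w.1).1 h)⟩

lemma belowOut_val (w : PrimeOut S L) : (belowOut S K L w).1 = below K L w.1 := rfl

lemma belowOut_surjective : Function.Surjective (belowOut S K L) := by
  rintro ⟨v, hv⟩
  obtain ⟨P, hP, hPv⟩ := Ideal.exists_ideal_over_prime_of_isIntegral_of_isDomain (S := 𝓞 L)
    v.asIdeal (by simp)
  have hP0 : P ≠ ⊥ := by
    rintro rfl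
    apply v.ne_bot
    rw [← hPv]
    exact Ideal.comap_bot_of_injective _ (FaithfulSMul.algebraMap_injective (𝓞 K) (𝓞 L))
  let w : HeightOneSpectrum (𝓞 L) := ⟨P, hP, hP0⟩
  have hwv : below K L w = v := HeightOneSpectrum.ext hPv
  exact ⟨⟨w, fun h => hv (hwv ▸ (isAbove_below_iff S K L w).2 h)⟩, Subtype.ext hwv⟩

lemma finite_fiber_belowOut (v : PrimeOut S K) : {w : PrimeOut S L | belowOut S K L w = v}.Finite := by
  have hfin := IsDedekindDomain.primesOver_finite v.1.asIdeal (𝓞 L)
  have hinj : Function.Injective (fun w : PrimeOut S L => w.1.asIdeal) := fun a b h =>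
    Subtype.ext (HeightOneSpectrum.ext h)
  refine Set.Finite.of_finite_image (hfin.subset ?_) hinj.injOn
  rintro _ ⟨w, hw, rfl⟩
  refine ⟨w.1.isPrime, ⟨?_⟩⟩
  have : (belowOut S K L w).1 = v.1 := congrArg Subtype.val hw
  rw [← this]
  rfl

variable [IsGaloisGroup G K L]

lemma below_primeSMul (g : G) (w : HeightOneSpectrum (𝓞 L)) :
    below K L (primeSMul G g w) = below K L w :=
  HeightOneSpectrum.ext (Ideal.under_smul (𝓞 K) w.asIdeal g)

lemma belowOut_primeOutMap (g : G) (w : PrimeOut S L) :
    belowOut S K L (primeOutMap S G L g w) = belowOut S K L w :=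
  Subtype.ext (below_primeSMul G K L g w.1)

variable [Finite G]

/-- The fibres of `belowOut` are `G`-orbits. -/
lemma exists_primeOutMap_eq_of_belowOut_eq (w w' : PrimeOut S L)
    (h : belowOut S K L w = belowOut S K L w') : ∃ g : G, primeOutMap S G L g w = w' := by
  have h' : w.1.asIdeal.under (𝓞 K) = w'.1.asIdeal.under (𝓞 K) :=
    congrArg (fun v : PrimeOut S K => v.1.asIdeal) h
  have := w.1.isPrime
  have := w'.1.isPrime
  obtain ⟨g, hg⟩ := Algebra.IsInvariant.exists_smul_of_under_eq (𝓞 K) (𝓞 L) G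
    w.1.asIdeal w'.1.asIdeal h'
  exact ⟨g, Subtype.ext (HeightOneSpectrum.ext hg.symm)⟩

end Below

section Ord

variable (S : Finset Nat.Primes) (G K L : Type) [Group G] [Field K] [Field L]
  [NumberField K] [NumberField L] [Algebra K L] [MulSemiringAction G L]

/-- The ramification index of the prime `w` of `L` over `K`. -/
def eIdx (w : HeightOneSpectrum (𝓞 L)) : ℕ :=
  (below K L w).asIdeal.ramificationIdx' w.asIdeal

lemma eIdx_ne_zero (w : HeightOneSpectrum (𝓞 L)) : eIdx K L w ≠ 0 :=
  Ideal.IsDedekindDomain.ramificationIdx'_ne_zero_of_liesOver w.asIdeal (below K L w).ne_bot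

/-- `ord_w(x) = e(w|v) ord_v(x)` for `x ∈ Kˣ`. -/
lemma ordAt_unitsBC (w : HeightOneSpectrum (𝓞 L)) (x : Additive Kˣ) :
    ordAt w (unitsBC K L x) = eIdx K L w * ordAt (below K L w) x := by
  rw [ordAt_apply, ordAt_apply, coe_unitsBC_apply,
    ← HeightOneSpectrum.valuation_liesOver L (below K L w) w, WithZero.log_pow]
  simp only [eIdx, nsmul_eq_mul, mul_neg]

variable [IsGaloisGroup G K L]

/-- The ramification index is constant on Galois orbits. -/
lemma eIdx_primeSMul (g : G) (w : HeightOneSpectrum (𝓞 L)) :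
    eIdx K L (primeSMul G g w) = eIdx K L w := by
  obtain ⟨π, hπ⟩ := HeightOneSpectrum.valuation_exists_uniformizer K (below K L w)
  have hπ0 : π ≠ 0 := by
    rintro rfl
    rw [map_zero] at hπ
    exact WithZero.exp_ne_zero hπ.symm
  let x : Additive Kˣ := Additive.ofMul (Units.mk0 π hπ0)
  have hx : ordAt (below K L w) x = 1 := by
    rw [ordAt_apply]
    change -WithZero.log ((below K L w).valuation K π) = 1
    rw [hπ]
    simp
  have h1 := ordAt_unitsBC K L w x
  have h2 := ordAt_unitsBC K L (primeSMul G g w) x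
  rw [below_primeSMul, hx, mul_one] at h2
  rw [hx, mul_one] at h1
  have h3 : ordAt (primeSMul G g w) (unitsBC K L x) = ordAt w (unitsBC K L x) := by
    conv_lhs => rw [← lRepr_unitsBC G K L g x]
    exact ordAt_primeSMul G g w _
  exact_mod_cast (h2.symm.trans (h3.trans h1))

end Ord

section DivBC

variable (S : Finset Nat.Primes) (G K L : Type) [Group G] [Field K] [Field L]
  [NumberField K] [NumberField L] [Algebra K L] [MulSemiringAction G L]

lemma finite_support_divBC (d : PrimeOut S K →₀ ℤ) :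
    (Function.support fun w : PrimeOut S L =>
      (eIdx K L w.1 : ℤ) * d (belowOut S K L w)).Finite := by
  have hsub : (Function.support fun w : PrimeOut S L =>
      (eIdx K L w.1 : ℤ) * d (belowOut S K L w)) ⊆
      ⋃ v ∈ d.support, {w : PrimeOut S L | belowOut S K L w = v} := by
    intro w hw
    simp only [Function.mem_support, ne_eq, mul_eq_zero, not_or] at hw
    simp only [Set.mem_iUnion]
    exact ⟨belowOut S K L w, Finsupp.mem_support_iff.2 hw.2, rfl⟩
  exact (Set.Finite.biUnion d.support.finite_toSet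
    (fun v _ => finite_fiber_belowOut S K L v)).subset hsub

/-- Base change of divisors prime to `S`: `v ↦ ∑_{w | v} e(w|v) w`, i.e.
`(divBC d) w = e(w) * d (w ∩ K)`. -/
def divBC : (PrimeOut S K →₀ ℤ) →+ (PrimeOut S L →₀ ℤ) where
  toFun d := Finsupp.ofSupportFinite _ (finite_support_divBC S K L d)
  map_zero' := by
    ext w
    simp [Finsupp.ofSupportFinite_coe]
  map_add' a b := by
    ext w
    simp [Finsupp.ofSupportFinite_coe, mul_add]

@[simp] lemma divBC_apply (d : PrimeOut S K →₀ ℤ) (w : PrimeOut S L) :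
    divBC S K L d w = eIdx K L w.1 * d (belowOut S K L w) := rfl

/-- Compatibility of the divisor maps with base change. -/
lemma ordHom_unitsBC (x : Additive Kˣ) :
    ordHom S L (unitsBC K L x) = divBC S K L (ordHom S K x) := by
  ext w
  rw [ordHom_apply, divBC_apply, ordHom_apply, ordAt_unitsBC]
  rfl

lemma divBC_injective : Function.Injective (divBC S K L) := by
  rw [injective_iff_map_eq_zero]
  intro d hd
  ext v
  obtain ⟨w, rfl⟩ := belowOut_surjective S K L v
  have := DFunLike.congr_fun hd w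
  rw [divBC_apply] at this
  simpa [eIdx_ne_zero] using this

variable [IsGaloisGroup G K L]

/-- The image of base change consists of Galois-invariant divisors. -/
lemma divRepr_divBC (g : G) (d : PrimeOut S K →₀ ℤ) :
    divRepr S G L g (divBC S K L d) = divBC S K L d := by
  ext w
  have hw : w = primeOutMap S G L g (primeOutMap S G L g⁻¹ w) := by
    rw [← primeOutMap_mul, mul_inv_cancel, primeOutMap_one]
  rw [hw, divRepr_apply_apply, divBC_apply, divBC_apply]
  simp only [belowOut_primeOutMap, primeOutMap_val, eIdx_primeSMul]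

variable [Finite G]

/-- **Galois-invariant divisors.** If `L/K` is unramified outside `S`, every `G`-invariant
divisor of `L` prime to `S` comes from `K`. -/
theorem exists_divBC_eq_of_invariant (hunr : ∀ w : PrimeOut S L, eIdx K L w.1 = 1)
    (d : PrimeOut S L →₀ ℤ) (hd : ∀ g : G, divRepr S G L g d = d) :
    ∃ d' : PrimeOut S K →₀ ℤ, divBC S K L d' = d := by
  classical
  have hinv : ∀ (g : G) (w : PrimeOut S L), d (primeOutMap S G L g w) = d w := by
    intro g w
    conv_lhs => rw [← hd g]
    exact divRepr_apply_apply S G L g d w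
  let σ : PrimeOut S K → PrimeOut S L := fun v => (belowOut_surjective S K L v).choose
  have hσ : ∀ v, belowOut S K L (σ v) = v := fun v => (belowOut_surjective S K L v).choose_spec
  have hfin : (Function.support fun v => d (σ v)).Finite := by
    refine (d.support.finite_toSet.image (belowOut S K L)).subset ?_
    intro v hv
    exact ⟨σ v, Finsupp.mem_support_iff.2 hv, hσ v⟩
  refine ⟨Finsupp.ofSupportFinite _ hfin, ?_⟩
  ext w
  rw [divBC_apply, hunr w, Nat.cast_one, one_mul, Finsupp.ofSupportFinite_coe]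
  obtain ⟨g, hg⟩ := exists_primeOutMap_eq_of_belowOut_eq S G K L (σ (belowOut S K L w)) w (hσ _)
  conv_rhs => rw [← hg]
  exact (hinv g _).symm

end DivBC

end Fermat.Agent.S55.G.DescH537

end
end
-- ===== PACK-END S55/G/DescH537/Div.lean

-- ===== PACK-BEGIN S55/LocalSpec/H964/ClassAt.lean
section





/-!
# S55, `Tow.LocalSpec` (helper964): a class module is a class module at every `p`

`isClassModuleAt_of_isClassModule : T.IsClassModule C γ → E1.IsClassModuleAt p C γ`
(the `p`-group hypothesis of `IsClassModuleAt` is not even used).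
-/

set_option autoImplicit false
set_option linter.style.haveILetI false

open CategoryTheory groupCohomology

namespace Fermat.Agent.S55.LocalSpec.H964

open Fermat.Agent.S55

/-- Abstract form: an additive group generated by `g`, with `n • g = 0` and `c • g = 0 → n ∣ c`,
has cardinality `n`, and every element is a natural multiple of `g`. -/
theorem card_eq_of_generator {M : Type*} [AddCommGroup M] (g : M) (n : ℕ) (hn : 0 < n)
    (hgen : ∀ x : M, ∃ c : ℤ, x = c • g) (hann : ∀ c : ℤ, c • g = 0 → (n : ℤ) ∣ c)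
    (hkill : (n : ℤ) • g = 0) :
    Nat.card M = n ∧ ∀ x : M, ∃ m : ℕ, x = m • g := by
  have hkill' : n • g = 0 := by rwa [natCast_zsmul] at hkill
  have h1 : addOrderOf g ∣ n := addOrderOf_dvd_of_nsmul_eq_zero hkill'
  have h2 : n ∣ addOrderOf g := by
    have h0 : ((addOrderOf g : ℕ) : ℤ) • g = 0 := by
      rw [natCast_zsmul]; exact addOrderOf_nsmul_eq_zero g
    exact Int.natCast_dvd_natCast.1 (hann _ h0)
  have hord : addOrderOf g = n := Nat.dvd_antisymm h1 h2
  have htop : AddSubgroup.zmultiples g = ⊤ := by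
    rw [eq_top_iff]
    intro x _
    obtain ⟨c, hc⟩ := hgen x
    exact AddSubgroup.mem_zmultiples_iff.2 ⟨c, hc.symm⟩
  constructor
  · rw [← AddSubgroup.card_top (G := M), ← htop, Nat.card_zmultiples, hord]
  · intro x
    obtain ⟨c, hc⟩ := hgen x
    refine ⟨(c % n).toNat, ?_⟩
    have hnz : (n : ℤ) ≠ 0 := by exact_mod_cast hn.ne'
    have hpos : 0 ≤ c % (n : ℤ) := Int.emod_nonneg c hnz
    have e1 : (((c % (n : ℤ)).toNat : ℕ) : ℤ) = c % n := Int.toNat_of_nonneg hpos
    have e2 : c = c % n + n * (c / n) := (Int.emod_add_mul_ediv c n).symm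
    rw [hc, ← natCast_zsmul, e1]
    conv_lhs => rw [e2]
    rw [add_zsmul, mul_comm, mul_zsmul, hkill, zsmul_zero, add_zero]

/-- A class module (in the sense of layer T) is a class module at `p` (in the sense of the
engine E1). -/
theorem isClassModuleAt_of_isClassModule {G : Type} [Group G] [Finite G] (p : ℕ)
    (C : Rep.{0} ℤ G) (γ : groupCohomology C 2) (h : T.IsClassModule C γ) :
    E1.IsClassModuleAt p C γ := by
  intro H _
  obtain ⟨h1, hgen, hann, hkill⟩ := h H
  have hnpos : 0 < Nat.card H := Nat.card_pos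
  have key := card_eq_of_generator ((T.resMap C H 2).hom γ) (Nat.card H) hnpos
    (fun x => by
      obtain ⟨c, hc⟩ := hgen x
      exact ⟨c, by rw [hc, T.modSMul_eq_zsmul]⟩)
    (fun c hc => by
      have hc' := hc
      rw [← T.modSMul_eq_zsmul (inferInstance : Module ℤ
        (groupCohomology (T.resSub C H) 2))] at hc'
      obtain ⟨d, hd⟩ := hann c hc'
      exact ⟨d, hd⟩)
    (by
      have := hkill
      rw [T.modSMul_eq_zsmul] at this
      exact this)
  exact ⟨h1, key.1, key.2⟩

end Fermat.Agent.S55.LocalSpec.H964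

end
-- ===== PACK-END S55/LocalSpec/H964/ClassAt.lean

-- ===== PACK-BEGIN S55/KL/DevPGroupH784.lean
section


/-!
# S55, layer KB, leaf KB-DEV-C (helper784): the filtration induction `DevPGroupSpec`

`devPGroup : DevPGroupSpec`.  Let `μ` be a module of order `p` with trivial action such that
`colim_V H³(Γ ⧸ V, μ) = 0`, and let `R` be a finite `p`-torsion module on which `Γ` acts through
a finite `p`-group `Γ ⧸ V₀`.  Then `colim_V H³(Γ ⧸ V, R^V) = 0`.

Proof: induction on `|R|`.  If `R ≠ 0`, the `p`-group `Γ ⧸ V₀` has a fixed point `r ≠ 0` on `R`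
(fixed point congruence); `ℤ r ≅ μ` (both have order `p` and trivial action, and every additive
map is `k`-linear because `ℤ → k` is surjective), so there is a short exact sequence
`0 → μ → R → R₂ → 0` with `|R₂| < |R|`.  Given a class `y` at level `V`, inflate to a level below
`V₀`, kill its image in `H³(R₂)` by a further inflation (induction hypothesis), lift to `H³(μ)`
(exactness of the middle of the long exact sequence at a level acting trivially on `R`) and kill
the lift by a last inflation.  Only exactness in the middle is used (no connecting map).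

Also provided (reusable): `infl_infl`, `push_infl` (functoriality of `HLmap` along `id`),
`push_eq_map`, `exact_push`.

No `sorry`; Mathlib + `KL/Defs`, `KL/Spec` only.
-/

set_option autoImplicit false
set_option linter.style.haveILetI false

open CategoryTheory groupCohomology

namespace Fermat.Agent.S55.KL.H784

open Fermat.Agent.S55.KL

variable {k : Type} [CommRing k] {Γ : Type} [Group Γ]

/-! ## Functoriality of `HLmap` along the identity -/

/-- Composition of two `HLmap`s along the identity of `Γ`. -/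
lemma HLmap_id_comp {B B' B'' : Rep.{0} k Γ} {W W' W'' : Subgroup Γ} [W.Normal] [W'.Normal]
    [W''.Normal] (h₁ : W' ≤ W.comap (MonoidHom.id Γ)) (h₂ : W'' ≤ W'.comap (MonoidHom.id Γ))
    (h₃ : W'' ≤ W.comap (MonoidHom.id Γ))
    (φ : Rep.res (MonoidHom.id Γ) B ⟶ B') (ψ : Rep.res (MonoidHom.id Γ) B' ⟶ B'')
    (χ : Rep.res (MonoidHom.id Γ) B ⟶ B'') (hχ : ∀ b, χ.hom b = ψ.hom (φ.hom b)) (n : ℕ) :
    HLmap (MonoidHom.id Γ) h₁ φ n ≫ HLmap (MonoidHom.id Γ) h₂ ψ n =
      HLmap (MonoidHom.id Γ) h₃ χ n := by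
  unfold HLmap
  rw [← groupCohomology.map_comp]
  apply groupCohomology.map_congr
  · ext g
    rfl
  · ext b
    exact (hχ b.1).symm

/-- Inflation is transitive. -/
lemma infl_infl (B : Rep.{0} k Γ) {W W' W'' : Subgroup Γ} [W.Normal] [W'.Normal] [W''.Normal]
    (h₁ : W' ≤ W) (h₂ : W'' ≤ W') (n : ℕ) :
    infl B h₁ n ≫ infl B h₂ n = infl B (h₂.trans h₁) n :=
  HLmap_id_comp _ _ _ _ _ _ (fun _ => rfl) n

/-- Inflation is transitive (elementwise). -/
lemma infl_infl_apply (B : Rep.{0} k Γ) {W W' W'' : Subgroup Γ} [W.Normal] [W'.Normal]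
    [W''.Normal] (h₁ : W' ≤ W) (h₂ : W'' ≤ W') (n : ℕ) (y : HL B W n) :
    (infl B h₂ n).hom ((infl B h₁ n).hom y) = (infl B (h₂.trans h₁) n).hom y := by
  rw [← infl_infl B h₁ h₂ n]
  rfl

/-- Push-forward commutes with inflation. -/
lemma push_infl {B B' : Rep.{0} k Γ} (φ : B ⟶ B') {W W' : Subgroup Γ} [W.Normal] [W'.Normal]
    (h : W' ≤ W) (n : ℕ) :
    push φ W n ≫ infl B' h n = infl B h n ≫ push φ W' n := by
  have e1 : push φ W n ≫ infl B' h n =
      HLmap (MonoidHom.id Γ) (W := W) (W' := W') (by simpa using h) φ n :=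
    HLmap_id_comp _ _ _ _ _ _ (fun _ => rfl) n
  have e2 : infl B h n ≫ push φ W' n =
      HLmap (MonoidHom.id Γ) (W := W) (W' := W') (by simpa using h) φ n :=
    HLmap_id_comp _ _ _ _ _ _ (fun _ => rfl) n
  rw [e1, e2]

/-- Push-forward commutes with inflation (elementwise). -/
lemma push_infl_apply {B B' : Rep.{0} k Γ} (φ : B ⟶ B') {W W' : Subgroup Γ} [W.Normal]
    [W'.Normal] (h : W' ≤ W) (n : ℕ) (y : HL B W n) :
    (infl B' h n).hom ((push φ W n).hom y) = (push φ W' n).hom ((infl B h n).hom y) :=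
  congrArg (fun f => f.hom y) (push_infl φ h n)

/-- `push` is the functorial map of Mathlib's `quotientToInvariantsFunctor`. -/
lemma push_eq_map {B B' : Rep.{0} k Γ} (φ : B ⟶ B') (W : Subgroup Γ) [W.Normal] (n : ℕ) :
    push φ W n =
      groupCohomology.map (MonoidHom.id (Γ ⧸ W))
        ((Rep.quotientToInvariantsFunctor k W).map φ) n := by
  unfold push HLmap
  apply groupCohomology.map_congr
  · ext g
    rfl
  · ext b
    rfl

/-! ## Exactness in the middle at a level acting trivially -/

/-- A short complex of representations is short exact if it is so on underlying modules. -/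
lemma shortExact_of {G : Type} [Group G] (X : ShortComplex (Rep.{0} k G))
    (h1 : Function.Injective X.f.hom)
    (h2 : ∀ x : X.X₂, X.g.hom x = 0 → ∃ y : X.X₁, X.f.hom y = x)
    (h3 : Function.Surjective X.g.hom) : X.ShortExact where
  exact := by
    rw [← ShortComplex.exact_map_iff_of_faithful X (forget₂ (Rep.{0} k G) (ModuleCat.{0} k)),
      ShortComplex.moduleCat_exact_iff]
    exact h2
  mono_f := (Rep.mono_iff_injective _).2 h1
  epi_g := (Rep.epi_iff_surjective _).2 h3

/-- Exactness of `Hⁿ(Γ/W, R₁^W) → Hⁿ(Γ/W, R^W) → Hⁿ(Γ/W, R₂^W)` for a short exact sequence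
`0 → R₁ → R → R₂ → 0` when `W` acts trivially on `R`. -/
lemma exact_push {R₁ R R₂ : Rep.{0} k Γ} (ι : R₁ ⟶ R) (π : R ⟶ R₂) (W : Subgroup Γ) [W.Normal]
    (hι : Function.Injective ι.hom) (hπ : Function.Surjective π.hom)
    (hex : ∀ x, π.hom x = 0 → ∃ y, ι.hom y = x) (hzero : ∀ y, π.hom (ι.hom y) = 0)
    (hW : ActsTrivially W R) (n : ℕ)
    (y : HL R W n) (hy : (push π W n).hom y = 0) : ∃ z : HL R₁ W n, (push ι W n).hom z = y := by
  let X : ShortComplex (Rep.{0} k (Γ ⧸ W)) :=
    ShortComplex.mk ((Rep.quotientToInvariantsFunctor k W).map ι)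
      ((Rep.quotientToInvariantsFunctor k W).map π) (by
        ext b
        exact Subtype.ext (hzero b.1))
  have hX : X.ShortExact := by
    apply shortExact_of
    · intro a b hab
      apply Subtype.ext
      apply hι
      exact congrArg Subtype.val hab
    · intro x hx
      obtain ⟨m, hm⟩ := hex x.1 (congrArg Subtype.val hx)
      refine ⟨⟨m, fun w => ?_⟩, Subtype.ext hm⟩
      apply hι
      have h1 := Rep.hom_comm_apply ι w.1 m
      have h2 : R.ρ w.1 x.1 = x.1 := x.2 w
      show ι.hom (R₁.ρ w.1 m) = ι.hom m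
      rw [h1, hm, h2]
    · intro x
      obtain ⟨r, hr⟩ := hπ x.1
      exact ⟨⟨r, fun w => hW w.1 w.2 r⟩, Subtype.ext hr⟩
  have hE := mapShortComplex₂_exact hX n
  rw [ShortComplex.moduleCat_exact_iff] at hE
  rw [push_eq_map] at hy
  obtain ⟨z, hz⟩ := hE y hy
  refine ⟨z, ?_⟩
  rw [push_eq_map]
  exact hz

/-- The cohomology of the zero module vanishes. -/
lemma H_eq_zero_of_subsingleton {G : Type} [Group G] (A : Rep.{0} k G) [Subsingleton A.V]
    (n : ℕ) (y : groupCohomology A n) : y = 0 := by
  have h1 : (𝟙 A : A ⟶ A) = 0 := by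
    ext b
    exact Subsingleton.elim _ _
  have h2 : groupCohomology.map (MonoidHom.id G) (𝟙 A) n = 𝟙 _ :=
    groupCohomology.map_id n
  have h3 : groupCohomology.map (MonoidHom.id G) (0 : A ⟶ A) n = 0 := by
    unfold groupCohomology.map
    rw [cochainsMap_zero, HomologicalComplex.homologyMap_zero]
    rfl
  have h4 : (𝟙 (groupCohomology A n) : groupCohomology A n ⟶ groupCohomology A n) = 0 := by
    rw [← h2, h1, h3]
  calc y = (𝟙 (groupCohomology A n) : groupCohomology A n ⟶ groupCohomology A n).hom y := rfl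
    _ = 0 := by rw [h4]; rfl

/-- The finite-level cohomology of the zero module vanishes. -/
lemma HL_eq_zero_of_subsingleton (R : Rep.{0} k Γ) [Subsingleton R.V] (W : Subgroup Γ)
    [W.Normal] (n : ℕ) (y : HL R W n) : y = 0 := by
  haveI : Subsingleton (R.quotientToInvariants W).V :=
    ⟨fun a b => Subtype.ext (Subsingleton.elim _ _)⟩
  exact H_eq_zero_of_subsingleton _ n y

/-! ## The dévissage step -/

/-- An additive map between `k`-modules is `k`-linear when `ℤ → k` is surjective. -/
def linOfAdd (hk : Function.Surjective (Int.cast : ℤ → k)) {M M' : Type} [AddCommGroup M]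
    [Module k M] [AddCommGroup M'] [Module k M'] (f : M →+ M') : M →ₗ[k] M' where
  toFun := f
  map_add' := f.map_add
  map_smul' c x := by
    obtain ⟨n, rfl⟩ := hk c
    simp only [RingHom.id_apply]
    rw [Int.cast_smul_eq_zsmul, Int.cast_smul_eq_zsmul, map_zsmul]

/-- A finite nontrivial `p`-torsion abelian group has order divisible by `p`. -/
lemma dvd_card_of_torsion (p : ℕ) [Fact p.Prime] (M : Type) [AddCommGroup M] [Nontrivial M]
    [Finite M] (hM : ∀ r : M, p • r = 0) : p ∣ Nat.card M := by
  have hPR : IsPGroup p (Multiplicative M) := fun x => ⟨1, by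
    rw [pow_one]
    exact congrArg Multiplicative.ofAdd (hM x.toAdd)⟩
  have hc : Nat.card (Multiplicative M) = Nat.card M := Nat.card_congr Multiplicative.toAdd
  rcases hPR.card_eq_or_dvd with h | h
  · exfalso
    rw [hc] at h
    have := Finite.one_lt_card_iff_nontrivial.2 (inferInstance : Nontrivial M)
    omega
  · rwa [hc] at h

/-- The dévissage step: a nonzero finite `p`-torsion module on which `Γ` acts through a `p`-group
contains a copy of `μ` (order `p`, trivial action), with strictly smaller quotient. -/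
lemma exists_step (hk : Function.Surjective (Int.cast : ℤ → k)) (μ : Rep.{0} k Γ) (p : ℕ)
    (hp : p.Prime) (hμ : Nat.card μ.V = p) (hμtriv : ∀ (g : Γ) (m : μ.V), μ.ρ g m = m)
    (R : Rep.{0} k Γ) [Finite R.V] (hR : ∀ r : R.V, p • r = 0) (W : Subgroup Γ) [W.Normal]
    (hW : ActsTrivially W R) (hP : IsPGroup p (Γ ⧸ W)) [Nontrivial R.V] :
    ∃ (R₂ : Rep.{0} k Γ) (ι : μ ⟶ R) (π : R ⟶ R₂), Function.Injective ι.hom ∧
      Function.Surjective π.hom ∧ (∀ x, π.hom x = 0 → ∃ y, ι.hom y = x) ∧
      (∀ y, π.hom (ι.hom y) = 0) ∧ Nat.card R₂.V < Nat.card R.V := by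
  haveI : Fact p.Prime := ⟨hp⟩
  -- the action of `Γ ⧸ W`
  let ρ' : Γ ⧸ W →* (R.V →ₗ[k] R.V) := QuotientGroup.lift W R.ρ (fun w hw => by
    rw [MonoidHom.mem_ker]
    ext b
    exact hW w hw b)
  letI : MulAction (Γ ⧸ W) R.V :=
    { smul := fun g x => ρ' g x
      one_smul := fun x => by
        show ρ' 1 x = x
        rw [map_one]
        rfl
      mul_smul := fun g h x => by
        show ρ' (g * h) x = ρ' g (ρ' h x)
        rw [map_mul]
        rfl }
  have hcard : p ∣ Nat.card R.V := dvd_card_of_torsion p R.V hR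
  obtain ⟨r, hrfix, hr0⟩ :=
    hP.exists_fixed_point_of_prime_dvd_card_of_fixed_point R.V hcard (a := 0) (by
      rw [MulAction.mem_fixedPoints]
      intro g
      show ρ' g 0 = 0
      exact map_zero _)
  have hr : ∀ g : Γ, R.ρ g r = r := fun g =>
    MulAction.mem_fixedPoints.1 hrfix (g : Γ ⧸ W)
  have hord : addOrderOf r = p := addOrderOf_eq_prime (hR r) (Ne.symm hr0)
  have hZ : Nat.card (AddSubgroup.zmultiples r) = p := by rw [Nat.card_zmultiples, hord]
  let e : μ.V ≃+ AddSubgroup.zmultiples r := addEquivOfPrimeCardEq hμ hZ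
  let ι₀ : μ.V →+ R.V := (AddSubgroup.zmultiples r).subtype.comp e.toAddMonoidHom
  have hι₀fix : ∀ g m, R.ρ g (ι₀ m) = ι₀ m := by
    intro g m
    obtain ⟨n, hn⟩ := AddSubgroup.mem_zmultiples_iff.1 (e m).2
    show R.ρ g (e m : R.V) = (e m : R.V)
    rw [← hn, map_zsmul, hr g]
  have hι₀inj : Function.Injective ι₀ := fun a b hab =>
    e.injective (Subtype.ext hab)
  let ιl : μ.V →ₗ[k] R.V := linOfAdd hk ι₀
  let ι : μ ⟶ R := Rep.ofHom ⟨ιl, fun g => by
    ext m
    show ιl (μ.ρ g m) = R.ρ g (ιl m)
    rw [hμtriv]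
    exact (hι₀fix g m).symm⟩
  let S : Submodule k R.V := LinearMap.range ιl
  have hS : ∀ g, S ≤ S.comap (R.ρ g) := by
    rintro g x ⟨m, rfl⟩
    show R.ρ g (ιl m) ∈ S
    rw [show R.ρ g (ιl m) = ιl m from hι₀fix g m]
    exact ⟨m, rfl⟩
  refine ⟨R.quotient S hS, ι, R.mkQ S hS, hι₀inj, Submodule.mkQ_surjective S, ?_, ?_, ?_⟩
  · intro x hx
    have hx' : S.mkQ x = 0 := hx
    rw [Submodule.mkQ_apply, Submodule.Quotient.mk_eq_zero] at hx'
    exact hx'
  · intro y
    show S.mkQ (ιl y) = 0
    rw [Submodule.mkQ_apply, Submodule.Quotient.mk_eq_zero]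
    exact ⟨y, rfl⟩
  · show Nat.card (R.V ⧸ S) < Nat.card R.V
    have h1 := Submodule.card_eq_card_quotient_mul_card S
    have h2 : 1 < Nat.card S := by
      haveI : Nontrivial S := by
        obtain ⟨m, hm⟩ : ∃ m, ι₀ m = r := by
          have hrZ : r ∈ AddSubgroup.zmultiples r := AddSubgroup.mem_zmultiples r
          exact ⟨e.symm ⟨r, hrZ⟩, by simp [ι₀]⟩
        exact ⟨⟨⟨r, ⟨m, hm⟩⟩, 0, fun h => hr0 (congrArg Subtype.val h).symm⟩⟩
      exact Finite.one_lt_card_iff_nontrivial.2 inferInstance
    haveI : Finite (R.V ⧸ S) := Finite.of_surjective S.mkQ (Submodule.mkQ_surjective S)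
    have h3 : 0 < Nat.card (R.V ⧸ S) := Nat.card_pos
    nlinarith

/-! ## The induction -/

/-- **KB-DEV-C.** -/
theorem devPGroup : DevPGroupSpec := by
  intro k Γ _ _ hk N μ p hp hμ hμtriv hμeff
  suffices H : ∀ n : ℕ, ∀ R : Rep.{0} k Γ, Finite R.V → Nat.card R.V ≤ n →
      (∀ r : R.V, p • r = 0) →
      (∃ V : N.Lvl, ActsTrivially V.W R ∧ IsPGroup p (Γ ⧸ V.W)) → EffAll N R 3 from
    fun R hfin hR hV => H _ R hfin le_rfl hR hV
  intro n
  induction n with
  | zero =>
    intro R hfin hcard hR hV V y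
    exfalso
    have := Nat.card_pos (α := R.V)
    omega
  | succ n ih =>
    intro R hfin hcard hR hV V y
    obtain ⟨V₀, hV₀, hP⟩ := hV
    by_cases hsub : Subsingleton R.V
    · exact ⟨V, le_rfl, HL_eq_zero_of_subsingleton R V.W 3 _⟩
    · haveI : Nontrivial R.V := not_subsingleton_iff_nontrivial.1 hsub
      obtain ⟨R₂, ι, π, hι, hπ, hex, hzero, hlt⟩ :=
        exists_step hk μ p hp hμ hμtriv R hR V₀.W hV₀ hP
      have hfin₂ : Finite R₂.V := Finite.of_surjective π.hom hπ
      have hR₂ : ∀ r : R₂.V, p • r = 0 := by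
        intro r
        obtain ⟨x, rfl⟩ := hπ r
        rw [← map_nsmul, hR, map_zero]
      have hV₀₂ : ActsTrivially V₀.W R₂ := by
        intro w hw r
        obtain ⟨x, rfl⟩ := hπ r
        rw [← Rep.hom_comm_apply, hV₀ w hw]
      have hE₂ : EffAll N R₂ 3 := ih R₂ hfin₂ (by omega) hR₂ ⟨V₀, hV₀₂, hP⟩
      obtain ⟨V₁, h1V, h1V₀⟩ := N.exists_le V V₀
      obtain ⟨V₂, h21, hz₁⟩ := hE₂ V₁ ((push π V₁.W 3).hom ((infl R h1V 3).hom y))
      have hpy₂ : (push π V₂.W 3).hom ((infl R h21 3).hom ((infl R h1V 3).hom y)) = 0 := by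
        rw [← push_infl_apply]
        exact hz₁
      have hW₂ : ActsTrivially V₂.W R := fun w hw b => hV₀ w (h1V₀ (h21 hw)) b
      obtain ⟨z, hz⟩ := exact_push ι π V₂.W hι hπ hex hzero hW₂ 3 _ hpy₂
      obtain ⟨V₃, h32, hz₃⟩ := hμeff V₂ z
      refine ⟨V₃, h32.trans (h21.trans h1V), ?_⟩
      have h5 : (infl R h32 3).hom ((infl R h21 3).hom ((infl R h1V 3).hom y)) = 0 := by
        rw [← hz, push_infl_apply, hz₃, map_zero]
      rw [infl_infl_apply, infl_infl_apply] at h5
      exact h5

end Fermat.Agent.S55.KL.H784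

end
-- ===== PACK-END S55/KL/DevPGroupH784.lean

-- ===== PACK-BEGIN S55/KL/H289/PImage.lean
section


/-!
# S55, layer KB, leaf KB-KUM3 (helper289), part 1: image and cokernel of `p` on a representation

For `B : Rep k G` and `p : ℕ`:
* `pSub B p = p • B` (a `G`-stable submodule), `pImg B p` the subrepresentation, `pCok B p` the
  quotient `B ⧸ p • B`;
* the short exact sequence `0 → p • B → B → B ⧸ p • B → 0` (`ses2`);
* `pMul : B ⟶ pImg B p` (multiplication by `p`), with `pMul ≫ pIncl = p • 𝟙`;
* functoriality in `(f, φ)`, `f : G' →* G`, `φ : res f B ⟶ B'`.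
-/

set_option autoImplicit false
set_option linter.style.haveILetI false

open CategoryTheory groupCohomology

namespace Fermat.Agent.S55.KL.H289

open Fermat.Agent.S55.KL

variable {k : Type} [CommRing k] {G G' G'' : Type} [Group G] [Group G'] [Group G'']

/-- The submodule `p • B`. -/
def pSub (B : Rep.{0} k G) (p : ℕ) : Submodule k B.V where
  carrier := {b | ∃ c : B.V, p • c = b}
  add_mem' := by
    rintro _ _ ⟨c, rfl⟩ ⟨d, rfl⟩
    exact ⟨c + d, smul_add _ _ _⟩
  zero_mem' := ⟨0, smul_zero _⟩
  smul_mem' := by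
    rintro r _ ⟨c, rfl⟩
    exact ⟨r • c, smul_comm _ _ _⟩

lemma mem_pSub {B : Rep.{0} k G} {p : ℕ} {b : B.V} : b ∈ pSub B p ↔ ∃ c : B.V, p • c = b :=
  Iff.rfl

lemma pSub_le_comap (B : Rep.{0} k G) (p : ℕ) (g : G) :
    pSub B p ≤ (pSub B p).comap (B.ρ g) := by
  rintro _ ⟨c, rfl⟩
  exact ⟨B.ρ g c, (map_nsmul _ _ _).symm⟩

/-- The subrepresentation `p • B`. -/
noncomputable def pImg (B : Rep.{0} k G) (p : ℕ) : Rep.{0} k G :=
  Rep.subrepresentation B (pSub B p) (pSub_le_comap B p)

/-- The quotient representation `B ⧸ p • B`. -/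
noncomputable def pCok (B : Rep.{0} k G) (p : ℕ) : Rep.{0} k G :=
  Rep.quotient B (pSub B p) (pSub_le_comap B p)

/-- The inclusion `p • B ⟶ B`. -/
noncomputable def pIncl (B : Rep.{0} k G) (p : ℕ) : pImg B p ⟶ B :=
  Rep.subtype B (pSub B p) (pSub_le_comap B p)

/-- The projection `B ⟶ B ⧸ p • B`. -/
noncomputable def pProj (B : Rep.{0} k G) (p : ℕ) : B ⟶ pCok B p :=
  Rep.mkQ B (pSub B p) (pSub_le_comap B p)

/-- Multiplication by `p`, as a linear map `B → p • B`. -/
def pMulLin (B : Rep.{0} k G) (p : ℕ) : B.V →ₗ[k] ↥(pSub B p) where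
  toFun b := ⟨p • b, b, rfl⟩
  map_add' _ _ := Subtype.ext (smul_add _ _ _)
  map_smul' _ _ := Subtype.ext (smul_comm _ _ _)

/-- Multiplication by `p`, `B ⟶ p • B`. -/
noncomputable def pMul (B : Rep.{0} k G) (p : ℕ) : B ⟶ pImg B p :=
  Rep.ofHom ⟨pMulLin B p, fun g => by
    ext b
    exact (map_nsmul (B.ρ g) p b).symm⟩

@[simp] lemma pIncl_apply (B : Rep.{0} k G) (p : ℕ) (x : (pImg B p).V) :
    (pIncl B p).hom x = (show ↥(pSub B p) from x).1 := rfl

@[simp] lemma pMul_apply_coe (B : Rep.{0} k G) (p : ℕ) (b : B.V) :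
    ((show ↥(pSub B p) from (pMul B p).hom b) : B.V) = p • b := rfl

lemma pProj_apply (B : Rep.{0} k G) (p : ℕ) (b : B.V) :
    (pProj B p).hom b = (show B.V ⧸ pSub B p from Submodule.Quotient.mk b) := rfl

lemma pProj_eq_zero_iff (B : Rep.{0} k G) (p : ℕ) (b : B.V) :
    (pProj B p).hom b = 0 ↔ ∃ c : B.V, p • c = b := by
  rw [pProj_apply]
  exact (Submodule.Quotient.mk_eq_zero (pSub B p)).trans mem_pSub

lemma pProj_surjective (B : Rep.{0} k G) (p : ℕ) : Function.Surjective (pProj B p).hom :=
  fun x => Submodule.Quotient.mk_surjective (pSub B p) x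

lemma pIncl_injective (B : Rep.{0} k G) (p : ℕ) : Function.Injective (pIncl B p).hom :=
  fun _ _ h => Subtype.ext h

lemma pMul_surjective (B : Rep.{0} k G) (p : ℕ) : Function.Surjective (pMul B p).hom := by
  rintro ⟨_, c, rfl⟩
  exact ⟨c, rfl⟩

lemma pMul_comp_pIncl (B : Rep.{0} k G) (p : ℕ) : pMul B p ≫ pIncl B p = p • 𝟙 B := by
  apply Rep.hom_ext
  apply DFunLike.ext
  intro b
  rfl

lemma pIncl_comp_pProj (B : Rep.{0} k G) (p : ℕ) : pIncl B p ≫ pProj B p = 0 := by
  apply Rep.hom_ext
  apply DFunLike.ext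
  intro b
  show (pProj B p).hom ((pIncl B p).hom b) = 0
  rw [pProj_eq_zero_iff]
  exact (show ↥(pSub B p) from b).2

/-- The short complex `p • B ⟶ B ⟶ B ⧸ p • B`. -/
noncomputable def ses2 (B : Rep.{0} k G) (p : ℕ) : ShortComplex (Rep.{0} k G) :=
  ShortComplex.mk (pIncl B p) (pProj B p) (pIncl_comp_pProj B p)

lemma ses2_shortExact (B : Rep.{0} k G) (p : ℕ) : (ses2 B p).ShortExact where
  exact := by
    rw [← ShortComplex.exact_map_iff_of_faithful _ (forget₂ (Rep k G) (ModuleCat k)),
      ShortComplex.moduleCat_exact_iff_ker_sub_range]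
    intro b hb
    have hb' : (pProj B p).hom (show B.V from b) = 0 := hb
    have hb'' := (pProj_eq_zero_iff B p (show B.V from b)).1 hb'
    exact ⟨(⟨(show B.V from b), hb''⟩ : ↥(pSub B p)), rfl⟩
  mono_f := by
    rw [Rep.mono_iff_injective]
    exact pIncl_injective B p
  epi_g := by
    rw [Rep.epi_iff_surjective]
    exact pProj_surjective B p

end Fermat.Agent.S55.KL.H289

end
-- ===== PACK-END S55/KL/H289/PImage.lean

-- ===== PACK-BEGIN S56/Euler/TrIndH206.lean
section


/-!
# Row S56 / Euler characteristic / leaf EUL-IND:TRIND — `TraceIndepStatement` (helper206)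

The trace functions `g ↦ tr(g | S_i)` of pairwise non-isomorphic simple `𝔽_p[G]`-modules are
linearly independent over `𝔽_p`.

Route (memo `coord/S56-EULER-helper366.md` §2 (I2)), all Mathlib-only:

* `exists_smul_eq_single` — Jacobson density (`jacobson_density`) on the semisimple module
  `Π i, V i`; by Schur its endomorphisms are diagonal, so every additive endomorphism of `V i₀`
  commuting with `End_A (V i₀)` is induced by some `r : A` killing the other `V j`;
* `exists_commuting_trace_ne_zero` — `D = End_A V` is a finite division ring, hence a field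
  (`littleWedderburn`), separable over the finite field `k`, so `Algebra.trace k D` is onto; the
  rank-one map `v ↦ (λ * h v) • v₀` has `k`-trace `Tr_{D/k} λ`;
* `trace_indep` — the abstract statement for modules over a `k`-algebra;
* `traceIndep : TraceIndepStatement` — transfer through `Representation.asModule`.
-/

set_option autoImplicit false
set_option linter.style.haveILetI false

noncomputable section

namespace Fermat.Agent.S56.Euler.TrIndH206

open Module

section Density

variable {A : Type*} [Ring A]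

/-- Schur: an endomorphism of a product of pairwise non-isomorphic simple modules has no
off-diagonal components. -/
theorem end_pi_single_apply_of_ne {ι : Type*} [DecidableEq ι] (V : ι → Type*)
    [∀ i, AddCommGroup (V i)] [∀ i, Module A (V i)] [∀ i, IsSimpleModule A (V i)]
    (hne : ∀ i j, Nonempty (V i ≃ₗ[A] V j) → i = j)
    (u : (∀ i, V i) →ₗ[A] (∀ i, V i)) {i j : ι} (hij : i ≠ j) (v : V i) :
    u (Pi.single i v) j = 0 := by
  let w : V i →ₗ[A] V j := (LinearMap.proj j) ∘ₗ u ∘ₗ (LinearMap.single A V i)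
  rcases w.bijective_or_eq_zero with hw | hw
  · exact absurd (hne i j ⟨LinearEquiv.ofBijective w hw⟩) hij
  · have := congrArg (fun f => f v) hw
    simpa [w] using this

/-- Jacobson density for finitely many pairwise non-isomorphic finite simple modules: every
additive endomorphism of `V i₀` commuting with `End_A (V i₀)` is induced by an element of `A`
killing all the other `V j`. -/
theorem exists_smul_eq_single {ι : Type*} [Fintype ι] (V : ι → Type*)
    [∀ i, AddCommGroup (V i)] [∀ i, Module A (V i)] [∀ i, Finite (V i)]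
    [∀ i, IsSimpleModule A (V i)]
    (hne : ∀ i j, Nonempty (V i ≃ₗ[A] V j) → i = j) (i₀ : ι)
    (φ : V i₀ →+ V i₀) (hφ : ∀ (d : Module.End A (V i₀)) (v : V i₀), φ (d v) = d (φ v)) :
    ∃ r : A, (∀ v : V i₀, r • v = φ v) ∧ ∀ j, j ≠ i₀ → ∀ v : V j, r • v = 0 := by
  classical
  let M := ∀ i, V i
  have key : ∀ (u : M →ₗ[A] M) (w : V i₀),
      u (Pi.single i₀ w) = Pi.single i₀ (u (Pi.single i₀ w) i₀) := by
    intro u w
    funext j
    by_cases hj : j = i₀
    · subst hj; simp
    · rw [Pi.single_eq_of_ne hj]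
      exact end_pi_single_apply_of_ne V hne u (Ne.symm hj) w
  have key2 : ∀ (u : M →ₗ[A] M) (m : M), u m i₀ = u (Pi.single i₀ (m i₀)) i₀ := by
    intro u m
    conv_lhs => rw [← Finset.univ_sum_single m]
    rw [map_sum, Finset.sum_apply]
    refine Finset.sum_eq_single i₀ ?_ ?_
    · intro j _ hj
      exact end_pi_single_apply_of_ne V hne u hj (m j)
    · intro h; exact absurd (Finset.mem_univ _) h
  let f : M →ₗ[Module.End A M] M :=
    { toFun := fun m => Pi.single i₀ (φ (m i₀))
      map_add' := fun m m' => by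
        show Pi.single i₀ (φ (m i₀ + m' i₀)) = _
        rw [map_add, Pi.single_add]
      map_smul' := fun u m => by
        show Pi.single i₀ (φ (u m i₀)) = u (Pi.single i₀ (φ (m i₀)))
        let u₀ : Module.End A (V i₀) := (LinearMap.proj i₀) ∘ₗ u ∘ₗ (LinearMap.single A V i₀)
        have h1 : u m i₀ = u₀ (m i₀) := key2 u m
        have h2 : u (Pi.single i₀ (φ (m i₀))) = Pi.single i₀ (u₀ (φ (m i₀))) := key u _
        rw [h1, h2, hφ] }
  haveI : Finite M := inferInstance
  letI : Fintype M := Fintype.ofFinite M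
  obtain ⟨r, hr⟩ := jacobson_density f Finset.univ
  refine ⟨r, fun v => ?_, fun j hj v => ?_⟩
  · have := congrFun (hr (Pi.single i₀ v) (Finset.mem_univ _)) i₀
    have h3 : f (Pi.single i₀ v) i₀ = φ v := by
      show (Pi.single i₀ (φ ((Pi.single i₀ v : M) i₀)) : M) i₀ = φ v
      simp
    rw [h3] at this
    rw [this]
    show r • v = r • (Pi.single i₀ v : ∀ i, V i) i₀
    rw [Pi.single_eq_same]
  · have := congrFun (hr (Pi.single j v) (Finset.mem_univ _)) j
    have h3 : f (Pi.single j v) j = 0 := by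
      show (Pi.single i₀ (φ ((Pi.single j v : M) i₀)) : M) j = 0
      rw [Pi.single_eq_of_ne hj]
    rw [h3] at this
    have h4 : r • (Pi.single j v : ∀ i, V i) j = 0 := this.symm
    rwa [Pi.single_eq_same] at h4

end Density

section Abstract

variable {k A : Type*} [Field k] [Finite k] [Ring A] [Algebra k A]

/-- On a simple module `V` over an algebra over a finite field `k` (finite-dimensional over `k`)
there is a `k`-linear endomorphism commuting with `End_A V` whose `k`-trace is nonzero. -/
theorem exists_commuting_trace_ne_zero (V : Type*) [AddCommGroup V] [Module k V] [Module A V]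
    [IsScalarTower k A V] [Module.Finite k V] [IsSimpleModule A V] :
    ∃ ψ : V →ₗ[k] V, (∀ (d : Module.End A V) (v : V), ψ (d v) = d (ψ v)) ∧
      LinearMap.trace k V ψ ≠ 0 := by
  classical
  haveI : Finite V := Module.finite_of_finite k
  haveI : Nontrivial V := IsSimpleModule.nontrivial A V
  let D := Module.End A V
  haveI : Finite D := Finite.of_injective (fun d : D => (d : V → V)) DFunLike.coe_injective
  letI : Field D := littleWedderburn D
  haveI i3 : IsScalarTower k D V := ⟨fun c d v => rfl⟩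
  obtain ⟨lam, hlam⟩ := Algebra.trace_surjective k D 1
  obtain ⟨v₀, hv₀⟩ := exists_ne (0 : V)
  let g : D →ₗ[D] V := LinearMap.toSpanSingleton D V v₀
  have hg : LinearMap.ker g = ⊥ := LinearMap.ker_toSpanSingleton D hv₀
  obtain ⟨h, hh⟩ := g.exists_leftInverse_of_injective hg
  let gk : D →ₗ[k] V := g.restrictScalars k
  let hk : V →ₗ[k] D := h.restrictScalars k
  let mk : D →ₗ[k] D := Algebra.lmul k D lam
  refine ⟨gk ∘ₗ mk ∘ₗ hk, ?_, ?_⟩
  · intro d v
    have h1 : h (d v) = d * h v := h.map_smul d v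
    show g (lam * h (d v)) = d (g (lam * h v))
    rw [h1]
    show (lam * (d * h v)) v₀ = d ((lam * h v) v₀)
    rw [← mul_assoc, mul_comm lam d, mul_assoc]
    rfl
  · rw [LinearMap.trace_comp_comm']
    have : (mk ∘ₗ hk) ∘ₗ gk = mk := by
      refine LinearMap.ext fun d => ?_
      have h2 : h (g d) = d := by
        have := congrArg (fun f => f d) hh
        simpa using this
      show lam * h (g d) = lam * d
      rw [h2]
    rw [this]
    show Algebra.trace k D lam ≠ 0
    rw [hlam]
    exact one_ne_zero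

/-- **Linear independence of traces**, abstract form: pairwise non-isomorphic simple modules
`V i` over an algebra `A` over a finite field `k`, finite-dimensional over `k`. -/
theorem trace_indep {ι : Type*} [Fintype ι] (V : ι → Type*) [∀ i, AddCommGroup (V i)]
    [∀ i, Module k (V i)] [∀ i, Module A (V i)] [∀ i, IsScalarTower k A (V i)]
    [∀ i, Module.Finite k (V i)] [∀ i, IsSimpleModule A (V i)]
    (hne : ∀ i j, Nonempty (V i ≃ₗ[A] V j) → i = j) (a : ι → k)
    (h : ∀ r : A, ∑ i, a i * LinearMap.trace k (V i) (Algebra.lsmul k k (V i) r) = 0) (i₀ : ι) :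
    a i₀ = 0 := by
  classical
  haveI : ∀ i, Finite (V i) := fun i => Module.finite_of_finite k
  obtain ⟨ψ, hψ, htr⟩ := exists_commuting_trace_ne_zero (k := k) (A := A) (V i₀)
  obtain ⟨r, hr, hr0⟩ := exists_smul_eq_single V hne i₀ ψ.toAddMonoidHom hψ
  have h1 := h r
  rw [Finset.sum_eq_single i₀] at h1
  · have h2 : Algebra.lsmul k k (V i₀) r = ψ := LinearMap.ext fun v => hr v
    rw [h2] at h1
    exact (mul_eq_zero.mp h1).resolve_right htr
  · intro j _ hj
    have h2 : Algebra.lsmul k k (V j) r = 0 := LinearMap.ext fun v => hr0 j hj v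
    rw [h2, map_zero, mul_zero]
  · intro hi; exact absurd (Finset.mem_univ _) hi

end Abstract

section Transfer

variable {k G : Type} [Field k] [Group G]

/-- A simple representation gives a simple module over the group algebra. -/
theorem isSimpleModule_asModule (S : FDRepData k G) (hS : IsSimpleRep S) :
    IsSimpleModule (MonoidAlgebra k G) S.ρ.asModule := by
  haveI : Nontrivial S.ρ.asModule := hS.1
  rw [isSimpleModule_iff]
  refine { exists_pair_ne := exists_pair_ne _, eq_bot_or_eq_top := fun W => ?_ }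
  let W' : Submodule k S.V :=
    (W.restrictScalars k).comap S.ρ.asModuleEquiv.symm.toLinearMap
  have hmem : ∀ x : S.V, x ∈ W' ↔ S.ρ.asModuleEquiv.symm x ∈ W := fun x => Iff.rfl
  have hinv : ∀ g, ∀ w ∈ W', S.ρ g w ∈ W' := by
    intro g w hw
    rw [hmem] at hw ⊢
    rw [Representation.asModuleEquiv_symm_map_rho]
    exact W.smul_mem _ hw
  rcases hS.2 W' hinv with h | h
  · left
    refine (Submodule.eq_bot_iff _).mpr fun x hx => ?_
    have h1 : S.ρ.asModuleEquiv x ∈ W' := by
      rw [hmem, LinearEquiv.symm_apply_apply]; exact hx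
    rw [h, Submodule.mem_bot] at h1
    exact (LinearEquiv.map_eq_zero_iff _).mp h1
  · right
    refine Submodule.eq_top_iff'.mpr fun x => ?_
    have h1 : S.ρ.asModuleEquiv x ∈ W' := by rw [h]; exact Submodule.mem_top
    rw [hmem, LinearEquiv.symm_apply_apply] at h1
    exact h1

/-- An isomorphism of the associated modules gives an isomorphism of representations. -/
theorem repIso_of_linearEquiv (S T : FDRepData k G)
    (e : S.ρ.asModule ≃ₗ[MonoidAlgebra k G] T.ρ.asModule) : RepIso S T := by
  refine ⟨(S.ρ.asModuleEquiv.symm.trans (e.restrictScalars k)).trans T.ρ.asModuleEquiv,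
    fun g a => ?_⟩
  show T.ρ.asModuleEquiv (e (S.ρ.asModuleEquiv.symm (S.ρ g a))) =
    T.ρ g (T.ρ.asModuleEquiv (e (S.ρ.asModuleEquiv.symm a)))
  rw [Representation.asModuleEquiv_symm_map_rho, map_smul,
    Representation.asModuleEquiv_map_smul, Representation.asAlgebraHom_of]

/-- The trace of a group element on the associated module. -/
theorem trace_lsmul_of (S : FDRepData k G) (g : G) :
    LinearMap.trace k S.ρ.asModule
        (Algebra.lsmul k k S.ρ.asModule (MonoidAlgebra.of k G g)) =
      LinearMap.trace k S.V (S.ρ g) := by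
  rw [← LinearMap.trace_conj' _ S.ρ.asModuleEquiv]
  congr 1
  refine LinearMap.ext fun v => ?_
  rw [LinearEquiv.conj_apply_apply]
  show S.ρ.asModuleEquiv (MonoidAlgebra.of k G g • S.ρ.asModuleEquiv.symm v) = _
  rw [Representation.asModuleEquiv_map_smul, Representation.asAlgebraHom_of,
    LinearEquiv.apply_symm_apply]

/-- Extension of the trace relation from `G` to the group algebra. -/
theorem sum_trace_lsmul_eq_zero {ι : Type} [Fintype ι] (S : ι → FDRepData k G) (a : ι → k)
    (h : ∀ g : G, ∑ i, a i * LinearMap.trace k (S i).V ((S i).ρ g) = 0)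
    (r : MonoidAlgebra k G) :
    ∑ i, a i * LinearMap.trace k (S i).ρ.asModule
      (Algebra.lsmul k k (S i).ρ.asModule r) = 0 := by
  induction r using MonoidAlgebra.induction_linear with
  | zero => simp
  | add x y hx hy =>
    simp only [map_add, mul_add, Finset.sum_add_distrib, hx, hy, add_zero]
  | single g c =>
    have h1 : (MonoidAlgebra.single g c : MonoidAlgebra k G) = c • MonoidAlgebra.of k G g := by
      rw [MonoidAlgebra.smul_of]
    simp only [h1, map_smul, smul_eq_mul, trace_lsmul_of]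
    have h2 : ∀ i, a i * (c * LinearMap.trace k (S i).V ((S i).ρ g)) =
        c * (a i * LinearMap.trace k (S i).V ((S i).ρ g)) := fun i => by ring
    simp only [h2, ← Finset.mul_sum, h g, mul_zero]

end Transfer

/-- **TRIND**: the traces of pairwise non-isomorphic simple `𝔽_p[G]`-modules are linearly
independent over `𝔽_p`. -/
theorem traceIndep : TraceIndepStatement := by
  intro p _ G _ _ ι _ S hS hne a h i₀
  haveI : ∀ i, IsSimpleModule (MonoidAlgebra (ZMod p) G) (S i).ρ.asModule :=
    fun i => isSimpleModule_asModule (S i) (hS i)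
  exact trace_indep (k := ZMod p) (A := MonoidAlgebra (ZMod p) G)
    (fun i => (S i).ρ.asModule)
    (fun i j ⟨e⟩ => hne i j (repIso_of_linearEquiv (S i) (S j) e)) a
    (sum_trace_lsmul_eq_zero S a h) i₀

end Fermat.Agent.S56.Euler.TrIndH206

end

end
-- ===== PACK-END S56/Euler/TrIndH206.lean

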