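import Mathlib
import Fermat.Prelude.Def_GaloisRep_Residual
import Fermat.Prelude.Def_GaloisRep_ComplexConjugation
import Fermat.Agent.Pack.S56.E4L3
import Fermat.Agent.Pack.S56.E1L1
import Fermat.Agent.Pack.S56.E4L2
import Fermat.Agent.Pack.S56.E4L0
import Fermat.Agent.Pack.S56.E3L2
import Fermat.Agent.Pack.S56.E3L1
import Fermat.Agent.Pack.S56.E3L3
import Fermat.Agent.Pack.S56.E4L1

-- ===== PACK-BEGIN S55/T/ClassModuleOfCyclicH53.lean
section




/-!
# T5d: `ClassModuleOfCyclicSpec` (helper53)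

Bridge from the numerical class-module statement (`H¹(H, C) = 0`, `H²(H, C) ≃+ ZMod |H|` for all
`H ≤ G`) to `IsClassModule C γ` for every generator `γ` of `H²(G, C)`.
-/

set_option autoImplicit false
set_option linter.style.haveILetI false

open CategoryTheory groupCohomology

namespace Fermat.Agent.S55.T.H53

/-- In a group isomorphic to `ZMod m`, every element is killed by `m`. -/
lemma nsmul_eq_zero_of_equiv_zmod {M : Type*} [AddCommGroup M] {m : ℕ} (e : M ≃+ ZMod m)
    (x : M) : m • x = 0 := by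
  apply e.injective
  rw [map_nsmul, map_zero]
  simp

/-- In a group isomorphic to `ZMod m` (`m ≠ 0`), an element of additive order `m` generates. -/
lemma exists_zsmul_of_addOrderOf_eq {M : Type*} [AddCommGroup M] {m : ℕ} (hm : m ≠ 0)
    (e : M ≃+ ZMod m) (y : M) (hy : addOrderOf y = m) (x : M) : ∃ c : ℤ, x = c • y := by
  haveI : NeZero m := ⟨hm⟩
  haveI : Finite M := Finite.of_equiv _ e.symm.toEquiv
  have hcard : Nat.card M = m := by
    rw [Nat.card_congr e.toEquiv, Nat.card_eq_fintype_card, ZMod.card]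
  have htop : AddSubgroup.zmultiples y = ⊤ := by
    apply AddSubgroup.eq_top_of_card_eq
    rw [Nat.card_zmultiples, hy, hcard]
  have hx : x ∈ AddSubgroup.zmultiples y := htop ▸ AddSubgroup.mem_top x
  obtain ⟨c, hc⟩ := AddSubgroup.mem_zmultiples_iff.1 hx
  exact ⟨c, hc.symm⟩

/-- A generator of a group isomorphic to `ZMod m` has additive order `m`. -/
lemma addOrderOf_eq_of_generates {M : Type*} [AddCommGroup M] {m : ℕ} (hm : m ≠ 0)
    (e : M ≃+ ZMod m) (γ : M) (hγ : ∀ x : M, ∃ c : ℤ, x = c • γ) : addOrderOf γ = m := by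
  haveI : NeZero m := ⟨hm⟩
  haveI : Finite M := Finite.of_equiv _ e.symm.toEquiv
  have hcard : Nat.card M = m := by
    rw [Nat.card_congr e.toEquiv, Nat.card_eq_fintype_card, ZMod.card]
  have htop : AddSubgroup.zmultiples γ = ⊤ := by
    rw [eq_top_iff]
    intro x _
    obtain ⟨c, hc⟩ := hγ x
    exact AddSubgroup.mem_zmultiples_iff.2 ⟨c, hc.symm⟩
  rw [← Nat.card_zmultiples, htop, ← hcard]
  exact AddSubgroup.card_top (G := M)


section Top

variable {k G : Type} [CommRing k] [Group G] (C : Rep.{0} k G)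

/-- `Hⁿ(⊤, C) ≅ Hⁿ(G, C)` (restriction to the top subgroup is an isomorphism). -/
noncomputable def topIso (n : ℕ) :
    groupCohomology (resSub C (⊤ : Subgroup G)) n ≅ groupCohomology C n :=
  groupCohomology.mapIso (A := C) (B := resSub C (⊤ : Subgroup G))
    (Subgroup.topEquiv (G := G)) (LinearEquiv.refl k C.V) (fun _ => rfl) n

end Top

section Main

variable {G : Type} [Group G] [Finite G] (C : Rep.{0} ℤ G)

theorem classModule_of_generator
    (hH1 : ∀ H : Subgroup G, Limits.IsZero (groupCohomology (resSub C H) 1))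
    (hH2 : ∀ H : Subgroup G, Nonempty (groupCohomology (resSub C H) 2 ≃+ ZMod (Nat.card H)))
    (γ : groupCohomology C 2) (hγ : ∀ x : groupCohomology C 2, ∃ c : ℤ, x = c • γ) :
    IsClassModule C γ := by
  classical
  -- the order of `γ` is `|G|`
  have hG0 : Nat.card G ≠ 0 := Nat.card_pos.ne'
  obtain ⟨eT⟩ := hH2 ⊤
  have eG : groupCohomology C 2 ≃+ ZMod (Nat.card G) :=
    ((topIso C 2).symm.toLinearEquiv.toAddEquiv.trans eT).trans
      (ZMod.ringEquivCongr (Subgroup.card_top (G := G))).toAddEquiv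
  have hord : addOrderOf γ = Nat.card G := addOrderOf_eq_of_generates hG0 eG γ hγ
  intro H
  obtain ⟨eH⟩ := hH2 H
  have hH0 : Nat.card H ≠ 0 := Nat.card_pos.ne'
  set y := (resMap C H 2).hom γ with hy
  have h4 : Nat.card H • y = 0 := nsmul_eq_zero_of_equiv_zmod eH y
  have h3 : ∀ c : ℤ, c • y = 0 → (Nat.card H : ℤ) ∣ c := by
    intro c hc
    have hres : (resMap C H 2).hom (c • γ) = 0 := by
      rw [map_zsmul]; exact hc
    have hidx : H.index • (c • γ) = 0 :=
      Fermat.Agent.S55.H119.index_nsmul_eq_zero_of_resMap_eq_zero_two C H (c • γ) hres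
    have hz : ((H.index : ℤ) * c) • γ = 0 := by
      rw [mul_smul, natCast_zsmul]; exact hidx
    have hdvd : (Nat.card G : ℤ) ∣ (H.index : ℤ) * c := by
      rw [← hord]; exact (addOrderOf_dvd_iff_zsmul_eq_zero).2 hz
    have hmul : (Nat.card G : ℤ) = (H.index : ℤ) * (Nat.card H : ℤ) := by
      rw [← Nat.cast_mul, mul_comm, Subgroup.card_mul_index]
    rw [hmul] at hdvd
    have hidx0 : (H.index : ℤ) ≠ 0 := by
      exact_mod_cast (Subgroup.index_ne_zero_of_finite (H := H))
    exact (mul_dvd_mul_iff_left hidx0).1 hdvd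
  have hordy : addOrderOf y = Nat.card H := by
    apply Nat.dvd_antisymm
    · exact addOrderOf_dvd_of_nsmul_eq_zero h4
    · have := h3 (addOrderOf y) (by rw [natCast_zsmul]; exact addOrderOf_nsmul_eq_zero y)
      exact_mod_cast this
  refine ⟨hH1 H, ?_, ?_, ?_⟩
  · intro x
    obtain ⟨c, hc⟩ := exists_zsmul_of_addOrderOf_eq hH0 eH y hordy x
    exact ⟨c, by rw [modSMul_eq_zsmul]; exact hc⟩
  · intro c hc
    rw [modSMul_eq_zsmul] at hc
    obtain ⟨d, hd⟩ := h3 c hc
    exact ⟨d, by rw [hd]⟩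
  · rw [modSMul_eq_zsmul]
    have : ((Nat.card H : ℕ) : ℤ) • y = 0 := by rw [natCast_zsmul]; exact h4
    simpa using this

theorem classModuleOfCyclic : ClassModuleOfCyclicSpec := by
  intro G _ _ C hH1 hH2
  have hG0 : Nat.card G ≠ 0 := Nat.card_pos.ne'
  obtain ⟨eT⟩ := hH2 ⊤
  have eG : groupCohomology C 2 ≃+ ZMod (Nat.card G) :=
    ((topIso C 2).symm.toLinearEquiv.toAddEquiv.trans eT).trans
      (ZMod.ringEquivCongr (Subgroup.card_top (G := G))).toAddEquiv
  refine ⟨⟨eG.symm 1, classModule_of_generator C hH1 hH2 _ ?_⟩,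
    fun γ hγ => classModule_of_generator C hH1 hH2 γ hγ⟩
  intro x
  haveI : NeZero (Nat.card G) := ⟨hG0⟩
  refine ⟨((eG x).val : ℤ), ?_⟩
  apply eG.injective
  rw [map_zsmul, AddEquiv.apply_symm_apply]
  simp

end Main

end Fermat.Agent.S55.T.H53

end
-- ===== PACK-END S55/T/ClassModuleOfCyclicH53.lean

-- ===== PACK-BEGIN S55/T/InfRes2H954.lean
section



/-!
# T3: inflation–restriction in degree 2 — `InfRes2Spec` (helper954)
-/

set_option autoImplicit false

namespace Fermat.Agent.S55.T.H954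

open CategoryTheory groupCohomology Fermat.Agent.S55.H954

/-- **T3** (`InfRes2Spec`), unconditional. -/
theorem infRes2 : InfRes2Spec := by
  intro k G _ _ _ A S _ hz
  have h : ∀ x : H1 (Rep.res S.subtype A), x = 0 := fun x =>
    (ModuleCat.isZero_iff_subsingleton.1 hz).elim x 0
  refine ⟨inf_injective A S h, fun y => ?_, fun x hx => exists_inf_eq_of_res_eq_zero A S h x hx⟩
  have := (H2InfRes A S).zero
  exact congr($this y)

end Fermat.Agent.S55.T.H954

end
-- ===== PACK-END S55/T/InfRes2H954.lean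

-- ===== PACK-BEGIN S55/H604/SUnitSpan.lean
section


/-!
# S55 / HQU (B4): the logarithmic image of the `S`-units spans the sum-zero hyperplane
-/

set_option autoImplicit false

open NumberField IsDedekindDomain

namespace Fermat.Agent.S55.H604

variable (L : Type*) [Field L] [NumberField L] (S : Finset (HeightOneSpectrum (𝓞 L)))

/-- The sum-zero hyperplane of `ℝ^(∞ ⊔ S)`. -/
noncomputable def hyperplane : Submodule ℝ (PlaceIdx L S → ℝ) :=
  LinearMap.ker (∑ t : PlaceIdx L S, LinearMap.proj t : (PlaceIdx L S → ℝ) →ₗ[ℝ] ℝ)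

lemma mem_hyperplane {f : PlaceIdx L S → ℝ} : f ∈ hyperplane L S ↔ ∑ t, f t = 0 := by
  simp [hyperplane, LinearMap.mem_ker, LinearMap.sum_apply]

variable {L}

lemma valuation_unit_eq_one (v : HeightOneSpectrum (𝓞 L)) (u : (𝓞 L)ˣ) :
    v.valuation L (((u : 𝓞 L) : L)) = 1 := by
  rw [HeightOneSpectrum.valuation_eq_one_iff_notMem]
  intro h
  exact v.isPrime.ne_top (Ideal.eq_top_of_isUnit_mem _ h u.isUnit)

variable (L)

/-- units of `𝓞 L` as `S`-units. -/
noncomputable def unitToSUnit : (𝓞 L)ˣ →* SUnit L S :=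
  (Units.map ((algebraMap (𝓞 L) L : 𝓞 L →+* L) : 𝓞 L →* L)).codRestrict (SUnit L S)
    (fun u v _ => valuation_unit_eq_one v u)

@[simp] lemma coe_unitToSUnit (u : (𝓞 L)ˣ) :
    (((unitToSUnit L S u : SUnit L S) : Lˣ) : L) = ((u : 𝓞 L) : L) := rfl

lemma logS_unit_inl (u : (𝓞 L)ˣ) (w : InfinitePlace L) :
    logS L S (Additive.ofMul (unitToSUnit L S u)) (Sum.inl w) =
      (w.mult : ℝ) * Real.log (w ((u : 𝓞 L) : L)) := rfl

lemma logS_unit_inr (u : (𝓞 L)ˣ) (v : {v : HeightOneSpectrum (𝓞 L) // v ∈ S}) :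
    logS L S (Additive.ofMul (unitToSUnit L S u)) (Sum.inr v) = 0 := by
  rw [logS_apply, logComp_inr]
  have : FinitePlace.mk v.1 (((u : 𝓞 L) : L)) = 1 :=
    (finitePlace_mk_eq_one_iff v.1 _).2 (valuation_unit_eq_one v.1 u)
  simp only [toMul_ofMul, coe_unitToSUnit]
  rw [this, Real.log_one]


variable {L}

lemma finitePlace_mk_lt_one_iff (v : HeightOneSpectrum (𝓞 L)) (x : L) :
    FinitePlace.mk v x < 1 ↔ v.valuation L x < 1 := by
  rw [lt_iff_le_and_ne, lt_iff_le_and_ne, finitePlace_mk_le_one_iff, Ne, Ne,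
    finitePlace_mk_eq_one_iff]

/-- a generator of a power of the prime `v`: an element of `𝓞 L` which is a non-unit exactly
at `v`. -/
lemma exists_generator_pow (v : HeightOneSpectrum (𝓞 L)) :
    ∃ a : 𝓞 L, a ≠ 0 ∧ v.valuation L (a : L) < 1 ∧
      ∀ v' : HeightOneSpectrum (𝓞 L), v' ≠ v → v'.valuation L (a : L) = 1 := by
  classical
  set h : ℕ := Fintype.card (ClassGroup (𝓞 L)) with hh
  have hpos : 0 < h := Fintype.card_pos
  have hI0 : v.asIdeal ≠ ⊥ := v.ne_bot
  have hmem : v.asIdeal ∈ nonZeroDivisors (Ideal (𝓞 L)) := mem_nonZeroDivisors_of_ne_zero hI0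
  have hmemh : v.asIdeal ^ h ∈ nonZeroDivisors (Ideal (𝓞 L)) := pow_mem hmem h
  have hprinc : (v.asIdeal ^ h).IsPrincipal := by
    rw [← ClassGroup.mk0_eq_one_iff hmemh]
    have : (⟨v.asIdeal ^ h, hmemh⟩ : nonZeroDivisors (Ideal (𝓞 L))) = ⟨v.asIdeal, hmem⟩ ^ h := by
      ext; rfl
    rw [this, map_pow, hh]
    exact pow_card_eq_one
  obtain ⟨a, ha⟩ := hprinc.principal
  have ha' : v.asIdeal ^ h = Ideal.span {a} := ha
  have ha0 : a ≠ 0 := by
    rintro rfl
    have : v.asIdeal ^ h = ⊥ := by rw [ha']; simp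
    exact hI0 (pow_eq_zero_iff hpos.ne' |>.1 this)
  have key : ∀ v' : HeightOneSpectrum (𝓞 L), a ∈ v'.asIdeal ↔ v' = v := by
    intro v'
    rw [← Ideal.span_singleton_le_iff_mem, ← ha', Ideal.IsPrime.pow_le_iff hpos.ne']
    constructor
    · intro hle
      exact HeightOneSpectrum.ext (v.isMaximal.eq_of_le v'.isPrime.ne_top hle).symm
    · rintro rfl
      exact le_rfl
  refine ⟨a, ha0, ?_, ?_⟩
  · rw [HeightOneSpectrum.valuation_lt_one_iff_mem]
    exact (key v).2 rfl
  · intro v' hv'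
    rw [HeightOneSpectrum.valuation_eq_one_iff_notMem]
    exact fun hm => hv' ((key v').1 hm)

variable (L)

/-- for `v ∈ S` there is an `S`-unit whose logarithm is nonzero at `v` and zero at the other
places of `S`. -/
lemma exists_sUnit_single (v : {v : HeightOneSpectrum (𝓞 L) // v ∈ S}) :
    ∃ x : Additive (SUnit L S), logS L S x (Sum.inr v) ≠ 0 ∧
      ∀ v' : {v : HeightOneSpectrum (𝓞 L) // v ∈ S}, v' ≠ v → logS L S x (Sum.inr v') = 0 := by
  obtain ⟨a, ha0, ha1, ha2⟩ := exists_generator_pow v.1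
  have haL : ((a : 𝓞 L) : L) ≠ 0 := by
    simp [ha0]
  have hmem : Units.mk0 ((a : 𝓞 L) : L) haL ∈ SUnit L S := by
    intro v' hv'
    refine ha2 v' ?_
    rintro rfl
    exact hv' (Finset.mem_coe.2 v.2)
  refine ⟨Additive.ofMul ⟨Units.mk0 _ haL, hmem⟩, ?_, ?_⟩
  · rw [logS_apply, logComp_inr]
    simp only [toMul_ofMul, Units.val_mk0]
    have h1 : FinitePlace.mk v.1 ((a : 𝓞 L) : L) < 1 := (finitePlace_mk_lt_one_iff v.1 _).2 ha1
    exact (Real.log_neg (finitePlace_mk_pos v.1 haL) h1).ne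
  · intro v' hv'
    rw [logS_apply, logComp_inr]
    simp only [toMul_ofMul, Units.val_mk0]
    have h1 : FinitePlace.mk v'.1 ((a : 𝓞 L) : L) = 1 :=
      (finitePlace_mk_eq_one_iff v'.1 _).2 (ha2 v'.1 (fun h => hv' (Subtype.ext h)))
    rw [h1, Real.log_one]


open NumberField.Units NumberField.Units.dirichletUnitTheorem in
/-- restriction of a function on `∞ ⊔ S` to the infinite places different from `w₀`. -/
noncomputable def restrictInf : (PlaceIdx L S → ℝ) →ₗ[ℝ] logSpace L :=
  LinearMap.funLeft ℝ ℝ (fun w : {w : InfinitePlace L // w ≠ w₀} => (Sum.inl w.1 : PlaceIdx L S))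

open NumberField.Units NumberField.Units.dirichletUnitTheorem in
lemma restrictInf_apply (f : PlaceIdx L S → ℝ) (w : {w : InfinitePlace L // w ≠ w₀}) :
    restrictInf L S f w = f (Sum.inl w.1) := rfl

open NumberField.Units NumberField.Units.dirichletUnitTheorem in
lemma restrictInf_logS_unit (u : (𝓞 L)ˣ) :
    restrictInf L S (logS L S (Additive.ofMul (unitToSUnit L S u))) =
      logEmbedding L (Additive.ofMul u) := rfl

/-- the span of the logarithms of the units. -/
noncomputable def unitSpan : Submodule ℝ (PlaceIdx L S → ℝ) :=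
  Submodule.span ℝ (Set.range fun u : (𝓞 L)ˣ => logS L S (Additive.ofMul (unitToSUnit L S u)))

lemma unitSpan_le : unitSpan L S ≤ Submodule.span ℝ (Set.range (logS L S)) := by
  refine Submodule.span_mono ?_
  rintro _ ⟨u, rfl⟩
  exact ⟨_, rfl⟩

lemma span_logS_le : Submodule.span ℝ (Set.range (logS L S)) ≤ hyperplane L S := by
  rw [Submodule.span_le]
  rintro _ ⟨x, rfl⟩
  exact (mem_hyperplane L S).2 (sum_logS L S x)

lemma unitSpan_inr {f : PlaceIdx L S → ℝ} (hf : f ∈ unitSpan L S)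
    (v : {v : HeightOneSpectrum (𝓞 L) // v ∈ S}) : f (Sum.inr v) = 0 := by
  have hle : unitSpan L S ≤ LinearMap.ker (LinearMap.proj (Sum.inr v : PlaceIdx L S) :
      (PlaceIdx L S → ℝ) →ₗ[ℝ] ℝ) := by
    rw [unitSpan, Submodule.span_le]
    rintro _ ⟨u, rfl⟩
    exact logS_unit_inr L S u v
  exact hle hf

open NumberField.Units NumberField.Units.dirichletUnitTheorem in
lemma map_restrictInf_unitSpan : Submodule.map (restrictInf L S) (unitSpan L S) = ⊤ := by
  rw [unitSpan, Submodule.map_span, ← Set.range_comp]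
  rw [eq_top_iff, ← unitLattice_span_eq_top L]
  refine Submodule.span_mono ?_
  rintro _ ⟨x, -, rfl⟩
  exact ⟨Additive.toMul x, rfl⟩

open NumberField.Units NumberField.Units.dirichletUnitTheorem in
/-- a sum-zero function vanishing on `S` is in the span of the logarithms of units. -/
lemma mem_unitSpan_of_inr_eq_zero {f : PlaceIdx L S → ℝ} (hf : f ∈ hyperplane L S)
    (hS : ∀ v, f (Sum.inr v) = 0) : f ∈ unitSpan L S := by
  classical
  have h1 : restrictInf L S f ∈ Submodule.map (restrictInf L S) (unitSpan L S) := by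
    rw [map_restrictInf_unitSpan]; trivial
  obtain ⟨g, hg, hgf⟩ := h1
  have hgH : g ∈ hyperplane L S := span_logS_le L S (unitSpan_le L S hg)
  suffices f = g by rw [this]; exact hg
  have hd : ∀ t : PlaceIdx L S, t ≠ Sum.inl w₀ → (f - g) t = 0 := by
    intro t ht
    cases t with
    | inl w =>
      have hw : w ≠ w₀ := fun h => ht (by rw [h])
      have := congrFun hgf ⟨w, hw⟩
      simp only [restrictInf_apply] at this
      simp [this]
    | inr v => simp [hS v, unitSpan_inr L S hg v]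
  have hsum : ∑ t, (f - g) t = 0 := by
    have := (mem_hyperplane L S).1 (Submodule.sub_mem _ hf hgH)
    exact this
  rw [Finset.sum_eq_single (Sum.inl w₀ : PlaceIdx L S) (fun t _ ht => hd t ht)
    (fun h => absurd (Finset.mem_univ _) h)] at hsum
  funext t
  by_cases ht : t = Sum.inl w₀
  · rw [ht]; exact sub_eq_zero.1 hsum
  · exact sub_eq_zero.1 (hd t ht)

/-- **(B4)** the logarithms of the `S`-units span the sum-zero hyperplane. -/
theorem span_logS : Submodule.span ℝ (Set.range (logS L S)) = hyperplane L S := by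
  classical
  refine le_antisymm (span_logS_le L S) ?_
  intro f hf
  choose x hx1 hx2 using exists_sUnit_single L S
  set W := Submodule.span ℝ (Set.range (logS L S)) with hW
  have hxW : ∀ v, logS L S (x v) ∈ W := fun v => Submodule.subset_span ⟨_, rfl⟩
  set g : PlaceIdx L S → ℝ :=
    ∑ v : {v : HeightOneSpectrum (𝓞 L) // v ∈ S},
      (f (Sum.inr v) / logS L S (x v) (Sum.inr v)) • logS L S (x v) with hg
  have hgW : g ∈ W := Submodule.sum_mem _ fun v _ => Submodule.smul_mem _ _ (hxW v)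
  have hgS : ∀ v, g (Sum.inr v) = f (Sum.inr v) := by
    intro v
    rw [hg, Finset.sum_apply, Finset.sum_eq_single v]
    · simp only [Pi.smul_apply, smul_eq_mul]
      exact div_mul_cancel₀ _ (hx1 v)
    · intro v' _ hv'
      simp only [Pi.smul_apply, smul_eq_mul]
      rw [hx2 v' v (Ne.symm hv'), mul_zero]
    · intro h; exact absurd (Finset.mem_univ _) h
  have hfg : f - g ∈ unitSpan L S := by
    refine mem_unitSpan_of_inr_eq_zero L S
      (Submodule.sub_mem _ hf (span_logS_le L S hgW)) fun v => ?_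
    simp [hgS v]
  have := Submodule.add_mem _ (unitSpan_le L S hfg) hgW
  simpa using this

end Fermat.Agent.S55.H604

end
-- ===== PACK-END S55/H604/SUnitSpan.lean

-- ===== PACK-BEGIN S55/H963/Ray.lean
section


/-!
# S55 / leaf RAY-N1 (helper963): ray data and smoothed sums over congruence classes

A `RayDatum K A` is a modulus `m` together with a map `ψ` from ideals to a commutative group `A`
which is multiplicative on ideals coprime to `m` and trivial on principal ideals `(x)` with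
`x ≡ 1 mod m` (a "ray class character datum").

For an ideal `J₀` coprime to `m` and `b : A` we show
`N(J₀) N(m) ∑_{x ∈ J₀, (x) coprime to m, ψ(x) = b} F s x = #Θ_b * Φ(s) + O(1)`
where `Θ_b ⊆ 𝓞 K / m` does not depend on `J₀`.
-/

set_option autoImplicit false

namespace Fermat.Agent.S55.H963

open NumberField

/-- A ray class datum: a modulus and a map on ideals, multiplicative on ideals coprime to the
modulus and trivial on the ray `x ≡ 1 mod m`. -/
structure RayDatum (K : Type*) [Field K] [NumberField K] (A : Type*) [CommGroup A] where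
  /-- the modulus -/
  m : Ideal (𝓞 K)
  m_ne_bot : m ≠ ⊥
  /-- the class map; only its values on ideals coprime to `m` matter -/
  ψ : Ideal (𝓞 K) → A
  map_mul : ∀ I J : Ideal (𝓞 K), IsCoprime I m → IsCoprime J m → ψ (I * J) = ψ I * ψ J
  map_principal : ∀ x : 𝓞 K, x - 1 ∈ m → ψ (Ideal.span {x}) = 1

variable {K : Type*} [Field K] [NumberField K] {A : Type*} [CommGroup A]

namespace RayDatum

variable (D : RayDatum K A)

theorem isCoprime_span_iff {x : 𝓞 K} :
    IsCoprime (Ideal.span {x}) D.m ↔ ∃ z : 𝓞 K, x * z - 1 ∈ D.m := by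
  rw [Ideal.isCoprime_iff_exists]
  constructor
  · rintro ⟨i, hi, j, hj, hij⟩
    obtain ⟨z, rfl⟩ := Ideal.mem_span_singleton'.mp hi
    refine ⟨z, ?_⟩
    have : x * z - 1 = -j := by rw [← hij, mul_comm]; ring
    rw [this]
    exact D.m.neg_mem hj
  · rintro ⟨z, hz⟩
    refine ⟨x * z, Ideal.mem_span_singleton'.mpr ⟨z, mul_comm _ _⟩, -(x * z - 1),
      D.m.neg_mem hz, by ring⟩

/-- `x` is prime to the modulus and its principal ideal has class `b`. -/
def Good (x : 𝓞 K) (b : A) : Prop :=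
  IsCoprime (Ideal.span {x}) D.m ∧ D.ψ (Ideal.span {x}) = b

theorem good_of_sub_mem {x y : 𝓞 K} {b : A} (h : x - y ∈ D.m) (hx : D.Good x b) :
    D.Good y b := by
  obtain ⟨hcx, hψ⟩ := hx
  obtain ⟨z, hz⟩ := D.isCoprime_span_iff.mp hcx
  have hyz : y * z - 1 ∈ D.m := by
    have : y * z - 1 = (x * z - 1) - (x - y) * z := by ring
    rw [this]
    exact D.m.sub_mem hz (D.m.mul_mem_right _ h)
  have hcy : IsCoprime (Ideal.span {y}) D.m := D.isCoprime_span_iff.mpr ⟨z, hyz⟩
  have hcz : IsCoprime (Ideal.span {z}) D.m :=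
    D.isCoprime_span_iff.mpr ⟨x, by rwa [mul_comm]⟩
  refine ⟨hcy, ?_⟩
  have h1 : D.ψ (Ideal.span {x}) * D.ψ (Ideal.span {z}) = 1 := by
    rw [← D.map_mul _ _ hcx hcz, Ideal.span_singleton_mul_span_singleton]
    exact D.map_principal _ hz
  have h2 : D.ψ (Ideal.span {y}) * D.ψ (Ideal.span {z}) = 1 := by
    rw [← D.map_mul _ _ hcy hcz, Ideal.span_singleton_mul_span_singleton]
    exact D.map_principal _ hyz
  rw [← hψ]
  exact mul_right_cancel (h2.trans h1.symm)

theorem good_iff_of_sub_mem {x y : 𝓞 K} {b : A} (h : x - y ∈ D.m) :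
    D.Good x b ↔ D.Good y b :=
  ⟨D.good_of_sub_mem h, D.good_of_sub_mem (by
    have : y - x = -(x - y) := by ring
    rw [this]; exact D.m.neg_mem h)⟩

/-- The residues mod `m` of the elements prime to `m` whose principal ideal has class `b`. -/
def theta (b : A) : Set (𝓞 K ⧸ D.m) :=
  {r | ∃ x : 𝓞 K, Ideal.Quotient.mk D.m x = r ∧ D.Good x b}

/-- The set of ideals contained in `J₀`, prime to `m`, of class `b`. -/
def below (J₀ : Ideal (𝓞 K)) (b : A) : Set (Ideal (𝓞 K)) :=
  {J | J ≤ J₀ ∧ IsCoprime J D.m ∧ D.ψ J = b}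

/-- The condition cutting out the cosets of `J₀ ⊓ m` inside `{x ∈ J₀ | Good x b}`. -/
def CosetCond (J₀ : Ideal (𝓞 K)) (b : A) (q : 𝓞 K ⧸ (J₀ ⊓ D.m)) : Prop :=
  Quotient.out q ∈ J₀ ∧ D.Good (Quotient.out q) b

theorem mem_and_good_add_iff (J₀ : Ideal (𝓞 K)) (b : A) (t : 𝓞 K) (y : (J₀ ⊓ D.m : Ideal (𝓞 K))) :
    (((y : 𝓞 K) + t) ∈ J₀ ∧ D.Good ((y : 𝓞 K) + t) b) ↔ (t ∈ J₀ ∧ D.Good t b) := by
  have hy0 : (y : 𝓞 K) ∈ J₀ := (Ideal.mem_inf.mp y.2).1
  have hym : (y : 𝓞 K) ∈ D.m := (Ideal.mem_inf.mp y.2).2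
  have h1 : ((y : 𝓞 K) + t) ∈ J₀ ↔ t ∈ J₀ := by
    constructor
    · intro h
      have : t = ((y : 𝓞 K) + t) - y := by ring
      rw [this]
      exact J₀.sub_mem h hy0
    · intro h
      exact J₀.add_mem hy0 h
  have h2 : D.Good ((y : 𝓞 K) + t) b ↔ D.Good t b :=
    D.good_iff_of_sub_mem (by
      have : (y : 𝓞 K) + t - t = y := by ring
      rw [this]; exact hym)
  rw [h1, h2]

/-- The counting bijection between the good cosets of `J₀ ⊓ m` in `J₀` and `theta b`. -/
theorem card_cosetCond (J₀ : Ideal (𝓞 K)) (hJ₀ : IsCoprime J₀ D.m) (b : A) :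
    Nat.card {q : 𝓞 K ⧸ (J₀ ⊓ D.m) // D.CosetCond J₀ b q} = Nat.card (D.theta b) := by
  refine Nat.card_congr (Equiv.ofBijective
    (fun q => ⟨Ideal.Quotient.mk D.m (Quotient.out q.1), Quotient.out q.1, rfl, q.2.2⟩) ⟨?_, ?_⟩)
  · rintro ⟨q, hq⟩ ⟨q', hq'⟩ h
    have h' : Ideal.Quotient.mk D.m (Quotient.out q) = Ideal.Quotient.mk D.m (Quotient.out q') :=
      congrArg Subtype.val h
    rw [Ideal.Quotient.eq] at h'
    have h2 : Quotient.out q - Quotient.out q' ∈ J₀ ⊓ D.m :=
      Ideal.mem_inf.mpr ⟨J₀.sub_mem hq.1 hq'.1, h'⟩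
    apply Subtype.ext
    have h3 := (Ideal.Quotient.eq (I := J₀ ⊓ D.m)).mpr h2
    rwa [Ideal.Quotient.mk_out, Ideal.Quotient.mk_out] at h3
  · rintro ⟨r, x, rfl, hx⟩
    obtain ⟨i, hi, j, hj, hij⟩ := Ideal.isCoprime_iff_exists.mp hJ₀
    set t : 𝓞 K := x * i with ht
    have htJ : t ∈ J₀ := J₀.mul_mem_left _ hi
    have htx : t - x ∈ D.m := by
      have : t - x = -(x * j) := by rw [ht]; linear_combination x * hij
      rw [this]
      exact D.m.neg_mem (D.m.mul_mem_left _ hj)
    set q : 𝓞 K ⧸ (J₀ ⊓ D.m) := Ideal.Quotient.mk _ t with hq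
    have hout : Quotient.out q - t ∈ J₀ ⊓ D.m := by
      rw [← Ideal.Quotient.eq, Ideal.Quotient.mk_out]
    have hout0 : Quotient.out q ∈ J₀ := by
      have : Quotient.out q = (Quotient.out q - t) + t := by ring
      rw [this]
      exact J₀.add_mem (Ideal.mem_inf.mp hout).1 htJ
    have houtx : Quotient.out q - x ∈ D.m := by
      have : Quotient.out q - x = (Quotient.out q - t) + (t - x) := by ring
      rw [this]
      exact D.m.add_mem (Ideal.mem_inf.mp hout).2 htx
    have hgood : D.Good (Quotient.out q) b :=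
      D.good_of_sub_mem (by
        have : x - Quotient.out q = -(Quotient.out q - x) := by ring
        rw [this]; exact D.m.neg_mem houtx) hx
    refine ⟨⟨q, hout0, hgood⟩, ?_⟩
    apply Subtype.ext
    exact (Ideal.Quotient.eq (I := D.m)).mpr houtx

theorem inf_ne_bot {J₀ : Ideal (𝓞 K)} (hJ₀ : J₀ ≠ ⊥) : J₀ ⊓ D.m ≠ ⊥ := by
  intro h
  have h1 : J₀ * D.m ≤ J₀ ⊓ D.m := Ideal.mul_le_inf
  rw [h, le_bot_iff] at h1
  rcases mul_eq_zero.mp h1 with h2 | h2
  · exact hJ₀ h2
  · exact D.m_ne_bot h2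

theorem absNorm_inf {J₀ : Ideal (𝓞 K)} (hJ₀ : IsCoprime J₀ D.m) :
    Ideal.absNorm (J₀ ⊓ D.m) = Ideal.absNorm J₀ * Ideal.absNorm D.m := by
  rw [← Ideal.mul_eq_inf_of_isCoprime hJ₀, _root_.map_mul]

end RayDatum

end Fermat.Agent.S55.H963

end
-- ===== PACK-END S55/H963/Ray.lean

-- ===== PACK-BEGIN S55/G/Rec/Loc/Defs.lean
section



/-!
# S55 / layer G / block REC / sub-block LOC : definitions

Bridge between the two frozen local interfaces

* `Fermat.Agent.S55.L.InvFamily` (helper54): invariant maps `inv_{L/K}` on Mathlib's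
  `H2 (unitsRep K L)` for FINITE Galois extensions `L/K` of abstract local fields;
* `Fermat.Agent.S55.G.Rec.LocalInvSystem` (helper1): invariant maps on the ABSOLUTE Brauer groups
  `lBr q V = H²_cont(V, ℚ̄_qˣ)` (level-constant cochains on `V ≤ Gal(ℚ̄_q/ℚ_q)`).

Finite levels of `V`: `K_V := fixedFld q V` (fixed field of `V` in `PadicAlgCl q`) and the
intermediate fields `E : IntermediateField K_V (PadicAlgCl q)`, finite Galois over `K_V`.
`resHom q V E : V →* Gal(E/K_V)` is restriction, `IsAbsInflation q V E f c` says that the level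
cocycle `c` on `V` is the inflation of the finite-level cocycle `f` on `Gal(E/K_V)`.
-/

set_option autoImplicit false

noncomputable section

namespace Fermat.Agent.S55.G.Rec.Loc

open groupCohomology

variable (q : ℕ) [Fact q.Prime]

/-- The fixed field `K_V` of `V ≤ Gal(ℚ̄_q/ℚ_q)`. -/
abbrev fixedFld (V : Subgroup (PadicAlgCl q ≃ₐ[ℚ_[q]] PadicAlgCl q)) :
    IntermediateField ℚ_[q] (PadicAlgCl q) :=
  IntermediateField.fixedField V

lemma le_fixingSubgroup_fixedFld (V : Subgroup (PadicAlgCl q ≃ₐ[ℚ_[q]] PadicAlgCl q)) :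
    V ≤ (fixedFld q V).fixingSubgroup :=
  (IntermediateField.le_iff_le V (fixedFld q V)).1 le_rfl

/-- `V → Gal(ℚ̄_q / K_V)`. -/
def toAbsGal (V : Subgroup (PadicAlgCl q ≃ₐ[ℚ_[q]] PadicAlgCl q)) :
    ↥V →* (PadicAlgCl q ≃ₐ[fixedFld q V] PadicAlgCl q) :=
  (IntermediateField.fixingSubgroupEquiv (fixedFld q V)).toMonoidHom.comp
    (Subgroup.inclusion (le_fixingSubgroup_fixedFld q V))

@[simp] lemma toAbsGal_apply (V : Subgroup (PadicAlgCl q ≃ₐ[ℚ_[q]] PadicAlgCl q)) (σ : ↥V)
    (x : PadicAlgCl q) : toAbsGal q V σ x = (σ : PadicAlgCl q ≃ₐ[ℚ_[q]] PadicAlgCl q) x := rfl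

/-- Restriction `V → Gal(E / K_V)` for `E / K_V` normal. -/
def resHom (V : Subgroup (PadicAlgCl q ≃ₐ[ℚ_[q]] PadicAlgCl q))
    (E : IntermediateField (fixedFld q V) (PadicAlgCl q)) [Normal (fixedFld q V) E] :
    ↥V →* (E ≃ₐ[fixedFld q V] E) :=
  (AlgEquiv.restrictNormalHom E).comp (toAbsGal q V)

lemma resHom_apply_coe (V : Subgroup (PadicAlgCl q ≃ₐ[ℚ_[q]] PadicAlgCl q))
    (E : IntermediateField (fixedFld q V) (PadicAlgCl q)) [Normal (fixedFld q V) E]
    (σ : ↥V) (x : E) :
    ((resHom q V E σ x : E) : PadicAlgCl q) =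
      (σ : PadicAlgCl q ≃ₐ[ℚ_[q]] PadicAlgCl q) (x : PadicAlgCl q) := by
  change algebraMap E (PadicAlgCl q) (AlgEquiv.restrictNormal (toAbsGal q V σ) E x) = _
  rw [AlgEquiv.restrictNormal_commutes]
  rfl

/-- The inclusion `Eˣ → ℚ̄_qˣ`. -/
def unitsIncl (V : Subgroup (PadicAlgCl q ≃ₐ[ℚ_[q]] PadicAlgCl q))
    (E : IntermediateField (fixedFld q V) (PadicAlgCl q)) : (↥E)ˣ →* (PadicAlgCl q)ˣ :=
  Units.map (algebraMap E (PadicAlgCl q) : E →* PadicAlgCl q)

/-- Inflation of finite-level 1-cochains to `V`. -/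
def inflCochain₁ (V : Subgroup (PadicAlgCl q ≃ₐ[ℚ_[q]] PadicAlgCl q))
    (E : IntermediateField (fixedFld q V) (PadicAlgCl q)) [Normal (fixedFld q V) E]
    (b : (E ≃ₐ[fixedFld q V] E) → L.unitsRep (fixedFld q V) E) : ↥V → lModOn q V :=
  fun g => Additive.ofMul (unitsIncl q V E (Additive.toMul (b (resHom q V E g))))

/-- Inflation of finite-level 2-cochains to `V`. -/
def inflCochain₂ (V : Subgroup (PadicAlgCl q ≃ₐ[ℚ_[q]] PadicAlgCl q))
    (E : IntermediateField (fixedFld q V) (PadicAlgCl q)) [Normal (fixedFld q V) E]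
    (f : (E ≃ₐ[fixedFld q V] E) × (E ≃ₐ[fixedFld q V] E) → L.unitsRep (fixedFld q V) E) :
    ↥V × ↥V → lModOn q V :=
  fun p => Additive.ofMul
    (unitsIncl q V E (Additive.toMul (f (resHom q V E p.1, resHom q V E p.2))))

/-- The level cocycle `c` on `V` is the inflation of the finite-level cocycle `f` on
`Gal(E / K_V)`. -/
def IsAbsInflation (V : Subgroup (PadicAlgCl q ≃ₐ[ℚ_[q]] PadicAlgCl q))
    (E : IntermediateField (fixedFld q V) (PadicAlgCl q)) [Normal (fixedFld q V) E]
    (f : cocycles₂ (L.unitsRep (fixedFld q V) E))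
    (c : ↥(levelCocycles₂ (lHom q V) (lModOn q V))) : Prop :=
  (c : ↥V × ↥V → lModOn q V) =
    inflCochain₂ q V E (f : (E ≃ₐ[fixedFld q V] E) × (E ≃ₐ[fixedFld q V] E) →
      L.unitsRep (fixedFld q V) E)

end Fermat.Agent.S55.G.Rec.Loc

end
end
-- ===== PACK-END S55/G/Rec/Loc/Defs.lean

-- ===== PACK-BEGIN S55/G/Rec/H473Cyclic.lean
section



/-!
# S55 / layer G / block REC, leaf A4: cyclic groups

`G` a finite group, `χ : G →* Multiplicative (ZMod n)` an injective character and `σ : G` with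
`χ σ = 1` (so `G = ⟨σ⟩` is cyclic of order `n`; `IsGenChar χ σ`).  Then for every `A : Rep k G`

* `cc A χ a = 0 ↔ a ∈ N_G A`   (`cc_eq_zero_iff`),
* `cc A χ : A^G → H²(G, A)` is surjective   (`cc_surjective`),

hence `A^G / N_G A ≃ H²(G, A)` (`ccEquiv`).  Everything is done with explicit cocycles.
-/

set_option autoImplicit false

open CategoryTheory groupCohomology

namespace Fermat.Agent.S55.G.Rec

section Generator

variable {G : Type} [Group G] {n : ℕ} [NeZero n]

/-- `χ` is an injective character with `χ σ = 1`; then `G = ⟨σ⟩` is cyclic of order `n`. -/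
structure IsGenChar (χ : G →* Multiplicative (ZMod n)) (σ : G) : Prop where
  injective : Function.Injective χ
  map_gen : χ σ = Multiplicative.ofAdd 1

namespace IsGenChar

variable {χ : G →* Multiplicative (ZMod n)} {σ : G} (h : IsGenChar χ σ)
include h

omit [NeZero n] in
theorem toAdd_map_pow (m : ℕ) : Multiplicative.toAdd (χ (σ ^ m)) = (m : ZMod n) := by
  rw [map_pow, h.map_gen, toAdd_pow, toAdd_ofAdd, nsmul_eq_mul, mul_one]

omit [NeZero n] in
theorem lift_pow (m : ℕ) : lift χ (σ ^ m) = m % n := by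
  rw [lift, h.toAdd_map_pow, ZMod.val_natCast]

omit [NeZero n] in
theorem lift_pow_of_lt {m : ℕ} (hm : m < n) : lift χ (σ ^ m) = m := by
  rw [h.lift_pow, Nat.mod_eq_of_lt hm]

theorem pow_lift (g : G) : σ ^ lift χ g = g := by
  apply h.injective
  apply Multiplicative.toAdd.injective
  rw [h.toAdd_map_pow, lift, ZMod.natCast_zmod_val]

omit [NeZero n] in
theorem lift_gen : lift χ σ = 1 % n := by
  have := h.lift_pow 1
  rwa [pow_one] at this

omit [NeZero n] in
theorem pow_card : σ ^ n = 1 := by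
  apply h.injective
  apply Multiplicative.toAdd.injective
  rw [h.toAdd_map_pow, map_one, toAdd_one, ZMod.natCast_self]

theorem sum_eq [Fintype G] {M : Type*} [AddCommMonoid M] (F : G → M) :
    ∑ g, F g = ∑ i ∈ Finset.range n, F (σ ^ i) := by
  refine Finset.sum_nbij' (fun g => lift χ g) (fun i => σ ^ i) ?_ ?_ ?_ ?_ ?_
  · intro g _; exact Finset.mem_range.2 (lift_lt χ g)
  · intro i _; exact Finset.mem_univ _
  · intro g _; exact h.pow_lift g
  · intro i hi; exact h.lift_pow_of_lt (Finset.mem_range.1 hi)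
  · intro g _; rw [h.pow_lift]

theorem card_eq [Fintype G] : Fintype.card G = n := by
  have := h.sum_eq (fun _ => (1 : ℕ))
  simpa using this

/-- `∑_τ ε_χ(τ, g) = χ̃(g)`. -/
theorem sum_carry [Fintype G] (g : G) : ∑ τ, carry χ τ g = lift χ g := by
  have hn : 0 < n := Nat.pos_of_ne_zero (NeZero.ne n)
  have e1 : ∑ τ : G, (lift χ τ + lift χ g) = ∑ τ : G, (lift χ (τ * g) + n * carry χ τ g) :=
    Finset.sum_congr rfl fun τ _ => lift_add_lift χ τ g
  have e2 : ∑ τ : G, lift χ (τ * g) = ∑ τ : G, lift χ τ :=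
    Fintype.sum_equiv (Equiv.mulRight g) _ _ fun _ => rfl
  rw [Finset.sum_add_distrib, Finset.sum_add_distrib, e2, Finset.sum_const, Finset.card_univ,
    h.card_eq, smul_eq_mul, ← Finset.mul_sum] at e1
  exact (Nat.eq_of_mul_eq_mul_left hn (Nat.add_left_cancel e1)).symm

end IsGenChar

end Generator

section Existence

variable {G : Type} [Group G] [Finite G]

/-- A finite group generated by `σ` carries a (unique) injective character
`χ : G →* Multiplicative (ZMod |G|)` with `χ σ = 1`. -/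
theorem exists_isGenChar {n : ℕ} (σ : G) (hσ : ∀ g : G, g ∈ Subgroup.zpowers σ)
    (hn : Nat.card G = n) : ∃ χ : G →* Multiplicative (ZMod n), IsGenChar χ σ := by
  have hn0 : n ≠ 0 := by rw [← hn]; exact Nat.card_pos.ne'
  have : NeZero n := ⟨hn0⟩
  have hpow : σ ^ n = 1 := by rw [← hn]; exact pow_card_eq_one'
  -- the homomorphism `ZMod n → Additive G`, `1 ↦ σ`
  let ψ0 : ℤ →+ Additive G := zmultiplesHom (Additive G) (Additive.ofMul σ)
  have hψ0 : ψ0 (n : ℤ) = 0 := by
    change (n : ℤ) • Additive.ofMul σ = 0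
    rw [natCast_zsmul]
    exact congrArg Additive.ofMul hpow
  let ψ : ZMod n →+ Additive G := ZMod.lift n ⟨ψ0, hψ0⟩
  have hψ1 : ψ 1 = Additive.ofMul σ := by
    have : ψ ((1 : ℤ) : ZMod n) = ψ0 1 := ZMod.lift_coe n ⟨ψ0, hψ0⟩ 1
    rw [Int.cast_one] at this
    rw [this]
    change (1 : ℤ) • Additive.ofMul σ = _
    rw [one_zsmul]
  have hsurj : Function.Surjective ψ := by
    intro g
    obtain ⟨z, hz⟩ := Subgroup.mem_zpowers_iff.1 (hσ (Additive.toMul g))
    refine ⟨(z : ZMod n), ?_⟩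
    have : ψ ((z : ℤ) : ZMod n) = ψ0 z := ZMod.lift_coe n ⟨ψ0, hψ0⟩ z
    rw [this]
    change z • Additive.ofMul σ = g
    rw [← ofMul_zpow, hz]
    rfl
  have hbij : Function.Bijective ψ := by
    rw [Nat.bijective_iff_surjective_and_card]
    refine ⟨hsurj, ?_⟩
    rw [Nat.card_eq_fintype_card, ZMod.card]
    exact hn.symm
  let e : Multiplicative (ZMod n) ≃* G :=
    AddEquiv.toMultiplicativeLeft (AddEquiv.ofBijective ψ hbij)
  refine ⟨e.symm.toMonoidHom, e.symm.injective, ?_⟩
  change e.symm σ = Multiplicative.ofAdd 1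
  rw [MulEquiv.symm_apply_eq]
  change σ = Additive.toMul (ψ 1)
  rw [hψ1]
  rfl

end Existence

section Trace

variable {k G : Type} [CommRing k] [Group G] [Fintype G] (A : Rep.{0} k G) (σ : G)

/-- The functional `f ↦ ∑_g f(g, σ)` on 2-cochains. -/
def traceAt (f : G × G → A.V) : A.V := ∑ g, f (g, σ)

theorem traceAt_add (f f' : G × G → A.V) :
    traceAt A σ (f + f') = traceAt A σ f + traceAt A σ f' := by
  simp only [traceAt, Pi.add_apply, Finset.sum_add_distrib]

theorem traceAt_sub (f f' : G × G → A.V) :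
    traceAt A σ (f - f') = traceAt A σ f - traceAt A σ f' := by
  simp only [traceAt, Pi.sub_apply, Finset.sum_sub_distrib]

/-- `T(dx) = N(x σ)`. -/
theorem traceAt_d (x : G → A.V) : traceAt A σ ((d₁₂ A).hom x) = A.ρ.norm (x σ) := by
  have e2 : ∑ g : G, x (g * σ) = ∑ g : G, x g :=
    Fintype.sum_equiv (Equiv.mulRight σ) _ _ fun _ => rfl
  simp only [traceAt, d₁₂_hom_apply, Finset.sum_add_distrib, Finset.sum_sub_distrib, e2,
    sub_add_cancel]
  simp [Representation.norm]

/-- `T f` is `G`-invariant for a cocycle `f`. -/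
theorem traceAt_mem_invariants {f : G × G → A.V} (hf : f ∈ cocycles₂ A) :
    traceAt A σ f ∈ A.ρ.invariants := by
  intro h
  have hc := (mem_cocycles₂_iff f).1 hf
  have e1 : ∑ g : G, f (h * g, σ) = ∑ g : G, f (g, σ) :=
    Fintype.sum_equiv (Equiv.mulLeft h) _ _ fun _ => rfl
  have e2 : ∑ g : G, f (h, g * σ) = ∑ g : G, f (h, g) :=
    Fintype.sum_equiv (Equiv.mulRight σ) _ _ fun _ => rfl
  have e3 : ∑ g : G, (f (h * g, σ) + f (h, g)) = ∑ g : G, (A.ρ h (f (g, σ)) + f (h, g * σ)) :=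
    Finset.sum_congr rfl fun g _ => hc h g σ
  rw [Finset.sum_add_distrib, Finset.sum_add_distrib, e1, e2] at e3
  have e4 := add_right_cancel e3
  simp only [traceAt, map_sum]
  exact e4.symm

end Trace

section Cyclic

variable {k G : Type} [CommRing k] [Group G] [Fintype G] {n : ℕ} [NeZero n]
  (A : Rep.{0} k G) {χ : G →* Multiplicative (ZMod n)} {σ : G} (h : IsGenChar χ σ)

include h in
/-- `T(cupChar a χ) = χ̃(σ) • a`. -/
theorem traceAt_cupChar (a : A.ρ.invariants) :
    traceAt A σ (cupChar A χ a) = lift χ σ • (a : A.V) := by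
  simp only [traceAt, cupChar_apply]
  rw [← Finset.sum_smul, h.sum_carry]

/-- The partial norms `∑_{i < t} σ^i b`. -/
def partialNorm (σ : G) (b : A.V) (t : ℕ) : A.V := ∑ i ∈ Finset.range t, A.ρ (σ ^ i) b

omit [Fintype G] in
theorem partialNorm_add (σ : G) (b : A.V) (s t : ℕ) :
    partialNorm A σ b (s + t) = partialNorm A σ b s + A.ρ (σ ^ s) (partialNorm A σ b t) := by
  simp only [partialNorm, Finset.sum_range_add, map_sum]
  congr 1
  refine Finset.sum_congr rfl fun i _ => ?_
  rw [pow_add, map_mul]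
  rfl

include h in
theorem partialNorm_card (b : A.V) : partialNorm A σ b n = A.ρ.norm b := by
  rw [partialNorm, ← h.sum_eq (fun g => A.ρ g b)]
  simp [Representation.norm]

theorem norm_mem_invariants (b : A.V) : A.ρ.norm b ∈ A.ρ.invariants :=
  fun g => Representation.self_norm_apply A.ρ g b

include h in
/-- `cupChar (N b) χ = d (g ↦ ∑_{i < χ̃(g)} σ^i b)`. -/
theorem cupChar_norm (b : A.V) :
    (cupChar A χ ⟨A.ρ.norm b, norm_mem_invariants A b⟩ : G × G → A.V) =
      (d₁₂ A).hom (fun g => partialNorm A σ b (lift χ g)) := by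
  funext ⟨g, t⟩
  rw [cupChar_apply, d₁₂_hom_apply]
  change carry χ g t • A.ρ.norm b = A.ρ g (partialNorm A σ b (lift χ t)) -
    partialNorm A σ b (lift χ (g * t)) + partialNorm A σ b (lift χ g)
  have e1 : partialNorm A σ b (lift χ g) + A.ρ g (partialNorm A σ b (lift χ t)) =
      partialNorm A σ b (lift χ (g * t) + n * carry χ g t) := by
    rw [← lift_add_lift, partialNorm_add, h.pow_lift]
  have e2 : partialNorm A σ b (lift χ (g * t) + n * carry χ g t) =
      partialNorm A σ b (lift χ (g * t)) + carry χ g t • A.ρ.norm b := by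
    rcases Nat.le_one_iff_eq_zero_or_eq_one.1 (carry_le_one χ g t) with hc | hc
    · rw [hc, mul_zero, add_zero, zero_smul, add_zero]
    · rw [hc, mul_one, one_smul, partialNorm_add, h.pow_lift, partialNorm_card A h,
        Representation.self_norm_apply]
  rw [e2] at e1
  rw [sub_add_eq_add_sub, add_comm, e1, add_sub_cancel_left]

include h in
/-- **A4a.** `cc (N b) χ = 0`. -/
theorem cc_norm (b : A.V) : cc A χ ⟨A.ρ.norm b, norm_mem_invariants A b⟩ = 0 := by
  rw [cc_apply, H2π_eq_zero_iff, cupChar_norm A h]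
  exact LinearMap.mem_range_self _ _

include h in
/-- **A4b.** If `cc a χ = 0` then `a` is a norm. -/
theorem exists_norm_eq_of_cc_eq_zero (a : A.ρ.invariants) (ha : cc A χ a = 0) :
    ∃ b : A.V, A.ρ.norm b = a := by
  rw [cc_apply, H2π_eq_zero_iff] at ha
  obtain ⟨x, hx⟩ := ha
  have hT := congrArg (traceAt A σ) hx
  rw [traceAt_d, traceAt_cupChar A h, h.lift_gen] at hT
  by_cases hn : n = 1
  · -- trivial group: the norm is the identity
    refine ⟨a, ?_⟩
    have hcard : Fintype.card G = 1 := by rw [h.card_eq, hn]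
    have : Subsingleton G := Fintype.card_le_one_iff_subsingleton.1 hcard.le
    let _ : Unique G := uniqueOfSubsingleton 1
    simp [Representation.norm, Finset.univ_unique, Subsingleton.elim default (1 : G)]
  · have hn' : 1 < n := lt_of_le_of_ne (Nat.pos_of_ne_zero (NeZero.ne n)) (Ne.symm hn)
    rw [Nat.mod_eq_of_lt hn', one_smul] at hT
    exact ⟨x σ, hT⟩

include h in
theorem cc_eq_zero_iff (a : A.ρ.invariants) :
    cc A χ a = 0 ↔ (a : A.V) ∈ LinearMap.range A.ρ.norm := by
  constructor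
  · intro ha
    obtain ⟨b, hb⟩ := exists_norm_eq_of_cc_eq_zero A h a ha
    exact ⟨b, hb⟩
  · rintro ⟨b, hb⟩
    have : a = ⟨A.ρ.norm b, norm_mem_invariants A b⟩ := Subtype.ext hb.symm
    rw [this]
    exact cc_norm A h b

omit [Fintype G] in
/-- A 2-cocycle vanishing on `G × {σ}` vanishes identically. -/
theorem cocycle_eq_zero_of_vanish {f : G × G → A.V} (hf : f ∈ cocycles₂ A)
    (h : IsGenChar χ σ) (h0 : ∀ τ, f (τ, σ) = 0) : f = 0 := by
  have hc := (mem_cocycles₂_iff f).1 hf
  have h11 : f (1, 1) = 0 := by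
    have := cocycles₂_map_one_fst ⟨f, hf⟩ σ
    change f (1, σ) = f (1, 1) at this
    rw [← this]
    exact h0 1
  have key : ∀ (j : ℕ) (τ : G), f (τ, σ ^ j) = 0 := by
    intro j
    induction j with
    | zero =>
      intro τ
      rw [pow_zero]
      have := cocycles₂_map_one_snd ⟨f, hf⟩ τ
      change f (τ, 1) = A.ρ τ (f (1, 1)) at this
      rw [this, h11, map_zero]
    | succ j ih =>
      intro τ
      have := hc τ (σ ^ j) σ
      rw [h0, ih τ, h0, map_zero, zero_add, zero_add, ← pow_succ] at this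
      exact this.symm
  funext ⟨τ, t⟩
  rw [← h.pow_lift t]
  exact key _ τ

/-- The 1-cochain `τ ↦ ∑_{i < χ̃(τ)} f(σ^i, σ)`. -/
def sumAt (χ : G →* Multiplicative (ZMod n)) (σ : G) (f : G × G → A.V) (τ : G) : A.V :=
  ∑ i ∈ Finset.range (lift χ τ), f (σ ^ i, σ)

include h in
theorem sumAt_mul_gen (hn : 1 < n) (f : G × G → A.V) (τ : G) :
    sumAt A χ σ f (τ * σ) + carry χ τ σ • traceAt A σ f = sumAt A χ σ f τ + f (τ, σ) := by
  have hσ : lift χ σ = 1 := by rw [h.lift_gen, Nat.mod_eq_of_lt hn]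
  have e := lift_add_lift χ τ σ
  rw [hσ] at e
  have hlt := lift_lt χ τ
  rcases Nat.le_one_iff_eq_zero_or_eq_one.1 (carry_le_one χ τ σ) with hc | hc
  · rw [hc, mul_zero, add_zero] at e
    rw [hc, zero_smul, add_zero, sumAt, ← e, Finset.sum_range_succ, h.pow_lift]
    rfl
  · rw [hc, mul_one] at e
    have h1 : lift χ (τ * σ) = 0 := by omega
    have h2 : lift χ τ + 1 = n := by omega
    have h3 : Finset.range n = Finset.range (lift χ τ + 1) := by rw [h2]
    rw [hc, one_smul, sumAt, h1, Finset.sum_range_zero, zero_add, traceAt,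
      h.sum_eq (fun g => f (g, σ)), h3, Finset.sum_range_succ, h.pow_lift]
    rfl

include h in
/-- For `n ≥ 2`, every 2-cocycle `f` is cohomologous to `cupChar (T f) χ`. -/
theorem sub_cupChar_traceAt_mem_coboundaries₂ (hn : 1 < n) (f : cocycles₂ A) :
    (f : G × G → A.V) - cupChar A χ ⟨traceAt A σ f, traceAt_mem_invariants A σ f.2⟩ ∈
      coboundaries₂ A := by
  have hσ : lift χ σ = 1 := by rw [h.lift_gen, Nat.mod_eq_of_lt hn]
  have key : (f : G × G → A.V) -
      cupChar A χ ⟨traceAt A σ f, traceAt_mem_invariants A σ f.2⟩ -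
      (d₁₂ A).hom (fun τ => f (1, 1) - sumAt A χ σ f τ) = 0 := by
    apply cocycle_eq_zero_of_vanish A _ h
    · intro τ
      have e := sumAt_mul_gen A h hn f τ
      have hyσ : f (1, 1) - sumAt A χ σ f σ = 0 := by
        simp only [sumAt, hσ, Finset.sum_range_one, pow_zero]
        rw [sub_eq_zero]
        exact (cocycles₂_map_one_fst f σ).symm
      simp only [Pi.sub_apply, cupChar_apply, d₁₂_hom_apply, hyσ, map_zero, zero_sub]
      have e' : f (τ, σ) = sumAt A χ σ f (τ * σ) + carry χ τ σ • traceAt A σ f -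
          sumAt A χ σ f τ := by rw [e]; abel
      rw [e']
      abel
    · refine Submodule.sub_mem _ (Submodule.sub_mem _ f.2 (cupChar A χ _).2) ?_
      exact d₁₂_apply_mem_cocycles₂ _
  exact ⟨_, (sub_eq_zero.1 key).symm⟩

include h in
/-- **A4c.** `cc A χ : A^G → H²(G, A)` is surjective. -/
theorem cc_surjective : Function.Surjective (cc A χ) := by
  intro z
  induction z using H2_induction_on with
  | h f =>
    by_cases hn : n = 1
    · -- trivial group: `H²` vanishes
      refine ⟨0, ?_⟩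
      rw [map_zero, eq_comm, H2π_eq_zero_iff]
      have hcard : Fintype.card G = 1 := by rw [h.card_eq, hn]
      have hsub : Subsingleton G := Fintype.card_le_one_iff_subsingleton.1 hcard.le
      refine ⟨fun _ => f (1, 1), ?_⟩
      funext ⟨g, t⟩
      rw [d₁₂_hom_apply, Subsingleton.elim g 1, Subsingleton.elim t 1]
      simp
    · have hn' : 1 < n := lt_of_le_of_ne (Nat.pos_of_ne_zero (NeZero.ne n)) (Ne.symm hn)
      refine ⟨⟨traceAt A σ f, traceAt_mem_invariants A σ f.2⟩, ?_⟩
      rw [cc_apply, eq_comm, H2π_eq_iff]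
      exact sub_cupChar_traceAt_mem_coboundaries₂ A h hn' f

include h in
/-- **A4.** For a finite cyclic group, `a ↦ cc a χ` induces `A^G / N_G A ≃ H²(G, A)`. -/
noncomputable def ccEquiv :
    (A.ρ.invariants ⧸ (LinearMap.range A.ρ.norm).comap A.ρ.invariants.subtype) ≃ₗ[k] H2 A :=
  LinearEquiv.ofBijective
    (Submodule.liftQ _ (cc A χ) (by
      intro a ha
      exact (cc_eq_zero_iff A h a).2 ha))
    ⟨by
      rw [← LinearMap.ker_eq_bot, Submodule.ker_liftQ, eq_bot_iff]
      rintro _ ⟨a, ha, rfl⟩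
      rw [Submodule.mem_bot, Submodule.mkQ_apply, Submodule.Quotient.mk_eq_zero]
      exact (cc_eq_zero_iff A h a).1 ha,
     by
      intro z
      obtain ⟨a, rfl⟩ := cc_surjective A h z
      exact ⟨Submodule.Quotient.mk a, rfl⟩⟩

theorem ccEquiv_mk (a : A.ρ.invariants) :
    ccEquiv A h (Submodule.Quotient.mk a) = cc A χ a := rfl

end Cyclic

end Fermat.Agent.S55.G.Rec

end
-- ===== PACK-END S55/G/Rec/H473Cyclic.lean

-- ===== PACK-BEGIN S55/Local/H294/UR3Val.lean
section


/-!
# S55 layer L, piece UR3 (helper294): valuation-theoretic preliminaries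

Elementary consequences of `IsUnif` / `IsUnram` (interface of `Defs.lean`): if `ϖ` is a uniformizer
of `L`, every nonzero element of `L` is `ϖ ^ n * unit`, the integers are exactly the elements with
`n ≥ 0`, etc.  No number theory here.
-/

set_option autoImplicit false

namespace Fermat.Agent.S55.Local.H294

open Polynomial

section Val

variable {A F : Type} [CommRing A] [Field F] [Algebra A F]
variable {L : Type} [Field L] [Algebra F L]

lemma toL_eq_comp (K : Type) [Field K] [Algebra F K] [Algebra K L] [IsScalarTower F K L] :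
    toL A F L = (algebraMap K L).comp (toL A F K) := by
  ext a
  simp [toL, IsScalarTower.algebraMap_apply F K L]

/-- Integrality over `A` is intrinsic: it can be tested in a subfield. -/
lemma isInt_algebraMap_iff {K : Type} [Field K] [Algebra F K] [Algebra K L] [IsScalarTower F K L]
    (y : K) : IsInt A F L (algebraMap K L y) ↔ IsInt A F K y := by
  unfold IsInt
  rw [toL_eq_comp (A := A) (F := F) (L := L) K]
  constructor
  · rintro ⟨p, hp, h⟩
    refine ⟨p, hp, ?_⟩
    rw [← Polynomial.hom_eval₂] at h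
    exact (algebraMap K L).injective (by rw [h, map_zero])
  · rintro ⟨p, hp, h⟩
    refine ⟨p, hp, ?_⟩
    rw [← Polynomial.hom_eval₂, h, map_zero]

/-- Field automorphisms over a subfield preserve integrality. -/
lemma isInt_algEquiv {K : Type} [Field K] [Algebra F K] [Algebra K L] [IsScalarTower F K L]
    (σ : L ≃ₐ[K] L) {x : L} (hx : IsInt A F L x) : IsInt A F L (σ x) := by
  obtain ⟨p, hp, h⟩ := hx
  refine ⟨p, hp, ?_⟩
  have hσ : (σ : L →+* L).comp (toL A F L) = toL A F L := by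
    ext a
    simp only [RingHom.coe_comp, Function.comp_apply, toL_apply]
    rw [IsScalarTower.algebraMap_apply F K L]
    exact σ.commutes _
  have := Polynomial.hom_eval₂ p (toL A F L) (σ : L →+* L) x
  rw [hσ, h, map_zero] at this
  exact this.symm

lemma unitsIncl_mem_intUnits_of_mem {K : Type} [Field K] [Algebra F K] [Algebra K L]
    [IsScalarTower F K L] {y : Kˣ} (hy : y ∈ intUnits A F K) :
    unitsIncl L K y ∈ intUnits A F L := by
  refine ⟨?_, ?_⟩
  · rw [unitsIncl_coe]; exact (isInt_algebraMap_iff (A := A) (F := F) (L := L) (y : K)).2 hy.1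
  · rw [← map_inv, unitsIncl_coe]
    exact (isInt_algebraMap_iff (A := A) (F := F) (L := L) ((y⁻¹ : Kˣ) : K)).2 hy.2

/-- In an unramified extension a uniformizer of `K` is a uniformizer of `L`. -/
lemma isUnif_unitsIncl {K : Type} [Field K] [Algebra F K] [Algebra K L] [IsScalarTower F K L]
    {ϖK : Kˣ} (hur : IsUnram A F L K) (hϖ : IsUnif A F K ϖK) :
    IsUnif A F L (unitsIncl L K ϖK) := by
  refine ⟨?_, ?_, ?_⟩
  · rw [unitsIncl_coe]; exact (isInt_algebraMap_iff (A := A) (F := F) (L := L) (ϖK : K)).2 hϖ.1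
  · intro h
    apply hϖ.2.1
    refine ⟨hϖ.1, ?_⟩
    have := h.2
    rw [← map_inv, unitsIncl_coe] at this
    exact (isInt_algebraMap_iff (A := A) (F := F) (L := L) _).1 this
  · intro x
    obtain ⟨y, hy⟩ := hur x
    obtain ⟨n, hn⟩ := hϖ.2.2 y
    refine ⟨n, ?_⟩
    have h2 := unitsIncl_mem_intUnits_of_mem (A := A) (F := F) (L := L) hn
    have h3 := (intUnits A F L).mul_mem hy h2
    have : x * (unitsIncl L K y)⁻¹ * unitsIncl L K (y * ϖK ^ (-n)) = x * unitsIncl L K ϖK ^ (-n) := by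
      rw [map_mul, map_zpow]
      group
    rwa [this] at h3

variable {ϖ : Lˣ}

lemma unif_not_isInt_inv (h : IsUnif A F L ϖ) : ¬ IsInt A F L ((ϖ⁻¹ : Lˣ) : L) :=
  fun h' => h.2.1 ⟨h.1, h'⟩

lemma unif_isInt_pow (h : IsUnif A F L ϖ) (n : ℕ) : IsInt A F L ((ϖ : L) ^ n) := by
  induction n with
  | zero => simpa using isInt_one A F L
  | succ n ih => rw [pow_succ]; exact ih.mul h.1

/-- Every unit of `L` is `ϖ ^ n * u` with `u` an integral unit. -/
lemma unif_exists_eq (h : IsUnif A F L ϖ) (x : Lˣ) :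
    ∃ n : ℤ, ∃ u ∈ intUnits A F L, x = ϖ ^ n * u := by
  obtain ⟨n, hn⟩ := h.2.2 x
  exact ⟨n, _, hn, by rw [mul_comm x, ← mul_assoc, ← zpow_add]; simp⟩

/-- `ϖ ^ n * u` with `n < 0` is not integral. -/
lemma unif_not_isInt_of_neg (h : IsUnif A F L ϖ) {n : ℤ} (hn : n < 0) {u : Lˣ}
    (hu : u ∈ intUnits A F L) : ¬ IsInt A F L ((ϖ ^ n * u : Lˣ) : L) := by
  intro hx
  apply unif_not_isInt_inv h
  obtain ⟨m, rfl⟩ : ∃ m : ℕ, n = -(m + 1 : ℤ) := ⟨(-n - 1).toNat, by omega⟩
  have h1 : ((ϖ⁻¹ : Lˣ) : L) = (ϖ : L) ^ m * (((ϖ ^ (-(m + 1 : ℤ)) * u : Lˣ) : L) * ((u⁻¹ : Lˣ) : L)) := by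
    rw [← Units.val_mul, ← Units.val_pow_eq_pow_val, ← Units.val_mul]
    congr 1
    rw [mul_inv_cancel_right, ← zpow_natCast, ← zpow_add]
    have : (m : ℤ) + -(m + 1 : ℤ) = -1 := by ring
    rw [this, zpow_neg_one]
  rw [h1]
  exact (unif_isInt_pow h m).mul (hx.mul hu.2)

/-- An integral element of `Lˣ` is `ϖ ^ n * u` with `n : ℕ`. -/
lemma unif_exists_eq_of_isInt (h : IsUnif A F L ϖ) (x : Lˣ) (hx : IsInt A F L (x : L)) :
    ∃ n : ℕ, ∃ u ∈ intUnits A F L, x = ϖ ^ n * u := by
  obtain ⟨n, u, hu, rfl⟩ := unif_exists_eq h x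
  rcases lt_or_ge n 0 with hn | hn
  · exact absurd hx (unif_not_isInt_of_neg h hn hu)
  · obtain ⟨m, rfl⟩ := Int.eq_ofNat_of_zero_le hn
    exact ⟨m, u, hu, by rw [zpow_natCast]⟩

/-- The integers of `L` form a valuation ring. -/
lemma unif_isInt_or_isInt_inv (h : IsUnif A F L ϖ) (x : L) :
    IsInt A F L x ∨ IsInt A F L x⁻¹ := by
  rcases eq_or_ne x 0 with rfl | hx
  · exact Or.inl (isInt_zero A F L)
  obtain ⟨n, u, hu, hxu⟩ := unif_exists_eq h (Units.mk0 x hx)
  have hx' : x = ((ϖ ^ n * u : Lˣ) : L) := by rw [← hxu]; rfl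
  rcases le_total 0 n with hn | hn
  · left
    obtain ⟨m, rfl⟩ := Int.eq_ofNat_of_zero_le hn
    rw [hx', Units.val_mul, zpow_natCast, Units.val_pow_eq_pow_val]
    exact (unif_isInt_pow h m).mul hu.1
  · right
    obtain ⟨m, hm⟩ : ∃ m : ℕ, -n = m := Int.eq_ofNat_of_zero_le (by omega)
    have : x⁻¹ = (((ϖ ^ (m : ℤ) * u⁻¹ : Lˣ)) : L) := by
      rw [hx', ← Units.val_inv_eq_inv_val]
      congr 1
      rw [mul_inv, ← zpow_neg, hm]
    rw [this, Units.val_mul, zpow_natCast, Units.val_pow_eq_pow_val]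
    exact (unif_isInt_pow h m).mul hu.2

/-- An integral element is a unit or divisible by `ϖ`. -/
lemma unif_unit_or_dvd (h : IsUnif A F L ϖ) (x : Lˣ) (hx : IsInt A F L (x : L)) :
    x ∈ intUnits A F L ∨ ∃ b : L, IsInt A F L b ∧ (x : L) = ϖ * b := by
  obtain ⟨n, u, hu, rfl⟩ := unif_exists_eq_of_isInt h x hx
  rcases Nat.eq_zero_or_pos n with rfl | hn
  · left; simpa using hu
  · right
    obtain ⟨m, rfl⟩ : ∃ m, n = m + 1 := ⟨n - 1, by omega⟩
    refine ⟨(ϖ : L) ^ m * u, (unif_isInt_pow h m).mul hu.1, ?_⟩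
    rw [Units.val_mul, Units.val_pow_eq_pow_val, pow_succ]
    ring

/-- A multiple of `ϖ` by an integral element is not an integral unit. -/
lemma unif_not_unit_of_dvd (h : IsUnif A F L ϖ) (x : Lˣ) {b : L} (hb : IsInt A F L b)
    (hxb : (x : L) = ϖ * b) : x ∉ intUnits A F L := by
  intro hx
  apply unif_not_isInt_inv h
  have : ((ϖ⁻¹ : Lˣ) : L) = b * ((x⁻¹ : Lˣ) : L) := by
    have h1 : (x : L) * ((x⁻¹ : Lˣ) : L) = 1 := by simp
    have h2 : (ϖ : L) * ((ϖ⁻¹ : Lˣ) : L) = 1 := by simp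
    have h3 : (ϖ : L) ≠ 0 := ϖ.ne_zero
    apply mul_left_cancel₀ h3
    rw [h2, ← mul_assoc, ← hxb, h1]
  rw [this]
  exact hb.mul hx.2

/-- `1 + ϖ b` is an integral unit. -/
lemma unif_one_add_mem (h : IsUnif A F L ϖ) {b : L} (hb : IsInt A F L b) (x : Lˣ)
    (hx : (x : L) = 1 + ϖ * b) : x ∈ intUnits A F L := by
  have hxi : IsInt A F L (x : L) := by rw [hx]; exact (isInt_one A F L).add (h.1.mul hb)
  rcases unif_unit_or_dvd h x hxi with h1 | ⟨d, hd, hxd⟩
  · exact h1
  · exfalso
    -- 1 = ϖ (d - b)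
    have h1 : (1 : L) = ϖ * (d - b) := by rw [mul_sub, ← hxd, hx]; ring
    have := unif_not_unit_of_dvd h 1 (hd.add hb.neg) (by simpa [sub_eq_add_neg] using h1)
    exact this (intUnits A F L).one_mem

/-- Separatedness: an element divisible by all powers of `ϖ` is zero. -/
lemma unif_eq_zero_of_forall_dvd (h : IsUnif A F L ϖ) (x : L)
    (hx : ∀ k : ℕ, ∃ b : L, IsInt A F L b ∧ x = (ϖ : L) ^ k * b) : x = 0 := by
  by_contra hx0
  obtain ⟨n, u, hu, hxu⟩ := unif_exists_eq h (Units.mk0 x hx0)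
  obtain ⟨b, hb, hxb⟩ := hx (n.toNat + 1)
  -- b = ϖ ^ (n - (n.toNat+1)) * u is not integral
  have hb0 : b ≠ 0 := by
    rintro rfl
    exact hx0 (by simpa using hxb)
  have hbu : Units.mk0 b hb0 = ϖ ^ (n - (n.toNat + 1 : ℕ)) * u := by
    have : Units.mk0 x hx0 = ϖ ^ ((n.toNat + 1 : ℕ) : ℤ) * Units.mk0 b hb0 := by
      ext
      simp only [Units.val_mk0, Units.val_mul, zpow_natCast, Units.val_pow_eq_pow_val]
      exact hxb
    rw [this] at hxu
    rw [zpow_sub, mul_comm (ϖ ^ n), mul_assoc, ← hxu]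
    group
  have hneg : n - ((n.toNat + 1 : ℕ) : ℤ) < 0 := by
    have := Int.self_le_toNat n
    push_cast
    omega
  have := unif_not_isInt_of_neg h hneg hu
  rw [← hbu] at this
  exact this hb

end Val

end Fermat.Agent.S55.Local.H294

end
-- ===== PACK-END S55/Local/H294/UR3Val.lean

-- ===== PACK-BEGIN S55/E1/SpecAlg.lean
section
/-
S55 engine E1 — block ALG, part 1: frozen Spec statements ALG1, ALG2, ALG4, ALG5.
Chief architect: helper55.  Blueprint: coord/S55-E1.md §3.  NO sorry: specs are `def … : Prop`.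
Producers prove `theorem algN : ALGnSpec`; consumers take hypotheses.
-/


set_option autoImplicit false

open CategoryTheory CategoryTheory.Limits

namespace Fermat.Agent.S55.E1

/-- **ALG1.** For finite `G` and finite `N`: `R` is a lattice (f.g. free over `ℤ`) and the
connecting map `δ : H¹(G, N) → H²(G, R)` is bijective (`Hⁿ(G, ℤ[G]^{(N)}) = 0` for `n ≥ 1`). -/
def ALG1Spec : Prop :=
  ∀ (G : Type) [Group G] [Finite G] (N : Rep.{0} ℤ G), Finite N.V →
    @Module.Free ℤ (stdR N).V _ _ (stdR N).hV2 ∧ @Module.Finite ℤ (stdR N).V _ _ (stdR N).hV2 ∧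
    Function.Bijective (stdδ N)

/-- **ALG2.** If `p N = 0` then `p • f` extends to `P` for every `f ∈ Hom_G(R, X)`
(extension: `x ↦ f (p x)`).  No finiteness needed. -/
def ALG2Spec : Prop :=
  ∀ (p : ℕ) (G : Type) [Group G] (N X : Rep.{0} ℤ G), (∀ n : N.V, p • n = 0) →
    ∀ f : homA N X, Extends (p • f)

/-- The hypothesis of the norm-kill lemma: `N_H(C) ⊆ p • C^H`. -/
def NormInP (p : ℕ) {G : Type} [Group G] (H : Subgroup G) [Fintype H] (C : Rep.{0} ℤ G) : Prop :=
  ∀ c : C.V, ∃ c₀ : C.V, (∀ h ∈ H, C.ρ h c₀ = c₀) ∧ ∑ h : H, C.ρ (h : G) c = p • c₀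

/-- **ALG4 (norm-kill).** `H ⊴ G` acts trivially on `N`, `p N = 0`, `N_H(C) ⊆ p • C^H`.
Then for every additive `ψ : R → C` the norm `N_G ψ = ∑_σ σ ψ σ⁻¹` extends to a `G`-map `P → C`. -/
def ALG4Spec : Prop :=
  ∀ (p : ℕ), p.Prime → ∀ (G : Type) [Group G] [Fintype G] (H : Subgroup G) [H.Normal] [Fintype H]
    (N C : Rep.{0} ℤ G), Finite N.V → (∀ n : N.V, p • n = 0) →
    (∀ h ∈ H, ∀ n : N.V, N.ρ h n = n) → NormInP p H C →
    ∀ ψ : (stdR N).V →+ C.V, ∃ k : homB N C,
      ∀ r : (stdR N).V, k.hom ((stdι N).hom r) = T.normAdd ψ r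

/-- **ALG5 (α¹).** For a class module `(C, γ)` at `p` and T6p:
(a) `⟨res h, x⟩ = 0`; (b) every additive `χ : H¹(G, N) → H²(G, C)` is `⟨f, ·⟩`;
(c) under the norm-kill hypotheses, `⟨f, ·⟩ = 0` implies that `f` extends to `P`.
Hence `Hom_G(R, C) / res Hom_G(P, C) ≅ Hom(H¹(G, N), H²(G, C))`. -/
def ALG5Spec : Prop :=
  ∀ (p : ℕ), p.Prime → ∀ (G : Type) [Group G] [Fintype G] (N C : Rep.{0} ℤ G)
    (γ : groupCohomology C 2), Finite N.V → (∀ n : N.V, p • n = 0) →
    IsClassModuleAt p C γ → TateNakayamaAtSpec →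
    (∀ (h : homB N C) (x : groupCohomology N 1), pair (resBA N C h) x = 0) ∧
    (∀ χ : groupCohomology N 1 →+ groupCohomology C 2,
      ∃ f : homA N C, ∀ x, pair f x = χ x) ∧
    (∀ (H : Subgroup G) [H.Normal] [Fintype H], (∀ h ∈ H, ∀ n : N.V, N.ρ h n = n) →
      NormInP p H C → ∀ f : homA N C, (∀ x, pair f x = 0) → Extends f)

/-- ALG5 from ALG1, ALG2, ALG4 (assembly leaf). -/
def ALG5AssemblySpec : Prop := ALG1Spec → ALG2Spec → ALG4Spec → ALG5Spec

end Fermat.Agent.S55.E1

end
-- ===== PACK-END S55/E1/SpecAlg.lean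

-- ===== PACK-BEGIN S55/E1/H354/Alg3.lean
section
/-
S55 engine E1, block ALG, leaf ALG3 (helper354).
Blueprint: coord/S55-E1.md §3.  Mathlib + E1/Defs only.

For a `k`-projective representation `R` and a short exact sequence `0 → X' → X → X'' → 0` of
representations we construct the boundary map `∂ : Hom_G(R, X'') → H¹(G, Hom_k(R, X'))` by the
explicit cocycle formula and prove exactness of
`Hom_G(R, X) → Hom_G(R, X'') → H¹(G, Hom_k(R, X')) → H¹(G, Hom_k(R, X))`.
-/


set_option autoImplicit false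

open CategoryTheory CategoryTheory.Limits groupCohomology

namespace Fermat.Agent.S55.E1.H354

noncomputable section

variable {k G : Type} [CommRing k] [Group G]

/-- An element of `Hom_k(R, X)` (the underlying module of `ihom R X`) as a linear map. -/
abbrev ihomLin {R X : Rep.{0} k G} (x : ((Rep.ihom R).obj X).V) : R.V →ₗ[k] X.V := x

/-- A linear map as an element of the underlying module of `ihom R X`. -/
abbrev ihomMk {R X : Rep.{0} k G} (x : R.V →ₗ[k] X.V) : ((Rep.ihom R).obj X).V := x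

theorem ihom_ρ_apply {R X : Rep.{0} k G} (g : G) (x : ((Rep.ihom R).obj X).V) (r : R.V) :
    ihomLin (((Rep.ihom R).obj X).ρ g x) r = X.ρ g (ihomLin x (R.ρ g⁻¹ r)) := rfl

/-- `c` is a boundary cocycle of `f'' : R ⟶ X''`: there is a `k`-linear lift `φ : R → X` of `f''`
with `f ∘ c g = g • φ - φ`, i.e. `f (c g r) = g φ(g⁻¹ r) - φ r`. -/
def IsBdryCocycle (R : Rep.{0} k G) (S : ShortComplex (Rep.{0} k G)) (f'' : R ⟶ S.X₃)
    (c : cocycles₁ ((Rep.ihom R).obj S.X₁)) : Prop :=
  ∃ φ : R.V →ₗ[k] S.X₂.V, (∀ r, S.g.hom (φ r) = f''.hom r) ∧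
    ∀ (g : G) (r : R.V), S.f.hom (ihomLin (c g) r) = S.X₂.ρ g (φ (R.ρ g⁻¹ r)) - φ r

section basic

variable {S : ShortComplex (Rep.{0} k G)} (hS : S.ShortExact)
include hS

theorem f_injective : Function.Injective S.f.hom :=
  (Rep.mono_iff_injective S.f).1 hS.mono_f

theorem g_surjective : Function.Surjective S.g.hom :=
  (Rep.epi_iff_surjective S.g).1 hS.epi_g

theorem range_f_eq_ker_g :
    LinearMap.range S.f.hom.toLinearMap = LinearMap.ker S.g.hom.toLinearMap :=
  (hS.exact.map (forget₂ (Rep k G) (ModuleCat k))).moduleCat_range_eq_ker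

theorem exists_of_g_eq_zero (x : S.X₂.V) (hx : S.g.hom x = 0) : ∃ y : S.X₁.V, S.f.hom y = x := by
  have : x ∈ LinearMap.ker S.g.hom.toLinearMap := hx
  rw [← range_f_eq_ker_g hS] at this
  exact this

theorem g_f (y : S.X₁.V) : S.g.hom (S.f.hom y) = 0 := by
  have : S.f.hom y ∈ LinearMap.range S.f.hom.toLinearMap := ⟨y, rfl⟩
  rw [range_f_eq_ker_g hS] at this
  exact this

end basic


/-- Factor a linear map through an injective linear map, elementwise. -/
theorem exists_linearMap_factor {M N P : Type} [AddCommGroup M] [AddCommGroup N] [AddCommGroup P]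
    [Module k M] [Module k N] [Module k P] (f : N →ₗ[k] P) (hf : Function.Injective f)
    (ψ : M →ₗ[k] P) (h : ∀ m, ∃ n, f n = ψ m) : ∃ c : M →ₗ[k] N, ∀ m, f (c m) = ψ m := by
  have hr : ∀ m, ψ m ∈ LinearMap.range f := fun m => h m
  refine ⟨((LinearEquiv.ofInjective f hf).symm : LinearMap.range f →ₗ[k] N) ∘ₗ
    ψ.codRestrict (LinearMap.range f) hr, fun m => ?_⟩
  have := (LinearEquiv.ofInjective f hf).apply_symm_apply (ψ.codRestrict (LinearMap.range f) hr m)
  exact congrArg Subtype.val this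

section bdry

variable {R : Rep.{0} k G} {S : ShortComplex (Rep.{0} k G)}

/-- The cocycle attached to a `k`-linear lift `φ` of `f''`. -/
theorem exists_cocycle_of_lift (hS : S.ShortExact) (f'' : R ⟶ S.X₃) (φ : R.V →ₗ[k] S.X₂.V)
    (hφ : ∀ r, S.g.hom (φ r) = f''.hom r) :
    ∃ c : cocycles₁ ((Rep.ihom R).obj S.X₁),
      ∀ (g : G) (r : R.V), S.f.hom (ihomLin (c g) r) = S.X₂.ρ g (φ (R.ρ g⁻¹ r)) - φ r := by
  have hinj := f_injective hS
  have key : ∀ g : G, ∃ c : R.V →ₗ[k] S.X₁.V,
      ∀ r, S.f.hom.toLinearMap (c r) = (S.X₂.ρ g ∘ₗ φ ∘ₗ R.ρ g⁻¹ - φ) r := by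
    intro g
    refine exists_linearMap_factor S.f.hom.toLinearMap hinj _ fun r => ?_
    refine exists_of_g_eq_zero hS _ ?_
    simp only [LinearMap.sub_apply, LinearMap.comp_apply, map_sub, hφ]
    rw [Rep.hom_comm_apply, hφ, ← Rep.hom_comm_apply, ← Module.End.mul_apply, ← map_mul]
    simp
  choose c hc using key
  refine ⟨⟨fun g => ihomMk (c g), ?_⟩, fun g r => hc g r⟩
  rw [mem_cocycles₁_iff]
  intro g h
  apply LinearMap.ext
  intro r
  apply hinj
  show S.f.hom.toLinearMap (c (g * h) r) = S.f.hom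
    ((ihomLin (((Rep.ihom R).obj S.X₁).ρ g (ihomMk (c h))) + c g) r)
  rw [hc, LinearMap.add_apply, map_add, ihom_ρ_apply, Rep.hom_comm_apply]
  show _ = S.X₂.ρ g (S.f.hom.toLinearMap (c h (R.ρ g⁻¹ r))) + S.f.hom.toLinearMap (c g r)
  rw [hc, hc]
  simp only [LinearMap.sub_apply, LinearMap.comp_apply, map_sub, mul_inv_rev, map_mul,
    Module.End.mul_apply]
  abel

theorem exists_isBdryCocycle (hS : S.ShortExact) [Module.Projective k R.V] (f'' : R ⟶ S.X₃) :
    ∃ c, IsBdryCocycle R S f'' c := by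
  obtain ⟨φ, hφ⟩ := Module.projective_lifting_property S.g.hom.toLinearMap f''.hom.toLinearMap
    (g_surjective hS)
  have hφ' : ∀ r, S.g.hom (φ r) = f''.hom r := fun r => LinearMap.congr_fun hφ r
  obtain ⟨c, hc⟩ := exists_cocycle_of_lift hS f'' φ hφ'
  exact ⟨c, φ, hφ', hc⟩


/-- Two boundary cocycles of the same morphism are cohomologous. -/
theorem H1π_eq_of_isBdryCocycle (hS : S.ShortExact) {f'' : R ⟶ S.X₃}
    {c₁ c₂ : cocycles₁ ((Rep.ihom R).obj S.X₁)} (h₁ : IsBdryCocycle R S f'' c₁)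
    (h₂ : IsBdryCocycle R S f'' c₂) :
    H1π ((Rep.ihom R).obj S.X₁) c₁ = H1π ((Rep.ihom R).obj S.X₁) c₂ := by
  have hinj := f_injective hS
  obtain ⟨φ₁, hφ₁, hc₁⟩ := h₁
  obtain ⟨φ₂, hφ₂, hc₂⟩ := h₂
  obtain ⟨ψ, hψ⟩ := exists_linearMap_factor S.f.hom.toLinearMap hinj (φ₁ - φ₂) fun r =>
    exists_of_g_eq_zero hS _ (by simp [hφ₁, hφ₂])
  rw [H1π_eq_iff]
  refine ⟨ihomMk ψ, ?_⟩
  funext g
  apply LinearMap.ext
  intro r
  apply hinj
  show S.f.hom ((ihomLin (((Rep.ihom R).obj S.X₁).ρ g (ihomMk ψ)) - ψ) r) =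
    S.f.hom ((ihomLin (c₁ g) - ihomLin (c₂ g)) r)
  rw [LinearMap.sub_apply, LinearMap.sub_apply, map_sub, map_sub, hc₁, hc₂, ihom_ρ_apply,
    Rep.hom_comm_apply]
  have h1 := hψ r
  have h2 := hψ (R.ρ g⁻¹ r)
  simp only [LinearMap.sub_apply] at h1 h2
  show S.X₂.ρ g (S.f.hom.toLinearMap (ψ (R.ρ g⁻¹ r))) - S.f.hom.toLinearMap (ψ r) = _
  rw [h1, h2, map_sub]
  abel

open Classical in
/-- The boundary map `∂ : Hom_G(R, X'') → H¹(G, Hom_k(R, X'))` as a function: the class of any
boundary cocycle (`0` if there is none, which does not happen for `k`-projective `R`). -/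
def bdryFun (R : Rep.{0} k G) (S : ShortComplex (Rep.{0} k G)) (f'' : R ⟶ S.X₃) :
    H1 ((Rep.ihom R).obj S.X₁) :=
  if h : ∃ c, IsBdryCocycle R S f'' c then H1π ((Rep.ihom R).obj S.X₁) h.choose else 0

/-- **Explicit formula for `∂`.** -/
theorem bdryFun_eq (hS : S.ShortExact) {f'' : R ⟶ S.X₃}
    {c : cocycles₁ ((Rep.ihom R).obj S.X₁)} (hc : IsBdryCocycle R S f'' c) :
    bdryFun R S f'' = H1π ((Rep.ihom R).obj S.X₁) c := by
  have h : ∃ c, IsBdryCocycle R S f'' c := ⟨c, hc⟩
  rw [bdryFun, dif_pos h]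
  exact H1π_eq_of_isBdryCocycle hS h.choose_spec hc

theorem isBdryCocycle_add {f₁ f₂ : R ⟶ S.X₃} {c₁ c₂ : cocycles₁ ((Rep.ihom R).obj S.X₁)}
    (h₁ : IsBdryCocycle R S f₁ c₁) (h₂ : IsBdryCocycle R S f₂ c₂) :
    IsBdryCocycle R S (f₁ + f₂) (c₁ + c₂) := by
  obtain ⟨φ₁, hφ₁, hc₁⟩ := h₁
  obtain ⟨φ₂, hφ₂, hc₂⟩ := h₂
  refine ⟨φ₁ + φ₂, fun r => ?_, fun g r => ?_⟩
  · simp [hφ₁, hφ₂, Rep.add_hom]
  · show S.f.hom ((ihomLin (c₁ g) + ihomLin (c₂ g)) r) = _
    rw [LinearMap.add_apply, map_add, hc₁, hc₂]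
    simp only [LinearMap.add_apply, map_add]
    abel

theorem isBdryCocycle_zero : IsBdryCocycle R S (0 : R ⟶ S.X₃) 0 :=
  ⟨0, fun r => by simp, fun g r => by
    show S.f.hom ((0 : R.V →ₗ[k] S.X₁.V) r) = _
    simp⟩

/-- The boundary map `∂ : Hom_G(R, X'') →+ H¹(G, Hom_k(R, X'))`. -/
def bdry (hS : S.ShortExact) (R : Rep.{0} k G) [Module.Projective k R.V] :
    (R ⟶ S.X₃) →+ H1 ((Rep.ihom R).obj S.X₁) where
  toFun := bdryFun R S
  map_zero' := by
    rw [bdryFun_eq hS isBdryCocycle_zero, map_zero]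
  map_add' f₁ f₂ := by
    obtain ⟨c₁, h₁⟩ := exists_isBdryCocycle hS f₁
    obtain ⟨c₂, h₂⟩ := exists_isBdryCocycle hS f₂
    rw [bdryFun_eq hS h₁, bdryFun_eq hS h₂, bdryFun_eq hS (isBdryCocycle_add h₁ h₂), map_add]

theorem bdry_apply (hS : S.ShortExact) [Module.Projective k R.V] (f'' : R ⟶ S.X₃) :
    bdry hS R f'' = bdryFun R S f'' := rfl

/-- **Explicit formula for `∂`**: `∂ f''` is the class of `g ↦ f⁻¹ ∘ (g • φ - φ)` for ANY
`k`-linear lift `φ` of `f''`. -/
theorem bdry_eq (hS : S.ShortExact) [Module.Projective k R.V] {f'' : R ⟶ S.X₃}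
    {c : cocycles₁ ((Rep.ihom R).obj S.X₁)} (hc : IsBdryCocycle R S f'' c) :
    bdry hS R f'' = H1π ((Rep.ihom R).obj S.X₁) c :=
  bdryFun_eq hS hc


/-- A `G`-equivariant lift gives the zero boundary cocycle. -/
theorem isBdryCocycle_zero_of_lift (f : R ⟶ S.X₂) : IsBdryCocycle R S (f ≫ S.g) 0 := by
  refine ⟨f.hom.toLinearMap, fun r => rfl, fun g r => ?_⟩
  show S.f.hom ((0 : R.V →ₗ[k] S.X₁.V) r) = S.X₂.ρ g (f.hom (R.ρ g⁻¹ r)) - f.hom r
  rw [← Rep.hom_comm_apply, ← Module.End.mul_apply, ← map_mul]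
  simp

/-- **Exactness at `Hom_G(R, X'')`**: `∂ f'' = 0` iff `f''` lifts to a `G`-map `R → X`. -/
theorem bdry_eq_zero_iff (hS : S.ShortExact) [Module.Projective k R.V] (f'' : R ⟶ S.X₃) :
    bdry hS R f'' = 0 ↔ ∃ f : R ⟶ S.X₂, f ≫ S.g = f'' := by
  constructor
  · intro h0
    obtain ⟨c, hc⟩ := exists_isBdryCocycle hS f''
    rw [bdry_eq hS hc, H1π_eq_zero_iff] at h0
    obtain ⟨φ, hφ, hcφ⟩ := hc
    obtain ⟨ψ, hψ⟩ := h0
    have hψ' : ∀ (g : G) (r : R.V),
        S.X₁.ρ g (ihomLin ψ (R.ρ g⁻¹ r)) - ihomLin ψ r = ihomLin (c g) r := by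
      intro g r
      have := congrFun hψ g
      rw [d₀₁_hom_apply] at this
      have h2 := congrArg (fun x => ihomLin x r) this
      exact h2
    let φ' : R.V →ₗ[k] S.X₂.V := φ - S.f.hom.toLinearMap ∘ₗ ihomLin ψ
    have hinv : ∀ (g : G) (r : R.V), S.X₂.ρ g (φ' (R.ρ g⁻¹ r)) = φ' r := by
      intro g r
      have h1 := hcφ g r
      rw [← hψ' g r, map_sub, Rep.hom_comm_apply] at h1
      simp only [φ', LinearMap.sub_apply, LinearMap.comp_apply, map_sub]
      simp only [Representation.IntertwiningMap.toLinearMap_apply]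
      rw [← sub_eq_zero] at h1 ⊢
      rw [← neg_eq_zero, ← h1]
      abel
    have heq : ∀ (g : G) (r : R.V), φ' (R.ρ g r) = S.X₂.ρ g (φ' r) := by
      intro g r
      rw [← hinv g (R.ρ g r), ← Module.End.mul_apply, ← map_mul]
      simp
    refine ⟨Rep.ofHom (LinearMap.intertwiningMap_of_isIntertwiningMap R.ρ S.X₂.ρ φ' heq), ?_⟩
    apply Rep.hom_ext
    apply Representation.IntertwiningMap.ext
    apply LinearMap.ext
    intro r
    show S.g.hom (φ' r) = f''.hom r
    simp only [φ', LinearMap.sub_apply, LinearMap.comp_apply, map_sub, hφ]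
    rw [Representation.IntertwiningMap.toLinearMap_apply, g_f hS, sub_zero]
  · rintro ⟨f, rfl⟩
    rw [bdry_eq hS (isBdryCocycle_zero_of_lift f), map_zero]

/-- The map `H¹(G, Hom_k(R, X)) → H¹(G, Hom_k(R, Y))` induced by `u : X ⟶ Y`. -/
abbrev ihomH1Map (R : Rep.{0} k G) {X Y : Rep.{0} k G} (u : X ⟶ Y) :
    H1 ((Rep.ihom R).obj X) ⟶ H1 ((Rep.ihom R).obj Y) :=
  groupCohomology.map (MonoidHom.id G) ((Rep.ihom R).map u) 1

theorem ihomH1Map_H1π (R : Rep.{0} k G) {X Y : Rep.{0} k G} (u : X ⟶ Y)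
    (c : cocycles₁ ((Rep.ihom R).obj X)) :
    (ihomH1Map R u).hom (H1π _ c) =
      H1π _ (mapCocycles₁ (MonoidHom.id G) ((Rep.ihom R).map u) c) := by
  have h := H1π_comp_map_apply (MonoidHom.id G) ((Rep.ihom R).map u) c
  exact h

theorem mapCocycles₁_ihom_apply (R : Rep.{0} k G) {X Y : Rep.{0} k G} (u : X ⟶ Y)
    (c : cocycles₁ ((Rep.ihom R).obj X)) (g : G) (r : R.V) :
    ihomLin (mapCocycles₁ (MonoidHom.id G) ((Rep.ihom R).map u) c g) r =
      u.hom (ihomLin (c g) r) := rfl

/-- **Exactness at `H¹(G, Hom_k(R, X'))`**: `y ↦ 0` in `H¹(G, Hom_k(R, X))` iff `y = ∂ f''`. -/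
theorem ihomH1Map_eq_zero_iff (hS : S.ShortExact) [Module.Projective k R.V]
    (y : H1 ((Rep.ihom R).obj S.X₁)) :
    (ihomH1Map R S.f).hom y = 0 ↔ ∃ f'' : R ⟶ S.X₃, bdry hS R f'' = y := by
  constructor
  · induction y using H1_induction_on with
    | h c =>
      intro h0
      rw [ihomH1Map_H1π, H1π_eq_zero_iff] at h0
      obtain ⟨φ, hφ⟩ := h0
      have hφ' : ∀ (g : G) (r : R.V),
          S.X₂.ρ g (ihomLin φ (R.ρ g⁻¹ r)) - ihomLin φ r = S.f.hom (ihomLin (c g) r) := by
        intro g r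
        have := congrFun hφ g
        rw [d₀₁_hom_apply] at this
        exact congrArg (fun x => ihomLin x r) this
      let φ'' : R.V →ₗ[k] S.X₃.V := S.g.hom.toLinearMap ∘ₗ ihomLin φ
      have hinv : ∀ (g : G) (r : R.V), S.X₃.ρ g (φ'' (R.ρ g⁻¹ r)) = φ'' r := by
        intro g r
        have h1 := congrArg S.g.hom (hφ' g r)
        rw [g_f hS, map_sub, sub_eq_zero, Rep.hom_comm_apply] at h1
        exact h1
      have heq : ∀ (g : G) (r : R.V), φ'' (R.ρ g r) = S.X₃.ρ g (φ'' r) := by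
        intro g r
        rw [← hinv g (R.ρ g r), ← Module.End.mul_apply, ← map_mul]
        simp
      refine ⟨Rep.ofHom (LinearMap.intertwiningMap_of_isIntertwiningMap R.ρ S.X₃.ρ φ'' heq), ?_⟩
      refine bdry_eq hS ⟨ihomLin φ, fun r => rfl, fun g r => (hφ' g r).symm⟩
  · rintro ⟨f'', rfl⟩
    obtain ⟨c, hc⟩ := exists_isBdryCocycle hS f''
    rw [bdry_eq hS hc, ihomH1Map_H1π, H1π_eq_zero_iff]
    obtain ⟨φ, hφ, hcφ⟩ := hc
    refine ⟨ihomMk φ, ?_⟩
    funext g
    rw [d₀₁_hom_apply]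
    apply LinearMap.ext
    intro r
    exact (hcφ g r).symm


/-- `ker ∂ = im(Hom_G(R, X) → Hom_G(R, X''))`. -/
theorem ker_bdry (hS : S.ShortExact) [Module.Projective k R.V] :
    (bdry hS R).ker = (Preadditive.rightComp R S.g).range := by
  ext f''
  rw [AddMonoidHom.mem_ker, bdry_eq_zero_iff, AddMonoidHom.mem_range]
  rfl

/-- `im ∂ = ker(H¹(G, Hom_k(R, X')) → H¹(G, Hom_k(R, X)))`. -/
theorem range_bdry (hS : S.ShortExact) [Module.Projective k R.V] :
    (bdry hS R).range = (ihomH1Map R S.f).hom.toAddMonoidHom.ker := by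
  ext y
  rw [AddMonoidHom.mem_range, AddMonoidHom.mem_ker]
  exact (ihomH1Map_eq_zero_iff hS y).symm

/-- **ALG3, final form**: `Hom_G(R, X'') / im Hom_G(R, X) ≃ ker(H¹(Hom(R, X')) → H¹(Hom(R, X)))`,
induced by `∂`. -/
def bdryEquiv (hS : S.ShortExact) (R : Rep.{0} k G) [Module.Projective k R.V] :
    ((R ⟶ S.X₃) ⧸ (Preadditive.rightComp R S.g).range) ≃+
      (ihomH1Map R S.f).hom.toAddMonoidHom.ker :=
  (QuotientAddGroup.quotientAddEquivOfEq (ker_bdry hS).symm).trans <|
    (QuotientAddGroup.quotientKerEquivRange (bdry hS R)).trans <|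
      AddEquiv.addSubgroupCongr (range_bdry hS)

theorem bdryEquiv_mk (hS : S.ShortExact) [Module.Projective k R.V] (f'' : R ⟶ S.X₃) :
    ((bdryEquiv hS R (QuotientAddGroup.mk f'') : (ihomH1Map R S.f).hom.toAddMonoidHom.ker) :
      H1 ((Rep.ihom R).obj S.X₁)) = bdry hS R f'' := rfl

end bdry

/-! ### Free representations: `Hom_G(k[G]^{(α)}, X) → Hom_G(k[G]^{(α)}, X'')` is onto -/

theorem free_hom_surjective {S : ShortComplex (Rep.{0} k G)} (hS : S.ShortExact) (α : Type)
    (h'' : Rep.free k G α ⟶ S.X₃) : ∃ h : Rep.free k G α ⟶ S.X₂, h ≫ S.g = h'' := by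
  have hsurj := g_surjective hS
  choose x hx using fun a : α => hsurj (h''.hom (Finsupp.single a (.single 1 1)))
  refine ⟨Rep.freeLift k G S.X₂ x, Rep.free_ext k G S.X₃ _ _ fun i => ?_⟩
  rw [← hx i]
  show S.g.hom (Representation.freeLift S.X₂.ρ x (Finsupp.single i (.single 1 1))) = _
  rw [Representation.freeLift_single_single]
  simp


/-! ### ALG3 for the standard presentation `0 → R → P → N → 0` (`k = ℤ`) -/

section std

variable {G : Type} [Group G]

/-- `Bc(X) → Bc(X'')` is onto. -/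
theorem homB_surjective (N : Rep.{0} ℤ G) {S : ShortComplex (Rep.{0} ℤ G)} (hS : S.ShortExact)
    (h'' : homB N S.X₃) : ∃ h : homB N S.X₂, h ≫ S.g = h'' :=
  free_hom_surjective hS N.V h''

/-- The boundary map `∂ : A(X'') → 𝔈²(X')` of ALG3 for the standard presentation. -/
def stdBdry (N : Rep.{0} ℤ G) (hR : @Module.Projective ℤ _ (stdR N).V _ (stdR N).hV2)
    {S : ShortComplex (Rep.{0} ℤ G)} (hS : S.ShortExact) : homA N S.X₃ →+ E2 N S.X₁ :=
  haveI := hR
  bdry hS (stdR N)

variable (N : Rep.{0} ℤ G) (hR : @Module.Projective ℤ _ (stdR N).V _ (stdR N).hV2)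
  {S : ShortComplex (Rep.{0} ℤ G)} (hS : S.ShortExact)
include hR hS

/-- Explicit formula: `∂ f''` is the class of the cocycle `g ↦ f⁻¹ ∘ (g • φ - φ)` for any additive
lift `φ : R → X` of `f''`. -/
theorem stdBdry_eq {f'' : homA N S.X₃} {c : cocycles₁ ((Rep.ihom (stdR N)).obj S.X₁)}
    (hc : IsBdryCocycle (stdR N) S f'' c) : stdBdry N hR hS f'' = H1π _ c :=
  haveI := hR
  bdry_eq hS hc

theorem exists_isBdryCocycle_std (f'' : homA N S.X₃) :
    ∃ c, IsBdryCocycle (stdR N) S f'' c :=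
  haveI := hR
  exists_isBdryCocycle hS f''

/-- Exactness at `A(X'')`. -/
theorem stdBdry_eq_zero_iff (f'' : homA N S.X₃) :
    stdBdry N hR hS f'' = 0 ↔ ∃ f : homA N S.X₂, f ≫ S.g = f'' :=
  haveI := hR
  bdry_eq_zero_iff hS f''

/-- Exactness at `𝔈²(X')`. -/
theorem E2map_eq_zero_iff (y : E2 N S.X₁) :
    (T.coeffMap ((Rep.ihom (stdR N)).map S.f) 1).hom y = 0 ↔
      ∃ f'' : homA N S.X₃, stdBdry N hR hS f'' = y :=
  haveI := hR
  ihomH1Map_eq_zero_iff hS y

/-- `∂ ∘ res = 0`. -/
theorem stdBdry_resBA (h'' : homB N S.X₃) : stdBdry N hR hS (resBA N S.X₃ h'') = 0 := by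
  obtain ⟨h, rfl⟩ := homB_surjective N hS h''
  rw [stdBdry_eq_zero_iff]
  exact ⟨stdι N ≫ h, by simp [resBA]⟩

/-- `A(X'') / im A(X) ≃ ker(𝔈²(X') → 𝔈²(X))`, induced by `∂`. -/
def stdBdryEquiv : (homA N S.X₃ ⧸ (Preadditive.rightComp (stdR N) S.g).range) ≃+
    (ihomH1Map (stdR N) S.f).hom.toAddMonoidHom.ker :=
  haveI := hR
  bdryEquiv hS (stdR N)

theorem stdBdryEquiv_mk (f'' : homA N S.X₃) :
    ((stdBdryEquiv N hR hS (QuotientAddGroup.mk f'') :
      (ihomH1Map (stdR N) S.f).hom.toAddMonoidHom.ker) : E2 N S.X₁) = stdBdry N hR hS f'' := rfl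

end std

/-- **ALG3** (blueprint coord/S55-E1.md §3), Spec form. -/
def ALG3Spec : Prop :=
  ∀ (G : Type) [Group G] (N : Rep.{0} ℤ G), @Module.Projective ℤ _ (stdR N).V _ (stdR N).hV2 →
  ∀ (S : ShortComplex (Rep.{0} ℤ G)), S.ShortExact →
    (∀ h'' : homB N S.X₃, ∃ h : homB N S.X₂, h ≫ S.g = h'') ∧
    ∃ d : homA N S.X₃ →+ E2 N S.X₁,
      (∀ (f'' : homA N S.X₃) (c : cocycles₁ ((Rep.ihom (stdR N)).obj S.X₁)),
          IsBdryCocycle (stdR N) S f'' c → d f'' = H1π _ c) ∧
      (∀ f'' : homA N S.X₃, d f'' = 0 ↔ ∃ f : homA N S.X₂, f ≫ S.g = f'') ∧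
      (∀ y : E2 N S.X₁, (T.coeffMap ((Rep.ihom (stdR N)).map S.f) 1).hom y = 0 ↔
          ∃ f'' : homA N S.X₃, d f'' = y) ∧
      (∀ h'' : homB N S.X₃, d (resBA N S.X₃ h'') = 0)

theorem alg3 : ALG3Spec := fun _ _ N hR _ hS =>
  ⟨homB_surjective N hS, stdBdry N hR hS, fun _ _ hc => stdBdry_eq N hR hS hc,
    stdBdry_eq_zero_iff N hR hS, E2map_eq_zero_iff N hR hS, stdBdry_resBA N hR hS⟩

end

end Fermat.Agent.S55.E1.H354

end
-- ===== PACK-END S55/E1/H354/Alg3.lean

-- ===== PACK-BEGIN S55/Cap/IndM.lean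
section


/-!
# S55 / A8 (CAP): induced modules of `G`-modules over `ℤ`   (helper303)

`IndM U X = (G ⧸ U →₀ X)` with the diagonal action `g • single x a = single (g • x) (g • a)`,
for an additive group `X` with a `DistribMulAction G X`.  (Type synonym: Mathlib's pointwise
action on `Finsupp` is NOT used.)  Functoriality in `X` (`IndM.map`), level change (`IndM.le`),
smoothness, `p`-divisibility and `p`-torsion.
-/

set_option autoImplicit false
set_option linter.unusedVariables false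

noncomputable section

namespace Fermat.Agent.S55.Cap

open Fermat.Agent.S55.PT

variable {G : Type} [Group G]

/-- `Ind_U X = (G ⧸ U →₀ X)` with the diagonal action. -/
def IndM (U : Subgroup G) (X : Type) [AddCommGroup X] : Type := (G ⧸ U) →₀ X

namespace IndM

variable (U : Subgroup G) {X Y Z : Type} [AddCommGroup X] [AddCommGroup Y] [AddCommGroup Z]

instance instAddCommGroup : AddCommGroup (IndM U X) :=
  inferInstanceAs (AddCommGroup ((G ⧸ U) →₀ X))

/-- the underlying finitely supported function -/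
def toF : IndM U X →+ ((G ⧸ U) →₀ X) := AddMonoidHom.id _

/-- the element of `IndM U X` given by a finitely supported function -/
def ofF : ((G ⧸ U) →₀ X) →+ IndM U X := AddMonoidHom.id _

@[simp] lemma toF_ofF (F : (G ⧸ U) →₀ X) : toF U (ofF U F) = F := rfl
@[simp] lemma ofF_toF (F : IndM U X) : ofF U (toF U F) = F := rfl

/-- `single x a` -/
def single (x : G ⧸ U) (a : X) : IndM U X := ofF U (Finsupp.single x a)

lemma single_add (x : G ⧸ U) (a b : X) : single U x (a + b) = single U x a + single U x b :=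
  Finsupp.single_add x a b

lemma single_zero (x : G ⧸ U) : single U x (0 : X) = 0 := Finsupp.single_zero x

variable {U} in
@[elab_as_elim]
lemma induction_on {motive : IndM U X → Prop} (F : IndM U X) (h0 : motive 0)
    (hadd : ∀ F F', motive F → motive F' → motive (F + F'))
    (hsingle : ∀ x a, motive (single U x a)) : motive F :=
  Finsupp.induction_linear (motive := fun F => motive (ofF U F)) (toF U F) h0 hadd hsingle

variable {U} in
/-- two additive maps out of `IndM U X` agreeing on `single`s are equal -/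
lemma addHom_ext {φ ψ : IndM U X →+ Y} (h : ∀ x a, φ (single U x a) = ψ (single U x a)) :
    φ = ψ := by
  ext F
  induction F using induction_on with
  | h0 => rw [map_zero, map_zero]
  | hadd F F' hF hF' => rw [map_add, map_add, hF, hF']
  | hsingle x a => exact h x a

/-! ### functoriality in the module -/

/-- `Ind_U φ` -/
def map (φ : X →+ Y) : IndM U X →+ IndM U Y :=
  (ofF U).comp ((Finsupp.mapRange.addMonoidHom φ).comp (toF U))

@[simp] lemma map_single (φ : X →+ Y) (x : G ⧸ U) (a : X) :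
    map U φ (single U x a) = single U x (φ a) := by
  show ofF U (Finsupp.mapRange φ (map_zero φ) (Finsupp.single x a)) = ofF U (Finsupp.single x (φ a))
  rw [Finsupp.mapRange_single]

lemma map_apply (φ : X →+ Y) (F : IndM U X) (x : G ⧸ U) :
    toF U (map U φ F) x = φ (toF U F x) := rfl

lemma map_injective (φ : X →+ Y) (hφ : Function.Injective φ) :
    Function.Injective (map U φ) := fun F F' h =>
  Finsupp.mapRange_injective φ (map_zero φ) hφ h

lemma map_comp (ψ : Y →+ Z) (φ : X →+ Y) (F : IndM U X) :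
    map U (ψ.comp φ) F = map U ψ (map U φ F) := by
  have : map U (ψ.comp φ) = (map U ψ).comp (map U φ) := by
    apply addHom_ext
    intro x a
    rw [AddMonoidHom.comp_apply, map_single, map_single, map_single, AddMonoidHom.comp_apply]
  rw [this, AddMonoidHom.comp_apply]

/-! ### level change -/

variable {U} in
/-- push-forward along a map of coset spaces -/
def dom {V : Subgroup G} (f : G ⧸ U → G ⧸ V) : IndM U X →+ IndM V X :=
  (ofF V).comp ((Finsupp.mapDomain.addMonoidHom f).comp (toF U))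

variable {U} in
@[simp] lemma dom_single {V : Subgroup G} (f : G ⧸ U → G ⧸ V) (x : G ⧸ U) (a : X) :
    dom f (single U x a) = single V (f x) a := by
  show ofF V (Finsupp.mapDomain f (Finsupp.single x a)) = ofF V (Finsupp.single (f x) a)
  rw [Finsupp.mapDomain_single]

variable {U} in
/-- level change `Ind_U X → Ind_V X` for `U ≤ V` -/
def le {V : Subgroup G} (h : U ≤ V) : IndM U X →+ IndM V X :=
  dom (Subgroup.quotientMapOfLE h)

variable {U} in
@[simp] lemma le_single {V : Subgroup G} (h : U ≤ V) (x : G ⧸ U) (a : X) :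
    le h (single U x a) = single V (Subgroup.quotientMapOfLE h x) a :=
  dom_single _ x a

variable {U} in
lemma le_map {V : Subgroup G} (h : U ≤ V) (φ : X →+ Y) (F : IndM U X) :
    le h (map U φ F) = map V φ (le h F) := by
  have : (le h).comp (map U φ) = (map V φ).comp (le (X := X) h) := by
    apply addHom_ext
    intro x a
    rw [AddMonoidHom.comp_apply, AddMonoidHom.comp_apply, map_single, le_single, le_single,
      map_single]
  exact DFunLike.congr_fun this F

/-! ### the diagonal action -/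

section Action

variable [DistribMulAction G X] [DistribMulAction G Y]

/-- the action of `g`: `single x a ↦ single (g • x) (g • a)` -/
def act (g : G) : IndM U X →+ IndM U X :=
  (dom (fun x : G ⧸ U => g • x)).comp (map U (DistribSMul.toAddMonoidHom X g))

lemma act_single (g : G) (x : G ⧸ U) (a : X) :
    act U g (single U x a) = single U (g • x) (g • a) := by
  rw [act, AddMonoidHom.comp_apply, map_single, dom_single]
  rfl

instance instDistribMulAction : DistribMulAction G (IndM U X) where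
  smul g F := act U g F
  one_smul F := by
    show act U (1 : G) F = F
    have : act (X := X) U (1 : G) = AddMonoidHom.id _ := by
      apply addHom_ext
      intro x a
      rw [act_single, one_smul, one_smul, AddMonoidHom.id_apply]
    rw [this, AddMonoidHom.id_apply]
  mul_smul g h F := by
    show act U (g * h) F = act U g (act U h F)
    have : act (X := X) U (g * h) = (act U g).comp (act U h) := by
      apply addHom_ext
      intro x a
      rw [AddMonoidHom.comp_apply, act_single, act_single, act_single, mul_smul, mul_smul]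
    rw [this, AddMonoidHom.comp_apply]
  smul_zero g := map_zero (act U g)
  smul_add g F F' := map_add (act U g) F F'

lemma smul_def (g : G) (F : IndM U X) : g • F = act U g F := rfl

@[simp] lemma smul_single (g : G) (x : G ⧸ U) (a : X) :
    g • single U x a = single U (g • x) (g • a) := act_single U g x a

lemma map_smul' (φ : X →+ Y) (hφ : ∀ (g : G) (a : X), φ (g • a) = g • φ a) (g : G)
    (F : IndM U X) : map U φ (g • F) = g • map U φ F := by
  have : (map U φ).comp (act U g) = (act U g).comp (map U φ) := by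
    apply addHom_ext
    intro x a
    rw [AddMonoidHom.comp_apply, AddMonoidHom.comp_apply, act_single, map_single, map_single,
      act_single, hφ]
  exact DFunLike.congr_fun this F

variable {U} in
lemma le_smul {V : Subgroup G} (h : U ≤ V) (g : G) (F : IndM U X) :
    le h (g • F) = g • le h F := by
  have : (le h).comp (act U g) = (act V g).comp (le (X := X) h) := by
    apply addHom_ext
    intro x a
    rw [AddMonoidHom.comp_apply, AddMonoidHom.comp_apply, act_single, le_single, le_single,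
      act_single]
    congr 1
    induction x using QuotientGroup.induction_on with
    | H a => rfl
  exact DFunLike.congr_fun this F

/-- smoothness of `Ind_U X` for a normal level `U` and a smooth module `X` -/
lemma smooth (L : LevelSys G) (hU : U ∈ L.levels) [hUn : U.Normal]
    (hX : ∀ a : X, ∃ W ∈ L.levels, ∀ s ∈ W, s • a = a) (F : IndM U X) :
    ∃ W ∈ L.levels, ∀ s ∈ W, s • F = F := by
  induction F using induction_on with
  | h0 =>
    obtain ⟨W, hW⟩ := L.nonempty
    exact ⟨W, hW, fun s _ => smul_zero s⟩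
  | hadd F F' hF hF' =>
    obtain ⟨W, hW, h⟩ := hF
    obtain ⟨W', hW', h'⟩ := hF'
    obtain ⟨W'', hW'', hle⟩ := L.directed W hW W' hW'
    exact ⟨W'', hW'', fun s hs => by rw [smul_add, h s (hle hs).1, h' s (hle hs).2]⟩
  | hsingle x a =>
    obtain ⟨W, hW, h⟩ := hX a
    obtain ⟨W', hW', hle⟩ := L.directed U hU W hW
    refine ⟨W', hW', fun s hs => ?_⟩
    rw [smul_single, h s (hle hs).2]
    congr 1
    induction x using QuotientGroup.induction_on with
    | H g =>
      show ((s * g : G) : G ⧸ U) = (g : G ⧸ U)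
      rw [QuotientGroup.eq]
      have : (s * g)⁻¹ * g = g⁻¹ * s⁻¹ * g := by group
      rw [this]
      have hs' : s⁻¹ ∈ U := U.inv_mem (hle hs).1
      have := hUn.conj_mem s⁻¹ hs' g⁻¹
      simpa using this

end Action

/-! ### divisibility and torsion -/

lemma nsmul_apply (n : ℕ) (F : IndM U X) (x : G ⧸ U) : toF U (n • F) x = n • toF U F x := rfl

lemma exists_nsmul_eq (p : ℕ) (hdiv : ∀ a : X, ∃ b : X, p • b = a) (F : IndM U X) :
    ∃ F' : IndM U X, p • F' = F := by
  induction F using induction_on with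
  | h0 => exact ⟨0, nsmul_zero p⟩
  | hadd F F' hF hF' =>
    obtain ⟨F₁, h₁⟩ := hF
    obtain ⟨F₂, h₂⟩ := hF'
    exact ⟨F₁ + F₂, by rw [nsmul_add, h₁, h₂]⟩
  | hsingle x a =>
    obtain ⟨b, hb⟩ := hdiv a
    refine ⟨single U x b, ?_⟩
    rw [← hb]
    show ofF U (p • Finsupp.single x b) = ofF U (Finsupp.single x (p • b))
    rw [Finsupp.smul_single]

lemma exists_map_eq_of_nsmul_eq_zero (p : ℕ) (φ : X →+ Y)
    (hφ : ∀ y : Y, p • y = 0 → ∃ a : X, φ a = y) (F : IndM U Y) (hF : p • F = 0) :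
    ∃ F' : IndM U X, map U φ F' = F := by
  classical
  have hF' : ∀ x, p • toF U F x = 0 := fun x => by
    rw [← nsmul_apply, hF]
    rfl
  choose s hs using fun x => hφ (toF U F x) (hF' x)
  refine ⟨ofF U (Finsupp.onFinset (toF U F).support (fun x => if toF U F x = 0 then 0 else s x)
    (fun x hx => ?_)), ?_⟩
  · rw [Finsupp.mem_support_iff]
    intro h0
    exact hx (by rw [if_pos h0])
  · apply Finsupp.ext
    intro x
    show φ (if toF U F x = 0 then 0 else s x) = toF U F x
    split_ifs with h0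
    · rw [map_zero, h0]
    · exact hs x

end IndM

end Fermat.Agent.S55.Cap

end
end
-- ===== PACK-END S55/Cap/IndM.lean

-- ===== PACK-BEGIN S29/H872/Cyclo.lean
section



/-!
# The mod `p` cyclotomic character at Frobenius elements

For a prime `ℓ ≠ p`, a valuation subring `A` of `ℚ̄` over `ℓ` and a Frobenius element `τ` at `A`
(Prelude: `ValuationSubring.IsFrobeniusAt`), the mod `p` cyclotomic character
`ExtCitation.cycloChar p` takes the value `ℓ` at `τ`.
-/

set_option autoImplicit false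

namespace Fermat.Agent.S29.H872

open ExtCitation Fermat.Agent.S55.Bridge

section frob

variable (A : ValuationSubring (AlgebraicClosure ℚ))

/-- A Frobenius element at `A` raises to the `ℓ`-th power modulo the maximal ideal. -/
theorem frob_val_sub_lt_one {τ : AlgebraicClosure ℚ ≃ₐ[ℚ] AlgebraicClosure ℚ} {ℓ : ℕ}
    (hτ : A.IsFrobeniusAt τ ℓ) (z : AlgebraicClosure ℚ)
    (hz : A.valuation z ≤ 1) : A.valuation (τ z - z ^ ℓ) < 1 := by
  obtain ⟨hd, hfrob⟩ := hτ
  have hzA : z ∈ A := (A.valuation_le_one_iff z).mp hz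
  have h2 := hfrob (IsLocalRing.residue A ⟨z, hzA⟩)
  rw [← IsLocalRing.ResidueField.residue_smul, ← map_pow] at h2
  have h3 : ((⟨τ, hd⟩ : A.decompositionSubgroup ℚ) • (⟨z, hzA⟩ : A)) - (⟨z, hzA⟩ : A) ^ ℓ
      ∈ IsLocalRing.maximalIdeal A := by
    rw [← Ideal.Quotient.eq]
    exact h2
  rw [ValuationSubring.valuation_lt_one_iff] at h3
  exact h3

end frob

variable (p : ℕ) [Fact p.Prime]

/-- A Frobenius element at a place over `ℓ ≠ p` acts on `p`-th roots of unity by `t ↦ t ^ ℓ`. -/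
theorem frob_root_eq_pow {ℓ : ℕ} (hℓ : ℓ.Prime) (hℓp : ℓ ≠ p)
    (A : ValuationSubring (AlgebraicClosure ℚ)) (hA : A.LiesOverPrime ℓ)
    (τ : AlgebraicClosure ℚ ≃ₐ[ℚ] AlgebraicClosure ℚ) (hτ : A.IsFrobeniusAt τ ℓ)
    {t : AlgebraicClosure ℚ} (htp : t ^ p = 1) : τ t = t ^ ℓ := by
  have hp : p.Prime := Fact.out
  by_contra hne
  have hpv := val_prime_eq_one (A := A) hA hℓ hp hℓp
  have hσt : (τ t) ^ p = 1 := by rw [← map_pow, htp, map_one]
  have htl : (t ^ ℓ) ^ p = 1 := by rw [← pow_mul, mul_comm, pow_mul, htp, one_pow]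
  have h1 := val_sub_roots_eq_one (A := A) hp.ne_zero hpv hσt htl hne
  have hvt : A.valuation t ≤ 1 := by
    have h : (A.valuation t) ^ p = 1 := by rw [← map_pow, htp, map_one]
    exact ((pow_eq_one_iff.1 h).resolve_right hp.ne_zero).le
  have h2 := frob_val_sub_lt_one A hτ t hvt
  rw [h1] at h2
  exact lt_irrefl _ h2

/-- **Cyclotomic character at Frobenius.** For `ℓ ≠ p` and a Frobenius element `τ` at a place over
`ℓ`, the mod `p` cyclotomic character of `τ` is `ℓ`. -/
theorem cycloChar_frobenius {ℓ : ℕ} (hℓ : ℓ.Prime) (hℓp : ℓ ≠ p)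
    (A : ValuationSubring (AlgebraicClosure ℚ)) (hA : A.LiesOverPrime ℓ)
    (τ : AlgebraicClosure ℚ ≃ₐ[ℚ] AlgebraicClosure ℚ) (hτ : A.IsFrobeniusAt τ ℓ) :
    ((cycloChar p τ : (ZMod p)ˣ) : ZMod p) = (ℓ : ZMod p) := by
  have hp : p.Prime := Fact.out
  have : NeZero p := ⟨hp.ne_zero⟩
  have : Fact (1 < p) := ⟨hp.one_lt⟩
  have h := modularCyclotomicCharacter.unique (AlgebraicClosure ℚ) (card_rootsOfUnity_eq_self p)
    (τ : AlgebraicClosure ℚ ≃+* AlgebraicClosure ℚ) (c := (ℓ : ZMod p))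
    (fun t ht => by
      have htp : (t : AlgebraicClosure ℚ) ^ p = 1 := by
        have := (mem_rootsOfUnity p t).1 ht
        rw [← Units.val_pow_eq_pow_val, this, Units.val_one]
      have h1 : (τ : AlgebraicClosure ℚ ≃+* AlgebraicClosure ℚ) (t : AlgebraicClosure ℚ)
          = (t : AlgebraicClosure ℚ) ^ ℓ := frob_root_eq_pow p hℓ hℓp A hA τ hτ htp
      rw [h1, ZMod.val_natCast]
      conv_lhs => rw [← Nat.div_add_mod ℓ p, pow_add, pow_mul, htp, one_pow, one_mul])
  exact h.symm

/-- If `σ` fixes every `p`-th root of unity of `ℚ̄`, then `cycloChar p σ = 1` (root form). -/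
theorem cycloChar_eq_one_of_fixes_roots (σ : AlgebraicClosure ℚ ≃ₐ[ℚ] AlgebraicClosure ℚ)
    (hσ : ∀ t : AlgebraicClosure ℚ, t ^ p = 1 → σ t = t) : cycloChar p σ = 1 := by
  apply cycloChar_eq_one_of_fixes
  intro t ht
  apply hσ
  have := (mem_rootsOfUnity p t).1 ht
  rw [← Units.val_pow_eq_pow_val, this, Units.val_one]

end Fermat.Agent.S29.H872

end
-- ===== PACK-END S29/H872/Cyclo.lean

-- ===== PACK-BEGIN S56/Euler/IndGlueH809.lean
section


/-!
# Row S56 / wall W-BASE / Euler characteristic — leaf IND, GLUE (helper809)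

`ind_of : KeyStatement → PermCharpolyStatement → ArtinCountStatement → IndStatement`.

Index type `Option s` (`s` the finite set of cyclic `p'`-subgroups of ARTIN): `none ↦ ⊤`,
`some B ↦ B`; `W i = permData (Bs i) N`; weights `|G|` / `0` at `none` and `a_B^-` / `a_B^+` at
`some B`.  PERM (with `T = N.ρ g`, `σ_i = g` acting on `G ⧸ Bs i`) turns ARTIN (applied to all
powers `g ^ t`) into the hypothesis of KEY; KEY plus the vanishing on `permData B N` gives
`|G| • f (permData ⊤ N) = 0`, and `permData ⊤ N ≅ N`.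
-/

set_option autoImplicit false
set_option linter.style.haveILetI false

open Polynomial

noncomputable section

namespace Fermat.Agent.S56.Euler.H809

open Fermat.Agent.S56.Euler

variable {k G : Type} [Field k] [Group G]

/-- The zero representation. -/
def zeroData (k G : Type) [Field k] [Group G] : FDRepData k G where
  V := PUnit
  ρ := 1

/-- An additive invariant vanishes on the zero representation. -/
lemma additive_zeroData {f : RepInv k G} (hf : IsAdditiveInv f) : f (zeroData k G) = 0 := by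
  have h := hf (zeroData k G) (zeroData k G) (zeroData k G) LinearMap.id 0
    { equivar_i := fun g a => rfl
      equivar_q := fun g a => rfl
      inj := Function.injective_id
      surj := fun y => ⟨y, rfl⟩
      exact := by
        rw [LinearMap.range_id, LinearMap.ker_zero] }
  linarith

/-- Additive invariants are invariant under isomorphism. -/
lemma additive_iso {f : RepInv k G} (hf : IsAdditiveInv f) {A B : FDRepData k G}
    (h : RepIso A B) : f A = f B := by
  obtain ⟨e, he⟩ := h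
  have h := hf A B (zeroData k G) e.toLinearMap 0
    { equivar_i := fun g a => he g a
      equivar_q := fun g a => rfl
      inj := e.injective
      surj := fun y => ⟨0, rfl⟩
      exact := by
        rw [LinearMap.ker_zero]
        exact LinearEquiv.range e }
  rw [h, additive_zeroData hf, add_zero]

/-- `k[G/⊤] ⊗ N ≅ N`. -/
lemma permData_top_iso [Finite G] (N : FDRepData k G) :
    RepIso (permData (⊤ : Subgroup G) N) N := by
  haveI : Subsingleton (G ⧸ (⊤ : Subgroup G)) := QuotientGroup.subsingleton_quotient_top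
  let x₀ : G ⧸ (⊤ : Subgroup G) := ((1 : G) : G ⧸ (⊤ : Subgroup G))
  let e : ((G ⧸ (⊤ : Subgroup G)) →₀ N.V) ≃ₗ[k] N.V := Finsupp.uniqueLinearEquiv k N.V x₀
  refine ⟨e, fun g v => ?_⟩
  change e (diagRho (G ⧸ (⊤ : Subgroup G)) N.ρ g v) = N.ρ g (e v)
  induction v using Finsupp.induction_linear with
  | zero => simp
  | add v w hv hw => simp only [map_add, hv, hw]
  | single x n =>
    rw [diagRho_single]
    simp only [e, Finsupp.uniqueLinearEquiv_apply]
    rw [Subsingleton.elim (g • x) x₀, Subsingleton.elim x x₀]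
    simp

/-- fixed points of a power of `toPerm g` are the fixed points of `g ^ t`. -/
lemma card_fixed_toPerm_pow {X : Type} [MulAction G X] (g : G) (t : ℕ) :
    Nat.card {x : X // (MulAction.toPerm g ^ t) x = x} = Nat.card {x : X // g ^ t • x = x} := by
  have h : (MulAction.toPerm g ^ t : Equiv.Perm X) = MulAction.toPerm (g ^ t) :=
    (map_pow (MulAction.toPermHom G X) g t).symm
  simp only [h, MulAction.toPerm_apply]

/-- `a = a⁺ - a⁻`, multiplied by `c`. -/
lemma int_pos_neg_parts (a c : ℤ) :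
    a * c + (((-a).toNat : ℕ) : ℤ) * c = ((a.toNat : ℕ) : ℤ) * c := by
  have hB : ((a.toNat : ℕ) : ℤ) - (((-a).toNat : ℕ) : ℤ) = a := Int.toNat_sub_toNat_neg a
  linear_combination (-c) * hB

/-- **IND glue**: modular Artin induction from KEY, PERM and ARTIN. -/
theorem ind_of (hKey : KeyStatement) (hPerm : PermCharpolyStatement)
    (hArtin : ArtinCountStatement) : IndStatement := by
  intro p _ G _ _ f hf hvan N
  obtain ⟨s, a, hs, hcount⟩ := hArtin p G
  -- the data
  let I := Option {B : Subgroup G // B ∈ s}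
  let Bs : I → Subgroup G := fun i => i.elim ⊤ (fun B => B.1)
  let W : I → FDRepData (ZMod p) G := fun i => permData (Bs i) N
  let n : I → ℕ := fun i => i.elim (Nat.card G) (fun B => (- a B.1).toNat)
  let n' : I → ℕ := fun i => i.elim 0 (fun B => (a B.1).toNat)
  -- hypothesis of KEY from PERM + ARTIN
  have hchar : ∀ g : G, IsPRegular p g →
      ∏ i, LinearMap.charpoly ((W i).ρ g) ^ n i = ∏ i, LinearMap.charpoly ((W i).ρ g) ^ n' i := by
    intro g hg
    letI : ∀ i : I, Fintype (G ⧸ Bs i) := fun i => Fintype.ofFinite _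
    have hP := hPerm (ZMod p) N.V (N.ρ g) I (fun i => G ⧸ Bs i)
      (fun i => MulAction.toPerm g) n n' ?_
    · exact hP
    · intro t
      have hgt : IsPRegular p (g ^ t) := fun h => hg (h.trans (orderOf_pow_dvd t))
      have hA := hcount (g ^ t) hgt
      simp only [card_fixed_toPerm_pow]
      rw [Fintype.sum_option, Fintype.sum_option]
      have h1 : Nat.card {x : G ⧸ Bs none // g ^ t • x = x} = 1 := by
        haveI : Subsingleton (G ⧸ (⊤ : Subgroup G)) := QuotientGroup.subsingleton_quotient_top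
        haveI : Subsingleton (G ⧸ Bs none) := ‹Subsingleton (G ⧸ (⊤ : Subgroup G))›
        haveI : Nonempty {x : G ⧸ Bs none // g ^ t • x = x} :=
          ⟨⟨((1 : G) : G ⧸ Bs none), Subsingleton.elim _ _⟩⟩
        exact Nat.card_unique
      rw [h1]
      have hA' : ∑ B : {B : Subgroup G // B ∈ s},
          a B.1 * (Nat.card {x : G ⧸ B.1 // g ^ t • x = x} : ℤ) = (Nat.card G : ℤ) := by
        rw [← hA]
        exact Finset.sum_coe_sort s
          (fun B => a B * (Nat.card {x : G ⧸ B // g ^ t • x = x} : ℤ))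
      have hcast : ((n none * 1 + ∑ B : {B : Subgroup G // B ∈ s},
            n (some B) * Nat.card {x : G ⧸ Bs (some B) // g ^ t • x = x} : ℕ) : ℤ) =
          ((n' none * 1 + ∑ B : {B : Subgroup G // B ∈ s},
            n' (some B) * Nat.card {x : G ⧸ Bs (some B) // g ^ t • x = x} : ℕ) : ℤ) := by
        push_cast
        have hn : (n none : ℤ) = (Nat.card G : ℤ) := rfl
        have hn' : (n' none : ℤ) = 0 := by simp [n']
        rw [hn, hn', ← hA']
        simp only [zero_add, mul_one]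
        rw [← Finset.sum_add_distrib]
        refine Finset.sum_congr rfl (fun B _ => ?_)
        exact int_pos_neg_parts (a B.1) _
      exact_mod_cast hcast
  have hkey := hKey p G I W n n' hchar f hf
  rw [Fintype.sum_option, Fintype.sum_option] at hkey
  have hz : ∀ B : {B : Subgroup G // B ∈ s}, f (W (some B)) = 0 := fun B =>
    hvan B.1 (hs B.1 B.2).1 (hs B.1 B.2).2 N
  simp only [hz, mul_zero, Finset.sum_const_zero, add_zero] at hkey
  have hn : (n none : ℤ) = (Nat.card G : ℤ) := rfl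
  have hn' : (n' none : ℤ) = 0 := by simp [n']
  rw [hn, hn', zero_mul] at hkey
  have hG : (Nat.card G : ℤ) ≠ 0 := by
    exact_mod_cast Nat.card_pos.ne'
  have htop : f (permData (⊤ : Subgroup G) N) = 0 := by
    rcases mul_eq_zero.mp hkey with h | h
    · exact absurd h hG
    · exact h
  rw [← additive_iso hf (permData_top_iso N)]
  exact htop

end Fermat.Agent.S56.Euler.H809

end

end
-- ===== PACK-END S56/Euler/IndGlueH809.lean

-- ===== PACK-BEGIN S56/H596/Odd.lean
section



/-!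
# S56, TB layer 2, leaf ODD (helper596): complex conjugation

Under the standing hypotheses `Hyp` of S56:
* `isCycExp_complexConjugation` : complex conjugation acts on `μ_p` by `μ ↦ μ ^ (p - 1)`;
* `det_rho_complexConjugation`  : `det ρ̄(c) = -1`;
* `trace_rho_complexConjugation` : `tr ρ̄(c) = 0`;
* `rho_complexConjugation_sq`   : `ρ̄(c)² = 1`;
* `eq_smul_of_commute_complexConjugation` : a trace-zero endomorphism commuting with `ρ̄(c)` is a
  multiple of `ρ̄(c)`  (so `H⁰(G_∞, ad⁰ρ̄)` is the line spanned by `ρ̄(c)`);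
* `trace_mul_eq_zero_of_anticommute` : a trace-zero endomorphism anticommuting with `ρ̄(c)` is
  orthogonal to `ρ̄(c)` for the trace form.
-/

set_option autoImplicit false
set_option linter.unusedSectionVars false
set_option linter.unusedVariables false
set_option linter.style.haveILetI false

namespace Fermat.Agent.S56.H596

noncomputable section

open IsLocalRing Polynomial
open Fermat.Agent.S56

/-! ### Matrices -/

section Mat

variable {k : Type} [Field k]

theorem mat2_trace_eq_zero_of_sq (A : Matrix (Fin 2) (Fin 2) k) (hsq : A * A = 1)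
    (hdet : A.det = -1) : A.trace = 0 := by
  by_contra ht
  rw [Matrix.trace_fin_two] at ht
  rw [Matrix.det_fin_two] at hdet
  have h00 := congrFun (congrFun hsq 0) 0
  have h01 := congrFun (congrFun hsq 0) 1
  have h10 := congrFun (congrFun hsq 1) 0
  have h11 := congrFun (congrFun hsq 1) 1
  simp only [Matrix.mul_apply, Fin.sum_univ_two, Matrix.one_apply_eq, Matrix.one_apply_ne,
    ne_eq, one_ne_zero, not_false_eq_true, zero_ne_one, Fin.isValue] at h00 h01 h10 h11
  have ha : A 0 0 * (A 0 0 + A 1 1) = 0 := by linear_combination h00 + hdet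
  have hd : A 1 1 * (A 0 0 + A 1 1) = 0 := by linear_combination h11 + hdet
  have ha0 : A 0 0 = 0 := (mul_eq_zero.1 ha).resolve_right ht
  have hd0 : A 1 1 = 0 := (mul_eq_zero.1 hd).resolve_right ht
  exact ht (by rw [ha0, hd0, add_zero])

theorem mat2_mul_add_mul (X Y : Matrix (Fin 2) (Fin 2) k) (hX : X.trace = 0)
    (hY : Y.trace = 0) : X * Y + Y * X = (X * Y).trace • (1 : Matrix (Fin 2) (Fin 2) k) := by
  rw [Matrix.trace_fin_two] at hX hY
  have hX' : X 1 1 = - X 0 0 := by linear_combination hX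
  have hY' : Y 1 1 = - Y 0 0 := by linear_combination hY
  ext i j
  fin_cases i <;> fin_cases j <;>
    simp [Matrix.mul_apply, Fin.sum_univ_two, Matrix.trace_fin_two, hX', hY'] <;> ring

end Mat

/-! ### Endomorphisms of a plane -/

section End2

variable {k : Type} [Field k] {V : Type} [AddCommGroup V] [Module k V]

theorem end2_trace_eq_zero_of_sq (hV : Module.finrank k V = 2) (f : Module.End k V)
    (hsq : f * f = 1) (hdet : LinearMap.det f = -1) : LinearMap.trace k V f = 0 := by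
  haveI : Module.Finite k V := Module.finite_of_finrank_eq_succ hV
  let b : Module.Basis (Fin 2) k V := Module.finBasisOfFinrankEq k V hV
  rw [LinearMap.trace_eq_matrix_trace k b]
  apply mat2_trace_eq_zero_of_sq
  · rw [← LinearMap.toMatrix_mul, hsq, LinearMap.toMatrix_one]
  · rw [LinearMap.det_toMatrix, hdet]

theorem end2_mul_add_mul (hV : Module.finrank k V = 2) (f g : Module.End k V)
    (hf : LinearMap.trace k V f = 0) (hg : LinearMap.trace k V g = 0) :
    f * g + g * f = LinearMap.trace k V (f * g) • (1 : Module.End k V) := by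
  haveI : Module.Finite k V := Module.finite_of_finrank_eq_succ hV
  let b : Module.Basis (Fin 2) k V := Module.finBasisOfFinrankEq k V hV
  rw [LinearMap.trace_eq_matrix_trace k b] at hf hg
  apply (LinearMap.toMatrix b b).injective
  rw [map_add, LinearMap.toMatrix_mul, LinearMap.toMatrix_mul, map_smul, LinearMap.toMatrix_one,
    LinearMap.trace_eq_matrix_trace k b (f * g), LinearMap.toMatrix_mul]
  exact mat2_mul_add_mul _ _ hf hg

end End2

/-! ### Complex conjugation -/

section CC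

/-- Complex conjugation inverts roots of unity. -/
theorem complexConjugation_rootOfUnity {N : ℕ} (hN : N ≠ 0) {z : Qb} (hz : z ^ N = 1) :
    complexConjugation z = z⁻¹ := by
  apply complexEmbedding.toRingHom.injective
  show complexEmbedding (complexConjugation z) = complexEmbedding z⁻¹
  rw [complexEmbedding_complexConjugation, map_inv₀]
  have h1 : (complexEmbedding z) ^ N = 1 := by rw [← map_pow, hz, map_one]
  exact (Complex.inv_eq_conj (Complex.norm_eq_one_of_pow_eq_one h1 hN)).symm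

theorem isCycExp_complexConjugation (p : ℕ) (hp : p ≠ 0) :
    IsCycExp p complexConjugation (p - 1) := by
  intro μ hμ
  rw [complexConjugation_rootOfUnity hp hμ]
  have hμ0 : μ ≠ 0 := by
    rintro rfl
    rw [zero_pow hp] at hμ
    exact zero_ne_one hμ
  apply mul_left_cancel₀ hμ0
  rw [mul_inv_cancel₀ hμ0, ← pow_succ', Nat.sub_add_cancel (Nat.pos_of_ne_zero hp), hμ]

variable {𝒪 : Type} [CommRing 𝒪] [IsDomain 𝒪] [IsDiscreteValuationRing 𝒪] {p : ℕ}
  {ρbar : ResidualGaloisRep (ResidueField 𝒪)} {S Smin : Finset ℕ}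

theorem natCast_p_eq_zero (hyp : Hyp 𝒪 p ρbar S Smin) : (p : ResidueField 𝒪) = 0 := by
  have := (residue_eq_zero_iff _).2 hyp.hp𝒪
  rwa [map_natCast] at this

theorem two_ne_zero_of_hyp (hyp : Hyp 𝒪 p ρbar S Smin) : (2 : ResidueField 𝒪) ≠ 0 := by
  intro h2
  have hodd : Odd p := hyp.hp.odd_of_ne_two hyp.hp2
  obtain ⟨m, hm⟩ := hodd
  have h := natCast_p_eq_zero hyp
  rw [hm, Nat.cast_add, Nat.cast_mul, Nat.cast_ofNat, h2, zero_mul, zero_add, Nat.cast_one] at h
  exact one_ne_zero h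

theorem rho_complexConjugation_sq (ρbar : ResidualGaloisRep (ResidueField 𝒪)) :
    ρbar.ρ complexConjugation * ρbar.ρ complexConjugation = 1 := by
  rw [← map_mul, complexConjugation_mul_self, map_one]

theorem det_rho_complexConjugation (hyp : Hyp 𝒪 p ρbar S Smin) :
    LinearMap.det (ρbar.ρ complexConjugation) = -1 := by
  have h1 := hyp.hdet.2 1 complexConjugation (p - 1) (by
    intro μ hμ
    rw [pow_one] at hμ
    exact isCycExp_complexConjugation p hyp.hp.ne_zero μ hμ)
  have hp0 := natCast_p_eq_zero hyp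
  rw [pow_one, hp0, Ideal.span_singleton_eq_bot.2 rfl, Ideal.mem_bot, sub_eq_zero] at h1
  have h2 : ((p - 1 : ℕ) : ResidueField 𝒪) = -1 := by
    rw [Nat.cast_sub hyp.hp.one_le, hp0, Nat.cast_one, zero_sub]
  rw [← h2]
  exact h1

theorem trace_rho_complexConjugation (hyp : Hyp 𝒪 p ρbar S Smin) :
    LinearMap.trace (ResidueField 𝒪) ρbar.V (ρbar.ρ complexConjugation) = 0 :=
  end2_trace_eq_zero_of_sq ρbar.finrank_eq _ (rho_complexConjugation_sq ρbar)
    (det_rho_complexConjugation hyp)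

/-- **ODD**: a trace-zero endomorphism commuting with `ρ̄(c)` is a multiple of `ρ̄(c)`. -/
theorem eq_smul_of_commute_complexConjugation (hyp : Hyp 𝒪 p ρbar S Smin)
    (m : Module.End (ResidueField 𝒪) ρbar.V)
    (htr : LinearMap.trace (ResidueField 𝒪) ρbar.V m = 0)
    (hcomm : ρbar.ρ complexConjugation * m = m * ρbar.ρ complexConjugation) :
    m = (LinearMap.trace (ResidueField 𝒪) ρbar.V (m * ρbar.ρ complexConjugation) / 2) •
      ρbar.ρ complexConjugation := by
  have h2 := two_ne_zero_of_hyp hyp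
  have h1 := end2_mul_add_mul ρbar.finrank_eq m (ρbar.ρ complexConjugation) htr
    (trace_rho_complexConjugation hyp)
  generalize LinearMap.trace (ResidueField 𝒪) ρbar.V (m * ρbar.ρ complexConjugation) = t at h1 ⊢
  rw [hcomm] at h1
  have h3 := congrArg (fun x => x * ρbar.ρ complexConjugation) h1
  simp only [add_mul, mul_assoc, rho_complexConjugation_sq, mul_one, smul_mul_assoc,
    one_mul] at h3
  rw [div_eq_inv_mul, mul_smul, ← h3, ← two_smul (ResidueField 𝒪) m, smul_smul,
    inv_mul_cancel₀ h2, one_smul]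

/-- **ODD (anti-invariants)**: a trace-zero endomorphism anticommuting with `ρ̄(c)` is orthogonal
to `ρ̄(c)` for the trace form. -/
theorem trace_mul_eq_zero_of_anticommute (hyp : Hyp 𝒪 p ρbar S Smin)
    (m : Module.End (ResidueField 𝒪) ρbar.V)
    (htr : LinearMap.trace (ResidueField 𝒪) ρbar.V m = 0)
    (hanti : ρbar.ρ complexConjugation * m = -(m * ρbar.ρ complexConjugation)) :
    LinearMap.trace (ResidueField 𝒪) ρbar.V (m * ρbar.ρ complexConjugation) = 0 := by
  have h1 := end2_mul_add_mul ρbar.finrank_eq m (ρbar.ρ complexConjugation) htr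
    (trace_rho_complexConjugation hyp)
  rw [hanti, add_neg_cancel] at h1
  have h2 := congrArg (LinearMap.trace (ResidueField 𝒪) ρbar.V) h1
  rw [map_zero, map_smul, LinearMap.trace_one, ρbar.finrank_eq, smul_eq_mul] at h2
  rcases mul_eq_zero.1 h2.symm with h | h
  · exact h
  · exact absurd (by exact_mod_cast h) (two_ne_zero_of_hyp hyp)

end CC

end

end Fermat.Agent.S56.H596

end
-- ===== PACK-END S56/H596/Odd.lean

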