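import Mathlib
import Fermat.Agent.Pack.S56.E4L0
import Fermat.Agent.Pack.S56.E4L1
import Fermat.Agent.Pack.S56.E3L2
import Fermat.Agent.Pack.S56.E1L1
import Fermat.Agent.Pack.S56.E3L3
import Fermat.Agent.Pack.S56.E4L2
import Fermat.Agent.Pack.S56.E4L3
import Fermat.Agent.Pack.S56.E2L0

-- ===== PACK-BEGIN S55/T/RecipH539.lean
section


/-!
# S55, layer T, leaves T5a' (`H1TrivIntSpec`) and T5c (`TateReciprocitySpec`)

* `h1TrivInt : H1TrivIntSpec` (unconditional): `H¹(G, ℤ) = 0` for finite `G`.
* `tateNegTwoEquivAb`: `Ĥ⁻²(G, ℤ) ≃+ G^ab`.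
* `tateReciprocity_of (h : TateSpec) : TateReciprocitySpec`.
-/

set_option autoImplicit false

namespace Fermat.Agent.S55.T.H539

open CategoryTheory groupCohomology groupHomology

/-- **T5a'.**  `H¹(G, ℤ) = 0` for a finite group `G`. -/
theorem h1TrivInt : H1TrivIntSpec := by
  intro G _ _
  have hsub : Subsingleton (Additive G →+ ℤ) := by
    refine ⟨fun f g => ?_⟩
    have key : ∀ f : Additive G →+ ℤ, f = 0 := by
      intro f
      refine AddMonoidHom.ext fun x => ?_
      have hx : Nat.card G • x = 0 :=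
        card_nsmul_eq_zero' (G := Additive G) (x := x)
      have h3 : Nat.card G • f x = 0 := by rw [← map_nsmul, hx, map_zero]
      have hpos : Nat.card G ≠ 0 := Nat.card_pos.ne'
      simpa [hpos] using h3
    rw [key f, key g]
  have e := (H1IsoOfIsTrivial (Rep.trivial ℤ G ℤ)).toLinearEquiv
  have : Subsingleton (groupCohomology (Rep.trivial ℤ G ℤ) 1) := e.toEquiv.subsingleton
  exact ModuleCat.isZero_of_subsingleton _

/-- `Ĥ⁻²(G, ℤ) ≃+ G^ab`. -/
noncomputable def tateNegTwoEquivAb (G : Type) [Group G] [Fintype G] :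
    tateCohomology (Rep.trivial ℤ G ℤ) (-2) ≃+ Additive (Abelianization G) :=
  ((moduleIsoToAddEquiv ((TateCohomology.isoGroupHomology (R := ℤ) (G := G) (-2) 1
      (by norm_num)).app (Rep.trivial ℤ G ℤ))).trans
    (H1AddEquivOfIsTrivial (Rep.trivial ℤ G ℤ))).trans
    (TensorProduct.rid ℤ (Additive (Abelianization G))).toAddEquiv

/-- **T5c.**  Abstract reciprocity isomorphism `H^ab ≃ C^H / N_H C` of a class module, from
Tate's theorem. -/
theorem tateReciprocity_of (h : TateSpec) : TateReciprocitySpec := by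
  intro G _ _ C γ hC H _
  obtain ⟨e⟩ := h ℤ G C γ (fun K => h1TrivInt K) hC H (-2)
  have e' : tateCohomology (Rep.trivial ℤ H ℤ) (-2) ≅ tateCohomology (resSub C H) 0 := e
  exact ⟨(tateNegTwoEquivAb H).symm.trans
    ((moduleIsoToAddEquiv e').trans (tateZeroAddEquivHat0 (resSub C H)))⟩

end Fermat.Agent.S55.T.H539

end
-- ===== PACK-END S55/T/RecipH539.lean

-- ===== PACK-BEGIN S55/L/Unram784/FieldLevel.lean
section


/-!
# S55, layer L, leaf L-A2 (helper784): structure of unramified extensions, field level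

Setting (AKLB): `R ⊆ K`, `S ⊆ L` complete discrete valuation rings with finite residue fields and
their fraction fields, `R → S` local and unramified.  Then `L = K(β)` is finite Galois over `K`
of degree `[l : k]`, with cyclic Galois group generated by a Frobenius element.
-/

set_option autoImplicit false
set_option linter.unusedSectionVars false

namespace Fermat.Agent.S55.L

open IsLocalRing Polynomial

section FieldLevel

variable {R S K L : Type} [CommRing R] [CommRing S] [IsDomain R] [IsDomain S]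
  [IsDiscreteValuationRing R] [IsDiscreteValuationRing S]
  [Algebra R S] [IsLocalHom (algebraMap R S)]
  [IsAdicComplete (maximalIdeal R) R] [IsAdicComplete (maximalIdeal S) S]
  [Finite (ResidueField R)] [Finite (ResidueField S)]
  [Field K] [Field L] [Algebra R K] [IsFractionRing R K] [Algebra S L] [IsFractionRing S L]
  [Algebra K L] [Algebra R L] [IsScalarTower R K L] [IsScalarTower R S L]

omit [IsDomain R] [IsDiscreteValuationRing R] [IsDomain S] [IsDiscreteValuationRing S]
  [IsLocalHom (algebraMap R S)] [IsAdicComplete (maximalIdeal R) R]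
  [IsAdicComplete (maximalIdeal S) S] [Finite (ResidueField R)] [Finite (ResidueField S)]
  [IsFractionRing R K] [IsFractionRing S L] in
theorem u784_algebraMap_smul (a : R) (s : S) :
    algebraMap S L (a • s) = algebraMap R K a • algebraMap S L s := by
  rw [Algebra.smul_def, map_mul, ← IsScalarTower.algebraMap_apply R S L,
    IsScalarTower.algebraMap_apply R K L, Algebra.smul_def]

omit [IsLocalHom (algebraMap R S)] [IsAdicComplete (maximalIdeal R) R]
  [IsAdicComplete (maximalIdeal S) S] [Finite (ResidueField R)] [Finite (ResidueField S)]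
  [IsFractionRing R K] [IsFractionRing S L] [Algebra R L] [IsScalarTower R K L]
  [IsScalarTower R S L] [Algebra K L] [Algebra R K] [Algebra S L] in
/-- The image of a uniformizer of `R` is a uniformizer of `S`. -/
theorem u784_irreducible_algebraMap
    (hunr : (maximalIdeal R).map (algebraMap R S) = maximalIdeal S) (π : R)
    (hπ : Irreducible π) : Irreducible (algebraMap R S π) := by
  rw [IsDiscreteValuationRing.irreducible_iff_uniformizer] at hπ ⊢
  rw [← hunr, hπ, Ideal.map_span, Set.image_singleton]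

/-- Every element of `L` is a `K`-linear combination of powers of `β`. -/
theorem u784_field_span_pow (hunr : (maximalIdeal R).map (algebraMap R S) = maximalIdeal S)
    (g : R[X]) (hg : g.Monic) (hirr : Irreducible (g.map (residue R)))
    (hdeg : g.natDegree = Module.finrank (ResidueField R) (ResidueField S))
    (β : S) (hβ : (g.map (algebraMap R S)).IsRoot β) (y : L) :
    ∃ c : Fin g.natDegree → K, y = ∑ i, c i • (algebraMap S L β) ^ (i : ℕ) := by
  obtain ⟨π, hπ⟩ := IsDiscreteValuationRing.exists_irreducible R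
  have hϖ := u784_irreducible_algebraMap hunr π hπ
  obtain ⟨s, t, ht, rfl⟩ := IsFractionRing.div_surjective (A := S) y
  have ht0 : t ≠ 0 := nonZeroDivisors.ne_zero ht
  obtain ⟨m, u, hu⟩ := IsDiscreteValuationRing.eq_unit_mul_pow_irreducible ht0 hϖ
  obtain ⟨a, ha⟩ := u784_span_pow hunr g hg hirr hdeg β hβ (s * ((u⁻¹ : Sˣ) : S))
  have hπK : algebraMap R K π ≠ 0 := by
    rw [Ne, map_eq_zero_iff _ (IsFractionRing.injective R K)]
    exact hπ.ne_zero
  refine ⟨fun i => algebraMap R K (a i) / (algebraMap R K π) ^ m, ?_⟩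
  have hs : algebraMap S L s = algebraMap S L (s * ((u⁻¹ : Sˣ) : S)) * algebraMap S L (u : S) := by
    rw [← map_mul, mul_assoc, Units.inv_mul, mul_one]
  have htL : algebraMap S L t =
      algebraMap K L ((algebraMap R K π) ^ m) * algebraMap S L (u : S) := by
    rw [hu, map_mul, map_pow, map_pow, ← IsScalarTower.algebraMap_apply R S L,
      IsScalarTower.algebraMap_apply R K L, mul_comm]
  have huL : algebraMap S L (u : S) ≠ 0 := by
    rw [Ne, map_eq_zero_iff _ (IsFractionRing.injective S L)]
    exact u.ne_zero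
  have hπL : algebraMap K L ((algebraMap R K π) ^ m) ≠ 0 := by
    rw [Ne, map_eq_zero]
    exact pow_ne_zero _ hπK
  rw [hs, htL, mul_div_mul_right _ _ huL, ha, map_sum, Finset.sum_div]
  refine Finset.sum_congr rfl fun i _ => ?_
  rw [u784_algebraMap_smul (K := K), map_pow, Algebra.smul_def, Algebra.smul_def, map_div₀]
  field_simp

omit [IsLocalHom (algebraMap R S)] [IsAdicComplete (maximalIdeal R) R]
  [IsAdicComplete (maximalIdeal S) S] [Finite (ResidueField R)] [Finite (ResidueField S)]
  [IsFractionRing S L] [Algebra R L] [IsScalarTower R K L]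
  [IsScalarTower R S L] [Algebra K L] [Algebra S L] [Algebra R S] [IsDomain S]
  [IsDiscreteValuationRing S] in
theorem u784_irreducible_map_fraction (g : R[X]) (hg : g.Monic)
    (hirr : Irreducible (g.map (residue R))) : Irreducible (g.map (algebraMap R K)) :=
  (Monic.irreducible_iff_irreducible_map_fraction_map hg).mp
    (Monic.irreducible_of_irreducible_map (residue R) g hg hirr)

omit [IsDomain R] [IsDiscreteValuationRing R] [IsDomain S] [IsDiscreteValuationRing S]
  [IsLocalHom (algebraMap R S)] [IsAdicComplete (maximalIdeal R) R]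
  [IsAdicComplete (maximalIdeal S) S] [Finite (ResidueField R)] [Finite (ResidueField S)]
  [IsFractionRing R K] [IsFractionRing S L] in
theorem u784_aeval_algebraMap_eq_zero (g : R[X]) (β : S)
    (hβ : (g.map (algebraMap R S)).IsRoot β) :
    aeval (algebraMap S L β) (g.map (algebraMap R K)) = 0 := by
  rw [Polynomial.aeval_map_algebraMap, Polynomial.aeval_algebraMap_apply, Polynomial.aeval_def,
    Polynomial.eval₂_eq_eval_map, hβ, map_zero]

theorem u784_minpoly_eq (g : R[X]) (hg : g.Monic)
    (hirr : Irreducible (g.map (residue R))) (β : S)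
    (hβ : (g.map (algebraMap R S)).IsRoot β) :
    minpoly K (algebraMap S L β) = g.map (algebraMap R K) :=
  (minpoly.eq_of_irreducible_of_monic (u784_irreducible_map_fraction g hg hirr)
    (u784_aeval_algebraMap_eq_zero g β hβ) (hg.map _)).symm

theorem u784_isIntegral (g : R[X]) (hg : g.Monic) (β : S)
    (hβ : (g.map (algebraMap R S)).IsRoot β) : IsIntegral K (algebraMap S L β) :=
  ⟨g.map (algebraMap R K), hg.map _, by
    rw [← Polynomial.aeval_def]
    exact u784_aeval_algebraMap_eq_zero g β hβ⟩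

theorem u784_adjoin_eq_top (hunr : (maximalIdeal R).map (algebraMap R S) = maximalIdeal S)
    (g : R[X]) (hg : g.Monic) (hirr : Irreducible (g.map (residue R)))
    (hdeg : g.natDegree = Module.finrank (ResidueField R) (ResidueField S))
    (β : S) (hβ : (g.map (algebraMap R S)).IsRoot β) :
    IntermediateField.adjoin K {algebraMap S L β} = ⊤ := by
  rw [eq_top_iff]
  intro y _
  obtain ⟨c, rfl⟩ := u784_field_span_pow (K := K) hunr g hg hirr hdeg β hβ y
  refine sum_mem fun i _ => ?_
  rw [Algebra.smul_def]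
  exact mul_mem (IntermediateField.algebraMap_mem _ _)
    (pow_mem (IntermediateField.mem_adjoin_simple_self K _) _)

theorem u784_finiteDimensional (hunr : (maximalIdeal R).map (algebraMap R S) = maximalIdeal S)
    (g : R[X]) (hg : g.Monic) (hirr : Irreducible (g.map (residue R)))
    (hdeg : g.natDegree = Module.finrank (ResidueField R) (ResidueField S))
    (β : S) (hβ : (g.map (algebraMap R S)).IsRoot β) : FiniteDimensional K L := by
  have h1 : FiniteDimensional K (IntermediateField.adjoin K {algebraMap S L β}) :=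
    IntermediateField.adjoin.finiteDimensional (u784_isIntegral (K := K) (L := L) g hg β hβ)
  rw [u784_adjoin_eq_top hunr g hg hirr hdeg β hβ] at h1
  exact Module.Finite.equiv (IntermediateField.topEquiv (F := K) (E := L)).toLinearEquiv

theorem u784_finrank_eq (hunr : (maximalIdeal R).map (algebraMap R S) = maximalIdeal S)
    (g : R[X]) (hg : g.Monic) (hirr : Irreducible (g.map (residue R)))
    (hdeg : g.natDegree = Module.finrank (ResidueField R) (ResidueField S))
    (β : S) (hβ : (g.map (algebraMap R S)).IsRoot β) :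
    Module.finrank K L = g.natDegree := by
  have h1 := IntermediateField.adjoin.finrank (K := K)
    (u784_isIntegral (K := K) (L := L) g hg β hβ)
  rw [u784_adjoin_eq_top hunr g hg hirr hdeg β hβ, u784_minpoly_eq g hg hirr β hβ,
    hg.natDegree_map] at h1
  rw [← h1, IntermediateField.finrank_top']

/-- The reduction of `g` has `deg g` distinct roots in `l`. -/
theorem u784_card_roots_residue (g : R[X]) (hg : g.Monic)
    (hirr : Irreducible (g.map (residue R)))
    (hdeg : g.natDegree = Module.finrank (ResidueField R) (ResidueField S)) :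
    ((g.map (residue R)).map (algebraMap (ResidueField R) (ResidueField S))).roots.Nodup ∧
    Multiset.card ((g.map (residue R)).map
      (algebraMap (ResidueField R) (ResidueField S))).roots = g.natDegree := by
  have hdeg' : (g.map (residue R)).natDegree =
      Module.finrank (ResidueField R) (ResidueField S) := by
    rw [hg.natDegree_map, hdeg]
  have hsp := u784_splits_of_natDegree_eq (S := S) (g.map (residue R)) hirr hdeg'
  have hsep : ((g.map (residue R)).map
      (algebraMap (ResidueField R) (ResidueField S))).Separable :=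
    (PerfectField.separable_of_irreducible hirr).map
  refine ⟨Polynomial.nodup_roots hsep, ?_⟩
  rw [splits_iff_card_roots.mp hsp, (hg.map _).natDegree_map, hg.natDegree_map]

/-- `g` splits in `L`. -/
theorem u784_splits (g : R[X]) (hg : g.Monic)
    (hirr : Irreducible (g.map (residue R)))
    (hdeg : g.natDegree = Module.finrank (ResidueField R) (ResidueField S)) :
    ((g.map (algebraMap R K)).map (algebraMap K L)).Splits := by
  classical
  have hsep : (g.map (residue R)).Separable := PerfectField.separable_of_irreducible hirr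
  have hne : (g.map (residue R)).map (algebraMap (ResidueField R) (ResidueField S)) ≠ 0 :=
    ((hg.map _).map _).ne_zero
  have hlift : ∀ r : ResidueField S, ∃ a : S,
      ((g.map (residue R)).map (algebraMap (ResidueField R) (ResidueField S))).IsRoot r →
        ((g.map (algebraMap R S)).IsRoot a ∧ residue S a = r) := by
    intro r
    by_cases hr : ((g.map (residue R)).map
        (algebraMap (ResidueField R) (ResidueField S))).IsRoot r
    · obtain ⟨a, ha⟩ := u784_exists_lift_root g hg hsep r hr
      exact ⟨a, fun _ => ha⟩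
    · exact ⟨0, fun h => absurd h hr⟩
  choose lift hlift' using hlift
  have hgL : (g.map (algebraMap R K)).map (algebraMap K L) ≠ 0 := ((hg.map _).map _).ne_zero
  have hcard : ((g.map (residue R)).map
      (algebraMap (ResidueField R) (ResidueField S))).roots.toFinset.card ≤
      ((g.map (algebraMap R K)).map (algebraMap K L)).roots.toFinset.card := by
    refine Finset.card_le_card_of_injOn (fun r => algebraMap S L (lift r)) ?_ ?_
    · intro r hr
      rw [Finset.mem_coe, Multiset.mem_toFinset, Polynomial.mem_roots hne] at hr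
      rw [Finset.mem_coe, Multiset.mem_toFinset, Polynomial.mem_roots hgL, IsRoot.def,
        Polynomial.eval_map, ← Polynomial.aeval_def]
      exact u784_aeval_algebraMap_eq_zero g (lift r) (hlift' r hr).1
    · intro r hr r' hr' heq
      rw [Finset.mem_coe, Multiset.mem_toFinset, Polynomial.mem_roots hne] at hr hr'
      have h1 : lift r = lift r' := IsFractionRing.injective S L heq
      rw [← (hlift' r hr).2, ← (hlift' r' hr').2, h1]
  rw [Multiset.toFinset_card_of_nodup (u784_card_roots_residue (S := S) g hg hirr hdeg).1,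
    (u784_card_roots_residue (S := S) g hg hirr hdeg).2] at hcard
  rw [splits_iff_card_roots]
  refine le_antisymm (Polynomial.card_roots' _) ?_
  rw [(hg.map _).natDegree_map, hg.natDegree_map]
  exact hcard.trans (Multiset.toFinset_card_le _)

/-- An unramified extension of complete discretely valued fields (char. 0, finite residue
fields) is Galois. -/
theorem u784_isGalois [CharZero K]
    (hunr : (maximalIdeal R).map (algebraMap R S) = maximalIdeal S)
    (g : R[X]) (hg : g.Monic) (hirr : Irreducible (g.map (residue R)))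
    (hdeg : g.natDegree = Module.finrank (ResidueField R) (ResidueField S))
    (β : S) (hβ : (g.map (algebraMap R S)).IsRoot β) : IsGalois K L := by
  have hirrK := u784_irreducible_map_fraction (K := K) g hg hirr
  have hsplit : IsSplittingField K L (g.map (algebraMap R K)) := by
    refine ⟨u784_splits g hg hirr hdeg, ?_⟩
    have h1 := u784_adjoin_eq_top (K := K) (L := L) hunr g hg hirr hdeg β hβ
    have h2 := congrArg IntermediateField.toSubalgebra h1
    rw [IntermediateField.adjoin_simple_toSubalgebra_of_isAlgebraic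
      (u784_isIntegral (K := K) (L := L) g hg β hβ).isAlgebraic,
      IntermediateField.top_toSubalgebra] at h2
    rw [eq_top_iff, ← h2]
    refine Algebra.adjoin_mono ?_
    rw [Set.singleton_subset_iff, Polynomial.mem_rootSet]
    exact ⟨(hg.map _).ne_zero, u784_aeval_algebraMap_eq_zero g β hβ⟩
  exact IsGalois.of_separable_splitting_field (p := g.map (algebraMap R K)) hirrK.separable

end FieldLevel

end Fermat.Agent.S55.L

end
-- ===== PACK-END S55/L/Unram784/FieldLevel.lean

-- ===== PACK-BEGIN S55/L/Unr534/Core.lean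
section



/-!
# S55, layer L, unramified extensions (helper534): counting in the ring of integers

Abstract setting: `A` a complete DVR with finite residue field, `K = Frac A` of characteristic
zero, `E / K` a finite extension, `C := integralClosure A E`.

* `card_quot_map534`    : `|C / 𝔪_A C| = Q ^ [E : K]`, `Q = |A / 𝔪_A|`;
* `card_residue_le534`  : `|C / 𝔪_C| ≤ Q ^ [E : K]`;
* `map_eq_of_card534`   : equality of cardinalities implies `𝔪_A C = 𝔪_C`.
-/

set_option autoImplicit false
set_option linter.style.haveILetI false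
set_option linter.unusedSectionVars false

namespace Fermat.Agent.S55.L.Unr534

open IsLocalRing Polynomial

section Core

variable (A K : Type) [CommRing A] [IsDomain A] [IsDiscreteValuationRing A]
  [IsAdicComplete (maximalIdeal A) A] [Finite (ResidueField A)] [Field K] [CharZero K]
  [Algebra A K] [IsFractionRing A K]
  (E : Type) [Field E] [Algebra K E] [FiniteDimensional K E] [Algebra A E] [IsScalarTower A K E]

/-- The ring of integers of `E`. -/
abbrev OE : Subalgebra A E := integralClosure A E

include K in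
theorem isLocalRing_OE : IsLocalRing (OE A E) :=
  H661.intClosure_isLocalRing A K E (OE A E)

include K in
theorem isDVR_OE : IsDiscreteValuationRing (OE A E) :=
  H661.intClosure_isDVR A K E (OE A E)

include K in
theorem finite_OE : Module.Finite A (OE A E) := H661.intClosure_finite A K E (OE A E)

include K in
theorem free_OE : Module.Free A (OE A E) := H661.intClosure_free A K E (OE A E)

include K in
theorem isLocalHom_OE : haveI := isLocalRing_OE A K E; IsLocalHom (algebraMap A (OE A E)) :=
  haveI := isLocalRing_OE A K E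
  H661.intClosure_isLocalHom A K E (OE A E)

include K in
theorem isAdicComplete_OE :
    haveI := isLocalRing_OE A K E; IsAdicComplete (maximalIdeal (OE A E)) (OE A E) :=
  haveI := isLocalRing_OE A K E
  H661.intClosure_isAdicComplete A K E (OE A E)

include K in
theorem finite_residueField_OE :
    haveI := isLocalRing_OE A K E; Finite (ResidueField (OE A E)) :=
  haveI := isLocalRing_OE A K E
  H661.intClosure_finite_residueField A K E (OE A E)

include K in
theorem map_maximalIdeal_le_OE :
    haveI := isLocalRing_OE A K E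
    (maximalIdeal A).map (algebraMap A (OE A E)) ≤ maximalIdeal (OE A E) :=
  haveI := isLocalRing_OE A K E
  H661.intClosure_map_maximalIdeal_le A K E (OE A E)

include K in
theorem finrank_OE : Module.finrank A (OE A E) = Module.finrank K E := by
  haveI : Module.IsTorsionFree A E := .trans_faithfulSMul A K E
  exact IsIntegralClosure.rank A K E (OE A E)

attribute [local instance] Ideal.Quotient.field in
/-- `|C / 𝔪_A C| = Q ^ [E : K]`. -/
theorem card_quot_map534 :
    Nat.card (OE A E ⧸ (maximalIdeal A).map (algebraMap A (OE A E))) =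
      Nat.card (ResidueField A) ^ Module.finrank K E := by
  haveI := finite_OE A K E
  haveI := free_OE A K E
  have h1 : Module.finrank (A ⧸ maximalIdeal A)
      (OE A E ⧸ (maximalIdeal A).map (algebraMap A (OE A E))) = Module.finrank A (OE A E) :=
    IsLocalRing.finrank_quotient_map
  haveI : Module.Finite (A ⧸ maximalIdeal A)
      (OE A E ⧸ (maximalIdeal A).map (algebraMap A (OE A E))) :=
    Module.Finite.of_restrictScalars_finite A _ _
  rw [Module.natCard_eq_pow_finrank (K := A ⧸ maximalIdeal A), h1, finrank_OE A K E]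
  rfl

include K in
/-- `|C / 𝔪_C| ≤ Q ^ [E : K]`. -/
theorem card_residue_le534 :
    haveI := isLocalRing_OE A K E
    Nat.card (ResidueField (OE A E)) ≤ Nat.card (ResidueField A) ^ Module.finrank K E := by
  haveI := isLocalRing_OE A K E
  have hle := map_maximalIdeal_le_OE A K E
  rw [← card_quot_map534 A K E]
  have hpos : 0 < Nat.card (ResidueField A) ^ Module.finrank K E :=
    pow_pos Nat.card_pos _
  haveI : Finite (OE A E ⧸ (maximalIdeal A).map (algebraMap A (OE A E))) := by
    apply Nat.finite_of_card_ne_zero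
    rw [card_quot_map534 A K E]
    exact hpos.ne'
  exact Nat.card_le_card_of_surjective (Ideal.Quotient.factor hle)
    (Ideal.Quotient.factor_surjective hle)

include K in
/-- If `|C / 𝔪_C| = Q ^ [E : K]` then `𝔪_A C = 𝔪_C`. -/
theorem map_eq_of_card534
    (h : haveI := isLocalRing_OE A K E
      Nat.card (ResidueField A) ^ Module.finrank K E ≤ Nat.card (ResidueField (OE A E))) :
    haveI := isLocalRing_OE A K E
    (maximalIdeal A).map (algebraMap A (OE A E)) = maximalIdeal (OE A E) := by
  haveI := isLocalRing_OE A K E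
  have hle := map_maximalIdeal_le_OE A K E
  have hpos : 0 < Nat.card (ResidueField A) ^ Module.finrank K E :=
    pow_pos Nat.card_pos _
  haveI : Finite (OE A E ⧸ (maximalIdeal A).map (algebraMap A (OE A E))) := by
    apply Nat.finite_of_card_ne_zero
    rw [card_quot_map534 A K E]
    exact hpos.ne'
  have hcard : Nat.card (OE A E ⧸ (maximalIdeal A).map (algebraMap A (OE A E))) ≤
      Nat.card (OE A E ⧸ maximalIdeal (OE A E)) := by
    rw [card_quot_map534 A K E]
    exact h
  have hbij : Function.Bijective (Ideal.Quotient.factor hle) :=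
    (Function.Surjective.bijective_of_nat_card_le (Ideal.Quotient.factor_surjective hle) hcard)
  refine le_antisymm hle fun x hx => ?_
  have h0 : Ideal.Quotient.factor hle (Ideal.Quotient.mk _ x) = 0 := by
    rw [Ideal.Quotient.factor_mk]
    exact Ideal.Quotient.eq_zero_iff_mem.mpr hx
  have h1 : (Ideal.Quotient.mk ((maximalIdeal A).map (algebraMap A (OE A E))) x) = 0 :=
    hbij.1 (by rw [h0, map_zero])
  exact Ideal.Quotient.eq_zero_iff_mem.mp h1

end Core

end Fermat.Agent.S55.L.Unr534

end
-- ===== PACK-END S55/L/Unr534/Core.lean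

-- ===== PACK-BEGIN S55/H893/Kummer.lean
section


/-!
# S55, global leaf KUM (helper893): Kummer extensions stay unramified outside `S`

Everything is stated in the Prelude's language (`IntermediateField.IsUnramifiedOutside`,
valuation subrings of `ℚ̄`, `inertiaSubgroupIn`).

* `val_natCast_eq_one_of_coprime` : an integer prime to the residue characteristic is a unit.
* `kummer_fixed_of_mem_inertia` : the local core. If `σ` lies in the inertia group of a place
  `A` of residue characteristic `q ∤ n`, `σ` fixes `β ^ n` and `t`, and `v(β) = v(t)`, then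
  `σ β = β`.
* `isUnramifiedOutside_sup_adjoin_root` (**KUM**) : if `F` is unramified outside `S`, all prime
  factors of `n` lie in `S`, `β ^ n ∈ F`, and at every place outside `S` the valuation of `β` is the
  valuation of an element of `F`, then `F(β)` is unramified outside `S`.
* `isUnramifiedOutside_sup_adjoin_root_of_unit` : the case of `S`-units (`E_S` is `n`-divisible).
-/

set_option autoImplicit false
set_option linter.style.haveILetI false

namespace Fermat.Agent.S55.H893

open IntermediateField Fermat.Agent.S55.Bridge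

section local_core

variable {A : ValuationSubring (AlgebraicClosure ℚ)}

/-- An integer prime to the residue characteristic is a unit at `A`. -/
theorem val_natCast_eq_one_of_coprime {q n : ℕ} (hq : A.LiesOverPrime q)
    (hcop : Nat.Coprime q n) : A.valuation (n : AlgebraicClosure ℚ) = 1 := by
  have hq' : A.valuation (q : AlgebraicClosure ℚ) < 1 := (A.mem_nonunits_iff).mp hq
  have hcop' : IsCoprime (q : ℤ) (n : ℤ) := by
    rw [Int.isCoprime_iff_gcd_eq_one, Int.gcd_natCast_natCast]
    exact hcop
  obtain ⟨u, w, huw⟩ := hcop'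
  have h1 : (u : AlgebraicClosure ℚ) * (q : AlgebraicClosure ℚ)
      + (w : AlgebraicClosure ℚ) * (n : AlgebraicClosure ℚ) = 1 := by
    exact_mod_cast congrArg (Int.cast : ℤ → AlgebraicClosure ℚ) huw
  have hsmall : A.valuation ((u : AlgebraicClosure ℚ) * (q : AlgebraicClosure ℚ)) < 1 := by
    rw [map_mul]
    exact (mul_le_of_le_one_left' (val_intCast_le_one u)).trans_lt hq'
  have hwn : A.valuation ((w : AlgebraicClosure ℚ) * (n : AlgebraicClosure ℚ)) = 1 := by
    have : (w : AlgebraicClosure ℚ) * (n : AlgebraicClosure ℚ)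
        = 1 + -((u : AlgebraicClosure ℚ) * (q : AlgebraicClosure ℚ)) := by linear_combination h1
    rw [this, (A.valuation).map_add_eq_of_lt_left
      (by rw [Valuation.map_neg, map_one]; exact hsmall), map_one]
  rw [map_mul] at hwn
  have hp1 : A.valuation (n : AlgebraicClosure ℚ) ≤ 1 := by
    have := val_intCast_le_one (A := A) (n : ℤ)
    rwa [Int.cast_natCast] at this
  refine le_antisymm hp1 ?_
  calc (1 : A.ValueGroup)
      = A.valuation (w : AlgebraicClosure ℚ) * A.valuation (n : AlgebraicClosure ℚ) := hwn.symm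
    _ ≤ 1 * A.valuation (n : AlgebraicClosure ℚ) := mul_le_mul_left (val_intCast_le_one w) _
    _ = A.valuation (n : AlgebraicClosure ℚ) := one_mul _

/-- **Local core of KUM.** Inertia at a place of residue characteristic prime to `n` fixes an
`n`-th root `β` of a fixed element, as soon as the valuation of `β` is attained by a fixed
element. -/
theorem kummer_fixed_of_mem_inertia {n : ℕ} (hn0 : n ≠ 0)
    (hnv : A.valuation (n : AlgebraicClosure ℚ) = 1)
    {σ : AlgebraicClosure ℚ ≃ₐ[ℚ] AlgebraicClosure ℚ} (hσ : σ ∈ A.inertiaSubgroupIn ℚ)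
    {β t : AlgebraicClosure ℚ} (hβ : σ (β ^ n) = β ^ n) (ht : σ t = t)
    (hv : A.valuation β = A.valuation t) : σ β = β := by
  by_cases hβ0 : β = 0
  · rw [hβ0, map_zero]
  have ht0 : t ≠ 0 := by
    intro h
    rw [h, map_zero] at hv
    exact hβ0 ((map_eq_zero _).1 hv)
  by_contra hne
  -- `ζ = σ β / β` is a nontrivial `n`-th root of unity
  have hζ : (σ β / β) ^ n = 1 := by
    rw [div_pow, ← map_pow, hβ, div_self (pow_ne_zero n hβ0)]
  have hζ1 : σ β / β ≠ 1 := fun h => hne ((div_eq_one_iff_eq hβ0).1 h)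
  have h1 : A.valuation (σ β / β - 1) = 1 :=
    val_sub_roots_eq_one (A := A) hn0 hnv hζ (one_pow n) hζ1
  -- `u = β / t` is a unit, so `σ u - u` is small
  have hu : A.valuation (β / t) ≤ 1 := by
    rw [map_div₀, hv, div_self ((map_ne_zero _).2 ht0)]
  have h2 := inertia_val_sub_lt_one A hσ (β / t) hu
  have h3 : σ (β / t) - β / t = (β / t) * (σ β / β - 1) := by
    rw [map_div₀, ht]
    field_simp
  rw [h3, map_mul, h1, mul_one, map_div₀, hv, div_self ((map_ne_zero _).2 ht0)] at h2
  exact lt_irrefl _ h2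

end local_core

section global

variable {S : Finset Nat.Primes}

/-- If every prime factor of `n` lies in `S` and `q ∉ S`, then `n` is a unit at places over `q`. -/
theorem val_natCast_eq_one_of_primeFactors_mem {n : ℕ}
    (hn : ∀ ℓ : Nat.Primes, (ℓ : ℕ) ∣ n → ℓ ∈ S) {q : Nat.Primes} (hq : q ∉ S)
    {A : ValuationSubring (AlgebraicClosure ℚ)} (hA : A.LiesOverPrime (q : ℕ)) :
    A.valuation (n : AlgebraicClosure ℚ) = 1 := by
  apply val_natCast_eq_one_of_coprime hA
  rw [Nat.Prime.coprime_iff_not_dvd q.2]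
  exact fun hdvd => hq (hn q hdvd)

/-- **KUM.** Let `F` be unramified outside `S`, `n ≠ 0` with all prime factors in `S`, and
`β ∈ ℚ̄` with `β ^ n ∈ F` such that at every place `A` of `ℚ̄` over a prime `q ∉ S` the valuation of
`β` is the valuation of an element of `F` (i.e. the principal ideal `(β ^ n)` is locally an
`n`-th power outside `S`). Then `F(β)` is unramified outside `S`. -/
theorem isUnramifiedOutside_sup_adjoin_root
    {F : IntermediateField ℚ (AlgebraicClosure ℚ)} (hF : F.IsUnramifiedOutside S)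
    {n : ℕ} (hn0 : n ≠ 0) (hn : ∀ ℓ : Nat.Primes, (ℓ : ℕ) ∣ n → ℓ ∈ S)
    {β : AlgebraicClosure ℚ} (hβ : β ^ n ∈ F)
    (hloc : ∀ q : Nat.Primes, q ∉ S → ∀ A : ValuationSubring (AlgebraicClosure ℚ),
      A.LiesOverPrime (q : ℕ) → ∃ t ∈ F, A.valuation β = A.valuation t) :
    (F ⊔ ℚ⟮β⟯).IsUnramifiedOutside S := by
  haveI := hF.1
  haveI : FiniteDimensional ℚ ℚ⟮β⟯ :=
    IntermediateField.adjoin.finiteDimensional
      ((AlgebraicClosure.isAlgebraic ℚ).isIntegral.isIntegral β)
  refine ⟨IntermediateField.finiteDimensional_sup F ℚ⟮β⟯, fun q hq A hA σ hσ => ?_⟩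
  have hσF : σ ∈ F.fixingSubgroup := hF.2 q hq A hA hσ
  rw [IntermediateField.fixingSubgroup_sup]
  refine ⟨hσF, ?_⟩
  show σ ∈ ℚ⟮β⟯.fixingSubgroup
  obtain ⟨t, htF, hv⟩ := hloc q hq A hA
  have hfixF : ∀ x ∈ F, σ x = x := fun x hx =>
    (IntermediateField.mem_fixingSubgroup_iff F σ).1 hσF x hx
  have hσβ : σ β = β :=
    kummer_fixed_of_mem_inertia hn0 (val_natCast_eq_one_of_primeFactors_mem hn hq hA) hσ
      (hfixF _ hβ) (hfixF _ htF) hv
  rw [IntermediateField.mem_fixingSubgroup_iff]
  intro x hx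
  -- `x ∈ ℚ⟮β⟯` is fixed by `σ` as `β` is
  have hle : ℚ⟮β⟯ ≤ IntermediateField.fixedField (Subgroup.zpowers σ) := by
    rw [IntermediateField.adjoin_simple_le_iff]
    rintro ⟨τ, hτ⟩
    obtain ⟨k, rfl⟩ := Subgroup.mem_zpowers_iff.1 hτ
    show (σ ^ k) • β = β
    have hstab : σ ∈ MulAction.stabilizer (AlgebraicClosure ℚ ≃ₐ[ℚ] AlgebraicClosure ℚ) β :=
      MulAction.mem_stabilizer_iff.2 hσβ
    exact MulAction.mem_stabilizer_iff.1 (Subgroup.zpow_mem _ hstab k)
  have := hle hx
  exact this ⟨σ, Subgroup.mem_zpowers σ⟩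

/-- **`E_S` is `n`-divisible.** If `β ^ n ∈ F` is a unit at all places outside `S`, then `F(β)` is
unramified outside `S`. -/
theorem isUnramifiedOutside_sup_adjoin_root_of_unit
    {F : IntermediateField ℚ (AlgebraicClosure ℚ)} (hF : F.IsUnramifiedOutside S)
    {n : ℕ} (hn0 : n ≠ 0) (hn : ∀ ℓ : Nat.Primes, (ℓ : ℕ) ∣ n → ℓ ∈ S)
    {β : AlgebraicClosure ℚ} (hβ : β ^ n ∈ F)
    (hunit : ∀ q : Nat.Primes, q ∉ S → ∀ A : ValuationSubring (AlgebraicClosure ℚ),
      A.LiesOverPrime (q : ℕ) → A.valuation (β ^ n) = 1) :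
    (F ⊔ ℚ⟮β⟯).IsUnramifiedOutside S := by
  refine isUnramifiedOutside_sup_adjoin_root hF hn0 hn hβ (fun q hq A hA => ⟨1, F.one_mem, ?_⟩)
  have h := hunit q hq A hA
  rw [map_pow] at h
  rw [map_one]
  exact (pow_eq_one_iff.1 h).resolve_right hn0

end global

end Fermat.Agent.S55.H893

end
-- ===== PACK-END S55/H893/Kummer.lean

-- ===== PACK-BEGIN S55/G/Exist121/Abstract.lean
section


/-!
# S55, layer G, block EXIST: abstract group theory for the existence theorem mod `p`

Mathlib only.  Author: helper121.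

* `ker_le_pMul_of_equiv` : if `A / N ≃ Q`, `[A : pA]` is finite and `[A : pA] ≤ [Q : pQ]`, then
  `N ≤ pA`.  (Applied to `A = C(L)^G`, `N = N_G C(L)`, `Q = G^ab`: the reciprocity isomorphism.)
* `relIndex_le_of_kummer` : Kummer bound.  If `κ : V → Hom(G, Mˣ)` has values killed by `p` and
  separates the cosets of `P` in `V`, then `[V : P] ≤ [G^ab : p G^ab]`.
-/

set_option autoImplicit false

namespace Fermat.Agent.S55.G.Exist121

section Quotient

variable {A : Type*} [AddCommGroup A]

lemma comap_pMul_of_surjective {B : Type*} [AddCommGroup B] (π : A →+ B)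
    (hπ : Function.Surjective π) (p : ℕ) :
    (pMul B p).comap π = pMul A p ⊔ π.ker := by
  apply le_antisymm
  · intro a ha
    obtain ⟨b, hb⟩ := ha
    obtain ⟨b', rfl⟩ := hπ b
    have h1 : π (p • b') = π a := by
      rw [map_nsmul]; exact hb
    have h2 : a - p • b' ∈ π.ker := by
      rw [AddMonoidHom.mem_ker, map_sub, h1, sub_self]
    have h4 : a = p • b' + (a - p • b') := by abel
    rw [h4]
    exact AddSubgroup.add_mem_sup (nsmul_mem_pMul p b') h2
  · rw [sup_le_iff]
    constructor
    · rintro _ ⟨b, rfl⟩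
      exact ⟨π b, by simp⟩
    · intro a ha
      have h0 : π a = 0 := ha
      show π a ∈ pMul B p
      rw [h0]
      exact zero_mem _

lemma index_pMul_of_surjective {B : Type*} [AddCommGroup B] (π : A →+ B)
    (hπ : Function.Surjective π) (p : ℕ) :
    (pMul B p).index = (pMul A p ⊔ π.ker).index := by
  rw [← comap_pMul_of_surjective π hπ, AddSubgroup.index_comap_of_surjective _ hπ]

lemma map_pMul_of_equiv {Q Q' : Type*} [AddCommGroup Q] [AddCommGroup Q'] (e : Q ≃+ Q') (p : ℕ) :
    (pMul Q' p).comap e.toAddMonoidHom = pMul Q p := by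
  ext q
  constructor
  · rintro ⟨b, hb⟩
    refine ⟨e.symm b, ?_⟩
    apply e.injective
    show e (p • e.symm b) = e q
    rw [map_nsmul, e.apply_symm_apply]
    exact hb
  · rintro ⟨b, rfl⟩
    exact ⟨e b, by simp⟩

lemma index_pMul_congr {Q Q' : Type*} [AddCommGroup Q] [AddCommGroup Q'] (e : Q ≃+ Q') (p : ℕ) :
    (pMul Q p).index = (pMul Q' p).index := by
  rw [← map_pMul_of_equiv e p, AddSubgroup.index_comap_of_surjective _ e.surjective]

/-- **Reciprocity + counting.**  If `π : A → B` is onto, `B ≃ Q`, `[A : pA] ≠ 0` and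
`[A : pA] ≤ [Q : pQ]`, then `ker π ≤ pA`. -/
theorem ker_le_pMul_of_equiv {B Q : Type*} [AddCommGroup B] [AddCommGroup Q] (π : A →+ B)
    (hπ : Function.Surjective π) (e : Q ≃+ B)
    (p : ℕ) (hA : (pMul A p).index ≠ 0) (hle : (pMul A p).index ≤ (pMul Q p).index) :
    π.ker ≤ pMul A p := by
  have h1 : (pMul A p ⊔ π.ker).index = (pMul Q p).index := by
    rw [← index_pMul_of_surjective π hπ, index_pMul_congr e p]
  have h2 : pMul A p = pMul A p ⊔ π.ker :=
    eq_of_le_of_index_le le_sup_left hA (h1 ▸ hle)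
  rw [h2]
  exact le_sup_right

end Quotient

section Kummer

open scoped Classical in
/-- `[G^ab : p G^ab]` as the cardinality of the multiplicative quotient. -/
lemma index_pMul_abelianization (G : Type*) [Group G] (p : ℕ) :
    (pMul (Additive (Abelianization G)) p).index =
      (powMonoidHom p : Abelianization G →* Abelianization G).range.index := by
  have h : pMul (Additive (Abelianization G)) p =
      Subgroup.toAddSubgroup (powMonoidHom p : Abelianization G →* Abelianization G).range := by
    ext x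
    constructor
    · rintro ⟨b, rfl⟩
      exact ⟨b.toMul, rfl⟩
    · rintro ⟨b, hb⟩
      exact ⟨Additive.ofMul b, hb⟩
  rw [h]
  rfl

/-- **Kummer bound.**  Let `P ≤ V` be subgroups of an abelian group `X`, `G` a finite group, `M` a
commutative monoid with enough `p`-th roots of unity, and `κ : V → Hom(G, Mˣ)` a map with values
killed by `p` which separates the cosets of `P`.  Then `[V : P] ≤ [G^ab : p G^ab]`. -/
theorem relIndex_le_of_kummer {X : Type*} [AddCommGroup X] (V P : AddSubgroup X)
    {G M : Type*} [Group G] [Finite G] [CommMonoid M] (p : ℕ) [NeZero p]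
    [HasEnoughRootsOfUnity M p]
    (κ : V → (G →* Mˣ)) (hκp : ∀ v g, κ v g ^ p = 1)
    (hκ : ∀ v v' : V, κ v = κ v' → (v : X) - (v' : X) ∈ P) :
    P.relIndex V ≤ (pMul (Additive (Abelianization G)) p).index := by
  classical
  rw [index_pMul_abelianization]
  set R : Subgroup (Abelianization G) :=
    (powMonoidHom p : Abelianization G →* Abelianization G).range with hR
  -- the quotient `Ā = G^ab / p`
  have hexp : Monoid.exponent (Abelianization G ⧸ R) ∣ p := by
    apply Monoid.exponent_dvd_of_forall_pow_eq_one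
    intro a
    obtain ⟨b, rfl⟩ := QuotientGroup.mk_surjective a
    rw [← QuotientGroup.mk_pow, QuotientGroup.eq_one_iff]
    exact ⟨b, rfl⟩
  have : HasEnoughRootsOfUnity M (Monoid.exponent (Abelianization G ⧸ R)) :=
    HasEnoughRootsOfUnity.of_dvd M hexp
  have hcard : Nat.card ((Abelianization G ⧸ R) →* Mˣ) = Nat.card (Abelianization G ⧸ R) :=
    CommGroup.card_monoidHom_of_hasEnoughRootsOfUnity (Abelianization G ⧸ R) M
  have : Finite ((Abelianization G ⧸ R) →* Mˣ) := by
    apply Nat.finite_of_card_ne_zero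
    rw [hcard]
    exact Nat.card_pos.ne'
  -- the induced characters
  let κ1 : V → (Abelianization G →* Mˣ) := fun v => Abelianization.lift (κ v)
  have hκ1 : ∀ v, R ≤ (κ1 v).ker := by
    rintro v _ ⟨b, rfl⟩
    rw [MonoidHom.mem_ker]
    show κ1 v (b ^ p) = 1
    rw [map_pow]
    obtain ⟨g, rfl⟩ := QuotientGroup.mk_surjective b
    show (Abelianization.lift (κ v)) (Abelianization.of g) ^ p = 1
    rw [Abelianization.lift_apply_of]
    exact hκp v g
  let κ2 : V → ((Abelianization G ⧸ R) →* Mˣ) := fun v => QuotientGroup.lift R (κ1 v) (hκ1 v)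
  have hκ2 : ∀ v v' : V, κ2 v = κ2 v' → κ v = κ v' := by
    intro v v' h
    ext g
    have h1 := congrArg (fun φ : (Abelianization G ⧸ R) →* Mˣ =>
      φ (QuotientGroup.mk (Abelianization.of g))) h
    simp only [κ2, κ1, QuotientGroup.lift_mk, Abelianization.lift_apply_of] at h1
    rw [h1]
  -- injection of `V / P` into the character group
  let f : (V ⧸ P.addSubgroupOf V) → ((Abelianization G ⧸ R) →* Mˣ) := fun q => κ2 q.out
  have hf : Function.Injective f := by
    intro q q' h
    have h1 := hκ _ _ (hκ2 _ _ h)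
    have h2 : q.out - q'.out ∈ P.addSubgroupOf V := by
      rw [AddSubgroup.mem_addSubgroupOf]
      simpa using h1
    have h3 : (QuotientAddGroup.mk q.out : V ⧸ P.addSubgroupOf V) = QuotientAddGroup.mk q'.out := by
      rw [QuotientAddGroup.eq]
      have : -q.out + q'.out = -(q.out - q'.out) := by abel
      rw [this]
      exact neg_mem h2
    simpa using h3
  have h1 : Nat.card (V ⧸ P.addSubgroupOf V) ≤ Nat.card ((Abelianization G ⧸ R) →* Mˣ) :=
    Nat.card_le_card_of_injective f hf
  rw [hcard] at h1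
  exact h1

end Kummer

end Fermat.Agent.S55.G.Exist121

end
-- ===== PACK-END S55/G/Exist121/Abstract.lean

-- ===== PACK-BEGIN S55/H424/FieldIndex.lean
section


/-!
# LPI (local power index), part 3: the index of `n`-th powers in `Kˣ`

* `H424.index_range_pow_of_split` : abstract form.  If `G = π^ℤ × ι(H)` then
  `[G : Gⁿ] = n * [H : Hⁿ]`.
* `H424.index_range_pow_units_dvr` : for a complete discrete valuation ring `A` with finite
  residue field and `(n : A) ≠ 0`: `[Aˣ : (Aˣ)ⁿ] = |μ_n(A)| * |A ⧸ (n)|`.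
* `H424.index_range_pow_units_field` : for its fraction field `K`:
  `[Kˣ : (Kˣ)ⁿ] = n * (|μ_n(K)| * |A ⧸ (n)|)`.
-/

set_option autoImplicit false
set_option linter.unusedSectionVars false

namespace Fermat.Agent.S55.H424

section Abstract

/-- The index of `n`-th powers in `Multiplicative ℤ` is `n`. -/
lemma index_range_pow_int (n : ℕ) :
    (powMonoidHom n : Multiplicative ℤ →* Multiplicative ℤ).range.index = n := by
  have h1 : (powMonoidHom n : Multiplicative ℤ →* Multiplicative ℤ).range
      = AddSubgroup.toSubgroup (AddSubgroup.zmultiples (n : ℤ)) := by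
    ext x
    constructor
    · rintro ⟨y, rfl⟩
      show Multiplicative.toAdd (y ^ n) ∈ AddSubgroup.zmultiples (n : ℤ)
      rw [toAdd_pow, AddSubgroup.mem_zmultiples_iff]
      exact ⟨Multiplicative.toAdd y, by rw [smul_eq_mul, nsmul_eq_mul]; ring⟩
    · intro hx
      have hx' : Multiplicative.toAdd x ∈ AddSubgroup.zmultiples (n : ℤ) := hx
      obtain ⟨k, hk⟩ := AddSubgroup.mem_zmultiples_iff.1 hx'
      refine ⟨Multiplicative.ofAdd k, ?_⟩
      show (Multiplicative.ofAdd k) ^ n = x
      rw [← ofAdd_nsmul]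
      apply Multiplicative.toAdd.injective
      rw [toAdd_ofAdd, ← hk, smul_eq_mul, nsmul_eq_mul]; ring
  rw [h1, AddSubgroup.index_toSubgroup, Int.index_zmultiples, Int.natAbs_natCast]

variable {G H : Type*} [CommGroup G] [CommGroup H]

/-- The homomorphism `(k, h) ↦ π ^ k * ι h`. -/
noncomputable def splitHom (ι : H →* G) (π : G) : Multiplicative ℤ × H →* G :=
  (zpowersHom G π).coprod ι

lemma splitHom_apply (ι : H →* G) (π : G) (p : Multiplicative ℤ × H) :
    splitHom ι π p = π ^ (Multiplicative.toAdd p.1) * ι p.2 := by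
  simp [splitHom]

lemma splitHom_bijective (ι : H →* G) (hι : Function.Injective ι) (π : G)
    (h1 : ∀ g : G, ∃ (k : ℤ) (h : H), g = π ^ k * ι h)
    (h2 : ∀ (k : ℤ) (h : H), π ^ k = ι h → k = 0) : Function.Bijective (splitHom ι π) := by
  constructor
  · rw [injective_iff_map_eq_one]
    rintro ⟨k, h⟩ hkh
    rw [splitHom_apply] at hkh
    have h3 : π ^ (Multiplicative.toAdd k) = ι h⁻¹ := by
      rw [map_inv]; exact eq_inv_of_mul_eq_one_left hkh
    have h4 : Multiplicative.toAdd k = 0 := h2 _ _ h3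
    rw [h4, zpow_zero, one_mul] at hkh
    have h6 : h = 1 := hι (by rw [hkh, map_one])
    have h5 : k = 1 := Multiplicative.toAdd.injective (by rw [h4]; rfl)
    rw [h5, h6]; rfl
  · intro g
    obtain ⟨k, h, rfl⟩ := h1 g
    exact ⟨(Multiplicative.ofAdd k, h), by rw [splitHom_apply]; rfl⟩

/-- **Abstract split form.** If every element of `G` is uniquely `π ^ k * ι h`, then
`[G : Gⁿ] = n * [H : Hⁿ]`. -/
theorem index_range_pow_of_split (ι : H →* G) (hι : Function.Injective ι) (π : G)
    (h1 : ∀ g : G, ∃ (k : ℤ) (h : H), g = π ^ k * ι h)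
    (h2 : ∀ (k : ℤ) (h : H), π ^ k = ι h → k = 0) (n : ℕ) :
    (powMonoidHom n : G →* G).range.index = n * (powMonoidHom n : H →* H).range.index := by
  have hb := splitHom_bijective ι hι π h1 h2
  have e1 : (powMonoidHom n : G →* G).range
      = ((powMonoidHom n : Multiplicative ℤ →* Multiplicative ℤ).range.prod
          (powMonoidHom n : H →* H).range).map (splitHom ι π) := by
    ext g
    constructor
    · rintro ⟨x, rfl⟩
      obtain ⟨p, rfl⟩ := hb.2 x
      refine ⟨p ^ n, ?_, ?_⟩
      · exact ⟨⟨p.1, rfl⟩, ⟨p.2, rfl⟩⟩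
      · rw [map_pow]; rfl
    · rintro ⟨p, ⟨⟨a, ha⟩, ⟨b, hb'⟩⟩, rfl⟩
      refine ⟨splitHom ι π (a, b), ?_⟩
      show (splitHom ι π (a, b)) ^ n = _
      rw [← map_pow]
      congr 1
      exact Prod.ext ha hb'
  rw [e1, Subgroup.index_map_of_bijective hb, Subgroup.index_prod, index_range_pow_int]

/-- In the split situation, the `n`-torsion of `G` is that of `H` (for `n ≠ 0`). -/
theorem map_ker_pow_of_split (ι : H →* G) (π : G)
    (h1 : ∀ g : G, ∃ (k : ℤ) (h : H), g = π ^ k * ι h)
    (h2 : ∀ (k : ℤ) (h : H), π ^ k = ι h → k = 0) {n : ℕ} (hn : n ≠ 0)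
    (hι : Function.Injective ι) :
    (powMonoidHom n : H →* H).ker.map ι = (powMonoidHom n : G →* G).ker := by
  ext g
  constructor
  · rintro ⟨h, hh, rfl⟩
    have hh' : h ^ n = 1 := MonoidHom.mem_ker.1 hh
    apply MonoidHom.mem_ker.2
    show (ι h) ^ n = 1
    rw [← map_pow, hh', map_one]
  · intro hg
    have hg' : g ^ n = 1 := hg
    obtain ⟨k, h, rfl⟩ := h1 g
    have h3 : π ^ (k * (n : ℤ)) = ι ((h ^ n)⁻¹) := by
      rw [map_inv, map_pow]
      apply eq_inv_of_mul_eq_one_left
      rw [zpow_mul, zpow_natCast, ← mul_pow]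
      exact hg'
    have h4 := h2 _ _ h3
    have h5 : k = 0 := by
      rcases mul_eq_zero.1 h4 with h | h
      · exact h
      · exact absurd (by exact_mod_cast h) hn
    subst h5
    rw [zpow_zero, one_mul] at hg' ⊢
    refine ⟨h, MonoidHom.mem_ker.2 ?_, rfl⟩
    show h ^ n = 1
    apply hι
    rw [map_pow, hg', map_one]

end Abstract

section DVR

open IsLocalRing

variable {A : Type*} [CommRing A] [IsDomain A] [IsDiscreteValuationRing A]

/-- **Local power index, DVR form.** For a complete discrete valuation ring `A` with finite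
residue field and `(n : A) ≠ 0`: `[Aˣ : (Aˣ)ⁿ] = |μ_n(A)| * |A ⧸ (n)|`. -/
theorem index_range_pow_units_dvr [IsAdicComplete (maximalIdeal A) A]
    [Finite (ResidueField A)] {n : ℕ} (hn : (n : A) ≠ 0) :
    (powMonoidHom n : Aˣ →* Aˣ).range.index
      = Nat.card (rootsOfUnity n A) * Nat.card (A ⧸ Ideal.span {(n : A)}) := by
  obtain ⟨ϖ, hϖ⟩ := IsDiscreteValuationRing.exists_irreducible A
  have hmax : maximalIdeal A = Ideal.span {ϖ} := hϖ.maximalIdeal_eq
  have hc : IsAdicComplete (Ideal.span {ϖ}) A :=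
    hmax ▸ (inferInstance : IsAdicComplete (maximalIdeal A) A)
  have hf : Finite (A ⧸ Ideal.span {ϖ}) := by
    rw [← hmax]; exact (inferInstance : Finite (ResidueField A))
  obtain ⟨v, u, hu⟩ := IsDiscreteValuationRing.eq_unit_mul_pow_irreducible hn hϖ
  have hN : (n : A) ∣ ϖ ^ v := ⟨((u⁻¹ : Aˣ) : A), by
    rw [hu, mul_comm (u : A), mul_assoc, Units.mul_inv, mul_one]⟩
  have hn0 : n ≠ 0 := by rintro rfl; exact hn (by simp)
  exact index_range_pow_units ϖ (fun x hx => (mul_eq_zero.1 hx).resolve_left hϖ.ne_zero) hn0 hN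

variable {K : Type*} [Field K] [Algebra A K] [IsFractionRing A K]

/-- The inclusion `Aˣ → Kˣ`. -/
noncomputable def unitsToField (A K : Type*) [CommRing A] [Field K] [Algebra A K] : Aˣ →* Kˣ :=
  Units.map (algebraMap A K : A →* K)

lemma coe_unitsToField (u : Aˣ) : ((unitsToField A K u : Kˣ) : K) = algebraMap A K (u : A) := rfl

lemma unitsToField_injective : Function.Injective (unitsToField A K) :=
  Units.map_injective (IsFractionRing.injective A K)

/-- A uniformiser, as a unit of `K`. -/
noncomputable def unifUnit (K : Type*) [Field K] [Algebra A K] [IsFractionRing A K] {ϖ : A}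
    (hϖ : Irreducible ϖ) : Kˣ :=
  Units.mk0 (algebraMap A K ϖ) (by
    intro h0
    exact hϖ.ne_zero ((IsFractionRing.injective A K) (by rw [h0, map_zero])))

lemma coe_unifUnit {ϖ : A} (hϖ : Irreducible ϖ) :
    ((unifUnit K hϖ : Kˣ) : K) = algebraMap A K ϖ := rfl

lemma exists_eq_unif_zpow_mul {ϖ : A} (hϖ : Irreducible ϖ) (g : Kˣ) :
    ∃ (k : ℤ) (h : Aˣ), g = unifUnit K hϖ ^ k * unitsToField A K h := by
  obtain ⟨a, b, hb, hab⟩ := IsFractionRing.div_surjective A (g : K)
  have hb0 : b ≠ 0 := nonZeroDivisors.ne_zero hb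
  have ha0 : a ≠ 0 := by
    rintro rfl
    rw [map_zero, zero_div] at hab
    exact g.ne_zero hab.symm
  obtain ⟨i, u, hu⟩ := IsDiscreteValuationRing.eq_unit_mul_pow_irreducible ha0 hϖ
  obtain ⟨j, u', hu'⟩ := IsDiscreteValuationRing.eq_unit_mul_pow_irreducible hb0 hϖ
  refine ⟨(i : ℤ) - (j : ℤ), u * u'⁻¹, ?_⟩
  apply Units.ext
  have hX : algebraMap A K ϖ ≠ 0 := (unifUnit K hϖ).ne_zero
  have hU' : algebraMap A K (u' : A) ≠ 0 := (unitsToField A K u').ne_zero
  have hinv : algebraMap A K ((u'⁻¹ : Aˣ) : A) = (algebraMap A K (u' : A))⁻¹ := by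
    apply eq_inv_of_mul_eq_one_left
    rw [← map_mul, Units.inv_mul, map_one]
  rw [Units.val_mul, Units.val_zpow_eq_zpow_val, coe_unifUnit, coe_unitsToField, ← hab, hu, hu',
    Units.val_mul, map_mul, map_mul, map_mul, map_pow, map_pow, hinv, zpow_sub₀ hX,
    zpow_natCast, zpow_natCast]
  field_simp

lemma unif_zpow_eq_unit {ϖ : A} (hϖ : Irreducible ϖ) (k : ℤ) (h : Aˣ)
    (hk : unifUnit K hϖ ^ k = unitsToField A K h) : k = 0 := by
  have key : ∀ (i : ℕ) (h : Aˣ), unifUnit K hϖ ^ (i + 1) ≠ unitsToField A K h := by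
    intro i h heq
    have h1 := congrArg (fun z : Kˣ => (z : K)) heq
    simp only [Units.val_pow_eq_pow_val, coe_unifUnit, coe_unitsToField] at h1
    rw [← map_pow] at h1
    have h2 : ϖ ^ (i + 1) = (h : A) := IsFractionRing.injective A K h1
    have h3 : IsUnit (ϖ ^ (i + 1)) := by rw [h2]; exact h.isUnit
    exact hϖ.not_isUnit ((isUnit_pow_iff (Nat.succ_ne_zero i)).1 h3)
  rcases Int.eq_nat_or_neg k with ⟨m, rfl | rfl⟩
  · rcases m with _ | i
    · rfl
    · exfalso
      rw [zpow_natCast] at hk
      exact key i h hk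
  · rcases m with _ | i
    · simp
    · exfalso
      rw [zpow_neg, zpow_natCast, inv_eq_iff_eq_inv, ← map_inv] at hk
      exact key i h⁻¹ hk

/-- Roots of unity of `K` lie in `A`. -/
theorem card_rootsOfUnity_dvr_eq {n : ℕ} (hn : n ≠ 0) :
    Nat.card (rootsOfUnity n A) = Nat.card (rootsOfUnity n K) := by
  obtain ⟨ϖ, hϖ⟩ := IsDiscreteValuationRing.exists_irreducible A
  have h1 := map_ker_pow_of_split (unitsToField A K) (unifUnit K hϖ)
    (exists_eq_unif_zpow_mul hϖ) (unif_zpow_eq_unit hϖ) hn unitsToField_injective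
  rw [ker_powMonoidHom_units, ker_powMonoidHom_units] at h1
  rw [← h1, Subgroup.card_map_of_injective unitsToField_injective]

/-- **Local power index, field form.** For a complete discrete valuation ring `A` with
finite residue field, fraction field `K` and `(n : A) ≠ 0`:
`[Kˣ : (Kˣ)ⁿ] = n * (|μ_n(K)| * |A ⧸ (n)|)`. -/
theorem index_range_pow_units_field [IsAdicComplete (maximalIdeal A) A]
    [Finite (ResidueField A)] {n : ℕ} (hn : (n : A) ≠ 0) :
    (powMonoidHom n : Kˣ →* Kˣ).range.index
      = n * (Nat.card (rootsOfUnity n K) * Nat.card (A ⧸ Ideal.span {(n : A)})) := by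
  obtain ⟨ϖ, hϖ⟩ := IsDiscreteValuationRing.exists_irreducible A
  have hn0 : n ≠ 0 := by rintro rfl; exact hn (by simp)
  rw [index_range_pow_of_split (unitsToField A K) unitsToField_injective (unifUnit K hϖ)
    (exists_eq_unif_zpow_mul hϖ) (unif_zpow_eq_unit hϖ) n, index_range_pow_units_dvr hn,
    card_rootsOfUnity_dvr_eq (K := K) hn0]

end DVR

end Fermat.Agent.S55.H424

end
-- ===== PACK-END S55/H424/FieldIndex.lean

-- ===== PACK-BEGIN S55/KL/DeltaNatH304.lean
section



/-!
# S55, layer KB, leaf KB-NAT (helper304): naturality of `δ` along group homomorphisms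

`deltaNat : DeltaNatSpec`, a repackaging of `H783.δ_naturality_map` (on main): the three
morphisms `φ₁, φ₂, φ₃` with the two commuting squares form a morphism of short complexes
`X.map (Rep.resFunctor f) ⟶ Y`.
-/

set_option autoImplicit false

open CategoryTheory groupCohomology

namespace Fermat.Agent.S55.KL.H304

open Fermat.Agent.S55.KL

/-- **KB-NAT.** -/
theorem deltaNat : DeltaNatSpec := by
  intro k G H _ _ _ f X hX Y hY φ₁ φ₂ φ₃ h₁₂ h₂₃ i j hij
  let Φ : X.map (Rep.resFunctor f) ⟶ Y :=
    { τ₁ := φ₁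
      τ₂ := φ₂
      τ₃ := φ₃
      comm₁₂ := h₁₂.symm
      comm₂₃ := h₂₃.symm }
  exact Fermat.Agent.S55.H783.δ_naturality_map f hX hY Φ i j hij

end Fermat.Agent.S55.KL.H304

end
-- ===== PACK-END S55/KL/DeltaNatH304.lean

-- ===== PACK-BEGIN S55/KL/DevCH783.lean
section


/-!
# S55, layer KB, leaf KB-DEV-C (helper783): filtration induction

`devPGroup : DevPGroupSpec`: if `Γ` acts on the finite `p`-torsion module `R` through a finite
`p`-group, and `μ` is a module of order `p` with trivial action and `colim H³(Γ, μ) = 0`, then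
`colim H³(Γ, R) = 0`.

Proof: induction on `|R|`.  A `p`-group acting on `R ≠ 0` fixes some `r ≠ 0`; this gives an
exact sequence `0 → μ → R → Q → 0` with `|Q| < |R|`, which stays exact on the invariants of every
level acting trivially on `R`; chase in the exact sequence `H³(μ) → H³(R) → H³(Q)`.
-/

set_option autoImplicit false

open CategoryTheory CategoryTheory.Limits groupCohomology

namespace Fermat.Agent.S55.KL.H783

open Fermat.Agent.S55.KL

variable {k : Type} [CommRing k]

/-! ### functoriality of `HLmap` -/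

section Functoriality

variable {Γ Γ' Γ'' : Type} [Group Γ] [Group Γ'] [Group Γ'']

lemma HLmap_comp {B : Rep.{0} k Γ} {B' : Rep.{0} k Γ'} {B'' : Rep.{0} k Γ''}
    (f : Γ' →* Γ) (f' : Γ'' →* Γ') {W : Subgroup Γ} [W.Normal] {W' : Subgroup Γ'} [W'.Normal]
    {W'' : Subgroup Γ''} [W''.Normal] (hf : W' ≤ W.comap f) (hf' : W'' ≤ W'.comap f')
    (φ : Rep.res f B ⟶ B') (φ' : Rep.res f' B' ⟶ B'') (n : ℕ) :
    HLmap f hf φ n ≫ HLmap f' hf' φ' n =
      HLmap (f.comp f') (W := W) (W' := W'') (fun _ hx => hf (hf' hx))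
        ((Rep.resFunctor f').map φ ≫ φ') n := by
  unfold HLmap
  rw [← groupCohomology.map_comp]
  refine groupCohomology.map_congr ?_ ?_ n
  · exact QuotientGroup.map_comp_map W'' W' W f' f hf' hf
  · rfl

variable {B B' : Rep.{0} k Γ}

lemma infl_infl (B : Rep.{0} k Γ) {W'' W' W : Subgroup Γ} [W''.Normal] [W'.Normal] [W.Normal]
    (h : W' ≤ W) (h' : W'' ≤ W') (n : ℕ) :
    infl B h n ≫ infl B h' n = infl B (h'.trans h) n := by
  unfold infl
  rw [HLmap_comp]
  refine groupCohomology.map_congr rfl ?_ n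
  rfl

lemma infl_infl_apply (B : Rep.{0} k Γ) {W'' W' W : Subgroup Γ} [W''.Normal] [W'.Normal]
    [W.Normal] (h : W' ≤ W) (h' : W'' ≤ W') (n : ℕ) (y : HL B W n) :
    (infl B h' n).hom ((infl B h n).hom y) = (infl B (h'.trans h) n).hom y :=
  congrArg (fun f => f.hom y) (infl_infl B h h' n)

lemma push_infl (φ : B ⟶ B') {W' W : Subgroup Γ} [W'.Normal] [W.Normal] (h : W' ≤ W) (n : ℕ) :
    push φ W n ≫ infl B' h n = infl B h n ≫ push φ W' n := by
  unfold push infl
  rw [HLmap_comp, HLmap_comp]
  refine groupCohomology.map_congr rfl ?_ n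
  rfl

lemma push_infl_apply (φ : B ⟶ B') {W' W : Subgroup Γ} [W'.Normal] [W.Normal] (h : W' ≤ W)
    (n : ℕ) (y : HL B W n) :
    (infl B' h n).hom ((push φ W n).hom y) = (push φ W' n).hom ((infl B h n).hom y) :=
  congrArg (fun f => f.hom y) (push_infl φ h n)

lemma push_eq_functor_map (φ : B ⟶ B') (W : Subgroup Γ) [W.Normal] (n : ℕ) :
    push φ W n =
      (groupCohomology.functor k (Γ ⧸ W) n).map ((Rep.quotientToInvariantsFunctor k W).map φ) := by
  unfold push HLmap
  refine groupCohomology.map_congr ?_ ?_ n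
  · exact QuotientGroup.map_id W
  · rfl

end Functoriality

/-! ### exactness on the invariants of a level acting trivially -/

section Exact

variable {Γ : Type} [Group Γ] (X : ShortComplex (Rep.{0} k Γ)) (W : Subgroup Γ) [W.Normal]

/-- The sequence of `W`-invariants, as a short complex of `Γ ⧸ W`-modules. -/
noncomputable def invComplex : ShortComplex (Rep.{0} k (Γ ⧸ W)) :=
  ShortComplex.mk ((Rep.quotientToInvariantsFunctor k W).map X.f)
    ((Rep.quotientToInvariantsFunctor k W).map X.g) (by
      rw [← Functor.map_comp, X.zero]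
      ext x
      rfl)

lemma invariants_shortExact (hX : X.ShortExact) (hW : ActsTrivially W X.X₂) :
    (invComplex X W).ShortExact where
  exact := by
    rw [← ShortComplex.exact_map_iff_of_faithful _ (forget₂ (Rep k (Γ ⧸ W)) (ModuleCat k)),
      ShortComplex.moduleCat_exact_iff_ker_sub_range]
    intro x hx
    have hx1 : X.g.hom (x : Representation.invariants (X.X₂.ρ.comp W.subtype)).1 = 0 :=
      congrArg Subtype.val hx
    have hex := hX.exact
    rw [← ShortComplex.exact_map_iff_of_faithful _ (forget₂ (Rep k Γ) (ModuleCat k)),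
      ShortComplex.moduleCat_exact_iff_ker_sub_range] at hex
    have hex' : ∃ a : X.X₁.V,
        X.f.hom a = (x : Representation.invariants (X.X₂.ρ.comp W.subtype)).1 := hex hx1
    obtain ⟨a, ha'⟩ := hex'
    have hinj : Function.Injective X.f.hom := (Rep.mono_iff_injective X.f).1 hX.mono_f
    have haW : a ∈ Representation.invariants (X.X₁.ρ.comp W.subtype) := by
      intro w
      apply hinj
      change X.f.hom (X.X₁.ρ (w : Γ) a) = X.f.hom a
      rw [Rep.hom_comm_apply, ha']
      exact hW w w.2 _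
    exact ⟨⟨a, haW⟩, Subtype.ext ha'⟩
  mono_f := by
    rw [Rep.mono_iff_injective]
    have hinj : Function.Injective X.f.hom := (Rep.mono_iff_injective X.f).1 hX.mono_f
    intro x y h
    exact Subtype.ext (hinj (congrArg Subtype.val h))
  epi_g := by
    rw [Rep.epi_iff_surjective]
    have hsurj : Function.Surjective X.g.hom := (Rep.epi_iff_surjective X.g).1 hX.epi_g
    intro q
    obtain ⟨x, hx⟩ := hsurj (q : Representation.invariants (X.X₃.ρ.comp W.subtype)).1
    exact ⟨⟨x, fun w => hW w w.2 x⟩, Subtype.ext hx⟩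

/-- Exactness of `Hⁿ(Γ/W, X₁^W) → Hⁿ(Γ/W, X₂^W) → Hⁿ(Γ/W, X₃^W)` if `W` acts trivially on
`X₂`. -/
lemma exists_push_eq (hX : X.ShortExact) (hW : ActsTrivially W X.X₂) (n : ℕ)
    (y : HL X.X₂ W n) (hy : (push X.g W n).hom y = 0) :
    ∃ z : HL X.X₁ W n, (push X.f W n).hom z = y := by
  have hex := mapShortComplex₂_exact (invariants_shortExact X W hX hW) n
  rw [push_eq_functor_map] at hy
  obtain ⟨z, hz⟩ := (ShortComplex.moduleCat_exact_iff _).1 hex y hy
  refine ⟨z, ?_⟩
  rw [push_eq_functor_map]
  exact hz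

end Exact

/-! ### the zero module -/

section Zero

variable {Γ : Type} [Group Γ]

lemma HL_eq_zero_of_subsingleton (R : Rep.{0} k Γ) [Subsingleton R.V] (W : Subgroup Γ)
    [W.Normal] (n : ℕ) (y : HL R W n) : y = 0 := by
  have h0 : IsZero (R.quotientToInvariants W) := by
    rw [IsZero.iff_id_eq_zero]
    ext x
    exact Subsingleton.elim (α := R.V) _ _
  have h1 : IsZero (HL R W n) := (groupCohomology.functor k (Γ ⧸ W) n).map_isZero h0
  exact (ModuleCat.subsingleton_of_isZero h1).elim _ _

end Zero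

/-! ### the exact sequence `0 → μ → R → Q → 0` attached to a fixed vector -/

section Construct

variable {Γ : Type} [Group Γ]

/-- An additive map between `k`-modules is `k`-linear if `ℤ → k` is surjective. -/
def linOfAdd (hk : Function.Surjective (Int.cast : ℤ → k)) {M M' : Type} [AddCommGroup M]
    [Module k M] [AddCommGroup M'] [Module k M'] (ψ : M →+ M') : M →ₗ[k] M' where
  toFun := ψ
  map_add' := ψ.map_add
  map_smul' c m := by
    obtain ⟨n, rfl⟩ := hk c
    simp only [RingHom.id_apply]
    rw [Int.cast_smul_eq_zsmul, Int.cast_smul_eq_zsmul, map_zsmul]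

@[simp]
lemma linOfAdd_apply (hk : Function.Surjective (Int.cast : ℤ → k)) {M M' : Type}
    [AddCommGroup M] [Module k M] [AddCommGroup M'] [Module k M'] (ψ : M →+ M') (m : M) :
    linOfAdd hk ψ m = ψ m := rfl

variable (p : ℕ) [Fact p.Prime]

/-- A group of order `p` is isomorphic to `ZMod p`. -/
noncomputable def zmodEquiv {M : Type} [AddCommGroup M] (hM : Nat.card M = p) : M ≃+ ZMod p :=
  addEquivOfPrimeCardEq hM (Nat.card_zmod p)

/-- The additive map `ZMod p → R`, `1 ↦ r`, for `p • r = 0`. -/
noncomputable def zmodLift {M' : Type} [AddCommGroup M'] (r : M') (hr : p • r = 0) :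
    ZMod p →+ M' :=
  ZMod.lift p ⟨zmultiplesHom M' r, by simpa using hr⟩

lemma zmodLift_intCast {M' : Type} [AddCommGroup M'] (r : M') (hr : p • r = 0) (n : ℤ) :
    zmodLift p r hr (n : ZMod p) = n • r := by
  unfold zmodLift
  rw [ZMod.lift_coe]
  simp

/-- The additive map `μ → R` attached to `r ∈ R` with `p • r = 0`, for `|μ| = p`. -/
noncomputable def fixAdd {M M' : Type} [AddCommGroup M] [AddCommGroup M'] (hM : Nat.card M = p)
    (r : M') (hr : p • r = 0) : M →+ M' :=
  (zmodLift p r hr).comp (zmodEquiv p hM).toAddMonoidHom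

lemma fixAdd_mem {M M' : Type} [AddCommGroup M] [AddCommGroup M'] (hM : Nat.card M = p)
    (r : M') (hr : p • r = 0) (m : M) : ∃ n : ℤ, fixAdd p hM r hr m = n • r := by
  obtain ⟨n, hn⟩ := ZMod.intCast_surjective (zmodEquiv p hM m)
  refine ⟨n, ?_⟩
  change zmodLift p r hr (zmodEquiv p hM m) = _
  rw [← hn, zmodLift_intCast]

lemma fixAdd_injective {M M' : Type} [AddCommGroup M] [AddCommGroup M'] (hM : Nat.card M = p)
    (r : M') (hr : p • r = 0) (hr0 : r ≠ 0) : Function.Injective (fixAdd p hM r hr) := by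
  rw [injective_iff_map_eq_zero]
  intro m hm
  by_contra hm0
  have h1 : zmodEquiv p hM m ≠ 0 := by
    intro h
    exact hm0 ((AddEquiv.map_eq_zero_iff _).1 h)
  have h2 : zmodLift p r hr (zmodEquiv p hM m) = 0 := hm
  have h3 : zmodLift p r hr ((zmodEquiv p hM m)⁻¹ * zmodEquiv p hM m) = 0 := by
    obtain ⟨n, hn⟩ := ZMod.intCast_surjective (zmodEquiv p hM m)⁻¹
    rw [← hn, ← zsmul_eq_mul, map_zsmul, h2, smul_zero]
  rw [inv_mul_cancel₀ h1] at h3
  have h4 : zmodLift p r hr ((1 : ℤ) : ZMod p) = 0 := by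
    simpa using h3
  rw [zmodLift_intCast, one_smul] at h4
  exact hr0 h4

end Construct

/-! ### fixed vectors of `p`-groups -/

section Fixed

variable {Γ : Type} [Group Γ] (p : ℕ) [Fact p.Prime]

lemma exists_fixed_ne_zero (R : Rep.{0} k Γ) [Finite R.V] (htors : ∀ r : R.V, p • r = 0)
    (hnt : ¬ Subsingleton R.V) (W : Subgroup Γ) [W.Normal] (hW : ActsTrivially W R)
    (hPG : IsPGroup p (Γ ⧸ W)) : ∃ r : R.V, r ≠ 0 ∧ ∀ g : Γ, R.ρ g r = r := by
  classical
  let X := Representation.invariants (R.ρ.comp W.subtype)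
  let _ : MulAction (Γ ⧸ W) X := MulAction.compHom X (R.quotientToInvariants W).ρ
  have hsmul : ∀ (q : Γ ⧸ W) (x : X), q • x = (R.quotientToInvariants W).ρ q x := fun _ _ => rfl
  -- a nonzero element
  obtain ⟨a, ha⟩ : ∃ a : R.V, a ≠ 0 := by
    by_contra h
    have h' : ∀ a : R.V, a = 0 := fun a => by
      by_contra ha
      exact h ⟨a, ha⟩
    exact hnt ⟨fun x y => by rw [h' x, h' y]⟩
  have haX : a ∈ X := fun w => hW w w.2 a
  have hx0 : (⟨a, haX⟩ : X) ≠ 0 := fun h => ha (congrArg Subtype.val h)
  have hpx : p • (⟨a, haX⟩ : X) = 0 := Subtype.ext (htors a)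
  have hdvd : p ∣ Nat.card X := by
    have h1 := addOrderOf_eq_prime hpx hx0
    rw [← h1]
    exact addOrderOf_dvd_natCard _
  have h0 : (0 : X) ∈ MulAction.fixedPoints (Γ ⧸ W) X := by
    intro q
    rw [hsmul, map_zero]
  obtain ⟨b, hb, hb0⟩ := hPG.exists_fixed_point_of_prime_dvd_card_of_fixed_point X hdvd h0
  refine ⟨b.1, fun h => hb0 (Subtype.ext h.symm), fun g => ?_⟩
  have h2 : ((g : Γ ⧸ W) • b : X) = b := hb (g : Γ ⧸ W)
  exact congrArg Subtype.val h2

end Fixed

/-! ### the extension attached to a fixed vector -/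

section Seq

variable {Γ : Type} [Group Γ] (hk : Function.Surjective (Int.cast : ℤ → k)) (p : ℕ)
  [Fact p.Prime] (μ : Rep.{0} k Γ) (hμ : Nat.card μ.V = p)
  (hμtriv : ∀ (g : Γ) (m : μ.V), μ.ρ g m = m)
  (R : Rep.{0} k Γ) (r : R.V) (hr : p • r = 0) (hfix : ∀ g : Γ, R.ρ g r = r)

include hfix in
lemma fixAdd_fixed (g : Γ) (m : μ.V) : R.ρ g (fixAdd p hμ r hr m) = fixAdd p hμ r hr m := by
  obtain ⟨n, hn⟩ := fixAdd_mem p hμ r hr m
  rw [hn, map_zsmul, hfix]

/-- The morphism `μ ⟶ R` attached to a fixed vector `r`. -/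
noncomputable def fixHom : μ ⟶ R :=
  Rep.ofHom (ρ := μ.ρ) (σ := R.ρ) ⟨linOfAdd hk (fixAdd p hμ r hr), fun g => by
    refine LinearMap.ext fun m => ?_
    have h1 : R.ρ g (fixAdd p hμ r hr m) = fixAdd p hμ r hr m := fixAdd_fixed p μ hμ R r hr hfix g m
    have h2 : μ.ρ g m = m := hμtriv g m
    simp [h1, h2]⟩

lemma fixHom_apply (m : μ.V) :
    (fixHom hk p μ hμ hμtriv R r hr hfix).hom m = fixAdd p hμ r hr m := rfl

/-- The image of `μ` in `R`. -/
noncomputable def fixRange : Submodule k R.V :=
  LinearMap.range (fixHom hk p μ hμ hμtriv R r hr hfix).hom.toLinearMap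

lemma fixRange_le_comap (g : Γ) :
    fixRange hk p μ hμ hμtriv R r hr hfix ≤
      (fixRange hk p μ hμ hμtriv R r hr hfix).comap (R.ρ g) := by
  rintro _ ⟨m, rfl⟩
  rw [Submodule.mem_comap]
  refine ⟨m, ?_⟩
  exact (fixAdd_fixed p μ hμ R r hr hfix g m).symm

/-- The quotient `Q = R / μ`. -/
noncomputable abbrev fixQuot : Rep.{0} k Γ :=
  Rep.quotient R (fixRange hk p μ hμ hμtriv R r hr hfix)
    (fixRange_le_comap hk p μ hμ hμtriv R r hr hfix)

/-- The projection `R ⟶ Q`. -/
noncomputable abbrev fixProj : R ⟶ fixQuot hk p μ hμ hμtriv R r hr hfix :=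
  Rep.mkQ R (fixRange hk p μ hμ hμtriv R r hr hfix)
    (fixRange_le_comap hk p μ hμ hμtriv R r hr hfix)

lemma fixProj_surjective : Function.Surjective (fixProj hk p μ hμ hμtriv R r hr hfix).hom :=
  Submodule.mkQ_surjective _

lemma fixProj_eq_zero_iff (x : R.V) :
    (fixProj hk p μ hμ hμtriv R r hr hfix).hom x = 0 ↔
      x ∈ fixRange hk p μ hμ hμtriv R r hr hfix :=
  Submodule.Quotient.mk_eq_zero _

lemma fixHom_comp_fixProj :
    fixHom hk p μ hμ hμtriv R r hr hfix ≫ fixProj hk p μ hμ hμtriv R r hr hfix = 0 := by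
  ext m
  exact (fixProj_eq_zero_iff hk p μ hμ hμtriv R r hr hfix _).2 ⟨m, rfl⟩

/-- The short complex `μ ⟶ R ⟶ Q`. -/
noncomputable def fixSC : ShortComplex (Rep.{0} k Γ) :=
  ShortComplex.mk (fixHom hk p μ hμ hμtriv R r hr hfix) (fixProj hk p μ hμ hμtriv R r hr hfix)
    (fixHom_comp_fixProj hk p μ hμ hμtriv R r hr hfix)

lemma fixSC_shortExact (hr0 : r ≠ 0) : (fixSC hk p μ hμ hμtriv R r hr hfix).ShortExact where
  exact := by
    rw [← ShortComplex.exact_map_iff_of_faithful _ (forget₂ (Rep k Γ) (ModuleCat k)),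
      ShortComplex.moduleCat_exact_iff_ker_sub_range]
    intro x hx
    exact (fixProj_eq_zero_iff hk p μ hμ hμtriv R r hr hfix x).1 hx
  mono_f := (Rep.mono_iff_injective _).2 (fixAdd_injective p hμ r hr hr0)
  epi_g := (Rep.epi_iff_surjective _).2 (fixProj_surjective hk p μ hμ hμtriv R r hr hfix)

lemma card_fixQuot_lt [Finite R.V] (hr0 : r ≠ 0) :
    Nat.card (fixQuot hk p μ hμ hμtriv R r hr hfix).V < Nat.card R.V := by
  classical
  let _ : Fintype R.V := Fintype.ofFinite _
  have hfinQ : Finite (fixQuot hk p μ hμ hμtriv R r hr hfix).V :=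
    Finite.of_surjective _ (fixProj_surjective hk p μ hμ hμtriv R r hr hfix)
  let _ : Fintype (fixQuot hk p μ hμ hμtriv R r hr hfix).V := Fintype.ofFinite _
  rw [Nat.card_eq_fintype_card, Nat.card_eq_fintype_card]
  refine Fintype.card_lt_of_surjective_not_injective _
    (fixProj_surjective hk p μ hμ hμtriv R r hr hfix) (fun hinj => ?_)
  -- a nonzero element of `μ`
  have hμ1 : 1 < Nat.card μ.V := by
    rw [hμ]
    exact (Fact.out (p := p.Prime)).one_lt
  have hfinμ : Finite μ.V := Nat.finite_of_card_ne_zero (by omega)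
  obtain ⟨m, hm⟩ : ∃ m : μ.V, m ≠ 0 := by
    rw [Finite.one_lt_card_iff_nontrivial] at hμ1
    exact exists_ne 0
  have h1 : (fixProj hk p μ hμ hμtriv R r hr hfix).hom (fixAdd p hμ r hr m) = 0 :=
    (fixProj_eq_zero_iff hk p μ hμ hμtriv R r hr hfix _).2 ⟨m, rfl⟩
  have h2 : fixAdd p hμ r hr m = 0 := hinj (by rw [h1, map_zero])
  exact hm (fixAdd_injective p hμ r hr hr0 (by rw [h2, map_zero]))

lemma fixQuot_tors (htors : ∀ x : R.V, p • x = 0)
    (q : (fixQuot hk p μ hμ hμtriv R r hr hfix).V) : p • q = 0 := by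
  obtain ⟨x, rfl⟩ := fixProj_surjective hk p μ hμ hμtriv R r hr hfix q
  rw [← map_nsmul, htors, map_zero]

lemma fixQuot_actsTrivially (W : Subgroup Γ) (hW : ActsTrivially W R) :
    ActsTrivially W (fixQuot hk p μ hμ hμtriv R r hr hfix) := by
  intro w hw q
  obtain ⟨x, rfl⟩ := fixProj_surjective hk p μ hμ hμtriv R r hr hfix q
  have h := Rep.hom_comm_apply (fixProj hk p μ hμ hμtriv R r hr hfix) w x
  rw [← h, hW w hw x]

end Seq

/-! ### the induction -/

/-- **KB-DEV-C.** -/
theorem devPGroup : DevPGroupSpec := by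
  intro k Γ _ _ hk N μ p hp hμ hμtriv hμeff
  have : Fact p.Prime := ⟨hp⟩
  have key : ∀ n : ℕ, ∀ R : Rep.{0} k Γ, Nat.card R.V = n → Finite R.V →
      (∀ r : R.V, p • r = 0) →
      (∃ V : N.Lvl, ActsTrivially V.W R ∧ IsPGroup p (Γ ⧸ V.W)) → EffAll N R 3 := by
    intro n
    induction n using Nat.strong_induction_on with
    | _ n ih =>
      rintro R hcard hfin htors ⟨V₀, hV₀, hPG⟩ V y
      by_cases hsub : Subsingleton R.V
      · exact ⟨V, le_rfl, HL_eq_zero_of_subsingleton R _ 3 _⟩
      · obtain ⟨r, hr0, hfix⟩ := exists_fixed_ne_zero p R htors hsub V₀.W hV₀ hPG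
        have hr : p • r = 0 := htors r
        -- the exact sequence `0 → μ → R → Q → 0`
        have hX := fixSC_shortExact hk p μ hμ hμtriv R r hr hfix hr0
        have hQfin : Finite (fixQuot hk p μ hμ hμtriv R r hr hfix).V :=
          Finite.of_surjective _ (fixProj_surjective hk p μ hμ hμtriv R r hr hfix)
        have hQ : EffAll N (fixQuot hk p μ hμ hμtriv R r hr hfix) 3 :=
          ih _ (hcard ▸ card_fixQuot_lt hk p μ hμ hμtriv R r hr hfix hr0) _ rfl hQfin
            (fixQuot_tors hk p μ hμ hμtriv R r hr hfix htors)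
            ⟨V₀, fixQuot_actsTrivially hk p μ hμ hμtriv R r hr hfix V₀.W hV₀, hPG⟩
        -- go to a level acting trivially on `R`
        obtain ⟨V₁, hV₁V, hV₁V₀⟩ := N.exists_le V V₀
        -- efface the image in `H³(Q)`
        obtain ⟨V₂, hV₂, h2⟩ := hQ V₁
          ((push (fixProj hk p μ hμ hμtriv R r hr hfix) V₁.W 3).hom
            ((infl R hV₁V 3).hom y))
        rw [push_infl_apply, infl_infl_apply] at h2
        have hV₂triv : ActsTrivially V₂.W R := fun w hw => hV₀ w (hV₁V₀ (hV₂ hw))
        obtain ⟨z, hz⟩ := exists_push_eq (fixSC hk p μ hμ hμtriv R r hr hfix) V₂.W hX hV₂triv 3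
          ((infl R (hV₂.trans hV₁V) 3).hom y) h2
        -- efface `z`
        obtain ⟨V₃, hV₃, h3⟩ := hμeff V₂ z
        refine ⟨V₃, hV₃.trans (hV₂.trans hV₁V), ?_⟩
        have h4 := push_infl_apply (fixHom hk p μ hμ hμtriv R r hr hfix) hV₃ 3 z
        rw [h3, map_zero] at h4
        have h5 : (push (fixSC hk p μ hμ hμtriv R r hr hfix).f V₂.W 3).hom z =
            (push (fixHom hk p μ hμ hμtriv R r hr hfix) V₂.W 3).hom z := rfl
        rw [h5] at hz
        rw [hz, infl_infl_apply] at h4
        exact h4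
  intro R hfin htors hV
  exact key _ R rfl hfin htors hV

end Fermat.Agent.S55.KL.H783

end
-- ===== PACK-END S55/KL/DevCH783.lean

-- ===== PACK-BEGIN S56/Euler/CompH486.lean
section
/-
S56 / W-BASE / Euler characteristic, leaf EUL-IND:COMP (helper486): composition factors.
`compSeries : CompSeriesStatement` (verbatim target of `Euler/IndSpec.lean`), Mathlib-only
(uses the multiplicativity of the characteristic polynomial along an invariant submodule from
`S56/H486/T4Charpoly.lean`).
-/



set_option autoImplicit false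

noncomputable section

namespace Fermat.Agent.S56.Euler.H486

open Fermat.Agent.S56.Euler

variable {k G : Type} [Field k] [Group G]

/-- The sub-representation on an invariant submodule, bundled. -/
def subData (W : FDRepData k G) (S : Submodule k W.V) (hS : ∀ g, S ≤ S.comap (W.ρ g)) :
    FDRepData k G where
  V := S
  ρ := W.ρ.subrepresentation S hS

/-- The quotient representation by an invariant submodule, bundled. -/
def quotData (W : FDRepData k G) (S : Submodule k W.V) (hS : ∀ g, S ≤ S.comap (W.ρ g)) :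
    FDRepData k G where
  V := W.V ⧸ S
  ρ := W.ρ.quotient S hS

lemma isShortExact_sub_quot (W : FDRepData k G) (S : Submodule k W.V)
    (hS : ∀ g, S ≤ S.comap (W.ρ g)) :
    IsShortExact (subData W S hS) W (quotData W S hS) S.subtype S.mkQ where
  equivar_i := fun _ _ => rfl
  equivar_q := fun _ _ => rfl
  inj := Subtype.val_injective
  surj := Submodule.mkQ_surjective S
  exact := (Submodule.range_subtype S).trans (Submodule.ker_mkQ S).symm

lemma charpoly_sub_quot (W : FDRepData k G) (S : Submodule k W.V)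
    (hS : ∀ g, S ≤ S.comap (W.ρ g)) (g : G) :
    LinearMap.charpoly (W.ρ g) =
      LinearMap.charpoly ((subData W S hS).ρ g) * LinearMap.charpoly ((quotData W S hS).ρ g) :=
  Fermat.Agent.S56.H486.t4_charpoly_eq_restrict_mul_mapQ S (W.ρ g) (hS g)

/-- An additive invariant vanishes on the zero representation. -/
lemma additive_zero (W : FDRepData k G) [Subsingleton W.V] (f : RepInv k G)
    (hf : IsAdditiveInv f) : f W = 0 := by
  have h : IsShortExact W W W (LinearMap.id) (LinearMap.id) :=
    { equivar_i := fun _ _ => rfl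
      equivar_q := fun _ _ => rfl
      inj := Function.injective_id
      surj := Function.surjective_id
      exact := Subsingleton.elim _ _ }
  have := hf W W W _ _ h
  omega

/-- Induction engine for `compSeries` (strong induction on the dimension). -/
theorem compSeries_aux (k : Type) [Field k] (G : Type) [Group G] (d : ℕ) :
    ∀ W : FDRepData k G, Module.finrank k W.V = d →
    ∃ (n : ℕ) (T : Fin n → FDRepData k G), (∀ j, IsSimpleRep (T j)) ∧
      (∀ f : RepInv k G, IsAdditiveInv f → f W = ∑ j, f (T j)) ∧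
      (∀ g : G, LinearMap.charpoly (W.ρ g) = ∏ j, LinearMap.charpoly ((T j).ρ g)) := by
  induction d using Nat.strong_induction_on with
  | _ d ih =>
  intro W hd
  by_cases h0 : Subsingleton W.V
  · -- the zero representation: no factors
    refine ⟨0, Fin.elim0, fun j => j.elim0, fun f hf => ?_, fun g => ?_⟩
    · rw [additive_zero W f hf, Finset.univ_eq_empty, Finset.sum_empty]
    · rw [Finset.univ_eq_empty, Finset.prod_empty]
      exact Fermat.Agent.S56.H486.t4_charpoly_of_subsingleton (W.ρ g)
  have hnt : Nontrivial W.V := not_subsingleton_iff_nontrivial.mp h0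
  by_cases hs : IsSimpleRep W
  · -- a simple representation: one factor
    refine ⟨1, fun _ => W, fun _ => hs, fun f _ => ?_, fun g => ?_⟩
    · rw [Fin.sum_univ_one]
    · rw [Fin.prod_univ_one]
  -- otherwise there is a proper nonzero invariant submodule
  have hex : ∃ S : Submodule k W.V, (∀ g, ∀ w ∈ S, W.ρ g w ∈ S) ∧ S ≠ ⊥ ∧ S ≠ ⊤ := by
    by_contra hne
    apply hs
    refine ⟨hnt, fun S hS => ?_⟩
    by_contra hc
    rw [not_or] at hc
    exact hne ⟨S, hS, hc.1, hc.2⟩
  obtain ⟨S, hS', hbot, htop⟩ := hex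
  have hS : ∀ g, S ≤ S.comap (W.ρ g) := fun g w hw => hS' g w hw
  have hlt1 : Module.finrank k (subData W S hS).V < d := by
    rw [← hd]
    exact Submodule.finrank_lt htop
  have hlt2 : Module.finrank k (quotData W S hS).V < d := by
    rw [← hd]
    have h1 : Module.finrank k (W.V ⧸ S) + Module.finrank k S = Module.finrank k W.V :=
      Submodule.finrank_quotient_add_finrank S
    have h2 : 0 < Module.finrank k S := by
      rw [Module.finrank_pos_iff]
      exact Submodule.nontrivial_iff_ne_bot.mpr hbot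
    change Module.finrank k (W.V ⧸ S) < Module.finrank k W.V
    omega
  obtain ⟨n₁, T₁, hT₁, hf₁, hc₁⟩ := ih _ hlt1 (subData W S hS) rfl
  obtain ⟨n₂, T₂, hT₂, hf₂, hc₂⟩ := ih _ hlt2 (quotData W S hS) rfl
  refine ⟨n₁ + n₂, Fin.append T₁ T₂, fun j => ?_, fun f hf => ?_, fun g => ?_⟩
  · refine Fin.addCases (fun i => ?_) (fun i => ?_) j
    · rw [Fin.append_left]
      exact hT₁ i
    · rw [Fin.append_right]
      exact hT₂ i
  · rw [hf _ _ _ _ _ (isShortExact_sub_quot W S hS), hf₁ f hf, hf₂ f hf, Fin.sum_univ_add]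
    congr 1
    · exact Finset.sum_congr rfl (fun i _ => by rw [Fin.append_left])
    · exact Finset.sum_congr rfl (fun i _ => by rw [Fin.append_right])
  · rw [charpoly_sub_quot W S hS g, hc₁ g, hc₂ g, Fin.prod_univ_add]
    congr 1
    · exact Finset.prod_congr rfl (fun i _ => by rw [Fin.append_left])
    · exact Finset.prod_congr rfl (fun i _ => by rw [Fin.append_right])

/-- **EUL-IND:COMP.** Composition factors of a finite-dimensional representation. -/
theorem compSeries : CompSeriesStatement :=
  fun k _ G _ W => compSeries_aux k G _ W rfl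

end Fermat.Agent.S56.Euler.H486

end

end
-- ===== PACK-END S56/Euler/CompH486.lean

-- ===== PACK-BEGIN S56/Euler/UniqH939.lean
section


/-!
# Row S56 / Euler characteristic / leaf EUL-IND:UNIQ (helper939)

`uniq_of : TraceIndepStatement → TraceSSStatement → UniqStatement`.

Multiplicative independence of the characteristic polynomials of pairwise non-isomorphic simple
`𝔽_p[G]`-modules on `p`-regular elements, from the linear independence of their traces (TRIND)
and `tr(g) = tr(g_s)` (TRSS).

Proof (induction on `∑ (m i + m' i)`): cancel `min (m i) (m' i)` (`𝔽_p[T]` is a domain, the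
characteristic polynomials are monic).  If the supports are disjoint, the next-to-leading
coefficients give `∑ (m i - m' i) tr_i = 0` on `p`-regular elements, hence everywhere by TRSS,
hence `p ∣ m i, m' i` by TRIND; the Frobenius of `𝔽_p[T]` is injective, so the relation holds
for `m / p`, `m' / p`.
-/

set_option autoImplicit false

open Polynomial

noncomputable section

namespace Fermat.Agent.S56.Euler.H939

/-- The trace is minus the next-to-leading coefficient of the characteristic polynomial. -/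
lemma trace_eq_neg_nextCoeff_charpoly {k V : Type} [Field k] [AddCommGroup V] [Module k V]
    [Module.Finite k V] (f : V →ₗ[k] V) :
    LinearMap.trace k V f = -(LinearMap.charpoly f).nextCoeff := by
  rw [LinearMap.charpoly_def, ← Matrix.trace_eq_neg_charpoly_nextCoeff,
    ← LinearMap.trace_eq_matrix_trace]

/-- the weighted sum of traces from the weighted product of characteristic polynomials -/
lemma sum_trace_of_prod_charpoly {k : Type} [Field k] {ι : Type} [Fintype ι]
    (V : ι → Type) [∀ i, AddCommGroup (V i)] [∀ i, Module k (V i)] [∀ i, Module.Finite k (V i)]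
    (f : ∀ i, V i →ₗ[k] V i) (m m' : ι → ℕ)
    (h : ∏ i, LinearMap.charpoly (f i) ^ m i = ∏ i, LinearMap.charpoly (f i) ^ m' i) :
    ∑ i, (m i : k) * LinearMap.trace k (V i) (f i) =
      ∑ i, (m' i : k) * LinearMap.trace k (V i) (f i) := by
  have key : ∀ n : ι → ℕ, (∏ i, LinearMap.charpoly (f i) ^ n i).nextCoeff =
      -∑ i, (n i : k) * LinearMap.trace k (V i) (f i) := by
    intro n
    rw [Monic.nextCoeff_prod _ _ (fun i _ => (LinearMap.charpoly_monic (f i)).pow (n i)),
      ← Finset.sum_neg_distrib]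
    refine Finset.sum_congr rfl fun i _ => ?_
    rw [(LinearMap.charpoly_monic (f i)).nextCoeff_pow, trace_eq_neg_nextCoeff_charpoly,
      nsmul_eq_mul, mul_neg, neg_neg]
  have h1 := key m
  rw [h, key m'] at h1
  exact (neg_injective h1).symm

theorem uniq_of (hTI : TraceIndepStatement) (hSS : TraceSSStatement) : UniqStatement := by
  intro p _ G _ _ ι _ S hsimple hniso
  have hp : p.Prime := Fact.out
  suffices H : ∀ (N : ℕ) (m m' : ι → ℕ), ∑ i, (m i + m' i) = N →
      (∀ g : G, IsPRegular p g →
        ∏ i, LinearMap.charpoly ((S i).ρ g) ^ m i =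
          ∏ i, LinearMap.charpoly ((S i).ρ g) ^ m' i) → m = m' by
    intro m m' h
    exact H _ m m' rfl h
  intro N
  induction N using Nat.strong_induction_on with
  | _ N ih =>
  intro m m' hN h
  by_cases hd : ∃ i, 0 < m i ∧ 0 < m' i
  · -- cancel the common part
    obtain ⟨i₀, h1, h2⟩ := hd
    set d : ι → ℕ := fun i => min (m i) (m' i) with hd_def
    set m₁ : ι → ℕ := fun i => m i - d i with hm₁
    set m₁' : ι → ℕ := fun i => m' i - d i with hm₁'
    have e1 : ∀ i, m i = d i + m₁ i := fun i => by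
      simp only [hm₁, hd_def]; omega
    have e2 : ∀ i, m' i = d i + m₁' i := fun i => by
      simp only [hm₁', hd_def]; omega
    have hlt : ∑ i, (m₁ i + m₁' i) < N := by
      rw [← hN]
      refine Finset.sum_lt_sum (fun i _ => ?_) ⟨i₀, Finset.mem_univ _, ?_⟩
      · rw [e1 i, e2 i]; omega
      · have hdpos : 0 < d i₀ := by simp only [hd_def]; omega
        rw [e1 i₀, e2 i₀]; omega
    have hrel : ∀ g : G, IsPRegular p g →
        ∏ i, LinearMap.charpoly ((S i).ρ g) ^ m₁ i =
          ∏ i, LinearMap.charpoly ((S i).ρ g) ^ m₁' i := by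
      intro g hg
      have hg' := h g hg
      have s1 : ∀ n n₁ : ι → ℕ, (∀ i, n i = d i + n₁ i) →
          ∏ i, LinearMap.charpoly ((S i).ρ g) ^ n i =
            (∏ i, LinearMap.charpoly ((S i).ρ g) ^ d i) *
              ∏ i, LinearMap.charpoly ((S i).ρ g) ^ n₁ i := by
        intro n n₁ hn
        rw [← Finset.prod_mul_distrib]
        refine Finset.prod_congr rfl fun i _ => ?_
        rw [hn i, pow_add]
      rw [s1 m m₁ e1, s1 m' m₁' e2] at hg'
      have hne : (∏ i, LinearMap.charpoly ((S i).ρ g) ^ d i) ≠ 0 :=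
        (monic_prod_of_monic _ _ fun i _ => (LinearMap.charpoly_monic _).pow _).ne_zero
      exact mul_left_cancel₀ hne hg'
    have := ih _ hlt m₁ m₁' rfl hrel
    funext i
    rw [e1 i, e2 i, congrFun this i]
  · -- disjoint supports
    have hdis : ∀ i, m i = 0 ∨ m' i = 0 := by
      intro i
      rcases Nat.eq_zero_or_pos (m i) with h0 | h0
      · exact Or.inl h0
      · rcases Nat.eq_zero_or_pos (m' i) with h0' | h0'
        · exact Or.inr h0'
        · exact absurd ⟨i, h0, h0'⟩ hd
    -- trace relation on `p`-regular elements, then everywhere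
    have htr : ∀ g : G, ∑ i, ((m i : ZMod p) - (m' i : ZMod p)) *
        LinearMap.trace (ZMod p) (S i).V ((S i).ρ g) = 0 := by
      intro g
      obtain ⟨g', hg', hgg'⟩ := hSS p G g
      have := sum_trace_of_prod_charpoly (fun i => (S i).V) (fun i => (S i).ρ g') m m' (h g' hg')
      simp only [sub_mul, Finset.sum_sub_distrib, sub_eq_zero, hgg']
      exact this
    have hzero := hTI p G ι S hsimple hniso (fun i => (m i : ZMod p) - (m' i : ZMod p)) htr
    have hdvd : ∀ i, p ∣ m i ∧ p ∣ m' i := by
      intro i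
      have hi := hzero i
      rcases hdis i with h0 | h0
      · rw [h0, Nat.cast_zero, zero_sub, neg_eq_zero, ZMod.natCast_eq_zero_iff] at hi
        exact ⟨h0 ▸ dvd_zero p, hi⟩
      · rw [h0, Nat.cast_zero, sub_zero, ZMod.natCast_eq_zero_iff] at hi
        exact ⟨hi, h0 ▸ dvd_zero p⟩
    by_cases hN0 : N = 0
    · subst hN0
      have hall : ∀ i, m i + m' i = 0 := fun i =>
        (Finset.sum_eq_zero_iff.mp hN) i (Finset.mem_univ _)
      funext i
      have := hall i
      omega
    set m₁ : ι → ℕ := fun i => m i / p with hm₁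
    set m₁' : ι → ℕ := fun i => m' i / p with hm₁'
    have e1 : ∀ i, m i = p * m₁ i := fun i => (Nat.mul_div_cancel' (hdvd i).1).symm
    have e2 : ∀ i, m' i = p * m₁' i := fun i => (Nat.mul_div_cancel' (hdvd i).2).symm
    have hNeq : N = p * ∑ i, (m₁ i + m₁' i) := by
      rw [← hN, Finset.mul_sum]
      refine Finset.sum_congr rfl fun i _ => ?_
      rw [mul_add, ← e1 i, ← e2 i]
    have hlt : ∑ i, (m₁ i + m₁' i) < N := by
      have hpos : 0 < ∑ i, (m₁ i + m₁' i) := by
        rcases Nat.eq_zero_or_pos (∑ i, (m₁ i + m₁' i)) with h0 | h0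
        · rw [h0, mul_zero] at hNeq
          exact absurd hNeq hN0
        · exact h0
      have h2 : 2 ≤ p := hp.two_le
      calc ∑ i, (m₁ i + m₁' i) < 2 * ∑ i, (m₁ i + m₁' i) := by omega
        _ ≤ p * ∑ i, (m₁ i + m₁' i) := Nat.mul_le_mul_right _ h2
        _ = N := hNeq.symm
    have hrel : ∀ g : G, IsPRegular p g →
        ∏ i, LinearMap.charpoly ((S i).ρ g) ^ m₁ i =
          ∏ i, LinearMap.charpoly ((S i).ρ g) ^ m₁' i := by
      intro g hg
      have hg' := h g hg
      have s1 : ∀ n n₁ : ι → ℕ, (∀ i, n i = p * n₁ i) →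
          ∏ i, LinearMap.charpoly ((S i).ρ g) ^ n i =
            (∏ i, LinearMap.charpoly ((S i).ρ g) ^ n₁ i) ^ p := by
        intro n n₁ hn
        rw [← Finset.prod_pow]
        refine Finset.prod_congr rfl fun i _ => ?_
        rw [hn i, mul_comm, pow_mul]
      rw [s1 m m₁ e1, s1 m' m₁' e2] at hg'
      exact frobenius_inj (ZMod p)[X] p hg'
    have := ih _ hlt m₁ m₁' rfl hrel
    funext i
    rw [e1 i, e2 i, congrFun this i]

end Fermat.Agent.S56.Euler.H939

end

end
-- ===== PACK-END S56/Euler/UniqH939.lean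

-- ===== PACK-BEGIN S56/Euler/TrSSH635.lean
section


/-!
# Row S56 / Euler characteristic / leaf IND — TRSS (helper635)

`traceSS : TraceSSStatement`: for `g` in a finite group, `h := g ^ (p ^ orderOf g)` is
`p`-regular and `tr(ρ g) = tr(ρ h)` for every finite-dimensional representation over `ZMod p`
(`tr(M ^ p) = (tr M) ^ p = tr M` over `ZMod p`).
-/

set_option autoImplicit false

namespace Fermat.Agent.S56.Euler.H635

open Fermat.Agent.S56.Euler

/-- Over `ZMod p`, `tr (f ^ p) = tr f`. -/
theorem trace_pow_prime (p : ℕ) [Fact p.Prime] {V : Type*} [AddCommGroup V] [Module (ZMod p) V]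
    [Module.Finite (ZMod p) V] (f : V →ₗ[ZMod p] V) :
    LinearMap.trace (ZMod p) V (f ^ p) = LinearMap.trace (ZMod p) V f := by
  classical
  let b := Module.finBasis (ZMod p) V
  rw [LinearMap.trace_eq_matrix_trace (ZMod p) b, LinearMap.trace_eq_matrix_trace (ZMod p) b,
    ← LinearMap.toMatrix_pow, ZMod.trace_pow_card, ZMod.pow_card]

/-- Over `ZMod p`, `tr (f ^ (p ^ N)) = tr f`. -/
theorem trace_pow_prime_pow (p : ℕ) [Fact p.Prime] {V : Type*} [AddCommGroup V]
    [Module (ZMod p) V] [Module.Finite (ZMod p) V] (f : V →ₗ[ZMod p] V) (N : ℕ) :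
    LinearMap.trace (ZMod p) V (f ^ (p ^ N)) = LinearMap.trace (ZMod p) V f := by
  induction N with
  | zero => simp
  | succ N ih => rw [pow_succ, pow_mul, trace_pow_prime, ih]

/-- `g ^ (p ^ N)` is `p`-regular as soon as `orderOf g ∣ p ^ N * m` with `p ∤ m`. -/
theorem isPRegular_pow (p : ℕ) [Fact p.Prime] {G : Type} [Group G] [Finite G] (g : G) :
    IsPRegular p (g ^ (p ^ orderOf g)) := by
  have hp : p.Prime := Fact.out
  have hn : orderOf g ≠ 0 := (orderOf_pos g).ne'
  obtain ⟨e, m, hm, hnm⟩ := Nat.exists_eq_pow_mul_and_not_dvd hn p hp.ne_one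
  have he : e ≤ orderOf g := by
    have h1 : p ^ e ≤ orderOf g := Nat.le_of_dvd (orderOf_pos g) ⟨m, hnm⟩
    exact (Nat.lt_pow_self hp.one_lt).le.trans h1
  have hdvd : orderOf g ∣ p ^ orderOf g * m := by
    conv_lhs => rw [hnm]
    exact Nat.mul_dvd_mul (pow_dvd_pow p he) dvd_rfl
  have h1 : (g ^ (p ^ orderOf g)) ^ m = 1 := by
    rw [← pow_mul]
    exact orderOf_dvd_iff_pow_eq_one.1 hdvd
  intro hdiv
  exact hm (hdiv.trans (orderOf_dvd_of_pow_eq_one h1))

/-- **TRSS.** -/
theorem traceSS : TraceSSStatement := by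
  intro p _ G _ _ g
  refine ⟨g ^ (p ^ orderOf g), isPRegular_pow p g, fun W => ?_⟩
  rw [map_pow, trace_pow_prime_pow]

end Fermat.Agent.S56.Euler.H635

end
-- ===== PACK-END S56/Euler/TrSSH635.lean

-- ===== PACK-BEGIN S56/Euler/ArtinH512.lean
section


/-!
# Row S56 / Euler characteristic / leaf ARTIN (helper512)

`artinCount : ArtinCountStatement` — Artin's counting formula on `p`-regular elements:
for a finite group `G` there are integers `a_B`, `B` running over the cyclic subgroups of order
prime to `p`, with `∑_B a_B · |(G/B)^g| = |G|` for every `p`-regular `g`.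

Proof.  `φ_B(g) = #{x : x⁻¹ g x ∈ B} = |B| · |(G/B)^g|`, `ν_C(g) = #{x : ⟨x⁻¹ g x⟩ = C}`;
`φ_C = ∑_{C' ≤ C} ν_{C'}`, so by induction on `C` every `ν_C` (`C` cyclic of order prime to `p`)
is a `ℤ`-combination of the `φ_B`; finally `∑_C ν_C(g) = |G|` for `p`-regular `g`.
Mathlib only.
-/

set_option autoImplicit false

open Subgroup

namespace Fermat.Agent.S56.Euler.H512

variable {G : Type} [Group G]

/-- The conjugate `x⁻¹ g x`. -/
def cj (g x : G) : G := x⁻¹ * g * x

lemma orderOf_cj (g x : G) : orderOf (cj g x) = orderOf g := by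
  have h := (MulAut.conj x⁻¹).orderOf_eq g
  rw [MulAut.conj_apply, inv_inv] at h
  exact h

/-- `φ_B(g) = #{x : x⁻¹ g x ∈ B}`. -/
noncomputable def phi (B : Subgroup G) (g : G) : ℤ :=
  (Nat.card {x : G // cj g x ∈ B} : ℤ)

/-- `ν_C(g) = #{x : ⟨x⁻¹ g x⟩ = C}`. -/
noncomputable def nu (C : Subgroup G) (g : G) : ℤ :=
  (Nat.card {x : G // zpowers (cj g x) = C} : ℤ)

/-- `#{x : x⁻¹ g x ∈ B} = |B| · |(G/B)^g|`. -/
lemma card_cj_mem (B : Subgroup G) (g : G) :
    Nat.card {x : G // cj g x ∈ B} = Nat.card B * Nat.card {q : G ⧸ B // g • q = q} := by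
  rw [← Nat.card_prod]
  have hset : {x : G | cj g x ∈ B} =
      (QuotientGroup.mk : G → G ⧸ B) ⁻¹' {q : G ⧸ B | g • q = q} := by
    ext x
    simp only [Set.mem_ofPred_eq, Set.mem_preimage]
    rw [MulAction.Quotient.smul_mk, eq_comm, QuotientGroup.eq, smul_eq_mul, cj, mul_assoc]
  have e := QuotientGroup.preimageMkEquivSubgroupProdSet B {q : G ⧸ B | g • q = q}
  rw [← hset] at e
  exact Nat.card_congr e

lemma phi_eq (B : Subgroup G) (g : G) :
    phi B g = (Nat.card B : ℤ) * (Nat.card {q : G ⧸ B // g • q = q} : ℤ) := by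
  rw [phi, card_cj_mem, Nat.cast_mul]

/-- `ν_C(g) = 0` unless `C` is cyclic of the same order as `g`. -/
lemma nu_eq_zero_of_card_ne (C : Subgroup G) (g : G) (h : Nat.card C ≠ orderOf g) :
    nu C g = 0 := by
  rw [nu, Nat.cast_eq_zero]
  have : IsEmpty {x : G // zpowers (cj g x) = C} := by
    refine ⟨fun ⟨x, hx⟩ => h ?_⟩
    rw [← hx, Nat.card_zpowers, orderOf_cj]
  exact Nat.card_of_isEmpty

lemma nu_eq_zero_of_not_isCyclic (C : Subgroup G) (g : G) (h : ¬ IsCyclic C) :
    nu C g = 0 := by
  rw [nu, Nat.cast_eq_zero]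
  have : IsEmpty {x : G // zpowers (cj g x) = C} := by
    refine ⟨fun ⟨x, hx⟩ => h ?_⟩
    rw [← hx]
    infer_instance
  exact Nat.card_of_isEmpty

/-- The cyclic subgroups of order prime to `p`. -/
def Good (p : ℕ) (B : Subgroup G) : Prop := IsCyclic B ∧ ¬ p ∣ Nat.card B

lemma good_of_le {p : ℕ} {B C : Subgroup G} (h : B ≤ C) (hC : Good p C) : Good p B := by
  obtain ⟨hc, hp⟩ := hC
  exact ⟨isCyclic_of_le h, fun hd => hp (hd.trans (card_dvd_of_le h))⟩

section Finite

variable [Finite G]

open Classical in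
/-- `φ_C = ∑_{C' ≤ C} ν_{C'}`. -/
lemma phi_eq_sum_nu [Fintype (Subgroup G)] (C : Subgroup G) (g : G) :
    phi C g = ∑ C' ∈ Finset.univ.filter (fun C' : Subgroup G => C' ≤ C), nu C' g := by
  have : Fintype G := Fintype.ofFinite G
  have h1 : Nat.card {x : G // cj g x ∈ C} =
      (Finset.univ.filter (fun x : G => cj g x ∈ C)).card := by
    rw [Nat.card_eq_fintype_card, Fintype.card_subtype]
  have h2 : ∀ C' : Subgroup G, Nat.card {x : G // zpowers (cj g x) = C'} =
      (Finset.univ.filter (fun x : G => zpowers (cj g x) = C')).card := by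
    intro C'
    rw [Nat.card_eq_fintype_card, Fintype.card_subtype]
  have h3 := Finset.card_eq_sum_card_fiberwise (f := fun x : G => zpowers (cj g x))
    (s := Finset.univ.filter (fun x : G => cj g x ∈ C))
    (t := Finset.univ.filter (fun C' : Subgroup G => C' ≤ C))
    (by
      intro x hx
      simp only [Finset.coe_filter, Finset.mem_univ, true_and, Set.mem_ofPred_eq] at hx ⊢
      exact zpowers_le.mpr hx)
  simp only [phi, nu, h1, h2]
  rw [h3, Nat.cast_sum]
  refine Finset.sum_congr rfl fun C' hC' => ?_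
  congr 2
  ext x
  simp only [Finset.mem_filter, Finset.mem_univ, true_and] at hC' ⊢
  constructor
  · rintro ⟨-, h⟩
    exact h
  · intro h
    refine ⟨?_, h⟩
    have : zpowers (cj g x) ≤ C := h ▸ hC'
    exact zpowers_le.mp this

open Classical in
/-- `∑_C ν_C(g) = |G|`. -/
lemma sum_nu [Fintype (Subgroup G)] (g : G) :
    ∑ C : Subgroup G, nu C g = (Nat.card G : ℤ) := by
  have : Fintype G := Fintype.ofFinite G
  have h2 : ∀ C' : Subgroup G, Nat.card {x : G // zpowers (cj g x) = C'} =
      (Finset.univ.filter (fun x : G => zpowers (cj g x) = C')).card := by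
    intro C'
    rw [Nat.card_eq_fintype_card, Fintype.card_subtype]
  have h3 := Finset.card_eq_sum_card_fiberwise (f := fun x : G => zpowers (cj g x))
    (s := (Finset.univ : Finset G)) (t := (Finset.univ : Finset (Subgroup G)))
    (by intro x _; simp)
  simp only [nu, h2]
  rw [← Nat.cast_sum, ← h3, Nat.card_eq_fintype_card, Finset.card_univ]

open Classical in
/-- Every `ν_C`, `C` good, is a `ℤ`-combination of the `φ_B`, `B` good. -/
lemma nu_mem_span (p : ℕ) (C : Subgroup G) (hC : Good p C) :
    (nu C : G → ℤ) ∈ Submodule.span ℤ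
      (Set.range fun B : {B : Subgroup G // Good p B} => (phi B.1 : G → ℤ)) := by
  have : Fintype (Subgroup G) := Fintype.ofFinite _
  induction C using WellFoundedLT.induction with
  | _ C ih =>
    have hphi : (phi C : G → ℤ) ∈ Submodule.span ℤ
        (Set.range fun B : {B : Subgroup G // Good p B} => (phi B.1 : G → ℤ)) :=
      Submodule.subset_span ⟨⟨C, hC⟩, rfl⟩
    have hsum : (nu C : G → ℤ) = phi C -
        ∑ C' ∈ Finset.univ.filter (fun C' : Subgroup G => C' < C), (nu C' : G → ℤ) := by
      funext g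
      rw [Pi.sub_apply, Finset.sum_apply, phi_eq_sum_nu C g]
      have hsplit : Finset.univ.filter (fun C' : Subgroup G => C' ≤ C) =
          insert C (Finset.univ.filter (fun C' : Subgroup G => C' < C)) := by
        ext C'
        simp only [Finset.mem_filter, Finset.mem_univ, true_and, Finset.mem_insert]
        constructor
        · intro h
          rcases h.eq_or_lt with h | h
          · exact Or.inl h
          · exact Or.inr h
        · rintro (h | h)
          · exact h.le
          · exact h.le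
      rw [hsplit, Finset.sum_insert (by simp)]
      ring
    rw [hsum]
    refine Submodule.sub_mem _ hphi (Submodule.sum_mem _ fun C' hC' => ?_)
    simp only [Finset.mem_filter, Finset.mem_univ, true_and] at hC'
    exact ih C' hC' (good_of_le hC'.le hC)

end Finite

open Classical in
/-- **Artin's counting formula** on `p`-regular elements. -/
theorem artinCount : ArtinCountStatement := by
  intro p _ G _ _
  have : Fintype (Subgroup G) := Fintype.ofFinite _
  have : Fintype {B : Subgroup G // Good p B} := Fintype.ofFinite _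
  -- the total `∑_{C good} ν_C` is a combination of the `φ_B`
  have hT : (∑ C : {B : Subgroup G // Good p B}, (nu C.1 : G → ℤ)) ∈ Submodule.span ℤ
      (Set.range fun B : {B : Subgroup G // Good p B} => (phi B.1 : G → ℤ)) :=
    Submodule.sum_mem _ fun C _ => nu_mem_span p C.1 C.2
  obtain ⟨c, hc⟩ := (Submodule.mem_span_range_iff_exists_fun ℤ).mp hT
  refine ⟨Finset.univ.filter (fun B : Subgroup G => Good p B),
    fun B => if h : Good p B then c ⟨B, h⟩ * (Nat.card B : ℤ) else 0, ?_, ?_⟩
  · intro B hB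
    simp only [Finset.mem_filter, Finset.mem_univ, true_and] at hB
    exact hB
  · intro g hg
    have hval := congrFun hc g
    rw [Finset.sum_apply, Finset.sum_apply] at hval
    -- right-hand side: `∑_{C good} ν_C(g) = |G|`
    have hR : ∑ C : {B : Subgroup G // Good p B}, nu C.1 g = (Nat.card G : ℤ) := by
      rw [← sum_nu g]
      rw [← Finset.sum_subtype (p := Good p)
        (Finset.univ.filter (fun B : Subgroup G => Good p B)) (by simp) (fun C => nu C g)]
      rw [Finset.sum_filter]
      refine Finset.sum_congr rfl fun C _ => ?_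
      split_ifs with h
      · rfl
      · by_cases hcyc : IsCyclic C
        · refine (nu_eq_zero_of_card_ne C g ?_).symm
          intro hcard
          exact h ⟨hcyc, by rw [hcard]; exact hg⟩
        · exact (nu_eq_zero_of_not_isCyclic C g hcyc).symm
    rw [← hR, ← hval]
    rw [Finset.sum_subtype (p := Good p) (Finset.univ.filter (fun B : Subgroup G => Good p B))
      (by simp) (fun B => (if h : Good p B then c ⟨B, h⟩ * (Nat.card B : ℤ) else 0) *
        (Nat.card {x : G ⧸ B // g • x = x} : ℤ))]
    refine Finset.sum_congr rfl fun B _ => ?_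
    rw [dif_pos B.2, Pi.smul_apply, smul_eq_mul, phi_eq, mul_assoc]

end Fermat.Agent.S56.Euler.H512

end
-- ===== PACK-END S56/Euler/ArtinH512.lean

-- ===== PACK-BEGIN S56/Euler/H896/HerbCore.lean
section
/-
S56 / W-BASE / leaf EUL-HERB (helper896), part 2: the abstract core (no number theory).

An abelian group `A` with an endomorphism `t`, stable subgroups `U ≤ E`, a "logarithm"
`φ : A → ℝ^X` and an "order map" `ψ : A → ℤ^Y`, with the formal properties of the unit theorem.
Conclusion: the characteristic polynomial of `t` on `E/pE` times `X - 1` is the product of the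
characteristic polynomials on `E[p]` and on the permutation modules `𝔽_p^X`, `𝔽_p^Y`.
-/




set_option autoImplicit false
set_option linter.style.haveILetI false
set_option linter.unusedSimpArgs false
set_option linter.unusedVariables false

namespace Fermat.Agent.S56.Euler.H896

open Polynomial TensorProduct

section Aux

variable {A : Type*} [AddCommGroup A]

/-- Restriction of an additive endomorphism to a stable subgroup, as a `ℤ`-linear map. -/
def resEnd (t : A →+ A) (H : AddSubgroup A) (h : ∀ a ∈ H, t a ∈ H) : ↥H →ₗ[ℤ] ↥H :=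
  ((t.comp H.subtype).codRestrict H (fun x => h x.1 x.2)).toIntLinearMap

@[simp] lemma resEnd_coe (t : A →+ A) (H : AddSubgroup A) (h : ∀ a ∈ H, t a ∈ H) (x : ↥H) :
    ((resEnd t H h x : ↥H) : A) = t x := rfl

/-- A middle term of a short exact sequence of abelian groups with finitely generated ends is
finitely generated. -/
theorem finite_of_exact {A' A A'' : Type*} [AddCommGroup A'] [AddCommGroup A] [AddCommGroup A'']
    [Module.Finite ℤ A'] [Module.Finite ℤ A'']
    (i : A' →ₗ[ℤ] A) (q : A →ₗ[ℤ] A'') (hex : Function.Exact i q) : Module.Finite ℤ A := by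
  haveI : IsNoetherian ℤ A := isNoetherian_of_range_eq_ker i q (LinearMap.exact_iff.mp hex).symm
  infer_instance

variable (p : ℕ) [Fact p.Prime]

/-- Any additive map to an `𝔽_p`-vector space kills the kernel of `a ↦ 1 ⊗ a`. -/
theorem map_eq_zero_of_one_tmul_eq_zero {Q : Type*} [AddCommGroup Q]
    [Module (ZMod p) Q] (π : A →+ Q) (a : A) (h : (1 : ZMod p) ⊗ₜ[ℤ] a = 0) : π a = 0 := by
  let l : ZMod p ⊗[ℤ] A →ₗ[ZMod p] Q :=
    LinearMap.liftBaseChange (ZMod p) π.toIntLinearMap
  have hl : l ((1 : ZMod p) ⊗ₜ[ℤ] a) = π a := by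
    simp [l]
  rw [h, map_zero] at hl
  exact hl.symm

/-- The kernel of `a ↦ 1 ⊗ a : A → 𝔽_p ⊗ A` is `pA`. -/
theorem exists_eq_nsmul_of_one_tmul_eq_zero (a : A) (h : (1 : ZMod p) ⊗ₜ[ℤ] a = 0) :
    ∃ b : A, a = p • b := by
  obtain ⟨H, hH⟩ : ∃ H : AddSubgroup A, H = (nsmulAddMonoidHom (α := A) p).range := ⟨_, rfl⟩
  have hH' : ∀ x : A, p • x ∈ H := fun x => by rw [hH]; exact ⟨x, rfl⟩
  letI inst : Module (ZMod p) (A ⧸ H) := QuotientAddGroup.zmodModule (n := p) (H := H) hH'
  have := map_eq_zero_of_one_tmul_eq_zero p (QuotientAddGroup.mk' H) a h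
  have : a ∈ H := (QuotientAddGroup.eq_zero_iff a).mp this
  rw [hH] at this
  obtain ⟨b, hb⟩ := this
  exact ⟨b, hb.symm⟩

/-- **T4 in `cpMod` form**: for a finite abelian group `M` with endomorphism `f`, any model
`(W, ι, gμ)` of the `p`-torsion `M[p]` computes `cpMod p f`. -/
theorem cpMod_eq_charpoly_of_torsion_model {M : Type*} [AddCommGroup M] [Finite M]
    (f : M →ₗ[ℤ] M)
    {W : Type*} [AddCommGroup W] [Module (ZMod p) W] [Module.Finite (ZMod p) W]
    (gμ : W →ₗ[ZMod p] W) (ι : W →+ M) (hι : Function.Injective ι)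
    (hιr : ∀ a, p • a = 0 → a ∈ ι.range) (hgμ : ∀ w, ι (gμ w) = f (ι w)) :
    cpMod p f = gμ.charpoly := by
  classical
  haveI : Finite W := Finite.of_injective ι hι
  haveI : Finite (ZMod p ⊗[ℤ] M) := Module.finite_of_finite (ZMod p)
  let π : M →+ ZMod p ⊗[ℤ] M :=
    { toFun := fun a => (1 : ZMod p) ⊗ₜ[ℤ] a
      map_zero' := by simp
      map_add' := fun a b => TensorProduct.tmul_add _ _ _ }
  symm
  unfold cpMod
  apply Fermat.Agent.S56.H486.t4_charpoly_torsion_eq_cotorsion p f.toAddMonoidHom gμ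
    (f.baseChange (ZMod p)) ι π hι
  · intro a
    constructor
    · rintro ⟨w, rfl⟩
      rw [← map_nsmul]
      have : p • w = 0 := by
        rw [← Nat.cast_smul_eq_nsmul (ZMod p)]
        simp
      rw [this, map_zero]
    · exact hιr a
  · intro x
    obtain ⟨a, rfl⟩ := exists_one_tmul p x
    exact ⟨a, rfl⟩
  · intro a
    constructor
    · exact exists_eq_nsmul_of_one_tmul_eq_zero p a
    · rintro ⟨b, rfl⟩
      change (1 : ZMod p) ⊗ₜ[ℤ] (p • b) = 0
      rw [← Nat.cast_smul_eq_nsmul ℤ, TensorProduct.tmul_smul, TensorProduct.smul_tmul']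
      simp
  · intro w
    exact hgμ w
  · intro a
    change (1 : ZMod p) ⊗ₜ[ℤ] (f a) = (f.baseChange (ZMod p)) ((1 : ZMod p) ⊗ₜ[ℤ] a)
    rw [LinearMap.baseChange_tmul]

end Aux

/-! ## The two integral identities -/

section Integral

/-- The characteristic polynomial of the identity of `R` is `X - 1`. -/
theorem charpoly_id_self (R : Type*) [CommRing R] [Nontrivial R] :
    (LinearMap.id : R →ₗ[R] R).charpoly = Polynomial.X - 1 := by
  have h := LinearMap.charpoly_one (R := R) (M := R)
  rw [Module.finrank_self, pow_one] at h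
  exact h

/-- **Logarithmic lattice.**  If `Λ = ⊕ ℤ b i` is a lattice in the trace-zero hyperplane of `ℝ^I`,
stable under the permutation `s`, then `charpoly(s | Λ) · (X - 1) = charpoly(s | ℤ^I)`. -/
theorem charpoly_logLattice {I : Type*} [Fintype I] [Nonempty I] (sX : I → I)
    (hsX : Function.Bijective sX)
    (r : ℕ) (b : Fin r → I → ℝ) (hb : LinearIndependent ℝ b)
    (hspan : Submodule.span ℝ (Set.range b) =
      LinearMap.ker (∑ w : I, LinearMap.proj w : (I → ℝ) →ₗ[ℝ] ℝ))
    (hstab : ∀ x ∈ Submodule.span ℤ (Set.range b),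
      ((permLin ℝ sX).restrictScalars ℤ) x ∈ Submodule.span ℤ (Set.range b))
    [Module.Free ℤ ↥(Submodule.span ℤ (Set.range b))]
    [Module.Finite ℤ ↥(Submodule.span ℤ (Set.range b))] :
    (((permLin ℝ sX).restrictScalars ℤ).restrict hstab).charpoly * (Polynomial.X - 1) =
      (permLin ℤ sX).charpoly := by
  classical
  have hSapp : ∀ a : I → ℝ, (∑ w : I, LinearMap.proj w : (I → ℝ) →ₗ[ℝ] ℝ) a = ∑ w, a w := by
    intro a
    simp [LinearMap.sum_apply]
  generalize (∑ w : I, LinearMap.proj w : (I → ℝ) →ₗ[ℝ] ℝ) = S at hspan hSapp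
  have hbℤ : LinearIndependent ℤ b := hb.restrict_scalars' ℤ
  let bΛ : Module.Basis (Fin r) ℤ (Submodule.span ℤ (Set.range b)) := Module.Basis.span hbℤ
  let bW : Module.Basis (Fin r) ℝ (LinearMap.ker S) :=
    (Module.Basis.span hb).map (LinearEquiv.ofEq _ _ hspan)
  have hsum : ∀ a : I → ℝ, S (permLin ℝ sX a) = S a := by
    intro a
    rw [hSapp, hSapp]
    exact Function.Bijective.sum_comp hsX a
  have hstabW : ∀ x ∈ LinearMap.ker S, permLin ℝ sX x ∈ LinearMap.ker S := by
    intro x hx
    rw [LinearMap.mem_ker] at hx ⊢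
    rw [hsum, hx]
  have hΛW : ∀ x : (Submodule.span ℤ (Set.range b)), (x : I → ℝ) ∈ LinearMap.ker S := by
    intro x
    rw [← hspan]
    exact Submodule.span_subset_span ℤ ℝ _ x.2
  let j : (Submodule.span ℤ (Set.range b)) →ₗ[ℤ] (LinearMap.ker S) :=
    { toFun := fun x => ⟨x.1, hΛW x⟩
      map_add' := fun x y => rfl
      map_smul' := fun c x => by
        apply Subtype.ext
        simp }
  have hj : ∀ i, j (bΛ i) = bW i := by
    intro i
    apply Subtype.ext
    change ((Module.Basis.span hbℤ i : Submodule.span ℤ (Set.range b)) : I → ℝ) =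
      (((Module.Basis.span hb).map (LinearEquiv.ofEq _ _ hspan) i : LinearMap.ker S) : I → ℝ)
    rw [Module.Basis.span_apply, Module.Basis.map_apply]
    change b i = ((Module.Basis.span hb i : Submodule.span ℝ (Set.range b)) : I → ℝ)
    rw [Module.Basis.span_apply]
  have e1 := charpoly_map_of_basis bΛ bW j hj
    (((permLin ℝ sX).restrictScalars ℤ).restrict hstab) ((permLin ℝ sX).restrict hstabW)
    (fun x => rfl)
  have hSsurj : Function.Surjective S := by
    intro c
    obtain ⟨x₀⟩ := ‹Nonempty I›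
    refine ⟨Pi.single x₀ c, ?_⟩
    rw [hSapp]
    simp
  have e2 := charpoly_of_exact (LinearMap.ker S).subtype S (Submodule.injective_subtype _) hSsurj
    (by
      rw [LinearMap.exact_iff]
      simp)
    ((permLin ℝ sX).restrict hstabW) (permLin ℝ sX) LinearMap.id (fun x => rfl) hsum
  rw [charpoly_id_self] at e2
  have e3 := permLin_charpoly_map ℤ ℝ sX
  apply Polynomial.map_injective (algebraMap ℤ ℝ) (by
    intro a b hab
    exact_mod_cast hab)
  rw [Polynomial.map_mul, ← e1, ← e3, e2]
  simp

/-- **Order lattice.**  A permutation-stable sublattice of finite index of `ℤ^Y` has the same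
characteristic polynomial as `ℤ^Y`. -/
theorem charpoly_finiteIndex {J : Type*} [Fintype J] (sY : J → J)
    (Λ : Submodule ℤ (J → ℤ)) (hidx : Λ.toAddSubgroup.index ≠ 0)
    (hstab : ∀ x ∈ Λ, permLin ℤ sY x ∈ Λ) :
    ((permLin ℤ sY).restrict hstab).charpoly = (permLin ℤ sY).charpoly := by
  classical
  set m : ℕ := Λ.toAddSubgroup.index with hm
  have hmem : ∀ x : J → ℤ, (m : ℤ) • x ∈ Λ := by
    intro x
    have := AddSubgroup.nsmul_index_mem Λ.toAddSubgroup x
    rw [← hm] at this
    rw [Nat.cast_smul_eq_nsmul ℤ]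
    exact this
  let k : (J → ℤ) →ₗ[ℤ] Λ :=
    LinearMap.codRestrict Λ ((m : ℤ) • (LinearMap.id : (J → ℤ) →ₗ[ℤ] (J → ℤ))) hmem
  apply charpoly_eq_of_isogeny Λ.subtype k (m : ℤ) (by exact_mod_cast hidx)
  · intro x
    rfl
  · intro x
    apply Subtype.ext
    rfl
  · intro x
    rfl

end Integral

/-! ## The core theorem -/

section Core

variable {A : Type*} [AddCommGroup A]

/-- **HERB, abstract core.** -/
theorem herb_core
    (t : A →+ A) (U E : AddSubgroup A)
    (hU : ∀ a ∈ U, t a ∈ U) (hE : ∀ a ∈ E, t a ∈ E)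
    {I J : Type*} [Fintype I] [Nonempty I] [Fintype J]
    (sX : I → I) (hsX : Function.Bijective sX) (sY : J → J)
    (φ : A →+ (I → ℝ)) (hφ : ∀ a, φ (t a) = fun x => φ a (sX x))
    (hφfin : Finite ↥(φ.ker ⊓ U))
    (r : ℕ) (b : Fin r → I → ℝ) (hb : LinearIndependent ℝ b)
    (hspan : Submodule.span ℝ (Set.range b) =
      LinearMap.ker (∑ w : I, LinearMap.proj w : (I → ℝ) →ₗ[ℝ] ℝ))
    (hUφ : U.map φ = (Submodule.span ℤ (Set.range b)).toAddSubgroup)
    (ψ : A →+ (J → ℤ)) (hψ : ∀ a, ψ (t a) = fun y => ψ a (sY y))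
    (hker : ψ.ker ⊓ E = U) (hidx : (E.map ψ).index ≠ 0)
    (p : ℕ) [Fact p.Prime]
    {V : Type*} [AddCommGroup V] [Module (ZMod p) V] [Module.Finite (ZMod p) V]
    (g : V →ₗ[ZMod p] V) (π : ↥E →+ V) (hπ : Function.Surjective π)
    (hπk : ∀ a, π a = 0 → ∃ b, a = p • b)
    (hg : ∀ a b : ↥E, (b : A) = t a → π b = g (π a))
    {W : Type*} [AddCommGroup W] [Module (ZMod p) W] [Module.Finite (ZMod p) W]
    (gμ : W →ₗ[ZMod p] W) (ι : W →+ A) (hι : Function.Injective ι)
    (hιr : ∀ a, a ∈ ι.range ↔ a ∈ E ∧ p • a = 0)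
    (hgμ : ∀ w, ι (gμ w) = t (ι w)) :
    g.charpoly * (Polynomial.X - 1) =
      gμ.charpoly * (permLin (ZMod p) sX).charpoly * (permLin (ZMod p) sY).charpoly := by
  classical
  -- the subgroups
  obtain ⟨μ, hμdef⟩ : ∃ μ : AddSubgroup A, μ = φ.ker ⊓ U := ⟨_, rfl⟩
  have hμmem : ∀ a, a ∈ μ ↔ φ a = 0 ∧ a ∈ U := by
    intro a
    rw [hμdef, AddSubgroup.mem_inf, AddMonoidHom.mem_ker]
  have hUmem : ∀ a, a ∈ U ↔ ψ a = 0 ∧ a ∈ E := by
    intro a
    rw [← hker, AddSubgroup.mem_inf, AddMonoidHom.mem_ker]
  have hμU : μ ≤ U := fun a ha => ((hμmem a).1 ha).2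
  have hUE : U ≤ E := fun a ha => ((hUmem a).1 ha).2
  have hμ : ∀ a ∈ μ, t a ∈ μ := by
    intro a ha
    obtain ⟨ha1, ha2⟩ := (hμmem a).1 ha
    refine (hμmem _).2 ⟨?_, hU a ha2⟩
    rw [hφ, ha1]
    rfl
  haveI : Finite ↥μ := by rw [hμdef]; exact hφfin
  -- the lattice `Λ = φ(U)`
  obtain ⟨Λ, hΛdef⟩ : ∃ Λ : Submodule ℤ (I → ℝ), Λ = Submodule.span ℤ (Set.range b) := ⟨_, rfl⟩
  have hΛmem : ∀ x, x ∈ Λ ↔ ∃ u ∈ U, φ u = x := by
    intro x
    rw [hΛdef, ← Submodule.mem_toAddSubgroup, ← hUφ]
    rfl
  have hstabΛ : ∀ x ∈ Λ, ((permLin ℝ sX).restrictScalars ℤ) x ∈ Λ := by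
    intro x hx
    obtain ⟨u, hu, rfl⟩ := (hΛmem x).1 hx
    exact (hΛmem _).2 ⟨t u, hU u hu, by rw [hφ]; rfl⟩
  haveI : Module.Free ℤ Λ := by
    rw [hΛdef]
    exact Module.Free.of_basis (Module.Basis.span (hb.restrict_scalars' ℤ))
  haveI : Module.Finite ℤ Λ := by
    rw [hΛdef]
    exact Module.Finite.span_of_finite ℤ (Set.finite_range b)
  -- the lattice `ΛE = ψ(E)`
  obtain ⟨ΛE, hΛEdef⟩ : ∃ ΛE : Submodule ℤ (J → ℤ), ΛE = AddSubgroup.toIntSubmodule (E.map ψ) :=
    ⟨_, rfl⟩
  have hΛEmem : ∀ x, x ∈ ΛE ↔ ∃ u ∈ E, ψ u = x := by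
    intro x
    rw [hΛEdef]
    rfl
  have hstabΛE : ∀ x ∈ ΛE, permLin ℤ sY x ∈ ΛE := by
    intro x hx
    obtain ⟨u, hu, rfl⟩ := (hΛEmem x).1 hx
    exact (hΛEmem _).2 ⟨t u, hE u hu, by rw [hψ]; rfl⟩
  have hΛEidx : ΛE.toAddSubgroup.index ≠ 0 := by
    rw [hΛEdef]
    exact hidx
  -- the maps
  let iμ : ↥μ →ₗ[ℤ] ↥U := (AddSubgroup.inclusion hμU).toIntLinearMap
  let qU : ↥U →ₗ[ℤ] ↥Λ :=
    { toFun := fun u => ⟨φ u, (hΛmem _).2 ⟨u, u.2, rfl⟩⟩
      map_add' := fun x y => by
        apply Subtype.ext
        simp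
      map_smul' := fun c x => by
        apply Subtype.ext
        simp }
  let iU : ↥U →ₗ[ℤ] ↥E := (AddSubgroup.inclusion hUE).toIntLinearMap
  let qE : ↥E →ₗ[ℤ] ↥ΛE :=
    { toFun := fun u => ⟨ψ u, (hΛEmem _).2 ⟨u, u.2, rfl⟩⟩
      map_add' := fun x y => by
        apply Subtype.ext
        simp
      map_smul' := fun c x => by
        apply Subtype.ext
        simp }
  have hiμ : Function.Injective iμ := AddSubgroup.inclusion_injective hμU
  have hiU : Function.Injective iU := AddSubgroup.inclusion_injective hUE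
  have hqU : Function.Surjective qU := by
    rintro ⟨x, hx⟩
    obtain ⟨u, hu, rfl⟩ := (hΛmem x).1 hx
    exact ⟨⟨u, hu⟩, rfl⟩
  have hqE : Function.Surjective qE := by
    rintro ⟨x, hx⟩
    obtain ⟨u, hu, rfl⟩ := (hΛEmem x).1 hx
    exact ⟨⟨u, hu⟩, rfl⟩
  have hexU : Function.Exact iμ qU := by
    intro u
    constructor
    · intro h
      have h' : φ (u : A) = 0 := congrArg Subtype.val h
      exact ⟨⟨u.1, (hμmem _).2 ⟨h', u.2⟩⟩, rfl⟩
    · rintro ⟨m, rfl⟩
      apply Subtype.ext
      exact ((hμmem _).1 m.2).1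
  have hexE : Function.Exact iU qE := by
    intro u
    constructor
    · intro h
      have h' : ψ (u : A) = 0 := congrArg Subtype.val h
      exact ⟨⟨u.1, (hUmem _).2 ⟨h', u.2⟩⟩, rfl⟩
    · rintro ⟨m, rfl⟩
      apply Subtype.ext
      exact ((hUmem _).1 m.2).1
  -- finiteness
  haveI : Module.Finite ℤ ↥μ := Module.Finite.of_finite
  haveI : Module.Finite ℤ ↥U := finite_of_exact iμ qU hexU
  haveI : Module.Finite ℤ ↥ΛE := inferInstance
  haveI : Module.Free ℤ ↥ΛE := inferInstance
  haveI : Module.Finite ℤ ↥E := finite_of_exact iU qE hexE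
  -- the chain of identities mod `p`
  have c1 : g.charpoly = cpMod p (resEnd t E hE) :=
    charpoly_eq_cpMod_of_model p (resEnd t E hE) g π hπ hπk (fun a => hg a _ rfl)
  have c2 : cpMod p (resEnd t E hE) =
      cpMod p (resEnd t U hU) * cpMod p ((permLin ℤ sY).restrict hstabΛE) :=
    cpMod_of_exact p iU qE hiU hqE hexE (resEnd t U hU) (resEnd t E hE)
      ((permLin ℤ sY).restrict hstabΛE) (fun x => rfl)
      (fun x => by
        apply Subtype.ext
        change ψ (t x) = _
        rw [hψ]
        rfl)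
  have c3 : cpMod p (resEnd t U hU) =
      cpMod p (resEnd t μ hμ) * cpMod p (((permLin ℝ sX).restrictScalars ℤ).restrict hstabΛ) :=
    cpMod_of_exact p iμ qU hiμ hqU hexU (resEnd t μ hμ) (resEnd t U hU)
      (((permLin ℝ sX).restrictScalars ℤ).restrict hstabΛ) (fun x => rfl)
      (fun x => by
        apply Subtype.ext
        change φ (t x) = _
        rw [hφ]
        rfl)
  -- the torsion part
  have hιμ : ∀ w, ι w ∈ μ := by
    intro w
    obtain ⟨hwE, hwp⟩ := (hιr (ι w)).1 ⟨w, rfl⟩
    have h1 : ψ (ι w) = 0 := by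
      have : p • ψ (ι w) = 0 := by rw [← map_nsmul, hwp, map_zero]
      have hp0 : (p : ℤ) ≠ 0 := by exact_mod_cast (Fact.out : p.Prime).ne_zero
      funext y
      have := congrFun this y
      simp only [Pi.smul_apply, Pi.zero_apply, smul_eq_mul, nsmul_eq_mul] at this
      rcases mul_eq_zero.mp this with h | h
      · exact absurd h hp0
      · exact h
    have h2 : φ (ι w) = 0 := by
      have : p • φ (ι w) = 0 := by rw [← map_nsmul, hwp, map_zero]
      have hp0 : (p : ℝ) ≠ 0 := by exact_mod_cast (Fact.out : p.Prime).ne_zero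
      funext y
      have := congrFun this y
      simp only [Pi.smul_apply, Pi.zero_apply, nsmul_eq_mul] at this
      rcases mul_eq_zero.mp this with h | h
      · exact absurd h hp0
      · exact h
    exact (hμmem _).2 ⟨h2, (hUmem _).2 ⟨h1, hwE⟩⟩
  let ι' : W →+ ↥μ := ι.codRestrict μ hιμ
  have c4 : cpMod p (resEnd t μ hμ) = gμ.charpoly := by
    apply cpMod_eq_charpoly_of_torsion_model p (resEnd t μ hμ) gμ ι'
    · intro x y hxy
      exact hι (congrArg Subtype.val hxy)
    · intro a ha
      have ha' : p • (a : A) = 0 := by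
        have := congrArg Subtype.val ha
        simpa using this
      obtain ⟨w, hw⟩ := (hιr (a : A)).2 ⟨hUE (hμU a.2), ha'⟩
      exact ⟨w, Subtype.ext hw⟩
    · intro w
      apply Subtype.ext
      exact hgμ w
  -- the integral identities
  have z1 : (((permLin ℝ sX).restrictScalars ℤ).restrict hstabΛ).charpoly * (Polynomial.X - 1) =
      (permLin ℤ sX).charpoly := by
    subst hΛdef
    exact charpoly_logLattice sX hsX r b hb hspan hstabΛ
  have z2 : ((permLin ℤ sY).restrict hstabΛE).charpoly = (permLin ℤ sY).charpoly :=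
    charpoly_finiteIndex sY ΛE hΛEidx hstabΛE
  -- assembly
  rw [c1, c2, c3, c4, cpMod_free, cpMod_free, z2, permLin_charpoly_map ℤ (ZMod p) sX,
    permLin_charpoly_map ℤ (ZMod p) sY, ← z1, Polynomial.map_mul]
  have hX : ((Polynomial.X - 1 : ℤ[X])).map (algebraMap ℤ (ZMod p)) = Polynomial.X - 1 := by
    simp
  rw [hX]
  have hcast : (Int.castRingHom (ZMod p)) = algebraMap ℤ (ZMod p) := rfl
  rw [hcast]
  ring

end Core

end Fermat.Agent.S56.Euler.H896

end
-- ===== PACK-END S56/Euler/H896/HerbCore.lean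

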