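import Mathlib
import Mathlib.Algebra.Module.ZLattice.Basic
import Fermat.Agent.Pack.S56.E5L2
import Fermat.Agent.Pack.S56.E3L3
import Fermat.Agent.Pack.S56.E5L3
import Fermat.Agent.Pack.S56.E1L2
import Fermat.Agent.Pack.S56.E5L0
import Fermat.Agent.Pack.S56.E4L3
import Fermat.Agent.Pack.S56.E6L2
import Fermat.Agent.Pack.S56.E2L0
import Fermat.Agent.Pack.S56.E6L0
import Fermat.Agent.Pack.S56.E6L3
import Fermat.Agent.Pack.S56.E2L1
import Fermat.Agent.Pack.S56.E4L2
import Fermat.Agent.Pack.S56.E0L0
import Fermat.Agent.Pack.S56.E4L0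
import Fermat.Agent.Pack.S56.E1L0

-- ===== PACK-BEGIN S55/Local/H593/CycCocycleA4d.lean
section


/-!
# S55, layer L, piece A4d: pull-back of the standard cyclic 2-cocycle

Deliverable: `Fermat.Agent.S55.Local.H593.cycCocycle_pullback :
  Fermat.Agent.S55.Local.CycCocyclePullbackStatement`.
-/

set_option autoImplicit false

namespace Fermat.Agent.S55.Local.H593

open groupCohomology Fermat.Agent.S55.Local

/-- Discrete logarithms along an injective homomorphism `ρ : H → G` of finite cyclic groups with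
`ρ τ = σ ^ (|G| / |H|)`: `cycIdx σ (ρ a) = (|G| / |H|) * cycIdx τ a`. -/
lemma cycIdx_map {G H : Type} [Group G] [Finite G] [Group H] [Finite H] {σ : G} {τ : H}
    (ρ : H →* G) (hσ : ∀ g, g ∈ Subgroup.zpowers σ) (hτ : ∀ h, h ∈ Subgroup.zpowers τ)
    (hinj : Function.Injective ρ) (hρ : ρ τ = σ ^ (Nat.card G / Nat.card H)) (a : H) :
    cycIdx σ (ρ a) = Nat.card G / Nat.card H * cycIdx τ a := by
  have hdvd : Nat.card H ∣ Nat.card G := Subgroup.card_dvd_of_injective ρ hinj
  have hHpos : 0 < Nat.card H := Nat.card_pos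
  have hlt : cycIdx τ a < Nat.card H := cycIdx_lt_card hτ a
  have h1 : ρ a = σ ^ (Nat.card G / Nat.card H * cycIdx τ a) := by
    conv_lhs => rw [← pow_cycIdx hτ a]
    rw [map_pow, hρ, ← pow_mul]
  rw [h1, cycIdx_pow hσ]
  apply Nat.mod_eq_of_lt
  calc Nat.card G / Nat.card H * cycIdx τ a
      < Nat.card G / Nat.card H * Nat.card H := by
        apply Nat.mul_lt_mul_of_pos_left hlt
        exact Nat.div_pos (Nat.le_of_dvd Nat.card_pos hdvd) hHpos
    _ = Nat.card G := Nat.div_mul_cancel hdvd

/-- **(A4d)** Functoriality of the standard cyclic cocycle under an injective homomorphism of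
cyclic groups. -/
theorem cycCocycle_pullback : CycCocyclePullbackStatement := by
  intro G H M _ _ _ _ _ σ τ ρ hσ hτ hinj hρ x p
  have hdvd : Nat.card H ∣ Nat.card G := Subgroup.card_dvd_of_injective ρ hinj
  have hHpos : 0 < Nat.card H := Nat.card_pos
  have hdpos : 0 < Nat.card G / Nat.card H :=
    Nat.div_pos (Nat.le_of_dvd Nat.card_pos hdvd) hHpos
  simp only [cycCocycle]
  rw [cycIdx_map ρ hσ hτ hinj hρ, cycIdx_map ρ hσ hτ hinj hρ, ← Nat.mul_add]
  congr 1
  have hn : Nat.card G = Nat.card G / Nat.card H * Nat.card H := (Nat.div_mul_cancel hdvd).symm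
  generalize Nat.card G / Nat.card H = d at hn hdpos ⊢
  rw [hn]
  exact Nat.mul_div_mul_left _ _ hdpos

end Fermat.Agent.S55.Local.H593

end
-- ===== PACK-END S55/Local/H593/CycCocycleA4d.lean

-- ===== PACK-BEGIN S55/Local/H585/LF6.lean
section



/-!
# S55, layer L, piece LF6 (helper585): higher unit groups have finite index
-/

set_option autoImplicit false
set_option linter.unusedSectionVars false

namespace Fermat.Agent.S55.Local.H585

open IsLocalRing

section

variable (A F : Type) [CommRing A] [IsDomain A] [IsDiscreteValuationRing A]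
    [IsAdicComplete (IsLocalRing.maximalIdeal A) A] [Finite (IsLocalRing.ResidueField A)]
    [Field F] [CharZero F] [Algebra A F] [IsFractionRing A F]
    (L : Type) [Field L] [Algebra F L] [FiniteDimensional F L]
    [Algebra A L] [IsScalarTower A F L]

theorem relIndex_higherUnits_ne_zero (ϖ : L) (hϖ : IsInt A F L ϖ) (h0 : ϖ ≠ 0) (j : ℕ) :
    (higherUnits A F L ϖ j).relIndex (intUnits A F L) ≠ 0 := by
  set ϖB : integralClosure A L := ⟨ϖ, isInt_iff_mem.mp hϖ⟩ with hϖB
  have hϖB0 : ϖB ≠ 0 := fun h => h0 (congrArg Subtype.val h)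
  have hfin : Finite (integralClosure A L ⧸ Ideal.span {ϖB ^ j}) := by
    apply finite_quotient_int A F L
    rw [Ne, Ideal.span_singleton_eq_bot]
    exact pow_ne_zero _ hϖB0
  have h1 : higherUnits A F L ϖ j = _ := higherUnits_eq_map (F := F) ϖB j
  rw [h1, intUnits_eq_map_top, Subgroup.relIndex_map_map_of_injective _ _ unitsIncB_injective,
    Subgroup.relIndex_top_right, Subgroup.index_ker]
  exact Nat.card_pos.ne'

end

/-- (LF6) higher unit groups have finite index in the unit group. -/
theorem higherUnitsFiniteIndex : HigherUnitsFiniteIndexStatement := by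
  intro A F _ _ _ _ _ _ _ _ _ L _ _ _ ϖ hϖ h0 j
  let _ : Algebra A L := (toL A F L).toAlgebra
  have : IsScalarTower A F L := IsScalarTower.of_algebraMap_eq (fun _ => rfl)
  exact relIndex_higherUnits_ne_zero A F L ϖ hϖ h0 j

end Fermat.Agent.S55.Local.H585

end
-- ===== PACK-END S55/Local/H585/LF6.lean

-- ===== PACK-BEGIN S55/L/H661/UR4.lean
section



/-!
# UR4 : `Fermat.Agent.S55.Local.UnramNormUnitsStatement`

In an unramified extension of local fields every unit of `K` is the norm of a unit of `L`.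
(helper715's frozen interface, exact statement.)
-/

set_option linter.unusedSectionVars false
set_option linter.style.haveILetI false

namespace Fermat.Agent.S55.L.H661

open IsLocalRing Fermat.Agent.S55.Local

/-- **UR4** (exact frozen statement). -/
theorem unramNormUnits : Fermat.Agent.S55.Local.UnramNormUnitsStatement := by
  intro A F _ _ _ _ _ _ _ _ _ K _ _ _ L _ _ _ _ _ _ hunr u hu
  -- algebra structures over `A`
  letI algAK : Algebra A K := (toL A F K).toAlgebra
  haveI towAFK : IsScalarTower A F K := IsScalarTower.of_algebraMap_eq (fun _ => rfl)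
  letI algAL : Algebra A L := (toL A F L).toAlgebra
  haveI towAFL : IsScalarTower A F L := IsScalarTower.of_algebraMap_eq (fun _ => rfl)
  haveI towAKL : IsScalarTower A K L := IsScalarTower.of_algebraMap_eq (fun a => by
    change algebraMap F L (algebraMap A F a) = algebraMap K L (algebraMap F K (algebraMap A F a))
    rw [← IsScalarTower.algebraMap_apply F K L])
  haveI : CharZero K := charZero_of_injective_algebraMap (algebraMap F K).injective
  haveI : CharZero L := charZero_of_injective_algebraMap (algebraMap F L).injective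
  -- the ring of integers of `K`
  haveI hRloc : IsLocalRing (integralClosure A K) :=
    intClosure_isLocalRing A F K (integralClosure A K)
  haveI hRdvr : IsDiscreteValuationRing (integralClosure A K) :=
    intClosure_isDVR A F K (integralClosure A K)
  haveI hRcomp : IsAdicComplete (maximalIdeal (integralClosure A K)) (integralClosure A K) :=
    intClosure_isAdicComplete A F K (integralClosure A K)
  haveI hRfin : Finite (ResidueField (integralClosure A K)) :=
    intClosure_finite_residueField A F K (integralClosure A K)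
  haveI hRfrac : IsFractionRing (integralClosure A K) K :=
    intClosure_isFractionRing A F K (integralClosure A K)
  haveI hRint : Algebra.IsIntegral A (integralClosure A K) :=
    intClosure_isIntegral A F K (integralClosure A K)
  -- integrality over `A` and over the ring of integers of `K` agree
  have hint : ∀ x : L, IsIntegral (integralClosure A K) x ↔ IsInt A F L x := by
    intro x
    constructor
    · intro hx
      exact isIntegral_trans (R := A) (A := integralClosure A K) x hx
    · intro hx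
      exact IsIntegral.tower_top (R := A) (A := integralClosure A K) hx
  -- the unramifiedness hypothesis
  have hunr' : ∀ x : Lˣ, ∃ y : Kˣ,
      IsIntegral (integralClosure A K) ((x : L) * (algebraMap K L (y : K))⁻¹) ∧
      IsIntegral (integralClosure A K) ((algebraMap K L (y : K)) * ((x⁻¹ : Lˣ) : L)) := by
    intro x
    obtain ⟨y, hy⟩ := hunr x
    rw [mem_intUnits] at hy
    refine ⟨y, (hint _).mpr ?_, (hint _).mpr ?_⟩
    · have := hy.1
      simpa [unitsIncl, Units.val_inv_eq_inv_val] using this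
    · have := hy.2
      simpa [unitsIncl, Units.val_inv_eq_inv_val, mul_comm] using this
  -- the unit `u` of the ring of integers of `K`
  rw [mem_intUnits] at hu
  let u₀ : integralClosure A K := ⟨(u : K), hu.1⟩
  let u₁ : integralClosure A K := ⟨((u⁻¹ : Kˣ) : K), hu.2⟩
  have hu01 : u₀ * u₁ = 1 := Subtype.ext (by change (u : K) * ((u⁻¹ : Kˣ) : K) = 1; simp)
  have hu10 : u₁ * u₀ = 1 := by rw [mul_comm]; exact hu01
  let uR : (integralClosure A K)ˣ := ⟨u₀, u₁, hu01, hu10⟩
  obtain ⟨w, hw1, hw2, hw3⟩ :=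
    exists_unit_norm_eq_of_isUnram (integralClosure A K) K L hunr' uR
  refine ⟨w, ?_, ?_⟩
  · rw [mem_intUnits]
    exact ⟨(hint _).mp hw1, (hint _).mp hw2⟩
  · apply Units.ext
    rw [normUnits_coe, hw3]
    rfl

end Fermat.Agent.S55.L.H661

end
-- ===== PACK-END S55/L/H661/UR4.lean

-- ===== PACK-BEGIN S55/H295/Shift.lean
section



/-!
# Cohomological triviality, part 1: upward dimension shifting

For `A : Rep k G` we embed `A` into `coindBot A = coind_1^G(A)` (all functions `G → A`, with
`G` acting by right translation) via `a ↦ (x ↦ ρ(x) a)` and let `up A` be the cokernel.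
Since `coindBot A` is acyclic for every subgroup (Shapiro; `helper572`), we get
`Hⁿ⁺¹(H, A) = 0 ↔ Hⁿ(H, up A) = 0` for `n ≥ 1` and every injective `f : H →* G`.
-/

set_option autoImplicit false

open CategoryTheory groupCohomology Rep Limits

universe u

namespace Fermat.Agent.S55.H295

open Fermat.Agent.S55.H572

noncomputable section

variable {k G : Type u} [CommRing k] [Group G]

/-- The coefficient module of `coindBot`. -/
abbrev botRes (A : Rep.{u} k G) : Rep.{u} k (⊥ : Subgroup G) := res (⊥ : Subgroup G).subtype A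

/-- `coind_1^G(A)`: all functions `G → A`, with `G` acting by right translation. -/
abbrev coindBot (A : Rep.{u} k G) : Rep.{u} k G := coind (⊥ : Subgroup G).subtype (botRes A)

/-- The canonical embedding `A → coind_1^G(A)`, `a ↦ (x ↦ ρ(x) a)`. -/
def upι (A : Rep.{u} k G) : A ⟶ coindBot A :=
  Rep.ofHom
    { toFun := fun a => mkCoind (botRes A) (fun x => A.ρ x a)
      map_add' := fun a b => by
        apply Subtype.ext
        funext x
        exact map_add (A.ρ x) a b
      map_smul' := fun r a => by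
        apply Subtype.ext
        funext x
        exact map_smul (A.ρ x) r a
      isIntertwining' := fun g => by
        apply LinearMap.ext
        intro a
        apply Subtype.ext
        funext x
        change A.ρ x (A.ρ g a) = A.ρ (x * g) a
        rw [map_mul]
        rfl }

lemma upι_apply_coe (A : Rep.{u} k G) (a : A) (x : G) :
    ((upι A).hom a).1 x = A.ρ x a := rfl

lemma upι_injective (A : Rep.{u} k G) : Function.Injective (upι A).hom := by
  intro a b h
  have h1 : ((upι A).hom a).1 1 = ((upι A).hom b).1 1 := by rw [h]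
  rw [upι_apply_coe, upι_apply_coe, map_one] at h1
  exact h1

instance (A : Rep.{u} k G) : Mono (upι A) := (Rep.mono_iff_injective _).2 (upι_injective A)

/-- The short exact sequence `0 → A → coind_1^G(A) → up A → 0`. -/
def upSES (A : Rep.{u} k G) : ShortComplex (Rep.{u} k G) :=
  ShortComplex.mk (upι A) (cokernel.π (upι A)) (cokernel.condition _)

/-- The upward shift `A⁺ = coind_1^G(A) / A`. -/
abbrev up (A : Rep.{u} k G) : Rep.{u} k G := (upSES A).X₃

lemma upSES_shortExact (A : Rep.{u} k G) : (upSES A).ShortExact where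
  exact := ShortComplex.exact_cokernel (upι A)
  mono_f := inferInstanceAs (Mono (upι A))
  epi_g := inferInstanceAs (Epi (cokernel.π (upι A)))

/-- `coind_1^G(A)` is acyclic. -/
theorem isZero_H_coindBot (A : Rep.{u} k G) (n : ℕ) :
    IsZero (groupCohomology (coindBot A) (n + 1)) :=
  IsZero.of_iso (isZero_groupCohomology_succ_of_subsingleton (botRes A) n)
    (groupCohomology.coindIso (botRes A) (n + 1))

/-- `coind_1^G(A)` is acyclic on every subgroup, in hom-form. -/
theorem isZero_H_res_coindBot {H : Type u} [Group H] (f : H →* G) (hf : Function.Injective f)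
    (A : Rep.{u} k G) (n : ℕ) :
    IsZero (groupCohomology (res f (coindBot A)) (n + 1)) :=
  isZero_res_of_range f hf _ _ (isZero_groupCohomology_res_coind_bot f.range (botRes A) n)

/-- The restriction of the shifting sequence. -/
lemma upSES_res_shortExact {H : Type u} [Group H] (f : H →* G) (A : Rep.{u} k G) :
    ((upSES A).map (resFunctor f)).ShortExact :=
  (Rep.shortExact_res f).2 (upSES_shortExact A)

/-- Dimension shifting, upward: `Hⁿ⁺²(H, A) = 0 ↔ Hⁿ⁺¹(H, A⁺) = 0`. -/
theorem isZero_H_up_iff {H : Type u} [Group H] (f : H →* G) (hf : Function.Injective f)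
    (A : Rep.{u} k G) (n : ℕ) :
    IsZero (groupCohomology (res f (_root_.Fermat.Agent.S55.H295.up A)) (n + 1)) ↔
      IsZero (groupCohomology (res f A) (n + 2)) := by
  constructor
  · intro h
    exact isZero_H_left (upSES_res_shortExact f A) (n + 1) h (isZero_H_res_coindBot f hf A (n + 1))
  · intro h
    exact isZero_H_right (upSES_res_shortExact f A) (n + 1) (isZero_H_res_coindBot f hf A n) h

/-- Dimension shifting for the group itself. -/
theorem isZero_H_up_iff_self (A : Rep.{u} k G) (n : ℕ) :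
    IsZero (groupCohomology (_root_.Fermat.Agent.S55.H295.up A) (n + 1)) ↔ IsZero (groupCohomology A (n + 2)) := by
  constructor
  · intro h
    exact isZero_H_left (upSES_shortExact A) (n + 1) h (isZero_H_coindBot A (n + 1))
  · intro h
    exact isZero_H_right (upSES_shortExact A) (n + 1) (isZero_H_coindBot A n) h

end

end Fermat.Agent.S55.H295

end
-- ===== PACK-END S55/H295/Shift.lean

-- ===== PACK-BEGIN S55/G/Spec1b.lean
section
/-
S55 (Poitou–Tate), layer G — INTERFACE, part 1b (additions to `Spec.lean`, which is frozen).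
Sub-architect: helper421.   No `sorry`.

* `FirstInequalityCycSpec` : first inequality for cyclic groups of arbitrary ODD order
  (consumer: REC (R2), helper1; producer: G-FI, helper895).
* `CyclicPowSpec`          : cyclic layers of degree `p^k`: `H¹ = 0`, `|H²| = p^k`.
* `SIndepSpec`             : independence of `S` (REC (O5)): for `S ⊆ S'` and `L/L^G` unramified
  outside `S`, the natural map `C_{S'}(L) → C_S(L)` induces isomorphisms on `Hⁿ(H, -)`, `n ≥ 1`.
-/



set_option autoImplicit false

open scoped NumberField TensorProduct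
open IsDedekindDomain CategoryTheory groupCohomology

noncomputable section

namespace Fermat.Agent.S55.G

/-- **G-FIc (first inequality, cyclic of odd order).**  Let `G` be a cyclic group of odd order
`n` acting faithfully on the number field `L`, `S ≠ ∅`.  Then `H¹(G, C_S(L))`, `H²(G, C_S(L))`
are finite and `|H²(G, C_S(L))| = n · |H¹(G, C_S(L))|`.   NO ramification hypothesis. -/
def FirstInequalityCycSpec : Prop :=
  ∀ (n : ℕ), Odd n →
  ∀ (S : Finset Nat.Primes) (G L : Type) [Group G] [Finite G] [IsCyclic G] [Field L]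
    [NumberField L] [MulSemiringAction G L] [FaithfulSMul G L],
    S.Nonempty → Nat.card G = n →
    Finite (groupCohomology (CRep S G L) 1) ∧ Finite (groupCohomology (CRep S G L) 2) ∧
    Nat.card (groupCohomology (CRep S G L) 2) = n * Nat.card (groupCohomology (CRep S G L) 1)

/-- `FirstInequalityCycSpec` contains `FirstInequalitySpec`. -/
theorem firstInequality_of_cyc (h : FirstInequalityCycSpec) : FirstInequalitySpec := by
  intro p hp hp2 S G L _ _ _ _ _ _ hS hcard
  have : IsCyclic G := isCyclic_of_prime_card (p := p) hcard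
  exact h p (hp.out.odd_of_ne_two hp2) S G L hS hcard

/-- **G-CYCp.**  Let `p` be an odd prime, `p ∈ S`, `G` a cyclic `p`-group acting faithfully on
`L`, unramified outside `S`, `μ_p ⊂ L^G`.  Then `H¹(G, C_S(L)) = 0` and `|H²(G, C_S(L))| = |G|`.
(From `PClassUpperSpec` and `FirstInequalityCycSpec`.) -/
def CyclicPowSpec : Prop :=
  ∀ (p : ℕ) [hp : Fact p.Prime], p ≠ 2 →
  ∀ (S : Finset Nat.Primes) (G L : Type) [Group G] [Finite G] [IsCyclic G] [Field L]
    [NumberField L] [MulSemiringAction G L] [FaithfulSMul G L],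
    (⟨p, hp.out⟩ : Nat.Primes) ∈ S → IsPGroup p G → IsUnramOut S G L →
    HasFixedRootOfUnity p G L →
    Limits.IsZero (groupCohomology (CRep S G L) 1) ∧
      Nat.card (groupCohomology (CRep S G L) 2) = Nat.card G

/-- **G-SIND (independence of `S`; REC (O5)).**  Let `S ⊆ S'`, `S ≠ ∅`, and let the finite group
`G` act faithfully on `L`, unramified outside `S`.  Then there is an equivariant surjection
`Φ : J_{S'}(L) × Div^{S'}(L) → J_S(L) × Div^S(L)`, compatible with the diagonal embeddings of `Lˣ`,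
equal to the projection `jRes` on the `J_S`-component and to the inclusion `divIncl` on `Div^{S'}`
(so `Φ (j, d) = (jRes j, divIncl d + ∑_{w | S'∖S} ord_w(j_w) [w])`), such that the induced morphism
`π : C_{S'}(L) ⟶ C_S(L)` is an isomorphism on `Hⁿ(H, -)` for all `H ≤ G` and all `n ≥ 1`.
(The kernel of `π` is `∏_{w | S' ∖ S} U_w`, cohomologically trivial because `w` is unramified.) -/
def SIndepSpec : Prop :=
  ∀ (S S' : Finset Nat.Primes) (h : S ⊆ S') (G L : Type) [Group G] [Finite G] [Field L]
    [NumberField L] [MulSemiringAction G L] [FaithfulSMul G L],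
    S.Nonempty → IsUnramOut S G L →
    ∃ (Φ : JD S' L →+ JD S L) (π : CRep S' G L ⟶ CRep S G L),
      (∀ (g : G) (y : JD S' L), Φ (jdRepr S' G L g y) = jdRepr S G L g (Φ y)) ∧
      (∀ x : Additive Lˣ, Φ (diagHom S' L x) = diagHom S L x) ∧
      (∀ y : JD S' L, (Φ y).1 = jRes h L y.1) ∧
      (∀ d : PrimeOut S' L →₀ ℤ, Φ (0, d) = (0, divIncl h L d)) ∧
      (∀ y : JD S' L, π.hom ((principal S' L).mkQ y) = (principal S L).mkQ (Φ y)) ∧
      Function.Surjective Φ ∧
      ∀ (H : Subgroup G) (n : ℕ), 0 < n →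
        Function.Bijective (T.coeffMap ((Rep.resFunctor H.subtype).map π) n).hom

end Fermat.Agent.S55.G

end
end
-- ===== PACK-END S55/G/Spec1b.lean

-- ===== PACK-BEGIN S55/G/OrdH707.lean
section



/-!
# S55 / layer G / block G-U, leaf GU-ORD (helper707)

`sUnitsOrd : SUnitsOrdSpec` : the valuation map on `T`-units.
-/

set_option autoImplicit false
set_option linter.unusedSectionVars false
set_option linter.style.haveILetI false
set_option warn.classDefReducibility false

namespace Fermat.Agent.S55.G.OrdH707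

open Fermat.Agent.S55.Herbrand NumberField IsDedekindDomain
open scoped Pointwise

universe u v

section Action

variable (K : Type u) (L : Type v) [Field K] [Field L] [NumberField K] [NumberField L]
  [Algebra K L] [IsGalois K L]

/-- The action of `Gal(L/K)` on the finite primes of `L`. -/
noncomputable def smulH (τ : L ≃ₐ[K] L) (w : HeightOneSpectrum (𝓞 L)) :
    HeightOneSpectrum (𝓞 L) where
  asIdeal := τ • w.asIdeal
  isPrime := inferInstance
  ne_bot := by
    intro h
    apply w.ne_bot
    have : τ⁻¹ • (τ • w.asIdeal) = τ⁻¹ • (⊥ : Ideal (𝓞 L)) := by rw [h]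
    rw [inv_smul_smul] at this
    rw [this]
    ext x
    rw [Ideal.mem_pointwise_smul_iff_inv_smul_mem]
    simp [smul_eq_zero_iff_eq]

@[simp] lemma smulH_asIdeal (τ : L ≃ₐ[K] L) (w : HeightOneSpectrum (𝓞 L)) :
    (smulH K L τ w).asIdeal = τ • w.asIdeal := rfl

lemma smulH_one (w : HeightOneSpectrum (𝓞 L)) : smulH K L 1 w = w := by
  ext1; simp

lemma smulH_mul (σ τ : L ≃ₐ[K] L) (w : HeightOneSpectrum (𝓞 L)) :
    smulH K L (σ * τ) w = smulH K L σ (smulH K L τ w) := by
  ext1; simp [mul_smul]

lemma under_smulH (τ : L ≃ₐ[K] L) (w : HeightOneSpectrum (𝓞 L)) :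
    (smulH K L τ w).asIdeal.under (𝓞 K) = w.asIdeal.under (𝓞 K) := by
  haveI : w.asIdeal.LiesOver (w.asIdeal.under (𝓞 K)) := ⟨rfl⟩
  have : (τ • w.asIdeal).LiesOver (w.asIdeal.under (𝓞 K)) := inferInstance
  exact (this.over).symm

lemma coe_smul_int (τ : L ≃ₐ[K] L) (x : 𝓞 L) : ((τ • x : 𝓞 L) : L) = τ (x : L) := rfl

/-- `intValuation` is equivariant. -/
lemma intValuation_smulH (τ : L ≃ₐ[K] L) (w : HeightOneSpectrum (𝓞 L)) (r : 𝓞 L) :
    (smulH K L τ w).intValuation (τ • r) = w.intValuation r := by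
  by_cases hr : r = 0
  · subst hr; simp
  have hr' : τ • r ≠ 0 := by
    rwa [Ne, smul_eq_zero_iff_eq]
  have key : ∀ n : ℕ, (smulH K L τ w).intValuation (τ • r) ≤ WithZero.exp (-(n : ℤ)) ↔
      w.intValuation r ≤ WithZero.exp (-(n : ℤ)) := by
    intro n
    rw [HeightOneSpectrum.intValuation_le_pow_iff_mem,
      HeightOneSpectrum.intValuation_le_pow_iff_mem, smulH_asIdeal, ← smul_pow',
      Ideal.smul_mem_pointwise_smul_iff]
  rw [HeightOneSpectrum.intValuation_if_neg _ hr] at key ⊢
  rw [HeightOneSpectrum.intValuation_if_neg _ hr'] at key ⊢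
  set a := (Associates.mk (smulH K L τ w).asIdeal).count (Associates.mk (Ideal.span {τ • r})).factors
  set b := (Associates.mk w.asIdeal).count (Associates.mk (Ideal.span {r})).factors
  have h1 := (key a).1 le_rfl
  have h2 := (key b).2 le_rfl
  rw [WithZero.exp_le_exp] at h1 h2
  have : a = b := by omega
  rw [this]

/-- The valuation is equivariant. -/
lemma valuation_smulH (τ : L ≃ₐ[K] L) (w : HeightOneSpectrum (𝓞 L)) (x : L) :
    (smulH K L τ w).valuation L (τ x) = w.valuation L x := by
  obtain ⟨r, s, hs, rfl⟩ := IsFractionRing.div_surjective (A := 𝓞 L) x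
  rw [map_div₀, map_div₀, map_div₀]
  have h1 : τ (algebraMap (𝓞 L) L r) = algebraMap (𝓞 L) L (τ • r) := rfl
  have h2 : τ (algebraMap (𝓞 L) L s) = algebraMap (𝓞 L) L (τ • s) := rfl
  rw [h1, h2, HeightOneSpectrum.valuation_of_algebraMap, HeightOneSpectrum.valuation_of_algebraMap,
    HeightOneSpectrum.valuation_of_algebraMap, HeightOneSpectrum.valuation_of_algebraMap,
    intValuation_smulH, intValuation_smulH]

end Action

section Main

variable (K : Type u) (L : Type v) [Field K] [Field L] [NumberField K] [NumberField L]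
  [Algebra K L] [IsGalois K L] (T : Finset (HeightOneSpectrum (𝓞 K)))

lemma smulH_mem (τ : L ≃ₐ[K] L) {w : HeightOneSpectrum (𝓞 L)} (hw : w ∈ primesAbove K L T) :
    smulH K L τ w ∈ primesAbove K L T := by
  obtain ⟨v, hv, h⟩ := hw
  exact ⟨v, hv, by rw [under_smulH, h]⟩

/-- The action of `Gal(L/K)` on the primes above `T`. -/
noncomputable def actX : MulAction (L ≃ₐ[K] L) ↥(primesAbove K L T) where
  smul τ w := ⟨smulH K L τ w.1, smulH_mem K L T τ w.2⟩
  one_smul w := Subtype.ext (smulH_one K L w.1)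
  mul_smul σ τ w := Subtype.ext (smulH_mul K L σ τ w.1)

lemma actX_coe (τ : L ≃ₐ[K] L) (w : ↥(primesAbove K L T)) :
    ((letI := actX K L T; τ • w : ↥(primesAbove K L T)) : HeightOneSpectrum (𝓞 L)) =
      smulH K L τ w.1 := rfl

lemma finite_primesAbove : (primesAbove K L T).Finite := by
  have h : primesAbove K L T ⊆
      ⋃ v ∈ T, {w : HeightOneSpectrum (𝓞 L) | w.asIdeal ∈ v.asIdeal.primesOver (𝓞 L)} := by
    rintro w ⟨v, hv, h⟩
    simp only [Set.mem_iUnion, Set.mem_ofPred_eq]
    exact ⟨v, hv, w.isPrime, ⟨h.symm⟩⟩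
  refine Set.Finite.subset ?_ h
  refine Set.Finite.biUnion T.finite_toSet ?_
  intro v _
  have hfin : (v.asIdeal.primesOver (𝓞 L)).Finite := Set.toFinite _
  refine Set.Finite.of_finite_image (f := fun w : HeightOneSpectrum (𝓞 L) => w.asIdeal)
    (hfin.subset ?_) ?_
  · rintro _ ⟨w, hw, rfl⟩
    exact hw
  · intro w₁ _ w₂ _ h
    exact HeightOneSpectrum.ext h

/-- The `Fintype` structure on the primes above `T`. -/
noncomputable def fintypeX : Fintype ↥(primesAbove K L T) :=
  (finite_primesAbove K L T).fintype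

/-- The valuation map. -/
noncomputable def ordHom : Additive Lˣ →+ (↥(primesAbove K L T) → ℤ) where
  toFun x w := Multiplicative.toAdd (w.1.valuationOfNeZero (Additive.toMul x))
  map_zero' := by
    funext w
    simp
  map_add' x y := by
    funext w
    simp

lemma ordHom_apply (x : Additive Lˣ) (w : ↥(primesAbove K L T)) :
    _root_.Fermat.Agent.S55.G.OrdH707.ordHom K L T x w = Multiplicative.toAdd (w.1.valuationOfNeZero (Additive.toMul x)) := rfl

lemma valuationOfNeZero_smulH (τ : L ≃ₐ[K] L) (w : HeightOneSpectrum (𝓞 L)) (x : Lˣ) :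
    (smulH K L τ w).valuationOfNeZero (Units.map ((τ : L →+* L) : L →* L) x) =
      w.valuationOfNeZero x := by
  have h1 := HeightOneSpectrum.valuationOfNeZero_eq (smulH K L τ w)
    (Units.map ((τ : L →+* L) : L →* L) x)
  have h2 := HeightOneSpectrum.valuationOfNeZero_eq w x
  have h3 := valuation_smulH K L τ w (x : L)
  have h4 : ((Units.map ((τ : L →+* L) : L →* L) x : Lˣ) : L) = τ (x : L) := rfl
  rw [h4, h3, ← h2] at h1
  exact WithZero.coe_injective h1

lemma ordHom_equivariant (τ : L ≃ₐ[K] L) (x : Additive Lˣ) :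
    _root_.Fermat.Agent.S55.G.OrdH707.ordHom K L T (unitsHom K L τ x) =
      (letI := actX K L T; permHom (L ≃ₐ[K] L) ↥(primesAbove K L T) τ (_root_.Fermat.Agent.S55.G.OrdH707.ordHom K L T x)) := by
  letI := actX K L T
  funext w
  change Multiplicative.toAdd (w.1.valuationOfNeZero
      (Units.map ((τ : L →+* L) : L →* L) (Additive.toMul x))) =
    Multiplicative.toAdd ((τ⁻¹ • w).1.valuationOfNeZero (Additive.toMul x))
  congr 1
  have := valuationOfNeZero_smulH K L τ (smulH K L τ⁻¹ w.1) (Additive.toMul x)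
  rw [← smulH_mul, mul_inv_cancel, smulH_one] at this
  exact this

lemma mem_sUnits_iff (x : Additive Lˣ) :
    x ∈ sUnits K L T ↔ ∀ w : HeightOneSpectrum (𝓞 L), w ∉ primesAbove K L T →
      w.valuation L ((Additive.toMul x : Lˣ) : L) = 1 := Iff.rfl

omit [NumberField K] [Algebra K L] [IsGalois K L] in
lemma mem_intUnits_iff (x : Additive Lˣ) :
    x ∈ intUnits L ↔ ∀ w : HeightOneSpectrum (𝓞 L),
      w.valuation L ((Additive.toMul x : Lˣ) : L) = 1 := by
  constructor
  · rintro ⟨u, rfl⟩ w
    have h1 : w.valuation L (algebraMap (𝓞 L) L (u : 𝓞 L)) ≤ 1 := w.valuation_le_one _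
    have h2 : w.valuation L (algebraMap (𝓞 L) L ((u⁻¹ : (𝓞 L)ˣ) : 𝓞 L)) ≤ 1 :=
      w.valuation_le_one _
    have h3 : w.valuation L (algebraMap (𝓞 L) L (u : 𝓞 L)) *
        w.valuation L (algebraMap (𝓞 L) L ((u⁻¹ : (𝓞 L)ˣ) : 𝓞 L)) = 1 := by
      rw [← map_mul, ← map_mul, Units.mul_inv, map_one, map_one]
    exact eq_one_of_one_le_mul_left h1 h2 h3.ge
  · intro h
    set y : Lˣ := Additive.toMul x with hy
    obtain ⟨a, ha⟩ := HeightOneSpectrum.mem_integers_of_valuation_le_one L (y : L)
      (fun w => (h w).le)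
    obtain ⟨b, hb⟩ := HeightOneSpectrum.mem_integers_of_valuation_le_one L ((y⁻¹ : Lˣ) : L)
      (fun w => by
        rw [Units.val_inv_eq_inv_val, map_inv₀, h w, inv_one])
    have hab : a * b = 1 := by
      apply FaithfulSMul.algebraMap_injective (𝓞 L) L
      rw [map_mul, ha, hb, map_one, Units.mul_inv]
    have hba : b * a = 1 := by rw [mul_comm, hab]
    refine ⟨⟨a, b, hab, hba⟩, ?_⟩
    apply Units.ext
    exact ha

lemma ordHom_eq_zero_iff (x : Additive Lˣ) (w : ↥(primesAbove K L T)) :
    _root_.Fermat.Agent.S55.G.OrdH707.ordHom K L T x w = 0 ↔ w.1.valuation L ((Additive.toMul x : Lˣ) : L) = 1 := by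
  rw [_root_.Fermat.Agent.S55.G.OrdH707.ordHom_apply, ← HeightOneSpectrum.valuationOfNeZero_eq]
  constructor
  · intro h
    have : w.1.valuationOfNeZero (Additive.toMul x) = 1 := by
      apply Multiplicative.toAdd.injective
      simpa using h
    rw [this]; rfl
  · intro h
    have : w.1.valuationOfNeZero (Additive.toMul x) = 1 := by
      apply WithZero.coe_injective
      simpa using h
    rw [this]; rfl

lemma ker_inf_sUnits : (_root_.Fermat.Agent.S55.G.OrdH707.ordHom K L T).ker ⊓ sUnits K L T = intUnits L := by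
  ext x
  rw [AddSubgroup.mem_inf, AddMonoidHom.mem_ker, mem_sUnits_iff, mem_intUnits_iff]
  constructor
  · rintro ⟨h1, h2⟩ w
    by_cases hw : w ∈ primesAbove K L T
    · have := congrFun h1 ⟨w, hw⟩
      exact (ordHom_eq_zero_iff K L T x ⟨w, hw⟩).1 this
    · exact h2 w hw
  · intro h
    refine ⟨?_, fun w _ => h w⟩
    funext w
    exact (ordHom_eq_zero_iff K L T x w).2 (h w.1)

/-- A subgroup of `ι → ℤ` containing `h • (ι → ℤ)` has finite index. -/
lemma index_ne_zero_of_nsmul_mem {ι : Type*} [Finite ι] (H : AddSubgroup (ι → ℤ)) (h : ℕ)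
    (hh : 0 < h) (hH : ∀ a : ι → ℤ, h • a ∈ H) : H.index ≠ 0 := by
  have hfin : Finite ((ι → ℤ) ⧸ H) := by
    have hf : Module.Finite ℤ ((ι → ℤ) ⧸ H) := by
      have : Module.Finite ℤ ((ι → ℤ) ⧸ (AddSubgroup.toIntSubmodule H)) := inferInstance
      exact this
    apply Module.finite_of_fg_torsion
    intro x
    induction x using QuotientAddGroup.induction_on with
    | H a =>
      refine ⟨⟨(h : ℤ), ?_⟩, ?_⟩
      · rw [mem_nonZeroDivisors_iff_ne_zero]
        exact_mod_cast hh.ne'
      · change (h : ℤ) • (QuotientAddGroup.mk a : (ι → ℤ) ⧸ H) = 0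
        rw [natCast_zsmul, ← QuotientAddGroup.mk_nsmul, QuotientAddGroup.eq_zero_iff]
        exact hH a
  exact AddSubgroup.index_ne_zero_of_finite

omit [NumberField K] [Algebra K L] [IsGalois K L] in
/-- A power of every prime is principal. -/
lemma exists_generator_pow (w : HeightOneSpectrum (𝓞 L)) :
    ∃ (h : ℕ) (g : 𝓞 L), 0 < h ∧ h = Fintype.card (ClassGroup (𝓞 L)) ∧ g ≠ 0 ∧
      Ideal.span {g} = w.asIdeal ^ h := by
  set h := Fintype.card (ClassGroup (𝓞 L)) with hh
  have hw0 : w.asIdeal ∈ nonZeroDivisors (Ideal (𝓞 L)) :=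
    mem_nonZeroDivisors_of_ne_zero w.ne_bot
  have hpow : w.asIdeal ^ h ∈ nonZeroDivisors (Ideal (𝓞 L)) :=
    mem_nonZeroDivisors_of_ne_zero (pow_ne_zero _ w.ne_bot)
  have h1 : ClassGroup.mk0 ⟨w.asIdeal ^ h, hpow⟩ = 1 := by
    have : (⟨w.asIdeal ^ h, hpow⟩ : nonZeroDivisors (Ideal (𝓞 L))) = ⟨w.asIdeal, hw0⟩ ^ h := by
      ext; simp
    rw [this, map_pow, hh, pow_card_eq_one]
  rw [ClassGroup.mk0_eq_one_iff] at h1
  obtain ⟨g, hg⟩ := h1
  refine ⟨h, g, Fintype.card_pos, rfl, ?_, ?_⟩
  · rintro rfl
    have : w.asIdeal ^ h = ⊥ := by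
      rw [hg]; simp
    exact pow_ne_zero _ w.ne_bot this
  · rw [hg]

omit [NumberField K] [Algebra K L] [IsGalois K L] in
lemma intValuation_generator_self (w : HeightOneSpectrum (𝓞 L)) (h : ℕ) (g : 𝓞 L) (hg0 : g ≠ 0)
    (hg : Ideal.span {g} = w.asIdeal ^ h) :
    w.intValuation g = WithZero.exp (-(h : ℤ)) := by
  have h1 : w.intValuation g ≤ WithZero.exp (-(h : ℤ)) := by
    rw [HeightOneSpectrum.intValuation_le_pow_iff_mem, ← hg]
    exact Ideal.mem_span_singleton_self g
  have h2 : ¬ w.intValuation g ≤ WithZero.exp (-((h + 1 : ℕ) : ℤ)) := by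
    rw [HeightOneSpectrum.intValuation_le_pow_iff_mem]
    intro hmem
    have hle : w.asIdeal ^ h ≤ w.asIdeal ^ (h + 1) := by
      rw [← hg, Ideal.span_singleton_le_iff_mem]
      exact hmem
    haveI := w.isPrime
    exact absurd hle (not_le_of_gt (Ideal.pow_succ_lt_pow w.ne_bot h))
  rw [HeightOneSpectrum.intValuation_if_neg _ hg0] at h1 h2 ⊢
  rw [WithZero.exp_le_exp] at h1 h2
  rw [WithZero.exp_inj]
  push_cast at h2
  omega

omit [NumberField K] [Algebra K L] [IsGalois K L] in
lemma intValuation_generator_ne (w w' : HeightOneSpectrum (𝓞 L)) (hne : w' ≠ w) (h : ℕ)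
    (g : 𝓞 L) (hg : Ideal.span {g} = w.asIdeal ^ h) :
    w'.intValuation g = 1 := by
  rw [HeightOneSpectrum.intValuation_eq_one_iff]
  intro hmem
  have hle : w.asIdeal ^ h ≤ w'.asIdeal := by
    rw [← hg, Ideal.span_singleton_le_iff_mem]
    exact hmem
  haveI := w'.isPrime
  have hle' : w.asIdeal ≤ w'.asIdeal := Ideal.IsPrime.le_of_pow_le hle
  haveI : w.asIdeal.IsMaximal := w.isMaximal
  have : w.asIdeal = w'.asIdeal :=
    Ideal.IsMaximal.eq_of_le inferInstance (Ideal.IsPrime.ne_top inferInstance) hle'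
  exact hne (HeightOneSpectrum.ext this.symm)

lemma index_map_ordHom : ((sUnits K L T).map (_root_.Fermat.Agent.S55.G.OrdH707.ordHom K L T)).index ≠ 0 := by
  classical
  haveI : Finite ↥(primesAbove K L T) := (finite_primesAbove K L T).to_subtype
  letI : Fintype ↥(primesAbove K L T) := fintypeX K L T
  set h := Fintype.card (ClassGroup (𝓞 L)) with hh
  have hpos : 0 < h := Fintype.card_pos
  -- the basic elements
  have hbasic : ∀ w : ↥(primesAbove K L T),
      (Pi.single w (h : ℤ) : ↥(primesAbove K L T) → ℤ) ∈ (sUnits K L T).map (_root_.Fermat.Agent.S55.G.OrdH707.ordHom K L T) := by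
    intro w
    obtain ⟨h', g, -, hh', hg0, hg⟩ := exists_generator_pow (L := L) w.1
    have hh'' : h' = h := hh'
    subst hh''
    have hgL : algebraMap (𝓞 L) L g ≠ 0 := by
      rwa [Ne, FaithfulSMul.algebraMap_eq_zero_iff]
    set y : Lˣ := Units.mk0 (algebraMap (𝓞 L) L g) hgL with hy
    have hval : ∀ w' : HeightOneSpectrum (𝓞 L), w'.valuation L (y : L) = w'.intValuation g := by
      intro w'
      rw [hy, Units.val_mk0, HeightOneSpectrum.valuation_of_algebraMap]
    have hmem : Additive.ofMul y ∈ sUnits K L T := by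
      rw [mem_sUnits_iff]
      intro w' hw'
      change w'.valuation L (y : L) = 1
      rw [hval]
      apply intValuation_generator_ne L w.1 w' _ _ g hg
      rintro rfl
      exact hw' w.2
    have hψ : _root_.Fermat.Agent.S55.G.OrdH707.ordHom K L T (Additive.ofMul y) = -(Pi.single w (h : ℤ)) := by
      funext w'
      rw [_root_.Fermat.Agent.S55.G.OrdH707.ordHom_apply]
      change Multiplicative.toAdd (w'.1.valuationOfNeZero y) = _
      by_cases hww : w' = w
      · subst hww
        have h1 := HeightOneSpectrum.valuationOfNeZero_eq w'.1 y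
        rw [hval, intValuation_generator_self L w'.1 _ g hg0 hg, WithZero.exp_eq_coe_ofAdd] at h1
        have h2 := WithZero.coe_injective h1
        rw [h2]
        simp
      · have hne : w'.1 ≠ w.1 := fun h => hww (Subtype.ext h)
        have h1 := HeightOneSpectrum.valuationOfNeZero_eq w'.1 y
        rw [hval, intValuation_generator_ne L w.1 w'.1 hne _ g hg] at h1
        have h2 : w'.1.valuationOfNeZero y = 1 := WithZero.coe_injective h1
        rw [h2]
        simp [hww]
    have : (Pi.single w (h : ℤ) : ↥(primesAbove K L T) → ℤ) =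
        _root_.Fermat.Agent.S55.G.OrdH707.ordHom K L T (-(Additive.ofMul y)) := by
      rw [map_neg, hψ, neg_neg]
    rw [this]
    exact AddSubgroup.mem_map_of_mem _ ((sUnits K L T).neg_mem hmem)
  apply index_ne_zero_of_nsmul_mem _ h hpos
  intro a
  have ha : h • a = ∑ w, a w • (Pi.single w (h : ℤ) : ↥(primesAbove K L T) → ℤ) := by
    funext w
    simp [Finset.sum_apply, Pi.single_apply, mul_comm]
  rw [ha]
  exact AddSubgroup.sum_mem _ (fun w _ => AddSubgroup.zsmul_mem _ (hbasic w) _)

/-- The prime of `T` below a prime above `T`. -/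
noncomputable def below (w : ↥(primesAbove K L T)) : {v // v ∈ T} :=
  ⟨w.2.choose, w.2.choose_spec.1⟩

lemma below_spec (w : ↥(primesAbove K L T)) :
    w.1.asIdeal.under (𝓞 K) = (below K L T w).1.asIdeal := w.2.choose_spec.2

lemma below_eq_iff (w : ↥(primesAbove K L T)) (v : {v // v ∈ T}) :
    below K L T w = v ↔ w.1.asIdeal.under (𝓞 K) = v.1.asIdeal := by
  constructor
  · rintro rfl
    exact below_spec K L T w
  · intro h
    apply Subtype.ext
    apply HeightOneSpectrum.ext
    rw [← below_spec, h]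

lemma below_smul (τ : L ≃ₐ[K] L) (w : ↥(primesAbove K L T)) :
    below K L T (letI := actX K L T; τ • w) = below K L T w := by
  rw [below_eq_iff, actX_coe, under_smulH, below_spec]

lemma exists_smul_eq_of_below_eq (w₁ w₂ : ↥(primesAbove K L T))
    (h : below K L T w₁ = below K L T w₂) :
    ∃ τ : L ≃ₐ[K] L, (letI := actX K L T; τ • w₁) = w₂ := by
  set v := below K L T w₁ with hv
  haveI : w₁.1.asIdeal.LiesOver v.1.asIdeal := ⟨(below_spec K L T w₁).symm⟩
  haveI : w₂.1.asIdeal.LiesOver v.1.asIdeal := ⟨by rw [h]; exact (below_spec K L T w₂).symm⟩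
  haveI := w₁.1.isPrime
  haveI := w₂.1.isPrime
  obtain ⟨τ, hτ⟩ := Ideal.exists_smul_eq_of_isGaloisGroup v.1.asIdeal w₁.1.asIdeal w₂.1.asIdeal
    (L ≃ₐ[K] L)
  refine ⟨τ, ?_⟩
  apply Subtype.ext
  apply HeightOneSpectrum.ext
  rw [actX_coe, smulH_asIdeal]
  exact hτ

lemma exists_above (v : {v // v ∈ T}) : ∃ w : ↥(primesAbove K L T), below K L T w = v := by
  haveI := v.1.isPrime
  obtain ⟨⟨P, hP, hPv⟩⟩ := (inferInstance : Nonempty (v.1.asIdeal.primesOver (𝓞 L)))
  have hne : P ≠ ⊥ := by
    rintro rfl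
    apply v.1.ne_bot
    rw [hPv.over]
    exact Ideal.under_bot _ _
  let w : HeightOneSpectrum (𝓞 L) := ⟨P, hP, hne⟩
  have hw : w ∈ primesAbove K L T := ⟨v.1, v.2, hPv.over.symm⟩
  exact ⟨⟨w, hw⟩, (below_eq_iff K L T _ _).2 hPv.over.symm⟩

lemma card_stabilizer (w : ↥(primesAbove K L T)) :
    Nat.card (letI := actX K L T; MulAction.stabilizer (L ≃ₐ[K] L) w) =
      (below K L T w).1.asIdeal.ramificationIdxIn (𝓞 L) *
        (below K L T w).1.asIdeal.inertiaDegIn (𝓞 L) := by
  letI := actX K L T
  set v := below K L T w with hv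
  haveI : w.1.asIdeal.LiesOver v.1.asIdeal := ⟨(below_spec K L T w).symm⟩
  haveI := w.1.isPrime
  haveI := v.1.isPrime
  rw [← Ideal.card_stabilizer_eq (G := (L ≃ₐ[K] L)) v.1.asIdeal w.1.asIdeal]
  have : MulAction.stabilizer (L ≃ₐ[K] L) w = MulAction.stabilizer (L ≃ₐ[K] L) w.1.asIdeal := by
    ext τ
    rw [MulAction.mem_stabilizer_iff, MulAction.mem_stabilizer_iff]
    constructor
    · intro h
      have := congrArg (fun x : ↥(primesAbove K L T) => x.1.asIdeal) h
      simpa [actX_coe] using this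
    · intro h
      apply Subtype.ext
      apply HeightOneSpectrum.ext
      rw [actX_coe, smulH_asIdeal]
      exact h
  rw [this]

lemma stabProd_eq :
    (letI := actX K L T; letI := fintypeX K L T;
      stabProd (L ≃ₐ[K] L) ↥(primesAbove K L T)) = finDegProd K L T := by
  classical
  letI := actX K L T
  letI := fintypeX K L T
  unfold stabProd finDegProd
  let f : MulAction.orbitRel.Quotient (L ≃ₐ[K] L) ↥(primesAbove K L T) → {v // v ∈ T} :=
    fun o => below K L T o.out
  have hf_mk : ∀ w : ↥(primesAbove K L T),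
      f (Quotient.mk (MulAction.orbitRel (L ≃ₐ[K] L) ↥(primesAbove K L T)) w) =
        below K L T w := by
    intro w
    have h : (Quotient.mk (MulAction.orbitRel (L ≃ₐ[K] L) ↥(primesAbove K L T)) w).out ∈
        MulAction.orbit (L ≃ₐ[K] L) w := by
      have := Quotient.exact (Quotient.out_eq
        (Quotient.mk (MulAction.orbitRel (L ≃ₐ[K] L) ↥(primesAbove K L T)) w))
      exact this
    obtain ⟨τ, hτ⟩ := h
    change below K L T _ = _
    rw [← hτ]
    exact below_smul K L T τ w
  have hf : Function.Bijective f := by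
    constructor
    · intro o₁ o₂ h
      induction o₁ using Quotient.inductionOn with | h w₁ =>
      induction o₂ using Quotient.inductionOn with | h w₂ =>
      rw [hf_mk, hf_mk] at h
      obtain ⟨τ, hτ⟩ := exists_smul_eq_of_below_eq K L T w₁ w₂ h
      apply Quotient.sound
      change w₁ ∈ MulAction.orbit (L ≃ₐ[K] L) w₂
      refine ⟨τ⁻¹, ?_⟩
      rw [← hτ]
      exact inv_smul_smul τ w₁
    · intro v
      obtain ⟨w, hw⟩ := exists_above K L T v
      exact ⟨Quotient.mk _ w, by rw [hf_mk, hw]⟩
  rw [← Finset.prod_coe_sort T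
    (fun v => v.asIdeal.ramificationIdxIn (𝓞 L) * v.asIdeal.inertiaDegIn (𝓞 L))]
  exact @Fintype.prod_bijective _ _ _ (Fintype.ofFinite _) _ _ f hf _ _
    (fun o => card_stabilizer K L T o.out)

/-- **GU-ORD**: the valuation map on `T`-units. -/
theorem sUnitsOrd : SUnitsOrdSpec.{u, v} := by
  intro K L _ _ _ _ _ _ T
  exact ⟨actX K L T, fintypeX K L T, _root_.Fermat.Agent.S55.G.OrdH707.ordHom K L T, _root_.Fermat.Agent.S55.G.OrdH707.ordHom_equivariant K L T,
    ker_inf_sUnits K L T, index_map_ordHom K L T, stabProd_eq K L T⟩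

end Main

end Fermat.Agent.S55.G.OrdH707

end
-- ===== PACK-END S55/G/OrdH707.lean

-- ===== PACK-BEGIN S55/H604/SUnitLattice.lean
section




/-!
# S55 / arithmetic leaf: Dirichlet's `S`-unit theorem

The logarithmic image of the `S`-units is a `ℤ`-lattice of rank `#(∞ ⊔ S) - 1`, the kernel of the
logarithm is finite, and `[E_S : E_S^n] = #μ_n · n ^ (#(∞ ⊔ S) - 1)`.
-/

set_option autoImplicit false

open NumberField IsDedekindDomain Module

namespace Fermat.Agent.S55.H604

variable (L : Type*) [Field L] [NumberField L] (S : Finset (HeightOneSpectrum (𝓞 L)))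

/-- The lattice of logarithms of `S`-units. -/
noncomputable def sUnitLattice : Submodule ℤ (PlaceIdx L S → ℝ) :=
  LinearMap.range (logS L S).toIntLinearMap

lemma mem_sUnitLattice {f : PlaceIdx L S → ℝ} :
    f ∈ sUnitLattice L S ↔ ∃ x, logS L S x = f := Iff.rfl

lemma coe_sUnitLattice :
    (sUnitLattice L S : Set (PlaceIdx L S → ℝ)) = Set.range (logS L S) := rfl

lemma sUnitLattice_inter_ball_finite (r : ℝ) :
    ((sUnitLattice L S : Set (PlaceIdx L S → ℝ)) ∩ Metric.closedBall 0 r).Finite := by
  by_cases hr : 0 ≤ r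
  · refine ((finite_logS_le L S r).image (logS L S)).subset ?_
    rintro _ ⟨⟨x, rfl⟩, hx⟩
    refine ⟨x, ?_, rfl⟩
    intro t
    rw [mem_closedBall_zero_iff, pi_norm_le_iff_of_nonneg hr] at hx
    simpa [Real.norm_eq_abs] using hx t
  · rw [Metric.closedBall_eq_empty.2 (not_le.1 hr), Set.inter_empty]
    exact Set.finite_empty

instance instDiscrete_sUnitLattice : DiscreteTopology (sUnitLattice L S) := by
  classical
  refine discreteTopology_of_isOpen_singleton_zero ?_
  refine isOpen_singleton_of_finite_mem_nhds 0 (s := Metric.closedBall 0 1) ?_ ?_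
  · exact Metric.closedBall_mem_nhds _ (by simp)
  · refine Set.Finite.of_finite_image ?_ (Set.injOn_of_injective Subtype.val_injective)
    refine (sUnitLattice_inter_ball_finite L S 1).subset ?_
    rintro _ ⟨x, hx, rfl⟩
    exact ⟨Subtype.mem x, hx⟩

/-- the kernel of the logarithm is finite. -/
instance finite_ker_logS : Finite (logS L S).ker := by
  have h := finite_logS_le L S 0
  refine Set.Finite.subset h ?_ |>.to_subtype
  intro x hx
  have hx' : logS L S x = 0 := hx
  intro t
  simp [hx']

lemma finrank_hyperplane :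
    finrank ℝ (hyperplane L S) = Fintype.card (InfinitePlace L) + S.card - 1 := by
  classical
  set φ : (PlaceIdx L S → ℝ) →ₗ[ℝ] ℝ := ∑ t : PlaceIdx L S, LinearMap.proj t with hφ
  have hsurj : LinearMap.range φ = ⊤ := by
    rw [LinearMap.range_eq_top]
    intro c
    obtain ⟨w⟩ : Nonempty (InfinitePlace L) := inferInstance
    refine ⟨Pi.single (Sum.inl w) c, ?_⟩
    rw [hφ, LinearMap.sum_apply]
    simp only [LinearMap.proj_apply]
    rw [Finset.sum_eq_single (Sum.inl w : PlaceIdx L S)]
    · simp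
    · intro t _ ht
      simp [Pi.single_apply, ht]
    · intro h
      exact absurd (Finset.mem_univ _) h
  have h := LinearMap.finrank_range_add_finrank_ker φ
  rw [hsurj, finrank_top, Module.finrank_self, Module.finrank_fintype_fun_eq_card,
    Fintype.card_sum, Fintype.card_coe] at h
  have : finrank ℝ (hyperplane L S) = finrank ℝ (LinearMap.ker φ) := rfl
  omega

/-- **Dirichlet's `S`-unit theorem (rank).** -/
theorem finrank_sUnitLattice :
    finrank ℤ (sUnitLattice L S) = Fintype.card (InfinitePlace L) + S.card - 1 := by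
  have hd : DiscreteTopology (Submodule.span ℤ (sUnitLattice L S : Set (PlaceIdx L S → ℝ))) := by
    rw [Submodule.span_eq]
    infer_instance
  have h := Real.finrank_eq_int_finrank_of_discrete hd
  rw [Set.finrank, Set.finrank, Submodule.span_eq, coe_sUnitLattice, span_logS,
    finrank_hyperplane] at h
  exact h.symm

/-- the logarithm, corestricted to the lattice. -/
noncomputable def logSLattice : Additive (SUnit L S) →+ sUnitLattice L S :=
  (logS L S).codRestrict (sUnitLattice L S).toAddSubgroup (fun x => ⟨x, rfl⟩)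

lemma logSLattice_surjective : Function.Surjective (logSLattice L S) := by
  rintro ⟨_, x, rfl⟩
  exact ⟨x, rfl⟩

lemma ker_logSLattice : (logSLattice L S).ker = (logS L S).ker := by
  ext x
  simp only [AddMonoidHom.mem_ker]
  constructor
  · intro h
    exact congrArg Subtype.val h
  · intro h
    exact Subtype.ext h

instance finite_ker_logSLattice : Finite (logSLattice L S).ker := by
  rw [ker_logSLattice]
  infer_instance

/-- **`S`-unit power index, additive form.** -/
theorem index_range_nsmul_sUnit (n : ℕ) (hn : n ≠ 0) :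
    (nsmulAddMonoidHom (α := Additive (SUnit L S)) n).range.index =
      Nat.card (nsmulAddMonoidHom (α := Additive (SUnit L S)) n).ker *
        n ^ (Fintype.card (InfinitePlace L) + S.card - 1) := by
  rw [← finrank_sUnitLattice L S]
  exact index_range_nsmul_of_finite_ker (logSLattice L S) (logSLattice_surjective L S) n hn

end Fermat.Agent.S55.H604

end
-- ===== PACK-END S55/H604/SUnitLattice.lean

-- ===== PACK-BEGIN S55/G/DescH773/Equiv.lean
section
/-
S55 (Poitou–Tate), layer G, leaf G-DESC (helper773), part 3: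

* `eAt_eq_card_inertia`, `eAt_eq_one_of_inertia`: the ramification index is the order of the
  inertia group (so trivial inertia outside `S` gives the hypothesis of `mem_range_cBase_iff`);
* `cBase_cRepr_of_compat`: base change `C_S(K) → C_S(L)` is equivariant for automorphisms
  `γ` of `K` and `g` of `L` compatible with `K → L`.
-/


set_option autoImplicit false
set_option linter.unusedSectionVars false
set_option linter.style.haveILetI false

open scoped NumberField TensorProduct Pointwise
open IsDedekindDomain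

noncomputable section

namespace Fermat.Agent.S55.G.DescH773

open Fermat.Agent.S55.G

/-! ## 6. Ramification index and inertia -/

section Unram

variable (G K L : Type) [Group G] [Finite G] [Field K] [NumberField K]
  [Field L] [NumberField L] [Algebra K L] [MulSemiringAction G L] [IsGaloisGroup G K L]


variable {L} in
/-- The ramification index is the order of the inertia group. -/
lemma eAt_eq_card_inertia (w : HeightOneSpectrum (𝓞 L)) :
    eAt K w = Nat.card (w.asIdeal.inertia G) := by
  unfold eAt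
  rw [Ideal.ramificationIdx'_eq_ramificationIdx _ _ (primeUnder K w).ne_bot,
    ← Ideal.ramificationIdxIn_eq_ramificationIdx (primeUnder K w).asIdeal w.asIdeal G,
    Ideal.card_inertia_eq_ramificationIdxIn (G := G) (primeUnder K w).asIdeal w.asIdeal]

variable {L} in
/-- If the inertia group at `w` is trivial then `w` is unramified over `K`. -/
lemma eAt_eq_one_of_inertia (w : HeightOneSpectrum (𝓞 L))
    (h : ∀ g : G, (∀ x : 𝓞 L, g • x - x ∈ w.asIdeal) → g = 1) : eAt K w = 1 := by
  rw [eAt_eq_card_inertia G K w]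
  have : w.asIdeal.inertia G = ⊥ := by
    rw [eq_bot_iff]
    intro g hg
    exact h g hg
  rw [this]
  simp

end Unram

/-! ## 7. Equivariance of base change

`γ ∈ Γ` acts on `K`, `g ∈ G` acts on `L`, compatibly with `K → L`. -/

section Compat

variable (S : Finset Nat.Primes) (Γ G K L : Type) [Group Γ] [Group G] [Field K] [NumberField K]
  [Field L] [NumberField L] [Algebra K L] [MulSemiringAction Γ K] [MulSemiringAction G L]
  (γ : Γ) (g : G) (hc : ∀ k : K, algebraMap K L (γ • k) = g • algebraMap K L k)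

include hc

lemma asBase_asAut_of_compat (t : AS S K) :
    asBase S K L (asAut S Γ K γ t) = asAut S G L g (asBase S K L t) := by
  induction t using TensorProduct.induction_on with
  | zero => simp
  | tmul a b => simp [hc]
  | add a b ha hb => simp only [map_add, ha, hb]

lemma jBase_jRepr_of_compat (u : Additive (AS S K)ˣ) :
    jBase S K L (jRepr Γ S K γ u) = jRepr G S L g (jBase S K L u) := by
  apply Additive.toMul.injective
  apply Units.ext
  rw [coe_jBase_apply, coe_jRepr_apply, coe_jRepr_apply, coe_jBase_apply,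
    asBase_asAut_of_compat S Γ G K L γ g hc]

lemma lBase_lRepr_of_compat (x : Additive Kˣ) :
    lBase K L (lRepr Γ K γ x) = lRepr G L g (lBase K L x) := by
  apply Additive.toMul.injective
  apply Units.ext
  rw [coe_lBase_apply, coe_lRepr_apply, coe_lRepr_apply, coe_lBase_apply, hc]

lemma algebraMap_int_of_compat (x : 𝓞 K) :
    algebraMap (𝓞 K) (𝓞 L) (γ • x) = g • algebraMap (𝓞 K) (𝓞 L) x := by
  apply Subtype.ext
  exact hc x

lemma algebraMap_int_of_compat_inv (x : 𝓞 K) :
    algebraMap (𝓞 K) (𝓞 L) (γ⁻¹ • x) = g⁻¹ • algebraMap (𝓞 K) (𝓞 L) x := by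
  have := algebraMap_int_of_compat Γ G K L γ g hc (γ⁻¹ • x)
  rw [smul_inv_smul] at this
  rw [this, inv_smul_smul]

variable {L} in
lemma primeUnder_primeSMul_of_compat (w : HeightOneSpectrum (𝓞 L)) :
    primeUnder K (primeSMul G g w) = primeSMul Γ γ (primeUnder K w) := by
  apply HeightOneSpectrum.ext
  ext x
  rw [mem_primeUnder_iff, mem_primeSMul_iff, mem_primeSMul_iff, mem_primeUnder_iff,
    algebraMap_int_of_compat_inv Γ G K L γ g hc]

lemma primeOutUnder_primeOutMap_of_compat (w : PrimeOut S L) :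
    primeOutUnder S K L (primeOutMap S G L g w) =
      primeOutMap S Γ K γ (primeOutUnder S K L w) :=
  Subtype.ext (primeUnder_primeSMul_of_compat Γ G K γ g hc w.1)

variable {L} in
lemma eAt_primeSMul_of_compat (w : HeightOneSpectrum (𝓞 L)) :
    eAt K (primeSMul G g w) = eAt K w := by
  obtain ⟨π, hπ⟩ := (primeUnder K w).valuation_exists_uniformizer K
  have hπ0 : π ≠ 0 := by
    rintro rfl
    rw [map_zero] at hπ
    exact WithZero.exp_ne_zero hπ.symm
  let x : Additive Kˣ := Additive.ofMul (Units.mk0 π hπ0)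
  have h1 := ordAt_primeSMul G g w (lBase K L x)
  rw [← lBase_lRepr_of_compat Γ G K L γ g hc, ordAt_lBase, ordAt_lBase,
    primeUnder_primeSMul_of_compat Γ G K γ g hc, ordAt_primeSMul] at h1
  have h2 : ordAt (primeUnder K w) x ≠ 0 := by
    rw [ordAt_apply]
    change -WithZero.log ((primeUnder K w).valuation K π) ≠ 0
    rw [hπ]
    simp
  exact_mod_cast mul_right_cancel₀ h2 h1

lemma divBase_divRepr_of_compat (d : PrimeOut S K →₀ ℤ) :
    divBase S K L (divRepr S Γ K γ d) = divRepr S G L g (divBase S K L d) := by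
  ext w
  have hw : w = primeOutMap S G L g (primeOutMap S G L g⁻¹ w) := by
    rw [← primeOutMap_mul, mul_inv_cancel, primeOutMap_one]
  conv_lhs => rw [hw]
  conv_rhs => rw [hw]
  rw [divRepr_apply_apply, divBase_apply, divBase_apply,
    primeOutUnder_primeOutMap_of_compat S Γ G K L γ g hc, divRepr_apply_apply,
    primeOutMap_val, eAt_primeSMul_of_compat Γ G K γ g hc]

lemma jdBase_jdRepr_of_compat (y : JD S K) :
    jdBase S K L (jdRepr S Γ K γ y) = jdRepr S G L g (jdBase S K L y) :=
  Prod.ext (jBase_jRepr_of_compat S Γ G K L γ g hc y.1)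
    (divBase_divRepr_of_compat S Γ G K L γ g hc y.2)

/-- Base change `C_S(K) → C_S(L)` is equivariant for compatible automorphisms. -/
theorem cBase_cRepr_of_compat (c : CS S K) :
    cBase S K L (cRepr S Γ K γ c) = cRepr S G L g (cBase S K L c) := by
  obtain ⟨y, rfl⟩ := Submodule.Quotient.mk_surjective _ c
  rw [cRepr_mk, cBase_mk, cBase_mk, cRepr_mk, jdBase_jdRepr_of_compat S Γ G K L γ g hc]

end Compat

end Fermat.Agent.S55.G.DescH773

end
end
-- ===== PACK-END S55/G/DescH773/Equiv.lean

-- ===== PACK-BEGIN S55/G/UpH119/Quot.lean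
section


/-!
# G-UP, part 2: the quotient `G ⧸ N` acting on the fixed field `L^N` (helper119)

For a normal subgroup `N ⊴ G` of a group acting on a field `L`, the fixed field
`FixN G L N = L^N` carries an action of `G ⧸ N`.  We check the hypotheses needed to apply the
Specs of layer G to the pair `(G ⧸ N, L^N)`: faithfulness, `μ_p ⊂ (L^N)^{G/N}` and
unramifiedness outside `S`.
-/

set_option autoImplicit false
set_option linter.style.haveILetI false
set_option linter.unusedSectionVars false

open scoped NumberField TensorProduct Pointwise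
open IsDedekindDomain CategoryTheory

noncomputable section

namespace Fermat.Agent.S55.G.UpH119

section Action

variable (G L : Type) [Group G] [Field L] [MulSemiringAction G L] (N : Subgroup G)

/-- The fixed field `L^N`. -/
abbrev FixN : Type := ↥(FixedPoints.subfield N L)

variable [N.Normal]

theorem smul_mem_fixN (g : G) (x : FixN G L N) : g • (x : L) ∈ FixedPoints.subfield N L := by
  intro n
  have h := x.2 ⟨g⁻¹ * (n : G) * g, Subgroup.Normal.conj_mem' ‹N.Normal› _ n.2 g⟩
  have h' : (g⁻¹ * (n : G) * g) • (x : L) = (x : L) := h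
  calc n • g • (x : L) = ((n : G) * g) • (x : L) := by rw [mul_smul]; rfl
    _ = (g * (g⁻¹ * (n : G) * g)) • (x : L) := by congr 1; group
    _ = g • (x : L) := by rw [mul_smul, h']

/-- The action of `G ⧸ N` on the fixed field `L^N` (a definition, NOT a global instance). -/
@[reducible] def quotAct : MulSemiringAction (G ⧸ N) (FixN G L N) where
  smul := fun q x => Quotient.liftOn' q (fun g => (⟨g • (x : L), smul_mem_fixN G L N g x⟩ :
      FixN G L N)) (by
    intro a b hab
    apply Subtype.ext
    have hab' : a⁻¹ * b ∈ N := QuotientGroup.leftRel_apply.1 hab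
    have h := x.2 ⟨a⁻¹ * b, hab'⟩
    have h' : (a⁻¹ * b) • (x : L) = (x : L) := h
    show a • (x : L) = b • (x : L)
    calc a • (x : L) = a • ((a⁻¹ * b) • (x : L)) := by rw [h']
      _ = b • (x : L) := by rw [← mul_smul, mul_inv_cancel_left])
  one_smul := fun x => Subtype.ext (one_smul G (x : L))
  mul_smul := fun q₁ q₂ x => Quotient.inductionOn₂' q₁ q₂ fun g h =>
    Subtype.ext (mul_smul g h (x : L))
  smul_zero := fun q => Quotient.inductionOn' q fun g => Subtype.ext (smul_zero g)
  smul_add := fun q x y => Quotient.inductionOn' q fun g =>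
    Subtype.ext (smul_add g (x : L) (y : L))
  smul_one := fun q => Quotient.inductionOn' q fun g => Subtype.ext (smul_one g)
  smul_mul := fun q x y => Quotient.inductionOn' q fun g =>
    Subtype.ext (MulSemiringAction.smul_mul g (x : L) (y : L))

theorem coe_quotAct_smul (g : G) (x : FixN G L N) :
    letI := quotAct G L N
    (((g : G ⧸ N) • x : FixN G L N) : L) = g • (x : L) := rfl

theorem algebraMap_quotAct_smul (g : G) (x : FixN G L N) :
    letI := quotAct G L N
    algebraMap (FixN G L N) L ((g : G ⧸ N) • x) = g • algebraMap (FixN G L N) L x := rfl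

omit [N.Normal] in
theorem mem_range_algebraMap_fixN_iff (x : L) :
    (∀ n : N, (n : G) • x = x) ↔ x ∈ (algebraMap (FixN G L N) L).range := by
  constructor
  · intro h
    exact ⟨⟨x, fun n => h n⟩, rfl⟩
  · rintro ⟨y, rfl⟩ n
    exact y.2 n

end Action

section Hyps

variable (S : Finset Nat.Primes) (G L : Type) [Group G] [Finite G] [Field L] [NumberField L]
  [MulSemiringAction G L] [FaithfulSMul G L] (N : Subgroup G) [N.Normal]

/-- An element of `G` fixing `L^N` pointwise lies in `N`. -/
theorem mem_of_forall_fixN_smul_eq (g : G) (h : ∀ x : FixN G L N, g • (x : L) = (x : L)) :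
    g ∈ N := by
  have key := IsGaloisGroup.fixingSubgroup_fixedPoints G (FixedPoints.subfield G L) L N
  rw [← key, mem_fixingSubgroup_iff]
  intro x hx
  exact h ⟨x, fun n => hx n⟩

/-- `G ⧸ N` acts faithfully on `L^N`. -/
theorem faithfulSMul_quot :
    letI := quotAct G L N
    FaithfulSMul (G ⧸ N) (FixN G L N) := by
  letI := quotAct G L N
  refine ⟨fun {q₁ q₂} h => ?_⟩
  induction q₁ using QuotientGroup.induction_on with | @H a =>
  induction q₂ using QuotientGroup.induction_on with | @H b =>
  rw [QuotientGroup.eq]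
  apply mem_of_forall_fixN_smul_eq G L N
  intro x
  have := congrArg Subtype.val (h x)
  rw [coe_quotAct_smul, coe_quotAct_smul] at this
  rw [mul_smul, ← this, inv_smul_smul]

omit [Finite G] [NumberField L] [FaithfulSMul G L] in
/-- `μ_p ⊂ L^G` implies `μ_p ⊂ (L^N)^{G/N}`. -/
theorem hasFixedRootOfUnity_quot (p : ℕ) (h : HasFixedRootOfUnity p G L) :
    letI := quotAct G L N
    HasFixedRootOfUnity p (G ⧸ N) (FixN G L N) := by
  letI := quotAct G L N
  obtain ⟨ζ, hζ, hfix⟩ := h
  refine ⟨⟨ζ, fun n => hfix n⟩, ?_, fun q => ?_⟩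
  · exact IsPrimitiveRoot.of_map_of_injective (f := (FixedPoints.subfield N L).subtype)
      hζ (FixedPoints.subfield N L).subtype.injective
  · induction q using QuotientGroup.induction_on with | @H g =>
    exact Subtype.ext (hfix g)

/-- **Unramifiedness descends to the quotient**: if `L/L^G` is unramified outside `S`, so is
`L^N/L^G` (for the group `G ⧸ N`). -/
theorem isUnramOut_quot (h : IsUnramOut S G L) :
    letI := quotAct G L N
    IsUnramOut S (G ⧸ N) (FixN G L N) := by
  letI := quotAct G L N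
  intro w' hw' q hq x
  -- compatibility of the actions on integers
  have hact : ∀ (g : G) (a : 𝓞 (FixN G L N)),
      algebraMap (𝓞 (FixN G L N)) (𝓞 L) ((g : G ⧸ N) • a) =
        g • algebraMap (𝓞 (FixN G L N)) (𝓞 L) a := by
    intro g a
    apply Subtype.ext
    rfl
  -- the hypothesis for `q⁻¹`
  have hq' : ∀ a : 𝓞 (FixN G L N), q⁻¹ • a - a ∈ w'.asIdeal := by
    intro a
    have := hq (q⁻¹ • a)
    rw [smul_inv_smul] at this
    have h2 : q⁻¹ • a - a = -(a - q⁻¹ • a) := by ring
    rw [h2]
    exact neg_mem this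
  have hmem : ∀ a : 𝓞 (FixN G L N), q⁻¹ • a ∈ w'.asIdeal ↔ a ∈ w'.asIdeal := by
    intro a
    constructor
    · intro h1
      have := sub_mem h1 (hq' a)
      simpa using this
    · intro h1
      have := add_mem (hq' a) h1
      simpa using this
  obtain ⟨g, rfl⟩ := QuotientGroup.mk_surjective q
  -- a prime `P` of `B` over `w'`
  haveI : w'.asIdeal.IsPrime := w'.isPrime
  obtain ⟨P, hP, hPw⟩ := Ideal.exists_ideal_over_prime_of_isIntegral_of_isDomain (S := 𝓞 L)
    w'.asIdeal (by
      rw [(RingHom.injective_iff_ker_eq_bot _).1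
        (FaithfulSMul.algebraMap_injective (𝓞 (FixN G L N)) (𝓞 L))]
      exact bot_le)
  haveI : IsGaloisGroup N (FixN G L N) L := IsGaloisGroup.fixedPoints N L
  haveI : IsGaloisGroup N (𝓞 (FixN G L N)) (𝓞 L) :=
    IsGaloisGroup.of_isFractionRing N (𝓞 (FixN G L N)) (𝓞 L) (FixN G L N) L
  haveI : Algebra.IsInvariant (𝓞 (FixN G L N)) (𝓞 L) N := IsGaloisGroup.isInvariant
  haveI : SMulCommClass N (𝓞 (FixN G L N)) (𝓞 L) := IsGaloisGroup.commutes
  -- `g • P` lies over `w'` too
  have hgP : (g • P).under (𝓞 (FixN G L N)) = P.under (𝓞 (FixN G L N)) := by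
    ext a
    rw [Ideal.under_def, Ideal.under_def, Ideal.mem_comap, Ideal.mem_comap,
      Ideal.mem_pointwise_smul_iff_inv_smul_mem, ← hact, ← Ideal.mem_comap, hPw,
      QuotientGroup.mk_inv, hmem, ← hPw, Ideal.mem_comap]
  haveI hgPprime : (g • P).IsPrime := hP.smul g
  obtain ⟨n, hn⟩ := Algebra.IsInvariant.exists_smul_of_under_eq (𝓞 (FixN G L N)) (𝓞 L) N P
    (g • P) hgP.symm
  -- `g₁ := n⁻¹ g` stabilises `P`
  have hg₁P : ((n : G)⁻¹ * g) • P = P := by
    rw [mul_smul, hn]
    exact inv_smul_smul (n : G) P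
  haveI hLO : P.LiesOver w'.asIdeal := ⟨hPw.symm⟩
  -- the automorphism of the residue field induced by `g₁`
  let σ₀ : (𝓞 L ⧸ P) ≃+* (𝓞 L ⧸ P) :=
    Ideal.quotientEquiv P P (MulSemiringAction.toRingEquiv G (𝓞 L) ((n : G)⁻¹ * g)) hg₁P.symm
  have hσ₀ : ∀ b : 𝓞 L, σ₀ (Ideal.Quotient.mk P b) =
      Ideal.Quotient.mk P (((n : G)⁻¹ * g) • b) := fun b => rfl
  have hqn : (((n : G)⁻¹ * g : G) : G ⧸ N) = (g : G ⧸ N) := by
    rw [QuotientGroup.eq]
    have : ((n : G)⁻¹ * g)⁻¹ * g = g⁻¹ * (n : G) * g := by group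
    rw [this]
    exact Subgroup.Normal.conj_mem' ‹N.Normal› _ n.2 g
  let σ : (𝓞 L ⧸ P) ≃ₐ[𝓞 (FixN G L N) ⧸ w'.asIdeal] (𝓞 L ⧸ P) :=
    AlgEquiv.ofRingEquiv (f := σ₀) (by
      intro r
      obtain ⟨a, rfl⟩ := Ideal.Quotient.mk_surjective r
      show σ₀ (Ideal.Quotient.mk P (algebraMap (𝓞 (FixN G L N)) (𝓞 L) a)) =
        Ideal.Quotient.mk P (algebraMap (𝓞 (FixN G L N)) (𝓞 L) a)
      rw [hσ₀, Ideal.Quotient.eq, ← hact, hqn, ← map_sub, ← Ideal.mem_comap, hPw]
      exact hq a)
  obtain ⟨n', hn'⟩ := Ideal.Quotient.stabilizerHom_surjective N w'.asIdeal P σ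
  -- `g₂ := n'⁻¹ n⁻¹ g` lies in the inertia group of `P`
  have hkey : ∀ b : 𝓞 L, ((((n' : N) : G))⁻¹ * ((n : G)⁻¹ * g)) • b - b ∈ P := by
    intro b
    have h1 : Ideal.Quotient.mk P (((n' : N) : G) • b) =
        Ideal.Quotient.mk P (((n : G)⁻¹ * g) • b) := by
      have := congrArg (fun f => f (Ideal.Quotient.mk P b)) hn'
      exact this
    rw [Ideal.Quotient.eq] at h1
    have hst : ((n' : N) : G) • P = P := n'.2
    have h2 : ((n' : N) : G)⁻¹ • ((((n' : N) : G)) • b - ((n : G)⁻¹ * g) • b) ∈ P := by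
      rw [← Ideal.mem_pointwise_smul_iff_inv_smul_mem, hst]
      exact h1
    have h3 : (((n' : N) : G)⁻¹ * ((n : G)⁻¹ * g)) • b - b =
        -(((n' : N) : G)⁻¹ • ((((n' : N) : G)) • b - ((n : G)⁻¹ * g) • b)) := by
      rw [smul_sub, inv_smul_smul, mul_smul]
      ring
    rw [h3]
    exact neg_mem h2
  have hPbot : P ≠ ⊥ := by
    rintro rfl
    apply w'.ne_bot
    rw [← hPw]
    exact Ideal.comap_bot_of_injective _ (FaithfulSMul.algebraMap_injective _ _)
  have hnotS : ¬ IsAbove S L ⟨P, hP, hPbot⟩ := by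
    rintro ⟨q, hqS, hqP⟩
    apply hw'
    refine ⟨q, hqS, ?_⟩
    rw [← hPw, Ideal.mem_comap, map_natCast]
    exact hqP
  have htriv := h ⟨P, hP, hPbot⟩ hnotS _ hkey
  -- conclude
  apply Subtype.ext
  rw [coe_quotAct_smul]
  have h4 := htriv (x : L)
  have h5 : g • (x : L) = ((n : G) * ((n' : N) : G)) •
      ((((n' : N) : G)⁻¹ * ((n : G)⁻¹ * g)) • (x : L)) := by
    rw [← mul_smul]
    congr 1
    group
  rw [h5, h4]
  exact x.2 (n * n')

end Hyps

end Fermat.Agent.S55.G.UpH119

end
end
-- ===== PACK-END S55/G/UpH119/Quot.lean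

-- ===== PACK-BEGIN S55/Local/H959/RamExp.lean
section




/-!
# S55, layer L, piece UR6' (helper959), part 1: the ramification exponent

Elementary consequences of `IsUnif` (no structure theory): for local fields `K ⊆ L` with
uniformizers `ϖK`, `ϖL` there is a unique `e ≥ 1` with `ϖK = unit * ϖL ^ e`
(`exists_ramExp`, `unif_exp_unique`), `L / K` is unramified iff `e = 1`
(`isUnram_iff_ramExp_eq_one`), and `e` is multiplicative in towers (`ramExp_tower`).
-/

set_option autoImplicit false
set_option linter.unusedSectionVars false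

namespace Fermat.Agent.S55.Local.H959

open Fermat.Agent.S55.Local

section Elementary

variable {A F : Type} [CommRing A] [Field F] [Algebra A F]
variable {L : Type} [Field L] [Algebra F L]

/-- The exponent `n` with `x = unit * ϖ ^ n` is unique. -/
lemma unif_exp_unique {ϖ : Lˣ} (h : IsUnif A F L ϖ) {x : Lˣ} {n m : ℤ}
    (hn : x * ϖ ^ (-n) ∈ intUnits A F L) (hm : x * ϖ ^ (-m) ∈ intUnits A F L) : n = m := by
  have h1 : ϖ ^ (n - m) ∈ intUnits A F L := by
    have h2 := (intUnits A F L).mul_mem ((intUnits A F L).inv_mem hn) hm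
    have h3 : (x * ϖ ^ (-n))⁻¹ * (x * ϖ ^ (-m)) = ϖ ^ (n - m) := by
      rw [mul_inv_rev, ← zpow_neg, neg_neg, mul_assoc, inv_mul_cancel_left, ← zpow_add]
      congr 1
    rwa [h3] at h2
  have := H724.zpow_mem_intUnits724 A F L h.1 h.2.1 h1
  omega

/-- The exponent of an integral element is nonnegative. -/
lemma unif_exp_nonneg {ϖ : Lˣ} (h : IsUnif A F L ϖ) {x : Lˣ} {n : ℤ}
    (hn : x * ϖ ^ (-n) ∈ intUnits A F L) (hx : IsInt A F L (x : L)) : 0 ≤ n := by
  by_contra hneg
  rw [not_le] at hneg
  have h1 := H294.unif_not_isInt_of_neg h hneg hn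
  apply h1
  have h2 : ϖ ^ n * (x * ϖ ^ (-n)) = x := by
    rw [mul_comm x, ← mul_assoc, ← zpow_add, add_neg_cancel, zpow_zero, one_mul]
  rw [h2]
  exact hx

/-- An element `unit * ϖ ^ n` with `0 ≤ n` is integral. -/
lemma unif_isInt_of_exp_nonneg {ϖ : Lˣ} (h : IsUnif A F L ϖ) {x : Lˣ} {n : ℤ}
    (hn : x * ϖ ^ (-n) ∈ intUnits A F L) (h0 : 0 ≤ n) : IsInt A F L (x : L) := by
  obtain ⟨m, rfl⟩ := Int.eq_ofNat_of_zero_le h0
  have h2 : x = x * ϖ ^ (-(m : ℤ)) * ϖ ^ m := by
    rw [mul_assoc, ← zpow_natCast, ← zpow_add, neg_add_cancel, zpow_zero, mul_one]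
  rw [h2, Units.val_mul, Units.val_pow_eq_pow_val]
  exact hn.1.mul (H294.unif_isInt_pow h m)

/-- An integral element whose exponent is `0` ... : `x` is an integral unit iff its exponent
vanishes. -/
lemma unif_exp_eq_zero_iff {ϖ : Lˣ} (h : IsUnif A F L ϖ) {x : Lˣ} {n : ℤ}
    (hn : x * ϖ ^ (-n) ∈ intUnits A F L) : x ∈ intUnits A F L ↔ n = 0 := by
  constructor
  · intro hx
    have h0 : x * ϖ ^ (-(0 : ℤ)) ∈ intUnits A F L := by simpa using hx
    exact unif_exp_unique h hn h0
  · rintro rfl
    simpa using hn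

/-- Two uniformizers differ by an integral unit. -/
lemma unif_div_unif {ϖ ϖ' : Lˣ} (h : IsUnif A F L ϖ) (h' : IsUnif A F L ϖ') :
    ϖ' * ϖ ^ (-(1 : ℤ)) ∈ intUnits A F L := by
  obtain ⟨n, hn⟩ := h.2.2 ϖ'
  obtain ⟨m, hm⟩ := h'.2.2 ϖ
  have hn0 : 0 ≤ n := unif_exp_nonneg h hn h'.1
  have hm0 : 0 ≤ m := unif_exp_nonneg h' hm h.1
  have hn1 : n ≠ 0 := fun h0 => h'.2.1 ((unif_exp_eq_zero_iff h hn).2 h0)
  have hm1 : m ≠ 0 := fun h0 => h.2.1 ((unif_exp_eq_zero_iff h' hm).2 h0)
  -- `ϖ' = u ϖ^n`, `ϖ = v ϖ'^m`, so `ϖ' ^ (1 - n m)` is a unit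
  have h1 : ϖ' ^ (1 - m * n) ∈ intUnits A F L := by
    have h2 := (intUnits A F L).mul_mem hn ((intUnits A F L).zpow_mem hm n)
    have h3 : ϖ' * ϖ ^ (-n) * (ϖ * ϖ' ^ (-m)) ^ n = ϖ' ^ (1 - m * n) := by
      rw [mul_zpow, ← zpow_mul, zpow_sub, zpow_one, zpow_neg, mul_assoc,
        inv_mul_cancel_left, neg_mul, zpow_neg]
    rwa [h3] at h2
  have h4 := H724.zpow_mem_intUnits724 A F L h'.1 h'.2.1 h1
  have h5 : m * n = 1 := by omega
  have h6 : n = 1 := by
    rcases Int.eq_one_or_neg_one_of_mul_eq_one h5 with h | h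
    · rw [h, one_mul] at h5; exact h5
    · omega
  rwa [h6] at hn

variable {K : Type} [Field K] [Algebra F K] [Algebra K L] [IsScalarTower F K L]

/-- The ramification exponent: `ϖK = unit * ϖL ^ e` with `e ≥ 1`. -/
lemma exists_ramExp {ϖK : Kˣ} {ϖL : Lˣ} (hK : IsUnif A F K ϖK) (hL : IsUnif A F L ϖL) :
    ∃ e : ℕ, 0 < e ∧ unitsIncl L K ϖK * ϖL ^ (-(e : ℤ)) ∈ intUnits A F L := by
  obtain ⟨n, hn⟩ := hL.2.2 (unitsIncl L K ϖK)
  have hint : IsInt A F L ((unitsIncl L K ϖK : Lˣ) : L) := by
    rw [unitsIncl_coe]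
    exact (H724.isInt_algebraMap_iff724 A F K L _).2 hK.1
  have hn0 : 0 ≤ n := unif_exp_nonneg hL hn hint
  have hn1 : n ≠ 0 := fun h0 => hK.2.1
    ((H724.unitsIncl_mem_intUnits_iff724 A F K L ϖK).1 ((unif_exp_eq_zero_iff hL hn).2 h0))
  obtain ⟨e, rfl⟩ := Int.eq_ofNat_of_zero_le hn0
  exact ⟨e, by omega, hn⟩

/-- `L / K` is unramified iff the ramification exponent is `1`. -/
lemma isUnram_iff_ramExp_eq_one {ϖK : Kˣ} {ϖL : Lˣ} (hK : IsUnif A F K ϖK)
    (hL : IsUnif A F L ϖL) {e : ℕ}
    (he : unitsIncl L K ϖK * ϖL ^ (-(e : ℤ)) ∈ intUnits A F L) :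
    IsUnram A F L K ↔ e = 1 := by
  constructor
  · intro hur
    have h1 : IsUnif A F L (unitsIncl L K ϖK) := H294.isUnif_unitsIncl hur hK
    have h2 := unif_div_unif hL h1
    have := unif_exp_unique hL he h2
    exact_mod_cast this
  · rintro rfl x
    obtain ⟨n, hn⟩ := hL.2.2 x
    refine ⟨ϖK ^ n, ?_⟩
    have h2 := (intUnits A F L).mul_mem hn
      ((intUnits A F L).inv_mem ((intUnits A F L).zpow_mem he n))
    have h3 : x * ϖL ^ (-n) * ((unitsIncl L K ϖK * ϖL ^ (-((1 : ℕ) : ℤ))) ^ n)⁻¹ =
        x * (unitsIncl L K (ϖK ^ n))⁻¹ := by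
      rw [map_zpow, mul_zpow, mul_inv, ← zpow_mul, Nat.cast_one, neg_one_mul, zpow_neg ϖL n,
        inv_inv, mul_assoc]
      congr 1
      rw [mul_comm ((unitsIncl L K ϖK ^ n)⁻¹), inv_mul_cancel_left]
    rwa [h3] at h2

end Elementary

section Tower

variable {A F : Type} [CommRing A] [Field F] [Algebra A F]
variable {K : Type} [Field K] [Algebra F K]
variable {E : Type} [Field E] [Algebra F E] [Algebra K E] [IsScalarTower F K E]
variable {N : Type} [Field N] [Algebra F N] [Algebra K N] [Algebra E N]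
  [IsScalarTower F E N] [IsScalarTower K E N]

lemma unitsIncl_unitsIncl (y : Kˣ) : unitsIncl N E (unitsIncl E K y) = unitsIncl N K y := by
  ext
  simp only [unitsIncl_coe]
  exact (IsScalarTower.algebraMap_apply K E N _).symm

/-- The ramification exponent is multiplicative in towers. -/
lemma ramExp_tower {ϖK : Kˣ} {ϖE : Eˣ} {ϖN : Nˣ} {a b : ℕ}
    (ha : unitsIncl E K ϖK * ϖE ^ (-(a : ℤ)) ∈ intUnits A F E)
    (hb : unitsIncl N E ϖE * ϖN ^ (-(b : ℤ)) ∈ intUnits A F N) :
    unitsIncl N K ϖK * ϖN ^ (-((a * b : ℕ) : ℤ)) ∈ intUnits A F N := by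
  have h1 : unitsIncl N E (unitsIncl E K ϖK * ϖE ^ (-(a : ℤ))) ∈ intUnits A F N :=
    H294.unitsIncl_mem_intUnits_of_mem ha
  have h2 := (intUnits A F N).mul_mem h1 ((intUnits A F N).pow_mem hb a)
  have h3 : unitsIncl N E (unitsIncl E K ϖK * ϖE ^ (-(a : ℤ))) *
      (unitsIncl N E ϖE * ϖN ^ (-(b : ℤ))) ^ a = unitsIncl N K ϖK * ϖN ^ (-((a * b : ℕ) : ℤ)) := by
    rw [map_mul, unitsIncl_unitsIncl, map_zpow, mul_pow, zpow_neg, zpow_natCast, zpow_neg,
      zpow_natCast, zpow_neg, zpow_natCast, inv_pow, ← pow_mul, mul_comm b a, mul_assoc,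
      inv_mul_cancel_left]
  rwa [h3] at h2

end Tower

end Fermat.Agent.S55.Local.H959

end
-- ===== PACK-END S55/Local/H959/RamExp.lean

-- ===== PACK-BEGIN S55/L/Unr534/Abs.lean
section



/-!
# S55, layer L, unramified extensions (helper534): structure of unramified extensions

Abstract setting of `Core.lean`.  `E / K` is *unramified* if `𝔪_A C = 𝔪_C`.

* `exists_primitiveRoot_of_unram534` : if `E / K` is unramified of degree `n` then `E = K(ζ)` for a
  primitive `(Q ^ n - 1)`-th root of unity `ζ`;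
* `unram_of_adjoin_root534` : if `E = K(ζ)` with `ζ ^ m = 1`, `m` a unit of `A`, then `E / K` is
  unramified.
-/

set_option autoImplicit false
set_option linter.style.haveILetI false
set_option linter.unusedSectionVars false

namespace Fermat.Agent.S55.L.Unr534

open IsLocalRing Polynomial IntermediateField

section Abs

variable (A K : Type) [CommRing A] [IsDomain A] [IsDiscreteValuationRing A]
  [IsAdicComplete (maximalIdeal A) A] [Finite (ResidueField A)] [Field K] [CharZero K]
  [Algebra A K] [IsFractionRing A K]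
  (E : Type) [Field E] [Algebra K E] [FiniteDimensional K E] [Algebra A E] [IsScalarTower A K E]

include K in
/-- In the unramified case the residue field of `E` has `Q ^ [E : K]` elements. -/
theorem card_residue_of_unram534
    (hunr : haveI := isLocalRing_OE A K E
      (maximalIdeal A).map (algebraMap A (OE A E)) = maximalIdeal (OE A E)) :
    haveI := isLocalRing_OE A K E
    Nat.card (ResidueField (OE A E)) = Nat.card (ResidueField A) ^ Module.finrank K E := by
  haveI := isLocalRing_OE A K E
  rw [← card_quot_map534 A K E]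
  show Nat.card (OE A E ⧸ maximalIdeal (OE A E)) = _
  rw [hunr]

theorem isScalarTower_inter534 (E₀ : IntermediateField K E) : IsScalarTower A E₀ E :=
  IsScalarTower.of_algebraMap_eq (fun x => by
    rw [IsScalarTower.algebraMap_apply A K E, IsScalarTower.algebraMap_apply A K E₀]
    rfl)

/-- The inclusion of rings of integers `O_{E₀} → O_E` for an intermediate field `E₀`. -/
noncomputable def inclOE (E₀ : IntermediateField K E) : OE A E₀ →+* OE A E :=
  haveI := isScalarTower_inter534 A K E E₀
  RingHom.codRestrict ((algebraMap E₀ E).comp (algebraMap (OE A E₀) E₀)) (OE A E) (by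
    intro x
    have hx : IsIntegral A (x : E₀) := x.2
    exact hx.map (IsScalarTower.toAlgHom A E₀ E))

@[simp] theorem coe_inclOE (E₀ : IntermediateField K E) (x : OE A E₀) :
    ((inclOE A K E E₀ x : OE A E) : E) = ((x : E₀) : E) := rfl

include K in
/-- If `E / K` is unramified of degree `n` then `E = K(ζ)` for a primitive `(Q ^ n - 1)`-th
root of unity `ζ`. -/
theorem exists_primitiveRoot_of_unram534
    (hunr : haveI := isLocalRing_OE A K E
      (maximalIdeal A).map (algebraMap A (OE A E)) = maximalIdeal (OE A E)) :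
    ∃ ζ : E, IsPrimitiveRoot ζ (Nat.card (ResidueField A) ^ Module.finrank K E - 1) ∧
      IntermediateField.adjoin K {ζ} = ⊤ := by
  haveI := isLocalRing_OE A K E
  haveI := isAdicComplete_OE A K E
  haveI := finite_residueField_OE A K E
  have hcard := card_residue_of_unram534 A K E hunr
  obtain ⟨ω, hω1, hω2, hω3⟩ := exists_teich534 (OE A E)
  rw [hcard] at hω1 hω2
  have hprim : IsPrimitiveRoot (ω : E)
      (Nat.card (ResidueField A) ^ Module.finrank K E - 1) := by
    rw [IsPrimitiveRoot.iff_def]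
    refine ⟨?_, fun l hl => hω2 l (Subtype.ext ?_)⟩
    · have := congrArg (fun x : OE A E => (x : E)) hω1
      simpa using this
    · simpa using hl
  refine ⟨(ω : E), hprim, ?_⟩
  -- the subfield generated by `ω`
  set E₀ : IntermediateField K E := K⟮(ω : E)⟯ with hE₀
  haveI := isLocalRing_OE A K E₀
  haveI := isScalarTower_inter534 A K E E₀
  have hωint : IsIntegral A (⟨(ω : E), mem_adjoin_simple_self K (ω : E)⟩ : E₀) := by
    have h1 : IsIntegral A ((IsScalarTower.toAlgHom A E₀ E)
        (⟨(ω : E), mem_adjoin_simple_self K (ω : E)⟩ : E₀)) := ω.2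
    exact (isIntegral_algHom_iff (IsScalarTower.toAlgHom A E₀ E)
      (algebraMap E₀ E).injective).mp h1
  set ω₀ : OE A E₀ := ⟨⟨(ω : E), mem_adjoin_simple_self K (ω : E)⟩, hωint⟩ with hω₀
  have hincl : inclOE A K E E₀ ω₀ = ω := Subtype.ext rfl
  -- the surjection onto the residue field
  set φ : OE A E₀ →+* ResidueField (OE A E) := (residue (OE A E)).comp (inclOE A K E E₀) with hφ
  have hsurj : Function.Surjective φ := by
    intro y
    obtain ⟨x, rfl⟩ := residue_surjective (R := OE A E) y
    by_cases hx : x ∈ maximalIdeal (OE A E)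
    · refine ⟨0, ?_⟩
      rw [map_zero]
      exact ((residue_eq_zero_iff x).mpr hx).symm
    · obtain ⟨i, hi⟩ := hω3 x hx
      refine ⟨ω₀ ^ i, ?_⟩
      rw [hφ, RingHom.comp_apply, map_pow, hincl]
      have := (residue_eq_zero_iff _).mpr hi
      rw [map_sub, sub_eq_zero] at this
      exact this.symm
  have hker : RingHom.ker φ = maximalIdeal (OE A E₀) :=
    eq_maximalIdeal (RingHom.ker_isMaximal_of_surjective φ hsurj)
  have hcard2 : Nat.card (ResidueField (OE A E)) = Nat.card (ResidueField (OE A E₀)) := by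
    have e := RingHom.quotientKerEquivOfSurjective hsurj
    rw [← Nat.card_congr e.toEquiv, hker]
    rfl
  have hle := card_residue_le534 A K E₀
  rw [← hcard2, hcard] at hle
  have hn : Module.finrank K E ≤ Module.finrank K E₀ :=
    (Nat.pow_le_pow_iff_right (two_le_card_residue534 A)).mp hle
  refine IntermediateField.eq_of_le_of_finrank_le le_top ?_
  rw [IntermediateField.finrank_top']
  exact hn

include K in
/-- Two `K`-automorphisms of `E = K(ζ)` which agree on `ζ` are equal. -/
theorem algEquiv_ext_of_adjoin534 (ζ : E) (htop : IntermediateField.adjoin K {ζ} = ⊤)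
    (σ σ' : E ≃ₐ[K] E) (h : σ ζ = σ' ζ) : σ = σ' := by
  have halg : IsAlgebraic K ζ := Algebra.IsAlgebraic.isAlgebraic ζ
  have h1 : Algebra.adjoin K {ζ} = ⊤ := by
    rw [← IntermediateField.adjoin_simple_toSubalgebra_of_isAlgebraic halg, htop]
    rfl
  have h2 : (σ : E →ₐ[K] E) = (σ' : E →ₐ[K] E) :=
    AlgHom.ext_of_adjoin_eq_top h1 (fun x hx => by
      rw [Set.mem_singleton_iff] at hx
      subst hx
      exact h)
  exact AlgEquiv.ext (fun x => DFunLike.congr_fun h2 x)

/-- The action of `Gal(E/K)` on the residue field of `E`. -/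
noncomputable def resAut534 (σ : E ≃ₐ[K] E) :
    haveI := isLocalRing_OE A K E
    ResidueField (OE A E) →+* ResidueField (OE A E) :=
  haveI := isLocalRing_OE A K E
  ResidueField.map ((galRestrict A K E (OE A E) σ : OE A E ≃ₐ[A] OE A E) : OE A E →+* OE A E)

theorem resAut534_residue (σ : E ≃ₐ[K] E) (x : OE A E) :
    haveI := isLocalRing_OE A K E
    resAut534 A K E σ (residue (OE A E) x) =
      residue (OE A E) (galRestrict A K E (OE A E) σ x) := by
  haveI := isLocalRing_OE A K E
  exact ResidueField.map_residue _ x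

/-- The action of `Gal(E/K)` on the residue field of `E`, as an algebra homomorphism over the
residue field of `K`. -/
noncomputable def resAlgHom534 (σ : E ≃ₐ[K] E) :
    haveI := isLocalRing_OE A K E
    haveI := isLocalHom_OE A K E
    ResidueField (OE A E) →ₐ[ResidueField A] ResidueField (OE A E) :=
  haveI := isLocalRing_OE A K E
  haveI := isLocalHom_OE A K E
  { resAut534 A K E σ with
    commutes' := fun r => by
      obtain ⟨a, rfl⟩ := residue_surjective (R := A) r
      rw [ResidueField.algebraMap_residue]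
      show resAut534 A K E σ _ = _
      rw [resAut534_residue, AlgEquiv.commutes] }

theorem resAlgHom534_residue (σ : E ≃ₐ[K] E) (x : OE A E) :
    haveI := isLocalRing_OE A K E
    haveI := isLocalHom_OE A K E
    resAlgHom534 A K E σ (residue (OE A E) x) =
      residue (OE A E) (galRestrict A K E (OE A E) σ x) :=
  resAut534_residue A K E σ x

include K in
/-- If `E = K(ζ)` with `ζ ^ m = 1`, `m` a unit of `A`, then `E / K` is unramified. -/
theorem unram_of_adjoin_root534 (ζ : E) (m : ℕ) (hm : IsUnit ((m : ℕ) : A)) (hζ : ζ ^ m = 1)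
    (htop : IntermediateField.adjoin K {ζ} = ⊤) :
    haveI := isLocalRing_OE A K E
    (maximalIdeal A).map (algebraMap A (OE A E)) = maximalIdeal (OE A E) := by
  classical
  haveI := isLocalRing_OE A K E
  haveI := isLocalHom_OE A K E
  haveI := finite_residueField_OE A K E
  have hm0 : 0 < m := by
    rcases Nat.eq_zero_or_pos m with h | h
    · subst h
      rw [Nat.cast_zero] at hm
      exact absurd hm not_isUnit_zero
    · exact h
  -- `E / K` is Galois
  have hfin : IsOfFinOrder ζ := isOfFinOrder_iff_pow_eq_one.mpr ⟨m, hm0, hζ⟩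
  have hd : 0 < orderOf ζ := hfin.orderOf_pos
  haveI : NeZero (orderOf ζ) := ⟨hd.ne'⟩
  have hprim : IsPrimitiveRoot ζ (orderOf ζ) := IsPrimitiveRoot.orderOf ζ
  haveI hcyc : IsCyclotomicExtension {orderOf ζ} K K⟮ζ⟯ :=
    hprim.intermediateField_adjoin_isCyclotomicExtension K
  haveI hgal0 : IsGalois K K⟮ζ⟯ := IsCyclotomicExtension.isGalois {orderOf ζ} K K⟮ζ⟯
  haveI hgal1 : IsGalois K (⊤ : IntermediateField K E) := htop ▸ hgal0
  haveI hgal : IsGalois K E := IsGalois.of_algEquiv (IntermediateField.topEquiv (F := K) (E := E))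
  -- the root of unity in the ring of integers
  have hint : IsIntegral A ζ := IsIntegral.of_pow hm0 (by rw [hζ]; exact isIntegral_one)
  set ζC : OE A E := ⟨ζ, hint⟩ with hζC
  have hmC : IsUnit ((m : ℕ) : OE A E) := by
    have := hm.map (algebraMap A (OE A E))
    rwa [map_natCast] at this
  -- injectivity
  have hinj : Function.Injective (resAlgHom534 A K E) := by
    intro σ σ' hσ
    apply algEquiv_ext_of_adjoin534 K E ζ htop
    set u : OE A E := galRestrict A K E (OE A E) σ ζC with hu
    set v : OE A E := galRestrict A K E (OE A E) σ' ζC with hv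
    have hum : u ^ m = 1 := by
      rw [hu, ← map_pow]
      have : ζC ^ m = 1 := Subtype.ext (by simpa using hζ)
      rw [this, map_one]
    have hvm : v ^ m = 1 := by
      rw [hv, ← map_pow]
      have : ζC ^ m = 1 := Subtype.ext (by simpa using hζ)
      rw [this, map_one]
    have huv : u - v ∈ maximalIdeal (OE A E) := by
      rw [← residue_eq_zero_iff, map_sub, sub_eq_zero, hu, hv, ← resAlgHom534_residue,
        ← resAlgHom534_residue, hσ]
    have hvv : v * v ^ (m - 1) = 1 := by
      rw [← pow_succ', Nat.sub_add_cancel hm0, hvm]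
    have hw : (u * v ^ (m - 1)) ^ m = 1 := by
      rw [mul_pow, hum, one_mul, ← pow_mul, mul_comm, pow_mul, hvm, one_pow]
    have hw1 : u * v ^ (m - 1) - 1 ∈ maximalIdeal (OE A E) := by
      have : u * v ^ (m - 1) - 1 = (u - v) * v ^ (m - 1) := by
        rw [sub_mul, hvv]
      rw [this]
      exact Ideal.mul_mem_right _ _ huv
    have hone := eq_one_of_pow_eq_one534 hmC hw hw1
    have huv' : u = v := by
      have h3 : u * v ^ (m - 1) = v * v ^ (m - 1) := by rw [hone, hvv]
      have h4 : IsUnit (v ^ (m - 1)) := IsUnit.of_mul_eq_one _ (by rw [mul_comm]; exact hvv)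
      exact h4.mul_left_injective h3
    have h5 := congrArg (fun x : OE A E => (x : E)) huv'
    have h6 : ((u : OE A E) : E) = σ ζ := algebraMap_galRestrict_apply A σ ζC
    have h7 : ((v : OE A E) : E) = σ' ζ := algebraMap_galRestrict_apply A σ' ζC
    rw [← h6, ← h7]
    exact h5
  -- counting
  haveI : Module.Finite (ResidueField A) (ResidueField (OE A E)) := Module.Finite.of_finite
  have h1 : Nat.card (E ≃ₐ[K] E) = Module.finrank K E := IsGalois.card_aut_eq_finrank K E
  have h2 : Nat.card (E ≃ₐ[K] E) ≤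
      Nat.card (ResidueField (OE A E) →ₐ[ResidueField A] ResidueField (OE A E)) :=
    Nat.card_le_card_of_injective _ hinj
  have h3 : Nat.card (ResidueField (OE A E) →ₐ[ResidueField A] ResidueField (OE A E)) ≤
      Module.finrank (ResidueField A) (ResidueField (OE A E)) := by
    rw [Nat.card_eq_fintype_card]
    exact AlgHom.card_le
  have h4 : Nat.card (ResidueField (OE A E)) =
      Nat.card (ResidueField A) ^ Module.finrank (ResidueField A) (ResidueField (OE A E)) :=
    Module.natCard_eq_pow_finrank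
  apply map_eq_of_card534 A K E
  rw [h4]
  exact Nat.pow_le_pow_right Nat.card_pos (by omega)

end Abs

end Fermat.Agent.S55.L.Unr534

end
-- ===== PACK-END S55/L/Unr534/Abs.lean

-- ===== PACK-BEGIN S55/Bridge/Cochain.lean
section




/-!
# S55 bridge: cochain-level description of the Prelude objects

Everything is expressed through functions on `G_ℚ` (resp. on the local Galois group) that are
constant modulo `F.fixingSubgroup` for a finite GALOIS extension `F/ℚ` unramified outside `S`
(resp. modulo `E.fixingSubgroup`, `E/ℚ_q` finite).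

* `isLevelConstantS₁_iff_galois`, `isLevelConstantS₂_iff_galois`
* `exists_rep_continuousH2S`, `continuousH2Sπ_eq_zero_iff_galois`
* `locRes₂S_mk_eq_zero_iff`
* `mem_sha₂_mk_iff`, `mem_sha₁_iff_cocycle`
-/

set_option autoImplicit false

namespace Fermat.Agent.S55.Bridge

open groupCohomology CategoryTheory ExtCitation IntermediateField

/-- `f` is constant on right cosets of `N`. -/
def IsConstMod₁ {G X : Type*} [Group G] (N : Subgroup G) (f : G → X) : Prop :=
  ∀ g s, s ∈ N → f (g * s) = f g

/-- `f` is constant on right cosets of `N` in both variables. -/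
def IsConstMod₂ {G X : Type*} [Group G] (N : Subgroup G) (f : G × G → X) : Prop :=
  ∀ g g' s s', s ∈ N → s' ∈ N → f (g * s, g' * s') = f (g, g')

theorem IsConstMod₁.mono {G X : Type*} [Group G] {N N' : Subgroup G} (h : N' ≤ N) {f : G → X}
    (hf : IsConstMod₁ N f) : IsConstMod₁ N' f := fun g s hs => hf g s (h hs)

theorem IsConstMod₂.mono {G X : Type*} [Group G] {N N' : Subgroup G} (h : N' ≤ N)
    {f : G × G → X} (hf : IsConstMod₂ N f) : IsConstMod₂ N' f :=
  fun g g' s s' hs hs' => hf g g' s s' (h hs) (h hs')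

variable (S : Finset Nat.Primes)

section Global

/-- S-level-constancy can be tested on finite Galois levels (above any given level `F₀`). -/
theorem isLevelConstantS₁_iff_galois {X : Type*}
    (f : (AlgebraicClosure ℚ ≃ₐ[ℚ] AlgebraicClosure ℚ) → X)
    (F₀ : IntermediateField ℚ (AlgebraicClosure ℚ)) (hF₀ : F₀.IsUnramifiedOutside S) :
    IsLevelConstantS₁ S f ↔ ∃ F : IntermediateField ℚ (AlgebraicClosure ℚ),
      F.IsUnramifiedOutside S ∧ IsGalois ℚ F ∧ F₀ ≤ F ∧ IsConstMod₁ F.fixingSubgroup f := by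
  constructor
  · rintro ⟨F₁, hF₁, h⟩
    obtain ⟨L, hL, hgal, hle⟩ := exists_galois_level_ge S (F₁ ⊔ F₀) (hF₁.sup hF₀)
    refine ⟨L, hL, hgal, le_sup_right.trans hle, fun g s hs => h g s ?_⟩
    exact IntermediateField.fixingSubgroup_antitone (le_sup_left.trans hle) hs
  · rintro ⟨F, hF, -, -, h⟩
    exact ⟨F, hF, h⟩

theorem isLevelConstantS₂_iff_galois {X : Type*}
    (f : (AlgebraicClosure ℚ ≃ₐ[ℚ] AlgebraicClosure ℚ) ×
      (AlgebraicClosure ℚ ≃ₐ[ℚ] AlgebraicClosure ℚ) → X)
    (F₀ : IntermediateField ℚ (AlgebraicClosure ℚ)) (hF₀ : F₀.IsUnramifiedOutside S) :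
    IsLevelConstantS₂ S f ↔ ∃ F : IntermediateField ℚ (AlgebraicClosure ℚ),
      F.IsUnramifiedOutside S ∧ IsGalois ℚ F ∧ F₀ ≤ F ∧ IsConstMod₂ F.fixingSubgroup f := by
  constructor
  · rintro ⟨F₁, hF₁, h⟩
    obtain ⟨L, hL, hgal, hle⟩ := exists_galois_level_ge S (F₁ ⊔ F₀) (hF₁.sup hF₀)
    refine ⟨L, hL, hgal, le_sup_right.trans hle, fun g g' s s' hs hs' => h g g' s s' ?_ ?_⟩
    · exact IntermediateField.fixingSubgroup_antitone (le_sup_left.trans hle) hs
    · exact IntermediateField.fixingSubgroup_antitone (le_sup_left.trans hle) hs'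
  · rintro ⟨F, hF, -, -, h⟩
    exact ⟨F, hF, h⟩

variable {k : Type} [CommRing k]
  (M : Rep.{0, 0, 0} k (AlgebraicClosure ℚ ≃ₐ[ℚ] AlgebraicClosure ℚ))

/-- Every class in `continuousH2S S M` is represented by a 2-cocycle which is constant modulo
`G_F` for a finite Galois `F ⊇ F₀` unramified outside `S`. -/
theorem exists_rep_continuousH2S (x : continuousH2S S M)
    (F₀ : IntermediateField ℚ (AlgebraicClosure ℚ)) (hF₀ : F₀.IsUnramifiedOutside S) :
    ∃ F : IntermediateField ℚ (AlgebraicClosure ℚ),
      F.IsUnramifiedOutside S ∧ IsGalois ℚ F ∧ F₀ ≤ F ∧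
      ∃ f : ↥(levelCocyclesS₂ S M), IsConstMod₂ F.fixingSubgroup
        (f : (AlgebraicClosure ℚ ≃ₐ[ℚ] AlgebraicClosure ℚ) ×
          (AlgebraicClosure ℚ ≃ₐ[ℚ] AlgebraicClosure ℚ) → M) ∧
        continuousH2Sπ S M f = x := by
  obtain ⟨f, rfl⟩ := Submodule.mkQ_surjective _ x
  obtain ⟨F, hF, hgal, hle, hc⟩ := (isLevelConstantS₂_iff_galois S _ F₀ hF₀).1 f.2.2
  exact ⟨F, hF, hgal, hle, f, hc, rfl⟩

/-- A class in `continuousH2S S M` vanishes iff a representing cocycle is the coboundary of a
1-cochain constant modulo `G_F` for a finite Galois `F ⊇ F₀` unramified outside `S`. -/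
theorem continuousH2Sπ_eq_zero_iff_galois (f : ↥(levelCocyclesS₂ S M))
    (F₀ : IntermediateField ℚ (AlgebraicClosure ℚ)) (hF₀ : F₀.IsUnramifiedOutside S) :
    continuousH2Sπ S M f = 0 ↔
      ∃ F : IntermediateField ℚ (AlgebraicClosure ℚ),
        F.IsUnramifiedOutside S ∧ IsGalois ℚ F ∧ F₀ ≤ F ∧
        ∃ c : (AlgebraicClosure ℚ ≃ₐ[ℚ] AlgebraicClosure ℚ) → M,
          IsConstMod₁ F.fixingSubgroup c ∧ (d₁₂ M).hom c = f := by
  rw [continuousH2Sπ_eq_zero_iff, mem_levelCoboundariesS₂_iff]
  constructor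
  · rintro ⟨c, hc, hd⟩
    obtain ⟨F, hF, hgal, hle, hcF⟩ := (isLevelConstantS₁_iff_galois S c F₀ hF₀).1 hc
    exact ⟨F, hF, hgal, hle, c, hcF, hd⟩
  · rintro ⟨F, hF, -, -, c, hc, hd⟩
    exact ⟨c, ⟨F, hF, hc⟩, hd⟩

end Global

section Local

variable {k : Type} [CommRing k]
  (M : Rep.{0, 0, 0} k (AlgebraicClosure ℚ ≃ₐ[ℚ] AlgebraicClosure ℚ))

/-- The localisation at `r : H → G_ℚ` of the class of `f` vanishes iff `f ∘ (r × r)` is the
coboundary of a level-constant 1-cochain on `H`. -/
theorem locRes₂S_mk_eq_zero_iff {H : Type} [Group H]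
    (r : H →* (AlgebraicClosure ℚ ≃ₐ[ℚ] AlgebraicClosure ℚ)) (f : ↥(levelCocyclesS₂ S M)) :
    locRes₂S S M r (continuousH2Sπ S M f) = 0 ↔
      ∃ c : H → M, IsLevelConstant₁ r c ∧
        ∀ h h' : H, M.ρ (r h) (c h') - c (h * h') + c h
          = (f : (AlgebraicClosure ℚ ≃ₐ[ℚ] AlgebraicClosure ℚ) ×
              (AlgebraicClosure ℚ ≃ₐ[ℚ] AlgebraicClosure ℚ) → M) (r h, r h') := by
  have h1 : locRes₂S S M r (continuousH2Sπ S M f)
      = continuousH2π r (Rep.res r M)
          (levelCocycles₂Map (rH := MonoidHom.id _) (rG := r) r (fun _ => rfl)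
            (LinearMap.id : M →ₗ[k] Rep.res r M) (fun _ _ => rfl)
            (levelCocyclesS₂ToLevelCocycles₂ S M f)) := rfl
  rw [h1, continuousH2π_eq_zero_iff, mem_levelCoboundaries₂_iff]
  constructor
  · rintro ⟨c, hc, hd⟩
    refine ⟨c, hc, fun h h' => ?_⟩
    have := congrFun hd (h, h')
    rw [d₁₂_hom_apply] at this
    exact this
  · rintro ⟨c, hc, hd⟩
    refine ⟨c, hc, ?_⟩
    funext ⟨h, h'⟩
    rw [d₁₂_hom_apply]
    exact hd h h'

/-- Membership in `sha₂` on representatives (for `2` invertible the archimedean place is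
automatic). -/
theorem mem_sha₂_mk_iff {K : Type} [Field K] (h2 : (2 : K) ≠ 0)
    (M : Rep.{0, 0, 0} K (AlgebraicClosure ℚ ≃ₐ[ℚ] AlgebraicClosure ℚ))
    (f : ↥(levelCocyclesS₂ S M)) :
    continuousH2Sπ S M f ∈ sha₂ S M ↔
      ∀ q : ↥S, ∃ c : primeLocalGaloisGroup q.1 → M,
        IsLevelConstant₁ (primeLocalToGlobal q.1) c ∧
        ∀ h h' : primeLocalGaloisGroup q.1,
          M.ρ (primeLocalToGlobal q.1 h) (c h') - c (h * h') + c h
          = (f : (AlgebraicClosure ℚ ≃ₐ[ℚ] AlgebraicClosure ℚ) ×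
              (AlgebraicClosure ℚ ≃ₐ[ℚ] AlgebraicClosure ℚ) → M)
            (primeLocalToGlobal q.1 h, primeLocalToGlobal q.1 h') := by
  rw [mem_sha₂_iff S h2]
  exact forall_congr' fun q => locRes₂S_mk_eq_zero_iff S M (primeLocalToGlobal q.1) f

/-- Membership in `sha₁` on cocycles: `x ∈ sha₁ S A` iff `x` is the class of an
`S`-level-constant 1-cocycle `c` whose restriction to every local Galois group, `q ∈ S`, is a
coboundary. -/
theorem mem_sha₁_iff_cocycle {K : Type} [Field K] (h2 : (2 : K) ≠ 0)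
    (A : Rep.{0, 0, 0} K (AlgebraicClosure ℚ ≃ₐ[ℚ] AlgebraicClosure ℚ)) (x : H1 A) :
    x ∈ sha₁ S A ↔ ∃ c : cocycles₁ A, IsLevelConstantS₁ S c ∧ (H1π A).hom c = x ∧
      ∀ q : ↥S, ∃ a : A, ∀ h : primeLocalGaloisGroup q.1,
        c (primeLocalToGlobal q.1 h) = A.ρ (primeLocalToGlobal q.1 h) a - a := by
  rw [mem_sha₁_iff S h2, mem_continuousH1S_iff]
  have key : ∀ (c : cocycles₁ A) (q : ↥S),
      (groupCohomology.map (primeLocalToGlobal q.1)
        (𝟙 (Rep.res (primeLocalToGlobal q.1) A)) 1).hom ((H1π A).hom c) = 0 ↔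
      ∃ a : A, ∀ h : primeLocalGaloisGroup q.1,
        c (primeLocalToGlobal q.1 h) = A.ρ (primeLocalToGlobal q.1 h) a - a := by
    intro c q
    have hcomp := congrArg (fun φ => φ.hom c)
      (H1π_comp_map (A := A) (B := Rep.res (primeLocalToGlobal q.1) A)
        (primeLocalToGlobal q.1) (𝟙 (Rep.res (primeLocalToGlobal q.1) A)))
    simp only [ModuleCat.hom_comp, LinearMap.comp_apply] at hcomp
    rw [hcomp]
    rw [H1π_eq_zero_iff]
    constructor
    · rintro ⟨a, ha⟩
      refine ⟨a, fun h => ?_⟩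
      have := congrFun ha h
      rw [d₀₁_hom_apply] at this
      exact this.symm
    · rintro ⟨a, ha⟩
      refine ⟨a, ?_⟩
      funext h
      rw [d₀₁_hom_apply]
      exact (ha h).symm
  constructor
  · rintro ⟨⟨c, hc, rfl⟩, hloc⟩
    exact ⟨c, hc, rfl, fun q => (key c q).1 (hloc q)⟩
  · rintro ⟨c, hc, rfl, hloc⟩
    exact ⟨⟨c, hc, rfl⟩, fun q => (key c q).2 (hloc q)⟩

end Local

end Fermat.Agent.S55.Bridge

end
-- ===== PACK-END S55/Bridge/Cochain.lean

-- ===== PACK-BEGIN S55/T/H415/Additive.lean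
section


/-!
# S55, layer T, leaf T9 (helper415): additivity of `Hⁿ(G, -)`, finite products

* `coeffMap_add`, `coeffMap_zero`, `coeffMap_sum`, `coeffMap_comp`, `coeffMap_id`;
* `finiteProd : FiniteProdSpec`.
-/

set_option autoImplicit false

open CategoryTheory groupCohomology

namespace Fermat.Agent.S55.T.H415

open Fermat.Agent.S55.T

variable {k G : Type} [CommRing k] [Group G]

lemma coeffMap_add {A B : Rep.{0} k G} (f g : A ⟶ B) (n : ℕ) :
    coeffMap (f + g) n = coeffMap f n + coeffMap g n := by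
  have h : cochainsMap (MonoidHom.id G) (f + g) =
      cochainsMap (MonoidHom.id G) f + cochainsMap (MonoidHom.id G) g :=
    (cochainsFunctor k G).map_add
  change HomologicalComplex.homologyMap (cochainsMap (MonoidHom.id G) (f + g)) n = _
  rw [h, HomologicalComplex.homologyMap_add]
  rfl

lemma coeffMap_zero (A B : Rep.{0} k G) (n : ℕ) :
    coeffMap (0 : A ⟶ B) n = 0 :=
  (groupCohomology.functor k G n).map_zero A B

lemma coeffMap_id (A : Rep.{0} k G) (n : ℕ) : coeffMap (𝟙 A) n = 𝟙 _ :=
  HomologicalComplex.homologyMap_id _ _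

lemma coeffMap_comp {A B C : Rep.{0} k G} (f : A ⟶ B) (g : B ⟶ C) (n : ℕ) :
    coeffMap (f ≫ g) n = coeffMap f n ≫ coeffMap g n :=
  groupCohomology.map_id_comp f g n

lemma coeffMap_sum {A B : Rep.{0} k G} {ι : Type} (s : Finset ι) (f : ι → (A ⟶ B)) (n : ℕ) :
    coeffMap (∑ i ∈ s, f i) n = ∑ i ∈ s, coeffMap (f i) n := by
  classical
  induction s using Finset.induction_on with
  | empty => simp [coeffMap_zero]
  | insert a s ha ih => rw [Finset.sum_insert ha, Finset.sum_insert ha, coeffMap_add, ih]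

lemma coeffMap_comp_apply {A B C : Rep.{0} k G} (f : A ⟶ B) (g : B ⟶ C) (n : ℕ)
    (x : groupCohomology A n) :
    (coeffMap (f ≫ g) n).hom x = (coeffMap g n).hom ((coeffMap f n).hom x) := by
  rw [coeffMap_comp]; rfl

lemma coeffMap_sum_apply {A B : Rep.{0} k G} {ι : Type} (s : Finset ι) (f : ι → (A ⟶ B)) (n : ℕ)
    (x : groupCohomology A n) :
    (coeffMap (∑ i ∈ s, f i) n).hom x = ∑ i ∈ s, (coeffMap (f i) n).hom x := by
  rw [coeffMap_sum]
  simp

/-- **T9a.** Finite products. -/
theorem finiteProd : FiniteProdSpec := by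
  intro k G _ _ ι _ A C p hbij n
  classical
  have : Fintype ι := Fintype.ofFinite ι
  -- the linear equivalence `C ≃ ∏ A i`
  let P : C.V →ₗ[k] (∀ i, (A i).V) := LinearMap.pi fun i => (p i).hom.toLinearMap
  have hP : Function.Bijective P := hbij
  let e : C.V ≃ₗ[k] (∀ i, (A i).V) := LinearEquiv.ofBijective P hP
  have he : ∀ c i, e c i = (p i).hom c := fun _ _ => rfl
  -- the inclusions
  let jlin : ∀ i, (A i).V →ₗ[k] C.V := fun i =>
    e.symm.toLinearMap ∘ₗ LinearMap.single k (fun i => (A i).V) i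
  have hpj : ∀ i i' (a : (A i).V),
      (p i').hom (jlin i a) = (Pi.single i a : ∀ i, (A i).V) i' := by
    intro i i' a
    rw [← he]
    simp [jlin]
  have hj_equiv : ∀ i (g : G) (a : (A i).V), jlin i ((A i).ρ g a) = C.ρ g (jlin i a) := by
    intro i g a
    apply e.injective
    funext i'
    rw [he, he, hpj, Rep.hom_comm_apply, hpj]
    by_cases h : i' = i
    · subst h; simp
    · simp [Pi.single_eq_of_ne h]
  let j : ∀ i, A i ⟶ C := fun i =>
    ConcreteCategory.ofHom (C := Rep.{0} k G)
      ({ toLinearMap := jlin i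
         isIntertwining' := fun g => LinearMap.ext fun a => hj_equiv i g a } :
        (A i).ρ.IntertwiningMap C.ρ)
  have hj_apply : ∀ i (a : (A i).V), (j i).hom a = jlin i a := fun _ _ => rfl
  have hjp_same : ∀ i, j i ≫ p i = 𝟙 (A i) := by
    intro i
    apply Rep.hom_ext
    apply DFunLike.ext
    intro a
    change (p i).hom ((j i).hom a) = a
    rw [hj_apply, hpj]; simp
  have hjp_ne : ∀ i i', i ≠ i' → j i ≫ p i' = 0 := by
    intro i i' h
    apply Rep.hom_ext
    apply DFunLike.ext
    intro a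
    change (p i').hom ((j i).hom a) = 0
    rw [hj_apply, hpj]; simp [Pi.single_eq_of_ne (Ne.symm h)]
  have hsum : ∑ i, p i ≫ j i = 𝟙 C := by
    apply Rep.hom_ext
    apply DFunLike.ext
    intro c
    change ((∑ i, p i ≫ j i : C ⟶ C)).hom c = c
    have h1 : ((∑ i, p i ≫ j i : C ⟶ C)).hom c = ∑ i, (j i).hom ((p i).hom c) := by
      rw [Rep.sum_hom, Representation.IntertwiningMap.sum_apply]
      rfl
    rw [h1]
    apply e.injective
    funext i'
    rw [he, map_sum]
    simp only [hj_apply, hpj]
    rw [Finset.sum_eq_single i']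
    · simp [he]
    · intro b _ hb; simp [Pi.single_eq_of_ne (Ne.symm hb)]
    · intro h; exact absurd (Finset.mem_univ _) h
  constructor
  · -- injective
    intro x y hxy
    have hx : ∀ i, (coeffMap (p i) n).hom x = (coeffMap (p i) n).hom y := fun i => congrFun hxy i
    have key : ∀ z : groupCohomology C n,
        z = ∑ i, (coeffMap (j i) n).hom ((coeffMap (p i) n).hom z) := by
      intro z
      have := coeffMap_sum_apply Finset.univ (fun i => p i ≫ j i) n z
      rw [hsum, coeffMap_id] at this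
      simp only [coeffMap_comp_apply] at this
      exact this
    rw [key x, key y]
    exact Finset.sum_congr rfl fun i _ => by rw [hx i]
  · -- surjective
    intro y
    refine ⟨∑ i, (coeffMap (j i) n).hom (y i), ?_⟩
    funext i'
    simp only [map_sum]
    rw [Finset.sum_eq_single i']
    · rw [← coeffMap_comp_apply, hjp_same, coeffMap_id]; rfl
    · intro b _ hb
      rw [← coeffMap_comp_apply, hjp_ne b i' hb, coeffMap_zero]; rfl
    · intro h; exact absurd (Finset.mem_univ _) h

end Fermat.Agent.S55.T.H415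

end
-- ===== PACK-END S55/T/H415/Additive.lean

-- ===== PACK-BEGIN S55/E1/H114/Alg4.lean
section
/-
S55 engine E1, block ALG — helper114.
ALG4 (norm-kill) in the exact frozen form `Fermat.Agent.S55.E1.ALG4Spec`.
-/



set_option autoImplicit false

open CategoryTheory CategoryTheory.Limits

namespace Fermat.Agent.S55.E1.H114

noncomputable section

section generic

variable {k G : Type} [CommRing k] [Group G]

/-- Concrete exactness in the middle of a short exact sequence of representations (generic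
coefficient ring, to avoid the `ℤ`-module diamond). -/
theorem rep_exact_apply {X : ShortComplex (Rep.{0} k G)} (hX : X.ShortExact)
    (x : X.X₂) (hx : X.g.hom x = 0) : ∃ y : X.X₁, X.f.hom y = x := by
  have := hX.exact
  rw [← ShortComplex.exact_map_iff_of_faithful X (forget₂ (Rep.{0} k G) (ModuleCat.{0} k)),
    ShortComplex.moduleCat_exact_iff] at this
  exact this x hx

/-- The action of `G` on a representation, as a monoid hom into additive endomorphisms. -/
def repAct (A : Rep.{0} k G) : G →* AddMonoid.End A.V where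
  toFun g := (A.ρ g).toAddMonoidHom
  map_one' := by
    ext x
    rw [map_one]
    rfl
  map_mul' g h := by
    ext x
    rw [map_mul]
    rfl

@[simp] lemma repAct_apply (A : Rep.{0} k G) (g : G) (x : A.V) : repAct A g x = A.ρ g x := rfl

/-- The underlying additive map of a morphism of representations. -/
def homAdd {A B : Rep.{0} k G} (f : A ⟶ B) : A.V →+ B.V := f.hom.toLinearMap.toAddMonoidHom

@[simp] lemma homAdd_apply {A B : Rep.{0} k G} (f : A ⟶ B) (x : A.V) : homAdd f x = f.hom x := rfl

/-- A linear `G`-equivariant map between representations is a morphism. -/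
def homOfLin {A B : Rep.{0} k G} (f : A.V →ₗ[k] B.V) (hf : ∀ g x, f (A.ρ g x) = B.ρ g (f x)) :
    A ⟶ B :=
  ConcreteCategory.ofHom (C := Rep.{0} k G) (f.intertwiningMap_of_isIntertwiningMap A.ρ B.ρ hf)

lemma homOfLin_hom_apply {A B : Rep.{0} k G} (f : A.V →ₗ[k] B.V)
    (hf : ∀ g x, f (A.ρ g x) = B.ρ g (f x)) (x : A.V) : (homOfLin f hf).hom x = f x := rfl

end generic

variable {G : Type} [Group G]

/-- The `ℤ`-scalar diamond: the action of a `Module ℤ M` instance is the `zsmul` of `M`. -/
theorem hsmul_eq_zsmul {M : Type*} [AddCommGroup M] (inst : Module ℤ M) (n : ℤ) (x : M) :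
    (@HSMul.hSMul ℤ M M (@instHSMul ℤ M inst.toSMul) n x) = n • x :=
  int_smul_eq_zsmul inst n x

/-- An additive map between representations over `ℤ` is `ℤ`-linear. -/
def linOfAdd {A B : Rep.{0} ℤ G} (K : A.V →+ B.V) :
    @LinearMap ℤ ℤ _ _ (RingHom.id ℤ) A.V B.V _ _ A.hV2 B.hV2 :=
  @LinearMap.mk ℤ ℤ _ _ (RingHom.id ℤ) A.V B.V _ _ A.hV2 B.hV2
    { toFun := K, map_add' := K.map_add }
    (fun z x => by
      simp only [RingHom.id_apply]
      show K (@HSMul.hSMul ℤ A.V A.V (@instHSMul ℤ A.V A.hV2.toSMul) z x) =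
        @HSMul.hSMul ℤ B.V B.V (@instHSMul ℤ B.V B.hV2.toSMul) z (K x)
      rw [hsmul_eq_zsmul A.hV2, hsmul_eq_zsmul B.hV2, map_zsmul])

/-- An additive `G`-equivariant map between representations over `ℤ` is a morphism. -/
def homOfAdd {A B : Rep.{0} ℤ G} (K : A.V →+ B.V) (hK : ∀ g x, K (A.ρ g x) = B.ρ g (K x)) :
    A ⟶ B :=
  homOfLin (linOfAdd K) hK

lemma homOfAdd_hom_apply {A B : Rep.{0} ℤ G} (K : A.V →+ B.V)
    (hK : ∀ g x, K (A.ρ g x) = B.ρ g (K x)) (x : A.V) : (homOfAdd K hK).hom x = K x := rfl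

/-- Concrete exactness of the standard presentation at `P`. -/
lemma stdSC_exact_apply (N : Rep.{0} ℤ G) (x : (stdP N).V) (hx : (stdε N).hom x = 0) :
    ∃ r : (stdR N).V, (stdι N).hom r = x :=
  rep_exact_apply (stdSC_shortExact N) x hx

lemma stdι_injective (N : Rep.{0} ℤ G) : Function.Injective (stdι N).hom :=
  (Rep.mono_iff_injective _).1 (stdι_mono N)

lemma stdε_stdι (N : Rep.{0} ℤ G) (r : (stdR N).V) : (stdε N).hom ((stdι N).hom r) = 0 := by
  have h : (kernel.ι (stdε N) ≫ stdε N).hom r = (0 : kernel (stdε N) ⟶ N).hom r := by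
    rw [kernel.condition]
  exact h

/-- **ALG4 (norm-kill)**, exact frozen form. -/
theorem alg4 : ALG4Spec := by
  intro p hp G _ _ H _ _ N C _ hN hHN hnorm ψ
  obtain ⟨K, hKeq, hKψ⟩ := normKill_core H (repAct (stdR N)) (repAct (stdP N)) (repAct C) p hp
    (homAdd (stdι N)) (homAdd (stdε N)) (stdι_injective N) (stdε_surjective N)
    (stdSC_exact_apply N) (stdε_stdι N)
    (fun g r => Rep.hom_comm_apply (stdι N) g r)
    (fun h hh x => by
      show (stdε N).hom ((stdP N).ρ h x) = (stdε N).hom x
      rw [Rep.hom_comm_apply (stdε N) h x, hHN h hh])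
    hN
    (fun c => hnorm c)
    ψ
  exact ⟨homOfAdd K hKeq, fun r => hKψ r⟩

end

end Fermat.Agent.S55.E1.H114

end
-- ===== PACK-END S55/E1/H114/Alg4.lean

-- ===== PACK-BEGIN S55/G/DescH537/Desc.lean
section
/-
S55, layer G, leaf G-DESC (Galois descent for the `S`-idèle class group), helper537.
Part 3: Hilbert 90 for an abstract Galois group, base change `C_S(K) → C_S(L)` and the
descent theorem.

`K ⊂ L` number fields, `G` finite with `IsGaloisGroup G K L`, `S ≠ ∅`:
* `csBC S K L : C_S(K) →+ C_S(L)`, `csBC_injective`, `cRepr_csBC` (image is `G`-invariant);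
* `exists_csBC_eq_of_invariant` : if `L/K` is unramified outside `S` (`eIdx K L w = 1` for all
  primes `w` of `L` not above `S`), every `G`-invariant class of `C_S(L)` comes from `C_S(K)`;
* `galoisDescent` : both statements together: `C_S(K) ≃ C_S(L)^G`.
-/





set_option autoImplicit false
set_option linter.unusedSectionVars false

open scoped NumberField
open IsDedekindDomain

noncomputable section

namespace Fermat.Agent.S55.G.DescH537

section H90

/-- **Hilbert 90** for an abstract finite Galois group, additively: every 1-cocycle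
`G → Lˣ` is a coboundary. -/
theorem hilbert90 (G K L : Type) [Group G] [Field K] [Field L] [Algebra K L]
    [MulSemiringAction G L] [Finite G] [IsGaloisGroup G K L]
    (f : G → Additive Lˣ) (hf : ∀ g h, f (g * h) = f g + lRepr G L g (f h)) :
    ∃ y : Additive Lˣ, ∀ g, f g = lRepr G L g y - y := by
  have := IsGaloisGroup.finiteDimensional G K L
  let e := IsGaloisGroup.mulEquivAlgEquiv G K L
  have he : ∀ g x, e g x = g • x := IsGaloisGroup.mulEquivAlgEquiv_apply_apply G K L
  let f' : (L ≃ₐ[K] L) → Lˣ := fun σ => (f (e.symm σ)).toMul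
  have hf' : groupCohomology.IsMulCocycle₁ f' := by
    intro σ τ
    change (f (e.symm (σ * τ))).toMul = σ • (f (e.symm τ)).toMul * (f (e.symm σ)).toMul
    rw [map_mul, hf, toMul_add, mul_comm]
    congr 1
    apply Units.ext
    change ((lRepr G L (e.symm σ) (f (e.symm τ))).toMul : L) = σ ((f (e.symm τ)).toMul : L)
    rw [coe_lRepr_apply, ← he, e.apply_symm_apply]
  obtain ⟨x, hx⟩ := groupCohomology.isMulCoboundary₁_of_isMulCocycle₁_of_aut_to_units f' hf'
  refine ⟨Additive.ofMul x, fun g => ?_⟩
  have h1 := hx (e g)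
  simp only [f', e.symm_apply_apply] at h1
  apply Additive.toMul.injective
  rw [toMul_sub, ← h1]
  congr 1

end H90

section Main

variable (S : Finset Nat.Primes) (G K L : Type) [Group G] [Field K] [Field L]
  [NumberField K] [NumberField L] [Algebra K L] [MulSemiringAction G L]

/-- Base change on `J_S × Div^S`. -/
def jdBC : JD S K →+ JD S L := (jBC K L S).prodMap (divBC S K L)

@[simp] lemma jdBC_fst (x : JD S K) : (jdBC S K L x).1 = jBC K L S x.1 := rfl

@[simp] lemma jdBC_snd (x : JD S K) : (jdBC S K L x).2 = divBC S K L x.2 := rfl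

/-- Base change is compatible with the diagonal embeddings. -/
lemma jdBC_diagHom (x : Additive Kˣ) :
    jdBC S K L (diagHom S K x) = diagHom S L (unitsBC K L x) :=
  Prod.ext (jBC_unitsDiag K L S x) (ordHom_unitsBC S K L x).symm

lemma jdBC_injective : Function.Injective (jdBC S K L) := by
  intro a b hab
  exact Prod.ext (jBC_injective K L S (congrArg Prod.fst hab))
    (divBC_injective S K L (congrArg Prod.snd hab))

lemma jdBC_mem_principal (x : JD S K) (hx : x ∈ principal S K) :
    jdBC S K L x ∈ principal S L := by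
  obtain ⟨y, rfl⟩ := hx
  exact ⟨unitsBC K L y, (jdBC_diagHom S K L y).symm⟩

/-- **Base change of `S`-idèle classes** `C_S(K) → C_S(L)`. -/
def csBC : CS S K →+ CS S L :=
  (Submodule.mapQ (principal S K) (principal S L) (jdBC S K L).toIntLinearMap
    (fun x hx => jdBC_mem_principal S K L x hx)).toAddMonoidHom

lemma csBC_mk (x : JD S K) :
    csBC S K L (Submodule.Quotient.mk x) = Submodule.Quotient.mk (jdBC S K L x) := rfl

/-- The diagonal embedding `Lˣ → J_S(L) × Div^S(L)` is injective when `S ≠ ∅`. -/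
lemma diagHom_injective (hS : S.Nonempty) : Function.Injective (diagHom S L) := by
  have hQ : Function.Injective (algebraMap ℚ (QS S)) := by
    obtain ⟨q, hq⟩ := hS
    have : Nontrivial (QS S) := by
      refine ⟨⟨0, 1, fun h => ?_⟩⟩
      have := congrFun h ⟨q, hq⟩
      exact zero_ne_one this
    exact (algebraMap ℚ (QS S)).injective
  have hincl : Function.Injective (asDiag S L) :=
    Algebra.TensorProduct.includeLeft_injective (S := ℚ) hQ
  intro a b hab
  have h1 : unitsDiag S L a = unitsDiag S L b := congrArg Prod.fst hab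
  apply Additive.toMul.injective
  apply Units.ext
  apply hincl
  rw [← coe_unitsDiag_apply, ← coe_unitsDiag_apply, h1]

variable [IsGaloisGroup G K L]

lemma jdRepr_jdBC (g : G) (x : JD S K) : jdRepr S G L g (jdBC S K L x) = jdBC S K L x :=
  Prod.ext (jRepr_jBC G K L S g x.1) (divRepr_divBC S G K L g x.2)

/-- The image of base change consists of `G`-invariant classes. -/
lemma cRepr_csBC (g : G) (c : CS S K) : cRepr S G L g (csBC S K L c) = csBC S K L c := by
  obtain ⟨x, rfl⟩ := Submodule.Quotient.mk_surjective _ c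
  rw [csBC_mk]
  change Submodule.Quotient.mk (jdRepr S G L g (jdBC S K L x)) = _
  rw [jdRepr_jdBC]

variable [Finite G]

/-- **Galois descent, injectivity**: `C_S(K) → C_S(L)` is injective (`S ≠ ∅`, `L/K` Galois). -/
theorem csBC_injective (S : Finset Nat.Primes) (G K L : Type) [Group G] [Field K] [Field L]
    [NumberField K] [NumberField L] [Algebra K L] [MulSemiringAction G L]
    [IsGaloisGroup G K L] [Finite G] (hS : S.Nonempty) : Function.Injective (csBC S K L) := by
  rw [injective_iff_map_eq_zero]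
  intro c hc
  obtain ⟨x, rfl⟩ := Submodule.Quotient.mk_surjective _ c
  rw [csBC_mk, Submodule.Quotient.mk_eq_zero] at hc
  obtain ⟨y, hy⟩ := hc
  change diagHom S L y = jdBC S K L x at hy
  have hinv : ∀ g : G, lRepr G L g y = y := by
    intro g
    apply diagHom_injective S L hS
    rw [diagHom_equivariant S G L g y, hy, jdRepr_jdBC]
  obtain ⟨k, rfl⟩ := exists_unitsBC_eq_of_invariant G K L y hinv
  rw [← jdBC_diagHom] at hy
  have hx : x = diagHom S K k := (jdBC_injective S K L hy).symm
  rw [Submodule.Quotient.mk_eq_zero, hx]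
  exact ⟨k, rfl⟩

/-- **Galois descent, surjectivity onto invariants**: if `L/K` is unramified outside `S`
(and `S ≠ ∅`), every `G`-invariant class of `C_S(L)` is the base change of a class of
`C_S(K)`. -/
theorem exists_csBC_eq_of_invariant (hS : S.Nonempty)
    (hunr : ∀ w : PrimeOut S L, eIdx K L w.1 = 1)
    (c : CS S L) (hc : ∀ g : G, cRepr S G L g c = c) : ∃ c' : CS S K, csBC S K L c' = c := by
  obtain ⟨x, rfl⟩ := Submodule.Quotient.mk_surjective _ c
  -- the cocycle
  have hex : ∀ g : G, ∃ y : Additive Lˣ, diagHom S L y = jdRepr S G L g x - x := by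
    intro g
    have h := hc g
    change Submodule.Quotient.mk (jdRepr S G L g x) = Submodule.Quotient.mk x at h
    rw [Submodule.Quotient.eq] at h
    exact h
  choose f hf using hex
  have hcoc : ∀ g h, f (g * h) = f g + lRepr G L g (f h) := by
    intro g h
    apply diagHom_injective S L hS
    rw [map_add, diagHom_equivariant S G L g, hf, hf, hf, map_mul, map_sub]
    simp only [Module.End.mul_apply]
    abel
  obtain ⟨y, hy⟩ := hilbert90 G K L f hcoc
  -- the invariant representative
  have hx' : ∀ g : G, jdRepr S G L g (x - diagHom S L y) = x - diagHom S L y := by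
    intro g
    have h1 := hf g
    rw [hy g, map_sub, diagHom_equivariant S G L g] at h1
    rw [map_sub]
    have h2 : jdRepr S G L g x - jdRepr S G L g (diagHom S L y) =
        x - diagHom S L y := by
      rw [sub_eq_sub_iff_add_eq_add]
      rw [sub_eq_sub_iff_add_eq_add] at h1
      rw [← h1, add_comm]
    exact h2
  have hj : ∀ g : G, jRepr G S L g (x - diagHom S L y).1 = (x - diagHom S L y).1 :=
    fun g => congrArg Prod.fst (hx' g)
  have hd : ∀ g : G, divRepr S G L g (x - diagHom S L y).2 = (x - diagHom S L y).2 :=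
    fun g => congrArg Prod.snd (hx' g)
  obtain ⟨j', hj'⟩ := exists_jBC_eq_of_invariant G K L S _ hj
  obtain ⟨d', hd'⟩ := exists_divBC_eq_of_invariant S G K L hunr _ hd
  refine ⟨Submodule.Quotient.mk (j', d'), ?_⟩
  rw [csBC_mk]
  have hxe : jdBC S K L (j', d') = x - diagHom S L y := Prod.ext hj' hd'
  rw [hxe, Submodule.Quotient.eq]
  refine ⟨-y, ?_⟩
  change diagHom S L (-y) = _
  rw [map_neg]
  abel

/-- **Galois descent** for the `S`-idèle class group: for `L/K` Galois with group `G`,
unramified outside `S ≠ ∅`, base change identifies `C_S(K)` with the `G`-invariants of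
`C_S(L)`. -/
theorem galoisDescent (hS : S.Nonempty) (hunr : ∀ w : PrimeOut S L, eIdx K L w.1 = 1) :
    Function.Injective (csBC S K L) ∧
      ∀ c : CS S L, (∀ g : G, cRepr S G L g c = c) ↔ c ∈ Set.range (csBC S K L) := by
  refine ⟨csBC_injective S G K L hS, fun c => ⟨fun hc => ?_, ?_⟩⟩
  · exact exists_csBC_eq_of_invariant S G K L hS hunr c hc
  · rintro ⟨c', rfl⟩ g
    exact cRepr_csBC S G K L g c'

/-- **Galois descent** as a linear equivalence `C_S(K) ≃ C_S(L)^G`. -/
def csDescentEquiv (hS : S.Nonempty) (hunr : ∀ w : PrimeOut S L, eIdx K L w.1 = 1) :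
    CS S K ≃ₗ[ℤ] (cRepr S G L).invariants :=
  LinearEquiv.ofBijective
    ((csBC S K L).toIntLinearMap.codRestrict (cRepr S G L).invariants
      (fun c g => cRepr_csBC S G K L g c))
    ⟨fun a b hab => csBC_injective S G K L hS (congrArg Subtype.val hab),
      fun c => by
        obtain ⟨c', hc'⟩ := exists_csBC_eq_of_invariant S G K L hS hunr c.1 c.2
        exact ⟨c', Subtype.ext hc'⟩⟩

@[simp] lemma csDescentEquiv_apply_coe (hS : S.Nonempty)
    (hunr : ∀ w : PrimeOut S L, eIdx K L w.1 = 1) (c : CS S K) :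
    ((csDescentEquiv S G K L hS hunr c : (cRepr S G L).invariants) : CS S L) = csBC S K L c :=
  rfl

end Main

end Fermat.Agent.S55.G.DescH537

end
end
-- ===== PACK-END S55/G/DescH537/Desc.lean

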