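import Mathlib
import Fermat.Prelude.Def_GaloisRep_CompletionBridge
import Fermat.Agent.Pack.S56.E5L3
import Fermat.Agent.Pack.S56.E5L2
import Fermat.Agent.Pack.S56.E1L1
import Fermat.Agent.Pack.S56.E4L2
import Fermat.Agent.Pack.S56.E3L3
import Fermat.Agent.Pack.S56.E4L3
import Fermat.Agent.Pack.S56.E6L0
import Fermat.Agent.Pack.S56.E6L2
import Fermat.Agent.Pack.S56.E6L3
import Fermat.Agent.Pack.S56.E2L1
import Fermat.Agent.Pack.S56.E3L0
import Fermat.Agent.Pack.S56.E0L3

-- ===== PACK-BEGIN S55/T/SumH635.lean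
section


/-!
# S55, layer T, T9: finite products and direct sums in group cohomology (helper635)

* `finiteProd : FiniteProdSpec` — `Hⁿ(G, ∏ᵢ A i) = ∏ᵢ Hⁿ(G, A i)` for a finite index set.
* `directSum : DirectSumSpec` — `Hⁿ(G, ⨁ᵢ A i) = ⨁ᵢ Hⁿ(G, A i)` for a finite group `G`
  and an arbitrary index set.

Both are proved from additivity of `coeffMap` in the coefficient morphism; for the direct sum
the point is that a cocycle `Gⁿ → ⨁ᵢ A i` of a finite group takes values in a finite
sub-sum.
-/

set_option autoImplicit false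

open CategoryTheory groupCohomology

namespace Fermat.Agent.S55.T.H635

variable {k G : Type} [CommRing k] [Group G]

/-- `coeffMap` is additive in the coefficient morphism. -/
theorem coeffMap_add {A B : Rep.{0} k G} (f g : A ⟶ B) (n : ℕ) :
    coeffMap (f + g) n = coeffMap f n + coeffMap g n := by
  have h : cochainsMap (MonoidHom.id G) (f + g)
      = cochainsMap (MonoidHom.id G) f + cochainsMap (MonoidHom.id G) g :=
    (cochainsFunctor k G).map_add
  show HomologicalComplex.homologyMap (cochainsMap (MonoidHom.id G) (f + g)) n = _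
  rw [h, HomologicalComplex.homologyMap_add]
  rfl

theorem coeffMap_zero {A B : Rep.{0} k G} (n : ℕ) :
    coeffMap (0 : A ⟶ B) n = 0 := by
  have h : cochainsMap (MonoidHom.id G) (0 : A ⟶ B) = 0 :=
    (cochainsFunctor k G).map_zero _ _
  show HomologicalComplex.homologyMap (cochainsMap (MonoidHom.id G) (0 : A ⟶ B)) n = _
  rw [h, HomologicalComplex.homologyMap_zero]
  rfl

theorem coeffMap_id (A : Rep.{0} k G) (n : ℕ) :
    coeffMap (𝟙 A) n = 𝟙 _ := groupCohomology.map_id (B := A) (n := n)

theorem coeffMap_comp {A B C : Rep.{0} k G} (f : A ⟶ B) (g : B ⟶ C) (n : ℕ) :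
    coeffMap (f ≫ g) n = coeffMap f n ≫ coeffMap g n :=
  groupCohomology.map_id_comp f g n

/-- `coeffMap` as an additive monoid homomorphism. -/
noncomputable def coeffMapAddHom (A B : Rep.{0} k G) (n : ℕ) :
    (A ⟶ B) →+ (groupCohomology A n ⟶ groupCohomology B n) where
  toFun f := coeffMap f n
  map_zero' := coeffMap_zero n
  map_add' f g := coeffMap_add f g n

theorem coeffMap_sum {A B : Rep.{0} k G} {ι : Type} (s : Finset ι) (f : ι → (A ⟶ B)) (n : ℕ) :
    coeffMap (∑ i ∈ s, f i) n = ∑ i ∈ s, coeffMap (f i) n :=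
  map_sum (coeffMapAddHom A B n) f s

theorem coeffMap_comp_apply {A B C : Rep.{0} k G} (f : A ⟶ B) (g : B ⟶ C) (n : ℕ)
    (x : groupCohomology A n) :
    (coeffMap g n).hom ((coeffMap f n).hom x) = (coeffMap (f ≫ g) n).hom x := by
  rw [coeffMap_comp]; rfl

theorem coeffMap_id_apply (A : Rep.{0} k G) (n : ℕ) (x : groupCohomology A n) :
    (coeffMap (𝟙 A) n).hom x = x := by
  rw [coeffMap_id]; rfl

theorem coeffMap_zero_apply {A B : Rep.{0} k G} (n : ℕ) (x : groupCohomology A n) :
    (coeffMap (0 : A ⟶ B) n).hom x = 0 := by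
  rw [coeffMap_zero]; rfl

theorem coeffMap_sum_apply {A B : Rep.{0} k G} {ι : Type} (s : Finset ι) (f : ι → (A ⟶ B))
    (n : ℕ) (x : groupCohomology A n) :
    (coeffMap (∑ i ∈ s, f i) n).hom x = ∑ i ∈ s, (coeffMap (f i) n).hom x := by
  classical
  rw [coeffMap_sum]
  induction s using Finset.induction_on with
  | empty => simp
  | insert a s ha ih =>
    rw [Finset.sum_insert ha, Finset.sum_insert ha, ← ih]
    rfl

theorem hom_apply_ext {A B : Rep.{0} k G} {f g : A ⟶ B}
    (h : ∀ a : A.V, f.hom a = g.hom a) : f = g :=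
  Rep.hom_ext (Representation.IntertwiningMap.ext (LinearMap.ext h))

theorem comp_hom_apply {A B C : Rep.{0} k G} (f : A ⟶ B) (g : B ⟶ C) (a : A.V) :
    (f ≫ g).hom a = g.hom (f.hom a) := by
  rw [Rep.hom_comp]; rfl

theorem id_hom_apply (A : Rep.{0} k G) (a : A.V) : (𝟙 A : A ⟶ A).hom a = a := by
  rw [Rep.hom_id]; rfl

theorem zero_hom_apply {A B : Rep.{0} k G} (a : A.V) : (0 : A ⟶ B).hom a = 0 := by
  rw [Rep.zero_hom]; rfl

theorem sum_hom_apply {A B : Rep.{0} k G} {ι : Type} (s : Finset ι) (f : ι → (A ⟶ B))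
    (a : A.V) : (∑ i ∈ s, f i).hom a = ∑ i ∈ s, (f i).hom a := by
  rw [Rep.sum_hom]
  exact Representation.IntertwiningMap.sum_apply _ _ _ _ _

section FiniteProd

set_option linter.unusedSectionVars false
variable {ι : Type} [Fintype ι] [DecidableEq ι] {A : ι → Rep.{0} k G} {C : Rep.{0} k G}
  (p : ∀ i, C ⟶ A i)

/-- The linear map `C → ∏ᵢ A i` with components `p i`. -/
noncomputable def prodLin : C.V →ₗ[k] (∀ i, (A i).V) :=
  LinearMap.pi (fun i => (p i).hom.toLinearMap)

theorem prodLin_apply (c : C.V) (i : ι) : prodLin p c i = (p i).hom c := rfl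

variable (hp : Function.Bijective (fun (c : C.V) (i : ι) => (p i).hom c))

/-- The linear equivalence `C ≃ ∏ᵢ A i`. -/
noncomputable def prodEquiv : C.V ≃ₗ[k] (∀ i, (A i).V) :=
  LinearEquiv.ofBijective (prodLin p) hp

theorem prodEquiv_apply (c : C.V) (i : ι) : prodEquiv p hp c i = (p i).hom c := rfl

theorem p_prodEquiv_symm (x : ∀ i, (A i).V) (i : ι) :
    (p i).hom ((prodEquiv p hp).symm x) = x i := by
  rw [← prodEquiv_apply p hp, LinearEquiv.apply_symm_apply]

/-- The section `A i → C`. -/
noncomputable def prodSec (i : ι) : A i ⟶ C :=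
  Rep.ofHom
    { toLinearMap := (prodEquiv p hp).symm.toLinearMap ∘ₗ LinearMap.single k (fun i => (A i).V) i
      isIntertwining' := fun g => by
        refine LinearMap.ext fun a => ?_
        apply (prodEquiv p hp).injective
        funext j
        simp only [LinearMap.coe_comp, Function.comp_apply, LinearEquiv.coe_coe,
          LinearMap.coe_single, prodEquiv_apply]
        rw [p_prodEquiv_symm, Rep.hom_comm_apply, p_prodEquiv_symm]
        by_cases h : j = i
        · subst h; simp
        · simp [Pi.single_eq_of_ne h] }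

theorem prodSec_apply (i : ι) (a : (A i).V) :
    (prodSec p hp i).hom a = (prodEquiv p hp).symm (Pi.single i a) := rfl

theorem prodSec_comp_self (i : ι) : prodSec p hp i ≫ p i = 𝟙 (A i) := by
  refine hom_apply_ext fun a => ?_
  rw [comp_hom_apply, id_hom_apply, prodSec_apply, p_prodEquiv_symm, Pi.single_eq_same]

theorem prodSec_comp_of_ne {i j : ι} (h : i ≠ j) : prodSec p hp i ≫ p j = 0 := by
  refine hom_apply_ext fun a => ?_
  rw [comp_hom_apply, zero_hom_apply, prodSec_apply, p_prodEquiv_symm,
    Pi.single_eq_of_ne (Ne.symm h)]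

theorem sum_comp_prodSec : ∑ i, p i ≫ prodSec p hp i = 𝟙 C := by
  refine hom_apply_ext fun c => ?_
  rw [sum_hom_apply, id_hom_apply]
  apply (prodEquiv p hp).injective
  rw [map_sum]
  funext j
  rw [Finset.sum_apply, prodEquiv_apply]
  rw [Finset.sum_eq_single j]
  · rw [comp_hom_apply, prodSec_apply, LinearEquiv.apply_symm_apply, Pi.single_eq_same]
  · intro i _ hij
    rw [comp_hom_apply, prodSec_apply, LinearEquiv.apply_symm_apply, Pi.single_eq_of_ne (Ne.symm hij)]
  · intro h; exact absurd (Finset.mem_univ j) h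

end FiniteProd

/-- **T9a.** -/
theorem finiteProd : FiniteProdSpec := by
  intro k G _ _ ι _ A C p hp n
  classical
  have : Fintype ι := Fintype.ofFinite ι
  have hrec : ∀ x : groupCohomology C n,
      x = ∑ i, (coeffMap (prodSec p hp i) n).hom ((coeffMap (p i) n).hom x) := by
    intro x
    conv_lhs => rw [← coeffMap_id_apply C n x, ← sum_comp_prodSec p hp, coeffMap_sum_apply]
    refine Finset.sum_congr rfl fun i _ => ?_
    rw [coeffMap_comp_apply]
  constructor
  · intro x y hxy
    rw [hrec x, hrec y]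
    refine Finset.sum_congr rfl fun i _ => ?_
    have := congrFun hxy i
    simp only at this
    rw [this]
  · intro y
    refine ⟨∑ i, (coeffMap (prodSec p hp i) n).hom (y i), ?_⟩
    funext j
    simp only
    rw [map_sum, Finset.sum_eq_single j]
    · rw [coeffMap_comp_apply, prodSec_comp_self, coeffMap_id_apply]
    · intro i _ hij
      rw [coeffMap_comp_apply, prodSec_comp_of_ne p hp hij, coeffMap_zero_apply]
    · intro h; exact absurd (Finset.mem_univ j) h

theorem iCocycles_cocyclesMap_apply {A B : Rep.{0} k G} (e : A ⟶ B) (n : ℕ)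
    (z : cocycles A n) (g : Fin n → G) :
    (iCocycles B n).hom ((cocyclesMap (MonoidHom.id G) e n).hom z) g
      = e.hom ((iCocycles A n).hom z g) := by
  have h1 : cocyclesMap (MonoidHom.id G) e n ≫ iCocycles B n
      = iCocycles A n ≫ (cochainsMap (MonoidHom.id G) e).f n :=
    HomologicalComplex.cyclesMap_i _ _
  have h2 := congrArg (fun φ => φ.hom z) h1
  simp only [ModuleCat.hom_comp, LinearMap.coe_comp, Function.comp_apply] at h2
  rw [h2, cochainsMap_id_f_hom_eq_compLeft]
  rfl

theorem cocyclesMap_eq_self_of_fix {C : Rep.{0} k G} (e : C ⟶ C) (n : ℕ)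
    (z : cocycles C n) (h : ∀ g : Fin n → G, e.hom ((iCocycles C n).hom z g) = (iCocycles C n).hom z g) :
    (cocyclesMap (MonoidHom.id G) e n).hom z = z := by
  apply (ModuleCat.mono_iff_injective (iCocycles C n)).1 inferInstance
  funext g
  rw [iCocycles_cocyclesMap_apply, h]

theorem coeffMap_π_eq_self_of_fix {C : Rep.{0} k G} (e : C ⟶ C) (n : ℕ)
    (z : cocycles C n) (h : ∀ g : Fin n → G, e.hom ((iCocycles C n).hom z g) = (iCocycles C n).hom z g) :
    (coeffMap e n).hom ((π C n).hom z) = (π C n).hom z := by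
  have := groupCohomology.π_map_apply (MonoidHom.id G) e n z
  rw [cocyclesMap_eq_self_of_fix e n z h] at this
  exact this

section DirectSum

set_option linter.unusedSectionVars false

variable {ι : Type} [DecidableEq ι] {A : ι → Rep.{0} k G} {C : Rep.{0} k G}
  (inc : ∀ i, A i ⟶ C)

theorem component_lof_of_ne {M : ι → Type} [∀ i, AddCommGroup (M i)] [∀ i, Module k (M i)]
    {i j : ι} (h : i ≠ j) (b : M i) :
    DirectSum.component k ι M j (DirectSum.lof k ι M i b) = 0 := by
  rw [DirectSum.component.of, dif_neg h]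

variable
  (hinc : Function.Bijective (DirectSum.toModule k ι C.V (fun i => (inc i).hom.toLinearMap)))

/-- The linear equivalence `⨁ᵢ A i ≃ C`. -/
noncomputable def sumEquiv : (DirectSum ι fun i => (A i).V) ≃ₗ[k] C.V :=
  LinearEquiv.ofBijective (DirectSum.toModule k ι C.V (fun i => (inc i).hom.toLinearMap)) hinc

theorem sumEquiv_lof (i : ι) (a : (A i).V) :
    sumEquiv inc hinc (DirectSum.lof k ι (fun i => (A i).V) i a) = (inc i).hom a := by
  show DirectSum.toModule k ι C.V (fun i => (inc i).hom.toLinearMap)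
    (DirectSum.lof k ι (fun i => (A i).V) i a) = (inc i).hom a
  rw [DirectSum.toModule_lof]
  rfl

theorem sumEquiv_symm_inc (i : ι) (a : (A i).V) :
    (sumEquiv inc hinc).symm ((inc i).hom a) = DirectSum.lof k ι (fun i => (A i).V) i a := by
  rw [← sumEquiv_lof inc hinc, LinearEquiv.symm_apply_apply]

/-- The `j`-th projection `C → A j`, as a linear map. -/
noncomputable def sumProjLin (j : ι) : C.V →ₗ[k] (A j).V :=
  DirectSum.component k ι (fun i => (A i).V) j ∘ₗ (sumEquiv inc hinc).symm.toLinearMap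

theorem sumProjLin_apply (j : ι) (c : C.V) :
    sumProjLin inc hinc j c = ((sumEquiv inc hinc).symm c) j := rfl

theorem sumProjLin_inc_self (i : ι) (a : (A i).V) :
    sumProjLin inc hinc i ((inc i).hom a) = a := by
  show DirectSum.component k ι (fun i => (A i).V) i ((sumEquiv inc hinc).symm ((inc i).hom a)) = a
  rw [sumEquiv_symm_inc, DirectSum.component.lof_self]

theorem sumProjLin_inc_of_ne {i j : ι} (h : i ≠ j) (a : (A i).V) :
    sumProjLin inc hinc j ((inc i).hom a) = 0 := by
  show DirectSum.component k ι (fun i => (A i).V) j ((sumEquiv inc hinc).symm ((inc i).hom a)) = 0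
  rw [sumEquiv_symm_inc, component_lof_of_ne h]

/-- The `j`-th projection `C ⟶ A j`. -/
noncomputable def sumProj (j : ι) : C ⟶ A j :=
  Rep.ofHom
    { toLinearMap := sumProjLin inc hinc j
      isIntertwining' := fun g => by
        have key : (sumProjLin inc hinc j ∘ₗ C.ρ g) ∘ₗ (sumEquiv inc hinc).toLinearMap
            = ((A j).ρ g ∘ₗ sumProjLin inc hinc j) ∘ₗ (sumEquiv inc hinc).toLinearMap := by
          refine DirectSum.linearMap_ext k fun i => LinearMap.ext fun a => ?_
          simp only [LinearMap.coe_comp, Function.comp_apply, LinearEquiv.coe_coe]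
          rw [sumEquiv_lof, ← Rep.hom_comm_apply]
          by_cases h : i = j
          · subst h
            rw [sumProjLin_inc_self, sumProjLin_inc_self]
          · rw [sumProjLin_inc_of_ne inc hinc h, sumProjLin_inc_of_ne inc hinc h, map_zero]
        refine LinearMap.ext fun c => ?_
        obtain ⟨x, rfl⟩ := (sumEquiv inc hinc).surjective c
        exact LinearMap.congr_fun key x }

theorem sumProj_apply (j : ι) (c : C.V) :
    (sumProj inc hinc j).hom c = ((sumEquiv inc hinc).symm c) j := rfl

theorem inc_comp_sumProj_self (i : ι) : inc i ≫ sumProj inc hinc i = 𝟙 (A i) := by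
  refine hom_apply_ext fun a => ?_
  rw [comp_hom_apply, id_hom_apply]
  exact sumProjLin_inc_self inc hinc i a

theorem inc_comp_sumProj_of_ne {i j : ι} (h : i ≠ j) : inc i ≫ sumProj inc hinc j = 0 := by
  refine hom_apply_ext fun a => ?_
  rw [comp_hom_apply, zero_hom_apply]
  exact sumProjLin_inc_of_ne inc hinc h a

/-- The idempotent `e_S = ∑_{i ∈ S} q_i ≫ inc_i` fixes every vector supported in `S`. -/
theorem sum_sumProj_inc_apply_of_support [∀ i (x : (A i).V), Decidable (x ≠ 0)]
    (S : Finset ι) (v : C.V)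
    (hv : DFinsupp.support ((sumEquiv inc hinc).symm v) ⊆ S) :
    (∑ i ∈ S, sumProj inc hinc i ≫ inc i).hom v = v := by
  rw [sum_hom_apply]
  have h1 : ∀ i ∈ S, (sumProj inc hinc i ≫ inc i).hom v
      = sumEquiv inc hinc (DirectSum.of (fun i => (A i).V) i (((sumEquiv inc hinc).symm v) i)) := by
    intro i _
    rw [comp_hom_apply, sumProj_apply]
    exact (sumEquiv_lof inc hinc i _).symm
  rw [Finset.sum_congr rfl h1, ← map_sum]
  have h2 : ∑ i ∈ S, DirectSum.of (fun i => (A i).V) i (((sumEquiv inc hinc).symm v) i)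
      = (sumEquiv inc hinc).symm v := by
    rw [← Finset.sum_subset hv]
    · exact DirectSum.sum_support_of _
    · intro i _ hi
      rw [DFinsupp.notMem_support_iff] at hi
      rw [hi, map_zero]
  rw [h2, LinearEquiv.apply_symm_apply]

end DirectSum

/-- **T9b.** -/
theorem directSum : DirectSumSpec := by
  intro k G _ _ _ ι _ A C inc hinc n
  classical
  have : Fintype (Fin n → G) := Fintype.ofFinite _
  -- projections recover components
  have hcomp : ∀ j : ι,
      (coeffMap (sumProj inc hinc j) n).hom.comp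
        (DirectSum.toModule k ι (groupCohomology C n) (fun i => (coeffMap (inc i) n).hom))
      = DirectSum.component k ι (fun i => groupCohomology (A i) n) j := by
    intro j
    refine DirectSum.linearMap_ext k fun i => LinearMap.ext fun x => ?_
    simp only [LinearMap.coe_comp, Function.comp_apply]
    rw [DirectSum.toModule_lof, coeffMap_comp_apply]
    by_cases h : i = j
    · subst h
      rw [inc_comp_sumProj_self, coeffMap_id_apply, DirectSum.component.lof_self]
    · rw [inc_comp_sumProj_of_ne inc hinc h, coeffMap_zero_apply, component_lof_of_ne h]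
  constructor
  · intro x y hxy
    refine DirectSum.ext_component k fun j => ?_
    rw [← hcomp j]
    simp only [LinearMap.coe_comp, Function.comp_apply]
    rw [hxy]
  · intro c
    induction c using groupCohomology_induction_on with
    | h z =>
      let S : Finset ι := Finset.univ.biUnion fun g : Fin n → G =>
        DFinsupp.support ((sumEquiv inc hinc).symm ((iCocycles C n).hom z g))
      have hfix : ∀ g : Fin n → G,
          (∑ i ∈ S, sumProj inc hinc i ≫ inc i).hom ((iCocycles C n).hom z g)
            = (iCocycles C n).hom z g := by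
        intro g
        refine sum_sumProj_inc_apply_of_support inc hinc S _ ?_
        exact Finset.subset_biUnion_of_mem
          (fun g : Fin n → G =>
            DFinsupp.support ((sumEquiv inc hinc).symm ((iCocycles C n).hom z g)))
          (Finset.mem_univ g)
      have hz := coeffMap_π_eq_self_of_fix (∑ i ∈ S, sumProj inc hinc i ≫ inc i) n z hfix
      refine ⟨∑ i ∈ S, DirectSum.lof k ι (fun i => groupCohomology (A i) n) i
        ((coeffMap (sumProj inc hinc i) n).hom ((π C n).hom z)), ?_⟩
      rw [map_sum]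
      conv_rhs => rw [← hz, coeffMap_sum_apply]
      refine Finset.sum_congr rfl fun i _ => ?_
      rw [DirectSum.toModule_lof, coeffMap_comp_apply]

end Fermat.Agent.S55.T.H635

end
-- ===== PACK-END S55/T/SumH635.lean

-- ===== PACK-BEGIN S55/L/D1H301.lean
section




/-!
# S55, layer L, leaf L-D1 (helper301): `H3Spec` and `NormIndexSpec`

From the class-module statement `ClassModuleSpec` of layer L and Tate's theorem (layer T:
`TateH3Spec`, `TateReciprocitySpec`) we deduce `H³(Gal(L/K), Lˣ) = 0` and the norm index formula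
`[Kˣ : N Lˣ] = |Gal(L/K)^ab|`.
-/

set_option autoImplicit false

namespace Fermat.Agent.S55.L

open CategoryTheory groupCohomology

section TopIso

variable {k G : Type} [CommRing k] [Group G] (A : Rep.{0} k G)

/-- `Hⁿ(⊤, A|⊤) ≅ Hⁿ(G, A)`. -/
noncomputable def topIsoH301 (n : ℕ) :
    groupCohomology (T.resSub A (⊤ : Subgroup G)) n ≅ groupCohomology A n :=
  groupCohomology.mapIso (A := A) (B := T.resSub A (⊤ : Subgroup G))
    (Subgroup.topEquiv : (⊤ : Subgroup G) ≃* G) (LinearEquiv.refl k A.V)
    (fun g => by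
      show (LinearEquiv.refl k A.V : A.V →ₗ[k] A.V) ∘ₗ (T.resSub A ⊤).ρ g =
        A.ρ (Subgroup.topEquiv g) ∘ₗ (LinearEquiv.refl k A.V : A.V →ₗ[k] A.V)
      ext x; rfl) n

theorem topIsoH301_inv (n : ℕ) : (topIsoH301 A n).inv = T.resMap A ⊤ n := by
  exact groupCohomology.map_congr rfl rfl n

theorem resMap_topIsoH301_hom (n : ℕ) (x : groupCohomology (T.resSub A (⊤ : Subgroup G)) n) :
    (T.resMap A ⊤ n).hom ((topIsoH301 A n).hom.hom x) = x := by
  rw [← topIsoH301_inv]
  exact congrArg (fun f => f.hom x) (topIsoH301 A n).hom_inv_id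

theorem topIsoH301_hom_resMap (n : ℕ) (x : groupCohomology A n) :
    (topIsoH301 A n).hom.hom ((T.resMap A ⊤ n).hom x) = x := by
  rw [← topIsoH301_inv]
  exact congrArg (fun f => f.hom x) (topIsoH301 A n).inv_hom_id

end TopIso

section Abstract

/-- In a group isomorphic to `ZMod n`, the preimage of `1` has exact order `n`. -/
theorem dvd_of_zsmul_symm_one_h301 {M : Type*} [AddCommGroup M] (n : ℕ) (e : M ≃+ ZMod n)
    (c : ℤ) (hc : c • e.symm 1 = 0) : (n : ℤ) ∣ c := by
  have h3 : e (c • e.symm 1) = 0 := by rw [hc, map_zero]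
  rw [map_zsmul, AddEquiv.apply_symm_apply, zsmul_one] at h3
  exact (ZMod.intCast_zmod_eq_zero_iff_dvd c n).1 h3

/-- Pure group theory behind "the restriction of a fundamental class is a fundamental class". -/
theorem cyclic_res_gen_h301 {M N : Type*} [AddCommGroup M] [AddCommGroup N] (n m idx : ℕ)
    (hn : idx * m = n) (hidx : idx ≠ 0) (hm : 0 < m)
    (γ : M) (hγ : ∀ c : ℤ, c • γ = 0 → (n : ℤ) ∣ c)
    (res : M →+ N) (hres : ∀ x : M, res x = 0 → idx • x = 0)
    (e : N ≃+ ZMod m) :
    (∀ x : N, ∃ c : ℤ, x = c • res γ) ∧ (∀ c : ℤ, c • res γ = 0 → ∃ d : ℤ, c = (m : ℤ) * d) ∧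
      (m : ℤ) • res γ = 0 := by
  classical
  have : NeZero m := ⟨hm.ne'⟩
  have : Finite N := Finite.of_equiv _ e.symm.toEquiv
  have hcard : Nat.card N = m := by rw [Nat.card_congr e.toEquiv, Nat.card_zmod]
  have p4 : (m : ℤ) • res γ = 0 := by
    rw [natCast_zsmul, ← hcard]
    exact card_nsmul_eq_zero'
  have p3 : ∀ c : ℤ, c • res γ = 0 → ∃ d : ℤ, c = (m : ℤ) * d := by
    intro c hc
    have h5 : res (c • γ) = 0 := by rw [map_zsmul]; exact hc
    have h6 : idx • (c • γ) = 0 := hres _ h5
    have h7 : ((idx : ℤ) * c) • γ = 0 := by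
      rw [mul_smul, natCast_zsmul]; exact h6
    have h8 := hγ _ h7
    rw [← hn] at h8
    push_cast at h8
    have hidx' : (idx : ℤ) ≠ 0 := by exact_mod_cast hidx
    exact (mul_dvd_mul_iff_left hidx').1 h8
  refine ⟨fun x => ?_, p3, p4⟩
  have hord : addOrderOf (res γ) = m := by
    apply Nat.dvd_antisymm
    · apply addOrderOf_dvd_of_nsmul_eq_zero
      rw [← natCast_zsmul]; exact p4
    · obtain ⟨d, hd⟩ := p3 (addOrderOf (res γ))
        (by rw [natCast_zsmul]; exact addOrderOf_nsmul_eq_zero _)
      exact Int.natCast_dvd_natCast.1 ⟨d, hd⟩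
  have htop : AddSubgroup.zmultiples (res γ) = ⊤ := by
    apply AddSubgroup.eq_top_of_card_eq
    rw [Nat.card_zmultiples, hord, hcard]
  have hx : x ∈ AddSubgroup.zmultiples (res γ) := htop ▸ AddSubgroup.mem_top x
  obtain ⟨c, hc⟩ := AddSubgroup.mem_zmultiples_iff.1 hx
  exact ⟨c, hc.symm⟩

end Abstract

section ClassModule

variable {G : Type} [Group G] [Finite G] (C : Rep.{0} ℤ G)

/-- If all `H¹(H, C)` vanish and every `H²(H, C)` is cyclic of order `|H|`, then `C` has a
fundamental class. -/
theorem exists_isClassModule_h301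
    (h1 : ∀ H : Subgroup G, Subsingleton (groupCohomology (T.resSub C H) 1))
    (h2 : ∀ H : Subgroup G, Nonempty (groupCohomology (T.resSub C H) 2 ≃+ ZMod (Nat.card H))) :
    ∃ γ : groupCohomology C 2, T.IsClassModule C γ := by
  classical
  obtain ⟨eT⟩ := h2 ⊤
  set γ₀ : groupCohomology (T.resSub C (⊤ : Subgroup G)) 2 := eT.symm 1 with hγ₀
  set γ : groupCohomology C 2 := (topIsoH301 C 2).hom.hom γ₀ with hγ
  have hcardT : Nat.card (⊤ : Subgroup G) = Nat.card G := Subgroup.card_top
  have key : ∀ c : ℤ, c • γ = 0 → (Nat.card G : ℤ) ∣ c := by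
    intro c hc
    have h0 : c • γ₀ = 0 := by
      have := congrArg (T.resMap C ⊤ 2).hom.toAddMonoidHom hc
      rw [map_zsmul, map_zero] at this
      rw [hγ] at this
      have h' : (T.resMap C ⊤ 2).hom.toAddMonoidHom ((topIsoH301 C 2).hom.hom γ₀) = γ₀ :=
        resMap_topIsoH301_hom C 2 γ₀
      rwa [h'] at this
    have := dvd_of_zsmul_symm_one_h301 _ eT c h0
    rwa [hcardT] at this
  refine ⟨γ, fun H => ?_⟩
  obtain ⟨eH⟩ := h2 H
  obtain ⟨q2, q3, q4⟩ := cyclic_res_gen_h301 (Nat.card G) (Nat.card H) H.index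
    (Subgroup.index_mul_card H) Subgroup.index_ne_zero_of_finite Nat.card_pos γ key
    (T.resMap C H 2).hom.toAddMonoidHom
    (fun x hx => Fermat.Agent.S55.H119.index_nsmul_eq_zero_of_resMap_eq_zero_two C H x hx) eH
  refine ⟨ModuleCat.isZero_of_subsingleton _, ?_, ?_, ?_⟩
  · intro x
    obtain ⟨c, hc⟩ := q2 x
    exact ⟨c, hc.trans (int_smul_eq_zsmul _ c _).symm⟩
  · intro c hc
    exact q3 c ((int_smul_eq_zsmul _ c _).symm.trans hc)
  · exact (int_smul_eq_zsmul _ _ _).trans q4

end ClassModule

section Local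

variable (K L : Type) [Field K] [Field L] [Algebra K L] [FiniteDimensional K L] [IsGalois K L]
  [IsLocalFld K]

/-- A fundamental class for `(Gal(L/K), Lˣ)` from `ClassModuleSpec`. -/
theorem exists_isClassModule_unitsRep_h301 (hCM : ClassModuleSpec) :
    ∃ γ : groupCohomology (unitsRep K L) 2, T.IsClassModule (unitsRep K L) γ :=
  exists_isClassModule_h301 (unitsRep K L) (fun H => (hCM K L H).1) (fun H => (hCM K L H).2)

end Local

/-- **L-D1a** `H³(Gal(L/K), Lˣ) = 0`, from the class-module statement and Tate's theorem. -/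
theorem h3Spec_of_h301 (hCM : ClassModuleSpec) (hT : T.TateH3Spec) : H3Spec := by
  intro K L _ _ _ _ _ _
  obtain ⟨γ, hγ⟩ := exists_isClassModule_unitsRep_h301 K L hCM
  have h := hT (L ≃ₐ[K] L) (unitsRep K L) γ hγ ⊤
  have h' : Limits.IsZero (groupCohomology (unitsRep K L) 3) :=
    h.of_iso (topIsoH301 (unitsRep K L) 3).symm
  exact ModuleCat.subsingleton_of_isZero h'

section NormIndex

open Additive

/-- The norm of a restricted multiplicative representation. -/
theorem norm_comp_ofMulDistribMulAction_h301 {G H M : Type} [Group G] [Group H] [Fintype H]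
    [CommGroup M] [MulDistribMulAction G M] (f : H →* G) (x : Additive M) :
    toMul (Representation.norm
      ((Representation.ofMulDistribMulAction G M).comp f : Representation ℤ H (Additive M)) x) =
      ∏ h : H, (f h) • toMul x := by
  simp [Representation.norm]

variable (K L : Type) [Field K] [Field L] [Algebra K L] [FiniteDimensional K L] [IsGalois K L]

/-- The norm of the restriction to `⊤` of `Lˣ` is the field norm. -/
theorem resTop_norm_h301 [Fintype (⊤ : Subgroup (L ≃ₐ[K] L))] (y : Lˣ) :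
    ((toMul (Representation.norm ((Representation.ofMulDistribMulAction (L ≃ₐ[K] L) Lˣ).comp
      (⊤ : Subgroup (L ≃ₐ[K] L)).subtype : Representation ℤ (⊤ : Subgroup (L ≃ₐ[K] L)) (Additive Lˣ))
        (ofMul y)) : Lˣ) : L) =
      algebraMap K L (Algebra.norm K (y : L)) := by
  classical
  rw [Algebra.norm_eq_prod_automorphisms, norm_comp_ofMulDistribMulAction_h301, Units.coe_prod]
  refine Fintype.prod_equiv (Subgroup.topEquiv : (⊤ : Subgroup (L ≃ₐ[K] L)) ≃* _).toEquiv _ _ ?_
  intro g
  rfl

omit [FiniteDimensional K L] [IsGalois K L] in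
theorem resTop_ρ_h301 :
    (T.resSub (unitsRep K L) (⊤ : Subgroup (L ≃ₐ[K] L))).ρ =
      ((Representation.ofMulDistribMulAction (L ≃ₐ[K] L) Lˣ).comp
        (⊤ : Subgroup (L ≃ₐ[K] L)).subtype) := rfl

end NormIndex

section Hat0

/-- Abstract computation of `|Ĥ⁰|` as an index. -/
theorem card_hat0_eq_index_h301 {k H : Type} [CommRing k] [Group H] [Fintype H]
    (A : Rep.{0} k H)
    {Q : Type} [Group Q] (ι : Additive Q →+ A.V)
    (hinv : ∀ x : A.V, x ∈ A.ρ.invariants ↔ ∃ u, ι u = x)
    (S : Subgroup Q)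
    (hS : ∀ u : Q, u ∈ S ↔ ∃ y : A.V, A.ρ.norm y = ι (Additive.ofMul u)) :
    Nat.card (T.hat0 A) = S.index := by
  classical
  -- the map `Additive Q →+ Ĥ⁰`
  let ι' : Additive Q →+ A.ρ.invariants :=
    { toFun := fun u => ⟨ι u, (hinv _).2 ⟨u, rfl⟩⟩
      map_zero' := by ext; simp
      map_add' := fun u v => by ext; simp }
  let ψ : Additive Q →+ T.hat0 A :=
    ((Submodule.mkQ ((LinearMap.range A.ρ.norm).comap A.ρ.invariants.subtype)).toAddMonoidHom).comp ι'
  have hsurj : Function.Surjective ψ := by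
    intro z
    obtain ⟨⟨x, hx⟩, rfl⟩ := Submodule.Quotient.mk_surjective _ z
    obtain ⟨u, hu⟩ := (hinv x).1 hx
    refine ⟨u, ?_⟩
    show Submodule.Quotient.mk (ι' u) = _
    congr 1
    exact Subtype.ext hu
  have hker : ψ.ker = Subgroup.toAddSubgroup S := by
    ext u
    rw [AddMonoidHom.mem_ker]
    show Submodule.Quotient.mk (ι' u) = 0 ↔ _
    rw [Submodule.Quotient.mk_eq_zero, Submodule.mem_comap, LinearMap.mem_range]
    exact (hS (Additive.toMul u)).symm
  have h1 : ψ.ker.index = Nat.card (T.hat0 A) := by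
    rw [AddSubgroup.index_ker, AddMonoidHom.range_eq_top.2 hsurj]
    exact Nat.card_congr (Equiv.Set.univ _)
  rw [← h1, hker, Subgroup.index_toAddSubgroup]

end Hat0

section NormIndexFinal

open Additive

variable (K L : Type) [Field K] [Field L] [Algebra K L] [FiniteDimensional K L] [IsGalois K L]

/-- `|Ĥ⁰(Gal(L/K), Lˣ)| = [Kˣ : N Lˣ]` (computed on the restriction to `⊤`). -/
theorem card_hat0_unitsRep_h301 [Fintype (⊤ : Subgroup (L ≃ₐ[K] L))] :
    Nat.card (T.hat0 (T.resSub (unitsRep K L) (⊤ : Subgroup (L ≃ₐ[K] L)))) =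
      (MonoidHom.range (Units.map (Algebra.norm K : L →* K))).index := by
  classical
  refine card_hat0_eq_index_h301 (T.resSub (unitsRep K L) (⊤ : Subgroup (L ≃ₐ[K] L)))
    (Q := Kˣ) (show Additive Kˣ →+ Additive Lˣ from
      (Units.map (algebraMap K L : K →* L)).toAdditive) ?_ _ ?_
  · intro x
    constructor
    · intro hx
      have hfix : ∀ σ : L ≃ₐ[K] L, σ ((toMul (show Additive Lˣ from x) : Lˣ) : L) =
          ((toMul (show Additive Lˣ from x) : Lˣ) : L) := by
        intro σ
        have := hx ⟨σ, Subgroup.mem_top σ⟩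
        exact congrArg (fun z : Additive Lˣ => ((toMul z : Lˣ) : L)) this
      obtain ⟨a, ha⟩ := (IsGalois.mem_range_algebraMap_iff_fixed _).2 hfix
      have ha0 : a ≠ 0 := by
        rintro rfl
        rw [map_zero] at ha
        exact (Units.ne_zero _) ha.symm
      refine ⟨ofMul (Units.mk0 a ha0), ?_⟩
      show ofMul (Units.map (algebraMap K L : K →* L) (Units.mk0 a ha0)) = _
      apply congrArg ofMul
      apply Units.ext
      exact ha
    · rintro ⟨u, rfl⟩ g
      show ofMul ((g : L ≃ₐ[K] L) • Units.map (algebraMap K L : K →* L) (toMul u)) = _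
      apply congrArg ofMul
      apply Units.ext
      exact (g : L ≃ₐ[K] L).commutes _
  · intro u
    constructor
    · rintro ⟨w, rfl⟩
      refine ⟨(show Additive Lˣ from ofMul w), ?_⟩
      show Representation.norm ((Representation.ofMulDistribMulAction (L ≃ₐ[K] L) Lˣ).comp
        (⊤ : Subgroup (L ≃ₐ[K] L)).subtype : Representation ℤ (⊤ : Subgroup (L ≃ₐ[K] L))
          (Additive Lˣ)) (ofMul w) =
        ofMul (Units.map (algebraMap K L : K →* L) (Units.map (Algebra.norm K : L →* K) w))
      apply toMul.injective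
      apply Units.ext
      rw [resTop_norm_h301]
      rfl
    · rintro ⟨y, hy⟩
      refine ⟨toMul (show Additive Lˣ from y), ?_⟩
      have hy' : Representation.norm ((Representation.ofMulDistribMulAction (L ≃ₐ[K] L) Lˣ).comp
        (⊤ : Subgroup (L ≃ₐ[K] L)).subtype : Representation ℤ (⊤ : Subgroup (L ≃ₐ[K] L))
          (Additive Lˣ)) (ofMul (toMul (show Additive Lˣ from y))) =
        ofMul (Units.map (algebraMap K L : K →* L) u) := hy
      have h2 := congrArg (fun z : Additive Lˣ => ((toMul z : Lˣ) : L)) hy'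
      simp only [resTop_norm_h301] at h2
      apply Units.ext
      apply (algebraMap K L).injective
      exact h2

end NormIndexFinal

/-- **L-D1b** the norm index formula `[Kˣ : N Lˣ] = |Gal(L/K)^ab|`, from the class-module
statement and Tate's reciprocity isomorphism. -/
theorem normIndexSpec_of_h301 (hCM : ClassModuleSpec) (hT : T.TateReciprocitySpec) :
    NormIndexSpec := by
  intro K L _ _ _ _ _ _
  classical
  obtain ⟨γ, hγ⟩ := exists_isClassModule_unitsRep_h301 K L hCM
  let _ : Fintype (⊤ : Subgroup (L ≃ₐ[K] L)) := Fintype.ofFinite _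
  obtain ⟨e⟩ := hT (L ≃ₐ[K] L) (unitsRep K L) γ hγ ⊤
  rw [← card_hat0_unitsRep_h301 K L, ← Nat.card_congr e.toEquiv]
  exact Nat.card_congr
    ((Additive.ofMul.symm).trans
      (Subgroup.topEquiv : (⊤ : Subgroup (L ≃ₐ[K] L)) ≃* _).abelianizationCongr.toEquiv)



end Fermat.Agent.S55.L

end
-- ===== PACK-END S55/L/D1H301.lean

-- ===== PACK-BEGIN S55/Local/H542/CycBasic.lean
section
/-
S55, layer L (helper542): basic facts about the discrete logarithm `cycIdx` of a finite cyclic
group and a small commutative-group toolbox, shared by the pieces A4b / A4c.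
-/


set_option autoImplicit false

namespace Fermat.Agent.S55.Local.H542

open Fermat.Agent.S55.Local

section Idx

variable {G : Type} [Group G] [Finite G] (σ : G) (hσ : ∀ g, g ∈ Subgroup.zpowers σ)

include hσ

theorem pow_card_eq_one_of_generator : σ ^ Nat.card G = 1 := by
  rw [← orderOf_eq_card_of_generator σ hσ]
  exact pow_orderOf_eq_one σ

theorem cycIdx_lt_card (g : G) : cycIdx σ g < Nat.card G := by
  obtain ⟨k, hk, rfl⟩ := exists_pow_eq_of_generator σ hσ g
  rw [cycIdx_pow_of_lt σ hk, ← orderOf_eq_card_of_generator σ hσ]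
  exact hk

theorem pow_cycIdx (g : G) : σ ^ cycIdx σ g = g := by
  obtain ⟨k, hk, rfl⟩ := exists_pow_eq_of_generator σ hσ g
  rw [cycIdx_pow_of_lt σ hk]

theorem cycIdx_pow (k : ℕ) : cycIdx σ (σ ^ k) = k % Nat.card G := by
  have h1 : σ ^ k = σ ^ (k % Nat.card G) := by
    rw [← orderOf_eq_card_of_generator σ hσ, pow_mod_orderOf]
  rw [h1]
  apply cycIdx_pow_of_lt
  rw [orderOf_eq_card_of_generator σ hσ]
  exact Nat.mod_lt _ Nat.card_pos

theorem cycIdx_mul (g h : G) :
    cycIdx σ (g * h) = (cycIdx σ g + cycIdx σ h) % Nat.card G := by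
  conv_lhs => rw [← pow_cycIdx σ hσ g, ← pow_cycIdx σ hσ h, ← pow_add]
  exact cycIdx_pow σ hσ _

theorem cycIdx_add_eq (g h : G) :
    cycIdx σ g + cycIdx σ h =
      cycIdx σ (g * h) + Nat.card G * ((cycIdx σ g + cycIdx σ h) / Nat.card G) := by
  rw [cycIdx_mul σ hσ]
  exact (Nat.mod_add_div _ _).symm

theorem cycIdx_one : cycIdx σ (1 : G) = 0 := by
  have := cycIdx_pow σ hσ 0
  simpa using this

end Idx

section Comm

/-- Additive bookkeeping lemma behind `coboundary_bookkeeping`. -/
theorem coboundary_bookkeeping_add {A : Type} [AddCommGroup A] (c Bi gBj gu Bk xq u : A)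
    (h : c + Bi + gBj = gu + Bk + xq) : gu - gBj - (u - Bk) + (u - Bi) = c - xq := by
  have hc : c = gu + Bk + xq - Bi - gBj := by rw [← h]; abel
  rw [hc]; abel

/-- Bookkeeping in a commutative group. -/
theorem coboundary_bookkeeping {M : Type} [CommGroup M] (c Bi gBj gu Bk xq u : M)
    (h : c * Bi * gBj = gu * Bk * xq) : gu / gBj / (u / Bk) * (u / Bi) = c / xq :=
  coboundary_bookkeeping_add (A := Additive M) c Bi gBj gu Bk xq u h

theorem mul_right_cancel_comm_add {A : Type} [AddCommGroup A] (a b c d : A)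
    (h : a + b + c = a + (b + d)) : c = d := by
  have : c = (a + b + c) - a - b := by abel
  rw [this, h]; abel

end Comm

end Fermat.Agent.S55.Local.H542

end
-- ===== PACK-END S55/Local/H542/CycBasic.lean

-- ===== PACK-BEGIN S55/Local/H585/LF5.lean
section



/-!
# S55, layer L, piece LF5 (helper585): completeness and separatedness of the unit group
-/

set_option autoImplicit false
set_option linter.unusedSectionVars false

namespace Fermat.Agent.S55.Local.H585

open IsLocalRing

section

variable (A F : Type) [CommRing A] [IsDomain A] [IsDiscreteValuationRing A]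
    [IsAdicComplete (IsLocalRing.maximalIdeal A) A]
    [Field F] [CharZero F] [Algebra A F] [IsFractionRing A F]
    (L : Type) [Field L] [Algebra F L] [FiniteDimensional F L]
    [Algebra A L] [IsScalarTower A F L]

include F in
/-- A non-unit of the ring of integers: an integral element whose inverse is not integral. -/
theorem not_isUnit_of_not_isInt_inv (ϖ : integralClosure A L)
    (hinv : ¬ IsInt A F L ((ϖ : L))⁻¹) : ¬ IsUnit ϖ := by
  rintro ⟨b, hb⟩
  apply hinv
  have h := unitsIncB_mem (F := F) b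
  have h2 := h.2
  rw [show (((unitsIncB A L b)⁻¹ : Lˣ) : L) = ((unitsIncB A L b : Lˣ) : L)⁻¹ by simp,
    unitsIncB_coe, hb] at h2
  exact h2

include F in
/-- Separatedness. -/
theorem eq_one_of_forall_mem_higherUnits (ϖ : L) (hϖ : IsInt A F L ϖ)
    (hinv : ¬ IsInt A F L ϖ⁻¹) (x : Lˣ) (hx : ∀ j, x ∈ higherUnits A F L ϖ j) : x = 1 := by
  set ϖB : integralClosure A L := ⟨ϖ, isInt_iff_mem.mp hϖ⟩ with hϖB
  have hDed := isDedekindDomain_int A F L
  have hnu : ¬ IsUnit ϖB := not_isUnit_of_not_isInt_inv A F L ϖB hinv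
  have htop : Ideal.span {ϖB} ≠ ⊤ := by
    rwa [Ne, Ideal.span_singleton_eq_top]
  have hbot := Ideal.iInf_pow_eq_bot_of_isDomain (Ideal.span {ϖB}) htop
  obtain ⟨b, hb, -⟩ := (mem_higherUnits_iff (F := F) ϖB 0).mp (hx 0)
  have hmem : ((b : integralClosure A L) - 1) ∈ (⨅ i : ℕ, Ideal.span {ϖB} ^ i) := by
    rw [Ideal.mem_iInf]
    intro j
    obtain ⟨c, hc, hcj⟩ := (mem_higherUnits_iff (F := F) ϖB j).mp (hx j)
    have hbc : b = c := unitsIncB_injective (hb.trans hc.symm)
    rw [hbc, Ideal.span_singleton_pow]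
    exact hcj
  rw [hbot, Ideal.mem_bot, sub_eq_zero] at hmem
  rw [← hb]
  apply Units.ext
  rw [unitsIncB_coe, hmem]
  simp

include F in
/-- Completeness. -/
theorem exists_limit_higherUnits (ϖ : L) (hϖ : IsInt A F L ϖ) (h0 : ϖ ≠ 0)
    (hinv : ¬ IsInt A F L ϖ⁻¹) (u : ℕ → Lˣ) (hu : ∀ j, u j ∈ higherUnits A F L ϖ j) :
    ∃ s : Lˣ, ∀ n, s / ∏ j ∈ Finset.range n, u j ∈ higherUnits A F L ϖ n := by
  set ϖB : integralClosure A L := ⟨ϖ, isInt_iff_mem.mp hϖ⟩ with hϖB
  have hϖB0 : ϖB ≠ 0 := fun h => h0 (congrArg Subtype.val h)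
  have hloc := isLocalRing_int A F L
  have hDVR := isDVR_int A F L
  have hcompl := isAdicComplete_int A F L
  have hnu : ¬ IsUnit ϖB := not_isUnit_of_not_isInt_inv A F L ϖB hinv
  have hϖm : ϖB ∈ maximalIdeal (integralClosure A L) := (IsLocalRing.mem_maximalIdeal _).mpr hnu
  -- units of `B` lifting the `u j`
  choose v hv hvmem using fun j => (mem_higherUnits_iff (F := F) ϖB j).mp (hu j)
  -- partial products
  let p : ℕ → (integralClosure A L)ˣ := fun n => ∏ j ∈ Finset.range n, v j
  have hp : ∀ n, unitsIncB A L (p n) = ∏ j ∈ Finset.range n, u j := by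
    intro n
    simp only [p, map_prod, hv]
  have hstep : ∀ n, ((p (n + 1) : integralClosure A L) - p n) ∈ Ideal.span {ϖB ^ n} := by
    intro n
    have : ((p (n + 1) : integralClosure A L) - p n) = (p n : integralClosure A L) * ((v n : integralClosure A L) - 1) := by
      simp only [p, Finset.prod_range_succ, Units.val_mul]
      ring
    rw [this]
    exact Ideal.mul_mem_left _ _ (hvmem n)
  have hmono : ∀ {m n : ℕ}, m ≤ n → Ideal.span {ϖB ^ n} ≤ Ideal.span {ϖB ^ m} := by
    intro m n hmn
    rw [Ideal.span_singleton_le_span_singleton]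
    exact pow_dvd_pow _ hmn
  have htel : ∀ n k, ((p (n + k) : integralClosure A L) - p n) ∈ Ideal.span {ϖB ^ n} := by
    intro n k
    induction k with
    | zero => simp
    | succ k ih =>
      have h1 := hmono (Nat.le_add_right n k) (hstep (n + k))
      have : ((p (n + (k + 1)) : integralClosure A L) - p n) =
          ((p (n + k + 1) : integralClosure A L) - p (n + k)) + ((p (n + k) : integralClosure A L) - p n) := by
        rw [← add_assoc]; ring
      rw [this]
      exact Ideal.add_mem _ h1 ih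
  have hle : ∀ n, Ideal.span {ϖB ^ n} ≤ maximalIdeal (integralClosure A L) ^ n := by
    intro n
    rw [Ideal.span_singleton_le_iff_mem]
    exact Ideal.pow_mem_pow hϖm n
  -- the limit
  obtain ⟨s, hs⟩ := IsPrecomplete.prec hcompl.toIsPrecomplete
    (f := fun n => (p n : integralClosure A L)) (by
      intro m n hmn
      obtain ⟨k, rfl⟩ := Nat.exists_eq_add_of_le hmn
      rw [SModEq.sub_mem, smul_eq_mul, Ideal.mul_top]
      have := hle m (htel m k)
      rw [← neg_sub]
      exact neg_mem this)
  have hs' : ∀ n, (s - p n) ∈ maximalIdeal (integralClosure A L) ^ n := by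
    intro n
    have := hs n
    rw [SModEq.sub_mem, smul_eq_mul, Ideal.mul_top] at this
    rw [← neg_sub]
    exact neg_mem this
  -- `s` is a unit
  have hsu : IsUnit s := by
    by_contra hns
    have hsm : s ∈ maximalIdeal (integralClosure A L) := (IsLocalRing.mem_maximalIdeal _).mpr hns
    have h1 := hs' 1
    rw [pow_one] at h1
    have : ((p 1 : (integralClosure A L)ˣ) : integralClosure A L) ∈ maximalIdeal (integralClosure A L) := by
      have h2 := Ideal.sub_mem _ hsm h1
      rwa [sub_sub_cancel] at h2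
    exact (IsLocalRing.mem_maximalIdeal _).mp this (p 1).isUnit
  -- `(ϖ) = m ^ a`
  obtain ⟨a, ha⟩ := exists_eq_maximalIdeal_pow A F L (Ideal.span {ϖB}) (by
    rwa [Ne, Ideal.span_singleton_eq_bot])
  have hcong : ∀ n, (s - p n) ∈ Ideal.span {ϖB ^ n} := by
    intro n
    have h1 : (s - p (n + a * n)) ∈ Ideal.span {ϖB ^ n} := by
      rw [← Ideal.span_singleton_pow, ha, ← pow_mul]
      exact Ideal.pow_le_pow_right (Nat.le_add_left _ _) (hs' (n + a * n))
    have h2 := htel n (a * n)
    have : s - p n = (s - p (n + a * n)) + ((p (n + a * n) : integralClosure A L) - p n) := by ring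
    rw [this]
    exact Ideal.add_mem _ h1 h2
  refine ⟨unitsIncB A L hsu.unit, fun n => ?_⟩
  rw [← hp n, ← map_div]
  rw [mem_higherUnits_iff (F := F) ϖB n]
  refine ⟨hsu.unit / p n, rfl, ?_⟩
  have : (((hsu.unit / p n : (integralClosure A L)ˣ) : integralClosure A L) - 1) =
      (s - p n) * ((p n)⁻¹ : (integralClosure A L)ˣ) := by
    rw [div_eq_mul_inv, Units.val_mul, IsUnit.unit_spec, sub_mul, Units.mul_inv]
  rw [this]
  exact Ideal.mul_mem_right _ _ (hcong n)

end

/-- (LF5) completeness and separatedness of the unit group. -/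
theorem unitsComplete : UnitsCompleteStatement := by
  intro A F _ _ _ _ _ _ _ _ _ L _ _ _ ϖ hϖ h0 hinv
  let _ : Algebra A L := (toL A F L).toAlgebra
  have : IsScalarTower A F L := IsScalarTower.of_algebraMap_eq (fun _ => rfl)
  exact ⟨fun u hu => exists_limit_higherUnits A F L ϖ hϖ h0 hinv u hu,
    fun x hx => eq_one_of_forall_mem_higherUnits A F L ϖ hϖ hinv x hx⟩

end Fermat.Agent.S55.Local.H585

end
-- ===== PACK-END S55/Local/H585/LF5.lean

-- ===== PACK-BEGIN S55/Local/H312/UR1.lean
section




/-!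
# S55 layer L, piece UR1 (helper312): an unramified Galois extension of local fields is cyclic

`unramCyclic : Fermat.Agent.S55.Local.UnramCyclicStatement`.
Route: `R = integralClosure A K`, `S = integralClosure R L`; `IsUnram` gives that every nonzero
element of `S` is (element of `R`) * (unit of `S`); then `UnramCore.isCyclic_of_unram`.
(No completeness of `A` is used beyond what `H715.Integers` needs for finiteness of quotients.)
-/

set_option autoImplicit false
set_option linter.overlappingInstances false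
set_option linter.style.haveILetI false
set_option linter.unusedSectionVars false

namespace Fermat.Agent.S55.Local.H312

open Fermat.Agent.S55.Local
open scoped Pointwise

section Generic

variable (A K L : Type) [CommRing A] [Field K] [Field L] [Algebra A K] [Algebra K L]
  [Algebra A L] [IsScalarTower A K L]

lemma isScalarTower_intClosure : IsScalarTower A (integralClosure A K) L :=
  IsScalarTower.of_algebraMap_eq (fun a => IsScalarTower.algebraMap_apply A K L a)

attribute [local instance] isScalarTower_intClosure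

/-- elements of `integralClosure (integralClosure A K) L` are integral over `A`. -/
lemma isIntegral_of_mem_OL (x : integralClosure (integralClosure A K) L) :
    IsIntegral A (x : L) :=
  isIntegral_trans (R := A) (A := integralClosure A K) (x : L) x.2

lemma hunr_of_units
    (h : ∀ x : Lˣ, ∃ y : Kˣ,
      IsIntegral A ((x * (Units.map (algebraMap K L).toMonoidHom y)⁻¹ : Lˣ) : L) ∧
      IsIntegral A (((x * (Units.map (algebraMap K L).toMonoidHom y)⁻¹)⁻¹ : Lˣ) : L))
    (x : integralClosure (integralClosure A K) L) (hx : x ≠ 0) :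
    ∃ (y : integralClosure A K) (u : (integralClosure (integralClosure A K) L)ˣ),
      x = algebraMap (integralClosure A K) (integralClosure (integralClosure A K) L) y * u := by
  have hxL : (x : L) ≠ 0 := fun h => hx (Subtype.ext h)
  obtain ⟨yK, hu1, hu2⟩ := h (Units.mk0 (x : L) hxL)
  set v : Lˣ := Units.map (algebraMap K L).toMonoidHom yK with hv
  set u₀ : Lˣ := Units.mk0 (x : L) hxL * v⁻¹ with hu₀
  have hv1 : (v : L) = algebraMap K L (yK : K) := rfl
  have h2 : (Units.mk0 (x : L) hxL) * u₀⁻¹ = v := by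
    rw [hu₀, mul_inv_rev, inv_inv, mul_comm v _, ← mul_assoc, mul_inv_cancel, one_mul]
  have h3 : v * u₀ = Units.mk0 (x : L) hxL := by
    rw [hu₀, mul_comm (Units.mk0 (x : L) hxL) _, ← mul_assoc, mul_inv_cancel, one_mul]
  have hyint : IsIntegral A (algebraMap K L (yK : K)) := by
    have e : algebraMap K L (yK : K) = (x : L) * ((u₀⁻¹ : Lˣ) : L) := by
      rw [← hv1, ← h2]; rfl
    rw [e]
    exact (isIntegral_of_mem_OL A K L x).mul hu2
  rw [isIntegral_algebraMap_iff (algebraMap K L).injective] at hyint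
  let u : (integralClosure (integralClosure A K) L)ˣ :=
    { val := ⟨(u₀ : L), hu1.tower_top⟩
      inv := ⟨((u₀⁻¹ : Lˣ) : L), hu2.tower_top⟩
      val_inv := Subtype.ext (by simp)
      inv_val := Subtype.ext (by simp) }
  refine ⟨⟨(yK : K), hyint⟩, u, Subtype.ext ?_⟩
  have h4 : (x : L) = algebraMap K L (yK : K) * (u₀ : L) := by
    rw [← hv1, ← Units.val_mul, h3, Units.val_mk0]
  rw [Subalgebra.coe_mul, Subalgebra.coe_algebraMap]
  exact h4

lemma algebraMap_OK_OL_injective :
    Function.Injective
      (algebraMap (integralClosure A K) (integralClosure (integralClosure A K) L)) := by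
  intro a b hab
  have h' : algebraMap (integralClosure A K) L a = algebraMap (integralClosure A K) L b := by
    rw [IsScalarTower.algebraMap_apply (integralClosure A K)
      (integralClosure (integralClosure A K) L) L, hab,
      ← IsScalarTower.algebraMap_apply (integralClosure A K)
      (integralClosure (integralClosure A K) L) L]
  exact Subtype.ext ((algebraMap K L).injective h')

end Generic

section AKLB

variable (R K L S : Type) [CommRing R] [IsDomain R] [IsDedekindDomain R]
  [Field K] [Field L] [Algebra R K] [IsFractionRing R K] [Algebra K L] [Algebra R L]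
  [IsScalarTower R K L] [FiniteDimensional K L] [IsGalois K L]
  [CommRing S] [IsDomain S] [IsDedekindDomain S] [Algebra R S] [Algebra S L]
  [IsScalarTower R S L] [IsIntegralClosure S R L] [Module.Finite R S] [IsFractionRing S L]
  [Module.Flat R S]

theorem isCyclic_gal_of_hunr
    (hunr : ∀ x : S, x ≠ 0 → ∃ (y : R) (u : Sˣ), x = algebraMap R S y * u)
    (hS : ¬ IsField S) (hfin : ∀ P : Ideal R, P.IsMaximal → Finite (R ⧸ P)) :
    IsCyclic Gal(L/K) := by
  letI : MulSemiringAction Gal(L/K) S := IsIntegralClosure.MulSemiringAction R K L S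
  haveI : IsGaloisGroup Gal(L/K) R S := IsGaloisGroup.of_isFractionRing _ _ _ K L
  exact isCyclic_of_unram hunr hS hfin

end AKLB

section Bridge

variable (A F : Type) [CommRing A] [IsDomain A] [IsDiscreteValuationRing A]
    [IsAdicComplete (IsLocalRing.maximalIdeal A) A] [Finite (IsLocalRing.ResidueField A)]
    [Field F] [CharZero F] [Algebra A F] [IsFractionRing A F]
    (K : Type) [Field K] [Algebra F K] [FiniteDimensional F K]
    (L : Type) [Field L] [Algebra F L] [Algebra K L] [IsScalarTower F K L]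
    [FiniteDimensional K L] [IsGalois K L]

theorem unramCyclic_aux (hunram : IsUnram A F L K) : IsCyclic (L ≃ₐ[K] L) := by
  letI : Algebra A K := H715.algAL A F K
  haveI : IsScalarTower A F K := H715.isScalarTower_algAL A F K
  letI : Algebra A L := H715.algAL A F L
  haveI : IsScalarTower A F L := H715.isScalarTower_algAL A F L
  haveI : IsScalarTower A K L := IsScalarTower.of_algebraMap_eq (fun a => by
    show toL A F L a = algebraMap K L (algebraMap F K (algebraMap A F a))
    rw [toL_apply, ← IsScalarTower.algebraMap_apply F K L])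
  haveI : IsFractionRing (integralClosure A K) K := H715.isFractionRing_OL A F K
  haveI : IsDedekindDomain (integralClosure A K) := H715.isDedekindDomain_OL A F K
  haveI : IsDedekindDomain (integralClosure (integralClosure A K) L) :=
    IsIntegralClosure.isDedekindDomain (integralClosure A K) K L _
  haveI : Module.Finite (integralClosure A K) (integralClosure (integralClosure A K) L) :=
    IsIntegralClosure.finite (integralClosure A K) K L _
  haveI : IsFractionRing (integralClosure (integralClosure A K) L) L :=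
    IsIntegralClosure.isFractionRing_of_finite_extension (integralClosure A K) K L _
  refine isCyclic_gal_of_hunr (integralClosure A K) K L (integralClosure (integralClosure A K) L)
    ?_ ?_ ?_
  · refine hunr_of_units A K L ?_
    intro x
    obtain ⟨y, hy1, hy2⟩ := hunram x
    rw [H715.isInt_iff] at hy1 hy2
    exact ⟨y, hy1, hy2⟩
  · intro h
    have hint : Algebra.IsIntegral (integralClosure A K)
      (integralClosure (integralClosure A K) L) := inferInstance
    exact H715.not_isField_OL A F K
      (isField_of_isIntegral_of_isField (algebraMap_OK_OL_injective A K L) h)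
  · intro P hP
    exact H715.finite_quotient_OL A F K P
      (Ring.ne_bot_of_isMaximal_of_not_isField hP (H715.not_isField_OL A F K))

theorem unramCyclic : UnramCyclicStatement := by
  intro A F _ _ _ _ _ _ _ _ _ K _ _ _ L _ _ _ _ _ _ h
  exact unramCyclic_aux A F K L h

end Bridge

end Fermat.Agent.S55.Local.H312

end
-- ===== PACK-END S55/Local/H312/UR1.lean

-- ===== PACK-BEGIN S55/H954/SylowCard.lean
section



/-!
# Sylow dévissage for `H¹` and `H²` (cardinality form)

`G` finite, `A : Rep k G`.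

* `H1_eq_zero_of_sylow`: if for every prime `p` some Sylow `p`-subgroup `P` has `H¹(P, A) = 0`,
  then `H¹(G, A) = 0`.
* `card_H2_dvd_card_of_sylow`: if for every prime `p ∣ |G|` some Sylow `p`-subgroup `P` has
  `H²(P, A)` finite of order dividing `|P|`, then `H²(G, A)` is finite of order dividing `|G|`.
-/

set_option autoImplicit false
set_option linter.unusedSectionVars false
set_option linter.style.haveILetI false

namespace Fermat.Agent.S55.H954

open CategoryTheory groupCohomology Rep Fermat.Agent.S55.H119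

universe u

variable {k G : Type u} [CommRing k] [Group G] (A : Rep k G)

/-- `H²` of a group of order one vanishes. -/
theorem H2_eq_zero_of_card_eq_one [Finite G] (h : Nat.card G = 1) (x : H2 A) : x = 0 := by
  have := card_nsmul_eq_zero_two A x
  rwa [h, one_smul] at this

/-- `H¹` of a group of order one vanishes. -/
theorem H1_eq_zero_of_card_eq_one [Finite G] (h : Nat.card G = 1) (x : H1 A) : x = 0 := by
  have := card_nsmul_eq_zero_one A x
  rwa [h, one_smul] at this

/-- Sylow dévissage for `H¹`. -/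
theorem H1_eq_zero_of_sylow [Finite G]
    (h : ∀ p : ℕ, p.Prime → ∃ P : Sylow p G,
      ∀ y : H1 (res (P : Subgroup G).subtype A), y = 0) (x : H1 A) : x = 0 :=
  eq_zero_of_forall_sylow_resMap_eq_zero_one A x fun p hp => by
    obtain ⟨P, hP⟩ := h p hp
    exact ⟨P, hP _⟩

/-- Sylow dévissage for `H²`, cardinality form. -/
theorem card_H2_dvd_card_of_sylow [Finite G]
    (h : ∀ p : ℕ, p.Prime → p ∣ Nat.card G → ∃ P : Sylow p G,
      Finite (H2 (res (P : Subgroup G).subtype A)) ∧
      Nat.card (H2 (res (P : Subgroup G).subtype A)) ∣ Nat.card (P : Subgroup G)) :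
    Finite (H2 A) ∧ Nat.card (H2 A) ∣ Nat.card G := by
  classical
  set F := (Nat.card G).primeFactors with hFdef
  have hF : ∀ p : F, ∃ P : Sylow p.1 G,
      Finite (H2 (res (P : Subgroup G).subtype A)) ∧
      Nat.card (H2 (res (P : Subgroup G).subtype A)) ∣ Nat.card (P : Subgroup G) := fun p =>
    h p.1 (Nat.prime_of_mem_primeFactors p.2) (Nat.dvd_of_mem_primeFactors p.2)
  choose P hPfin hPcard using hF
  haveI : ∀ p : F, Finite (H2 (res (P p : Subgroup G).subtype A)) := hPfin
  let ρ : H2 A →+ ∀ p : F, H2 (res (P p : Subgroup G).subtype A) :=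
    { toFun := fun x p => resMap A (P p : Subgroup G) 2 x
      map_zero' := by funext p; exact map_zero _
      map_add' := fun x y => by funext p; exact map_add _ x y }
  have hinj : Function.Injective ρ := by
    rw [injective_iff_map_eq_zero]
    intro x hx
    refine eq_zero_of_forall_sylow_resMap_eq_zero_two A x fun p hp => ?_
    by_cases hpF : p ∈ F
    · exact ⟨P ⟨p, hpF⟩, congr_fun hx ⟨p, hpF⟩⟩
    · haveI : Fact p.Prime := ⟨hp⟩
      obtain ⟨Q⟩ : Nonempty (Sylow p G) := inferInstance
      refine ⟨Q, ?_⟩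
      have hcard : Nat.card (Q : Subgroup G) = 1 := by
        rw [Sylow.card_eq_multiplicity]
        have : (Nat.card G).factorization p = 0 := by
          rw [← Finsupp.notMem_support_iff, Nat.support_factorization]
          exact hpF
        rw [this, pow_zero]
      exact H2_eq_zero_of_card_eq_one (res (Q : Subgroup G).subtype A) hcard _
  haveI : Finite (H2 A) := Finite.of_injective ρ hinj
  refine ⟨inferInstance, ?_⟩
  have h1 : Nat.card (H2 A) = Nat.card ρ.range :=
    Nat.card_congr (AddMonoidHom.ofInjective hinj).toEquiv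
  have h2 : Nat.card ρ.range ∣ Nat.card (∀ p : F, H2 (res (P p : Subgroup G).subtype A)) :=
    AddSubgroup.card_addSubgroup_dvd_card ρ.range
  have h3 : Nat.card (∀ p : F, H2 (res (P p : Subgroup G).subtype A)) =
      ∏ p : F, Nat.card (H2 (res (P p : Subgroup G).subtype A)) := Nat.card_pi
  have h4 : (∏ p : F, Nat.card (H2 (res (P p : Subgroup G).subtype A))) ∣
      ∏ p : F, Nat.card (P p : Subgroup G) :=
    Finset.prod_dvd_prod_of_dvd _ _ (fun p _ => hPcard p)
  have h5 : (∏ p : F, Nat.card (P p : Subgroup G)) = Nat.card G := by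
    have hne : Nat.card G ≠ 0 := Nat.card_pos.ne'
    conv_rhs => rw [← Nat.prod_factorization_pow_eq_self hne]
    rw [Finsupp.prod, Nat.support_factorization, ← hFdef, ← Finset.prod_coe_sort F]
    refine Finset.prod_congr rfl (fun p _ => ?_)
    haveI : Fact p.1.Prime := ⟨Nat.prime_of_mem_primeFactors p.2⟩
    exact Sylow.card_eq_multiplicity (P p)
  rw [h1]
  exact h2.trans (h3 ▸ h4.trans (dvd_of_eq h5))

end Fermat.Agent.S55.H954

end
-- ===== PACK-END S55/H954/SylowCard.lean

-- ===== PACK-BEGIN S55/G/Log101.lean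
section
/-
S55 / G-U / leaf GU-LOG (`UnitsLogSpec`): the equivariant logarithmic lattice of the units.
Producer: helper101.
-/



set_option autoImplicit false
set_option linter.unusedSectionVars false

namespace Fermat.Agent.S55.G.Log101

open NumberField NumberField.InfinitePlace NumberField.Units
  NumberField.Units.dirichletUnitTheorem

universe u v

section Phi

variable (L : Type v) [Field L]

/-- The full logarithmic map `x ↦ (mult w * log (w x))_w` on `Lˣ`. -/
noncomputable def phi : Additive Lˣ →+ (InfinitePlace L → ℝ) where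
  toFun x w := (mult w : ℝ) * Real.log (w ((Additive.toMul x : Lˣ) : L))
  map_zero' := by
    funext w
    simp
  map_add' x y := by
    funext w
    have hx : w ((Additive.toMul x : Lˣ) : L) ≠ 0 :=
      (map_ne_zero w).mpr (Additive.toMul x).ne_zero
    have hy : w ((Additive.toMul y : Lˣ) : L) ≠ 0 :=
      (map_ne_zero w).mpr (Additive.toMul y).ne_zero
    simp only [toMul_add, Units.val_mul, map_mul, Pi.add_apply]
    rw [Real.log_mul hx hy, mul_add]

theorem phi_apply (x : Additive Lˣ) (w : InfinitePlace L) :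
    phi L x w = (mult w : ℝ) * Real.log (w ((Additive.toMul x : Lˣ) : L)) := rfl

end Phi

section Equivariant

variable (K : Type u) (L : Type v) [Field K] [Field L] [Algebra K L]

theorem mult_smul_eq (τ : L ≃ₐ[K] L) (w : InfinitePlace L) : mult (τ • w) = mult w := by
  have h : IsReal (τ • w) ↔ IsReal w := isReal_smul_iff
  by_cases hw : IsReal w
  · rw [IsReal.mult_eq_one hw, IsReal.mult_eq_one (h.mpr hw)]
  · have hw' : ¬ IsReal (τ • w) := fun h' => hw (h.mp h')
    rw [IsComplex.mult_eq_two (not_isReal_iff_isComplex.mp hw),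
      IsComplex.mult_eq_two (not_isReal_iff_isComplex.mp hw')]

theorem phi_equivariant (τ : L ≃ₐ[K] L) (x : Additive Lˣ) :
    phi L (unitsHom K L τ x) = permHomR (L ≃ₐ[K] L) (InfinitePlace L) τ (phi L x) := by
  funext w
  show phi L (unitsHom K L τ x) w = phi L x (τ⁻¹ • w)
  rw [phi_apply, phi_apply, mult_smul_eq, InfinitePlace.smul_apply]
  rfl

end Equivariant

section IntUnits

variable (L : Type v) [Field L] [NumberField L]

/-- The image in `Additive Lˣ` of a unit of the ring of integers. -/
noncomputable def uL (u : (𝓞 L)ˣ) : Additive Lˣ :=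
  Additive.ofMul (Units.map ((algebraMap (𝓞 L) L : 𝓞 L →+* L) : 𝓞 L →* L) u)

theorem mem_intUnits_iff (x : Additive Lˣ) : x ∈ intUnits L ↔ ∃ u : (𝓞 L)ˣ, uL L u = x := by
  constructor
  · rintro ⟨u, hu⟩
    exact ⟨u, hu⟩
  · rintro ⟨u, hu⟩
    exact ⟨u, hu⟩

theorem phi_uL (u : (𝓞 L)ˣ) (w : InfinitePlace L) :
    phi L (uL L u) w = (mult w : ℝ) * Real.log (w (u : L)) := rfl

theorem uL_mem_ker_iff (u : (𝓞 L)ˣ) : phi L (uL L u) = 0 ↔ u ∈ torsion L := by
  rw [mem_torsion]
  constructor
  · intro h w
    have := congrFun h w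
    rw [phi_uL] at this
    exact mult_log_place_eq_zero.mp this
  · intro h
    funext w
    rw [phi_uL, h w, Real.log_one, mul_zero]
    rfl

theorem finite_ker_inf : Finite ↥((phi L).ker ⊓ intUnits L) := by
  have hfin : (Set.range (fun t : torsion L => uL L (t : (𝓞 L)ˣ))).Finite := Set.finite_range _
  have hsub : (((phi L).ker ⊓ intUnits L : AddSubgroup (Additive Lˣ)) : Set (Additive Lˣ)) ⊆
      Set.range (fun t : torsion L => uL L (t : (𝓞 L)ˣ)) := by
    rintro x ⟨hx1, hx2⟩
    obtain ⟨u, rfl⟩ := (mem_intUnits_iff L x).mp hx2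
    have hu : u ∈ torsion L := (uL_mem_ker_iff L u).mp hx1
    exact ⟨⟨u, hu⟩, rfl⟩
  exact (hfin.subset hsub).to_subtype

end IntUnits

section Iota

open scoped Classical

variable (L : Type v) [Field L] [NumberField L]

/-- The extension of a function on the places `≠ w₀` to a trace-zero function on all places. -/
noncomputable def iota : logSpace L →ₗ[ℝ] (InfinitePlace L → ℝ) :=
  LinearMap.pi fun w =>
    if h : w = w₀ then -(∑ w' : {w : InfinitePlace L // w ≠ w₀}, LinearMap.proj w')
    else LinearMap.proj ⟨w, h⟩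

theorem iota_apply_of_ne (f : logSpace L) (w : InfinitePlace L) (h : w ≠ w₀) :
    iota L f w = f ⟨w, h⟩ := by
  simp [iota, h]

theorem iota_apply_w₀ (f : logSpace L) :
    iota L f w₀ = -∑ w' : {w : InfinitePlace L // w ≠ w₀}, f w' := by
  simp [iota]

theorem iota_injective : Function.Injective (iota L) := by
  intro f g hfg
  funext w'
  have := congrFun hfg w'.1
  rwa [iota_apply_of_ne L f w'.1 w'.2, iota_apply_of_ne L g w'.1 w'.2] at this

theorem sum_iota (f : logSpace L) : ∑ w : InfinitePlace L, iota L f w = 0 := by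
  rw [Fintype.sum_eq_add_sum_subtype_ne _ (w₀ : InfinitePlace L), iota_apply_w₀]
  have : ∀ w' : {w : InfinitePlace L // w ≠ w₀}, iota L f w'.1 = f w' :=
    fun w' => iota_apply_of_ne L f w'.1 w'.2
  simp only [this]
  exact neg_add_cancel _

theorem mem_traceZeroR_iff (g : InfinitePlace L → ℝ) :
    g ∈ traceZeroR L ↔ ∑ w : InfinitePlace L, g w = 0 := by
  unfold traceZeroR
  rw [LinearMap.mem_ker]
  simp

theorem range_iota : LinearMap.range (iota L) = traceZeroR L := by
  ext g
  rw [mem_traceZeroR_iff]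
  constructor
  · rintro ⟨f, rfl⟩
    exact sum_iota L f
  · intro hg
    refine ⟨fun w' => g w'.1, ?_⟩
    funext w
    by_cases h : w = w₀
    · subst h
      rw [iota_apply_w₀]
      rw [Fintype.sum_eq_add_sum_subtype_ne _ (w₀ : InfinitePlace L)] at hg
      linarith
    · rw [iota_apply_of_ne L _ w h]

theorem phi_uL_eq_iota (u : (𝓞 L)ˣ) :
    phi L (uL L u) = iota L (logEmbedding L (Additive.ofMul u)) := by
  funext w
  by_cases h : w = w₀
  · subst h
    rw [iota_apply_w₀, sum_logEmbedding_component, phi_uL]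
    ring
  · rw [iota_apply_of_ne L _ w h, phi_uL]
    rfl

end Iota

section Basis

open scoped Classical

variable (L : Type v) [Field L] [NumberField L]

/-- The real basis of `logSpace L` given by the `ℤ`-basis of the unit lattice. -/
noncomputable def logBasis : Module.Basis (Fin (Units.rank L)) ℝ (logSpace L) :=
  (basisUnitLattice L).ofZLatticeBasis ℝ (unitLattice L)

/-- The family `b` of the spec. -/
noncomputable def bFam : Fin (Units.rank L) → (InfinitePlace L → ℝ) :=
  fun i => iota L (logBasis L i)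

theorem bFam_linearIndependent : LinearIndependent ℝ (bFam L) := by
  have h := (logBasis L).linearIndependent
  exact h.map' (iota L) (LinearMap.ker_eq_bot.mpr (iota_injective L))

theorem range_bFam : Set.range (bFam L) = (iota L) '' Set.range (logBasis L) := by
  ext x
  constructor
  · rintro ⟨i, rfl⟩
    exact ⟨logBasis L i, ⟨i, rfl⟩, rfl⟩
  · rintro ⟨_, ⟨i, rfl⟩, rfl⟩
    exact ⟨i, rfl⟩

theorem span_real_bFam : Submodule.span ℝ (Set.range (bFam L)) = traceZeroR L := by
  rw [range_bFam, ← Submodule.map_span, (logBasis L).span_eq, Submodule.map_top, range_iota]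

theorem span_int_logBasis : Submodule.span ℤ (Set.range (logBasis L)) = unitLattice L :=
  (basisUnitLattice L).ofZLatticeBasis_span ℝ

theorem span_int_bFam :
    Submodule.span ℤ (Set.range (bFam L)) =
      (unitLattice L).map ((iota L).restrictScalars ℤ) := by
  rw [range_bFam, ← span_int_logBasis, Submodule.map_span]
  rfl

theorem map_phi_intUnits :
    (intUnits L).map (phi L) = (Submodule.span ℤ (Set.range (bFam L))).toAddSubgroup := by
  rw [span_int_bFam]
  ext x
  constructor
  · rintro ⟨y, hy, rfl⟩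
    obtain ⟨u, rfl⟩ := (mem_intUnits_iff L y).mp hy
    refine ⟨logEmbedding L (Additive.ofMul u), ⟨Additive.ofMul u, trivial, rfl⟩, ?_⟩
    exact (phi_uL_eq_iota L u).symm
  · rintro ⟨v, ⟨a, -, rfl⟩, rfl⟩
    refine ⟨uL L (Additive.toMul a), (mem_intUnits_iff L _).mpr ⟨_, rfl⟩, ?_⟩
    exact phi_uL_eq_iota L (Additive.toMul a)

end Basis

/-- **GU-LOG**: the equivariant logarithmic lattice of the units. -/
theorem unitsLogSpec : UnitsLogSpec.{u, v} := by
  intro K L _ _ _ _ _ _
  refine ⟨phi L, phi_equivariant K L, finite_ker_inf L, Units.rank L, bFam L,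
    bFam_linearIndependent L, span_real_bFam L, map_phi_intUnits L⟩

end Fermat.Agent.S55.G.Log101

end
-- ===== PACK-END S55/G/Log101.lean

-- ===== PACK-BEGIN S55/H963/Below.lean
section


/-!
# S55 / leaf RAY-N1 (helper963): asymptotics of the smoothed sum over a congruence class

For an ideal `J₀ ≠ 0` coprime to the modulus `m` and `b : A`:
`N(J₀) N(m) ∑_{x ≠ 0, (x) ≤ J₀, (x) coprime to m, ψ(x) = b} F s x = #Θ_b * Φ(s) + O(1)`,
uniformly in `s ∈ (1, 2]`.
-/

set_option autoImplicit false

namespace Fermat.Agent.S55.H963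

open NumberField

variable {K : Type*} [Field K] [NumberField K] {A : Type*} [CommGroup A]

/-- Coset decomposition of a sum over `𝓞 K` along an ideal of finite index. -/
theorem tsum_eq_sum_coset (J : Ideal (𝓞 K)) [Fintype (𝓞 K ⧸ J)] (h : 𝓞 K → ℝ)
    (hh : Summable h) :
    ∑' x : 𝓞 K, h x = ∑ q : 𝓞 K ⧸ J, ∑' y : J, h ((y : 𝓞 K) + Quotient.out q) := by
  have hs' : Summable (h ∘ UnitKernel.cosetEquiv J) :=
    ((UnitKernel.cosetEquiv J).summable_iff (f := h)).mpr hh
  have e1 : ∑' x : 𝓞 K, h x = ∑' p : (𝓞 K ⧸ J) × J, (h ∘ UnitKernel.cosetEquiv J) p :=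
    ((UnitKernel.cosetEquiv J).tsum_eq h).symm
  have hsumq' : ∀ q : 𝓞 K ⧸ J, Summable fun y : J => (h ∘ UnitKernel.cosetEquiv J) (q, y) := by
    intro q
    simp only [Function.comp_apply, UnitKernel.cosetEquiv_apply]
    refine hh.comp_injective (i := fun y : J => (y : 𝓞 K) + Quotient.out q) ?_
    intro y y' hyy
    exact Subtype.ext (add_right_cancel hyy)
  rw [e1, hs'.tsum_prod' hsumq', tsum_fintype]
  simp only [Function.comp_apply, UnitKernel.cosetEquiv_apply]

namespace RayDatum

variable (D : RayDatum K A) (κ : UnitKernel K)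

open Classical in
/-- The summand of the smoothed sum over the good elements of `J₀`. -/
noncomputable def goodF (J₀ : Ideal (𝓞 K)) (b : A) (s : ℝ) (x : 𝓞 K) : ℝ :=
  if x ∈ J₀ ∧ D.Good x b then κ.F s x else 0

theorem goodF_nonneg (J₀ : Ideal (𝓞 K)) (b : A) (s : ℝ) (x : 𝓞 K) :
    0 ≤ D.goodF κ J₀ b s x := by
  unfold goodF
  split_ifs
  · exact κ.nonneg s x
  · exact le_rfl

theorem goodF_le (J₀ : Ideal (𝓞 K)) (b : A) (s : ℝ) (x : 𝓞 K) :
    D.goodF κ J₀ b s x ≤ κ.F s x := by
  unfold goodF
  split_ifs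
  · exact le_rfl
  · exact κ.nonneg s x

theorem summable_goodF (J₀ : Ideal (𝓞 K)) (b : A) {s : ℝ} (hs : 1 < s) :
    Summable (D.goodF κ J₀ b s) :=
  Summable.of_nonneg_of_le (D.goodF_nonneg κ J₀ b s) (D.goodF_le κ J₀ b s) (κ.summable s hs)

theorem mem_genSet_below {J₀ : Ideal (𝓞 K)} {b : A} {x : 𝓞 K} :
    x ∈ genSet (D.below J₀ b) ↔ x ≠ 0 ∧ x ∈ J₀ ∧ D.Good x b := by
  unfold genSet below Good
  simp only [Set.mem_setOf_eq, Ideal.span_singleton_le_iff_mem]

/-- The smoothed sum over the generators is the sum of `goodF`. -/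
theorem tsum_genSet_below (J₀ : Ideal (𝓞 K)) (b : A) (s : ℝ) :
    ∑' x : genSet (D.below J₀ b), κ.F s x = ∑' x : 𝓞 K, D.goodF κ J₀ b s x := by
  rw [tsum_subtype (genSet (D.below J₀ b)) (κ.F s)]
  congr 1
  funext x
  classical
  unfold goodF Set.indicator
  by_cases hx0 : x = 0
  · subst hx0
    simp [κ.map_zero]
  · by_cases h : x ∈ J₀ ∧ D.Good x b
    · rw [if_pos h, if_pos (D.mem_genSet_below.mpr ⟨hx0, h⟩)]
    · rw [if_neg h, if_neg (fun hh => h (D.mem_genSet_below.mp hh).2)]

open Classical in
theorem tsum_goodF_coset (J₀ : Ideal (𝓞 K)) (b : A) (s : ℝ) (q : 𝓞 K ⧸ (J₀ ⊓ D.m)) :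
    ∑' y : (J₀ ⊓ D.m : Ideal (𝓞 K)), D.goodF κ J₀ b s ((y : 𝓞 K) + Quotient.out q) =
      if D.CosetCond J₀ b q then κ.cosetSum (J₀ ⊓ D.m) (Quotient.out q) s else 0 := by
  by_cases hq : D.CosetCond J₀ b q
  · rw [if_pos hq]
    unfold UnitKernel.cosetSum
    congr 1
    funext y
    unfold goodF
    rw [if_pos ((D.mem_and_good_add_iff J₀ b _ y).mpr hq)]
  · rw [if_neg hq]
    have : ∀ y : (J₀ ⊓ D.m : Ideal (𝓞 K)),
        D.goodF κ J₀ b s ((y : 𝓞 K) + Quotient.out q) = 0 := by
      intro y
      unfold goodF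
      rw [if_neg (fun h => hq ((D.mem_and_good_add_iff J₀ b _ y).mp h))]
    simp only [this, tsum_zero]

/-- **Asymptotics of the smoothed sum over a congruence class in `J₀`.** -/
theorem exists_below_bound (J₀ : Ideal (𝓞 K)) (hJ₀ne : J₀ ≠ ⊥) (hJ₀ : IsCoprime J₀ D.m)
    (b : A) : ∃ B : ℝ, ∀ s : ℝ, 1 < s → s ≤ 2 →
      |(Ideal.absNorm J₀ : ℝ) * (Ideal.absNorm D.m : ℝ) *
          (∑' x : genSet (D.below J₀ b), κ.F s x) -
        (Nat.card (D.theta b) : ℝ) * κ.total s| ≤ B := by
  classical
  have hJne : J₀ ⊓ D.m ≠ ⊥ := D.inf_ne_bot hJ₀ne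
  have : Finite (𝓞 K ⧸ (J₀ ⊓ D.m)) := Ideal.finiteQuotientOfFreeOfNeBot _ hJne
  let _ : Fintype (𝓞 K ⧸ (J₀ ⊓ D.m)) := Fintype.ofFinite _
  choose B hB using fun t : 𝓞 K => κ.exists_coset_bound (J₀ ⊓ D.m) hJne t
  refine ⟨∑ q : 𝓞 K ⧸ (J₀ ⊓ D.m), |B (Quotient.out q)|, fun s hs1 hs2 => ?_⟩
  have hN : (Ideal.absNorm J₀ : ℝ) * (Ideal.absNorm D.m : ℝ) =
      (Ideal.absNorm (J₀ ⊓ D.m) : ℝ) := by
    rw [D.absNorm_inf hJ₀, Nat.cast_mul]
  have hcard : (Nat.card (D.theta b) : ℝ) =
      ∑ q : 𝓞 K ⧸ (J₀ ⊓ D.m), if D.CosetCond J₀ b q then (1 : ℝ) else 0 := by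
    rw [← D.card_cosetCond J₀ hJ₀ b, Finset.sum_boole, Nat.card_eq_fintype_card,
      Fintype.card_subtype]
  rw [D.tsum_genSet_below κ J₀ b s,
    tsum_eq_sum_coset (J₀ ⊓ D.m) _ (D.summable_goodF κ J₀ b hs1), hN, hcard,
    Finset.mul_sum, Finset.sum_mul, ← Finset.sum_sub_distrib]
  refine (Finset.abs_sum_le_sum_abs _ _).trans (Finset.sum_le_sum fun q _ => ?_)
  rw [D.tsum_goodF_coset κ J₀ b s q]
  by_cases hq : D.CosetCond J₀ b q
  · rw [if_pos hq, if_pos hq, one_mul]
    exact (hB _ s hs1 hs2).trans (le_abs_self _)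
  · rw [if_neg hq, if_neg hq]
    simp

end RayDatum

end Fermat.Agent.S55.H963

end
-- ===== PACK-END S55/H963/Below.lean

-- ===== PACK-BEGIN S14/H74/UnitSum.lean
section


/-!
# S14/N1 (helper74): `rho` is a partition of unity for the action of the units (piece P2)
-/

namespace Fermat.Agent.S14.H74

open NumberField NumberField.mixedEmbedding NumberField.Units
  NumberField.Units.dirichletUnitTheorem NumberField.InfinitePlace Module

open scoped Classical

variable (K : Type*) [Field K] [NumberField K]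

/-- The decomposition of the units as torsion times the free part. -/
noncomputable def unitsEquiv : torsion K × (Fin (rank K) → ℤ) ≃ (𝓞 K)ˣ :=
  Equiv.ofBijective (fun p ↦ (p.1 : (𝓞 K)ˣ) * ∏ i, (fundSystem K i) ^ (p.2 i)) (by
    constructor
    · intro p q h
      obtain ⟨c, -, hc⟩ := exist_unique_eq_mul_prod K
        ((p.1 : (𝓞 K)ˣ) * ∏ i, (fundSystem K i) ^ (p.2 i))
      rw [hc p rfl, hc q h]
    · intro x
      obtain ⟨c, hc, -⟩ := exist_unique_eq_mul_prod K x
      exact ⟨c, hc.symm⟩)

theorem unitsEquiv_apply (p : torsion K × (Fin (rank K) → ℤ)) :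
    unitsEquiv K p = (p.1 : (𝓞 K)ˣ) * ∏ i, (fundSystem K i) ^ (p.2 i) := rfl

theorem logEmbedding_unitsEquiv (p : torsion K × (Fin (rank K) → ℤ)) :
    logEmbedding K (Additive.ofMul (unitsEquiv K p)) =
      ∑ i, ((p.2 i : ℤ) : ℝ) • ((basisUnitLattice K).ofZLatticeBasis ℝ (unitLattice K)) i := by
  rw [unitsEquiv_apply, ofMul_mul, map_add, ofMul_prod, map_sum]
  have h1 : logEmbedding K (Additive.ofMul (p.1 : (𝓞 K)ˣ)) = 0 := by
    rw [logEmbedding_eq_zero_iff]
    exact p.1.2
  rw [h1, zero_add]
  refine Finset.sum_congr rfl fun i _ ↦ ?_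
  rw [ofMul_zpow, map_zsmul, logEmbedding_fundSystem, Basis.ofZLatticeBasis_apply,
    Int.cast_smul_eq_zsmul]

variable {K}

theorem logCoord_unitsEquiv_smul (p : torsion K × (Fin (rank K) → ℤ)) {x : mixedSpace K}
    (hx : mixedEmbedding.norm x ≠ 0) (j : Fin (rank K)) :
    logCoord K (unitsEquiv K p • x) j = logCoord K x j + p.2 j := by
  unfold logCoord
  rw [logMap_unit_smul _ hx, map_add, Finsupp.add_apply, logEmbedding_unitsEquiv,
    Basis.repr_sum_self, add_comm]

theorem rho_unitsEquiv_smul (p : torsion K × (Fin (rank K) → ℤ)) {x : mixedSpace K}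
    (hx : mixedEmbedding.norm x ≠ 0) :
    rho K (unitsEquiv K p • x) = ∏ j, tent (logCoord K x j + p.2 j) := by
  have h : mixedEmbedding.norm (unitsEquiv K p • x) ≠ 0 := by rwa [norm_unit_smul]
  rw [rho_eq_prod h]
  exact Finset.prod_congr rfl fun j _ ↦ by rw [logCoord_unitsEquiv_smul p hx]

/-- **P2**: the translates of `rho` by the units sum to the number of roots of unity. -/
theorem hasSum_rho_unit_smul {x : mixedSpace K} (hx : mixedEmbedding.norm x ≠ 0) :
    HasSum (fun u : (𝓞 K)ˣ ↦ rho K (u • x)) (torsionOrder K) := by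
  rw [← (unitsEquiv K).hasSum_iff]
  have hfun : ((fun u : (𝓞 K)ˣ ↦ rho K (u • x)) ∘ unitsEquiv K) =
      fun p : torsion K × (Fin (rank K) → ℤ) ↦ ∏ j, tent (logCoord K x j + p.2 j) := by
    funext p
    exact rho_unitsEquiv_smul p hx
  rw [hfun]
  have h1 := tent_prod_hasSum (fun j ↦ logCoord K x j)
  have hnn : (0 : torsion K × (Fin (rank K) → ℤ) → ℝ) ≤
      fun p ↦ ∏ j, tent (logCoord K x j + p.2 j) :=
    fun p ↦ Finset.prod_nonneg fun j _ ↦ tent_nonneg _
  have : Fintype (torsion K) := Fintype.ofFinite _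
  have hsum : Summable fun p : torsion K × (Fin (rank K) → ℤ) ↦
      ∏ j, tent (logCoord K x j + p.2 j) := by
    rw [summable_prod_of_nonneg hnn]
    exact ⟨fun _ ↦ h1.summable, Summable.of_finite⟩
  have h2 := hsum.tsum_prod' (fun _ ↦ h1.summable)
  simp only [h1.tsum_eq, tsum_fintype, Finset.sum_const, Finset.card_univ, nsmul_eq_mul,
    mul_one] at h2
  have h3 : (Fintype.card (torsion K) : ℝ) = torsionOrder K := by
    rw [torsionOrder, Nat.card_eq_fintype_card]
  rw [← h3, ← h2]
  exact hsum.hasSum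

end Fermat.Agent.S14.H74

end
-- ===== PACK-END S14/H74/UnitSum.lean

-- ===== PACK-BEGIN S55/L/Unram784/Frobenius.lean
section


/-!
# S55, layer L, leaf L-A2 (helper784): the Frobenius element of an unramified extension

Same AKLB setting as in `FieldLevel`.  We construct `φ ∈ Gal(L/K)` with `φ x ≡ x ^ |k|` modulo
`𝔪_S` for all `x ∈ S` and show that it generates `Gal(L/K)`.
-/

set_option autoImplicit false
set_option linter.unusedSectionVars false

namespace Fermat.Agent.S55.L

open IsLocalRing Polynomial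

section Frobenius

variable {R S K L : Type} [CommRing R] [CommRing S] [IsDomain R] [IsDomain S]
  [IsDiscreteValuationRing R] [IsDiscreteValuationRing S]
  [Algebra R S] [IsLocalHom (algebraMap R S)]
  [IsAdicComplete (maximalIdeal R) R] [IsAdicComplete (maximalIdeal S) S]
  [Finite (ResidueField R)] [Finite (ResidueField S)]
  [Field K] [Field L] [Algebra R K] [IsFractionRing R K] [Algebra S L] [IsFractionRing S L]
  [Algebra K L] [Algebra R L] [IsScalarTower R K L] [IsScalarTower R S L]

/-- `σ ∈ Gal(L/K)` preserves `S` and induces `τ` on the residue field. -/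
def u784_Induces (σ : L ≃ₐ[K] L)
    (τ : ResidueField S ≃ₐ[ResidueField R] ResidueField S) : Prop :=
  ∀ x : S, ∃ y : S, algebraMap S L y = σ (algebraMap S L x) ∧ residue S y = τ (residue S x)

theorem u784_induces_one :
    u784_Induces (1 : L ≃ₐ[K] L) (1 : ResidueField S ≃ₐ[ResidueField R] ResidueField S) :=
  fun x => ⟨x, rfl, rfl⟩

theorem u784_induces_mul {σ σ' : L ≃ₐ[K] L}
    {τ τ' : ResidueField S ≃ₐ[ResidueField R] ResidueField S}
    (h : u784_Induces σ τ) (h' : u784_Induces σ' τ') : u784_Induces (σ * σ') (τ * τ') := by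
  intro x
  obtain ⟨y, hy1, hy2⟩ := h' x
  obtain ⟨z, hz1, hz2⟩ := h y
  exact ⟨z, by rw [hz1, hy1]; rfl, by rw [hz2, hy2]; rfl⟩

theorem u784_induces_pow {σ : L ≃ₐ[K] L}
    {τ : ResidueField S ≃ₐ[ResidueField R] ResidueField S}
    (h : u784_Induces σ τ) (n : ℕ) : u784_Induces (σ ^ n) (τ ^ n) := by
  induction n with
  | zero => simpa using u784_induces_one (R := R) (S := S) (K := K) (L := L)
  | succ n ih =>
    rw [pow_succ, pow_succ]
    exact u784_induces_mul ih h

theorem u784_residue_sum_smul_pow {n : ℕ} (a : Fin n → R) (γ : S) :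
    residue S (∑ i, a i • γ ^ (i : ℕ)) =
      ∑ i, algebraMap (ResidueField R) (ResidueField S) (residue R (a i)) *
        residue S γ ^ (i : ℕ) := by
  rw [map_sum]
  refine Finset.sum_congr rfl fun i _ => ?_
  rw [Algebra.smul_def, map_mul, map_pow, ResidueField.algebraMap_residue]

/-- If `σ β = β'` and `β' ≡ τ β̄`, then `σ` induces `τ`. -/
theorem u784_induces_of_root
    (hunr : (maximalIdeal R).map (algebraMap R S) = maximalIdeal S)
    (g : R[X]) (hg : g.Monic) (hirr : Irreducible (g.map (residue R)))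
    (hdeg : g.natDegree = Module.finrank (ResidueField R) (ResidueField S))
    (β : S) (hβ : (g.map (algebraMap R S)).IsRoot β)
    (σ : L ≃ₐ[K] L) (τ : ResidueField S ≃ₐ[ResidueField R] ResidueField S) (β' : S)
    (hσ : σ (algebraMap S L β) = algebraMap S L β')
    (hτ : residue S β' = τ (residue S β)) : u784_Induces σ τ := by
  intro x
  obtain ⟨a, rfl⟩ := u784_span_pow hunr g hg hirr hdeg β hβ x
  refine ⟨∑ i, a i • β' ^ (i : ℕ), ?_, ?_⟩
  · rw [map_sum, map_sum, map_sum]
    refine Finset.sum_congr rfl fun i _ => ?_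
    rw [u784_algebraMap_smul (K := K), u784_algebraMap_smul (K := K), map_smul, map_pow,
      map_pow, map_pow, hσ]
  · rw [u784_residue_sum_smul_pow, u784_residue_sum_smul_pow, map_sum]
    refine Finset.sum_congr rfl fun i _ => ?_
    rw [map_mul, AlgEquiv.commutes, map_pow, hτ]

/-- Two `k`-automorphisms of `l` agreeing on a root of `ḡ` agree. -/
theorem u784_algEquiv_ext_of_root (g : R[X]) (hg : g.Monic)
    (hirr : Irreducible (g.map (residue R)))
    (hdeg : g.natDegree = Module.finrank (ResidueField R) (ResidueField S))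
    (β : S) (hβ : (g.map (algebraMap R S)).IsRoot β)
    (τ τ' : ResidueField S ≃ₐ[ResidueField R] ResidueField S)
    (h : τ (residue S β) = τ' (residue S β)) : τ = τ' := by
  have hdeg' : (g.map (residue R)).natDegree =
      Module.finrank (ResidueField R) (ResidueField S) := by
    rw [hg.natDegree_map, hdeg]
  ext x
  obtain ⟨p, -, rfl⟩ := u784_exists_aeval_eq (g.map (residue R)) (hg.map _) hirr hdeg'
    (residue S β) (u784_aeval_residue_eq_zero g β hβ) x
  rw [← Polynomial.aeval_algHom_apply, ← Polynomial.aeval_algHom_apply, h]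

/-- **Frobenius.**  In an unramified extension there is `φ ∈ Gal(L/K)` with
`φ x ≡ x ^ |k| mod 𝔪_S` on `S`, and `φ` generates `Gal(L/K)`. -/
theorem u784_exists_frobenius [CharZero K]
    (hunr : (maximalIdeal R).map (algebraMap R S) = maximalIdeal S)
    (g : R[X]) (hg : g.Monic) (hirr : Irreducible (g.map (residue R)))
    (hdeg : g.natDegree = Module.finrank (ResidueField R) (ResidueField S))
    (β : S) (hβ : (g.map (algebraMap R S)).IsRoot β) :
    ∃ φ : L ≃ₐ[K] L,
      (∀ x : S, ∃ y : S, algebraMap S L y = φ (algebraMap S L x) ∧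
        y - x ^ Nat.card (ResidueField R) ∈ maximalIdeal S) ∧
      ∀ σ : L ≃ₐ[K] L, σ ∈ Subgroup.zpowers φ := by
  classical
  have hfd : FiniteDimensional K L := u784_finiteDimensional hunr g hg hirr hdeg β hβ
  have hgal : IsGalois K L := u784_isGalois hunr g hg hirr hdeg β hβ
  letI := Fintype.ofFinite (ResidueField R)
  let Frob : ResidueField S ≃ₐ[ResidueField R] ResidueField S :=
    FiniteField.frobeniusAlgEquivOfAlgebraic (ResidueField R) (ResidueField S)
  have hFrob : ∀ x, Frob x = x ^ Nat.card (ResidueField R) := fun x => by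
    rw [Nat.card_eq_fintype_card]
    exact FiniteField.frobeniusAlgEquivOfAlgebraic_apply _ _ x
  have hsep : (g.map (residue R)).Separable := PerfectField.separable_of_irreducible hirr
  -- the root `β₁` lifting `Frob β̄`
  have hr₁ : ((g.map (residue R)).map
      (algebraMap (ResidueField R) (ResidueField S))).IsRoot (Frob (residue S β)) := by
    rw [IsRoot.def, Polynomial.eval_map, ← Polynomial.aeval_def, Polynomial.aeval_algHom_apply,
      u784_aeval_residue_eq_zero g β hβ, map_zero]
  obtain ⟨β₁, hβ₁, hres₁⟩ := u784_exists_lift_root g hg hsep _ hr₁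
  -- the automorphism
  obtain ⟨φ, hφ⟩ := minpoly.exists_algEquiv_of_root' (K := K) (L := L)
    (x := algebraMap S L β₁) (y := algebraMap S L β)
    (u784_isIntegral (K := K) (L := L) g hg β hβ).isAlgebraic (by
      rw [u784_minpoly_eq g hg hirr β hβ]
      exact u784_aeval_algebraMap_eq_zero g β₁ hβ₁)
  have hind : u784_Induces φ Frob :=
    u784_induces_of_root hunr g hg hirr hdeg β hβ φ Frob β₁ hφ hres₁
  refine ⟨φ, ?_, ?_⟩
  · intro x
    obtain ⟨y, hy1, hy2⟩ := hind x
    refine ⟨y, hy1, ?_⟩
    rw [← residue_eq_zero_iff, map_sub, map_pow, hy2, hFrob, sub_self]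
  · -- generation: the powers `φ ^ i`, `i < n`, are pairwise distinct
    have hinj : ∀ i j : ℕ, i < g.natDegree → j < g.natDegree → φ ^ i = φ ^ j → i = j := by
      intro i j hi hj hij
      obtain ⟨y, hy1, hy2⟩ := u784_induces_pow hind i β
      obtain ⟨y', hy1', hy2'⟩ := u784_induces_pow hind j β
      have hyy : y = y' := IsFractionRing.injective S L (by rw [hy1, hy1', hij])
      have hF : Frob ^ i = Frob ^ j :=
        u784_algEquiv_ext_of_root g hg hirr hdeg β hβ _ _ (by rw [← hy2, ← hy2', hyy])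
      have hb := (FiniteField.bijective_frobeniusAlgEquivOfAlgebraic_pow (ResidueField R)
        (ResidueField S)).1
      have := @hb ⟨i, hdeg ▸ hi⟩ ⟨j, hdeg ▸ hj⟩ hF
      exact congrArg Fin.val this
    have hcard : Nat.card (L ≃ₐ[K] L) = g.natDegree := by
      rw [IsGalois.card_aut_eq_finrank, u784_finrank_eq hunr g hg hirr hdeg β hβ]
    have hord : g.natDegree ≤ orderOf φ := by
      by_contra hlt
      rw [not_le] at hlt
      have h0 : 0 < orderOf φ := orderOf_pos φ
      have h1 : φ ^ orderOf φ = φ ^ 0 := by rw [pow_orderOf_eq_one, pow_zero]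
      have := hinj (orderOf φ) 0 hlt (h0.trans hlt) h1
      omega
    have htop : Subgroup.zpowers φ = ⊤ := by
      apply Subgroup.eq_top_of_le_card
      rw [Nat.card_zpowers, hcard]
      exact hord
    intro σ
    rw [htop]
    exact Subgroup.mem_top σ

end Frobenius

end Fermat.Agent.S55.L

end
-- ===== PACK-END S55/L/Unram784/Frobenius.lean

-- ===== PACK-BEGIN S55/L/Inv481/Towers.lean
section



/-!
# Inflation, restriction, transport and base change as pairs; injectivity of inflation
-/

set_option autoImplicit false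

namespace Fermat.Agent.S55.L.Inv481

open groupCohomology CategoryTheory

section Infl

variable (K L M : Type) [Field K] [Field L] [Field M] [Algebra K L] [Algebra K M] [Algebra L M]
  [IsScalarTower K L M] [Normal K L]

/-- The inflation pair `(K, L) → (K, M)` of a tower `K ⊆ L ⊆ M`. -/
noncomputable def inflPair : GalPair K L K M where
  ι := algebraMap L M
  f := AlgEquiv.restrictNormalHom L
  comm g x := AlgEquiv.restrictNormal_commutes g L x

variable {K L M}

theorem isInflation_iff_isPull (c : cocycles₂ (unitsRep K L)) (c' : cocycles₂ (unitsRep K M)) :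
    IsInflation c c' ↔ (inflPair K L M).IsPull c c' := Iff.rfl

/-- an element of `Gal(M/K)` restricting to the identity on `L` comes from `Gal(M/L)`. -/
noncomputable def liftOfRestrictEqOne (s : M ≃ₐ[K] M)
    (hs : AlgEquiv.restrictNormalHom L s = 1) : M ≃ₐ[L] M :=
  { s.toRingEquiv with
    commutes' := fun x => by
      have := AlgEquiv.restrictNormal_commutes s L x
      have h1 : s.restrictNormal L = 1 := hs
      rw [h1] at this
      exact this.symm }

theorem liftOfRestrictEqOne_apply (s : M ≃ₐ[K] M)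
    (hs : AlgEquiv.restrictNormalHom L s = 1) (x : M) : liftOfRestrictEqOne s hs x = s x := rfl

theorem restrictNormalHom_restrictScalars (σ : M ≃ₐ[L] M) :
    AlgEquiv.restrictNormalHom L (σ.restrictScalars K) = 1 := by
  ext x
  apply (algebraMap L M).injective
  have := AlgEquiv.restrictNormal_commutes (σ.restrictScalars K) L x
  change algebraMap L M ((σ.restrictScalars K).restrictNormal L x) = _
  rw [this]
  simp

variable (K L M) in
/-- **Inflation is injective on `H²`** (Hilbert 90). -/
theorem inflPair_pull_injective [FiniteDimensional K M] [IsGalois K M] :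
    Function.Injective (inflPair K L M).pull := by
  have : FiniteDimensional L M := FiniteDimensional.right K L M
  have : IsGalois L M := IsGalois.tower_top_of_isGalois K L M
  rw [injective_iff_map_eq_zero]
  intro x hx
  obtain ⟨c, rfl⟩ := exists_cls_eq x
  rw [GalPair.pull_cls] at hx
  have hx' : (H2π (unitsRep K M)).hom ((inflPair K L M).pullCocycle c) = 0 := hx
  rw [H2π_eq_zero_iff] at hx'
  change (H2π (unitsRep K L)).hom c = 0
  rw [H2π_eq_zero_iff]
  refine mem_coboundaries₂_of_inflation (unitsRep K L) (unitsRep K M)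
    (AlgEquiv.restrictNormalHom L) (AlgEquiv.restrictNormalHom_surjective M)
    (inflPair K L M).unitsMap ?_ ?_ ?_ ?_ c ?_
  · -- injective
    intro a b hab
    apply Additive.toMul.injective
    apply Units.ext
    have := congrArg (fun z => ((Additive.toMul z : Mˣ) : M)) hab
    exact (algebraMap L M).injective this
  · -- equivariance
    intro g v
    apply Additive.toMul.injective
    apply Units.ext
    exact (inflPair K L M).comm g _
  · -- fixed points
    intro y hy
    have hmem : ((Additive.toMul y : Mˣ) : M) ∈ (⊥ : IntermediateField L M) := by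
      rw [IsGalois.mem_bot_iff_fixed]
      intro σ
      have := hy (σ.restrictScalars K) (restrictNormalHom_restrictScalars σ)
      exact congrArg (fun z => ((Additive.toMul z : Mˣ) : M)) this
    rw [IntermediateField.mem_bot] at hmem
    obtain ⟨a, ha⟩ := hmem
    have ha0 : a ≠ 0 := by
      rintro rfl
      rw [map_zero] at ha
      exact (Additive.toMul y : Mˣ).ne_zero ha.symm
    refine ⟨Additive.ofMul (Units.mk0 a ha0), ?_⟩
    apply Additive.toMul.injective
    apply Units.ext
    exact ha
  · -- Hilbert 90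
    intro z hz
    obtain ⟨m, hm⟩ := isMulCoboundary₁_of_isMulCocycle₁_of_aut_to_units
      (K := L) (L := M) (fun σ => Additive.toMul (z (σ.restrictScalars K))) (by
        intro σ τ
        have := hz (σ.restrictScalars K) (τ.restrictScalars K)
          (restrictNormalHom_restrictScalars σ) (restrictNormalHom_restrictScalars τ)
        have h2 := congrArg Additive.toMul this
        exact h2)
    refine ⟨Additive.ofMul m, fun s hs => ?_⟩
    have := hm (liftOfRestrictEqOne s hs)
    have hrs : (liftOfRestrictEqOne s hs).restrictScalars K = s := by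
      ext x; rfl
    simp only [hrs] at this
    apply Additive.toMul.injective
    refine Eq.trans ?_ this
    apply Units.ext
    rfl
  · exact hx'

end Infl

end Fermat.Agent.S55.L.Inv481

namespace Fermat.Agent.S55.L.Inv481

open groupCohomology CategoryTheory

section Res

variable (K K' L : Type) [Field K] [Field K'] [Field L] [Algebra K K'] [Algebra K L]
  [Algebra K' L] [IsScalarTower K K' L]

/-- restriction of scalars on Galois groups, as a group homomorphism -/
noncomputable def restrictScalarsHom : (L ≃ₐ[K'] L) →* (L ≃ₐ[K] L) :=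
  MonoidHom.mk' (fun τ => τ.restrictScalars K) (fun _ _ => rfl)

@[simp] theorem restrictScalarsHom_apply (g : L ≃ₐ[K'] L) (x : L) :
    restrictScalarsHom K K' L g x = g x := rfl

/-- The restriction pair `(K, L) → (K', L)` of a tower `K ⊆ K' ⊆ L`. -/
noncomputable def resPair : GalPair K L K' L where
  ι := RingHom.id L
  f := restrictScalarsHom K K' L
  comm _ _ := rfl

variable {K K' L}

theorem isRestriction_iff_isPull (c : cocycles₂ (unitsRep K L)) (c' : cocycles₂ (unitsRep K' L)) :
    IsRestriction c c' ↔ (resPair K K' L).IsPull c c' := by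
  constructor
  · intro h g k
    rw [h g k]
    rfl
  · intro h g k
    rw [h g k]
    rfl

end Res

section Transport

variable {K L K' L' : Type} [Field K] [Field L] [Algebra K L] [Field K'] [Field L']
  [Algebra K' L']

/-- The transport pair `(K, L) → (K', L')` of compatible isomorphisms. -/
noncomputable def transPair (e : L ≃+* L') (c : (L ≃ₐ[K] L) ≃* (L' ≃ₐ[K'] L'))
    (hc : ∀ (g : L ≃ₐ[K] L) (x : L), c g (e x) = e (g x)) : GalPair K L K' L' where
  ι := e
  f := c.symm.toMonoidHom
  comm g x := by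
    have := hc (c.symm g) x
    rw [MulEquiv.apply_symm_apply] at this
    exact this.symm

theorem isTransport_iff_isPull (e : L ≃+* L') (c : (L ≃ₐ[K] L) ≃* (L' ≃ₐ[K'] L'))
    (hc : ∀ (g : L ≃ₐ[K] L) (x : L), c g (e x) = e (g x))
    (f : cocycles₂ (unitsRep K L)) (f' : cocycles₂ (unitsRep K' L')) :
    IsTransport e c f f' ↔ (transPair e c hc).IsPull f f' := by
  constructor
  · intro h g k
    have := h (c.symm g) (c.symm k)
    rw [MulEquiv.apply_symm_apply, MulEquiv.apply_symm_apply] at this
    rw [this]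
    rfl
  · intro h g k
    have := h (c g) (c k)
    rw [this]
    simp only [transPair, MulEquiv.coe_toMonoidHom, MulEquiv.symm_apply_apply]
    rfl

end Transport

section BaseChange

variable (K K' E E' : Type) [Field K] [Field K'] [Field E] [Field E'] [Algebra K K']
  [Algebra K E] [Algebra K' E'] [Algebra E E'] [Algebra K E'] [IsScalarTower K K' E']
  [IsScalarTower K E E'] [Normal K E]

/-- The base change pair `(K, E) → (K', E')` for `K ⊆ K'`, `E ⊆ E'`, `K' ⊆ E'`. -/
noncomputable def bcPair : GalPair K E K' E' where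
  ι := algebraMap E E'
  f := (AlgEquiv.restrictNormalHom E).comp (restrictScalarsHom K K' E')
  comm g x := AlgEquiv.restrictNormal_commutes (g.restrictScalars K) E x

variable {K K' E E'}

/-- `c'` (on `Gal(E'/K')`) is the base change of `c` (on `Gal(E/K)`):
`c' (g, h) = c (g|_E, h|_E)`. -/
def IsBaseChange (c : cocycles₂ (unitsRep K E)) (c' : cocycles₂ (unitsRep K' E')) : Prop :=
  ∀ g h : E' ≃ₐ[K'] E',
    (c' : (E' ≃ₐ[K'] E') × (E' ≃ₐ[K'] E') → unitsRep K' E') (g, h) =
      Additive.ofMul (Units.map (algebraMap E E' : E →* E')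
        (Additive.toMul ((c : (E ≃ₐ[K] E) × (E ≃ₐ[K] E) → unitsRep K E)
          (AlgEquiv.restrictNormalHom E (g.restrictScalars K),
            AlgEquiv.restrictNormalHom E (h.restrictScalars K)))))

theorem isBaseChange_iff_isPull (c : cocycles₂ (unitsRep K E)) (c' : cocycles₂ (unitsRep K' E')) :
    IsBaseChange c c' ↔ (bcPair K K' E E').IsPull c c' := Iff.rfl

end BaseChange

end Fermat.Agent.S55.L.Inv481

end
-- ===== PACK-END S55/L/Inv481/Towers.lean

-- ===== PACK-BEGIN S55/E1/H304/Alg2.lean
section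


/-!
# S55 engine E1, block ALG, leaf ALG2 (helper304)

If `p N = 0` then `p • f` extends to `P = ℤ[G]^{(N)}` for every `f : R ⟶ X`:
multiplication by `p` maps `P` into `R = ker ε`, and `x ↦ f (p x)` is the extension.
-/

set_option autoImplicit false

open CategoryTheory CategoryTheory.Limits

namespace Fermat.Agent.S55.E1.H304

open Fermat.Agent.S55.E1

noncomputable section

variable {G : Type} [Group G]

/-- Pointwise extensionality for morphisms of representations. -/
lemma repHom_ext304 {A B : Rep.{0} ℤ G} {f g : A ⟶ B} (h : ∀ x : A.V, f.hom x = g.hom x) :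
    f = g := by
  apply Rep.hom_ext
  apply DFunLike.ext
  exact h

/-- `p • 𝟙 P` composed with `ε` vanishes when `p N = 0`. -/
lemma nsmul_id_comp_stdε (p : ℕ) (N : Rep.{0} ℤ G) (hpN : ∀ n : N.V, p • n = 0) :
    (p • 𝟙 (stdP N)) ≫ stdε N = 0 := by
  rw [Preadditive.nsmul_comp, Category.id_comp]
  apply repHom_ext304
  intro x
  change p • (stdε N).hom x = 0
  exact hpN _

/-- Multiplication by `p` as a morphism `P ⟶ R`. -/
def mulP (p : ℕ) (N : Rep.{0} ℤ G) (hpN : ∀ n : N.V, p • n = 0) : stdP N ⟶ stdR N :=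
  kernel.lift (stdε N) (p • 𝟙 (stdP N)) (nsmul_id_comp_stdε p N hpN)

lemma mulP_comp_stdι (p : ℕ) (N : Rep.{0} ℤ G) (hpN : ∀ n : N.V, p • n = 0) :
    mulP p N hpN ≫ stdι N = p • 𝟙 (stdP N) :=
  kernel.lift_ι _ _ _

lemma stdι_comp_mulP (p : ℕ) (N : Rep.{0} ℤ G) (hpN : ∀ n : N.V, p • n = 0) :
    stdι N ≫ mulP p N hpN = p • 𝟙 (stdR N) := by
  have := stdι_mono N
  rw [← cancel_mono (stdι N), Category.assoc, mulP_comp_stdι, Preadditive.comp_nsmul,
    Preadditive.nsmul_comp, Category.comp_id, Category.id_comp]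

/-- **ALG2.** -/
theorem alg2 : ALG2Spec := by
  intro p G _ N X hpN f
  refine ⟨mulP p N hpN ≫ f, ?_⟩
  rw [← Category.assoc, stdι_comp_mulP, Preadditive.nsmul_comp, Category.id_comp]

end

end Fermat.Agent.S55.E1.H304

end
-- ===== PACK-END S55/E1/H304/Alg2.lean

-- ===== PACK-BEGIN S55/Bridge/H175/LevelGalois.lean
section





set_option autoImplicit false
set_option linter.style.haveILetI false

/-!
# B11, part 2: `Gal(F_q/ℚ_q) ≃* D_q(F) ⊆ Gal(F/ℚ)`

For a normal intermediate field `F` of `ℚ̄/ℚ`:

* `toLevel q F : Gal(ℚ̄_q/ℚ_q) →* Gal(F/ℚ)`, `τ ↦ (localGaloisToGlobal q τ)|_F`;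
* `decompositionAt q F := (toLevel q F).range` (the decomposition group `D_q(F)`);
* `ker_toLevel : (toLevel q F).ker = Gal(ℚ̄_q/F_q)`;
* `localLevelGalEquiv q F : Gal(F_q/ℚ_q) ≃* D_q(F)` with
  `ι ((localLevelGalEquiv q F τ̄) x) = τ̄ (ι x)` for `x ∈ F`.
-/

open scoped NNReal Pointwise

namespace Fermat.Agent.S55.Bridge.H175

variable (q : ℕ) [Fact q.Prime]
variable (F : IntermediateField ℚ (AlgebraicClosure ℚ)) [hFn : Normal ℚ F]

instance instNormalLocalLevel : Normal ℚ_[q] (localLevel q F) := normal_localLevel q F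

instance instIsGaloisLocalLevel : IsGalois ℚ_[q] (localLevel q F) := isGalois_localLevel q F

/-- `Gal(ℚ̄_q/ℚ_q) → Gal(F/ℚ)`: restrict to `ℚ̄` along `ι`, then to `F`. -/
noncomputable def toLevel : (PadicAlgCl q ≃ₐ[ℚ_[q]] PadicAlgCl q) →* (F ≃ₐ[ℚ] F) :=
  (AlgEquiv.restrictNormalHom (F := ℚ) (K₁ := AlgebraicClosure ℚ) F).comp (localGaloisToGlobal q)

theorem toLevel_apply_coe (τ : PadicAlgCl q ≃ₐ[ℚ_[q]] PadicAlgCl q) (x : F) :
    ((toLevel q F τ x : F) : AlgebraicClosure ℚ) = localGaloisToGlobal q τ (x : AlgebraicClosure ℚ) :=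
  AlgEquiv.restrictNormal_commutes (localGaloisToGlobal q τ) F x

theorem padicEmbedding_toLevel (τ : PadicAlgCl q ≃ₐ[ℚ_[q]] PadicAlgCl q) (x : F) :
    padicEmbedding q ((toLevel q F τ x : F) : AlgebraicClosure ℚ) =
      τ (padicEmbedding q (x : AlgebraicClosure ℚ)) := by
  rw [toLevel_apply_coe, padicEmbedding_localGaloisToGlobal]

/-- The decomposition group at `q` in `Gal(F/ℚ)` (with respect to the place `ι`). -/
noncomputable def decompositionAt : Subgroup (F ≃ₐ[ℚ] F) := (toLevel q F).range

theorem toLevel_mem_decompositionAt (τ : PadicAlgCl q ≃ₐ[ℚ_[q]] PadicAlgCl q) :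
    toLevel q F τ ∈ decompositionAt q F := ⟨τ, rfl⟩

theorem decompositionAt_eq_map :
    decompositionAt q F = ((padicPlace q).decompositionSubgroup ℚ).map
      (AlgEquiv.restrictNormalHom (F := ℚ) (K₁ := AlgebraicClosure ℚ) F) := by
  unfold decompositionAt toLevel
  rw [MonoidHom.range_comp, Fermat.Agent.S55.H175.range_localGaloisToGlobal]

/-- **`ker (Gal(ℚ̄_q/ℚ_q) → Gal(F/ℚ)) = Gal(ℚ̄_q/F_q)`.** -/
theorem ker_toLevel : (toLevel q F).ker = (localLevel q F).fixingSubgroup := by
  have h : (AlgEquiv.restrictNormalHom (F := ℚ) (K₁ := AlgebraicClosure ℚ) F).ker =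
      F.fixingSubgroup := @IntermediateField.restrictNormalHom_ker _ _ _ _ _ F hFn
  unfold toLevel
  rw [← MonoidHom.comap_ker, h, comap_fixingSubgroup]

/-- Restriction `Gal(ℚ̄_q/ℚ_q) → Gal(F_q/ℚ_q)`. -/
noncomputable def locRes :
    (PadicAlgCl q ≃ₐ[ℚ_[q]] PadicAlgCl q) →* (localLevel q F ≃ₐ[ℚ_[q]] localLevel q F) :=
  AlgEquiv.restrictNormalHom (F := ℚ_[q]) (K₁ := PadicAlgCl q) (localLevel q F)

theorem locRes_apply_coe (τ : PadicAlgCl q ≃ₐ[ℚ_[q]] PadicAlgCl q) (y : localLevel q F) :
    ((locRes q F τ y : localLevel q F) : PadicAlgCl q) = τ (y : PadicAlgCl q) :=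
  AlgEquiv.restrictNormal_commutes τ (localLevel q F) y

theorem locRes_surjective : Function.Surjective (locRes q F) := by
  haveI := normal_padicAlgCl q
  exact AlgEquiv.restrictNormalHom_surjective (F := ℚ_[q]) (K₁ := localLevel q F) (PadicAlgCl q)

theorem ker_locRes : (locRes q F).ker = (localLevel q F).fixingSubgroup :=
  IntermediateField.restrictNormalHom_ker (localLevel q F)

theorem ker_locRes_eq_ker_toLevel : (locRes q F).ker = (toLevel q F).ker := by
  rw [ker_locRes, ker_toLevel]

/-- **`Gal(F_q/ℚ_q) ≃* D_q(F)`.** -/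
noncomputable def localLevelGalEquiv :
    (localLevel q F ≃ₐ[ℚ_[q]] localLevel q F) ≃* decompositionAt q F :=
  ((QuotientGroup.quotientKerEquivOfSurjective (locRes q F) (locRes_surjective q F)).symm.trans
    (QuotientGroup.quotientMulEquivOfEq (ker_locRes_eq_ker_toLevel q F))).trans
    ((QuotientGroup.quotientKerEquivRange (toLevel q F) :
      _ ≃* (toLevel q F).range) : _ ≃* decompositionAt q F)

theorem localLevelGalEquiv_locRes (τ : PadicAlgCl q ≃ₐ[ℚ_[q]] PadicAlgCl q) :
    ((localLevelGalEquiv q F (locRes q F τ) : decompositionAt q F) : F ≃ₐ[ℚ] F) =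
      toLevel q F τ := by
  have h1 : (QuotientGroup.quotientKerEquivOfSurjective (locRes q F)
      (locRes_surjective q F)).symm (locRes q F τ) = (τ : _ ⧸ (locRes q F).ker) := by
    rw [MulEquiv.symm_apply_eq]
    rfl
  change ((QuotientGroup.quotientKerEquivRange (toLevel q F)
    ((QuotientGroup.quotientMulEquivOfEq (ker_locRes_eq_ker_toLevel q F))
      ((QuotientGroup.quotientKerEquivOfSurjective (locRes q F)
        (locRes_surjective q F)).symm (locRes q F τ))) : (toLevel q F).range) : F ≃ₐ[ℚ] F) = _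
  rw [h1]
  rfl

/-- The isomorphism is "the identity on `ι(F)`": `ι(σ̄ x) = τ̄(ι x)`. -/
theorem padicEmbedding_localLevelGalEquiv (τ' : localLevel q F ≃ₐ[ℚ_[q]] localLevel q F) (x : F) :
    padicEmbedding q
        ((((localLevelGalEquiv q F τ' : decompositionAt q F) : F ≃ₐ[ℚ] F) x : F) :
          AlgebraicClosure ℚ) =
      ((τ' ⟨padicEmbedding q (x : AlgebraicClosure ℚ), padicEmbedding_mem_localLevel x.2⟩ :
        localLevel q F) : PadicAlgCl q) := by
  obtain ⟨τ, rfl⟩ := locRes_surjective q F τ'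
  rw [localLevelGalEquiv_locRes, padicEmbedding_toLevel, locRes_apply_coe]

theorem card_decompositionAt [FiniteDimensional ℚ F] :
    Nat.card (decompositionAt q F) = Module.finrank ℚ_[q] (localLevel q F) := by
  haveI := finiteDimensional_localLevel q F
  rw [← Nat.card_congr (localLevelGalEquiv q F).toEquiv]
  exact IsGalois.card_aut_eq_finrank ℚ_[q] (localLevel q F)

end Fermat.Agent.S55.Bridge.H175

end
-- ===== PACK-END S55/Bridge/H175/LevelGalois.lean

-- ===== PACK-BEGIN S55/Bridge/FiniteRam.lean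
section




/-!
# S55 bridge, part B15: a finite extension of `ℚ` is unramified outside a finite set of primes

`exists_finset_isUnramifiedOutside`: for `F/ℚ` finite (inside `ℚ̄`) there is a finite set `T` of
primes with `F.IsUnramifiedOutside T` (Prelude sense: all inertia groups of places of `ℚ̄` over
`q ∉ T` fix `F`).  Elementary proof: for an integral `y` with minimal polynomial `f`, an inertia
element `σ` with `σ y ≠ y` forces `f'(y) ∈ 𝔪_A`, and `f'(y)` divides a nonzero integer.
-/

set_option autoImplicit false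

namespace Fermat.Agent.S55.Bridge

open Polynomial Fermat.Agent.S54

variable (A : ValuationSubring (AlgebraicClosure ℚ))

/-- If an inertia element moves the integral element `y`, then `f'(y) ∈ 𝔪_A`, `f = minpoly ℤ y`. -/
theorem aeval_derivative_mem_nonunits {y : AlgebraicClosure ℚ} (hy : IsIntegral ℤ y)
    {σ : AlgebraicClosure ℚ ≃ₐ[ℚ] AlgebraicClosure ℚ} (hσ : σ ∈ A.inertiaSubgroupIn ℚ)
    (hne : σ y ≠ y) :
    aeval y (derivative (minpoly ℤ y)) ∈ A.nonunits := by
  have hyA : y ∈ A := isIntegral_mem_valuationSubring A hy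
  have hsy : IsIntegral ℤ (σ y) := hy.map σ
  have hsA : σ y ∈ A := isIntegral_mem_valuationSubring A hsy
  set P : Polynomial A := (minpoly ℤ y).map (algebraMap ℤ A) with hP
  let yA : A := ⟨y, hyA⟩
  let sA : A := ⟨σ y, hsA⟩
  have hcoe : ∀ (p : Polynomial ℤ) (a : A),
      ((eval a (p.map (algebraMap ℤ A)) : A) : AlgebraicClosure ℚ)
        = aeval (a : AlgebraicClosure ℚ) p := by
    intro p a
    rw [eval_map, aeval_def]
    exact hom_eval₂ p (algebraMap ℤ A) A.subtype a
  have hrootY : IsRoot P yA := by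
    apply Subtype.ext
    rw [hcoe]
    exact minpoly.aeval ℤ y
  have hrootS : IsRoot P sA := by
    apply Subtype.ext
    rw [hcoe]
    show aeval (σ y) (minpoly ℤ y) = 0
    have h1 : aeval (σ y) (minpoly ℤ y) = (σ : AlgebraicClosure ℚ →+* AlgebraicClosure ℚ)
        (aeval y (minpoly ℤ y)) := by
      rw [aeval_def, aeval_def, hom_eval₂]
      congr 1
      exact (RingHom.ext_int _ _)
    rw [h1, minpoly.aeval, map_zero]
  -- factor out the root `y`
  set Q : Polynomial A := P /ₘ (X - C yA) with hQ
  have hfac : (X - C yA) * Q = P := mul_divByMonic_eq_iff_isRoot.2 hrootY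
  have hder : eval yA (derivative P) = eval yA Q := by
    rw [← hfac, derivative_mul, derivative_sub, derivative_X, derivative_C, sub_zero, one_mul,
      eval_add, eval_mul, eval_sub, eval_X, eval_C, sub_self, zero_mul, add_zero]
  have hQs : eval sA Q = 0 := by
    have h := hrootS
    rw [IsRoot.def, ← hfac, eval_mul, eval_sub, eval_X, eval_C] at h
    rcases mul_eq_zero.1 h with h0 | h0
    · exfalso
      apply hne
      have := congrArg (Subtype.val) (sub_eq_zero.1 h0)
      exact this
    · exact h0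
  obtain ⟨w, hw⟩ := sub_dvd_eval_sub yA sA Q
  rw [hQs, sub_zero] at hw
  have hval : aeval y (derivative (minpoly ℤ y)) = (y - σ y) * (w : AlgebraicClosure ℚ) := by
    have h1 := hcoe (derivative (minpoly ℤ y)) yA
    rw [← derivative_map, ← hP, hder, hw] at h1
    rw [← h1]
    rfl
  rw [hval, ValuationSubring.mem_nonunits_iff, map_mul]
  have h1 : A.valuation (y - σ y) < 1 := by
    have := inertia_val_sub_lt_one A hσ y ((A.valuation_le_one_iff y).2 hyA)
    rwa [← neg_sub, Valuation.map_neg] at this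
  have h2 : A.valuation (w : AlgebraicClosure ℚ) ≤ 1 := (A.valuation_le_one_iff _).2 w.2
  calc A.valuation (y - σ y) * A.valuation (w : AlgebraicClosure ℚ)
      ≤ A.valuation (y - σ y) * 1 := by gcongr
    _ < 1 := by rwa [mul_one]

/-- An integer lying in `𝔪_A`, `A` over the prime `q`, is divisible by `q`. -/
theorem dvd_of_intCast_mem_nonunits {q : ℕ} (hq : q.Prime) (hA : A.LiesOverPrime q) {d : ℤ}
    (hd : (d : AlgebraicClosure ℚ) ∈ A.nonunits) : (q : ℤ) ∣ d := by
  by_contra hnd
  have hcop : IsCoprime (q : ℤ) d := by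
    rw [Int.isCoprime_iff_gcd_eq_one]
    have hp : Prime (q : ℤ) := Nat.prime_iff_prime_int.1 hq
    exact Int.isCoprime_iff_gcd_eq_one.1 ((Prime.coprime_iff_not_dvd hp).2 hnd)
  obtain ⟨u, w, huw⟩ := hcop
  have h1 : (u : AlgebraicClosure ℚ) * (q : AlgebraicClosure ℚ)
      + (w : AlgebraicClosure ℚ) * (d : AlgebraicClosure ℚ) = 1 := by
    have := congrArg (fun n : ℤ => (n : AlgebraicClosure ℚ)) huw
    simpa using this
  have hq' : A.valuation (q : AlgebraicClosure ℚ) < 1 := (A.mem_nonunits_iff).mp hA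
  have hd' : A.valuation (d : AlgebraicClosure ℚ) < 1 := (A.mem_nonunits_iff).mp hd
  have hu : A.valuation (u : AlgebraicClosure ℚ) ≤ 1 := val_intCast_le_one (A := A) u
  have hw : A.valuation (w : AlgebraicClosure ℚ) ≤ 1 := val_intCast_le_one (A := A) w
  have h2 : A.valuation ((u : AlgebraicClosure ℚ) * (q : AlgebraicClosure ℚ)) < 1 := by
    rw [map_mul]
    calc A.valuation (u : AlgebraicClosure ℚ) * A.valuation (q : AlgebraicClosure ℚ)
        ≤ 1 * A.valuation (q : AlgebraicClosure ℚ) := by gcongr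
      _ < 1 := by rwa [one_mul]
  have h3 : A.valuation ((w : AlgebraicClosure ℚ) * (d : AlgebraicClosure ℚ)) < 1 := by
    rw [map_mul]
    calc A.valuation (w : AlgebraicClosure ℚ) * A.valuation (d : AlgebraicClosure ℚ)
        ≤ 1 * A.valuation (d : AlgebraicClosure ℚ) := by gcongr
      _ < 1 := by rwa [one_mul]
  have h4 : A.valuation (1 : AlgebraicClosure ℚ) < 1 := by
    rw [← h1]
    exact lt_of_le_of_lt (A.valuation.map_add _ _) (max_lt h2 h3)
  rw [map_one] at h4
  exact lt_irrefl _ h4

/-- For every `x ∈ ℚ̄` there is a nonzero integer `d` such that the inertia groups at all primes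
not dividing `d` fix `x`. -/
theorem exists_int_inertia_fixes (x : AlgebraicClosure ℚ) :
    ∃ d : ℤ, d ≠ 0 ∧ ∀ q : ℕ, q.Prime → ¬ (q : ℤ) ∣ d →
      ∀ A : ValuationSubring (AlgebraicClosure ℚ), A.LiesOverPrime q →
        ∀ σ ∈ A.inertiaSubgroupIn ℚ, σ x = x := by
  haveI : Algebra.IsAlgebraic ℚ (AlgebraicClosure ℚ) := isAlgebraic_Qbar
  have halg : IsAlgebraic ℤ x :=
    (IsFractionRing.isAlgebraic_iff ℤ ℚ (AlgebraicClosure ℚ)).mpr (Algebra.IsAlgebraic.isAlgebraic x)
  obtain ⟨m, hm, hy⟩ := halg.exists_integral_multiple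
  set y : AlgebraicClosure ℚ := m • x with hydef
  -- `z = f'(y)` is integral and nonzero
  set z : AlgebraicClosure ℚ := aeval y (derivative (minpoly ℤ y)) with hz
  have hzint : IsIntegral ℤ z := by
    let y' : integralClosure ℤ (AlgebraicClosure ℚ) := ⟨y, hy⟩
    have : z = ((aeval y' (derivative (minpoly ℤ y)) : integralClosure ℤ (AlgebraicClosure ℚ)) :
          AlgebraicClosure ℚ) := (Subalgebra.aeval_coe _ y' _)
    rw [this]
    exact Subtype.property _
  have hz0 : z ≠ 0 := by
    have hsep : (minpoly ℚ y).Separable := (minpoly.irreducible hy.tower_top).separable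
    have h1 := hsep.aeval_derivative_ne_zero (minpoly.aeval ℚ y)
    rw [minpoly.isIntegrallyClosed_eq_field_fractions' ℚ hy, derivative_map,
      aeval_map_algebraMap] at h1
    exact h1
  have hd0 : (minpoly ℤ z).coeff 0 ≠ 0 := by
    have h1 := minpoly.coeff_zero_ne_zero (A := ℚ) hzint.tower_top hz0
    rw [minpoly.isIntegrallyClosed_eq_field_fractions' ℚ hzint, coeff_map] at h1
    intro h0
    apply h1
    rw [h0, map_zero]
  refine ⟨(minpoly ℤ z).coeff 0, hd0, ?_⟩
  intro q hq hnd A hA σ hσ
  by_contra hne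
  have hney : σ y ≠ y := by
    intro h
    apply hne
    rw [hydef, map_zsmul] at h
    have hm' : (m : AlgebraicClosure ℚ) ≠ 0 := by exact_mod_cast hm
    rw [zsmul_eq_mul, zsmul_eq_mul] at h
    exact mul_left_cancel₀ hm' h
  have hzmem : z ∈ A.nonunits := aeval_derivative_mem_nonunits A hy hσ hney
  -- `d = - (divX m)(z) * z`
  have hrel : aeval z (divX (minpoly ℤ z)) * z
      + (((minpoly ℤ z).coeff 0 : ℤ) : AlgebraicClosure ℚ) = 0 := by
    have h := congrArg (aeval z) (divX_mul_X_add (minpoly ℤ z))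
    rw [minpoly.aeval, map_add, map_mul, aeval_X, aeval_C] at h
    simpa using h
  have hwint : IsIntegral ℤ (aeval z (divX (minpoly ℤ z))) := by
    let z' : integralClosure ℤ (AlgebraicClosure ℚ) := ⟨z, hzint⟩
    have : aeval z (divX (minpoly ℤ z)) = ((aeval z' (divX (minpoly ℤ z)) :
          integralClosure ℤ (AlgebraicClosure ℚ)) : AlgebraicClosure ℚ) :=
      (Subalgebra.aeval_coe _ z' _)
    rw [this]
    exact Subtype.property _
  have hd : (((minpoly ℤ z).coeff 0 : ℤ) : AlgebraicClosure ℚ) ∈ A.nonunits := by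
    have h1 : (((minpoly ℤ z).coeff 0 : ℤ) : AlgebraicClosure ℚ)
        = -(aeval z (divX (minpoly ℤ z)) * z) := eq_neg_of_add_eq_zero_right hrel
    rw [h1, ValuationSubring.mem_nonunits_iff, Valuation.map_neg, map_mul]
    have h2 : A.valuation (aeval z (divX (minpoly ℤ z))) ≤ 1 :=
      (A.valuation_le_one_iff _).2 (isIntegral_mem_valuationSubring A hwint)
    have h3 : A.valuation z < 1 := (A.mem_nonunits_iff).mp hzmem
    calc A.valuation (aeval z (divX (minpoly ℤ z))) * A.valuation z
        ≤ 1 * A.valuation z := by gcongr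
      _ < 1 := by rwa [one_mul]
  exact hnd (_root_.Fermat.Agent.S55.Bridge.dvd_of_intCast_mem_nonunits A hq hA hd)

/-- Finite-set version of `exists_int_inertia_fixes`. -/
theorem exists_int_inertia_fixes_finset (s : Finset (AlgebraicClosure ℚ)) :
    ∃ d : ℤ, d ≠ 0 ∧ ∀ q : ℕ, q.Prime → ¬ (q : ℤ) ∣ d →
      ∀ A : ValuationSubring (AlgebraicClosure ℚ), A.LiesOverPrime q →
        ∀ σ ∈ A.inertiaSubgroupIn ℚ, ∀ x ∈ s, σ x = x := by
  classical
  induction s using Finset.induction_on with
  | empty => exact ⟨1, one_ne_zero, fun _ _ _ _ _ _ _ x hx => absurd hx (Finset.notMem_empty x)⟩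
  | insert a s _ ih =>
    obtain ⟨d, hd, h⟩ := ih
    obtain ⟨e, he, h'⟩ := exists_int_inertia_fixes a
    refine ⟨d * e, mul_ne_zero hd he, fun q hq hnd A hA σ hσ x hx => ?_⟩
    rcases Finset.mem_insert.1 hx with rfl | hx
    · exact h' q hq (fun hdvd => hnd (Dvd.dvd.mul_left hdvd d)) A hA σ hσ
    · exact h q hq (fun hdvd => hnd (Dvd.dvd.mul_right hdvd e)) A hA σ hσ x hx

/-- **B15.** A finite extension of `ℚ` inside `ℚ̄` is unramified outside a finite set of
primes. -/
theorem exists_finset_isUnramifiedOutside (F : IntermediateField ℚ (AlgebraicClosure ℚ))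
    (hF : FiniteDimensional ℚ F) : ∃ T : Finset Nat.Primes, F.IsUnramifiedOutside T := by
  classical
  haveI := hF
  -- a finite basis
  let b := Module.finBasis ℚ F
  obtain ⟨d, hd, h⟩ := exists_int_inertia_fixes_finset
    (Finset.univ.image fun i => ((b i : F) : AlgebraicClosure ℚ))
  refine ⟨(d.natAbs.primeFactors).subtype Nat.Prime, hF, fun q hq A hA σ hσ => ?_⟩
  have hnd : ¬ ((q : ℕ) : ℤ) ∣ d := by
    intro hdvd
    apply hq
    refine Finset.mem_subtype.2 ?_
    rw [Nat.mem_primeFactors]
    refine ⟨q.2, ?_, Int.natAbs_ne_zero.2 hd⟩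
    exact Int.natCast_dvd.1 hdvd
  have hfix := h q q.2 hnd A hA σ hσ
  rw [IntermediateField.mem_fixingSubgroup_iff]
  intro x hx
  have hsum := b.sum_repr ⟨x, hx⟩
  have hx' : x = ∑ i, algebraMap ℚ (AlgebraicClosure ℚ) (b.repr ⟨x, hx⟩ i)
      * ((b i : F) : AlgebraicClosure ℚ) := by
    have := congrArg (fun t : F => (t : AlgebraicClosure ℚ)) hsum
    simp only [IntermediateField.coe_sum, Algebra.smul_def] at this
    exact this.symm
  show σ x = x
  conv_lhs => rw [hx']
  rw [map_sum]
  conv_rhs => rw [hx']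
  refine Finset.sum_congr rfl fun i _ => ?_
  rw [map_mul, AlgEquiv.commutes, hfix _ (Finset.mem_image_of_mem _ (Finset.mem_univ i))]

/-- **B15'.** Every finite extension of `ℚ` is unramified outside a finite set containing a
given one. -/
theorem exists_finset_ge_isUnramifiedOutside (S : Finset Nat.Primes)
    (F : IntermediateField ℚ (AlgebraicClosure ℚ)) (hF : FiniteDimensional ℚ F) :
    ∃ T : Finset Nat.Primes, S ⊆ T ∧ F.IsUnramifiedOutside T := by
  classical
  obtain ⟨T, hT⟩ := exists_finset_isUnramifiedOutside F hF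
  exact ⟨S ∪ T, Finset.subset_union_left, hT.mono Finset.subset_union_right⟩

/-- Every finite extension of `ℚ` is contained in a finite Galois extension which is unramified
outside a finite set of primes containing a given one. -/
theorem exists_galois_ge_isUnramifiedOutside (S : Finset Nat.Primes)
    (F : IntermediateField ℚ (AlgebraicClosure ℚ)) (hF : FiniteDimensional ℚ F) :
    ∃ (T : Finset Nat.Primes) (L : IntermediateField ℚ (AlgebraicClosure ℚ)),
      S ⊆ T ∧ L.IsUnramifiedOutside T ∧ IsGalois ℚ L ∧ F ≤ L := by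
  obtain ⟨T, hST, hT⟩ := exists_finset_ge_isUnramifiedOutside S F hF
  obtain ⟨L, hL, hgal, hle⟩ := exists_galois_level_ge T F hT
  exact ⟨T, L, hST, hL, hgal, hle⟩

end Fermat.Agent.S55.Bridge

end
-- ===== PACK-END S55/Bridge/FiniteRam.lean

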