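import Fermat.Agent.Pack.S56.E4L3
import Fermat.Agent.Pack.S56.E4L2
import Fermat.Agent.Pack.S56.E1L0
import Fermat.Agent.Pack.S56.E3L2
import Fermat.Agent.Pack.S56.E2L0
import Fermat.Agent.Pack.S56.E4L0
import Fermat.Agent.Pack.S56.E4L1

-- ===== PACK-BEGIN S55/T/LatDualH359.lean
section


/-!
# S55 / layer T / leaf T6b (helper359): elementary duality of `G`-lattices in degree `0`

`latticeDuality : LatticeDualitySpec`.

Abstract form: `V` a finitely generated free abelian group with an action `a : G → V →+ V` of a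
finite group `G` of order `n`, `Nrm = ∑_g a g`.
* an invariant `r` is a norm iff `n ∣ f r` for every invariant functional `f : V →+ ℤ`
  (`exists_norm_eq_iff`);
* an invariant functional `f` is of the form `ψ ∘ Nrm` iff `n ∣ f r` for every invariant `r`
  (`exists_functional_norm_iff`).
-/

set_option autoImplicit false
set_option linter.unusedSectionVars false

namespace Fermat.Agent.S55.T.H359

section Abstract

variable {G : Type} [Group G] [Fintype G] {V : Type} [AddCommGroup V]
  (a : G → V →+ V)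

/-- the norm `∑_g a g` -/
noncomputable def latNorm : V →+ V := ∑ g : G, a g

lemma latNorm_apply (x : V) : latNorm a x = ∑ g : G, a g x := by
  unfold latNorm
  rw [AddMonoidHom.finsetSum_apply]

variable {a}

lemma latNorm_act (hmul : ∀ g h x, a (g * h) x = a g (a h x)) (h : G) (x : V) :
    latNorm a (a h x) = latNorm a x := by
  rw [latNorm_apply, latNorm_apply]
  simp_rw [← hmul]
  exact Fintype.sum_equiv (Equiv.mulRight h) _ _ (fun g => rfl)

lemma act_latNorm (hmul : ∀ g h x, a (g * h) x = a g (a h x)) (h : G) (x : V) :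
    a h (latNorm a x) = latNorm a x := by
  rw [latNorm_apply, map_sum]
  simp_rw [← hmul]
  exact Fintype.sum_equiv (Equiv.mulLeft h) _ _ (fun g => rfl)

lemma latNorm_of_inv {r : V} (hr : ∀ g, a g r = r) :
    latNorm a r = (Fintype.card G : ℤ) • r := by
  rw [latNorm_apply]
  simp_rw [hr]
  rw [Finset.sum_const, Finset.card_univ, natCast_zsmul]

lemma functional_latNorm {f : V →+ ℤ} (hf : ∀ g x, f (a g x) = f x) (x : V) :
    f (latNorm a x) = (Fintype.card G : ℤ) * f x := by
  rw [latNorm_apply, map_sum]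
  simp_rw [hf]
  rw [Finset.sum_const, Finset.card_univ, nsmul_eq_mul]

/-- In a finitely generated free abelian group, an element all of whose images under
functionals are divisible by `n` is divisible by `n`. -/
lemma exists_zsmul_eq_of_forall_dvd {M : Type} [AddCommGroup M] [Module.Free ℤ M]
    [Module.Finite ℤ M] (n : ℤ) (y : M) (h : ∀ φ : M →+ ℤ, n ∣ φ y) : ∃ z : M, y = n • z := by
  classical
  let b := Module.Free.chooseBasis ℤ M
  have hc : ∀ i, n ∣ b.repr y i := fun i => h ((b.coord i).toAddMonoidHom)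
  choose c hc' using hc
  refine ⟨∑ i, c i • b i, ?_⟩
  conv_lhs => rw [← b.sum_repr y]
  rw [Finset.smul_sum]
  refine Finset.sum_congr rfl fun i _ => ?_
  rw [hc' i, mul_smul]

variable [Module.Free ℤ V] [Module.Finite ℤ V]

/-- **(1)** an invariant element is a norm iff all invariant functionals take values in `nℤ`
on it. -/
theorem exists_norm_eq_iff (hmul : ∀ g h x, a (g * h) x = a g (a h x))
    {r : V} (hr : ∀ g, a g r = r) :
    (∃ s : V, r = latNorm a s) ↔
      ∀ f : V →+ ℤ, (∀ g x, f (a g x) = f x) → (Fintype.card G : ℤ) ∣ f r := by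
  constructor
  · rintro ⟨s, rfl⟩ f hf
    rw [functional_latNorm hf]
    exact dvd_mul_right _ _
  · intro h
    -- the lattice `M = Nrm V`
    let Nl : V →ₗ[ℤ] V := (latNorm a).toIntLinearMap
    let M : Submodule ℤ V := LinearMap.range Nl
    let y : M := ⟨latNorm a r, ⟨r, rfl⟩⟩
    have hy : ∀ φ : M →+ ℤ, (Fintype.card G : ℤ) ∣ φ y := by
      intro φ
      let f : V →+ ℤ := φ.comp (Nl.rangeRestrict).toAddMonoidHom
      have hf : ∀ g x, f (a g x) = f x := by
        intro g x
        change φ (Nl.rangeRestrict (a g x)) = φ (Nl.rangeRestrict x)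
        congr 1
        apply Subtype.ext
        exact latNorm_act hmul g x
      have h1 := h f hf
      have h2 : f r = φ y := rfl
      rwa [h2] at h1
    obtain ⟨z, hz⟩ := exists_zsmul_eq_of_forall_dvd _ y hy
    obtain ⟨s, hs⟩ := z.2
    refine ⟨s, ?_⟩
    have h3 : (Fintype.card G : ℤ) • r = (Fintype.card G : ℤ) • (z : V) := by
      rw [← latNorm_of_inv hr]
      exact congrArg Subtype.val hz
    have hn : (Fintype.card G : ℤ) ≠ 0 := by
      exact_mod_cast Fintype.card_ne_zero
    have h4 : r = (z : V) := smul_right_injective V hn h3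
    rw [h4, ← hs]
    rfl

/-- the invariants as a `ℤ`-submodule -/
def latInv (a : G → V →+ V) : Submodule ℤ V where
  carrier := {r | ∀ g, a g r = r}
  add_mem' := fun {x y} hx hy g => by rw [map_add, hx g, hy g]
  zero_mem' := fun g => map_zero _
  smul_mem' := fun c x hx g => by rw [map_zsmul, hx g]

omit [Fintype G] [Module.Free ℤ V] [Module.Finite ℤ V] in
lemma mem_latInv {r : V} : r ∈ latInv a ↔ ∀ g, a g r = r := Iff.rfl

omit [Fintype G] [Group G] in
/-- the invariants form a saturated sublattice, so the quotient is torsion-free -/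
lemma isTorsionFree_quot_latInv : Module.IsTorsionFree ℤ (V ⧸ latInv a) := by
  refine Module.IsTorsionFree.of_smul_eq_zero fun c m h => ?_
  by_cases hc : c = 0
  · exact Or.inl hc
  · right
    obtain ⟨x, rfl⟩ := Submodule.Quotient.mk_surjective _ m
    rw [← Submodule.Quotient.mk_smul, Submodule.Quotient.mk_eq_zero] at h
    rw [Submodule.Quotient.mk_eq_zero]
    intro g
    have h1 := h g
    rw [map_zsmul] at h1
    exact smul_right_injective V hc h1

omit [Fintype G] [Group G] in
/-- a retraction of `V` onto the invariants -/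
lemma exists_retraction_latInv :
    ∃ π : V →ₗ[ℤ] latInv a, ∀ r : latInv a, π r = r := by
  have : Module.IsTorsionFree ℤ (V ⧸ latInv a) := isTorsionFree_quot_latInv
  have : Module.Free ℤ (V ⧸ latInv a) := Module.free_of_finite_type_torsion_free'
  obtain ⟨σ, hσ⟩ := (latInv a).mkQ.exists_rightInverse_of_surjective
    (LinearMap.range_eq_top.2 (Submodule.mkQ_surjective _))
  have hmem : ∀ x : V, x - σ ((latInv a).mkQ x) ∈ latInv a := by
    intro x
    rw [← Submodule.Quotient.mk_eq_zero, Submodule.Quotient.mk_sub]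
    have := LinearMap.congr_fun hσ ((latInv a).mkQ x)
    simp only [LinearMap.coe_comp, Function.comp_apply, LinearMap.id_coe, id_eq] at this
    change (latInv a).mkQ x - (latInv a).mkQ (σ ((latInv a).mkQ x)) = 0
    rw [this, sub_self]
  refine ⟨LinearMap.codRestrict (latInv a) (LinearMap.id - σ.comp (latInv a).mkQ) hmem, ?_⟩
  intro r
  apply Subtype.ext
  change (r : V) - σ ((latInv a).mkQ r) = r
  have : (latInv a).mkQ (r : V) = 0 := (Submodule.Quotient.mk_eq_zero _).2 r.2
  rw [this, map_zero, sub_zero]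

/-- **(2)** an invariant functional is a norm `ψ ∘ Nrm` iff it takes values in `nℤ` on the
invariants. -/
theorem exists_functional_norm_iff (hmul : ∀ g h x, a (g * h) x = a g (a h x))
    {f : V →+ ℤ} (hf : ∀ g x, f (a g x) = f x) :
    (∃ ψ : V →+ ℤ, ∀ x, f x = ψ (latNorm a x)) ↔
      ∀ r : V, (∀ g, a g r = r) → (Fintype.card G : ℤ) ∣ f r := by
  have hn : (Fintype.card G : ℤ) ≠ 0 := by exact_mod_cast Fintype.card_ne_zero
  constructor
  · rintro ⟨ψ, hψ⟩ r hr
    rw [hψ r, latNorm_of_inv hr, map_zsmul, smul_eq_mul]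
    exact dvd_mul_right _ _
  · intro h
    obtain ⟨π, hπ⟩ := exists_retraction_latInv (a := a)
    -- `ψ₁ r = f r / n` on the invariants
    let ψ₁ : latInv a →+ ℤ :=
      { toFun := fun r => f r / (Fintype.card G : ℤ)
        map_zero' := by simp
        map_add' := fun x y => by
          obtain ⟨c, hc⟩ := h x x.2
          obtain ⟨d, hd⟩ := h y y.2
          change f ((x : V) + (y : V)) / _ = f x / _ + f y / _
          rw [map_add, hc, hd, ← mul_add, Int.mul_ediv_cancel_left _ hn,
            Int.mul_ediv_cancel_left _ hn, Int.mul_ediv_cancel_left _ hn] }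
    refine ⟨ψ₁.comp π.toAddMonoidHom, fun x => ?_⟩
    have hx : latNorm a x ∈ latInv a := fun g => act_latNorm hmul g x
    have h1 : π (latNorm a x) = ⟨latNorm a x, hx⟩ := hπ ⟨latNorm a x, hx⟩
    change f x = ψ₁ (π (latNorm a x))
    rw [h1]
    change f x = f (latNorm a x) / (Fintype.card G : ℤ)
    rw [functional_latNorm hf, Int.mul_ediv_cancel_left _ hn]

end Abstract

/-- **T6b.** Elementary lattice duality in degree `0`. -/
theorem latticeDuality : LatticeDualitySpec := by
  intro G _ _ R hfree hfin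
  have e : R.hV2 = AddCommGroup.toIntModule R.V := Subsingleton.elim _ _
  have : Module.Free ℤ R.V := e ▸ hfree
  have : Module.Finite ℤ R.V := e ▸ hfin
  let a : G → R.V →+ R.V := fun g => (R.ρ g).toAddMonoidHom
  have ha : ∀ g x, a g x = R.ρ g x := fun g x => rfl
  have hmul : ∀ g h x, a (g * h) x = a g (a h x) := fun g h x => by
    rw [ha, ha, ha, map_mul]; rfl
  refine ⟨fun r hr => ?_, fun f hf => ?_⟩
  · have h := exists_norm_eq_iff (a := a) hmul (r := r) hr
    simp only [latNorm_apply, ha] at h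
    exact h
  · have h := exists_functional_norm_iff (a := a) hmul (f := f) hf
    simp only [ha] at h
    rw [← h]
    have key : ∀ (ψ : R.V →+ ℤ) (x : R.V),
        ψ (latNorm a x) = ∑ g : G, ψ (R.ρ g⁻¹ x) := by
      intro ψ x
      rw [latNorm_apply, map_sum]
      exact Fintype.sum_equiv (Equiv.inv G) _ _ (fun g => by simp [ha])
    constructor
    · rintro ⟨ψ, hψ⟩
      exact ⟨ψ, fun x => by rw [hψ x, key]⟩
    · rintro ⟨ψ, hψ⟩
      exact ⟨ψ, fun x => by rw [hψ x, key]⟩

end Fermat.Agent.S55.T.H359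

end
-- ===== PACK-END S55/T/LatDualH359.lean

-- ===== PACK-BEGIN S55/H963/BrRing.lean
section



/-!
# S55 / G-SI bridge (helper963): the complete ring `ℤ_S ⊗ 𝓞 K`

`ZS S = ∏_{q ∈ S} ℤ_q`, `PS S = ∏_{q ∈ S} q`, `RS S K = ZS S ⊗[ℤ] 𝓞 K`.
`RS S K` is `PS S`-adically separated and complete, and `n ∣ (PS S) ^ n` in it.
-/

set_option autoImplicit false
set_option linter.style.haveILetI false
set_option linter.unusedSectionVars false

open scoped NumberField TensorProduct

noncomputable section

namespace Fermat.Agent.S55.H963.Br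

open Fermat.Agent.S55.G

/-- `ℤ_q` for a bundled prime. -/
abbrev Zq (q : Nat.Primes) : Type := @PadicInt (q : ℕ) ⟨q.2⟩

/-- `ℤ_S = ∏_{q ∈ S} ℤ_q`. -/
def ZS (S : Finset Nat.Primes) : Type := ∀ q : S, Zq q.1

instance ZS.instCommRing (S : Finset Nat.Primes) : CommRing (ZS S) :=
  inferInstanceAs (CommRing (∀ q : S, Zq q.1))

/-- The product of the primes in `S`. -/
def PS (S : Finset Nat.Primes) : ℕ := ∏ q ∈ S, (q : ℕ)

theorem PS_pos (S : Finset Nat.Primes) : 0 < PS S :=
  Finset.prod_pos fun q _ => q.2.pos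

theorem dvd_PS {S : Finset Nat.Primes} {q : Nat.Primes} (hq : q ∈ S) : (q : ℕ) ∣ PS S :=
  Finset.dvd_prod_of_mem (fun q : Nat.Primes => (q : ℕ)) hq

theorem PS_eq_mul {S : Finset Nat.Primes} {q : Nat.Primes} (hq : q ∈ S) :
    PS S = (q : ℕ) * ∏ r ∈ S.erase q, (r : ℕ) := by
  unfold PS
  rw [Finset.mul_prod_erase S (fun q : Nat.Primes => (q : ℕ)) hq]

theorem coprime_prod_erase {S : Finset Nat.Primes} {q : Nat.Primes} :
    Nat.Coprime (q : ℕ) (∏ r ∈ S.erase q, (r : ℕ)) := by
  refine Nat.Coprime.prod_right fun r hr => ?_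
  rw [Nat.coprime_primes q.2 r.2]
  intro h
  exact (Finset.ne_of_mem_erase hr) (Subtype.ext h.symm)

/-- In `ℤ_q`, `q ∈ S`, the integer `PS S` is `q` times a unit. -/
theorem associated_PS {S : Finset Nat.Primes} {q : Nat.Primes} (hq : q ∈ S) :
    letI : Fact (q : ℕ).Prime := ⟨q.2⟩
    Associated ((q : ℕ) : ℤ_[(q : ℕ)]) (((PS S : ℕ) : ℤ) : ℤ_[(q : ℕ)]) := by
  letI : Fact (q : ℕ).Prime := ⟨q.2⟩
  have hu : IsUnit (((∏ r ∈ S.erase q, (r : ℕ) : ℕ)) : ℤ_[(q : ℕ)]) := by
    rw [PadicInt.isUnit_iff, PadicInt.norm_natCast_eq_one_iff]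
    exact coprime_prod_erase
  obtain ⟨u, hu⟩ := hu
  refine ⟨u, ?_⟩
  rw [hu, Int.cast_natCast, PS_eq_mul hq, Nat.cast_mul]

theorem mHaus_ZS (S : Finset Nat.Primes) : MHaus (PS S : ℤ) (ZS S) :=
  MHaus.pi (N := fun q : S => Zq q.1) fun q =>
    letI : Fact ((q.1 : Nat.Primes) : ℕ).Prime := ⟨q.1.2⟩
    mHaus_padicInt _ (associated_PS q.2)

theorem mPrec_ZS (S : Finset Nat.Primes) : MPrec (PS S : ℤ) (ZS S) :=
  MPrec.pi (N := fun q : S => Zq q.1) fun q =>
    letI : Fact ((q.1 : Nat.Primes) : ℕ).Prime := ⟨q.1.2⟩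
    mPrec_padicInt _ (associated_PS q.2)

/-- `n` divides `q ^ n` in `ℤ_q`... more precisely `n ∣ (PS S) ^ n` in `ℤ_q` for `q ∈ S`. -/
theorem natCast_dvd_PS_pow_padic {S : Finset Nat.Primes} {q : Nat.Primes} (hq : q ∈ S)
    {n : ℕ} (hn : 0 < n) :
    letI : Fact (q : ℕ).Prime := ⟨q.2⟩
    (n : ℤ_[(q : ℕ)]) ∣ ((PS S : ℕ) : ℤ_[(q : ℕ)]) ^ n := by
  letI : Fact (q : ℕ).Prime := ⟨q.2⟩
  obtain ⟨v, m, hm, rfl⟩ := Nat.exists_eq_pow_mul_and_not_dvd hn.ne' (q : ℕ) q.2.ne_one
  set N := (q : ℕ) ^ v * m with hN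
  have hu : IsUnit ((m : ℕ) : ℤ_[(q : ℕ)]) := by
    rw [PadicInt.isUnit_iff, PadicInt.norm_natCast_eq_one_iff]
    exact (Nat.Prime.coprime_iff_not_dvd q.2).mpr hm
  have hvN : v ≤ N := by
    have h1 : v < (q : ℕ) ^ v := Nat.lt_pow_self q.2.one_lt
    have hm0 : 0 < m := Nat.pos_of_ne_zero fun h => hm (h ▸ dvd_zero _)
    calc v ≤ (q : ℕ) ^ v := h1.le
      _ ≤ (q : ℕ) ^ v * m := Nat.le_mul_of_pos_right _ hm0
  have h1 : ((N : ℕ) : ℤ_[(q : ℕ)]) ∣ ((q : ℕ) : ℤ_[(q : ℕ)]) ^ v := by
    rw [hN, Nat.cast_mul, Nat.cast_pow]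
    exact (hu.mul_right_dvd).mpr dvd_rfl
  have h2 : ((q : ℕ) : ℤ_[(q : ℕ)]) ^ v ∣ ((PS S : ℕ) : ℤ_[(q : ℕ)]) ^ N := by
    refine dvd_trans (pow_dvd_pow _ hvN) (pow_dvd_pow_of_dvd ?_ N)
    exact Nat.cast_dvd_cast (dvd_PS hq)
  exact dvd_trans h1 h2

theorem exists_PS_pow_eq_ZS (S : Finset Nat.Primes) {n : ℕ} (hn : 0 < n) :
    ∃ t : ZS S, ((PS S : ℕ) : ZS S) ^ n = (n : ZS S) * t := by
  choose t ht using fun q : S => natCast_dvd_PS_pow_padic q.2 hn
  exact ⟨t, funext fun q => ht q⟩

variable (S : Finset Nat.Primes) (K : Type) [Field K] [NumberField K]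

/-- The complete ring `ℤ_S ⊗ 𝓞 K`. -/
abbrev RS : Type := ZS S ⊗[ℤ] 𝓞 K

/-- The additive equivalence `ℤ_S ⊗ 𝓞 K ≃ (ℤ_S)^d` given by an integral basis. -/
def rsEquiv : RS S K ≃+ (Module.Free.ChooseBasisIndex ℤ (𝓞 K) → ZS S) :=
  ((Algebra.TensorProduct.basis (ZS S) (NumberField.RingOfIntegers.basis K)).equivFun).toAddEquiv

theorem mHaus_RS : MHaus (PS S : ℤ) (RS S K) :=
  MHaus.of_addEquiv (rsEquiv S K) (MHaus.pi fun _ => mHaus_ZS S)

theorem mPrec_RS : MPrec (PS S : ℤ) (RS S K) :=
  MPrec.of_addEquiv (rsEquiv S K) (MPrec.pi fun _ => mPrec_ZS S)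

theorem pHaus_RS : PHaus ((PS S : ℕ) : RS S K) := by
  have := pHaus_of_mHaus (R := RS S K) (mHaus_RS S K)
  rwa [Int.cast_natCast] at this

theorem pPrec_RS : PPrec ((PS S : ℕ) : RS S K) := by
  have := pPrec_of_mPrec (R := RS S K) (mPrec_RS S K)
  rwa [Int.cast_natCast] at this

theorem exists_PS_pow_eq_RS {n : ℕ} (hn : 0 < n) :
    ∃ t : RS S K, ((PS S : ℕ) : RS S K) ^ n = (n : RS S K) * t := by
  obtain ⟨t, ht⟩ := exists_PS_pow_eq_ZS S hn
  refine ⟨algebraMap (ZS S) (RS S K) t, ?_⟩
  have := congrArg (algebraMap (ZS S) (RS S K)) ht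
  rwa [map_pow, map_mul, map_natCast, map_natCast] at this

/-- **`n`-th roots in `ℤ_S ⊗ 𝓞 K`.** -/
theorem exists_pow_eq_RS {n : ℕ} (hn : 0 < n) (z : RS S K) :
    ∃ y : RS S K, y ^ n = 1 + ((PS S : ℕ) : RS S K) ^ (2 * n + 2) * z := by
  obtain ⟨t, ht⟩ := exists_PS_pow_eq_RS S K hn
  obtain ⟨Y, hY⟩ := exists_pow_eq (pHaus_RS S K) (pPrec_RS S K) n n t ht z
  exact ⟨_, hY⟩

/-- `1 + P w` is a unit of `ℤ_S ⊗ 𝓞 K`. -/
theorem isUnit_one_add_RS (w : RS S K) : IsUnit (1 + ((PS S : ℕ) : RS S K) * w) := by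
  obtain ⟨u, hu⟩ := exists_mul_eq_one (pHaus_RS S K) (pPrec_RS S K) w
  exact IsUnit.of_mul_eq_one _ hu

end Fermat.Agent.S55.H963.Br

end
end
-- ===== PACK-END S55/H963/BrRing.lean

-- ===== PACK-BEGIN S55/L/Unram784/Basic.lean
section


/-!
# S55, layer L, leaf L-A2 (helper784): comparison of rings of integers

Basic facts on complete discrete valuation subrings with finite residue field
(`IsLocalRingOfIntegers`): elements of `1 + 𝔪` are `N`-th powers for many `N`, hence have
valuation one for every other ring of integers; the ring of integers of an extension restricts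
to the ring of integers of the base (given a common uniformizer).  By-product: uniqueness of the
ring of integers (`RingOfIntegersUniqueSpec`, leaf L-A0).
-/

set_option autoImplicit false

namespace Fermat.Agent.S55.L

open IsLocalRing Polynomial

section Roots

variable {K : Type} [Field K] {A : ValuationSubring K}

/-- Hensel: in a complete local ring, an element of `1 + 𝔪` is an `N`-th power as soon as `N` is
a unit. -/
theorem u784_exists_pow_eq_of_sub_one_mem {R : Type} [CommRing R] [IsLocalRing R]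
    [IsAdicComplete (maximalIdeal R) R] (u : R) (hu : u - 1 ∈ maximalIdeal R) (N : ℕ)
    (hN : IsUnit (N : R)) : ∃ w : R, w ^ N = u := by
  have hN0 : N ≠ 0 := by
    rintro rfl
    simp at hN
  have : HenselianRing R (maximalIdeal R) := IsAdicComplete.henselianRing R _
  obtain ⟨a, ha, -⟩ := HenselianRing.is_henselian (I := maximalIdeal R) (X ^ N - C u)
    (monic_X_pow_sub_C u hN0) 1
    (by
      have : eval 1 (X ^ N - C u : R[X]) = -(u - 1) := by simp
      rw [this]
      exact neg_mem hu)
    (by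
      have : eval 1 (derivative (X ^ N - C u : R[X])) = (N : R) := by
        simp [derivative_X_pow]
      rw [this]
      exact hN.map _)
  refine ⟨a, ?_⟩
  have := ha
  simp only [IsRoot.def, eval_sub, eval_pow, eval_X, eval_C] at this
  exact sub_eq_zero.mp this

/-- The cardinality of the residue field, as an element of the ring, is in the maximal ideal. -/
theorem u784_card_residue_mem {R : Type} [CommRing R] [IsLocalRing R]
    [Finite (ResidueField R)] : ((Nat.card (ResidueField R) : ℕ) : R) ∈ maximalIdeal R := by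
  have := Fintype.ofFinite (ResidueField R)
  rw [← IsLocalRing.residue_eq_zero_iff, map_natCast, Nat.card_eq_fintype_card]
  exact FiniteField.cast_card_eq_zero _

theorem u784_two_le_card_residue {R : Type} [CommRing R] [IsLocalRing R]
    [Finite (ResidueField R)] : 2 ≤ Nat.card (ResidueField R) :=
  Finite.one_lt_card

/-- In a complete local ring with finite residue field, elements of `1 + 𝔪` are `N`-th powers for
arbitrarily large `N`. -/
theorem u784_exists_large_root {R : Type} [CommRing R] [IsLocalRing R]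
    [IsAdicComplete (maximalIdeal R) R] [Finite (ResidueField R)]
    (u : R) (hu : u - 1 ∈ maximalIdeal R) (n : ℕ) : ∃ N ≥ n, ∃ w : R, w ^ N = u := by
  refine ⟨Nat.card (ResidueField R) * n + 1, ?_, ?_⟩
  · have := u784_two_le_card_residue (R := R)
    nlinarith
  · apply u784_exists_pow_eq_of_sub_one_mem u hu
    have h1 : ((Nat.card (ResidueField R) * n + 1 : ℕ) : R) - 1 ∈ maximalIdeal R := by
      push_cast
      simpa using Ideal.mul_mem_right (n : R) _ (u784_card_residue_mem (R := R))
    by_contra hnu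
    have h2 : ((Nat.card (ResidueField R) * n + 1 : ℕ) : R) ∈ maximalIdeal R :=
      (IsLocalRing.mem_maximalIdeal _).mpr hnu
    have h3 : (1 : R) ∈ maximalIdeal R := by
      have := sub_mem h2 h1
      simp at this
    exact (Ideal.ne_top_iff_one _).mp (IsLocalRing.maximalIdeal.isMaximal R).ne_top h3

end Roots

section Val

variable {L : Type} [Field L] {B : ValuationSubring L}

theorem u784_not_valuation_lt_one_of_roots (hB : IsLocalRingOfIntegers B) (y : L) (hy : y ≠ 0)
    (hroots : ∀ n : ℕ, ∃ N ≥ n, ∃ w : L, w ^ N = y) : ¬ B.valuation y < 1 := by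
  obtain ⟨hdvr, -, -⟩ := hB
  intro hlt
  have hyB : y ∈ B := (B.valuation_le_one_iff y).mp hlt.le
  have hmem : ∀ n : ℕ, (⟨y, hyB⟩ : B) ∈ (maximalIdeal B) ^ n := by
    intro n
    obtain ⟨N, hN, w, hw⟩ := hroots n
    have hwlt : B.valuation w < 1 := by
      by_contra hcon
      rw [not_lt] at hcon
      have h1 : 1 ≤ B.valuation w ^ N := one_le_pow₀ hcon
      rw [← map_pow, hw] at h1
      exact absurd hlt (not_lt.mpr h1)
    have hwB : w ∈ B := (B.valuation_le_one_iff w).mp hwlt.le
    have hwm : (⟨w, hwB⟩ : B) ∈ maximalIdeal B := (B.valuation_lt_one_iff _).mpr hwlt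
    have hyw : (⟨y, hyB⟩ : B) = ⟨w, hwB⟩ ^ N := Subtype.ext (by simp [hw])
    rw [hyw]
    exact Ideal.pow_le_pow_right hN (Ideal.pow_mem_pow hwm N)
  have h0 : (⟨y, hyB⟩ : B) ∈ (⨅ n, (maximalIdeal B) ^ n : Ideal B) := by
    simpa [Ideal.mem_iInf] using hmem
  rw [Ideal.iInf_pow_eq_bot_of_isLocalRing _ (IsLocalRing.maximalIdeal.isMaximal _).ne_top] at h0
  have h1 : (⟨y, hyB⟩ : B) = 0 := by simpa using h0
  exact hy (congrArg Subtype.val h1)

/-- An element of `L` which has `N`-th roots for arbitrarily large `N` is a unit of every ring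
of integers of `L`. -/
theorem u784_valuation_eq_one_of_roots (hB : IsLocalRingOfIntegers B) (x : L) (hx : x ≠ 0)
    (h : ∀ n : ℕ, ∃ N ≥ n, ∃ w : L, w ^ N = x) : B.valuation x = 1 := by
  rcases lt_trichotomy (B.valuation x) 1 with hlt | heq | hgt
  · exact absurd hlt (u784_not_valuation_lt_one_of_roots hB x hx h)
  · exact heq
  · exfalso
    refine u784_not_valuation_lt_one_of_roots hB x⁻¹ (inv_ne_zero hx) ?_ ?_
    · intro n
      obtain ⟨N, hN, w, hw⟩ := h n
      exact ⟨N, hN, w⁻¹, by rw [inv_pow, hw]⟩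
    · rw [map_inv₀]
      exact inv_lt_one_of_one_lt₀ hgt

end Val

section Compare

variable {K L : Type} [Field K] [Field L] [Algebra K L] {A : ValuationSubring K}
  {B : ValuationSubring L}

theorem u784_pow_eq_one_imp {Γ : Type*} [LinearOrderedCommGroupWithZero Γ] (v : Γ) (n : ℕ)
    (hn : n ≠ 0) (h : v ^ n = 1) : v = 1 := by
  rcases lt_trichotomy v 1 with hlt | heq | hgt
  · exact absurd h (pow_lt_one₀ zero_le hlt hn).ne
  · exact heq
  · exact absurd h (one_lt_pow₀ hgt hn).ne'

/-- Units of a ring of integers of `K` are units of every ring of integers of every extension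
`L` of `K`. -/
theorem u784_valuation_algebraMap_unit (hA : IsLocalRingOfIntegers A)
    (hB : IsLocalRingOfIntegers B) (u : K) (hu : A.valuation u = 1) :
    B.valuation (algebraMap K L u) = 1 := by
  obtain ⟨hdvrA, hcA, hfA⟩ := hA
  have huA : u ∈ A := (A.valuation_le_one_iff u).mp hu.le
  have hunit : IsUnit (⟨u, huA⟩ : A) := (A.valuation_eq_one_iff _).mpr hu
  have hu0 : u ≠ 0 := by
    rintro rfl
    simp at hu
  have hQ : 2 ≤ Nat.card (ResidueField A) := u784_two_le_card_residue
  have hres : (⟨u, huA⟩ : A) ^ (Nat.card (ResidueField A) - 1) - 1 ∈ maximalIdeal A := by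
    rw [← IsLocalRing.residue_eq_zero_iff, map_sub, map_pow, map_one, sub_eq_zero]
    have := Fintype.ofFinite (ResidueField A)
    rw [Nat.card_eq_fintype_card]
    refine FiniteField.pow_card_sub_one_eq_one _ ?_
    intro h0
    rw [IsLocalRing.residue_eq_zero_iff] at h0
    exact (IsLocalRing.mem_maximalIdeal _).mp h0 hunit
  have hroots : ∀ n, ∃ N ≥ n, ∃ w : L,
      w ^ N = algebraMap K L (u ^ (Nat.card (ResidueField A) - 1)) := by
    intro n
    obtain ⟨N, hN, w, hw⟩ := u784_exists_large_root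
      ((⟨u, huA⟩ : A) ^ (Nat.card (ResidueField A) - 1)) hres n
    refine ⟨N, hN, algebraMap K L (w : K), ?_⟩
    rw [← map_pow]
    congr 1
    have := congrArg (Subtype.val) hw
    simpa using this
  have h1 := u784_valuation_eq_one_of_roots hB _
    ((map_ne_zero (algebraMap K L)).mpr (pow_ne_zero _ hu0)) hroots
  rw [map_pow, map_pow] at h1
  exact u784_pow_eq_one_imp _ _ (by omega) h1

/-- Decomposition `x = u * π ^ n` in a discrete valuation subring. -/
theorem u784_exists_unit_mul_pow (hA : IsLocalRingOfIntegers A) (π : K)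
    (hπA : IsUniformizer A π) (x : K) (hx : x ∈ A) (hx0 : x ≠ 0) :
    ∃ (n : ℕ) (u : K), A.valuation u = 1 ∧ x = u * π ^ n ∧ (x ∈ A.nonunits → n ≠ 0) := by
  obtain ⟨hdvrA, -, -⟩ := hA
  obtain ⟨hπ, hirr⟩ := hπA
  have hx0' : (⟨x, hx⟩ : A) ≠ 0 := fun h => hx0 (congrArg Subtype.val h)
  obtain ⟨n, u, hu⟩ := IsDiscreteValuationRing.eq_unit_mul_pow_irreducible hx0' hirr
  refine ⟨n, ((u : A) : K), (A.valuation_eq_one_iff _).mp u.isUnit, ?_, ?_⟩
  · have := congrArg Subtype.val hu
    simpa using this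
  · intro hxn hn
    subst hn
    rw [pow_zero, mul_one] at hu
    have h1 : A.valuation x = 1 := by
      have := (A.valuation_eq_one_iff (u : A)).mp u.isUnit
      rw [← hu] at this
      exact this
    exact (A.mem_nonunits_iff.mp hxn).ne h1

theorem u784_valuation_uniformizer_lt_one {M : Type} [Field M] {C : ValuationSubring M} (ϖ : M)
    (h : IsUniformizer C ϖ) : C.valuation ϖ < 1 := by
  obtain ⟨hπ, hirr⟩ := h
  rcases C.valuation_lt_one_or_eq_one ⟨ϖ, hπ⟩ with h1 | h1
  · exact h1
  · exact absurd ((C.valuation_eq_one_iff _).mpr h1) hirr.not_isUnit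

theorem u784_uniformizer_ne_zero {M : Type} [Field M] {C : ValuationSubring M} (ϖ : M)
    (h : IsUniformizer C ϖ) : ϖ ≠ 0 := by
  obtain ⟨hπ, hirr⟩ := h
  rintro rfl
  exact hirr.ne_zero rfl

variable (hA : IsLocalRingOfIntegers A) (hB : IsLocalRingOfIntegers B) (π : K)
  (hπA : IsUniformizer A π) (hπB : IsUniformizer B (algebraMap K L π))

include hA hB hπA hπB

theorem u784_algebraMap_mem {x : K} (hx : x ∈ A) : algebraMap K L x ∈ B := by
  rw [← B.valuation_le_one_iff]
  by_cases hx0 : x = 0
  · simp [hx0]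
  obtain ⟨n, u, hu, hxu, -⟩ := u784_exists_unit_mul_pow hA π hπA x hx hx0
  rw [hxu, map_mul, map_pow, map_mul, map_pow, u784_valuation_algebraMap_unit hA hB u hu, one_mul]
  exact pow_le_one₀ zero_le (u784_valuation_uniformizer_lt_one _ hπB).le

theorem u784_algebraMap_mem_nonunits {x : K} (hx : x ∈ A.nonunits) :
    algebraMap K L x ∈ B.nonunits := by
  rw [B.mem_nonunits_iff]
  by_cases hx0 : x = 0
  · simp [hx0]
  have hxA : x ∈ A := (A.valuation_le_one_iff x).mp (A.mem_nonunits_iff.mp hx).le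
  obtain ⟨n, u, hu, hxu, hn⟩ := u784_exists_unit_mul_pow hA π hπA x hxA hx0
  rw [hxu, map_mul, map_pow, map_mul, map_pow, u784_valuation_algebraMap_unit hA hB u hu, one_mul]
  exact pow_lt_one₀ zero_le (u784_valuation_uniformizer_lt_one _ hπB) (hn hx)

theorem u784_algebraMap_mem_iff (x : K) : algebraMap K L x ∈ B ↔ x ∈ A := by
  refine ⟨fun h => ?_, u784_algebraMap_mem hA hB π hπA hπB⟩
  by_contra hx
  have hgt : 1 < A.valuation x := by
    rw [← not_le, A.valuation_le_one_iff]
    exact hx
  have hx0 : x ≠ 0 := by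
    rintro rfl
    simp at hgt
  have hinv : x⁻¹ ∈ A.nonunits := by
    rw [A.mem_nonunits_iff, map_inv₀]
    exact inv_lt_one_of_one_lt₀ hgt
  have h1 := B.mem_nonunits_iff.mp (u784_algebraMap_mem_nonunits hA hB π hπA hπB hinv)
  rw [map_inv₀, map_inv₀] at h1
  have h2 : B.valuation (algebraMap K L x) ≤ 1 := (B.valuation_le_one_iff _).mpr h
  have h3 : B.valuation (algebraMap K L x) ≠ 0 := by
    rw [Ne, map_eq_zero, map_eq_zero]
    exact hx0
  have h4 : 1 ≤ (B.valuation (algebraMap K L x))⁻¹ := (one_le_inv₀ (zero_lt_iff.mpr h3)).mpr h2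
  exact absurd h1 (not_lt.mpr h4)

theorem u784_algebraMap_mem_nonunits_iff (x : K) :
    algebraMap K L x ∈ B.nonunits ↔ x ∈ A.nonunits := by
  refine ⟨fun h => ?_, u784_algebraMap_mem_nonunits hA hB π hπA hπB⟩
  have hB1 : B.valuation (algebraMap K L x) < 1 := B.mem_nonunits_iff.mp h
  have hxA : x ∈ A := (u784_algebraMap_mem_iff hA hB π hπA hπB x).mp
    ((B.valuation_le_one_iff _).mp hB1.le)
  rw [A.mem_nonunits_iff]
  rcases (A.valuation_lt_one_or_eq_one ⟨x, hxA⟩) with h1 | h1
  · exact h1
  · exact absurd (u784_valuation_algebraMap_unit hA hB x h1) hB1.ne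

end Compare

section Unique

theorem u784_le_of_isLocalRingOfIntegers {K : Type} [Field K] (A A' : ValuationSubring K)
    (hA : IsLocalRingOfIntegers A) (hA' : IsLocalRingOfIntegers A') : A ≤ A' := by
  intro x hx
  rw [← A'.valuation_le_one_iff]
  rcases A.valuation_lt_one_or_eq_one ⟨x, hx⟩ with h1 | h1
  · have h2 : A.valuation (1 + x) = 1 := Valuation.map_one_add_of_lt (v := A.valuation) h1
    have h3 := u784_valuation_algebraMap_unit (L := K) hA hA' (1 + x) h2
    rw [Algebra.algebraMap_self, RingHom.id_apply] at h3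
    have h4 : x = (1 + x) - 1 := by ring
    rw [h4]
    refine (Valuation.map_sub _ _ _).trans ?_
    simp [h3]
  · have h3 := u784_valuation_algebraMap_unit (L := K) hA hA' x h1
    rw [Algebra.algebraMap_self, RingHom.id_apply] at h3
    exact h3.le

/-- **L-A0** (by-product): the ring of integers of a local field is unique. -/
theorem u784_ringOfIntegersUnique : RingOfIntegersUniqueSpec := by
  intro K _ _ A A' hA hA'
  exact le_antisymm (u784_le_of_isLocalRingOfIntegers A A' hA hA')
    (u784_le_of_isLocalRingOfIntegers A' A hA' hA)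

end Unique

end Fermat.Agent.S55.L

end
-- ===== PACK-END S55/L/Unram784/Basic.lean

-- ===== PACK-BEGIN S55/L/UnrInv/Inputs.lean
section


/-!
# S55, layer L, unramified invariants (`UnrInvSpec`): number-theoretic INPUT INTERFACE

Architect / owner of the glue: helper54.  The glue `unrInv_of … : Inv481.UnrInvSpec` (file
`UnrInv/Main.lean`) takes the frozen specs `RingOfIntegersUniqueSpec`, `FiniteExtSpec`,
`UnramifiedCyclicSpec`, `H2CyclicSpec` and the three statements below.  All three are standard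
facts about complete discretely valued fields with finite residue field.

* `IntegersComapSpec` (**UI-INT**): for a finite extension `L/K` of local fields with rings of
  integers `B`, `A`: `B ∩ K = A`.
* `UnramifiedInertiaSpec` (**UI-INERTIA**): in an unramified extension the inertia group is
  trivial: an automorphism inducing the identity on the residue field is the identity.
* `ResidueDegreeSpec` (**UI-EF**): `e f = n` for a finite extension `K'/K` of local fields, where
  `π = unit * π' ^ e` and `|k'| = |k| ^ f`.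
-/

set_option autoImplicit false

namespace Fermat.Agent.S55.L.UnrInv

/-- **UI-INT** `B ∩ K = A` for a finite extension of local fields. -/
def IntegersComapSpec : Prop :=
  ∀ (K L : Type) [Field K] [Field L] [Algebra K L] [FiniteDimensional K L] [IsLocalFld K]
    (A : ValuationSubring K) (B : ValuationSubring L),
    IsLocalRingOfIntegers A → IsLocalRingOfIntegers B →
      ∀ x : K, algebraMap K L x ∈ B ↔ x ∈ A

/-- **UI-INERTIA** the inertia group of an unramified extension is trivial. -/
def UnramifiedInertiaSpec : Prop :=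
  ∀ (K E : Type) [Field K] [Field E] [Algebra K E] [FiniteDimensional K E] [IsLocalFld K],
    IsUnramifiedExt K E → ∀ B : ValuationSubring E, IsLocalRingOfIntegers B →
      ∀ g : E ≃ₐ[K] E, (∀ x ∈ B, g x - x ∈ B.nonunits) → g = 1

/-- **UI-EF** ramification index and residue degree of a finite extension of local fields:
`π = u π'^e` with `u` a unit, `|k'| = |k|^f`, and `e f = [K' : K]`. -/
def ResidueDegreeSpec : Prop :=
  ∀ (K K' : Type) [Field K] [Field K'] [Algebra K K'] [FiniteDimensional K K'] [IsLocalFld K]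
    (A : ValuationSubring K) (A' : ValuationSubring K') (π : K) (π' : K'),
    IsLocalRingOfIntegers A → IsLocalRingOfIntegers A' →
    IsUniformizer A π → IsUniformizer A' π' →
    ∃ e f : ℕ, e * f = Module.finrank K K' ∧
      (∃ u : K', u ∈ A' ∧ u⁻¹ ∈ A' ∧ algebraMap K K' π = u * π' ^ e) ∧
      Nat.card (IsLocalRing.ResidueField A') = Nat.card (IsLocalRing.ResidueField A) ^ f

end Fermat.Agent.S55.L.UnrInv

end
-- ===== PACK-END S55/L/UnrInv/Inputs.lean

-- ===== PACK-BEGIN S55/G/Rec/H541/Tame.lean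
section



/-!
# S55 / layer G / block REC — leaf `REC-Ltame` (helper541), part 2: fields

Skew-symmetry of the Kummer symbol on cocycles, and the tame symbol formula, in the vocabulary
of the layer-L interface (`Fermat.Agent.S55.L`: `unitsRep`, `cls`, `IsCyclicCocycle`,
`IsInflation`, `InvFamily`).
-/

set_option autoImplicit false

namespace Fermat.Agent.S55.G.Rec.H541

open groupCohomology Fermat.Agent.S55.L

section Inflation

variable {K L L' : Type} [Field K] [Field L] [Field L'] [Algebra K L] [Algebra K L']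
  [Algebra L L'] [IsScalarTower K L L'] [Normal K L]

/-- The additive map `Lˣ → L'ˣ` (on `Additive`), typed on the carriers of `unitsRep`. -/
noncomputable def unitsIncl (K L L' : Type) [Field K] [Field L] [Field L'] [Algebra K L]
    [Algebra K L'] [Algebra L L'] : (unitsRep K L : Type) →+ (unitsRep K L' : Type) :=
  (Rep.toAdditive (M := L' ≃ₐ[K] L') (G := L'ˣ)).symm.toAddMonoidHom.comp
    ((MonoidHom.toAdditive (Units.map (algebraMap L L' : L →* L'))).comp
      (Rep.toAdditive (M := L ≃ₐ[K] L) (G := Lˣ)).toAddMonoidHom)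

omit [IsScalarTower K L L'] [Normal K L] in
theorem unitsIncl_apply (y : unitsRep K L) :
    unitsIncl K L L' y =
      Additive.ofMul (Units.map (algebraMap L L' : L →* L') (Additive.toMul y)) :=
  rfl

theorem unitsIncl_rho (g : L' ≃ₐ[K] L') (y : unitsRep K L) :
    (unitsRep K L').ρ g (unitsIncl K L L' y) =
      unitsIncl K L L' ((unitsRep K L).ρ (AlgEquiv.restrictNormalHom L g) y) := by
  apply Additive.toMul.injective
  apply Units.ext
  exact (AlgEquiv.restrictNormal_commutes g L _).symm

/-- Inflation of a 2-cocycle along `K ⊆ L ⊆ L'`. -/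
noncomputable def inflCocycle (f : cocycles₂ (unitsRep K L)) : cocycles₂ (unitsRep K L') :=
  ⟨fun p => unitsIncl K L L'
      ((f : (L ≃ₐ[K] L) × (L ≃ₐ[K] L) → unitsRep K L)
        (AlgEquiv.restrictNormalHom L p.1, AlgEquiv.restrictNormalHom L p.2)), by
    rw [mem_cocycles₂_iff]
    intro g h j
    have hf := (mem_cocycles₂_iff (f : (L ≃ₐ[K] L) × (L ≃ₐ[K] L) → unitsRep K L)).1 f.2
      (AlgEquiv.restrictNormalHom L g) (AlgEquiv.restrictNormalHom L h)
      (AlgEquiv.restrictNormalHom L j)
    have h2 := congrArg (unitsIncl K L L') hf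
    rw [map_add, map_add, ← unitsIncl_rho] at h2
    simpa only [map_mul] using h2⟩

theorem inflCocycle_apply (f : cocycles₂ (unitsRep K L)) (g h : L' ≃ₐ[K] L') :
    (inflCocycle (L' := L') f : (L' ≃ₐ[K] L') × (L' ≃ₐ[K] L') → unitsRep K L') (g, h) =
      unitsIncl K L L' ((f : (L ≃ₐ[K] L) × (L ≃ₐ[K] L) → unitsRep K L)
        (AlgEquiv.restrictNormalHom L g, AlgEquiv.restrictNormalHom L h)) :=
  rfl

theorem isInflation_inflCocycle (f : cocycles₂ (unitsRep K L)) :
    IsInflation f (inflCocycle (L' := L') f) :=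
  fun _ _ => rfl

end Inflation


section ToRep

variable (K : Type) {M : Type} [Field K] [Field M] [Algebra K M]

/-- A unit of `M`, as an element of the carrier of `unitsRep K M`. -/
noncomputable def toRep (u : Mˣ) : (unitsRep K M : Type) :=
  (Rep.toAdditive (M := M ≃ₐ[K] M) (G := Mˣ)).symm (Additive.ofMul u)

theorem toRep_one : toRep K (1 : Mˣ) = 0 := rfl

theorem toRep_mul (u v : Mˣ) : toRep K (u * v) = toRep K u + toRep K v := rfl

theorem toRep_pow (u : Mˣ) (k : ℕ) : toRep K (u ^ k) = k • toRep K u := rfl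

theorem toRep_injective : Function.Injective (toRep K : Mˣ → (unitsRep K M : Type)) :=
  fun _ _ h => h

theorem rho_toRep (g : M ≃ₐ[K] M) (u : Mˣ) :
    (unitsRep K M).ρ g (toRep K u) = toRep K (Units.map (g : M →* M) u) := rfl

theorem unitsIncl_toRep {L : Type} [Field L] [Algebra K L] [Algebra L M] (u : Lˣ) :
    unitsIncl K L M (toRep K u) = toRep K (Units.map (algebraMap L M : L →* M) u) := rfl

end ToRep


section Cyclic

variable {K L : Type} [Field K] [Field L] [Algebra K L] [FiniteDimensional K L] [IsGalois K L]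

theorem orderOf_eq_finrank (σ : L ≃ₐ[K] L) (hσ : ∀ g, g ∈ Subgroup.zpowers σ) :
    orderOf σ = Module.finrank K L := by
  rw [orderOf_eq_card_of_forall_mem_zpowers hσ, IsGalois.card_aut_eq_finrank]

/-- Pointwise description of a cyclic cocycle: `f (g, h) = carry (g, h) • a`. -/
theorem cyclicCocycle_apply (σ : L ≃ₐ[K] L) (hσ : ∀ g, g ∈ Subgroup.zpowers σ) (a : Kˣ)
    (f : cocycles₂ (unitsRep K L)) (hf : IsCyclicCocycle σ a f) (g h : L ≃ₐ[K] L) :
    (f : (L ≃ₐ[K] L) × (L ≃ₐ[K] L) → unitsRep K L) (g, h) =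
      ((cexp σ hσ g + cexp σ hσ h) / Module.finrank K L) •
        toRep K (Units.map (algebraMap K L : K →* L) a) := by
  have hd := orderOf_eq_finrank σ hσ
  have hg := cexp_lt σ hσ g
  have hh := cexp_lt σ hσ h
  rw [hd] at hg hh
  have key := hf (cexp σ hσ g) (cexp σ hσ h) hg hh
  rw [pow_cexp, pow_cexp] at key
  rw [key]
  split_ifs with hlt
  · rw [Nat.div_eq_of_lt hlt, zero_smul]
    rfl
  · have h1 : (cexp σ hσ g + cexp σ hσ h) / Module.finrank K L = 1 := by
      have hpos : 0 < Module.finrank K L := by omega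
      apply Nat.div_eq_of_lt_le
      · omega
      · omega
    rw [h1, one_smul]
    rfl

end Cyclic


section Main

theorem algEquiv_pow_apply_eq {K E : Type} [Field K] [Field E] [Algebra K E]
    (σ : E ≃ₐ[K] E) (ζ : K) (α : E) (s : ℕ)
    (hσα : σ α = algebraMap K E ζ ^ s * α) (k : ℕ) :
    (σ ^ k) α = algebraMap K E ζ ^ (s * k) * α := by
  induction k with
  | zero => simp
  | succ k ih =>
    rw [pow_succ, AlgEquiv.mul_apply, hσα, map_mul, map_pow, AlgEquiv.commutes, ih]
    ring

variable {K E E' M : Type} [Field K] [Field E] [Field E'] [Field M]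
  [Algebra K E] [Algebra K E'] [Algebra K M] [Algebra E M] [Algebra E' M]
  [IsScalarTower K E M] [IsScalarTower K E' M]
  [FiniteDimensional K E] [FiniteDimensional K E'] [IsGalois K E] [IsGalois K E']

omit [FiniteDimensional K E'] [IsGalois K E'] [Algebra K E'] [Algebra E' M]
  [IsScalarTower K E' M] in
/-- Galois action on the image in `M` of a Kummer generator `α ∈ E`. -/
theorem map_kummer_generator (ζ : Kˣ) (σ : E ≃ₐ[K] E) (hσ : ∀ g, g ∈ Subgroup.zpowers σ)
    (αu : Eˣ) (s : ℕ) (hσα : σ (αu : E) = algebraMap K E ζ ^ s * αu) (g : M ≃ₐ[K] M) :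
    (unitsRep K M).ρ g (toRep K (Units.map (algebraMap E M : E →* M) αu)) =
      toRep K (Units.map (algebraMap E M : E →* M) αu) +
        (s * cexp σ hσ (AlgEquiv.restrictNormalHom E g)) •
          toRep K (Units.map (algebraMap K M : K →* M) ζ) := by
  rw [rho_toRep, ← toRep_pow, ← toRep_mul]
  congr 1
  apply Units.ext
  simp only [Units.coe_map, MonoidHom.coe_coe, Units.val_mul, Units.val_pow_eq_pow_val]
  have h1 : g (algebraMap E M (αu : E)) =
      algebraMap E M ((AlgEquiv.restrictNormalHom E g) (αu : E)) :=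
    (AlgEquiv.restrictNormal_commutes g E _).symm
  have h2 : (AlgEquiv.restrictNormalHom E g) (αu : E) =
      algebraMap K E ζ ^ (s * cexp σ hσ (AlgEquiv.restrictNormalHom E g)) * αu := by
    conv_lhs => rw [← pow_cexp σ hσ (AlgEquiv.restrictNormalHom E g)]
    exact algEquiv_pow_apply_eq σ ζ αu s hσα _
  calc g (algebraMap E M (αu : E)) = algebraMap E M ((AlgEquiv.restrictNormalHom E g) (αu : E)) := h1
    _ = algebraMap E M (αu : E) * algebraMap K M ζ ^ (s * cexp σ hσ (AlgEquiv.restrictNormalHom E g)) := by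
        rw [h2, map_mul, map_pow, ← IsScalarTower.algebraMap_apply, mul_comm]

omit [FiniteDimensional K E'] [IsGalois K E'] [Algebra K E'] [Algebra E' M]
  [IsScalarTower K E' M] in
/-- Pointwise description of the inflation of a cyclic cocycle. -/
theorem inflCocycle_cyclic_apply (σ : E ≃ₐ[K] E) (hσ : ∀ g, g ∈ Subgroup.zpowers σ) (b : Kˣ)
    (f : cocycles₂ (unitsRep K E)) (hf : IsCyclicCocycle σ b f) (g h : M ≃ₐ[K] M) :
    (inflCocycle (L' := M) f : (M ≃ₐ[K] M) × (M ≃ₐ[K] M) → unitsRep K M) (g, h) =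
      ((cexp σ hσ (AlgEquiv.restrictNormalHom E g) + cexp σ hσ (AlgEquiv.restrictNormalHom E h))
        / Module.finrank K E) • toRep K (Units.map (algebraMap K M : K →* M) b) := by
  rw [inflCocycle_apply, cyclicCocycle_apply σ hσ b f hf, map_nsmul, unitsIncl_toRep]
  congr 2
  apply Units.ext
  simp only [Units.coe_map, MonoidHom.coe_coe]
  exact (IsScalarTower.algebraMap_apply K E M _).symm

omit [FiniteDimensional K E'] [IsGalois K E'] [Algebra K E'] [Algebra E' M]
  [IsScalarTower K E' M] in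
theorem cexp_restrict_mul (σ : E ≃ₐ[K] E) (hσ : ∀ g, g ∈ Subgroup.zpowers σ)
    (g h : M ≃ₐ[K] M) :
    cexp σ hσ (AlgEquiv.restrictNormalHom E (g * h)) + Module.finrank K E *
      ((cexp σ hσ (AlgEquiv.restrictNormalHom E g) + cexp σ hσ (AlgEquiv.restrictNormalHom E h))
        / Module.finrank K E) =
      cexp σ hσ (AlgEquiv.restrictNormalHom E g) + cexp σ hσ (AlgEquiv.restrictNormalHom E h) := by
  rw [map_mul, cexp_mul, orderOf_eq_finrank σ hσ]
  exact Nat.mod_add_div _ _

/-- **Skew-symmetry of the Kummer symbol, on cocycles.**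
`K ⊆ E, E' ⊆ M`, `E/K` and `E'/K` cyclic with generators `σ`, `φ`; `α ∈ E`, `β ∈ E'` with
`αⁿ = a`, `βⁿ = b ∈ Kˣ`, `σ α = ζ^s α`, `φ β = ζ^t β` (`ζ ∈ K`, `ζⁿ = 1`),
`n m = s [E:K]`, `n m' = t [E':K]`.
Then `m • inf [σ, b] + m' • inf [φ, a] = 0` in `H²(Gal(M/K), Mˣ)`, where `[σ, b]` is the class of
the cyclic cocycle of `(σ, b)`. -/
theorem cls_kummer_skew (n s t m m' : ℕ) (hn : 0 < n) (ζ a b : Kˣ) (hζ : ζ ^ n = 1)
    (σ : E ≃ₐ[K] E) (hσ : ∀ g, g ∈ Subgroup.zpowers σ)
    (φ : E' ≃ₐ[K] E') (hφ : ∀ g, g ∈ Subgroup.zpowers φ)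
    (α : E) (β : E')
    (hα : α ^ n = algebraMap K E a) (hβ : β ^ n = algebraMap K E' b)
    (hσα : σ α = algebraMap K E ζ ^ s * α) (hφβ : φ β = algebraMap K E' ζ ^ t * β)
    (hm : n * m = s * Module.finrank K E) (hm' : n * m' = t * Module.finrank K E')
    (f : cocycles₂ (unitsRep K E)) (hf : IsCyclicCocycle σ b f)
    (f' : cocycles₂ (unitsRep K E')) (hf' : IsCyclicCocycle φ a f') :
    m • cls (inflCocycle (L' := M) f) + m' • cls (inflCocycle (L' := M) f') = 0 := by
  have hα0 : α ≠ 0 := by
    rintro rfl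
    rw [zero_pow hn.ne'] at hα
    exact a.ne_zero ((algebraMap K E).injective (by rw [← hα, map_zero]))
  have hβ0 : β ≠ 0 := by
    rintro rfl
    rw [zero_pow hn.ne'] at hβ
    exact b.ne_zero ((algebraMap K E').injective (by rw [← hβ, map_zero]))
  set αu : Eˣ := Units.mk0 α hα0 with hαu
  set βu : E'ˣ := Units.mk0 β hβ0 with hβu
  have key := kummer_sum_mem_coboundaries (unitsRep K M)
    (toRep K (Units.map (algebraMap K M : K →* M) ζ))
    (toRep K (Units.map (algebraMap E M : E →* M) αu))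
    (toRep K (Units.map (algebraMap E' M : E' →* M) βu))
    n (Module.finrank K E) (Module.finrank K E') s t m m'
    (fun g => cexp σ hσ (AlgEquiv.restrictNormalHom E g))
    (fun g => cexp φ hφ (AlgEquiv.restrictNormalHom E' g))
    (by rw [← toRep_pow, ← map_pow, hζ, map_one, toRep_one])
    (fun g => map_kummer_generator ζ σ hσ αu s hσα g)
    (fun g => map_kummer_generator ζ φ hφ βu t hφβ g)
    (fun g => by
      rw [rho_toRep]
      congr 1
      apply Units.ext
      simp only [Units.coe_map, MonoidHom.coe_coe, AlgEquiv.commutes])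
    (fun g h => cexp_restrict_mul σ hσ g h)
    (fun g h => cexp_restrict_mul φ hφ g h)
    hm hm'
    (⇑(m • inflCocycle (L' := M) f + m' • inflCocycle (L' := M) f'))
    (fun g h => by
      have e1 : n • toRep K (Units.map (algebraMap E' M : E' →* M) βu) =
          toRep K (Units.map (algebraMap K M : K →* M) b) := by
        rw [← toRep_pow]
        congr 1
        apply Units.ext
        simp only [Units.coe_map, MonoidHom.coe_coe, Units.val_pow_eq_pow_val, hβu,
          Units.val_mk0, ← map_pow, hβ]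
        exact (IsScalarTower.algebraMap_apply K E' M _).symm
      have e2 : n • toRep K (Units.map (algebraMap E M : E →* M) αu) =
          toRep K (Units.map (algebraMap K M : K →* M) a) := by
        rw [← toRep_pow]
        congr 1
        apply Units.ext
        simp only [Units.coe_map, MonoidHom.coe_coe, Units.val_pow_eq_pow_val, hαu,
          Units.val_mk0, ← map_pow, hα]
        exact (IsScalarTower.algebraMap_apply K E M _).symm
      rw [e1, e2, mul_smul, mul_smul,
        ← inflCocycle_cyclic_apply σ hσ b f hf g h, ← inflCocycle_cyclic_apply φ hφ a f' hf' g h]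
      rfl)
  have h0 := (H2π_eq_zero_iff (m • inflCocycle (L' := M) f + m' • inflCocycle (L' := M) f')).2 key
  rw [map_add, map_nsmul, map_nsmul] at h0
  exact h0

end Main


section Overfield

/-- Two finite Galois extensions of `K` have a common finite Galois overfield. -/
theorem exists_common_overfield (K E E' : Type) [Field K] [Field E] [Field E']
    [Algebra K E] [Algebra K E'] [FiniteDimensional K E] [FiniteDimensional K E']
    [IsGalois K E] [IsGalois K E'] :
    ∃ (M : Type) (_ : Field M) (_ : Algebra K M) (_ : Algebra E M) (_ : Algebra E' M),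
      IsScalarTower K E M ∧ IsScalarTower K E' M ∧ FiniteDimensional K M ∧ IsGalois K M := by
  let Ω := AlgebraicClosure K
  let ι : E →ₐ[K] Ω := IsAlgClosed.lift
  let ι' : E' →ₐ[K] Ω := IsAlgClosed.lift
  let F1 : IntermediateField K Ω := ι.fieldRange
  let F2 : IntermediateField K Ω := ι'.fieldRange
  let e1 : E ≃ₐ[K] F1 := AlgEquiv.ofInjectiveField ι
  let e2 : E' ≃ₐ[K] F2 := AlgEquiv.ofInjectiveField ι'
  have : FiniteDimensional K F1 := e1.toLinearEquiv.finiteDimensional
  have : FiniteDimensional K F2 := e2.toLinearEquiv.finiteDimensional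
  have : IsGalois K F1 := IsGalois.of_algEquiv e1
  have : IsGalois K F2 := IsGalois.of_algEquiv e2
  let j1 : E →ₐ[K] ↥(F1 ⊔ F2) := (IntermediateField.inclusion le_sup_left).comp e1.toAlgHom
  let j2 : E' →ₐ[K] ↥(F1 ⊔ F2) := (IntermediateField.inclusion le_sup_right).comp e2.toAlgHom
  refine ⟨↥(F1 ⊔ F2), inferInstance, inferInstance, j1.toRingHom.toAlgebra,
    j2.toRingHom.toAlgebra, ?_, ?_, inferInstance, ⟨⟩⟩
  · let _ : Algebra E ↥(F1 ⊔ F2) := j1.toRingHom.toAlgebra
    exact IsScalarTower.of_algebraMap_eq (fun x => (j1.commutes x).symm)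
  · let _ : Algebra E' ↥(F1 ⊔ F2) := j2.toRingHom.toAlgebra
    exact IsScalarTower.of_algebraMap_eq (fun x => (j2.commutes x).symm)

end Overfield

section Inv

variable {K E E' : Type} [Field K] [Field E] [Field E']
  [Algebra K E] [Algebra K E'] [FiniteDimensional K E] [FiniteDimensional K E']
  [IsGalois K E] [IsGalois K E'] [IsLocalFld K]

/-- **Skew-symmetry of the Kummer symbol** for a family of invariant maps (only compatibility
with inflation is used).  `E/K`, `E'/K` cyclic with generators `σ`, `φ`; `αⁿ = a`, `βⁿ = b`,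
`σ α = ζ^s α`, `φ β = ζ^t β`, `n m = s [E:K]`, `n m' = t [E':K]`:
`m • inv_{E/K} [σ, b] + m' • inv_{E'/K} [φ, a] = 0`. -/
theorem inv_kummer_skew (I : InvFamily) (n s t m m' : ℕ) (hn : 0 < n) (ζ a b : Kˣ)
    (hζ : ζ ^ n = 1)
    (σ : E ≃ₐ[K] E) (hσ : ∀ g, g ∈ Subgroup.zpowers σ)
    (φ : E' ≃ₐ[K] E') (hφ : ∀ g, g ∈ Subgroup.zpowers φ)
    (α : E) (β : E')
    (hα : α ^ n = algebraMap K E a) (hβ : β ^ n = algebraMap K E' b)
    (hσα : σ α = algebraMap K E ζ ^ s * α) (hφβ : φ β = algebraMap K E' ζ ^ t * β)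
    (hm : n * m = s * Module.finrank K E) (hm' : n * m' = t * Module.finrank K E')
    (f : cocycles₂ (unitsRep K E)) (hf : IsCyclicCocycle σ b f)
    (f' : cocycles₂ (unitsRep K E')) (hf' : IsCyclicCocycle φ a f') :
    m • I.inv K E (cls f) + m' • I.inv K E' (cls f') = 0 := by
  obtain ⟨M, hM1, hM2, hM3, hM4, h1, h2, h3, h4⟩ := exists_common_overfield K E E'
  have key := cls_kummer_skew (M := M) n s t m m' hn ζ a b hζ σ hσ φ hφ α β hα hβ hσα hφβ
    hm hm' f hf f' hf'
  have key2 := congrArg (I.inv K M) key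
  rw [map_add, map_nsmul, map_nsmul, map_zero,
    I.inv_inflation K E M f _ (isInflation_inflCocycle f),
    I.inv_inflation K E' M f' _ (isInflation_inflCocycle f')] at key2
  exact key2

end Inv


section CyclicCocycle

variable {K L : Type} [Field K] [Field L] [Algebra K L] [FiniteDimensional K L] [IsGalois K L]

theorem carry_assoc (a b c d : ℕ) :
    ((a + b) % d + c) / d + (a + b) / d = (b + c) / d + (a + (b + c) % d) / d := by
  rcases Nat.eq_zero_or_pos d with rfl | hd
  · simp
  have h1 : ((a + b) % d + c) / d + (a + b) / d = (a + b + c) / d := by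
    conv_rhs => rw [← Nat.mod_add_div (a + b) d]
    rw [show (a + b) % d + d * ((a + b) / d) + c = ((a + b) % d + c) + d * ((a + b) / d) by ring,
      Nat.add_mul_div_left _ _ hd]
  have h2 : (b + c) / d + (a + (b + c) % d) / d = (a + b + c) / d := by
    conv_rhs => rw [add_assoc, ← Nat.mod_add_div (b + c) d]
    rw [show a + ((b + c) % d + d * ((b + c) / d)) = (a + (b + c) % d) + d * ((b + c) / d) by
      ring, Nat.add_mul_div_left _ _ hd, add_comm]
  rw [h1, h2]

/-- The cyclic cocycle of `(σ, a)`: `(g, h) ↦ carry (g, h) • a`, for a generator `σ` of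
`Gal(L/K)` and `a ∈ Kˣ`. -/
noncomputable def cyclicCocycle (σ : L ≃ₐ[K] L) (hσ : ∀ g, g ∈ Subgroup.zpowers σ) (a : Kˣ) :
    cocycles₂ (unitsRep K L) :=
  ⟨fun p => ((cexp σ hσ p.1 + cexp σ hσ p.2) / Module.finrank K L) •
      toRep K (Units.map (algebraMap K L : K →* L) a), by
    rw [mem_cocycles₂_iff]
    intro g h j
    have hfix : (unitsRep K L).ρ g (toRep K (Units.map (algebraMap K L : K →* L) a)) =
        toRep K (Units.map (algebraMap K L : K →* L) a) := by
      rw [rho_toRep]
      congr 1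
      apply Units.ext
      simp only [Units.coe_map, MonoidHom.coe_coe, AlgEquiv.commutes]
    simp only [map_nsmul, hfix, ← add_smul, cexp_mul, orderOf_eq_finrank σ hσ]
    rw [carry_assoc]⟩

theorem cyclicCocycle_apply' (σ : L ≃ₐ[K] L) (hσ : ∀ g, g ∈ Subgroup.zpowers σ) (a : Kˣ)
    (g h : L ≃ₐ[K] L) :
    (cyclicCocycle σ hσ a : (L ≃ₐ[K] L) × (L ≃ₐ[K] L) → unitsRep K L) (g, h) =
      ((cexp σ hσ g + cexp σ hσ h) / Module.finrank K L) •
        toRep K (Units.map (algebraMap K L : K →* L) a) :=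
  rfl

theorem isCyclicCocycle_cyclicCocycle (σ : L ≃ₐ[K] L) (hσ : ∀ g, g ∈ Subgroup.zpowers σ)
    (a : Kˣ) : IsCyclicCocycle σ a (cyclicCocycle σ hσ a) := by
  intro i j hi hj
  have hd := orderOf_eq_finrank σ hσ
  rw [cyclicCocycle_apply', cexp_pow σ hσ i (hd ▸ hi), cexp_pow σ hσ j (hd ▸ hj)]
  split_ifs with hlt
  · rw [Nat.div_eq_of_lt hlt, zero_smul]
    rfl
  · have h1 : (i + j) / Module.finrank K L = 1 := by
      apply Nat.div_eq_of_lt_le
      · omega
      · omega
    rw [h1, one_smul]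
    rfl

/-- A cocycle satisfying `IsCyclicCocycle σ a` is the standard one. -/
theorem eq_cyclicCocycle (σ : L ≃ₐ[K] L) (hσ : ∀ g, g ∈ Subgroup.zpowers σ) (a : Kˣ)
    (f : cocycles₂ (unitsRep K L)) (hf : IsCyclicCocycle σ a f) : f = cyclicCocycle σ hσ a := by
  apply cocycles₂_ext
  intro g h
  rw [cyclicCocycle_apply σ hσ a f hf, cyclicCocycle_apply']

end CyclicCocycle

section TameSymbol

variable {K E E' : Type} [Field K] [Field E] [Field E']
  [Algebra K E] [Algebra K E'] [FiniteDimensional K E] [FiniteDimensional K E']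
  [IsGalois K E] [IsGalois K E'] [IsLocalFld K]

/-- **Tame symbol formula.**  `K` local, `π` a uniformizer, `E/K` cyclic of degree `n` with
generator `σ`, `α ∈ E`, `αⁿ = π`, `σ α = ζ α`; `E'/K` unramified with Frobenius `φ` (a generator),
`β ∈ E'` with `βⁿ = u`, `φ β = ζ^t β`.  Then the cyclic class `[σ, u] ∈ H²(Gal(E/K), Eˣ)` has
invariant `- t / n`. -/
theorem inv_tame (I : InvFamily) (n t m' : ℕ) (hn : 0 < n) (ζ : Kˣ) (hζ : ζ ^ n = 1)
    (σ : E ≃ₐ[K] E) (hσ : ∀ g, g ∈ Subgroup.zpowers σ) (hE : Module.finrank K E = n)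
    (A : ValuationSubring K) (hA : IsLocalRingOfIntegers A) (π : Kˣ)
    (hπ : _root_.Fermat.Agent.S55.L.IsUniformizer A (π : K))
    (hE' : IsUnramifiedExt K E') (φ : E' ≃ₐ[K] E') (hφ : IsFrobeniusElt K E' φ)
    (hφgen : ∀ g, g ∈ Subgroup.zpowers φ)
    (α : E) (hα : α ^ n = algebraMap K E π) (hσα : σ α = algebraMap K E ζ * α)
    (u : Kˣ) (β : E') (hβ : β ^ n = algebraMap K E' u)
    (hφβ : φ β = algebraMap K E' ζ ^ t * β)
    (hm' : n * m' = t * Module.finrank K E')
    (f : cocycles₂ (unitsRep K E)) (hf : IsCyclicCocycle σ u f) :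
    I.inv K E (cls f) = -((((t : ℚ) / (n : ℚ) : ℚ)) : AddCircle (1 : ℚ)) := by
  have key := inv_kummer_skew I n 1 t 1 m' hn ζ π u hζ σ hσ φ hφgen α β hα hβ
    (by rw [pow_one]; exact hσα) hφβ (by rw [hE, one_mul, mul_one]) hm' f hf
    (cyclicCocycle φ hφgen π) (isCyclicCocycle_cyclicCocycle φ hφgen π)
  rw [one_smul, I.inv_unramified K E' hE' A hA φ hφ π hπ _
    (isCyclicCocycle_cyclicCocycle φ hφgen π)] at key
  rw [eq_neg_iff_add_eq_zero, ← key]
  congr 1
  rw [← AddCircle.coe_nsmul]
  congr 1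
  have hd' : (0 : ℚ) < Module.finrank K E' := by
    exact_mod_cast Module.finrank_pos
  have hn' : (0 : ℚ) < n := by exact_mod_cast hn
  have hq : (n : ℚ) * m' = t * Module.finrank K E' := by exact_mod_cast hm'
  rw [nsmul_eq_mul]
  field_simp
  linarith

end TameSymbol

end Fermat.Agent.S55.G.Rec.H541

end
-- ===== PACK-END S55/G/Rec/H541/Tame.lean

-- ===== PACK-BEGIN S55/E1/H594/LevelUnits.lean
section
/-
S55 / engine E1 / G-ADAPTER leaf LVL (helper594), part 3.

The tower module `Tow.Level.units L` (= the `U_F`-invariants of `ℚ̄ˣ`, frozen `Spec/Tower.lean`)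
is the layer-G module `G.LRep L.Gal L.F` (= `Fˣ`, `G/Defs.lean`):
`levelUnitsIso : G.LRep L.Gal L.F ≅ Tow.Level.units L` in `Rep ℤ L.Gal`.
No `sorry`.
-/



set_option autoImplicit false
set_option linter.unusedSectionVars false
set_option linter.style.haveILetI false

namespace Fermat.Agent.S55.E1.H594

open Fermat.Agent.S55 Fermat.Agent.S55.Tow Fermat.Agent.S55.Bridge NumberField

attribute [local instance] isAlgebraic_Qbar isGalois_Qbar

noncomputable section

variable {S : Finset Nat.Primes} (L : Level S)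

/-- An element of `ℚ̄` fixed by `U_F` lies in `F`. -/
theorem mem_level_of_fixed (x : Qbar) (hx : ∀ s ∈ L.U, s x = x) : x ∈ L.F := by
  have h := InfiniteGalois.fixedField_fixingSubgroup L.F
  rw [← h]
  intro s
  exact hx s.1 s.2

/-- An element of `F` is fixed by `U_F`. -/
theorem fixed_of_mem_level (x : Qbar) (hx : x ∈ L.F) (s : _root_.Fermat.Agent.S55.Tow.GQ) (hs : s ∈ L.U) : s x = x :=
  (IntermediateField.mem_fixingSubgroup_iff L.F s).1 hs x hx

/-- The `ℤ`-module of `U_F`-invariants of `ℚ̄ˣ` (the carrier of `Level.units L`). -/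
abbrev levelInv : Submodule ℤ (Additive Qbarˣ) :=
  Representation.invariants (unitsQbar.ρ.comp L.U.subtype)

theorem mem_levelInv_iff (u : Additive Qbarˣ) :
    u ∈ levelInv L ↔ ∀ s ∈ L.U, s ((u.toMul : Qbarˣ) : Qbar) = ((u.toMul : Qbarˣ) : Qbar) := by
  constructor
  · intro h s hs
    have := h ⟨s, hs⟩
    exact congrArg (fun v : Additive Qbarˣ => ((v.toMul : Qbarˣ) : Qbar)) this
  · intro h s
    apply Additive.toMul.injective
    apply Units.ext
    exact h s.1 s.2

/-- The element of `ℚ̄` underlying an invariant unit. -/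
def levelInvVal (u : levelInv L) : Qbar :=
  ((Additive.toMul (α := Qbarˣ) (u.1 : Additive Qbarˣ) : Qbarˣ) : Qbar)

theorem levelInvVal_injective : Function.Injective (levelInvVal L) := by
  intro u v h
  apply Subtype.ext
  apply Additive.toMul.injective
  apply Units.ext
  exact h

theorem levelInvVal_mem (u : levelInv L) : levelInvVal L u ∈ L.F :=
  mem_level_of_fixed L _ ((mem_levelInv_iff L u.1).1 u.2)

/-- The inclusion `Fˣ → (ℚ̄ˣ)^{U_F}`. -/
def levelUnitsFwd : Additive (L.F)ˣ →+ levelInv L where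
  toFun u := ⟨Additive.ofMul (Units.map ((algebraMap L.F Qbar : L.F →+* Qbar) : L.F →* Qbar)
      u.toMul), by
    rw [mem_levelInv_iff]
    intro s hs
    exact fixed_of_mem_level L _ (u.toMul : (L.F)ˣ).1.2 s hs⟩
  map_zero' := by
    apply Subtype.ext
    apply Additive.toMul.injective
    apply Units.ext
    simp
  map_add' u v := by
    apply Subtype.ext
    apply Additive.toMul.injective
    apply Units.ext
    simp

theorem coe_levelUnitsFwd (u : Additive (L.F)ˣ) :
    levelInvVal L (levelUnitsFwd L u) = (((u.toMul : (L.F)ˣ) : L.F) : Qbar) := rfl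

theorem levelUnitsFwd_injective : Function.Injective (levelUnitsFwd L) := by
  intro u v h
  apply Additive.toMul.injective
  apply Units.ext
  apply Subtype.ext
  have := congrArg (fun w : levelInv L => (((w.1).toMul : Qbarˣ) : Qbar)) h
  exact this

theorem levelUnitsFwd_surjective : Function.Surjective (levelUnitsFwd L) := by
  rintro ⟨u, hu⟩
  rw [mem_levelInv_iff] at hu
  have h1 : ((u.toMul : Qbarˣ) : Qbar) ∈ L.F := mem_level_of_fixed L _ hu
  have h0 : (⟨((u.toMul : Qbarˣ) : Qbar), h1⟩ : L.F) ≠ 0 := by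
    intro h
    have := congrArg (fun y : L.F => (y : Qbar)) h
    exact (u.toMul : Qbarˣ).ne_zero this
  refine ⟨Additive.ofMul (Units.mk0 ⟨((u.toMul : Qbarˣ) : Qbar), h1⟩ h0), ?_⟩
  apply Subtype.ext
  apply Additive.toMul.injective
  apply Units.ext
  rfl

/-- `Fˣ ≃ (ℚ̄ˣ)^{U_F}` as `ℤ`-modules. -/
def levelUnitsLinearEquiv : Additive (L.F)ˣ ≃ₗ[ℤ] levelInv L :=
  (AddEquiv.ofBijective (levelUnitsFwd L)
    ⟨levelUnitsFwd_injective L, levelUnitsFwd_surjective L⟩).toIntLinearEquiv

theorem levelUnitsLinearEquiv_apply (u : Additive (L.F)ˣ) :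
    levelUnitsLinearEquiv L u = levelUnitsFwd L u := rfl

/-- The action of `mk σ` on the invariants is the action of `σ`. -/
theorem coe_quotientToInvariants_mk (σ : _root_.Fermat.Agent.S55.Tow.GQ) (u : levelInv L) :
    levelInvVal L ((unitsQbar.ρ.quotientToInvariants L.U) (QuotientGroup.mk σ : L.Gal) u) =
      σ (levelInvVal L u) := rfl

/-- Equivariance of `Fˣ → (ℚ̄ˣ)^{U_F}`. -/
theorem levelUnitsFwd_equivariant (g : L.Gal) (u : Additive (L.F)ˣ) :
    levelUnitsFwd L (G.lRepr L.Gal L.F g u) =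
      (unitsQbar.ρ.quotientToInvariants L.U) g (levelUnitsFwd L u) := by
  induction g using QuotientGroup.induction_on with
  | H σ =>
    apply levelInvVal_injective
    rw [coe_quotientToInvariants_mk, coe_levelUnitsFwd, coe_levelUnitsFwd, G.coe_lRepr_apply]
    exact level_mk_smul L σ _

/-- `Fˣ ≃ (ℚ̄ˣ)^{U_F}` as representations of `L.Gal`. -/
def levelUnitsEquiv :
    (G.lRepr L.Gal L.F).Equiv (unitsQbar.ρ.quotientToInvariants L.U) :=
  Representation.Equiv.mk (levelUnitsLinearEquiv L) (fun g =>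
    LinearMap.ext fun u => levelUnitsFwd_equivariant L g u)

/-- **LVL (4)**: the tower module `Level.units L` is the layer-G module `Fˣ`. -/
def levelUnitsIso : G.LRep L.Gal L.F ≅ Level.units L :=
  Rep.mkIso (levelUnitsEquiv L)

theorem levelUnitsIso_hom_apply (u : Additive (L.F)ˣ) :
    (levelUnitsIso L).hom.hom u = levelUnitsFwd L u := rfl

theorem coe_levelUnitsIso_hom_apply (u : Additive (L.F)ˣ) :
    levelInvVal L ((levelUnitsIso L).hom.hom u) = (((u.toMul : (L.F)ˣ) : L.F) : Qbar) := rfl

end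

end Fermat.Agent.S55.E1.H594

end
-- ===== PACK-END S55/E1/H594/LevelUnits.lean

-- ===== PACK-BEGIN S55/G/CM/H514/SubCMCore.lean
section


/-!
# S55 / layer G / block CM, leaf SUBCM (helper514): class modules at `p` restrict to subgroups

Pure algebra (Mathlib + `T/Spec` + `E1/Defs`).  For `Γ' ≤ Γ` and `H ≤ Γ'` let `H' ≤ Γ` be the
image of `H`.  Then `Hⁿ(H, (C|Γ')|H) ≅ Hⁿ(H', C|H')` (`subIso`, Mathlib `groupCohomology.mapIso`
along `H ≃* H'`), compatibly with the restriction maps from `Hⁿ(Γ, C)` (`subIso_inv_res`).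
Hence `E1.IsClassModuleAt p C γ → E1.IsClassModuleAt p (C|Γ') (res γ)` (`subClassModule`).
-/

set_option autoImplicit false

open CategoryTheory groupCohomology

noncomputable section

namespace Fermat.Agent.S55.G.CM.H514

open Fermat.Agent.S55

section Generic

variable {k Γ : Type} [CommRing k] [Group Γ] (C : Rep.{0} k Γ) (Γ' : Subgroup Γ)
  (H : Subgroup Γ')

/-- `H ≃* H'`, `H'` the image of `H ≤ Γ'` in `Γ`. -/
def subEquiv : H ≃* H.map Γ'.subtype :=
  H.equivMapOfInjective Γ'.subtype Γ'.subtype_injective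

@[simp] theorem coe_subEquiv (g : H) : ((subEquiv Γ' H g : H.map Γ'.subtype) : Γ) = ((g : Γ') : Γ) :=
  rfl

/-- `Hⁿ(H, (C|Γ')|H) ≅ Hⁿ(H', C|H')`. -/
def subIso (n : ℕ) :
    groupCohomology (T.resSub (T.resSub C Γ') H) n ≅
      groupCohomology (T.resSub C (H.map Γ'.subtype)) n :=
  groupCohomology.mapIso (A := T.resSub C (H.map Γ'.subtype))
    (B := T.resSub (T.resSub C Γ') H) (subEquiv Γ' H) (LinearEquiv.refl k C.V)
    (fun _ => rfl) n

/-- `subIso` is compatible with the restrictions from `Γ`. -/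
theorem resMap_comp_subIso_inv (n : ℕ) :
    T.resMap C (H.map Γ'.subtype) n ≫ (subIso C Γ' H n).inv =
      T.resMap C Γ' n ≫ T.resMap (T.resSub C Γ') H n := by
  change groupCohomology.map _ _ n ≫ groupCohomology.map _ _ n =
    groupCohomology.map _ _ n ≫ groupCohomology.map _ _ n
  rw [← groupCohomology.map_comp, ← groupCohomology.map_comp]
  exact groupCohomology.map_congr (by ext g; rfl) rfl n

theorem subIso_inv_res (n : ℕ) (γ : groupCohomology C n) :
    (subIso C Γ' H n).inv.hom ((T.resMap C (H.map Γ'.subtype) n).hom γ) =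
      (T.resMap (T.resSub C Γ') H n).hom ((T.resMap C Γ' n).hom γ) := by
  have h := congrArg (fun f => f.hom γ) (resMap_comp_subIso_inv C Γ' H n)
  simpa using h

end Generic

variable {Γ : Type} [Group Γ] (C : Rep.{0} ℤ Γ)

/-- **SUBCM**: a class module at `p` restricts to a class module at `p` on every subgroup. -/
theorem subClassModule (p : ℕ) [Finite Γ] (γ : groupCohomology C 2)
    (h : E1.IsClassModuleAt p C γ) (Γ' : Subgroup Γ) :
    E1.IsClassModuleAt p (T.resSub C Γ') ((T.resMap C Γ' 2).hom γ) := by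
  intro H hH
  have hH' : IsPGroup p (H.map Γ'.subtype) := hH.map Γ'.subtype
  obtain ⟨h1, h2, h3⟩ := h (H.map Γ'.subtype) hH'
  refine ⟨?_, ?_, ?_⟩
  · exact Limits.IsZero.of_iso h1 (subIso C Γ' H 1)
  · rw [Nat.card_congr (subIso C Γ' H 2).toLinearEquiv.toEquiv, h2]
    exact Nat.card_congr (subEquiv Γ' H).symm.toEquiv
  · intro x
    obtain ⟨n, hn⟩ := h3 ((subIso C Γ' H 2).hom.hom x)
    refine ⟨n, ?_⟩
    have h4 := congrArg (subIso C Γ' H 2).inv.hom hn
    rw [map_nsmul, subIso_inv_res] at h4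
    rw [← h4]
    exact ((subIso C Γ' H 2).toLinearEquiv.symm_apply_apply x).symm

end Fermat.Agent.S55.G.CM.H514

end
end
-- ===== PACK-END S55/G/CM/H514/SubCMCore.lean

-- ===== PACK-BEGIN S55/G/SIndH237/H95/Graded.lean
section
/-
S55 / layer G / G-SIND:UCT (helper95).  Part 4 (Mathlib only).

The graded step of the successive approximation for `2`-cocycles with values in the units of a
ring `R` containing an element `b` of trace `1`: a `2`-cocycle `≡ 1 mod Iʲ` (`j ≥ 1`) is
cohomologous, through a cochain `≡ 1 mod Iʲ`, to a `2`-cocycle `≡ 1 mod Iʲ⁺¹`.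
-/


set_option autoImplicit false
set_option linter.unusedSectionVars false
set_option linter.style.haveILetI false

namespace Fermat.Agent.S55.G.SIndH237.H95

open groupCohomology

attribute [local instance] unitsAct

section Graded

variable {R : Type*} [CommRing R] {H : Type*} [Group H] [Fintype H] [MulSemiringAction H R]
  (I : Ideal R)

lemma mul_mem_pow_succ {j : ℕ} (hj : 1 ≤ j) {a b : R} (ha : a ∈ I ^ j) (hb : b ∈ I ^ j) :
    a * b ∈ I ^ (j + 1) := by
  have h1 : a * b ∈ I ^ j * I ^ j := Ideal.mul_mem_mul ha hb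
  rw [← pow_add] at h1
  exact Ideal.pow_le_pow_right (by omega) h1

/-- The homotopy operator attached to an element `b` (of trace `1`). -/
def homotopy (b : R) (α : H × H → R) (g : H) : R := ∑ k : H, (g * k) • b * α (g, k)

lemma homotopy_mem (b : R) (α : H × H → R) (J : Ideal R) (hα : ∀ p, α p ∈ J) (g : H) :
    homotopy b α g ∈ J :=
  J.sum_mem fun _ _ => J.mul_mem_left _ (hα _)

/-- The additive homotopy formula, with an error term controlled by the cocycle defect. -/
lemma homotopy_formula (b : R) (hb : ∑ h : H, h • b = 1) (α : H × H → R) (g h : H) :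
    g • homotopy b α h - homotopy b α (g * h) + homotopy b α g - α (g, h) =
      ∑ k : H, (g * h * k) • b *
        (g • α (h, k) - α (g * h, k) + α (g, h * k) - α (g, h)) := by
  have h1 : g • homotopy b α h = ∑ k : H, (g * h * k) • b * g • α (h, k) := by
    rw [homotopy, Finset.smul_sum]
    refine Finset.sum_congr rfl fun k _ => ?_
    rw [smul_mul', ← mul_smul, mul_assoc]
  have h2 : homotopy b α g = ∑ k : H, (g * h * k) • b * α (g, h * k) := by
    rw [homotopy]
    refine (Fintype.sum_equiv (Equiv.mulLeft h) _ _ fun k => ?_).symm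
    simp only [Equiv.coe_mulLeft, mul_assoc]
  have h3 : α (g, h) = ∑ k : H, (g * h * k) • b * α (g, h) := by
    rw [← Finset.sum_mul]
    have : ∑ k : H, (g * h * k) • b = 1 := by
      rw [← hb]
      exact Fintype.sum_equiv (Equiv.mulLeft (g * h)) _ _ fun k => rfl
    rw [this, one_mul]
  rw [h1, h2, homotopy]
  conv_lhs => rw [h3]
  simp only [← Finset.sum_sub_distrib, ← Finset.sum_add_distrib]
  refine Finset.sum_congr rfl fun k _ => ?_
  ring

/-- **Graded step** (`j ≥ 1`). -/
theorem graded_step₂ (hJ : I ≤ Ideal.jacobson ⊥)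
    (hI : ∀ (h : H) (x : R), x ∈ I → h • x ∈ I) (b : R) (hb : ∑ h : H, h • b = 1)
    (j : ℕ) (hj : 1 ≤ j) (c : H × H → Rˣ) (hc : IsMulCocycle₂ c)
    (hcj : ∀ p, c p ∈ unitFil I j) :
    ∃ x : H → Rˣ, (∀ g, x g ∈ unitFil I j) ∧
      ∀ g h, c (g, h) / (g • x h / x (g * h) * x g) ∈ unitFil I (j + 1) := by
  obtain ⟨α, hαc, hαj⟩ : ∃ α : H × H → R, (∀ p, (c p : R) = 1 + α p) ∧ ∀ p, α p ∈ I ^ j :=
    ⟨fun p => (c p : R) - 1, fun p => by ring, fun p => hcj p⟩
  have hβj : ∀ g, homotopy b α g ∈ I ^ j := homotopy_mem b α _ hαj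
  have hβI : ∀ g, homotopy b α g ∈ I := fun g =>
    Ideal.pow_le_self (by omega) (hβj g)
  have hunit : ∀ g, IsUnit (1 + homotopy b α g) := fun g => isUnit_one_add_of_mem I hJ (hβI g)
  have hsα : ∀ (g : H) (p : H × H), g • α p ∈ I ^ j := fun g p => smul_mem_pow I hI j g (hαj p)
  refine ⟨fun g => (hunit g).unit, fun g => ?_, fun g h => ?_⟩
  · rw [mem_unitFil_iff, IsUnit.unit_spec, add_sub_cancel_left]
    exact hβj g
  · have hgrp : c (g, h) / (g • (hunit h).unit / (hunit (g * h)).unit * (hunit g).unit) =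
        (c (g, h) * (hunit (g * h)).unit) / (g • (hunit h).unit * (hunit g).unit) := by
      rw [div_mul_eq_mul_div, div_div_eq_mul_div]
    rw [hgrp, div_mem_unitFil_iff]
    simp only [Units.val_mul, coe_unitsAct_smul, IsUnit.unit_spec, hαc, smul_add, smul_one]
    -- the cocycle defect
    have hE : ∀ k : H, g • α (h, k) - α (g * h, k) + α (g, h * k) - α (g, h) ∈ I ^ (j + 1) := by
      intro k
      have h1 := congrArg (fun u : Rˣ => (u : R)) (hc g h k)
      simp only [Units.val_mul, coe_unitsAct_smul, hαc, smul_add, smul_one] at h1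
      have h2 : g • α (h, k) - α (g * h, k) + α (g, h * k) - α (g, h) =
          α (g * h, k) * α (g, h) - g • α (h, k) * α (g, h * k) := by
        linear_combination -h1
      rw [h2]
      exact (I ^ (j + 1)).sub_mem (mul_mem_pow_succ I hj (hαj _) (hαj _))
        (mul_mem_pow_succ I hj (hsα g _) (hαj _))
    have hF := homotopy_formula b hb α g h
    have hmem : g • homotopy b α h - homotopy b α (g * h) + homotopy b α g - α (g, h) ∈
        I ^ (j + 1) := by
      rw [hF]
      exact (I ^ (j + 1)).sum_mem fun k _ => (I ^ (j + 1)).mul_mem_left _ (hE k)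
    have hsβ : g • homotopy b α h ∈ I ^ j := smul_mem_pow I hI j g (hβj h)
    have hfin : (1 + α (g, h)) * (1 + homotopy b α (g * h)) -
        (1 + g • homotopy b α h) * (1 + homotopy b α g) =
        -(g • homotopy b α h - homotopy b α (g * h) + homotopy b α g - α (g, h)) +
          (α (g, h) * homotopy b α (g * h) - g • homotopy b α h * homotopy b α g) := by
      ring
    rw [hfin]
    exact (I ^ (j + 1)).add_mem ((I ^ (j + 1)).neg_mem hmem)
      ((I ^ (j + 1)).sub_mem (mul_mem_pow_succ I hj (hαj _) (hβj _))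
        (mul_mem_pow_succ I hj hsβ (hβj _)))

end Graded

end Fermat.Agent.S55.G.SIndH237.H95

end
-- ===== PACK-END S55/G/SIndH237/H95/Graded.lean

-- ===== PACK-BEGIN S55/KL/DevCdGlueH593.lean
section


/-!
# S55 / layer KB: the two glue leaves KB-DEV and KB-CD   (helper593)

* `devissage_of (hB : DevSylowSpec) (hC : DevPGroupSpec) : DevissageSpec`
  (Sylow reduction + filtration induction ⇒ dévissage; the only extra input is the elementary
  fact that a `p`-group acts trivially on a module of order `p`);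
* `cd_of (hK : KummerH3Spec) (hD : DevissageSpec) : CdSpec`;
* `cd_of_leaves (hK) (hB) (hC) : CdSpec`.

Reusable lemmas: `exists_lvl_le_forall` (common lower bound of finitely many levels),
`exists_lvl_actsTrivially` (a finite smooth module is fixed by a level, below any given level),
`isSmooth_res`, `isSmooth_tors`, `isDivisibleBy_res`, `actsTrivially_of_isPGroup`.
Mathlib + `KL/Spec.lean` only.
-/

set_option autoImplicit false
set_option linter.style.haveILetI false

open CategoryTheory groupCohomology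

namespace Fermat.Agent.S55.KL.H593

open Fermat.Agent.S55.KL

variable {k : Type} [CommRing k] {Γ : Type} [Group Γ]

/-! ## Levels -/

/-- Finitely many levels have a common lower bound. -/
theorem exists_lvl_le_forall (N : NLevels Γ) {ι : Type*} [Finite ι] (V : ι → N.Lvl) :
    ∃ X : N.Lvl, ∀ i, X.W ≤ (V i).W := by
  classical
  haveI := Fintype.ofFinite ι
  suffices h : ∀ s : Finset ι, ∃ X : N.Lvl, ∀ i ∈ s, X.W ≤ (V i).W by
    obtain ⟨X, hX⟩ := h Finset.univ
    exact ⟨X, fun i => hX i (Finset.mem_univ i)⟩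
  intro s
  induction s using Finset.induction_on with
  | empty =>
    obtain ⟨X⟩ := (inferInstance : Nonempty N.Lvl)
    exact ⟨X, fun i hi => absurd hi (Finset.notMem_empty i)⟩
  | insert a s _ ih =>
    obtain ⟨X, hX⟩ := ih
    obtain ⟨Y, hY1, hY2⟩ := N.exists_le X (V a)
    refine ⟨Y, fun i hi => ?_⟩
    rcases Finset.mem_insert.1 hi with rfl | hi
    · exact hY2
    · exact hY1.trans (hX i hi)

/-- A finite smooth module is fixed pointwise by some level, which may be chosen below any
given level. -/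
theorem exists_lvl_actsTrivially (N : NLevels Γ) (R : Rep.{0} k Γ) [Finite R.V]
    (hR : IsSmooth N R) (V₀ : N.Lvl) : ∃ V : N.Lvl, V.W ≤ V₀.W ∧ ActsTrivially V.W R := by
  classical
  choose W hW hfix using hR
  obtain ⟨X, hX⟩ := exists_lvl_le_forall N (fun r : R.V => (⟨W r, hW r⟩ : N.Lvl))
  obtain ⟨Y, hY1, hY2⟩ := N.exists_le X V₀
  exact ⟨Y, hY2, fun w hw r => hfix r w (hX r (hY1 hw))⟩

/-- Smoothness passes to subgroups. -/
theorem isSmooth_res (N : NLevels Γ) (B : Rep.{0} k Γ) (U : Subgroup Γ) (hB : IsSmooth N B) :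
    IsSmooth (N.restrict U) (Rep.res U.subtype B) := by
  intro b
  obtain ⟨W, hW, h⟩ := hB b
  exact ⟨W.subgroupOf U, ⟨W, hW, rfl⟩, fun w hw => h w.1 (Subgroup.mem_subgroupOf.1 hw)⟩

/-- Smoothness passes to the `p`-torsion. -/
theorem isSmooth_tors (N : NLevels Γ) (A : Rep.{0} k Γ) (p : ℕ) (hA : IsSmooth N A) :
    IsSmooth N (tors A p) := by
  intro b
  obtain ⟨W, hW, h⟩ := hA b.1
  exact ⟨W, hW, fun w hw => Subtype.ext (h w hw)⟩

/-- Divisibility passes to subgroups. -/
theorem isDivisibleBy_res (A : Rep.{0} k Γ) (p : ℕ) (U : Subgroup Γ) (hA : IsDivisibleBy A p) :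
    IsDivisibleBy (Rep.res U.subtype A) p := hA

/-! ## A `p`-group acts trivially on a module of order `p` -/

/-- An additive endomorphism `T` of a group of prime order `p` whose `p^n`-th iterate is the
identity is the identity. -/
theorem addMonoidHom_eq_id_of_iterate {M : Type*} [AddCommGroup M] {p : ℕ} (hp : p.Prime)
    (hcard : Nat.card M = p) (T : M →+ M) (n : ℕ) (hT : ∀ m, T^[p ^ n] m = m) (m : M) :
    T m = m := by
  classical
  haveI : Fact p.Prime := ⟨hp⟩
  haveI : Fact (Nat.card M).Prime := ⟨by rw [hcard]; exact hp⟩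
  by_cases hm : m = 0
  · rw [hm, map_zero]
  -- `m` generates `M`
  have htop : AddSubgroup.zmultiples m = ⊤ := by
    rcases AddSubgroup.eq_bot_or_eq_top_of_prime_card (AddSubgroup.zmultiples m) with h | h
    · exact absurd (AddSubgroup.zmultiples_eq_bot.1 h) hm
    · exact h
  have hgen : ∀ x : M, ∃ a : ℤ, a • m = x := fun x => by
    have : x ∈ AddSubgroup.zmultiples m := by rw [htop]; trivial
    exact AddSubgroup.mem_zmultiples_iff.1 this
  obtain ⟨a, ha⟩ := hgen (T m)
  have hpow : ∀ j : ℕ, T^[j] m = (a ^ j) • m := by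
    intro j
    induction j with
    | zero => simp
    | succ j ih =>
      rw [Function.iterate_succ_apply', ih, map_zsmul, ← ha, smul_smul, pow_succ]
  have hpm : ∀ b : ℤ, b • m = 0 → (p : ℤ) ∣ b := by
    intro b hb
    have hord : addOrderOf m = p := by
      have h1 : addOrderOf m ∣ p := by
        rw [← hcard]
        exact addOrderOf_dvd_natCard m
      rcases (Nat.dvd_prime hp).1 h1 with h | h
      · exact absurd (AddMonoid.addOrderOf_eq_one_iff.1 h) hm
      · exact h
    rw [← hord]
    exact (addOrderOf_dvd_iff_zsmul_eq_zero).2 hb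
  have h1 : (a ^ p ^ n - 1) • m = 0 := by
    rw [sub_smul, one_smul, ← hpow, hT, sub_self]
  have h2 : ((a ^ p ^ n - 1 : ℤ) : ZMod p) = 0 :=
    (ZMod.intCast_zmod_eq_zero_iff_dvd _ p).2 (hpm _ h1)
  have h3 : ((a - 1 : ℤ) : ZMod p) = 0 := by
    have h4 : ((a : ZMod p)) ^ p ^ n = (a : ZMod p) := ZMod.pow_card_pow (a : ZMod p)
    push_cast at h2 ⊢
    rw [h4] at h2
    exact h2
  have h5 : (p : ℤ) ∣ a - 1 := (ZMod.intCast_zmod_eq_zero_iff_dvd _ p).1 h3
  obtain ⟨c, hc⟩ := h5
  have hpz : (p : ℤ) • m = 0 := by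
    rw [natCast_zsmul, ← hcard]
    exact card_nsmul_eq_zero'
  have : (a - 1) • m = 0 := by rw [hc, mul_comm, mul_smul, hpz, smul_zero]
  rw [sub_smul, one_smul, sub_eq_zero] at this
  rw [← ha, this]

/-- If `V ≤ U` acts trivially on a module `μ` of order `p` and `U/V` is a `p`-group, then `U`
acts trivially on `μ`. -/
theorem actsTrivially_of_isPGroup (μ : Rep.{0} k Γ) {p : ℕ} (hp : p.Prime)
    (hcard : Nat.card μ.V = p) (U V : Subgroup Γ) [V.Normal] (hV : ActsTrivially V μ)
    (hP : IsPGroup p (↥U ⧸ V.subgroupOf U)) (u : ↥U) (m : μ.V) :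
    (Rep.res U.subtype μ).ρ u m = m := by
  obtain ⟨n, hn⟩ := hP (QuotientGroup.mk u)
  have hmem : (u ^ p ^ n : ↥U) ∈ V.subgroupOf U := by
    rw [← QuotientGroup.eq_one_iff, QuotientGroup.mk_pow]
    exact hn
  have hmem' : ((u : Γ) ^ p ^ n) ∈ V := by
    have := Subgroup.mem_subgroupOf.1 hmem
    simpa using this
  let T : μ.V →+ μ.V := (μ.ρ (u : Γ)).toAddMonoidHom
  have hTpow : ∀ (j : ℕ) (x : μ.V), T^[j] x = μ.ρ ((u : Γ) ^ j) x := by
    intro j
    induction j with
    | zero => intro x; simp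
    | succ j ih =>
      intro x
      rw [Function.iterate_succ_apply', ih, pow_succ', map_mul]
      rfl
  have hT : ∀ x, T^[p ^ n] x = x := fun x => by rw [hTpow]; exact hV _ hmem' x
  exact addMonoidHom_eq_id_of_iterate hp hcard T n hT m

/-! ## KB-DEV -/

/-- **KB-DEV** from KB-DEV-B (Sylow) and KB-DEV-C (filtration). -/
theorem devissage_of (hB : DevSylowSpec) (hC : DevPGroupSpec) : DevissageSpec := by
  intro k Γ _ _ hk N μ p hp hcard hμ hU R hRfin hRp hRsm
  haveI : Finite μ.V := Nat.finite_of_card_ne_zero (by rw [hcard]; exact hp.ne_zero)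
  obtain ⟨V₁⟩ := (inferInstance : Nonempty N.Lvl)
  obtain ⟨V₀, -, hV₀⟩ := exists_lvl_actsTrivially N μ hμ V₁
  refine hB k Γ N p hp R hRfin hRp hRsm V₀ ?_
  intro U V hVU hVV₀ hVR hPg
  have hVμ : ActsTrivially V.W μ := fun w hw m => hV₀ w (hVV₀ hw) m
  refine hC k ↥U hk (N.restrict U) (Rep.res U.subtype μ) p hp hcard
    (fun u m => actsTrivially_of_isPGroup μ hp hcard U V.W hVμ hPg u m)
    (hU U ⟨V.W, V.mem, hVU⟩) (Rep.res U.subtype R) hRfin hRp ⟨V.restrict U, ?_, hPg⟩
  intro w hw r
  exact hVR w.1 (Subgroup.mem_subgroupOf.1 hw) r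

/-! ## KB-CD -/

/-- **KB-CD** from KB-KUM3 and KB-DEV. -/
theorem cd_of (hK : KummerH3Spec) (hD : DevissageSpec) : CdSpec := by
  intro k Γ _ _ hk N A p hp hA
  obtain ⟨hsm, hdiv, hcard, hU⟩ := hA
  refine hD k Γ hk N (tors A p) p hp hcard (isSmooth_tors N A p hsm) ?_
  intro U hUo
  exact hK k ↥U (N.restrict U) (Rep.res U.subtype A) p hp (isSmooth_res N A U hsm)
    (isDivisibleBy_res A p U hdiv) (hU U hUo).1 (hU U hUo).2

/-- **KB-CD** from the three leaves KUM3, DEV-B, DEV-C. -/
theorem cd_of_leaves (hK : KummerH3Spec) (hB : DevSylowSpec) (hC : DevPGroupSpec) : CdSpec :=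
  cd_of hK (devissage_of hB hC)

end Fermat.Agent.S55.KL.H593

end
-- ===== PACK-END S55/KL/DevCdGlueH593.lean

-- ===== PACK-BEGIN S55/PT/EngineH476.lean
section


/-!
# S55 / layer D, leaf D-E1 (helper476): the abstract engine, version 3

`engine : EngineSpec`.  Pure linear algebra over a field.

* `θ : T² → Dual X¹`, `θ x (δ f) = ΘR (∂T x) f`, is well defined (`ΘR (∂T x)` kills
  `ker δ = im r₀` by naturality and `tT ∘ ∂T = 0`), onto (`ΘR` onto, `ΘP` injective,
  `im ∂T = ker tT`) and `ker θ = ker ∂T ≤ ker u = im j` (CAP).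
* `Ann_{X¹} (θ (j L¹)) = ker loc` (local top-degree data, `LocalTop.ann_iff`).
* `F = rest ∘ θ : T² → Dual (ker loc)` is onto with kernel `im j` (double annihilator), hence
  `ker loc₂ = im u ≃ T² / im j ≃ Dual (ker loc)`.
-/

set_option autoImplicit false

namespace Fermat.Agent.S55.PT.H476

open Module Fermat.Agent.S55.H244 Fermat.Agent.S55.PT

section Theta

variable {k : Type*} [Field k]
variable {T2 T3R T3P H0R H0P X1 : Type*}
  [AddCommGroup T2] [Module k T2] [AddCommGroup T3R] [Module k T3R]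
  [AddCommGroup T3P] [Module k T3P] [AddCommGroup H0R] [Module k H0R]
  [AddCommGroup H0P] [Module k H0P] [AddCommGroup X1] [Module k X1]

/-- The shifted map `θ : T² → Dual X¹`, `θ x (δ f) = ΘR (∂T x) f`: it exists, is onto, and its
kernel is the kernel of `∂T` (no injectivity of `∂T` is assumed). -/
theorem exists_theta_of_shift
    (dT : T2 →ₗ[k] T3R) (tT : T3R →ₗ[k] T3P) (hdT : LinearMap.range dT = LinearMap.ker tT)
    (r0 : H0P →ₗ[k] H0R) (del : H0R →ₗ[k] X1)
    (hdel : Function.Surjective del) (hdelker : LinearMap.ker del = LinearMap.range r0)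
    (ThR : T3R →ₗ[k] Dual k H0R) (ThP : T3P →ₗ[k] Dual k H0P)
    (hThR : Function.Bijective ThR) (hThP : Function.Injective ThP)
    (hnat : ∀ (t : T3R) (g : H0P), ThP (tT t) g = ThR t (r0 g)) :
    ∃ θ : T2 →ₗ[k] Dual k X1, (∀ x f, θ x (del f) = ThR (dT x) f) ∧
      Function.Surjective θ ∧ ∀ x, θ x = 0 → dT x = 0 := by
  classical
  have htd : ∀ x : T2, tT (dT x) = 0 := by
    intro x
    have h : dT x ∈ LinearMap.ker tT := by
      rw [← hdT]
      exact ⟨x, rfl⟩
    exact h
  have hkill : ∀ x : T2, LinearMap.ker del ≤ LinearMap.ker (ThR (dT x)) := by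
    intro x f hf
    rw [hdelker] at hf
    obtain ⟨g, rfl⟩ := hf
    rw [LinearMap.mem_ker, ← hnat, htd, map_zero, LinearMap.zero_apply]
  -- a linear section-free description: `θ x y := ΘR (∂T x) f` for any `f` with `δ f = y`
  have hwd : ∀ (x : T2) (f f' : H0R), del f = del f' → ThR (dT x) f = ThR (dT x) f' := by
    intro x f f' h
    have h1 : f - f' ∈ LinearMap.ker del := by
      rw [LinearMap.mem_ker, map_sub, h, sub_self]
    have h2 := hkill x h1
    rw [LinearMap.mem_ker, map_sub, sub_eq_zero] at h2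
    exact h2
  choose s hs using hdel
  let θ : T2 →ₗ[k] Dual k X1 :=
    { toFun := fun x =>
        { toFun := fun y => ThR (dT x) (s y)
          map_add' := fun y y' => by
            rw [← map_add]
            apply hwd
            rw [map_add, hs, hs, hs]
          map_smul' := fun a y => by
            rw [RingHom.id_apply, ← map_smul]
            apply hwd
            rw [map_smul, hs, hs] }
      map_add' := fun x x' => by
        apply LinearMap.ext
        intro y
        show ThR (dT (x + x')) (s y) = ThR (dT x) (s y) + ThR (dT x') (s y)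
        rw [map_add, map_add, LinearMap.add_apply]
      map_smul' := fun a x => by
        apply LinearMap.ext
        intro y
        show ThR (dT (a • x)) (s y) = a • ThR (dT x) (s y)
        rw [map_smul, map_smul, LinearMap.smul_apply] }
  have hθ : ∀ x f, θ x (del f) = ThR (dT x) f := by
    intro x f
    show ThR (dT x) (s (del f)) = ThR (dT x) f
    apply hwd
    rw [hs]
  refine ⟨θ, hθ, ?_, ?_⟩
  · intro φ
    obtain ⟨z, hz⟩ := hThR.2 (φ ∘ₗ del)
    have hz3 : tT z = 0 := by
      apply hThP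
      rw [map_zero]
      apply LinearMap.ext
      intro g
      rw [hnat, hz, LinearMap.comp_apply]
      have h : r0 g ∈ LinearMap.ker del := by
        rw [hdelker]
        exact ⟨g, rfl⟩
      rw [LinearMap.mem_ker.1 h, map_zero, LinearMap.zero_apply]
    have hzr : z ∈ LinearMap.range dT := by
      rw [hdT]
      exact hz3
    obtain ⟨x, rfl⟩ := hzr
    refine ⟨x, ?_⟩
    apply LinearMap.ext
    intro y
    obtain ⟨f, rfl⟩ := (fun y => (⟨s y, hs y⟩ : ∃ f, del f = y)) y
    rw [hθ, hz, LinearMap.comp_apply]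
  · intro x hx
    apply hThR.1
    rw [map_zero]
    apply LinearMap.ext
    intro f
    rw [← hθ, hx, LinearMap.zero_apply, LinearMap.zero_apply]

end Theta

section Final

variable {k : Type*} [Field k]
variable {T2 H2 L1 L2 X1 Y1 : Type*}
  [AddCommGroup T2] [Module k T2] [AddCommGroup H2] [Module k H2]
  [AddCommGroup L1] [Module k L1] [AddCommGroup L2] [Module k L2]
  [AddCommGroup X1] [Module k X1] [AddCommGroup Y1] [Module k Y1]

/-- **Final step, annihilator form, for a surjection `θ` with `ker θ ≤ im j`.** -/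
theorem sha_equiv_of_ann_surj [FiniteDimensional k X1]
    (j : L1 →ₗ[k] T2) (u : T2 →ₗ[k] H2) (loc2 : H2 →ₗ[k] L2) (loc : X1 →ₗ[k] Y1)
    (hju : LinearMap.ker u = LinearMap.range j)
    (hu2 : LinearMap.range u = LinearMap.ker loc2)
    (θ : T2 →ₗ[k] Dual k X1) (hθs : Function.Surjective θ)
    (hθk : ∀ x, θ x = 0 → x ∈ LinearMap.range j)
    (hann : ∀ y : X1, (∀ b : L1, θ (j b) y = 0) ↔ loc y = 0) :
    Nonempty (LinearMap.ker loc2 ≃ₗ[k] Dual k (LinearMap.ker loc)) := by
  classical
  let rest : Dual k X1 →ₗ[k] Dual k (LinearMap.ker loc) :=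
    Module.Dual.transpose (R := k) (LinearMap.ker loc).subtype
  have hrest : ∀ (φ : Dual k X1) (y : LinearMap.ker loc), rest φ y = φ y.1 := fun _ _ => rfl
  have hrest_surj : Function.Surjective rest := by
    intro φ
    obtain ⟨ψ, hψ⟩ := LinearMap.exists_extend (p := LinearMap.ker loc) φ
    refine ⟨ψ, ?_⟩
    apply LinearMap.ext
    intro x
    rw [hrest, ← hψ]
    rfl
  let F : T2 →ₗ[k] Dual k (LinearMap.ker loc) := rest ∘ₗ θ
  have hF : ∀ (x : T2) (y : LinearMap.ker loc), F x y = θ x y.1 := fun _ _ => rfl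
  have hF_surj : Function.Surjective F := hrest_surj.comp hθs
  have hF_ker : LinearMap.ker F = LinearMap.range j := by
    apply le_antisymm
    · intro x hx
      have hx' : ∀ y : X1, loc y = 0 → θ x y = 0 := by
        intro y hy
        have h1 := hF x ⟨y, hy⟩
        rw [LinearMap.mem_ker.1 hx, LinearMap.zero_apply] at h1
        exact h1.symm
      have hmem : θ x ∈ (LinearMap.range j).map θ := by
        apply mem_of_forall_ker_le
        intro y hy
        apply hx'
        rw [← hann]
        intro b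
        exact hy _ ⟨j b, ⟨b, rfl⟩, rfl⟩
      obtain ⟨x', hx'j, hx'x⟩ := hmem
      have h2 : θ (x - x') = 0 := by
        rw [map_sub, hx'x, sub_self]
      have h3 := hθk _ h2
      have h4 := (LinearMap.range j).add_mem h3 hx'j
      rwa [sub_add_cancel] at h4
    · rintro x ⟨b, rfl⟩
      rw [LinearMap.mem_ker]
      apply LinearMap.ext
      rintro ⟨y, hy⟩
      rw [hF, LinearMap.zero_apply]
      exact (hann y).2 hy b
  have e1 : (T2 ⧸ LinearMap.ker u) ≃ₗ[k] LinearMap.range u := u.quotKerEquivRange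
  have e2 : (T2 ⧸ LinearMap.ker F) ≃ₗ[k] Dual k (LinearMap.ker loc) :=
    F.quotKerEquivOfSurjective hF_surj
  have hk : LinearMap.ker u = LinearMap.ker F := by rw [hju, hF_ker]
  have e3 : (T2 ⧸ LinearMap.ker u) ≃ₗ[k] (T2 ⧸ LinearMap.ker F) :=
    Submodule.quotEquivOfEq _ _ hk
  have e4 : LinearMap.range u ≃ₗ[k] LinearMap.ker loc2 := LinearEquiv.ofEq _ _ hu2
  exact ⟨e4.symm.trans (e1.symm.trans (e3.trans e2))⟩

end Final

/-- **D-E1 (engine v3).** -/
theorem engine : EngineSpec := by
  intro k _ ι _ _ T2 H2 L2 X1 T3R T3P H0R H0P _ _ _ _ _ _ _ _ _ _ _ _ _ _ _ _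
    L1 T2R T2P H0Rv H0Pv Y1 _ _ _ _ _ _ _ _ _ _ _ _ _
    j u loc2 loc hju hu2 dT tT hdT r0 del hdel hdelker ThR ThP hThR hThP hnat hcap D res hloc
    c hc hform
  classical
  obtain ⟨θ, hθ, hθs, hθk⟩ :=
    exists_theta_of_shift dT tT hdT r0 del hdel hdelker ThR ThP hThR hThP hnat
  refine sha_equiv_of_ann_surj j u loc2 loc hju hu2 θ hθs ?_ ?_
  · intro x hx
    rw [← hju]
    exact hcap x (hθk x hx)
  · intro y
    obtain ⟨f, rfl⟩ := hdel y
    constructor
    · intro h
      funext v
      rw [← hloc, Pi.zero_apply, ← (D v).ann_iff]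
      intro bv
      have h1 := h (Pi.single v bv)
      rw [hθ, hform] at h1
      have h2 : ∑ w, (D w).ThR ((D w).dv ((Pi.single v bv : ∀ v, L1 v) w)) (res w f) =
          (D v).ThR ((D v).dv bv) (res v f) := by
        rw [Finset.sum_eq_single v]
        · rw [Pi.single_eq_same]
        · intro w _ hw
          rw [Pi.single_eq_of_ne hw, map_zero, map_zero, LinearMap.zero_apply]
        · intro hv
          exact absurd (Finset.mem_univ v) hv
      rw [h2] at h1
      exact (mul_eq_zero.1 h1).resolve_left hc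
    · intro h b
      rw [hθ, hform]
      have h3 : ∀ v, (D v).ThR ((D v).dv (b v)) (res v f) = 0 := by
        intro v
        apply ((D v).ann_iff (res v f)).2
        rw [hloc, h, Pi.zero_apply]
      rw [Finset.sum_eq_zero (fun v _ => h3 v), mul_zero]

end Fermat.Agent.S55.PT.H476

end
-- ===== PACK-END S55/PT/EngineH476.lean

-- ===== PACK-BEGIN S56/Euler/H7/Key.lean
section


/-!
# S56 / Euler / IND — leaf KEY (helper7)

`key_of : CompSeriesStatement → UniqStatement → KeyStatement`.

Composition factors of all `W i`, indexed by `Ω = Σ i, Fin (r i)`; the setoid `RepIso` on `Ω`;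
representatives `S q` of the classes; multiplicities by summing over the fibres.  Additive
invariants and characteristic polynomials are isomorphism invariant.
-/

set_option autoImplicit false

open Polynomial

noncomputable section

namespace Fermat.Agent.S56.Euler.H7

open Fermat.Agent.S56.Euler

variable {k G : Type} [Field k] [Group G]

/-! ### `RepIso` is an equivalence relation, invariance -/

theorem repIso_refl (A : FDRepData k G) : RepIso A A :=
  ⟨LinearEquiv.refl k A.V, fun _ _ => rfl⟩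

theorem repIso_symm {A B : FDRepData k G} (h : RepIso A B) : RepIso B A := by
  obtain ⟨e, he⟩ := h
  refine ⟨e.symm, fun g b => ?_⟩
  apply e.injective
  rw [he, LinearEquiv.apply_symm_apply, LinearEquiv.apply_symm_apply]

theorem repIso_trans {A B C : FDRepData k G} (h : RepIso A B) (h' : RepIso B C) :
    RepIso A C := by
  obtain ⟨e, he⟩ := h
  obtain ⟨e', he'⟩ := h'
  exact ⟨e.trans e', fun g a => by
    rw [LinearEquiv.trans_apply, LinearEquiv.trans_apply, he, he']⟩

/-- Isomorphic representations have the same characteristic polynomials. -/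
theorem charpoly_eq_of_repIso {A B : FDRepData k G} (h : RepIso A B) (g : G) :
    LinearMap.charpoly (A.ρ g) = LinearMap.charpoly (B.ρ g) := by
  obtain ⟨e, he⟩ := h
  rw [← LinearEquiv.charpoly_conj e (A.ρ g)]
  congr 1
  apply LinearMap.ext
  intro b
  rw [LinearEquiv.conj_apply_apply, he, LinearEquiv.apply_symm_apply]

/-- The zero representation. -/
def zeroRep (k G : Type) [Field k] [Group G] : FDRepData k G where
  V := PUnit
  ρ := 1

theorem subsingleton_zeroRep : Subsingleton (zeroRep k G).V :=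
  inferInstanceAs (Subsingleton PUnit)

/-- Additive invariants vanish on the zero representation. -/
theorem additive_zeroRep {f : RepInv k G} (hf : IsAdditiveInv f) : f (zeroRep k G) = 0 := by
  have := subsingleton_zeroRep (k := k) (G := G)
  have h := hf (zeroRep k G) (zeroRep k G) (zeroRep k G) 0 0
    { equivar_i := fun _ _ => rfl
      equivar_q := fun _ _ => rfl
      inj := fun _ _ _ => Subsingleton.elim _ _
      surj := fun c => ⟨c, Subsingleton.elim _ _⟩
      exact := by
        ext x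
        simp only [LinearMap.mem_range, LinearMap.mem_ker, LinearMap.zero_apply, exists_const]
        exact ⟨fun _ => trivial, fun _ => Subsingleton.elim _ _⟩ }
  linarith

/-- Additive invariants are isomorphism invariant. -/
theorem additive_eq_of_repIso {f : RepInv k G} (hf : IsAdditiveInv f) {A B : FDRepData k G}
    (h : RepIso A B) : f A = f B := by
  obtain ⟨e, he⟩ := h
  have := subsingleton_zeroRep (k := k) (G := G)
  have h1 := hf (zeroRep k G) A B 0 e.toLinearMap
    { equivar_i := fun g a => by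
        rw [LinearMap.zero_apply, LinearMap.zero_apply, map_zero]
      equivar_q := fun g a => he g a
      inj := fun _ _ _ => Subsingleton.elim _ _
      surj := e.surjective
      exact := by
        rw [LinearMap.range_zero]
        exact (LinearMap.ker_eq_bot.mpr e.injective).symm }
  rw [additive_zeroRep hf, zero_add] at h1
  exact h1

/-! ### The main glue -/

/-- **KEY** from COMP and UNIQ. -/
theorem key_of (hComp : CompSeriesStatement) (hUniq : UniqStatement) : KeyStatement := by
  intro p _ G _ _ I _ W n n' hprod f hf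
  classical
  -- composition factors
  choose r T hTsimple hTadd hTchar using fun i => hComp (ZMod p) G (W i)
  let Ω : Type := Σ i : I, Fin (r i)
  let TΩ : Ω → FDRepData (ZMod p) G := fun ω => T ω.1 ω.2
  let s : Setoid Ω :=
    { r := fun ω ω' => RepIso (TΩ ω) (TΩ ω')
      iseqv := ⟨fun ω => repIso_refl _, fun h => repIso_symm h, fun h h' => repIso_trans h h'⟩ }
  let Q : Type := Quotient s
  let S : Q → FDRepData (ZMod p) G := fun q => TΩ (Quotient.out q)
  have hSsimple : ∀ q, IsSimpleRep (S q) := fun q => hTsimple _ _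
  have hSinj : ∀ q q', RepIso (S q) (S q') → q = q' := by
    intro q q' h
    have h1 : (⟦Quotient.out q⟧ : Q) = ⟦Quotient.out q'⟧ := Quotient.sound h
    rwa [Quotient.out_eq, Quotient.out_eq] at h1
  have hiso : ∀ ω : Ω, RepIso (TΩ ω) (S ⟦ω⟧) := fun ω =>
    repIso_symm (Quotient.exact (Quotient.out_eq (⟦ω⟧ : Q)))
  -- multiplicities
  let mult : (I → ℕ) → Q → ℕ := fun a q =>
    ∑ ω ∈ Finset.univ.filter (fun ω : Ω => (⟦ω⟧ : Q) = q), a ω.1
  -- products of characteristic polynomials
  have hchar : ∀ (a : I → ℕ) (g : G),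
      ∏ i, LinearMap.charpoly ((W i).ρ g) ^ a i =
        ∏ q, LinearMap.charpoly ((S q).ρ g) ^ mult a q := by
    intro a g
    calc ∏ i, LinearMap.charpoly ((W i).ρ g) ^ a i
        = ∏ i, ∏ j, LinearMap.charpoly ((T i j).ρ g) ^ a i := by
          refine Finset.prod_congr rfl fun i _ => ?_
          rw [hTchar i g, Finset.prod_pow]
      _ = ∏ ω : Ω, LinearMap.charpoly ((TΩ ω).ρ g) ^ a ω.1 := by
          rw [← Finset.univ_sigma_univ, Finset.prod_sigma]
      _ = ∏ q, ∏ ω ∈ Finset.univ.filter (fun ω : Ω => (⟦ω⟧ : Q) = q),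
            LinearMap.charpoly ((TΩ ω).ρ g) ^ a ω.1 :=
          (Finset.prod_fiberwise Finset.univ (fun ω : Ω => (⟦ω⟧ : Q)) _).symm
      _ = ∏ q, LinearMap.charpoly ((S q).ρ g) ^ mult a q := by
          refine Finset.prod_congr rfl fun q _ => ?_
          rw [← Finset.prod_pow_eq_pow_sum]
          refine Finset.prod_congr rfl fun ω hω => ?_
          rw [Finset.mem_filter] at hω
          rw [charpoly_eq_of_repIso (hiso ω) g, hω.2]
  -- sums of the invariant
  have hsum : ∀ a : I → ℕ,
      ∑ i, (a i : ℤ) * f (W i) = ∑ q, (mult a q : ℤ) * f (S q) := by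
    intro a
    calc ∑ i, (a i : ℤ) * f (W i)
        = ∑ i, ∑ j, (a i : ℤ) * f (T i j) := by
          refine Finset.sum_congr rfl fun i _ => ?_
          rw [hTadd i f hf, Finset.mul_sum]
      _ = ∑ ω : Ω, (a ω.1 : ℤ) * f (TΩ ω) := by
          rw [← Finset.univ_sigma_univ, Finset.sum_sigma]
      _ = ∑ q, ∑ ω ∈ Finset.univ.filter (fun ω : Ω => (⟦ω⟧ : Q) = q),
            (a ω.1 : ℤ) * f (TΩ ω) :=
          (Finset.sum_fiberwise Finset.univ (fun ω : Ω => (⟦ω⟧ : Q)) _).symm
      _ = ∑ q, (mult a q : ℤ) * f (S q) := by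
          refine Finset.sum_congr rfl fun q _ => ?_
          simp only [mult]
          rw [Nat.cast_sum, Finset.sum_mul]
          refine Finset.sum_congr rfl fun ω hω => ?_
          rw [Finset.mem_filter] at hω
          rw [additive_eq_of_repIso hf (hiso ω), hω.2]
  -- uniqueness of the multiplicities
  have hm : mult n = mult n' := by
    apply hUniq p G Q S hSsimple hSinj
    intro g hg
    rw [← hchar n g, ← hchar n' g]
    exact hprod g hg
  rw [hsum n, hsum n', hm]

end Fermat.Agent.S56.Euler.H7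

end

end
-- ===== PACK-END S56/Euler/H7/Key.lean

-- ===== PACK-BEGIN S56/Euler/PermH635.lean
section


/-!
# Row S56 / Euler characteristic / leaf IND — PERM (helper635)

`permCharpoly : PermCharpolyStatement`.

For a permutation `σ` of a finite set `X`, `charpoly (σ ⊗ T) = ∏_l P_l ^ (c_σ(l) / l)` where
`c_σ(l)` is the number of points of exact period `l` and `P_l` is the characteristic polynomial of
`(standard l-cycle) ⊗ T`; and `#Fix(σ^t) = ∑_{l ∣ t} c_σ(l)`.
-/

set_option autoImplicit false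

open Polynomial

noncomputable section

namespace Fermat.Agent.S56.Euler.H635

open Fermat.Agent.S56.Euler

section Alg

variable {k : Type} [Field k] {N : Type} [AddCommGroup N] [Module k N] [Module.Finite k N]
  (T : N →ₗ[k] N)

/-- Multiplicativity of `charpoly (σ ⊗ T)` over a `σ`-stable decomposition `X ≃ A ⊕ B`. -/
theorem charpoly_permTensor_sum {A B X : Type} [Finite A] [Finite B] [Finite X]
    (e : A ⊕ B ≃ X) (α : A → A) (β : B → B) (σ : X → X)
    (hα : ∀ a, σ (e (Sum.inl a)) = e (Sum.inl (α a)))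
    (hβ : ∀ b, σ (e (Sum.inr b)) = e (Sum.inr (β b))) :
    LinearMap.charpoly (permTensor σ T) =
      LinearMap.charpoly (permTensor α T) * LinearMap.charpoly (permTensor β T) := by
  classical
  let E : (X →₀ N) ≃ₗ[k] (A →₀ N) × (B →₀ N) :=
    (Finsupp.domLCongr e.symm) ≪≫ₗ (Finsupp.sumFinsuppLEquivProdFinsupp k)
  have hE_inl : ∀ (a : A) (n : N), E (Finsupp.single (e (Sum.inl a)) n) =
      (Finsupp.single a n, 0) := by
    intro a n
    simp [E, Finsupp.sumFinsuppLEquivProdFinsupp,
      Finsupp.sumFinsuppAddEquivProdFinsupp, Finsupp.sumFinsuppEquivProdFinsupp]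
  have hE_inr : ∀ (b : B) (n : N), E (Finsupp.single (e (Sum.inr b)) n) =
      (0, Finsupp.single b n) := by
    intro b n
    simp [E, Finsupp.sumFinsuppLEquivProdFinsupp,
      Finsupp.sumFinsuppAddEquivProdFinsupp, Finsupp.sumFinsuppEquivProdFinsupp]
  have hcomm : (E : (X →₀ N) →ₗ[k] _) ∘ₗ permTensor σ T =
      ((permTensor α T).prodMap (permTensor β T)) ∘ₗ (E : (X →₀ N) →ₗ[k] _) := by
    apply Finsupp.lhom_ext
    intro x n
    obtain ⟨y, rfl⟩ := e.surjective x
    rcases y with a | b
    · simp only [LinearMap.comp_apply, LinearEquiv.coe_coe, permTensor_single, hα, hE_inl,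
        LinearMap.prodMap_apply, map_zero]
    · simp only [LinearMap.comp_apply, LinearEquiv.coe_coe, permTensor_single, hβ, hE_inr,
        LinearMap.prodMap_apply, map_zero]
  have hconj : E.conj (permTensor σ T) = (permTensor α T).prodMap (permTensor β T) := by
    apply LinearMap.ext
    intro z
    have h1 := LinearMap.congr_fun hcomm (E.symm z)
    simp only [LinearMap.comp_apply, LinearEquiv.coe_coe, LinearEquiv.apply_symm_apply] at h1
    rw [LinearEquiv.conj_apply]
    simpa using h1
  rw [← LinearEquiv.charpoly_conj E (permTensor σ T), hconj, LinearMap.charpoly_prodMap]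

/-- `charpoly (σ ⊗ T) = 1` on the empty set. -/
theorem charpoly_permTensor_empty {X : Type} [Finite X] [IsEmpty X] (σ : X → X) :
    LinearMap.charpoly (permTensor σ T) = 1 := by
  have h0 : Module.finrank k (X →₀ N) = 0 := Module.finrank_zero_of_subsingleton
  apply Polynomial.eq_one_of_monic_natDegree_zero (LinearMap.charpoly_monic _)
  rw [LinearMap.charpoly_natDegree, h0]

end Alg

/-! ## Periods -/

section Comb

/-- An injective semiconjugacy preserves minimal periods. -/
theorem minimalPeriod_of_semiconj {A X : Type} (g : A → X) (hg : Function.Injective g)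
    (α : A → A) (σ : X → X) (h : ∀ a, σ (g a) = g (α a)) (a : A) :
    Function.minimalPeriod σ (g a) = Function.minimalPeriod α a := by
  have hit : ∀ n : ℕ, σ^[n] (g a) = g (α^[n] a) := by
    intro n
    induction n with
    | zero => rfl
    | succ n ih => rw [Function.iterate_succ_apply', Function.iterate_succ_apply', ih, h]
  refine Function.minimalPeriod_eq_minimalPeriod_iff.2 (fun n => ?_)
  show σ^[n] (g a) = g a ↔ α^[n] a = a
  rw [hit n]
  exact hg.eq_iff

/-- The number of points of exact period `l`. -/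
def cnt {X : Type} [Fintype X] (σ : X → X) (l : ℕ) : ℕ :=
  ∑ x : X, if Function.minimalPeriod σ x = l then 1 else 0

/-- `cnt` is additive over a stable decomposition. -/
theorem cnt_sum {A B X : Type} [Fintype A] [Fintype B] [Fintype X]
    (e : A ⊕ B ≃ X) (α : A → A) (β : B → B) (σ : X → X)
    (hα : ∀ a, σ (e (Sum.inl a)) = e (Sum.inl (α a)))
    (hβ : ∀ b, σ (e (Sum.inr b)) = e (Sum.inr (β b))) (l : ℕ) :
    cnt σ l = cnt α l + cnt β l := by
  unfold cnt
  rw [← Equiv.sum_comp e, Fintype.sum_sum_type]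
  congr 1
  · refine Finset.sum_congr rfl (fun a _ => ?_)
    rw [minimalPeriod_of_semiconj (fun a => e (Sum.inl a))
      (fun a b hab => Sum.inl_injective (e.injective hab)) α σ hα a]
  · refine Finset.sum_congr rfl (fun b _ => ?_)
    rw [minimalPeriod_of_semiconj (fun b => e (Sum.inr b))
      (fun a b hab => Sum.inr_injective (e.injective hab)) β σ hβ b]

/-- The standard cycle on `Fin l`. -/
def stdCyc (l : ℕ) : Fin l → Fin l :=
  fun j => if h : j.val + 1 < l then ⟨j.val + 1, h⟩ else ⟨0, j.pos⟩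

/-- Splitting off the orbit of a point. -/
theorem exists_split {X : Type} [Fintype X] (σ : X → X) (hσ : Function.Injective σ) (x₀ : X) :
    ∃ (l : ℕ) (B : Type) (_ : Fintype B) (β : B → B) (e : Fin l ⊕ B ≃ X),
      Function.Injective β ∧
      Fintype.card B + l = Fintype.card X ∧
      0 < l ∧
      (∀ a, σ (e (Sum.inl a)) = e (Sum.inl (stdCyc l a))) ∧
      (∀ b, σ (e (Sum.inr b)) = e (Sum.inr (β b))) ∧
      (∀ a, Function.minimalPeriod σ (e (Sum.inl a)) = l) := by
  classical
  obtain ⟨l, hl⟩ : ∃ l, l = Function.minimalPeriod σ x₀ := ⟨_, rfl⟩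
  have hper : x₀ ∈ Function.periodicPts σ := hσ.mem_periodicPts x₀
  have hlpos : 0 < l := hl ▸ Function.minimalPeriod_pos_of_mem_periodicPts hper
  have hitl : σ^[l] x₀ = x₀ := hl ▸ Function.iterate_minimalPeriod
  let f : Fin l → X := fun j => σ^[j.val] x₀
  have hf : Function.Injective f := by
    intro a b hab
    apply Fin.ext
    exact Function.iterate_injOn_Iio_minimalPeriod (f := σ) (x := x₀)
      (Set.mem_Iio.2 (hl ▸ a.isLt)) (Set.mem_Iio.2 (hl ▸ b.isLt)) hab
  have hstep : ∀ a : Fin l, σ (f a) = f (stdCyc l a) := by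
    intro a
    show σ (σ^[a.val] x₀) = σ^[(stdCyc l a).val] x₀
    rw [← Function.iterate_succ_apply' σ a.val x₀]
    unfold stdCyc
    by_cases h : a.val + 1 < l
    · rw [dif_pos h]
    · rw [dif_neg h]
      have h1 : a.val + 1 = l := le_antisymm a.isLt (not_lt.1 h)
      show σ^[a.val + 1] x₀ = σ^[0] x₀
      rw [h1]
      exact hitl
  have hcompl : ∀ x : X, x ∉ Set.range f → σ x ∉ Set.range f := by
    rintro x hx ⟨j, hj⟩
    apply hx
    have hj' : σ^[j.val] x₀ = σ x := hj
    rcases Nat.eq_zero_or_pos j.val with h0 | hpos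
    · have h1 : σ (σ^[l - 1] x₀) = σ x := by
        rw [← Function.iterate_succ_apply' σ (l - 1) x₀, Nat.succ_eq_add_one,
          Nat.sub_add_cancel hlpos, ← hj', h0]
        exact hitl
      exact ⟨⟨l - 1, Nat.sub_lt hlpos Nat.one_pos⟩, hσ h1⟩
    · have h1 : σ (σ^[j.val - 1] x₀) = σ x := by
        rw [← Function.iterate_succ_apply' σ (j.val - 1) x₀, Nat.succ_eq_add_one,
          Nat.sub_add_cancel hpos, hj']
      exact ⟨⟨j.val - 1, lt_of_le_of_lt (Nat.sub_le _ _) j.isLt⟩, hσ h1⟩
  let B : Type := ↥((Set.range f)ᶜ : Set X)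
  let β : B → B := fun b => ⟨σ b.val, hcompl b.val b.2⟩
  let e : Fin l ⊕ B ≃ X :=
    ((Equiv.ofInjective f hf).sumCongr (Equiv.refl B)).trans (Equiv.Set.sumCompl (Set.range f))
  have he_inl : ∀ a, e (Sum.inl a) = f a := fun a => rfl
  have he_inr : ∀ b : B, e (Sum.inr b) = b.val := fun b => rfl
  refine ⟨l, B, inferInstance, β, e, ?_, ?_, hlpos, ?_, ?_, ?_⟩
  · intro a b hab
    apply Subtype.ext
    exact hσ (congrArg Subtype.val hab)
  · have h1 := Fintype.card_congr e
    rw [Fintype.card_sum, Fintype.card_fin] at h1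
    omega
  · intro a
    rw [he_inl, he_inl]
    exact hstep a
  · intro b
    rw [he_inr, he_inr]
  · intro a
    rw [he_inl, hl]
    exact Function.minimalPeriod_apply_iterate hper a.val

/-- Every point of the standard cycle has period `l` (from any realisation). -/
theorem cnt_stdCyc_of_split {X : Type} (σ : X → X) (l : ℕ) (g : Fin l → X)
    (hg : Function.Injective g) (h : ∀ a, σ (g a) = g (stdCyc l a))
    (hp : ∀ a, Function.minimalPeriod σ (g a) = l) (l' : ℕ) :
    cnt (stdCyc l) l' = if l' = l then l else 0 := by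
  unfold cnt
  have h1 : ∀ a : Fin l, Function.minimalPeriod (stdCyc l) a = l := fun a => by
    rw [← minimalPeriod_of_semiconj g hg (stdCyc l) σ h a, hp a]
  simp only [h1]
  by_cases hl : l' = l
  · subst hl
    simp
  · have hl' : ¬ l = l' := fun h => hl h.symm
    simp [hl, hl']

end Comb

section Main

variable {k : Type} [Field k] {N : Type} [AddCommGroup N] [Module k N] [Module.Finite k N]
  (T : N →ₗ[k] N)

/-- The characteristic polynomial of `(standard l-cycle) ⊗ T`. -/
def cycPoly (l : ℕ) : k[X] := LinearMap.charpoly (permTensor (stdCyc l) T)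

/-- The structure theorem: `charpoly (σ ⊗ T) = ∏_l P_l ^ (c_σ(l) / l)`, and `l ∣ c_σ(l)`. -/
theorem charpoly_permTensor_eq (n : ℕ) :
    ∀ (X : Type) [Fintype X] (σ : X → X), Function.Injective σ → Fintype.card X = n →
      (∀ l, l ∣ cnt σ l) ∧
      ∀ M, n < M → LinearMap.charpoly (permTensor σ T) =
        ∏ l ∈ Finset.range M, cycPoly T l ^ (cnt σ l / l) := by
  induction n using Nat.strong_induction_on with
  | _ n ih =>
    intro X _ σ hσ hX
    rcases isEmpty_or_nonempty X with hE | ⟨⟨x₀⟩⟩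
    · have hc : ∀ l, cnt σ l = 0 := fun l => by
        unfold cnt
        exact Finset.sum_eq_zero (fun x _ => (hE.false x).elim)
      refine ⟨fun l => by rw [hc l]; exact dvd_zero l, fun M _ => ?_⟩
      rw [charpoly_permTensor_empty]
      symm
      apply Finset.prod_eq_one
      intro l _
      rw [hc l, Nat.zero_div, pow_zero]
    · obtain ⟨l, B, hB, β, e, hβ, hcard, hlpos, hα, hβe, hper⟩ := exists_split σ hσ x₀
      have hlt : Fintype.card B < n := by omega
      obtain ⟨hdvdB, hprodB⟩ := ih (Fintype.card B) hlt B β hβ rfl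
      have hcs : ∀ l', cnt σ l' = (if l' = l then l else 0) + cnt β l' := by
        intro l'
        rw [cnt_sum e (stdCyc l) β σ hα hβe l',
          cnt_stdCyc_of_split σ l (fun a => e (Sum.inl a))
            (fun a b hab => Sum.inl_injective (e.injective hab)) hα hper l']
      refine ⟨fun l' => ?_, fun M hM => ?_⟩
      · rw [hcs l']
        by_cases h : l' = l
        · rw [if_pos h]
          exact dvd_add (by rw [h]) (hdvdB l')
        · rw [if_neg h, zero_add]
          exact hdvdB l'
      · have hlM : l ∈ Finset.range M := Finset.mem_range.2 (by omega)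
        rw [charpoly_permTensor_sum T e (stdCyc l) β σ hα hβe, hprodB M (by omega)]
        have hexp : ∀ l' ∈ Finset.range M, cycPoly T l' ^ (cnt σ l' / l') =
            (if l' = l then cycPoly T l else 1) * cycPoly T l' ^ (cnt β l' / l') := by
          intro l' _
          rw [hcs l']
          by_cases h : l' = l
          · rw [if_pos h, if_pos h, h, Nat.add_div_left _ hlpos, pow_succ, mul_comm]
          · rw [if_neg h, if_neg h, zero_add, one_mul]
        rw [Finset.prod_congr rfl hexp, Finset.prod_mul_distrib, Finset.prod_ite_eq' _ _ _,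
          if_pos hlM]
        rfl

/-- Fixed points of `σ ^ t` counted by exact periods. -/
theorem card_fix_eq {X : Type} [Fintype X] (σ : Equiv.Perm X) (t : ℕ) (ht : 0 < t) :
    Nat.card {x : X // (σ ^ t) x = x} = ∑ l ∈ t.divisors, cnt (⇑σ) l := by
  classical
  rw [Nat.card_eq_fintype_card, Fintype.card_subtype, Finset.card_filter]
  unfold cnt
  rw [Finset.sum_comm]
  refine Finset.sum_congr rfl (fun x _ => ?_)
  rw [Finset.sum_ite_eq]
  have h : (σ ^ t) x = x ↔ Function.minimalPeriod (⇑σ) x ∈ t.divisors := by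
    rw [Nat.mem_divisors, ← Function.isPeriodicPt_iff_minimalPeriod_dvd]
    show _ ↔ (⇑σ)^[t] x = x ∧ _
    rw [Equiv.Perm.iterate_eq_pow]
    exact ⟨fun h => ⟨h, ht.ne'⟩, fun h => h.1⟩
  simp only [h]

/-- Divisor sums determine the summands. -/
theorem divisor_sum_inj (F F' : ℕ → ℕ)
    (h : ∀ t, 0 < t → ∑ l ∈ t.divisors, F l = ∑ l ∈ t.divisors, F' l) :
    ∀ t, 0 < t → F t = F' t := by
  intro t
  induction t using Nat.strong_induction_on with
  | _ t ih =>
    intro ht
    have h1 := h t ht
    rw [← Nat.insert_self_properDivisors ht.ne',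
      Finset.sum_insert Nat.self_notMem_properDivisors,
      Finset.sum_insert Nat.self_notMem_properDivisors] at h1
    have h2 : ∑ l ∈ t.properDivisors, F l = ∑ l ∈ t.properDivisors, F' l :=
      Finset.sum_congr rfl (fun l hl =>
        ih l (Nat.mem_properDivisors.1 hl).2 (Nat.pos_of_mem_properDivisors hl))
    omega

/-- **PERM.** -/
theorem permCharpoly : PermCharpolyStatement := by
  intro k _ N _ _ _ T I _ X _ σ n n' H
  classical
  have hstruct : ∀ i, (∀ l, l ∣ cnt (⇑(σ i)) l) ∧
      ∀ M, Fintype.card (X i) < M → LinearMap.charpoly (permTensor (⇑(σ i)) T) =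
        ∏ l ∈ Finset.range M, cycPoly T l ^ (cnt (⇑(σ i)) l / l) :=
    fun i => charpoly_permTensor_eq T _ (X i) (σ i) (σ i).injective rfl
  obtain ⟨M, hMdef⟩ : ∃ M, M = (∑ i, Fintype.card (X i)) + 1 := ⟨_, rfl⟩
  have hM : ∀ i, Fintype.card (X i) < M := fun i => by
    rw [hMdef]
    exact Nat.lt_succ_of_le
      (Finset.single_le_sum (f := fun i => Fintype.card (X i)) (fun _ _ => Nat.zero_le _)
        (Finset.mem_univ i))
  have hF : ∀ t, 0 < t →
      ∑ i, n i * cnt (⇑(σ i)) t = ∑ i, n' i * cnt (⇑(σ i)) t := by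
    apply divisor_sum_inj
    intro t ht
    have h1 := H t
    simp only [card_fix_eq _ t ht, Finset.mul_sum] at h1
    rw [Finset.sum_comm, h1, Finset.sum_comm]
  have hD : ∀ l, ∑ i, n i * (cnt (⇑(σ i)) l / l) = ∑ i, n' i * (cnt (⇑(σ i)) l / l) := by
    intro l
    rcases Nat.eq_zero_or_pos l with h0 | hpos
    · subst h0
      simp
    · apply Nat.eq_of_mul_eq_mul_left hpos
      rw [Finset.mul_sum, Finset.mul_sum]
      have h2 : ∀ m : I → ℕ, ∑ i, l * (m i * (cnt (⇑(σ i)) l / l)) =
          ∑ i, m i * cnt (⇑(σ i)) l := fun m =>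
        Finset.sum_congr rfl (fun i _ => by
          rw [mul_left_comm, Nat.mul_div_cancel' ((hstruct i).1 l)])
      rw [h2, h2, hF l hpos]
  have hprod : ∀ m : I → ℕ, ∏ i, LinearMap.charpoly (permTensor (⇑(σ i)) T) ^ m i =
      ∏ l ∈ Finset.range M, cycPoly T l ^ (∑ i, m i * (cnt (⇑(σ i)) l / l)) := by
    intro m
    calc ∏ i, LinearMap.charpoly (permTensor (⇑(σ i)) T) ^ m i
        = ∏ i, ∏ l ∈ Finset.range M, cycPoly T l ^ (m i * (cnt (⇑(σ i)) l / l)) :=
          Finset.prod_congr rfl (fun i _ => by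
            rw [(hstruct i).2 M (hM i), ← Finset.prod_pow]
            exact Finset.prod_congr rfl (fun l _ => by rw [← pow_mul, mul_comm]))
      _ = ∏ l ∈ Finset.range M, ∏ i, cycPoly T l ^ (m i * (cnt (⇑(σ i)) l / l)) :=
          Finset.prod_comm
      _ = _ := Finset.prod_congr rfl (fun l _ => Finset.prod_pow_eq_pow_sum _ _ _)
  rw [hprod n, hprod n']
  exact Finset.prod_congr rfl (fun l _ => by rw [hD l])

end Main

end Fermat.Agent.S56.Euler.H635

end

end
-- ===== PACK-END S56/Euler/PermH635.lean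

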