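import Mathlib
import Fermat.Agent.Pack.S56.E5L3
import Fermat.Agent.Pack.S56.E5L2
import Fermat.Agent.Pack.S56.E6L1
import Fermat.Agent.Pack.S56.E6L0
import Fermat.Agent.Pack.S56.E6L2
import Fermat.Agent.Pack.S56.E4L2
import Fermat.Agent.Pack.S56.E4L1
import Fermat.Agent.Pack.S56.E2L2

-- ===== PACK-BEGIN S55/Local/H608/LF.lean
section


/-!
# S55 layer L, pieces LF1, LF2, LF3, LF4, LF8 (helper608)

* `intOrInv      : IntOrInvStatement`        (LF1)
* `existsUnif    : ExistsUnifStatement`      (LF2)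
* `intUnitsComap : IntUnitsComapStatement`   (LF3)
* `galoisInv     : GaloisInvStatement`       (LF4)
* `normUnitsInt  : NormUnitsIntStatement`    (LF8)
-/

set_option autoImplicit false
set_option linter.unusedSectionVars false
set_option linter.style.haveILetI false

namespace Fermat.Agent.S55.Local.H608

open IsLocalRing

section Base

variable (A F : Type) [CommRing A] [Field F] [Algebra A F]
variable (L : Type) [Field L] [Algebra F L]

/-- `IsInt` is integrality for the algebra structure induced by `toL`. -/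
theorem isInt_iff_isIntegral (x : L) :
    IsInt A F L x ↔ @IsIntegral A L _ _ (toL A F L).toAlgebra x := Iff.rfl

variable (K : Type) [Field K] [Algebra F K] [Algebra K L] [IsScalarTower F K L]

theorem toL_eq_algebraMap_toL (a : A) : toL A F L a = algebraMap K L (toL A F K a) := by
  simp only [toL_apply]
  exact IsScalarTower.algebraMap_apply F K L _

/-- Integrality over `A` of the image of `y : K` in `L`. -/
theorem isInt_algebraMap_iff (y : K) : IsInt A F L (algebraMap K L y) ↔ IsInt A F K y := by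
  letI : Algebra A K := (toL A F K).toAlgebra
  letI : Algebra A L := (toL A F L).toAlgebra
  haveI : IsScalarTower A K L :=
    IsScalarTower.of_algebraMap_eq (fun a => toL_eq_algebraMap_toL A F L K a)
  exact isIntegral_algebraMap_iff (R := A) (algebraMap K L).injective

/-- A `K`-automorphism of `L` preserves integrality over `A`. -/
theorem isInt_algEquiv (σ : L ≃ₐ[K] L) {x : L} (hx : IsInt A F L x) : IsInt A F L (σ x) := by
  obtain ⟨P, hP, hPx⟩ := hx
  refine ⟨P, hP, ?_⟩
  have hσ : (σ : L →+* L).comp (toL A F L) = toL A F L := by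
    ext a
    simp only [RingHom.comp_apply, RingHom.coe_coe]
    rw [toL_eq_algebraMap_toL A F L K a, σ.commutes]
  have h := Polynomial.hom_eval₂ P (toL A F L) (σ : L →+* L) x
  rw [hPx, map_zero, hσ] at h
  exact h.symm

end Base

section LF38

/-- (LF3) -/
theorem intUnitsComap : IntUnitsComapStatement := by
  intro A F _ _ _ _ _ _ _ _ _ K _ _ _ L _ _ _ _ _ y
  rw [mem_intUnits, mem_intUnits]
  have h1 : ((unitsIncl L K y : Lˣ) : L) = algebraMap K L (y : K) := rfl
  have h2 : (((unitsIncl L K y)⁻¹ : Lˣ) : L) = algebraMap K L ((y⁻¹ : Kˣ) : K) := by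
    rw [← map_inv]; rfl
  rw [h1, h2, isInt_algebraMap_iff, isInt_algebraMap_iff]

/-- Norms of integral elements are integral. -/
theorem isInt_norm (A F : Type) [CommRing A] [Field F] [Algebra A F]
    (K : Type) [Field K] [Algebra F K]
    (L : Type) [Field L] [Algebra F L] [Algebra K L] [IsScalarTower F K L]
    {x : L} (hx : IsInt A F L x) : IsInt A F K (Algebra.norm K x) := by
  letI : Algebra A K := (toL A F K).toAlgebra
  letI : Algebra A L := (toL A F L).toAlgebra
  haveI : IsScalarTower A K L :=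
    IsScalarTower.of_algebraMap_eq (fun a => toL_eq_algebraMap_toL A F L K a)
  exact Algebra.isIntegral_norm (R := A) K hx

/-- (LF8) -/
theorem normUnitsInt : NormUnitsIntStatement := by
  intro A F _ _ _ _ _ _ _ _ _ K _ _ _ L _ _ _ _ _ x hx
  rw [mem_intUnits] at hx ⊢
  refine ⟨isInt_norm A F K L hx.1, ?_⟩
  have : (((normUnits L K x)⁻¹ : Kˣ) : K) = Algebra.norm K ((x⁻¹ : Lˣ) : L) := by
    rw [← map_inv]; rfl
  rw [this]
  exact isInt_norm A F K L hx.2

end LF38

section LF12

variable (A F : Type) [CommRing A] [IsDomain A] [IsDiscreteValuationRing A]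
  [IsAdicComplete (maximalIdeal A) A]
  [Field F] [CharZero F] [Algebra A F] [IsFractionRing A F]
  (L : Type) [Field L] [Algebra F L] [FiniteDimensional F L]

/-- (LF1), unbundled. -/
theorem isInt_or_isInt_inv (x : L) : IsInt A F L x ∨ IsInt A F L x⁻¹ := by
  letI : Algebra A L := (toL A F L).toAlgebra
  haveI : IsScalarTower A F L := IsScalarTower.of_algebraMap_eq (fun _ => rfl)
  haveI := isDVR_intCl A F L
  haveI := isFractionRing_intCl A F L
  rcases ValuationRing.isInteger_or_isInteger (integralClosure A L) x with ⟨b, hb⟩ | ⟨b, hb⟩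
  · left
    rw [← hb]
    exact b.2
  · right
    rw [← hb]
    exact b.2

/-- If `x` is integral and `x⁻¹` is not, every unit is... (structure of `Lˣ`):
there is a uniformizer. (LF2), unbundled. -/
theorem exists_isUnif : ∃ ϖ : Lˣ, IsUnif A F L ϖ := by
  letI : Algebra A L := (toL A F L).toAlgebra
  haveI : IsScalarTower A F L := IsScalarTower.of_algebraMap_eq (fun _ => rfl)
  haveI := isDVR_intCl A F L
  haveI := isFractionRing_intCl A F L
  obtain ⟨ϖ, hϖ⟩ := IsDiscreteValuationRing.exists_irreducible (integralClosure A L)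
  have hϖ0 : (ϖ : L) ≠ 0 := by
    intro h
    exact hϖ.ne_zero (Subtype.ext h)
  -- units of `B` give integral units of `L`
  have hunit : ∀ u : (integralClosure A L)ˣ, ∀ x : Lˣ, (x : L) = ((u : integralClosure A L) : L) →
      x ∈ intUnits A F L := by
    intro u x hx
    rw [mem_intUnits]
    refine ⟨by rw [hx]; exact (u : integralClosure A L).2, ?_⟩
    have : ((x⁻¹ : Lˣ) : L) = (((u⁻¹ : (integralClosure A L)ˣ) : integralClosure A L) : L) := by
      rw [Units.val_inv_eq_inv_val, hx]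
      symm
      apply eq_inv_of_mul_eq_one_left
      have h2 : ((((u⁻¹ : (integralClosure A L)ˣ) : integralClosure A L) * u :
          integralClosure A L) : L) = ((1 : integralClosure A L) : L) :=
        congrArg Subtype.val u.inv_mul
      rw [Subalgebra.coe_mul, Subalgebra.coe_one] at h2
      exact h2
    rw [this]
    exact ((u⁻¹ : (integralClosure A L)ˣ) : integralClosure A L).2
  refine ⟨Units.mk0 (ϖ : L) hϖ0, ϖ.2, ?_, ?_⟩
  · intro hmem
    rw [mem_intUnits] at hmem
    apply hϖ.not_isUnit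
    refine IsUnit.of_mul_eq_one (⟨_, hmem.2⟩ : integralClosure A L) ?_
    apply Subtype.ext
    simp [hϖ0]
  · intro x
    obtain ⟨a, b, hb, hab⟩ := IsFractionRing.div_surjective (A := integralClosure A L) (x : L)
    have hb0 : b ≠ 0 := nonZeroDivisors.ne_zero hb
    have ha0 : a ≠ 0 := by
      rintro rfl
      rw [map_zero, zero_div] at hab
      exact x.ne_zero hab.symm
    obtain ⟨m, u, hu⟩ := IsDiscreteValuationRing.eq_unit_mul_pow_irreducible ha0 hϖ
    obtain ⟨k, v, hv⟩ := IsDiscreteValuationRing.eq_unit_mul_pow_irreducible hb0 hϖ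
    refine ⟨(m : ℤ) - k, ?_⟩
    apply hunit (u * v⁻¹)
    have hvL : (((v : integralClosure A L) : L)) ≠ 0 := by
      intro h
      exact v.ne_zero (Subtype.ext h)
    have hvinv : ((((v⁻¹ : (integralClosure A L)ˣ) : integralClosure A L) : L)) =
        (((v : integralClosure A L) : L))⁻¹ := by
      apply eq_inv_of_mul_eq_one_left
      have h2 : ((((v⁻¹ : (integralClosure A L)ˣ) : integralClosure A L) * v :
          integralClosure A L) : L) = ((1 : integralClosure A L) : L) :=
        congrArg Subtype.val v.inv_mul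
      rw [Subalgebra.coe_mul, Subalgebra.coe_one] at h2
      exact h2
    have hx : (x : L) = (((u : integralClosure A L) : L) * (ϖ : L) ^ m) /
        (((v : integralClosure A L) : L) * (ϖ : L) ^ k) := by
      rw [← hab, hu, hv]
      simp
    rw [Units.val_mul, Units.val_zpow_eq_zpow_val, Units.val_mk0, hx, Units.val_mul,
      Subalgebra.coe_mul, hvinv, neg_sub, zpow_sub₀ hϖ0, zpow_natCast, zpow_natCast]
    field_simp

end LF12

/-- (LF1) -/
theorem intOrInv : IntOrInvStatement := by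
  intro A F _ _ _ _ _ _ _ _ _ L _ _ _ x
  exact isInt_or_isInt_inv A F L x

/-- (LF2) -/
theorem existsUnif : ExistsUnifStatement := by
  intro A F _ _ _ _ _ _ _ _ _ L _ _ _
  exact exists_isUnif A F L

/-- (LF4) -/
theorem galoisInv : GaloisInvStatement := by
  intro A F _ _ _ _ _ _ _ _ _ K _ _ _ L _ _ _ _ _ σ x
  haveI : FiniteDimensional F L := FiniteDimensional.trans F K L
  -- `y = σ x / x`
  set y : Lˣ := σ • x / x with hy
  -- the product of the `σ^i y`, `i < n`, telescopes to `σ^n x / x`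
  have htel : ∀ n : ℕ, ∏ i ∈ Finset.range n, (σ ^ i) • y = (σ ^ n) • x / x := by
    intro n
    induction n with
    | zero => simp
    | succ n ih =>
      rw [Finset.prod_range_succ, ih, hy, smul_div', ← mul_smul, ← pow_succ]
      rw [div_mul_div_comm, mul_comm ((σ ^ n) • x), mul_div_mul_right_eq_div]
  have hfin : IsOfFinOrder σ := isOfFinOrder_of_finite σ
  have hn : 0 < orderOf σ := hfin.orderOf_pos
  have hprod : ∏ i ∈ Finset.range (orderOf σ), (σ ^ i) • y = 1 := by
    rw [htel, pow_orderOf_eq_one, one_smul, div_self']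
  -- split off the factor `i = 0`
  obtain ⟨n, hn'⟩ : ∃ n, orderOf σ = n + 1 := ⟨orderOf σ - 1, by omega⟩
  rw [hn', Finset.prod_range_succ'] at hprod
  simp only [pow_zero, one_smul] at hprod
  -- integrality of a product of conjugates
  have hint : ∀ z : Lˣ, IsInt A F L (z : L) →
      IsInt A F L ((∏ i ∈ Finset.range n, (σ ^ (i + 1)) • z : Lˣ) : L) := by
    intro z hz
    rw [Units.coe_prod]
    induction Finset.range n using Finset.induction_on with
    | empty => simpa using isInt_one A F L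
    | insert a s has ih =>
      rw [Finset.prod_insert has]
      refine IsInt.mul ?_ ih
      exact isInt_algEquiv A F L K (σ ^ (a + 1)) hz
  rw [mem_intUnits]
  rcases isInt_or_isInt_inv A F L (y : L) with h | h
  · refine ⟨h, ?_⟩
    have : (y⁻¹ : Lˣ) = ∏ i ∈ Finset.range n, (σ ^ (i + 1)) • y :=
      inv_eq_of_mul_eq_one_left hprod
    rw [this]
    exact hint y h
  · have h' : IsInt A F L ((y⁻¹ : Lˣ) : L) := by simpa using h
    refine ⟨?_, h'⟩
    have hprod' : (∏ i ∈ Finset.range n, (σ ^ (i + 1)) • y⁻¹) * y⁻¹ = 1 := by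
      have := congrArg (fun t : Lˣ => t⁻¹) hprod
      simp only [mul_inv, inv_one] at this
      rw [← this, ← Finset.prod_inv_distrib]
      simp only [smul_inv']
    have : y = ∏ i ∈ Finset.range n, (σ ^ (i + 1)) • y⁻¹ := by
      have h3 := inv_eq_of_mul_eq_one_left hprod'
      rw [inv_inv] at h3
      exact h3
    rw [this]
    exact hint y⁻¹ h'

end Fermat.Agent.S55.Local.H608

end
-- ===== PACK-END S55/Local/H608/LF.lean

-- ===== PACK-BEGIN S55/T/PermH652.lean
section


/-!
# S55, layer T, piece T10 (helper652): permutation modules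

`permSpec_of : ShapiroRecognitionSpec → DirectSumSpec → PermSpec` and
`permH1Spec_of : ShapiroRecognitionSpec → DirectSumSpec → PermH1Spec`.
-/

set_option autoImplicit false

open CategoryTheory groupCohomology

namespace Fermat.Agent.S55.T.H652

open Fermat.Agent.S55.T

section Basic

variable {k G : Type} [CommRing k] [Group G]

/-- `groupCohomology.map` of the zero morphism is zero. -/
lemma map_zero_h652 {H : Type} [Group H] {A : Rep.{0} k H} {B : Rep.{0} k G} (f : G →* H) (n : ℕ) :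
    groupCohomology.map f (0 : Rep.res f A ⟶ B) n = 0 := by
  unfold groupCohomology.map
  rw [groupCohomology.cochainsMap_zero]
  exact HomologicalComplex.homologyMap_zero _ _ _

variable {X : Type} [MulAction G X]

/-- The inclusion `k[O] → k[X]` of the permutation module of an orbit, as a linear map. -/
noncomputable def incLin (k : Type) [CommRing k] (ω : MulAction.orbitRel.Quotient G X) :
    MonoidAlgebra k ω.orbit →ₗ[k] MonoidAlgebra k X :=
  (MonoidAlgebra.coeffLinearEquiv k).symm.toLinearMap ∘ₗ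
    Finsupp.lmapDomain k k (Subtype.val : ω.orbit → X) ∘ₗ
      (MonoidAlgebra.coeffLinearEquiv k).toLinearMap

lemma incLin_single (ω : MulAction.orbitRel.Quotient G X) (y : ω.orbit) (r : k) :
    incLin k ω (MonoidAlgebra.single y r) = MonoidAlgebra.single (y : X) r := by
  apply MonoidAlgebra.ext
  simp [incLin, MonoidAlgebra.coeff_single]

/-- The projection `k[X] → k[O]` onto the permutation module of an orbit. -/
noncomputable def projLin (k : Type) [CommRing k] (ω : MulAction.orbitRel.Quotient G X) :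
    MonoidAlgebra k X →ₗ[k] MonoidAlgebra k ω.orbit :=
  (MonoidAlgebra.coeffLinearEquiv k).symm.toLinearMap ∘ₗ
    Finsupp.lcomapDomain (Subtype.val : ω.orbit → X) Subtype.val_injective ∘ₗ
      (MonoidAlgebra.coeffLinearEquiv k).toLinearMap

lemma projLin_coeff (ω : MulAction.orbitRel.Quotient G X) (v : MonoidAlgebra k X) (y : ω.orbit) :
    (projLin k ω v).coeff y = v.coeff (y : X) := by
  simp [projLin]

lemma projLin_incLin (ω : MulAction.orbitRel.Quotient G X) (v : MonoidAlgebra k ω.orbit) :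
    projLin k ω (incLin k ω v) = v := by
  induction v using MonoidAlgebra.induction_linear with
  | zero => simp
  | add x y hx hy => simp [hx, hy]
  | single y r =>
    apply MonoidAlgebra.ext
    ext z
    classical
    rw [incLin_single, projLin_coeff, MonoidAlgebra.coeff_single, MonoidAlgebra.coeff_single,
      Finsupp.single_apply, Finsupp.single_apply]
    simp only [Subtype.ext_iff]

lemma projLin_incLin_of_ne {ω ω' : MulAction.orbitRel.Quotient G X} (h : ω' ≠ ω)
    (v : MonoidAlgebra k ω'.orbit) : projLin k ω (incLin k ω' v) = 0 := by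
  induction v using MonoidAlgebra.induction_linear with
  | zero => simp
  | add x y hx hy => simp [hx, hy]
  | single y r =>
    apply MonoidAlgebra.ext
    ext z
    classical
    rw [incLin_single, projLin_coeff, MonoidAlgebra.coeff_single, Finsupp.single_apply]
    have hne : (y : X) ≠ (z : X) := by
      intro hyz
      apply h
      have hy := MulAction.orbitRel.Quotient.mem_orbit.1 y.2
      have hz := MulAction.orbitRel.Quotient.mem_orbit.1 z.2
      rw [← hy, ← hz, hyz]
    simp [hne]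

/-- The inclusion `k[O] ⟶ k[X]` as a morphism of representations. -/
noncomputable def inc (k : Type) [CommRing k] (ω : MulAction.orbitRel.Quotient G X) :
    Rep.ofMulAction k G ω.orbit ⟶ Rep.ofMulAction k G X :=
  Rep.ofHom
    { toLinearMap := incLin k ω
      isIntertwining' := fun g => by
        refine MonoidAlgebra.lhom_ext' fun y => LinearMap.ext_ring ?_
        simp only [LinearMap.comp_apply, MonoidAlgebra.lsingle_apply]
        rw [Representation.ofMulAction_single, incLin_single, incLin_single,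
          Representation.ofMulAction_single]
        rfl }

lemma inc_hom_apply (ω : MulAction.orbitRel.Quotient G X) (v : MonoidAlgebra k ω.orbit) :
    (inc k ω).hom v = incLin k ω v := rfl

section DirectSumDecomposition

variable (k G X)

/-- `k[X]` is the internal direct sum of the `k[O]`, `O` running over the orbits. -/
lemma toModule_inc_bijective [DecidableEq (MulAction.orbitRel.Quotient G X)] :
    Function.Bijective
      (DirectSum.toModule k (MulAction.orbitRel.Quotient G X) (Rep.ofMulAction k G X).V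
        (fun ω => (inc k ω).hom.toLinearMap)) := by
  constructor
  · rw [injective_iff_map_eq_zero]
    intro d hd
    have key : ∀ ω : MulAction.orbitRel.Quotient G X,
        (projLin k ω) ∘ₗ (DirectSum.toModule k (MulAction.orbitRel.Quotient G X)
          (Rep.ofMulAction k G X).V (fun ω => (inc k ω).hom.toLinearMap)) =
        DirectSum.component k (MulAction.orbitRel.Quotient G X)
          (fun ω => (Rep.ofMulAction k G ω.orbit).V) ω := by
      intro ω
      apply DirectSum.linearMap_ext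
      intro ω'
      refine LinearMap.ext fun v => ?_
      simp only [LinearMap.comp_apply, DirectSum.toModule_lof, DirectSum.component.of]
      by_cases h : ω' = ω
      · subst h
        simp only [dif_pos]
        exact projLin_incLin ω' v
      · rw [dif_neg h]
        exact projLin_incLin_of_ne h v
    apply DFinsupp.ext
    intro ω
    have := congrArg (fun L => L d) (key ω)
    simp only [LinearMap.comp_apply, hd, map_zero] at this
    exact this.symm
  · intro v
    induction v using MonoidAlgebra.induction_linear with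
    | zero => exact ⟨0, map_zero _⟩
    | add x y hx hy =>
      obtain ⟨a, ha⟩ := hx
      obtain ⟨b, hb⟩ := hy
      exact ⟨a + b, by rw [map_add, ha, hb]⟩
    | single x r =>
      refine ⟨DirectSum.lof k _ _ (Quotient.mk'' x : MulAction.orbitRel.Quotient G X)
        (MonoidAlgebra.single ⟨x, MulAction.orbitRel.Quotient.mem_orbit.2 rfl⟩ r), ?_⟩
      rw [DirectSum.toModule_lof]
      exact incLin_single _ _ r

end DirectSumDecomposition

lemma incLin_coeff (ω : MulAction.orbitRel.Quotient G X) (v : MonoidAlgebra k ω.orbit)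
    (y : ω.orbit) : (incLin k ω v).coeff (y : X) = v.coeff y := by
  rw [← projLin_coeff, projLin_incLin]

lemma incLin_coeff_of_notMem (ω : MulAction.orbitRel.Quotient G X) (v : MonoidAlgebra k ω.orbit)
    (x : X) (hx : x ∉ ω.orbit) : (incLin k ω v).coeff x = 0 := by
  induction v using MonoidAlgebra.induction_linear with
  | zero => simp
  | add a b ha hb => simp [ha, hb]
  | single y r =>
    classical
    rw [incLin_single, MonoidAlgebra.coeff_single, Finsupp.single_apply]
    have : (y : X) ≠ x := fun h => hx (h ▸ y.2)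
    simp [this]

lemma permCoeffLin_apply (x : X) (w : MonoidAlgebra k X) : permCoeffLin k X x w = w.coeff x := by
  simp [permCoeffLin]

/-- The localisation morphism `k[O] ⟶ k` at a point `x`, equivariant for the stabiliser. -/
noncomputable def piMor (k : Type) [CommRing k] (ω : MulAction.orbitRel.Quotient G X) (x : X) :
    Rep.res (MulAction.stabilizer G x).subtype (Rep.ofMulAction k G ω.orbit) ⟶
      Rep.trivial k (MulAction.stabilizer G x) k :=
  (Rep.resFunctor (MulAction.stabilizer G x).subtype).map (inc k ω) ≫ permCoeff X x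

lemma piMor_hom_apply (ω : MulAction.orbitRel.Quotient G X) (x : X)
    (v : MonoidAlgebra k ω.orbit) :
    (piMor k ω x).hom v = (incLin k ω v).coeff x := by
  rw [← permCoeffLin_apply]
  rfl

lemma piMor_eq_zero (ω : MulAction.orbitRel.Quotient G X) (x : X) (hx : x ∉ ω.orbit) :
    piMor k ω x = 0 := by
  apply Rep.hom_ext
  rw [Rep.zero_hom]
  refine DFunLike.ext _ _ fun v => ?_
  rw [piMor_hom_apply, incLin_coeff_of_notMem ω v x hx]
  rfl

/-- Factorisation of the localisation map through the orbit of the point. -/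
lemma coeffMap_inc_comp_permLoc (ω : MulAction.orbitRel.Quotient G X) (x : X) (n : ℕ) :
    coeffMap (inc k ω) n ≫ permLoc X x n =
      groupCohomology.map (MulAction.stabilizer G x).subtype (piMor k ω x) n := by
  have h := groupCohomology.map_comp (A := Rep.ofMulAction k G ω.orbit)
    (B := Rep.ofMulAction k G X) (C := Rep.trivial k (MulAction.stabilizer G x) k)
    (MonoidHom.id G) (MulAction.stabilizer G x).subtype
    (inc k ω) (permCoeff X x) n
  exact h.symm

end Basic

section Finite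

variable {k G : Type} [CommRing k] [Group G] [Finite G] {X : Type} [MulAction G X]

lemma finite_orbit_h652 (ω : MulAction.orbitRel.Quotient G X) : Finite ω.orbit := by
  obtain ⟨x, hx⟩ : ∃ x : X, x ∈ ω.orbit := by
    rcases Quotient.exists_rep ω with ⟨x, rfl⟩
    exact ⟨x, MulAction.orbitRel.Quotient.mem_orbit.2 rfl⟩
  exact Finite.of_surjective (fun g : G => g • (⟨x, hx⟩ : ω.orbit))
    (MulAction.exists_smul_eq G _)

/-- The hypothesis of Shapiro's lemma (recognition form) for the orbit module `k[O]`. -/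
lemma shapiro_hyp (ω : MulAction.orbitRel.Quotient G X) (x : X) (hx : x ∈ ω.orbit)
    (f : G → (Rep.trivial k (MulAction.stabilizer G x) k).V)
    (hf : ∀ (s : MulAction.stabilizer G x) (g : G),
      f (s * g) = (Rep.trivial k (MulAction.stabilizer G x) k).ρ s (f g)) :
    ∃! b : (Rep.ofMulAction k G ω.orbit).V,
      ∀ g : G, (piMor k ω x).hom ((Rep.ofMulAction k G ω.orbit).ρ g b) = f g := by
  have := finite_orbit_h652 ω
  set xO : ω.orbit := ⟨x, hx⟩ with hxO
  have hkey : ∀ (g : G) (b : MonoidAlgebra k ω.orbit),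
      (piMor k ω x).hom ((Rep.ofMulAction k G ω.orbit).ρ g b) = b.coeff (g⁻¹ • xO) := by
    intro g b
    rw [piMor_hom_apply]
    have h1 := incLin_coeff ω ((Rep.ofMulAction k G ω.orbit).ρ g b) xO
    rw [show ((xO : ω.orbit) : X) = x from rfl] at h1
    rw [h1]
    simp
  have hf' : ∀ (g g' : G), g⁻¹ • xO = g'⁻¹ • xO → f g = f g' := by
    intro g g' h
    have hs : (g * g'⁻¹) • x = x := by
      have h2 : g • (g'⁻¹ • xO) = xO := by rw [← h, smul_inv_smul]
      have h3 := congrArg (Subtype.val) h2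
      simpa [mul_smul] using h3
    have := hf ⟨g * g'⁻¹, hs⟩ g'
    simp only [inv_mul_cancel_right] at this
    rw [this]
    simp
  have hex : ∀ y : ω.orbit, ∃ g : G, g⁻¹ • xO = y := by
    intro y
    obtain ⟨h, hh⟩ := MulAction.exists_smul_eq G xO y
    exact ⟨h⁻¹, by rw [inv_inv]; exact hh⟩
  choose gy hgy using hex
  refine ⟨MonoidAlgebra.ofCoeff (Finsupp.equivFunOnFinite.symm (fun y => f (gy y))), ?_, ?_⟩
  · intro g
    rw [hkey, MonoidAlgebra.coeff_ofCoeff]
    simp only [Finsupp.equivFunOnFinite_symm_apply_apply]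
    exact hf' _ _ (hgy _)
  · intro b' hb'
    apply MonoidAlgebra.ext
    ext y
    rw [MonoidAlgebra.coeff_ofCoeff]
    simp only [Finsupp.equivFunOnFinite_symm_apply_apply]
    have := hb' (gy y)
    rw [hkey, hgy] at this
    exact this

omit [Finite G] in
lemma exists_mem_orbit_h652 (ω : MulAction.orbitRel.Quotient G X) : ∃ x : X, x ∈ ω.orbit := by
  rcases Quotient.exists_rep ω with ⟨x, rfl⟩
  exact ⟨x, MulAction.orbitRel.Quotient.mem_orbit.2 rfl⟩

omit [Finite G] in
lemma notMem_orbit_of_ne {ω ω' : MulAction.orbitRel.Quotient G X} (h : ω' ≠ ω) {x : X}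
    (hx : x ∈ ω.orbit) : x ∉ ω'.orbit := by
  intro hx'
  apply h
  rw [← MulAction.orbitRel.Quotient.mem_orbit.1 hx, ← MulAction.orbitRel.Quotient.mem_orbit.1 hx']

end Finite

/-- **T10** from Shapiro (recognition form) and the direct sum spec. -/
theorem permSpec_of (hS : ShapiroRecognitionSpec) (hD : DirectSumSpec) : PermSpec := by
  intro k G _ _ _ X _ n
  classical
  have hSh : ∀ (ω : MulAction.orbitRel.Quotient G X) (x : X), x ∈ ω.orbit →
      Function.Bijective
        (groupCohomology.map (MulAction.stabilizer G x).subtype (piMor k ω x) n).hom :=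
    fun ω x hx => hS k G (MulAction.stabilizer G x) (Rep.trivial k (MulAction.stabilizer G x) k)
      (Rep.ofMulAction k G ω.orbit) (piMor k ω x) (shapiro_hyp ω x hx) n
  have hfac : ∀ (ω : MulAction.orbitRel.Quotient G X) (x : X)
      (v : groupCohomology (Rep.ofMulAction k G ω.orbit) n),
      (permLoc X x n).hom ((coeffMap (inc k ω) n).hom v) =
        (groupCohomology.map (MulAction.stabilizer G x).subtype (piMor k ω x) n).hom v := by
    intro ω x v
    rw [← coeffMap_inc_comp_permLoc]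
    rfl
  have hzero : ∀ (ω : MulAction.orbitRel.Quotient G X) (x : X), x ∉ ω.orbit →
      ∀ v : groupCohomology (Rep.ofMulAction k G ω.orbit) n,
      (permLoc X x n).hom ((coeffMap (inc k ω) n).hom v) = 0 := by
    intro ω x hx v
    rw [hfac, piMor_eq_zero ω x hx, map_zero_h652]
    rfl
  constructor
  · intro c hc
    obtain ⟨d, rfl⟩ := (hD k G (MulAction.orbitRel.Quotient G X)
      (fun ω => Rep.ofMulAction k G ω.orbit) (Rep.ofMulAction k G X) (fun ω => inc k ω)
      (toModule_inc_bijective k G X) n).2 c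
    suffices hd : d = 0 by rw [hd, map_zero]
    apply DFinsupp.ext
    intro ω
    obtain ⟨x, hx⟩ := exists_mem_orbit_h652 ω
    have key : (permLoc X x n).hom.comp
        (DirectSum.toModule k (MulAction.orbitRel.Quotient G X)
          (groupCohomology (Rep.ofMulAction k G X) n)
          (fun ω => (coeffMap (inc k ω) n).hom)) =
        (groupCohomology.map (MulAction.stabilizer G x).subtype (piMor k ω x) n).hom.comp
          (DirectSum.component k (MulAction.orbitRel.Quotient G X)
            (fun ω => groupCohomology (Rep.ofMulAction k G ω.orbit) n) ω) := by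
      apply DirectSum.linearMap_ext
      intro ω'
      refine LinearMap.ext fun v => ?_
      simp only [LinearMap.comp_apply, DirectSum.toModule_lof, DirectSum.component.of]
      by_cases h : ω' = ω
      · subst h
        simp only [dif_pos]
        exact hfac ω' x v
      · rw [dif_neg h, map_zero]
        exact hzero ω' x (notMem_orbit_of_ne h hx) v
    have h1 := congrArg (fun L => L d) key
    simp only [LinearMap.comp_apply] at h1
    rw [hc x] at h1
    have h2 := (hSh ω x hx).1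
    apply h2
    rw [DirectSum.zero_apply, map_zero]
    exact h1.symm
  · intro x y
    set ω : MulAction.orbitRel.Quotient G X := Quotient.mk'' x with hω
    have hx : x ∈ ω.orbit := MulAction.orbitRel.Quotient.mem_orbit.2 rfl
    obtain ⟨c₀, hc₀⟩ := (hSh ω x hx).2 y
    refine ⟨(coeffMap (inc k ω) n).hom c₀, ?_, ?_⟩
    · rw [hfac, hc₀]
    · intro x' hx'
      apply hzero
      rw [hω, MulAction.orbitRel.Quotient.orbit_mk]
      exact hx'

/-- `H¹(S, ℤ) = 0` for a finite group `S` (trivial action). -/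
lemma h1_trivial_int_eq_zero (S : Type) [Group S] [Finite S]
    (c : groupCohomology (Rep.trivial ℤ S ℤ) 1) : c = 0 := by
  have e := groupCohomology.H1IsoOfIsTrivial (Rep.trivial ℤ S ℤ)
  have hsub : Subsingleton (Additive S →+ ℤ) := by
    constructor
    intro a b
    have hz : ∀ φ : Additive S →+ ℤ, φ = 0 := by
      intro φ
      refine AddMonoidHom.ext fun s => ?_
      have hfin : Finite (Additive S) := inferInstanceAs (Finite S)
      obtain ⟨m, hm, hms⟩ := (isOfFinAddOrder_of_finite s).exists_nsmul_eq_zero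
      have : m • φ s = 0 := by rw [← map_nsmul, hms, map_zero]
      simpa [hm.ne'] using this
    rw [hz a, hz b]
  have hinj : Function.Injective e.hom.hom := by
    have := (ConcreteCategory.bijective_of_isIso e.hom).1
    exact this
  apply hinj
  exact Subsingleton.elim _ _

/-- **T10'** from Shapiro (recognition form) and the direct sum spec. -/
theorem permH1Spec_of (hS : ShapiroRecognitionSpec) (hD : DirectSumSpec) : PermH1Spec := by
  intro G _ _ X _
  rw [ModuleCat.isZero_iff_subsingleton]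
  have hz : ∀ c : groupCohomology (Rep.ofMulAction ℤ G X) 1, c = 0 := by
    intro c
    apply (permSpec_of hS hD ℤ G X 1).1 c
    intro x
    exact h1_trivial_int_eq_zero _ _
  exact ⟨fun a b => by rw [hz a, hz b]⟩

end Fermat.Agent.S55.T.H652

end
-- ===== PACK-END S55/T/PermH652.lean

-- ===== PACK-BEGIN S55/G/PermBasic.lean
section
/-
S55, layer G, block G-U (helper595): basic algebra of the permutation lattices `ℤ^X`, `ℝ^X`
of `SpecUnits.lean` (`permHom`, `permAug`, `permNorm`, `sumHom`, `traceZero`, `stabProd`).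
-/



set_option autoImplicit false

namespace Fermat.Agent.S55.G

universe u v

section Perm

variable (G : Type u) [Group G] (X : Type v) [MulAction G X]

@[simp] lemma permHom_apply (τ : G) (a : X → ℤ) (x : X) :
    permHom G X τ a x = a (τ⁻¹ • x) := rfl

@[simp] lemma permHomR_apply (τ : G) (a : X → ℝ) (x : X) :
    permHomR G X τ a x = a (τ⁻¹ • x) := rfl

lemma permHom_mul (σ τ : G) (a : X → ℤ) :
    permHom G X (σ * τ) a = permHom G X σ (permHom G X τ a) := by
  funext x
  simp only [permHom_apply, mul_inv_rev, mul_smul]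

lemma permHomR_mul (σ τ : G) (a : X → ℝ) :
    permHomR G X (σ * τ) a = permHomR G X σ (permHomR G X τ a) := by
  funext x
  simp only [permHomR_apply, mul_inv_rev, mul_smul]

lemma permHom_one (a : X → ℤ) : permHom G X 1 a = a := by
  funext x
  simp only [permHom_apply, inv_one, one_smul]

lemma permHomR_one (a : X → ℝ) : permHomR G X 1 a = a := by
  funext x
  simp only [permHomR_apply, inv_one, one_smul]

lemma permAug_apply (σ : G) (a : X → ℤ) :
    permAug G X σ a = permHom G X σ a - a := rfl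

lemma permAugR_apply (σ : G) (a : X → ℝ) :
    permAugR G X σ a = permHomR G X σ a - a := rfl

lemma permNorm_apply [Fintype G] (a : X → ℤ) :
    permNorm G X a = ∑ τ : G, permHom G X τ a := by
  unfold permNorm
  rw [AddMonoidHom.finsetSum_apply]

lemma permNormR_apply [Fintype G] (a : X → ℝ) :
    permNormR G X a = ∑ τ : G, permHomR G X τ a := by
  unfold permNormR
  rw [AddMonoidHom.finsetSum_apply]

lemma permHom_permNorm [Fintype G] (σ : G) (a : X → ℤ) :
    permHom G X σ (permNorm G X a) = permNorm G X a := by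
  rw [permNorm_apply, map_sum]
  simp only [← permHom_mul]
  exact Fintype.sum_equiv (Equiv.mulLeft σ) _ _ (fun _ => rfl)

lemma permHomR_permNormR [Fintype G] (σ : G) (a : X → ℝ) :
    permHomR G X σ (permNormR G X a) = permNormR G X a := by
  rw [permNormR_apply, map_sum]
  simp only [← permHomR_mul]
  exact Fintype.sum_equiv (Equiv.mulLeft σ) _ _ (fun _ => rfl)

lemma permNorm_permHom [Fintype G] (σ : G) (a : X → ℤ) :
    permNorm G X (permHom G X σ a) = permNorm G X a := by
  rw [permNorm_apply, permNorm_apply]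
  simp only [← permHom_mul]
  exact Fintype.sum_equiv (Equiv.mulRight σ) _ _ (fun _ => rfl)

lemma permNormR_permHomR [Fintype G] (σ : G) (a : X → ℝ) :
    permNormR G X (permHomR G X σ a) = permNormR G X a := by
  rw [permNormR_apply, permNormR_apply]
  simp only [← permHomR_mul]
  exact Fintype.sum_equiv (Equiv.mulRight σ) _ _ (fun _ => rfl)

lemma permAug_permNorm [Fintype G] (σ : G) (a : X → ℤ) :
    permAug G X σ (permNorm G X a) = 0 := by
  rw [permAug_apply, permHom_permNorm, sub_self]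

lemma permNorm_permAug [Fintype G] (σ : G) (a : X → ℤ) :
    permNorm G X (permAug G X σ a) = 0 := by
  rw [permAug_apply, map_sub, permNorm_permHom, sub_self]

lemma permAugR_permNormR [Fintype G] (σ : G) (a : X → ℝ) :
    permAugR G X σ (permNormR G X a) = 0 := by
  rw [permAugR_apply, permHomR_permNormR, sub_self]

lemma permNormR_permAugR [Fintype G] (σ : G) (a : X → ℝ) :
    permNormR G X (permAugR G X σ a) = 0 := by
  rw [permAugR_apply, map_sub, permNormR_permHomR, sub_self]

/-- The coefficientwise inclusion `ℤ^X → ℝ^X`. -/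
def coeHomR : (X → ℤ) →+ (X → ℝ) where
  toFun a x := (a x : ℝ)
  map_zero' := by funext x; simp
  map_add' a b := by funext x; simp

@[simp] lemma coeHomR_apply (a : X → ℤ) (x : X) : coeHomR X a x = (a x : ℝ) := rfl

lemma coeHomR_injective : Function.Injective (coeHomR X) := by
  intro a b h
  funext x
  have := congrFun h x
  simpa using this

lemma coeHomR_permHom (τ : G) (a : X → ℤ) :
    coeHomR X (permHom G X τ a) = permHomR G X τ (coeHomR X a) := rfl

lemma coeHomR_permAug (σ : G) (a : X → ℤ) :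
    coeHomR X (permAug G X σ a) = permAugR G X σ (coeHomR X a) := by
  rw [permAug_apply, permAugR_apply, map_sub, coeHomR_permHom]

lemma coeHomR_permNorm [Fintype G] (a : X → ℤ) :
    coeHomR X (permNorm G X a) = permNormR G X (coeHomR X a) := by
  rw [permNorm_apply, permNormR_apply, map_sum]
  simp only [coeHomR_permHom]

variable [Fintype X]

@[simp] lemma sumHom_apply (a : X → ℤ) : sumHom X a = ∑ x, a x := rfl

lemma sumHom_permHom (τ : G) (a : X → ℤ) : sumHom X (permHom G X τ a) = sumHom X a := by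
  simp only [sumHom_apply, permHom_apply]
  exact Equiv.sum_comp (MulAction.toPerm τ⁻¹) a

lemma sumHom_permAug (σ : G) (a : X → ℤ) : sumHom X (permAug G X σ a) = 0 := by
  rw [permAug_apply, map_sub, sumHom_permHom, sub_self]

lemma sumHom_permNorm [Fintype G] (a : X → ℤ) :
    sumHom X (permNorm G X a) = Fintype.card G • sumHom X a := by
  rw [permNorm_apply, map_sum]
  simp only [sumHom_permHom]
  rw [Finset.sum_const, Finset.card_univ]

lemma sumHom_surjective [Nonempty X] : Function.Surjective (sumHom X) := by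
  classical
  obtain ⟨x₀⟩ := ‹Nonempty X›
  intro n
  refine ⟨Pi.single x₀ n, ?_⟩
  simp only [sumHom_apply]
  rw [Finset.sum_pi_single']
  simp

lemma mem_traceZero (a : X → ℤ) : a ∈ traceZero X ↔ ∑ x, a x = 0 := Iff.rfl

lemma stabProd_ne_zero [Finite G] : stabProd G X ≠ 0 := by
  unfold stabProd
  refine Finset.prod_ne_zero_iff.2 (fun o _ => ?_)
  exact Nat.card_pos.ne'

end Perm

end Fermat.Agent.S55.G

end
-- ===== PACK-END S55/G/PermBasic.lean

-- ===== PACK-BEGIN S55/G/Orb434.lean
section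
/-
S55, layer G, block G-U, leaf GU-ORB (helper434): orbits of the infinite places.
Proves `Fermat.Agent.S55.G.OrbitInfSpec` of `SpecUnits.lean` (sub-architect helper595).
-/



set_option autoImplicit false

namespace Fermat.Agent.S55.G.Orb434

open NumberField InfinitePlace

universe u v

/-- Orbit representatives: the class of `o.out` is `o`, so `orbitRelEquiv o` is the restriction
of `o.out` to the base field. -/
theorem orbitRelEquiv_eq_comap_out (K : Type u) (L : Type v) [Field K] [Field L]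
    [NumberField K] [NumberField L] [Algebra K L] [IsGalois K L]
    (o : MulAction.orbitRel.Quotient (L ≃ₐ[K] L) (InfinitePlace L)) :
    (orbitRelEquiv (k := K) (K := L)) o = (o.out).comap (algebraMap K L) := by
  conv_lhs => rw [← Quotient.out_eq o]
  rfl

/-- The stabiliser of an orbit representative has order `1` or `2` according to whether the place
below is unramified in `L` or not. -/
theorem card_stabilizer_out (K : Type u) (L : Type v) [Field K] [Field L]
    [NumberField K] [NumberField L] [Algebra K L] [IsGalois K L]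
    (o : MulAction.orbitRel.Quotient (L ≃ₐ[K] L) (InfinitePlace L)) :
    Nat.card (MulAction.stabilizer (L ≃ₐ[K] L) o.out) =
      (letI := Classical.propDecidable
          (((orbitRelEquiv (k := K) (K := L)) o).IsUnramifiedIn L)
       if ((orbitRelEquiv (k := K) (K := L)) o).IsUnramifiedIn L then 1 else 2) := by
  classical
  rw [orbitRelEquiv_eq_comap_out]
  by_cases h : (o.out).IsUnramified K
  · have h' : ((o.out).comap (algebraMap K L)).IsUnramifiedIn L := isUnramifiedIn_comap.mpr h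
    rw [if_pos h']
    exact (isUnramified_iff_card_stabilizer_eq_one (k := K)).mp h
  · have h' : ¬ ((o.out).comap (algebraMap K L)).IsUnramifiedIn L :=
      fun H => h (isUnramifiedIn_comap.mp H)
    rw [if_neg h']
    exact (not_isUnramified_iff_card_stabilizer_eq_two (k := K)).mp h

/-- **GU-ORB**: the stabiliser product of the Galois set of infinite places of `L` is the product
of the local degrees at the infinite places of `K`. -/
theorem orbitInfSpec : Fermat.Agent.S55.G.OrbitInfSpec.{u, v} := by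
  intro K L _ _ _ _ _ _
  classical
  unfold stabProd infDegProd
  letI : Fintype (MulAction.orbitRel.Quotient (L ≃ₐ[K] L) (InfinitePlace L)) :=
    Fintype.ofFinite _
  exact Fintype.prod_equiv (orbitRelEquiv (k := K) (K := L))
    (fun o : MulAction.orbitRel.Quotient (L ≃ₐ[K] L) (InfinitePlace L) =>
      Nat.card (MulAction.stabilizer (L ≃ₐ[K] L) o.out))
    (fun v : InfinitePlace K => (letI := Classical.propDecidable (v.IsUnramifiedIn L)
      if v.IsUnramifiedIn L then 1 else 2))
    (fun o => card_stabilizer_out K L o)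

end Fermat.Agent.S55.G.Orb434

end
-- ===== PACK-END S55/G/Orb434.lean

-- ===== PACK-BEGIN S55/G/UpH119/Cyc.lean
section


/-!
# G-CYC: the cyclic layer of degree `p` (helper119)

`CyclicLayerSpec` follows formally from the first and the second inequality.
-/

set_option autoImplicit false

open CategoryTheory groupCohomology

namespace Fermat.Agent.S55.G.UpH119

/-- **G-CYC** from G-FI and G-SI. -/
theorem cyclicLayer_of (hFI : FirstInequalitySpec) (hSI : SecondInequalitySpec) :
    CyclicLayerSpec := by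
  intro p hp hp2 S G L _ _ _ _ _ _ hpS hcard hunr hζ
  have hS : S.Nonempty := ⟨_, hpS⟩
  obtain ⟨hf1, hf2, hc⟩ := hFI p hp2 S G L hS hcard
  obtain ⟨_, hd⟩ := hSI p hp2 S G L hpS hcard hunr hζ
  have hpos1 : 0 < Nat.card (groupCohomology (CRep S G L) 1) := Nat.card_pos
  rw [hc] at hd
  have h1 : Nat.card (groupCohomology (CRep S G L) 1) = 1 := by
    have hle : p * Nat.card (groupCohomology (CRep S G L) 1) ≤ p :=
      Nat.le_of_dvd hp.out.pos hd
    have : Nat.card (groupCohomology (CRep S G L) 1) ≤ 1 := by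
      by_contra hcon
      rw [not_le] at hcon
      have : p * 2 ≤ p * Nat.card (groupCohomology (CRep S G L) 1) :=
        Nat.mul_le_mul_left p hcon
      have hp0 := hp.out.pos
      omega
    omega
  refine ⟨?_, ?_⟩
  · rw [ModuleCat.isZero_iff_subsingleton]
    exact (Nat.card_eq_one_iff_unique.1 h1).1
  · rw [hc, h1, mul_one]

end Fermat.Agent.S55.G.UpH119

end
-- ===== PACK-END S55/G/UpH119/Cyc.lean

-- ===== PACK-BEGIN S55/H963/BrAdele.lean
section


/-!
# S55 / G-SI bridge (helper963): the `S`-adèle ring `K ⊗ ℚ_S` and its integral subring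

* `zsToQs : ℤ_S → ℚ_S`, `phi : ℤ_S ⊗ 𝓞 K → K ⊗ ℚ_S`;
* `exists_pow_eq_AS` : `1 + P ^ (2n+2) φ(r)` is an `n`-th power in `K ⊗ ℚ_S`;
* `exists_denom_AS` : every `α ∈ K ⊗ ℚ_S` is `P ^ (-e) φ(r)`;
* `exists_approx_AS` : weak approximation, `K` is dense in `K ⊗ ℚ_S`.
-/

set_option autoImplicit false
set_option linter.style.haveILetI false
set_option linter.unusedSectionVars false
set_option linter.unusedVariables false

open scoped NumberField TensorProduct

noncomputable section

namespace Fermat.Agent.S55.H963.Br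

open Fermat.Agent.S55.G

variable (S : Finset Nat.Primes)

/-- The inclusion `ℤ_S → ℚ_S`. -/
def zsToQs : ZS S →+* QS S where
  toFun c := fun q => ((c q : Zq q.1) : Qq q.1)
  map_one' := rfl
  map_mul' _ _ := rfl
  map_zero' := rfl
  map_add' _ _ := rfl

@[simp] theorem zsToQs_apply (c : ZS S) (q : S) : zsToQs S c q = ((c q : Zq q.1) : Qq q.1) := rfl

theorem QS.natCast_apply (n : ℕ) (q : S) : ((n : QS S)) q = (n : Qq q.1) := rfl

theorem QS.mul_apply (a b : QS S) (q : S) : (a * b) q = a q * b q := rfl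

theorem QS.pow_apply (a : QS S) (k : ℕ) (q : S) : (a ^ k) q = a q ^ k := rfl

theorem QS.sub_apply (a b : QS S) (q : S) : (a - b) q = a q - b q := rfl

theorem QS.algebraMap_apply (r : ℚ) (q : S) : (algebraMap ℚ (QS S) r) q = (r : Qq q.1) := rfl

theorem QS.ext {a b : QS S} (h : ∀ q : S, a q = b q) : a = b := funext h

/-- `‖PS S‖_q ≤ q⁻¹ < 1` for `q ∈ S`. -/
theorem norm_PS_le {q : Nat.Primes} (hq : q ∈ S) :
    letI : Fact (q : ℕ).Prime := ⟨q.2⟩
    ‖((PS S : ℕ) : ℚ_[(q : ℕ)])‖ ≤ ((q : ℕ) : ℝ)⁻¹ := by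
  letI : Fact (q : ℕ).Prime := ⟨q.2⟩
  rw [PS_eq_mul hq, Nat.cast_mul, norm_mul, Padic.norm_p]
  have h1 : ‖(((∏ r ∈ S.erase q, (r : ℕ) : ℕ)) : ℚ_[(q : ℕ)])‖ ≤ 1 := by
    have := Padic.norm_int_le_one (p := (q : ℕ)) ((∏ r ∈ S.erase q, (r : ℕ) : ℕ) : ℤ)
    simpa using this
  have h0 : (0 : ℝ) ≤ ((q : ℕ) : ℝ)⁻¹ := by positivity
  calc ((q : ℕ) : ℝ)⁻¹ * _ ≤ ((q : ℕ) : ℝ)⁻¹ * 1 := mul_le_mul_of_nonneg_left h1 h0
    _ = _ := mul_one _

theorem norm_PS_le_one {q : Nat.Primes} (hq : q ∈ S) :
    letI : Fact (q : ℕ).Prime := ⟨q.2⟩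
    ‖((PS S : ℕ) : ℚ_[(q : ℕ)])‖ ≤ 1 := by
  letI : Fact (q : ℕ).Prime := ⟨q.2⟩
  have := Padic.norm_int_le_one (p := (q : ℕ)) ((PS S : ℕ) : ℤ)
  simpa using this

/-- Local denominators: `P ^ e a ∈ ℤ_q` for `e` large. -/
theorem exists_norm_PS_pow_mul_le {q : Nat.Primes} (hq : q ∈ S)
    (a : @Padic (q : ℕ) ⟨q.2⟩) :
    letI : Fact (q : ℕ).Prime := ⟨q.2⟩
    ∃ e : ℕ, ∀ e' : ℕ, e ≤ e' → ‖((PS S : ℕ) : ℚ_[(q : ℕ)]) ^ e' * a‖ ≤ 1 := by
  letI : Fact (q : ℕ).Prime := ⟨q.2⟩
  have hq1 : (1 : ℝ) < ((q : ℕ) : ℝ) := by exact_mod_cast q.2.one_lt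
  obtain ⟨e, he⟩ := pow_unbounded_of_one_lt ‖a‖ hq1
  refine ⟨e, fun e' hee' => ?_⟩
  rw [norm_mul, norm_pow]
  have hqpos : (0 : ℝ) < ((q : ℕ) : ℝ) := by linarith
  have h1 : ‖((PS S : ℕ) : ℚ_[(q : ℕ)])‖ ^ e' ≤ (((q : ℕ) : ℝ)⁻¹) ^ e := by
    calc ‖((PS S : ℕ) : ℚ_[(q : ℕ)])‖ ^ e' ≤ ‖((PS S : ℕ) : ℚ_[(q : ℕ)])‖ ^ e :=
          pow_le_pow_of_le_one (norm_nonneg _) (norm_PS_le_one S hq) hee'
      _ ≤ _ := pow_le_pow_left₀ (norm_nonneg _) (norm_PS_le S hq) e
  calc ‖((PS S : ℕ) : ℚ_[(q : ℕ)])‖ ^ e' * ‖a‖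
      ≤ (((q : ℕ) : ℝ)⁻¹) ^ e * ((q : ℕ) : ℝ) ^ e :=
        mul_le_mul h1 he.le (norm_nonneg _) (by positivity)
    _ = 1 := by
        rw [← mul_pow, inv_mul_cancel₀ hqpos.ne', one_pow]

/-- Denominators in `ℚ_S`. -/
theorem exists_denom_QS (a : QS S) :
    ∃ e : ℕ, ∀ e' : ℕ, e ≤ e' → ∃ c : ZS S, ((PS S : ℕ) : QS S) ^ e' * a = zsToQs S c := by
  choose e he using fun q : S => exists_norm_PS_pow_mul_le S q.2 (a q)
  refine ⟨∑ q : S, e q, fun e' hee' => ?_⟩
  have hle : ∀ q : S, e q ≤ e' := fun q =>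
    le_trans (Finset.single_le_sum (f := e) (fun _ _ => Nat.zero_le _) (Finset.mem_univ q)) hee'
  refine ⟨fun q => ⟨_, he q e' (hle q)⟩, ?_⟩
  exact QS.ext S fun q => rfl

/-- In `ℤ_q`, `q ∈ S`, divisibility by `q ^ k` implies divisibility by `(PS S) ^ k`. -/
theorem PS_pow_dvd_of_q_pow_dvd {q : Nat.Primes} (hq : q ∈ S) (k : ℕ)
    (y : @PadicInt (q : ℕ) ⟨q.2⟩) :
    letI : Fact (q : ℕ).Prime := ⟨q.2⟩
    ((q : ℕ) : ℤ_[(q : ℕ)]) ^ k ∣ y → ((PS S : ℕ) : ℤ_[(q : ℕ)]) ^ k ∣ y := by
  letI : Fact (q : ℕ).Prime := ⟨q.2⟩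
  intro h
  have h1 := associated_PS hq
  rw [Int.cast_natCast] at h1
  exact ((h1.pow_pow (n := k)).dvd_iff_dvd_left).mp h

/-- Weak approximation for `ℚ`: `ℚ` is dense in `ℚ_S`. -/
theorem exists_approx_QS (a : QS S) (M : ℕ) :
    ∃ ρ : ℚ, ∃ c : ZS S, a - algebraMap ℚ (QS S) ρ = ((PS S : ℕ) : QS S) ^ M * zsToQs S c := by
  obtain ⟨e, he⟩ := exists_denom_QS S a
  obtain ⟨a', ha'⟩ := he e le_rfl
  -- local integer approximations
  let r : S → ℤ := fun q =>
    letI : Fact ((q.1 : Nat.Primes) : ℕ).Prime := ⟨q.1.2⟩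
    ((PadicInt.appr (a' q) (M + e) : ℕ) : ℤ)
  have hr : ∀ q : S,
      letI : Fact ((q.1 : Nat.Primes) : ℕ).Prime := ⟨q.1.2⟩
      (((q.1 : Nat.Primes) : ℕ) : ℤ_[((q.1 : Nat.Primes) : ℕ)]) ^ (M + e) ∣
        (a' q - ((r q : ℤ) : ℤ_[((q.1 : Nat.Primes) : ℕ)])) := by
    intro q
    letI : Fact ((q.1 : Nat.Primes) : ℕ).Prime := ⟨q.1.2⟩
    have := PadicInt.appr_spec (M + e) (a' q)
    rw [Ideal.mem_span_singleton] at this
    simpa [r] using this
  -- CRT
  have hcop : Pairwise (Function.onFun IsCoprime fun q : S =>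
      (Ideal.span {(((q.1 : Nat.Primes) : ℕ) : ℤ) ^ (M + e)} : Ideal ℤ)) := by
    intro q q' hqq'
    rw [Function.onFun, Ideal.isCoprime_span_singleton_iff]
    apply IsCoprime.pow
    rw [Nat.isCoprime_iff_coprime, Nat.coprime_primes q.1.2 q'.1.2]
    intro h
    exact hqq' (Subtype.ext (Subtype.ext h))
  obtain ⟨ρ', hρ'⟩ := Ideal.exists_forall_sub_mem_ideal hcop r
  have hdiv : ∀ q : S,
      letI : Fact ((q.1 : Nat.Primes) : ℕ).Prime := ⟨q.1.2⟩
      ((PS S : ℕ) : ℤ_[((q.1 : Nat.Primes) : ℕ)]) ^ (M + e) ∣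
        (a' q - ((ρ' : ℤ) : ℤ_[((q.1 : Nat.Primes) : ℕ)])) := by
    intro q
    letI : Fact ((q.1 : Nat.Primes) : ℕ).Prime := ⟨q.1.2⟩
    apply PS_pow_dvd_of_q_pow_dvd S q.2
    have h1 := hρ' q
    rw [Ideal.mem_span_singleton] at h1
    have h2 : (((q.1 : Nat.Primes) : ℕ) : ℤ_[((q.1 : Nat.Primes) : ℕ)]) ^ (M + e) ∣
        (((ρ' - r q : ℤ)) : ℤ_[((q.1 : Nat.Primes) : ℕ)]) := by
      obtain ⟨u, hu⟩ := h1
      exact ⟨(u : ℤ_[((q.1 : Nat.Primes) : ℕ)]), by rw [hu]; push_cast; ring⟩
    have h3 : a' q - ((ρ' : ℤ) : ℤ_[((q.1 : Nat.Primes) : ℕ)]) =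
        (a' q - ((r q : ℤ) : ℤ_[((q.1 : Nat.Primes) : ℕ)])) -
          (((ρ' - r q : ℤ)) : ℤ_[((q.1 : Nat.Primes) : ℕ)]) := by
      push_cast; ring
    rw [h3]
    exact dvd_sub (hr q) h2
  choose c hc using hdiv
  refine ⟨(ρ' : ℚ) / ((PS S : ℕ) : ℚ) ^ e, c, ?_⟩
  apply QS.ext S
  intro q
  letI : Fact ((q.1 : Nat.Primes) : ℕ).Prime := ⟨q.1.2⟩
  have hP0 : ((PS S : ℕ) : ℚ_[((q.1 : Nat.Primes) : ℕ)]) ≠ 0 := by
    exact_mod_cast (PS_pos S).ne'
  have hPe0 : ((PS S : ℕ) : ℚ_[((q.1 : Nat.Primes) : ℕ)]) ^ e ≠ 0 := pow_ne_zero _ hP0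
  have h1 : ((PS S : ℕ) : ℚ_[((q.1 : Nat.Primes) : ℕ)]) ^ e * a q =
      ((a' q : ℤ_[((q.1 : Nat.Primes) : ℕ)]) : ℚ_[((q.1 : Nat.Primes) : ℕ)]) := by
    have := congrFun ha' q
    exact this
  have h2 : ((a' q : ℤ_[((q.1 : Nat.Primes) : ℕ)]) : ℚ_[((q.1 : Nat.Primes) : ℕ)]) -
      ((ρ' : ℤ) : ℚ_[((q.1 : Nat.Primes) : ℕ)]) =
      ((PS S : ℕ) : ℚ_[((q.1 : Nat.Primes) : ℕ)]) ^ (M + e) *
        ((c q : ℤ_[((q.1 : Nat.Primes) : ℕ)]) : ℚ_[((q.1 : Nat.Primes) : ℕ)]) := by
    have := congrArg (fun z : ℤ_[((q.1 : Nat.Primes) : ℕ)] =>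
      (z : ℚ_[((q.1 : Nat.Primes) : ℕ)])) (hc q)
    simpa using this
  rw [QS.sub_apply, QS.algebraMap_apply, QS.mul_apply, QS.pow_apply, QS.natCast_apply,
    zsToQs_apply]
  apply mul_left_cancel₀ hPe0
  rw [mul_sub, h1]
  have h3 : ((PS S : ℕ) : ℚ_[((q.1 : Nat.Primes) : ℕ)]) ^ e *
      (((ρ' : ℚ) / ((PS S : ℕ) : ℚ) ^ e : ℚ) : ℚ_[((q.1 : Nat.Primes) : ℕ)]) =
      ((ρ' : ℤ) : ℚ_[((q.1 : Nat.Primes) : ℕ)]) := by
    push_cast
    field_simp
  rw [h3, h2]
  ring

end Fermat.Agent.S55.H963.Br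

end
end
-- ===== PACK-END S55/H963/BrAdele.lean

-- ===== PACK-BEGIN S14/H74/Lipschitz.lean
section


/-!
# S14/N1 (helper74): Lipschitz estimate for `fS` (piece P5)
-/

namespace Fermat.Agent.S14.H74

open NumberField NumberField.mixedEmbedding NumberField.Units
  NumberField.Units.dirichletUnitTheorem NumberField.InfinitePlace Module

open scoped Classical

variable {K : Type*} [Field K] [NumberField K]

theorem abs_log_sub_log_le {a b : ℝ} (ha : 0 < a) (hab : |b - a| ≤ a / 2) :
    |Real.log b - Real.log a| ≤ 2 * |b - a| / a := by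
  have hb : 0 < b := by
    have := (abs_le.mp hab).1
    linarith
  have hb2 : a / 2 ≤ b := by
    have := (abs_le.mp hab).1
    linarith
  rw [← Real.log_div hb.ne' ha.ne']
  have hr : 0 < b / a := div_pos hb ha
  have h1 : Real.log (b / a) ≤ b / a - 1 := Real.log_le_sub_one_of_pos hr
  have h2 : 1 - (b / a)⁻¹ ≤ Real.log (b / a) := Real.one_sub_inv_le_log_of_pos hr
  have e1 : b / a - 1 = (b - a) / a := by field_simp
  have e2 : 1 - (b / a)⁻¹ = (b - a) / b := by field_simp
  rw [e1] at h1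
  rw [e2] at h2
  have h3 : (b - a) / a ≤ 2 * |b - a| / a := by
    apply div_le_div_of_nonneg_right _ ha.le
    have := le_abs_self (b - a)
    have := abs_nonneg (b - a)
    linarith
  have h4 : -(2 * |b - a| / a) ≤ (b - a) / b := by
    rw [neg_le, ← neg_div, div_le_div_iff₀ hb ha]
    have h5 := neg_abs_le (b - a)
    have h6 := abs_nonneg (b - a)
    have h7 : -(b - a) ≤ |b - a| := by linarith
    calc -(b - a) * a ≤ |b - a| * a := by gcongr
      _ ≤ |b - a| * (2 * b) := by gcongr; linarith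
      _ = 2 * |b - a| * b := by ring
  exact abs_le.mpr ⟨by linarith, by linarith⟩

theorem abs_normAtPlace_add_sub_le (w : InfinitePlace K) (x t : mixedSpace K) :
    |normAtPlace w (x + t) - normAtPlace w x| ≤ ‖t‖ := by
  have h1 := normAtPlace_add_le w x t
  have h2 := normAtPlace_add_le w (x + t) (-t)
  rw [normAtPlace_neg, add_neg_cancel_right] at h2
  have h3 := normAtPlace_le_norm w t
  exact abs_le.mpr ⟨by linarith, by linarith⟩

/-- Bound for the coordinates in the unit lattice basis. -/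
theorem exists_logCoord_bound : ∃ M : ℝ, 0 ≤ M ∧ ∀ (v : logSpace K) (j : Fin (rank K)),
    |((basisUnitLattice K).ofZLatticeBasis ℝ (unitLattice K)).repr v j| ≤ M * ‖v‖ := by
  set b := (basisUnitLattice K).ofZLatticeBasis ℝ (unitLattice K) with hb
  refine ⟨‖(b.equivFunL : logSpace K →L[ℝ] (Fin (rank K) → ℝ))‖, norm_nonneg _, fun v j ↦ ?_⟩
  have h1 := (b.equivFunL : logSpace K →L[ℝ] (Fin (rank K) → ℝ)).le_opNorm v
  have h2 : b.repr v j = (b.equivFunL : logSpace K →L[ℝ] (Fin (rank K) → ℝ)) v j := by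
    simp [Basis.equivFunL]
  rw [h2, ← Real.norm_eq_abs]
  exact (norm_le_pi_norm _ j).trans h1

theorem mult_le_two_real (w : InfinitePlace K) : (mult w : ℝ) ≤ 2 := by
  unfold mult
  split_ifs <;> norm_num

theorem normAtPlace_pos_of_norm_ne_zero {x : mixedSpace K} (hx : mixedEmbedding.norm x ≠ 0)
    (w : InfinitePlace K) : 0 < normAtPlace w x :=
  lt_of_le_of_ne (normAtPlace_nonneg w x) (mixedEmbedding.norm_ne_zero_iff.mp hx w).symm

/-- L1: a small perturbation keeps the norm nonzero and moves the logarithms of the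
`normAtPlace` by a small amount. -/
theorem log_normAtPlace_add_sub {x t : mixedSpace K} (hx : mixedEmbedding.norm x ≠ 0)
    (ht : ∀ w, ‖t‖ ≤ normAtPlace w x / 2) :
    mixedEmbedding.norm (x + t) ≠ 0 ∧ ∀ w, |Real.log (normAtPlace w (x + t)) -
      Real.log (normAtPlace w x)| ≤ 2 * ‖t‖ / normAtPlace w x := by
  have hpos := normAtPlace_pos_of_norm_ne_zero hx
  have h1 : ∀ w, |normAtPlace w (x + t) - normAtPlace w x| ≤ normAtPlace w x / 2 :=
    fun w ↦ (abs_normAtPlace_add_sub_le w x t).trans (ht w)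
  refine ⟨mixedEmbedding.norm_ne_zero_iff.mpr fun w ↦ ?_, fun w ↦ ?_⟩
  · have := (abs_le.mp (h1 w)).1
    have := hpos w
    exact ne_of_gt (by linarith)
  · refine (abs_log_sub_log_le (hpos w) (h1 w)).trans ?_
    apply div_le_div_of_nonneg_right _ (hpos w).le
    have := abs_normAtPlace_add_sub_le w x t
    linarith

/-- L2 (i): the logarithm of the norm moves by at most `n δ`. -/
theorem abs_log_norm_sub_le {x y : mixedSpace K} (hx : mixedEmbedding.norm x ≠ 0)
    (hy : mixedEmbedding.norm y ≠ 0) {δ : ℝ}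
    (h : ∀ w, |Real.log (normAtPlace w y) - Real.log (normAtPlace w x)| ≤ δ) :
    |Real.log (mixedEmbedding.norm y) - Real.log (mixedEmbedding.norm x)|
      ≤ (finrank ℚ K : ℝ) * δ := by
  rw [log_norm_eq_sum hx, log_norm_eq_sum hy, ← Finset.sum_sub_distrib]
  refine (Finset.abs_sum_le_sum_abs _ _).trans ?_
  have h1 : (∑ w : InfinitePlace K, (mult w : ℝ)) = (finrank ℚ K : ℝ) := by
    rw [← Nat.cast_sum, sum_mult_eq]
  rw [← h1, Finset.sum_mul]
  refine Finset.sum_le_sum fun w _ ↦ ?_
  rw [← mul_sub, abs_mul, abs_of_nonneg (by positivity : (0 : ℝ) ≤ mult w)]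
  exact mul_le_mul_of_nonneg_left (h w) (by positivity)

/-- L2 (ii): `logMap` moves by at most `4 δ`. -/
theorem norm_logMap_sub_le {x y : mixedSpace K} (hx : mixedEmbedding.norm x ≠ 0)
    (hy : mixedEmbedding.norm y ≠ 0) {δ : ℝ} (hδ : 0 ≤ δ)
    (h : ∀ w, |Real.log (normAtPlace w y) - Real.log (normAtPlace w x)| ≤ δ) :
    ‖logMap y - logMap x‖ ≤ 4 * δ := by
  rw [pi_norm_le_iff_of_nonneg (by positivity)]
  intro w
  have hn : (0 : ℝ) < finrank ℚ K := Nat.cast_pos.mpr finrank_pos
  have h1 := abs_log_norm_sub_le hx hy h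
  have h2 := h w.1
  rw [Pi.sub_apply, logMap_apply, logMap_apply, ← mul_sub, Real.norm_eq_abs, abs_mul,
    abs_of_nonneg (by positivity : (0 : ℝ) ≤ mult w.1)]
  have h3 : |Real.log (normAtPlace w.1 y) -
      Real.log (mixedEmbedding.norm y) * (finrank ℚ K : ℝ)⁻¹ -
      (Real.log (normAtPlace w.1 x) - Real.log (mixedEmbedding.norm x) * (finrank ℚ K : ℝ)⁻¹)|
      ≤ 2 * δ := by
    have e : Real.log (normAtPlace w.1 y) -
      Real.log (mixedEmbedding.norm y) * (finrank ℚ K : ℝ)⁻¹ -
      (Real.log (normAtPlace w.1 x) - Real.log (mixedEmbedding.norm x) * (finrank ℚ K : ℝ)⁻¹)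
      = (Real.log (normAtPlace w.1 y) - Real.log (normAtPlace w.1 x)) -
        (Real.log (mixedEmbedding.norm y) - Real.log (mixedEmbedding.norm x)) *
          (finrank ℚ K : ℝ)⁻¹ := by ring
    rw [e]
    refine (abs_sub _ _).trans ?_
    rw [abs_mul, abs_of_pos (inv_pos.mpr hn)]
    have h4 : |Real.log (mixedEmbedding.norm y) - Real.log (mixedEmbedding.norm x)| *
        (finrank ℚ K : ℝ)⁻¹ ≤ δ := by
      rw [← div_eq_mul_inv, div_le_iff₀ hn]
      linarith
    linarith
  calc (mult w.1 : ℝ) * _ ≤ 2 * (2 * δ) :=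
        mul_le_mul (mult_le_two_real w.1) h3 (abs_nonneg _) (by norm_num)
    _ = 4 * δ := by ring

/-- L2 (iii): `rho` moves by at most `r M 4 δ`. -/
theorem exists_rho_sub_bound : ∃ M : ℝ, 0 ≤ M ∧ ∀ (x y : mixedSpace K),
    mixedEmbedding.norm x ≠ 0 → mixedEmbedding.norm y ≠ 0 → ∀ δ : ℝ, 0 ≤ δ →
    (∀ w, |Real.log (normAtPlace w y) - Real.log (normAtPlace w x)| ≤ δ) →
    |rho K y - rho K x| ≤ M * δ := by
  obtain ⟨M, hM0, hM⟩ := exists_logCoord_bound (K := K)
  refine ⟨rank K * (M * 4), by positivity, fun x y hx hy δ hδ h ↦ ?_⟩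
  rw [rho_eq_prod hx, rho_eq_prod hy]
  refine (abs_prod_sub_prod_le_sum _ _ _ (fun _ ↦ tent_nonneg _) (fun _ ↦ tent_le_one _)
    (fun _ ↦ tent_nonneg _) (fun _ ↦ tent_le_one _)).trans ?_
  have h1 : ∀ j, |tent (logCoord K y j) - tent (logCoord K x j)| ≤ M * 4 * δ := by
    intro j
    refine (tent_lipschitz _ _).trans ?_
    have e : logCoord K y j - logCoord K x j =
        ((basisUnitLattice K).ofZLatticeBasis ℝ (unitLattice K)).repr (logMap y - logMap x) j := by
      simp [logCoord]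
    rw [e]
    refine (hM _ j).trans ?_
    rw [mul_assoc]
    exact mul_le_mul_of_nonneg_left (norm_logMap_sub_le hx hy hδ h) hM0
  calc ∑ j, |tent (logCoord K y j) - tent (logCoord K x j)|
      ≤ ∑ _j : Fin (rank K), M * 4 * δ := Finset.sum_le_sum fun j _ ↦ h1 j
    _ = rank K * (M * 4) * δ := by
        rw [Finset.sum_const, Finset.card_univ, Fintype.card_fin, nsmul_eq_mul]
        ring

theorem pow_le_norm_of_support {A : ℝ} (hA : 1 ≤ A) {x : mixedSpace K}
    (h : ∀ w, ‖x‖ ≤ A * normAtPlace w x) :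
    (‖x‖ / A) ^ (finrank ℚ K) ≤ mixedEmbedding.norm x := by
  have hA0 : 0 < A := by linarith
  rw [mixedEmbedding.norm_apply, ← sum_mult_eq, ← Finset.prod_pow_eq_pow_sum]
  refine Finset.prod_le_prod (fun w _ ↦ by positivity) fun w _ ↦ ?_
  refine pow_le_pow_left₀ (by positivity) ?_ _
  rw [div_le_iff₀ hA0, mul_comm]
  exact h w

theorem fS_eq_zero_of_rho_eq_zero {s : ℝ} {x : mixedSpace K} (h : rho K x = 0) :
    fS K s x = 0 := by
  simp [fS, h]

/-- P5, core case: Lipschitz estimate at points of the support of `rho`. -/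
theorem exists_fS_lipschitz_core : ∃ C A : ℝ, 0 ≤ C ∧ 1 ≤ A ∧ ∀ s : ℝ, 1 ≤ s → s ≤ 2 →
    ∀ x t : mixedSpace K, rho K x ≠ 0 → 4 * (finrank ℚ K : ℝ) * A * ‖t‖ ≤ ‖x‖ → A ≤ ‖x‖ →
    |fS K s (x + t) - fS K s x| ≤ C * ‖t‖ / ‖x‖ ^ (finrank ℚ K + 1) := by
  obtain ⟨A, hA1, hA⟩ := exists_support_bound (K := K)
  obtain ⟨M, hM0, hM⟩ := exists_rho_sub_bound (K := K)
  have hA0 : 0 < A := by linarith
  have hn1 : (1 : ℝ) ≤ finrank ℚ K := by exact_mod_cast finrank_pos
  set n : ℕ := finrank ℚ K with hn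
  refine ⟨(3 * M + 4 * n) * 2 * A ^ (n + 1), A, by positivity, hA1,
    fun s hs1 hs2 x t hρ hxt hxA ↦ ?_⟩
  have hN := norm_ne_zero_of_rho_ne_zero hρ
  have hsupp := hA x hρ
  have hxpos : 0 < ‖x‖ := by linarith
  have hapos := normAtPlace_pos_of_norm_ne_zero hN
  have htn : 0 ≤ ‖t‖ := norm_nonneg t
  -- `‖t‖` is small with respect to all `normAtPlace w x`
  have ht4 : ∀ w, 4 * (n : ℝ) * ‖t‖ ≤ normAtPlace w x := by
    intro w
    have h1 := hsupp w
    have h2 : A * (4 * (n : ℝ) * ‖t‖) ≤ A * normAtPlace w x := by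
      calc A * (4 * (n : ℝ) * ‖t‖) = 4 * (n : ℝ) * A * ‖t‖ := by ring
        _ ≤ ‖x‖ := hxt
        _ ≤ A * normAtPlace w x := h1
    exact le_of_mul_le_mul_left h2 hA0
  have ht : ∀ w, ‖t‖ ≤ normAtPlace w x / 2 := by
    intro w
    have := ht4 w
    nlinarith
  obtain ⟨hN', hlog⟩ := log_normAtPlace_add_sub hN ht
  set δ : ℝ := 2 * A * ‖t‖ / ‖x‖ with hδ
  have hδ0 : 0 ≤ δ := by positivity
  have hδ1 : 2 * (n : ℝ) * δ ≤ 1 := by
    rw [hδ, ← mul_div_assoc, div_le_one hxpos]
    calc 2 * (n : ℝ) * (2 * A * ‖t‖) = 4 * (n : ℝ) * A * ‖t‖ := by ring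
      _ ≤ ‖x‖ := hxt
  have hlogδ : ∀ w, |Real.log (normAtPlace w (x + t)) - Real.log (normAtPlace w x)| ≤ δ := by
    intro w
    refine (hlog w).trans ?_
    rw [hδ, div_le_div_iff₀ (hapos w) hxpos]
    calc 2 * ‖t‖ * ‖x‖ ≤ 2 * ‖t‖ * (A * normAtPlace w x) := by gcongr; exact hsupp w
      _ = 2 * A * ‖t‖ * normAtPlace w x := by ring
  have hΔ := abs_log_norm_sub_le hN hN' hlogδ
  have hρ' := hM x (x + t) hN hN' δ hδ0 hlogδ
  set Δ : ℝ := Real.log (mixedEmbedding.norm (x + t)) - Real.log (mixedEmbedding.norm x) with hΔdef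
  have hNpos : 0 < mixedEmbedding.norm x :=
    lt_of_le_of_ne (mixedEmbedding.norm_nonneg x) hN.symm
  have hNpos' : 0 < mixedEmbedding.norm (x + t) :=
    lt_of_le_of_ne (mixedEmbedding.norm_nonneg _) hN'.symm
  -- the exponential factor
  have hsΔ : |(-s) * Δ| ≤ 2 * (n : ℝ) * δ := by
    rw [abs_mul, abs_neg, abs_of_nonneg (by linarith : (0 : ℝ) ≤ s)]
    calc s * |Δ| ≤ 2 * ((n : ℝ) * δ) := mul_le_mul hs2 hΔ (abs_nonneg _) (by norm_num)
      _ = 2 * (n : ℝ) * δ := by ring
  have he1 : |Real.exp ((-s) * Δ) - 1| ≤ 4 * (n : ℝ) * δ := by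
    refine (Real.abs_exp_sub_one_le (hsΔ.trans hδ1)).trans ?_
    linarith
  have he2 : Real.exp ((-s) * Δ) ≤ 3 := by
    have := (abs_le.mp he1).2
    linarith
  have he0 : 0 ≤ Real.exp ((-s) * Δ) := (Real.exp_pos _).le
  have hpow : (mixedEmbedding.norm (x + t)) ^ (-s) =
      (mixedEmbedding.norm x) ^ (-s) * Real.exp ((-s) * Δ) := by
    rw [Real.rpow_def_of_pos hNpos, Real.rpow_def_of_pos hNpos', ← Real.exp_add, hΔdef]
    congr 1
    ring
  -- bound for `N(x)^(-s)`
  have hNge := pow_le_norm_of_support hA1 hsupp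
  have hxA1 : 1 ≤ ‖x‖ / A := by rwa [le_div_iff₀ hA0, one_mul]
  have hN1 : 1 ≤ mixedEmbedding.norm x := (one_le_pow₀ hxA1).trans hNge
  have hNs : (mixedEmbedding.norm x) ^ (-s) ≤ (A / ‖x‖) ^ n := by
    calc (mixedEmbedding.norm x) ^ (-s) ≤ (mixedEmbedding.norm x) ^ (-1 : ℝ) :=
          Real.rpow_le_rpow_of_exponent_le hN1 (by linarith)
      _ = (mixedEmbedding.norm x)⁻¹ := Real.rpow_neg_one _
      _ ≤ ((‖x‖ / A) ^ n)⁻¹ := inv_anti₀ (by positivity) hNge
      _ = (A / ‖x‖) ^ n := by rw [← inv_pow, inv_div]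
  have hNs0 : 0 ≤ (mixedEmbedding.norm x) ^ (-s) := Real.rpow_nonneg hNpos.le _
  -- assemble
  have hρ0 := rho_nonneg (K := K) x
  have hρ1 := rho_le_one (K := K) x
  have key : fS K s (x + t) - fS K s x = (mixedEmbedding.norm x) ^ (-s) *
      ((rho K (x + t) - rho K x) * Real.exp ((-s) * Δ) +
        rho K x * (Real.exp ((-s) * Δ) - 1)) := by
    have e1 : fS K s (x + t) = rho K (x + t) * (mixedEmbedding.norm (x + t)) ^ (-s) := rfl
    have e2 : fS K s x = rho K x * (mixedEmbedding.norm x) ^ (-s) := rfl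
    rw [e1, e2, hpow]
    generalize rho K (x + t) = r1
    generalize rho K x = r2
    generalize (mixedEmbedding.norm x) ^ (-s) = q
    generalize Real.exp ((-s) * Δ) = e
    ring
  rw [key, abs_mul, abs_of_nonneg hNs0]
  have hin : |(rho K (x + t) - rho K x) * Real.exp ((-s) * Δ) +
        rho K x * (Real.exp ((-s) * Δ) - 1)| ≤ (3 * M + 4 * n) * δ := by
    refine (abs_add_le _ _).trans ?_
    rw [abs_mul, abs_mul, abs_of_nonneg he0, abs_of_nonneg hρ0]
    have h1 : |rho K (x + t) - rho K x| * Real.exp ((-s) * Δ) ≤ (M * δ) * 3 :=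
      mul_le_mul hρ' he2 he0 (mul_nonneg hM0 hδ0)
    have h2 : rho K x * |Real.exp ((-s) * Δ) - 1| ≤ 1 * (4 * (n : ℝ) * δ) :=
      mul_le_mul hρ1 he1 (abs_nonneg _) (by norm_num)
    linarith
  calc (mixedEmbedding.norm x) ^ (-s) * _ ≤ (A / ‖x‖) ^ n * ((3 * M + 4 * n) * δ) :=
        mul_le_mul hNs hin (abs_nonneg _) (by positivity)
    _ = (3 * M + 4 * n) * 2 * A ^ (n + 1) * ‖t‖ / ‖x‖ ^ (n + 1) := by
        rw [hδ, div_pow]
        field_simp
        ring

/-- **P5**: Lipschitz estimate for `fS`, uniform in `s ∈ [1, 2]`. -/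
theorem exists_fS_lipschitz {T : ℝ} (hT : 0 ≤ T) : ∃ R C : ℝ, 0 < R ∧ 0 ≤ C ∧
    ∀ s : ℝ, 1 ≤ s → s ≤ 2 → ∀ x t : mixedSpace K, ‖t‖ ≤ T → R ≤ ‖x‖ →
    |fS K s (x + t) - fS K s x| ≤ C / ‖x‖ ^ (finrank ℚ K + 1) := by
  obtain ⟨C, A, hC0, hA1, h⟩ := exists_fS_lipschitz_core (K := K)
  have hA0 : 0 < A := by linarith
  have hn1 : (1 : ℝ) ≤ finrank ℚ K := by exact_mod_cast finrank_pos
  set n : ℕ := finrank ℚ K with hn
  have hnAT : 0 ≤ (n : ℝ) * A * T := by positivity
  refine ⟨2 * A + 8 * n * A * T + 2 * T, C * T * 2 ^ (n + 1), by positivity, by positivity,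
    fun s hs1 hs2 x t ht hx ↦ ?_⟩
  have hxpos : 0 < ‖x‖ := by linarith
  have htn : 0 ≤ ‖t‖ := norm_nonneg t
  have h2pow : (1 : ℝ) ≤ 2 ^ (n + 1) := one_le_pow₀ (by norm_num)
  by_cases hρ : rho K x = 0
  · by_cases hρ' : rho K (x + t) = 0
    · rw [fS_eq_zero_of_rho_eq_zero hρ, fS_eq_zero_of_rho_eq_zero hρ', sub_zero, abs_zero]
      positivity
    · -- apply the core case at `x + t` with `-t`
      have hxt : ‖x‖ / 2 ≤ ‖x + t‖ := by
        have h1 : ‖x‖ ≤ ‖x + t‖ + ‖t‖ := by
          calc ‖x‖ = ‖(x + t) - t‖ := by rw [add_sub_cancel_right]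
            _ ≤ ‖x + t‖ + ‖t‖ := norm_sub_le _ _
        linarith
      have hxt0 : 0 < ‖x + t‖ := by linarith
      have h1 := h s hs1 hs2 (x + t) (-t) hρ' (by
        rw [norm_neg]
        calc 4 * (n : ℝ) * A * ‖t‖ ≤ 4 * (n : ℝ) * A * T := by gcongr
          _ ≤ ‖x‖ / 2 := by linarith
          _ ≤ ‖x + t‖ := hxt) (by linarith)
      rw [add_neg_cancel_right, norm_neg, abs_sub_comm] at h1
      refine h1.trans ?_
      rw [div_le_div_iff₀ (by positivity) (by positivity)]
      have h3 : ‖x‖ ^ (n + 1) ≤ 2 ^ (n + 1) * ‖x + t‖ ^ (n + 1) := by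
        rw [← mul_pow]
        exact pow_le_pow_left₀ hxpos.le (by linarith) _
      calc C * ‖t‖ * ‖x‖ ^ (n + 1) ≤ C * T * (2 ^ (n + 1) * ‖x + t‖ ^ (n + 1)) := by gcongr
        _ = C * T * 2 ^ (n + 1) * ‖x + t‖ ^ (n + 1) := by ring
  · have h1 := h s hs1 hs2 x t hρ (by
      calc 4 * (n : ℝ) * A * ‖t‖ ≤ 4 * (n : ℝ) * A * T := by gcongr
        _ ≤ ‖x‖ := by linarith) (by linarith)
    refine h1.trans ?_
    apply div_le_div_of_nonneg_right _ (by positivity)
    calc C * ‖t‖ ≤ C * T * 1 := by rw [mul_one]; gcongr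
      _ ≤ C * T * 2 ^ (n + 1) := by gcongr

end Fermat.Agent.S14.H74

end
-- ===== PACK-END S14/H74/Lipschitz.lean

-- ===== PACK-BEGIN S14/H163/CharBound.lean
section



/-!
# S14 density: piece (C) `CharBound` of helper34's interface (helper163)

Primes in the kernel of a class group character of prime order `p` have density at most `1/p`:
`(∏_{v ∈ T} (1 + N v^(-s)))^p ≤ C ζ_K(s)` for finite `T ⊆ {χ(v) = 1}`, given boundedness of
`L(s, χ^k)`, `0 < k < p`, on `(1, 2]`.
-/

set_option autoImplicit false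
set_option linter.unusedSectionVars false

namespace Fermat.Agent.S14.H163

open NumberField IsDedekindDomain Filter Topology
open scoped nonZeroDivisors

/-- Partial products of a real `HasProd` with factors `≥ 1` are bounded by the limit. -/
theorem prod_le_of_hasProd {ι : Type*} {f : ι → ℝ} {a : ℝ} (h : HasProd f a)
    (h1 : ∀ i, 1 ≤ f i) (T : Finset ι) : ∏ i ∈ T, f i ≤ a := by
  classical
  have h' : Tendsto (fun s : Finset ι => ∏ b ∈ s, f b) atTop (𝓝 a) := h
  refine ge_of_tendsto h' ?_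
  filter_upwards [eventually_ge_atTop T] with T' hT'
  rw [← Finset.prod_sdiff hT']
  have h2 : (1 : ℝ) ≤ ∏ i ∈ T' \ T, f i := by
    have := Finset.prod_le_prod (s := T' \ T) (f := fun _ => (1 : ℝ)) (g := f)
      (fun _ _ => zero_le_one) (fun i _ => h1 i)
    simpa using this
  have h3 : 0 ≤ ∏ i ∈ T, f i := Finset.prod_nonneg fun i _ => le_trans zero_le_one (h1 i)
  nlinarith

section Local

/-- The local Euler factor identity for a `p`-th root of unity `ω`, `p` prime. -/
theorem prod_one_sub_pow_mul {p : ℕ} (hp : p.Prime) {ω : ℂ} (hω : ω ^ p = 1) (x : ℂ) :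
    ∏ k ∈ Finset.range p, (1 - ω ^ k * x) = if ω = 1 then (1 - x) ^ p else 1 - x ^ p := by
  classical
  split_ifs with h1
  · subst h1
    simp
  · haveI := Fact.mk hp
    have hord : orderOf ω = p := orderOf_eq_prime hω h1
    have hprim : IsPrimitiveRoot ω p := hord ▸ IsPrimitiveRoot.orderOf ω
    have hset : Polynomial.nthRootsFinset p (1 : ℂ) = (Finset.range p).image (fun k => ω ^ k) := by
      symm
      apply Finset.eq_of_subset_of_card_le
      · intro z hz
        obtain ⟨k, -, rfl⟩ := Finset.mem_image.mp hz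
        rw [Polynomial.mem_nthRootsFinset hp.pos]
        rw [← pow_mul, mul_comm, pow_mul, hω, one_pow]
      · rw [hprim.card_nthRootsFinset, Finset.card_image_of_injOn, Finset.card_range]
        intro i hi j hj hij
        exact hprim.pow_inj (Finset.mem_range.mp hi) (Finset.mem_range.mp hj) hij
    have := hprim.pow_sub_pow_eq_prod_sub_mul (1 : ℂ) x hp.pos
    rw [one_pow, hset, Finset.prod_image] at this
    · exact this.symm
    · intro i hi j hj hij
      exact hprim.pow_inj (Finset.mem_range.mp hi) (Finset.mem_range.mp hj) hij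

/-- The norm of the inverse local factor is `≥ 1`, and is `(1 - x)^(-p)` when `ω = 1`. -/
theorem local_factor {p : ℕ} (hp : p.Prime) {ω : ℂ} (hω : ω ^ p = 1) {x : ℝ} (hx0 : 0 < x)
    (hx1 : x < 1) :
    1 ≤ ‖∏ k ∈ Finset.range p, (1 - ω ^ k * (x : ℂ))⁻¹‖ ∧
      (ω = 1 → (1 + x) ^ p ≤ ‖∏ k ∈ Finset.range p, (1 - ω ^ k * (x : ℂ))⁻¹‖) := by
  rw [Finset.prod_inv_distrib, norm_inv, prod_one_sub_pow_mul hp hω]
  have h1x : 0 < 1 - x := by linarith
  split_ifs with h1
  · have hn : ‖((1 : ℂ) - (x : ℂ)) ^ p‖ = (1 - x) ^ p := by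
      rw [norm_pow, ← Complex.ofReal_one, ← Complex.ofReal_sub, Complex.norm_real,
        Real.norm_of_nonneg h1x.le]
    rw [hn]
    have hpos : 0 < (1 - x) ^ p := pow_pos h1x p
    have hle : (1 - x) ^ p ≤ 1 := pow_le_one₀ h1x.le (by linarith)
    refine ⟨(one_le_inv₀ hpos).mpr hle, fun _ => ?_⟩
    rw [← inv_pow]
    apply pow_le_pow_left₀ (by linarith)
    rw [← one_div, le_div_iff₀ h1x]
    nlinarith
  · have hxp : 0 < x ^ p := pow_pos hx0 p
    have hxp1 : x ^ p < 1 := pow_lt_one₀ hx0.le hx1 hp.ne_zero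
    have hn : ‖(1 : ℂ) - (x : ℂ) ^ p‖ = 1 - x ^ p := by
      rw [← Complex.ofReal_one, ← Complex.ofReal_pow, ← Complex.ofReal_sub, Complex.norm_real,
        Real.norm_of_nonneg (by linarith)]
    rw [hn]
    refine ⟨(one_le_inv₀ (by linarith)).mpr (by linarith), fun h => absurd h h1⟩

end Local

variable {K : Type*} [Field K] [NumberField K]

/-- The monoid hom `I ↦ χ([I]) N(I)^(-s)`. -/
noncomputable def twist (χ : ClassGroup (𝓞 K) →* ℂˣ) (s : ℝ) : (Ideal (𝓞 K))⁰ →* ℂ :=
  ((Units.coeHom ℂ).comp (χ.comp ClassGroup.mk0)) *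
    ((Complex.ofRealHom : ℝ →+* ℂ).toMonoidHom.comp (normPow s))

theorem twist_apply (χ : ClassGroup (𝓞 K) →* ℂˣ) (s : ℝ) (I : (Ideal (𝓞 K))⁰) :
    twist χ s I = (χ (ClassGroup.mk0 I) : ℂ) * ((normPow s I : ℝ) : ℂ) := rfl

theorem norm_char_eq_one {n : ℕ} (hn : n ≠ 0) {χ : ClassGroup (𝓞 K) →* ℂˣ} (hχ : χ ^ n = 1)
    (c : ClassGroup (𝓞 K)) : ‖(χ c : ℂ)‖ = 1 := by
  have h1 : (χ c) ^ n = 1 := by
    have := congrArg (fun ψ : ClassGroup (𝓞 K) →* ℂˣ => ψ c) hχ
    simpa using this
  have h2 : ((χ c : ℂ)) ^ n = 1 := by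
    have := congrArg (fun u : ℂˣ => (u : ℂ)) h1
    simpa using this
  have h3 : ‖(χ c : ℂ)‖ ^ n = 1 := by rw [← norm_pow, h2, norm_one]
  exact (pow_eq_one_iff_of_nonneg (norm_nonneg _) hn).mp h3

theorem norm_twist {n : ℕ} (hn : n ≠ 0) {χ : ClassGroup (𝓞 K) →* ℂˣ} (hχ : χ ^ n = 1) (s : ℝ)
    (I : (Ideal (𝓞 K))⁰) : ‖twist χ s I‖ = normPow s I := by
  rw [twist_apply, norm_mul, norm_char_eq_one hn hχ, one_mul, Complex.norm_real,
    Real.norm_of_nonneg (normPow_pos s I).le]

theorem lser_eq_tsum_twist (χ : ClassGroup (𝓞 K) →* ℂˣ) (s : ℝ) :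
    H34.Lser K χ s = ∑' I : (Ideal (𝓞 K))⁰, twist χ s I := rfl

theorem hasProd_lser {n : ℕ} (hn : n ≠ 0) {χ : ClassGroup (𝓞 K) →* ℂˣ} (hχ : χ ^ n = 1)
    {s : ℝ} (hs : 1 < s) :
    HasProd (fun v : HeightOneSpectrum (𝓞 K) => (1 - twist χ s (toI0 v))⁻¹) (H34.Lser K χ s) := by
  rw [lser_eq_tsum_twist]
  apply hasProd_ideal
  refine (summable_normPow hs).congr fun I => ?_
  rw [norm_twist hn hχ]

theorem lser_one (s : ℝ) : H34.Lser K (1 : ClassGroup (𝓞 K) →* ℂˣ) s = (zetaR K s : ℂ) := by
  unfold H34.Lser zetaR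
  rw [Complex.ofReal_tsum]
  refine tsum_congr fun I => ?_
  simp
  rfl

theorem normPow_prime_lt_one {s : ℝ} (hs : 0 < s) (v : HeightOneSpectrum (𝓞 K)) :
    normPow s (toI0 v) < 1 := by
  rw [normPow_apply]
  have h2 : (1 : ℝ) < (Ideal.absNorm ((toI0 v : (Ideal (𝓞 K))⁰) : Ideal (𝓞 K)) : ℝ) := by
    have h1 : Ideal.absNorm v.asIdeal ≠ 1 := by
      rw [Ne, Ideal.absNorm_eq_one_iff]
      exact v.isPrime.ne_top
    have h0 := absNorm_pos (toI0 v)
    have : 1 < Ideal.absNorm v.asIdeal := by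
      rw [toI0_coe] at h0
      omega
    exact_mod_cast this
  exact Real.rpow_lt_one_of_one_lt_of_neg h2 (by linarith)

/-- Piece (C): primes in the kernel of a character of order `p` have density at most `1/p`. -/
theorem charBound (K : Type*) [Field K] [NumberField K] : H34.CharBound K := by
  intro p hp χ hχp hN1
  classical
  choose! B hB using hN1
  obtain ⟨m, rfl⟩ : ∃ m, p = m + 1 := ⟨p - 1, by have := hp.pos; omega⟩
  refine ⟨∏ k ∈ Finset.range m, (|B (k + 1)| + 1), ?_, fun s hs1 hs2 T hT => ?_⟩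
  · exact Finset.prod_pos fun k _ => by positivity
  have hχk : ∀ k : ℕ, (χ ^ k) ^ (m + 1) = 1 := fun k => by
    ext c
    have h1 := DFunLike.congr_fun hχp c
    simp only [MonoidHom.pow_apply, MonoidHom.one_apply] at h1 ⊢
    rw [← pow_mul, mul_comm, pow_mul, h1, one_pow]
  -- Euler products
  have hprod := hasProd_prod (s := Finset.range (m + 1))
    (f := fun k (v : HeightOneSpectrum (𝓞 K)) => (1 - twist (χ ^ k) s (toI0 v))⁻¹)
    (a := fun k => H34.Lser K (χ ^ k) s)
    (fun k _ => hasProd_lser hp.ne_zero (hχk k) hs1)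
  have hnorm := hprod.norm
  -- local factors
  have hloc : ∀ v : HeightOneSpectrum (𝓞 K),
      (fun k => (1 - twist (χ ^ k) s (toI0 v))⁻¹) =
        fun k => (1 - ((χ (ClassGroup.mk0 (toI0 v)) : ℂˣ) : ℂ) ^ k *
          ((normPow s (toI0 v) : ℝ) : ℂ))⁻¹ := by
    intro v
    funext k
    rw [twist_apply]
    simp
  have hω : ∀ v : HeightOneSpectrum (𝓞 K),
      (((χ (ClassGroup.mk0 (toI0 v)) : ℂˣ) : ℂ)) ^ (m + 1) = 1 := by
    intro v
    have h1 : (χ (ClassGroup.mk0 (toI0 v))) ^ (m + 1) = 1 := by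
      have := congrArg (fun ψ : ClassGroup (𝓞 K) →* ℂˣ => ψ (ClassGroup.mk0 (toI0 v))) hχp
      simpa using this
    have := congrArg (fun u : ℂˣ => (u : ℂ)) h1
    simpa using this
  have hs0 : 0 < s := by linarith
  have hge : ∀ v : HeightOneSpectrum (𝓞 K),
      1 ≤ ‖∏ k ∈ Finset.range (m + 1), (1 - twist (χ ^ k) s (toI0 v))⁻¹‖ := by
    intro v
    rw [hloc v]
    exact (local_factor hp (hω v) (normPow_pos s _) (normPow_prime_lt_one hs0 v)).1
  have hT' : ∀ v ∈ T, (1 + H34.pN s v) ^ (m + 1) ≤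
      ‖∏ k ∈ Finset.range (m + 1), (1 - twist (χ ^ k) s (toI0 v))⁻¹‖ := by
    intro v hv
    rw [hloc v]
    refine (local_factor hp (hω v) (normPow_pos s _) (normPow_prime_lt_one hs0 v)).2 ?_
    have := hT v hv
    rw [primeNZ_eq_toI0] at this
    rw [this]
    simp
  calc (∏ v ∈ T, (1 + H34.pN s v)) ^ (m + 1)
      = ∏ v ∈ T, (1 + H34.pN s v) ^ (m + 1) := (Finset.prod_pow _ _ _).symm
    _ ≤ ∏ v ∈ T, ‖∏ k ∈ Finset.range (m + 1), (1 - twist (χ ^ k) s (toI0 v))⁻¹‖ := by
        apply Finset.prod_le_prod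
        · intro v _
          have : 0 < H34.pN s v := normPow_pos s _
          positivity
        · exact hT'
    _ ≤ ‖∏ k ∈ Finset.range (m + 1), H34.Lser K (χ ^ k) s‖ := prod_le_of_hasProd hnorm hge T
    _ = (∏ k ∈ Finset.range m, ‖H34.Lser K (χ ^ (k + 1)) s‖) * ‖H34.Lser K (χ ^ 0) s‖ := by
        rw [norm_prod, Finset.prod_range_succ']
    _ ≤ (∏ k ∈ Finset.range m, (|B (k + 1)| + 1)) * H34.zetaI K s := by
        have hz : ‖H34.Lser K (χ ^ 0) s‖ = H34.zetaI K s := by
          rw [pow_zero, lser_one, Complex.norm_real, Real.norm_of_nonneg (zetaR_pos hs1).le]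
          rfl
        rw [hz]
        apply mul_le_mul_of_nonneg_right _ (by rw [zetaI_eq_zetaR]; exact (zetaR_pos hs1).le)
        apply Finset.prod_le_prod
        · intro k _
          exact norm_nonneg _
        · intro k hk
          have hk' := Finset.mem_range.mp hk
          have := hB (k + 1) (by omega) (by omega) s hs1 hs2
          have h2 : B (k + 1) ≤ |B (k + 1)| := le_abs_self _
          linarith

end Fermat.Agent.S14.H163

end
-- ===== PACK-END S14/H163/CharBound.lean

-- ===== PACK-BEGIN S55/G/SI777/Norm.lean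
section
/-
S55, layer G, block G-SI-FINAL (helper777).
Norm computations on the `S`-idèle class group for a Galois extension `L/K` with group `G`
(on top of helper773's base change `cBase : C_S(K) → C_S(L)` and Galois descent):

* `normSub S G K L`      : the subgroup `cBase⁻¹ (N_G C_S(L))` of `C_S(K)`;
* `norm_cBase`           : `N_G (cBase c) = |G| • cBase c`;
* `card_smul_mem_normSub`: `|G| • C_S(K) ⊆ normSub`;
* `relIndex_norm_invariants`: `[C_S(L)^G : N_G C_S(L)] = [C_S(K) : normSub]` (descent).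
-/


set_option autoImplicit false
set_option linter.unusedSectionVars false

open scoped NumberField TensorProduct
open IsDedekindDomain

noncomputable section

namespace Fermat.Agent.S55.G.SI777

open Fermat.Agent.S55.G Fermat.Agent.S55.G.DescH773

section Norm

variable (S : Finset Nat.Primes) (G K L : Type) [Group G] [Fintype G] [Field K] [NumberField K]
  [Field L] [NumberField L] [Algebra K L] [MulSemiringAction G L] [IsGaloisGroup G K L]

/-- The subgroup `cBase⁻¹ (N_G C_S(L))` of `C_S(K)`. -/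
def normSub : AddSubgroup (CS S K) :=
  (LinearMap.range (cRepr S G L).norm).toAddSubgroup.comap (cBase S K L)

lemma mem_normSub_iff (c : CS S K) :
    c ∈ normSub S G K L ↔ ∃ x : CS S L, (cRepr S G L).norm x = cBase S K L c := Iff.rfl

/-- `N_G (ι c) = |G| • ι c` for `c ∈ C_S(K)`. -/
lemma norm_cBase (c : CS S K) :
    (cRepr S G L).norm (cBase S K L c) = Fintype.card G • cBase S K L c := by
  rw [Representation.norm, LinearMap.sum_apply]
  simp only [cRepr_cBase S G K L]
  rw [Finset.sum_const, Finset.card_univ]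

/-- `|G| • C_S(K) ⊆ cBase⁻¹ (N_G C_S(L))`. -/
lemma card_smul_mem_normSub (c : CS S K) : Fintype.card G • c ∈ normSub S G K L := by
  rw [mem_normSub_iff]
  exact ⟨cBase S K L c, by rw [norm_cBase, map_nsmul]⟩

lemma range_norm_le_invariants :
    LinearMap.range (cRepr S G L).norm ≤ (cRepr S G L).invariants := by
  rintro _ ⟨x, rfl⟩ g
  exact Representation.self_norm_apply _ g x

/-- The range of `cBase` is the subgroup of `G`-invariants (Galois descent, helper773). -/
lemma range_cBase_eq (hS : S.Nonempty) (hur : ∀ w : PrimeOut S L, eAt K w.1 = 1) :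
    (cBase S K L).range = (cRepr S G L).invariants.toAddSubgroup := by
  ext c
  rw [mem_range_cBase_iff S G K L hS hur]
  rfl

/-- `[C_S(L)^G : N_G C_S(L)] = [C_S(K) : cBase⁻¹ (N_G C_S(L))]`. -/
lemma relIndex_norm_invariants (hS : S.Nonempty) (hur : ∀ w : PrimeOut S L, eAt K w.1 = 1) :
    (LinearMap.range (cRepr S G L).norm).toAddSubgroup.relIndex
        (cRepr S G L).invariants.toAddSubgroup = (normSub S G K L).index := by
  rw [normSub, AddSubgroup.index_comap, range_cBase_eq S G K L hS hur]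

end Norm

end Fermat.Agent.S55.G.SI777

end
end
-- ===== PACK-END S55/G/SI777/Norm.lean

-- ===== PACK-BEGIN S55/G/Rec/Loc/Spec.lean
section


/-!
# S55 / layer G / block REC / sub-block LOC : FROZEN INTERFACE

Sub-architect: helper477.  Blueprint: `origin/helper477:coord/S55-REC-LOC.md`.

Goal of the sub-block (file `Glue.lean`):

  `localInvSystem_of (J : L.InvFamily) (descent) (up) (down) (refine) (res) (unram) (unif) :
      LocalInvSystem`

i.e. the absolute local invariant maps consumed by `ReciprocitySpec` are constructed from the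
finite-level invariant maps of layer L.  Every statement below is a leaf: producers prove
`theorem xxx : XxxSpec` (hypotheses = other Specs of layers L / Local / T are welcome:
`theorem xxx_of (h : L.SomeSpec) : XxxSpec`).

Notation: `K_V = fixedFld q V`, `E` an intermediate field of `ℚ̄_q / K_V`, finite Galois over `K_V`.
-/

set_option autoImplicit false

noncomputable section

namespace Fermat.Agent.S55.G.Rec.Loc

open groupCohomology

/-- **LOC-FD** the fixed field of an open subgroup is finite over `ℚ_q`, and an open subgroup is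
the full fixing subgroup of its fixed field. -/
def OpenSpec : Prop :=
  ∀ (q : ℕ) [Fact q.Prime] (V : Subgroup (PadicAlgCl q ≃ₐ[ℚ_[q]] PadicAlgCl q)),
    IsOpenL q V →
      FiniteDimensional ℚ_[q] (fixedFld q V) ∧ (fixedFld q V).fixingSubgroup = V

/-- **LOC-DESC** every level cocycle on an open `V` is the inflation of a cocycle of some finite
Galois level `E / K_V` (which can be chosen above any given finite extension `E₀`). -/
def DescentSpec : Prop :=
  ∀ (q : ℕ) [Fact q.Prime] (V : Subgroup (PadicAlgCl q ≃ₐ[ℚ_[q]] PadicAlgCl q)),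
    IsOpenL q V →
    ∀ (c : ↥(levelCocycles₂ (lHom q V) (lModOn q V)))
      (E₀ : IntermediateField (fixedFld q V) (PadicAlgCl q)),
      FiniteDimensional (fixedFld q V) E₀ →
      ∃ (E : IntermediateField (fixedFld q V) (PadicAlgCl q))
        (_ : FiniteDimensional (fixedFld q V) E) (_ : IsGalois (fixedFld q V) E)
        (f : cocycles₂ (L.unitsRep (fixedFld q V) E)), E₀ ≤ E ∧ IsAbsInflation q V E f c

/-- **LOC-UP** a finite-level coboundary inflates to a level coboundary. -/
def UpSpec : Prop :=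
  ∀ (q : ℕ) [Fact q.Prime] (V : Subgroup (PadicAlgCl q ≃ₐ[ℚ_[q]] PadicAlgCl q)),
    IsOpenL q V →
    ∀ (E : IntermediateField (fixedFld q V) (PadicAlgCl q))
      [FiniteDimensional (fixedFld q V) E] [IsGalois (fixedFld q V) E]
      (f : cocycles₂ (L.unitsRep (fixedFld q V) E))
      (c : ↥(levelCocycles₂ (lHom q V) (lModOn q V))),
      IsAbsInflation q V E f c → L.cls f = 0 →
        (c : ↥V × ↥V → lModOn q V) ∈ levelCoboundaries₂ (lHom q V) (lModOn q V)

/-- **LOC-DOWN** inflation to the absolute level is injective on classes (Hilbert 90 +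
inflation–restriction at finite level). -/
def DownSpec : Prop :=
  ∀ (q : ℕ) [Fact q.Prime] (V : Subgroup (PadicAlgCl q ≃ₐ[ℚ_[q]] PadicAlgCl q)),
    IsOpenL q V →
    ∀ (E : IntermediateField (fixedFld q V) (PadicAlgCl q))
      [FiniteDimensional (fixedFld q V) E] [IsGalois (fixedFld q V) E]
      (f : cocycles₂ (L.unitsRep (fixedFld q V) E))
      (c : ↥(levelCocycles₂ (lHom q V) (lModOn q V))),
      IsAbsInflation q V E f c →
        (c : ↥V × ↥V → lModOn q V) ∈ levelCoboundaries₂ (lHom q V) (lModOn q V) →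
          L.cls f = 0

/-- **LOC-REF** refinement of the level: for `E ≤ E'` a cocycle `f` on `Gal(E/K_V)` has an
inflation `f'` to `Gal(E'/K_V)`, with the same absolute inflation and the same invariant. -/
def RefineSpec : Prop :=
  ∀ (q : ℕ) [Fact q.Prime] (V : Subgroup (PadicAlgCl q ≃ₐ[ℚ_[q]] PadicAlgCl q))
    [L.IsLocalFld (fixedFld q V)]
    (E E' : IntermediateField (fixedFld q V) (PadicAlgCl q))
    [FiniteDimensional (fixedFld q V) E] [IsGalois (fixedFld q V) E]
    [FiniteDimensional (fixedFld q V) E'] [IsGalois (fixedFld q V) E'],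
    E ≤ E' → ∀ f : cocycles₂ (L.unitsRep (fixedFld q V) E),
      ∃ f' : cocycles₂ (L.unitsRep (fixedFld q V) E'),
        (∀ c : ↥(levelCocycles₂ (lHom q V) (lModOn q V)),
          IsAbsInflation q V E f c → IsAbsInflation q V E' f' c) ∧
        ∀ J : L.InvFamily,
          J.inv (fixedFld q V) E' (L.cls f') = J.inv (fixedFld q V) E (L.cls f)

/-- **LOC-RES** restriction to an open subgroup `V' ≤ V` multiplies the finite-level invariant
by the index. -/
def ResSpec : Prop :=
  ∀ (q : ℕ) [Fact q.Prime] (V V' : Subgroup (PadicAlgCl q ≃ₐ[ℚ_[q]] PadicAlgCl q))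
    [L.IsLocalFld (fixedFld q V)] [L.IsLocalFld (fixedFld q V')] (h : V' ≤ V),
    IsOpenL q V' →
    ∀ (c : ↥(levelCocycles₂ (lHom q V) (lModOn q V)))
      (c' : ↥(levelCocycles₂ (lHom q V') (lModOn q V'))),
      (∀ g k : ↥V', (c' : ↥V' × ↥V' → lModOn q V') (g, k) =
        (c : ↥V × ↥V → lModOn q V) (Subgroup.inclusion h g, Subgroup.inclusion h k)) →
      ∃ (E : IntermediateField (fixedFld q V) (PadicAlgCl q))
        (_ : FiniteDimensional (fixedFld q V) E) (_ : IsGalois (fixedFld q V) E)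
        (f : cocycles₂ (L.unitsRep (fixedFld q V) E))
        (E' : IntermediateField (fixedFld q V') (PadicAlgCl q))
        (_ : FiniteDimensional (fixedFld q V') E') (_ : IsGalois (fixedFld q V') E')
        (f' : cocycles₂ (L.unitsRep (fixedFld q V') E')),
        IsAbsInflation q V E f c ∧ IsAbsInflation q V' E' f' c' ∧
        ∀ J : L.InvFamily,
          J.inv (fixedFld q V') E' (L.cls f') =
            V'.relIndex V • J.inv (fixedFld q V) E (L.cls f)

/-- **LOC-UNR** unramified cocycles with unit values are level coboundaries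
(`H²(Gal(K^{ur}/K), 𝒪^×) = 0`); hypotheses exactly as in `LocalInvSystem.inv_unram`. -/
def UnramSpec : Prop :=
  ∀ (q : ℕ) [Fact q.Prime] (V : Subgroup (PadicAlgCl q ≃ₐ[ℚ_[q]] PadicAlgCl q)),
    IsOpenL q V → ∀ c : ↥(levelCocycles₂ (lHom q V) (lModOn q V)),
      (∀ g h : ↥V, ‖((Additive.toMul ((c : ↥V × ↥V → lModOn q V) (g, h)) :
        (PadicAlgCl q)ˣ) : PadicAlgCl q)‖ = 1) →
      (∀ g h i j : ↥V, IsInertial q (i : PadicAlgCl q ≃ₐ[ℚ_[q]] PadicAlgCl q) →
        IsInertial q (j : PadicAlgCl q ≃ₐ[ℚ_[q]] PadicAlgCl q) →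
        (c : ↥V × ↥V → lModOn q V) (g * i, h * j) = (c : ↥V × ↥V → lModOn q V) (g, h)) →
      (∀ g h i : ↥V, IsInertial q (i : PadicAlgCl q ≃ₐ[ℚ_[q]] PadicAlgCl q) →
        (lModOn q V).ρ i ((c : ↥V × ↥V → lModOn q V) (g, h)) =
          (c : ↥V × ↥V → lModOn q V) (g, h)) →
      (c : ↥V × ↥V → lModOn q V) ∈ levelCoboundaries₂ (lHom q V) (lModOn q V)

/-- **LOC-UNIF** normalisation: the cup of a uniformizer with an unramified character `χ` is
the inflation of a finite-level cocycle of invariant `χ(Frob) / n`; hypotheses exactly as in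
`LocalInvSystem.inv_unif`. -/
def UnifSpec : Prop :=
  ∀ (q : ℕ) [Fact q.Prime] (V : Subgroup (PadicAlgCl q ≃ₐ[ℚ_[q]] PadicAlgCl q))
    [L.IsLocalFld (fixedFld q V)],
    IsOpenL q V → ∀ (n : ℕ) [NeZero n] (χ : ↥V →* Multiplicative (ZMod n)),
      (∀ τ : ↥V, IsInertial q (τ : PadicAlgCl q ≃ₐ[ℚ_[q]] PadicAlgCl q) → χ τ = 1) →
      ∀ (φ : PadicAlgCl q ≃ₐ[ℚ_[q]] PadicAlgCl q) (hφ : IsFrobenius q V φ),
      ∀ π : (PadicAlgCl q)ˣ, IsUniformizer q V (π : PadicAlgCl q) →
      ∀ c : ↥(levelCocycles₂ (lHom q V) (lModOn q V)),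
        IsCupChar (toLMod q V π) χ (c : ↥V × ↥V → lModOn q V) →
        ∀ J : L.InvFamily,
          ∃ (E : IntermediateField (fixedFld q V) (PadicAlgCl q))
            (_ : FiniteDimensional (fixedFld q V) E) (_ : IsGalois (fixedFld q V) E)
            (f : cocycles₂ (L.unitsRep (fixedFld q V) E)),
            IsAbsInflation q V E f c ∧
            J.inv (fixedFld q V) E (L.cls f) =
              (((((Multiplicative.toAdd (χ ⟨φ, hφ.1⟩)).val : ℚ) / (n : ℚ) : ℚ)) :
                AddCircle (1 : ℚ))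

end Fermat.Agent.S55.G.Rec.Loc

end
end
-- ===== PACK-END S55/G/Rec/Loc/Spec.lean

-- ===== PACK-BEGIN S55/G/Rec/Loc/UnifH544/Coh.lean
section


/-!
# S55 / G / REC / LOC, leaf LOC-UNIF (helper544), part 2: cup classes on a cyclic group

`G = ⟨σ⟩` cyclic of order `d` with generating character `ψ : G → ℤ/d` (`ψ σ = 1`), and an arbitrary
character `χ : G → ℤ/n`.  Then for every invariant `a`

  `[cupChar a χ] = (χ̃(σ) d / n) • [cupChar a ψ]`   in `H²(G, A)`

(`cc_eq_nsmul_cc544`), where `χ̃(σ) ∈ {0, …, n-1}` is the canonical lift.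
-/

set_option autoImplicit false
set_option linter.unusedSectionVars false

open CategoryTheory groupCohomology

namespace Fermat.Agent.S55.G.Rec.Loc.H544

open Fermat.Agent.S55.G.Rec

section Arith

variable {G : Type} [Group G] {n d : ℕ} [NeZero n] [NeZero d]
  (χ : G →* Multiplicative (ZMod n)) {ψ : G →* Multiplicative (ZMod d)} {σ : G}

theorem lift_pow544 (σ : G) (m : ℕ) : lift χ (σ ^ m) = (lift χ σ * m) % n := by
  unfold lift
  rw [map_pow, toAdd_pow, nsmul_eq_mul, ZMod.val_mul, ZMod.val_natCast, Nat.mod_mul_mod,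
    mul_comm]

theorem lift_eq544 (h : IsGenChar ψ σ) (g : G) : lift χ g = (lift χ σ * lift ψ g) % n := by
  conv_lhs => rw [← h.pow_lift g]
  exact lift_pow544 χ σ _

theorem dvd_lift_mul544 (h : IsGenChar ψ σ) : n ∣ lift χ σ * d := by
  have h1 := lift_pow544 χ σ d
  rw [h.pow_card, lift_map_one] at h1
  exact Nat.dvd_of_mod_eq_zero h1.symm

/-- The correction cochain `β(g) = (χ̃(σ) ψ̃(g)) / n`. -/
def scaleIdx544 (χ : G →* Multiplicative (ZMod n)) (ψ : G →* Multiplicative (ZMod d)) (σ : G)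
    (g : G) : ℕ :=
  (lift χ σ * lift ψ g) / n

theorem scaleIdx_spec544 (h : IsGenChar ψ σ) (g : G) :
    lift χ σ * lift ψ g = n * scaleIdx544 χ ψ σ g + lift χ g := by
  rw [lift_eq544 χ h g, scaleIdx544]
  exact (Nat.div_add_mod _ _).symm

/-- The key identity of carries. -/
theorem carry_scale544 (h : IsGenChar ψ σ) (g t : G) :
    carry χ g t + scaleIdx544 χ ψ σ g + scaleIdx544 χ ψ σ t =
      scaleIdx544 χ ψ σ (g * t) + (lift χ σ * d / n) * carry ψ g t := by
  have hn : 0 < n := Nat.pos_of_ne_zero (NeZero.ne n)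
  obtain ⟨s, hs⟩ := dvd_lift_mul544 χ h
  have hs' : lift χ σ * d / n = s := by
    rw [hs]
    exact Nat.mul_div_cancel_left s hn
  rw [hs']
  have e1 := lift_add_lift χ g t
  have e2 := scaleIdx_spec544 χ h g
  have e3 := scaleIdx_spec544 χ h t
  have e4 := scaleIdx_spec544 χ h (g * t)
  have e5 := lift_add_lift ψ g t
  apply Nat.eq_of_mul_eq_mul_left hn
  have e5' : lift χ σ * lift ψ g + lift χ σ * lift ψ t =
      lift χ σ * lift ψ (g * t) + n * s * carry ψ g t := by
    rw [← mul_add, e5, mul_add, ← mul_assoc, hs]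
  have e6 : n * (s * carry ψ g t) = n * s * carry ψ g t := (mul_assoc _ _ _).symm
  rw [mul_add, mul_add, mul_add, e6]
  omega

end Arith

section Class

variable {k G : Type} [CommRing k] [Group G] {n d : ℕ} [NeZero n] [NeZero d]
  (A : Rep.{0} k G) (χ : G →* Multiplicative (ZMod n)) {ψ : G →* Multiplicative (ZMod d)} {σ : G}

/-- Cochain level: `cupChar a χ - s • cupChar a ψ = d (g ↦ - β(g) • a)`. -/
theorem cupChar_sub_nsmul544 (h : IsGenChar ψ σ) (a : A.ρ.invariants) :
    (cupChar A χ a : G × G → A.V) - (lift χ σ * d / n) • (cupChar A ψ a : G × G → A.V) =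
      (d₁₂ A).hom (fun g => - (scaleIdx544 χ ψ σ g • (a : A.V))) := by
  funext ⟨g, t⟩
  have ha : ∀ g : G, A.ρ g (a : A.V) = a := a.2
  have key := carry_scale544 χ h g t
  have key' : carry χ g t • (a : A.V) + scaleIdx544 χ ψ σ g • (a : A.V) +
      scaleIdx544 χ ψ σ t • (a : A.V) =
      scaleIdx544 χ ψ σ (g * t) • (a : A.V) +
        (lift χ σ * d / n) • (carry ψ g t • (a : A.V)) := by
    rw [← add_nsmul, ← add_nsmul, ← mul_nsmul', ← add_nsmul, key]
  simp only [Pi.sub_apply, Pi.smul_apply, cupChar_apply, d₁₂_hom_apply, map_neg, map_nsmul, ha]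
  generalize carry χ g t • (a : A.V) = u at key' ⊢
  generalize scaleIdx544 χ ψ σ g • (a : A.V) = v at key' ⊢
  generalize scaleIdx544 χ ψ σ t • (a : A.V) = w at key' ⊢
  generalize scaleIdx544 χ ψ σ (g * t) • (a : A.V) = z at key' ⊢
  generalize (lift χ σ * d / n) • carry ψ g t • (a : A.V) = y at key' ⊢
  have hu : u = z + y - w - v := by
    rw [← key']
    abel
  rw [hu]
  abel

/-- **Scaling of cup classes on a cyclic group.** -/
theorem cc_eq_nsmul_cc544 (h : IsGenChar ψ σ) (a : A.ρ.invariants) :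
    (H2π A).hom (cupChar A χ a) = (lift χ σ * d / n) • (H2π A).hom (cupChar A ψ a) := by
  rw [← map_nsmul]
  change H2π A (cupChar A χ a) = H2π A ((lift χ σ * d / n) • cupChar A ψ a)
  rw [H2π_eq_iff]
  change (cupChar A χ a : G × G → A.V) - (lift χ σ * d / n) • (cupChar A ψ a : G × G → A.V) ∈
    coboundaries₂ A
  rw [cupChar_sub_nsmul544 A χ h a]
  exact LinearMap.mem_range_self _ _

end Class

end Fermat.Agent.S55.G.Rec.Loc.H544

end
-- ===== PACK-END S55/G/Rec/Loc/UnifH544/Coh.lean

-- ===== PACK-BEGIN S55/L/UnrInv/EF717.lean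
section




/-!
# S55, layer L, leaf **UI-EF** (`ResidueDegreeSpec`)   (helper717)

`theorem residueDegree717 : Fermat.Agent.S55.L.UnrInv.ResidueDegreeSpec`, unconditional.

For a finite extension `K'/K` of local fields with rings of integers `A'`, `A` and uniformizers
`π'`, `π`: there are `e f` with `e * f = [K' : K]`, `π = u * π' ^ e` with `u` a unit of `A'`, and
`|k'| = |k| ^ f`.

Route: `A'` is the integral closure of `A` in `K'` (landed `FiniteExt286` + uniqueness
`RingOfIntegersUnique775`), hence a finite `A`-algebra which is a DVR; Mathlib's fundamental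
identity in the local case gives `e * f = [K' : K]` for the ramification index / inertia degree
of the maximal ideals; `e` is read off from `π A' = (π')^e` and `f = [k' : k]`.
-/

set_option autoImplicit false
set_option linter.deprecated false
set_option linter.style.haveILetI false
set_option linter.unusedSectionVars false

namespace Fermat.Agent.S55.L.UnrInv.H717

open IsLocalRing

section Abstract

variable {R S : Type} [CommRing R] [IsDomain R] [IsDiscreteValuationRing R]
  [CommRing S] [IsDomain S] [IsDiscreteValuationRing S] [Algebra R S]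

/-- In a DVR extension `R → S` (injective), with uniformizers `ϖ`, `ϖ'` and
`algebraMap ϖ = u * ϖ' ^ e`, `u` a unit, the (old-style) ramification index of the maximal
ideals is `e`. -/
theorem ramificationIdx'_eq_of_eq_unit_mul_pow {ϖ : R} {ϖ' : S} (hϖ : Irreducible ϖ)
    (hϖ' : Irreducible ϖ') {u : Sˣ} {e : ℕ} (h : algebraMap R S ϖ = u * ϖ' ^ e) :
    Ideal.ramificationIdx' (maximalIdeal R) (maximalIdeal S) = e := by
  have hp : maximalIdeal R = Ideal.span {ϖ} := hϖ.maximalIdeal_eq
  have hP : maximalIdeal S = Ideal.span {ϖ'} := hϖ'.maximalIdeal_eq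
  have hmap : Ideal.map (algebraMap R S) (maximalIdeal R) = maximalIdeal S ^ e := by
    rw [hp, Ideal.map_span, Set.image_singleton, h, hP, Ideal.span_singleton_pow]
    exact Ideal.span_singleton_eq_span_singleton.mpr
      ⟨u⁻¹, by rw [mul_comm (u : S), mul_assoc, Units.mul_inv, mul_one]⟩
  refine Ideal.ramificationIdx'_spec hmap.le ?_
  rw [hmap]
  intro hle
  have hne : maximalIdeal S ≠ ⊥ := IsDiscreteValuationRing.not_a_field S
  have hlt : maximalIdeal S ^ (e + 1) < maximalIdeal S ^ e :=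
    Ideal.pow_succ_lt_pow hne e
  exact absurd hle (not_le_of_gt hlt)

end Abstract

/-- **UI-EF**. -/
theorem residueDegree717 : ResidueDegreeSpec := by
  intro K K' _ _ _ _ hK A A' π π' hA hA' hπ hπ'
  have hchar : CharZero K := hK.charZero
  letI : Algebra A K' := ((algebraMap K K').comp (algebraMap A K)).toAlgebra
  haveI : IsScalarTower A K K' := IsScalarTower.of_algebraMap_eq (fun _ => rfl)
  obtain ⟨B, hB, hmemB, -⟩ := exists_ringOfIntegers_eq_integralClosure286 (K := K) (L := K') A hA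
  haveI : IsLocalFld K' := finiteExt286 K K'
  have hBA : A' = B := ringOfIntegersUnique775 K' A' B hA' hB
  have hmem : ∀ x : K', x ∈ A' ↔ IsIntegral A x := fun x => by rw [hBA]; exact hmemB x
  letI : Algebra A A' :=
    ((algebraMap A K').codRestrict A'.toSubring
      (fun a => (hmem _).mpr isIntegral_algebraMap)).toAlgebra
  haveI : IsScalarTower A A' K' := IsScalarTower.of_algebraMap_eq (fun _ => rfl)
  haveI : IsIntegralClosure A' A K' :=
    ⟨Subtype.val_injective, fun {x} => ⟨fun h => ⟨⟨x, (hmem x).mpr h⟩, rfl⟩,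
      fun ⟨y, hy⟩ => hy ▸ (hmem _).mp y.2⟩⟩
  haveI := hA.1
  haveI := hA'.1
  haveI : Algebra.IsSeparable K K' := inferInstance
  haveI : Module.Finite A A' := IsIntegralClosure.finite A K K' A'
  have hp0 : maximalIdeal A ≠ ⊥ := IsDiscreteValuationRing.not_a_field A
  have hef := Ideal.ramificationIdx_mul_inertiaDeg_of_isLocalRing (R := A) (S := A') K K'
    (p := maximalIdeal A) hp0
  obtain ⟨hπA, hπirr⟩ := hπ
  obtain ⟨hπA', hπ'irr⟩ := hπ'
  have hinj : Function.Injective (algebraMap A A') := by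
    intro x y hxy
    have h2 : algebraMap A K' x = algebraMap A K' y := by
      rw [IsScalarTower.algebraMap_apply A A' K', IsScalarTower.algebraMap_apply A A' K', hxy]
    have h3 : algebraMap K K' (x : K) = algebraMap K K' (y : K) := h2
    exact Subtype.ext ((algebraMap K K').injective h3)
  have hne : algebraMap A A' ⟨π, hπA⟩ ≠ 0 := by
    rw [Ne, map_eq_zero_iff _ hinj]
    exact hπirr.ne_zero
  obtain ⟨e, u, hu⟩ := IsDiscreteValuationRing.eq_unit_mul_pow_irreducible hne hπ'irr
  have he : Ideal.ramificationIdx' (maximalIdeal A) (maximalIdeal A') = e :=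
    ramificationIdx'_eq_of_eq_unit_mul_pow hπirr hπ'irr hu
  haveI : FaithfulSMul A A' := (faithfulSMul_iff_algebraMap_injective A A').mpr hinj
  haveI : IsLocalHom (algebraMap A A') := by
    haveI : Algebra.IsIntegral A A' := IsIntegralClosure.isIntegral_algebra A K'
    exact Algebra.IsIntegral.isLocalHom _ _
  haveI : (maximalIdeal A').LiesOver (maximalIdeal A) := inferInstance
  have hf : Ideal.inertiaDeg' (maximalIdeal A) (maximalIdeal A') =
      Module.finrank (A ⧸ maximalIdeal A) (A' ⧸ maximalIdeal A') :=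
    Ideal.inertiaDeg'_algebraMap _ _
  refine ⟨e, Ideal.inertiaDeg' (maximalIdeal A) (maximalIdeal A'), ?_, ?_, ?_⟩
  · rw [← he]; exact hef
  · refine ⟨((u : A') : K'), (u : A').2, ?_, ?_⟩
    · have : (((u : A') : K'))⁻¹ = (((u⁻¹ : A'ˣ) : A') : K') := by
        rw [eq_comm, ← mul_eq_one_iff_eq_inv₀ ?_]
        · have h1 : ((u⁻¹ : A'ˣ) : A') * (u : A') = 1 := Units.inv_mul u
          have h2 := congrArg (Subtype.val) h1
          exact h2
        · intro h0
          have : (u : A') = 0 := Subtype.ext h0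
          exact u.ne_zero this
      rw [this]
      exact ((u⁻¹ : A'ˣ) : A').2
    · have h1 := congrArg (Subtype.val) hu
      have h2 : ((algebraMap A A' ⟨π, hπA⟩ : A') : K') = algebraMap K K' π := rfl
      rw [← h2, h1]
      simp
  · rw [hf]
    letI : Field (A ⧸ maximalIdeal A) := Ideal.Quotient.field (maximalIdeal A)
    exact Module.natCard_eq_pow_finrank (K := A ⧸ maximalIdeal A) (V := A' ⧸ maximalIdeal A')

end Fermat.Agent.S55.L.UnrInv.H717

end
-- ===== PACK-END S55/L/UnrInv/EF717.lean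

-- ===== PACK-BEGIN S55/Spec/Datum.lean
section
/-
S55 moonshot — FROZEN INTERFACE between the arithmetic layers (G, L) and the engine E1 (layer D).
Chief architect: helper55.  Blueprint: coord/S55-E1.md §1.  NO sorry.

`TowerDatum S` : for every level `F` a `Gal(F/ℚ)`-module `C(F)` (think: `S`-idèle class group
`(J_S(F) × Div^S(F)) / Fˣ`, no archimedean part), a class `γ_F ∈ H²(Gal(F/ℚ), C(F))`, maps
`j_q : J_q(F) → C(F)` and transition maps `C(F) → C(F')`.
`TowerDatum.IsGood p` : the properties GD1, GD3–GD8 consumed by the engine.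
`GlobalSpec S p : ∃ D : TowerDatum S, D.IsGood p`  — the TARGET of layer G.
`LocalSpec p`, `SUnitsDivSpec S p`, `H1FiniteSpec` — the other arithmetic inputs (GD2, LH90, LDIV, GD9,
GD10).  Only `p`-primary information is required; any normalisation of invariants is fine.
-/



set_option autoImplicit false

open CategoryTheory

namespace Fermat.Agent.S55.Tow

noncomputable section

/-- The data of a tower datum. -/
structure TowerDatum (S : Finset Nat.Primes) where
  /-- the class module `C(F)` -/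
  C : ∀ L : Level S, Rep.{0} ℤ L.Gal
  /-- the fundamental class (any generator at `p`) -/
  γ : ∀ L : Level S, groupCohomology (C L) 2
  /-- `j_q : J_q(F) → C(F)` (only `q ∈ S` is used) -/
  j : ∀ (L : Level S) (q : Nat.Primes), L.J q ⟶ C L
  /-- the transition map `C(F) → C(F')` for `F ≤ F'` -/
  tr : ∀ {L L' : Level S} (h : L ≤ L'), Rep.res (Level.proj h) (C L) ⟶ C L'

namespace TowerDatum

variable {S : Finset Nat.Primes} (D : TowerDatum S)

/-- `c ∈ C(F)` lies in the image of `J(F) = ⊕_{q ∈ S} J_q(F)`. -/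
def IsLocalSum (L : Level S) (c : (D.C L).V) : Prop :=
  ∃ x : ∀ q : S, (L.J q.1).V, c = ∑ q : S, (D.j L q.1).hom (x q)

/-- The inflation map `H²(Gal(F/ℚ), C(F)) → H²(Gal(F'/ℚ), C(F'))`. -/
def inf {L L' : Level S} (h : L ≤ L') :
    groupCohomology (D.C L) 2 →ₗ[ℤ] groupCohomology (D.C L') 2 :=
  (groupCohomology.map (Level.proj h) (D.tr h) 2).hom

/-- The properties of a tower datum consumed by the engine E1 (blueprint §1). -/
structure IsGood (p : ℕ) : Prop where
  /-- GD1: `(C(F), γ_F)` is a class module at `p`. -/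
  gd1 : ∀ L : Level S, E1.IsClassModuleAt p (D.C L) (D.γ L)
  /-- GD3: `(j_q)_* : H²(G_F, J_q(F)) → H²(G_F, C(F))` is injective on `p`-torsion. -/
  gd3 : ∀ (L : Level S) (q : Nat.Primes), q ∈ S → ∀ y : groupCohomology (L.J q) 2,
    p • y = 0 → (T.coeffMap (D.j L q) 2).hom y = 0 → y = 0
  /-- GD4: the kernel of `J(F) → C(F)` is the diagonal image of the `S`-units. -/
  gd4 : ∀ (L : Level S) (x : ∀ q : S, (L.J q.1).V),
    ∑ q : S, (D.j L q.1).hom (x q) = 0 ↔
      ∃ e : L.units.V, L.IsSUnit e ∧ ∀ q : S, x q = (L.diag q.1).hom e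
  /-- GD5: capitulation of the `p`-part of `C(F)/im J(F)`. -/
  gd5 : ∀ (L : Level S) (c : (D.C L).V) (a : ℕ), D.IsLocalSum L (p ^ a • c) →
    ∃ (L' : Level S) (h : L ≤ L'), D.IsLocalSum L' ((D.tr h).hom c)
  /-- GD6: existence theorem mod `p`: norms from high levels are `p`-th multiples. -/
  gd6 : ∀ L₀ : Level S, ∃ L₁ : Level S, L₀ ≤ L₁ ∧ ∀ (L : Level S) (h : L₀ ≤ L), L₁ ≤ L →
    @E1.NormInP p L.Gal _ (Level.relGal h) (Fintype.ofFinite _) (D.C L)
  /-- GD7a: `tr` is compatible with `j` and the inclusions `J_q(F) → J_q(F')`. -/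
  gd7a : ∀ {L L' : Level S} (h : L ≤ L') (q : Nat.Primes) (x : (L.J q).V),
    (D.tr h).hom ((D.j L q).hom x) = (D.j L' q).hom ((Level.trJ h q).hom x)
  /-- GD7b: `tr` is transitive. -/
  gd7b : ∀ {L L' L'' : Level S} (h : L ≤ L') (h' : L' ≤ L'') (c : (D.C L).V),
    (D.tr h').hom ((D.tr h).hom c) = (D.tr (h.trans h')).hom c
  /-- GD8: inflation `H²(G_F, C(F)) → H²(G_{F'}, C(F'))` is injective on `p`-torsion. -/
  gd8 : ∀ {L L' : Level S} (h : L ≤ L') (z : groupCohomology (D.C L) 2),
    p • z = 0 → D.inf h z = 0 → z = 0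

end TowerDatum

/-- **TARGET OF LAYER G**: a good tower datum exists. -/
def GlobalSpec (S : Finset Nat.Primes) (p : ℕ) : Prop :=
  ∃ D : TowerDatum S, D.IsGood p

/-- **TARGET OF LAYER L** (GD2, LH90, LDIV), for all finite Galois `F/ℚ` (levels of any `S'`):
* `F_qˣ` is a class module at `p` for `Gal(F_q/ℚ_q)`;
* Hilbert 90 for `F'_q/F_q`;
* every element of `F_qˣ` is a `p`-th power in `F'_qˣ` for some finite Galois `F' ≥ F`. -/
def LocalSpec (p : ℕ) : Prop :=
  (∀ (S' : Finset Nat.Primes) (L : Level S') (q : Nat.Primes),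
    ∃ γ : groupCohomology (L.locUnits q) 2, E1.IsClassModuleAt p (L.locUnits q) γ) ∧
  (∀ (S' : Finset Nat.Primes) (L L' : Level S') (h : L ≤ L') (q : Nat.Primes),
    Limits.IsZero (groupCohomology (T.resSub (L'.locUnits q) (Level.projDec h q).ker) 1)) ∧
  (∀ (S' : Finset Nat.Primes) (L : Level S') (q : Nat.Primes) (x : (L.locUnits q).V),
    ∃ (S'' : Finset Nat.Primes) (hS : S' ⊆ S'') (L' : Level S'') (h : Level.ofLE hS L ≤ L')
      (y : (L'.locUnits q).V), p • y = (Level.trLoc h q).hom x)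

/-- **GD9**: the `S`-units are `p`-divisible in the tower, and `μ_p` lives at some level. -/
def SUnitsDivSpec (S : Finset Nat.Primes) (p : ℕ) : Prop :=
  (∀ (L : Level S) (e : L.units.V), L.IsSUnit e →
    ∃ (L' : Level S) (h : L ≤ L') (e' : L'.units.V), L'.IsSUnit e' ∧
      p • e' = (Level.trUnits h).hom e) ∧
  (∃ L₀ : Level S, ∀ ζ : Qbar, ζ ^ p = 1 → ζ ∈ L₀.F)

/-- **GD10**: finiteness of `H¹_S` (Prelude `continuousH1S`) for finite `F_p`-representations
factoring through a level. -/
def H1FiniteSpec (S : Finset Nat.Primes) (p : ℕ) [Fact p.Prime] : Prop :=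
  ∀ (N : Rep.{0} (ZMod p) GQ) [FiniteDimensional (ZMod p) N],
    (∃ L : Level S, ∀ s ∈ L.U, N.ρ s = 1) →
    Module.Finite (ZMod p) (groupCohomology.continuousH1S S N)

end

end Fermat.Agent.S55.Tow

end
-- ===== PACK-END S55/Spec/Datum.lean

-- ===== PACK-BEGIN S55/E1/H114/Alg5.lean
section
/-
S55 engine E1, block ALG — helper114.
ALG5 (alpha^1) assembled from ALG1, ALG2, ALG4 in the exact frozen form
`Fermat.Agent.S55.E1.ALG5AssemblySpec`.
-/


set_option autoImplicit false

open CategoryTheory CategoryTheory.Limits groupCohomology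

namespace Fermat.Agent.S55.E1.H114

noncomputable section

variable {G : Type} [Group G]

/-- `H¹(G, N)` is killed by `p` when `N` is. -/
lemma nsmul_H1_eq_zero (p : ℕ) (N : Rep.{0} ℤ G) (hN : ∀ n : N.V, p • n = 0)
    (x : groupCohomology N 1) : p • x = 0 := by
  induction x using groupCohomology.H1_induction_on with
  | h f =>
    rw [← map_nsmul]
    have : p • f = 0 := by
      ext g
      exact hN _
    rw [this, map_zero]

/-- (a) of ALG5: the pairing with a restricted map vanishes. -/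
lemma pair_resBA_eq_zero (N C : Rep.{0} ℤ G) (h : homB N C) (x : groupCohomology N 1) :
    pair (resBA N C h) x = 0 := by
  have h0 : groupCohomology.δ (stdSC_shortExact N) 1 2 rfl ≫ T.coeffMap (stdι N) 2 = 0 :=
    (mapShortComplex₁ (stdSC_shortExact N) (i := 1) (j := 2) rfl).zero
  have h1 : (T.coeffMap (stdι N) 2).hom (stdδ N x) = 0 := by
    have := congrArg (fun φ => φ.hom x) h0
    exact this
  show (T.coeffMap (stdι N ≫ h) 2).hom (stdδ N x) = 0
  rw [T.coeffMap, groupCohomology.map_id_comp]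
  show (T.coeffMap h 2).hom ((T.coeffMap (stdι N) 2).hom (stdδ N x)) = 0
  rw [h1, map_zero]

/-- **ALG5 from ALG1, ALG2, ALG4**, exact frozen form. -/
theorem alg5Assembly : ALG5AssemblySpec := by
  intro h1 h2 h4 p hp G _ _ N C γ hNfin hN hC hT
  obtain ⟨hfree, hfin, hbij⟩ := h1 G N hNfin
  obtain ⟨hsurj, hker⟩ := hT p hp G C γ hC (stdR N) hfree hfin
  refine ⟨fun h x => pair_resBA_eq_zero N C h x, ?_, ?_⟩
  · intro χ
    let e : groupCohomology N 1 ≃+ groupCohomology (stdR N) 2 :=
      AddEquiv.ofBijective (stdδ N).toAddMonoidHom hbij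
    obtain ⟨f, hf⟩ := hsurj (χ.comp e.symm.toAddMonoidHom)
    refine ⟨f, fun x => ?_⟩
    have hx : IsPPrimary p (stdδ N x) :=
      ⟨1, by rw [pow_one, ← map_nsmul, nsmul_H1_eq_zero p N hN, map_zero]⟩
    have h3 := hf (stdδ N x) hx
    have h5 : e.symm (stdδ N x) = x := e.symm_apply_apply x
    show (T.coeffMap f 2).hom (stdδ N x) = χ x
    rw [h3]
    show χ (e.symm (stdδ N x)) = χ x
    rw [h5]
  · intro H _ _ hHN hnorm f hf
    have hzero : ∀ y : groupCohomology (stdR N) 2, IsPPrimary p y →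
        (T.coeffMap f 2).hom y = 0 := by
      intro y _
      obtain ⟨x, rfl⟩ := hbij.2 y
      exact hf x
    obtain ⟨m, ψ, hm, hψ⟩ := hker f hzero
    obtain ⟨k, hk⟩ := h4 p hp G H N C hNfin hN hHN hnorm ψ
    obtain ⟨k', hk'⟩ := h2 p G N C hN f
    have hk2 : stdι N ≫ k = m • f := by
      apply Rep.hom_ext
      apply DFunLike.ext
      intro r
      show k.hom ((stdι N).hom r) = m • f.hom r
      rw [hk, hψ]
    obtain ⟨a, b, hab⟩ := Nat.isCoprime_iff_coprime.2 hm
    refine ⟨a • k + b • k', ?_⟩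
    rw [Preadditive.comp_add, Preadditive.comp_zsmul, Preadditive.comp_zsmul, hk2, hk',
      ← natCast_zsmul f m, ← natCast_zsmul f p, smul_smul, smul_smul, ← add_smul, hab, one_smul]

end

end Fermat.Agent.S55.E1.H114

end
-- ===== PACK-END S55/E1/H114/Alg5.lean

-- ===== PACK-BEGIN S55/E1/H423/Alg4Spec.lean
section



/-!
# S55, engine E1: `ALG4Spec` (NORM-KILL) — exact frozen Spec form

* `alg4_add` : NORM-KILL in purely additive form (actions `G →* AddMonoid.End _`, no `ℤ`-module
  instances in the statement), derived from `H423.alg4`;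
* `alg4Spec : ALG4Spec` : the frozen statement of `E1/SpecAlg.lean` for the standard presentation
  `0 → R → P → N → 0` in `Rep ℤ G`.  (Normality of `H` and finiteness of `N` are not used.)
-/

set_option autoImplicit false
set_option linter.style.haveILetI false

open CategoryTheory CategoryTheory.Limits

namespace Fermat.Agent.S55.E1.H423

section Additive

variable {G : Type*} [Group G]

/-- The (canonical-instance) `ℤ`-linear representation attached to an additive action. -/
def repOfAdd {P : Type*} [AddCommGroup P] (a : G →* AddMonoid.End P) : Representation ℤ G P :=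
  ((addMonoidEndRingEquivInt P : AddMonoid.End P →+* Module.End ℤ P) : AddMonoid.End P →*
    Module.End ℤ P).comp a

@[simp]
theorem repOfAdd_apply {P : Type*} [AddCommGroup P] (a : G →* AddMonoid.End P) (g : G) (x : P) :
    repOfAdd a g x = a g x := rfl

/-- **ALG4 (NORM-KILL), additive form.** -/
theorem alg4_add [Fintype G] {R' P C : Type*} [AddCommGroup R'] [AddCommGroup P]
    [AddCommGroup C] (aR : G →* AddMonoid.End R') (aP : G →* AddMonoid.End P)
    (aC : G →* AddMonoid.End C) (ι : R' →+ P) (hι : Function.Injective ι)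
    (hιeq : ∀ (g : G) (r : R'), ι (aR g r) = aP g (ι r))
    (p : ℕ) [Fact p.Prime] (hp : ∀ x : P, ∃ r : R', ι r = p • x)
    (H : Subgroup G) [Fintype H] (hH : ∀ h ∈ H, ∀ x : P, ∃ r : R', ι r = aP h x - x)
    (hC : ∀ c : C, ∃ c' : C, (∀ h ∈ H, aC h c' = c') ∧ ∑ h : H, aC (h : G) c = p • c')
    (ψ : R' →+ C) :
    ∃ K : P →+ C, (∀ (σ : G) (x : P), K (aP σ x) = aC σ (K x)) ∧
      ∀ r : R', K (ι r) = ∑ σ : G, aC σ (ψ (aR σ⁻¹ r)) := by
  classical
  let R : Submodule ℤ P := LinearMap.range ι.toIntLinearMap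
  have hR : ∀ (σ : G), ∀ r ∈ R, repOfAdd aP σ r ∈ R := by
    rintro σ _ ⟨r, rfl⟩
    exact ⟨aR σ r, hιeq σ r⟩
  have hpR : ∀ x : P, (p : ℤ) • x ∈ R := by
    intro x
    obtain ⟨r, hr⟩ := hp x
    exact ⟨r, by rw [Nat.cast_smul_eq_nsmul]; exact hr⟩
  have hHR : ∀ h ∈ H, ∀ x : P, repOfAdd aP h x - x ∈ R := by
    intro h hh x
    obtain ⟨r, hr⟩ := hH h hh x
    exact ⟨r, hr⟩
  have hCR : ∀ c : C, ∃ c' : C, (∀ h ∈ H, repOfAdd aC h c' = c') ∧
      ∑ h : H, repOfAdd aC (h : G) c = (p : ℤ) • c' := by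
    intro c
    obtain ⟨c', h1, h2⟩ := hC c
    exact ⟨c', h1, by rw [Nat.cast_smul_eq_nsmul]; exact h2⟩
  let e : R' ≃ₗ[ℤ] R := LinearEquiv.ofInjective ι.toIntLinearMap hι
  have he : ∀ r : R', ((e r : R) : P) = ι r := fun r => rfl
  let g : R →ₗ[ℤ] C := ψ.toIntLinearMap ∘ₗ e.symm.toLinearMap
  obtain ⟨K, hK, hKR⟩ := alg4 (repOfAdd aP) (repOfAdd aC) R hR p hpR H hHR hCR g
  refine ⟨K.toAddMonoidHom, fun σ x => hK σ x, fun r => ?_⟩
  have h1 := hKR (e r)
  rw [normHom_apply] at h1
  have h0 : K (ι r) = K ((e r : R) : P) := by rw [he]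
  show K (ι r) = _
  rw [h0, h1]
  refine Finset.sum_congr rfl fun σ _ => ?_
  have h2 : (⟨repOfAdd aP σ⁻¹ (e r : R), hR σ⁻¹ _ (e r).2⟩ : R) = e (aR σ⁻¹ r) :=
    Subtype.ext (hιeq σ⁻¹ r).symm
  rw [h2]
  show aC σ (ψ (e.symm (e (aR σ⁻¹ r)))) = _
  rw [LinearEquiv.symm_apply_apply]

end Additive

section Std

open Fermat.Agent.S55.E1

variable {G : Type} [Group G] (N : Rep.{0} ℤ G)

/-- `ε ∘ ι = 0` on elements. -/
theorem stdε_stdι_apply (r : (stdR N).V) : (stdε N).hom ((stdι N).hom r) = 0 := by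
  have h : stdι N ≫ stdε N = 0 := kernel.condition (stdε N)
  have h2 := congrArg (fun f => f.hom r) h
  simpa using h2

theorem stdι_injective : Function.Injective (stdι N).hom :=
  (Rep.mono_iff_injective _).1 (stdι_mono N)

/-- Every element of `ker ε` comes from `R`. -/
theorem exists_stdι_eq {x : (stdP N).V} (hx : (stdε N).hom x = 0) :
    ∃ r : (stdR N).V, (stdι N).hom r = x := by
  letI : Module ℤ N.V := N.hV2
  letI : Module ℤ (stdP N).V := (stdP N).hV2
  let W := LinearMap.ker (stdε N).hom.toLinearMap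
  have hW : ∀ g, W ≤ W.comap ((stdP N).ρ g) := by
    intro g y hy
    have hy' : (stdε N).hom y = 0 := hy
    show (stdε N).hom ((stdP N).ρ g y) = 0
    rw [Rep.hom_comm_apply, hy', map_zero]
  let s : Rep.subrepresentation (stdP N) W hW ⟶ stdP N := Rep.subtype (stdP N) W hW
  have hs : s ≫ stdε N = 0 := by
    apply Rep.hom_ext
    apply Representation.IntertwiningMap.ext
    ext y
    exact y.2
  let l := kernel.lift (stdε N) s hs
  have hl : l ≫ kernel.ι (stdε N) = s := kernel.lift_ι _ _ _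
  refine ⟨l.hom ⟨x, hx⟩, ?_⟩
  have h2 := congrArg (fun f => f.hom ⟨x, hx⟩) hl
  exact h2

/-- The additive action underlying a `Rep`. -/
def addAct (A : Rep.{0} ℤ G) : G →* AddMonoid.End A.V where
  toFun g := (A.ρ g).toAddMonoidHom
  map_one' := by ext x; simp; rfl
  map_mul' g h := by ext x; simp; rfl

@[simp]
theorem addAct_apply (A : Rep.{0} ℤ G) (g : G) (x : A.V) : addAct A g x = A.ρ g x := rfl

end Std

section Spec

open Fermat.Agent.S55.E1

variable {G : Type} [Group G]

/-- An equivariant additive map between `ℤ`-representations is a morphism of `Rep ℤ G`. -/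
theorem exists_repHom_of_add {A B : Rep.{0} ℤ G} (K : A.V →+ B.V)
    (hK : ∀ (g : G) (x : A.V), K (A.ρ g x) = B.ρ g (K x)) :
    ∃ k : A ⟶ B, ∀ x : A.V, k.hom x = K x := by
  letI : Module ℤ A.V := A.hV2
  letI : Module ℤ B.V := B.hV2
  let Kl : A.V →ₗ[ℤ] B.V :=
    { toFun := K
      map_add' := K.map_add
      map_smul' := fun n x => by simpa using map_intCast_smul K ℤ ℤ n x }
  exact ⟨Rep.ofHom ⟨Kl, fun g => by ext x; exact hK g x⟩, fun x => rfl⟩

/-- The additive map underlying a morphism of `Rep ℤ G`. -/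
def addHom {A B : Rep.{0} ℤ G} (f : A ⟶ B) : A.V →+ B.V :=
  AddMonoidHom.mk' (fun x => f.hom x) (fun a b => map_add f.hom a b)

@[simp]
theorem addHom_apply {A B : Rep.{0} ℤ G} (f : A ⟶ B) (x : A.V) : addHom f x = f.hom x := rfl

/-- **ALG4 (NORM-KILL)**, exact frozen Spec form. -/
theorem alg4Spec : ALG4Spec := by
  intro p hp G _ _ H _ _ N C _ hpN hH hC ψ
  haveI : Fact p.Prime := ⟨hp⟩
  have h1 : ∀ x : (stdP N).V, ∃ r : (stdR N).V, addHom (stdι N) r = p • x := by
    intro x
    refine exists_stdι_eq N ?_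
    rw [map_nsmul, hpN]
  have h2 : ∀ h ∈ H, ∀ x : (stdP N).V,
      ∃ r : (stdR N).V, addHom (stdι N) r = addAct (stdP N) h x - x := by
    intro h hh x
    refine exists_stdι_eq N ?_
    rw [addAct_apply, map_sub, Rep.hom_comm_apply, hH h hh, sub_self]
  obtain ⟨K, hK, hKR⟩ := alg4_add (addAct (stdR N)) (addAct (stdP N)) (addAct C)
    (addHom (stdι N)) (stdι_injective N)
    (fun g r => Rep.hom_comm_apply (stdι N) g r) p h1 H h2 hC ψ
  obtain ⟨k, hk⟩ := exists_repHom_of_add K hK
  exact ⟨k, fun r => by rw [hk]; exact hKR r⟩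

/-- **ALG2**, exact frozen Spec form: if `p N = 0` then `p • f` extends to `P`. -/
theorem alg2Spec : ALG2Spec := by
  intro p G _ N X hpN f
  classical
  have h1 : ∀ x : (stdP N).V, ∃ r : (stdR N).V, (stdι N).hom r = p • x := by
    intro x
    refine exists_stdι_eq N ?_
    rw [map_nsmul, hpN]
  choose ρ hρ using h1
  have hinj := stdι_injective N
  let K : (stdP N).V →+ X.V := AddMonoidHom.mk' (fun x => f.hom (ρ x)) (fun a b => by
    have : ρ (a + b) = ρ a + ρ b := by
      apply hinj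
      rw [map_add, hρ, hρ, hρ, smul_add]
    show f.hom (ρ (a + b)) = f.hom (ρ a) + f.hom (ρ b)
    rw [this, map_add])
  have hK : ∀ (g : G) (x : (stdP N).V), K ((stdP N).ρ g x) = X.ρ g (K x) := by
    intro g x
    have : ρ ((stdP N).ρ g x) = (stdR N).ρ g (ρ x) := by
      apply hinj
      rw [hρ, Rep.hom_comm_apply, hρ, map_nsmul]
    show f.hom (ρ ((stdP N).ρ g x)) = X.ρ g (f.hom (ρ x))
    rw [this, Rep.hom_comm_apply]
  obtain ⟨k, hk⟩ := exists_repHom_of_add K hK
  refine ⟨k, ?_⟩
  apply Rep.hom_ext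
  refine DFunLike.ext _ _ fun r => ?_
  show k.hom ((stdι N).hom r) = (p • f).hom r
  rw [hk]
  show f.hom (ρ ((stdι N).hom r)) = (p • f).hom r
  have : ρ ((stdι N).hom r) = p • r := by
    apply hinj
    rw [hρ, map_nsmul]
  rw [this, map_nsmul]
  rfl

end Spec

end Fermat.Agent.S55.E1.H423

end
-- ===== PACK-END S55/E1/H423/Alg4Spec.lean

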