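import Mathlib
import Fermat.Agent.Pack.S56.E5L0
import Fermat.Agent.Pack.S56.E3L3
import Fermat.Agent.Pack.S56.E5L1
import Fermat.Agent.Pack.S56.E4L1
import Fermat.Agent.Pack.S56.E6L0
import Fermat.Agent.Pack.S56.E5L2
import Fermat.Agent.Pack.S56.E4L3
import Fermat.Agent.Pack.S56.E6L1
import Fermat.Agent.Pack.S56.E6L2
import Fermat.Agent.Pack.S56.E1L3
import Fermat.Agent.Pack.S56.E2L0
import Fermat.Agent.Pack.S56.E4L2
import Fermat.Agent.Pack.S56.E6L3
import Fermat.Agent.Pack.S56.E5L3

-- ===== PACK-BEGIN S55/L/H715/Dict2.lean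
section



/-!
# S55, layer L : DICTIONARY core ↔ outer, part 2 : intrinsic local fields   (helper715)

`K` a field of characteristic zero, `A : ValuationSubring K` with `IsLocalRingOfIntegers A`.
The core is used with base `(↥A, K)`; local fields = finite extensions `L / K`.

* `isInt_self_iff : IsInt ↥A K K x ↔ x ∈ A`,
  `mem_intUnits_self_iff : u ∈ intUnits ↥A K K ↔ u ∈ A.unitGroup`,
  `isUnif_self_iff : IsUnif ↥A K K π ↔ IsUniformizer A π`  (no uniqueness needed);
* `eq_intVS_of_unique` : given `RingOfIntegersUniqueSpec`, every ring of integers `B` of `L` is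
  `intVS ↥A K L`; hence `mem_iff_isInt`, `mem_unitGroup_iff_mem_intUnits`,
  `isUniformizer_iff_isUnif` for an arbitrary ring of integers `B` of `L`;
* `isUnramifiedExt_of_isUnram : IsUnram ↥A K L K → IsUnramifiedExt K L` (no uniqueness needed),
  `isUnram_of_isUnramifiedExt` (with uniqueness), `isUnramifiedExt_iff_isUnram`.
-/

set_option autoImplicit false
set_option linter.unusedSectionVars false
set_option linter.style.haveILetI false

namespace Fermat.Agent.S55.L.H715

open Fermat.Agent.S55.Local Fermat.Agent.S55.Local.H715 IsLocalRing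

section Self

variable {K : Type} [Field K] (A : ValuationSubring K)

/-- Over the base `(↥A, K)`, the integers of `K` itself are `A`. -/
theorem isInt_self_iff (x : K) : IsInt (↥A) K K x ↔ x ∈ A := by
  rw [isInt_iff (↥A) K K x]
  constructor
  · intro h
    obtain ⟨y, hy⟩ := IsIntegrallyClosed.isIntegral_iff.1 h
    rw [← hy]
    exact y.2
  · intro h
    have : x = algebraMap (↥A) K ⟨x, h⟩ := rfl
    rw [this]
    exact isIntegral_algebraMap

theorem mem_intUnits_self_iff (u : Kˣ) : u ∈ intUnits (↥A) K K ↔ u ∈ A.unitGroup := by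
  rw [mem_unitGroup_iff_mem_and_inv_mem, mem_intUnits, isInt_self_iff, isInt_self_iff]

theorem isUnif_self_iff [IsDiscreteValuationRing A] (π : Kˣ) :
    IsUnif (↥A) K K π ↔ IsUniformizer A (π : K) := by
  rw [isUniformizer_iff_aux]
  unfold IsUnif
  simp only [mem_intUnits_self_iff, isInt_self_iff]

end Self

section Ext

variable {K : Type} [Field K] [CharZero K] (A : ValuationSubring K)
  [IsDiscreteValuationRing A] [IsAdicComplete (IsLocalRing.maximalIdeal A) A]
  [Finite (IsLocalRing.ResidueField A)]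
  (L : Type) [Field L] [Algebra K L] [FiniteDimensional K L]

/-- The hypotheses of this section, packaged. -/
theorem isLocalRingOfIntegers_self {K : Type} [Field K] (A : ValuationSubring K)
    [IsDiscreteValuationRing A] [IsAdicComplete (IsLocalRing.maximalIdeal A) A]
    [Finite (IsLocalRing.ResidueField A)] : IsLocalRingOfIntegers A :=
  ⟨inferInstance, inferInstance, inferInstance⟩

/-- `K` is a local field in the sense of the outer layer. -/
theorem isLocalFld_self {K : Type} [Field K] [CharZero K] (A : ValuationSubring K)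
    [IsDiscreteValuationRing A] [IsAdicComplete (IsLocalRing.maximalIdeal A) A]
    [Finite (IsLocalRing.ResidueField A)] : IsLocalFld K :=
  ⟨inferInstance, ⟨A, isLocalRingOfIntegers_self A⟩⟩

/-- A finite extension of `K` is a local field in the sense of the outer layer
(with ring of integers `intVS ↥A K L`). -/
theorem isLocalFld_ext {K : Type} [Field K] [CharZero K] (A : ValuationSubring K)
    [IsDiscreteValuationRing A] [IsAdicComplete (IsLocalRing.maximalIdeal A) A]
    [Finite (IsLocalRing.ResidueField A)]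
    (L : Type) [Field L] [Algebra K L] [FiniteDimensional K L] : IsLocalFld L :=
  ⟨charZero_of_injective_algebraMap (algebraMap K L).injective,
    ⟨intVS (↥A) K L, isLocalRingOfIntegers_intVS (↥A) K L⟩⟩

/-- Given uniqueness of the ring of integers, every ring of integers of `L` is the integral
closure of `A`. -/
theorem eq_intVS_of_unique (h0 : RingOfIntegersUniqueSpec) (B : ValuationSubring L)
    (hB : IsLocalRingOfIntegers B) : B = intVS (↥A) K L := by
  haveI : IsLocalFld L := isLocalFld_ext A L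
  exact h0 L B _ hB (isLocalRingOfIntegers_intVS (↥A) K L)

theorem mem_iff_isInt (h0 : RingOfIntegersUniqueSpec) (B : ValuationSubring L)
    (hB : IsLocalRingOfIntegers B) (x : L) : x ∈ B ↔ IsInt (↥A) K L x := by
  rw [eq_intVS_of_unique A L h0 B hB, mem_intVS_iff]

theorem mem_unitGroup_iff_mem_intUnits (h0 : RingOfIntegersUniqueSpec) (B : ValuationSubring L)
    (hB : IsLocalRingOfIntegers B) (u : Lˣ) : u ∈ B.unitGroup ↔ u ∈ intUnits (↥A) K L := by
  rw [eq_intVS_of_unique A L h0 B hB, mem_unitGroup_intVS_iff]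

theorem isUniformizer_iff_isUnif (h0 : RingOfIntegersUniqueSpec) (B : ValuationSubring L)
    (hB : IsLocalRingOfIntegers B) (π : Lˣ) : IsUniformizer B (π : L) ↔ IsUnif (↥A) K L π := by
  rw [eq_intVS_of_unique A L h0 B hB, isUniformizer_intVS_iff]

/-- Core unramified (`Lˣ = Kˣ · U_L`) implies outer unramified (a uniformizer of `K` is a
uniformizer of `L`).  No uniqueness needed. -/
theorem isUnramifiedExt_of_isUnram (h : IsUnram (↥A) K L K) : IsUnramifiedExt K L := by
  obtain ⟨ϖ, hϖ⟩ := IsDiscreteValuationRing.exists_irreducible (↥A)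
  have hπ0 : (ϖ : K) ≠ 0 := fun h0 => hϖ.ne_zero (Subtype.ext h0)
  have hπA : IsUniformizer A (ϖ : K) := ⟨ϖ.2, hϖ⟩
  set πu : Kˣ := Units.mk0 (ϖ : K) hπ0 with hπu
  have hunifK : IsUnif (↥A) K K πu := (isUnif_self_iff A πu).2 hπA
  refine ⟨A, intVS (↥A) K L, (ϖ : K), isLocalRingOfIntegers_self A,
    isLocalRingOfIntegers_intVS (↥A) K L, hπA, ?_⟩
  have hcoe : algebraMap K L (ϖ : K) = ((unitsIncl L K πu : Lˣ) : L) := rfl
  rw [hcoe, isUniformizer_intVS_iff]
  refine ⟨?_, ?_, ?_⟩
  · exact (H724.isInt_algebraMap_iff724 (↥A) K K L (πu : K)).2 hunifK.1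
  · intro hmem
    exact hunifK.2.1 ((H724.unitsIncl_mem_intUnits_iff724 (↥A) K K L πu).1 hmem)
  · intro x
    obtain ⟨y, hy⟩ := h x
    obtain ⟨n, hn⟩ := hunifK.2.2 y
    refine ⟨n, ?_⟩
    have h1 : unitsIncl L K (y * πu ^ (-n)) ∈ intUnits (↥A) K L :=
      (H724.unitsIncl_mem_intUnits_iff724 (↥A) K K L _).2 hn
    have h2 : x * (unitsIncl L K πu) ^ (-n) =
        (x * (unitsIncl L K y)⁻¹) * unitsIncl L K (y * πu ^ (-n)) := by
      rw [map_mul, map_zpow]
      group
    rw [h2]
    exact (intUnits (↥A) K L).mul_mem hy h1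

/-- Outer unramified implies core unramified, given uniqueness of the ring of integers. -/
theorem isUnram_of_isUnramifiedExt (h0 : RingOfIntegersUniqueSpec) (h : IsUnramifiedExt K L) :
    IsUnram (↥A) K L K := by
  obtain ⟨A', B', π, hA', hB', hπA, hπB⟩ := h
  haveI : IsLocalFld K := isLocalFld_self A
  have e2 : B' = intVS (↥A) K L := eq_intVS_of_unique A L h0 B' hB'
  rw [e2] at hπB
  have hπ0 : π ≠ 0 := by
    obtain ⟨hmem, hirr⟩ := hπA
    intro h0'
    apply hirr.ne_zero
    exact Subtype.ext h0'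
  set πu : Kˣ := Units.mk0 π hπ0 with hπu
  have hcoe : algebraMap K L π = ((unitsIncl L K πu : Lˣ) : L) := rfl
  rw [hcoe, isUniformizer_intVS_iff] at hπB
  intro x
  obtain ⟨n, hn⟩ := hπB.2.2 x
  refine ⟨πu ^ n, ?_⟩
  rwa [map_zpow, ← zpow_neg]

theorem isUnramifiedExt_iff_isUnram (h0 : RingOfIntegersUniqueSpec) :
    IsUnramifiedExt K L ↔ IsUnram (↥A) K L K :=
  ⟨isUnram_of_isUnramifiedExt A L h0, isUnramifiedExt_of_isUnram A L⟩

end Ext

end Fermat.Agent.S55.L.H715

end
-- ===== PACK-END S55/L/H715/Dict2.lean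

-- ===== PACK-BEGIN S55/Local/H964/AuxLemmas.lean
section



/-!
# S55, layer L, T5 glue: auxiliary lemmas (helper964)
-/

set_option autoImplicit false
set_option linter.style.haveILetI false
set_option linter.unusedSectionVars false

namespace Fermat.Agent.S55.Local.H964

open groupCohomology Fermat.Agent.S55.Local

section Cyc

variable {G : Type} [Group G] {M M' : Type} [CommGroup M] [CommGroup M']

lemma cycCocycle_map (j : M →* M') (σ : G) (x : M) (p : G × G) :
    cycCocycle σ (j x) p = j (cycCocycle σ x p) := by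
  simp only [cycCocycle, map_pow]

lemma cycCocycle_pow (σ : G) (x : M) (k : ℕ) (p : G × G) :
    cycCocycle σ (x ^ k) p = cycCocycle σ x p ^ k := by
  simp only [cycCocycle, ← pow_mul, mul_comm]

end Cyc

section DMul

variable {G M : Type} [Group G] [CommGroup M] [MulDistribMulAction G M]

lemma dMul_mul (c₁ c₂ : G → M) (g h : G) :
    dMul (fun g => c₁ g * c₂ g) (g, h) = dMul c₁ (g, h) * dMul c₂ (g, h) := by
  simp only [dMul_apply, smul_mul']
  rw [← div_mul_div_comm, mul_mul_mul_comm]

lemma dMul_pow (c : G → M) (k : ℕ) (g h : G) :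
    dMul (fun g => c g ^ k) (g, h) = dMul c (g, h) ^ k := by
  simp only [dMul_apply, smul_pow']
  rw [mul_pow, div_pow]

end DMul

section Base

variable {K L : Type} [Field K] [Field L] [Algebra K L]

lemma smul_unitsIncl_base (σ : L ≃ₐ[K] L) (y : Kˣ) :
    σ • unitsIncl L K y = unitsIncl L K y := by
  apply Units.ext
  rw [AlgEquiv.smul_units_def]
  simp only [unitsIncl_coe, Units.coe_map, MonoidHom.coe_coe]
  exact σ.commutes _

lemma unitsIncl_injective_base : Function.Injective (unitsIncl L K) := by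
  intro a b h
  apply Units.ext
  apply (algebraMap K L).injective
  have := congrArg (fun u : Lˣ => (u : L)) h
  simpa using this

lemma prod_gal_smul [FiniteDimensional K L] [IsGalois K L] [Fintype (L ≃ₐ[K] L)] (y : Lˣ) :
    ∏ σ : L ≃ₐ[K] L, σ • y = unitsIncl L K (normUnits L K y) := by
  classical
  apply Units.ext
  rw [unitsIncl_coe, normUnits_coe, Algebra.norm_eq_prod_automorphisms K (y : L),
    Units.coe_prod]
  refine Finset.prod_congr ?_ ?_
  · ext σ; simp
  · intro σ _
    rw [AlgEquiv.smul_units_def]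
    rfl

end Base

section Tower

variable {K L N : Type} [Field K] [Field L] [Field N] [Algebra K L] [Algebra K N] [Algebra L N]
  [IsScalarTower K L N]

lemma unitsIncl_unitsIncl (y : Kˣ) : unitsIncl N L (unitsIncl L K y) = unitsIncl N K y := by
  apply Units.ext
  simp only [unitsIncl_coe]
  exact (IsScalarTower.algebraMap_apply K L N _).symm

variable [Normal K L] [FiniteDimensional K N] [IsGalois K N]

/-- The inflation of a 2-cocycle is a 2-cocycle. -/
theorem isMulCocycle₂_inflate {cL : (L ≃ₐ[K] L) × (L ≃ₐ[K] L) → Lˣ} (hcL : IsMulCocycle₂ cL) :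
    IsMulCocycle₂ (fun p : (N ≃ₐ[K] N) × (N ≃ₐ[K] N) =>
      unitsIncl N L (cL (resHom K L N p.1, resHom K L N p.2))) := by
  intro g h j
  have := hcL (resHom K L N g) (resHom K L N h) (resHom K L N j)
  have h2 := congrArg (unitsIncl N L) this
  simp only [map_mul, unitsIncl_resHom_smul] at h2 ⊢
  exact h2

lemma inflate_inv2 (cL : (L ≃ₐ[K] L) × (L ≃ₐ[K] L) → Lˣ) :
    ∀ s ∈ kerRes K L N, ∀ g h : N ≃ₐ[K] N,
      unitsIncl N L (cL (resHom K L N g, resHom K L N (h * s))) =
        unitsIncl N L (cL (resHom K L N g, resHom K L N h)) := by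
  intro s hs g h
  have : resHom K L N s = 1 := hs
  rw [map_mul, this, mul_one]

lemma inflate_inv1 (cL : (L ≃ₐ[K] L) × (L ≃ₐ[K] L) → Lˣ) :
    ∀ s ∈ kerRes K L N, ∀ g h : N ≃ₐ[K] N,
      unitsIncl N L (cL (resHom K L N (g * s), resHom K L N h)) =
        unitsIncl N L (cL (resHom K L N g, resHom K L N h)) := by
  intro s hs g h
  have : resHom K L N s = 1 := hs
  rw [map_mul, this, mul_one]

end Tower

section Integrality

variable (A F : Type) [CommRing A] [Field F] [Algebra A F]
variable {L N : Type} [Field L] [Field N] [Algebra F L] [Algebra F N] [Algebra L N]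
  [IsScalarTower F L N]

lemma isInt_algebraMap {x : L} (hx : IsInt A F L x) : IsInt A F N (algebraMap L N x) := by
  obtain ⟨p, hp, hpx⟩ := hx
  refine ⟨p, hp, ?_⟩
  have e : toL A F N = (algebraMap L N).comp (toL A F L) := by
    ext a
    simp only [toL_apply, RingHom.comp_apply]
    exact IsScalarTower.algebraMap_apply F L N _
  rw [e, ← Polynomial.hom_eval₂, hpx, map_zero]

lemma unitsIncl_mem_intUnits {y : Lˣ} (hy : y ∈ intUnits A F L) :
    unitsIncl N L y ∈ intUnits A F N := by
  refine ⟨isInt_algebraMap A F hy.1, ?_⟩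
  have : ((unitsIncl N L y)⁻¹ : Nˣ) = unitsIncl N L y⁻¹ := (map_inv _ _).symm
  rw [this]
  exact isInt_algebraMap A F hy.2

end Integrality

end Fermat.Agent.S55.Local.H964

end
-- ===== PACK-END S55/Local/H964/AuxLemmas.lean

-- ===== PACK-BEGIN S55/Local/H478/FiltH2.lean
section



/-!
# S55, layer L, piece A2 (helper478): successive approximation for 2-cocycles

`theorem filtH2 : Fermat.Agent.S55.Local.FiltH2Statement`.
-/

set_option autoImplicit false

namespace Fermat.Agent.S55.Local.H478

open Finset groupCohomology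

section H2

variable {G M : Type} [Group G] [CommGroup M] [MulDistribMulAction G M]

/-- The multiplicative coboundary map `x ↦ ((g, h) ↦ g • x h / x (g * h) * x g)`. -/
def dOne (G M : Type) [Group G] [CommGroup M] [MulDistribMulAction G M] :
    (G → M) →* (G × G → M) where
  toFun x := fun p => p.1 • x p.2 / x (p.1 * p.2) * x p.1
  map_one' := by funext p; simp
  map_mul' a b := by
    funext p
    simp only [Pi.mul_apply, smul_mul']
    rw [mul_div_mul_comm, mul_mul_mul_comm]

@[simp] lemma dOne_apply (x : G → M) (p : G × G) :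
    dOne G M x p = p.1 • x p.2 / x (p.1 * p.2) * x p.1 := rfl

/-- The subgroup of multiplicative 2-cocycles. -/
def mulCocycles₂ (G M : Type) [Group G] [CommGroup M] [MulDistribMulAction G M] :
    Subgroup (G × G → M) where
  carrier := {c | IsMulCocycle₂ c}
  one_mem' := by intro g h j; simp
  mul_mem' := by
    intro a b ha hb g h j
    simp only [Pi.mul_apply, smul_mul']
    rw [mul_mul_mul_comm, ha g h j, hb g h j, mul_mul_mul_comm]
  inv_mem' := by
    intro a ha g h j
    simp only [Pi.inv_apply, smul_inv']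
    rw [← mul_inv, ← mul_inv, ha g h j]

@[simp] lemma mem_mulCocycles₂ {c : G × G → M} :
    c ∈ mulCocycles₂ G M ↔ IsMulCocycle₂ c := Iff.rfl

/-- The commutative-group identity behind `d ∘ d = 1` in degree 2. -/
lemma dOne_aux (A B C D E F : M) :
    (A / B * C) * (D / C * E) = (A / F * D) * (F / B * E) := by
  have h : ∀ a b c d e f : Additive M, (a - b + c) + (d - c + e) = (a - f + d) + (f - b + e) := by
    intro a b c d e f; abel
  exact h (Additive.ofMul A) (Additive.ofMul B) (Additive.ofMul C) (Additive.ofMul D)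
    (Additive.ofMul E) (Additive.ofMul F)

lemma dOne_mem_mulCocycles₂ (x : G → M) : dOne G M x ∈ mulCocycles₂ G M := by
  intro g h j
  simp only [dOne_apply, smul_mul', smul_div', mul_smul]
  rw [mul_assoc g h j]
  exact dOne_aux _ _ _ _ _ _

end H2

/-- **A2.** Successive approximation for 2-cocycles. -/
theorem filtH2 : Fermat.Agent.S55.Local.FiltH2Statement := by
  intro G M _ _ _ _ Fil _hanti hstab hcomplete hsep hgraded c hc hc0
  have key := approx_exists (dOne G M) (fun j => piFil G (Fil j))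
    (fun j => piFil (G × G) (Fil j)) (mulCocycles₂ G M)
    (fun j x hx p => by
      simp only [dOne_apply]
      exact (Fil j).mul_mem ((Fil j).div_mem (hstab j p.1 _ (hx p.2)) (hx _)) (hx _))
    (fun x => dOne_mem_mulCocycles₂ x)
    (piFil_complete G Fil hcomplete)
    (piFil_separated (G × G) Fil hsep)
    (fun j c' hc'Z hc'j => by
      obtain ⟨x, hx, h⟩ := hgraded j c' hc'Z hc'j
      exact ⟨x, hx, fun p => by simpa using h p.1 p.2⟩)
    c hc hc0
  obtain ⟨x, hx, h⟩ := key
  exact ⟨x, hx, fun g h' => by rw [← h]; rfl⟩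

end Fermat.Agent.S55.Local.H478

end
-- ===== PACK-END S55/Local/H478/FiltH2.lean

-- ===== PACK-BEGIN S55/Local/H535/A4ad.lean
section


/-!
# S55 layer L, pieces A4a (`CycCocycleIsCocycleStatement`) and A4d
(`CycCocyclePullbackStatement`) — helper535
-/

set_option autoImplicit false

namespace Fermat.Agent.S55.Local.H535

open Fermat.Agent.S55.Local groupCohomology

lemma cycCocycle_apply {G M : Type} [Group G] [CommGroup M] (σ : G) (x : M) (g h : G) :
    cycCocycle σ x (g, h) = x ^ ((cycIdx σ g + cycIdx σ h) / Nat.card G) := rfl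

/-- **A4a.** The standard cyclic `2`-cocycle is a `2`-cocycle. -/
theorem cycCocycleIsCocycle : Fermat.Agent.S55.Local.CycCocycleIsCocycleStatement := by
  intro G M _ _ _ _ σ hσ x hx g h j
  have hn : 0 < Nat.card G := Nat.card_pos
  have hinv : ∀ (g : G) (m : ℕ), g • x ^ m = x ^ m := fun g m => by
    rw [smul_pow', smul_eq_of_generator hσ hx]
  simp only [cycCocycle_apply, hinv, ← pow_add, cycIdx_mul hσ]
  congr 1
  have e1 := carry_add (Nat.card G) (cycIdx σ g + cycIdx σ h) (cycIdx σ j) hn
  have e2 := carry_add (Nat.card G) (cycIdx σ h + cycIdx σ j) (cycIdx σ g) hn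
  rw [e1, add_comm ((cycIdx σ h + cycIdx σ j) / Nat.card G),
    add_comm (cycIdx σ g) ((cycIdx σ h + cycIdx σ j) % Nat.card G), e2]
  congr 1
  ring

/-- **A4d.** Functoriality of the standard cocycle under an injective homomorphism of cyclic
groups. -/
theorem cycCocyclePullback : Fermat.Agent.S55.Local.CycCocyclePullbackStatement := by
  intro G H M _ _ _ _ _ σ τ ρ hσ hτ hρ hρτ x p
  obtain ⟨a, b⟩ := p
  have hn : 0 < Nat.card G := Nat.card_pos
  have hm : 0 < Nat.card H := Nat.card_pos
  -- `|H|` divides `|G|`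
  have hdvd : Nat.card H ∣ Nat.card G := by
    have h1 := Subgroup.card_subgroup_dvd_card ρ.range
    have h2 : Nat.card ρ.range = Nat.card H :=
      (Nat.card_congr (MonoidHom.ofInjective hρ).toEquiv).symm
    rwa [h2] at h1
  obtain ⟨d, hd⟩ := hdvd
  have hd' : Nat.card G / Nat.card H = d := by
    rw [hd, Nat.mul_div_cancel_left _ hm]
  have hdpos : 0 < d := by
    rcases Nat.eq_zero_or_pos d with h | h
    · rw [h, mul_zero] at hd; omega
    · exact h
  have key : ∀ c : H, cycIdx σ (ρ c) = d * cycIdx τ c := by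
    intro c
    have h1 : ρ c = σ ^ (d * cycIdx τ c) := by
      conv_lhs => rw [← pow_cycIdx hτ c]
      rw [map_pow, hρτ, hd', ← pow_mul]
    rw [h1]
    apply cycIdx_pow_of_lt hσ
    rw [hd, mul_comm (Nat.card H) d]
    exact Nat.mul_lt_mul_of_pos_left (cycIdx_lt hτ c) hdpos
  simp only [cycCocycle_apply, key]
  congr 1
  rw [hd, ← mul_add, mul_comm (Nat.card H) d, Nat.mul_div_mul_left _ _ hdpos]

end Fermat.Agent.S55.Local.H535

end
-- ===== PACK-END S55/Local/H535/A4ad.lean

-- ===== PACK-BEGIN S55/Local/H530/GlueT2.lean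
section


/-!
# S55 layer L — GLUE T2 (helper530, subtask 273)

Norm group of an unramified extension `L / K` of degree `n`: for a unit `u` of `K` and a
uniformizer `ϖK` of `K`, `u * ϖK ^ m` is a norm from `L` iff `n ∣ m`.

Inputs: UR4 (`UnramNormUnitsStatement`: units of `K` are norms of units of `L`) and
LF8 (`NormUnitsIntStatement`: norms of integral units are integral units).
(`IsUnram` itself and `Algebra.norm_algebraMap` replace the use of LF7/LF3.)
-/

set_option autoImplicit false

namespace Fermat.Agent.S55.Local.H530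

open Fermat.Agent.S55.Local

section aux

variable {A F : Type} [CommRing A] [Field F] [Algebra A F]
variable {K : Type} [Field K] [Algebra F K]

/-- A power of a uniformizer is an integral unit only for the exponent `0`. -/
lemma eq_zero_of_unif_zpow_mem {ϖ : Kˣ} (h : IsUnif A F K ϖ) {j : ℤ}
    (hj : ϖ ^ j ∈ intUnits A F K) : j = 0 := by
  -- positive exponent case
  have pos : ∀ d : ℕ, ϖ ^ (d + 1) ∉ intUnits A F K := by
    intro d hd
    apply h.2.1
    refine ⟨h.1, ?_⟩
    have e : ((ϖ⁻¹ : Kˣ) : K) = ((ϖ ^ d : Kˣ) : K) * (((ϖ ^ (d + 1))⁻¹ : Kˣ) : K) := by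
      rw [← Units.val_mul]
      congr 1
      rw [pow_succ, mul_inv_rev, ← mul_assoc, mul_comm (ϖ ^ d) ϖ⁻¹, mul_assoc,
        mul_inv_cancel, mul_one]
    rw [e]
    refine IsInt.mul ?_ hd.2
    rw [Units.val_pow_eq_pow_val]
    clear e hd
    induction d with
    | zero => simpa using isInt_one A F K
    | succ d ih => rw [pow_succ]; exact ih.mul h.1
  rcases lt_trichotomy j 0 with hlt | heq | hgt
  · exfalso
    obtain ⟨d, hd⟩ : ∃ d : ℕ, j = -((d : ℤ) + 1) := ⟨(-j - 1).toNat, by omega⟩
    have := (intUnits A F K).inv_mem hj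
    rw [← zpow_neg, hd, neg_neg] at this
    have h2 : ϖ ^ ((d : ℤ) + 1) = ϖ ^ (d + 1) := by
      rw [← zpow_natCast]; congr 1
    rw [h2] at this
    exact pos d this
  · exact heq
  · exfalso
    obtain ⟨d, hd⟩ : ∃ d : ℕ, j = (d : ℤ) + 1 := ⟨(j - 1).toNat, by omega⟩
    have h2 : ϖ ^ ((d : ℤ) + 1) = ϖ ^ (d + 1) := by
      rw [← zpow_natCast]; congr 1
    rw [hd, h2] at hj
    exact pos d hj

variable {L : Type} [Field L] [Algebra F L] [Algebra K L]

lemma normUnits_unitsIncl (y : Kˣ) :
    normUnits L K (unitsIncl L K y) = y ^ Module.finrank K L := by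
  ext
  simp [Algebra.norm_algebraMap]

end aux

/-- **T2** (glue): norm group of an unramified extension. -/
theorem unramNormRange_of (hUR4 : UnramNormUnitsStatement) (hLF8 : NormUnitsIntStatement) :
    UnramNormRangeStatement := by
  intro A F _ _ _ _ _ _ _ _ _ K _ _ _ L _ _ _ _ _ _ ϖK hur hϖK u m hu
  constructor
  · -- a norm has valuation divisible by `n`
    rintro ⟨x, hx⟩
    obtain ⟨y, hy⟩ := hur x
    obtain ⟨k, hk⟩ := hϖK.2.2 y
    have hNv := hLF8 A F K L _ hy
    refine ⟨k, ?_⟩
    -- `ϖK ^ (m - n * k)` is an integral unit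
    have key : ϖK ^ (m - (Module.finrank K L : ℤ) * k) ∈ intUnits A F K := by
      have hN : normUnits L K (x * (unitsIncl L K y)⁻¹) =
          u * ϖK ^ m * (y ^ Module.finrank K L)⁻¹ := by
        rw [map_mul, map_inv, normUnits_unitsIncl, hx]
      have hb : (y * ϖK ^ (-k)) ^ Module.finrank K L =
          y ^ Module.finrank K L * ϖK ^ (-((Module.finrank K L : ℤ) * k)) := by
        rw [mul_pow, ← zpow_natCast (ϖK ^ (-k)), ← zpow_mul]
        congr 2
        ring
      have e : ϖK ^ (m - (Module.finrank K L : ℤ) * k) =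
          u⁻¹ * (normUnits L K (x * (unitsIncl L K y)⁻¹) *
            (y * ϖK ^ (-k)) ^ Module.finrank K L) := by
        rw [hN, hb, sub_eq_add_neg, zpow_add]
        generalize y ^ Module.finrank K L = Y
        generalize ϖK ^ m = P
        generalize ϖK ^ (-((Module.finrank K L : ℤ) * k)) = Q
        group
      rw [e]
      exact (intUnits A F K).mul_mem ((intUnits A F K).inv_mem hu)
        ((intUnits A F K).mul_mem hNv ((intUnits A F K).pow_mem hk _))
    have := eq_zero_of_unif_zpow_mem hϖK key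
    linarith
  · -- conversely
    rintro ⟨k, rfl⟩
    obtain ⟨w, -, hw⟩ := hUR4 A F K L hur u hu
    refine ⟨w * (unitsIncl L K ϖK) ^ k, ?_⟩
    rw [map_mul, map_zpow, normUnits_unitsIncl, hw, ← zpow_natCast, ← zpow_mul]

end Fermat.Agent.S55.Local.H530

end
-- ===== PACK-END S55/Local/H530/GlueT2.lean

-- ===== PACK-BEGIN S55/H295/SplitCoh.lean
section



/-!
# The splitting module of a 2-cocycle: cohomology

For every subgroup `H ≤ G`:

* `exists_cohomologous_augu` : every 1-cocycle `H → I` is cohomologous to a multiple of the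
  canonical cocycle `u(h) = h δ₁ - δ₁`;
* `δ_split_augu` : the connecting homomorphism `H¹(H, I) → H²(H, C)` of
  `0 → C → C(c) → I → 0` sends the class of `u` to `res_H [c]`.
-/

set_option autoImplicit false
set_option linter.unusedSectionVars false

open CategoryTheory groupCohomology Rep Limits

universe u

namespace Fermat.Agent.S55.H295

open Fermat.Agent.S55.H783

noncomputable section

variable (k G : Type u) [CommRing k] [Group G] [Fintype G]

open scoped Classical in
/-- The indicator function of `1 : G`. -/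
def augδ : G → k := fun x => if x = 1 then 1 else 0

lemma augδ_apply_one : augδ k G 1 = 1 := by simp [augδ]

lemma sum_augδ : ∑ x : G, augδ k G x = 1 := by
  classical
  simp [augδ]

lemma sum_funRho_augδ (g : G) : ∑ x : G, funRho k G k g (augδ k G) x = 1 := by
  have := augLin_funRho k G g (augδ k G)
  rw [augLin_apply, augLin_apply, sum_augδ] at this
  exact this

/-- The canonical 1-cocycle `u : G → I`, `u(g) = g δ₁ - δ₁`. -/
def augu (g : G) : augIsub k G :=
  ⟨funRho k G k g (augδ k G) - augδ k G, by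
    rw [mem_augIsub]
    simp only [Pi.sub_apply, Finset.sum_sub_distrib]
    rw [sum_funRho_augδ, sum_augδ, sub_self]⟩

lemma augu_coe (g : G) : (augu k G g).1 = funRho k G k g (augδ k G) - augδ k G := rfl

variable {k G}

section Beta

variable {C : Rep.{u} k G}

lemma splitβ_augδ (c : G × G → C.V) (g : G) : splitβ c g (augδ k G) = c (g, 1) := by
  classical
  rw [splitβ_apply]
  rw [Finset.sum_eq_single (1 : G)]
  · simp [augδ]
  · intro x _ hx
    simp [augδ, hx]
  · intro h
    exact absurd (Finset.mem_univ _) h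

lemma splitβ_funRho_augδ (c : G × G → C.V) (g h : G) :
    splitβ c g (funRho k G k h (augδ k G)) = c (g, h) := by
  classical
  rw [splitβ_apply]
  rw [Finset.sum_eq_single (h⁻¹ : G)]
  · simp [augδ]
  · intro x _ hx
    have : x * h ≠ 1 := fun hxh => hx (eq_inv_of_mul_eq_one_left hxh)
    simp [augδ, this]
  · intro h'
    exact absurd (Finset.mem_univ _) h'

lemma splitβ_augu (c : G × G → C.V) (g h : G) :
    splitβ c g (augu k G h).1 = c (g, h) - c (g, 1) := by
  rw [augu_coe, map_sub, splitβ_funRho_augδ, splitβ_augδ]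

end Beta

section Sub

variable (H : Subgroup G)

/-- The augmentation sequence restricted to `H`. -/
abbrev augSESres : ShortComplex (Rep.{u} k H) := (augSES k G).map (resFunctor H.subtype)

lemma augSESres_shortExact : (augSESres (k := k) H).ShortExact :=
  (Rep.shortExact_res H.subtype).2 (augSES_shortExact k G)

/-- `H²(H, I) = 0` as soon as `H¹(H, k) = 0`. -/
lemma isZero_H2_augI (hk : IsZero (groupCohomology (res H.subtype (Rep.trivial k G k)) 1)) :
    IsZero (groupCohomology (res H.subtype (augI k G)) 2) :=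
  isZero_H_left (augSESres_shortExact H) 1 hk (isZero_res_funRep H k 1)

/-- The canonical cocycle restricted to `H`. -/
def auguH : cocycles₁ (res H.subtype (augI k G)) :=
  ⟨fun h => augu k G (h : G), by
    rw [mem_cocycles₁_iff]
    intro g h
    apply Subtype.ext
    funext x
    change (augu k G ((g : G) * (h : G))).1 x =
      (augu k G (h : G)).1 (x * (g : G)) + (augu k G (g : G)).1 x
    simp only [augu_coe, Pi.sub_apply, funRho_apply, mul_assoc]
    ring⟩

lemma auguH_apply (h : H) : (auguH (k := k) H) h = augu k G (h : G) := rfl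

/-- Every 1-cocycle `H → I` is cohomologous to a multiple of the canonical cocycle. -/
lemma exists_cohomologous_augu (z : cocycles₁ (res H.subtype (augI k G))) :
    ∃ r : k, H1π (res H.subtype (augI k G)) z = r • H1π (res H.subtype (augI k G)) (auguH H) := by
  -- push `z` to `P`, where it is a coboundary
  have hz := (mem_cocycles₁_iff (A := res H.subtype (augI k G)) z).1 z.2
  let zP : H → (G → k) := fun h => (z h).1
  have hzP : zP ∈ cocycles₁ (res H.subtype (augP k G)) := by
    rw [mem_cocycles₁_iff]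
    intro g h
    exact congrArg Subtype.val (hz g h)
  have h0 : H1π (res H.subtype (augP k G)) ⟨zP, hzP⟩ = 0 :=
    (ModuleCat.subsingleton_of_isZero (isZero_res_funRep H k 0)).elim _ _
  rw [H1π_eq_zero_iff] at h0
  obtain ⟨ψ, hψ⟩ := h0
  have hψ' : ∀ (h : H) (x : G), ψ (x * (h : G)) - ψ x = (z h).1 x := fun h x =>
    congrFun (congrFun hψ h) x
  let r : k := ∑ x : G, ψ x
  refine ⟨r, ?_⟩
  have hψ₀ : ψ - r • augδ k G ∈ augIsub k G := by
    rw [mem_augIsub]
    simp only [Pi.sub_apply, Pi.smul_apply, smul_eq_mul, Finset.sum_sub_distrib,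
      ← Finset.mul_sum, sum_augδ, mul_one]
    exact sub_self r
  rw [← map_smul, H1π_eq_iff]
  refine ⟨(⟨ψ - r • augδ k G, hψ₀⟩ : augIsub k G), ?_⟩
  funext h
  apply Subtype.ext
  funext x
  change (ψ (x * (h : G)) - r • augδ k G (x * (h : G))) - (ψ x - r • augδ k G x) =
    (z h).1 x - r • (augδ k G (x * (h : G)) - augδ k G x)
  rw [← hψ' h x]
  simp only [smul_eq_mul]
  ring

end Sub

section Delta

variable {C : Rep.{u} k G} (c : cocycles₂ C) (H : Subgroup G)

/-- The splitting sequence restricted to `H`. -/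
abbrev splitSESres : ShortComplex (Rep.{u} k H) := (splitSES c).map (resFunctor H.subtype)

lemma splitSESres_shortExact : (splitSESres c H).ShortExact :=
  (Rep.shortExact_res H.subtype).2 (splitSES_shortExact c)

/-- The 2-cochain `(g, h) ↦ β_g(z h)` attached to a 1-cochain `z : H → I`. -/
def splitCochain (z : H → augIsub k G) : H × H → C.V :=
  fun p => splitβ (c : G × G → C.V) (p.1 : G) (z p.2).1

lemma splitCochain_apply (z : H → augIsub k G) (g h : H) :
    splitCochain c H z (g, h) = splitβ (c : G × G → C.V) (g : G) (z h).1 := rfl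

lemma split_comp_eq_d₁₂ (z : cocycles₁ (res H.subtype (augI k G))) :
    (splitSESres c H).f.hom ∘ splitCochain c H z =
      d₁₂ (splitSESres c H).X₂ (fun h => ((0 : C.V), z h)) := by
  have hz := (mem_cocycles₁_iff (A := res H.subtype (augI k G)) z).1 z.2
  funext p
  obtain ⟨g, h⟩ := p
  change ((splitCochain c H z (g, h), (0 : augIsub k G)) : C.V × augIsub k G) =
    splitRho c (g : G) ((0 : C.V), z h) - ((0 : C.V), z (g * h)) + ((0 : C.V), z g)
  rw [splitRho_apply, splitCochain_apply]
  refine Prod.ext ?_ ?_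
  · simp
  · change (0 : augIsub k G) = augIrho k G (g : G) (z h) - z (g * h) + z g
    rw [hz g h]
    change (0 : augIsub k G) = augIrho k G (g : G) (z h) - (augIrho k G (g : G) (z h) + z g) + z g
    abel

/-- The connecting homomorphism of the splitting sequence on a 1-cocycle `z : H → I`. -/
theorem δ_split (z : cocycles₁ (res H.subtype (augI k G))) :
    δ (splitSESres_shortExact c H) 1 2 rfl (H1π _ z) =
      H2π (res H.subtype C) ⟨splitCochain c H z,
        mem_cocycles₂_of_comp_eq_d₁₂ (splitSESres_shortExact c H) (split_comp_eq_d₁₂ c H z)⟩ :=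
  δ₁_apply (splitSESres_shortExact c H) z (fun h => ((0 : C.V), z h)) rfl
    (splitCochain c H z) (split_comp_eq_d₁₂ c H z)

/-- **Key computation**: the connecting homomorphism sends the canonical class to `res_H [c]`. -/
theorem δ_split_auguH :
    δ (splitSESres_shortExact c H) 1 2 rfl (H1π _ (auguH H)) =
      (groupCohomology.map H.subtype (𝟙 (res H.subtype C)) 2).hom (H2π C c) := by
  rw [δ_split, H2π_comp_map_apply]
  refine (H2π_eq_iff (A := res H.subtype C) _ _).2 ⟨fun _ => -(c : G × G → C.V) (1, 1), ?_⟩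
  funext p
  obtain ⟨g, h⟩ := p
  change C.ρ (g : G) (-(c : G × G → C.V) (1, 1)) - (-(c : G × G → C.V) (1, 1)) +
      (-(c : G × G → C.V) (1, 1)) =
    splitβ (c : G × G → C.V) (g : G) (augu k G (h : G)).1 - (c : G × G → C.V) ((g : G), (h : G))
  rw [splitβ_augu, cocycles₂_map_one_snd c (g : G), map_neg]
  abel

end Delta

end

end Fermat.Agent.S55.H295

end
-- ===== PACK-END S55/H295/SplitCoh.lean

-- ===== PACK-BEGIN S55/G/UnitsBasic.lean
section
/-
S55, layer G, block G-U (helper595): basic algebra of the Galois action on `Additive Lˣ`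
(`unitsHom`, `unitsAug`, `unitsNorm`) and Galois stability of the units of `𝓞 L`.
-/



set_option autoImplicit false
set_option linter.unusedSectionVars false

namespace Fermat.Agent.S55.G

open NumberField

universe u v

section Units

variable (K : Type u) (L : Type v) [Field K] [Field L] [Algebra K L]

lemma unitsHom_toMul_val (τ : L ≃ₐ[K] L) (x : Additive Lˣ) :
    ((Additive.toMul (unitsHom K L τ x) : Lˣ) : L) = τ ((Additive.toMul x : Lˣ) : L) := rfl

lemma unitsHom_mul (σ τ : L ≃ₐ[K] L) (x : Additive Lˣ) :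
    unitsHom K L (σ * τ) x = unitsHom K L σ (unitsHom K L τ x) := by
  apply Additive.toMul.injective
  apply Units.ext
  rfl

lemma unitsHom_one (x : Additive Lˣ) : unitsHom K L 1 x = x := by
  apply Additive.toMul.injective
  apply Units.ext
  rfl

lemma unitsAug_apply (σ : L ≃ₐ[K] L) (x : Additive Lˣ) :
    unitsAug K L σ x = unitsHom K L σ x - x := rfl

variable [FiniteDimensional K L]

lemma unitsNorm_apply (x : Additive Lˣ) :
    unitsNorm K L x = ∑ τ : (L ≃ₐ[K] L), unitsHom K L τ x := by
  unfold unitsNorm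
  rw [AddMonoidHom.finsetSum_apply]

lemma unitsHom_unitsNorm (σ : L ≃ₐ[K] L) (x : Additive Lˣ) :
    unitsHom K L σ (unitsNorm K L x) = unitsNorm K L x := by
  rw [unitsNorm_apply, map_sum]
  simp only [← unitsHom_mul]
  exact Fintype.sum_equiv (Equiv.mulLeft σ) _ _ (fun _ => rfl)

lemma unitsNorm_unitsHom (σ : L ≃ₐ[K] L) (x : Additive Lˣ) :
    unitsNorm K L (unitsHom K L σ x) = unitsNorm K L x := by
  rw [unitsNorm_apply, unitsNorm_apply]
  simp only [← unitsHom_mul]
  exact Fintype.sum_equiv (Equiv.mulRight σ) _ _ (fun _ => rfl)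

lemma unitsAug_unitsNorm (σ : L ≃ₐ[K] L) (x : Additive Lˣ) :
    unitsAug K L σ (unitsNorm K L x) = 0 := by
  rw [unitsAug_apply, unitsHom_unitsNorm, sub_self]

lemma unitsNorm_unitsAug (σ : L ≃ₐ[K] L) (x : Additive Lˣ) :
    unitsNorm K L (unitsAug K L σ x) = 0 := by
  rw [unitsAug_apply, map_sub, unitsNorm_unitsHom, sub_self]

end Units

section Stable

variable (K : Type u) (L : Type v) [Field K] [Field L] [Algebra K L] [NumberField L]

lemma mem_intUnits_iff_isIntegral (x : Additive Lˣ) :
    x ∈ intUnits L ↔ IsIntegral ℤ ((Additive.toMul x : Lˣ) : L) ∧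
      IsIntegral ℤ (((Additive.toMul x)⁻¹ : Lˣ) : L) := by
  constructor
  · rintro ⟨u, rfl⟩
    exact ⟨(u : 𝓞 L).2, ((u⁻¹ : (𝓞 L)ˣ) : 𝓞 L).2⟩
  · rintro ⟨h1, h2⟩
    have h1' : ((Additive.toMul x : Lˣ) : L) ∈ integralClosure ℤ L := h1
    have h2' : (((Additive.toMul x)⁻¹ : Lˣ) : L) ∈ integralClosure ℤ L := h2
    let a : 𝓞 L := ⟨_, h1'⟩
    let b : 𝓞 L := ⟨_, h2'⟩
    have hab : a * b = 1 := by
      apply RingOfIntegers.ext
      show ((Additive.toMul x : Lˣ) : L) * (((Additive.toMul x)⁻¹ : Lˣ) : L) = 1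
      simp
    have hba : b * a = 1 := by rw [mul_comm, hab]
    refine ⟨⟨a, b, hab, hba⟩, ?_⟩
    apply Units.ext
    rfl

lemma unitsHom_mem_intUnits (τ : L ≃ₐ[K] L) (x : Additive Lˣ) (hx : x ∈ intUnits L) :
    unitsHom K L τ x ∈ intUnits L := by
  rw [mem_intUnits_iff_isIntegral] at hx ⊢
  obtain ⟨h1, h2⟩ := hx
  refine ⟨?_, ?_⟩
  · exact h1.map (τ : L →ₐ[K] L).toRingHom.toIntAlgHom
  · have : (((Additive.toMul (unitsHom K L τ x))⁻¹ : Lˣ) : L) =
        τ (((Additive.toMul x)⁻¹ : Lˣ) : L) := by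
      rw [Units.val_inv_eq_inv_val, Units.val_inv_eq_inv_val, map_inv₀]
      rfl
    rw [this]
    exact h2.map (τ : L →ₐ[K] L).toRingHom.toIntAlgHom

lemma unitsAug_mem_intUnits (σ : L ≃ₐ[K] L) (x : Additive Lˣ) (hx : x ∈ intUnits L) :
    unitsAug K L σ x ∈ intUnits L := by
  rw [unitsAug_apply]
  exact (intUnits L).sub_mem (unitsHom_mem_intUnits K L σ x hx) hx

lemma unitsNorm_mem_intUnits [FiniteDimensional K L] (x : Additive Lˣ) (hx : x ∈ intUnits L) :
    unitsNorm K L x ∈ intUnits L := by
  rw [unitsNorm_apply]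
  exact (intUnits L).sum_mem (fun τ _ => unitsHom_mem_intUnits K L τ x hx)

end Stable

end Fermat.Agent.S55.G

end
-- ===== PACK-END S55/G/UnitsBasic.lean

-- ===== PACK-BEGIN S55/G/Perm379.lean
section
/-
S55, layer G, block G-U, leaf **GU-P** (helper379): permutation lattices.

`G = ⟨σ⟩` finite cyclic, `X` a finite `G`-set.  On `ℤ^X`:
* `[ker (σ - 1) : im N] = ∏_{orbits} |Stab|`   (`Ĥ⁰`),
* `[ker N : im (σ - 1)] = 1`                   (`Ĥ⁻¹ = 0`).
Deliverable: `theorem permSpec : PermSpec` (spec of helper595's `SpecUnits.lean`).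
-/



set_option autoImplicit false
set_option linter.unusedSectionVars false
set_option linter.style.haveILetI false

namespace Fermat.Agent.S55.G.Perm379

open Fermat.Agent.S55.Herbrand Fermat.Agent.S55.G

universe u v

variable {G : Type u} [Group G] [Fintype G] {X : Type v} [Fintype X] [MulAction G X]

theorem permHom_apply (τ : G) (a : X → ℤ) (x : X) : permHom G X τ a x = a (τ⁻¹ • x) := rfl

theorem permAug_apply (σ : G) (a : X → ℤ) (x : X) :
    permAug G X σ a x = a (σ⁻¹ • x) - a x := rfl

theorem permNorm_apply (a : X → ℤ) (x : X) :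
    permNorm G X a x = ∑ τ : G, a (τ⁻¹ • x) := by
  simp [permNorm, Finset.sum_apply, _root_.Fermat.Agent.S55.G.Perm379.permHom_apply]

/-- the orbit class of a point -/
abbrev cls (G : Type u) [Group G] {X : Type v} [MulAction G X] (x : X) :
    MulAction.orbitRel.Quotient G X := Quotient.mk'' x

theorem cls_eq_iff {x y : X} : cls G y = cls G x ↔ y ∈ MulAction.orbit G x := by
  rw [cls, cls, Quotient.eq'']
  exact MulAction.orbitRel_apply

theorem cls_smul (g : G) (x : X) : cls G (g • x) = cls G x :=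
  cls_eq_iff.mpr (MulAction.mem_orbit x g)

/-- the chosen base point of the orbit of `x` -/
noncomputable abbrev rep (G : Type u) [Group G] {X : Type v} [MulAction G X] (x : X) : X :=
  (cls G x).out

theorem cls_rep (x : X) : cls G (rep G x) = cls G x := Quotient.out_eq' _

theorem rep_eq_of_cls_eq {x y : X} (h : cls G x = cls G y) : rep G x = rep G y := by
  unfold rep; rw [h]

theorem rep_rep (x : X) : rep G (rep G x) = rep G x := rep_eq_of_cls_eq (cls_rep x)

theorem exists_smul_rep (x : X) : ∃ g : G, g • rep G x = x := by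
  have h : cls G x = cls G (rep G x) := (cls_rep x).symm
  exact cls_eq_iff.mp h

open Classical in
theorem card_filter_smul_eq (x y : X) (h : y ∈ MulAction.orbit G x) :
    ((Finset.univ.filter (fun τ : G => τ • x = y)).card : ℤ)
      = Nat.card (MulAction.stabilizer G x) := by
  obtain ⟨g, rfl⟩ := h
  congr 1
  rw [← Fintype.card_subtype, ← Nat.card_eq_fintype_card]
  refine Nat.card_congr
    { toFun := fun τ => ⟨g⁻¹ * τ.1, ?_⟩
      invFun := fun s => ⟨g * s.1, ?_⟩
      left_inv := fun τ => by simp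
      right_inv := fun s => by simp }
  · rw [MulAction.mem_stabilizer_iff, mul_smul, τ.2, inv_smul_smul]
  · show (g * s.1) • x = g • x
    rw [mul_smul, MulAction.mem_stabilizer_iff.mp s.2]

open Classical in
theorem card_filter_smul_eq_zero (x y : X) (h : y ∉ MulAction.orbit G x) :
    (Finset.univ.filter (fun τ : G => τ • x = y)).card = 0 := by
  rw [Finset.card_eq_zero, Finset.filter_eq_empty_iff]
  intro τ _ hτ
  exact h ⟨τ, hτ⟩

open Classical in
/-- orbit-stabiliser summation formula -/
theorem sum_inv_smul (F : X → ℤ) (x : X) :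
    ∑ τ : G, F (τ⁻¹ • x) = (Nat.card (MulAction.stabilizer G x) : ℤ) *
      ∑ y : X, if cls G y = cls G x then F y else 0 := by
  have h1 : ∑ τ : G, F (τ⁻¹ • x) = ∑ τ : G, F (τ • x) :=
    Equiv.sum_comp (Equiv.inv G) (fun τ => F (τ • x))
  rw [h1]
  have h2 : ∀ τ : G, F (τ • x) = ∑ y : X, if τ • x = y then F y else 0 := by
    intro τ
    rw [Finset.sum_ite_eq]
    simp
  simp_rw [h2]
  rw [Finset.sum_comm, Finset.mul_sum]
  refine Finset.sum_congr rfl fun y _ => ?_
  rw [← Finset.sum_filter, Finset.sum_const, nsmul_eq_mul]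
  by_cases hy : y ∈ MulAction.orbit G x
  · rw [if_pos (cls_eq_iff.mpr hy), card_filter_smul_eq x y hy]
  · rw [if_neg (fun h => hy (cls_eq_iff.mp h)), card_filter_smul_eq_zero x y hy]
    simp

/-! ### Part (2): `ker N ≤ im (σ - 1)` -/

open Classical in
theorem permAug_single (σ : G) (w : X) :
    permAug G X σ (Pi.single w (1 : ℤ)) = Pi.single (σ • w) 1 - Pi.single w 1 := by
  funext x
  rw [_root_.Fermat.Agent.S55.G.Perm379.permAug_apply, Pi.sub_apply]
  congr 1
  by_cases h : x = σ • w
  · subst h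
    simp
  · rw [Pi.single_eq_of_ne h, Pi.single_eq_of_ne]
    intro h'
    exact h (by rw [← h', smul_inv_smul])

open Classical in
theorem single_pow_sub_mem (σ : G) (k : ℕ) (z : X) :
    (Pi.single (σ ^ k • z) (1 : ℤ) - Pi.single z 1 : X → ℤ) ∈ (permAug G X σ).range := by
  induction k with
  | zero => simp
  | succ k ih =>
    have : (Pi.single (σ ^ (k + 1) • z) (1 : ℤ) - Pi.single z 1 : X → ℤ)
        = permAug G X σ (Pi.single (σ ^ k • z) (1 : ℤ))
          + (Pi.single (σ ^ k • z) (1 : ℤ) - Pi.single z 1) := by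
      rw [permAug_single, pow_succ', mul_smul]
      abel
    rw [this]
    exact AddSubgroup.add_mem _ ⟨_, rfl⟩ ih

theorem exists_pow_eq (σ : G) (hσ : ∀ τ : G, τ ∈ Subgroup.zpowers σ) (g : G) :
    ∃ k : ℕ, σ ^ k = g := by
  have h := hσ g
  rw [← (isOfFinOrder_of_finite σ).mem_powers_iff_mem_zpowers] at h
  exact (Submonoid.mem_powers_iff _ _).mp h

open Classical in
theorem single_sub_single_rep_mem (σ : G) (hσ : ∀ τ : G, τ ∈ Subgroup.zpowers σ) (x : X) :
    (Pi.single x (1 : ℤ) - Pi.single (rep G x) 1 : X → ℤ) ∈ (permAug G X σ).range := by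
  obtain ⟨g, hg⟩ := exists_smul_rep (G := G) x
  obtain ⟨k, rfl⟩ := exists_pow_eq σ hσ g
  have := single_pow_sub_mem σ k (rep G x)
  rwa [hg] at this

open Classical in
theorem orbit_sum_eq_zero {a : X → ℤ} (ha : permNorm G X a = 0) (w : X) :
    ∑ y : X, (if cls G y = cls G w then a y else 0) = 0 := by
  have h := congrFun ha w
  rw [_root_.Fermat.Agent.S55.G.Perm379.permNorm_apply, sum_inv_smul] at h
  have hne : (Nat.card (MulAction.stabilizer G w) : ℤ) ≠ 0 := by
    exact_mod_cast Nat.card_pos.ne'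
  rcases mul_eq_zero.mp h with h | h
  · exact absurd h hne
  · convert h

open Classical in
theorem ker_norm_le_range_aug (σ : G) (hσ : ∀ τ : G, τ ∈ Subgroup.zpowers σ) :
    (permNorm G X).ker ≤ (permAug G X σ).range := by
  intro a ha
  rw [AddMonoidHom.mem_ker] at ha
  have hdecomp : a = ∑ x : X, a x • (Pi.single x (1 : ℤ) - Pi.single (rep G x) 1 : X → ℤ)
      + ∑ x : X, a x • (Pi.single (rep G x) (1 : ℤ) : X → ℤ) := by
    rw [← Finset.sum_add_distrib]
    simp_rw [← smul_add, sub_add_cancel]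
    funext w
    rw [Finset.sum_apply]
    simp [Pi.single_apply]
  have hzero : ∑ x : X, a x • (Pi.single (rep G x) (1 : ℤ) : X → ℤ) = 0 := by
    funext w
    rw [Finset.sum_apply, Pi.zero_apply]
    simp only [Pi.smul_apply, Pi.single_apply, smul_eq_mul, mul_ite, mul_one, mul_zero]
    by_cases hw : rep G w = w
    · refine Eq.trans ?_ (orbit_sum_eq_zero ha w)
      refine Finset.sum_congr rfl fun x _ => ?_
      by_cases hx : cls G x = cls G w
      · rw [if_pos hx, if_pos]
        rw [← hw, rep_eq_of_cls_eq hx]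
      · rw [if_neg hx, if_neg]
        intro h
        apply hx
        rw [h, cls_rep]
    · refine Finset.sum_eq_zero fun x _ => ?_
      rw [if_neg]
      intro h
      apply hw
      rw [h, rep_rep]
  rw [hdecomp, hzero, add_zero]
  refine AddSubgroup.sum_mem _ fun x _ => ?_
  exact AddSubgroup.zsmul_mem _ (single_sub_single_rep_mem σ hσ x) _

theorem hIndex_norm_aug (σ : G) (hσ : ∀ τ : G, τ ∈ Subgroup.zpowers σ) :
    hIndex (permNorm G X) (permAug G X σ) = 1 := by
  unfold hIndex
  rw [AddSubgroup.relIndex_eq_one]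
  exact ker_norm_le_range_aug σ hσ

/-! ### Part (1) -/

/-- functions on the orbit set, pulled back to `X` -/
def pull (G : Type u) [Group G] (X : Type v) [MulAction G X] :
    (MulAction.orbitRel.Quotient G X → ℤ) →+ (X → ℤ) where
  toFun c x := c (cls G x)
  map_zero' := rfl
  map_add' _ _ := rfl

theorem pull_apply (c : MulAction.orbitRel.Quotient G X → ℤ) (x : X) :
    pull G X c x = c (cls G x) := rfl

theorem pull_injective : Function.Injective (pull G X) := by
  intro c d h
  funext o
  induction o using Quotient.inductionOn' with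
  | h x => exact congrFun h x

theorem smul_invariant_of_mem_ker (σ : G) (hσ : ∀ τ : G, τ ∈ Subgroup.zpowers σ)
    {a : X → ℤ} (ha : a ∈ (permAug G X σ).ker) (g : G) (x : X) : a (g • x) = a x := by
  rw [AddMonoidHom.mem_ker] at ha
  have h1 : ∀ x, a (σ⁻¹ • x) = a x := fun x => by
    have := congrFun ha x
    rw [_root_.Fermat.Agent.S55.G.Perm379.permAug_apply, Pi.zero_apply, sub_eq_zero] at this
    exact this
  let S : Subgroup G :=
    { carrier := {g | ∀ x, a (g • x) = a x}
      mul_mem' := fun {g h} hg hh x => by rw [mul_smul, hg, hh]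
      one_mem' := fun x => by rw [one_smul]
      inv_mem' := fun {g} hg x => by
        have := hg (g⁻¹ • x)
        rw [smul_inv_smul] at this
        exact this.symm }
  have hσS : σ ∈ S := by
    have : σ⁻¹ ∈ S := h1
    simpa using S.inv_mem this
  have : Subgroup.zpowers σ ≤ S := (Subgroup.zpowers_le).mpr hσS
  exact this (hσ g) x

theorem range_pull (σ : G) (hσ : ∀ τ : G, τ ∈ Subgroup.zpowers σ) :
    (pull G X).range = (permAug G X σ).ker := by
  ext a
  constructor
  · rintro ⟨c, rfl⟩
    rw [AddMonoidHom.mem_ker]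
    funext x
    rw [_root_.Fermat.Agent.S55.G.Perm379.permAug_apply, pull_apply, pull_apply, cls_smul, sub_self, Pi.zero_apply]
  · intro ha
    refine ⟨fun o => a o.out, ?_⟩
    funext x
    rw [pull_apply]
    obtain ⟨g, hg⟩ := exists_smul_rep (G := G) x
    show a (rep G x) = a x
    calc a (rep G x) = a (g • rep G x) := (smul_invariant_of_mem_ker σ hσ ha g (rep G x)).symm
      _ = a x := by rw [hg]

/-- the stabiliser order of the chosen base point of an orbit -/
noncomputable def stabCard (G : Type u) [Group G] (X : Type v) [MulAction G X]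
    (o : MulAction.orbitRel.Quotient G X) : ℕ := Nat.card (MulAction.stabilizer G o.out)

/-- reduction of the orbit coordinates modulo the stabiliser orders -/
noncomputable def red (G : Type u) [Group G] (X : Type v) [MulAction G X] :
    (MulAction.orbitRel.Quotient G X → ℤ) →+
      ((o : MulAction.orbitRel.Quotient G X) → ZMod (stabCard G X o)) where
  toFun c o := (c o : ZMod (stabCard G X o))
  map_zero' := by funext o; simp
  map_add' c d := by funext o; simp

theorem red_surjective : Function.Surjective (red G X) := by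
  intro t
  choose c hc using fun o => ZMod.intCast_surjective (t o)
  exact ⟨c, funext hc⟩

theorem mem_ker_red (c : MulAction.orbitRel.Quotient G X → ℤ) :
    c ∈ (red G X).ker ↔ ∀ o, (stabCard G X o : ℤ) ∣ c o := by
  rw [AddMonoidHom.mem_ker]
  constructor
  · intro h o
    have := congrFun h o
    exact (ZMod.intCast_zmod_eq_zero_iff_dvd _ _).mp this
  · intro h
    funext o
    exact (ZMod.intCast_zmod_eq_zero_iff_dvd _ _).mpr (h o)

theorem norm_mem_ker_aug (σ : G) (a : X → ℤ) : permNorm G X a ∈ (permAug G X σ).ker := by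
  rw [AddMonoidHom.mem_ker]
  funext x
  rw [_root_.Fermat.Agent.S55.G.Perm379.permAug_apply, Pi.zero_apply, sub_eq_zero, _root_.Fermat.Agent.S55.G.Perm379.permNorm_apply, _root_.Fermat.Agent.S55.G.Perm379.permNorm_apply]
  refine Fintype.sum_equiv (Equiv.mulLeft σ) _ _ fun τ => ?_
  simp [mul_smul]

open Classical in
theorem map_pull_ker_red (σ : G) (hσ : ∀ τ : G, τ ∈ Subgroup.zpowers σ) :
    (red G X).ker.map (pull G X) = (permNorm G X).range := by
  ext a
  constructor
  · rintro ⟨c, hc, rfl⟩
    have hc' := (mem_ker_red c).mp hc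
    choose d hd using hc'
    set F : X → ℤ := fun x => if rep G x = x then d (cls G x) else 0 with hF
    refine ⟨F, ?_⟩
    funext w
    have hinv := smul_invariant_of_mem_ker σ hσ (norm_mem_ker_aug σ F)
    obtain ⟨g, hg⟩ := exists_smul_rep (G := G) w
    have hsum : ∑ y : X, (if cls G y = cls G (rep G w) then F y else 0) = d (cls G w) := by
      rw [Finset.sum_eq_single (rep G w)]
      · rw [if_pos rfl, hF]
        simp only
        rw [if_pos (rep_rep w), cls_rep]
      · intro x _ hx
        by_cases h1 : cls G x = cls G (rep G w)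
        · rw [if_pos h1, hF]
          simp only
          rw [if_neg]
          intro h2
          apply hx
          rw [← h2, rep_eq_of_cls_eq h1, rep_rep]
        · rw [if_neg h1]
      · intro h
        exact absurd (Finset.mem_univ _) h
    calc permNorm G X F w = permNorm G X F (g • rep G w) := by rw [hg]
      _ = permNorm G X F (rep G w) := hinv g _
      _ = (Nat.card (MulAction.stabilizer G (rep G w)) : ℤ) * d (cls G w) := by
          rw [_root_.Fermat.Agent.S55.G.Perm379.permNorm_apply, sum_inv_smul F (rep G w), hsum]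
      _ = pull G X c w := by
          rw [pull_apply, hd]
          rfl
  · rintro ⟨a, rfl⟩
    have hker := norm_mem_ker_aug σ a
    rw [← range_pull σ hσ] at hker
    obtain ⟨c, hc⟩ := hker
    refine ⟨c, (mem_ker_red c).mpr ?_, hc⟩
    intro o
    have h1 : c o = permNorm G X a o.out := by
      rw [← hc, pull_apply]
      congr 1
      exact (Quotient.out_eq' o).symm
    rw [h1, _root_.Fermat.Agent.S55.G.Perm379.permNorm_apply, sum_inv_smul]
    exact Dvd.intro _ rfl

theorem index_ker_red : (red G X).ker.index = stabProd G X := by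
  classical
  letI : Fintype (MulAction.orbitRel.Quotient G X) := Fintype.ofFinite _
  rw [AddSubgroup.index_ker, AddMonoidHom.range_eq_top.mpr red_surjective,
    AddSubgroup.card_top, Nat.card_pi]
  unfold stabProd stabCard
  simp only [Nat.card_zmod]

theorem hIndex_aug_norm (σ : G) (hσ : ∀ τ : G, τ ∈ Subgroup.zpowers σ) :
    hIndex (permAug G X σ) (permNorm G X) = stabProd G X := by
  unfold hIndex
  rw [← map_pull_ker_red σ hσ, ← range_pull σ hσ, AddMonoidHom.range_eq_map,
    AddSubgroup.relIndex_map_map_of_injective _ _ pull_injective,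
    AddSubgroup.relIndex_top_right, index_ker_red]

/-- **GU-P.** -/
theorem permSpec : PermSpec.{u, v} := by
  intro G _ _ X _ _ σ hσ
  exact ⟨hIndex_aug_norm σ hσ, hIndex_norm_aug σ hσ⟩

end Fermat.Agent.S55.G.Perm379

end
-- ===== PACK-END S55/G/Perm379.lean

-- ===== PACK-BEGIN S55/Local/H483/Abs.lean
section




/-!
# S55, layer L : inertia group and ramification index (absolute case)   (helper483)

Base `(A, F)`: complete DVR with finite residue field and its fraction field (char. 0).
`N / F` finite Galois.  With `S = integralClosure A N` and `G = Gal(N/F)` we show that the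
inertia subgroup `I = {σ | ∀ s ∈ S, σ s - s ∈ 𝔪_S}` has cardinality `e`, where
`ϖF = unit * ϖN ^ e` for uniformizers `ϖF`, `ϖN` in the sense of `Defs.lean`.
-/

set_option autoImplicit false
set_option linter.unusedSectionVars false
set_option linter.style.haveILetI false

namespace Fermat.Agent.S55.Local.H483

open Fermat.Agent.S55.Local IsLocalRing

section Abs

variable (A F : Type) [CommRing A] [IsDomain A] [IsDiscreteValuationRing A]
  [IsAdicComplete (IsLocalRing.maximalIdeal A) A] [Finite (IsLocalRing.ResidueField A)]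
  [Field F] [CharZero F] [Algebra A F] [IsFractionRing A F]
  (N : Type) [Field N] [Algebra F N] [FiniteDimensional F N]
  [Algebra A N] [IsScalarTower A F N]

/-- the ring of integers of `N` -/
abbrev OO : Subalgebra A N := integralClosure A N

lemma coe_mem_OO_iff (x : N) : x ∈ OO A N ↔ IsInt A F N x :=
  (H715.isInt_iff A F N x).symm

/-- An element of the ring of integers is a unit iff its inverse (in `N`) is integral. -/
lemma isUnit_OO_iff (s : OO A N) :
    IsUnit s ↔ (s : N) ≠ 0 ∧ IsInt A F N ((s : N)⁻¹) := by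
  constructor
  · rintro ⟨u, rfl⟩
    have h1 : ((u : OO A N) : N) * ((u⁻¹ : (OO A N)ˣ) : OO A N) = 1 := by
      rw [← Subalgebra.coe_mul, Units.mul_inv]; rfl
    have hne : ((u : OO A N) : N) ≠ 0 := left_ne_zero_of_mul_eq_one h1
    refine ⟨hne, ?_⟩
    have : ((u : OO A N) : N)⁻¹ = ((u⁻¹ : (OO A N)ˣ) : OO A N) :=
      (eq_inv_of_mul_eq_one_right h1).symm
    rw [this]
    exact (coe_mem_OO_iff A F N _).1 (Subtype.property _)
  · rintro ⟨hne, hinv⟩
    refine ⟨⟨s, ⟨(s : N)⁻¹, (coe_mem_OO_iff A F N _).2 hinv⟩, ?_, ?_⟩, rfl⟩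
    · ext; simp [hne]
    · ext; simp [hne]

/-- Membership in the maximal ideal of the ring of integers. -/
lemma mem_maximalIdeal_OO_iff (s : OO A N) :
    letI := H715.isLocalRing_OL A F N
    s ∈ maximalIdeal (OO A N) ↔ ((s : N) = 0 ∨ ¬ IsInt A F N ((s : N)⁻¹)) := by
  letI := H715.isLocalRing_OL A F N
  rw [mem_maximalIdeal, mem_nonunits_iff, isUnit_OO_iff A F N s]
  tauto

/-! ### Uniformizers -/

variable {A F N}

lemma isInt_zpow_of_nonneg {ϖ : Nˣ} (h : IsInt A F N (ϖ : N)) {n : ℤ} (hn : 0 ≤ n) :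
    IsInt A F N ((ϖ ^ n : Nˣ) : N) := by
  obtain ⟨k, rfl⟩ := Int.eq_ofNat_of_zero_le hn
  rw [zpow_natCast, Units.val_pow_eq_pow_val]
  exact H724.isInt_pow724 A F N h k

lemma unif_not_isInt_inv {ϖ : Nˣ} (h : IsUnif A F N ϖ) : ¬ IsInt A F N ((ϖ : N)⁻¹) := by
  intro hinv
  apply h.2.1
  rw [mem_intUnits]
  refine ⟨h.1, ?_⟩
  rwa [Units.val_inv_eq_inv_val]

/-- A nonzero integral element whose inverse is not integral is divisible by the uniformizer. -/
lemma unif_exists_eq_mul {ϖ : Nˣ} (h : IsUnif A F N ϖ) {s : N} (hs : IsInt A F N s)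
    (hs' : s = 0 ∨ ¬ IsInt A F N s⁻¹) : ∃ t : N, IsInt A F N t ∧ s = ϖ * t := by
  rcases eq_or_ne s 0 with rfl | hne
  · exact ⟨0, isInt_zero A F N, by simp⟩
  have hs'' : ¬ IsInt A F N s⁻¹ := hs'.resolve_left hne
  obtain ⟨n, hn⟩ := h.2.2 (Units.mk0 s hne)
  have hnpos : 0 < n := by
    by_contra hle
    have hle : 0 ≤ -n := by omega
    apply hs''
    have e1 : ((Units.mk0 s hne)⁻¹ : Nˣ) = (Units.mk0 s hne * ϖ ^ (-n))⁻¹ * ϖ ^ (-n) := by
      rw [mul_inv, mul_assoc, inv_mul_cancel, mul_one]
    have e2 : s⁻¹ = (((Units.mk0 s hne)⁻¹ : Nˣ) : N) := by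
      rw [Units.val_inv_eq_inv_val]; rfl
    rw [e2, e1, Units.val_mul]
    exact ((mem_intUnits A F N).1 hn).2.mul (isInt_zpow_of_nonneg h.1 hle)
  refine ⟨((Units.mk0 s hne * ϖ ^ (-n) : Nˣ) : N) * ((ϖ ^ (n - 1) : Nˣ) : N),
    ((mem_intUnits A F N).1 hn).1.mul (isInt_zpow_of_nonneg h.1 (by omega)), ?_⟩
  have e3 : Units.mk0 s hne = ϖ * ((Units.mk0 s hne * ϖ ^ (-n)) * ϖ ^ (n - 1)) := by
    rw [mul_comm ϖ, mul_assoc, mul_assoc, ← zpow_add_one, ← zpow_add]
    simp
  have := congrArg (fun u : Nˣ => (u : N)) e3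
  simpa using this

variable (A F N)

/-- The uniformizer as an element of the ring of integers. -/
def unifOO (ϖ : Nˣ) (h : IsUnif A F N ϖ) : OO A N := ⟨(ϖ : N), (coe_mem_OO_iff A F N _).2 h.1⟩

lemma maximalIdeal_OO_eq_span (ϖ : Nˣ) (h : IsUnif A F N ϖ) :
    letI := H715.isLocalRing_OL A F N
    maximalIdeal (OO A N) = Ideal.span {unifOO A F N ϖ h} := by
  letI := H715.isLocalRing_OL A F N
  apply le_antisymm
  · intro s hs
    rw [mem_maximalIdeal_OO_iff A F N s] at hs
    obtain ⟨t, ht, hst⟩ := unif_exists_eq_mul h ((coe_mem_OO_iff A F N _).1 s.2) hs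
    rw [Ideal.mem_span_singleton]
    refine ⟨⟨t, (coe_mem_OO_iff A F N _).2 ht⟩, ?_⟩
    ext
    exact hst
  · rw [Ideal.span_singleton_le_iff_mem, mem_maximalIdeal_OO_iff A F N]
    right
    exact unif_not_isInt_inv h

lemma mem_maximalIdeal_pow_iff (ϖ : Nˣ) (h : IsUnif A F N ϖ) (k : ℕ) (s : OO A N) :
    letI := H715.isLocalRing_OL A F N
    s ∈ maximalIdeal (OO A N) ^ k ↔ ∃ t : N, IsInt A F N t ∧ (s : N) = (ϖ : N) ^ k * t := by
  letI := H715.isLocalRing_OL A F N
  rw [maximalIdeal_OO_eq_span A F N ϖ h, Ideal.span_singleton_pow, Ideal.mem_span_singleton]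
  constructor
  · rintro ⟨t, rfl⟩
    exact ⟨t, (coe_mem_OO_iff A F N _).1 t.2, rfl⟩
  · rintro ⟨t, ht, hst⟩
    refine ⟨⟨t, (coe_mem_OO_iff A F N _).2 ht⟩, ?_⟩
    ext
    exact hst

/-! ### The ramification index in terms of uniformizers -/

/-- An element of the base field which is integral over `A` comes from `A`. -/
lemma exists_algebraMap_eq_of_isInt {y : F} (hy : IsInt A F F y) : ∃ a : A, algebraMap A F a = y := by
  have hy' : IsIntegral A y := (H715.isInt_iff A F F y).1 hy
  exact IsIntegrallyClosed.algebraMap_eq_of_integral hy'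

/-- Nonunits of `A` are not units of the integers of `F`. -/
lemma algebraMap_nonunit (b : A) (hb : b ∈ maximalIdeal A) :
    algebraMap A F b = 0 ∨ ¬ IsInt A F F (algebraMap A F b)⁻¹ := by
  by_cases h0 : algebraMap A F b = 0
  · exact Or.inl h0
  right
  intro hinv
  obtain ⟨c, hc⟩ := exists_algebraMap_eq_of_isInt A F hinv
  have h1 : algebraMap A F (b * c) = 1 := by
    rw [map_mul, hc, mul_inv_cancel₀ h0]
  have h2 : b * c = 1 := by
    apply IsFractionRing.injective A F
    rw [h1, map_one]
  rw [mem_maximalIdeal, mem_nonunits_iff] at hb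
  exact hb (IsUnit.of_mul_eq_one c h2)

theorem ramificationIdx'_eq (ϖF : Fˣ) (ϖN : Nˣ) (hF : IsUnif A F F ϖF) (hN : IsUnif A F N ϖN)
    (e : ℕ) (he : unitsIncl N F ϖF * ϖN ^ (-(e : ℤ)) ∈ intUnits A F N) :
    letI := H715.isLocalRing_OL A F N
    (maximalIdeal A).ramificationIdx' (maximalIdeal (OO A N)) = e := by
  letI := H715.isLocalRing_OL A F N
  -- the relation `ϖF = u * ϖN ^ e` in `N`
  set u : Nˣ := unitsIncl N F ϖF * ϖN ^ (-(e : ℤ)) with hu
  have hrel : (algebraMap F N (ϖF : F)) = (u : N) * (ϖN : N) ^ e := by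
    have : unitsIncl N F ϖF = u * ϖN ^ e := by
      rw [hu, mul_assoc, ← zpow_natCast, ← zpow_add]; simp
    have h2 := congrArg (fun x : Nˣ => (x : N)) this
    simpa using h2
  have huint := (mem_intUnits A F N).1 he
  apply Ideal.ramificationIdx'_spec
  · rw [Ideal.map_le_iff_le_comap]
    intro b hb
    rw [Ideal.mem_comap, mem_maximalIdeal_pow_iff A F N ϖN hN]
    obtain ⟨t, ht, hbt⟩ := unif_exists_eq_mul hF (isInt_toL A F F b) (algebraMap_nonunit A F b hb)
    refine ⟨(u : N) * algebraMap F N t, huint.1.mul ((H724.isInt_algebraMap_iff724 A F F N t).2 ht), ?_⟩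
    have h1 : ((algebraMap A (OO A N) b : OO A N) : N) = algebraMap F N (algebraMap A F b) := by
      rw [← IsScalarTower.algebraMap_apply A F N]; rfl
    rw [h1]
    have h2 : algebraMap A F b = (ϖF : F) * t := hbt
    rw [h2, map_mul, hrel]
    ring
  · intro hle
    obtain ⟨a, ha⟩ := exists_algebraMap_eq_of_isInt A F hF.1
    have ham : a ∈ maximalIdeal A := by
      rw [mem_maximalIdeal, mem_nonunits_iff]
      intro hau
      apply unif_not_isInt_inv hF
      obtain ⟨c, hc⟩ := hau.exists_right_inv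
      have : ((ϖF : F))⁻¹ = algebraMap A F c := by
        rw [← ha]
        apply inv_eq_of_mul_eq_one_right
        rw [← map_mul, hc, map_one]
      rw [this]
      exact isInt_toL A F F c
    have hmem : algebraMap A (OO A N) a ∈ maximalIdeal (OO A N) ^ (e + 1) :=
      hle (Ideal.mem_map_of_mem _ ham)
    rw [mem_maximalIdeal_pow_iff A F N ϖN hN] at hmem
    obtain ⟨t, ht, hat⟩ := hmem
    have h1 : ((algebraMap A (OO A N) a : OO A N) : N) = algebraMap F N (ϖF : F) := by
      rw [← ha, ← IsScalarTower.algebraMap_apply A F N]; rfl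
    rw [h1, hrel, pow_succ] at hat
    have hϖne : ((ϖN : N)) ^ e ≠ 0 := pow_ne_zero _ ϖN.ne_zero
    have h3 : (u : N) = (ϖN : N) * t := by
      have : (ϖN : N) ^ e * (u : N) = (ϖN : N) ^ e * ((ϖN : N) * t) := by
        rw [mul_comm, hat]; ring
      exact mul_left_cancel₀ hϖne this
    apply unif_not_isInt_inv hN
    have h4 : ((ϖN : N))⁻¹ = t * ((u⁻¹ : Nˣ) : N) := by
      rw [Units.val_inv_eq_inv_val, h3, mul_inv]
      have htne : t ≠ 0 := by
        rintro rfl
        rw [mul_zero] at h3
        exact u.ne_zero h3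
      field_simp
    rw [h4]
    exact ht.mul huint.2

/-! ### The inertia group -/

/-- `y` lies in the maximal ideal of the ring of integers of `N` (intrinsic form). -/
def InMax (y : N) : Prop := IsInt A F N y ∧ (y = 0 ∨ ¬ IsInt A F N y⁻¹)

variable [IsGalois F N]

/-- The action of the Galois group on the ring of integers. -/
@[reducible] noncomputable def actOO : MulSemiringAction (N ≃ₐ[F] N) (OO A N) :=
  IsIntegralClosure.MulSemiringAction A F N (OO A N)

lemma coe_smul_OO (σ : N ≃ₐ[F] N) (s : OO A N) :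
    letI := actOO A F N
    ((σ • s : OO A N) : N) = σ (s : N) := by
  letI := actOO A F N
  exact algebraMap_galRestrict_apply A σ s

/-- The inertia subgroup of `Gal(N/F)`. -/
noncomputable def inertiaAbs : Subgroup (N ≃ₐ[F] N) :=
  letI := actOO A F N
  letI := H715.isLocalRing_OL A F N
  (maximalIdeal (OO A N)).inertia (N ≃ₐ[F] N)

lemma mem_inertiaAbs_iff (σ : N ≃ₐ[F] N) :
    σ ∈ inertiaAbs A F N ↔ ∀ x : N, IsInt A F N x → InMax A F N (σ x - x) := by
  letI := actOO A F N
  letI := H715.isLocalRing_OL A F N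
  show (∀ s : OO A N, σ • s - s ∈ (maximalIdeal (OO A N)).toAddSubgroup) ↔ _
  constructor
  · intro h x hx
    have h1 := h ⟨x, (coe_mem_OO_iff A F N x).2 hx⟩
    rw [Submodule.mem_toAddSubgroup, mem_maximalIdeal_OO_iff A F N] at h1
    have h2 : (((σ • (⟨x, (coe_mem_OO_iff A F N x).2 hx⟩ : OO A N) -
        (⟨x, (coe_mem_OO_iff A F N x).2 hx⟩ : OO A N) : OO A N)) : N) = σ x - x := by
      rw [Subalgebra.coe_sub, coe_smul_OO A F N σ]
    rw [h2] at h1
    refine ⟨?_, h1⟩
    rw [← h2]
    exact (coe_mem_OO_iff A F N _).1 (Subtype.property _)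
  · intro h s
    rw [Submodule.mem_toAddSubgroup, mem_maximalIdeal_OO_iff A F N]
    have h2 : (((σ • s - s : OO A N)) : N) = σ (s : N) - (s : N) := by
      rw [Subalgebra.coe_sub, coe_smul_OO A F N σ]
    rw [h2]
    exact (h (s : N) ((coe_mem_OO_iff A F N _).1 s.2)).2

open Ideal in
theorem card_inertiaAbs_eq_ramificationIdx' :
    letI := H715.isLocalRing_OL A F N
    Nat.card (inertiaAbs A F N) =
      (maximalIdeal A).ramificationIdx' (maximalIdeal (OO A N)) := by
  letI := actOO A F N
  letI := H715.isLocalRing_OL A F N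
  haveI := H715.isFractionRing_OL A F N
  haveI := H715.finite_OL A F N
  haveI := H715.isDedekindDomain_OL A F N
  haveI := H715.isLocalHom_OL A F N
  haveI : IsGaloisGroup (N ≃ₐ[F] N) A (OO A N) :=
    IsGaloisGroup.of_isFractionRing (N ≃ₐ[F] N) A (OO A N) F N
  haveI : (maximalIdeal (OO A N)).LiesOver (maximalIdeal A) := inferInstance
  haveI : Module.IsTorsionFree A (OO A N) :=
    (Module.isTorsionFree_iff_algebraMap_injective).2 (H715.algebraMap_injective_OL A F N)
  haveI : Module.Flat A (OO A N) := inferInstance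
  haveI : Finite (maximalIdeal A).ResidueField := by
    have hb := Ideal.bijective_algebraMap_quotient_residueField (maximalIdeal A)
    haveI : Finite (A ⧸ maximalIdeal A) := ‹Finite (ResidueField A)›
    exact Finite.of_surjective _ hb.2
  haveI : PerfectField (maximalIdeal A).ResidueField := inferInstance
  show Nat.card ((maximalIdeal (OO A N)).inertia (N ≃ₐ[F] N)) = _
  rw [card_inertia_eq_ramificationIdxIn (G := (N ≃ₐ[F] N)) (maximalIdeal A) (maximalIdeal (OO A N)),
    ramificationIdxIn_eq_ramificationIdx (maximalIdeal A) (maximalIdeal (OO A N)) (N ≃ₐ[F] N)]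
  exact (ramificationIdx'_eq_ramificationIdx (maximalIdeal A) (maximalIdeal (OO A N))
    (IsDiscreteValuationRing.not_a_field A)).symm

omit [IsGalois F N] [IsDomain A] [IsDiscreteValuationRing A]
  [IsAdicComplete (IsLocalRing.maximalIdeal A) A] [Finite (IsLocalRing.ResidueField A)]
  [CharZero F] [IsFractionRing A F] [FiniteDimensional F N] in
lemma isInt_algEquiv (σ : N ≃ₐ[F] N) {x : N} (hx : IsInt A F N x) : IsInt A F N (σ x) := by
  rw [H715.isInt_iff A F N] at hx ⊢
  exact hx.map (σ.toAlgHom.restrictScalars A)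

omit [IsGalois F N] [IsDomain A] [IsDiscreteValuationRing A]
  [IsAdicComplete (IsLocalRing.maximalIdeal A) A] [Finite (IsLocalRing.ResidueField A)]
  [CharZero F] [IsFractionRing A F] [FiniteDimensional F N] in
lemma inMax_algEquiv (σ : N ≃ₐ[F] N) {y : N} (hy : InMax A F N y) : InMax A F N (σ y) := by
  refine ⟨isInt_algEquiv A F N σ hy.1, ?_⟩
  rcases hy.2 with h0 | h
  · left; rw [h0, map_zero]
  · right
    intro hinv
    apply h
    have := isInt_algEquiv A F N σ.symm hinv
    rwa [map_inv₀, AlgEquiv.symm_apply_apply] at this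

lemma inertiaAbs_normal : (inertiaAbs A F N).Normal := by
  constructor
  intro σ hσ τ
  rw [mem_inertiaAbs_iff] at hσ ⊢
  intro x hx
  have h1 := hσ (τ.symm x) (isInt_algEquiv A F N τ.symm hx)
  have h2 := inMax_algEquiv A F N τ h1
  have e : (τ * σ * τ⁻¹) x - x = τ (σ (τ.symm x) - τ.symm x) := by
    rw [map_sub, AlgEquiv.apply_symm_apply]
    rfl
  rw [e]
  exact h2

/-- **Absolute case**: the inertia group of `N / F` has order `e(N/F)`. -/
theorem unif_mul_zpow_card_inertiaAbs (ϖF : Fˣ) (ϖN : Nˣ) (hF : IsUnif A F F ϖF)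
    (hN : IsUnif A F N ϖN) :
    unitsIncl N F ϖF * ϖN ^ (-(Nat.card (inertiaAbs A F N) : ℤ)) ∈ intUnits A F N := by
  obtain ⟨e, f, -, he, -⟩ := H724.ramification_core724 A F F N ϖF ϖN hF hN
  rw [card_inertiaAbs_eq_ramificationIdx' A F N, ramificationIdx'_eq A F N ϖF ϖN hF hN e he]
  exact he

end Abs

end Fermat.Agent.S55.Local.H483

end
-- ===== PACK-END S55/Local/H483/Abs.lean

-- ===== PACK-BEGIN S55/L/UnrInv/Ord.lean
section


/-!
# S55, layer L, unramified invariants: the normalised valuation `ordZ` of a local field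

For a valuation subring `B` of a field `E` which is a discrete valuation ring, `ordZ B hB x : ℤ`
is the normalised valuation of `x` (`ordZ B hB 0 = 0`).
-/

set_option autoImplicit false
set_option linter.style.haveILetI false

namespace Fermat.Agent.S55.L.UnrInv

open IsDedekindDomain

variable {E : Type} [Field E]

/-- The `ℤᵐ⁰`-valued valuation attached to a discrete valuation subring. -/
noncomputable def dvrVal (B : ValuationSubring E) (hB : IsDiscreteValuationRing B) :
    Valuation E (WithZero (Multiplicative ℤ)) :=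
  haveI := hB
  (IsDiscreteValuationRing.maximalIdeal B).valuation E

/-- The normalised valuation of a discrete valuation subring. -/
noncomputable def ordZ (B : ValuationSubring E) (hB : IsDiscreteValuationRing B) (x : E) : ℤ :=
  - WithZero.log (dvrVal B hB x)

variable (B : ValuationSubring E) (hB : IsDiscreteValuationRing B)

theorem dvrVal_ne_zero {x : E} (hx : x ≠ 0) : dvrVal B hB x ≠ 0 :=
  (Valuation.ne_zero_iff _).mpr hx

theorem ordZ_mul {x y : E} (hx : x ≠ 0) (hy : y ≠ 0) :
    ordZ B hB (x * y) = ordZ B hB x + ordZ B hB y := by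
  simp only [ordZ, map_mul, WithZero.log_mul (dvrVal_ne_zero B hB hx) (dvrVal_ne_zero B hB hy)]
  ring

@[simp] theorem ordZ_one : ordZ B hB 1 = 0 := by
  simp [ordZ]

theorem ordZ_inv (x : E) : ordZ B hB x⁻¹ = - ordZ B hB x := by
  simp only [ordZ, map_inv₀, WithZero.log_inv]

theorem ordZ_pow (x : E) (n : ℕ) : ordZ B hB (x ^ n) = n * ordZ B hB x := by
  simp only [ordZ, map_pow, WithZero.log_pow, nsmul_eq_mul]
  ring

theorem ordZ_zpow (x : E) (n : ℤ) : ordZ B hB (x ^ n) = n * ordZ B hB x := by
  simp only [ordZ, map_zpow₀, WithZero.log_zpow, smul_eq_mul]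
  ring

theorem dvrVal_le_one_of_mem {x : E} (hx : x ∈ B) : dvrVal B hB x ≤ 1 := by
  haveI := hB
  exact HeightOneSpectrum.valuation_le_one (IsDiscreteValuationRing.maximalIdeal B) (⟨x, hx⟩ : B)

theorem dvrVal_lt_one_of_mem_nonunits {x : E} (hx : x ∈ B.nonunits) : dvrVal B hB x < 1 := by
  haveI := hB
  have hxB : x ∈ B := B.nonunits_le hx
  have h := (HeightOneSpectrum.valuation_lt_one_iff_mem (K := E)
    (IsDiscreteValuationRing.maximalIdeal B) (⟨x, hxB⟩ : B)).mpr ?_
  · exact h
  · change (⟨x, hxB⟩ : B) ∈ IsLocalRing.maximalIdeal B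
    rw [IsLocalRing.mem_maximalIdeal, mem_nonunits_iff]
    intro hu
    exact (B.mem_nonunits_iff_exists_mem_maximalIdeal.mp hx).elim fun h' hh => by
      have : (⟨x, h'⟩ : B) ∈ IsLocalRing.maximalIdeal B := hh
      rw [IsLocalRing.mem_maximalIdeal, mem_nonunits_iff] at this
      exact this hu

theorem mem_of_dvrVal_le_one {x : E} (hx : dvrVal B hB x ≤ 1) : x ∈ B := by
  by_contra hxB
  have hx0 : x ≠ 0 := by
    rintro rfl
    exact hxB B.zero_mem
  have hinv : x⁻¹ ∈ B.nonunits := by
    rw [B.mem_nonunits_iff, map_inv₀]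
    have : 1 < B.valuation x := by
      rw [← not_le, B.valuation_le_one_iff]
      exact hxB
    exact inv_lt_one_of_one_lt₀ this
  have h1 := dvrVal_lt_one_of_mem_nonunits B hB hinv
  rw [map_inv₀] at h1
  have h2 : dvrVal B hB x ≠ 0 := dvrVal_ne_zero B hB hx0
  have h3 : 1 ≤ (dvrVal B hB x)⁻¹ := (one_le_inv₀ (zero_lt_iff.mpr h2)).mpr hx
  exact absurd h1 (not_lt.mpr h3)

theorem ordZ_nonneg_iff {x : E} (hx : x ≠ 0) : 0 ≤ ordZ B hB x ↔ x ∈ B := by
  have h0 := dvrVal_ne_zero B hB hx
  constructor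
  · intro h
    apply mem_of_dvrVal_le_one B hB
    rw [← WithZero.exp_log h0, ← WithZero.exp_zero, WithZero.exp_le_exp]
    simp only [ordZ] at h
    omega
  · intro h
    have := dvrVal_le_one_of_mem B hB h
    rw [← WithZero.exp_log h0, ← WithZero.exp_zero, WithZero.exp_le_exp] at this
    simp only [ordZ]
    omega

theorem ordZ_pos_iff {x : E} (hx : x ≠ 0) : 0 < ordZ B hB x ↔ x ∈ B.nonunits := by
  have h0 := dvrVal_ne_zero B hB hx
  constructor
  · intro h
    have hxB : x ∈ B := (ordZ_nonneg_iff B hB hx).mp h.le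
    rw [B.mem_nonunits_iff]
    rcases (B.valuation_lt_one_or_eq_one ⟨x, hxB⟩) with h1 | h1
    · exact h1
    · exfalso
      have hinv : x⁻¹ ∈ B := by
        rw [← B.valuation_le_one_iff, map_inv₀]
        have : B.valuation x = 1 := h1
        rw [this, inv_one]
      have := (ordZ_nonneg_iff B hB (inv_ne_zero hx)).mpr hinv
      rw [ordZ_inv] at this
      omega
  · intro h
    have := dvrVal_lt_one_of_mem_nonunits B hB h
    rw [← WithZero.exp_log h0, ← WithZero.exp_zero, WithZero.exp_lt_exp] at this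
    simp only [ordZ]
    omega

theorem ordZ_eq_zero_iff {x : E} (hx : x ≠ 0) : ordZ B hB x = 0 ↔ x ∈ B ∧ x⁻¹ ∈ B := by
  rw [← ordZ_nonneg_iff B hB hx, ← ordZ_nonneg_iff B hB (inv_ne_zero hx), ordZ_inv]
  omega

theorem ordZ_uniformizer {π : E} (hπ : IsUniformizer B π) : ordZ B hB π = 1 := by
  haveI := hB
  obtain ⟨hπB, hirr⟩ := hπ
  have h1 : (IsDiscreteValuationRing.maximalIdeal B).asIdeal = Ideal.span {(⟨π, hπB⟩ : B)} :=
    hirr.maximalIdeal_eq
  have h2 := HeightOneSpectrum.intValuation_singleton (IsDiscreteValuationRing.maximalIdeal B)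
    hirr.ne_zero h1
  have h3 : dvrVal B hB π = WithZero.exp (-1) := by
    rw [← h2]
    exact HeightOneSpectrum.valuation_of_algebraMap (K := E)
      (IsDiscreteValuationRing.maximalIdeal B) (⟨π, hπB⟩ : B)
  simp [ordZ, h3]

theorem uniformizer_ne_zero {π : E} (hπ : IsUniformizer B π) : π ≠ 0 := by
  obtain ⟨hπB, hirr⟩ := hπ
  rintro rfl
  exact hirr.ne_zero rfl

/-- Decomposition `x = u π^k`. -/
theorem ordZ_div_zpow' {π : E} (hπ1 : ordZ B hB π = 1) (hπ0 : π ≠ 0) {x : E} (hx : x ≠ 0) :
    ordZ B hB (x / π ^ (ordZ B hB x)) = 0 := by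
  rw [div_eq_mul_inv, ordZ_mul B hB hx (inv_ne_zero (zpow_ne_zero _ hπ0)), ordZ_inv, ordZ_zpow,
    hπ1]
  ring

/-- Behaviour under a ring homomorphism mapping integers to integers (`π` any element of
valuation `1`). -/
theorem ordZ_map' {E' : Type} [Field E'] (B' : ValuationSubring E')
    (hB' : IsDiscreteValuationRing B') (ι : E →+* E') (hι : ∀ x ∈ B, ι x ∈ B')
    {π : E} (hπ1 : ordZ B hB π = 1) (hπ0 : π ≠ 0) {x : E} (hx : x ≠ 0) :
    ordZ B' hB' (ι x) = ordZ B' hB' (ι π) * ordZ B hB x := by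
  set k := ordZ B hB x with hk
  set u := x / π ^ k with hu
  have hu0 : u ≠ 0 := div_ne_zero hx (zpow_ne_zero _ hπ0)
  have hxu : x = u * π ^ k := by
    rw [hu, div_mul_cancel₀ _ (zpow_ne_zero _ hπ0)]
  have h1 : ordZ B hB u = 0 := ordZ_div_zpow' B hB hπ1 hπ0 hx
  obtain ⟨h2, h3⟩ := (ordZ_eq_zero_iff B hB hu0).mp h1
  have h4 : ordZ B' hB' (ι u) = 0 := by
    rw [ordZ_eq_zero_iff B' hB' ((map_ne_zero ι).mpr hu0)]
    refine ⟨hι _ h2, ?_⟩
    rw [← map_inv₀]
    exact hι _ h3
  have h5 : ι x = ι u * (ι π) ^ k := by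
    conv_lhs => rw [hxu]
    rw [map_mul, map_zpow₀]
  rw [h5, ordZ_mul B' hB' ((map_ne_zero ι).mpr hu0)
    (zpow_ne_zero _ ((map_ne_zero ι).mpr hπ0)), h4, ordZ_zpow]
  ring

/-- Behaviour under a ring homomorphism mapping integers to integers. -/
theorem ordZ_map {E' : Type} [Field E'] (B' : ValuationSubring E')
    (hB' : IsDiscreteValuationRing B') (ι : E →+* E') (hι : ∀ x ∈ B, ι x ∈ B')
    {π : E} (hπ : IsUniformizer B π) {x : E} (hx : x ≠ 0) :
    ordZ B' hB' (ι x) = ordZ B' hB' (ι π) * ordZ B hB x :=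
  ordZ_map' B hB B' hB' ι hι (ordZ_uniformizer B hB hπ) (uniformizer_ne_zero B hπ) hx

/-- Existence of uniformizers. -/
theorem exists_isUniformizer (B : ValuationSubring E) (hB : IsDiscreteValuationRing B) :
    ∃ π : E, IsUniformizer B π := by
  haveI := hB
  obtain ⟨π, hπ⟩ := IsDiscreteValuationRing.exists_irreducible B
  exact ⟨π, π.2, hπ⟩

/-- A ring isomorphism matching the rings of integers preserves `ordZ`. -/
theorem ordZ_equiv {E' : Type} [Field E'] (B' : ValuationSubring E')
    (hB' : IsDiscreteValuationRing B') (e : E ≃+* E') (h1 : ∀ x ∈ B, e x ∈ B')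
    (h2 : ∀ y ∈ B', e.symm y ∈ B) (x : E) :
    ordZ B' hB' (e x) = ordZ B hB x := by
  by_cases hx : x = 0
  · subst hx
    simp [ordZ]
  haveI := hB
  haveI := hB'
  obtain ⟨π, hπirr⟩ := IsDiscreteValuationRing.exists_irreducible B
  obtain ⟨π', hπ'irr⟩ := IsDiscreteValuationRing.exists_irreducible B'
  have hπ : IsUniformizer B (π : E) := ⟨π.2, hπirr⟩
  have hπ' : IsUniformizer B' (π' : E') := ⟨π'.2, hπ'irr⟩
  have hπ0 := uniformizer_ne_zero B hπ
  have hπ'0 := uniformizer_ne_zero B' hπ'
  have k1 := ordZ_map B hB B' hB' e.toRingHom h1 hπ hπ0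
  have k2 := ordZ_map B' hB' B hB e.symm.toRingHom h2 hπ' ((map_ne_zero e.toRingHom).mpr hπ0)
  have k3 := ordZ_map B hB B' hB' e.toRingHom h1 hπ hx
  simp only [RingEquiv.toRingHom_eq_coe, RingEquiv.coe_toRingHom, RingEquiv.symm_apply_apply]
    at k1 k2 k3
  rw [ordZ_uniformizer B hB hπ] at k1 k2
  have k4 : 0 ≤ ordZ B' hB' (e (π : E)) :=
    (ordZ_nonneg_iff B' hB' ((map_ne_zero e).mpr hπ0)).mpr (h1 _ π.2)
  have k5 : ordZ B' hB' (e (π : E)) = 1 := by
    have : ordZ B hB (e.symm (π' : E')) * ordZ B' hB' (e (π : E)) = 1 := by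
      rw [k2]
    exact Int.eq_one_of_mul_eq_one_left k4 this
  rw [k3, k5, one_mul]

end Fermat.Agent.S55.L.UnrInv

end
-- ===== PACK-END S55/L/UnrInv/Ord.lean

-- ===== PACK-BEGIN S55/H173/ShapiroExplicit.lean
section



/-!
# S55 (helper173): explicit Shapiro lemma

For a subgroup `S ≤ G` and `B : Rep k S`, the map
`Hⁿ(G, Coind_S^G B) ⟶ Hⁿ(S, B)` induced by `S ↪ G` and evaluation at `1`
is an isomorphism for all `n`.  (Mathlib's `groupCohomology.coindIso` is abstract.)
-/

set_option autoImplicit false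

open CategoryTheory CategoryTheory.Limits groupCohomology

namespace Fermat.Agent.S55.H173

open Fermat.Agent.S55.H783

universe u

variable {k G : Type u} [CommRing k] [Group G] (S : Subgroup G)

/-- Evaluation at `1`: `Res_S Coind_S^G B ⟶ B`. -/
def ev1 (B : Rep k S) : Rep.res S.subtype (Rep.coind S.subtype B) ⟶ B :=
  Rep.ofHom (ρ := (Representation.coind S.subtype B.ρ).comp S.subtype) (σ := B.ρ)
    ⟨{ toFun := fun f => f.1 1
       map_add' := fun _ _ => rfl
       map_smul' := fun _ _ => rfl }, fun s => by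
      ext f
      have h := f.2 s 1
      change f.1 (1 * (s : G)) = B.ρ s (f.1 1)
      rw [one_mul]
      simpa using h⟩

@[simp]
lemma ev1_hom_apply (B : Rep k S) (f : (Rep.coind S.subtype B).V) :
    (ev1 S B).hom f = f.1 1 := rfl

/-- The explicit Shapiro map. -/
noncomputable abbrev shapiroMap (B : Rep k S) (n : ℕ) :
    groupCohomology (Rep.coind S.subtype B) n ⟶ groupCohomology B n :=
  groupCohomology.map S.subtype (ev1 S B) n

/-! ### Degree `0` -/

lemma H0Iso_hom_shapiroMap_val (B : Rep k S) (x : groupCohomology (Rep.coind S.subtype B) 0) :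
    ((H0Iso B).hom ((shapiroMap S B 0).hom x)).1 =
      (((H0Iso (Rep.coind S.subtype B)).hom x).1).1 1 := by
  have h := map_H0Iso_hom_f_apply (f := S.subtype) (φ := ev1 S B) x
  exact h

lemma invariant_coind_apply (B : Rep k S)
    (f : (Rep.coind S.subtype B).ρ.invariants) (g : G) : (f.1).1 g = (f.1).1 1 := by
  have h := f.2 g
  have h2 := congrArg (fun F : (Rep.coind S.subtype B).V => F.1 1) h
  have h3 : ((Rep.coind S.subtype B).ρ g f.1).1 1 = (f.1).1 (1 * g) := rfl
  rw [one_mul] at h3
  rw [← h3]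
  exact h2

theorem shapiroMap_zero_injective (B : Rep k S) :
    Function.Injective (shapiroMap S B 0).hom := by
  rw [injective_iff_map_eq_zero]
  intro x hx
  have h1 := H0Iso_hom_shapiroMap_val S B x
  rw [hx, map_zero] at h1
  have h2 : (H0Iso (Rep.coind S.subtype B)).hom x = 0 := by
    apply Subtype.ext
    apply Subtype.ext
    funext g
    rw [invariant_coind_apply S B _ g]
    exact h1.symm
  have h3 := congrArg (H0Iso (Rep.coind S.subtype B)).inv h2
  simpa using h3

theorem shapiroMap_zero_surjective (B : Rep k S) :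
    Function.Surjective (shapiroMap S B 0).hom := by
  intro z
  set b := (H0Iso B).hom z with hb
  have hbinv : ∀ s : S, B.ρ s b.1 = b.1 := fun s => b.2 s
  let f : (Rep.coind S.subtype B).V := ⟨fun _ => b.1, fun s g => (hbinv s).symm⟩
  have hf : f ∈ (Rep.coind S.subtype B).ρ.invariants := by
    intro g
    apply Subtype.ext
    funext x
    rfl
  refine ⟨(H0Iso (Rep.coind S.subtype B)).inv ⟨f, hf⟩, ?_⟩
  have h1 := H0Iso_hom_shapiroMap_val S B ((H0Iso (Rep.coind S.subtype B)).inv ⟨f, hf⟩)
  have h2 : (H0Iso B).hom ((shapiroMap S B 0).hom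
      ((H0Iso (Rep.coind S.subtype B)).inv ⟨f, hf⟩)) = (H0Iso B).hom z := by
    apply Subtype.ext
    rw [h1]
    simp [f, hb]
  have h3 := congrArg (H0Iso B).inv h2
  simpa using h3

/-! ### Naturality of `ev1` -/

lemma ev1_naturality {B B' : Rep k S} (φ : B ⟶ B') :
    (Rep.resFunctor S.subtype).map (Rep.coindMap S.subtype φ) ≫ ev1 S B' = ev1 S B ≫ φ := by
  ext f
  rfl

/-! ### Coinduction of the module of all functions -/

/-- `Coind_S^G (S → V) ≅ (G → V)`. -/
noncomputable def coindFunRepIso (V : Type u) [AddCommGroup V] [Module k V] :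
    Rep.coind S.subtype (funRep k S V) ≅ funRep k G V :=
  Rep.mkIso (ρ := Representation.coind S.subtype (funRho k S V)) (σ := funRho k G V)
    { toLinearEquiv :=
        { toFun := fun F x => F.1 x 1
          invFun := fun φ => ⟨fun x t => φ (t * x), fun s x => by
            funext t
            simp [mul_assoc]⟩
          map_add' := fun _ _ => rfl
          map_smul' := fun _ _ => rfl
          left_inv := fun F => by
            apply Subtype.ext
            funext x t
            have h := congrFun (F.2 t x) 1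
            simpa using h
          right_inv := fun φ => by
            funext x
            simp }
      isIntertwining' := fun g => by
        ext F x
        rfl }

theorem isZero_coind_funRep (V : Type u) [AddCommGroup V] [Module k V] (n : ℕ) :
    IsZero (groupCohomology (Rep.coind S.subtype (funRep k S V)) (n + 1)) :=
  (isZero_funRep (k := k) (G := G) V n).of_iso
    ((groupCohomology.functor k G (n + 1)).mapIso (coindFunRepIso S V))

/-! ### The coinduced dimension-shifting sequence -/

/-- The coinduction of the dimension shifting sequence of `B`. -/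
noncomputable def coindSC (B : Rep k S) : ShortComplex (Rep k G) :=
  (shiftSC B).map (Rep.coindFunctor k S.subtype)

lemma coindSC_shortExact (B : Rep k S) : (coindSC S B).ShortExact where
  exact := by
    rw [← ShortComplex.exact_map_iff_of_faithful _ (forget₂ (Rep k G) (ModuleCat k)),
      ShortComplex.moduleCat_exact_iff_ker_sub_range]
    intro F hF
    have hF' : ∀ x : G, (shiftProj B).hom (F.1 x) = 0 := by
      intro x
      have := congrArg (fun F' : (Rep.coind S.subtype (shiftRep B)).V => F'.1 x) hF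
      exact this
    have hmem : ∀ x : G, ∃ b : B.V, (shiftIncl B).hom b = F.1 x := by
      intro x
      have h1 := (shiftProj_eq_zero_iff B (F.1 x)).1 (hF' x)
      obtain ⟨b, hb⟩ := h1
      exact ⟨b, hb⟩
    choose F' hF'' using hmem
    refine ⟨⟨F', fun s x => ?_⟩, ?_⟩
    · apply shiftIncl_injective B
      rw [hF'']
      have h2 := F.2 s x
      rw [h2, ← hF'' x]
      exact (Rep.hom_comm_apply (shiftIncl B) s (F' x)).symm
    · apply Subtype.ext
      funext x
      exact hF'' x
  mono_f := by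
    rw [Rep.mono_iff_injective]
    intro F₁ F₂ h
    apply Subtype.ext
    funext x
    apply shiftIncl_injective B
    have := congrArg (fun F' : (Rep.coind S.subtype (funRep k S B.V)).V => F'.1 x) h
    exact this
  epi_g := by
    have : Epi (shiftSC B).g := (shiftSC_shortExact B).epi_g
    exact inferInstanceAs (Epi ((Rep.coindFunctor k S.subtype).map (shiftSC B).g))

/-- The comparison morphism from the restricted coinduced sequence to the shifting sequence,
given by evaluation at `1`. -/
noncomputable def evSC (B : Rep k S) :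
    (coindSC S B).map (Rep.resFunctor S.subtype) ⟶ shiftSC B where
  τ₁ := ev1 S B
  τ₂ := ev1 S (funRep k S B.V)
  τ₃ := ev1 S (shiftRep B)
  comm₁₂ := ev1_naturality S (shiftIncl B)
  comm₂₃ := ev1_naturality S (shiftProj B)

/-- Change of groups commutes with the maps induced by `X.g`. -/
lemma map_comm_g {G₁ G₂ : Type u} [Group G₁] [Group G₂] (f : G₁ →* G₂)
    {X₂ : ShortComplex (Rep k G₂)} {X₁ : ShortComplex (Rep k G₁)}
    (Φ : X₂.map (Rep.resFunctor f) ⟶ X₁) (n : ℕ) :
    groupCohomology.map (MonoidHom.id G₂) X₂.g n ≫ groupCohomology.map f Φ.τ₃ n =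
      groupCohomology.map f Φ.τ₂ n ≫ groupCohomology.map (MonoidHom.id G₁) X₁.g n := by
  have h := (cochainsMapSC f Φ).comm₂₃
  have h2 := congrArg (fun ψ => HomologicalComplex.homologyMap ψ n) h
  simp only [HomologicalComplex.homologyMap_comp] at h2
  exact h2.symm

/-- **Explicit Shapiro lemma**: restriction to `S` followed by evaluation at `1` is bijective
`Hⁿ(G, Coind_S^G B) → Hⁿ(S, B)` for all `n`. -/
theorem shapiroMap_bijective : ∀ (n : ℕ) (B : Rep k S),
    Function.Bijective (shapiroMap S B n).hom := by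
  intro n
  induction n with
  | zero => exact fun B => ⟨shapiroMap_zero_injective S B, shapiroMap_zero_surjective S B⟩
  | succ n ih =>
    intro B
    have hnat := δ_naturality_map S.subtype (coindSC_shortExact S B) (shiftSC_shortExact B)
      (evSC S B) n (n + 1) rfl
    have hnat' : ∀ z, (shapiroMap S B (n + 1)).hom
        ((δ (coindSC_shortExact S B) n (n + 1) rfl).hom z) =
        (shiftδ B n).hom ((shapiroMap S (shiftRep B) n).hom z) := fun z =>
      congrArg (fun ψ => ψ.hom z) hnat
    have hepi₂ : Function.Surjective (δ (coindSC_shortExact S B) n (n + 1) rfl).hom :=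
      (ModuleCat.epi_iff_surjective _).1
        (epi_δ_of_isZero (coindSC_shortExact S B) n (isZero_coind_funRep S B.V n))
    constructor
    · rw [injective_iff_map_eq_zero]
      intro x hx
      obtain ⟨z', rfl⟩ := hepi₂ x
      rw [hnat'] at hx
      -- `Θ z'` is in the kernel of `δ₁`, hence in the image of `Hⁿ(π)`
      have hex := (mapShortComplex₃_exact (shiftSC_shortExact B) (rfl : n + 1 = n + 1))
      rw [ShortComplex.moduleCat_exact_iff] at hex
      obtain ⟨w, hw⟩ := hex _ hx
      obtain ⟨w', rfl⟩ := (ih (funRep k S B.V)).2 w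
      have hcomm := map_comm_g S.subtype (evSC S B) n
      have hcomm' : (shapiroMap S (shiftRep B) n).hom
          ((groupCohomology.map (MonoidHom.id G) (coindSC S B).g n).hom w') =
          (groupCohomology.map (MonoidHom.id S) (shiftSC B).g n).hom
            ((shapiroMap S (funRep k S B.V) n).hom w') :=
        congrArg (fun ψ => ψ.hom w') hcomm
      have hz : (groupCohomology.map (MonoidHom.id G) (coindSC S B).g n).hom w' = z' :=
        (ih (shiftRep B)).1 (hcomm'.trans hw)
      have hzero := (mapShortComplex₃ (coindSC_shortExact S B) (rfl : n + 1 = n + 1)).zero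
      have hzero' := congrArg (fun ψ => ψ.hom w') hzero
      have hgoal : (δ (coindSC_shortExact S B) n (n + 1) rfl).hom
          ((groupCohomology.map (MonoidHom.id G) (coindSC S B).g n).hom w') = 0 := hzero'
      rw [hz] at hgoal
      exact hgoal
    · intro y
      obtain ⟨z, rfl⟩ := shiftδ_surjective B n y
      obtain ⟨z', rfl⟩ := (ih (shiftRep B)).2 z
      exact ⟨_, hnat' z'⟩

/-- The explicit Shapiro map is an isomorphism. -/
theorem isIso_shapiroMap (B : Rep k S) (n : ℕ) : IsIso (shapiroMap S B n) :=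
  (ConcreteCategory.isIso_iff_bijective _).2 (shapiroMap_bijective S n B)

end Fermat.Agent.S55.H173

end
-- ===== PACK-END S55/H173/ShapiroExplicit.lean

-- ===== PACK-BEGIN S55/E1/H304/Alg1.lean
section



/-!
# S55 engine E1, block ALG, leaf ALG1 (helper304)

For a finite group `G` and a finite `G`-module `N`, with the standard presentation
`0 → R → P → N → 0`, `P = ℤ[G]^{(N)}`:

* `freeIsoFunRep` : `Rep.free k G α ≅ funRep k G (α →₀ k)` for finite `G` (free = coinduced);
* `isZero_groupCohomology_free` : `Hⁿ⁺¹(G, k[G]^{(α)}) = 0`;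
* `alg1 : ALG1Spec` : `R` is a finitely generated free `ℤ`-module and the connecting map
  `δ : H¹(G, N) → H²(G, R)` is bijective.
-/

set_option autoImplicit false

open CategoryTheory CategoryTheory.Limits

namespace Fermat.Agent.S55.E1.H304

open Fermat.Agent.S55.E1

noncomputable section

section FreeIso

variable (k G α : Type) [CommRing k] [Group G] [Fintype G]

/-- `α →₀ k[G] ≃ (G → (α →₀ k))`, `F ↦ (x ↦ (a ↦ coefficient of `x⁻¹` in `F a`))`. -/
def freeLEquiv : (α →₀ MonoidAlgebra k G) ≃ₗ[k] (G → (α →₀ k)) :=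
  (Finsupp.mapRange.linearEquiv (MonoidAlgebra.coeffLinearEquiv k)) ≪≫ₗ
  (Finsupp.curryLinearEquiv k).symm ≪≫ₗ
  (Finsupp.domLCongr (Equiv.prodComm α G)) ≪≫ₗ
  (Finsupp.curryLinearEquiv k) ≪≫ₗ
  (Finsupp.linearEquivFunOnFinite k (α →₀ k) G) ≪≫ₗ
  (LinearEquiv.funCongrLeft k (α →₀ k) (Equiv.inv G))

lemma freeLEquiv_apply (F : α →₀ MonoidAlgebra k G) (x : G) (a : α) :
    freeLEquiv k G α F x a = (F a).coeff x⁻¹ := by
  simp [freeLEquiv, LinearMap.funLeft]

omit [Fintype G] in
lemma free_apply_apply (g : G) (F : α →₀ MonoidAlgebra k G) (a : α) :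
    (Representation.free k G α g F) a = Representation.leftRegular k G g (F a) := by
  classical
  induction F using Finsupp.induction_linear with
  | zero => simp
  | add f₁ f₂ h₁ h₂ => simp only [map_add, Finsupp.add_apply, h₁, h₂]
  | single b m =>
    rw [Representation.finsupp_single]
    by_cases h : b = a
    · subst h
      simp
    · simp [h]

lemma freeLEquiv_equivariant (g : G) (F : α →₀ MonoidAlgebra k G) :
    freeLEquiv k G α (Representation.free k G α g F)
      = Fermat.Agent.S55.H783.funRho k G (α →₀ k) g (freeLEquiv k G α F) := by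
  funext x
  ext a
  rw [freeLEquiv_apply, Fermat.Agent.S55.H783.funRho_apply, freeLEquiv_apply, free_apply_apply,
    Representation.coeff_ofMulAction, smul_eq_mul, mul_inv_rev]

/-- For a finite group the free representation `k[G]^{(α)}` is coinduced. -/
def freeIsoFunRep : Rep.free k G α ≅ Fermat.Agent.S55.H783.funRep k G (α →₀ k) :=
  Rep.mkIso
    { toLinearEquiv := freeLEquiv k G α
      isIntertwining' := fun g => by
        apply LinearMap.ext
        intro F
        exact freeLEquiv_equivariant k G α g F }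

/-- `Hⁿ⁺¹(G, k[G]^{(α)}) = 0` for a finite group `G`. -/
theorem isZero_groupCohomology_free (n : ℕ) :
    IsZero (groupCohomology (Rep.free k G α) (n + 1)) :=
  (Fermat.Agent.S55.H783.isZero_funRep (k := k) (G := G) (α →₀ k) n).of_iso
    ((groupCohomology.functor k G (n + 1)).mapIso (freeIsoFunRep k G α))

end FreeIso

section Alg1

/-- A subrepresentation of a finitely generated free module over a PID is finitely generated
free (stated for a generic ring so that the only module structure in sight is `hV2`). -/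
lemma free_finite_of_injective {k G : Type} [CommRing k] [IsDomain k] [IsPrincipalIdealRing k]
    [Group G] {A B : Rep.{0} k G} (f : A ⟶ B) (hf : Function.Injective f.hom)
    (hfree : Module.Free k B.V) (hfin : Module.Finite k B.V) :
    Module.Free k A.V ∧ Module.Finite k A.V := by
  let b := Module.Free.chooseBasis k B.V
  obtain ⟨n, ⟨bR⟩⟩ := Submodule.nonempty_basis_of_pid b (LinearMap.range f.hom.toLinearMap)
  let e := LinearEquiv.ofInjective f.hom.toLinearMap hf
  let bR' := bR.map e.symm
  exact ⟨Module.Free.of_basis bR', Module.Finite.of_basis bR'⟩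

lemma free_finite_stdP (k G α : Type) [CommRing k] [Group G] [Finite G] [Finite α] :
    Module.Free k (Rep.free k G α).V ∧ Module.Finite k (Rep.free k G α).V := by
  constructor
  · change Module.Free k (α →₀ MonoidAlgebra k G)
    infer_instance
  · change Module.Finite k (α →₀ MonoidAlgebra k G)
    infer_instance

variable {G : Type} [Group G]

lemma stdι_injective (N : Rep.{0} ℤ G) : Function.Injective (stdι N).hom :=
  (Rep.mono_iff_injective _).1 (stdι_mono N)

/-- **ALG1.** -/
theorem alg1 : ALG1Spec := by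
  intro G _ _ N hN
  classical
  let _ : Fintype G := Fintype.ofFinite G
  have : Finite N.V := hN
  obtain ⟨hPfree, hPfin⟩ := free_finite_stdP ℤ G N.V
  obtain ⟨h1, h2⟩ := free_finite_of_injective (stdι N) (stdι_injective N) hPfree hPfin
  refine ⟨h1, h2, ?_⟩
  have h := groupCohomology.isIso_δ_of_isZero (stdSC_shortExact N) 1
    (isZero_groupCohomology_free ℤ G N.V 0) (isZero_groupCohomology_free ℤ G N.V 1)
  exact (ConcreteCategory.isIso_iff_bijective _).mp h

end Alg1

end

end Fermat.Agent.S55.E1.H304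

end
-- ===== PACK-END S55/E1/H304/Alg1.lean

-- ===== PACK-BEGIN S55/Bridge/Reduce.lean
section




/-!
# S55 bridge: reduction of the frozen statement to a dimension count

`S55` (existence of a two-sided nondegenerate pairing `Ш¹_S(M^∨(1)) × Ш²_S(M) → 𝔽_p`) follows from
either of
* `Ш²_S(M)` finite-dimensional and `finrank Ш¹ = finrank Ш²` (with `Ш¹` finite-dimensional), or
* a linear equivalence `Ш¹_S(M^∨(1)) ≃ Dual (Ш²_S(M))`, or
* injective linear maps `Ш¹ → Dual Ш²` and `Ш² → Dual Ш¹` with `Ш²` finite-dimensional.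
-/

set_option autoImplicit false

namespace Fermat.Agent.S55.Bridge

open groupCohomology ExtCitation Module

variable {p : ℕ} [Fact p.Prime] (S : Finset Nat.Primes)
  (M : Rep.{0, 0, 0} (ZMod p) (AlgebraicClosure ℚ ≃ₐ[ℚ] AlgebraicClosure ℚ))

/-- The conclusion of S55 from a dimension count. -/
theorem pairing_of_finrank_eq
    (h1 : FiniteDimensional (ZMod p) (sha₁ S (M.dualTwist (cycloChar p))))
    (h2 : FiniteDimensional (ZMod p) (sha₂ S M))
    (h : finrank (ZMod p) (sha₁ S (M.dualTwist (cycloChar p))) = finrank (ZMod p) (sha₂ S M)) :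
    ∃ B : sha₁ S (M.dualTwist (cycloChar p)) →ₗ[ZMod p] sha₂ S M →ₗ[ZMod p] ZMod p,
      (∀ y, (∀ x, B y x = 0) → y = 0) ∧ (∀ x, (∀ y, B y x = 0) → x = 0) :=
  exists_pairing_of_finrank_eq h

/-- The conclusion of S55 from an isomorphism with the dual. -/
theorem pairing_of_equiv_dual
    (e : sha₁ S (M.dualTwist (cycloChar p)) ≃ₗ[ZMod p] Module.Dual (ZMod p) (sha₂ S M)) :
    ∃ B : sha₁ S (M.dualTwist (cycloChar p)) →ₗ[ZMod p] sha₂ S M →ₗ[ZMod p] ZMod p,
      (∀ y, (∀ x, B y x = 0) → y = 0) ∧ (∀ x, (∀ y, B y x = 0) → x = 0) :=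
  exists_pairing_of_equiv_dual e

/-- The conclusion of S55 from two injections into duals. -/
theorem pairing_of_injective
    (h2 : FiniteDimensional (ZMod p) (sha₂ S M))
    (f : sha₁ S (M.dualTwist (cycloChar p)) →ₗ[ZMod p] Module.Dual (ZMod p) (sha₂ S M))
    (hf : Function.Injective f)
    (g : sha₂ S M →ₗ[ZMod p] Module.Dual (ZMod p) (sha₁ S (M.dualTwist (cycloChar p))))
    (hg : Function.Injective g) :
    ∃ B : sha₁ S (M.dualTwist (cycloChar p)) →ₗ[ZMod p] sha₂ S M →ₗ[ZMod p] ZMod p,
      (∀ y, (∀ x, B y x = 0) → y = 0) ∧ (∀ x, (∀ y, B y x = 0) → x = 0) :=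
  exists_pairing_of_injective f hf g hg

/-- Transport along linear equivalences: if `Ш¹ ≃ V`, `Ш² ≃ W` and `V`, `W` are
finite-dimensional of the same dimension, S55 follows. -/
theorem pairing_of_equivs {V W : Type} [AddCommGroup V] [Module (ZMod p) V]
    [AddCommGroup W] [Module (ZMod p) W] [FiniteDimensional (ZMod p) V]
    [FiniteDimensional (ZMod p) W]
    (e1 : sha₁ S (M.dualTwist (cycloChar p)) ≃ₗ[ZMod p] V) (e2 : sha₂ S M ≃ₗ[ZMod p] W)
    (h : finrank (ZMod p) V = finrank (ZMod p) W) :
    ∃ B : sha₁ S (M.dualTwist (cycloChar p)) →ₗ[ZMod p] sha₂ S M →ₗ[ZMod p] ZMod p,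
      (∀ y, (∀ x, B y x = 0) → y = 0) ∧ (∀ x, (∀ y, B y x = 0) → x = 0) := by
  haveI : FiniteDimensional (ZMod p) (sha₁ S (M.dualTwist (cycloChar p))) :=
    e1.symm.finiteDimensional
  haveI : FiniteDimensional (ZMod p) (sha₂ S M) := e2.symm.finiteDimensional
  apply exists_pairing_of_finrank_eq
  rw [e1.finrank_eq, e2.finrank_eq, h]

end Fermat.Agent.S55.Bridge

end
-- ===== PACK-END S55/Bridge/Reduce.lean

-- ===== PACK-BEGIN S55/G/Exist121/Field.lean
section



/-!
# S55, layer G, block EXIST: the Kummer level `F₁ = F(V(F)^{1/p})`  (Prelude terms)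

Author: helper121.  For a level `F ⊂ ℚ̄` and a finite set of primes `S`:

* `IsSelmerElt S p F x` : `x ∈ Fˣ` and at every place `A` of `ℚ̄` over a prime `q ∉ S` the element
  `x` is a unit times a `p`-th power of an element of `F` (i.e. `p ∣ v(x)` for all primes `v` of
  `F` outside `S`); these `x` form the group `V(F)`, and `V(F)/Fˣᵖ` is the Selmer group `F(S,p)`.
* `kummerLevel S p F = F(β : β ^ p ∈ V(F))`.

Results of this file (no finiteness yet, see `FieldFinite.lean`):
* `inertia_le_fixingSubgroup_kummerLevel` : inertia outside `S` acts trivially on `F₁`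
  (if `F` is unramified outside `S` and the prime factors of `p` lie in `S`);
* `normal_kummerLevel` : `F₁/ℚ` is normal if `F/ℚ` is.
-/

set_option autoImplicit false

namespace Fermat.Agent.S55.G.Exist121

open IntermediateField Fermat.Agent.S55.Bridge
open scoped Pointwise

variable (S : Finset Nat.Primes) (p : ℕ) (F : IntermediateField ℚ (AlgebraicClosure ℚ))

/-- `x ∈ V(F)`: a nonzero element of `F` which, at every place of `ℚ̄` outside `S`, is a unit
times the `p`-th power of an element of `F`. -/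
def IsSelmerElt (x : AlgebraicClosure ℚ) : Prop :=
  x ∈ F ∧ x ≠ 0 ∧ ∀ q : Nat.Primes, q ∉ S → ∀ A : ValuationSubring (AlgebraicClosure ℚ),
    A.LiesOverPrime (q : ℕ) → ∃ t ∈ F, t ≠ 0 ∧ x / t ^ p ∈ A ∧ t ^ p / x ∈ A

/-- The Kummer level `F₁ = F(β : β ^ p ∈ V(F))`. -/
noncomputable def kummerLevel : IntermediateField ℚ (AlgebraicClosure ℚ) :=
  F ⊔ adjoin ℚ {β | IsSelmerElt S p F (β ^ p)}

variable {S p F}

lemma isSelmerElt_one : IsSelmerElt S p F 1 :=
  ⟨F.one_mem, one_ne_zero, fun _ _ A _ => ⟨1, F.one_mem, one_ne_zero, by simp [A.one_mem],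
    by simp [A.one_mem]⟩⟩

lemma IsSelmerElt.mul {x y : AlgebraicClosure ℚ} (hx : IsSelmerElt S p F x)
    (hy : IsSelmerElt S p F y) : IsSelmerElt S p F (x * y) := by
  refine ⟨F.mul_mem hx.1 hy.1, mul_ne_zero hx.2.1 hy.2.1, fun q hq A hA => ?_⟩
  obtain ⟨t, ht, ht0, h1, h2⟩ := hx.2.2 q hq A hA
  obtain ⟨s, hs, hs0, h3, h4⟩ := hy.2.2 q hq A hA
  refine ⟨t * s, F.mul_mem ht hs, mul_ne_zero ht0 hs0, ?_, ?_⟩
  · have : x * y / (t * s) ^ p = (x / t ^ p) * (y / s ^ p) := by
      rw [mul_pow]; field_simp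
    rw [this]; exact A.mul_mem _ _ h1 h3
  · have : (t * s) ^ p / (x * y) = (t ^ p / x) * (s ^ p / y) := by
      rw [mul_pow]; field_simp
    rw [this]; exact A.mul_mem _ _ h2 h4

lemma IsSelmerElt.inv {x : AlgebraicClosure ℚ} (hx : IsSelmerElt S p F x) :
    IsSelmerElt S p F x⁻¹ := by
  refine ⟨F.inv_mem hx.1, inv_ne_zero hx.2.1, fun q hq A hA => ?_⟩
  obtain ⟨t, ht, ht0, h1, h2⟩ := hx.2.2 q hq A hA
  refine ⟨t⁻¹, F.inv_mem ht, inv_ne_zero ht0, ?_, ?_⟩
  · have : x⁻¹ / t⁻¹ ^ p = t ^ p / x := by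
      rw [inv_pow]; field_simp
    rw [this]; exact h2
  · have : t⁻¹ ^ p / x⁻¹ = x / t ^ p := by
      rw [inv_pow]; field_simp
    rw [this]; exact h1

lemma isSelmerElt_pow {y : AlgebraicClosure ℚ} (hy : y ∈ F) (hy0 : y ≠ 0) :
    IsSelmerElt S p F (y ^ p) :=
  ⟨pow_mem hy p, pow_ne_zero p hy0, fun _ _ A _ =>
    ⟨y, hy, hy0, by rw [div_self (pow_ne_zero p hy0)]; exact A.one_mem,
      by rw [div_self (pow_ne_zero p hy0)]; exact A.one_mem⟩⟩

lemma le_kummerLevel : F ≤ kummerLevel S p F := le_sup_left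

lemma mem_kummerLevel_of_pow {β : AlgebraicClosure ℚ} (hβ : IsSelmerElt S p F (β ^ p)) :
    β ∈ kummerLevel S p F :=
  (le_sup_right : adjoin ℚ {β | IsSelmerElt S p F (β ^ p)} ≤ kummerLevel S p F)
    (subset_adjoin ℚ _ hβ)

/-- The valuation form of the local condition: a `p`-th root `β` of `x ∈ V(F)` has the valuation
of an element of `F` at every place outside `S`. -/
lemma IsSelmerElt.exists_valuation_eq (hp : p ≠ 0) {β : AlgebraicClosure ℚ}
    (hβ : IsSelmerElt S p F (β ^ p)) {q : Nat.Primes} (hq : q ∉ S)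
    {A : ValuationSubring (AlgebraicClosure ℚ)} (hA : A.LiesOverPrime (q : ℕ)) :
    ∃ t ∈ F, A.valuation β = A.valuation t := by
  obtain ⟨t, ht, ht0, h1, h2⟩ := hβ.2.2 q hq A hA
  refine ⟨t, ht, ?_⟩
  have hβ0 : β ≠ 0 := fun h => hβ.2.1 (by rw [h, zero_pow hp])
  have e1 : A.valuation (β / t) ^ p ≤ 1 := by
    rw [← map_pow, div_pow]; exact (A.valuation_le_one_iff _).2 h1
  have e2 : A.valuation (t / β) ^ p ≤ 1 := by
    rw [← map_pow, div_pow]; exact (A.valuation_le_one_iff _).2 h2
  have e3 : A.valuation (β / t) ≤ 1 := by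
    by_contra h
    exact absurd e1 (not_le.2 (one_lt_pow₀ (not_le.1 h) hp))
  have e4 : A.valuation (t / β) ≤ 1 := by
    by_contra h
    exact absurd e2 (not_le.2 (one_lt_pow₀ (not_le.1 h) hp))
  have hβv : A.valuation β ≠ 0 := (map_ne_zero _).2 hβ0
  have htv : A.valuation t ≠ 0 := (map_ne_zero _).2 ht0
  rw [map_div₀] at e3 e4
  have e5 : A.valuation β ≤ A.valuation t := by
    have := (div_le_one₀ (zero_lt_iff.2 htv)).1 e3
    exact this
  have e6 : A.valuation t ≤ A.valuation β := by
    have := (div_le_one₀ (zero_lt_iff.2 hβv)).1 e4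
    exact this
  exact le_antisymm e5 e6

/-- Inertia outside `S` acts trivially on the Kummer level. -/
theorem inertia_le_fixingSubgroup_kummerLevel (hp : p ≠ 0)
    (hpS : ∀ ℓ : Nat.Primes, (ℓ : ℕ) ∣ p → ℓ ∈ S)
    (hF : ∀ q : Nat.Primes, q ∉ S → ∀ A : ValuationSubring (AlgebraicClosure ℚ),
      A.LiesOverPrime (q : ℕ) → A.inertiaSubgroupIn ℚ ≤ F.fixingSubgroup)
    {q : Nat.Primes} (hq : q ∉ S) {A : ValuationSubring (AlgebraicClosure ℚ)}
    (hA : A.LiesOverPrime (q : ℕ)) :
    A.inertiaSubgroupIn ℚ ≤ (kummerLevel S p F).fixingSubgroup := by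
  intro σ hσ
  have hσF : σ ∈ F.fixingSubgroup := hF q hq A hA hσ
  have hfixF : ∀ x ∈ F, σ x = x := fun x hx =>
    (IntermediateField.mem_fixingSubgroup_iff F σ).1 hσF x hx
  rw [kummerLevel, IntermediateField.fixingSubgroup_sup]
  refine ⟨hσF, ?_⟩
  show σ ∈ (adjoin ℚ {β | IsSelmerElt S p F (β ^ p)}).fixingSubgroup
  rw [IntermediateField.mem_fixingSubgroup_iff]
  have hle : adjoin ℚ {β | IsSelmerElt S p F (β ^ p)} ≤
      IntermediateField.fixedField (Subgroup.zpowers σ) := by
    rw [adjoin_le_iff]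
    intro β hβ
    have hβ' : IsSelmerElt S p F (β ^ p) := hβ
    obtain ⟨t, htF, hv⟩ := hβ'.exists_valuation_eq hp hq hA
    have hσβ : σ β = β :=
      Fermat.Agent.S55.H893.kummer_fixed_of_mem_inertia hp
        (Fermat.Agent.S55.H893.val_natCast_eq_one_of_primeFactors_mem hpS hq hA) hσ
        (hfixF _ hβ'.1) (hfixF _ htF) hv
    rintro ⟨τ, hτ⟩
    obtain ⟨k, rfl⟩ := Subgroup.mem_zpowers_iff.1 hτ
    show (σ ^ k) • β = β
    have hstab : σ ∈ MulAction.stabilizer (AlgebraicClosure ℚ ≃ₐ[ℚ] AlgebraicClosure ℚ) β :=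
      MulAction.mem_stabilizer_iff.2 hσβ
    exact MulAction.mem_stabilizer_iff.1 (Subgroup.zpow_mem _ hstab k)
  intro x hx
  exact (hle hx) ⟨σ, Subgroup.mem_zpowers σ⟩

/-- `V(F)` is stable under `G_ℚ` when `F` is. -/
lemma IsSelmerElt.map (hFn : ∀ σ : AlgebraicClosure ℚ ≃ₐ[ℚ] AlgebraicClosure ℚ, ∀ x ∈ F, σ x ∈ F)
    (σ : AlgebraicClosure ℚ ≃ₐ[ℚ] AlgebraicClosure ℚ) {x : AlgebraicClosure ℚ}
    (hx : IsSelmerElt S p F x) : IsSelmerElt S p F (σ x) := by
  refine ⟨hFn σ x hx.1, (map_ne_zero _).2 hx.2.1, fun q hq A hA => ?_⟩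
  -- use the place `σ⁻¹ • A`
  have hA' : (σ⁻¹ • A).LiesOverPrime (q : ℕ) := liesOverPrime_smul A σ⁻¹ q hA
  obtain ⟨t, ht, ht0, h1, h2⟩ := hx.2.2 q hq (σ⁻¹ • A) hA'
  rw [mem_smul_valuationSubring_iff, inv_inv] at h1 h2
  refine ⟨σ t, hFn σ t ht, (map_ne_zero _).2 ht0, ?_, ?_⟩
  · have : σ x / σ t ^ p = σ (x / t ^ p) := by rw [map_div₀, map_pow]
    rw [this]; exact h1
  · have : σ t ^ p / σ x = σ (t ^ p / x) := by rw [map_div₀, map_pow]
    rw [this]; exact h2

/-- The Kummer level is stable under `G_ℚ` when `F` is. -/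
theorem map_mem_kummerLevel
    (hFn : ∀ σ : AlgebraicClosure ℚ ≃ₐ[ℚ] AlgebraicClosure ℚ, ∀ x ∈ F, σ x ∈ F)
    (σ : AlgebraicClosure ℚ ≃ₐ[ℚ] AlgebraicClosure ℚ) {x : AlgebraicClosure ℚ}
    (hx : x ∈ kummerLevel S p F) : σ x ∈ kummerLevel S p F := by
  have hle : kummerLevel S p F ≤ (kummerLevel S p F).comap (σ : AlgebraicClosure ℚ →ₐ[ℚ] _) := by
    rw [kummerLevel, sup_le_iff]
    constructor
    · intro y hy
      exact le_kummerLevel (hFn σ y hy)
    · rw [adjoin_le_iff]
      intro β hβ
      have hβ' : IsSelmerElt S p F (β ^ p) := hβ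
      show σ β ∈ kummerLevel S p F
      apply mem_kummerLevel_of_pow
      rw [← map_pow]
      exact hβ'.map hFn σ
  exact hle hx

/-- `F₁/ℚ` is normal when `F/ℚ` is. -/
theorem normal_fixingSubgroup_kummerLevel
    (hFn : ∀ σ : AlgebraicClosure ℚ ≃ₐ[ℚ] AlgebraicClosure ℚ, ∀ x ∈ F, σ x ∈ F) :
    (kummerLevel S p F).fixingSubgroup.Normal := by
  refine ⟨fun g hg σ => ?_⟩
  rw [IntermediateField.mem_fixingSubgroup_iff] at hg ⊢
  intro x hx
  have h1 : σ⁻¹ x ∈ kummerLevel S p F := map_mem_kummerLevel hFn σ⁻¹ hx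
  have h2 := hg _ h1
  show σ (g (σ⁻¹ x)) = x
  rw [h2]
  exact σ.apply_symm_apply x

end Fermat.Agent.S55.G.Exist121

end
-- ===== PACK-END S55/G/Exist121/Field.lean

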