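import Mathlib
import Fermat.Agent.Pack.S56.E7L1
import Fermat.Agent.Pack.S56.E7L2
import Fermat.Agent.Pack.S56.E1L2
import Fermat.Agent.Pack.S56.E3L3
import Fermat.Agent.Pack.S56.E5L3
import Fermat.Agent.Pack.S56.E7L3
import Fermat.Agent.Pack.S56.E8L3
import Fermat.Agent.Pack.S56.E8L1
import Fermat.Agent.Pack.S56.E8L0
import Fermat.Agent.Pack.S56.E5L2
import Fermat.Agent.Pack.S56.E7L0
import Fermat.Agent.Pack.S56.E8L2

-- ===== PACK-BEGIN S55/G/Rec/UnramCupH900.lean
section


/-!
# S55 / layer G / block REC : leaf L3 (`UnramCupSpec`)   (helper900)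

`unramCup_of : LocalStructureSpec → CupAddSpec → ∀ I, UnramCupSpec I`.

For an unramified continuous character `χ` of `V`, a Frobenius `φ` with residue degree `f` and
`a ∈ K_vˣ` with `vdeg a = f · k`:  `inv (a ∪ δχ) = k · χ(φ) / n`.

Proof: `a = π ^ k · u` (L2), `lcc` is additive in the element (K2), `inv (π ∪ δχ) = χ(φ) / n`
(`inv_unif`) and `inv (u ∪ δχ) = 0` (`inv_unram`).
-/

set_option autoImplicit false

noncomputable section

namespace Fermat.Agent.S55.G.Rec.H900

open groupCohomology Fermat.Agent.S55.G.Rec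

section

variable (q : ℕ) [Fact q.Prime]

local notation "Gq" => (PadicAlgCl q ≃ₐ[ℚ_[q]] PadicAlgCl q)

/-- The residue degree is unique. -/
lemma isResidueDegree_unique {V : Subgroup Gq} {f f' : ℕ}
    (hf : IsResidueDegree q V f) (hf' : IsResidueDegree q V f') : f = f' :=
  le_antisymm (hf.2.2 f' hf'.1 hf'.2.1) (hf'.2.2 f hf.1 hf.2.1)

variable {q}

lemma lFixed_one (V : Subgroup Gq) : LFixed q V 1 := fun τ _ => smul_one τ

lemma lFixed_mul {V : Subgroup Gq} {a b : (PadicAlgCl q)ˣ} (ha : LFixed q V a)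
    (hb : LFixed q V b) : LFixed q V (a * b) := fun τ hτ => by
  rw [smul_mul', ha τ hτ, hb τ hτ]

lemma lFixed_inv {V : Subgroup Gq} {a : (PadicAlgCl q)ˣ} (ha : LFixed q V a) :
    LFixed q V a⁻¹ := fun τ hτ => by
  rw [smul_inv', ha τ hτ]

lemma lFixed_pow {V : Subgroup Gq} {a : (PadicAlgCl q)ˣ} (ha : LFixed q V a) (m : ℕ) :
    LFixed q V (a ^ m) := fun τ hτ => by
  rw [smul_pow', ha τ hτ]

lemma lFixed_zpow {V : Subgroup Gq} {a : (PadicAlgCl q)ˣ} (ha : LFixed q V a) (m : ℤ) :
    LFixed q V (a ^ m) := by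
  cases m with
  | ofNat m => simpa using lFixed_pow ha m
  | negSucc m => simpa using lFixed_inv (lFixed_pow ha (m + 1))

/-- Additivity of the local cup class in the element, extracted from `CupAddSpec`. -/
lemma lcc_mul (hadd : CupAddSpec) (V : Subgroup Gq) (n : ℕ) [NeZero n]
    (χ : ↥V →* Multiplicative (ZMod n)) (hχ : IsLevelConstant₁ (lHom q V) χ)
    {a b : (PadicAlgCl q)ˣ} (ha : LFixed q V a) (hb : LFixed q V b) :
    lcc q V n χ (a * b) = lcc q V n χ a + lcc q V n χ b :=
  (hadd.2 q V n χ χ a b (NeZero.ne n) hχ hχ ha hb).1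

lemma lcc_one (hadd : CupAddSpec) (V : Subgroup Gq) (n : ℕ) [NeZero n]
    (χ : ↥V →* Multiplicative (ZMod n)) (hχ : IsLevelConstant₁ (lHom q V) χ) :
    lcc q V n χ 1 = 0 := by
  have h := lcc_mul hadd V n χ hχ (lFixed_one V) (lFixed_one V)
  rw [mul_one] at h
  exact left_eq_add.mp h

lemma lcc_inv (hadd : CupAddSpec) (V : Subgroup Gq) (n : ℕ) [NeZero n]
    (χ : ↥V →* Multiplicative (ZMod n)) (hχ : IsLevelConstant₁ (lHom q V) χ)
    {a : (PadicAlgCl q)ˣ} (ha : LFixed q V a) :
    lcc q V n χ a⁻¹ = - lcc q V n χ a := by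
  have h := lcc_mul hadd V n χ hχ ha (lFixed_inv ha)
  rw [mul_inv_cancel, lcc_one hadd V n χ hχ] at h
  exact (neg_eq_of_add_eq_zero_right h.symm).symm

lemma lcc_pow (hadd : CupAddSpec) (V : Subgroup Gq) (n : ℕ) [NeZero n]
    (χ : ↥V →* Multiplicative (ZMod n)) (hχ : IsLevelConstant₁ (lHom q V) χ)
    {a : (PadicAlgCl q)ˣ} (ha : LFixed q V a) (m : ℕ) :
    lcc q V n χ (a ^ m) = m • lcc q V n χ a := by
  induction m with
  | zero => simpa using lcc_one hadd V n χ hχ
  | succ m ih =>
    rw [pow_succ, lcc_mul hadd V n χ hχ (lFixed_pow ha m) ha, ih, succ_nsmul]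

lemma lcc_zpow (hadd : CupAddSpec) (V : Subgroup Gq) (n : ℕ) [NeZero n]
    (χ : ↥V →* Multiplicative (ZMod n)) (hχ : IsLevelConstant₁ (lHom q V) χ)
    {a : (PadicAlgCl q)ˣ} (ha : LFixed q V a) (m : ℤ) :
    lcc q V n χ (a ^ m) = m • lcc q V n χ a := by
  cases m with
  | ofNat m =>
    simp only [Int.ofNat_eq_natCast, zpow_natCast, natCast_zsmul]
    exact lcc_pow hadd V n χ hχ ha m
  | negSucc m =>
    rw [zpow_negSucc, lcc_inv hadd V n χ hχ (lFixed_pow ha (m + 1)),
      lcc_pow hadd V n χ hχ ha (m + 1), negSucc_zsmul]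

/-- The cup class of a unit is killed by `inv` for an unramified character. -/
lemma inv_lcc_unit (I : LocalInvSystem) (V : Subgroup Gq) (hV : IsOpenL q V) (n : ℕ) [NeZero n]
    (χ : ↥V →* Multiplicative (ZMod n)) (hχ : IsLevelConstant₁ (lHom q V) χ)
    (hur : ∀ τ : ↥V, IsInertial q (τ : Gq) → χ τ = 1)
    {u : (PadicAlgCl q)ˣ} (hu : LFixed q V u) (hu1 : ‖(u : PadicAlgCl q)‖ = 1) :
    I.inv q V (lcc q V n χ u) = 0 := by
  have h : n ≠ 0 ∧ IsLevelConstant₁ (lHom q V) χ ∧ LFixed q V u := ⟨NeZero.ne n, hχ, hu⟩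
  rw [lcc_eq q V n χ u h]
  refine I.inv_unram q V hV _ ?_ ?_ ?_
  · intro g h'
    show ‖(((u ^ (H379.carry n (chiAdd χ g) (chiAdd χ h')) : (PadicAlgCl q)ˣ)) :
      PadicAlgCl q)‖ = 1
    rw [Units.val_pow_eq_pow_val, norm_pow, hu1, one_pow]
  · intro g h' i j hi hj
    show H379.cupChar n (chiAdd χ) (toLMod q V u) (g * i, h' * j) =
      H379.cupChar n (chiAdd χ) (toLMod q V u) (g, h')
    rw [H379.cupChar_apply, H379.cupChar_apply, chiAdd_mul, chiAdd_mul]
    have hi0 : chiAdd χ i = 0 := by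
      show Multiplicative.toAdd (χ i) = 0
      rw [hur i hi]; rfl
    have hj0 : chiAdd χ j = 0 := by
      show Multiplicative.toAdd (χ j) = 0
      rw [hur j hj]; rfl
    rw [hi0, hj0, add_zero, add_zero]
  · intro g h' i _
    show (lModOn q V).ρ i (H379.cupChar n (chiAdd χ) (toLMod q V u) (g, h')) =
      H379.cupChar n (chiAdd χ) (toLMod q V u) (g, h')
    rw [H379.cupChar_apply, map_nsmul]
    congr 1
    exact toLMod_mem_invariants hu i

/-- The cup class of a uniformizer has invariant `χ(φ)/n` for an unramified character. -/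
lemma inv_lcc_unif (I : LocalInvSystem) (V : Subgroup Gq) (hV : IsOpenL q V) (n : ℕ) [NeZero n]
    (χ : ↥V →* Multiplicative (ZMod n)) (hχ : IsLevelConstant₁ (lHom q V) χ)
    (hur : ∀ τ : ↥V, IsInertial q (τ : Gq) → χ τ = 1)
    (φ : ↥V) (hφ : IsFrobenius q V (φ : Gq))
    {π : (PadicAlgCl q)ˣ} (hπ : IsUniformizer q V (π : PadicAlgCl q)) :
    I.inv q V (lcc q V n χ π) =
      (((((chiAdd χ φ).val : ℚ) / (n : ℚ) : ℚ)) : AddCircle (1 : ℚ)) := by
  have hπf : LFixed q V π := fun τ hτ => Units.ext (hπ.1 τ hτ)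
  have h : n ≠ 0 ∧ IsLevelConstant₁ (lHom q V) χ ∧ LFixed q V π := ⟨NeZero.ne n, hχ, hπf⟩
  rw [lcc_eq q V n χ π h]
  have := I.inv_unif q V hV n χ hur (φ : Gq) hφ π hπ
    ⟨_, lcupChar_mem q V n χ π h⟩ ((isCupChar_iff _ _ _).2 rfl)
  rw [this]
  rfl

end

/-- **L3** (`UnramCupSpec`) from L2 (`LocalStructureSpec`) and K2 (`CupAddSpec`). -/
theorem unramCup_of (h2 : LocalStructureSpec) (hadd : CupAddSpec) (I : LocalInvSystem) :
    UnramCupSpec I := by
  intro q _ V hV n _ χ hχ hur f hf φ hφ a ha k hk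
  obtain ⟨f', -, π, hf', -, -, hπ, -, hdec⟩ := h2 q V hV
  obtain ⟨k', u, hu, hu1, rfl, hk'⟩ := hdec a ha
  have hff : f' = f := isResidueDegree_unique q hf' hf
  subst hff
  have hkk : k' = k := by
    have h1 : (f' : ℤ) * k' = f' * k := hk'.symm.trans hk
    have hf0 : (f' : ℤ) ≠ 0 := by exact_mod_cast hf.1.ne'
    exact mul_left_cancel₀ hf0 h1
  subst hkk
  have hπf : LFixed q V π := fun τ hτ => Units.ext (hπ.1 τ hτ)
  rw [lcc_mul hadd V n χ hχ (lFixed_zpow hπf k') hu, lcc_zpow hadd V n χ hχ hπf, map_add,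
    map_zsmul, inv_lcc_unit I V hV n χ hχ hur hu hu1,
    inv_lcc_unif I V hV n χ hχ hur φ ⟨φ.2, f', hf, hφ⟩ hπ, add_zero]
  rw [← AddCircle.coe_zsmul]
  congr 1
  rw [zsmul_eq_mul, mul_div_assoc]

end Fermat.Agent.S55.G.Rec.H900

end

end
-- ===== PACK-END S55/G/Rec/UnramCupH900.lean

-- ===== PACK-BEGIN S55/L/H355/Fund.lean
section



/-!
# S55, layer L, helper355: the fundamental identity `e f = n` in cardinality form

For a field extension `L / K`, rings of integers `A ⊆ K`, `B ⊆ L` (complete DVRs with finite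
residue fields), `π` a uniformizer of `A`, `ϖ` of `B` and `v_B (π) = v_B (ϖ) ^ e` with `e ≥ 1`:

  `|k_B| ^ e = |k_A| ^ [L : K]`.
-/

set_option autoImplicit false
set_option linter.style.haveILetI false

namespace Fermat.Agent.S55.L.H355

open Fermat.Agent.S55.L

noncomputable section

variable {K L : Type} [Field K] [Field L] [Algebra K L]
  {A : ValuationSubring K} {B : ValuationSubring L}

/-- The inclusion of rings of integers. -/
def intHom (h : ∀ x ∈ A, algebraMap K L x ∈ B) : A →+* B where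
  toFun x := ⟨algebraMap K L x, h x x.2⟩
  map_one' := Subtype.ext (by simp)
  map_mul' x y := Subtype.ext (by simp)
  map_zero' := Subtype.ext (by simp)
  map_add' x y := Subtype.ext (by simp)

@[simp] theorem intHom_coe (h : ∀ x ∈ A, algebraMap K L x ∈ B) (x : A) :
    ((intHom h x : B) : L) = algebraMap K L (x : K) := rfl

theorem intHom_injective (h : ∀ x ∈ A, algebraMap K L x ∈ B) : Function.Injective (intHom h) := by
  intro x y hxy
  have := congrArg Subtype.val hxy
  simp only [intHom_coe] at this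
  exact Subtype.ext ((algebraMap K L).injective this)

variable (hA : IsLocalRingOfIntegers A) (hB : IsLocalRingOfIntegers B)
  {π : K} (hπ : IsUniformizer A π) {ϖ : L} (hϖ : IsUniformizer B ϖ) {e : ℕ}
  (hval : B.valuation (algebraMap K L π) = B.valuation ϖ ^ e)

include hA hB hπ hϖ hval in
/-- `A ⊆ B`. -/
theorem algebraMap_mem_of_mem {x : K} (hx : x ∈ A) : algebraMap K L x ∈ B := by
  refine map_mem_of_mem hA hB.1 (algebraMap K L) hπ ?_ hx
  rw [← B.valuation_le_one_iff, hval]
  exact pow_le_one₀ (isUniformizer_val_pos hϖ).le (isUniformizer_val_lt_one hϖ).le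

include hA hB hπ hϖ hval in
/-- The image of the maximal ideal of `A` generates `𝔪_B ^ e`. -/
theorem map_maximalIdeal_eq :
    Ideal.map (intHom (fun x hx => algebraMap_mem_of_mem hA hB hπ hϖ hval hx))
      (IsLocalRing.maximalIdeal A) = IsLocalRing.maximalIdeal B ^ e := by
  haveI : IsDiscreteValuationRing A := hA.1
  haveI : IsDiscreteValuationRing B := hB.1
  obtain ⟨hπm, hπirr⟩ := hπ
  obtain ⟨hϖm, hϖirr⟩ := hϖ
  rw [hπirr.maximalIdeal_eq, hϖirr.maximalIdeal_eq, Ideal.map_span, Set.image_singleton,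
    Ideal.span_singleton_pow]
  set ι := intHom (fun x hx => algebraMap_mem_of_mem hA hB ⟨hπm, hπirr⟩ ⟨hϖm, hϖirr⟩ hval hx)
  have hne : ι ⟨π, hπm⟩ ≠ 0 := by
    intro h0
    have := (intHom_injective _) (h0.trans (map_zero ι).symm)
    exact hπirr.ne_zero this
  obtain ⟨k, u, hu⟩ := IsDiscreteValuationRing.eq_unit_mul_pow_irreducible hne hϖirr
  have hk : k = e := by
    have h1 : B.valuation (algebraMap K L π) = B.valuation ϖ ^ k := by
      have := congrArg (fun z : B => B.valuation (z : L)) hu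
      simp only [intHom_coe, ι] at this
      rw [this]
      simp only [MulMemClass.coe_mul, SubmonoidClass.coe_pow, map_mul, map_pow]
      rw [B.valuation_unit u, one_mul]
    rw [hval] at h1
    have hpos := isUniformizer_val_pos (B := B) ⟨hϖm, hϖirr⟩
    have hlt := isUniformizer_val_lt_one (B := B) ⟨hϖm, hϖirr⟩
    have := (zpow_right_inj₀ hpos hlt.ne (m := (e : ℤ)) (n := (k : ℤ))).1 (by
      rw [zpow_natCast, zpow_natCast]; exact h1)
    exact_mod_cast this.symm
  rw [hu, hk]
  exact Ideal.span_singleton_eq_span_singleton.2 ⟨u⁻¹, by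
    rw [mul_comm, ← mul_assoc, Units.inv_mul, one_mul]⟩


include hA hB hπ hϖ hval in
/-- `B` is a finitely generated `A`-module. -/
theorem module_finite_int (he : 0 < e) :
    @Module.Finite A B _ _
      (intHom (fun x hx => algebraMap_mem_of_mem hA hB hπ hϖ hval hx)).toAlgebra.toModule := by
  classical
  haveI : IsDiscreteValuationRing A := hA.1
  haveI : IsDiscreteValuationRing B := hB.1
  haveI : IsAdicComplete (IsLocalRing.maximalIdeal A) A := hA.2.1
  haveI : IsAdicComplete (IsLocalRing.maximalIdeal B) B := hB.2.1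
  haveI : Finite (IsLocalRing.ResidueField B) := hB.2.2
  set ι := intHom (fun x hx => algebraMap_mem_of_mem hA hB hπ hϖ hval hx) with hι
  letI : Algebra A B := ι.toAlgebra
  have hmap : Ideal.map ι (IsLocalRing.maximalIdeal A) = IsLocalRing.maximalIdeal B ^ e :=
    map_maximalIdeal_eq hA hB hπ hϖ hval
  haveI hfinB : Finite (B ⧸ IsLocalRing.maximalIdeal B) := hB.2.2
  haveI hfinq : Finite (B ⧸ IsLocalRing.maximalIdeal B ^ e) :=
    Ideal.finite_quotient_pow (IsNoetherian.noetherian _) e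
  obtain ⟨hπm, hπirr⟩ := hπ
  set πA : A := ⟨π, hπm⟩ with hπA
  have hmA : IsLocalRing.maximalIdeal A = Ideal.span {πA} := hπirr.maximalIdeal_eq
  have hmapspan : Ideal.map ι (IsLocalRing.maximalIdeal A) = Ideal.span {ι πA} := by
    rw [hmA, Ideal.map_span, Set.image_singleton]
  have hιπ : ι πA ∈ IsLocalRing.maximalIdeal B := by
    have h1 : ι πA ∈ Ideal.map ι (IsLocalRing.maximalIdeal A) := by
      rw [hmapspan]; exact Ideal.mem_span_singleton_self _
    rw [hmap] at h1
    exact Ideal.pow_le_self he.ne' h1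
  have hprec : IsPrecomplete (Ideal.span {πA}) A := by
    rw [← hmA]; exact IsAdicComplete.toIsPrecomplete
  have hhaus : ∀ x : B, (∀ n : ℕ, ∃ z : B, x = πA ^ n • z) → x = 0 := by
    intro x hx
    have hH : IsHausdorff (IsLocalRing.maximalIdeal B) B := IsAdicComplete.toIsHausdorff
    apply hH.haus
    intro n
    rw [SModEq.sub_mem, sub_zero, smul_eq_mul, Ideal.mul_top]
    obtain ⟨z, hz⟩ := hx n
    rw [hz, Algebra.smul_def, map_pow]
    exact Ideal.mul_mem_right _ _ (Ideal.pow_mem_pow hιπ n)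
  haveI hfinQ : Finite (B ⧸ Ideal.span {ι πA}) := by
    rw [← hmapspan, hmap]; exact hfinq
  letI : Fintype (B ⧸ Ideal.span {ι πA}) := Fintype.ofFinite _
  let s : (B ⧸ Ideal.span {ι πA}) → B := fun q => Quotient.out q
  have happrox : ∀ y : B, ∃ (a : (B ⧸ Ideal.span {ι πA}) → A) (z : B),
      y = ∑ i, a i • s i + πA • z := by
    intro y
    have h1 : y - s (Ideal.Quotient.mk _ y) ∈ Ideal.span {ι πA} := by
      rw [← Ideal.Quotient.eq]
      exact (Ideal.Quotient.mk_out _).symm
    obtain ⟨z, hz⟩ := Ideal.mem_span_singleton'.1 h1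
    refine ⟨fun q => if q = Ideal.Quotient.mk _ y then 1 else 0, z, ?_⟩
    have h2 : ∑ i, (if i = Ideal.Quotient.mk (Ideal.span {ι πA}) y then (1 : A) else 0) • s i
        = s (Ideal.Quotient.mk _ y) := by
      rw [Finset.sum_eq_single (Ideal.Quotient.mk (Ideal.span {ι πA}) y)]
      · simp
      · intro b _ hb; simp [hb]
      · intro h; exact absurd (Finset.mem_univ _) h
    rw [h2, Algebra.smul_def]
    have : (algebraMap A B) πA * z = z * ι πA := mul_comm _ _
    rw [this, hz]
    ring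
  have hspan := exists_sum_smul_eq_of_approx πA hprec hhaus s happrox
  apply Module.Finite.of_fg_top
  have : (⊤ : Submodule A B) = Submodule.span A (Set.range s) := by
    apply le_antisymm
    · intro y _
      obtain ⟨α, hα⟩ := hspan y
      rw [hα]
      exact Submodule.sum_mem _ fun i _ =>
        Submodule.smul_mem _ _ (Submodule.subset_span ⟨i, rfl⟩)
    · exact le_top
  rw [this]
  exact Submodule.fg_span (Set.finite_range s)


include hA hB hπ hϖ hval in
/-- **Fundamental identity, cardinality form**: `|k_B| ^ e = |k_A| ^ [L : K]`. -/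
theorem card_residue_pow_eq (he : 0 < e) :
    Nat.card (IsLocalRing.ResidueField B) ^ e =
      Nat.card (IsLocalRing.ResidueField A) ^ Module.finrank K L := by
  classical
  haveI : IsDiscreteValuationRing A := hA.1
  haveI : IsDiscreteValuationRing B := hB.1
  haveI : Finite (IsLocalRing.ResidueField A) := hA.2.2
  haveI : Finite (IsLocalRing.ResidueField B) := hB.2.2
  set ι := intHom (fun x hx => algebraMap_mem_of_mem hA hB hπ hϖ hval hx) with hι
  letI : Algebra A B := ι.toAlgebra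
  haveI : IsScalarTower A B L := IsScalarTower.of_algebraMap_eq (fun x => rfl)
  have hmap : Ideal.map (algebraMap A B) (IsLocalRing.maximalIdeal A)
      = IsLocalRing.maximalIdeal B ^ e := map_maximalIdeal_eq hA hB hπ hϖ hval
  haveI hfin : Module.Finite A B := module_finite_int hA hB hπ hϖ hval he
  haveI : Module.IsTorsionFree A B :=
    Module.isTorsionFree_iff_algebraMap_injective.mpr (intHom_injective _)
  haveI : Module.Free A B := Module.free_of_finite_type_torsion_free'
  have hrank : Module.finrank K L = Module.finrank A B := IsFractionRing.finrank_eq A K B L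
  -- the residue field of `A` as a field
  letI : Field (A ⧸ IsLocalRing.maximalIdeal A) :=
    inferInstanceAs (Field (IsLocalRing.ResidueField A))
  -- `|B / 𝔪_A B| = q ^ n`
  have h5 : Nat.card (B ⧸ (IsLocalRing.maximalIdeal A • ⊤ : Submodule A B)) =
      Nat.card (A ⧸ IsLocalRing.maximalIdeal A) ^ Module.finrank A B := by
    have e1 := TensorProduct.quotTensorEquivQuotSMul B (IsLocalRing.maximalIdeal A)
    rw [← Nat.card_congr e1.toEquiv,
      Module.natCard_eq_pow_finrank (K := A ⧸ IsLocalRing.maximalIdeal A), Module.finrank_baseChange]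
  -- `|B / 𝔪_A B| = |B / 𝔪_B ^ e|`
  have h6 : Nat.card (B ⧸ (IsLocalRing.maximalIdeal A • ⊤ : Submodule A B)) =
      Nat.card (B ⧸ IsLocalRing.maximalIdeal B ^ e) := by
    have e2 : (IsLocalRing.maximalIdeal A • ⊤ : Submodule A B) =
        Submodule.restrictScalars A (IsLocalRing.maximalIdeal B ^ e) := by
      rw [Ideal.smul_top_eq_map, hmap]
    rw [Nat.card_congr (Submodule.quotEquivOfEq _ _ e2).toEquiv]
    exact Nat.card_congr (Submodule.Quotient.restrictScalarsEquiv A _).toEquiv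
  have h7 : Nat.card (B ⧸ IsLocalRing.maximalIdeal B ^ e) =
      Nat.card (B ⧸ IsLocalRing.maximalIdeal B) ^ e := by
    have := cardQuot_pow_of_prime (P := IsLocalRing.maximalIdeal B)
      (IsDiscreteValuationRing.not_a_field B) (i := e)
    rwa [Submodule.cardQuot_apply, Submodule.cardQuot_apply] at this
  have h8 : Nat.card (IsLocalRing.ResidueField B) = Nat.card (B ⧸ IsLocalRing.maximalIdeal B) := rfl
  have h9 : Nat.card (IsLocalRing.ResidueField A) = Nat.card (A ⧸ IsLocalRing.maximalIdeal A) := rfl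
  rw [h8, h9, hrank, ← h7, ← h6, h5]

end

end Fermat.Agent.S55.L.H355

end
-- ===== PACK-END S55/L/H355/Fund.lean

-- ===== PACK-BEGIN S55/G/Rec/H742/WAPlaces.lean
section





/-!
# S55 / G / REC2-G3 (helper742): places of `K = ℚ̄^U` and double cosets

* `fixK U` : the fixed field of `U`; for open `U` it is a number field with group `U`.
* `exists_doubleCoset_of_inter_eq` : if the places `g • 𝔭`, `g' • 𝔭` of `ℚ̄` (`𝔭 = padicPlace p`)
  have the same trace on `K`, then `g' ∈ U g D_p`.
-/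

set_option autoImplicit false
set_option linter.style.haveILetI false

noncomputable section

namespace Fermat.Agent.S55.G.Rec.H742

open scoped Pointwise

local notation "Qb" => AlgebraicClosure ℚ
local notation "GQ" => (AlgebraicClosure ℚ ≃ₐ[ℚ] AlgebraicClosure ℚ)

/-- The fixed field of `U`. -/
def fixK (U : Subgroup GQ) : IntermediateField ℚ Qb := IntermediateField.fixedField U

theorem mem_fixK_iff {U : Subgroup GQ} {x : Qb} : x ∈ fixK U ↔ ∀ u ∈ U, u x = x := by
  unfold fixK
  rw [IntermediateField.mem_fixedField_iff]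

theorem isOpen_of_isOpenQ {U : Subgroup GQ} (hU : IsOpenQ U) : IsOpen (U : Set GQ) := by
  obtain ⟨F, hF, hFU⟩ := hU
  exact Subgroup.isOpen_mono hFU (IntermediateField.fixingSubgroup_isOpen F)

theorem fixingSubgroup_fixK {U : Subgroup GQ} (hU : IsOpenQ U) : (fixK U).fixingSubgroup = U := by
  have hcl : IsClosed (U : Set GQ) := Subgroup.isClosed_of_isOpen U (isOpen_of_isOpenQ hU)
  exact InfiniteGalois.fixingSubgroup_fixedField (⟨U, hcl⟩ : ClosedSubgroup GQ)

theorem fixK_le {U : Subgroup GQ} {F : IntermediateField ℚ Qb} (hFU : F.fixingSubgroup ≤ U) :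
    fixK U ≤ F := by
  intro x hx
  rw [← InfiniteGalois.fixedField_fixingSubgroup F, IntermediateField.mem_fixedField_iff]
  intro σ hσ
  exact mem_fixK_iff.1 hx σ (hFU hσ)

theorem finiteDimensional_fixK {U : Subgroup GQ} (hU : IsOpenQ U) :
    FiniteDimensional ℚ (fixK U) := by
  obtain ⟨F, hF, hFU⟩ := hU
  exact Module.Finite.of_injective (IntermediateField.inclusion (fixK_le hFU)).toLinearMap
    (IntermediateField.inclusion (fixK_le hFU)).injective

theorem gFixed_of_mem_fixK {U : Subgroup GQ} (a : Qbˣ) (ha : (a : Qb) ∈ fixK U) : GFixed U a := by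
  intro u hu
  apply Units.ext
  exact mem_fixK_iff.1 ha u hu

variable (p : ℕ) [Fact p.Prime]

theorem mem_smul_padicPlace_iff (g : GQ) (x : Qb) :
    x ∈ g • padicPlace p ↔ ‖padicEmbedding p (g⁻¹ x)‖ ≤ 1 := by
  rw [ValuationSubring.mem_pointwise_smul_iff_inv_smul_mem]
  exact Bridge.mem_padicPlace_iff_norm p

theorem natCast_mem_nonunits_smul (g : GQ) : ((p : ℕ) : Qb) ∈ (g • padicPlace p).nonunits := by
  have hp : (p : ℕ).Prime := Fact.out
  rw [ValuationSubring.mem_nonunits_iff_or]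
  right
  rw [mem_smul_padicPlace_iff, map_inv₀, map_natCast, map_inv₀, norm_inv, not_le]
  have h := Bridge.norm_padicEmbedding_natCast_self p
  rw [h, inv_inv]
  exact_mod_cast hp.one_lt

/-- If the places `g • 𝔭` and `g' • 𝔭` have the same trace on `K = ℚ̄^U` then `g' ∈ U g D_p`. -/
theorem exists_doubleCoset_of_inter_eq {U : Subgroup GQ} (hU : IsOpenQ U) (g g' : GQ)
    (h : ∀ x ∈ fixK U, ‖padicEmbedding p (g⁻¹ x)‖ ≤ 1 ↔ ‖padicEmbedding p (g'⁻¹ x)‖ ≤ 1) :
    ∃ u ∈ U, ∃ d ∈ (localGaloisToGlobal p).range, g' = u * g * d := by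
  have hp : (p : ℕ).Prime := Fact.out
  obtain ⟨ρ, hρ, hρA⟩ := Fermat.Agent.S14.H714.exists_smul_eq_of_inter_eq (F := fixK U)
    (A := g • padicPlace p) (A' := g' • padicPlace p) hp (natCast_mem_nonunits_smul p g)
    (natCast_mem_nonunits_smul p g') (fun x hx => by
      rw [mem_smul_padicPlace_iff, mem_smul_padicPlace_iff]
      exact h x hx)
  rw [fixingSubgroup_fixK hU] at hρ
  have hd : g⁻¹ * ρ * g' ∈ (padicPlace p).decompositionSubgroup ℚ := by
    rw [MulAction.mem_stabilizer_iff, mul_smul, mul_smul, hρA, inv_smul_smul]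
  rw [← Bridge.range_localGaloisToGlobal] at hd
  refine ⟨ρ⁻¹, U.inv_mem hρ, g⁻¹ * ρ * g', hd, ?_⟩
  group

end Fermat.Agent.S55.G.Rec.H742

end
end
-- ===== PACK-END S55/G/Rec/H742/WAPlaces.lean

-- ===== PACK-BEGIN S55/G/Rec/LocResH496.lean
section


/-!
# S55 / layer G / block REC, leaf G5 (helper496): localisation commutes with restriction
-/

set_option autoImplicit false

noncomputable section

namespace Fermat.Agent.S55.G.Rec.H496

open groupCohomology Fermat.Agent.S55.G.Rec

local notation "Qb" => AlgebraicClosure ℚ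
local notation "GQ" => (AlgebraicClosure ℚ ≃ₐ[ℚ] AlgebraicClosure ℚ)

/-- **(G5)** localisation commutes with restriction. -/
theorem locRes : LocResSpec := by
  intro q _ g U U' h x
  obtain ⟨c, rfl⟩ := Submodule.mkQ_surjective _ x
  rfl

end Fermat.Agent.S55.G.Rec.H496

end
end
-- ===== PACK-END S55/G/Rec/LocResH496.lean

-- ===== PACK-BEGIN S55/G/Rec/H124/ProductFormula.lean
section


/-!
# S55 / layer G / block REC : (G1b) the product formula in degree-valuation form

`theorem productFormula_of (h1 : OrbitNormSpec) (hv : VdegSpec) : ProductFormulaSpec`.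

Take norms in `ι_q (N_{K/ℚ} a) = ∏_{v | q} N_{K_v/ℚ_q} (a_v)` (G1): the left side has norm
`q ^ (- v_q (y))`, the norm of a local relative norm is `‖a_v‖ ^ [G_{ℚ_q} : V]` (Galois invariance
of the norm of `PadicAlgCl q`), which is `q ^ (- vdeg)` by (L1).

Auxiliary results of independent use:
* `isOpenL_locSub124` : the decomposition-type subgroups of an open subgroup are open,
* `lFixed_locPushMul124` : the local image of a `U`-fixed element is fixed by `locSub q g U`,
* `finiteIndex_of_isOpenL124`, `norm_relNorm124`.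
-/

set_option autoImplicit false

noncomputable section

namespace Fermat.Agent.S55.G.Rec.H124

open Fermat.Agent.S55.G.Rec

local notation "Qb" => AlgebraicClosure ℚ
local notation "GQ" => (AlgebraicClosure ℚ ≃ₐ[ℚ] AlgebraicClosure ℚ)

section Local

variable (q : ℕ) [Fact q.Prime]

local notation "Gq" => (PadicAlgCl q ≃ₐ[ℚ_[q]] PadicAlgCl q)

/-- Galois invariance of the norm of `PadicAlgCl q`. -/
lemma norm_algEquiv124 (τ : Gq) (y : PadicAlgCl q) : ‖τ y‖ = ‖y‖ :=
  (spectralNorm_eq_of_equiv τ y).symm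

/-- An open subgroup of `G_{ℚ_q}` has finite index. -/
lemma finiteIndex_of_isOpenL124 {V : Subgroup Gq} (hV : IsOpenL q V) : V.FiniteIndex := by
  obtain ⟨E, hE, hEV⟩ := hV
  have := hE
  have h1 : E.fixingSubgroup.FiniteIndex := by
    refine ⟨?_⟩
    rw [← IntermediateField.finrank_eq_fixingSubgroup_index]
    exact Module.finrank_pos.ne'
  exact Subgroup.finiteIndex_of_le hEV

/-- The norm of a relative norm is the `index`-th power of the norm. -/
lemma norm_relNorm124 {V : Subgroup Gq} (hV : V.FiniteIndex) (b : (PadicAlgCl q)ˣ) :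
    ‖((relNorm V b : (PadicAlgCl q)ˣ) : PadicAlgCl q)‖ = ‖(b : PadicAlgCl q)‖ ^ V.index := by
  classical
  have : Finite (Gq ⧸ V) := Subgroup.finite_quotient_of_finiteIndex
  have : Fintype (Gq ⧸ V) := Fintype.ofFinite _
  unfold relNorm
  rw [finprod_eq_prod_of_fintype, Units.coe_prod, norm_prod]
  have h : ∀ t : Gq ⧸ V,
      ‖(((Quotient.out t : Gq) • b : (PadicAlgCl q)ˣ) : PadicAlgCl q)‖ = ‖(b : PadicAlgCl q)‖ :=
    fun t => norm_algEquiv124 q _ _
  simp only [h, Finset.prod_const, Finset.card_univ]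
  rw [Subgroup.index_eq_card, Nat.card_eq_fintype_card]

/-- The local image of a `U`-fixed element is fixed by `locSub q g U`. -/
lemma lFixed_locPushMul124 {U : Subgroup GQ} {a : Qbˣ} (ha : GFixed U a) (g : GQ) :
    LFixed q (locSub q g U) (locPushMul q g a) := by
  intro τ hτ
  apply Units.ext
  show τ (padicEmbedding q (g⁻¹ (a : Qb))) = padicEmbedding q (g⁻¹ (a : Qb))
  rw [← padicEmbedding_localGaloisToGlobal]
  congr 1
  have h := ha _ (mem_locSub.1 hτ)
  have h2 : (g * localGaloisToGlobal q τ * g⁻¹) (a : Qb) = a := congrArg Units.val h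
  have h3 : g (localGaloisToGlobal q τ ((g⁻¹ : GQ) (a : Qb))) = a := h2
  have h4 := congrArg (g⁻¹ : GQ) h3
  rwa [show (g⁻¹ : GQ) (g (localGaloisToGlobal q τ ((g⁻¹ : GQ) (a : Qb)))) =
    localGaloisToGlobal q τ ((g⁻¹ : GQ) (a : Qb)) from AlgEquiv.symm_apply_apply g _] at h4

/-- The decomposition-type subgroups of an open subgroup of `G_ℚ` are open. -/
lemma isOpenL_locSub124 {U : Subgroup GQ} (hU : IsOpenQ U) (g : GQ) :
    IsOpenL q (locSub q g U) := by
  obtain ⟨F, hF, hFU⟩ := hU
  have := hF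
  let pb : PowerBasis ℚ F := Field.powerBasisOfFiniteOfSeparable ℚ F
  let β : PadicAlgCl q := padicEmbedding q ((g⁻¹ : GQ) (pb.gen : Qb))
  refine ⟨IntermediateField.adjoin ℚ_[q] {β},
    IntermediateField.adjoin.finiteDimensional (Algebra.IsIntegral.isIntegral β), ?_⟩
  intro τ hτ
  rw [mem_locSub]
  apply hFU
  rw [IntermediateField.mem_fixingSubgroup_iff]
  have hβ : τ β = β :=
    (IntermediateField.mem_fixingSubgroup_iff _ _).1 hτ β
      (IntermediateField.mem_adjoin_simple_self _ _)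
  have h1 : localGaloisToGlobal q τ ((g⁻¹ : GQ) (pb.gen : Qb)) = (g⁻¹ : GQ) (pb.gen : Qb) := by
    apply (padicEmbedding q).toRingHom.injective
    show padicEmbedding q _ = padicEmbedding q _
    rw [padicEmbedding_localGaloisToGlobal]
    exact hβ
  have hα : (g * localGaloisToGlobal q τ * g⁻¹) (pb.gen : Qb) = (pb.gen : Qb) := by
    show g (localGaloisToGlobal q τ ((g⁻¹ : GQ) (pb.gen : Qb))) = (pb.gen : Qb)
    rw [h1]
    exact AlgEquiv.apply_symm_apply g _
  have key : ((g * localGaloisToGlobal q τ * g⁻¹ : GQ) : Qb →ₐ[ℚ] Qb).comp F.val = F.val :=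
    pb.algHom_ext hα
  intro x hx
  exact DFunLike.congr_fun key ⟨x, hx⟩

end Local

/-- `a ^ (∑ f) = ∏ a ^ f` for integer exponents. -/
lemma zpow_sum124 {ι : Type*} (s : Finset ι) (f : ι → ℤ) {x : ℝ} (hx : x ≠ 0) :
    x ^ (∑ i ∈ s, f i) = ∏ i ∈ s, x ^ f i := by
  classical
  induction s using Finset.induction_on with
  | empty => simp
  | insert i s hi ih => rw [Finset.sum_insert hi, Finset.prod_insert hi, zpow_add₀ hx, ih]

/-- **(G1b)** the product formula in degree-valuation form. -/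
theorem productFormula_of (h1 : OrbitNormSpec) (hv : VdegSpec) : ProductFormulaSpec := by
  intro U hU a ha y hy q _ R hR
  have hprod := (h1 U hU a ha).2 q R hR
  have hq1 : (1 : ℝ) < (q : ℝ) := by exact_mod_cast (Fact.out : q.Prime).one_lt
  have hq0 : (q : ℝ) ≠ 0 := by positivity
  -- the left side
  have hL : ‖((locPushMul q 1 (relNorm U a) : (PadicAlgCl q)ˣ) : PadicAlgCl q)‖ =
      (q : ℝ) ^ (-padicValRat q (y : ℚ)) := by
    rw [locPushMul_coe, inv_one]
    show ‖padicEmbedding q ((relNorm U a : Qbˣ) : Qb)‖ = _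
    rw [hy, AlgHom.commutes, IsScalarTower.algebraMap_apply ℚ ℚ_[q] (PadicAlgCl q),
      PadicAlgCl.norm_extends]
    rw [show (algebraMap ℚ ℚ_[q] (y : ℚ)) = (((y : ℚ)) : ℚ_[q]) from rfl,
      Padic.eq_padicNorm, padicNorm.eq_zpow_of_nonzero (Units.ne_zero y)]
    push_cast
    rfl
  -- the right side
  have hR' : ‖((∏ r ∈ R, relNorm (locSub q r U) (locPushMul q r a) : (PadicAlgCl q)ˣ) :
      PadicAlgCl q)‖ = (q : ℝ) ^ (-∑ r ∈ R, vdeg q (locSub q r U) (locPushMul q r a)) := by
    rw [Units.coe_prod, norm_prod, ← Finset.sum_neg_distrib, zpow_sum124 _ _ hq0]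
    refine Finset.prod_congr rfl fun r _ => ?_
    have hO := isOpenL_locSub124 q hU r
    rw [norm_relNorm124 q (finiteIndex_of_isOpenL124 q hO)]
    exact hv q (locSub q r U) hO _ (lFixed_locPushMul124 q ha r)
  rw [hprod, hR'] at hL
  have h := zpow_right_injective₀ (by positivity : (0 : ℝ) < q) hq1.ne' hL
  exact (neg_injective h).symm

end Fermat.Agent.S55.G.Rec.H124

end
end
-- ===== PACK-END S55/G/Rec/H124/ProductFormula.lean

-- ===== PACK-BEGIN S55/G/Rec/HP/Glue.lean
section


/-!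
# S55 / layer G / block REC / adapter HP : assembly

`hassePrinciple_of : HasseFinSpec p → GlobalDescentSpec → GlobalUpSpec → LocalGlueSpec →
    HassePrincipleSpec p`.
-/

set_option autoImplicit false

noncomputable section

namespace Fermat.Agent.S55.G.Rec.HP

open groupCohomology

local notation "Qb" => AlgebraicClosure ℚ
local notation "GQ" => (AlgebraicClosure ℚ ≃ₐ[ℚ] AlgebraicClosure ℚ)

/-- A finite extension of `ℚ` inside `ℚ̄` containing a primitive `p`-th root of unity. -/
lemma exists_level_primitiveRoot (p : ℕ) (hp : p ≠ 0) :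
    ∃ (F₁ : IntermediateField ℚ Qb) (ζ : Qb), FiniteDimensional ℚ F₁ ∧ ζ ∈ F₁ ∧
      IsPrimitiveRoot ζ p := by
  have : NeZero p := ⟨hp⟩
  have : NeZero ((p : ℕ) : Qb) := ⟨by exact_mod_cast hp⟩
  obtain ⟨ζ, hζ⟩ := HasEnoughRootsOfUnity.exists_primitiveRoot Qb p
  have hint : IsIntegral ℚ ζ := (hζ.isIntegral (Nat.pos_of_ne_zero hp)).tower_top
  refine ⟨IntermediateField.adjoin ℚ {ζ}, ζ, ?_, ?_, hζ⟩
  · exact IntermediateField.adjoin.finiteDimensional hint
  · exact IntermediateField.mem_adjoin_simple_self ℚ ζ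

/-- **HP, assembly.** -/
theorem hassePrinciple_of (p : ℕ) [hp : Fact p.Prime] (hFin : HasseFinSpec p)
    (hGD : GlobalDescentSpec) (hUp : GlobalUpSpec) (hLG : LocalGlueSpec) :
    HassePrincipleSpec p := by
  intro U hU x hx hloc
  obtain ⟨c, rfl⟩ := Submodule.mkQ_surjective _ x
  obtain ⟨k, hk⟩ := hx
  obtain ⟨F₁, ζ, hF₁, hζF₁, hζ⟩ := exists_level_primitiveRoot p hp.out.ne_zero
  obtain ⟨F, hFfin, hFnorm, f, hF₁F, hFU, hinf, htors⟩ := hGD U hU c (p ^ k) hk F₁ hF₁
  have := hFfin
  have := hFnorm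
  have hζ' : ∃ ζ' : ↥F, IsPrimitiveRoot ζ' p := by
    refine ⟨⟨ζ, hF₁F hζF₁⟩, ?_⟩
    have hinj : Function.Injective (algebraMap F Qb) := (algebraMap F Qb).injective
    exact IsPrimitiveRoot.of_map_of_injective (f := algebraMap F Qb) (by simpa using hζ) hinj
  have hfin : (H2π (G.LRep ↥(lvlGal U F) ↥F)).hom f = 0 := by
    refine hFin ↥(lvlGal U F) ↥F hζ' _ ⟨k, htors⟩ ?_
    exact hLG U F hFU f c hinf (fun q _ g => hloc q g)
  exact hUp U F hFU f c hinf hfin

end Fermat.Agent.S55.G.Rec.HP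

end
end
-- ===== PACK-END S55/G/Rec/HP/Glue.lean

-- ===== PACK-BEGIN S55/G/Rec/HP/DescH126.lean
section


/-!
# S55 / G / REC / HP, leaf HP-GD (helper126): `globalUp : GlobalUpSpec`,
`globalDescent : GlobalDescentSpec`

Dictionary between level cocycles on an open `U ≤ G_ℚ` with values in `ℚ̄ˣ` and cocycles of the
finite group `lvlGal U F` with values in `Fˣ`, `F/ℚ` finite normal with `G_F ≤ U`.
-/

set_option autoImplicit false

noncomputable section

namespace Fermat.Agent.S55.G.Rec.HP.H126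

open groupCohomology Fermat.Agent.S55.G.Rec Fermat.Agent.S55.G.Rec.HP

local notation "Qb" => AlgebraicClosure ℚ
local notation "GQ" => (AlgebraicClosure ℚ ≃ₐ[ℚ] AlgebraicClosure ℚ)

section Up

variable (U : Subgroup GQ) (F : IntermediateField ℚ Qb) [Normal ℚ F]

/-- The inclusion `Fˣ → ℚ̄ˣ` as a linear map of the underlying modules. -/
def inclLinG : (G.LRep ↥(lvlGal U F) ↥F) →ₗ[ℤ] gModOn U :=
  (MonoidHom.toAdditive (unitsInclG F)).toIntLinearMap

lemma inclLinG_apply (x : G.LRep ↥(lvlGal U F) ↥F) :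
    inclLinG U F x = Additive.ofMul (unitsInclG F (Additive.toMul x)) := rfl

lemma inclLinG_injective : Function.Injective (inclLinG U F) := by
  intro x y h
  apply Additive.toMul.injective
  apply Units.ext
  apply Subtype.ext
  have h2 := congrArg (fun z : gModOn U => ((Additive.toMul z : Qbˣ) : Qb)) h
  exact h2

/-- the inclusion `Fˣ → ℚ̄ˣ` is equivariant along `lvlHom` -/
lemma inclLinG_equivariant (u : ↥U) (x : G.LRep ↥(lvlGal U F) ↥F) :
    inclLinG U F ((G.LRep ↥(lvlGal U F) ↥F).ρ (lvlHom U F u) x) =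
      (gModOn U).ρ u (inclLinG U F x) := by
  apply Additive.toMul.injective
  apply Units.ext
  exact lvlHom_smul_coe U F u _

lemma gInflCochain₁_eq (b : ↥(lvlGal U F) → Additive (↥F)ˣ) :
    gInflCochain₁ U F b = cochainsPullPush₁ (lvlHom U F) (inclLinG U F) b := rfl

lemma gInflCochain₂_eq (f : ↥(lvlGal U F) × ↥(lvlGal U F) → Additive (↥F)ˣ) :
    gInflCochain₂ U F f = cochainsPullPush₂ (lvlHom U F) (inclLinG U F) f := rfl

/-- inflation commutes with the differential -/
theorem gInflCochain₂_d₁₂ (b : ↥(lvlGal U F) → Additive (↥F)ˣ) :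
    gInflCochain₂ U F ((d₁₂ (G.LRep ↥(lvlGal U F) ↥F)).hom b) =
      (d₁₂ (gModOn U)).hom (gInflCochain₁ U F b) := by
  rw [gInflCochain₂_eq, gInflCochain₁_eq]
  exact cochainsPullPush₂_d₁₂ (lvlHom U F) (inclLinG U F) (inclLinG_equivariant U F) b

/-- an element of `U` fixing `F` pointwise has trivial image in `lvlGal U F` -/
lemma lvlHom_eq_one_of_mem {s : ↥U} (hs : (s : GQ) ∈ F.fixingSubgroup) : lvlHom U F s = 1 := by
  apply Subtype.ext
  ext x
  rw [lvlHom_coe, lvlRes_apply_coe]
  exact (IntermediateField.mem_fixingSubgroup_iff F _).1 hs x x.2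

lemma mem_fixingSubgroup_of_lvlHom_eq_one {s : ↥U} (hs : lvlHom U F s = 1) :
    (s : GQ) ∈ F.fixingSubgroup := by
  rw [IntermediateField.mem_fixingSubgroup_iff]
  intro x hx
  have h1 := lvlRes_apply_coe U F s ⟨x, hx⟩
  have h2 : lvlRes U F s = 1 := by
    have := congrArg Subtype.val hs
    simpa using this
  rw [h2] at h1
  exact h1.symm

theorem isLevelConstant₁_gInflCochain₁ [FiniteDimensional ℚ F]
    (b : ↥(lvlGal U F) → Additive (↥F)ˣ) :
    IsLevelConstant₁ U.subtype (gInflCochain₁ U F b) := by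
  refine ⟨F, inferInstance, fun g s hs => ?_⟩
  unfold gInflCochain₁
  rw [map_mul, lvlHom_eq_one_of_mem U F hs, mul_one]

theorem isLevelConstant₂_gInflCochain₂ [FiniteDimensional ℚ F]
    (f : ↥(lvlGal U F) × ↥(lvlGal U F) → Additive (↥F)ˣ) :
    IsLevelConstant₂ U.subtype (gInflCochain₂ U F f) := by
  refine ⟨F, inferInstance, fun g g' s s' hs hs' => ?_⟩
  unfold gInflCochain₂
  simp only []
  rw [map_mul, map_mul, lvlHom_eq_one_of_mem U F hs, lvlHom_eq_one_of_mem U F hs', mul_one,
    mul_one]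

end Up

/-- **HP-UP.** -/
theorem globalUp : GlobalUpSpec := by
  intro U F _ _ _ f c hinf hcls
  have hf : (f : ↥(lvlGal U F) × ↥(lvlGal U F) → Additive (↥F)ˣ) ∈
      coboundaries₂ (G.LRep ↥(lvlGal U F) ↥F) := (H2π_eq_zero_iff f).mp hcls
  obtain ⟨b, hb⟩ := hf
  rw [continuousH2π_eq_zero_iff, mem_levelCoboundaries₂_iff]
  refine ⟨gInflCochain₁ U F b, isLevelConstant₁_gInflCochain₁ U F b, ?_⟩
  rw [hinf, ← gInflCochain₂_d₁₂, hb]

section Descent

/-- `ℚ̄/ℚ` is algebraic (for the `Algebra ℚ ℚ̄` instance found by instance search). -/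
theorem isAlgebraic_Qb : Algebra.IsAlgebraic ℚ Qb :=
  AlgebraicClosure.isAlgebraic ℚ

/-- `ℚ̄/ℚ` is normal (for the `Algebra ℚ ℚ̄` instance found by instance search). -/
theorem normal_Qb : Normal ℚ Qb := by
  haveI : Algebra.IsAlgebraic ℚ Qb := isAlgebraic_Qb
  haveI : IsAlgClosure ℚ Qb := ⟨inferInstance, inferInstance⟩
  exact IsAlgClosure.normal ℚ Qb

/-- `ℚ̄/ℚ` is Galois (for the `Algebra ℚ ℚ̄` instance found by instance search). -/
theorem isGalois_Qb : IsGalois ℚ Qb := by
  haveI : Algebra.IsAlgebraic ℚ Qb := isAlgebraic_Qb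
  haveI : Normal ℚ Qb := _root_.Fermat.Agent.S55.G.Rec.HP.H126.normal_Qb
  exact isGalois_iff.mpr ⟨inferInstance, inferInstance⟩

attribute [local instance] isAlgebraic_Qb _root_.Fermat.Agent.S55.G.Rec.HP.H126.normal_Qb isGalois_Qb

variable (U : Subgroup GQ) (F : IntermediateField ℚ Qb) [Normal ℚ F]

/-- two elements of `U` with the same image in `lvlGal U F` differ by an element fixing `F` -/
lemma exists_mul_of_lvlHom_eq {u u' : ↥U} (h : lvlHom U F u = lvlHom U F u') :
    ∃ s : ↥U, (s : GQ) ∈ F.fixingSubgroup ∧ u' = u * s := by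
  refine ⟨u⁻¹ * u', mem_fixingSubgroup_of_lvlHom_eq_one U F ?_, by group⟩
  rw [map_mul, map_inv, h, inv_mul_cancel]

/-- an element of `ℚ̄ˣ` fixed by `G_F ≤ U` comes from `Fˣ` -/
lemma exists_inclLinG_eq (hFU : F.fixingSubgroup ≤ U) (a : gModOn U)
    (ha : ∀ s : ↥U, (s : GQ) ∈ F.fixingSubgroup → (gModOn U).ρ s a = a) :
    ∃ y : G.LRep ↥(lvlGal U F) ↥F, inclLinG U F y = a := by
  have hmem : ((Additive.toMul a : Qbˣ) : Qb) ∈ F := by
    rw [← InfiniteGalois.fixedField_fixingSubgroup F, IntermediateField.mem_fixedField_iff]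
    intro s hs
    have h1 := ha ⟨s, hFU hs⟩ hs
    have h2 := congrArg (fun z : gModOn U => ((Additive.toMul z : Qbˣ) : Qb)) h1
    exact h2
  have h0 : (⟨_, hmem⟩ : F) ≠ 0 := by
    intro h
    have := congrArg Subtype.val h
    exact (Additive.toMul a : Qbˣ).ne_zero this
  refine ⟨Additive.ofMul (Units.mk0 ⟨_, hmem⟩ h0), ?_⟩
  apply Additive.toMul.injective
  apply Units.ext
  rfl

/-- inflation of 2-cochains is injective -/
lemma gInflCochain₂_injective
    (f₁ f₂ : ↥(lvlGal U F) × ↥(lvlGal U F) → Additive (↥F)ˣ)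
    (h : gInflCochain₂ U F f₁ = gInflCochain₂ U F f₂) : f₁ = f₂ := by
  funext ⟨σ, τ⟩
  obtain ⟨u, rfl⟩ := lvlHom_surjective U F σ
  obtain ⟨v, rfl⟩ := lvlHom_surjective U F τ
  exact inclLinG_injective U F (congrFun h (u, v))

end Descent

/-- **HP-GD.** -/
theorem globalDescent : GlobalDescentSpec := by
  haveI : Algebra.IsAlgebraic ℚ Qb := isAlgebraic_Qb
  haveI : Normal ℚ Qb := _root_.Fermat.Agent.S55.G.Rec.HP.H126.normal_Qb
  intro U hU c n hn F₁ hF₁
  obtain ⟨F₀, hF₀, hF₀U⟩ := hU
  obtain ⟨hcoc, Fc, hFc, hc⟩ := c.2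
  have hnc : ((n • c : ↥(levelCocycles₂ U.subtype (gModOn U))) : ↥U × ↥U → gModOn U) ∈
      levelCoboundaries₂ U.subtype (gModOn U) := by
    rw [← continuousH2π_eq_zero_iff, map_nsmul]
    exact hn
  obtain ⟨b, ⟨Fb, hFb, hb⟩, hdb⟩ := (mem_levelCoboundaries₂_iff _ _ _).1 hnc
  -- the level
  haveI := hF₀; haveI := hF₁; haveI := hFc; haveI := hFb
  let E : IntermediateField ℚ Qb := F₀ ⊔ F₁ ⊔ Fc ⊔ Fb
  let F : IntermediateField ℚ Qb := IntermediateField.normalClosure ℚ E Qb
  haveI : FiniteDimensional ℚ F := normalClosure.is_finiteDimensional ℚ E Qb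
  haveI : Normal ℚ F := normalClosure.normal ℚ E Qb
  have hEF : E ≤ F := IntermediateField.le_normalClosure E
  have hF₀F : F₀ ≤ F := ((le_sup_left.trans le_sup_left).trans le_sup_left).trans hEF
  have hF₁F : F₁ ≤ F := ((le_sup_right.trans le_sup_left).trans le_sup_left).trans hEF
  have hFcF : Fc ≤ F := (le_sup_right.trans le_sup_left).trans hEF
  have hFbF : Fb ≤ F := le_sup_right.trans hEF
  have hFU : F.fixingSubgroup ≤ U :=
    le_trans (IntermediateField.fixingSubgroup_antitone hF₀F) hF₀U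
  -- `c` and `b` depend only on the images in `lvlGal U F`
  have hc1 : ∀ u₁ u₂ u₁' u₂' : ↥U, lvlHom U F u₁ = lvlHom U F u₁' →
      lvlHom U F u₂ = lvlHom U F u₂' →
      (c : ↥U × ↥U → gModOn U) (u₁', u₂') = (c : ↥U × ↥U → gModOn U) (u₁, u₂) := by
    intro u₁ u₂ u₁' u₂' h₁ h₂
    obtain ⟨s₁, hs₁, rfl⟩ := exists_mul_of_lvlHom_eq U F h₁
    obtain ⟨s₂, hs₂, rfl⟩ := exists_mul_of_lvlHom_eq U F h₂
    exact hc u₁ u₂ s₁ s₂ (IntermediateField.fixingSubgroup_antitone hFcF hs₁)
      (IntermediateField.fixingSubgroup_antitone hFcF hs₂)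
  have hb1 : ∀ u u' : ↥U, lvlHom U F u = lvlHom U F u' → b u' = b u := by
    intro u u' h
    obtain ⟨s, hs, rfl⟩ := exists_mul_of_lvlHom_eq U F h
    exact hb u s (IntermediateField.fixingSubgroup_antitone hFbF hs)
  have hcoc' := (mem_cocycles₂_iff _).1 hcoc
  -- the values of `c` are fixed by `G_F`
  have hcfix : ∀ s : ↥U, (s : GQ) ∈ F.fixingSubgroup → ∀ h j : ↥U,
      (gModOn U).ρ s ((c : ↥U × ↥U → gModOn U) (h, j)) = (c : ↥U × ↥U → gModOn U) (h, j) := by
    intro s hs h j
    have hs1 : lvlHom U F s = 1 := lvlHom_eq_one_of_mem U F hs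
    have e1 := hcoc' s h j
    have e2 := hcoc' 1 h j
    rw [hc1 h j (s * h) j (by rw [map_mul, hs1, one_mul]) rfl,
      hc1 1 h s h (by rw [map_one, hs1]) rfl,
      hc1 1 (h * j) s (h * j) (by rw [map_one, hs1]) rfl] at e1
    rw [one_mul, map_one, Module.End.one_apply] at e2
    have e3 := add_left_cancel e2
    rw [e3] at e1
    exact (add_right_cancel e1).symm
  -- the values of `b` are fixed by `G_F`
  have hdb2 : ∀ g h : ↥U, (gModOn U).ρ g (b h) - b (g * h) + b g =
      n • (c : ↥U × ↥U → gModOn U) (g, h) := by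
    intro g h
    have := congrFun hdb (g, h)
    rw [d₁₂_hom_apply] at this
    exact this
  have hbfix : ∀ s : ↥U, (s : GQ) ∈ F.fixingSubgroup → ∀ h : ↥U,
      (gModOn U).ρ s (b h) = b h := by
    intro s hs h
    have hs1 : lvlHom U F s = 1 := lvlHom_eq_one_of_mem U F hs
    have e1 := hdb2 s h
    have e2 := hdb2 1 h
    rw [hb1 h (s * h) (by rw [map_mul, hs1, one_mul]), hb1 1 s (by rw [map_one, hs1]),
      hc1 1 h s h (by rw [map_one, hs1]) rfl, ← e2] at e1
    rw [one_mul, map_one, Module.End.one_apply] at e1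
    have e3 := add_right_cancel e1
    exact sub_left_injective e3
  -- descent of `c` and `b`
  let lift : ↥(lvlGal U F) → ↥U := Function.surjInv (lvlHom_surjective U F)
  have hlift : ∀ σ, lvlHom U F (lift σ) = σ := Function.surjInv_eq (lvlHom_surjective U F)
  have hexf : ∀ p : ↥(lvlGal U F) × ↥(lvlGal U F), ∃ y : G.LRep ↥(lvlGal U F) ↥F,
      inclLinG U F y = (c : ↥U × ↥U → gModOn U) (lift p.1, lift p.2) :=
    fun p => exists_inclLinG_eq U F hFU _ (fun s hs => hcfix s hs _ _)
  choose f hf using hexf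
  have hexb : ∀ σ : ↥(lvlGal U F), ∃ y : G.LRep ↥(lvlGal U F) ↥F,
      inclLinG U F y = b (lift σ) :=
    fun σ => exists_inclLinG_eq U F hFU _ (fun s hs => hbfix s hs _)
  choose b' hb' using hexb
  have hfc : ∀ u v : ↥U, inclLinG U F (f (lvlHom U F u, lvlHom U F v)) =
      (c : ↥U × ↥U → gModOn U) (u, v) := by
    intro u v
    rw [hf]
    exact hc1 u v _ _ (hlift _).symm (hlift _).symm
  have hbb : ∀ u : ↥U, inclLinG U F (b' (lvlHom U F u)) = b u := by
    intro u
    rw [hb']
    exact hb1 u _ (hlift _).symm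
  have hinf : (c : ↥U × ↥U → gModOn U) = gInflCochain₂ U F f := by
    funext ⟨u, v⟩
    exact (hfc u v).symm
  have hinfb : b = gInflCochain₁ U F b' := by
    funext u
    exact (hbb u).symm
  -- `f` is a cocycle
  have hfcoc : f ∈ cocycles₂ (G.LRep ↥(lvlGal U F) ↥F) := by
    rw [mem_cocycles₂_iff]
    intro σ τ υ
    obtain ⟨u, rfl⟩ := lvlHom_surjective U F σ
    obtain ⟨v, rfl⟩ := lvlHom_surjective U F τ
    obtain ⟨w, rfl⟩ := lvlHom_surjective U F υ
    apply inclLinG_injective U F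
    rw [map_add, map_add, inclLinG_equivariant, ← map_mul, ← map_mul, hfc, hfc, hfc, hfc]
    exact hcoc' u v w
  -- `d b' = n • f`
  have hdb' : (d₁₂ (G.LRep ↥(lvlGal U F) ↥F)).hom b' = n • f := by
    apply gInflCochain₂_injective U F
    rw [gInflCochain₂_d₁₂, ← hinfb, hdb, gInflCochain₂_eq, map_nsmul, ← gInflCochain₂_eq, ← hinf]
    rfl
  refine ⟨F, inferInstance, inferInstance, ⟨f, hfcoc⟩, hF₁F, hFU, hinf, ?_⟩
  rw [← map_nsmul, H2π_eq_zero_iff]
  exact ⟨b', hdb'⟩

end Fermat.Agent.S55.G.Rec.HP.H126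

end
end
-- ===== PACK-END S55/G/Rec/HP/DescH126.lean

-- ===== PACK-BEGIN S55/Local/H535/A4b.lean
section


/-!
# S55 layer L, piece A4b (`CycCocycleCoboundaryIffStatement`) — helper535

The standard cyclic `2`-cocycle of `x` is a coboundary iff `x` is a norm.
-/

set_option autoImplicit false

namespace Fermat.Agent.S55.Local.H535

open Fermat.Agent.S55.Local groupCohomology Finset

section

variable {G M : Type} [Group G] [CommGroup M] [MulDistribMulAction G M]

/-- Partial norm `∏_{k<m} σ^k • y`. -/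
def partialNorm (σ : G) (y : M) (m : ℕ) : M := ∏ k ∈ range m, σ ^ k • y

lemma partialNorm_add (σ : G) (y : M) (a b : ℕ) :
    partialNorm σ y (a + b) = partialNorm σ y a * σ ^ a • partialNorm σ y b := by
  unfold partialNorm
  rw [prod_range_add, smul_prod']
  congr 1
  apply prod_congr rfl
  intro k _
  rw [pow_add, mul_smul]

lemma div_one_case {n a : ℕ} (h1 : n ≤ a) (h2 : a < 2 * n) : a / n = 1 := by
  apply Nat.div_eq_of_lt_le
  · simpa using h1
  · simpa [two_mul] using h2

lemma mod_one_case {n a : ℕ} (h1 : n ≤ a) (h2 : a < 2 * n) : a % n = a - n := by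
  rw [Nat.mod_eq_sub_mod h1]
  apply Nat.mod_eq_of_lt
  omega

end

/-- **A4b.** The standard cyclic `2`-cocycle of `x` is a coboundary iff `x` is a norm. -/
theorem cycCocycleCoboundaryIff :
    Fermat.Agent.S55.Local.CycCocycleCoboundaryIffStatement := by
  intro G M _ _ _ _ σ hσ x hx
  have hn : 0 < Nat.card G := Nat.card_pos
  have hinv : ∀ (g : G) (m : ℕ), g • x ^ m = x ^ m := fun g m => by
    rw [smul_pow', smul_eq_of_generator hσ hx]
  constructor
  · -- coboundary ⇒ norm
    rintro ⟨b, hb⟩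
    rcases Nat.lt_or_ge (Nat.card G) 2 with h1 | h2
    · -- trivial group
      have hc : Nat.card G = 1 := by omega
      refine ⟨x, ?_⟩
      rw [prod_univ_eq_prod_range hσ, hc]
      simp
    · refine ⟨b σ, ?_⟩
      have hrel : ∀ g : G, g • b σ = cycCocycle σ x (g, σ) * b (g * σ) / b g := by
        intro g
        rw [← hb g σ]
        apply Additive.ofMul.injective
        simp only [ofMul_mul, ofMul_div]
        abel
      have hshift : ∏ g : G, b (g * σ) = ∏ g : G, b g :=
        Equiv.prod_comp (Equiv.mulRight σ) b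
      calc ∏ g : G, g • b σ = ∏ g : G, (cycCocycle σ x (g, σ) * b (g * σ) / b g) :=
            prod_congr rfl (fun g _ => hrel g)
        _ = (∏ g : G, cycCocycle σ x (g, σ)) * (∏ g : G, b (g * σ)) / ∏ g : G, b g := by
            rw [prod_div_distrib, prod_mul_distrib]
        _ = ∏ g : G, cycCocycle σ x (g, σ) := by
            rw [hshift, mul_div_assoc, div_self', mul_one]
        _ = ∏ k ∈ range (Nat.card G), cycCocycle σ x (σ ^ k, σ) :=
            prod_univ_eq_prod_range hσ _
        _ = x := by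
            obtain ⟨m, hm⟩ : ∃ m, Nat.card G = m + 1 := ⟨Nat.card G - 1, by omega⟩
            rw [hm, prod_range_succ]
            have h3 : ∀ k ∈ range m, cycCocycle σ x (σ ^ k, σ) = 1 := by
              intro k hk
              rw [mem_range] at hk
              rw [cycCocycle_apply, cycIdx_pow_of_lt hσ (by omega), cycIdx_self hσ h2,
                Nat.div_eq_of_lt (by omega), pow_zero]
            rw [prod_eq_one h3, one_mul, cycCocycle_apply, cycIdx_pow_of_lt hσ (by omega),
              cycIdx_self hσ h2, ← hm, Nat.div_self hn, pow_one]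
  · -- norm ⇒ coboundary
    rintro ⟨y, hy⟩
    have hPn : partialNorm σ y (Nat.card G) = x := by
      rw [← hy, prod_univ_eq_prod_range hσ]
      rfl
    have hPnq : ∀ q : ℕ, partialNorm σ y (Nat.card G * q) = x ^ q := by
      intro q
      induction q with
      | zero => simp [partialNorm]
      | succ q ih =>
        rw [mul_add, mul_one, partialNorm_add, ih, hPn, smul_eq_of_generator hσ hx, pow_succ]
    refine ⟨fun g => partialNorm σ y (cycIdx σ g), fun g h => ?_⟩
    simp only [cycCocycle_apply, cycIdx_mul hσ]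
    set i := cycIdx σ g
    set j := cycIdx σ h
    have hg : g = σ ^ i := (pow_cycIdx hσ g).symm
    have h1 : partialNorm σ y (i + j) = partialNorm σ y i * g • partialNorm σ y j := by
      rw [partialNorm_add, ← hg]
    have h2 : partialNorm σ y (i + j) =
        partialNorm σ y ((i + j) % Nat.card G) * x ^ ((i + j) / Nat.card G) := by
      conv_lhs => rw [← Nat.mod_add_div (i + j) (Nat.card G)]
      rw [partialNorm_add, hPnq, hinv]
    rw [h2] at h1
    have e : g • partialNorm σ y j / partialNorm σ y ((i + j) % Nat.card G) * partialNorm σ y i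
        = (partialNorm σ y i * g • partialNorm σ y j) /
            partialNorm σ y ((i + j) % Nat.card G) := by
      apply Additive.ofMul.injective
      simp only [ofMul_mul, ofMul_div]
      abel
    rw [e, ← h1, mul_div_cancel_left]

end Fermat.Agent.S55.Local.H535

end
-- ===== PACK-END S55/Local/H535/A4b.lean

-- ===== PACK-BEGIN S55/Local/H542/CycSurj.lean
section
/-
S55, layer L, piece A4c (helper542): every 2-cocycle of a finite cyclic group is cohomologous to
a standard one.

  theorem cycCocycleSurj : Fermat.Agent.S55.Local.CycCocycleSurjStatement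

Proof.  Put `a k = c (σ^k, σ)`, `B j = ∏_{m<j} a m`, `u = c (1,1)`.  The cocycle identity at
`(σ^i, σ^j, σ)` gives, by induction on `j`,
  `c (σ^i, σ^j) * B i * σ^i • B j = σ^i • u * B (i + j)`      (all `i j : ℕ`).
`a` is `n`-periodic, so `B (k + n q) = B k * (B n)^q`; `x := B n` is `σ`-invariant, and
`b g := u / B (cycIdx σ g)` satisfies `d b = c / cycCocycle σ x`.
-/


set_option autoImplicit false

namespace Fermat.Agent.S55.Local.H542

open Fermat.Agent.S55.Local groupCohomology

section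

variable {G M : Type} [Group G] [CommGroup M]

/-- The partial products `B j = ∏_{m<j} c (σ^m, σ)`. -/
noncomputable def cycB (σ : G) (c : G × G → M) (j : ℕ) : M :=
  ∏ m ∈ Finset.range j, c (σ ^ m, σ)

theorem cycB_zero (σ : G) (c : G × G → M) : cycB σ c 0 = 1 := by
  simp [cycB]

theorem cycB_succ (σ : G) (c : G × G → M) (j : ℕ) :
    cycB σ c (j + 1) = cycB σ c j * c (σ ^ j, σ) := by
  simp [cycB, Finset.prod_range_succ]

variable [MulDistribMulAction G M]

/-- `c (g, 1) = g • c (1, 1)` for a 2-cocycle. -/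
theorem isMulCocycle₂_apply_one_right {c : G × G → M} (hc : IsMulCocycle₂ c) (g : G) :
    c (g, 1) = g • c (1, 1) := by
  have h := hc g 1 1
  simp only [mul_one] at h
  exact mul_right_cancel h

/-- The key formula. -/
theorem cyc_formula (σ : G) {c : G × G → M} (hc : IsMulCocycle₂ c) (i j : ℕ) :
    c (σ ^ i, σ ^ j) * cycB σ c i * σ ^ i • cycB σ c j = σ ^ i • c (1, 1) * cycB σ c (i + j) := by
  induction j with
  | zero =>
    simp only [pow_zero, cycB_zero, smul_one, mul_one, add_zero]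
    rw [isMulCocycle₂_apply_one_right hc]
  | succ j ih =>
    have h := hc (σ ^ i) (σ ^ j) σ
    rw [← pow_add, ← pow_succ] at h
    rw [cycB_succ, ← add_assoc, cycB_succ, smul_mul']
    calc c (σ ^ i, σ ^ (j + 1)) * cycB σ c i * (σ ^ i • cycB σ c j * σ ^ i • c (σ ^ j, σ))
        = (σ ^ i • c (σ ^ j, σ) * c (σ ^ i, σ ^ (j + 1))) * (cycB σ c i * σ ^ i • cycB σ c j) := by
          ac_rfl
      _ = (c (σ ^ (i + j), σ) * c (σ ^ i, σ ^ j)) * (cycB σ c i * σ ^ i • cycB σ c j) := by
          rw [h]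
      _ = c (σ ^ i, σ ^ j) * cycB σ c i * σ ^ i • cycB σ c j * c (σ ^ (i + j), σ) := by
          ac_rfl
      _ = σ ^ i • c (1, 1) * cycB σ c (i + j) * c (σ ^ (i + j), σ) := by
          rw [ih]
      _ = σ ^ i • c (1, 1) * (cycB σ c (i + j) * c (σ ^ (i + j), σ)) := by
          rw [mul_assoc]

end

section

variable {G M : Type} [Group G] [Finite G] [CommGroup M] [MulDistribMulAction G M]
variable (σ : G) (hσ : ∀ g, g ∈ Subgroup.zpowers σ)

include hσ

theorem cycB_add_card (c : G × G → M) (k : ℕ) :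
    cycB σ c (k + Nat.card G) = cycB σ c k * cycB σ c (Nat.card G) := by
  induction k with
  | zero => simp [cycB_zero]
  | succ k ih =>
    have hper : c (σ ^ (k + Nat.card G), σ) = c (σ ^ k, σ) := by
      rw [pow_add, pow_card_eq_one_of_generator σ hσ, mul_one]
    rw [Nat.add_right_comm, cycB_succ, ih, hper, cycB_succ]
    ac_rfl

theorem cycB_add_card_mul (c : G × G → M) (k q : ℕ) :
    cycB σ c (k + Nat.card G * q) = cycB σ c k * cycB σ c (Nat.card G) ^ q := by
  induction q with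
  | zero => simp
  | succ q ih =>
    rw [Nat.mul_succ, ← Nat.add_assoc, cycB_add_card σ hσ, ih, pow_succ, mul_assoc]

theorem smul_cycB_card {c : G × G → M} (hc : IsMulCocycle₂ c) :
    σ • cycB σ c (Nat.card G) = cycB σ c (Nat.card G) := by
  have h := cyc_formula σ hc 1 (Nat.card G)
  rw [pow_card_eq_one_of_generator σ hσ, pow_one, isMulCocycle₂_apply_one_right hc,
    cycB_add_card σ hσ] at h
  -- h : σ • u * B 1 * σ • B n = σ • u * (B 1 * B n)
  exact mul_right_cancel_comm_add (A := Additive M) _ _ _ _ h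

/-- **A4c.** -/
theorem cycCocycleSurj_aux {c : G × G → M} (hc : IsMulCocycle₂ c) :
    ∃ x : M, σ • x = x ∧ IsMulCoboundary₂ (fun p => c p / cycCocycle σ x p) := by
  refine ⟨cycB σ c (Nat.card G), smul_cycB_card σ hσ hc,
    fun g => c (1, 1) / cycB σ c (cycIdx σ g), fun g h => ?_⟩
  simp only [cycCocycle]
  have hf := cyc_formula σ hc (cycIdx σ g) (cycIdx σ h)
  rw [pow_cycIdx σ hσ g, pow_cycIdx σ hσ h] at hf
  have hsplit := cycIdx_add_eq σ hσ g h
  rw [hsplit, cycB_add_card_mul σ hσ, ← mul_assoc] at hf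
  rw [smul_div']
  exact coboundary_bookkeeping _ _ _ _ _ _ _ hf

end

theorem cycCocycleSurj : CycCocycleSurjStatement := by
  intro G M _ _ _ _ σ hσ c hc
  exact cycCocycleSurj_aux σ hσ hc

end Fermat.Agent.S55.Local.H542

end
-- ===== PACK-END S55/Local/H542/CycSurj.lean

-- ===== PACK-BEGIN S55/H295/Invariants.lean
section


/-!
# Cohomological triviality, part 2: invariants under a normal subgroup

* `shortExact_quotientToInvariants`: for `S ⊴ G` and a short exact sequence
  `0 → X₁ → X₂ → X₃ → 0` of `G`-modules with `H¹(S, X₁) = 0`, the sequence of `G ⧸ S`-modules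
  `0 → X₁^S → X₂^S → X₃^S → 0` is short exact.
* `isZero_H_quotientToInvariants_coindBot`: `(coind_1^G A)^S` is an acyclic `G ⧸ S`-module.
-/

set_option autoImplicit false

open CategoryTheory groupCohomology Rep Limits

universe u

namespace Fermat.Agent.S55.H295

open Fermat.Agent.S55.H572

noncomputable section

variable {k G : Type u} [CommRing k] [Group G] (S : Subgroup G) [S.Normal]

lemma qti_map_apply_coe {X Y : Rep.{u} k G} (f : X ⟶ Y) (x : X.quotientToInvariants S) :
    (((quotientToInvariantsFunctor k S).map f).hom x).1 = f.hom x.1 := rfl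

instance qti_preservesZeroMorphisms :
    (quotientToInvariantsFunctor.{u} k S).PreservesZeroMorphisms where
  map_zero X Y := by
    apply Rep.hom_ext
    apply Representation.IntertwiningMap.ext
    apply LinearMap.ext
    intro x
    apply Subtype.ext
    rfl

/-- Invariants under a normal subgroup `S` are exact on short exact sequences whose kernel has
vanishing `H¹(S, -)`. -/
theorem shortExact_quotientToInvariants {X : ShortComplex (Rep.{u} k G)} (hX : X.ShortExact)
    (h1 : IsZero (groupCohomology (res S.subtype X.X₁) 1)) :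
    (X.map (quotientToInvariantsFunctor.{u} k S)).ShortExact := by
  have hinj := rep_shortExact_inj hX
  have hsurj := rep_shortExact_surj hX
  have hex := rep_shortExact_exact hX
  have hfρ : ∀ (g : G) (x : X.X₁), X.f.hom (X.X₁.ρ g x) = X.X₂.ρ g (X.f.hom x) :=
    fun g x => Rep.hom_comm_apply X.f g x
  have hgρ : ∀ (g : G) (x : X.X₂), X.g.hom (X.X₂.ρ g x) = X.X₃.ρ g (X.g.hom x) :=
    fun g x => Rep.hom_comm_apply X.g g x
  apply rep_shortExact_of
  · -- injectivity
    intro x y hxy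
    apply Subtype.ext
    apply hinj
    have h2 : (((quotientToInvariantsFunctor.{u} k S).map X.f).hom x).1 =
        (((quotientToInvariantsFunctor.{u} k S).map X.f).hom y).1 := congrArg Subtype.val hxy
    rw [qti_map_apply_coe, qti_map_apply_coe] at h2
    exact h2
  · -- exactness in the middle
    intro y hy
    have hy' : X.g.hom y.1 = 0 := by
      have h2 : (((quotientToInvariantsFunctor.{u} k S).map X.g).hom y).1 = 0 :=
        congrArg Subtype.val hy
      rw [qti_map_apply_coe] at h2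
      exact h2
    obtain ⟨x, hx⟩ := hex y.1 hy'
    refine ⟨⟨x, fun s => ?_⟩, ?_⟩
    · apply hinj
      change X.f.hom (X.X₁.ρ (s : G) x) = X.f.hom x
      rw [hfρ, hx]
      exact y.2 s
    · apply Subtype.ext
      exact hx
  · -- surjectivity, using `H¹(S, X₁) = 0`
    intro z
    obtain ⟨y, hy⟩ := hsurj z.1
    have hz : ∀ s : S, X.X₃.ρ (s : G) z.1 = z.1 := fun s => z.2 s
    have hker : ∀ s : S, ∃ c : X.X₁, X.f.hom c = X.X₂.ρ (s : G) y - y := by
      intro s
      apply hex
      rw [map_sub, hgρ, hy, hz, sub_self]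
    choose c hc using hker
    have hcoc : c ∈ cocycles₁ (res S.subtype X.X₁) := by
      rw [mem_cocycles₁_iff]
      intro s t
      apply hinj
      change X.f.hom (c (s * t)) = X.f.hom (X.X₁.ρ (s : G) (c t) + c s)
      rw [map_add, hfρ, hc, hc, hc, Subgroup.coe_mul, map_mul, map_sub]
      simp only [Module.End.mul_apply]
      abel
    have hzero : H1π (res S.subtype X.X₁) ⟨c, hcoc⟩ = 0 :=
      (ModuleCat.subsingleton_of_isZero h1).elim _ _
    rw [H1π_eq_zero_iff] at hzero
    obtain ⟨a, ha⟩ := hzero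
    have ha' : ∀ s : S, X.X₁.ρ (s : G) a - a = c s := fun s => congrFun ha s
    refine ⟨⟨y - X.f.hom a, fun s => ?_⟩, ?_⟩
    · change X.X₂.ρ (s : G) (y - X.f.hom a) = y - X.f.hom a
      have h2 : X.f.hom (c s) = X.X₂.ρ (s : G) (X.f.hom a) - X.f.hom a := by
        rw [← ha' s, map_sub, hfρ]
      rw [map_sub]
      have h3 := hc s
      rw [h2] at h3
      have h4 : X.X₂.ρ (s : G) y = X.X₂.ρ (s : G) (X.f.hom a) - X.f.hom a + y := by
        rw [h3]; abel
      rw [h4]; abel
    · apply Subtype.ext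
      change X.g.hom (y - X.f.hom a) = z.1
      rw [map_sub, hy]
      have h0 : (X.f ≫ X.g).hom a = (0 : X.X₁ ⟶ X.X₃).hom a := by rw [X.zero]
      have : X.g.hom (X.f.hom a) = 0 := h0
      rw [this, sub_zero]

end

end Fermat.Agent.S55.H295

namespace Fermat.Agent.S55.H295

open Fermat.Agent.S55.H572

noncomputable section

variable {k G : Type u} [CommRing k] [Group G] (S : Subgroup G) [S.Normal]

/-- Coefficients of `(coind_1^G A)^S` viewed as a coinduced `G ⧸ S`-module. -/
abbrev coeffQuot (A : Rep.{u} k G) : Rep.{u} k (⊥ : Subgroup (G ⧸ S)) :=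
  Rep.trivial k (⊥ : Subgroup (G ⧸ S)) A.V

lemma coindBot_inv_apply (A : Rep.{u} k G) (φ : (coindBot A).quotientToInvariants S)
    (x : G) (s : G) (hs : s ∈ S) : φ.1.1 (x * s) = φ.1.1 x := by
  have h := φ.2 ⟨s, hs⟩
  exact congrFun (congrArg Subtype.val h) x

/-- The underlying linear equivalence of `qtiCoindBotIso`. -/
def qtiCoindBotLinearEquiv (A : Rep.{u} k G) :
    ((coindBot A).quotientToInvariants S).V ≃ₗ[k]
      (coind (⊥ : Subgroup (G ⧸ S)).subtype (coeffQuot S A)).V where
  toFun φ := mkCoind (coeffQuot S A) (fun q => Quotient.liftOn' q (fun x => φ.1.1 x)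
    (fun x y hxy => by
      have hmem : x⁻¹ * y ∈ S := QuotientGroup.leftRel_apply.mp hxy
      have := coindBot_inv_apply S A φ x (x⁻¹ * y) hmem
      rw [mul_inv_cancel_left] at this
      exact this.symm))
  map_add' φ ψ := by
    apply Subtype.ext
    funext q
    induction q using QuotientGroup.induction_on with
    | H x => rfl
  map_smul' r φ := by
    apply Subtype.ext
    funext q
    induction q using QuotientGroup.induction_on with
    | H x => rfl
  invFun ψ := ⟨mkCoind (botRes A) (fun x => ψ.1 (QuotientGroup.mk x)), fun s => by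
    apply Subtype.ext
    funext x
    change ψ.1 (QuotientGroup.mk (x * (s : G))) = ψ.1 (QuotientGroup.mk x)
    rw [QuotientGroup.mk_mul_of_mem _ s.2]⟩
  left_inv φ := by
    apply Subtype.ext
    apply Subtype.ext
    funext x
    rfl
  right_inv ψ := by
    apply Subtype.ext
    funext q
    induction q using QuotientGroup.induction_on with
    | H x => rfl

/-- `(coind_1^G A)^S ≅ coind_1^{G/S}(A)` as `G ⧸ S`-modules. -/
def qtiCoindBotIso (A : Rep.{u} k G) :
    (coindBot A).quotientToInvariants S ≅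
      coind (⊥ : Subgroup (G ⧸ S)).subtype (coeffQuot S A) :=
  Rep.mkIso (Representation.Equiv.mk (qtiCoindBotLinearEquiv S A) (fun q => by
    induction q using QuotientGroup.induction_on with
    | H g =>
      apply LinearMap.ext
      intro φ
      apply Subtype.ext
      funext q'
      induction q' using QuotientGroup.induction_on with
      | H x => rfl))

/-- `(coind_1^G A)^S` is an acyclic `G ⧸ S`-module. -/
theorem isZero_H_quotientToInvariants_coindBot (A : Rep.{u} k G) (n : ℕ) :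
    IsZero (groupCohomology ((coindBot A).quotientToInvariants S) (n + 1)) :=
  IsZero.of_iso (IsZero.of_iso (isZero_groupCohomology_succ_of_subsingleton (coeffQuot S A) n)
      (groupCohomology.coindIso (coeffQuot S A) (n + 1)))
    ((groupCohomology.functor k (G ⧸ S) (n + 1)).mapIso (qtiCoindBotIso S A))

end

end Fermat.Agent.S55.H295

end
-- ===== PACK-END S55/H295/Invariants.lean

-- ===== PACK-BEGIN S55/G/Lat793.lean
section
/-
S55, layer G, block G-U, leaf **GU-LAT** (subtask 178): the lattice lemma `LatticeSpec`.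

Two `s`-stable `ℤ`-lattices `Λ₁ = ⊕ ℤ b₁ i`, `Λ₂ = ⊕ ℤ b₂ i` with the same real span
(`s` a real-linear map with `s ^ n = 1`) have finite Herbrand indices and the same Herbrand
quotient.

Proof.  Choose integer matrices `S₁, S₂` of `s` in the two bases and a real change-of-basis
matrix `P` (`P S₁ = S₂ P`, `det P ≠ 0`).  The averaging operator
`X ↦ ∑_{i<n} S₂^i X S₁^{-i}` produces intertwiners and maps `P` to `n • P`; its determinant is a
polynomial in the entries of `X` which does not vanish at `P`, hence does not vanish at some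
integer point (`MvPolynomial.funext` over `ℤ`).  The resulting integer intertwiner `Y`
(`det Y ≠ 0`) is an equivariant injection `ℤ^r → ℤ^r` with finite cokernel, so the Herbrand
quotients agree (`herbrand_eq_of_finite_coker`).  Finiteness: `Ĥ⁰`, `Ĥ⁻¹` of a finitely
generated group are finitely generated and killed by `n`.

Main result: `Fermat.Agent.S55.G.Lat793.latticeSpec : LatticeSpec`.
Author: helper793.
-/




set_option autoImplicit false

namespace Fermat.Agent.S55.G.Lat793

open Fermat.Agent.S55.Herbrand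

universe u

section Index

variable {M : Type*} [AddCommGroup M]

/-- A subgroup of a finitely generated abelian group containing all `d`-th multiples (`d ≠ 0`)
has finite index. -/
lemma index_ne_zero_of_zsmul_mem [Module.Finite ℤ M] (H : AddSubgroup M) (d : ℤ) (hd : d ≠ 0)
    (h : ∀ x, d • x ∈ H) : H.index ≠ 0 := by
  have : AddGroup.FG M := Module.Finite.iff_addGroup_fg.mp inferInstance
  have : Module.Finite ℤ (M ⧸ H) := Module.Finite.iff_addGroup_fg.mpr inferInstance
  have : Finite (M ⧸ H) := Module.finite_of_fg_torsion _ (by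
    intro x
    refine ⟨⟨d, mem_nonZeroDivisors_of_ne_zero hd⟩, ?_⟩
    obtain ⟨y, rfl⟩ := QuotientAddGroup.mk_surjective x
    show d • (y : M ⧸ H) = 0
    rw [← QuotientAddGroup.mk_zsmul, QuotientAddGroup.eq_zero_iff]
    exact h y)
  exact AddSubgroup.index_ne_zero_of_finite

lemma relIndex_ne_zero_of_nsmul_mem [Module.Finite ℤ M] (H K : AddSubgroup M) (n : ℕ)
    (hn : n ≠ 0) (h : ∀ x ∈ K, n • x ∈ H) : H.relIndex K ≠ 0 := by
  have : IsNoetherian ℤ M := inferInstance
  have : Module.Finite ℤ ↥(AddSubgroup.toIntSubmodule K) := inferInstance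
  have : Module.Finite ℤ ↥K := ‹Module.Finite ℤ ↥(AddSubgroup.toIntSubmodule K)›
  unfold AddSubgroup.relIndex
  refine index_ne_zero_of_zsmul_mem _ (n : ℤ) (by exact_mod_cast hn) ?_
  rintro ⟨x, hx⟩
  rw [AddSubgroup.mem_addSubgroupOf, natCast_zsmul]
  exact h x hx

end Index

section Defined

variable {M : Type*} [AddCommGroup M]

lemma normN_eq_nsmul_of_fixed (σ : AddMonoid.End M) (n : ℕ) (x : M) (hx : σ x = x) :
    normN σ n x = n • x := by
  rw [normN_apply]
  have : ∀ i : ℕ, (σ ^ i) x = x := by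
    intro i
    induction i with
    | zero => simp
    | succ k ih =>
      rw [pow_succ]
      change (σ ^ k) (σ x) = x
      rw [hx, ih]
  simp [this]

lemma pow_sub_one_mem_range_delta (σ : AddMonoid.End M) (i : ℕ) (x : M) :
    (σ ^ i) x - x ∈ (delta σ).range := by
  have h : (σ - 1) * ∑ j ∈ Finset.range i, σ ^ j = σ ^ i - 1 := mul_geom_sum σ i
  refine ⟨(∑ j ∈ Finset.range i, σ ^ j : AddMonoid.End M) x, ?_⟩
  have := DFunLike.congr_fun h x
  exact this

lemma nsmul_mem_range_delta_of_normN_eq_zero (σ : AddMonoid.End M) (n : ℕ) (x : M)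
    (hx : normN σ n x = 0) : n • x ∈ (delta σ).range := by
  have h1 : n • x = - ∑ i ∈ Finset.range n, ((σ ^ i) x - x) := by
    rw [Finset.sum_sub_distrib, ← normN_apply, hx]
    simp
  rw [h1]
  exact (delta σ).range.neg_mem
    ((delta σ).range.sum_mem fun i _ => pow_sub_one_mem_range_delta σ i x)

/-- Both Herbrand indices of a finitely generated abelian group with an automorphism of finite
order are finite. -/
theorem herbrandDefined_of_fg [Module.Finite ℤ M] (σ : AddMonoid.End M) (n : ℕ) (hn : 0 < n) :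
    HerbrandDefined σ n := by
  refine ⟨?_, ?_⟩
  · unfold hIndex
    refine relIndex_ne_zero_of_nsmul_mem _ _ n hn.ne' ?_
    intro x hx
    rw [AddMonoidHom.mem_ker, delta_apply, sub_eq_zero] at hx
    exact ⟨x, normN_eq_nsmul_of_fixed σ n x hx⟩
  · unfold hIndex
    refine relIndex_ne_zero_of_nsmul_mem _ _ n hn.ne' ?_
    intro x hx
    exact nsmul_mem_range_delta_of_normN_eq_zero σ n x (AddMonoidHom.mem_ker.1 hx)

end Defined

section Avg

variable {𝔐 : Type*} [Ring 𝔐]

/-- The averaging operator `x ↦ ∑_{i<n} a^i x t^i`. -/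
def avgOp (a t : 𝔐) (n : ℕ) (x : 𝔐) : 𝔐 := ∑ i ∈ Finset.range n, a ^ i * x * t ^ i

lemma map_avgOp {𝔐' : Type*} [Ring 𝔐'] (f : 𝔐 →+* 𝔐') (a t : 𝔐) (n : ℕ) (x : 𝔐) :
    f (avgOp a t n x) = avgOp (f a) (f t) n (f x) := by
  simp [avgOp, map_sum]

lemma avgOp_intertwine (a b t : 𝔐) (n : ℕ) (htb : t * b = 1) (ha : a ^ n = 1)
    (ht : t ^ n = 1) (x : 𝔐) : avgOp a t n x * b = a * avgOp a t n x := by
  have h1 : a * avgOp a t n x * t = avgOp a t n x := by
    unfold avgOp
    rw [Finset.mul_sum, Finset.sum_mul]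
    have h : ∀ i, a * (a ^ i * x * t ^ i) * t = a ^ (i + 1) * x * t ^ (i + 1) := by
      intro i
      rw [pow_succ', pow_succ]
      simp only [mul_assoc]
    simp_rw [h]
    have h2 := Finset.sum_range_succ (fun i => a ^ i * x * t ^ i) n
    have h3 := Finset.sum_range_succ' (fun i => a ^ i * x * t ^ i) n
    simp only [pow_zero, one_mul, mul_one, ha, ht] at h2 h3
    exact add_right_cancel (h3.symm.trans h2)
  calc avgOp a t n x * b = a * avgOp a t n x * t * b := by rw [h1]
    _ = a * avgOp a t n x * (t * b) := by simp only [mul_assoc]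
    _ = a * avgOp a t n x := by rw [htb, mul_one]

lemma avgOp_of_intertwine (a b t p : 𝔐) (n : ℕ) (hbt : b * t = 1)
    (hp : p * b = a * p) : avgOp a t n p = n • p := by
  have h1 : ∀ i : ℕ, a ^ i * p = p * b ^ i := by
    intro i
    induction i with
    | zero => simp
    | succ k ih => rw [pow_succ, mul_assoc, ← hp, ← mul_assoc, ih, mul_assoc, ← pow_succ]
  have h2 : ∀ i : ℕ, b ^ i * t ^ i = 1 := by
    intro i
    induction i with
    | zero => simp
    | succ k ih =>
      rw [pow_succ, pow_succ', mul_assoc, ← mul_assoc b, hbt, one_mul, ih]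
  unfold avgOp
  have : ∀ i ∈ Finset.range n, a ^ i * p * t ^ i = p := by
    intro i _
    rw [h1, mul_assoc, h2, mul_one]
  rw [Finset.sum_congr rfl this]
  simp

end Avg

section MatrixLemma

variable {r : ℕ}

lemma mapMatrix_castInt {R R' : Type*} [CommRing R] [CommRing R'] (f : R →+* R')
    (S : Matrix (Fin r) (Fin r) ℤ) :
    f.mapMatrix ((Int.castRingHom R).mapMatrix S) = (Int.castRingHom R').mapMatrix S := by
  ext i j
  simp

/-- **Rational structure of intertwiners.**  If two integer matrices of finite order are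
conjugate over `ℝ`, there is an integer intertwiner with nonzero determinant. -/
theorem exists_int_intertwiner {n : ℕ} (hn : 0 < n) (S₁ S₂ : Matrix (Fin r) (Fin r) ℤ)
    (h₁ : S₁ ^ n = 1) (h₂ : S₂ ^ n = 1) (P : Matrix (Fin r) (Fin r) ℝ) (hP : P.det ≠ 0)
    (hPS : P * (Int.castRingHom ℝ).mapMatrix S₁ = (Int.castRingHom ℝ).mapMatrix S₂ * P) :
    ∃ Y : Matrix (Fin r) (Fin r) ℤ, Y.det ≠ 0 ∧ Y * S₁ = S₂ * Y := by
  classical
  -- the inverse of `S₁`
  set T₁ : Matrix (Fin r) (Fin r) ℤ := S₁ ^ (n - 1) with hT₁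
  have hST : S₁ * T₁ = 1 := by
    rw [hT₁, ← pow_succ', Nat.sub_add_cancel hn, h₁]
  have hTS : T₁ * S₁ = 1 := by
    rw [hT₁, ← pow_succ, Nat.sub_add_cancel hn, h₁]
  have hTn : T₁ ^ n = 1 := by
    rw [hT₁, ← pow_mul, mul_comm, pow_mul, h₁, one_pow]
  -- the generic matrix
  let 𝔓 := MvPolynomial (Fin r × Fin r) ℤ
  let Xg : Matrix (Fin r) (Fin r) 𝔓 := Matrix.of fun i j => MvPolynomial.X (i, j)
  let c𝔓 : Matrix (Fin r) (Fin r) ℤ →+* Matrix (Fin r) (Fin r) 𝔓 := (Int.castRingHom 𝔓).mapMatrix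
  let D : 𝔓 := (avgOp (c𝔓 S₂) (c𝔓 T₁) n Xg).det
  -- evaluation at `P`
  have hD : D ≠ 0 := by
    intro hD0
    let φ : 𝔓 →+* ℝ := MvPolynomial.eval₂Hom (Int.castRingHom ℝ) (fun p => P p.1 p.2)
    have hφX : φ.mapMatrix Xg = P := by
      ext i j
      show MvPolynomial.eval₂ _ _ (MvPolynomial.X (i, j)) = _
      rw [MvPolynomial.eval₂_X]
    have h1 : φ D = (avgOp ((Int.castRingHom ℝ).mapMatrix S₂)
        ((Int.castRingHom ℝ).mapMatrix T₁) n P).det := by
      show φ (avgOp (c𝔓 S₂) (c𝔓 T₁) n Xg).det = _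
      rw [RingHom.map_det, map_avgOp, mapMatrix_castInt, mapMatrix_castInt, hφX]
    rw [avgOp_of_intertwine _ ((Int.castRingHom ℝ).mapMatrix S₁) _ P n
      (by rw [← map_mul, hST, map_one]) hPS, hD0, map_zero] at h1
    rw [← Nat.cast_smul_eq_nsmul ℝ, Matrix.det_smul] at h1
    have : ((n : ℕ) : ℝ) ^ Fintype.card (Fin r) * P.det ≠ 0 :=
      mul_ne_zero (pow_ne_zero _ (by exact_mod_cast hn.ne')) hP
    exact this h1.symm
  -- an integer point where `D` does not vanish
  obtain ⟨y, hy⟩ : ∃ y : Fin r × Fin r → ℤ, MvPolynomial.eval y D ≠ 0 := by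
    by_contra hcon
    push Not at hcon
    exact hD (MvPolynomial.funext fun y => by rw [hcon y, map_zero])
  let Y₀ : Matrix (Fin r) (Fin r) ℤ := Matrix.of fun i j => y (i, j)
  have hψX : (MvPolynomial.eval y).mapMatrix Xg = Y₀ := by
    ext i j
    show MvPolynomial.eval y (MvPolynomial.X (i, j)) = _
    rw [MvPolynomial.eval_X]
    rfl
  have hcast : ∀ S : Matrix (Fin r) (Fin r) ℤ, (Int.castRingHom ℤ).mapMatrix S = S := by
    intro S
    ext i j
    simp
  have h2 : MvPolynomial.eval y D = (avgOp S₂ T₁ n Y₀).det := by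
    show MvPolynomial.eval y (avgOp (c𝔓 S₂) (c𝔓 T₁) n Xg).det = _
    rw [RingHom.map_det, map_avgOp, mapMatrix_castInt, mapMatrix_castInt, hψX, hcast, hcast]
  refine ⟨avgOp S₂ T₁ n Y₀, ?_, ?_⟩
  · rw [← h2]
    exact hy
  · exact avgOp_intertwine S₂ S₁ T₁ n hTS h₂ hTn Y₀

end MatrixLemma

section Model

variable {V : Type*} [AddCommGroup V] {r : ℕ}

/-- `∑ x_j c_j` in terms of `b`, when `c_j = ∑ A_ij b_i`. -/
lemma sum_mulVec_smul {R : Type*} [CommRing R] [Module R V] (b c : Fin r → V)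
    (A : Matrix (Fin r) (Fin r) R) (h : ∀ j, c j = ∑ i, A i j • b i) (x : Fin r → R) :
    ∑ i, (A.mulVec x) i • b i = ∑ j, x j • c j := by
  simp only [Matrix.mulVec, dotProduct, Finset.sum_smul, h, Finset.smul_sum, smul_smul]
  rw [Finset.sum_comm]
  refine Finset.sum_congr rfl fun j _ => Finset.sum_congr rfl fun i _ => ?_
  rw [mul_comm]

/-- integer coordinates -/
noncomputable def iZ (b : Fin r → V) : (Fin r → ℤ) →+ V :=
  (Fintype.linearCombination ℤ b).toAddMonoidHom

lemma iZ_apply (b : Fin r → V) (c : Fin r → ℤ) : iZ b c = ∑ i, c i • b i :=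
  Fintype.linearCombination_apply ℤ b c

lemma iZ_range (b : Fin r → V) :
    (iZ b).range = (Submodule.span ℤ (Set.range b)).toAddSubgroup := by
  ext x
  rw [AddMonoidHom.mem_range, Submodule.mem_toAddSubgroup,
    Submodule.mem_span_range_iff_exists_fun]
  simp only [iZ_apply]

/-- the endomorphism of `ℤ^r` attached to an integer matrix -/
def mvEnd (S : Matrix (Fin r) (Fin r) ℤ) : AddMonoid.End (Fin r → ℤ) :=
  (Matrix.mulVecLin S).toAddMonoidHom

@[simp] lemma mvEnd_apply (S : Matrix (Fin r) (Fin r) ℤ) (v : Fin r → ℤ) :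
    mvEnd S v = S.mulVec v := rfl

/-- the additive endomorphism of `ℤ^r` attached to an integer matrix, as a plain hom -/
def mvHom (Y : Matrix (Fin r) (Fin r) ℤ) : (Fin r → ℤ) →+ (Fin r → ℤ) :=
  (Matrix.mulVecLin Y).toAddMonoidHom

@[simp] lemma mvHom_apply (Y : Matrix (Fin r) (Fin r) ℤ) (v : Fin r → ℤ) :
    mvHom Y v = Y.mulVec v := rfl

lemma mvEnd_pow_apply (S : Matrix (Fin r) (Fin r) ℤ) (k : ℕ) (v : Fin r → ℤ) :
    (mvEnd S ^ k) v = (S ^ k).mulVec v := by
  induction k generalizing v with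
  | zero => simp
  | succ k ih =>
    rw [pow_succ, pow_succ]
    change (mvEnd S ^ k) (mvEnd S v) = _
    rw [ih, mvEnd_apply, Matrix.mulVec_mulVec]

lemma mvEnd_pow_eq_one (S : Matrix (Fin r) (Fin r) ℤ) (n : ℕ) (h : S ^ n = 1) :
    mvEnd S ^ n = 1 := by
  ext v : 1
  rw [mvEnd_pow_apply, h, Matrix.one_mulVec]
  rfl

variable [Module ℝ V]

lemma iZ_eq_real (b : Fin r → V) (c : Fin r → ℤ) : iZ b c = ∑ i, (c i : ℝ) • b i := by
  rw [iZ_apply]
  refine Finset.sum_congr rfl fun i _ => ?_
  rw [Int.cast_smul_eq_zsmul]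

lemma iZ_injective {b : Fin r → V} (hb : LinearIndependent ℝ b) : Function.Injective (iZ b) := by
  rw [injective_iff_map_eq_zero]
  intro c hc
  rw [iZ_eq_real] at hc
  funext i
  have := Fintype.linearIndependent_iff.1 hb (fun i => (c i : ℝ)) hc i
  exact_mod_cast this

lemma real_sum_injective {b : Fin r → V} (hb : LinearIndependent ℝ b) {x y : Fin r → ℝ}
    (h : ∑ i, x i • b i = ∑ i, y i • b i) : x = y := by
  have := linearIndependent_iff_injective_fintypeLinearCombination.1 hb
  apply this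
  rw [Fintype.linearCombination_apply, Fintype.linearCombination_apply]
  exact h

variable (s : V →ₗ[ℝ] V)

lemma exists_int_matrix (b : Fin r → V)
    (hs : ∀ i, s (b i) ∈ Submodule.span ℤ (Set.range b)) :
    ∃ S : Matrix (Fin r) (Fin r) ℤ, ∀ j, s (b j) = ∑ i, S i j • b i := by
  have : ∀ j, ∃ c : Fin r → ℤ, ∑ i, c i • b i = s (b j) := fun j =>
    (Submodule.mem_span_range_iff_exists_fun ℤ).1 (hs j)
  choose c hc using this
  exact ⟨Matrix.of fun i j => c j i, fun j => (hc j).symm⟩

lemma exists_real_matrix (b₁ b₂ : Fin r → V)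
    (h : Submodule.span ℝ (Set.range b₁) ≤ Submodule.span ℝ (Set.range b₂)) :
    ∃ P : Matrix (Fin r) (Fin r) ℝ, ∀ j, b₁ j = ∑ i, P i j • b₂ i := by
  have : ∀ j, ∃ c : Fin r → ℝ, ∑ i, c i • b₂ i = b₁ j := fun j =>
    (Submodule.mem_span_range_iff_exists_fun ℝ).1 (h (Submodule.subset_span ⟨j, rfl⟩))
  choose c hc using this
  exact ⟨Matrix.of fun i j => c j i, fun j => (hc j).symm⟩

variable {s}

/-- `s` acts on integer coordinates through `S`. -/
lemma iZ_mvEnd {b : Fin r → V} {S : Matrix (Fin r) (Fin r) ℤ}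
    (hS : ∀ j, s (b j) = ∑ i, S i j • b i) (v : Fin r → ℤ) :
    iZ b (mvEnd S v) = s (iZ b v) := by
  rw [mvEnd_apply, iZ_apply, iZ_apply, sum_mulVec_smul b (fun j => s (b j)) S hS v, map_sum]
  refine Finset.sum_congr rfl fun j _ => ?_
  rw [map_zsmul]

lemma iZ_mvEnd_pow {b : Fin r → V} {S : Matrix (Fin r) (Fin r) ℤ}
    (hS : ∀ j, s (b j) = ∑ i, S i j • b i) (k : ℕ) (v : Fin r → ℤ) :
    iZ b ((mvEnd S ^ k) v) = (s ^ k) (iZ b v) := by
  induction k generalizing v with
  | zero => simp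
  | succ k ih =>
    rw [pow_succ, pow_succ]
    change iZ b ((mvEnd S ^ k) (mvEnd S v)) = (s ^ k) (s (iZ b v))
    rw [ih, iZ_mvEnd hS]

lemma int_matrix_pow_eq_one {b : Fin r → V} (hb : LinearIndependent ℝ b)
    {S : Matrix (Fin r) (Fin r) ℤ} (hS : ∀ j, s (b j) = ∑ i, S i j • b i) {n : ℕ}
    (hn : s ^ n = 1) : S ^ n = 1 := by
  apply Matrix.mulVec_injective
  funext v
  apply iZ_injective hb
  rw [← mvEnd_pow_apply, iZ_mvEnd_pow hS, hn, Matrix.one_mulVec]
  rfl

/-- `s` acts on real coordinates through `S`. -/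
lemma real_sum_mulVec {b : Fin r → V} {S : Matrix (Fin r) (Fin r) ℤ}
    (hS : ∀ j, s (b j) = ∑ i, S i j • b i) (x : Fin r → ℝ) :
    ∑ i, (((Int.castRingHom ℝ).mapMatrix S).mulVec x) i • b i = s (∑ j, x j • b j) := by
  rw [sum_mulVec_smul b (fun j => s (b j)) _ _ x, map_sum]
  · refine Finset.sum_congr rfl fun j _ => ?_
    rw [map_smul]
  · intro j
    rw [hS j]
    refine Finset.sum_congr rfl fun i _ => ?_
    rw [RingHom.mapMatrix_apply, Matrix.map_apply, Int.coe_castRingHom, Int.cast_smul_eq_zsmul]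

/-- The real change-of-basis matrix between two lattices with the same real span intertwines
the two integer matrices of `s`, and is invertible. -/
lemma exists_real_intertwiner {b₁ b₂ : Fin r → V} (hb₁ : LinearIndependent ℝ b₁)
    (hb₂ : LinearIndependent ℝ b₂)
    (hspan : Submodule.span ℝ (Set.range b₁) = Submodule.span ℝ (Set.range b₂))
    {S₁ S₂ : Matrix (Fin r) (Fin r) ℤ} (hS₁ : ∀ j, s (b₁ j) = ∑ i, S₁ i j • b₁ i)
    (hS₂ : ∀ j, s (b₂ j) = ∑ i, S₂ i j • b₂ i) :
    ∃ P : Matrix (Fin r) (Fin r) ℝ, P.det ≠ 0 ∧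
      P * (Int.castRingHom ℝ).mapMatrix S₁ = (Int.castRingHom ℝ).mapMatrix S₂ * P := by
  obtain ⟨P, hP⟩ := exists_real_matrix b₁ b₂ hspan.le
  obtain ⟨Q, hQ⟩ := exists_real_matrix b₂ b₁ hspan.ge
  have hPx : ∀ x : Fin r → ℝ, ∑ i, (P.mulVec x) i • b₂ i = ∑ j, x j • b₁ j :=
    sum_mulVec_smul b₂ b₁ P hP
  have hQx : ∀ x : Fin r → ℝ, ∑ i, (Q.mulVec x) i • b₁ i = ∑ j, x j • b₂ j :=
    sum_mulVec_smul b₁ b₂ Q hQ
  have hQP : Q * P = 1 := by
    apply Matrix.mulVec_injective
    funext x
    apply real_sum_injective hb₁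
    rw [← Matrix.mulVec_mulVec, hQx, hPx, Matrix.one_mulVec]
  refine ⟨P, ?_, ?_⟩
  · intro h0
    have := congrArg Matrix.det hQP
    rw [Matrix.det_mul, h0, mul_zero, Matrix.det_one] at this
    exact zero_ne_one this
  · apply Matrix.mulVec_injective
    funext x
    apply real_sum_injective hb₂
    rw [← Matrix.mulVec_mulVec, hPx, real_sum_mulVec hS₁, ← Matrix.mulVec_mulVec,
      real_sum_mulVec hS₂, hPx]

end Model

section Final

variable {V : Type*} [AddCommGroup V] [Module ℝ V] {r : ℕ} (s : V →ₗ[ℝ] V)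

/-- The Herbrand indices of the lattice `⊕ ℤ b i ⊆ V` are those of the model `(ℤ^r, S)`. -/
lemma hIndexSub_eq_model {b : Fin r → V} (hb : LinearIndependent ℝ b)
    {S : Matrix (Fin r) (Fin r) ℤ} (hS : ∀ j, s (b j) = ∑ i, S i j • b i) (n : ℕ) :
    hIndexSub (s - 1 : V →ₗ[ℝ] V).toAddMonoidHom
        (∑ k ∈ Finset.range n, s ^ k : V →ₗ[ℝ] V).toAddMonoidHom
        (Submodule.span ℤ (Set.range b)).toAddSubgroup = h0 (mvEnd S) n ∧
    hIndexSub (∑ k ∈ Finset.range n, s ^ k : V →ₗ[ℝ] V).toAddMonoidHom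
        (s - 1 : V →ₗ[ℝ] V).toAddMonoidHom
        (Submodule.span ℤ (Set.range b)).toAddSubgroup = h1 (mvEnd S) n := by
  have hif : ∀ a, iZ b (delta (mvEnd S) a) = (s - 1 : V →ₗ[ℝ] V).toAddMonoidHom (iZ b a) := by
    intro a
    rw [delta_apply, map_sub, iZ_mvEnd hS]
    rfl
  have hig : ∀ a, iZ b (normN (mvEnd S) n a) =
      (∑ k ∈ Finset.range n, s ^ k : V →ₗ[ℝ] V).toAddMonoidHom (iZ b a) := by
    intro a
    rw [normN_apply, map_sum]
    show _ = (∑ k ∈ Finset.range n, s ^ k : V →ₗ[ℝ] V) (iZ b a)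
    rw [LinearMap.sum_apply]
    exact Finset.sum_congr rfl fun k _ => iZ_mvEnd_pow hS k a
  rw [← iZ_range]
  exact ⟨(hIndex_eq_hIndexSub (iZ_injective hb) hif hig).symm,
    (hIndex_eq_hIndexSub (iZ_injective hb) hig hif).symm⟩

/-- An integer matrix with nonzero determinant has finite-index image. -/
lemma mvEnd_range_finiteIndex {Y : Matrix (Fin r) (Fin r) ℤ} (hY : Y.det ≠ 0) :
    (mvHom Y).range.FiniteIndex := by
  refine ⟨index_ne_zero_of_zsmul_mem _ Y.det hY ?_⟩
  intro x
  refine ⟨Y.adjugate.mulVec x, ?_⟩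
  rw [mvHom_apply, Matrix.mulVec_mulVec, Matrix.mul_adjugate, Matrix.smul_mulVec,
    Matrix.one_mulVec]

/-- **The lattice lemma** (GU-LAT). -/
theorem latticeSpec : LatticeSpec.{u} := by
  intro V _ _ s n r hn hsn b₁ b₂ hb₁ hb₂ hspan hs₁ hs₂ F N Λ₁ Λ₂
  obtain ⟨S₁, hS₁⟩ := exists_int_matrix s b₁ hs₁
  obtain ⟨S₂, hS₂⟩ := exists_int_matrix s b₂ hs₂
  have hS₁n : S₁ ^ n = 1 := int_matrix_pow_eq_one hb₁ hS₁ hsn
  have hS₂n : S₂ ^ n = 1 := int_matrix_pow_eq_one hb₂ hS₂ hsn
  obtain ⟨P, hPdet, hPS⟩ := exists_real_intertwiner hb₁ hb₂ hspan hS₁ hS₂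
  obtain ⟨Y, hYdet, hYS⟩ := exists_int_intertwiner hn S₁ S₂ hS₁n hS₂n P hPdet hPS
  -- comparison of the two models through `Y`
  have hσ₂ : mvEnd S₂ ^ n = 1 := mvEnd_pow_eq_one S₂ n hS₂n
  have hinj : Function.Injective (mvHom Y) :=
    Matrix.mulVec_injective_of_det_ne_zero hYdet
  have hcomm : ∀ a, mvHom Y (mvEnd S₁ a) = mvEnd S₂ (mvHom Y a) := by
    intro a
    simp only [mvEnd_apply, mvHom_apply, Matrix.mulVec_mulVec, hYS]
  have hq : herbrand (mvEnd S₁) n = herbrand (mvEnd S₂) n :=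
    herbrand_eq_of_finite_coker hσ₂ hinj (mvEnd_range_finiteIndex hYdet) hcomm
  obtain ⟨d₁, d₁'⟩ := (herbrandDefined_iff _ _).1 (herbrandDefined_of_fg (mvEnd S₁) n hn)
  obtain ⟨d₂, d₂'⟩ := (herbrandDefined_iff _ _).1 (herbrandDefined_of_fg (mvEnd S₂) n hn)
  obtain ⟨e₁, e₁'⟩ := hIndexSub_eq_model s hb₁ hS₁ n
  obtain ⟨e₂, e₂'⟩ := hIndexSub_eq_model s hb₂ hS₂ n
  have E₁ : hIndexSub F N Λ₁ = h0 (mvEnd S₁) n := e₁
  have E₁' : hIndexSub N F Λ₁ = h1 (mvEnd S₁) n := e₁'
  have E₂ : hIndexSub F N Λ₂ = h0 (mvEnd S₂) n := e₂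
  have E₂' : hIndexSub N F Λ₂ = h1 (mvEnd S₂) n := e₂'
  rw [E₁, E₁', E₂, E₂']
  refine ⟨d₁, d₁', d₂, d₂', ?_⟩
  rw [herbrand_eq_div, herbrand_eq_div,
    div_eq_div_iff (Nat.cast_ne_zero.2 d₁') (Nat.cast_ne_zero.2 d₂')] at hq
  exact_mod_cast hq

end Final

end Fermat.Agent.S55.G.Lat793

end
-- ===== PACK-END S55/G/Lat793.lean

-- ===== PACK-BEGIN S55/G/UpH119/Desc.lean
section


/-!
# G-UP, part 3: `C_S(L)^N ≅ C_S(L^N)` on cohomology (helper119)

From `DescentSpec` we get, for `N ⊴ G`, isomorphisms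
`Hⁿ(G ⧸ N, C_S(L^N)) ≅ Hⁿ(G ⧸ N, C_S(L)^N)`.
-/

set_option autoImplicit false
set_option linter.style.haveILetI false
set_option linter.unusedSectionVars false

open scoped NumberField TensorProduct Pointwise
open IsDedekindDomain CategoryTheory groupCohomology

noncomputable section

namespace Fermat.Agent.S55.G.UpH119

variable (S : Finset Nat.Primes) (G L : Type) [Group G] [Finite G] [Field L] [NumberField L]
  [MulSemiringAction G L] [FaithfulSMul G L] (N : Subgroup G) [N.Normal]

/-- The output of `DescentSpec` for the fixed field of `N`. -/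
theorem exists_descent (hD : DescentSpec) (hS : S.Nonempty) (hunr : IsUnramOut S G L) :
    letI := quotAct G L N
    ∃ ι : CS S (FixN G L N) →+ CS S L,
      Function.Injective ι ∧
      (∀ (g : G) (c : CS S (FixN G L N)),
        ι (cRepr S (G ⧸ N) (FixN G L N) (g : G ⧸ N) c) = cRepr S G L g (ι c)) ∧
      (∀ c : CS S L, (∀ n : N, cRepr S G L (n : G) c = c) ↔ c ∈ Set.range ι) := by
  letI := quotAct G L N
  obtain ⟨ι, h1, h2, h3, -⟩ := hD S G L (FixN G L N) N hS hunr
    (mem_range_algebraMap_fixN_iff G L N) (algebraMap_quotAct_smul G L N)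
  exact ⟨ι, h1, h2, h3⟩

/-- `Hⁿ(G ⧸ N, C_S(L^N)) ≅ Hⁿ(G ⧸ N, C_S(L)^N)`. -/
theorem nonempty_iso_quot (hD : DescentSpec) (hS : S.Nonempty) (hunr : IsUnramOut S G L)
    (n : ℕ) :
    letI := quotAct G L N
    Nonempty (groupCohomology (CRep S (G ⧸ N) (FixN G L N)) n ≅
      groupCohomology ((CRep S G L).quotientToInvariants N) n) := by
  letI := quotAct G L N
  obtain ⟨ι, hinj, heq, hrange⟩ := exists_descent S G L N hD hS hunr
  -- the linear equivalence onto the invariants
  let f : CS S (FixN G L N) →ₗ[ℤ]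
      ↥(Representation.invariants ((cRepr S G L).comp N.subtype)) :=
    LinearMap.codRestrict _ ι.toIntLinearMap (fun c => by
      intro m
      exact (hrange (ι c)).2 ⟨c, rfl⟩ m)
  have hf : Function.Bijective f := by
    constructor
    · intro a b hab
      exact hinj (congrArg Subtype.val hab)
    · rintro ⟨c, hc⟩
      obtain ⟨a, ha⟩ := (hrange c).1 (fun m => hc m)
      exact ⟨a, Subtype.ext ha⟩
  let e' : CS S (FixN G L N) ≃ₗ[ℤ]
      ↥(Representation.invariants ((cRepr S G L).comp N.subtype)) :=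
    LinearEquiv.ofBijective f hf
  refine ⟨groupCohomology.mapIso (A := (CRep S G L).quotientToInvariants N)
    (B := CRep S (G ⧸ N) (FixN G L N)) (MulEquiv.refl (G ⧸ N)) e' (fun q => ?_) n⟩
  induction q using QuotientGroup.induction_on with | @H g =>
  ext c
  exact heq g c

end Fermat.Agent.S55.G.UpH119

end
end
-- ===== PACK-END S55/G/UpH119/Desc.lean

-- ===== PACK-BEGIN S55/G/Rec/CycloFrobH533.lean
section


/-!
# S55 / layer G / block REC, leaf REC2-L4 (helper533): `CycloFrobSpec`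

`q ∤ m`: the `m`-th roots of unity of `ℚ̄_q` are pairwise incongruent modulo the maximal ideal
(`rootsOfUnity_eq_of_norm_sub_lt_one533`).  Hence an inertial automorphism fixes `μ_m`, and an
automorphism acting as `x ↦ x ^ (q ^ f)` on the residue field acts as `ζ ↦ ζ ^ (q ^ f)` on `μ_m`.
-/

set_option autoImplicit false

namespace Fermat.Agent.S55.G.Rec.H533

open Fermat.Agent.S55.G.Rec

section Core

variable {K : Type*} [NormedField K] [IsUltrametricDist K]

/-- In an ultrametric normed field, `‖ω - 1‖ < 1` implies `‖ω ^ i - 1‖ < 1`. -/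
lemma norm_pow_sub_one_lt533 {ω : K} (h : ‖ω - 1‖ < 1) (i : ℕ) : ‖ω ^ i - 1‖ < 1 := by
  induction i with
  | zero => simp
  | succ i ih =>
    have hω : ‖ω‖ ≤ 1 := by
      have : ω = (ω - 1) + 1 := by ring
      rw [this]
      refine (IsUltrametricDist.norm_add_le_max _ _).trans ?_
      rw [norm_one]
      exact max_le h.le le_rfl
    have e : ω ^ (i + 1) - 1 = (ω ^ i - 1) * ω + (ω - 1) := by ring
    rw [e]
    refine lt_of_le_of_lt (IsUltrametricDist.norm_add_le_max _ _) (max_lt ?_ h)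
    rw [norm_mul]
    calc ‖ω ^ i - 1‖ * ‖ω‖ ≤ ‖ω ^ i - 1‖ * 1 :=
          mul_le_mul_of_nonneg_left hω (norm_nonneg _)
      _ < 1 := by rw [mul_one]; exact ih

/-- In an ultrametric normed field, a finite sum of elements of norm `< 1` has norm `< 1`. -/
lemma norm_sum_lt_one533 {ι : Type*} (s : Finset ι) (f : ι → K) (h : ∀ i ∈ s, ‖f i‖ < 1) :
    ‖∑ i ∈ s, f i‖ < 1 := by
  classical
  induction s using Finset.induction_on with
  | empty => simp
  | insert a s ha ih =>
    rw [Finset.sum_insert ha]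
    refine lt_of_le_of_lt (IsUltrametricDist.norm_add_le_max _ _) (max_lt ?_ ?_)
    · exact h a (Finset.mem_insert_self a s)
    · exact ih fun i hi => h i (Finset.mem_insert_of_mem hi)

/-- If `‖(m : K)‖ = 1`, an `m`-th root of unity `ω` with `‖ω - 1‖ < 1` is `1`. -/
lemma eq_one_of_pow_eq_one_of_norm_sub_lt533 {m : ℕ} (hm : ‖(m : K)‖ = 1) {ω : K}
    (hω : ω ^ m = 1) (h : ‖ω - 1‖ < 1) : ω = 1 := by
  by_contra hne
  have hgeom : (∑ i ∈ Finset.range m, ω ^ i) * (ω - 1) = ω ^ m - 1 := geom_sum_mul ω m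
  rw [hω, sub_self] at hgeom
  have hsum : ∑ i ∈ Finset.range m, ω ^ i = 0 := by
    rcases mul_eq_zero.1 hgeom with h0 | h0
    · exact h0
    · exact absurd (sub_eq_zero.1 h0) hne
  have hm' : (m : K) = - ∑ i ∈ Finset.range m, (ω ^ i - 1) := by
    rw [Finset.sum_sub_distrib, hsum]
    simp
  have hlt : ‖(m : K)‖ < 1 := by
    rw [hm', norm_neg]
    exact norm_sum_lt_one533 _ _ fun i _ => norm_pow_sub_one_lt533 h i
  rw [hm] at hlt
  exact lt_irrefl _ hlt

/-- If `‖(m : K)‖ = 1`, two `m`-th roots of unity which are congruent modulo the maximal ideal are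
equal. -/
lemma rootsOfUnity_eq_of_norm_sub_lt_one533 {m : ℕ} (hm : ‖(m : K)‖ = 1) {ζ ξ : K}
    (hζ : ζ ^ m = 1) (hξ : ξ ^ m = 1) (h : ‖ξ - ζ‖ < 1) : ξ = ζ := by
  have hm0 : m ≠ 0 := by
    rintro rfl
    simp at hm
  have hζ0 : ζ ≠ 0 := by
    rintro rfl
    rw [zero_pow hm0] at hζ
    exact zero_ne_one hζ
  have hnζ : ‖ζ‖ = 1 := by
    have h1 : ‖ζ‖ ^ m = 1 := by rw [← norm_pow, hζ, norm_one]
    exact (pow_eq_one_iff_of_nonneg (norm_nonneg _) hm0).1 h1
  have hω : (ξ / ζ) ^ m = 1 := by rw [div_pow, hζ, hξ, div_one]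
  have hdist : ‖ξ / ζ - 1‖ < 1 := by
    have e : ξ / ζ - 1 = (ξ - ζ) / ζ := by field_simp
    rw [e, norm_div, hnζ, div_one]
    exact h
  have := eq_one_of_pow_eq_one_of_norm_sub_lt533 hm hω hdist
  exact (div_eq_one_iff_eq hζ0).1 this

end Core

section Padic

variable (q : ℕ) [Fact q.Prime]

/-- `‖(m : ℚ̄_q)‖ = 1` for `q ∤ m`. -/
lemma norm_natCast_padicAlgCl533 {m : ℕ} (hm : ¬ q ∣ m) : ‖(m : PadicAlgCl q)‖ = 1 := by
  have h1 : ((m : ℚ_[q]) : PadicAlgCl q) = (m : PadicAlgCl q) := by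
    exact map_natCast (algebraMap ℚ_[q] (PadicAlgCl q)) m
  rw [← h1, PadicAlgCl.norm_extends]
  exact (Padic.norm_natCast_eq_one_iff (p := q)).2 ((Nat.Prime.coprime_iff_not_dvd Fact.out).2 hm)

/-- **REC2-L4.** -/
theorem cycloFrob533 : CycloFrobSpec := by
  intro q _ m hm
  have hnm : ‖(m : PadicAlgCl q)‖ = 1 := norm_natCast_padicAlgCl533 q hm
  have hm0 : m ≠ 0 := by
    rintro rfl
    exact hm (dvd_zero q)
  have hnorm : ∀ ζ : PadicAlgCl q, ζ ^ m = 1 → ‖ζ‖ ≤ 1 := by
    intro ζ hζ
    have h1 : ‖ζ‖ ^ m = 1 := by rw [← norm_pow, hζ, norm_one]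
    exact ((pow_eq_one_iff_of_nonneg (norm_nonneg _) hm0).1 h1).le
  refine ⟨fun τ hτ ζ hζ => ?_, fun τ f hτ ζ hζ => ?_⟩
  · have hτζ : (τ ζ) ^ m = 1 := by rw [← map_pow, hζ, map_one]
    exact rootsOfUnity_eq_of_norm_sub_lt_one533 hnm hζ hτζ (hτ ζ (hnorm ζ hζ))
  · have hτζ : (τ ζ) ^ m = 1 := by rw [← map_pow, hζ, map_one]
    have hζq : (ζ ^ (q ^ f)) ^ m = 1 := by rw [← pow_mul, mul_comm, pow_mul, hζ, one_pow]
    exact rootsOfUnity_eq_of_norm_sub_lt_one533 hnm hζq hτζ (hτ ζ (hnorm ζ hζ))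

end Padic

end Fermat.Agent.S55.G.Rec.H533

end
-- ===== PACK-END S55/G/Rec/CycloFrobH533.lean

-- ===== PACK-BEGIN S55/G/Rec/Loc/ResH480.lean
section


/-!
# S55 / G / REC / LOC : leaf LOC-RES (`ResSpec`), helper480

`theorem res_of (hO : OpenSpec) (hD : DescentSpec) : ResSpec`.

Route: by `DescentSpec` choose a finite Galois level `E / K_V` containing `K_{V'}`, with a cocycle
`f` inflating to `c`.  The same field regarded over `K_{V'}` is a level `E'` of `V'`; the
restriction `f'` of `f` to `Gal(E / K_{V'})` inflates to `c' = c|_{V'}`, and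
`inv(f') = [K_{V'} : K_V] • inv(f)` by `J.inv_transport` and `J.inv_restriction`.
Finally `[K_{V'} : K_V] = [V : V']` by infinite Galois theory and `OpenSpec`.
-/

set_option autoImplicit false

noncomputable section

namespace Fermat.Agent.S55.G.Rec.Loc.H480

open groupCohomology

/-! ## Pull–push of cocycles -/

/-- Pull–push of `2`-cocycles along a group homomorphism `φ : G' →* G` and an additive map
`ψ : A → A'` intertwining the actions. -/
def pullPush₂ {G G' : Type} [Group G] [Group G'] {A : Rep.{0} ℤ G} {A' : Rep.{0} ℤ G'}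
    (φ : G' →* G) (ψ : A →+ A') (hψ : ∀ (g : G') (a : A), ψ (A.ρ (φ g) a) = A'.ρ g (ψ a))
    (f : cocycles₂ A) : cocycles₂ A' :=
  ⟨fun p => ψ ((f : G × G → A) (φ p.1, φ p.2)), by
    rw [mem_cocycles₂_iff]
    intro g h j
    have := (mem_cocycles₂_iff (f : G × G → A)).1 f.2 (φ g) (φ h) (φ j)
    show ψ ((f : G × G → A) (φ (g * h), φ j)) + ψ ((f : G × G → A) (φ g, φ h)) =
      A'.ρ g (ψ ((f : G × G → A) (φ h, φ j))) + ψ ((f : G × G → A) (φ g, φ (h * j)))
    rw [← hψ, ← ψ.map_add, ← ψ.map_add, map_mul, map_mul, this]⟩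

@[simp] lemma pullPush₂_apply {G G' : Type} [Group G] [Group G'] {A : Rep.{0} ℤ G}
    {A' : Rep.{0} ℤ G'}
    (φ : G' →* G) (ψ : A →+ A') (hψ : ∀ (g : G') (a : A), ψ (A.ρ (φ g) a) = A'.ρ g (ψ a))
    (f : cocycles₂ A) (g h : G') :
    (pullPush₂ φ ψ hψ f : G' × G' → A') (g, h) = ψ ((f : G × G → A) (φ g, φ h)) := rfl

/-! ## Abstract restriction of the base field -/

section Abstract

variable {k Ω : Type} [Field k] [Field Ω] [Algebra k Ω]

/-- The `K`-algebra structure on `K'` for intermediate fields `K ≤ K'`. -/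
@[reducible] def algOfLE {K K' : IntermediateField k Ω} (h : K ≤ K') : Algebra K K' :=
  (IntermediateField.inclusion h).toRingHom.toAlgebra

lemma isScalarTower_algOfLE {K K' : IntermediateField k Ω} (h : K ≤ K') :
    letI := algOfLE h
    IsScalarTower K K' Ω :=
  letI := algOfLE h
  IsScalarTower.of_algebraMap_eq (fun _ => rfl)

lemma isScalarTower_base_algOfLE {K K' : IntermediateField k Ω} (h : K ≤ K') :
    letI := algOfLE h
    IsScalarTower k K K' :=
  letI := algOfLE h
  IsScalarTower.of_algebraMap_eq (fun _ => rfl)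

variable {K K' : IntermediateField k Ω}

/-- The identity map `E ≃ E'`, where `E'` is `E` regarded as an intermediate field over `K'`. -/
def upEquiv (hKK' : K ≤ K') (E : IntermediateField K Ω) (hK'E : K' ≤ E.restrictScalars k) :
    letI := algOfLE hKK'
    haveI := isScalarTower_algOfLE hKK'
    ↥E ≃ₐ[K] ↥(IntermediateField.extendScalars hK'E) :=
  letI := algOfLE hKK'
  haveI := isScalarTower_algOfLE hKK'
  { toFun := fun x => ⟨x.1, x.2⟩
    invFun := fun x => ⟨x.1, x.2⟩
    left_inv := fun _ => rfl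
    right_inv := fun _ => rfl
    map_mul' := fun _ _ => rfl
    map_add' := fun _ _ => rfl
    commutes' := fun _ => rfl }

lemma upEquiv_coe (hKK' : K ≤ K') (E : IntermediateField K Ω)
    (hK'E : K' ≤ E.restrictScalars k) (x : E) :
    ((upEquiv hKK' E hK'E x : ↥(IntermediateField.extendScalars hK'E)) : Ω) = (x : Ω) := rfl

lemma finiteDimensional_up (hKK' : K ≤ K') (E : IntermediateField K Ω)
    (hK'E : K' ≤ E.restrictScalars k) [FiniteDimensional K E] :
    FiniteDimensional K' ↥(IntermediateField.extendScalars hK'E) := by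
  let := algOfLE hKK'
  have := isScalarTower_algOfLE hKK'
  have : FiniteDimensional K ↥(IntermediateField.extendScalars hK'E) :=
    (upEquiv hKK' E hK'E).toLinearEquiv.finiteDimensional
  exact Module.Finite.right K K' ↥(IntermediateField.extendScalars hK'E)

lemma isGalois_up (hKK' : K ≤ K') (E : IntermediateField K Ω)
    (hK'E : K' ≤ E.restrictScalars k) [IsGalois K E] :
    IsGalois K' ↥(IntermediateField.extendScalars hK'E) := by
  let := algOfLE hKK'
  have := isScalarTower_algOfLE hKK'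
  have : IsGalois K ↥(IntermediateField.extendScalars hK'E) :=
    IsGalois.of_algEquiv (upEquiv hKK' E hK'E)
  exact IsGalois.tower_top_of_isGalois K K' ↥(IntermediateField.extendScalars hK'E)

/-- The restriction homomorphism `Gal(E / K') → Gal(E / K)` (with `E` over `K'` realised as
`extendScalars`). -/
def downHom (hKK' : K ≤ K') (E : IntermediateField K Ω) (hK'E : K' ≤ E.restrictScalars k) :
    (↥(IntermediateField.extendScalars hK'E) ≃ₐ[K'] ↥(IntermediateField.extendScalars hK'E)) →*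
      (↥E ≃ₐ[K] ↥E) :=
  letI := algOfLE hKK'
  haveI := isScalarTower_algOfLE hKK'
  (AlgEquiv.autCongr (upEquiv hKK' E hK'E)).symm.toMonoidHom.comp
    (AlgEquiv.restrictScalarsHom K)

lemma downHom_apply_coe (hKK' : K ≤ K') (E : IntermediateField K Ω)
    (hK'E : K' ≤ E.restrictScalars k)
    (g : ↥(IntermediateField.extendScalars hK'E) ≃ₐ[K'] ↥(IntermediateField.extendScalars hK'E))
    (x : E) :
    ((downHom hKK' E hK'E g x : E) : Ω) =
      ((g ⟨x.1, x.2⟩ : ↥(IntermediateField.extendScalars hK'E)) : Ω) := rfl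

/-- The coefficient map `Eˣ → E'ˣ` (identity on carriers). -/
def upUnits (hKK' : K ≤ K') (E : IntermediateField K Ω) (hK'E : K' ≤ E.restrictScalars k) :
    L.unitsRep K E →+ L.unitsRep K' ↥(IntermediateField.extendScalars hK'E) :=
  letI := algOfLE hKK'
  haveI := isScalarTower_algOfLE hKK'
  (show Additive (↥E)ˣ →+ Additive (↥(IntermediateField.extendScalars hK'E))ˣ from
    MonoidHom.toAdditive (Units.map ((upEquiv hKK' E hK'E : ↥E ≃ₐ[K] _) : ↥E →* _)))

lemma upUnits_coe (hKK' : K ≤ K') (E : IntermediateField K Ω)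
    (hK'E : K' ≤ E.restrictScalars k) (a : L.unitsRep K E) :
    (((Additive.toMul (upUnits hKK' E hK'E a) :
        (↥(IntermediateField.extendScalars hK'E))ˣ) :
        ↥(IntermediateField.extendScalars hK'E)) : Ω) =
      (((Additive.toMul a : (↥E)ˣ) : ↥E) : Ω) := rfl

/-- The restriction of a cocycle on `Gal(E/K)` to `Gal(E/K')`. -/
def resCocycle (hKK' : K ≤ K') (E : IntermediateField K Ω) (hK'E : K' ≤ E.restrictScalars k)
    (f : cocycles₂ (L.unitsRep K E)) :
    cocycles₂ (L.unitsRep K' ↥(IntermediateField.extendScalars hK'E)) :=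
  pullPush₂ (downHom hKK' E hK'E) (upUnits hKK' E hK'E) (fun _ _ => rfl) f

lemma resCocycle_apply (hKK' : K ≤ K') (E : IntermediateField K Ω)
    (hK'E : K' ≤ E.restrictScalars k) (f : cocycles₂ (L.unitsRep K E))
    (g h : ↥(IntermediateField.extendScalars hK'E) ≃ₐ[K']
      ↥(IntermediateField.extendScalars hK'E)) :
    (resCocycle hKK' E hK'E f : _ × _ → _) (g, h) =
      upUnits hKK' E hK'E
        ((f : (↥E ≃ₐ[K] ↥E) × (↥E ≃ₐ[K] ↥E) → L.unitsRep K E)
          (downHom hKK' E hK'E g, downHom hKK' E hK'E h)) := rfl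

/-- The invariant of the restricted cocycle. -/
theorem inv_resCocycle (hKK' : K ≤ K') (E : IntermediateField K Ω)
    (hK'E : K' ≤ E.restrictScalars k) [L.IsLocalFld K] [L.IsLocalFld K']
    [FiniteDimensional K E] [IsGalois K E]
    [FiniteDimensional K' ↥(IntermediateField.extendScalars hK'E)]
    [IsGalois K' ↥(IntermediateField.extendScalars hK'E)]
    (J : L.InvFamily) (f : cocycles₂ (L.unitsRep K E)) :
    J.inv K' ↥(IntermediateField.extendScalars hK'E) (L.cls (resCocycle hKK' E hK'E f)) =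
      (@Module.finrank K K' _ _ (algOfLE hKK').toModule) • J.inv K E (L.cls f) := by
  let := algOfLE hKK'
  have := isScalarTower_algOfLE hKK'
  have : FiniteDimensional K ↥(IntermediateField.extendScalars hK'E) :=
    (upEquiv hKK' E hK'E).toLinearEquiv.finiteDimensional
  have : IsGalois K ↥(IntermediateField.extendScalars hK'E) :=
    IsGalois.of_algEquiv (upEquiv hKK' E hK'E)
  let cc : (↥E ≃ₐ[K] ↥E) ≃* (↥(IntermediateField.extendScalars hK'E) ≃ₐ[K]
      ↥(IntermediateField.extendScalars hK'E)) := AlgEquiv.autCongr (upEquiv hKK' E hK'E)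
  let ψ₁ : L.unitsRep K E →+ L.unitsRep K ↥(IntermediateField.extendScalars hK'E) :=
    (show Additive (↥E)ˣ →+ Additive (↥(IntermediateField.extendScalars hK'E))ˣ from
      MonoidHom.toAdditive (Units.map ((upEquiv hKK' E hK'E : ↥E ≃ₐ[K] _) : ↥E →* _)))
  let f₁ : cocycles₂ (L.unitsRep K ↥(IntermediateField.extendScalars hK'E)) :=
    pullPush₂ cc.symm.toMonoidHom ψ₁ (fun _ _ => rfl) f
  have htr : L.IsTransport ((upEquiv hKK' E hK'E : ↥E ≃ₐ[K] _) : ↥E ≃+* _) cc f f₁ := by
    intro g h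
    rfl
  have hres : L.IsRestriction f₁ (resCocycle hKK' E hK'E f) := by
    intro g h
    rfl
  rw [J.inv_restriction K K' ↥(IntermediateField.extendScalars hK'E) f₁ _ hres,
    J.inv_transport K ↥E K ↥(IntermediateField.extendScalars hK'E) _ cc (fun _ _ => rfl)
      f f₁ htr]

end Abstract

/-! ## The `q`-adic situation -/

section Padic

variable (q : ℕ) [Fact q.Prime]

local notation "Gq" => (PadicAlgCl q ≃ₐ[ℚ_[q]] PadicAlgCl q)

/-- `PadicAlgCl q / ℚ_q` is Galois. -/
theorem isGalois_padicAlgCl_h480 : IsGalois ℚ_[q] (PadicAlgCl q) := by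
  have : IsAlgClosure ℚ_[q] (PadicAlgCl q) := ⟨inferInstance, inferInstance⟩
  have : Normal ℚ_[q] (PadicAlgCl q) := IsAlgClosure.normal ℚ_[q] (PadicAlgCl q)
  exact isGalois_iff.mpr ⟨inferInstance, inferInstance⟩

lemma fixedFld_mono {V V' : Subgroup Gq} (h : V' ≤ V) : fixedFld q V ≤ fixedFld q V' := by
  intro x hx
  exact fun g => hx ⟨g.1, h g.2⟩

lemma isOpenL_mono {V V' : Subgroup Gq} (h : V' ≤ V) (hV' : IsOpenL q V') : IsOpenL q V := by
  obtain ⟨E, hE, hEV⟩ := hV'
  exact ⟨E, hE, hEV.trans h⟩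

/-- `[K_{V'} : K_V] = [V : V']` for open `V' ≤ V`. -/
lemma finrank_eq_relIndex (hO : OpenSpec) {V V' : Subgroup Gq} (h : V' ≤ V)
    (hV' : IsOpenL q V') :
    @Module.finrank (fixedFld q V) (fixedFld q V') _ _ (algOfLE (fixedFld_mono q h)).toModule =
      V'.relIndex V := by
  let := algOfLE (fixedFld_mono q h)
  have := isScalarTower_base_algOfLE (fixedFld_mono q h)
  have := isGalois_padicAlgCl_h480 q
  obtain ⟨hfd', hfix'⟩ := hO q V' hV'
  obtain ⟨hfd, hfix⟩ := hO q V (_root_.Fermat.Agent.S55.G.Rec.Loc.H480.isOpenL_mono q h hV')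
  have h1 := IntermediateField.finrank_eq_fixingSubgroup_index (F := ℚ_[q])
    (E' := PadicAlgCl q) (fixedFld q V)
  have h2 := IntermediateField.finrank_eq_fixingSubgroup_index (F := ℚ_[q])
    (E' := PadicAlgCl q) (fixedFld q V')
  rw [hfix] at h1
  rw [hfix'] at h2
  have h3 := Module.finrank_mul_finrank ℚ_[q] (fixedFld q V) (fixedFld q V')
  have h4 := Subgroup.relIndex_mul_index h
  have hpos : 0 < Module.finrank ℚ_[q] (fixedFld q V) := Module.finrank_pos
  rw [h1] at h3 hpos
  rw [h2, ← h4, mul_comm] at h3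
  exact Nat.eq_of_mul_eq_mul_right hpos h3

/-- `K_{V'}` is finite over `K_V`. -/
lemma finiteDimensional_extendScalars (hO : OpenSpec) {V V' : Subgroup Gq} (h : V' ≤ V)
    (hV' : IsOpenL q V') :
    FiniteDimensional (fixedFld q V)
      ↥(IntermediateField.extendScalars (fixedFld_mono q h)) := by
  let := algOfLE (fixedFld_mono q h)
  have := isScalarTower_base_algOfLE (fixedFld_mono q h)
  obtain ⟨hfd', -⟩ := hO q V' hV'
  have : FiniteDimensional (fixedFld q V) (fixedFld q V') :=
    Module.Finite.right ℚ_[q] (fixedFld q V) (fixedFld q V')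
  let e₀ : ↥(fixedFld q V') ≃ₗ[fixedFld q V]
      ↥(IntermediateField.extendScalars (fixedFld_mono q h)) :=
    { toFun := fun x => ⟨x.1, x.2⟩
      invFun := fun x => ⟨x.1, x.2⟩
      left_inv := fun _ => rfl
      right_inv := fun _ => rfl
      map_add' := fun _ _ => rfl
      map_smul' := fun _ _ => rfl }
  exact e₀.finiteDimensional

/-- Compatibility of the finite-level restriction maps. -/
lemma downHom_resHom {V V' : Subgroup Gq} (h : V' ≤ V)
    (E : IntermediateField (fixedFld q V) (PadicAlgCl q)) [Normal (fixedFld q V) E]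
    (hK'E : fixedFld q V' ≤ E.restrictScalars ℚ_[q])
    [Normal (fixedFld q V') ↥(IntermediateField.extendScalars hK'E)] (g : ↥V') :
    downHom (fixedFld_mono q h) E hK'E
        (resHom q V' (IntermediateField.extendScalars hK'E) g) =
      resHom q V E (Subgroup.inclusion h g) := by
  apply AlgEquiv.ext
  intro x
  apply Subtype.ext
  rw [downHom_apply_coe, resHom_apply_coe, resHom_apply_coe]
  rfl

/-- The restricted cocycle inflates to the restricted level cocycle. -/
lemma isAbsInflation_resCocycle {V V' : Subgroup Gq} (h : V' ≤ V)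
    (E : IntermediateField (fixedFld q V) (PadicAlgCl q)) [Normal (fixedFld q V) E]
    (hK'E : fixedFld q V' ≤ E.restrictScalars ℚ_[q])
    [Normal (fixedFld q V') ↥(IntermediateField.extendScalars hK'E)]
    (f : cocycles₂ (L.unitsRep (fixedFld q V) E))
    (c : ↥(levelCocycles₂ (lHom q V) (lModOn q V)))
    (c' : ↥(levelCocycles₂ (lHom q V') (lModOn q V')))
    (hcc' : ∀ g k : ↥V', (c' : ↥V' × ↥V' → lModOn q V') (g, k) =
        (c : ↥V × ↥V → lModOn q V) (Subgroup.inclusion h g, Subgroup.inclusion h k))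
    (hinf : IsAbsInflation q V E f c) :
    IsAbsInflation q V' (IntermediateField.extendScalars hK'E)
      (resCocycle (fixedFld_mono q h) E hK'E f) c' := by
  funext ⟨g, k⟩
  rw [hcc' g k, hinf]
  show inflCochain₂ q V E _ (Subgroup.inclusion h g, Subgroup.inclusion h k) =
    inflCochain₂ q V' (IntermediateField.extendScalars hK'E) _ (g, k)
  unfold inflCochain₂
  simp only [resCocycle_apply]
  rfl

/-- **LOC-RES** from `OpenSpec` and `DescentSpec`. -/
theorem res_of (hO : OpenSpec) (hD : _root_.Fermat.Agent.S55.G.Rec.Loc.DescentSpec) : ResSpec := by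
  intro q _ V V' _ _ h hV' c c' hcc'
  have hV : IsOpenL q V := _root_.Fermat.Agent.S55.G.Rec.Loc.H480.isOpenL_mono q h hV'
  obtain ⟨E, hEfd, hEgal, f, hE₀E, hinf⟩ := hD q V hV c
    (IntermediateField.extendScalars (fixedFld_mono q h))
    (finiteDimensional_extendScalars q hO h hV')
  have hK'E : fixedFld q V' ≤ E.restrictScalars ℚ_[q] := fun x hx => hE₀E hx
  have fd' := finiteDimensional_up (fixedFld_mono q h) E hK'E
  have gal' := isGalois_up (fixedFld_mono q h) E hK'E
  refine ⟨E, hEfd, hEgal, f, IntermediateField.extendScalars hK'E, fd', gal',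
    resCocycle (fixedFld_mono q h) E hK'E f, hinf,
    isAbsInflation_resCocycle q h E hK'E f c c' hcc' hinf, fun J => ?_⟩
  rw [inv_resCocycle (fixedFld_mono q h) E hK'E J f, finrank_eq_relIndex q hO h hV']

end Padic

end Fermat.Agent.S55.G.Rec.Loc.H480

end
end
-- ===== PACK-END S55/G/Rec/Loc/ResH480.lean

-- ===== PACK-BEGIN S55/L/UnrInv/Frob.lean
section


/-!
# S55, layer L, unramified invariants: rings of integers under isomorphisms, Frobenius elements
-/

set_option autoImplicit false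
set_option linter.style.haveILetI false

namespace Fermat.Agent.S55.L.UnrInv

/-- Non-units of a valuation subring: integers whose inverse is not an integer. -/
theorem mem_nonunits_iff_mem_and_inv_not_mem {F : Type*} [Field F] (C : ValuationSubring F)
    {y : F} (hy : y ≠ 0) : y ∈ C.nonunits ↔ y ∈ C ∧ y⁻¹ ∉ C := by
  have hv : C.valuation y ≠ 0 := (Valuation.ne_zero_iff _).mpr hy
  rw [C.mem_nonunits_iff]
  constructor
  · intro h
    refine ⟨(C.valuation_le_one_iff y).mp h.le, fun h' => ?_⟩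
    have h1 : C.valuation y⁻¹ ≤ 1 := (C.valuation_le_one_iff _).mpr h'
    rw [map_inv₀] at h1
    have h2 : 1 ≤ C.valuation y := (inv_le_one₀ (zero_lt_iff.mpr hv)).mp h1
    exact absurd h (not_lt.mpr h2)
  · rintro ⟨h1, h2⟩
    have h3 : C.valuation y ≤ 1 := (C.valuation_le_one_iff y).mpr h1
    rcases h3.lt_or_eq with h | h
    · exact h
    · exfalso
      apply h2
      rw [← C.valuation_le_one_iff, map_inv₀, h, inv_one]

section Equiv

variable {E E' : Type} [Field E] [Field E']

/-- A ring isomorphism of local fields maps integers to integers. -/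
theorem mem_of_ringEquiv (hint : IntegersComapSpec) [IsLocalFld E] (e : E ≃+* E')
    (B : ValuationSubring E) (B' : ValuationSubring E')
    (hB : IsLocalRingOfIntegers B) (hB' : IsLocalRingOfIntegers B') {x : E} :
    e x ∈ B' ↔ x ∈ B := by
  letI : Algebra E E' := e.toRingHom.toAlgebra
  haveI : FiniteDimensional E E' :=
    Module.Finite.of_surjective (Algebra.linearMap E E') e.surjective
  exact hint E E' B B' hB hB' x

/-- A ring isomorphism of local fields maps non-units to non-units. -/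
theorem mem_nonunits_of_ringEquiv (hint : IntegersComapSpec) [IsLocalFld E] (e : E ≃+* E')
    (B : ValuationSubring E) (B' : ValuationSubring E')
    (hB : IsLocalRingOfIntegers B) (hB' : IsLocalRingOfIntegers B') {x : E} :
    e x ∈ B'.nonunits ↔ x ∈ B.nonunits := by
  have key : ∀ y : E, e y ∈ B' ↔ y ∈ B := fun y => mem_of_ringEquiv hint e B B' hB hB'
  by_cases hx : x = 0
  · subst hx
    simp
  rw [mem_nonunits_iff_mem_and_inv_not_mem B hx,
    mem_nonunits_iff_mem_and_inv_not_mem B' ((map_ne_zero e).mpr hx), key, ← map_inv₀, key]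

end Equiv

section Finite

variable {K L : Type} [Field K] [Field L] [Algebra K L] [FiniteDimensional K L] [IsLocalFld K]

/-- Non-units map to non-units in a finite extension. -/
theorem algebraMap_mem_nonunits_iff (hint : IntegersComapSpec)
    (A : ValuationSubring K) (B : ValuationSubring L)
    (hA : IsLocalRingOfIntegers A) (hB : IsLocalRingOfIntegers B) {x : K} :
    algebraMap K L x ∈ B.nonunits ↔ x ∈ A.nonunits := by
  have key : ∀ y : K, algebraMap K L y ∈ B ↔ y ∈ A := fun y => hint K L A B hA hB y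
  by_cases hx : x = 0
  · subst hx
    simp
  rw [mem_nonunits_iff_mem_and_inv_not_mem A hx,
    mem_nonunits_iff_mem_and_inv_not_mem B ((map_ne_zero _).mpr hx), key, ← map_inv₀, key]

end Finite

end Fermat.Agent.S55.L.UnrInv

end
-- ===== PACK-END S55/L/UnrInv/Frob.lean

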