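import Fermat.Agent.Pack.S56.E7L1
import Fermat.Agent.Pack.S56.E0L1
import Fermat.Agent.Pack.S56.E7L3
import Fermat.Agent.Pack.S56.E3L1
import Fermat.Agent.Pack.S56.E5L3
import Fermat.Agent.Pack.S56.E4L2
import Fermat.Agent.Pack.S56.E8L3
import Fermat.Agent.Pack.S56.E1L1
import Fermat.Agent.Pack.S56.E5L2
import Fermat.Agent.Pack.S56.E8L1
import Fermat.Agent.Pack.S56.E7L2
import Fermat.Agent.Pack.S56.E8L2
import Fermat.Agent.Pack.S56.E8L0
import Fermat.Agent.Pack.S56.E4L3
import Fermat.Agent.Pack.S56.E5L0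
import Fermat.Agent.Pack.S56.E0L0

-- ===== PACK-BEGIN S55/G/Rec/L4L6H854.lean
section


/-!
# S55 / layer G / block REC : leaves L4 (`CycloFrobSpec`) and L6 (`LocalRootSpec`)   (helper854)

Key lemma: in an ultrametric normed field, if `‖(m : K)‖ = 1` then two `m`-th roots of unity
which are congruent modulo the maximal ideal (`‖ζ - ζ'‖ < 1`) are equal.

* `cycloFrob : CycloFrobSpec`
* `localRoot : LocalRootSpec`
-/

set_option autoImplicit false

noncomputable section

namespace Fermat.Agent.S55.G.Rec.H854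

open Fermat.Agent.S55.G.Rec

section Ultra

variable {K : Type*} [NormedField K] [IsUltrametricDist K]

lemma norm_sub_le_max_h854 (x y : K) : ‖x - y‖ ≤ max ‖x‖ ‖y‖ := by
  have h := IsUltrametricDist.norm_add_le_max x (-y)
  rwa [norm_neg, ← sub_eq_add_neg] at h

lemma norm_geom_sum_le_one (u : K) (hu : ‖u‖ ≤ 1) (i : ℕ) :
    ‖∑ j ∈ Finset.range i, u ^ j‖ ≤ 1 := by
  apply IsUltrametricDist.norm_sum_le_of_forall_le_of_nonneg zero_le_one
  intro j _
  rw [norm_pow]
  exact pow_le_one₀ (norm_nonneg _) hu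

lemma norm_pow_sub_one_le (u : K) (hu : ‖u‖ ≤ 1) (i : ℕ) : ‖u ^ i - 1‖ ≤ ‖u - 1‖ := by
  have h : u ^ i - 1 = (∑ j ∈ Finset.range i, u ^ j) * (u - 1) := (geom_sum_mul u i).symm
  rw [h, norm_mul]
  calc ‖∑ j ∈ Finset.range i, u ^ j‖ * ‖u - 1‖ ≤ 1 * ‖u - 1‖ := by
        gcongr
        exact norm_geom_sum_le_one u hu i
    _ = ‖u - 1‖ := one_mul _

omit [IsUltrametricDist K] in
lemma norm_eq_one_of_pow_eq_one {m : ℕ} (hm0 : m ≠ 0) (u : K) (hu : u ^ m = 1) : ‖u‖ = 1 := by
  have h : ‖u‖ ^ m = 1 := by rw [← norm_pow, hu, norm_one]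
  exact (pow_eq_one_iff_of_nonneg (norm_nonneg _) hm0).mp h

/-- A root of unity of order prime to the residue characteristic which is `≡ 1` is `1`. -/
lemma eq_one_of_pow_eq_one_of_norm_lt (m : ℕ) (hm : ‖(m : K)‖ = 1) (u : K) (hu : u ^ m = 1)
    (h1 : ‖u - 1‖ < 1) : u = 1 := by
  by_contra hne
  have hm0 : m ≠ 0 := by
    rintro rfl
    simp at hm
  have hnorm : ‖u‖ = 1 := norm_eq_one_of_pow_eq_one hm0 u hu
  have hsum : ∑ j ∈ Finset.range m, u ^ j = 0 := by
    have h := geom_sum_mul u m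
    rw [hu, sub_self] at h
    exact (mul_eq_zero.mp h).resolve_right (sub_ne_zero.mpr hne)
  have hmK : (m : K) = - ∑ j ∈ Finset.range m, (u ^ j - 1) := by
    rw [Finset.sum_sub_distrib, hsum]
    simp
  have hlt : ‖(m : K)‖ < 1 := by
    rw [hmK, norm_neg]
    exact lt_of_le_of_lt
      (IsUltrametricDist.norm_sum_le_of_forall_le_of_nonneg (norm_nonneg _)
        (fun j _ => norm_pow_sub_one_le u hnorm.le j)) h1
  rw [hm] at hlt
  exact lt_irrefl _ hlt

/-- Two `m`-th roots of unity which are congruent are equal (`m` a unit of the valuation ring). -/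
lemma eq_of_pow_eq_one_of_norm_sub_lt (m : ℕ) (hm : ‖(m : K)‖ = 1) (ζ ζ' : K) (hζ : ζ ^ m = 1)
    (hζ' : ζ' ^ m = 1) (h1 : ‖ζ' - ζ‖ < 1) : ζ' = ζ := by
  have hm0 : m ≠ 0 := by
    rintro rfl
    simp at hm
  have hn : ‖ζ‖ = 1 := norm_eq_one_of_pow_eq_one hm0 ζ hζ
  have hζ0 : ζ ≠ 0 := by
    rintro rfl
    simp at hn
  have hu : (ζ' / ζ) ^ m = 1 := by rw [div_pow, hζ, hζ', div_one]
  have h2 : ‖ζ' / ζ - 1‖ < 1 := by
    have : ζ' / ζ - 1 = (ζ' - ζ) / ζ := by field_simp
    rw [this, norm_div, hn, div_one]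
    exact h1
  have := eq_one_of_pow_eq_one_of_norm_lt m hm (ζ' / ζ) hu h2
  rwa [div_eq_one_iff_eq hζ0] at this

/-- Two elements of norm `1` with the same `m`-th power which are congruent are equal. -/
lemma eq_of_pow_eq_pow_of_norm_sub_lt (m : ℕ) (hm : ‖(m : K)‖ = 1) (x y : K) (hy : ‖y‖ = 1)
    (h : x ^ m = y ^ m) (h1 : ‖x - y‖ < 1) : x = y := by
  have hy0 : y ≠ 0 := by
    rintro rfl
    simp at hy
  have hu : (x / y) ^ m = 1 := by
    rw [div_pow, h]
    exact div_self (pow_ne_zero _ hy0)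
  have h2 : ‖x / y - 1‖ < 1 := by
    have : x / y - 1 = (x - y) / y := by field_simp
    rw [this, norm_div, hy, div_one]
    exact h1
  have := eq_one_of_pow_eq_one_of_norm_lt m hm (x / y) hu h2
  rwa [div_eq_one_iff_eq hy0] at this

lemma norm_eq_one_of_norm_one_sub_lt (b : K) (h : ‖1 - b‖ < 1) : ‖b‖ = 1 := by
  apply le_antisymm
  · have h1 : ‖b‖ = ‖1 - (1 - b)‖ := by congr 1; ring
    rw [h1]
    refine (norm_sub_le_max_h854 _ _).trans ?_
    rw [norm_one]
    exact max_le le_rfl h.le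
  · by_contra hlt
    replace hlt := not_le.mp hlt
    have h1 : ‖(1 : K)‖ = ‖b + (1 - b)‖ := by congr 1; ring
    have h2 : ‖(1 : K)‖ < 1 := by
      rw [h1]
      exact lt_of_le_of_lt (IsUltrametricDist.norm_add_le_max _ _) (max_lt hlt h)
    rw [norm_one] at h2
    exact lt_irrefl _ h2

omit [IsUltrametricDist K] in
lemma exists_norm_lt_one_of_norm_prod_lt_one (s : Multiset K) (h : ‖s.prod‖ < 1) :
    ∃ x ∈ s, ‖x‖ < 1 := by
  induction s using Multiset.induction_on with
  | empty => simp at h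
  | cons a t ih =>
    rw [Multiset.prod_cons, norm_mul] at h
    by_cases ha : ‖a‖ < 1
    · exact ⟨a, Multiset.mem_cons_self a t, ha⟩
    · replace ha := not_lt.mp ha
      have ht : ‖t.prod‖ < 1 := by
        by_contra hge
        replace hge := not_lt.mp hge
        have : (1 : ℝ) ≤ ‖a‖ * ‖t.prod‖ := one_le_mul_of_one_le_of_one_le ha hge
        exact absurd h (not_lt.mpr this)
      obtain ⟨x, hx, hx1⟩ := ih ht
      exact ⟨x, Multiset.mem_cons_of_mem hx, hx1⟩

end Ultra

section Padic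

variable (q : ℕ) [Fact q.Prime]

lemma norm_natCast_padicAlgCl_eq_one {m : ℕ} (hm : ¬ q ∣ m) : ‖(m : PadicAlgCl q)‖ = 1 := by
  have h : (m : PadicAlgCl q) = algebraMap ℚ_[q] (PadicAlgCl q) (m : ℚ_[q]) := by
    simp
  rw [h]
  have := PadicAlgCl.norm_extends q (m : ℚ_[q])
  rw [this, Padic.norm_natCast_eq_one_iff]
  exact (Nat.Prime.coprime_iff_not_dvd (Fact.out : q.Prime)).mpr hm

lemma norm_algEquiv_padicAlgCl (τ : PadicAlgCl q ≃ₐ[ℚ_[q]] PadicAlgCl q) (y : PadicAlgCl q) :
    ‖τ y‖ = ‖y‖ := by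
  have := nnnorm_padicAlgCl_algEquiv q τ y
  exact congrArg NNReal.toReal this

/-- (L4) -/
theorem cycloFrob : CycloFrobSpec := by
  intro q _ m hqm
  have hm : ‖(m : PadicAlgCl q)‖ = 1 := norm_natCast_padicAlgCl_eq_one q hqm
  have hm0 : m ≠ 0 := by
    rintro rfl
    exact hqm (dvd_zero q)
  refine ⟨?_, ?_⟩
  · intro τ hτ ζ hζ
    have hn : ‖ζ‖ = 1 := norm_eq_one_of_pow_eq_one hm0 ζ hζ
    have hτζ : (τ ζ) ^ m = 1 := by rw [← map_pow, hζ, map_one]
    exact eq_of_pow_eq_one_of_norm_sub_lt m hm ζ (τ ζ) hζ hτζ (hτ ζ hn.le)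
  · intro τ f hτ ζ hζ
    have hn : ‖ζ‖ = 1 := norm_eq_one_of_pow_eq_one hm0 ζ hζ
    have hτζ : (τ ζ) ^ m = 1 := by rw [← map_pow, hζ, map_one]
    have hζq : (ζ ^ (q ^ f)) ^ m = 1 := by rw [← pow_mul, mul_comm, pow_mul, hζ, one_pow]
    exact eq_of_pow_eq_one_of_norm_sub_lt m hm (ζ ^ (q ^ f)) (τ ζ) hζq hτζ (hτ ζ hn.le)

/-- (L6) -/
theorem localRoot : LocalRootSpec := by
  intro q _ V n hqn a haV ha1
  have hn0 : n ≠ 0 := by
    rintro rfl
    exact hqn (dvd_zero q)
  have hn : ‖(n : PadicAlgCl q)‖ = 1 := norm_natCast_padicAlgCl_eq_one q hqn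
  have hmonic : (Polynomial.X ^ n - Polynomial.C (a : PadicAlgCl q)).Monic :=
    Polynomial.monic_X_pow_sub_C _ hn0
  have hsplits : (Polynomial.X ^ n - Polynomial.C (a : PadicAlgCl q)).Splits :=
    IsAlgClosed.splits _
  have heval := hsplits.eval_eq_prod_roots_of_monic hmonic 1
  have he : (Polynomial.X ^ n - Polynomial.C (a : PadicAlgCl q)).eval 1
      = 1 - (a : PadicAlgCl q) := by simp
  have hlt : ‖((Polynomial.X ^ n - Polynomial.C (a : PadicAlgCl q)).roots.map (1 - ·)).prod‖
      < 1 := by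
    rw [← heval, he, norm_sub_rev]
    exact ha1
  obtain ⟨y, hy, hylt⟩ := exists_norm_lt_one_of_norm_prod_lt_one _ hlt
  obtain ⟨b, hb, rfl⟩ := Multiset.mem_map.mp hy
  have hbroot : b ^ n = (a : PadicAlgCl q) := by
    have := (Polynomial.mem_roots hmonic.ne_zero).mp hb
    simpa [Polynomial.IsRoot, sub_eq_zero] using this
  have hbn : ‖b‖ = 1 := norm_eq_one_of_norm_one_sub_lt b hylt
  have hb0 : b ≠ 0 := by
    rintro rfl
    simp at hbn
  refine ⟨Units.mk0 b hb0, ?_, ?_⟩
  · intro τ hτ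
    apply Units.ext
    show τ b = b
    have ha' : τ (a : PadicAlgCl q) = (a : PadicAlgCl q) := congrArg Units.val (haV τ hτ)
    have h1 : (τ b) ^ n = b ^ n := by
      rw [← map_pow, hbroot, ha']
    have h2 : ‖τ b - b‖ < 1 := by
      have h3 : τ b - b = (1 - b) - τ (1 - b) := by
        rw [map_sub, map_one]
        ring
      rw [h3]
      refine lt_of_le_of_lt (norm_sub_le_max_h854 _ _) (max_lt hylt ?_)
      rw [norm_algEquiv_padicAlgCl]
      exact hylt
    exact eq_of_pow_eq_pow_of_norm_sub_lt n hn (τ b) b hbn h1 h2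
  · apply Units.ext
    rw [Units.val_pow_eq_pow_val]
    exact hbroot

end Padic

end Fermat.Agent.S55.G.Rec.H854

end
end
-- ===== PACK-END S55/G/Rec/L4L6H854.lean

-- ===== PACK-BEGIN S55/G/Rec/Glob/Basic.lean
section



/-!
# S55 / layer G / block REC / GLOBAL finite-level dictionary, part 1 (helper64)

For an open subgroup `U ≤ G_ℚ = Gal(ℚ̄/ℚ)` (`IsOpenQ U`):

* `fixedFld U` : the fixed field `K_U`, an `IntermediateField ℚ ℚ̄`;
  `finiteDimensional_fixedFld`, `fixingSubgroup_fixedFld : K_U.fixingSubgroup = U`;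
* levels `E : IntermediateField K_U ℚ̄`, finite Galois over `K_U`;
  `resHom U E : U →* Gal(E / K_U)`, `resHom_surjective`, `resHom_eq_one_iff`;
* `levelFld U E : IntermediateField ℚ ℚ̄` (the field `E` over `ℚ`), finite over `ℚ`, and
  `resHom_eq_one_of_mem_fixingSubgroup`;
* `exists_level` : there is a finite Galois level containing any given number field and any given
  finite set of elements.

(The local analogue is helper477's `G/Rec/Loc/`.)
-/

set_option autoImplicit false
set_option linter.style.haveILetI false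

noncomputable section

namespace Fermat.Agent.S55.G.Rec.Glob

open groupCohomology IntermediateField

local notation "Qb" => AlgebraicClosure ℚ
local notation "GQ" => (AlgebraicClosure ℚ ≃ₐ[ℚ] AlgebraicClosure ℚ)

attribute [local instance] Bridge.isAlgebraic_Qbar Bridge.isGalois_Qbar

/-- The fixed field `K_U` of `U ≤ G_ℚ`. -/
abbrev fixedFld (U : Subgroup GQ) : IntermediateField ℚ Qb := IntermediateField.fixedField U

lemma le_fixingSubgroup_fixedFld (U : Subgroup GQ) : U ≤ (fixedFld U).fixingSubgroup :=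
  (IntermediateField.le_iff_le U (fixedFld U)).1 le_rfl

/-- An open subgroup is the fixing subgroup of its fixed field. -/
theorem fixingSubgroup_fixedFld {U : Subgroup GQ} (hU : IsOpenQ U) :
    (fixedFld U).fixingSubgroup = U := by
  obtain ⟨F, hFfin, hF⟩ := hU
  have hopen : IsOpen (U : Set GQ) :=
    Subgroup.isOpen_mono hF (IntermediateField.fixingSubgroup_isOpen F)
  exact InfiniteGalois.fixingSubgroup_fixedField ⟨U, Subgroup.isClosed_of_isOpen U hopen⟩

/-- The fixed field of an open subgroup is a number field. -/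
theorem finiteDimensional_fixedFld {U : Subgroup GQ} (hU : IsOpenQ U) :
    FiniteDimensional ℚ (fixedFld U) := by
  obtain ⟨F, hFfin, hF⟩ := hU
  have hle : fixedFld U ≤ F := by
    rw [← InfiniteGalois.fixedField_fixingSubgroup F]
    exact IntermediateField.fixedField_antitone hF
  exact FiniteDimensional.of_injective (IntermediateField.inclusion hle).toLinearMap
    (IntermediateField.inclusion_injective hle)

lemma mem_of_fixes_fixedFld {U : Subgroup GQ} (hU : IsOpenQ U) {σ : GQ}
    (h : ∀ x ∈ fixedFld U, σ x = x) : σ ∈ U := by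
  rw [← fixingSubgroup_fixedFld hU, IntermediateField.mem_fixingSubgroup_iff]
  exact h

/-! ### The absolute Galois group of `K_U` and restriction to levels -/

/-- `U → Gal(ℚ̄ / K_U)`. -/
def toAbsGal (U : Subgroup GQ) : ↥U →* (Qb ≃ₐ[fixedFld U] Qb) :=
  (IntermediateField.fixingSubgroupEquiv (fixedFld U)).toMonoidHom.comp
    (Subgroup.inclusion (le_fixingSubgroup_fixedFld U))

@[simp] lemma toAbsGal_apply (U : Subgroup GQ) (σ : ↥U) (x : Qb) :
    toAbsGal U σ x = (σ : GQ) x := rfl

/-- Restriction `U → Gal(E / K_U)` for `E / K_U` normal. -/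
def resHom (U : Subgroup GQ) (E : IntermediateField (fixedFld U) Qb) [Normal (fixedFld U) E] :
    ↥U →* (E ≃ₐ[fixedFld U] E) :=
  (AlgEquiv.restrictNormalHom E).comp (toAbsGal U)

lemma resHom_apply_coe (U : Subgroup GQ) (E : IntermediateField (fixedFld U) Qb)
    [Normal (fixedFld U) E] (σ : ↥U) (x : E) :
    ((resHom U E σ x : E) : Qb) = (σ : GQ) (x : Qb) := by
  change algebraMap E Qb (AlgEquiv.restrictNormal (toAbsGal U σ) E x) = _
  rw [AlgEquiv.restrictNormal_commutes]
  rfl

lemma resHom_eq_one_iff (U : Subgroup GQ) (E : IntermediateField (fixedFld U) Qb)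
    [Normal (fixedFld U) E] (σ : ↥U) :
    resHom U E σ = 1 ↔ ∀ x : Qb, x ∈ E → (σ : GQ) x = x := by
  constructor
  · intro h x hx
    have := resHom_apply_coe U E σ ⟨x, hx⟩
    rw [h] at this
    exact this.symm
  · intro h
    ext x
    rw [resHom_apply_coe]
    exact h x x.2

lemma isAlgClosure_fixedFld (U : Subgroup GQ) : IsAlgClosure (fixedFld U) Qb :=
  ⟨inferInstance, Algebra.IsAlgebraic.tower_top (K := ℚ) (fixedFld U)⟩

lemma normal_Qb_fixedFld (U : Subgroup GQ) : Normal (fixedFld U) Qb :=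
  haveI := isAlgClosure_fixedFld U
  IsAlgClosure.normal (fixedFld U) Qb

/-- Restriction to a level is surjective (for `U` open). -/
theorem resHom_surjective {U : Subgroup GQ} (hU : IsOpenQ U)
    (E : IntermediateField (fixedFld U) Qb) [Normal (fixedFld U) E] :
    Function.Surjective (resHom U E) := by
  haveI := normal_Qb_fixedFld U
  intro τ
  obtain ⟨σ, hσ⟩ := AlgEquiv.restrictNormalHom_surjective (F := fixedFld U) (K₁ := E) Qb τ
  have hmem : σ.restrictScalars ℚ ∈ U := by
    apply mem_of_fixes_fixedFld hU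
    intro x hx
    exact σ.commutes ⟨x, hx⟩
  refine ⟨⟨σ.restrictScalars ℚ, hmem⟩, ?_⟩
  rw [← hσ]
  ext x
  rw [resHom_apply_coe]
  change σ (x : Qb) = algebraMap E Qb (AlgEquiv.restrictNormal σ E x)
  rw [AlgEquiv.restrictNormal_commutes]
  rfl

/-! ### Levels as number fields -/

/-- The level `E` as a subfield of `ℚ̄` over `ℚ`. -/
abbrev levelFld (U : Subgroup GQ) (E : IntermediateField (fixedFld U) Qb) :
    IntermediateField ℚ Qb :=
  E.restrictScalars ℚ

lemma mem_levelFld {U : Subgroup GQ} {E : IntermediateField (fixedFld U) Qb} {x : Qb} :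
    x ∈ levelFld U E ↔ x ∈ E := Iff.rfl

theorem finiteDimensional_levelFld {U : Subgroup GQ} (hU : IsOpenQ U)
    (E : IntermediateField (fixedFld U) Qb) [FiniteDimensional (fixedFld U) E] :
    FiniteDimensional ℚ (levelFld U E) := by
  haveI := finiteDimensional_fixedFld hU
  exact FiniteDimensional.trans ℚ (fixedFld U) E

lemma resHom_eq_one_of_mem_fixingSubgroup (U : Subgroup GQ)
    (E : IntermediateField (fixedFld U) Qb) [Normal (fixedFld U) E] (σ : ↥U)
    (h : (σ : GQ) ∈ (levelFld U E).fixingSubgroup) : resHom U E σ = 1 := by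
  rw [resHom_eq_one_iff]
  intro x hx
  exact (IntermediateField.mem_fixingSubgroup_iff _ _).1 h x hx

lemma mem_fixingSubgroup_of_resHom_eq_one (U : Subgroup GQ)
    (E : IntermediateField (fixedFld U) Qb) [Normal (fixedFld U) E] (σ : ↥U)
    (h : resHom U E σ = 1) {F : IntermediateField ℚ Qb} (hF : ∀ x ∈ F, x ∈ E) :
    (σ : GQ) ∈ F.fixingSubgroup := by
  rw [IntermediateField.mem_fixingSubgroup_iff]
  intro x hx
  exact (resHom_eq_one_iff U E σ).1 h x (hF x hx)

/-- Existence of finite Galois levels containing a given number field and a given finite set. -/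
theorem exists_level {U : Subgroup GQ} (hU : IsOpenQ U) (F₀ : IntermediateField ℚ Qb)
    [FiniteDimensional ℚ F₀] (T : Set Qb) (hT : T.Finite) :
    ∃ (E : IntermediateField (fixedFld U) Qb) (_ : FiniteDimensional (fixedFld U) E)
      (_ : IsGalois (fixedFld U) E), (∀ x ∈ F₀, x ∈ E) ∧ (∀ x ∈ T, x ∈ E) := by
  haveI := finiteDimensional_fixedFld hU
  haveI : Finite T := hT
  haveI : FiniteDimensional ℚ (IntermediateField.adjoin ℚ T) :=
    IntermediateField.finiteDimensional_adjoin (fun x _ => Algebra.IsIntegral.isIntegral x)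
  -- a number field containing everything
  let E₁ : IntermediateField ℚ Qb := F₀ ⊔ IntermediateField.adjoin ℚ T ⊔ fixedFld U
  let E₂ : IntermediateField ℚ Qb := normalClosure ℚ E₁ Qb
  have h12 : E₁ ≤ E₂ := IntermediateField.le_normalClosure E₁
  have hK : fixedFld U ≤ E₂ := le_trans le_sup_right h12
  haveI : FiniteDimensional ℚ E₂ := normalClosure.is_finiteDimensional ℚ E₁ Qb
  haveI : Normal ℚ E₂ := normalClosure.normal ℚ E₁ Qb
  haveI hfd : FiniteDimensional ℚ (IntermediateField.extendScalars hK) :=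
    inferInstanceAs (FiniteDimensional ℚ E₂)
  haveI hnor : Normal ℚ (IntermediateField.extendScalars hK) :=
    inferInstanceAs (Normal ℚ E₂)
  refine ⟨IntermediateField.extendScalars hK, ?_, ?_, ?_, ?_⟩
  · exact FiniteDimensional.right ℚ (fixedFld U) (IntermediateField.extendScalars hK)
  · haveI : Normal (fixedFld U) (IntermediateField.extendScalars hK) :=
      Normal.tower_top_of_normal ℚ (fixedFld U) (IntermediateField.extendScalars hK)
    exact ⟨⟩
  · intro x hx
    exact h12 ((le_sup_left.trans le_sup_left : F₀ ≤ E₁) hx)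
  · intro x hx
    exact h12 ((le_sup_right.trans le_sup_left : IntermediateField.adjoin ℚ T ≤ E₁)
      (IntermediateField.subset_adjoin ℚ T hx))

end Fermat.Agent.S55.G.Rec.Glob

end
end
-- ===== PACK-END S55/G/Rec/Glob/Basic.lean

-- ===== PACK-BEGIN S55/G/Rec/L2H931/Frob.lean
section




/-!
# S55 / layer G / block REC : leaf (L2) `LocalStructureSpec`, part 1 (helper931)

Fixed fields of open subgroups of `G_{ℚ_q}`, the unit ball of `ℚ̄_q` with its Galois action, and the
existence of Frobenius lifts (via the profinite surjectivity of the stabiliser map).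
-/

set_option autoImplicit false
set_option linter.style.haveILetI false

noncomputable section

namespace Fermat.Agent.S55.G.Rec.H931

section Abstract


open scoped Pointwise

/-- Abstract existence of Frobenius lifts for a profinite group acting continuously on a
(discrete) ring `B`, relative to the subring of invariants. -/
theorem L2_exists_frob_abstract {B : Type*} [CommRing B] {G : Type*} [Group G]
    [MulSemiringAction G B] [TopologicalSpace G] [CompactSpace G] [TotallyDisconnectedSpace G]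
    [IsTopologicalGroup G]
    (hcont : letI : TopologicalSpace B := ⊥; ContinuousSMul G B)
    (Q : Ideal B) [Q.IsPrime] (p : ℕ) (hp : p.Prime) (hpQ : (p : B) ∈ Q) (f : ℕ)
    (hfix : ∀ a : B, (∀ g : G, g • a = a) → a ^ (p ^ f) - a ∈ Q)
    (hsurj : ∀ b : B, ∃ c : B, c ^ (p ^ f) - b ∈ Q) :
    ∃ σ : G, ∀ x : B, σ • x - x ^ (p ^ f) ∈ Q := by
  letI : TopologicalSpace B := ⊥
  haveI : DiscreteTopology B := ⟨rfl⟩
  haveI := hcont
  haveI : Fact p.Prime := ⟨hp⟩
  let A := FixedPoints.subring B G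
  haveI : Algebra.IsInvariant A B G := ⟨fun b hb => ⟨⟨b, hb⟩, rfl⟩⟩
  let P : Ideal A := Q.under A
  haveI : Q.LiesOver P := ⟨rfl⟩
  haveI : IsDomain (B ⧸ Q) := Ideal.Quotient.isDomain Q
  have hzero : ((p : ℕ) : B ⧸ Q) = 0 := by
    have : (Ideal.Quotient.mk Q) (p : B) = 0 := Ideal.Quotient.eq_zero_iff_mem.mpr hpQ
    simpa using this
  haveI hchar : CharP (B ⧸ Q) p := (CharP.charP_iff_prime_eq_zero hp).mpr hzero
  let F : (B ⧸ Q) →ₐ[A ⧸ P] (B ⧸ Q) :=
    { toRingHom := iterateFrobenius (B ⧸ Q) p f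
      commutes' := by
        intro y
        obtain ⟨a, rfl⟩ := Ideal.Quotient.mk_surjective y
        show iterateFrobenius _ p f (algebraMap (A ⧸ P) _ (Ideal.Quotient.mk P a)) =
          algebraMap (A ⧸ P) _ (Ideal.Quotient.mk P a)
        have h1 : algebraMap (A ⧸ P) (B ⧸ Q) (Ideal.Quotient.mk P a)
            = Ideal.Quotient.mk Q (a : B) := rfl
        rw [h1, iterateFrobenius_def, ← map_pow, ← sub_eq_zero, ← map_sub,
          Ideal.Quotient.eq_zero_iff_mem]
        exact hfix a a.2 }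
  have hinj : Function.Injective F := iterateFrobenius_inj (B ⧸ Q) p f
  have hsurj' : Function.Surjective F := by
    intro y
    obtain ⟨b, rfl⟩ := Ideal.Quotient.mk_surjective y
    obtain ⟨c, hc⟩ := hsurj b
    refine ⟨Ideal.Quotient.mk Q c, ?_⟩
    show iterateFrobenius _ p f (Ideal.Quotient.mk Q c) = _
    rw [iterateFrobenius_def, ← map_pow, ← sub_eq_zero, ← map_sub, Ideal.Quotient.eq_zero_iff_mem]
    exact hc
  let e : (B ⧸ Q) ≃ₐ[A ⧸ P] (B ⧸ Q) := AlgEquiv.ofBijective F ⟨hinj, hsurj'⟩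
  obtain ⟨σ, hσ⟩ := Ideal.Quotient.stabilizerHom_surjective_of_profinite (G := G) P Q e
  refine ⟨σ.1, fun x => ?_⟩
  have h2 := congrArg (fun t => t (Ideal.Quotient.mk Q x)) hσ
  simp only [Ideal.Quotient.stabilizerHom_apply] at h2
  have h3 : e (Ideal.Quotient.mk Q x) = Ideal.Quotient.mk Q (x ^ (p ^ f)) := by
    show iterateFrobenius _ p f (Ideal.Quotient.mk Q x) = _
    rw [iterateFrobenius_def, map_pow]
  rw [h3] at h2
  rw [← Ideal.Quotient.eq]
  exact h2


end Abstract

section Fields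


open Fermat.Agent.S55

variable (q : ℕ) [Fact q.Prime]

local notation "Gq" => (PadicAlgCl q ≃ₐ[ℚ_[q]] PadicAlgCl q)

/-- The fixed field of `V`. -/
abbrev L2_E (V : Subgroup Gq) : IntermediateField ℚ_[q] (PadicAlgCl q) :=
  IntermediateField.fixedField V

variable {q}

theorem L2_isOpen {V : Subgroup Gq} (hV : IsOpenL q V) : IsOpen (V : Set Gq) := by
  obtain ⟨E, hE, hEV⟩ := hV
  exact Subgroup.isOpen_mono hEV E.fixingSubgroup_isOpen

theorem L2_fixingSubgroup {V : Subgroup Gq} (hV : IsOpenL q V) :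
    (L2_E q V).fixingSubgroup = V := by
  haveI := BLocal.isGalois_padicAlgCl q
  have hcl : IsClosed (V : Set Gq) := Subgroup.isClosed_of_isOpen V (L2_isOpen hV)
  exact InfiniteGalois.fixingSubgroup_fixedField ⟨V, hcl⟩

theorem L2_finiteDimensional {V : Subgroup Gq} (hV : IsOpenL q V) :
    FiniteDimensional ℚ_[q] (L2_E q V) := by
  haveI := BLocal.isGalois_padicAlgCl q
  obtain ⟨E, hE, hEV⟩ := hV
  have hle : L2_E q V ≤ E := by
    have h1 : IntermediateField.fixedField V ≤ IntermediateField.fixedField E.fixingSubgroup := by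
      intro x hx
      rw [IntermediateField.mem_fixedField_iff] at hx ⊢
      exact fun f hf => hx f (hEV hf)
    rwa [InfiniteGalois.fixedField_fixingSubgroup] at h1
  exact Module.Finite.of_injective (IntermediateField.inclusion hle).toLinearMap
    (IntermediateField.inclusion hle).injective

theorem L2_mem_E_iff {V : Subgroup Gq} (x : PadicAlgCl q) :
    x ∈ L2_E q V ↔ IsFixedBy q V x := by
  rw [IntermediateField.mem_fixedField_iff]
  rfl

theorem L2_index {V : Subgroup Gq} (hV : IsOpenL q V) :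
    V.index = Module.finrank ℚ_[q] (L2_E q V) := by
  haveI := BLocal.isGalois_padicAlgCl q
  rw [IntermediateField.finrank_eq_fixingSubgroup_index, L2_fixingSubgroup hV]


end Fields

section Ball


open Fermat.Agent.S55

variable (q : ℕ) [Fact q.Prime]

local notation "Gq" => (PadicAlgCl q ≃ₐ[ℚ_[q]] PadicAlgCl q)

/-- The closed unit ball of `ℚ̄_q` as a subring. -/
def L2_O : Subring (PadicAlgCl q) where
  carrier := {x | ‖x‖ ≤ 1}
  mul_mem' := by
    intro a b ha hb
    simp only [Set.mem_ofPred_eq] at ha hb ⊢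
    rw [norm_mul]
    exact mul_le_one₀ ha (norm_nonneg _) hb
  one_mem' := by simp
  add_mem' := by
    intro a b ha hb
    simp only [Set.mem_ofPred_eq] at ha hb ⊢
    exact (IsUltrametricDist.norm_add_le_max a b).trans (max_le ha hb)
  zero_mem' := by simp
  neg_mem' := by
    intro a ha
    simp only [Set.mem_ofPred_eq] at ha ⊢
    rwa [norm_neg]

variable {q}

theorem L2_mem_O {x : PadicAlgCl q} : x ∈ L2_O q ↔ ‖x‖ ≤ 1 := Iff.rfl

theorem L2_norm_map (σ : Gq) (x : PadicAlgCl q) : ‖σ x‖ = ‖x‖ := by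
  have := nnnorm_padicAlgCl_algEquiv q σ x
  exact congrArg NNReal.toReal this

variable (q)

/-- The open unit ball, as an ideal of the closed unit ball. -/
def L2_m : Ideal (L2_O q) where
  carrier := {x | ‖(x : PadicAlgCl q)‖ < 1}
  add_mem' := by
    intro a b ha hb
    simp only [Set.mem_ofPred_eq] at ha hb ⊢
    exact (IsUltrametricDist.norm_add_le_max (a : PadicAlgCl q) b).trans_lt (max_lt ha hb)
  zero_mem' := by simp
  smul_mem' := by
    intro c x hx
    simp only [Set.mem_ofPred_eq, smul_eq_mul, Subring.coe_mul, norm_mul] at hx ⊢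
    calc ‖(c : PadicAlgCl q)‖ * ‖(x : PadicAlgCl q)‖ ≤ 1 * ‖(x : PadicAlgCl q)‖ :=
          mul_le_mul_of_nonneg_right c.2 (norm_nonneg _)
      _ < 1 := by rw [one_mul]; exact hx

variable {q}

theorem L2_mem_m {x : L2_O q} : x ∈ L2_m q ↔ ‖(x : PadicAlgCl q)‖ < 1 := Iff.rfl

instance L2_m_isPrime : (L2_m q).IsPrime := by
  constructor
  · intro h
    have : (1 : L2_O q) ∈ L2_m q := by rw [h]; trivial
    rw [L2_mem_m] at this
    simp at this
  · intro a b hab
    rw [L2_mem_m] at hab ⊢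
    rw [L2_mem_m]
    by_contra hcon
    rw [not_or, not_lt, not_lt] at hcon
    have ha : ‖(a : PadicAlgCl q)‖ = 1 := le_antisymm a.2 hcon.1
    have hb : ‖(b : PadicAlgCl q)‖ = 1 := le_antisymm b.2 hcon.2
    rw [Subring.coe_mul, norm_mul, ha, hb, mul_one] at hab
    exact lt_irrefl _ hab

/-- The action of a subgroup of the local Galois group on the unit ball. -/
instance L2_action (V : Subgroup Gq) : MulSemiringAction ↥V (L2_O q) where
  smul σ x := ⟨(σ : Gq) (x : PadicAlgCl q), by
    rw [L2_mem_O, L2_norm_map]; exact x.2⟩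
  one_smul x := Subtype.ext rfl
  mul_smul σ τ x := Subtype.ext rfl
  smul_zero σ := Subtype.ext (map_zero (σ : Gq))
  smul_add σ x y := Subtype.ext (map_add (σ : Gq) _ _)
  smul_one σ := Subtype.ext (map_one (σ : Gq))
  smul_mul σ x y := Subtype.ext (map_mul (σ : Gq) _ _)

theorem L2_coe_smul (V : Subgroup Gq) (σ : ↥V) (x : L2_O q) :
    ((σ • x : L2_O q) : PadicAlgCl q) = (σ : Gq) (x : PadicAlgCl q) := rfl

theorem L2_continuousSMul (V : Subgroup Gq) :
    letI : TopologicalSpace (L2_O q) := ⊥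
    ContinuousSMul ↥V (L2_O q) := by
  letI : TopologicalSpace (L2_O q) := ⊥
  haveI : DiscreteTopology (L2_O q) := ⟨rfl⟩
  refine ⟨?_⟩
  rw [continuous_prod_of_discrete_right]
  intro b
  rw [continuous_discrete_rng]
  intro c
  rw [isOpen_iff_mem_nhds]
  intro g hg
  let E : IntermediateField ℚ_[q] (PadicAlgCl q) :=
    IntermediateField.adjoin ℚ_[q] {(b : PadicAlgCl q)}
  haveI : FiniteDimensional ℚ_[q] E :=
    IntermediateField.adjoin.finiteDimensional (Algebra.IsIntegral.isIntegral _)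
  -- the open set `{h ∈ V | g⁻¹ h fixes E}`
  have hopen : IsOpen {h : ↥V | ((g⁻¹ * h : ↥V) : Gq) ∈ E.fixingSubgroup} := by
    have h1 : Continuous (fun h : ↥V => ((g⁻¹ * h : ↥V) : Gq)) :=
      continuous_subtype_val.comp (continuous_const.mul continuous_id)
    exact E.fixingSubgroup_isOpen.preimage h1
  refine Filter.mem_of_superset (hopen.mem_nhds ?_) ?_
  · simp only [Set.mem_ofPred_eq, inv_mul_cancel]
    exact one_mem _
  · intro h hh
    simp only [Set.mem_ofPred_eq] at hh
    simp only [Set.mem_preimage, Set.mem_singleton_iff] at hg ⊢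
    rw [← hg]
    apply Subtype.ext
    have hb : ((g⁻¹ * h : ↥V) : Gq) (b : PadicAlgCl q) = b :=
      (IntermediateField.mem_fixingSubgroup_iff E _).mp hh b
        (IntermediateField.subset_adjoin ℚ_[q] _ (Set.mem_singleton _))
    show (h : Gq) (b : PadicAlgCl q) = (g : Gq) (b : PadicAlgCl q)
    have : (h : Gq) = (g : Gq) * ((g⁻¹ * h : ↥V) : Gq) := by
      simp
    rw [this, AlgEquiv.mul_apply, hb]


end Ball

end Fermat.Agent.S55.G.Rec.H931

namespace Fermat.Agent.S55.G.Rec.H931

open Fermat.Agent.S55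

variable {q : ℕ} [Fact q.Prime]

local notation "Gq" => (PadicAlgCl q ≃ₐ[ℚ_[q]] PadicAlgCl q)

theorem L2_norm_q : ‖(q : PadicAlgCl q)‖ = (q : ℝ)⁻¹ := by
  have := L.norm_natCast_prime63 q
  simpa using this

theorem L2_exists_frob {V : Subgroup Gq} (hV : IsOpenL q V) (f : ℕ)
    (hf : ∀ x, IsFixedBy q V x → ‖x‖ ≤ 1 → ‖x ^ (q ^ f) - x‖ < 1) :
    ∃ φ : Gq, φ ∈ V ∧ ∀ x : PadicAlgCl q, ‖x‖ ≤ 1 → ‖φ x - x ^ (q ^ f)‖ < 1 := by
  have hq : q.Prime := Fact.out
  have hcl : IsClosed (V : Set Gq) := Subgroup.isClosed_of_isOpen V (L2_isOpen hV)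
  haveI : CompactSpace ↥V := isCompact_iff_compactSpace.mp hcl.isCompact
  have hqm : ((q : ℕ) : L2_O q) ∈ L2_m q := by
    rw [L2_mem_m]
    push_cast
    rw [L2_norm_q]
    exact inv_lt_one_of_one_lt₀ (by exact_mod_cast hq.one_lt)
  obtain ⟨σ, hσ⟩ := L2_exists_frob_abstract (B := L2_O q) (G := ↥V) (L2_continuousSMul V)
    (L2_m q) q hq hqm f
    (fun a ha => by
      rw [L2_mem_m]
      push_cast
      refine hf a ?_ a.2
      intro τ hτ
      exact congrArg Subtype.val (ha ⟨τ, hτ⟩))
    (fun b => by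
      obtain ⟨c, hc⟩ := IsAlgClosed.exists_pow_nat_eq (b : PadicAlgCl q)
        (pow_pos hq.pos f)
      have hc1 : ‖c‖ ≤ 1 := by
        have h1 : ‖c‖ ^ (q ^ f) ≤ 1 := by
          rw [← norm_pow, hc]; exact b.2
        by_contra hcon
        rw [not_le] at hcon
        exact absurd h1 (not_le.mpr (one_lt_pow₀ hcon (pow_pos hq.pos f).ne'))
      refine ⟨⟨c, hc1⟩, ?_⟩
      rw [L2_mem_m]
      push_cast
      rw [hc, sub_self, norm_zero]
      exact one_pos)
  refine ⟨σ, σ.2, fun x hx => ?_⟩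
  have := hσ ⟨x, hx⟩
  rw [L2_mem_m] at this
  simpa [L2_coe_smul] using this

end Fermat.Agent.S55.G.Rec.H931

end
end
-- ===== PACK-END S55/G/Rec/L2H931/Frob.lean

-- ===== PACK-BEGIN S55/G/Rec/VdegH707.lean
section


/-!
# S55 / layer G / block REC : leaf (L1) `VdegSpec`  (helper707)

`‖a‖ ^ [G_{ℚ_q} : V] = q ^ (- vdeg q V a)` for every `a` fixed by `V`
(the openness hypothesis is not needed: for infinite index both sides are `1`).

Proof: the norm `N = ∏_{t ∈ G/V} t a` is fixed by `G_{ℚ_q}`, hence lies in `ℚ_q`; its absolute value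
is `‖a‖ ^ [G : V]` (Galois invariance of the norm) and an integral power of `q`.
-/

set_option autoImplicit false
set_option linter.style.haveILetI false

noncomputable section

namespace Fermat.Agent.S55.G.Rec.VdegH707

open Fermat.Agent.S55.G.Rec

variable (q : ℕ) [Fact q.Prime]

local notation "Gq" => (PadicAlgCl q ≃ₐ[ℚ_[q]] PadicAlgCl q)

/-- the norm is Galois invariant -/
lemma norm_algEquiv (τ : Gq) (y : PadicAlgCl q) : ‖τ y‖ = ‖y‖ :=
  (spectralNorm_eq_of_equiv τ y).symm

/-- an element fixed by the whole Galois group is rational -/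
lemma mem_range_of_fixed (x : PadicAlgCl q) (hx : ∀ τ : Gq, τ x = x) :
    ∃ y : ℚ_[q], algebraMap ℚ_[q] (PadicAlgCl q) y = x := by
  haveI : IsAlgClosure ℚ_[q] (PadicAlgCl q) := ⟨inferInstance, inferInstance⟩
  haveI : Normal ℚ_[q] (PadicAlgCl q) := IsAlgClosure.normal ℚ_[q] (PadicAlgCl q)
  haveI : IsGalois ℚ_[q] (PadicAlgCl q) := isGalois_iff.mpr ⟨inferInstance, inferInstance⟩
  have hfix : x ∈ IntermediateField.fixedField (⊤ : Subgroup Gq) := by
    rintro ⟨τ, -⟩
    exact hx τ
  rw [InfiniteGalois.fixedField_bot, IntermediateField.mem_bot] at hfix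
  exact hfix

/-- the value of `τ a` only depends on the coset `τ V` -/
lemma apply_eq_of_coset (V : Subgroup Gq) (a : PadicAlgCl q) (ha : ∀ τ ∈ V, τ a = a)
    (σ τ : Gq) (h : (σ : Gq ⧸ V) = (τ : Gq ⧸ V)) : σ a = τ a := by
  have h1 : σ⁻¹ * τ ∈ V := QuotientGroup.eq.mp h
  have h2 := ha _ h1
  have h3 : (σ⁻¹ * τ) a = σ⁻¹ (τ a) := rfl
  rw [h3] at h2
  have h4 := congrArg σ h2
  have h5 : σ (σ⁻¹ (τ a)) = τ a := AlgEquiv.apply_symm_apply σ (τ a)
  rw [h5] at h4
  exact h4.symm

/-- the key fact: `‖a‖ ^ [G : V]` is an integral power of `q` -/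
theorem exists_zpow (V : Subgroup Gq) (a : (PadicAlgCl q)ˣ) (ha : LFixed q V a) :
    ∃ k : ℤ, ‖(a : PadicAlgCl q)‖ ^ V.index = (q : ℝ) ^ k := by
  by_cases hidx : V.index = 0
  · exact ⟨0, by rw [hidx, pow_zero, zpow_zero]⟩
  haveI : V.FiniteIndex := ⟨hidx⟩
  letI : Fintype (Gq ⧸ V) := Subgroup.fintypeQuotientOfFiniteIndex
  have ha' : ∀ τ ∈ V, τ (a : PadicAlgCl q) = a := by
    intro τ hτ
    have := congrArg (fun u : (PadicAlgCl q)ˣ => (u : PadicAlgCl q)) (ha τ hτ)
    exact this
  -- the norm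
  set N : PadicAlgCl q := ∏ t : Gq ⧸ V, (Quotient.out t : Gq) (a : PadicAlgCl q) with hN
  have hfix : ∀ σ : Gq, σ N = N := by
    intro σ
    rw [hN, map_prod]
    have hperm : ∀ t : Gq ⧸ V,
        σ ((Quotient.out t : Gq) (a : PadicAlgCl q)) =
          (Quotient.out (σ • t) : Gq) (a : PadicAlgCl q) := by
      intro t
      have h1 : σ ((Quotient.out t : Gq) (a : PadicAlgCl q)) =
          (σ * Quotient.out t) (a : PadicAlgCl q) := rfl
      rw [h1]
      apply apply_eq_of_coset q V _ ha'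
      have h2 : ((Quotient.out (σ • t) : Gq) : Gq ⧸ V) = σ • t := Quotient.out_eq' _
      have h3 : ((σ * Quotient.out t : Gq) : Gq ⧸ V) = σ • ((Quotient.out t : Gq) : Gq ⧸ V) :=
        rfl
      rw [h2, h3]
      congr 1
      exact Quotient.out_eq' t
    rw [Finset.prod_congr rfl (fun t _ => hperm t)]
    exact Fintype.prod_equiv (MulAction.toPerm σ) _ _ (fun t => rfl)
  obtain ⟨y, hy⟩ := mem_range_of_fixed q N hfix
  have hnorm : ‖N‖ = ‖(a : PadicAlgCl q)‖ ^ V.index := by
    rw [hN, norm_prod]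
    simp only [norm_algEquiv]
    rw [Finset.prod_const, Finset.card_univ, Subgroup.index_eq_card, Nat.card_eq_fintype_card]
  have hNne : N ≠ 0 := by
    rw [hN]
    refine Finset.prod_ne_zero_iff.mpr fun t _ => ?_
    rw [ne_eq, EmbeddingLike.map_eq_zero_iff]
    exact a.ne_zero
  have hyne : y ≠ 0 := by
    rintro rfl
    rw [map_zero] at hy
    exact hNne hy.symm
  refine ⟨-y.valuation, ?_⟩
  rw [← hnorm, ← hy, PadicAlgCl.norm_extends, Padic.norm_eq_zpow_neg_valuation hyne]

/-- **Leaf (L1)**. -/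
theorem vdegSpec : VdegSpec := by
  intro q _ V _ a ha
  obtain ⟨k, hk⟩ := exists_zpow q V a ha
  have hq : 1 < q := (Fact.out : q.Prime).one_lt
  unfold vdeg
  rw [neg_neg, hk, Int.log_zpow hq]

end Fermat.Agent.S55.G.Rec.VdegH707

end
end
-- ===== PACK-END S55/G/Rec/VdegH707.lean

-- ===== PACK-BEGIN S55/G/LocH897/ShapiroJ.lean
section




/-!
# S55 / layer G / leaf G-LOC (helper897): `ShapiroJSpec`

`shapiroJ_of : T.ShapiroExplicitSpec → T.FiniteProdSpec → G.ShapiroJSpec`:
for a set `R` of representatives of the `G`-orbits of places above `S`, the localisation maps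
`locMapJ` induce a bijection `Hⁿ(G, J_S(L)) → ∏_{𝔪 ∈ R} Hⁿ(D_𝔪, L_𝔪ˣ)`.
(No finiteness of `G` is used.)
-/

set_option autoImplicit false
set_option linter.style.haveILetI false

open CategoryTheory groupCohomology
open scoped TensorProduct

namespace Fermat.Agent.S55.G.LocH897

open Fermat.Agent.S55 Fermat.Agent.S55.G

section

variable (S : Finset Nat.Primes) (Γ L : Type) [Group Γ] [Field L] [NumberField L]
  [MulSemiringAction Γ L]

lemma asRingAut_inv_apply (g : Γ) (x : AS S L) :
    asRingAut Γ S L g⁻¹ (asRingAut Γ S L g x) = x := by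
  rw [← RingAut.mul_apply, ← map_mul, inv_mul_cancel, map_one, RingAut.one_apply]

lemma asRingAut_apply_inv (g : Γ) (x : AS S L) :
    asRingAut Γ S L g (asRingAut Γ S L g⁻¹ x) = x := by
  rw [← RingAut.mul_apply, ← map_mul, mul_inv_cancel, map_one, RingAut.one_apply]

/-- `x ∈ g 𝔪 ↔ g⁻¹ x ∈ 𝔪`. -/
lemma mem_sPlaceSMul_iff' (g : Γ) (𝔪 : SPlace S L) (x : AS S L) :
    x ∈ (sPlaceSMul S Γ g 𝔪).asIdeal ↔ asRingAut Γ S L g⁻¹ x ∈ 𝔪.asIdeal :=
  mem_sPlaceSMul_iff S Γ g 𝔪 x

/-- Membership in helper421's decomposition group, in terms of elements. -/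
lemma mem_Gdecomp_iff (𝔪 : SPlace S L) (g : Γ) :
    g ∈ G.decomp S Γ 𝔪 ↔ ∀ x, asRingAut Γ S L g x ∈ 𝔪.asIdeal ↔ x ∈ 𝔪.asIdeal := by
  rw [G.mem_decomp_iff]
  constructor
  · intro h x
    have h1 := mem_sPlaceSMul_iff' S Γ L g 𝔪 (asRingAut Γ S L g x)
    rw [h, asRingAut_inv_apply] at h1
    exact h1
  · intro h
    refine MaximalSpectrum.ext (Ideal.ext fun x => ?_)
    rw [mem_sPlaceSMul_iff', ← h, asRingAut_apply_inv]

lemma Gdecomp_eq (𝔪 : SPlace S L) :
    G.decomp S Γ 𝔪 = LocH897.decomp (asRingAut Γ S L) 𝔪.asIdeal := by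
  ext g
  rw [mem_Gdecomp_iff, mem_decomp]

end

/-- **G-LOC.**  `ShapiroJSpec` from the T-layer specs T8 (`ShapiroExplicitSpec`) and T9a
(`FiniteProdSpec`). -/
theorem shapiroJ_of (h8 : T.ShapiroExplicitSpec) (h9 : T.FiniteProdSpec) : ShapiroJSpec := by
  intro S Γ L _ _ _ _ _ R hR n
  haveI := isReduced_AS S L
  haveI := isArtinianRing_AS S L
  refine semilocal_bijective h8 h9 (k := ℤ) (G := Γ) (ι := R) (fun r => G.decomp S Γ r.1)
    (fun r => LocRep S Γ r.1) (JRep Γ S L) (fun r => jToLocRepHom S Γ r.1) ?_ n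
  intro f hf
  -- translate to the abstract semi-local statement
  have hcover : ∀ 𝔫 : Ideal (AS S L), 𝔫.IsMaximal →
      ∃ (i : R) (g : Γ), ∀ x, x ∈ 𝔫 ↔ asRingAut Γ S L g x ∈ i.1.asIdeal := by
    intro 𝔫 h𝔫
    obtain ⟨r, ⟨hrR, g, hg⟩, -⟩ := hR ⟨𝔫, h𝔫⟩
    refine ⟨⟨r, hrR⟩, g⁻¹, fun x => ?_⟩
    have := mem_sPlaceSMul_iff' S Γ L g r x
    rw [hg] at this
    exact this
  have hdisj : ∀ (i j : R) (g : Γ),
      (∀ x, x ∈ j.1.asIdeal ↔ asRingAut Γ S L g x ∈ i.1.asIdeal) → i = j := by
    intro i j g h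
    obtain ⟨r, -, hru⟩ := hR j.1
    have hj : j.1 = r := hru j.1 ⟨j.2, 1, by
      refine MaximalSpectrum.ext (Ideal.ext fun x => ?_)
      rw [mem_sPlaceSMul_iff', inv_one, map_one, RingAut.one_apply]⟩
    have hi : i.1 = r := hru i.1 ⟨i.2, g⁻¹, by
      refine MaximalSpectrum.ext (Ideal.ext fun x => ?_)
      rw [mem_sPlaceSMul_iff', inv_inv, h]⟩
    exact Subtype.ext (hi.trans hj.symm)
  obtain ⟨b, hb, hbu⟩ := existsUnique_units (asRingAut Γ S L) (fun r : R => r.1.asIdeal)
    (fun r => r.1.isMaximal) hcover hdisj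
    (fun r g => Additive.toMul (α := (AS S L ⧸ r.1.asIdeal)ˣ) (f r g))
    (fun r s g => by
      have hs : (s : Γ) ∈ G.decomp S Γ r.1 := by rw [Gdecomp_eq]; exact s.2
      have := congrArg
        (fun y : Additive (AS S L ⧸ r.1.asIdeal)ˣ =>
          ((Additive.toMul y : (AS S L ⧸ r.1.asIdeal)ˣ) : AS S L ⧸ r.1.asIdeal))
        (hf r ⟨s, hs⟩ g)
      exact this)
  refine ⟨Additive.ofMul b, fun i g => ?_, fun c hc => ?_⟩
  · apply Additive.toMul.injective
    apply Units.ext
    exact hb i g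
  · apply Additive.toMul.injective
    refine hbu (Additive.toMul (α := (AS S L)ˣ) c) fun i g => ?_
    have := congrArg
      (fun y : Additive (AS S L ⧸ i.1.asIdeal)ˣ =>
        ((Additive.toMul y : (AS S L ⧸ i.1.asIdeal)ˣ) : AS S L ⧸ i.1.asIdeal))
      (hc i g)
    exact this

end Fermat.Agent.S55.G.LocH897

end
-- ===== PACK-END S55/G/LocH897/ShapiroJ.lean

-- ===== PACK-BEGIN S55/L/H715/Dict3.lean
section


/-!
# S55, layer L : DICTIONARY core ↔ outer, part 3 : adapters for unramified extensions (helper715)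

* `unramifiedExists_of_local : Local.ExistsUnramExtStatement → UnramifiedExistsSpec`
  (core UR5 ⇒ outer L-A2a).
-/

set_option autoImplicit false
set_option linter.unusedSectionVars false
set_option linter.style.haveILetI false

namespace Fermat.Agent.S55.L.H715

open Fermat.Agent.S55.Local Fermat.Agent.S55.Local.H715 IsLocalRing

/-- **Adapter UR5 ⇒ L-A2a**: existence of the unramified extension of each degree. -/
theorem unramifiedExists_of_local (hUR5 : ExistsUnramExtStatement) : UnramifiedExistsSpec := by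
  intro K _ hK n hn
  obtain ⟨A, hA1, hA2, hA3⟩ := hK.exists_ringOfIntegers
  haveI := hK.charZero
  haveI := hA1
  haveI := hA2
  haveI := hA3
  obtain ⟨N, iN, iF, iK, iL, t1, t2, t3, fd, gal, hunram, hrank⟩ := hUR5 (↥A) K K K n hn
  have e1 : iF = iL := Algebra.algebra_ext _ _ (fun r => by
    have := @IsScalarTower.algebraMap_apply K K N _ _ _ _ iL iF t2 r
    simpa using this)
  have e2 : iK = iL := Algebra.algebra_ext _ _ (fun r => by
    have := @IsScalarTower.algebraMap_apply K K N _ _ _ _ iL iK t3 r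
    simpa using this)
  subst e1
  subst e2
  exact ⟨N, iN, iK, fd, isUnramifiedExt_of_isUnram A N hunram, hrank⟩

end Fermat.Agent.S55.L.H715

end
-- ===== PACK-END S55/L/H715/Dict3.lean

-- ===== PACK-BEGIN S55/T/UglyH954.lean
section




/-!
# T3': the "ugly lemma" — `UglySpec` (helper954)

If `H¹(H, A) = 0` for all `H ≤ G` and `|H²(H ⧸ K, A^K)|` divides `[H : K]` whenever `K ⊴ H ≤ G`
with `[H : K]` prime, then `|H²(H, A)|` divides `|H|` for all `H ≤ G`.
-/

set_option autoImplicit false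
set_option linter.unusedSectionVars false
set_option linter.style.haveILetI false

namespace Fermat.Agent.S55.T.H954

open CategoryTheory groupCohomology Fermat.Agent.S55.H954

section Transport

variable {k G : Type} [CommRing k] [Group G] (A : Rep.{0} k G) (H : Subgroup G) (K : Subgroup H)

/-- Transitivity of restriction, on cohomology: `Hⁿ(K, (A|_H)|_K) ≅ Hⁿ(K', A|_{K'})` where
`K' = K.map H.subtype` is `K` viewed as a subgroup of `G`. -/
noncomputable def resResIso (n : ℕ) :
    groupCohomology (resSub (resSub A H) K) n ≅ groupCohomology (resSub A (K.map H.subtype)) n :=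
  groupCohomology.mapIso (K.equivMapOfInjective H.subtype H.subtype_injective)
    (LinearEquiv.refl k A.V) (fun g => by
      ext x
      rfl) n

lemma card_map_subtype : Nat.card (K.map H.subtype) = Nat.card K :=
  (Nat.card_congr (K.equivMapOfInjective H.subtype H.subtype_injective).toEquiv).symm

end Transport

section Basic

variable {k : Type} [CommRing k]

lemma cardDvd_of_iso {M N : ModuleCat.{0} k} (e : M ≅ N) {m : ℕ} (h : CardDvd N m) :
    CardDvd M m := by
  obtain ⟨hf, hd⟩ := h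
  have e' : M ≃ N := e.toLinearEquiv.toEquiv
  exact ⟨Finite.of_equiv N e'.symm, (Nat.card_congr e') ▸ hd⟩

lemma eq_zero_of_iso_of_isZero {M N : ModuleCat.{0} k} (e : M ≅ N) (h : Limits.IsZero N)
    (x : M) : x = 0 := by
  have hs : Subsingleton N := ModuleCat.isZero_iff_subsingleton.1 h
  have e' : M ≃ N := e.toLinearEquiv.toEquiv
  exact e'.injective (Subsingleton.elim _ _)

end Basic

section Main

variable {k G : Type} [CommRing k] [Group G] [Finite G] (A : Rep.{0} k G)

/-- The `p`-group case of the ugly lemma, by induction on the order. -/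
theorem ugly_pgroup
    (h1 : ∀ H : Subgroup G, Limits.IsZero (groupCohomology (resSub A H) 1))
    (h2 : ∀ (H : Subgroup G) (K : Subgroup H) [K.Normal], (Nat.card (H ⧸ K)).Prime →
      CardDvd (groupCohomology ((resSub A H).quotientToInvariants K) 2) (Nat.card (H ⧸ K)))
    (p : ℕ) [hp : Fact p.Prime] :
    ∀ (n : ℕ) (H : Subgroup G), Nat.card H = p ^ n →
      CardDvd (groupCohomology (resSub A H) 2) (Nat.card H) := by
  intro n
  induction n with
  | zero =>
    intro H hH
    rw [pow_zero] at hH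
    have hz : ∀ x : H2 (resSub A H), x = 0 := H2_eq_zero_of_card_eq_one (resSub A H) hH
    haveI : Subsingleton (H2 (resSub A H)) := ⟨fun a b => (hz a).trans (hz b).symm⟩
    refine ⟨inferInstance, ?_⟩
    rw [Nat.card_unique]
    exact one_dvd _
  | succ n ih =>
    intro H hH
    obtain ⟨K, hK⟩ := Sylow.exists_subgroup_card_pow_prime (G := ↥H) p (n := n)
      (by rw [hH]; exact pow_dvd_pow p (Nat.le_succ n))
    have hidx : K.index = p := by
      have h := K.card_mul_index
      rw [hK, hH, pow_succ] at h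
      exact Nat.eq_of_mul_eq_mul_left (pow_pos hp.out.pos n) h
    haveI hKn : K.Normal := Subgroup.normal_of_index_eq_minFac_card (by
      rw [hidx, hH, Nat.pow_minFac (Nat.succ_ne_zero n), hp.out.minFac_eq])
    have hq : Nat.card (↥H ⧸ K) = p := by rw [← Subgroup.index_eq_card]; exact hidx
    have hQ := h2 H K (by rw [hq]; exact hp.out)
    rw [hq] at hQ
    have hK' : Nat.card (K.map H.subtype) = p ^ n := (card_map_subtype H K).trans hK
    have IH := ih (K.map H.subtype) hK'
    rw [hK'] at IH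
    have hKc : CardDvd (groupCohomology (resSub (resSub A H) K) 2) (p ^ n) :=
      cardDvd_of_iso (resResIso A H K 2) IH
    have hK1 : ∀ x : H1 (Rep.res K.subtype (resSub A H)), x = 0 :=
      eq_zero_of_iso_of_isZero (resResIso A H K 1) (h1 (K.map H.subtype))
    obtain ⟨hfin, hdvd⟩ := H2_card_dvd_mul_of_normal (resSub A H) K hK1 hKc.1 hQ.1 hKc.2 hQ.2
    refine ⟨hfin, ?_⟩
    rw [hH, pow_succ, mul_comm]
    exact hdvd

/-- **T3'** (`UglySpec`), unconditional. -/
theorem ugly : UglySpec := by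
  intro k G _ _ _ A h1 h2 H
  refine card_H2_dvd_card_of_sylow (resSub A H) (fun p hp _ => ?_)
  haveI : Fact p.Prime := ⟨hp⟩
  obtain ⟨P⟩ : Nonempty (Sylow p H) := inferInstance
  refine ⟨P, ?_⟩
  have hP : Nat.card (P : Subgroup H) = p ^ ((Nat.card H).factorization p) :=
    Sylow.card_eq_multiplicity P
  have hP' : Nat.card ((P : Subgroup H).map H.subtype) = p ^ ((Nat.card H).factorization p) :=
    (card_map_subtype H (P : Subgroup H)).trans hP
  have := ugly_pgroup A h1 h2 p _ ((P : Subgroup H).map H.subtype) hP'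
  rw [card_map_subtype H (P : Subgroup H)] at this
  exact cardDvd_of_iso (resResIso A H (P : Subgroup H) 2) this

end Main

end Fermat.Agent.S55.T.H954

end
-- ===== PACK-END S55/T/UglyH954.lean

-- ===== PACK-BEGIN S55/T/NakH837/WeakProj.lean
section



/-!
# S55, layer T, leaf T6 (helper837): norms of linear maps and weakly projective representations

For representations `A B : Rep k G` of a finite group and a `k`-linear map `ψ : A → B` the norm
`N ψ = ∑_g g ∘ ψ ∘ g⁻¹` is a morphism of representations.  `A` is *weakly projective* if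
`𝟙 A = N u` for some `k`-linear `u`.  Coinduced modules `coind₁ A` are weakly projective.
-/

set_option autoImplicit false

open CategoryTheory groupCohomology

namespace Fermat.Agent.S55.T.H837

open Fermat.Agent.S55.H572

noncomputable section

variable {k G : Type} [CommRing k] [Group G] [Fintype G]

/-- The norm `∑_g g ∘ ψ ∘ g⁻¹` of a `k`-linear map between representations. -/
def normLin {A B : Rep.{0} k G} (ψ : A.V →ₗ[k] B.V) : A.V →ₗ[k] B.V :=
  ∑ g : G, B.ρ g ∘ₗ ψ ∘ₗ A.ρ g⁻¹

lemma normLin_apply {A B : Rep.{0} k G} (ψ : A.V →ₗ[k] B.V) (a : A.V) :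
    normLin ψ a = ∑ g : G, B.ρ g (ψ (A.ρ g⁻¹ a)) := by
  simp [normLin, LinearMap.sum_apply]

lemma normLin_equivariant {A B : Rep.{0} k G} (ψ : A.V →ₗ[k] B.V) (h : G) (a : A.V) :
    normLin ψ (A.ρ h a) = B.ρ h (normLin ψ a) := by
  rw [normLin_apply, normLin_apply, map_sum]
  refine Fintype.sum_equiv (Equiv.mulLeft h⁻¹) _ _ fun g => ?_
  change B.ρ g (ψ (A.ρ g⁻¹ (A.ρ h a))) = B.ρ h (B.ρ (h⁻¹ * g) (ψ (A.ρ (h⁻¹ * g)⁻¹ a)))
  rw [← Module.End.mul_apply, ← map_mul, ← Module.End.mul_apply (B.ρ h), ← map_mul,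
    mul_inv_rev, inv_inv, mul_inv_cancel_left]

/-- The norm of a linear map as a morphism of representations. -/
def normHom {A B : Rep.{0} k G} (ψ : A.V →ₗ[k] B.V) : A ⟶ B :=
  Rep.ofHom (ρ := A.ρ) (σ := B.ρ) ⟨normLin ψ, fun g => by
    apply LinearMap.ext
    intro a
    exact normLin_equivariant ψ g a⟩

lemma normHom_hom_apply {A B : Rep.{0} k G} (ψ : A.V →ₗ[k] B.V) (a : A.V) :
    (normHom ψ).hom a = ∑ g : G, B.ρ g (ψ (A.ρ g⁻¹ a)) :=
  normLin_apply ψ a

lemma normHom_comp {A B B' : Rep.{0} k G} (ψ : A.V →ₗ[k] B.V) (f : B ⟶ B') :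
    normHom ψ ≫ f = normHom (f.hom.toLinearMap ∘ₗ ψ) := by
  apply Rep.hom_ext
  apply Representation.IntertwiningMap.ext
  apply LinearMap.ext
  intro a
  change f.hom ((normHom ψ).hom a) = (normHom (f.hom.toLinearMap ∘ₗ ψ)).hom a
  rw [normHom_hom_apply, normHom_hom_apply, map_sum]
  refine Finset.sum_congr rfl fun g _ => ?_
  exact Rep.hom_comm_apply f g _

lemma comp_normHom {A' A B : Rep.{0} k G} (f : A' ⟶ A) (ψ : A.V →ₗ[k] B.V) :
    f ≫ normHom ψ = normHom (ψ ∘ₗ f.hom.toLinearMap) := by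
  apply Rep.hom_ext
  apply Representation.IntertwiningMap.ext
  apply LinearMap.ext
  intro a
  change (normHom ψ).hom (f.hom a) = (normHom (ψ ∘ₗ f.hom.toLinearMap)).hom a
  rw [normHom_hom_apply, normHom_hom_apply]
  refine Finset.sum_congr rfl fun g _ => ?_
  change B.ρ g (ψ (A.ρ g⁻¹ (f.hom a))) = B.ρ g (ψ (f.hom (A'.ρ g⁻¹ a)))
  rw [Rep.hom_comm_apply]

/-- The norm of a morphism of representations is `|G|` times the morphism. -/
lemma normHom_of_hom_apply {A B : Rep.{0} k G} (f : A ⟶ B) (a : A.V) :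
    (normHom f.hom.toLinearMap).hom a = Fintype.card G • f.hom a := by
  rw [normHom_hom_apply]
  have : ∀ g : G, B.ρ g (f.hom.toLinearMap (A.ρ g⁻¹ a)) = f.hom a := fun g => by
    change B.ρ g (f.hom (A.ρ g⁻¹ a)) = f.hom a
    rw [Rep.hom_comm_apply, ← Module.End.mul_apply, ← map_mul, mul_inv_cancel, map_one]
    rfl
  rw [Finset.sum_congr rfl fun g _ => this g]
  simp

/-- `A` is weakly projective: the identity is the norm of a `k`-linear endomorphism. -/
def IsWeakProj (A : Rep.{0} k G) : Prop :=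
  ∃ u : A.V →ₗ[k] A.V, ∀ a : A.V, ∑ g : G, A.ρ g (u (A.ρ g⁻¹ a)) = a

lemma IsWeakProj.normHom_eq {A : Rep.{0} k G} {u : A.V →ₗ[k] A.V}
    (hu : ∀ a : A.V, ∑ g : G, A.ρ g (u (A.ρ g⁻¹ a)) = a) : normHom u = 𝟙 A := by
  apply Rep.hom_ext
  apply Representation.IntertwiningMap.ext
  apply LinearMap.ext
  intro a
  change (normHom u).hom a = a
  rw [normHom_hom_apply, hu]

/-- A morphism into a weakly projective representation is a norm. -/
lemma hom_eq_normHom_of_isWeakProj_right {A B : Rep.{0} k G} (hB : IsWeakProj B) (f : A ⟶ B) :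
    ∃ ψ : A.V →ₗ[k] B.V, f = normHom ψ := by
  obtain ⟨u, hu⟩ := hB
  refine ⟨u ∘ₗ f.hom.toLinearMap, ?_⟩
  rw [← comp_normHom, IsWeakProj.normHom_eq hu, Category.comp_id]

/-- A morphism out of a weakly projective representation is a norm. -/
lemma hom_eq_normHom_of_isWeakProj_left {A B : Rep.{0} k G} (hA : IsWeakProj A) (f : A ⟶ B) :
    ∃ ψ : A.V →ₗ[k] B.V, f = normHom ψ := by
  obtain ⟨u, hu⟩ := hA
  refine ⟨f.hom.toLinearMap ∘ₗ u, ?_⟩
  rw [← normHom_comp, IsWeakProj.normHom_eq hu, Category.id_comp]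

/-- Invariants of a weakly projective representation are norms. -/
lemma IsWeakProj.exists_norm_eq {A : Rep.{0} k G} (hA : IsWeakProj A) (a : A.V)
    (ha : ∀ g : G, A.ρ g a = a) : ∃ b : A.V, ∑ g : G, A.ρ g b = a := by
  obtain ⟨u, hu⟩ := hA
  refine ⟨u a, ?_⟩
  conv_rhs => rw [← hu a]
  refine Finset.sum_congr rfl fun g _ => ?_
  rw [ha]

/-- `1`-cocycles with values in a weakly projective representation are coboundaries. -/
lemma IsWeakProj.exists_coboundary {A : Rep.{0} k G} (hA : IsWeakProj A) (c : G → A.V)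
    (hc : ∀ g h : G, c (g * h) = A.ρ g (c h) + c g) :
    ∃ b : A.V, ∀ g : G, c g = A.ρ g b - b := by
  obtain ⟨u, hu⟩ := hA
  refine ⟨-∑ h : G, A.ρ h (u (A.ρ h⁻¹ (c h))), fun g => ?_⟩
  have key : A.ρ g (∑ h : G, A.ρ h (u (A.ρ h⁻¹ (c h)))) =
      ∑ h : G, A.ρ h (u (A.ρ h⁻¹ (c h))) - c g := by
    rw [map_sum]
    have e1 : ∑ h : G, A.ρ g (A.ρ h (u (A.ρ h⁻¹ (c h)))) =
        ∑ h : G, A.ρ h (u (A.ρ h⁻¹ (c h - c g))) := by
      refine Fintype.sum_equiv (Equiv.mulLeft g) _ _ fun h => ?_
      change A.ρ g (A.ρ h (u (A.ρ h⁻¹ (c h)))) =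
        A.ρ (g * h) (u (A.ρ (g * h)⁻¹ (c (g * h) - c g)))
      rw [hc g h, add_sub_cancel_right, mul_inv_rev, map_mul, map_mul, Module.End.mul_apply,
        Module.End.mul_apply, ← Module.End.mul_apply (A.ρ g⁻¹) (A.ρ g), ← map_mul,
        inv_mul_cancel, map_one, Module.End.one_apply]
    rw [e1]
    simp only [map_sub, Finset.sum_sub_distrib, hu]
  rw [map_neg, key]
  abel

end

end Fermat.Agent.S55.T.H837

end
-- ===== PACK-END S55/T/NakH837/WeakProj.lean

-- ===== PACK-BEGIN S55/H963/ClassRep.lean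
section


/-!
# S55 / leaf RAY-N1 (helper963): ideal classes, coprime representatives, translation by an ideal
-/

set_option autoImplicit false

namespace Fermat.Agent.S55.H963

open NumberField

open scoped nonZeroDivisors

variable {K : Type*} [Field K] [NumberField K]

/-- The class of an ideal (`1` for the zero ideal). -/
noncomputable def cl (I : Ideal (𝓞 K)) : ClassGroup (𝓞 K) :=
  open Classical in
  if h : I ≠ ⊥ then ClassGroup.mk0 ⟨I, mem_nonZeroDivisors_iff_ne_zero.mpr h⟩ else 1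

theorem cl_of_ne_bot {I : Ideal (𝓞 K)} (h : I ≠ ⊥) :
    cl I = ClassGroup.mk0 ⟨I, mem_nonZeroDivisors_iff_ne_zero.mpr h⟩ := by
  unfold cl
  rw [dif_pos h]

theorem cl_mul {I J : Ideal (𝓞 K)} (hI : I ≠ ⊥) (hJ : J ≠ ⊥) : cl (I * J) = cl I * cl J := by
  have hIJ : I * J ≠ ⊥ := mul_ne_zero hI hJ
  rw [cl_of_ne_bot hI, cl_of_ne_bot hJ, cl_of_ne_bot hIJ, ← map_mul]
  rfl

theorem cl_eq_one_iff {I : Ideal (𝓞 K)} (hI : I ≠ ⊥) : cl I = 1 ↔ Submodule.IsPrincipal I := by
  rw [cl_of_ne_bot hI]
  exact ClassGroup.mk0_eq_one_iff _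

theorem cl_surjective (C : ClassGroup (𝓞 K)) : ∃ I : Ideal (𝓞 K), I ≠ ⊥ ∧ cl I = C := by
  obtain ⟨⟨I, hI⟩, rfl⟩ := ClassGroup.mk0_surjective C
  have hI' : I ≠ ⊥ := mem_nonZeroDivisors_iff_ne_zero.mp hI
  exact ⟨I, hI', cl_of_ne_bot hI'⟩

/-- For nonzero ideals `J`, `m` there is an ideal `𝔟` coprime to `m` with `J * 𝔟` principal. -/
theorem exists_coprime_mul_principal (J m : Ideal (𝓞 K)) (hJ : J ≠ ⊥) (hm : m ≠ ⊥) :
    ∃ 𝔟 : Ideal (𝓞 K), IsCoprime 𝔟 m ∧ Submodule.IsPrincipal (J * 𝔟) := by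
  have h1 : J * m ≤ J := Ideal.mul_le_left
  have h2 : J * m ≠ 0 := mul_ne_zero hJ hm
  obtain ⟨a, ha⟩ := IsDedekindDomain.exists_sup_span_eq h1 h2
  have haJ : Ideal.span {a} ≤ J := by
    rw [← ha]
    exact le_sup_right
  obtain ⟨𝔟, h𝔟⟩ := Ideal.dvd_iff_le.mpr haJ
  refine ⟨𝔟, ?_, ?_⟩
  · rw [Ideal.isCoprime_iff_sup_eq]
    have h3 : J * (𝔟 ⊔ m) = J * ⊤ := by
      rw [Ideal.mul_sup, ← h𝔟, Ideal.mul_top, sup_comm]
      exact ha
    exact mul_left_cancel₀ hJ h3
  · rw [← h𝔟]
    exact ⟨⟨a, rfl⟩⟩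

/-- Every ideal class contains a nonzero ideal coprime to a given nonzero ideal. -/
theorem exists_coprime_rep (m : Ideal (𝓞 K)) (hm : m ≠ ⊥) (C : ClassGroup (𝓞 K)) :
    ∃ 𝔟 : Ideal (𝓞 K), 𝔟 ≠ ⊥ ∧ IsCoprime 𝔟 m ∧ cl 𝔟 = C := by
  by_cases hmtop : m = ⊤
  · obtain ⟨I, hI, hIC⟩ := cl_surjective C
    refine ⟨I, hI, ?_, hIC⟩
    rw [hmtop, Ideal.isCoprime_iff_sup_eq]
    simp
  · obtain ⟨J, hJ, hJC⟩ := cl_surjective C⁻¹
    obtain ⟨𝔟, h𝔟m, h𝔟p⟩ := exists_coprime_mul_principal J m hJ hm
    have h𝔟 : 𝔟 ≠ ⊥ := by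
      rintro rfl
      rw [Ideal.isCoprime_iff_sup_eq, bot_sup_eq] at h𝔟m
      exact hmtop h𝔟m
    refine ⟨𝔟, h𝔟, h𝔟m, ?_⟩
    have h1 : cl (J * 𝔟) = 1 := (cl_eq_one_iff (mul_ne_zero hJ h𝔟)).mpr h𝔟p
    rw [cl_mul hJ h𝔟, hJC] at h1
    exact (inv_mul_eq_one.mp h1).symm

/-- **Translation by an ideal**: if multiplication by `𝔟 ≠ 0` maps `Z` onto `Z'` then the
partial zeta sums over `Z` and `Z'` differ by the factor `N(𝔟)^s`. -/
theorem tsum_mul_ideal (𝔟 : Ideal (𝓞 K)) (h𝔟 : 𝔟 ≠ ⊥) (Z Z' : Set (Ideal (𝓞 K)))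
    (hZ : ∀ I ∈ Z, I * 𝔟 ∈ Z') (hZ' : ∀ J ∈ Z', ∃ I ∈ Z, I * 𝔟 = J) (s : ℝ) :
    ∑' I : Z, (Ideal.absNorm (I : Ideal (𝓞 K)) : ℝ) ^ (-s) =
      (Ideal.absNorm 𝔟 : ℝ) ^ s * ∑' J : Z', (Ideal.absNorm (J : Ideal (𝓞 K)) : ℝ) ^ (-s) := by
  have hinj : Function.Injective (fun I : Z => (⟨(I : Ideal (𝓞 K)) * 𝔟, hZ I I.2⟩ : Z')) := by
    intro I I' h
    have h' : (I : Ideal (𝓞 K)) * 𝔟 = (I' : Ideal (𝓞 K)) * 𝔟 := congrArg Subtype.val h
    exact Subtype.ext (mul_right_cancel₀ h𝔟 h')
  have hsurj : Function.Surjective (fun I : Z => (⟨(I : Ideal (𝓞 K)) * 𝔟, hZ I I.2⟩ : Z')) := by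
    rintro ⟨J, hJ⟩
    obtain ⟨I, hI, rfl⟩ := hZ' J hJ
    exact ⟨⟨I, hI⟩, rfl⟩
  let e : Z ≃ Z' := Equiv.ofBijective _ ⟨hinj, hsurj⟩
  have hN : (0 : ℝ) < Ideal.absNorm 𝔟 := by
    have : Ideal.absNorm 𝔟 ≠ 0 := by
      rw [Ne, Ideal.absNorm_eq_zero_iff]
      exact h𝔟
    exact_mod_cast Nat.pos_of_ne_zero this
  rw [← e.tsum_eq, ← tsum_mul_left]
  congr 1
  funext I
  show _ = _ * (Ideal.absNorm ((I : Ideal (𝓞 K)) * 𝔟) : ℝ) ^ (-s)
  rw [map_mul, Nat.cast_mul, Real.mul_rpow (Nat.cast_nonneg _) (Nat.cast_nonneg _),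
    mul_comm ((Ideal.absNorm (I : Ideal (𝓞 K)) : ℝ) ^ (-s)), ← mul_assoc,
    ← Real.rpow_add hN, add_neg_cancel, Real.rpow_zero, one_mul]

/-- Summability transfers along translation by an ideal. -/
theorem summable_of_mul_ideal (𝔟 : Ideal (𝓞 K)) (h𝔟 : 𝔟 ≠ ⊥) (Z Z' : Set (Ideal (𝓞 K)))
    (hZ : ∀ I ∈ Z, I * 𝔟 ∈ Z') (s : ℝ)
    (hsum : Summable fun J : Z' => (Ideal.absNorm (J : Ideal (𝓞 K)) : ℝ) ^ (-s)) :
    Summable fun I : Z => (Ideal.absNorm (I : Ideal (𝓞 K)) : ℝ) ^ (-s) := by
  have hinj : Function.Injective (fun I : Z => (⟨(I : Ideal (𝓞 K)) * 𝔟, hZ I I.2⟩ : Z')) := by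
    intro I I' h
    have h' : (I : Ideal (𝓞 K)) * 𝔟 = (I' : Ideal (𝓞 K)) * 𝔟 := congrArg Subtype.val h
    exact Subtype.ext (mul_right_cancel₀ h𝔟 h')
  have hN : (0 : ℝ) < Ideal.absNorm 𝔟 := by
    have : Ideal.absNorm 𝔟 ≠ 0 := by
      rw [Ne, Ideal.absNorm_eq_zero_iff]
      exact h𝔟
    exact_mod_cast Nat.pos_of_ne_zero this
  have h1 := (hsum.comp_injective hinj).mul_left ((Ideal.absNorm 𝔟 : ℝ) ^ s)
  refine h1.congr fun I => ?_
  show _ * (Ideal.absNorm ((I : Ideal (𝓞 K)) * 𝔟) : ℝ) ^ (-s) = _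
  rw [map_mul, Nat.cast_mul, Real.mul_rpow (Nat.cast_nonneg _) (Nat.cast_nonneg _),
    mul_comm ((Ideal.absNorm (I : Ideal (𝓞 K)) : ℝ) ^ (-s)), ← mul_assoc,
    ← Real.rpow_add hN, add_neg_cancel, Real.rpow_zero, one_mul]

end Fermat.Agent.S55.H963

end
-- ===== PACK-END S55/H963/ClassRep.lean

-- ===== PACK-BEGIN S55/G/SI777/Split.lean
section
/-
S55, layer G, block G-SI-FINAL (helper777).
Unramified primes and split primes for a Galois extension `L/K` with group `G`:

* `eAt_eq_one_of_inertia`   : trivial inertia group at `w` ⇒ `e(w | K) = 1`;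
* `stabilizer_trivial`      : trivial inertia and `f(w | K) = 1` ⇒ trivial decomposition group;
* `inertiaDeg_eq_one_of_absNorm_prime`, `inertiaDeg_eq_one_of_absNorm_eq`;
* `norm_single_eq_divBase`  : for a prime `w` with trivial decomposition group,
  `N_G [w] = divBase [w ∩ K]` (all primes unramified outside `S`);
* `single_mem_normSub`      : the class of `(0, [w ∩ K])` lies in `cBase⁻¹ (N_G C_S(L))`.
-/


set_option autoImplicit false
set_option linter.unusedSectionVars false

open scoped NumberField TensorProduct Pointwise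
open IsDedekindDomain

noncomputable section

namespace Fermat.Agent.S55.G.SI777

open Fermat.Agent.S55.G Fermat.Agent.S55.G.DescH773

section Ram

variable (G K L : Type) [Group G] [Finite G] [Field K] [NumberField K]
  [Field L] [NumberField L] [Algebra K L] [MulSemiringAction G L] [IsGaloisGroup G K L]

variable {L} in
/-- If the inertia group of `w` is trivial, then `e(w | K) = 1`. -/
lemma eAt_eq_one_of_inertia (w : HeightOneSpectrum (𝓞 L))
    (h : ∀ g : G, (∀ x : 𝓞 L, g • x - x ∈ w.asIdeal) → g = 1) : eAt K w = 1 := by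
  have hv : (primeUnder K w).asIdeal ≠ ⊥ := (primeUnder K w).ne_bot
  have : (primeUnder K w).asIdeal.IsMaximal := (primeUnder K w).isMaximal
  have h1 : Nat.card (w.asIdeal.inertia G) = 1 := by
    rw [Nat.card_eq_one_iff_unique]
    refine ⟨⟨fun a b => Subtype.ext ?_⟩, ⟨1⟩⟩
    rw [h a.1 a.2, h b.1 b.2]
  have h2 := Ideal.card_inertia_eq_ramificationIdxIn (G := G) (primeUnder K w).asIdeal w.asIdeal
  have h3 := Ideal.ramificationIdxIn_eq_ramificationIdx (primeUnder K w).asIdeal w.asIdeal G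
  have h4 := Ideal.ramificationIdx'_eq_ramificationIdx (primeUnder K w).asIdeal w.asIdeal hv
  rw [eAt, h4, ← h3, ← h2, h1]

variable {L} in
/-- If the inertia group of `w` is trivial and `f(w | K) = 1`, then the decomposition group of
`w` is trivial. -/
lemma stabilizer_trivial (w : HeightOneSpectrum (𝓞 L))
    (h : ∀ g : G, (∀ x : 𝓞 L, g • x - x ∈ w.asIdeal) → g = 1)
    (hf : w.asIdeal.inertiaDeg (𝓞 K) = 1) (g : G) (hg : primeSMul G g w = w) : g = 1 := by
  have : (primeUnder K w).asIdeal.IsMaximal := (primeUnder K w).isMaximal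
  have h1 : Nat.card (w.asIdeal.inertia G) = 1 := by
    rw [Nat.card_eq_one_iff_unique]
    refine ⟨⟨fun a b => Subtype.ext ?_⟩, ⟨1⟩⟩
    rw [h a.1 a.2, h b.1 b.2]
  have h2 := Ideal.card_stabilizer_eq_card_inertia_mul_finrank (G := G)
    (primeUnder K w).asIdeal w.asIdeal
  rw [h1, hf, Nat.card_eq_one_iff_unique] at h2
  have hmem : g ∈ MulAction.stabilizer G w.asIdeal := by
    rw [MulAction.mem_stabilizer_iff]
    exact congrArg HeightOneSpectrum.asIdeal hg
  have := h2.1.elim ⟨g, hmem⟩ 1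
  exact congrArg Subtype.val this

variable {L} in
lemma absNorm_eq_pow (w : HeightOneSpectrum (𝓞 L)) :
    Ideal.absNorm w.asIdeal =
      Ideal.absNorm (primeUnder K w).asIdeal ^ w.asIdeal.inertiaDeg (𝓞 K) := by
  have : (primeUnder K w).asIdeal.IsMaximal := (primeUnder K w).isMaximal
  have : w.asIdeal.IsMaximal := w.isMaximal
  rw [← Ideal.inertiaDeg'_eq_inertiaDeg (primeUnder K w).asIdeal w.asIdeal]
  exact Ideal.absNorm_eq_pow_inertiaDeg'_of_liesOver w.asIdeal (primeUnder K w).asIdeal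
    (primeUnder K w).isPrime (primeUnder K w).ne_bot

variable {L} in
lemma inertiaDeg_eq_one_of_absNorm_prime (w : HeightOneSpectrum (𝓞 L))
    (hw : (Ideal.absNorm w.asIdeal).Prime) : w.asIdeal.inertiaDeg (𝓞 K) = 1 := by
  have h := absNorm_eq_pow K w
  rw [h] at hw
  exact Nat.Prime.eq_one_of_pow hw

variable {L} in
lemma inertiaDeg_eq_one_of_absNorm_eq (w : HeightOneSpectrum (𝓞 L))
    (hw : Ideal.absNorm w.asIdeal = Ideal.absNorm (primeUnder K w).asIdeal) :
    w.asIdeal.inertiaDeg (𝓞 K) = 1 := by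
  have h := absNorm_eq_pow K w
  have h2 : 2 ≤ Ideal.absNorm (primeUnder K w).asIdeal := by
    have h0 : Ideal.absNorm (primeUnder K w).asIdeal ≠ 0 := by
      rw [Ne, Ideal.absNorm_eq_zero_iff]
      exact (primeUnder K w).ne_bot
    have h1 : Ideal.absNorm (primeUnder K w).asIdeal ≠ 1 := by
      rw [Ne, Ideal.absNorm_eq_one_iff]
      exact (primeUnder K w).isPrime.ne_top
    omega
  rw [hw] at h
  exact (Nat.pow_right_injective h2 (by simpa using h)).symm

end Ram

section NormSingle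

variable (S : Finset Nat.Primes) (G K L : Type) [Group G] [Fintype G] [Field K] [NumberField K]
  [Field L] [NumberField L] [Algebra K L] [MulSemiringAction G L] [IsGaloisGroup G K L]

/-- For a prime `w` outside `S` with trivial decomposition group (`L/K` unramified outside `S`),
`N_G [w] = ∑_{w' | v} [w'] = divBase [v]`, `v = w ∩ K`. -/
lemma norm_single_eq_divBase (hur : ∀ w : PrimeOut S L, eAt K w.1 = 1) (w : PrimeOut S L)
    (hstab : ∀ g : G, primeOutMap S G L g w = w → g = 1) :
    (divRepr S G L).norm (Finsupp.single w 1) =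
      divBase S K L (Finsupp.single (primeOutUnder S K L w) 1) := by
  classical
  ext w'
  rw [Representation.norm, LinearMap.sum_apply, Finsupp.finsetSum_apply, divBase_apply, hur w']
  simp only [divRepr_single, Finsupp.single_apply, Nat.cast_one, one_mul]
  by_cases h : primeOutUnder S K L w = primeOutUnder S K L w'
  · obtain ⟨g0, hg0⟩ := exists_primeOutMap_eq S G K L w w' h
    rw [if_pos h, Finset.sum_eq_single g0]
    · simp [hg0]
    · intro g _ hg
      rw [if_neg]
      intro hgw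
      apply hg
      have h1 : primeOutMap S G L (g0⁻¹ * g) w = w := by
        rw [primeOutMap_mul, hgw, ← hg0, ← primeOutMap_mul, inv_mul_cancel, primeOutMap_one]
      have h2 := hstab _ h1
      exact (inv_mul_eq_one.1 h2).symm
    · intro h'
      exact absurd (Finset.mem_univ _) h'
  · rw [if_neg h]
    apply Finset.sum_eq_zero
    intro g _
    rw [if_neg]
    intro hgw
    apply h
    rw [← hgw, primeOutUnder_primeOutMap]

lemma jdRepr_norm_apply (y : JD S L) :
    (jdRepr S G L).norm y = ((jRepr G S L).norm y.1, (divRepr S G L).norm y.2) := by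
  simp only [Representation.norm, LinearMap.sum_apply, jdRepr_apply]
  exact Prod.ext (by simp [Prod.fst_sum]) (by simp [Prod.snd_sum])

lemma cRepr_norm_mk (y : JD S L) :
    (cRepr S G L).norm (Submodule.Quotient.mk y) =
      Submodule.Quotient.mk ((jdRepr S G L).norm y) := by
  simp only [Representation.norm, LinearMap.sum_apply, cRepr_mk]
  rw [← Submodule.mkQ_apply, map_sum]
  rfl

/-- The class of `(0, [w ∩ K])` is a norm from `C_S(L)` when `w` has trivial decomposition
group. -/
lemma single_mem_normSub (hur : ∀ w : PrimeOut S L, eAt K w.1 = 1) (w : PrimeOut S L)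
    (hstab : ∀ g : G, primeOutMap S G L g w = w → g = 1) :
    (Submodule.Quotient.mk ((0, Finsupp.single (primeOutUnder S K L w) 1) : JD S K) : CS S K) ∈
      normSub S G K L := by
  rw [mem_normSub_iff]
  refine ⟨Submodule.Quotient.mk ((0, Finsupp.single w 1) : JD S L), ?_⟩
  rw [cRepr_norm_mk, cBase_mk, jdRepr_norm_apply]
  congr 1
  refine Prod.ext ?_ ?_
  · simp
  · exact norm_single_eq_divBase S G K L hur w hstab

end NormSingle

end Fermat.Agent.S55.G.SI777

end
end
-- ===== PACK-END S55/G/SI777/Split.lean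

-- ===== PACK-BEGIN S55/Local/H959/InertiaCard.lean
section





/-!
# S55, layer L, piece UR6' (helper959): `InertiaCardStatement`

`theorem inertiaCard : Fermat.Agent.S55.Local.InertiaCardStatement`.

For a finite Galois extension `N / E` of local fields let `R = integralClosure A E`,
`S = integralClosure R N`, `P = (ϖN) ⊆ S` the maximal ideal and `J = P.inertia Gal(N/E)`
(Mathlib).  Then

* `σ ∈ J ↔ ∀ x integral, σ x - x ∈ P` (a description that only mentions `N`, so that the
  inertia groups of `N / K` and of `N / E`, `E` intermediate, are related by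
  `J_E ≃ Gal(N/E) ⊓ J_K`),
* `|J| = e(N/E)`, i.e. `ϖE = unit * ϖN ^ |J|`
  (Mathlib `Ideal.card_inertia_eq_ramificationIdxIn` + `Ideal.ramificationIdx'_spec`),

(`exists_inertia`).  With `I = J_K`, `b = |Gal(N/E) ⊓ I| = e(N/E)`, `n = |I| = e(N/K)`,
`a = e(E/K)`, `n = a * b` (`RamExp.lean`):
`N / E` unramified `↔ b = 1 ↔ Gal(N/E) ⊓ I = ⊥`, and
`E / K` unramified `↔ a = 1 ↔ b = n ↔ I ≤ Gal(N/E)`.
-/

set_option autoImplicit false
set_option linter.overlappingInstances false
set_option linter.style.haveILetI false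
set_option linter.unusedSectionVars false

namespace Fermat.Agent.S55.Local.H959

open Fermat.Agent.S55.Local
open scoped Pointwise

section AKLB

variable (R K L S : Type) [CommRing R] [IsDomain R] [IsDedekindDomain R]
  [Field K] [Field L] [Algebra R K] [IsFractionRing R K] [Algebra K L] [Algebra R L]
  [IsScalarTower R K L] [FiniteDimensional K L] [IsGalois K L]
  [CommRing S] [IsDomain S] [IsDedekindDomain S] [Algebra R S] [Algebra S L]
  [IsScalarTower R S L] [IsIntegralClosure S R L] [Module.Finite R S] [IsFractionRing S L]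
  [Module.Flat R S]

attribute [local instance] Ideal.Quotient.field in
/-- Abstract core: the order of the inertia group of a maximal ideal `P` of `S` is the exponent
`e` with `p S ⊆ P ^ e`, `p S ⊄ P ^ (e + 1)`. -/
theorem card_inertia_gal (P : Ideal S) [P.IsMaximal] (hfin : Finite (R ⧸ P.under R)) (e : ℕ)
    (hle : (P.under R).map (algebraMap R S) ≤ P ^ e)
    (hgt : ¬ (P.under R).map (algebraMap R S) ≤ P ^ (e + 1))
    (hne : (P.under R).map (algebraMap R S) ≠ ⊥) :
    letI : MulSemiringAction Gal(L/K) S := IsIntegralClosure.MulSemiringAction R K L S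
    Nat.card (P.inertia Gal(L/K)) = e := by
  letI : MulSemiringAction Gal(L/K) S := IsIntegralClosure.MulSemiringAction R K L S
  haveI : IsGaloisGroup Gal(L/K) R S := IsGaloisGroup.of_isFractionRing _ _ _ K L
  have hint : Algebra.IsIntegral R S := inferInstance
  haveI hPmax : (P.under R).IsMaximal := Ideal.isMaximal_comap_of_isIntegral_of_isMaximal P
  have h1 := Ideal.card_inertia_eq_ramificationIdxIn (G := Gal(L/K)) (P.under R) P
  rw [Ideal.ramificationIdxIn_eq_ramificationIdx (P.under R) P Gal(L/K),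
    ← Ideal.ramificationIdx'_eq_ramificationIdx' (P.under R) P hne] at h1
  rw [h1]
  exact Ideal.ramificationIdx'_spec hle hgt

end AKLB

section InMax

variable (A F : Type) [CommRing A] [Field F] [Algebra A F]
variable (L : Type) [Field L] [Algebra F L]

/-- `y` lies in the maximal ideal of the ring of integers of `L`: it is integral and not
invertible in the ring of integers. -/
def InMax (y : L) : Prop := IsInt A F L y ∧ ∀ z : L, IsInt A F L z → y * z ≠ 1

variable {A F L}

lemma inMax_iff_of_unif {ϖ : Lˣ} (h : IsUnif A F L ϖ) (y : L) :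
    InMax A F L y ↔ IsInt A F L (y * ((ϖ⁻¹ : Lˣ) : L)) := by
  constructor
  · rintro ⟨hy, hz⟩
    rcases eq_or_ne y 0 with rfl | hy0
    · rw [zero_mul]; exact isInt_zero A F L
    rcases H294.unif_unit_or_dvd h (Units.mk0 y hy0) hy with hu | ⟨b, hb, hyb⟩
    · have hinv : IsInt A F L y⁻¹ := by simpa using hu.2
      exact absurd (mul_inv_cancel₀ hy0) (hz _ hinv)
    · rw [Units.val_mk0] at hyb
      have : y * ((ϖ⁻¹ : Lˣ) : L) = b := by
        rw [hyb, mul_comm (ϖ : L) b, mul_assoc, ← Units.val_mul, mul_inv_cancel, Units.val_one,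
          mul_one]
      rw [this]; exact hb
  · intro hy
    have hy' : y = y * ((ϖ⁻¹ : Lˣ) : L) * (ϖ : L) := by
      rw [mul_assoc, ← Units.val_mul, inv_mul_cancel, Units.val_one, mul_one]
    refine ⟨by rw [hy']; exact hy.mul h.1, fun z hz hyz => H294.unif_not_isInt_inv h ?_⟩
    have : ((ϖ⁻¹ : Lˣ) : L) = y * ((ϖ⁻¹ : Lˣ) : L) * z := by
      rw [mul_comm y, mul_assoc, hyz, mul_one]
    rw [this]; exact hy.mul hz

/-- Membership of `x * ϖ ^ (-k)` in the integers, in terms of the exponent of `x`. -/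
lemma isInt_mul_zpow_iff {ϖ : Lˣ} (h : IsUnif A F L ϖ) {x : Lˣ} {n : ℤ}
    (hn : x * ϖ ^ (-n) ∈ intUnits A F L) (k : ℤ) :
    IsInt A F L ((x * ϖ ^ (-k) : Lˣ) : L) ↔ k ≤ n := by
  have hn' : x * ϖ ^ (-k) * ϖ ^ (-(n - k)) ∈ intUnits A F L := by
    have : x * ϖ ^ (-k) * ϖ ^ (-(n - k)) = x * ϖ ^ (-n) := by
      rw [mul_assoc, ← zpow_add]; congr 2; ring
    rwa [this]
  constructor
  · intro hx
    have := unif_exp_nonneg h hn' hx
    omega
  · intro hk
    exact unif_isInt_of_exp_nonneg h hn' (by omega)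

end InMax

section Bridge

variable (A F : Type) [CommRing A] [IsDomain A] [IsDiscreteValuationRing A]
  [IsAdicComplete (IsLocalRing.maximalIdeal A) A] [Finite (IsLocalRing.ResidueField A)]
  [Field F] [CharZero F] [Algebra A F] [IsFractionRing A F]
  (E : Type) [Field E] [Algebra F E] [FiniteDimensional F E]
  (N : Type) [Field N] [Algebra F N] [Algebra E N] [IsScalarTower F E N]
  [FiniteDimensional E N] [IsGalois E N]
  [Algebra A E] [IsScalarTower A F E] [Algebra A N] [IsScalarTower A F N] [IsScalarTower A E N]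

attribute [local instance] H312.isScalarTower_intClosure

lemma mem_ON_iff (x : N) :
    x ∈ integralClosure (integralClosure A E) N ↔ IsInt A F N x := by
  rw [H715.isInt_iff A F N x]
  constructor
  · intro hx
    exact isIntegral_trans (R := A) (A := integralClosure A E) x hx
  · intro hx
    exact hx.tower_top

/-- A uniformizer of `N`, as an element of the ring of integers. -/
def unifON {ϖ : Nˣ} (h : IsUnif A F N ϖ) : integralClosure (integralClosure A E) N :=
  ⟨(ϖ : N), (mem_ON_iff A F E N _).2 h.1⟩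

/-- The maximal ideal of the ring of integers of `N`. -/
def maxON {ϖ : Nˣ} (h : IsUnif A F N ϖ) : Ideal (integralClosure (integralClosure A E) N) :=
  Ideal.span {unifON A F E N h}

lemma mem_maxON_pow {ϖ : Nˣ} (h : IsUnif A F N ϖ) (k : ℕ)
    (x : integralClosure (integralClosure A E) N) :
    x ∈ maxON A F E N h ^ k ↔ IsInt A F N ((x : N) * ((ϖ ^ (-(k : ℤ)) : Nˣ) : N)) := by
  have hz : ((ϖ ^ (-(k : ℤ)) : Nˣ) : N) = ((ϖ : N) ^ k)⁻¹ := by
    rw [zpow_neg, zpow_natCast, Units.val_inv_eq_inv_val, Units.val_pow_eq_pow_val]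
  have hϖ0 : (ϖ : N) ^ k ≠ 0 := pow_ne_zero _ ϖ.ne_zero
  rw [maxON, Ideal.span_singleton_pow, Ideal.mem_span_singleton, hz]
  constructor
  · rintro ⟨s, rfl⟩
    have : (((unifON A F E N h) ^ k * s : integralClosure (integralClosure A E) N) : N) *
        ((ϖ : N) ^ k)⁻¹ = (s : N) := by
      rw [Subalgebra.coe_mul, Subalgebra.coe_pow]
      show (ϖ : N) ^ k * (s : N) * ((ϖ : N) ^ k)⁻¹ = (s : N)
      rw [mul_comm, ← mul_assoc, inv_mul_cancel₀ hϖ0, one_mul]
    rw [this]
    exact (mem_ON_iff A F E N _).1 s.2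
  · intro hx
    refine ⟨⟨_, (mem_ON_iff A F E N _).2 hx⟩, Subtype.ext ?_⟩
    rw [Subalgebra.coe_mul, Subalgebra.coe_pow]
    show (x : N) = (ϖ : N) ^ k * ((x : N) * ((ϖ : N) ^ k)⁻¹)
    rw [mul_comm (x : N), ← mul_assoc, mul_inv_cancel₀ hϖ0, one_mul]

lemma mem_maxON_iff {ϖ : Nˣ} (h : IsUnif A F N ϖ)
    (x : integralClosure (integralClosure A E) N) :
    x ∈ maxON A F E N h ↔ InMax A F N (x : N) := by
  have := mem_maxON_pow A F E N h 1 x
  rw [pow_one] at this
  rw [this, inMax_iff_of_unif h]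
  simp

lemma maxON_isMaximal {ϖ : Nˣ} (h : IsUnif A F N ϖ) : (maxON A F E N h).IsMaximal := by
  rw [Ideal.isMaximal_iff]
  refine ⟨?_, fun J x _ hx hxJ => ?_⟩
  · intro h1
    have := (mem_maxON_iff A F E N h 1).1 h1
    exact this.2 1 (isInt_one A F N) (by simp)
  · have hxint : IsInt A F N (x : N) := (mem_ON_iff A F E N _).1 x.2
    have hinv : IsInt A F N ((x : N))⁻¹ := by
      by_contra hcon
      apply hx
      rw [mem_maxON_iff]
      refine ⟨hxint, fun z hz hxz => hcon ?_⟩
      have : ((x : N))⁻¹ = z := inv_eq_of_mul_eq_one_right hxz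
      rwa [this]
    have hx0 : (x : N) ≠ 0 := by
      intro h0
      apply hx
      have : x = 0 := Subtype.ext h0
      rw [this]
      exact Ideal.zero_mem _
    have : (1 : integralClosure (integralClosure A E) N) =
        x * ⟨((x : N))⁻¹, (mem_ON_iff A F E N _).2 hinv⟩ := by
      apply Subtype.ext
      rw [Subalgebra.coe_mul]
      show (1 : N) = (x : N) * ((x : N))⁻¹
      rw [mul_inv_cancel₀ hx0]
    rw [this]
    exact J.mul_mem_right _ hxJ

lemma coe_algebraMap_OE_ON (r : integralClosure A E) :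
    ((algebraMap (integralClosure A E) (integralClosure (integralClosure A E) N) r :
      integralClosure (integralClosure A E) N) : N) = algebraMap E N (r : E) := rfl

omit [IsDomain A] [IsDiscreteValuationRing A]
  [IsAdicComplete (IsLocalRing.maximalIdeal A) A] [Finite (IsLocalRing.ResidueField A)]
  [CharZero F] [IsFractionRing A F] [FiniteDimensional F E] [FiniteDimensional E N] [IsGalois E N]
  [Algebra A E] [IsScalarTower A F E] [Algebra A N] [IsScalarTower A F N] [IsScalarTower A E N]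
  [Algebra A F] [Algebra F E] in
lemma unitsIncl_self (y : Eˣ) : unitsIncl E E y = y := by
  ext; rfl

omit [IsDomain A] [IsDiscreteValuationRing A]
  [IsAdicComplete (IsLocalRing.maximalIdeal A) A] [Finite (IsLocalRing.ResidueField A)]
  [CharZero F] [IsFractionRing A F] [FiniteDimensional F E] [FiniteDimensional E N] [IsGalois E N]
  [Algebra A E] [IsScalarTower A F E] [Algebra A N] [IsScalarTower A F N] [IsScalarTower A E N] in
/-- The exponent of the image in `N` of an element of `E`. -/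
lemma exp_image {ϖE : Eˣ} {ϖ : Nˣ} {e : ℕ}
    (he : unitsIncl N E ϖE * ϖ ^ (-(e : ℤ)) ∈ intUnits A F N) (y : Eˣ) (m : ℕ)
    (hm : y * ϖE ^ (-(m : ℤ)) ∈ intUnits A F E) :
    unitsIncl N E y * ϖ ^ (-((m * e : ℕ) : ℤ)) ∈ intUnits A F N :=
  ramExp_tower (K := E) (E := E) (N := N) (ϖK := y) (ϖE := ϖE) (ϖN := ϖ) (a := m) (b := e)
    (by rwa [unitsIncl_self E]) he

/-- A uniformizer of `E`, as an element of the ring of integers. -/
def unifOE {ϖE : Eˣ} (hE : IsUnif A F E ϖE) : integralClosure A E :=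
  ⟨(ϖE : E), (H715.isInt_iff A F E _).1 hE.1⟩

lemma unifOE_mem_under {ϖE : Eˣ} {ϖ : Nˣ} (hE : IsUnif A F E ϖE) (h : IsUnif A F N ϖ) {e : ℕ}
    (he0 : 0 < e) (he : unitsIncl N E ϖE * ϖ ^ (-(e : ℤ)) ∈ intUnits A F N) :
    unifOE A F E hE ∈ (maxON A F E N h).under (integralClosure A E) := by
  rw [Ideal.under_def, Ideal.mem_comap, ← pow_one (maxON A F E N h), mem_maxON_pow,
    coe_algebraMap_OE_ON]
  exact (isInt_mul_zpow_iff h he ((1 : ℕ) : ℤ)).2 (by exact_mod_cast he0)

lemma map_under_le {ϖE : Eˣ} {ϖ : Nˣ} (hE : IsUnif A F E ϖE) (h : IsUnif A F N ϖ) {e : ℕ}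
    (he : unitsIncl N E ϖE * ϖ ^ (-(e : ℤ)) ∈ intUnits A F N) :
    ((maxON A F E N h).under (integralClosure A E)).map
      (algebraMap (integralClosure A E) (integralClosure (integralClosure A E) N)) ≤
      maxON A F E N h ^ e := by
  rw [Ideal.map_le_iff_le_comap]
  intro r hr
  rw [Ideal.mem_comap, mem_maxON_pow, coe_algebraMap_OE_ON]
  have hr' : InMax A F N (algebraMap E N (r : E)) := (mem_maxON_iff A F E N h _).1 hr
  rcases eq_or_ne (r : E) 0 with h0 | h0
  · rw [h0, map_zero, zero_mul]; exact isInt_zero A F N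
  · obtain ⟨m, hm⟩ := hE.2.2 (Units.mk0 (r : E) h0)
    have hrint : IsInt A F E (r : E) := (H715.isInt_iff A F E _).2 r.2
    have hm0 : 0 ≤ m := unif_exp_nonneg hE hm hrint
    have hm1 : m ≠ 0 := by
      intro hm1
      have hu : Units.mk0 (r : E) h0 ∈ intUnits A F E := (unif_exp_eq_zero_iff hE hm).2 hm1
      have hu' := H294.unitsIncl_mem_intUnits_of_mem (L := N) hu
      refine hr'.2 _ hu'.2 ?_
      have : algebraMap E N (r : E) = ((unitsIncl N E (Units.mk0 (r : E) h0) : Nˣ) : N) := rfl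
      rw [this, ← Units.val_mul, mul_inv_cancel, Units.val_one]
    obtain ⟨m', rfl⟩ := Int.eq_ofNat_of_zero_le hm0
    have hm'pos : 0 < m' := by
      rcases Nat.eq_zero_or_pos m' with h | h
      · exact absurd (by rw [h]; rfl) hm1
      · exact h
    have h1 := exp_image A F E N he (Units.mk0 (r : E) h0) m' hm
    have h2 := (isInt_mul_zpow_iff h h1 (e : ℤ)).2
      (by exact_mod_cast Nat.le_mul_of_pos_left e hm'pos)
    exact h2

lemma not_map_under_le {ϖE : Eˣ} {ϖ : Nˣ} (hE : IsUnif A F E ϖE) (h : IsUnif A F N ϖ) {e : ℕ}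
    (he0 : 0 < e) (he : unitsIncl N E ϖE * ϖ ^ (-(e : ℤ)) ∈ intUnits A F N) :
    ¬ ((maxON A F E N h).under (integralClosure A E)).map
      (algebraMap (integralClosure A E) (integralClosure (integralClosure A E) N)) ≤
      maxON A F E N h ^ (e + 1) := by
  intro hle
  have := hle (Ideal.mem_map_of_mem _ (unifOE_mem_under A F E N hE h he0 he))
  rw [mem_maxON_pow] at this
  have h3 := (isInt_mul_zpow_iff h he ((e + 1 : ℕ) : ℤ)).1 this
  omega

lemma map_under_ne_bot {ϖE : Eˣ} {ϖ : Nˣ} (hE : IsUnif A F E ϖE) (h : IsUnif A F N ϖ) {e : ℕ}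
    (he0 : 0 < e) (he : unitsIncl N E ϖE * ϖ ^ (-(e : ℤ)) ∈ intUnits A F N) :
    ((maxON A F E N h).under (integralClosure A E)).map
      (algebraMap (integralClosure A E) (integralClosure (integralClosure A E) N)) ≠ ⊥ := by
  intro hbot
  have := Ideal.mem_map_of_mem
    (algebraMap (integralClosure A E) (integralClosure (integralClosure A E) N))
    (unifOE_mem_under A F E N hE h he0 he)
  rw [hbot, Ideal.mem_bot] at this
  have h0 := congrArg Subtype.val this
  rw [coe_algebraMap_OE_ON] at h0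
  have h1 : algebraMap E N (ϖE : E) = 0 := h0
  rw [map_eq_zero] at h1
  exact ϖE.ne_zero h1

/-- The inertia subgroup of a finite Galois extension `N / E` of local fields, with its
concrete description and its order (version with auxiliary `A`-algebra structures). -/
theorem exists_inertia_aux : ∃ J : Subgroup (N ≃ₐ[E] N),
    (∀ σ : N ≃ₐ[E] N, σ ∈ J ↔ ∀ x : N, IsInt A F N x → InMax A F N (σ x - x)) ∧
    ∀ (ϖE : Eˣ) (ϖN : Nˣ), IsUnif A F E ϖE → IsUnif A F N ϖN →
      unitsIncl N E ϖE * ϖN ^ (-(Nat.card J : ℤ)) ∈ intUnits A F N := by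
  haveI : FiniteDimensional F N := FiniteDimensional.trans F E N
  haveI : IsFractionRing (integralClosure A E) E := H715.isFractionRing_OL A F E
  haveI : IsDedekindDomain (integralClosure A E) := H715.isDedekindDomain_OL A F E
  haveI : IsDedekindDomain (integralClosure (integralClosure A E) N) :=
    IsIntegralClosure.isDedekindDomain (integralClosure A E) E N _
  haveI : Module.Finite (integralClosure A E) (integralClosure (integralClosure A E) N) :=
    IsIntegralClosure.finite (integralClosure A E) E N _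
  haveI : IsFractionRing (integralClosure (integralClosure A E) N) N :=
    IsIntegralClosure.isFractionRing_of_finite_extension (integralClosure A E) E N _
  obtain ⟨ϖ₀, h₀⟩ := H608.existsUnif A F N
  letI : MulSemiringAction (N ≃ₐ[E] N) (integralClosure (integralClosure A E) N) :=
    IsIntegralClosure.MulSemiringAction (integralClosure A E) E N
      (integralClosure (integralClosure A E) N)
  have hsmul : ∀ (σ : N ≃ₐ[E] N) (x : integralClosure (integralClosure A E) N),
      ((σ • x : integralClosure (integralClosure A E) N) : N) = σ (x : N) := fun σ x =>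
    algebraMap_galRestrict_apply (integralClosure A E) σ x
  refine ⟨(maxON A F E N h₀).inertia (N ≃ₐ[E] N), fun σ => ?_, ?_⟩
  · rw [AddSubgroup.mem_inertia]
    constructor
    · intro hσ x hx
      have := hσ ⟨x, (mem_ON_iff A F E N x).2 hx⟩
      have h2 := (mem_maxON_iff A F E N h₀ _).1 this
      rwa [Subalgebra.coe_sub, hsmul] at h2
    · intro hσ x
      show σ • x - x ∈ maxON A F E N h₀
      rw [mem_maxON_iff, Subalgebra.coe_sub, hsmul]
      exact hσ _ ((mem_ON_iff A F E N _).1 x.2)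
  · intro ϖE ϖN hE hN
    obtain ⟨e, he0, he⟩ := exists_ramExp hE h₀
    haveI := maxON_isMaximal A F E N h₀
    have hp0 : (maxON A F E N h₀).under (integralClosure A E) ≠ ⊥ := by
      intro hbot
      have := unifOE_mem_under A F E N hE h₀ he0 he
      rw [hbot, Ideal.mem_bot] at this
      exact ϖE.ne_zero (congrArg Subtype.val this)
    have hcard : Nat.card ((maxON A F E N h₀).inertia (N ≃ₐ[E] N)) = e :=
      card_inertia_gal (integralClosure A E) E N (integralClosure (integralClosure A E) N)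
        (maxON A F E N h₀) (H715.finite_quotient_OL A F E _ hp0) e
        (map_under_le A F E N hE h₀ he) (not_map_under_le A F E N hE h₀ he0 he)
        (map_under_ne_bot A F E N hE h₀ he0 he)
    rw [hcard]
    have hu := unif_div_unif hN h₀
    have h2 := (intUnits A F N).mul_mem he ((intUnits A F N).pow_mem hu e)
    have h3 : unitsIncl N E ϖE * ϖ₀ ^ (-(e : ℤ)) * (ϖ₀ * ϖN ^ (-(1 : ℤ))) ^ e =
        unitsIncl N E ϖE * ϖN ^ (-(e : ℤ)) := by
      rw [mul_pow, zpow_neg, zpow_natCast, zpow_neg, zpow_one, zpow_neg, zpow_natCast, inv_pow,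
        mul_assoc, inv_mul_cancel_left]
    rwa [h3] at h2

end Bridge

section Final

variable (A F : Type) [CommRing A] [IsDomain A] [IsDiscreteValuationRing A]
  [IsAdicComplete (IsLocalRing.maximalIdeal A) A] [Finite (IsLocalRing.ResidueField A)]
  [Field F] [CharZero F] [Algebra A F] [IsFractionRing A F]
  (E : Type) [Field E] [Algebra F E] [FiniteDimensional F E]
  (N : Type) [Field N] [Algebra F N] [Algebra E N] [IsScalarTower F E N]
  [FiniteDimensional E N] [IsGalois E N]

/-- The inertia subgroup `J` of a finite Galois extension `N / E` of local fields: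
`σ ∈ J` iff `σ x - x` lies in the maximal ideal for every integral `x`, and
`ϖE = unit * ϖN ^ |J|`. -/
theorem exists_inertia : ∃ J : Subgroup (N ≃ₐ[E] N),
    (∀ σ : N ≃ₐ[E] N, σ ∈ J ↔ ∀ x : N, IsInt A F N x → InMax A F N (σ x - x)) ∧
    ∀ (ϖE : Eˣ) (ϖN : Nˣ), IsUnif A F E ϖE → IsUnif A F N ϖN →
      unitsIncl N E ϖE * ϖN ^ (-(Nat.card J : ℤ)) ∈ intUnits A F N := by
  letI : Algebra A E := H715.algAL A F E
  haveI : IsScalarTower A F E := H715.isScalarTower_algAL A F E
  letI : Algebra A N := H715.algAL A F N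
  haveI : IsScalarTower A F N := H715.isScalarTower_algAL A F N
  haveI : IsScalarTower A E N := IsScalarTower.of_algebraMap_eq (fun a => by
    show toL A F N a = algebraMap E N (algebraMap F E (algebraMap A F a))
    rw [toL_apply, ← IsScalarTower.algebraMap_apply F E N])
  exact exists_inertia_aux A F E N

omit [IsDomain A] [IsDiscreteValuationRing A]
  [IsAdicComplete (IsLocalRing.maximalIdeal A) A] [Finite (IsLocalRing.ResidueField A)]
  [CharZero F] [IsFractionRing A F] [FiniteDimensional F E] [FiniteDimensional E N]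
  [IsGalois E N] in
lemma inMax_algEquiv (τ : N ≃ₐ[E] N) {y : N} (hy : InMax A F N y) : InMax A F N (τ y) := by
  refine ⟨H294.isInt_algEquiv τ hy.1, fun z hz hyz => hy.2 (τ.symm z)
    (H294.isInt_algEquiv τ.symm hz) ?_⟩
  have := congrArg τ.symm hyz
  rwa [map_mul, AlgEquiv.symm_apply_apply, map_one] at this

/-- **UR6'** (`InertiaCardStatement`). -/
theorem inertiaCard : InertiaCardStatement := by
  intro A F _ _ _ _ _ _ _ _ _ K _ _ _ N _ _ _ _ _ _
  obtain ⟨I, hIchar, hIcard⟩ := exists_inertia A F K N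
  haveI : FiniteDimensional F N := FiniteDimensional.trans F K N
  obtain ⟨ϖK, hK⟩ := H608.existsUnif A F K
  obtain ⟨ϖN, hN⟩ := H608.existsUnif A F N
  refine ⟨I, ⟨fun σ hσ τ => ?_⟩, fun E => ?_, hIcard⟩
  · -- normality
    rw [hIchar] at hσ ⊢
    intro x hx
    have hy : IsInt A F N (τ⁻¹ x) := H294.isInt_algEquiv τ⁻¹ hx
    have h1 := hσ _ hy
    have h2 : (τ * σ * τ⁻¹) x - x = τ (σ (τ⁻¹ x) - τ⁻¹ x) := by
      rw [map_sub, AlgEquiv.mul_apply, AlgEquiv.mul_apply]
      congr 1
      exact (AlgEquiv.apply_symm_apply τ x).symm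
    rw [h2]
    exact inMax_algEquiv A F K N τ h1
  · letI algFE : Algebra F E := ((algebraMap K E).comp (algebraMap F K)).toAlgebra
    haveI towerFKE : @IsScalarTower F K E _ _ algFE.toSMul :=
      @IsScalarTower.of_algebraMap_eq F K E _ _ _ _ _ algFE (fun _ => rfl)
    haveI towerFEN : @IsScalarTower F E N algFE.toSMul _ _ :=
      @IsScalarTower.of_algebraMap_eq F E N _ _ _ algFE _ _ (fun x => by
        show algebraMap F N x = algebraMap E N (algebraMap K E (algebraMap F K x))
        rw [IsScalarTower.algebraMap_apply F K N]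
        rfl)
    haveI fdFE : @FiniteDimensional F E _ _ algFE.toModule :=
      @FiniteDimensional.trans F K E _ _ _ _ _ algFE.toModule towerFKE _ _
    obtain ⟨J, hJchar, hJcard⟩ := exists_inertia A F E N
    obtain ⟨ϖE, hE⟩ := H608.existsUnif A F E
    have hb : Nat.card ↥(E.fixingSubgroup ⊓ I) = Nat.card J := by
      refine Nat.card_congr ?_
      exact
        { toFun := fun σ => ⟨IntermediateField.fixingSubgroupEquiv E ⟨σ.1, σ.2.1⟩,
            (hJchar _).2 (fun x hx => (hIchar σ.1).1 σ.2.2 x hx)⟩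
          invFun := fun τ => ⟨((IntermediateField.fixingSubgroupEquiv E).symm τ.1).1,
            ⟨((IntermediateField.fixingSubgroupEquiv E).symm τ.1).2,
              (hIchar _).2 (fun x hx => (hJchar τ.1).1 τ.2 x hx)⟩⟩
          left_inv := fun σ => Subtype.ext (AlgEquiv.ext fun x => rfl)
          right_inv := fun τ => Subtype.ext (AlgEquiv.ext fun x => rfl) }
    have hn := hIcard ϖK ϖN hK hN
    have hbN := hJcard ϖE ϖN hE hN
    obtain ⟨a, ha0, ha⟩ := exists_ramExp hK hE
    have htower := ramExp_tower (K := K) (E := E) (N := N) ha hbN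
    have hnab : (Nat.card I : ℤ) = ((a * Nat.card J : ℕ) : ℤ) := unif_exp_unique hN hn htower
    have hnab' : Nat.card I = a * Nat.card J := by exact_mod_cast hnab
    have hJpos : 0 < Nat.card J := Nat.card_pos
    show (IsUnram A F N E ↔ E.fixingSubgroup ⊓ I = ⊥) ∧ (IsUnram A F E K ↔ I ≤ E.fixingSubgroup)
    constructor
    · rw [isUnram_iff_ramExp_eq_one hE hN hbN, ← hb, Subgroup.card_eq_one]
    · rw [isUnram_iff_ramExp_eq_one hK hE ha]
      constructor
      · rintro rfl
        rw [one_mul] at hnab'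
        have hle : E.fixingSubgroup ⊓ I ≤ I := inf_le_right
        have heq : E.fixingSubgroup ⊓ I = I :=
          Subgroup.eq_of_le_of_card_ge hle (by rw [hb, hnab'])
        rw [← heq]
        exact inf_le_left
      · intro hle
        have heq : E.fixingSubgroup ⊓ I = I := inf_eq_right.2 hle
        rw [heq] at hb
        rw [hb] at hnab'
        have : 1 * Nat.card J = a * Nat.card J := by rw [one_mul]; exact hnab'
        exact (Nat.eq_of_mul_eq_mul_right hJpos this).symm

end Final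

end Fermat.Agent.S55.Local.H959

end
-- ===== PACK-END S55/Local/H959/InertiaCard.lean

-- ===== PACK-BEGIN S55/G/Rec/Loc/OpenH478.lean
section


/-!
# S55 / G / REC / LOC : leaf LOC-FD (`OpenSpec`)  — helper478

The fixed field of an open subgroup `V ≤ Gal(ℚ̄_q/ℚ_q)` is finite over `ℚ_q`, and `V` is the full
fixing subgroup of its fixed field.  Both follow from Mathlib's infinite Galois correspondence:
`V` contains the open subgroup `G_E` (`E/ℚ_q` finite), hence is open, hence closed.
-/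

set_option autoImplicit false

namespace Fermat.Agent.S55.G.Rec.Loc.H478

open IntermediateField

/-- **LOC-FD**. -/
theorem openSpec : OpenSpec := by
  intro q _ V hV
  obtain ⟨E, hE, hEV⟩ := hV
  have : FiniteDimensional ℚ_[q] E := hE
  -- `V` is open, hence closed
  have hopen : IsOpen (V : Set (PadicAlgCl q ≃ₐ[ℚ_[q]] PadicAlgCl q)) :=
    Subgroup.isOpen_mono hEV (IntermediateField.fixingSubgroup_isOpen E)
  have hclosed : IsClosed (V : Set (PadicAlgCl q ≃ₐ[ℚ_[q]] PadicAlgCl q)) :=
    Subgroup.isClosed_of_isOpen V hopen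
  have hfix : (fixedFld q V).fixingSubgroup = V :=
    InfiniteGalois.fixingSubgroup_fixedField ⟨V, hclosed⟩
  refine ⟨?_, hfix⟩
  rw [← InfiniteGalois.isOpen_iff_finite, hfix]
  exact hopen

end Fermat.Agent.S55.G.Rec.Loc.H478

end
-- ===== PACK-END S55/G/Rec/Loc/OpenH478.lean

-- ===== PACK-BEGIN S55/G/Rec/Loc/H483/InertiaSpec.lean
section



/-!
# S55 / G / REC / LOC : inertia toolkit, interface   (helper483)

Shared input of the leaves LOC-UNR (`UnramSpec`) and LOC-UNIF (`UnifSpec`): both have hypotheses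
about the *inertial* elements of `V ≤ Gal(ℚ̄_q/ℚ_q)` (`IsInertial`, a condition on ALL of `ℚ̄_q`)
and must produce a finite UNRAMIFIED level.  The bridge is

* `InertiaLiftSpec` : an element of the inertia subgroup of a finite Galois level `E / K_V`
  is the restriction of an inertial element of `V`;
* `UnramLevelSpec` : inside every finite Galois level `E / K_V` there is a finite Galois
  UNRAMIFIED level `E₀ ≤ E` (the fixed field of inertia) such that the kernel of
  `V → Gal(E₀/K_V)` consists of the products `i * n`, `i` inertial, `n` trivial on `E`.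

Unramified is `Local.IsUnram ℤ_[q] ℚ_[q] E₀ K_V` (base `(ℤ_q, ℚ_q)` of the `Local` core), so that
`Local.UnramUnitsH2Statement`, `Local.UnramCyclicStatement`, ... apply directly.
Producer: helper483 (files `Loc/H483/*.lean`).
-/

set_option autoImplicit false

noncomputable section

namespace Fermat.Agent.S55.G.Rec.Loc.H483

open Fermat.Agent.S55.G.Rec Fermat.Agent.S55.G.Rec.Loc

/-- `ι ∈ Gal(E/K_V)` acts trivially on the residue field of `E` (norm description). -/
def IsInertialOn (q : ℕ) [Fact q.Prime] (V : Subgroup (PadicAlgCl q ≃ₐ[ℚ_[q]] PadicAlgCl q))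
    (E : IntermediateField (fixedFld q V) (PadicAlgCl q)) (ι : E ≃ₐ[fixedFld q V] E) : Prop :=
  ∀ x : E, ‖(x : PadicAlgCl q)‖ ≤ 1 → ‖((ι x : E) : PadicAlgCl q) - (x : PadicAlgCl q)‖ < 1

/-- **LOC-INERT1** norm versus integrality: an element of `ℚ̄_q` has norm `≤ 1` iff it is
integral over `ℤ_q` (in the sense `Local.IsInt` of the `Local` core, base `(ℤ_q, ℚ_q)`). -/
def NormIntegralSpec : Prop :=
  ∀ (q : ℕ) [Fact q.Prime] (x : PadicAlgCl q),
    ‖x‖ ≤ 1 ↔ Fermat.Agent.S55.Local.IsInt ℤ_[q] ℚ_[q] (PadicAlgCl q) x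

/-- **LOC-INERT2** inertia lifting: an element of the inertia subgroup of a finite Galois level
`E / K_V` is the restriction of an inertial element of `V`. -/
def InertiaLiftSpec : Prop :=
  ∀ (q : ℕ) [Fact q.Prime] (V : Subgroup (PadicAlgCl q ≃ₐ[ℚ_[q]] PadicAlgCl q)),
    IsOpenL q V →
    ∀ (E : IntermediateField (fixedFld q V) (PadicAlgCl q))
      [FiniteDimensional (fixedFld q V) E] [IsGalois (fixedFld q V) E]
      (ι : E ≃ₐ[fixedFld q V] E), IsInertialOn q V E ι →
      ∃ τ : ↥V, IsInertial q (τ : PadicAlgCl q ≃ₐ[ℚ_[q]] PadicAlgCl q) ∧ resHom q V E τ = ι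

/-- **LOC-INERT3** the unramified level inside a finite Galois level: `E₀ ≤ E` finite Galois and
unramified over `K_V`, and `w ∈ V` is trivial on `E₀` iff `w = i * n` with `i` inertial and `n`
trivial on `E`. -/
def UnramLevelSpec : Prop :=
  ∀ (q : ℕ) [Fact q.Prime] (V : Subgroup (PadicAlgCl q ≃ₐ[ℚ_[q]] PadicAlgCl q)),
    IsOpenL q V →
    ∀ (E : IntermediateField (fixedFld q V) (PadicAlgCl q))
      [FiniteDimensional (fixedFld q V) E] [IsGalois (fixedFld q V) E],
      ∃ (E₀ : IntermediateField (fixedFld q V) (PadicAlgCl q))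
        (_ : FiniteDimensional (fixedFld q V) E₀) (_ : IsGalois (fixedFld q V) E₀),
        E₀ ≤ E ∧ Fermat.Agent.S55.Local.IsUnram ℤ_[q] ℚ_[q] E₀ (fixedFld q V) ∧
        ∀ w : ↥V, resHom q V E₀ w = 1 ↔
          ∃ i n : ↥V, IsInertial q (i : PadicAlgCl q ≃ₐ[ℚ_[q]] PadicAlgCl q) ∧
            resHom q V E n = 1 ∧ w = i * n

end Fermat.Agent.S55.G.Rec.Loc.H483

end
end
-- ===== PACK-END S55/G/Rec/Loc/H483/InertiaSpec.lean

-- ===== PACK-BEGIN S55/G/Rec/Loc/DescentH894.lean
section



/-!
# S55 / layer G / block REC / sub-block LOC : leaves LOC-FD and LOC-DESC (helper894)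

* `openSpec : OpenSpec` — the fixed field of an open subgroup `V ≤ Gal(ℚ̄_q/ℚ_q)` is finite over
  `ℚ_q` and `V` is the full fixing subgroup of its fixed field (infinite Galois theory).
* `resHom_surjective` — restriction `V → Gal(E/K_V)` is surjective for `V` open.
* `descent : DescentSpec` — every level cocycle on an open `V` is the inflation of a cocycle of
  a finite Galois level `E/K_V`, which can be chosen above any finite `E₀/K_V`.
-/

set_option autoImplicit false

noncomputable section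

namespace Fermat.Agent.S55.G.Rec.Loc.H894

open groupCohomology IntermediateField

variable (q : ℕ) [Fact q.Prime]

local notation "Ω" => PadicAlgCl q
local notation "Gq" => (PadicAlgCl q ≃ₐ[ℚ_[q]] PadicAlgCl q)

/-- An open subgroup is the full fixing subgroup of its fixed field. -/
lemma fixingSubgroup_fixedFld (V : Subgroup Gq) (hV : IsOpenL q V) :
    (fixedFld q V).fixingSubgroup = V := by
  obtain ⟨E, hE, hEV⟩ := hV
  have := hE
  have hopen : IsOpen (V : Set Gq) := Subgroup.isOpen_mono hEV E.fixingSubgroup_isOpen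
  have hclosed : IsClosed (V : Set Gq) := Subgroup.isClosed_of_isOpen V hopen
  exact InfiniteGalois.fixingSubgroup_fixedField ⟨V, hclosed⟩

/-- The fixed field of an open subgroup is finite over `ℚ_q`. -/
lemma finiteDimensional_fixedFld (V : Subgroup Gq) (hV : IsOpenL q V) :
    FiniteDimensional ℚ_[q] (fixedFld q V) := by
  obtain ⟨E, hE, hEV⟩ := hV
  have := hE
  have hle : fixedFld q V ≤ E := by
    have h := IntermediateField.fixedField_antitone hEV
    rwa [InfiniteGalois.fixedField_fixingSubgroup] at h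
  exact Module.Finite.of_injective (IntermediateField.inclusion hle).toLinearMap
    (IntermediateField.inclusion_injective hle)

/-- **LOC-FD**. -/
theorem openSpec : OpenSpec := fun q _ V hV =>
  ⟨finiteDimensional_fixedFld q V hV, fixingSubgroup_fixedFld q V hV⟩

/-- `V → Gal(ℚ̄_q/K_V)` is surjective for `V` open. -/
lemma toAbsGal_surjective (V : Subgroup Gq) (hV : IsOpenL q V) :
    Function.Surjective (toAbsGal q V) := by
  intro τ
  have hmem : (((fixingSubgroupEquiv (fixedFld q V)).symm τ : (fixedFld q V).fixingSubgroup) : Gq)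
      ∈ V := by
    exact (fixingSubgroup_fixedFld q V hV).le ((fixingSubgroupEquiv (fixedFld q V)).symm τ).2
  refine ⟨⟨_, hmem⟩, ?_⟩
  ext x
  rw [toAbsGal_apply]
  rfl

/-- Restriction `V → Gal(E/K_V)` is surjective for `V` open. -/
lemma resHom_surjective (V : Subgroup Gq) (hV : IsOpenL q V)
    (E : IntermediateField (fixedFld q V) Ω) [Normal (fixedFld q V) E] :
    Function.Surjective (resHom q V E) := by
  intro σ
  obtain ⟨τ, hτ⟩ := AlgEquiv.restrictNormalHom_surjective Ω σ
  obtain ⟨g, hg⟩ := toAbsGal_surjective q V hV τ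
  exact ⟨g, by rw [← hτ, ← hg]; rfl⟩

/-- Elements of the kernel of `resHom` fix every element of `E`. -/
lemma apply_eq_of_resHom_eq_one (V : Subgroup Gq)
    (E : IntermediateField (fixedFld q V) Ω) [Normal (fixedFld q V) E] (s : ↥V)
    (hs : resHom q V E s = 1) (x : Ω) (hx : x ∈ E) : (s : Gq) x = x := by
  have h := resHom_apply_coe q V E s ⟨x, hx⟩
  rw [hs] at h
  exact h.symm

/-- A unit of `ℚ̄_q` lying in `E`, as a unit of `E`. -/
def unitOfMem (V : Subgroup Gq) (E : IntermediateField (fixedFld q V) Ω) (u : Ωˣ)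
    (hu : (u : Ω) ∈ E) : (↥E)ˣ :=
  Units.mk0 ⟨u, hu⟩ (fun h => u.ne_zero (congrArg Subtype.val h))

@[simp] lemma unitsIncl_unitOfMem (V : Subgroup Gq) (E : IntermediateField (fixedFld q V) Ω)
    (u : Ωˣ) (hu : (u : Ω) ∈ E) : unitsIncl q V E (unitOfMem q V E u hu) = u :=
  Units.ext rfl

lemma unitsIncl_injective (V : Subgroup Gq) (E : IntermediateField (fixedFld q V) Ω) :
    Function.Injective (unitsIncl q V E) :=
  Units.map_injective (algebraMap E Ω).injective

/-- `unitsIncl` as an additive map between the two modules. -/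
def addIncl (V : Subgroup Gq) (E : IntermediateField (fixedFld q V) Ω) :
    L.unitsRep (fixedFld q V) E →+ lModOn q V where
  toFun a := Additive.ofMul (unitsIncl q V E (Additive.toMul a))
  map_zero' := congrArg Additive.ofMul (map_one (unitsIncl q V E))
  map_add' a b := congrArg Additive.ofMul
    (map_mul (unitsIncl q V E) (Additive.toMul a : (↥E)ˣ) (Additive.toMul b : (↥E)ˣ))

lemma addIncl_apply (V : Subgroup Gq) (E : IntermediateField (fixedFld q V) Ω)
    (a : L.unitsRep (fixedFld q V) E) :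
    addIncl q V E a = Additive.ofMul (unitsIncl q V E (Additive.toMul a)) := rfl

lemma addIncl_injective (V : Subgroup Gq) (E : IntermediateField (fixedFld q V) Ω) :
    Function.Injective (addIncl q V E) := by
  intro a b h
  rw [addIncl_apply, addIncl_apply] at h
  exact Additive.toMul.injective (unitsIncl_injective q V E (Additive.ofMul.injective h))

/-- `addIncl` intertwines the actions of `Gal(E/K_V)` and `V`. -/
lemma addIncl_ρ (V : Subgroup Gq) (E : IntermediateField (fixedFld q V) Ω)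
    [Normal (fixedFld q V) E] (g : ↥V) (a : L.unitsRep (fixedFld q V) E) :
    addIncl q V E ((L.unitsRep (fixedFld q V) E).ρ (resHom q V E g) a) =
      (lModOn q V).ρ g (addIncl q V E a) := by
  rw [addIncl_apply, addIncl_apply]
  refine congrArg Additive.ofMul (Units.ext ?_)
  exact resHom_apply_coe q V E g ((Additive.toMul a : (↥E)ˣ) : E)

/-- A set-theoretic section of `resHom`. -/
lemma exists_section (V : Subgroup Gq) (hV : IsOpenL q V)
    (E : IntermediateField (fixedFld q V) Ω) [Normal (fixedFld q V) E] :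
    ∃ lift : (E ≃ₐ[fixedFld q V] E) → ↥V, ∀ σ, resHom q V E (lift σ) = σ :=
  ⟨fun σ => (resHom_surjective q V hV E σ).choose,
    fun σ => (resHom_surjective q V hV E σ).choose_spec⟩

/-- A cochain right-invariant under `ker (resHom E)` factors through `Gal(E/K_V)²`. -/
lemma factor_of_invariant {X : Type*} (V : Subgroup Gq)
    (E : IntermediateField (fixedFld q V) Ω) [Normal (fixedFld q V) E] (c : ↥V × ↥V → X)
    (h1 : ∀ g g' s s' : ↥V, resHom q V E s = 1 → resHom q V E s' = 1 →
      c (g * s, g' * s') = c (g, g'))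
    (lift : (E ≃ₐ[fixedFld q V] E) → ↥V) (hlift : ∀ σ, resHom q V E (lift σ) = σ)
    (g g' : ↥V) : c (g, g') = c (lift (resHom q V E g), lift (resHom q V E g')) := by
  have h := h1 (lift (resHom q V E g)) (lift (resHom q V E g'))
    ((lift (resHom q V E g))⁻¹ * g) ((lift (resHom q V E g'))⁻¹ * g')
    (by rw [map_mul, map_inv, hlift, inv_mul_cancel])
    (by rw [map_mul, map_inv, hlift, inv_mul_cancel])
  rw [mul_inv_cancel_left, mul_inv_cancel_left] at h
  exact h

/-- An invariant cochain takes finitely many values. -/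
lemma finite_range_of_invariant {X : Type*} (V : Subgroup Gq) (hV : IsOpenL q V)
    (E : IntermediateField (fixedFld q V) Ω) [FiniteDimensional (fixedFld q V) E]
    [Normal (fixedFld q V) E] (c : ↥V × ↥V → X)
    (h1 : ∀ g g' s s' : ↥V, resHom q V E s = 1 → resHom q V E s' = 1 →
      c (g * s, g' * s') = c (g, g')) :
    (Set.range c).Finite := by
  obtain ⟨lift, hlift⟩ := exists_section q V hV E
  refine Set.Finite.subset (Set.finite_range
    (fun p : (E ≃ₐ[fixedFld q V] E) × (E ≃ₐ[fixedFld q V] E) => c (lift p.1, lift p.2))) ?_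
  rintro _ ⟨⟨g, g'⟩, rfl⟩
  exact ⟨(resHom q V E g, resHom q V E g'),
    (factor_of_invariant q V E c h1 lift hlift g g').symm⟩

/-- Core of the descent: a level cocycle on `V` which is right-invariant under `ker (resHom E)`
and whose values lie in `E` is the inflation of a cocycle of `Gal(E/K_V)`. -/
theorem exists_cocycle_of_invariant (V : Subgroup Gq) (hV : IsOpenL q V)
    (c : ↥(levelCocycles₂ (lHom q V) (lModOn q V)))
    (E : IntermediateField (fixedFld q V) Ω) [FiniteDimensional (fixedFld q V) E]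
    [IsGalois (fixedFld q V) E]
    (h1 : ∀ g g' s s' : ↥V, resHom q V E s = 1 → resHom q V E s' = 1 →
      (c : ↥V × ↥V → lModOn q V) (g * s, g' * s') = (c : ↥V × ↥V → lModOn q V) (g, g'))
    (h2 : ∀ g g' : ↥V,
      ((Additive.toMul ((c : ↥V × ↥V → lModOn q V) (g, g')) : Ωˣ) : Ω) ∈ E) :
    ∃ f : cocycles₂ (L.unitsRep (fixedFld q V) E), IsAbsInflation q V E f c := by
  obtain ⟨lift, hlift⟩ := exists_section q V hV E
  have hsurj := resHom_surjective q V hV E
  obtain ⟨f, hfdef⟩ : ∃ f : (E ≃ₐ[fixedFld q V] E) × (E ≃ₐ[fixedFld q V] E) →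
      L.unitsRep (fixedFld q V) E, ∀ p, addIncl q V E (f p) =
        (c : ↥V × ↥V → lModOn q V) (lift p.1, lift p.2) :=
    ⟨fun p => Additive.ofMul (unitOfMem q V E
      (Additive.toMul ((c : ↥V × ↥V → lModOn q V) (lift p.1, lift p.2))) (h2 _ _)),
      fun p => congrArg Additive.ofMul (unitsIncl_unitOfMem q V E _ _)⟩
  have hinf : ∀ g g' : ↥V, (c : ↥V × ↥V → lModOn q V) (g, g') =
      addIncl q V E (f (resHom q V E g, resHom q V E g')) := by
    intro g g'
    rw [factor_of_invariant q V E _ h1 lift hlift g g', hfdef]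
  have hf : f ∈ cocycles₂ (L.unitsRep (fixedFld q V) E) := by
    rw [mem_cocycles₂_iff]
    intro σ τ υ
    obtain ⟨g, rfl⟩ := hsurj σ
    obtain ⟨h, rfl⟩ := hsurj τ
    obtain ⟨j, rfl⟩ := hsurj υ
    have hc : (c : ↥V × ↥V → lModOn q V) (g * h, j) + (c : ↥V × ↥V → lModOn q V) (g, h) =
        (lModOn q V).ρ g ((c : ↥V × ↥V → lModOn q V) (h, j)) +
          (c : ↥V × ↥V → lModOn q V) (g, h * j) :=
      (mem_cocycles₂_iff _).1 c.2.1 g h j
    apply addIncl_injective q V E
    calc addIncl q V E (f (resHom q V E g * resHom q V E h, resHom q V E j) +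
          f (resHom q V E g, resHom q V E h))
        = addIncl q V E (f (resHom q V E (g * h), resHom q V E j)) +
          addIncl q V E (f (resHom q V E g, resHom q V E h)) := by
          exact ((addIncl q V E).map_add _ _).trans
            (congrArg (fun t => addIncl q V E (f (t, resHom q V E j)) +
              addIncl q V E (f (resHom q V E g, resHom q V E h)))
              (map_mul (resHom q V E) g h).symm)
      _ = (c : ↥V × ↥V → lModOn q V) (g * h, j) + (c : ↥V × ↥V → lModOn q V) (g, h) := by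
          exact congrArg₂ (· + ·) (hinf (g * h) j).symm (hinf g h).symm
      _ = (lModOn q V).ρ g ((c : ↥V × ↥V → lModOn q V) (h, j)) +
          (c : ↥V × ↥V → lModOn q V) (g, h * j) := hc
      _ = (lModOn q V).ρ g (addIncl q V E (f (resHom q V E h, resHom q V E j))) +
          addIncl q V E (f (resHom q V E g, resHom q V E (h * j))) := by
          exact congrArg₂ (· + ·) (congrArg ((lModOn q V).ρ g) (hinf h j)) (hinf g (h * j))
      _ = addIncl q V E ((L.unitsRep (fixedFld q V) E).ρ (resHom q V E g)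
            (f (resHom q V E h, resHom q V E j)) +
          f (resHom q V E g, resHom q V E h * resHom q V E j)) := by
          exact (congrArg₂ (· + ·) (addIncl_ρ q V E g _).symm
            (congrArg (fun t => addIncl q V E (f (resHom q V E g, t)))
              (map_mul (resHom q V E) h j))).trans ((addIncl q V E).map_add _ _).symm
  exact ⟨⟨f, hf⟩, funext fun p => hinf p.1 p.2⟩

/-- The compositum `E₁ · K_V` as an intermediate field over `K_V`. -/
def liftFld (V : Subgroup Gq) (E₁ : IntermediateField ℚ_[q] Ω) :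
    IntermediateField (fixedFld q V) Ω :=
  IntermediateField.extendScalars (le_sup_right : fixedFld q V ≤ E₁ ⊔ fixedFld q V)

lemma le_liftFld (V : Subgroup Gq) (E₁ : IntermediateField ℚ_[q] Ω) (x : Ω) (hx : x ∈ E₁) :
    x ∈ liftFld q V E₁ :=
  (le_sup_left : E₁ ≤ E₁ ⊔ fixedFld q V) hx

lemma finiteDimensional_liftFld (V : Subgroup Gq) (hV : IsOpenL q V)
    (E₁ : IntermediateField ℚ_[q] Ω) [FiniteDimensional ℚ_[q] E₁] :
    FiniteDimensional (fixedFld q V) (liftFld q V E₁) := by
  have := finiteDimensional_fixedFld q V hV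
  have h : FiniteDimensional ℚ_[q] ↥(E₁ ⊔ fixedFld q V) :=
    IntermediateField.finiteDimensional_sup E₁ (fixedFld q V)
  have h' : FiniteDimensional ℚ_[q] ↥(liftFld q V E₁) := h
  exact Module.Finite.of_restrictScalars_finite ℚ_[q] (fixedFld q V) (liftFld q V E₁)

/-- **LOC-DESC**, unbundled. -/
theorem descent_aux (V : Subgroup Gq) (hV : IsOpenL q V)
    (c : ↥(levelCocycles₂ (lHom q V) (lModOn q V)))
    (E₀ : IntermediateField (fixedFld q V) Ω) (hE₀ : FiniteDimensional (fixedFld q V) E₀) :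
    ∃ (E : IntermediateField (fixedFld q V) Ω)
      (_ : FiniteDimensional (fixedFld q V) E) (_ : IsGalois (fixedFld q V) E)
      (f : cocycles₂ (L.unitsRep (fixedFld q V) E)), E₀ ≤ E ∧ IsAbsInflation q V E f c := by
  obtain ⟨F, hF, hFc⟩ := c.2.2
  have := hF
  obtain ⟨E₁, hE₁, hE₁F⟩ := Bridge.exists_local_level_of_global q F
  have := hE₁
  have hM : FiniteDimensional (fixedFld q V) (liftFld q V E₁) :=
    finiteDimensional_liftFld q V hV E₁
  -- invariance under the kernel of `resHom E` for every normal `E` containing `E₁`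
  have key : ∀ (E : IntermediateField (fixedFld q V) Ω) [Normal (fixedFld q V) E],
      liftFld q V E₁ ≤ E → ∀ g g' s s' : ↥V, resHom q V E s = 1 → resHom q V E s' = 1 →
        (c : ↥V × ↥V → lModOn q V) (g * s, g' * s') = (c : ↥V × ↥V → lModOn q V) (g, g') := by
    intro E _ hME g g' s s' hs hs'
    refine hFc g g' s s' (hE₁F _ ?_) (hE₁F _ ?_)
    · rw [IntermediateField.mem_fixingSubgroup_iff]
      intro x hx
      exact apply_eq_of_resHom_eq_one q V E s hs x (hME (le_liftFld q V E₁ x hx))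
    · rw [IntermediateField.mem_fixingSubgroup_iff]
      intro x hx
      exact apply_eq_of_resHom_eq_one q V E s' hs' x (hME (le_liftFld q V E₁ x hx))
  -- first stage: the values of `c` form a finite set
  have hfin : (Set.range fun p : ↥V × ↥V =>
      ((Additive.toMul ((c : ↥V × ↥V → lModOn q V) p) : Ωˣ) : Ω)).Finite :=
    finite_range_of_invariant q V hV (normalClosure (fixedFld q V) (liftFld q V E₁) Ω) _
      (fun g g' s s' hs hs' => by
        rw [key _ (IntermediateField.le_normalClosure _) g g' s s' hs hs'])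
  have hfin' := hfin.to_subtype
  have hS : FiniteDimensional (fixedFld q V)
      (IntermediateField.adjoin (fixedFld q V) (Set.range fun p : ↥V × ↥V =>
      ((Additive.toMul ((c : ↥V × ↥V → lModOn q V) p) : Ωˣ) : Ω))) :=
    IntermediateField.finiteDimensional_adjoin
      (fun x _ => Algebra.IsIntegral.isIntegral x)
  -- second stage
  obtain ⟨X, hXfd, hX0, hX1, hXv⟩ : ∃ X : IntermediateField (fixedFld q V) Ω,
      FiniteDimensional (fixedFld q V) X ∧ E₀ ≤ X ∧ liftFld q V E₁ ≤ X ∧
        ∀ g g' : ↥V, ((Additive.toMul ((c : ↥V × ↥V → lModOn q V) (g, g')) : Ωˣ) : Ω) ∈ X :=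
    ⟨E₀ ⊔ liftFld q V E₁ ⊔
      IntermediateField.adjoin (fixedFld q V) (Set.range fun p : ↥V × ↥V =>
      ((Additive.toMul ((c : ↥V × ↥V → lModOn q V) p) : Ωˣ) : Ω)),
      IntermediateField.finiteDimensional_sup _ _, le_sup_left.trans le_sup_left,
      le_sup_right.trans le_sup_left,
      fun g g' => (le_sup_right (α := IntermediateField (fixedFld q V) Ω))
        (IntermediateField.subset_adjoin _ _ ⟨(g, g'), rfl⟩)⟩
  have hle := IntermediateField.le_normalClosure X
  have hfdE : FiniteDimensional (fixedFld q V) (normalClosure (fixedFld q V) X Ω) :=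
    normalClosure.is_finiteDimensional _ _ _
  have hnE : Normal (fixedFld q V) (normalClosure (fixedFld q V) X Ω) :=
    normalClosure.normal _ _ _
  have hgE : IsGalois (fixedFld q V) (normalClosure (fixedFld q V) X Ω) := ⟨⟩
  obtain ⟨f, hf⟩ := exists_cocycle_of_invariant q V hV c (normalClosure (fixedFld q V) X Ω)
    (key _ (hX1.trans hle)) (fun g g' => hle (hXv g g'))
  exact ⟨_, hfdE, hgE, f, hX0.trans hle, hf⟩

/-- **LOC-DESC**. -/
theorem descent : _root_.Fermat.Agent.S55.G.Rec.Loc.DescentSpec := fun q _ V hV c E₀ hE₀ => descent_aux q V hV c E₀ hE₀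

end Fermat.Agent.S55.G.Rec.Loc.H894

end
end
-- ===== PACK-END S55/G/Rec/Loc/DescentH894.lean

-- ===== PACK-BEGIN S55/G/Rec/Loc/RefineH63.lean
section



/-!
# S55 / G / REC / LOC : leaf LOC-REF (`RefineSpec`)  — helper63

Refinement of the finite level: for `E ≤ E'` (finite Galois over `K_V`) a cocycle `f` on
`Gal(E/K_V)` has the inflation `f'` on `Gal(E'/K_V)`; `f` and `f'` have the same absolute
inflation to `V` and the same invariant (`InvFamily.inv_inflation`).
-/

set_option autoImplicit false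

noncomputable section

namespace Fermat.Agent.S55.G.Rec.Loc.H63

open groupCohomology

variable (q : ℕ) [Fact q.Prime]

/-- Restricting first to `E'` and then to `E ≤ E'` is restricting to `E`. -/
lemma restrict_resHom63 (V : Subgroup (PadicAlgCl q ≃ₐ[ℚ_[q]] PadicAlgCl q))
    (E E' : IntermediateField (fixedFld q V) (PadicAlgCl q))
    [Normal (fixedFld q V) E] [Normal (fixedFld q V) E'] (_hEE' : E ≤ E')
    [Algebra E E'] [IsScalarTower (fixedFld q V) E E']
    (halg : ∀ x : E, ((algebraMap E E' x : E') : PadicAlgCl q) = (x : PadicAlgCl q))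
    (g : ↥V) :
    AlgEquiv.restrictNormalHom (F := fixedFld q V) (K₁ := E') E (resHom q V E' g) =
      resHom q V E g := by
  ext x
  rw [← halg]
  have h1 : algebraMap E E'
      (AlgEquiv.restrictNormalHom (F := fixedFld q V) (K₁ := E') E (resHom q V E' g) x) =
        (resHom q V E' g) (algebraMap E E' x) :=
    AlgEquiv.restrictNormal_commutes _ E x
  rw [h1, resHom_apply_coe, resHom_apply_coe, halg]

theorem refine63 : RefineSpec := by
  intro q _ V _ E E' _ _ _ _ hEE' f
  let _ : Algebra E E' := (IntermediateField.inclusion hEE').toRingHom.toAlgebra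
  have : IsScalarTower (fixedFld q V) E E' :=
    IsScalarTower.of_algebraMap_eq
      (fun x => ((IntermediateField.inclusion hEE').commutes x).symm)
  have halg : ∀ x : E, ((algebraMap E E' x : E') : PadicAlgCl q) = (x : PadicAlgCl q) :=
    fun x => rfl
  refine ⟨(L.Inv481.inflPair (fixedFld q V) E E').pullCocycle f, ?_, ?_⟩
  · intro c hc
    unfold IsAbsInflation at hc ⊢
    rw [hc]
    funext ⟨g, h⟩
    have h1 := L.Inv481.GalPair.isPull_pullCocycle (L.Inv481.inflPair (fixedFld q V) E E') f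
      (resHom q V E' g) (resHom q V E' h)
    show Additive.ofMul (unitsIncl q V E (Additive.toMul
        ((f : (E ≃ₐ[fixedFld q V] E) × (E ≃ₐ[fixedFld q V] E) → L.unitsRep (fixedFld q V) E)
          (resHom q V E g, resHom q V E h)))) =
      Additive.ofMul (unitsIncl q V E' (Additive.toMul
        (((L.Inv481.inflPair (fixedFld q V) E E').pullCocycle f :
          (E' ≃ₐ[fixedFld q V] E') × (E' ≃ₐ[fixedFld q V] E') → L.unitsRep (fixedFld q V) E')
          (resHom q V E' g, resHom q V E' h))))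
    rw [h1]
    have e1 : (L.Inv481.inflPair (fixedFld q V) E E').f (resHom q V E' g) = resHom q V E g :=
      restrict_resHom63 q V E E' hEE' halg g
    have e2 : (L.Inv481.inflPair (fixedFld q V) E E').f (resHom q V E' h) = resHom q V E h :=
      restrict_resHom63 q V E E' hEE' halg h
    rw [e1, e2]
    rfl
  · intro J
    exact J.inv_inflation (fixedFld q V) E E' f _
      ((L.Inv481.isInflation_iff_isPull _ _).2 (L.Inv481.GalPair.isPull_pullCocycle _ _))

end Fermat.Agent.S55.G.Rec.Loc.H63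

end
end
-- ===== PACK-END S55/G/Rec/Loc/RefineH63.lean

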