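import Mathlib
import Fermat.Agent.Pack.S56.E7L1
import Fermat.Agent.Pack.S56.E0L0
import Fermat.Agent.Pack.S56.E1L3
import Fermat.Agent.Pack.S56.E3L2
import Fermat.Agent.Pack.S56.E5L0
import Fermat.Agent.Pack.S56.E8L3
import Fermat.Agent.Pack.S56.E1L0
import Fermat.Agent.Pack.S56.E7L0
import Fermat.Agent.Pack.S56.E5L2
import Fermat.Agent.Pack.S56.E8L2
import Fermat.Agent.Pack.S56.E4L3
import Fermat.Agent.Pack.S56.E8L1
import Fermat.Agent.Pack.S56.E1L1
import Fermat.Agent.Pack.S56.E7L2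
import Fermat.Agent.Pack.S56.E6L0
import Fermat.Agent.Pack.S56.E5L3
import Fermat.Agent.Pack.S56.E7L3
import Fermat.Agent.Pack.S56.E4L2
import Fermat.Agent.Pack.S56.E4L1
import Fermat.Agent.Pack.S56.E8L0

-- ===== PACK-BEGIN S55/G/Rec/LocalNormH844.lean
section





/-!
# S55 / G / REC, leaf K5 (helper844): the local norm criterion `LocalNormSpec`

If the local cup class `a ∪ δχ ∈ Br(K_v)` vanishes, then `a` is a norm from the fixed field of
`ker χ`.

Proof.  `lcc = 0` gives a level-constant 1-cochain `x : V → ℚ̄_qˣ` with `d x = a ∪ δχ`.  On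
`H = ker χ` the cup cocycle is trivial, so `x|_H` is a level-constant 1-cocycle, hence a coboundary
`h ↦ β / h β` by Hilbert 90 (`exists_unit_of_levelCocycle844`).  Correcting `x` by the coboundary
of `β` we may assume `x|_H = 1`, and then `a = N(x σ)` where `χ σ` is the minimal positive value of
`χ` (`exists_norm_of_trivialized844`).
-/

set_option autoImplicit false
set_option linter.unusedSectionVars false
set_option linter.style.haveILetI false

noncomputable section

namespace Fermat.Agent.S55.G.Rec.H844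

open groupCohomology Fermat.Agent.S55.G.Rec

/-- The stabiliser of a finite extension has finite index, also after pulling back along any
homomorphism into the Galois group. -/
lemma finite_quotient_comap_fixing844 {K Ω : Type*} [Field K] [Field Ω] [Algebra K Ω]
    (E : IntermediateField K Ω) [FiniteDimensional K E] {H : Type*} [Group H]
    (f : H →* (Ω ≃ₐ[K] Ω)) : Finite (H ⧸ (E.fixingSubgroup.comap f)) := by
  let φ : H → (E →ₐ[K] Ω) := fun g => ((f g : Ω ≃ₐ[K] Ω) : Ω →ₐ[K] Ω).comp E.val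
  have hφ : ∀ g g' : H, φ g = φ g' → g⁻¹ * g' ∈ E.fixingSubgroup.comap f := by
    intro g g' h
    rw [Subgroup.mem_comap, IntermediateField.mem_fixingSubgroup_iff]
    intro x hx
    have := DFunLike.congr_fun h ⟨x, hx⟩
    change f g x = f g' x at this
    rw [map_mul, map_inv, AlgEquiv.mul_apply, ← this]
    exact (f g).symm_apply_apply x
  have hinj : Function.Injective
      (fun t : H ⧸ (E.fixingSubgroup.comap f) => φ (Quotient.out t)) := by
    intro t t' h
    have := hφ _ _ h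
    rw [← QuotientGroup.eq, QuotientGroup.out_eq', QuotientGroup.out_eq'] at this
    exact this
  exact Finite.of_injective _ hinj

variable (q : ℕ) [Fact q.Prime]

local notation "Gq" => (PadicAlgCl q ≃ₐ[ℚ_[q]] PadicAlgCl q)

/-- Unpacking `lcc = 0`: a level-constant (in the local sense) multiplicative 1-cochain `X` with
`d X = a ∪ δχ`. -/
lemma exists_cochain_of_lcc_eq_zero844 (V : Subgroup Gq) (n : ℕ) [NeZero n]
    (χ : ↥V →* Multiplicative (ZMod n)) (hχ : IsLevelConstant₁ (lHom q V) χ)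
    (a : (PadicAlgCl q)ˣ) (ha : LFixed q V a) (h0 : lcc q V n χ a = 0) :
    ∃ (X : ↥V → (PadicAlgCl q)ˣ) (E : IntermediateField ℚ_[q] (PadicAlgCl q)),
      FiniteDimensional ℚ_[q] E ∧
      (∀ g s : ↥V, (s : Gq) ∈ E.fixingSubgroup → X (g * s) = X g) ∧
      ∀ g h : ↥V, g • X h * X g =
        X (g * h) * a ^ H379.carry n (Multiplicative.toAdd (χ g)) (Multiplicative.toAdd (χ h)) := by
  have hh : n ≠ 0 ∧ IsLevelConstant₁ (lHom q V) χ ∧ LFixed q V a := ⟨NeZero.ne n, hχ, ha⟩
  rw [lcc_eq q V n χ a hh] at h0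
  have hmem : H379.cupChar n (chiAdd χ) (toLMod q V a) ∈
      levelCoboundaries₂ (lHom q V) (lModOn q V) := by
    have := (Submodule.Quotient.mk_eq_zero _).mp h0
    exact this
  obtain ⟨x, ⟨F, hF, hxF⟩, hdx⟩ := (mem_levelCoboundaries₂_iff _ _ _).mp hmem
  obtain ⟨E, hE, hEF⟩ := Fermat.Agent.S55.Bridge.exists_local_level_of_global q F
  obtain ⟨X, hX⟩ : ∃ X : ↥V → (PadicAlgCl q)ˣ, ∀ g, X g = Additive.toMul (x g) :=
    ⟨fun g => Additive.toMul (x g), fun _ => rfl⟩
  refine ⟨X, E, hE, ?_, ?_⟩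
  · intro g s hs
    rw [hX, hX, hxF g s (hEF _ hs)]
  · intro g h
    have := congrFun hdx (g, h)
    rw [d₁₂_hom_apply] at this
    have h2 : (g • X h) / X (g * h) * X g =
        a ^ H379.carry n (Multiplicative.toAdd (χ g)) (Multiplicative.toAdd (χ h)) := by
      rw [hX, hX, hX]
      exact congrArg Additive.toMul this
    rw [← h2]
    rw [div_mul_eq_mul_div, mul_div_cancel]

/-- Hilbert 90 on `ker χ` for a cochain which is level-constant and a cocycle on `ker χ`. -/
lemma exists_beta844 (V : Subgroup Gq) {n : ℕ} (χ : ↥V →* Multiplicative (ZMod n))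
    (X : ↥V → (PadicAlgCl q)ˣ) (E : IntermediateField ℚ_[q] (PadicAlgCl q))
    [FiniteDimensional ℚ_[q] E]
    (hXE : ∀ g s : ↥V, (s : Gq) ∈ E.fixingSubgroup → X (g * s) = X g)
    (hcoc : ∀ g h : ↥V, g ∈ χ.ker → h ∈ χ.ker → g • X h * X g = X (g * h)) :
    ∃ β : (PadicAlgCl q)ˣ, ∀ g : ↥V, g ∈ χ.ker → g • β * X g = β := by
  let f : ↥χ.ker →* Gq := V.subtype.comp χ.ker.subtype
  haveI := finite_quotient_comap_fixing844 E f
  obtain ⟨β, hβ⟩ := exists_unit_of_levelCocycle844 (H := ↥χ.ker) (Ω := PadicAlgCl q) (T := ↥E)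
    ((algebraMap E (PadicAlgCl q) : E →* PadicAlgCl q)) (E.fixingSubgroup.comap f)
    (by
      intro g hg
      rw [Subgroup.mem_comap, IntermediateField.mem_fixingSubgroup_iff]
      intro x hx
      exact hg ⟨x, hx⟩)
    (by
      intro g hg θ
      rw [Subgroup.mem_comap, IntermediateField.mem_fixingSubgroup_iff] at hg
      exact hg θ θ.2)
    (fun h => X (h : ↥V))
    (by
      intro g h
      have := hcoc g h g.2 h.2
      have h2 := congrArg (fun u : (PadicAlgCl q)ˣ => (u : PadicAlgCl q)) this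
      exact h2.symm)
    (by
      intro g s hs
      exact hXE g s hs)
  refine ⟨β, fun g hg => ?_⟩
  apply Units.ext
  exact hβ ⟨g, hg⟩

/-- **(K5)** the local norm criterion. -/
theorem localNorm : LocalNormSpec := by
  intro q _ V _ n _ χ hχ a ha h0
  obtain ⟨X, E, hE, hXE, hR⟩ := exists_cochain_of_lcc_eq_zero844 q V n χ hχ a ha h0
  -- Hilbert 90 on `ker χ`
  have hcoc : ∀ g h : ↥V, g ∈ χ.ker → h ∈ χ.ker → g • X h * X g = X (g * h) := by
    intro g h hg hh
    rw [hR g h]
    rw [MonoidHom.mem_ker] at hg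
    rw [hg]
    have : H379.carry n (Multiplicative.toAdd (1 : Multiplicative (ZMod n)))
        (Multiplicative.toAdd (χ h)) = 0 := H379.carry_zero_left n _
    rw [this, pow_zero, mul_one]
  obtain ⟨β, hβ⟩ := exists_beta844 q V χ X E hXE hcoc
  -- the corrected cochain
  obtain ⟨X', hX'⟩ : ∃ X' : ↥V → (PadicAlgCl q)ˣ, ∀ g, X' g = X g * (g • β) / β :=
    ⟨fun g => X g * (g • β) / β, fun _ => rfl⟩
  have hR' : ∀ g h : ↥V, g • X' h * X' g =
      X' (g * h) * a ^ H379.carry n (Multiplicative.toAdd (χ g)) (Multiplicative.toAdd (χ h)) := by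
    intro g h
    have := hR g h
    rw [hX', hX', hX', smul_div', smul_mul', mul_smul]
    calc g • X h * g • h • β / g • β * (X g * g • β / β)
        = (g • X h * X g) * (g • h • β) * β⁻¹ * (g • β * (g • β)⁻¹) := by
          simp only [div_eq_mul_inv]
          ac_rfl
      _ = _ := by
          rw [this, mul_inv_cancel, mul_one]
          simp only [div_eq_mul_inv]
          ac_rfl
  have h1' : ∀ h ∈ χ.ker, X' h = 1 := by
    intro h hh
    rw [hX', mul_comm, hβ h hh, div_self']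
  obtain ⟨b, hb, hab⟩ := exists_norm_of_trivialized844 (χ := χ) (a := a)
    (fun g => ha g g.2) hR' h1'
  refine ⟨b, ?_, hab⟩
  rintro τ ⟨h, hh, rfl⟩
  exact hb h hh

end Fermat.Agent.S55.G.Rec.H844

end
end
-- ===== PACK-END S55/G/Rec/LocalNormH844.lean

-- ===== PACK-BEGIN S55/Local/H964/T5Pieces.lean
section




/-!
# S55, layer L, T5 glue: the pieces of the lower bound (helper964)

* `isMulCoboundary₂_of_inflate` : inflation `H²(Gal(E/K), Eˣ) → H²(Gal(N/K), Nˣ)` is injective
  (cochain form).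
* `isUnif_unitsIncl` : a uniformizer of `L` stays a uniformizer in an unramified extension `N / L`.
* `finrank_dvd_of_cycCocycle_coboundary` : for `E / K` unramified with generator `φ`, if the
  standard cocycle of `ϖK ^ m` is a coboundary then `[E : K] ∣ m`.
* `cycCocycle_kerRes_coboundary` : for `N / L` unramified, the standard cocycle (for
  `kerRes K L N ≃ Gal(N/L)`) of `u * ϖL ^ m`, `[N : L] ∣ m`, is a coboundary.
-/

set_option autoImplicit false
set_option linter.style.haveILetI false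
set_option linter.unusedSectionVars false

namespace Fermat.Agent.S55.Local.H964

open groupCohomology Fermat.Agent.S55.Local

section Tower

variable {K E N : Type} [Field K] [Field E] [Field N] [Algebra K E] [Algebra K N] [Algebra E N]
  [IsScalarTower K E N] [Normal K E] [FiniteDimensional K N] [IsGalois K N]

/-- Inflation is injective on `H²` (cochain form). -/
theorem isMulCoboundary₂_of_inflate {cE : (E ≃ₐ[K] E) × (E ≃ₐ[K] E) → Eˣ}
    (h : IsMulCoboundary₂ (fun p : (N ≃ₐ[K] N) × (N ≃ₐ[K] N) =>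
      unitsIncl N E (cE (resHom K E N p.1, resHom K E N p.2)))) : IsMulCoboundary₂ cE := by
  obtain ⟨c, hc⟩ := (isMulCoboundary₂_iff _).1 h
  obtain ⟨c', hc', hr, hv⟩ := mul_exists_invariant_cochain (kerRes K E N) mulHOneVanishes_kerRes
    (f' := fun p : (N ≃ₐ[K] N) × (N ≃ₐ[K] N) =>
      unitsIncl N E (cE (resHom K E N p.1, resHom K E N p.2)))
    (inflate_inv2 cE) (inflate_inv1 cE)
    (fun s hs g h => smul_unitsIncl_of_mem_kerRes hs _) c hc
  obtain ⟨b, hb⟩ := exists_descend₁ c' hr hv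
  exact (isMulCoboundary₂_iff _).2
    ⟨b, descend_dMul (f' := fun p : (N ≃ₐ[K] N) × (N ≃ₐ[K] N) =>
      unitsIncl N E (cE (resHom K E N p.1, resHom K E N p.2))) (fun g h => rfl) hc' hb⟩

end Tower

section Local

variable (A F : Type) [CommRing A] [IsDomain A] [IsDiscreteValuationRing A]
  [IsAdicComplete (IsLocalRing.maximalIdeal A) A] [Finite (IsLocalRing.ResidueField A)]
  [Field F] [CharZero F] [Algebra A F] [IsFractionRing A F]

/-- A uniformizer of `L` stays a uniformizer in an unramified extension `N / L`. -/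
theorem isUnif_unitsIncl (hLF3 : IntUnitsComapStatement)
    (L : Type) [Field L] [Algebra F L] [FiniteDimensional F L]
    (N : Type) [Field N] [Algebra F N] [Algebra L N] [IsScalarTower F L N]
    [FiniteDimensional L N] (hunr : IsUnram A F N L) {ϖL : Lˣ} (h : IsUnif A F L ϖL) :
    IsUnif A F N (unitsIncl N L ϖL) := by
  obtain ⟨h1, h2, h3⟩ := h
  refine ⟨isInt_algebraMap A F h1, fun hmem => h2 ((hLF3 A F L N ϖL).1 hmem), fun x => ?_⟩
  obtain ⟨y, hy⟩ := hunr x
  obtain ⟨m, hm⟩ := h3 y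
  refine ⟨m, ?_⟩
  have e : x * unitsIncl N L ϖL ^ (-m) =
      x * (unitsIncl N L y)⁻¹ * unitsIncl N L (y * ϖL ^ (-m)) := by
    rw [map_mul, map_zpow]
    group
  rw [e]
  exact (intUnits A F N).mul_mem hy (unitsIncl_mem_intUnits A F hm)

/-- For `E / K` unramified Galois with generator `φ`: if the standard cocycle of `ϖK ^ m` is a
coboundary then `[E : K] ∣ m`. -/
theorem finrank_dvd_of_cycCocycle_coboundary (hA4b : CycCocycleCoboundaryIffStatement)
    (hT2 : UnramNormRangeStatement)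
    (K : Type) [Field K] [Algebra F K] [FiniteDimensional F K]
    (E : Type) [Field E] [Algebra F E] [Algebra K E] [IsScalarTower F K E]
    [FiniteDimensional K E] [IsGalois K E] (hunr : IsUnram A F E K)
    {ϖK : Kˣ} (hϖ : IsUnif A F K ϖK) (φ : E ≃ₐ[K] E) (hφ : ∀ g, g ∈ Subgroup.zpowers φ)
    (m : ℕ) (h : IsMulCoboundary₂ (cycCocycle φ (unitsIncl E K (ϖK ^ m)))) :
    Module.finrank K E ∣ m := by
  classical
  letI : Fintype (E ≃ₐ[K] E) := Fintype.ofFinite _
  obtain ⟨y, hy⟩ := (hA4b (E ≃ₐ[K] E) Eˣ φ hφ (unitsIncl E K (ϖK ^ m))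
    (smul_unitsIncl_base φ _)).1 h
  rw [prod_gal_smul] at hy
  have hy' : normUnits E K y = ϖK ^ m := unitsIncl_injective_base hy
  have hmem : (1 : Kˣ) * ϖK ^ (m : ℤ) ∈ (normUnits E K).range :=
    ⟨y, by rw [hy', one_mul, zpow_natCast]⟩
  have := (hT2 A F K E ϖK hunr hϖ 1 (m : ℤ) (intUnits A F K).one_mem).1 hmem
  exact Int.natCast_dvd_natCast.1 this

/-- For `N / L` unramified: the standard cocycle, for the cyclic group `kerRes K L N ≃ Gal(N/L)`,
of `u * ϖL ^ m` with `[N : L] ∣ m` is a coboundary. -/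
theorem cycCocycle_kerRes_coboundary (hA4b : CycCocycleCoboundaryIffStatement)
    (hT2 : UnramNormRangeStatement)
    (K : Type) [Field K]
    (L : Type) [Field L] [Algebra F L] [Algebra K L] [FiniteDimensional F L] [Normal K L]
    (N : Type) [Field N] [Algebra F N] [Algebra K N] [Algebra L N] [IsScalarTower F L N]
    [IsScalarTower K L N] [FiniteDimensional K N] [IsGalois K N] (hunr : IsUnram A F N L)
    {ϖL : Lˣ} (hϖ : IsUnif A F L ϖL) (ψ : kerRes K L N) (hψ : ∀ s, s ∈ Subgroup.zpowers ψ)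
    (u : Lˣ) (hu : u ∈ intUnits A F L) (m : ℕ) (hm : Module.finrank L N ∣ m) :
    IsMulCoboundary₂ (cycCocycle ψ (unitsIncl N L (u * ϖL ^ m))) := by
  classical
  haveI : FiniteDimensional L N := Module.Finite.of_restrictScalars_finite K L N
  haveI : IsGalois L N := IsGalois.tower_top_of_isGalois K L N
  haveI : Finite (kerRes K L N) := inferInstance
  letI : Fintype (kerRes K L N) := Fintype.ofFinite _
  obtain ⟨y, hy⟩ := (hT2 A F L N ϖL hunr hϖ u (m : ℤ) hu).2 (Int.natCast_dvd_natCast.2 hm)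
  rw [zpow_natCast] at hy
  refine (hA4b (kerRes K L N) Nˣ ψ hψ (unitsIncl N L (u * ϖL ^ m))
    (smul_unitsIncl_of_mem_kerRes ψ.2 _)).2 ⟨y, ?_⟩
  rw [← hy]
  exact prod_kerRes_smul y

end Local

end Fermat.Agent.S55.Local.H964

end
-- ===== PACK-END S55/Local/H964/T5Pieces.lean

-- ===== PACK-BEGIN S55/H953/Generic.lean
section


/-!
# S55 / local norm index: the generic Herbrand computation

`0 → U → B → ℤ → 0` equivariant exact (trivial action on `ℤ`), `V → U` equivariant injective of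
finite index, `h⁰(V) = h¹(V) = 1`, `h¹(B) = 1`  ⟹  `h⁰(B) = n`.
-/

set_option autoImplicit false

namespace Fermat.Agent.S55.H953

open Fermat.Agent.S55.Herbrand

variable {AV AU B : Type*} [AddCommGroup AV] [AddCommGroup AU] [AddCommGroup B]

theorem h0_eq_of_units_trivial {σV : AddMonoid.End AV} {σU : AddMonoid.End AU}
    {σB : AddMonoid.End B} {n : ℕ} (hn : n ≠ 0)
    (hσU : σU ^ n = 1) (hσB : σB ^ n = 1)
    {i₁ : AV →+ AU} (hi₁ : Function.Injective i₁) (hfin : i₁.range.FiniteIndex)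
    (hi₁σ : ∀ a, i₁ (σV a) = σU (i₁ a))
    {i₂ : AU →+ B} (hi₂ : Function.Injective i₂) (hi₂σ : ∀ a, i₂ (σU a) = σB (i₂ a))
    {p : B →+ ℤ} (hp : Function.Surjective p) (hex : p.ker = i₂.range)
    (hpσ : ∀ b, p (σB b) = p b)
    (hV0 : h0 σV n = 1) (hV1 : h1 σV n = 1) (hB1 : h1 σB n = 1) :
    h0 σB n = n := by
  have hVdef : HerbrandDefined σV n := by
    rw [herbrandDefined_iff, hV0, hV1]
    exact ⟨one_ne_zero, one_ne_zero⟩
  have hVq : herbrand σV n = 1 := by
    rw [herbrand_eq_div, hV0, hV1]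
    simp
  have hUdef : HerbrandDefined σU n :=
    (herbrandDefined_iff_of_finite_coker hσU hi₁ hfin hi₁σ).1 hVdef
  have hUq : herbrand σU n = 1 := by
    rw [← herbrand_eq_of_finite_coker hσU hi₁ hfin hi₁σ, hVq]
  have hpσ' : ∀ b, p (σB b) = (1 : AddMonoid.End ℤ) (p b) := fun b => hpσ b
  have hBq : herbrand σB n = herbrand σU n * herbrand (1 : AddMonoid.End ℤ) n :=
    herbrand_mul_of_exact hσB hi₂ hp hex hi₂σ hpσ' hUdef (herbrandDefined_int hn)
  rw [hUq, one_mul, herbrand_int hn, herbrand_eq_div, hB1] at hBq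
  simp only [Nat.cast_one, div_one] at hBq
  exact_mod_cast hBq

end Fermat.Agent.S55.H953

end
-- ===== PACK-END S55/H953/Generic.lean

-- ===== PACK-BEGIN S55/Local/H775/InertiaCore.lean
section




/-!
# S55 layer L, piece UR6 (helper775): the inertia group and its order

* `card_inertia_inf_eq` (abstract): for a discrete valuation ring `S`, finite over `A`, with finite
  residue field and a finite group `G` of `A`-automorphisms of `S`, and a subgroup `H` of `G`,
  the order of `inertia ⊓ H` is the ramification index of `S` over the ring of invariants `S^H`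
  (Mathlib `Ideal.card_inertia_eq_ramificationIdxIn`).
* `exists_inertia_ord`: for `N / K` finite Galois of local fields there is a normal subgroup `I`
  of `Gal(N/K)` such that for every subgroup `H`, the orders (w.r.t. a uniformizer of `N`) of the
  `H`-invariant elements of `Nˣ` are exactly the multiples of `|I ⊓ H|`.
-/

set_option autoImplicit false
set_option linter.unusedSectionVars false
set_option linter.style.haveILetI false

namespace Fermat.Agent.S55.Local.H775

open Fermat.Agent.S55.Local IsLocalRing Ideal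

section Abstract

/-- The ring of invariants of a group of automorphisms of a valuation ring is a valuation ring. -/
lemma valuationRing_fixedPoints (A : Type*) {S G : Type*} [CommRing A] [CommRing S] [Algebra A S]
    [IsDomain S] [ValuationRing S] [Group G] [MulSemiringAction G S] [SMulCommClass G A S]
    (H : Subgroup G) :
    ValuationRing (FixedPoints.subalgebra A S H) := by
  rw [ValuationRing.iff_dvd_total]
  refine ⟨fun a b => ?_⟩
  have key : ∀ a b : FixedPoints.subalgebra A S H, (a : S) ∣ (b : S) → a ∣ b := by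
    intro a b hab
    obtain ⟨c, hc⟩ := hab
    by_cases ha : (a : S) = 0
    · have hb : (b : S) = 0 := by rw [hc, ha, zero_mul]
      exact ⟨0, Subtype.ext (by simp [hb])⟩
    · refine ⟨⟨c, fun h => ?_⟩, Subtype.ext hc⟩
      have h1 : h • (b : S) = (b : S) := b.2 h
      have h2 : h • (a : S) = (a : S) := a.2 h
      have h3 : (a : S) * (h • c) = (a : S) * c := by
        rw [← hc, ← h1, hc, smul_mul', h2]
      exact mul_left_cancel₀ ha h3
  rcases ValuationRing.dvd_total (a : S) (b : S) with h | h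
  · exact Or.inl (key a b h)
  · exact Or.inr (key b a h)

theorem card_inertia_inf_eq (A : Type*) {S G : Type*} [CommRing A] [CommRing S] [Algebra A S]
    [IsDomain S] [IsDiscreteValuationRing S] [Module.Finite A S]
    [Finite (IsLocalRing.ResidueField S)]
    [Group G] [Finite G] [MulSemiringAction G S] [FaithfulSMul G S] [SMulCommClass G A S]
    (H : Subgroup G) (n : ℕ)
    (hle : ∀ r : S, (∀ h ∈ H, h • r = r) → r ∈ maximalIdeal S → r ∈ maximalIdeal S ^ n)
    (hnle : ∃ r : S, (∀ h ∈ H, h • r = r) ∧ r ∈ maximalIdeal S ∧ r ∉ maximalIdeal S ^ (n + 1)) :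
    Nat.card ↥((maximalIdeal S).inertia G ⊓ H) = n := by
  -- the fixed ring
  let R := FixedPoints.subalgebra A S H
  haveI hGal : IsGaloisGroup H R S :=
    { faithful := inferInstance
      commutes := inferInstance
      isInvariant := ⟨fun x h => ⟨⟨x, h⟩, rfl⟩⟩ }
  haveI : ValuationRing R := valuationRing_fixedPoints A H
  haveI : Module.Finite R S := Module.Finite.of_restrictScalars_finite A R S
  haveI : Module.Flat R S := by
    rw [Module.Flat.flat_iff_torsion_eq_bot_of_isBezout,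
      ← Submodule.isTorsionFree_iff_torsion_eq_bot]
    infer_instance
  set P : Ideal S := maximalIdeal S with hP
  set p : Ideal R := P.under R with hp
  haveI : P.LiesOver p := Ideal.over_under P
  haveI : P.IsMaximal := maximalIdeal.isMaximal S
  haveI : Algebra.IsIntegral R S := Algebra.IsIntegral.of_finite R S
  haveI : p.IsMaximal := Ideal.isMaximal_comap_of_isIntegral_of_isMaximal P
  haveI : Finite (S ⧸ P) := ‹Finite (IsLocalRing.ResidueField S)›
  haveI : Finite (R ⧸ p) :=
    Finite.of_injective (algebraMap (R ⧸ p) (S ⧸ P))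
      (FaithfulSMul.algebraMap_injective (R ⧸ p) (S ⧸ P))
  haveI : PerfectField p.ResidueField := PerfectField.ofFinite
  have h1 : Nat.card (P.inertia H) = p.ramificationIdxIn S :=
    Ideal.card_inertia_eq_ramificationIdxIn p P
  have h2 : p.ramificationIdxIn S = P.ramificationIdx R :=
    Ideal.ramificationIdxIn_eq_ramificationIdx p P H
  obtain ⟨r₀, hr₀fix, hr₀P, hr₀n⟩ := hnle
  have hr₀p : (⟨r₀, fun h => hr₀fix h.1 h.2⟩ : R) ∈ p := hr₀P
  have hr₀0 : r₀ ≠ 0 := by
    rintro rfl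
    exact hr₀n (Ideal.zero_mem _)
  have hpS : Ideal.map (algebraMap R S) p ≠ ⊥ := by
    intro hbot
    have : algebraMap R S ⟨r₀, fun h => hr₀fix h.1 h.2⟩ ∈ Ideal.map (algebraMap R S) p :=
      Ideal.mem_map_of_mem _ hr₀p
    rw [hbot, Ideal.mem_bot] at this
    exact hr₀0 this
  have h3 : p.ramificationIdx' P = P.ramificationIdx R :=
    Ideal.ramificationIdx'_eq_ramificationIdx' p P hpS
  have h4 : p.ramificationIdx' P = n := by
    refine Ideal.ramificationIdx'_spec ?_ ?_
    · rw [Ideal.map_le_iff_le_comap]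
      intro r hr
      exact hle (r : S) (fun h hh => r.2 ⟨h, hh⟩) hr
    · intro hcon
      exact hr₀n (hcon (Ideal.mem_map_of_mem _ hr₀p))
  have h5 : Nat.card ↥(P.inertia G ⊓ H) = Nat.card (P.inertia H) := by
    rw [← Nat.card_congr (Subgroup.subgroupOfEquivOfLe
      (inf_le_right : P.inertia G ⊓ H ≤ H)).toEquiv, Subgroup.inf_subgroupOf_right]
    rfl
  rw [h5, h1, h2, ← h3, h4]

end Abstract

section Concrete

variable (A F : Type) [CommRing A] [IsDomain A] [IsDiscreteValuationRing A]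
  [IsAdicComplete (IsLocalRing.maximalIdeal A) A] [Finite (IsLocalRing.ResidueField A)]
  [Field F] [CharZero F] [Algebra A F] [IsFractionRing A F]
  (K : Type) [Field K] [Algebra F K] [FiniteDimensional F K]
  (N : Type) [Field N] [Algebra F N] [Algebra K N] [IsScalarTower F K N]
  [FiniteDimensional K N] [IsGalois K N]

/-- The Galois action commutes with the `A`-module structure of `N`. -/
lemma smulCommClass_gal :
    letI : Algebra A N := H715.algAL A F N
    SMulCommClass (N ≃ₐ[K] N) A N := by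
  letI : Algebra A N := H715.algAL A F N
  refine ⟨fun σ a x => ?_⟩
  rw [Algebra.smul_def, Algebra.smul_def, AlgEquiv.smul_def, AlgEquiv.smul_def, map_mul]
  congr 1
  show σ (toL A F N a) = toL A F N a
  rw [H608.toL_eq_algebraMap_toL A F N K a, σ.commutes]

variable {A F N} in
/-- The order (w.r.t. a uniformizer `ϖ`) of a nonzero element of the maximal ideal is positive,
and membership in powers of the maximal ideal is read off from the order. -/
lemma mem_maximalIdeal_pow_iff
    [Algebra A N] [IsScalarTower A F N] [FiniteDimensional F N]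
    [IsLocalRing (integralClosure A N)]
    {ϖ : Nˣ} (hϖ : IsUnif A F N ϖ) (s : integralClosure A N) (y : Nˣ) (hy : (y : N) = (s : N))
    (n : ℕ) :
    s ∈ maximalIdeal (integralClosure A N) ^ (n + 1) ↔ (n : ℤ) + 1 ≤ ord A F N ϖ y := by
  have hϖint : (ϖ : N) ∈ integralClosure A N := (H715.isInt_iff_mem A F N _).mp hϖ.1
  set ϖS : integralClosure A N := ⟨ϖ, hϖint⟩ with hϖS
  -- divisibility by powers of `ϖS`
  have hdvd : ∀ (t : integralClosure A N) (z : Nˣ), (z : N) = (t : N) → ∀ m : ℕ,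
      (ϖS ^ m ∣ t ↔ (m : ℤ) ≤ ord A F N ϖ z) := by
    intro t z hz m
    rw [← isInt_div_pow_iff hϖ, H715.isInt_iff_mem A F N]
    constructor
    · rintro ⟨c, hc⟩
      have : (z : N) / (ϖ : N) ^ m = (c : N) := by
        rw [hz, hc]
        simp only [hϖS, Subalgebra.coe_mul, Subalgebra.coe_pow]
        field_simp
      rw [this]
      exact c.2
    · intro hmem
      refine ⟨⟨_, hmem⟩, Subtype.ext ?_⟩
      simp only [hϖS, Subalgebra.coe_mul, Subalgebra.coe_pow]
      rw [← hz]
      field_simp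
  -- the maximal ideal is generated by `ϖS`
  have hmax : maximalIdeal (integralClosure A N) = Ideal.span {ϖS} := by
    apply le_antisymm
    · intro t ht
      rw [Ideal.mem_span_singleton]
      by_cases ht0 : t = 0
      · rw [ht0]; exact dvd_zero _
      have ht0' : (t : N) ≠ 0 := fun h => ht0 (Subtype.ext h)
      have h1 := (hdvd t (Units.mk0 (t : N) ht0') rfl 1)
      rw [pow_one] at h1
      rw [h1]
      have h0 : 0 ≤ ord A F N ϖ (Units.mk0 (t : N) ht0') :=
        (isInt_iff_ord_nonneg hϖ _).mp ((H715.isInt_iff_mem A F N _).mpr t.2)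
      rcases h0.lt_or_eq with h | h
      · exact_mod_cast h
      · exfalso
        have hu := (ord_eq_zero_iff hϖ).mp h.symm
        rw [mem_maximalIdeal, mem_nonunits_iff] at ht
        apply ht
        have hinv : ((Units.mk0 (t : N) ht0')⁻¹ : Nˣ).1 ∈ integralClosure A N :=
          (H715.isInt_iff_mem A F N _).mp ((mem_intUnits A F N).mp hu).2
        refine isUnit_iff_exists_inv.mpr ⟨⟨_, hinv⟩, Subtype.ext ?_⟩
        simp only [Subalgebra.coe_mul, Units.val_inv_eq_inv_val, Units.val_mk0,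
          Subalgebra.coe_one]
        exact mul_inv_cancel₀ ht0'
    · rw [Ideal.span_le, Set.singleton_subset_iff, SetLike.mem_coe, mem_maximalIdeal,
        mem_nonunits_iff]
      intro hu
      apply hϖ.2.1
      rw [mem_intUnits]
      refine ⟨hϖ.1, ?_⟩
      obtain ⟨c, hc⟩ := isUnit_iff_exists_inv.mp hu
      have hc' : (ϖ : N) * (c : N) = 1 := by
        have := congrArg (fun t : integralClosure A N => (t : N)) hc
        simpa [hϖS] using this
      have : ((ϖ⁻¹ : Nˣ) : N) = (c : N) := by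
        rw [Units.val_inv_eq_inv_val]
        exact inv_eq_of_mul_eq_one_right hc'
      rw [this]
      exact (H715.isInt_iff_mem A F N _).mpr c.2
  rw [hmax, Ideal.span_singleton_pow, Ideal.mem_span_singleton, hdvd s y hy (n + 1)]
  push_cast
  rfl

/-- **Key theorem.**  There is a normal subgroup `I` of `Gal(N/K)` (the inertia group) such that
for every subgroup `H`: if `d > 0` is the least positive order of an `H`-invariant element of
`Nˣ`, then `|I ⊓ H| = d`. -/
theorem exists_inertia_ord {ϖ : Nˣ} (hϖ : IsUnif A F N ϖ) :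
    ∃ I : Subgroup (N ≃ₐ[K] N), I.Normal ∧ ∀ (H : Subgroup (N ≃ₐ[K] N)) (d : ℕ),
      (∀ y : Nˣ, (∀ σ ∈ H, σ • y = y) → 0 < ord A F N ϖ y → (d : ℤ) ≤ ord A F N ϖ y) →
      (∃ y : Nˣ, (∀ σ ∈ H, σ • y = y) ∧ ord A F N ϖ y = d) → 0 < d →
      Nat.card ↥(I ⊓ H) = d := by
  letI : Algebra A N := H715.algAL A F N
  haveI : IsScalarTower A F N := H715.isScalarTower_algAL A F N
  haveI : FiniteDimensional F N := FiniteDimensional.trans F K N
  haveI : SMulCommClass (N ≃ₐ[K] N) A N := smulCommClass_gal A F K N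
  haveI := H715.isDiscreteValuationRing_OL A F N
  haveI := H715.finite_OL A F N
  haveI : Finite (ResidueField (integralClosure A N)) := H715.finite_residueField_OL A F N
  haveI := H715.isFractionRing_OL A F N
  haveI : FaithfulSMul (N ≃ₐ[K] N) (integralClosure A N) := by
    refine ⟨fun {σ τ} h => ?_⟩
    apply AlgEquiv.ext
    intro x
    obtain ⟨a, b, hb, rfl⟩ := IsFractionRing.div_surjective (A := integralClosure A N) x
    have ha' : σ (a : N) = τ (a : N) := congrArg (fun t : integralClosure A N => (t : N)) (h a)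
    have hb' : σ (b : N) = τ (b : N) := congrArg (fun t : integralClosure A N => (t : N)) (h b)
    have e1 : algebraMap (integralClosure A N) N a = (a : N) := rfl
    have e2 : algebraMap (integralClosure A N) N b = (b : N) := rfl
    rw [e1, e2, map_div₀, map_div₀, ha', hb']
  refine ⟨(maximalIdeal (integralClosure A N)).inertia (N ≃ₐ[K] N), ?_, ?_⟩
  · -- normality
    refine ⟨fun σ hσ τ => ?_⟩
    intro x
    have h1 := hσ (τ⁻¹ • x)
    have h2 : τ • (σ • (τ⁻¹ • x) - τ⁻¹ • x) ∈
        (maximalIdeal (integralClosure A N)).toAddSubgroup := by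
      show τ • (σ • (τ⁻¹ • x) - τ⁻¹ • x) ∈ maximalIdeal (integralClosure A N)
      rw [mem_maximalIdeal, mem_nonunits_iff]
      intro hu
      have h1' : (σ • (τ⁻¹ • x) - τ⁻¹ • x) ∈ maximalIdeal (integralClosure A N) := h1
      rw [mem_maximalIdeal, mem_nonunits_iff] at h1'
      apply h1'
      have := hu.map (MulSemiringAction.toRingHom (N ≃ₐ[K] N) (integralClosure A N) τ⁻¹)
      simpa using this
    have e : τ • (σ • (τ⁻¹ • x) - τ⁻¹ • x) = (τ * σ * τ⁻¹) • x - x := by
      rw [smul_sub, smul_smul, smul_smul, smul_smul, mul_inv_cancel, one_smul]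
    rw [e] at h2
    exact h2
  · intro H d hmin hex hd
    obtain ⟨d', rfl⟩ : ∃ d', d = d' + 1 := ⟨d - 1, by omega⟩
    refine card_inertia_inf_eq A H (d' + 1) ?_ ?_
    · intro r hr hrP
      by_cases hr0 : r = 0
      · rw [hr0]; exact Ideal.zero_mem _
      have hr0' : (r : N) ≠ 0 := fun h => hr0 (Subtype.ext h)
      set y : Nˣ := Units.mk0 (r : N) hr0' with hy
      have hyfix : ∀ σ ∈ H, σ • y = y := by
        intro σ hσ
        apply Units.ext
        have := congrArg (fun t : integralClosure A N => (t : N)) (hr σ hσ)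
        simpa [hy, AlgEquiv.smul_units_def] using this
      have hpos : 0 < ord A F N ϖ y := by
        have h1 : r ∈ maximalIdeal (integralClosure A N) ^ (0 + 1) := by simpa using hrP
        have := (mem_maximalIdeal_pow_iff (F := F) hϖ r y rfl 0).mp h1
        omega
      have := hmin y hyfix hpos
      rw [mem_maximalIdeal_pow_iff (F := F) hϖ r y rfl d']
      push_cast at this
      exact this
    · obtain ⟨y, hyfix, hyd⟩ := hex
      have hyint : (y : N) ∈ integralClosure A N := by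
        rw [← H715.isInt_iff_mem A F N, isInt_iff_ord_nonneg hϖ, hyd]
        positivity
      refine ⟨⟨y, hyint⟩, ?_, ?_, ?_⟩
      · intro σ hσ
        apply Subtype.ext
        have := congrArg (fun t : Nˣ => (t : N)) (hyfix σ hσ)
        simpa [AlgEquiv.smul_units_def] using this
      · have : (⟨y, hyint⟩ : integralClosure A N) ∈
            maximalIdeal (integralClosure A N) ^ (0 + 1) := by
          rw [mem_maximalIdeal_pow_iff (F := F) hϖ _ y rfl 0, hyd]
          push_cast
          omega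
        simpa using this
      · rw [mem_maximalIdeal_pow_iff (F := F) hϖ _ y rfl (d' + 1), hyd]
        push_cast
        omega

end Concrete

end Fermat.Agent.S55.Local.H775

end
-- ===== PACK-END S55/Local/H775/InertiaCore.lean

-- ===== PACK-BEGIN S55/L/C1aH954.lean
section




/-!
# S55, layer L, leaf L-C1a: `|H²(Gal(L/K), Lˣ)| ≤ [L : K]` from the cyclic case (helper954)

* `quotTransportIso` (**L-TRQ**): for `N ⊴ Gal(L/K)` with fixed field `F`,
  `Hⁿ(Gal(L/K) ⧸ N, (Lˣ)^N) ≅ Hⁿ(Gal(F/K), Fˣ)`.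
* `h2CardLe_of : H2CardCyclicSpec → FiniteExtSpec → H2CardLeSpec`.
-/

set_option autoImplicit false
set_option linter.unusedSectionVars false
set_option linter.style.haveILetI false

namespace Fermat.Agent.S55.L.H954

open groupCohomology CategoryTheory IntermediateField Fermat.Agent.S55.L Fermat.Agent.S55.H954

section Quot

variable (K L : Type) [Field K] [Field L] [Algebra K L] [FiniteDimensional K L] [IsGalois K L]
variable (N : Subgroup (L ≃ₐ[K] L)) [N.Normal]

/-- A unit of `L` fixed by `N` is a unit of the fixed field of `N`. -/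
noncomputable def unitOfInvariant (u : Lˣ) (hu : ∀ σ ∈ N, σ (u : L) = u) : (fixedField N)ˣ where
  val := ⟨(u : L), fun σ => hu σ.1 σ.2⟩
  inv := ⟨((u⁻¹ : Lˣ) : L), fun σ => by
    have h := hu σ.1 σ.2
    have h2 : (σ.1 : L ≃ₐ[K] L) ((u⁻¹ : Lˣ) : L) = ((u⁻¹ : Lˣ) : L) := by
      rw [Units.val_inv_eq_inv_val, map_inv₀, h]
    exact h2⟩
  val_inv := Subtype.ext (by simp)
  inv_val := Subtype.ext (by simp)

lemma coe_unitOfInvariant (u : Lˣ) (hu : ∀ σ ∈ N, σ (u : L) = u) :
    (((unitOfInvariant K L N u hu : (fixedField N)ˣ) : fixedField N) : L) = u := rfl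

/-- The invariants of `N` in `Lˣ` are the units of the fixed field (as additive groups). -/
noncomputable def invUnitsAddEquiv :
    ((unitsRep K L).quotientToInvariants N) ≃+ Additive (fixedField N)ˣ where
  toFun x := Additive.ofMul (unitOfInvariant K L N (Additive.toMul x.1) (fun σ hσ => by
    have h := x.2 ⟨σ, hσ⟩
    exact congrArg (fun y : Additive Lˣ => ((Additive.toMul y : Lˣ) : L)) h))
  invFun y := ⟨Additive.ofMul (Units.map (algebraMap (fixedField N) L).toMonoidHom
      (Additive.toMul y)), fun σ => by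
    apply congrArg Additive.ofMul
    apply Units.ext
    exact (Additive.toMul y : (fixedField N)ˣ).1.2 σ⟩
  left_inv x := by
    apply Subtype.ext
    apply congrArg Additive.ofMul
    apply Units.ext
    rfl
  right_inv y := by
    apply congrArg Additive.ofMul
    apply Units.ext
    apply Subtype.ext
    rfl
  map_add' x y := by
    apply congrArg Additive.ofMul
    apply Units.ext
    apply Subtype.ext
    rfl

/-- ℤ-linear version of `invUnitsAddEquiv`. -/
noncomputable def invUnitsLinearEquiv :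
    ((unitsRep K L).quotientToInvariants N).V ≃ₗ[ℤ] (unitsRep K (fixedField N)).V :=
  (invUnitsAddEquiv K L N).toIntLinearEquiv

lemma invUnitsLinearEquiv_comm (g : (L ≃ₐ[K] L) ⧸ N) :
    (invUnitsLinearEquiv K L N).toLinearMap ∘ₗ ((unitsRep K L).quotientToInvariants N).ρ g =
      (unitsRep K (fixedField N)).ρ (IsGalois.normalAutEquivQuotient N g) ∘ₗ
        (invUnitsLinearEquiv K L N).toLinearMap := by
  induction g using QuotientGroup.induction_on with
  | H σ =>
    apply LinearMap.ext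
    intro x
    apply congrArg Additive.ofMul
    apply Units.ext
    apply Subtype.ext
    have key := AlgEquiv.restrictNormal_commutes σ (fixedField N)
      ((Additive.toMul (invUnitsAddEquiv K L N x) : (fixedField N)ˣ) : fixedField N)
    exact key.symm

/-- **L-TRQ** For `N ⊴ Gal(L/K)` with fixed field `F`:
`Hⁿ(Gal(L/K) ⧸ N, (Lˣ)^N) ≅ Hⁿ(Gal(F/K), Fˣ)`. -/
noncomputable def quotTransportIso (n : ℕ) :
    groupCohomology ((unitsRep K L).quotientToInvariants N) n ≅
      groupCohomology (unitsRep K (fixedField N)) n :=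
  groupCohomology.mapIso (IsGalois.normalAutEquivQuotient N) (invUnitsLinearEquiv K L N)
    (invUnitsLinearEquiv_comm K L N) n

end Quot

section Main

lemma finite_and_card_of_addEquiv {X Y : Type*} [AddCommGroup X] [AddCommGroup Y] (e : X ≃+ Y)
    {m : ℕ} (h : Finite Y ∧ Nat.card Y ∣ m) : Finite X ∧ Nat.card X ∣ m := by
  obtain ⟨hf, hd⟩ := h
  exact ⟨Finite.of_equiv Y e.symm.toEquiv, (Nat.card_congr e.toEquiv) ▸ hd⟩

/-- Hilbert 90 for a subgroup of the Galois group. -/
lemma H1_res_eq_zero (K L : Type) [Field K] [Field L] [Algebra K L] [FiniteDimensional K L]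
    (H : Subgroup (L ≃ₐ[K] L)) (x : H1 (Rep.res H.subtype (unitsRep K L))) : x = 0 := by
  haveI : Subsingleton (H1 (unitsRep (fixedField H) L)) :=
    (inferInstance : Subsingleton (H1 (Rep.ofAlgebraAutOnUnits (fixedField H) L)))
  haveI : Subsingleton (H1 (Rep.res H.subtype (unitsRep K L))) :=
    (transportAddEquiv K L H 1).toEquiv.subsingleton
  exact Subsingleton.elim _ _

lemma card_aut_fixedField (K L : Type) [Field K] [Field L] [Algebra K L] [FiniteDimensional K L]
    (H : Subgroup (L ≃ₐ[K] L)) : Nat.card (L ≃ₐ[fixedField H] L) = Nat.card H :=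
  (Nat.card_congr (IntermediateField.subgroupEquivAlgEquiv H).toEquiv).symm

/-- The `p`-group case: induction on the degree, over all Galois extensions of local fields. -/
theorem h2_card_dvd_of_pgroup (hcyc : H2CardCyclicSpec) (h1 : FiniteExtSpec)
    (p : ℕ) [hp : Fact p.Prime] :
    ∀ (n : ℕ) (K L : Type) [Field K] [Field L] [Algebra K L] [FiniteDimensional K L]
      [IsGalois K L] [IsLocalFld K], Nat.card (L ≃ₐ[K] L) = p ^ n →
      Finite (H2 (unitsRep K L)) ∧ Nat.card (H2 (unitsRep K L)) ∣ p ^ n := by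
  intro n
  induction n with
  | zero =>
    intro K L _ _ _ _ _ _ hG
    rw [pow_zero] at hG
    have hz : ∀ x : H2 (unitsRep K L), x = 0 := H2_eq_zero_of_card_eq_one (unitsRep K L) hG
    haveI : Subsingleton (H2 (unitsRep K L)) := ⟨fun a b => (hz a).trans (hz b).symm⟩
    refine ⟨inferInstance, ?_⟩
    rw [Nat.card_unique]
    exact one_dvd _
  | succ n ih =>
    intro K L _ _ _ _ _ _ hG
    obtain ⟨N, hN⟩ := Sylow.exists_subgroup_card_pow_prime (G := L ≃ₐ[K] L) p (n := n)
      (by rw [hG]; exact pow_dvd_pow p (Nat.le_succ n))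
    have hidx : N.index = p := by
      have h := N.card_mul_index
      rw [hN, hG, pow_succ] at h
      exact Nat.eq_of_mul_eq_mul_left (pow_pos hp.out.pos n) h
    haveI hNn : N.Normal := Subgroup.normal_of_index_eq_minFac_card (by
      rw [hidx, hG, Nat.pow_minFac (Nat.succ_ne_zero n), hp.out.minFac_eq])
    -- the top layer `L / F`
    haveI : IsLocalFld (fixedField N) := h1 K (fixedField N)
    haveI : IsGalois (fixedField N) L := IsGalois.tower_top_of_isGalois K _ L
    have IH := ih (fixedField N) L ((card_aut_fixedField K L N).trans hN)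
    have hNc : Finite (H2 (Rep.res N.subtype (unitsRep K L))) ∧
        Nat.card (H2 (Rep.res N.subtype (unitsRep K L))) ∣ p ^ n :=
      finite_and_card_of_addEquiv (transportAddEquiv K L N 2) IH
    -- the bottom layer `F / K`, cyclic of degree `p`
    have hq : Nat.card ((fixedField N) ≃ₐ[K] (fixedField N)) = p := by
      rw [← Nat.card_congr (IsGalois.normalAutEquivQuotient N).toEquiv,
        ← Subgroup.index_eq_card]
      exact hidx
    haveI : IsCyclic ((fixedField N) ≃ₐ[K] (fixedField N)) := isCyclic_of_prime_card hq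
    obtain ⟨hQf, hQc⟩ := hcyc K (fixedField N)
    rw [← IsGalois.card_aut_eq_finrank, hq] at hQc
    have hQ : Finite (H2 ((unitsRep K L).quotientToInvariants N)) ∧
        Nat.card (H2 ((unitsRep K L).quotientToInvariants N)) ∣ p :=
      finite_and_card_of_addEquiv (quotTransportIso K L N 2).toLinearEquiv.toAddEquiv
        ⟨hQf, hQc ▸ dvd_rfl⟩
    obtain ⟨hfin, hdvd⟩ := H2_card_dvd_mul_of_normal (unitsRep K L) N
      (H1_res_eq_zero K L N) hNc.1 hQ.1 hNc.2 hQ.2
    refine ⟨hfin, ?_⟩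
    rw [pow_succ, mul_comm]
    exact hdvd

/-- **L-C1a** `|H²(Gal(L/K), Lˣ)| ≤ [L : K]`, in fact divides it. -/
theorem h2CardDvd_of (hcyc : H2CardCyclicSpec) (h1 : FiniteExtSpec)
    (K L : Type) [Field K] [Field L] [Algebra K L] [FiniteDimensional K L] [IsGalois K L]
    [IsLocalFld K] :
    Finite (H2 (unitsRep K L)) ∧ Nat.card (H2 (unitsRep K L)) ∣ Module.finrank K L := by
  rw [← IsGalois.card_aut_eq_finrank]
  refine card_H2_dvd_card_of_sylow (unitsRep K L) (fun p hp _ => ?_)
  haveI : Fact p.Prime := ⟨hp⟩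
  obtain ⟨P⟩ : Nonempty (Sylow p (L ≃ₐ[K] L)) := inferInstance
  refine ⟨P, ?_⟩
  have hP : Nat.card (P : Subgroup (L ≃ₐ[K] L)) = p ^ ((Nat.card (L ≃ₐ[K] L)).factorization p) :=
    Sylow.card_eq_multiplicity P
  haveI : IsLocalFld (fixedField (P : Subgroup (L ≃ₐ[K] L))) := h1 K _
  haveI : IsGalois (fixedField (P : Subgroup (L ≃ₐ[K] L))) L :=
    IsGalois.tower_top_of_isGalois K _ L
  have h := h2_card_dvd_of_pgroup hcyc h1 p _ (fixedField (P : Subgroup (L ≃ₐ[K] L))) L
    ((card_aut_fixedField K L _).trans hP)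
  rw [hP]
  exact finite_and_card_of_addEquiv (transportAddEquiv K L _ 2) h

/-- **L-C1a** `h2CardLe_of`. -/
theorem h2CardLe_of (hcyc : H2CardCyclicSpec) (h1 : FiniteExtSpec) : H2CardLeSpec := by
  intro K L _ _ _ _ _ _
  obtain ⟨hf, hd⟩ := h2CardDvd_of hcyc h1 K L
  exact ⟨hf, Nat.le_of_dvd Module.finrank_pos hd⟩

end Main

end Fermat.Agent.S55.L.H954

end
-- ===== PACK-END S55/L/C1aH954.lean

-- ===== PACK-BEGIN S55/T/CoindCohTrivH572.lean
section



/-!
# S55 layer T, leaf T4b: `CoindCohTrivSpec` (helper572)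

Modules coinduced from the trivial subgroup are cohomologically trivial.
Proof: `res_H (coind_1^G B) ≅ coind_1^H (Fun(G ⧸ H, B))` (`H572.resCoindBotIso`) and the vanishing
of Tate cohomology of `coind_1` in all degrees (`H572.isZero_tateCohomology_coind_bot`).
-/

set_option autoImplicit false

open CategoryTheory

namespace Fermat.Agent.S55.T.H572

/-- **T4b.** Coinduced-from-trivial modules are cohomologically trivial. -/
theorem coindCohTriv : CoindCohTrivSpec := by
  intro k G _ _ _ B H _ n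
  exact Fermat.Agent.S55.H572.isZero_tateCohomology_res_coind_bot H B n

/-- Variant for `coind₁ A = Fun(G, A)`, `A : Rep k G`. -/
theorem isCohTriv_coind₁ {k G : Type} [CommRing k] [Group G] [Finite G] (A : Rep.{0} k G) :
    IsCohTriv (Fermat.Agent.S55.H572.coind₁ A) :=
  coindCohTriv k G _

end Fermat.Agent.S55.T.H572

end
-- ===== PACK-END S55/T/CoindCohTrivH572.lean

-- ===== PACK-BEGIN S55/T/NakBasicH719.lean
section




/-!
# S55, layer T, leaf T6a (Nakayama) — basic facts on cohomological triviality (helper719)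

* `isCohTriv_of_iso` : cohomological triviality is invariant under isomorphisms;
* `isCohTriv_X₁/X₂/X₃` : two-out-of-three in short exact sequences;
* `exists_shift_one` : dimension shifting of Tate cohomology to degree `1`, for all subgroups
  simultaneously;
* `isZero_H1_iff` : concrete description of `H¹ = 0`;
* `card_nsmul_tate_eq_zero` : `|H|` kills `Ĥⁿ(H, A)` for every `n : ℤ`.
-/

set_option autoImplicit false
set_option linter.style.haveILetI false

open CategoryTheory Limits groupCohomology Rep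

namespace Fermat.Agent.S55.T.H719

open Fermat.Agent.S55.H572

noncomputable section

variable {k G : Type} [CommRing k] [Group G]

/-! ## Invariance under isomorphism -/

theorem isZero_tate_of_iso [Fintype G] {A B : Rep.{0} k G} (e : A ≅ B) (n : ℤ)
    (h : IsZero (tateCohomology A n)) : IsZero (tateCohomology B n) :=
  IsZero.of_iso h ((tateCohomologyFunctor n).mapIso e.symm)

theorem isCohTriv_of_iso [Finite G] {A B : Rep.{0} k G} (e : A ≅ B) (h : IsCohTriv A) :
    IsCohTriv B := by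
  intro H _ n
  exact IsZero.of_iso (h H n)
    ((tateCohomologyFunctor n).mapIso ((resFunctor H.subtype).mapIso e.symm))

/-! ## Two out of three -/

section TwoOfThree

variable [Fintype G] {S : ShortComplex (Rep.{0} k G)} (hS : S.ShortExact)

include hS

theorem isZero_tate_X₂ (n : ℤ) (h₁ : IsZero (tateCohomology S.X₁ n))
    (h₃ : IsZero (tateCohomology S.X₃ n)) : IsZero (tateCohomology S.X₂ n) :=
  ((TateCohomology.map_tateComplexFunctor_shortExact hS).homology_exact₂ n).isZero_of_both_isZero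
    h₁ h₃

theorem isZero_tate_X₃ (n : ℤ) (h₂ : IsZero (tateCohomology S.X₂ n))
    (h₁ : IsZero (tateCohomology S.X₁ (n + 1))) : IsZero (tateCohomology S.X₃ n) :=
  (TateCohomology.exact₃ hS n).isZero_of_both_isZero h₂ h₁

theorem isZero_tate_X₁ (n : ℤ) (h₃ : IsZero (tateCohomology S.X₃ n))
    (h₂ : IsZero (tateCohomology S.X₂ (n + 1))) : IsZero (tateCohomology S.X₁ (n + 1)) :=
  (TateCohomology.exact₁ hS n).isZero_of_both_isZero h₃ h₂

end TwoOfThree

section TwoOfThreeCT

variable [Finite G] {S : ShortComplex (Rep.{0} k G)} (hS : S.ShortExact)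

include hS

theorem isCohTriv_X₂ (h₁ : IsCohTriv S.X₁) (h₃ : IsCohTriv S.X₃) : IsCohTriv S.X₂ := by
  intro H _ n
  exact isZero_tate_X₂ ((Rep.shortExact_res H.subtype).2 hS) n (h₁ H n) (h₃ H n)

theorem isCohTriv_X₃ (h₁ : IsCohTriv S.X₁) (h₂ : IsCohTriv S.X₂) : IsCohTriv S.X₃ := by
  intro H _ n
  exact isZero_tate_X₃ ((Rep.shortExact_res H.subtype).2 hS) n (h₂ H n) (h₁ H (n + 1))

theorem isCohTriv_X₁ (h₂ : IsCohTriv S.X₂) (h₃ : IsCohTriv S.X₃) : IsCohTriv S.X₁ := by
  intro H _ n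
  have := isZero_tate_X₁ ((Rep.shortExact_res H.subtype).2 hS) (n - 1) (h₃ H (n - 1))
    (by rw [sub_add_cancel]; exact h₂ H n)
  rwa [sub_add_cancel] at this

end TwoOfThreeCT

/-! ## Dimension shifting to degree `1` -/

/-- Dimension shifting: for every `n : ℤ` there is `A'` such that `Ĥⁿ(H, A) ≅ Ĥ¹(H, A')` for all
subgroups `H` simultaneously. -/
theorem exists_shift_one [Finite G] (n : ℤ) (A : Rep.{0} k G) :
    ∃ A' : Rep.{0} k G, ∀ (H : Subgroup G) [Fintype H],
      Nonempty (tateCohomology (res H.subtype A) n ≅ tateCohomology (res H.subtype A') 1) := by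
  letI : Fintype G := Fintype.ofFinite G
  revert A
  induction n using Int.inductionOn' (b := 1) with
  | zero => exact fun A => ⟨A, fun H _ => ⟨Iso.refl _⟩⟩
  | succ k _ ih =>
    intro A
    obtain ⟨A', hA'⟩ := ih (up A)
    refine ⟨A', fun H _ => ?_⟩
    obtain ⟨e⟩ := hA' H
    exact ⟨(tateUpIso H A k).symm ≪≫ e⟩
  | pred k _ ih =>
    intro A
    obtain ⟨A', hA'⟩ := ih (down A)
    refine ⟨A', fun H _ => ?_⟩
    obtain ⟨e⟩ := hA' H
    have e1 := tateDownIso H A (k - 1)
    rw [sub_add_cancel] at e1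
    exact ⟨e1 ≪≫ e⟩

/-! ## Concrete description of `H¹ = 0` -/

/-- Every `1`-cocycle is a coboundary (concrete form of `H¹(K, B) = 0`). -/
def H1Triv {K : Type} [Group K] (B : Rep.{0} k K) : Prop :=
  ∀ c : K → B.V, (∀ g h : K, c (g * h) = B.ρ g (c h) + c g) →
    ∃ y : B.V, ∀ g : K, c g = B.ρ g y - y

theorem isZero_H1_iff {K : Type} [Group K] (B : Rep.{0} k K) :
    IsZero (groupCohomology B 1) ↔ H1Triv B := by
  constructor
  · intro h c hc
    have hmem : c ∈ cocycles₁ B := (mem_cocycles₁_iff c).2 hc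
    have h0 : H1π B ⟨c, hmem⟩ = 0 := (ModuleCat.isZero_iff_subsingleton.1 h).elim _ _
    rw [H1π_eq_zero_iff] at h0
    obtain ⟨y, hy⟩ := h0
    refine ⟨y, fun g => ?_⟩
    have := congrFun hy g
    simpa [d₀₁_hom_apply] using this.symm
  · intro h
    rw [ModuleCat.isZero_iff_subsingleton]
    refine ⟨fun x y => ?_⟩
    suffices ∀ z : H1 B, z = 0 by rw [this x, this y]
    intro z
    induction z using H1_induction_on with
    | h c =>
      rw [H1π_eq_zero_iff]
      obtain ⟨y, hy⟩ := h c (fun g h => (mem_cocycles₁_iff (c : K → B.V)).1 c.2 g h)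
      refine ⟨y, funext fun g => ?_⟩
      rw [d₀₁_hom_apply]
      exact (hy g).symm

theorem isZero_tate_one_iff {K : Type} [Group K] [Fintype K] (B : Rep.{0} k K) :
    IsZero (tateCohomology B 1) ↔ H1Triv B := by
  rw [← isZero_H1_iff]
  exact ⟨fun h => IsZero.of_iso h ((TateCohomology.isoGroupCohomology 1).app B).symm,
    fun h => IsZero.of_iso h ((TateCohomology.isoGroupCohomology 1).app B)⟩

/-! ## `|H|` kills Tate cohomology -/

theorem card_nsmul_tate_one_eq_zero {K : Type} [Group K] [Fintype K] (B : Rep.{0} k K)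
    (x : tateCohomology B 1) : Nat.card K • x = 0 := by
  let e := (TateCohomology.isoGroupCohomology 1).app B
  have h1 : e.hom.hom (Nat.card K • x) = 0 := by
    rw [map_nsmul]
    exact Fermat.Agent.S55.H119.card_nsmul_eq_zero_one B _
  have h2 : e.inv.hom (e.hom.hom (Nat.card K • x)) = Nat.card K • x := by
    simp
  rw [← h2, h1, map_zero]

theorem card_nsmul_tate_eq_zero [Finite G] (A : Rep.{0} k G) (H : Subgroup G) [Fintype H]
    (n : ℤ) (x : tateCohomology (res H.subtype A) n) : Nat.card H • x = 0 := by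
  obtain ⟨A', hA'⟩ := exists_shift_one n A
  obtain ⟨e⟩ := hA' H
  have h1 : e.hom.hom (Nat.card H • x) = 0 := by
    rw [map_nsmul]
    exact card_nsmul_tate_one_eq_zero _ _
  have h2 : e.inv.hom (e.hom.hom (Nat.card H • x)) = Nat.card H • x := by
    simp
  rw [← h2, h1, map_zero]

end

end Fermat.Agent.S55.T.H719

end
-- ===== PACK-END S55/T/NakBasicH719.lean

-- ===== PACK-BEGIN S55/G/TraceZero.lean
section
/-
S55, layer G, block G-U (helper595): assembly A1, `TraceZeroSpec` from `PermSpec`.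

`0 → Λ₀ → ℤ^X → ℤ → 0` with `G` acting trivially on `ℤ`, whose Herbrand indices are `(n, 1)`.
-/





set_option autoImplicit false

namespace Fermat.Agent.S55.G

open Fermat.Agent.S55.Herbrand

universe u v

lemma hIndex_zero_nsmul_id (n : ℕ) :
    hIndex (0 : ℤ →+ ℤ) (n • AddMonoidHom.id ℤ) = n := by
  unfold hIndex
  have h1 : (0 : ℤ →+ ℤ).ker = ⊤ := by
    ext x
    simp
  have h2 : (n • AddMonoidHom.id ℤ).range = AddSubgroup.zmultiples (n : ℤ) := by
    ext x
    simp only [AddMonoidHom.mem_range, AddMonoidHom.smul_apply, AddMonoidHom.id_apply,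
      AddSubgroup.mem_zmultiples_iff]
    constructor
    · rintro ⟨y, rfl⟩
      exact ⟨y, by simp [mul_comm]⟩
    · rintro ⟨y, rfl⟩
      exact ⟨y, by simp [mul_comm]⟩
  rw [h1, h2, AddSubgroup.relIndex_top_right, Int.index_zmultiples]
  simp

lemma hIndex_nsmul_id_zero (n : ℕ) (hn : n ≠ 0) :
    hIndex (n • AddMonoidHom.id ℤ) (0 : ℤ →+ ℤ) = 1 := by
  unfold hIndex
  have h1 : (n • AddMonoidHom.id ℤ).ker = ⊥ := by
    ext x
    simp only [AddMonoidHom.mem_ker, AddMonoidHom.smul_apply, AddMonoidHom.id_apply,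
      AddSubgroup.mem_bot]
    constructor
    · intro h
      rcases smul_eq_zero.1 h with h | h
      · exact absurd h hn
      · exact h
    · rintro rfl
      simp
  have h2 : (0 : ℤ →+ ℤ).range = ⊥ := by
    ext x
    simp only [AddMonoidHom.mem_range, AddMonoidHom.zero_apply, AddSubgroup.mem_bot]
    constructor
    · rintro ⟨_, rfl⟩
      rfl
    · rintro rfl
      exact ⟨0, rfl⟩
  rw [h1, h2, AddSubgroup.relIndex_self]

/-- **Assembly A1.** -/
theorem traceZeroSpec_of (h : PermSpec.{u, v}) : TraceZeroSpec.{u, v} := by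
  intro G _ _ X _ _ _ σ hσ
  obtain ⟨h1, h2⟩ := h G X σ hσ
  have hn : Fintype.card G ≠ 0 := Fintype.card_ne_zero
  obtain ⟨Ef, Eg, w, y, w', y', e1, e2, e3, e4, e5, e6⟩ :=
    hIndexSub_six (permAug G X σ) (permNorm G X) (0 : ℤ →+ ℤ)
      (Fintype.card G • AddMonoidHom.id ℤ) (sumHom X)
      (fun b => by rw [sumHom_permAug]; rfl)
      (fun b => by rw [sumHom_permNorm]; rfl)
      ⊤ (fun _ _ => AddSubgroup.mem_top _) (fun _ _ => AddSubgroup.mem_top _)
      (fun b _ => permAug_permNorm G X σ b) (fun b _ => permNorm_permAug G X σ b)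
  have htop : (⊤ : AddSubgroup (X → ℤ)).map (sumHom X) = ⊤ :=
    AddSubgroup.map_top_of_surjective _ (sumHom_surjective X)
  have hker : (sumHom X).ker ⊓ ⊤ = traceZero X := inf_top_eq _
  rw [hker] at e1 e4
  rw [hIndexSub_top, h1] at e2
  rw [hIndexSub_top, h2] at e5
  rw [htop, hIndexSub_top, hIndex_zero_nsmul_id] at e3
  rw [htop, hIndexSub_top, hIndex_nsmul_id_zero _ hn] at e6
  have hw' : w' = 1 := Nat.eq_one_of_mul_eq_one_right e5.symm
  have hEg : Eg = 1 := Nat.eq_one_of_mul_eq_one_right e6.symm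
  have hP : stabProd G X ≠ 0 := stabProd_ne_zero G X
  rw [e1, e4, hw', hEg, one_mul, mul_one]
  refine ⟨?_, ?_, ?_⟩
  · rw [e2] at hP
    exact left_ne_zero_of_mul hP
  · rw [e3] at hn
    exact left_ne_zero_of_mul hn
  · rw [e2, e3]
    ring

end Fermat.Agent.S55.G

end
-- ===== PACK-END S55/G/TraceZero.lean

-- ===== PACK-BEGIN S55/G/PL1H597/Base.lean
section
/-
S55 (Poitou–Tate), layer G, leaf G-PL1 (`PlacePrimeSpec`) — helper597.
Part 1: local structure of `L_𝔪 = (L ⊗ ℚ_S) ⧸ 𝔪`: the unique `q ∈ S` below `𝔪`, the embedding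
`ℚ_q → L_𝔪`, finite-dimensionality, the ring of integers `intA 𝔪` and its characterisation by
integrality over `ℤ_S = ∏_{q ∈ S} ℤ_q`.
-/





set_option autoImplicit false
set_option linter.unusedSectionVars false
set_option linter.style.haveILetI false
set_option linter.unusedSimpArgs false
set_option backward.isDefEq.respectTransparency false

open scoped NumberField TensorProduct
open IsDedekindDomain Polynomial

noncomputable section

namespace Fermat.Agent.S55.G.PL1H597

open Fermat.Agent.S55.G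

variable (S : Finset Nat.Primes) {L : Type} [Field L] [CharZero L]

/-- The idempotent of `ℚ_S` cutting out the factor `ℚ_q`. -/
def idem (q : S) : QS S := (QS.toPi S).symm (Pi.single q 1)

/-- The inclusion of the factor `ℚ_q` into `ℚ_S` (additive and multiplicative, not unital). -/
def inclQ (q : S) (a : Qq q.1) : QS S := (QS.toPi S).symm (Pi.single q a)

lemma inclQ_apply_same (q : S) (a : Qq q.1) : QS.toPi S (inclQ S q a) q = a := by
  simp [inclQ]

lemma inclQ_apply_ne (q q' : S) (h : q' ≠ q) (a : Qq q.1) : QS.toPi S (inclQ S q a) q' = 0 := by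
  simp [inclQ, Pi.single_eq_of_ne h]

lemma inclQ_one (q : S) : inclQ S q 1 = idem S q := rfl

lemma inclQ_zero (q : S) : inclQ S q 0 = 0 := by
  simp [inclQ]

lemma inclQ_add (q : S) (a b : Qq q.1) : inclQ S q (a + b) = inclQ S q a + inclQ S q b := by
  simp [inclQ, Pi.single_add]

lemma inclQ_mul (q : S) (a b : Qq q.1) : inclQ S q (a * b) = inclQ S q a * inclQ S q b := by
  apply (QS.toPi S).injective
  funext q'
  by_cases h : q' = q
  · subst h
    simp [inclQ]
  · simp [inclQ, Pi.single_eq_of_ne h]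

lemma mul_idem (q : S) (z : QS S) : z * idem S q = inclQ S q (QS.toPi S z q) := by
  apply (QS.toPi S).injective
  funext q'
  by_cases h : q' = q
  · subst h
    simp [inclQ, idem]
  · simp [inclQ, idem, Pi.single_eq_of_ne h]

lemma sum_idem : ∑ q : S, idem S q = 1 := by
  apply (QS.toPi S).injective
  funext q'
  simp [idem, Finset.sum_apply]

/-! ### The rational prime below a place -/

variable {S}

/-- The place `𝔪` lies over `q ∈ S`: the idempotent of `q` is not in `𝔪`. -/
def Over (𝔪 : SPlace S L) (q : S) : Prop := LocField.ofQS S 𝔪 (idem S q) = 1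

lemma ofQS_idem_eq_zero_or_one (𝔪 : SPlace S L) (q : S) :
    LocField.ofQS S 𝔪 (idem S q) = 0 ∨ LocField.ofQS S 𝔪 (idem S q) = 1 := by
  have h : idem S q * idem S q = idem S q := by
    rw [mul_idem]
    simp [idem, inclQ]
  have h2 := congrArg (LocField.ofQS S 𝔪) h
  rw [map_mul] at h2
  rcases eq_or_ne (LocField.ofQS S 𝔪 (idem S q)) 0 with h0 | h0
  · exact Or.inl h0
  · right
    exact mul_left_cancel₀ h0 (by rw [h2, mul_one])

lemma exists_over (𝔪 : SPlace S L) : ∃ q : S, Over 𝔪 q := by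
  by_contra hcon
  push Not at hcon
  have h0 : ∀ q : S, LocField.ofQS S 𝔪 (idem S q) = 0 := fun q =>
    (ofQS_idem_eq_zero_or_one 𝔪 q).resolve_right (hcon q)
  have h1 := congrArg (LocField.ofQS S 𝔪) (sum_idem S)
  rw [map_sum, map_one, Finset.sum_eq_zero (fun q _ => h0 q)] at h1
  exact zero_ne_one h1

lemma over_unique {𝔪 : SPlace S L} {q q' : S} (h : Over 𝔪 q) (h' : Over 𝔪 q') : q = q' := by
  by_contra hne
  have h0 : idem S q * idem S q' = 0 := by
    rw [mul_idem]
    simp [idem, inclQ, Pi.single_eq_of_ne (Ne.symm hne)]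
  have h2 := congrArg (LocField.ofQS S 𝔪) h0
  rw [map_mul, h, h', map_zero, mul_one] at h2
  exact one_ne_zero h2

lemma ofQS_eq_of_over {𝔪 : SPlace S L} {q : S} (h : Over 𝔪 q) (z : QS S) :
    LocField.ofQS S 𝔪 z = LocField.ofQS S 𝔪 (inclQ S q (QS.toPi S z q)) := by
  rw [← mul_idem, map_mul, h, mul_one]

/-- The rational prime `q ∈ S` below the place `𝔪`. -/
def qAt (𝔪 : SPlace S L) : S := (exists_over 𝔪).choose

lemma over_qAt (𝔪 : SPlace S L) : Over 𝔪 (qAt 𝔪) := (exists_over 𝔪).choose_spec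

lemma eq_qAt {𝔪 : SPlace S L} {q : S} (h : Over 𝔪 q) : q = qAt 𝔪 := over_unique h (over_qAt 𝔪)

/-- The embedding `ℚ_q → L_𝔪` for a prime `q` below `𝔪`. -/
def ofQq (𝔪 : SPlace S L) (q : S) (h : Over 𝔪 q) : Qq q.1 →+* LocField S 𝔪 where
  toFun a := LocField.ofQS S 𝔪 (inclQ S q a)
  map_one' := by rw [inclQ_one]; exact h
  map_mul' a b := by rw [inclQ_mul, map_mul]
  map_zero' := by rw [inclQ_zero, map_zero]
  map_add' a b := by rw [inclQ_add, map_add]

lemma ofQq_apply (𝔪 : SPlace S L) (q : S) (h : Over 𝔪 q) (a : Qq q.1) :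
    ofQq 𝔪 q h a = LocField.ofQS S 𝔪 (inclQ S q a) := rfl

lemma ofQS_eq_ofQq {𝔪 : SPlace S L} {q : S} (h : Over 𝔪 q) (z : QS S) :
    LocField.ofQS S 𝔪 z = ofQq 𝔪 q h (QS.toPi S z q) :=
  ofQS_eq_of_over h z

lemma mk_tmul (𝔪 : SPlace S L) (x : L) (z : QS S) :
    LocField.mk S 𝔪 (x ⊗ₜ[ℚ] z) = toLoc S 𝔪 x * LocField.ofQS S 𝔪 z := by
  have : (x ⊗ₜ[ℚ] z : AS S L) = asDiag S L x * asIncl S L z := by
    simp [asIncl]
  rw [this, map_mul]
  rfl

instance instCharZeroLocField (𝔪 : SPlace S L) : CharZero (LocField S 𝔪) :=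
  charZero_of_injective_ringHom (toLoc S 𝔪).injective

/-! ### `L_𝔪` is a finite extension of `ℚ_q` -/

/-- The `ℚ_q`-algebra structure of `L_𝔪` (a definition, not an instance). -/
@[reducible] def algQq (𝔪 : SPlace S L) (q : S) (h : Over 𝔪 q) : Algebra (Qq q.1) (LocField S 𝔪) :=
  (ofQq 𝔪 q h).toAlgebra

/-- `toLoc` as a `ℚ`-algebra homomorphism. -/
def toLocAlg (𝔪 : SPlace S L) : L →ₐ[ℚ] LocField S 𝔪 :=
  { toLoc S 𝔪 with commutes' := fun r => map_ratCast (toLoc S 𝔪) r }

@[simp] lemma toLocAlg_apply (𝔪 : SPlace S L) (x : L) : toLocAlg 𝔪 x = toLoc S 𝔪 x := rfl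

lemma finiteDimensional_locField [FiniteDimensional ℚ L] (𝔪 : SPlace S L) (q : S) (h : Over 𝔪 q) :
    letI := algQq 𝔪 q h
    FiniteDimensional (Qq q.1) (LocField S 𝔪) := by
  letI := algQq 𝔪 q h
  let Ψ : Qq q.1 ⊗[ℚ] L →ₐ[Qq q.1] LocField S 𝔪 :=
    Algebra.TensorProduct.lift (Algebra.ofId (Qq q.1) (LocField S 𝔪)) (toLocAlg 𝔪)
      (fun _ _ => Commute.all _ _)
  have hΨ : ∀ (a : Qq q.1) (x : L), Ψ (a ⊗ₜ[ℚ] x) = ofQq 𝔪 q h a * toLoc S 𝔪 x := by
    intro a x
    simp only [Ψ, Algebra.TensorProduct.lift_tmul]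
    rfl
  have hsurj : Function.Surjective Ψ := by
    intro y
    obtain ⟨z, rfl⟩ := LocField.mk_surjective S 𝔪 y
    induction z using TensorProduct.induction_on with
    | zero => exact ⟨0, by simp⟩
    | tmul x a =>
      refine ⟨(QS.toPi S a q) ⊗ₜ[ℚ] x, ?_⟩
      rw [hΨ, mk_tmul, ofQS_eq_ofQq h, mul_comm]
    | add z₁ z₂ h₁ h₂ =>
      obtain ⟨w₁, hw₁⟩ := h₁
      obtain ⟨w₂, hw₂⟩ := h₂
      exact ⟨w₁ + w₂, by rw [map_add, map_add, hw₁, hw₂]⟩
  exact Module.Finite.of_surjective Ψ.toLinearMap hsurj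

/-! ### The ring of integers of `L_𝔪` -/

/-- `ℤ_q` as a valuation subring of `ℚ_q`. -/
def Zq (q : Nat.Primes) : ValuationSubring (Qq q) := S55.L.unitBall63 (Qq q)

lemma mem_Zq (q : Nat.Primes) (a : Qq q) : a ∈ Zq q ↔ ‖a‖ ≤ 1 := S55.L.mem_unitBall63 (Qq q) a

lemma isLocalRingOfIntegers_Zq (q : Nat.Primes) : S55.L.IsLocalRingOfIntegers (Zq q) :=
  S55.L.isLocalRingOfIntegers_unitBall63 (Qq q)

/-- The structure map `ℤ_q → L_𝔪`. -/
def zqHom (𝔪 : SPlace S L) (q : S) (h : Over 𝔪 q) : Zq q.1 →+* LocField S 𝔪 :=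
  (ofQq 𝔪 q h).comp (Zq q.1).subtype

lemma exists_intA [FiniteDimensional ℚ L] (𝔪 : SPlace S L) (q : S) (h : Over 𝔪 q) :
    ∃ B : ValuationSubring (LocField S 𝔪), S55.L.IsLocalRingOfIntegers B ∧
      (∀ y : LocField S 𝔪, y ∈ B ↔ (zqHom 𝔪 q h).IsIntegralElem y) ∧
      (∀ a : Qq q.1, ofQq 𝔪 q h a ∈ B ↔ a ∈ Zq q.1) := by
  letI := algQq 𝔪 q h
  haveI := finiteDimensional_locField 𝔪 q h
  letI : Algebra (Zq q.1) (LocField S 𝔪) := (zqHom 𝔪 q h).toAlgebra
  haveI : IsScalarTower (Zq q.1) (Qq q.1) (LocField S 𝔪) :=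
    IsScalarTower.of_algebraMap_eq (fun _ => rfl)
  obtain ⟨B, hB, h1, h2⟩ := S55.L.exists_ringOfIntegers_eq_integralClosure286
    (K := Qq q.1) (L := LocField S 𝔪) (Zq q.1) (isLocalRingOfIntegers_Zq q.1)
  exact ⟨B, hB, h1, h2⟩

variable [FiniteDimensional ℚ L]

/-- The ring of integers of `L_𝔪`. -/
def intA (𝔪 : SPlace S L) : ValuationSubring (LocField S 𝔪) :=
  (exists_intA 𝔪 (qAt 𝔪) (over_qAt 𝔪)).choose

lemma intA_spec (𝔪 : SPlace S L) : S55.L.IsLocalRingOfIntegers (intA 𝔪) :=
  (exists_intA 𝔪 (qAt 𝔪) (over_qAt 𝔪)).choose_spec.1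

lemma mem_intA_iff_zq (𝔪 : SPlace S L) (q : S) (h : Over 𝔪 q) (y : LocField S 𝔪) :
    y ∈ intA 𝔪 ↔ (zqHom 𝔪 q h).IsIntegralElem y := by
  obtain rfl := eq_qAt h
  exact (exists_intA 𝔪 (qAt 𝔪) (over_qAt 𝔪)).choose_spec.2.1 y

lemma ofQq_mem_intA_iff (𝔪 : SPlace S L) (q : S) (h : Over 𝔪 q) (a : Qq q.1) :
    ofQq 𝔪 q h a ∈ intA 𝔪 ↔ ‖a‖ ≤ 1 := by
  obtain rfl := eq_qAt h
  rw [← mem_Zq]
  exact (exists_intA 𝔪 (qAt 𝔪) (over_qAt 𝔪)).choose_spec.2.2 a

instance instIsLocalFldLocField (𝔪 : SPlace S L) : S55.L.IsLocalFld (LocField S 𝔪) :=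
  ⟨inferInstance, intA 𝔪, intA_spec 𝔪⟩

/-- Every ring of integers of `L_𝔪` is `intA 𝔪`. -/
lemma eq_intA (𝔪 : SPlace S L) (A : ValuationSubring (LocField S 𝔪))
    (hA : S55.L.IsLocalRingOfIntegers A) : A = intA 𝔪 :=
  S55.L.ringOfIntegersUnique775 (LocField S 𝔪) A (intA 𝔪) hA (intA_spec 𝔪)

/-! ### Integrality over `ℤ_S` -/

variable (S) in
/-- `ℤ_S = ∏_{q ∈ S} ℤ_q` as a subring of `ℚ_S`. -/
def ZS : Subring (QS S) where
  carrier := {z | ∀ q : S, QS.toPi S z q ∈ Zq q.1}
  mul_mem' {a b} ha hb q := by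
    rw [map_mul]
    exact (Zq q.1).mul_mem _ _ (ha q) (hb q)
  one_mem' q := by
    rw [map_one]
    exact (Zq q.1).one_mem
  add_mem' {a b} ha hb q := by
    rw [map_add]
    exact (Zq q.1).add_mem _ _ (ha q) (hb q)
  zero_mem' q := by
    rw [map_zero]
    exact (Zq q.1).zero_mem
  neg_mem' {a} ha q := by
    rw [map_neg]
    exact (Zq q.1).neg_mem _ (ha q)

lemma mem_ZS (z : QS S) : z ∈ ZS S ↔ ∀ q : S, ‖QS.toPi S z q‖ ≤ 1 := by
  simp only [← mem_Zq]
  rfl

/-- The projection `ℤ_S → ℤ_q`. -/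
def zsProj (q : S) : ZS S →+* Zq q.1 where
  toFun z := ⟨QS.toPi S z.1 q, z.2 q⟩
  map_one' := rfl
  map_mul' _ _ := rfl
  map_zero' := rfl
  map_add' _ _ := rfl

lemma inclQ_mem_ZS (q : S) (a : Zq q.1) : inclQ S q a.1 ∈ ZS S := by
  intro q'
  by_cases h : q' = q
  · subst h
    rw [inclQ_apply_same]
    exact a.2
  · rw [inclQ_apply_ne S q q' h]
    exact (Zq q'.1).zero_mem

lemma zsProj_surjective (q : S) : Function.Surjective (zsProj (S := S) q) := by
  intro a
  refine ⟨⟨inclQ S q a.1, inclQ_mem_ZS q a⟩, ?_⟩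
  apply Subtype.ext
  exact inclQ_apply_same S q a.1

/-- The structure map `ℤ_S → L_𝔪`. -/
def zsHom (𝔪 : SPlace S L) : ZS S →+* LocField S 𝔪 :=
  (LocField.ofQS S 𝔪).comp (ZS S).subtype

lemma zsHom_eq (𝔪 : SPlace S L) (q : S) (h : Over 𝔪 q) :
    zsHom 𝔪 = (zqHom 𝔪 q h).comp (zsProj q) := by
  ext z
  exact ofQS_eq_ofQq h z.1

lemma mem_intA_iff (𝔪 : SPlace S L) (y : LocField S 𝔪) :
    y ∈ intA 𝔪 ↔ (zsHom 𝔪).IsIntegralElem y := by
  rw [mem_intA_iff_zq 𝔪 (qAt 𝔪) (over_qAt 𝔪), zsHom_eq 𝔪 (qAt 𝔪) (over_qAt 𝔪)]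
  constructor
  · rintro ⟨f, hf, hf0⟩
    have hlift : f ∈ Polynomial.lifts (zsProj (S := S) (qAt 𝔪)) := by
      rw [Polynomial.mem_lifts]
      exact Polynomial.map_surjective _ (zsProj_surjective (qAt 𝔪)) f
    obtain ⟨F, hF, -, hFm⟩ := Polynomial.lifts_and_natDegree_eq_and_monic hlift hf
    refine ⟨F, hFm, ?_⟩
    rw [← Polynomial.eval₂_map, hF]
    exact hf0
  · rintro ⟨F, hF, hF0⟩
    refine ⟨F.map (zsProj (qAt 𝔪)), hF.map _, ?_⟩
    rw [Polynomial.eval₂_map]
    exact hF0

variable (S L) in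
/-- The structure map `ℤ_S → L ⊗ ℚ_S`. -/
def zsIncl : ZS S →+* AS S L :=
  ((asIncl S L : QS S →ₐ[ℚ] AS S L) : QS S →+* AS S L).comp (ZS S).subtype

lemma mk_comp_zsIncl (𝔪 : SPlace S L) : (LocField.mk S 𝔪).comp (zsIncl S L) = zsHom 𝔪 := rfl

/-- `z ∈ L ⊗ ℚ_S` is integral over `ℤ_S` modulo `𝔪`. -/
def IntAS (𝔪 : SPlace S L) (z : AS S L) : Prop :=
  ∃ P : (ZS S)[X], P.Monic ∧ Polynomial.eval₂ (zsIncl S L) z P ∈ 𝔪.asIdeal

lemma mk_mem_intA_iff (𝔪 : SPlace S L) (z : AS S L) :
    LocField.mk S 𝔪 z ∈ intA 𝔪 ↔ IntAS 𝔪 z := by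
  rw [mem_intA_iff]
  unfold IntAS RingHom.IsIntegralElem
  simp only [← LocField.mk_eq_zero_iff, Polynomial.hom_eval₂, mk_comp_zsIncl]

/-! ### Basic elements of `intA 𝔪` -/

lemma ofQS_mem_intA (𝔪 : SPlace S L) (z : QS S) (hz : z ∈ ZS S) :
    LocField.ofQS S 𝔪 z ∈ intA 𝔪 := by
  rw [ofQS_eq_ofQq (over_qAt 𝔪), ofQq_mem_intA_iff, ← mem_Zq]
  exact hz (qAt 𝔪)

lemma toLoc_mem_intA_of_isIntegral (𝔪 : SPlace S L) (x : L) (hx : IsIntegral ℤ x) :
    toLoc S 𝔪 x ∈ intA 𝔪 := by
  rw [mem_intA_iff]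
  obtain ⟨p, hp, hp0⟩ := hx
  refine ⟨p.map (Int.castRingHom (ZS S)), hp.map _, ?_⟩
  rw [Polynomial.eval₂_map]
  have h1 : (zsHom 𝔪).comp (Int.castRingHom (ZS S)) = (toLoc S 𝔪).comp (algebraMap ℤ L) :=
    RingHom.ext_int _ _
  rw [h1, ← Polynomial.hom_eval₂, hp0, map_zero]

/-- Membership in the set of non-units of a valuation subring in terms of the inverse. -/
lemma mem_nonunits_iff_inv {K : Type*} [Field K] (A : ValuationSubring K) (x : K) :
    x ∈ A.nonunits ↔ x = 0 ∨ x⁻¹ ∉ A := by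
  rw [ValuationSubring.mem_nonunits_iff]
  rcases eq_or_ne x 0 with rfl | hx
  · simp
  · rw [← A.valuation_le_one_iff, not_le, Valuation.one_lt_val_iff _ (inv_ne_zero hx), inv_inv]
    simp [hx]

lemma natCast_mem_nonunits (𝔪 : SPlace S L) (q : S) (h : Over 𝔪 q) :
    (((q.1 : ℕ) : ℕ) : LocField S 𝔪) ∈ (intA 𝔪).nonunits := by
  haveI : Fact (q.1 : ℕ).Prime := ⟨q.1.2⟩
  have hq0 : (((q.1 : ℕ) : ℕ) : Qq q.1) ≠ 0 := by
    exact_mod_cast q.1.2.ne_zero
  have h1 : (((q.1 : ℕ) : ℕ) : LocField S 𝔪) = ofQq 𝔪 q h (((q.1 : ℕ) : ℕ) : Qq q.1) :=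
    (map_natCast (ofQq 𝔪 q h) _).symm
  rw [mem_nonunits_iff_inv, h1, ← map_inv₀, ofQq_mem_intA_iff, norm_inv]
  right
  rw [not_le]
  have h2 : ‖(((q.1 : ℕ) : ℕ) : Qq q.1)‖ = ((q.1 : ℕ) : ℝ)⁻¹ := Padic.norm_p
  rw [h2, inv_inv]
  exact_mod_cast q.1.2.one_lt

end Fermat.Agent.S55.G.PL1H597

end
end
-- ===== PACK-END S55/G/PL1H597/Base.lean

-- ===== PACK-BEGIN S14/H74/Lattice.lean
section


/-!
# S14/N1 (helper74): lattice sums of `fS` (piece P6)
-/

namespace Fermat.Agent.S14.H74

open NumberField NumberField.mixedEmbedding NumberField.Units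
  NumberField.Units.dirichletUnitTheorem NumberField.InfinitePlace Module

open scoped Classical

variable (K : Type*) [Field K] [NumberField K]

/-- The summand on the ring of integers. -/
noncomputable def FS (s : ℝ) (x : 𝓞 K) : ℝ := fS K s (mixedEmbedding K (x : K))

/-- The norm of the image in the mixed space. -/
noncomputable def mnorm (x : 𝓞 K) : ℝ := ‖mixedEmbedding K (x : K)‖

variable {K}

theorem mnorm_nonneg (x : 𝓞 K) : 0 ≤ mnorm K x := norm_nonneg _

theorem mnorm_eq_zero_iff {x : 𝓞 K} : mnorm K x = 0 ↔ x = 0 := by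
  unfold mnorm
  rw [norm_eq_zero, map_eq_zero, RingOfIntegers.coe_eq_zero_iff]

theorem mnorm_add_le (x y : 𝓞 K) : mnorm K (x + y) ≤ mnorm K x + mnorm K y := by
  unfold mnorm
  have : mixedEmbedding K ((x + y : 𝓞 K) : K) =
      mixedEmbedding K (x : K) + mixedEmbedding K (y : K) := by
    rw [← map_add]
    rfl
  rw [this]
  exact norm_add_le _ _

theorem mixedEmbedding_norm_coe (x : 𝓞 K) :
    mixedEmbedding.norm (mixedEmbedding K (x : K)) = |(Algebra.norm ℤ x : ℝ)| := by
  rw [mixedEmbedding.norm_eq_norm, ← Algebra.coe_norm_int]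
  simp

theorem one_le_mixedEmbedding_norm {x : 𝓞 K} (hx : x ≠ 0) :
    1 ≤ mixedEmbedding.norm (mixedEmbedding K (x : K)) := by
  rw [mixedEmbedding_norm_coe]
  have h : Algebra.norm ℤ x ≠ 0 := by
    rwa [Ne, Algebra.norm_eq_zero_iff]
  have : (1 : ℤ) ≤ |Algebra.norm ℤ x| := Int.one_le_abs h
  exact_mod_cast this

theorem FS_zero (s : ℝ) : FS K s 0 = 0 := by
  simp [FS, fS, rho]

theorem FS_nonneg (s : ℝ) (x : 𝓞 K) : 0 ≤ FS K s x :=
  mul_nonneg (rho_nonneg _) (Real.rpow_nonneg (mixedEmbedding.norm_nonneg _) _)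

theorem FS_le_one {s : ℝ} (hs : 0 ≤ s) (x : 𝓞 K) : FS K s x ≤ 1 := by
  by_cases hx : x = 0
  · rw [hx, FS_zero]
    exact zero_le_one
  · have h1 := one_le_mixedEmbedding_norm hx
    have h2 : (mixedEmbedding.norm (mixedEmbedding K (x : K))) ^ (-s) ≤ 1 :=
      Real.rpow_le_one_of_one_le_of_nonpos h1 (by linarith)
    calc FS K s x = rho K _ * _ := rfl
      _ ≤ 1 * 1 := mul_le_mul (rho_le_one _) h2 (Real.rpow_nonneg (by linarith) _) zero_le_one
      _ = 1 := one_mul 1

theorem abs_FS_le_one {s : ℝ} (hs : 0 ≤ s) (x : 𝓞 K) : |FS K s x| ≤ 1 := by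
  rw [abs_of_nonneg (FS_nonneg s x)]
  exact FS_le_one hs x

variable (K) in
/-- The ring of integers as the integer lattice. -/
noncomputable def toLattice : 𝓞 K ≃ mixedEmbedding.integerLattice K :=
  Equiv.ofBijective (fun x ↦ ⟨mixedEmbedding K (x : K), ⟨x, rfl⟩⟩) (by
    constructor
    · intro x y h
      have h1 : mixedEmbedding K (x : K) = mixedEmbedding K (y : K) := congrArg Subtype.val h
      exact RingOfIntegers.ext ((mixedEmbedding_injective K) h1)
    · rintro ⟨_, ⟨x, rfl⟩⟩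
      exact ⟨x, rfl⟩)

theorem summable_mnorm_rpow {r : ℝ} (hr : r < -(finrank ℚ K : ℝ)) :
    Summable fun x : 𝓞 K ↦ mnorm K x ^ r := by
  have h1 : finrank ℤ (mixedEmbedding.integerLattice K) = finrank ℚ K := by
    rw [ZLattice.rank ℝ, mixedEmbedding.finrank]
  have h2 := ZLattice.summable_norm_rpow (mixedEmbedding.integerLattice K) r (by rwa [h1])
  exact ((toLattice K).summable_iff (f := fun z : mixedEmbedding.integerLattice K ↦ ‖z‖ ^ r)).mpr h2

theorem exists_FS_le_mnorm_rpow : ∃ A : ℝ, 1 ≤ A ∧ ∀ s : ℝ, 0 ≤ s → ∀ x : 𝓞 K,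
    FS K s x ≤ A ^ ((finrank ℚ K : ℝ) * s) * mnorm K x ^ (-((finrank ℚ K : ℝ) * s)) := by
  obtain ⟨A, hA1, hA⟩ := exists_support_bound (K := K)
  have hA0 : 0 < A := by linarith
  refine ⟨A, hA1, fun s hs x ↦ ?_⟩
  by_cases hρ : rho K (mixedEmbedding K (x : K)) = 0
  · have : FS K s x = 0 := fS_eq_zero_of_rho_eq_zero hρ
    rw [this]
    exact mul_nonneg (Real.rpow_nonneg hA0.le _) (Real.rpow_nonneg (mnorm_nonneg x) _)
  · have hN := norm_ne_zero_of_rho_ne_zero hρ
    have hx : x ≠ 0 := by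
      rintro rfl
      simp at hN
    have hm : 0 < mnorm K x := lt_of_le_of_ne (mnorm_nonneg x) (Ne.symm (by
      rwa [Ne, mnorm_eq_zero_iff]))
    have h1 := pow_le_norm_of_support hA1 (hA _ hρ)
    have h2 : 0 < (mnorm K x / A) ^ (finrank ℚ K) := by positivity
    have h3 : (mixedEmbedding.norm (mixedEmbedding K (x : K))) ^ (-s) ≤
        ((mnorm K x / A) ^ (finrank ℚ K)) ^ (-s) :=
      Real.rpow_le_rpow_of_nonpos h2 h1 (by linarith)
    have h4 : ((mnorm K x / A) ^ (finrank ℚ K)) ^ (-s) =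
        A ^ ((finrank ℚ K : ℝ) * s) * mnorm K x ^ (-((finrank ℚ K : ℝ) * s)) := by
      rw [← Real.rpow_natCast, ← Real.rpow_mul (by positivity), Real.div_rpow hm.le hA0.le,
        mul_neg, Real.rpow_neg hA0.le, div_eq_mul_inv, inv_inv, mul_comm]
    calc FS K s x = rho K _ * (mixedEmbedding.norm (mixedEmbedding K (x : K))) ^ (-s) := rfl
      _ ≤ 1 * ((mnorm K x / A) ^ (finrank ℚ K)) ^ (-s) :=
          mul_le_mul (rho_le_one _) h3 (Real.rpow_nonneg (mixedEmbedding.norm_nonneg _) _)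
            zero_le_one
      _ = _ := by rw [one_mul, h4]

theorem summable_FS {s : ℝ} (hs : 1 < s) : Summable (FS K s) := by
  obtain ⟨A, -, hA⟩ := exists_FS_le_mnorm_rpow (K := K)
  have hn : (0 : ℝ) < finrank ℚ K := Nat.cast_pos.mpr finrank_pos
  refine Summable.of_nonneg_of_le (FS_nonneg s) (hA s (by linarith)) ?_
  refine Summable.mul_left _ (summable_mnorm_rpow ?_)
  rw [neg_lt_neg_iff]
  nlinarith

/-- Domination of the differences `FS (y + t) - FS y`, uniformly in `s ∈ [1, 2]`. -/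
theorem exists_dominating (t : 𝓞 K) : ∃ g : 𝓞 K → ℝ, Summable g ∧ (∀ y, 0 ≤ g y) ∧
    ∀ s : ℝ, 1 ≤ s → s ≤ 2 → ∀ y : 𝓞 K, |FS K s (y + t) - FS K s y| ≤ g y := by
  obtain ⟨R, C, hR, hC, h⟩ := exists_fS_lipschitz (K := K) (mnorm_nonneg t)
  set n : ℕ := finrank ℚ K with hn
  have hsum : Summable fun y : 𝓞 K ↦ mnorm K y ^ (-((n : ℝ) + 1)) :=
    summable_mnorm_rpow (by rw [neg_lt_neg_iff]; linarith)
  refine ⟨fun y ↦ (C + R ^ (n + 1)) * mnorm K y ^ (-((n : ℝ) + 1)) + if y = 0 then 1 else 0,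
    (hsum.mul_left _).add (hasSum_ite_eq 0 (1 : ℝ)).summable, fun y ↦ ?_,
    fun s hs1 hs2 y ↦ ?_⟩
  · have : 0 ≤ mnorm K y ^ (-((n : ℝ) + 1)) := Real.rpow_nonneg (mnorm_nonneg y) _
    have : (0 : ℝ) ≤ if y = 0 then 1 else 0 := by split_ifs <;> norm_num
    show 0 ≤ (C + R ^ (n + 1)) * mnorm K y ^ (-((n : ℝ) + 1)) + if y = 0 then 1 else 0
    positivity
  · have hs0 : (0 : ℝ) ≤ s := by linarith
    show |FS K s (y + t) - FS K s y| ≤
      (C + R ^ (n + 1)) * mnorm K y ^ (-((n : ℝ) + 1)) + if y = 0 then 1 else 0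
    by_cases hy : y = 0
    · subst hy
      rw [zero_add, FS_zero, sub_zero, if_pos rfl]
      have : 0 ≤ mnorm K (0 : 𝓞 K) ^ (-((n : ℝ) + 1)) := Real.rpow_nonneg (mnorm_nonneg _) _
      have := abs_FS_le_one hs0 t
      have : 0 ≤ (C + R ^ (n + 1)) * mnorm K (0 : 𝓞 K) ^ (-((n : ℝ) + 1)) := by positivity
      linarith
    · rw [if_neg hy, add_zero]
      have hm : 0 < mnorm K y := lt_of_le_of_ne (mnorm_nonneg y) (Ne.symm (by
        rwa [Ne, mnorm_eq_zero_iff]))
      have e : mnorm K y ^ (-((n : ℝ) + 1)) = 1 / mnorm K y ^ (n + 1) := by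
        rw [Real.rpow_neg hm.le, one_div]
        congr 1
        exact_mod_cast Real.rpow_natCast (mnorm K y) (n + 1)
      rw [e, mul_one_div]
      by_cases hyR : R ≤ mnorm K y
      · have h1 := h s hs1 hs2 (mixedEmbedding K (y : K)) (mixedEmbedding K (t : K)) le_rfl hyR
        have h2 : FS K s (y + t) = fS K s (mixedEmbedding K (y : K) + mixedEmbedding K (t : K)) := by
          unfold FS
          rw [← map_add]
          rfl
        rw [h2]
        refine h1.trans ?_
        apply div_le_div_of_nonneg_right _ (by positivity)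
        have : 0 ≤ R ^ (n + 1) := by positivity
        linarith
      · have h1 : |FS K s (y + t) - FS K s y| ≤ 1 := by
          have a1 := FS_nonneg s (y + t)
          have a2 := FS_le_one hs0 (y + t)
          have a3 := FS_nonneg s y
          have a4 := FS_le_one hs0 y
          exact abs_le.mpr ⟨by linarith, by linarith⟩
        refine h1.trans ?_
        rw [le_div_iff₀ (by positivity), one_mul]
        have h3 : mnorm K y ^ (n + 1) ≤ R ^ (n + 1) :=
          pow_le_pow_left₀ hm.le (not_le.mp hyR).le _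
        linarith

/-- Coset decomposition of `𝓞 K` along an ideal. -/
noncomputable def cosetEquiv (J : Ideal (𝓞 K)) : (𝓞 K ⧸ J) × J ≃ 𝓞 K where
  toFun p := Quotient.out p.1 + (p.2 : 𝓞 K)
  invFun x := (Ideal.Quotient.mk J x, ⟨x - Quotient.out (Ideal.Quotient.mk J x), by
    rw [← Ideal.Quotient.eq, Ideal.Quotient.mk_out]⟩)
  left_inv := by
    rintro ⟨q, y⟩
    have h1 : Ideal.Quotient.mk J (Quotient.out q + (y : 𝓞 K)) = q := by
      rw [map_add, Ideal.Quotient.mk_out, Ideal.Quotient.eq_zero_iff_mem.mpr y.2, add_zero]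
    ext
    · exact h1
    · simp only
      rw [h1, add_sub_cancel_left]
  right_inv := by
    intro x
    simp

theorem cosetEquiv_apply (J : Ideal (𝓞 K)) (q : 𝓞 K ⧸ J) (y : J) :
    cosetEquiv J (q, y) = Quotient.out q + (y : 𝓞 K) := rfl

/-- **P6**: comparison of the smoothed sums over `𝓞 K` and over an ideal `J`. -/
theorem exists_compare_bound (J : Ideal (𝓞 K)) (hJ : J ≠ ⊥) : ∃ B : ℝ, ∀ s : ℝ, 1 < s → s ≤ 2 →
    |∑' x : 𝓞 K, FS K s x - (Ideal.absNorm J : ℝ) * ∑' y : J, FS K s (y : 𝓞 K)| ≤ B := by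
  have : Finite (𝓞 K ⧸ J) := Ideal.finiteQuotientOfFreeOfNeBot J hJ
  let _ : Fintype (𝓞 K ⧸ J) := Fintype.ofFinite _
  have hcard : (Ideal.absNorm J : ℝ) = Fintype.card (𝓞 K ⧸ J) := by
    rw [Ideal.absNorm_apply, Submodule.cardQuot_apply, Nat.card_eq_fintype_card]
  choose g hg hg0 hgb using fun t : 𝓞 K ↦ exists_dominating (K := K) t
  refine ⟨∑ q : 𝓞 K ⧸ J, ∑' y : J, g (Quotient.out q) (y : 𝓞 K), fun s hs1 hs2 ↦ ?_⟩
  have hsumF := summable_FS (K := K) hs1
  have hsumJ : Summable fun y : J ↦ FS K s (y : 𝓞 K) :=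
    hsumF.comp_injective Subtype.val_injective
  have hsumq : ∀ q : 𝓞 K ⧸ J, Summable fun y : J ↦ FS K s (Quotient.out q + (y : 𝓞 K)) := by
    intro q
    refine hsumF.comp_injective (f := FS K s) (i := fun y : J ↦ Quotient.out q + (y : 𝓞 K)) ?_
    intro y y' h
    exact Subtype.ext (add_left_cancel h)
  have h1 : ∑' x : 𝓞 K, FS K s x = ∑ q : 𝓞 K ⧸ J, ∑' y : J,
      FS K s (Quotient.out q + (y : 𝓞 K)) := by
    have hs' : Summable (FS K s ∘ cosetEquiv J) :=
      ((cosetEquiv J).summable_iff (f := FS K s)).mpr hsumF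
    have e1 : ∑' x : 𝓞 K, FS K s x = ∑' p : (𝓞 K ⧸ J) × J, (FS K s ∘ cosetEquiv J) p :=
      ((cosetEquiv J).tsum_eq (FS K s)).symm
    have hsumq' : ∀ q : 𝓞 K ⧸ J, Summable fun y : J ↦ (FS K s ∘ cosetEquiv J) (q, y) := by
      intro q
      simp only [Function.comp_apply, cosetEquiv_apply]
      exact hsumq q
    rw [e1, hs'.tsum_prod' hsumq', tsum_fintype]
    simp only [Function.comp_apply, cosetEquiv_apply]
  have h2 : (Ideal.absNorm J : ℝ) * ∑' y : J, FS K s (y : 𝓞 K) =
      ∑ _q : 𝓞 K ⧸ J, ∑' y : J, FS K s (y : 𝓞 K) := by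
    rw [Finset.sum_const, Finset.card_univ, nsmul_eq_mul, hcard]
  rw [h1, h2, ← Finset.sum_sub_distrib]
  refine (Finset.abs_sum_le_sum_abs _ _).trans (Finset.sum_le_sum fun q _ ↦ ?_)
  rw [← (hsumq q).tsum_sub hsumJ, ← Real.norm_eq_abs]
  have hgJ : Summable fun y : J ↦ g (Quotient.out q) (y : 𝓞 K) :=
    (hg (Quotient.out q)).comp_injective Subtype.val_injective
  refine tsum_of_norm_bounded hgJ.hasSum fun y ↦ ?_
  rw [Real.norm_eq_abs, add_comm (Quotient.out q) (y : 𝓞 K)]
  exact hgb (Quotient.out q) s hs1.le hs2 y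

end Fermat.Agent.S14.H74

end
-- ===== PACK-END S14/H74/Lattice.lean

-- ===== PACK-BEGIN S55/G/Rec/Loc/Glue.lean
section



/-!
# S55 / G / REC / LOC : the glue — `LocalInvSystem` from `L.InvFamily`

`localInvSystem_of J hO hD hUp hDn hRf hRs hUr hUf : LocalInvSystem`.
-/

set_option autoImplicit false

noncomputable section

namespace Fermat.Agent.S55.G.Rec.Loc

open groupCohomology

variable (q : ℕ) [Fact q.Prime]

/-! ### Linearity of inflation -/

section Linear

variable (V : Subgroup (PadicAlgCl q ≃ₐ[ℚ_[q]] PadicAlgCl q))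
  (E : IntermediateField (fixedFld q V) (PadicAlgCl q)) [Normal (fixedFld q V) E]

lemma inflCochain₂_add
    (f g : (E ≃ₐ[fixedFld q V] E) × (E ≃ₐ[fixedFld q V] E) → L.unitsRep (fixedFld q V) E) :
    inflCochain₂ q V E (f + g) = inflCochain₂ q V E f + inflCochain₂ q V E g := by
  funext p
  simp only [inflCochain₂, Pi.add_apply]
  rfl

lemma inflCochain₂_sub
    (f g : (E ≃ₐ[fixedFld q V] E) × (E ≃ₐ[fixedFld q V] E) → L.unitsRep (fixedFld q V) E) :
    inflCochain₂ q V E (f - g) = inflCochain₂ q V E f - inflCochain₂ q V E g := by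
  funext p
  simp only [inflCochain₂, Pi.sub_apply]
  rfl

variable {q V E}

lemma IsAbsInflation.add {f g : cocycles₂ (L.unitsRep (fixedFld q V) E)}
    {c d : ↥(levelCocycles₂ (lHom q V) (lModOn q V))}
    (hf : IsAbsInflation q V E f c) (hg : IsAbsInflation q V E g d) :
    IsAbsInflation q V E (f + g) (c + d) := by
  unfold IsAbsInflation at *
  have h1 : ((f + g : cocycles₂ (L.unitsRep (fixedFld q V) E)) :
      (E ≃ₐ[fixedFld q V] E) × (E ≃ₐ[fixedFld q V] E) → L.unitsRep (fixedFld q V) E) =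
      (f : (E ≃ₐ[fixedFld q V] E) × (E ≃ₐ[fixedFld q V] E) → L.unitsRep (fixedFld q V) E) +
      (g : (E ≃ₐ[fixedFld q V] E) × (E ≃ₐ[fixedFld q V] E) → L.unitsRep (fixedFld q V) E) := rfl
  rw [Submodule.coe_add, h1, inflCochain₂_add, hf, hg]

lemma IsAbsInflation.sub {f g : cocycles₂ (L.unitsRep (fixedFld q V) E)}
    {c d : ↥(levelCocycles₂ (lHom q V) (lModOn q V))}
    (hf : IsAbsInflation q V E f c) (hg : IsAbsInflation q V E g d) :
    IsAbsInflation q V E (f - g) (c - d) := by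
  unfold IsAbsInflation at *
  have h1 : ((f - g : cocycles₂ (L.unitsRep (fixedFld q V) E)) :
      (E ≃ₐ[fixedFld q V] E) × (E ≃ₐ[fixedFld q V] E) → L.unitsRep (fixedFld q V) E) =
      (f : (E ≃ₐ[fixedFld q V] E) × (E ≃ₐ[fixedFld q V] E) → L.unitsRep (fixedFld q V) E) -
      (g : (E ≃ₐ[fixedFld q V] E) × (E ≃ₐ[fixedFld q V] E) → L.unitsRep (fixedFld q V) E) := rfl
  rw [Submodule.coe_sub, h1, inflCochain₂_sub, hf, hg]

end Linear

/-! ### Independence of the finite level -/

section Core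

variable {q}
variable (J : L.InvFamily) (hO : OpenSpec) (hD : _root_.Fermat.Agent.S55.G.Rec.Loc.DescentSpec) (hDn : DownSpec) (hRf : RefineSpec)
variable (V : Subgroup (PadicAlgCl q ≃ₐ[ℚ_[q]] PadicAlgCl q))

include hO in
lemma isLocalFld_fixedFld (hV : IsOpenL q V) : L.IsLocalFld (fixedFld q V) :=
  haveI := (hO q V hV).1
  L.isLocalFld_intermediateField63 q (fixedFld q V)

lemma isGalois_sup (E₁ E₂ : IntermediateField (fixedFld q V) (PadicAlgCl q))
    [IsGalois (fixedFld q V) E₁] [IsGalois (fixedFld q V) E₂] :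
    IsGalois (fixedFld q V) ↥(E₁ ⊔ E₂) :=
  IsGalois.mk

include hDn hRf in
/-- Two finite-level representatives of the same level cocycle have the same invariant. -/
lemma inv_eq_of_isAbsInflation [L.IsLocalFld (fixedFld q V)] (hV : IsOpenL q V)
    (c : ↥(levelCocycles₂ (lHom q V) (lModOn q V)))
    (E₁ : IntermediateField (fixedFld q V) (PadicAlgCl q))
    [FiniteDimensional (fixedFld q V) E₁] [IsGalois (fixedFld q V) E₁]
    (f₁ : cocycles₂ (L.unitsRep (fixedFld q V) E₁))
    (E₂ : IntermediateField (fixedFld q V) (PadicAlgCl q))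
    [FiniteDimensional (fixedFld q V) E₂] [IsGalois (fixedFld q V) E₂]
    (f₂ : cocycles₂ (L.unitsRep (fixedFld q V) E₂))
    (h₁ : IsAbsInflation q V E₁ f₁ c) (h₂ : IsAbsInflation q V E₂ f₂ c) :
    J.inv (fixedFld q V) E₁ (L.cls f₁) = J.inv (fixedFld q V) E₂ (L.cls f₂) := by
  have : IsGalois (fixedFld q V) ↥(E₁ ⊔ E₂) := isGalois_sup V E₁ E₂
  obtain ⟨f₁', hf₁', hJ₁⟩ := hRf q V E₁ (E₁ ⊔ E₂) le_sup_left f₁
  obtain ⟨f₂', hf₂', hJ₂⟩ := hRf q V E₂ (E₁ ⊔ E₂) le_sup_right f₂
  have h0 : IsAbsInflation q V (E₁ ⊔ E₂) (f₁' - f₂') (c - c) := (hf₁' c h₁).sub (hf₂' c h₂)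
  have hcob : ((c - c : ↥(levelCocycles₂ (lHom q V) (lModOn q V))) : ↥V × ↥V → lModOn q V) ∈
      levelCoboundaries₂ (lHom q V) (lModOn q V) := by
    rw [sub_self]
    exact Submodule.zero_mem _
  have hcls : L.cls (f₁' - f₂') = 0 := hDn q V hV (E₁ ⊔ E₂) (f₁' - f₂') (c - c) h0 hcob
  have hcls' : L.cls f₁' = L.cls f₂' := by
    have : L.cls (f₁' - f₂') = L.cls f₁' - L.cls f₂' := map_sub _ _ _
    rw [this, sub_eq_zero] at hcls
    exact hcls
  rw [← hJ₁ J, ← hJ₂ J, hcls']

include hD hDn hRf in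
lemma exists_inv_value [L.IsLocalFld (fixedFld q V)] (hV : IsOpenL q V)
    (c : ↥(levelCocycles₂ (lHom q V) (lModOn q V))) :
    ∃ a : AddCircle (1 : ℚ), ∀ (E : IntermediateField (fixedFld q V) (PadicAlgCl q))
      [FiniteDimensional (fixedFld q V) E] [IsGalois (fixedFld q V) E]
      (f : cocycles₂ (L.unitsRep (fixedFld q V) E)),
      IsAbsInflation q V E f c → J.inv (fixedFld q V) E (L.cls f) = a := by
  obtain ⟨E₀, hfd, hgal, f₀, -, h₀⟩ := hD q V hV c ⊥ inferInstance
  exact ⟨J.inv (fixedFld q V) E₀ (L.cls f₀), fun E _ _ f hf =>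
    inv_eq_of_isAbsInflation J hDn hRf V hV c E f E₀ f₀ hf h₀⟩

/-- The invariant of a level cocycle on an open subgroup `V`. -/
def invCoc [L.IsLocalFld (fixedFld q V)] (hV : IsOpenL q V)
    (c : ↥(levelCocycles₂ (lHom q V) (lModOn q V))) : AddCircle (1 : ℚ) :=
  Classical.choose (exists_inv_value J hD hDn hRf V hV c)

lemma invCoc_eq [L.IsLocalFld (fixedFld q V)] (hV : IsOpenL q V)
    (c : ↥(levelCocycles₂ (lHom q V) (lModOn q V)))
    (E : IntermediateField (fixedFld q V) (PadicAlgCl q))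
    [FiniteDimensional (fixedFld q V) E] [IsGalois (fixedFld q V) E]
    (f : cocycles₂ (L.unitsRep (fixedFld q V) E)) (hf : IsAbsInflation q V E f c) :
    invCoc J hD hDn hRf V hV c = J.inv (fixedFld q V) E (L.cls f) :=
  (Classical.choose_spec (exists_inv_value J hD hDn hRf V hV c) E f hf).symm

lemma invCoc_add [L.IsLocalFld (fixedFld q V)] (hV : IsOpenL q V)
    (c₁ c₂ : ↥(levelCocycles₂ (lHom q V) (lModOn q V))) :
    invCoc J hD hDn hRf V hV (c₁ + c₂) =
      invCoc J hD hDn hRf V hV c₁ + invCoc J hD hDn hRf V hV c₂ := by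
  obtain ⟨E₁, hfd₁, hgal₁, f₁, -, h₁⟩ := hD q V hV c₁ ⊥ inferInstance
  obtain ⟨E₂, hfd₂, hgal₂, f₂, -, h₂⟩ := hD q V hV c₂ ⊥ inferInstance
  have : IsGalois (fixedFld q V) ↥(E₁ ⊔ E₂) := isGalois_sup V E₁ E₂
  obtain ⟨f₁', hf₁', hJ₁⟩ := hRf q V E₁ (E₁ ⊔ E₂) le_sup_left f₁
  obtain ⟨f₂', hf₂', hJ₂⟩ := hRf q V E₂ (E₁ ⊔ E₂) le_sup_right f₂
  have e₁ := invCoc_eq J hD hDn hRf V hV (c₁ + c₂) (E₁ ⊔ E₂) (f₁' + f₂')
    ((hf₁' c₁ h₁).add (hf₂' c₂ h₂))
  have e₂ := invCoc_eq J hD hDn hRf V hV c₁ E₁ f₁ h₁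
  have e₃ := invCoc_eq J hD hDn hRf V hV c₂ E₂ f₂ h₂
  have e₄ : L.cls (f₁' + f₂') = L.cls f₁' + L.cls f₂' := map_add _ _ _
  have e₅ : J.inv (fixedFld q V) ↥(E₁ ⊔ E₂) (L.cls f₁' + L.cls f₂') =
      J.inv (fixedFld q V) ↥(E₁ ⊔ E₂) (L.cls f₁') + J.inv (fixedFld q V) ↥(E₁ ⊔ E₂) (L.cls f₂') :=
    map_add _ _ _
  calc invCoc J hD hDn hRf V hV (c₁ + c₂)
      = J.inv (fixedFld q V) ↥(E₁ ⊔ E₂) (L.cls (f₁' + f₂')) := e₁
    _ = J.inv (fixedFld q V) ↥(E₁ ⊔ E₂) (L.cls f₁') +
          J.inv (fixedFld q V) ↥(E₁ ⊔ E₂) (L.cls f₂') := by rw [e₄, e₅]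
    _ = J.inv (fixedFld q V) E₁ (L.cls f₁) + J.inv (fixedFld q V) E₂ (L.cls f₂) := by
          rw [hJ₁ J, hJ₂ J]
    _ = invCoc J hD hDn hRf V hV c₁ + invCoc J hD hDn hRf V hV c₂ := by rw [e₂, e₃]

lemma invCoc_eq_zero_of_mem [L.IsLocalFld (fixedFld q V)] (hV : IsOpenL q V)
    (c : ↥(levelCocycles₂ (lHom q V) (lModOn q V)))
    (hc : (c : ↥V × ↥V → lModOn q V) ∈ levelCoboundaries₂ (lHom q V) (lModOn q V)) :
    invCoc J hD hDn hRf V hV c = 0 := by
  obtain ⟨E, hfd, hgal, f, -, h⟩ := hD q V hV c ⊥ inferInstance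
  rw [invCoc_eq J hD hDn hRf V hV c E f h, hDn q V hV E f c h hc, map_zero]

/-- The invariant as a linear map on level cocycles. -/
def invLin [L.IsLocalFld (fixedFld q V)] (hV : IsOpenL q V) :
    ↥(levelCocycles₂ (lHom q V) (lModOn q V)) →ₗ[ℤ] AddCircle (1 : ℚ) :=
  (AddMonoidHom.mk' (invCoc J hD hDn hRf V hV) (invCoc_add J hD hDn hRf V hV)).toIntLinearMap

/-- The invariant map on the absolute Brauer group of an open subgroup. -/
def invOpen [L.IsLocalFld (fixedFld q V)] (hV : IsOpenL q V) :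
    lBr q V →ₗ[ℤ] AddCircle (1 : ℚ) :=
  Submodule.liftQ _ (invLin J hD hDn hRf V hV) (fun c hc =>
    invCoc_eq_zero_of_mem J hD hDn hRf V hV c hc)

lemma invOpen_mk [L.IsLocalFld (fixedFld q V)] (hV : IsOpenL q V)
    (c : ↥(levelCocycles₂ (lHom q V) (lModOn q V))) :
    invOpen J hD hDn hRf V hV (continuousH2π (lHom q V) (lModOn q V) c) =
      invCoc J hD hDn hRf V hV c := rfl

end Core

/-! ### The invariant maps for all subgroups and the `LocalInvSystem` -/

section All

variable (J : L.InvFamily) (hO : OpenSpec) (hD : _root_.Fermat.Agent.S55.G.Rec.Loc.DescentSpec) (hDn : DownSpec) (hRf : RefineSpec)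

open Classical in
/-- The invariant map on `lBr q V` (zero if `V` is not open). -/
def invAll (q : ℕ) [Fact q.Prime] (V : Subgroup (PadicAlgCl q ≃ₐ[ℚ_[q]] PadicAlgCl q)) :
    lBr q V →+ AddCircle (1 : ℚ) :=
  if hV : IsOpenL q V then
    haveI := isLocalFld_fixedFld hO V hV
    (invOpen J hD hDn hRf V hV).toAddMonoidHom
  else 0

variable {q}

lemma invAll_mk (V : Subgroup (PadicAlgCl q ≃ₐ[ℚ_[q]] PadicAlgCl q))
    [L.IsLocalFld (fixedFld q V)] (hV : IsOpenL q V)
    (c : ↥(levelCocycles₂ (lHom q V) (lModOn q V))) :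
    invAll J hO hD hDn hRf q V (continuousH2π (lHom q V) (lModOn q V) c) =
      invCoc J hD hDn hRf V hV c := by
  unfold invAll
  rw [dif_pos hV]
  rfl

lemma isOpenL_mono {V V' : Subgroup (PadicAlgCl q ≃ₐ[ℚ_[q]] PadicAlgCl q)} (h : V' ≤ V)
    (hV' : IsOpenL q V') : IsOpenL q V := by
  obtain ⟨E, hE, hle⟩ := hV'
  exact ⟨E, hE, hle.trans h⟩

end All

section Fields

variable (J : L.InvFamily) (hO : OpenSpec) (hD : _root_.Fermat.Agent.S55.G.Rec.Loc.DescentSpec) (hUp : UpSpec)
  (hDn : DownSpec) (hRf : RefineSpec) (hRs : ResSpec) (hUr : UnramSpec) (hUf : UnifSpec)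
variable {q}

include hUp in
lemma invAll_injective (V : Subgroup (PadicAlgCl q ≃ₐ[ℚ_[q]] PadicAlgCl q))
    (hV : IsOpenL q V) : Function.Injective (invAll J hO hD hDn hRf q V) := by
  have := isLocalFld_fixedFld hO V hV
  rw [injective_iff_map_eq_zero]
  intro x hx
  obtain ⟨c, rfl⟩ := Submodule.mkQ_surjective _ x
  have hx' : invAll J hO hD hDn hRf q V (continuousH2π (lHom q V) (lModOn q V) c) = 0 := hx
  rw [invAll_mk J hO hD hDn hRf V hV c] at hx'
  obtain ⟨E, hfd, hgal, f, -, h⟩ := hD q V hV c ⊥ inferInstance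
  rw [invCoc_eq J hD hDn hRf V hV c E f h] at hx'
  have hcls : L.cls f = 0 := J.inv_injective (fixedFld q V) E (by rw [hx', map_zero])
  exact (continuousH2π_eq_zero_iff (lHom q V) (lModOn q V) c).2 (hUp q V hV E f c h hcls)

/-- The restriction of a level cocycle to a subgroup. -/
def resCoc {V V' : Subgroup (PadicAlgCl q ≃ₐ[ℚ_[q]] PadicAlgCl q)} (h : V' ≤ V) :
    ↥(levelCocycles₂ (lHom q V) (lModOn q V)) →ₗ[ℤ]
      ↥(levelCocycles₂ (lHom q V') (lModOn q V')) :=
  levelCocycles₂Map (rH := lHom q V) (rG := lHom q V') (Subgroup.inclusion h)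
    (fun _ => rfl) (LinearMap.id : lModOn q V →ₗ[ℤ] lModOn q V') (fun _ _ => rfl)

lemma resCoc_apply {V V' : Subgroup (PadicAlgCl q ≃ₐ[ℚ_[q]] PadicAlgCl q)} (h : V' ≤ V)
    (c : ↥(levelCocycles₂ (lHom q V) (lModOn q V))) (g k : ↥V') :
    (resCoc h c : ↥V' × ↥V' → lModOn q V') (g, k) =
      (c : ↥V × ↥V → lModOn q V) (Subgroup.inclusion h g, Subgroup.inclusion h k) := rfl

lemma lRes_mk {V V' : Subgroup (PadicAlgCl q ≃ₐ[ℚ_[q]] PadicAlgCl q)} (h : V' ≤ V)
    (c : ↥(levelCocycles₂ (lHom q V) (lModOn q V))) :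
    lRes q h (continuousH2π (lHom q V) (lModOn q V) c) =
      continuousH2π (lHom q V') (lModOn q V') (resCoc h c) := rfl

include hRs in
lemma invAll_res (V V' : Subgroup (PadicAlgCl q ≃ₐ[ℚ_[q]] PadicAlgCl q)) (h : V' ≤ V)
    (hV' : IsOpenL q V') (x : lBr q V) :
    invAll J hO hD hDn hRf q V' (lRes q h x) =
      V'.relIndex V • invAll J hO hD hDn hRf q V x := by
  have hV : IsOpenL q V := isOpenL_mono h hV'
  have := isLocalFld_fixedFld hO V hV
  have := isLocalFld_fixedFld hO V' hV'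
  obtain ⟨c, hc⟩ := Submodule.mkQ_surjective _ x
  have hx : x = continuousH2π (lHom q V) (lModOn q V) c := hc.symm
  obtain ⟨E, hfd, hgal, f, E', hfd', hgal', f', hf, hf', hJ⟩ :=
    hRs q V V' h hV' c (resCoc h c) (resCoc_apply h c)
  have e2 : invAll J hO hD hDn hRf q V (continuousH2π (lHom q V) (lModOn q V) c) =
      J.inv (fixedFld q V) E (L.cls f) := by
    rw [invAll_mk J hO hD hDn hRf V hV]
    exact invCoc_eq J hD hDn hRf V hV c E f hf
  have e0 : invAll J hO hD hDn hRf q V' (continuousH2π (lHom q V') (lModOn q V') (resCoc h c)) =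
      J.inv (fixedFld q V') E' (L.cls f') := by
    rw [invAll_mk J hO hD hDn hRf V' hV']
    exact invCoc_eq J hD hDn hRf V' hV' _ E' f' hf'
  have e1 : invAll J hO hD hDn hRf q V' (lRes q h x) =
      invAll J hO hD hDn hRf q V' (continuousH2π (lHom q V') (lModOn q V') (resCoc h c)) :=
    congrArg (invAll J hO hD hDn hRf q V') ((congrArg (lRes q h) hx).trans (lRes_mk h c))
  have e3 : V'.relIndex V • invAll J hO hD hDn hRf q V x =
      V'.relIndex V • J.inv (fixedFld q V) E (L.cls f) :=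
    congrArg (fun y => V'.relIndex V • y) ((congrArg (invAll J hO hD hDn hRf q V) hx).trans e2)
  exact (e1.trans e0).trans ((hJ J).trans e3.symm)

include hUr in
lemma invAll_unram (V : Subgroup (PadicAlgCl q ≃ₐ[ℚ_[q]] PadicAlgCl q)) (hV : IsOpenL q V)
    (c : ↥(levelCocycles₂ (lHom q V) (lModOn q V)))
    (h1 : ∀ g h : ↥V, ‖((Additive.toMul ((c : ↥V × ↥V → lModOn q V) (g, h)) :
        (PadicAlgCl q)ˣ) : PadicAlgCl q)‖ = 1)
    (h2 : ∀ g h i j : ↥V, IsInertial q (i : PadicAlgCl q ≃ₐ[ℚ_[q]] PadicAlgCl q) →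
        IsInertial q (j : PadicAlgCl q ≃ₐ[ℚ_[q]] PadicAlgCl q) →
        (c : ↥V × ↥V → lModOn q V) (g * i, h * j) = (c : ↥V × ↥V → lModOn q V) (g, h))
    (h3 : ∀ g h i : ↥V, IsInertial q (i : PadicAlgCl q ≃ₐ[ℚ_[q]] PadicAlgCl q) →
        (lModOn q V).ρ i ((c : ↥V × ↥V → lModOn q V) (g, h)) =
          (c : ↥V × ↥V → lModOn q V) (g, h)) :
    invAll J hO hD hDn hRf q V (continuousH2π (lHom q V) (lModOn q V) c) = 0 := by
  have hc := hUr q V hV c h1 h2 h3
  rw [(continuousH2π_eq_zero_iff (lHom q V) (lModOn q V) c).2 hc, map_zero]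

include hUf in
lemma invAll_unif (V : Subgroup (PadicAlgCl q ≃ₐ[ℚ_[q]] PadicAlgCl q)) (hV : IsOpenL q V)
    (n : ℕ) [NeZero n] (χ : ↥V →* Multiplicative (ZMod n))
    (hχ : ∀ τ : ↥V, IsInertial q (τ : PadicAlgCl q ≃ₐ[ℚ_[q]] PadicAlgCl q) → χ τ = 1)
    (φ : PadicAlgCl q ≃ₐ[ℚ_[q]] PadicAlgCl q) (hφ : IsFrobenius q V φ)
    (π : (PadicAlgCl q)ˣ) (hπ : IsUniformizer q V (π : PadicAlgCl q))
    (c : ↥(levelCocycles₂ (lHom q V) (lModOn q V)))
    (hc : IsCupChar (toLMod q V π) χ (c : ↥V × ↥V → lModOn q V)) :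
    invAll J hO hD hDn hRf q V (continuousH2π (lHom q V) (lModOn q V) c) =
      (((((Multiplicative.toAdd (χ ⟨φ, hφ.1⟩)).val : ℚ) / (n : ℚ) : ℚ)) : AddCircle (1 : ℚ)) := by
  have := isLocalFld_fixedFld hO V hV
  obtain ⟨E, hfd, hgal, f, hf, hval⟩ := hUf q V hV n χ hχ φ hφ π hπ c hc J
  rw [invAll_mk J hO hD hDn hRf V hV c, invCoc_eq J hD hDn hRf V hV c E f hf]
  exact hval

end Fields

/-- **REC-LOC**: the absolute local invariant system built from the finite-level invariant
maps of layer L. -/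
def localInvSystem_of (J : L.InvFamily) (hO : OpenSpec) (hD : _root_.Fermat.Agent.S55.G.Rec.Loc.DescentSpec) (hUp : UpSpec)
    (hDn : DownSpec) (hRf : RefineSpec) (hRs : ResSpec) (hUr : UnramSpec) (hUf : UnifSpec) :
    LocalInvSystem where
  inv q _ V := invAll J hO hD hDn hRf q V
  inv_injective _ _ V hV := invAll_injective J hO hD hUp hDn hRf V hV
  inv_res _ _ V V' h hV' x := invAll_res J hO hD hDn hRf hRs V V' h hV' x
  inv_unram _ _ V hV c h1 h2 h3 := invAll_unram J hO hD hDn hRf hUr V hV c h1 h2 h3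
  inv_unif _ _ V hV n _ χ hχ φ hφ π hπ c hc :=
    invAll_unif J hO hD hDn hRf hUf V hV n χ hχ φ hφ π hπ c hc

/-- `Nonempty` form. -/
theorem nonempty_localInvSystem_of (hJ : L.InvSpec) (hO : OpenSpec) (hD : _root_.Fermat.Agent.S55.G.Rec.Loc.DescentSpec)
    (hUp : UpSpec) (hDn : DownSpec) (hRf : RefineSpec) (hRs : ResSpec) (hUr : UnramSpec)
    (hUf : UnifSpec) : Nonempty LocalInvSystem :=
  hJ.elim fun J => ⟨localInvSystem_of J hO hD hUp hDn hRf hRs hUr hUf⟩

end Fermat.Agent.S55.G.Rec.Loc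

end
end
-- ===== PACK-END S55/G/Rec/Loc/Glue.lean

-- ===== PACK-BEGIN S55/L/Unram784/Poly.lean
section


/-!
# S55, layer L, leaf L-A2 (helper784): existence of the auxiliary polynomial and of a root
-/

set_option autoImplicit false
set_option linter.unusedSectionVars false

namespace Fermat.Agent.S55.L

open IsLocalRing Polynomial

section Poly

variable {R : Type} [CommRing R] [IsLocalRing R]

/-- Monic lifts of monic polynomials over the residue field. -/
theorem u784_exists_monic_lift (f : (ResidueField R)[X]) (hf : f.Monic) :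
    ∃ g : R[X], g.Monic ∧ g.map (residue R) = f ∧ g.natDegree = f.natDegree := by
  have hmem : f ∈ Polynomial.lifts (residue R) := by
    rw [Polynomial.mem_lifts]
    exact Polynomial.map_surjective _ residue_surjective f
  obtain ⟨g, hg1, hg2, hg3⟩ := Polynomial.lifts_and_natDegree_eq_and_monic hmem hf
  exact ⟨g, hg3, hg1, hg2⟩

/-- Over a finite field there are monic irreducible polynomials of every degree `[l : k]`. -/
theorem u784_exists_irreducible_of_finrank {k l : Type} [Field k] [Field l] [Algebra k l]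
    [Finite k] [Finite l] :
    ∃ f : k[X], f.Monic ∧ Irreducible f ∧ f.natDegree = Module.finrank k l := by
  obtain ⟨θ, hθ⟩ := Field.exists_primitive_element k l
  have hint : IsIntegral k θ := Algebra.IsIntegral.isIntegral θ
  refine ⟨minpoly k θ, minpoly.monic hint, minpoly.irreducible hint, ?_⟩
  rw [← IntermediateField.adjoin.finrank hint, hθ, IntermediateField.finrank_top']

variable {S : Type} [CommRing S] [IsLocalRing S] [Algebra R S] [IsLocalHom (algebraMap R S)]
  [IsAdicComplete (maximalIdeal S) S] [Finite (ResidueField R)] [Finite (ResidueField S)]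

/-- The auxiliary polynomial: monic, with irreducible reduction of degree `[l : k]`. -/
theorem u784_exists_poly :
    ∃ g : R[X], g.Monic ∧ Irreducible (g.map (residue R)) ∧
      g.natDegree = Module.finrank (ResidueField R) (ResidueField S) := by
  obtain ⟨f, hf1, hf2, hf3⟩ :=
    u784_exists_irreducible_of_finrank (k := ResidueField R) (l := ResidueField S)
  obtain ⟨g, hg1, hg2, hg3⟩ := u784_exists_monic_lift f hf1
  exact ⟨g, hg1, hg2 ▸ hf2, hg3.trans hf3⟩

/-- A monic polynomial with irreducible reduction of degree `[l : k]` has a root in `S`. -/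
theorem u784_exists_root (g : R[X]) (hg : g.Monic) (hirr : Irreducible (g.map (residue R)))
    (hdeg : g.natDegree = Module.finrank (ResidueField R) (ResidueField S)) :
    ∃ β : S, (g.map (algebraMap R S)).IsRoot β := by
  have hdeg' : (g.map (residue R)).natDegree =
      Module.finrank (ResidueField R) (ResidueField S) := by
    rw [hg.natDegree_map, hdeg]
  have hsp := u784_splits_of_natDegree_eq (S := S) (g.map (residue R)) hirr hdeg'
  have hsep : (g.map (residue R)).Separable := PerfectField.separable_of_irreducible hirr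
  have hpos : 0 < Multiset.card ((g.map (residue R)).map
      (algebraMap (ResidueField R) (ResidueField S))).roots := by
    rw [splits_iff_card_roots.mp hsp, (hg.map _).natDegree_map, hdeg']
    exact Module.finrank_pos
  obtain ⟨r, hr⟩ := Multiset.card_pos_iff_exists_mem.mp hpos
  rw [Polynomial.mem_roots ((hg.map _).map _).ne_zero] at hr
  obtain ⟨β, hβ, -⟩ := u784_exists_lift_root g hg hsep r hr
  exact ⟨β, hβ⟩

end Poly

end Fermat.Agent.S55.L

end
-- ===== PACK-END S55/L/Unram784/Poly.lean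

-- ===== PACK-BEGIN S55/G/Rec/Loc/UpH839.lean
section



/-!
# S55 / G / REC / LOC, leaf LOC-UP (helper839): `up : UpSpec`

A finite-level coboundary inflates to a level coboundary.  Also exported:

* `exists_level_resHom` : restriction `V → Gal(E/K_V)` to a finite level `E` is level-constant;
* `isLevelConstant₁_inflCochain₁`, `isLevelConstant₂_inflCochain₂`;
* `inflCochain₂_d₁₂` : inflation commutes with the differential `d₁₂`.
-/

set_option autoImplicit false

noncomputable section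

namespace Fermat.Agent.S55.G.Rec.Loc.H839

open groupCohomology Fermat.Agent.S55.G.Rec Fermat.Agent.S55.G.Rec.Loc Fermat.Agent.S55.Bridge

variable (q : ℕ) [Fact q.Prime]

/-- An element of `V` fixing a primitive element of `E / K_V` fixes `E` pointwise. -/
lemma fixes_of_fixes_primitive (V : Subgroup (PadicAlgCl q ≃ₐ[ℚ_[q]] PadicAlgCl q))
    (E : IntermediateField (fixedFld q V) (PadicAlgCl q)) (α : E)
    (hα : IntermediateField.adjoin (fixedFld q V) {α} = ⊤) (σ : ↥V)
    (hσ : (σ : PadicAlgCl q ≃ₐ[ℚ_[q]] PadicAlgCl q) (α : PadicAlgCl q) = α)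
    (y : PadicAlgCl q) (hy : y ∈ E) :
    (σ : PadicAlgCl q ≃ₐ[ℚ_[q]] PadicAlgCl q) y = y := by
  set τ : PadicAlgCl q ≃ₐ[fixedFld q V] PadicAlgCl q := toAbsGal q V σ with hτ
  have hτα : τ (α : PadicAlgCl q) = α := hσ
  have hle : IntermediateField.adjoin (fixedFld q V) {(α : PadicAlgCl q)}
      ≤ IntermediateField.fixedField (Subgroup.zpowers τ) := by
    rw [IntermediateField.adjoin_le_iff]
    rintro z hz
    rw [Set.mem_singleton_iff] at hz
    subst hz
    rintro ⟨ρ, hρ⟩
    obtain ⟨n, rfl⟩ := Subgroup.mem_zpowers_iff.1 hρ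
    show (τ ^ n) (α : PadicAlgCl q) = α
    have hfix : τ ∈ MulAction.stabilizer (PadicAlgCl q ≃ₐ[fixedFld q V] PadicAlgCl q)
        (α : PadicAlgCl q) := hτα
    exact (Subgroup.zpow_mem _ hfix n : _)
  have hy' : (⟨y, hy⟩ : E) ∈ IntermediateField.adjoin (fixedFld q V) {α} := by rw [hα]; trivial
  have hyα : y ∈ IntermediateField.adjoin (fixedFld q V) {(α : PadicAlgCl q)} := by
    have h1 : IntermediateField.lift (IntermediateField.adjoin (fixedFld q V) {α})
        = IntermediateField.adjoin (fixedFld q V) {(α : PadicAlgCl q)} := by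
      rw [IntermediateField.lift_adjoin, Set.image_singleton]
    rw [← h1]
    exact (IntermediateField.mem_lift (⟨y, hy⟩ : E)).2 hy'
  exact hle hyα ⟨τ, Subgroup.mem_zpowers τ⟩

/-- Restriction to a finite level `E / K_V` is level-constant (in the Prelude's sense). -/
theorem exists_level_resHom (V : Subgroup (PadicAlgCl q ≃ₐ[ℚ_[q]] PadicAlgCl q))
    (E : IntermediateField (fixedFld q V) (PadicAlgCl q))
    [FiniteDimensional (fixedFld q V) E] [Normal (fixedFld q V) E] :
    ∃ F : IntermediateField ℚ (AlgebraicClosure ℚ), FiniteDimensional ℚ F ∧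
      ∀ σ : ↥V, lHom q V σ ∈ F.fixingSubgroup → resHom q V E σ = 1 := by
  obtain ⟨α, hα⟩ := Field.exists_primitive_element (fixedFld q V) E
  have : Algebra.IsAlgebraic ℚ_[q] (PadicAlgCl q) := inferInstance
  have : FiniteDimensional ℚ_[q] (IntermediateField.adjoin ℚ_[q] {(α : PadicAlgCl q)}) :=
    IntermediateField.adjoin.finiteDimensional (Algebra.IsIntegral.isIntegral _)
  obtain ⟨F, hF, h⟩ := exists_global_level_of_local q
    (IntermediateField.adjoin ℚ_[q] {(α : PadicAlgCl q)})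
  refine ⟨F, hF, fun σ hσ => ?_⟩
  have h1 := h (σ : PadicAlgCl q ≃ₐ[ℚ_[q]] PadicAlgCl q) hσ
  have h2 : (σ : PadicAlgCl q ≃ₐ[ℚ_[q]] PadicAlgCl q) (α : PadicAlgCl q) = α :=
    (IntermediateField.mem_fixingSubgroup_iff _ _).1 h1 _
      (IntermediateField.subset_adjoin ℚ_[q] _ (Set.mem_singleton _))
  ext x
  rw [resHom_apply_coe]
  exact fixes_of_fixes_primitive q V E α hα σ h2 x x.2

theorem isLevelConstant₁_inflCochain₁ (V : Subgroup (PadicAlgCl q ≃ₐ[ℚ_[q]] PadicAlgCl q))
    (E : IntermediateField (fixedFld q V) (PadicAlgCl q))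
    [FiniteDimensional (fixedFld q V) E] [Normal (fixedFld q V) E]
    (b : (E ≃ₐ[fixedFld q V] E) → L.unitsRep (fixedFld q V) E) :
    IsLevelConstant₁ (lHom q V) (_root_.Fermat.Agent.S55.G.Rec.Loc.inflCochain₁ q V E b) := by
  obtain ⟨F, hF, h⟩ := exists_level_resHom q V E
  refine ⟨F, hF, fun g s hs => ?_⟩
  unfold _root_.Fermat.Agent.S55.G.Rec.Loc.inflCochain₁
  rw [map_mul, h s hs, mul_one]

theorem isLevelConstant₂_inflCochain₂ (V : Subgroup (PadicAlgCl q ≃ₐ[ℚ_[q]] PadicAlgCl q))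
    (E : IntermediateField (fixedFld q V) (PadicAlgCl q))
    [FiniteDimensional (fixedFld q V) E] [Normal (fixedFld q V) E]
    (f : (E ≃ₐ[fixedFld q V] E) × (E ≃ₐ[fixedFld q V] E) → L.unitsRep (fixedFld q V) E) :
    IsLevelConstant₂ (lHom q V) (_root_.Fermat.Agent.S55.G.Rec.Loc.inflCochain₂ q V E f) := by
  obtain ⟨F, hF, h⟩ := exists_level_resHom q V E
  refine ⟨F, hF, fun g g' s s' hs hs' => ?_⟩
  unfold _root_.Fermat.Agent.S55.G.Rec.Loc.inflCochain₂
  simp only []
  rw [map_mul, map_mul, h s hs, h s' hs', mul_one, mul_one]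

/-- The inclusion `Eˣ → ℚ̄_qˣ` as a linear map of the underlying modules. -/
def inclLin (V : Subgroup (PadicAlgCl q ≃ₐ[ℚ_[q]] PadicAlgCl q))
    (E : IntermediateField (fixedFld q V) (PadicAlgCl q)) :
    L.unitsRep (fixedFld q V) E →ₗ[ℤ] lModOn q V :=
  (MonoidHom.toAdditive (unitsIncl q V E)).toIntLinearMap

/-- the inclusion `Eˣ → ℚ̄_qˣ` is equivariant along `resHom` -/
lemma inclLin_equivariant (V : Subgroup (PadicAlgCl q ≃ₐ[ℚ_[q]] PadicAlgCl q))
    (E : IntermediateField (fixedFld q V) (PadicAlgCl q)) [Normal (fixedFld q V) E]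
    (g : ↥V) (x : L.unitsRep (fixedFld q V) E) :
    inclLin q V E ((L.unitsRep (fixedFld q V) E).ρ (resHom q V E g) x) =
      (lModOn q V).ρ g (inclLin q V E x) := by
  apply Additive.toMul.injective
  apply Units.ext
  exact resHom_apply_coe q V E g _

lemma inflCochain₁_eq (V : Subgroup (PadicAlgCl q ≃ₐ[ℚ_[q]] PadicAlgCl q))
    (E : IntermediateField (fixedFld q V) (PadicAlgCl q)) [Normal (fixedFld q V) E]
    (b : (E ≃ₐ[fixedFld q V] E) → L.unitsRep (fixedFld q V) E) :
    _root_.Fermat.Agent.S55.G.Rec.Loc.inflCochain₁ q V E b = cochainsPullPush₁ (resHom q V E) (inclLin q V E) b := rfl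

lemma inflCochain₂_eq (V : Subgroup (PadicAlgCl q ≃ₐ[ℚ_[q]] PadicAlgCl q))
    (E : IntermediateField (fixedFld q V) (PadicAlgCl q)) [Normal (fixedFld q V) E]
    (f : (E ≃ₐ[fixedFld q V] E) × (E ≃ₐ[fixedFld q V] E) → L.unitsRep (fixedFld q V) E) :
    _root_.Fermat.Agent.S55.G.Rec.Loc.inflCochain₂ q V E f = cochainsPullPush₂ (resHom q V E) (inclLin q V E) f := rfl

/-- inflation commutes with the differential -/
theorem inflCochain₂_d₁₂ (V : Subgroup (PadicAlgCl q ≃ₐ[ℚ_[q]] PadicAlgCl q))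
    (E : IntermediateField (fixedFld q V) (PadicAlgCl q)) [Normal (fixedFld q V) E]
    (b : (E ≃ₐ[fixedFld q V] E) → L.unitsRep (fixedFld q V) E) :
    _root_.Fermat.Agent.S55.G.Rec.Loc.inflCochain₂ q V E ((d₁₂ (L.unitsRep (fixedFld q V) E)).hom b) =
      (d₁₂ (lModOn q V)).hom (_root_.Fermat.Agent.S55.G.Rec.Loc.inflCochain₁ q V E b) := by
  rw [inflCochain₂_eq, inflCochain₁_eq]
  exact cochainsPullPush₂_d₁₂ (resHom q V E) (inclLin q V E) (inclLin_equivariant q V E) b

/-- **LOC-UP.** -/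
theorem up : UpSpec := by
  intro q _ V _ E _ _ f c hinf hcls
  have hf : (f : (E ≃ₐ[fixedFld q V] E) × (E ≃ₐ[fixedFld q V] E) →
      L.unitsRep (fixedFld q V) E) ∈ coboundaries₂ (L.unitsRep (fixedFld q V) E) :=
    (H2π_eq_zero_iff f).mp hcls
  obtain ⟨b, hb⟩ := hf
  rw [mem_levelCoboundaries₂_iff]
  refine ⟨_root_.Fermat.Agent.S55.G.Rec.Loc.inflCochain₁ q V E b, isLevelConstant₁_inflCochain₁ q V E b, ?_⟩
  rw [hinf, ← _root_.Fermat.Agent.S55.G.Rec.Loc.H839.inflCochain₂_d₁₂, hb]

end Fermat.Agent.S55.G.Rec.Loc.H839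

end
end
-- ===== PACK-END S55/G/Rec/Loc/UpH839.lean

-- ===== PACK-BEGIN S55/L/Inv481/Inputs.lean
section


/-!
# S55 / layer L / leaf L-C2 (InvSpec), helper481: INPUT INTERFACE

`InvSpec` (frozen, `SpecInv.lean`) is proved in `Main.lean` from

* frozen specs: `FiniteExtSpec`, `UnramifiedExistsSpec`, `UnramifiedCyclicSpec`, `H2CyclicSpec`;
* `UnrInvSpec`   : the invariant maps on UNRAMIFIED extensions, with base change   (= leaf L-NR+BC);
* `UnrNestSpec`  : unramified subextensions of a finite extension are nested by degree;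
* `UnrBCSpec`    : the compositum of an unramified extension with any finite extension is
                   unramified over the latter (existence form).

All three are true statements of the theory of unramified extensions.  Mathematical content of
`UnrInvFamily.inv_baseChange`: for `E/K` unramified with Frobenius `φ` and uniformizer `π`, the
class `u = [cyclic cocycle (φ, π)]` has `inv = 1/n`; its pull-back to `Gal(E'/K')`
(`g ↦ g|_E`) is `(f n'/n) · e · u'` where `φ'|_E = φ^f`, `π = π'^e · unit`, `e f = [K':K]`,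
so `inv' = e f / n = [K':K] · inv`.
-/

set_option autoImplicit false

namespace Fermat.Agent.S55.L.Inv481

open groupCohomology

/-- Invariant maps on unramified extensions (values on ramified extensions are irrelevant). -/
structure UnrInvFamily where
  /-- the invariant map -/
  inv : ∀ (K E : Type) [Field K] [Field E] [Algebra K E] [FiniteDimensional K E] [IsGalois K E]
    [IsLocalFld K], H2 (unitsRep K E) →+ AddCircle (1 : ℚ)
  inv_injective : ∀ (K E : Type) [Field K] [Field E] [Algebra K E] [FiniteDimensional K E]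
    [IsGalois K E] [IsLocalFld K], IsUnramifiedExt K E → Function.Injective (inv K E)
  /-- base change `K ⊆ K'`, `E ⊆ E'`: covers inflation (`K' = K`) and restriction (`E' = E`) -/
  inv_baseChange : ∀ (K K' E E' : Type) [Field K] [Field K'] [Field E] [Field E']
    [Algebra K K'] [Algebra K E] [Algebra K' E'] [Algebra E E'] [Algebra K E']
    [IsScalarTower K K' E'] [IsScalarTower K E E'] [FiniteDimensional K K']
    [FiniteDimensional K E] [FiniteDimensional K' E'] [IsGalois K E] [IsGalois K' E']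
    [IsLocalFld K] [IsLocalFld K'],
    IsUnramifiedExt K E → IsUnramifiedExt K' E' →
    ∀ (c : cocycles₂ (unitsRep K E)) (c' : cocycles₂ (unitsRep K' E')),
      IsBaseChange c c' → inv K' E' (cls c') = Module.finrank K K' • inv K E (cls c)
  inv_transport : ∀ (K E K' E' : Type) [Field K] [Field E] [Algebra K E] [Field K'] [Field E']
    [Algebra K' E'] [FiniteDimensional K E] [FiniteDimensional K' E'] [IsGalois K E]
    [IsGalois K' E'] [IsLocalFld K] [IsLocalFld K'],
    IsUnramifiedExt K E → IsUnramifiedExt K' E' →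
    ∀ (e : E ≃+* E') (c : (E ≃ₐ[K] E) ≃* (E' ≃ₐ[K'] E'))
    (_ : ∀ (g : E ≃ₐ[K] E) (x : E), c g (e x) = e (g x))
    (f : cocycles₂ (unitsRep K E)) (f' : cocycles₂ (unitsRep K' E')),
    IsTransport e c f f' → inv K' E' (cls f') = inv K E (cls f)
  inv_unramified : ∀ (K E : Type) [Field K] [Field E] [Algebra K E] [FiniteDimensional K E]
    [IsGalois K E] [IsLocalFld K], IsUnramifiedExt K E →
    ∀ (A : ValuationSubring K), IsLocalRingOfIntegers A →
    ∀ (φ : E ≃ₐ[K] E), IsFrobeniusElt K E φ →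
    ∀ (π : Kˣ), IsUniformizer A (π : K) →
    ∀ (f : cocycles₂ (unitsRep K E)), IsCyclicCocycle φ π f →
      inv K E (cls f) = (((Module.finrank K E : ℚ)⁻¹ : ℚ) : AddCircle (1 : ℚ))

/-- **L-NR+BC** existence of the unramified invariant maps with base change. -/
def UnrInvSpec : Prop := Nonempty UnrInvFamily

/-- Unramified subextensions of a finite extension are nested by divisibility of degrees
(they are the subfields of the maximal unramified subextension, which is cyclic). -/
def UnrNestSpec : Prop :=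
  ∀ (K M : Type) [Field K] [Field M] [Algebra K M] [FiniteDimensional K M] [IsLocalFld K]
    (E₁ E₂ : IntermediateField K M), IsUnramifiedExt K E₁ → IsUnramifiedExt K E₂ →
      Module.finrank K E₁ ∣ Module.finrank K E₂ → E₁ ≤ E₂

/-- If `E/K` is unramified and `K ⊆ K' ⊆ M`, `E ⊆ M`, then `E` is contained in a subextension
`E'` of `M/K'` which is unramified over `K'` (namely `E' = E K'`). -/
def UnrBCSpec : Prop :=
  ∀ (K K' M : Type) [Field K] [Field K'] [Field M] [Algebra K K'] [Algebra K M] [Algebra K' M]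
    [IsScalarTower K K' M] [FiniteDimensional K M] [IsLocalFld K] [IsLocalFld K']
    (E : IntermediateField K M), IsUnramifiedExt K E →
      ∃ E' : IntermediateField K' M, IsUnramifiedExt K' E' ∧ ∀ x : M, x ∈ E → x ∈ E'

end Fermat.Agent.S55.L.Inv481

end
-- ===== PACK-END S55/L/Inv481/Inputs.lean

-- ===== PACK-BEGIN S55/L/Unr534/VS.lean
section


/-!
# S55, layer L, unramified extensions (helper534): bridge to valuation subrings

`K` a field of characteristic zero with a ring of integers `A : ValuationSubring K`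
(`IsLocalRingOfIntegers A`), `E / K` finite.

* `intVS534 A E`   : the integral closure of `A` in `E` as a valuation subring of `E`;
* `isLocalRingOfIntegers_intVS534`;
* `eq_intVS534`    : (uniqueness) every ring of integers of `E` is `intVS534 A E`;
* `isUniformizer_intVS_iff534` : a uniformizer of `A` is a uniformizer of `intVS534 A E` iff
  `𝔪_A C = 𝔪_C`.
-/

set_option autoImplicit false
set_option linter.style.haveILetI false
set_option linter.unusedSectionVars false

namespace Fermat.Agent.S55.L.Unr534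

open IsLocalRing Polynomial IntermediateField

section VS

variable {K : Type} [Field K] [CharZero K] (A : ValuationSubring K)
  (E : Type) [Field E] [Algebra K E] [FiniteDimensional K E]

/-- The integral closure of `A` in `E` as a valuation subring of `E`. -/
noncomputable def intVS534 (hA : IsLocalRingOfIntegers A) : ValuationSubring E :=
  haveI := hA.1
  haveI := hA.2.1
  haveI := hA.2.2
  { (integralClosure A E).toSubring with
    mem_or_inv_mem' := fun x => by
      haveI := isDVR_OE A K E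
      haveI : IsFractionRing (OE A E) E := H661.intClosure_isFractionRing A K E (OE A E)
      rcases ValuationRing.isInteger_or_isInteger (OE A E) x with ⟨y, hy⟩ | ⟨y, hy⟩
      · left
        have : (y : E) = x := hy
        rw [← this]
        exact y.2
      · right
        have : (y : E) = x⁻¹ := hy
        rw [← this]
        exact y.2 }

theorem mem_intVS534 (hA : IsLocalRingOfIntegers A) (x : E) :
    x ∈ intVS534 A E hA ↔ IsIntegral A x := Iff.rfl

theorem isLocalRingOfIntegers_intVS534 (hA : IsLocalRingOfIntegers A) :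
    IsLocalRingOfIntegers (intVS534 A E hA) :=
  haveI := hA.1
  haveI := hA.2.1
  haveI := hA.2.2
  ⟨isDVR_OE A K E, isAdicComplete_OE A K E, finite_residueField_OE A K E⟩

/-- The identity, as a ring isomorphism between the two incarnations of the ring of integers. -/
noncomputable def equivVS534 (hA : IsLocalRingOfIntegers A) : intVS534 A E hA ≃+* OE A E where
  toFun x := ⟨x.1, x.2⟩
  invFun x := ⟨x.1, x.2⟩
  left_inv _ := rfl
  right_inv _ := rfl
  map_mul' _ _ := rfl
  map_add' _ _ := rfl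

/-- Uniqueness: every ring of integers of `E` is the integral closure of `A`. -/
theorem eq_intVS534 (h0 : RingOfIntegersUniqueSpec) (hA : IsLocalRingOfIntegers A)
    (B : ValuationSubring E) (hB : IsLocalRingOfIntegers B) : B = intVS534 A E hA := by
  haveI : IsLocalFld E :=
    ⟨charZero_of_injective_algebraMap (algebraMap K E).injective, ⟨B, hB⟩⟩
  exact h0 E B (intVS534 A E hA) hB (isLocalRingOfIntegers_intVS534 A E hA)

theorem coe_algebraMap_OE534 (a : A) :
    ((algebraMap A (OE A E) a : OE A E) : E) = algebraMap K E (a : K) := rfl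

/-- A uniformizer of `A` is a uniformizer of the ring of integers of `E` iff `𝔪_A C = 𝔪_C`. -/
theorem isUniformizer_intVS_iff534 (hA : IsLocalRingOfIntegers A) (π : K)
    (hπ : IsUniformizer A π) :
    haveI := hA.1
    haveI := hA.2.1
    haveI := hA.2.2
    haveI := isLocalRing_OE A K E
    IsUniformizer (intVS534 A E hA) (algebraMap K E π) ↔
      (maximalIdeal A).map (algebraMap A (OE A E)) = maximalIdeal (OE A E) := by
  haveI := hA.1
  haveI := hA.2.1
  haveI := hA.2.2
  haveI := isLocalRing_OE A K E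
  haveI := isDVR_OE A K E
  obtain ⟨hπA, hirr⟩ := hπ
  have hmax : maximalIdeal A = Ideal.span {(⟨π, hπA⟩ : A)} :=
    (IsDiscreteValuationRing.irreducible_iff_uniformizer _).mp hirr
  have hmap : (maximalIdeal A).map (algebraMap A (OE A E)) =
      Ideal.span {algebraMap A (OE A E) ⟨π, hπA⟩} := by
    rw [hmax, Ideal.map_span, Set.image_singleton]
  have hmem : algebraMap K E π ∈ intVS534 A E hA :=
    (algebraMap A (OE A E) ⟨π, hπA⟩).2
  have heq : equivVS534 A E hA ⟨algebraMap K E π, hmem⟩ = algebraMap A (OE A E) ⟨π, hπA⟩ :=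
    Subtype.ext rfl
  rw [hmap]
  constructor
  · rintro ⟨h', hirr'⟩
    have h1 : Irreducible (equivVS534 A E hA ⟨algebraMap K E π, h'⟩) :=
      (MulEquiv.irreducible_iff (equivVS534 A E hA).toMulEquiv).mpr hirr'
    rw [heq] at h1
    exact ((IsDiscreteValuationRing.irreducible_iff_uniformizer _).mp h1).symm
  · intro h
    have h1 : Irreducible (algebraMap A (OE A E) ⟨π, hπA⟩) :=
      (IsDiscreteValuationRing.irreducible_iff_uniformizer _).mpr h.symm
    rw [← heq] at h1
    exact ⟨hmem, (MulEquiv.irreducible_iff (equivVS534 A E hA).toMulEquiv).mp h1⟩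

/-- A ring of integers has a uniformizer. -/
theorem exists_isUniformizer534 (hA : IsLocalRingOfIntegers A) : ∃ π : K, IsUniformizer A π := by
  haveI := hA.1
  obtain ⟨ϖ, hϖ⟩ := IsDiscreteValuationRing.exists_irreducible A
  exact ⟨(ϖ : K), ϖ.2, hϖ⟩

end VS

end Fermat.Agent.S55.L.Unr534

end
-- ===== PACK-END S55/L/Unr534/VS.lean

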