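import Mathlib.RepresentationTheory.Homological.GroupCohomology.FiniteCyclic
import Mathlib
import Mathlib.RingTheory.RootsOfUnity.Basic
import Fermat.Agent.Pack.S56.E7L3
import Fermat.Agent.Pack.S56.E7L0
import Fermat.Agent.Pack.S56.E7L1
import Fermat.Agent.Pack.S56.E7L2
import Fermat.Agent.Pack.S56.E5L3
import Fermat.Agent.Pack.S56.E8L1
import Fermat.Agent.Pack.S56.E5L2
import Fermat.Agent.Pack.S56.E8L2
import Fermat.Agent.Pack.S56.E8L0
import Fermat.Agent.Pack.S56.E2L2
import Fermat.Agent.Pack.S56.E8L3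

-- ===== PACK-BEGIN S55/H713/NormalLattice.lean
section


/-!
# The normal basis lattice

`E/F` finite Galois, `O` a valuation subring of `E` stable under `Gal(E/F)`.
For `t : F`, `normLat O t` is the set of `x : E` whose coordinates in the normal basis,
divided by `t`, lie in `O`.
-/

set_option autoImplicit false
set_option linter.unusedSectionVars false

open IsLocalRing

namespace Fermat.Agent.S55.H713

variable {F E : Type*} [Field F] [Field E] [Algebra F E] [FiniteDimensional F E] [IsGalois F E]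
variable (O : ValuationSubring E)

/-- `O` is stable under the Galois group. -/
def GalStable (F : Type*) {E : Type*} [Field F] [Field E] [Algebra F E]
    (O : ValuationSubring E) : Prop :=
  ∀ (g : Gal(E/F)) (x : E), x ∈ O → g x ∈ O

/-- The normal basis. -/
noncomputable abbrev nb (F E : Type*) [Field F] [Field E] [Algebra F E] [FiniteDimensional F E]
    [IsGalois F E] : Module.Basis Gal(E/F) F E := IsGalois.normalBasis F E

lemma galois_nb (g h : Gal(E/F)) : g (nb F E h) = nb F E (g * h) := by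
  rw [IsGalois.normalBasis_apply h, IsGalois.normalBasis_apply (g * h)]
  rfl

lemma repr_galois (g : Gal(E/F)) (x : E) (k : Gal(E/F)) :
    (nb F E).repr (g x) k = (nb F E).repr x (g⁻¹ * k) := by
  classical
  conv_lhs => rw [← (nb F E).sum_repr x]
  rw [map_sum, map_sum, Finset.sum_apply']
  have : ∀ h : Gal(E/F), (nb F E).repr (g (((nb F E).repr x) h • (nb F E) h)) k =
      if h = g⁻¹ * k then (nb F E).repr x h else 0 := by
    intro h
    rw [map_smul, galois_nb, map_smul, Module.Basis.repr_self, Finsupp.smul_apply,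
      Finsupp.single_apply, smul_eq_mul]
    by_cases hk : h = g⁻¹ * k
    · subst hk; simp
    · have : g * h ≠ k := fun e => hk (by rw [← e]; group)
      simp [this, hk]
  simp_rw [this]
  simp

/-- The lattice of elements whose normal basis coordinates lie in `t • (O ∩ F)`. -/
def normLat (t : F) : AddSubgroup E where
  carrier := {x | ∀ g, algebraMap F E ((nb F E).repr x g / t) ∈ O}
  zero_mem' := by intro g; simp [O.zero_mem]
  add_mem' := by
    intro x y hx hy g
    have : ((nb F E).repr (x + y) g) / t = (nb F E).repr x g / t + (nb F E).repr y g / t := by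
      rw [map_add, Finsupp.add_apply, add_div]
    rw [this, map_add]
    exact O.add_mem _ _ (hx g) (hy g)
  neg_mem' := by
    intro x hx g
    have : ((nb F E).repr (-x) g) / t = -((nb F E).repr x g / t) := by
      rw [map_neg, Finsupp.neg_apply, neg_div]
    rw [this, map_neg]
    exact O.neg_mem _ (hx g)

variable {O}

lemma mem_normLat {t : F} {x : E} :
    x ∈ normLat O t ↔ ∀ g, algebraMap F E ((nb F E).repr x g / t) ∈ O := Iff.rfl

lemma smul_mem_normLat {t : F} {c : F} (hc : algebraMap F E c ∈ O) {x : E}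
    (hx : x ∈ normLat O t) : c • x ∈ normLat O t := by
  intro g
  have : ((nb F E).repr (c • x) g) / t = c * ((nb F E).repr x g / t) := by
    rw [map_smul, Finsupp.smul_apply, smul_eq_mul, mul_div_assoc]
  rw [this, map_mul]
  exact O.mul_mem _ _ hc (hx g)

lemma galois_mem_normLat {t : F} (g : Gal(E/F)) {x : E} (hx : x ∈ normLat O t) :
    g x ∈ normLat O t := by
  intro k
  rw [repr_galois]
  exact hx _

lemma smul_nb_mem_normLat {t : F} (ht : t ≠ 0) (g : Gal(E/F)) : t • nb F E g ∈ normLat O t := by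
  classical
  intro k
  rw [map_smul, Module.Basis.repr_self, Finsupp.smul_apply, Finsupp.single_apply, smul_eq_mul]
  by_cases h : g = k
  · simp [h, ht, O.one_mem]
  · simp [h, O.zero_mem]

/-- scaling: `x ∈ normLat (s * t) ↔ s⁻¹ • x ∈ normLat t`. -/
lemma mem_normLat_mul {s t : F} (hs : s ≠ 0) {x : E} :
    x ∈ normLat O (s * t) ↔ s⁻¹ • x ∈ normLat O t := by
  have : ∀ g, ((nb F E).repr (s⁻¹ • x) g) / t = (nb F E).repr x g / (s * t) := by
    intro g
    rw [map_smul, Finsupp.smul_apply, smul_eq_mul]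
    field_simp
  simp only [mem_normLat, this]

lemma smul_mem_normLat_mul {s t : F} (hs : s ≠ 0) {x : E} (hx : x ∈ normLat O t) :
    s • x ∈ normLat O (s * t) := by
  rw [mem_normLat_mul hs, smul_smul, inv_mul_cancel₀ hs, one_smul]
  exact hx

/-- elements of `normLat t` are in `O` when `t • θ ∈ O`. -/
lemma normLat_le (hstab : GalStable F O) {t : F} (ht : t ≠ 0)
    (hθ : t • nb F E 1 ∈ O) {x : E} (hx : x ∈ normLat O t) : x ∈ O := by
  rw [← (nb F E).sum_repr x]
  refine O.toSubring.sum_mem (fun g _ => ?_)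
  have h1 : (nb F E).repr x g • nb F E g =
      algebraMap F E ((nb F E).repr x g / t) * (t • nb F E g) := by
    rw [Algebra.smul_def, Algebra.smul_def, ← mul_assoc, ← map_mul, div_mul_cancel₀ _ ht]
  rw [h1]
  refine O.mul_mem _ _ (hx g) ?_
  have h2 : t • nb F E g = g (t • nb F E 1) := by
    rw [map_smul, galois_nb, mul_one]
  rw [h2]
  exact hstab g _ hθ


/-! ### The trace-dual basis and openness -/

open scoped Classical in
/-- The trace-dual of the normal basis. -/
noncomputable def dnb (F E : Type*) [Field F] [Field E] [Algebra F E] [FiniteDimensional F E]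
    [IsGalois F E] : Module.Basis Gal(E/F) F E :=
  (Algebra.traceForm F E).dualBasis (traceForm_nondegenerate F E) (nb F E)

open scoped Classical in
lemma repr_eq_trace (x : E) (g : Gal(E/F)) :
    (nb F E).repr x g = Algebra.trace F E (x * dnb F E g) := by
  have h : (Algebra.traceForm F E).dualBasis (traceForm_nondegenerate F E) (dnb F E) = nb F E :=
    LinearMap.BilinForm.dualBasis_dualBasis (traceForm_nondegenerate F E)
      (Algebra.traceForm_isSymm F) (nb F E)
  have h2 := LinearMap.BilinForm.dualBasis_repr_apply (traceForm_nondegenerate F E)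
    (dnb F E) x g
  rw [← Algebra.traceForm_apply, ← h2, h]

lemma trace_mem (hstab : GalStable F O) {x : E} (hx : x ∈ O) :
    algebraMap F E (Algebra.trace F E x) ∈ O := by
  rw [trace_eq_sum_automorphisms]
  exact O.toSubring.sum_mem (fun g _ => hstab g x hx)

/-- Openness: if `(s / t) • d ∈ O` for all dual basis vectors `d`, then `s • O ⊆ normLat t`. -/
lemma smul_mem_normLat_of_mem (hstab : GalStable F O) {s t : F}
    (hd : ∀ g, (s / t) • dnb F E g ∈ O) {x : E} (hx : x ∈ O) : s • x ∈ normLat O t := by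
  intro g
  have : ((nb F E).repr (s • x) g) / t = Algebra.trace F E (x * ((s / t) • dnb F E g)) := by
    rw [map_smul, Finsupp.smul_apply, smul_eq_mul, repr_eq_trace, mul_smul_comm, map_smul,
      smul_eq_mul]
    ring
  rw [this]
  exact trace_mem hstab (O.mul_mem _ _ hx (hd g))

/-! ### Parameters -/

/-- A parameter: a nonzero element of `F` lying in the maximal ideal of `O`. -/
structure IsParam (O : ValuationSubring E) (p : F) : Prop where
  ne_zero : p ≠ 0
  mem : algebraMap F E p ∈ O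
  inv_not_mem : (algebraMap F E p)⁻¹ ∉ O

namespace IsParam

variable {p : F} (hp : IsParam O p)
include hp

lemma pow_mem (k : ℕ) : algebraMap F E (p ^ k) ∈ O := by
  rw [map_pow]; exact O.toSubring.pow_mem hp.mem k

lemma pow_ne_zero (k : ℕ) : p ^ k ≠ 0 := _root_.pow_ne_zero k hp.ne_zero

lemma smul_mem {x : E} (hx : x ∈ O) (k : ℕ) : p ^ k • x ∈ O := by
  rw [Algebra.smul_def]; exact O.mul_mem _ _ (hp.pow_mem k) hx

lemma smul_mem_of_le {x : E} {k l : ℕ} (hkl : k ≤ l) (hx : p ^ k • x ∈ O) : p ^ l • x ∈ O := by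
  obtain ⟨d, rfl⟩ := Nat.exists_eq_add_of_le hkl
  rw [add_comm, pow_add, mul_smul]
  exact hp.smul_mem hx d

/-- The parameter as an element of `O`. -/
def toO : O := ⟨algebraMap F E p, hp.mem⟩

lemma toO_ne_zero : hp.toO ≠ 0 := by
  intro h
  have : algebraMap F E p = 0 := congrArg Subtype.val h
  exact hp.ne_zero ((map_eq_zero _).1 this)

lemma toO_mem_maximalIdeal : hp.toO ∈ maximalIdeal O := by
  rw [mem_maximalIdeal, mem_nonunits_iff]
  intro hu
  obtain ⟨u, hu⟩ := hu
  apply hp.inv_not_mem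
  have h1 : ((u⁻¹ : Oˣ) : E) = (algebraMap F E p)⁻¹ := by
    have h2 : ((u : O) : E) * ((u⁻¹ : Oˣ) : O) = 1 := by
      rw [← Subring.coe_mul]
      simp
    have h3 : ((u : O) : E) = algebraMap F E p := by rw [hu]; rfl
    rw [h3] at h2
    exact eq_inv_of_mul_eq_one_right h2
  rw [← h1]
  exact ((u⁻¹ : Oˣ) : O).2

end IsParam

end Fermat.Agent.S55.H713

end
-- ===== PACK-END S55/H713/NormalLattice.lean

-- ===== PACK-BEGIN S55/Herbrand/RepBridge.lean
section



/-!
# Herbrand quotient and Mathlib's group cohomology of finite cyclic groups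

For a finite cyclic group `G` generated by `g`, of order `n`, and `A : Rep k G`:

* `card_groupCohomology_even` : `Nat.card (Hⁱ(G, A)) = h0 (ρ g) n` for even `i > 0`;
* `card_groupCohomology_odd` : `Nat.card (Hⁱ(G, A)) = h1 (ρ g) n` for odd `i`;
* `herbrand_eq_card_div_card` : `herbrand (ρ g) n = |H²(G, A)| / |H¹(G, A)|`.

(`Nat.card` of an infinite type is `0`, matching the junk value of `h0`, `h1`.)
-/

set_option autoImplicit false

namespace Fermat.Agent.S55.Herbrand

open CategoryTheory Rep Rep.FiniteCyclicGroup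

universe u

section SumPowers

variable {G : Type*} [Group G] [Fintype G]

lemma sum_eq_sum_range_pow {M : Type*} [AddCommMonoid M] (g : G)
    (hg : ∀ x, x ∈ Subgroup.zpowers g) (f : G → M) :
    ∑ h : G, f h = ∑ i ∈ Finset.range (Nat.card G), f (g ^ i) := by
  classical
  have hord : orderOf g = Nat.card G := orderOf_eq_card_of_forall_mem_zpowers hg
  rw [← hord]
  symm
  refine Finset.sum_bij (fun i _ => g ^ i) (fun _ _ => Finset.mem_univ _) ?_ ?_ (fun _ _ => rfl)
  · intro i hi j hj hij
    exact pow_injOn_Iio_orderOf (by simpa using hi) (by simpa using hj) hij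
  · intro h _
    obtain ⟨i, hi, rfl⟩ :=
      Finset.mem_image.1 ((mem_zpowers_iff_mem_range_orderOf (x := g) (y := h)).1 (hg h))
    exact ⟨i, hi, rfl⟩

end SumPowers

variable {k G : Type u} [CommRing k] [CommGroup G] (A : Rep k G) (g : G)

/-- the action of `g` as an additive endomorphism. -/
def repEnd : AddMonoid.End A.V := (A.ρ g).toAddMonoidHom

@[simp] lemma repEnd_apply (x : A.V) : repEnd A g x = A.ρ g x := rfl

lemma repEnd_pow_apply (i : ℕ) (x : A.V) : (repEnd A g ^ i) x = A.ρ (g ^ i) x := by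
  induction i generalizing x with
  | zero => simp
  | succ i ih =>
    rw [pow_succ, pow_succ]
    change (repEnd A g ^ i) (repEnd A g x) = _
    rw [ih, repEnd_apply, map_mul]
    rfl

lemma delta_repEnd_apply (x : A.V) :
    delta (repEnd A g) x = (applyAsHom A g - 𝟙 A).hom.toLinearMap x := by
  simp [sub_hom, applyAsHom]

lemma ker_delta_repEnd :
    AddMonoidHom.ker (delta (repEnd A g)) =
      (LinearMap.ker (applyAsHom A g - 𝟙 A).hom.toLinearMap).toAddSubgroup := by
  ext x
  rw [AddMonoidHom.mem_ker, delta_repEnd_apply]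
  rfl

lemma range_delta_repEnd :
    AddMonoidHom.range (delta (repEnd A g)) =
      (LinearMap.range (applyAsHom A g - 𝟙 A).hom.toLinearMap).toAddSubgroup := by
  ext x
  constructor
  · rintro ⟨y, rfl⟩
    exact ⟨y, (delta_repEnd_apply A g y).symm⟩
  · rintro ⟨y, rfl⟩
    exact ⟨y, delta_repEnd_apply A g y⟩

/-- cardinality of the target of a surjective linear map whose kernel is the preimage of a
submodule `R` under the inclusion of a submodule `K`. -/
lemma card_eq_relIndex_of_surjective {M H : Type*} [AddCommGroup M] [Module k M]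
    [AddCommGroup H] [Module k H] (K R : Submodule k M) (π : K →ₗ[k] H)
    (hπ : Function.Surjective π) (hker : ∀ x : K, π x = 0 ↔ (x : M) ∈ R) :
    Nat.card H = R.toAddSubgroup.relIndex K.toAddSubgroup := by
  have e := (QuotientAddGroup.quotientKerEquivOfSurjective π.toAddMonoidHom hπ).toEquiv
  rw [← Nat.card_congr e]
  change (AddMonoidHom.ker π.toAddMonoidHom).index = _
  rw [AddSubgroup.relIndex]
  congr 1
  ext x
  rw [AddMonoidHom.mem_ker, AddSubgroup.mem_addSubgroupOf]
  exact hker x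

variable [Fintype G]

omit [Fintype G] in
lemma repEnd_pow_card [Finite G] : repEnd A g ^ Nat.card G = 1 := by
  ext x
  rw [repEnd_pow_apply, pow_card_eq_one', map_one]
  rfl

variable (hg : ∀ x, x ∈ Subgroup.zpowers g)
include hg

lemma normN_repEnd_apply (x : A.V) :
    normN (repEnd A g) (Nat.card G) x = A.norm.hom.toLinearMap x := by
  rw [normN_apply]
  have : A.norm.hom.toLinearMap x = ∑ h : G, A.ρ h x := by
    simp [Rep.norm, Representation.norm]
  rw [this, sum_eq_sum_range_pow g hg]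
  exact Finset.sum_congr rfl fun i _ => repEnd_pow_apply A g i x

lemma ker_normN_repEnd :
    AddMonoidHom.ker (normN (repEnd A g) (Nat.card G)) =
      (LinearMap.ker A.norm.hom.toLinearMap).toAddSubgroup := by
  ext x
  rw [AddMonoidHom.mem_ker, normN_repEnd_apply A g hg]
  rfl

lemma range_normN_repEnd :
    AddMonoidHom.range (normN (repEnd A g) (Nat.card G)) =
      (LinearMap.range A.norm.hom.toLinearMap).toAddSubgroup := by
  ext x
  constructor
  · rintro ⟨y, rfl⟩
    exact ⟨y, (normN_repEnd_apply A g hg y).symm⟩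
  · rintro ⟨y, rfl⟩
    exact ⟨y, normN_repEnd_apply A g hg y⟩

/-- **`|Hⁱ(G, A)| = [A^G : N A]`** for even `i > 0` and `G` finite cyclic. -/
theorem card_groupCohomology_even (i : ℕ) [NeZero i] (hi : Even i) :
    Nat.card (groupCohomology A i) = h0 (repEnd A g) (Nat.card G) := by
  rw [h0_eq_relIndex, ker_delta_repEnd A g, range_normN_repEnd A g hg]
  refine card_eq_relIndex_of_surjective _ _ (groupCohomologyπEven A g hg i hi).hom ?_
    (groupCohomologyπEven_eq_zero_iff A g hg i hi)
  rw [← ModuleCat.epi_iff_surjective]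
  refine @epi_comp _ _ _ _ _ _ (@IsIso.epi_of_iso _ _ _ _ _ (Iso.isIso_inv _)) _
    (@epi_comp _ _ _ _ _ _ ?_ _ (@IsIso.epi_of_iso _ _ _ _ _ (Iso.isIso_inv _)))
  infer_instance

/-- **`|Hⁱ(G, A)| = [ker N : (g - 1) A]`** for odd `i` and `G` finite cyclic. -/
theorem card_groupCohomology_odd (i : ℕ) (hi : Odd i) :
    Nat.card (groupCohomology A i) = h1 (repEnd A g) (Nat.card G) := by
  rw [h1_eq_relIndex, ker_normN_repEnd A g hg, range_delta_repEnd A g]
  refine card_eq_relIndex_of_surjective _ _ (groupCohomologyπOdd A g hg i hi).hom ?_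
    (groupCohomologyπOdd_eq_zero_iff A g hg i hi)
  rw [← ModuleCat.epi_iff_surjective]
  refine @epi_comp _ _ _ _ _ _ (@IsIso.epi_of_iso _ _ _ _ _ (Iso.isIso_inv _)) _
    (@epi_comp _ _ _ _ _ _ ?_ _ (@IsIso.epi_of_iso _ _ _ _ _ (Iso.isIso_inv _)))
  infer_instance

/-- The Herbrand quotient is `|H²| / |H¹|`. -/
theorem herbrand_eq_card_div_card :
    herbrand (repEnd A g) (Nat.card G) =
      (Nat.card (groupCohomology A 2) : ℚ) / (Nat.card (groupCohomology A 1) : ℚ) := by
  rw [herbrand_eq_div, card_groupCohomology_even A g hg 2 (by decide),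
    card_groupCohomology_odd A g hg 1 (by decide)]

/-- periodicity of the orders of cohomology groups of a finite cyclic group. -/
theorem card_groupCohomology_add_two (i : ℕ) [NeZero i] :
    Nat.card (groupCohomology A (i + 2)) = Nat.card (groupCohomology A i) := by
  rcases Nat.even_or_odd i with hi | hi
  · rw [card_groupCohomology_even A g hg i hi,
      card_groupCohomology_even A g hg (i + 2) (by simpa [Nat.even_add] using hi)]
  · rw [card_groupCohomology_odd A g hg i hi,
      card_groupCohomology_odd A g hg (i + 2) (by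
        rcases hi with ⟨m, rfl⟩; exact ⟨m + 1, by ring⟩)]

end Fermat.Agent.S55.Herbrand

end
-- ===== PACK-END S55/Herbrand/RepBridge.lean

-- ===== PACK-BEGIN S55/L/H2Glue.lean
section


/-!
# S55, layer L: `H²` is cyclic of order `n` from the upper and the lower bound
-/

set_option autoImplicit false
set_option linter.style.haveILetI false

namespace Fermat.Agent.S55.L

open groupCohomology

/-- **L-C1b** lower bound: `H²(Gal(L/K), Lˣ)` contains an element of order `[L : K]`. -/
def H2LowerSpec : Prop :=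
  ∀ (K L : Type) [Field K] [Field L] [Algebra K L] [FiniteDimensional K L] [IsGalois K L]
    [IsLocalFld K], ∃ x : H2 (unitsRep K L), addOrderOf x = Module.finrank K L

/-- A finite additive group of order at most `n` with an element of order `n` is `ZMod n`. -/
theorem nonempty_addEquiv_zmod_of_card_le {G : Type*} [AddCommGroup G] [Finite G] {n : ℕ}
    (hle : Nat.card G ≤ n) (x : G) (hx : addOrderOf x = n) : Nonempty (G ≃+ ZMod n) := by
  have hcard : Nat.card G = n := by
    refine le_antisymm hle ?_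
    rw [← hx]
    exact Nat.le_of_dvd Nat.card_pos (addOrderOf_dvd_natCard x)
  have hcyc : IsAddCyclic G := isAddCyclic_of_addOrderOf_eq_card x (by rw [hx, hcard])
  have e := zmodAddCyclicAddEquiv hcyc
  rw [hcard] at e
  exact ⟨e.symm⟩

/-- **L-C1** from the upper and lower bounds. -/
theorem h2Cyclic_of (hle : H2CardLeSpec) (hlow : H2LowerSpec) : H2CyclicSpec := by
  intro K L _ _ _ _ _ _
  obtain ⟨hfin, hcard⟩ := hle K L
  obtain ⟨x, hx⟩ := hlow K L
  haveI := hfin
  exact nonempty_addEquiv_zmod_of_card_le hcard x hx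

end Fermat.Agent.S55.L

end
-- ===== PACK-END S55/L/H2Glue.lean

-- ===== PACK-BEGIN S55/G/Rec/RelNormH707.lean
section


/-!
# S55 / layer G / block REC : library for `relNorm`  (helper707)

`relNorm H b = ∏ᶠ t : G ⧸ H, (Quotient.out t) • b`  (Defs2).  For `H` of finite index and `b` fixed
by `H`:

* `out_smul`            : `(Quotient.out (g : G ⧸ H)) • b = g • b`;
* `relNorm_eq_prod`     : `relNorm H b = ∏ t : G ⧸ H, (Quotient.out t) • b` (Fintype product);
* `smul_relNorm`        : `σ • relNorm H b = relNorm H b` for all `σ : G`;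
* `relNorm_mul`, `relNorm_one`, `relNorm_inv`, `relNorm_pow`, `relNorm_zpow`;
* `relNorm_of_fixed`    : `relNorm H b = b ^ H.index` if `b` is fixed by `G`;
* `relNorm_trans`       : **(SA1) transitivity** `relNorm V (relNorm K b) = relNorm (K.map V.subtype) b`
                          for `K ≤ ↥V ≤ G`;
* local:  `finiteIndex_of_isOpenL`, `relNorm_rational_local` (`relNorm V a ∈ ℚ_qˣ`),
          `norm_relNorm_local` (`‖relNorm V a‖ = ‖a‖ ^ V.index`), `vdeg_eq_valuation`;
* global: `finiteIndex_of_isOpenQ`, `relNorm_rational_global` (first half of `OrbitNormSpec`).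
-/

set_option autoImplicit false
set_option linter.style.haveILetI false

noncomputable section

namespace Fermat.Agent.S55.G.Rec.RelNormH707

open Fermat.Agent.S55.G.Rec

section General

variable {G M : Type*} [Group G] [CommGroup M] [MulDistribMulAction G M]

/-- `b` is fixed by the subgroup `H`. -/
def FixedBy (H : Subgroup G) (b : M) : Prop := ∀ h ∈ H, h • b = b

lemma smul_eq_of_coset {H : Subgroup G} {b : M} (hb : FixedBy H b) {σ τ : G}
    (h : (σ : G ⧸ H) = (τ : G ⧸ H)) : σ • b = τ • b := by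
  have h1 : σ⁻¹ * τ ∈ H := QuotientGroup.eq.mp h
  have h2 : (σ⁻¹ * τ) • b = b := hb _ h1
  calc σ • b = σ • ((σ⁻¹ * τ) • b) := by rw [h2]
    _ = τ • b := by rw [smul_smul, mul_inv_cancel_left]

lemma out_smul {H : Subgroup G} {b : M} (hb : FixedBy H b) (g : G) :
    (Quotient.out (g : G ⧸ H) : G) • b = g • b :=
  smul_eq_of_coset hb (Quotient.out_eq' _)

lemma relNorm_eq_prod (H : Subgroup G) [Fintype (G ⧸ H)] (b : M) :
    relNorm H b = ∏ t : G ⧸ H, (Quotient.out t : G) • b :=
  finprod_eq_prod_of_fintype _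

lemma smul_relNorm {H : Subgroup G} [H.FiniteIndex] {b : M} (hb : FixedBy H b) (σ : G) :
    σ • relNorm H b = relNorm H b := by
  letI : Fintype (G ⧸ H) := Subgroup.fintypeQuotientOfFiniteIndex
  rw [relNorm_eq_prod, Finset.smul_prod']
  have hperm : ∀ t : G ⧸ H, σ • ((Quotient.out t : G) • b) = (Quotient.out (σ • t) : G) • b := by
    intro t
    rw [smul_smul]
    refine smul_eq_of_coset hb ?_
    have h2 : ((Quotient.out (σ • t) : G) : G ⧸ H) = σ • t := Quotient.out_eq' _
    have h3 : ((σ * Quotient.out t : G) : G ⧸ H) = σ • ((Quotient.out t : G) : G ⧸ H) := rfl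
    rw [h2, h3]
    congr 1
    exact Quotient.out_eq' t
  rw [Finset.prod_congr rfl (fun t _ => hperm t)]
  exact Fintype.prod_equiv (MulAction.toPerm σ) _ _ (fun t => rfl)

lemma relNorm_mul (H : Subgroup G) [H.FiniteIndex] (a b : M) :
    relNorm H (a * b) = relNorm H a * relNorm H b := by
  letI : Fintype (G ⧸ H) := Subgroup.fintypeQuotientOfFiniteIndex
  simp only [relNorm_eq_prod, smul_mul', Finset.prod_mul_distrib]

lemma relNorm_one (H : Subgroup G) : relNorm H (1 : M) = 1 := by
  unfold relNorm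
  simp only [smul_one, finprod_one]

/-- `relNorm H` as a monoid homomorphism. -/
def relNormHom (H : Subgroup G) [H.FiniteIndex] : M →* M where
  toFun := relNorm H
  map_one' := relNorm_one H
  map_mul' := relNorm_mul H

@[simp] lemma relNormHom_apply (H : Subgroup G) [H.FiniteIndex] (b : M) :
    relNormHom H b = relNorm H b := rfl

lemma relNorm_inv (H : Subgroup G) [H.FiniteIndex] (b : M) :
    relNorm H b⁻¹ = (relNorm H b)⁻¹ := map_inv (relNormHom H) b

lemma relNorm_pow (H : Subgroup G) [H.FiniteIndex] (b : M) (n : ℕ) :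
    relNorm H (b ^ n) = relNorm H b ^ n := map_pow (relNormHom H) b n

lemma relNorm_zpow (H : Subgroup G) [H.FiniteIndex] (b : M) (n : ℤ) :
    relNorm H (b ^ n) = relNorm H b ^ n := map_zpow (relNormHom H) b n

lemma relNorm_prod (H : Subgroup G) [H.FiniteIndex] {ι : Type*} (s : Finset ι) (f : ι → M) :
    relNorm H (∏ i ∈ s, f i) = ∏ i ∈ s, relNorm H (f i) := map_prod (relNormHom H) f s

lemma relNorm_of_fixed (H : Subgroup G) [H.FiniteIndex] {b : M} (hb : ∀ g : G, g • b = b) :
    relNorm H b = b ^ H.index := by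
  letI : Fintype (G ⧸ H) := Subgroup.fintypeQuotientOfFiniteIndex
  rw [relNorm_eq_prod]
  simp only [hb]
  rw [Finset.prod_const, Finset.card_univ, Subgroup.index_eq_card, Nat.card_eq_fintype_card]

/-- the norm of an `H`-fixed element over any system of representatives -/
lemma relNorm_eq_prod_of_bijective {H : Subgroup G} [H.FiniteIndex] {b : M} (hb : FixedBy H b)
    {ι : Type*} [Fintype ι] (r : ι → G)
    (hr : Function.Bijective fun i => ((r i : G) : G ⧸ H)) :
    relNorm H b = ∏ i, r i • b := by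
  letI : Fintype (G ⧸ H) := Subgroup.fintypeQuotientOfFiniteIndex
  rw [relNorm_eq_prod]
  symm
  refine Fintype.prod_bijective _ hr _ _ fun i => ?_
  exact (out_smul hb (r i)).symm

/-! ### Transitivity -/

variable (V : Subgroup G) (K : Subgroup ↥V)

lemma fixedBy_relNorm_sub {b : M} [K.FiniteIndex]
    (hb : FixedBy (K.map V.subtype) b) : FixedBy V (relNorm K b) := by
  intro v hv
  have hb' : FixedBy K b := fun k hk => hb (k : G) ⟨k, hk, rfl⟩
  exact smul_relNorm (G := ↥V) hb' ⟨v, hv⟩

/-- the map `(t, s) ↦ (out t) (out s) K'` -/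
def pairMap : (G ⧸ V) × (↥V ⧸ K) → G ⧸ (K.map V.subtype) :=
  fun p => (((Quotient.out p.1 : G) * ((Quotient.out p.2 : ↥V) : G) : G) : G ⧸ (K.map V.subtype))

lemma map_subtype_le_self : K.map V.subtype ≤ V := by
  rintro _ ⟨k, -, rfl⟩
  exact k.2

lemma pairMap_injective : Function.Injective (pairMap V K) := by
  rintro ⟨t, s⟩ ⟨t', s'⟩ h
  have h1 : ((Quotient.out t : G) * ((Quotient.out s : ↥V) : G))⁻¹ *
      ((Quotient.out t' : G) * ((Quotient.out s' : ↥V) : G)) ∈ K.map V.subtype :=
    QuotientGroup.eq.mp h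
  have h2 := map_subtype_le_self V K h1
  -- first components agree
  have h3 : (Quotient.out t : G)⁻¹ * (Quotient.out t' : G) ∈ V := by
    have e : (Quotient.out t : G)⁻¹ * (Quotient.out t' : G) =
        ((Quotient.out s : ↥V) : G) *
          (((Quotient.out t : G) * ((Quotient.out s : ↥V) : G))⁻¹ *
            ((Quotient.out t' : G) * ((Quotient.out s' : ↥V) : G))) *
          ((Quotient.out s' : ↥V) : G)⁻¹ := by group
    rw [e]
    exact V.mul_mem (V.mul_mem (Quotient.out s).2 h2) (V.inv_mem (Quotient.out s').2)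
  have ht : t = t' := by
    have := (QuotientGroup.eq (s := V)).mpr h3
    exact (QuotientGroup.out_eq' t).symm.trans (this.trans (QuotientGroup.out_eq' t'))
  subst ht
  have h4 : ((Quotient.out s : ↥V) : G)⁻¹ * ((Quotient.out s' : ↥V) : G) ∈ K.map V.subtype := by
    have e : ((Quotient.out s : ↥V) : G)⁻¹ * ((Quotient.out s' : ↥V) : G) =
        ((Quotient.out t : G) * ((Quotient.out s : ↥V) : G))⁻¹ *
            ((Quotient.out t : G) * ((Quotient.out s' : ↥V) : G)) := by group
    rw [e]
    exact h1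
  obtain ⟨k, hk, hk'⟩ := h4
  have h5 : (Quotient.out s : ↥V)⁻¹ * (Quotient.out s' : ↥V) = k := by
    apply Subtype.ext
    exact hk'.symm
  have hs : s = s' := by
    have := (QuotientGroup.eq (s := K)).mpr (h5 ▸ hk)
    exact (QuotientGroup.out_eq' s).symm.trans (this.trans (QuotientGroup.out_eq' s'))
  rw [hs]

lemma pairMap_surjective : Function.Surjective (pairMap V K) := by
  intro x
  induction x using QuotientGroup.induction_on with
  | H g =>
    set t : G ⧸ V := (g : G ⧸ V) with ht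
    have h1 : (Quotient.out t : G)⁻¹ * g ∈ V := by
      apply QuotientGroup.eq.mp
      rw [ht]
      exact Quotient.out_eq' _
    set v : ↥V := ⟨(Quotient.out t : G)⁻¹ * g, h1⟩ with hv
    set s : ↥V ⧸ K := (v : ↥V ⧸ K) with hs
    refine ⟨(t, s), ?_⟩
    unfold pairMap
    apply QuotientGroup.eq.mpr
    have h2 : (Quotient.out s : ↥V)⁻¹ * v ∈ K := by
      apply QuotientGroup.eq.mp
      rw [hs]
      exact Quotient.out_eq' _
    refine ⟨(Quotient.out s : ↥V)⁻¹ * v, h2, ?_⟩
    simp only [Subgroup.coe_subtype, Subgroup.coe_mul, Subgroup.coe_inv, hv]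
    group

lemma pairMap_bijective : Function.Bijective (pairMap V K) :=
  ⟨pairMap_injective V K, pairMap_surjective V K⟩

theorem finiteIndex_map [V.FiniteIndex] [K.FiniteIndex] : (K.map V.subtype).FiniteIndex := by
  haveI : Finite ((G ⧸ V) × (↥V ⧸ K)) := inferInstance
  haveI : Finite (G ⧸ (K.map V.subtype)) :=
    Finite.of_surjective _ (pairMap_surjective V K)
  exact Subgroup.finiteIndex_of_finite_quotient

/-- **(SA1) transitivity of the norm**: for `K ≤ ↥V ≤ G` of finite indices and `b` fixed by `K`,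
`N_{G/V} (N_{V/K} b) = N_{G/K} b`. -/
theorem relNorm_trans [V.FiniteIndex] [K.FiniteIndex] {b : M}
    (hb : FixedBy (K.map V.subtype) b) :
    relNorm V (relNorm (G := ↥V) K b) = relNorm (K.map V.subtype) b := by
  haveI := finiteIndex_map V K
  letI : Fintype (G ⧸ V) := Subgroup.fintypeQuotientOfFiniteIndex
  letI : Fintype (↥V ⧸ K) := Subgroup.fintypeQuotientOfFiniteIndex
  rw [relNorm_eq_prod_of_bijective hb
    (fun p : (G ⧸ V) × (↥V ⧸ K) => (Quotient.out p.1 : G) * ((Quotient.out p.2 : ↥V) : G))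
    (pairMap_bijective V K)]
  rw [relNorm_eq_prod V, relNorm_eq_prod K, Fintype.prod_prod_type]
  refine Finset.prod_congr rfl fun t _ => ?_
  rw [Finset.smul_prod']
  refine Finset.prod_congr rfl fun s _ => ?_
  rw [← smul_smul]
  rfl

end General

/-! ## Local norms -/

section Local

variable (q : ℕ) [Fact q.Prime]

local notation "Gq" => (PadicAlgCl q ≃ₐ[ℚ_[q]] PadicAlgCl q)

lemma isGalois_local : IsGalois ℚ_[q] (PadicAlgCl q) := by
  haveI : IsAlgClosure ℚ_[q] (PadicAlgCl q) := ⟨inferInstance, inferInstance⟩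
  haveI : Normal ℚ_[q] (PadicAlgCl q) := IsAlgClosure.normal ℚ_[q] (PadicAlgCl q)
  exact isGalois_iff.mpr ⟨inferInstance, inferInstance⟩

lemma finiteIndex_of_isOpenL {V : Subgroup Gq} (hV : IsOpenL q V) : V.FiniteIndex := by
  obtain ⟨E, hE, hle⟩ := hV
  haveI := isGalois_local q
  haveI : E.fixingSubgroup.FiniteIndex := by
    refine ⟨?_⟩
    rw [← IntermediateField.finrank_eq_fixingSubgroup_index]
    exact Module.finrank_pos.ne'
  exact Subgroup.finiteIndex_of_le hle

lemma lFixed_iff_fixedBy {V : Subgroup Gq} {a : (PadicAlgCl q)ˣ} :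
    LFixed q V a ↔ FixedBy V a := Iff.rfl

/-- the local norm is rational -/
theorem relNorm_rational_local {V : Subgroup Gq} [V.FiniteIndex] {a : (PadicAlgCl q)ˣ}
    (ha : LFixed q V a) :
    ∃ y : ℚ_[q], y ≠ 0 ∧ ((relNorm V a : (PadicAlgCl q)ˣ) : PadicAlgCl q) =
      algebraMap ℚ_[q] (PadicAlgCl q) y := by
  haveI := isGalois_local q
  have hfix : ((relNorm V a : (PadicAlgCl q)ˣ) : PadicAlgCl q) ∈
      IntermediateField.fixedField (⊤ : Subgroup Gq) := by
    rintro ⟨τ, -⟩
    have := congrArg (fun u : (PadicAlgCl q)ˣ => (u : PadicAlgCl q)) (smul_relNorm (H := V) ha τ)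
    exact this
  rw [InfiniteGalois.fixedField_bot, IntermediateField.mem_bot] at hfix
  obtain ⟨y, hy⟩ := hfix
  refine ⟨y, ?_, hy.symm⟩
  rintro rfl
  rw [map_zero] at hy
  exact (relNorm V a).ne_zero hy.symm

/-- absolute value of the local norm -/
theorem norm_relNorm_local (V : Subgroup Gq) [V.FiniteIndex] (a : (PadicAlgCl q)ˣ) :
    ‖((relNorm V a : (PadicAlgCl q)ˣ) : PadicAlgCl q)‖ = ‖(a : PadicAlgCl q)‖ ^ V.index := by
  letI : Fintype (Gq ⧸ V) := Subgroup.fintypeQuotientOfFiniteIndex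
  rw [relNorm_eq_prod, Units.coe_prod, norm_prod]
  have h : ∀ t : Gq ⧸ V, ‖(((Quotient.out t : Gq) • a : (PadicAlgCl q)ˣ) : PadicAlgCl q)‖ =
      ‖(a : PadicAlgCl q)‖ := fun t =>
    (spectralNorm_eq_of_equiv (Quotient.out t : Gq) (a : PadicAlgCl q)).symm
  simp only [h]
  rw [Finset.prod_const, Finset.card_univ, Subgroup.index_eq_card, Nat.card_eq_fintype_card]

/-- `vdeg` is the valuation of the norm -/
theorem vdeg_eq_valuation {V : Subgroup Gq} [V.FiniteIndex] {a : (PadicAlgCl q)ˣ} {y : ℚ_[q]}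
    (hy0 : y ≠ 0)
    (hy : ((relNorm V a : (PadicAlgCl q)ˣ) : PadicAlgCl q) = algebraMap ℚ_[q] (PadicAlgCl q) y) :
    vdeg q V a = y.valuation := by
  have hq : 1 < q := (Fact.out : q.Prime).one_lt
  unfold vdeg
  rw [← norm_relNorm_local, hy, PadicAlgCl.norm_extends, Padic.norm_eq_zpow_neg_valuation hy0,
    Int.log_zpow hq, neg_neg]

/-- `vdeg` is additive -/
theorem vdeg_mul {V : Subgroup Gq} [V.FiniteIndex] {a b : (PadicAlgCl q)ˣ}
    (ha : LFixed q V a) (hb : LFixed q V b) :
    vdeg q V (a * b) = vdeg q V a + vdeg q V b := by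
  obtain ⟨y, hy0, hy⟩ := relNorm_rational_local q ha
  obtain ⟨z, hz0, hz⟩ := relNorm_rational_local q hb
  have hyz : ((relNorm V (a * b) : (PadicAlgCl q)ˣ) : PadicAlgCl q) =
      algebraMap ℚ_[q] (PadicAlgCl q) (y * z) := by
    rw [relNorm_mul, Units.val_mul, hy, hz, map_mul]
  rw [vdeg_eq_valuation q hy0 hy, vdeg_eq_valuation q hz0 hz,
    vdeg_eq_valuation q (mul_ne_zero hy0 hz0) hyz, Padic.valuation_mul hy0 hz0]

end Local

/-! ## Global norms -/

section Global

local notation "Qb" => AlgebraicClosure ℚ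
local notation "GQ" => (AlgebraicClosure ℚ ≃ₐ[ℚ] AlgebraicClosure ℚ)

lemma isGalois_global : IsGalois ℚ Qb := by
  haveI : IsAlgClosure ℚ Qb := ⟨inferInstance, AlgebraicClosure.isAlgebraic ℚ⟩
  haveI : Normal ℚ Qb := IsAlgClosure.normal ℚ Qb
  exact isGalois_iff.mpr ⟨inferInstance, inferInstance⟩

lemma finiteIndex_of_isOpenQ {U : Subgroup GQ} (hU : IsOpenQ U) : U.FiniteIndex := by
  obtain ⟨F, hF, hle⟩ := hU
  haveI := isGalois_global
  haveI : F.fixingSubgroup.FiniteIndex := by
    refine ⟨?_⟩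
    rw [← IntermediateField.finrank_eq_fixingSubgroup_index]
    exact Module.finrank_pos.ne'
  exact Subgroup.finiteIndex_of_le hle

/-- the global norm is rational (first half of `OrbitNormSpec`) -/
theorem relNorm_rational_global {U : Subgroup GQ} [U.FiniteIndex] {a : Qbˣ} (ha : GFixed U a) :
    ∃ y : ℚˣ, ((relNorm U a : Qbˣ) : Qb) = algebraMap ℚ Qb (y : ℚ) := by
  haveI := isGalois_global
  have hfix : ((relNorm U a : Qbˣ) : Qb) ∈
      IntermediateField.fixedField (⊤ : Subgroup GQ) := by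
    rintro ⟨τ, -⟩
    have := congrArg (fun u : Qbˣ => (u : Qb)) (smul_relNorm (H := U) ha τ)
    exact this
  rw [InfiniteGalois.fixedField_bot, IntermediateField.mem_bot] at hfix
  obtain ⟨y, hy⟩ := hfix
  have hy0 : y ≠ 0 := by
    rintro rfl
    rw [map_zero] at hy
    exact (relNorm U a).ne_zero hy.symm
  exact ⟨Units.mk0 y hy0, hy.symm⟩

end Global

end Fermat.Agent.S55.G.Rec.RelNormH707

end
end
-- ===== PACK-END S55/G/Rec/RelNormH707.lean

-- ===== PACK-BEGIN S55/H572/Cores.lean
section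


/-!
# Corestriction in all degrees, by dimension shifting

For a subgroup `H ≤ G` of finite index we construct `cor n A : Hⁿ(H, A) ⟶ Hⁿ(G, A)` for all
`n : ℕ`, natural in `A : Rep k G`, with `res ≫ cor = [G : H]`.

Degree `0` is the relative norm on invariants; the step `n → n + 1` descends
`cor n (up A) ≫ δ_G` along the epimorphism `δ_H : Hⁿ(H, up A) → Hⁿ⁺¹(H, A)`.
-/

set_option autoImplicit false

open CategoryTheory groupCohomology Rep Limits

universe u

namespace Fermat.Agent.S55.H572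

noncomputable section

variable {k G : Type u} [CommRing k] [Group G]

/-! ### Restriction commutes with connecting homomorphisms -/

/-- Restriction to `H` as a morphism of short complexes of cochain complexes. -/
def resCochainsSC (S : ShortComplex (Rep.{u} k G)) (H : Subgroup G) :
    S.map (cochainsFunctor k G) ⟶ (S.map (resFunctor H.subtype)).map (cochainsFunctor k H) where
  τ₁ := cochainsMap H.subtype (𝟙 (res H.subtype S.X₁))
  τ₂ := cochainsMap H.subtype (𝟙 (res H.subtype S.X₂))
  τ₃ := cochainsMap H.subtype (𝟙 (res H.subtype S.X₃))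
  comm₁₂ := rfl
  comm₂₃ := rfl

/-- The restriction map `Hⁿ(G, A) ⟶ Hⁿ(H, A)`. -/
abbrev resH (H : Subgroup G) (A : Rep.{u} k G) (n : ℕ) :
    groupCohomology A n ⟶ groupCohomology (res H.subtype A) n :=
  groupCohomology.map H.subtype (𝟙 (res H.subtype A)) n

/-- Restriction commutes with the connecting homomorphisms. -/
theorem δ_resH {S : ShortComplex (Rep.{u} k G)} (hS : S.ShortExact) (H : Subgroup G)
    (i j : ℕ) (hij : i + 1 = j) :
    groupCohomology.δ hS i j hij ≫ resH H S.X₁ j =
      resH H S.X₃ i ≫ groupCohomology.δ ((Rep.shortExact_res H.subtype).2 hS) i j hij :=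
  HomologicalComplex.HomologySequence.δ_naturality (resCochainsSC S H)
    (map_cochainsFunctor_shortExact hS)
    (map_cochainsFunctor_shortExact ((Rep.shortExact_res H.subtype).2 hS)) i j hij

set_option backward.isDefEq.respectTransparency false in
/-- Restriction is natural in the coefficients. -/
theorem resH_naturality (H : Subgroup G) {A B : Rep.{u} k G} (f : A ⟶ B) (n : ℕ) :
    groupCohomology.map (MonoidHom.id G) f n ≫ resH H B n =
      resH H A n ≫ groupCohomology.map (MonoidHom.id H) ((resFunctor H.subtype).map f) n :=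
  (resNatTrans (k := k) H.subtype n).naturality f

/-! ### `coind₁` over `G` itself -/

theorem isZero_groupCohomology_coind₁ (A : Rep.{u} k G) (n : ℕ) :
    IsZero (groupCohomology (coind₁ A) (n + 1)) :=
  IsZero.of_iso (isZero_groupCohomology_succ_of_subsingleton _ n)
    (groupCohomology.coindIso (res (⊥ : Subgroup G).subtype A) (n + 1))

/-- `δ_G : Hⁿ(G, up A) → Hⁿ⁺¹(G, A)` is an epimorphism for every `n`. -/
theorem epi_δ_upG (A : Rep.{u} k G) (n : ℕ) :
    Epi (groupCohomology.δ (upSC_shortExact A) n (n + 1) rfl) :=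
  groupCohomology.epi_δ_of_isZero (upSC_shortExact A) n (isZero_groupCohomology_coind₁ A n)

/-- `δ_H : Hⁿ(H, up A) → Hⁿ⁺¹(H, A)` is an epimorphism for every `n`. -/
theorem epi_δ_upH (H : Subgroup G) (A : Rep.{u} k G) (n : ℕ) :
    Epi (groupCohomology.δ (upSCRes_shortExact H A) n (n + 1) rfl) :=
  groupCohomology.epi_δ_of_isZero (upSCRes_shortExact H A) n
    (isZero_groupCohomology_res_coind₁ H A n)

/-! ### Degree `0`: the relative norm -/

section deg0

variable (H : Subgroup G) [Fintype (G ⧸ H)]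

lemma ρ_eq_of_mem_invariants (A : Rep.{u} k G) {x : A.V}
    (hx : x ∈ (res H.subtype A).ρ.invariants) {a b : G} (hab : a⁻¹ * b ∈ H) :
    A.ρ a x = A.ρ b x := by
  have h1 : A.ρ (a⁻¹ * b) x = x := hx ⟨a⁻¹ * b, hab⟩
  calc A.ρ a x = A.ρ a (A.ρ (a⁻¹ * b) x) := by rw [h1]
    _ = A.ρ (a * (a⁻¹ * b)) x := by rw [map_mul A.ρ a (a⁻¹ * b)]; rfl
    _ = A.ρ b x := by rw [mul_inv_cancel_left]

lemma ρ_out_eq (A : Rep.{u} k G) {x : A.V}
    (hx : x ∈ (res H.subtype A).ρ.invariants) (g : G) :
    A.ρ (QuotientGroup.mk g : G ⧸ H).out x = A.ρ g x :=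
  ρ_eq_of_mem_invariants H A hx
    (QuotientGroup.leftRel_apply.mp (Quotient.exact' (QuotientGroup.out_eq' _)))

/-- The relative norm `A^H → A^G`, `x ↦ ∑_{q ∈ G/H} q x`. -/
def corInv (A : Rep.{u} k G) : (res H.subtype A).ρ.invariants →ₗ[k] A.ρ.invariants where
  toFun x := ⟨∑ q : G ⧸ H, A.ρ q.out x.1, fun g => by
    rw [map_sum]
    have h1 : ∀ q : G ⧸ H, A.ρ g (A.ρ q.out x.1) = A.ρ (g • q).out x.1 := by
      intro q
      have h2 : (g • q : G ⧸ H) = QuotientGroup.mk (g * q.out) := by
        conv_lhs => rw [← QuotientGroup.out_eq' q]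
        rfl
      rw [h2, ρ_out_eq H A x.2, map_mul]
      rfl
    rw [Finset.sum_congr rfl (fun q _ => h1 q)]
    exact Fintype.sum_equiv (MulAction.toPerm g) _ _ (fun q => rfl)⟩
  map_add' x y := by
    apply Subtype.ext
    simp [Finset.sum_add_distrib]
  map_smul' r x := by
    apply Subtype.ext
    simp [Finset.smul_sum]

lemma corInv_coe (A : Rep.{u} k G) (x : (res H.subtype A).ρ.invariants) :
    ((corInv H A x : A.ρ.invariants) : A.V) = ∑ q : G ⧸ H, A.ρ q.out x.1 := rfl

/-- The inclusion `A^G → A^H`. -/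
def inclInv (A : Rep.{u} k G) : A.ρ.invariants →ₗ[k] (res H.subtype A).ρ.invariants where
  toFun x := ⟨x.1, fun h => x.2 h.1⟩
  map_add' _ _ := rfl
  map_smul' _ _ := rfl

lemma corInv_inclInv (A : Rep.{u} k G) (x : A.ρ.invariants) :
    corInv H A (inclInv H A x) = H.index • x := by
  apply Subtype.ext
  rw [corInv_coe]
  have h1 : ∀ q : G ⧸ H, A.ρ q.out (inclInv H A x).1 = x.1 := fun q => x.2 q.out
  rw [Finset.sum_congr rfl (fun q _ => h1 q), Finset.sum_const, Finset.card_univ,
    Subgroup.index_eq_card, Nat.card_eq_fintype_card]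
  simp

/-- Corestriction in degree `0`. -/
def cor0 (A : Rep.{u} k G) :
    groupCohomology (res H.subtype A) 0 ⟶ groupCohomology A 0 :=
  (H0Iso (res H.subtype A)).hom ≫ ModuleCat.ofHom (corInv H A) ≫ (H0Iso A).inv

set_option backward.isDefEq.respectTransparency false in
lemma resH_H0Iso (A : Rep.{u} k G) :
    resH H A 0 ≫ (H0Iso (res H.subtype A)).hom =
      (H0Iso A).hom ≫ ModuleCat.ofHom (inclInv H A) := by
  have hmono : Mono (shortComplexH0 (res H.subtype A)).f := by
    rw [ModuleCat.mono_iff_injective]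
    exact Subtype.val_injective
  apply (cancel_mono (shortComplexH0 (res H.subtype A)).f).mp
  have h := map_H0Iso_hom_f (A := A) (B := res H.subtype A) H.subtype (𝟙 (res H.subtype A))
  rw [Category.assoc]
  exact h

lemma inclInv_corInv (A : Rep.{u} k G) :
    ModuleCat.ofHom (inclInv H A) ≫ ModuleCat.ofHom (corInv H A) =
      H.index • 𝟙 (ModuleCat.of k A.ρ.invariants) := by
  apply ModuleCat.hom_ext
  apply LinearMap.ext
  intro x
  exact corInv_inclInv H A x

theorem resH_cor0 (A : Rep.{u} k G) :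
    resH H A 0 ≫ cor0 H A = H.index • 𝟙 (groupCohomology A 0) := by
  rw [cor0, ← Category.assoc, resH_H0Iso, Category.assoc,
    ← Category.assoc (ModuleCat.ofHom (inclInv H A)), inclInv_corInv,
    Preadditive.nsmul_comp, Preadditive.comp_nsmul, Category.id_comp, Iso.hom_inv_id]

lemma invariants_map_corInv {A B : Rep.{u} k G} (f : A ⟶ B) :
    (invariantsFunctor k H).map ((resFunctor H.subtype).map f) ≫ ModuleCat.ofHom (corInv H B) =
      ModuleCat.ofHom (corInv H A) ≫ (invariantsFunctor k G).map f := by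
  apply ModuleCat.hom_ext
  apply LinearMap.ext
  intro x
  apply Subtype.ext
  change ∑ q : G ⧸ H, B.ρ q.out (f.hom x.1) = f.hom (∑ q : G ⧸ H, A.ρ q.out x.1)
  rw [map_sum]
  exact Finset.sum_congr rfl (fun q _ => (Rep.hom_comm_apply f q.out x.1).symm)

set_option backward.isDefEq.respectTransparency false in
theorem cor0_naturality {A B : Rep.{u} k G} (f : A ⟶ B) :
    groupCohomology.map (MonoidHom.id H) ((resFunctor H.subtype).map f) 0 ≫ cor0 H B =
      cor0 H A ≫ groupCohomology.map (MonoidHom.id G) f 0 := by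
  have h1 : (H0Iso A).inv ≫ groupCohomology.map (MonoidHom.id G) f 0 =
      (invariantsFunctor k G).map f ≫ (H0Iso B).inv := by
    rw [Iso.inv_comp_eq, ← Category.assoc, Iso.eq_comp_inv]
    exact map_id_comp_H0Iso_hom f
  have h2 : groupCohomology.map (MonoidHom.id H) ((resFunctor H.subtype).map f) 0 ≫
      (H0Iso (res H.subtype B)).hom =
      (H0Iso (res H.subtype A)).hom ≫
        (invariantsFunctor k H).map ((resFunctor H.subtype).map f) :=
    map_id_comp_H0Iso_hom ((resFunctor H.subtype).map f)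
  calc groupCohomology.map (MonoidHom.id H) ((resFunctor H.subtype).map f) 0 ≫ cor0 H B
      = (groupCohomology.map (MonoidHom.id H) ((resFunctor H.subtype).map f) 0 ≫
          (H0Iso (res H.subtype B)).hom) ≫ ModuleCat.ofHom (corInv H B) ≫ (H0Iso B).inv := by
        rw [cor0, Category.assoc]
    _ = (H0Iso (res H.subtype A)).hom ≫
          ((invariantsFunctor k H).map ((resFunctor H.subtype).map f) ≫
            ModuleCat.ofHom (corInv H B)) ≫ (H0Iso B).inv := by
        rw [h2, Category.assoc, Category.assoc]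
    _ = (H0Iso (res H.subtype A)).hom ≫ ModuleCat.ofHom (corInv H A) ≫
          ((invariantsFunctor k G).map f ≫ (H0Iso B).inv) := by
        rw [invariants_map_corInv, Category.assoc]
    _ = cor0 H A ≫ groupCohomology.map (MonoidHom.id G) f 0 := by
        rw [← h1, cor0, Category.assoc, Category.assoc]

end deg0

/-! ### The induction step -/

section step

/-- `δ_G : Hⁿ(G, up A) ⟶ Hⁿ⁺¹(G, A)`. -/
def δG (A : Rep.{u} k G) (n : ℕ) : groupCohomology (up A) n ⟶ groupCohomology A (n + 1) :=
  groupCohomology.δ (upSC_shortExact A) n (n + 1) rfl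

/-- `δ_H : Hⁿ(H, up A) ⟶ Hⁿ⁺¹(H, A)`. -/
def δH (H : Subgroup G) (A : Rep.{u} k G) (n : ℕ) :
    groupCohomology (res H.subtype (up A)) n ⟶ groupCohomology (res H.subtype A) (n + 1) :=
  groupCohomology.δ (upSCRes_shortExact H A) n (n + 1) rfl

/-- `Hⁿ(G, coind₁ A) ⟶ Hⁿ(G, up A)`. -/
def πG (A : Rep.{u} k G) (n : ℕ) : groupCohomology (coind₁ A) n ⟶ groupCohomology (up A) n :=
  groupCohomology.map (MonoidHom.id G) (upπ A) n

/-- `Hⁿ(H, coind₁ A) ⟶ Hⁿ(H, up A)`. -/
def πH (H : Subgroup G) (A : Rep.{u} k G) (n : ℕ) :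
    groupCohomology (res H.subtype (coind₁ A)) n ⟶ groupCohomology (res H.subtype (up A)) n :=
  groupCohomology.map (MonoidHom.id H) ((resFunctor H.subtype).map (upπ A)) n

lemma πH_δH (H : Subgroup G) (A : Rep.{u} k G) (n : ℕ) : πH H A n ≫ δH H A n = 0 :=
  (map_cochainsFunctor_shortExact (upSCRes_shortExact H A)).comp_δ n (n + 1) rfl

lemma πG_δG (A : Rep.{u} k G) (n : ℕ) : πG A n ≫ δG A n = 0 :=
  (map_cochainsFunctor_shortExact (upSC_shortExact A)).comp_δ n (n + 1) rfl

lemma exact_πH_δH (H : Subgroup G) (A : Rep.{u} k G) (n : ℕ) :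
    (ShortComplex.mk (πH H A n) (δH H A n) (πH_δH H A n)).Exact :=
  (map_cochainsFunctor_shortExact (upSCRes_shortExact H A)).homology_exact₃ n (n + 1) rfl

instance epi_δH (H : Subgroup G) (A : Rep.{u} k G) (n : ℕ) : Epi (δH H A n) :=
  epi_δ_upH H A n

instance epi_δG (A : Rep.{u} k G) (n : ℕ) : Epi (δG A n) :=
  epi_δ_upG A n

lemma δG_resH (H : Subgroup G) (A : Rep.{u} k G) (n : ℕ) :
    δG A n ≫ resH H A (n + 1) = resH H (up A) n ≫ δH H A n :=
  δ_resH (upSC_shortExact A) H n (n + 1) rfl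

lemma δH_natural (H : Subgroup G) {A B : Rep.{u} k G} (f : A ⟶ B) (n : ℕ) :
    δH H A n ≫ groupCohomology.map (MonoidHom.id H) ((resFunctor H.subtype).map f) (n + 1) =
      groupCohomology.map (MonoidHom.id H) ((resFunctor H.subtype).map (upMap f)) n ≫
        δH H B n :=
  groupCohomology.δ_naturality (upSCRes_shortExact H A) (upSCRes_shortExact H B)
    ((resFunctor H.subtype).mapShortComplex.map (upSCMap f)) n (n + 1) rfl

lemma δG_natural {A B : Rep.{u} k G} (f : A ⟶ B) (n : ℕ) :
    δG A n ≫ groupCohomology.map (MonoidHom.id G) f (n + 1) =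
      groupCohomology.map (MonoidHom.id G) (upMap f) n ≫ δG B n :=
  groupCohomology.δ_naturality (upSC_shortExact A) (upSC_shortExact B) (upSCMap f) n (n + 1) rfl

variable (H : Subgroup G)

/-- A corestriction in degree `n`: a family `Hⁿ(H, A) ⟶ Hⁿ(G, A)`, natural in `A`, with
`res ≫ cor = [G : H]`. -/
structure CorData (n : ℕ) : Type (u + 1) where
  /-- the corestriction maps -/
  cor : ∀ A : Rep.{u} k G, groupCohomology (res H.subtype A) n ⟶ groupCohomology A n
  res_cor : ∀ A : Rep.{u} k G, resH H A n ≫ cor A = H.index • 𝟙 (groupCohomology A n)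
  natural : ∀ {A B : Rep.{u} k G} (f : A ⟶ B),
    groupCohomology.map (MonoidHom.id H) ((resFunctor H.subtype).map f) n ≫ cor B =
      cor A ≫ groupCohomology.map (MonoidHom.id G) f n

variable {H}

lemma corSucc_aux {n : ℕ} (D : CorData (k := k) H n) (A : Rep.{u} k G) :
    πH H A n ≫ D.cor (up A) ≫ δG A n = 0 := by
  have h1 : πH H A n ≫ D.cor (up A) = D.cor (coind₁ A) ≫ πG A n := D.natural (upπ A)
  rw [← Category.assoc, h1, Category.assoc, πG_δG, comp_zero]

/-- The corestriction in degree `n + 1`, obtained by descending `cor n (up A) ≫ δ_G` along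
the epimorphism `δ_H`. -/
def corSucc {n : ℕ} (D : CorData (k := k) H n) (A : Rep.{u} k G) :
    groupCohomology (res H.subtype A) (n + 1) ⟶ groupCohomology A (n + 1) :=
  (exact_πH_δH H A n).desc (D.cor (up A) ≫ δG A n) (corSucc_aux D A)

lemma δH_corSucc {n : ℕ} (D : CorData (k := k) H n) (A : Rep.{u} k G) :
    δH H A n ≫ corSucc D A = D.cor (up A) ≫ δG A n :=
  (exact_πH_δH H A n).g_desc _ (corSucc_aux D A)

lemma resH_corSucc {n : ℕ} (D : CorData (k := k) H n) (A : Rep.{u} k G) :
    resH H A (n + 1) ≫ corSucc D A = H.index • 𝟙 (groupCohomology A (n + 1)) := by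
  rw [← cancel_epi (δG A n), ← Category.assoc, δG_resH, Category.assoc, δH_corSucc,
    ← Category.assoc, D.res_cor, Preadditive.nsmul_comp, Preadditive.comp_nsmul,
    Category.id_comp, Category.comp_id]

lemma corSucc_natural {n : ℕ} (D : CorData (k := k) H n) {A B : Rep.{u} k G} (f : A ⟶ B) :
    groupCohomology.map (MonoidHom.id H) ((resFunctor H.subtype).map f) (n + 1) ≫ corSucc D B =
      corSucc D A ≫ groupCohomology.map (MonoidHom.id G) f (n + 1) := by
  rw [← cancel_epi (δH H A n), ← Category.assoc, δH_natural H f n, Category.assoc, δH_corSucc,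
    ← Category.assoc, D.natural (upMap f), Category.assoc]
  erw [← δG_natural f n]
  rw [← Category.assoc, ← δH_corSucc, Category.assoc]

/-- The induction step `CorData n → CorData (n + 1)`. -/
def CorData.succ {n : ℕ} (D : CorData (k := k) H n) : CorData (k := k) H (n + 1) where
  cor := corSucc D
  res_cor := resH_corSucc D
  natural := corSucc_natural D

end step

/-! ### Corestriction in all degrees -/

section main

variable (H : Subgroup G) [Fintype (G ⧸ H)]

/-- The corestriction data in degree `0`. -/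
def corData0 : CorData (k := k) H 0 where
  cor := cor0 H
  res_cor := resH_cor0 H
  natural := cor0_naturality H

/-- The corestriction data in all degrees. -/
def corData : ∀ n : ℕ, CorData (k := k) H n
  | 0 => corData0 H
  | n + 1 => (corData n).succ

/-- **Corestriction** `Hⁿ(H, A) ⟶ Hⁿ(G, A)`. -/
def cor (n : ℕ) (A : Rep.{u} k G) :
    groupCohomology (res H.subtype A) n ⟶ groupCohomology A n :=
  (corData H n).cor A

/-- `cor ∘ res = [G : H]`. -/
theorem resH_cor (n : ℕ) (A : Rep.{u} k G) :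
    resH H A n ≫ cor H n A = H.index • 𝟙 (groupCohomology A n) :=
  (corData H n).res_cor A

/-- Corestriction is natural in the coefficients. -/
theorem cor_natural (n : ℕ) {A B : Rep.{u} k G} (f : A ⟶ B) :
    groupCohomology.map (MonoidHom.id H) ((resFunctor H.subtype).map f) n ≫ cor H n B =
      cor H n A ≫ groupCohomology.map (MonoidHom.id G) f n :=
  (corData H n).natural f

/-- Corestriction commutes with the connecting homomorphisms of `upSC`. -/
theorem δH_cor (n : ℕ) (A : Rep.{u} k G) :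
    δH H A n ≫ cor H (n + 1) A = cor H n (up A) ≫ δG A n :=
  δH_corSucc (corData H n) A

/-- If `res_H x = 0` then `[G : H] • x = 0`. -/
theorem index_nsmul_eq_zero_of_resH_eq_zero (n : ℕ) (A : Rep.{u} k G)
    (x : groupCohomology A n) (hx : (resH H A n).hom x = 0) : H.index • x = 0 := by
  have h1 := congrArg (fun f => f.hom x) (resH_cor H n A)
  simp only [ModuleCat.hom_comp, LinearMap.comp_apply, hx, map_zero] at h1
  rw [← h1.symm]
  rfl

end main

end

end Fermat.Agent.S55.H572

end
-- ===== PACK-END S55/H572/Cores.lean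

-- ===== PACK-BEGIN S55/T/ShapiroH303.lean
section



/-!
# S55, layer T, leaf T8 (helper303): Shapiro's lemma in explicit form

* `shapiroExplicit : ShapiroExplicitSpec`
* `shapiroRecognition : ShapiroRecognitionSpec`

Proof: dimension shifting.  `θₙ(A) : Hⁿ(G, Coind A) → Hⁿ(S, A)` is natural in `A`, compatible with
connecting homomorphisms, bijective for `n = 0`, and both sides are effaced by
`A ↪ coind₁ A`.
-/

set_option autoImplicit false
set_option linter.style.haveILetI false
set_option linter.unusedSectionVars false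
set_option linter.unusedVariables false

open CategoryTheory groupCohomology Rep Limits

namespace Fermat.Agent.S55.T.ShapiroH303

open Fermat.Agent.S55

noncomputable section

variable {k G : Type} [CommRing k] [Group G] (S : Subgroup G)

lemma coindEv_hom_apply (A : Rep.{0} k S) (x : (Rep.coind S.subtype A).V) :
    (coindEv S A).hom x = x.1 1 := rfl

/-- the cochain-level Shapiro map -/
abbrev shapCochains (A : Rep.{0} k S) :
    inhomogeneousCochains (Rep.coind S.subtype A) ⟶ inhomogeneousCochains A :=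
  cochainsMap S.subtype (coindEv S A)

/-- `θₙ(A) : Hⁿ(G, Coind A) → Hⁿ(S, A)` -/
abbrev shap (A : Rep.{0} k S) (n : ℕ) :
    groupCohomology (Rep.coind S.subtype A) n ⟶ groupCohomology A n :=
  groupCohomology.map S.subtype (coindEv S A) n

lemma shapCochains_natural {A B : Rep.{0} k S} (f : A ⟶ B) :
    cochainsMap (MonoidHom.id G) (Rep.coindMap S.subtype f) ≫ shapCochains S B =
      shapCochains S A ≫ cochainsMap (MonoidHom.id S) f := by
  rfl

lemma shap_natural {A B : Rep.{0} k S} (f : A ⟶ B) (n : ℕ) :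
    groupCohomology.map (MonoidHom.id G) (Rep.coindMap S.subtype f) n ≫ shap S B n =
      shap S A n ≫ groupCohomology.map (MonoidHom.id S) f n := by
  have h := congrArg (fun φ => HomologicalComplex.homologyMap φ n) (shapCochains_natural S f)
  simp only [HomologicalComplex.homologyMap_comp] at h
  exact h

/-! ### Coinduction is exact -/

lemma coindFunctor_additive : (Rep.coindFunctor.{0} k S.subtype).Additive where
  map_add := by intros; rfl

lemma coind_shortExact {X : ShortComplex (Rep.{0} k S)} (hX : X.ShortExact) :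
    (X.map (Rep.coindFunctor k S.subtype)).ShortExact := by
  haveI := coindFunctor_additive (k := k) S
  haveI : PreservesFiniteLimits (Rep.coindFunctor.{0} k S.subtype) := inferInstance
  have h0 := (Functor.preservesFiniteLimits_tfae (Rep.coindFunctor.{0} k S.subtype)).out 3 0
  have h := h0.mp ‹_› X hX
  haveI := hX.epi_g
  exact { exact := h.1, mono_f := h.2,
          epi_g := (inferInstance : Epi ((Rep.coindFunctor.{0} k S.subtype).map X.g)) }

/-! ### Compatibility with connecting homomorphisms -/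

/-- the morphism of short complexes of cochain complexes -/
def shapShortComplex (X : ShortComplex (Rep.{0} k S)) :
    (X.map (Rep.coindFunctor k S.subtype)).map (cochainsFunctor k G) ⟶
      X.map (cochainsFunctor k S) where
  τ₁ := shapCochains S X.X₁
  τ₂ := shapCochains S X.X₂
  τ₃ := shapCochains S X.X₃
  comm₁₂ := shapCochains_natural S X.f
  comm₂₃ := shapCochains_natural S X.g

lemma shap_δ {X : ShortComplex (Rep.{0} k S)} (hX : X.ShortExact) (i j : ℕ) (hij : i + 1 = j) :
    groupCohomology.δ (coind_shortExact S hX) i j hij ≫ shap S X.X₁ j =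
      shap S X.X₃ i ≫ groupCohomology.δ hX i j hij :=
  HomologicalComplex.HomologySequence.δ_naturality (shapShortComplex S X)
    (map_cochainsFunctor_shortExact (coind_shortExact S hX))
    (map_cochainsFunctor_shortExact hX) i j hij

/-! ### Effaceability -/

lemma isZero_coind₁ (A : Rep.{0} k S) (n : ℕ) :
    IsZero (groupCohomology (H572.coind₁ A) (n + 1)) :=
  IsZero.of_iso (isZero_groupCohomology_succ_of_subsingleton _ n)
    (groupCohomology.coindIso _ (n + 1))

lemma isZero_coind_coind₁ (A : Rep.{0} k S) (n : ℕ) :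
    IsZero (groupCohomology (Rep.coind S.subtype (H572.coind₁ A)) (n + 1)) :=
  IsZero.of_iso (isZero_coind₁ S A n) (groupCohomology.coindIso _ (n + 1))

/-! ### Degree 0 -/

lemma H0Iso_shap_apply (A : Rep.{0} k S) (x : groupCohomology (Rep.coind S.subtype A) 0) :
    (((H0Iso A).hom ((shap S A 0).hom x) : A.ρ.invariants) : A.V) =
      ((((H0Iso (Rep.coind S.subtype A)).hom x : (Rep.coind S.subtype A).ρ.invariants) :
        (Rep.coind S.subtype A).V)).1 1 := by
  have h := map_H0Iso_hom_f_apply (f := S.subtype) (φ := coindEv S A) x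
  exact h

lemma invariants_coind_apply (A : Rep.{0} k S)
    (F : (Rep.coind S.subtype A).ρ.invariants) (g : G) :
    ((F : (Rep.coind S.subtype A).V)).1 g = ((F : (Rep.coind S.subtype A).V)).1 1 := by
  have h := F.2 g
  have h2 := congrArg (fun f : (Rep.coind S.subtype A).V => f.1 1) h
  simpa using h2

lemma shap_zero_bijective (A : Rep.{0} k S) : Function.Bijective (shap S A 0).hom := by
  constructor
  · intro x y hxy
    have hx := H0Iso_shap_apply S A x
    have hy := H0Iso_shap_apply S A y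
    rw [hxy] at hx
    have h1 : (H0Iso (Rep.coind S.subtype A)).hom x = (H0Iso (Rep.coind S.subtype A)).hom y := by
      apply Subtype.ext
      apply Subtype.ext
      funext g
      rw [invariants_coind_apply S A _ g, invariants_coind_apply S A ((H0Iso _).hom y) g,
        ← hx, ← hy]
    have h2 := congrArg (H0Iso (Rep.coind S.subtype A)).inv h1
    simpa using h2
  · intro y
    let b : A.ρ.invariants := (H0Iso A).hom y
    let F0 : (Rep.coind S.subtype A).V := ⟨fun _ => (b : A.V), by
      intro s g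
      exact (b.2 s).symm⟩
    let F : (Rep.coind S.subtype A).ρ.invariants := ⟨F0, by
      intro g
      apply Subtype.ext
      funext h
      rfl⟩
    refine ⟨(H0Iso (Rep.coind S.subtype A)).inv F, ?_⟩
    have h1 : (H0Iso A).hom ((shap S A 0).hom ((H0Iso (Rep.coind S.subtype A)).inv F)) =
        (H0Iso A).hom y := by
      apply Subtype.ext
      rw [H0Iso_shap_apply]
      simp only [Iso.inv_hom_id_apply]
      rfl
    have h2 := congrArg (H0Iso A).inv h1
    simpa using h2

/-! ### Induction -/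

theorem shap_bijective (n : ℕ) : ∀ (A : Rep.{0} k S), Function.Bijective (shap S A n).hom := by
  induction n with
  | zero => exact shap_zero_bijective S
  | succ n ih =>
    intro A
    have hX : (H572.upSC A).ShortExact := H572.upSC_shortExact A
    have hG := coind_shortExact S hX
    have hδ := shap_δ S hX n (n + 1) rfl
    have hδ' : ∀ w, (shap S A (n + 1)).hom ((groupCohomology.δ hG n (n + 1) rfl).hom w) =
        (groupCohomology.δ hX n (n + 1) rfl).hom ((shap S (H572.up A) n).hom w) := fun w =>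
      ConcreteCategory.congr_hom hδ w
    have epiS : Function.Surjective (groupCohomology.δ hX n (n + 1) rfl).hom :=
      (ModuleCat.epi_iff_surjective _).mp (epi_δ_of_isZero hX n (isZero_coind₁ S A n))
    have epiG : Function.Surjective (groupCohomology.δ hG n (n + 1) rfl).hom :=
      (ModuleCat.epi_iff_surjective _).mp (epi_δ_of_isZero hG n (isZero_coind_coind₁ S A n))
    constructor
    · rw [injective_iff_map_eq_zero]
      intro x hx
      obtain ⟨w, rfl⟩ := epiG x
      rw [hδ'] at hx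
      have hex := mapShortComplex₃_exact hX (i := n) (j := n + 1) rfl
      obtain ⟨u, hu⟩ := (ShortComplex.moduleCat_exact_iff _).mp hex _ hx
      obtain ⟨v, rfl⟩ := (ih (H572.coind₁ A)).2 u
      have hnat := shap_natural S (H572.upπ A) n
      have h3 : (shap S (H572.up A) n).hom
          ((groupCohomology.map (MonoidHom.id G) (Rep.coindMap S.subtype (H572.upπ A)) n).hom v)
          = (shap S (H572.up A) n).hom w := by
        rw [← hu]
        exact ConcreteCategory.congr_hom hnat v
      have hw := (ih (H572.up A)).1 h3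
      rw [← hw]
      exact ConcreteCategory.congr_hom (mapShortComplex₃ hG (i := n) (j := n + 1) rfl).zero v
    · intro y
      obtain ⟨z, rfl⟩ := epiS y
      obtain ⟨w, rfl⟩ := (ih (H572.up A)).2 z
      exact ⟨_, hδ' w⟩

/-- **T8** -/
theorem shapiroExplicit : ShapiroExplicitSpec := by
  intro k G _ _ S A n
  exact shap_bijective S n A

/-! ### Recognition form -/

/-- **T8'** -/
theorem shapiroRecognition : ShapiroRecognitionSpec := by
  intro k G _ _ S A B π hπ n
  let Φ : B ⟶ Rep.coind S.subtype A := Rep.resCoindToHom S.subtype B A π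
  have hΦ_apply : ∀ (b : B.V) (g : G), (Φ.hom b).1 g = π.hom (B.ρ g b) := fun b g => rfl
  have hinj : Function.Injective Φ.hom := by
    intro b b' hbb'
    obtain ⟨b₀, -, huniq⟩ := hπ (Φ.hom b).1 (fun s g => (Φ.hom b).2 s g)
    have h1 : b = b₀ := huniq b (fun g => rfl)
    have h2 : b' = b₀ := huniq b' (fun g => by rw [hbb']; rfl)
    rw [h1, h2]
  have hsurj : Function.Surjective Φ.hom := by
    intro f
    obtain ⟨b₀, hb₀, -⟩ := hπ f.1 (fun s g => f.2 s g)
    refine ⟨b₀, ?_⟩
    apply Subtype.ext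
    funext g
    exact hb₀ g
  haveI : Mono Φ := (Rep.mono_iff_injective Φ).mpr hinj
  haveI : Epi Φ := (Rep.epi_iff_surjective Φ).mpr hsurj
  haveI : IsIso Φ := isIso_of_mono_of_epi Φ
  haveI : IsIso (groupCohomology.map (MonoidHom.id G) Φ n) :=
    (inferInstance : IsIso ((groupCohomology.functor k G n).map Φ))
  have hcomp : groupCohomology.map S.subtype π n =
      groupCohomology.map (MonoidHom.id G) Φ n ≫ shap S A n := by
    have h1 := groupCohomology.map_comp (MonoidHom.id G) S.subtype Φ (coindEv S A) n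
    rw [← h1]
    apply groupCohomology.map_congr rfl
    ext b
    change π.hom b = π.hom (B.ρ 1 b)
    rw [map_one]
    rfl
  rw [hcomp]
  have hb1 : Function.Bijective (groupCohomology.map (MonoidHom.id G) Φ n).hom :=
    ConcreteCategory.bijective_of_isIso _
  have hb2 := shap_bijective S n A
  have : ((groupCohomology.map (MonoidHom.id G) Φ n ≫ shap S A n).hom : _ → _) =
      (shap S A n).hom ∘ (groupCohomology.map (MonoidHom.id G) Φ n).hom := by
    funext x; rfl
  rw [this]
  exact hb2.comp hb1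

end

end Fermat.Agent.S55.T.ShapiroH303

end
-- ===== PACK-END S55/T/ShapiroH303.lean

-- ===== PACK-BEGIN S55/Local/H542/CycCob.lean
section
/-
S55, layer L, piece A4b (helper542): the standard cyclic 2-cocycle of `x` is a coboundary iff
`x` is a norm.

  theorem cycCocycleCoboundaryIff : Fermat.Agent.S55.Local.CycCocycleCoboundaryIffStatement
-/


set_option autoImplicit false

namespace Fermat.Agent.S55.Local.H542

open Fermat.Agent.S55.Local groupCohomology

section

variable {G M : Type} [Group G] [CommGroup M] [MulDistribMulAction G M]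

/-- The partial norms `P j = ∏_{k<j} σ^k • y`. -/
noncomputable def cycP (σ : G) (y : M) (j : ℕ) : M :=
  ∏ k ∈ Finset.range j, σ ^ k • y

theorem cycP_zero (σ : G) (y : M) : cycP σ y 0 = 1 := by
  simp [cycP]

theorem cycP_succ (σ : G) (y : M) (j : ℕ) : cycP σ y (j + 1) = cycP σ y j * σ ^ j • y := by
  simp [cycP, Finset.prod_range_succ]

theorem cycP_add (σ : G) (y : M) (i j : ℕ) :
    cycP σ y (i + j) = cycP σ y i * σ ^ i • cycP σ y j := by
  induction j with
  | zero => simp [cycP_zero]
  | succ j ih =>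
    rw [← add_assoc, cycP_succ, ih, cycP_succ, smul_mul', pow_add, mul_smul, mul_assoc]

theorem smul_pow_eq_of_smul_eq {σ : G} {x : M} (hx : σ • x = x) (k : ℕ) : σ ^ k • x = x := by
  induction k with
  | zero => simp
  | succ k ih => rw [pow_succ, mul_smul, hx, ih]

end

section

variable {G M : Type} [Group G] [Fintype G] [CommGroup M] [MulDistribMulAction G M]
variable (σ : G) (hσ : ∀ g, g ∈ Subgroup.zpowers σ)

include hσ

/-- The norm as a product over the powers of the generator. -/
theorem prod_univ_smul_eq_cycP (y : M) : ∏ g : G, g • y = cycP σ y (Nat.card G) := by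
  symm
  unfold cycP
  refine Finset.prod_nbij' (fun k => σ ^ k) (fun g => cycIdx σ g) ?_ ?_ ?_ ?_ ?_
  · intro k _; exact Finset.mem_univ _
  · intro g _; exact Finset.mem_range.mpr (cycIdx_lt_card σ hσ g)
  · intro k hk
    apply cycIdx_pow_of_lt
    rw [orderOf_eq_card_of_generator σ hσ]
    exact Finset.mem_range.mp hk
  · intro g _; exact pow_cycIdx σ hσ g
  · intro k _; rfl

omit hσ in
theorem cycP_add_card_mul {y x : M} (hy : cycP σ y (Nat.card G) = x) (hx : σ • x = x)
    (k q : ℕ) : cycP σ y (k + Nat.card G * q) = cycP σ y k * x ^ q := by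
  induction q with
  | zero => simp
  | succ q ih =>
    rw [Nat.mul_succ, ← Nat.add_assoc, cycP_add, ih, hy, smul_pow_eq_of_smul_eq hx, pow_succ,
      mul_assoc]

theorem isMulCoboundary₂_cycCocycle_of_norm {x : M} (hx : σ • x = x) {y : M}
    (hy : ∏ g : G, g • y = x) : IsMulCoboundary₂ (cycCocycle σ x) := by
  rw [prod_univ_smul_eq_cycP σ hσ] at hy
  refine ⟨fun g => cycP σ y (cycIdx σ g), fun g h => ?_⟩
  simp only [cycCocycle]
  have h1 := cycP_add σ y (cycIdx σ g) (cycIdx σ h)
  rw [pow_cycIdx σ hσ g] at h1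
  have hsplit := cycIdx_add_eq σ hσ g h
  rw [hsplit, cycP_add_card_mul σ hy hx] at h1
  -- h1 : P (idx gh) * x ^ q = P (idx g) * g • P (idx h)
  rw [div_mul_eq_mul_div, div_eq_iff_eq_mul, mul_comm (g • _), ← h1, mul_comm]

theorem cycIdx_self_of_one_lt (h1 : 1 < Nat.card G) : cycIdx σ σ = 1 := by
  have := cycIdx_pow_of_lt σ (k := 1) (by rw [orderOf_eq_card_of_generator σ hσ]; exact h1)
  simpa using this

theorem norm_of_isMulCoboundary₂_cycCocycle {x : M}
    (hcob : IsMulCoboundary₂ (cycCocycle σ x)) : ∃ y : M, ∏ g : G, g • y = x := by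
  obtain ⟨b, hb⟩ := hcob
  rcases Nat.lt_or_ge 1 (Nat.card G) with h1 | h1
  · -- `n ≥ 2`
    refine ⟨b σ, ?_⟩
    rw [prod_univ_smul_eq_cycP σ hσ]
    have hk : ∀ k ∈ Finset.range (Nat.card G),
        σ ^ k • b σ = x ^ ((k + 1) / Nat.card G) * (b (σ ^ (k + 1)) / b (σ ^ k)) := by
      intro k hk
      have h := hb (σ ^ k) σ
      simp only [cycCocycle] at h
      have hklt : k < orderOf σ := by
        rw [orderOf_eq_card_of_generator σ hσ]
        exact Finset.mem_range.mp hk
      rw [cycIdx_pow_of_lt σ hklt, cycIdx_self_of_one_lt σ hσ h1, ← pow_succ] at h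
      rw [← h]
      simp only [div_eq_mul_inv]
      have e : ∀ a b c : M, a = a * b⁻¹ * c * (b * c⁻¹) := by
        intro a b c
        have : a * b⁻¹ * c * (b * c⁻¹) = a * (b⁻¹ * b) * (c * c⁻¹) := by ac_rfl
        rw [this]; simp
      exact e _ _ _
    unfold cycP
    have htel : ∏ k ∈ Finset.range (Nat.card G), b (σ ^ (k + 1)) / b (σ ^ k) =
        b (σ ^ Nat.card G) / b (σ ^ 0) :=
      Finset.prod_range_div (fun k => b (σ ^ k)) (Nat.card G)
    rw [Finset.prod_congr rfl hk, Finset.prod_mul_distrib, htel,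
      pow_card_eq_one_of_generator σ hσ, pow_zero, div_self', mul_one]
    obtain ⟨m, hm⟩ : ∃ m, Nat.card G = m + 1 := ⟨Nat.card G - 1, by omega⟩
    rw [hm, Finset.prod_range_succ, ← hm, Nat.div_self (by omega), pow_one]
    have hz : ∀ k ∈ Finset.range m, x ^ ((k + 1) / Nat.card G) = 1 := by
      intro k hk
      have : k + 1 < Nat.card G := by
        have := Finset.mem_range.mp hk
        omega
      rw [Nat.div_eq_of_lt this, pow_zero]
    rw [Finset.prod_congr rfl hz, Finset.prod_const_one, one_mul]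
  · -- `n = 1`
    refine ⟨x, ?_⟩
    have hcard : Nat.card G = 1 := le_antisymm h1 Nat.card_pos
    rw [prod_univ_smul_eq_cycP σ hσ, hcard]
    simp [cycP]

end

theorem cycCocycleCoboundaryIff : CycCocycleCoboundaryIffStatement := by
  intro G M _ _ _ _ σ hσ x hx
  exact ⟨norm_of_isMulCoboundary₂_cycCocycle σ hσ,
    fun ⟨_, hy⟩ => isMulCoboundary₂_cycCocycle_of_norm σ hσ hx hy⟩

end Fermat.Agent.S55.Local.H542

end
-- ===== PACK-END S55/Local/H542/CycCob.lean

-- ===== PACK-BEGIN S55/G/SpecUnits2.lean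
section
/-
S55, layer G, block G-U (helper595): two further small leaf specs needed by the assemblies
(`UnitsAssembly.lean`, `SUnitsAssembly.lean`).  No `sorry` here.
-/




set_option autoImplicit false

namespace Fermat.Agent.S55.G

open NumberField

universe u v

/-- **(S-STAB) the `T`-units are Galois stable.**  (`T` is a set of primes of the base field
`K`, so the set of primes of `L` above `T` is stable under `Gal(L/K)`.)  Route: for `w` a prime
of `𝓞 L` and `τ`, put `w' = IsDedekindDomain.HeightOneSpectrum.comap` of `w` under the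
restriction of `τ` to `𝓞 L` (`galRestrict`); then `w'` lies over the same prime of `K`, and
`w.valuation (τ x) ≤ 1 ↔ w'.valuation x ≤ 1` by
`IsDedekindDomain.HeightOneSpectrum.exists_primeCompl_mul_eq_of_integer`. -/
def SUnitsStableSpec : Prop :=
  ∀ (K : Type u) (L : Type v) [Field K] [Field L] [NumberField K] [NumberField L] [Algebra K L]
    [IsGalois K L] (T : Finset (IsDedekindDomain.HeightOneSpectrum (𝓞 K))) (τ : L ≃ₐ[K] L)
    (x : Additive Lˣ), x ∈ sUnits K L T → unitsHom K L τ x ∈ sUnits K L T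

/-- **(TZ-BASIS) a `ℤ`-basis of the integral trace-zero lattice inside `ℝ^X`.**
Route: fix `x₀`; the family `e_x - e_{x₀}` (`x ≠ x₀`), reindexed by `Fin (card X - 1)`. -/
def TraceZeroBasisSpec : Prop :=
  ∀ (X : Type v) [Fintype X] [Nonempty X],
    ∃ (r : ℕ) (b : Fin r → (X → ℝ)), LinearIndependent ℝ b ∧
      Submodule.span ℝ (Set.range b) =
        LinearMap.ker (∑ x : X, LinearMap.proj x : (X → ℝ) →ₗ[ℝ] ℝ) ∧
      (Submodule.span ℤ (Set.range b)).toAddSubgroup = (traceZero X).map (coeHomR X)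

end Fermat.Agent.S55.G

end
-- ===== PACK-END S55/G/SpecUnits2.lean

-- ===== PACK-BEGIN S55/H604/SUnitIndex.lean
section



/-!
# S55 / arithmetic leaf: the power index of the `S`-units

`[E_S : E_S^n] = #μ_n(L) · n ^ (#∞ + #S - 1)`.  In particular, if `L` contains the `n`-th roots of
unity, `[E_S : E_S^n] = n ^ (#∞ + #S)` (the input `[K^S : (K^S)^n] = n^s` of the second inequality).
-/

set_option autoImplicit false

open NumberField IsDedekindDomain Module

namespace Fermat.Agent.S55.H604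

variable (L : Type*) [Field L] [NumberField L] (S : Finset (HeightOneSpectrum (𝓞 L)))

variable {L} in
/-- roots of unity are `S`-units. -/
lemma rootsOfUnity_le_sUnit (n : ℕ) (hn : n ≠ 0) : rootsOfUnity n L ≤ SUnit L S := by
  intro u hu v _
  have h1 : (u : L) ^ n = 1 := by
    have := congrArg Units.val ((mem_rootsOfUnity n u).1 hu)
    simpa using this
  have h2 : (v.valuation L (u : L)) ^ n = 1 := by
    rw [← map_pow, h1, map_one]
  exact (pow_eq_one_iff.1 h2).resolve_right hn

/-- the `n`-torsion of the `S`-units is `μ_n(L)`. -/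
noncomputable def kerNsmulEquiv (n : ℕ) (hn : n ≠ 0) :
    (nsmulAddMonoidHom (α := Additive (SUnit L S)) n).ker ≃ rootsOfUnity n L where
  toFun x := ⟨((Additive.toMul x.1 : SUnit L S) : Lˣ), by
    have h := x.2
    rw [AddMonoidHom.mem_ker] at h
    have h' : (Additive.toMul x.1 : SUnit L S) ^ n = 1 := h
    rw [mem_rootsOfUnity]
    exact_mod_cast congrArg Subtype.val h'⟩
  invFun u := ⟨Additive.ofMul ⟨u.1, rootsOfUnity_le_sUnit S n hn u.2⟩, by
    rw [AddMonoidHom.mem_ker]
    have h := (mem_rootsOfUnity n u.1).1 u.2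
    change (⟨u.1, rootsOfUnity_le_sUnit S n hn u.2⟩ : SUnit L S) ^ n = 1
    exact Subtype.ext (by simpa using h)⟩
  left_inv x := rfl
  right_inv u := rfl

/-- **`S`-unit power index.** `[E_S : E_S^n] = #μ_n(L) · n ^ (#∞ + #S - 1)`. -/
theorem index_range_pow_sUnit (n : ℕ) (hn : n ≠ 0) :
    (powMonoidHom n : SUnit L S →* SUnit L S).range.index =
      Nat.card (rootsOfUnity n L) * n ^ (Fintype.card (InfinitePlace L) + S.card - 1) := by
  rw [← Nat.card_congr (kerNsmulEquiv L S n hn), ← index_range_nsmul_sUnit L S n hn,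
    ← Subgroup.index_toAddSubgroup]
  rfl

/-- If `L` contains a primitive `n`-th root of unity then `[E_S : E_S^n] = n ^ (#∞ + #S)`. -/
theorem index_range_pow_sUnit_of_primitiveRoot (n : ℕ) (hn : n ≠ 0) {ζ : L}
    (hζ : IsPrimitiveRoot ζ n) :
    (powMonoidHom n : SUnit L S →* SUnit L S).range.index =
      n ^ (Fintype.card (InfinitePlace L) + S.card) := by
  have : NeZero n := ⟨hn⟩
  rw [index_range_pow_sUnit L S n hn, hζ.card_rootsOfUnity]
  have hpos : 0 < Fintype.card (InfinitePlace L) := Fintype.card_pos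
  have : Fintype.card (InfinitePlace L) + S.card =
      (Fintype.card (InfinitePlace L) + S.card - 1) + 1 := by omega
  rw [this, pow_succ, Nat.add_sub_cancel, mul_comm]


/-- **Dirichlet's `S`-unit theorem (finite generation).** -/
instance moduleFinite_sUnit : Module.Finite ℤ (Additive (SUnit L S)) := by
  rw [Module.finite_def]
  refine Submodule.fg_of_fg_map_of_fg_inf_ker (logSLattice L S).toIntLinearMap ?_ ?_
  · rw [Submodule.map_top, LinearMap.range_eq_top.mpr (by exact logSLattice_surjective L S),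
      ← Module.finite_def]
    infer_instance
  · rw [inf_of_le_right le_top, AddMonoidHom.coe_toIntLinearMap_ker,
      Submodule.fg_iff_addSubgroup_fg, AddSubgroup.toIntSubmodule_toAddSubgroup,
      ← AddGroup.fg_iff_addSubgroup_fg]
    exact AddGroup.fg_of_finite

instance monoidFG_sUnit : Monoid.FG (SUnit L S) := by
  rw [Monoid.fg_iff_add_fg, ← AddGroup.fg_iff_addMonoid_fg, ← Module.Finite.iff_addGroup_fg]
  infer_instance

instance groupFG_sUnit : Group.FG (SUnit L S) := by
  rw [Group.fg_iff_monoid_fg]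
  infer_instance

end Fermat.Agent.S55.H604

end
-- ===== PACK-END S55/H604/SUnitIndex.lean

-- ===== PACK-BEGIN S55/G/DescH773/Main.lean
section
/-
S55 (Poitou–Tate), layer G, leaf G-DESC (helper773), final assembly:

  `theorem descentSpec : Fermat.Agent.S55.G.DescentSpec`

(the interface statement of `Fermat/Agent/S55/G/Spec.lean`).  With `ι := cBase S L' L`:
injectivity and the description of the image are `cBase_injective`, `mem_range_cBase_iff`
(file `Descent.lean`) for the group `N`, which is a Galois group of `L/L'`; trivial inertia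
outside `S` gives ramification index `1` (`eAt_eq_one_of_inertia`); equivariance for `G ⧸ N` is
`cBase_cRepr_of_compat` (file `Equiv.lean`).
-/



set_option autoImplicit false
set_option linter.unusedSectionVars false
set_option linter.style.haveILetI false

open scoped NumberField TensorProduct Pointwise
open IsDedekindDomain

noncomputable section

namespace Fermat.Agent.S55.G.DescH773

open Fermat.Agent.S55.G

/-! ## 8. Restriction of the action to a subgroup -/

section Sub

variable (S : Finset Nat.Primes) (G L : Type) [Group G] [Field L] [NumberField L]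
  [MulSemiringAction G L] (N : Subgroup G)

lemma asAut_subgroup (n : N) (t : AS S L) : asAut S N L n t = asAut S G L (n : G) t := by
  induction t using TensorProduct.induction_on with
  | zero => simp
  | tmul a b => simp only [asAut_tmul]; rfl
  | add a b ha hb => simp only [map_add, ha, hb]

lemma jRepr_subgroup (n : N) (u : Additive (AS S L)ˣ) :
    jRepr N S L n u = jRepr G S L (n : G) u := by
  apply Additive.toMul.injective
  apply Units.ext
  rw [coe_jRepr_apply, coe_jRepr_apply, asAut_subgroup]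

variable {L} in
lemma primeSMul_subgroup (n : N) (w : HeightOneSpectrum (𝓞 L)) :
    primeSMul N n w = primeSMul G (n : G) w := by
  apply HeightOneSpectrum.ext
  ext x
  rw [mem_primeSMul_iff, mem_primeSMul_iff]
  rfl

lemma primeOutMap_subgroup (n : N) (w : PrimeOut S L) :
    primeOutMap S N L n w = primeOutMap S G L (n : G) w :=
  Subtype.ext (primeSMul_subgroup G N n w.1)

lemma divRepr_subgroup (n : N) (d : PrimeOut S L →₀ ℤ) :
    divRepr S N L n d = divRepr S G L (n : G) d := by
  have : primeOutMap S N L n = primeOutMap S G L (n : G) :=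
    funext (primeOutMap_subgroup S G L N n)
  simp only [divRepr, MonoidHom.coe_mk, OneHom.coe_mk, this]

lemma cRepr_subgroup (n : N) (c : CS S L) :
    cRepr S N L n c = cRepr S G L (n : G) c := by
  obtain ⟨y, rfl⟩ := Submodule.Quotient.mk_surjective _ c
  rw [cRepr_mk, cRepr_mk, jdRepr_apply, jdRepr_apply, jRepr_subgroup, divRepr_subgroup]

end Sub

/-- **G-DESC**: Galois descent for the `S`-idèle class group, in the form of the layer-G
interface `Fermat.Agent.S55.G.DescentSpec`. -/
theorem descentSpec : DescentSpec := by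
  intro S G L L' _ _ _ _ _ _ _ _ _ N _ _ hS hur hfix hcompat
  have hfixN : ∀ (n : N) (k : L'), (n : G) • algebraMap L' L k = algebraMap L' L k := by
    intro n k
    exact ((hfix (algebraMap L' L k)).2 ⟨k, rfl⟩) n
  haveI hGal : IsGaloisGroup N L' L :=
    { faithful := ⟨fun {a b} h => Subtype.ext (eq_of_smul_eq_smul (α := L) fun x => h x)⟩
      commutes := ⟨fun n k x => by
        change (n : G) • (k • x) = k • ((n : G) • x)
        rw [Algebra.smul_def, Algebra.smul_def, smul_mul', hfixN]⟩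
      isInvariant := ⟨fun x hx => by
        obtain ⟨k, hk⟩ := (hfix x).1 hx
        exact ⟨k, hk⟩⟩ }
  have he : ∀ w : PrimeOut S L, eAt L' w.1 = 1 := by
    intro w
    refine eAt_eq_one_of_inertia N L' w.1 fun n hn => ?_
    have h1 : ∀ x : L, (n : G) • x = x := hur w.1 w.2 (n : G) hn
    have h2 : (n : G) = 1 := eq_of_smul_eq_smul (α := L) fun x => by rw [h1 x, one_smul]
    exact Subtype.ext h2
  refine ⟨cBase S L' L, cBase_injective S N L' L hS, ?_, ?_, ?_⟩
  · intro g c
    exact cBase_cRepr_of_compat S (G ⧸ N) G L' L (g : G ⧸ N) g (hcompat g) c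
  · intro c
    have := mem_range_cBase_iff S N L' L hS he c
    constructor
    · intro h
      have h' : ∀ n : N, cRepr S N L n c = c := fun n => by rw [cRepr_subgroup]; exact h n
      obtain ⟨c', hc'⟩ := this.2 h'
      exact ⟨c', hc'⟩
    · rintro ⟨c', rfl⟩ n
      rw [← cRepr_subgroup]
      exact cRepr_cBase S N L' L n c'
  · intro y
    change cBase S L' L (Submodule.Quotient.mk (y, 0)) = Submodule.Quotient.mk (jMap S L' L y, 0)
    rw [cBase_mk]
    congr 1
    exact Prod.ext rfl (map_zero (divBase S L' L))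

end Fermat.Agent.S55.G.DescH773

end
end
-- ===== PACK-END S55/G/DescH773/Main.lean

-- ===== PACK-BEGIN S55/G/CycPowH184.lean
section
/-
S55, layer G, leaf G-CYCp (helper184): `CyclicPowSpec` from `PClassUpperSpec` (G-UP) and
`FirstInequalityCycSpec` (G-FIc).  Pure glue.
-/


set_option autoImplicit false
set_option linter.style.haveILetI false

open CategoryTheory groupCohomology

noncomputable section

namespace Fermat.Agent.S55.G.CycPowH184

open Fermat.Agent.S55 Fermat.Agent.S55.G

/-- Vanishing of `H¹` can be tested after restriction to the top subgroup. -/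
theorem isZero_H1_of_resSub_top {k G : Type} [CommRing k] [Group G] (A : Rep.{0} k G)
    (h : Limits.IsZero (groupCohomology (T.resSub A (⊤ : Subgroup G)) 1)) :
    Limits.IsZero (groupCohomology A 1) := by
  have hsub : Subsingleton (groupCohomology (T.resSub A (⊤ : Subgroup G)) 1) :=
    ModuleCat.subsingleton_of_isZero h
  have hall : ∀ x : groupCohomology A 1, x = 0 := by
    intro x
    induction x using H1_induction_on with
    | h f =>
      rw [H1π_eq_zero_iff]
      -- restrict `f` to the top subgroup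
      have hf := (mem_cocycles₁_iff (f : G → A)).1 f.2
      have hf' : (fun t : (⊤ : Subgroup G) => (f : G → A) t.1) ∈
          cocycles₁ (T.resSub A (⊤ : Subgroup G)) := by
        rw [mem_cocycles₁_iff]
        intro g t
        exact hf g.1 t.1
      have h0 : H1π (T.resSub A (⊤ : Subgroup G)) ⟨_, hf'⟩ = 0 := Subsingleton.elim _ _
      rw [H1π_eq_zero_iff] at h0
      obtain ⟨a, ha⟩ := h0
      refine ⟨a, ?_⟩
      funext g
      have := congrFun ha ⟨g, Subgroup.mem_top g⟩
      exact this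
  haveI : Subsingleton (groupCohomology A 1) := ⟨fun x y => by rw [hall x, hall y]⟩
  exact ModuleCat.isZero_of_subsingleton _

/-- **G-CYCp** from G-UP and G-FIc. -/
theorem cyclicPow_of (hUP : PClassUpperSpec) (hFI : FirstInequalityCycSpec) : CyclicPowSpec := by
  intro p hp hp2 S G L _ _ _ _ _ _ _ hpS hpG hunr hroot
  have h1 : Limits.IsZero (groupCohomology (CRep S G L) 1) :=
    isZero_H1_of_resSub_top _ (hUP p hp2 S G L hpS hpG hunr hroot ⊤).1
  refine ⟨h1, ?_⟩
  obtain ⟨k, hk⟩ := hpG.exists_card_eq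
  have hodd : Odd (Nat.card G) := by
    rw [hk]
    exact (hp.out.odd_of_ne_two hp2).pow
  have h2 := (hFI (Nat.card G) hodd S G L ⟨_, hpS⟩ rfl).2.2
  have hsub : Subsingleton (groupCohomology (CRep S G L) 1) :=
    ModuleCat.subsingleton_of_isZero h1
  have hc : Nat.card (groupCohomology (CRep S G L) 1) = 1 :=
    Nat.card_eq_one_iff_unique.2 ⟨hsub, ⟨0⟩⟩
  rw [h2, hc, mul_one]

end Fermat.Agent.S55.G.CycPowH184

end
end
-- ===== PACK-END S55/G/CycPowH184.lean

-- ===== PACK-BEGIN S55/H963/BrAdele2.lean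
section


/-!
# S55 / G-SI bridge (helper963): `K ⊗ ℚ_S` — integral subring, roots, approximation

* `phi : ℤ_S ⊗ 𝓞 K →+* K ⊗ ℚ_S`;
* `as_induction` : `K ⊗ ℚ_S` is additively generated by the `x ⊗ a`, `x ∈ 𝓞 K`;
* `exists_pow_eq_AS` : `1 + P ^ (2n+2) φ(r)` is an `n`-th power in `K ⊗ ℚ_S`;
* `isUnit_one_add_AS` : `1 + P φ(w)` is a unit;
* `exists_denom_AS` : every `α ∈ K ⊗ ℚ_S` is `P ^ (-e) φ(r)`;
* `exists_approx_AS` : weak approximation, `K` is dense in `K ⊗ ℚ_S`.
-/

set_option autoImplicit false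
set_option linter.style.haveILetI false
set_option linter.unusedSectionVars false
set_option linter.unusedVariables false

open scoped NumberField TensorProduct

noncomputable section

namespace Fermat.Agent.S55.H963.Br

open Fermat.Agent.S55.G

variable (S : Finset Nat.Primes) (K : Type) [Field K] [NumberField K]

/-- The ring homomorphism `ℤ_S ⊗ 𝓞 K → K ⊗ ℚ_S`, `c ⊗ x ↦ x ⊗ c`. -/
def phi : RS S K →+* AS S K :=
  (Algebra.TensorProduct.productMap
    (((asIncl S K : QS S →ₐ[ℚ] AS S K) : QS S →+* AS S K).comp (zsToQs S)).toIntAlgHom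
    (((asDiag S K : K →ₐ[ℚ] AS S K) : K →+* AS S K).comp (algebraMap (𝓞 K) K)).toIntAlgHom
      : RS S K →ₐ[ℤ] AS S K).toRingHom

theorem phi_tmul (c : ZS S) (x : 𝓞 K) :
    phi S K (c ⊗ₜ[ℤ] x) = (x : K) ⊗ₜ[ℚ] zsToQs S c := by
  have h : phi S K (c ⊗ₜ[ℤ] x) = (asIncl S K (zsToQs S c)) * (asDiag S K ((x : K))) :=
    Algebra.TensorProduct.productMap_apply_tmul _ _ c x
  rw [h, asDiag_apply]
  simp only [asIncl, Algebra.TensorProduct.includeRight_apply,
    Algebra.TensorProduct.tmul_mul_tmul, one_mul, mul_one]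

/-- `K ⊗ ℚ_S` is additively generated by the `x ⊗ a` with `x` integral. -/
theorem as_induction {C : AS S K → Prop} (h0 : C 0)
    (ht : ∀ (x : 𝓞 K) (a : QS S), C ((x : K) ⊗ₜ[ℚ] a))
    (hadd : ∀ α β, C α → C β → C (α + β)) : ∀ α, C α := by
  intro α
  induction α using TensorProduct.induction_on with
  | zero => exact h0
  | add α β hα hβ => exact hadd α β hα hβ
  | tmul k a =>
    have hk := (NumberField.integralBasis K).sum_repr k
    rw [← hk, TensorProduct.sum_tmul]
    refine Finset.sum_induction _ C hadd h0 fun i _ => ?_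
    rw [TensorProduct.smul_tmul, NumberField.integralBasis_apply]
    exact ht _ _

theorem AS.natCast_tmul (n : ℕ) (k : K) (a : QS S) :
    ((n : ℕ) : AS S K) * (k ⊗ₜ[ℚ] a) = k ⊗ₜ[ℚ] ((n : QS S) * a) := by
  have : ((n : ℕ) : AS S K) = (1 : K) ⊗ₜ[ℚ] ((n : ℕ) : QS S) := by
    rw [← map_natCast (asIncl S K) n]
    rfl
  rw [this, Algebra.TensorProduct.tmul_mul_tmul, one_mul]

theorem AS.natCast_pow_tmul (n e : ℕ) (k : K) (a : QS S) :
    ((n : ℕ) : AS S K) ^ e * (k ⊗ₜ[ℚ] a) = k ⊗ₜ[ℚ] ((n : QS S) ^ e * a) := by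
  induction e generalizing a with
  | zero => simp
  | succ e ih =>
    rw [pow_succ, mul_assoc, AS.natCast_tmul, ih, pow_succ, mul_assoc]

/-- **`n`-th roots in `K ⊗ ℚ_S`.** -/
theorem exists_pow_eq_AS {n : ℕ} (hn : 0 < n) (r : RS S K) :
    ∃ y : AS S K, y ^ n = 1 + ((PS S : ℕ) : AS S K) ^ (2 * n + 2) * phi S K r := by
  obtain ⟨y, hy⟩ := exists_pow_eq_RS S K hn r
  refine ⟨phi S K y, ?_⟩
  rw [← map_pow, hy, map_add, map_one, map_mul, map_pow, map_natCast]

/-- `1 + P φ(w)` is a unit of `K ⊗ ℚ_S`. -/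
theorem isUnit_one_add_AS (w : RS S K) :
    IsUnit (1 + ((PS S : ℕ) : AS S K) * phi S K w) := by
  have := (isUnit_one_add_RS S K w).map (phi S K)
  rwa [map_add, map_one, map_mul, map_natCast] at this

/-- Denominators in `K ⊗ ℚ_S`. -/
theorem exists_denom_AS (α : AS S K) :
    ∃ e : ℕ, ∃ r : RS S K, ((PS S : ℕ) : AS S K) ^ e * α = phi S K r := by
  induction α using as_induction S K with
  | h0 => exact ⟨0, 0, by simp⟩
  | ht x a =>
    obtain ⟨e, he⟩ := exists_denom_QS S a
    obtain ⟨c, hc⟩ := he e le_rfl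
    exact ⟨e, c ⊗ₜ[ℤ] x, by rw [AS.natCast_pow_tmul, hc, phi_tmul]⟩
  | hadd α β hα hβ =>
    obtain ⟨e1, r1, h1⟩ := hα
    obtain ⟨e2, r2, h2⟩ := hβ
    refine ⟨e1 + e2, ((PS S : ℕ) : RS S K) ^ e2 * r1 + ((PS S : ℕ) : RS S K) ^ e1 * r2, ?_⟩
    rw [map_add, map_mul, map_mul, map_pow, map_pow, map_natCast, ← h1, ← h2]
    ring

/-- **Weak approximation**: `K` is dense in `K ⊗ ℚ_S`. -/
theorem exists_approx_AS (α : AS S K) (M : ℕ) :
    ∃ x : K, ∃ r : RS S K, α - asDiag S K x = ((PS S : ℕ) : AS S K) ^ M * phi S K r := by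
  induction α using as_induction S K with
  | h0 => exact ⟨0, 0, by simp⟩
  | ht x a =>
    obtain ⟨ρ, c, hc⟩ := exists_approx_QS S a M
    refine ⟨ρ • (x : K), c ⊗ₜ[ℤ] x, ?_⟩
    rw [phi_tmul, AS.natCast_pow_tmul, ← hc, asDiag_apply, TensorProduct.tmul_sub,
      TensorProduct.smul_tmul, Algebra.algebraMap_eq_smul_one]
  | hadd α β hα hβ =>
    obtain ⟨x1, r1, h1⟩ := hα
    obtain ⟨x2, r2, h2⟩ := hβ
    refine ⟨x1 + x2, r1 + r2, ?_⟩
    rw [map_add, map_add, mul_add, ← h1, ← h2]
    ring

end Fermat.Agent.S55.H963.Br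

end
end
-- ===== PACK-END S55/H963/BrAdele2.lean

-- ===== PACK-BEGIN S14/H163/GoodMass.lean
section



/-!
# S14 density: piece (A) `GoodMass` of helper34's interface (helper163)

The primes of degree one outside a finite set carry the mass of the zeta function.
-/

set_option autoImplicit false
set_option linter.unusedSectionVars false

namespace Fermat.Agent.S14.H163

open NumberField IsDedekindDomain Filter Topology
open scoped nonZeroDivisors

variable {K : Type*} [Field K] [NumberField K]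

/-- Every nonzero prime of `𝓞 K` contains a rational prime. -/
theorem exists_prime_mem (v : HeightOneSpectrum (𝓞 K)) :
    ∃ ℓ : ℕ, ℓ.Prime ∧ (ℓ : 𝓞 K) ∈ v.asIdeal := by
  have hN : ((Ideal.absNorm v.asIdeal : ℕ) : 𝓞 K) ∈ v.asIdeal := Ideal.absNorm_mem _
  have hN0 : Ideal.absNorm v.asIdeal ≠ 0 := by
    rw [Ne, Ideal.absNorm_eq_zero_iff]
    exact v.ne_bot
  rw [← Nat.prod_factorization_pow_eq_self hN0, Finsupp.prod, Nat.cast_prod] at hN
  haveI := v.isPrime
  obtain ⟨ℓ, hℓ, hmem⟩ := (Ideal.IsPrime.prod_mem_iff).mp hN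
  rw [Nat.cast_pow] at hmem
  refine ⟨ℓ, ?_, Ideal.IsPrime.mem_of_pow_mem v.isPrime _ hmem⟩
  rw [Nat.support_factorization] at hℓ
  exact Nat.prime_of_mem_primeFactors hℓ

theorem absNorm_span_natCast (ℓ : ℕ) :
    Ideal.absNorm (Ideal.span {(ℓ : 𝓞 K)}) = ℓ ^ Module.finrank ℚ K := by
  rw [Ideal.absNorm_span_singleton]
  have : (ℓ : 𝓞 K) = algebraMap ℤ (𝓞 K) (ℓ : ℤ) := by simp
  rw [this, Algebra.norm_algebraMap, RingOfIntegers.rank]
  simp [Int.natAbs_pow]

theorem absNorm_eq_pow (v : HeightOneSpectrum (𝓞 K)) {ℓ : ℕ} (hℓ : ℓ.Prime)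
    (hmem : (ℓ : 𝓞 K) ∈ v.asIdeal) :
    ∃ j, 1 ≤ j ∧ Ideal.absNorm v.asIdeal = ℓ ^ j := by
  have hle : Ideal.span {(ℓ : 𝓞 K)} ≤ v.asIdeal := (Ideal.span_singleton_le_iff_mem _).mpr hmem
  have hdvd := Ideal.absNorm_dvd_absNorm_of_le hle
  rw [absNorm_span_natCast, Nat.dvd_prime_pow hℓ] at hdvd
  obtain ⟨j, -, hj⟩ := hdvd
  refine ⟨j, ?_, hj⟩
  by_contra h0
  have : j = 0 := by omega
  rw [this, pow_zero, Ideal.absNorm_eq_one_iff] at hj
  exact v.isPrime.ne_top hj

/-- At most `[K:ℚ]` primes contain a given rational prime. -/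
theorem card_le_of_mem (S : Finset (HeightOneSpectrum (𝓞 K))) {ℓ : ℕ} (hℓ : ℓ.Prime)
    (hS : ∀ v ∈ S, (ℓ : 𝓞 K) ∈ v.asIdeal) : S.card ≤ Module.finrank ℚ K := by
  classical
  have hinj : Set.InjOn (fun v : HeightOneSpectrum (𝓞 K) => v.asIdeal) (S : Set _) :=
    fun v _ w _ h => HeightOneSpectrum.ext h
  have hdvd : ∏ P ∈ S.image (fun v => v.asIdeal), P ∣ Ideal.span {(ℓ : 𝓞 K)} := by
    apply Finset.prod_primes_dvd
    · intro P hP
      obtain ⟨v, -, rfl⟩ := Finset.mem_image.mp hP
      exact v.prime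
    · intro P hP
      obtain ⟨v, hv, rfl⟩ := Finset.mem_image.mp hP
      rw [Ideal.dvd_iff_le]
      exact (Ideal.span_singleton_le_iff_mem _).mpr (hS v hv)
  rw [Finset.prod_image hinj] at hdvd
  have h2 := map_dvd Ideal.absNorm hdvd
  rw [absNorm_span_natCast, map_prod] at h2
  have h3 : ℓ ^ S.card ≤ ∏ v ∈ S, Ideal.absNorm v.asIdeal := by
    rw [← Finset.prod_const]
    apply Finset.prod_le_prod'
    intro v hv
    obtain ⟨j, hj1, hj⟩ := absNorm_eq_pow v hℓ (hS v hv)
    rw [hj]
    calc ℓ = ℓ ^ 1 := (pow_one _).symm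
      _ ≤ ℓ ^ j := Nat.pow_le_pow_right hℓ.pos hj1
  have h4 : ∏ v ∈ S, Ideal.absNorm v.asIdeal ≤ ℓ ^ Module.finrank ℚ K :=
    Nat.le_of_dvd (pow_pos hℓ.pos _) h2
  exact (Nat.pow_le_pow_iff_right hℓ.one_lt).mp (h3.trans h4)

theorem two_le_absNorm (v : HeightOneSpectrum (𝓞 K)) : 2 ≤ Ideal.absNorm v.asIdeal := by
  have h1 : Ideal.absNorm v.asIdeal ≠ 1 := by
    rw [Ne, Ideal.absNorm_eq_one_iff]
    exact v.isPrime.ne_top
  have h0 : Ideal.absNorm v.asIdeal ≠ 0 := by
    rw [Ne, Ideal.absNorm_eq_zero_iff]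
    exact v.ne_bot
  omega

theorem normPow_prime_le_inv {s : ℝ} (hs : 1 ≤ s) (v : HeightOneSpectrum (𝓞 K)) :
    normPow s (toI0 v) ≤ ((Ideal.absNorm v.asIdeal : ℝ))⁻¹ := by
  rw [normPow_apply, toI0_coe]
  have h2 : (1 : ℝ) ≤ (Ideal.absNorm v.asIdeal : ℝ) := by
    exact_mod_cast (le_trans (by norm_num) (two_le_absNorm v))
  calc (Ideal.absNorm v.asIdeal : ℝ) ^ (-s) ≤ (Ideal.absNorm v.asIdeal : ℝ) ^ (-1 : ℝ) :=
        Real.rpow_le_rpow_of_exponent_le h2 (by linarith)
    _ = ((Ideal.absNorm v.asIdeal : ℝ))⁻¹ := Real.rpow_neg_one _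

theorem normPow_prime_le_half {s : ℝ} (hs : 1 ≤ s) (v : HeightOneSpectrum (𝓞 K)) :
    normPow s (toI0 v) ≤ 1 / 2 := by
  refine (normPow_prime_le_inv hs v).trans ?_
  have h2 : (2 : ℝ) ≤ (Ideal.absNorm v.asIdeal : ℝ) := by exact_mod_cast two_le_absNorm v
  rw [one_div]
  exact inv_anti₀ (by norm_num) h2

/-- The primes of degree at least two have bounded mass. -/
theorem sum_deg2_le (T : Finset (HeightOneSpectrum (𝓞 K)))
    (hT : ∀ v ∈ T, ¬ (Ideal.absNorm v.asIdeal).Prime) {s : ℝ} (hs : 1 ≤ s) :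
    ∑ v ∈ T, normPow s (toI0 v) ≤
      (Module.finrank ℚ K : ℝ) * ∑' m : ℕ, ((m : ℝ) ^ 2)⁻¹ := by
  classical
  choose ℓ hℓ hmem using fun v : HeightOneSpectrum (𝓞 K) => exists_prime_mem v
  have hsum : Summable (fun m : ℕ => ((m : ℝ) ^ 2)⁻¹) := Real.summable_nat_pow_inv.mpr (by norm_num)
  have h1 : ∀ v ∈ T, normPow s (toI0 v) ≤ (((ℓ v : ℕ) : ℝ) ^ 2)⁻¹ := by
    intro v hv
    refine (normPow_prime_le_inv hs v).trans ?_
    obtain ⟨j, hj1, hj⟩ := absNorm_eq_pow v (hℓ v) (hmem v)
    have hj2 : 2 ≤ j := by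
      by_contra h
      have : j = 1 := by omega
      rw [this, pow_one] at hj
      exact hT v hv (hj ▸ hℓ v)
    have hle : (ℓ v) ^ 2 ≤ Ideal.absNorm v.asIdeal := by
      rw [hj]
      exact Nat.pow_le_pow_right (hℓ v).pos hj2
    have hpos : (0 : ℝ) < ((ℓ v : ℕ) : ℝ) ^ 2 := by
      have := (hℓ v).pos
      positivity
    apply inv_anti₀ hpos
    exact_mod_cast hle
  calc ∑ v ∈ T, normPow s (toI0 v) ≤ ∑ v ∈ T, (((ℓ v : ℕ) : ℝ) ^ 2)⁻¹ := Finset.sum_le_sum h1
    _ = ∑ b ∈ T.image ℓ, (T.filter (fun v => ℓ v = b)).card • (((b : ℕ) : ℝ) ^ 2)⁻¹ :=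
        Finset.sum_comp (fun b : ℕ => (((b : ℕ) : ℝ) ^ 2)⁻¹) ℓ
    _ ≤ ∑ b ∈ T.image ℓ, (Module.finrank ℚ K : ℝ) * (((b : ℕ) : ℝ) ^ 2)⁻¹ := by
        apply Finset.sum_le_sum
        intro b hb
        rw [nsmul_eq_mul]
        apply mul_le_mul_of_nonneg_right _ (by positivity)
        have hb' : b.Prime := by
          obtain ⟨v, -, rfl⟩ := Finset.mem_image.mp hb
          exact hℓ v
        have := card_le_of_mem (T.filter (fun v => ℓ v = b)) hb' (by
          intro v hv
          have := (Finset.mem_filter.mp hv).2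
          rw [← this]
          exact hmem v)
        exact_mod_cast this
    _ = (Module.finrank ℚ K : ℝ) * ∑ b ∈ T.image ℓ, (((b : ℕ) : ℝ) ^ 2)⁻¹ :=
        (Finset.mul_sum _ _ _).symm
    _ ≤ (Module.finrank ℚ K : ℝ) * ∑' m : ℕ, ((m : ℝ) ^ 2)⁻¹ := by
        apply mul_le_mul_of_nonneg_left _ (Nat.cast_nonneg _)
        exact hsum.sum_le_tsum _ (fun _ _ => by positivity)

theorem inv_one_sub_le_exp {x : ℝ} (hx0 : 0 ≤ x) (hx : x ≤ 1 / 2) :
    (1 - x)⁻¹ ≤ Real.exp (2 * x) := by
  have h1 : (1 - x)⁻¹ ≤ 1 + 2 * x := by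
    rw [inv_le_iff_one_le_mul₀ (by linarith)]
    nlinarith
  have h2 := Real.add_one_le_exp (2 * x)
  linarith

theorem prod_deg2_le (T : Finset (HeightOneSpectrum (𝓞 K)))
    (hT : ∀ v ∈ T, ¬ (Ideal.absNorm v.asIdeal).Prime) {s : ℝ} (hs : 1 ≤ s) :
    ∏ v ∈ T, (1 - normPow s (toI0 v))⁻¹ ≤
      Real.exp (2 * ((Module.finrank ℚ K : ℝ) * ∑' m : ℕ, ((m : ℝ) ^ 2)⁻¹)) := by
  calc ∏ v ∈ T, (1 - normPow s (toI0 v))⁻¹
      ≤ ∏ v ∈ T, Real.exp (2 * normPow s (toI0 v)) := by
        apply Finset.prod_le_prod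
        · intro v _
          have := normPow_prime_le_half hs v
          exact inv_nonneg.mpr (by linarith)
        · intro v _
          exact inv_one_sub_le_exp (normPow_pos s _).le (normPow_prime_le_half hs v)
    _ = Real.exp (∑ v ∈ T, 2 * normPow s (toI0 v)) := (Real.exp_sum _ _).symm
    _ ≤ _ := by
        apply Real.exp_le_exp.mpr
        rw [← Finset.mul_sum]
        exact mul_le_mul_of_nonneg_left (sum_deg2_le T hT hs) (by norm_num)

/-- Real Euler product of the zeta function. -/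
theorem hasProd_zetaR {s : ℝ} (hs : 1 < s) :
    HasProd (fun v : HeightOneSpectrum (𝓞 K) => (1 - normPow s (toI0 v))⁻¹) (zetaR K s) :=
  hasProd_ideal (normPow s) (summable_norm_normPow hs)

theorem zetaR_anti {s t : ℝ} (hs : 1 < s) (hst : s ≤ t) : zetaR K t ≤ zetaR K s :=
  (summable_normPow (lt_of_lt_of_le hs hst)).tsum_le_tsum (fun I => normPow_anti hst I)
    (summable_normPow hs)

theorem normPow_two_mul (s : ℝ) (I : (Ideal (𝓞 K))⁰) : normPow (2 * s) I = normPow s I ^ 2 := by
  rw [normPow_apply, normPow_apply, ← Real.rpow_natCast, ← Real.rpow_mul (Nat.cast_nonneg _)]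
  congr 1
  push_cast
  ring

/-- Piece (A): the degree one primes outside a finite set carry the mass of zeta. -/
theorem goodMass (K : Type*) [Field K] [NumberField K] : H34.GoodMass K := by
  intro Bad
  classical
  set C₁ : ℝ := Real.exp (2 * ((Module.finrank ℚ K : ℝ) * ∑' m : ℕ, ((m : ℝ) ^ 2)⁻¹)) with hC₁
  have hC₁pos : 0 < C₁ := Real.exp_pos _
  have hz2 : 0 < zetaR K 2 := zetaR_pos (by norm_num)
  refine ⟨2 * (2 : ℝ) ^ Bad.card * C₁ * zetaR K 2, by positivity, fun s hs1 hs2 => ?_⟩
  have hs1' : (1 : ℝ) ≤ s := hs1.le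
  have hz : 0 < zetaR K s := zetaR_pos hs1
  -- a finite partial product capturing half of zeta
  have hprod : Tendsto (fun T : Finset (HeightOneSpectrum (𝓞 K)) =>
      ∏ v ∈ T, (1 - normPow s (toI0 v))⁻¹) atTop (𝓝 (zetaR K s)) := hasProd_zetaR hs1
  have hev := hprod.eventually (lt_mem_nhds (show zetaR K s / 2 < zetaR K s by linarith))
  obtain ⟨T₀, hT₀⟩ := hev.exists
  -- the three parts
  set T := T₀.filter (fun v => (Ideal.absNorm v.asIdeal).Prime ∧ v ∉ Bad) with hTdef
  set T₁ := T₀.filter (fun v => ¬ (Ideal.absNorm v.asIdeal).Prime) with hT₁def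
  set T₂ := T₀.filter (fun v => (Ideal.absNorm v.asIdeal).Prime ∧ v ∈ Bad) with hT₂def
  have hfac : ∀ v : HeightOneSpectrum (𝓞 K), 0 < (1 - normPow s (toI0 v))⁻¹ := by
    intro v
    have := normPow_prime_le_half hs1' v
    exact inv_pos.mpr (by linarith)
  have hsplit : ∏ v ∈ T₀, (1 - normPow s (toI0 v))⁻¹ =
      (∏ v ∈ T, (1 - normPow s (toI0 v))⁻¹) * (∏ v ∈ T₂, (1 - normPow s (toI0 v))⁻¹) *
        (∏ v ∈ T₁, (1 - normPow s (toI0 v))⁻¹) := by
    rw [← Finset.prod_filter_mul_prod_filter_not T₀ (fun v => (Ideal.absNorm v.asIdeal).Prime)]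
    congr 1
    rw [← Finset.prod_filter_mul_prod_filter_not
      (T₀.filter (fun v => (Ideal.absNorm v.asIdeal).Prime)) (fun v => v ∉ Bad)]
    congr 1
    · apply Finset.prod_congr _ (fun _ _ => rfl)
      ext v
      simp only [Finset.mem_filter, hTdef]
      tauto
    · apply Finset.prod_congr _ (fun _ _ => rfl)
      ext v
      simp only [Finset.mem_filter, hT₂def, not_not]
      tauto
  have hb1 : ∏ v ∈ T₁, (1 - normPow s (toI0 v))⁻¹ ≤ C₁ :=
    prod_deg2_le T₁ (fun v hv => (Finset.mem_filter.mp hv).2) hs1'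
  have hb2 : ∏ v ∈ T₂, (1 - normPow s (toI0 v))⁻¹ ≤ (2 : ℝ) ^ Bad.card := by
    have hcard : T₂.card ≤ Bad.card :=
      Finset.card_le_card (fun v hv => (Finset.mem_filter.mp hv).2.2)
    calc ∏ v ∈ T₂, (1 - normPow s (toI0 v))⁻¹ ≤ ∏ _v ∈ T₂, (2 : ℝ) := by
          apply Finset.prod_le_prod (fun v _ => (hfac v).le)
          intro v _
          have := normPow_prime_le_half hs1' v
          rw [inv_le_comm₀ (by linarith) (by norm_num)]
          linarith
      _ = (2 : ℝ) ^ T₂.card := Finset.prod_const _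
      _ ≤ (2 : ℝ) ^ Bad.card := pow_le_pow_right₀ (by norm_num) hcard
  have hb3 : ∏ v ∈ T, (1 - normPow s (toI0 v))⁻¹ ≤
      (∏ v ∈ T, (1 + H34.pN s v)) * zetaR K 2 := by
    have hfacT : ∀ v ∈ T, (1 - normPow s (toI0 v))⁻¹ =
        (1 + H34.pN s v) * (1 - normPow (2 * s) (toI0 v))⁻¹ := by
      intro v _
      rw [normPow_two_mul, pN_eq]
      have h1 := normPow_prime_le_half hs1' v
      have h0 := normPow_pos s (toI0 v)
      have hne : (1 - normPow s (toI0 v)) ≠ 0 := by linarith
      have hne2 : (1 - normPow s (toI0 v) ^ 2) ≠ 0 := by nlinarith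
      field_simp
      ring
    rw [Finset.prod_congr rfl hfacT, Finset.prod_mul_distrib]
    apply mul_le_mul_of_nonneg_left _ (Finset.prod_nonneg fun v _ => by
      have := normPow_pos s (toI0 v)
      rw [pN_eq]
      linarith)
    have h2s : (1 : ℝ) < 2 * s := by linarith
    have hge : ∀ v : HeightOneSpectrum (𝓞 K), 1 ≤ (1 - normPow (2 * s) (toI0 v))⁻¹ := by
      intro v
      have h1 := normPow_prime_le_half (by linarith : (1 : ℝ) ≤ 2 * s) v
      have h0 := normPow_pos (2 * s) (toI0 v)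
      exact (one_le_inv₀ (by linarith)).mpr (by linarith)
    exact (prod_le_of_hasProd (hasProd_zetaR h2s) hge T).trans
      (zetaR_anti (by norm_num) (by linarith))
  refine ⟨T, fun v hv => (Finset.mem_filter.mp hv).2, ?_⟩
  rw [zetaI_eq_zetaR]
  have hpT : 0 ≤ ∏ v ∈ T, (1 + H34.pN s v) := Finset.prod_nonneg fun v _ => by
    have := normPow_pos s (toI0 v)
    rw [pN_eq]
    linarith
  have hpT0 : 0 ≤ ∏ v ∈ T, (1 - normPow s (toI0 v))⁻¹ :=
    Finset.prod_nonneg fun v _ => (hfac v).le
  have hpT2 : 0 ≤ ∏ v ∈ T₂, (1 - normPow s (toI0 v))⁻¹ :=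
    Finset.prod_nonneg fun v _ => (hfac v).le
  have hpT1 : 0 ≤ ∏ v ∈ T₁, (1 - normPow s (toI0 v))⁻¹ :=
    Finset.prod_nonneg fun v _ => (hfac v).le
  have hmain : ∏ v ∈ T₀, (1 - normPow s (toI0 v))⁻¹ ≤
      ((∏ v ∈ T, (1 + H34.pN s v)) * zetaR K 2) * (2 : ℝ) ^ Bad.card * C₁ := by
    rw [hsplit]
    apply mul_le_mul _ hb1 hpT1 (by positivity)
    exact mul_le_mul hb3 hb2 hpT2 (by positivity)
  have : zetaR K s < 2 * ∏ v ∈ T₀, (1 - normPow s (toI0 v))⁻¹ := by linarith
  calc zetaR K s ≤ 2 * ∏ v ∈ T₀, (1 - normPow s (toI0 v))⁻¹ := this.le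
    _ ≤ 2 * (((∏ v ∈ T, (1 + H34.pN s v)) * zetaR K 2) * (2 : ℝ) ^ Bad.card * C₁) := by
        linarith
    _ = 2 * (2 : ℝ) ^ Bad.card * C₁ * zetaR K 2 * ∏ v ∈ T, (1 + H34.pN s v) := by ring

end Fermat.Agent.S14.H163

end
-- ===== PACK-END S14/H163/GoodMass.lean

-- ===== PACK-BEGIN S55/G/H357/Upper.lean
section




/-!
# S55, layer G (helper357): upper bound for the mass of the primes in the kernel

`K` a number field, `A` a finite abelian group, `ψ χ` (for `χ` in the dual of `A`) completely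
multiplicative functions on the nonzero ideals with `ψ χ v = χ (a v)` at the good primes and
`ψ χ v = 0` at the bad primes.  If the series `L(s, ψ χ)` are bounded on `(1, 2]` for `χ ≠ 1`,
then `(∏_{v ∈ T} (1 + N v^{-s}))^{#A} ≤ C ζ_K(s)` for all finite sets `T` of good primes with
`a v = 1`.
-/

set_option autoImplicit false
set_option linter.unusedSectionVars false

namespace Fermat.Agent.S55.G.H357

open NumberField IsDedekindDomain Filter Topology
open scoped nonZeroDivisors
open Fermat.Agent.S14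

variable {K : Type*} [Field K] [NumberField K]

/-- The monoid hom `I ↦ ψ(I) N(I)^(-s)`. -/
noncomputable def tw (ψ : (Ideal (𝓞 K))⁰ →* ℂ) (s : ℝ) : (Ideal (𝓞 K))⁰ →* ℂ :=
  ψ * ((Complex.ofRealHom : ℝ →+* ℂ).toMonoidHom.comp (H163.normPow s))

theorem tw_apply (ψ : (Ideal (𝓞 K))⁰ →* ℂ) (s : ℝ) (I : (Ideal (𝓞 K))⁰) :
    tw ψ s I = ψ I * ((H163.normPow s I : ℝ) : ℂ) := rfl

/-- The `L`-series of a completely multiplicative function `ψ` on ideals (real argument). -/
noncomputable def Lray (ψ : (Ideal (𝓞 K))⁰ →* ℂ) (s : ℝ) : ℂ :=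
  ∑' I : (Ideal (𝓞 K))⁰, tw ψ s I

/-- Boundedness of `L(s, ψ)` on `(1, 2]`. -/
def LrayBounded (ψ : (Ideal (𝓞 K))⁰ →* ℂ) : Prop :=
  ∃ B : ℝ, ∀ s : ℝ, 1 < s → s ≤ 2 → ‖Lray ψ s‖ ≤ B

theorem norm_tw_le {ψ : (Ideal (𝓞 K))⁰ →* ℂ} (hψ : ∀ I, ‖ψ I‖ ≤ 1) (s : ℝ)
    (I : (Ideal (𝓞 K))⁰) : ‖tw ψ s I‖ ≤ H163.normPow s I := by
  rw [tw_apply, norm_mul, Complex.norm_real, Real.norm_of_nonneg (H163.normPow_pos s I).le]
  calc ‖ψ I‖ * H163.normPow s I ≤ 1 * H163.normPow s I :=
        mul_le_mul_of_nonneg_right (hψ I) (H163.normPow_pos s I).le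
    _ = H163.normPow s I := one_mul _

theorem summable_norm_tw {ψ : (Ideal (𝓞 K))⁰ →* ℂ} (hψ : ∀ I, ‖ψ I‖ ≤ 1) {s : ℝ} (hs : 1 < s) :
    Summable fun I : (Ideal (𝓞 K))⁰ => ‖tw ψ s I‖ :=
  Summable.of_nonneg_of_le (fun _ => norm_nonneg _) (norm_tw_le hψ s) (H163.summable_normPow hs)

theorem hasProd_Lray {ψ : (Ideal (𝓞 K))⁰ →* ℂ} (hψ : ∀ I, ‖ψ I‖ ≤ 1) {s : ℝ} (hs : 1 < s) :
    HasProd (fun v : HeightOneSpectrum (𝓞 K) => (1 - tw ψ s (H163.toI0 v))⁻¹) (Lray ψ s) :=
  H163.hasProd_ideal (tw ψ s) (summable_norm_tw hψ hs)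

theorem norm_Lray_le {ψ : (Ideal (𝓞 K))⁰ →* ℂ} (hψ : ∀ I, ‖ψ I‖ ≤ 1) {s : ℝ} (hs : 1 < s) :
    ‖Lray ψ s‖ ≤ H163.zetaR K s := by
  unfold Lray H163.zetaR
  refine (norm_tsum_le_tsum_norm (summable_norm_tw hψ hs)).trans ?_
  exact Summable.tsum_le_tsum (norm_tw_le hψ s) (summable_norm_tw hψ hs) (H163.summable_normPow hs)

/-- **Upper bound**: the primes in the kernel have density at most `1 / #A`. -/
theorem kernel_mass_le {A : Type*} [CommGroup A] [Finite A]
    (ψ : (A →* ℂˣ) → ((Ideal (𝓞 K))⁰ →* ℂ)) (hnorm : ∀ χ I, ‖ψ χ I‖ ≤ 1)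
    (a : HeightOneSpectrum (𝓞 K) → A) (Bad : Set (HeightOneSpectrum (𝓞 K)))
    (hgood : ∀ χ v, v ∉ Bad → ψ χ (H163.toI0 v) = ((χ (a v) : ℂˣ) : ℂ))
    (hbad : ∀ χ v, v ∈ Bad → ψ χ (H163.toI0 v) = 0)
    (hbdd : ∀ χ : A →* ℂˣ, χ ≠ 1 → LrayBounded (ψ χ)) :
    ∃ C : ℝ, 0 < C ∧ ∀ s : ℝ, 1 < s → s ≤ 2 → ∀ T : Finset (HeightOneSpectrum (𝓞 K)),
      (∀ v ∈ T, v ∉ Bad ∧ a v = 1) →
        (∏ v ∈ T, (1 + H163.normPow s (H163.toI0 v))) ^ Nat.card A ≤ C * H163.zetaR K s := by
  classical
  letI : Fintype (A →* ℂˣ) := Fintype.ofFinite _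
  -- the number of characters
  have hcardD : Fintype.card (A →* ℂˣ) = Nat.card A := by
    have : NeZero (Monoid.exponent A) := ⟨Monoid.exponent_ne_zero_of_finite⟩
    rw [← Nat.card_eq_fintype_card]
    exact CommGroup.card_monoidHom_of_hasEnoughRootsOfUnity A ℂ
  -- bounds
  have hB : ∀ χ : A →* ℂˣ, ∃ B : ℝ, χ ≠ 1 → ∀ s : ℝ, 1 < s → s ≤ 2 → ‖Lray (ψ χ) s‖ ≤ B := by
    intro χ
    by_cases h : χ = 1
    · exact ⟨0, fun h' => absurd h h'⟩
    · obtain ⟨B, hB⟩ := hbdd χ h
      exact ⟨B, fun _ => hB⟩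
  choose B hB using hB
  refine ⟨∏ χ ∈ (Finset.univ : Finset (A →* ℂˣ)).erase 1, (|B χ| + 1), ?_,
    fun s hs1 hs2 T hT => ?_⟩
  · exact Finset.prod_pos fun χ _ => by positivity
  have hs0 : 0 < s := by linarith
  -- Euler products
  have hprod := hasProd_prod (s := (Finset.univ : Finset (A →* ℂˣ)))
    (f := fun χ (v : HeightOneSpectrum (𝓞 K)) => (1 - tw (ψ χ) s (H163.toI0 v))⁻¹)
    (a := fun χ => Lray (ψ χ) s)
    (fun χ _ => hasProd_Lray (hnorm χ) hs1)
  have hnormP := hprod.norm
  -- local factors at good primes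
  have hloc : ∀ v : HeightOneSpectrum (𝓞 K), v ∉ Bad →
      (∏ χ : A →* ℂˣ, (1 - tw (ψ χ) s (H163.toI0 v))⁻¹) =
        ∏ χ : A →* ℂˣ, (1 - (((MonoidHom.eval (a v) : (A →* ℂˣ) →* ℂˣ) χ : ℂˣ) : ℂ) *
          ((H163.normPow s (H163.toI0 v) : ℝ) : ℂ))⁻¹ := by
    intro v hv
    refine Finset.prod_congr rfl fun χ _ => ?_
    rw [tw_apply, hgood χ v hv]
    rfl
  have hx0 : ∀ v : HeightOneSpectrum (𝓞 K), 0 ≤ H163.normPow s (H163.toI0 v) :=
    fun v => (H163.normPow_pos s _).le
  have hx1 : ∀ v : HeightOneSpectrum (𝓞 K), H163.normPow s (H163.toI0 v) < 1 :=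
    fun v => H163.normPow_prime_lt_one hs0 v
  have hge : ∀ v : HeightOneSpectrum (𝓞 K),
      1 ≤ ‖∏ χ : A →* ℂˣ, (1 - tw (ψ χ) s (H163.toI0 v))⁻¹‖ := by
    intro v
    by_cases hv : v ∈ Bad
    · have : (∏ χ : A →* ℂˣ, (1 - tw (ψ χ) s (H163.toI0 v))⁻¹) = 1 := by
        refine Finset.prod_eq_one fun χ _ => ?_
        rw [tw_apply, hbad χ v hv, zero_mul, sub_zero, inv_one]
      rw [this, norm_one]
    · have h1 := one_le_norm_prod_inv (MonoidHom.eval (a v) : (A →* ℂˣ) →* ℂˣ) (hx0 v) (hx1 v)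
      have h2 := congrArg (fun z : ℂ => ‖z‖) (hloc v hv)
      exact h1.trans_eq h2.symm
  have hT' : ∀ v ∈ T, (1 + H163.normPow s (H163.toI0 v)) ^ Nat.card A ≤
      ‖∏ χ : A →* ℂˣ, (1 - tw (ψ χ) s (H163.toI0 v))⁻¹‖ := by
    intro v hv
    obtain ⟨hvB, hva⟩ := hT v hv
    have h1 := pow_le_norm_prod_inv_of_trivial (MonoidHom.eval (a v) : (A →* ℂˣ) →* ℂˣ)
      (fun χ => by
        change χ (a v) = 1
        rw [hva, map_one]) (hx0 v) (hx1 v)
    have h2 := congrArg (fun z : ℂ => ‖z‖) (hloc v hvB)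
    calc (1 + H163.normPow s (H163.toI0 v)) ^ Nat.card A
        = (1 + H163.normPow s (H163.toI0 v)) ^ Fintype.card (A →* ℂˣ) :=
          congrArg (fun n : ℕ => (1 + H163.normPow s (H163.toI0 v)) ^ n) hcardD.symm
      _ ≤ _ := h1
      _ = _ := h2.symm
  have hzpos : 0 < H163.zetaR K s := H163.zetaR_pos hs1
  calc (∏ v ∈ T, (1 + H163.normPow s (H163.toI0 v))) ^ Nat.card A
      = ∏ v ∈ T, (1 + H163.normPow s (H163.toI0 v)) ^ Nat.card A := (Finset.prod_pow _ _ _).symm
    _ ≤ ∏ v ∈ T, ‖∏ χ : A →* ℂˣ, (1 - tw (ψ χ) s (H163.toI0 v))⁻¹‖ := by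
        apply Finset.prod_le_prod
        · intro v _
          have := hx0 v
          positivity
        · exact hT'
    _ ≤ ‖∏ χ : A →* ℂˣ, Lray (ψ χ) s‖ := H163.prod_le_of_hasProd hnormP hge T
    _ = (∏ χ ∈ (Finset.univ : Finset (A →* ℂˣ)).erase 1, ‖Lray (ψ χ) s‖) * ‖Lray (ψ 1) s‖ := by
        rw [norm_prod, ← Finset.prod_erase_mul _ _ (Finset.mem_univ (1 : A →* ℂˣ))]
    _ ≤ (∏ χ ∈ (Finset.univ : Finset (A →* ℂˣ)).erase 1, (|B χ| + 1)) * H163.zetaR K s := by
        apply mul_le_mul _ (norm_Lray_le (hnorm 1) hs1) (norm_nonneg _)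
          (Finset.prod_nonneg fun χ _ => by positivity)
        apply Finset.prod_le_prod
        · intro χ _
          exact norm_nonneg _
        · intro χ hχ
          have hne : χ ≠ 1 := Finset.ne_of_mem_erase hχ
          have := hB χ hne s hs1 hs2
          have h2 : B χ ≤ |B χ| := le_abs_self _
          linarith

end Fermat.Agent.S55.G.H357

end
-- ===== PACK-END S55/G/H357/Upper.lean

-- ===== PACK-BEGIN S55/Local/H483/Rel.lean
section


/-!
# S55, layer L : inertia group and ramification index (relative case)   (helper483)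

Base `(A, F)`; `K / F` finite; `N / K` finite Galois.  We apply the absolute case to the base
`(O_K, K)` where `O_K = integralClosure A K`.
-/

set_option autoImplicit false
set_option linter.unusedSectionVars false
set_option linter.style.haveILetI false

namespace Fermat.Agent.S55.Local.H483

open Fermat.Agent.S55.Local IsLocalRing

section Bridge

variable (A F : Type) [CommRing A] [IsDomain A] [IsDiscreteValuationRing A]
  [IsAdicComplete (IsLocalRing.maximalIdeal A) A] [Finite (IsLocalRing.ResidueField A)]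
  [Field F] [CharZero F] [Algebra A F] [IsFractionRing A F]
  (K : Type) [Field K] [Algebra F K] [FiniteDimensional F K]
  [Algebra A K] [IsScalarTower A F K]
  (N : Type) [Field N] [Algebra F N] [Algebra K N] [IsScalarTower F K N]

/-- Integrality over `O_K` is integrality over `A`. -/
lemma isInt_OK_iff (x : N) : IsInt (OO A K) K N x ↔ IsInt A F N x := by
  letI : Algebra A N := H715.algAL A F N
  haveI : IsScalarTower A F N := H715.isScalarTower_algAL A F N
  haveI : IsScalarTower (OO A K) K N := inferInstance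
  haveI : IsScalarTower A K N := IsScalarTower.of_algebraMap_eq (fun a => by
    show algebraMap F N (algebraMap A F a) = algebraMap K N (algebraMap A K a)
    rw [IsScalarTower.algebraMap_apply A F K, ← IsScalarTower.algebraMap_apply F K N])
  haveI : IsScalarTower A (OO A K) N := IsScalarTower.of_algebraMap_eq (fun a => by
    show algebraMap A N a = algebraMap K N (algebraMap (OO A K) K (algebraMap A (OO A K) a))
    rw [IsScalarTower.algebraMap_apply A K N]
    rfl)
  rw [H715.isInt_iff (OO A K) K N x, H715.isInt_iff A F N x]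
  constructor
  · intro hx
    exact isIntegral_trans (R := A) (A := OO A K) x hx
  · intro hx
    exact hx.tower_top

lemma intUnits_OK_eq : intUnits (OO A K) K N = intUnits A F N := by
  ext x
  rw [mem_intUnits, mem_intUnits, isInt_OK_iff A F K N, isInt_OK_iff A F K N]

lemma isUnif_OK_iff (ϖ : Nˣ) : IsUnif (OO A K) K N ϖ ↔ IsUnif A F N ϖ := by
  unfold IsUnif
  rw [intUnits_OK_eq A F K N, isInt_OK_iff A F K N]

lemma inMax_OK_iff (y : N) : InMax (OO A K) K N y ↔ InMax A F N y := by
  unfold InMax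
  rw [isInt_OK_iff A F K N, isInt_OK_iff A F K N]

end Bridge

section Rel

variable (A F : Type) [CommRing A] [IsDomain A] [IsDiscreteValuationRing A]
  [IsAdicComplete (IsLocalRing.maximalIdeal A) A] [Finite (IsLocalRing.ResidueField A)]
  [Field F] [CharZero F] [Algebra A F] [IsFractionRing A F]
  (K : Type) [Field K] [Algebra F K] [FiniteDimensional F K]
  (N : Type) [Field N] [Algebra F N] [Algebra K N] [IsScalarTower F K N]
  [FiniteDimensional K N] [IsGalois K N]

/-- **Inertia group of a finite Galois extension `N / K` of local fields**: a normal subgroup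
`I` of `Gal(N/K)`, described intrinsically, of order `e(N/K)`. -/
theorem exists_inertia :
    ∃ I : Subgroup (N ≃ₐ[K] N), I.Normal ∧
      (∀ σ, σ ∈ I ↔ ∀ x : N, IsInt A F N x → InMax A F N (σ x - x)) ∧
      ∀ (ϖK : Kˣ) (ϖN : Nˣ), IsUnif A F K ϖK → IsUnif A F N ϖN →
        unitsIncl N K ϖK * ϖN ^ (-(Nat.card I : ℤ)) ∈ intUnits A F N := by
  letI : Algebra A K := H715.algAL A F K
  haveI : IsScalarTower A F K := H715.isScalarTower_algAL A F K
  haveI := H715.isDiscreteValuationRing_OL A F K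
  haveI := H715.isAdicComplete_OL A F K
  haveI := H715.finite_residueField_OL A F K
  haveI := H715.isFractionRing_OL A F K
  haveI : CharZero K := charZero_of_injective_algebraMap (algebraMap F K).injective
  refine ⟨inertiaAbs (OO A K) K N, inertiaAbs_normal (OO A K) K N, ?_, ?_⟩
  · intro σ
    rw [mem_inertiaAbs_iff]
    simp only [isInt_OK_iff A F K N, inMax_OK_iff A F K N]
  · intro ϖK ϖN hK hN
    have hK' : IsUnif (OO A K) K K ϖK := (isUnif_OK_iff A F K K ϖK).2 hK
    have hN' : IsUnif (OO A K) K N ϖN := (isUnif_OK_iff A F K N ϖN).2 hN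
    have := unif_mul_zpow_card_inertiaAbs (OO A K) K N ϖK ϖN hK' hN'
    rwa [intUnits_OK_eq A F K N] at this

end Rel

end Fermat.Agent.S55.Local.H483

end
-- ===== PACK-END S55/Local/H483/Rel.lean

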