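import Mathlib
import Fermat.Prelude.Def_EllipticCurve_FrobeniusTrace
import Fermat.Prelude.Def_GaloisRep_CompletionBridge
import Fermat.Prelude.Def_GroupCohomology_ContinuousH2
import Fermat.Agent.Pack.S56.E7L2
import Fermat.Agent.Pack.S56.E3L2
import Fermat.Agent.Pack.S56.E3L1
import Fermat.Agent.Pack.S56.E5L1
import Fermat.Agent.Pack.S56.E0L1
import Fermat.Agent.Pack.S56.E7L0
import Fermat.Agent.Pack.S56.E0L2
import Fermat.Agent.Pack.S56.E3L3
import Fermat.Agent.Pack.S56.E3L0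
import Fermat.Agent.Pack.S56.E1L3
import Fermat.Agent.Pack.S56.E0L0
import Fermat.Agent.Pack.S56.E7L1
import Fermat.Agent.Pack.S56.E6L3
import Fermat.Agent.Pack.S56.E6L2
import Fermat.Agent.Pack.S56.E6L1
import Fermat.Agent.Pack.S56.E6L0

-- ===== PACK-BEGIN S56/P3/H254/Arith.lean
section


/-!
# S56 / P3, part B (arithmetic inputs), helper254

* `cycExpExists : CycExpExistsStatement` (CYCEXP)
* `cycloQuotient : CycloQuotientStatement` (CYC)
* `detOrder : DetOrderStatement` (DETORD)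

Only Mathlib + the frozen P3 interface are used.
-/

set_option autoImplicit false

namespace Fermat.Agent.S56.P3.H254

local notation "Qb" => AlgebraicClosure ℚ

/-- `ℚ̄` contains a primitive `N`-th root of unity for every `N ≠ 0`. -/
theorem exists_primitiveRoot (N : ℕ) [NeZero N] : ∃ ζ : Qb, IsPrimitiveRoot ζ N :=
  HasEnoughRootsOfUnity.exists_primitiveRoot Qb N

/-- An automorphism acts on all `N`-th roots of unity through the exponent it has on a primitive
one. -/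
theorem apply_eq_pow_of_primitive {N : ℕ} [NeZero N] {ζ : Qb} (hζ : IsPrimitiveRoot ζ N)
    (σ : _root_.Fermat.Agent.S56.P3.GQ) {a : ℕ} (ha : σ ζ = ζ ^ a) (μ : Qb) (hμ : μ ^ N = 1) : σ μ = μ ^ a := by
  obtain ⟨j, -, hj⟩ := hζ.eq_pow_of_pow_eq_one hμ
  rw [← hj, map_pow, ha, ← pow_mul, ← pow_mul, mul_comm]

/-- Every automorphism has an exponent on a primitive `N`-th root of unity. -/
theorem exists_exponent {N : ℕ} [NeZero N] {ζ : Qb} (hζ : IsPrimitiveRoot ζ N) (σ : _root_.Fermat.Agent.S56.P3.GQ) :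
    ∃ a : ℕ, σ ζ = ζ ^ a := by
  have h1 : (σ ζ) ^ N = 1 := by rw [← map_pow, hζ.pow_eq_one, map_one]
  obtain ⟨a, -, ha⟩ := hζ.eq_pow_of_pow_eq_one h1
  exact ⟨a, ha.symm⟩

/-- **(CYCEXP)** every `σ ∈ G_ℚ` has a cyclotomic exponent on `μ_p`. -/
theorem cycExpExists : CycExpExistsStatement := by
  intro p _ σ
  have hp : p.Prime := Fact.out
  haveI : NeZero p := ⟨hp.ne_zero⟩
  obtain ⟨ζ, hζ⟩ := exists_primitiveRoot p
  obtain ⟨a, ha⟩ := exists_exponent hζ σ
  exact ⟨a, fun μ hμ => apply_eq_pow_of_primitive hζ σ ha μ hμ⟩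

/-- **(CYC)** `G_{ℚ(ζ_{p^(n+1)})}` is normal in `G_ℚ` with cyclic quotient (`p` odd). -/
theorem cycloQuotient : CycloQuotientStatement := by
  intro p _ hp2 n
  have hp : p.Prime := Fact.out
  haveI : NeZero (p ^ (n + 1)) := ⟨pow_ne_zero _ hp.ne_zero⟩
  obtain ⟨ζ, hζ⟩ := exists_primitiveRoot (p ^ (n + 1))
  let χ : _root_.Fermat.Agent.S56.P3.GQ →* (ZMod (p ^ (n + 1)))ˣ := hζ.autToPow ℚ
  have hχ : ∀ σ : _root_.Fermat.Agent.S56.P3.GQ, ζ ^ ((χ σ : (ZMod (p ^ (n + 1)))ˣ) : ZMod (p ^ (n + 1))).val = σ ζ :=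
    fun σ => hζ.autToPow_spec ℚ σ
  have hker : fixRootsSubgroup p n = χ.ker := by
    ext σ
    rw [mem_fixRootsSubgroup, MonoidHom.mem_ker]
    constructor
    · intro h
      have h1 : σ ζ = ζ := h ζ hζ.pow_eq_one
      have h2 := hχ σ
      rw [h1] at h2
      have h3 : ((χ σ : (ZMod (p ^ (n + 1)))ˣ) : ZMod (p ^ (n + 1))).val
          = (1 : ZMod (p ^ (n + 1))).val := by
        have hlt : 1 < p ^ (n + 1) := Nat.one_lt_pow (Nat.succ_ne_zero n) hp.one_lt
        haveI : Fact (1 < p ^ (n + 1)) := ⟨hlt⟩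
        rw [ZMod.val_one]
        refine hζ.pow_inj (ZMod.val_lt _) hlt ?_
        rw [h2, pow_one]
      exact Units.ext (ZMod.val_injective _ h3)
    · intro h μ hμ
      have h2 := hχ σ
      rw [h] at h2
      have hlt : 1 < p ^ (n + 1) := Nat.one_lt_pow (Nat.succ_ne_zero n) hp.one_lt
      haveI : Fact (1 < p ^ (n + 1)) := ⟨hlt⟩
      rw [Units.val_one, ZMod.val_one, pow_one] at h2
      have := apply_eq_pow_of_primitive hζ σ (a := 1) (by rw [pow_one]; exact h2.symm) μ hμ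
      rwa [pow_one] at this
  have hN : (fixRootsSubgroup p n).Normal := by
    rw [hker]
    exact MonoidHom.normal_ker χ
  refine ⟨hN, ?_⟩
  haveI : IsCyclic (ZMod (p ^ (n + 1)))ˣ := ZMod.isCyclic_units_of_prime_pow p hp hp2 (n + 1)
  let f : _root_.Fermat.Agent.S56.P3.GQ ⧸ fixRootsSubgroup p n →* (ZMod (p ^ (n + 1)))ˣ :=
    QuotientGroup.lift (fixRootsSubgroup p n) χ (fun σ hσ => by
      rw [hker] at hσ
      exact hσ)
  have hf : Function.Injective f := by
    rw [injective_iff_map_eq_one]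
    intro x hx
    obtain ⟨σ, rfl⟩ := QuotientGroup.mk_surjective x
    have h1 : χ σ = 1 := hx
    rw [QuotientGroup.eq_one_iff, hker]
    exact h1
  exact isCyclic_of_injective f hf

/-- The mod `p` cyclotomic character is onto: every unit of `ZMod p` is the exponent of some
automorphism on a primitive `p`-th root of unity. -/
theorem exists_apply_eq_pow {p : ℕ} [Fact p.Prime] {ζ : Qb} (hζ : IsPrimitiveRoot ζ p)
    (a : (ZMod p)ˣ) : ∃ σ : _root_.Fermat.Agent.S56.P3.GQ, σ ζ = ζ ^ (a : ZMod p).val := by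
  have hp : p.Prime := Fact.out
  haveI : NeZero p := ⟨hp.ne_zero⟩
  have hcop : (a : ZMod p).val.Coprime p := ZMod.val_coe_unit_coprime a
  have hζa : IsPrimitiveRoot (ζ ^ (a : ZMod p).val) p := hζ.pow_of_coprime _ hcop
  have hmin : minpoly ℚ (ζ ^ (a : ZMod p).val) = minpoly ℚ ζ := by
    rw [← Polynomial.cyclotomic_eq_minpoly_rat hζ hp.pos,
      ← Polynomial.cyclotomic_eq_minpoly_rat hζa hp.pos]
  haveI : Algebra.IsAlgebraic ℚ Qb := AlgebraicClosure.isAlgebraic ℚ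
  haveI : IsAlgClosure ℚ Qb := ⟨inferInstance, inferInstance⟩
  haveI : Normal ℚ Qb := IsAlgClosure.normal ℚ Qb
  have halg : IsAlgebraic ℚ (ζ ^ (a : ZMod p).val) :=
    (AlgebraicClosure.isAlgebraic ℚ).isAlgebraic _
  exact minpoly.exists_algEquiv_of_root (K := ℚ) (L := Qb) (x := ζ)
    (y := ζ ^ (a : ZMod p).val) halg (by rw [hmin]; exact minpoly.aeval ℚ ζ)

/-- **(DETORD)** if `det ρ̄` is the mod `p` cyclotomic character, it takes a value of exact
order `p - 1`. -/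
theorem detOrder : DetOrderStatement := by
  intro k _ p _ ρbar hdet
  have hp : p.Prime := Fact.out
  haveI : NeZero p := ⟨hp.ne_zero⟩
  haveI : IsCyclic (ZMod p)ˣ := ZMod.isCyclic_units_prime hp
  obtain ⟨g, hg⟩ := IsCyclic.exists_generator (α := (ZMod p)ˣ)
  have hord : orderOf g = p - 1 := by
    rw [orderOf_eq_card_of_forall_mem_zpowers hg, Nat.card_eq_fintype_card,
      ZMod.card_units_eq_totient, Nat.totient_prime hp]
  obtain ⟨ζ, hζ⟩ := exists_primitiveRoot p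
  obtain ⟨γ, hγ⟩ := exists_apply_eq_pow hζ g
  have hexp : Fermat.Agent.S56.IsCycExp p γ (g : ZMod p).val :=
    fun μ hμ => apply_eq_pow_of_primitive hζ γ hγ μ hμ
  have hdetγ := det_eq_of_isCycExp hdet hexp
  refine ⟨γ, ?_⟩
  rw [hdetγ]
  have hp0 : (p : k) = 0 := natCast_eq_zero_of_detIsCyclotomic hdet
  haveI : CharP k p := (CharP.charP_iff_prime_eq_zero hp).mpr hp0
  have h1 : (((g : ZMod p).val : ℕ) : k) = ZMod.castHom (dvd_refl p) k (g : ZMod p) := by
    rw [ZMod.castHom_apply, ZMod.natCast_val]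
  rw [h1]
  have hinj : Function.Injective (ZMod.castHom (dvd_refl p) k) := RingHom.injective _
  have h2 : orderOf ((ZMod.castHom (dvd_refl p) k) (g : ZMod p)) = orderOf (g : ZMod p) :=
    orderOf_injective ((ZMod.castHom (dvd_refl p) k : ZMod p →+* k) : ZMod p →* k) hinj _
  rw [h2, orderOf_units, hord]

end Fermat.Agent.S56.P3.H254

end
-- ===== PACK-END S56/P3/H254/Arith.lean

-- ===== PACK-BEGIN Lib/Cheb/FrobFinite.lean
section





/-!
# CHEB, Tier 1, finite level: the qualitative Frobenius density theorem for Galois number fields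

Assembly of the pieces `Z`, `B0` (helper761), `A` (helper764), `D` (helper943), `M` (helper993).
-/

set_option autoImplicit false

namespace Fermat.Agent.Lib.Cheb

/-- **Frobenius density theorem (qualitative), finite level.**  For a Galois number field `L`,
`σ ∈ Gal(L/ℚ)` and a finite set `S` of primes there are a prime `p ∉ S`, a prime `P` of `𝓞 L`
above `p` with trivial inertia and an arithmetic Frobenius `τ` at `P` with `⟨τ⟩ = ⟨σ⟩`. -/
theorem frobFinite : Spec.FrobFiniteStatement :=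
  H993.frobFinite H761.primeSum_statement H761.primeCountBound_statement H764.count
    H943.frobStatement

end Fermat.Agent.Lib.Cheb

end
-- ===== PACK-END Lib/Cheb/FrobFinite.lean

-- ===== PACK-BEGIN Lib/Cheb/H476/Bridge.lean
section





/-!
# CHEB piece F6 (bridge): `Spec.BridgeDivisionStatement` and `Spec.BridgeStatement`

From the finite-level statements (Galois number fields, primes of rings of integers, Mathlib's
`IsArithFrobAt`) to the Prelude-level statements (valuation subrings of `ℚ̄`, Prelude's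
`IsFrobeniusAt`, `inertiaSubgroupIn`).
-/

set_option autoImplicit false
set_option linter.style.haveILetI false

open NumberField
open scoped Pointwise

namespace Fermat.Agent.Lib.Cheb.H476

open Fermat.Agent.Lib.Cheb.Spec

/-- The normal closure of a finite extension of `ℚ` inside `ℚ̄` is a number field. -/
theorem numberField_normalClosure (E : IntermediateField ℚ Qb) [FiniteDimensional ℚ E] :
    NumberField (IntermediateField.normalClosure ℚ E Qb) :=
  { to_charZero := inferInstance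
    to_finiteDimensional := inferInstance }

/-- The normal closure of a finite extension of `ℚ` inside `ℚ̄` is Galois over `ℚ`. -/
theorem isGalois_normalClosure (E : IntermediateField ℚ Qb) [FiniteDimensional ℚ E] :
    IsGalois ℚ (IntermediateField.normalClosure ℚ E Qb) := by
  haveI : Algebra.IsAlgebraic ℚ Qb := AlgebraicClosure.isAlgebraic ℚ
  haveI : IsAlgClosure ℚ Qb := ⟨inferInstance, inferInstance⟩
  haveI : Normal ℚ Qb := IsAlgClosure.normal ℚ Qb
  have hn : Normal ℚ (IntermediateField.normalClosure ℚ E Qb) := normalClosure.normal ℚ E Qb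
  exact isGalois_iff.mpr ⟨inferInstance, hn⟩

theorem restrictNormal_coe (L : IntermediateField ℚ Qb) [Normal ℚ L] (g : GQ) (x : L) :
    ((AlgEquiv.restrictNormal g L x : L) : Qb) = g (x : Qb) :=
  AlgEquiv.restrictNormal_commutes g L x

theorem restrictNormal_pow (L : IntermediateField ℚ Qb) [Normal ℚ L] (g : GQ) (n : ℕ) :
    AlgEquiv.restrictNormal (g ^ n) L = (AlgEquiv.restrictNormal g L) ^ n :=
  map_pow (AlgEquiv.restrictNormalHom L) g n

/-- **F6 / W5, Tier 1**: the bridge from the finite-level Frobenius density theorem to the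
Prelude-level division statement. -/
theorem bridgeDivision : BridgeDivisionStatement := by
  intro hF E hE σ S
  haveI := hE
  haveI := numberField_normalClosure E
  haveI := isGalois_normalClosure E
  obtain ⟨p, P, τ, hp, hpS, hP, hpP, hI, hτ, hz⟩ :=
    hF (IntermediateField.normalClosure ℚ E Qb)
      (AlgEquiv.restrictNormal σ (IntermediateField.normalClosure ℚ E Qb)) S
  obtain ⟨A, φ, hAp, hφ, hin, hφτ⟩ :=
    exists_frobenius_restrict (IntermediateField.normalClosure ℚ E Qb) p hp P hP hpP hI τ hτ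
  have h1 : τ ∈ Subgroup.zpowers
      (AlgEquiv.restrictNormal σ (IntermediateField.normalClosure ℚ E Qb)) :=
    hz ▸ Subgroup.mem_zpowers τ
  have h2 : AlgEquiv.restrictNormal σ (IntermediateField.normalClosure ℚ E Qb) ∈
      Subgroup.zpowers τ := hz.symm ▸ Subgroup.mem_zpowers _
  obtain ⟨k, hk⟩ := (isOfFinOrder_of_finite
    (AlgEquiv.restrictNormal σ (IntermediateField.normalClosure ℚ E Qb))).mem_powers_iff_mem_zpowers.mpr h1
  obtain ⟨j, hj⟩ := (isOfFinOrder_of_finite τ).mem_powers_iff_mem_zpowers.mpr h2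
  replace hk : AlgEquiv.restrictNormal σ (IntermediateField.normalClosure ℚ E Qb) ^ k = τ := hk
  replace hj : τ ^ j = AlgEquiv.restrictNormal σ (IntermediateField.normalClosure ℚ E Qb) := hj
  have hEL : E ≤ IntermediateField.normalClosure ℚ E Qb := IntermediateField.le_normalClosure E
  refine ⟨p, A, φ, k, j, hp, hpS, hAp, hφ, ?_, ?_, ?_⟩
  · intro ι hι x hx
    exact hin ι hι ⟨x, hEL hx⟩
  · intro x hx
    have h3 := hφτ ⟨x, hEL hx⟩
    rw [← hk, ← restrictNormal_pow, restrictNormal_coe] at h3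
    exact h3
  · intro x hx
    have h4 : AlgEquiv.restrictNormal (φ ^ j) (IntermediateField.normalClosure ℚ E Qb) =
        AlgEquiv.restrictNormal σ (IntermediateField.normalClosure ℚ E Qb) := by
      rw [restrictNormal_pow, ← hj]
      congr 1
      apply AlgEquiv.ext
      intro y
      apply Subtype.ext
      rw [restrictNormal_coe]
      exact hφτ y
    have h5 := restrictNormal_coe (IntermediateField.normalClosure ℚ E Qb) (φ ^ j) ⟨x, hEL hx⟩
    rw [h4, restrictNormal_coe] at h5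
    exact h5.symm

/-- **Bridge, Tier 2**: from finite-level qualitative Chebotarev to the Prelude-level
statement. -/
theorem bridge : BridgeStatement := by
  intro hF E hE σ S
  haveI := hE
  haveI := numberField_normalClosure E
  haveI := isGalois_normalClosure E
  obtain ⟨p, P, hp, hpS, hP, hpP, hI, hτ⟩ :=
    hF (IntermediateField.normalClosure ℚ E Qb)
      (AlgEquiv.restrictNormal σ (IntermediateField.normalClosure ℚ E Qb)) S
  obtain ⟨A, φ, hAp, hφ, hin, hφτ⟩ :=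
    exists_frobenius_restrict (IntermediateField.normalClosure ℚ E Qb) p hp P hP hpP hI _ hτ
  have hEL : E ≤ IntermediateField.normalClosure ℚ E Qb := IntermediateField.le_normalClosure E
  refine ⟨p, A, φ, hp, hpS, hAp, hφ, ?_, ?_⟩
  · intro ι hι x hx
    exact hin ι hι ⟨x, hEL hx⟩
  · intro x hx
    have h3 := hφτ ⟨x, hEL hx⟩
    rw [restrictNormal_coe] at h3
    exact h3

end Fermat.Agent.Lib.Cheb.H476

end
-- ===== PACK-END Lib/Cheb/H476/Bridge.lean

-- ===== PACK-BEGIN S56/H716/TBGlue.lean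
section


/-!
# Row S56 — tangent bound (TB), layer 1: glue `TB ⇐ DICT + SELBOUND` (deputy helper716)

* `tangentBound_of_dict_selBound` : `(∀ Q, Dict (cond Q)) → SelBound cond → TangentBound cond`
* `tangentBoundOrd_of`  : `DictOrdStatement → SelBoundOrdStatement → TangentBoundOrdStatement`
* `tangentBoundFlat_of` : `DictFlatStatement → SelBoundFlatStatement → TangentBoundFlatStatement`
-/

set_option autoImplicit false

open Polynomial IsLocalRing

noncomputable section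

namespace Fermat.Agent.S56.H716

open Fermat.Agent.S56

section

variable {k : Type} [Field k] (ρbar : ResidualGaloisRep k)

lemma IsAdCoboundary.sub {c c' : GQ → Module.End k ρbar.V} (h : IsAdCoboundary ρbar c)
    (h' : IsAdCoboundary ρbar c') : IsAdCoboundary ρbar (c - c') := by
  obtain ⟨m, hm⟩ := h
  obtain ⟨m', hm'⟩ := h'
  refine ⟨m - m', fun σ => ?_⟩
  rw [Pi.sub_apply, hm σ, hm' σ, mul_sub, sub_mul]
  abel

end

variable (𝒪 : Type) [CommRing 𝒪] [IsDomain 𝒪] [IsDiscreteValuationRing 𝒪]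
  [IsAdicComplete (maximalIdeal 𝒪) 𝒪] [Finite (ResidueField 𝒪)]
  (p : ℕ) (ρbar : ResidualGaloisRep (ResidueField 𝒪)) (S : Finset ℕ)

/-- **Glue** `TB ⇐ DICT + SELBOUND`. -/
theorem tangentBound_of_dict_selBound (cond : Finset ℕ → DefCond 𝒪)
    (hdict : ∀ Q : Finset ℕ, Dict 𝒪 ρbar (cond Q)) (hsel : SelBound 𝒪 p ρbar S cond) :
    TangentBound 𝒪 p ρbar S cond := by
  obtain ⟨D, hD, h⟩ := hsel
  refine ⟨D, hD, fun Q hQ hK DQ => ?_⟩
  obtain ⟨T, hTfin, hTle, hT⟩ := h Q hQ hK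
  obtain ⟨f, hf, hinj⟩ := hdict Q DQ
  have hT' : ∀ φ, ∃ t ∈ T, IsAdCoboundary ρbar (f φ - t) := by
    intro φ
    rcases hf φ with h1 | h0
    · exact hT (f φ) h1
    · exact ⟨0, T.zero_mem, 0, fun σ => by simp [h0]⟩
  choose t ht htc using hT'
  let g : TanHom 𝒪 DQ.R → T := fun φ => ⟨t φ, ht φ⟩
  have hg : Function.Injective g := by
    intro φ φ' hφ
    have ht' : t φ = t φ' := congrArg Subtype.val hφ
    refine hinj φ φ' ?_
    have h1 := (htc φ).sub ρbar (htc φ')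
    have h2 : f φ - t φ - (f φ' - t φ') = f φ - f φ' := by
      rw [ht']
      abel
    rwa [h2] at h1
  have : Module.Finite (ResidueField 𝒪) T := hTfin
  have : Finite T := Module.finite_of_finite (ResidueField 𝒪)
  have : Finite (TanHom 𝒪 DQ.R) := Finite.of_injective g hg
  refine ⟨inferInstance, ?_⟩
  calc Nat.card (TanHom 𝒪 DQ.R) ≤ Nat.card T := Nat.card_le_card_of_injective g hg
    _ = Nat.card (ResidueField 𝒪) ^ Module.finrank (ResidueField 𝒪) T :=
        Module.natCard_eq_pow_finrank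
    _ ≤ Nat.card (ResidueField 𝒪) ^ Q.card :=
        Nat.pow_le_pow_right Nat.card_pos hTle

end Fermat.Agent.S56.H716

namespace Fermat.Agent.S56.H716

open Fermat.Agent.S56

/-- (TB-ord) from (DICT-ord) and (SELBOUND-ord). -/
theorem tangentBoundOrd_of (hdict : DictOrdStatement) (hsel : SelBoundOrdStatement) :
    TangentBoundOrdStatement :=
  fun 𝒪 _ _ _ _ _ p ρbar S Smin hyp =>
    tangentBound_of_dict_selBound 𝒪 p ρbar S (ordCond 𝒪 p Smin)
      (hdict 𝒪 p ρbar S Smin hyp) (hsel 𝒪 p ρbar S Smin hyp)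

/-- (TB-flat) from (DICT-flat) and (SELBOUND-flat). -/
theorem tangentBoundFlat_of (hdict : DictFlatStatement) (hsel : SelBoundFlatStatement) :
    TangentBoundFlatStatement :=
  fun 𝒪 _ _ _ _ _ p ρbar S Smin hyp =>
    tangentBound_of_dict_selBound 𝒪 p ρbar S (flatCond 𝒪 p Smin)
      (hdict 𝒪 p ρbar S Smin hyp) (hsel 𝒪 p ρbar S Smin hyp)

end Fermat.Agent.S56.H716

end

end
-- ===== PACK-END S56/H716/TBGlue.lean

-- ===== PACK-BEGIN S56/H596/Dict.lean
section






/-!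
# S56, piece DICT (helper596): tangent vectors ↪ tangent cocycles modulo coboundaries

`dictOrd : DictOrdStatement` and `dictFlat : DictFlatStatement` (frozen statements of
`Fermat/Agent/S56/H716/TBSpec.lean`).

Route.  Fix a matrix form `rb` of `ρ̄` and a matrix form `rR` of the universal deformation lifting
`rb`.  For a tangent vector `φ : R → k[ε]` the matrix representation `φ ∘ rR` is
`σ ↦ rb σ + ε B_φ σ`; the cocycle attached to `φ` is `σ ↦ B_φ σ · (rb σ)⁻¹`, transported to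
`End_k (ρ̄.V)`.  Coboundary ⟹ conjugate by `1 + ε M` ⟹ equal tangent vectors by the uniqueness
part of the universal property.
-/

set_option autoImplicit false
set_option linter.unusedSectionVars false
set_option linter.unusedVariables false
set_option linter.style.haveILetI false

namespace Fermat.Agent.S56.H596

noncomputable section

open IsLocalRing TrivSqZeroExt
open scoped TensorProduct
open Fermat.Agent.S56 Fermat.Agent.S56.H716

/-! ### The tangent algebra -/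

section TanAlg

variable (𝒪 : Type) [CommRing 𝒪] [IsLocalRing 𝒪]

attribute [local instance] Fermat.Agent.S56.tanAlgebra

theorem tanAlgebra_algebraMap (a : 𝒪) :
    algebraMap 𝒪 (DualNumber (ResidueField 𝒪)) a = TrivSqZeroExt.inl (residue 𝒪 a) := rfl

theorem isLocalHom_tanAlgebra :
    IsLocalHom (algebraMap 𝒪 (DualNumber (ResidueField 𝒪))) := by
  refine ⟨fun a ha => ?_⟩
  rw [tanAlgebra_algebraMap, TrivSqZeroExt.isUnit_iff_isUnit_fst, TrivSqZeroExt.fst_inl] at ha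
  by_contra hna
  have : residue 𝒪 a = 0 := (residue_eq_zero_iff a).2 ((mem_maximalIdeal a).2 hna)
  rw [this] at ha
  exact not_isUnit_zero ha

theorem residue_tanAlgebra_surjective :
    Function.Surjective (IsLocalRing.residue (DualNumber (ResidueField 𝒪)) ∘
      algebraMap 𝒪 (DualNumber (ResidueField 𝒪))) := by
  intro y
  obtain ⟨z, rfl⟩ := residue_surjective y
  obtain ⟨a, ha⟩ := residue_surjective (TrivSqZeroExt.fst z)
  refine ⟨a, ?_⟩
  rw [Function.comp_apply, tanAlgebra_algebraMap, ha, ← sub_eq_zero, ← map_sub,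
    residue_eq_zero_iff, mem_maximalIdeal_dualNumber_iff]
  simp

/-- The residue class of a dual number is the image of its constant part. -/
theorem residue_dualNumber_eq (z : DualNumber (ResidueField 𝒪)) :
    residue (DualNumber (ResidueField 𝒪)) z =
      @ResidueField.map 𝒪 (DualNumber (ResidueField 𝒪)) _ _ _ _
        (algebraMap 𝒪 (DualNumber (ResidueField 𝒪))) (isLocalHom_tanAlgebra 𝒪)
        (TrivSqZeroExt.fst z) := by
  haveI := isLocalHom_tanAlgebra 𝒪
  obtain ⟨a, ha⟩ := residue_surjective (TrivSqZeroExt.fst z)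
  rw [← ha, ResidueField.map_residue, tanAlgebra_algebraMap, ha, ← sub_eq_zero, ← map_sub,
    residue_eq_zero_iff, mem_maximalIdeal_dualNumber_iff]
  simp

variable {𝒪}
variable {R : Type} [CommRing R] [IsLocalRing R] [Algebra 𝒪 R]

theorem isLocalHom_tanHom (φ : TanHom 𝒪 R) :
    IsLocalHom (φ : R →+* DualNumber (ResidueField 𝒪)) :=
  isLocalHom_of_residue_surjective (residue_tanAlgebra_surjective 𝒪) φ

/-- The constant part of a tangent vector is the canonical projection `R → k`. -/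
theorem fst_tanHom_eq (φ : TanHom 𝒪 R) (x : R) (a : 𝒪)
    (hxa : residue R x = residue R (algebraMap 𝒪 R a)) :
    TrivSqZeroExt.fst (φ x) = residue 𝒪 a := by
  have hm : x - algebraMap 𝒪 R a ∈ maximalIdeal R := by
    rw [← residue_eq_zero_iff, map_sub, hxa, sub_self]
  have hφ := isLocalHom_tanHom φ
  have h1 : φ (x - algebraMap 𝒪 R a) ∈ maximalIdeal (DualNumber (ResidueField 𝒪)) :=
    Fermat.Agent.S56.H966.map_mem_maximalIdeal (φ : R →+* DualNumber (ResidueField 𝒪)) hφ hm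
  rw [mem_maximalIdeal_dualNumber_iff, map_sub, AlgHom.commutes, tanAlgebra_algebraMap,
    TrivSqZeroExt.fst_sub, TrivSqZeroExt.fst_inl, sub_eq_zero] at h1
  exact h1

theorem fst_tanHom_eq_of_map (hloc : IsLocalHom (algebraMap 𝒪 R)) (φ : TanHom 𝒪 R) (x : R)
    (c : ResidueField 𝒪)
    (hxc : residue R x = ResidueField.map (algebraMap 𝒪 R) c) :
    TrivSqZeroExt.fst (φ x) = c := by
  obtain ⟨a, rfl⟩ := residue_surjective c
  rw [ResidueField.map_residue] at hxc
  exact fst_tanHom_eq φ x a hxc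

/-- Two tangent vectors have the same constant part. -/
theorem fst_tanHom_congr
    (hres : Function.Surjective (IsLocalRing.residue R ∘ algebraMap 𝒪 R))
    (φ φ' : TanHom 𝒪 R) (x : R) :
    TrivSqZeroExt.fst (φ x) = TrivSqZeroExt.fst (φ' x) := by
  obtain ⟨a, ha⟩ := hres (residue R x)
  rw [fst_tanHom_eq φ x a ha.symm, fst_tanHom_eq φ' x a ha.symm]

/-- A tangent vector with nonzero `ε`-part is surjective. -/
theorem tanHom_surjective_of_snd_ne_zero (φ : TanHom 𝒪 R) (x : R)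
    (hx : TrivSqZeroExt.snd (φ x) ≠ 0) : Function.Surjective φ := by
  intro z
  obtain ⟨as, has⟩ := residue_surjective (TrivSqZeroExt.fst (φ x))
  obtain ⟨au, hau⟩ := residue_surjective (TrivSqZeroExt.fst z)
  obtain ⟨av, hav⟩ := residue_surjective (TrivSqZeroExt.snd z / TrivSqZeroExt.snd (φ x))
  refine ⟨algebraMap 𝒪 R au + algebraMap 𝒪 R av * (x - algebraMap 𝒪 R as), ?_⟩
  rw [map_add, map_mul, map_sub, AlgHom.commutes, AlgHom.commutes, AlgHom.commutes,
    tanAlgebra_algebraMap, tanAlgebra_algebraMap, tanAlgebra_algebraMap, has, hau, hav]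
  ext
  · simp
  · simp
    field_simp

/-- Tangent vectors with vanishing `ε`-part are equal. -/
theorem tanHom_eq_of_snd_eq_zero
    (hres : Function.Surjective (IsLocalRing.residue R ∘ algebraMap 𝒪 R))
    (φ φ' : TanHom 𝒪 R) (h : ∀ x, TrivSqZeroExt.snd (φ x) = 0)
    (h' : ∀ x, TrivSqZeroExt.snd (φ' x) = 0) : φ = φ' := by
  apply AlgHom.ext
  intro x
  ext
  · exact fst_tanHom_congr hres φ φ' x
  · rw [h x, h' x]

end TanAlg

/-! ### Matrices and endomorphisms -/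

section MatEnd

variable {k : Type} [Field k] {V : Type} [AddCommGroup V] [Module k V]

/-- Matrices as endomorphisms of `V`, through a coordinate system `E : V ≃ k²`. -/
def matToEnd (E : V ≃ₗ[k] (Fin 2 → k)) : Matrix (Fin 2) (Fin 2) k ≃+* Module.End k V :=
  (Matrix.toLinAlgEquiv' (R := k) (n := Fin 2)).toRingEquiv.trans E.symm.conjRingEquiv

theorem matToEnd_apply (E : V ≃ₗ[k] (Fin 2 → k)) (X : Matrix (Fin 2) (Fin 2) k) (v : V) :
    matToEnd E X v = E.symm (X.mulVec (E v)) := by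
  simp [matToEnd, LinearEquiv.conjRingEquiv]

theorem conj_matToEnd (E : V ≃ₗ[k] (Fin 2 → k)) (X : Matrix (Fin 2) (Fin 2) k) :
    E.conj (matToEnd E X) = Fermat.Agent.S53.matEnd k X := by
  refine LinearMap.ext fun w => ?_
  rw [LinearEquiv.conj_apply_apply, matToEnd_apply, LinearEquiv.apply_symm_apply,
    LinearEquiv.apply_symm_apply, Fermat.Agent.S53.matEnd_apply]

theorem trace_matToEnd (E : V ≃ₗ[k] (Fin 2 → k)) (X : Matrix (Fin 2) (Fin 2) k) :
    LinearMap.trace k V (matToEnd E X) = X.trace := by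
  have h1 : matToEnd E X = E.symm.conj (Matrix.toLin' X) := by
    refine LinearMap.ext fun v => ?_
    rw [matToEnd_apply, LinearEquiv.conj_apply_apply, LinearEquiv.symm_symm, Matrix.toLin'_apply]
  rw [h1, LinearMap.trace_conj', LinearMap.trace_eq_matrix_trace k (Pi.basisFun k (Fin 2)),
    LinearMap.toMatrix_eq_toMatrix', LinearMap.toMatrix'_toLin']

end MatEnd

/-! ### The cocycle of a matrix lift to the dual numbers -/

section Coc

variable {k : Type} [Field k]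
variable (rb : GQ →* Matrix (Fin 2) (Fin 2) k)
variable (r r' : GQ →* Matrix (Fin 2) (Fin 2) (DualNumber k))

/-- The matrix cocycle `σ ↦ B(σ) · rb(σ)⁻¹` of `r = rb + ε B`. -/
def cocMat (σ : GQ) : Matrix (Fin 2) (Fin 2) k := m1 (r σ) * rb σ⁻¹

variable {rb r r'}

theorem rb_mul_inv (σ : GQ) : rb σ * rb σ⁻¹ = 1 := by
  rw [← map_mul, mul_inv_cancel, map_one]

theorem rb_inv_mul (σ : GQ) : rb σ⁻¹ * rb σ = 1 := by
  rw [← map_mul, inv_mul_cancel, map_one]

theorem cocMat_mul_rb (σ : GQ) : cocMat rb r σ * rb σ = m1 (r σ) := by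
  rw [cocMat, mul_assoc, rb_inv_mul, mul_one]

theorem cocMat_mul (h0 : ∀ σ, m0 (r σ) = rb σ) (σ τ : GQ) :
    cocMat rb r (σ * τ) = cocMat rb r σ + rb σ * cocMat rb r τ * rb σ⁻¹ := by
  unfold cocMat
  rw [map_mul r, m1_mul, h0 σ, h0 τ, mul_inv_rev, map_mul rb, add_mul]
  have h1 : m1 (r σ) * rb τ * (rb τ⁻¹ * rb σ⁻¹) = m1 (r σ) * rb σ⁻¹ := by
    rw [mul_assoc, ← mul_assoc (rb τ), rb_mul_inv, one_mul]
  rw [h1, add_comm]
  congr 1
  simp only [mul_assoc]

theorem det_rb_ne_zero (σ : GQ) : (rb σ).det ≠ 0 := by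
  intro h
  have := congrArg Matrix.det (rb_mul_inv (rb := rb) σ)
  rw [Matrix.det_mul, h, zero_mul, Matrix.det_one] at this
  exact zero_ne_one this

theorem trace_cocMat (h0 : ∀ σ, m0 (r σ) = rb σ) (σ : GQ)
    (hdet : TrivSqZeroExt.snd (r σ).det = 0) : (cocMat rb r σ).trace = 0 := by
  have h1 := snd_det (r σ)
  rw [hdet, h0] at h1
  have hadj : (rb σ).adjugate = (rb σ).det • rb σ⁻¹ := by
    have := Matrix.adjugate_mul (rb σ)
    calc (rb σ).adjugate = (rb σ).adjugate * (rb σ * rb σ⁻¹) := by rw [rb_mul_inv, mul_one]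
      _ = ((rb σ).adjugate * rb σ) * rb σ⁻¹ := by rw [mul_assoc]
      _ = _ := by rw [this, Matrix.smul_mul, one_mul]
  rw [hadj, Matrix.mul_smul, Matrix.trace_smul, smul_eq_mul] at h1
  rcases mul_eq_zero.1 h1.symm with h | h
  · exact absurd h (det_rb_ne_zero σ)
  · exact h

theorem cocMat_eq_zero_of_m1 (σ : GQ) (h : m1 (r σ) = 0) : cocMat rb r σ = 0 := by
  rw [cocMat, h, zero_mul]

/-- **Coboundary ⟹ conjugate.** -/
theorem dmk_mul_eq_of_coboundary (h0 : ∀ σ, m0 (r σ) = rb σ) (h0' : ∀ σ, m0 (r' σ) = rb σ)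
    (M : Matrix (Fin 2) (Fin 2) k)
    (hM : ∀ σ, cocMat rb r σ - cocMat rb r' σ = rb σ * M * rb σ⁻¹ - M) (σ : GQ) :
    dmk 1 M * r σ = r' σ * dmk 1 M := by
  apply dualMat_ext
  · rw [m0_mul, m0_mul, m0_dmk, h0, h0', one_mul, mul_one]
  · rw [m1_mul, m1_mul, m0_dmk, m1_dmk, h0, h0', one_mul, mul_one]
    have h1 := congrArg (· * rb σ) (hM σ)
    simp only [sub_mul, cocMat_mul_rb, mul_assoc, rb_inv_mul, mul_one] at h1
    rw [sub_eq_sub_iff_add_eq_add] at h1
    rw [h1, add_comm]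

end Coc

/-! ### The tangent cocycle with values in `End ρ̄.V` -/

section EndCoc

variable {k : Type} [Field k] (ρbar : ResidualGaloisRep k)
variable {rb : GQ →* Matrix (Fin 2) (Fin 2) k}
variable (E : ρbar.V ≃ₗ[k] (Fin 2 → k))
variable (r r' : GQ →* Matrix (Fin 2) (Fin 2) (DualNumber k))

/-- The cocycle of `r = rb + ε B` with values in `End ρ̄.V`. -/
def coc (rb : GQ →* Matrix (Fin 2) (Fin 2) k) (σ : GQ) : Module.End k ρbar.V :=
  matToEnd E (cocMat rb r σ)

variable {ρbar} {r r'} {E}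

theorem rho_eq_matToEnd (hE : ∀ σ v, E (ρbar.ρ σ v) = (rb σ).mulVec (E v)) (σ : GQ) :
    ρbar.ρ σ = matToEnd E (rb σ) := by
  refine LinearMap.ext fun v => ?_
  rw [matToEnd_apply, ← hE σ v, LinearEquiv.symm_apply_apply]

theorem coc_mul_rho (hE : ∀ σ v, E (ρbar.ρ σ v) = (rb σ).mulVec (E v)) (σ : GQ) :
    coc ρbar E r rb σ * ρbar.ρ σ = matToEnd E (m1 (r σ)) := by
  rw [coc, rho_eq_matToEnd hE, ← map_mul, cocMat_mul_rb]

theorem eq_one_of_level (hcont : Fermat.Agent.S53.MatCont r) :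
    ∃ L : IntermediateField ℚ Qb, FiniteDimensional ℚ L ∧
      ∀ τ : GQ, (∀ x ∈ L, τ x = x) → r τ = 1 := by
  obtain ⟨L, hL, h⟩ := hcont 2
  refine ⟨L, hL, fun τ hτ => ?_⟩
  ext i j : 1
  have := h τ hτ i j
  rw [maximalIdeal_dualNumber_sq, Ideal.mem_bot, Matrix.sub_apply, sub_eq_zero] at this
  exact this

theorem isAdCocycle_coc (hE : ∀ σ v, E (ρbar.ρ σ v) = (rb σ).mulVec (E v))
    (h0 : ∀ σ, m0 (r σ) = rb σ)
    (hdet : ∀ σ, TrivSqZeroExt.snd (r σ).det = 0) (hcont : Fermat.Agent.S53.MatCont r) :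
    IsAdCocycle ρbar (coc ρbar E r rb) := by
  refine ⟨fun σ => ?_, fun σ τ => ?_, ?_⟩
  · rw [coc, trace_matToEnd]
    exact trace_cocMat h0 σ (hdet σ)
  · rw [coc, cocMat_mul h0, map_add, map_mul, map_mul, ← rho_eq_matToEnd hE,
      ← rho_eq_matToEnd hE]
    rfl
  · obtain ⟨L, hL, h⟩ := eq_one_of_level hcont
    refine ⟨L, hL, fun σ τ hτ => ?_⟩
    have h1 : cocMat rb r τ = 0 := cocMat_eq_zero_of_m1 τ (by rw [h τ hτ, m1_one])
    rw [coc, cocMat_mul h0, h1, mul_zero, zero_mul, add_zero]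
    rfl

theorem baseChange_conj {V W : Type} [AddCommGroup V] [Module k V] [AddCommGroup W] [Module k W]
    (F : V ≃ₗ[k] W) (f : Module.End k V) (y : DualNumber k ⊗[k] V) :
    (LinearEquiv.baseChange k (DualNumber k) V W F) (f.baseChange (DualNumber k) y) =
      ((F.conj f).baseChange (DualNumber k)) (LinearEquiv.baseChange k (DualNumber k) V W F y) := by
  induction y using TensorProduct.induction_on with
  | zero => simp only [map_zero]
  | tmul d v =>
    rw [LinearMap.baseChange_tmul, LinearEquiv.baseChange_tmul, LinearEquiv.baseChange_tmul,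
      LinearMap.baseChange_tmul, LinearEquiv.conj_apply_apply, LinearEquiv.symm_apply_apply]
  | add x y hx hy => simp only [map_add, hx, hy]

variable (E) in
/-- The coordinate system `k[ε] ⊗ ρ̄.V ≃ k[ε]²`. -/
def liftCoord : (DualNumber k ⊗[k] ρbar.V) ≃ₗ[DualNumber k] (Fin 2 → DualNumber k) :=
  (LinearEquiv.baseChange k (DualNumber k) ρbar.V (Fin 2 → k) E).trans
    (TensorProduct.piScalarRight k (DualNumber k) (DualNumber k) (Fin 2))

theorem liftCoord_liftEnd (hE : ∀ σ v, E (ρbar.ρ σ v) = (rb σ).mulVec (E v))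
    (h0 : ∀ σ, m0 (r σ) = rb σ) (σ : GQ)
    (y : DualNumber k ⊗[k] ρbar.V) :
    liftCoord E (liftEnd ρbar (coc ρbar E r rb) σ y) = (r σ).mulVec (liftCoord E y) := by
  have hr : r σ = (rb σ).map (algebraMap k (DualNumber k)) +
      (DualNumber.eps : DualNumber k) • (m1 (r σ)).map (algebraMap k (DualNumber k)) := by
    rw [← dmk_eq, ← h0 σ, dmk_m0_m1]
  rw [liftEnd, coc_mul_rho hE, rho_eq_matToEnd hE σ, LinearMap.add_apply, LinearMap.smul_apply,
    liftCoord, LinearEquiv.trans_apply, LinearEquiv.trans_apply, map_add, map_smul,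
    baseChange_conj, baseChange_conj, conj_matToEnd, conj_matToEnd, map_add, map_smul,
    Fermat.Agent.S53.piScalarRight_baseChange, Fermat.Agent.S53.piScalarRight_baseChange]
  conv_rhs => rw [hr]
  rw [Matrix.add_mulVec, Matrix.smul_mulVec]

theorem isLiftOf_coc (hE : ∀ σ v, E (ρbar.ρ σ v) = (rb σ).mulVec (E v))
    (h0 : ∀ σ, m0 (r σ) = rb σ) (hcont : Fermat.Agent.S53.MatCont r)
    (ρ' : GaloisRepAdic (DualNumber k))
    (F : ρ'.V ≃ₗ[DualNumber k] (Fin 2 → DualNumber k))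
    (hF : ∀ σ v, F (ρ'.ρ σ v) = (r σ).mulVec (F v)) :
    IsLiftOf ρbar (coc ρbar E r rb) ρ' := by
  refine ⟨F.trans (liftCoord E).symm, fun σ v => ?_⟩
  rw [LinearEquiv.trans_apply, LinearEquiv.trans_apply, hF]
  apply (liftCoord E).injective
  rw [LinearEquiv.apply_symm_apply, liftCoord_liftEnd hE h0, LinearEquiv.apply_symm_apply]

end EndCoc

/-! ### Determinants and the cyclotomic character -/

section Det

variable {k : Type} [Field k]

theorem exists_cycExp (p : ℕ) (hp : p.Prime) (σ : GQ) :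
    ∃ a : ℕ, ∀ μ : Qb, μ ^ p ^ 1 = 1 → σ μ = μ ^ a := by
  haveI : NeZero p := ⟨hp.ne_zero⟩
  obtain ⟨ζ, hζ⟩ := HasEnoughRootsOfUnity.exists_primitiveRoot Qb p
  have h1 : (σ ζ) ^ p = 1 := by rw [← map_pow, hζ.pow_eq_one, map_one]
  obtain ⟨a, -, ha⟩ := hζ.eq_pow_of_pow_eq_one h1
  refine ⟨a, fun μ hμ => ?_⟩
  rw [pow_one] at hμ
  obtain ⟨i, -, rfl⟩ := hζ.eq_pow_of_pow_eq_one hμ
  rw [map_pow, ← ha, ← pow_mul, ← pow_mul, mul_comm]

theorem det_eq_of_coord {A : Type} [CommRing A] {V : Type} [AddCommGroup V] [Module A V]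
    (F : V ≃ₗ[A] (Fin 2 → A)) (f : Module.End A V) (X : Matrix (Fin 2) (Fin 2) A)
    (hF : ∀ v, F (f v) = X.mulVec (F v)) : LinearMap.det f = X.det := by
  have h1 : f = F.symm.conj (Matrix.toLin' X) := by
    refine LinearMap.ext fun v => ?_
    rw [LinearEquiv.conj_apply_apply, LinearEquiv.symm_symm, Matrix.toLin'_apply, ← hF,
      LinearEquiv.symm_apply_apply]
  rw [h1, LinearEquiv.conj_apply, LinearMap.comp_assoc, LinearMap.det_conj,
    LinearMap.det_toLin']

theorem snd_det_eq_zero (p : ℕ) (hp : p.Prime) (ρ' : GaloisRepAdic (DualNumber k))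
    (hdet : ρ'.DetIsCyclotomic p)
    (r : GQ →* Matrix (Fin 2) (Fin 2) (DualNumber k))
    (F : ρ'.V ≃ₗ[DualNumber k] (Fin 2 → DualNumber k))
    (hF : ∀ σ v, F (ρ'.ρ σ v) = (r σ).mulVec (F v)) (σ : GQ) :
    TrivSqZeroExt.snd (r σ).det = 0 := by
  obtain ⟨a, ha⟩ := exists_cycExp p hp σ
  have h1 := hdet.2 1 σ a ha
  have hp0 : ((p ^ 1 : ℕ) : DualNumber k) = 0 := by
    have h2 := (mem_maximalIdeal_dualNumber_iff _).1 hdet.1
    rw [pow_one]
    ext
    · exact h2
    · simp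
  rw [hp0, Ideal.span_singleton_eq_bot.2 rfl, Ideal.mem_bot, sub_eq_zero,
    det_eq_of_coord F (ρ'.ρ σ) (r σ) (hF σ)] at h1
  rw [h1]
  simp

end Det

/-! ### The dictionary -/

section Assembly

attribute [local instance] Fermat.Agent.S56.tanAlgebra

variable (𝒪 : Type) [CommRing 𝒪] [IsDomain 𝒪] [IsDiscreteValuationRing 𝒪]
  [IsAdicComplete (maximalIdeal 𝒪) 𝒪]
  (ρbar : ResidualGaloisRep (ResidueField 𝒪))

/-- **DICT, general form.**  For a deformation condition `𝒟` which forces the determinant to be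
cyclotomic and is preserved by base change along surjective tangent vectors. -/
theorem dict_of (𝒟 : DefCond 𝒪) (p : ℕ) (hp : p.Prime)
    (hdet : ∀ ρ' : GaloisRepAdic (DualNumber (ResidueField 𝒪)), 𝒟 ρ' → ρ'.DetIsCyclotomic p)
    (hbc : ∀ (DQ : GaloisRep.DeformationRingData 𝒪 ρbar 𝒟) (φ : TanHom 𝒪 DQ.R)
      (hφ : IsLocalHom (φ : DQ.R →+* DualNumber (ResidueField 𝒪))), Function.Surjective φ →
      𝒟 (DQ.ρ.baseChangeAlong (φ : DQ.R →+* DualNumber (ResidueField 𝒪)) hφ)) :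
    Dict 𝒪 ρbar 𝒟 := by
  intro DQ
  classical
  haveI hlocD := isLocalHom_tanAlgebra 𝒪
  obtain ⟨rb, hrb, ⟨e⟩⟩ := Fermat.Agent.S53.exists_toRes ρbar
  obtain ⟨rR, hrR, hlift, ⟨eR⟩⟩ := Fermat.Agent.S53.exists_lift_of_residual_isEquiv ρbar rb hrb
    ⟨e⟩ DQ.ρ DQ.residual_isEquiv
  let E : ρbar.V ≃ₗ[ResidueField 𝒪] (Fin 2 → ResidueField 𝒪) := e.toLinearEquiv
  have hE : ∀ σ v, E (ρbar.ρ σ v) = (rb σ).mulVec (E v) := fun σ v => e.map_apply σ v
  -- the matrix representation attached to a tangent vector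
  let rφ : TanHom 𝒪 DQ.R → (GQ →* Matrix (Fin 2) (Fin 2) (DualNumber (ResidueField 𝒪))) :=
    fun φ => Fermat.Agent.S53.mapRep (φ : DQ.R →+* DualNumber (ResidueField 𝒪)) rR
  have hcont : ∀ φ, Fermat.Agent.S53.MatCont (rφ φ) := fun φ => hrR.map _ (isLocalHom_tanHom φ)
  have h0 : ∀ φ σ, m0 (rφ φ σ) = rb σ := by
    intro φ σ
    ext i j
    have h1 := congrFun (congrFun (hlift σ) i) j
    simp only [Matrix.map_apply] at h1
    exact fst_tanHom_eq_of_map DQ.instIsLocalHom φ (rR σ i j) (rb σ i j) h1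
  have hequiv : ∀ φ : TanHom 𝒪 DQ.R, Nonempty (GaloisRepAdic.Equiv
      (DQ.ρ.baseChangeAlong (φ : DQ.R →+* DualNumber (ResidueField 𝒪)) (isLocalHom_tanHom φ))
      (Fermat.Agent.S53.toAdic (rφ φ) (hcont φ))) := by
    intro φ
    obtain ⟨e2⟩ := Fermat.Agent.S53.baseChangeAlong_toAdic
      (φ : DQ.R →+* DualNumber (ResidueField 𝒪)) (isLocalHom_tanHom φ) rR hrR
    exact ⟨(eR.baseChangeAlong (φ : DQ.R →+* DualNumber (ResidueField 𝒪))
      (isLocalHom_tanHom φ)).trans e2⟩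
  have hcoord : ∀ φ : TanHom 𝒪 DQ.R, ∃ F :
      (DQ.ρ.baseChangeAlong (φ : DQ.R →+* DualNumber (ResidueField 𝒪))
        (isLocalHom_tanHom φ)).V ≃ₗ[DualNumber (ResidueField 𝒪)]
        (Fin 2 → DualNumber (ResidueField 𝒪)),
      ∀ σ v, F ((DQ.ρ.baseChangeAlong (φ : DQ.R →+* DualNumber (ResidueField 𝒪))
        (isLocalHom_tanHom φ)).ρ σ v) = (rφ φ σ).mulVec (F v) := by
    intro φ
    obtain ⟨e3⟩ := hequiv φ
    exact ⟨e3.toLinearEquiv, fun σ v => e3.map_apply σ v⟩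
  have hliftφ : ∀ φ σ, (rφ φ σ).map (residue (DualNumber (ResidueField 𝒪))) =
      (rb σ).map (ResidueField.map (algebraMap 𝒪 (DualNumber (ResidueField 𝒪)))) := by
    intro φ σ
    ext i j
    simp only [Matrix.map_apply]
    rw [residue_dualNumber_eq]
    congr 1
    exact congrFun (congrFun (h0 φ σ) i) j
  have hresφ : ∀ φ : TanHom 𝒪 DQ.R,
      (DQ.ρ.baseChangeAlong (φ : DQ.R →+* DualNumber (ResidueField 𝒪))
        (isLocalHom_tanHom φ)).residual.IsEquiv
      (ρbar.baseChangeAlong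
        (ResidueField.map (algebraMap 𝒪 (DualNumber (ResidueField 𝒪))))) := by
    intro φ
    obtain ⟨e3⟩ := hequiv φ
    obtain ⟨e4⟩ := Fermat.Agent.S53.residual_isEquiv_of_lift ρbar rb hrb ⟨e⟩ (rφ φ) (hcont φ)
      (hliftφ φ)
    exact ⟨e3.residual.trans e4⟩
  -- non-surjective tangent vectors have vanishing `ε`-part
  have hsnd : ∀ φ : TanHom 𝒪 DQ.R, ¬ Function.Surjective φ → ∀ x, TrivSqZeroExt.snd (φ x) = 0 := by
    intro φ hφ x
    by_contra hx
    exact hφ (tanHom_surjective_of_snd_ne_zero φ x hx)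
  refine ⟨fun φ => coc ρbar E (rφ φ) rb, fun φ => ?_, fun φ φ' hcob => ?_⟩
  · by_cases hs : Function.Surjective φ
    · left
      have h𝒟 := hbc DQ φ (isLocalHom_tanHom φ) hs
      obtain ⟨F, hF⟩ := hcoord φ
      refine ⟨isAdCocycle_coc hE (h0 φ) ?_ (hcont φ), _, isLiftOf_coc hE (h0 φ) (hcont φ) _ F hF,
        h𝒟⟩
      exact snd_det_eq_zero p hp _ (hdet _ h𝒟) (rφ φ) F hF
    · right
      funext σ
      have hm1 : m1 (rφ φ σ) = 0 := by
        ext i j
        exact hsnd φ hs _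
      show matToEnd E (cocMat rb (rφ φ) σ) = 0
      rw [cocMat_eq_zero_of_m1 σ hm1, map_zero]
  · -- injectivity modulo coboundaries
    obtain ⟨m, hm⟩ := hcob
    have hM : ∀ σ, cocMat rb (rφ φ) σ - cocMat rb (rφ φ') σ =
        rb σ * (matToEnd E).symm m * rb σ⁻¹ - (matToEnd E).symm m := by
      intro σ
      apply (matToEnd E).injective
      rw [map_sub, map_sub, map_mul, map_mul, RingEquiv.apply_symm_apply,
        ← rho_eq_matToEnd hE, ← rho_eq_matToEnd hE]
      exact hm σ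
    have hconj : (Fermat.Agent.S53.toAdic (rφ φ) (hcont φ)).IsEquiv
        (Fermat.Agent.S53.toAdic (rφ φ') (hcont φ')) := by
      rw [Fermat.Agent.S53.toAdic_isEquiv_iff]
      exact ⟨dunit ((matToEnd E).symm m), fun σ =>
        dmk_mul_eq_of_coboundary (h0 φ) (h0 φ') _ hM σ⟩
    obtain ⟨e1⟩ := hequiv φ
    obtain ⟨e2⟩ := hequiv φ'
    obtain ⟨e3⟩ := hconj
    have hφφ' : GaloisRepAdic.Equiv
        (DQ.ρ.baseChangeAlong (φ : DQ.R →+* DualNumber (ResidueField 𝒪)) (isLocalHom_tanHom φ))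
        (DQ.ρ.baseChangeAlong (φ' : DQ.R →+* DualNumber (ResidueField 𝒪))
          (isLocalHom_tanHom φ')) := (e1.trans e3).trans e2.symm
    haveI := isAdicComplete_dualNumber (ResidueField 𝒪)
    by_cases hs' : Function.Surjective φ'
    · have huniv := DQ.universal (DualNumber (ResidueField 𝒪)) (residue_tanAlgebra_surjective 𝒪)
        _ (hbc DQ φ' (isLocalHom_tanHom φ') hs') (hresφ φ')
      exact huniv.unique ⟨isLocalHom_tanHom φ, ⟨hφφ'⟩⟩
        ⟨isLocalHom_tanHom φ', ⟨GaloisRepAdic.Equiv.refl _⟩⟩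
    · by_cases hs : Function.Surjective φ
      · have huniv := DQ.universal (DualNumber (ResidueField 𝒪))
          (residue_tanAlgebra_surjective 𝒪) _ (hbc DQ φ (isLocalHom_tanHom φ) hs) (hresφ φ)
        exact huniv.unique ⟨isLocalHom_tanHom φ, ⟨GaloisRepAdic.Equiv.refl _⟩⟩
          ⟨isLocalHom_tanHom φ', ⟨hφφ'.symm⟩⟩
      · exact tanHom_eq_of_snd_eq_zero DQ.residue_surjective φ φ' (hsnd φ hs) (hsnd φ' hs')

/-- **(DICT-ord)**. -/
theorem dictOrd : DictOrdStatement := by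
  intro 𝒪 _ _ _ _ _ p ρbar S Smin hyp Q
  refine dict_of 𝒪 ρbar (ordCond 𝒪 p Smin Q) p hyp.hp (fun ρ' h => h.1.1) ?_
  intro DQ φ hφ _
  exact ⟨Fermat.Agent.S56.H966.strictOrdinaryCondition_baseChangeAlong 𝒪 _ hφ DQ.isOfType.1,
    fun q hq hqp hne => Fermat.Agent.S56.H966.isUnipotentOnInertiaAt_baseChangeAlong _ hφ
      (DQ.isOfType.2 q hq hqp hne)⟩

/-- **(DICT-flat)**. -/
theorem dictFlat : DictFlatStatement := by
  intro 𝒪 _ _ _ _ _ p ρbar S Smin hyp Q
  refine dict_of 𝒪 ρbar (flatCond 𝒪 p Smin Q) p hyp.hp (fun ρ' h => h.1.1) ?_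
  intro DQ φ hφ hs
  exact ⟨Fermat.Agent.S56.H966.flatCondition_baseChangeAlong_of_surjective 𝒪 _ hφ hs
      DQ.isOfType.1,
    fun q hq hqp hne => Fermat.Agent.S56.H966.isUnipotentOnInertiaAt_baseChangeAlong _ hφ
      (DQ.isOfType.2 q hq hqp hne)⟩

end Assembly

end

end Fermat.Agent.S56.H596

end
-- ===== PACK-END S56/H596/Dict.lean

-- ===== PACK-BEGIN S56/H966/Tw.lean
section
/-
S56 helper (helper966), piece TWP (2nd owner): the twisted adjoint action as a group action,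
cocycle calculus, and TWP2 = local triviality does not depend on the valuation subring over `q`.
-/



set_option autoImplicit false
set_option linter.style.haveILetI false

open scoped Pointwise

noncomputable section

namespace Fermat.Agent.S56.H966

open Fermat.Agent.S56

/-! ### Cyclotomic exponents -/

section cyc

variable (p : ℕ)

theorem isCycExp_one : IsCycExp p 1 1 := fun μ _ => by simp

theorem isCycExp_mul {g h : GQ} {a b : ℕ} (hg : IsCycExp p g a) (hh : IsCycExp p h b) :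
    IsCycExp p (g * h) (a * b) := by
  intro μ hμ
  rw [AlgEquiv.mul_apply, hh μ hμ, map_pow, hg μ hμ, ← pow_mul]

/-- A primitive `p`-th root of unity in `ℚ̄`. -/
theorem exists_primitiveRoot_Qb (N : ℕ) (hN : N ≠ 0) : ∃ ζ : Qb, IsPrimitiveRoot ζ N := by
  haveI : NeZero (N : ℚ) := ⟨by exact_mod_cast hN⟩
  exact HasEnoughRootsOfUnity.exists_primitiveRoot Qb N

theorem exists_isCycExp (hp : p ≠ 0) (g : GQ) : ∃ a, IsCycExp p g a := by
  haveI : NeZero p := ⟨hp⟩
  obtain ⟨ζ, hζ⟩ := exists_primitiveRoot_Qb p hp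
  have hgζ : (g ζ) ^ p = 1 := by rw [← map_pow, hζ.pow_eq_one, map_one]
  obtain ⟨a, -, ha⟩ := hζ.eq_pow_of_pow_eq_one hgζ
  refine ⟨a, fun μ hμ => ?_⟩
  obtain ⟨i, -, rfl⟩ := hζ.eq_pow_of_pow_eq_one hμ
  rw [map_pow, ← ha, ← pow_mul, ← pow_mul, mul_comm]

theorem isCycExp_cast_eq {k : Type} [Field k] [CharP k p] (hp : p ≠ 0) {g : GQ} {a b : ℕ}
    (ha : IsCycExp p g a) (hb : IsCycExp p g b) : (a : k) = (b : k) := by
  obtain ⟨ζ, hζ⟩ := exists_primitiveRoot_Qb p hp
  have h1 : ζ ^ a = ζ ^ b := by rw [← ha ζ hζ.pow_eq_one, hb ζ hζ.pow_eq_one]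
  have hfin : IsOfFinOrder ζ := isOfFinOrder_iff_pow_eq_one.mpr ⟨p, Nat.pos_of_ne_zero hp, hζ.pow_eq_one⟩
  rw [hfin.pow_eq_pow_iff_modEq, ← hζ.eq_orderOf] at h1
  exact (CharP.natCast_eq_natCast k p).mpr h1

end cyc

/-! ### The twisted adjoint action as an action of `G_ℚ` -/

section action

variable {k : Type} [Field k] (ρbar : ResidualGaloisRep k) (p : ℕ)

/-- The value in `k` of the mod `p` cyclotomic character. -/
def chi (k : Type) [Field k] (p : ℕ) (g : GQ) : k :=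
  open Classical in
  if h : ∃ a, IsCycExp p g a then ((Classical.choose h : ℕ) : k) else 0

theorem chi_eq [CharP k p] (hp : p ≠ 0) {g : GQ} {a : ℕ} (ha : IsCycExp p g a) :
    chi k p g = (a : k) := by
  have h : ∃ a, IsCycExp p g a := ⟨a, ha⟩
  unfold chi
  rw [dif_pos h]
  exact isCycExp_cast_eq p hp (Classical.choose_spec h) ha

theorem chi_one [CharP k p] (hp : p ≠ 0) : chi k p 1 = 1 := by
  rw [chi_eq p hp (isCycExp_one p), Nat.cast_one]

theorem chi_mul [CharP k p] (hp : p ≠ 0) (g h : GQ) :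
    chi k p (g * h) = chi k p g * chi k p h := by
  obtain ⟨a, ha⟩ := exists_isCycExp p hp g
  obtain ⟨b, hb⟩ := exists_isCycExp p hp h
  rw [chi_eq p hp (isCycExp_mul p ha hb), chi_eq p hp ha, chi_eq p hp hb, Nat.cast_mul]

/-- The twisted adjoint action `m ↦ χ(g) ρ̄(g) m ρ̄(g)⁻¹`. -/
def T (g : GQ) (m : Module.End k ρbar.V) : Module.End k ρbar.V :=
  chi k p g • (ρbar.ρ g * m * ρbar.ρ g⁻¹)

theorem twAd_eq_T [CharP k p] (hp : p ≠ 0) {g : GQ} {a : ℕ} (ha : IsCycExp p g a)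
    (m : Module.End k ρbar.V) : twAd ρbar g a m = T ρbar p g m := by
  unfold twAd T
  rw [chi_eq p hp ha]

theorem rho_mul_inv (g : GQ) : ρbar.ρ g * ρbar.ρ g⁻¹ = 1 := by
  rw [← map_mul, mul_inv_cancel, map_one]

theorem rho_inv_mul (g : GQ) : ρbar.ρ g⁻¹ * ρbar.ρ g = 1 := by
  rw [← map_mul, inv_mul_cancel, map_one]

theorem T_one [CharP k p] (hp : p ≠ 0) (m : Module.End k ρbar.V) : T ρbar p 1 m = m := by
  unfold T
  rw [chi_one p hp, one_smul, inv_one, map_one, one_mul, mul_one]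

theorem T_mul [CharP k p] (hp : p ≠ 0) (g h : GQ) (m : Module.End k ρbar.V) :
    T ρbar p (g * h) m = T ρbar p g (T ρbar p h m) := by
  unfold T
  rw [chi_mul p hp, mul_inv_rev, map_mul, map_mul, mul_smul_comm, smul_mul_assoc, smul_smul]
  simp only [mul_assoc]

theorem T_add (g : GQ) (m m' : Module.End k ρbar.V) :
    T ρbar p g (m + m') = T ρbar p g m + T ρbar p g m' := by
  unfold T
  rw [mul_add, add_mul, smul_add]

theorem T_neg (g : GQ) (m : Module.End k ρbar.V) :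
    T ρbar p g (-m) = -T ρbar p g m := by
  unfold T
  rw [mul_neg, neg_mul, smul_neg]

theorem T_sub (g : GQ) (m m' : Module.End k ρbar.V) :
    T ρbar p g (m - m') = T ρbar p g m - T ρbar p g m' := by
  rw [sub_eq_add_neg, T_add, T_neg, ← sub_eq_add_neg]

theorem T_smul (g : GQ) (a : k) (m : Module.End k ρbar.V) :
    T ρbar p g (a • m) = a • T ρbar p g m := by
  unfold T
  rw [mul_smul_comm, smul_mul_assoc, smul_comm]

theorem trace_T (g : GQ) (m : Module.End k ρbar.V) :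
    LinearMap.trace k ρbar.V (T ρbar p g m) = chi k p g * LinearMap.trace k ρbar.V m := by
  unfold T
  rw [map_smul, smul_eq_mul, LinearMap.trace_mul_comm, ← mul_assoc, rho_inv_mul, one_mul]

theorem T_inv_T [CharP k p] (hp : p ≠ 0) (g : GQ) (m : Module.End k ρbar.V) :
    T ρbar p g⁻¹ (T ρbar p g m) = m := by
  rw [← T_mul ρbar p hp, inv_mul_cancel, T_one ρbar p hp]

/-! ### Cocycle calculus -/

variable {ρbar p}

theorem coc_mul [CharP k p] (hp : p ≠ 0) {c : GQ → Module.End k ρbar.V}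
    (hc : IsTwCocycle ρbar p c) (g h : GQ) : c (g * h) = c g + T ρbar p g (c h) := by
  obtain ⟨a, ha⟩ := exists_isCycExp p hp g
  rw [hc.map_mul g h a ha, twAd_eq_T ρbar p hp ha]

theorem coc_one [CharP k p] (hp : p ≠ 0) {c : GQ → Module.End k ρbar.V}
    (hc : IsTwCocycle ρbar p c) : c 1 = 0 := by
  have h := coc_mul hp hc 1 1
  rw [mul_one, T_one ρbar p hp] at h
  exact left_eq_add.mp h

theorem coc_inv [CharP k p] (hp : p ≠ 0) {c : GQ → Module.End k ρbar.V}
    (hc : IsTwCocycle ρbar p c) (g : GQ) : c g⁻¹ = -T ρbar p g⁻¹ (c g) := by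
  have h := coc_mul hp hc g⁻¹ g
  rw [inv_mul_cancel, coc_one hp hc] at h
  exact eq_neg_of_add_eq_zero_left h.symm

theorem isTwCoboundaryOn_iff [CharP k p] (hp : p ≠ 0) (H : Subgroup GQ)
    (c : GQ → Module.End k ρbar.V) (m : Module.End k ρbar.V) :
    IsTwCoboundaryOn ρbar p H c m ↔
      LinearMap.trace k ρbar.V m = 0 ∧ ∀ σ ∈ H, c σ = T ρbar p σ m - m := by
  constructor
  · rintro ⟨h0, h⟩
    refine ⟨h0, fun σ hσ => ?_⟩
    obtain ⟨a, ha⟩ := exists_isCycExp p hp σ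
    rw [h σ hσ a ha, twAd_eq_T ρbar p hp ha]
  · rintro ⟨h0, h⟩
    refine ⟨h0, fun σ hσ a ha => ?_⟩
    rw [h σ hσ, twAd_eq_T ρbar p hp ha]

/-- **TWP2, conjugation step.**  If `c` is a coboundary on the decomposition group of `g • A`
then it is a coboundary on the decomposition group of `A`. -/
theorem coboundaryOn_of_smul [CharP k p] (hp : p ≠ 0) {c : GQ → Module.End k ρbar.V}
    (hc : IsTwCocycle ρbar p c) (g : GQ) (A : ValuationSubring Qb) {m : Module.End k ρbar.V}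
    (h : IsTwCoboundaryOn ρbar p ((g • A).decompositionSubgroup ℚ) c m) :
    ∃ m', IsTwCoboundaryOn ρbar p (A.decompositionSubgroup ℚ) c m' := by
  rw [isTwCoboundaryOn_iff hp] at h
  obtain ⟨h0, h⟩ := h
  refine ⟨T ρbar p g⁻¹ (m + c g), ?_⟩
  rw [isTwCoboundaryOn_iff hp]
  refine ⟨?_, fun σ hσ => ?_⟩
  · rw [trace_T, map_add, h0, hc.trace_eq_zero, add_zero, mul_zero]
  · have hconj := h (g * σ * g⁻¹) (Fermat.Agent.Lib.Cheb.H476.conj_mem_decomposition g hσ)
    -- expand `c (g σ g⁻¹)` by the cocycle rule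
    have h1 : c (g * σ * g⁻¹) = c g + T ρbar p g (c σ) - T ρbar p (g * σ * g⁻¹) (c g) := by
      rw [coc_mul hp hc (g * σ) g⁻¹, coc_mul hp hc g σ, coc_inv hp hc g, T_neg,
        ← T_mul ρbar p hp (g * σ) g⁻¹, sub_eq_add_neg]
    rw [h1] at hconj
    -- solve for `T g (c σ)`
    have h2 : T ρbar p g (c σ) = T ρbar p (g * σ * g⁻¹) (m + c g) - (m + c g) := by
      have h2' : T ρbar p g (c σ) =
          (T ρbar p (g * σ * g⁻¹) m - m) - c g + T ρbar p (g * σ * g⁻¹) (c g) := by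
        rw [← hconj]
        abel
      rw [h2', T_add]
      abel
    -- apply `T g⁻¹`
    have h3 := congrArg (T ρbar p g⁻¹) h2
    have e : g⁻¹ * (g * σ * g⁻¹) = σ * g⁻¹ := by group
    rw [T_inv_T ρbar p hp, T_sub, ← T_mul ρbar p hp, e, T_mul ρbar p hp] at h3
    exact h3

end action

end Fermat.Agent.S56.H966

end
end
-- ===== PACK-END S56/H966/Tw.lean

-- ===== PACK-BEGIN S56/FL/RamSpec.lean
section


/-!
# Row S56 — wall W-FLAT-SS, piece RAMCOUNT: FROZEN inner interface (sub-architect helper426)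

`RamCountStatement ⇐ RCTame + RCInfl + RCWild + RCBreak + RCLine`   (glue: `FL/RamGlue.lean`)

Everything here is pure algebra (Mathlib only).  Blueprint: `coord/S56-FLATSS-helper426.md` §3.

`RCDatum` bundles the hypotheses of `RamCountStatement`: discrete valuation rings `A ⊂ B` of
characteristic `0`, `A` with uniformizer `p` and residue field `𝔽_p`, `B/A` Galois with group `Γ`
and satisfying the different bound of Theorem D; an irreducible representation `ρ : Γ → GL₂(k)`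
(`k` finite of characteristic `p`, eigenvalues in `k`, cyclotomic determinant) and two trace-zero
`Ad ρ`-cocycles `c₁, c₂` such that `(ρ, c₁, c₂)` is faithful.  Notation: `W = ker ρ`,
`Γ_n = ramGroup B Γ n` (lower numbering; `Γ₀` = inertia, `Γ₁` = wild inertia).

* `RCTameStatement` (SS):   `p ∤ [Γ : ker ρ]`.
* `RCInflStatement` (IR):   if `p ∤ [Γ : ker ρ]`, a cocycle vanishing on `W` is a coboundary.
* `RCWildStatement` (C1):   `W = Γ₁` (given `p ∤ [Γ : ker ρ]`).
* `RCBreakStatement` (C2 + C3): `W` has a single break: `Γ_n = Γ₁`, `Γ_{n+1} = 1` for some `n ≥ 1`;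
  if `W ≠ 1` then `n = p - 1` and the tame ramification index `|Γ₀/Γ₁|` is `p² - 1`.
* `RCLineStatement` (C4):   if `W = Γ₁` has a single break then `c₁|_W, c₂|_W` are linearly dependent.

Nothing unproved in this file.
-/

set_option autoImplicit false

open Polynomial IsLocalRing

noncomputable section

namespace Fermat.Agent.S56.FL

/-- The `n`-th ramification group (lower numbering) of a group `Γ` acting on a local ring `B`:
`Γ_n = {σ | ∀ x, σ x - x ∈ 𝔪_B ^ (n + 1)}`. -/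
def ramGroup (B Γ : Type) [CommRing B] [IsLocalRing B] [Group Γ] [MulSemiringAction Γ B]
    (n : ℕ) : Subgroup Γ :=
  (maximalIdeal B ^ (n + 1)).toAddSubgroup.inertia Γ

lemma mem_ramGroup {B Γ : Type} [CommRing B] [IsLocalRing B] [Group Γ] [MulSemiringAction Γ B]
    {n : ℕ} {σ : Γ} : σ ∈ ramGroup B Γ n ↔ ∀ x : B, σ • x - x ∈ maximalIdeal B ^ (n + 1) :=
  Iff.rfl

/-- The data and hypotheses of `RamCountStatement`, bundled. -/
structure RCDatum : Type 1 where
  /-- the residue characteristic -/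
  p : ℕ
  /-- the base ring (`P ∩ ℚ̄^{D_P}` in the application) -/
  A : Type
  /-- the ring of integers of the field cut out by `(ρ, c₁, c₂)` -/
  B : Type
  /-- the Galois group -/
  Γ : Type
  /-- the coefficient field -/
  k : Type
  /-- the representation space -/
  V : Type
  [commRingA : CommRing A]
  [isDomainA : IsDomain A]
  [dvrA : IsDiscreteValuationRing A]
  [commRingB : CommRing B]
  [isDomainB : IsDomain B]
  [dvrB : IsDiscreteValuationRing B]
  [charZeroB : CharZero B]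
  [algebraAB : Algebra A B]
  [finiteAB : Module.Finite A B]
  [faithfulAB : FaithfulSMul A B]
  [groupΓ : Group Γ]
  [finiteΓ : Finite Γ]
  [actionΓ : MulSemiringAction Γ B]
  [smulCommΓ : SMulCommClass Γ A B]
  [invariantΓ : Algebra.IsInvariant A B Γ]
  [faithfulΓ : FaithfulSMul Γ B]
  [fieldk : Field k]
  [finitek : Finite k]
  [addCommGroupV : AddCommGroup V]
  [moduleV : Module k V]
  [finiteV : Module.Finite k V]
  hp : p.Prime
  hp2 : p ≠ 2
  hA : maximalIdeal A = Ideal.span {(p : A)}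
  hκ : Nat.card (ResidueField A) = p
  /-- the absolute ramification index of `B` -/
  e : ℕ
  he : Ideal.span {(p : B)} = maximalIdeal B ^ e
  /-- the different bound of Theorem D -/
  hD : ∀ j : ℕ, ¬ p ∣ j → j < e → e < j * (p - 1) →
    differentIdeal A B ∣ Ideal.span {(p : B)} * maximalIdeal B ^ (j - 1)
  hchar : CharP k p
  hV : Module.finrank k V = 2
  /-- the residual representation -/
  ρ : Γ →* Module.End k V
  hirr : ∀ U : Submodule k V, (∀ (σ : Γ), ∀ x ∈ U, ρ σ x ∈ U) → U = ⊥ ∨ U = ⊤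
  hsplit : ∀ σ : Γ, ∃ α β : k, LinearMap.charpoly (ρ σ) = (X - C α) * (X - C β)
  /-- a primitive `p`-th root of unity -/
  ζ : B
  hζ : IsPrimitiveRoot ζ p
  hdet : ∀ (σ : Γ) (a : ℕ), σ • ζ = ζ ^ a → LinearMap.det (ρ σ) = (a : k)
  /-- the first cocycle -/
  c₁ : Γ → Module.End k V
  /-- the second cocycle -/
  c₂ : Γ → Module.End k V
  hc₁ : ∀ σ τ, c₁ (σ * τ) = c₁ σ + ρ σ * c₁ τ * ρ σ⁻¹
  hc₂ : ∀ σ τ, c₂ (σ * τ) = c₂ σ + ρ σ * c₂ τ * ρ σ⁻¹
  htr₁ : ∀ σ, LinearMap.trace k V (c₁ σ) = 0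
  htr₂ : ∀ σ, LinearMap.trace k V (c₂ σ) = 0
  hfaith : ∀ σ, ρ σ = 1 → c₁ σ = 0 → c₂ σ = 0 → σ = 1

namespace RCDatum

attribute [instance] commRingA isDomainA dvrA commRingB isDomainB dvrB charZeroB algebraAB
  finiteAB faithfulAB groupΓ finiteΓ actionΓ smulCommΓ invariantΓ faithfulΓ fieldk finitek
  addCommGroupV moduleV finiteV

/-- The conclusion of `RamCountStatement`: `c₁, c₂` are dependent modulo coboundaries. -/
def Concl (d : RCDatum) : Prop :=
  ∃ a₁ a₂ : d.k, (a₁ ≠ 0 ∨ a₂ ≠ 0) ∧ ∃ m : Module.End d.k d.V,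
    ∀ σ, a₁ • d.c₁ σ + a₂ • d.c₂ σ = d.ρ σ * m * d.ρ σ⁻¹ - m

/-- `c₁, c₂` restricted to `W = ker ρ` are linearly dependent. -/
def DepOnKer (d : RCDatum) : Prop :=
  ∃ a₁ a₂ : d.k, (a₁ ≠ 0 ∨ a₂ ≠ 0) ∧ ∀ σ, d.ρ σ = 1 → a₁ • d.c₁ σ + a₂ • d.c₂ σ = 0

/-- `W = ker ρ` is the wild inertia group `Γ₁`. -/
def KerEqWild (d : RCDatum) : Prop :=
  ∀ σ : d.Γ, d.ρ σ = 1 ↔ σ ∈ ramGroup d.B d.Γ 1

/-- The wild inertia group has a single break `n ≥ 1`; if it is nontrivial then `n = p - 1` and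
the tame ramification index is `p² - 1`. -/
def SingleBreak (d : RCDatum) : Prop :=
  ∃ n : ℕ, 1 ≤ n ∧ ramGroup d.B d.Γ n = ramGroup d.B d.Γ 1 ∧ ramGroup d.B d.Γ (n + 1) = ⊥ ∧
    (ramGroup d.B d.Γ 1 ≠ ⊥ → n = d.p - 1 ∧
      Nat.card (ramGroup d.B d.Γ 0) = (d.p ^ 2 - 1) * Nat.card (ramGroup d.B d.Γ 1))

end RCDatum

/-- (SS) the image of `ρ` has order prime to `p`. -/
def RCTameStatement : Prop :=
  ∀ d : RCDatum, ¬ d.p ∣ d.ρ.ker.index

/-- (IR) inflation–restriction: for any finite group `Γ`, any representation `ρ` on a vector space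
over a field of characteristic `p` whose image has order prime to `p`, a cocycle for `Ad ρ`
vanishing on `ker ρ` is a coboundary. -/
def RCInflStatement : Prop :=
  ∀ (p : ℕ) [Fact p.Prime] (Γ : Type) [Group Γ] [Finite Γ] (k : Type) [Field k] [CharP k p]
    (V : Type) [AddCommGroup V] [Module k V] (ρ : Γ →* Module.End k V),
    ¬ p ∣ ρ.ker.index →
    ∀ c : Γ → Module.End k V, (∀ σ τ, c (σ * τ) = c σ + ρ σ * c τ * ρ σ⁻¹) →
      (∀ σ, ρ σ = 1 → c σ = 0) →
      ∃ m : Module.End k V, ∀ σ, c σ = ρ σ * m * ρ σ⁻¹ - m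

/-- (C1) `ker ρ` is the wild inertia group. -/
def RCWildStatement : Prop :=
  ∀ d : RCDatum, ¬ d.p ∣ d.ρ.ker.index → d.KerEqWild

/-- (C2 + C3) the wild inertia group has a single break. -/
def RCBreakStatement : Prop :=
  ∀ d : RCDatum, ¬ d.p ∣ d.ρ.ker.index → d.KerEqWild → d.SingleBreak

/-- (C4) if `ker ρ = Γ₁` has a single break, then `c₁, c₂` are dependent on `ker ρ`. -/
def RCLineStatement : Prop :=
  ∀ d : RCDatum, ¬ d.p ∣ d.ρ.ker.index → d.KerEqWild → d.SingleBreak → d.DepOnKer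

end Fermat.Agent.S56.FL

end

end
-- ===== PACK-END S56/FL/RamSpec.lean

-- ===== PACK-BEGIN S56/FL/Glue.lean
section


/-!
# Row S56 — wall W-FLAT-SS: glue `LocalModelStatement → RamCountStatement → FlatSSStatement`
(helper426).  Sorry-free.
-/

set_option autoImplicit false

open Polynomial IsLocalRing

noncomputable section

namespace Fermat.Agent.S56.FL

open Fermat.Agent.S56 Fermat.Agent.S56.H716

/-- Glue: the local model (different bound) and the ramification count give the top statement. -/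
theorem flatSS_of (hLM : LocalModelStatement) (hRC : RamCountStatement) : FlatSSStatement := by
  intro k _ _ p _ hp2 hchar ρbar hdet hsplit P hP hirr c₁ c₂ h₁ h₂ ρ₁ ρ₂ hl₁ hl₂ hf₁ hf₂
  obtain ⟨A, B, iA1, iA2, iA3, iB1, iB2, iB3, iB4, iAB1, iAB2, iAB3, Γ, iΓ1, iΓ2, iΓ3, iΓ4, iΓ5,
    iΓ6, π, ζ, e, hπ, hker, hA, hκ, hζ, hcyc, he, hD⟩ :=
    hLM k p hp2 hchar ρbar hdet P hP c₁ c₂ h₁ h₂ ρ₁ ρ₂ hl₁ hl₂ hf₁ hf₂
  -- a set-theoretic section of `π`
  let s : Γ → P.decompositionSubgroup ℚ := Function.surjInv hπ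
  have hs : ∀ γ, π (s γ) = γ := Function.surjInv_eq hπ
  -- elements with the same image under `π`
  have key : ∀ σ τ : P.decompositionSubgroup ℚ, π σ = π τ →
      ρbar.ρ (σ : GQ) = ρbar.ρ (τ : GQ) ∧ c₁ (σ : GQ) = c₁ (τ : GQ) ∧
        c₂ (σ : GQ) = c₂ (τ : GQ) := by
    intro σ τ h
    have h1 : π (σ⁻¹ * τ) = 1 := by rw [map_mul, map_inv, h, inv_mul_cancel]
    obtain ⟨hρ, hc1, hc2⟩ := (hker _).1 h1
    have hτ : (τ : GQ) = (σ : GQ) * ((σ⁻¹ * τ : P.decompositionSubgroup ℚ) : GQ) := by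
      simp
    refine ⟨?_, ?_, ?_⟩
    · rw [hτ, map_mul, hρ, mul_one]
    · rw [hτ, h₁.map_mul, hc1]; simp
    · rw [hτ, h₂.map_mul, hc2]; simp
  -- the representation and the cocycles on `Γ`
  let ρΓ : Γ →* Module.End k ρbar.V :=
    { toFun := fun γ => ρbar.ρ ((s γ : P.decompositionSubgroup ℚ) : GQ)
      map_one' := by
        have := (key (s 1) 1 (by rw [hs, map_one])).1
        simpa using this
      map_mul' := fun γ γ' => by
        have := (key (s (γ * γ')) (s γ * s γ') (by rw [hs, map_mul, hs, hs])).1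
        simpa using this }
  have hρΓ : ∀ σ : P.decompositionSubgroup ℚ, ρΓ (π σ) = ρbar.ρ (σ : GQ) := fun σ =>
    (key (s (π σ)) σ (hs _)).1
  let d₁ : Γ → Module.End k ρbar.V := fun γ => c₁ ((s γ : P.decompositionSubgroup ℚ) : GQ)
  let d₂ : Γ → Module.End k ρbar.V := fun γ => c₂ ((s γ : P.decompositionSubgroup ℚ) : GQ)
  have hd₁ : ∀ σ : P.decompositionSubgroup ℚ, d₁ (π σ) = c₁ (σ : GQ) := fun σ =>
    (key (s (π σ)) σ (hs _)).2.1
  have hd₂ : ∀ σ : P.decompositionSubgroup ℚ, d₂ (π σ) = c₂ (σ : GQ) := fun σ =>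
    (key (s (π σ)) σ (hs _)).2.2
  have hcoc : ∀ (c : GQ → Module.End k ρbar.V) (d : Γ → Module.End k ρbar.V),
      IsAdCocycle ρbar c → (∀ σ : P.decompositionSubgroup ℚ, d (π σ) = c (σ : GQ)) →
      ∀ γ γ', d (γ * γ') = d γ + ρΓ γ * d γ' * ρΓ γ⁻¹ := by
    intro c d hc hd γ γ'
    obtain ⟨σ, rfl⟩ := hπ γ
    obtain ⟨τ, rfl⟩ := hπ γ'
    rw [← map_mul, ← map_inv, hd, hd, hd, hρΓ, hρΓ]
    simpa using hc.map_mul (σ : GQ) (τ : GQ)
  obtain ⟨a₁, a₂, ha, m, hm⟩ := hRC p hp2 A B Γ hA hκ e he hD k hchar ρbar.V ρbar.finrank_eq ρΓ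
    (by
      intro U hU
      refine hirr U (fun σ hσ x hx => ?_)
      have := hU (π ⟨σ, hσ⟩) x hx
      rwa [hρΓ] at this)
    (by
      intro γ
      obtain ⟨σ, rfl⟩ := hπ γ
      rw [hρΓ]
      exact hsplit _)
    ζ hζ
    (by
      intro γ a hγ
      obtain ⟨σ, rfl⟩ := hπ γ
      rw [hρΓ]
      exact hdet _ a (hcyc σ a hγ))
    d₁ d₂ (hcoc c₁ d₁ h₁ hd₁) (hcoc c₂ d₂ h₂ hd₂)
    (by
      intro γ
      obtain ⟨σ, rfl⟩ := hπ γ
      rw [hd₁]
      exact h₁.trace_eq_zero _)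
    (by
      intro γ
      obtain ⟨σ, rfl⟩ := hπ γ
      rw [hd₂]
      exact h₂.trace_eq_zero _)
    (by
      intro γ h1 h2 h3
      obtain ⟨σ, rfl⟩ := hπ γ
      rw [hρΓ] at h1
      rw [hd₁] at h2
      rw [hd₂] at h3
      exact (hker σ).2 ⟨h1, h2, h3⟩)
  refine ⟨a₁, a₂, ha, m, fun σ hσ => ?_⟩
  have := hm (π ⟨σ, hσ⟩)
  rw [hd₁, hd₂, hρΓ, ← map_inv, hρΓ] at this
  simpa using this

end Fermat.Agent.S56.FL

end

end
-- ===== PACK-END S56/FL/Glue.lean

-- ===== PACK-BEGIN S56/H554/TameCyclic.lean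
section






/-!
# S56 / local engine at `q ≠ p` (helper554): the KEY TAME LEMMA

`P` a valuation subring of `ℚ̄` over the prime `q`, `L ⊆ ℚ̄` a finite normal extension of `ℚ`,
`p ≠ q` a prime.

* `exists_tame_generator` : there is `τ₀ ∈ I_P` such that every `τ ∈ I_P` is `τ₀ ^ n` times an
  element which is wild on `L`.
* `tameHom_conj_frobenius` : `tame(φ τ φ⁻¹) = tame(τ) ^ q` for a Frobenius element `φ` at `P`.
* `key_tame` : **Key Tame Lemma.** There is `τ₀ ∈ I_P` such that for EVERY group hom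
  `f : G_ℚ →* Γ` which is trivial on `G_L` and has `p`-power order on `I_P`:
  `f τ ∈ ⟨f τ₀⟩` for all `τ ∈ I_P`, and `f (φ τ φ⁻¹) = f τ ^ q` for every Frobenius `φ` at `P`.
-/

set_option autoImplicit false

namespace Fermat.Agent.S56.H554

open Fermat.Agent.A2.H708

open scoped Pointwise

/-- `ℚ̄/ℚ` is algebraic (local instance for the tame character API). -/
theorem isAlgebraic_Qb : Algebra.IsAlgebraic ℚ Qb := AlgebraicClosure.isAlgebraic ℚ

attribute [local instance] isAlgebraic_Qb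

variable {P : ValuationSubring Qb} {q : ℕ}

/-- A prime `p ≠ q` is a unit of `P`. -/
theorem valuation_prime_eq_one (hq : q.Prime) (hP : P.LiesOverPrime q) {p : ℕ} (hp : p.Prime)
    (hpq : p ≠ q) : P.valuation (p : Qb) = 1 := by
  have hcop : Nat.Coprime p q := (Nat.coprime_primes hp hq).mpr hpq
  have hle : ∀ n : ℤ, P.valuation (n : Qb) ≤ 1 := fun n =>
    (P.valuation_le_one_iff _).mpr (intCast_mem P n)
  have hbez : (p : ℤ) * Nat.gcdA p q + (q : ℤ) * Nat.gcdB p q = 1 := by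
    have := Nat.gcd_eq_gcd_ab p q
    rw [hcop.gcd_eq_one] at this
    exact_mod_cast this.symm
  have hq1 : P.valuation (q : Qb) < 1 := P.mem_nonunits_iff.mp hP
  have h1 : (p : Qb) * ((Nat.gcdA p q : ℤ) : Qb) = 1 - (q : Qb) * ((Nat.gcdB p q : ℤ) : Qb) := by
    have := congrArg (fun z : ℤ => (z : Qb)) hbez
    push_cast at this
    linear_combination this
  have h2 : P.valuation ((q : Qb) * ((Nat.gcdB p q : ℤ) : Qb)) < 1 := by
    rw [map_mul]
    exact mul_lt_one_of_nonneg_of_lt_one_left zero_le hq1 (hle _)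
  have h3 : P.valuation ((p : Qb) * ((Nat.gcdA p q : ℤ) : Qb)) = 1 := by
    rw [h1]
    exact Valuation.map_one_sub_of_lt _ h2
  rw [map_mul] at h3
  have hp1 : P.valuation (p : Qb) ≤ 1 := by
    have := hle (p : ℤ)
    rwa [Int.cast_natCast] at this
  refine le_antisymm hp1 ?_
  by_contra hlt
  push Not at hlt
  have : P.valuation (p : Qb) * P.valuation ((Nat.gcdA p q : ℤ) : Qb) < 1 :=
    mul_lt_one_of_nonneg_of_lt_one_left zero_le hlt (hle _)
  exact absurd h3 this.ne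

/-- The value of the tame character in the residue field. -/
theorem coe_tameHom {τ : GQ} (hτ : τ ∈ P.inertiaSubgroupIn ℚ) (c : Qbˣ)
    (h : τ (c : Qb) / c ∈ P) :
    ((tameHom P hτ c : (IsLocalRing.ResidueField P)ˣ) : IsLocalRing.ResidueField P) =
      IsLocalRing.residue P ⟨τ (c : Qb) / c, h⟩ := by
  unfold tameHom
  rw [MonoidHom.comp_apply, ValuationSubring.coe_unitGroupToResidueFieldUnits_apply]
  congr 1
  apply Subtype.ext
  rw [ValuationSubring.coe_unitGroupMulEquiv_apply, coe_ratioHom]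

theorem residue_eq_of_sub_mem_nonunits {a b : Qb} (ha : a ∈ P) (hb : b ∈ P)
    (h : a - b ∈ P.nonunits) :
    IsLocalRing.residue P ⟨a, ha⟩ = IsLocalRing.residue P ⟨b, hb⟩ := by
  rw [← sub_eq_zero, ← map_sub, IsLocalRing.residue_eq_zero_iff,
    ← ValuationSubring.coe_mem_nonunits_iff]
  exact h

/-- **Frobenius acts on the tame character by the `q`-th power.** -/
theorem tameHom_conj_frobenius {φ τ : GQ} (hφ : P.IsFrobeniusAt φ q)
    (hτ : τ ∈ P.inertiaSubgroupIn ℚ) (hc : φ * τ * φ⁻¹ ∈ P.inertiaSubgroupIn ℚ) (c : Qbˣ) :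
    tameHom P hc c = tameHom P hτ c ^ q := by
  obtain ⟨hφD, hφF⟩ := (Fermat.Agent.Lib.Cheb.H476.isFrobeniusAt_iff P φ q).mp hφ
  have hτD : τ ∈ P.decompositionSubgroup ℚ := mem_decomposition_of_mem_inertiaIn P hτ
  set y : Qbˣ := Units.map ((φ⁻¹ : GQ) : Qb →* Qb) c with hy
  have hyc : ((y : Qbˣ) : Qb) = φ⁻¹ (c : Qb) := rfl
  have hφy : φ (y : Qb) = c := by
    rw [hyc]
    show (φ * φ⁻¹) (c : Qb) = c
    rw [mul_inv_cancel]; rfl
  have hval : P.valuation ((y : Qbˣ) : Qb) = P.valuation (c : Qb) := by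
    rw [hyc]
    exact valuation_apply_of_mem_decomposition P (inv_mem hφD) (c : Qb)
  have hy' : tameHom P hτ y = tameHom P hτ c := tameHom_eq_of_valuation_eq P hτ y c hval
  rw [← hy']
  -- the unit `u = τ y / y`
  have hu : τ (y : Qb) / y ∈ P := by
    rw [← P.valuation_le_one_iff]
    exact (valuation_apply_div_self P hτD y.ne_zero).le
  have hconj : (φ * τ * φ⁻¹) (c : Qb) / c = φ (τ (y : Qb) / y) := by
    rw [map_div₀, hφy]
    rfl
  have hc' : (φ * τ * φ⁻¹) (c : Qb) / c ∈ P := by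
    rw [hconj]
    exact apply_mem_of_mem_decomposition P hφD hu
  apply Units.ext
  rw [Units.val_pow_eq_pow_val, coe_tameHom hc c hc', coe_tameHom hτ y hu, ← map_pow]
  have hpow : (⟨τ (y : Qb) / y, hu⟩ : P) ^ q = ⟨(τ (y : Qb) / y) ^ q, P.pow_mem hu q⟩ := rfl
  rw [hpow]
  apply residue_eq_of_sub_mem_nonunits
  rw [hconj]
  exact hφF _ hu

/-- The tame character at `c`, as a group hom on the inertia group. -/
noncomputable def tameAt (P : ValuationSubring Qb) (c : Qbˣ) :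
    ↥(P.inertiaSubgroupIn ℚ) →* (IsLocalRing.ResidueField P)ˣ where
  toFun τ := tameHom P τ.2 c
  map_one' := tameHom_eq_one_of_fixed P _ c rfl
  map_mul' σ τ := tameHom_mul P σ.2 τ.2 c

theorem tameAt_apply (c : Qbˣ) (τ : ↥(P.inertiaSubgroupIn ℚ)) :
    tameAt P c τ = tameHom P τ.2 c := rfl

/-- If the tame character of `τ` is trivial at a uniformizer of `L`, then `τ` is wild on `L`. -/
theorem isWildOn_of_tameHom_uniformizer (L : IntermediateField ℚ Qb) {ϖ : L}
    (hϖ0 : (ϖ : Qb) ≠ 0)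
    (hdisc : ∀ c : L, c ≠ 0 → ∃ n : ℤ, P.valuation (c : Qb) = P.valuation (ϖ : Qb) ^ n)
    {τ : GQ} (hτ : τ ∈ P.inertiaSubgroupIn ℚ)
    (h1 : tameHom P hτ (Units.mk0 (ϖ : Qb) hϖ0) = 1) : IsWildOn P τ (L : Set Qb) := by
  rw [isWildOn_iff_tameHom hτ]
  intro c hc
  have hc0 : (⟨(c : Qb), hc⟩ : L) ≠ 0 := by
    intro h
    exact c.ne_zero (congrArg Subtype.val h)
  obtain ⟨n, hn⟩ := hdisc ⟨(c : Qb), hc⟩ hc0
  have hval : P.valuation ((c : Qbˣ) : Qb) =
      P.valuation (((Units.mk0 (ϖ : Qb) hϖ0 ^ n : Qbˣ) : Qbˣ) : Qb) := by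
    rw [Units.val_zpow_eq_zpow_val, map_zpow₀]
    exact hn
  rw [tameHom_eq_of_valuation_eq P hτ c _ hval, map_zpow, h1, one_zpow]

/-- **Cyclicity of tame inertia at finite level.** -/
theorem exists_tame_generator (hq : q.Prime) (hP : P.LiesOverPrime q)
    (L : IntermediateField ℚ Qb) [FiniteDimensional ℚ L] :
    ∃ τ₀ ∈ P.inertiaSubgroupIn ℚ, ∀ τ ∈ P.inertiaSubgroupIn ℚ,
      ∃ n : ℤ, ∃ ω ∈ P.inertiaSubgroupIn ℚ, IsWildOn P ω (L : Set Qb) ∧ τ = τ₀ ^ n * ω := by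
  obtain ⟨ϖ, hϖ0, hϖlt, hdisc⟩ := exists_uniformizer (P := P) (L := L) hq hP
  have hϖ0' : (ϖ : Qb) ≠ 0 := fun h => hϖ0 (by exact_mod_cast h)
  set ϖu : Qbˣ := Units.mk0 (ϖ : Qb) hϖ0' with hϖu
  -- an exponent killing the tame character
  have hqL : ((q : ℕ) : L) ≠ 0 := by exact_mod_cast hq.ne_zero
  obtain ⟨n, hn⟩ := hdisc (q : L) hqL
  have hqQ : (((q : ℕ) : L) : Qb) = (q : Qb) := by push_cast; rfl
  rw [hqQ] at hn
  have hq1 : P.valuation (q : Qb) < 1 := P.mem_nonunits_iff.mp hP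
  have hn0 : n ≠ 0 := by
    rintro rfl
    rw [zpow_zero] at hn
    exact absurd hn hq1.ne
  have hq0 : (q : Qb) ≠ 0 := by exact_mod_cast hq.ne_zero
  have hkill : ∀ τ : ↥(P.inertiaSubgroupIn ℚ), tameAt P ϖu τ ^ n.natAbs = 1 := by
    intro τ
    have h1 : tameHom P τ.2 ϖu ^ n = 1 := by
      have hval : P.valuation (((ϖu ^ n : Qbˣ) : Qbˣ) : Qb) =
          P.valuation (((Units.mk0 (q : Qb) hq0 : Qbˣ)) : Qb) := by
        rw [Units.val_zpow_eq_zpow_val, map_zpow₀]
        exact hn.symm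
      rw [← map_zpow, tameHom_eq_of_valuation_eq P τ.2 _ _ hval]
      exact tameHom_algebraMap P τ.2 _ (q : ℚ) (by simp)
    rw [tameAt_apply]
    rcases Int.natAbs_eq n with h | h
    · rw [h, zpow_natCast] at h1
      simpa using h1
    · rw [h, zpow_neg, zpow_natCast, inv_eq_one] at h1
      simpa using h1
  have hm : NeZero n.natAbs := ⟨Int.natAbs_ne_zero.mpr hn0⟩
  have hle : (tameAt P ϖu).range ≤ rootsOfUnity n.natAbs (IsLocalRing.ResidueField P) := by
    rintro x ⟨τ, rfl⟩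
    rw [mem_rootsOfUnity]
    exact hkill τ
  have hfin : Finite ↥(tameAt P ϖu).range :=
    Finite.of_injective (Subgroup.inclusion hle) (Subgroup.inclusion_injective hle)
  obtain ⟨g, hg⟩ := IsCyclic.exists_zpow_surjective (G := ↥(tameAt P ϖu).range)
  obtain ⟨τ₀, hτ₀⟩ := g.2
  refine ⟨τ₀, τ₀.2, fun τ hτ => ?_⟩
  obtain ⟨n', hn'⟩ := hg ⟨tameAt P ϖu ⟨τ, hτ⟩, ⟨⟨τ, hτ⟩, rfl⟩⟩
  have hn'' : tameAt P ϖu τ₀ ^ n' = tameAt P ϖu ⟨τ, hτ⟩ := by
    have := congrArg Subtype.val hn'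
    simp only [Subgroup.coe_zpow] at this
    rw [← hτ₀] at this
    exact this
  set ω : ↥(P.inertiaSubgroupIn ℚ) := τ₀ ^ (-n') * ⟨τ, hτ⟩ with hω
  refine ⟨n', (ω : GQ), ω.2, ?_, ?_⟩
  · apply isWildOn_of_tameHom_uniformizer L hϖ0' hdisc ω.2
    show tameAt P ϖu ω = 1
    rw [hω, map_mul, map_zpow, zpow_neg, hn'', inv_mul_cancel]
  · have h1 : (τ₀ ^ n' * ω : ↥(P.inertiaSubgroupIn ℚ)) = ⟨τ, hτ⟩ := by
      rw [hω, zpow_neg, mul_inv_cancel_left]
    have h2 := congrArg Subtype.val h1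
    rw [Subgroup.coe_mul, Subgroup.coe_zpow] at h2
    exact h2.symm

theorem conj_mem_inertia_of_mem_decomposition {φ τ : GQ}
    (hφ : φ ∈ P.decompositionSubgroup ℚ) (hτ : τ ∈ P.inertiaSubgroupIn ℚ) :
    φ * τ * φ⁻¹ ∈ P.inertiaSubgroupIn ℚ := by
  have h := Fermat.Agent.Lib.Cheb.H476.conj_mem_inertia φ hτ
  rwa [MulAction.mem_stabilizer_iff.mp hφ] at h

/-- `φ τ φ⁻¹ τ^{-q}` is wild (on everything) for a Frobenius element `φ`. -/
theorem isWildOn_conj_frobenius {φ τ : GQ} (hφ : P.IsFrobeniusAt φ q)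
    (hτ : τ ∈ P.inertiaSubgroupIn ℚ) (E : Set Qb) :
    ∃ ω ∈ P.inertiaSubgroupIn ℚ, IsWildOn P ω E ∧ φ * τ * φ⁻¹ = ω * τ ^ q := by
  have hφD := ((Fermat.Agent.Lib.Cheb.H476.isFrobeniusAt_iff P φ q).mp hφ).1
  have hc := conj_mem_inertia_of_mem_decomposition hφD hτ
  set I := P.inertiaSubgroupIn ℚ
  set ω : ↥I := ⟨φ * τ * φ⁻¹, hc⟩ * (⟨τ, hτ⟩ ^ q)⁻¹ with hω
  refine ⟨(ω : GQ), ω.2, ?_, ?_⟩
  · rw [isWildOn_iff_tameHom ω.2]
    intro c _
    show tameAt P c ω = 1
    rw [hω, map_mul, map_inv, map_pow, tameAt_apply, tameAt_apply,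
      tameHom_conj_frobenius hφ hτ hc c, mul_inv_cancel]
  · have h1 : (ω * ⟨τ, hτ⟩ ^ q : ↥I) = ⟨φ * τ * φ⁻¹, hc⟩ := by
      rw [hω, inv_mul_cancel_right]
    have h2 := congrArg Subtype.val h1
    rw [Subgroup.coe_mul, Subgroup.coe_pow] at h2
    exact h2.symm

/-- **KEY TAME LEMMA.**  `P` over `q`, `L` finite normal over `ℚ`, `p ≠ q` prime.  There is
`τ₀ ∈ I_P` such that for every group hom `f` on `G_ℚ`, trivial on `G_L`, with `f τ` of `p`-power
order for all `τ ∈ I_P`:  `f(I_P) ⊆ ⟨f τ₀⟩`, and `f (φ τ φ⁻¹) = f τ ^ q` for every Frobenius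
element `φ` at `P` and every `τ ∈ I_P`. -/
theorem key_tame (hq : q.Prime) (hP : P.LiesOverPrime q)
    (L : IntermediateField ℚ Qb) [FiniteDimensional ℚ L] (hL : ∀ σ : GQ, ∀ x ∈ L, σ x ∈ L)
    {p : ℕ} (hp : p.Prime) (hpq : p ≠ q) :
    ∃ τ₀ ∈ P.inertiaSubgroupIn ℚ, ∀ {Γ : Type*} [Group Γ] (f : GQ →* Γ),
      (∀ σ : GQ, (∀ x ∈ L, σ x = x) → f σ = 1) →
      (∀ τ ∈ P.inertiaSubgroupIn ℚ, ∃ k : ℕ, f τ ^ p ^ k = 1) →
      (∀ τ ∈ P.inertiaSubgroupIn ℚ, ∃ n : ℤ, f τ = f τ₀ ^ n) ∧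
      (∀ φ : GQ, P.IsFrobeniusAt φ q → ∀ τ ∈ P.inertiaSubgroupIn ℚ,
        f (φ * τ * φ⁻¹) = f τ ^ q) := by
  obtain ⟨τ₀, hτ₀, hgen⟩ := exists_tame_generator hq hP L
  refine ⟨τ₀, hτ₀, fun {Γ} _ f hf hpow => ⟨fun τ hτ => ?_, fun φ hφ τ hτ => ?_⟩⟩
  · obtain ⟨n, ω, hω, hwild, rfl⟩ := hgen τ hτ
    obtain ⟨k, hk⟩ := hpow ω hω
    have h1 : f ω = 1 := map_eq_one_of_wild (A := P) f L hf hω (hL ω) hwild p hp
      (valuation_prime_eq_one hq hP hp hpq) k hk
    exact ⟨n, by rw [map_mul, map_zpow, h1, mul_one]⟩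
  · obtain ⟨ω, hω, hwild, hconj⟩ := isWildOn_conj_frobenius hφ hτ (L : Set Qb)
    obtain ⟨k, hk⟩ := hpow ω hω
    have h1 : f ω = 1 := map_eq_one_of_wild (A := P) f L hf hω (hL ω) hwild p hp
      (valuation_prime_eq_one hq hP hp hpq) k hk
    rw [hconj, map_mul, map_pow, h1, one_mul]

end Fermat.Agent.S56.H554

end
-- ===== PACK-END S56/H554/TameCyclic.lean

-- ===== PACK-BEGIN S55/Inv/WrH413/Kummer.lean
section







/-!
# S55 / INV-WR (helper413), part 2: local Kummer injectivity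

Let `G_q = Gal(ℚ̄_q/ℚ_q)` and let `b : G_q → ℚ̄_qˣ` be a level-constant 1-cochain whose
coboundary is `λ ∘ c'` for a `ZMod p`-valued 2-cochain `c'`, where `λ : ZMod p → ℚ̄_qˣ` is an
injective equivariant homomorphism onto the `p`-torsion.  Then `c'` is the coboundary of a
level-constant `ZMod p`-valued 1-cochain.  (Injectivity of `H²(G_q, μ_p) → H²(G_q, ℚ̄_qˣ)`,
i.e. Hilbert 90 + existence of `p`-th roots.)
-/

set_option autoImplicit false
set_option linter.style.haveILetI false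

namespace Fermat.Agent.S55.Inv.H413

open groupCohomology

section General

variable {G : Type} [Group G] (r : G →* (AlgebraicClosure ℚ ≃ₐ[ℚ] AlgebraicClosure ℚ))

/-- A pointwise binary operation of level-constant cochains is level-constant. -/
theorem isLevelConstant₁_map₂ {X Y Z : Type*} (φ : X → Y → Z) {f : G → X} {f' : G → Y}
    (hf : IsLevelConstant₁ r f) (hf' : IsLevelConstant₁ r f') :
    IsLevelConstant₁ r (fun g => φ (f g) (f' g)) := by
  obtain ⟨F, hF, h⟩ := hf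
  obtain ⟨F', hF', h'⟩ := hf'
  haveI := hF; haveI := hF'
  refine ⟨F ⊔ F', inferInstance, fun g s hs => ?_⟩
  show φ (f (g * s)) (f' (g * s)) = φ (f g) (f' g)
  rw [h g s (IntermediateField.fixingSubgroup_antitone le_sup_left hs),
    h' g s (IntermediateField.fixingSubgroup_antitone le_sup_right hs)]

end General

section Local

variable (q : ℕ) [Fact q.Prime]

local notation "Ω" => PadicAlgCl q
local notation "Gq" => (PadicAlgCl q ≃ₐ[ℚ_[q]] PadicAlgCl q)

/-- `g ↦ g α` is level-constant (Krasner). -/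
theorem isLevelConstant₁_apply (α : Ω) :
    IsLevelConstant₁ (localGaloisToGlobal q) (fun g : Gq => g α) := by
  obtain ⟨b, hb⟩ := Bridge.exists_global_generator q α
  haveI : Algebra.IsAlgebraic ℚ (AlgebraicClosure ℚ) := AlgebraicClosure.isAlgebraic ℚ
  refine ⟨IntermediateField.adjoin ℚ {b},
    IntermediateField.adjoin.finiteDimensional (Algebra.IsIntegral.isIntegral b), ?_⟩
  intro g s hs
  have hsb : localGaloisToGlobal q s b = b :=
    (IntermediateField.mem_fixingSubgroup_iff _ _).1 hs b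
      (IntermediateField.subset_adjoin ℚ _ (Set.mem_singleton b))
  have hsα : s α = α := Bridge.fixes_adjoin_of_fixes q s b hsb _ hb
  show (g * s) α = g α
  rw [AlgEquiv.mul_apply, hsα]

/-- Level-constant Hilbert 90 for `G_{ℚ_q}` acting on `ℚ̄_qˣ`. -/
theorem local_hilbert90 (X : Gq → Ωˣ)
    (hX : ∀ g h : Gq, (X (g * h) : Ω) = g (X h : Ω) * X g)
    (hlc : IsLevelConstant₁ (localGaloisToGlobal q) X) :
    ∃ β : Ωˣ, ∀ g : Gq, g (β : Ω) * X g = β := by
  obtain ⟨F, hF, h⟩ := hlc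
  haveI := hF
  haveI : Algebra.IsAlgebraic ℚ (AlgebraicClosure ℚ) := AlgebraicClosure.isAlgebraic ℚ
  haveI : IsAlgClosure ℚ (AlgebraicClosure ℚ) := ⟨inferInstance, inferInstance⟩
  haveI : Normal ℚ (AlgebraicClosure ℚ) := IsAlgClosure.normal ℚ (AlgebraicClosure ℚ)
  haveI hfi : (F.fixingSubgroup.comap (localGaloisToGlobal q)).FiniteIndex :=
    Fermat.Agent.S55.H424.comap_fixingSubgroup_finiteIndex (localGaloisToGlobal q) F
  haveI : Finite (Gq ⧸ F.fixingSubgroup.comap (localGaloisToGlobal q)) :=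
    Subgroup.finite_quotient_of_finiteIndex
  let ι : F →* Ω := ((padicEmbedding q : AlgebraicClosure ℚ →ₐ[ℚ] Ω) :
    AlgebraicClosure ℚ →* Ω).comp ((F.val : F →ₐ[ℚ] AlgebraicClosure ℚ) : F →* AlgebraicClosure ℚ)
  have hι : ∀ θ : F, ι θ = padicEmbedding q (θ : AlgebraicClosure ℚ) := fun _ => rfl
  have hN : ∀ g : Gq, (∀ θ : F, g • ι θ = ι θ) →
      g ∈ F.fixingSubgroup.comap (localGaloisToGlobal q) := by
    intro g hg
    rw [Subgroup.mem_comap, IntermediateField.mem_fixingSubgroup_iff]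
    intro x hx
    have hinj : Function.Injective (padicEmbedding q) := (padicEmbedding q).injective
    apply hinj
    rw [padicEmbedding_localGaloisToGlobal]
    exact hg ⟨x, hx⟩
  have hN' : ∀ g ∈ F.fixingSubgroup.comap (localGaloisToGlobal q), ∀ θ : F, g • ι θ = ι θ := by
    intro g hg θ
    rw [Subgroup.mem_comap, IntermediateField.mem_fixingSubgroup_iff] at hg
    show g (ι θ) = ι θ
    rw [hι, ← padicEmbedding_localGaloisToGlobal, hg _ θ.2]
  obtain ⟨β, hβ⟩ := G.Rec.H844.exists_unit_of_levelCocycle844 (H := Gq) ι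
    (F.fixingSubgroup.comap (localGaloisToGlobal q)) hN hN' X
    (fun g h => by rw [hX]; rfl) (fun g s hs => h g s hs)
  exact ⟨β, fun g => hβ g⟩

/-- **Local Kummer injectivity.**  `lam : ZMod p → ℚ̄_qˣ` an injective homomorphism onto the
`p`-torsion, equivariant for the character `χ`; `b` a level-constant 1-cochain with values in
`ℚ̄_qˣ` whose coboundary is `lam ∘ c'`.  Then `c'` is the coboundary of a level-constant
`ZMod p`-valued cochain. -/
theorem local_kummer (p : ℕ) [Fact p.Prime] (lam : ZMod p →+ Additive Ωˣ)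
    (hinj : Function.Injective lam)
    (hsurj : ∀ z : Ωˣ, z ^ p = 1 → ∃ a, lam a = Additive.ofMul z)
    (χ : Gq → ZMod p)
    (hχ : ∀ (g : Gq) (a : ZMod p),
      ((Additive.toMul (lam (χ g * a)) : Ωˣ) : Ω) = g ((Additive.toMul (lam a) : Ωˣ) : Ω))
    (c' : Gq × Gq → ZMod p) (b : Gq → Ωˣ)
    (hb : IsLevelConstant₁ (localGaloisToGlobal q) b)
    (hd : ∀ g h : Gq, g (b h : Ω) * (((b (g * h))⁻¹ : Ωˣ) : Ω) * (b g : Ω) =
      ((Additive.toMul (lam (c' (g, h))) : Ωˣ) : Ω)) :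
    ∃ x : Gq → ZMod p, IsLevelConstant₁ (localGaloisToGlobal q) x ∧
      ∀ g h : Gq, χ g * x h - x (g * h) + x g = c' (g, h) := by
  classical
  have hp0 : 0 < p := (Fact.out : p.Prime).pos
  -- the map `L : ZMod p → Ω`
  obtain ⟨L, hL⟩ : ∃ L : ZMod p → Ω, ∀ a, L a = ((Additive.toMul (lam a) : Ωˣ) : Ω) :=
    ⟨_, fun _ => rfl⟩
  have hLadd : ∀ a a', L (a + a') = L a * L a' := by
    intro a a'
    rw [hL, hL, hL, map_add, toMul_add, Units.val_mul]
  have hLsub : ∀ a a', L (a - a') = L a * (L a')⁻¹ := by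
    intro a a'
    rw [hL, hL, hL, map_sub, toMul_sub, div_eq_mul_inv, Units.val_mul, Units.val_inv_eq_inv_val]
  have hLne : ∀ a, L a ≠ 0 := fun a => by rw [hL]; exact Units.ne_zero _
  have hLpow : ∀ a, L a ^ p = 1 := by
    intro a
    have h1 : lam (p • a) = p • lam a := map_nsmul lam p a
    have h2 : p • a = 0 := by
      rw [nsmul_eq_mul, ZMod.natCast_self, zero_mul]
    rw [h2, map_zero] at h1
    have h3 : (Additive.toMul (lam a) : Ωˣ) ^ p = 1 := by
      rw [← toMul_nsmul, ← h1, toMul_zero]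
    rw [hL, ← Units.val_pow_eq_pow_val, h3, Units.val_one]
  have hLinj : Function.Injective L := by
    intro a a' h
    apply hinj
    apply Additive.toMul.injective
    apply Units.ext
    rw [← hL, ← hL, h]
  have hLχ : ∀ g a, L (χ g * a) = g (L a) := fun g a => by rw [hL, hL]; exact hχ g a
  have hd' : ∀ g h : Gq, g (b h : Ω) * ((b (g * h) : Ω))⁻¹ * (b g : Ω) = L (c' (g, h)) := by
    intro g h
    rw [hL, ← hd g h, Units.val_inv_eq_inv_val]
  have hbne : ∀ g, (b g : Ω) ≠ 0 := fun g => Units.ne_zero _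
  -- Step 1: `X = b ^ p` is a level-constant cocycle
  have hX : ∀ g h : Gq, (((b (g * h)) ^ p : Ωˣ) : Ω) = g (((b h) ^ p : Ωˣ) : Ω) * ((b g) ^ p : Ωˣ) := by
    intro g h
    have h1 := congrArg (· ^ p) (hd' g h)
    simp only [hLpow, mul_pow, inv_pow] at h1
    rw [Units.val_pow_eq_pow_val, Units.val_pow_eq_pow_val, Units.val_pow_eq_pow_val, map_pow]
    have h2 : ((b (g * h) : Ω)) ^ p ≠ 0 := pow_ne_zero _ (hbne _)
    field_simp at h1
    rw [h1]
  have hXlc : IsLevelConstant₁ (localGaloisToGlobal q) (fun g => (b g) ^ p) :=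
    hb.comp (· ^ p)
  -- Step 2: Hilbert 90
  obtain ⟨β, hβ⟩ := local_hilbert90 q (fun g => (b g) ^ p) hX hXlc
  -- Step 3: a `p`-th root of `β`
  obtain ⟨α, hα⟩ := IsAlgClosed.exists_pow_nat_eq (β : Ω) hp0
  have hαne : α ≠ 0 := by
    rintro rfl
    rw [zero_pow hp0.ne'] at hα
    exact β.ne_zero hα.symm
  have hgα : ∀ g : Gq, g α ≠ 0 := fun g => (map_ne_zero g).2 hαne
  -- Step 4: the modified cochain
  obtain ⟨b', hb'⟩ : ∃ b' : Gq → Ω, ∀ g, b' g = (b g : Ω) * g α * α⁻¹ := ⟨_, fun _ => rfl⟩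
  have hb'lc : IsLevelConstant₁ (localGaloisToGlobal q) b' := by
    have := isLevelConstant₁_map₂ (localGaloisToGlobal q)
      (fun (u : Ωˣ) (z : Ω) => (u : Ω) * z * α⁻¹) hb (isLevelConstant₁_apply q α)
    have e : b' = fun g => (fun (u : Ωˣ) (z : Ω) => (u : Ω) * z * α⁻¹) (b g) (g α) := by
      funext g
      exact hb' g
    rw [e]
    exact this
  have hb'pow : ∀ g, b' g ^ p = 1 := by
    intro g
    have h1 := hβ g
    simp only [Units.val_pow_eq_pow_val] at h1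
    rw [hb', mul_pow, mul_pow, inv_pow, ← map_pow, hα, mul_comm ((b g : Ω) ^ p), h1]
    exact mul_inv_cancel₀ β.ne_zero
  have hb'ne : ∀ g, b' g ≠ 0 := by
    intro g h0
    have := hb'pow g
    rw [h0, zero_pow hp0.ne'] at this
    exact zero_ne_one this
  have hb'L : ∀ g, ∃ a, L a = b' g := by
    intro g
    obtain ⟨a, ha⟩ := hsurj (Units.mk0 (b' g) (hb'ne g)) (by
      apply Units.ext
      rw [Units.val_pow_eq_pow_val, Units.val_mk0, hb'pow, Units.val_one])
    refine ⟨a, ?_⟩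
    rw [hL, ha]
    rfl
  have hdb' : ∀ g h : Gq, g (b' h) * (b' (g * h))⁻¹ * b' g = L (c' (g, h)) := by
    intro g h
    rw [← hd' g h, hb', hb', hb', map_mul, map_mul, map_inv₀, ← AlgEquiv.mul_apply]
    have h1 := hgα g
    have h2 := hgα (g * h)
    have h3 := hbne (g * h)
    field_simp
  -- Step 5: descend to `ZMod p`
  obtain ⟨ψ, hψ⟩ : ∃ ψ : Ω → ZMod p, ∀ z, (∃ a, L a = z) → L (ψ z) = z :=
    ⟨fun z => if h : ∃ a, L a = z then h.choose else 0, fun z h => by
      dsimp only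
      rw [dif_pos h]; exact h.choose_spec⟩
  refine ⟨ψ ∘ b', hb'lc.comp ψ, fun g h => ?_⟩
  apply hLinj
  simp only [Function.comp_apply]
  rw [hLadd, hLsub, hLχ, hψ _ (hb'L _), hψ _ (hb'L _), hψ _ (hb'L _)]
  exact hdb' g h

end Local

end Fermat.Agent.S55.Inv.H413

end
-- ===== PACK-END S55/Inv/WrH413/Kummer.lean

-- ===== PACK-BEGIN S55/H414/CycloLocal.lean
section


/-!
# S55, leaf CYC-INF (helper414), part 4: the case `q = p`

`Φ_{p^(n+1)}(X + 1)` is Eisenstein over `ℤ_p`, hence irreducible over `ℚ_p`; therefore the local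
Galois group `Gal(ℚ̄_p/ℚ_p)` acts transitively on the primitive `p^(n+1)`-th roots of unity and its
image under the cyclotomic character modulo `p^(n+1)` is everything.
-/

set_option autoImplicit false

namespace Fermat.Agent.S55.H414

open ExtCitation Polynomial

section Eisenstein

variable (p : ℕ) [Fact p.Prime]

theorem cyclotomic_comp_padicInt_eq_map (n : ℕ) :
    (cyclotomic (p ^ (n + 1)) ℤ_[p]).comp (X + 1)
      = ((cyclotomic (p ^ (n + 1)) ℤ).comp (X + 1)).map (Int.castRingHom ℤ_[p]) := by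
  rw [Polynomial.map_comp, map_cyclotomic, Polynomial.map_add, Polynomial.map_X,
    Polynomial.map_one]

theorem monic_cyclotomic_comp (R : Type*) [CommRing R] [Nontrivial R] (N : ℕ) :
    ((cyclotomic N R).comp (X + 1)).Monic := by
  have := (cyclotomic.monic N R).comp_X_add_C (1 : R)
  simpa using this

theorem natDegree_cyclotomic_comp (R : Type*) [CommRing R] [IsDomain R] (N : ℕ) :
    ((cyclotomic N R).comp (X + 1)).natDegree = N.totient := by
  have := natDegree_comp (p := cyclotomic N R) (q := X + C (1 : R))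
  rw [natDegree_X_add_C, mul_one, natDegree_cyclotomic] at this
  simpa using this

/-- `Φ_{p^(n+1)}(X + 1)` is an Eisenstein polynomial over `ℤ_p`. -/
theorem isEisensteinAt_cyclotomic_comp_padicInt (n : ℕ) :
    ((cyclotomic (p ^ (n + 1)) ℤ_[p]).comp (X + 1)).IsEisensteinAt
      (IsLocalRing.maximalIdeal ℤ_[p]) := by
  have hp : p.Prime := Fact.out
  have hZ := cyclotomic_prime_pow_comp_X_add_one_isEisensteinAt p n
  have hmonZ : ((cyclotomic (p ^ (n + 1)) ℤ).comp (X + 1)).Monic := monic_cyclotomic_comp ℤ _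
  refine Monic.isEisensteinAt_of_mem_of_notMem (monic_cyclotomic_comp ℤ_[p] _)
    (Ideal.IsPrime.ne_top inferInstance) (fun {i} hi => ?_) ?_
  · rw [natDegree_cyclotomic_comp] at hi
    have hi' : i < ((cyclotomic (p ^ (n + 1)) ℤ).comp (X + 1)).natDegree := by
      rw [natDegree_cyclotomic_comp]; exact hi
    have hmem := hZ.mem hi'
    rw [Submodule.mem_span_singleton] at hmem
    obtain ⟨c, hc⟩ := hmem
    rw [cyclotomic_comp_padicInt_eq_map, coeff_map, ← hc, PadicInt.maximalIdeal_eq_span_p,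
      Ideal.mem_span_singleton]
    refine ⟨(c : ℤ_[p]), ?_⟩
    simp [mul_comm]
  · have h0 : ((cyclotomic (p ^ (n + 1)) ℤ_[p]).comp (X + 1)).coeff 0 = (p : ℤ_[p]) := by
      rw [coeff_zero_eq_eval_zero, eval_comp]
      simp only [eval_add, eval_X, eval_one, zero_add]
      exact eval_one_cyclotomic_prime_pow n
    rw [h0, PadicInt.maximalIdeal_eq_span_p, Ideal.span_singleton_pow,
      ← PadicInt.norm_le_pow_iff_mem_span_pow, PadicInt.norm_p, not_le]
    have hp1 : (1 : ℝ) < p := by exact_mod_cast hp.one_lt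
    have hp0 : (0 : ℝ) < p := by positivity
    rw [show (-(2 : ℕ) : ℤ) = -2 by rfl, zpow_neg, zpow_ofNat]
    rw [inv_lt_inv₀ (by positivity) hp0]
    nlinarith

/-- `Φ_{p^(n+1)}(X + 1)` is irreducible over `ℚ_p`. -/
theorem irreducible_cyclotomic_comp_padic (n : ℕ) :
    Irreducible ((cyclotomic (p ^ (n + 1)) ℚ_[p]).comp (X + 1)) := by
  have hp : p.Prime := Fact.out
  have hmon := monic_cyclotomic_comp ℤ_[p] (p ^ (n + 1))
  have hirr : Irreducible ((cyclotomic (p ^ (n + 1)) ℤ_[p]).comp (X + 1)) := by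
    refine (isEisensteinAt_cyclotomic_comp_padicInt p n).irreducible inferInstance
      hmon.isPrimitive ?_
    rw [natDegree_cyclotomic_comp]
    exact Nat.totient_pos.2 (pow_pos hp.pos _)
  have h2 := (Monic.irreducible_iff_irreducible_map_fraction_map (K := ℚ_[p]) hmon).1 hirr
  rwa [Polynomial.map_comp, map_cyclotomic, Polynomial.map_add, Polynomial.map_X,
    Polynomial.map_one] at h2

end Eisenstein

section Local

variable (p : ℕ) [Fact p.Prime]

/-- The local Galois group at `p` acts transitively on primitive `p^(n+1)`-th roots of unity. -/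
theorem exists_local_algEquiv_pow (n : ℕ) {ζ : PadicAlgCl p}
    (hζ : IsPrimitiveRoot ζ (p ^ (n + 1))) (u : ℕ) (hu : u.Coprime (p ^ (n + 1))) :
    ∃ τ : PadicAlgCl p ≃ₐ[ℚ_[p]] PadicAlgCl p, τ ζ = ζ ^ u := by
  have hp : p.Prime := Fact.out
  have hpos : 0 < p ^ (n + 1) := pow_pos hp.pos _
  haveI : NeZero (p ^ (n + 1)) := ⟨hpos.ne'⟩
  haveI : Normal ℚ_[p] (PadicAlgCl p) := IsAlgClosure.normal ℚ_[p] (PadicAlgCl p)
  set g : ℚ_[p][X] := (cyclotomic (p ^ (n + 1)) ℚ_[p]).comp (X + 1) with hg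
  have hirr : Irreducible g := irreducible_cyclotomic_comp_padic p n
  have hmon : g.Monic := monic_cyclotomic_comp ℚ_[p] _
  have hroot : ∀ ξ : PadicAlgCl p, IsPrimitiveRoot ξ (p ^ (n + 1)) → aeval (ξ - 1) g = 0 := by
    intro ξ hξ
    rw [hg, aeval_comp]
    simp only [map_add, aeval_X, map_one, sub_add_cancel]
    rw [aeval_def, eval₂_eq_eval_map, map_cyclotomic]
    exact hξ.isRoot_cyclotomic hpos
  have h1 : g = minpoly ℚ_[p] (ζ - 1) := minpoly.eq_of_irreducible_of_monic hirr (hroot ζ hζ) hmon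
  have h2 : g = minpoly ℚ_[p] (ζ ^ u - 1) :=
    minpoly.eq_of_irreducible_of_monic hirr (hroot _ (hζ.pow_of_coprime u hu)) hmon
  have hconj : IsConjRoot ℚ_[p] (ζ ^ u - 1) (ζ - 1) := by
    rw [IsConjRoot, ← h1, ← h2]
  obtain ⟨τ, hτ⟩ := hconj.exists_algEquiv
  refine ⟨τ, ?_⟩
  rw [map_sub, map_one] at hτ
  exact sub_left_injective hτ

/-- The cyclotomic character modulo `p^(n+1)` is surjective on the local Galois group at `p`. -/
theorem exists_local_cycloPow_eq (n : ℕ) (w : (ZMod (p ^ (n + 1)))ˣ) :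
    ∃ τ : PadicAlgCl p ≃ₐ[ℚ_[p]] PadicAlgCl p,
      cycloPow (p ^ (n + 1)) (localGaloisToGlobal p τ) = w := by
  have hp : p.Prime := Fact.out
  have hinj : Function.Injective (padicEmbedding p) := (padicEmbedding p).toRingHom.injective
  have hζ : IsPrimitiveRoot (padicEmbedding p (zetaBar (p ^ (n + 1)))) (p ^ (n + 1)) :=
    (zetaBar_spec (p ^ (n + 1))).map_of_injective hinj
  obtain ⟨τ, hτ⟩ := exists_local_algEquiv_pow p n hζ (w : ZMod (p ^ (n + 1))).val
    (ZMod.val_coe_unit_coprime w)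
  refine ⟨τ, ?_⟩
  rw [cycloPow_eq_iff]
  apply hinj
  rw [padicEmbedding_localGaloisToGlobal, hτ, map_pow]

/-- The image of the decomposition group at `p` under the cyclotomic character modulo `p^(n+1)`
is everything. -/
theorem map_cycloPow_eq_top (n : ℕ)
    (D : Subgroup (AlgebraicClosure ℚ ≃ₐ[ℚ] AlgebraicClosure ℚ))
    (hD : (localGaloisToGlobal p).range ≤ D) :
    D.map (cycloPow (p ^ (n + 1))) = ⊤ := by
  rw [eq_top_iff]
  rintro w -
  obtain ⟨τ, hτ⟩ := exists_local_cycloPow_eq p n w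
  exact ⟨localGaloisToGlobal p τ, hD ⟨τ, rfl⟩, hτ⟩

/-- **CYC-INF, case `q = p`.** The local degree at `p` of `ℚ(ζ_{p^(n+1)})/ℚ` is
`φ(p^(n+1)) = (p - 1) p^n`. -/
theorem relIndex_fixingSubgroup_cycloLevel_self (n : ℕ)
    (D : Subgroup (AlgebraicClosure ℚ ≃ₐ[ℚ] AlgebraicClosure ℚ))
    (hD : (localGaloisToGlobal p).range ≤ D) :
    (cycloLevel (p ^ (n + 1))).fixingSubgroup.relIndex D = (p - 1) * p ^ n := by
  have hp : p.Prime := Fact.out
  rw [relIndex_fixingSubgroup_cycloLevel, map_cycloPow_eq_top p n D hD, Subgroup.card_top,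
    Nat.card_eq_fintype_card, ZMod.card_units_eq_totient,
    Nat.totient_prime_pow hp (Nat.succ_pos n), Nat.succ_sub_one, mul_comm]

end Local

end Fermat.Agent.S55.H414

end
-- ===== PACK-END S55/H414/CycloLocal.lean

-- ===== PACK-BEGIN S55/G/Rec/SCH174/Helpers.lean
section


/-!
# S55 / G / REC, leaf SC (helper174) : small consequences of the KEY specs

* `gcc_nsmul_eq_zero`, `lcc_nsmul_eq_zero` : cup classes with a character of order dividing `n`
  are killed by `n` (from `CupAddSpec`);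
* `acts_conj_loc` : transport of the action on roots of unity from `ℚ̄_q` to `ℚ̄`;
* `norm_eq_of_isUniformizer` : two uniformizers have the same norm.
-/

set_option autoImplicit false
set_option linter.style.haveILetI false
set_option linter.unusedSectionVars false

noncomputable section

namespace Fermat.Agent.S55.G.Rec.H174

open groupCohomology Fermat.Agent.S55.G.Rec

local notation "Qb" => AlgebraicClosure ℚ
local notation "GQ" => (AlgebraicClosure ℚ ≃ₐ[ℚ] AlgebraicClosure ℚ)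

/-! ## Characters -/

section Chars

variable {G : Type} [Group G] (ρ : G →* GQ) {n : ℕ}

lemma isLevelConstant₁_one_char : IsLevelConstant₁ ρ (1 : G →* Multiplicative (ZMod n)) :=
  isLevelConstant₁_const ρ (1 : Multiplicative (ZMod n))

lemma isLevelConstant₁_pow_char {χ : G →* Multiplicative (ZMod n)} (hχ : IsLevelConstant₁ ρ χ)
    (m : ℕ) : IsLevelConstant₁ ρ (χ ^ m : G →* Multiplicative (ZMod n)) :=
  (hχ.comp (fun x => x ^ m) :)

lemma char_pow_self (χ : G →* Multiplicative (ZMod n)) : χ ^ n = 1 := by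
  ext σ
  show (χ σ) ^ n = 1
  apply Multiplicative.toAdd.injective
  rw [toAdd_pow, toAdd_one, nsmul_eq_mul, ZMod.natCast_self, zero_mul]

end Chars

/-! ## Cup classes are killed by `n` -/

theorem gcc_one_char (hK2 : CupAddSpec) (U : Subgroup GQ) (n : ℕ) (hn : n ≠ 0) (a : Qbˣ)
    (ha : GFixed U a) : gcc U n (1 : ↥U →* Multiplicative (ZMod n)) a = 0 := by
  have h := (hK2.1 U n 1 1 a a hn (isLevelConstant₁_one_char _) (isLevelConstant₁_one_char _)
    ha ha).2
  rw [mul_one] at h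
  exact left_eq_add.mp h

theorem gcc_pow_char (hK2 : CupAddSpec) (U : Subgroup GQ) (n : ℕ) (hn : n ≠ 0)
    (χ : ↥U →* Multiplicative (ZMod n)) (hχ : IsLevelConstant₁ U.subtype χ) (a : Qbˣ)
    (ha : GFixed U a) (m : ℕ) : gcc U n (χ ^ m) a = m • gcc U n χ a := by
  induction m with
  | zero => rw [pow_zero, zero_smul]; exact gcc_one_char hK2 U n hn a ha
  | succ m ih =>
    rw [pow_succ, (hK2.1 U n (χ ^ m) χ a a hn (isLevelConstant₁_pow_char _ hχ m) hχ ha ha).2,
      ih, succ_nsmul]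

theorem gcc_nsmul_eq_zero (hK2 : CupAddSpec) (U : Subgroup GQ) (n : ℕ) (hn : n ≠ 0)
    (χ : ↥U →* Multiplicative (ZMod n)) (hχ : IsLevelConstant₁ U.subtype χ) (a : Qbˣ)
    (ha : GFixed U a) : n • gcc U n χ a = 0 := by
  rw [← gcc_pow_char hK2 U n hn χ hχ a ha n, char_pow_self, gcc_one_char hK2 U n hn a ha]

section Local

variable (q : ℕ) [Fact q.Prime]

local notation "Gq" => (PadicAlgCl q ≃ₐ[ℚ_[q]] PadicAlgCl q)

theorem lcc_one_char (hK2 : CupAddSpec) (V : Subgroup Gq) (n : ℕ) (hn : n ≠ 0)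
    (a : (PadicAlgCl q)ˣ) (ha : LFixed q V a) :
    lcc q V n (1 : ↥V →* Multiplicative (ZMod n)) a = 0 := by
  have h := (hK2.2 q V n 1 1 a a hn (isLevelConstant₁_one_char _) (isLevelConstant₁_one_char _)
    ha ha).2
  rw [mul_one] at h
  exact left_eq_add.mp h

theorem lcc_pow_char (hK2 : CupAddSpec) (V : Subgroup Gq) (n : ℕ) (hn : n ≠ 0)
    (χ : ↥V →* Multiplicative (ZMod n)) (hχ : IsLevelConstant₁ (lHom q V) χ)
    (a : (PadicAlgCl q)ˣ) (ha : LFixed q V a) (m : ℕ) :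
    lcc q V n (χ ^ m) a = m • lcc q V n χ a := by
  induction m with
  | zero => rw [pow_zero, zero_smul]; exact lcc_one_char q hK2 V n hn a ha
  | succ m ih =>
    rw [pow_succ, (hK2.2 q V n (χ ^ m) χ a a hn (isLevelConstant₁_pow_char _ hχ m) hχ ha ha).2,
      ih, succ_nsmul]

theorem lcc_nsmul_eq_zero (hK2 : CupAddSpec) (V : Subgroup Gq) (n : ℕ) (hn : n ≠ 0)
    (χ : ↥V →* Multiplicative (ZMod n)) (hχ : IsLevelConstant₁ (lHom q V) χ)
    (a : (PadicAlgCl q)ˣ) (ha : LFixed q V a) : n • lcc q V n χ a = 0 := by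
  rw [← lcc_pow_char q hK2 V n hn χ hχ a ha n, char_pow_self, lcc_one_char q hK2 V n hn a ha]

lemma lFixed_one' (V : Subgroup Gq) : LFixed q V 1 := fun τ _ => smul_one τ

lemma lFixed_mul' {V : Subgroup Gq} {a b : (PadicAlgCl q)ˣ} (ha : LFixed q V a)
    (hb : LFixed q V b) : LFixed q V (a * b) :=
  fun τ hτ => by rw [smul_mul', ha τ hτ, hb τ hτ]

lemma lFixed_pow' {V : Subgroup Gq} {a : (PadicAlgCl q)ˣ} (ha : LFixed q V a) (m : ℕ) :
    LFixed q V (a ^ m) :=
  fun τ hτ => by rw [smul_pow', ha τ hτ]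

/-- The local cup class of an `n`-th power vanishes. -/
theorem lcc_pow_self_eq_zero (hK2 : CupAddSpec) (V : Subgroup Gq) (n : ℕ) (hn : n ≠ 0)
    (χ : ↥V →* Multiplicative (ZMod n)) (hχ : IsLevelConstant₁ (lHom q V) χ)
    (b : (PadicAlgCl q)ˣ) (hb : LFixed q V b) : lcc q V n χ (b ^ n) = 0 := by
  have key : ∀ m : ℕ, lcc q V n χ (b ^ m) = m • lcc q V n χ b := by
    intro m
    induction m with
    | zero =>
      rw [pow_zero, zero_smul]
      have h := (hK2.2 q V n χ χ 1 1 hn hχ hχ (lFixed_one' q V) (lFixed_one' q V)).1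
      rw [mul_one] at h
      exact left_eq_add.mp h
    | succ m ih =>
      rw [pow_succ, (hK2.2 q V n χ χ (b ^ m) b hn hχ hχ (lFixed_pow' q hb m) hb).1, ih,
        succ_nsmul]
  rw [key, lcc_nsmul_eq_zero q hK2 V n hn χ hχ b hb]

/-! ## Transport of the action on roots of unity -/

/-- If `τ ∈ G_{ℚ_q}` acts on the `r`-th roots of unity of `ℚ̄_q` by `ζ ↦ ζ ^ m`, then
`g · loc τ · g⁻¹` acts on the `r`-th roots of unity of `ℚ̄` by `ζ ↦ ζ ^ m`. -/
theorem acts_conj_loc (r m : ℕ) (g : GQ) (τ : Gq)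
    (h : ∀ ζ : PadicAlgCl q, ζ ^ r = 1 → τ ζ = ζ ^ m) (ζ : Qb) (hζ : ζ ^ r = 1) :
    (g * localGaloisToGlobal q τ * g⁻¹) ζ = ζ ^ m := by
  have h1 : ((g⁻¹ : GQ) ζ) ^ r = 1 := by rw [← map_pow, hζ, map_one]
  have h2 : (padicEmbedding q ((g⁻¹ : GQ) ζ)) ^ r = 1 := by rw [← map_pow, h1, map_one]
  have h3 : localGaloisToGlobal q τ ((g⁻¹ : GQ) ζ) = ((g⁻¹ : GQ) ζ) ^ m := by
    apply (padicEmbedding q).toRingHom.injective
    show padicEmbedding q (localGaloisToGlobal q τ ((g⁻¹ : GQ) ζ)) =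
      padicEmbedding q (((g⁻¹ : GQ) ζ) ^ m)
    rw [padicEmbedding_localGaloisToGlobal, h _ h2, map_pow]
  show g (localGaloisToGlobal q τ ((g⁻¹ : GQ) ζ)) = ζ ^ m
  rw [h3, map_pow]
  congr 1
  exact AlgEquiv.apply_symm_apply g ζ

/-! ## Uniformizers -/

theorem norm_eq_of_isUniformizer {V : Subgroup Gq} {π π' : PadicAlgCl q}
    (h : IsUniformizer q V π) (h' : IsUniformizer q V π') : ‖π‖ = ‖π'‖ :=
  le_antisymm (h'.2.2.2 π h.1 h.2.2.1) (h.2.2.2 π' h'.1 h'.2.2.1)

/-- If `a = π ^ k * u = π' ^ j * u'` with uniformizers `π, π'` and units `u, u'` then `k = j`. -/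
theorem zpow_exponent_unique {V : Subgroup Gq} {π π' u u' : (PadicAlgCl q)ˣ}
    (h : IsUniformizer q V (π : PadicAlgCl q)) (h' : IsUniformizer q V (π' : PadicAlgCl q))
    (hu : ‖(u : PadicAlgCl q)‖ = 1) (hu' : ‖(u' : PadicAlgCl q)‖ = 1) {k j : ℤ}
    (heq : π ^ k * u = π' ^ j * u') : k = j := by
  have h1 := congrArg (fun x : (PadicAlgCl q)ˣ => ‖(x : PadicAlgCl q)‖) heq
  simp only [Units.val_mul, Units.val_zpow_eq_zpow_val, norm_mul, norm_zpow, hu, hu',
    mul_one] at h1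
  rw [norm_eq_of_isUniformizer q h h'] at h1
  have hpos : 0 < ‖(π' : PadicAlgCl q)‖ := norm_pos_iff.2 h'.2.1
  exact zpow_right_injective₀ hpos (ne_of_lt h'.2.2.1) h1

end Local

end Fermat.Agent.S55.G.Rec.H174

end
end
-- ===== PACK-END S55/G/Rec/SCH174/Helpers.lean

-- ===== PACK-BEGIN S55/KL/SurjH2H898.lean
section


/-!
# S55, layer KB, leaf KB-A4 (helper898): `cd_p ≤ 2` ⇒ `H²` is right exact

`surjH2 : SurjH2Spec`.
-/

set_option autoImplicit false

open CategoryTheory groupCohomology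

namespace Fermat.Agent.S55.KL.H898

open Fermat.Agent.S55.KL

variable {k : Type} [CommRing k] {Γ : Type} [Group Γ]

/-! ## Levels acting trivially on a finite smooth module -/

lemma exists_lvl_fixing (N : NLevels Γ) (P : Rep.{0} k Γ) (hsm : IsSmooth N P)
    (V₁ : N.Lvl) (s : Finset P.V) :
    ∃ V : N.Lvl, V.W ≤ V₁.W ∧ ∀ b ∈ s, ∀ w ∈ V.W, P.ρ w b = b := by
  classical
  induction s using Finset.induction_on with
  | empty => exact ⟨V₁, le_rfl, by simp⟩
  | insert a s _ ih =>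
    obtain ⟨V, hV, hfix⟩ := ih
    obtain ⟨W, hW, hWa⟩ := hsm a
    obtain ⟨X, hXV, hXW⟩ := N.exists_le V ⟨W, hW⟩
    refine ⟨X, hXV.trans hV, ?_⟩
    intro b hb w hw
    rcases Finset.mem_insert.1 hb with rfl | hb
    · exact hWa w (hXW hw)
    · exact hfix b hb w (hXV hw)

lemma exists_lvl_actsTrivially (N : NLevels Γ) (P : Rep.{0} k Γ) (hfin : Finite P.V)
    (hsm : IsSmooth N P) (V₁ : N.Lvl) :
    ∃ V : N.Lvl, V.W ≤ V₁.W ∧ ActsTrivially V.W P := by
  classical
  have := Fintype.ofFinite P.V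
  obtain ⟨V, hV, hfix⟩ := exists_lvl_fixing N P hsm V₁ Finset.univ
  exact ⟨V, hV, fun w hw b => hfix b (Finset.mem_univ b) w hw⟩

/-! ## Descending a level-constant cocycle to a finite level -/

lemma coe_quotientToInvariants_ρ (Q : Rep.{0} k Γ) (W : Subgroup Γ) [W.Normal] (g : Γ)
    (x : (Q.quotientToInvariants W).V) :
    (((Q.quotientToInvariants W).ρ (g : Γ ⧸ W) x : (Q.quotientToInvariants W).V) : Q.V) =
      Q.ρ g (x : Q.V) := rfl

/-- A cochain which is constant modulo a level acting trivially, as a cochain of the quotient. -/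
noncomputable def descend₂ (Q : Rep.{0} k Γ) (W : Subgroup Γ) [W.Normal]
    (htriv : ActsTrivially W Q) (c : Γ × Γ → Q.V) :
    (Γ ⧸ W) × (Γ ⧸ W) → (Q.quotientToInvariants W).V :=
  fun x => ⟨c (x.1.out, x.2.out), fun w => htriv w.1 w.2 _⟩

lemma descend₂_mk (Q : Rep.{0} k Γ) (W : Subgroup Γ) [W.Normal]
    (htriv : ActsTrivially W Q) (c : Γ × Γ → Q.V)
    (hlc : ∀ g g' s s' : Γ, s ∈ W → s' ∈ W → c (g * s, g' * s') = c (g, g')) (g h : Γ) :
    ((descend₂ Q W htriv c ((g : Γ ⧸ W), (h : Γ ⧸ W)) : _) : Q.V) = c (g, h) := by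
  obtain ⟨s, hs⟩ := QuotientGroup.mk_out_eq_mul W g
  obtain ⟨s', hs'⟩ := QuotientGroup.mk_out_eq_mul W h
  show c ((g : Γ ⧸ W).out, (h : Γ ⧸ W).out) = c (g, h)
  rw [hs, hs']
  exact hlc g h s s' s.2 s'.2

lemma descend₂_mem_cocycles₂ (Q : Rep.{0} k Γ) (W : Subgroup Γ) [W.Normal]
    (htriv : ActsTrivially W Q) (c : Γ × Γ → Q.V) (hc : c ∈ cocycles₂ Q)
    (hlc : ∀ g g' s s' : Γ, s ∈ W → s' ∈ W → c (g * s, g' * s') = c (g, g')) :
    descend₂ Q W htriv c ∈ cocycles₂ (Q.quotientToInvariants W) := by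
  rw [mem_cocycles₂_def]
  intro x y z
  induction x using QuotientGroup.induction_on with
  | H g =>
  induction y using QuotientGroup.induction_on with
  | H h =>
  induction z using QuotientGroup.induction_on with
  | H j =>
  apply Subtype.ext
  have h0 := (mem_cocycles₂_def c).1 hc g h j
  have e1 := descend₂_mk Q W htriv c hlc h j
  have e2 := descend₂_mk Q W htriv c hlc (g * h) j
  have e3 := descend₂_mk Q W htriv c hlc g (h * j)
  have e4 := descend₂_mk Q W htriv c hlc g h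
  show Q.ρ g (descend₂ Q W htriv c ((h : Γ ⧸ W), (j : Γ ⧸ W)) : Q.V)
      - (descend₂ Q W htriv c (((g * h : Γ) : Γ ⧸ W), (j : Γ ⧸ W)) : Q.V)
      + (descend₂ Q W htriv c ((g : Γ ⧸ W), ((h * j : Γ) : Γ ⧸ W)) : Q.V)
      - (descend₂ Q W htriv c ((g : Γ ⧸ W), (h : Γ ⧸ W)) : Q.V) = 0
  rw [e1, e2, e3, e4]
  exact h0

/-! ## The kernel sequence at a finite level -/

lemma ker_le_comap {P Q : Rep.{0} k Γ} (φ : P ⟶ Q) (g : Γ) :
    LinearMap.ker φ.hom.toLinearMap ≤ (LinearMap.ker φ.hom.toLinearMap).comap (P.ρ g) := by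
  intro x hx
  have hx' : φ.hom x = 0 := hx
  show φ.hom (P.ρ g x) = 0
  rw [Rep.hom_comm_apply, hx', map_zero]

/-- The kernel of `φ : P ⟶ Q` as a representation. -/
noncomputable abbrev kerRep {P Q : Rep.{0} k Γ} (φ : P ⟶ Q) : Rep.{0} k Γ :=
  Rep.subrepresentation P (LinearMap.ker φ.hom.toLinearMap) (ker_le_comap φ)

/-- The inclusion of the kernel. -/
noncomputable abbrev kerIncl {P Q : Rep.{0} k Γ} (φ : P ⟶ Q) : kerRep φ ⟶ P :=
  Rep.subtype P (LinearMap.ker φ.hom.toLinearMap) (ker_le_comap φ)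

/-- The map induced on `W`-invariants, as a morphism of `Γ ⧸ W`-representations. -/
noncomputable abbrev invF {A B : Rep.{0} k Γ} (W : Subgroup Γ) [W.Normal] (ψ : A ⟶ B) :
    A.quotientToInvariants W ⟶ B.quotientToInvariants W :=
  (Rep.quotientToInvariantsFunctor k W).map ψ

lemma invF_coe {A B : Rep.{0} k Γ} (W : Subgroup Γ) [W.Normal] (ψ : A ⟶ B)
    (x : (A.quotientToInvariants W).V) :
    (((invF W ψ).hom x : (B.quotientToInvariants W).V) : B.V) = ψ.hom (x : A.V) := rfl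

lemma kerIncl_coe {P Q : Rep.{0} k Γ} (φ : P ⟶ Q) (x : (kerRep φ).V) :
    φ.hom ((kerIncl φ).hom x) = 0 := x.2

lemma invF_kerIncl_injective {P Q : Rep.{0} k Γ} (φ : P ⟶ Q) (W : Subgroup Γ) [W.Normal] :
    Function.Injective (invF W (kerIncl φ)).hom := by
  intro x y hxy
  have h1 : (((invF W (kerIncl φ)).hom x : (P.quotientToInvariants W).V) : P.V) =
      (((invF W (kerIncl φ)).hom y : (P.quotientToInvariants W).V) : P.V) := by rw [hxy]
  apply Subtype.ext
  apply Subtype.ext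
  exact h1

lemma invF_surjective {P Q : Rep.{0} k Γ} (φ : P ⟶ Q) (hφ : Function.Surjective φ.hom)
    (W : Subgroup Γ) [W.Normal] (htriv : ActsTrivially W P) :
    Function.Surjective (invF W φ).hom := by
  intro z
  obtain ⟨x, hx⟩ := hφ (z : Q.V)
  refine ⟨⟨x, fun w => htriv w.1 w.2 x⟩, ?_⟩
  apply Subtype.ext
  exact hx

lemma invF_exact {P Q : Rep.{0} k Γ} (φ : P ⟶ Q) (W : Subgroup Γ) [W.Normal]
    (y : (P.quotientToInvariants W).V) (hy : (invF W φ).hom y = 0) :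
    ∃ x : ((kerRep φ).quotientToInvariants W).V, (invF W (kerIncl φ)).hom x = y := by
  have hy' : φ.hom (y : P.V) = 0 := congrArg Subtype.val hy
  refine ⟨⟨⟨(y : P.V), hy'⟩, fun w => Subtype.ext (y.2 w)⟩, ?_⟩
  apply Subtype.ext
  rfl

/-- The sequence `0 → K^W → P^W → Q^W → 0` of `Γ ⧸ W`-modules (`K = ker φ`). -/
noncomputable abbrev sesAt {P Q : Rep.{0} k Γ} (φ : P ⟶ Q) (W : Subgroup Γ) [W.Normal] :
    ShortComplex (Rep.{0} k (Γ ⧸ W)) :=
  ShortComplex.mk (invF W (kerIncl φ)) (invF W φ) (by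
    ext x
    exact kerIncl_coe φ x.1)

lemma sesAt_shortExact {P Q : Rep.{0} k Γ} (φ : P ⟶ Q) (hφ : Function.Surjective φ.hom)
    (W : Subgroup Γ) [W.Normal] (htriv : ActsTrivially W P) : (sesAt φ W).ShortExact where
  exact := by
    rw [← ShortComplex.exact_map_iff_of_faithful _ (forget₂ (Rep k (Γ ⧸ W)) (ModuleCat k)),
      ShortComplex.moduleCat_exact_iff_ker_sub_range]
    intro y hy
    exact invF_exact φ W y hy
  mono_f := (Rep.mono_iff_injective _).2 (invF_kerIncl_injective φ W)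
  epi_g := (Rep.epi_iff_surjective _).2 (invF_surjective φ hφ W htriv)

/-! ## Inflation commutes with the connecting homomorphism -/

lemma infl_δ {P Q : Rep.{0} k Γ} (φ : P ⟶ Q) (hφ : Function.Surjective φ.hom)
    {W' W : Subgroup Γ} [W'.Normal] [W.Normal] (h : W' ≤ W)
    (htriv : ActsTrivially W P) (htriv' : ActsTrivially W' P) :
    δ (sesAt_shortExact φ hφ W htriv) 2 3 rfl ≫ infl (kerRep φ) h 3 =
      infl Q h 2 ≫ δ (sesAt_shortExact φ hφ W' htriv') 2 3 rfl := by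
  have hle : W' ≤ W.comap (MonoidHom.id Γ) := by simpa using h
  exact H304.deltaNat k (Γ ⧸ W') (Γ ⧸ W) (QuotientGroup.map W' W (MonoidHom.id Γ) hle)
    (sesAt φ W) (sesAt_shortExact φ hφ W htriv) (sesAt φ W') (sesAt_shortExact φ hφ W' htriv')
    (invMap (MonoidHom.id Γ) hle (𝟙 (kerRep φ))) (invMap (MonoidHom.id Γ) hle (𝟙 P))
    (invMap (MonoidHom.id Γ) hle (𝟙 Q)) (by ext x; rfl) (by ext x; rfl) 2 3 rfl

/-! ## The kernel is finite, smooth and `p`-torsion -/

lemma kerRep_finite {P Q : Rep.{0} k Γ} (φ : P ⟶ Q) (h : Finite P.V) : Finite (kerRep φ).V :=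
  Finite.of_injective (fun x : (kerRep φ).V => (x : P.V)) Subtype.val_injective

lemma kerRep_torsion {P Q : Rep.{0} k Γ} (φ : P ⟶ Q) (p : ℕ) (h : ∀ x : P.V, p • x = 0)
    (r : (kerRep φ).V) : p • r = 0 :=
  Subtype.ext (h (r : P.V))

lemma kerRep_smooth {P Q : Rep.{0} k Γ} (φ : P ⟶ Q) (N : NLevels Γ) (h : IsSmooth N P) :
    IsSmooth N (kerRep φ) := by
  intro b
  obtain ⟨W, hW, hb⟩ := h (b : P.V)
  exact ⟨W, hW, fun w hw => Subtype.ext (hb w hw)⟩

lemma actsTrivially_of_surjective {P Q : Rep.{0} k Γ} (φ : P ⟶ Q)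
    (hφ : Function.Surjective φ.hom) (W : Subgroup Γ) (h : ActsTrivially W P) :
    ActsTrivially W Q := by
  intro w hw q
  obtain ⟨x, rfl⟩ := hφ q
  rw [← Rep.hom_comm_apply, h w hw x]

/-! ## The theorem -/

/-- **KB-A4.** -/
theorem surjH2 : SurjH2Spec := by
  intro k Γ _ _ N p hp hcd P Q φ hφ hfinP hpP hsmP c hc hlc
  have hK : EffAll N (kerRep φ) 3 :=
    hcd (kerRep φ) (kerRep_finite φ hfinP) (kerRep_torsion φ p hpP) (kerRep_smooth φ N hsmP)
  obtain ⟨W₁, hW₁, hc₁⟩ := hlc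
  obtain ⟨V, hVW₁, hVtriv⟩ := exists_lvl_actsTrivially N P hfinP hsmP ⟨W₁, hW₁⟩
  have hVQ : ActsTrivially V.W Q := actsTrivially_of_surjective φ hφ V.W hVtriv
  have hlcV : ∀ g g' s s' : Γ, s ∈ V.W → s' ∈ V.W → c (g * s, g' * s') = c (g, g') :=
    fun g g' s s' hs hs' => hc₁ g g' s s' (hVW₁ hs) (hVW₁ hs')
  let cV : cocycles₂ (Q.quotientToInvariants V.W) :=
    ⟨descend₂ Q V.W hVQ c, descend₂_mem_cocycles₂ Q V.W hVQ c hc hlcV⟩
  have hXV := sesAt_shortExact φ hφ V.W hVtriv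
  obtain ⟨V', hV'V, hkill⟩ := hK V ((δ hXV 2 3 rfl).hom ((H2π _).hom cV))
  have hV'triv : ActsTrivially V'.W P := fun w hw => hVtriv w (hV'V hw)
  have hXV' := sesAt_shortExact φ hφ V'.W hV'triv
  have hnat := infl_δ φ hφ hV'V hVtriv hV'triv
  have hδ : (δ hXV' 2 3 rfl).hom ((infl Q hV'V 2).hom ((H2π _).hom cV)) = 0 := by
    have h1 := congrArg (fun m => m.hom ((H2π _).hom cV)) hnat
    exact h1.symm.trans hkill
  have hex := mapShortComplex₃_exact hXV' (i := 2) (j := 3) rfl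
  obtain ⟨y, hy⟩ : ∃ y : groupCohomology (P.quotientToInvariants V'.W) 2,
      (groupCohomology.map (MonoidHom.id (Γ ⧸ V'.W)) (invF V'.W φ) 2).hom y =
        (infl Q hV'V 2).hom ((H2π _).hom cV) :=
    (ShortComplex.moduleCat_exact_iff _).1 hex _ hδ
  obtain ⟨cP, rfl⟩ := (ModuleCat.epi_iff_surjective (H2π (P.quotientToInvariants V'.W))).1
    inferInstance y
  have hle : V'.W ≤ V.W.comap (MonoidHom.id Γ) := by simpa using hV'V
  have e1 : (groupCohomology.map (MonoidHom.id (Γ ⧸ V'.W)) (invF V'.W φ) 2).hom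
      ((H2π (P.quotientToInvariants V'.W)).hom cP) =
      (H2π (Q.quotientToInvariants V'.W)).hom
        ((mapCocycles₂ (MonoidHom.id (Γ ⧸ V'.W)) (invF V'.W φ)).hom cP) :=
    congrArg (fun m => m.hom cP) (H2π_comp_map (MonoidHom.id (Γ ⧸ V'.W)) (invF V'.W φ))
  have e2 : (infl Q hV'V 2).hom ((H2π (Q.quotientToInvariants V.W)).hom cV) =
      (H2π (Q.quotientToInvariants V'.W)).hom
        ((mapCocycles₂ (QuotientGroup.map V'.W V.W (MonoidHom.id Γ) hle)
          (invMap (MonoidHom.id Γ) hle (𝟙 Q))).hom cV) :=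
    congrArg (fun m => m.hom cV) (H2π_comp_map (QuotientGroup.map V'.W V.W (MonoidHom.id Γ) hle)
      (invMap (MonoidHom.id Γ) hle (𝟙 Q)))
  rw [e1, e2] at hy
  obtain ⟨b, hb⟩ := (H2π_eq_iff _ _).1 hy
  have hmk : ∀ (g s : Γ), s ∈ V'.W → ((g * s : Γ) : Γ ⧸ V'.W) = (g : Γ ⧸ V'.W) :=
    fun g s hs => QuotientGroup.mk_mul_of_mem g hs
  refine ⟨fun x => ((cP.1 ((x.1 : Γ ⧸ V'.W), (x.2 : Γ ⧸ V'.W)) : _) : P.V), ?_,
    ⟨V'.W, V'.mem, ?_⟩, fun g => ((b (g : Γ ⧸ V'.W) : (Q.quotientToInvariants V'.W).V) : Q.V),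
    ⟨V'.W, V'.mem, ?_⟩, ?_⟩
  · rw [mem_cocycles₂_def]
    intro g h j
    have h0 := congrArg Subtype.val ((mem_cocycles₂_def cP.1).1 cP.2 (g : Γ ⧸ V'.W)
      (h : Γ ⧸ V'.W) (j : Γ ⧸ V'.W))
    exact h0
  · intro g g' s s' hs hs'
    show ((cP.1 (((g * s : Γ) : Γ ⧸ V'.W), ((g' * s' : Γ) : Γ ⧸ V'.W)) : _) : P.V) =
      ((cP.1 ((g : Γ ⧸ V'.W), (g' : Γ ⧸ V'.W)) : _) : P.V)
    rw [hmk g s hs, hmk g' s' hs']
  · intro g s hs
    show ((b ((g * s : Γ) : Γ ⧸ V'.W) : (Q.quotientToInvariants V'.W).V) : Q.V) =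
      ((b (g : Γ ⧸ V'.W) : (Q.quotientToInvariants V'.W).V) : Q.V)
    rw [hmk g s hs]
  · intro g h
    have h1 := congrArg Subtype.val (congrFun hb ((g : Γ ⧸ V'.W), (h : Γ ⧸ V'.W)))
    have h2 := descend₂_mk Q V.W hVQ c hlcV g h
    have h3 : Q.ρ g ((b (h : Γ ⧸ V'.W) : (Q.quotientToInvariants V'.W).V) : Q.V)
        - ((b ((g * h : Γ) : Γ ⧸ V'.W) : (Q.quotientToInvariants V'.W).V) : Q.V)
        + ((b (g : Γ ⧸ V'.W) : (Q.quotientToInvariants V'.W).V) : Q.V)
        = φ.hom ((cP.1 ((g : Γ ⧸ V'.W), (h : Γ ⧸ V'.W)) : _) : P.V)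
          - ((descend₂ Q V.W hVQ c ((g : Γ ⧸ V.W), (h : Γ ⧸ V.W)) : _) : Q.V) := h1
    rw [h2] at h3
    show φ.hom ((cP.1 ((g : Γ ⧸ V'.W), (h : Γ ⧸ V'.W)) : _) : P.V) = c (g, h) +
      (Q.ρ g ((b (h : Γ ⧸ V'.W) : (Q.quotientToInvariants V'.W).V) : Q.V)
        - ((b ((g * h : Γ) : Γ ⧸ V'.W) : (Q.quotientToInvariants V'.W).V) : Q.V)
        + ((b (g : Γ ⧸ V'.W) : (Q.quotientToInvariants V'.W).V) : Q.V))
    rw [h3]
    abel

end Fermat.Agent.S55.KL.H898

end
-- ===== PACK-END S55/KL/SurjH2H898.lean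

-- ===== PACK-BEGIN S56/Euler/Ind.lean
section









/-!
# Row S56 / wall W-BASE / Euler characteristic — leaf IND: ASSEMBLY (helper809)

`ind : IndStatement` — modular Artin induction for additive invariants, unconditional.

    IND ⇐ KEY + PERM + ARTIN        KEY ⇐ COMP + UNIQ        UNIQ ⇐ TRIND + TRSS
-/

set_option autoImplicit false

namespace Fermat.Agent.S56.Euler

/-- (UNIQ), unconditional. -/
theorem uniq : UniqStatement :=
  H939.uniq_of TrIndH206.traceIndep H635.traceSS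

/-- (KEY), unconditional. -/
theorem key : KeyStatement :=
  H7.key_of H486.compSeries uniq

/-- (IND) **modular Artin induction**, unconditional. -/
theorem ind : IndStatement :=
  H809.ind_of key H635.permCharpoly H512.artinCount

end Fermat.Agent.S56.Euler

end
-- ===== PACK-END S56/Euler/Ind.lean

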