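import Fermat.Agent.Pack.S56.E3L3
import Fermat.Agent.Pack.S56.E7L2
import Fermat.Agent.Pack.S56.E5L1
import Fermat.Agent.Pack.S56.E5L3
import Fermat.Agent.Pack.S56.E0L0
import Fermat.Agent.Pack.S56.E7L1
import Fermat.Agent.Pack.S56.E7L0
import Fermat.Agent.Pack.S56.E6L3
import Fermat.Agent.Pack.S56.E6L0
import Fermat.Agent.Pack.S56.E5L2
import Fermat.Agent.Pack.S56.E4L1

-- ===== PACK-BEGIN S56/H956/TWPCocycle.lean
section



/-!
# S56 / TWP — twisted cocycles: cyclotomic exponents, conjugation of local triviality (helper956)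

* `eps k p σ` — the mod `p` cyclotomic character of `σ`, as an element of `k` (`CharP k p`);
* `tw ρbar p σ m = eps σ • ρ̄(σ) m ρ̄(σ)⁻¹` — the twisted adjoint action;
* `isTwCoboundaryOn_conj` — a global twisted cocycle which is a coboundary on `D_A` is a
  coboundary on `D_{g • A}`;
* `locTrivAt_iff` — local triviality at `ℓ` can be tested on ANY valuation subring over `ℓ`;
* `locSub` — the `k`-subspace of functions which are coboundaries on `D_A`.
-/

set_option autoImplicit false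

open Polynomial
open scoped Pointwise

noncomputable section

namespace Fermat.Agent.S56.H956

open Fermat.Agent.S56

/-! ### Cyclotomic exponents -/

theorem exists_isPrimitiveRoot_Qb (m : ℕ) (hm : m ≠ 0) : ∃ ζ : Qb, IsPrimitiveRoot ζ m := by
  have : NeZero (m : ℚ) := ⟨by exact_mod_cast hm⟩
  exact HasEnoughRootsOfUnity.exists_primitiveRoot Qb m

theorem isCycExp_one (p : ℕ) : IsCycExp p 1 1 := fun μ _ => by
  rw [pow_one]
  rfl

theorem isCycExp_mul {p : ℕ} {σ τ : GQ} {a b : ℕ} (hσ : IsCycExp p σ a)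
    (hτ : IsCycExp p τ b) : IsCycExp p (σ * τ) (a * b) := by
  intro μ hμ
  rw [AlgEquiv.mul_apply, hτ μ hμ, map_pow, hσ μ hμ, ← pow_mul]

theorem exists_isCycExp {p : ℕ} (hp : p ≠ 0) (σ : GQ) : ∃ a, IsCycExp p σ a := by
  obtain ⟨ζ, hζ⟩ := exists_isPrimitiveRoot_Qb p hp
  have : NeZero p := ⟨hp⟩
  have h1 : (σ ζ) ^ p = 1 := by rw [← map_pow, hζ.pow_eq_one, map_one]
  obtain ⟨a, -, ha⟩ := hζ.eq_pow_of_pow_eq_one h1
  refine ⟨a, fun μ hμ => ?_⟩
  obtain ⟨i, -, rfl⟩ := hζ.eq_pow_of_pow_eq_one hμ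
  rw [map_pow, ← ha, ← pow_mul, ← pow_mul, mul_comm]

theorem natCast_eq_of_isCycExp (k : Type*) [Field k] {p : ℕ} [CharP k p] (hp : p ≠ 0)
    {σ : GQ} {a b : ℕ} (ha : IsCycExp p σ a) (hb : IsCycExp p σ b) : (a : k) = (b : k) := by
  obtain ⟨ζ, hζ⟩ := exists_isPrimitiveRoot_Qb p hp
  have h1 : ζ ^ a = ζ ^ b := (ha ζ hζ.pow_eq_one).symm.trans (hb ζ hζ.pow_eq_one)
  have h2 : a ≡ b [MOD p] := by
    have h3 : IsOfFinOrder ζ := isOfFinOrder_iff_pow_eq_one.mpr ⟨p, Nat.pos_of_ne_zero hp,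
      hζ.pow_eq_one⟩
    have := h3.pow_eq_pow_iff_modEq.mp h1
    rwa [← hζ.eq_orderOf] at this
  exact (CharP.natCast_eq_natCast k p).mpr h2

/-- The mod `p` cyclotomic character, with values in `k`. -/
def eps (k : Type*) [Field k] (p : ℕ) (σ : GQ) : k :=
  open Classical in if h : ∃ a, IsCycExp p σ a then ((Classical.choose h : ℕ) : k) else 0

section eps

variable (k : Type*) [Field k] {p : ℕ} [CharP k p]

theorem eps_eq (hp : p ≠ 0) {σ : GQ} {a : ℕ} (ha : IsCycExp p σ a) : eps k p σ = (a : k) := by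
  have h : ∃ a, IsCycExp p σ a := ⟨a, ha⟩
  unfold eps
  rw [dif_pos h]
  exact natCast_eq_of_isCycExp k hp (Classical.choose_spec h) ha

theorem eps_one (hp : p ≠ 0) : eps k p 1 = 1 := by
  rw [eps_eq k hp (isCycExp_one p), Nat.cast_one]

theorem eps_mul (hp : p ≠ 0) (σ τ : GQ) : eps k p (σ * τ) = eps k p σ * eps k p τ := by
  obtain ⟨a, ha⟩ := exists_isCycExp hp σ
  obtain ⟨b, hb⟩ := exists_isCycExp hp τ
  rw [eps_eq k hp (isCycExp_mul ha hb), eps_eq k hp ha, eps_eq k hp hb, Nat.cast_mul]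

theorem eps_mul_inv (hp : p ≠ 0) (σ : GQ) : eps k p σ * eps k p σ⁻¹ = 1 := by
  rw [← eps_mul k hp, mul_inv_cancel, eps_one k hp]

theorem eps_inv_mul (hp : p ≠ 0) (σ : GQ) : eps k p σ⁻¹ * eps k p σ = 1 := by
  rw [← eps_mul k hp, inv_mul_cancel, eps_one k hp]

end eps

/-! ### The twisted adjoint action -/

section tw

variable {k : Type} [Field k] (ρbar : ResidualGaloisRep k) (p : ℕ)

/-- The twisted adjoint action of `G_ℚ` on `End_k V`. -/
def tw (σ : GQ) (m : Module.End k ρbar.V) : Module.End k ρbar.V :=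
  eps k p σ • (ρbar.ρ σ * m * ρbar.ρ σ⁻¹)

variable {ρbar p}

theorem rho_mul_rho_inv (σ : GQ) : ρbar.ρ σ * ρbar.ρ σ⁻¹ = 1 := by
  rw [← map_mul, mul_inv_cancel, map_one]

theorem rho_inv_mul_rho (σ : GQ) : ρbar.ρ σ⁻¹ * ρbar.ρ σ = 1 := by
  rw [← map_mul, inv_mul_cancel, map_one]

theorem trace_conj_rho (σ : GQ) (m : Module.End k ρbar.V) :
    LinearMap.trace k ρbar.V (ρbar.ρ σ * m * ρbar.ρ σ⁻¹) = LinearMap.trace k ρbar.V m := by
  rw [LinearMap.trace_mul_comm, ← mul_assoc, rho_inv_mul_rho, one_mul]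

theorem tw_zero (σ : GQ) : tw ρbar p σ 0 = 0 := by
  unfold tw
  rw [mul_zero, zero_mul, smul_zero]

theorem tw_add (σ : GQ) (m m' : Module.End k ρbar.V) :
    tw ρbar p σ (m + m') = tw ρbar p σ m + tw ρbar p σ m' := by
  unfold tw
  rw [mul_add, add_mul, smul_add]

theorem tw_neg (σ : GQ) (m : Module.End k ρbar.V) :
    tw ρbar p σ (-m) = -tw ρbar p σ m := by
  unfold tw
  rw [mul_neg, neg_mul, smul_neg]

theorem tw_sub (σ : GQ) (m m' : Module.End k ρbar.V) :
    tw ρbar p σ (m - m') = tw ρbar p σ m - tw ρbar p σ m' := by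
  rw [sub_eq_add_neg, tw_add, tw_neg, ← sub_eq_add_neg]

theorem tw_smul (σ : GQ) (t : k) (m : Module.End k ρbar.V) :
    tw ρbar p σ (t • m) = t • tw ρbar p σ m := by
  unfold tw
  rw [mul_smul_comm, smul_mul_assoc, smul_comm]

theorem trace_tw (σ : GQ) (m : Module.End k ρbar.V) :
    LinearMap.trace k ρbar.V (tw ρbar p σ m) = eps k p σ * LinearMap.trace k ρbar.V m := by
  unfold tw
  rw [map_smul, trace_conj_rho, smul_eq_mul]

variable [CharP k p]

theorem twAd_eq_tw (hp : p ≠ 0) {σ : GQ} {a : ℕ} (ha : IsCycExp p σ a)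
    (m : Module.End k ρbar.V) : twAd ρbar σ a m = tw ρbar p σ m := by
  unfold twAd tw
  rw [eps_eq k hp ha]

theorem tw_one (hp : p ≠ 0) (m : Module.End k ρbar.V) : tw ρbar p 1 m = m := by
  unfold tw
  rw [eps_one k hp, one_smul, inv_one, map_one, one_mul, mul_one]

theorem tw_mul (hp : p ≠ 0) (σ τ : GQ) (m : Module.End k ρbar.V) :
    tw ρbar p (σ * τ) m = tw ρbar p σ (tw ρbar p τ m) := by
  unfold tw
  rw [eps_mul k hp, mul_inv_rev, map_mul, map_mul, mul_smul_comm, smul_mul_assoc, smul_smul]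
  simp only [mul_assoc]

/-! ### Cocycles -/

variable {c : GQ → Module.End k ρbar.V}

theorem map_mul_of_isTwCocycle (hp : p ≠ 0) (hc : IsTwCocycle ρbar p c) (σ τ : GQ) :
    c (σ * τ) = c σ + tw ρbar p σ (c τ) := by
  obtain ⟨a, ha⟩ := exists_isCycExp hp σ
  rw [hc.map_mul σ τ a ha, twAd_eq_tw hp ha]

theorem map_one_of_isTwCocycle (hp : p ≠ 0) (hc : IsTwCocycle ρbar p c) : c 1 = 0 := by
  have h := map_mul_of_isTwCocycle hp hc 1 1
  rw [mul_one, tw_one hp] at h
  exact left_eq_add.mp h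

theorem tw_map_inv_of_isTwCocycle (hp : p ≠ 0) (hc : IsTwCocycle ρbar p c) (g : GQ) :
    tw ρbar p g (c g⁻¹) = -c g := by
  have h := map_mul_of_isTwCocycle hp hc g g⁻¹
  rw [mul_inv_cancel, map_one_of_isTwCocycle hp hc] at h
  exact (neg_eq_of_add_eq_zero_right h.symm).symm

theorem isTwCoboundaryOn_iff (hp : p ≠ 0) (H : Subgroup GQ) (m : Module.End k ρbar.V) :
    IsTwCoboundaryOn ρbar p H c m ↔
      LinearMap.trace k ρbar.V m = 0 ∧ ∀ σ ∈ H, c σ = tw ρbar p σ m - m := by
  constructor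
  · rintro ⟨h1, h2⟩
    refine ⟨h1, fun σ hσ => ?_⟩
    obtain ⟨a, ha⟩ := exists_isCycExp hp σ
    rw [h2 σ hσ a ha, twAd_eq_tw hp ha]
  · rintro ⟨h1, h2⟩
    refine ⟨h1, fun σ hσ a ha => ?_⟩
    rw [h2 σ hσ, twAd_eq_tw hp ha]

/-- **Conjugation of local triviality.**  A global twisted cocycle which is the coboundary of `m`
on `D_A` is the coboundary of `g · m - c(g)` on `D_{g • A}`. -/
theorem isTwCoboundaryOn_conj (hp : p ≠ 0) (hc : IsTwCocycle ρbar p c) (g : GQ)
    (A : ValuationSubring Qb) {m : Module.End k ρbar.V}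
    (hm : IsTwCoboundaryOn ρbar p (A.decompositionSubgroup ℚ) c m) :
    IsTwCoboundaryOn ρbar p ((g • A).decompositionSubgroup ℚ) c (tw ρbar p g m - c g) := by
  rw [isTwCoboundaryOn_iff hp] at hm ⊢
  obtain ⟨hm1, hm2⟩ := hm
  refine ⟨?_, fun σ' hσ' => ?_⟩
  · rw [map_sub, trace_tw, hm1, mul_zero, hc.trace_eq_zero, sub_zero]
  · -- `σ = g⁻¹ σ' g ∈ D_A`
    have hσ : g⁻¹ * σ' * g⁻¹⁻¹ ∈ A.decompositionSubgroup ℚ := by
      have h := Fermat.Agent.Lib.Cheb.H476.conj_mem_decomposition g⁻¹ hσ'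
      rwa [inv_smul_smul] at h
    rw [inv_inv] at hσ
    have hcσ := hm2 _ hσ
    have e1 : σ' = g * ((g⁻¹ * σ' * g) * g⁻¹) := by group
    have h1 : c σ' = c g + tw ρbar p g (c ((g⁻¹ * σ' * g) * g⁻¹)) := by
      conv_lhs => rw [e1]
      exact map_mul_of_isTwCocycle hp hc _ _
    have h2 := map_mul_of_isTwCocycle hp hc (g⁻¹ * σ' * g) g⁻¹
    have h3 : tw ρbar p g (tw ρbar p (g⁻¹ * σ' * g) (c g⁻¹)) = -tw ρbar p σ' (c g) := by
      rw [← tw_mul hp, ← tw_neg, ← tw_map_inv_of_isTwCocycle hp hc g, ← tw_mul hp]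
      congr 1
      group
    have h4 : tw ρbar p g (tw ρbar p (g⁻¹ * σ' * g) m) = tw ρbar p σ' (tw ρbar p g m) := by
      rw [← tw_mul hp, ← tw_mul hp]
      congr 1
      group
    rw [h1, h2, hcσ, tw_add, tw_sub, h3, h4, tw_sub]
    abel

/-- Local triviality of a global twisted cocycle at `ℓ` can be tested on any valuation subring
over `ℓ`. -/
theorem locTrivAt_iff (hp : p ≠ 0) (hc : IsTwCocycle ρbar p c) {ℓ : ℕ} (hℓ : ℓ.Prime)
    {A : ValuationSubring Qb} (hA : A.LiesOverPrime ℓ) :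
    LocTrivAt ρbar p ℓ c ↔
      ∃ m, IsTwCoboundaryOn ρbar p (A.decompositionSubgroup ℚ) c m := by
  constructor
  · rintro ⟨P, hP, m, hm⟩
    obtain ⟨g, hg⟩ := Fermat.Agent.Lib.Cheb.H476.exists_smul_eq hℓ hP hA
    have h := isTwCoboundaryOn_conj hp hc g P hm
    rw [hg] at h
    exact ⟨_, h⟩
  · rintro ⟨m, hm⟩
    exact ⟨A, hA, m, hm⟩

variable (ρbar p)

/-- The subspace of functions `G_ℚ → End V` which are twisted coboundaries on `D_A`. -/
def locSub (hp : p ≠ 0) (A : ValuationSubring Qb) :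
    Submodule k (GQ → Module.End k ρbar.V) where
  carrier := {c | ∃ m, IsTwCoboundaryOn ρbar p (A.decompositionSubgroup ℚ) c m}
  zero_mem' := by
    refine ⟨0, (isTwCoboundaryOn_iff hp _ _).mpr ⟨map_zero _, fun σ _ => ?_⟩⟩
    rw [tw_zero, sub_zero]
    rfl
  add_mem' := by
    rintro c₁ c₂ ⟨m₁, h₁⟩ ⟨m₂, h₂⟩
    rw [isTwCoboundaryOn_iff hp] at h₁ h₂
    refine ⟨m₁ + m₂, (isTwCoboundaryOn_iff hp _ _).mpr ⟨?_, fun σ hσ => ?_⟩⟩
    · rw [map_add, h₁.1, h₂.1, add_zero]
    · rw [Pi.add_apply, h₁.2 σ hσ, h₂.2 σ hσ, tw_add]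
      abel
  smul_mem' := by
    rintro t c₁ ⟨m₁, h₁⟩
    rw [isTwCoboundaryOn_iff hp] at h₁
    refine ⟨t • m₁, (isTwCoboundaryOn_iff hp _ _).mpr ⟨?_, fun σ hσ => ?_⟩⟩
    · rw [map_smul, h₁.1, smul_zero]
    · rw [Pi.smul_apply, h₁.2 σ hσ, tw_smul, smul_sub]

theorem mem_locSub (hp : p ≠ 0) (A : ValuationSubring Qb) (c : GQ → Module.End k ρbar.V) :
    c ∈ locSub ρbar p hp A ↔
      ∃ m, IsTwCoboundaryOn ρbar p (A.decompositionSubgroup ℚ) c m :=
  Iff.rfl

end tw

end Fermat.Agent.S56.H956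

end

end
-- ===== PACK-END S56/H956/TWPCocycle.lean

-- ===== PACK-BEGIN S56/FL/LMSpec.lean
section


/-!
# Row S56 — wall W-FLAT-SS — `LocalModelStatement`: FROZEN inner interface
(architect helper434; blueprint `coord/S56-LOCALMODEL-helper434.md` on `origin/helper434`)

    LocalModelStatement ⇐ IntStatement + StructStatement + RootStatement     (glue: `FL/LMGlue.lean`)
    RootStatement       ⇐ RationalityStatement                                (`ℚ̄`-side, Galois theory)

The model is the `ℚ̄`-side one: `A = P ∩ ℚ̄^{D_P}`, `B = P ∩ ℚ̄^{N}`, `N = {σ ∈ D_P | ρ̄ σ = 1, c₁ σ = 0,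
c₂ σ = 0}`, `Γ = D_P / N`.  No completion is used anywhere.

* `levelSet ρbar c₁ c₂ P` — the underlying set of `B` inside `ℚ̄`.
* `IntStatement` (INT; Prelude language): `A`, `B` are discrete valuation rings with all the
  instances of `LocalModelStatement`, i.e. everything EXCEPT the different bound, together with an
  embedding `ι : B → ℚ̄` with range `levelSet`, equivariant for `π : D_P → Γ`.
* `StructStatement` (STRUCT; pure algebra, Mathlib only): structure of a Galois extension `B/A`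
  of discrete valuation rings with `𝔪_A = (p)`, `κ_A = 𝔽_p`: the inertia-fixed subring `B'` has
  uniformizer `p`, `B = B'[ϖ]` with `ϖ` a root of an Eisenstein polynomial `G` of degree `e`, and if
  `G + p X^j` has a root in `B` (`p ∤ j`, `0 < j < e`) then `𝔇_{B/A} ∣ (p) 𝔪_B^{j-1}`.
* `RootStatement` (ROOT; `ℚ̄`-side, the only place where flatness is used): for every Eisenstein
  presentation `levelSet = B'[ϖ]` as above and every `j` with `p ∤ j`, `0 < j < e < j (p - 1)`,
  the polynomial `G + p X^j` has a root in `levelSet`.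
* `RationalityStatement` (Theorem A; Mathlib only): the bridge-free lifting lemma in the form
  "an automorphism fixing the values of an approximate ring homomorphism `η` fixes all points".

Nothing unproved in this file.
-/

set_option autoImplicit false

open Polynomial IsLocalRing

noncomputable section

namespace Fermat.Agent.S56.FL

open Fermat.Agent.S56 Fermat.Agent.S56.H716

/-- The underlying set of `B = P ∩ ℚ̄^N`, `N = {σ ∈ D_P | ρ̄ σ = 1, c₁ σ = 0, c₂ σ = 0}`. -/
def levelSet {k : Type} [Field k] (ρbar : ResidualGaloisRep k)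
    (c₁ c₂ : GQ → Module.End k ρbar.V) (P : ValuationSubring Qb) : Set Qb :=
  {x | x ∈ P ∧ ∀ σ ∈ P.decompositionSubgroup ℚ,
    ρbar.ρ σ = 1 → c₁ σ = 0 → c₂ σ = 0 → σ x = x}

/-- **Theorem A** (bridge-free lifting lemma, rationality form; Mathlib only).
`Ω` an algebraically closed field with a rank-one valuation `v`, integral on the image of `R`;
`H` a finite free commutative cocommutative `R`-bialgebra all of whose `Ω`-points are killed by
`p`; `T ⊆ Ω` a subring of integral elements containing the values of all points;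
`η : T → Ω` a ring homomorphism modulo `p γ` with `γ^(p-1) < |p|`, isometric modulo `γ`.
Then every valuation-preserving endomorphism `σ` of `Ω` which fixes `R` and the values of `η`
fixes all points of `H`. -/
def RationalityStatement : Prop :=
  ∀ (Ω : Type) [Field Ω] [IsAlgClosed Ω] (Γ₀ : Type) [LinearOrderedCommGroupWithZero Γ₀]
    (v : Valuation Ω Γ₀),
    (∀ x y : Γ₀, x < 1 → y ≠ 0 → ∃ n : ℕ, x ^ n ≤ y) →
    ∀ (R : Type) [CommRing R] [Algebra R Ω], (∀ r : R, v (algebraMap R Ω r) ≤ 1) →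
    ∀ (H : Type) [CommRing H] [Bialgebra R H] [Coalgebra.IsCocomm R H]
      [Module.Free R H] [Module.Finite R H] [Finite (H →ₐ[R] Ω)]
      (p : ℕ), p.Prime →
      (∀ x : WithConv (H →ₐ[R] Ω), x ^ p = 1) →
      ∀ (γ : Γ₀), γ ≠ 0 → γ ^ (p - 1) < v (p : Ω) →
      ∀ (T : Subring Ω), (∀ a ∈ T, v a ≤ 1) → (∀ (x : H →ₐ[R] Ω) (h : H), x h ∈ T) →
      ∀ (η : Ω → Ω),
        (∀ a ∈ T, v (η a) ≤ 1) →
        (∀ a ∈ T, ∀ b ∈ T, v (η (a + b) - (η a + η b)) ≤ v (p : Ω) * γ) →
        (∀ a ∈ T, ∀ b ∈ T, v (η (a * b) - η a * η b) ≤ v (p : Ω) * γ) →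
        (∀ r : R, v (η (algebraMap R Ω r) - algebraMap R Ω r) ≤ v (p : Ω) * γ) →
        (∀ a ∈ T, v (η a) ≤ γ → v a ≤ γ) →
        ∀ (σ : Ω →+* Ω), (∀ a, v (σ a) = v a) →
          (∀ r : R, σ (algebraMap R Ω r) = algebraMap R Ω r) →
          (∀ a ∈ T, σ (η a) = η a) →
          ∀ (x : H →ₐ[R] Ω) (h : H), σ (x h) = x h

/-- **ROOT** (`ℚ̄`-side; uses flatness through `RationalityStatement`).  Given an Eisenstein
presentation `levelSet = B'[ϖ]`, `G(ϖ) = 0`, every perturbation `G + p X^j` with `p ∤ j`,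
`0 < j < e < j (p - 1)` has a root in `levelSet`. -/
def RootStatement : Prop :=
  ∀ (k : Type) [Field k] [Finite k] (p : ℕ) [Fact p.Prime], p ≠ 2 → CharP k p →
    ∀ (ρbar : ResidualGaloisRep k) (P : ValuationSubring Qb), P.LiesOverPrime p →
      ∀ (c₁ c₂ : GQ → Module.End k ρbar.V), IsAdCocycle ρbar c₁ → IsAdCocycle ρbar c₂ →
        ∀ (ρ₁ ρ₂ : GaloisRepAdic (DualNumber k)), IsLiftOf ρbar c₁ ρ₁ → IsLiftOf ρbar c₂ ρ₂ →
          ρ₁.IsFlatAt p → ρ₂.IsFlatAt p →
          ∀ (B' : Subring Qb) (ϖ : Qb) (e : ℕ) (G : Qb[X]),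
            (∀ x ∈ P, (∀ σ ∈ P.decompositionSubgroup ℚ, σ x = x) → x ∈ B') →
            (∀ b ∈ B', b ∈ levelSet ρbar c₁ c₂ P) →
            (∀ b ∈ B', b ≠ 0 → ∃ n : ℕ, P.valuation b = P.valuation (p : Qb) ^ n) →
            ϖ ∈ levelSet ρbar c₁ c₂ P →
            P.valuation ϖ ^ e = P.valuation (p : Qb) →
            (∀ b ∈ levelSet ρbar c₁ c₂ P,
              ∃ a : Fin e → Qb, (∀ i, a i ∈ B') ∧ b = ∑ i, a i * ϖ ^ (i : ℕ)) →
            G.Monic → G.natDegree = e → (∀ i, G.coeff i ∈ B') →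
            (∀ i < e, P.valuation (G.coeff i) ≤ P.valuation (p : Qb)) →
            P.valuation (G.coeff 0) = P.valuation (p : Qb) →
            G.eval ϖ = 0 →
            ∀ j : ℕ, ¬ p ∣ j → 0 < j → j < e → e < j * (p - 1) →
              ∃ ϖ' ∈ levelSet ρbar c₁ c₂ P, G.eval ϖ' + (p : Qb) * ϖ' ^ j = 0

/-- **STRUCT** (pure algebra, Mathlib only).  Structure of a Galois extension `B/A` of discrete
valuation rings of characteristic `0` with `𝔪_A = (p)` and residue field `𝔽_p`, and the different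
bound from a root of the perturbed Eisenstein polynomial. -/
def StructStatement : Prop :=
  ∀ (p : ℕ) [Fact p.Prime]
    (A B : Type) [CommRing A] [IsDomain A] [IsDiscreteValuationRing A]
    [CommRing B] [IsDomain B] [IsDiscreteValuationRing B] [CharZero B]
    [Algebra A B] [Module.Finite A B] [FaithfulSMul A B]
    (Γ : Type) [Group Γ] [Finite Γ] [MulSemiringAction Γ B] [SMulCommClass Γ A B]
    [Algebra.IsInvariant A B Γ] [FaithfulSMul Γ B],
    maximalIdeal A = Ideal.span {(p : A)} →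
    Nat.card (ResidueField A) = p →
    ∀ e : ℕ, Ideal.span {(p : B)} = maximalIdeal B ^ e →
    ∃ (B' : Subring B) (ϖ : B) (G : B[X]),
      (∀ a : A, algebraMap A B a ∈ B') ∧
      (∀ b ∈ B', b ≠ 0 → ∃ (n : ℕ) (u : B), u ∈ B' ∧ IsUnit u ∧ b = (p : B) ^ n * u) ∧
      maximalIdeal B = Ideal.span {ϖ} ∧
      (∀ b : B, ∃ a : Fin e → B, (∀ i, a i ∈ B') ∧ b = ∑ i, a i * ϖ ^ (i : ℕ)) ∧
      G.Monic ∧ G.natDegree = e ∧ (∀ i, G.coeff i ∈ B') ∧
      (∀ i < e, G.coeff i ∈ Ideal.span {(p : B)}) ∧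
      (∃ u : B, IsUnit u ∧ G.coeff 0 = (p : B) * u) ∧
      G.eval ϖ = 0 ∧
      ∀ j : ℕ, ¬ p ∣ j → 0 < j → j < e →
        (∃ ϖ' : B, G.eval ϖ' + (p : B) * ϖ' ^ j = 0) →
        differentIdeal A B ∣ Ideal.span {(p : B)} * maximalIdeal B ^ (j - 1)

/-- **INT** (`ℚ̄`-side, Prelude language).  Everything in `LocalModelStatement` except the
different bound, for the concrete model `A = P ∩ ℚ̄^{D_P}`, `B ≅ levelSet` (via `ι`), `Γ = D_P / N`. -/
def IntStatement : Prop :=
  ∀ (k : Type) [Field k] [Finite k] (p : ℕ) [Fact p.Prime], p ≠ 2 → CharP k p →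
    ∀ (ρbar : ResidualGaloisRep k),
      (∀ (σ : GQ) (a : ℕ), IsCycExp p σ a → LinearMap.det (ρbar.ρ σ) = (a : k)) →
      ∀ (P : ValuationSubring Qb), P.LiesOverPrime p →
        ∀ (c₁ c₂ : GQ → Module.End k ρbar.V), IsAdCocycle ρbar c₁ → IsAdCocycle ρbar c₂ →
          ∀ (ρ₁ ρ₂ : GaloisRepAdic (DualNumber k)), IsLiftOf ρbar c₁ ρ₁ → IsLiftOf ρbar c₂ ρ₂ →
            ρ₁.IsFlatAt p → ρ₂.IsFlatAt p →
            ∃ (A B : Type) (_ : CommRing A) (_ : IsDomain A) (_ : IsDiscreteValuationRing A)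
              (_ : CommRing B) (_ : IsDomain B) (_ : IsDiscreteValuationRing B) (_ : CharZero B)
              (_ : Algebra A B) (_ : Module.Finite A B) (_ : FaithfulSMul A B)
              (Γ : Type) (_ : Group Γ) (_ : Finite Γ) (_ : MulSemiringAction Γ B)
              (_ : SMulCommClass Γ A B) (_ : Algebra.IsInvariant A B Γ) (_ : FaithfulSMul Γ B)
              (π : P.decompositionSubgroup ℚ →* Γ) (ζ : B) (e : ℕ) (ι : B →+* Qb),
              Function.Surjective π ∧
              (∀ σ : P.decompositionSubgroup ℚ,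
                π σ = 1 ↔ (ρbar.ρ (σ : GQ) = 1 ∧ c₁ (σ : GQ) = 0 ∧ c₂ (σ : GQ) = 0)) ∧
              maximalIdeal A = Ideal.span {(p : A)} ∧
              Nat.card (ResidueField A) = p ∧
              IsPrimitiveRoot ζ p ∧
              (∀ (σ : P.decompositionSubgroup ℚ) (a : ℕ),
                π σ • ζ = ζ ^ a → IsCycExp p (σ : GQ) a) ∧
              Ideal.span {(p : B)} = maximalIdeal B ^ e ∧
              Function.Injective ι ∧
              Set.range ι = levelSet ρbar c₁ c₂ P ∧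
              ∀ (σ : P.decompositionSubgroup ℚ) (b : B), ι (π σ • b) = (σ : GQ) (ι b)

end Fermat.Agent.S56.FL

end

end
-- ===== PACK-END S56/FL/LMSpec.lean

-- ===== PACK-BEGIN S56/H914/BRLocal.lean
section





/-!
# Row S56 — W-FLAT-SS, piece FL-BR (helper914), part 3: the local model of a place `P | p`

For ANY valuation subring `P` of `ℚ̄` over the prime `p` we produce a *local model*:

* an embedding `ι : ℚ̄ →ₐ[ℚ] ℚ̄_p` (`ℚ̄_p = PadicAlgCl p`) with `x ∈ P ↔ ‖ι x‖ ≤ 1`;
* an injective homomorphism `Ψ : Gal(ℚ̄_p/ℚ_p) →* G_ℚ` with range the decomposition group `D_P`,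
  such that `ι (Ψ τ x) = τ (ι x)`;
* `Ψ τ ∈ I_P` (Prelude inertia) iff `τ` acts trivially on the residue field of `ℚ̄_p`
  (`‖τ y − y‖ < 1` for `‖y‖ ≤ 1`);
* `ι(ℚ̄)` is dense in `ℚ̄_p` and contains every root of a nonzero rational polynomial.

Built from the Prelude's `padicEmbedding`, `padicPlace`, `localGaloisToGlobal`, the landed S55 bridge
(`range_localGaloisToGlobal`, Krasner) and transitivity of `G_ℚ` on the places over `p`
(`Lib.Cheb.H476.exists_smul_eq`).
-/

set_option autoImplicit false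
set_option linter.style.haveILetI false

open scoped Pointwise NNReal

noncomputable section

namespace Fermat.Agent.S56.H914

/-- `ℚ̄`. -/
abbrev QbL : Type := AlgebraicClosure ℚ

/-- `Gal(ℚ̄/ℚ)`. -/
abbrev GQL : Type := AlgebraicClosure ℚ ≃ₐ[ℚ] AlgebraicClosure ℚ

/-- The local Galois group `Gal(ℚ̄_p/ℚ_p)`. -/
abbrev GQp (p : ℕ) [Fact p.Prime] : Type := PadicAlgCl p ≃ₐ[ℚ_[p]] PadicAlgCl p

/-- A local model of the place `P` over `p`. -/
structure LocalModel (p : ℕ) [Fact p.Prime] (P : ValuationSubring QbL) where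
  /-- the embedding `ℚ̄ → ℚ̄_p` -/
  ι : QbL →ₐ[ℚ] PadicAlgCl p
  /-- the local Galois group as the decomposition group -/
  Ψ : GQp p →* GQL
  Ψ_injective : Function.Injective Ψ
  range_Ψ : Ψ.range = P.decompositionSubgroup ℚ
  ι_Ψ : ∀ (τ : GQp p) (x : QbL), ι (Ψ τ x) = τ (ι x)
  mem_iff : ∀ x : QbL, x ∈ P ↔ ‖ι x‖ ≤ 1
  dense : ∀ (y : PadicAlgCl p) {δ : ℝ}, 0 < δ → ∃ b : QbL, ‖y - ι b‖ < δ
  root_mem : ∀ (g : Polynomial ℚ), g ≠ 0 → ∀ y : PadicAlgCl p, Polynomial.aeval y g = 0 →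
    ∃ b : QbL, ι b = y

namespace LocalModel

variable {p : ℕ} [Fact p.Prime] {P : ValuationSubring QbL}

lemma ι_injective (M : LocalModel p P) : Function.Injective M.ι := M.ι.toRingHom.injective

lemma Ψ_mem (M : LocalModel p P) (τ : GQp p) : M.Ψ τ ∈ P.decompositionSubgroup ℚ := by
  rw [← M.range_Ψ]
  exact ⟨τ, rfl⟩

lemma exists_Ψ_eq (M : LocalModel p P) {σ : GQL} (hσ : σ ∈ P.decompositionSubgroup ℚ) :
    ∃ τ : GQp p, M.Ψ τ = σ := by
  rw [← M.range_Ψ] at hσ
  exact hσ

lemma norm_τ (τ : GQp p) (y : PadicAlgCl p) : ‖τ y‖ = ‖y‖ := by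
  have h := nnnorm_padicAlgCl_algEquiv p τ y
  exact congrArg NNReal.toReal h

lemma mem_nonunits_iff (M : LocalModel p P) (x : QbL) : x ∈ P.nonunits ↔ ‖M.ι x‖ < 1 := by
  rw [Fermat.Agent.S55.Bridge.mem_nonunits_iff_inv_not_mem]
  rcases eq_or_ne x 0 with rfl | hx
  · simp
  · simp only [hx, false_or]
    rw [M.mem_iff, map_inv₀, norm_inv, not_le]
    have hpos : 0 < ‖M.ι x‖ := by
      rw [norm_pos_iff]
      exact (map_ne_zero_iff _ M.ι_injective).mpr hx
    rw [one_lt_inv₀ hpos]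

/-- Inertia on the global side = inertia on the local side. -/
theorem Ψ_mem_inertia_iff (M : LocalModel p P) (τ : GQp p) :
    M.Ψ τ ∈ P.inertiaSubgroupIn ℚ ↔ ∀ y : PadicAlgCl p, ‖y‖ ≤ 1 → ‖τ y - y‖ < 1 := by
  rw [Fermat.Agent.S55.Bridge.mem_inertiaSubgroupIn_iff]
  constructor
  · rintro ⟨-, h⟩ y hy
    obtain ⟨b, hb⟩ := M.dense y (δ := 1) one_pos
    have hb1 : ‖M.ι b‖ ≤ 1 := by
      have h1 : M.ι b = y - (y - M.ι b) := by ring
      rw [h1, sub_eq_add_neg]
      refine le_trans (PadicAlgCl.isNonarchimedean p y (-(y - M.ι b))) ?_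
      rw [norm_neg]
      exact max_le hy hb.le
    have h2 := h b ((M.mem_iff b).mpr hb1)
    rw [M.mem_nonunits_iff, map_sub, M.ι_Ψ] at h2
    have h3 : τ y - y = (τ (y - M.ι b) + -(y - M.ι b)) + (τ (M.ι b) - M.ι b) := by
      rw [map_sub]
      ring
    rw [h3]
    refine lt_of_le_of_lt (PadicAlgCl.isNonarchimedean p _ _) (max_lt ?_ h2)
    refine lt_of_le_of_lt (PadicAlgCl.isNonarchimedean p _ _) (max_lt ?_ ?_)
    · rw [norm_τ]
      exact hb
    · rw [norm_neg]
      exact hb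
  · intro h
    refine ⟨M.Ψ_mem τ, fun z hz => ?_⟩
    rw [M.mem_nonunits_iff, map_sub, M.ι_Ψ]
    exact h _ ((M.mem_iff z).mp hz)

end LocalModel

section Exists

variable (p : ℕ) [Fact p.Prime]

/-- The standard local model of the standard place `padicPlace p`, conjugated by `g`. -/
def conjLocalModel (g : GQL) : LocalModel p (g • padicPlace p) where
  ι := (padicEmbedding p).comp ((g⁻¹ : GQL) : QbL →ₐ[ℚ] QbL)
  Ψ := (MulAut.conj g).toMonoidHom.comp (localGaloisToGlobal p)
  Ψ_injective := by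
    intro τ τ' h
    apply Fermat.Agent.S55.Bridge.localGaloisToGlobal_injective p
    exact (MulAut.conj g).injective h
  range_Ψ := by
    rw [MonoidHom.range_comp, Fermat.Agent.S55.BLocal.range_localGaloisToGlobal]
    ext σ
    rw [Subgroup.mem_map, Fermat.Agent.S55.Bridge.mem_decompositionSubgroup_iff]
    constructor
    · rintro ⟨σ₀, hσ₀, rfl⟩ x
      rw [Fermat.Agent.S55.Bridge.mem_decompositionSubgroup_iff] at hσ₀
      rw [Fermat.Agent.S55.Bridge.mem_smul_valuationSubring_iff,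
        Fermat.Agent.S55.Bridge.mem_smul_valuationSubring_iff]
      show g⁻¹ ((g * σ₀ * g⁻¹) x) ∈ padicPlace p ↔ _
      rw [Fermat.Agent.S55.Bridge.apply_inv_conj, hσ₀]
    · intro h
      refine ⟨g⁻¹ * σ * g, ?_, ?_⟩
      · rw [Fermat.Agent.S55.Bridge.mem_decompositionSubgroup_iff]
        intro x
        have h1 := h (g x)
        rw [Fermat.Agent.S55.Bridge.mem_smul_valuationSubring_iff,
          Fermat.Agent.S55.Bridge.mem_smul_valuationSubring_iff] at h1
        have h2 : g⁻¹ (g x) = x := by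
          show (g⁻¹ * g) x = x
          rw [inv_mul_cancel]
          rfl
        rw [h2] at h1
        exact h1
      · show g * (g⁻¹ * σ * g) * g⁻¹ = σ
        group
  ι_Ψ := by
    intro τ x
    show padicEmbedding p (g⁻¹ ((g * localGaloisToGlobal p τ * g⁻¹) x)) = _
    rw [Fermat.Agent.S55.Bridge.apply_inv_conj, padicEmbedding_localGaloisToGlobal]
    rfl
  mem_iff := by
    intro x
    rw [Fermat.Agent.S55.Bridge.mem_smul_valuationSubring_iff,
      Fermat.Agent.S55.BLocal.mem_padicPlace_iff_qnorm]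
    rfl
  dense := by
    intro y δ hδ
    obtain ⟨b, hb⟩ := Fermat.Agent.S55.Bridge.exists_global_near p y hδ
    refine ⟨g b, ?_⟩
    show ‖y - padicEmbedding p (g⁻¹ (g b))‖ < δ
    have h2 : g⁻¹ (g b) = b := by
      show (g⁻¹ * g) b = b
      rw [inv_mul_cancel]
      rfl
    rw [h2]
    exact hb
  root_mem := by
    intro f hf y hy
    obtain ⟨b, hb⟩ := Fermat.Agent.S55.Bridge.mem_range_padicEmbedding_of_root p f hf y hy
    refine ⟨g b, ?_⟩
    show padicEmbedding p (g⁻¹ (g b)) = y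
    have h2 : g⁻¹ (g b) = b := by
      show (g⁻¹ * g) b = b
      rw [inv_mul_cancel]
      rfl
    rw [h2]
    exact hb

/-- **Every place over `p` has a local model.** -/
theorem exists_localModel {P : ValuationSubring QbL} (hP : P.LiesOverPrime p) :
    Nonempty (LocalModel p P) := by
  have hp : p.Prime := Fact.out
  have h0 : (padicPlace p).LiesOverPrime p :=
    Fermat.Agent.S55.BLocal.primeLocalPlace_liesOver ⟨p, hp⟩
  obtain ⟨g, hg⟩ := Fermat.Agent.Lib.Cheb.H476.exists_smul_eq hp h0 hP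
  rw [← hg]
  exact ⟨conjLocalModel p g⟩

end Exists

end Fermat.Agent.S56.H914

end

end
-- ===== PACK-END S56/H914/BRLocal.lean

-- ===== PACK-BEGIN S56/H334/RamQuotFormula.lean
section


/-!
# S56 / W-FLAT-SS, piece FL-RAM (helper334), part 9: the quotient formula

Setting of `RamQuot` (`A ⊆ B` DVRs, `Γ` finite Galois group, `N ⊴ Γ`, finite residue fields).

* `dvd_prod_sub_smul`, `prod_sub_smul_dvd` : for `B = A[x]`, `B^N = A[y]` and `σ ∈ Γ`, the
  elements `σ y - y` and `∏_{h ∈ N} (x - σ h x)` of `B` divide each other.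
* `quot_formula` (Serre, Local Fields IV §1 Prop. 3): for `N ≤ Γ₀` and `σ ∉ N`,
  `∑_{w ∈ N} i_Γ(σ w) = |N| · i_{Γ/N}(σ N)`.
-/

set_option autoImplicit false
set_option linter.unusedSectionVars false
set_option linter.style.haveILetI false

open IsLocalRing Polynomial

namespace Fermat.Agent.S56.H334

section Core

variable (A B Γ : Type*) [CommRing A] [CommRing B] [IsDomain B] [Algebra A B]
  [Group Γ] [MulSemiringAction Γ B] [SMulCommClass Γ A B] (N : Subgroup Γ) [Fintype N]

/-- Twisted evaluation: apply `σ` to the coefficients, then evaluate at `x`. -/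
noncomputable def twistEval (σ : Γ) (x : B) : B[X] →+* B :=
  eval₂RingHom (MulSemiringAction.toRingHom Γ B σ) x

theorem twistEval_X_sub_C (σ : Γ) (x b : B) : twistEval B Γ σ x (X - C b) = x - σ • b := by
  simp [twistEval]

theorem twistEval_charpoly (σ : Γ) (x : B) :
    twistEval B Γ σ x (MulSemiringAction.charpoly N x) = ∏ h : N, (x - (σ * (h : Γ)) • x) := by
  rw [MulSemiringAction.charpoly_eq, map_prod]
  refine Finset.prod_congr rfl fun h _ => ?_
  rw [twistEval_X_sub_C, mul_smul]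
  rfl

theorem twistEval_map_algebraMap (σ : Γ) (x : B) (g : A[X]) :
    twistEval B Γ σ x (g.map (algebraMap A B)) = aeval x g := by
  rw [twistEval, coe_eval₂RingHom, eval₂_map, aeval_def]
  congr 1
  ext a
  simp [smul_algebraMap]

/-- `σ y - y ∣ ∏_{h ∈ N} (x - σ h x)` if `y` generates `B^N` over `A`. -/
theorem dvd_prod_sub_smul [N.Normal] (σ : Γ) (x : B) {y : FixedPoints.subalgebra A B N}
    (hy : Algebra.adjoin A {y} = ⊤) :
    σ • (y : B) - y ∣ ∏ h : N, (x - (σ * (h : Γ)) • x) := by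
  rw [← twistEval_charpoly]
  set f := MulSemiringAction.charpoly N x with hf
  have h0 : eval x f = 0 := MulSemiringAction.eval_charpoly N x
  have h1 : twistEval B Γ σ x f = twistEval B Γ σ x f - eval x f := by rw [h0, sub_zero]
  rw [h1, twistEval, coe_eval₂RingHom, eval₂_eq_sum_range, eval_eq_sum_range,
    ← Finset.sum_sub_distrib]
  refine Finset.dvd_sum fun i _ => ?_
  rw [← sub_mul]
  apply Dvd.dvd.mul_right
  -- the coefficient is fixed by `N`
  have hfix : ∀ h : N, h • f.coeff i = f.coeff i :=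
    fun h => MulSemiringAction.smul_coeff_charpoly x i h
  set c : FixedPoints.subalgebra A B N := ⟨f.coeff i, hfix⟩ with hc
  have hcmem : c ∈ Algebra.adjoin A {y} := by rw [hy]; exact Algebra.mem_top
  have h2 := sub_dvd_smul_sub_of_mem_adjoin (A := A) (σ : Γ ⧸ N) y hcmem
  obtain ⟨d, hd⟩ := h2
  refine ⟨(d : B), ?_⟩
  have h3 := congrArg Subtype.val hd
  exact h3

variable [IsDomain A] [IsDiscreteValuationRing A] [IsDiscreteValuationRing B]
  [Module.Finite A B] [FaithfulSMul A B] [Finite Γ] [Algebra.IsInvariant A B Γ] [FaithfulSMul Γ B]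

theorem adjoin_fixedPoints_eq_top {x : B} (hx : Algebra.adjoin A {x} = ⊤) :
    Algebra.adjoin (FixedPoints.subalgebra A B N) {x} = ⊤ := by
  rw [eq_top_iff]
  intro b _
  have hb : b ∈ Algebra.adjoin A {x} := by rw [hx]; exact Algebra.mem_top
  have hle : Algebra.adjoin A {x} ≤
      (Algebra.adjoin (FixedPoints.subalgebra A B N) {x}).restrictScalars A :=
    Algebra.adjoin_le (by
      intro z hz
      exact Algebra.subset_adjoin hz)
  exact hle hb

/-- `∏_{h ∈ N} (x - σ h x) ∣ σ y - y` if `x` generates `B` over `A`. -/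
theorem prod_sub_smul_dvd (σ : Γ) {x : B} (hx : Algebra.adjoin A {x} = ⊤)
    (y : FixedPoints.subalgebra A B N) :
    ∏ h : N, (x - (σ * (h : Γ)) • x) ∣ σ • (y : B) - y := by
  haveI := isDiscreteValuationRing_fixedPoints A B N
  haveI := finite_over_fixedPoints A B N
  haveI := isGaloisGroup_of_datum A B Γ
  rw [← twistEval_charpoly, ← dvd_neg, neg_sub]
  -- `y = g(x)`
  have hymem : (y : B) ∈ Algebra.adjoin A {x} := by rw [hx]; exact Algebra.mem_top
  rw [Algebra.adjoin_singleton_eq_range_aeval] at hymem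
  obtain ⟨g, hg⟩ := hymem
  have hg' : aeval x g = (y : B) := hg
  set G : (FixedPoints.subalgebra A B N)[X] :=
    g.map (algebraMap A (FixedPoints.subalgebra A B N)) - C y with hG
  have hroot : aeval x G = 0 := by
    rw [hG, map_sub, aeval_map_algebraMap, aeval_C, hg']
    exact sub_self _
  have hint : IsIntegral (FixedPoints.subalgebra A B N) x := Algebra.IsIntegral.isIntegral x
  obtain ⟨q, hq⟩ := minpoly.isIntegrallyClosed_dvd hint hroot
  have hmap := congrArg (Polynomial.map (algebraMap (FixedPoints.subalgebra A B N) B)) hq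
  rw [Polynomial.map_mul,
    minpoly_map_eq_charpoly (FixedPoints.subalgebra A B N) B N
      (adjoin_fixedPoints_eq_top A B Γ N hx)] at hmap
  have h2 := congrArg (twistEval B Γ σ x) hmap
  rw [map_mul] at h2
  have h3 : twistEval B Γ σ x (G.map (algebraMap (FixedPoints.subalgebra A B N) B)) =
      (y : B) - σ • (y : B) := by
    rw [hG, Polynomial.map_sub, Polynomial.map_map, ← IsScalarTower.algebraMap_eq, map_sub,
      twistEval_map_algebraMap, hg', Polynomial.map_C]
    simp [twistEval]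
  rw [h3] at h2
  exact ⟨_, h2⟩

end Core

section Formula

variable (A B Γ : Type*) [CommRing A] [IsDomain A] [IsDiscreteValuationRing A]
  [CommRing B] [IsDomain B] [IsDiscreteValuationRing B] [Algebra A B] [Module.Finite A B]
  [FaithfulSMul A B] [Group Γ] [Finite Γ] [MulSemiringAction Γ B] [SMulCommClass Γ A B]
  [Algebra.IsInvariant A B Γ] [FaithfulSMul Γ B]
  (N : Subgroup Γ) [N.Normal] [Finite (ResidueField A)]

omit [IsDomain A] [IsDiscreteValuationRing A] [IsDiscreteValuationRing B] [Module.Finite A B]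
  [FaithfulSMul A B] [Finite Γ] [Algebra.IsInvariant A B Γ] [FaithfulSMul Γ B] [N.Normal]
  [Finite (ResidueField A)] in
theorem isLocalHom_fixedPoints : IsLocalHom (algebraMap (FixedPoints.subalgebra A B N) B) :=
  ⟨fun a ha => (fixedPoints_isUnit_iff A B N a).2 ha⟩

omit [N.Normal] in
/-- The inertia group of `N` acting on `B` is all of `N` if `N ≤ Γ₀`. -/
theorem ramGroup_zero_subgroup_eq_top (hN : N ≤ ramGroup Γ B 0) : ramGroup N B 0 = ⊤ := by
  rw [eq_top_iff]
  intro h _ x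
  exact hN h.2 x

omit [N.Normal] in
/-- `e(B/B^N) = |N|` if `N ≤ Γ₀`. -/
theorem map_maximalIdeal_fixedPoints (hN : N ≤ ramGroup Γ B 0) :
    haveI := isDiscreteValuationRing_fixedPoints A B N
    Ideal.map (algebraMap (FixedPoints.subalgebra A B N) B)
      (maximalIdeal (FixedPoints.subalgebra A B N)) = maximalIdeal B ^ Nat.card N := by
  haveI := isDiscreteValuationRing_fixedPoints A B N
  haveI := isLocalHom_fixedPoints A B Γ N
  haveI := finite_over_fixedPoints A B N
  haveI := finite_fixedPoints A B N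
  haveI := finite_residueField_of_finite A (FixedPoints.subalgebra A B N)
  haveI := isGaloisGroup_of_datum A B Γ
  obtain ⟨e, -, he⟩ := exists_map_maximalIdeal_eq_pow (FixedPoints.subalgebra A B N) B
  have hcard := card_ramGroup_zero_eq (Γ := N) he
  rw [ramGroup_zero_subgroup_eq_top B Γ N hN, Subgroup.card_top] at hcard
  rw [he, hcard]

/-- **Quotient formula** (Serre, Local Fields IV §1 Prop. 3), `Fintype` form. -/
theorem quot_formula_sum [Fintype N] (hN : N ≤ ramGroup Γ B 0) {σ : Γ} (hσ : σ ∉ N) :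
    ∑ h : N, lowIdx Γ B (σ * (h : Γ)) = Nat.card N * quotLowIdx A B Γ N σ := by
  haveI := isDiscreteValuationRing_fixedPoints A B N
  haveI := isLocalHom_fixedPoints A B Γ N
  haveI := finite_fixedPoints A B N
  haveI := faithfulSMul_quotient A B Γ N
  obtain ⟨x, hx⟩ := exists_adjoin_eq_top_of_finite A B
  obtain ⟨y, hy⟩ := exists_adjoin_eq_top_of_finite A (FixedPoints.subalgebra A B N)
  have he := map_maximalIdeal_fixedPoints A B Γ N hN
  have hne : (σ : Γ ⧸ N) ≠ 1 := fun h => hσ ((QuotientGroup.eq_one_iff σ).1 h)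
  -- left-hand side
  have h1 : Ideal.span {(σ : Γ ⧸ N) • y - y} =
      maximalIdeal (FixedPoints.subalgebra A B N) ^ quotLowIdx A B Γ N σ :=
    span_smul_sub_eq (A := A) hy hne
  have h2 := map_span_eq_pow_of_span_eq he h1
  have h3 : algebraMap (FixedPoints.subalgebra A B N) B ((σ : Γ ⧸ N) • y - y) =
      σ • (y : B) - y := rfl
  rw [h3] at h2
  -- right-hand side
  have h4 : Ideal.span {∏ h : N, (x - (σ * (h : Γ)) • x)} =
      maximalIdeal B ^ ∑ h : N, lowIdx Γ B (σ * (h : Γ)) := by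
    rw [← Ideal.prod_span_singleton, ← Finset.prod_pow_eq_pow_sum]
    refine Finset.prod_congr rfl fun h _ => ?_
    have hne' : σ * (h : Γ) ≠ 1 := by
      intro h1
      apply hσ
      have : σ = (h : Γ)⁻¹ := eq_inv_of_mul_eq_one_left h1
      rw [this]
      exact N.inv_mem h.2
    rw [← span_smul_sub_eq (A := A) hx hne', ← neg_sub, Ideal.span_singleton_neg]
  have h5 : Ideal.span {σ • (y : B) - y} = Ideal.span {∏ h : N, (x - (σ * (h : Γ)) • x)} :=
    Ideal.span_singleton_eq_span_singleton.2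
      (associated_of_dvd_dvd (dvd_prod_sub_smul A B Γ N σ x hy)
        (prod_sub_smul_dvd A B Γ N σ hx y))
  rw [h2, h4] at h5
  exact (maximalIdeal_pow_injective h5).symm

/-- **Quotient formula** (Serre, Local Fields IV §1 Prop. 3): for `N ⊴ Γ`, `N ≤ Γ₀`, `σ ∉ N`:
`∑_{w ∈ N} i_Γ(σ w) = |N| · i_{Γ/N}(σ N)`. -/
theorem quot_formula (hN : N ≤ ramGroup Γ B 0) {σ : Γ} (hσ : σ ∉ N) :
    ∑ᶠ (w : Γ) (_ : w ∈ N), lowIdx Γ B (σ * w) = Nat.card N * quotLowIdx A B Γ N σ := by
  cases nonempty_fintype N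
  rw [← quot_formula_sum A B Γ N hN hσ, ← finsum_eq_sum_of_fintype]
  exact (finsum_set_coe_eq_finsum_mem (N : Set Γ) (f := fun w => lowIdx Γ B (σ * w))).symm

end Formula

end Fermat.Agent.S56.H334

end
-- ===== PACK-END S56/H334/RamQuotFormula.lean

-- ===== PACK-BEGIN S56/H536/CycExp.lean
section




/-!
# S56 / TWP (helper536), part 1: cyclotomic exponents

Elementary facts about `IsCycExp p σ a` (`σ μ = μ ^ a` on `μ_p`):

* `exists_isCycExp` : every `σ` has an exponent;
* `isCycExp_not_dvd`, `isCycExp_natCast_ne_zero` : exponents are prime to `p`, hence invertible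
  in a field of characteristic `p`;
* `frobenius_apply_root` : a Frobenius element over `q ≠ p` raises `p^m`-th roots of unity to
  the `q`-th power;
* `pow_dvd_sub_one_of_frobenius_fixes` : if it fixes them, then `p ^ m ∣ q - 1`;
* `isCycExp_one_conj` : conjugates of elements fixing `μ_p` fix `μ_p`.
-/

set_option autoImplicit false
set_option linter.style.haveILetI false

open Polynomial IsLocalRing

noncomputable section

namespace Fermat.Agent.S56.H536

open Fermat.Agent.S56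

/-- The trivial element has cyclotomic exponent `1`. -/
theorem isCycExp_one_one (p : ℕ) : IsCycExp p (1 : GQ) 1 := by
  intro μ _
  rw [pow_one]
  rfl

/-- `σ` fixes the `p`-th roots of unity iff `1` is a cyclotomic exponent. -/
theorem isCycExp_one_of_fixes (p : ℕ) (σ : GQ) (h : ∀ μ : Qb, μ ^ p = 1 → σ μ = μ) :
    IsCycExp p σ 1 := by
  intro μ hμ
  rw [pow_one]
  exact h μ hμ

/-- Every element of `Gal(ℚ̄/ℚ)` has a cyclotomic exponent. -/
theorem exists_isCycExp (p : ℕ) (hp : p.Prime) (σ : GQ) : ∃ a : ℕ, IsCycExp p σ a := by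
  haveI : NeZero p := ⟨hp.ne_zero⟩
  have hζ := Fermat.Agent.S55.H414.zetaBar_spec p
  have h1 : (σ (Fermat.Agent.S55.H414.zetaBar p)) ^ p = 1 := by
    rw [← map_pow, hζ.pow_eq_one, map_one]
  obtain ⟨a, -, ha⟩ := hζ.eq_pow_of_pow_eq_one h1
  refine ⟨a, fun μ hμ => ?_⟩
  obtain ⟨i, -, hi⟩ := hζ.eq_pow_of_pow_eq_one hμ
  rw [← hi, map_pow, ← ha, ← pow_mul, ← pow_mul, mul_comm]

/-- A cyclotomic exponent is prime to `p`. -/
theorem isCycExp_not_dvd (p : ℕ) (hp : p.Prime) {σ : GQ} {a : ℕ} (h : IsCycExp p σ a) :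
    ¬ p ∣ a := by
  haveI : NeZero p := ⟨hp.ne_zero⟩
  have hζ := Fermat.Agent.S55.H414.zetaBar_spec p
  rintro ⟨b, rfl⟩
  have h1 := h _ hζ.pow_eq_one
  rw [pow_mul, hζ.pow_eq_one, one_pow] at h1
  have h2 : Fermat.Agent.S55.H414.zetaBar p = 1 :=
    σ.injective (h1.trans (map_one σ).symm)
  exact hζ.ne_one hp.one_lt h2

/-- A cyclotomic exponent is nonzero in a field of characteristic `p`. -/
theorem isCycExp_natCast_ne_zero (p : ℕ) (hp : p.Prime) {k : Type*} [Field k] [CharP k p]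
    {σ : GQ} {a : ℕ} (h : IsCycExp p σ a) : (a : k) ≠ 0 := by
  rw [Ne, CharP.cast_eq_zero_iff k p]
  exact isCycExp_not_dvd p hp h

/-- A Frobenius element over `q ≠ p` raises `p^m`-th roots of unity to the `q`-th power. -/
theorem frobenius_apply_root {p q : ℕ} (hp : p.Prime) (hq : q.Prime) (hqp : q ≠ p)
    {A : ValuationSubring Qb} (hA : A.LiesOverPrime q) {φ : GQ} (hφ : A.IsFrobeniusAt φ q)
    (m : ℕ) {μ : Qb} (hμ : μ ^ p ^ m = 1) : φ μ = μ ^ q := by
  have hv : A.valuation (p : Qb) = 1 := Fermat.Agent.S55.Bridge.val_prime_eq_one hA hq hp hqp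
  have hv' : A.valuation ((p ^ m : ℕ) : Qb) = 1 := by
    rw [Nat.cast_pow, map_pow, hv, one_pow]
  exact Fermat.Agent.S55.H414.IsFrobeniusAt_apply_root hφ (pow_ne_zero m hp.ne_zero) hv' hμ

/-- If a Frobenius element over `q ≠ p` fixes the `p^m`-th roots of unity then
`q ≡ 1 mod p^m`. -/
theorem pow_dvd_sub_one_of_frobenius_fixes {p q : ℕ} (hp : p.Prime) (hq : q.Prime)
    (hqp : q ≠ p) {A : ValuationSubring Qb} (hA : A.LiesOverPrime q) {φ : GQ}
    (hφ : A.IsFrobeniusAt φ q) (m : ℕ) (hfix : ∀ μ : Qb, μ ^ p ^ m = 1 → φ μ = μ) :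
    p ^ m ∣ q - 1 := by
  haveI : NeZero (p ^ m) := ⟨pow_ne_zero m hp.ne_zero⟩
  have hζ := Fermat.Agent.S55.H414.zetaBar_spec (p ^ m)
  have h1 := frobenius_apply_root hp hq hqp hA hφ m hζ.pow_eq_one
  rw [hfix _ hζ.pow_eq_one] at h1
  apply hζ.dvd_of_pow_eq_one
  have hq1 : q = (q - 1) + 1 := (Nat.sub_add_cancel hq.one_lt.le).symm
  have hne : Fermat.Agent.S55.H414.zetaBar (p ^ m) ≠ 0 := hζ.ne_zero (NeZero.ne _)
  have h2 : Fermat.Agent.S55.H414.zetaBar (p ^ m) ^ (q - 1) *
      Fermat.Agent.S55.H414.zetaBar (p ^ m) = 1 * Fermat.Agent.S55.H414.zetaBar (p ^ m) := by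
    rw [← pow_succ, ← hq1, one_mul]
    exact h1.symm
  exact mul_right_cancel₀ hne h2

/-- Powers of an element fixing `x` fix `x`. -/
theorem pow_apply_eq_of_apply_eq (σ : GQ) {x : Qb} (h : σ x = x) (j : ℕ) : (σ ^ j) x = x := by
  induction j with
  | zero => rfl
  | succ j ih => rw [pow_succ, AlgEquiv.mul_apply, h, ih]

/-- A `p`-th root of unity is a `p^(n+1)`-th root of unity. -/
theorem pow_pow_succ_eq_one_of_pow_eq_one {p : ℕ} (n : ℕ) {μ : Qb} (hμ : μ ^ p = 1) :
    μ ^ p ^ (n + 1) = 1 := by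
  rw [pow_succ', pow_mul, hμ, one_pow]

/-- Conjugates of elements fixing `μ_p` fix `μ_p`. -/
theorem isCycExp_one_conj (p : ℕ) {τ : GQ} (hτ : IsCycExp p τ 1) (g : GQ) :
    IsCycExp p (g * τ * g⁻¹) 1 := by
  intro μ hμ
  rw [pow_one]
  have h1 : (g⁻¹ μ) ^ p = 1 := by rw [← map_pow, hμ, map_one]
  have h2 := hτ _ h1
  rw [pow_one] at h2
  show g (τ (g⁻¹ μ)) = μ
  rw [h2]
  exact g.apply_symm_apply μ

/-- Every `N`-th root of unity lies in `ℚ(ζ_N)`. -/
theorem mem_cycloLevel_of_pow_eq_one (N : ℕ) [NeZero N] {μ : Qb} (hμ : μ ^ N = 1) :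
    μ ∈ Fermat.Agent.S55.H414.cycloLevel N := by
  obtain ⟨i, -, hi⟩ := (Fermat.Agent.S55.H414.zetaBar_spec N).eq_pow_of_pow_eq_one hμ
  rw [← hi]
  exact pow_mem (Fermat.Agent.S55.H414.zetaBar_mem_cycloLevel N) i

/-- The residue field of `𝒪` has characteristic `p` when `p ∈ 𝔪`. -/
theorem charP_residueField (𝒪 : Type) [CommRing 𝒪] [IsLocalRing 𝒪] (p : ℕ) (hp : p.Prime)
    (hp𝒪 : (p : 𝒪) ∈ maximalIdeal 𝒪) : CharP (ResidueField 𝒪) p := by
  have h0 : (p : ResidueField 𝒪) = 0 := by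
    have := (IsLocalRing.residue_eq_zero_iff (p : 𝒪)).mpr hp𝒪
    rwa [map_natCast] at this
  exact (CharP.charP_iff_prime_eq_zero hp).mpr h0

end Fermat.Agent.S56.H536
end
end
-- ===== PACK-END S56/H536/CycExp.lean

-- ===== PACK-BEGIN S55/G/Rec/Final.lean
section


/-!
# S55 / layer G / block REC : final assembly (leaf FIN)

`reciprocity_of : TrivAbovePSpec I p → KillAbovePSpec I p → SupportFiniteSpec → ReciprocitySpec I p`.
-/

set_option autoImplicit false

noncomputable section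

namespace Fermat.Agent.S55.G.Rec

open groupCohomology

local notation "Qb" => AlgebraicClosure ℚ
local notation "GQ" => (AlgebraicClosure ℚ ≃ₐ[ℚ] AlgebraicClosure ℚ)

lemma LocalInvSystem.invAt_add (I : LocalInvSystem) (q : Nat.Primes) (g : GQ) (U : Subgroup GQ)
    (x y : gBr U) : I.invAt q g U (x + y) = I.invAt q g U x + I.invAt q g U y := by
  unfold LocalInvSystem.invAt
  rw [map_add, map_add]

lemma LocalInvSystem.invAt_eq_zero (I : LocalInvSystem) (q : Nat.Primes) (g : GQ)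
    (U : Subgroup GQ) (x : gBr U)
    (h : haveI : Fact (q : ℕ).Prime := ⟨q.2⟩; locBr (q : ℕ) g U x = 0) :
    I.invAt q g U x = 0 := by
  unfold LocalInvSystem.invAt
  rw [h, map_zero]

/-- The local sums have finite support. -/
lemma LocalInvSystem.support_finite (I : LocalInvSystem) (hS : SupportFiniteSpec)
    (U : Subgroup GQ) (hU : IsOpenQ U) (R : Nat.Primes → Finset GQ) (x : gBr U) :
    (Function.support fun q : Nat.Primes => ∑ r ∈ R q, I.invAt q r U x).Finite := by
  refine (hS I U hU x).subset ?_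
  intro q hq
  rw [Function.mem_support] at hq
  by_contra hcon
  apply hq
  apply Finset.sum_eq_zero
  intro r _
  apply I.invAt_eq_zero
  by_contra h0
  exact hcon ⟨r, h0⟩

lemma LocalInvSystem.sumInv_add (I : LocalInvSystem) (hS : SupportFiniteSpec)
    (U : Subgroup GQ) (hU : IsOpenQ U) (R : Nat.Primes → Finset GQ) (x y : gBr U) :
    I.sumInv U R (x + y) = I.sumInv U R x + I.sumInv U R y := by
  unfold LocalInvSystem.sumInv
  rw [← finsum_add_distrib (I.support_finite hS U hU R x) (I.support_finite hS U hU R y)]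
  congr 1
  funext q
  rw [← Finset.sum_add_distrib]
  exact Finset.sum_congr rfl fun r _ => I.invAt_add q r U x y

/-- **FIN**: the reciprocity law from STEP B, STEP C and finiteness of supports. -/
theorem reciprocity_of (I : LocalInvSystem) (p : ℕ) [Fact p.Prime]
    (hB : TrivAbovePSpec I p) (hC : KillAbovePSpec I p) (hS : SupportFiniteSpec) :
    ReciprocitySpec I p := by
  intro U hU x hx R hR
  refine ⟨I.support_finite hS U hU R x, ?_⟩
  obtain ⟨y, hy, hloc, hsum⟩ := hC U hU x hx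
  have hR' : IsPlaceReps U R := hR
  have hxy : ∃ k : ℕ, p ^ k • (x - y) = 0 := by
    obtain ⟨k, hk⟩ := hx
    obtain ⟨k', hk'⟩ := hy
    refine ⟨k + k', ?_⟩
    have e1 : p ^ (k + k') • x = p ^ k' • (p ^ k • x) := by
      rw [← mul_smul, pow_add, mul_comm]
    have e2 : p ^ (k + k') • y = p ^ k • (p ^ k' • y) := by
      rw [← mul_smul, pow_add]
    rw [smul_sub, e1, e2, hk, hk', smul_zero, smul_zero, sub_zero]
  have h1 : I.sumInv U R (x - y) = 0 := hB U hU (x - y) hxy hloc R hR'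
  have h2 : I.sumInv U R y = 0 := hsum R hR'
  have h3 : I.sumInv U R x = I.sumInv U R (x - y) + I.sumInv U R y := by
    rw [← I.sumInv_add hS U hU R, sub_add_cancel]
  show I.sumInv U R x = 0
  rw [h3, h1, h2, add_zero]

end Fermat.Agent.S55.G.Rec

end
end
-- ===== PACK-END S55/G/Rec/Final.lean

-- ===== PACK-BEGIN S55/G/Rec/StepACycH511.lean
section



/-!
# S55 / layer G / block REC / STEP A : toolkit (helper511)

* `H511.cyc m : G_ℚ →* (ℤ/m)ˣ` : the cyclotomic character mod `m`, with `cyc_spec`, `cyc_coe_eq_of_acts`,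
  `cyc_eq_one_iff`;
* `H511.loc_acts_of_acts` : local action on `μ_m(ℚ̄_q)` ⟹ global action of `localGaloisToGlobal τ`;
* `H511.isOpenL_locSub` : `locSub q g U` is open if `U` is;
* `H511.index_ne_zero_of_isOpenL` : open subgroups of `G_{ℚ_q}` have finite index.
-/

set_option autoImplicit false
set_option linter.style.haveILetI false

noncomputable section

namespace Fermat.Agent.S55.G.Rec.H511

open Fermat.Agent.S55.G.Rec

local notation "Qb" => AlgebraicClosure ℚ
local notation "GQ" => (AlgebraicClosure ℚ ≃ₐ[ℚ] AlgebraicClosure ℚ)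

/-! ## The cyclotomic character mod `m` -/

section Cyc

variable (m : ℕ) [NeZero m]

lemma exists_primitiveRoot_Qb : ∃ μ : Qb, IsPrimitiveRoot μ m :=
  HasEnoughRootsOfUnity.exists_primitiveRoot Qb m

/-- A chosen primitive `m`-th root of unity in `ℚ̄`. -/
def muQb : Qb := (exists_primitiveRoot_Qb m).choose

lemma muQb_spec : IsPrimitiveRoot (muQb m) m := (exists_primitiveRoot_Qb m).choose_spec

/-- The cyclotomic character mod `m`. -/
def cyc : GQ →* (ZMod m)ˣ := (muQb_spec m).autToPow ℚ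

lemma cyc_spec (σ : GQ) {ζ : Qb} (hζ : ζ ^ m = 1) :
    σ ζ = ζ ^ ((cyc m σ : (ZMod m)ˣ) : ZMod m).val := by
  obtain ⟨i, -, rfl⟩ := (muQb_spec m).eq_pow_of_pow_eq_one hζ
  have h : muQb m ^ ((cyc m σ : (ZMod m)ˣ) : ZMod m).val = σ (muQb m) :=
    (muQb_spec m).autToPow_spec ℚ σ
  rw [map_pow, ← h, ← pow_mul, ← pow_mul, mul_comm]

lemma cyc_coe_eq_of_acts (σ : GQ) (N : ℕ) (h : ∀ ζ : Qb, ζ ^ m = 1 → σ ζ = ζ ^ N) :
    ((cyc m σ : (ZMod m)ˣ) : ZMod m) = (N : ZMod m) := by
  have h1 := cyc_spec m σ (muQb_spec m).pow_eq_one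
  rw [h _ (muQb_spec m).pow_eq_one] at h1
  have hfin : IsOfFinOrder (muQb m) :=
    isOfFinOrder_iff_pow_eq_one.mpr ⟨m, Nat.pos_of_ne_zero (NeZero.ne m), (muQb_spec m).pow_eq_one⟩
  have h2 := hfin.pow_eq_pow_iff_modEq.mp h1
  rw [← (muQb_spec m).eq_orderOf] at h2
  have h3 := (ZMod.natCast_eq_natCast_iff _ _ _).mpr h2
  rw [h3, ZMod.natCast_val, ZMod.cast_id', id]

lemma cyc_eq_one_of_fixes (σ : GQ) (h : ∀ ζ : Qb, ζ ^ m = 1 → σ ζ = ζ) : cyc m σ = 1 := by
  apply Units.ext
  rw [cyc_coe_eq_of_acts m σ 1 (fun ζ hζ => by rw [h ζ hζ, pow_one])]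
  simp

lemma fixes_of_cyc_eq_one (σ : GQ) (h : cyc m σ = 1) {ζ : Qb} (hζ : ζ ^ m = 1) : σ ζ = ζ := by
  rw [cyc_spec m σ hζ, h, Units.val_one]
  by_cases hm : m = 1
  · subst hm
    rw [pow_one] at hζ
    rw [hζ, one_pow]
  · haveI : Fact (1 < m) := ⟨lt_of_le_of_ne (Nat.pos_of_ne_zero (NeZero.ne m)) (Ne.symm hm)⟩
    rw [ZMod.val_one, pow_one]

lemma cyc_conj (g x : GQ) : cyc m (g * x * g⁻¹) = cyc m x := by
  rw [map_mul, map_mul, map_inv, mul_comm, inv_mul_cancel_left]

end Cyc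

/-! ## From local to global roots of unity -/

section LocGlob

variable (q : ℕ) [Fact q.Prime]

local notation "Gq" => (PadicAlgCl q ≃ₐ[ℚ_[q]] PadicAlgCl q)

lemma padicEmbedding_injective : Function.Injective (padicEmbedding q) :=
  (padicEmbedding q).toRingHom.injective

/-- If `τ` acts on the local `m`-th roots of unity by `ζ ↦ ζ ^ N`, then so does its global
image on the global ones. -/
lemma loc_acts_of_acts (m N : ℕ) (τ : Gq)
    (h : ∀ ζ : PadicAlgCl q, ζ ^ m = 1 → τ ζ = ζ ^ N) (ζ : Qb) (hζ : ζ ^ m = 1) :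
    localGaloisToGlobal q τ ζ = ζ ^ N := by
  apply padicEmbedding_injective q
  rw [padicEmbedding_localGaloisToGlobal, map_pow]
  exact h _ (by rw [← map_pow, hζ, map_one])

lemma cyc_loc_coe (m : ℕ) [NeZero m] (N : ℕ) (τ : Gq)
    (h : ∀ ζ : PadicAlgCl q, ζ ^ m = 1 → τ ζ = ζ ^ N) :
    ((cyc m (localGaloisToGlobal q τ) : (ZMod m)ˣ) : ZMod m) = (N : ZMod m) :=
  cyc_coe_eq_of_acts m _ N (loc_acts_of_acts q m N τ h)

lemma cyc_loc_eq_one (m : ℕ) [NeZero m] (τ : Gq)
    (h : ∀ ζ : PadicAlgCl q, ζ ^ m = 1 → τ ζ = ζ) :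
    cyc m (localGaloisToGlobal q τ) = 1 := by
  apply cyc_eq_one_of_fixes
  intro ζ hζ
  have := loc_acts_of_acts q m 1 τ (fun ζ hζ => by rw [h ζ hζ, pow_one]) ζ hζ
  rwa [pow_one] at this

/-! ## Openness -/

lemma isOpenL_locSub (g : GQ) (U : Subgroup GQ) (hU : IsOpenQ U) : IsOpenL q (locSub q g U) := by
  classical
  obtain ⟨F, hF, hFU⟩ := hU
  haveI := hF
  set F' : IntermediateField ℚ Qb := F.map (g⁻¹ : GQ).toAlgHom with hF'
  haveI : FiniteDimensional ℚ F' := finiteDimensional_map_inv F g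
  let b := Module.finBasis ℚ F'
  let s : Finset (PadicAlgCl q) := Finset.univ.image fun i => padicEmbedding q ((b i : F') : Qb)
  refine ⟨IntermediateField.adjoin ℚ_[q] (s : Set (PadicAlgCl q)), ?_, ?_⟩
  · exact IntermediateField.finiteDimensional_adjoin
      (fun x _ => (Algebra.IsAlgebraic.isAlgebraic x).isIntegral)
  · intro τ hτ
    rw [mem_locSub]
    apply hFU
    rw [← mem_fixingSubgroup_map_inv]
    rw [IntermediateField.mem_fixingSubgroup_iff] at hτ ⊢
    have hb : ∀ i, localGaloisToGlobal q τ ((b i : F') : Qb) = ((b i : F') : Qb) := by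
      intro i
      apply padicEmbedding_injective q
      rw [padicEmbedding_localGaloisToGlobal]
      apply hτ
      apply IntermediateField.subset_adjoin
      exact Finset.mem_coe.mpr (Finset.mem_image.mpr ⟨i, Finset.mem_univ _, rfl⟩)
    intro x hx
    have hx' : (⟨x, hx⟩ : F') = ∑ i, (b.repr ⟨x, hx⟩ i) • b i := (b.sum_repr ⟨x, hx⟩).symm
    have hx'' : x = ∑ i, (b.repr ⟨x, hx⟩ i) • ((b i : F') : Qb) := by
      have h1 := congrArg (fun y : F' => (y : Qb)) hx'
      have h2 : ((∑ i, (b.repr ⟨x, hx⟩ i) • b i : F') : Qb) =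
          ∑ i, (b.repr ⟨x, hx⟩ i) • ((b i : F') : Qb) := by
        rw [IntermediateField.coe_sum]
        rfl
      exact h1.trans h2
    rw [hx'', map_sum]
    refine Finset.sum_congr rfl fun i _ => ?_
    rw [Algebra.smul_def, map_mul, AlgEquiv.commutes, hb i]

lemma index_ne_zero_of_isOpenL (V : Subgroup Gq) (hV : IsOpenL q V) : V.index ≠ 0 := by
  obtain ⟨E, hE, hEV⟩ := hV
  haveI := hE
  have h1 : E.fixingSubgroup.index ≠ 0 := by
    rw [← IntermediateField.finrank_eq_fixingSubgroup_index]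
    exact Module.finrank_pos.ne'
  exact fun h0 => h1 (Nat.eq_zero_of_zero_dvd (h0 ▸ Subgroup.index_dvd_of_le hEV))

lemma finite_quotient_of_isOpenL (V : Subgroup Gq) (hV : IsOpenL q V) : Finite (Gq ⧸ V) :=
  haveI : V.FiniteIndex := ⟨index_ne_zero_of_isOpenL q V hV⟩
  Subgroup.finite_quotient_of_finiteIndex

end LocGlob

end Fermat.Agent.S55.G.Rec.H511

end
end
-- ===== PACK-END S55/G/Rec/StepACycH511.lean

-- ===== PACK-BEGIN S55/G/Rec/OrbitNormH934.lean
section


/-!
# S55 / layer G / block REC : leaf G1 = `OrbitNormSpec`   (helper934)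

`theorem Fermat.Agent.S55.G.Rec.H934.orbitNorm : OrbitNormSpec`

For `U ≤ G_ℚ` open and `a ∈ Kˣ`, `K = ℚ̄^U`:
* `N_{K/ℚ}(a) = relNorm U a` is rational;
* `ι_q (N_{K/ℚ} a) = ∏_{r ∈ R} N_{K_r/ℚ_q}(ι_q (r⁻¹ a))` for every system `R` of representatives of
  the double cosets `U \ G_ℚ / D_q`.

Proof: pure orbit combinatorics.  The map
`(r, τ V_r) ↦ loc(τ) r⁻¹ U`,  `Σ_{r ∈ R} G_q / V_r → G_ℚ / U`  (`V_r = locSub q r U`) is a bijection.
-/

set_option autoImplicit false

noncomputable section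

namespace Fermat.Agent.S55.G.Rec.H934

open Fermat.Agent.S55.G.Rec

local notation "Qb" => AlgebraicClosure ℚ
local notation "GQ" => (AlgebraicClosure ℚ ≃ₐ[ℚ] AlgebraicClosure ℚ)

/-! ## Generic facts on `relNorm` -/

section Generic

variable {G M : Type*} [Group G] [CommGroup M] [MulDistribMulAction G M]

/-- For `b` fixed by `H`, `out (gH) • b = g • b`. -/
lemma out_smul_of_fixed (H : Subgroup G) {b : M} (hb : ∀ h ∈ H, h • b = b) (g : G) :
    (Quotient.out (QuotientGroup.mk g : G ⧸ H) : G) • b = g • b := by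
  obtain ⟨h, hh⟩ := QuotientGroup.mk_out_eq_mul H g
  rw [hh, mul_smul, hb h h.2]

/-- `relNorm` as a `Fintype` product. -/
lemma relNorm_eq_prod (H : Subgroup G) [Fintype (G ⧸ H)] (b : M) :
    relNorm H b = ∏ t : G ⧸ H, (Quotient.out t : G) • b := by
  unfold relNorm
  exact finprod_eq_prod_of_fintype _

/-- The norm is invariant under the whole group. -/
lemma smul_relNorm (H : Subgroup G) [Finite (G ⧸ H)] {b : M} (hb : ∀ h ∈ H, h • b = b) (σ : G) :
    σ • relNorm H b = relNorm H b := by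
  classical
  haveI : Fintype (G ⧸ H) := Fintype.ofFinite _
  rw [relNorm_eq_prod, Finset.smul_prod']
  -- reindex by `t ↦ σ • t`
  have hbij : Function.Bijective (fun t : G ⧸ H => σ • t) := MulAction.bijective σ
  rw [← Function.Bijective.prod_comp hbij (fun t : G ⧸ H => (Quotient.out t : G) • b)]
  refine Finset.prod_congr rfl fun t _ => ?_
  rw [← mul_smul]
  have h1 : (σ • t : G ⧸ H) = QuotientGroup.mk (σ * Quotient.out t) := by
    conv_lhs => rw [← QuotientGroup.out_eq' t]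
    rfl
  rw [h1, out_smul_of_fixed H hb]

end Generic

/-! ## Finite index and rationality -/

/-- `ℚ̄/ℚ` is Galois. -/
theorem isGalois_Qb : IsGalois ℚ Qb := by
  haveI : Algebra.IsAlgebraic ℚ Qb := AlgebraicClosure.isAlgebraic ℚ
  haveI : IsAlgClosure ℚ Qb := ⟨inferInstance, inferInstance⟩
  haveI : Normal ℚ Qb := IsAlgClosure.normal ℚ Qb
  exact isGalois_iff.mpr ⟨inferInstance, inferInstance⟩

attribute [local instance] isGalois_Qb

lemma finite_quotient_of_isOpenQ {U : Subgroup GQ} (hU : IsOpenQ U) : Finite (GQ ⧸ U) := by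
  obtain ⟨F, hF, hle⟩ := hU
  have h1 : F.fixingSubgroup.index ≠ 0 := by
    rw [← IntermediateField.finrank_eq_fixingSubgroup_index]
    exact Module.finrank_pos.ne'
  haveI : F.fixingSubgroup.FiniteIndex := ⟨h1⟩
  haveI : U.FiniteIndex := Subgroup.finiteIndex_of_le hle
  exact Subgroup.finite_quotient_of_finiteIndex

lemma relNorm_rational {U : Subgroup GQ} (hU : IsOpenQ U) {a : Qbˣ} (ha : GFixed U a) :
    ∃ y : ℚˣ, ((relNorm U a : Qbˣ) : Qb) = algebraMap ℚ Qb (y : ℚ) := by
  haveI := finite_quotient_of_isOpenQ hU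
  have hfix : ∀ σ : GQ, σ ((relNorm U a : Qbˣ) : Qb) = ((relNorm U a : Qbˣ) : Qb) := by
    intro σ
    have h2 := congrArg (fun x : Qbˣ => (x : Qb)) (smul_relNorm U ha σ)
    exact h2
  obtain ⟨y0, hy0⟩ := (InfiniteGalois.mem_range_algebraMap_iff_fixed _).2 hfix
  have hy0ne : y0 ≠ 0 := by
    rintro rfl
    rw [map_zero] at hy0
    exact (Units.ne_zero _) hy0.symm
  exact ⟨Units.mk0 y0 hy0ne, hy0.symm⟩

/-! ## The orbit decomposition -/

section Orbit

variable (q : ℕ) [Fact q.Prime]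

local notation "Gq" => (PadicAlgCl q ≃ₐ[ℚ_[q]] PadicAlgCl q)

/-- `τ V_r ↦ loc(τ) r⁻¹ U`. -/
def orbMap (U : Subgroup GQ) (r : GQ) : Gq ⧸ locSub q r U → GQ ⧸ U :=
  Quotient.map' (s₁ := QuotientGroup.leftRel (locSub q r U)) (s₂ := QuotientGroup.leftRel U)
    (fun τ => localGaloisToGlobal q τ * r⁻¹) (by
      intro τ τ' h
      rw [QuotientGroup.leftRel_apply] at h ⊢
      have h' : r * localGaloisToGlobal q (τ⁻¹ * τ') * r⁻¹ ∈ U := mem_locSub.1 h
      have e : (localGaloisToGlobal q τ * r⁻¹)⁻¹ * (localGaloisToGlobal q τ' * r⁻¹) =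
          r * localGaloisToGlobal q (τ⁻¹ * τ') * r⁻¹ := by
        simp only [map_mul, map_inv, mul_inv_rev, inv_inv, mul_assoc]
      rw [e]
      exact h')

lemma orbMap_mk (U : Subgroup GQ) (r : GQ) (τ : Gq) :
    orbMap q U r (QuotientGroup.mk τ) = QuotientGroup.mk (localGaloisToGlobal q τ * r⁻¹) := rfl

lemma orbMap_injective (U : Subgroup GQ) (r : GQ) : Function.Injective (orbMap q U r) := by
  intro s s' h
  induction s using QuotientGroup.induction_on with | _ τ => ?_
  induction s' using QuotientGroup.induction_on with | _ τ' => ?_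
  rw [orbMap_mk, orbMap_mk, QuotientGroup.eq] at h
  rw [QuotientGroup.eq]
  apply mem_locSub.2
  have e : (localGaloisToGlobal q τ * r⁻¹)⁻¹ * (localGaloisToGlobal q τ' * r⁻¹) =
      r * localGaloisToGlobal q (τ⁻¹ * τ') * r⁻¹ := by
    simp only [map_mul, map_inv, mul_inv_rev, inv_inv, mul_assoc]
  rw [← e]
  exact h

lemma finite_quotient_locSub {U : Subgroup GQ} (hU : IsOpenQ U) (r : GQ) :
    Finite (Gq ⧸ locSub q r U) := by
  haveI := finite_quotient_of_isOpenQ hU
  exact Finite.of_injective _ (orbMap_injective q U r)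

/-- The total orbit map `Σ_{r ∈ R} G_q / V_r → G_ℚ / U`. -/
def orbSigma (U : Subgroup GQ) (R : Finset GQ) :
    (Σ r : ↥R, Gq ⧸ locSub q (r : GQ) U) → GQ ⧸ U :=
  fun x => orbMap q U (x.1 : GQ) x.2

lemma orbSigma_bijective (U : Subgroup GQ) (R : Finset GQ)
    (hR : IsDoubleCosetReps U (localGaloisToGlobal q).range R) :
    Function.Bijective (orbSigma q U R) := by
  constructor
  · rintro ⟨r, s⟩ ⟨r', s'⟩ h
    induction s using QuotientGroup.induction_on with | _ τ => ?_
    induction s' using QuotientGroup.induction_on with | _ τ' => ?_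
    have h0 : (QuotientGroup.mk (localGaloisToGlobal q τ * (r : GQ)⁻¹) : GQ ⧸ U) =
        QuotientGroup.mk (localGaloisToGlobal q τ' * (r' : GQ)⁻¹) := h
    rw [QuotientGroup.eq] at h0
    -- `u := r loc(τ)⁻¹ loc(τ') r'⁻¹ ∈ U`, so `r = u r' loc(τ'⁻¹ τ)`
    have hrr : (r : GQ) = (r' : GQ) := by
      obtain ⟨r₀, -, huniq⟩ := hR (r : GQ)
      have e1 : (r : GQ) = r₀ :=
        huniq r ⟨r.2, 1, U.one_mem, 1, Subgroup.one_mem _, by simp⟩
      have e2 : (r' : GQ) = r₀ := by
        refine huniq r' ⟨r'.2, _, h0, localGaloisToGlobal q (τ'⁻¹ * τ), ⟨_, rfl⟩, ?_⟩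
        simp only [map_mul, map_inv]
        group
      rw [e1, e2]
    obtain rfl : r = r' := Subtype.ext hrr
    have : (QuotientGroup.mk τ : Gq ⧸ locSub q (r : GQ) U) = QuotientGroup.mk τ' :=
      orbMap_injective q U (r : GQ) h
    rw [this]
  · intro t
    induction t using QuotientGroup.induction_on with | _ g => ?_
    obtain ⟨r, ⟨hrR, u, hu, d, ⟨τ0, rfl⟩, hg⟩, -⟩ := hR g⁻¹
    refine ⟨⟨⟨r, hrR⟩, QuotientGroup.mk τ0⁻¹⟩, ?_⟩
    show (QuotientGroup.mk (localGaloisToGlobal q τ0⁻¹ * r⁻¹) : GQ ⧸ U) = QuotientGroup.mk g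
    rw [QuotientGroup.eq]
    have e : (localGaloisToGlobal q τ0⁻¹ * r⁻¹)⁻¹ * g = u⁻¹ := by
      have hg' : g = (u * r * localGaloisToGlobal q τ0)⁻¹ := by rw [← hg, inv_inv]
      rw [hg']
      simp only [map_inv, mul_inv_rev, inv_inv, mul_assoc, mul_inv_cancel_left]
    rw [e]
    exact U.inv_mem hu

/-- `ι_q ((loc τ · r⁻¹) • a) = τ • ι_q (r⁻¹ • a)`. -/
lemma locPushMul_one_smul (r : GQ) (τ : Gq) (a : Qbˣ) :
    locPushMul q 1 ((localGaloisToGlobal q τ * r⁻¹) • a) = τ • locPushMul q r a := by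
  apply Units.ext
  show padicEmbedding q ((1 : GQ)⁻¹ ((localGaloisToGlobal q τ * r⁻¹) (a : Qb))) =
    τ (padicEmbedding q (r⁻¹ (a : Qb)))
  rw [← padicEmbedding_localGaloisToGlobal]
  rfl

lemma lFixed_locPushMul {U : Subgroup GQ} {a : Qbˣ} (ha : GFixed U a) (r : GQ) :
    LFixed q (locSub q r U) (locPushMul q r a) := by
  intro τ hτ
  have h := mem_locSub.1 hτ
  apply Units.ext
  show τ (padicEmbedding q (r⁻¹ (a : Qb))) = padicEmbedding q (r⁻¹ (a : Qb))
  rw [← padicEmbedding_localGaloisToGlobal]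
  congr 1
  have h2 : ((r * localGaloisToGlobal q τ * r⁻¹) • a : Qbˣ) = a := ha _ h
  have h3 : (r * localGaloisToGlobal q τ * r⁻¹) (a : Qb) = (a : Qb) :=
    congrArg (fun x : Qbˣ => (x : Qb)) h2
  have h4 := congrArg (r⁻¹ : GQ) h3
  simpa [AlgEquiv.mul_apply] using h4

end Orbit

/-- **Leaf G1** of the norm route: the global norm is rational and is the product of the local
norms over the places above `q`. -/
theorem orbitNorm : OrbitNormSpec := by
  intro U hU a ha
  refine ⟨relNorm_rational hU ha, ?_⟩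
  intro q _ R hR
  classical
  haveI := finite_quotient_of_isOpenQ hU
  haveI : Fintype (GQ ⧸ U) := Fintype.ofFinite _
  haveI hfin : ∀ r : GQ, Finite ((PadicAlgCl q ≃ₐ[ℚ_[q]] PadicAlgCl q) ⧸ locSub q r U) :=
    fun r => finite_quotient_locSub q hU r
  haveI : ∀ r : GQ, Fintype ((PadicAlgCl q ≃ₐ[ℚ_[q]] PadicAlgCl q) ⧸ locSub q r U) :=
    fun r => Fintype.ofFinite _
  rw [relNorm_eq_prod, map_prod]
  rw [← Function.Bijective.prod_comp (orbSigma_bijective q U R hR)
    (fun t : GQ ⧸ U => locPushMul q 1 ((Quotient.out t : GQ) • a))]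
  rw [Fintype.prod_sigma, ← Finset.prod_coe_sort R]
  refine Finset.prod_congr rfl fun r _ => ?_
  rw [relNorm_eq_prod]
  refine Finset.prod_congr rfl fun s _ => ?_
  have hs : orbSigma q U R ⟨r, s⟩ =
      QuotientGroup.mk (localGaloisToGlobal q (Quotient.out s) * (r : GQ)⁻¹) := by
    conv_lhs => rw [← QuotientGroup.out_eq' s]
    rfl
  rw [hs, out_smul_of_fixed U ha, locPushMul_one_smul]

end Fermat.Agent.S55.G.Rec.H934

end
end
-- ===== PACK-END S55/G/Rec/OrbitNormH934.lean

-- ===== PACK-BEGIN S55/G/Rec/CupLocH496.lean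
section


/-!
# S55 / layer G / block REC, leaf K1 (helper496): localisation of a global cup class
-/

set_option autoImplicit false

noncomputable section

namespace Fermat.Agent.S55.G.Rec.H496

open groupCohomology Fermat.Agent.S55.G.Rec

local notation "Qb" => AlgebraicClosure ℚ
local notation "GQ" => (AlgebraicClosure ℚ ≃ₐ[ℚ] AlgebraicClosure ℚ)

/-- Localisation preserves fixed elements. -/
theorem lFixed_locPushMul (q : ℕ) [Fact q.Prime] (g : GQ) (U : Subgroup GQ) (a : Qbˣ)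
    (ha : GFixed U a) : LFixed q (locSub q g U) (locPushMul q g a) := by
  intro τ hτ
  have h1 := locPush_equivariant q g U ⟨τ, hτ⟩ (toGMod U a)
  have h2 : (gModOn U).ρ (locHom q g U ⟨τ, hτ⟩) (toGMod U a) = toGMod U a :=
    toGMod_mem_invariants ha _
  rw [h2] at h1
  exact (congrArg Additive.toMul h1).symm

/-- **(K1)** localisation of a global cup class is the local cup class. -/
theorem cupLoc : CupLocSpec := by
  intro q _ g U n χ a hn hχ ha
  have h1 : IsLevelConstant₁ (lHom q (locSub q g U)) (χ.comp (locHom q g U)) :=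
    isLevelConstant₁_loc q g U hχ
  have h2 : LFixed q (locSub q g U) (locPushMul q g a) := lFixed_locPushMul q g U a ha
  refine ⟨⟨h1, h2⟩, ?_⟩
  rw [gcc_eq U n χ a ⟨hn, hχ, ha⟩, lcc_eq q _ n _ _ ⟨hn, h1, h2⟩, locBr_mk]
  congr 1
  apply Subtype.ext
  funext ⟨τ₁, τ₂⟩
  show locPush q g U (H379.carry n _ _ • toGMod U a) = H379.carry n _ _ • _
  rw [map_nsmul]
  rfl

end Fermat.Agent.S55.G.Rec.H496

end
end
-- ===== PACK-END S55/G/Rec/CupLocH496.lean

-- ===== PACK-BEGIN S55/H424/QuotCard.lean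
section


/-!
# LPI (local power index), part 4: `|A ⧸ (n)| = q ^ v(n)` and the classical formulas

* `H424.card_quot_span_mul` : `|A ⧸ (a b)| = |A ⧸ (a)| * |A ⧸ (b)|` for `a` a non-zero-divisor.
* `H424.card_quot_span_pow` : `|A ⧸ (ϖ ^ k)| = |A ⧸ (ϖ)| ^ k`.
* `H424.index_range_pow_units_field_val` : for a complete discrete valuation ring `A` with
  finite residue field `k`, fraction field `K`, and `(n : A) = u * ϖ ^ v`:
  `[Kˣ : (Kˣ)ⁿ] = n * (|μ_n(K)| * |k| ^ v)`.
* `H424.index_range_pow_units_field_of_isUnit` : if `n` is a unit of `A`: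
  `[Kˣ : (Kˣ)ⁿ] = n * |μ_n(K)|`.
-/

set_option autoImplicit false
set_option linter.unusedSectionVars false

namespace Fermat.Agent.S55.H424

section General

variable {A : Type*} [CommRing A]

/-- `|A ⧸ (a b)| = |A ⧸ (a)| * |A ⧸ (b)|` for `a` a non-zero-divisor. -/
theorem card_quot_span_mul (a b : A) (ha : ∀ x : A, a * x = 0 → x = 0) :
    Nat.card (A ⧸ Ideal.span {a * b})
      = Nat.card (A ⧸ Ideal.span {a}) * Nat.card (A ⧸ Ideal.span {b}) := by
  have hinj : Function.Injective (AddMonoidHom.mulLeft a) := by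
    rw [injective_iff_map_eq_zero]
    intro x hx
    exact ha x hx
  have e1 : (Ideal.span {a * b}).toAddSubgroup
      = ((Ideal.span {b}).toAddSubgroup).map (AddMonoidHom.mulLeft a) := by
    ext x
    simp only [Submodule.mem_toAddSubgroup, Ideal.mem_span_singleton, AddSubgroup.mem_map,
      AddMonoidHom.coe_mulLeft]
    constructor
    · rintro ⟨c, rfl⟩
      exact ⟨b * c, ⟨c, rfl⟩, by ring⟩
    · rintro ⟨y, ⟨c, rfl⟩, rfl⟩
      exact ⟨c, by ring⟩
  have e2 : (Ideal.span {a}).toAddSubgroup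
      = (⊤ : AddSubgroup A).map (AddMonoidHom.mulLeft a) := by
    ext x
    simp only [Submodule.mem_toAddSubgroup, Ideal.mem_span_singleton, AddSubgroup.mem_map,
      AddSubgroup.mem_top, true_and, AddMonoidHom.coe_mulLeft]
    constructor
    · rintro ⟨c, rfl⟩
      exact ⟨c, rfl⟩
    · rintro ⟨c, rfl⟩
      exact ⟨c, rfl⟩
  have e4 : (((Ideal.span {b}).toAddSubgroup).map (AddMonoidHom.mulLeft a)).relIndex
        ((⊤ : AddSubgroup A).map (AddMonoidHom.mulLeft a))
      * ((⊤ : AddSubgroup A).map (AddMonoidHom.mulLeft a)).index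
      = (((Ideal.span {b}).toAddSubgroup).map (AddMonoidHom.mulLeft a)).index :=
    AddSubgroup.relIndex_mul_index (AddSubgroup.map_mono le_top)
  rw [AddSubgroup.relIndex_map_map_of_injective _ _ hinj, AddSubgroup.relIndex_top_right,
    ← e1, ← e2] at e4
  rw [← Submodule.cardQuot_apply, ← Submodule.cardQuot_apply, ← Submodule.cardQuot_apply]
  unfold Submodule.cardQuot
  rw [← e4, mul_comm]

/-- `|A ⧸ (ϖ ^ k)| = |A ⧸ (ϖ)| ^ k` for a non-zero-divisor `ϖ`. -/
theorem card_quot_span_pow (ϖ : A) (hϖ : ∀ x : A, ϖ * x = 0 → x = 0) (k : ℕ) :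
    Nat.card (A ⧸ Ideal.span {ϖ ^ k}) = Nat.card (A ⧸ Ideal.span {ϖ}) ^ k := by
  induction k with
  | zero =>
    rw [pow_zero, pow_zero, Ideal.span_singleton_one]
    have : Subsingleton (A ⧸ (⊤ : Ideal A)) := Ideal.Quotient.subsingleton_iff.2 rfl
    exact Nat.card_unique
  | succ k ih =>
    rw [pow_succ', card_quot_span_mul ϖ (ϖ ^ k) hϖ, ih, pow_succ']

/-- `|A ⧸ (u)| = 1` for a unit `u`. -/
theorem card_quot_span_of_isUnit {a : A} (ha : IsUnit a) :
    Nat.card (A ⧸ Ideal.span {a}) = 1 := by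
  rw [Ideal.span_singleton_eq_top.2 ha]
  have : Subsingleton (A ⧸ (⊤ : Ideal A)) := Ideal.Quotient.subsingleton_iff.2 rfl
  exact Nat.card_unique

end General

section DVR

open IsLocalRing

variable {A : Type*} [CommRing A] [IsDomain A] [IsDiscreteValuationRing A]

/-- `|A ⧸ (u ϖ ^ v)| = |k| ^ v` in a discrete valuation ring with residue field `k`. -/
theorem card_quot_span_dvr {ϖ : A} (hϖ : Irreducible ϖ) {a : A} {v : ℕ} {u : Aˣ}
    (hu : a = u * ϖ ^ v) :
    Nat.card (A ⧸ Ideal.span {a}) = Nat.card (ResidueField A) ^ v := by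
  have h1 : Ideal.span {a} = Ideal.span {ϖ ^ v} := by
    rw [hu, Ideal.span_singleton_eq_span_singleton]
    exact ⟨u⁻¹, by rw [mul_comm (u : A), mul_assoc, Units.mul_inv, mul_one]⟩
  have h2 : Nat.card (ResidueField A) = Nat.card (A ⧸ Ideal.span {ϖ}) := by
    rw [← hϖ.maximalIdeal_eq]
    rfl
  rw [h1, h2]
  exact card_quot_span_pow ϖ (fun x hx => (mul_eq_zero.1 hx).resolve_left hϖ.ne_zero) v

variable {K : Type*} [Field K] [Algebra A K] [IsFractionRing A K]

/-- **Local power index, classical form.** For a complete discrete valuation ring `A` with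
finite residue field `k`, fraction field `K` and `(n : A) = u * ϖ ^ v` (`ϖ` a uniformiser,
`u` a unit): `[Kˣ : (Kˣ)ⁿ] = n * (|μ_n(K)| * |k| ^ v)`. -/
theorem index_range_pow_units_field_val [IsAdicComplete (maximalIdeal A) A]
    [Finite (ResidueField A)] {ϖ : A} (hϖ : Irreducible ϖ) {n v : ℕ} {u : Aˣ}
    (hu : (n : A) = u * ϖ ^ v) :
    (powMonoidHom n : Kˣ →* Kˣ).range.index
      = n * (Nat.card (rootsOfUnity n K) * Nat.card (ResidueField A) ^ v) := by
  have hn : (n : A) ≠ 0 := by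
    rw [hu]
    exact mul_ne_zero u.ne_zero (pow_ne_zero v hϖ.ne_zero)
  rw [index_range_pow_units_field (K := K) hn, card_quot_span_dvr hϖ hu]

/-- **Local power index, prime-to-residue-characteristic case.** If `n` is a unit in `A`:
`[Kˣ : (Kˣ)ⁿ] = n * |μ_n(K)|`. -/
theorem index_range_pow_units_field_of_isUnit [IsAdicComplete (maximalIdeal A) A]
    [Finite (ResidueField A)] {n : ℕ} (hn : IsUnit (n : A)) :
    (powMonoidHom n : Kˣ →* Kˣ).range.index = n * Nat.card (rootsOfUnity n K) := by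
  rw [index_range_pow_units_field (K := K) hn.ne_zero, card_quot_span_of_isUnit hn, mul_one]

/-- The unit version: `[Aˣ : (Aˣ)ⁿ] = |μ_n(A)| * |k| ^ v`. -/
theorem index_range_pow_units_dvr_val [IsAdicComplete (maximalIdeal A) A]
    [Finite (ResidueField A)] {ϖ : A} (hϖ : Irreducible ϖ) {n v : ℕ} {u : Aˣ}
    (hu : (n : A) = u * ϖ ^ v) :
    (powMonoidHom n : Aˣ →* Aˣ).range.index
      = Nat.card (rootsOfUnity n A) * Nat.card (ResidueField A) ^ v := by
  have hn : (n : A) ≠ 0 := by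
    rw [hu]
    exact mul_ne_zero u.ne_zero (pow_ne_zero v hϖ.ne_zero)
  rw [index_range_pow_units_dvr hn, card_quot_span_dvr hϖ hu]

/-- In the complete DVR setting the `n`-th powers have finite index in `Kˣ`. -/
theorem index_range_pow_units_field_ne_zero [IsAdicComplete (maximalIdeal A) A]
    [Finite (ResidueField A)] {n : ℕ} (hn : (n : A) ≠ 0) :
    (powMonoidHom n : Kˣ →* Kˣ).range.index ≠ 0 := by
  obtain ⟨ϖ, hϖ⟩ := IsDiscreteValuationRing.exists_irreducible A
  obtain ⟨v, u, hu⟩ := IsDiscreteValuationRing.eq_unit_mul_pow_irreducible hn hϖ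
  have hn0 : n ≠ 0 := by rintro rfl; exact hn (by simp)
  rw [index_range_pow_units_field_val (K := K) hϖ hu]
  have h1 : Nat.card (rootsOfUnity n K) ≠ 0 := by
    have : NeZero n := ⟨hn0⟩
    exact Nat.card_pos.ne'
  have h2 : Nat.card (ResidueField A) ≠ 0 := Nat.card_pos.ne'
  exact mul_ne_zero hn0 (mul_ne_zero h1 (pow_ne_zero v h2))

end DVR

end Fermat.Agent.S55.H424

end
-- ===== PACK-END S55/H424/QuotCard.lean

-- ===== PACK-BEGIN S55/Mackey/Defs.lean
section


/-!
# S55 (helper61): Mackey–Shapiro decomposition for group cohomology — definitions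

`α : H →* G` a group homomorphism, `D ≤ G` a subgroup, `A : Rep k D`.
A *Mackey system* consists of groups `Hs i`, homomorphisms `j i : Hs i →* H`, `κ i : Hs i →* D`
and elements `x i : G` such that `x i * α (j i h') = κ i h' * x i`, `j i` identifies `Hs i` with
`{h : H | x i * α h * (x i)⁻¹ ∈ D}`, and the `x i` represent the double cosets `D \ G / α(H)`.

Evaluation at `x i` is an `Hs i`-equivariant map `Res_α Coind_D^G A → Res(κ i) A` (`evAt`), and
`mackeyComp … i n : Hⁿ(H, Res_α Coind_D^G A) ⟶ Hⁿ(Hs i, Res(κ i) A)` is the induced map.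

Main theorem (`Fermat.Agent.S55.Mackey.mackeyPi_bijective`, file `Main.lean`):
if `α` is injective then `c ↦ (mackeyComp … i n c)_i` is bijective for every `n`.
Special cases: explicit Shapiro lemma (`shapiro_bijective`), the classical Mackey formula
with `Hs x = H ∩ x⁻¹ D x` (`mackeyTw_bijective`).
-/

set_option autoImplicit false

open CategoryTheory CategoryTheory.Limits groupCohomology

namespace Fermat.Agent.S55.Mackey

universe u v

variable {k H G : Type u} [CommRing k] [Group H] [Group G]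

/-- A system of twisted intersections and double coset representatives (see the file header). -/
structure IsMackeySystem {ι : Type v} (α : H →* G) (D : Subgroup G) (Hs : ι → Type u)
    [∀ i, Group (Hs i)] (j : ∀ i, Hs i →* H) (κ : ∀ i, Hs i →* D) (x : ι → G) : Prop where
  comm : ∀ i (h' : Hs i), x i * α (j i h') = (κ i h' : G) * x i
  inj : ∀ i, Function.Injective (j i)
  full : ∀ i (h : H), x i * α h * (x i)⁻¹ ∈ D → ∃ h' : Hs i, j i h' = h
  cover : ∀ g : G, ∃ i, ∃ d : D, ∃ h : H, g = (d : G) * x i * α h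
  disj : ∀ i i' (d : D) (h : H), x i = (d : G) * x i' * α h → i = i'

variable (α : H →* G) {D : Subgroup G} (A : Rep.{u} k D)

/-- `Res_α Coind_D^G A`, a representation of `H`. -/
noncomputable abbrev indRes : Rep k H := Rep.res α (Rep.coind D.subtype A)

lemma coind_apply_mul (f : (Rep.coind D.subtype A).V) (d : D) (g : G) :
    f.1 ((d : G) * g) = A.ρ d (f.1 g) := f.2 d g

lemma indRes_ρ_apply (h : H) (f : (indRes α A).V) (g : G) :
    ((indRes α A).ρ h f).1 g = f.1 (g * α h) := rfl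

/-- The map `Res_α Coind_D^G A ⟶ Res_α Coind_D^G B` induced by `φ : A ⟶ B`. -/
noncomputable abbrev indResMap {A B : Rep.{u} k D} (φ : A ⟶ B) : indRes α A ⟶ indRes α B :=
  (Rep.resFunctor α).map ((Rep.coindFunctor k D.subtype).map φ)

lemma indResMap_hom_apply {A B : Rep.{u} k D} (φ : A ⟶ B) (f : (indRes α A).V) (g : G) :
    ((indResMap α φ).hom f).1 g = φ.hom (f.1 g) := rfl

section Comp

variable {Hs : Type u} [Group Hs] (j : Hs →* H) (κ : Hs →* D) (x : G)
  (hcomm : ∀ h' : Hs, x * α (j h') = (κ h' : G) * x)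

/-- Evaluation at `x`, an `Hs`-equivariant map `Res_α Coind_D^G A → Res(κ) A`. -/
noncomputable def evAt : Rep.res j (indRes α A) ⟶ Rep.res κ A :=
  Rep.ofHom (ρ := (Rep.res j (indRes α A)).ρ) (σ := (Rep.res κ A).ρ)
    ⟨{ toFun := fun f => f.1 x
       map_add' := fun _ _ => rfl
       map_smul' := fun _ _ => rfl }, fun h => by
      ext f
      change f.1 (x * α (j h)) = A.ρ (κ h) (f.1 x)
      rw [hcomm h, coind_apply_mul]⟩

@[simp]
lemma evAt_hom_apply (f : (indRes α A).V) :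
    (evAt α A j κ x hcomm).hom f = f.1 x := rfl

/-- The component of the Mackey–Shapiro map. -/
noncomputable def mackeyComp (n : ℕ) :
    groupCohomology (indRes α A) n ⟶ groupCohomology (Rep.res κ A) n :=
  map j (evAt α A j κ x hcomm) n

/-- Naturality of `evAt` in the coefficients. -/
lemma evAt_naturality {A B : Rep.{u} k D} (φ : A ⟶ B) :
    (Rep.resFunctor j).map (indResMap α φ) ≫ evAt α B j κ x hcomm =
      evAt α A j κ x hcomm ≫ (Rep.resFunctor κ).map φ := by
  ext f
  rfl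

/-- Naturality of `mackeyComp` in the coefficients. -/
lemma mackeyComp_naturality {A B : Rep.{u} k D} (φ : A ⟶ B) (n : ℕ) :
    map (MonoidHom.id H) (indResMap α φ) n ≫ mackeyComp α B j κ x hcomm n =
      mackeyComp α A j κ x hcomm n ≫ map (MonoidHom.id Hs) ((Rep.resFunctor κ).map φ) n := by
  unfold mackeyComp
  rw [← map_comp, ← map_comp]
  exact map_congr rfl (by
    have := evAt_naturality α j κ x hcomm φ
    exact congrArg (fun ψ => ψ.hom.toLinearMap) this) n

end Comp

end Fermat.Agent.S55.Mackey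

end
-- ===== PACK-END S55/Mackey/Defs.lean

-- ===== PACK-BEGIN S55/PT/LesExactH113.lean
section


/-!
# S55 / PT layer, leaves D-F1, D-F2, D-F3 (helper113): the long exact sequence in low degrees

For a short exact sequence `E : SES A B C` of uniformly smooth representations:

* `ker_del0`, `range_del0`   : exactness at `H⁰(C)` and `H¹(A)`        (D-F1)
* `ker_del1`, `range_del1`   : exactness at `H¹(C)` and `H²(A)`        (D-F2)
* `ker_pushH1`, `ker_pushH2` : exactness at `H¹(B)` and `H²(B)`        (D-F3)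
-/

set_option autoImplicit false

noncomputable section

namespace Fermat.Agent.S55.PT.H113

open groupCohomology Fermat.Agent.S55.PT

variable {k : Type} [Field k] {G : Type} [Group G]
variable {A B C : Rep.{0, 0, 0} k G} (E : SES A B C) (L : LevelSys G)

/-! ### helpers -/

lemma ses_hi (g : G) (a : A) : E.i (A.ρ g a) = B.ρ g (E.i a) := E.hi g a

lemma ses_hπ (g : G) (b : B) : E.π (B.ρ g b) = C.ρ g (E.π b) := E.hπ g b

lemma ses_π_sec_sub (b : B) : E.π (E.sec (E.π b) - b) = 0 := by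
  rw [map_sub, E.π_sec, sub_self]

lemma ses_comp_injective {X : Type*} {f f' : X → A} (h : E.i ∘ f = E.i ∘ f') : f = f' := by
  funext x
  exact E.inj (congrFun h x)

lemma d₁₂_d₀₁ (b : B) : (d₁₂ B).hom ((d₀₁ B).hom b) = 0 :=
  d₀₁_apply_mem_cocycles₁ b

lemma d₂₃_d₁₂ (x : G → B) : (d₂₃ B).hom ((d₁₂ B).hom x) = 0 :=
  d₁₂_apply_mem_cocycles₂ x

/-! ### D-F1 -/

/-- (D-F1) exactness at `H⁰(C)`: `ker δ⁰ = im (H⁰(B) → H⁰(C))`. -/
theorem ker_del0 (hB : L.IsUSmooth B) :
    LinearMap.ker (E.del0 L hB) = LinearMap.range (pushH0 E.π E.hπ) := by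
  ext c
  rw [LinearMap.mem_ker, LinearMap.mem_range, SES.del0_apply, LevelSys.H1π_eq_zero_iff]
  constructor
  · rintro ⟨a, ha⟩
    have ha' : (d₀₁ A).hom a = E.del0Fun (c : C) := ha
    have hkey : (d₀₁ B).hom (E.i a) = (d₀₁ B).hom (E.sec (c : C)) := by
      rw [push_d₀₁ E.i E.hi, ha', E.i_comp_del0Fun c]
    refine ⟨⟨E.sec (c : C) - E.i a, ?_⟩, ?_⟩
    · intro g
      have h := congrFun hkey g
      rw [d₀₁_hom_apply, d₀₁_hom_apply] at h
      rw [map_sub]
      have : B.ρ g (E.sec (c : C)) - B.ρ g (E.i a) - (E.sec (c : C) - E.i a) = 0 := by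
        rw [sub_sub_sub_comm, h, sub_self]
      exact sub_eq_zero.1 this
    · apply Subtype.ext
      rw [coe_pushH0]
      simp only [map_sub, E.π_sec, E.π_i, sub_zero]
  · rintro ⟨b, rfl⟩
    have hb : ∀ g, B.ρ g (b : B) = b := b.2
    refine ⟨E.ret (E.sec (E.π (b : B)) - b), ?_⟩
    apply ses_comp_injective E
    rw [← push_d₀₁ E.i E.hi, E.i_ret (ses_π_sec_sub E (b : B))]
    have hc := E.i_comp_del0Fun (pushH0 E.π E.hπ b)
    rw [coe_pushH0] at hc
    show _ = E.i ∘ E.del0Fun (E.π (b : B))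
    rw [hc, map_sub]
    have h0 : (d₀₁ B).hom (b : B) = 0 := by
      funext g
      rw [d₀₁_hom_apply, hb g, sub_self]
      rfl
    rw [h0, sub_zero]

/-- (D-F1) exactness at `H¹(A)`: `im δ⁰ = ker (H¹(A) → H¹(B))`. -/
theorem range_del0 (hB : L.IsUSmooth B) :
    LinearMap.range (E.del0 L hB) = LinearMap.ker (pushH1 E.i E.hi L) := by
  ext x
  rw [LinearMap.mem_range, LinearMap.mem_ker]
  constructor
  · rintro ⟨c, rfl⟩
    rw [SES.del0_apply, pushH1_mk, LevelSys.H1π_eq_zero_iff, coe_pushZ1]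
    exact ⟨E.sec (c : C), (E.i_comp_del0Fun c).symm⟩
  · intro hx
    obtain ⟨f, rfl⟩ := L.H1π_surjective A x
    rw [pushH1_mk, LevelSys.H1π_eq_zero_iff, coe_pushZ1] at hx
    obtain ⟨b, hb⟩ := hx
    have hb' : (d₀₁ B).hom b = E.i ∘ (f : G → A) := hb
    have hinv : ∀ g, C.ρ g (E.π b) = E.π b := by
      intro g
      have h := congrFun hb' g
      rw [d₀₁_hom_apply] at h
      have h2 : E.π (B.ρ g b - b) = 0 := by
        rw [h]
        exact E.π_i _
      rw [map_sub, ses_hπ] at h2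
      exact sub_eq_zero.1 h2
    refine ⟨⟨E.π b, hinv⟩, ?_⟩
    rw [SES.del0_apply, ← sub_eq_zero, ← map_sub, LevelSys.H1π_eq_zero_iff]
    refine ⟨E.ret (E.sec (E.π b) - b), ?_⟩
    apply ses_comp_injective E
    rw [← push_d₀₁ E.i E.hi, E.i_ret (ses_π_sec_sub E b), map_sub, hb']
    have hc := E.i_comp_del0Fun ⟨E.π b, hinv⟩
    funext g
    have hcg := congrFun hc g
    simp only [Function.comp_apply] at hcg
    simp only [Pi.sub_apply, Function.comp_apply, Submodule.coe_sub, map_sub]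
    rw [← hcg]

/-! ### D-F2 -/

/-- (D-F2) exactness at `H¹(C)`: `ker δ¹ = im (H¹(B) → H¹(C))`. -/
theorem ker_del1 (hN : L.NormalCofinal) (hB : L.IsUSmooth B) (hC : L.IsUSmooth C) :
    LinearMap.ker (E.del1 L hN hB hC) = LinearMap.range (pushH1 E.π E.hπ L) := by
  ext x
  rw [LinearMap.mem_ker, LinearMap.mem_range]
  constructor
  · intro hx
    obtain ⟨c, rfl⟩ := L.H1π_surjective C x
    rw [SES.del1_mk, LevelSys.H2π_eq_zero_iff] at hx
    obtain ⟨z, hz, hzc⟩ := hx
    have hzc' : (d₁₂ A).hom z = E.del1Fun (c : G → C) := hzc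
    have hzlc : L.IsLC₁ z := hz
    have hclc : L.IsLC₁ (c : G → C) := c.2.2
    have hf : (E.sec ∘ (c : G → C) - E.i ∘ z) ∈ L.Z1 B := by
      refine ⟨?_, (L.C1 B).sub_mem (hclc.comp E.sec) (hzlc.comp E.i)⟩
      show (d₁₂ B).hom (E.sec ∘ (c : G → C) - E.i ∘ z) = 0
      rw [map_sub, push_d₁₂ E.i E.hi, hzc', E.i_comp_del1Fun c.2.1, sub_self]
    refine ⟨L.H1π B ⟨_, hf⟩, ?_⟩
    rw [pushH1_mk]
    congr 1
    apply Subtype.ext
    rw [coe_pushZ1]
    funext g
    simp only [Function.comp_apply, Pi.sub_apply, map_sub, E.π_sec, E.π_i, sub_zero]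
  · rintro ⟨y, rfl⟩
    obtain ⟨f, rfl⟩ := L.H1π_surjective B y
    rw [pushH1_mk, SES.del1_mk, LevelSys.H2π_eq_zero_iff]
    show E.del1Fun (E.π ∘ (f : G → B)) ∈ L.B2 A
    have hflc : L.IsLC₁ (f : G → B) := f.2.2
    have hfc : (d₁₂ B).hom (f : G → B) = 0 := f.2.1
    have hπ0 : ∀ g, E.π ((E.sec ∘ (E.π ∘ (f : G → B)) - (f : G → B)) g) = 0 := by
      intro g
      simp only [Pi.sub_apply, Function.comp_apply, map_sub, E.π_sec, sub_self]
    refine ⟨E.ret ∘ (E.sec ∘ (E.π ∘ (f : G → B)) - (f : G → B)),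
      (((L.C1 B).sub_mem ((hflc.comp E.π).comp E.sec) hflc) : L.IsLC₁ _).comp E.ret, ?_⟩
    apply ses_comp_injective E
    have hcoc : E.π ∘ (f : G → B) ∈ cocycles₁ C := push_mem_cocycles₁ E.π E.hπ f.2.1
    rw [← push_d₁₂ E.i E.hi, E.i_comp_ret_comp hπ0, E.i_comp_del1Fun hcoc, map_sub, hfc,
      sub_zero]

/-- (D-F2) exactness at `H²(A)`: `im δ¹ = ker (H²(A) → H²(B))`. -/
theorem range_del1 (hN : L.NormalCofinal) (hB : L.IsUSmooth B) (hC : L.IsUSmooth C) :
    LinearMap.range (E.del1 L hN hB hC) = LinearMap.ker (pushH2 E.i E.hi L) := by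
  ext x
  rw [LinearMap.mem_range, LinearMap.mem_ker]
  constructor
  · rintro ⟨y, rfl⟩
    obtain ⟨c, rfl⟩ := L.H1π_surjective C y
    rw [SES.del1_mk, pushH2_mk, LevelSys.H2π_eq_zero_iff, coe_pushZ2]
    have hclc : L.IsLC₁ (c : G → C) := c.2.2
    exact ⟨E.sec ∘ (c : G → C), hclc.comp E.sec, (E.i_comp_del1Fun c.2.1).symm⟩
  · intro hx
    obtain ⟨f, rfl⟩ := L.H2π_surjective A x
    rw [pushH2_mk, LevelSys.H2π_eq_zero_iff, coe_pushZ2] at hx
    obtain ⟨w, hw, hwf⟩ := hx
    have hwlc : L.IsLC₁ w := hw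
    have hwf' : (d₁₂ B).hom w = E.i ∘ (f : G × G → A) := hwf
    have hcoc : E.π ∘ w ∈ cocycles₁ C := by
      show (d₁₂ C).hom (E.π ∘ w) = 0
      rw [push_d₁₂ E.π E.hπ, hwf']
      funext x
      simp only [Function.comp_apply, E.π_i]
      rfl
    have hc : E.π ∘ w ∈ L.Z1 C := ⟨hcoc, hwlc.comp E.π⟩
    refine ⟨L.H1π C ⟨_, hc⟩, ?_⟩
    rw [SES.del1_mk, ← sub_eq_zero, ← map_sub, LevelSys.H2π_eq_zero_iff]
    have hπ0 : ∀ g, E.π ((E.sec ∘ (E.π ∘ w) - w) g) = 0 := by
      intro g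
      simp only [Pi.sub_apply, Function.comp_apply, map_sub, E.π_sec, sub_self]
    refine ⟨E.ret ∘ (E.sec ∘ (E.π ∘ w) - w),
      (((L.C1 B).sub_mem ((hwlc.comp E.π).comp E.sec) hwlc) : L.IsLC₁ _).comp E.ret, ?_⟩
    apply ses_comp_injective E
    rw [← push_d₁₂ E.i E.hi, E.i_comp_ret_comp hπ0, map_sub, hwf']
    have h1 := E.i_comp_del1Fun hcoc
    funext g
    have h1g := congrFun h1 g
    simp only [Function.comp_apply] at h1g
    simp only [Pi.sub_apply, Function.comp_apply, Submodule.coe_sub, map_sub]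
    rw [← h1g]

/-! ### D-F3: exactness in the middle -/

/-- the composite `H¹(A) → H¹(B) → H¹(C)` is zero. -/
theorem pushH1_comp (x : L.H1 A) : pushH1 E.π E.hπ L (pushH1 E.i E.hi L x) = 0 := by
  obtain ⟨f, rfl⟩ := L.H1π_surjective A x
  rw [pushH1_mk, pushH1_mk, LevelSys.H1π_eq_zero_iff]
  refine ⟨0, ?_⟩
  rw [map_zero]
  funext g
  show (0 : C) = E.π (E.i ((f : G → A) g))
  rw [E.π_i]

/-- the composite `H²(A) → H²(B) → H²(C)` is zero. -/
theorem pushH2_comp (x : L.H2 A) : pushH2 E.π E.hπ L (pushH2 E.i E.hi L x) = 0 := by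
  obtain ⟨f, rfl⟩ := L.H2π_surjective A x
  rw [pushH2_mk, pushH2_mk, LevelSys.H2π_eq_zero_iff]
  refine ⟨0, (L.C1 C).zero_mem, ?_⟩
  rw [map_zero]
  funext g
  show (0 : C) = E.π (E.i ((f : G × G → A) g))
  rw [E.π_i]

/-- (D-F3) exactness at `H¹(B)`. -/
theorem ker_pushH1 (hB : L.IsUSmooth B) :
    LinearMap.ker (pushH1 E.π E.hπ L) = LinearMap.range (pushH1 E.i E.hi L) := by
  ext x
  rw [LinearMap.mem_ker, LinearMap.mem_range]
  constructor
  · intro hx
    obtain ⟨f, rfl⟩ := L.H1π_surjective B x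
    rw [pushH1_mk, LevelSys.H1π_eq_zero_iff, coe_pushZ1] at hx
    obtain ⟨m, hm⟩ := hx
    have hm' : (d₀₁ C).hom m = E.π ∘ (f : G → B) := hm
    have hflc : L.IsLC₁ (f : G → B) := f.2.2
    have hfc : (d₁₂ B).hom (f : G → B) = 0 := f.2.1
    have hπ0 : ∀ g, E.π (((f : G → B) - (d₀₁ B).hom (E.sec m)) g) = 0 := by
      intro g
      have h := congrFun hm' g
      rw [d₀₁_hom_apply] at h
      simp only [Pi.sub_apply, map_sub, d₀₁_hom_apply, ses_hπ, E.π_sec]
      rw [h]
      simp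
    have hiz := E.i_comp_ret_comp hπ0
    have hz : E.ret ∘ ((f : G → B) - (d₀₁ B).hom (E.sec m)) ∈ L.Z1 A := by
      refine ⟨?_, (((L.C1 B).sub_mem hflc (L.d₀₁_isLC₁ hB _)) : L.IsLC₁ _).comp E.ret⟩
      show (d₁₂ A).hom _ = 0
      apply ses_comp_injective E
      rw [← push_d₁₂ E.i E.hi, hiz, map_sub, hfc, d₁₂_d₀₁, sub_zero]
      funext x
      exact (map_zero E.i).symm
    refine ⟨L.H1π A ⟨_, hz⟩, ?_⟩
    rw [pushH1_mk, ← sub_eq_zero, ← map_sub, LevelSys.H1π_eq_zero_iff]
    refine ⟨-E.sec m, ?_⟩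
    rw [map_neg]
    funext g
    have h := congrFun hiz g
    simp only [Function.comp_apply, Pi.sub_apply] at h
    simp only [Submodule.coe_sub, Pi.sub_apply, Pi.neg_apply, coe_pushZ1, Function.comp_apply]
    rw [h]
    abel
  · rintro ⟨y, rfl⟩
    exact pushH1_comp E L y

/-- (D-F3) exactness at `H²(B)`. -/
theorem ker_pushH2 (hN : L.NormalCofinal) (hB : L.IsUSmooth B) :
    LinearMap.ker (pushH2 E.π E.hπ L) = LinearMap.range (pushH2 E.i E.hi L) := by
  ext x
  rw [LinearMap.mem_ker, LinearMap.mem_range]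
  constructor
  · intro hx
    obtain ⟨f, rfl⟩ := L.H2π_surjective B x
    rw [pushH2_mk, LevelSys.H2π_eq_zero_iff, coe_pushZ2] at hx
    obtain ⟨w, hw, hwf⟩ := hx
    have hwlc : L.IsLC₁ w := hw
    have hwf' : (d₁₂ C).hom w = E.π ∘ (f : G × G → B) := hwf
    have hflc : L.IsLC₂ (f : G × G → B) := f.2.2
    have hfc : (d₂₃ B).hom (f : G × G → B) = 0 := f.2.1
    have hπ0 : ∀ g, E.π (((f : G × G → B) - (d₁₂ B).hom (E.sec ∘ w)) g) = 0 := by
      intro g
      have h1 : E.π ∘ (d₁₂ B).hom (E.sec ∘ w) = (d₁₂ C).hom w := by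
        rw [← push_d₁₂ E.π E.hπ]
        congr 1
        funext x
        exact E.π_sec _
      have h := congrFun hwf' g
      have h1g := congrFun h1 g
      simp only [Function.comp_apply] at h h1g
      simp only [Pi.sub_apply, map_sub]
      rw [h1g, h, sub_self]
    have hiz := E.i_comp_ret_comp hπ0
    have hz : E.ret ∘ ((f : G × G → B) - (d₁₂ B).hom (E.sec ∘ w)) ∈ L.Z2 A := by
      refine ⟨?_, (((L.C2 B).sub_mem hflc
        (L.d₁₂_isLC₂ hN hB (hwlc.comp E.sec))) : L.IsLC₂ _).comp E.ret⟩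
      show (d₂₃ A).hom _ = 0
      apply ses_comp_injective E
      rw [← push_d₂₃ E.i E.hi, hiz, map_sub, hfc, d₂₃_d₁₂, sub_zero]
      funext x
      exact (map_zero E.i).symm
    refine ⟨L.H2π A ⟨_, hz⟩, ?_⟩
    rw [pushH2_mk, ← sub_eq_zero, ← map_sub, LevelSys.H2π_eq_zero_iff]
    refine ⟨-(E.sec ∘ w), (L.C1 B).neg_mem (hwlc.comp E.sec), ?_⟩
    rw [map_neg]
    funext g
    have h := congrFun hiz g
    simp only [Function.comp_apply, Pi.sub_apply] at h
    simp only [Submodule.coe_sub, Pi.sub_apply, Pi.neg_apply, coe_pushZ2, Function.comp_apply]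
    rw [h]
    abel
  · rintro ⟨y, rfl⟩
    exact _root_.Fermat.Agent.S55.PT.H113.pushH2_comp E L y

end Fermat.Agent.S55.PT.H113

end

end
-- ===== PACK-END S55/PT/LesExactH113.lean

-- ===== PACK-BEGIN S56/P3/H666/IRR.lean
section


/-!
# S56 / P3, piece IRR (helper666): `ad⁰ρ` is irreducible

`ad0Irreducible : Ad0IrreducibleStatement`.

Route: the trace form on `End V` (`dim V = 2`, `2 ≠ 0`) is non-degenerate, so a stable proper
nonzero subspace `W ⊂ ad⁰` gives a stable LINE `k·A` (either `W` or the orthogonal of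
`W ⊕ k·1`).  By Cayley–Hamilton `A² = d`.  If `d = 0` then `ker A_K` is a stable line of `K ⊗ V`;
if `d ≠ 0` then the centraliser of `A` has index `≤ 2` and preserves `ker (A_K - λ)`, `λ² = d`.
-/

set_option autoImplicit false
set_option linter.unusedSectionVars false

open Polynomial Module

namespace Fermat.Agent.S56.P3.H666

section Basic

variable {k : Type} [Field k] {V : Type} [AddCommGroup V] [Module k V] [Module.Finite k V]

/-- The trace form `(A, B) ↦ tr (A B)` on `End V`. -/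
noncomputable def trForm (k : Type) [Field k] (V : Type) [AddCommGroup V] [Module k V]
    [Module.Finite k V] : LinearMap.BilinForm k (Module.End k V) :=
  (LinearMap.mul k (Module.End k V)).compr₂ (LinearMap.trace k V)

theorem trForm_apply (A B : Module.End k V) :
    trForm k V A B = LinearMap.trace k V (A * B) := rfl

/-- The trace form is non-degenerate. -/
theorem trForm_ker : LinearMap.ker (trForm k V) = ⊥ := by
  rw [LinearMap.ker_eq_bot']
  intro A hA
  ext v
  rw [LinearMap.zero_apply, ← Module.forall_dual_apply_eq_zero_iff k]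
  intro φ
  have h1 : trForm k V A (φ.smulRight v) = 0 := by rw [hA]; rfl
  rw [trForm_apply] at h1
  have h2 : A * φ.smulRight v = φ.smulRight (A v) := by
    ext x
    simp [LinearMap.smulRight_apply]
  rw [h2, LinearMap.trace_smulRight] at h1
  exact h1

theorem finrank_end (h2 : finrank k V = 2) : finrank k (Module.End k V) = 4 := by
  rw [Module.finrank_linearMap, h2]

/-- Cayley–Hamilton in dimension two, trace zero. -/
theorem sq_eq_smul_one (h2 : finrank k V = 2) (A : Module.End k V)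
    (hA : LinearMap.trace k V A = 0) : ∃ d : k, A * A = d • (1 : Module.End k V) := by
  let b := Module.finBasisOfFinrankEq k V h2
  refine ⟨-LinearMap.det A, ?_⟩
  apply (LinearMap.toMatrixAlgEquiv b).injective
  have htr : (LinearMap.toMatrixAlgEquiv b A).trace = 0 := by
    rw [← hA, LinearMap.trace_eq_matrix_trace k b]
    rfl
  have hdet : LinearMap.det A = (LinearMap.toMatrixAlgEquiv b A).det := by
    rw [← LinearMap.det_toMatrix b]
    rfl
  rw [map_mul, map_smul, map_one, hdet]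
  generalize LinearMap.toMatrixAlgEquiv b A = M at htr
  rw [Matrix.trace_fin_two] at htr
  have h11 : M 1 1 = -M 0 0 := by linear_combination htr
  ext i j
  fin_cases i <;> fin_cases j <;>
    simp [Matrix.mul_apply, Fin.sum_univ_two, Matrix.det_fin_two, h11] <;> ring

end Basic

section Line

variable {k : Type} [Field k] {V : Type} [AddCommGroup V] [Module k V] [Module.Finite k V]
variable {Γ : Type} [Group Γ]

theorem two_ne_zero_of_char {p : ℕ} (hp : p.Prime) (hp2 : p ≠ 2) (hp0 : (p : k) = 0) :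
    (2 : k) ≠ 0 := by
  intro h2
  rcases hp.eq_two_or_odd' with h | ⟨m, hm⟩
  · exact hp2 h
  · have : (p : k) = 1 := by
      rw [hm]
      push_cast
      rw [h2, zero_mul, zero_add]
    rw [hp0] at this
    exact zero_ne_one this

theorem rho_mul_inv (ρ : Γ →* Module.End k V) (g : Γ) : ρ g * ρ g⁻¹ = 1 := by
  rw [← map_mul, mul_inv_cancel, map_one]

theorem rho_inv_mul (ρ : Γ →* Module.End k V) (g : Γ) : ρ g⁻¹ * ρ g = 1 := by
  rw [← map_mul, inv_mul_cancel, map_one]

/-- The centraliser of `A` in `Γ`. -/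
def centr (ρ : Γ →* Module.End k V) (A : Module.End k V) : Subgroup Γ where
  carrier := {g | ρ g * A = A * ρ g}
  one_mem' := by
    show ρ 1 * A = A * ρ 1
    rw [map_one, one_mul, mul_one]
  mul_mem' := by
    intro a b ha hb
    show ρ (a * b) * A = A * ρ (a * b)
    have ha' : ρ a * A = A * ρ a := ha
    have hb' : ρ b * A = A * ρ b := hb
    rw [map_mul, mul_assoc, hb', ← mul_assoc, ha', mul_assoc]
  inv_mem' := by
    intro a ha
    show ρ a⁻¹ * A = A * ρ a⁻¹
    have ha' : ρ a * A = A * ρ a := ha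
    calc ρ a⁻¹ * A = ρ a⁻¹ * A * (ρ a * ρ a⁻¹) := by rw [rho_mul_inv, mul_one]
      _ = ρ a⁻¹ * (A * ρ a) * ρ a⁻¹ := by simp only [mul_assoc]
      _ = ρ a⁻¹ * (ρ a * A) * ρ a⁻¹ := by rw [ha']
      _ = (ρ a⁻¹ * ρ a) * A * ρ a⁻¹ := by simp only [mul_assoc]
      _ = A * ρ a⁻¹ := by rw [rho_inv_mul, one_mul]

theorem mem_centr {ρ : Γ →* Module.End k V} {A : Module.End k V} {g : Γ} :
    g ∈ centr ρ A ↔ ρ g * A = A * ρ g := Iff.rfl

/-- The index of a subgroup whose complement is "multiplicatively closed into it". -/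
theorem index_eq_two_of {G : Subgroup Γ} {g₀ : Γ} (hg₀ : g₀ ∉ G)
    (hmul : ∀ a b : Γ, a ∉ G → b ∉ G → a * b ∈ G) : G.index = 2 := by
  rw [Subgroup.index_eq_two_iff]
  refine ⟨g₀, fun b => ?_⟩
  by_cases hb : b ∈ G
  · right
    refine ⟨hb, fun hbg => hg₀ ?_⟩
    have : g₀ = b⁻¹ * (b * g₀) := by group
    rw [this]
    exact G.mul_mem (G.inv_mem hb) hbg
  · left
    exact ⟨hmul b g₀ hb hg₀, hb⟩

/-- Nilpotent case: `A ≠ 0`, `A² = 0`, and every conjugate of `A` is a multiple of `A`. -/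
theorem line_false_nil (ρ : Γ →* Module.End k V) (p : ℕ) (h : TWHyp ρ p)
    (A : Module.End k V) (hA0 : A ≠ 0) (hsq : A * A = 0)
    (hst : ∀ g : Γ, ∃ c : k, ρ g * A * ρ g⁻¹ = c • A) : False := by
  have hAK0 : A.baseChange (AlgebraicClosure k) ≠ 0 := by
    intro h0
    apply hA0
    apply LinearMap.baseChangeHom_injective k V (AlgebraicClosure k)
    simpa using h0
  have hAKsq : A.baseChange (AlgebraicClosure k) * A.baseChange (AlgebraicClosure k) = 0 := by
    rw [← LinearMap.baseChange_mul, hsq, LinearMap.baseChange_zero]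
  have hcomm : ∀ g : Γ, ∃ c : k, A * ρ g = c • (ρ g * A) := by
    intro g
    obtain ⟨c, hc⟩ := hst g⁻¹
    rw [inv_inv] at hc
    refine ⟨c, ?_⟩
    calc A * ρ g = (ρ g * ρ g⁻¹) * A * ρ g := by rw [rho_mul_inv, one_mul]
      _ = ρ g * (ρ g⁻¹ * A * ρ g) := by simp only [mul_assoc]
      _ = c • (ρ g * A) := by rw [hc, mul_smul_comm]
  have hstab : ∀ g : Γ, ∀ x ∈ LinearMap.ker (A.baseChange (AlgebraicClosure k)),
      (ρ g).baseChange (AlgebraicClosure k) x ∈
        LinearMap.ker (A.baseChange (AlgebraicClosure k)) := by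
    intro g x hx
    rw [LinearMap.mem_ker] at hx ⊢
    obtain ⟨c, hc⟩ := hcomm g
    have h1 : A.baseChange (AlgebraicClosure k) * (ρ g).baseChange (AlgebraicClosure k) =
        c • ((ρ g).baseChange (AlgebraicClosure k) * A.baseChange (AlgebraicClosure k)) := by
      rw [← LinearMap.baseChange_mul, hc, LinearMap.baseChange_smul, LinearMap.baseChange_mul]
    have h2 := congrArg (fun f : Module.End (AlgebraicClosure k)
      (TensorProduct k (AlgebraicClosure k) V) => f x) h1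
    simp only [Module.End.mul_apply, LinearMap.smul_apply, hx, map_zero, smul_zero] at h2
    exact h2
  rcases h.absIrr _ hstab with hb | ht
  · apply hAK0
    refine LinearMap.ext fun x => ?_
    have hx : A.baseChange (AlgebraicClosure k) x ∈
        LinearMap.ker (A.baseChange (AlgebraicClosure k)) := by
      rw [LinearMap.mem_ker]
      exact congrArg (fun f : Module.End (AlgebraicClosure k)
        (TensorProduct k (AlgebraicClosure k) V) => f x) hAKsq
    rw [hb] at hx
    simpa using hx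
  · exact hAK0 (LinearMap.ker_eq_top.mp ht)

/-- In the semisimple case the multiplier is `±1`. -/
theorem conj_cases (ρ : Γ →* Module.End k V) (hfin : finrank k V = 2) (h2 : (2 : k) ≠ 0)
    (A : Module.End k V) (d : k) (hd0 : d ≠ 0) (hsq : A * A = d • (1 : Module.End k V))
    (g : Γ) (c : k) (hc : ρ g * A * ρ g⁻¹ = c • A) :
    ρ g * A = A * ρ g ∨ ρ g * A = -(A * ρ g) := by
  have h1 : (ρ g * A * ρ g⁻¹) * (ρ g * A * ρ g⁻¹) = d • (1 : Module.End k V) := by
    calc (ρ g * A * ρ g⁻¹) * (ρ g * A * ρ g⁻¹)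
        = ρ g * A * (ρ g⁻¹ * ρ g) * A * ρ g⁻¹ := by simp only [mul_assoc]
      _ = ρ g * (A * A) * ρ g⁻¹ := by rw [rho_inv_mul, mul_one]; simp only [mul_assoc]
      _ = d • (1 : Module.End k V) := by
          rw [hsq, mul_smul_comm, mul_one, smul_mul_assoc, rho_mul_inv]
  rw [hc, smul_mul_smul_comm, hsq, smul_smul] at h1
  have h3 := congrArg (LinearMap.trace k V) h1
  rw [map_smul, map_smul, LinearMap.trace_one, hfin, smul_eq_mul, smul_eq_mul] at h3
  have h4 : ((2 : ℕ) : k) ≠ 0 := by exact_mod_cast h2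
  have h5 : c * c * d = d := mul_right_cancel₀ h4 h3
  have h6 : (c - 1) * (c + 1) = 0 := by
    have : (c * c - 1) * d = 0 := by linear_combination h5
    rcases mul_eq_zero.mp this with h | h
    · linear_combination h
    · exact absurd h hd0
  have hmul : ρ g * A = c • (A * ρ g) := by
    calc ρ g * A = ρ g * A * (ρ g⁻¹ * ρ g) := by rw [rho_inv_mul, mul_one]
      _ = (ρ g * A * ρ g⁻¹) * ρ g := by simp only [mul_assoc]
      _ = c • (A * ρ g) := by rw [hc, smul_mul_assoc]
  rcases mul_eq_zero.mp h6 with h | h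
  · left
    have hc1 : c = 1 := by linear_combination h
    rw [hmul, hc1, one_smul]
  · right
    have hc1 : c = -1 := by linear_combination h
    rw [hmul, hc1, neg_one_smul]

/-- Semisimple case: `A² = d ≠ 0`, `tr A = 0`, every conjugate of `A` is a multiple of `A`. -/
theorem line_false_ss (ρ : Γ →* Module.End k V) (p : ℕ) (h : TWHyp ρ p) (h2 : (2 : k) ≠ 0)
    (A : Module.End k V) (hAtr : LinearMap.trace k V A = 0) (d : k) (hd0 : d ≠ 0)
    (hsq : A * A = d • (1 : Module.End k V))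
    (hst : ∀ g : Γ, ∃ c : k, ρ g * A * ρ g⁻¹ = c • A) : False := by
  obtain ⟨lam, hlam⟩ := IsAlgClosed.exists_eq_mul_self (algebraMap k (AlgebraicClosure k) d)
  have hlam0 : lam ≠ 0 := by
    rintro rfl
    rw [mul_zero] at hlam
    exact hd0 ((map_eq_zero _).mp hlam)
  have h2K : (2 : AlgebraicClosure k) ≠ 0 := by
    intro h0
    apply h2
    apply (algebraMap k (AlgebraicClosure k)).injective
    rw [map_ofNat, h0, map_zero]
  have htrAK : LinearMap.trace (AlgebraicClosure k) _ (A.baseChange (AlgebraicClosure k)) = 0 := by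
    rw [LinearMap.trace_baseChange, hAtr, map_zero]
  have hfin : finrank (AlgebraicClosure k) (TensorProduct k (AlgebraicClosure k) V) = 2 := by
    rw [Module.finrank_baseChange, h.finrank_eq]
  have htr1 : LinearMap.trace (AlgebraicClosure k) (TensorProduct k (AlgebraicClosure k) V) 1
      = 2 := by
    rw [LinearMap.trace_one, hfin]
    norm_num
  have hne : ∀ μ : AlgebraicClosure k, μ ≠ 0 →
      A.baseChange (AlgebraicClosure k) ≠
        μ • (1 : Module.End (AlgebraicClosure k) (TensorProduct k (AlgebraicClosure k) V)) := by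
    intro μ hμ he
    have h3 := congrArg (LinearMap.trace (AlgebraicClosure k) _) he
    rw [htrAK, map_smul, htr1, smul_eq_mul] at h3
    exact mul_ne_zero hμ h2K h3.symm
  have hAKsq : A.baseChange (AlgebraicClosure k) * A.baseChange (AlgebraicClosure k) =
      (lam * lam) •
        (1 : Module.End (AlgebraicClosure k) (TensorProduct k (AlgebraicClosure k) V)) := by
    rw [← LinearMap.baseChange_mul, hsq, LinearMap.baseChange_smul, LinearMap.baseChange_one,
      ← hlam, algebraMap_smul]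
  have hprod : ∀ x, (A.baseChange (AlgebraicClosure k) - lam • 1)
      ((A.baseChange (AlgebraicClosure k) + lam • 1) x) = 0 := by
    intro x
    have h3 := congrArg (fun f : Module.End (AlgebraicClosure k)
      (TensorProduct k (AlgebraicClosure k) V) => f x) hAKsq
    simp only [Module.End.mul_apply, LinearMap.smul_apply, Module.End.one_apply] at h3
    simp only [LinearMap.sub_apply, LinearMap.add_apply, LinearMap.smul_apply,
      Module.End.one_apply, map_add, map_smul, h3]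
    module
  -- the stabiliser
  have hstab : ∀ g ∈ centr ρ A, ∀ x ∈ LinearMap.ker (A.baseChange (AlgebraicClosure k) - lam • 1),
      (ρ g).baseChange (AlgebraicClosure k) x ∈
        LinearMap.ker (A.baseChange (AlgebraicClosure k) - lam • 1) := by
    intro g hg x hx
    rw [LinearMap.mem_ker] at hx ⊢
    have hg' : ρ g * A = A * ρ g := hg
    have h1 : (ρ g).baseChange (AlgebraicClosure k) * A.baseChange (AlgebraicClosure k) =
        A.baseChange (AlgebraicClosure k) * (ρ g).baseChange (AlgebraicClosure k) := by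
      rw [← LinearMap.baseChange_mul, hg', LinearMap.baseChange_mul]
    have h3 := congrArg (fun f : Module.End (AlgebraicClosure k)
      (TensorProduct k (AlgebraicClosure k) V) => f x) h1
    simp only [Module.End.mul_apply] at h3
    simp only [LinearMap.sub_apply, LinearMap.smul_apply, Module.End.one_apply] at hx ⊢
    rw [← h3, ← map_smul, ← map_sub, hx, map_zero]
  have hWbot : LinearMap.ker (A.baseChange (AlgebraicClosure k) - lam • 1) ≠ ⊥ := by
    intro hb
    apply hne (-lam) (neg_ne_zero.mpr hlam0)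
    refine LinearMap.ext fun x => ?_
    have hx : (A.baseChange (AlgebraicClosure k) + lam • 1) x ∈
        LinearMap.ker (A.baseChange (AlgebraicClosure k) - lam • 1) := by
      rw [LinearMap.mem_ker]
      exact hprod x
    rw [hb, Submodule.mem_bot] at hx
    simp only [LinearMap.add_apply, LinearMap.smul_apply, Module.End.one_apply] at hx
    simp only [LinearMap.smul_apply, Module.End.one_apply, neg_smul]
    exact eq_neg_of_add_eq_zero_left hx
  have hWtop : LinearMap.ker (A.baseChange (AlgebraicClosure k) - lam • 1) ≠ ⊤ := by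
    intro ht
    apply hne lam hlam0
    exact sub_eq_zero.mp (LinearMap.ker_eq_top.mp ht)
  by_cases hall : ∀ g : Γ, g ∈ centr ρ A
  · rcases h.absIrr _ (fun g => hstab g (hall g)) with hb | ht
    · exact hWbot hb
    · exact hWtop ht
  · push Not at hall
    obtain ⟨g₀, hg₀⟩ := hall
    have hidx : (centr ρ A).index = 2 := by
      refine index_eq_two_of hg₀ ?_
      intro a b ha hb
      obtain ⟨ca, hca⟩ := hst a
      obtain ⟨cb, hcb⟩ := hst b
      have ha' : ρ a * A = -(A * ρ a) := by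
        rcases conj_cases ρ h.finrank_eq h2 A d hd0 hsq a ca hca with h' | h'
        · exact absurd h' ha
        · exact h'
      have hb' : ρ b * A = -(A * ρ b) := by
        rcases conj_cases ρ h.finrank_eq h2 A d hd0 hsq b cb hcb with h' | h'
        · exact absurd h' hb
        · exact h'
      show ρ (a * b) * A = A * ρ (a * b)
      rw [map_mul, mul_assoc, hb', mul_neg, ← mul_assoc, ha', neg_mul, neg_neg, mul_assoc]
    rcases h.tw (AlgebraicClosure k) (centr ρ A) hidx _ hstab with hb | ht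
    · exact hWbot hb
    · exact hWtop ht

/-- **The line case.** -/
theorem line_false (ρ : Γ →* Module.End k V) (p : ℕ) [hp : Fact p.Prime] (hp2 : p ≠ 2)
    (h : TWHyp ρ p) (A : Module.End k V) (hA0 : A ≠ 0) (hAtr : LinearMap.trace k V A = 0)
    (hst : ∀ g : Γ, ∃ c : k, ρ g * A * ρ g⁻¹ = c • A) : False := by
  obtain ⟨d, hd⟩ := sq_eq_smul_one h.finrank_eq A hAtr
  by_cases hd0 : d = 0
  · rw [hd0, zero_smul] at hd
    exact line_false_nil ρ p h A hA0 hd hst
  · exact line_false_ss ρ p h (two_ne_zero_of_char hp.out hp2 h.char_p) A hAtr d hd0 hd hst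

end Line

section Main

variable {k : Type} [Field k] {V : Type} [AddCommGroup V] [Module k V] [Module.Finite k V]
variable {Γ : Type} [Group Γ]

/-- A stable subspace of trace-zero endomorphisms is not a line. -/
theorem finrank_ne_one (ρ : Γ →* Module.End k V) (p : ℕ) [Fact p.Prime] (hp2 : p ≠ 2)
    (h : TWHyp ρ p) (W : Submodule k (Module.End k V))
    (hWtr : ∀ A ∈ W, LinearMap.trace k V A = 0)
    (hWst : ∀ g : Γ, ∀ A ∈ W, ρ g * A * ρ g⁻¹ ∈ W) : finrank k W ≠ 1 := by
  intro h1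
  obtain ⟨⟨A, hA⟩, hA0, hspan⟩ := finrank_eq_one_iff'.mp h1
  refine line_false ρ p hp2 h A (fun h0 => hA0 (Subtype.ext h0)) (hWtr A hA) (fun g => ?_)
  obtain ⟨c, hc⟩ := hspan ⟨_, hWst g A hA⟩
  exact ⟨c, (congrArg Subtype.val hc).symm⟩

/-- **IRR**: `ad⁰ρ` is irreducible. -/
theorem ad0Irreducible : Ad0IrreducibleStatement := by
  intro k _ V _ _ _ Γ _ ρ p hp hp2 h W hWtr hWst hW0 A hA
  have h2 : (2 : k) ≠ 0 := two_ne_zero_of_char hp.out hp2 h.char_p
  have htr1 : LinearMap.trace k V 1 = 2 := by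
    rw [LinearMap.trace_one, h.finrank_eq]
    norm_num
  have hone : (1 : Module.End k V) ≠ 0 := by
    intro h0
    rw [h0, map_zero] at htr1
    exact h2 htr1.symm
  have hdisj : W ⊓ Submodule.span k {(1 : Module.End k V)} = ⊥ := by
    rw [Submodule.eq_bot_iff]
    rintro x ⟨hxW, hx1⟩
    obtain ⟨t, rfl⟩ := Submodule.mem_span_singleton.mp hx1
    have h3 := hWtr _ hxW
    rw [map_smul, htr1, smul_eq_mul] at h3
    rcases mul_eq_zero.mp h3 with ht | ht
    · rw [ht, zero_smul]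
    · exact absurd ht h2
  have hfU : finrank k ↥(W ⊔ Submodule.span k {(1 : Module.End k V)}) = finrank k W + 1 := by
    have h3 := Submodule.finrank_sup_add_finrank_inf_eq W
      (Submodule.span k {(1 : Module.End k V)})
    rw [hdisj, finrank_bot, add_zero, finrank_span_singleton hone] at h3
    exact h3
  have horth := LinearMap.BilinForm.finrank_add_finrank_orthogonal' (B := trForm k V)
    (W ⊔ Submodule.span k {(1 : Module.End k V)})
  rw [trForm_ker, inf_bot_eq, finrank_bot, add_zero, finrank_end h.finrank_eq, hfU] at horth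
  have hWpos : 0 < finrank k W := by
    rw [Module.finrank_pos_iff]
    exact Submodule.nontrivial_iff_ne_bot.mpr hW0
  have hW1 : finrank k W ≠ 1 := finrank_ne_one ρ p hp2 h W hWtr hWst
  have hUst : ∀ g : Γ, ∀ n ∈ W ⊔ Submodule.span k {(1 : Module.End k V)},
      ρ g * n * ρ g⁻¹ ∈ W ⊔ Submodule.span k {(1 : Module.End k V)} := by
    intro g n hn
    obtain ⟨w, hw, z, hz, rfl⟩ := Submodule.mem_sup.mp hn
    obtain ⟨t, rfl⟩ := Submodule.mem_span_singleton.mp hz
    have h3 : ρ g * (w + t • 1) * ρ g⁻¹ = ρ g * w * ρ g⁻¹ + t • 1 := by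
      rw [mul_add, add_mul, mul_smul_comm, mul_one, smul_mul_assoc, rho_mul_inv]
    rw [h3]
    exact Submodule.add_mem _ (Submodule.mem_sup_left (hWst g w hw))
      (Submodule.mem_sup_right (Submodule.smul_mem _ _ (Submodule.mem_span_singleton_self 1)))
  have hO1 : finrank k
      ↥((trForm k V).orthogonal (W ⊔ Submodule.span k {(1 : Module.End k V)})) ≠ 1 := by
    refine finrank_ne_one ρ p hp2 h _ ?_ ?_
    · intro C hC
      have h3 := hC 1 (Submodule.mem_sup_right (Submodule.mem_span_singleton_self 1))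
      rw [trForm_apply, one_mul] at h3
      exact h3
    · intro g C hC n hn
      rw [trForm_apply]
      have h3 := hC _ (hUst g⁻¹ n hn)
      rw [inv_inv, trForm_apply] at h3
      rw [← h3]
      calc LinearMap.trace k V (n * (ρ g * C * ρ g⁻¹))
          = LinearMap.trace k V ((n * ρ g * C) * ρ g⁻¹) := by simp only [mul_assoc]
        _ = LinearMap.trace k V (ρ g⁻¹ * (n * ρ g * C)) := LinearMap.trace_mul_comm k _ _
        _ = LinearMap.trace k V (ρ g⁻¹ * n * ρ g * C) := by simp only [mul_assoc]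
  have hf3 : finrank k W = 3 := by omega
  have hUtop : W ⊔ Submodule.span k {(1 : Module.End k V)} = ⊤ :=
    Submodule.eq_top_of_finrank_eq (by rw [hfU, hf3, finrank_end h.finrank_eq])
  have hAU : A ∈ W ⊔ Submodule.span k {(1 : Module.End k V)} := by
    rw [hUtop]
    trivial
  obtain ⟨w, hw, z, hz, rfl⟩ := Submodule.mem_sup.mp hAU
  obtain ⟨t, rfl⟩ := Submodule.mem_span_singleton.mp hz
  have ht : t = 0 := by
    rw [map_add, hWtr w hw, zero_add, map_smul, htr1, smul_eq_mul] at hA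
    rcases mul_eq_zero.mp hA with ht | ht
    · exact ht
    · exact absurd ht h2
  rw [ht, zero_smul, add_zero]
  exact hw

end Main

end Fermat.Agent.S56.P3.H666

end
-- ===== PACK-END S56/P3/H666/IRR.lean

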