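import Mathlib
import Fermat.Prelude.Def_FLTPrelim_Ramification
import Fermat.Prelude.Def_EllipticCurve_FrobeniusTrace
import Fermat.Prelude.Def_ExtCitation_KummerBridge
import Fermat.Prelude.Def_GroupCohomology_ContinuousUnramified
import Fermat.Agent.Pack.S56.E7L0
import Fermat.Agent.Pack.S56.E3L3
import Fermat.Agent.Pack.S56.E7L2
import Fermat.Agent.Pack.S56.E3L0
import Fermat.Agent.Pack.S56.E5L3
import Fermat.Agent.Pack.S56.E7L3
import Fermat.Agent.Pack.S56.E5L0
import Fermat.Agent.Pack.S56.E1L3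
import Fermat.Agent.Pack.S56.E7L1
import Fermat.Agent.Pack.S56.E1L0
import Fermat.Agent.Pack.S56.E3L1

-- ===== PACK-BEGIN S56/P3/H306/Sel.lean
section


/-!
# S56 / P3 : piece SEL (helper306)

`sel : H1VanishStatement → Ad0IrreducibleStatement → ExistsRegularStatement →
  AbstractTWElementStatement`
-/

set_option autoImplicit false
set_option linter.unusedSectionVars false

open Polynomial

namespace Fermat.Agent.S56.P3.H306

open Fermat.Agent.S56.P3

variable {k : Type} [Field k] {V : Type} [AddCommGroup V] [Module k V] [Module.Finite k V]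
variable {Γ : Type} [Group Γ]

theorem two_ne_zero_of_char {p : ℕ} (hp : p.Prime) (hp2 : p ≠ 2) (hp0 : (p : k) = 0) :
    (2 : k) ≠ 0 := by
  intro h2
  have h2' : ((2 : ℕ) : k) = 0 := by exact_mod_cast h2
  have d1 : ringChar k ∣ p := ringChar.dvd hp0
  have d2 : ringChar k ∣ 2 := ringChar.dvd h2'
  have hr : (ringChar k).Prime := by
    rcases CharP.char_is_prime_or_zero k (ringChar k) with h | h
    · exact h
    · rw [h, zero_dvd_iff] at d1
      exact absurd d1 hp.ne_zero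
  have e1 := (Nat.prime_dvd_prime_iff_eq hr hp).mp d1
  have e2 := (Nat.prime_dvd_prime_iff_eq hr Nat.prime_two).mp d2
  exact hp2 (e1.symm.trans e2)

theorem twEnd_of_det_one {ρ : Γ →* Module.End k V} {g : Γ} (h : LinearMap.det (ρ g) = 1)
    (A : Module.End k V) : twEnd ρ g A = ρ g * A * ρ g⁻¹ := by
  rw [twEnd, h, one_smul]

/-- a regular element is not a scalar. -/
theorem not_scalar_of_isRegular {ρ : Γ →* Module.End k V} {σ : Γ} (h : IsRegular ρ σ) (c : k) :
    ρ σ ≠ c • (1 : Module.End k V) := by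
  obtain ⟨α, β, hαβ, hch⟩ := h
  intro hc
  have key : ∀ γ : k, (LinearMap.charpoly (ρ σ)).IsRoot γ → c = γ := by
    intro γ hγ
    have hE : Module.End.HasEigenvalue (ρ σ) γ :=
      (Module.End.hasEigenvalue_iff_isRoot_charpoly (ρ σ) γ).mpr hγ
    obtain ⟨v, hv⟩ := hE.exists_hasEigenvector
    have h1 : ρ σ v = γ • v := hv.apply_eq_smul
    rw [hc] at h1
    have h2 : (c - γ) • v = 0 := by
      rw [sub_smul]
      simpa [sub_eq_zero] using h1
    rcases smul_eq_zero.mp h2 with h3 | h3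
    · exact sub_eq_zero.mp h3
    · exact absurd h3 hv.2
  have hα : c = α := key α (by rw [hch]; simp [IsRoot])
  have hβ : c = β := key β (by rw [hch]; simp [IsRoot])
  exact hαβ (hα.symm.trans hβ)

/-- for a regular `σ₀`, `(Ad ρ σ₀ - 1) ad⁰` is a proper subspace of `ad⁰`. -/
theorem exists_not_mem_range {p : ℕ} (hp : p.Prime) (hp2 : p ≠ 2) (hp0 : (p : k) = 0)
    (hfin : Module.finrank k V = 2) {ρ : Γ →* Module.End k V} {σ₀ : Γ}
    (hreg : IsRegular ρ σ₀) :
    ∃ A : Module.End k V, LinearMap.trace k V A = 0 ∧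
      ∀ m : Module.End k V, LinearMap.trace k V m = 0 → A ≠ ρ σ₀ * m * ρ σ₀⁻¹ - m := by
  classical
  have h2 : (2 : k) ≠ 0 := two_ne_zero_of_char hp hp2 hp0
  set T : Module.End k V →ₗ[k] Module.End k V := conjL ρ σ₀ - LinearMap.id with hT
  have hTapp : ∀ m, T m = ρ σ₀ * m * ρ σ₀⁻¹ - m := by
    intro m
    simp [hT]
  set ad0 : Submodule k (Module.End k V) := LinearMap.ker (LinearMap.trace k V) with had0
  have hTmem : ∀ m ∈ ad0, T m ∈ ad0 := by
    intro m hm
    rw [had0, LinearMap.mem_ker] at hm ⊢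
    rw [hTapp, map_sub, trace_conj, hm, sub_zero]
  set T' : ad0 →ₗ[k] ad0 := T.restrict hTmem with hT'
  by_contra hcon
  push_neg at hcon
  have hsurj : Function.Surjective T' := by
    rintro ⟨A, hA⟩
    obtain ⟨m, hm, hAm⟩ := hcon A (LinearMap.mem_ker.mp hA)
    refine ⟨⟨m, LinearMap.mem_ker.mpr hm⟩, ?_⟩
    apply Subtype.ext
    rw [hT', LinearMap.restrict_coe_apply, hTapp]
    exact hAm.symm
  have hinj : Function.Injective T' := LinearMap.injective_iff_surjective.mpr hsurj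
  -- the trace-zero part of `ρ σ₀`
  set c : k := LinearMap.trace k V (ρ σ₀) / 2 with hc
  set m₀ : Module.End k V := ρ σ₀ - c • 1 with hm₀
  have hm₀tr : LinearMap.trace k V m₀ = 0 := by
    rw [hm₀, map_sub, map_smul, LinearMap.trace_one, hfin, hc, smul_eq_mul]
    field_simp
    push_cast
    ring
  have hm₀T : T m₀ = 0 := by
    rw [hTapp, hm₀]
    have e : ρ σ₀ * (ρ σ₀ - c • 1) * ρ σ₀⁻¹ = (ρ σ₀ - c • 1) * (ρ σ₀ * ρ σ₀⁻¹) := by
      rw [← mul_assoc]
      congr 1
      rw [mul_sub, sub_mul, mul_smul_comm, smul_mul_assoc, mul_one, one_mul]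
    rw [e, rho_mul_inv, mul_one, sub_self]
  have hm₀ne : m₀ ≠ 0 := by
    intro h
    exact not_scalar_of_isRegular hreg c (sub_eq_zero.mp h)
  have hker : T' ⟨m₀, LinearMap.mem_ker.mpr hm₀tr⟩ = T' 0 := by
    apply Subtype.ext
    rw [hT', LinearMap.restrict_coe_apply, hm₀T, map_zero]
    rfl
  have := hinj hker
  exact hm₀ne (congrArg Subtype.val this)

/-- **(SEL)** selection of the Taylor–Wiles element. -/
theorem sel (h1 : H1VanishStatement) (hirr : Ad0IrreducibleStatement)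
    (hreg : ExistsRegularStatement) : AbstractTWElementStatement := by
  intro k _ _ V _ _ _ Γ _ ρ p _ hp2 hT Δ hΔ hC hdet1 hord ψ hψ hnc
  have hp : p.Prime := Fact.out
  -- Step 1 : `ψ` does not vanish on `Δ ∩ ker ρ`
  have hex : ∃ ν ∈ Δ, ρ ν = 1 ∧ ψ ν ≠ 0 := by
    by_contra hcon
    push_neg at hcon
    exact hnc (h1 k V Γ ρ p hp2 hT Δ hC hdet1 hord ψ hψ hcon)
  obtain ⟨ν₀, hν₀Δ, hν₀ρ, hν₀ψ⟩ := hex
  -- Step 2 : `ψ(Δ ∩ ker ρ)` spans `ad⁰`
  set Nset : Set Γ := {ν | ν ∈ Δ ∧ ρ ν = 1} with hNset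
  set W : Submodule k (Module.End k V) := Submodule.span k (ψ '' Nset) with hW
  have hWtr : ∀ A ∈ W, LinearMap.trace k V A = 0 := by
    intro A hA
    have hle : W ≤ LinearMap.ker (LinearMap.trace k V) := by
      rw [hW, Submodule.span_le]
      rintro _ ⟨ν, -, rfl⟩
      exact LinearMap.mem_ker.mpr (hψ.trace_zero ν)
    exact LinearMap.mem_ker.mp (hle hA)
  have hWconj : ∀ g : Γ, ∀ A ∈ W, ρ g * A * ρ g⁻¹ ∈ W := by
    intro g A hA
    have hle : W ≤ Submodule.comap (conjL ρ g) W := by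
      rw [hW, Submodule.span_le]
      rintro _ ⟨ν, ⟨hνΔ, hνρ⟩, rfl⟩
      show conjL ρ g (ψ ν) ∈ Submodule.span k (ψ '' Nset)
      rw [conjL_apply]
      have hmem : g * ν * g⁻¹ ∈ Nset :=
        ⟨hΔ.conj_mem ν hνΔ g, by rw [map_mul, map_mul, hνρ, mul_one, rho_mul_inv]⟩
      have hconj := cocycle_conj hψ g ν hνρ
      have e : ρ g * ψ ν * ρ g⁻¹ = (LinearMap.det (ρ g))⁻¹ • ψ (g * ν * g⁻¹) := by
        rw [hconj, twEnd, smul_smul, inv_mul_cancel₀ (det_rho_ne_zero ρ g), one_smul]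
      rw [e]
      exact Submodule.smul_mem _ _ (Submodule.subset_span ⟨_, hmem, rfl⟩)
    have h := hle hA
    rwa [Submodule.mem_comap, conjL_apply] at h
  have hWne : W ≠ ⊥ := by
    intro h
    have hmem : ψ ν₀ ∈ W := Submodule.subset_span ⟨ν₀, ⟨hν₀Δ, hν₀ρ⟩, rfl⟩
    rw [h, Submodule.mem_bot] at hmem
    exact hν₀ψ hmem
  have hWtop := hirr k V Γ ρ p hp2 hT W hWtr hWconj hWne
  -- Step 3 : a regular element of `Δ`
  obtain ⟨σ₀, hσ₀Δ, hσ₀reg⟩ := hreg k V Γ ρ p hp2 hT Δ hC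
  have hσ₀det := hdet1 σ₀ hσ₀Δ
  by_cases hin : InRange ρ ψ σ₀
  swap
  · exact ⟨σ₀, hσ₀Δ, hσ₀reg, hσ₀det, hin⟩
  obtain ⟨m₁, hm₁, hm₁eq⟩ := hin
  rw [twEnd_of_det_one hσ₀det] at hm₁eq
  obtain ⟨A, hAtr, hAR⟩ := exists_not_mem_range hp hp2 hT.char_p hT.finrank_eq hσ₀reg
  -- Step 4 : some `ψ ν` is outside the range
  set R : Submodule k (Module.End k V) :=
    Submodule.map (conjL ρ σ₀ - LinearMap.id) (LinearMap.ker (LinearMap.trace k V)) with hR
  have hRmem : ∀ x, x ∈ R ↔ ∃ m, LinearMap.trace k V m = 0 ∧ x = ρ σ₀ * m * ρ σ₀⁻¹ - m := by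
    intro x
    rw [hR, Submodule.mem_map]
    constructor
    · rintro ⟨m, hm, rfl⟩
      exact ⟨m, LinearMap.mem_ker.mp hm, by simp⟩
    · rintro ⟨m, hm, rfl⟩
      exact ⟨m, LinearMap.mem_ker.mpr hm, by simp⟩
  have hAW : A ∈ W := hWtop A hAtr
  have hex2 : ∃ ν ∈ Nset, ψ ν ∉ R := by
    by_contra hcon
    push_neg at hcon
    have hle : W ≤ R := by
      rw [hW, Submodule.span_le]
      rintro _ ⟨ν, hν, rfl⟩
      exact hcon ν hν
    obtain ⟨m, hm, hAm⟩ := (hRmem A).mp (hle hAW)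
    exact hAR m hm hAm
  obtain ⟨ν, ⟨hνΔ, hνρ⟩, hνR⟩ := hex2
  have e : ρ (ν * σ₀) = ρ σ₀ := by rw [map_mul, hνρ, one_mul]
  have hdet' := hdet1 _ (Δ.mul_mem hνΔ hσ₀Δ)
  refine ⟨ν * σ₀, Δ.mul_mem hνΔ hσ₀Δ, ?_, hdet', ?_⟩
  · obtain ⟨α, β, hαβ, hch⟩ := hσ₀reg
    exact ⟨α, β, hαβ, by rw [e]; exact hch⟩
  · rintro ⟨m, hm, hmeq⟩
    rw [cocycle_mul_of_rho_eq_one hψ ν σ₀ hνρ, twEnd_congr e, twEnd_of_det_one hσ₀det] at hmeq
    apply hνR
    rw [hRmem]
    refine ⟨m - m₁, by rw [map_sub, hm, hm₁, sub_zero], ?_⟩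
    have h3 : ψ ν = (ρ σ₀ * m * ρ σ₀⁻¹ - m) - ψ σ₀ := eq_sub_of_add_eq hmeq
    rw [h3, hm₁eq, mul_sub, sub_mul]
    abel

end Fermat.Agent.S56.P3.H306

end
-- ===== PACK-END S56/P3/H306/Sel.lean

-- ===== PACK-BEGIN S56/H14/CycExp.lean
section




/-!
# S56 / TWP (helper14): cyclotomic exponents and Frobenius elements on roots of unity

* `exists_isCycExp` : every `σ ∈ G_ℚ` has a cyclotomic exponent on `μ_p`.
* `isCycExp_conj` : cyclotomic exponents are invariant under conjugation.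
* `isCycExp_one_of_fixes` : if `σ` fixes `μ_{p^(n+1)}` then `1` is a cyclotomic exponent.
* `pow_dvd_sub_one_of_isFrobeniusAt` (TWP1): a Frobenius element at a valuation subring over
  `ℓ ≠ p` which fixes the `p^m`-th roots of unity forces `p^m ∣ ℓ - 1`.
-/

set_option autoImplicit false

namespace Fermat.Agent.S56.H14

open Fermat.Agent.S56

/-- Every automorphism has a cyclotomic exponent on the `p`-th roots of unity. -/
theorem exists_isCycExp (p : ℕ) (hp : 0 < p) (σ : GQ) : ∃ a : ℕ, IsCycExp p σ a := by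
  have : NeZero p := ⟨hp.ne'⟩
  obtain ⟨ζ, hζ⟩ := HasEnoughRootsOfUnity.exists_primitiveRoot Qb p
  have h1 : (σ ζ) ^ p = 1 := by rw [← map_pow, hζ.pow_eq_one, map_one]
  obtain ⟨a, -, ha⟩ := hζ.eq_pow_of_pow_eq_one h1
  refine ⟨a, fun μ hμ => ?_⟩
  obtain ⟨i, -, rfl⟩ := hζ.eq_pow_of_pow_eq_one hμ
  rw [map_pow, ← ha, ← pow_mul, ← pow_mul, mul_comm]

/-- Cyclotomic exponents are invariant under conjugation. -/
theorem isCycExp_conj {p : ℕ} {σ : GQ} {a : ℕ} (h : IsCycExp p σ a) (g : GQ) :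
    IsCycExp p (g * σ * g⁻¹) a := by
  intro μ hμ
  have h1 : (g⁻¹ μ) ^ p = 1 := by rw [← map_pow, hμ, map_one]
  have h2 : (g * σ * g⁻¹) μ = g (σ (g⁻¹ μ)) := rfl
  rw [h2, h _ h1, map_pow]
  congr 1
  exact Fermat.Agent.Lib.Cheb.H476.apply_inv_apply g μ

/-- If `σ` fixes the `p`-th roots of unity then `1` is a cyclotomic exponent of `σ`. -/
theorem isCycExp_one_of_fixes {p : ℕ} {σ : GQ} (h : ∀ μ : Qb, μ ^ p = 1 → σ μ = μ) :
    IsCycExp p σ 1 := by
  intro μ hμ
  rw [pow_one]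
  exact h μ hμ

/-- If `σ` fixes the `p^(n+1)`-th roots of unity, it fixes the `p`-th roots of unity. -/
theorem fixes_of_fixes_pow {p n : ℕ} {σ : GQ}
    (h : ∀ μ : Qb, μ ^ p ^ (n + 1) = 1 → σ μ = μ) (μ : Qb) (hμ : μ ^ p = 1) : σ μ = μ := by
  apply h
  rw [pow_succ', pow_mul, hμ, one_pow]

/-- **TWP1.** A Frobenius element at a valuation subring over a prime `ℓ ≠ p` which fixes the
`N`-th roots of unity, `N = p ^ m`, forces `N ∣ ℓ - 1`. -/
theorem pow_dvd_sub_one_of_isFrobeniusAt {p ℓ m : ℕ} (hp : p.Prime) (hℓ : ℓ.Prime) (hne : ℓ ≠ p)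
    {A : ValuationSubring Qb} (hA : A.LiesOverPrime ℓ) {τ : GQ} (hτ : A.IsFrobeniusAt τ ℓ)
    (hfix : ∀ μ : Qb, μ ^ p ^ m = 1 → τ μ = μ) : p ^ m ∣ ℓ - 1 := by
  have hN : NeZero (p ^ m) := ⟨pow_ne_zero _ hp.ne_zero⟩
  obtain ⟨ζ, hζ⟩ := HasEnoughRootsOfUnity.exists_primitiveRoot Qb (p ^ m)
  have hpv : A.valuation ((p : ℕ) : Qb) = 1 :=
    Fermat.Agent.S55.Bridge.val_prime_eq_one (A := A) hA hℓ hp hne
  have hNv : A.valuation (((p ^ m : ℕ)) : Qb) = 1 := by
    rw [Nat.cast_pow, map_pow, hpv, one_pow]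
  have hζA : ζ ∈ A := by
    rw [← A.valuation_le_one_iff]
    have h : (A.valuation ζ) ^ (p ^ m) = 1 := by rw [← map_pow, hζ.pow_eq_one, map_one]
    exact ((pow_eq_one_iff.1 h).resolve_right hN.ne).le
  have h1 := ((Fermat.Agent.Lib.Cheb.H476.isFrobeniusAt_iff A τ ℓ).mp hτ).2 ζ hζA
  rw [hfix ζ hζ.pow_eq_one] at h1
  have h2 : ζ = ζ ^ ℓ := by
    by_contra hcon
    have h3 := Fermat.Agent.S55.Bridge.val_sub_roots_eq_one (A := A) hN.ne hNv
      hζ.pow_eq_one (by rw [← pow_mul, mul_comm, pow_mul, hζ.pow_eq_one, one_pow]) hcon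
    rw [ValuationSubring.mem_nonunits_iff, h3] at h1
    exact lt_irrefl _ h1
  have h4 : ζ ^ (ℓ - 1) = 1 := by
    have hζ0 : ζ ≠ 0 := hζ.ne_zero hN.ne
    have h5 : ζ * ζ ^ (ℓ - 1) = ζ * 1 := by
      rw [← pow_succ', Nat.sub_add_cancel hℓ.one_le, mul_one]
      exact h2.symm
    exact mul_left_cancel₀ hζ0 h5
  exact hζ.dvd_of_pow_eq_one _ h4

end Fermat.Agent.S56.H14

end
-- ===== PACK-END S56/H14/CycExp.lean

-- ===== PACK-BEGIN S56/H794/TameRat.lean
section







/-!
# S56 / LOC-TAME (helper794), part 4: tame inertia over `ℚ` (Prelude form)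

`P` a valuation subring of `ℚ̄` lying over the prime `q`, `I = P.inertiaSubgroupIn ℚ`,
`f : G_ℚ →* G` of finite level, `ℓ ≠ q` a prime with `f τ ^ ℓ = 1` for all `τ ∈ I`.

* `inertia_image_cyclic` : `∃ τ₀ ∈ I, ∀ σ ∈ I, ∃ j < ℓ, f σ = f τ₀ ^ j`.
* `inertia_image_pow_of_ne_one` : any `τ ∈ I` with `f τ ≠ 1` is such a generator.
* `inertia_frobenius_relation` : `f (φ τ φ⁻¹) = f τ ^ q` for every Frobenius `φ` at `P`.
* `inertia_image_comm` : `f` is commutative on `I`.
-/

set_option autoImplicit false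

namespace Fermat.Agent.S56.H794

open Fermat.Agent.A2.H708

section rat

variable {L : Type*} [Field L] [CharZero L] (P : ValuationSubring L)

omit [CharZero L] in
/-- Integers prime to `q` are units of a valuation ring lying over `q`. -/
theorem valuation_natCast_eq_one_of_not_dvd {q : ℕ} (hq : q.Prime) (hP : P.LiesOverPrime q)
    {n : ℕ} (hn : ¬ q ∣ n) : P.valuation (n : L) = 1 := by
  have hle : P.valuation (n : L) ≤ 1 := (P.valuation_le_one_iff _).mpr (natCast_mem P n)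
  refine le_antisymm hle (not_lt.mp fun hlt => ?_)
  have hqlt : P.valuation (q : L) < 1 := P.mem_nonunits_iff.mp hP
  have hcop : IsCoprime (n : ℤ) (q : ℤ) := by
    rw [Int.isCoprime_iff_gcd_eq_one, Int.gcd_natCast_natCast]
    exact ((Nat.Prime.coprime_iff_not_dvd hq).mpr hn).symm
  obtain ⟨a, b, hab⟩ := hcop
  have h1 : ((a : L) * (n : L) + (b : L) * (q : L)) = 1 := by
    have := congrArg (fun z : ℤ => (z : L)) hab
    simpa using this
  have ha : P.valuation (a : L) ≤ 1 := (P.valuation_le_one_iff _).mpr (intCast_mem P a)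
  have hb : P.valuation (b : L) ≤ 1 := (P.valuation_le_one_iff _).mpr (intCast_mem P b)
  have h2 : P.valuation ((a : L) * (n : L)) < 1 := by
    rw [map_mul]
    exact lt_of_le_of_lt (mul_le_of_le_one_left zero_le ha) hlt
  have h3 : P.valuation ((b : L) * (q : L)) < 1 := by
    rw [map_mul]
    exact lt_of_le_of_lt (mul_le_of_le_one_left zero_le hb) hqlt
  have h4 : P.valuation ((a : L) * (n : L) + (b : L) * (q : L)) < 1 :=
    Valuation.map_add_lt _ h2 h3
  rw [h1, map_one] at h4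
  exact lt_irrefl _ h4

/-- The valuation of a nonzero natural number is a power of the valuation of `q`. -/
theorem exists_valuation_natCast_eq_pow {q : ℕ} (hq : q.Prime) (hP : P.LiesOverPrime q)
    {n : ℕ} (hn : n ≠ 0) : ∃ e : ℕ, P.valuation (n : L) = P.valuation (q : L) ^ e := by
  obtain ⟨e, n', hn', rfl⟩ := Nat.exists_eq_pow_mul_and_not_dvd hn q hq.ne_one
  refine ⟨e, ?_⟩
  rw [Nat.cast_mul, Nat.cast_pow, map_mul, map_pow,
    valuation_natCast_eq_one_of_not_dvd P hq hP hn', mul_one]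

/-- The value group of `ℚ` under a valuation over `q` is generated by the valuation of `q`. -/
theorem rankOneOver_rat [Algebra ℚ L] {q : ℕ} (hq : q.Prime) (hP : P.LiesOverPrime q) :
    RankOneOver ℚ P := by
  have hq0 : (q : L) ≠ 0 := Nat.cast_ne_zero.mpr hq.ne_zero
  refine ⟨Units.mk0 (q : L) hq0, fun a ha => ?_⟩
  have hnum : a.num.natAbs ≠ 0 := Int.natAbs_ne_zero.mpr (Rat.num_ne_zero.mpr ha)
  obtain ⟨e₁, h₁⟩ := exists_valuation_natCast_eq_pow P hq hP hnum
  obtain ⟨e₂, h₂⟩ := exists_valuation_natCast_eq_pow P hq hP a.den_ne_zero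
  refine ⟨(e₁ : ℤ) - (e₂ : ℤ), ?_⟩
  have hcast : algebraMap ℚ L a = (a.num : L) / (a.den : L) := by
    rw [eq_ratCast, Rat.cast_def]
  have hnumv : P.valuation ((a.num : ℤ) : L) = P.valuation ((a.num.natAbs : ℕ) : L) := by
    rcases Int.natAbs_eq a.num with h | h
    · conv_lhs => rw [h]
      simp
    · conv_lhs => rw [h]
      simp
  have hvq : P.valuation (q : L) ≠ 0 := (Valuation.ne_zero_iff _).mpr hq0
  rw [hcast, map_div₀, hnumv, h₁, h₂, Units.val_zpow_eq_zpow_val, Units.val_mk0, map_zpow₀,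
    zpow_sub₀ hvq, zpow_natCast, zpow_natCast]

end rat

section prelude

/-- `G_ℚ` -/
local notation "GQ" => (AlgebraicClosure ℚ ≃ₐ[ℚ] AlgebraicClosure ℚ)

/-- `ℚ̄/ℚ` is algebraic (for the `Algebra ℚ ℚ̄` instance found by instance search). -/
theorem isAlgebraic_Qbar_h794 : Algebra.IsAlgebraic ℚ (AlgebraicClosure ℚ) :=
  AlgebraicClosure.isAlgebraic ℚ

/-- `ℚ̄/ℚ` is Galois (for the `Algebra ℚ ℚ̄` instance found by instance search). -/
theorem isGalois_Qbar_h794 : IsGalois ℚ (AlgebraicClosure ℚ) := by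
  haveI : Algebra.IsAlgebraic ℚ (AlgebraicClosure ℚ) := isAlgebraic_Qbar_h794
  haveI : IsAlgClosure ℚ (AlgebraicClosure ℚ) := ⟨inferInstance, inferInstance⟩
  haveI : Normal ℚ (AlgebraicClosure ℚ) := IsAlgClosure.normal ℚ (AlgebraicClosure ℚ)
  exact isGalois_iff.mpr ⟨inferInstance, inferInstance⟩

attribute [local instance] isAlgebraic_Qbar_h794 isGalois_Qbar_h794

variable {G : Type*} [Group G] {f : GQ →* G} {P : ValuationSubring (AlgebraicClosure ℚ)}
  {q ℓ : ℕ}

/-- A prime `ℓ ≠ q` is a unit at `P | q`. -/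
theorem valuation_prime_eq_one (hq : q.Prime) (hP : P.LiesOverPrime q) (hℓ : ℓ.Prime)
    (hℓq : ℓ ≠ q) : P.valuation ((ℓ : ℕ) : AlgebraicClosure ℚ) = 1 :=
  valuation_natCast_eq_one_of_not_dvd P hq hP
    (fun h => hℓq ((Nat.prime_dvd_prime_iff_eq hq hℓ).mp h).symm)

/-- **Tame inertia, cyclicity.**  If `f(I_P)` has prime exponent `ℓ ≠ q` then every `τ ∈ I_P`
with `f τ ≠ 1` generates `f(I_P)`. -/
theorem inertia_image_pow_of_ne_one (hf : FiniteLevel f) (hq : q.Prime)
    (hP : P.LiesOverPrime q) (hℓ : ℓ.Prime) (hℓq : ℓ ≠ q)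
    (hexp : ∀ τ ∈ P.inertiaSubgroupIn ℚ, f τ ^ ℓ = 1) {σ τ : GQ}
    (hσ : σ ∈ P.inertiaSubgroupIn ℚ) (hτ : τ ∈ P.inertiaSubgroupIn ℚ) (hne : f τ ≠ 1) :
    ∃ j : ℕ, j < ℓ ∧ f σ = f τ ^ j :=
  exists_pow_eq_of_exponent_prime hf (rankOneOver_rat P hq hP) hℓ
    (valuation_prime_eq_one hq hP hℓ hℓq) hexp hσ hτ hne

/-- **Tame inertia, cyclicity (existence of a generator).** -/
theorem inertia_image_cyclic (hf : FiniteLevel f) (hq : q.Prime)
    (hP : P.LiesOverPrime q) (hℓ : ℓ.Prime) (hℓq : ℓ ≠ q)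
    (hexp : ∀ τ ∈ P.inertiaSubgroupIn ℚ, f τ ^ ℓ = 1) :
    ∃ τ₀ ∈ P.inertiaSubgroupIn ℚ, ∀ σ ∈ P.inertiaSubgroupIn ℚ,
      ∃ j : ℕ, j < ℓ ∧ f σ = f τ₀ ^ j :=
  exists_generator_of_exponent_prime hf (rankOneOver_rat P hq hP) hℓ
    (valuation_prime_eq_one hq hP hℓ hℓq) hexp

/-- **Tame inertia, Frobenius relation**: `f (φ τ φ⁻¹) = f τ ^ q`. -/
theorem inertia_frobenius_relation (hf : FiniteLevel f) (hq : q.Prime)
    (hP : P.LiesOverPrime q) (hℓ : ℓ.Prime) (hℓq : ℓ ≠ q)
    (hexp : ∀ τ ∈ P.inertiaSubgroupIn ℚ, f τ ^ ℓ = 1) {φ τ : GQ}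
    (hφ : P.IsFrobeniusAt φ q) (hτ : τ ∈ P.inertiaSubgroupIn ℚ) :
    f (φ * τ * φ⁻¹) = f τ ^ q :=
  map_conj_frobenius hf (primeToResChar_of_exponent (valuation_prime_eq_one hq hP hℓ hℓq) hexp)
    hφ hτ

/-- **Tame inertia, commutativity.** -/
theorem inertia_image_comm (hf : FiniteLevel f) (hq : q.Prime)
    (hP : P.LiesOverPrime q) (hℓ : ℓ.Prime) (hℓq : ℓ ≠ q)
    (hexp : ∀ τ ∈ P.inertiaSubgroupIn ℚ, f τ ^ ℓ = 1) {σ τ : GQ}
    (hσ : σ ∈ P.inertiaSubgroupIn ℚ) (hτ : τ ∈ P.inertiaSubgroupIn ℚ) :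
    f σ * f τ = f τ * f σ :=
  map_mul_comm_of_mem_inertiaIn hf
    (primeToResChar_of_exponent (valuation_prime_eq_one hq hP hℓ hℓq) hexp) hσ hτ

end prelude

end Fermat.Agent.S56.H794

end
-- ===== PACK-END S56/H794/TameRat.lean

-- ===== PACK-BEGIN S56/H734/KummerP.lean
section





/-!
# S56 / H734 : the Kummer count at `p` — `dim H¹(D_P, k(1)) ≤ 2`

Sub-leaf KUMMER-P of LOC-SO (and input of FLAT-O).  `p` an odd prime, `P` a valuation subring of
`ℚ̄` over `p`, `D_P` its decomposition group, `k` a field of characteristic `p`.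

* `kummer_zmod`  : there are `κ₁ κ₂ : G_ℚ → 𝔽_p` (Kummer cocycles of `p` and `1 + p`) such that
  every `c : G_ℚ → 𝔽_p` with `c (σ τ) = c σ + a · c τ` on `D_P` (`a` a cyclotomic exponent of `σ`)
  of finite level is `c σ = x κ₁ σ + y κ₂ σ + (a − 1) m` on `D_P`.
* `kummerP`      : the same with coefficients in `k`; `κ₁, κ₂` are themselves twisted cocycles
  of finite level on all of `G_ℚ`.
* `kummerP_submodule` : a `k`-space `T` of functions with `dim T ≤ 2` such that every such cocycle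
  is congruent on `D_P` to an element of `T` modulo a coboundary.
-/

set_option autoImplicit false
set_option linter.style.haveILetI false

namespace Fermat.Agent.S56.H734

open Fermat.Agent.S56 Fermat.Agent.S55.Bridge
open scoped Pointwise

variable (p : ℕ) [hp : Fact p.Prime]

/-- The twisted cocycle condition on a subgroup `D`, with values in a ring `R`. -/
def IsCycCocycleOn (R : Type*) [Ring R] (D : Subgroup _root_.Fermat.Agent.S56.GQ) (c : _root_.Fermat.Agent.S56.GQ → R) : Prop :=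
  ∀ σ ∈ D, ∀ τ ∈ D, ∀ a : ℕ, IsCycExp p σ a → c (σ * τ) = c σ + (a : R) * c τ

/-- Finite level on a subgroup `D`. -/
def HasLevelOn {X : Type*} (D : Subgroup _root_.Fermat.Agent.S56.GQ) (c : _root_.Fermat.Agent.S56.GQ → X) : Prop :=
  ∃ L : IntermediateField ℚ Qb, FiniteDimensional ℚ L ∧
    ∀ σ ∈ D, ∀ τ ∈ D, (∀ x ∈ L, τ x = x) → c (σ * τ) = c σ

theorem padicPlace_liesOver : (padicPlace p).LiesOverPrime p := by
  show ((p : ℕ) : Qb) ∈ (padicPlace p).nonunits
  rw [ValuationSubring.mem_nonunits_iff_exists_mem_maximalIdeal]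
  have hnorm : ‖padicEmbedding p ((p : ℕ) : Qb)‖ = (p : ℝ)⁻¹ :=
    norm_padicEmbedding_natCast_self p
  have hp1 : (1 : ℝ) < p := by exact_mod_cast hp.out.one_lt
  have hmem : ((p : ℕ) : Qb) ∈ padicPlace p := by
    rw [mem_padicPlace_iff_norm, hnorm]
    exact inv_le_one_of_one_le₀ hp1.le
  refine ⟨hmem, ?_⟩
  rw [IsLocalRing.mem_maximalIdeal, mem_nonunits_iff]
  rintro ⟨u, hu⟩
  have h1 : ((u⁻¹ : (padicPlace p)ˣ) : padicPlace p) * u = 1 := by simp
  have h2 : (((u⁻¹ : (padicPlace p)ˣ) : padicPlace p) : Qb) * ((p : ℕ) : Qb) = 1 := by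
    have := congrArg (Subtype.val) h1
    rw [hu] at this
    simpa using this
  have h3 := ((u⁻¹ : (padicPlace p)ˣ) : padicPlace p).2
  rw [mem_padicPlace_iff_norm] at h3
  have h4 := congrArg (fun z => ‖padicEmbedding p z‖) h2
  simp only [map_mul, norm_mul, map_one, norm_one] at h4
  rw [hnorm] at h4
  have hinv : (p : ℝ)⁻¹ < 1 := inv_lt_one_of_one_lt₀ hp1
  have hpos : (0 : ℝ) < (p : ℝ)⁻¹ := inv_pos.mpr (by linarith)
  nlinarith [norm_nonneg (padicEmbedding p
    ((((u⁻¹ : (padicPlace p)ˣ) : padicPlace p) : Qb)))]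

/-- **Kummer count, `𝔽_p`-coefficients.** -/
theorem kummer_zmod (hp2 : p ≠ 2) (P : ValuationSubring Qb) (hP : P.LiesOverPrime p) :
    ∃ κ₁ κ₂ : _root_.Fermat.Agent.S56.GQ → ZMod p,
      (IsCycCocycleOn p (ZMod p) ⊤ κ₁ ∧ HasLevelOn ⊤ κ₁) ∧
      (IsCycCocycleOn p (ZMod p) ⊤ κ₂ ∧ HasLevelOn ⊤ κ₂) ∧
      ∀ c : _root_.Fermat.Agent.S56.GQ → ZMod p,
      IsCycCocycleOn p (ZMod p) (P.decompositionSubgroup ℚ) c →
      HasLevelOn (P.decompositionSubgroup ℚ) c →
      ∃ x y m : ZMod p, ∀ σ ∈ P.decompositionSubgroup ℚ, ∀ a, IsCycExp p σ a →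
        c σ = x * κ₁ σ + y * κ₂ σ + ((a : ZMod p) - 1) * m := by
  haveI : NeZero p := ⟨hp.out.ne_zero⟩
  obtain ⟨g, hg⟩ := Fermat.Agent.Lib.Cheb.H476.exists_smul_eq hp.out (padicPlace_liesOver p) hP
  -- roots
  obtain ⟨ζ, hζ⟩ := HasEnoughRootsOfUnity.exists_primitiveRoot Qb p
  obtain ⟨π, hπ⟩ := IsAlgClosed.exists_pow_nat_eq ((p : ℕ) : Qb) hp.out.pos
  obtain ⟨β, hβ⟩ := IsAlgClosed.exists_pow_nat_eq (1 + ((p : ℕ) : Qb)) hp.out.pos
  have hp0 : ((p : ℕ) : Qb) ≠ 0 := by exact_mod_cast hp.out.ne_zero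
  have hπ0 : π ≠ 0 := by
    intro h
    rw [h, zero_pow hp.out.ne_zero] at hπ
    exact hp0 hπ.symm
  have h1p : (1 : Qb) + ((p : ℕ) : Qb) ≠ 0 := by
    have : ((1 + p : ℕ) : Qb) ≠ 0 := by exact_mod_cast (Nat.succ_ne_zero p ∘ (by omega))
    simpa using this
  have hβ0 : β ≠ 0 := by
    intro h
    rw [h, zero_pow hp.out.ne_zero] at hβ
    exact h1p hβ.symm
  have hπr : π ^ p = algebraMap ℚ Qb (p : ℚ) := by rw [hπ]; simp
  have hβr : β ^ p = algebraMap ℚ Qb (1 + (p : ℚ)) := by rw [hβ]; simp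
  choose κ₁ hκ₁ using exists_kummer_exp hζ π hπ0 (p : ℚ) hπr
  choose κ₂ hκ₂ using exists_kummer_exp hζ β hβ0 (1 + (p : ℚ)) hβr
  refine ⟨κ₁, κ₂, ⟨fun σ _ τ _ a ha => kummer_exp_cocycle hζ π hπ0 κ₁ hκ₁ σ τ a ha, ?_⟩,
    ⟨fun σ _ τ _ a ha => kummer_exp_cocycle hζ β hβ0 κ₂ hκ₂ σ τ a ha, ?_⟩, fun c hcoc hlev => ?_⟩
  · obtain ⟨L, hL, h⟩ := kummer_exp_level hζ π hπ0 κ₁ hκ₁
    exact ⟨L, hL, fun σ _ τ _ hτ => h σ τ hτ⟩
  · obtain ⟨L, hL, h⟩ := kummer_exp_level hζ β hβ0 κ₂ hκ₂
    exact ⟨L, hL, fun σ _ τ _ hτ => h σ τ hτ⟩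
  -- the local datum attached to `g`
  let ι' : Qb →+* PadicAlgCl p :=
    ((padicEmbedding p : Qb →ₐ[ℚ] PadicAlgCl p) : Qb →+* PadicAlgCl p).comp
      (((g⁻¹ : _root_.Fermat.Agent.S56.GQ) : Qb →ₐ[ℚ] Qb) : Qb →+* Qb)
  let loc' : (PadicAlgCl p ≃ₐ[ℚ_[p]] PadicAlgCl p) →* _root_.Fermat.Agent.S56.GQ :=
    (MulAut.conj g).toMonoidHom.comp (localGaloisToGlobal p)
  have hloc' : ∀ τ x, loc' τ x = g (localGaloisToGlobal p τ (g⁻¹ x)) := fun τ x => rfl
  have hι' : ∀ x, ι' x = padicEmbedding p (g⁻¹ x) := fun x => rfl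
  have compat : ∀ τ x, ι' (loc' τ x) = τ (ι' x) := by
    intro τ x
    rw [hι', hloc', Fermat.Agent.Lib.Cheb.H476.inv_apply_apply,
      padicEmbedding_localGaloisToGlobal, hι']
  have hrange : loc'.range = P.decompositionSubgroup ℚ := by
    rw [MonoidHom.range_comp, range_localGaloisToGlobal, ← hg]
    exact (MulAction.stabilizer_smul_eq_stabilizer_map_conj g (padicPlace p)).symm
  have hlevel : ∀ L : IntermediateField ℚ Qb, FiniteDimensional ℚ L →
      ∃ E : IntermediateField ℚ_[p] (PadicAlgCl p), FiniteDimensional ℚ_[p] E ∧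
        ∀ τ : PadicAlgCl p ≃ₐ[ℚ_[p]] PadicAlgCl p, (∀ y ∈ E, τ y = y) →
          ∀ x ∈ L, loc' τ x = x := by
    intro L hL
    haveI := hL
    obtain ⟨E, hE, hEL⟩ := exists_local_level_of_global p
      (L.map ((g⁻¹ : _root_.Fermat.Agent.S56.GQ) : Qb →ₐ[ℚ] Qb))
    refine ⟨E, hE, fun τ hτ x hx => ?_⟩
    have h1 := hEL τ ((IntermediateField.mem_fixingSubgroup_iff _ _).2 hτ)
    rw [IntermediateField.mem_fixingSubgroup_iff] at h1
    have h2 := h1 (g⁻¹ x) ((IntermediateField.mem_map _).2 ⟨x, hx, rfl⟩)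
    rw [hloc', h2, Fermat.Agent.Lib.Cheb.H476.apply_inv_apply]
  exact kummer_core p hp2 (P.decompositionSubgroup ℚ) ι' loc' compat hrange hlevel ζ π β hζ
    (by rw [hπ]) (by rw [hβ]) κ₁ κ₂ hκ₁ hκ₂ c hcoc hlev

/-- A function of finite level on `D` takes finitely many values on `D`. -/
theorem finite_values_of_hasLevelOn {X : Type*} (D : Subgroup _root_.Fermat.Agent.S56.GQ) (c : _root_.Fermat.Agent.S56.GQ → X)
    (hlev : HasLevelOn D c) : {v : X | ∃ σ ∈ D, c σ = v}.Finite := by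
  classical
  obtain ⟨L, hL, hc⟩ := hlev
  haveI := hL
  rcases isEmpty_or_nonempty X with hX | hX
  · exact Set.toFinite _
  obtain ⟨x₀⟩ := hX
  let r : _root_.Fermat.Agent.S56.GQ → (L →ₐ[ℚ] Qb) := fun σ => (σ : Qb →ₐ[ℚ] Qb).comp L.val
  have hr : ∀ σ ∈ D, ∀ σ' ∈ D, r σ = r σ' → c σ = c σ' := by
    intro σ hσ σ' hσ' h
    have h0 : σ' = σ * (σ⁻¹ * σ') := by group
    rw [h0]
    symm
    apply hc σ hσ (σ⁻¹ * σ') (D.mul_mem (D.inv_mem hσ) hσ')
    intro x hx
    have h1 : σ x = σ' x := DFunLike.congr_fun h ⟨x, hx⟩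
    show σ⁻¹ (σ' x) = x
    rw [← h1]
    exact Fermat.Agent.Lib.Cheb.H476.inv_apply_apply σ x
  let c' : (L →ₐ[ℚ] Qb) → X := fun φ =>
    if h : ∃ σ ∈ D, r σ = φ then c h.choose else x₀
  refine (Set.finite_range c').subset ?_
  rintro v ⟨σ, hσ, rfl⟩
  refine ⟨r σ, ?_⟩
  have h : ∃ σ' ∈ D, r σ' = r σ := ⟨σ, hσ, rfl⟩
  show (if h : ∃ σ' ∈ D, r σ' = r σ then c h.choose else x₀) = c σ
  rw [dif_pos h]
  exact hr _ h.choose_spec.1 _ hσ h.choose_spec.2

/-- **Kummer count at `p`** (sub-leaf KUMMER-P): coefficients in a field `k` of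
characteristic `p`. -/
theorem kummerP (hp2 : p ≠ 2) (k : Type*) [Field k] [CharP k p]
    (P : ValuationSubring Qb) (hP : P.LiesOverPrime p) :
    ∃ κ₁ κ₂ : _root_.Fermat.Agent.S56.GQ → k,
      (IsCycCocycleOn p k ⊤ κ₁ ∧ HasLevelOn ⊤ κ₁) ∧
      (IsCycCocycleOn p k ⊤ κ₂ ∧ HasLevelOn ⊤ κ₂) ∧
      ∀ c : _root_.Fermat.Agent.S56.GQ → k,
      IsCycCocycleOn p k (P.decompositionSubgroup ℚ) c →
      HasLevelOn (P.decompositionSubgroup ℚ) c →
      ∃ x y m : k, ∀ σ ∈ P.decompositionSubgroup ℚ, ∀ a, IsCycExp p σ a →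
        c σ = x * κ₁ σ + y * κ₂ σ + ((a : k) - 1) * m := by
  classical
  letI : Algebra (ZMod p) k := ZMod.algebra k p
  obtain ⟨κ₁, κ₂, hκ₁, hκ₂, hκ⟩ := kummer_zmod p hp2 P hP
  have htr : ∀ κ : _root_.Fermat.Agent.S56.GQ → ZMod p, (IsCycCocycleOn p (ZMod p) ⊤ κ ∧ HasLevelOn ⊤ κ) →
      (IsCycCocycleOn p k ⊤ (fun σ => algebraMap (ZMod p) k (κ σ)) ∧
        HasLevelOn ⊤ (fun σ => algebraMap (ZMod p) k (κ σ))) := by
    rintro κ ⟨h1, L, hL, h2⟩
    refine ⟨fun σ hσ τ hτ a ha => ?_, L, hL, fun σ hσ τ hτ h => ?_⟩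
    · show algebraMap (ZMod p) k (κ (σ * τ)) = _
      rw [h1 σ hσ τ hτ a ha, map_add, map_mul, map_natCast]
    · show algebraMap (ZMod p) k (κ (σ * τ)) = algebraMap (ZMod p) k (κ σ)
      rw [h2 σ hσ τ hτ h]
  refine ⟨fun σ => algebraMap (ZMod p) k (κ₁ σ), fun σ => algebraMap (ZMod p) k (κ₂ σ),
    htr κ₁ hκ₁, htr κ₂ hκ₂, fun c hcoc hlev => ?_⟩
  set D := P.decompositionSubgroup ℚ with hD
  -- the finite-dimensional `𝔽_p`-space spanned by the values
  have hfin := finite_values_of_hasLevelOn D c hlev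
  set W : Submodule (ZMod p) k := Submodule.span (ZMod p) {v : k | ∃ σ ∈ D, c σ = v} with hW
  haveI : FiniteDimensional (ZMod p) W := FiniteDimensional.span_of_finite (ZMod p) hfin
  have hcW : ∀ σ ∈ D, c σ ∈ W := fun σ hσ => Submodule.subset_span ⟨σ, hσ, rfl⟩
  let b := Module.finBasis (ZMod p) W
  -- extended coordinate functionals
  have hext : ∀ i, ∃ l : k →ₗ[ZMod p] ZMod p, l ∘ₗ W.subtype = b.coord i :=
    fun i => LinearMap.exists_extend (b.coord i)
  choose l hl using hext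
  have hl' : ∀ i (w : W), l i (w : k) = b.repr w i := by
    intro i w
    have := congrArg (fun f => f w) (hl i)
    simpa using this
  -- the component cocycles
  have hcomp : ∀ i, ∃ x y m : ZMod p, ∀ σ ∈ D, ∀ a, IsCycExp p σ a →
      l i (c σ) = x * κ₁ σ + y * κ₂ σ + ((a : ZMod p) - 1) * m := by
    intro i
    apply hκ (fun σ => l i (c σ))
    · intro σ hσ τ hτ a ha
      show l i (c (σ * τ)) = l i (c σ) + (a : ZMod p) * l i (c τ)
      rw [hcoc σ hσ τ hτ a ha, map_add]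
      congr 1
      have : (a : k) * c τ = (a : ZMod p) • c τ := by
        rw [Algebra.smul_def, map_natCast]
      rw [this, map_smul, smul_eq_mul]
    · obtain ⟨L, hL, hc⟩ := hlev
      exact ⟨L, hL, fun σ hσ τ hτ h => by
        show l i (c (σ * τ)) = l i (c σ)
        rw [hc σ hσ τ hτ h]⟩
  choose x y m hxym using hcomp
  refine ⟨∑ i, x i • (b i : k), ∑ i, y i • (b i : k), ∑ i, m i • (b i : k), ?_⟩
  intro σ hσ a ha
  have h1 : c σ = ∑ i, (l i (c σ)) • (b i : k) := by
    have h2 := b.sum_repr ⟨c σ, hcW σ hσ⟩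
    have h3 : (∑ i, (b.repr ⟨c σ, hcW σ hσ⟩ i) • (b i : k)) = c σ := by
      have h4 := congrArg (fun w : W => (w : k)) h2
      simp only [Submodule.coe_sum, Submodule.coe_smul] at h4
      exact h4
    conv_lhs => rw [← h3]
    refine Finset.sum_congr rfl fun i _ => ?_
    exact congrArg (· • (b i : k)) (hl' i ⟨c σ, hcW σ hσ⟩).symm
  rw [h1]
  simp only [hxym _ σ hσ a ha, Finset.sum_mul, Finset.mul_sum, ← Finset.sum_add_distrib]
  refine Finset.sum_congr rfl fun i _ => ?_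
  simp only [Algebra.smul_def, map_add, map_mul, map_sub, map_one, map_natCast]
  ring

/-- The twisted coboundary condition on `D`: `c σ = t σ + (a − 1) m`. -/
def IsCohomologousOn (R : Type*) [Ring R] (D : Subgroup _root_.Fermat.Agent.S56.GQ) (c t : _root_.Fermat.Agent.S56.GQ → R) : Prop :=
  ∃ m : R, ∀ σ ∈ D, ∀ a : ℕ, IsCycExp p σ a → c σ = t σ + ((a : R) - 1) * m

/-- **Kummer count at `p`, submodule form**: `dim_k H¹(D_P, k(1)) ≤ 2`. -/
theorem kummerP_submodule (hp2 : p ≠ 2) (k : Type*) [Field k] [CharP k p]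
    (P : ValuationSubring Qb) (hP : P.LiesOverPrime p) :
    ∃ T : Submodule k (_root_.Fermat.Agent.S56.GQ → k), Module.Finite k T ∧ Module.finrank k T ≤ 2 ∧
      ∀ c : _root_.Fermat.Agent.S56.GQ → k, IsCycCocycleOn p k (P.decompositionSubgroup ℚ) c →
        HasLevelOn (P.decompositionSubgroup ℚ) c →
        ∃ t ∈ T, IsCohomologousOn p k (P.decompositionSubgroup ℚ) c t := by
  classical
  obtain ⟨κ₁, κ₂, -, -, hκ⟩ := kummerP p hp2 k P hP
  refine ⟨Submodule.span k ((({κ₁, κ₂} : Finset (_root_.Fermat.Agent.S56.GQ → k)) : Set (_root_.Fermat.Agent.S56.GQ → k))), ?_, ?_, ?_⟩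
  · exact FiniteDimensional.span_finset k _
  · refine (finrank_span_finset_le_card (R := k) ({κ₁, κ₂} : Finset (_root_.Fermat.Agent.S56.GQ → k))).trans ?_
    exact Finset.card_le_two
  · intro c hcoc hlev
    obtain ⟨x, y, m, h⟩ := hκ c hcoc hlev
    refine ⟨x • κ₁ + y • κ₂, ?_, m, fun σ hσ a ha => ?_⟩
    · apply Submodule.add_mem
      · exact Submodule.smul_mem _ _ (Submodule.subset_span (by simp))
      · exact Submodule.smul_mem _ _ (Submodule.subset_span (by simp))
    · rw [h σ hσ a ha]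
      simp

end Fermat.Agent.S56.H734

end
-- ===== PACK-END S56/H734/KummerP.lean

-- ===== PACK-BEGIN S56/H434/Rational.lean
section




/-!
# S56 / W2-SS, piece A (helper434): Theorem A — bridge-free lifting lemma, rationality form

`acts_trivially_of_approx_hom`: `Ω` algebraically closed with a rank-one valuation `v`, `H` a
finite free commutative cocommutative `R`-bialgebra all of whose `Ω`-points are killed by `p`,
`η` a ring homomorphism modulo `p γ` (`γ ^ (p - 1) < |p|`) defined on a subring `T` of integral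
elements containing the values of all points, isometric modulo `γ`.  Then every valuation
preserving endomorphism `σ` of `Ω` fixing `R` and the values of `η` fixes all points of `H`.

No completeness is used: Newton iteration is run finitely many times and the resulting
approximate point is replaced by a genuine point with `H384.exists_point_near`.
-/

set_option autoImplicit false

open WithConv TensorProduct

namespace Fermat.Agent.S56.H434

section Fixed

variable {Ω : Type*} [Field Ω] {R : Type*} [CommRing R] [Algebra R Ω]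
  {H : Type*} [AddCommGroup H] [Module R H] [Coalgebra R H] [Coalgebra.IsCocomm R H]

/-- The functionals with values fixed by `σ`, as a subring of the convolution ring. -/
def fixedSubring (σ : Ω →+* Ω) (hσR : ∀ r : R, σ (algebraMap R Ω r) = algebraMap R Ω r) :
    Subring (WithConv (H →ₗ[R] Ω)) where
  carrier := {F | ∀ h, σ (F.ofConv h) = F.ofConv h}
  mul_mem' := by
    intro F G hF hG h
    have key : (F * G).ofConv h = ∑ i ∈ (Coalgebra.Repr.arbitrary R h).index,
        F.ofConv ((Coalgebra.Repr.arbitrary R h).left i) *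
          G.ofConv ((Coalgebra.Repr.arbitrary R h).right i) :=
      (Coalgebra.Repr.arbitrary R h).convMul_apply F G
    rw [key, map_sum]
    refine Finset.sum_congr rfl fun i _ => ?_
    rw [map_mul, hF, hG]
  one_mem' := fun h => hσR _
  add_mem' := by
    intro F G hF hG h
    simp only [ofConv_add, LinearMap.add_apply, map_add, hF h, hG h]
  zero_mem' := fun h => by simp
  neg_mem' := by
    intro F hF h
    simp only [ofConv_neg, LinearMap.neg_apply, map_neg, hF h]

theorem mem_fixedSubring {σ : Ω →+* Ω} {hσR : ∀ r : R, σ (algebraMap R Ω r) = algebraMap R Ω r}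
    {F : WithConv (H →ₗ[R] Ω)} :
    F ∈ fixedSubring (H := H) σ hσR ↔ ∀ h, σ (F.ofConv h) = F.ofConv h := Iff.rfl

end Fixed

/-- **Theorem A.** -/
theorem acts_trivially_of_approx_hom
    {Ω : Type*} [Field Ω] [IsAlgClosed Ω] {Γ : Type*} [LinearOrderedCommGroupWithZero Γ]
    (v : Valuation Ω Γ)
    (harch : ∀ x y : Γ, x < 1 → y ≠ 0 → ∃ n : ℕ, x ^ n ≤ y)
    {R : Type*} [CommRing R] [Algebra R Ω] (hR : ∀ r : R, v (algebraMap R Ω r) ≤ 1)
    {H : Type*} [CommRing H] [Bialgebra R H] [Coalgebra.IsCocomm R H]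
    [Module.Free R H] [Module.Finite R H] [Finite (H →ₐ[R] Ω)]
    {p : ℕ} (hp : p.Prime)
    (hkill : ∀ x : WithConv (H →ₐ[R] Ω), x ^ p = 1)
    {γ : Γ} (hγ0 : γ ≠ 0) (hγ : γ ^ (p - 1) < v (p : Ω))
    (T : Subring Ω) (hTint : ∀ a ∈ T, v a ≤ 1) (hT : ∀ (x : H →ₐ[R] Ω) (h : H), x h ∈ T)
    (η : Ω → Ω) (hη : ApproxHom v R T η (v (p : Ω) * γ))
    (hiso : ∀ a ∈ T, v (η a) ≤ γ → v a ≤ γ)
    (σ : Ω →+* Ω) (hσv : ∀ a, v (σ a) = v a)
    (hσR : ∀ r : R, σ (algebraMap R Ω r) = algebraMap R Ω r)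
    (hση : ∀ a ∈ T, σ (η a) = η a) :
    ∀ (x : H →ₐ[R] Ω) (h : H), σ (x h) = x h := by
  classical
  -- basis and norms
  let b : Module.Basis (Module.Free.ChooseBasisIndex R H) R H := Module.Free.chooseBasis R H
  set ν := convNorm v b hR with hν
  set ν₂ := convNorm v (b.tensorProduct b) hR with hν₂
  have hpd : ν.PData p (v (p : Ω)) := convNorm_pdata v b hR hp
  have hπ0 : 0 < v (p : Ω) := lt_of_le_of_lt zero_le hγ
  have hp0 : (p : Ω) ≠ 0 := (Valuation.ne_zero_iff v).mp hπ0.ne'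
  have hγ1 : γ < 1 := hpd.lt_one_of_pow_lt hγ
  have hεγ : v (p : Ω) * γ ≤ γ := by
    calc v (p : Ω) * γ ≤ 1 * γ := mul_le_mul' hpd.π_le le_rfl
      _ = γ := one_mul _
  have hε1 : v (p : Ω) * γ ≤ 1 := hεγ.trans hγ1.le
  have hRT : ∀ r : R, algebraMap R Ω r ∈ T := fun r => by
    have := hT (1 : WithConv (H →ₐ[R] Ω)).ofConv (algebraMap R H r)
    rwa [AlgHom.commutes] at this
  -- points as elements of the convolution ring
  let X : (H →ₐ[R] Ω) → WithConv (H →ₗ[R] Ω) := fun x => toConv x.toLinearMap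
  have hXapp : ∀ x h, (X x).ofConv h = x h := fun x h => rfl
  have hX1 : ∀ x, ν.N (X x) ≤ 1 := fun x =>
    (convNorm_le_iff v b hR).mpr fun i => hTint _ (hT x _)
  have hXp : ∀ x, X x ^ p = 1 := by
    intro x
    have h1 := AlgHom.toLinearMap_convPow (toConv x) p
    rw [hkill (toConv x)] at h1
    rw [← h1]
    rfl
  have hXinj : ∀ x z, X x = X z → x = z := by
    intro x z h
    apply AlgHom.ext
    intro a
    have := congrArg (fun F : WithConv (H →ₗ[R] Ω) => F.ofConv a) h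
    exact this
  -- the approximate points
  let f₀ : (H →ₐ[R] Ω) → WithConv (H →ₗ[R] Ω) :=
    fun x => toConv (b.constr R fun i => η (x (b i)))
  have hf₀b : ∀ x i, (f₀ x).ofConv (b i) = η (x (b i)) := fun x i => b.constr_basis R _ i
  have hf₀near : ∀ x, Near v T η (v (p : Ω) * γ) (f₀ x) (X x) := by
    intro x
    have hval : ∀ h, v ((f₀ x).ofConv h - η (x h)) ≤ v (p : Ω) * γ := by
      intro h
      have e1 : (f₀ x).ofConv h = ∑ i, algebraMap R Ω (b.repr h i) * η (x (b i)) := by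
        conv_lhs => rw [← b.sum_repr h]
        rw [map_sum]
        refine Finset.sum_congr rfl fun i _ => ?_
        rw [map_smul, hf₀b, Algebra.smul_def]
      have e2 : x h = ∑ i, algebraMap R Ω (b.repr h i) * x (b i) := by
        conv_lhs => rw [← b.sum_repr h]
        rw [map_sum]
        refine Finset.sum_congr rfl fun i _ => ?_
        rw [map_smul, Algebra.smul_def]
      rw [e1, e2]
      have h1 := hη.sum_mul Finset.univ (fun i => algebraMap R Ω (b.repr h i))
        (fun i => x (b i)) (fun i _ => hRT _) (fun i _ => hT x _)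
      have h2 : v (∑ i, algebraMap R Ω (b.repr h i) * η (x (b i)) -
          ∑ i, η (algebraMap R Ω (b.repr h i)) * η (x (b i))) ≤ v (p : Ω) * γ :=
        val_sum_sub_sum_le v _ _ _ fun i _ => by
          rw [← sub_mul, map_mul]
          have := hη.map_algebraMap (b.repr h i)
          rw [val_sub_comm] at this
          calc _ ≤ v (p : Ω) * γ * 1 := mul_le_mul' this (hη.int _ (hT x _))
            _ = v (p : Ω) * γ := mul_one _
      rw [val_sub_comm] at h1
      exact val_sub_le_trans v h2 h1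
    exact ⟨fun h => hT x h, fun h => val_le_one_of_sub_le v hε1 (hval h) (hη.int _ (hT x h)),
      hval⟩
  have hf₀1 : ∀ x, ν.N (f₀ x) ≤ 1 := fun x =>
    (convNorm_le_iff v b hR).mpr fun i => (hf₀near x).2.1 _
  have hf₀p : ∀ x, ν.N (f₀ x ^ p - 1) ≤ v (p : Ω) * γ := by
    intro x
    have hn := near_pow hη hR hRT (hf₀near x) p
    rw [hXp x] at hn
    obtain ⟨-, -, hn3⟩ := hn
    rw [convNorm_le_iff]
    intro i
    have h1 := hn3 (b i)
    have h2 := hη.map_algebraMap (Coalgebra.counit (R := R) (b i))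
    have e : (f₀ x ^ p - 1).ofConv (b i) =
        ((f₀ x ^ p).ofConv (b i) - η ((1 : WithConv (H →ₗ[R] Ω)).ofConv (b i))) +
        (η (algebraMap R Ω (Coalgebra.counit (R := R) (b i))) -
          algebraMap R Ω (Coalgebra.counit (R := R) (b i))) := by
      have e1 : (1 : WithConv (H →ₗ[R] Ω)).ofConv (b i) =
          algebraMap R Ω (Coalgebra.counit (R := R) (b i)) := rfl
      rw [ofConv_sub, LinearMap.sub_apply, e1]
      ring
    rw [e]
    exact v.map_add_le h1 h2
  have hf₀mul : ∀ x, ν₂.N (mA (f₀ x) - mB (f₀ x)) ≤ v (p : Ω) * γ := by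
    intro x
    obtain ⟨-, hF1, hFn⟩ := hf₀near x
    rw [convNorm_le_iff]
    rintro ⟨i, j⟩
    rw [Module.Basis.tensorProduct_apply, ofConv_sub, LinearMap.sub_apply, mA_apply_tmul,
      mB_apply_tmul]
    have h1 := hFn (b i * b j)
    have hx : (X x).ofConv (b i * b j) = x (b i) * x (b j) := map_mul x _ _
    rw [hx] at h1
    have h2 := hη.mul _ (hT x (b i)) _ (hT x (b j))
    have h3 : v (η (x (b i)) * η (x (b j)) - (f₀ x).ofConv (b i) * (f₀ x).ofConv (b j))
        ≤ v (p : Ω) * γ := by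
      rw [val_sub_comm]
      exact val_mul_sub_mul_le v (hFn _) (hFn _) (hF1 _) (hη.int _ (hT x _))
    exact val_sub_le_trans v (val_sub_le_trans v h1 h2) h3
  -- the `σ`-fixed subring
  have hS₀div : ∀ a : WithConv (H →ₗ[R] Ω),
      (p : WithConv (H →ₗ[R] Ω)) * a ∈ fixedSubring (H := H) σ hσR →
        a ∈ fixedSubring (H := H) σ hσR := by
    intro a ha h
    have h1 := ha h
    rw [natCast_mul_apply, map_mul, map_natCast] at h1
    exact mul_left_cancel₀ hp0 h1
  have hf₀S : ∀ x, f₀ x ∈ fixedSubring (H := H) σ hσR := by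
    intro x h
    have e1 : (f₀ x).ofConv h = ∑ i, algebraMap R Ω (b.repr h i) * η (x (b i)) := by
      conv_lhs => rw [← b.sum_repr h]
      rw [map_sum]
      refine Finset.sum_congr rfl fun i _ => ?_
      rw [map_smul, hf₀b, Algebra.smul_def]
    rw [e1, map_sum]
    refine Finset.sum_congr rfl fun i _ => ?_
    rw [map_mul, hσR, hση _ (hT x _)]
  -- the number of Newton steps
  set δ := max γ (γ ^ (p - 1) * (v (p : Ω))⁻¹) with hδ
  have hδ1 : δ < 1 := by
    refine max_lt hγ1 ?_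
    calc γ ^ (p - 1) * (v (p : Ω))⁻¹ < v (p : Ω) * (v (p : Ω))⁻¹ :=
          mul_lt_mul_of_pos_right hγ (inv_pos.mpr hπ0)
      _ = 1 := mul_inv_cancel₀ hπ0.ne'
  obtain ⟨K, hK⟩ := harch δ (γ ^ Fintype.card (Module.Free.ChooseBasisIndex R H)) hδ1
    (pow_ne_zero _ hγ0)
  have hγpos : 0 < γ := lt_of_le_of_ne zero_le (Ne.symm hγ0)
  have hμ : γ * δ ^ K < γ ^ Fintype.card (Module.Free.ChooseBasisIndex R H) := by
    calc γ * δ ^ K ≤ γ * γ ^ Fintype.card (Module.Free.ChooseBasisIndex R H) :=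
          mul_le_mul' le_rfl hK
      _ < 1 * γ ^ Fintype.card (Module.Free.ChooseBasisIndex R H) :=
          mul_lt_mul_of_pos_right hγ1 (pow_pos hγpos _)
      _ = _ := one_mul _
  have hδK : δ ^ K ≤ 1 := pow_le_one' hδ1.le K
  have hτ1 : v (p : Ω) * γ * δ ^ K < 1 := by
    calc v (p : Ω) * γ * δ ^ K ≤ γ * 1 := mul_le_mul' hεγ hδK
      _ = γ := mul_one _
      _ < 1 := hγ1
  -- for each point, an exact `σ`-fixed point nearby
  have hex : ∀ x : H →ₐ[R] Ω, ∃ x' : H →ₐ[R] Ω,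
      ν.N (X x' - f₀ x) ≤ γ ∧ ∀ h, σ (x' h) = x' h := by
    intro x
    obtain ⟨g, hgS, hg1, hgf, hgp⟩ := UNorm.exists_newton hpd
      (fun a => exists_natCast_mul_eq (R := R) (M := H) hp0 a)
      (fixedSubring (H := H) σ hσR) hS₀div hγ (hf₀S x) (hf₀1 x) (hf₀p x) K
    have hAB : ν₂.N (mA g - mB g) ≤ γ := by
      have e : mA g - mB g =
          (mA g - mA (f₀ x)) + (mA (f₀ x) - mB (f₀ x)) + (mB (f₀ x) - mB g) := by ring
      rw [e]
      refine ν₂.add_le_of_le (ν₂.add_le_of_le ?_ ?_) ?_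
      · rw [← mA_sub]
        exact (convNorm_mA_le v b hR _).trans hgf
      · exact (hf₀mul x).trans hεγ
      · refine (convNorm_mB_sub_le v b hR (hf₀1 x) hg1).trans ?_
        rw [ν.sub_comm]
        exact hgf
    have hdef := mul_defect_le v b hR hp hγ hg1 hAB hτ1 hgp
    have hdef' : ν₂.N (mA g - mB g) ≤ γ * δ ^ K := by
      rw [mul_assoc] at hdef
      exact le_of_mul_le_mul_left hdef hπ0
    have hmul : ∀ i j, v (g.ofConv (b i * b j) - g.ofConv (b i) * g.ofConv (b j))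
        ≤ γ * δ ^ K := by
      intro i j
      have := (convNorm_le_iff v (b.tensorProduct b) hR).mp hdef' (i, j)
      rwa [Module.Basis.tensorProduct_apply, ofConv_sub, LinearMap.sub_apply, mA_apply_tmul,
        mB_apply_tmul] at this
    have hone : v (g.ofConv 1 - 1) ≤ γ * δ ^ K := by
      have h11 : v (g.ofConv 1 - g.ofConv 1 * g.ofConv 1) ≤ γ * δ ^ K := by
        have := apply_le_convNorm v (b.tensorProduct b) hR (mA g - mB g) ((1 : H) ⊗ₜ[R] (1 : H))
        rw [ofConv_sub, LinearMap.sub_apply, mA_apply_tmul, mB_apply_tmul, mul_one] at this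
        exact this.trans hdef'
      have hφ : v (g.ofConv 1 - 1) ≤ γ := by
        have a1 : v ((g - f₀ x).ofConv 1) ≤ γ := (apply_le_convNorm v b hR _ _).trans hgf
        have a2 : v ((f₀ x).ofConv 1 - η (x 1)) ≤ γ := ((hf₀near x).2.2 1).trans hεγ
        have a3 : v (η (x 1) - 1) ≤ γ := by
          have := hη.map_algebraMap (1 : R)
          rw [map_one] at this
          rw [map_one]
          exact this.trans hεγ
        have e : g.ofConv 1 - 1 =
            (g - f₀ x).ofConv 1 + (((f₀ x).ofConv 1 - η (x 1)) + (η (x 1) - 1)) := by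
          rw [ofConv_sub, LinearMap.sub_apply]
          ring
        rw [e]
        exact v.map_add_le a1 (v.map_add_le a2 a3)
      have hφ1 : v (g.ofConv 1) = 1 := by
        have : v (g.ofConv 1 - 1) < v (1 : Ω) := by
          rw [v.map_one]
          exact lt_of_le_of_lt hφ hγ1
        have h := Valuation.map_eq_of_sub_lt v this
        rw [v.map_one] at h
        exact h
      have e : g.ofConv 1 - g.ofConv 1 * g.ofConv 1 = g.ofConv 1 * (-(g.ofConv 1 - 1)) := by
        ring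
      rw [e, map_mul, hφ1, one_mul, Valuation.map_neg] at h11
      exact h11
    obtain ⟨x', hx'⟩ := Fermat.Agent.S56.H384.exists_point_near v hR b g.ofConv hγ1.le hμ
      (fun i => (apply_le_convNorm v b hR g (b i)).trans hg1) hone hmul
    have hx'g : ν.N (X x' - g) ≤ γ := by
      rw [convNorm_le_iff]
      intro i
      have := hx' i
      rw [val_sub_comm] at this
      rwa [ofConv_sub, LinearMap.sub_apply]
    refine ⟨x', ?_, ?_⟩
    · have e : X x' - f₀ x = (X x' - g) + (g - f₀ x) := by ring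
      rw [e]
      exact ν.add_le_of_le hx'g hgf
    · let σA : Ω →ₐ[R] Ω := { σ with commutes' := hσR }
      have hy : ν.N (X (σA.comp x') - X x') ≤ γ := by
        rw [convNorm_le_iff]
        intro i
        have e : (X (σA.comp x') - X x').ofConv (b i) =
            σ (x' (b i) - g.ofConv (b i)) + (g.ofConv (b i) - x' (b i)) := by
          rw [map_sub, hgS (b i), ofConv_sub, LinearMap.sub_apply]
          show σ (x' (b i)) - x' (b i) = _
          ring
        rw [e]
        refine v.map_add_le ?_ (hx' i)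
        rw [hσv, val_sub_comm]
        exact hx' i
      have key := UNorm.eq_of_pow_eq_one hpd hγ (hX1 x') hy (hXp _) (hXp x')
      intro h
      have := congrArg (fun F : WithConv (H →ₗ[R] Ω) => F.ofConv h) key
      exact this
  choose Φ hΦ1 hΦ2 using hex
  have hΦinj : Function.Injective Φ := by
    intro x z hxz
    have h1 : ν.N (f₀ x - f₀ z) ≤ γ := by
      have e : f₀ x - f₀ z = (X (Φ z) - f₀ z) - (X (Φ x) - f₀ x) := by rw [hxz]; ring
      rw [e]
      exact ν.sub_le_of_le (hΦ1 z) (hΦ1 x)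
    have h2 : ν.N (X x - X z) ≤ γ := by
      rw [convNorm_le_iff]
      intro i
      rw [ofConv_sub, LinearMap.sub_apply, hXapp, hXapp]
      apply hiso _ (T.sub_mem (hT x _) (hT z _))
      have h3 := hη.sub (hT x (b i)) (hT z (b i))
      have h4 : v (η (x (b i)) - η (z (b i))) ≤ γ := by
        have := (convNorm_le_iff v b hR).mp h1 i
        rwa [ofConv_sub, LinearMap.sub_apply, hf₀b, hf₀b] at this
      have e : η (x (b i) - z (b i)) =
          (η (x (b i) - z (b i)) - (η (x (b i)) - η (z (b i)))) +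
            (η (x (b i)) - η (z (b i))) := by ring
      rw [e]
      exact v.map_add_le (h3.trans hεγ) h4
    exact hXinj x z (UNorm.eq_of_pow_eq_one hpd hγ (hX1 z) h2 (hXp x) (hXp z))
  have hΦsurj : Function.Surjective Φ := Finite.surjective_of_injective hΦinj
  intro x h
  obtain ⟨z, rfl⟩ := hΦsurj x
  exact hΦ2 z h

end Fermat.Agent.S56.H434

end
-- ===== PACK-END S56/H434/Rational.lean

-- ===== PACK-BEGIN S19/H435/Adapter.lean
section
/-
A3 / WP-C (helper435): adapters between Hopf lattices and the frozen A3 interface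
(`Fermat.Agent.S19.OrderDatum`), and finiteness of the underlying set.
-/




set_option autoImplicit false
set_option linter.style.haveILetI false

noncomputable section

namespace Fermat.Agent.S19.H435

namespace IsHopfLattice

/-- The underlying set of a Hopf lattice is finite. -/
theorem finite {ℓ : ℕ} {M : Type*} [AddCommGroup M] {act : Gal → M → M}
    {Λ : Subalgebra (Zl ℓ) (M → _root_.Fermat.Agent.S19.H435.Qb)} (hΛ : IsHopfLattice ℓ act Λ) : Finite M := by
  classical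
  obtain ⟨S, hS⟩ := hΛ.fg
  have hSΛ : ∀ s ∈ S, s ∈ Λ := fun s hs => by
    have : s ∈ Submodule.span (Zl ℓ) (S : Set (M → _root_.Fermat.Agent.S19.H435.Qb)) := Submodule.subset_span hs
    rw [hS] at this
    exact this
  -- the values of each generator lie in a finite set
  have hfin : ∀ s : S, (Set.range (s : M → _root_.Fermat.Agent.S19.H435.Qb)).Finite := by
    intro s
    obtain ⟨p, hp, hps⟩ := IsIntegral.of_mem_of_fg Λ hΛ.fg s.1 (hSΛ s.1 s.2)
    have hp0 : p.map (algebraMap (Zl ℓ) _root_.Fermat.Agent.S19.H435.Qb) ≠ 0 := (hp.map _).ne_zero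
    refine Set.Finite.subset ((p.map (algebraMap (Zl ℓ) _root_.Fermat.Agent.S19.H435.Qb)).roots.toFinset.finite_toSet) ?_
    rintro _ ⟨m, rfl⟩
    simp only [Finset.mem_coe, Multiset.mem_toFinset, Polynomial.mem_roots hp0,
      Polynomial.IsRoot.def, Polynomial.eval_map]
    have h1 := congrFun hps m
    rw [← Polynomial.aeval_def] at h1
    have h2 : (Polynomial.aeval (s : M → _root_.Fermat.Agent.S19.H435.Qb) p) m = Polynomial.aeval ((s : M → _root_.Fermat.Agent.S19.H435.Qb) m) p := by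
      have := Polynomial.aeval_algHom_apply (Pi.evalAlgHom (Zl ℓ) (fun _ : M => _root_.Fermat.Agent.S19.H435.Qb) m)
        (s : M → _root_.Fermat.Agent.S19.H435.Qb) p
      exact this.symm
    rw [h2] at h1
    rw [← Polynomial.aeval_def]
    exact h1
  have hpi : {F : S → _root_.Fermat.Agent.S19.H435.Qb | ∀ s : S, F s ∈ Set.range s.1}.Finite := Set.Finite.pi' hfin
  let Φ : M → {F : S → _root_.Fermat.Agent.S19.H435.Qb | ∀ s : S, F s ∈ Set.range s.1} :=
    fun m => ⟨fun s => s.1 m, fun s => ⟨m, rfl⟩⟩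
  have hΦ : Function.Injective Φ := by
    intro m n hmn
    by_contra hne
    obtain ⟨f, hf, hfne⟩ := hΛ.separates m n hne
    apply hfne
    have hgen : ∀ s ∈ S, s m = s n := by
      intro s hs
      have := congrArg (fun F : {F : S → _root_.Fermat.Agent.S19.H435.Qb | ∀ s : S, F s ∈ Set.range s.1} =>
        (F : S → _root_.Fermat.Agent.S19.H435.Qb) ⟨s, hs⟩) hmn
      exact this
    have hall : ∀ g ∈ Submodule.span (Zl ℓ) (S : Set (M → _root_.Fermat.Agent.S19.H435.Qb)), g m = g n := by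
      intro g hg
      induction hg using Submodule.span_induction with
      | mem s hs => exact hgen s hs
      | zero => rfl
      | add x y _ _ hx hy => rw [Pi.add_apply, Pi.add_apply, hx, hy]
      | smul r x _ hx => rw [Pi.smul_apply, Pi.smul_apply, hx]
    exact hall f (by rw [hS]; exact hf)
  haveI := hpi.to_subtype
  exact Finite.of_injective Φ hΦ

/-- A Hopf lattice gives an order datum in the sense of the frozen A3 interface. -/
def toOrderDatum {ℓ : ℕ} {M : Type} [AddCommGroup M] {act : Gal → M → M}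
    {Λ : Subalgebra (Zl ℓ) (M → _root_.Fermat.Agent.S19.H435.Qb)} (hΛ : IsHopfLattice ℓ act Λ) :
    Fermat.Agent.S19.OrderDatum ℓ M act where
  act_add := hΛ.act_add
  gens := (Λ : Set (M → _root_.Fermat.Agent.S19.H435.Qb))
  equivariant := fun f hf => hΛ.equivariant f hf
  integral := fun _ hf m => hΛ.isIntegral_apply hf m
  separates := fun m m' h => by
    by_contra hne
    obtain ⟨f, hf, hfne⟩ := hΛ.separates m m' hne
    exact hfne (h f hf)
  add_mem := fun f hf => by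
    obtain ⟨n, a, b, ha, hb, hab⟩ := hΛ.comul_mem f hf
    have : (fun p : M × M => f (p.1 + p.2)) =
        ∑ k, (fun p : M × M => a k p.1) * (fun p : M × M => b k p.2) := by
      funext p
      rw [hab, Finset.sum_apply]
      rfl
    rw [this]
    refine Subalgebra.sum_mem _ fun k _ => Subalgebra.mul_mem _ ?_ ?_
    · exact Algebra.subset_adjoin (Or.inl ⟨a k, ha k, rfl⟩)
    · exact Algebra.subset_adjoin (Or.inr ⟨b k, hb k, rfl⟩)

/-- A Hopf lattice gives a Hopf model, given the ORD block of the frozen interface. -/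
theorem hopfModel (hord : Fermat.Agent.S19.OrdStatement) {ℓ : ℕ} [Fact ℓ.Prime] {M : Type}
    [AddCommGroup M] {act : Gal → M → M} {Λ : Subalgebra (Zl ℓ) (M → _root_.Fermat.Agent.S19.H435.Qb)}
    (hΛ : IsHopfLattice ℓ act Λ) : Fermat.Agent.S19.HopfModel ℓ M act := by
  haveI : Finite M := hΛ.finite
  exact hord ℓ M act ⟨hΛ.toOrderDatum⟩

end IsHopfLattice

end Fermat.Agent.S19.H435

end
end
-- ===== PACK-END S19/H435/Adapter.lean

-- ===== PACK-BEGIN S55/Bridge/H594/Lift.lean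
section



/-!
# S55 bridge (helper594), piece B14: lifting decomposition and inertia elements

`F ⊂ ℚ̄` a normal intermediate field, `A` a valuation subring of `ℚ̄` over a prime number `q`.

* `exists_decomposition_lift`: every `τ ∈ Gal(F/ℚ)` stabilising the prime of `𝓞_F` below `A`
  is the restriction of an element of the decomposition group of `A`;
* `exists_inertia_lift`: every `τ ∈ Gal(F/ℚ)` acting trivially on `𝓞_F` modulo the prime below
  `A` is the restriction of an element of the inertia group of `A`.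
-/

set_option autoImplicit false
set_option linter.style.haveILetI false

namespace Fermat.Agent.S55.Bridge.H594

open Fermat.Agent.S54 Fermat.Agent.S55.Bridge
open scoped Pointwise

attribute [local instance] isAlgebraic_Qbar isGalois_Qbar

section lift

variable (F : IntermediateField ℚ (AlgebraicClosure ℚ))

/-- An algebraic integer fixed by `Gal(ℚ̄/F)` lies in `F`. -/
theorem coe_mem_of_forall_fixingSubgroup_smul_eq
    (b : integralClosure ℤ (AlgebraicClosure ℚ))
    (hb : ∀ h : F.fixingSubgroup, h • b = b) : (b : AlgebraicClosure ℚ) ∈ F := by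
  have h1 : (b : AlgebraicClosure ℚ) ∈ IntermediateField.fixedField F.fixingSubgroup := by
    intro h
    exact congrArg Subtype.val (hb h)
  rwa [InfiniteGalois.fixedField_fixingSubgroup] at h1

variable [Normal ℚ F]

theorem restrictNormalHom_apply (σ : AlgebraicClosure ℚ ≃ₐ[ℚ] AlgebraicClosure ℚ) (x : F) :
    ((AlgEquiv.restrictNormalHom F σ x : F) : AlgebraicClosure ℚ) = σ (x : AlgebraicClosure ℚ) :=
  AlgEquiv.restrictNormal_commutes σ F x

theorem restrictNormalHom_eq_one_of_mem_fixingSubgroup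
    (h : AlgebraicClosure ℚ ≃ₐ[ℚ] AlgebraicClosure ℚ) (hh : h ∈ F.fixingSubgroup) :
    AlgEquiv.restrictNormalHom F h = 1 := by
  apply AlgEquiv.ext
  intro x
  apply Subtype.ext
  rw [restrictNormalHom_apply]
  exact (IntermediateField.mem_fixingSubgroup_iff F h).mp hh x x.2

variable (A : ValuationSubring (AlgebraicClosure ℚ))

/-- **B14, decomposition part.**  If `τ ∈ Gal(F/ℚ)` preserves the non-units of `A` among the
integers of `F`, then `τ` lifts to the decomposition group of `A`. -/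
theorem exists_decomposition_lift {q : ℕ} (hq : q.Prime) (hA : A.LiesOverPrime q)
    (τ : F ≃ₐ[ℚ] F)
    (hτ : ∀ x : F, IsIntegral ℤ x →
      (((τ x : F) : AlgebraicClosure ℚ) ∈ A.nonunits ↔ (x : AlgebraicClosure ℚ) ∈ A.nonunits)) :
    ∃ σ ∈ A.decompositionSubgroup ℚ, AlgEquiv.restrictNormalHom F σ = τ := by
  letI : TopologicalSpace (integralClosure ℤ (AlgebraicClosure ℚ)) := ⊥
  haveI : DiscreteTopology (integralClosure ℤ (AlgebraicClosure ℚ)) := ⟨rfl⟩
  haveI := continuousSMul_integralClosure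
  haveI := primeBelow_isPrime A
  obtain ⟨τ₀, hτ₀⟩ := AlgEquiv.restrictNormalHom_surjective (F := ℚ) (K₁ := F)
    (AlgebraicClosure ℚ) τ
  haveI : (τ₀ • primeBelow A).IsPrime := by
    rw [Ideal.pointwise_smul_eq_comap]
    exact Ideal.comap_isPrime _ _
  have hPQ : ∀ b : integralClosure ℤ (AlgebraicClosure ℚ),
      (∀ h : F.fixingSubgroup, h • b = b) → (b ∈ primeBelow A ↔ b ∈ τ₀ • primeBelow A) := by
    intro b hb
    have hbF : (b : AlgebraicClosure ℚ) ∈ F := coe_mem_of_forall_fixingSubgroup_smul_eq F b hb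
    rw [Ideal.mem_pointwise_smul_iff_inv_smul_mem, mem_primeBelow, mem_primeBelow, coe_smul]
    -- `x = τ⁻¹ b`
    have hx : IsIntegral ℤ (τ⁻¹ ⟨(b : AlgebraicClosure ℚ), hbF⟩ : F) := by
      have hbint : IsIntegral ℤ (⟨(b : AlgebraicClosure ℚ), hbF⟩ : F) := by
        have := b.2
        exact (isIntegral_algebraMap_iff
          (FaithfulSMul.algebraMap_injective F (AlgebraicClosure ℚ))).mp this
      exact hbint.map (τ⁻¹ : F ≃ₐ[ℚ] F)
    have h1 := hτ _ hx
    have h2 : τ (τ⁻¹ ⟨(b : AlgebraicClosure ℚ), hbF⟩ : F) = ⟨(b : AlgebraicClosure ℚ), hbF⟩ := by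
      show (τ * τ⁻¹) _ = _
      rw [mul_inv_cancel]; rfl
    rw [h2] at h1
    have h3 : ((τ⁻¹ ⟨(b : AlgebraicClosure ℚ), hbF⟩ : F) : AlgebraicClosure ℚ) =
        τ₀⁻¹ (b : AlgebraicClosure ℚ) := by
      rw [← hτ₀, ← map_inv, restrictNormalHom_apply]
    rw [h3] at h1
    exact h1
  obtain ⟨h, hh⟩ := exists_smul_eq_of_forall_fixed_mem_iff (B := integralClosure ℤ (AlgebraicClosure ℚ))
    F.fixingSubgroup (InfiniteGalois.fixingSubgroup_isClosed F) (τ₀ • primeBelow A)
    (primeBelow A) (fun b hb => (hPQ b hb).symm)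
  refine ⟨(h : AlgebraicClosure ℚ ≃ₐ[ℚ] AlgebraicClosure ℚ) * τ₀, ?_, ?_⟩
  · rw [mem_decompositionSubgroup_iff_smul_primeBelow A hq hA, mul_smul, ← hh]
  · rw [map_mul, restrictNormalHom_eq_one_of_mem_fixingSubgroup F h h.2, one_mul, hτ₀]

/-- **B14, inertia part.**  If `τ ∈ Gal(F/ℚ)` acts trivially modulo the non-units of `A` on the
integers of `F`, then `τ` lifts to the inertia group of `A`. -/
theorem exists_inertia_lift {q : ℕ} (hq : q.Prime) (hA : A.LiesOverPrime q)
    (τ : F ≃ₐ[ℚ] F)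
    (hτ : ∀ x : F, IsIntegral ℤ x →
      ((τ x : F) : AlgebraicClosure ℚ) - (x : AlgebraicClosure ℚ) ∈ A.nonunits) :
    ∃ σ ∈ A.inertiaSubgroupIn ℚ, AlgEquiv.restrictNormalHom F σ = τ := by
  letI : TopologicalSpace (integralClosure ℤ (AlgebraicClosure ℚ)) := ⊥
  haveI : DiscreteTopology (integralClosure ℤ (AlgebraicClosure ℚ)) := ⟨rfl⟩
  haveI := continuousSMul_integralClosure
  haveI := primeBelow_isPrime A
  have hτ' : ∀ x : F, IsIntegral ℤ x →
      (((τ x : F) : AlgebraicClosure ℚ) ∈ A.nonunits ↔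
        (x : AlgebraicClosure ℚ) ∈ A.nonunits) := by
    intro x hx
    constructor
    · intro h
      have := A.nonunits.sub_mem h (hτ x hx)
      simpa using this
    · intro h
      have := A.nonunits.add_mem (hτ x hx) h
      simpa using this
  obtain ⟨σ₁, hσ₁D, hσ₁⟩ := exists_decomposition_lift F A hq hA τ hτ'
  have hσ₁P : σ₁ • primeBelow A = primeBelow A :=
    (mem_decompositionSubgroup_iff_smul_primeBelow A hq hA σ₁).mp hσ₁D
  have hfix : ∀ b : integralClosure ℤ (AlgebraicClosure ℚ),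
      (∀ h : F.fixingSubgroup, h • b = b) → σ₁ • b - b ∈ primeBelow A := by
    intro b hb
    have hbF : (b : AlgebraicClosure ℚ) ∈ F := coe_mem_of_forall_fixingSubgroup_smul_eq F b hb
    have hbint : IsIntegral ℤ (⟨(b : AlgebraicClosure ℚ), hbF⟩ : F) :=
      (isIntegral_algebraMap_iff
        (FaithfulSMul.algebraMap_injective F (AlgebraicClosure ℚ))).mp b.2
    have h1 := hτ _ hbint
    rw [← hσ₁, restrictNormalHom_apply] at h1
    exact h1
  obtain ⟨h, hhP, hh⟩ := exists_stabilizer_congr_of_forall_fixed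
    (B := integralClosure ℤ (AlgebraicClosure ℚ)) F.fixingSubgroup
    (InfiniteGalois.fixingSubgroup_isClosed F) (primeBelow A) σ₁ hσ₁P hfix
  have hhP' : ∀ b : integralClosure ℤ (AlgebraicClosure ℚ),
      b ∈ primeBelow A → (h : AlgebraicClosure ℚ ≃ₐ[ℚ] AlgebraicClosure ℚ)⁻¹ • b ∈ primeBelow A := by
    intro b hb
    have := (smul_primeBelow_eq_iff A _).mp hhP
      ((h : AlgebraicClosure ℚ ≃ₐ[ℚ] AlgebraicClosure ℚ)⁻¹ • b)
    rw [smul_inv_smul] at this
    exact this.mp hb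
  refine ⟨(h : AlgebraicClosure ℚ ≃ₐ[ℚ] AlgebraicClosure ℚ)⁻¹ * σ₁, ?_, ?_⟩
  · rw [mem_inertiaSubgroupIn_iff_primeBelow A hq hA]
    intro b
    have h1 : σ₁ • b - (h : AlgebraicClosure ℚ ≃ₐ[ℚ] AlgebraicClosure ℚ) • b ∈ primeBelow A := by
      have := (primeBelow A).neg_mem (hh b)
      simpa using this
    have h2 := hhP' _ h1
    rw [smul_sub, inv_smul_smul] at h2
    rw [mul_smul]
    exact h2
  · rw [map_mul, map_inv, restrictNormalHom_eq_one_of_mem_fixingSubgroup F h h.2, inv_one,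
      one_mul, hσ₁]

end lift

end Fermat.Agent.S55.Bridge.H594

end
-- ===== PACK-END S55/Bridge/H594/Lift.lean

-- ===== PACK-BEGIN S55/G/Rec/SupportFiniteH181.lean
section



/-!
# S55 / layer G / block REC, leaf G4 (helper181): finiteness of the support

`supportFinite : SupportFiniteSpec` — a class `x ∈ Br(K)`, `K = ℚ̄^U`, has only finitely many
rational primes `q` above which some local component `locBr q g U x` is non-zero.

Ingredients (all reusable):
* `exists_normal_level` : a level cocycle on an open `U` has a finite NORMAL level `F` with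
  `G_F ≤ U`;
* `rho_eq_of_level` : its values are fixed by `G_F`;
* `finite_range_of_level` : it has finitely many values;
* `exists_bad_primes_norm` : for `a ∈ ℚ̄ˣ`, for almost all `q`, `‖ι_q (g a)‖ = 1` for ALL `g ∈ G_ℚ`;
* `exists_bad_primes_inertial` : for `F/ℚ` finite, for almost all `q`, the image in `G_ℚ` of
  every inertial element of `G_{ℚ_q}` fixes `F`;
* `isOpenL_locSub` : `locSub q g U` is open for `U` open.
-/

set_option autoImplicit false

noncomputable section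

namespace Fermat.Agent.S55.G.Rec.H181

open groupCohomology Fermat.Agent.S55.G.Rec

local notation "Qb" => AlgebraicClosure ℚ
local notation "GQ" => (AlgebraicClosure ℚ ≃ₐ[ℚ] AlgebraicClosure ℚ)

/-! ## Norms of algebraic numbers at almost all primes -/

section Norm

variable (q : ℕ) [Fact q.Prime]

/-- An element of `ℚ̄_q` which is integral over `ℤ` has norm `≤ 1`. -/
theorem norm_le_one_of_isIntegral {x : PadicAlgCl q} (hx : IsIntegral ℤ x) : ‖x‖ ≤ 1 := by
  have h1 : IsIntegral (padicIntegers q) x := hx.tower_top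
  have h2 : x ∈ (Valued.v : Valuation (PadicAlgCl q) NNReal).integer :=
    (Valuation.integer.integers (Valued.v : Valuation (PadicAlgCl q) NNReal)).mem_of_integral h1
  exact h2

theorem norm_intCast_eq_one (n : ℤ) (hn : ¬ (q : ℤ) ∣ n) : ‖(n : PadicAlgCl q)‖ = 1 := by
  have h1 : ((n : ℚ_[q]) : PadicAlgCl q) = (n : PadicAlgCl q) := map_intCast _ n
  rw [← h1, PadicAlgCl.norm_extends]
  have h2 : ‖(n : ℚ_[q])‖ ≤ 1 := Padic.norm_int_le_one n
  have h3 : ¬ ‖(n : ℚ_[q])‖ < 1 := by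
    rw [Padic.norm_intCast_lt_one_iff]
    exact hn
  exact le_antisymm h2 (not_lt.1 h3)

/-- The image in `ℚ̄_q` of an integral algebraic number has norm `≤ 1`. -/
theorem norm_padicEmbedding_le_one {a : Qb} (ha : IsIntegral ℤ a) :
    ‖padicEmbedding q a‖ ≤ 1 :=
  norm_le_one_of_isIntegral q (map_isIntegral_int (padicEmbedding q) ha)

/-- If `y • a` is integral, `q ∤ y`, then `‖ι_q (g a)‖ ≤ 1` for every `g ∈ G_ℚ`. -/
theorem norm_padicEmbedding_le_one_of_smul {a : Qb} {y : ℤ} (hy : IsIntegral ℤ (y • a))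
    (hq : ¬ (q : ℤ) ∣ y) (g : GQ) : ‖padicEmbedding q (g a)‖ ≤ 1 := by
  have h1 : IsIntegral ℤ (g (y • a)) := map_isIntegral_int g hy
  have h2 := norm_padicEmbedding_le_one q h1
  have h3 : padicEmbedding q (g (y • a)) = (y : PadicAlgCl q) * padicEmbedding q (g a) := by
    rw [zsmul_eq_mul, map_mul, map_mul, map_intCast, map_intCast]
  rw [h3, norm_mul, norm_intCast_eq_one q y hq, one_mul] at h2
  exact h2

end Norm

/-- For a non-zero algebraic number `a` there is a finite set `B` of primes such that for every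
prime `q ∉ B` ALL conjugates of `a` are `q`-adic units. -/
theorem exists_bad_primes_norm (a : Qb) (ha : a ≠ 0) :
    ∃ B : Finset ℕ, ∀ (q : ℕ) [Fact q.Prime], q ∉ B →
      ∀ g : GQ, ‖padicEmbedding q (g a)‖ = 1 := by
  haveI : Algebra.IsAlgebraic ℚ Qb := AlgebraicClosure.isAlgebraic ℚ
  have halg : ∀ b : Qb, IsAlgebraic ℤ b := fun b =>
    (IsFractionRing.isAlgebraic_iff ℤ ℚ Qb).2 (Algebra.IsAlgebraic.isAlgebraic b)
  obtain ⟨y, hy0, hy⟩ := (halg a).exists_integral_multiple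
  obtain ⟨z, hz0, hz⟩ := (halg a⁻¹).exists_integral_multiple
  refine ⟨(y.natAbs * z.natAbs).primeFactors, fun q _ hq g => ?_⟩
  have hqp : q.Prime := Fact.out
  have hyz : y.natAbs * z.natAbs ≠ 0 :=
    mul_ne_zero (Int.natAbs_ne_zero.2 hy0) (Int.natAbs_ne_zero.2 hz0)
  have hnd : ¬ q ∣ y.natAbs * z.natAbs := fun h =>
    hq (Nat.mem_primeFactors.2 ⟨hqp, h, hyz⟩)
  have hqy : ¬ (q : ℤ) ∣ y := fun h =>
    hnd (Dvd.dvd.mul_right (Int.natCast_dvd.1 h) _)
  have hqz : ¬ (q : ℤ) ∣ z := fun h =>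
    hnd (Dvd.dvd.mul_left (Int.natCast_dvd.1 h) _)
  have h1 := norm_padicEmbedding_le_one_of_smul q hy hqy g
  have h2 := norm_padicEmbedding_le_one_of_smul q hz hqz g
  have h3 : padicEmbedding q (g a) * padicEmbedding q (g a⁻¹) = 1 := by
    rw [← map_mul, ← map_mul, mul_inv_cancel₀ ha, map_one, map_one]
  have h4 : ‖padicEmbedding q (g a)‖ * ‖padicEmbedding q (g a⁻¹)‖ = 1 := by
    rw [← norm_mul, h3, norm_one]
  refine le_antisymm h1 ?_
  by_contra hlt
  rw [not_le] at hlt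
  have h5 : ‖padicEmbedding q (g a)‖ * ‖padicEmbedding q (g a⁻¹)‖ < 1 := by
    calc ‖padicEmbedding q (g a)‖ * ‖padicEmbedding q (g a⁻¹)‖
        ≤ ‖padicEmbedding q (g a)‖ * 1 :=
          mul_le_mul_of_nonneg_left h2 (norm_nonneg _)
      _ = ‖padicEmbedding q (g a)‖ := mul_one _
      _ < 1 := hlt
  rw [h4] at h5
  exact lt_irrefl _ h5

/-- Finite-set version of `exists_bad_primes_norm`. -/
theorem exists_bad_primes_norm_finite {A : Set Qb} (hA : A.Finite) (h0 : ∀ a ∈ A, a ≠ 0) :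
    ∃ B : Finset ℕ, ∀ (q : ℕ) [Fact q.Prime], q ∉ B →
      ∀ a ∈ A, ∀ g : GQ, ‖padicEmbedding q (g a)‖ = 1 := by
  classical
  induction A, hA using Set.Finite.induction_on with
  | empty => exact ⟨∅, fun q _ _ a ha => absurd ha (Set.notMem_empty a)⟩
  | @insert a s _ _ ih =>
    obtain ⟨B₁, hB₁⟩ := ih (fun b hb => h0 b (Set.mem_insert_of_mem _ hb))
    obtain ⟨B₂, hB₂⟩ := exists_bad_primes_norm a (h0 a (Set.mem_insert _ _))
    refine ⟨B₁ ∪ B₂, fun q _ hq b hb g => ?_⟩
    rw [Finset.mem_union, not_or] at hq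
    rcases Set.mem_insert_iff.1 hb with rfl | hb
    · exact hB₂ q hq.2 g
    · exact hB₁ q hq.1 b hb g

/-! ## Unramifiedness at almost all primes -/

/-- A finite extension of `ℚ` inside `ℚ̄` is generated by one integral element. -/
theorem exists_integral_generator (F : IntermediateField ℚ Qb) [FiniteDimensional ℚ F] :
    ∃ β : Qb, IsIntegral ℤ β ∧ F = IntermediateField.adjoin ℚ {β} := by
  haveI : Algebra.IsAlgebraic ℚ Qb := AlgebraicClosure.isAlgebraic ℚ
  obtain ⟨β, hβ⟩ := Field.exists_primitive_element ℚ F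
  have hF : F = IntermediateField.adjoin ℚ {(β : Qb)} := by
    have h1 : IntermediateField.lift (IntermediateField.adjoin ℚ {β})
        = IntermediateField.adjoin ℚ {(β : Qb)} := by
      rw [IntermediateField.lift_adjoin, Set.image_singleton]
    apply le_antisymm
    · intro y hy
      have hy' : (⟨y, hy⟩ : F) ∈ IntermediateField.adjoin ℚ {β} := by rw [hβ]; trivial
      rw [← h1]
      exact (IntermediateField.mem_lift (⟨y, hy⟩ : F)).2 hy'
    · rw [IntermediateField.adjoin_le_iff]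
      intro y hy
      rw [Set.mem_singleton_iff] at hy
      subst hy
      exact β.2
  have halg : IsAlgebraic ℤ (β : Qb) :=
    (IsFractionRing.isAlgebraic_iff ℤ ℚ Qb).2 (Algebra.IsAlgebraic.isAlgebraic _)
  obtain ⟨y, hy0, hy⟩ := halg.exists_integral_multiple
  refine ⟨y • (β : Qb), hy, ?_⟩
  refine hF.trans ?_
  have hyQ : algebraMap ℚ Qb (y : ℚ) ≠ 0 := by
    rw [Ne, map_intCast, Int.cast_eq_zero]
    exact hy0
  have e1 : y • (β : Qb) = algebraMap ℚ Qb (y : ℚ) * β := by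
    rw [zsmul_eq_mul, map_intCast]
  apply le_antisymm
  · rw [IntermediateField.adjoin_le_iff]
    intro x hx
    rw [Set.mem_singleton_iff] at hx
    subst hx
    have h2 : (β : Qb) = (algebraMap ℚ Qb (y : ℚ))⁻¹ * (y • (β : Qb)) := by
      rw [e1, ← mul_assoc, inv_mul_cancel₀ hyQ, one_mul]
    have h3 : (algebraMap ℚ Qb (y : ℚ))⁻¹ * (y • (β : Qb)) ∈
        IntermediateField.adjoin ℚ {y • (β : Qb)} :=
      mul_mem (inv_mem (IntermediateField.algebraMap_mem _ (y : ℚ)))
        (IntermediateField.mem_adjoin_simple_self ℚ _)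
    rw [← h2] at h3
    exact h3
  · rw [IntermediateField.adjoin_le_iff]
    intro x hx
    rw [Set.mem_singleton_iff] at hx
    subst hx
    rw [e1]
    exact mul_mem (IntermediateField.algebraMap_mem _ (y : ℚ))
      (IntermediateField.mem_adjoin_simple_self ℚ _)

/-- An automorphism fixing a generator fixes the field. -/
theorem mem_fixingSubgroup_adjoin_singleton {β : Qb} {σ : GQ} (h : σ β = β) :
    σ ∈ (IntermediateField.adjoin ℚ {β}).fixingSubgroup := by
  rw [IntermediateField.mem_fixingSubgroup_iff]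
  have hle : IntermediateField.adjoin ℚ {β} ≤ IntermediateField.fixedField (Subgroup.zpowers σ) := by
    rw [IntermediateField.adjoin_le_iff]
    intro x hx
    rw [Set.mem_singleton_iff] at hx
    subst hx
    rintro ⟨τ, hτ⟩
    obtain ⟨n, rfl⟩ := Subgroup.mem_zpowers_iff.1 hτ
    show (σ ^ n) x = x
    have hfix : σ ∈ MulAction.stabilizer GQ x := by
      rw [MulAction.mem_stabilizer_iff]
      exact h
    exact (Subgroup.zpow_mem _ hfix n : _)
  intro y hy
  exact hle hy ⟨σ, Subgroup.mem_zpowers σ⟩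

/-- For a finite extension `F/ℚ`, for almost all primes `q` every inertial element of
`G_{ℚ_q}` restricts to an element of `G_F`  (`F` is unramified at almost all primes). -/
theorem exists_bad_primes_inertial (F : IntermediateField ℚ Qb) [FiniteDimensional ℚ F] :
    ∃ B : Finset ℕ, ∀ (q : ℕ) [Fact q.Prime], q ∉ B →
      ∀ τ : PadicAlgCl q ≃ₐ[ℚ_[q]] PadicAlgCl q, IsInertial q τ →
        localGaloisToGlobal q τ ∈ F.fixingSubgroup := by
  haveI : Algebra.IsAlgebraic ℚ Qb := AlgebraicClosure.isAlgebraic ℚ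
  obtain ⟨β, hβint, rfl⟩ := exists_integral_generator F
  -- the nonzero differences `β' - β`, `β'` a conjugate of `β`
  let A : Set Qb := (fun r => r - β) '' ((minpoly ℚ β).rootSet Qb \ {β})
  have hA : A.Finite := ((Polynomial.rootSet_finite _ _).subset Set.sdiff_subset).image _
  have hA0 : ∀ a ∈ A, a ≠ 0 := by
    rintro _ ⟨r, ⟨-, hr⟩, rfl⟩
    exact sub_ne_zero.2 hr
  obtain ⟨B, hB⟩ := exists_bad_primes_norm_finite hA hA0
  refine ⟨B, fun q _ hq τ hτ => ?_⟩
  apply mem_fixingSubgroup_adjoin_singleton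
  by_contra hne
  set σ := localGaloisToGlobal q τ with hσ
  have hroot : σ β ∈ (minpoly ℚ β).rootSet Qb := by
    rw [Polynomial.mem_rootSet]
    refine ⟨minpoly.ne_zero (Algebra.IsIntegral.isIntegral β), ?_⟩
    have h := Polynomial.aeval_algHom_apply (σ : Qb →ₐ[ℚ] Qb) β (minpoly ℚ β)
    rw [minpoly.aeval, map_zero] at h
    exact h
  have hmem : σ β - β ∈ A := ⟨σ β, ⟨hroot, hne⟩, rfl⟩
  have h1 : ‖padicEmbedding q ((1 : GQ) (σ β - β))‖ = 1 := hB q hq _ hmem 1
  have h2 : padicEmbedding q ((1 : GQ) (σ β - β)) =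
      τ (padicEmbedding q β) - padicEmbedding q β := by
    rw [AlgEquiv.one_apply, map_sub, hσ, padicEmbedding_localGaloisToGlobal]
  rw [h2] at h1
  have h3 := hτ (padicEmbedding q β) (norm_padicEmbedding_le_one q hβint)
  rw [h1] at h3
  exact lt_irrefl _ h3

/-! ## Openness of the local subgroups -/

/-- `locSub q g U` is open if `U` is. -/
theorem isOpenL_locSub (q : ℕ) [Fact q.Prime] (g : GQ) {U : Subgroup GQ} (hU : IsOpenQ U) :
    IsOpenL q (locSub q g U) := by
  obtain ⟨F, hF, hle⟩ := hU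
  haveI := hF
  haveI : FiniteDimensional ℚ (F.map (g⁻¹ : GQ).toAlgHom) := finiteDimensional_map_inv F g
  refine ⟨Bridge.H175.localLevel q (F.map (g⁻¹ : GQ).toAlgHom),
    Bridge.H175.finiteDimensional_localLevel q _, fun τ hτ => ?_⟩
  rw [mem_locSub]
  apply hle
  rw [← mem_fixingSubgroup_map_inv]
  exact (Bridge.H175.mem_fixingSubgroup_localLevel_iff q _ τ).1 hτ

/-! ## Level cocycles on an open subgroup -/

/-- The fixing subgroup of a normal extension is stable under conjugation. -/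
theorem conj_mem_fixingSubgroup (F : IntermediateField ℚ Qb) [Normal ℚ F] (g : GQ) {σ : GQ}
    (hσ : σ ∈ F.fixingSubgroup) : g * σ * g⁻¹ ∈ F.fixingSubgroup := by
  rw [IntermediateField.mem_fixingSubgroup_iff] at hσ ⊢
  intro x hx
  have h1 : (g⁻¹ : GQ) x ∈ F := Bridge.H175.apply_mem_of_normal F _ hx
  show g (σ ((g⁻¹ : GQ) x)) = x
  rw [hσ _ h1]
  exact AlgEquiv.apply_symm_apply g x

/-- A level-constant `2`-cochain on an open subgroup `U` has a finite NORMAL level `F` with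
`G_F ≤ U`. -/
theorem exists_normal_level {U : Subgroup GQ} (hU : IsOpenQ U) {X : Type*} {c : ↥U × ↥U → X}
    (hc : IsLevelConstant₂ U.subtype c) :
    ∃ F : IntermediateField ℚ Qb, FiniteDimensional ℚ F ∧ Normal ℚ F ∧ F.fixingSubgroup ≤ U ∧
      ∀ g g' s s' : ↥U, (s : GQ) ∈ F.fixingSubgroup → (s' : GQ) ∈ F.fixingSubgroup →
        c (g * s, g' * s') = c (g, g') := by
  obtain ⟨F₀, hF₀, h₀⟩ := hc
  obtain ⟨F₁, hF₁, h₁⟩ := hU
  haveI := hF₀
  haveI := hF₁
  haveI : Algebra.IsAlgebraic ℚ Qb := AlgebraicClosure.isAlgebraic ℚ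
  haveI : IsAlgClosure ℚ Qb := ⟨inferInstance, inferInstance⟩
  haveI : Normal ℚ Qb := IsAlgClosure.normal ℚ Qb
  have hle : F₀ ⊔ F₁ ≤ IntermediateField.normalClosure ℚ ↥(F₀ ⊔ F₁) Qb :=
    IntermediateField.le_normalClosure _
  refine ⟨IntermediateField.normalClosure ℚ ↥(F₀ ⊔ F₁) Qb,
    normalClosure.is_finiteDimensional ℚ _ Qb, normalClosure.normal ℚ _ Qb, ?_, ?_⟩
  · exact (IntermediateField.fixingSubgroup_antitone (le_sup_right.trans hle)).trans h₁
  · intro g g' s s' hs hs'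
    exact h₀ g g' s s'
      (IntermediateField.fixingSubgroup_antitone (le_sup_left.trans hle) hs)
      (IntermediateField.fixingSubgroup_antitone (le_sup_left.trans hle) hs')

/-- The values of a level cocycle of normal level `F` are fixed by `G_F`. -/
theorem rho_eq_of_level {U : Subgroup GQ} (F : IntermediateField ℚ Qb) [Normal ℚ F]
    {c : ↥U × ↥U → gModOn U} (hc : c ∈ cocycles₂ (gModOn U))
    (hconst : ∀ g g' s s' : ↥U, (s : GQ) ∈ F.fixingSubgroup → (s' : GQ) ∈ F.fixingSubgroup →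
      c (g * s, g' * s') = c (g, g'))
    (σ : ↥U) (hσ : (σ : GQ) ∈ F.fixingSubgroup) (g h : ↥U) :
    (gModOn U).ρ σ (c (g, h)) = c (g, h) := by
  have hcoc := (mem_cocycles₂_iff c).1 hc
  have h1 : ∀ k : ↥U, c (1, k) = c (1, 1) := by
    intro k
    have := hcoc 1 1 k
    simp only [mul_one, one_mul, map_one, Module.End.one_apply] at this
    exact (add_left_cancel this).symm
  have hone : ((1 : ↥U) : GQ) ∈ F.fixingSubgroup := by
    rw [Subgroup.coe_one]
    exact one_mem _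
  have h3 : ∀ k : ↥U, c (σ, k) = c (1, 1) := by
    intro k
    have := hconst 1 k σ 1 hσ hone
    rw [one_mul, mul_one] at this
    rw [this, h1]
  have h4 : c (σ * g, h) = c (g, h) := by
    have hs : ((g⁻¹ * σ * g : ↥U) : GQ) ∈ F.fixingSubgroup := by
      have := conj_mem_fixingSubgroup F (g⁻¹ : GQ) hσ
      simpa using this
    have := hconst g h (g⁻¹ * σ * g) 1 hs hone
    rw [mul_one] at this
    rw [← this]
    congr 2
    group
  have h5 := hcoc σ g h
  rw [h4, h3, h3] at h5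
  exact (add_right_cancel h5).symm

/-- A level-constant cochain on `U` of finite level `F` with `G_F ≤ U` has finitely many values. -/
theorem finite_range_of_level {U : Subgroup GQ} (F : IntermediateField ℚ Qb)
    [FiniteDimensional ℚ F] {X : Type*} {c : ↥U × ↥U → X}
    (hconst : ∀ g g' s s' : ↥U, (s : GQ) ∈ F.fixingSubgroup → (s' : GQ) ∈ F.fixingSubgroup →
      c (g * s, g' * s') = c (g, g')) :
    (Set.range c).Finite := by
  let Φ : ↥U → (↥F →ₐ[ℚ] Qb) := fun g => ((g : GQ) : Qb →ₐ[ℚ] Qb).comp F.val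
  have key : ∀ g g' : ↥U, Φ g = Φ g' → ((g⁻¹ * g' : ↥U) : GQ) ∈ F.fixingSubgroup := by
    intro g g' h
    rw [IntermediateField.mem_fixingSubgroup_iff]
    intro x hx
    have h1 : (g : GQ) x = (g' : GQ) x := DFunLike.congr_fun h ⟨x, hx⟩
    show ((g⁻¹ : ↥U) : GQ) ((g' : GQ) x) = x
    rw [← h1]
    show ((g : GQ)⁻¹) ((g : GQ) x) = x
    exact AlgEquiv.symm_apply_apply (g : GQ) x
  let Ψ : ↥U × ↥U → (↥F →ₐ[ℚ] Qb) × (↥F →ₐ[ℚ] Qb) := Prod.map Φ Φ
  have hfac : Function.FactorsThrough c Ψ := by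
    rintro ⟨g, h⟩ ⟨g', h'⟩ hΨ
    have hg : Φ g = Φ g' := congrArg Prod.fst hΨ
    have hh : Φ h = Φ h' := congrArg Prod.snd hΨ
    have := hconst g h (g⁻¹ * g') (h⁻¹ * h') (key g g' hg) (key h h' hh)
    rw [mul_inv_cancel_left, mul_inv_cancel_left] at this
    exact this.symm
  haveI : Finite (↥F →ₐ[ℚ] Qb) := inferInstance
  refine (Set.finite_range (Function.extend Ψ c (fun _ => c (1, 1)))).subset ?_
  rintro _ ⟨a, rfl⟩
  exact ⟨Ψ a, hfac.extend_apply _ a⟩

/-! ## The main result -/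

/-- The underlying algebraic number of an element of the module `ℚ̄ˣ`. -/
def gval (U : Subgroup GQ) (m : gModOn U) : Qb := ((Additive.toMul m : Qbˣ) : Qb)

/-- Local vanishing at a good prime. -/
theorem locBr_eq_zero_of_good (I : LocalInvSystem) {U : Subgroup GQ} (hU : IsOpenQ U)
    (c : ↥(levelCocycles₂ U.subtype (gModOn U)))
    (F : IntermediateField ℚ Qb) [Normal ℚ F]
    (hconst : ∀ g g' s s' : ↥U, (s : GQ) ∈ F.fixingSubgroup → (s' : GQ) ∈ F.fixingSubgroup →
      (c : ↥U × ↥U → gModOn U) (g * s, g' * s') = (c : ↥U × ↥U → gModOn U) (g, g'))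
    (q : ℕ) [Fact q.Prime]
    (h1 : ∀ (g₁ h₁ : ↥U) (g' : GQ),
      ‖padicEmbedding q (g' (gval U ((c : ↥U × ↥U → gModOn U) (g₁, h₁))))‖ = 1)
    (h2 : ∀ τ : PadicAlgCl q ≃ₐ[ℚ_[q]] PadicAlgCl q, IsInertial q τ →
      localGaloisToGlobal q τ ∈ F.fixingSubgroup) (g : GQ) :
    locBr q g U (continuousH2π U.subtype (gModOn U) c) = 0 := by
  have hV := isOpenL_locSub q g hU
  have hin : ∀ i : ↥(locSub q g U),
      IsInertial q (i : PadicAlgCl q ≃ₐ[ℚ_[q]] PadicAlgCl q) →
      ((locHom q g U i : ↥U) : GQ) ∈ F.fixingSubgroup := by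
    intro i hi
    rw [locHom_coe]
    exact conj_mem_fixingSubgroup F g (h2 _ hi)
  apply I.inv_injective q _ hV
  rw [map_zero, locBr_mk]
  apply I.inv_unram q _ hV
  · intro g₁ h₁
    exact h1 (locHom q g U g₁) (locHom q g U h₁) (g⁻¹ : GQ)
  · intro g₁ h₁ i j hi hj
    show locPush q g U (c.1 (locHom q g U (g₁ * i), locHom q g U (h₁ * j))) =
      locPush q g U (c.1 (locHom q g U g₁, locHom q g U h₁))
    rw [map_mul, map_mul, hconst _ _ _ _ (hin i hi) (hin j hj)]
  · intro g₁ h₁ i hi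
    show (lModOn q (locSub q g U)).ρ i
        (locPush q g U (c.1 (locHom q g U g₁, locHom q g U h₁))) =
      locPush q g U (c.1 (locHom q g U g₁, locHom q g U h₁))
    rw [← locPush_equivariant, rho_eq_of_level F c.2.1 hconst _ (hin i hi)]

/-- **REC2-G4.**  Finiteness of the support of a global Brauer class. -/
theorem supportFinite : SupportFiniteSpec := by
  intro I U hU x
  obtain ⟨c, hc⟩ := Submodule.mkQ_surjective _ x
  obtain ⟨F, hFfin, hFn, -, hconst⟩ := exists_normal_level hU c.2.2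
  haveI := hFfin
  haveI := hFn
  have hrange := finite_range_of_level F hconst
  have hA : (gval U '' Set.range (c : ↥U × ↥U → gModOn U)).Finite := hrange.image _
  have hA0 : ∀ a ∈ gval U '' Set.range (c : ↥U × ↥U → gModOn U), a ≠ 0 := by
    rintro _ ⟨m, -, rfl⟩
    exact Units.ne_zero _
  obtain ⟨B₁, hB₁⟩ := exists_bad_primes_norm_finite hA hA0
  obtain ⟨B₂, hB₂⟩ := exists_bad_primes_inertial F
  have hfin : {q : Nat.Primes | (q : ℕ) ∈ B₁ ∪ B₂}.Finite :=
    Set.Finite.preimage (Subtype.val_injective.injOn) (B₁ ∪ B₂).finite_toSet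
  have key : ∀ (q : Nat.Primes), (q : ℕ) ∉ B₁ ∪ B₂ → ∀ g : GQ,
      @locBr (q : ℕ) ⟨q.2⟩ g U x = 0 := by
    intro q hq g
    haveI : Fact (q : ℕ).Prime := ⟨q.2⟩
    rw [Finset.mem_union, not_or] at hq
    rw [← hc]
    exact locBr_eq_zero_of_good I hU c F hconst (q : ℕ)
      (fun g₁ h₁ g' => hB₁ (q : ℕ) hq.1 _ ⟨_, ⟨(g₁, h₁), rfl⟩, rfl⟩ g')
      (fun τ hτ => hB₂ (q : ℕ) hq.2 τ hτ) g
  refine hfin.subset ?_
  intro q hq
  by_contra hq'
  obtain ⟨g, hne⟩ := hq
  exact hne (key q hq' g)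

end Fermat.Agent.S55.G.Rec.H181

end
end
-- ===== PACK-END S55/G/Rec/SupportFiniteH181.lean

-- ===== PACK-BEGIN S55/G/Rec/SCH174/Char.lean
section



/-!
# S55 / G / REC, leaf SC (helper174) : the `p`-part of the cyclotomic character mod `r`

For primes `p ≠ r` and `n = p ^ v_p(r - 1)` we construct a character
`chiQ p r : G_ℚ →* Multiplicative (ZMod n)`, cyclotomic mod `r`, level-constant, such that an
element acting on `μ_r` by `ζ ↦ ζ ^ (p ^ f)` is sent to `f • t₀`, where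
`addOrderOf t₀ = orderOf (p : ZMod r)` whenever the latter is a power of `p`.
-/

set_option autoImplicit false
set_option linter.style.haveILetI false
set_option linter.unusedSectionVars false

noncomputable section

namespace Fermat.Agent.S55.G.Rec.H174

open groupCohomology Fermat.Agent.S55.G.Rec

local notation "Qb" => AlgebraicClosure ℚ
local notation "GQ" => (AlgebraicClosure ℚ ≃ₐ[ℚ] AlgebraicClosure ℚ)

/-! ## Abstract cyclic group lemma -/

section Cyclic

variable {G H : Type*} [Group G] [Group H]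

/-- A homomorphism from a cyclic group of order `p ^ M * s` (`p ∤ s`) which maps a generator to
an element of order `p ^ M` preserves the order of elements of `p`-power order. -/
theorem orderOf_map_of_generator {p M s : ℕ} (hp : p.Prime) (hs : p.Coprime s) {γ : G}
    (hγ : ∀ x, x ∈ Subgroup.zpowers γ) (hcard : orderOf γ = p ^ M * s) (ψ : G →* H)
    (hψ : orderOf (ψ γ) = p ^ M) {x : G} {a : ℕ} (hx : orderOf x = p ^ a) :
    orderOf (ψ x) = p ^ a := by
  have hker : ∀ y : G, ψ y = 1 → y ^ s = 1 := by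
    intro y hy
    obtain ⟨i, rfl⟩ := Subgroup.mem_zpowers_iff.1 (hγ y)
    rw [map_zpow] at hy
    have h1 : ((p ^ M : ℕ) : ℤ) ∣ i := by
      rw [← hψ]
      exact orderOf_dvd_iff_zpow_eq_one.2 hy
    obtain ⟨i', rfl⟩ := h1
    rw [← zpow_natCast, ← zpow_mul]
    apply orderOf_dvd_iff_zpow_eq_one.1
    rw [hcard]
    refine ⟨i', ?_⟩
    push_cast
    ring
  have hdvd : orderOf (ψ x) ∣ p ^ a := by
    rw [← hx]
    exact orderOf_map_dvd ψ x
  obtain ⟨b, hb, hbeq⟩ := (Nat.dvd_prime_pow hp).1 hdvd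
  have h2 : ψ (x ^ (p ^ b)) = 1 := by
    rw [map_pow, ← hbeq]
    exact pow_orderOf_eq_one _
  have h3 := hker _ h2
  rw [← pow_mul] at h3
  have h4 : p ^ a ∣ p ^ b * s := by
    rw [← hx]
    exact orderOf_dvd_of_pow_eq_one h3
  have h5 : p ^ a ∣ p ^ b := (Nat.Coprime.pow_left a hs).dvd_of_dvd_mul_right h4
  have h6 : a ≤ b := (Nat.pow_dvd_pow_iff_le_right hp.one_lt).1 h5
  rw [hbeq, le_antisymm hb h6]

end Cyclic

/-! ## The character -/

variable (p r : ℕ) [Fact p.Prime] [Fact r.Prime]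

/-- `M = v_p (r - 1)`. -/
def expM : ℕ := (r - 1).factorization p

/-- `n = p ^ M`, the `p`-part of `r - 1`. -/
def ppart : ℕ := p ^ expM p r

lemma ppart_ne_zero : ppart p r ≠ 0 := pow_ne_zero _ (Fact.out : p.Prime).ne_zero

instance neZero_ppart : NeZero (ppart p r) := ⟨ppart_ne_zero p r⟩

lemma ppart_dvd : ppart p r ∣ r - 1 := Nat.ordProj_dvd (r - 1) p

lemma card_units_zmod : Nat.card (ZMod r)ˣ = r - 1 := by
  rw [Nat.card_eq_fintype_card, ZMod.card_units]

/-- A generator of `(ℤ/r)ˣ`. -/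
def gen : (ZMod r)ˣ := Classical.choose (IsCyclic.exists_generator (α := (ZMod r)ˣ))

lemma gen_spec : ∀ x, x ∈ Subgroup.zpowers (gen r) :=
  Classical.choose_spec (IsCyclic.exists_generator (α := (ZMod r)ˣ))

lemma orderOf_gen : orderOf (gen r) = r - 1 := by
  rw [orderOf_eq_card_of_forall_mem_zpowers (gen_spec r), card_units_zmod]

lemma orderOf_ofAdd_one : orderOf (Multiplicative.ofAdd (1 : ZMod (ppart p r))) = ppart p r := by
  rw [orderOf_ofAdd_eq_addOrderOf, ZMod.addOrderOf_one]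

/-- The projection `(ℤ/r)ˣ → ℤ/n` onto the `p`-part. -/
def psi : (ZMod r)ˣ →* Multiplicative (ZMod (ppart p r)) :=
  monoidHomOfForallMemZpowers (gen_spec r)
    (g' := Multiplicative.ofAdd (1 : ZMod (ppart p r)))
    (by rw [orderOf_ofAdd_one, orderOf_gen]; exact ppart_dvd p r)

lemma psi_gen : psi p r (gen r) = Multiplicative.ofAdd (1 : ZMod (ppart p r)) :=
  monoidHomOfForallMemZpowers_apply_gen _ _

/-- `psi` preserves the order of elements of `p`-power order. -/
theorem orderOf_psi {x : (ZMod r)ˣ} {a : ℕ} (hx : orderOf x = p ^ a) :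
    orderOf (psi p r x) = p ^ a := by
  have hp : p.Prime := Fact.out
  have hr : r.Prime := Fact.out
  have hr1 : r - 1 ≠ 0 := by have := hr.two_le; omega
  refine orderOf_map_of_generator (M := expM p r) (s := (r - 1) / p ^ expM p r) hp
    (Nat.coprime_ordCompl hp hr1) (gen_spec r) ?_ (psi p r) ?_ hx
  · rw [orderOf_gen]
    exact (Nat.ordProj_mul_ordCompl_eq_self (r - 1) p).symm
  · rw [psi_gen, orderOf_ofAdd_one]
    rfl

/-- The `p`-part of the cyclotomic character mod `r`, on `G_ℚ`. -/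
def chiQ : GQ →* Multiplicative (ZMod (ppart p r)) :=
  (psi p r).comp (ExtCitation.cycloChar r)

/-- The `p`-part of the cyclotomic character mod `r`, on `U`. -/
def chiU (U : Subgroup GQ) : ↥U →* Multiplicative (ZMod (ppart p r)) :=
  (chiQ p r).comp U.subtype

lemma chiU_apply (U : Subgroup GQ) (σ : ↥U) : chiU p r U σ = chiQ p r (σ : GQ) := rfl

/-! ## The cyclotomic character and the action on `μ_r` -/

/-- If `σ` acts on `μ_r` by `ζ ↦ ζ ^ m` then `cycloChar r σ = m`. -/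
theorem cycloChar_eq_of_acts {σ : GQ} {m : ℕ} (h : ∀ ζ : Qb, ζ ^ r = 1 → σ ζ = ζ ^ m) :
    ((ExtCitation.cycloChar r σ : (ZMod r)ˣ) : ZMod r) = (m : ZMod r) := by
  have hr : r.Prime := Fact.out
  haveI : NeZero r := ⟨hr.ne_zero⟩
  symm
  refine modularCyclotomicCharacter.unique (L := Qb) (ExtCitation.card_rootsOfUnity_eq_self r)
    (σ : Qb ≃+* Qb) (c := (m : ZMod r)) ?_
  intro t ht
  have ht' : ((t : Qbˣ) : Qb) ^ r = 1 := by
    have := (mem_rootsOfUnity r t).1 ht
    rw [← Units.val_pow_eq_pow_val, this, Units.val_one]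
  rw [ZMod.val_natCast]
  have h1 := h (t : Qb) ht'
  have h2 : ((t : Qbˣ) : Qb) ^ m = ((t : Qbˣ) : Qb) ^ (m % r) := pow_eq_pow_mod m ht'
  rw [← h2]
  exact h1

/-- If `σ` fixes `μ_r` then `cycloChar r σ = 1`. -/
theorem cycloChar_eq_one_of_fixes {σ : GQ} (h : ∀ ζ : Qb, ζ ^ r = 1 → σ ζ = ζ) :
    ExtCitation.cycloChar r σ = 1 := by
  apply Units.ext
  rw [cycloChar_eq_of_acts r (σ := σ) (m := 1) (fun ζ hζ => by rw [h ζ hζ, pow_one])]
  simp

theorem chiQ_eq_one_of_fixes {σ : GQ} (h : ∀ ζ : Qb, ζ ^ r = 1 → σ ζ = ζ) :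
    chiQ p r σ = 1 := by
  show psi p r (ExtCitation.cycloChar r σ) = 1
  rw [cycloChar_eq_one_of_fixes r h, map_one]

/-- `chiU` is cyclotomic mod `r ^ 1`. -/
theorem isCycloChar_chiU (U : Subgroup GQ) : IsCycloChar U (r ^ 1) (chiU p r U) := by
  intro σ hσ
  rw [pow_one] at hσ
  exact chiQ_eq_one_of_fixes p r hσ

/-- `chiU` is level-constant (level `ℚ(μ_r)`). -/
theorem isLevelConstant₁_chiU (U : Subgroup GQ) : IsLevelConstant₁ U.subtype (chiU p r U) := by
  have hr : r.Prime := Fact.out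
  haveI : NeZero r := ⟨hr.ne_zero⟩
  obtain ⟨ζ, hζ⟩ := HasEnoughRootsOfUnity.exists_primitiveRoot Qb r
  have hint : IsIntegral ℚ ζ := (AlgebraicClosure.isAlgebraic ℚ).isAlgebraic ζ |>.isIntegral
  refine ⟨IntermediateField.adjoin ℚ {ζ}, IntermediateField.adjoin.finiteDimensional hint,
    fun g s hs => ?_⟩
  have hs' : (s : GQ) ∈ (IntermediateField.adjoin ℚ {ζ}).fixingSubgroup := hs
  have hsζ : (s : GQ) ζ = ζ :=
    (IntermediateField.mem_fixingSubgroup_iff _ _).1 hs' ζ
      (IntermediateField.mem_adjoin_simple_self ℚ ζ)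
  have hfix : ∀ ξ : Qb, ξ ^ r = 1 → (s : GQ) ξ = ξ := by
    intro ξ hξ
    obtain ⟨i, -, rfl⟩ := hζ.eq_pow_of_pow_eq_one hξ
    rw [map_pow, hsζ]
  rw [map_mul, chiU_apply p r U s, chiQ_eq_one_of_fixes p r hfix, mul_one]

/-- The unit `p mod r`. -/
def pbar (hpr : p ≠ r) : (ZMod r)ˣ :=
  ZMod.unitOfCoprime p
    ((Nat.coprime_primes (Fact.out : p.Prime) (Fact.out : r.Prime)).2 hpr)

lemma coe_pbar (hpr : p ≠ r) : ((pbar p r hpr : (ZMod r)ˣ) : ZMod r) = (p : ZMod r) :=
  ZMod.coe_unitOfCoprime p _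

/-- The value of the character on `p mod r`, additively. -/
def tzero (hpr : p ≠ r) : ZMod (ppart p r) := Multiplicative.toAdd (psi p r (pbar p r hpr))

/-- If `p` has order `p ^ N` modulo `r`, then `tzero` has additive order `p ^ N`. -/
theorem addOrderOf_tzero (hpr : p ≠ r) {N : ℕ} (hN : orderOf (p : ZMod r) = p ^ N) :
    addOrderOf (tzero p r hpr) = p ^ N := by
  have h1 : orderOf (pbar p r hpr) = p ^ N := by
    rw [← orderOf_units, coe_pbar, hN]
  have h2 := orderOf_psi p r h1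
  rw [← h2]
  exact (orderOf_ofAdd_eq_addOrderOf (tzero p r hpr)).symm

/-- An element acting on `μ_r` by `ζ ↦ ζ ^ (p ^ f)` is sent to `f • tzero` by `chiQ`. -/
theorem chiAdd_chiQ_of_acts (hpr : p ≠ r) {σ : GQ} {f : ℕ}
    (h : ∀ ζ : Qb, ζ ^ r = 1 → σ ζ = ζ ^ (p ^ f)) :
    chiAdd (chiQ p r) σ = f • tzero p r hpr := by
  have h1 : ExtCitation.cycloChar r σ = pbar p r hpr ^ f := by
    apply Units.ext
    rw [cycloChar_eq_of_acts r h, Units.val_pow_eq_pow_val, coe_pbar]
    push_cast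
    rfl
  show Multiplicative.toAdd (psi p r (ExtCitation.cycloChar r σ)) = _
  rw [h1, map_pow, toAdd_pow]
  rfl

end Fermat.Agent.S55.G.Rec.H174

end
end
-- ===== PACK-END S55/G/Rec/SCH174/Char.lean

-- ===== PACK-BEGIN S55/G/Rec/CupAddH496.lean
section



/-!
# S55 / layer G / block REC, leaf K2 (helper496): additivity of cup classes
-/

set_option autoImplicit false

noncomputable section

namespace Fermat.Agent.S55.G.Rec.H496

open groupCohomology Fermat.Agent.S55.G.Rec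

local notation "Qb" => AlgebraicClosure ℚ
local notation "GQ" => (AlgebraicClosure ℚ ≃ₐ[ℚ] AlgebraicClosure ℚ)

section General

variable {k G : Type} [CommRing k] [Group G] (r : G →* GQ) (A : Rep.{0} k G) {n : ℕ} [NeZero n]

/-- Product of level-constant characters is level-constant. -/
theorem isLevelConstant₁_mul_char {r : G →* GQ} {n : ℕ} {χ χ' : G →* Multiplicative (ZMod n)}
    (hχ : IsLevelConstant₁ r χ) (hχ' : IsLevelConstant₁ r χ') :
    IsLevelConstant₁ r (χ * χ' : G →* Multiplicative (ZMod n)) := by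
  obtain ⟨F, hF, h⟩ := hχ
  obtain ⟨F', hF', h'⟩ := hχ'
  haveI := hF; haveI := hF'
  refine ⟨F ⊔ F', inferInstance, fun g s hs => ?_⟩
  rw [MonoidHom.mul_apply, MonoidHom.mul_apply]
  rw [h g s (IntermediateField.fixingSubgroup_antitone le_sup_left hs),
    h' g s (IntermediateField.fixingSubgroup_antitone le_sup_right hs)]

omit [NeZero n] in
/-- The correcting 1-cochain is level-constant. -/
theorem isLevelConstant₁_carryChar {r : G →* GQ} {χ χ' : G →* Multiplicative (ZMod n)}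
    (hχ : IsLevelConstant₁ r χ) (hχ' : IsLevelConstant₁ r χ') (a : A.V) :
    IsLevelConstant₁ r (fun g => carryChar χ χ' g • a) := by
  obtain ⟨F, hF, h⟩ := hχ
  obtain ⟨F', hF', h'⟩ := hχ'
  haveI := hF; haveI := hF'
  refine ⟨F ⊔ F', inferInstance, fun g s hs => ?_⟩
  simp only [carryChar, lift]
  rw [h g s (IntermediateField.fixingSubgroup_antitone le_sup_left hs),
    h' g s (IntermediateField.fixingSubgroup_antitone le_sup_right hs)]

omit [NeZero n] in
/-- Additivity in the element, at the level of classes. -/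
theorem class_add_elt (χ : G → ZMod n) (a b : A.V)
    (hab : H379.cupChar n χ (a + b) ∈ levelCocycles₂ r A)
    (ha : H379.cupChar n χ a ∈ levelCocycles₂ r A)
    (hb : H379.cupChar n χ b ∈ levelCocycles₂ r A) :
    continuousH2π r A ⟨_, hab⟩ = continuousH2π r A ⟨_, ha⟩ + continuousH2π r A ⟨_, hb⟩ := by
  rw [← map_add]
  congr 1
  exact Subtype.ext (H379.cupChar_add n χ a b)

/-- Additivity in the character, at the level of classes. -/
theorem class_add_char (χ χ' : G →* Multiplicative (ZMod n))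
    (hχ : IsLevelConstant₁ r χ) (hχ' : IsLevelConstant₁ r χ') (a : A.V)
    (hinv : ∀ g : G, A.ρ g a = a)
    (h12 : H379.cupChar n (chiAdd (χ * χ')) a ∈ levelCocycles₂ r A)
    (h1 : H379.cupChar n (chiAdd χ) a ∈ levelCocycles₂ r A)
    (h2 : H379.cupChar n (chiAdd χ') a ∈ levelCocycles₂ r A) :
    continuousH2π r A ⟨_, h12⟩ = continuousH2π r A ⟨_, h1⟩ + continuousH2π r A ⟨_, h2⟩ := by
  rw [← map_add, eq_comm, ← sub_eq_zero, ← map_sub, continuousH2π_eq_zero_iff,
    mem_levelCoboundaries₂_iff]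
  refine ⟨fun g => carryChar χ χ' g • a, isLevelConstant₁_carryChar A hχ hχ' a, ?_⟩
  exact (cupChar_mul_eq A χ χ' ⟨a, hinv⟩).symm

end General

theorem gcc_mul_elt (U : Subgroup GQ) (n : ℕ) (χ : ↥U →* Multiplicative (ZMod n)) (a b : Qbˣ)
    (hn : n ≠ 0) (hχ : IsLevelConstant₁ U.subtype χ) (ha : GFixed U a) (hb : GFixed U b) :
    gcc U n χ (a * b) = gcc U n χ a + gcc U n χ b := by
  haveI : NeZero n := ⟨hn⟩
  have hab : GFixed U (a * b) := fun u hu => by rw [smul_mul', ha u hu, hb u hu]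
  have key1 := class_add_elt (k := ℤ) U.subtype (gModOn U) (chiAdd χ) (toGMod U a)
    (toGMod U b) (gcupChar_mem U n χ (a * b) ⟨hn, hχ, hab⟩)
    (gcupChar_mem U n χ a ⟨hn, hχ, ha⟩) (gcupChar_mem U n χ b ⟨hn, hχ, hb⟩)
  rw [gcc_eq U n χ (a * b) ⟨hn, hχ, hab⟩, gcc_eq U n χ a ⟨hn, hχ, ha⟩,
    gcc_eq U n χ b ⟨hn, hχ, hb⟩]
  exact key1

theorem gcc_mul_char (U : Subgroup GQ) (n : ℕ) (χ χ' : ↥U →* Multiplicative (ZMod n)) (a : Qbˣ)
    (hn : n ≠ 0) (hχ : IsLevelConstant₁ U.subtype χ) (hχ' : IsLevelConstant₁ U.subtype χ')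
    (ha : GFixed U a) :
    gcc U n (χ * χ') a = gcc U n χ a + gcc U n χ' a := by
  haveI : NeZero n := ⟨hn⟩
  have hχχ' : IsLevelConstant₁ U.subtype (χ * χ' : ↥U →* Multiplicative (ZMod n)) :=
    isLevelConstant₁_mul_char hχ hχ'
  have hinv : ∀ u : ↥U, (gModOn U).ρ u (toGMod U a) = toGMod U a :=
    fun u => toGMod_mem_invariants ha u
  have key2 := class_add_char (k := ℤ) U.subtype (gModOn U) χ χ' hχ hχ' (toGMod U a) hinv
    (gcupChar_mem U n (χ * χ') a ⟨hn, hχχ', ha⟩)
    (gcupChar_mem U n χ a ⟨hn, hχ, ha⟩) (gcupChar_mem U n χ' a ⟨hn, hχ', ha⟩)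
  rw [gcc_eq U n (χ * χ') a ⟨hn, hχχ', ha⟩, gcc_eq U n χ a ⟨hn, hχ, ha⟩,
    gcc_eq U n χ' a ⟨hn, hχ', ha⟩]
  exact key2

theorem lcc_mul_elt (q : ℕ) [Fact q.Prime] (V : Subgroup (PadicAlgCl q ≃ₐ[ℚ_[q]] PadicAlgCl q))
    (n : ℕ) (χ : ↥V →* Multiplicative (ZMod n)) (a b : (PadicAlgCl q)ˣ)
    (hn : n ≠ 0) (hχ : IsLevelConstant₁ (lHom q V) χ) (ha : LFixed q V a) (hb : LFixed q V b) :
    lcc q V n χ (a * b) = lcc q V n χ a + lcc q V n χ b := by
  haveI : NeZero n := ⟨hn⟩
  have hab : LFixed q V (a * b) := fun u hu => by rw [smul_mul', ha u hu, hb u hu]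
  have key1 := class_add_elt (k := ℤ) (lHom q V) (lModOn q V) (chiAdd χ) (toLMod q V a)
    (toLMod q V b) (lcupChar_mem q V n χ (a * b) ⟨hn, hχ, hab⟩)
    (lcupChar_mem q V n χ a ⟨hn, hχ, ha⟩) (lcupChar_mem q V n χ b ⟨hn, hχ, hb⟩)
  rw [lcc_eq q V n χ (a * b) ⟨hn, hχ, hab⟩, lcc_eq q V n χ a ⟨hn, hχ, ha⟩,
    lcc_eq q V n χ b ⟨hn, hχ, hb⟩]
  exact key1

theorem lcc_mul_char (q : ℕ) [Fact q.Prime] (V : Subgroup (PadicAlgCl q ≃ₐ[ℚ_[q]] PadicAlgCl q))
    (n : ℕ) (χ χ' : ↥V →* Multiplicative (ZMod n)) (a : (PadicAlgCl q)ˣ)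
    (hn : n ≠ 0) (hχ : IsLevelConstant₁ (lHom q V) χ) (hχ' : IsLevelConstant₁ (lHom q V) χ')
    (ha : LFixed q V a) :
    lcc q V n (χ * χ') a = lcc q V n χ a + lcc q V n χ' a := by
  haveI : NeZero n := ⟨hn⟩
  have hχχ' : IsLevelConstant₁ (lHom q V) (χ * χ' : ↥V →* Multiplicative (ZMod n)) :=
    isLevelConstant₁_mul_char hχ hχ'
  have hinv : ∀ τ : ↥V, (lModOn q V).ρ τ (toLMod q V a) = toLMod q V a :=
    fun τ => toLMod_mem_invariants ha τ
  have key2 := class_add_char (k := ℤ) (lHom q V) (lModOn q V) χ χ' hχ hχ' (toLMod q V a) hinv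
    (lcupChar_mem q V n (χ * χ') a ⟨hn, hχχ', ha⟩)
    (lcupChar_mem q V n χ a ⟨hn, hχ, ha⟩) (lcupChar_mem q V n χ' a ⟨hn, hχ', ha⟩)
  rw [lcc_eq q V n (χ * χ') a ⟨hn, hχχ', ha⟩, lcc_eq q V n χ a ⟨hn, hχ, ha⟩,
    lcc_eq q V n χ' a ⟨hn, hχ', ha⟩]
  exact key2

/-- **(K2)** additivity of cup classes in the element and in the character. -/
theorem cupAdd : CupAddSpec :=
  ⟨fun U n χ χ' a b hn hχ hχ' ha hb =>
      ⟨gcc_mul_elt U n χ a b hn hχ ha hb, gcc_mul_char U n χ χ' a hn hχ hχ' ha⟩,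
    fun q _ V n χ χ' a b hn hχ hχ' ha hb =>
      ⟨lcc_mul_elt q V n χ a b hn hχ ha hb, lcc_mul_char q V n χ χ' a hn hχ hχ' ha⟩⟩

end Fermat.Agent.S55.G.Rec.H496

end
end
-- ===== PACK-END S55/G/Rec/CupAddH496.lean

-- ===== PACK-BEGIN S55/G/Exist/Spec.lean
section
/-
S55 (Poitou–Tate), layer G, block EXIST = global existence theorem mod `p`
(input GD6 of engine E1, `coord/S55-E1.md`).   Owner: helper233.
Plan and leaves: `coord/S55-G-EXIST.md` on `origin/helper233`.

Only definitions and `def XxxSpec : Prop` (no `sorry`).  Vocabulary: `G/Defs.lean`, `G/Spec.lean`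
(helper421), `T/Spec.lean` (helper53).

Notation (additive, as in `G/Defs.lean`): for a number field `K` and a finite set `S` of primes
* `X = Additive Kˣ`, `J = Additive (AS S K)ˣ`, `D = PrimeOut S K →₀ ℤ`, `C = CS S K`;
* `E = sUnit S K = ker (ordHom)`;
* `Δ = kDelta p S K = {x | ordHom x ∈ p D}`    (`K(ᵖ√Δ)` = maximal `S`-unramified abelian
  extension of exponent `p` when `μ_p ⊂ K`, `p ∈ S`);
* `Ш = kSha p S K = {x ∈ Δ | x ⊗ 1 ∈ p J}`     (`K(ᵖ√Ш)` = its maximal subextension in which all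
  places above `S` split completely).
-/


set_option autoImplicit false

open scoped NumberField TensorProduct
open IsDedekindDomain

noncomputable section

namespace Fermat.Agent.S55.G.Exist

open Fermat.Agent.S55.G

/-! ## 0. Vocabulary -/

section Vocabulary

variable (p : ℕ) (S : Finset Nat.Primes) (K : Type) [Field K] [NumberField K]

/-- `Δ_S(K) = {x ∈ Kˣ | p ∣ ord_w x for all w ∉ S}` (additively). -/
def kDelta : AddSubgroup (Additive Kˣ) :=
  (AddMonoidHom.range (nsmulAddMonoidHom (α := PrimeOut S K →₀ ℤ) p)).comap (ordHom S K)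

/-- `Ш_S(K) = {x ∈ Δ_S(K) | x ⊗ 1 is a p-th power in J_S(K)}` (additively). -/
def kSha : AddSubgroup (Additive Kˣ) :=
  kDelta p S K ⊓
    (AddMonoidHom.range (nsmulAddMonoidHom (α := Additive (AS S K)ˣ) p)).comap (unitsDiag S K)

/-- The subgroup `p · A` of an additive commutative group. -/
abbrev pMul (A : Type*) [AddCommGroup A] : AddSubgroup A :=
  AddMonoidHom.range (nsmulAddMonoidHom (α := A) p)

variable {S K} in
lemma mem_kDelta_iff (x : Additive Kˣ) :
    x ∈ kDelta p S K ↔ ∃ d : PrimeOut S K →₀ ℤ, p • d = ordHom S K x := Iff.rfl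

variable {S K} in
lemma mem_kSha_iff (x : Additive Kˣ) :
    x ∈ kSha p S K ↔ (∃ d : PrimeOut S K →₀ ℤ, p • d = ordHom S K x) ∧
      ∃ u : Additive (AS S K)ˣ, p • u = unitsDiag S K x := Iff.rfl

end Vocabulary

/-- `L` is *Kummer-saturated* over `L^G` (for `p`, `S`): every `G`-invariant `x ∈ Lˣ` whose
order at every prime `w ∉ S` of `L` is divisible by `p` is a `p`-th power in `L`.
(If `L/L^G` is unramified outside `S` and `μ_p ⊂ L^G`, `p ∈ S`: `L` contains the maximal abelian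
extension of exponent `p` of `L^G` which is unramified outside `S`.) -/
def IsKummerSaturated (p : ℕ) (S : Finset Nat.Primes) (G L : Type) [Group G] [Field L]
    [NumberField L] [MulSemiringAction G L] : Prop :=
  ∀ x : Lˣ, (∀ g : G, g • (x : L) = x) →
    (∀ w : PrimeOut S L, (p : ℤ) ∣ ordAt w.1 (Additive.ofMul x)) → ∃ y : L, y ^ p = x

/-! ## 1. Output of the block -/

/-- **G-EXIST (existence theorem mod `p`; = GD6 of engine E1).**  Let `p` be an odd prime,
`p ∈ S`, `G` a finite group acting faithfully on the number field `L`, unramified outside `S`,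
`μ_p ⊂ L^G`, and `L` Kummer-saturated over `L^G`.  Then `N_G (C_S(L)) ⊆ p · C_S(L)^G`. -/
def ExistModSpec : Prop :=
  ∀ (p : ℕ) [hp : Fact p.Prime], p ≠ 2 →
  ∀ (S : Finset Nat.Primes) (G L : Type) [Group G] [Fintype G] [Field L] [NumberField L]
    [MulSemiringAction G L] [FaithfulSMul G L],
    (⟨p, hp.out⟩ : Nat.Primes) ∈ S → IsUnramOut S G L → HasFixedRootOfUnity p G L →
    IsKummerSaturated p S G L →
    ∀ c : CS S L, ∃ d : CS S L, (∀ g : G, cRepr S G L g d = d) ∧
      ∑ g : G, cRepr S G L g c = p • d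

/-- **G-EXIST, elementary case**: the same for `G` commutative of exponent `p`. -/
def ExistModElemSpec : Prop :=
  ∀ (p : ℕ) [hp : Fact p.Prime], p ≠ 2 →
  ∀ (S : Finset Nat.Primes) (G L : Type) [Group G] [Fintype G] [Field L] [NumberField L]
    [MulSemiringAction G L] [FaithfulSMul G L],
    (⟨p, hp.out⟩ : Nat.Primes) ∈ S → IsUnramOut S G L → HasFixedRootOfUnity p G L →
    IsKummerSaturated p S G L → (∀ g h : G, g * h = h * g) → (∀ g : G, g ^ p = 1) →
    ∀ c : CS S L, ∃ d : CS S L, (∀ g : G, cRepr S G L g d = d) ∧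
      ∑ g : G, cRepr S G L g c = p • d

/-! ## 2. Leaves -/

/-- **EX-IDX (arithmetic input; LPI + Dirichlet `S`-unit theorem + places ↔ primes).**
For a number field `K ∋ μ_p`, `p` odd, `p ∈ S`: `J_S(K)/p` and `E_S(K)/p` are finite and
`[J_S(K) : p J_S(K)] ≤ [E_S(K) : p E_S(K)]²`.
(In fact `[J : pJ] = p^{2t + n}` and `[E : pE] = p^{t + n/2}`, `t` = number of primes of `K` above
`S`, `n = [K : ℚ]`.) -/
def PowIndexCompareSpec : Prop :=
  ∀ (p : ℕ) [hp : Fact p.Prime], p ≠ 2 →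
  ∀ (S : Finset Nat.Primes) (K : Type) [Field K] [NumberField K],
    (⟨p, hp.out⟩ : Nat.Primes) ∈ S → (∃ ζ : K, IsPrimitiveRoot ζ p) →
    (pMul p (Additive (AS S K)ˣ)).index ≠ 0 ∧ (pMul p (sUnit S K)).index ≠ 0 ∧
    (pMul p (Additive (AS S K)ˣ)).index ≤ (pMul p (sUnit S K)).index ^ 2

/-- **EX-CNT (count; pure algebra + finiteness of the class group).**  For every number field
`K` and `S ≠ ∅`: if `J/pJ` and `E/pE` are finite then so are `C/pC`, `Δ/pX`, `Ш/pX` and
`[C : pC] · [E : pE] = [J : pJ] · [Ш : pX]`,  `[Δ : pX] = [E : pE] · [C : pC + im J]`. -/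
def CountSpec : Prop :=
  ∀ (p : ℕ) [Fact p.Prime] (S : Finset Nat.Primes) (K : Type) [Field K] [NumberField K],
    S.Nonempty →
    (pMul p (Additive (AS S K)ˣ)).index ≠ 0 → (pMul p (sUnit S K)).index ≠ 0 →
    (pMul p (CS S K)).index ≠ 0 ∧
    (pMul p (CS S K)).index * (pMul p (sUnit S K)).index =
      (pMul p (Additive (AS S K)ˣ)).index * (pMul p (Additive Kˣ)).relIndex (kSha p S K) ∧
    (pMul p (Additive Kˣ)).relIndex (kDelta p S K) =
      (pMul p (sUnit S K)).index * (pMul p (CS S K) ⊔ (jImage S K).toAddSubgroup).index ∧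
    (pMul p (Additive Kˣ)).relIndex (kDelta p S K) ≠ 0

/-- **EX-KUM (Kummer fields of subgroups of `Δ`).**  Let `K ∋ μ_p`, `p ∈ S`, and let
`pX ≤ B ≤ Δ_S(K)` with `[B : pX]` finite.  Then there are a number field `M ⊇ K` and a finite
group `Γ` acting faithfully on `M` with fixed field `K`, commutative of exponent `p`, of order
`[B : pX]`, unramified outside `S`, such that every element of `B` is a `p`-th power in `M`;
moreover, if `B ≤ Ш_S(K)`, every `j ∈ J_S(K)` is a norm from `J_S(M)`. -/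
def KummerFieldSpec : Prop :=
  ∀ (p : ℕ) [hp : Fact p.Prime], p ≠ 2 →
  ∀ (S : Finset Nat.Primes) (K : Type) [Field K] [NumberField K],
    (⟨p, hp.out⟩ : Nat.Primes) ∈ S → (∃ ζ : K, IsPrimitiveRoot ζ p) →
    ∀ B : AddSubgroup (Additive Kˣ), pMul p (Additive Kˣ) ≤ B → B ≤ kDelta p S K →
      (pMul p (Additive Kˣ)).relIndex B ≠ 0 →
      ∃ (M : Type) (_ : Field M) (_ : NumberField M) (_ : Algebra K M)
        (Γ : Type) (_ : Group Γ) (_ : Fintype Γ) (_ : MulSemiringAction Γ M)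
        (_ : FaithfulSMul Γ M),
        (∀ x : M, (∀ g : Γ, g • x = x) ↔ x ∈ (algebraMap K M).range) ∧
        (∀ g h : Γ, g * h = h * g) ∧ (∀ g : Γ, g ^ p = 1) ∧
        Fintype.card Γ = (pMul p (Additive Kˣ)).relIndex B ∧
        IsUnramOut S Γ M ∧
        (∀ x : Additive Kˣ, x ∈ B → ∃ y : M, y ^ p = algebraMap K M ((x.toMul : Kˣ) : K)) ∧
        (B ≤ kSha p S K → ∀ j : Additive (AS S K)ˣ, ∃ j' : Additive (AS S M)ˣ,
          ∑ g : Γ, jRepr Γ S M g j' = jMap S K M j)

/-- **EX-NI (norm index of a class module; pure plumbing on `T`).**  If `G` is a finite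
commutative group and `C : Rep ℤ G` satisfies the numerical class-module property
(`H¹(H, C) = 0`, `H²(H, C) ≃ ℤ/|H|` for all `H ≤ G`), then `[C^G : N_G C] = |G|` and
`e · C^G ⊆ N_G C` for every `e` with `g ^ e = 1` for all `g`.
Needs `T.ClassModuleOfCyclicSpec` and `T.TateReciprocitySpec`. -/
def NormIndexSpec : Prop :=
  ∀ (G : Type) [Group G] [Fintype G] (C : Rep.{0} ℤ G), (∀ g h : G, g * h = h * g) →
    (∀ H : Subgroup G, CategoryTheory.Limits.IsZero (groupCohomology (T.resSub C H) 1)) →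
    (∀ H : Subgroup G, Nonempty (groupCohomology (T.resSub C H) 2 ≃+ ZMod (Nat.card H))) →
    T.hat0Card C = Fintype.card G ∧
    ∀ e : ℕ, (∀ g : G, g ^ e = 1) → ∀ c : C.V, (∀ g : G, C.ρ g c = c) →
      ∃ b : C.V, e • c = ∑ g : G, C.ρ g b

/-- **EX-SHA (the bound `[Ш : pX] ≤ [C : pC + im J] = |Cl_S / p|`).**
From EX-KUM (for `B = Ш`), G-CM, EX-NI and G-DESC. -/
def ShaBoundSpec : Prop :=
  ∀ (p : ℕ) [hp : Fact p.Prime], p ≠ 2 →
  ∀ (S : Finset Nat.Primes) (K : Type) [Field K] [NumberField K],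
    (⟨p, hp.out⟩ : Nat.Primes) ∈ S → (∃ ζ : K, IsPrimitiveRoot ζ p) →
    (pMul p (Additive Kˣ)).relIndex (kSha p S K) ≠ 0 →
    (pMul p (Additive Kˣ)).relIndex (kSha p S K) ≤
      (pMul p (CS S K) ⊔ (jImage S K).toAddSubgroup).index

end Fermat.Agent.S55.G.Exist

end
end
-- ===== PACK-END S55/G/Exist/Spec.lean

-- ===== PACK-BEGIN S55/Bridge/Restrict.lean
section



/-!
# S55 bridge, part B14: places of `ℚ̄` above a place of a subfield are conjugate;
restriction is onto on decomposition groups.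
-/

set_option autoImplicit false
set_option linter.style.haveILetI false

namespace Fermat.Agent.S55.Bridge

open scoped Pointwise
open Fermat.Agent.S54

attribute [local instance] isAlgebraic_Qbar isGalois_Qbar

section Instances

variable (F : IntermediateField ℚ (AlgebraicClosure ℚ))

theorem compactSpace_fixingSubgroup : CompactSpace ↥F.fixingSubgroup :=
  isCompact_iff_compactSpace.mp (InfiniteGalois.fixingSubgroup_isClosed F).isCompact

theorem totallyDisconnectedSpace_fixingSubgroup : TotallyDisconnectedSpace ↥F.fixingSubgroup :=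
  Subtype.totallyDisconnectedSpace

theorem continuousSMul_fixingSubgroup :
    letI : TopologicalSpace (integralClosure ℤ (AlgebraicClosure ℚ)) := ⊥
    ContinuousSMul ↥F.fixingSubgroup (integralClosure ℤ (AlgebraicClosure ℚ)) := by
  letI : TopologicalSpace (integralClosure ℤ (AlgebraicClosure ℚ)) := ⊥
  haveI := continuousSMul_integralClosure
  refine ⟨?_⟩
  have h : Continuous fun p : (AlgebraicClosure ℚ ≃ₐ[ℚ] AlgebraicClosure ℚ) ×
      (integralClosure ℤ (AlgebraicClosure ℚ)) => p.1 • p.2 := continuous_smul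
  exact h.comp (continuous_subtype_val.prodMap continuous_id)

theorem smulCommClass_fixedPoints :
    SMulCommClass ↥F.fixingSubgroup
      (FixedPoints.subalgebra ℤ (integralClosure ℤ (AlgebraicClosure ℚ)) ↥F.fixingSubgroup)
      (integralClosure ℤ (AlgebraicClosure ℚ)) where
  smul_comm g a b := by
    show g • (a.1 * b) = a.1 * g • b
    rw [smul_mul', a.2 g]

theorem isInvariant_fixedPoints :
    Algebra.IsInvariant
      (FixedPoints.subalgebra ℤ (integralClosure ℤ (AlgebraicClosure ℚ)) ↥F.fixingSubgroup)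
      (integralClosure ℤ (AlgebraicClosure ℚ)) ↥F.fixingSubgroup :=
  ⟨fun b hb => ⟨⟨b, hb⟩, rfl⟩⟩

end Instances

section Prime

/-- A valuation subring over a prime is determined by the prime of `ℤ̄` below it. -/
theorem valuationSubring_ext_of_primeBelow {A A' : ValuationSubring (AlgebraicClosure ℚ)}
    {q : ℕ} (hq : q.Prime) (hA : A.LiesOverPrime q) (hA' : A'.LiesOverPrime q)
    (h : primeBelow A = primeBelow A') : A = A' := by
  have key : ∀ s : AlgebraicClosure ℚ, IsIntegral ℤ s → (s ∈ A.nonunits ↔ s ∈ A'.nonunits) := by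
    intro s hs
    have := congrArg (fun I : Ideal (integralClosure ℤ (AlgebraicClosure ℚ)) =>
      (⟨s, hs⟩ : integralClosure ℤ (AlgebraicClosure ℚ)) ∈ I) h
    simpa [mem_primeBelow] using this
  apply SetLike.ext
  intro x
  rw [mem_valuationSubring_iff A q hq hA, mem_valuationSubring_iff A' q hq hA']
  constructor
  · rintro ⟨b, s, hb, hs, hsn, hx⟩
    exact ⟨b, s, hb, hs, fun h' => hsn ((key s hs).2 h'), hx⟩
  · rintro ⟨b, s, hb, hs, hsn, hx⟩
    exact ⟨b, s, hb, hs, fun h' => hsn ((key s hs).1 h'), hx⟩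

/-- `primeBelow` is equivariant. -/
theorem primeBelow_smul (A : ValuationSubring (AlgebraicClosure ℚ))
    (g : AlgebraicClosure ℚ ≃ₐ[ℚ] AlgebraicClosure ℚ) :
    primeBelow (g • A) = g • primeBelow A := by
  ext b
  rw [mem_primeBelow, mem_nonunits_smul_iff, Ideal.mem_pointwise_smul_iff_inv_smul_mem,
    mem_primeBelow]
  rfl

end Prime

section Transitive

variable (F : IntermediateField ℚ (AlgebraicClosure ℚ))

/-- An algebraic integer fixed by `G_F` lies in `F`. -/
theorem mem_of_fixed_by_fixingSubgroup (x : AlgebraicClosure ℚ)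
    (hx : ∀ g ∈ F.fixingSubgroup, g x = x) : x ∈ F := by
  rw [← InfiniteGalois.fixedField_fixingSubgroup F, IntermediateField.mem_fixedField_iff]
  exact hx

/-- **Places of `ℚ̄` over the same place of `F` are conjugate under `G_F`.** -/
theorem exists_smul_eq_of_restrict_eq {A A' : ValuationSubring (AlgebraicClosure ℚ)}
    {q : ℕ} (hq : q.Prime) (hA : A.LiesOverPrime q) (hA' : A'.LiesOverPrime q)
    (h : ∀ x ∈ F, x ∈ A ↔ x ∈ A') :
    ∃ τ ∈ F.fixingSubgroup, τ • A = A' := by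
  letI : TopologicalSpace (integralClosure ℤ (AlgebraicClosure ℚ)) := ⊥
  haveI : DiscreteTopology (integralClosure ℤ (AlgebraicClosure ℚ)) := ⟨rfl⟩
  haveI := compactSpace_fixingSubgroup F
  haveI := totallyDisconnectedSpace_fixingSubgroup F
  haveI := continuousSMul_fixingSubgroup F
  haveI := smulCommClass_fixedPoints F
  haveI := isInvariant_fixedPoints F
  haveI := primeBelow_isPrime A
  haveI := primeBelow_isPrime A'
  have hunder : (primeBelow A).under
      (FixedPoints.subalgebra ℤ (integralClosure ℤ (AlgebraicClosure ℚ)) ↥F.fixingSubgroup)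
      = (primeBelow A').under
      (FixedPoints.subalgebra ℤ (integralClosure ℤ (AlgebraicClosure ℚ)) ↥F.fixingSubgroup) := by
    ext a
    rw [Ideal.mem_comap, Ideal.mem_comap]
    show ((a.1 : integralClosure ℤ (AlgebraicClosure ℚ)) : AlgebraicClosure ℚ) ∈ A.nonunits ↔
      ((a.1 : integralClosure ℤ (AlgebraicClosure ℚ)) : AlgebraicClosure ℚ) ∈ A'.nonunits
    have haF : ((a.1 : integralClosure ℤ (AlgebraicClosure ℚ)) : AlgebraicClosure ℚ) ∈ F := by
      apply mem_of_fixed_by_fixingSubgroup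
      intro g hg
      have := a.2 ⟨g, hg⟩
      exact congrArg Subtype.val this
    rw [mem_nonunits_iff_inv_not_mem, mem_nonunits_iff_inv_not_mem, h _ (F.inv_mem haF)]
  obtain ⟨τ, hτ⟩ := Algebra.IsInvariant.exists_smul_of_under_eq_of_profinite
    (A := FixedPoints.subalgebra ℤ (integralClosure ℤ (AlgebraicClosure ℚ)) ↥F.fixingSubgroup)
    (G := ↥F.fixingSubgroup) (primeBelow A) (primeBelow A') hunder
  refine ⟨τ.1, τ.2, ?_⟩
  apply valuationSubring_ext_of_primeBelow hq (liesOverPrime_smul A τ.1 q hA) hA'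
  rw [primeBelow_smul, hτ]
  rfl

/-- A normal intermediate field is stable under `G_ℚ`. -/
theorem map_mem_of_normal (hF : F.fixingSubgroup.Normal)
    (σ : AlgebraicClosure ℚ ≃ₐ[ℚ] AlgebraicClosure ℚ) {x : AlgebraicClosure ℚ} (hx : x ∈ F) :
    σ x ∈ F := by
  apply mem_of_fixed_by_fixingSubgroup
  intro g hg
  have h1 : σ⁻¹ * g * σ ∈ F.fixingSubgroup := by
    have := hF.conj_mem g hg σ⁻¹
    rwa [inv_inv] at this
  have h2 := (IntermediateField.mem_fixingSubgroup_iff F _).1 h1 x hx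
  have h3 : (σ⁻¹ * g * σ) x = σ⁻¹ (g (σ x)) := rfl
  rw [h3] at h2
  have h4 := congrArg σ h2
  have h5 : σ (σ⁻¹ (g (σ x))) = g (σ x) := by
    show (σ * σ⁻¹) (g (σ x)) = g (σ x)
    rw [mul_inv_cancel]
    rfl
  rw [h5] at h4
  exact h4

/-- **B14 (decomposition groups).** If `F/ℚ` is normal and `σ ∈ G_ℚ` stabilises the place
`A ∩ F` of `F`, then `σ|_F` is the restriction of an element of the decomposition group of `A`. -/
theorem exists_mem_decomposition_restrict_eq (hF : F.fixingSubgroup.Normal)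
    {A : ValuationSubring (AlgebraicClosure ℚ)} {q : ℕ} (hq : q.Prime) (hA : A.LiesOverPrime q)
    (σ : AlgebraicClosure ℚ ≃ₐ[ℚ] AlgebraicClosure ℚ) (hσ : ∀ x ∈ F, σ x ∈ A ↔ x ∈ A) :
    ∃ σ' ∈ A.decompositionSubgroup ℚ, ∀ x ∈ F, σ' x = σ x := by
  have hA' : (σ • A).LiesOverPrime q := liesOverPrime_smul A σ q hA
  have hcomp : ∀ x ∈ F, x ∈ σ • A ↔ x ∈ A := by
    intro x hx
    rw [mem_smul_valuationSubring_iff]
    have hx' : σ⁻¹ x ∈ F := map_mem_of_normal F hF σ⁻¹ hx
    have h1 := hσ (σ⁻¹ x) hx'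
    have h2 : σ (σ⁻¹ x) = x := by
      show (σ * σ⁻¹) x = x
      rw [mul_inv_cancel]
      rfl
    rw [h2] at h1
    exact h1.symm
  obtain ⟨τ, hτ, hτA⟩ := exists_smul_eq_of_restrict_eq F hq hA' hA hcomp
  refine ⟨τ * σ, ?_, ?_⟩
  · rw [MulAction.mem_stabilizer_iff, mul_smul]
    exact hτA
  · intro x hx
    show τ (σ x) = σ x
    exact (IntermediateField.mem_fixingSubgroup_iff F _).1 hτ _ (map_mem_of_normal F hF σ hx)

end Transitive

end Fermat.Agent.S55.Bridge

end
-- ===== PACK-END S55/Bridge/Restrict.lean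

-- ===== PACK-BEGIN S55/PT/LevelsNormal.lean
section




/-!
# S55 / PT layer: normal levels are cofinal (subtasks PT-N1, PT-N2)   (helper724)

* `globalLevels_normal_cofinal724` : every level `G_F`, `F` unramified outside `S`, contains a
  normal level `G_L`, `L/ℚ` Galois and unramified outside `S`
  (uses `Bridge.exists_galois_level_ge`).
* `pullbackLevels_normal_cofinal724` : same for levels pulled back along `r : G → G_ℚ`
  (normal closure of `F`).

These are the two `sorry`s of `PT/Levels.lean` (helper835's skeleton), stated with the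
abbreviation `GQ` unfolded so that this file does not depend on `Levels.lean`.
-/

set_option autoImplicit false

namespace Fermat.Agent.S55.PT

open Fermat.Agent.S55.Bridge

attribute [local instance] isAlgebraic_Qbar isGalois_Qbar

/-- (PT-N1) Every level `G_F`, `F` unramified outside `S`, contains a normal level `G_{F'}`,
`F'/ℚ` Galois and unramified outside `S`. -/
theorem globalLevels_normal_cofinal724 (S : Finset Nat.Primes) :
    ∀ U ∈ {U : Subgroup (AlgebraicClosure ℚ ≃ₐ[ℚ] AlgebraicClosure ℚ) |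
        ∃ F : IntermediateField ℚ (AlgebraicClosure ℚ),
        F.IsUnramifiedOutside S ∧ U = F.fixingSubgroup},
      ∃ V ∈ {U : Subgroup (AlgebraicClosure ℚ ≃ₐ[ℚ] AlgebraicClosure ℚ) |
        ∃ F : IntermediateField ℚ (AlgebraicClosure ℚ),
        F.IsUnramifiedOutside S ∧ U = F.fixingSubgroup}, V ≤ U ∧ V.Normal := by
  rintro U ⟨F, hF, rfl⟩
  obtain ⟨L, hL, hgal, hle⟩ := exists_galois_level_ge S F hF
  refine ⟨L.fixingSubgroup, ⟨L, hL, rfl⟩, IntermediateField.fixingSubgroup_antitone hle, ?_⟩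
  exact (InfiniteGalois.normal_iff_isGalois L).2 hgal

/-- (PT-N2) Same for pulled-back levels (normal closure of `F`). -/
theorem pullbackLevels_normal_cofinal724 {G : Type} [Group G]
    (r : G →* (AlgebraicClosure ℚ ≃ₐ[ℚ] AlgebraicClosure ℚ)) :
    ∀ U ∈ {U : Subgroup G | ∃ F : IntermediateField ℚ (AlgebraicClosure ℚ),
        FiniteDimensional ℚ F ∧ U = F.fixingSubgroup.comap r},
      ∃ V ∈ {U : Subgroup G | ∃ F : IntermediateField ℚ (AlgebraicClosure ℚ),
        FiniteDimensional ℚ F ∧ U = F.fixingSubgroup.comap r}, V ≤ U ∧ V.Normal := by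
  rintro U ⟨F, hF, rfl⟩
  have := hF
  have hfinN : FiniteDimensional ℚ (IntermediateField.normalClosure ℚ F (AlgebraicClosure ℚ)) :=
    normalClosure.is_finiteDimensional ℚ F (AlgebraicClosure ℚ)
  have hgalN : IsGalois ℚ (IntermediateField.normalClosure ℚ F (AlgebraicClosure ℚ)) :=
    IsGalois.normalClosure ℚ F (AlgebraicClosure ℚ)
  have hle : F ≤ IntermediateField.normalClosure ℚ F (AlgebraicClosure ℚ) :=
    IntermediateField.le_normalClosure F
  have hnormal : (IntermediateField.normalClosure ℚ F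
      (AlgebraicClosure ℚ)).fixingSubgroup.Normal :=
    (InfiniteGalois.normal_iff_isGalois _).2 hgalN
  refine ⟨_, ⟨IntermediateField.normalClosure ℚ F (AlgebraicClosure ℚ), hfinN, rfl⟩,
    Subgroup.comap_mono (IntermediateField.fixingSubgroup_antitone hle), ?_⟩
  exact Subgroup.Normal.comap hnormal r

end Fermat.Agent.S55.PT

end
-- ===== PACK-END S55/PT/LevelsNormal.lean

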