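import Mathlib
import Fermat.Prelude.Def_EllipticCurve_FrobeniusTrace
import Fermat.Agent.Pack.S56.E7L1
import Fermat.Agent.Pack.S56.E7L0
import Fermat.Agent.Pack.S56.E7L2
import Fermat.Agent.Pack.S56.E0L3
import Fermat.Agent.Pack.S56.E7L3
import Fermat.Agent.Pack.S56.E0L0
import Fermat.Agent.Pack.S56.E5L3
import Fermat.Agent.Pack.S56.E6L3
import Fermat.Agent.Pack.S56.E3L1
import Fermat.Agent.Pack.S56.E2L2
import Fermat.Agent.Pack.S56.E5L0
import Fermat.Agent.Pack.S56.E5L2
import Fermat.Agent.Pack.S56.E1L1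
import Fermat.Agent.Pack.S56.E6L0

-- ===== PACK-BEGIN S56/H726/Inner.lean
section


/-!
# S56 / P3(b) — from `tr Ψ = 0` on `H` to a coboundary (helper726)

(V) if `f = tr Ψ` vanishes on `H`, then `Ψ|_H` extends to a derivation of `M₂(k)`, which is
inner; (VI) a cocycle vanishing on `H` vanishes.
-/

set_option autoImplicit false

namespace Fermat.Agent.S56.H726

open Matrix

namespace TwData

variable {k : Type*} [Field k] {G : Type*} [Group G] (D : TwData k G)

/-- Antisymmetry of the pairing `tr (Ψ σ * ρ τ)` when `f` vanishes on `H`. -/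
theorem trace_ρ_mul_Ψ (hf : ∀ σ ∈ D.H, (D.Ψ σ).trace = 0) {σ τ : G} (hσ : σ ∈ D.H)
    (hτ : τ ∈ D.H) : (D.ρ σ * D.Ψ τ).trace = -(D.Ψ σ * D.ρ τ).trace := by
  have h := hf (σ * τ) (D.H.mul_mem hσ hτ)
  rw [D.Ψ_mul, D.det_H σ hσ, one_smul, Matrix.trace_add] at h
  linear_combination h

/-- (V), first step: a linear map `Dv` with `Dv (ρ σ) = Ψ σ` on `H`. -/
theorem exists_linear (hf : ∀ σ ∈ D.H, (D.Ψ σ).trace = 0) :
    ∃ Dv : Matrix (Fin 2) (Fin 2) k →ₗ[k] Matrix (Fin 2) (Fin 2) k,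
      ∀ σ ∈ D.H, Dv (D.ρ σ) = D.Ψ σ := by
  classical
  obtain ⟨b, hbs, hspan, hli⟩ := exists_linearIndependent k (D.ρ '' (D.H : Set G))
  have hsp : ⊤ ≤ Submodule.span k (Set.range (Subtype.val : b → Matrix (Fin 2) (Fin 2) k)) := by
    rw [Subtype.range_coe, hspan, D.span]
  let B := Module.Basis.mk hli hsp
  have hsel : ∀ x : b, ∃ σ : G, σ ∈ D.H ∧ D.ρ σ = x := fun x => hbs x.2
  choose sel hselH hselρ using hsel
  let Dv : Matrix (Fin 2) (Fin 2) k →ₗ[k] Matrix (Fin 2) (Fin 2) k :=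
    B.constr k (fun x : b => D.Ψ (sel x))
  have hDvB : ∀ x : b, Dv (x : Matrix (Fin 2) (Fin 2) k) = D.Ψ (sel x) := by
    intro x
    have : B x = (x : Matrix (Fin 2) (Fin 2) k) := by simp [B]
    rw [← this]
    exact B.constr_basis k _ x
  refine ⟨Dv, fun σ hσ => ?_⟩
  rw [← sub_eq_zero]
  apply D.eq_zero_of_trace_ρ_mul
  intro τ hτ
  -- two functionals agreeing on the basis
  set L₁ : Matrix (Fin 2) (Fin 2) k →ₗ[k] k :=
    ((Matrix.traceLinearMap (Fin 2) k k).comp (LinearMap.mulLeft k (D.ρ τ))).comp Dv with hL₁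
  set L₂ : Matrix (Fin 2) (Fin 2) k →ₗ[k] k :=
    -((Matrix.traceLinearMap (Fin 2) k k).comp (LinearMap.mulLeft k (D.Ψ τ))) with hL₂
  have hL : L₁ = L₂ := by
    apply B.ext
    intro x
    have hx : B x = (x : Matrix (Fin 2) (Fin 2) k) := by simp [B]
    rw [hx]
    show (D.ρ τ * Dv (x : Matrix (Fin 2) (Fin 2) k)).trace = -(D.Ψ τ * x).trace
    rw [hDvB, D.trace_ρ_mul_Ψ hf hτ (hselH x), hselρ]
  have h1 : (D.ρ τ * Dv (D.ρ σ)).trace = -(D.Ψ τ * D.ρ σ).trace := by
    have := congrArg (fun L => L (D.ρ σ)) hL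
    exact this
  rw [mul_sub, Matrix.trace_sub, h1, D.trace_ρ_mul_Ψ hf hτ hσ]
  ring

/-- (V): `Ψ` restricted to `H` is inner. -/
theorem exists_inner_on_H (hf : ∀ σ ∈ D.H, (D.Ψ σ).trace = 0) :
    ∃ m : Matrix (Fin 2) (Fin 2) k, ∀ σ ∈ D.H, D.Ψ σ = m * D.ρ σ - D.ρ σ * m := by
  obtain ⟨Dv, hDv⟩ := D.exists_linear hf
  have step1 : ∀ σ ∈ D.H, ∀ Y, Dv (D.ρ σ * Y) = D.Ψ σ * Y + D.ρ σ * Dv Y := by
    intro σ hσ Y
    have hY : Y ∈ Submodule.span k (D.ρ '' (D.H : Set G)) := by rw [D.span]; trivial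
    induction hY using Submodule.span_induction with
    | mem Y hY =>
      obtain ⟨τ, hτ, rfl⟩ := hY
      rw [← map_mul, hDv _ (D.H.mul_mem hσ hτ), hDv τ hτ, D.Ψ_mul, D.det_H σ hσ, one_smul]
    | zero => simp
    | add x y _ _ hx hy =>
      rw [mul_add, map_add, hx, hy, map_add, mul_add, mul_add]; abel
    | smul a x _ hx =>
      rw [Matrix.mul_smul, map_smul, hx, map_smul, Matrix.mul_smul, Matrix.mul_smul, smul_add]
  have step2 : ∀ X Y, Dv (X * Y) = Dv X * Y + X * Dv Y := by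
    intro X Y
    have hX : X ∈ Submodule.span k (D.ρ '' (D.H : Set G)) := by rw [D.span]; trivial
    induction hX using Submodule.span_induction with
    | mem X hX =>
      obtain ⟨σ, hσ, rfl⟩ := hX
      rw [step1 σ hσ, hDv σ hσ]
    | zero => simp
    | add x y _ _ hx hy =>
      rw [add_mul, map_add, hx, hy, map_add, add_mul, add_mul]; abel
    | smul a x _ hx =>
      rw [Matrix.smul_mul, map_smul, hx, map_smul, Matrix.smul_mul, Matrix.smul_mul, smul_add]
  obtain ⟨m, hm⟩ := m2_inner_of_derivation Dv step2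
  exact ⟨m, fun σ hσ => by rw [← hDv σ hσ, hm]⟩

/-- (VI): a cocycle (in `Ψ`-form) which vanishes on `H` vanishes. -/
theorem eq_zero_of_vanish_on_H (h2 : (2 : k) ≠ 0) (Φ : G → Matrix (Fin 2) (Fin 2) k)
    (hΦ : ∀ g h, Φ (g * h) = Φ g * D.ρ h + (D.ρ g).det • (D.ρ g * Φ h))
    (htr : ∀ g, (Φ g * D.ρ g⁻¹).trace = 0)
    (hH : ∀ h ∈ D.H, Φ h = 0) (g : G) : Φ g = 0 := by
  have key : ∀ h ∈ D.H, (D.ρ g⁻¹ * Φ g) * D.ρ h = D.ρ h * (D.ρ g⁻¹ * Φ g) := by
    intro h hh
    have hc : g * h * g⁻¹ ∈ D.H := D.normal.conj_mem h hh g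
    have e1 := hΦ g h
    rw [hH h hh, mul_zero, smul_zero, add_zero] at e1
    have e2 := hΦ (g * h * g⁻¹) g
    rw [hH _ hc, zero_mul, zero_add, D.det_H _ hc, one_smul, inv_mul_cancel_right, D.ρ_conj]
      at e2
    rw [e1] at e2
    -- e2 : Φ g * ρ h = ρ g * ρ h * ρ g⁻¹ * Φ g
    rw [mul_assoc, e2]
    have : D.ρ g⁻¹ * (D.ρ g * D.ρ h * D.ρ g⁻¹ * Φ g) =
        (D.ρ g⁻¹ * D.ρ g) * D.ρ h * (D.ρ g⁻¹ * Φ g) := by noncomm_ring
    rw [this, D.ρ_inv_mul, one_mul]
  have hY := m2_eq_zero_of_commute h2 (D.commute_of_commute_ρ key)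
    (by rw [Matrix.trace_mul_comm]; exact htr g)
  calc Φ g = (D.ρ g * D.ρ g⁻¹) * Φ g := by rw [D.ρ_mul_inv, one_mul]
    _ = D.ρ g * (D.ρ g⁻¹ * Φ g) := by rw [mul_assoc]
    _ = 0 := by rw [hY, mul_zero]

/-- **The cocycle is a coboundary** (`Ψ`-form). -/
theorem exists_coboundary [Finite k] (p : ℕ) [Fact p.Prime] [CharP k p] (hp2 : p ≠ 2)
    (h5 : p = 5 → ∃ g : G, (D.ρ g).det ≠ 1 ∧ (D.ρ g).det ≠ -1) :
    ∃ m : Matrix (Fin 2) (Fin 2) k, m.trace = 0 ∧
      ∀ g, D.Ψ g = (D.ρ g).det • (D.ρ g * m) - m * D.ρ g := by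
  have hpr : p.Prime := Fact.out
  have h2 : (2 : k) ≠ 0 := by
    have := natCast_ne_zero_of_lt (k := k) p (n := 2) (by norm_num)
      (lt_of_le_of_ne hpr.two_le (Ne.symm hp2))
    exact_mod_cast this
  have hf := D.f_eq_zero p hp2 h5
  obtain ⟨m₀, hm₀⟩ := D.exists_inner_on_H hf
  -- normalise the trace
  set m : Matrix (Fin 2) (Fin 2) k := (m₀.trace / 2) • (1 : Matrix (Fin 2) (Fin 2) k) - m₀
    with hm
  have hmtr : m.trace = 0 := by
    rw [hm, Matrix.trace_sub, Matrix.trace_smul, Matrix.trace_one, Fintype.card_fin,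
      smul_eq_mul]
    push_cast
    field_simp
    ring
  refine ⟨m, hmtr, fun g => ?_⟩
  rw [← sub_eq_zero]
  refine D.eq_zero_of_vanish_on_H h2
    (fun g => D.Ψ g - ((D.ρ g).det • (D.ρ g * m) - m * D.ρ g)) ?_ ?_ ?_ g
  · intro g h
    rw [D.Ψ_mul, map_mul, Matrix.det_mul]
    simp only [sub_mul, mul_sub, smul_sub, Matrix.smul_mul, Matrix.mul_smul, mul_assoc,
      smul_smul]
    rw [mul_comm (D.ρ g).det (D.ρ h).det]
    abel
  · intro g
    rw [sub_mul, sub_mul, Matrix.trace_sub, Matrix.trace_sub, D.tr_zero, Matrix.smul_mul,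
      Matrix.trace_smul, mul_assoc m, D.ρ_mul_inv, mul_one, hmtr,
      Matrix.trace_mul_comm (D.ρ g * m), ← mul_assoc, D.ρ_inv_mul, one_mul, hmtr]
    simp
  · intro h hh
    rw [hm₀ h hh, D.det_H h hh, one_smul, hm]
    simp only [mul_sub, sub_mul, Matrix.mul_smul, Matrix.smul_mul, mul_one, one_mul]
    abel

end TwData

/-- **`H¹` vanishing, cocycle form.**  `k` a finite field of odd characteristic `p`,
`ρ : G →* M₂(k)`, `H ⊴ G` with `det ρ = 1` on `H` and `ρ(H)` spanning `M₂(k)`, eigenvalues of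
`ρ(h)`, `h ∈ H`, in `k`; if `p = 5` assume `det ρ(g) ≠ ±1` for some `g`.  Then every cocycle
`ψ : G → sl₂(k)` for the twisted adjoint action `g · X = det ρ(g) ρ(g) X ρ(g)⁻¹` which vanishes
on `H ∩ ker ρ` is a coboundary. -/
theorem h1_vanishing {k : Type*} [Field k] [Finite k] {G : Type*} [Group G]
    (p : ℕ) [Fact p.Prime] [CharP k p] (hp2 : p ≠ 2)
    (ρ : G →* Matrix (Fin 2) (Fin 2) k) (H : Subgroup G) (hH : H.Normal)
    (hdet : ∀ h ∈ H, (ρ h).det = 1)
    (hspan : Submodule.span k (ρ '' (H : Set G)) = ⊤)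
    (hsplit : ∀ h ∈ H, ∃ α β : k, (ρ h).trace = α + β ∧ α * β = 1)
    (h5 : p = 5 → ∃ g : G, (ρ g).det ≠ 1 ∧ (ρ g).det ≠ -1)
    (ψ : G → Matrix (Fin 2) (Fin 2) k)
    (hψtr : ∀ g, (ψ g).trace = 0)
    (hψ : ∀ g h, ψ (g * h) = ψ g + (ρ g).det • (ρ g * ψ h * ρ g⁻¹))
    (hN : ∀ h ∈ H, ρ h = 1 → ψ h = 0) :
    ∃ m : Matrix (Fin 2) (Fin 2) k, m.trace = 0 ∧
      ∀ g, ψ g = (ρ g).det • (ρ g * m * ρ g⁻¹) - m := by
  have hinv : ∀ g, ρ g * ρ g⁻¹ = 1 := fun g => by rw [← map_mul, mul_inv_cancel, map_one]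
  have hinv' : ∀ g, ρ g⁻¹ * ρ g = 1 := fun g => by rw [← map_mul, inv_mul_cancel, map_one]
  let D : TwData k G :=
    { ρ := ρ
      Ψ := fun g => ψ g * ρ g
      H := H
      normal := hH
      det_H := hdet
      Ψ_mul := fun g h => by
        have e1 : ψ g * (ρ g * ρ h) = ψ g * ρ g * ρ h := (mul_assoc _ _ _).symm
        have e2 : ρ g * ψ h * ρ g⁻¹ * (ρ g * ρ h) = ρ g * (ψ h * ρ h) := by
          have : ρ g * ψ h * ρ g⁻¹ * (ρ g * ρ h) = ρ g * ψ h * (ρ g⁻¹ * ρ g) * ρ h := by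
            noncomm_ring
          rw [this, hinv', mul_one, mul_assoc]
        rw [hψ, map_mul, add_mul, Matrix.smul_mul, e1, e2]
      tr_zero := fun g => by
        rw [mul_assoc, hinv, mul_one]
        exact hψtr g
      Ψ_N := fun h hh h1 => by
        rw [hN h hh h1, zero_mul]
      span := hspan
      split := hsplit }
  obtain ⟨m, hm, hcob⟩ := D.exists_coboundary p hp2 h5
  refine ⟨m, hm, fun g => ?_⟩
  have h := hcob g
  have e : ψ g = (ψ g * ρ g) * ρ g⁻¹ := by rw [mul_assoc, hinv, mul_one]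
  rw [e]
  change ψ g * ρ g = (ρ g).det • (ρ g * m) - m * ρ g at h
  rw [h, sub_mul, Matrix.smul_mul, mul_assoc m, hinv, mul_one]

end Fermat.Agent.S56.H726

end
-- ===== PACK-END S56/H726/Inner.lean

-- ===== PACK-BEGIN S56/H716/SBDefs.lean
section


/-!
# Row S56 — SELBOUND, layer 2: FROZEN definitions (deputy helper716)

Plain-function language of layers 0 and 1 (`c : G_ℚ → End_k V`, `V = ρbar.V`).

* `IsAdCoboundaryOn ρbar H c` — `c` is an (untwisted) coboundary on the subgroup `H ≤ G_ℚ`.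
* `adInv ρbar H`              — `H⁰(H, ad⁰ρ̄)`: trace-zero endomorphisms commuting with `ρ̄(H)`.
* `UnramAt c q`               — `c` vanishes on every inertia group above `q`.
* `IsSelCocycle ρbar Pl Λ Smin Q c` — `c ∈ Z¹(G_ℚ, ad⁰ρ̄)` (finite level), unramified outside
  `Smin ∪ Q`, and for every `v ∈ Smin` the restriction of `c` to the decomposition group of the
  chosen place `Pl v` above `v` is cohomologous to (the restriction of) an element of `Λ v`.
  ("Selmer cocycles" for the local conditions `L_v = image of Λ v in H¹(D_{Pl v}, ad⁰ρ̄)`.)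

Nothing unproved in this file.  Plan: `coord/S56-TB.md` on `origin/main`.
-/

set_option autoImplicit false

open Polynomial IsLocalRing

noncomputable section

namespace Fermat.Agent.S56.H716

open Fermat.Agent.S56

section

variable {k : Type} [Field k] (ρbar : ResidualGaloisRep k)

/-- `c` is an (untwisted) coboundary on the subgroup `H`. -/
def IsAdCoboundaryOn (H : Subgroup GQ) (c : GQ → Module.End k ρbar.V) : Prop :=
  ∃ m : Module.End k ρbar.V, ∀ σ ∈ H, c σ = ρbar.ρ σ * m * ρbar.ρ σ⁻¹ - m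

/-- `H⁰(H, ad⁰ρ̄)`: the trace-zero endomorphisms fixed by the adjoint action of `H`. -/
def adInv (H : Subgroup GQ) : Submodule k (Module.End k ρbar.V) where
  carrier := {m | LinearMap.trace k ρbar.V m = 0 ∧ ∀ σ ∈ H, ρbar.ρ σ * m * ρbar.ρ σ⁻¹ = m}
  add_mem' := by
    rintro a b ⟨ha, ha'⟩ ⟨hb, hb'⟩
    refine ⟨by rw [map_add, ha, hb, add_zero], fun σ hσ => ?_⟩
    rw [mul_add, add_mul, ha' σ hσ, hb' σ hσ]
  zero_mem' := ⟨map_zero _, fun σ _ => by rw [mul_zero, zero_mul]⟩
  smul_mem' := by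
    rintro r a ⟨ha, ha'⟩
    refine ⟨by rw [map_smul, ha, smul_zero], fun σ hσ => ?_⟩
    rw [mul_smul_comm, smul_mul_assoc, ha' σ hσ]

/-- `c` vanishes on every inertia group above the prime `q`. -/
def UnramAt (c : GQ → Module.End k ρbar.V) (q : ℕ) : Prop :=
  ∀ P : ValuationSubring Qb, P.LiesOverPrime q → ∀ σ ∈ P.inertiaSubgroupIn ℚ, c σ = 0

/-- Selmer cocycles for the local conditions cut out by the spaces `Λ v` (`v ∈ Smin`) at the
places `Pl v`, with no condition at `Q` and the unramified condition elsewhere. -/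
structure IsSelCocycle (Pl : ℕ → ValuationSubring Qb)
    (Λ : ℕ → Submodule k (GQ → Module.End k ρbar.V)) (Smin Q : Finset ℕ)
    (c : GQ → Module.End k ρbar.V) : Prop where
  cocycle : IsAdCocycle ρbar c
  unram : ∀ q : ℕ, q.Prime → q ∉ Smin ∪ Q → UnramAt ρbar c q
  loc : ∀ v ∈ Smin, ∃ t ∈ Λ v, IsAdCoboundaryOn ρbar ((Pl v).decompositionSubgroup ℚ) (c - t)

end

end Fermat.Agent.S56.H716

end

end
-- ===== PACK-END S56/H716/SBDefs.lean

-- ===== PACK-BEGIN S56/H606/Gen.lean
section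





/-!
# S56 / LOC-TAME (helper606), part (c) GEN: decomposition groups are generated by Frobenius
and inertia, modulo any finite level

`A` a valuation subring of `ℚ̄` over a prime `q`, `φ` a Frobenius element at `A`
(`A.IsFrobeniusAt φ q`), `F/ℚ` a finite subextension of `ℚ̄`.  Then every `σ` in the
decomposition group `D_A` agrees on `F` with `φ ^ n * ι` for some `n : ℕ` and some `ι` in the
inertia group `I_A` (Prelude `inertiaSubgroupIn`).

Main results (namespace `Fermat.Agent.S56.H606`):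
* `frobenius_pow_sub_pow_mem_nonunits` : `φ ^ n` is `x ↦ x ^ (q ^ n)` modulo the maximal ideal;
* `exists_pow_congr_of_mem_decomposition` : every `σ ∈ D_A` is `x ↦ x ^ (q ^ n)` modulo the
  maximal ideal on the integers of a finite normal `F` (residue fields at finite level are
  finite);
* `exists_inertia_congr` : an element of `D_A` acting trivially modulo the maximal ideal on the
  integers of `F` agrees on `F` with an element of `I_A`;
* `exists_frobenius_pow_mul_inertia` : the statement above;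
* `map_mem_decomposition_eq` : for a homomorphism `f` on `G_ℚ` of finite level,
  `f σ = f φ ^ n * f ι`.
-/

set_option autoImplicit false
set_option linter.style.haveILetI false

open scoped Pointwise NumberField
open IntermediateField

namespace Fermat.Agent.S56.H606

open Fermat.Agent.S54 Fermat.Agent.S55.Bridge Fermat.Agent.S55.Bridge.H959

attribute [local instance] isAlgebraic_Qbar isGalois_Qbar

variable (A : ValuationSubring _root_.Fermat.Agent.S55.Bridge.H959.Qb)

/-! ## 1. Frobenius powers -/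

/-- Congruence modulo the maximal ideal in terms of residues. -/
theorem sub_mem_nonunits_iff_residue_eq {a b : _root_.Fermat.Agent.S55.Bridge.H959.Qb} (ha : a ∈ A) (hb : b ∈ A) :
    a - b ∈ A.nonunits ↔ IsLocalRing.residue A ⟨a, ha⟩ = IsLocalRing.residue A ⟨b, hb⟩ := by
  rw [← sub_eq_zero, ← map_sub, IsLocalRing.residue_eq_zero_iff,
    ValuationSubring.valuation_lt_one_iff, ValuationSubring.mem_nonunits_iff]
  rfl

/-- Elements of the decomposition group preserve `A`. -/
theorem apply_mem_of_mem_decomposition {σ : _root_.Fermat.Agent.S55.Bridge.H959.GQ} (hσ : σ ∈ A.decompositionSubgroup ℚ) {x : _root_.Fermat.Agent.S55.Bridge.H959.Qb}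
    (hx : x ∈ A) : σ x ∈ A :=
  ((mem_decomposition_iff A σ).mp hσ x).mpr hx

/-- The `n`-th power of a Frobenius element acts as `x ↦ x ^ (q ^ n)` on the residue field. -/
theorem frobenius_pow_smul_residue {q : ℕ} {φ : _root_.Fermat.Agent.S55.Bridge.H959.GQ} (hφ : A.IsFrobeniusAt φ q) (n : ℕ)
    (x : IsLocalRing.ResidueField A) :
    ((⟨φ, hφ.mem_decompositionSubgroup⟩ : A.decompositionSubgroup ℚ) ^ n) • x = x ^ (q ^ n) := by
  induction n generalizing x with
  | zero => simp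
  | succ n ih =>
    rw [pow_succ, mul_smul, hφ.smul_residue_eq, ih, ← pow_mul, pow_succ, mul_comm]

/-- The `n`-th power of a Frobenius element is `x ↦ x ^ (q ^ n)` modulo the maximal ideal. -/
theorem frobenius_pow_sub_pow_mem_nonunits {q : ℕ} {φ : _root_.Fermat.Agent.S55.Bridge.H959.GQ} (hφ : A.IsFrobeniusAt φ q) (n : ℕ)
    {x : _root_.Fermat.Agent.S55.Bridge.H959.Qb} (hx : x ∈ A) : (φ ^ n) x - x ^ (q ^ n) ∈ A.nonunits := by
  have hD : φ ^ n ∈ A.decompositionSubgroup ℚ := pow_mem hφ.mem_decompositionSubgroup n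
  rw [sub_mem_nonunits_iff_residue_eq A (apply_mem_of_mem_decomposition A hD hx)
    (pow_mem hx _)]
  have key := frobenius_pow_smul_residue A hφ n (IsLocalRing.residue A ⟨x, hx⟩)
  rw [← IsLocalRing.ResidueField.residue_smul] at key
  rw [← map_pow] at key
  exact key

/-! ## 2. Finite level: every element of `D_A` is a Frobenius power modulo the maximal ideal -/

section finiteLevel

variable (F : IntermediateField ℚ _root_.Fermat.Agent.S55.Bridge.H959.Qb) [FiniteDimensional ℚ F]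

/-- The inclusion of the ring of integers of `F` into `ℚ̄`. -/
noncomputable def intIncl : 𝓞 F →+* _root_.Fermat.Agent.S55.Bridge.H959.Qb :=
  (algebraMap F _root_.Fermat.Agent.S55.Bridge.H959.Qb).comp (algebraMap (𝓞 F) F)

omit [FiniteDimensional ℚ F] in
theorem intIncl_apply (x : 𝓞 F) : intIncl F x = ((x : F) : _root_.Fermat.Agent.S55.Bridge.H959.Qb) := rfl

omit [FiniteDimensional ℚ F] in
theorem isIntegral_intIncl (x : 𝓞 F) : IsIntegral ℤ (intIncl F x) :=
  (NumberField.RingOfIntegers.isIntegral_coe x).map (IsScalarTower.toAlgHom ℤ F _root_.Fermat.Agent.S55.Bridge.H959.Qb)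

omit [FiniteDimensional ℚ F] in
theorem intIncl_mem (x : 𝓞 F) : intIncl F x ∈ A :=
  isIntegral_mem_valuationSubring A (isIntegral_intIncl F x)

omit [FiniteDimensional ℚ F] in
/-- Every integral element of `F` comes from the ring of integers. -/
theorem exists_intIncl_eq {x : _root_.Fermat.Agent.S55.Bridge.H959.Qb} (hxF : x ∈ F) (hx : IsIntegral ℤ x) :
    ∃ X : 𝓞 F, intIncl F X = x :=
  ⟨⟨⟨x, hxF⟩, (isIntegral_algebraMap_iff (algebraMap F _root_.Fermat.Agent.S55.Bridge.H959.Qb).injective).mp hx⟩, rfl⟩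

/-- The inclusion of the ring of integers of `F` into `A`. -/
noncomputable def intInclA : 𝓞 F →+* A :=
  RingHom.codRestrict (intIncl F) A (intIncl_mem A F)

/-- The prime of the ring of integers of `F` below `A`. -/
noncomputable def primeAt : Ideal (𝓞 F) :=
  Ideal.comap (intInclA A F) (IsLocalRing.maximalIdeal A)

omit [FiniteDimensional ℚ F] in
theorem mem_primeAt (x : 𝓞 F) : x ∈ primeAt A F ↔ intIncl F x ∈ A.nonunits := by
  rw [primeAt, Ideal.mem_comap, ValuationSubring.valuation_lt_one_iff,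
    ValuationSubring.mem_nonunits_iff]
  rfl

omit [FiniteDimensional ℚ F] in
theorem primeAt_isPrime : (primeAt A F).IsPrime :=
  Ideal.comap_isPrime _ _

variable {A} {q : ℕ}

omit [FiniteDimensional ℚ F] in
theorem natCast_mem_primeAt (hA : A.LiesOverPrime q) : ((q : ℕ) : 𝓞 F) ∈ primeAt A F := by
  rw [mem_primeAt, map_natCast]
  exact hA

omit [FiniteDimensional ℚ F] in
theorem primeAt_ne_bot (hq : q.Prime) (hA : A.LiesOverPrime q) : primeAt A F ≠ ⊥ := by
  intro h
  have h1 := natCast_mem_primeAt F hA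
  rw [h, Ideal.mem_bot] at h1
  exact hq.ne_zero (Nat.cast_eq_zero.mp h1)

/-- The residue field at finite level is finite. -/
theorem finite_quotient_primeAt (hq : q.Prime) (hA : A.LiesOverPrime q) :
    Finite (𝓞 F ⧸ primeAt A F) := by
  haveI : NumberField F := ⟨⟩
  exact Ideal.finiteQuotientOfFreeOfNeBot _ (primeAt_ne_bot F hq hA)

omit [FiniteDimensional ℚ F] in
/-- The prime number below `primeAt A F`. -/
theorem under_primeAt (hq : q.Prime) (hA : A.LiesOverPrime q) :
    (primeAt A F).under ℤ = Ideal.span {(q : ℤ)} := by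
  haveI := primeAt_isPrime A F
  have hmax : (Ideal.span {(q : ℤ)}).IsMaximal :=
    PrincipalIdealRing.isMaximal_of_irreducible
      (Nat.prime_iff_prime_int.mp hq).irreducible
  symm
  apply hmax.eq_of_le
  · exact (Ideal.IsPrime.under ℤ (primeAt A F)).ne_top
  · rw [Ideal.span_singleton_le_iff_mem, Ideal.mem_comap]
    have := natCast_mem_primeAt F hA
    simpa using this

omit [FiniteDimensional ℚ F] in
theorem card_quotient_under_primeAt (hq : q.Prime) (hA : A.LiesOverPrime q) :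
    Nat.card (ℤ ⧸ (primeAt A F).under ℤ) = q := by
  rw [under_primeAt F hq hA, Nat.card_congr (Int.quotientSpanNatEquivZMod q).toEquiv,
    Nat.card_zmod]

variable [Normal ℚ F]

omit [FiniteDimensional ℚ F] in
/-- The action of `Gal(F/ℚ)` on the integers of `F` is compatible with restriction. -/
theorem intIncl_restrict_smul (σ : _root_.Fermat.Agent.S55.Bridge.H959.GQ) (x : 𝓞 F) :
    intIncl F (AlgEquiv.restrictNormalHom F σ • x) = σ (intIncl F x) := by
  rw [intIncl_apply, intIncl_apply]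
  exact restrict_apply F σ (x : F)

omit [FiniteDimensional ℚ F] in
/-- Restrictions of elements of `D_A` stabilise the prime below `A`. -/
theorem restrict_mem_stabilizer_primeAt {σ : _root_.Fermat.Agent.S55.Bridge.H959.GQ} (hσ : σ ∈ A.decompositionSubgroup ℚ) :
    AlgEquiv.restrictNormalHom F σ ∈ MulAction.stabilizer (F ≃ₐ[ℚ] F) (primeAt A F) := by
  rw [MulAction.mem_stabilizer_iff]
  ext x
  rw [Ideal.mem_pointwise_smul_iff_inv_smul_mem, mem_primeAt, mem_primeAt, ← map_inv,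
    intIncl_restrict_smul]
  exact apply_mem_nonunits_iff A σ⁻¹ (Subgroup.inv_mem _ hσ) _

/-- **Finite level.**  Every element of `D_A` acts as `x ↦ x ^ (q ^ n)` modulo the maximal
ideal on the integers of a finite normal extension `F/ℚ`. -/
theorem exists_pow_congr_of_mem_decomposition (hq : q.Prime) (hA : A.LiesOverPrime q)
    {σ : _root_.Fermat.Agent.S55.Bridge.H959.GQ} (hσ : σ ∈ A.decompositionSubgroup ℚ) :
    ∃ n : ℕ, ∀ x ∈ F, IsIntegral ℤ x → σ x - x ^ (q ^ n) ∈ A.nonunits := by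
  haveI := primeAt_isPrime A F
  haveI := finite_quotient_primeAt F hq hA
  obtain ⟨n, hn⟩ := Fermat.Agent.Lib.Cheb.H281.exists_pow_of_mem_stabilizer (R := ℤ)
    (restrict_mem_stabilizer_primeAt F hσ)
  rw [card_quotient_under_primeAt F hq hA] at hn
  refine ⟨n, fun x hxF hx => ?_⟩
  obtain ⟨X, rfl⟩ := exists_intIncl_eq F hxF hx
  have h1 : Ideal.Quotient.mk (primeAt A F) (AlgEquiv.restrictNormalHom F σ • X) =
      Ideal.Quotient.mk (primeAt A F) (X ^ (q ^ n)) := by
    rw [map_pow]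
    exact hn X
  rw [Ideal.Quotient.eq, mem_primeAt, map_sub, intIncl_restrict_smul, map_pow] at h1
  exact h1

end finiteLevel

/-! ## 3. Lifting triviality on a finite-level residue field to inertia -/

section lift

variable {A} {q : ℕ} (F : IntermediateField ℚ _root_.Fermat.Agent.S55.Bridge.H959.Qb)

/-- An element of `D_A` acting trivially modulo the maximal ideal on the integers of `F` agrees
on `F` with an element of the inertia group `I_A`. -/
theorem exists_inertia_congr (hq : q.Prime) (hA : A.LiesOverPrime q) {g : _root_.Fermat.Agent.S55.Bridge.H959.GQ}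
    (hg : g ∈ A.decompositionSubgroup ℚ)
    (h : ∀ x ∈ F, IsIntegral ℤ x → g x - x ∈ A.nonunits) :
    ∃ ι ∈ A.inertiaSubgroupIn ℚ, ∀ x ∈ F, ι x = g x := by
  haveI := primeBelow_isPrime A
  have hgQ : g • primeBelow A = primeBelow A := by
    rw [← _root_.Fermat.Agent.S55.Bridge.H959.primeBelow_smul]
    congr 1
  obtain ⟨s, hs, hsQ, hcong⟩ := exists_mem_stabilizer_of_fixes F.fixingSubgroup
    (InfiniteGalois.fixingSubgroup_isClosed F) (primeBelow A) g hgQ (by
      intro a ha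
      have haF : (a : _root_.Fermat.Agent.S55.Bridge.H959.Qb) ∈ F :=
        mem_of_fixed F a (fun k hk => congrArg Subtype.val (ha k hk))
      rw [mem_primeBelow]
      exact h a haF a.2)
  have hsD : s ∈ A.decompositionSubgroup ℚ :=
    mem_decomposition_of_smul_primeBelow A q hq hA s hsQ
  have hinv : ∀ y : _root_.Fermat.Agent.S55.Bridge.H959.Qb, s (s⁻¹ y) = y := fun y => by
    show (s * s⁻¹) y = y
    rw [mul_inv_cancel]
    rfl
  refine ⟨g * s⁻¹, ?_, ?_⟩
  · refine mem_inertia_of_integral A q hq hA (g * s⁻¹)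
      (Subgroup.mul_mem _ hg (Subgroup.inv_mem _ hsD)) ?_
    intro b hb
    have h1 := hcong ⟨s⁻¹ b, hb.map s⁻¹⟩
    rw [mem_primeBelow] at h1
    have h2 : ((s • (⟨s⁻¹ b, hb.map s⁻¹⟩ : Zb) - g • (⟨s⁻¹ b, hb.map s⁻¹⟩ : Zb) : Zb) : _root_.Fermat.Agent.S55.Bridge.H959.Qb)
        = -((g * s⁻¹) b - b) := by
      show s (s⁻¹ b) - g (s⁻¹ b) = -((g * s⁻¹) b - b)
      rw [hinv, neg_sub]
      rfl
    rw [h2] at h1
    rw [ValuationSubring.mem_nonunits_iff, Valuation.map_neg] at h1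
    rw [ValuationSubring.mem_nonunits_iff]
    exact h1
  · intro x hx
    have hsx : s x = x := hs ⟨x, hx⟩
    show g (s⁻¹ x) = g x
    congr 1
    conv_lhs => rw [← hsx]
    show (s⁻¹ * s) x = x
    rw [inv_mul_cancel]
    rfl

end lift

/-! ## 4. Generation -/

section gen

variable {A} {q : ℕ}

/-- **LOC-TAME (c), GEN.**  Modulo any finite level, the decomposition group at `A` is generated
by a Frobenius element and the inertia group: every `σ ∈ D_A` agrees on the finite extension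
`F/ℚ` with `φ ^ n * ι` for some `n : ℕ` and `ι ∈ I_A`. -/
theorem exists_frobenius_pow_mul_inertia (hq : q.Prime) (hA : A.LiesOverPrime q)
    (F : IntermediateField ℚ _root_.Fermat.Agent.S55.Bridge.H959.Qb) [FiniteDimensional ℚ F] {φ : _root_.Fermat.Agent.S55.Bridge.H959.GQ} (hφ : A.IsFrobeniusAt φ q)
    {σ : _root_.Fermat.Agent.S55.Bridge.H959.GQ} (hσ : σ ∈ A.decompositionSubgroup ℚ) :
    ∃ (n : ℕ) (ι : _root_.Fermat.Agent.S55.Bridge.H959.GQ), ι ∈ A.inertiaSubgroupIn ℚ ∧ ∀ x ∈ F, σ x = (φ ^ n * ι) x := by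
  -- enlarge `F` to its normal closure
  have hFF' : F ≤ IntermediateField.normalClosure ℚ F _root_.Fermat.Agent.S55.Bridge.H959.Qb := IntermediateField.le_normalClosure F
  haveI : Normal ℚ (IntermediateField.normalClosure ℚ F _root_.Fermat.Agent.S55.Bridge.H959.Qb) := normalClosure.normal ℚ F _root_.Fermat.Agent.S55.Bridge.H959.Qb
  haveI : FiniteDimensional ℚ (IntermediateField.normalClosure ℚ F _root_.Fermat.Agent.S55.Bridge.H959.Qb) :=
    normalClosure.is_finiteDimensional ℚ F _root_.Fermat.Agent.S55.Bridge.H959.Qb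
  obtain ⟨n, hn⟩ := exists_pow_congr_of_mem_decomposition
    (IntermediateField.normalClosure ℚ F _root_.Fermat.Agent.S55.Bridge.H959.Qb) hq hA hσ
  have hφn : φ ^ n ∈ A.decompositionSubgroup ℚ := pow_mem hφ.mem_decompositionSubgroup n
  have hφninv : (φ ^ n)⁻¹ ∈ A.decompositionSubgroup ℚ := Subgroup.inv_mem _ hφn
  have hinv : ∀ y : _root_.Fermat.Agent.S55.Bridge.H959.Qb, (φ ^ n) ((φ ^ n)⁻¹ y) = y := fun y => by
    show ((φ ^ n) * (φ ^ n)⁻¹) y = y
    rw [mul_inv_cancel]
    rfl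
  have hinv' : ∀ y : _root_.Fermat.Agent.S55.Bridge.H959.Qb, (φ ^ n)⁻¹ ((φ ^ n) y) = y := fun y => by
    show ((φ ^ n)⁻¹ * (φ ^ n)) y = y
    rw [inv_mul_cancel]
    rfl
  obtain ⟨ι, hι, hιg⟩ := exists_inertia_congr (IntermediateField.normalClosure ℚ F _root_.Fermat.Agent.S55.Bridge.H959.Qb) hq hA
    (g := (φ ^ n)⁻¹ * σ) (Subgroup.mul_mem _ hφninv hσ) (by
      intro x hxF hx
      have hxA : x ∈ A := isIntegral_mem_valuationSubring A hx
      have h1 : σ x - (φ ^ n) x ∈ A.nonunits := by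
        have h2 := hn x hxF hx
        have h3 := frobenius_pow_sub_pow_mem_nonunits A hφ n hxA
        rw [ValuationSubring.mem_nonunits_iff] at h2 h3 ⊢
        have h4 : σ x - (φ ^ n) x = (σ x - x ^ q ^ n) - ((φ ^ n) x - x ^ q ^ n) := by ring
        rw [h4]
        exact lt_of_le_of_lt (A.valuation.map_sub _ _) (max_lt h2 h3)
      have h5 : ((φ ^ n)⁻¹ * σ) x - x = (φ ^ n)⁻¹ (σ x - (φ ^ n) x) := by
        rw [map_sub, hinv']
        rfl
      rw [h5, apply_mem_nonunits_iff A _ hφninv]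
      exact h1)
  refine ⟨n, ι, hι, fun x hx => ?_⟩
  have h1 := hιg x (hFF' hx)
  show σ x = (φ ^ n) (ι x)
  rw [h1]
  show σ x = (φ ^ n) ((φ ^ n)⁻¹ (σ x))
  rw [hinv]

/-- **LOC-TAME (c), GEN, for homomorphisms of finite level.**  If `f` is trivial on the subgroup
fixing a finite extension `E/ℚ`, then `f σ = f φ ^ n * f ι` with `ι ∈ I_A`, for every
`σ ∈ D_A`. -/
theorem map_mem_decomposition_eq {G : Type*} [Group G] (f : _root_.Fermat.Agent.S55.Bridge.H959.GQ →* G) (hq : q.Prime)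
    (hA : A.LiesOverPrime q) (E : IntermediateField ℚ _root_.Fermat.Agent.S55.Bridge.H959.Qb) [FiniteDimensional ℚ E]
    (hf : ∀ τ : _root_.Fermat.Agent.S55.Bridge.H959.GQ, (∀ x ∈ E, τ x = x) → f τ = 1) {φ : _root_.Fermat.Agent.S55.Bridge.H959.GQ} (hφ : A.IsFrobeniusAt φ q)
    {σ : _root_.Fermat.Agent.S55.Bridge.H959.GQ} (hσ : σ ∈ A.decompositionSubgroup ℚ) :
    ∃ (n : ℕ) (ι : _root_.Fermat.Agent.S55.Bridge.H959.GQ), ι ∈ A.inertiaSubgroupIn ℚ ∧ f σ = f φ ^ n * f ι := by
  obtain ⟨n, ι, hι, h⟩ := exists_frobenius_pow_mul_inertia hq hA E hφ hσ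
  refine ⟨n, ι, hι, ?_⟩
  have h1 : f ((φ ^ n * ι)⁻¹ * σ) = 1 := by
    apply hf
    intro x hx
    show (φ ^ n * ι)⁻¹ (σ x) = x
    rw [h x hx]
    show ((φ ^ n * ι)⁻¹ * (φ ^ n * ι)) x = x
    rw [inv_mul_cancel]
    rfl
  rw [map_mul, map_inv, inv_mul_eq_one] at h1
  rw [← h1, map_mul, map_pow]

end gen

end Fermat.Agent.S56.H606

end
-- ===== PACK-END S56/H606/Gen.lean

-- ===== PACK-BEGIN S14/H894/Cyclo.lean
section


/-!
# S14 / H894 : the valuation of `ℚ̄` over `p` restricted to `ℚ` and to `ℚ(ζ_p)`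

For a valuation subring `A` of `ℚ̄` over the prime `p`, a primitive `p`-th root of unity `ζ`
and `π = ζ - 1`:
* `exists_zpow_valuation_rat`: `v(c) ∈ v(p)^ℤ` for `c ∈ ℚˣ`;
* `valuation_natCast_eq_pow`: `v(p) = v(π)^(p-1)`;
* `exists_zpow_valuation_cyclo`: `v(x) ∈ v(π)^ℤ` for `x ∈ ℚ(ζ)ˣ`;
* `exists_int_valuation_sub_lt_one`: every `x ∈ ℚ(ζ) ∩ A` is congruent to a rational integer
  modulo the maximal ideal of `A`.
-/

set_option autoImplicit false
set_option linter.style.haveILetI false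

open scoped Pointwise

namespace Fermat.Agent.S14.H894

open Polynomial Fermat.Agent.S54

local notation "Qb" => AlgebraicClosure ℚ
local notation "GQ" => (AlgebraicClosure ℚ ≃ₐ[ℚ] AlgebraicClosure ℚ)

section rat

variable (A : ValuationSubring Qb) (p : ℕ) (hp : p.Prime) (hA : A.LiesOverPrime p)

include hA in
theorem valuation_natCast_prime_lt_one : A.valuation (p : Qb) < 1 :=
  (ValuationSubring.mem_nonunits_iff (A := A)).mp hA

include hp in
theorem natCast_prime_ne_zero : (p : Qb) ≠ 0 := by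
  exact_mod_cast hp.ne_zero

include hp in
theorem valuation_natCast_prime_ne_zero : A.valuation (p : Qb) ≠ 0 :=
  (Valuation.ne_zero_iff _).mpr (natCast_prime_ne_zero p hp)

theorem valuation_intCast_le_one (a : ℤ) : A.valuation (a : Qb) ≤ 1 :=
  (A.valuation_le_one_iff _).mpr (intCast_mem A a)

include hp hA in
/-- Integers prime to `p` are units of `A`. -/
theorem valuation_intCast_eq_one (a : ℤ) (ha : ¬ (p : ℤ) ∣ a) : A.valuation (a : Qb) = 1 := by
  refine le_antisymm (valuation_intCast_le_one A a) ?_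
  by_contra hlt
  rw [not_le] at hlt
  exact ha (dvd_of_intCast_mem_nonunits A p hp hA a
    ((ValuationSubring.mem_nonunits_iff (A := A)).mpr hlt))

include hp hA in
theorem exists_pow_valuation_nat (n : ℕ) (hn : n ≠ 0) :
    ∃ e : ℕ, A.valuation (n : Qb) = A.valuation (p : Qb) ^ e := by
  obtain ⟨e, n', hn', rfl⟩ := Nat.exists_eq_pow_mul_and_not_dvd hn p hp.ne_one
  refine ⟨e, ?_⟩
  have h1 : A.valuation ((n' : ℤ) : Qb) = 1 :=
    valuation_intCast_eq_one A p hp hA n' (by exact_mod_cast hn')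
  push_cast
  rw [map_mul, map_pow]
  have h2 : A.valuation (n' : Qb) = 1 := by exact_mod_cast h1
  rw [h2, mul_one]

include hp hA in
/-- The value group of `ℚ` is generated by the valuation of `p`. -/
theorem exists_zpow_valuation_rat (c : ℚ) (hc : c ≠ 0) :
    ∃ n : ℤ, A.valuation (c : Qb) = A.valuation (p : Qb) ^ n := by
  have hnum : c.num.natAbs ≠ 0 := by
    rw [Int.natAbs_ne_zero]; exact Rat.num_ne_zero.mpr hc
  obtain ⟨e₁, h₁⟩ := exists_pow_valuation_nat A p hp hA c.num.natAbs hnum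
  obtain ⟨e₂, h₂⟩ := exists_pow_valuation_nat A p hp hA c.den c.den_ne_zero
  refine ⟨(e₁ : ℤ) - e₂, ?_⟩
  have hv0 := valuation_natCast_prime_ne_zero A p hp
  have h3 : A.valuation ((c.num : ℤ) : Qb) = A.valuation (p : Qb) ^ e₁ := by
    rw [← h₁]
    rcases Int.natAbs_eq c.num with h | h
    · conv_lhs => rw [h]
      simp
    · conv_lhs => rw [h]
      simp
  have h4 : (c : Qb) = (c.num : Qb) / (c.den : Qb) := by
    rw [Rat.cast_def]
  rw [h4, map_div₀, h3, h₂, zpow_sub₀ hv0, zpow_natCast, zpow_natCast]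

include hA in
theorem valuation_intCast_lt_one_of_dvd (a : ℤ) (ha : (p : ℤ) ∣ a) :
    A.valuation (a : Qb) < 1 := by
  obtain ⟨t, rfl⟩ := ha
  push_cast
  rw [map_mul]
  have h1 := valuation_natCast_prime_lt_one A p hA
  have h2 := valuation_intCast_le_one A t
  exact lt_of_le_of_lt (mul_le_of_le_one_right zero_le h2) h1

include hp hA in
/-- A rational number which is integral at `A` is congruent to an integer modulo the maximal
ideal. -/
theorem exists_int_valuation_rat_sub_lt_one (q : ℚ) (hq : A.valuation (q : Qb) ≤ 1) :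
    ∃ m : ℤ, A.valuation ((q : Qb) - (m : Qb)) < 1 := by
  haveI : Fact p.Prime := ⟨hp⟩
  have hden : ¬ (p : ℤ) ∣ (q.den : ℤ) := by
    intro hdvd
    have hnum : ¬ (p : ℤ) ∣ q.num := by
      intro hdvd'
      have h1 : p ∣ q.num.natAbs := Int.natCast_dvd.mp hdvd'
      have h2 : p ∣ q.den := Int.natCast_dvd_natCast.mp hdvd
      have h3 : p ∣ 1 := by
        have := Nat.dvd_gcd h1 h2
        rwa [Nat.Coprime.gcd_eq_one q.reduced] at this
      exact hp.one_lt.ne' (Nat.dvd_one.mp h3)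
    have h1 := valuation_intCast_eq_one A p hp hA q.num hnum
    have h2 := valuation_intCast_lt_one_of_dvd A p hA (q.den : ℤ) hdvd
    have h4 : (q : Qb) = ((q.num : ℤ) : Qb) / (((q.den : ℕ) : ℤ) : Qb) := by
      rw [Rat.cast_def]; push_cast; rfl
    rw [h4, map_div₀, h1] at hq
    have hd0 : A.valuation (((q.den : ℕ) : ℤ) : Qb) ≠ 0 := by
      rw [Valuation.ne_zero_iff]
      exact_mod_cast q.den_ne_zero
    rw [div_le_iff₀ (zero_lt_iff.mpr hd0), one_mul] at hq
    exact absurd hq (not_le.mpr h2)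
  have hden' : ((q.den : ℕ) : ZMod p) ≠ 0 := by
    have : ((q.den : ℤ) : ZMod p) ≠ 0 := by
      rwa [Ne, ZMod.intCast_zmod_eq_zero_iff_dvd]
    exact_mod_cast this
  obtain ⟨m, hm⟩ := ZMod.intCast_surjective ((q.num : ZMod p) * ((q.den : ℕ) : ZMod p)⁻¹)
  refine ⟨m, ?_⟩
  have hdvd : (p : ℤ) ∣ q.num - m * q.den := by
    rw [← ZMod.intCast_zmod_eq_zero_iff_dvd]
    push_cast
    rw [hm, mul_assoc, inv_mul_cancel₀ hden', mul_one, sub_self]
  have h1 := valuation_intCast_lt_one_of_dvd A p hA _ hdvd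
  have h2 := valuation_intCast_eq_one A p hp hA (q.den : ℤ) hden
  have hd0 : ((q.den : ℕ) : Qb) ≠ 0 := by exact_mod_cast q.den_ne_zero
  have h4 : (q : Qb) - (m : Qb) = ((q.num - m * q.den : ℤ) : Qb) / (((q.den : ℕ) : ℤ) : Qb) := by
    rw [Rat.cast_def]
    push_cast
    field_simp
  rw [h4, map_div₀, h2, div_one]
  exact h1

end rat

section cyclo

variable (A : ValuationSubring Qb) (p : ℕ) (hp : p.Prime) (hA : A.LiesOverPrime p)
  (ζ : Qb) (hζ : IsPrimitiveRoot ζ p)

theorem valuation_le_one_of_pow_eq_one {μ : Qb} {n : ℕ} (hn : n ≠ 0) (hμ : μ ^ n = 1) :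
    A.valuation μ ≤ 1 := by
  have : A.valuation μ ^ n = 1 := by rw [← map_pow, hμ, map_one]
  exact ((pow_eq_one_iff_left hn).mp this).le

theorem valuation_pow_sub_one_le {μ : Qb} {n : ℕ} (hn : n ≠ 0) (hμ : μ ^ n = 1) (k : ℕ) :
    A.valuation (μ ^ k - 1) ≤ A.valuation (μ - 1) := by
  rw [← geom_sum_mul μ k, map_mul]
  have h1 : A.valuation (∑ i ∈ Finset.range k, μ ^ i) ≤ 1 := by
    refine Valuation.map_sum_le _ fun i _ => ?_
    rw [map_pow]
    exact pow_le_one₀ zero_le (valuation_le_one_of_pow_eq_one A hn hμ)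
  exact mul_le_of_le_one_left zero_le h1

include hp hζ in
theorem valuation_sub_one_eq_of_mem_primitiveRoots {μ : Qb} (hμ : μ ∈ primitiveRoots p Qb) :
    A.valuation (μ - 1) = A.valuation (ζ - 1) := by
  haveI : NeZero p := ⟨hp.ne_zero⟩
  have hμ' : IsPrimitiveRoot μ p := (mem_primitiveRoots hp.pos).mp hμ
  obtain ⟨i, -, hi⟩ := hζ.eq_pow_of_pow_eq_one hμ'.pow_eq_one
  obtain ⟨j, -, hj⟩ := hμ'.eq_pow_of_pow_eq_one hζ.pow_eq_one
  refine le_antisymm ?_ ?_
  · rw [← hi]
    exact valuation_pow_sub_one_le A hp.ne_zero hζ.pow_eq_one i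
  · rw [← hj]
    exact valuation_pow_sub_one_le A hp.ne_zero hμ'.pow_eq_one j

include hp hζ in
/-- `v(p) = v(ζ - 1)^(p-1)`. -/
theorem valuation_natCast_eq_pow :
    A.valuation (p : Qb) = A.valuation (ζ - 1) ^ (p - 1) := by
  haveI : Fact p.Prime := ⟨hp⟩
  have h1 : (p : Qb) = ∏ μ ∈ primitiveRoots p Qb, (1 - μ) := by
    have := eval_one_cyclotomic_prime (R := Qb) (p := p)
    rw [cyclotomic_eq_prod_X_sub_primitiveRoots hζ, eval_prod] at this
    rw [← this]
    refine Finset.prod_congr rfl fun μ _ => ?_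
    simp
  rw [h1, map_prod]
  have h2 : ∀ μ ∈ primitiveRoots p Qb, A.valuation (1 - μ) = A.valuation (ζ - 1) := by
    intro μ hμ
    rw [← valuation_sub_one_eq_of_mem_primitiveRoots A p hp ζ hζ hμ, Valuation.map_sub_swap]
  rw [Finset.prod_congr rfl h2, Finset.prod_const, hζ.card_primitiveRoots,
    Nat.totient_prime hp]

include hp hA hζ in
theorem valuation_zeta_sub_one_lt_one : A.valuation (ζ - 1) < 1 := by
  by_contra h
  rw [not_lt] at h
  have h1 := valuation_natCast_prime_lt_one A p hA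
  rw [valuation_natCast_eq_pow A p hp ζ hζ] at h1
  exact absurd (one_le_pow₀ h) (not_le.mpr h1)

include hp hζ in
theorem valuation_zeta_sub_one_ne_zero : A.valuation (ζ - 1) ≠ 0 := by
  rw [Valuation.ne_zero_iff, sub_ne_zero]
  exact hζ.ne_one hp.one_lt

end cyclo

section terms

variable (A : ValuationSubring Qb) (K : IntermediateField ℚ Qb) (γ : Qb) (n : ℕ)

/-- In an integral `K`-linear combination of powers of `γ`, every term is integral and the
terms of positive degree lie in the maximal ideal. -/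
theorem terms_of_mem
    (hindep : ∀ k : ℕ, 0 < k → k < n → ∀ c ∈ K, A.valuation γ ^ k ≠ A.valuation c)
    (c : ℕ → Qb) (hc : ∀ i, c i ∈ K)
    (hy : A.valuation (∑ i ∈ Finset.range n, c i * γ ^ i) ≤ 1) :
    (∀ i ∈ Finset.range n, A.valuation (c i * γ ^ i) ≤ 1) ∧
      ∀ i ∈ Finset.range n, 0 < i → A.valuation (c i * γ ^ i) < 1 := by
  have hdist := distinct_terms A K γ n hindep c hc γ rfl
  have hle : ∀ i ∈ Finset.range n, A.valuation (c i * γ ^ i) ≤ 1 :=
    (valuation_sum_le_one_iff _ _ _ hdist).mp hy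
  refine ⟨hle, ?_⟩
  intro i hi hi0
  refine lt_of_le_of_ne (hle i hi) ?_
  intro h1
  by_cases hci : c i = 0
  · rw [hci, zero_mul, map_zero] at h1; exact zero_ne_one h1
  · refine hindep i hi0 (Finset.mem_range.mp hi) (c i)⁻¹ (K.inv_mem (hc i)) ?_
    rw [map_inv₀]
    refine eq_inv_of_mul_eq_one_left ?_
    rw [mul_comm, ← map_pow, ← map_mul]
    exact h1

end terms

section cycloField

variable (A : ValuationSubring Qb) (p : ℕ) (hp : p.Prime) (hA : A.LiesOverPrime p)
  (ζ : Qb) (hζ : IsPrimitiveRoot ζ p)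

/-- The monic polynomial of degree `p - 1` over `ℚ` killing `ζ - 1`. -/
noncomputable def cycloShift : (⊥ : IntermediateField ℚ Qb)[X] :=
  (cyclotomic p (⊥ : IntermediateField ℚ Qb)).comp (X + C 1)

theorem cycloShift_monic : (cycloShift p).Monic :=
  (cyclotomic.monic p _).comp_X_add_C 1

include hp in
theorem cycloShift_natDegree : (cycloShift p).natDegree = p - 1 := by
  unfold cycloShift
  rw [natDegree_comp, natDegree_X_add_C, mul_one, natDegree_cyclotomic, Nat.totient_prime hp]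

include hp hζ in
theorem cycloShift_aeval : aeval (ζ - 1) (cycloShift p) = 0 := by
  unfold cycloShift
  rw [aeval_comp]
  simp only [map_add, aeval_X, map_one, sub_add_cancel]
  rw [aeval_def, ← eval_map, map_cyclotomic]
  exact hζ.isRoot_cyclotomic hp.pos

theorem mem_adjoinField_bot_of_mem (x : Qb) (hx : x ∈ IntermediateField.adjoin ℚ {ζ}) :
    x ∈ adjoinField ⊥ (ζ - 1) := by
  have hle : IntermediateField.adjoin ℚ {ζ} ≤ adjoinField ⊥ (ζ - 1) := by
    rw [IntermediateField.adjoin_le_iff, Set.singleton_subset_iff]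
    have h1 : ζ - 1 ∈ adjoinField ⊥ (ζ - 1) :=
      IntermediateField.subset_adjoin ℚ _ (Set.mem_union_right _ rfl)
    have h2 : (ζ - 1) + 1 ∈ adjoinField ⊥ (ζ - 1) :=
      (adjoinField ⊥ (ζ - 1)).add_mem h1 (adjoinField ⊥ (ζ - 1)).one_mem
    simpa using h2
  exact hle hx

include hp hA hζ in
theorem cyclo_indep : ∀ k : ℕ, 0 < k → k < (cycloShift p).natDegree →
    ∀ c ∈ (⊥ : IntermediateField ℚ Qb), A.valuation (ζ - 1) ^ k ≠ A.valuation c := by
  intro k hk0 hk c hc heq
  rw [cycloShift_natDegree p hp] at hk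
  have hπ0 := valuation_zeta_sub_one_ne_zero A p hp ζ hζ
  have hπ1 := valuation_zeta_sub_one_lt_one A p hp hA ζ hζ
  rw [IntermediateField.mem_bot] at hc
  obtain ⟨q, rfl⟩ := hc
  by_cases hq : q = 0
  · subst hq
    rw [map_zero, map_zero] at heq
    exact pow_ne_zero k hπ0 heq
  · obtain ⟨m, hm⟩ := exists_zpow_valuation_rat A p hp hA q hq
    rw [eq_ratCast, hm, valuation_natCast_eq_pow A p hp ζ hζ, ← zpow_natCast, ← zpow_natCast,
      ← zpow_mul] at heq
    have h1 := (zpow_right_strictAnti₀ (zero_lt_iff.mpr hπ0) hπ1).injective heq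
    have h2 : ((p - 1 : ℕ) : ℤ) ∣ (k : ℤ) := ⟨m, h1⟩
    have h3 : (p - 1) ∣ k := by exact_mod_cast h2
    exact absurd (Nat.le_of_dvd hk0 h3) (not_le.mpr hk)

include hp hA hζ in
/-- The value group of `ℚ(ζ)` is generated by the valuation of `ζ - 1`. -/
theorem exists_zpow_valuation_cyclo (x : Qb) (hx : x ∈ IntermediateField.adjoin ℚ {ζ})
    (hx0 : x ≠ 0) : ∃ n : ℤ, A.valuation x = A.valuation (ζ - 1) ^ n := by
  obtain ⟨c, hc, rfl⟩ := exists_coeffs_of_mem_adjoinField ⊥ (ζ - 1) (cycloShift p)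
    (cycloShift_monic p) (cycloShift_aeval p hp ζ hζ) x (mem_adjoinField_bot_of_mem ζ x hx)
  have hindep := cyclo_indep A p hp hA ζ hζ
  have hdist := distinct_terms A ⊥ (ζ - 1) _ hindep c hc (ζ - 1) rfl
  have hv := valuation_sum_eq_sup A.valuation _ _ hdist
  have hne : (Finset.range (cycloShift p).natDegree).Nonempty := by
    rw [cycloShift_natDegree p hp, Finset.nonempty_range_iff]
    have := hp.two_le
    omega
  obtain ⟨i, hi, his⟩ := Finset.exists_mem_eq_sup _ hne
    (fun i => A.valuation (c i * (ζ - 1) ^ i))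
  rw [his] at hv
  rw [hv]
  have hci : c i ≠ 0 := by
    intro h0
    rw [h0, zero_mul, map_zero] at hv
    exact hx0 ((map_eq_zero _).mp hv)
  have hci' := hc i
  rw [IntermediateField.mem_bot] at hci'
  obtain ⟨q, hq⟩ := hci'
  have hq0 : q ≠ 0 := by
    rintro rfl
    rw [map_zero] at hq
    exact hci hq.symm
  obtain ⟨m, hm⟩ := exists_zpow_valuation_rat A p hp hA q hq0
  refine ⟨((p - 1 : ℕ) : ℤ) * m + i, ?_⟩
  have hπ0 := valuation_zeta_sub_one_ne_zero A p hp ζ hζ
  rw [map_mul, map_pow, ← hq, eq_ratCast, hm, valuation_natCast_eq_pow A p hp ζ hζ,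
    zpow_add₀ hπ0, zpow_mul, zpow_natCast, zpow_natCast]

include hp hA hζ in
/-- Every element of `ℚ(ζ)` which is integral at `A` is congruent to a rational integer modulo
the maximal ideal of `A` (the residue field of `ℚ(ζ)` at `p` is `𝔽_p`). -/
theorem exists_int_valuation_sub_lt_one (x : Qb) (hx : x ∈ IntermediateField.adjoin ℚ {ζ})
    (hxA : A.valuation x ≤ 1) : ∃ m : ℤ, A.valuation (x - (m : Qb)) < 1 := by
  obtain ⟨c, hc, rfl⟩ := exists_coeffs_of_mem_adjoinField ⊥ (ζ - 1) (cycloShift p)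
    (cycloShift_monic p) (cycloShift_aeval p hp ζ hζ) x (mem_adjoinField_bot_of_mem ζ x hx)
  have hindep := cyclo_indep A p hp hA ζ hζ
  obtain ⟨hle, hlt⟩ := terms_of_mem A ⊥ (ζ - 1) _ hindep c hc hxA
  have h0mem : 0 ∈ Finset.range (cycloShift p).natDegree := by
    rw [cycloShift_natDegree p hp, Finset.mem_range]
    have := hp.two_le
    omega
  have hc0 := hc 0
  rw [IntermediateField.mem_bot] at hc0
  obtain ⟨q, hq⟩ := hc0
  have hq1 : A.valuation (q : Qb) ≤ 1 := by
    have := hle 0 h0mem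
    rwa [pow_zero, mul_one, ← hq, eq_ratCast] at this
  obtain ⟨m, hm⟩ := exists_int_valuation_rat_sub_lt_one A p hp hA q hq1
  refine ⟨m, ?_⟩
  rw [← Finset.add_sum_erase _ _ h0mem, pow_zero, mul_one, ← hq, eq_ratCast, add_sub_right_comm]
  refine lt_of_le_of_lt (Valuation.map_add _ _ _) (max_lt hm ?_)
  refine Valuation.map_sum_lt _ one_ne_zero fun i hi => ?_
  rw [Finset.mem_erase] at hi
  exact hlt i hi.2 (Nat.pos_of_ne_zero hi.1)

end cycloField

end Fermat.Agent.S14.H894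

end
-- ===== PACK-END S14/H894/Cyclo.lean

-- ===== PACK-BEGIN S14/H894/LocalI.lean
section


/-!
# S14 / H894 : LOCAL-I

`exists_inertia_moving_root` : if `β ^ p ∈ K` (`p` prime) and the valuation of `β` is not the
valuation of an element of `K`, then some element of the inertia group of `A` fixes `K`
pointwise and moves `β`.

Contrapositive (`exists_valuation_eq_of_inertia_fixed`): if every element of `I_A` fixing `K`
pointwise fixes `β`, then `v(β) = v(c)` for some `c ∈ K`, hence `v(β ^ p) = v(c) ^ p`.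
-/

set_option autoImplicit false
set_option linter.style.haveILetI false

open scoped Pointwise

namespace Fermat.Agent.S14.H894

open Polynomial Fermat.Agent.S54

local notation "Qb" => AlgebraicClosure ℚ
local notation "GQ" => (AlgebraicClosure ℚ ≃ₐ[ℚ] AlgebraicClosure ℚ)

/-- An element of `ℚ̄` outside the intermediate field `K` is moved by some element of
`Gal(ℚ̄/K)`. -/
theorem exists_fixing_ne_of_not_mem (K : IntermediateField ℚ Qb) (β : Qb) (hβ : β ∉ K) :
    ∃ τ : GQ, (∀ x ∈ K, τ x = x) ∧ τ β ≠ β := by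
  haveI := isGalois_algebraicClosure_rat
  by_contra hcon
  push Not at hcon
  apply hβ
  rw [← InfiniteGalois.fixedField_fixingSubgroup K, IntermediateField.mem_fixedField_iff]
  intro τ hτ
  exact hcon τ (fun x hx => (IntermediateField.mem_fixingSubgroup_iff K τ).mp hτ x hx)

/-- **LOCAL-I**, existence form. -/
theorem exists_inertia_moving_root (A : ValuationSubring Qb) (ℓ : ℕ) (hℓ : ℓ.Prime)
    (hA : A.LiesOverPrime ℓ) (K : IntermediateField ℚ Qb) (p : ℕ) (hp : p.Prime)
    (β : Qb) (hβK : β ^ p ∈ K) (hval : ∀ c ∈ K, A.valuation β ≠ A.valuation c) :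
    ∃ σ ∈ A.inertiaSubgroupIn ℚ, (∀ x ∈ K, σ x = x) ∧ σ β ≠ β := by
  have hβ0 : β ≠ 0 := by
    rintro rfl
    exact hval 0 K.zero_mem rfl
  have hvβ0 : A.valuation β ≠ 0 := (Valuation.ne_zero_iff _).mpr hβ0
  have hβK' : β ∉ K := fun h => hval β h rfl
  obtain ⟨τ, hτK, hτβ⟩ := exists_fixing_ne_of_not_mem K β hβK'
  -- the polynomial
  let α : K := ⟨β ^ p, hβK⟩
  let f : K[X] := X ^ p - C α
  have hf : f.Monic := monic_X_pow_sub_C α hp.ne_zero
  have hdeg : f.natDegree = p := natDegree_X_pow_sub_C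
  have hγ : aeval β f = 0 := by
    simp only [f, map_sub, map_pow, aeval_X, aeval_C]
    show β ^ p - (α : Qb) = 0
    exact sub_self _
  have hindep : ∀ k : ℕ, 0 < k → k < f.natDegree → ∀ c ∈ K,
      A.valuation β ^ k ≠ A.valuation c := by
    intro k hk0 hkp c hc heq
    rw [hdeg] at hkp
    have hcop : Nat.Coprime k p :=
      (Nat.coprime_of_lt_prime hk0.ne' hkp hp).symm
    obtain ⟨m, -, hm⟩ := Nat.exists_mul_mod_eq_one_of_coprime hcop hp.one_lt
    have hkm : k * m = p * (k * m / p) + 1 := by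
      have := Nat.div_add_mod (k * m) p
      rw [hm] at this
      exact this.symm
    set t := k * m / p with ht
    have h1 : A.valuation β ^ (k * m) = A.valuation (c ^ m) := by
      rw [pow_mul, heq, map_pow]
    have h2 : A.valuation β ^ (k * m) = A.valuation ((β ^ p) ^ t) * A.valuation β := by
      rw [hkm, pow_succ, pow_mul, map_pow, map_pow]
    have hα0 : A.valuation ((β ^ p) ^ t) ≠ 0 :=
      (Valuation.ne_zero_iff _).mpr (pow_ne_zero _ (pow_ne_zero _ hβ0))
    refine hval (c ^ m / (β ^ p) ^ t) (K.div_mem (pow_mem hc m) (pow_mem hβK t)) ?_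
    rw [map_div₀, eq_div_iff hα0, mul_comm, ← h2, h1]
  have hconj : ∀ τ : GQ, (∀ x ∈ K, τ x = x) → A.valuation (τ β) = A.valuation β := by
    intro τ hτ
    have h1 : (τ β) ^ p = β ^ p := by
      rw [← map_pow]; exact hτ _ hβK
    have h2 : A.valuation (τ β) ^ p = A.valuation β ^ p := by
      rw [← Valuation.map_pow, h1, Valuation.map_pow]
    exact (pow_left_inj hp.ne_zero).mp h2
  obtain ⟨σ, hσI, hσK, hσβ⟩ :=
    exists_inertia_eq_on_adjoin A ℓ hℓ hA K β f hf hγ hindep hconj τ hτK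
  exact ⟨σ, hσI, hσK, by rw [hσβ]; exact hτβ⟩

/-- **LOCAL-I**: if every element of the inertia group of `A` fixing `K` pointwise fixes `β`,
where `β ^ p ∈ K`, then the valuation of `β` is the valuation of an element of `K`. -/
theorem exists_valuation_eq_of_inertia_fixed (A : ValuationSubring Qb) (ℓ : ℕ) (hℓ : ℓ.Prime)
    (hA : A.LiesOverPrime ℓ) (K : IntermediateField ℚ Qb) (p : ℕ) (hp : p.Prime)
    (β : Qb) (hβK : β ^ p ∈ K)
    (hfix : ∀ σ ∈ A.inertiaSubgroupIn ℚ, (∀ x ∈ K, σ x = x) → σ β = β) :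
    ∃ c ∈ K, A.valuation β = A.valuation c := by
  by_contra hcon
  push Not at hcon
  obtain ⟨σ, hσI, hσK, hσβ⟩ := exists_inertia_moving_root A ℓ hℓ hA K p hp β hβK hcon
  exact hσβ (hfix σ hσI hσK)

/-- **LOCAL-I**, Kummer form: the valuation of `α = β ^ p` is a `p`-th power of the valuation
of an element of `K`. -/
theorem exists_valuation_eq_pow_of_inertia_fixed (A : ValuationSubring Qb) (ℓ : ℕ)
    (hℓ : ℓ.Prime) (hA : A.LiesOverPrime ℓ) (K : IntermediateField ℚ Qb) (p : ℕ)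
    (hp : p.Prime) (β : Qb) (hβK : β ^ p ∈ K)
    (hfix : ∀ σ ∈ A.inertiaSubgroupIn ℚ, (∀ x ∈ K, σ x = x) → σ β = β) :
    ∃ c ∈ K, A.valuation (β ^ p) = A.valuation (c ^ p) := by
  obtain ⟨c, hc, h⟩ := exists_valuation_eq_of_inertia_fixed A ℓ hℓ hA K p hp β hβK hfix
  exact ⟨c, hc, by rw [map_pow, map_pow, h]⟩

end Fermat.Agent.S14.H894

end
-- ===== PACK-END S14/H894/LocalI.lean

-- ===== PACK-BEGIN S56/H176/FLDStruct.lean
section




/-!
# S56 / FL STRUCT, glue: the Eisenstein presentation over an unramified subring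

`A ⊂ B₁ ⊂ B` discrete valuation rings of characteristic `0`, `B` finite over `A`, the residue
field of `A` finite, `𝔪_A = (p)`, `𝔪_{B₁} = (p)` (`B₁ / A` unramified), `B₁ → B` inducing an
isomorphism of residue fields (`hres`), `(p) = 𝔪_B ^ e`.  Then for every uniformiser `ϖ` of `B`
with minimal polynomial `G` over `B₁`:

* `B = ⨁_{i<e} B₁ ϖ^i`, `G` is Eisenstein of degree `e`;
* if `G + p X^j` has a root in `B` (`p ∤ j`, `0 < j < e`) then
  `differentIdeal A B ∣ (p) 𝔪_B^(j-1)`.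

`FLD_struct_glue` packages this in the shape of `FL.StructStatement` (with the subring
`B' = range (B₁ → B)`); only the construction of `B₁` (the inertia-fixed subring) is left to the
caller.
-/

set_option autoImplicit false
set_option linter.unusedSectionVars false
set_option linter.style.haveILetI false

namespace Fermat.Agent.S56.H176

open IsDiscreteValuationRing Polynomial

attribute [local instance] FractionRing.liftAlgebra FractionRing.isScalarTower_liftAlgebra

/-- An integer prime to the residue characteristic is a unit. -/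
theorem FLD_addVal_natCast_eq_zero {R : Type*} [CommRing R] [IsDomain R]
    [IsDiscreteValuationRing R] {p j : ℕ} (hp : p.Prime)
    (hpR : (p : R) ∈ IsLocalRing.maximalIdeal R) (hpj : ¬ p ∣ j) : addVal R (j : R) = 0 := by
  rw [addVal_eq_zero_iff]
  have hcop : IsCoprime (p : ℤ) (j : ℤ) :=
    Nat.isCoprime_iff_coprime.mpr ((Nat.Prime.coprime_iff_not_dvd hp).mpr hpj)
  obtain ⟨a, b, hab⟩ := hcop
  have h1 : (b : R) * (j : R) = 1 - (a : R) * (p : R) := by
    have := congrArg (fun z : ℤ => (z : R)) hab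
    simp only [Int.cast_add, Int.cast_mul, Int.cast_natCast, Int.cast_one] at this
    rw [← this]
    ring
  have h2 : IsUnit ((b : R) * (j : R)) := by
    rw [h1]
    apply IsLocalRing.isUnit_one_sub_self_of_mem_nonunits
    exact Ideal.mul_mem_left _ _ hpR
  exact isUnit_of_mul_isUnit_right h2

section Struct

/-- The intermediate ring is finite over the base. -/
theorem FLD_struct_finite_bot (A B₁ B : Type*) [CommRing A] [IsDomain A]
    [IsDiscreteValuationRing A] [CommRing B₁] [CommRing B] [Algebra A B₁] [Algebra B₁ B]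
    [Algebra A B] [IsScalarTower A B₁ B] [Module.Finite A B] [FaithfulSMul B₁ B] :
    Module.Finite A B₁ :=
  Module.Finite.of_injective (IsScalarTower.toAlgHom A B₁ B).toLinearMap
    (FaithfulSMul.algebraMap_injective B₁ B)

/-- The intermediate ring contains the base. -/
theorem FLD_struct_faithful_bot (A B₁ B : Type*) [CommRing A] [CommRing B₁] [CommRing B]
    [Algebra A B₁] [Algebra B₁ B] [Algebra A B] [IsScalarTower A B₁ B] [FaithfulSMul A B] :
    FaithfulSMul A B₁ := by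
  rw [faithfulSMul_iff_algebraMap_injective]
  intro x y hxy
  apply FaithfulSMul.algebraMap_injective A B
  rw [IsScalarTower.algebraMap_apply A B₁ B, hxy, ← IsScalarTower.algebraMap_apply A B₁ B]

/-- The top ring is finite over the intermediate ring. -/
theorem FLD_struct_finite_top (A B₁ B : Type*) [CommRing A] [CommRing B₁] [CommRing B]
    [Algebra A B₁] [Algebra B₁ B] [Algebra A B] [IsScalarTower A B₁ B] [Module.Finite A B] :
    Module.Finite B₁ B :=
  Module.Finite.of_restrictScalars_finite A B₁ B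

variable (p : ℕ) [Fact p.Prime]
  {A : Type*} [CommRing A] [IsDomain A] [IsDiscreteValuationRing A]
  {B₁ : Type*} [CommRing B₁] [IsDomain B₁] [IsDiscreteValuationRing B₁]
  {B : Type*} [CommRing B] [IsDomain B] [IsDiscreteValuationRing B] [CharZero B]
  [Algebra A B₁] [Algebra B₁ B] [Algebra A B] [IsScalarTower A B₁ B]
  [Module.Finite A B] [FaithfulSMul A B] [FaithfulSMul B₁ B]

omit [Fact p.Prime] [CharZero B] [IsDomain B₁] [IsDiscreteValuationRing B₁] [FaithfulSMul B₁ B]
  [Module.Finite A B] [FaithfulSMul A B] [IsDomain A] [IsDiscreteValuationRing A] in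
/-- `v_B(p) = e` if `(p) = 𝔪_B ^ e`. -/
theorem FLD_struct_addVal_p {e : ℕ}
    (he : Ideal.span {(p : B)} = IsLocalRing.maximalIdeal B ^ e) :
    addVal B (p : B) = e := by
  obtain ⟨ϖ, hϖirr⟩ := exists_irreducible B
  have hmaxB := (irreducible_iff_uniformizer ϖ).mp hϖirr
  rw [hmaxB, Ideal.span_singleton_pow, Ideal.span_singleton_eq_span_singleton] at he
  rw [(addVal_eq_iff_associated _ _).mpr he, addVal_pow, addVal_uniformizer hϖirr]
  simp

/-- **STRUCT, glue.**  The Eisenstein presentation of `B` over an unramified intermediate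
discrete valuation ring `B₁` with the same residue field as `B`, and the different bound from a
root of the perturbed Eisenstein polynomial, in the shape of `FL.StructStatement`
(with `B' = range (B₁ → B)`). -/
theorem FLD_struct_glue [Finite (IsLocalRing.ResidueField A)]
    (hA : IsLocalRing.maximalIdeal A = Ideal.span {(p : A)})
    (hB₁ : IsLocalRing.maximalIdeal B₁ = Ideal.span {(p : B₁)})
    (hres : ∀ b : B, ∃ a : B₁, b - algebraMap B₁ B a ∈ IsLocalRing.maximalIdeal B)
    (e : ℕ) (he : Ideal.span {(p : B)} = IsLocalRing.maximalIdeal B ^ e) :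
    ∃ (ϖ : B) (G : B[X]),
      (∀ a : A, algebraMap A B a ∈ (algebraMap B₁ B).range) ∧
      (∀ b ∈ (algebraMap B₁ B).range, b ≠ 0 →
        ∃ (n : ℕ) (u : B), u ∈ (algebraMap B₁ B).range ∧ IsUnit u ∧ b = (p : B) ^ n * u) ∧
      IsLocalRing.maximalIdeal B = Ideal.span {ϖ} ∧
      (∀ b : B, ∃ a : Fin e → B, (∀ i, a i ∈ (algebraMap B₁ B).range) ∧
        b = ∑ i, a i * ϖ ^ (i : ℕ)) ∧
      G.Monic ∧ G.natDegree = e ∧ (∀ i, G.coeff i ∈ (algebraMap B₁ B).range) ∧
      (∀ i < e, G.coeff i ∈ Ideal.span {(p : B)}) ∧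
      (∃ u : B, IsUnit u ∧ G.coeff 0 = (p : B) * u) ∧
      G.eval ϖ = 0 ∧
      ∀ j : ℕ, ¬ p ∣ j → 0 < j → j < e →
        (∃ ϖ' : B, G.eval ϖ' + (p : B) * ϖ' ^ j = 0) →
        differentIdeal A B ∣ Ideal.span {(p : B)} * IsLocalRing.maximalIdeal B ^ (j - 1) := by
  haveI := FLD_struct_finite_bot A B₁ B
  haveI := FLD_struct_faithful_bot A B₁ B
  haveI := FLD_struct_finite_top A B₁ B
  haveI : CharZero A := (algebraMap A B).charZero
  haveI : CharZero B₁ := (algebraMap B₁ B).charZero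
  haveI := FLD_finiteDimensional_frac B₁ B
  haveI := FLD_isSeparable_frac B₁ B
  have hp : p.Prime := Fact.out
  obtain ⟨ϖ, hϖirr⟩ := exists_irreducible B
  have hϖ := addVal_uniformizer hϖirr
  have hmaxB := (irreducible_iff_uniformizer ϖ).mp hϖirr
  have hpirr : Irreducible (p : B₁) := (irreducible_iff_uniformizer _).mpr hB₁
  have hpB₁ : addVal B₁ (p : B₁) = 1 := addVal_uniformizer hpirr
  have hpB : addVal B (p : B) = e := FLD_struct_addVal_p p he
  -- total ramification
  have hram := FLD_tot_hram (A' := B₁) (B := B) hres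
  have hne : Module.finrank (FractionRing B₁) (FractionRing B) = e := by
    have h1 := hram (p : B₁)
    rw [map_natCast, hpB, hpB₁, nsmul_one] at h1
    exact_mod_cast h1.symm
  rw [hne] at hram
  have hunr : IsLocalRing.maximalIdeal B₁ =
      (IsLocalRing.maximalIdeal A).map (algebraMap A B₁) := by
    rw [hA, Ideal.map_span, Set.image_singleton, map_natCast, hB₁]
  have hdiff := FLD_unr_differentIdeal_eq (A := A) hunr hres hϖ
  have hdeg : (minpoly B₁ ϖ).natDegree = e := by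
    rw [← hne]
    exact FLD_natDegree_minpoly B₁ (FractionRing B₁) (FractionRing B) B (hne ▸ hram) hϖ
  have hint : IsIntegral B₁ ϖ := Algebra.IsIntegral.isIntegral ϖ
  have hmonic : (minpoly B₁ ϖ).Monic := minpoly.monic hint
  refine ⟨ϖ, (minpoly B₁ ϖ).map (algebraMap B₁ B), ?_, ?_, hmaxB, ?_, hmonic.map _, ?_, ?_, ?_,
    ?_, ?_, ?_⟩
  · intro a
    exact ⟨algebraMap A B₁ a, (IsScalarTower.algebraMap_apply A B₁ B a).symm⟩
  · rintro _ ⟨b, rfl⟩ hb
    have hb0 : b ≠ 0 := fun h => hb (by rw [h, map_zero])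
    obtain ⟨n, u, hu⟩ := eq_unit_mul_pow_irreducible hb0 hpirr
    refine ⟨n, algebraMap B₁ B u, ⟨u, rfl⟩, u.isUnit.map _, ?_⟩
    rw [hu, map_mul, map_pow, map_natCast, mul_comm]
  · intro b
    have hb : b ∈ Submodule.span B₁ (Set.range fun j : Fin e => ϖ ^ (j : ℕ)) := by
      rw [FLD_tot_span hres hram hϖ]
      trivial
    obtain ⟨c, hc⟩ := (Submodule.mem_span_range_iff_exists_fun B₁).mp hb
    refine ⟨fun i => algebraMap B₁ B (c i), fun i => ⟨c i, rfl⟩, ?_⟩
    rw [← hc]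
    refine Finset.sum_congr rfl fun i _ => ?_
    rw [Algebra.smul_def]
  · rw [hmonic.natDegree_map, hdeg]
  · intro i
    rw [coeff_map]
    exact ⟨_, rfl⟩
  · intro i hi
    have h1 := FLD_minpoly_coeff_ge B₁ (FractionRing B₁) (FractionRing B) B (hne ▸ hram) hϖ
      (j := i) (by rw [hne]; exact hi)
    rw [← hpB₁, addVal_le_iff_dvd] at h1
    obtain ⟨c, hc⟩ := h1
    rw [coeff_map, hc, map_mul, map_natCast, Ideal.mem_span_singleton]
    exact ⟨_, rfl⟩
  · have h1 := FLD_minpoly_coeff_zero B₁ (FractionRing B₁) (FractionRing B) B (hne ▸ hram) hϖ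
    rw [← hpB₁, addVal_eq_iff_associated] at h1
    obtain ⟨u, hu⟩ := h1.symm
    refine ⟨algebraMap B₁ B u, u.isUnit.map _, ?_⟩
    rw [coeff_map, ← hu, map_mul, map_natCast]
  · rw [eval_map_algebraMap, minpoly.aeval]
  · intro j hpj hj0 hje ⟨ϖ', hϖ'⟩
    have hroot : aeval ϖ' (minpoly B₁ ϖ + C (p : B₁) * X ^ j) = 0 := by
      rw [map_add, map_mul, map_pow, aeval_X, aeval_C, map_natCast, ← eval_map_algebraMap]
      exact hϖ'
    have hku : addVal B₁ (j : B₁) = 0 := by
      apply FLD_addVal_natCast_eq_zero hp _ hpj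
      rw [hB₁]
      exact Ideal.subset_span rfl
    have hbound := FLD_addVal_deriv_le_of_root B₁ (FractionRing B₁) (FractionRing B) B
      (hne ▸ hram) hϖ (p : B₁) (by rw [hpB₁]) (k := j) hj0 (by rw [hne]; exact hje) hku ϖ' hroot
    rw [hne, hpB₁, nsmul_one] at hbound
    have hdvd : aeval ϖ (derivative (minpoly B₁ ϖ)) ∣ ϖ ^ (e + (j - 1)) := by
      rw [← addVal_le_iff_dvd, addVal_pow, hϖ, nsmul_one]
      refine hbound.trans (le_of_eq ?_)
      push_cast
      rfl
    rw [hdiff, he, ← pow_add, hmaxB, Ideal.span_singleton_pow]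
    exact (Ideal.span_singleton_dvd_span_singleton_iff_dvd).mpr hdvd

end Struct

end Fermat.Agent.S56.H176

end
-- ===== PACK-END S56/H176/FLDStruct.lean

-- ===== PACK-BEGIN S14/H937/Ram.lean
section


/-!
# S14, LOCAL-I / LOCAL-D (helper937): ramification at finite level
-/

set_option autoImplicit false
set_option linter.style.haveILetI false
set_option linter.unusedSectionVars false

open NumberField IsDedekindDomain
open scoped Pointwise

namespace Fermat.Agent.S14.H937

section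

variable (K : IntermediateField ℚ Qb) [FiniteDimensional ℚ K]
variable (M : IntermediateField K Qb) [FiniteDimensional K M] [IsGalois K M]
variable (A : ValuationSubring Qb)

theorem numberField_K : NumberField K := ⟨⟩

theorem numberField_M : NumberField M :=
  haveI : FiniteDimensional ℚ M := Module.Finite.trans K M
  ⟨⟩

omit [FiniteDimensional ℚ K] [FiniteDimensional K M] [IsGalois K M] in
theorem toZbar_algebraMap (x : 𝓞 K) : toZbar M (algebraMap (𝓞 K) (𝓞 M) x) = toZbar K x := by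
  apply Subtype.ext
  rw [toZbar_coe, toZbar_coe]
  exact (IsScalarTower.algebraMap_apply K M Qb (x : K)).symm

omit [FiniteDimensional ℚ K] [FiniteDimensional K M] [IsGalois K M] in
theorem primeOf_liesOver : (primeOf M A).LiesOver (primeOf K A) := by
  constructor
  ext x
  rw [Ideal.under_def, Ideal.mem_comap, mem_primeOf, mem_primeOf]
  have := congrArg Subtype.val (toZbar_algebraMap K M x)
  rw [toZbar_coe, toZbar_coe] at this
  rw [this]


/-- If the inertia group of `P | 𝔮` in `Gal(M/K)` is trivial then `e(P | 𝔮) = 1`. -/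
theorem ramificationIdx'_eq_one_of_inertia (ℓ : ℕ) (hℓ : ℓ.Prime) (hA : A.LiesOverPrime ℓ)
    (hI : ∀ τ : M ≃ₐ[K] M, (∀ x : 𝓞 M, τ • x - x ∈ primeOf M A) → τ = 1) :
    (primeOf K A).ramificationIdx' (primeOf M A) = 1 := by
  haveI := numberField_K K
  haveI := numberField_M K M
  haveI := primeOf_liesOver K M A
  have hne : primeOf K A ≠ ⊥ := primeOf_ne_bot K A ℓ hℓ hA
  haveI : (primeOf K A).IsMaximal := Ring.DimensionLEOne.maximalOfPrime hne inferInstance
  haveI : IsGaloisGroup (M ≃ₐ[K] M) (𝓞 K) (𝓞 M) :=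
    IsGaloisGroup.of_isFractionRing (M ≃ₐ[K] M) (𝓞 K) (𝓞 M) K M
  have hcard : Nat.card ((primeOf M A).inertia (M ≃ₐ[K] M)) = 1 := by
    rw [Nat.card_eq_one_iff_unique]
    refine ⟨⟨?_⟩, ⟨1⟩⟩
    rintro ⟨τ, hτ⟩ ⟨τ', hτ'⟩
    apply Subtype.ext
    show τ = τ'
    rw [hI τ (fun x => hτ x), hI τ' (fun x => hτ' x)]
  rw [Ideal.ramificationIdx'_eq_ramificationIdx (primeOf K A) (primeOf M A) hne,
    ← Ideal.ramificationIdxIn_eq_ramificationIdx (primeOf K A) (primeOf M A) (M ≃ₐ[K] M),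
    ← Ideal.card_inertia_eq_ramificationIdxIn (G := M ≃ₐ[K] M) (primeOf K A) (primeOf M A)]
  exact hcard


/-- If the decomposition group of `P | 𝔮` in `Gal(M/K)` is trivial then `e(P | 𝔮) = 1` and
`f(P | 𝔮) = 1`. -/
theorem ramificationIdx'_inertiaDeg_eq_one_of_stabilizer (ℓ : ℕ) (hℓ : ℓ.Prime)
    (hA : A.LiesOverPrime ℓ)
    (hD : ∀ τ : M ≃ₐ[K] M, (∀ x : 𝓞 M, τ • x ∈ primeOf M A ↔ x ∈ primeOf M A) → τ = 1) :
    (primeOf K A).ramificationIdx' (primeOf M A) = 1 ∧
      (primeOf M A).inertiaDeg (𝓞 K) = 1 := by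
  haveI := numberField_K K
  haveI := numberField_M K M
  haveI := primeOf_liesOver K M A
  have hne : primeOf K A ≠ ⊥ := primeOf_ne_bot K A ℓ hℓ hA
  haveI : (primeOf K A).IsMaximal := Ring.DimensionLEOne.maximalOfPrime hne inferInstance
  haveI : IsGaloisGroup (M ≃ₐ[K] M) (𝓞 K) (𝓞 M) :=
    IsGaloisGroup.of_isFractionRing (M ≃ₐ[K] M) (𝓞 K) (𝓞 M) K M
  have hcard : Nat.card (MulAction.stabilizer (M ≃ₐ[K] M) (primeOf M A)) = 1 := by
    rw [Nat.card_eq_one_iff_unique]
    refine ⟨⟨?_⟩, ⟨1⟩⟩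
    have key : ∀ τ : M ≃ₐ[K] M, τ ∈ MulAction.stabilizer (M ≃ₐ[K] M) (primeOf M A) → τ = 1 := by
      intro τ hτ
      apply hD
      intro x
      have hτ' : τ • primeOf M A = primeOf M A := hτ
      conv_lhs => rw [← hτ']
      exact Ideal.smul_mem_pointwise_smul_iff
    rintro ⟨τ, hτ⟩ ⟨τ', hτ'⟩
    apply Subtype.ext
    show τ = τ'
    rw [key τ hτ, key τ' hτ']
  have h1 := Ideal.card_stabilizer_eq (G := M ≃ₐ[K] M) (primeOf K A) (primeOf M A)
  rw [hcard, Ideal.ramificationIdxIn_eq_ramificationIdx (primeOf K A) (primeOf M A) (M ≃ₐ[K] M),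
    Ideal.inertiaDegIn_eq_inertiaDeg (primeOf K A) (primeOf M A) (M ≃ₐ[K] M),
    ← Ideal.ramificationIdx'_eq_ramificationIdx (primeOf K A) (primeOf M A) hne] at h1
  have h2 := Nat.eq_one_of_mul_eq_one_right h1.symm
  have h3 := Nat.eq_one_of_mul_eq_one_left h1.symm
  exact ⟨h2, h3⟩


/-- The height-one prime of `𝓞 F` below `A`. -/
noncomputable def hos (F : Type*) [Field F] [NumberField F] [Algebra F Qb]
    (A : ValuationSubring Qb) (h : primeOf F A ≠ ⊥) : HeightOneSpectrum (𝓞 F) :=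
  ⟨primeOf F A, inferInstance, h⟩

theorem hos_asIdeal (F : Type*) [Field F] [NumberField F] [Algebra F Qb]
    (A : ValuationSubring Qb) (h : primeOf F A ≠ ⊥) : (hos F A h).asIdeal = primeOf F A := rfl

/-- If `e(P | 𝔮) = 1`, every value of `M` is a value of `K`. -/
theorem exists_valuation_eq_of_ramificationIdx' (ℓ : ℕ) (hℓ : ℓ.Prime) (hA : A.LiesOverPrime ℓ)
    (he : (primeOf K A).ramificationIdx' (primeOf M A) = 1) (y : M) (hy : y ≠ 0) :
    ∃ c : K, c ≠ 0 ∧ A.valuation (y : Qb) = A.valuation (c : Qb) := by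
  haveI := numberField_K K
  haveI := numberField_M K M
  haveI := primeOf_liesOver K M A
  have hneK : primeOf K A ≠ ⊥ := primeOf_ne_bot K A ℓ hℓ hA
  have hneM : primeOf M A ≠ ⊥ := primeOf_ne_bot M A ℓ hℓ hA
  set v := hos K A hneK with hv
  set w := hos M A hneM with hw
  haveI : w.asIdeal.LiesOver v.asIdeal := primeOf_liesOver K M A
  obtain ⟨c, hc⟩ := v.valuation_surjective K (w.valuation M y)
  have hwy : w.valuation M y ≠ 0 := (Valuation.ne_zero_iff _).mpr hy
  have hc0 : c ≠ 0 := by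
    rintro rfl
    rw [map_zero] at hc
    exact hwy hc.symm
  refine ⟨c, hc0, ?_⟩
  have h1 := HeightOneSpectrum.valuation_liesOver M v w c
  have he' : v.asIdeal.ramificationIdx' w.asIdeal = 1 := he
  rw [he', pow_one, hc] at h1
  have hcM : algebraMap K M c ≠ 0 := by simpa using hc0
  have h2 : w.valuation M (y / algebraMap K M c) = 1 := by
    rw [map_div₀, ← h1]
    exact div_self hwy
  have h3 := valuation_eq_one_of M A w (hos_asIdeal M A hneM) _ h2
  rw [map_div₀, map_div₀] at h3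
  have h4 : algebraMap M Qb (algebraMap K M c) = (c : Qb) :=
    (IsScalarTower.algebraMap_apply K M Qb c).symm
  rw [h4] at h3
  have hcv : A.valuation (c : Qb) ≠ 0 := by
    rw [Valuation.ne_zero_iff]
    simpa using hc0
  exact (div_eq_one_iff_eq hcv).mp h3

end

end Fermat.Agent.S14.H937

end
-- ===== PACK-END S14/H937/Ram.lean

-- ===== PACK-BEGIN S55/PT/Ind.lean
section


/-!
# S55 / PT layer, part 5: induced modules `Ind_U M = (G ⧸ U →₀ M)` (diagonal action),
augmentation, kernel representation, level change, local-to-global comparison,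
dual short exact sequences.

Definitions only (+ the few proofs needed to make them).  Properties are leaves (`Spec.lean`).
-/

set_option autoImplicit false

noncomputable section

namespace Fermat.Agent.S55.PT

open groupCohomology

variable {k : Type} [Field k] {G : Type} [Group G]

/-! ### kernel of an equivariant map as a representation -/

section Ker

variable {A B : Rep.{0, 0, 0} k G} (φ : A →ₗ[k] B) (hφ : IsEquivariant φ)

include hφ in
lemma ker_le_comap (g : G) : LinearMap.ker φ ≤ (LinearMap.ker φ).comap (A.ρ g) := by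
  intro a ha
  rw [Submodule.mem_comap, LinearMap.mem_ker, hφ g a, LinearMap.mem_ker.1 ha, map_zero]

/-- the kernel of an equivariant map, as a representation -/
abbrev kerRep : Rep.{0, 0, 0} k G :=
  Rep.of (A.ρ.subrepresentation (LinearMap.ker φ) (ker_le_comap φ hφ))

/-- the inclusion `ker φ → A` -/
def kerIncl : ↥(LinearMap.ker φ) →ₗ[k] A := (LinearMap.ker φ).subtype

include hφ in
lemma kerIncl_equivariant : IsEquivariant (A := kerRep φ hφ) (B := A) (kerIncl φ) :=
  fun _ _ => rfl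

lemma kerIncl_injective : Function.Injective (kerIncl φ) := Subtype.val_injective

/-- the short exact sequence `0 → ker φ → A → B → 0` of a surjective equivariant map -/
def kerSES (hsurj : Function.Surjective φ) : SES (kerRep φ hφ) A B where
  i := kerIncl φ
  π := φ
  hi := kerIncl_equivariant φ hφ
  hπ := hφ
  inj := kerIncl_injective φ
  surj := hsurj
  exact := Submodule.range_subtype _

end Ker

/-! ### induced modules -/

section Ind

variable (U : Subgroup G) (M : Rep.{0, 0, 0} k G)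

/-- the action of `g` on `G ⧸ U →₀ M`: `single x m ↦ single (g • x) (g • m)` -/
def indAct (g : G) : ((G ⧸ U) →₀ M) →ₗ[k] ((G ⧸ U) →₀ M) :=
  (Finsupp.lmapDomain M k (fun x : G ⧸ U => g • x)) ∘ₗ (Finsupp.mapRange.linearMap (M.ρ g))

@[simp] lemma indAct_single (g : G) (x : G ⧸ U) (m : M) :
    indAct U M g (Finsupp.single x m) = Finsupp.single (g • x) (M.ρ g m) := by
  rw [indAct, LinearMap.comp_apply, Finsupp.mapRange.linearMap_apply, Finsupp.mapRange_single,
    Finsupp.lmapDomain_apply, Finsupp.mapDomain_single]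

/-- the diagonal representation on `G ⧸ U →₀ M` -/
def indRho : Representation k G ((G ⧸ U) →₀ M) where
  toFun := indAct U M
  map_one' := by
    apply Finsupp.lhom_ext
    intro x m
    simp
  map_mul' g h := by
    apply Finsupp.lhom_ext
    intro x m
    simp [mul_smul]

/-- `Ind_U M` -/
abbrev indRep : Rep.{0, 0, 0} k G := Rep.of (indRho U M)

lemma indRep_ρ_single (g : G) (x : G ⧸ U) (m : M) :
    (indRep U M).ρ g (Finsupp.single x m : (G ⧸ U) →₀ M) =
      (Finsupp.single (g • x) (M.ρ g m) : (G ⧸ U) →₀ M) :=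
  indAct_single U M g x m

/-- the augmentation `Ind_U M → M`, `single x m ↦ m` -/
def indAug : ((G ⧸ U) →₀ M) →ₗ[k] M :=
  Finsupp.lsum k (fun _ : G ⧸ U => (LinearMap.id : M →ₗ[k] M))

@[simp] lemma indAug_single (x : G ⧸ U) (m : M) :
    indAug U M (Finsupp.single x m : (G ⧸ U) →₀ M) = m := by
  rw [indAug, Finsupp.lsum_single]; rfl

lemma indAug_equivariant : IsEquivariant (A := indRep U M) (B := M) (indAug U M) := by
  intro g
  have : (indAug U M) ∘ₗ (indAct U M g) = (M.ρ g) ∘ₗ (indAug U M) := by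
    apply Finsupp.lhom_ext
    intro x m
    rw [LinearMap.comp_apply, LinearMap.comp_apply, indAct_single, indAug_single, indAug_single]
  exact fun a => LinearMap.congr_fun this a

lemma indAug_surjective : Function.Surjective (indAug U M) := fun m =>
  ⟨(Finsupp.single ((1 : G) : G ⧸ U) m : (G ⧸ U) →₀ M), indAug_single U M _ m⟩

/-- `R = ker (Ind_U M → M)` -/
abbrev indKer : Rep.{0, 0, 0} k G :=
  kerRep (A := indRep U M) (B := M) (indAug U M) (indAug_equivariant U M)

/-- the presentation `0 → R → Ind_U M → M → 0` -/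
def indSES : SES (indKer U M) (indRep U M) M :=
  kerSES (A := indRep U M) (B := M) (indAug U M) (indAug_equivariant U M)
    (indAug_surjective U M)

/-- functoriality of `Ind_U` in the module -/
def indMap {M N : Rep.{0, 0, 0} k G} (φ : M →ₗ[k] N) :
    ((G ⧸ U) →₀ M) →ₗ[k] ((G ⧸ U) →₀ N) :=
  Finsupp.mapRange.linearMap φ

@[simp] lemma indMap_single {M N : Rep.{0, 0, 0} k G} (φ : M →ₗ[k] N) (x : G ⧸ U) (m : M) :
    indMap U φ (Finsupp.single x m : (G ⧸ U) →₀ M) = (Finsupp.single x (φ m) : (G ⧸ U) →₀ N) := by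
  rw [indMap, Finsupp.mapRange.linearMap_apply, Finsupp.mapRange_single]

variable {U} in
/-- level change `Ind_U M → Ind_V M` for `U ≤ V` -/
def indLE {V : Subgroup G} (h : U ≤ V) : ((G ⧸ U) →₀ M) →ₗ[k] ((G ⧸ V) →₀ M) :=
  Finsupp.lmapDomain M k (Subgroup.quotientMapOfLE h)

@[simp] lemma indLE_single {V : Subgroup G} (h : U ≤ V) (x : G ⧸ U) (m : M) :
    indLE M h (Finsupp.single x m : (G ⧸ U) →₀ M) =
      (Finsupp.single (Subgroup.quotientMapOfLE h x) m : (G ⧸ V) →₀ M) := by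
  rw [indLE, Finsupp.lmapDomain_apply, Finsupp.mapDomain_single]

lemma quotientMapOfLE_smul {V : Subgroup G} (h : U ≤ V) (g : G) (x : G ⧸ U) :
    Subgroup.quotientMapOfLE h (g • x) = g • Subgroup.quotientMapOfLE h x := by
  induction x using QuotientGroup.induction_on with
  | H a => rfl

lemma indLE_equivariant {V : Subgroup G} (h : U ≤ V) :
    IsEquivariant (A := indRep U M) (B := indRep V M) (indLE M h) := by
  intro g
  have : (indLE M h) ∘ₗ (indAct U M g) = (indAct V M g) ∘ₗ (indLE M h) := by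
    apply Finsupp.lhom_ext
    intro x m
    rw [LinearMap.comp_apply, LinearMap.comp_apply, indAct_single, indLE_single, indLE_single,
      indAct_single, quotientMapOfLE_smul]
  exact fun a => LinearMap.congr_fun this a

lemma indAug_indLE {V : Subgroup G} (h : U ≤ V) (a : (G ⧸ U) →₀ M) :
    indAug V M (indLE M h a) = indAug U M a := by
  have : (indAug V M) ∘ₗ (indLE M h) = indAug U M := by
    apply Finsupp.lhom_ext
    intro x m
    rw [LinearMap.comp_apply, indLE_single, indAug_single, indAug_single]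
  exact LinearMap.congr_fun this a

lemma indMap_equivariant {M N : Rep.{0, 0, 0} k G} (φ : M →ₗ[k] N) (hφ : IsEquivariant φ) :
    IsEquivariant (A := indRep U M) (B := indRep U N) (indMap U φ) := by
  intro g
  have hφ' : ∀ (g : G) (a : M), φ (M.ρ g a) = N.ρ g (φ a) := hφ
  have : (indMap U φ) ∘ₗ (indAct U M g) = (indAct U N g) ∘ₗ (indMap U φ) := by
    apply Finsupp.lhom_ext
    intro x m
    rw [LinearMap.comp_apply, LinearMap.comp_apply, indAct_single, indMap_single, indMap_single,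
      indAct_single, hφ']
  exact fun a => LinearMap.congr_fun this a

end Ind

/-! ### local-to-global comparison -/

section LocGlob

variable {G' : Type} [Group G'] (r : G' →* G) (U : Subgroup G) (W : Subgroup G')
  (M : Rep.{0, 0, 0} k G)

variable {r U W} in
/-- the map `G' ⧸ W → G ⧸ U` induced by `r` when `W ≤ r⁻¹ U` -/
def quotMap (h : W ≤ U.comap r) : G' ⧸ W → G ⧸ U :=
  Quotient.map' r (by
    intro a b hab
    rw [QuotientGroup.leftRel_apply] at hab ⊢
    have := h hab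
    simpa [Subgroup.mem_comap, map_mul, map_inv] using this)

variable {r U W} in
@[simp] lemma quotMap_mk (h : W ≤ U.comap r) (g : G') :
    quotMap h (g : G' ⧸ W) = ((r g : G) : G ⧸ U) := rfl

variable {r U W} in
/-- the comparison map `Ind_W^{G'}(M|_{G'}) → (Ind_U^G M)|_{G'}` -/
def indLocGlob (h : W ≤ U.comap r) : ((G' ⧸ W) →₀ M) →ₗ[k] ((G ⧸ U) →₀ M) :=
  Finsupp.lmapDomain M k (quotMap h)

variable {r U W} in
@[simp] lemma indLocGlob_single (h : W ≤ U.comap r) (x : G' ⧸ W) (m : M) :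
    indLocGlob M h (Finsupp.single x m : (G' ⧸ W) →₀ M) =
      (Finsupp.single (quotMap h x) m : (G ⧸ U) →₀ M) := by
  rw [indLocGlob, Finsupp.lmapDomain_apply, Finsupp.mapDomain_single]

variable {r U W} in
lemma quotMap_smul (h : W ≤ U.comap r) (g : G') (x : G' ⧸ W) :
    quotMap h (g • x) = r g • quotMap h x := by
  induction x using QuotientGroup.induction_on with
  | H a =>
    show ((r (g * a) : G) : G ⧸ U) = _
    rw [map_mul]
    rfl

variable {r U W} in
lemma indLocGlob_equivariant (h : W ≤ U.comap r) :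
    IsEquivariant (A := indRep W (Rep.res r M)) (B := Rep.res r (indRep U M))
      (indLocGlob M h) := by
  intro g
  have : (indLocGlob M h) ∘ₗ (indAct W (Rep.res r M) g) =
      (indAct U M (r g)) ∘ₗ (indLocGlob M h) := by
    apply Finsupp.lhom_ext
    intro x m
    rw [LinearMap.comp_apply, LinearMap.comp_apply, indAct_single, indLocGlob_single,
      indLocGlob_single, indAct_single, quotMap_smul]
    rfl
  exact fun a => LinearMap.congr_fun this a

variable {r U W} in
lemma indAug_indLocGlob (h : W ≤ U.comap r) (a : (G' ⧸ W) →₀ M) :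
    indAug U M (indLocGlob M h a) = indAug W (Rep.res r M) a := by
  have : (indAug U M) ∘ₗ (indLocGlob M h) = indAug W (Rep.res r M) := by
    apply Finsupp.lhom_ext
    intro x m
    rw [LinearMap.comp_apply, indLocGlob_single, indAug_single]
    exact (indAug_single W (Rep.res r M) x m).symm
  exact LinearMap.congr_fun this a

end LocGlob

/-! ### duals -/

section Dual

variable (χ : G →* kˣ)

/-- the dual of an equivariant map is equivariant for the twisted duals -/
lemma dualMap_equivariant {A B : Rep.{0, 0, 0} k G} (φ : A →ₗ[k] B) (hφ : IsEquivariant φ) :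
    IsEquivariant (A := B.dualTwist χ) (B := A.dualTwist χ) φ.dualMap := by
  intro g f
  apply LinearMap.ext
  intro a
  have hφ' : ∀ (g : G) (a : A), φ (A.ρ g a) = B.ρ g (φ a) := hφ
  show (((B.ρ.dual.twist χ) g) f) (φ a) = (((A.ρ.dual.twist χ) g) (φ.dualMap f)) a
  simp only [Representation.twist_apply_apply, Representation.dual_apply, LinearMap.smul_apply,
    Module.Dual.transpose_apply, LinearMap.comp_apply, LinearMap.dualMap_apply, hφ']

/-- the dual short exact sequence `0 → C′ → B′ → A′ → 0` -/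
def SES.dual {A B C : Rep.{0, 0, 0} k G} (E : SES A B C) :
    SES (C.dualTwist χ) (B.dualTwist χ) (A.dualTwist χ) where
  i := E.π.dualMap
  π := E.i.dualMap
  hi := dualMap_equivariant χ E.π E.hπ
  hπ := dualMap_equivariant χ E.i E.hi
  inj := LinearMap.dualMap_injective_of_surjective E.surj
  surj := LinearMap.dualMap_surjective_of_injective E.inj
  exact := by
    rw [LinearMap.range_dualMap_eq_dualAnnihilator_ker, LinearMap.ker_dualMap_eq_dualAnnihilator_range,
      E.exact]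

end Dual

end Fermat.Agent.S55.PT

end

end
-- ===== PACK-END S55/PT/Ind.lean

-- ===== PACK-BEGIN S55/G/Rec/OpenH415.lean
section



/-!
# S55 / layer G / block REC : openness helpers (helper415)

* `index_ne_zero_of_isOpenQ` : an open subgroup of `G_ℚ` has finite index;
* `isOpenL_locSub` : the local group `locSub q g U` of an open `U` is open;
* `isOpenQ_of_le`, `isOpenQ_inf_fixingSubgroup` : bigger subgroups are open, intersections with
  finite levels are open;
* `relIndex_locSub_ker` : the local degree `[V_v : V'_w]` for `V' = locSub q g (ker χ)` is the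
  cardinality of the image of `χ ∘ locHom`.
-/

set_option autoImplicit false

noncomputable section

namespace Fermat.Agent.S55.G.Rec.H415

open Fermat.Agent.S55.G.Rec groupCohomology

local notation "Qb" => AlgebraicClosure ℚ
local notation "GQ" => (AlgebraicClosure ℚ ≃ₐ[ℚ] AlgebraicClosure ℚ)

/-- An open subgroup of `G_ℚ` has finite index. -/
theorem index_ne_zero_of_isOpenQ {U : Subgroup GQ} (hU : IsOpenQ U) : U.index ≠ 0 := by
  obtain ⟨F, hF, hFU⟩ := hU
  haveI := hF
  haveI : IsAlgClosure ℚ Qb := ⟨inferInstance, AlgebraicClosure.isAlgebraic ℚ⟩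
  haveI : Normal ℚ Qb := IsAlgClosure.normal ℚ Qb
  haveI : IsGalois ℚ Qb := isGalois_iff.mpr ⟨inferInstance, inferInstance⟩
  have h1 : F.fixingSubgroup.index ≠ 0 := by
    rw [← IntermediateField.finrank_eq_fixingSubgroup_index]
    exact (Module.finrank_pos (R := ℚ) (M := F)).ne'
  haveI : F.fixingSubgroup.FiniteIndex := ⟨h1⟩
  exact (Subgroup.finiteIndex_of_le hFU).index_ne_zero

/-- A subgroup containing an open subgroup is open. -/
theorem isOpenQ_of_le {U U' : Subgroup GQ} (hU : IsOpenQ U) (h : U ≤ U') : IsOpenQ U' := by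
  obtain ⟨F, hF, hFU⟩ := hU
  exact ⟨F, hF, hFU.trans h⟩

/-- The subgroup of an open subgroup `U` cut out by a finite level is open. -/
theorem isOpenQ_of_level {U U' : Subgroup GQ} (hU : IsOpenQ U)
    (F' : IntermediateField ℚ Qb) [FiniteDimensional ℚ F']
    (h : ∀ σ ∈ U, σ ∈ F'.fixingSubgroup → σ ∈ U') : IsOpenQ U' := by
  obtain ⟨F, hF, hFU⟩ := hU
  haveI := hF
  refine ⟨F ⊔ F', inferInstance, fun σ hσ => ?_⟩
  exact h σ (hFU (IntermediateField.fixingSubgroup_antitone le_sup_left hσ))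
    (IntermediateField.fixingSubgroup_antitone le_sup_right hσ)

/-- The local group of an open subgroup is open. -/
theorem isOpenL_locSub {U : Subgroup GQ} (hU : IsOpenQ U) (q : ℕ) [Fact q.Prime] (g : GQ) :
    IsOpenL q (locSub q g U) := by
  obtain ⟨F, hF, hFU⟩ := hU
  haveI := hF
  haveI := finiteDimensional_map_inv F g
  obtain ⟨E, hE, hEF⟩ :=
    Fermat.Agent.S55.Bridge.exists_local_level_of_global q (F.map (g⁻¹ : GQ).toAlgHom)
  refine ⟨E, hE, fun τ hτ => ?_⟩
  rw [mem_locSub]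
  exact hFU ((mem_fixingSubgroup_map_inv F g _).1 (hEF τ hτ))

/-- The local degree `[V_v : V'_w]`, `V' = locSub q g (ker χ)`, is the cardinality of the image of
the local character `χ ∘ locHom`. -/
theorem relIndex_locSub_ker (q : ℕ) [Fact q.Prime] (g : GQ) (U : Subgroup GQ) {B : Type*}
    [Group B] (χ : ↥U →* B) :
    (locSub q g (χ.ker.map U.subtype)).relIndex (locSub q g U) =
      Nat.card (χ.comp (locHom q g U)).range := by
  rw [← Subgroup.index_ker, Subgroup.relIndex]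
  congr 1
  ext τ
  rw [Subgroup.mem_subgroupOf, mem_locSub, MonoidHom.mem_ker, Subgroup.mem_map]
  constructor
  · rintro ⟨u, hu, hu'⟩
    have : u = locHom q g U τ := Subtype.ext hu'
    rw [MonoidHom.comp_apply, ← this]
    exact hu
  · intro h
    exact ⟨locHom q g U τ, h, rfl⟩

end Fermat.Agent.S55.G.Rec.H415

end
end
-- ===== PACK-END S55/G/Rec/OpenH415.lean

-- ===== PACK-BEGIN S55/G/Exist121/Spec.lean
section



/-!
# S55, layer G, block EXIST (global existence theorem mod `p`): INTERFACE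

Author: helper121.  Plan: `coord/S55-G-EXIST.md`.  Only definitions and `def XxxSpec : Prop`.
Vocabulary: `G/Defs.lean` (helper421), `G/Spec.lean`, `T/Spec.lean`, `Exist121/Index.lean`.

Target (`GD6` of `coord/S55-E1.md`, intrinsic model): `ExistCoreSpec` —
for `L/K` Galois with `p`-group `G`, unramified outside `S ∋ p`, `μ_p ⊂ K`, such that every element
of the `p`-Selmer group `V_S(K) = {x ∈ Kˣ | p ∣ ord_w x ∀ w ∉ S}` is a `p`-th power in `L`:
`N_G C_S(L) ⊆ p · C_S(L)^G`.

Leaves: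
* `RecipSpec`      reciprocity isomorphism `G^ab ≃ C_S(L)^G / N_G C_S(L)` for `p`-groups
                   (from `PClassModuleSpec` + `T.ClassModuleOfCyclicSpec` + `T.TateReciprocitySpec`);
* `DescentTopSpec` `C_S(K) ≃ C_S(L)^G` (from `DescentSpec`);
* `PowIndexSpec`   `[J_S(K) : p J_S(K)] = [E_S(K) : p E_S(K)]²` (local power index + `S`-units);
* `ShaBoundSpec`   `[Sha : pKˣ] ≤ [Cl_S : p Cl_S]`;
* `CountSpec`      `[C_S(K) : p C_S(K)] ≤ [V_S(K) : pKˣ]`, finite (from the two previous ones).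
-/

set_option autoImplicit false

open scoped NumberField
open IsDedekindDomain

noncomputable section

namespace Fermat.Agent.S55.G.Exist121

open Fermat.Agent.S55.G

/-- The `p`-Selmer group `V_S(K) = {x ∈ Kˣ | p ∣ ord_w(x) for all w ∉ S}` (additively). -/
def selmer (S : Finset Nat.Primes) (K : Type) [Field K] [NumberField K] (p : ℕ) :
    AddSubgroup (Additive Kˣ) := selV (ordHom S K) p

/-- `Sha_S(K) = {x ∈ V_S(K) | x ⊗ 1 ∈ J_S(K)^p}` (additively). -/
def shaS (S : Finset Nat.Primes) (K : Type) [Field K] [NumberField K] (p : ℕ) :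
    AddSubgroup (Additive Kˣ) := sha (unitsDiag S K) (ordHom S K) p

lemma mem_selmer_iff (S : Finset Nat.Primes) (K : Type) [Field K] [NumberField K] (p : ℕ)
    (x : Additive Kˣ) :
    x ∈ selmer S K p ↔ ∃ d : PrimeOut S K →₀ ℤ, p • d = ordHom S K x := Iff.rfl

/-- **EX-REC (reciprocity isomorphism, `p`-groups).**  Let `p` be an odd prime, `p ∈ S`, `G` a
finite `p`-group acting faithfully on `L`, unramified outside `S`, `μ_p ⊂ L^G`.  Then
`G^ab ≃ C_S(L)^G / N_G C_S(L)`. -/
def RecipSpec : Prop :=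
  ∀ (p : ℕ) [hp : Fact p.Prime], p ≠ 2 →
  ∀ (S : Finset Nat.Primes) (G L : Type) [Group G] [Fintype G] [Field L] [NumberField L]
    [MulSemiringAction G L] [FaithfulSMul G L],
    (⟨p, hp.out⟩ : Nat.Primes) ∈ S → IsPGroup p G → IsUnramOut S G L →
    HasFixedRootOfUnity p G L →
    Nonempty (Additive (Abelianization G) ≃+ T.hat0 (CRep S G L))

/-- **EX-DESC (descent to the base field).**  For `L/K` Galois with group `G`, unramified outside
`S ≠ ∅`: an injective map `ι : C_S(K) → C_S(L)` with image `C_S(L)^G`, which is the base change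
map on the image of `J_S(K)`. -/
def DescentTopSpec : Prop :=
  ∀ (S : Finset Nat.Primes) (G K L : Type) [Group G] [Finite G] [Field K] [NumberField K]
    [Field L] [NumberField L] [Algebra K L] [MulSemiringAction G L] [IsGaloisGroup G K L],
    S.Nonempty → IsUnramOut S G L →
    ∃ ι : CS S K →+ CS S L,
      Function.Injective ι ∧
      (∀ c : CS S L, (∀ g : G, cRepr S G L g c = c) ↔ c ∈ Set.range ι) ∧
      (∀ y : Additive (AS S K)ˣ,
        ι ((principal S K).mkQ (y, 0)) = (principal S L).mkQ (jMap S K L y, 0))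

/-- **EX-POW (numerics).**  For a number field `K ∋ μ_p`, `p` odd, `p ∈ S`:
`[J_S(K) : p J_S(K)] = [E_S(K) : p E_S(K)]²`
(both sides are `p ^ (2 #{w | S} + [K : ℚ])`: local power index formula, Dirichlet's `S`-unit
theorem, `K` totally complex). -/
def PowIndexSpec : Prop :=
  ∀ (p : ℕ) [hp : Fact p.Prime], p ≠ 2 →
  ∀ (S : Finset Nat.Primes) (K : Type) [Field K] [NumberField K],
    (⟨p, hp.out⟩ : Nat.Primes) ∈ S → (∃ ζ : K, IsPrimitiveRoot ζ p) →
    (pMul (Additive (AS S K)ˣ) p).index =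
      ((pKer (ordHom S K) p).relIndex (ordHom S K).ker) ^ 2

/-- **EX-SHA.**  For a number field `K ∋ μ_p`, `p` odd, `p ∈ S`:
`[Sha_S(K) : p Kˣ] ≤ [Div^S(K) : div(Kˣ) + p Div^S(K)] = |Cl_S(K) / p|`.
(The extension `K(Sha^{1/p})/K` is unramified outside `S` and totally split above `S`; apply
the reciprocity isomorphism to it.) -/
def ShaBoundSpec : Prop :=
  ∀ (p : ℕ) [hp : Fact p.Prime], p ≠ 2 →
  ∀ (S : Finset Nat.Primes) (K : Type) [Field K] [NumberField K],
    (⟨p, hp.out⟩ : Nat.Primes) ∈ S → (∃ ζ : K, IsPrimitiveRoot ζ p) →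
    (pMul (Additive Kˣ) p).relIndex (shaS S K p) ≤
      ((ordHom S K).range ⊔ pMul (PrimeOut S K →₀ ℤ) p).index

/-- **EX-COUNT.**  For a number field `K ∋ μ_p`, `p` odd, `p ∈ S`: `C_S(K) / p` is finite and
`[C_S(K) : p C_S(K)] ≤ [V_S(K) : p Kˣ]`. -/
def CountSpec : Prop :=
  ∀ (p : ℕ) [hp : Fact p.Prime], p ≠ 2 →
  ∀ (S : Finset Nat.Primes) (K : Type) [Field K] [NumberField K],
    (⟨p, hp.out⟩ : Nat.Primes) ∈ S → (∃ ζ : K, IsPrimitiveRoot ζ p) →
    (pMul (CS S K) p).index ≠ 0 ∧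
    (pMul (CS S K) p).index ≤ (pMul (Additive Kˣ) p).relIndex (selmer S K p)

/-- **EX-CORE (existence theorem mod `p`, intrinsic form of `GD6`).**  Let `p` be an odd prime,
`p ∈ S`, `L/K` Galois with group `G` a `p`-group, unramified outside `S`, `μ_p ⊂ K`, and assume
that every element of the `p`-Selmer group `V_S(K)` is a `p`-th power in `L`.  Then
`N_G C_S(L) ⊆ p · C_S(L)^G`. -/
def ExistCoreSpec : Prop :=
  ∀ (p : ℕ) [hp : Fact p.Prime], p ≠ 2 →
  ∀ (S : Finset Nat.Primes) (G K L : Type) [Group G] [Fintype G] [Field K] [NumberField K]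
    [Field L] [NumberField L] [Algebra K L] [MulSemiringAction G L] [IsGaloisGroup G K L],
    (⟨p, hp.out⟩ : Nat.Primes) ∈ S → IsPGroup p G → IsUnramOut S G L →
    (∃ ζ : K, IsPrimitiveRoot ζ p) →
    (∀ x : Additive Kˣ, x ∈ selmer S K p →
      ∃ y : L, y ^ p = algebraMap K L ((x.toMul : Kˣ) : K)) →
    ∀ c : CS S L, ∃ c₀ : CS S L,
      (∀ g : G, cRepr S G L g c₀ = c₀) ∧ ∑ g : G, cRepr S G L g c = p • c₀

end Fermat.Agent.S55.G.Exist121

end
end
-- ===== PACK-END S55/G/Exist121/Spec.lean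

-- ===== PACK-BEGIN S55/K/Defs.lean
section
/-
S55 moonshot — LAYER K (global Kummer bridge), definitions.   Architect: helper4.
Namespace `Fermat.Agent.S55.K`.  Mathlib + Prelude + `PT/Levels`, `PT/Coh` (helper835), `Spec/Tower`
(helper55), `Bridge/MuP` (helper655).  NO sorry.  Blueprint: `coord/S55-K.md` (origin/helper4).

Contents
* `IsLC₃`, `d34`, `H3Vanish`, `H3TorsVanish` : level-constant 3-cochains (PT stops in degree 2);
* `ind φ V A`                                 : the induced module `(G ⧸ V →₀ A)`, diagonal action,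
                                                for ANY coefficient ring (we need `ℤ` and `𝔽_p`);
* `sUnits S : Rep ℤ G_ℚ`                      : the `S`-units `𝔼` of `ℚ̄`;
* `muToE`, `powE`                             : the Kummer sequence `0 → μ_p → 𝔼 → 𝔼`;
* `locUnitsMap q`                             : `ℚ̄ˣ → ℚ̄_qˣ`, equivariant along `G_{ℚ_q} → G_ℚ`.
-/





set_option autoImplicit false

noncomputable section

namespace Fermat.Agent.S55.K

open groupCohomology Fermat.Agent.S55.PT Fermat.Agent.S55.Bridge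
open scoped Pointwise

/-- `ℚ̄`. -/
abbrev Qbar : Type := AlgebraicClosure ℚ

/-! ### 1. Degree 3 -/

section Deg3

variable {G : Type} [Group G]

/-- Level-constant 3-cochains. -/
def IsLC₃ (L : LevelSys G) {X : Type*} (f : G × G × G → X) : Prop :=
  ∃ U ∈ L.levels, ∀ g₁ g₂ g₃ s₁ s₂ s₃ : G, s₁ ∈ U → s₂ ∈ U → s₃ ∈ U →
    f (g₁ * s₁, g₂ * s₂, g₃ * s₃) = f (g₁, g₂, g₃)

variable {k : Type} [CommRing k]

/-- The differential `C³ → C⁴` of inhomogeneous cochains. -/
def d34 (A : Rep.{0, 0, 0} k G) (f : G × G × G → A) : G × G × G × G → A := fun x =>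
  A.ρ x.1 (f (x.2.1, x.2.2.1, x.2.2.2)) - f (x.1 * x.2.1, x.2.2.1, x.2.2.2)
    + f (x.1, x.2.1 * x.2.2.1, x.2.2.2) - f (x.1, x.2.1, x.2.2.1 * x.2.2.2)
    + f (x.1, x.2.1, x.2.2.1)

/-- `H³_L(A) = 0`: every level-constant 3-cocycle is the coboundary of a level-constant
2-cochain. -/
def H3Vanish (L : LevelSys G) (A : Rep.{0, 0, 0} k G) : Prop :=
  ∀ f : G × G × G → A, IsLC₃ L f → d34 A f = 0 → ∃ b ∈ L.C2 A, (d₂₃ A).hom b = f

/-- `H³_L(A)[n] = 0`. -/
def H3TorsVanish (L : LevelSys G) (A : Rep.{0, 0, 0} k G) (n : ℕ) : Prop :=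
  ∀ f : G × G × G → A, IsLC₃ L f → d34 A f = 0 →
    (∃ b ∈ L.C2 A, (d₂₃ A).hom b = n • f) → ∃ b ∈ L.C2 A, (d₂₃ A).hom b = f

/-- `H²_L(A)` is `n`-divisible (cochain form). -/
def H2Divisible (L : LevelSys G) (A : Rep.{0, 0, 0} k G) (n : ℕ) : Prop :=
  ∀ f ∈ L.Z2 A, ∃ f' ∈ L.Z2 A, f - n • f' ∈ L.B2 A

end Deg3

/-! ### 2. Induced modules -/

section Ind

variable {k : Type} [CommRing k] {G H : Type} [Group G] [Group H]

/-- The representation of `H` on `(G ⧸ V →₀ A)`: `h • (x ⊗ a) = (φ h • x) ⊗ (h • a)`. -/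
def indρ (φ : H →* G) (V : Subgroup G) (A : Rep.{0, 0, 0} k H) :
    Representation k H ((G ⧸ V) →₀ A) where
  toFun h := (Finsupp.lmapDomain A k (fun x : G ⧸ V => φ h • x)).comp
    (Finsupp.mapRange.linearMap (A.ρ h))
  map_one' := by
    ext x a : 2
    simp
  map_mul' h h' := by
    ext x a : 2
    simp [mul_smul]

@[simp] lemma indρ_single (φ : H →* G) (V : Subgroup G) (A : Rep.{0, 0, 0} k H) (h : H)
    (x : G ⧸ V) (a : A) :
    indρ φ V A h (Finsupp.single x a) = Finsupp.single (φ h • x) (A.ρ h a) := by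
  simp [indρ]

/-- `Ind_V A = (G ⧸ V →₀ A)` as a representation of `H` (`H` acts on `G ⧸ V` through `φ`). -/
def ind (φ : H →* G) (V : Subgroup G) (A : Rep.{0, 0, 0} k H) : Rep.{0, 0, 0} k H :=
  Rep.of (indρ φ V A)

/-- Global induced module: `Ind_V A` for `A : Rep k G`. -/
abbrev indG (V : Subgroup G) (A : Rep.{0, 0, 0} k G) : Rep.{0, 0, 0} k G :=
  ind (MonoidHom.id G) V A

/-- The augmentation `Ind_V A → A`, `x ⊗ a ↦ a`. -/
def aug (φ : H →* G) (V : Subgroup G) (A : Rep.{0, 0, 0} k H) : ind φ V A →ₗ[k] A :=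
  Finsupp.lsum k (fun _ : G ⧸ V => (LinearMap.id : A →ₗ[k] A))

/-- The transition map `Ind_U A → Ind_V A` for `U ≤ V`. -/
def indProj (φ : H →* G) {U V : Subgroup G} (h : U ≤ V) (A : Rep.{0, 0, 0} k H) :
    ind φ U A →ₗ[k] ind φ V A :=
  Finsupp.lmapDomain A k (Quotient.map' id fun a b hab => by
    rw [QuotientGroup.leftRel_apply] at hab ⊢
    exact h hab)

/-- Functoriality in the coefficients. -/
def indMap (φ : H →* G) (V : Subgroup G) {A B : Rep.{0, 0, 0} k H} (f : A →ₗ[k] B) :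
    ind φ V A →ₗ[k] ind φ V B :=
  Finsupp.mapRange.linearMap f

end Ind

/-! ### 3. `S`-units, Kummer maps, local maps -/

section SUnits

variable (S : Finset Nat.Primes)

/-- A valuation subring of `ℚ̄` is *outside `S`* if it lies over no prime of `S`
(this includes the trivial valuation subring). -/
def OutsideS (A : ValuationSubring Qbar) : Prop := ∀ q ∈ S, ¬ A.LiesOverPrime ((q : Nat.Primes) : ℕ)

/-- `x ∈ ℚ̄ˣ` is an `S`-unit: a unit of every valuation subring of `ℚ̄` outside `S`. -/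
def IsSUnit (x : Qbarˣ) : Prop :=
  ∀ A : ValuationSubring Qbar, OutsideS S A → (x : Qbar) ∈ A ∧ ((x⁻¹ : Qbarˣ) : Qbar) ∈ A

variable {S}

lemma OutsideS.smul {A : ValuationSubring Qbar} (hA : OutsideS S A) (σ : _root_.Fermat.Agent.S55.PT.GQ) :
    OutsideS S (σ • A) := by
  intro q hq h
  apply hA q hq
  have := liesOverPrime_smul (σ • A) σ⁻¹ (q : ℕ) h
  rwa [inv_smul_smul] at this

lemma IsSUnit.smul {x : Qbarˣ} (hx : IsSUnit S x) (σ : _root_.Fermat.Agent.S55.PT.GQ) : IsSUnit S (σ • x) := by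
  intro A hA
  have h := hx (σ⁻¹ • A) (hA.smul σ⁻¹)
  have key : ∀ y : Qbar, y ∈ σ⁻¹ • A → σ y ∈ A := by
    intro y hy
    rw [ValuationSubring.mem_pointwise_smul_iff_inv_smul_mem, inv_inv] at hy
    exact hy
  refine ⟨key _ h.1, ?_⟩
  have := key _ h.2
  simpa using this

variable (S)

/-- The `S`-units, as a `ℤ`-submodule of `Additive ℚ̄ˣ`. -/
def sUnitsSub : Submodule ℤ (Additive Qbarˣ) where
  carrier := {x | IsSUnit S x.toMul}
  add_mem' := by
    intro a b ha hb A hA
    obtain ⟨h1, h2⟩ := ha A hA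
    obtain ⟨h3, h4⟩ := hb A hA
    refine ⟨?_, ?_⟩
    · simpa using A.mul_mem _ _ h1 h3
    · simpa [mul_comm] using A.mul_mem _ _ h2 h4
  zero_mem' := by
    intro A _
    simp
  smul_mem' := by
    intro n a ha
    have hneg : ∀ b : Additive Qbarˣ, IsSUnit S b.toMul → IsSUnit S (-b).toMul := by
      intro b hb A hA
      obtain ⟨h1, h2⟩ := hb A hA
      exact ⟨by simpa using h2, by simpa using h1⟩
    have hnat : ∀ m : ℕ, IsSUnit S (m • a).toMul := by
      intro m A hA
      obtain ⟨h1, h2⟩ := ha A hA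
      refine ⟨?_, ?_⟩
      · simpa using pow_mem h1 m
      · simpa using pow_mem h2 m
    obtain ⟨m, rfl | rfl⟩ := Int.eq_nat_or_neg n
    · simpa using hnat m
    · simpa using hneg _ (hnat m)

/-- `𝔼 = 𝒪_S(ℚ̄)ˣ`, the `S`-units of `ℚ̄`, as a representation of `G_ℚ`. -/
def sUnits : Rep.{0, 0, 0} ℤ _root_.Fermat.Agent.S55.PT.GQ :=
  Rep.of ((Representation.ofMulDistribMulAction _root_.Fermat.Agent.S55.PT.GQ Qbarˣ).subrepresentation (sUnitsSub S)
    (fun σ _ hx => IsSUnit.smul hx σ))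

/-- The inclusion `𝔼 → ℚ̄ˣ`. -/
def sUnitsIncl : sUnits S →ₗ[ℤ] Tow.unitsQbar := (sUnitsSub S).subtype

end SUnits

section Kummer

variable (p : ℕ) [Fact p.Prime] (S : Finset Nat.Primes)

lemma isSUnit_of_pow_eq_one {x : Qbarˣ} {n : ℕ} (hn : n ≠ 0) (hx : x ^ n = 1) : IsSUnit S x := by
  intro A _
  have h1 : A.valuation (x : Qbar) ^ n = 1 := by
    rw [← map_pow, ← Units.val_pow_eq_pow_val, hx, Units.val_one, map_one]
  have h2 : A.valuation (x : Qbar) = 1 := (pow_eq_one_iff_of_nonneg zero_le hn).1 h1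
  have h3 : A.valuation ((x⁻¹ : Qbarˣ) : Qbar) = 1 := by
    rw [Units.val_inv_eq_inv_val, map_inv₀, h2, inv_one]
  exact ⟨(A.valuation_le_one_iff _).1 h2.le, (A.valuation_le_one_iff _).1 h3.le⟩

/-- The inclusion `μ_p → 𝔼` (additive; `μ_p` is an `𝔽_p`-module, `𝔼` a `ℤ`-module). -/
def muToE : Bridge.muP p →+ sUnits S where
  toFun x := ⟨Additive.ofMul ((Bridge.MuP.root (p := p) x : rootsOfUnity p Qbar) : Qbarˣ),
    isSUnit_of_pow_eq_one S (Fact.out : p.Prime).ne_zero
      ((mem_rootsOfUnity p _).1 (Bridge.MuP.root (p := p) x).2)⟩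
  map_zero' := rfl
  map_add' _ _ := rfl

lemma muToE_injective : Function.Injective (muToE p S) := by
  intro x y h
  have h1 : ((Bridge.MuP.root (p := p) x : rootsOfUnity p Qbar) : Qbarˣ)
      = ((Bridge.MuP.root (p := p) y : rootsOfUnity p Qbar) : Qbarˣ) :=
    congrArg (fun z : sUnits S => Additive.toMul (sUnitsIncl S z)) h
  exact Bridge.MuP.root_injective (Subtype.ext h1)

end Kummer

section Local

variable (q : Nat.Primes)

/-- The map `ℚ̄ˣ → ℚ̄_qˣ` induced by the Prelude's `padicEmbedding`. -/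
def locUnitsMap : Tow.unitsQbar →ₗ[ℤ] Tow.unitsQpbar q :=
  letI : Fact (q : ℕ).Prime := ⟨q.2⟩
  (MonoidHom.toAdditive (Units.map (padicEmbedding (q : ℕ)).toRingHom.toMonoidHom)).toIntLinearMap

/-- `𝔼 → ℚ̄_qˣ`. -/
def locE (S : Finset Nat.Primes) : sUnits S →ₗ[ℤ] Tow.unitsQpbar q :=
  (locUnitsMap q).comp (sUnitsIncl S)

/-- `Ind_V 𝔼 → Ind_V ℚ̄_qˣ` (equivariant along `G_{ℚ_q} → G_ℚ`). -/
def indLocE (S : Finset Nat.Primes) (V : Subgroup _root_.Fermat.Agent.S55.PT.GQ) :
    indG V (sUnits S) →ₗ[ℤ] ind (rl q) V (Tow.unitsQpbar q) :=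
  Finsupp.mapRange.linearMap (locE q S)

end Local

section IndKummer

variable (p : ℕ) [Fact p.Prime] (S : Finset Nat.Primes)

/-- `Ind_V μ_p → Ind_V 𝔼`. -/
def indMuToE (V : Subgroup _root_.Fermat.Agent.S55.PT.GQ) : indG V (muP p) →+ indG V (sUnits S) :=
  Finsupp.mapRange.addMonoidHom (muToE p S)

end IndKummer


end Fermat.Agent.S55.K

end

end
-- ===== PACK-END S55/K/Defs.lean

-- ===== PACK-BEGIN S55/KL/SpecLocal.lean
section




/-!
# S55, layer KL (local Kummer bridge): the local instantiation of the abstract machine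

`Γ = Gal(Ω/K)` for a Galois extension `Ω/K` (in the application `K = ℚ_q`, `Ω = PadicAlgCl q`),
levels `galLevels K Ω`, module `A = Ωˣ = Rep.ofAlgebraAutOnUnits K Ω : Rep ℤ Γ`.

Interface statements only (Spec pattern, no `sorry`).  Architect: helper183.
Blueprint: `coord/S55-KL.md` on `origin/helper183`.
-/

set_option autoImplicit false

open CategoryTheory groupCohomology

namespace Fermat.Agent.S55.KL

/-! ## Vocabulary -/

/-- `Ωˣ` as a `Gal(Ω/K)`-module. -/
noncomputable abbrev unitsOm (K Ω : Type) [Field K] [Field Ω] [Algebra K Ω] :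
    Rep.{0} ℤ (Ω ≃ₐ[K] Ω) :=
  Rep.ofAlgebraAutOnUnits K Ω

/-- The compositum `E·E'` as an extension of `E`. -/
abbrev compositumOver {K Ω : Type} [Field K] [Field Ω] [Algebra K Ω]
    (E E' : IntermediateField K Ω) : IntermediateField ↥E Ω :=
  IntermediateField.extendScalars (le_sup_left : E ≤ E ⊔ E')

/-! ## Formal leaves (any Galois extension `Ω/K`) -/

/-- **KL-SM.**  `Ωˣ` is smooth. -/
def UnitsSmoothSpec : Prop :=
  ∀ (K Ω : Type) [Field K] [Field Ω] [Algebra K Ω] [IsGalois K Ω],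
    IsSmooth (galLevels K Ω) (unitsOm K Ω)

/-- **KL-DIV.**  `Ωˣ` is `p`-divisible if `Ω` is algebraically closed. -/
def UnitsDivSpec : Prop :=
  ∀ (K Ω : Type) [Field K] [Field Ω] [Algebra K Ω] [IsAlgClosed Ω] (p : ℕ), 0 < p →
    IsDivisibleBy (unitsOm K Ω) p

/-- **KL-MU.**  `μ_p(Ω)` has order `p` if `Ω` is algebraically closed of characteristic zero. -/
def UnitsTorsSpec : Prop :=
  ∀ (K Ω : Type) [Field K] [Field Ω] [Algebra K Ω] [IsAlgClosed Ω] [CharZero Ω] (p : ℕ),
    p.Prime → Nat.card (tors (unitsOm K Ω) p).V = p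

/-- **KL-OPEN.**  The open subgroups of `Gal(Ω/K)` are the `Gal(Ω/E)`, `E/K` finite. -/
def OpenSubgroupSpec : Prop :=
  ∀ (K Ω : Type) [Field K] [Field Ω] [Algebra K Ω] [IsGalois K Ω] (U : Subgroup (Ω ≃ₐ[K] Ω)),
    (galLevels K Ω).IsOpen U ↔
      ∃ E : IntermediateField K Ω, FiniteDimensional K E ∧ U = E.fixingSubgroup

/-- **KL-TR** (transport).  For `U = Gal(Ω/E)` and the level `V = Gal(Ω/E')` (`E'/K` finite
Galois): `M = E·E'` is finite Galois over `E`, `U/(V ∩ U) ≅ Gal(M/E)` has order `[M : E]`, and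
`Hⁿ(U/(V ∩ U), (Ωˣ)^{V ∩ U}) ≅ Hⁿ(Gal(M/E), Mˣ)` for all `n`. -/
def TransportSpec : Prop :=
  ∀ (K Ω : Type) [Field K] [Field Ω] [Algebra K Ω] [IsGalois K Ω]
    (E : IntermediateField K Ω) (E' : FiniteGaloisIntermediateField K Ω),
    FiniteDimensional ↥E ↥(compositumOver E E'.toIntermediateField) ∧
    IsGalois ↥E ↥(compositumOver E E'.toIntermediateField) ∧
    Nat.card (↥E.fixingSubgroup ⧸ (galLvl K Ω E').W.subgroupOf E.fixingSubgroup) =
      Module.finrank ↥E ↥(compositumOver E E'.toIntermediateField) ∧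
    ∀ n : ℕ, Nonempty
      (HL (Rep.res E.fixingSubgroup.subtype (unitsOm K Ω))
          ((galLvl K Ω E').W.subgroupOf E.fixingSubgroup) n ≅
        groupCohomology
          (Rep.ofAlgebraAutOnUnits ↥E ↥(compositumOver E E'.toIntermediateField)) n)

/-! ## Arithmetic leaves: `K = ℚ_q`, `Ω = PadicAlgCl q` -/

/-- **KL-H1** (Hilbert 90 at every level of every open subgroup). -/
def LocalH1Spec : Prop :=
  ∀ (q : ℕ) [Fact q.Prime] (U : Subgroup (PadicAlgCl q ≃ₐ[ℚ_[q]] PadicAlgCl q)),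
    (galLevels ℚ_[q] (PadicAlgCl q)).IsOpen U →
    ∀ V : ((galLevels ℚ_[q] (PadicAlgCl q)).restrict U).Lvl,
      Subsingleton (HL (Rep.res U.subtype (unitsOm ℚ_[q] (PadicAlgCl q))) V.W 1)

/-- **KL-H2** (`H²(U/V, (Ωˣ)^V)` is cyclic of order `[U : V]`). -/
def LocalH2Spec : Prop :=
  ∀ (q : ℕ) [Fact q.Prime] (U : Subgroup (PadicAlgCl q ≃ₐ[ℚ_[q]] PadicAlgCl q)),
    (galLevels ℚ_[q] (PadicAlgCl q)).IsOpen U →
    ∀ V : ((galLevels ℚ_[q] (PadicAlgCl q)).restrict U).Lvl,
      Nonempty (HL (Rep.res U.subtype (unitsOm ℚ_[q] (PadicAlgCl q))) V.W 2 ≃+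
        ZMod (Nat.card (↥U ⧸ V.W)))

/-- **KL-H3** (Tate: `H³(U/V, (Ωˣ)^V) = 0`). -/
def LocalH3Spec : Prop :=
  ∀ (q : ℕ) [Fact q.Prime] (U : Subgroup (PadicAlgCl q ≃ₐ[ℚ_[q]] PadicAlgCl q)),
    (galLevels ℚ_[q] (PadicAlgCl q)).IsOpen U →
    ∀ V : ((galLevels ℚ_[q] (PadicAlgCl q)).restrict U).Lvl,
      Subsingleton (HL (Rep.res U.subtype (unitsOm ℚ_[q] (PadicAlgCl q))) V.W 3)

/-- **KL-DEG** (degrees are unbounded at `p`): below every level there is a level `V'` such that
`p · [U : V]` divides `[U : V']`. -/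
def LocalDegreeSpec : Prop :=
  ∀ (q : ℕ) [Fact q.Prime] (p : ℕ), p.Prime →
    ∀ U : Subgroup (PadicAlgCl q ≃ₐ[ℚ_[q]] PadicAlgCl q),
    (galLevels ℚ_[q] (PadicAlgCl q)).IsOpen U →
    ∀ V : ((galLevels ℚ_[q] (PadicAlgCl q)).restrict U).Lvl,
      ∃ V' : ((galLevels ℚ_[q] (PadicAlgCl q)).restrict U).Lvl, V'.W ≤ V.W ∧
        p * Nat.card (↥U ⧸ V.W) ∣ Nat.card (↥U ⧸ V'.W)

/-- **KL-FIN** (`Eˣ/(Eˣ)^p` is finite for every finite extension `E/ℚ_q`; from L-LPI). -/
def LocalPowFiniteSpec : Prop :=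
  ∀ (q : ℕ) [Fact q.Prime] (p : ℕ), p.Prime →
    PowFinite (galLevels ℚ_[q] (PadicAlgCl q)) (unitsOm ℚ_[q] (PadicAlgCl q)) p

/-- **KL-NE** (the Brauer group of an open subgroup has non-effaceable `p`-torsion). -/
def LocalNonEffSpec : Prop :=
  ∀ (q : ℕ) [Fact q.Prime] (p : ℕ), p.Prime →
    ∀ U : Subgroup (PadicAlgCl q ≃ₐ[ℚ_[q]] PadicAlgCl q),
    (galLevels ℚ_[q] (PadicAlgCl q)).IsOpen U →
    ∃ (V : ((galLevels ℚ_[q] (PadicAlgCl q)).restrict U).Lvl)
      (x : HL (Rep.res U.subtype (unitsOm ℚ_[q] (PadicAlgCl q))) V.W 2),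
      p • x = 0 ∧
        ¬ IsEff ((galLevels ℚ_[q] (PadicAlgCl q)).restrict U)
          (Rep.res U.subtype (unitsOm ℚ_[q] (PadicAlgCl q))) 2 V x

/-- **KL-HYP** (goal of the local instantiation): the hypotheses of the abstract machine hold for
`(Gal(ℚ̄_q/ℚ_q), ℚ̄_qˣ, p)`. -/
def LocalKummerHypSpec : Prop :=
  ∀ (q : ℕ) [Fact q.Prime] (p : ℕ), p.Prime →
    KummerHyp (galLevels ℚ_[q] (PadicAlgCl q)) (unitsOm ℚ_[q] (PadicAlgCl q)) p

/-- **KL-CD** (goal): `cd_p(Gal(ℚ̄_q/ℚ_q)) ≤ 2` in finite-level form, coefficients over `ZMod p`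
(and over `ℤ`). -/
def LocalCdSpec : Prop :=
  ∀ (q : ℕ) [Fact q.Prime] (p : ℕ), p.Prime →
    CdLeTwo (galLevels ℚ_[q] (PadicAlgCl q)) ℤ p ∧
      CdLeTwo (galLevels ℚ_[q] (PadicAlgCl q)) (ZMod p) p

/-- **KL-A4** (goal = input A4 of layer D, elementwise): `H²` is right exact on level-constant
cohomology of `Gal(ℚ̄_q/ℚ_q)` with finite `𝔽_p`-coefficients. -/
def LocalSurjH2Spec : Prop :=
  ∀ (q : ℕ) [Fact q.Prime] (p : ℕ), p.Prime →
    ∀ (P Q : Rep.{0} (ZMod p) (PadicAlgCl q ≃ₐ[ℚ_[q]] PadicAlgCl q)) (φ : P ⟶ Q),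
      Function.Surjective φ.hom → Finite P.V → IsSmooth (galLevels ℚ_[q] (PadicAlgCl q)) P →
      ∀ c ∈ cocycles₂ Q, IsLC₂ (galLevels ℚ_[q] (PadicAlgCl q)) c →
        ∃ c' ∈ cocycles₂ P, IsLC₂ (galLevels ℚ_[q] (PadicAlgCl q)) c' ∧
          ∃ b : (PadicAlgCl q ≃ₐ[ℚ_[q]] PadicAlgCl q) → Q.V,
            IsLC₁ (galLevels ℚ_[q] (PadicAlgCl q)) b ∧
              ∀ g h, φ.hom (c' (g, h)) = c (g, h) + (d₁₂ Q).hom b (g, h)

/-- **KL-A2** (goal = input A2 of layer D, elementwise): the level-constant `H¹` of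
`Gal(ℚ̄_q/ℚ_q)` with finite `𝔽_p`-coefficients is finite. -/
def LocalFinH1Spec : Prop :=
  ∀ (q : ℕ) [Fact q.Prime] (p : ℕ), p.Prime →
    ∀ R : Rep.{0} (ZMod p) (PadicAlgCl q ≃ₐ[ℚ_[q]] PadicAlgCl q), Finite R.V →
      IsSmooth (galLevels ℚ_[q] (PadicAlgCl q)) R → FinLC₁ (galLevels ℚ_[q] (PadicAlgCl q)) R

/-- **KL-A5** (goal = inputs A5/A6 of layer D, elementwise): for every open subgroup `U` of
`Gal(ℚ̄_q/ℚ_q)`, `dim H²_LC(U, μ_p) ≤ 1`; and `H²_LC(U, μ_p) ≠ 0`. -/
def LocalDimH2Spec : Prop :=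
  ∀ (q : ℕ) [Fact q.Prime] (p : ℕ), p.Prime →
    ∀ U : Subgroup (PadicAlgCl q ≃ₐ[ℚ_[q]] PadicAlgCl q),
    (galLevels ℚ_[q] (PadicAlgCl q)).IsOpen U →
      DimLC₂Le ((galLevels ℚ_[q] (PadicAlgCl q)).restrict U)
          (tors (Rep.res U.subtype (unitsOm ℚ_[q] (PadicAlgCl q))) p) p ∧
        DimLC₂Ge ((galLevels ℚ_[q] (PadicAlgCl q)).restrict U)
          (tors (Rep.res U.subtype (unitsOm ℚ_[q] (PadicAlgCl q))) p)

end Fermat.Agent.S55.KL

end
-- ===== PACK-END S55/KL/SpecLocal.lean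

-- ===== PACK-BEGIN S55/KL/H289/PFunct.lean
section


/-!
# S55, layer KB, leaf KB-KUM3 (helper289), part 2: functoriality

* general lemmas on `groupCohomology.map` (`map_tri`, `map_sq`, `map_nsmul_id`, `nsmul_eq_zero`);
* functoriality of `pImg`, `pCok` in `(f, φ)`.
-/

set_option autoImplicit false
set_option linter.style.haveILetI false

open CategoryTheory groupCohomology

namespace Fermat.Agent.S55.KL.H289

open Fermat.Agent.S55.KL

variable {k : Type} [CommRing k]

section General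

/-- Composition of `groupCohomology.map`s, in "triangle" form. -/
lemma map_tri {G H K : Type} [Group G] [Group H] [Group K]
    {A : Rep.{0} k K} {B : Rep.{0} k H} {C : Rep.{0} k G} (f : H →* K) (g : G →* H)
    (e : G →* K) (φ : Rep.res f A ⟶ B) (ψ : Rep.res g B ⟶ C) (χ : Rep.res e A ⟶ C)
    (hfg : f.comp g = e) (h : ∀ a : A.V, ψ.hom (φ.hom a) = χ.hom a) (n : ℕ) :
    groupCohomology.map f φ n ≫ groupCohomology.map g ψ n = groupCohomology.map e χ n := by
  rw [← groupCohomology.map_comp]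
  exact groupCohomology.map_congr hfg (LinearMap.ext h) n

/-- Composition of `groupCohomology.map`s, in "square" form. -/
lemma map_sq {G H₁ H₂ K : Type} [Group G] [Group H₁] [Group H₂] [Group K]
    {A : Rep.{0} k K} {B₁ : Rep.{0} k H₁} {B₂ : Rep.{0} k H₂} {C : Rep.{0} k G}
    (f₁ : H₁ →* K) (g₁ : G →* H₁) (f₂ : H₂ →* K) (g₂ : G →* H₂)
    (φ₁ : Rep.res f₁ A ⟶ B₁) (ψ₁ : Rep.res g₁ B₁ ⟶ C)
    (φ₂ : Rep.res f₂ A ⟶ B₂) (ψ₂ : Rep.res g₂ B₂ ⟶ C)
    (hfg : f₁.comp g₁ = f₂.comp g₂)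
    (h : ∀ a : A.V, ψ₁.hom (φ₁.hom a) = ψ₂.hom (φ₂.hom a)) (n : ℕ) :
    groupCohomology.map f₁ φ₁ n ≫ groupCohomology.map g₁ ψ₁ n =
      groupCohomology.map f₂ φ₂ n ≫ groupCohomology.map g₂ ψ₂ n := by
  rw [← groupCohomology.map_comp, ← groupCohomology.map_comp]
  exact groupCohomology.map_congr hfg (LinearMap.ext h) n

lemma map_tri_apply {G H K : Type} [Group G] [Group H] [Group K]
    {A : Rep.{0} k K} {B : Rep.{0} k H} {C : Rep.{0} k G} (f : H →* K) (g : G →* H)
    (e : G →* K) (φ : Rep.res f A ⟶ B) (ψ : Rep.res g B ⟶ C) (χ : Rep.res e A ⟶ C)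
    (hfg : f.comp g = e) (h : ∀ a : A.V, ψ.hom (φ.hom a) = χ.hom a) (n : ℕ)
    (x : groupCohomology A n) :
    (groupCohomology.map g ψ n).hom ((groupCohomology.map f φ n).hom x) =
      (groupCohomology.map e χ n).hom x := by
  rw [← map_tri f g e φ ψ χ hfg h n]
  rfl

lemma map_sq_apply {G H₁ H₂ K : Type} [Group G] [Group H₁] [Group H₂] [Group K]
    {A : Rep.{0} k K} {B₁ : Rep.{0} k H₁} {B₂ : Rep.{0} k H₂} {C : Rep.{0} k G}
    (f₁ : H₁ →* K) (g₁ : G →* H₁) (f₂ : H₂ →* K) (g₂ : G →* H₂)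
    (φ₁ : Rep.res f₁ A ⟶ B₁) (ψ₁ : Rep.res g₁ B₁ ⟶ C)
    (φ₂ : Rep.res f₂ A ⟶ B₂) (ψ₂ : Rep.res g₂ B₂ ⟶ C)
    (hfg : f₁.comp g₁ = f₂.comp g₂)
    (h : ∀ a : A.V, ψ₁.hom (φ₁.hom a) = ψ₂.hom (φ₂.hom a)) (n : ℕ)
    (x : groupCohomology A n) :
    (groupCohomology.map g₁ ψ₁ n).hom ((groupCohomology.map f₁ φ₁ n).hom x) =
      (groupCohomology.map g₂ ψ₂ n).hom ((groupCohomology.map f₂ φ₂ n).hom x) := by
  have := map_sq f₁ g₁ f₂ g₂ φ₁ ψ₁ φ₂ ψ₂ hfg h n
  exact congrArg (fun F => F.hom x) this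

variable {G : Type} [Group G]

lemma map_id_add {A B : Rep.{0} k G} (φ ψ : A ⟶ B) (n : ℕ) :
    groupCohomology.map (MonoidHom.id G) (φ + ψ) n =
      groupCohomology.map (MonoidHom.id G) φ n + groupCohomology.map (MonoidHom.id G) ψ n := by
  have h : cochainsMap (MonoidHom.id G) (φ + ψ) =
      cochainsMap (MonoidHom.id G) φ + cochainsMap (MonoidHom.id G) ψ :=
    (cochainsFunctor k G).map_add
  change HomologicalComplex.homologyMap (cochainsMap (MonoidHom.id G) (φ + ψ)) n = _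
  rw [h, HomologicalComplex.homologyMap_add]
  rfl

lemma map_id_zero (A B : Rep.{0} k G) (n : ℕ) :
    groupCohomology.map (MonoidHom.id G) (0 : A ⟶ B) n = 0 :=
  (groupCohomology.functor k G n).map_zero A B

lemma map_id_nsmul {A B : Rep.{0} k G} (φ : A ⟶ B) (m n : ℕ) :
    groupCohomology.map (MonoidHom.id G) (m • φ) n =
      m • groupCohomology.map (MonoidHom.id G) φ n := by
  induction m with
  | zero => rw [zero_smul, zero_smul, map_id_zero]
  | succ m ih => rw [succ_nsmul, succ_nsmul, map_id_add, ih]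

/-- Multiplication by `m` on coefficients is multiplication by `m` on cohomology. -/
lemma map_id_nsmul_id_apply (A : Rep.{0} k G) (m n : ℕ) (x : groupCohomology A n) :
    (groupCohomology.map (MonoidHom.id G) (m • 𝟙 A) n).hom x = m • x := by
  rw [map_id_nsmul, groupCohomology.map_id]
  rfl

/-- If `m` kills `A`, it kills the cohomology of `A`. -/
lemma nsmul_eq_zero_of_kills (A : Rep.{0} k G) (m n : ℕ) (hA : ∀ a : A.V, m • a = 0)
    (x : groupCohomology A n) : m • x = 0 := by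
  rw [← map_id_nsmul_id_apply]
  have h0 : (m • 𝟙 A : A ⟶ A) = 0 := by
    apply Rep.hom_ext
    apply DFunLike.ext
    intro a
    exact hA a
  rw [h0, map_id_zero]
  rfl

end General

section Funct

variable {G G' : Type} [Group G] [Group G']

/-- Functoriality of `p • B`. -/
noncomputable def pImgMap {B : Rep.{0} k G} {B' : Rep.{0} k G'} (f : G' →* G)
    (φ : Rep.res f B ⟶ B') (p : ℕ) : Rep.res f (pImg B p) ⟶ pImg B' p :=
  Rep.ofHom ⟨
    { toFun := fun x => (⟨φ.hom (show ↥(pSub B p) from x).1, by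
          obtain ⟨c, hc⟩ := (show ↥(pSub B p) from x).2
          exact ⟨φ.hom c, by rw [← hc]; exact (map_nsmul φ.hom p c).symm⟩⟩ : ↥(pSub B' p))
      map_add' := fun x y => Subtype.ext (map_add φ.hom _ _)
      map_smul' := fun r x => Subtype.ext (map_smul φ.hom _ _) },
    fun g => by
      ext x
      exact Rep.hom_comm_apply φ g (show ↥(pSub B p) from x).1⟩

lemma pImgMap_apply_coe {B : Rep.{0} k G} {B' : Rep.{0} k G'} (f : G' →* G)
    (φ : Rep.res f B ⟶ B') (p : ℕ) (x : (pImg B p).V) :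
    (show ↥(pSub B' p) from (pImgMap f φ p).hom x).1 = φ.hom (show ↥(pSub B p) from x).1 := rfl

/-- Functoriality of `B ⧸ p • B`. -/
noncomputable def pCokMap {B : Rep.{0} k G} {B' : Rep.{0} k G'} (f : G' →* G)
    (φ : Rep.res f B ⟶ B') (p : ℕ) : Rep.res f (pCok B p) ⟶ pCok B' p :=
  Rep.ofHom ⟨(pSub B p).mapQ (pSub B' p) φ.hom.toLinearMap (by
      rintro _ ⟨c, rfl⟩
      exact ⟨φ.hom c, (map_nsmul φ.hom p c).symm⟩),
    fun g => by
      apply LinearMap.ext
      intro x
      obtain ⟨b, rfl⟩ := Submodule.Quotient.mk_surjective (pSub B p) x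
      exact congrArg (Submodule.Quotient.mk (p := pSub B' p)) (Rep.hom_comm_apply φ g b)⟩

lemma pCokMap_pProj {B : Rep.{0} k G} {B' : Rep.{0} k G'} (f : G' →* G)
    (φ : Rep.res f B ⟶ B') (p : ℕ) (b : B.V) :
    (pCokMap f φ p).hom ((pProj B p).hom b) = (pProj B' p).hom (φ.hom b) := rfl

lemma pImgMap_pMul {B : Rep.{0} k G} {B' : Rep.{0} k G'} (f : G' →* G)
    (φ : Rep.res f B ⟶ B') (p : ℕ) (b : B.V) :
    (pImgMap f φ p).hom ((pMul B p).hom b) = (pMul B' p).hom (φ.hom b) :=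
  Subtype.ext (map_nsmul φ.hom p b)

lemma pIncl_pImgMap {B : Rep.{0} k G} {B' : Rep.{0} k G'} (f : G' →* G)
    (φ : Rep.res f B ⟶ B') (p : ℕ) (x : (pImg B p).V) :
    (pIncl B' p).hom ((pImgMap f φ p).hom x) = φ.hom ((pIncl B p).hom x) := rfl

end Funct

end Fermat.Agent.S55.KL.H289

end
-- ===== PACK-END S55/KL/H289/PFunct.lean

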