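import Mathlib
import Fermat.Agent.Pack.S56.E9L3
import Fermat.Agent.Pack.S56.E5L2
import Fermat.Agent.Pack.S56.E9L2
import Fermat.Agent.Pack.S56.E0L2
import Fermat.Agent.Pack.S56.E0L3
import Fermat.Agent.Pack.S56.E9L0
import Fermat.Agent.Pack.S56.E9L1
import Fermat.Agent.Pack.S56.E3L3
import Fermat.Agent.Pack.S56.E10L3
import Fermat.Agent.Pack.S56.E1L1
import Fermat.Agent.Pack.S56.E8L0
import Fermat.Agent.Pack.S56.E8L2
import Fermat.Agent.Pack.S56.E5L3
import Fermat.Agent.Pack.S56.E4L3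
import Fermat.Agent.Pack.S56.E8L1
import Fermat.Agent.Pack.S56.E6L3

-- ===== PACK-BEGIN S56/H716/SBSpec.lean
section


/-!
# Row S56 — SELBOUND, layer 2: FROZEN statements (deputy helper716)

`SELBOUND(cond)  ⇐  LOC(cond) + GW-WALL`,     `LOC(cond)  ⇐  LOC-MIN + LOC-P(cond)`
(glue: `H716/SBGlue.lean`, proved).

`M = ad⁰ρ̄`, `D_P` = decomposition group of the place `P`, `h⁰(D_P) = dim H⁰(D_P, M)`.

## Local leaves (elementary; one place at a time)

`LocalBoundAt ρbar P Ty d`: there is a `k`-space `Λ` of functions, `dim Λ ≤ h⁰(D_P) + d`, such that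
every ad⁰-cocycle `c` having a lift of local type `Ty` is, on `D_P`, cohomologous to an element of `Λ`.

* `LocMinStatement`   (LOC-MIN): `v ∈ Smin`, `v ≠ p`, type "unipotent on inertia at `v`": `d = 0`.
  (`ρ̄` is ramified at `v`, inertia image cyclic ⇒ class trivial on inertia ⇒ `H¹_ur`, `dim = h⁰`.)
* `LocOrdPStatement`  (LOC-SO): at `p`, type "strictly ordinary, det cyclotomic": `d = 1`.
  (quotient character rigid since `z² = 1`; classes come from `H¹(D_P, k(1))`, Kummer `dim = 2`.)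
* `LocFlatPStatement` (LOC-FLAT): at `p`, type "flat, det cyclotomic": `d = 1`.
  (ordinary case: connected–étale sequence; supersingular case: Fontaine's different bound.)

## The wall

* `GWWallStatement` (GW-WALL = Greenberg–Wiles/Poitou–Tate inequality, pure Galois cohomology of
  `M` and `M' = M(1)`; no deformation theory): for a suitable choice `Pl` of places over `Smin`,
  whenever spaces `Λ v` (`v ∈ Smin`) with `dim Λ v ≤ h⁰(D_{Pl v}) + δ v`, `∑ δ v ≤ 1` are given,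
  there is a dual Selmer frame `D` such that for every set `Q` of Taylor–Wiles primes killing `D`
  the Selmer cocycles of `(Λ, Q)` span, modulo coboundaries, a space of dimension `≤ #Q`.
  (Wiles' formula: `h¹_L(M) − h¹_{L^⊥}(M') = h⁰(M) − h⁰(M') + ∑_v (dim L_v − h⁰(D_v, M))`, with
  `h⁰(G_ℚ, M) = h⁰(G_ℚ, M') = 0`, the term `−1` at `∞` (`ρ̄` odd), `+1` at every `q ∈ Q`, `≤ δ v` at
  `v ∈ Smin`, `0` elsewhere; `D` = cocycle representatives of `H¹_{L^⊥}(G_ℚ, M')`.)

Nothing unproved in this file.  Plan: `coord/S56-TB.md` on `origin/main`.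
-/

set_option autoImplicit false

open Polynomial IsLocalRing

noncomputable section

namespace Fermat.Agent.S56.H716

open Fermat.Agent.S56

section

variable {k : Type} [Field k] (ρbar : ResidualGaloisRep k)

/-- The numerical hypotheses on the local spaces `Λ v`, `v ∈ Smin`:
`dim Λ v ≤ h⁰(D_{Pl v}, ad⁰ρ̄) + δ v` and `∑_{v ∈ Smin} δ v ≤ 1`. -/
def LocBounds (Pl : ℕ → ValuationSubring Qb)
    (Λ : ℕ → Submodule k (GQ → Module.End k ρbar.V)) (δ : ℕ → ℕ) (Smin : Finset ℕ) : Prop :=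
  (∀ v ∈ Smin, Module.Finite k (Λ v) ∧
    Module.finrank k (Λ v) ≤
      Module.finrank k (adInv ρbar ((Pl v).decompositionSubgroup ℚ)) + δ v) ∧
  ∑ v ∈ Smin, δ v ≤ 1

/-- Local tangent bound at the place `P` for the local lifting type `Ty`, with defect `d`. -/
def LocalBoundAt (P : ValuationSubring Qb) (Ty : GaloisRepAdic (DualNumber k) → Prop)
    (d : ℕ) : Prop :=
  ∃ Λ : Submodule k (GQ → Module.End k ρbar.V), Module.Finite k Λ ∧
    Module.finrank k Λ ≤ Module.finrank k (adInv ρbar (P.decompositionSubgroup ℚ)) + d ∧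
    ∀ c : GQ → Module.End k ρbar.V, IsAdCocycle ρbar c →
      (∃ ρ' : GaloisRepAdic (DualNumber k), IsLiftOf ρbar c ρ' ∧ Ty ρ') →
      ∃ t ∈ Λ, IsAdCoboundaryOn ρbar (P.decompositionSubgroup ℚ) (c - t)

end

section

variable (𝒪 : Type) [CommRing 𝒪] [IsDomain 𝒪] [IsDiscreteValuationRing 𝒪]
  [IsAdicComplete (maximalIdeal 𝒪) 𝒪]
  (p : ℕ) (ρbar : ResidualGaloisRep (ResidueField 𝒪)) (S Smin : Finset ℕ)

/-- (LOC) for a family of conditions indexed by the auxiliary set `Q`: for every choice of places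
over `Smin` there are local spaces with the right dimensions which capture the tangent cocycles. -/
def Loc (cond : Finset ℕ → DefCond 𝒪) : Prop :=
  ∀ Pl : ℕ → ValuationSubring Qb, (∀ v ∈ Smin, (Pl v).LiesOverPrime v) →
    ∃ (Λ : ℕ → Submodule (ResidueField 𝒪) (GQ → Module.End (ResidueField 𝒪) ρbar.V))
      (δ : ℕ → ℕ), LocBounds ρbar Pl Λ δ Smin ∧
      ∀ Q : Finset ℕ, (∀ q ∈ Q, IsTWPrime ρbar p S q) →
        ∀ c, IsTanCocycle 𝒪 ρbar (cond Q) c → IsSelCocycle ρbar Pl Λ Smin Q c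

/-- (GW-WALL) for one residual representation. -/
def GWWall : Prop :=
  ∃ Pl : ℕ → ValuationSubring Qb, (∀ v ∈ Smin, (Pl v).LiesOverPrime v) ∧
    ∀ (Λ : ℕ → Submodule (ResidueField 𝒪) (GQ → Module.End (ResidueField 𝒪) ρbar.V))
      (δ : ℕ → ℕ), LocBounds ρbar Pl Λ δ Smin →
      ∃ D : Submodule (ResidueField 𝒪) (GQ → Module.End (ResidueField 𝒪) ρbar.V),
        IsDualFrame ρbar p D ∧
        ∀ Q : Finset ℕ, (∀ q ∈ Q, IsTWPrime ρbar p S q) → Kills ρbar p D Q →
          ∃ T : Submodule (ResidueField 𝒪) (GQ → Module.End (ResidueField 𝒪) ρbar.V),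
            Module.Finite (ResidueField 𝒪) T ∧
            Module.finrank (ResidueField 𝒪) T ≤ Q.card ∧
            ∀ c, IsSelCocycle ρbar Pl Λ Smin Q c → ∃ t ∈ T, IsAdCoboundary ρbar (c - t)

end

/-- (LOC-ord). -/
def LocOrdStatement : Prop :=
  ∀ (𝒪 : Type) [CommRing 𝒪] [IsDomain 𝒪] [IsDiscreteValuationRing 𝒪]
    [IsAdicComplete (maximalIdeal 𝒪) 𝒪] [Finite (ResidueField 𝒪)]
    (p : ℕ) (ρbar : ResidualGaloisRep (ResidueField 𝒪)) (S Smin : Finset ℕ),
    Hyp 𝒪 p ρbar S Smin → Loc 𝒪 p ρbar S Smin (ordCond 𝒪 p Smin)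

/-- (LOC-flat). -/
def LocFlatStatement : Prop :=
  ∀ (𝒪 : Type) [CommRing 𝒪] [IsDomain 𝒪] [IsDiscreteValuationRing 𝒪]
    [IsAdicComplete (maximalIdeal 𝒪) 𝒪] [Finite (ResidueField 𝒪)]
    (p : ℕ) (ρbar : ResidualGaloisRep (ResidueField 𝒪)) (S Smin : Finset ℕ),
    Hyp 𝒪 p ρbar S Smin → Loc 𝒪 p ρbar S Smin (flatCond 𝒪 p Smin)

/-- (GW-WALL): the Greenberg–Wiles inequality for `ad⁰ρ̄`. -/
def GWWallStatement : Prop :=
  ∀ (𝒪 : Type) [CommRing 𝒪] [IsDomain 𝒪] [IsDiscreteValuationRing 𝒪]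
    [IsAdicComplete (maximalIdeal 𝒪) 𝒪] [Finite (ResidueField 𝒪)]
    (p : ℕ) (ρbar : ResidualGaloisRep (ResidueField 𝒪)) (S Smin : Finset ℕ),
    Hyp 𝒪 p ρbar S Smin → GWWall 𝒪 p ρbar S Smin

/-- (LOC-MIN): at `v ∈ Smin`, `v ≠ p`, unipotent-on-inertia lifts have classes in a space of
dimension `≤ h⁰(D_P, ad⁰ρ̄)`. -/
def LocMinStatement : Prop :=
  ∀ (𝒪 : Type) [CommRing 𝒪] [IsDomain 𝒪] [IsDiscreteValuationRing 𝒪]
    [IsAdicComplete (maximalIdeal 𝒪) 𝒪] [Finite (ResidueField 𝒪)]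
    (p : ℕ) (ρbar : ResidualGaloisRep (ResidueField 𝒪)) (S Smin : Finset ℕ),
    Hyp 𝒪 p ρbar S Smin → ∀ v ∈ Smin, v ≠ p →
      ∀ P : ValuationSubring Qb, P.LiesOverPrime v →
        LocalBoundAt ρbar P (fun ρ' => ρ'.DetIsCyclotomic p ∧ ρ'.IsUnipotentOnInertiaAt v) 0

/-- (LOC-SO): at `p`, strictly ordinary lifts with cyclotomic determinant have classes in a space
of dimension `≤ h⁰(D_P, ad⁰ρ̄) + 1`. -/
def LocOrdPStatement : Prop :=
  ∀ (𝒪 : Type) [CommRing 𝒪] [IsDomain 𝒪] [IsDiscreteValuationRing 𝒪]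
    [IsAdicComplete (maximalIdeal 𝒪) 𝒪] [Finite (ResidueField 𝒪)]
    (p : ℕ) (ρbar : ResidualGaloisRep (ResidueField 𝒪)) (S Smin : Finset ℕ),
    Hyp 𝒪 p ρbar S Smin →
      ∀ P : ValuationSubring Qb, P.LiesOverPrime p →
        LocalBoundAt ρbar P (fun ρ' => ρ'.DetIsCyclotomic p ∧ ρ'.IsStrictOrdinaryAt p) 1

/-- (LOC-FLAT): at `p`, flat lifts with cyclotomic determinant have classes in a space of
dimension `≤ h⁰(D_P, ad⁰ρ̄) + 1`. -/
def LocFlatPStatement : Prop :=
  ∀ (𝒪 : Type) [CommRing 𝒪] [IsDomain 𝒪] [IsDiscreteValuationRing 𝒪]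
    [IsAdicComplete (maximalIdeal 𝒪) 𝒪] [Finite (ResidueField 𝒪)]
    (p : ℕ) (ρbar : ResidualGaloisRep (ResidueField 𝒪)) (S Smin : Finset ℕ),
    Hyp 𝒪 p ρbar S Smin →
      ∀ P : ValuationSubring Qb, P.LiesOverPrime p →
        LocalBoundAt ρbar P (fun ρ' => ρ'.DetIsCyclotomic p ∧ ρ'.IsFlatAt p) 1

end Fermat.Agent.S56.H716

end

end
-- ===== PACK-END S56/H716/SBSpec.lean

-- ===== PACK-BEGIN S56/H794/LocMinA.lean
section





/-!
# S56 / LOC-MIN-A (helper794): unipotent inertia ⟹ the tangent cocycle is a coboundary on inertia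

`ρbar : ResidualGaloisRep k`, `p = 0` in `k`, `p` odd, `c` an ad⁰-cocycle (`H716.IsAdCocycle`),
`ρ'` a lift of `c` to `k[ε]` (`H716.IsLiftOf`) which is unipotent on inertia at a prime `q ≠ p`,
`P | q` a valuation subring at which `ρbar` is ramified.  Then there is `m` of trace zero with
`c σ = ρ̄(σ) m ρ̄(σ)⁻¹ − m` for all `σ ∈ I_P` (`exists_coboundary_on_inertia_of_unipotent`).

Proof: `σ ↦ (1 + ε c σ) ρ̄ σ` has image of exponent `p` on `I_P` (Cayley–Hamilton), hence cyclic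
image (landed `inertia_image_pow_of_ne_one`), generated by the image of any `τ` with
`ρ̄ τ ≠ 1`; the 2×2 lemma (`Nilp2.lean`) conjugates `(1 + ε c τ) ρ̄ τ` to `ρ̄ τ`.
-/

set_option autoImplicit false

open scoped TensorProduct
open Polynomial

noncomputable section

namespace Fermat.Agent.S56.H794

open Fermat.Agent.S56 Fermat.Agent.S56.H716

variable {k : Type} [Field k] (ρbar : ResidualGaloisRep k)

theorem liftEnd_eq_dualEnd (c : GQ → Module.End k ρbar.V) (σ : GQ) :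
    liftEnd ρbar c σ = dualEnd (ρbar.ρ σ) (c σ * ρbar.ρ σ) := rfl

theorem rho_mul_rho_inv (σ : GQ) : ρbar.ρ σ * ρbar.ρ σ⁻¹ = 1 := by
  rw [← map_mul, mul_inv_cancel, map_one]

theorem rho_inv_mul_rho (σ : GQ) : ρbar.ρ σ⁻¹ * ρbar.ρ σ = 1 := by
  rw [← map_mul, inv_mul_cancel, map_one]

variable {ρbar}

theorem IsAdCocycle_map_one {c : GQ → Module.End k ρbar.V} (hc : IsAdCocycle ρbar c) :
    c 1 = 0 := by
  have h := hc.map_mul 1 1
  rw [mul_one, map_one, inv_one, map_one, one_mul, mul_one] at h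
  exact left_eq_add.mp h

theorem liftEnd_mul {c : GQ → Module.End k ρbar.V} (hc : IsAdCocycle ρbar c) (σ τ : GQ) :
    liftEnd ρbar c (σ * τ) = liftEnd ρbar c σ * liftEnd ρbar c τ := by
  rw [liftEnd_eq_dualEnd, liftEnd_eq_dualEnd, liftEnd_eq_dualEnd, dualEnd_mul, hc.map_mul,
    map_mul]
  have key : (c σ + ρbar.ρ σ * c τ * ρbar.ρ σ⁻¹) * (ρbar.ρ σ * ρbar.ρ τ) =
      ρbar.ρ σ * (c τ * ρbar.ρ τ) + c σ * ρbar.ρ σ * ρbar.ρ τ := by
    rw [add_mul, add_comm]
    have e1 : ρbar.ρ σ * c τ * ρbar.ρ σ⁻¹ * (ρbar.ρ σ * ρbar.ρ τ) =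
        ρbar.ρ σ * (c τ * ρbar.ρ τ) := by
      simp only [mul_assoc]
      rw [← mul_assoc (ρbar.ρ σ⁻¹), rho_inv_mul_rho, one_mul]
    rw [e1, mul_assoc (c σ)]
  rw [key]

theorem liftEnd_one {c : GQ → Module.End k ρbar.V} (hc : IsAdCocycle ρbar c) :
    liftEnd ρbar c 1 = 1 := by
  rw [liftEnd_eq_dualEnd, IsAdCocycle_map_one hc, zero_mul, map_one, dualEnd_one_zero]

/-- The lift `σ ↦ (1 + ε c σ) ρ̄ σ` as a monoid homomorphism. -/
def liftMonoidHom {c : GQ → Module.End k ρbar.V} (hc : IsAdCocycle ρbar c) :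
    GQ →* Module.End (DualNumber k) (DualNumber k ⊗[k] ρbar.V) where
  toFun := liftEnd ρbar c
  map_one' := liftEnd_one hc
  map_mul' := liftEnd_mul hc

/-- The lift as a homomorphism to the unit group. -/
def liftUnits {c : GQ → Module.End k ρbar.V} (hc : IsAdCocycle ρbar c) :
    GQ →* (Module.End (DualNumber k) (DualNumber k ⊗[k] ρbar.V))ˣ :=
  (liftMonoidHom hc).toHomUnits

theorem coe_liftUnits {c : GQ → Module.End k ρbar.V} (hc : IsAdCocycle ρbar c) (σ : GQ) :
    ((liftUnits hc σ : (Module.End (DualNumber k) (DualNumber k ⊗[k] ρbar.V))ˣ) :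
      Module.End (DualNumber k) (DualNumber k ⊗[k] ρbar.V)) = liftEnd ρbar c σ := rfl

theorem finiteLevel_liftUnits {c : GQ → Module.End k ρbar.V} (hc : IsAdCocycle ρbar c) :
    FiniteLevel (liftUnits hc) := by
  obtain ⟨L₁, hL₁, h₁⟩ := ρbar.factorsThroughFiniteLevel
  obtain ⟨L₂, hL₂, h₂⟩ := hc.level
  refine ⟨L₁ ⊔ L₂, IntermediateField.finiteDimensional_sup L₁ L₂, fun τ hτ => ?_⟩
  apply Units.ext
  rw [coe_liftUnits, Units.val_one, liftEnd_eq_dualEnd]
  have hρ : ρbar.ρ τ = 1 := h₁ τ (fun x hx => hτ x ((le_sup_left : L₁ ≤ L₁ ⊔ L₂) hx))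
  have hcτ : c τ = 0 := by
    have := h₂ 1 τ (fun x hx => hτ x ((le_sup_right : L₂ ≤ L₁ ⊔ L₂) hx))
    rw [one_mul, IsAdCocycle_map_one hc] at this
    exact this
  rw [hρ, hcτ, zero_mul, dualEnd_one_zero]

/-- Two cocycle-like functions agreeing at `τ` agree on the powers of `τ`. -/
theorem cocycle_pow_eq {c : GQ → Module.End k ρbar.V} (hc : IsAdCocycle ρbar c)
    (m : Module.End k ρbar.V) (τ : GQ) (h : c τ = ρbar.ρ τ * m * ρbar.ρ τ⁻¹ - m) (j : ℕ) :
    c (τ ^ j) = ρbar.ρ (τ ^ j) * m * ρbar.ρ (τ ^ j)⁻¹ - m := by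
  induction j with
  | zero => simp [IsAdCocycle_map_one hc]
  | succ j ih =>
    rw [pow_succ, hc.map_mul, ih, h, mul_inv_rev, map_mul, map_mul]
    have e1 : ρbar.ρ (τ ^ j) * (ρbar.ρ τ * m * ρbar.ρ τ⁻¹ - m) * ρbar.ρ (τ ^ j)⁻¹ =
        ρbar.ρ (τ ^ j) * ρbar.ρ τ * m * (ρbar.ρ τ⁻¹ * ρbar.ρ (τ ^ j)⁻¹) -
          ρbar.ρ (τ ^ j) * m * ρbar.ρ (τ ^ j)⁻¹ := by
      rw [mul_sub, sub_mul]
      simp only [mul_assoc]
    rw [e1]
    abel

/-- Unipotent lifts: for `σ` in inertia, `(liftEnd c σ − 1)² = 0`. -/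
theorem liftEnd_sub_one_sq {c : GQ → Module.End k ρbar.V}
    {ρ' : GaloisRepAdic (DualNumber k)} (hlift : IsLiftOf ρbar c ρ')
    {q : ℕ} (hunip : ρ'.IsUnipotentOnInertiaAt q)
    {P : ValuationSubring Qb} (hP : P.LiesOverPrime q) {σ : GQ}
    (hσ : σ ∈ P.inertiaSubgroupIn ℚ) :
    (liftEnd ρbar c σ - 1) * (liftEnd ρbar c σ - 1) = 0 := by
  obtain ⟨e, he⟩ := hlift
  have hconj : liftEnd ρbar c σ = e.conj (ρ'.ρ σ) := by
    apply LinearMap.ext
    intro x
    rw [LinearEquiv.conj_apply_apply, he, LinearEquiv.apply_symm_apply]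
  have hchar : LinearMap.charpoly (liftEnd ρbar c σ) = (X - 1) ^ 2 := by
    rw [hconj, LinearEquiv.charpoly_conj]
    exact hunip P hP σ hσ
  have hCH := LinearMap.aeval_self_charpoly (liftEnd ρbar c σ)
  rw [hchar] at hCH
  simpa [pow_two] using hCH

/-- The components of `(liftEnd c σ − 1)² = 0`. -/
theorem unipotent_components {c : GQ → Module.End k ρbar.V}
    {ρ' : GaloisRepAdic (DualNumber k)} (hlift : IsLiftOf ρbar c ρ')
    {q : ℕ} (hunip : ρ'.IsUnipotentOnInertiaAt q)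
    {P : ValuationSubring Qb} (hP : P.LiesOverPrime q) {σ : GQ}
    (hσ : σ ∈ P.inertiaSubgroupIn ℚ) :
    (ρbar.ρ σ - 1) * (ρbar.ρ σ - 1) = 0 ∧
      (ρbar.ρ σ - 1) * (c σ * ρbar.ρ σ) + c σ * ρbar.ρ σ * (ρbar.ρ σ - 1) = 0 := by
  have h := liftEnd_sub_one_sq hlift hunip hP hσ
  have h1 : liftEnd ρbar c σ - 1 = dualEnd (ρbar.ρ σ - 1) (c σ * ρbar.ρ σ) := by
    rw [liftEnd_eq_dualEnd, ← dualEnd_one_zero, dualEnd_sub, sub_zero]
  rw [h1, dualEnd_mul] at h
  exact dualEnd_eq_zero h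

/-- Unipotent lifts have exponent `p` on inertia. -/
theorem liftEnd_pow_eq_one {p : ℕ} (hpk : (p : k) = 0) {c : GQ → Module.End k ρbar.V}
    {ρ' : GaloisRepAdic (DualNumber k)} (hlift : IsLiftOf ρbar c ρ')
    {q : ℕ} (hunip : ρ'.IsUnipotentOnInertiaAt q)
    {P : ValuationSubring Qb} (hP : P.LiesOverPrime q) {σ : GQ}
    (hσ : σ ∈ P.inertiaSubgroupIn ℚ) :
    liftEnd ρbar c σ ^ p = 1 := by
  have h := liftEnd_sub_one_sq hlift hunip hP hσ
  have key := one_add_pow_of_sq_zero (liftEnd ρbar c σ - 1) h p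
  have h1 : (1 : Module.End (DualNumber k) (DualNumber k ⊗[k] ρbar.V)) +
      (liftEnd ρbar c σ - 1) = liftEnd ρbar c σ := by abel
  rw [h1] at key
  rw [key]
  have h2 : (p : DualNumber k) = 0 := by
    rw [← map_natCast (algebraMap k (DualNumber k)) p, hpk, map_zero]
  have hp0 : ∀ w : DualNumber k ⊗[k] ρbar.V, p • w = 0 := by
    intro w
    have : (p : DualNumber k) • w = p • w := Nat.cast_smul_eq_nsmul (DualNumber k) p w
    rw [← this, h2, zero_smul]
  have hpX : p • (liftEnd ρbar c σ - 1) = 0 := by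
    apply LinearMap.ext
    intro w
    rw [LinearMap.smul_apply, LinearMap.zero_apply]
    exact hp0 _
  rw [hpX, add_zero]

theorem two_ne_zero_of_odd_char {p : ℕ} (hp : p.Prime) (hp2 : p ≠ 2) (hpk : (p : k) = 0) :
    (2 : k) ≠ 0 := by
  intro h2
  obtain ⟨a, ha⟩ := hp.odd_of_ne_two hp2
  have h1 : (p : k) = 2 * (a : k) + 1 := by
    rw [ha]
    push_cast
    ring
  rw [h2, zero_mul, zero_add] at h1
  exact one_ne_zero (h1.symm.trans hpk)

/-- **LOC-MIN-A.**  A tangent cocycle whose lift is unipotent on inertia at `q ≠ p` is a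
coboundary (of a trace-zero endomorphism) on the inertia group of every place `P | q` at which
`ρ̄` is ramified. -/
theorem exists_coboundary_on_inertia_of_unipotent
    {p : ℕ} (hp : p.Prime) (hp2 : p ≠ 2) (hpk : (p : k) = 0)
    {c : GQ → Module.End k ρbar.V} (hc : IsAdCocycle ρbar c)
    {ρ' : GaloisRepAdic (DualNumber k)} (hlift : IsLiftOf ρbar c ρ')
    {q : ℕ} (hq : q.Prime) (hqp : q ≠ p) (hunip : ρ'.IsUnipotentOnInertiaAt q)
    {P : ValuationSubring Qb} (hP : P.LiesOverPrime q)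
    (hram : ∃ τ ∈ P.inertiaSubgroupIn ℚ, ρbar.ρ τ ≠ 1) :
    ∃ m : Module.End k ρbar.V, LinearMap.trace k ρbar.V m = 0 ∧
      ∀ σ ∈ P.inertiaSubgroupIn ℚ, c σ = ρbar.ρ σ * m * ρbar.ρ σ⁻¹ - m := by
  obtain ⟨τ, hτ, hτ1⟩ := hram
  obtain ⟨hN2, hNB⟩ := unipotent_components hlift hunip hP hτ
  obtain ⟨N, hN⟩ : ∃ N : Module.End k ρbar.V, ρbar.ρ τ - 1 = N := ⟨_, rfl⟩
  have hρτ : ρbar.ρ τ = 1 + N := by rw [← hN]; abel
  rw [hN] at hN2 hNB
  rw [hρτ] at hNB
  have hN0 : N ≠ 0 := by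
    rw [← hN]
    exact sub_ne_zero.mpr hτ1
  have hNC : N * c τ * (1 + N) + c τ * (1 + N) * N = 0 := by
    rw [mul_assoc]
    exact hNB
  obtain ⟨m, hm0, hm⟩ := exists_trace_zero_conj_sub ρbar.finrank_eq
    (two_ne_zero_of_odd_char hp hp2 hpk) N (c τ) hN2 hN0 (hc.trace_eq_zero τ) hNC
  have hinv : ρbar.ρ τ⁻¹ = 1 - N := by
    have h1 : ρbar.ρ τ * (1 - N) = 1 := by
      rw [hρτ, add_mul, mul_sub, mul_sub, mul_one, one_mul, hN2, mul_one]
      abel
    calc ρbar.ρ τ⁻¹ = ρbar.ρ τ⁻¹ * (ρbar.ρ τ * (1 - N)) := by rw [h1, mul_one]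
      _ = (ρbar.ρ τ⁻¹ * ρbar.ρ τ) * (1 - N) := by rw [mul_assoc]
      _ = 1 - N := by rw [rho_inv_mul_rho, one_mul]
  have hcτ : c τ = ρbar.ρ τ * m * ρbar.ρ τ⁻¹ - m := by
    rw [hinv, hρτ]
    exact hm
  refine ⟨m, hm0, fun σ hσ => ?_⟩
  have hexp : ∀ τ' ∈ P.inertiaSubgroupIn ℚ, liftUnits hc τ' ^ p = 1 := by
    intro τ' hτ'
    apply Units.ext
    rw [Units.val_pow_eq_pow_val, coe_liftUnits, Units.val_one]
    exact liftEnd_pow_eq_one hpk hlift hunip hP hτ'
  have hne : liftUnits hc τ ≠ 1 := by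
    intro h
    have h' := congrArg Units.val h
    rw [coe_liftUnits, Units.val_one, liftEnd_eq_dualEnd] at h'
    exact hτ1 (dualEnd_eq_one h').1
  obtain ⟨j, -, hj⟩ := inertia_image_pow_of_ne_one (finiteLevel_liftUnits hc) hq hP hp
    (Ne.symm hqp) hexp hσ hτ hne
  rw [← map_pow] at hj
  have hj' := congrArg Units.val hj
  rw [coe_liftUnits, coe_liftUnits, liftEnd_eq_dualEnd, liftEnd_eq_dualEnd] at hj'
  obtain ⟨hρ, hcρ⟩ := dualEnd_injective hj'
  have hinvσ : ρbar.ρ σ⁻¹ = ρbar.ρ (τ ^ j)⁻¹ := by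
    calc ρbar.ρ σ⁻¹ = ρbar.ρ σ⁻¹ * (ρbar.ρ (τ ^ j) * ρbar.ρ (τ ^ j)⁻¹) := by
          rw [rho_mul_rho_inv, mul_one]
      _ = (ρbar.ρ σ⁻¹ * ρbar.ρ σ) * ρbar.ρ (τ ^ j)⁻¹ := by rw [← hρ, mul_assoc]
      _ = ρbar.ρ (τ ^ j)⁻¹ := by rw [rho_inv_mul_rho, one_mul]
  have hcσ : c σ = c (τ ^ j) := by
    calc c σ = c σ * ρbar.ρ σ * ρbar.ρ σ⁻¹ := by rw [mul_assoc, rho_mul_rho_inv, mul_one]
      _ = c (τ ^ j) * ρbar.ρ (τ ^ j) * ρbar.ρ (τ ^ j)⁻¹ := by rw [hcρ, hinvσ]
      _ = c (τ ^ j) := by rw [mul_assoc, rho_mul_rho_inv, mul_one]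
  rw [hcσ, cocycle_pow_eq hc m τ hcτ j, hρ, hinvσ]

end Fermat.Agent.S56.H794

end

end
-- ===== PACK-END S56/H794/LocMinA.lean

-- ===== PACK-BEGIN S56/FL/RamLemSpec.lean
section


/-!
# Row S56 — W-FLAT-SS, piece FL-RAM: FROZEN statements of the ramification lemmas
(sub-architect helper426).  Pure algebra, Mathlib only.  Nothing unproved in this file.

These are the inputs that the abstract count `H846.FLCntStatement` needs from ramification theory,
stated for an `RCDatum` `d` (only `A ⊂ B`, `Γ`, `p`, `hA`, `hκ`, `e`, `he`, `hD` are used).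
Notation: `𝔪 = maximalIdeal d.B`, `κ = ResidueField d.B`, `Γ_n = ramGroup d.B d.Γ n`.

For a normal subgroup `N ≤ Γ₁` the ring `B^N` is a discrete valuation ring, totally ramified of
degree `|N|` under `B`; so for `y ∈ B^N`: `v_{B^N}(y) ≥ j ↔ y ∈ 𝔪 ^ (|N| j)`.  We therefore define
the ramification groups of `Γ` acting on `B^N` WITHOUT leaving `B`:
`qRam d N n = {σ | ∀ x ∈ B^N, σ x - x ∈ 𝔪 ^ (|N| (n + 1))}`   (`qRam d ⊥ n = Γ_n`).

* `RLWildStatement`   : `Γ₁` is a `p`-group.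
* `RLCommStatement`   : `[Γ, Γ] ≤ Γ₀`.
* `RLTameStatement`   : tame generator `τ₀`, Frobenius lift `φ`, the tame character `μ = θ₀(τ₀)`.
* `RLThetaStatement`  : the maps `θ_n : Γ_n / Γ_{n+1} ↪ κ` (`n ≥ 1`) with their equivariance.
* `RLQuotStatement`   : the groups `qRam d N n` (normal subgroups, comparison with `Γ₀, Γ₁`,
  commutator rule, separatedness).
* `RLQuotFormulaStatement` : Serre, *Local Fields* IV §1 Prop. 3.
* `RLHilbertStatement`: `e = |Γ₀|` and Hilbert's formula `𝔇_{B/A} = 𝔪 ^ (∑_n (|Γ_n| - 1))`.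
-/

set_option autoImplicit false

open Polynomial IsLocalRing

noncomputable section

namespace Fermat.Agent.S56.FL

namespace RCDatum

/-- The ramification groups of `Γ` acting on `B^N`, as subsets of `Γ`, defined inside `B`. -/
def qRam (d : RCDatum) (N : Subgroup d.Γ) (n : ℕ) : Set d.Γ :=
  {σ | ∀ x : d.B, (∀ ν ∈ N, ν • x = x) → σ • x - x ∈ maximalIdeal d.B ^ (Nat.card N * (n + 1))}

/-- `N` is a normal subgroup of `Γ` contained in the wild inertia group `Γ₁`. -/
def IsWildNormal (d : RCDatum) (N : Subgroup d.Γ) : Prop :=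
  N.Normal ∧ N ≤ ramGroup d.B d.Γ 1

end RCDatum

/-- (RL-A) the wild inertia group is a `p`-group. -/
def RLWildStatement : Prop :=
  ∀ d : RCDatum, IsPGroup d.p (ramGroup d.B d.Γ 1)

/-- (RL-B) commutators lie in the inertia group. -/
def RLCommStatement : Prop :=
  ∀ d : RCDatum, ∀ g h : d.Γ, g * h * g⁻¹ * h⁻¹ ∈ ramGroup d.B d.Γ 0

/-- (RL-C) tame inertia is cyclic, generated by `τ₀`, with faithful tame character `μ = θ₀(τ₀)`;
`Γ / Γ₀` is generated by a Frobenius lift `φ`, and `φ τ₀ φ⁻¹ ≡ τ₀ ^ p` modulo `Γ₁`. -/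
def RLTameStatement : Prop :=
  ∀ d : RCDatum, ∃ τ₀ ∈ ramGroup d.B d.Γ 0, ∃ φ : d.Γ, ∃ μ : ResidueField d.B,
    (∀ σ ∈ ramGroup d.B d.Γ 0, ∃ j : ℕ, σ * (τ₀ ^ j)⁻¹ ∈ ramGroup d.B d.Γ 1) ∧
    (∀ j : ℕ, τ₀ ^ j ∈ ramGroup d.B d.Γ 1 ↔ μ ^ j = 1) ∧
    (∀ ϖ : d.B, Irreducible ϖ → ∀ u : d.B, τ₀ • ϖ = u * ϖ → residue d.B u = μ) ∧
    (∀ x : d.B, residue d.B (φ • x) = residue d.B x ^ d.p) ∧
    (∀ σ : d.Γ, ∃ j : ℕ, σ * (φ ^ j)⁻¹ ∈ ramGroup d.B d.Γ 0) ∧
    φ * τ₀ * φ⁻¹ * (τ₀ ^ d.p)⁻¹ ∈ ramGroup d.B d.Γ 1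

/-- (RL-θ) for a uniformizer `ϖ` and `n ≥ 1` the map `θ_n(σ) = ((σ ϖ - ϖ) / ϖ ^ (n + 1)) mod 𝔪` on
`Γ_n`: additive, with kernel `Γ_{n+1}`, and `θ_n(g σ g⁻¹) = ū_g ^ n · ḡ(θ_n(σ))` where
`g ϖ = u_g ϖ`. -/
def RLThetaStatement : Prop :=
  ∀ d : RCDatum, ∀ ϖ : d.B, Irreducible ϖ → ∀ n : ℕ, 1 ≤ n →
    ∃ θ : d.Γ → ResidueField d.B,
      (∀ σ ∈ ramGroup d.B d.Γ n, ∀ a : d.B,
        σ • ϖ - ϖ = a * ϖ ^ (n + 1) → θ σ = residue d.B a) ∧
      (∀ σ ∈ ramGroup d.B d.Γ n, ∀ τ ∈ ramGroup d.B d.Γ n, θ (σ * τ) = θ σ + θ τ) ∧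
      (∀ σ ∈ ramGroup d.B d.Γ n, θ σ = 0 → σ ∈ ramGroup d.B d.Γ (n + 1)) ∧
      (∀ σ ∈ ramGroup d.B d.Γ n, ∀ (g : d.Γ) (u a : d.B), g • ϖ = u * ϖ →
        residue d.B a = θ σ → θ (g * σ * g⁻¹) = residue d.B u ^ n * residue d.B (g • a))

/-- (RL-Q) the ramification groups of the quotients `Γ / N`, `N ≤ Γ₁` normal. -/
def RLQuotStatement : Prop :=
  ∀ d : RCDatum, ∀ N : Subgroup d.Γ, d.IsWildNormal N →
    -- subgroups, normal
    (∀ n, ∃ F : Subgroup d.Γ, F.Normal ∧ (F : Set d.Γ) = d.qRam N n) ∧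
    -- comparison with the inertia and wild inertia groups of `Γ`
    (∀ σ ∈ ramGroup d.B d.Γ 0, σ ∈ d.qRam N 0) ∧
    (∀ σ ∈ ramGroup d.B d.Γ 1, σ ∈ d.qRam N 1) ∧
    (∀ σ ∈ ramGroup d.B d.Γ 0, σ ∈ d.qRam N 1 → σ ∈ ramGroup d.B d.Γ 1) ∧
    -- separatedness
    (∀ σ : d.Γ, σ ∉ N → ∃ n, σ ∉ d.qRam N n) ∧
    -- commutator rule
    (∀ n, 1 ≤ n → ∀ σ ∈ d.qRam N n, σ ∉ d.qRam N (n + 1) → ∀ τ ∈ ramGroup d.B d.Γ 0,
      (τ * σ * τ⁻¹ * σ⁻¹ ∈ d.qRam N (n + 1) ↔ τ ^ n ∈ d.qRam N 1))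

/-- (RL-QF) the quotient formula: for `σ ∉ N`,
`∑_{w ∈ N} i_Γ(σ w) = |N| · i_{Γ/N}(σ N)`, where `i_Γ(τ) = #{n | τ ∈ Γ_n}` and
`i_{Γ/N}(σ N) = #{n | σ ∈ qRam d N n}`. -/
def RLQuotFormulaStatement : Prop :=
  ∀ d : RCDatum, ∀ N : Subgroup d.Γ, d.IsWildNormal N → ∀ σ : d.Γ, σ ∉ N →
    ∑ᶠ (w : d.Γ) (_ : w ∈ N), Nat.card {n : ℕ | σ * w ∈ ramGroup d.B d.Γ n} =
      Nat.card N * Nat.card {n : ℕ | σ ∈ d.qRam N n}

/-- (RL-H) `e(B/A) = |Γ₀|` and Hilbert's formula for the different. -/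
def RLHilbertStatement : Prop :=
  ∀ d : RCDatum, d.e = Nat.card (ramGroup d.B d.Γ 0) ∧
    differentIdeal d.A d.B =
      maximalIdeal d.B ^ (∑ᶠ n : ℕ, (Nat.card (ramGroup d.B d.Γ n) - 1))

end Fermat.Agent.S56.FL

end

end
-- ===== PACK-END S56/FL/RamLemSpec.lean

-- ===== PACK-BEGIN S56/FL/RCInfl.lean
section


/-!
# Row S56 — W-FLAT-SS, leaf RCInfl (inflation–restriction by averaging) (helper426)

`rcInfl : RCInflStatement`.  Sorry-free, Mathlib only.
-/

set_option autoImplicit false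

open Polynomial IsLocalRing

noncomputable section

namespace Fermat.Agent.S56.FL

section

variable {Γ : Type} [Group Γ] {k : Type} [Field k] {V : Type} [AddCommGroup V] [Module k V]
  (ρ : Γ →* Module.End k V)

lemma rho_mul_rho_inv' (σ : Γ) : ρ σ * ρ σ⁻¹ = 1 := by
  rw [← map_mul, mul_inv_cancel, map_one]

lemma rho_inv_mul_rho' (σ : Γ) : ρ σ⁻¹ * ρ σ = 1 := by
  rw [← map_mul, inv_mul_cancel, map_one]

/-- A cocycle vanishing on `ker ρ` is constant on cosets of `ker ρ`. -/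
lemma cocycle_eq_of_rho_eq {c : Γ → Module.End k V}
    (hc : ∀ σ τ, c (σ * τ) = c σ + ρ σ * c τ * ρ σ⁻¹) (hv : ∀ σ, ρ σ = 1 → c σ = 0)
    {σ τ : Γ} (h : ρ σ = ρ τ) : c σ = c τ := by
  have h1 : τ = σ * (σ⁻¹ * τ) := by group
  have h2 : ρ (σ⁻¹ * τ) = 1 := by rw [map_mul, ← h, rho_inv_mul_rho']
  rw [h1, hc, hv _ h2]
  simp

end

/-- (IR) inflation–restriction by averaging over `Γ / ker ρ`. -/
theorem rcInfl : RCInflStatement := by
  intro p hp Γ _ _ k _ _ V _ _ ρ hindex c hc hv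
  classical
  -- the quotient `Δ = Γ / ker ρ`
  set K : Subgroup Γ := ρ.ker with hK
  have : Fintype (Γ ⧸ K) := Fintype.ofFinite _
  have hcard : ((Nat.card (Γ ⧸ K) : ℕ) : k) ≠ 0 := by
    intro h0
    rw [CharP.cast_eq_zero_iff k p] at h0
    exact hindex (by simpa [Subgroup.index] using h0)
  -- `c` and `ρ` factor through `Δ`
  have hρ : ∀ σ τ : Γ, (σ : Γ ⧸ K) = (τ : Γ ⧸ K) → ρ σ = ρ τ := by
    intro σ τ h
    have hmem : σ⁻¹ * τ ∈ K := QuotientGroup.eq.1 h
    have h2 : ρ (σ⁻¹ * τ) = 1 := hmem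
    have h1 : τ = σ * (σ⁻¹ * τ) := by group
    rw [h1, map_mul, h2, mul_one]
  have hcΔ : ∀ σ τ : Γ, (σ : Γ ⧸ K) = (τ : Γ ⧸ K) → c σ = c τ :=
    fun σ τ h => cocycle_eq_of_rho_eq ρ hc hv (hρ σ τ h)
  let cΔ : Γ ⧸ K → Module.End k V := fun x => c (Quotient.out x)
  have hcΔ' : ∀ σ : Γ, cΔ (σ : Γ ⧸ K) = c σ := fun σ =>
    hcΔ _ _ (QuotientGroup.out_eq' (σ : Γ ⧸ K))
  -- the averaging element
  set s : Module.End k V := ∑ x : Γ ⧸ K, cΔ x with hs
  set N : k := ((Nat.card (Γ ⧸ K) : ℕ) : k) with hN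
  refine ⟨-(N⁻¹ • s), fun σ => ?_⟩
  -- `ρ σ * s * ρ σ⁻¹ = s - N • c σ`
  have key : ρ σ * s * ρ σ⁻¹ = s - N • c σ := by
    have h1 : ρ σ * s * ρ σ⁻¹ = ∑ x : Γ ⧸ K, ρ σ * cΔ x * ρ σ⁻¹ := by
      rw [hs, Finset.mul_sum, Finset.sum_mul]
    have h2 : ∀ x : Γ ⧸ K, ρ σ * cΔ x * ρ σ⁻¹ = cΔ ((σ : Γ ⧸ K) * x) - c σ := by
      intro x
      obtain ⟨τ, rfl⟩ := QuotientGroup.mk_surjective x
      rw [hcΔ', ← QuotientGroup.mk_mul, hcΔ', hc]
      abel
    rw [h1, Finset.sum_congr rfl (fun x _ => h2 x), Finset.sum_sub_distrib]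
    have h3 : ∑ x : Γ ⧸ K, cΔ ((σ : Γ ⧸ K) * x) = s := by
      rw [hs]
      exact Fintype.sum_equiv (Equiv.mulLeft (σ : Γ ⧸ K)) _ _ (fun x => rfl)
    rw [h3, Finset.sum_const, Finset.card_univ, hN, Nat.card_eq_fintype_card, Nat.cast_smul_eq_nsmul]
  rw [mul_neg, neg_mul, mul_smul_comm, smul_mul_assoc, key, smul_sub, smul_smul,
    inv_mul_cancel₀ hcard, one_smul]
  abel

end Fermat.Agent.S56.FL

end

end
-- ===== PACK-END S56/FL/RCInfl.lean

-- ===== PACK-BEGIN S55/PT/Setup.lean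
section


/-!
# S55 / PT layer, part 6: the concrete arithmetic setting of S55

`k = ZMod p`, global group `G_ℚ` with levels `globalLevels S`, local groups `Gl v` (`v ∈ S`)
with levels `localLevels v` and maps `rl v`; `μ = ofChar (cycloChar p)`.
-/

set_option autoImplicit false

noncomputable section

namespace Fermat.Agent.S55.PT

open groupCohomology ExtCitation

/-- The Prelude's local-to-global maps are compatible with the Prelude's level systems. -/
lemma rl_levelCompatible (S : Finset Nat.Primes) (q : Nat.Primes) :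
    IsLevelCompatible (rl q) (globalLevels S) (localLevels q) := by
  rintro U ⟨F, hF, rfl⟩
  exact ⟨_, ⟨F, hF.1, rfl⟩, le_rfl⟩

/-- the compatibility family indexed by `v ∈ S` -/
lemma hrl (S : Finset Nat.Primes) (v : ↥S) :
    IsLevelCompatible (rl v.1) (globalLevels S) (localLevels v.1) :=
  rl_levelCompatible S v.1

variable (p : ℕ) [Fact p.Prime]

/-- `μ_p` as a representation of `G_ℚ` over `F_p` -/
abbrev mu : Rep.{0, 0, 0} (ZMod p) GQ := ofChar (cycloChar p)

/-- `μ_p` restricted to the local group at `q` -/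
abbrev muLoc (q : Nat.Primes) : Rep.{0, 0, 0} (ZMod p) (Gl q) := Rep.res (rl q) (mu p)

/-- the Tate dual `N′ = Hom(N, μ_p)` -/
abbrev tdual (N : Rep.{0, 0, 0} (ZMod p) GQ) : Rep.{0, 0, 0} (ZMod p) GQ :=
  N.dualTwist (cycloChar p)

/-- the local cyclotomic character -/
abbrev cycloLoc (q : Nat.Primes) : Gl q →* (ZMod p)ˣ := (cycloChar p).comp (rl q)

/-- the local Tate dual -/
abbrev tdualLoc (q : Nat.Primes) (N : Rep.{0, 0, 0} (ZMod p) (Gl q)) :
    Rep.{0, 0, 0} (ZMod p) (Gl q) :=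
  N.dualTwist (cycloLoc p q)

/-- A family of "invariant maps" `inv_v : H²(G_v, μ_p) → F_p`, `v ∈ S`. -/
abbrev InvFamily (S : Finset Nat.Primes) : Type :=
  (v : ↥S) → (localLevels v.1).H2 (muLoc p v.1) →ₗ[ZMod p] ZMod p

end Fermat.Agent.S55.PT

end

end
-- ===== PACK-END S55/PT/Setup.lean

-- ===== PACK-BEGIN S55/G/Rec/StepALocH511.lean
section


/-!
# S55 / layer G / block REC / STEP A : the two local computations (helper511)

* `H511.exists_inv_eq` : at a place above `q ∤ m` the invariant of the cup class `a ∪ δχ`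
  (`χ` cyclotomic mod `m`) is `k · χ(σ) / n` where `σ ∈ U` acts on `μ_m` by `q ^ f` and
  `vdeg a = f · k`.
* `H511.exists_norm_approx` : at a place above `ℓ` where the cup class is trivial, the local norm
  of `a` to `ℚ_ℓ` is `± ℓ^k · t` mod `ℓ^(k+e)`, `t` the cyclotomic value of some `κ ∈ ker χ`.
-/

set_option autoImplicit false
set_option linter.style.haveILetI false

noncomputable section

namespace Fermat.Agent.S55.G.Rec.H511

open Fermat.Agent.S55.G.Rec groupCohomology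

local notation "Qb" => AlgebraicClosure ℚ
local notation "GQ" => (AlgebraicClosure ℚ ≃ₐ[ℚ] AlgebraicClosure ℚ)

theorem exists_inv_eq (hK1 : CupLocSpec) (hL2 : LocalStructureSpec) (hL4 : CycloFrobSpec)
    (I : LocalInvSystem) (hL3 : UnramCupSpec I)
    (U : Subgroup GQ) (hU : IsOpenQ U) (m : ℕ) [NeZero m] (n : ℕ) [NeZero n]
    (χ : ↥U →* Multiplicative (ZMod n)) (hχ : IsLevelConstant₁ U.subtype χ)
    (hcyc : IsCycloChar U m χ) (a : Qbˣ) (ha : GFixed U a)
    (q : ℕ) [Fact q.Prime] (hqm : Nat.Coprime q m) (r : GQ) :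
    ∃ (σ : ↥U) (k : ℤ) (f : ℕ),
      I.inv q (locSub q r U) (locBr q r U (gcc U n χ a)) =
        ((((k : ℚ) * ((chiAdd χ σ).val : ℚ) / (n : ℚ) : ℚ)) : AddCircle (1 : ℚ)) ∧
      cyc m (σ : GQ) = (ZMod.unitOfCoprime q hqm) ^ f ∧
      vdeg q (locSub q r U) (locPushMul q r a) = f * k := by
  have hq : q.Prime := Fact.out
  have hqm' : ¬ q ∣ m := (Nat.Prime.coprime_iff_not_dvd hq).mp hqm
  obtain ⟨⟨hχr, har⟩, hloc⟩ := hK1 q r U n χ a (NeZero.ne n) hχ ha
  have hV : IsOpenL q (locSub q r U) := isOpenL_locSub q r U hU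
  obtain ⟨f, φ, π, hf, hφV, hφ, -, -, hall⟩ := hL2 q (locSub q r U) hV
  obtain ⟨k, u, -, -, -, hvdeg⟩ := hall (locPushMul q r a) har
  have hunr : ∀ τ : ↥(locSub q r U),
      IsInertial q (τ : PadicAlgCl q ≃ₐ[ℚ_[q]] PadicAlgCl q) →
      (χ.comp (locHom q r U)) τ = 1 := by
    intro τ hτ
    apply hcyc
    intro ζ hζ
    apply fixes_of_cyc_eq_one m _ _ hζ
    rw [locHom_coe, cyc_conj]
    exact cyc_loc_eq_one q m _ ((hL4 q m hqm').1 _ hτ)
  have h3 := hL3 q (locSub q r U) hV n (χ.comp (locHom q r U)) hχr hunr f hf ⟨φ, hφV⟩ hφ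
    (locPushMul q r a) har k hvdeg
  refine ⟨locHom q r U ⟨φ, hφV⟩, k, f, ?_, ?_, hvdeg⟩
  · rw [hloc]
    exact h3
  · apply Units.ext
    rw [locHom_coe, cyc_conj, cyc_loc_coe q m (q ^ f) φ ((hL4 q m hqm').2 φ f hφ),
      Units.val_pow_eq_pow_val, ZMod.coe_unitOfCoprime, Nat.cast_pow]

lemma finite_quotient_subgroupOf {G : Type*} [Group G] {H' H : Subgroup G} (hle : H' ≤ H)
    [Finite (G ⧸ H')] : Finite (↥H ⧸ H'.subgroupOf H) := by
  let e := Subgroup.quotientEquivProdOfLE hle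
  haveI : Finite ((G ⧸ H) × ↥H ⧸ H'.subgroupOf H) := Finite.of_equiv _ e
  haveI : Nonempty (G ⧸ H) := ⟨((1 : G) : G ⧸ H)⟩
  exact Finite.prod_right (G ⧸ H)

theorem exists_norm_approx (hK1 : CupLocSpec) (hK5 : LocalNormSpec) (hL5 : LocalCycloNormSpec)
    (U : Subgroup GQ) (hU : IsOpenQ U) (ℓ : ℕ) [Fact ℓ.Prime] (hℓ2 : ℓ ≠ 2) (e : ℕ) (he : 0 < e)
    [NeZero (ℓ ^ e)]
    (n : ℕ) [NeZero n] (χ : ↥U →* Multiplicative (ZMod n)) (hχ : IsLevelConstant₁ U.subtype χ)
    (a : Qbˣ) (ha : GFixed U a) (r : GQ)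
    (hloc : locBr ℓ r U (gcc U n χ a) = 0) :
    ∃ (k : ℤ) (s : ℤˣ) (t : ℕ) (κ : ↥U), χ κ = 1 ∧
      ((cyc (ℓ ^ e) (κ : GQ) : (ZMod (ℓ ^ e))ˣ) : ZMod (ℓ ^ e)) = (t : ZMod (ℓ ^ e)) ∧
      ‖((relNorm (locSub ℓ r U) (locPushMul ℓ r a) : (PadicAlgCl ℓ)ˣ) : PadicAlgCl ℓ) -
          ((s : ℤ) : PadicAlgCl ℓ) * (ℓ : PadicAlgCl ℓ) ^ k * (t : PadicAlgCl ℓ)‖
        ≤ ‖(ℓ : PadicAlgCl ℓ)‖ ^ (k + e) := by
  classical
  obtain ⟨⟨hχr, har⟩, hK1eq⟩ := hK1 ℓ r U n χ a (NeZero.ne n) hχ ha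
  rw [hK1eq] at hloc
  have hV : IsOpenL ℓ (locSub ℓ r U) := isOpenL_locSub ℓ r U hU
  obtain ⟨b, hb, hab⟩ := hK5 ℓ (locSub ℓ r U) hV n (χ.comp (locHom ℓ r U)) hχr
    (locPushMul ℓ r a) har hloc
  set V := locSub ℓ r U with hVdef
  set χr := χ.comp (locHom ℓ r U) with hχrdef
  set H' : Subgroup (PadicAlgCl ℓ ≃ₐ[ℚ_[ℓ]] PadicAlgCl ℓ) := χr.ker.map V.subtype with hH'
  set Cker : Subgroup (ZMod (ℓ ^ e))ˣ := χ.ker.map ((cyc (ℓ ^ e)).comp U.subtype) with hCker
  set W : Subgroup (PadicAlgCl ℓ ≃ₐ[ℚ_[ℓ]] PadicAlgCl ℓ) :=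
    Cker.comap ((cyc (ℓ ^ e)).comp (localGaloisToGlobal ℓ)) with hW
  have hH'V : H' ≤ V := Subgroup.map_subtype_le _
  have hH'W : H' ≤ W := by
    rintro τ' ⟨τ, hτ, rfl⟩
    show cyc (ℓ ^ e) (localGaloisToGlobal ℓ (τ : PadicAlgCl ℓ ≃ₐ[ℚ_[ℓ]] PadicAlgCl ℓ)) ∈ Cker
    refine ⟨locHom ℓ r U τ, hτ, ?_⟩
    show cyc (ℓ ^ e) ((locHom ℓ r U τ : ↥U) : GQ) = _
    rw [locHom_coe, cyc_conj]
  -- finiteness
  haveI hfinV : Finite ((PadicAlgCl ℓ ≃ₐ[ℚ_[ℓ]] PadicAlgCl ℓ) ⧸ V) :=
    finite_quotient_of_isOpenL ℓ V hV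
  have hidx : H'.index ≠ 0 := by
    rw [hH', Subgroup.index_map_subtype]
    refine mul_ne_zero ?_ (index_ne_zero_of_isOpenL ℓ V hV)
    rw [Subgroup.index_ker]
    exact Nat.card_pos.ne'
  haveI : H'.FiniteIndex := ⟨hidx⟩
  haveI hfinH' : Finite ((PadicAlgCl ℓ ≃ₐ[ℚ_[ℓ]] PadicAlgCl ℓ) ⧸ H') :=
    Subgroup.finite_quotient_of_finiteIndex
  have hb' : ∀ h ∈ H', h • b = b := hb
  -- norm from `L_w` to `ℚ_ℓ` through `K_v`
  have hsub : H'.subgroupOf V = χr.ker :=
    Subgroup.comap_map_eq_self_of_injective (Subgroup.subtype_injective V) χr.ker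
  have h1 : relNorm V (locPushMul ℓ r a) = relNorm H' b := by
    rw [hab, ← hsub]
    exact relNorm_trans hH'V hb'
  -- norm from `L_w` to `ℚ_ℓ` through `E`
  set b' : (PadicAlgCl ℓ)ˣ := relNorm (G := ↥W) (H'.subgroupOf W) b with hb'def
  have h2 : relNorm W b' = relNorm H' b := relNorm_trans hH'W hb'
  haveI : Finite (↥W ⧸ H'.subgroupOf W) := finite_quotient_subgroupOf hH'W
  have hfix : LFixed ℓ W b' := by
    intro τ hτ
    have hbW : ∀ h ∈ H'.subgroupOf W, h • b = b := fun h hh => hb' (h : _) hh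
    exact smul_relNorm (G := ↥W) (M := (PadicAlgCl ℓ)ˣ) (H'.subgroupOf W) hbW ⟨τ, hτ⟩
  have hZW : ∀ τ : PadicAlgCl ℓ ≃ₐ[ℚ_[ℓ]] PadicAlgCl ℓ,
      (∀ ζ : PadicAlgCl ℓ, ζ ^ (ℓ ^ e) = 1 → τ ζ = ζ) → τ ∈ W := by
    intro τ hτ
    show cyc (ℓ ^ e) (localGaloisToGlobal ℓ τ) ∈ Cker
    rw [cyc_loc_eq_one ℓ (ℓ ^ e) τ hτ]
    exact one_mem _
  obtain ⟨k, s, t, τ, hτW, hτt, hest⟩ := hL5 ℓ hℓ2 e he W hZW b' hfix
  obtain ⟨κ, hκ, hκτ⟩ := hτW
  refine ⟨k, s, t, κ, hκ, ?_, ?_⟩
  · have h3 : cyc (ℓ ^ e) (κ : GQ) = cyc (ℓ ^ e) (localGaloisToGlobal ℓ τ) := hκτ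
    rw [h3]
    exact cyc_loc_coe ℓ (ℓ ^ e) t τ hτt
  · rw [h1, ← h2]
    exact hest

end Fermat.Agent.S55.G.Rec.H511

end
end
-- ===== PACK-END S55/G/Rec/StepALocH511.lean

-- ===== PACK-BEGIN S55/Local/H717/CyclicIndex.lean
section



/-!
# S55, layer L, glue T3' (helper717): `|H²(Gal(L/K), Lˣ)| = [Kˣ : N Lˣ]` for cyclic `L / K`

* `h0_unitsEnd_eq_index` : for a finite cyclic Galois extension `L / K` with generator `τ`,
  the `Ĥ⁰`-index of `τ` acting on `Additive Lˣ` is the norm index `[Kˣ : N_{L/K} Lˣ]`.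
* `card_H2_eq_index` : `Nat.card (H2 (Rep.ofAlgebraAutOnUnits K L)) = [Kˣ : N Lˣ]`.
* `cyclicH2Card_of` : `CyclicNormIndexStatement → CyclicH2CardStatement`.
-/

set_option autoImplicit false
set_option linter.style.haveILetI false

namespace Fermat.Agent.S55.Local.H717

open Fermat.Agent.S55.Herbrand Fermat.Agent.S55.Local

section Abstract

variable {K L : Type} [Field K] [Field L] [Algebra K L]

/-- The action of `τ` on `Additive Lˣ` as an additive endomorphism. -/
noncomputable def unitsEnd (τ : L ≃ₐ[K] L) : AddMonoid.End (Additive Lˣ) :=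
  MonoidHom.toAdditive (Units.map (τ : L →* L))

@[simp] lemma unitsEnd_apply (τ : L ≃ₐ[K] L) (x : Additive Lˣ) :
    unitsEnd τ x = Additive.ofMul (Units.map (τ : L →* L) x.toMul) := rfl

lemma unitsEnd_pow_apply (τ : L ≃ₐ[K] L) (i : ℕ) (x : Additive Lˣ) :
    (unitsEnd τ ^ i) x = Additive.ofMul (Units.map ((τ ^ i : L ≃ₐ[K] L) : L →* L) x.toMul) := by
  induction i generalizing x with
  | zero =>
    simp only [pow_zero]
    change x = _
    apply Additive.toMul.injective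
    ext
    simp
  | succ i ih =>
    rw [pow_succ, pow_succ]
    change (unitsEnd τ ^ i) (unitsEnd τ x) = _
    rw [ih]
    apply Additive.toMul.injective
    ext
    simp

/-- The inclusion `Kˣ → Lˣ`, additively. -/
noncomputable def inclAdd : Additive Kˣ →+ Additive Lˣ := MonoidHom.toAdditive (unitsIncl L K)

lemma inclAdd_injective : Function.Injective (inclAdd (K := K) (L := L)) := by
  intro x y h
  apply Additive.toMul.injective
  have h' : unitsIncl L K x.toMul = unitsIncl L K y.toMul := congrArg Additive.toMul h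
  have h2 := congrArg Units.val h'
  simp only [unitsIncl_coe] at h2
  exact Units.ext ((algebraMap K L).injective h2)

variable [FiniteDimensional K L] [IsGalois K L]

lemma range_inclAdd_eq_ker_delta (τ : L ≃ₐ[K] L) (hτ : ∀ g, g ∈ Subgroup.zpowers τ) :
    (inclAdd (K := K) (L := L)).range = (delta (unitsEnd τ)).ker := by
  ext x
  rw [AddMonoidHom.mem_range, AddMonoidHom.mem_ker]
  constructor
  · rintro ⟨y, rfl⟩
    rw [delta_apply, sub_eq_zero]
    apply Additive.toMul.injective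
    ext
    simp [inclAdd]
  · intro hx
    have hx' : unitsEnd τ x - x = 0 := hx
    rw [sub_eq_zero] at hx'
    have h1 : τ (x.toMul : L) = (x.toMul : L) := by
      have := congrArg (fun z : Additive Lˣ => ((z.toMul : Lˣ) : L)) hx'
      simpa using this
    have h2 : ∀ g : L ≃ₐ[K] L, g (x.toMul : L) = (x.toMul : L) := by
      intro g
      obtain ⟨k, rfl⟩ := Subgroup.mem_zpowers_iff.1 (hτ g)
      have hfix : τ ∈ MulAction.stabilizer (L ≃ₐ[K] L) (x.toMul : L) := h1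
      exact (Subgroup.zpow_mem _ hfix k)
    obtain ⟨y, hy⟩ := (IsGalois.mem_range_algebraMap_iff_fixed (F := K) (x.toMul : L)).2 h2
    have hy0 : y ≠ 0 := by
      rintro rfl
      rw [map_zero] at hy
      exact (x.toMul).ne_zero hy.symm
    refine ⟨Additive.ofMul (Units.mk0 y hy0), ?_⟩
    apply Additive.toMul.injective
    ext
    simpa [inclAdd] using hy

lemma normN_unitsEnd_eq (τ : L ≃ₐ[K] L) (hτ : ∀ g, g ∈ Subgroup.zpowers τ) (x : Additive Lˣ) :
    normN (unitsEnd τ) (Nat.card (L ≃ₐ[K] L)) x =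
      inclAdd (Additive.ofMul (normUnits L K x.toMul)) := by
  classical
  rw [normN_apply]
  apply Additive.toMul.injective
  apply Units.ext
  have h1 : ((inclAdd (Additive.ofMul (normUnits L K x.toMul)) : Additive Lˣ).toMul : L) =
      ∏ σ : L ≃ₐ[K] L, σ (x.toMul : L) := by
    simp [inclAdd, Algebra.norm_eq_prod_automorphisms]
  rw [h1]
  have h2 : ∀ (s : Finset ℕ) (f : ℕ → Additive Lˣ),
      (((∑ i ∈ s, f i : Additive Lˣ).toMul : Lˣ) : L) = ∏ i ∈ s, (((f i).toMul : Lˣ) : L) := by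
    intro s f
    induction s using Finset.induction_on with
    | empty => simp
    | insert a s ha ih => rw [Finset.sum_insert ha, Finset.prod_insert ha, ← ih]; simp
  rw [h2]
  have h3 : ∀ i, ((((unitsEnd τ ^ i) x).toMul : Lˣ) : L) = (τ ^ i) (x.toMul : L) := by
    intro i
    rw [unitsEnd_pow_apply]
    simp
  simp_rw [h3]
  have hord : orderOf τ = Nat.card (L ≃ₐ[K] L) := orderOf_eq_card_of_forall_mem_zpowers hτ
  rw [← hord]
  refine Finset.prod_bij (fun i _ => τ ^ i) (fun _ _ => Finset.mem_univ _) ?_ ?_ (fun _ _ => rfl)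
  · intro i hi j hj hij
    exact pow_injOn_Iio_orderOf (by simpa using hi) (by simpa using hj) hij
  · intro h _
    obtain ⟨i, hi, rfl⟩ :=
      Finset.mem_image.1 ((mem_zpowers_iff_mem_range_orderOf (x := τ) (y := h)).1 (hτ h))
    exact ⟨i, hi, rfl⟩

/-- **Key index computation.**  For a cyclic Galois extension with generator `τ`, the
`Ĥ⁰`-index of `τ` on `Additive Lˣ` equals the norm index. -/
theorem h0_unitsEnd_eq_index (τ : L ≃ₐ[K] L) (hτ : ∀ g, g ∈ Subgroup.zpowers τ) :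
    h0 (unitsEnd τ) (Nat.card (L ≃ₐ[K] L)) = (normUnits L K).range.index := by
  rw [h0_eq_relIndex]
  have hR : (normN (unitsEnd τ) (Nat.card (L ≃ₐ[K] L))).range =
      (Subgroup.toAddSubgroup (normUnits L K).range).map (inclAdd (K := K) (L := L)) := by
    ext x
    constructor
    · rintro ⟨y, rfl⟩
      rw [normN_unitsEnd_eq τ hτ]
      exact ⟨_, ⟨y.toMul, rfl⟩, rfl⟩
    · rintro ⟨z, ⟨y, hy⟩, rfl⟩
      refine ⟨Additive.ofMul y, ?_⟩
      rw [normN_unitsEnd_eq τ hτ]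
      exact congrArg (fun t => inclAdd (Additive.ofMul t)) hy
  rw [hR, ← range_inclAdd_eq_ker_delta τ hτ, ← AddSubgroup.index_comap,
    AddSubgroup.comap_map_eq_self_of_injective inclAdd_injective]
  exact Subgroup.index_toAddSubgroup

/-- `|H²(Gal(L/K), Lˣ)| = [Kˣ : N Lˣ]` for a finite cyclic Galois extension. -/
theorem card_H2_eq_index [IsCyclic (L ≃ₐ[K] L)] :
    Nat.card (groupCohomology.H2 (Rep.ofAlgebraAutOnUnits K L)) =
      (normUnits L K).range.index := by
  obtain ⟨τ, hτ⟩ := IsCyclic.exists_generator (α := L ≃ₐ[K] L)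
  letI : CommGroup (L ≃ₐ[K] L) := IsCyclic.commGroup
  have h := card_groupCohomology_even (Rep.ofAlgebraAutOnUnits K L) τ hτ 2 (by decide)
  rw [← h0_unitsEnd_eq_index τ hτ]
  exact h

end Abstract

/-- **Glue T3'.**  The norm index statement for cyclic extensions implies the `H²`-cardinality
statement. -/
theorem cyclicH2Card_of (h : CyclicNormIndexStatement) : CyclicH2CardStatement := by
  intro A F _ _ _ _ _ _ _ _ _ K _ _ _ L _ _ _ _ _ _ hcyc
  haveI := hcyc
  rw [card_H2_eq_index]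
  exact h A F K L hcyc

end Fermat.Agent.S55.Local.H717

end
-- ===== PACK-END S55/Local/H717/CyclicIndex.lean

-- ===== PACK-BEGIN S55/T/CoresH572.lean
section



/-!
# S55 layer T, leaf T1: `CoresSpec`, `ResIndexSpec`, `CardTorsionSpec` (helper572)

Corestriction in ALL degrees by dimension shifting (`H572.cor`), `cor ∘ res = [G : H]`,
naturality in the coefficients; hence `res_H x = 0 ⇒ [G : H] • x = 0` and `|G| • Hⁿ(G, A) = 0`
for `n ≥ 1`.
-/

set_option autoImplicit false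

open CategoryTheory groupCohomology

namespace Fermat.Agent.S55.T.H572

open Fermat.Agent.S55.H572 in
/-- **T1c.** Corestriction, natural in the coefficients, with `cor ∘ res = [G : H]`. -/
theorem cores : CoresSpec := by
  intro k G _ _ _ H n
  letI : Fintype (G ⧸ H) := Fintype.ofFinite _
  refine ⟨fun A => cor H n A, ?_, ?_⟩
  · intro A x
    have h := congrArg (fun f => f.hom x) (resH_cor H n A)
    exact h
  · intro A B f y
    have h := congrArg (fun g => g.hom y) (cor_natural H n f)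
    exact h

open Fermat.Agent.S55.H572 in
/-- **T1a.** If `res_H x = 0` then `[G : H] • x = 0`. -/
theorem resIndex : ResIndexSpec := by
  intro k G _ _ _ A H n _ x hx
  letI : Fintype (G ⧸ H) := Fintype.ofFinite _
  exact index_nsmul_eq_zero_of_resH_eq_zero H n A x hx

/-- **T1b.** `|G|` kills `Hⁿ(G, A)` for `n ≥ 1`. -/
theorem cardTorsion : CardTorsionSpec := by
  intro k G _ _ _ A n hn x
  obtain ⟨m, rfl⟩ : ∃ m, n = m + 1 := ⟨n - 1, by omega⟩
  have h0 : Limits.IsZero (groupCohomology (resSub A (⊥ : Subgroup G)) (m + 1)) :=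
    isZero_groupCohomology_succ_of_subsingleton _ m
  have hx : (resMap A (⊥ : Subgroup G) (m + 1)).hom x = 0 :=
    (ModuleCat.isZero_iff_subsingleton.mp h0).elim _ _
  have := resIndex k G A ⊥ (m + 1) (Nat.succ_pos m) x hx
  rwa [Subgroup.index_bot] at this

end Fermat.Agent.S55.T.H572

end
-- ===== PACK-END S55/T/CoresH572.lean

-- ===== PACK-BEGIN S55/Bridge/Infl.lean
section



/-!
# S55 bridge: inflation of low-degree cochains from a quotient group

`G` a group, `N ⊴ G` acting trivially on `M : Rep k G`.  Cochains of `G ⧸ N` with values in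
`M.ofQuotient N` (Mathlib `Rep.ofQuotient`, same carrier as `M`) are identified with the cochains
of `G` that are constant modulo `N`.
-/

set_option autoImplicit false
set_option linter.unusedSectionVars false

namespace Fermat.Agent.S55.Bridge

open groupCohomology CategoryTheory

variable {k G : Type} [CommRing k] [Group G] (M : Rep.{0, 0, 0} k G) (N : Subgroup G) [N.Normal]

/-- Inflation of 1-cochains. -/
def inflCochain₁ : ((G ⧸ N) → M) →ₗ[k] (G → M) where
  toFun f g := f (g : G ⧸ N)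
  map_add' _ _ := rfl
  map_smul' _ _ := rfl

/-- Inflation of 2-cochains. -/
def inflCochain₂ : ((G ⧸ N) × (G ⧸ N) → M) →ₗ[k] (G × G → M) where
  toFun f p := f ((p.1 : G ⧸ N), (p.2 : G ⧸ N))
  map_add' _ _ := rfl
  map_smul' _ _ := rfl

@[simp] theorem inflCochain₁_apply (f : (G ⧸ N) → M) (g : G) :
    inflCochain₁ M N f g = f (g : G ⧸ N) := rfl

@[simp] theorem inflCochain₂_apply (f : (G ⧸ N) × (G ⧸ N) → M) (p : G × G) :
    inflCochain₂ M N f p = f ((p.1 : G ⧸ N), (p.2 : G ⧸ N)) := rfl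

theorem inflCochain₁_injective : Function.Injective (inflCochain₁ M N) := by
  intro f f' h
  funext x
  obtain ⟨g, rfl⟩ := QuotientGroup.mk_surjective x
  exact congrFun h g

theorem inflCochain₂_injective : Function.Injective (inflCochain₂ M N) := by
  intro f f' h
  funext ⟨x, y⟩
  obtain ⟨g, rfl⟩ := QuotientGroup.mk_surjective x
  obtain ⟨g', rfl⟩ := QuotientGroup.mk_surjective y
  exact congrFun h (g, g')

theorem isConstMod₁_inflCochain₁ (f : (G ⧸ N) → M) : IsConstMod₁ N (inflCochain₁ M N f) := by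
  intro g s hs
  show f ((g * s : G) : G ⧸ N) = f (g : G ⧸ N)
  congr 1
  rw [QuotientGroup.eq]
  simpa using N.inv_mem hs

theorem isConstMod₂_inflCochain₂ (f : (G ⧸ N) × (G ⧸ N) → M) :
    IsConstMod₂ N (inflCochain₂ M N f) := by
  intro g g' s s' hs hs'
  show f (((g * s : G) : G ⧸ N), ((g' * s' : G) : G ⧸ N)) = f ((g : G ⧸ N), (g' : G ⧸ N))
  have h1 : ((g * s : G) : G ⧸ N) = (g : G ⧸ N) := by
    rw [QuotientGroup.eq]; simpa using N.inv_mem hs
  have h2 : ((g' * s' : G) : G ⧸ N) = (g' : G ⧸ N) := by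
    rw [QuotientGroup.eq]; simpa using N.inv_mem hs'
  rw [h1, h2]

/-- A 1-cochain constant modulo `N` is inflated from `G ⧸ N`. -/
theorem exists_inflCochain₁_eq (f : G → M) (hf : IsConstMod₁ N f) :
    ∃ f' : (G ⧸ N) → M, inflCochain₁ M N f' = f := by
  refine ⟨fun x => f x.out, ?_⟩
  funext g
  show f ((g : G ⧸ N).out) = f g
  have h : g⁻¹ * (g : G ⧸ N).out ∈ N := by
    rw [← QuotientGroup.eq, QuotientGroup.out_eq']
  have := hf g _ h
  rwa [mul_inv_cancel_left] at this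

/-- A 2-cochain constant modulo `N` is inflated from `G ⧸ N`. -/
theorem exists_inflCochain₂_eq (f : G × G → M) (hf : IsConstMod₂ N f) :
    ∃ f' : (G ⧸ N) × (G ⧸ N) → M, inflCochain₂ M N f' = f := by
  refine ⟨fun x => f (x.1.out, x.2.out), ?_⟩
  funext ⟨g, g'⟩
  show f ((g : G ⧸ N).out, (g' : G ⧸ N).out) = f (g, g')
  have h : g⁻¹ * (g : G ⧸ N).out ∈ N := by
    rw [← QuotientGroup.eq, QuotientGroup.out_eq']
  have h' : g'⁻¹ * (g' : G ⧸ N).out ∈ N := by
    rw [← QuotientGroup.eq, QuotientGroup.out_eq']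
  have := hf g g' _ _ h h'
  rwa [mul_inv_cancel_left, mul_inv_cancel_left] at this

variable [Representation.IsTrivial (M.ρ.comp N.subtype)]

theorem ofQuotient_ρ_mk (g : G) (m : M) : (M.ofQuotient N).ρ (g : G ⧸ N) m = M.ρ g m := rfl

theorem inflCochain₂_d₁₂ (c : (G ⧸ N) → M) :
    inflCochain₂ M N ((d₁₂ (M.ofQuotient N)).hom c) = (d₁₂ M).hom (inflCochain₁ M N c) := by
  funext ⟨g, g'⟩
  rw [inflCochain₂_apply, d₁₂_hom_apply, d₁₂_hom_apply]
  rfl

theorem inflCochain₁_d₀₁ (m : M) :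
    inflCochain₁ M N ((d₀₁ (M.ofQuotient N)).hom m) = (d₀₁ M).hom m := by
  funext g
  rw [inflCochain₁_apply, d₀₁_hom_apply, d₀₁_hom_apply]
  rfl

theorem inflCochain₁_mem_cocycles₁_iff (f : (G ⧸ N) → M) :
    inflCochain₁ M N f ∈ cocycles₁ M ↔ f ∈ cocycles₁ (M.ofQuotient N) := by
  rw [mem_cocycles₁_iff, mem_cocycles₁_iff]
  constructor
  · intro h x y
    obtain ⟨g, rfl⟩ := QuotientGroup.mk_surjective x
    obtain ⟨g', rfl⟩ := QuotientGroup.mk_surjective y
    exact h g g'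
  · intro h g g'
    exact h g g'

theorem inflCochain₂_mem_cocycles₂_iff (f : (G ⧸ N) × (G ⧸ N) → M) :
    inflCochain₂ M N f ∈ cocycles₂ M ↔ f ∈ cocycles₂ (M.ofQuotient N) := by
  rw [mem_cocycles₂_iff, mem_cocycles₂_iff]
  constructor
  · intro h x y z
    obtain ⟨g, rfl⟩ := QuotientGroup.mk_surjective x
    obtain ⟨g', rfl⟩ := QuotientGroup.mk_surjective y
    obtain ⟨g'', rfl⟩ := QuotientGroup.mk_surjective z
    exact h g g' g''
  · intro h g g' g''
    exact h g g' g''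

/-- `inflCochain₂ f` is the coboundary of a cochain constant modulo `N` iff `f` is a coboundary. -/
theorem inflCochain₂_eq_d₁₂_iff (f : (G ⧸ N) × (G ⧸ N) → M) :
    (∃ c : G → M, IsConstMod₁ N c ∧ (d₁₂ M).hom c = inflCochain₂ M N f) ↔
      f ∈ coboundaries₂ (M.ofQuotient N) := by
  constructor
  · rintro ⟨c, hc, hd⟩
    obtain ⟨c', rfl⟩ := exists_inflCochain₁_eq M N c hc
    refine ⟨c', ?_⟩
    apply inflCochain₂_injective M N
    rw [inflCochain₂_d₁₂]
    exact hd
  · rintro ⟨c', rfl⟩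
    exact ⟨inflCochain₁ M N c', isConstMod₁_inflCochain₁ M N c', (inflCochain₂_d₁₂ M N c').symm⟩

end Fermat.Agent.S55.Bridge

end
-- ===== PACK-END S55/Bridge/Infl.lean

-- ===== PACK-BEGIN S55/Bridge/SUnitsDiv.lean
section




/-!
# S55: the input `SUnitsDivSpec` (GD9) of the engine E1, in the exact frozen shape

`sUnitsDivSpec (hpS : pPrime p ∈ S) : Tow.SUnitsDivSpec S p`:

* the `S`-units are `p`-divisible in the tower: for an `S`-unit `e ∈ Fˣ` and `β ^ p = e`, the
  Kummer extension `F(β)` is unramified outside `S ∋ p` (inertia at `q ∉ S` moves `β` by a `p`-th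
  root of unity `ζ` with `ζ - 1 ∈ 𝔪_A`, hence `ζ = 1`; Kummer lemma, cf. helper893 `H893/Kummer`);
* `μ_p` lives at a level (`ℚ(μ_p)` is unramified outside `p`).
-/

set_option autoImplicit false

namespace Fermat.Agent.S55.Bridge

open ExtCitation IntermediateField

attribute [local instance] isAlgebraic_Qbar isGalois_Qbar

section core

variable {A : ValuationSubring (AlgebraicClosure ℚ)}

/-- Local core of Kummer theory: inertia at a place where `p` is a unit fixes a `p`-th root `β`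
of a fixed unit. -/
theorem kummer_unit_fixed_of_mem_inertia {n : ℕ} (hn0 : n ≠ 0)
    (hnv : A.valuation (n : AlgebraicClosure ℚ) = 1)
    {σ : AlgebraicClosure ℚ ≃ₐ[ℚ] AlgebraicClosure ℚ} (hσ : σ ∈ A.inertiaSubgroupIn ℚ)
    {β : AlgebraicClosure ℚ} (hβ : σ (β ^ n) = β ^ n) (hv : A.valuation β = 1) : σ β = β := by
  have hβ0 : β ≠ 0 := by
    rintro rfl
    rw [map_zero] at hv
    exact zero_ne_one hv
  by_contra hne
  have hζ : (σ β / β) ^ n = 1 := by
    rw [div_pow, ← map_pow, hβ, div_self (pow_ne_zero n hβ0)]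
  have hζ1 : σ β / β ≠ 1 := fun h => hne ((div_eq_one_iff_eq hβ0).1 h)
  have h1 : A.valuation (σ β / β - 1) = 1 :=
    val_sub_roots_eq_one (A := A) hn0 hnv hζ (one_pow n) hζ1
  have h2 := inertia_val_sub_lt_one A hσ β hv.le
  have h3 : σ β - β = β * (σ β / β - 1) := by
    field_simp
  rw [h3, map_mul, h1, mul_one, hv] at h2
  exact lt_irrefl _ h2

end core

variable {p : ℕ} [Fact p.Prime] (S : Finset Nat.Primes)

/-- `F(β)` is unramified outside `S ∋ p` if `β ^ p ∈ F` is a unit outside `S`. -/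
theorem isUnramifiedOutside_sup_adjoin_root_unit (hpS : pPrime p ∈ S)
    {F : IntermediateField ℚ (AlgebraicClosure ℚ)} (hF : F.IsUnramifiedOutside S)
    {β : AlgebraicClosure ℚ} (hβ : β ^ p ∈ F)
    (hunit : ∀ q : Nat.Primes, q ∉ S → ∀ A : ValuationSubring (AlgebraicClosure ℚ),
      A.LiesOverPrime (q : ℕ) → A.valuation β = 1) :
    (F ⊔ ℚ⟮β⟯).IsUnramifiedOutside S := by
  have hp : p.Prime := Fact.out
  haveI := hF.1
  haveI : FiniteDimensional ℚ ℚ⟮β⟯ :=
    IntermediateField.adjoin.finiteDimensional (Algebra.IsIntegral.isIntegral β)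
  refine ⟨IntermediateField.finiteDimensional_sup F ℚ⟮β⟯, fun q hq A hA σ hσ => ?_⟩
  have hσF : σ ∈ F.fixingSubgroup := hF.2 q hq A hA hσ
  rw [IntermediateField.fixingSubgroup_sup]
  refine ⟨hσF, ?_⟩
  show σ ∈ ℚ⟮β⟯.fixingSubgroup
  have hqp : (q : ℕ) ≠ p := by
    intro h
    apply hq
    have : q = pPrime p := Subtype.ext h
    rw [this]
    exact hpS
  have hpv : A.valuation (p : AlgebraicClosure ℚ) = 1 := val_prime_eq_one (A := A) hA q.2 hp hqp
  have hσβ : σ β = β :=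
    kummer_unit_fixed_of_mem_inertia hp.ne_zero hpv hσ
      ((IntermediateField.mem_fixingSubgroup_iff F σ).1 hσF _ hβ) (hunit q hq A hA)
  rw [IntermediateField.mem_fixingSubgroup_iff]
  intro x hx
  have hle : ℚ⟮β⟯ ≤ IntermediateField.fixedField (Subgroup.zpowers σ) := by
    rw [IntermediateField.adjoin_simple_le_iff]
    rintro ⟨τ, hτ⟩
    obtain ⟨k, rfl⟩ := Subgroup.mem_zpowers_iff.1 hτ
    show (σ ^ k) • β = β
    have hstab : σ ∈ MulAction.stabilizer (AlgebraicClosure ℚ ≃ₐ[ℚ] AlgebraicClosure ℚ) β :=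
      MulAction.mem_stabilizer_iff.2 hσβ
    exact MulAction.mem_stabilizer_iff.1 (Subgroup.zpow_mem _ hstab k)
  exact hle hx ⟨σ, Subgroup.mem_zpowers σ⟩

/-- A unit at `A` (both `u` and `u⁻¹` in `A`) has valuation one. -/
theorem valuation_unit_eq_one {A : ValuationSubring (AlgebraicClosure ℚ)}
    (u : (AlgebraicClosure ℚ)ˣ) (hu : (u : AlgebraicClosure ℚ) ∈ A)
    (hu' : ((u⁻¹ : (AlgebraicClosure ℚ)ˣ) : AlgebraicClosure ℚ) ∈ A) :
    A.valuation (u : AlgebraicClosure ℚ) = 1 := by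
  have h1 : A.valuation (u : AlgebraicClosure ℚ) ≤ 1 := (A.valuation_le_one_iff _).2 hu
  have h2 : A.valuation ((u⁻¹ : (AlgebraicClosure ℚ)ˣ) : AlgebraicClosure ℚ) ≤ 1 :=
    (A.valuation_le_one_iff _).2 hu'
  have h3 : A.valuation (u : AlgebraicClosure ℚ)
      * A.valuation ((u⁻¹ : (AlgebraicClosure ℚ)ˣ) : AlgebraicClosure ℚ) = 1 := by
    rw [← map_mul, ← Units.val_mul, mul_inv_cancel, Units.val_one, map_one]
  refine le_antisymm h1 ?_
  calc (1 : A.ValueGroup)
      = A.valuation (u : AlgebraicClosure ℚ)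
        * A.valuation ((u⁻¹ : (AlgebraicClosure ℚ)ˣ) : AlgebraicClosure ℚ) := h3.symm
    _ ≤ A.valuation (u : AlgebraicClosure ℚ) * 1 := by gcongr
    _ = A.valuation (u : AlgebraicClosure ℚ) := mul_one _

/-- The level generated by the `p`-th roots of unity: a level of `S ∋ p` containing `μ_p`. -/
theorem exists_level_contains_roots (hpS : pPrime p ∈ S) :
    ∃ L₀ : Tow.Level S, ∀ ζ : Tow.Qbar, ζ ^ p = 1 → ζ ∈ L₀.F := by
  have hp : p.Prime := Fact.out
  haveI hnorm : (MonoidHom.ker (cycloChar p)).Normal := inferInstance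
  obtain ⟨L, hL, hgal, hfix, -⟩ := exists_galois_level_of_subgroup S
    (MonoidHom.ker (cycloChar p)) (cycloLevel p) (cycloLevel_finiteDimensional p)
    (fun s hs => MonoidHom.mem_ker.2 (cycloChar_eq_one_of_mem_fixingSubgroup p s hs))
    (fun q hq A hA g hg => by
      have hqp : (q : ℕ) ≠ p := by
        intro h
        apply hq
        have : q = pPrime p := Subtype.ext h
        rw [this]
        exact hpS
      exact MonoidHom.mem_ker.2 (cycloChar_eq_one_of_mem_inertia p q.2 hqp A hA g hg))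
  refine ⟨⟨L, hL, (InfiniteGalois.normal_iff_isGalois _).2 hgal⟩, fun ζ hζ => ?_⟩
  show ζ ∈ L
  rw [← InfiniteGalois.fixedField_fixingSubgroup L, IntermediateField.mem_fixedField_iff]
  intro σ hσ
  rw [hfix, MonoidHom.mem_ker, cycloChar_eq_one_iff] at hσ
  have hζ0 : ζ ≠ 0 := by
    rintro rfl
    rw [zero_pow hp.ne_zero] at hζ
    exact zero_ne_one hζ
  have hmem : Units.mk0 ζ hζ0 ∈ rootsOfUnity p (AlgebraicClosure ℚ) := by
    rw [mem_rootsOfUnity]
    apply Units.ext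
    rw [Units.val_pow_eq_pow_val, Units.val_mk0, hζ, Units.val_one]
  exact hσ (Units.mk0 ζ hζ0) hmem

/-- **GD9** in the frozen shape of `Spec/Datum.lean`. -/
theorem sUnitsDivSpec (hpS : pPrime p ∈ S) : Tow.SUnitsDivSpec S p := by
  have hp : p.Prime := Fact.out
  refine ⟨?_, exists_level_contains_roots S hpS⟩
  intro L e he
  -- a `p`-th root of the underlying unit
  let u : (AlgebraicClosure ℚ)ˣ := L.val e
  obtain ⟨β, hβ⟩ := IsAlgClosed.exists_pow_nat_eq (u : AlgebraicClosure ℚ) hp.pos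
  have hβ0 : β ≠ 0 := by
    rintro rfl
    rw [zero_pow hp.ne_zero] at hβ
    exact u.ne_zero hβ.symm
  -- `u ∈ F`
  have huF : (u : AlgebraicClosure ℚ) ∈ L.F := by
    rw [← InfiniteGalois.fixedField_fixingSubgroup L.F, IntermediateField.mem_fixedField_iff]
    intro σ hσ
    have h := L.unitsCoe_fixed e σ hσ
    have h' := congrArg (fun a : Tow.unitsQbar.V =>
      ((Additive.toMul (show Additive (AlgebraicClosure ℚ)ˣ from a) : (AlgebraicClosure ℚ)ˣ) :
        AlgebraicClosure ℚ)) h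
    exact h'
  -- valuations
  have hvu : ∀ q : Nat.Primes, q ∉ S → ∀ A : ValuationSubring (AlgebraicClosure ℚ),
      A.LiesOverPrime (q : ℕ) → A.valuation (u : AlgebraicClosure ℚ) = 1 := fun q hq A hA =>
    valuation_unit_eq_one u (he q hq A hA).1 (he q hq A hA).2
  have hvβ : ∀ q : Nat.Primes, q ∉ S → ∀ A : ValuationSubring (AlgebraicClosure ℚ),
      A.LiesOverPrime (q : ℕ) → A.valuation β = 1 := by
    intro q hq A hA
    have h := hvu q hq A hA
    rw [← hβ, map_pow] at h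
    exact (pow_eq_one_iff.1 h).resolve_right hp.ne_zero
  -- the Kummer level
  have hK : (L.F ⊔ ℚ⟮β⟯).IsUnramifiedOutside S :=
    isUnramifiedOutside_sup_adjoin_root_unit S hpS L.unram (by rw [hβ]; exact huF) hvβ
  obtain ⟨F', hF', hgal, hle⟩ := exists_galois_level_ge S _ hK
  let L' : Tow.Level S := ⟨F', hF', (InfiniteGalois.normal_iff_isGalois _).2 hgal⟩
  have h : L ≤ L' := le_sup_left.trans hle
  have hβF' : β ∈ F' :=
    hle (le_sup_right (a := L.F) (IntermediateField.mem_adjoin_simple_self ℚ β))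
  have hfix : ∀ g ∈ L'.U, Tow.unitsQbar.ρ g (Additive.ofMul (Units.mk0 β hβ0))
      = Additive.ofMul (Units.mk0 β hβ0) := by
    intro g hg
    apply Additive.toMul.injective
    apply Units.ext
    exact (IntermediateField.mem_fixingSubgroup_iff _ _).1 hg β hβF'
  refine ⟨L', h, L'.unitsMk (Additive.ofMul (Units.mk0 β hβ0)) hfix, ?_, ?_⟩
  · intro ℓ hℓ A hA
    have hv : A.valuation β = 1 := hvβ ℓ hℓ A hA
    constructor
    · show β ∈ A
      exact (A.valuation_le_one_iff β).1 hv.le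
    · show ((Units.mk0 β hβ0)⁻¹ : (AlgebraicClosure ℚ)ˣ).1 ∈ A
      rw [Units.val_inv_eq_inv_val, Units.val_mk0, ← A.valuation_le_one_iff, map_inv₀, hv,
        inv_one]
  · apply L'.unitsCoe_injective
    show p • (Additive.ofMul (Units.mk0 β hβ0) : Additive (AlgebraicClosure ℚ)ˣ) = L.unitsCoe e
    apply Additive.toMul.injective
    apply Units.ext
    show ((Units.mk0 β hβ0) ^ p : (AlgebraicClosure ℚ)ˣ).1 = (u : AlgebraicClosure ℚ)
    rw [Units.val_pow_eq_pow_val, Units.val_mk0, hβ]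

end Fermat.Agent.S55.Bridge

end
-- ===== PACK-END S55/Bridge/SUnitsDiv.lean

-- ===== PACK-BEGIN S55/H901/H1FinBound.lean
section



/-!
# S55 / G5: the bound field

For a number field `L ⊂ ℚ̄` and `n > 0` there is ONE finite extension `Lmax ⊇ L` containing every
`β ∈ ℚ̄` with `βⁿ ∈ L` that lies in some finite Galois extension of `ℚ` unramified outside `S`
(in the sense of the Prelude).  This is Kummer theory + finiteness of the Selmer group `L(S, n)`.

The translation "Prelude-unramified ⇒ classically unramified (`e = 1`)" is isolated as the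
hypothesis `UnramClassicalSpec S` (piece B10-classical of layer B).
-/

set_option autoImplicit false
set_option linter.style.haveILetI false
set_option linter.unusedSectionVars false

open IsDedekindDomain HeightOneSpectrum IntermediateField
open scoped NumberField

namespace Fermat.Agent.S55.H901

/-- A finite subextension of `ℚ̄/ℚ` is a number field. -/
theorem numberField_of_finiteDimensional (F : IntermediateField ℚ (AlgebraicClosure ℚ))
    [FiniteDimensional ℚ F] : NumberField F :=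
  { to_charZero := inferInstance, to_finiteDimensional := inferInstance }

/-- Classical unramifiedness outside `S` of the number field `F`: every finite prime of `F` whose
residue characteristic is not in `S` has ramification index `1` over `ℤ`. -/
def ClassicalUnram (S : Finset Nat.Primes) (F : Type*) [Field F] [NumberField F] : Prop :=
  ∀ (w : HeightOneSpectrum (𝓞 F)) (q : ℕ), q.Prime → (∀ s ∈ S, (s : ℕ) ≠ q) →
    ((q : ℕ) : 𝓞 F) ∈ w.asIdeal → (Ideal.span {(q : ℤ)}).ramificationIdx' w.asIdeal = 1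

/-- **B10-classical** (interface): a finite Galois extension of `ℚ` inside `ℚ̄` which is
unramified outside `S` in the sense of the Prelude is classically unramified outside `S`. -/
def UnramClassicalSpec (S : Finset Nat.Primes) : Prop :=
  ∀ (F : IntermediateField ℚ (AlgebraicClosure ℚ)) [NumberField F],
    F.IsUnramifiedOutside S → IsGalois ℚ F → ClassicalUnram S F

/-- The primes of a number field above a finite set of rational primes form a finite set. -/
theorem finite_primes_above (S : Finset Nat.Primes) (L : Type*) [Field L] [NumberField L] :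
    {v : HeightOneSpectrum (𝓞 L) | ∃ q ∈ S, (((q : Nat.Primes) : ℕ) : 𝓞 L) ∈ v.asIdeal}.Finite := by
  have : {v : HeightOneSpectrum (𝓞 L) | ∃ q ∈ S, (((q : Nat.Primes) : ℕ) : 𝓞 L) ∈ v.asIdeal} =
      ⋃ q ∈ S, {v : HeightOneSpectrum (𝓞 L) |
        v.asIdeal ∣ Ideal.span {(((q : Nat.Primes) : ℕ) : 𝓞 L)}} := by
    ext v
    simp only [Set.mem_ofPred_eq, Set.mem_iUnion, exists_prop, Ideal.dvd_iff_le,
      Ideal.span_singleton_le_iff_mem]
  rw [this]
  refine Set.Finite.biUnion S.finite_toSet (fun q _ => Ideal.finite_factors ?_)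
  rw [Ne, Ideal.zero_eq_bot, Ideal.span_singleton_eq_bot]
  exact_mod_cast q.2.ne_zero

/-- **The bound field.** -/
theorem exists_bound_field (S : Finset Nat.Primes) (hB : UnramClassicalSpec S) {n : ℕ}
    (hn : 0 < n) (L : IntermediateField ℚ (AlgebraicClosure ℚ)) [FiniteDimensional ℚ L] :
    ∃ Lmax : IntermediateField ℚ (AlgebraicClosure ℚ), FiniteDimensional ℚ Lmax ∧ L ≤ Lmax ∧
      ∀ F : IntermediateField ℚ (AlgebraicClosure ℚ), F.IsUnramifiedOutside S → IsGalois ℚ F →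
        L ≤ F → ∀ β : AlgebraicClosure ℚ, β ∈ F → β ≠ 0 → β ^ n ∈ L → β ∈ Lmax := by
  classical
  haveI : NumberField L := numberField_of_finiteDimensional L
  obtain ⟨R, hR⟩ := exists_finset_selmer_reps (F := L) (finite_primes_above S L) hn
  set W : Set (AlgebraicClosure ℚ) :=
    {x | ∃ r ∈ R, x ^ n = (((r : Lˣ) : L) : AlgebraicClosure ℚ)} with hWdef
  have hW : W.Finite := by
    have : W = ⋃ r ∈ R, {x : AlgebraicClosure ℚ | x ^ n = (((r : Lˣ) : L) : AlgebraicClosure ℚ)} := by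
      ext x
      simp only [hWdef, Set.mem_ofPred_eq, Set.mem_iUnion, exists_prop]
    rw [this]
    refine Set.Finite.biUnion R.finite_toSet (fun r _ => ?_)
    refine Set.Finite.subset (Polynomial.nthRoots n
      (((r : Lˣ) : L) : AlgebraicClosure ℚ)).toFinset.finite_toSet ?_
    intro x hx
    simpa [Polynomial.mem_nthRoots hn] using hx
  haveI : Finite W := hW.to_subtype
  haveI : FiniteDimensional ℚ (adjoin ℚ W) :=
    finiteDimensional_adjoin (K := ℚ)
      (fun x _ => ((AlgebraicClosure.isAlgebraic ℚ).isAlgebraic x).isIntegral)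
  refine ⟨L ⊔ adjoin ℚ W, finiteDimensional_sup _ _, le_sup_left, ?_⟩
  intro F hF hgal hLF β hβF hβ0 hβL
  haveI := hF.1
  haveI : NumberField F := numberField_of_finiteDimensional F
  letI : Algebra L F := (inclusion hLF).toRingHom.toAlgebra
  have hb0 : (⟨β ^ n, hβL⟩ : L) ≠ 0 := by
    intro h
    have := congrArg (Subtype.val) h
    exact pow_ne_zero n hβ0 this
  have key : ∀ v : HeightOneSpectrum (𝓞 L),
      v ∉ {v : HeightOneSpectrum (𝓞 L) | ∃ q ∈ S, (((q : Nat.Primes) : ℕ) : 𝓞 L) ∈ v.asIdeal} →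
      (n : ℤ) ∣ Multiplicative.toAdd (v.valuationOfNeZero (Units.mk0 _ hb0)) := by
    intro v hv
    refine dvd_toAdd_valuationOfNeZero_of_unramified (K := L) (E := F)
      {q : ℕ | ∃ s ∈ S, ((s : Nat.Primes) : ℕ) = q} ?_ v ?_ n (Units.mk0 _ hb0) ⟨β, hβF⟩ ?_
    · intro w q hq hqS hqw
      exact hB F hF hgal w q hq (fun s hs h => hqS ⟨s, hs, h⟩) hqw
    · rintro q ⟨s, hs, rfl⟩ hmem
      exact hv ⟨s, hs, hmem⟩
    · apply Subtype.ext
      rfl
  obtain ⟨r, hr, y, hy⟩ := hR _ key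
  have hy' : β ^ n = (((r : Lˣ) : L) : AlgebraicClosure ℚ) * (((y : Lˣ) : L) : AlgebraicClosure ℚ) ^ n := by
    have := congrArg (fun u : Lˣ => (((u : Lˣ) : L) : AlgebraicClosure ℚ)) hy
    simpa using this
  have hy0 : (((y : Lˣ) : L) : AlgebraicClosure ℚ) ≠ 0 := by
    intro h
    exact y.ne_zero (Subtype.ext h)
  have hmemW : β / (((y : Lˣ) : L) : AlgebraicClosure ℚ) ∈ W := by
    refine ⟨r, hr, ?_⟩
    rw [div_pow, hy', mul_div_assoc, div_self (pow_ne_zero n hy0), mul_one]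
  have h1 : β / (((y : Lˣ) : L) : AlgebraicClosure ℚ) ∈ L ⊔ adjoin ℚ W :=
    (le_sup_right : adjoin ℚ W ≤ L ⊔ adjoin ℚ W) (subset_adjoin ℚ W hmemW)
  have h2 : (((y : Lˣ) : L) : AlgebraicClosure ℚ) ∈ L ⊔ adjoin ℚ W :=
    (le_sup_left : L ≤ L ⊔ adjoin ℚ W) (y : L).2
  have := mul_mem h1 h2
  rwa [div_mul_cancel₀ _ hy0] at this

end Fermat.Agent.S55.H901

end
-- ===== PACK-END S55/H901/H1FinBound.lean

-- ===== PACK-BEGIN S55/G/SIndH237/Spec.lean
section
/-
S55 (Poitou–Tate), layer G, leaf G-SIND (`SIndepSpec`, independence of `S`) — sub-interface.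
Owner / mini-architect: helper237.  Plan: `coord/S55-G-SIND.md` on `origin/helper237`.

Only definitions and `def XxxSpec : Prop` (no `sorry`).  The assembly
`SIndH237/Assembly.lean` proves

    sIndep_of : ApproxSpec → IntSpec → PrescribedOrdSpec → UnitsCohTrivSpec →
      TwinVanishingSpec (layer T) → SIndepSpec.

INTEGRAL MODEL.  For a finite set `T` of primes:
* `ZS T ⊂ ℚ_T = ∏_{q ∈ T} ℚ_q`   : the subring `∏ ℤ_q` (all components of norm `≤ 1`);
* `RS T L ⊂ L ⊗ ℚ_T`             : the subring generated by `𝒪_L ⊗ 1` and `1 ⊗ ℤ_T`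
                                   (`= 𝒪_L ⊗ ℤ_T = ∏_{w | T} 𝒪_w`);
* `UT T L ⊂ J_T(L)`              : its unit group (`= ∏_{w | T} 𝒪_wˣ`), an additive subgroup
                                   of `Additive (L ⊗ ℚ_T)ˣ`;
* `URep T G L : Rep ℤ G`         : `UT` with the Galois action.
-/


set_option autoImplicit false
set_option linter.unusedSectionVars false

open scoped NumberField TensorProduct
open IsDedekindDomain CategoryTheory

noncomputable section

namespace Fermat.Agent.S55.G.SIndH237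

open Fermat.Agent.S55.G

/-! ## 1. The integral model -/

/-- `ℤ_T = ∏_{q ∈ T} ℤ_q` as a subring of `ℚ_T`. -/
def ZS (T : Finset Nat.Primes) : Subring (QS T) where
  carrier := {c | ∀ q : T, ‖QS.toPi T c q‖ ≤ 1}
  mul_mem' {a b} ha hb q := by
    have h1 : QS.toPi T (a * b) q = QS.toPi T a q * QS.toPi T b q := rfl
    rw [h1, norm_mul]
    exact mul_le_one₀ (ha q) (norm_nonneg _) (hb q)
  one_mem' q := by
    have h1 : QS.toPi T 1 q = 1 := rfl
    rw [h1, norm_one]
  add_mem' {a b} ha hb q := by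
    have h1 : QS.toPi T (a + b) q = QS.toPi T a q + QS.toPi T b q := rfl
    rw [h1]
    have : Fact (q.1 : ℕ).Prime := ⟨q.1.2⟩
    exact (Padic.nonarchimedean _ _).trans (max_le (ha q) (hb q))
  zero_mem' q := by
    have h1 : QS.toPi T 0 q = 0 := rfl
    rw [h1, norm_zero]
    exact zero_le_one
  neg_mem' {a} ha q := by
    have h1 : QS.toPi T (-a) q = -QS.toPi T a q := rfl
    rw [h1, norm_neg]
    exact ha q

lemma mem_ZS_iff (T : Finset Nat.Primes) (c : QS T) :
    c ∈ ZS T ↔ ∀ q : T, ‖QS.toPi T c q‖ ≤ 1 := Iff.rfl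

variable (T : Finset Nat.Primes) (G L : Type) [Group G] [Field L] [NumberField L]
  [MulSemiringAction G L]

/-- The generators of the integral model: `a ⊗ 1` (`a ∈ 𝒪_L`) and `1 ⊗ c` (`c ∈ ℤ_T`). -/
def rsGen : Set (AS T L) :=
  {z | ∃ a : 𝓞 L, z = (a : L) ⊗ₜ[ℚ] (1 : QS T)} ∪ {z | ∃ c ∈ ZS T, z = (1 : L) ⊗ₜ[ℚ] c}

/-- The integral model `𝒪_L ⊗ ℤ_T` inside `L ⊗ ℚ_T`. -/
def RS : Subring (AS T L) := Subring.closure (rsGen T L)

/-- The unit group `U_T(L)` of the integral model, as an additive subgroup of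
`J_T(L) = Additive (L ⊗ ℚ_T)ˣ`. -/
def UT : AddSubgroup (Additive (AS T L)ˣ) where
  carrier := {u | ((u.toMul : (AS T L)ˣ) : AS T L) ∈ RS T L ∧
    (((u.toMul)⁻¹ : (AS T L)ˣ) : AS T L) ∈ RS T L}
  add_mem' {a b} ha hb := by
    refine ⟨?_, ?_⟩
    · change ((a.toMul * b.toMul : (AS T L)ˣ) : AS T L) ∈ RS T L
      rw [Units.val_mul]
      exact (RS T L).mul_mem ha.1 hb.1
    · change (((a.toMul * b.toMul)⁻¹ : (AS T L)ˣ) : AS T L) ∈ RS T L
      rw [mul_inv, Units.val_mul]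
      exact (RS T L).mul_mem ha.2 hb.2
  zero_mem' := by
    refine ⟨?_, ?_⟩
    · change ((1 : (AS T L)ˣ) : AS T L) ∈ RS T L
      rw [Units.val_one]
      exact (RS T L).one_mem
    · change (((1 : (AS T L)ˣ)⁻¹ : (AS T L)ˣ) : AS T L) ∈ RS T L
      rw [inv_one, Units.val_one]
      exact (RS T L).one_mem
  neg_mem' {a} ha := by
    refine ⟨?_, ?_⟩
    · change (((a.toMul)⁻¹ : (AS T L)ˣ) : AS T L) ∈ RS T L
      exact ha.2
    · change ((((a.toMul)⁻¹)⁻¹ : (AS T L)ˣ) : AS T L) ∈ RS T L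
      rw [inv_inv]
      exact ha.1

lemma mem_UT_iff (u : Additive (AS T L)ˣ) :
    u ∈ UT T L ↔ ((u.toMul : (AS T L)ˣ) : AS T L) ∈ RS T L ∧
      (((u.toMul)⁻¹ : (AS T L)ˣ) : AS T L) ∈ RS T L := Iff.rfl

/-! ## 2. Galois action on the integral model -/

lemma asAut_mem_rsGen (g : G) {z : AS T L} (hz : z ∈ rsGen T L) :
    asAut T G L g z ∈ rsGen T L := by
  rcases hz with ⟨a, rfl⟩ | ⟨c, hc, rfl⟩
  · left
    refine ⟨g • a, ?_⟩
    rw [asAut_tmul]
    rfl
  · right
    refine ⟨c, hc, ?_⟩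
    rw [asAut_tmul, smul_one]

lemma asAut_mem_RS (g : G) {z : AS T L} (hz : z ∈ RS T L) : asAut T G L g z ∈ RS T L := by
  induction hz using Subring.closure_induction with
  | mem x hx => exact Subring.subset_closure (asAut_mem_rsGen T G L g hx)
  | zero => rw [map_zero]; exact (RS T L).zero_mem
  | one => rw [map_one]; exact (RS T L).one_mem
  | add x y _ _ hx hy => rw [map_add]; exact (RS T L).add_mem hx hy
  | neg x _ hx => rw [map_neg]; exact (RS T L).neg_mem hx
  | mul x y _ _ hx hy => rw [map_mul]; exact (RS T L).mul_mem hx hy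

lemma UT_stable (g : G) : (UT T L).toIntSubmodule ≤ (UT T L).toIntSubmodule.comap (jRepr G T L g) := by
  intro u hu
  have hu' : u ∈ UT T L := hu
  change jRepr G T L g u ∈ UT T L
  refine ⟨?_, ?_⟩
  · rw [coe_jRepr_apply]
    exact asAut_mem_RS T G L g hu'.1
  · have h1 : (jRepr G T L g u).toMul⁻¹ = (jRepr G T L g (-u)).toMul := by
      rw [map_neg]; rfl
    rw [h1, coe_jRepr_apply]
    exact asAut_mem_RS T G L g hu'.2

/-- The representation of `G` on `U_T(L)`. -/
def uRepr : Representation ℤ G (UT T L).toIntSubmodule :=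
  (jRepr G T L).subrepresentation (UT T L).toIntSubmodule (UT_stable T G L)

/-- `U_T(L)` as an object of `Rep ℤ G`. -/
def URep : Rep ℤ G := Rep.of (uRepr T G L)

/-- The inclusion `U_T(L) ⟶ J_T(L)` in `Rep ℤ G`. -/
def uInclRepHom : URep T G L ⟶ JRep G T L :=
  Rep.ofHom ⟨(UT T L).toIntSubmodule.subtype, fun _ => LinearMap.ext fun _ => rfl⟩

/-! ## 3. The sub-leaves -/

/-- **SIND-APPROX** (weak approximation).  `J_T(L) = Lˣ · U_T(L)`: every `T`-idèle is the
product of a principal idèle and an integral unit idèle.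
(Proof: write `j = ∑ xᵢ ⊗ cᵢ`, approximate the `cᵢ ∈ ℚ_T` by rationals modulo a high power of
`n = ∏_{q ∈ T} q` (CRT + `Padic.rat_dense`), get `y ∈ L` with `j⁻¹ (y ⊗ 1) ∈ 1 + n · RS`;
`n` lies in the Jacobson radical of `ℤ_T`, `RS` is integral over `ℤ_T`, so `1 + n · RS ⊆ RSˣ`.) -/
def ApproxSpec : Prop :=
  ∀ (T : Finset Nat.Primes) (L : Type) [Field L] [NumberField L] (j : Additive (AS T L)ˣ),
    ∃ x : Additive Lˣ, ∃ u ∈ UT T L, j = unitsDiag T L x + u

/-- **SIND-INT** (principal integral units).  For `x ∈ Lˣ`: `x ⊗ 1 ∈ U_T(L)` iff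
`ord_w x = 0` for all primes `w` of `L` above `T`.
(Proof: with a `ℤ`-basis `b_k` of `𝒪_L`, `RS = ⊕ b_k ⊗ ℤ_T`, `L ⊗ ℚ_T = ⊕ b_k ⊗ ℚ_T`; so
`x ⊗ 1 ∈ RS` iff the coordinates of `x` lie in `ℤ_(q)` for all `q ∈ T` iff `x ∈ 𝒪_L[1/s]`,
`s` prime to `T`, iff `ord_w x ≥ 0` for all `w | T`.) -/
def IntSpec : Prop :=
  ∀ (T : Finset Nat.Primes) (L : Type) [Field L] [NumberField L] (x : Additive Lˣ),
    unitsDiag T L x ∈ UT T L ↔
      ∀ w : HeightOneSpectrum (𝓞 L), IsAbove T L w → ordAt w x = 0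

/-- **SIND-ORD** (prescribed orders).  Every divisor supported above `T` is the `T`-part of
the divisor of some `x ∈ Lˣ`.  (Dedekind domain: CRT with uniformisers.) -/
def PrescribedOrdSpec : Prop :=
  ∀ (T : Finset Nat.Primes) (L : Type) [Field L] [NumberField L]
    (d : HeightOneSpectrum (𝓞 L) →₀ ℤ), (∀ w, d w ≠ 0 → IsAbove T L w) →
    ∃ x : Additive Lˣ, ∀ w : HeightOneSpectrum (𝓞 L), IsAbove T L w → ordAt w x = d w

/-- `L/L^G` is unramified at the primes above `T`: all inertia groups above `T` are trivial. -/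
def IsUnramAbove (T : Finset Nat.Primes) (G L : Type) [Group G] [Field L] [NumberField L]
    [MulSemiringAction G L] : Prop :=
  ∀ w : HeightOneSpectrum (𝓞 L), IsAbove T L w →
    ∀ g : G, (∀ x : 𝓞 L, g • x - x ∈ w.asIdeal) → ∀ x : L, g • x = x

/-- **SIND-UCT** (unit idèles at unramified primes are cohomologically trivial).
If `L/L^G` is unramified at all primes above `T`, then `H¹(H, U_T(L)) = H²(H, U_T(L)) = 0` for
every subgroup `H ≤ G`.
(Routes: (a) `U_T = ∏_{orbits} Coind_{D_w}^H 𝒪_wˣ` (Shapiro, `T.ShapiroRecognitionSpec`,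
`T.FiniteProdSpec`) + local statements `Local.UnramUnitsH1/H2Statement`; or (b) directly:
filtration `1 + 𝔔^j · RS`, `𝔔 = ∏_{w | T} w`, graded pieces are modules over `RS` which contains
an element of trace `1` (unramified ⇒ trace form nondegenerate), residue step
`(𝒪_L/𝔔)ˣ = ∏ k_wˣ` by Shapiro + Hilbert 90 + `Local.MulH2FiniteFieldStatement`, and the
successive approximation lemmas `Local.FiltH1Statement`, `Local.FiltH2Statement`.) -/
def UnitsCohTrivSpec : Prop :=
  ∀ (T : Finset Nat.Primes) (G L : Type) [Group G] [Finite G] [Field L] [NumberField L]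
    [MulSemiringAction G L] [FaithfulSMul G L],
    IsUnramAbove T G L →
    ∀ H : Subgroup G,
      Limits.IsZero (groupCohomology (Fermat.Agent.S55.T.resSub (URep T G L) H) 1) ∧
      Limits.IsZero (groupCohomology (Fermat.Agent.S55.T.resSub (URep T G L) H) 2)

end Fermat.Agent.S55.G.SIndH237

end
end
-- ===== PACK-END S55/G/SIndH237/Spec.lean

-- ===== PACK-BEGIN S55/G/Rec/Loc/RefineH123.lean
section


/-!
# S55 / layer G / block REC / sub-block LOC : leaf LOC-REF `RefineSpec`   (helper123)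

For finite Galois levels `E ≤ E'` over `K_V` and a cocycle `f` on `Gal(E / K_V)`, the cocycle
`f' (g, h) := f (g|_E, h|_E)` (pushed to `E'ˣ`) on `Gal(E' / K_V)`

* has the same absolute inflation to `V` as `f`, and
* is an inflation of `f` in the sense of `L.IsInflation` (for the inclusion algebra `E → E'`),
  hence has the same invariant for every `J : L.InvFamily`.

Main result: `refine123 : RefineSpec` (no hypotheses).
-/

set_option autoImplicit false
set_option linter.style.haveILetI false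
set_option linter.unusedSectionVars false

noncomputable section

namespace Fermat.Agent.S55.G.Rec.Loc.H123

open groupCohomology Fermat.Agent.S55.G.Rec Fermat.Agent.S55.G.Rec.Loc

section Abstract

variable {K E E' : Type} [Field K] [Field E] [Field E'] [Algebra K E] [Algebra K E']
  [Algebra E E'] [IsScalarTower K E E'] [Normal K E]

/-- The inflated cochain on `Gal(E'/K)`. -/
def inflFun (f : (E ≃ₐ[K] E) × (E ≃ₐ[K] E) → L.unitsRep K E) :
    (E' ≃ₐ[K] E') × (E' ≃ₐ[K] E') → L.unitsRep K E' :=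
  fun p => Additive.ofMul (Units.map (algebraMap E E' : E →* E')
    (Additive.toMul (f (AlgEquiv.restrictNormalHom E p.1, AlgEquiv.restrictNormalHom E p.2))))

lemma inflFun_mem_cocycles₂ (f : cocycles₂ (L.unitsRep K E)) :
    inflFun (E' := E') (f : (E ≃ₐ[K] E) × (E ≃ₐ[K] E) → L.unitsRep K E) ∈
      cocycles₂ (L.unitsRep K E') := by
  rw [mem_cocycles₂_iff]
  intro g h j
  have hf := (mem_cocycles₂_iff (f : (E ≃ₐ[K] E) × (E ≃ₐ[K] E) → L.unitsRep K E)).1 f.2
    (AlgEquiv.restrictNormalHom E g) (AlgEquiv.restrictNormalHom E h)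
    (AlgEquiv.restrictNormalHom E j)
  rw [← map_mul, ← map_mul] at hf
  set F := (f : (E ≃ₐ[K] E) × (E ≃ₐ[K] E) → L.unitsRep K E) with hF
  have hf' : ((Additive.toMul (F (AlgEquiv.restrictNormalHom E (g * h),
        AlgEquiv.restrictNormalHom E j)) : Eˣ) : E) *
      ((Additive.toMul (F (AlgEquiv.restrictNormalHom E g,
        AlgEquiv.restrictNormalHom E h)) : Eˣ) : E) =
      (AlgEquiv.restrictNormalHom E g) ((Additive.toMul (F (AlgEquiv.restrictNormalHom E h,
        AlgEquiv.restrictNormalHom E j)) : Eˣ) : E) *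
      ((Additive.toMul (F (AlgEquiv.restrictNormalHom E g,
        AlgEquiv.restrictNormalHom E (h * j))) : Eˣ) : E) :=
    congrArg (fun x : L.unitsRep K E => ((Additive.toMul x : Eˣ) : E)) hf
  apply Additive.toMul.injective
  apply Units.ext
  show algebraMap E E' ((Additive.toMul (F (AlgEquiv.restrictNormalHom E (g * h),
        AlgEquiv.restrictNormalHom E j)) : Eˣ) : E) *
      algebraMap E E' ((Additive.toMul (F (AlgEquiv.restrictNormalHom E g,
        AlgEquiv.restrictNormalHom E h)) : Eˣ) : E) =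
      g (algebraMap E E' ((Additive.toMul (F (AlgEquiv.restrictNormalHom E h,
        AlgEquiv.restrictNormalHom E j)) : Eˣ) : E)) *
      algebraMap E E' ((Additive.toMul (F (AlgEquiv.restrictNormalHom E g,
        AlgEquiv.restrictNormalHom E (h * j))) : Eˣ) : E)
  rw [← AlgEquiv.restrictNormal_commutes g E, ← map_mul, ← map_mul]
  exact congrArg _ hf'

end Abstract

/-- **LOC-REF** (`RefineSpec` of `Loc/Spec.lean`). -/
theorem refine123 : RefineSpec := by
  intro q _ V _ E E' _ _ _ _ hEE' f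
  letI : Algebra E E' := (IntermediateField.inclusion hEE').toRingHom.toAlgebra
  haveI : IsScalarTower (fixedFld q V) E E' :=
    IsScalarTower.of_algebraMap_eq fun _ => rfl
  haveI : IsScalarTower E E' (PadicAlgCl q) :=
    IsScalarTower.of_algebraMap_eq fun _ => rfl
  refine ⟨⟨inflFun (E' := E') (f : (E ≃ₐ[fixedFld q V] E) × (E ≃ₐ[fixedFld q V] E) →
      L.unitsRep (fixedFld q V) E), inflFun_mem_cocycles₂ f⟩, ?_, ?_⟩
  · intro c hc
    unfold IsAbsInflation at hc ⊢
    rw [hc]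
    funext p
    have h1 : AlgEquiv.restrictNormalHom E (resHom q V E' p.1) = resHom q V E p.1 :=
      (IsScalarTower.AlgEquiv.restrictNormalHom_comp_apply (F := fixedFld q V)
        (K₃ := PadicAlgCl q) E E' (toAbsGal q V p.1)).symm
    have h2 : AlgEquiv.restrictNormalHom E (resHom q V E' p.2) = resHom q V E p.2 :=
      (IsScalarTower.AlgEquiv.restrictNormalHom_comp_apply (F := fixedFld q V)
        (K₃ := PadicAlgCl q) E E' (toAbsGal q V p.2)).symm
    apply Additive.toMul.injective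
    apply Units.ext
    show _ = algebraMap E' (PadicAlgCl q) (algebraMap E E'
      (((Additive.toMul ((f : (E ≃ₐ[fixedFld q V] E) × (E ≃ₐ[fixedFld q V] E) →
        L.unitsRep (fixedFld q V) E) (AlgEquiv.restrictNormalHom E (resHom q V E' p.1),
          AlgEquiv.restrictNormalHom E (resHom q V E' p.2))) : (↥E)ˣ) : E)))
    rw [h1, h2]
    rfl
  · intro J
    exact J.inv_inflation (fixedFld q V) E E' f _ (fun g h => rfl)

end Fermat.Agent.S55.G.Rec.Loc.H123

end

end
-- ===== PACK-END S55/G/Rec/Loc/RefineH123.lean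

-- ===== PACK-BEGIN S55/Bridge/RestrictInertia.lean
section


/-!
# S55 bridge, part B14 (inertia) and B10 (unramifiedness at finite level)

* `exists_mem_inertia_restrict_eq`: restriction `I_A → I_{A ∩ F}` is onto (`F/ℚ` normal).
* `inertia_le_fixingSubgroup_iff`: `I_A ≤ G_F` for all `A` over `q` iff the inertia groups of the
  places `A ∩ F` of `F` are trivial.
-/

set_option autoImplicit false
set_option linter.style.haveILetI false

namespace Fermat.Agent.S55.Bridge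

open scoped Pointwise
open Fermat.Agent.S54

attribute [local instance] isAlgebraic_Qbar isGalois_Qbar

section

variable (A : ValuationSubring (AlgebraicClosure ℚ))

/-- Elements of the decomposition group preserve the maximal ideal. -/
theorem mem_nonunits_of_mem_decomposition {σ : AlgebraicClosure ℚ ≃ₐ[ℚ] AlgebraicClosure ℚ}
    (hσ : σ ∈ A.decompositionSubgroup ℚ) (x : AlgebraicClosure ℚ) :
    σ x ∈ A.nonunits ↔ x ∈ A.nonunits := by
  rw [mem_decompositionSubgroup_iff] at hσ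
  rw [mem_nonunits_iff_inv_not_mem, mem_nonunits_iff_inv_not_mem, ← map_inv₀, hσ,
    map_eq_zero_iff _ σ.injective]

/-- If `σ ∈ D_A` moves every algebraic integer by an element of the maximal ideal, then
`σ ∈ I_A`. -/
theorem mem_inertia_of_forall_integral {q : ℕ} (hq : q.Prime) (hA : A.LiesOverPrime q)
    {σ : AlgebraicClosure ℚ ≃ₐ[ℚ] AlgebraicClosure ℚ}
    (hσ : σ ∈ A.decompositionSubgroup ℚ)
    (h : ∀ b : AlgebraicClosure ℚ, IsIntegral ℤ b → σ b - b ∈ A.nonunits) :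
    σ ∈ A.inertiaSubgroupIn ℚ := by
  rw [mem_inertiaSubgroupIn_iff]
  refine ⟨hσ, fun x hx => ?_⟩
  obtain ⟨b, s, hb, hs, hsn, hxs⟩ := (mem_valuationSubring_iff A q hq hA x).1 hx
  have hbA : b ∈ A := isIntegral_mem_valuationSubring A hb
  have hsA : s ∈ A := isIntegral_mem_valuationSubring A hs
  have vs : A.valuation s = 1 := by
    refine le_antisymm ((A.valuation_le_one_iff s).2 hsA) ?_
    rw [ValuationSubring.mem_nonunits_iff, not_lt] at hsn
    exact hsn
  have hσsn : σ s ∉ A.nonunits := fun h' => hsn ((mem_nonunits_of_mem_decomposition A hσ s).1 h')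
  have hσsA : σ s ∈ A := ((mem_decompositionSubgroup_iff A σ).1 hσ s).2 hsA
  have vσs : A.valuation (σ s) = 1 := by
    refine le_antisymm ((A.valuation_le_one_iff _).2 hσsA) ?_
    rw [ValuationSubring.mem_nonunits_iff, not_lt] at hσsn
    exact hσsn
  have hb1 : A.valuation (σ b - b) < 1 := (ValuationSubring.mem_nonunits_iff A).1 (h b hb)
  have hs1 : A.valuation (σ s - s) < 1 := (ValuationSubring.mem_nonunits_iff A).1 (h s hs)
  have key : (σ x - x) * (σ s * s) = (σ b - b) * s - b * (σ s - s) := by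
    have h1 : σ x * σ s = σ b := by rw [← map_mul, hxs]
    linear_combination s * h1 - σ s * hxs
  have hv : A.valuation ((σ x - x) * (σ s * s)) < 1 := by
    rw [key]
    refine lt_of_le_of_lt (Valuation.map_sub _ _ _) (max_lt ?_ ?_)
    · rw [map_mul, vs, mul_one]
      exact hb1
    · rw [map_mul]
      calc A.valuation b * A.valuation (σ s - s) ≤ 1 * A.valuation (σ s - s) :=
            mul_le_mul_left ((A.valuation_le_one_iff b).2 hbA) _
        _ = A.valuation (σ s - s) := one_mul _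
        _ < 1 := hs1
  rw [map_mul, map_mul, vσs, vs, mul_one, mul_one] at hv
  exact (ValuationSubring.mem_nonunits_iff A).2 hv

end

section Lift

variable (F : IntermediateField ℚ (AlgebraicClosure ℚ))

/-- **B14 (inertia groups).** If `F/ℚ` is normal and `σ ∈ G_ℚ` stabilises the place `A ∩ F` of `F`
and acts trivially on its residue field, then `σ|_F` is the restriction of an element of the
inertia group of `A`. -/
theorem exists_mem_inertia_restrict_eq (hF : F.fixingSubgroup.Normal)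
    {A : ValuationSubring (AlgebraicClosure ℚ)} {q : ℕ} (hq : q.Prime) (hA : A.LiesOverPrime q)
    (σ : AlgebraicClosure ℚ ≃ₐ[ℚ] AlgebraicClosure ℚ) (hσD : ∀ x ∈ F, σ x ∈ A ↔ x ∈ A)
    (hσI : ∀ x ∈ F, x ∈ A → σ x - x ∈ A.nonunits) :
    ∃ σ' ∈ A.inertiaSubgroupIn ℚ, ∀ x ∈ F, σ' x = σ x := by
  -- step 1: we may assume `σ ∈ D_A`
  obtain ⟨σ₁, hσ₁D, hσ₁F⟩ := exists_mem_decomposition_restrict_eq F hF hq hA σ hσD
  have hσ₁I : ∀ x ∈ F, x ∈ A → σ₁ x - x ∈ A.nonunits := fun x hx hxA => by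
    rw [hσ₁F x hx]; exact hσI x hx hxA
  -- step 2: the profinite group `G_F` acting on `ℤ̄`
  letI : TopologicalSpace (integralClosure ℤ (AlgebraicClosure ℚ)) := ⊥
  haveI : DiscreteTopology (integralClosure ℤ (AlgebraicClosure ℚ)) := ⟨rfl⟩
  haveI := compactSpace_fixingSubgroup F
  haveI := totallyDisconnectedSpace_fixingSubgroup F
  haveI := continuousSMul_fixingSubgroup F
  haveI := smulCommClass_fixedPoints F
  haveI := isInvariant_fixedPoints F
  haveI hQprime := primeBelow_isPrime A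
  haveI hlies : (primeBelow A).LiesOver ((primeBelow A).under
      (FixedPoints.subalgebra ℤ (integralClosure ℤ (AlgebraicClosure ℚ)) ↥F.fixingSubgroup)) :=
    ⟨rfl⟩
  have hσ₁Q : σ₁ • primeBelow A = primeBelow A := by
    rw [← primeBelow_smul, MulAction.mem_stabilizer_iff.1 hσ₁D]
  -- the automorphism of `ℤ̄ / Q` induced by `σ₁`
  let e₀ : (integralClosure ℤ (AlgebraicClosure ℚ) ⧸ primeBelow A) ≃+*
      (integralClosure ℤ (AlgebraicClosure ℚ) ⧸ primeBelow A) :=
    Ideal.quotientEquiv (primeBelow A) (primeBelow A)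
      (MulSemiringAction.toRingEquiv (AlgebraicClosure ℚ ≃ₐ[ℚ] AlgebraicClosure ℚ)
        (integralClosure ℤ (AlgebraicClosure ℚ)) σ₁) hσ₁Q.symm
  have he₀ : ∀ b : integralClosure ℤ (AlgebraicClosure ℚ),
      e₀ (Ideal.Quotient.mk _ b) = Ideal.Quotient.mk _ (σ₁ • b) := fun b => rfl
  let e : (integralClosure ℤ (AlgebraicClosure ℚ) ⧸ primeBelow A) ≃ₐ[
      (FixedPoints.subalgebra ℤ (integralClosure ℤ (AlgebraicClosure ℚ)) ↥F.fixingSubgroup) ⧸
        (primeBelow A).under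
          (FixedPoints.subalgebra ℤ (integralClosure ℤ (AlgebraicClosure ℚ)) ↥F.fixingSubgroup)]
      (integralClosure ℤ (AlgebraicClosure ℚ) ⧸ primeBelow A) :=
    AlgEquiv.ofRingEquiv (f := e₀) (by
      intro y
      obtain ⟨a, rfl⟩ := Ideal.Quotient.mk_surjective y
      show e₀ (Ideal.Quotient.mk _ (a.1)) = Ideal.Quotient.mk _ (a.1)
      rw [he₀, Ideal.Quotient.eq, mem_primeBelow]
      have haF : ((a.1 : integralClosure ℤ (AlgebraicClosure ℚ)) : AlgebraicClosure ℚ) ∈ F := by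
        apply mem_of_fixed_by_fixingSubgroup
        intro g hg
        have := a.2 ⟨g, hg⟩
        exact congrArg Subtype.val this
      exact hσ₁I _ haF (isIntegral_mem_valuationSubring A a.1.2))
  obtain ⟨τ, hτ⟩ := Ideal.Quotient.stabilizerHom_surjective_of_profinite
    (G := ↥F.fixingSubgroup)
    ((primeBelow A).under
      (FixedPoints.subalgebra ℤ (integralClosure ℤ (AlgebraicClosure ℚ)) ↥F.fixingSubgroup))
    (primeBelow A) e
  -- `τ ∈ G_F` stabilises `Q` and induces the same automorphism as `σ₁`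
  have hτQ : (τ.1.1 : AlgebraicClosure ℚ ≃ₐ[ℚ] AlgebraicClosure ℚ) • primeBelow A
      = primeBelow A := τ.2
  have hτD : (τ.1.1 : AlgebraicClosure ℚ ≃ₐ[ℚ] AlgebraicClosure ℚ) ∈ A.decompositionSubgroup ℚ := by
    rw [MulAction.mem_stabilizer_iff]
    apply valuationSubring_ext_of_primeBelow hq (liesOverPrime_smul A _ q hA) hA
    rw [primeBelow_smul, hτQ]
  have hτσ : ∀ b : integralClosure ℤ (AlgebraicClosure ℚ),
      (τ.1.1 : AlgebraicClosure ℚ ≃ₐ[ℚ] AlgebraicClosure ℚ) (b : AlgebraicClosure ℚ)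
        - σ₁ (b : AlgebraicClosure ℚ) ∈ A.nonunits := by
    intro b
    have h1 := congrArg (fun f => f (Ideal.Quotient.mk _ b)) hτ
    simp only [Ideal.Quotient.stabilizerHom_apply] at h1
    have h2 : e (Ideal.Quotient.mk _ b) = Ideal.Quotient.mk _ (σ₁ • b) := he₀ b
    rw [h2, Ideal.Quotient.eq, mem_primeBelow] at h1
    exact h1
  refine ⟨(τ.1.1)⁻¹ * σ₁, ?_, ?_⟩
  · apply mem_inertia_of_forall_integral A hq hA
      (Subgroup.mul_mem _ (Subgroup.inv_mem _ hτD) hσ₁D)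
    intro b hb
    have h3 := hτσ ⟨b, hb⟩
    have h4 : ((τ.1.1)⁻¹ * σ₁) b - b
        = (τ.1.1 : AlgebraicClosure ℚ ≃ₐ[ℚ] AlgebraicClosure ℚ)⁻¹
            (-((τ.1.1 : AlgebraicClosure ℚ ≃ₐ[ℚ] AlgebraicClosure ℚ) b - σ₁ b)) := by
      rw [map_neg, map_sub]
      have h5 : (τ.1.1 : AlgebraicClosure ℚ ≃ₐ[ℚ] AlgebraicClosure ℚ)⁻¹ ((τ.1.1) b) = b := by
        show ((τ.1.1)⁻¹ * τ.1.1) b = b
        rw [inv_mul_cancel]
        rfl
      rw [h5]
      show (τ.1.1)⁻¹ (σ₁ b) - b = _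
      ring
    rw [h4, mem_nonunits_of_mem_decomposition A (Subgroup.inv_mem _ hτD)]
    exact A.nonunits.neg_mem h3
  · intro x hx
    rw [← hσ₁F x hx]
    show (τ.1.1)⁻¹ (σ₁ x) = σ₁ x
    have hmem : σ₁ x ∈ F := map_mem_of_normal F hF σ₁ hx
    exact (IntermediateField.mem_fixingSubgroup_iff F _).1 (Subgroup.inv_mem _ τ.1.2) _ hmem

end Lift

end Fermat.Agent.S55.Bridge

end
-- ===== PACK-END S55/Bridge/RestrictInertia.lean

-- ===== PACK-BEGIN S55/KL/KummerH3H289.lean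
section


/-!
# S55, layer KB, leaf KB-KUM3 (helper289): the finite-level Kummer chase in degree 3

`kummerH3_of : DeltaNatSpec → KummerH3Spec`  (the closed form `kummerH3 : KummerH3Spec` is in
`KummerH3ClosedH289.lean`, which plugs in `H304.deltaNat`).

Let `A` be smooth and `p`-divisible with `colim H³(A)[p] = 0` and `colim H²(A) ⊗ ℤ/p = 0`.
For `y ∈ H³(Γ ⧸ V, (A[p])^V)`:

1. `p • ι_* y = 0`, so `ι_* y` dies at a level `V₁` (`EffTors`);
2. at level `V₁` the sequence `0 → (A[p])^{V₁} → A^{V₁} → p • A^{V₁} → 0` (`ses1`) gives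
   `infl y = δ z`, `z ∈ H²(p • A^{V₁})`;
3. at a level `V₂`, `infl (j_* z) = p • w` (`EffDiv`), so `z₂ := infl z - π_* w` is killed by `j_*`
   and the sequence `0 → p • A^{V₂} → A^{V₂} → A^{V₂} ⧸ p → 0` (`ses2`) gives `z₂ = δ' u`,
   `u ∈ H¹(A^{V₂} ⧸ p)`;
4. `u` dies at a level `V₃` (`kill_H1`: the finitely many values of a cocycle representing `u`
   have `p`-th roots in `A`, all fixed by a common level);
5. hence `infl z = π_* (infl w)` at level `V₃` and `infl y = δ π_* (infl w) = 0`.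
-/

set_option autoImplicit false
set_option linter.style.haveILetI false

open CategoryTheory groupCohomology

namespace Fermat.Agent.S55.KL.H289

open Fermat.Agent.S55.KL

variable {k : Type} [CommRing k] {G : Type} [Group G]

/-- Exactness of the long exact sequence at `Hʲ(X₁)`, elementwise. -/
lemma exists_δ_eq {X : ShortComplex (Rep.{0} k G)} (hX : X.ShortExact) (i j : ℕ) (hij : i + 1 = j)
    (y : groupCohomology X.X₁ j)
    (hy : (groupCohomology.map (MonoidHom.id G) X.f j).hom y = 0) :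
    ∃ z : groupCohomology X.X₃ i, (δ hX i j hij).hom z = y := by
  have hex := mapShortComplex₁_exact hX hij
  rw [ShortComplex.moduleCat_exact_iff_ker_sub_range] at hex
  obtain ⟨z, hz⟩ := hex hy
  exact ⟨z, hz⟩

/-- `δ ∘ g_* = 0`, elementwise. -/
lemma δ_map_g {X : ShortComplex (Rep.{0} k G)} (hX : X.ShortExact) (i j : ℕ) (hij : i + 1 = j)
    (w : groupCohomology X.X₂ i) :
    (δ hX i j hij).hom ((groupCohomology.map (MonoidHom.id G) X.g i).hom w) = 0 := by
  have h := (mapShortComplex₃ hX hij).zero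
  exact congrArg (fun F => F.hom w) h

/-- A commutative square of coefficient maps over a group homomorphism. -/
lemma map_sq_id {G' : Type} [Group G'] (f : G' →* G) {A A' : Rep.{0} k G} {B B' : Rep.{0} k G'}
    (α : A ⟶ A') (β : B ⟶ B') (φ : Rep.res f A ⟶ B) (φ' : Rep.res f A' ⟶ B')
    (h : ∀ a : A.V, φ'.hom (α.hom a) = β.hom (φ.hom a)) (n : ℕ) (x : groupCohomology A n) :
    (groupCohomology.map f φ' n).hom ((groupCohomology.map (MonoidHom.id G) α n).hom x) =
      (groupCohomology.map (MonoidHom.id G') β n).hom ((groupCohomology.map f φ n).hom x) :=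
  map_sq_apply (MonoidHom.id G) f f (MonoidHom.id G') α φ' φ β rfl h n x

section Levels

variable {Γ : Type} [Group Γ] (A : Rep.{0} k Γ) (p : ℕ)

/-- `A^W` as a representation of `Γ ⧸ W`. -/
noncomputable abbrev BL (W : Subgroup Γ) [W.Normal] : Rep.{0} k (Γ ⧸ W) :=
  A.quotientToInvariants W

/-- `(A[p])^W` as a representation of `Γ ⧸ W`. -/
noncomputable abbrev ML (W : Subgroup Γ) [W.Normal] : Rep.{0} k (Γ ⧸ W) :=
  (tors A p).quotientToInvariants W

/-- The transition homomorphism `Γ ⧸ W' → Γ ⧸ W`. -/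
def qL {W' W : Subgroup Γ} [W'.Normal] [W.Normal] (h : W' ≤ W) : Γ ⧸ W' →* Γ ⧸ W :=
  QuotientGroup.map W' W (MonoidHom.id Γ) (by simpa using h)

lemma qL_comp {W'' W' W : Subgroup Γ} [W''.Normal] [W'.Normal] [W.Normal] (h' : W'' ≤ W')
    (h : W' ≤ W) : (qL h).comp (qL h') = qL (h'.trans h) := by
  ext g
  rfl

lemma qL_refl (W : Subgroup Γ) [W.Normal] : qL (le_refl W) = MonoidHom.id (Γ ⧸ W) := by
  ext g
  rfl

/-- The transition map `A^W → A^{W'}`. -/
noncomputable def tB {W' W : Subgroup Γ} [W'.Normal] [W.Normal] (h : W' ≤ W) :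
    Rep.res (qL h) (BL A W) ⟶ BL A W' :=
  invMap (MonoidHom.id Γ) (W := W) (W' := W') (by simpa using h) (𝟙 A)

lemma tB_apply_coe {W' W : Subgroup Γ} [W'.Normal] [W.Normal] (h : W' ≤ W) (b : (BL A W).V) :
    (show ↥(Representation.invariants (A.ρ.comp W'.subtype)) from (tB A h).hom b).1 =
      (show ↥(Representation.invariants (A.ρ.comp W.subtype)) from b).1 := rfl

lemma infl_eq {W' W : Subgroup Γ} [W'.Normal] [W.Normal] (h : W' ≤ W) (n : ℕ) :
    infl A h n = groupCohomology.map (qL h) (tB A h) n := rfl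

/-- The inclusion `(A[p])^W ⟶ A^W` as a morphism of representations of `Γ ⧸ W`. -/
noncomputable def iotaL (W : Subgroup Γ) [W.Normal] : ML A p W ⟶ BL A W :=
  Rep.ofHom ⟨invMapLin (MonoidHom.id Γ) (W := W) (W' := W) (by simp) (torsIncl A p), fun g => by
    induction g using QuotientGroup.induction_on with
    | H g =>
      ext b
      rfl⟩

lemma iotaL_apply_coe (W : Subgroup Γ) [W.Normal] (x : (ML A p W).V) :
    (show ↥(Representation.invariants (A.ρ.comp W.subtype)) from (iotaL A p W).hom x).1 =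
      ((show ↥(Representation.invariants ((tors A p).ρ.comp W.subtype)) from x).1 :
        ↥(torsSub A p)).1 := rfl

lemma push_torsIncl_eq (W : Subgroup Γ) [W.Normal] (n : ℕ) :
    push (torsIncl A p) W n = groupCohomology.map (MonoidHom.id (Γ ⧸ W)) (iotaL A p W) n :=
  groupCohomology.map_congr (qL_refl W) rfl n

/-- The transition map `(A[p])^W → (A[p])^{W'}`. -/
noncomputable def tM {W' W : Subgroup Γ} [W'.Normal] [W.Normal] (h : W' ≤ W) :
    Rep.res (qL h) (ML A p W) ⟶ ML A p W' :=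
  invMap (MonoidHom.id Γ) (W := W) (W' := W') (by simpa using h) (𝟙 (tors A p))

lemma infl_tors_eq {W' W : Subgroup Γ} [W'.Normal] [W.Normal] (h : W' ≤ W) (n : ℕ) :
    infl (tors A p) h n = groupCohomology.map (qL h) (tM A p h) n := rfl

lemma iotaL_comp_pMul (W : Subgroup Γ) [W.Normal] : iotaL A p W ≫ pMul (BL A W) p = 0 := by
  apply Rep.hom_ext
  apply DFunLike.ext
  intro x
  apply Subtype.ext
  apply Subtype.ext
  exact ((show ↥(Representation.invariants ((tors A p).ρ.comp W.subtype)) from x).1 :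
        ↥(torsSub A p)).2

/-- The first Kummer sequence at level `W`: `0 → (A[p])^W → A^W → p • A^W → 0`. -/
noncomputable def ses1 (W : Subgroup Γ) [W.Normal] : ShortComplex (Rep.{0} k (Γ ⧸ W)) :=
  ShortComplex.mk (iotaL A p W) (pMul (BL A W) p) (iotaL_comp_pMul A p W)

lemma ses1_shortExact (W : Subgroup Γ) [W.Normal] : (ses1 A p W).ShortExact where
  exact := by
    rw [← ShortComplex.exact_map_iff_of_faithful _ (forget₂ (Rep k (Γ ⧸ W)) (ModuleCat k)),
      ShortComplex.moduleCat_exact_iff_ker_sub_range]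
    intro b hb
    have hb' : (pMul (BL A W) p).hom (show (BL A W).V from b) = 0 := hb
    have hb1 : p • (show ↥(Representation.invariants (A.ρ.comp W.subtype)) from b).1 = 0 :=
      congrArg (fun x : ↥(pSub (BL A W) p) =>
        ((x.1 : ↥(Representation.invariants (A.ρ.comp W.subtype))).1 : A.V)) hb'
    refine ⟨(⟨(⟨(show ↥(Representation.invariants (A.ρ.comp W.subtype)) from b).1, hb1⟩ :
      ↥(torsSub A p)), fun w => Subtype.ext
        ((show ↥(Representation.invariants (A.ρ.comp W.subtype)) from b).2 w)⟩ :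
        ↥(Representation.invariants ((tors A p).ρ.comp W.subtype))), rfl⟩
  mono_f := by
    rw [Rep.mono_iff_injective]
    intro x y hxy
    apply Subtype.ext
    apply Subtype.ext
    exact congrArg (fun z : ↥(Representation.invariants (A.ρ.comp W.subtype)) => (z.1 : A.V)) hxy
  epi_g := by
    rw [Rep.epi_iff_surjective]
    exact pMul_surjective (BL A W) p

/-- The transition map `p • A^W → p • A^{W'}`. -/
noncomputable abbrev tP {W' W : Subgroup Γ} [W'.Normal] [W.Normal] (h : W' ≤ W) :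
    Rep.res (qL h) (pImg (BL A W) p) ⟶ pImg (BL A W') p :=
  pImgMap (qL h) (tB A h) p

/-- The transition map `A^W ⧸ p → A^{W'} ⧸ p`. -/
noncomputable abbrev tQ {W' W : Subgroup Γ} [W'.Normal] [W.Normal] (h : W' ≤ W) :
    Rep.res (qL h) (pCok (BL A W) p) ⟶ pCok (BL A W') p :=
  pCokMap (qL h) (tB A h) p

/-- Naturality of `δ` for the first Kummer sequence under inflation. -/
lemma δ_ses1_nat (hnat : DeltaNatSpec) {W' W : Subgroup Γ} [W'.Normal] [W.Normal] (h : W' ≤ W)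
    (i j : ℕ) (hij : i + 1 = j) (z : groupCohomology (pImg (BL A W) p) i) :
    (infl (tors A p) h j).hom ((δ (ses1_shortExact A p W) i j hij).hom z) =
      (δ (ses1_shortExact A p W') i j hij).hom
        ((groupCohomology.map (qL h) (tP A p h) i).hom z) := by
  have key := hnat k (Γ ⧸ W') (Γ ⧸ W) (qL h) (ses1 A p W) (ses1_shortExact A p W)
    (ses1 A p W') (ses1_shortExact A p W') (tM A p h) (tB A h) (tP A p h)
    (by
      apply Rep.hom_ext
      apply DFunLike.ext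
      intro x
      rfl)
    (by
      apply Rep.hom_ext
      apply DFunLike.ext
      intro x
      exact pImgMap_pMul (qL h) (tB A h) p x)
    i j hij
  exact congrArg (fun F => F.hom z) key

/-- Naturality of `δ` for the second Kummer sequence under inflation. -/
lemma δ_ses2_nat (hnat : DeltaNatSpec) {W' W : Subgroup Γ} [W'.Normal] [W.Normal] (h : W' ≤ W)
    (i j : ℕ) (hij : i + 1 = j) (u : groupCohomology (pCok (BL A W) p) i) :
    (groupCohomology.map (qL h) (tP A p h) j).hom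
        ((δ (ses2_shortExact (BL A W) p) i j hij).hom u) =
      (δ (ses2_shortExact (BL A W') p) i j hij).hom
        ((groupCohomology.map (qL h) (tQ A p h) i).hom u) := by
  have key := hnat k (Γ ⧸ W') (Γ ⧸ W) (qL h) (ses2 (BL A W) p) (ses2_shortExact (BL A W) p)
    (ses2 (BL A W') p) (ses2_shortExact (BL A W') p) (tP A p h) (tB A h) (tQ A p h)
    (by
      apply Rep.hom_ext
      apply DFunLike.ext
      intro x
      rfl)
    (by
      apply Rep.hom_ext
      apply DFunLike.ext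
      intro x
      rfl)
    i j hij
  exact congrArg (fun F => F.hom u) key

/-- A finite family of levels has a common lower bound (below a given level). -/
lemma exists_common_level (N : NLevels Γ) {ι : Type} [Finite ι] (f : ι → Subgroup Γ)
    (hf : ∀ i, f i ∈ N.carrier) (V₀ : N.Lvl) :
    ∃ X : N.Lvl, X.W ≤ V₀.W ∧ ∀ i, X.W ≤ f i := by
  classical
  haveI : Fintype ι := Fintype.ofFinite ι
  have key : ∀ s : Finset ι, ∃ X : N.Lvl, X.W ≤ V₀.W ∧ ∀ i ∈ s, X.W ≤ f i := by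
    intro s
    induction s using Finset.induction_on with
    | empty => exact ⟨V₀, le_rfl, fun i hi => absurd hi (Finset.notMem_empty i)⟩
    | insert a s _ ih =>
      obtain ⟨X, hX₀, hX⟩ := ih
      obtain ⟨Y, hYX, hYa⟩ := N.exists_le X ⟨f a, hf a⟩
      refine ⟨Y, hYX.trans hX₀, fun i hi => ?_⟩
      rcases Finset.mem_insert.1 hi with rfl | hi
      · exact hYa
      · exact hYX.trans (hX i hi)
  obtain ⟨X, hX₀, hX⟩ := key Finset.univ
  exact ⟨X, hX₀, fun i => hX i (Finset.mem_univ i)⟩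

/-- **KILL.** Every class in `H¹(Γ ⧸ V, A^V ⧸ p)` dies at a smaller level. -/
lemma kill_H1 (N : NLevels Γ) (hs : IsSmooth N A) (hd : IsDivisibleBy A p) (V : N.Lvl)
    (u : groupCohomology (pCok (BL A V.W) p) 1) :
    ∃ (V' : N.Lvl) (h : V'.W ≤ V.W),
      (groupCohomology.map (qL h) (tQ A p h) 1).hom u = 0 := by
  induction u using H1_induction_on with
  | h c =>
    haveI : Finite (Γ ⧸ V.W) := Subgroup.finite_quotient_of_finiteIndex
    have h1 : ∀ g : Γ ⧸ V.W, ∃ a : (BL A V.W).V, (pProj (BL A V.W) p).hom a = c.1 g :=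
      fun g => pProj_surjective (BL A V.W) p (c.1 g)
    choose a ha using h1
    have h2 : ∀ g : Γ ⧸ V.W, ∃ b : A.V,
        p • b = (show ↥(Representation.invariants (A.ρ.comp V.W.subtype)) from a g).1 :=
      fun g => hd _
    choose b hb using h2
    have h3 : ∀ g : Γ ⧸ V.W, ∃ W ∈ N.carrier, ∀ w ∈ W, A.ρ w (b g) = b g := fun g => hs (b g)
    choose Wg hWg hfix using h3
    obtain ⟨V', hV', hle⟩ := exists_common_level N Wg hWg V
    refine ⟨V', hV', ?_⟩
    have hmap := H1π_comp_map_apply (qL hV') (tQ A p hV') c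
    refine hmap.trans ?_
    have hzero : (mapCocycles₁ (qL hV') (tQ A p hV')).hom c = 0 := by
      apply Subtype.ext
      funext g'
      show (tQ A p hV').hom (c.1 (qL hV' g')) = 0
      rw [← ha, pCokMap_pProj, pProj_eq_zero_iff]
      refine ⟨(⟨b (qL hV' g'), fun w => hfix _ w.1 (hle _ w.2)⟩ :
        ↥(Representation.invariants (A.ρ.comp V'.W.subtype))), ?_⟩
      apply Subtype.ext
      exact hb (qL hV' g')
    rw [hzero, map_zero]

/-! ### Compatibilities on cohomology -/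

section Compat

variable {W' W : Subgroup Γ} [W'.Normal] [W.Normal] (h : W' ≤ W) (n : ℕ)

lemma iotaL_infl (y : groupCohomology (ML A p W) n) :
    (groupCohomology.map (MonoidHom.id (Γ ⧸ W')) (iotaL A p W') n).hom
        ((infl (tors A p) h n).hom y) =
      (infl A h n).hom ((push (torsIncl A p) W n).hom y) := by
  rw [push_torsIncl_eq]
  exact (map_sq_id (qL h) (iotaL A p W) (iotaL A p W') (tM A p h) (tB A h)
    (fun _ => rfl) n y).symm

lemma pIncl_tP (z : groupCohomology (pImg (BL A W) p) n) :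
    (groupCohomology.map (MonoidHom.id (Γ ⧸ W')) (pIncl (BL A W') p) n).hom
        ((groupCohomology.map (qL h) (tP A p h) n).hom z) =
      (infl A h n).hom
        ((groupCohomology.map (MonoidHom.id (Γ ⧸ W)) (pIncl (BL A W) p) n).hom z) :=
  (map_sq_id (qL h) (pIncl (BL A W) p) (pIncl (BL A W') p) (tP A p h) (tB A h)
    (fun _ => rfl) n z).symm

lemma tP_pMul (w : groupCohomology (BL A W) n) :
    (groupCohomology.map (qL h) (tP A p h) n).hom
        ((groupCohomology.map (MonoidHom.id (Γ ⧸ W)) (pMul (BL A W) p) n).hom w) =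
      (groupCohomology.map (MonoidHom.id (Γ ⧸ W')) (pMul (BL A W') p) n).hom
        ((infl A h n).hom w) :=
  map_sq_id (qL h) (pMul (BL A W) p) (pMul (BL A W') p) (tB A h) (tP A p h)
    (fun a => pImgMap_pMul (qL h) (tB A h) p a) n w

variable {W'' : Subgroup Γ} [W''.Normal] (h' : W'' ≤ W')

lemma tP_tP (z : groupCohomology (pImg (BL A W) p) n) :
    (groupCohomology.map (qL h') (tP A p h') n).hom
        ((groupCohomology.map (qL h) (tP A p h) n).hom z) =
      (groupCohomology.map (qL (h'.trans h)) (tP A p (h'.trans h)) n).hom z :=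
  map_tri_apply (qL h) (qL h') (qL (h'.trans h)) (tP A p h) (tP A p h') (tP A p (h'.trans h))
    (qL_comp h' h) (fun _ => rfl) n z

lemma infl_infl_tors (y : groupCohomology (ML A p W) n) :
    (infl (tors A p) h' n).hom ((infl (tors A p) h n).hom y) =
      (infl (tors A p) (h'.trans h) n).hom y :=
  map_tri_apply (qL h) (qL h') (qL (h'.trans h)) (tM A p h) (tM A p h') (tM A p (h'.trans h))
    (qL_comp h' h) (fun _ => rfl) n y

end Compat

lemma pIncl_pMul_apply {G : Type} [Group G] (B : Rep.{0} k G) (n : ℕ)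
    (w : groupCohomology B n) :
    (groupCohomology.map (MonoidHom.id G) (pIncl B p) n).hom
        ((groupCohomology.map (MonoidHom.id G) (pMul B p) n).hom w) = p • w := by
  rw [← map_id_nsmul_id_apply B p n w, ← pMul_comp_pIncl]
  exact map_tri_apply (MonoidHom.id G) (MonoidHom.id G) (MonoidHom.id G) (pMul B p) (pIncl B p)
    (pMul B p ≫ pIncl B p) rfl (fun _ => rfl) n w

end Levels

/-- **KB-KUM3**, assuming KB-NAT. -/
theorem kummerH3_of (hnat : DeltaNatSpec) : KummerH3Spec := by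
  intro k Γ _ _ N A p _ hs hd hT hD V y
  -- Step 1: `ι_* y` is killed by `p`, hence effaceable.
  have hpy : p • y = 0 := nsmul_eq_zero_of_kills (ML A p V.W) p 3 (fun a => by
    apply Subtype.ext
    apply Subtype.ext
    exact ((show ↥(Representation.invariants ((tors A p).ρ.comp V.W.subtype)) from a).1 :
        ↥(torsSub A p)).2) y
  have hx : p • (push (torsIncl A p) V.W 3).hom y = 0 := by
    rw [← map_nsmul, hpy, map_zero]
  obtain ⟨V₁, h₁, hV₁⟩ := hT V _ hx
  have hy₁0 : (groupCohomology.map (MonoidHom.id (Γ ⧸ V₁.W)) (iotaL A p V₁.W) 3).hom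
      ((infl (tors A p) h₁ 3).hom y) = 0 := by
    rw [iotaL_infl A p h₁ 3 y]
    exact hV₁
  -- Step 2: `infl y = δ z`.
  obtain ⟨z, hz⟩ := exists_δ_eq (ses1_shortExact A p V₁.W) 2 3 rfl
    ((infl (tors A p) h₁ 3).hom y) hy₁0
  -- Step 3: correct `z` by a multiple of `p`.
  obtain ⟨V₂, h₂, w, hw⟩ :=
    hD V₁ ((groupCohomology.map (MonoidHom.id (Γ ⧸ V₁.W)) (pIncl (BL A V₁.W) p) 2).hom z)
  have hz₂ : (groupCohomology.map (MonoidHom.id (Γ ⧸ V₂.W)) (pIncl (BL A V₂.W) p) 2).hom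
      ((groupCohomology.map (qL h₂) (tP A p h₂) 2).hom z -
        (groupCohomology.map (MonoidHom.id (Γ ⧸ V₂.W)) (pMul (BL A V₂.W) p) 2).hom w) = 0 := by
    rw [map_sub, sub_eq_zero, pIncl_tP A p h₂ 2 z, pIncl_pMul_apply p (BL A V₂.W) 2 w]
    exact hw
  obtain ⟨u, hu⟩ := exists_δ_eq (ses2_shortExact (BL A V₂.W) p) 1 2 rfl _ hz₂
  -- Step 4: kill `u`.
  obtain ⟨V₃, h₃, hV₃⟩ := kill_H1 A p N hs hd V₂ u
  -- Step 5: conclude.
  have e1 : (groupCohomology.map (qL h₃) (tP A p h₃) 2).hom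
      ((groupCohomology.map (qL h₂) (tP A p h₂) 2).hom z -
        (groupCohomology.map (MonoidHom.id (Γ ⧸ V₂.W)) (pMul (BL A V₂.W) p) 2).hom w) = 0 := by
    rw [← hu, δ_ses2_nat A p hnat h₃ 1 2 rfl u, hV₃]
    exact map_zero (δ (ses2_shortExact (BL A V₃.W) p) 1 2 rfl).hom
  rw [map_sub, sub_eq_zero, tP_tP A p h₂ 2 h₃ z, tP_pMul A p h₃ 2 w] at e1
  have e4 : (infl (tors A p) (h₃.trans h₂) 3).hom ((infl (tors A p) h₁ 3).hom y) = 0 := by
    rw [← hz, δ_ses1_nat A p hnat (h₃.trans h₂) 2 3 rfl z, e1]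
    exact δ_map_g (ses1_shortExact A p V₃.W) 2 3 rfl _
  refine ⟨V₃, (h₃.trans h₂).trans h₁, ?_⟩
  rw [← e4]
  exact (infl_infl_tors A p h₁ 3 (h₃.trans h₂) y).symm

end Fermat.Agent.S55.KL.H289

end
-- ===== PACK-END S55/KL/KummerH3H289.lean

-- ===== PACK-BEGIN S56/Euler/H896/Herb.lean
section
/-
S56 / W-BASE / leaf **EUL-HERB** (helper896): the equivariant `T`-unit theorem mod `p`,
in characteristic-polynomial form.

`L/K` Galois extension of number fields, `T` a finite set of primes of `K`, `τ ∈ Gal(L/K)`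
ARBITRARY, `p` ANY prime.  Vocabulary of the landed block `S55/G` (`SpecUnits`, `OrdH707`):
`sUnits K L T ≤ Additive Lˣ` (the `T`-units of `L`), `unitsHom K L τ` (the action of `τ`),
`primesAbove K L T` with the action `OrdH707.actX`.

`herbCharpoly` : for every model `(V, π, g)` of `E_T/p` with the endomorphism induced by `τ`
and every model `(W, ι, gμ)` of `μ_p(L)`:

  `charpoly(g) · (X - 1)
      = charpoly(gμ) · charpoly(τ | 𝔽_p^{InfinitePlace L}) · charpoly(τ | 𝔽_p^{primesAbove T})`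

where `τ` acts on functions by `(τ a) w = a (τ⁻¹ • w)`.
For `τ` of order prime to `p` this is the identity
`[E_T/p] = [μ_p] + [𝔽_p[S_∞]] + [𝔽_p[T_L]] - [𝔽_p]` in `G₀(𝔽_p[⟨τ⟩])`.
-/





set_option autoImplicit false
set_option linter.style.haveILetI false
set_option linter.unusedSimpArgs false
set_option linter.unusedVariables false
set_option linter.unusedSectionVars false

namespace Fermat.Agent.S56.Euler.H896

open Polynomial NumberField IsDedekindDomain Fermat.Agent.S55.G Fermat.Agent.S55.G.OrdH707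

universe u v

section Stability

variable (K : Type u) (L : Type v) [Field K] [Field L] [NumberField K] [NumberField L]
  [Algebra K L] [IsGalois K L] (T : Finset (HeightOneSpectrum (𝓞 K)))

lemma valuation_unitsHom (τ : L ≃ₐ[K] L) (w : HeightOneSpectrum (𝓞 L)) (x : Additive Lˣ) :
    w.valuation L ((Additive.toMul (unitsHom K L τ x) : Lˣ) : L) =
      (smulH K L τ⁻¹ w).valuation L ((Additive.toMul x : Lˣ) : L) := by
  have h := valuation_smulH K L τ (smulH K L τ⁻¹ w) ((Additive.toMul x : Lˣ) : L)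
  rw [← smulH_mul, mul_inv_cancel, smulH_one] at h
  exact h

lemma unitsHom_mem_intUnits (τ : L ≃ₐ[K] L) (x : Additive Lˣ) (hx : x ∈ intUnits L) :
    unitsHom K L τ x ∈ intUnits L := by
  rw [mem_intUnits_iff] at hx ⊢
  intro w
  rw [valuation_unitsHom]
  exact hx _

lemma unitsHom_mem_sUnits (τ : L ≃ₐ[K] L) (x : Additive Lˣ) (hx : x ∈ sUnits K L T) :
    unitsHom K L τ x ∈ sUnits K L T := by
  rw [mem_sUnits_iff] at hx ⊢
  intro w hw
  rw [valuation_unitsHom]
  apply hx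
  intro h
  apply hw
  have := smulH_mem K L T τ h
  rwa [← smulH_mul, mul_inv_cancel, smulH_one] at this

lemma torsion_mem_sUnits (n : ℕ) (hn : n ≠ 0) (x : Additive Lˣ) (hx : n • x = 0) :
    x ∈ sUnits K L T := by
  rw [mem_sUnits_iff]
  intro w _
  have h1 : (Additive.toMul x : Lˣ) ^ n = 1 := by
    have := congrArg Additive.toMul hx
    simpa using this
  have h2 : (w.valuation L ((Additive.toMul x : Lˣ) : L)) ^ n = 1 := by
    rw [← map_pow, ← Units.val_pow_eq_pow_val, h1, Units.val_one, map_one]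
  exact (pow_eq_one_iff_of_nonneg zero_le hn).1 h2

end Stability

section Main

variable (K : Type u) (L : Type v) [Field K] [Field L] [NumberField K] [NumberField L]
  [Algebra K L] [IsGalois K L] (T : Finset (HeightOneSpectrum (𝓞 K)))

/-- The permutation action of `τ` on `𝔽_p`-valued functions on the infinite places of `L`:
`(τ a) w = a (τ⁻¹ • w)`. -/
noncomputable def permInf (p : ℕ) (τ : L ≃ₐ[K] L) :
    (InfinitePlace L → ZMod p) →ₗ[ZMod p] (InfinitePlace L → ZMod p) :=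
  _root_.Fermat.Agent.S56.Euler.H896.permLin (ZMod p) (fun w : InfinitePlace L => τ⁻¹ • w)

/-- The permutation action of `τ` on `𝔽_p`-valued functions on the primes of `L` above `T`:
`(τ a) w = a (τ⁻¹ • w)` (action `OrdH707.actX`). -/
noncomputable def permFin (p : ℕ) (τ : L ≃ₐ[K] L) :
    (↥(primesAbove K L T) → ZMod p) →ₗ[ZMod p] (↥(primesAbove K L T) → ZMod p) :=
  letI := actX K L T
  _root_.Fermat.Agent.S56.Euler.H896.permLin (ZMod p) (fun w : ↥(primesAbove K L T) => τ⁻¹ • w)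

/-- **EUL-HERB** (characteristic polynomial form). -/
theorem herbCharpoly (τ : L ≃ₐ[K] L) (p : ℕ) [Fact p.Prime]
    {V : Type*} [AddCommGroup V] [Module (ZMod p) V] [Module.Finite (ZMod p) V]
    (g : V →ₗ[ZMod p] V) (π : ↥(sUnits K L T) →+ V) (hπ : Function.Surjective π)
    (hπk : ∀ a, π a = 0 → ∃ b, a = p • b)
    (hg : ∀ a b : ↥(sUnits K L T), (b : Additive Lˣ) = unitsHom K L τ a → π b = g (π a))
    {W : Type*} [AddCommGroup W] [Module (ZMod p) W] [Module.Finite (ZMod p) W]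
    (gμ : W →ₗ[ZMod p] W) (ι : W →+ Additive Lˣ) (hι : Function.Injective ι)
    (hιr : ∀ a, a ∈ ι.range ↔ p • a = 0)
    (hgμ : ∀ w, ι (gμ w) = unitsHom K L τ (ι w)) :
    letI := fintypeX K L T
    g.charpoly * (Polynomial.X - 1) =
      gμ.charpoly * (permInf K L p τ).charpoly * (permFin K L T p τ).charpoly := by
  classical
  letI := actX K L T
  letI := fintypeX K L T
  obtain ⟨φ, hφeq, hφfin, r, b, hb, hspan, hUφ⟩ := Log101.unitsLogSpec.{u, v} K L
  exact herb_core (unitsHom K L τ) (intUnits L) (sUnits K L T)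
    (_root_.Fermat.Agent.S56.Euler.H896.unitsHom_mem_intUnits K L τ) (unitsHom_mem_sUnits K L T τ)
    (fun w : InfinitePlace L => τ⁻¹ • w) (MulAction.bijective τ⁻¹)
    (fun w : ↥(primesAbove K L T) => τ⁻¹ • w)
    φ (fun a => hφeq τ a) hφfin r b hb hspan hUφ
    (_root_.Fermat.Agent.S55.G.OrdH707.ordHom K L T) (fun a => _root_.Fermat.Agent.S55.G.OrdH707.ordHom_equivariant K L T τ a)
    (ker_inf_sUnits K L T) (index_map_ordHom K L T)
    p g π hπ hπk hg gμ ι hι
    (fun a => by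
      rw [hιr]
      exact ⟨fun h => ⟨torsion_mem_sUnits K L T p (Fact.out : p.Prime).ne_zero a h, h⟩,
        fun h => h.2⟩)
    hgμ

end Main

end Fermat.Agent.S56.Euler.H896

end
-- ===== PACK-END S56/Euler/H896/Herb.lean

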