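import Mathlib
import Fermat.Agent.Pack.S56.E9L0
import Fermat.Agent.Pack.S56.E1L3
import Fermat.Agent.Pack.S56.E9L2
import Fermat.Agent.Pack.S56.E5L2
import Fermat.Agent.Pack.S56.E9L3
import Fermat.Agent.Pack.S56.E10L0
import Fermat.Agent.Pack.S56.E1L1
import Fermat.Agent.Pack.S56.E8L3
import Fermat.Agent.Pack.S56.E8L1
import Fermat.Agent.Pack.S56.E8L0
import Fermat.Agent.Pack.S56.E8L2
import Fermat.Agent.Pack.S56.E2L2
import Fermat.Agent.Pack.S56.E5L3
import Fermat.Agent.Pack.S56.E7L1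
import Fermat.Agent.Pack.S56.E4L3

-- ===== PACK-BEGIN S56/FL/RamGlue.lean
section


/-!
# Row S56 — wall W-FLAT-SS, piece RAMCOUNT: glue (helper426).  Sorry-free.

`ramCount_of : RCTame → RCInfl → RCWild → RCBreak → RCLine → RamCountStatement`.
-/

set_option autoImplicit false

open Polynomial IsLocalRing

noncomputable section

namespace Fermat.Agent.S56.FL

/-- Glue for the ramification count. -/
theorem ramCount_of (hT : RCTameStatement) (hI : RCInflStatement) (hW : RCWildStatement)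
    (hB : RCBreakStatement) (hL : RCLineStatement) : RamCountStatement := by
  intro p hpf hp2 A B _ _ _ _ _ _ _ _ _ _ Γ _ _ _ _ _ _ hA hκ e he hD k _ _ hchar V _ _ _ hV ρ
    hirr hsplit ζ hζ hdet c₁ c₂ hc₁ hc₂ htr₁ htr₂ hfaith
  let d : RCDatum :=
    { p := p, A := A, B := B, Γ := Γ, k := k, V := V, hp := hpf.out, hp2 := hp2, hA := hA,
      hκ := hκ, e := e, he := he, hD := hD, hchar := hchar, hV := hV, ρ := ρ, hirr := hirr,
      hsplit := hsplit, ζ := ζ, hζ := hζ, hdet := hdet, c₁ := c₁, c₂ := c₂, hc₁ := hc₁,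
      hc₂ := hc₂, htr₁ := htr₁, htr₂ := htr₂, hfaith := hfaith }
  have hT' : ¬ p ∣ ρ.ker.index := hT d
  have hW' : d.KerEqWild := hW d hT'
  obtain ⟨a₁, a₂, ha, hker⟩ := hL d hT' hW' (hB d hT' hW')
  have := hchar
  obtain ⟨m, hm⟩ := hI p Γ k V ρ hT' (fun σ => a₁ • c₁ σ + a₂ • c₂ σ)
    (by
      intro σ τ
      simp only [hc₁, hc₂, smul_add, mul_add, add_mul, mul_smul_comm, smul_mul_assoc]
      abel)
    (fun σ hσ => hker σ hσ)
  exact ⟨a₁, a₂, ha, m, hm⟩

end Fermat.Agent.S56.FL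

end

end
-- ===== PACK-END S56/FL/RamGlue.lean

-- ===== PACK-BEGIN S19/H435/OfModel.lean
section
/-
A3 / WP-C piece A (helper435): a Hopf model (frozen interface `HopfModel`) gives a Hopf lattice:
`Λ :=` image of `H` under evaluation at the points.
-/




set_option autoImplicit false
set_option linter.style.haveILetI false

noncomputable section

namespace Fermat.Agent.S19.H435

open TensorProduct

/-- Every tensor is a `Fin`-indexed sum of pure tensors. -/
theorem exists_fin_tmul {R : Type*} [CommSemiring R] {A B : Type*} [AddCommMonoid A]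
    [AddCommMonoid B] [Module R A] [Module R B] (t : A ⊗[R] B) :
    ∃ (n : ℕ) (a : Fin n → A) (b : Fin n → B), t = ∑ k, a k ⊗ₜ[R] b k := by
  induction t using TensorProduct.induction_on with
  | zero => exact ⟨0, Fin.elim0, Fin.elim0, by simp⟩
  | tmul a b => exact ⟨1, fun _ => a, fun _ => b, by simp⟩
  | add x y hx hy =>
    obtain ⟨n, a, b, rfl⟩ := hx
    obtain ⟨m, a', b', rfl⟩ := hy
    refine ⟨n + m, Fin.append a a', Fin.append b b', ?_⟩
    rw [Fin.sum_univ_add]
    simp only [Fin.append_left, Fin.append_right]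

/-- **Piece A.** A Hopf model gives a Hopf lattice. -/
theorem exists_isHopfLattice_of_hopfModel {ℓ : ℕ} {M : Type} [AddCommGroup M]
    {act : Gal → M → M} (h : Fermat.Agent.S19.HopfModel ℓ M act) :
    ∃ Λ : Subalgebra (Zl ℓ) (M → _root_.Fermat.Agent.S19.H435.Qb), IsHopfLattice ℓ act Λ := by
  obtain ⟨H, _, _, hfin, -, -, e, hmul, hgal⟩ := h
  let ev : H →ₐ[Zl ℓ] (M → _root_.Fermat.Agent.S19.H435.Qb) := AlgHom.pi (fun m => (e.symm m).ofConv)
  have hev : ∀ (x : H) (m : M), ev x m = (e.symm m).ofConv x := fun _ _ => rfl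
  refine ⟨ev.range, ?_, ?_, ?_, ?_⟩
  · -- finitely generated
    have h1 : Subalgebra.toSubmodule ev.range = Submodule.map ev.toLinearMap ⊤ := by
      ext f
      simp [AlgHom.mem_range]
    rw [h1]
    exact Submodule.FG.map _ (Module.finite_def.mp hfin)
  · -- equivariance
    rintro _ ⟨x, rfl⟩ σ m
    show ev x (act σ m) = σ (ev x m)
    rw [hev, hev]
    let σR : _root_.Fermat.Agent.S19.H435.Qb →ₐ[Zl ℓ] _root_.Fermat.Agent.S19.H435.Qb := (σ : _root_.Fermat.Agent.S19.H435.Qb →ₐ[ℚ] _root_.Fermat.Agent.S19.H435.Qb).restrictScalars (Zl ℓ)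
    let y : WithConv (H →ₐ[Zl ℓ] _root_.Fermat.Agent.S19.H435.Qb) := WithConv.toConv (σR.comp (e.symm m).ofConv)
    have hy : e y = act σ (e (e.symm m)) := hgal σ (e.symm m) y (fun _ => rfl)
    rw [Equiv.apply_symm_apply] at hy
    rw [← hy, Equiv.symm_apply_apply]
    rfl
  · -- separation
    intro m n hmn
    by_contra hcon
    push Not at hcon
    apply hmn
    have : e.symm m = e.symm n := by
      apply WithConv.ext
      apply AlgHom.ext
      intro x
      have := hcon (ev x) ⟨x, rfl⟩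
      rw [hev, hev] at this
      exact this
    exact e.symm.injective this
  · -- comultiplication
    rintro _ ⟨x, rfl⟩
    obtain ⟨n, a, b, hab⟩ := exists_fin_tmul (R := Zl ℓ) (CoalgebraStruct.comul (R := Zl ℓ) x)
    refine ⟨n, fun k => ev (a k), fun k => ev (b k), fun k => ⟨a k, rfl⟩, fun k => ⟨b k, rfl⟩, ?_⟩
    intro s t
    have hst : e.symm (s + t) = e.symm s * e.symm t := by
      apply e.injective
      rw [hmul, Equiv.apply_symm_apply, Equiv.apply_symm_apply, Equiv.apply_symm_apply]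
    show ev x (s + t) = ∑ k, ev (a k) s * ev (b k) t
    rw [hev, hst, AlgHom.convMul_apply, hab, map_sum]
    refine Finset.sum_congr rfl fun k _ => ?_
    rw [Algebra.TensorProduct.lift_tmul]
    rfl

end Fermat.Agent.S19.H435

end
end
-- ===== PACK-END S19/H435/OfModel.lean

-- ===== PACK-BEGIN S56/H554/LocTW.lean
section




/-!
# S56 / leaf LOC-TW (helper554): cocycles on the inertia group at a prime `q ≠ p`

`k` a field of characteristic `p`, `ρbar : ResidualGaloisRep k` unramified at `P | q`, `q ≠ p`.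
`c` is an ad-cocycle (`H716.IsAdCocycle`) or more generally any function satisfying the
cocycle relation (`IsCoc`).

* `coc_add_on_inertia`, `cocHom` : `c` is an additive hom on `I_P`;
* `coc_eq_zero_of_wild` : `c` kills the elements of `I_P` which are wild on its level;
* `coc_conj_frobenius` : `c (φ τ φ⁻¹) = q • c τ` for `τ ∈ I_P`, `φ` a Frobenius element at `P`;
* `coc_commute_frobenius` : if `p ∣ q - 1` then `c τ` commutes with `ρ̄ φ`;
* `exists_inertia_generator` : a generator `τ₀ ∈ I_P` which works for ALL cocycles of a given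
  level: `c τ = n • c τ₀`.
-/

set_option autoImplicit false

open scoped Pointwise

namespace Fermat.Agent.S56.H554

open Fermat.Agent.A2.H708 Fermat.Agent.S56 Fermat.Agent.S56.H716

attribute [local instance] isAlgebraic_Qb

variable {k : Type} [Field k] (ρbar : ResidualGaloisRep k)

/-- The cocycle relation and level-constancy, without the trace condition. -/
structure IsCoc (L : IntermediateField ℚ Qb) (c : GQ → Module.End k ρbar.V) : Prop where
  map_mul : ∀ σ τ, c (σ * τ) = c σ + ρbar.ρ σ * c τ * ρbar.ρ σ⁻¹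
  level : ∀ σ τ : GQ, (∀ x ∈ L, τ x = x) → c (σ * τ) = c σ

variable {ρbar}

theorem IsCoc.mono {L L' : IntermediateField ℚ Qb} (h : L ≤ L') {c : GQ → Module.End k ρbar.V}
    (hc : IsCoc ρbar L c) : IsCoc ρbar L' c :=
  ⟨hc.map_mul, fun σ τ hτ => hc.level σ τ fun x hx => hτ x (h hx)⟩

theorem IsCoc.map_one {L : IntermediateField ℚ Qb} {c : GQ → Module.End k ρbar.V}
    (hc : IsCoc ρbar L c) : c 1 = 0 := by
  have h := hc.map_mul 1 1
  rw [mul_one, _root_.map_one, inv_one, _root_.map_one, one_mul, mul_one] at h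
  exact left_eq_add.mp h

theorem IsCoc.eq_zero_of_fixes {L : IntermediateField ℚ Qb} {c : GQ → Module.End k ρbar.V}
    (hc : IsCoc ρbar L c) {τ : GQ} (hτ : ∀ x ∈ L, τ x = x) : c τ = 0 := by
  have h := hc.level 1 τ hτ
  rwa [one_mul, hc.map_one] at h

theorem isCoc_of_isAdCocycle {c : GQ → Module.End k ρbar.V} (hc : IsAdCocycle ρbar c) :
    ∃ L : IntermediateField ℚ Qb, FiniteDimensional ℚ L ∧ IsCoc ρbar L c := by
  obtain ⟨L, hL, h⟩ := hc.level
  exact ⟨L, hL, ⟨hc.map_mul, h⟩⟩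

section inertia

variable {P : ValuationSubring Qb}

/-- On a subgroup where `ρ̄` is trivial, a cocycle is additive. -/
theorem IsCoc.add_of_rho_eq_one {L : IntermediateField ℚ Qb} {c : GQ → Module.End k ρbar.V}
    (hc : IsCoc ρbar L c) {σ : GQ} (hσ : ρbar.ρ σ = 1) (τ : GQ) : c (σ * τ) = c σ + c τ := by
  have h1 : ρbar.ρ σ⁻¹ = 1 := by
    have := _root_.map_mul ρbar.ρ σ σ⁻¹
    rw [mul_inv_cancel, _root_.map_one, hσ, one_mul] at this
    exact this.symm
  rw [hc.map_mul, hσ, h1, one_mul, mul_one]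

/-- The restriction of a cocycle to the inertia group (where `ρ̄` is trivial), as a hom. -/
noncomputable def cocHom {L : IntermediateField ℚ Qb} {c : GQ → Module.End k ρbar.V}
    (hc : IsCoc ρbar L c) (hur : ∀ σ ∈ P.inertiaSubgroupIn ℚ, ρbar.ρ σ = 1) :
    ↥(P.inertiaSubgroupIn ℚ) →* Multiplicative (Module.End k ρbar.V) where
  toFun σ := Multiplicative.ofAdd (c σ)
  map_one' := by
    show Multiplicative.ofAdd (c 1) = 1
    rw [hc.map_one]
    rfl
  map_mul' σ τ := by
    show Multiplicative.ofAdd (c (σ * τ)) = Multiplicative.ofAdd (c σ) * Multiplicative.ofAdd (c τ)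
    rw [hc.add_of_rho_eq_one (hur σ σ.2)]
    rfl

theorem cocHom_apply {L : IntermediateField ℚ Qb} {c : GQ → Module.End k ρbar.V}
    (hc : IsCoc ρbar L c) (hur : ∀ σ ∈ P.inertiaSubgroupIn ℚ, ρbar.ρ σ = 1)
    (σ : ↥(P.inertiaSubgroupIn ℚ)) :
    cocHom hc hur σ = Multiplicative.ofAdd (c σ) := rfl

theorem IsCoc.map_pow_of_mem_inertia {L : IntermediateField ℚ Qb}
    {c : GQ → Module.End k ρbar.V} (hc : IsCoc ρbar L c)
    (hur : ∀ σ ∈ P.inertiaSubgroupIn ℚ, ρbar.ρ σ = 1) {τ : GQ}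
    (hτ : τ ∈ P.inertiaSubgroupIn ℚ) (n : ℕ) : c (τ ^ n) = n • c τ := by
  have h := map_pow (cocHom hc hur) ⟨τ, hτ⟩ n
  have h1 : cocHom hc hur (⟨τ, hτ⟩ ^ n) = Multiplicative.ofAdd (c (τ ^ n)) := rfl
  rw [h1, cocHom_apply] at h
  exact Multiplicative.ofAdd.injective h

theorem IsCoc.map_zpow_of_mem_inertia {L : IntermediateField ℚ Qb}
    {c : GQ → Module.End k ρbar.V} (hc : IsCoc ρbar L c)
    (hur : ∀ σ ∈ P.inertiaSubgroupIn ℚ, ρbar.ρ σ = 1) {τ : GQ}
    (hτ : τ ∈ P.inertiaSubgroupIn ℚ) (n : ℤ) : c (τ ^ n) = n • c τ := by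
  have h := map_zpow (cocHom hc hur) ⟨τ, hτ⟩ n
  have h1 : cocHom hc hur (⟨τ, hτ⟩ ^ n) = Multiplicative.ofAdd (c (τ ^ n)) := rfl
  rw [h1, cocHom_apply] at h
  exact Multiplicative.ofAdd.injective h

variable {q p : ℕ}

/-- **Wild elements are killed by cocycles** (`char k = p ≠ q`). -/
theorem IsCoc.eq_zero_of_wild [CharP k p] (hq : q.Prime) (hP : P.LiesOverPrime q)
    (hp : p.Prime) (hpq : p ≠ q)
    {L : IntermediateField ℚ Qb} [FiniteDimensional ℚ L] (hL : ∀ σ : GQ, ∀ x ∈ L, σ x ∈ L)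
    {c : GQ → Module.End k ρbar.V} (hc : IsCoc ρbar L c)
    (hur : ∀ σ ∈ P.inertiaSubgroupIn ℚ, ρbar.ρ σ = 1) {ω : GQ}
    (hω : ω ∈ P.inertiaSubgroupIn ℚ) (hwild : IsWildOn P ω (L : Set Qb)) : c ω = 0 := by
  have h := map_eq_one_of_wild_subgroup (A := P) (P.inertiaSubgroupIn ℚ) (cocHom hc hur) L
    (fun σ hσ => by
      rw [cocHom_apply, hc.eq_zero_of_fixes hσ]
      rfl)
    hω hω (hL ω) hwild p hp (valuation_prime_eq_one hq hP hp hpq) 1
    (by
      rw [pow_one, ← map_pow]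
      have h1 : cocHom hc hur (⟨ω, hω⟩ ^ p) = Multiplicative.ofAdd (c (ω ^ p)) := rfl
      rw [h1, hc.map_pow_of_mem_inertia hur hω, ← Nat.cast_smul_eq_nsmul k, CharP.cast_eq_zero,
        zero_smul]
      rfl)
  rw [cocHom_apply] at h
  exact Multiplicative.ofAdd.injective h

/-- **Frobenius relation for cocycles**: `c (φ τ φ⁻¹) = q • c τ` on inertia. -/
theorem IsCoc.conj_frobenius [CharP k p] (hq : q.Prime) (hP : P.LiesOverPrime q)
    (hp : p.Prime) (hpq : p ≠ q)
    {L : IntermediateField ℚ Qb} [FiniteDimensional ℚ L] (hL : ∀ σ : GQ, ∀ x ∈ L, σ x ∈ L)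
    {c : GQ → Module.End k ρbar.V} (hc : IsCoc ρbar L c)
    (hur : ∀ σ ∈ P.inertiaSubgroupIn ℚ, ρbar.ρ σ = 1) {φ τ : GQ}
    (hφ : P.IsFrobeniusAt φ q) (hτ : τ ∈ P.inertiaSubgroupIn ℚ) :
    c (φ * τ * φ⁻¹) = q • c τ := by
  obtain ⟨ω, hω, hwild, hconj⟩ := isWildOn_conj_frobenius hφ hτ (L : Set Qb)
  rw [hconj, hc.add_of_rho_eq_one (hur ω hω), hc.eq_zero_of_wild hq hP hp hpq hL hur hω hwild,
    zero_add, hc.map_pow_of_mem_inertia hur hτ]

theorem rho_mul_inv (σ : GQ) : ρbar.ρ σ * ρbar.ρ σ⁻¹ = 1 := by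
  rw [← map_mul, mul_inv_cancel, map_one]

theorem rho_inv_mul (σ : GQ) : ρbar.ρ σ⁻¹ * ρbar.ρ σ = 1 := by
  rw [← map_mul, inv_mul_cancel, map_one]

/-- The cocycle relation for a conjugate: `c (φ τ φ⁻¹) = ρ̄φ (c τ) ρ̄φ⁻¹` if `ρ̄ τ = 1`. -/
theorem IsCoc.map_conj {L : IntermediateField ℚ Qb} {c : GQ → Module.End k ρbar.V}
    (hc : IsCoc ρbar L c) (φ : GQ) {τ : GQ} (hτ : ρbar.ρ τ = 1) :
    c (φ * τ * φ⁻¹) = ρbar.ρ φ * c τ * ρbar.ρ φ⁻¹ := by
  have h0 : c φ + ρbar.ρ φ * c φ⁻¹ * ρbar.ρ φ⁻¹ = 0 := by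
    have := hc.map_mul φ φ⁻¹
    rw [mul_inv_cancel, hc.map_one] at this
    exact this.symm
  rw [mul_assoc, hc.map_mul φ (τ * φ⁻¹), hc.add_of_rho_eq_one hτ, mul_add, add_mul, ← add_assoc,
    add_right_comm, h0, zero_add]

/-- **T3.** If `q ≡ 1 mod p`, the values of a cocycle on inertia commute with `ρ̄(Frob)`. -/
theorem IsCoc.commute_frobenius [CharP k p] (hq : q.Prime) (hP : P.LiesOverPrime q)
    (hp : p.Prime) (hpq : p ≠ q) (hq1 : p ∣ q - 1)
    {L : IntermediateField ℚ Qb} [FiniteDimensional ℚ L] (hL : ∀ σ : GQ, ∀ x ∈ L, σ x ∈ L)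
    {c : GQ → Module.End k ρbar.V} (hc : IsCoc ρbar L c)
    (hur : ∀ σ ∈ P.inertiaSubgroupIn ℚ, ρbar.ρ σ = 1) {φ τ : GQ}
    (hφ : P.IsFrobeniusAt φ q) (hτ : τ ∈ P.inertiaSubgroupIn ℚ) :
    ρbar.ρ φ * c τ = c τ * ρbar.ρ φ := by
  have hqk : ((q : ℕ) : k) = 1 := by
    have h1 : ((q - 1 : ℕ) : k) = 0 := (CharP.cast_eq_zero_iff k p _).mpr hq1
    have h2 : q = (q - 1) + 1 := (Nat.sub_add_cancel hq.one_le).symm
    rw [h2, Nat.cast_add, h1, zero_add, Nat.cast_one]
  have h1 := hc.conj_frobenius hq hP hp hpq hL hur hφ hτ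
  rw [hc.map_conj φ (hur τ hτ), ← Nat.cast_smul_eq_nsmul k, hqk, one_smul] at h1
  calc ρbar.ρ φ * c τ = ρbar.ρ φ * c τ * (ρbar.ρ φ⁻¹ * ρbar.ρ φ) := by
        rw [rho_inv_mul, mul_one]
    _ = (ρbar.ρ φ * c τ * ρbar.ρ φ⁻¹) * ρbar.ρ φ := by rw [mul_assoc, mul_assoc, mul_assoc]
    _ = c τ * ρbar.ρ φ := by rw [h1]

/-- **T4.** A generator of tame inertia which works for ALL cocycles of level `L`. -/
theorem exists_inertia_generator [CharP k p] (hq : q.Prime) (hP : P.LiesOverPrime q)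
    (hp : p.Prime) (hpq : p ≠ q)
    (L : IntermediateField ℚ Qb) [FiniteDimensional ℚ L] (hL : ∀ σ : GQ, ∀ x ∈ L, σ x ∈ L)
    (hur : ∀ σ ∈ P.inertiaSubgroupIn ℚ, ρbar.ρ σ = 1) :
    ∃ τ₀ ∈ P.inertiaSubgroupIn ℚ, ∀ c : GQ → Module.End k ρbar.V, IsCoc ρbar L c →
      ∀ τ ∈ P.inertiaSubgroupIn ℚ, ∃ n : ℤ, c τ = n • c τ₀ := by
  obtain ⟨τ₀, hτ₀, hgen⟩ := exists_tame_generator hq hP L
  refine ⟨τ₀, hτ₀, fun c hc τ hτ => ?_⟩
  obtain ⟨n, ω, hω, hwild, rfl⟩ := hgen τ hτ
  refine ⟨n, ?_⟩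
  have h1 : ρbar.ρ (τ₀ ^ n) = 1 := hur _ (zpow_mem hτ₀ n)
  rw [hc.add_of_rho_eq_one h1, hc.eq_zero_of_wild hq hP hp hpq hL hur hω hwild, add_zero,
    hc.map_zpow_of_mem_inertia hur hτ₀]

end inertia

end Fermat.Agent.S56.H554

end
-- ===== PACK-END S56/H554/LocTW.lean

-- ===== PACK-BEGIN S55/PT/SpecF.lean
section


/-!
# S55 / layer D: framework leaves D-F1 … D-F7 (Spec pattern)

Each `def …Spec : Prop` is a leaf.  Producer: `theorem foo : FooSpec` in a NEW file
`Fermat/Agent/S55/PT/<Leaf>H<seat>.lean` (namespace `Fermat.Agent.S55.PT.H<seat>`).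
All statements are about the definitions of `PT/{Levels,Coh,Les,Cone,Ind}.lean` (frozen).
-/

set_option autoImplicit false

noncomputable section

namespace Fermat.Agent.S55.PT

open groupCohomology

/-- **D-F1.** `H⁰(B) → H⁰(C) →δ⁰ H¹(A) → H¹(B)` is exact at `H⁰(C)` and `H¹(A)`. -/
def Les0Spec : Prop :=
  ∀ (k : Type) [Field k] (G : Type) [Group G] (L : LevelSys G) (A B C : Rep.{0, 0, 0} k G)
    (E : SES A B C) (hB : L.IsUSmooth B),
    LinearMap.ker (E.del0 L hB) = LinearMap.range (pushH0 E.π E.hπ) ∧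
    LinearMap.range (E.del0 L hB) = LinearMap.ker (pushH1 E.i E.hi L)

/-- **D-F2.** `H¹(B) → H¹(C) →δ¹ H²(A) → H²(B)` is exact at `H¹(C)` and `H²(A)`. -/
def Les1Spec : Prop :=
  ∀ (k : Type) [Field k] (G : Type) [Group G] (L : LevelSys G) (A B C : Rep.{0, 0, 0} k G)
    (E : SES A B C) (hN : L.NormalCofinal) (hB : L.IsUSmooth B) (hC : L.IsUSmooth C),
    LinearMap.ker (E.del1 L hN hB hC) = LinearMap.range (pushH1 E.π E.hπ L) ∧
    LinearMap.range (E.del1 L hN hB hC) = LinearMap.ker (pushH2 E.i E.hi L)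

/-- **D-F3.** Exactness at the middle terms `H⁰(B)`, `H¹(B)`, `H²(B)` and injectivity on `H⁰`. -/
def LesMidSpec : Prop :=
  ∀ (k : Type) [Field k] (G : Type) [Group G] (L : LevelSys G) (A B C : Rep.{0, 0, 0} k G)
    (E : SES A B C) (_hN : L.NormalCofinal) (_hA : L.IsUSmooth A) (_hB : L.IsUSmooth B),
    Function.Injective (pushH0 E.i E.hi) ∧
    LinearMap.range (pushH0 E.i E.hi) = LinearMap.ker (pushH0 E.π E.hπ) ∧
    LinearMap.range (pushH1 E.i E.hi L) = LinearMap.ker (pushH1 E.π E.hπ L) ∧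
    LinearMap.range (pushH2 E.i E.hi L) = LinearMap.ker (pushH2 E.π E.hπ L)

/-- **D-F4.** The cone sequence `∏_v H¹(G_v, A) →j H²_c(A) →u H²(A) →loc ∏_v H²(G_v, A)` is exact
at `H²_c(A)` and at `H²(A)`. -/
def ConeSpec : Prop :=
  ∀ (k : Type) [Field k] (G : Type) [Group G] (ι : Type) [Fintype ι] [DecidableEq ι]
    (Gv : ι → Type) [∀ v, Group (Gv v)] (L : LevelSys G) (Lv : ∀ v, LevelSys (Gv v))
    (r : ∀ v, Gv v →* G) (hr : ∀ v, IsLevelCompatible (r v) L (Lv v))
    (_hN : L.NormalCofinal) (A : Rep.{0, 0, 0} k G) (_hA : L.IsUSmooth A),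
    LinearMap.ker (uH (L := L) (Lv := Lv) (r := r) A) = LinearMap.range (jH (L := L) (Lv := Lv) (r := r) A) ∧
    LinearMap.range (uH (L := L) (Lv := Lv) (r := r) A) = LinearMap.ker (loc2 hr A)

/-- smoothness is inherited by restriction along a level-compatible map -/
lemma LevelSys.IsUSmooth.res {k : Type} [Field k] {G G' : Type} [Group G] [Group G']
    {L : LevelSys G} {L' : LevelSys G'} {r : G' →* G} (hr : IsLevelCompatible r L L')
    {A : Rep.{0, 0, 0} k G} (hA : L.IsUSmooth A) : L'.IsUSmooth (Rep.res r A) := by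
  obtain ⟨U, hU, h⟩ := hA
  obtain ⟨V, hV, hle⟩ := hr U hU
  exact ⟨V, hV, fun s hs a => h (r s) (hle hs) a⟩

/-- **D-F5.** The cone connecting map.  For a short exact sequence `0 → A → B → C → 0` of
uniformly smooth modules such that `H²(B) → H²(C)` is surjective there is a linear map
`∂ : H²_c(C) → T³(A)` with
* `ker ∂ = im (H²_c(B) → H²_c(C))`,
* `im ∂ = ker (T³(A) → T³(B))`,
* `∂ (j b) = - [ (δ¹_v b_v)_v ]` (anticommutativity with the local connecting maps). -/
def ConeLesSpec : Prop :=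
  ∀ (k : Type) [Field k] (G : Type) [Group G] (ι : Type) [Fintype ι] [DecidableEq ι]
    (Gv : ι → Type) [∀ v, Group (Gv v)] (L : LevelSys G) (Lv : ∀ v, LevelSys (Gv v))
    (r : ∀ v, Gv v →* G) (hr : ∀ v, IsLevelCompatible (r v) L (Lv v))
    (_hN : L.NormalCofinal) (hNv : ∀ v, (Lv v).NormalCofinal)
    (A B C : Rep.{0, 0, 0} k G) (E : SES A B C)
    (_hA : L.IsUSmooth A) (hB : L.IsUSmooth B) (hC : L.IsUSmooth C),
    Function.Surjective (pushH2 E.π E.hπ L) →
    ∃ dT : Hc2 L Lv r C →ₗ[k] T3 hr A,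
      LinearMap.ker dT = LinearMap.range (pushHc2 (L := L) (Lv := Lv) (r := r) E.π E.hπ) ∧
      LinearMap.range dT = LinearMap.ker (pushT3 hr E.i E.hi) ∧
      ∀ b : (v : ι) → (Lv v).H1 (Rep.res (r v) C),
        dT (jH (L := L) (Lv := Lv) (r := r) C b) =
          - T3π hr A (fun v => (E.res (r v)).del1 (Lv v) (hNv v) (hB.res (hr v)) (hC.res (hr v))
              (b v))

/-- **D-F6.** Naturality of `δ⁰` with respect to restriction:
`res ∘ δ⁰ = δ⁰_res ∘ res` as maps `H⁰(G, C) → H¹(G', A)`. -/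
def Del0ResSpec : Prop :=
  ∀ (k : Type) [Field k] (G G' : Type) [Group G] [Group G'] (L : LevelSys G) (L' : LevelSys G')
    (r : G' →* G) (hr : IsLevelCompatible r L L') (A B C : Rep.{0, 0, 0} k G) (E : SES A B C)
    (hB : L.IsUSmooth B) (c : ↥(LevelSys.H0 C)),
    resH1 hr A (E.del0 L hB c) = (E.res r).del0 L' (hB.res hr) (resH0 r C c)

/-- **D-F7a.** Normal levels are cofinal among the global levels. -/
def GlobalNormalCofinalSpec : Prop :=
  ∀ S : Finset Nat.Primes, (globalLevels S).NormalCofinal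

/-- **D-F7b.** Normal levels are cofinal among the local levels. -/
def LocalNormalCofinalSpec : Prop :=
  ∀ q : Nat.Primes, (localLevels q).NormalCofinal

/-- **D-F7c.** Global levels have finite index. -/
def GlobalFiniteIndexSpec : Prop :=
  ∀ S : Finset Nat.Primes, (globalLevels S).FiniteIndex

/-- **D-F7d.** Local levels have finite index. -/
def LocalFiniteIndexSpec : Prop :=
  ∀ q : Nat.Primes, (localLevels q).FiniteIndex

end Fermat.Agent.S55.PT

end

end
-- ===== PACK-END S55/PT/SpecF.lean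

-- ===== PACK-BEGIN S55/L/H355/Unram.lean
section




/-!
# S55, layer L, helper355: unramified extensions — valuations, Galois stability, Frobenius

Setting: `L/K` fields, `A ⊆ K`, `B ⊆ L` rings of integers (complete DVRs with finite residue
fields), `π` a uniformizer of `A` whose image `ϖ` is a uniformizer of `B`.
-/

set_option autoImplicit false
set_option linter.style.haveILetI false

namespace Fermat.Agent.S55.L.H355

open Fermat.Agent.S55.L

section General

variable {L : Type} [Field L] {B : ValuationSubring L} {ϖ : L}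

/-- Decomposition `y = ϖ ^ ordZ y * w` with `w` a unit. -/
theorem exists_unit_mul_zpow (hB : IsDiscreteValuationRing B) (hϖ : IsUniformizer B ϖ) (y : Lˣ) :
    ∃ w : Lˣ, w ∈ B.unitGroup ∧
      y = (Units.mk0 ϖ (isUniformizer_ne_zero hϖ)) ^ (ordZ B ϖ y) * w := by
  set ϖu : Lˣ := Units.mk0 ϖ (isUniformizer_ne_zero hϖ) with hϖu
  refine ⟨ϖu ^ (-ordZ B ϖ y) * y, ?_, ?_⟩
  · rw [← ordZ_eq_zero_iff hB hϖ, ordZ_mul hB hϖ, ordZ_zpow hB hϖ,
      ordZ_uniformizer hB hϖ ϖu rfl]
    ring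
  · rw [← mul_assoc, ← zpow_add, add_neg_cancel, zpow_zero, one_mul]

/-- Any field automorphism fixing the uniformizer preserves `ordZ`. -/
theorem ordZ_map_of_fix (hB : IsLocalRingOfIntegers B) (hϖ : IsUniformizer B ϖ)
    (σ : L →+* L) (hσ : σ ϖ = ϖ) (y : Lˣ) :
    ordZ B ϖ (Units.map (σ : L →* L) y) = ordZ B ϖ y := by
  have hBd : IsDiscreteValuationRing B := hB.1
  obtain ⟨w, hw, hy⟩ := exists_unit_mul_zpow hBd hϖ y
  set ϖu : Lˣ := Units.mk0 ϖ (isUniformizer_ne_zero hϖ) with hϖu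
  have h1 : Units.map (σ : L →* L) ϖu = ϖu := by
    apply Units.ext
    simpa [hϖu] using hσ
  have h2 : Units.map (σ : L →* L) w ∈ B.unitGroup := map_mem_unitGroup hB hBd σ hw
  have h3 : Units.map (σ : L →* L) y = ϖu ^ (ordZ B ϖ y) * Units.map (σ : L →* L) w := by
    conv_lhs => rw [hy]
    rw [map_mul, map_zpow, h1]
  rw [h3, ordZ_mul hBd hϖ, ordZ_zpow hBd hϖ, ordZ_uniformizer hBd hϖ ϖu rfl,
    (ordZ_eq_zero_iff hBd hϖ _).2 h2]
  ring

theorem map_mem_of_fix (hB : IsLocalRingOfIntegers B) (hϖ : IsUniformizer B ϖ)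
    (σ : L →+* L) (hσ : σ ϖ = ϖ) {x : L} (hx : x ∈ B) : σ x ∈ B := by
  have hBd : IsDiscreteValuationRing B := hB.1
  by_cases h0 : x = 0
  · rw [h0, map_zero]; exact B.zero_mem
  have h1 := (ordZ_nonneg_iff hBd hϖ (Units.mk0 x h0)).2 hx
  rw [← ordZ_map_of_fix hB hϖ σ hσ] at h1
  exact (ordZ_nonneg_iff hBd hϖ _).1 h1

theorem map_val_lt_one_of_fix (hB : IsLocalRingOfIntegers B) (hϖ : IsUniformizer B ϖ)
    (σ : L →+* L) (hσ : σ ϖ = ϖ) {x : L} (hx : B.valuation x < 1) : B.valuation (σ x) < 1 := by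
  have hBd : IsDiscreteValuationRing B := hB.1
  by_cases h0 : x = 0
  · rw [h0, map_zero, map_zero]; exact zero_lt_one
  have h1 := (ordZ_pos_iff hBd hϖ (Units.mk0 x h0)).2 ((B.mem_nonunits_iff).2 hx)
  rw [← ordZ_map_of_fix hB hϖ σ hσ] at h1
  exact (B.mem_nonunits_iff).1 ((ordZ_pos_iff hBd hϖ _).1 h1)

/-- Iterating a Frobenius congruence. -/
theorem frob_iterate (hB : IsLocalRingOfIntegers B) (hϖ : IsUniformizer B ϖ)
    (φ : L →+* L) (hφϖ : φ ϖ = ϖ) (q : ℕ)
    (hφ : ∀ x ∈ B, B.valuation (φ x - x ^ q) < 1) (i : ℕ) :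
    ∀ x ∈ B, B.valuation ((φ ^ i) x - x ^ (q ^ i)) < 1 := by
  induction i with
  | zero =>
    intro x _
    simp
  | succ i ih =>
    intro x hx
    have e : (φ ^ (i + 1)) x - x ^ (q ^ (i + 1)) =
        φ ((φ ^ i) x - x ^ (q ^ i)) + (φ (x ^ (q ^ i)) - (x ^ (q ^ i)) ^ q) := by
      rw [pow_succ', RingHom.mul_def, RingHom.comp_apply, map_sub, ← pow_mul, ← pow_succ]
      ring
    rw [e]
    exact Valuation.map_add_lt _ (map_val_lt_one_of_fix hB hϖ φ hφϖ (ih x hx))
      (hφ _ (B.pow_mem hx _))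

end General

section Unram

variable {K L : Type} [Field K] [Field L] [Algebra K L]
  {A : ValuationSubring K} {B : ValuationSubring L} {π : K}
  (hA : IsLocalRingOfIntegers A) (hB : IsLocalRingOfIntegers B)
  (hπ : IsUniformizer A π) (hπB : IsUniformizer B (algebraMap K L π))

include hA hB hπ hπB in
/-- In an unramified extension, `ord_B` restricts to `ord_A`. -/
theorem ordZ_algebraMap (x : Kˣ) :
    ordZ B (algebraMap K L π) (Units.map (algebraMap K L : K →* L) x) = ordZ A π x := by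
  have hAd : IsDiscreteValuationRing A := hA.1
  have hBd : IsDiscreteValuationRing B := hB.1
  obtain ⟨u, hu, hx⟩ := exists_unit_mul_zpow hAd hπ x
  set πu : Kˣ := Units.mk0 π (isUniformizer_ne_zero hπ) with hπu
  have h1 : ordZ B (algebraMap K L π) (Units.map (algebraMap K L : K →* L) πu) = 1 :=
    ordZ_uniformizer hBd hπB _ rfl
  have h2 : Units.map (algebraMap K L : K →* L) u ∈ B.unitGroup :=
    map_mem_unitGroup hA hBd (algebraMap K L) hu
  conv_lhs => rw [hx]
  rw [map_mul, map_zpow, ordZ_mul hBd hπB, ordZ_zpow hBd hπB, h1,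
    (ordZ_eq_zero_iff hBd hπB _).2 h2]
  ring

include hA hB hπ hπB in
/-- `|k_B| = |k_A| ^ [L : K]` for an unramified extension. -/
theorem card_residue_unram :
    Nat.card (IsLocalRing.ResidueField B) =
      Nat.card (IsLocalRing.ResidueField A) ^ Module.finrank K L := by
  have := card_residue_pow_eq hA hB hπ hπB (e := 1) (by rw [pow_one]) one_pos
  rwa [pow_one] at this

end Unram

end Fermat.Agent.S55.L.H355

end
-- ===== PACK-END S55/L/H355/Unram.lean

-- ===== PACK-BEGIN S55/H173/ShapiroInj.lean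
section


/-!
# S55 (helper173): explicit Shapiro lemma along an injective group homomorphism

For an injective `φ : D →* G` and `B : Rep k D`, the map
`Hⁿ(G, Coind_φ B) ⟶ Hⁿ(D, B)` induced by `φ` and evaluation at `1`
is an isomorphism for all `n`.  This is the form needed for
`Tow.Level.J L q = Rep.coind (L.decHom q) (L.locUnits q)`.
-/

set_option autoImplicit false

open CategoryTheory CategoryTheory.Limits groupCohomology

namespace Fermat.Agent.S55.H173

universe u

variable {k G D : Type u} [CommRing k] [Group G] [Group D] (φ : D →* G)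

/-- Evaluation at `1`: `Res_φ Coind_φ B ⟶ B`. -/
def ev1Hom (B : Rep k D) : Rep.res φ (Rep.coind φ B) ⟶ B :=
  Rep.ofHom (ρ := (Representation.coind φ B.ρ).comp φ) (σ := B.ρ)
    ⟨{ toFun := fun f => f.1 1
       map_add' := fun _ _ => rfl
       map_smul' := fun _ _ => rfl }, fun s => by
      ext f
      have h := f.2 s 1
      change f.1 (1 * φ s) = B.ρ s (f.1 1)
      rw [one_mul]
      simpa using h⟩

@[simp]
lemma ev1Hom_hom_apply (B : Rep k D) (f : (Rep.coind φ B).V) :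
    (ev1Hom φ B).hom f = f.1 1 := rfl

/-- The explicit Shapiro map along `φ`. -/
noncomputable abbrev shapiroHom (B : Rep k D) (n : ℕ) :
    groupCohomology (Rep.coind φ B) n ⟶ groupCohomology B n :=
  groupCohomology.map φ (ev1Hom φ B) n

variable {φ} (hφ : Function.Injective φ)

/-- `B` as a representation of the range of `φ`. -/
noncomputable abbrev rangeRep (B : Rep k D) : Rep k φ.range :=
  Rep.res ((MonoidHom.ofInjective hφ).symm : φ.range →* D) B

/-- `Coind_φ B ≅ Coind_{φ(D)}^G B`. -/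
noncomputable def coindRangeIso (B : Rep k D) :
    Rep.coind φ B ≅ Rep.coind φ.range.subtype (rangeRep hφ B) :=
  Rep.mkIso (ρ := Representation.coind φ B.ρ)
    (σ := Representation.coind φ.range.subtype (rangeRep hφ B).ρ)
    { toLinearEquiv :=
        { toFun := fun f => ⟨f.1, fun r g => by
            have h := f.2 ((MonoidHom.ofInjective hφ).symm r) g
            rw [MonoidHom.apply_ofInjective_symm hφ r] at h
            exact h⟩
          invFun := fun f => ⟨f.1, fun d g => by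
            have h := f.2 (MonoidHom.ofInjective hφ d) g
            have h2 : (rangeRep hφ B).ρ (MonoidHom.ofInjective hφ d) = B.ρ d := by
              change B.ρ ((MonoidHom.ofInjective hφ).symm (MonoidHom.ofInjective hφ d)) = B.ρ d
              rw [MulEquiv.symm_apply_apply]
            rw [h2] at h
            exact h⟩
          map_add' := fun _ _ => rfl
          map_smul' := fun _ _ => rfl
          left_inv := fun _ => rfl
          right_inv := fun _ => rfl }
      isIntertwining' := fun g => by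
        ext F x
        rfl }

/-- The comparison `Res_e (rangeRep B) ⟶ B` (identity on the underlying module). -/
noncomputable def rangeRepHom (B : Rep k D) :
    Rep.res ((MonoidHom.ofInjective hφ : D ≃* φ.range) : D →* φ.range) (rangeRep hφ B) ⟶ B :=
  Rep.ofHom (ρ := ((rangeRep hφ B).ρ).comp ((MonoidHom.ofInjective hφ : D ≃* φ.range) : D →* φ.range))
    (σ := B.ρ)
    ⟨LinearMap.id, fun d => by
      ext b
      change B.ρ ((MonoidHom.ofInjective hφ).symm (MonoidHom.ofInjective hφ d)) b = B.ρ d b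
      rw [MulEquiv.symm_apply_apply]⟩

/-- Factorisation of the Shapiro map along `φ` through the Shapiro map of the subgroup
`φ(D) ≤ G`. -/
lemma shapiroHom_eq (B : Rep k D) (n : ℕ) :
    shapiroHom φ B n =
      groupCohomology.map (MonoidHom.id G) (coindRangeIso hφ B).hom n ≫
        (shapiroMap φ.range (rangeRep hφ B) n ≫
          groupCohomology.map ((MonoidHom.ofInjective hφ : D ≃* φ.range) : D →* φ.range)
            (rangeRepHom hφ B) n) := by
  rw [← groupCohomology.map_comp, ← groupCohomology.map_comp]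
  exact map_congr (by ext d; rfl) (by rfl) n

lemma rangeRepHom_map_bijective (B : Rep k D) (n : ℕ) :
    Function.Bijective (groupCohomology.map
      ((MonoidHom.ofInjective hφ : D ≃* φ.range) : D →* φ.range) (rangeRepHom hφ B) n).hom := by
  let e : φ.range ≃* D := (MonoidHom.ofInjective hφ).symm
  let I := groupCohomology.mapIso (A := B) (B := rangeRep hφ B) e
    (LinearEquiv.refl k B.V) (fun g => rfl) n
  have hI : groupCohomology.map
      ((MonoidHom.ofInjective hφ : D ≃* φ.range) : D →* φ.range) (rangeRepHom hφ B) n = I.hom :=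
    map_congr (by ext d; rfl) (by rfl) n
  rw [hI]
  exact (ConcreteCategory.isIso_iff_bijective _).1 inferInstance

/-- **Explicit Shapiro lemma along an injective homomorphism** `φ : D →* G`:
restriction along `φ` followed by evaluation at `1` is bijective
`Hⁿ(G, Coind_φ B) → Hⁿ(D, B)` for all `n`. -/
theorem shapiroHom_bijective {φ : D →* G} (hφ : Function.Injective φ) (n : ℕ) (B : Rep k D) :
    Function.Bijective (shapiroHom φ B n).hom := by
  rw [shapiroHom_eq hφ B n]
  have h0 : IsIso ((groupCohomology.functor k G n).map (coindRangeIso hφ B).hom) :=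
    inferInstance
  have h1 : Function.Bijective
      ((groupCohomology.functor k G n).map (coindRangeIso hφ B).hom).hom :=
    (ConcreteCategory.isIso_iff_bijective _).1 h0
  have h2 := shapiroMap_bijective φ.range n (rangeRep hφ B)
  have h3 := rangeRepHom_map_bijective hφ B n
  exact (h3.comp h2).comp h1

/-- The explicit Shapiro map along an injective homomorphism is an isomorphism. -/
theorem isIso_shapiroHom {φ : D →* G} (hφ : Function.Injective φ) (B : Rep k D) (n : ℕ) :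
    IsIso (shapiroHom φ B n) :=
  (ConcreteCategory.isIso_iff_bijective _).2 (shapiroHom_bijective hφ n B)

/-- The Shapiro isomorphism `Hⁿ(G, Coind_φ B) ≅ Hⁿ(D, B)` with explicit `hom`. -/
noncomputable def shapiroIsoInj {φ : D →* G} (hφ : Function.Injective φ) (B : Rep k D) (n : ℕ) :
    groupCohomology (Rep.coind φ B) n ≅ groupCohomology B n :=
  haveI := isIso_shapiroHom hφ B n
  asIso (shapiroHom φ B n)

@[simp]
lemma shapiroIsoInj_hom {φ : D →* G} (hφ : Function.Injective φ) (B : Rep k D) (n : ℕ) :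
    (shapiroIsoInj hφ B n).hom = shapiroHom φ B n := rfl

/-- Naturality of the Shapiro map in the coefficient module. -/
lemma shapiroHom_naturality (φ : D →* G) {B B' : Rep k D} (f : B ⟶ B') (n : ℕ) :
    groupCohomology.map (MonoidHom.id G) (Rep.coindMap φ f) n ≫ shapiroHom φ B' n =
      shapiroHom φ B n ≫ groupCohomology.map (MonoidHom.id D) f n := by
  rw [← groupCohomology.map_comp, ← groupCohomology.map_comp]
  exact map_congr (by ext d; rfl) (by rfl) n

end Fermat.Agent.S55.H173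

end
-- ===== PACK-END S55/H173/ShapiroInj.lean

-- ===== PACK-BEGIN S55/E1/H114/Alg5Final.lean
section
/-
S55 engine E1, block ALG — helper114.
ALG5 (alpha^1) in the exact frozen form `Fermat.Agent.S55.E1.ALG5Spec`, from
ALG1, ALG2 (helper304, on main) and ALG4 (helper114).
-/





set_option autoImplicit false

namespace Fermat.Agent.S55.E1.H114

/-- **ALG5 (alpha^1)**, exact frozen form. -/
theorem alg5 : ALG5Spec :=
  alg5Assembly Fermat.Agent.S55.E1.H304.alg1 Fermat.Agent.S55.E1.H304.alg2 alg4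

end Fermat.Agent.S55.E1.H114

end
-- ===== PACK-END S55/E1/H114/Alg5Final.lean

-- ===== PACK-BEGIN S55/E1/H603/FinLevelH1.lean
section
/-
S55 / engine E1 / block LIM, leaf LIM4 (helper603): finite-level `Ш¹` versus the Prelude `sha₁`.

For a level `F` (`L : Tow.Level S`) and `A : Rep K G_ℚ`:
* `coeff A L = A^{U_F}` as a `Gal(F/ℚ)`-module, `infl₁ A L : H¹(Gal(F/ℚ), A^{U_F}) → H¹(G_ℚ, A)`
  (Mathlib inflation, injective), `resDec₁`, `sha1Fin A L = ⋂_{q ∈ S} ker (res to D_q(F))`;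
* `mem_sha1Fin_iff_infl₁_mem_sha₁` : if `U_F` acts trivially on `A`, then
  `x ∈ Ш¹_F ↔ infl x ∈ sha₁ S A`;
* `mem_range_infl₁_iff`, `range_infl₁_mono`, `exists_level_mem_range_infl₁`;
* `levelOfGalois`, `levelSup`, `levelBot`, `IsDirected (Level S) (· ≤ ·)`;
* **LIM4** `exists_level_forall_shaInfl_bijective`, `exists_level_forall_card_sha1Fin_eq`.

Mathlib + Prelude + `Spec/Tower.lean` + `Bridge/Cochain.lean` (all on main).  No sorry.
-/



set_option autoImplicit false

namespace Fermat.Agent.S55.E1.H603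

open groupCohomology CategoryTheory ExtCitation Fermat.Agent.S55.Tow

noncomputable section

variable {S : Finset Nat.Primes} {K : Type} [Field K] (A : Rep.{0, 0, 0} K GQ)

/-- `A^{U_F}` as a `Gal(F/ℚ)`-module. -/
abbrev coeff (L : Level S) : Rep.{0, 0, 0} K L.Gal := A.quotientToInvariants L.U

/-- the inclusion `A^{U_F} → A` as a morphism along `G_ℚ → Gal(F/ℚ)`. -/
def liftHom (L : Level S) : Rep.res (QuotientGroup.mk' L.U) (coeff A L) ⟶ A :=
  Rep.ofHom (A.ρ.quotientToInvariants_lift L.U)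

/-- inflation `H¹(Gal(F/ℚ), A^{U_F}) → H¹(G_ℚ, A)`. -/
def infl₁ (L : Level S) : H1 (coeff A L) →ₗ[K] H1 A :=
  (groupCohomology.map (QuotientGroup.mk' L.U) (liftHom A L) 1).hom

theorem infl₁_injective (L : Level S) : Function.Injective (infl₁ A L) :=
  (ModuleCat.mono_iff_injective (H1InfRes A L.U).f).1 inferInstance

/-- inflation of cocycles -/
def inflCoc (L : Level S) : cocycles₁ (coeff A L) →ₗ[K] cocycles₁ A :=
  (mapCocycles₁ (QuotientGroup.mk' L.U) (liftHom A L)).hom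

@[simp] theorem inflCoc_apply (L : Level S) (c : cocycles₁ (coeff A L)) (g : GQ) :
    inflCoc A L c g = ((c (QuotientGroup.mk g) : coeff A L) : A) := rfl

theorem infl₁_mk (L : Level S) (c : cocycles₁ (coeff A L)) :
    infl₁ A L ((H1π (coeff A L)).hom c) = (H1π A).hom (inflCoc A L c) := by
  exact H1π_comp_map_apply (QuotientGroup.mk' L.U) (liftHom A L) c

/-- restriction to the decomposition group at finite level. -/
def resDec₁ (L : Level S) (q : Nat.Primes) :
    H1 (coeff A L) →ₗ[K] H1 (Rep.res (L.decHom q) (coeff A L)) :=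
  (groupCohomology.map (L.decHom q) (𝟙 (Rep.res (L.decHom q) (coeff A L))) 1).hom

theorem resDec₁_mk_eq_zero_iff (L : Level S) (q : Nat.Primes) (c : cocycles₁ (coeff A L)) :
    resDec₁ A L q ((H1π (coeff A L)).hom c) = 0 ↔
      ∃ a : coeff A L, ∀ h : L.Dec q,
        c (L.decHom q h) = (coeff A L).ρ (L.decHom q h) a - a := by
  have hcomp : resDec₁ A L q ((H1π (coeff A L)).hom c) =
      (H1π (Rep.res (L.decHom q) (coeff A L))).hom
        ((mapCocycles₁ (L.decHom q) (𝟙 (Rep.res (L.decHom q) (coeff A L)))).hom c) :=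
    H1π_comp_map_apply (L.decHom q) (𝟙 (Rep.res (L.decHom q) (coeff A L))) c
  rw [hcomp, H1π_eq_zero_iff]
  constructor
  · rintro ⟨a, ha⟩
    refine ⟨a, fun h => ?_⟩
    have := congrFun ha h
    rw [d₀₁_hom_apply] at this
    exact this.symm
  · rintro ⟨a, ha⟩
    refine ⟨a, ?_⟩
    funext h
    rw [d₀₁_hom_apply]
    exact (ha h).symm

/-- the finite-level Sha1. -/
def sha1Fin (L : Level S) : Submodule K (H1 (coeff A L)) :=
  ⨅ q : S, LinearMap.ker (resDec₁ A L q.1)

theorem mem_sha1Fin_mk_iff (L : Level S) (c : cocycles₁ (coeff A L)) :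
    (H1π (coeff A L)).hom c ∈ sha1Fin A L ↔
      ∀ q : S, ∃ a : coeff A L, ∀ h : L.Dec q.1,
        c (L.decHom q.1 h) = (coeff A L).ρ (L.decHom q.1 h) a - a := by
  simp only [sha1Fin, Submodule.mem_iInf, LinearMap.mem_ker]
  exact forall_congr' fun q => resDec₁_mk_eq_zero_iff A L q.1 c

/-! ### Comparison with the Prelude `sha₁` -/

theorem decHom_mk (L : Level S) (q : Nat.Primes) (h : GQp q) :
    L.decHom q (QuotientGroup.mk h) = QuotientGroup.mk (locQ q h) := rfl

theorem coe_coeff_ρ_mk (L : Level S) (g : GQ) (a : coeff A L) :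
    (((coeff A L).ρ (QuotientGroup.mk g) a : coeff A L) : A) = A.ρ g (a : A) := rfl

/-- Local coboundary condition for an inflated cocycle, in terms of the Prelude local group. -/
theorem locRes_infl₁_mk_eq_zero_iff (L : Level S) (q : Nat.Primes) (c : cocycles₁ (coeff A L)) :
    (groupCohomology.map (locQ q) (𝟙 (Rep.res (locQ q) A)) 1).hom
        ((H1π A).hom (inflCoc A L c)) = 0 ↔
      ∃ a : A, ∀ h : GQp q, ((c (QuotientGroup.mk (locQ q h)) : coeff A L) : A)
        = A.ρ (locQ q h) a - a := by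
  have hcomp : (groupCohomology.map (locQ q) (𝟙 (Rep.res (locQ q) A)) 1).hom
        ((H1π A).hom (inflCoc A L c)) =
      (H1π (Rep.res (locQ q) A)).hom
        ((mapCocycles₁ (locQ q) (𝟙 (Rep.res (locQ q) A))).hom (inflCoc A L c)) :=
    H1π_comp_map_apply (locQ q) (𝟙 (Rep.res (locQ q) A)) (inflCoc A L c)
  rw [hcomp, H1π_eq_zero_iff]
  constructor
  · rintro ⟨a, ha⟩
    refine ⟨a, fun h => ?_⟩
    have := congrFun ha h
    rw [d₀₁_hom_apply] at this
    exact this.symm
  · rintro ⟨a, ha⟩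
    refine ⟨a, ?_⟩
    funext h
    rw [d₀₁_hom_apply]
    exact (ha h).symm

theorem isLevelConstantS₁_inflCoc (L : Level S) (c : cocycles₁ (coeff A L)) :
    IsLevelConstantS₁ S (inflCoc A L c) := by
  refine ⟨L.F, L.unram, fun g s hs => ?_⟩
  have : (QuotientGroup.mk (g * s) : L.Gal) = QuotientGroup.mk g := by
    rw [QuotientGroup.eq]
    simpa using (L.U).inv_mem hs
  rw [inflCoc_apply, inflCoc_apply, this]

theorem infl₁_mem_continuousH1S (L : Level S) (x : H1 (coeff A L)) :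
    infl₁ A L x ∈ continuousH1S S A := by
  induction x using H1_induction_on with | @h c =>
  rw [infl₁_mk]
  exact (mem_continuousH1S_iff S A _).2 ⟨inflCoc A L c, isLevelConstantS₁_inflCoc A L c, rfl⟩

/-- Finite-level local triviality implies local triviality for the Prelude local groups. -/
theorem infl₁_mem_sha₁ (h2 : (2 : K) ≠ 0) (L : Level S) {x : H1 (coeff A L)}
    (hx : x ∈ sha1Fin A L) : infl₁ A L x ∈ sha₁ S A := by
  rw [Fermat.Agent.S55.Bridge.mem_sha₁_iff S h2]
  refine ⟨infl₁_mem_continuousH1S A L x, fun q => ?_⟩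
  induction x using H1_induction_on with | @h c =>
  rw [infl₁_mk, locRes_infl₁_mk_eq_zero_iff]
  obtain ⟨a, ha⟩ := (mem_sha1Fin_mk_iff A L c).1 hx q
  refine ⟨(a : A), fun h => ?_⟩
  have h1 := ha (QuotientGroup.mk h)
  rw [decHom_mk] at h1
  rw [h1]
  rfl

/-- Conversely, when `U_F` acts trivially on `A`. -/
theorem mem_sha1Fin_of_infl₁_mem_sha₁ (h2 : (2 : K) ≠ 0) (L : Level S)
    (hA : ∀ s ∈ L.U, ∀ a : A, A.ρ s a = a) {x : H1 (coeff A L)}
    (hx : infl₁ A L x ∈ sha₁ S A) : x ∈ sha1Fin A L := by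
  rw [Fermat.Agent.S55.Bridge.mem_sha₁_iff S h2] at hx
  obtain ⟨-, hloc⟩ := hx
  induction x using H1_induction_on with | @h c =>
  rw [mem_sha1Fin_mk_iff]
  intro q
  have hq := hloc q
  rw [infl₁_mk, locRes_infl₁_mk_eq_zero_iff] at hq
  obtain ⟨a, ha⟩ := hq
  refine ⟨⟨a, fun s => hA s.1 s.2 a⟩, fun h => ?_⟩
  induction h using QuotientGroup.induction_on with | @H h =>
  rw [decHom_mk]
  apply Subtype.ext
  rw [ha h]
  rfl

theorem mem_sha1Fin_iff_infl₁_mem_sha₁ (h2 : (2 : K) ≠ 0) (L : Level S)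
    (hA : ∀ s ∈ L.U, ∀ a : A, A.ρ s a = a) (x : H1 (coeff A L)) :
    x ∈ sha1Fin A L ↔ infl₁ A L x ∈ sha₁ S A :=
  ⟨infl₁_mem_sha₁ A h2 L, mem_sha1Fin_of_infl₁_mem_sha₁ A h2 L hA⟩

/-! ### The image of inflation -/

/-- A cocycle of `G_ℚ` which is constant modulo `U_F` descends to `Gal(F/ℚ)`. -/
theorem exists_inflCoc_eq (L : Level S) (c : cocycles₁ A)
    (hc : Fermat.Agent.S55.Bridge.IsConstMod₁ L.U c) :
    ∃ cbar : cocycles₁ (coeff A L), inflCoc A L cbar = c := by
  have h1 := (mem_cocycles₁_iff (c : GQ → A)).1 c.2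
  have hone : c (1 : GQ) = 0 := cocycles₁_map_one c
  have hU : ∀ s ∈ L.U, c s = 0 := fun s hs => by
    have := hc 1 s hs
    rw [one_mul] at this
    rw [this, hone]
  have hinv : ∀ g : GQ, (c g : A) ∈ Representation.invariants (A.ρ.comp (L.U).subtype) := by
    intro g s
    have hs : g⁻¹ * s.1 * g ∈ L.U := Subgroup.Normal.conj_mem' inferInstance s.1 s.2 g
    have e1 : c (s.1 * g) = c g := by
      have := hc g (g⁻¹ * s.1 * g) hs
      rwa [show g * (g⁻¹ * s.1 * g) = s.1 * g by group] at this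
    have e2 := h1 s.1 g
    rw [e1, hU s.1 s.2, add_zero] at e2
    exact e2.symm
  have hwd : ∀ g g' : GQ, (QuotientGroup.leftRel L.U) g g' →
      (⟨c g, hinv g⟩ : coeff A L) = ⟨c g', hinv g'⟩ := by
    intro g g' h
    apply Subtype.ext
    have := hc g (g⁻¹ * g') (QuotientGroup.leftRel_apply.1 h)
    rw [mul_inv_cancel_left] at this
    exact this.symm
  refine ⟨⟨fun g => Quotient.liftOn' g (fun g => (⟨c g, hinv g⟩ : coeff A L)) hwd, ?_⟩, ?_⟩
  · rw [mem_cocycles₁_iff]
    intro g h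
    induction g using QuotientGroup.induction_on with | @H g =>
    induction h using QuotientGroup.induction_on with | @H h =>
    apply Subtype.ext
    exact h1 g h
  · apply Subtype.ext
    funext g
    rfl

theorem mem_range_infl₁_iff (L : Level S) (y : H1 A) :
    y ∈ LinearMap.range (infl₁ A L) ↔
      ∃ c : cocycles₁ A, Fermat.Agent.S55.Bridge.IsConstMod₁ L.U c ∧ (H1π A).hom c = y := by
  constructor
  · rintro ⟨x, rfl⟩
    induction x using H1_induction_on with | @h c =>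
    refine ⟨inflCoc A L c, fun g s hs => ?_, (infl₁_mk A L c).symm⟩
    have : (QuotientGroup.mk (g * s) : L.Gal) = QuotientGroup.mk g := by
      rw [QuotientGroup.eq]
      simpa using (L.U).inv_mem hs
    rw [inflCoc_apply, inflCoc_apply, this]
  · rintro ⟨c, hc, rfl⟩
    obtain ⟨cbar, hcbar⟩ := exists_inflCoc_eq A L c hc
    exact ⟨(H1π (coeff A L)).hom cbar, by rw [infl₁_mk, hcbar]⟩

theorem range_infl₁_mono {L L' : Level S} (h : L ≤ L') :
    LinearMap.range (infl₁ A L) ≤ LinearMap.range (infl₁ A L') := by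
  intro y hy
  obtain ⟨c, hc, rfl⟩ := (mem_range_infl₁_iff A L _).1 hy
  exact (mem_range_infl₁_iff A L' _).2 ⟨c, hc.mono (Level.U_anti h), rfl⟩

/-! ### Levels are directed -/

/-- The level attached to a finite Galois `F/ℚ` unramified outside `S`. -/
def levelOfGalois (F : IntermediateField ℚ Qbar) (hF : F.IsUnramifiedOutside S)
    (hgal : IsGalois ℚ F) : Level S where
  F := F
  unram := hF
  normalU := by
    have hQ : IsGalois ℚ Qbar := Fermat.Agent.S55.Bridge.isGalois_Qbar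
    have h := (InfiniteGalois.normal_iff_isGalois F).2 (by
      convert hgal
      exact Subsingleton.elim _ _)
    exact h

/-- The compositum of two levels. -/
def levelSup (L L' : Level S) : Level S where
  F := L.F ⊔ L'.F
  unram := L.unram.sup L'.unram
  normalU := by
    rw [IntermediateField.fixingSubgroup_sup]
    have h1 := L.normalU
    have h2 := L'.normalU
    infer_instance

theorem le_levelSup_left (L L' : Level S) : L ≤ levelSup L L' :=
  show L.F ≤ L.F ⊔ L'.F from le_sup_left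

theorem le_levelSup_right (L L' : Level S) : L' ≤ levelSup L L' :=
  show L'.F ≤ L.F ⊔ L'.F from le_sup_right

instance : IsDirected (Level S) (· ≤ ·) :=
  ⟨fun L L' => ⟨levelSup L L', le_levelSup_left L L', le_levelSup_right L L'⟩⟩

/-- The trivial level `ℚ`. -/
def levelBot : Level S where
  F := ⊥
  unram := IntermediateField.isUnramifiedOutside_bot S
  normalU := by
    rw [IntermediateField.fixingSubgroup_bot]
    infer_instance

instance : Nonempty (Level S) := ⟨levelBot⟩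

/-- Every class of `continuousH1S` is inflated from some level above a given one. -/
theorem exists_level_mem_range_infl₁ (L₀ : Level S) {y : H1 A} (hy : y ∈ continuousH1S S A) :
    ∃ L : Level S, L₀ ≤ L ∧ y ∈ LinearMap.range (infl₁ A L) := by
  obtain ⟨c, hc, rfl⟩ := (mem_continuousH1S_iff S A y).1 hy
  obtain ⟨F, hF, hgal, hle, hcF⟩ :=
    (Fermat.Agent.S55.Bridge.isLevelConstantS₁_iff_galois S _ L₀.F L₀.unram).1 hc
  exact ⟨levelOfGalois F hF hgal, hle,
    (mem_range_infl₁_iff A (levelOfGalois F hF hgal) _).2 ⟨c, hcF, rfl⟩⟩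

/-! ### LIM4 -/

/-- `infl₁` as a map `Ш¹_F → sha₁`. -/
def shaInfl (h2 : (2 : K) ≠ 0) (L : Level S) : sha1Fin A L →ₗ[K] sha₁ S A :=
  ((infl₁ A L).comp (sha1Fin A L).subtype).codRestrict (sha₁ S A)
    fun x => infl₁_mem_sha₁ A h2 L x.2

@[simp] theorem coe_shaInfl (h2 : (2 : K) ≠ 0) (L : Level S) (x : sha1Fin A L) :
    (shaInfl A h2 L x : H1 A) = infl₁ A L (x : H1 (coeff A L)) := rfl

theorem shaInfl_injective (h2 : (2 : K) ≠ 0) (L : Level S) :
    Function.Injective (shaInfl A h2 L) := by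
  intro x y hxy
  apply Subtype.ext
  apply infl₁_injective A L
  have := congrArg Subtype.val hxy
  simpa using this

/-- **LIM4.** If `sha₁ S A` is finite and `U_{F₀}` acts trivially on `A`, then for every
sufficiently large level `F` the inflation map is an isomorphism `Ш¹_F(A) ≃ sha₁ S A`. -/
theorem exists_level_forall_shaInfl_bijective (h2 : (2 : K) ≠ 0) [Finite (sha₁ S A)]
    (L₀ : Level S) (hA : ∀ s ∈ L₀.U, ∀ a : A, A.ρ s a = a) :
    ∃ L₁ : Level S, L₀ ≤ L₁ ∧ ∀ L : Level S, L₁ ≤ L →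
      Function.Bijective (shaInfl A h2 L) := by
  classical
  have hex : ∀ y : sha₁ S A, ∃ L : Level S, L₀ ≤ L ∧
      (y : H1 A) ∈ LinearMap.range (infl₁ A L) := fun y =>
    exists_level_mem_range_infl₁ A L₀
      ((Fermat.Agent.S55.Bridge.mem_sha₁_iff S h2 A _).1 y.2).1
  choose Ly hLy₀ hLy using hex
  obtain ⟨M, hM⟩ := Finite.exists_le Ly
  refine ⟨levelSup M L₀, le_levelSup_right M L₀, fun L hL => ⟨shaInfl_injective A h2 L, ?_⟩⟩
  intro y
  have hML : M ≤ L := le_trans (le_levelSup_left M L₀) hL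
  have hL₀ : L₀ ≤ L := le_trans (le_levelSup_right M L₀) hL
  obtain ⟨x, hx⟩ := range_infl₁_mono A (le_trans (hM y) hML) (hLy y)
  have hAL : ∀ s ∈ L.U, ∀ a : A, A.ρ s a = a := fun s hs => hA s (Level.U_anti hL₀ hs)
  have hxs : x ∈ sha1Fin A L := by
    apply mem_sha1Fin_of_infl₁_mem_sha₁ A h2 L hAL
    rw [hx]
    exact y.2
  exact ⟨⟨x, hxs⟩, Subtype.ext hx⟩

/-- **LIM4**, cardinality form. -/
theorem exists_level_forall_card_sha1Fin_eq (h2 : (2 : K) ≠ 0) [Finite (sha₁ S A)]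
    (L₀ : Level S) (hA : ∀ s ∈ L₀.U, ∀ a : A, A.ρ s a = a) :
    ∃ L₁ : Level S, L₀ ≤ L₁ ∧ ∀ L : Level S, L₁ ≤ L →
      Nat.card (sha1Fin A L) = Nat.card (sha₁ S A) := by
  obtain ⟨L₁, h₁, h⟩ := exists_level_forall_shaInfl_bijective A h2 L₀ hA
  exact ⟨L₁, h₁, fun L hL => Nat.card_eq_of_bijective _ (h L hL)⟩

end

end Fermat.Agent.S55.E1.H603

end
-- ===== PACK-END S55/E1/H603/FinLevelH1.lean

-- ===== PACK-BEGIN S55/E1/Main.lean
section
/-
S55 engine E1 — top level.  Chief architect: helper55.  NO sorry.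

`EngineSpec` = the TARGET of layer D (engine E1): from the arithmetic inputs
(`T6p`, `GlobalSpec`, `LocalSpec`, `SUnitsDivSpec`, `H1FiniteSpec`) deduce
`finrank Ш¹_S(M^∨(1)) = finrank Ш²_S(M)` (with finite-dimensionality).
`S55_of_specs` : the frozen statement S55 follows from `EngineSpec` and the inputs.
-/



set_option autoImplicit false

open CategoryTheory Module groupCohomology ExtCitation

namespace Fermat.Agent.S55.E1

open Fermat.Agent.S55.Tow

/-- The hypotheses on `M` in the frozen statement S55. -/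
def IsAdmissible (S : Finset Nat.Primes) {p : ℕ} [Fact p.Prime]
    (M : Rep.{0, 0, 0} (ZMod p) (AlgebraicClosure ℚ ≃ₐ[ℚ] AlgebraicClosure ℚ)) : Prop :=
  (∀ m : M, ∃ F : IntermediateField ℚ (AlgebraicClosure ℚ), FiniteDimensional ℚ F ∧
      ∀ s ∈ F.fixingSubgroup, M.ρ s m = m) ∧
  (∀ q : Nat.Primes, q ∉ S → ∀ A : ValuationSubring (AlgebraicClosure ℚ),
      A.LiesOverPrime (q : ℕ) → ∀ g ∈ A.inertiaSubgroupIn ℚ, M.ρ g = 1)

/-- The conclusion of the engine: equality of dimensions of `Ш¹_S(M^∨(1))` and `Ш²_S(M)`. -/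
def DimEq (S : Finset Nat.Primes) {p : ℕ} [Fact p.Prime]
    (M : Rep.{0, 0, 0} (ZMod p) (AlgebraicClosure ℚ ≃ₐ[ℚ] AlgebraicClosure ℚ)) : Prop :=
  FiniteDimensional (ZMod p) (sha₁ S (M.dualTwist (cycloChar p))) ∧
  FiniteDimensional (ZMod p) (sha₂ S M) ∧
  finrank (ZMod p) (sha₁ S (M.dualTwist (cycloChar p))) = finrank (ZMod p) (sha₂ S M)

/-- **TARGET OF LAYER D (engine E1).** -/
def EngineSpec : Prop :=
  ∀ (p : ℕ) [Fact p.Prime], p ≠ 2 → ∀ (S : Finset Nat.Primes), pPrime p ∈ S →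
    TateNakayamaAtSpec → GlobalSpec S p → LocalSpec p → SUnitsDivSpec S p → H1FiniteSpec S p →
    ∀ (M : Rep.{0, 0, 0} (ZMod p) (AlgebraicClosure ℚ ≃ₐ[ℚ] AlgebraicClosure ℚ))
      [FiniteDimensional (ZMod p) M], IsAdmissible S M → DimEq S M

/-- The arithmetic inputs, as produced by layers T, G, L, B (for all odd `p ∈ S`). -/
def InputsSpec : Prop :=
  TateNakayamaAtSpec ∧
  ∀ (p : ℕ) [Fact p.Prime], p ≠ 2 → ∀ (S : Finset Nat.Primes), pPrime p ∈ S →
    GlobalSpec S p ∧ LocalSpec p ∧ SUnitsDivSpec S p ∧ H1FiniteSpec S p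

/-- S55 from the engine and the arithmetic inputs. -/
theorem S55_of_specs (hE : EngineSpec) (hI : InputsSpec)
    {p : ℕ} [Fact p.Prime] (hp2 : p ≠ 2) (S : Finset Nat.Primes) (hpS : pPrime p ∈ S)
    (M : Rep (ZMod p) (AlgebraicClosure ℚ ≃ₐ[ℚ] AlgebraicClosure ℚ))
    [FiniteDimensional (ZMod p) M]
    (hsm : ∀ m : M, ∃ F : IntermediateField ℚ (AlgebraicClosure ℚ), FiniteDimensional ℚ F ∧
      ∀ s ∈ F.fixingSubgroup, M.ρ s m = m)
    (hMur : ∀ q : Nat.Primes, q ∉ S → ∀ A : ValuationSubring (AlgebraicClosure ℚ),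
      A.LiesOverPrime (q : ℕ) → ∀ g ∈ A.inertiaSubgroupIn ℚ, M.ρ g = 1) :
    ∃ B : sha₁ S (M.dualTwist (cycloChar p)) →ₗ[ZMod p] sha₂ S M →ₗ[ZMod p] ZMod p,
      (∀ y, (∀ x, B y x = 0) → y = 0) ∧ (∀ x, (∀ y, B y x = 0) → x = 0) := by
  obtain ⟨hT, hrest⟩ := hI
  obtain ⟨hG, hL, hU, hF⟩ := hrest p hp2 S hpS
  obtain ⟨h1, h2, h3⟩ := hE p hp2 S hpS hT hG hL hU hF M ⟨hsm, hMur⟩
  exact Fermat.Agent.S55.Bridge.pairing_of_finrank_eq S M h1 h2 h3

end Fermat.Agent.S55.E1

end
-- ===== PACK-END S55/E1/Main.lean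

-- ===== PACK-BEGIN S55/E1/H423/UnifDiv.lean
section


/-!
# S55, engine E1, block LIM: uniform `p`-divisibility of `S`-units in the tower (GD9)

`SUnitsDivSpec` makes every single `S`-unit of a level a `p`-th power (of an `S`-unit) at some
higher level.  Here: the same for finitely many `S`-units at once, given directedness of the
levels (`IsDirected (Level S) (· ≤ ·)`, proved by helper603).

* `trUnits_trUnits`, `isSUnit_trUnits` : bookkeeping;
* `exists_level_div_finset` : uniform divisibility for a finite set of `S`-units;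
* `exists_level_div_closure` : the same for all elements of the subgroup generated by a finite
  set of `S`-units.
-/

set_option autoImplicit false

open CategoryTheory

namespace Fermat.Agent.S55.E1.H423

open Fermat.Agent.S55.Tow

variable {S : Finset Nat.Primes}

theorem trUnits_trUnits {L L' L'' : Level S} (h : L ≤ L') (h' : L' ≤ L'') (e : L.units.V) :
    (Level.trUnits h').hom ((Level.trUnits h).hom e) = (Level.trUnits (h.trans h')).hom e := rfl

theorem isSUnit_trUnits {L L' : Level S} (h : L ≤ L') {e : L.units.V} (he : L.IsSUnit e) :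
    L'.IsSUnit ((Level.trUnits h).hom e) := he

theorem isSUnit_zero (L : Level S) : L.IsSUnit (0 : L.units.V) := by
  intro ℓ _ A _
  refine ⟨?_, ?_⟩
  · show ((1 : Qbarˣ) : Qbar) ∈ A
    rw [Units.val_one]; exact A.one_mem
  · show (((1 : Qbarˣ)⁻¹ : Qbarˣ) : Qbar) ∈ A
    rw [inv_one, Units.val_one]; exact A.one_mem

theorem isSUnit_add (L : Level S) {e e' : L.units.V} (he : L.IsSUnit e) (he' : L.IsSUnit e') :
    L.IsSUnit (e + e') := by
  intro ℓ hℓ A hA
  obtain ⟨h1, h2⟩ := he ℓ hℓ A hA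
  obtain ⟨h1', h2'⟩ := he' ℓ hℓ A hA
  refine ⟨?_, ?_⟩
  · show ((L.val e * L.val e' : Qbarˣ) : Qbar) ∈ A
    rw [Units.val_mul]; exact A.mul_mem _ _ h1 h1'
  · show (((L.val e * L.val e')⁻¹ : Qbarˣ) : Qbar) ∈ A
    rw [mul_inv, Units.val_mul]; exact A.mul_mem _ _ h2 h2'

theorem isSUnit_neg (L : Level S) {e : L.units.V} (he : L.IsSUnit e) : L.IsSUnit (-e) := by
  intro ℓ hℓ A hA
  obtain ⟨h1, h2⟩ := he ℓ hℓ A hA
  refine ⟨?_, ?_⟩
  · show (((L.val e)⁻¹ : Qbarˣ) : Qbar) ∈ A
    exact h2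
  · show ((((L.val e)⁻¹)⁻¹ : Qbarˣ) : Qbar) ∈ A
    rw [inv_inv]; exact h1

/-- **GD9, uniform form**: finitely many `S`-units become divisible by `p` (by `S`-units) at a
common higher level. -/
theorem exists_level_div_finset [IsDirected (Level S) (· ≤ ·)] {p : ℕ}
    (h : SUnitsDivSpec S p) (L : Level S) (s : Finset L.units.V)
    (hs : ∀ e ∈ s, L.IsSUnit e) :
    ∃ (L' : Level S) (hLL' : L ≤ L'), ∀ e ∈ s, ∃ e' : L'.units.V, L'.IsSUnit e' ∧
      p • e' = (Level.trUnits hLL').hom e := by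
  classical
  induction s using Finset.induction_on with
  | empty => exact ⟨L, le_rfl, fun e he => absurd he (Finset.notMem_empty e)⟩
  | insert a s _ ih =>
    obtain ⟨L₁, h₁, hL₁⟩ := ih (fun e he => hs e (Finset.mem_insert_of_mem he))
    obtain ⟨L₂, h₂, a', ha', ha⟩ := h.1 L a (hs a (Finset.mem_insert_self a s))
    obtain ⟨L', h₁', h₂'⟩ := exists_ge_ge L₁ L₂
    refine ⟨L', h₁.trans h₁', fun e he => ?_⟩
    rcases Finset.mem_insert.1 he with rfl | he
    · refine ⟨(Level.trUnits h₂').hom a', isSUnit_trUnits h₂' ha', ?_⟩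
      rw [← map_nsmul, ha]
      rfl
    · obtain ⟨e', he', hee'⟩ := hL₁ e he
      refine ⟨(Level.trUnits h₁').hom e', isSUnit_trUnits h₁' he', ?_⟩
      rw [← map_nsmul, hee']
      rfl

/-- **GD9, uniform form for finitely generated subgroups.** -/
theorem exists_level_div_closure [IsDirected (Level S) (· ≤ ·)] {p : ℕ}
    (h : SUnitsDivSpec S p) (L : Level S) (s : Finset L.units.V)
    (hs : ∀ e ∈ s, L.IsSUnit e) :
    ∃ (L' : Level S) (hLL' : L ≤ L'), ∀ e ∈ AddSubgroup.closure (s : Set L.units.V),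
      ∃ e' : L'.units.V, L'.IsSUnit e' ∧ p • e' = (Level.trUnits hLL').hom e := by
  obtain ⟨L', hLL', hL'⟩ := exists_level_div_finset h L s hs
  refine ⟨L', hLL', fun e he => ?_⟩
  induction he using AddSubgroup.closure_induction with
  | mem y hy => exact hL' y hy
  | zero => exact ⟨0, isSUnit_zero L', by rw [map_zero, smul_zero]⟩
  | add y z _ _ hy hz =>
    obtain ⟨a, ha, hay⟩ := hy
    obtain ⟨b, hb, hbz⟩ := hz
    exact ⟨a + b, isSUnit_add L' ha hb, by rw [map_add, smul_add, hay, hbz]⟩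
  | neg y _ hy =>
    obtain ⟨a, ha, hay⟩ := hy
    exact ⟨-a, isSUnit_neg L' ha, by rw [map_neg, smul_neg, hay]⟩

end Fermat.Agent.S55.E1.H423

end
-- ===== PACK-END S55/E1/H423/UnifDiv.lean

-- ===== PACK-BEGIN S55/G/DescH537/Spec.lean
section
/-
S55, layer G, leaf G-DESC, helper537.  Part 4: `descent : DescentSpec` (helper421's
`G/Spec.lean`), from `DescH537.galoisDescent` applied to the Galois group `N` of `L/L'`.
-/



set_option autoImplicit false
set_option linter.unusedSectionVars false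

open scoped NumberField TensorProduct
open IsDedekindDomain

noncomputable section

namespace Fermat.Agent.S55.G.DescH537

section Adapter

variable (S : Finset Nat.Primes) (G L L' : Type) [Group G] [Finite G] [Field L] [NumberField L]
  [Field L'] [NumberField L'] [Algebra L' L] [MulSemiringAction G L] [FaithfulSMul G L]
  (N : Subgroup G)

/-- A subgroup `N` whose fixed field is (the image of) `L'` is a Galois group of `L/L'`. -/
theorem isGaloisGroup_of_fixed
    (hfix : ∀ x : L, (∀ n : N, (n : G) • x = x) ↔ x ∈ (algebraMap L' L).range) :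
    IsGaloisGroup N L' L where
  faithful := ⟨fun {n n'} h => Subtype.ext (eq_of_smul_eq_smul (α := L) (fun x => h x))⟩
  commutes := ⟨fun n a x => by
    rw [Algebra.smul_def, Algebra.smul_def, smul_mul']
    congr 1
    exact (hfix _).2 ⟨a, rfl⟩ n⟩
  isInvariant := ⟨fun x hx => by
    obtain ⟨a, ha⟩ := (hfix x).1 hx
    exact ⟨a, ha⟩⟩

/-- Trivial inertia outside `S` gives ramification index `1` outside `S`. -/
theorem eIdx_eq_one_of_isUnramOut [IsGaloisGroup N L' L] (hunr : IsUnramOut S G L)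
    (w : PrimeOut S L) : eIdx L' L w.1 = 1 := by
  have hp : (below L' L w.1).asIdeal ≠ ⊥ := (below L' L w.1).ne_bot
  have := w.1.isPrime
  have := (below L' L w.1).isPrime
  have hGal : IsGaloisGroup N (𝓞 L') (𝓞 L) :=
    IsGaloisGroup.of_isFractionRing N (𝓞 L') (𝓞 L) L' L
  have h1 : eIdx L' L w.1 = w.1.asIdeal.ramificationIdx (𝓞 L') :=
    Ideal.ramificationIdx'_eq_ramificationIdx _ _ hp
  have h2 := Ideal.ramificationIdxIn_eq_ramificationIdx (below L' L w.1).asIdeal w.1.asIdeal N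
  have h3 := Ideal.card_inertia_eq_ramificationIdxIn (G := N) (below L' L w.1).asIdeal
    w.1.asIdeal
  rw [h1, ← h2, ← h3]
  have htriv : ∀ n : N, n ∈ Ideal.inertia N w.1.asIdeal → n = 1 := by
    intro n hn
    have hx : ∀ x : L, (n : G) • x = x := hunr w.1 w.2 (n : G) (fun x => hn x)
    apply Subtype.ext
    refine eq_of_smul_eq_smul (α := L) (fun x => ?_)
    rw [hx, Subgroup.coe_one, one_smul]
  have hbot : Ideal.inertia N w.1.asIdeal = ⊥ := by
    rw [eq_bot_iff]
    intro n hn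
    exact Subgroup.mem_bot.2 (htriv n hn)
  rw [hbot]
  exact Subgroup.card_bot

/-- The action of the subgroup `N` on `C_S(L)` is the restriction of the action of `G`. -/
lemma cRepr_subgroup (n : N) (c : CS S L) : cRepr S N L n c = cRepr S G L (n : G) c := by
  obtain ⟨x, rfl⟩ := Submodule.Quotient.mk_surjective _ c
  change Submodule.Quotient.mk (jdRepr S N L n x) = Submodule.Quotient.mk (jdRepr S G L (n : G) x)
  congr 1

variable [N.Normal] [MulSemiringAction (G ⧸ N) L']

lemma asBC_equivariant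
    (hcompat : ∀ (g : G) (x : L'), algebraMap L' L ((g : G ⧸ N) • x) = g • algebraMap L' L x)
    (g : G) (z : AS S L') :
    asBC L' L S (asAut S (G ⧸ N) L' (g : G ⧸ N) z) = asAut S G L g (asBC L' L S z) := by
  induction z using TensorProduct.induction_on with
  | zero => simp
  | tmul x y => simp [hcompat]
  | add a b ha hb => simp only [map_add, ha, hb]

lemma jBC_equivariant
    (hcompat : ∀ (g : G) (x : L'), algebraMap L' L ((g : G ⧸ N) • x) = g • algebraMap L' L x)
    (g : G) (j : Additive (AS S L')ˣ) :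
    jBC L' L S (jRepr (G ⧸ N) S L' (g : G ⧸ N) j) = jRepr G S L g (jBC L' L S j) := by
  apply Additive.toMul.injective
  apply Units.ext
  rw [coe_jBC_apply, coe_jRepr_apply, coe_jRepr_apply, coe_jBC_apply,
    asBC_equivariant S G L L' N hcompat]

lemma below_primeSMul_quot
    (hcompat : ∀ (g : G) (x : L'), algebraMap L' L ((g : G ⧸ N) • x) = g • algebraMap L' L x)
    (g : G) (w : HeightOneSpectrum (𝓞 L)) :
    below L' L (primeSMul G g w) = primeSMul (G ⧸ N) (g : G ⧸ N) (below L' L w) := by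
  have hint : ∀ (h : G) (x : 𝓞 L'), algebraMap (𝓞 L') (𝓞 L) ((h : G ⧸ N) • x) =
      h • algebraMap (𝓞 L') (𝓞 L) x := by
    intro h x
    apply NumberField.RingOfIntegers.ext
    exact hcompat h (x : L')
  apply HeightOneSpectrum.ext
  ext x
  rw [below_asIdeal, Ideal.under_def, Ideal.mem_comap, mem_primeSMul_iff, mem_primeSMul_iff,
    below_asIdeal, Ideal.under_def, Ideal.mem_comap, ← QuotientGroup.mk_inv, hint]

lemma belowOut_primeOutMap_quot
    (hcompat : ∀ (g : G) (x : L'), algebraMap L' L ((g : G ⧸ N) • x) = g • algebraMap L' L x)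
    (g : G) (w : PrimeOut S L) :
    belowOut S L' L (primeOutMap S G L g w) =
      primeOutMap S (G ⧸ N) L' (g : G ⧸ N) (belowOut S L' L w) :=
  Subtype.ext (below_primeSMul_quot G L L' N hcompat g w.1)

lemma divBC_equivariant
    (hcompat : ∀ (g : G) (x : L'), algebraMap L' L ((g : G ⧸ N) • x) = g • algebraMap L' L x)
    (hunr : ∀ w : PrimeOut S L, eIdx L' L w.1 = 1) (g : G) (d : PrimeOut S L' →₀ ℤ) :
    divBC S L' L (divRepr S (G ⧸ N) L' (g : G ⧸ N) d) = divRepr S G L g (divBC S L' L d) := by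
  ext w
  have hw : w = primeOutMap S G L g (primeOutMap S G L g⁻¹ w) := by
    rw [← primeOutMap_mul, mul_inv_cancel, primeOutMap_one]
  rw [hw, divRepr_apply_apply, divBC_apply, divBC_apply, hunr, hunr,
    belowOut_primeOutMap_quot S G L L' N hcompat, divRepr_apply_apply]

end Adapter

/-- **G-DESC**: Galois descent for the `S`-idèle class group, in the form of helper421's
interface. -/
theorem descent : DescentSpec := by
  intro S G L L' _ _ _ _ _ _ _ _ _ N _ _ hS hunr hfix hcompat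
  have hGal : IsGaloisGroup N L' L := isGaloisGroup_of_fixed G L L' N hfix
  have he : ∀ w : PrimeOut S L, eIdx L' L w.1 = 1 := eIdx_eq_one_of_isUnramOut S G L L' N hunr
  refine ⟨csBC S L' L, csBC_injective S N L' L hS, ?_, ?_, ?_⟩
  · intro g c
    obtain ⟨x, rfl⟩ := Submodule.Quotient.mk_surjective _ c
    change Submodule.Quotient.mk (jdBC S L' L (jdRepr S (G ⧸ N) L' (g : G ⧸ N) x)) =
      Submodule.Quotient.mk (jdRepr S G L g (jdBC S L' L x))
    congr 1
    exact Prod.ext (jBC_equivariant S G L L' N hcompat g x.1)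
      (divBC_equivariant S G L L' N hcompat he g x.2)
  · intro c
    constructor
    · intro hc
      exact exists_csBC_eq_of_invariant S N L' L hS he c
        (fun n => (cRepr_subgroup S G L N n c).trans (hc n))
    · rintro ⟨c', rfl⟩ n
      rw [← cRepr_subgroup S G L N n]
      exact cRepr_csBC S N L' L n c'
  · intro y
    change Submodule.Quotient.mk (jdBC S L' L (y, 0)) = Submodule.Quotient.mk (jMap S L' L y, 0)
    congr 1
    exact Prod.ext rfl (map_zero (divBC S L' L))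

end Fermat.Agent.S55.G.DescH537

end
end
-- ===== PACK-END S55/G/DescH537/Spec.lean

-- ===== PACK-BEGIN S55/E1/H594/TensCore.lean
section
/-
S55 / engine E1 / G-ADAPTER leaf TENS (helper594), part 1: the ring-level comparison.

`q` a prime, `K = ℚ_q`, `Ω = ℚ̄_q`, `F ⊆ ℚ̄` finite Galois over `ℚ`, `Γ = Gal(F/ℚ)`,
`ι : ℚ̄ → Ω` the Prelude embedding, `r = toLevel q F : Gal(Ω/K) → Γ` (B11, helper175).

* `corePhi q F : K ⊗[ℚ] F →ₐ[K] (Γ → Ω)`, `c ⊗ x ↦ (g ↦ c · ι(g x))`;
* `coreR q F`: the `K`-subalgebra `{f | f (r τ * g) = τ (f g)}` of `Γ → Ω`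
  (the ring underlying `Coind_{D_q}^{Γ} F_q`);
* `corePhi_injective` (Vandermonde), `corePhi_range : range = coreR` (dimension count, Artin);
* `coreEquiv q F : K ⊗[ℚ] F ≃ₐ[K] coreR q F`, and the equivariance `corePhi_map`.
No `sorry`.
-/


set_option autoImplicit false
set_option linter.unusedSectionVars false
set_option linter.style.haveILetI false

namespace Fermat.Agent.S55.E1.H594

open Fermat.Agent.S55.Bridge.H175
open scoped TensorProduct

noncomputable section

section core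

variable (q : ℕ) [Fact q.Prime]
variable (F : IntermediateField ℚ (AlgebraicClosure ℚ)) [FiniteDimensional ℚ F] [IsGalois ℚ F]

/-- `ι` restricted to `F`, as a `ℚ`-algebra homomorphism. -/
def coreEmb : F →ₐ[ℚ] PadicAlgCl q :=
  ((padicEmbedding q).toRingHom.comp F.val.toRingHom).toRatAlgHom

theorem coreEmb_apply (x : F) : coreEmb q F x = padicEmbedding q (x : AlgebraicClosure ℚ) := rfl

theorem coreEmb_injective : Function.Injective (coreEmb q F) :=
  (coreEmb q F).toRingHom.injective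

/-- Evaluation at `g ∈ Gal(F/ℚ)`: `c ⊗ x ↦ c · ι(g x)`. -/
def coreEv (g : F ≃ₐ[ℚ] F) : ℚ_[q] ⊗[ℚ] F →ₐ[ℚ_[q]] PadicAlgCl q :=
  Algebra.TensorProduct.lift (Algebra.ofId ℚ_[q] (PadicAlgCl q))
    ((coreEmb q F).comp (g : F →ₐ[ℚ] F)) (fun _ _ => Commute.all _ _)

theorem coreEv_tmul (g : F ≃ₐ[ℚ] F) (c : ℚ_[q]) (x : F) :
    coreEv q F g (c ⊗ₜ[ℚ] x) =
      algebraMap ℚ_[q] (PadicAlgCl q) c * padicEmbedding q ((g x : F) : AlgebraicClosure ℚ) :=
  rfl

/-- `Φ : K ⊗[ℚ] F → (Γ → Ω)`, `c ⊗ x ↦ (g ↦ c · ι(g x))`. -/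
def corePhi : ℚ_[q] ⊗[ℚ] F →ₐ[ℚ_[q]] ((F ≃ₐ[ℚ] F) → PadicAlgCl q) :=
  AlgHom.pi (coreEv q F)

theorem corePhi_apply (a : ℚ_[q] ⊗[ℚ] F) (g : F ≃ₐ[ℚ] F) :
    corePhi q F a g = coreEv q F g a := rfl

theorem corePhi_tmul (g : F ≃ₐ[ℚ] F) (c : ℚ_[q]) (x : F) :
    corePhi q F (c ⊗ₜ[ℚ] x) g =
      algebraMap ℚ_[q] (PadicAlgCl q) c * padicEmbedding q ((g x : F) : AlgebraicClosure ℚ) :=
  rfl

/-- A `K`-basis expansion of the evaluation: for a power basis `θ^i` of `F/ℚ`,
`ev_g a = ∑ c_i · ι(g θ)^i`. -/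
theorem coreEv_eq_sum (pb : PowerBasis ℚ F) (a : ℚ_[q] ⊗[ℚ] F) (g : F ≃ₐ[ℚ] F) :
    coreEv q F g a = ∑ i : Fin pb.dim,
      algebraMap ℚ_[q] (PadicAlgCl q) ((Algebra.TensorProduct.basis ℚ_[q] pb.basis).repr a i) *
        padicEmbedding q ((g pb.gen : F) : AlgebraicClosure ℚ) ^ (i : ℕ) := by
  conv_lhs => rw [← (Algebra.TensorProduct.basis ℚ_[q] pb.basis).sum_repr a]
  rw [map_sum]
  refine Finset.sum_congr rfl (fun i _ => ?_)
  rw [map_smul, Algebra.TensorProduct.basis_apply, coreEv_tmul, map_one, one_mul,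
    Algebra.smul_def, PowerBasis.coe_basis, map_pow]
  have h1 : (((g pb.gen ^ (i : ℕ) : F)) : AlgebraicClosure ℚ) =
      ((g pb.gen : F) : AlgebraicClosure ℚ) ^ (i : ℕ) := rfl
  rw [h1, map_pow]

/-- **Injectivity of `Φ`** (Vandermonde). -/
theorem corePhi_injective : Function.Injective (corePhi q F) := by
  rw [injective_iff_map_eq_zero]
  intro a ha
  let pb : PowerBasis ℚ F := Field.powerBasisOfFiniteOfSeparable ℚ F
  have hcard : Nat.card (F ≃ₐ[ℚ] F) = pb.dim := by
    rw [IsGalois.card_aut_eq_finrank, pb.finrank]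
  let e : (F ≃ₐ[ℚ] F) ≃ Fin pb.dim := Finite.equivFinOfCardEq hcard
  let v : Fin pb.dim → PadicAlgCl q :=
    fun i => padicEmbedding q ((e.symm i pb.gen : F) : AlgebraicClosure ℚ)
  have hv : Function.Injective v := by
    intro i j hij
    have h1 : (e.symm i pb.gen : F) = e.symm j pb.gen :=
      coreEmb_injective q F hij
    have h2 : ((e.symm i : F ≃ₐ[ℚ] F) : F →ₐ[ℚ] F) = ((e.symm j : F ≃ₐ[ℚ] F) : F →ₐ[ℚ] F) :=
      pb.algHom_ext h1
    have h3 : e.symm i = e.symm j :=
      AlgEquiv.ext (fun x => congrArg (fun f : F →ₐ[ℚ] F => f x) h2)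
    exact e.symm.injective h3
  have hdet : (Matrix.vandermonde v).det ≠ 0 := Matrix.det_vandermonde_ne_zero_iff.2 hv
  let c : Fin pb.dim → PadicAlgCl q := fun i =>
    algebraMap ℚ_[q] (PadicAlgCl q) ((Algebra.TensorProduct.basis ℚ_[q] pb.basis).repr a i)
  have hmul : (Matrix.vandermonde v).mulVec c = 0 := by
    funext i
    have h1 : coreEv q F (e.symm i) a = 0 := congrFun ha (e.symm i)
    rw [coreEv_eq_sum q F pb] at h1
    rw [Pi.zero_apply, ← h1]
    simp only [Matrix.mulVec, dotProduct, Matrix.vandermonde_apply]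
    exact Finset.sum_congr rfl (fun j _ => mul_comm _ _)
  have hc : c = 0 := Matrix.eq_zero_of_mulVec_eq_zero hdet hmul
  have hrepr : (Algebra.TensorProduct.basis ℚ_[q] pb.basis).repr a = 0 := by
    ext i
    have := congrFun hc i
    exact (algebraMap ℚ_[q] (PadicAlgCl q)).injective (by simpa [c] using this)
  exact (Algebra.TensorProduct.basis ℚ_[q] pb.basis).repr.map_eq_zero_iff.1 hrepr

/-- The `K`-subalgebra `{f | f (r τ * g) = τ (f g)}` of `Γ → Ω`. -/
def coreR : Subalgebra ℚ_[q] ((F ≃ₐ[ℚ] F) → PadicAlgCl q) where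
  carrier := {f | ∀ (τ : PadicAlgCl q ≃ₐ[ℚ_[q]] PadicAlgCl q) (g : F ≃ₐ[ℚ] F),
    f (toLevel q F τ * g) = τ (f g)}
  mul_mem' := fun {a b} ha hb τ g => by
    rw [Pi.mul_apply, Pi.mul_apply, ha τ g, hb τ g, map_mul]
  add_mem' := fun {a b} ha hb τ g => by
    rw [Pi.add_apply, Pi.add_apply, ha τ g, hb τ g, map_add]
  algebraMap_mem' := fun c τ g => by
    rw [Pi.algebraMap_apply, Pi.algebraMap_apply, AlgEquiv.commutes]

theorem mem_coreR_iff (f : (F ≃ₐ[ℚ] F) → PadicAlgCl q) :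
    f ∈ coreR q F ↔ ∀ (τ : PadicAlgCl q ≃ₐ[ℚ_[q]] PadicAlgCl q) (g : F ≃ₐ[ℚ] F),
      f (toLevel q F τ * g) = τ (f g) := Iff.rfl

theorem corePhi_mem (a : ℚ_[q] ⊗[ℚ] F) : corePhi q F a ∈ coreR q F := by
  induction a using TensorProduct.induction_on with
  | zero => rw [map_zero]; exact (coreR q F).zero_mem
  | add a b ha hb => rw [map_add]; exact (coreR q F).add_mem ha hb
  | tmul c x =>
    intro τ g
    rw [corePhi_tmul, corePhi_tmul, map_mul, AlgEquiv.commutes, AlgEquiv.mul_apply,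
      padicEmbedding_toLevel]

/-- The values of an element of `coreR` lie in the local level `F_q = K · ι(F)`. -/
theorem coreR_apply_mem (f : (F ≃ₐ[ℚ] F) → PadicAlgCl q) (hf : f ∈ coreR q F)
    (g : F ≃ₐ[ℚ] F) : f g ∈ localLevel q F := by
  haveI : IsGalois ℚ_[q] (PadicAlgCl q) := IsAlgClosure.isGalois ℚ_[q] (PadicAlgCl q)
  rw [← InfiniteGalois.fixedField_fixingSubgroup (localLevel q F)]
  rintro ⟨τ, hτ⟩
  have h1 : toLevel q F τ = 1 := by
    rw [← MonoidHom.mem_ker, ker_toLevel]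
    exact hτ
  have h2 := hf τ g
  rw [h1, one_mul] at h2
  exact h2.symm

/-- `coreR` is finite-dimensional over `K`, of dimension `≤ [F : ℚ]`
(evaluate at a transversal of the decomposition group; `[F_q : K] = |D_q|` by B11). -/
theorem finite_and_finrank_coreR_le :
    Module.Finite ℚ_[q] (coreR q F) ∧
      Module.finrank ℚ_[q] (coreR q F) ≤ Module.finrank ℚ F := by
  classical
  haveI := finiteDimensional_localLevel q F
  obtain ⟨T, hT, -⟩ := (decompositionAt q F).exists_isComplement_right 1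
  haveI : Finite T := Finite.of_injective (fun t : T => (t : F ≃ₐ[ℚ] F)) Subtype.val_injective
  haveI : Fintype T := Fintype.ofFinite T
  let L : coreR q F →ₗ[ℚ_[q]] (T → localLevel q F) :=
    { toFun := fun f t => ⟨f.1 (t : F ≃ₐ[ℚ] F), coreR_apply_mem q F f.1 f.2 _⟩
      map_add' := fun f f' => rfl
      map_smul' := fun c f => rfl }
  have hL : Function.Injective L := by
    rw [injective_iff_map_eq_zero]
    intro f hf
    apply Subtype.ext
    funext g
    obtain ⟨⟨d, t⟩, hdt, -⟩ := hT.existsUnique g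
    obtain ⟨τ, hτ⟩ := d.2
    have h1 : f.1 (t : F ≃ₐ[ℚ] F) = 0 := by
      have := congrFun hf t
      exact congrArg (fun y : localLevel q F => (y : PadicAlgCl q)) this
    have h2 : g = toLevel q F τ * t := by
      rw [hτ]
      exact hdt.symm
    have h3 := f.2 τ (t : F ≃ₐ[ℚ] F)
    rw [h2, h3, h1, map_zero]
    rfl
  haveI hfin : Module.Finite ℚ_[q] (coreR q F) := Module.Finite.of_injective L hL
  refine ⟨hfin, ?_⟩
  have h1 := LinearMap.finrank_le_finrank_of_injective hL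
  have h2 : Module.finrank ℚ_[q] (T → localLevel q F) =
      Nat.card T * Module.finrank ℚ_[q] (localLevel q F) := by
    rw [Module.finrank_pi_fintype, Finset.sum_const, Finset.card_univ, smul_eq_mul,
      Nat.card_eq_fintype_card]
  have h3 : Nat.card (decompositionAt q F) * Nat.card T = Nat.card (F ≃ₐ[ℚ] F) :=
    hT.card_mul_card
  rw [h2, ← card_decompositionAt q F, mul_comm, h3, IsGalois.card_aut_eq_finrank] at h1
  exact h1

/-- `Φ` with values in `coreR`. -/
def corePhiR : ℚ_[q] ⊗[ℚ] F →ₐ[ℚ_[q]] coreR q F :=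
  (corePhi q F).codRestrict (coreR q F) (corePhi_mem q F)

theorem corePhiR_apply (a : ℚ_[q] ⊗[ℚ] F) : ((corePhiR q F a : coreR q F) :
    (F ≃ₐ[ℚ] F) → PadicAlgCl q) = corePhi q F a := rfl

theorem corePhiR_injective : Function.Injective (corePhiR q F) := fun _ _ h =>
  corePhi_injective q F (congrArg Subtype.val h)

theorem corePhiR_bijective : Function.Bijective (corePhiR q F) := by
  obtain ⟨hfin, hle⟩ := finite_and_finrank_coreR_le q F
  haveI := hfin
  have h1 := LinearMap.finrank_le_finrank_of_injective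
    (f := (corePhiR q F).toLinearMap) (corePhiR_injective q F)
  have h2 : Module.finrank ℚ_[q] (ℚ_[q] ⊗[ℚ] F) = Module.finrank ℚ F :=
    Module.finrank_baseChange
  have h3 : Module.finrank ℚ_[q] (ℚ_[q] ⊗[ℚ] F) = Module.finrank ℚ_[q] (coreR q F) :=
    le_antisymm h1 (h2 ▸ hle)
  exact ⟨corePhiR_injective q F,
    (LinearMap.injective_iff_surjective_of_finrank_eq_finrank
      (f := (corePhiR q F).toLinearMap) h3).1 (corePhiR_injective q F)⟩

/-- **TENS, ring level**: `K ⊗[ℚ] F ≃ₐ[K] {f : Γ → Ω | f (r τ * g) = τ (f g)}`. -/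
def coreEquiv : ℚ_[q] ⊗[ℚ] F ≃ₐ[ℚ_[q]] coreR q F :=
  AlgEquiv.ofBijective (corePhiR q F) (corePhiR_bijective q F)

theorem coreEquiv_apply (a : ℚ_[q] ⊗[ℚ] F) (g : F ≃ₐ[ℚ] F) :
    (coreEquiv q F a : (F ≃ₐ[ℚ] F) → PadicAlgCl q) g = coreEv q F g a := rfl

theorem coreEquiv_tmul (c : ℚ_[q]) (x : F) (g : F ≃ₐ[ℚ] F) :
    (coreEquiv q F (c ⊗ₜ[ℚ] x) : (F ≃ₐ[ℚ] F) → PadicAlgCl q) g =
      algebraMap ℚ_[q] (PadicAlgCl q) c * padicEmbedding q ((g x : F) : AlgebraicClosure ℚ) :=
  rfl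

/-- Equivariance: `Φ((1 ⊗ h) a)(g) = Φ(a)(g h)`. -/
theorem coreEv_map (h g : F ≃ₐ[ℚ] F) (a : ℚ_[q] ⊗[ℚ] F) :
    coreEv q F g (Algebra.TensorProduct.map (AlgHom.id ℚ_[q] ℚ_[q]) (h : F →ₐ[ℚ] F) a) =
      coreEv q F (g * h) a := by
  induction a using TensorProduct.induction_on with
  | zero => simp
  | add a b ha hb => rw [map_add, map_add, ha, hb, map_add]
  | tmul c x =>
    rw [Algebra.TensorProduct.map_tmul, coreEv_tmul, coreEv_tmul]
    rfl

end core

end

end Fermat.Agent.S55.E1.H594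

end
-- ===== PACK-END S55/E1/H594/TensCore.lean

-- ===== PACK-BEGIN S55/G/Exist/H361/Unram.lean
section
/-
S55 / layer G / block EXIST, leaf EX-KUM (helper361), part 2: Kummer extensions are unramified
outside `S` (in the sense of `G.IsUnramOut`, i.e. trivial inertia at the primes not above `S`).

`fixes_root_of_inertia`: let `M / K` be number fields, `p ∈ S` a prime, `w` a prime of `M` not
above `S`, `g ∈ Aut_K(M)` in the inertia group of `w`, `a ∈ Kˣ` with `p ∣ ord_v a` for all primes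
`v` of `K` not above `S`, and `β ∈ M` with `β ^ p = a`.  Then `g β = β`.

Proof: after multiplying `β` by a suitable `c ∈ Kˣ` we may assume that `β` is integral and a
unit at `w`.  Then `g β = η β` with `η ^ p = 1`, and `(η - 1) β ∈ w` gives `η - 1 ∈ w`; if
`η ≠ 1` then `η - 1 ∣ p`, so `p ∈ w`, i.e. `w` is above `p ∈ S`.
-/


set_option autoImplicit false
set_option linter.unusedSectionVars false

open scoped NumberField
open IsDedekindDomain

namespace Fermat.Agent.S55.G.Exist.H361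

open Fermat.Agent.S55.G

section Normalise

variable {K : Type} [Field K] [NumberField K]

/-- If `p ∣ ord_v a`, there is `c ∈ Kˣ` such that `a c^p` is an integer of `K` prime to `v`. -/
lemma exists_mul_pow_integral (p : ℕ) (hp : p ≠ 0) (v : HeightOneSpectrum (𝓞 K)) (a : Kˣ)
    (ha : (p : ℤ) ∣ ordAt v (Additive.ofMul a)) :
    ∃ (c : K) (a' : 𝓞 K), c ≠ 0 ∧ a' ∉ v.asIdeal ∧ (a' : K) = (a : K) * c ^ p := by
  obtain ⟨d, hd⟩ := ha
  obtain ⟨π, hπ⟩ := v.valuation_exists_uniformizer K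
  have hπ0 : π ≠ 0 := by
    intro h
    rw [h, map_zero] at hπ
    exact WithZero.exp_ne_zero.symm hπ
  have hva : v.valuation K (a : K) = WithZero.exp (-((p : ℤ) * d)) := by
    have := valuation_eq_exp_neg_ordAt v (Additive.ofMul a)
    rw [hd] at this
    exact this
  -- `x = a π^{-pd}` has valuation `1`
  have hx : v.valuation K ((a : K) * (π ^ (-d)) ^ p) = 1 := by
    rw [map_mul, map_pow, map_zpow₀, hva, hπ, ← WithZero.exp_zsmul, ← WithZero.exp_nsmul,
      ← WithZero.exp_add, ← WithZero.exp_zero]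
    congr 1
    simp only [smul_eq_mul, nsmul_eq_mul]
    ring
  obtain ⟨n, s, hns⟩ := v.exists_primeCompl_mul_eq_of_integer ((a : K) * (π ^ (-d)) ^ p) hx.le
  have hs : (s : 𝓞 K) ∉ v.asIdeal := s.2
  have hsv : v.valuation K (algebraMap (𝓞 K) K s) = 1 :=
    (HeightOneSpectrum.valuation_eq_one_iff_notMem v).2 hs
  have hn : n ∉ v.asIdeal := by
    rw [← HeightOneSpectrum.valuation_eq_one_iff_notMem v (K := K), ← hns, map_mul, hx, hsv,
      one_mul]
  have hs0 : (s : 𝓞 K) ≠ 0 := fun h => hs (h ▸ v.asIdeal.zero_mem)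
  refine ⟨π ^ (-d) * algebraMap (𝓞 K) K s, n * (s : 𝓞 K) ^ (p - 1), ?_, ?_, ?_⟩
  · refine mul_ne_zero (zpow_ne_zero _ hπ0) ?_
    intro h
    exact hs0 ((FaithfulSMul.algebraMap_injective (𝓞 K) K) (h.trans (map_zero _).symm))
  · intro h
    rcases (v.isPrime.mem_or_mem h) with h1 | h1
    · exact hn h1
    · exact hs (v.isPrime.mem_of_pow_mem _ h1)
  · have hp1 : p - 1 + 1 = p := Nat.succ_pred_eq_of_ne_zero hp
    push_cast
    change algebraMap (𝓞 K) K n * (algebraMap (𝓞 K) K s) ^ (p - 1) = _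
    rw [← hns, mul_pow]
    have : (algebraMap (𝓞 K) K s) ^ p =
        algebraMap (𝓞 K) K s * (algebraMap (𝓞 K) K s) ^ (p - 1) := by
      rw [← pow_succ', hp1]
    rw [this]
    ring

end Normalise

section Inertia

variable {K M : Type} [Field K] [NumberField K] [Field M] [NumberField M] [Algebra K M]

/-- `η - 1 ∣ p` for a `p`-th root of unity `η ≠ 1` (`p` prime) in a domain. -/
lemma sub_one_dvd_prime_of_pow_eq_one {R : Type*} [CommRing R] [IsDomain R] {p : ℕ}
    (hp : p.Prime) {η : R} (hη : η ^ p = 1) (hη1 : η ≠ 1) : η - 1 ∣ (p : R) := by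
  have : Fact p.Prime := ⟨hp⟩
  have hprim : IsPrimitiveRoot η p := by
    rw [IsPrimitiveRoot.iff_orderOf]
    exact orderOf_eq_prime hη hη1
  have hroot : (Polynomial.cyclotomic p R).IsRoot η := hprim.isRoot_cyclotomic hp.pos
  have h1 := Polynomial.sub_dvd_eval_sub η 1 (Polynomial.cyclotomic p R)
  rw [Polynomial.IsRoot.def.1 hroot, Polynomial.eval_one_cyclotomic_prime, zero_sub] at h1
  exact (dvd_neg.1 h1)

/-- **Inertia fixes Kummer roots.** -/
theorem fixes_root_of_inertia (p : ℕ) [hp : Fact p.Prime] (S : Finset Nat.Primes)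
    (hpS : (⟨p, hp.out⟩ : Nat.Primes) ∈ S)
    (w : HeightOneSpectrum (𝓞 M)) (hw : ¬ IsAbove S M w) (g : M ≃ₐ[K] M)
    (hg : ∀ x y : 𝓞 M, (y : M) = g (x : M) → y - x ∈ w.asIdeal)
    (a : Kˣ) (ha : ∀ v : PrimeOut S K, (p : ℤ) ∣ ordAt v.1 (Additive.ofMul a))
    (β : M) (hβ : β ^ p = algebraMap K M (a : K)) : g β = β := by
  by_contra hne
  -- the prime below `w`
  let v : HeightOneSpectrum (𝓞 K) := w.under (𝓞 K)
  have hv : ¬ IsAbove S K v := by
    rintro ⟨q, hq, hqv⟩
    refine hw ⟨q, hq, ?_⟩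
    have : ((q : ℕ) : 𝓞 K) ∈ w.asIdeal.under (𝓞 K) := hqv
    rw [Ideal.under_def, Ideal.mem_comap, map_natCast] at this
    exact this
  obtain ⟨c, a', hc0, ha'v, ha'⟩ := exists_mul_pow_integral p hp.out.ne_zero v a (ha ⟨v, hv⟩)
  -- the normalised root
  have hβ0 : β ≠ 0 := by
    intro h
    rw [h, zero_pow hp.out.ne_zero] at hβ
    exact a.ne_zero ((algebraMap K M).injective (hβ.symm.trans (map_zero _).symm))
  have hcM : algebraMap K M c ≠ 0 := fun h =>
    hc0 ((algebraMap K M).injective (h.trans (map_zero _).symm))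
  have hpow : (β * algebraMap K M c) ^ p = algebraMap (𝓞 M) M (algebraMap (𝓞 K) (𝓞 M) a') := by
    rw [mul_pow, hβ, ← map_pow, ← map_mul, ← ha']
    rfl
  have hint : IsIntegral ℤ (β * algebraMap K M c) := by
    refine IsIntegral.of_pow hp.out.pos ?_
    rw [hpow]
    exact NumberField.RingOfIntegers.isIntegral_coe _
  let b : 𝓞 M := ⟨β * algebraMap K M c, hint⟩
  have hb : (b : M) = β * algebraMap K M c := rfl
  have hbp : b ^ p = algebraMap (𝓞 K) (𝓞 M) a' := by
    apply NumberField.RingOfIntegers.coe_injective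
    rw [map_pow]
    exact hpow
  have hbw : b ∉ w.asIdeal := by
    intro h
    have h1 : b ^ p ∈ w.asIdeal := Ideal.pow_mem_of_mem _ h p hp.out.pos
    rw [hbp] at h1
    exact ha'v h1
  -- the root of unity
  have hη : (g β / β) ^ p = 1 := by
    rw [div_pow, ← map_pow, hβ, AlgEquiv.commutes, div_self]
    rw [← hβ]
    exact pow_ne_zero _ hβ0
  have hηint : IsIntegral ℤ (g β / β) := by
    refine IsIntegral.of_pow hp.out.pos ?_
    rw [hη]
    exact isIntegral_one
  let η : 𝓞 M := ⟨g β / β, hηint⟩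
  have hηp : η ^ p = 1 := by
    apply NumberField.RingOfIntegers.coe_injective
    rw [map_pow, map_one]
    exact hη
  have hη1 : η ≠ 1 := by
    intro h
    have h1 : g β / β = 1 := by
      have h2 : algebraMap (𝓞 M) M η = algebraMap (𝓞 M) M 1 := congrArg _ h
      rw [map_one] at h2
      exact h2
    exact hne ((div_eq_one_iff_eq hβ0).1 h1)
  -- `g b = η b`
  have hgb : ((η * b : 𝓞 M) : M) = g (b : M) := by
    rw [hb, map_mul, AlgEquiv.commutes]
    change g β / β * (β * algebraMap K M c) = _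
    field_simp
  have h1 : η * b - b ∈ w.asIdeal := hg b (η * b) hgb
  have h2 : (η - 1) * b ∈ w.asIdeal := by
    have : (η - 1) * b = η * b - b := by ring
    rw [this]; exact h1
  have h3 : η - 1 ∈ w.asIdeal := (w.isPrime.mem_or_mem h2).resolve_right hbw
  obtain ⟨r, hr⟩ := sub_one_dvd_prime_of_pow_eq_one hp.out hηp hη1
  refine hw ⟨⟨p, hp.out⟩, hpS, ?_⟩
  show ((p : ℕ) : 𝓞 M) ∈ w.asIdeal
  rw [hr]
  exact w.asIdeal.mul_mem_right _ h3

end Inertia

end Fermat.Agent.S55.G.Exist.H361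

end
-- ===== PACK-END S55/G/Exist/H361/Unram.lean

-- ===== PACK-BEGIN S55/G/Rec/H124/Conj.lean
section


/-!
# S55 / layer G / block REC : the localisation of a class depends only on the place

The place of `K = ℚ̄^U` induced by `ι_q ∘ g⁻¹` depends only on the double coset `U g D_q`.
We prove the corresponding statement for the vanishing of localised classes:

* `locBr_conj_eq_zero124` : `locBr q g U z = 0 → locBr q (u * g * loc θ) U z = 0` for `u ∈ U`,
  `θ ∈ G_{ℚ_q}`;
* `locBr_eq_zero_of_reps124` : if `R` is a system of representatives of `U \ G_ℚ / D_q` and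
  `locBr q r U z = 0` for all `r ∈ R`, then `locBr q g U z = 0` for ALL `g`.

(Needed for STEP C, `KillAbovePSpec`, whose conclusion quantifies over all `g`.)

The proof is at cochain level: right multiplication by `loc θ` is transport of structure along
conjugation by `θ`; left multiplication by `u ∈ U` is the inner automorphism of `U`, which acts
trivially on cohomology through the explicit homotopy `innerHomotopy124`, and this homotopy is
level-constant.
-/

set_option autoImplicit false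

noncomputable section

namespace Fermat.Agent.S55.G.Rec.H124

open groupCohomology

local notation "Qb" => AlgebraicClosure ℚ
local notation "GQ" => (AlgebraicClosure ℚ ≃ₐ[ℚ] AlgebraicClosure ℚ)

universe u

section Abstract

variable {k : Type u} [CommRing k] {G : Type u} [Group G] (A : Rep k G)

/-- The homotopy for the inner automorphism by `u`. -/
def innerHomotopy124 (c : G × G → A) (u : G) : G → A :=
  fun h => A.ρ u⁻¹ (c (u * h * u⁻¹, u) - c (u, h))

/-- The conjugate of a 2-cochain by `u`. -/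
def innerConj124 (c : G × G → A) (u : G) : G × G → A :=
  fun p => A.ρ u⁻¹ (c (u * p.1 * u⁻¹, u * p.2 * u⁻¹))

lemma rho_inv_rho124 (u : G) (x : A) : A.ρ u⁻¹ (A.ρ u x) = x := by
  rw [← Module.End.mul_apply, ← map_mul, inv_mul_cancel, map_one, Module.End.one_apply]

lemma rho_rho_inv124 (u : G) (x : A) : A.ρ u (A.ρ u⁻¹ x) = x := by
  rw [← Module.End.mul_apply, ← map_mul, mul_inv_cancel, map_one, Module.End.one_apply]

/-- Inner automorphisms act trivially on `H²`, explicitly. -/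
lemma innerConj_eq124 (c : G × G → A) (hc : c ∈ cocycles₂ A) (u : G) :
    innerConj124 A c u = c + (d₁₂ A).hom (innerHomotopy124 A c u) := by
  rw [mem_cocycles₂_def] at hc
  funext ⟨h₁, h₂⟩
  have inj : Function.Injective (A.ρ u) := fun x y hxy => by
    have := congrArg (A.ρ u⁻¹) hxy
    rwa [rho_inv_rho124, rho_inv_rho124] at this
  apply inj
  simp only [innerConj124, innerHomotopy124, Pi.add_apply, d₁₂_hom_apply, map_add, map_sub,
    rho_rho_inv124]
  have E1 := hc (u * h₁ * u⁻¹) (u * h₂ * u⁻¹) u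
  have E2 := hc (u * h₁ * u⁻¹) u h₂
  have E3 := hc u h₁ h₂
  have g1 : u * h₁ * u⁻¹ * (u * h₂ * u⁻¹) = u * (h₁ * h₂) * u⁻¹ := by group
  have g2 : u * h₂ * u⁻¹ * u = u * h₂ := by group
  have g3 : u * h₁ * u⁻¹ * u = u * h₁ := by group
  rw [g1, g2] at E1
  rw [g3] at E2
  have r1 : ∀ x : A, A.ρ u (A.ρ h₁ (A.ρ u⁻¹ x)) = A.ρ (u * h₁ * u⁻¹) x := by
    intro x
    rw [map_mul, map_mul, Module.End.mul_apply, Module.End.mul_apply]
  rw [r1, r1]
  linear_combination (norm := abel) -E1 + E2 - E3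

end Abstract

section Global

/-- The homotopy of a level-constant cochain is level-constant. -/
lemma isLevelConstant₁_innerHomotopy124 (U : Subgroup GQ) (c : ↥U × ↥U → gModOn U)
    (hc : IsLevelConstant₂ U.subtype c) (u : ↥U) :
    IsLevelConstant₁ U.subtype (innerHomotopy124 (gModOn U) c u) := by
  obtain ⟨F, hF, h⟩ := hc
  have := hF
  have := finiteDimensional_map_inv F (u : GQ)
  refine ⟨F ⊔ F.map ((u : GQ)⁻¹ : GQ).toAlgHom, inferInstance, fun x s hs => ?_⟩
  have hs1 : U.subtype s ∈ F.fixingSubgroup :=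
    IntermediateField.fixingSubgroup_antitone le_sup_left hs
  have hs2 : U.subtype (u * s * u⁻¹) ∈ F.fixingSubgroup :=
    (mem_fixingSubgroup_map_inv F (u : GQ) (s : GQ)).1
      (IntermediateField.fixingSubgroup_antitone le_sup_right hs)
  have h1 : (1 : ↥U) ∈ U.subtype ⁻¹' (F.fixingSubgroup : Set GQ) := by
    show U.subtype 1 ∈ F.fixingSubgroup
    rw [map_one]; exact one_mem _
  unfold innerHomotopy124
  have e1 : c (u * (x * s) * u⁻¹, u) = c (u * x * u⁻¹, u) := by
    have := h (u * x * u⁻¹) u (u * s * u⁻¹) 1 hs2 h1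
    rw [mul_one] at this
    rw [← this]
    congr 2
    group
  have e2 : c (u, x * s) = c (u, x) := by
    have := h u x 1 s h1 hs1
    rwa [mul_one] at this
  rw [e1, e2]

end Global

section Local

variable (q : ℕ) [Fact q.Prime]

local notation "Gq" => (PadicAlgCl q ≃ₐ[ℚ_[q]] PadicAlgCl q)

variable (U : Subgroup GQ) (g u : GQ)

/-- Conjugation by `θ`, from the local group at `u g loc(θ)` to the local group at `g`. -/
def conjHom124 (θ : Gq) (hu : u ∈ U) :
    ↥(locSub q (u * g * localGaloisToGlobal q θ) U) →* ↥(locSub q g U) where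
  toFun τ := ⟨θ * τ * θ⁻¹, by
    rw [mem_locSub]
    have h := τ.2
    rw [mem_locSub] at h
    have e : g * localGaloisToGlobal q (θ * τ * θ⁻¹) * g⁻¹ =
        u⁻¹ * (u * g * localGaloisToGlobal q θ * localGaloisToGlobal q τ *
          (u * g * localGaloisToGlobal q θ)⁻¹) * u := by
      simp only [map_mul, map_inv]
      group
    rw [e]
    exact U.mul_mem (U.mul_mem (U.inv_mem hu) h) hu⟩
  map_one' := by ext1; simp
  map_mul' a b := by ext1; simp [mul_assoc]

@[simp] lemma conjHom124_coe (θ : Gq) (hu : u ∈ U)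
    (τ : ↥(locSub q (u * g * localGaloisToGlobal q θ) U)) :
    ((conjHom124 q U g u θ hu τ : ↥(locSub q g U)) : Gq) = θ * τ * θ⁻¹ := rfl

/-- The coefficient map `x ↦ θ⁻¹ x`. -/
def conjPush124 (θ : Gq) : lModOn q (locSub q g U) →ₗ[ℤ]
    lModOn q (locSub q (u * g * localGaloisToGlobal q θ) U) :=
  (MonoidHom.toAdditive (MulDistribMulAction.toMonoidHom (PadicAlgCl q)ˣ θ⁻¹)).toIntLinearMap

lemma conjPush124_apply (θ : Gq) (a : lModOn q (locSub q g U)) :
    conjPush124 q U g u θ a = Additive.ofMul (θ⁻¹ • (Additive.toMul a : (PadicAlgCl q)ˣ)) := rfl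

lemma conjPush124_equivariant (θ : Gq) (hu : u ∈ U)
    (τ : ↥(locSub q (u * g * localGaloisToGlobal q θ) U)) (a : lModOn q (locSub q g U)) :
    conjPush124 q U g u θ ((lModOn q (locSub q g U)).ρ (conjHom124 q U g u θ hu τ) a) =
      (lModOn q (locSub q (u * g * localGaloisToGlobal q θ) U)).ρ τ (conjPush124 q U g u θ a) := by
  apply Additive.toMul.injective
  show θ⁻¹ • ((θ * (τ : Gq) * θ⁻¹) • (Additive.toMul a : (PadicAlgCl q)ˣ)) =
    (τ : Gq) • (θ⁻¹ • (Additive.toMul a : (PadicAlgCl q)ˣ))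
  rw [← mul_smul, ← mul_smul]
  congr 1
  group

/-- Level-constancy is preserved by conjugation by `θ`. -/
lemma isLevelConstant₁_conj124 (θ : Gq) (hu : u ∈ U) {X : Type*} {x : ↥(locSub q g U) → X}
    (hx : IsLevelConstant₁ (lHom q (locSub q g U)) x) :
    IsLevelConstant₁ (lHom q (locSub q (u * g * localGaloisToGlobal q θ) U))
      (x ∘ conjHom124 q U g u θ hu) := by
  obtain ⟨F, hF, h⟩ := hx
  have := hF
  refine ⟨F.map ((localGaloisToGlobal q θ)⁻¹ : GQ).toAlgHom,
    finiteDimensional_map_inv F (localGaloisToGlobal q θ), fun τ σ hσ => ?_⟩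
  simp only [Function.comp_apply, map_mul]
  refine h _ _ ?_
  have := (mem_fixingSubgroup_map_inv F (localGaloisToGlobal q θ) _).1 hσ
  show localGaloisToGlobal q (θ * (σ : Gq) * θ⁻¹) ∈ F.fixingSubgroup
  rw [map_mul, map_mul, map_inv]
  exact this

/-- **Cochain-level statement**: if the localisation at `g` of a level cocycle is a level
coboundary, so is its localisation at `u g loc(θ)`. -/
theorem locCochain₂_conj_mem124 (θ : Gq) (hu : u ∈ U) (c : ↥U × ↥U → gModOn U)
    (hc : c ∈ levelCocycles₂ U.subtype (gModOn U))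
    (h : locCochain₂ q g U c ∈
      levelCoboundaries₂ (lHom q (locSub q g U)) (lModOn q (locSub q g U))) :
    locCochain₂ q (u * g * localGaloisToGlobal q θ) U c ∈
      levelCoboundaries₂ (lHom q (locSub q (u * g * localGaloisToGlobal q θ) U))
        (lModOn q (locSub q (u * g * localGaloisToGlobal q θ) U)) := by
  obtain ⟨b, hb, hbc⟩ := (mem_levelCoboundaries₂_iff _ _ _).1 h
  set uU : ↥U := ⟨u, hu⟩ with huU
  set β := innerHomotopy124 (gModOn U) c uU with hβ
  have hconj := innerConj_eq124 (gModOn U) c hc.1 uU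
  have hβl : IsLevelConstant₁ U.subtype β := isLevelConstant₁_innerHomotopy124 U c hc.2 uU
  -- the key identity
  have key : locCochain₂ q (u * g * localGaloisToGlobal q θ) U c =
      cochainsPullPush₂ (conjHom124 q U g u θ hu) (conjPush124 q U g u θ)
        (locCochain₂ q g U (innerConj124 (gModOn U) c uU)) := by
    funext ⟨τ₁, τ₂⟩
    have hh : ∀ τ : ↥(locSub q (u * g * localGaloisToGlobal q θ) U),
        uU * locHom q g U (conjHom124 q U g u θ hu τ) * uU⁻¹ =
          locHom q (u * g * localGaloisToGlobal q θ) U τ := by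
      intro τ
      apply Subtype.ext
      show u * (g * localGaloisToGlobal q (θ * (τ : Gq) * θ⁻¹) * g⁻¹) * u⁻¹ =
        u * g * localGaloisToGlobal q θ * localGaloisToGlobal q τ *
          (u * g * localGaloisToGlobal q θ)⁻¹
      simp only [map_mul, map_inv]
      group
    have hp : ∀ m : gModOn U,
        conjPush124 q U g u θ (locPush q g U ((gModOn U).ρ uU⁻¹ m)) =
          locPush q (u * g * localGaloisToGlobal q θ) U m := by
      intro m
      apply Additive.toMul.injective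
      apply Units.ext
      show θ⁻¹ (padicEmbedding q (g⁻¹ ((u⁻¹ : GQ) ((Additive.toMul m : Qbˣ) : Qb)))) =
        padicEmbedding q ((u * g * localGaloisToGlobal q θ)⁻¹ ((Additive.toMul m : Qbˣ) : Qb))
      rw [← padicEmbedding_localGaloisToGlobal, map_inv]
      congr 1
    show locPush q (u * g * localGaloisToGlobal q θ) U
        (c (locHom q (u * g * localGaloisToGlobal q θ) U τ₁,
          locHom q (u * g * localGaloisToGlobal q θ) U τ₂)) =
      conjPush124 q U g u θ (locPush q g U ((gModOn U).ρ uU⁻¹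
        (c (uU * locHom q g U (conjHom124 q U g u θ hu τ₁) * uU⁻¹,
          uU * locHom q g U (conjHom124 q U g u θ hu τ₂) * uU⁻¹))))
    rw [hh, hh, hp]
  rw [key, hconj, map_add, ← hbc]
  have e1 : locCochain₂ q g U ((d₁₂ (gModOn U)).hom β) =
      (d₁₂ (lModOn q (locSub q g U))).hom (locCochain₁ q g U β) :=
    cochainsPullPush₂_d₁₂ (locHom q g U) (locPush q g U) (locPush_equivariant q g U) β
  rw [e1, ← map_add, cochainsPullPush₂_d₁₂ (conjHom124 q U g u θ hu) (conjPush124 q U g u θ)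
    (conjPush124_equivariant q U g u θ hu)]
  refine (mem_levelCoboundaries₂_iff _ _ _).2 ⟨_, ?_, rfl⟩
  have hB : IsLevelConstant₁ (lHom q (locSub q g U)) (b + locCochain₁ q g U β) :=
    hb.add ((isLevelConstant₁_loc q g U hβl).comp (locPush q g U) :)
  exact ((isLevelConstant₁_conj124 q U g u θ hu hB).comp (conjPush124 q U g u θ) :)

/-- **The vanishing of a localised class depends only on the place.** -/
theorem locBr_conj_eq_zero124 (θ : Gq) (hu : u ∈ U) (z : gBr U) (h : locBr q g U z = 0) :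
    locBr q (u * g * localGaloisToGlobal q θ) U z = 0 := by
  obtain ⟨c, rfl⟩ := Submodule.mkQ_surjective _ z
  change locBr q g U (continuousH2π U.subtype (gModOn U) c) = 0 at h
  change locBr q (u * g * localGaloisToGlobal q θ) U (continuousH2π U.subtype (gModOn U) c) = 0
  rw [locBr_mk, continuousH2π_eq_zero_iff] at h ⊢
  exact locCochain₂_conj_mem124 q U g u θ hu c c.2 h

/-- If a class vanishes at a system of representatives of the places above `q`, it vanishes at
all places above `q`. -/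
theorem locBr_eq_zero_of_reps124 (R : Finset GQ)
    (hR : IsDoubleCosetReps U (localGaloisToGlobal q).range R) (z : gBr U)
    (h : ∀ r ∈ R, locBr q r U z = 0) (g : GQ) : locBr q g U z = 0 := by
  obtain ⟨r, ⟨hr, u, hu, d, ⟨θ, rfl⟩, rfl⟩, -⟩ := hR g
  exact locBr_conj_eq_zero124 q U r u θ hu z (h r hr)

end Local

end Fermat.Agent.S55.G.Rec.H124

end
end
-- ===== PACK-END S55/G/Rec/H124/Conj.lean

-- ===== PACK-BEGIN S55/KL/LocalGlueH593.lean
section


/-!
# S55 / layer KL: the local glue leaves KL-HYP and KL-CD   (helper593)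

* `localKummerHyp_of` : KL-SM + KL-DIV + KL-MU + KL-H2 + KL-H3 + KL-DEG + T1b ⇒ `LocalKummerHypSpec`
  (the hypotheses of the abstract Kummer machine for `(Gal(ℚ̄_q/ℚ_q), ℚ̄_qˣ, p)`);
* `localCd_of` : KB-CD + KL-HYP + KB-SCAL' ⇒ `LocalCdSpec`;
* `localSurjH2_of` : KB-A4 + KL-CD ⇒ `LocalSurjH2Spec` (= input A4 of layer D, elementwise).

The abstract core is stated for any `(Γ, N, A)`:
`effTors_of_subsingleton`, `effDiv_of_cyclic` (`H²` cyclic of order `[Γ : V]`, killed by
`[Γ : V]`, degrees unbounded at `p` ⇒ `colim H² ⊗ ℤ/p = 0`).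
Mathlib + `KL/SpecLocal.lean` only.
-/

set_option autoImplicit false
set_option linter.style.haveILetI false

open CategoryTheory groupCohomology

namespace Fermat.Agent.S55.KL.H593

open Fermat.Agent.S55.KL

/-! ## Abstract core -/

section abstract

variable {k : Type} [CommRing k] {Γ : Type} [Group Γ]

/-- If all `Hⁿ(Γ/V, B^V)` vanish then `colim Hⁿ[p] = 0`. -/
theorem effTors_of_subsingleton (N : NLevels Γ) (B : Rep.{0} k Γ) (p n : ℕ)
    (h : ∀ V : N.Lvl, Subsingleton (HL B V.W n)) : EffTors N B p n := by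
  intro V y _
  haveI := h V
  refine ⟨V, le_rfl, ?_⟩
  rw [Subsingleton.elim y 0, map_zero]

/-- If all `Hⁿ(Γ/V, B^V)` vanish then `colim Hⁿ = 0`. -/
theorem effAll_of_subsingleton (N : NLevels Γ) (B : Rep.{0} k Γ) (n : ℕ)
    (h : ∀ V : N.Lvl, Subsingleton (HL B V.W n)) : EffAll N B n := by
  intro V y
  haveI := h V
  refine ⟨V, le_rfl, ?_⟩
  rw [Subsingleton.elim y 0, map_zero]

/-- In `ZMod n'`, an element killed by `n` is divisible by `p` as soon as `p * n ∣ n'`
(`0 < n`). -/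
theorem zmod_exists_nsmul_of_dvd {n n' p : ℕ} (hn : 0 < n) (hdvd : p * n ∣ n') (z : ZMod n')
    (hz : n • z = 0) : ∃ w : ZMod n', z = p • w := by
  obtain ⟨m, hm⟩ := hdvd
  rcases Nat.eq_zero_or_pos n' with h0 | hpos
  · -- `n' = 0`: `ZMod 0 = ℤ` is torsion-free
    subst h0
    have hz' : z = 0 := by
      rcases smul_eq_zero.1 hz with h | h
      · exact absurd h hn.ne'
      · exact h
    exact ⟨0, by rw [hz', smul_zero]⟩
  haveI : NeZero n' := ⟨hpos.ne'⟩
  have hval : (z.val : ZMod n') = z := ZMod.natCast_zmod_val z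
  have h1 : ((n * z.val : ℕ) : ZMod n') = 0 := by
    rw [Nat.cast_mul, hval, ← nsmul_eq_mul]
    exact hz
  have h2 : n' ∣ n * z.val := (ZMod.natCast_eq_zero_iff _ _).1 h1
  have h3 : p * m ∣ z.val := by
    have h4 : n * (p * m) ∣ n * z.val := by
      have : n * (p * m) = n' := by rw [hm]; ring
      rw [this]
      exact h2
    exact (Nat.mul_dvd_mul_iff_left hn).1 h4
  obtain ⟨b, hb⟩ := h3
  refine ⟨((m * b : ℕ) : ZMod n'), ?_⟩
  rw [← hval, hb, nsmul_eq_mul, ← Nat.cast_mul]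
  congr 1
  ring

/-- **EffDiv in degree `n`** from: `Hⁿ(Γ/V, B^V)` is cyclic of order `[Γ : V]` and killed by
`[Γ : V]`, and below every level there is a level of index divisible by `p · [Γ : V]`. -/
theorem effDiv_of_cyclic (N : NLevels Γ) (B : Rep.{0} k Γ) (p n : ℕ)
    (hcyc : ∀ V : N.Lvl, Nonempty (HL B V.W n ≃+ ZMod (Nat.card (Γ ⧸ V.W))))
    (hkill : ∀ (V : N.Lvl) (x : HL B V.W n), Nat.card (Γ ⧸ V.W) • x = 0)
    (hdeg : ∀ V : N.Lvl, ∃ V' : N.Lvl, V'.W ≤ V.W ∧
      p * Nat.card (Γ ⧸ V.W) ∣ Nat.card (Γ ⧸ V'.W)) :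
    EffDiv N B p n := by
  intro V x
  obtain ⟨V', hle, hdvd⟩ := hdeg V
  obtain ⟨e⟩ := hcyc V'
  refine ⟨V', hle, ?_⟩
  haveI : Finite (Γ ⧸ V.W) := Subgroup.finite_quotient_of_finiteIndex
  have hn : 0 < Nat.card (Γ ⧸ V.W) := Nat.card_pos
  have hx' : Nat.card (Γ ⧸ V.W) • (infl B hle n).hom x = 0 := by
    rw [← map_nsmul, hkill V x, map_zero]
  have hz : Nat.card (Γ ⧸ V.W) • e ((infl B hle n).hom x) = 0 := by
    rw [← map_nsmul, hx', map_zero]
  obtain ⟨w, hw⟩ := zmod_exists_nsmul_of_dvd hn hdvd _ hz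
  refine ⟨e.symm w, ?_⟩
  apply e.injective
  rw [hw, map_nsmul, AddEquiv.apply_symm_apply]

end abstract

/-! ## KL-HYP -/

/-- **KL-HYP.** -/
theorem localKummerHyp_of (hSm : UnitsSmoothSpec) (hDiv : UnitsDivSpec) (hMu : UnitsTorsSpec)
    (hH2 : LocalH2Spec) (hH3 : LocalH3Spec) (hDeg : LocalDegreeSpec)
    (hCT : Fermat.Agent.S55.T.CardTorsionSpec) : LocalKummerHypSpec := by
  intro q _ p hp
  refine ⟨hSm ℚ_[q] (PadicAlgCl q), hDiv ℚ_[q] (PadicAlgCl q) p hp.pos,
    hMu ℚ_[q] (PadicAlgCl q) p hp, fun U hU => ⟨?_, ?_⟩⟩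
  · exact effTors_of_subsingleton _ _ p 3 (fun V => hH3 q U hU V)
  · refine effDiv_of_cyclic _ _ p 2 (fun V => hH2 q U hU V) (fun V x => ?_)
      (fun V => hDeg q p hp U hU V)
    haveI : Finite (↥U ⧸ V.W) := Subgroup.finite_quotient_of_finiteIndex
    exact hCT ℤ (↥U ⧸ V.W) _ 2 (by norm_num) x

/-! ## KL-CD -/

/-- **KL-CD.** -/
theorem localCd_of (hCd : CdSpec) (hHyp : LocalKummerHypSpec) (hSc : CdScalarsSpec) :
    LocalCdSpec := by
  intro q _ p hp
  have hZ : CdLeTwo (galLevels ℚ_[q] (PadicAlgCl q)) ℤ p :=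
    hCd ℤ _ (fun z => ⟨z, Int.cast_id⟩) _ (unitsOm ℚ_[q] (PadicAlgCl q)) p hp (hHyp q p hp)
  exact ⟨hZ, hSc (ZMod p) _ _ p hZ⟩

/-- **KL-A4.** -/
theorem localSurjH2_of (hS : SurjH2Spec) (hCd : LocalCdSpec) : LocalSurjH2Spec := by
  intro q _ p hp P Q φ hφ hPfin hPsm c hc hcLC
  refine hS (ZMod p) _ _ p hp (hCd q p hp).2 P Q φ hφ hPfin (fun x => ?_) hPsm c hc hcLC
  have h : (p : ZMod p) • x = 0 := by rw [ZMod.natCast_self, zero_smul]
  rwa [Nat.cast_smul_eq_nsmul] at h

end Fermat.Agent.S55.KL.H593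

end
-- ===== PACK-END S55/KL/LocalGlueH593.lean

-- ===== PACK-BEGIN S55/KL/H496/TrUnits.lean
section



/-!
# S55 / layer KL, leaf KL-TR (helper496), part 3: `(Ωˣ)^{V ∩ U} ≃ Mˣ` and the transport

`U = Gal(Ω/E)`, `V = Gal(Ω/E')`, `M = E·E'`.
-/

set_option autoImplicit false

noncomputable section

namespace Fermat.Agent.S55.KL.H496

open IntermediateField Polynomial CategoryTheory groupCohomology

variable {K Ω : Type} [Field K] [Field Ω] [Algebra K Ω] [IsGalois K Ω]
variable (E E' : IntermediateField K Ω) [FiniteDimensional K E'] [IsGalois K E']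

/-- The source representation: `(Ωˣ)^{V ∩ U}` as a `U/(V ∩ U)`-module. -/
abbrev srcRep496 : Rep.{0} ℤ (↥E.fixingSubgroup ⧸ (E'.fixingSubgroup).subgroupOf E.fixingSubgroup) :=
  (Rep.res E.fixingSubgroup.subtype (unitsOm K Ω)).quotientToInvariants
    ((E'.fixingSubgroup).subgroupOf E.fixingSubgroup)

/-- The target representation: `Mˣ` as a `Gal(M/E)`-module. -/
abbrev tgtRep496 : Rep.{0} ℤ (↥(comp496 E E') ≃ₐ[↥E] ↥(comp496 E E')) :=
  Rep.ofAlgebraAutOnUnits ↥E ↥(comp496 E E')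

/-- Elements of `M` are fixed by `V ∩ U`. -/
theorem fixed_of_mem_comp496 (x : Ω) (hx : x ∈ comp496 E E') (w : Ω ≃ₐ[K] Ω)
    (hwU : w ∈ E.fixingSubgroup) (hwV : w ∈ E'.fixingSubgroup) : w x = x := by
  have hw : w ∈ (E ⊔ E').fixingSubgroup := by
    rw [IntermediateField.fixingSubgroup_sup]
    exact ⟨hwU, hwV⟩
  exact (IntermediateField.mem_fixingSubgroup_iff _ _).1 hw x hx

/-- Elements of `Ω` fixed by `V ∩ U` lie in `M`. -/
theorem mem_comp496_of_fixed (x : Ω)
    (hx : ∀ w : Ω ≃ₐ[K] Ω, w ∈ E.fixingSubgroup → w ∈ E'.fixingSubgroup → w x = x) :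
    x ∈ comp496 E E' := by
  show x ∈ E ⊔ E'
  rw [← InfiniteGalois.fixedField_fixingSubgroup (E ⊔ E'),
    IntermediateField.mem_fixedField_iff]
  intro w hw
  rw [IntermediateField.fixingSubgroup_sup] at hw
  exact hx w hw.1 hw.2

/-- The underlying unit of `Ω` of an element of the module `Ωˣ`. -/
def srcUnit496 (x : (Rep.res E.fixingSubgroup.subtype (unitsOm K Ω)).V) : Ωˣ :=
  Additive.toMul (show Additive Ωˣ from x)

/-- The underlying unit of `M` of an element of the module `Mˣ`. -/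
def tgtUnit496 (y : (tgtRep496 E E').V) : (↥(comp496 E E'))ˣ :=
  Additive.toMul (show Additive (↥(comp496 E E'))ˣ from y)

/-- The inclusion `Mˣ → Ωˣ`, linear. -/
def unitsInclLin496 :
    (tgtRep496 E E').V →ₗ[ℤ] (Rep.res E.fixingSubgroup.subtype (unitsOm K Ω)).V :=
  (MonoidHom.toAdditive
    (Units.map (algebraMap ↥(comp496 E E') Ω : ↥(comp496 E E') →* Ω))).toIntLinearMap

theorem srcUnit496_unitsInclLin496 (y : (tgtRep496 E E').V) :
    ((srcUnit496 E (unitsInclLin496 E E' y) : Ωˣ) : Ω) = ((tgtUnit496 E E' y : _) : Ω) := rfl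

theorem srcUnit496_ρ (u : ↥E.fixingSubgroup)
    (x : (Rep.res E.fixingSubgroup.subtype (unitsOm K Ω)).V) :
    ((srcUnit496 E ((Rep.res E.fixingSubgroup.subtype (unitsOm K Ω)).ρ u x) : Ωˣ) : Ω) =
      (u : Ω ≃ₐ[K] Ω) ((srcUnit496 E x : Ωˣ) : Ω) := rfl

theorem srcUnit496_injective (x x' : (Rep.res E.fixingSubgroup.subtype (unitsOm K Ω)).V)
    (h : ((srcUnit496 E x : Ωˣ) : Ω) = ((srcUnit496 E x' : Ωˣ) : Ω)) : x = x' :=
  Additive.toMul.injective (Units.ext h)

theorem tgtUnit496_injective (y y' : (tgtRep496 E E').V)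
    (h : ((tgtUnit496 E E' y : _) : Ω) = ((tgtUnit496 E E' y' : _) : Ω)) : y = y' :=
  Additive.toMul.injective (Units.ext (Subtype.ext h))

theorem unitsInclLin496_mem (y : (tgtRep496 E E').V) :
    unitsInclLin496 E E' y ∈ Representation.invariants
      ((Rep.res E.fixingSubgroup.subtype (unitsOm K Ω)).ρ.comp
        ((E'.fixingSubgroup).subgroupOf E.fixingSubgroup).subtype) := by
  rintro ⟨⟨w, hwU⟩, hwV⟩
  apply srcUnit496_injective
  show (w : Ω ≃ₐ[K] Ω) ((srcUnit496 E (unitsInclLin496 E E' y) : Ωˣ) : Ω) = _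
  exact fixed_of_mem_comp496 E E' _ (SetLike.coe_mem _) w hwU hwV

/-- The inclusion `Mˣ → (Ωˣ)^{V ∩ U}`. -/
def unitsIncl496 : (tgtRep496 E E').V →ₗ[ℤ] (srcRep496 E E').V :=
  LinearMap.codRestrict _ (unitsInclLin496 E E') (unitsInclLin496_mem E E')

theorem coe_unitsIncl496 (y : (tgtRep496 E E').V) :
    ((unitsIncl496 E E' y : _) : (Rep.res E.fixingSubgroup.subtype (unitsOm K Ω)).V) =
      unitsInclLin496 E E' y := rfl

theorem unitsIncl496_bijective : Function.Bijective (unitsIncl496 E E') := by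
  constructor
  · intro y z h
    apply tgtUnit496_injective
    have h1 := congrArg (fun t : (srcRep496 E E').V =>
      ((srcUnit496 E (t : (Rep.res E.fixingSubgroup.subtype (unitsOm K Ω)).V) : Ωˣ) : Ω)) h
    exact h1
  · rintro ⟨x, hx⟩
    have hfix : ∀ (t : Ωˣ), (∀ w : Ω ≃ₐ[K] Ω, w ∈ E.fixingSubgroup → w ∈ E'.fixingSubgroup →
        w (t : Ω) = t) → (t : Ω) ∈ comp496 E E' := fun t ht => mem_comp496_of_fixed E E' _ ht
    have hx' : ∀ w : Ω ≃ₐ[K] Ω, w ∈ E.fixingSubgroup → w ∈ E'.fixingSubgroup →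
        w ((srcUnit496 E x : Ωˣ) : Ω) = (srcUnit496 E x : Ωˣ) := by
      intro w hwU hwV
      have := hx ⟨⟨w, hwU⟩, hwV⟩
      exact congrArg (fun t => ((srcUnit496 E t : Ωˣ) : Ω)) this
    have hxinv : ∀ w : Ω ≃ₐ[K] Ω, w ∈ E.fixingSubgroup → w ∈ E'.fixingSubgroup →
        w (((srcUnit496 E x)⁻¹ : Ωˣ) : Ω) = ((srcUnit496 E x)⁻¹ : Ωˣ) := by
      intro w hwU hwV
      rw [Units.val_inv_eq_inv_val, map_inv₀, hx' w hwU hwV]
    have h1 := hfix _ hx'
    have h2 := hfix _ hxinv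
    let yu : (↥(comp496 E E'))ˣ :=
      ⟨⟨_, h1⟩, ⟨_, h2⟩, Subtype.ext (Units.mul_inv _), Subtype.ext (Units.inv_mul _)⟩
    refine ⟨(Additive.ofMul yu : Additive (↥(comp496 E E'))ˣ), ?_⟩
    apply Subtype.ext
    apply srcUnit496_injective
    rfl

/-- `(Ωˣ)^{V ∩ U} ≃ Mˣ`. -/
def unitsEquiv496 : (srcRep496 E E').V ≃ₗ[ℤ] (tgtRep496 E E').V :=
  (LinearEquiv.ofBijective (unitsIncl496 E E') (unitsIncl496_bijective E E')).symm

theorem tgtUnit496_ρ (σ : ↥(comp496 E E') ≃ₐ[↥E] ↥(comp496 E E')) (y : (tgtRep496 E E').V) :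
    (tgtUnit496 E E' ((tgtRep496 E E').ρ σ y) : ↥(comp496 E E')) =
      σ (tgtUnit496 E E' y : ↥(comp496 E E')) := rfl

theorem unitsIncl496_equivariant (u : ↥E.fixingSubgroup) (y : (tgtRep496 E E').V) :
    unitsIncl496 E E' ((tgtRep496 E E').ρ (resHom496 E E' u) y) =
      (srcRep496 E E').ρ (QuotientGroup.mk u) (unitsIncl496 E E' y) := by
  apply Subtype.ext
  apply srcUnit496_injective
  show ((tgtUnit496 E E' ((tgtRep496 E E').ρ (resHom496 E E' u) y) : _) : Ω) =
    (u : Ω ≃ₐ[K] Ω) ((tgtUnit496 E E' y : _) : Ω)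
  rw [tgtUnit496_ρ]
  exact resHom496_apply E E' u _

theorem unitsEquiv496_equivariant
    (g : ↥E.fixingSubgroup ⧸ (E'.fixingSubgroup).subgroupOf E.fixingSubgroup) :
    (unitsEquiv496 E E').toLinearMap ∘ₗ (srcRep496 E E').ρ g =
      (tgtRep496 E E').ρ (quotEquiv496 E E' g) ∘ₗ (unitsEquiv496 E E').toLinearMap := by
  induction g using QuotientGroup.induction_on with
  | H u =>
    refine LinearMap.ext fun b => ?_
    obtain ⟨y, rfl⟩ := (unitsIncl496_bijective E E').2 b
    have h1 : ∀ z, unitsEquiv496 E E' (unitsIncl496 E E' z) = z := fun z =>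
      (LinearEquiv.ofBijective (unitsIncl496 E E') (unitsIncl496_bijective E E')).symm_apply_apply z
    show unitsEquiv496 E E' ((srcRep496 E E').ρ (QuotientGroup.mk u) (unitsIncl496 E E' y)) =
      (tgtRep496 E E').ρ (quotEquiv496 E E' (QuotientGroup.mk u))
        (unitsEquiv496 E E' (unitsIncl496 E E' y))
    rw [h1, quotEquiv496_mk, ← unitsIncl496_equivariant, h1]

/-- The transport isomorphism `Hⁿ(U/(V ∩ U), (Ωˣ)^{V ∩ U}) ≅ Hⁿ(Gal(M/E), Mˣ)`. -/
def transportIso496 (n : ℕ) :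
    groupCohomology (srcRep496 E E') n ≅ groupCohomology (tgtRep496 E E') n :=
  groupCohomology.mapIso (quotEquiv496 E E') (unitsEquiv496 E E')
    (unitsEquiv496_equivariant E E') n

end Fermat.Agent.S55.KL.H496

end
end
-- ===== PACK-END S55/KL/H496/TrUnits.lean

-- ===== PACK-BEGIN S56/Euler/H74/ShapiroH1.lean
section


/-!
# S56 / W-BASE, leaf EUL-CL (helper74), part D: Shapiro's lemma in degree 1, cochain form

`V ≤ G` of finite index, `A : Rep k G`, `z : G → Ind_V A = (G ⧸ V →₀ A)` a 1-cocycle.  If the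
component `h ↦ z h (1·V)` is a coboundary on `V` (`= h e₀ - e₀` for all `h ∈ V`), then `z` is a
coboundary.
-/

set_option autoImplicit false
set_option linter.style.haveILetI false
set_option linter.unusedSectionVars false

noncomputable section

namespace Fermat.Agent.S56.Euler.H74

open groupCohomology Fermat.Agent.S55 Fermat.Agent.S55.PT

variable {k : Type} [CommRing k] {G : Type} [Group G]

/-- Evaluation of the induced action. -/
lemma indρ_apply_apply (V : Subgroup G) (A : Rep.{0, 0, 0} k G) (g : G)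
    (f : (G ⧸ V) →₀ A) (y : G ⧸ V) :
    (K.indρ (MonoidHom.id G) V A g f) y = A.ρ g (f (g⁻¹ • y)) := by
  classical
  induction f using Finsupp.induction_linear with
  | zero => simp
  | add f₁ f₂ h₁ h₂ => rw [map_add, Finsupp.add_apply, h₁, h₂, Finsupp.add_apply, map_add]
  | single x a =>
    rw [K.indρ_single, Finsupp.single_apply, Finsupp.single_apply]
    have : ((MonoidHom.id G) g • x = y) ↔ (x = g⁻¹ • y) := by
      constructor
      · intro h
        rw [← h]
        simp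
      · intro h
        rw [h]
        simp
    by_cases hxy : x = g⁻¹ • y
    · rw [if_pos hxy, if_pos (this.2 hxy)]
    · rw [if_neg hxy, if_neg (fun h => hxy (this.1 h)), map_zero]

/-- The coefficient of an element of `Ind_V A` at a coset. -/
def coef (V : Subgroup G) (A : Rep.{0, 0, 0} k G) (f : K.indG V A) (y : G ⧸ V) : A :=
  DFunLike.coe (F := (G ⧸ V) →₀ A) f y

/-- An element of `Ind_V A` from its coefficients. -/
def mkInd (V : Subgroup G) (A : Rep.{0, 0, 0} k G) (f : (G ⧸ V) →₀ A) : K.indG V A := f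

lemma coef_mkInd (V : Subgroup G) (A : Rep.{0, 0, 0} k G) (f : (G ⧸ V) →₀ A) (y : G ⧸ V) :
    coef V A (mkInd V A f) y = f y := rfl

lemma coef_add (V : Subgroup G) (A : Rep.{0, 0, 0} k G) (f₁ f₂ : K.indG V A) (y : G ⧸ V) :
    coef V A (f₁ + f₂) y = coef V A f₁ y + coef V A f₂ y :=
  Finsupp.add_apply (g₁ := (f₁ : (G ⧸ V) →₀ A)) (g₂ := (f₂ : (G ⧸ V) →₀ A)) (a := y)

lemma coef_sub (V : Subgroup G) (A : Rep.{0, 0, 0} k G) (f₁ f₂ : K.indG V A) (y : G ⧸ V) :
    coef V A (f₁ - f₂) y = coef V A f₁ y - coef V A f₂ y :=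
  Finsupp.sub_apply (g₁ := (f₁ : (G ⧸ V) →₀ A)) (g₂ := (f₂ : (G ⧸ V) →₀ A)) (a := y)

lemma coef_ρ (V : Subgroup G) (A : Rep.{0, 0, 0} k G) (g : G) (f : K.indG V A) (y : G ⧸ V) :
    coef V A ((K.indG V A).ρ g f) y = A.ρ g (coef V A f (g⁻¹ • y)) :=
  indρ_apply_apply V A g f y

lemma coef_ext (V : Subgroup G) (A : Rep.{0, 0, 0} k G) {f₁ f₂ : K.indG V A}
    (h : ∀ y, coef V A f₁ y = coef V A f₂ y) : f₁ = f₂ :=
  Finsupp.ext (f := (f₁ : (G ⧸ V) →₀ A)) (g := (f₂ : (G ⧸ V) →₀ A)) h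

/-- **Shapiro in degree 1** (injectivity of `H¹(G, Ind_V A) → H¹(V, A)`), cochain form. -/
theorem mem_B1_indG_of_component (V : Subgroup G) [V.FiniteIndex] (A : Rep.{0, 0, 0} k G)
    (z : G → K.indG V A) (hz : z ∈ cocycles₁ (K.indG V A)) (e₀ : A)
    (he₀ : ∀ h ∈ V, coef V A (z h) ((1 : G) : G ⧸ V) = A.ρ h e₀ - e₀) :
    z ∈ LevelSys.B1 (K.indG V A) := by
  classical
  rw [mem_cocycles₁_iff] at hz
  -- the function `g ↦ g e₀ - z g (g V)` is constant on cosets
  let φ : G → A := fun g => A.ρ g e₀ - coef V A (z g) (g : G ⧸ V)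
  have hφ : ∀ (g u : G), u ∈ V → φ (g * u) = φ g := by
    intro g u hu
    show A.ρ (g * u) e₀ - coef V A (z (g * u)) ((g * u : G) : G ⧸ V) =
      A.ρ g e₀ - coef V A (z g) (g : G ⧸ V)
    have h1 : ((g * u : G) : G ⧸ V) = (g : G ⧸ V) := QuotientGroup.mk_mul_of_mem g hu
    have h2 : g⁻¹ • (g : G ⧸ V) = ((1 : G) : G ⧸ V) := by
      rw [MulAction.Quotient.smul_mk, smul_eq_mul, inv_mul_cancel]
    rw [h1, hz g u, coef_add, coef_ρ, h2, he₀ u hu, map_sub, map_mul]
    simp only [Module.End.mul_apply]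
    abel
  -- the candidate
  let E : (G ⧸ V) →₀ A := Finsupp.equivFunOnFinite.symm (fun x : G ⧸ V => φ x.out)
  have hE : ∀ g : G, coef V A (mkInd V A E) (g : G ⧸ V) = φ g := by
    intro g
    show φ ((g : G ⧸ V).out) = φ g
    obtain ⟨u, hu⟩ := QuotientGroup.mk_out_eq_mul V g
    rw [hu]
    exact hφ g u u.2
  refine ⟨mkInd V A E, ?_⟩
  funext g
  rw [d₀₁_hom_apply]
  apply coef_ext
  intro y
  obtain ⟨x, rfl⟩ := QuotientGroup.mk_surjective y
  have h3 : g⁻¹ • (x : G ⧸ V) = ((g⁻¹ * x : G) : G ⧸ V) := by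
    rw [MulAction.Quotient.smul_mk, smul_eq_mul]
  have h4 := hz g (g⁻¹ * x)
  rw [mul_inv_cancel_left] at h4
  have h5 : coef V A (z x) (x : G ⧸ V) =
      A.ρ g (coef V A (z (g⁻¹ * x)) ((g⁻¹ * x : G) : G ⧸ V)) + coef V A (z g) (x : G ⧸ V) := by
    rw [h4, coef_add, coef_ρ, h3]
  rw [coef_sub, coef_ρ, h3, hE, hE]
  show A.ρ g (A.ρ (g⁻¹ * x) e₀ - coef V A (z (g⁻¹ * x)) ((g⁻¹ * x : G) : G ⧸ V)) -
    (A.ρ x e₀ - coef V A (z x) (x : G ⧸ V)) = _
  rw [h5, map_sub]
  have h7 : A.ρ g (A.ρ (g⁻¹ * x) e₀) = A.ρ x e₀ := by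
    rw [← Module.End.mul_apply, ← map_mul, mul_inv_cancel_left]
  rw [h7]
  abel

end Fermat.Agent.S56.Euler.H74

end

end
-- ===== PACK-END S56/Euler/H74/ShapiroH1.lean

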