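import Fermat.Agent.Pack.S56.E9L1
import Fermat.Agent.Pack.S56.E0L2
import Fermat.Agent.Pack.S56.E3L3
import Fermat.Agent.Pack.S56.E7L0
import Fermat.Agent.Pack.S56.E9L3
import Fermat.Agent.Pack.S56.E0L0
import Fermat.Agent.Pack.S56.E9L2
import Fermat.Agent.Pack.S56.E9L0
import Fermat.Agent.Pack.S56.E5L1
import Fermat.Agent.Pack.S56.E10L1
import Fermat.Agent.Pack.S56.E1L3
import Fermat.Agent.Pack.S56.E10L3
import Fermat.Agent.Pack.S56.E10L0
import Fermat.Agent.Pack.S56.E3L1
import Fermat.Agent.Pack.S56.E8L3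
import Fermat.Agent.Pack.S56.E1L2
import Fermat.Agent.Pack.S56.E4L3
import Fermat.Agent.Pack.S56.E1L1
import Fermat.Agent.Pack.S56.E4L1
import Fermat.Agent.Pack.S56.E8L1
import Fermat.Agent.Pack.S56.E7L3

-- ===== PACK-BEGIN S56/H956/TWPFrob.lean
section




/-!
# S56 / TWP — one Taylor–Wiles prime from one Taylor–Wiles element (helper956)

`exists_prime_of_element`: Frobenius' density theorem (`FrobeniusDivisionStatement`) turns an
element `σ` fixing `μ_{p^{n+1}}` with distinct `ρ̄`-eigenvalues into a prime `ℓ ≡ 1 mod p^{n+1}`,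
outside any given finite set, all of whose Frobenius elements have distinct eigenvalues, together
with an element `τ` of a decomposition group over `ℓ` which agrees with `σ` on a prescribed finite
extension `L`, on `ρ̄` and on `μ_{p^{n+1}}`.

`exists_prime_not_locTrivAt`: for a global twisted cocycle `c` which is not a coboundary, the
Taylor–Wiles element of (P3) gives such a prime at which `c` is not locally trivial.
-/

set_option autoImplicit false

open Polynomial IsLocalRing
open scoped Pointwise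

noncomputable section

namespace Fermat.Agent.S56.H956

open Fermat.Agent.S56

/-! ### The field of `m`-th roots of unity -/

/-- The field generated by the `m`-th roots of unity. -/
def cycField (m : ℕ) : IntermediateField ℚ Qb :=
  IntermediateField.adjoin ℚ {x : Qb | x ^ m = 1}

theorem mem_cycField {m : ℕ} {x : Qb} (hx : x ^ m = 1) : x ∈ cycField m :=
  IntermediateField.subset_adjoin ℚ _ hx

theorem finiteDimensional_cycField {m : ℕ} (hm : m ≠ 0) :
    FiniteDimensional ℚ (cycField m) := by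
  have hfin : Set.Finite {x : Qb | x ^ m = 1} := by
    have : {x : Qb | x ^ m = 1} = ↑(Polynomial.nthRootsFinset m (1 : Qb)) := by
      ext x
      simp [Polynomial.mem_nthRootsFinset (Nat.pos_of_ne_zero hm)]
    rw [this]
    exact Finset.finite_toSet _
  have : Finite {x : Qb | x ^ m = 1} := hfin.to_subtype
  exact IntermediateField.finiteDimensional_adjoin
    (fun x _ => ((AlgebraicClosure.isAlgebraic ℚ).isAlgebraic x).isIntegral)

/-! ### Frobenius elements fixing roots of unity -/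

/-- If a Frobenius element at `ℓ ≠ p` fixes the `p^{n+1}`-th roots of unity, then
`ℓ ≡ 1 mod p^{n+1}`. -/
theorem dvd_sub_one_of_isFrobeniusAt {p ℓ : ℕ} (hp : p.Prime) (hℓ : ℓ.Prime) (hne : ℓ ≠ p)
    (n : ℕ) {A : ValuationSubring Qb} (hA : A.LiesOverPrime ℓ) {τ : GQ}
    (hτ : A.IsFrobeniusAt τ ℓ) (hfix : ∀ μ : Qb, μ ^ p ^ (n + 1) = 1 → τ μ = μ) :
    p ^ (n + 1) ∣ ℓ - 1 := by
  have hm0 : p ^ (n + 1) ≠ 0 := pow_ne_zero _ hp.ne_zero
  obtain ⟨ζ, hζ⟩ := exists_isPrimitiveRoot_Qb (p ^ (n + 1)) hm0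
  have hpv : A.valuation (p : Qb) = 1 :=
    Fermat.Agent.S55.Bridge.val_prime_eq_one hA hℓ hp hne
  have hmv : A.valuation ((p ^ (n + 1) : ℕ) : Qb) = 1 := by
    rw [Nat.cast_pow, map_pow, hpv, one_pow]
  have hζA : ζ ∈ A := by
    rw [← A.valuation_le_one_iff]
    have h : (A.valuation ζ) ^ (p ^ (n + 1)) = 1 := by
      rw [← map_pow, hζ.pow_eq_one, map_one]
    exact ((pow_eq_one_iff.1 h).resolve_right hm0).le
  have h1 : τ ζ - ζ ^ ℓ ∈ A.nonunits :=
    ((Fermat.Agent.Lib.Cheb.H476.isFrobeniusAt_iff A τ ℓ).mp hτ).2 ζ hζA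
  rw [hfix ζ hζ.pow_eq_one] at h1
  have h2 : ζ ^ ℓ = ζ := by
    by_contra hne'
    have hζℓ : (ζ ^ ℓ) ^ (p ^ (n + 1)) = 1 := by
      rw [← pow_mul, mul_comm, pow_mul, hζ.pow_eq_one, one_pow]
    have h3 := Fermat.Agent.S55.Bridge.val_sub_roots_eq_one (A := A) hm0 hmv hζ.pow_eq_one hζℓ
      (Ne.symm hne')
    rw [ValuationSubring.mem_nonunits_iff, h3] at h1
    exact lt_irrefl _ h1
  have h4 : ζ ^ (ℓ - 1) = 1 := by
    have h5 : ζ ^ (ℓ - 1) * ζ = 1 * ζ := by
      rw [← pow_succ, Nat.sub_add_cancel hℓ.one_le, h2, one_mul]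
    exact mul_right_cancel₀ (hζ.ne_zero hm0) h5
  exact (hζ.pow_eq_one_iff_dvd _).mp h4

/-! ### Factoring through a finite level -/

theorem rho_eq_of_eqOn {k : Type} [Field k] (ρbar : ResidualGaloisRep k)
    {L : IntermediateField ℚ Qb}
    (hL : ∀ σ : GQ, (∀ x ∈ L, σ x = x) → ρbar.ρ σ = 1) {g h : GQ}
    (hgh : ∀ x ∈ L, g x = h x) : ρbar.ρ g = ρbar.ρ h := by
  have h1 : ρbar.ρ (h⁻¹ * g) = 1 := hL _ (fun x hx => by
    rw [AlgEquiv.mul_apply, hgh x hx]
    exact h.symm_apply_apply x)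
  have h2 : g = h * (h⁻¹ * g) := by group
  rw [h2, map_mul, h1, mul_one]

theorem charP_residueField {𝒪 : Type} [CommRing 𝒪] [IsLocalRing 𝒪] {p : ℕ} (hp : p.Prime)
    (hp𝒪 : (p : 𝒪) ∈ maximalIdeal 𝒪) : CharP (ResidueField 𝒪) p := by
  rw [CharP.charP_iff_prime_eq_zero hp]
  have h : residue 𝒪 (p : 𝒪) = 0 := (residue_eq_zero_iff _).mpr hp𝒪
  rwa [map_natCast] at h

/-! ### One prime from one element -/

theorem pow_apply_eq_self {σ : GQ} {μ : Qb} (h : σ μ = μ) (i : ℕ) : (σ ^ i) μ = μ := by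
  induction i with
  | zero => rw [pow_zero]; rfl
  | succ i ih => rw [pow_succ, AlgEquiv.mul_apply, h, ih]

/-- **One Taylor–Wiles prime from one Taylor–Wiles element.** -/
theorem exists_prime_of_element
    (hCheb : Fermat.Agent.Lib.Cheb.Spec.FrobeniusDivisionStatement)
    {𝒪 : Type} [CommRing 𝒪] [IsDomain 𝒪] [IsDiscreteValuationRing 𝒪]
    {p : ℕ} {ρbar : ResidualGaloisRep (ResidueField 𝒪)} {S Smin : Finset ℕ}
    (H : Hyp 𝒪 p ρbar S Smin) (n : ℕ) (T : Finset ℕ) (L : IntermediateField ℚ Qb)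
    (hL : FiniteDimensional ℚ L) (σ : GQ)
    (hσμ : ∀ μ : Qb, μ ^ p ^ (n + 1) = 1 → σ μ = μ)
    (hσe : ∃ α β : ResidueField 𝒪, α ≠ β ∧
      LinearMap.charpoly (ρbar.ρ σ) = (X - C α) * (X - C β)) :
    ∃ ℓ : ℕ, ℓ.Prime ∧ ℓ ∉ S ∧ ℓ ∉ T ∧ p ^ (n + 1) ∣ ℓ - 1 ∧
      (∀ P : ValuationSubring Qb, P.LiesOverPrime ℓ → ∀ φ : GQ, P.IsFrobeniusAt φ ℓ →
        ∃ α β : ResidueField 𝒪, α ≠ β ∧
          LinearMap.charpoly (ρbar.ρ φ) = (X - C α) * (X - C β)) ∧
      ∃ (A : ValuationSubring Qb) (τ : GQ), A.LiesOverPrime ℓ ∧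
        τ ∈ A.decompositionSubgroup ℚ ∧ (∀ x ∈ L, τ x = σ x) ∧ ρbar.ρ τ = ρbar.ρ σ ∧
        (∀ μ : Qb, μ ^ p ^ (n + 1) = 1 → τ μ = μ) := by
  obtain ⟨Lρ, hLρ, hρ⟩ := ρbar.factorsThroughFiniteLevel
  have hm0 : p ^ (n + 1) ≠ 0 := pow_ne_zero _ H.hp.ne_zero
  have hcyc := finiteDimensional_cycField hm0
  -- the level
  have hE : FiniteDimensional ℚ ↥(Lρ ⊔ L ⊔ cycField (p ^ (n + 1))) := inferInstance
  have hLρE : Lρ ≤ Lρ ⊔ L ⊔ cycField (p ^ (n + 1)) := le_sup_left.trans le_sup_left
  have hLE : L ≤ Lρ ⊔ L ⊔ cycField (p ^ (n + 1)) := le_sup_right.trans le_sup_left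
  have hcE : cycField (p ^ (n + 1)) ≤ Lρ ⊔ L ⊔ cycField (p ^ (n + 1)) := le_sup_right
  obtain ⟨ℓ, A, τ, k, j, hℓ, hℓS, hA, hτ, -, hτk, hτj⟩ :=
    hCheb (Lρ ⊔ L ⊔ cycField (p ^ (n + 1))) hE σ (S ∪ T ∪ {p})
  have hℓS' : ℓ ∉ S := fun h => hℓS (Finset.mem_union_left _ (Finset.mem_union_left _ h))
  have hℓT : ℓ ∉ T := fun h => hℓS (Finset.mem_union_left _ (Finset.mem_union_right _ h))
  have hℓp : ℓ ≠ p := fun h => hℓS (Finset.mem_union_right _ (Finset.mem_singleton.mpr h))
  -- `ρ̄`
  have hρj : ρbar.ρ (τ ^ j) = ρbar.ρ σ :=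
    rho_eq_of_eqOn ρbar hρ (fun x hx => hτj x (hLρE hx))
  -- roots of unity
  have hτμ : ∀ μ : Qb, μ ^ p ^ (n + 1) = 1 → τ μ = μ := by
    intro μ hμ
    rw [hτk μ (hcE (mem_cycField hμ))]
    exact pow_apply_eq_self (hσμ μ hμ) k
  have hτjμ : ∀ μ : Qb, μ ^ p ^ (n + 1) = 1 → (τ ^ j) μ = μ := by
    intro μ hμ
    rw [hτj μ (hcE (mem_cycField hμ))]
    exact hσμ μ hμ
  -- the congruence
  have hdvd : p ^ (n + 1) ∣ ℓ - 1 := dvd_sub_one_of_isFrobeniusAt H.hp hℓ hℓp n hA hτ hτμ
  -- `ρ̄` is unramified at `ℓ`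
  have hur : ρbar.IsUnramifiedAt ℓ := by
    by_contra hnot
    exact hℓS' (H.hSmin ((H.hmin ℓ hℓ hℓp).mpr hnot))
  -- distinct eigenvalues of `ρ̄ τ`
  obtain ⟨α, β, hαβ, hσc⟩ := hσe
  obtain ⟨a, b, hab⟩ := H.hsplit τ
  have hne : a ≠ b := by
    refine ne_of_pow_charpoly (ρbar.ρ τ) j hab ?_ hαβ
    rw [← map_pow, hρj]
    exact hσc
  refine ⟨ℓ, hℓ, hℓS', hℓT, hdvd, fun P hP φ hφ => ⟨a, b, hne, ?_⟩,
    A, τ ^ j, hA, pow_mem hτ.mem_decompositionSubgroup j, fun x hx => hτj x (hLE hx), hρj, hτjμ⟩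
  rw [Fermat.Agent.Lib.Cheb.H476.charpoly_eq_of_isFrobeniusAt ρbar hℓ hur hA hP hτ hφ]
  exact hab

/-- **One Taylor–Wiles prime detecting a class.**  For a global twisted cocycle `c` which is not a
coboundary, there is a Taylor–Wiles prime `ℓ ≡ 1 mod p^{n+1}` outside `S ∪ T` at which `c` is not
locally trivial. -/
theorem exists_prime_not_locTrivAt (hP3 : TWElementStatement)
    (hCheb : Fermat.Agent.Lib.Cheb.Spec.FrobeniusDivisionStatement)
    {𝒪 : Type} [CommRing 𝒪] [IsDomain 𝒪] [IsDiscreteValuationRing 𝒪]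
    [IsAdicComplete (maximalIdeal 𝒪) 𝒪] [Finite (ResidueField 𝒪)]
    {p : ℕ} {ρbar : ResidualGaloisRep (ResidueField 𝒪)} {S Smin : Finset ℕ}
    (H : Hyp 𝒪 p ρbar S Smin) (n : ℕ) (T : Finset ℕ)
    {c : GQ → Module.End (ResidueField 𝒪) ρbar.V} (hc : IsTwCocycle ρbar p c)
    (hnc : ¬ IsTwCoboundary ρbar p c) :
    ∃ ℓ : ℕ, ℓ.Prime ∧ ℓ ∉ S ∧ ℓ ∉ T ∧ p ^ (n + 1) ∣ ℓ - 1 ∧
      (∀ P : ValuationSubring Qb, P.LiesOverPrime ℓ → ∀ φ : GQ, P.IsFrobeniusAt φ ℓ →
        ∃ α β : ResidueField 𝒪, α ≠ β ∧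
          LinearMap.charpoly (ρbar.ρ φ) = (X - C α) * (X - C β)) ∧
      ¬ LocTrivAt ρbar p ℓ c := by
  have : CharP (ResidueField 𝒪) p := charP_residueField H.hp H.hp𝒪
  have hp0 : p ≠ 0 := H.hp.ne_zero
  obtain ⟨σ, hσμ, hσe, hσc⟩ := (hP3 𝒪 p ρbar S Smin H).1 c hc hnc n
  obtain ⟨Lc, hLc, hcL⟩ := hc.level
  obtain ⟨ℓ, hℓ, hℓS, hℓT, hdvd, hfrob, A, τ, hA, hτD, hτL, hτρ, hτμ⟩ :=
    exists_prime_of_element hCheb H n T Lc hLc σ hσμ hσe
  refine ⟨ℓ, hℓ, hℓS, hℓT, hdvd, hfrob, fun hloc => ?_⟩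
  obtain ⟨m, hm⟩ := (locTrivAt_iff hp0 hc hℓ hA).mp hloc
  obtain ⟨hm1, hm2⟩ := hm
  -- `τ` acts trivially on `μ_p`
  have hexp : IsCycExp p τ 1 := by
    intro μ hμ
    rw [pow_one]
    refine hτμ μ ?_
    rw [pow_succ', pow_mul, hμ, one_pow]
  have h1 := hm2 τ hτD 1 hexp
  -- `c τ = c σ`
  have h2 : c τ = c σ := by
    have e : τ = σ * (σ⁻¹ * τ) := by group
    rw [e]
    refine hcL σ (σ⁻¹ * τ) (fun x hx => ?_)
    rw [AlgEquiv.mul_apply, hτL x hx]
    exact σ.symm_apply_apply x
  -- `ρ̄ τ⁻¹ = ρ̄ σ⁻¹`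
  have h3 : ρbar.ρ τ⁻¹ = ρbar.ρ σ⁻¹ := by
    calc ρbar.ρ τ⁻¹ = ρbar.ρ τ⁻¹ * (ρbar.ρ σ * ρbar.ρ σ⁻¹) := by
          rw [rho_mul_rho_inv, mul_one]
      _ = ρbar.ρ τ⁻¹ * ρbar.ρ τ * ρbar.ρ σ⁻¹ := by rw [hτρ, mul_assoc]
      _ = ρbar.ρ σ⁻¹ := by rw [rho_inv_mul_rho, one_mul]
  refine hσc m hm1 ?_
  rw [← h2, h1]
  unfold twAd
  rw [Nat.cast_one, one_smul, hτρ, h3]

/-- **One more Taylor–Wiles prime** (no class to detect). -/
theorem exists_prime_pad (hP3 : TWElementStatement)
    (hCheb : Fermat.Agent.Lib.Cheb.Spec.FrobeniusDivisionStatement)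
    {𝒪 : Type} [CommRing 𝒪] [IsDomain 𝒪] [IsDiscreteValuationRing 𝒪]
    [IsAdicComplete (maximalIdeal 𝒪) 𝒪] [Finite (ResidueField 𝒪)]
    {p : ℕ} {ρbar : ResidualGaloisRep (ResidueField 𝒪)} {S Smin : Finset ℕ}
    (H : Hyp 𝒪 p ρbar S Smin) (n : ℕ) (T : Finset ℕ) :
    ∃ ℓ : ℕ, ℓ.Prime ∧ ℓ ∉ S ∧ ℓ ∉ T ∧ p ^ (n + 1) ∣ ℓ - 1 ∧
      (∀ P : ValuationSubring Qb, P.LiesOverPrime ℓ → ∀ φ : GQ, P.IsFrobeniusAt φ ℓ →
        ∃ α β : ResidueField 𝒪, α ≠ β ∧
          LinearMap.charpoly (ρbar.ρ φ) = (X - C α) * (X - C β)) := by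
  obtain ⟨σ, hσμ, hσe⟩ := (hP3 𝒪 p ρbar S Smin H).2 n
  obtain ⟨ℓ, hℓ, hℓS, hℓT, hdvd, hfrob, -⟩ :=
    exists_prime_of_element hCheb H n T ⊥ inferInstance σ hσμ hσe
  exact ⟨ℓ, hℓ, hℓS, hℓT, hdvd, hfrob⟩

end Fermat.Agent.S56.H956

end

end
-- ===== PACK-END S56/H956/TWPFrob.lean

-- ===== PACK-BEGIN S56/P3/H306/H1Adapt.lean
section



/-!
# S56 / P3 : piece H1ADAPT (helper306)

`h1_of_span : SpanDeltaStatement → H1VanishStatement`, from helper726's matrix theorem
`Fermat.Agent.S56.H726.h1_vanishing`.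
-/

set_option autoImplicit false
set_option linter.unusedSectionVars false

open Polynomial

namespace Fermat.Agent.S56.P3.H306

open Fermat.Agent.S56.P3

/-- trace and determinant of a `2 × 2` matrix with split characteristic polynomial. -/
theorem trace_det_of_charpoly {k : Type} [Field k] (M : Matrix (Fin 2) (Fin 2) k) {α β : k}
    (h : M.charpoly = (X - C α) * (X - C β)) : M.trace = α + β ∧ M.det = α * β := by
  rw [Matrix.charpoly_fin_two] at h
  have h1 := congrArg (fun q => q.coeff 1) h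
  have h0 := congrArg (fun q => q.coeff 0) h
  have e : (X - C α) * (X - C β) = X ^ 2 - C (α + β) * X + C (α * β) := by
    simp only [map_add, map_mul]
    ring
  simp only [e] at h1 h0
  simp [coeff_X, coeff_C] at h1 h0
  exact ⟨by linear_combination (-1 : k) * h1, by linear_combination h0⟩

/-- **(H1ADAPT)** -/
theorem h1_of_span (hs : SpanDeltaStatement) : H1VanishStatement := by
  intro k _ _ V _ _ _ Γ _ ρ p _ hp2 hT Δ hΔ hC hdet1 hord ψ hψ hvan
  classical
  have hp : p.Prime := Fact.out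
  have : CharP k p := (CharP.charP_iff_prime_eq_zero hp).mpr hT.char_p
  set b : Module.Basis (Fin 2) k V := Module.finBasisOfFinrankEq k V hT.finrank_eq with hb
  set E : Module.End k V ≃ₐ[k] Matrix (Fin 2) (Fin 2) k := LinearMap.toMatrixAlgEquiv b with hE
  have hEdet : ∀ A : Module.End k V, (E A).det = LinearMap.det A := fun A =>
    LinearMap.det_toMatrix b A
  have hEtr : ∀ A : Module.End k V, (E A).trace = LinearMap.trace k V A := fun A =>
    (LinearMap.trace_eq_matrix_trace k b A).symm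
  have hEch : ∀ A : Module.End k V, (E A).charpoly = LinearMap.charpoly A := fun A =>
    LinearMap.charpoly_toMatrix A b
  set ρ' : Γ →* Matrix (Fin 2) (Fin 2) k := (E : Module.End k V →* _).comp ρ with hρ'
  have hρ'app : ∀ g, ρ' g = E (ρ g) := fun g => rfl
  -- hypotheses of the core theorem
  have hdet' : ∀ h ∈ Δ, (ρ' h).det = 1 := fun h hh => by rw [hρ'app, hEdet, hdet1 h hh]
  have hspan' : Submodule.span k (ρ' '' (Δ : Set Γ)) = ⊤ := by
    have h0 := hs k V Γ ρ p hp2 hT Δ hC
    have h1 : ρ' '' (Δ : Set Γ) =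
        (E.toLinearEquiv : Module.End k V →ₗ[k] Matrix (Fin 2) (Fin 2) k) ''
          (Set.range fun δ : Δ => ρ (δ : Γ)) := by
      ext x
      constructor
      · rintro ⟨g, hg, rfl⟩
        exact ⟨ρ g, ⟨⟨g, hg⟩, rfl⟩, rfl⟩
      · rintro ⟨_, ⟨⟨g, hg⟩, rfl⟩, rfl⟩
        exact ⟨g, hg, rfl⟩
    rw [h1, Submodule.span_image, h0, Submodule.map_top, LinearMap.range_eq_top]
    exact E.toLinearEquiv.surjective
  have hsplit' : ∀ h ∈ Δ, ∃ α β : k, (ρ' h).trace = α + β ∧ α * β = 1 := by
    intro h hh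
    obtain ⟨α, β, hch⟩ := hT.split h
    have := trace_det_of_charpoly (E (ρ h)) (by rw [hEch]; exact hch)
    exact ⟨α, β, this.1, by rw [← this.2, hEdet, hdet1 h hh]⟩
  have h5 : p = 5 → ∃ g : Γ, (ρ' g).det ≠ 1 ∧ (ρ' g).det ≠ -1 := by
    intro hp5
    obtain ⟨γ, hγ⟩ := hord
    refine ⟨γ, ?_, ?_⟩
    · intro h
      rw [hρ'app, hEdet] at h
      rw [h, orderOf_one, hp5] at hγ
      omega
    · intro h
      rw [hρ'app, hEdet] at h
      have h2 : (LinearMap.det (ρ γ)) ^ 2 = 1 := by rw [h]; norm_num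
      have := orderOf_dvd_of_pow_eq_one h2
      rw [hγ, hp5] at this
      omega
  have hψtr : ∀ g, (E (ψ g)).trace = 0 := fun g => by rw [hEtr, hψ.trace_zero]
  have hψmul : ∀ g h, E (ψ (g * h)) =
      E (ψ g) + (ρ' g).det • (ρ' g * E (ψ h) * ρ' g⁻¹) := by
    intro g h
    rw [hψ.map_mul, map_add, twEnd, map_smul, map_mul, map_mul, hρ'app, hρ'app, hEdet]
  have hN : ∀ h ∈ Δ, ρ' h = 1 → E (ψ h) = 0 := by
    intro h hh h1
    have : ρ h = 1 := E.injective (by rw [map_one]; exact h1)
    rw [hvan h hh this, map_zero]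
  obtain ⟨m, hm, hcob⟩ := Fermat.Agent.S56.H726.h1_vanishing p hp2 ρ' Δ hΔ hdet' hspan' hsplit'
    h5 (fun g => E (ψ g)) hψtr hψmul hN
  refine ⟨E.symm m, ?_, fun g => ?_⟩
  · rw [← hEtr, AlgEquiv.apply_symm_apply, hm]
  · apply E.injective
    rw [hcob g, map_sub, twEnd, map_smul, map_mul, map_mul, AlgEquiv.apply_symm_apply,
      hρ'app, hρ'app, hEdet]

end Fermat.Agent.S56.P3.H306

end
-- ===== PACK-END S56/P3/H306/H1Adapt.lean

-- ===== PACK-BEGIN S56/H287/StructMain.lean
section




/-!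
# S56 / LocalModel / STRUCT (helper287): `FL.StructStatement`

`struct : FL.StructStatement`, assembled from

* `H287/StructInertia.lean` — the inertia-fixed subring `B' = B^{Γ₀}` is a discrete valuation
  ring, unramified over `A` (`𝔪_{B'} = (p)`), with the same residue field as `B`;
* `H176/FLDStruct.lean` (helper176) — `FLD_struct_glue`: the Eisenstein presentation of `B` over
  an unramified intermediate discrete valuation ring with the same residue field, and the
  different bound.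
-/

set_option autoImplicit false

open IsLocalRing

namespace Fermat.Agent.S56.H287

/-- **STRUCT**: the frozen leaf `FL.StructStatement`. -/
theorem struct : Fermat.Agent.S56.FL.StructStatement := by
  intro p _ A B _ _ _ _ _ _ _ _ _ _ Γ _ _ _ _ _ _ hA hκ e he
  haveI : Finite (ResidueField A) :=
    Nat.finite_of_card_ne_zero (by rw [hκ]; exact (Fact.out : p.Prime).ne_zero)
  have hB₁ : maximalIdeal (inertiaSub A B Γ) = Ideal.span {(p : inertiaSub A B Γ)} := by
    rw [← map_maximalIdeal_inertiaSub A B Γ, hA, Ideal.map_span, Set.image_singleton,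
      map_natCast]
  obtain ⟨ϖ, G, h⟩ := H176.FLD_struct_glue p (A := A) (B₁ := inertiaSub A B Γ) (B := B) hA hB₁
    (exists_sub_mem_maximalIdeal A B Γ) e he
  exact ⟨(algebraMap (inertiaSub A B Γ) B).range, ϖ, G, h⟩

end Fermat.Agent.S56.H287

end
-- ===== PACK-END S56/H287/StructMain.lean

-- ===== PACK-BEGIN S56/H434/RationalityMain.lean
section



/-!
# S56 / W-FLAT-SS: `RationalityStatement` (Theorem A) PROVED  (helper434)

`rationality : Fermat.Agent.S56.FL.RationalityStatement`, the bridge-free lifting lemma in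
rationality form, from `H434.acts_trivially_of_approx_hom`.
-/

set_option autoImplicit false

namespace Fermat.Agent.S56.H434

/-- **Theorem A**, in the frozen form of `FL/LMSpec.lean`. -/
theorem rationality : Fermat.Agent.S56.FL.RationalityStatement := by
  intro Ω _ _ Γ₀ _ v harch R _ _ hR H _ _ _ _ _ _ p hp hkill γ hγ0 hγ T hTint hT η hη1 hη2 hη3
    hη4 hiso σ hσv hσR hση
  exact acts_trivially_of_approx_hom v harch hR hp hkill hγ0 hγ T hTint hT η
    ⟨hη1, hη2, hη3, hη4⟩ hiso σ hσv hσR hση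

end Fermat.Agent.S56.H434

end
-- ===== PACK-END S56/H434/RationalityMain.lean

-- ===== PACK-BEGIN S56/H536/Cocycle.lean
section


/-!
# S56 / TWP (helper536), part 2: algebra of twisted cocycles

For a twisted cocycle `c` (`IsTwCocycle`):

* `cocycle_one` : `c 1 = 0`;
* `cocycle_eq_of_agree` : `c σ = c τ` when `σ` and `τ` agree on the level of `c`;
* `coboundary_pow` : if `τ` fixes `μ_p` and `c τ = Ad(τ) m - m` then `c (τ ^ j) = Ad(τ ^ j) m - m`;
* `coboundary_of_conj` : if `φ` fixes `μ_p` and `c (g φ g⁻¹) = Ad(g φ g⁻¹) m₀ - m₀` with `tr m₀ = 0`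
  then `c φ = Ad(φ) m - m` for some `m` with `tr m = 0`;
* `coboundary_at_frobenius_of_locTrivAt` : a cocycle which is locally trivial at `q ≡ 1 mod p`
  takes a "coboundary value" at EVERY Frobenius element over `q`.
-/

set_option autoImplicit false
set_option linter.style.haveILetI false

open Polynomial IsLocalRing

noncomputable section

namespace Fermat.Agent.S56.H536

open Fermat.Agent.S56

variable {k : Type} [Field k] (ρbar : ResidualGaloisRep k) (p : ℕ)

theorem rho_mul_rho_inv (σ : GQ) : ρbar.ρ σ * ρbar.ρ σ⁻¹ = 1 := by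
  rw [← map_mul, mul_inv_cancel, map_one]

theorem rho_inv_mul_rho (σ : GQ) : ρbar.ρ σ⁻¹ * ρbar.ρ σ = 1 := by
  rw [← map_mul, inv_mul_cancel, map_one]

/-- Conjugation does not change the trace. -/
theorem trace_conj_eq {E : Type*} [AddCommGroup E] [Module k E] (R R' x : Module.End k E)
    (hR : R * R' = 1) : LinearMap.trace k E (R' * x * R) = LinearMap.trace k E x := by
  rw [LinearMap.trace_mul_comm, ← mul_assoc, hR, one_mul]

/-- The abstract computation behind `coboundary_of_conj`. -/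
theorem conj_algebra {E : Type*} [Ring E] [Algebra k E] (R R' F F' : E)
    (hR' : R' * R = 1) (a : k) (ha : a ≠ 0) (cg cg' cφ m₀ : E)
    (h1 : cg + a • (R * cg' * R') = 0)
    (h2 : cg + a • (R * (cφ + F * cg' * F') * R') = (R * F * R') * m₀ * (R * F' * R') - m₀) :
    cφ = F * (a⁻¹ • (R' * (m₀ + cg) * R)) * F' - a⁻¹ • (R' * (m₀ + cg) * R) := by
  have hRx : ∀ x : E, R' * (R * x) = x := fun x => by rw [← mul_assoc, hR', one_mul]
  have e1 : a • cg' = -(R' * cg * R) := by
    have h := congrArg (fun x => R' * x * R) h1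
    simp only [mul_add, add_mul, mul_smul_comm, smul_mul_assoc, mul_zero, zero_mul] at h
    have e : R' * (R * cg' * R') * R = cg' := by
      rw [mul_assoc R, hRx, mul_assoc, hR', mul_one]
    rw [e] at h
    exact eq_neg_of_add_eq_zero_right h
  have e2 : R' * cg * R + (a • cφ + F * (a • cg') * F') =
      F * (R' * m₀ * R) * F' - R' * m₀ * R := by
    have h := congrArg (fun x => R' * x * R) h2
    simp only [mul_add, add_mul, mul_sub, sub_mul, mul_smul_comm, smul_mul_assoc, smul_add] at h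
    have e : R' * (R * cφ * R') * R = cφ := by
      rw [mul_assoc R, hRx, mul_assoc, hR', mul_one]
    have e' : R' * (R * (F * cg' * F') * R') * R = F * cg' * F' := by
      rw [mul_assoc R, hRx, mul_assoc, hR', mul_one]
    have e'' : R' * (R * F * R' * m₀ * (R * F' * R')) * R = F * (R' * m₀ * R) * F' := by
      have : R * F * R' * m₀ * (R * F' * R') = R * (F * (R' * m₀ * R) * F' * R') := by
        simp only [mul_assoc]
      rw [this, hRx, mul_assoc, hR', mul_one]
    rw [e, e', e''] at h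
    rw [mul_smul_comm, smul_mul_assoc]
    exact h
  rw [e1] at e2
  have e3 : a • cφ = F * (R' * (m₀ + cg) * R) * F' - R' * (m₀ + cg) * R := by
    have : a • cφ = F * (R' * m₀ * R) * F' - R' * m₀ * R - R' * cg * R
        - F * (-(R' * cg * R)) * F' := by
      rw [← e2]; abel
    rw [this]
    simp only [mul_add, add_mul, mul_neg, neg_mul]
    abel
  have e4 : cφ = a⁻¹ • (a • cφ) := by rw [smul_smul, inv_mul_cancel₀ ha, one_smul]
  rw [e4, e3, smul_sub, mul_smul_comm, smul_mul_assoc]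

variable {ρbar p}

/-- `c 1 = 0`. -/
theorem cocycle_one {c : GQ → Module.End k ρbar.V} (hc : IsTwCocycle ρbar p c) : c 1 = 0 := by
  have h := hc.map_mul 1 1 1 (isCycExp_one_one p)
  simp only [twAd, mul_one, Nat.cast_one, one_smul, map_one, inv_one, one_mul] at h
  exact left_eq_add.mp h

/-- `c` depends only on the restriction to its level. -/
theorem cocycle_eq_of_agree {c : GQ → Module.End k ρbar.V} (hc : IsTwCocycle ρbar p c) :
    ∃ L : IntermediateField ℚ Qb, FiniteDimensional ℚ L ∧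
      ∀ σ τ : GQ, (∀ x ∈ L, σ x = τ x) → c σ = c τ := by
  obtain ⟨L, hL, h⟩ := hc.level
  refine ⟨L, hL, fun σ τ hστ => ?_⟩
  have h1 : ∀ x ∈ L, (τ⁻¹ * σ) x = x := by
    intro x hx
    rw [AlgEquiv.mul_apply, hστ x hx]
    exact τ.symm_apply_apply x
  have h2 := h τ (τ⁻¹ * σ) h1
  rwa [mul_inv_cancel_left] at h2

/-- If `τ` fixes `μ_p` and `c τ` is the coboundary value of `m`, so is `c (τ ^ j)`. -/
theorem coboundary_pow {c : GQ → Module.End k ρbar.V} (hc : IsTwCocycle ρbar p c) (τ : GQ)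
    (hτ : IsCycExp p τ 1) (m : Module.End k ρbar.V)
    (h : c τ = ρbar.ρ τ * m * ρbar.ρ τ⁻¹ - m) (j : ℕ) :
    c (τ ^ j) = ρbar.ρ (τ ^ j) * m * ρbar.ρ (τ ^ j)⁻¹ - m := by
  induction j with
  | zero =>
    rw [pow_zero, cocycle_one hc, inv_one, map_one, one_mul, mul_one, sub_self]
  | succ j ih =>
    rw [pow_succ', hc.map_mul τ (τ ^ j) 1 hτ, ih, h, mul_inv_rev, map_mul, map_mul]
    simp only [twAd, Nat.cast_one, one_smul, mul_sub, sub_mul, mul_assoc]
    abel

/-- Conjugation: a coboundary value at `g φ g⁻¹` gives a coboundary value at `φ`. -/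
theorem coboundary_of_conj [CharP k p] (hp : p.Prime) {c : GQ → Module.End k ρbar.V}
    (hc : IsTwCocycle ρbar p c) (g φ : GQ) (hφ : IsCycExp p φ 1) (m₀ : Module.End k ρbar.V)
    (hm₀ : LinearMap.trace k ρbar.V m₀ = 0)
    (h : c (g * φ * g⁻¹) = ρbar.ρ (g * φ * g⁻¹) * m₀ * ρbar.ρ (g * φ * g⁻¹)⁻¹ - m₀) :
    ∃ m : Module.End k ρbar.V, LinearMap.trace k ρbar.V m = 0 ∧
      c φ = ρbar.ρ φ * m * ρbar.ρ φ⁻¹ - m := by
  obtain ⟨a, ha⟩ := exists_isCycExp p hp g
  have ha0 : (a : k) ≠ 0 := isCycExp_natCast_ne_zero p hp ha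
  have h1 : c g + (a : k) • (ρbar.ρ g * c g⁻¹ * ρbar.ρ g⁻¹) = 0 := by
    have := hc.map_mul g g⁻¹ a ha
    rw [mul_inv_cancel, cocycle_one hc] at this
    exact this.symm
  have h2 : c g + (a : k) • (ρbar.ρ g * (c φ + ρbar.ρ φ * c g⁻¹ * ρbar.ρ φ⁻¹) * ρbar.ρ g⁻¹) =
      (ρbar.ρ g * ρbar.ρ φ * ρbar.ρ g⁻¹) * m₀ * (ρbar.ρ g * ρbar.ρ φ⁻¹ * ρbar.ρ g⁻¹) - m₀ := by
    have e1 := hc.map_mul g (φ * g⁻¹) a ha
    have e2 := hc.map_mul φ g⁻¹ 1 hφ
    simp only [twAd, Nat.cast_one, one_smul] at e1 e2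
    rw [e2, ← mul_assoc] at e1
    rw [← e1, h]
    have e3 : (g * φ * g⁻¹)⁻¹ = g * φ⁻¹ * g⁻¹ := by group
    rw [e3, map_mul, map_mul, map_mul, map_mul]
  refine ⟨(a : k)⁻¹ • (ρbar.ρ g⁻¹ * (m₀ + c g) * ρbar.ρ g), ?_, ?_⟩
  · rw [map_smul, trace_conj_eq _ _ _ (rho_mul_rho_inv ρbar g), map_add, hm₀,
      hc.trace_eq_zero, add_zero, smul_zero]
  · exact conj_algebra (ρbar.ρ g) (ρbar.ρ g⁻¹) (ρbar.ρ φ) (ρbar.ρ φ⁻¹)
      (rho_inv_mul_rho ρbar g) (a : k) ha0 (c g) (c g⁻¹) (c φ) m₀ h1 h2

/-- **TWP2.**  If the cocycle `c` is locally trivial at the prime `q ≠ p`, `q ≡ 1 mod p`, then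
its value at EVERY Frobenius element over `q` is a coboundary value. -/
theorem coboundary_at_frobenius_of_locTrivAt [CharP k p] (hp : p.Prime)
    {c : GQ → Module.End k ρbar.V} (hc : IsTwCocycle ρbar p c) {q : ℕ} (hq : q.Prime)
    (hloc : LocTrivAt ρbar p q c) {A : ValuationSubring Qb} (hA : A.LiesOverPrime q) {τ : GQ}
    (hτ : A.IsFrobeniusAt τ q) (hτ1 : IsCycExp p τ 1) :
    ∃ m : Module.End k ρbar.V, LinearMap.trace k ρbar.V m = 0 ∧
      c τ = ρbar.ρ τ * m * ρbar.ρ τ⁻¹ - m := by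
  obtain ⟨P, hP, m₀, hm₀, hcob⟩ := hloc
  obtain ⟨g, hg⟩ := Fermat.Agent.Lib.Cheb.H476.exists_smul_eq hq hA hP
  have hmem : g * τ * g⁻¹ ∈ P.decompositionSubgroup ℚ := by
    have := Fermat.Agent.Lib.Cheb.H476.conj_mem_decomposition g hτ.mem_decompositionSubgroup
    rwa [hg] at this
  have h := hcob _ hmem 1 (isCycExp_one_conj p hτ1 g)
  simp only [twAd, Nat.cast_one, one_smul] at h
  exact coboundary_of_conj hp hc g τ hτ1 m₀ hm₀ h

end Fermat.Agent.S56.H536

end
end
-- ===== PACK-END S56/H536/Cocycle.lean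

-- ===== PACK-BEGIN S55/H414/CycloMain.lean
section



/-!
# S55, leaf CYC-INF (helper414): `p^∞` divides the local degrees of `ℚ_S/ℚ` (for `p ∈ S`)

Main results (all in Prelude terms; `D_q = (primeLocalToGlobal q).range` is the image of the local
Galois group `Gal(ℚ̄_q/ℚ_q)` in `G_ℚ`, i.e. the decomposition group of `primeLocalPlace q`):

* `exists_forall_pow_dvd_relIndex` : for every valuation subring `A` of `ℚ̄` over a prime `q`
  containing the image of the local Galois group (or, if `q ≠ p`, arbitrary), and every `k`,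
  `p ^ k ∣ [D_A : D_A ∩ G_F]` for `F = ℚ(ζ_{p^n})`, `n ≫ 0`;
* `exists_level_forall_pow_dvd_relIndex` : for a finite set `S ∋ p` of primes and every `k` there is
  a finite abelian extension `F/ℚ` in `ℚ̄`, unramified outside `S`, such that for all primes `q`
  in a given finite set `T`, the local degree `[D_q : D_q ∩ G_F]` is divisible by `p ^ k`;
* `exists_level_ge_forall_pow_dvd_relIndex` : the same above any given level `F₀`.
-/

set_option autoImplicit false

namespace Fermat.Agent.S55.H414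

open ExtCitation

/-- Local degrees grow along towers: if `F ≤ F'` then `[D : D ∩ G_F]` divides `[D : D ∩ G_F']`. -/
theorem relIndex_fixingSubgroup_dvd_of_le {F F' : IntermediateField ℚ (AlgebraicClosure ℚ)}
    (h : F ≤ F') (D : Subgroup (AlgebraicClosure ℚ ≃ₐ[ℚ] AlgebraicClosure ℚ)) :
    F.fixingSubgroup.relIndex D ∣ F'.fixingSubgroup.relIndex D :=
  Subgroup.relIndex_dvd_of_le_left D (IntermediateField.fixingSubgroup_antitone h)

/-- Commutators of `G_ℚ` fix the cyclotomic levels: `ℚ(ζ_N)/ℚ` is abelian. -/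
theorem commutator_mem_fixingSubgroup_cycloLevel (N : ℕ) [NeZero N]
    (σ τ : AlgebraicClosure ℚ ≃ₐ[ℚ] AlgebraicClosure ℚ) :
    σ * τ * σ⁻¹ * τ⁻¹ ∈ (cycloLevel N).fixingSubgroup := by
  rw [← ker_cycloPow, MonoidHom.mem_ker]
  simp only [map_mul, map_inv]
  rw [mul_comm (cycloPow N σ) (cycloPow N τ), mul_inv_cancel_right, mul_inv_cancel]

theorem cycloLevel_mono (p : ℕ) [Fact p.Prime] {m n : ℕ} (h : m ≤ n) :
    cycloLevel (p ^ m) ≤ cycloLevel (p ^ n) := by
  rw [cycloLevel, IntermediateField.adjoin_le_iff]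
  rintro x rfl
  -- `ζ_{p^m}` is a power of `ζ_{p^n}`
  have hdvd : p ^ m ∣ p ^ n := pow_dvd_pow p h
  obtain ⟨d, hd⟩ := hdvd
  have hprim : IsPrimitiveRoot (zetaBar (p ^ n) ^ d) (p ^ m) := by
    apply (zetaBar_spec (p ^ n)).pow (NeZero.pos _)
    rw [hd, mul_comm]
  obtain ⟨i, -, hi⟩ := hprim.eq_pow_of_pow_eq_one (zetaBar_spec (p ^ m)).pow_eq_one
  rw [SetLike.mem_coe, ← hi]
  exact pow_mem (pow_mem (zetaBar_mem_cycloLevel (p ^ n)) d) i

/-- **CYC-INF at one place.** Let `A` be a valuation subring of `ℚ̄` over the prime `q` and `D` a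
subgroup of `G_ℚ` containing the decomposition group of `A`; if `q = p` assume moreover that `D`
contains the image of the local Galois group `Gal(ℚ̄_p/ℚ_p)`. Then for every `k` and all `n ≫ 0`,
`p ^ k` divides the local degree `[D : D ∩ G_F]`, `F = ℚ(ζ_{p^n})`. -/
theorem exists_forall_pow_dvd_relIndex (p : ℕ) [Fact p.Prime] (q : ℕ) (hq : q.Prime)
    (A : ValuationSubring (AlgebraicClosure ℚ)) (hA : A.LiesOverPrime q)
    (hloc : q = p → (localGaloisToGlobal p).range ≤ A.decompositionSubgroup ℚ) (k : ℕ) :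
    ∃ n₀ : ℕ, ∀ n, n₀ ≤ n →
      p ^ k ∣ (cycloLevel (p ^ n)).fixingSubgroup.relIndex (A.decompositionSubgroup ℚ) := by
  by_cases hqp : q = p
  · refine ⟨k + 1, fun n hn => ?_⟩
    obtain ⟨m, rfl⟩ : ∃ m, n = m + 1 := ⟨n - 1, by omega⟩
    rw [relIndex_fixingSubgroup_cycloLevel_self p m _ (hloc hqp)]
    exact (pow_dvd_pow p (by omega)).trans (Dvd.intro_left _ rfl)
  · exact exists_forall_pow_dvd_relIndex_of_ne p q hq hqp A hA k

/-- **CYC-INF for the Prelude's local groups.** For all primes `p`, `q`, every `k` and all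
`n ≫ 0`, `p ^ k` divides the local degree at `q` of `ℚ(ζ_{p^n})/ℚ`. -/
theorem exists_forall_pow_dvd_relIndex_primeLocal (p : ℕ) [Fact p.Prime] (q : Nat.Primes)
    (k : ℕ) :
    ∃ n₀ : ℕ, ∀ n, n₀ ≤ n →
      p ^ k ∣ (cycloLevel (p ^ n)).fixingSubgroup.relIndex (primeLocalToGlobal q).range := by
  rw [Fermat.Agent.S55.BLocal.range_primeLocalToGlobal]
  refine exists_forall_pow_dvd_relIndex p (q : ℕ) q.2 (primeLocalPlace q)
    (Fermat.Agent.S55.BLocal.primeLocalPlace_liesOver q) ?_ k
  intro hqp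
  have hq' : q = pPrime p := Subtype.ext hqp
  subst hq'
  rw [← Fermat.Agent.S55.BLocal.range_primeLocalToGlobal]
  exact le_of_eq rfl

/-- **CYC-INF, uniform in finitely many places.** -/
theorem exists_forall_forall_pow_dvd_relIndex_primeLocal (p : ℕ) [Fact p.Prime]
    (T : Finset Nat.Primes) (k : ℕ) :
    ∃ n₀ : ℕ, ∀ n, n₀ ≤ n → ∀ q ∈ T,
      p ^ k ∣ (cycloLevel (p ^ n)).fixingSubgroup.relIndex (primeLocalToGlobal q).range := by
  classical
  induction T using Finset.induction_on with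
  | empty => exact ⟨0, fun _ _ q hq => absurd hq (Finset.notMem_empty q)⟩
  | insert a T _ ih =>
    obtain ⟨n₁, h₁⟩ := ih
    obtain ⟨n₂, h₂⟩ := exists_forall_pow_dvd_relIndex_primeLocal p a k
    refine ⟨max n₁ n₂, fun n hn q hq => ?_⟩
    rcases Finset.mem_insert.1 hq with rfl | hq
    · exact h₂ n (le_trans (le_max_right _ _) hn)
    · exact h₁ n (le_trans (le_max_left _ _) hn) q hq

/-- **CYC-INF, packaged.** For a finite set `S` of primes containing `p`, a finite set `T` of
primes and every `k`, there is a finite abelian Galois extension `F/ℚ` inside `ℚ̄`, unramified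
outside `S`, all of whose local degrees at the primes of `T` are divisible by `p ^ k`. -/
theorem exists_level_forall_pow_dvd_relIndex (p : ℕ) [Fact p.Prime] (S : Finset Nat.Primes)
    (hpS : pPrime p ∈ S) (T : Finset Nat.Primes) (k : ℕ) :
    ∃ F : IntermediateField ℚ (AlgebraicClosure ℚ),
      F.IsUnramifiedOutside S ∧ IsGalois ℚ F ∧
      (∀ σ τ : AlgebraicClosure ℚ ≃ₐ[ℚ] AlgebraicClosure ℚ,
        σ * τ * σ⁻¹ * τ⁻¹ ∈ F.fixingSubgroup) ∧
      ∀ q ∈ T, p ^ k ∣ F.fixingSubgroup.relIndex (primeLocalToGlobal q).range := by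
  obtain ⟨n₀, hn₀⟩ := exists_forall_forall_pow_dvd_relIndex_primeLocal p T k
  exact ⟨cycloLevel (p ^ n₀), isUnramifiedOutside_cycloLevel p n₀ S hpS, inferInstance,
    commutator_mem_fixingSubgroup_cycloLevel (p ^ n₀), hn₀ n₀ le_rfl⟩

/-- **CYC-INF above a given level.** For a finite set `S ∋ p`, an `S`-unramified level `F₀`, a
finite set `T` of primes and every `k`, there is an `S`-unramified level `F ≥ F₀` all of whose
local degrees at the primes of `T` are divisible by `p ^ k`. -/
theorem exists_level_ge_forall_pow_dvd_relIndex (p : ℕ) [Fact p.Prime] (S : Finset Nat.Primes)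
    (hpS : pPrime p ∈ S) (F₀ : IntermediateField ℚ (AlgebraicClosure ℚ))
    (hF₀ : F₀.IsUnramifiedOutside S) (T : Finset Nat.Primes) (k : ℕ) :
    ∃ F : IntermediateField ℚ (AlgebraicClosure ℚ),
      F₀ ≤ F ∧ F.IsUnramifiedOutside S ∧
      ∀ q ∈ T, p ^ k ∣ F.fixingSubgroup.relIndex (primeLocalToGlobal q).range := by
  obtain ⟨F₁, hF₁, -, -, hdiv⟩ := exists_level_forall_pow_dvd_relIndex p S hpS T k
  refine ⟨F₀ ⊔ F₁, le_sup_left, hF₀.sup hF₁, fun q hq => ?_⟩
  exact (hdiv q hq).trans (relIndex_fixingSubgroup_dvd_of_le le_sup_right _)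

end Fermat.Agent.S55.H414

end
-- ===== PACK-END S55/H414/CycloMain.lean

-- ===== PACK-BEGIN S55/G/Rec/SCH174/Reps.lean
section


/-!
# S55 / G / REC, leaf SC (helper174) : finite systems of double-coset representatives exist
-/

set_option autoImplicit false
set_option linter.style.haveILetI false

noncomputable section

namespace Fermat.Agent.S55.G.Rec.H174

open Fermat.Agent.S55.G.Rec

local notation "Qb" => AlgebraicClosure ℚ
local notation "GQ" => (AlgebraicClosure ℚ ≃ₐ[ℚ] AlgebraicClosure ℚ)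

/-- If `U` has finite index, there is a finite system of representatives of `U \ G / D`. -/
theorem exists_isDoubleCosetReps {G : Type*} [Group G] (U D : Subgroup G) [Finite (G ⧸ U)] :
    ∃ R : Finset G, IsDoubleCosetReps U D R := by
  classical
  have hfin : Finite (DoubleCoset.Quotient (U : Set G) D) := by
    let f : G ⧸ U → DoubleCoset.Quotient (U : Set G) D :=
      Quotient.lift (fun g : G => DoubleCoset.mk U D g⁻¹) (by
        intro a b hab
        have hab' : a⁻¹ * b ∈ U := QuotientGroup.leftRel_apply.1 hab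
        rw [DoubleCoset.eq]
        refine ⟨b⁻¹ * a, ?_, 1, D.one_mem, by group⟩
        have := U.inv_mem hab'
        simpa using this)
    apply Finite.of_surjective f
    intro x
    obtain ⟨g, rfl⟩ := Quotient.exists_rep x
    refine ⟨QuotientGroup.mk g⁻¹, ?_⟩
    show DoubleCoset.mk U D (g⁻¹)⁻¹ = _
    rw [inv_inv]
  haveI := Fintype.ofFinite (DoubleCoset.Quotient (U : Set G) D)
  refine ⟨Finset.univ.image (fun x : DoubleCoset.Quotient (U : Set G) D => x.out), fun g => ?_⟩
  refine ⟨(DoubleCoset.mk U D g).out, ⟨Finset.mem_image.2 ⟨_, Finset.mem_univ _, rfl⟩, ?_⟩, ?_⟩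
  · exact (DoubleCoset.eq U D (DoubleCoset.mk U D g).out g).1 (DoubleCoset.out_eq' U D _)
  · rintro r ⟨hr, u, hu, d, hd, hg⟩
    obtain ⟨x, -, rfl⟩ := Finset.mem_image.1 hr
    have : DoubleCoset.mk U D g = x := by
      rw [← DoubleCoset.out_eq' U D x]
      exact ((DoubleCoset.eq U D x.out g).2 ⟨u, hu, d, hd, hg⟩).symm
    rw [this]

/-- Finite systems of representatives of the places of `ℚ̄^U` above `q` exist. -/
theorem exists_placeReps {U : Subgroup GQ} (hU : IsOpenQ U) (q : ℕ) [Fact q.Prime] :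
    ∃ R : Finset GQ, IsDoubleCosetReps U (localGaloisToGlobal q).range R := by
  haveI := H934.finite_quotient_of_isOpenQ hU
  exact exists_isDoubleCosetReps U _

end Fermat.Agent.S55.G.Rec.H174

end
end
-- ===== PACK-END S55/G/Rec/SCH174/Reps.lean

-- ===== PACK-BEGIN S55/G/Rec/Glob/Cochain.lean
section



/-!
# S55 / layer G / block REC / GLOBAL finite-level dictionary, part 2 (helper64): cochains

`U ≤ G_ℚ` open, `K = fixedFld U`, `E` a finite Galois level (`IntermediateField K ℚ̄`),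
`Γ = Gal(E/K)`.  Finite-level cochains are MULTIPLICATIVE (`Γ → Eˣ`, `Γ × Γ → Eˣ`, Mathlib's
`IsMulCocycle₂`, `IsMulCoboundary₂`); absolute cochains are the Prelude's (`↥U → gModOn U`, …).

* `unitsIncl U E : Eˣ →* ℚ̄ˣ`, `infl₁ U E b`, `infl₂ U E f` : inflation to `U`;
* `isLevelConstant₁_infl₁`, `isLevelConstant₂_infl₂` : inflations are level-constant;
* `d₁₂_infl₁` : inflation commutes with the differential;
* `infl₂_mem_cocycles₂_iff` : `infl₂ f` is a cocycle iff `f` is;
* `infl₂_eq_d₁₂_infl₁_iff` : `infl₂ f = d (infl₁ b)` iff `f = d b`;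
* `finite_range_of_isLevelConstant₁/₂` : level-constant cochains on an open subgroup have
  finitely many values;
* `exists_eq_infl₁`, `exists_eq_infl₂` : descent of a cochain which is constant modulo
  `ker (resHom U E)` with values in `E`;
* `exists_level_eq_infl₂` : every level-constant 2-cochain on `U` is inflated from some finite
  Galois level, which can be chosen to contain any given number field and finite set.
-/

set_option autoImplicit false
set_option linter.style.haveILetI false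

noncomputable section

namespace Fermat.Agent.S55.G.Rec.Glob

open groupCohomology IntermediateField

local notation "Qb" => AlgebraicClosure ℚ
local notation "GQ" => (AlgebraicClosure ℚ ≃ₐ[ℚ] AlgebraicClosure ℚ)

section Defs

variable (U : Subgroup GQ) (E : IntermediateField (fixedFld U) Qb)

/-- The inclusion `Eˣ → ℚ̄ˣ`. -/
def unitsIncl : (↥E)ˣ →* Qbˣ := Units.map (algebraMap E Qb : E →* Qb)

@[simp] lemma unitsIncl_coe (y : (↥E)ˣ) : ((unitsIncl U E y : Qbˣ) : Qb) = ((y : E) : Qb) := rfl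

lemma unitsIncl_injective : Function.Injective (unitsIncl U E) := by
  intro a b h
  apply Units.ext
  apply Subtype.ext
  have := congrArg (fun u : Qbˣ => (u : Qb)) h
  simpa using this

/-- An element of `ℚ̄ˣ` lying in `E` comes from `Eˣ`. -/
lemma exists_unitsIncl_eq {a : Qbˣ} (ha : (a : Qb) ∈ E) : ∃ y : (↥E)ˣ, unitsIncl U E y = a := by
  have hne : (⟨(a : Qb), ha⟩ : E) ≠ 0 := by
    intro h0
    have := congrArg Subtype.val h0
    simp at this
  exact ⟨Units.mk0 _ hne, Units.ext rfl⟩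

variable [Normal (fixedFld U) E]

lemma unitsIncl_smul (u : ↥U) (y : (↥E)ˣ) :
    unitsIncl U E (resHom U E u • y) = (u : GQ) • unitsIncl U E y := by
  apply Units.ext
  exact resHom_apply_coe U E u (y : E)

/-- Inflation of finite-level 1-cochains to `U`. -/
def infl₁ (b : (E ≃ₐ[fixedFld U] E) → (↥E)ˣ) : ↥U → gModOn U :=
  fun g => Additive.ofMul (unitsIncl U E (b (resHom U E g)))

/-- Inflation of finite-level 2-cochains to `U`. -/
def infl₂ (f : (E ≃ₐ[fixedFld U] E) × (E ≃ₐ[fixedFld U] E) → (↥E)ˣ) : ↥U × ↥U → gModOn U :=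
  fun p => Additive.ofMul (unitsIncl U E (f (resHom U E p.1, resHom U E p.2)))

lemma infl₁_apply (b : (E ≃ₐ[fixedFld U] E) → (↥E)ˣ) (g : ↥U) :
    infl₁ U E b g = Additive.ofMul (unitsIncl U E (b (resHom U E g))) := rfl

lemma infl₂_apply (f : (E ≃ₐ[fixedFld U] E) × (E ≃ₐ[fixedFld U] E) → (↥E)ˣ) (g h : ↥U) :
    infl₂ U E f (g, h) = Additive.ofMul (unitsIncl U E (f (resHom U E g, resHom U E h))) := rfl

/-- The action of `U` on `gModOn U`, explicitly. -/
lemma gModOn_ρ_apply (u : ↥U) (m : gModOn U) :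
    (gModOn U).ρ u m = Additive.ofMul ((u : GQ) • (Additive.toMul m : Qbˣ)) := rfl

/-- Inflation commutes with the differential. -/
lemma d₁₂_infl₁ (b : (E ≃ₐ[fixedFld U] E) → (↥E)ˣ) :
    (d₁₂ (gModOn U)).hom (infl₁ U E b) =
      infl₂ U E (fun p => p.1 • b p.2 / b (p.1 * p.2) * b p.1) := by
  funext ⟨g, h⟩
  rw [d₁₂_hom_apply, infl₂_apply, gModOn_ρ_apply]
  simp only [infl₁_apply, map_mul, map_div, unitsIncl_smul, toMul_ofMul]
  rfl

end Defs

section Level

variable {U : Subgroup GQ} (hU : IsOpenQ U) (E : IntermediateField (fixedFld U) Qb)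
  [FiniteDimensional (fixedFld U) E] [Normal (fixedFld U) E]

include hU

theorem isLevelConstant₁_infl₁ (b : (E ≃ₐ[fixedFld U] E) → (↥E)ˣ) :
    IsLevelConstant₁ U.subtype (infl₁ U E b) := by
  refine ⟨levelFld U E, finiteDimensional_levelFld hU E, fun g s hs => ?_⟩
  have h1 : resHom U E s = 1 := resHom_eq_one_of_mem_fixingSubgroup U E s hs
  rw [infl₁_apply, infl₁_apply, map_mul, h1, mul_one]

theorem isLevelConstant₂_infl₂
    (f : (E ≃ₐ[fixedFld U] E) × (E ≃ₐ[fixedFld U] E) → (↥E)ˣ) :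
    IsLevelConstant₂ U.subtype (infl₂ U E f) := by
  refine ⟨levelFld U E, finiteDimensional_levelFld hU E, fun g g' s s' hs hs' => ?_⟩
  have h1 : resHom U E s = 1 := resHom_eq_one_of_mem_fixingSubgroup U E s hs
  have h2 : resHom U E s' = 1 := resHom_eq_one_of_mem_fixingSubgroup U E s' hs'
  rw [infl₂_apply, infl₂_apply, map_mul, map_mul, h1, h2, mul_one, mul_one]

omit [FiniteDimensional (fixedFld U) E] in
/-- `infl₂ f` is a cocycle iff `f` is a (multiplicative) cocycle. -/
theorem infl₂_mem_cocycles₂_iff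
    (f : (E ≃ₐ[fixedFld U] E) × (E ≃ₐ[fixedFld U] E) → (↥E)ˣ) :
    infl₂ U E f ∈ cocycles₂ (gModOn U) ↔ IsMulCocycle₂ f := by
  rw [mem_cocycles₂_iff]
  constructor
  · intro h γ δ ε
    obtain ⟨g, rfl⟩ := resHom_surjective hU E γ
    obtain ⟨k, rfl⟩ := resHom_surjective hU E δ
    obtain ⟨j, rfl⟩ := resHom_surjective hU E ε
    apply unitsIncl_injective U E
    have := congrArg Additive.toMul (h g k j)
    simp only [infl₂_apply, gModOn_ρ_apply, map_mul, toMul_ofMul] at this
    rw [map_mul, map_mul, unitsIncl_smul]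
    exact this
  · intro h g k j
    have := congrArg (fun y => Additive.ofMul (unitsIncl U E y))
      (h (resHom U E g) (resHom U E k) (resHom U E j))
    simp only [map_mul, unitsIncl_smul] at this
    simp only [infl₂_apply, gModOn_ρ_apply, map_mul, toMul_ofMul]
    exact this

omit [FiniteDimensional (fixedFld U) E] in
/-- `infl₂ f = d (infl₁ b)` iff `f = d b`. -/
theorem infl₂_eq_d₁₂_infl₁_iff
    (f : (E ≃ₐ[fixedFld U] E) × (E ≃ₐ[fixedFld U] E) → (↥E)ˣ)
    (b : (E ≃ₐ[fixedFld U] E) → (↥E)ˣ) :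
    infl₂ U E f = (d₁₂ (gModOn U)).hom (infl₁ U E b) ↔
      ∀ γ δ, γ • b δ / b (γ * δ) * b γ = f (γ, δ) := by
  rw [d₁₂_infl₁]
  constructor
  · intro h γ δ
    obtain ⟨g, rfl⟩ := resHom_surjective hU E γ
    obtain ⟨k, rfl⟩ := resHom_surjective hU E δ
    apply unitsIncl_injective U E
    have := congrArg Additive.toMul (congrFun h (g, k))
    simp only [infl₂_apply, toMul_ofMul] at this
    exact this.symm
  · intro h
    funext ⟨g, k⟩
    simp only [infl₂_apply]
    rw [h]

/-- A function on `U` which is constant modulo a level has finitely many values. -/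
theorem finite_range_of_isLevelConstant₁ {X : Type*} {f : ↥U → X}
    (hf : IsLevelConstant₁ U.subtype f) : (Set.range f).Finite := by
  obtain ⟨F, hF, h⟩ := hf
  haveI := hF
  obtain ⟨E', hfd, hgal, hFE, -⟩ := exists_level hU F ∅ Set.finite_empty
  haveI := hfd
  haveI := hgal
  have key : ∀ g g' : ↥U, resHom U E' g = resHom U E' g' → f g = f g' := by
    intro g g' hgg
    have hs : resHom U E' (g⁻¹ * g') = 1 := by rw [map_mul, map_inv, hgg, inv_mul_cancel]
    have := h g (g⁻¹ * g') (mem_fixingSubgroup_of_resHom_eq_one U E' _ hs hFE)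
    rw [mul_inv_cancel_left] at this
    exact this.symm
  have hsub : Set.range f ⊆
      Set.range (fun γ : (E' ≃ₐ[fixedFld U] E') => f (Function.surjInv (resHom_surjective hU E') γ)) := by
    rintro _ ⟨g, rfl⟩
    refine ⟨resHom U E' g, key _ _ ?_⟩
    exact Function.surjInv_eq (resHom_surjective hU E') _
  exact (Set.finite_range _).subset hsub

theorem finite_range_of_isLevelConstant₂ {X : Type*} {f : ↥U × ↥U → X}
    (hf : IsLevelConstant₂ U.subtype f) : (Set.range f).Finite := by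
  obtain ⟨F, hF, h⟩ := hf
  haveI := hF
  obtain ⟨E', hfd, hgal, hFE, -⟩ := exists_level hU F ∅ Set.finite_empty
  haveI := hfd
  haveI := hgal
  have key : ∀ g g' k k' : ↥U, resHom U E' g = resHom U E' g' → resHom U E' k = resHom U E' k' →
      f (g, k) = f (g', k') := by
    intro g g' k k' hgg hkk
    have hs : resHom U E' (g⁻¹ * g') = 1 := by rw [map_mul, map_inv, hgg, inv_mul_cancel]
    have hs' : resHom U E' (k⁻¹ * k') = 1 := by rw [map_mul, map_inv, hkk, inv_mul_cancel]
    have := h g k (g⁻¹ * g') (k⁻¹ * k') (mem_fixingSubgroup_of_resHom_eq_one U E' _ hs hFE)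
      (mem_fixingSubgroup_of_resHom_eq_one U E' _ hs' hFE)
    rw [mul_inv_cancel_left, mul_inv_cancel_left] at this
    exact this.symm
  have hsub : Set.range f ⊆
      Set.range (fun γ : (E' ≃ₐ[fixedFld U] E') × (E' ≃ₐ[fixedFld U] E') =>
        f (Function.surjInv (resHom_surjective hU E') γ.1,
          Function.surjInv (resHom_surjective hU E') γ.2)) := by
    rintro _ ⟨⟨g, k⟩, rfl⟩
    refine ⟨(resHom U E' g, resHom U E' k), key _ _ _ _ ?_ ?_⟩
    · exact Function.surjInv_eq (resHom_surjective hU E') _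
    · exact Function.surjInv_eq (resHom_surjective hU E') _
  exact (Set.finite_range _).subset hsub

omit [FiniteDimensional (fixedFld U) E] in
/-- Descent of a 1-cochain which is constant modulo `ker (resHom U E)`, with values in `E`. -/
theorem exists_eq_infl₁ (x : ↥U → gModOn U)
    (hx : ∀ g s : ↥U, resHom U E s = 1 → x (g * s) = x g)
    (hval : ∀ g, ((Additive.toMul (x g) : Qbˣ) : Qb) ∈ E) :
    ∃ b : (E ≃ₐ[fixedFld U] E) → (↥E)ˣ, infl₁ U E b = x := by
  choose y hy using fun g => exists_unitsIncl_eq U E (hval g)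
  refine ⟨fun γ => y (Function.surjInv (resHom_surjective hU E) γ), funext fun g => ?_⟩
  rw [infl₁_apply, hy]
  set g' := Function.surjInv (resHom_surjective hU E) (resHom U E g) with hg'
  have hgg : resHom U E g' = resHom U E g := Function.surjInv_eq (resHom_surjective hU E) _
  have hs : resHom U E (g'⁻¹ * g) = 1 := by rw [map_mul, map_inv, hgg, inv_mul_cancel]
  have := hx g' (g'⁻¹ * g) hs
  rw [mul_inv_cancel_left] at this
  rw [← this]
  rfl

omit [FiniteDimensional (fixedFld U) E] in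
/-- Descent of a 2-cochain which is constant modulo `ker (resHom U E)`, with values in `E`. -/
theorem exists_eq_infl₂ (c : ↥U × ↥U → gModOn U)
    (hc : ∀ g k s s' : ↥U, resHom U E s = 1 → resHom U E s' = 1 → c (g * s, k * s') = c (g, k))
    (hval : ∀ p, ((Additive.toMul (c p) : Qbˣ) : Qb) ∈ E) :
    ∃ f : (E ≃ₐ[fixedFld U] E) × (E ≃ₐ[fixedFld U] E) → (↥E)ˣ, infl₂ U E f = c := by
  choose y hy using fun p => exists_unitsIncl_eq U E (hval p)
  refine ⟨fun γ => y (Function.surjInv (resHom_surjective hU E) γ.1,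
    Function.surjInv (resHom_surjective hU E) γ.2), funext fun ⟨g, k⟩ => ?_⟩
  rw [infl₂_apply, hy]
  set g' := Function.surjInv (resHom_surjective hU E) (resHom U E g) with hg'
  set k' := Function.surjInv (resHom_surjective hU E) (resHom U E k) with hk'
  have hgg : resHom U E g' = resHom U E g := Function.surjInv_eq (resHom_surjective hU E) _
  have hkk : resHom U E k' = resHom U E k := Function.surjInv_eq (resHom_surjective hU E) _
  have hs : resHom U E (g'⁻¹ * g) = 1 := by rw [map_mul, map_inv, hgg, inv_mul_cancel]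
  have hs' : resHom U E (k'⁻¹ * k) = 1 := by rw [map_mul, map_inv, hkk, inv_mul_cancel]
  have := hc g' k' (g'⁻¹ * g) (k'⁻¹ * k) hs hs'
  rw [mul_inv_cancel_left, mul_inv_cancel_left] at this
  rw [← this]
  rfl

end Level

/-- Every level-constant 2-cochain on an open `U` is inflated from a finite Galois level, which
can be chosen to contain a given number field `F₀` and a given finite set `T`. -/
theorem exists_level_eq_infl₂ {U : Subgroup GQ} (hU : IsOpenQ U) (c : ↥U × ↥U → gModOn U)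
    (hc : IsLevelConstant₂ U.subtype c) (F₀ : IntermediateField ℚ Qb) [FiniteDimensional ℚ F₀]
    (T : Set Qb) (hT : T.Finite) :
    ∃ (E : IntermediateField (fixedFld U) Qb) (_ : FiniteDimensional (fixedFld U) E)
      (_ : IsGalois (fixedFld U) E)
      (f : (E ≃ₐ[fixedFld U] E) × (E ≃ₐ[fixedFld U] E) → (↥E)ˣ),
      (∀ x ∈ F₀, x ∈ E) ∧ (∀ x ∈ T, x ∈ E) ∧ infl₂ U E f = c := by
  have hfin := finite_range_of_isLevelConstant₂ hU hc
  obtain ⟨F, hF, h⟩ := hc
  haveI := hF
  have hT' : (T ∪ (fun m : gModOn U => ((Additive.toMul m : Qbˣ) : Qb)) '' Set.range c).Finite :=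
    hT.union (hfin.image _)
  obtain ⟨E, hfd, hgal, hFE, hTE⟩ := exists_level hU (F ⊔ F₀) _ hT'
  haveI := hfd
  haveI := hgal
  obtain ⟨f, hf⟩ := exists_eq_infl₂ hU E c
    (fun g k s s' hs hs' => h g k s s'
      (mem_fixingSubgroup_of_resHom_eq_one U E s hs (fun x hx => hFE x (le_sup_left (a := F) hx)))
      (mem_fixingSubgroup_of_resHom_eq_one U E s' hs'
        (fun x hx => hFE x (le_sup_left (a := F) hx))))
    (fun p => hTE _ (Or.inr ⟨c p, ⟨p, rfl⟩, rfl⟩))
  exact ⟨E, hfd, hgal, f, fun x hx => hFE x (le_sup_right (b := F₀) hx),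
    fun x hx => hTE x (Or.inl hx), hf⟩

end Fermat.Agent.S55.G.Rec.Glob

end
end
-- ===== PACK-END S55/G/Rec/Glob/Cochain.lean

-- ===== PACK-BEGIN S55/L/Adapter.lean
section



/-!
# S55, layer L: adapter between the two frozen interfaces

* `Fermat.Agent.S55.Local` (architect helper715, on main): CORE of local class field theory over a
  base `(A, F)` = complete DVR with finite residue field + fraction field; local fields are the
  finite extensions of `F`.  Main goal `Local.H2CyclicStatement`.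
* `Fermat.Agent.S55.L` (architect helper54): OUTER layer (class module, invariant maps, Tate's
  theorem consequences, existence theorem mod `p`, instantiation at `ℚ_q`), phrased for intrinsic
  local fields `[IsLocalFld K]`.

The adapter theorems below take a `Local` statement and produce the corresponding `L` spec, by
choosing `A :=` the ring of integers of `K` and `F := K`.  So every piece of the `Local` core is
directly usable by the outer layer and nobody has to prove anything twice.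
-/

set_option autoImplicit false
set_option linter.style.haveILetI false

namespace Fermat.Agent.S55.L

open groupCohomology

/-- A finite additive cyclic group of order `n` is `ZMod n`. -/
theorem nonempty_addEquiv_zmod_of_isAddCyclic {G : Type*} [AddCommGroup G] {n : ℕ}
    (hcard : Nat.card G = n) (hcyc : IsAddCyclic G) : Nonempty (G ≃+ ZMod n) := by
  have e := zmodAddCyclicAddEquiv hcyc
  rw [hcard] at e
  exact ⟨e.symm⟩

/-- **Adapter T5**: the main theorem of the `Local` core gives `H2CyclicSpec`. -/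
theorem h2Cyclic_of_local (h : Local.H2CyclicStatement) : H2CyclicSpec := by
  intro K L _ _ _ _ _ hK
  obtain ⟨A, hA1, hA2, hA3⟩ := hK.exists_ringOfIntegers
  haveI := hK.charZero
  haveI := hA1
  haveI := hA2
  haveI := hA3
  obtain ⟨hcard, hcyc⟩ := h A K K L
  exact nonempty_addEquiv_zmod_of_isAddCyclic hcard hcyc

/-- **Adapter T4**: the divisibility upper bound of the `Local` core gives `H2CardLeSpec`. -/
theorem h2CardLe_of_local (h : Local.H2CardDvdStatement) : H2CardLeSpec := by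
  intro K L _ _ _ _ _ hK
  obtain ⟨A, hA1, hA2, hA3⟩ := hK.exists_ringOfIntegers
  haveI := hK.charZero
  haveI := hA1
  haveI := hA2
  haveI := hA3
  have hdvd := h A K K L
  have hpos : 0 < Module.finrank K L := Module.finrank_pos
  have hne : Nat.card (H2 (unitsRep K L)) ≠ 0 := by
    intro h0
    rw [show Nat.card (H2 (Rep.ofAlgebraAutOnUnits K L)) = 0 from h0] at hdvd
    exact hpos.ne' (Nat.eq_zero_of_zero_dvd hdvd)
  exact ⟨Nat.finite_of_card_ne_zero hne, Nat.le_of_dvd hpos hdvd⟩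

/-- **Adapter T3'**: the cyclic `H²` count of the `Local` core gives `H2CardCyclicSpec`. -/
theorem h2CardCyclic_of_local (h : Local.CyclicH2CardStatement) : H2CardCyclicSpec := by
  intro K L _ _ _ _ _ hK hcyc
  obtain ⟨A, hA1, hA2, hA3⟩ := hK.exists_ringOfIntegers
  haveI := hK.charZero
  haveI := hA1
  haveI := hA2
  haveI := hA3
  have hcard := h A K K L hcyc
  have hpos : 0 < Module.finrank K L := Module.finrank_pos
  have hne : Nat.card (H2 (unitsRep K L)) ≠ 0 := by
    rw [show Nat.card (H2 (unitsRep K L)) = Module.finrank K L from hcard]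
    exact hpos.ne'
  exact ⟨Nat.finite_of_card_ne_zero hne, hcard⟩

/-- **Adapter T3**: the cyclic norm index of the `Local` core gives `NormIndexCyclicSpec`. -/
theorem normIndexCyclic_of_local (h : Local.CyclicNormIndexStatement) : NormIndexCyclicSpec := by
  intro K L _ _ _ _ _ hK hcyc
  obtain ⟨A, hA1, hA2, hA3⟩ := hK.exists_ringOfIntegers
  haveI := hK.charZero
  haveI := hA1
  haveI := hA2
  haveI := hA3
  exact h A K K L hcyc

/-- **Adapter CM**: the main theorem of the `Local` core gives the class module property, once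
finite extensions of local fields are local fields. -/
theorem classModule_of_local (h : Local.H2CyclicStatement) (h1 : FiniteExtSpec) :
    ClassModuleSpec :=
  classModule_of (h2Cyclic_of_local h) h1

/-- **Adapter CM, direct form**: the main theorem of the `Local` core gives the class module
property; no `FiniteExtSpec` needed, because the intermediate fields of `L / K` are finite
extensions of the base `F := K`. -/
theorem classModule_of_local' (h : Local.H2CyclicStatement) : ClassModuleSpec := by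
  intro K L _ _ _ _ _ hK H
  obtain ⟨A, hA1, hA2, hA3⟩ := hK.exists_ringOfIntegers
  haveI := hK.charZero
  haveI := hA1
  haveI := hA2
  haveI := hA3
  haveI : IsGalois (IntermediateField.fixedField H) L := IsGalois.tower_top_of_isGalois K _ L
  constructor
  · haveI : Subsingleton (H1 (unitsRep (IntermediateField.fixedField H) L)) :=
      (inferInstance :
        Subsingleton (H1 (Rep.ofAlgebraAutOnUnits (IntermediateField.fixedField H) L)))
    exact (transportAddEquiv K L H 1).toEquiv.subsingleton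
  · obtain ⟨hcard, hcyc⟩ := h A K (IntermediateField.fixedField H) L
    rw [IntermediateField.finrank_fixedField_eq_card] at hcard
    obtain ⟨e⟩ := nonempty_addEquiv_zmod_of_isAddCyclic hcard hcyc
    exact ⟨(transportAddEquiv K L H 2).trans e⟩

end Fermat.Agent.S55.L

end
-- ===== PACK-END S55/L/Adapter.lean

-- ===== PACK-BEGIN S55/G/Rec/H742/WAUnif.lean
section




/-!
# S55 / G / REC2-G3 (helper742): uniformizers and density of `K` in `K_v`

* `exists_isUniformizer` : the fixed field of a subgroup of finite index of `G_{ℚ_p}` has a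
  uniformizer.
* `exists_global_norm_eq` : every nonzero element of the fixed field of `locSub p g U` has the
  same norm as (the image of) some element of `K = ℚ̄^U`  (density of `K` in `K_v`).
-/

set_option autoImplicit false
set_option linter.style.haveILetI false

noncomputable section

namespace Fermat.Agent.S55.G.Rec.H742

open scoped Pointwise

local notation "Qb" => AlgebraicClosure ℚ
local notation "GQ" => (AlgebraicClosure ℚ ≃ₐ[ℚ] AlgebraicClosure ℚ)

variable (p : ℕ) [Fact p.Prime]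

local notation "Gp" => (PadicAlgCl p ≃ₐ[ℚ_[p]] PadicAlgCl p)

theorem norm_natCast_self_padicAlgCl : ‖((p : ℕ) : PadicAlgCl p)‖ = (p : ℝ)⁻¹ := by
  have h : ((p : ℕ) : PadicAlgCl p) = algebraMap ℚ_[p] (PadicAlgCl p) (p : ℚ_[p]) := by
    rw [map_natCast]
  rw [h, PadicAlgCl.norm_extends, Padic.norm_p]

theorem norm_natCast_padicAlgCl_of_ne {r : ℕ} (hr : r.Prime) (hpr : r ≠ p) :
    ‖((r : ℕ) : PadicAlgCl p)‖ = 1 := by
  have hp : (p : ℕ).Prime := Fact.out
  have h : ((r : ℕ) : PadicAlgCl p) = algebraMap ℚ_[p] (PadicAlgCl p) (r : ℚ_[p]) := by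
    rw [map_natCast]
  rw [h, PadicAlgCl.norm_extends, Padic.norm_natCast_eq_one_iff]
  exact ((Nat.coprime_primes hr hp).2 hpr).symm

/-- ultrametric: `‖a - b‖ < ‖b‖` implies `‖a‖ = ‖b‖` -/
theorem norm_eq_of_norm_sub_lt {a b : PadicAlgCl p} (h : ‖a - b‖ < ‖b‖) : ‖a‖ = ‖b‖ := by
  have h1 : ‖(a - b) + b‖ = max ‖a - b‖ ‖b‖ :=
    IsUltrametricDist.norm_add_eq_max_of_norm_ne_norm h.ne
  rw [sub_add_cancel] at h1
  rw [h1, max_eq_right h.le]

/-- the fixed field of a subgroup of finite index has a uniformizer -/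
theorem exists_isUniformizer (V : Subgroup Gp) (hV : V.index ≠ 0) :
    ∃ π : (PadicAlgCl p)ˣ, IsUniformizer p V (π : PadicAlgCl p) := by
  have hp : (p : ℕ).Prime := Fact.out
  have hp1 : (1 : ℝ) < p := by exact_mod_cast hp.one_lt
  have hp0 : (0 : ℝ) < p := by exact_mod_cast hp.pos
  set n := V.index with hn
  let P : ℤ → Prop := fun k => ∃ x : (PadicAlgCl p)ˣ, LFixed p V x ∧ ‖(x : PadicAlgCl p)‖ < 1 ∧
    ‖(x : PadicAlgCl p)‖ ^ n = (p : ℝ) ^ k
  have hbdd : ∀ k, P k → k ≤ -1 := by
    rintro k ⟨x, -, hx1, hxk⟩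
    have h1 : ‖(x : PadicAlgCl p)‖ ^ n < 1 := pow_lt_one₀ (norm_nonneg _) hx1 hV
    rw [hxk] at h1
    by_contra hk
    push Not at hk
    have hk0 : 0 ≤ k := by omega
    have : (1 : ℝ) ≤ (p : ℝ) ^ k := one_le_zpow₀ hp1.le hk0
    linarith
  have hne : ∃ k, P k := by
    have hpu : IsUnit ((p : ℕ) : PadicAlgCl p) := by
      rw [isUnit_iff_ne_zero]
      exact_mod_cast hp.ne_zero
    obtain ⟨u, hu⟩ := hpu
    have hfix : LFixed p V u := by
      intro τ _
      apply Units.ext
      show τ (u : PadicAlgCl p) = u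
      rw [hu, map_natCast]
    obtain ⟨k, hk⟩ := VdegH707.exists_zpow p V u hfix
    refine ⟨k, u, hfix, ?_, hk⟩
    rw [hu, norm_natCast_self_padicAlgCl]
    exact inv_lt_one_of_one_lt₀ hp1
  obtain ⟨k₀, ⟨π, hπfix, hπ1, hπk⟩, hmax⟩ := Int.exists_greatest_of_bdd ⟨-1, hbdd⟩ hne
  refine ⟨π, ?_, π.ne_zero, hπ1, ?_⟩
  · intro τ hτ
    exact congrArg (fun u : (PadicAlgCl p)ˣ => (u : PadicAlgCl p)) (hπfix τ hτ)
  · intro x hxfix hx1
    rcases eq_or_ne x 0 with rfl | hx0
    · rw [norm_zero]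
      exact norm_nonneg _
    · obtain ⟨u, hu⟩ := isUnit_iff_ne_zero.2 hx0
      have hfix : LFixed p V u := by
        intro τ hτ
        apply Units.ext
        show τ (u : PadicAlgCl p) = u
        rw [hu]
        exact hxfix τ hτ
      obtain ⟨k, hk⟩ := VdegH707.exists_zpow p V u hfix
      rw [hu] at hk
      have hPk : P k := ⟨u, hfix, by rw [hu]; exact hx1, by rw [hu]; exact hk⟩
      have hkk : k ≤ k₀ := hmax k hPk
      have h2 : ‖x‖ ^ n ≤ ‖(π : PadicAlgCl p)‖ ^ n := by
        rw [hk, hπk]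
        exact zpow_le_zpow_right₀ hp1.le hkk
      exact (pow_le_pow_iff_left₀ (norm_nonneg _) (norm_nonneg _) hV).1 h2

/-! ## Density of `K` in `K_v` -/

/-- the ring homomorphism `x ↦ ι_p (g⁻¹ x)` -/
def twEmb (g : GQ) : Qb →+* PadicAlgCl p :=
  (padicEmbedding p).toRingHom.comp ((g⁻¹ : GQ) : Qb ≃ₐ[ℚ] Qb).toAlgHom.toRingHom

theorem twEmb_apply (g : GQ) (x : Qb) : twEmb p g x = padicEmbedding p (g⁻¹ x) := rfl

/-- the image of `K = ℚ̄^U` in `ℚ̄_p` under `ι_p ∘ g⁻¹` -/
def imK (g : GQ) (U : Subgroup GQ) : Subring (PadicAlgCl p) :=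
  (fixK U).toSubalgebra.toSubring.map (twEmb p g)

theorem mem_imK_iff (g : GQ) (U : Subgroup GQ) (y : PadicAlgCl p) :
    y ∈ imK p g U ↔ ∃ x ∈ fixK U, padicEmbedding p (g⁻¹ x) = y := by
  unfold imK
  rw [Subring.mem_map]
  rfl

theorem algebraMap_mem_closure_imK (g : GQ) (U : Subgroup GQ) (y : ℚ_[p]) :
    algebraMap ℚ_[p] (PadicAlgCl p) y ∈ (imK p g U).topologicalClosure := by
  have hcont : Continuous (algebraMap ℚ_[p] (PadicAlgCl p)) := continuous_algebraMap _ _
  refine DenseRange.induction_on (Padic.denseRange_ratCast p) y ?_ ?_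
  · exact (Subring.isClosed_topologicalClosure (imK p g U)).preimage hcont
  · intro c
    apply Subring.le_topologicalClosure
    rw [mem_imK_iff]
    refine ⟨(c : Qb), ?_, ?_⟩
    · have : (c : Qb) = algebraMap ℚ Qb c := (eq_ratCast _ c).symm
      rw [this]
      exact (fixK U).algebraMap_mem c
    · rw [map_ratCast, map_ratCast, map_ratCast]

/-- the closure of the image of `K`, as a `ℚ_p`-subalgebra -/
def clK (g : GQ) (U : Subgroup GQ) : Subalgebra ℚ_[p] (PadicAlgCl p) :=
  { (imK p g U).topologicalClosure with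
    algebraMap_mem' := fun y => algebraMap_mem_closure_imK p g U y }

theorem mem_clK_iff (g : GQ) (U : Subgroup GQ) (y : PadicAlgCl p) :
    y ∈ clK p g U ↔ y ∈ closure ((imK p g U : Subring (PadicAlgCl p)) : Set (PadicAlgCl p)) :=
  Iff.rfl

/-- elements fixed by `locSub p g U` lie in `ℚ_p (ι_p g⁻¹ K)` -/
theorem mem_adjoin_of_isFixedBy {U : Subgroup GQ} (hU : IsOpenQ U) (g : GQ) (π : PadicAlgCl p)
    (hπ : IsFixedBy p (locSub p g U) π) :
    π ∈ IntermediateField.adjoin ℚ_[p] ((imK p g U : Subring (PadicAlgCl p)) : Set (PadicAlgCl p)) := by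
  haveI := BLocal.isGalois_padicAlgCl p
  set E := IntermediateField.adjoin ℚ_[p]
    ((imK p g U : Subring (PadicAlgCl p)) : Set (PadicAlgCl p)) with hE
  rw [← InfiniteGalois.fixedField_fixingSubgroup E, IntermediateField.mem_fixedField_iff]
  intro τ hτ
  apply hπ
  rw [mem_locSub, ← fixingSubgroup_fixK hU, IntermediateField.mem_fixingSubgroup_iff]
  intro x hx
  have hmem : padicEmbedding p (g⁻¹ x) ∈ E := by
    apply IntermediateField.subset_adjoin
    rw [SetLike.mem_coe, mem_imK_iff]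
    exact ⟨x, hx, rfl⟩
  have h1 : τ (padicEmbedding p (g⁻¹ x)) = padicEmbedding p (g⁻¹ x) :=
    (IntermediateField.mem_fixingSubgroup_iff E τ).1 hτ _ hmem
  rw [← padicEmbedding_localGaloisToGlobal] at h1
  have h2 : localGaloisToGlobal p τ (g⁻¹ x) = g⁻¹ x := (padicEmbedding p).injective h1
  show g (localGaloisToGlobal p τ (g⁻¹ x)) = x
  rw [h2]
  exact AlgEquiv.apply_symm_apply g x

/-- **Density**: a nonzero element of `K_v` has the norm of an element of `K`. -/
theorem exists_global_norm_eq {U : Subgroup GQ} (hU : IsOpenQ U) (g : GQ) (π : PadicAlgCl p)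
    (hπ0 : π ≠ 0) (hπ : IsFixedBy p (locSub p g U) π) :
    ∃ x ∈ fixK U, x ≠ 0 ∧ ‖padicEmbedding p (g⁻¹ x)‖ = ‖π‖ := by
  have h1 := mem_adjoin_of_isFixedBy p hU g π hπ
  have h2 : π ∈ Algebra.adjoin ℚ_[p]
      ((imK p g U : Subring (PadicAlgCl p)) : Set (PadicAlgCl p)) := by
    rw [← IntermediateField.adjoin_toSubalgebra]
    exact h1
  have h3 : π ∈ clK p g U := by
    refine (Algebra.adjoin_le (S := clK p g U) ?_) h2
    intro y hy
    exact Subring.le_topologicalClosure _ hy
  rw [mem_clK_iff, Metric.mem_closure_iff] at h3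
  obtain ⟨s, hs, hsπ⟩ := h3 ‖π‖ (norm_pos_iff.2 hπ0)
  rw [SetLike.mem_coe, mem_imK_iff] at hs
  obtain ⟨x, hx, rfl⟩ := hs
  rw [dist_comm, dist_eq_norm] at hsπ
  have hnorm := norm_eq_of_norm_sub_lt p hsπ
  refine ⟨x, hx, ?_, hnorm⟩
  rintro rfl
  rw [map_zero, map_zero, norm_zero] at hnorm
  exact hπ0 (norm_eq_zero.1 hnorm.symm)

end Fermat.Agent.S55.G.Rec.H742

end
end
-- ===== PACK-END S55/G/Rec/H742/WAUnif.lean

-- ===== PACK-BEGIN S55/E1/H304/Alg1Res.lean
section



/-!
# S55 engine E1, block ALG, leaf ALG1 for subgroups (helper304)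

Blueprint `coord/S55-E1.md` §7.1: the standard presentation `0 → R → P → N → 0` of a finite
`G`-module restricted along an injective `φ : D →* G`.

* `isZero_groupCohomology_res_free` : `Hⁿ⁺¹(D, P|_D) = 0`;
* `resFreeIso` : `Res_S (k[G]^{(α)}) ≅ k[S]^{(G ⧸ S × α)}` for a subgroup `S` of a finite group;
* `stdSC_res_shortExact`, `alg1_res` : `δ_D : H¹(D, N|_D) → H²(D, R|_D)` is bijective and
  `R|_D` is a lattice.
-/

set_option autoImplicit false

open CategoryTheory CategoryTheory.Limits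

namespace Fermat.Agent.S55.E1.H304

open Fermat.Agent.S55.E1

noncomputable section

section ResFree

variable (k G α : Type) [CommRing k] [Group G] [Fintype G]

/-- `Hⁿ⁺¹(S, Res_S k[G]^{(α)}) = 0` for a subgroup `S` of a finite group `G`. -/
theorem isZero_groupCohomology_resSub_free (S : Subgroup G) (n : ℕ) :
    IsZero (groupCohomology (Rep.res S.subtype (Rep.free k G α)) (n + 1)) :=
  (Fermat.Agent.S55.H783.isZero_res_funRep (k := k) (G := G) S (α →₀ k) n).of_iso
    ((groupCohomology.functor k S (n + 1)).mapIso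
      ((Rep.resFunctor S.subtype).mapIso (freeIsoFunRep k G α)))

/-- `Hⁿ⁺¹(D, Res_φ k[G]^{(α)}) = 0` for an injective `φ : D →* G` into a finite group. -/
theorem isZero_groupCohomology_res_free {D : Type} [Group D] (φ : D →* G)
    (hφ : Function.Injective φ) (n : ℕ) :
    IsZero (groupCohomology (Rep.res φ (Rep.free k G α)) (n + 1)) :=
  Fermat.Agent.S55.H295.isZero_res_of_range φ hφ _ _
    (isZero_groupCohomology_resSub_free k G α φ.range n)

/-- `funRep` is functorial in linear equivalences of the coefficient module. -/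
def funRepCongr {V W : Type} [AddCommGroup V] [Module k V] [AddCommGroup W] [Module k W]
    (e : V ≃ₗ[k] W) :
    Fermat.Agent.S55.H783.funRep k G V ≅ Fermat.Agent.S55.H783.funRep k G W :=
  Rep.mkIso
    { toLinearEquiv := LinearEquiv.piCongrRight (fun _ : G => e)
      isIntertwining' := fun g => by
        apply LinearMap.ext
        intro f
        funext x
        rfl }

/-- `(Q → (α →₀ k)) ≃ (Q × α →₀ k)` for a finite type `Q`. -/
def funFinsuppLEquiv (Q : Type) [Finite Q] : (Q → (α →₀ k)) ≃ₗ[k] ((Q × α) →₀ k) :=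
  (Finsupp.linearEquivFunOnFinite k (α →₀ k) Q).symm ≪≫ₗ (Finsupp.curryLinearEquiv k).symm

/-- **Restriction of a free representation is free**: for a subgroup `S` of a finite group `G`,
`Res_S (k[G]^{(α)}) ≅ k[S]^{(G ⧸ S × α)}`. -/
def resFreeIso (S : Subgroup G) [Fintype S] :
    Rep.res S.subtype (Rep.free k G α) ≅ Rep.free k S ((G ⧸ S) × α) :=
  (Rep.resFunctor S.subtype).mapIso (freeIsoFunRep k G α) ≪≫
    Fermat.Agent.S55.H783.resFunRepIso S (α →₀ k) ≪≫
    funRepCongr k S (funFinsuppLEquiv k α (G ⧸ S)) ≪≫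
    (freeIsoFunRep k S ((G ⧸ S) × α)).symm

end ResFree

section Alg1Res

variable {G : Type} [Group G]

/-- The standard presentation restricted along `φ` is short exact. -/
theorem stdSC_res_shortExact (N : Rep.{0} ℤ G) {D : Type} [Group D] (φ : D →* G) :
    ((stdSC N).map (Rep.resFunctor φ)).ShortExact :=
  (Rep.shortExact_res φ).2 (stdSC_shortExact N)

/-- **ALG1 for subgroups**: for finite `G`, finite `N` and injective `φ : D →* G`, the
connecting map `δ_D : H¹(D, N|_D) → H²(D, R|_D)` of the restricted standard presentation is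
bijective. -/
theorem alg1_res_bijective [Finite G] (N : Rep.{0} ℤ G) {D : Type} [Group D] (φ : D →* G)
    (hφ : Function.Injective φ) :
    Function.Bijective (groupCohomology.δ (stdSC_res_shortExact N φ) 1 2 rfl).hom := by
  classical
  let _ : Fintype G := Fintype.ofFinite G
  have h := groupCohomology.isIso_δ_of_isZero (stdSC_res_shortExact N φ) 1
    (isZero_groupCohomology_res_free ℤ G N.V φ hφ 0)
    (isZero_groupCohomology_res_free ℤ G N.V φ hφ 1)
  exact (ConcreteCategory.isIso_iff_bijective _).mp h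

/-- **ALG1 for subgroups**, lattice part: `R|_D` is finitely generated free over `ℤ`. -/
theorem alg1_res_lattice [Finite G] (N : Rep.{0} ℤ G) (hN : Finite N.V) {D : Type} [Group D]
    (φ : D →* G) :
    @Module.Free ℤ (Rep.res φ (stdR N)).V _ _ (Rep.res φ (stdR N)).hV2 ∧
      @Module.Finite ℤ (Rep.res φ (stdR N)).V _ _ (Rep.res φ (stdR N)).hV2 :=
  ⟨(alg1 G N hN).1, (alg1 G N hN).2.1⟩

end Alg1Res

end

end Fermat.Agent.S55.E1.H304

end
-- ===== PACK-END S55/E1/H304/Alg1Res.lean

-- ===== PACK-BEGIN S55/G/Exist121/FieldFinite.lean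
section



/-!
# S55, layer G, block EXIST: the Kummer level is a level (finite, unramified outside `S`)

Author: helper121.  Main results:

* `finiteDimensional_kummerLevel` : `F₁ = F(V(F)^{1/p})` is finite over `ℚ` (via finiteness of the
  Selmer group `F(S, p)`, helper901);
* `isUnramifiedOutside_kummerLevel` : `F₁` is unramified outside `S`.

Bridge used here (and of independent interest): `exists_valuationSubring_over` (every prime `v` of
`𝓞 F` is the centre of a valuation subring of `ℚ̄`) and `valuation_eq_one_of_mem` (a unit at such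
a valuation subring has `v`-adic valuation `1`).
-/

set_option autoImplicit false
set_option linter.style.haveILetI false

namespace Fermat.Agent.S55.G.Exist121

open IntermediateField IsDedekindDomain NumberField

section Bridge

variable (F : IntermediateField ℚ (AlgebraicClosure ℚ))

/-- The embedding `𝓞 F → ℚ̄`. -/
noncomputable def toQbar : 𝓞 F →+* AlgebraicClosure ℚ :=
  (algebraMap F (AlgebraicClosure ℚ)).comp (algebraMap (𝓞 F) F)

lemma toQbar_apply (r : 𝓞 F) : toQbar F r = ((r : F) : AlgebraicClosure ℚ) := rfl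

lemma toQbar_injective : Function.Injective (toQbar F) :=
  (algebraMap F (AlgebraicClosure ℚ)).injective.comp RingOfIntegers.coe_injective

variable {F}

/-- Every prime `v` of `𝓞 F` is the centre of a valuation subring of `ℚ̄`. -/
theorem exists_valuationSubring_over [NumberField F] (v : HeightOneSpectrum (𝓞 F)) :
    ∃ A : ValuationSubring (AlgebraicClosure ℚ), ∀ r : 𝓞 F,
      toQbar F r ∈ A ∧ (r ∈ v.asIdeal ↔ toQbar F r ∈ A.nonunits) := by
  let A₀ : Subring (AlgebraicClosure ℚ) := (toQbar F).range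
  let I : Ideal A₀ := v.asIdeal.map (toQbar F).rangeRestrict
  have hI : I ≠ ⊤ := by
    intro h
    have h1 : (1 : A₀) ∈ I := by rw [h]; trivial
    rw [Ideal.mem_map_iff_of_surjective _ (toQbar F).rangeRestrict_surjective] at h1
    obtain ⟨r, hr, hr1⟩ := h1
    have h2 : toQbar F r = 1 := congrArg Subtype.val hr1
    have h3 : r = 1 := toQbar_injective F (by rw [h2, map_one])
    exact v.isPrime.ne_top ((Ideal.eq_top_iff_one _).2 (h3 ▸ hr))
  obtain ⟨A, hA₀, hA⟩ := Ideal.image_subset_nonunits_valuationSubring I hI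
  have hmem : ∀ r : 𝓞 F, toQbar F r ∈ A := fun r => hA₀ ⟨r, rfl⟩
  have hnon : ∀ r ∈ v.asIdeal, toQbar F r ∈ A.nonunits := fun r hr =>
    hA ⟨(toQbar F).rangeRestrict r, Ideal.mem_map_of_mem _ hr, rfl⟩
  refine ⟨A, fun r => ⟨hmem r, ⟨hnon r, fun hr => ?_⟩⟩⟩
  by_contra hrv
  -- `v` is maximal: `a * r + m = 1` with `m ∈ v`
  have hmax : v.asIdeal.IsMaximal := v.isMaximal
  obtain ⟨a, m, hm, ham⟩ := hmax.exists_inv hrv
  have h1 : toQbar F a * toQbar F r + toQbar F m = 1 := by
    rw [← map_mul, ← map_add, ham, map_one]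
  have hv1 : A.valuation (toQbar F a * toQbar F r) < 1 := by
    rw [map_mul]
    calc A.valuation (toQbar F a) * A.valuation (toQbar F r)
        ≤ 1 * A.valuation (toQbar F r) :=
          mul_le_mul_left ((A.valuation_le_one_iff _).2 (hmem a)) _
      _ = A.valuation (toQbar F r) := one_mul _
      _ < 1 := (A.mem_nonunits_iff).1 hr
  have hv2 : A.valuation (toQbar F m) < 1 := (A.mem_nonunits_iff).1 (hnon m hm)
  have hv3 : A.valuation (toQbar F a * toQbar F r + toQbar F m) < 1 :=
    lt_of_le_of_lt (A.valuation.map_add _ _) (max_lt hv1 hv2)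
  rw [h1, map_one] at hv3
  exact lt_irrefl _ hv3

/-- If `u ∈ Fˣ` is a unit of a valuation subring of `ℚ̄` centred at `v`, then `v(u) = 1`. -/
theorem valuation_eq_one_of_mem [NumberField F] (v : HeightOneSpectrum (𝓞 F))
    (A : ValuationSubring (AlgebraicClosure ℚ))
    (hA : ∀ r : 𝓞 F, toQbar F r ∈ A ∧ (r ∈ v.asIdeal ↔ toQbar F r ∈ A.nonunits))
    (u : F) (hu : A.valuation (u : AlgebraicClosure ℚ) = 1) :
    v.valuation F u = 1 := by
  have hval : ∀ d : 𝓞 F, d ∉ v.asIdeal → A.valuation (toQbar F d) = 1 := by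
    intro d hd
    have h1 : A.valuation (toQbar F d) ≤ 1 := (A.valuation_le_one_iff _).2 (hA d).1
    have h2 : ¬ A.valuation (toQbar F d) < 1 := fun h =>
      hd ((hA d).2.2 ((A.mem_nonunits_iff).2 h))
    exact le_antisymm h1 (not_lt.1 h2)
  have hmem : ∀ n : 𝓞 F, A.valuation (toQbar F n) = 1 → n ∉ v.asIdeal := by
    intro n hn hnv
    have := (A.mem_nonunits_iff).1 ((hA n).2.1 hnv)
    rw [hn] at this
    exact lt_irrefl _ this
  have hv1 : ∀ n : 𝓞 F, n ∉ v.asIdeal → v.valuation F (algebraMap (𝓞 F) F n) = 1 := by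
    intro n hn
    rw [HeightOneSpectrum.valuation_of_algebraMap]
    exact (v.intValuation_eq_one_iff_mem_primeCompl n).2 hn
  obtain ⟨n, d, h | h⟩ := v.exists_primeCompl_mul_eq_or_mul_eq (K := F) u
  · -- `u * d = n`
    have h' : (u : AlgebraicClosure ℚ) * toQbar F d = toQbar F n := by
      have := congrArg (algebraMap F (AlgebraicClosure ℚ)) h
      rw [map_mul] at this
      exact this
    have hn : A.valuation (toQbar F n) = 1 := by
      rw [← h', map_mul, hu, hval d d.2, one_mul]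
    have h3 := congrArg (v.valuation F) h
    rw [map_mul, hv1 d d.2, mul_one, hv1 n (hmem n hn)] at h3
    exact h3
  · -- `u * n = d`
    have h' : (u : AlgebraicClosure ℚ) * toQbar F n = toQbar F d := by
      have := congrArg (algebraMap F (AlgebraicClosure ℚ)) h
      rw [map_mul] at this
      exact this
    have hn : A.valuation (toQbar F n) = 1 := by
      have := congrArg A.valuation h'
      rw [map_mul, hu, one_mul, hval d d.2] at this
      exact this
    have h3 := congrArg (v.valuation F) h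
    rw [map_mul, hv1 d d.2, hv1 n (hmem n hn), mul_one] at h3
    exact h3

/-- Every prime `v` of `𝓞 F` contains a rational prime. -/
theorem exists_prime_mem [NumberField F] (v : HeightOneSpectrum (𝓞 F)) :
    ∃ q : Nat.Primes, ((q : ℕ) : 𝓞 F) ∈ v.asIdeal := by
  have hN : ((Ideal.absNorm v.asIdeal : ℕ) : 𝓞 F) ∈ v.asIdeal := Ideal.absNorm_mem _
  have hN1 : Ideal.absNorm v.asIdeal ≠ 1 := fun h =>
    v.isPrime.ne_top (Ideal.absNorm_eq_one_iff.1 h)
  have hN0 : Ideal.absNorm v.asIdeal ≠ 0 := by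
    rw [Ne, Ideal.absNorm_eq_zero_iff]
    exact v.ne_bot
  -- strong induction: a natural number `≥ 2` in `v` has a prime factor in `v`
  have key : ∀ n : ℕ, 2 ≤ n → ((n : ℕ) : 𝓞 F) ∈ v.asIdeal →
      ∃ q : Nat.Primes, ((q : ℕ) : 𝓞 F) ∈ v.asIdeal := by
    intro n
    induction n using Nat.strong_induction_on with
    | _ n ih =>
      intro hn2 hn
      have hn1 : n ≠ 1 := by omega
      have hq := Nat.minFac_prime hn1
      by_cases hqv : ((Nat.minFac n : ℕ) : 𝓞 F) ∈ v.asIdeal
      · exact ⟨⟨_, hq⟩, hqv⟩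
      · obtain ⟨m, hm⟩ := Nat.minFac_dvd n
        have hm' : ((Nat.minFac n : ℕ) : 𝓞 F) * ((m : ℕ) : 𝓞 F) ∈ v.asIdeal := by
          rw [← Nat.cast_mul, ← hm]; exact hn
        have hmv : ((m : ℕ) : 𝓞 F) ∈ v.asIdeal :=
          (v.isPrime.mem_or_mem hm').resolve_left hqv
        have hm0 : m ≠ 0 := by
          rintro rfl
          rw [mul_zero] at hm
          omega
        have hm1 : m ≠ 1 := by
          rintro rfl
          rw [mul_one] at hm
          exact hqv (by rw [← hm]; exact hn)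
        have hlt : m < n := by
          have h2 := hq.two_le
          calc m = 1 * m := (one_mul m).symm
            _ < Nat.minFac n * m := Nat.mul_lt_mul_of_pos_right (by omega) (by omega)
            _ = n := hm.symm
        exact ih m hlt (by omega) hmv
  exact key _ (by omega) hN

end Bridge

section Selmer

variable (S : Finset Nat.Primes) (p : ℕ) (F : IntermediateField ℚ (AlgebraicClosure ℚ))

/-- The primes of `𝓞 F` over `S`. -/
def primesOver [NumberField F] : Set (HeightOneSpectrum (𝓞 F)) :=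
  {v | ∃ q ∈ S, ((q : ℕ) : 𝓞 F) ∈ v.asIdeal}

lemma primesOver_finite [NumberField F] : (primesOver S F).Finite := by
  have h : primesOver S F =
      ⋃ q ∈ S, {v : HeightOneSpectrum (𝓞 F) | ((q : ℕ) : 𝓞 F) ∈ v.asIdeal} := by
    ext v
    simp [primesOver]
  rw [h]
  refine Set.Finite.biUnion S.finite_toSet (fun q _ => ?_)
  have hq0 : (Ideal.span {((q : ℕ) : 𝓞 F)}) ≠ 0 := by
    rw [Ne, Ideal.zero_eq_bot, Ideal.span_singleton_eq_bot]
    exact Nat.cast_ne_zero.2 q.2.ne_zero
  refine (Ideal.finite_factors hq0).subset (fun v hv => ?_)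
  show v.asIdeal ∣ Ideal.span {((q : ℕ) : 𝓞 F)}
  rw [Ideal.dvd_iff_le, Ideal.span_singleton_le_iff_mem]
  exact hv

variable {S p F}

/-- For `x ∈ V(F)` and a prime `v` of `F` outside `S`, `p ∣ v(x)`. -/
theorem dvd_valuationOfNeZero_of_isSelmerElt [NumberField F] {x : Fˣ}
    (hx : IsSelmerElt S p F ((x : F) : AlgebraicClosure ℚ))
    (v : HeightOneSpectrum (𝓞 F)) (hv : v ∉ primesOver S F) :
    (p : ℤ) ∣ Multiplicative.toAdd (v.valuationOfNeZero x) := by
  obtain ⟨q, hq⟩ := exists_prime_mem v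
  have hqS : q ∉ S := fun h => hv ⟨q, h, hq⟩
  obtain ⟨A, hA⟩ := exists_valuationSubring_over v
  have hAq : A.LiesOverPrime (q : ℕ) := by
    have h := (hA ((q : ℕ) : 𝓞 F)).2.1 hq
    have e : toQbar F ((q : ℕ) : 𝓞 F) = ((q : ℕ) : AlgebraicClosure ℚ) := map_natCast _ _
    rw [e] at h
    exact h
  obtain ⟨t, ht, ht0, h1, h2⟩ := hx.2.2 q hqS A hAq
  have htF0 : (⟨t, ht⟩ : F) ≠ 0 := fun h => ht0 (congrArg Subtype.val h)
  have hxF0 : (x : F) ≠ 0 := x.ne_zero
  have hu : A.valuation ((((x : F) / (⟨t, ht⟩ : F) ^ p : F)) : AlgebraicClosure ℚ) = 1 := by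
    have e : ((((x : F) / (⟨t, ht⟩ : F) ^ p : F)) : AlgebraicClosure ℚ) =
        ((x : F) : AlgebraicClosure ℚ) / t ^ p := by push_cast; rfl
    rw [e]
    refine le_antisymm ((A.valuation_le_one_iff _).2 h1) ?_
    have h3 : A.valuation (t ^ p / ((x : F) : AlgebraicClosure ℚ)) ≤ 1 :=
      (A.valuation_le_one_iff _).2 h2
    have hx0 : ((x : F) : AlgebraicClosure ℚ) ≠ 0 := hx.2.1
    have e2 : t ^ p / ((x : F) : AlgebraicClosure ℚ) =
        (((x : F) : AlgebraicClosure ℚ) / t ^ p)⁻¹ := by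
      rw [inv_div]
    rw [e2, map_inv₀] at h3
    have hne : A.valuation (((x : F) : AlgebraicClosure ℚ) / t ^ p) ≠ 0 :=
      (map_ne_zero _).2 (div_ne_zero hx0 (pow_ne_zero p ht0))
    exact (inv_le_one₀ (zero_lt_iff.2 hne)).1 h3
  have hvu := valuation_eq_one_of_mem v A hA _ hu
  have hval : v.valuation F (x : F) = (v.valuation F (⟨t, ht⟩ : F)) ^ p := by
    have e : (x : F) = ((x : F) / (⟨t, ht⟩ : F) ^ p) * (⟨t, ht⟩ : F) ^ p := by
      field_simp
    rw [e, map_mul, hvu, one_mul, map_pow]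
  have h3 : v.valuationOfNeZero x = (v.valuationOfNeZero (Units.mk0 _ htF0)) ^ p := by
    rw [← WithZero.coe_inj, WithZero.coe_pow, HeightOneSpectrum.valuationOfNeZero_eq,
      HeightOneSpectrum.valuationOfNeZero_eq]
    exact hval
  rw [h3, toAdd_pow, nsmul_eq_mul]
  exact dvd_mul_right _ _

/-- The class of `x ∈ V(F)` lies in the Selmer group `F(S_F, p)`. -/
theorem mk_mem_selmerGroup [NumberField F] {x : Fˣ}
    (hx : IsSelmerElt S p F ((x : F) : AlgebraicClosure ℚ)) :
    (QuotientGroup.mk x : Fˣ ⧸ (powMonoidHom p : Fˣ →* Fˣ).range) ∈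
      selmerGroup (R := 𝓞 F) (K := F) (S := primesOver S F) (n := p) := by
  intro v hv
  exact (Fermat.Agent.S55.H901.valuationOfNeZeroMod_mk_eq_one_iff v p x).2
    (dvd_valuationOfNeZero_of_isSelmerElt hx v hv)

variable (S p F)

/-- **The Kummer level is finite over `ℚ`.** -/
theorem finiteDimensional_kummerLevel (hp : 0 < p) [FiniteDimensional ℚ F] :
    FiniteDimensional ℚ (kummerLevel S p F) := by
  classical
  haveI : NumberField F := { to_charZero := inferInstance, to_finiteDimensional := inferInstance }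
  haveI : Finite (selmerGroup (R := 𝓞 F) (K := F) (S := primesOver S F) (n := p)) :=
    Fermat.Agent.S55.H901.selmerGroup_finite (primesOver_finite S F) hp
  -- a `p`-th root of a representative of every class
  have hroot : ∀ c : Fˣ ⧸ (powMonoidHom p : Fˣ →* Fˣ).range, ∃ β : AlgebraicClosure ℚ,
      (∃ x : Fˣ, IsSelmerElt S p F ((x : F) : AlgebraicClosure ℚ) ∧ QuotientGroup.mk x = c) →
      ∃ x : Fˣ, QuotientGroup.mk x = c ∧ β ^ p = ((x : F) : AlgebraicClosure ℚ) := by
    intro c
    by_cases h : ∃ x : Fˣ, IsSelmerElt S p F ((x : F) : AlgebraicClosure ℚ) ∧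
        QuotientGroup.mk x = c
    · obtain ⟨x, -, hc⟩ := h
      obtain ⟨β, hβ⟩ := IsAlgClosed.exists_pow_nat_eq ((x : F) : AlgebraicClosure ℚ) hp
      exact ⟨β, fun _ => ⟨x, hc, hβ⟩⟩
    · exact ⟨0, fun h' => absurd h' h⟩
  choose g hg using hroot
  let T : Set (AlgebraicClosure ℚ) :=
    g '' (selmerGroup (R := 𝓞 F) (K := F) (S := primesOver S F) (n := p) :
      Set (Fˣ ⧸ (powMonoidHom p : Fˣ →* Fˣ).range)) ∪ {ω | ω ^ p = 1}
  have hTfin : T.Finite := by
    refine Set.Finite.union ((Set.toFinite _).image g) ?_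
    refine (Polynomial.nthRoots p (1 : AlgebraicClosure ℚ)).toFinset.finite_toSet.subset ?_
    intro ω hω
    simpa [Polynomial.mem_nthRoots hp] using hω
  have hsub : {β | IsSelmerElt S p F (β ^ p)} ⊆
      ((F ⊔ adjoin ℚ T : IntermediateField ℚ (AlgebraicClosure ℚ)) :
        Set (AlgebraicClosure ℚ)) := by
    intro β hβ
    have hβ' : IsSelmerElt S p F (β ^ p) := hβ
    have hx0 : (⟨β ^ p, hβ'.1⟩ : F) ≠ 0 := fun h => hβ'.2.1 (congrArg Subtype.val h)
    have hxS : IsSelmerElt S p F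
        (((Units.mk0 (⟨β ^ p, hβ'.1⟩ : F) hx0 : Fˣ) : F) : AlgebraicClosure ℚ) := hβ'
    have hc := mk_mem_selmerGroup hxS
    obtain ⟨x', hcx', hgx'⟩ := hg _ ⟨_, hxS, rfl⟩
    obtain ⟨y, hy⟩ := QuotientGroup.eq.1 hcx'
    -- `y ^ p = x'⁻¹ * x`
    have hy' : ((y : F) : AlgebraicClosure ℚ) ^ p * ((x' : F) : AlgebraicClosure ℚ) = β ^ p := by
      have h1 : (y ^ p : Fˣ) = x'⁻¹ * Units.mk0 (⟨β ^ p, hβ'.1⟩ : F) hx0 := hy
      have h2 : x' * y ^ p = Units.mk0 (⟨β ^ p, hβ'.1⟩ : F) hx0 := by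
        rw [h1, mul_inv_cancel_left]
      have h3 := congrArg (fun z : Fˣ => ((z : F) : AlgebraicClosure ℚ)) h2
      simp only [Units.val_mul, Units.val_pow_eq_pow_val, Units.val_mk0,
        MulMemClass.coe_mul, SubmonoidClass.coe_pow] at h3
      rw [mul_comm]
      exact h3
    set b := g (QuotientGroup.mk (Units.mk0 (⟨β ^ p, hβ'.1⟩ : F) hx0)) with hb
    have hx'0 : ((x' : F) : AlgebraicClosure ℚ) ≠ 0 := fun h =>
      x'.ne_zero (Subtype.ext h)
    have hb0 : b ≠ 0 := fun h => hx'0 (by rw [← hgx', h, zero_pow hp.ne'])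
    have hy0 : ((y : F) : AlgebraicClosure ℚ) ≠ 0 := fun h => y.ne_zero (Subtype.ext h)
    have hω : (β / (b * ((y : F) : AlgebraicClosure ℚ))) ^ p = 1 := by
      have hβp : β ^ p = b ^ p * ((y : F) : AlgebraicClosure ℚ) ^ p := by
        rw [hgx', ← hy', mul_comm]
      rw [div_pow, mul_pow, hβp]
      exact div_self (mul_ne_zero (pow_ne_zero p hb0) (pow_ne_zero p hy0))
    have e : β = (β / (b * ((y : F) : AlgebraicClosure ℚ))) *
        (b * ((y : F) : AlgebraicClosure ℚ)) := by
      field_simp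
    rw [e]
    have hTle : adjoin ℚ T ≤ F ⊔ adjoin ℚ T := le_sup_right
    have hFle : F ≤ F ⊔ adjoin ℚ T := le_sup_left
    refine mul_mem (hTle (subset_adjoin ℚ T (Or.inr hω)))
      (mul_mem (hTle (subset_adjoin ℚ T (Or.inl ⟨_, hc, rfl⟩))) (hFle (y : F).2))
  have hle : kummerLevel S p F ≤ F ⊔ adjoin ℚ T :=
    sup_le le_sup_left (adjoin_le_iff.2 hsub)
  haveI : Finite T := hTfin.to_subtype
  haveI : FiniteDimensional ℚ (adjoin ℚ T) :=
    finiteDimensional_adjoin
      (fun x _ => (AlgebraicClosure.isAlgebraic ℚ).isIntegral.isIntegral x)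
  haveI : FiniteDimensional ℚ (F ⊔ adjoin ℚ T : IntermediateField ℚ (AlgebraicClosure ℚ)) :=
    IntermediateField.finiteDimensional_sup F _
  exact FiniteDimensional.of_injective (IntermediateField.inclusion hle).toLinearMap
    (IntermediateField.inclusion_injective hle)

/-- **The Kummer level is unramified outside `S`** (if `F` is, and the prime factors of `p` lie in
`S`). -/
theorem isUnramifiedOutside_kummerLevel (hp : 0 < p)
    (hpS : ∀ ℓ : Nat.Primes, (ℓ : ℕ) ∣ p → ℓ ∈ S) (hF : F.IsUnramifiedOutside S) :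
    (kummerLevel S p F).IsUnramifiedOutside S := by
  haveI := hF.1
  exact ⟨finiteDimensional_kummerLevel S p F hp, fun q hq A hA =>
    inertia_le_fixingSubgroup_kummerLevel hp.ne' hpS hF.2 hq hA⟩

end Selmer

end Fermat.Agent.S55.G.Exist121

end
-- ===== PACK-END S55/G/Exist121/FieldFinite.lean

-- ===== PACK-BEGIN S55/H424/LocalPow.lean
section



/-!
# LPI (local power index), part 5: statements in the language of layer L (`S55/Local`)

BASE `(A, F)`: complete DVR with finite residue field and its fraction field (char 0);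
`L / F` a finite extension.  Then

* `H424.localField_index_range_pow` :
  `[Lˣ : (Lˣ)ⁿ] = n * (|μ_n(L)| * |A ⧸ (n)| ^ [L : F])`  (for `n ≠ 0`);
* `H424.localField_index_range_pow_of_isUnit` : `[Lˣ : (Lˣ)ⁿ] = n * |μ_n(L)|` if `n ∈ Aˣ`;
* `H424.localField_index_range_pow_ne_zero` : `(Lˣ)ⁿ` has finite index in `Lˣ`.

No `Algebra A L` instance is needed in the statements.
-/

set_option autoImplicit false
set_option linter.unusedSectionVars false
set_option linter.style.haveILetI false

namespace Fermat.Agent.S55.H424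

open Fermat.Agent.S55.Local Fermat.Agent.S55.Local.H715 IsLocalRing

section FreeIndex

variable {A M : Type*} [CommRing A] [Nontrivial A] [AddCommGroup M] [Module A M]
  [Module.Free A M] [Module.Finite A M]

/-- For a free module `M` of finite rank `r` over `A`: `[M : a M] = [A : a A] ^ r`. -/
theorem index_range_lsmul_of_free (a : A) :
    (LinearMap.range (LinearMap.lsmul A M a)).toAddSubgroup.index
      = (Ideal.span {a}).toAddSubgroup.index ^ Module.finrank A M := by
  classical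
  let e : M ≃ₗ[A] (Fin (Module.finrank A M) → A) := (Module.finBasis A M).equivFun
  have h1 : ((LinearMap.range (LinearMap.lsmul A M a)).toAddSubgroup).map
        (e.toAddEquiv : M →+ (Fin (Module.finrank A M) → A))
      = AddSubgroup.pi Set.univ
          (fun _ : Fin (Module.finrank A M) => (Ideal.span {a}).toAddSubgroup) := by
    ext f
    simp only [AddSubgroup.mem_map, Submodule.mem_toAddSubgroup, LinearMap.mem_range,
      AddSubgroup.mem_pi, Set.mem_univ, forall_true_left, Ideal.mem_span_singleton]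
    constructor
    · rintro ⟨_, ⟨m, rfl⟩, rfl⟩ i
      refine ⟨e m i, ?_⟩
      show e (a • m) i = a * e m i
      rw [map_smul]; rfl
    · intro h
      choose g hg using h
      refine ⟨a • e.symm g, ⟨e.symm g, rfl⟩, ?_⟩
      ext i
      show e (a • e.symm g) i = f i
      rw [map_smul, e.apply_symm_apply, hg i]; rfl
  rw [← AddSubgroup.index_map_equiv _ e.toAddEquiv, h1, AddSubgroup.index_pi, Finset.prod_const,
    Finset.card_univ, Fintype.card_fin]

end FreeIndex

section Integers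

variable (A F : Type) [CommRing A] [IsDomain A] [IsDiscreteValuationRing A]
  [IsAdicComplete (IsLocalRing.maximalIdeal A) A] [Finite (IsLocalRing.ResidueField A)]
  [Field F] [CharZero F] [Algebra A F] [IsFractionRing A F]
  (L : Type) [Field L] [Algebra F L] [FiniteDimensional F L]
  [Algebra A L] [IsScalarTower A F L]

include F

/-- `|O_L ⧸ (n)| = |A ⧸ (n)| ^ [L : F]`. -/
theorem card_quot_OL_natCast (n : ℕ) :
    Nat.card (integralClosure A L ⧸ Ideal.span {(n : integralClosure A L)})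
      = Nat.card (A ⧸ Ideal.span {(n : A)}) ^ Module.finrank F L := by
  haveI : Module.Finite A (integralClosure A L) := finite_OL A F L
  have hinj : Function.Injective (algebraMap A L) := by
    rw [IsScalarTower.algebraMap_eq A F L]
    exact (algebraMap F L).injective.comp (IsFractionRing.injective A F)
  haveI : Module.IsTorsionFree A L := by
    rw [← faithfulSMul_iff_algebraMap_injective] at hinj
    infer_instance
  haveI : Module.Free A (integralClosure A L) :=
    IsIntegralClosure.module_free A F L (integralClosure A L)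
  have hr : Module.finrank A (integralClosure A L) = Module.finrank F L :=
    IsIntegralClosure.rank A F L (integralClosure A L)
  rw [← Submodule.cardQuot_apply, ← Submodule.cardQuot_apply]
  unfold Submodule.cardQuot
  rw [← hr, ← index_range_lsmul_of_free (A := A) (M := integralClosure A L) (n : A)]
  congr 1
  ext x
  simp only [Submodule.mem_toAddSubgroup, Ideal.mem_span_singleton, LinearMap.mem_range,
    LinearMap.lsmul_apply]
  constructor
  · rintro ⟨c, rfl⟩
    exact ⟨c, by rw [Algebra.smul_def, map_natCast]⟩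
  · rintro ⟨c, rfl⟩
    exact ⟨c, by rw [Algebra.smul_def, map_natCast]⟩

/-- Instance-based form of the local power index. -/
theorem index_range_pow_OL (n : ℕ) (hn : n ≠ 0) :
    (powMonoidHom n : Lˣ →* Lˣ).range.index
      = n * (Nat.card (rootsOfUnity n L)
          * Nat.card (A ⧸ Ideal.span {(n : A)}) ^ Module.finrank F L) := by
  letI := isLocalRing_OL A F L
  haveI := isDiscreteValuationRing_OL A F L
  haveI := isAdicComplete_OL A F L
  haveI := finite_residueField_OL A F L
  haveI := isFractionRing_OL A F L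
  haveI hchar : CharZero L := charZero_of_injective_algebraMap (algebraMap F L).injective
  have hn' : ((n : ℕ) : integralClosure A L) ≠ 0 := by
    intro h0
    have h1 := congrArg (algebraMap (integralClosure A L) L) h0
    rw [map_natCast, map_zero] at h1
    exact hn (by exact_mod_cast h1)
  rw [index_range_pow_units_field (A := integralClosure A L) (K := L) hn',
    card_quot_OL_natCast A F L n]

end Integers

section InstanceFree

variable (A F : Type) [CommRing A] [IsDomain A] [IsDiscreteValuationRing A]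
  [IsAdicComplete (IsLocalRing.maximalIdeal A) A] [Finite (IsLocalRing.ResidueField A)]
  [Field F] [CharZero F] [Algebra A F] [IsFractionRing A F]
  (L : Type) [Field L] [Algebra F L] [FiniteDimensional F L]

include A F

/-- **Local power index** for a local field `L` (finite over `F = Frac A`):
`[Lˣ : (Lˣ)ⁿ] = n * (|μ_n(L)| * |A ⧸ (n)| ^ [L : F])`. -/
theorem localField_index_range_pow (n : ℕ) (hn : n ≠ 0) :
    (powMonoidHom n : Lˣ →* Lˣ).range.index
      = n * (Nat.card (rootsOfUnity n L)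
          * Nat.card (A ⧸ Ideal.span {(n : A)}) ^ Module.finrank F L) := by
  letI : Algebra A L := algAL A F L
  haveI : IsScalarTower A F L := isScalarTower_algAL A F L
  exact index_range_pow_OL A F L n hn

/-- **Local power index**, prime-to-residue-characteristic case:
`[Lˣ : (Lˣ)ⁿ] = n * |μ_n(L)|` if `n` is a unit of `A`. -/
theorem localField_index_range_pow_of_isUnit (n : ℕ) (hn : IsUnit (n : A)) :
    (powMonoidHom n : Lˣ →* Lˣ).range.index = n * Nat.card (rootsOfUnity n L) := by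
  have hn0 : n ≠ 0 := by
    rintro rfl
    exact hn.ne_zero (by simp)
  rw [localField_index_range_pow A F L n hn0, card_quot_span_of_isUnit hn, one_pow, mul_one]

/-- The `n`-th powers have finite index in the multiplicative group of a local field. -/
theorem localField_index_range_pow_ne_zero (n : ℕ) (hn : n ≠ 0) :
    (powMonoidHom n : Lˣ →* Lˣ).range.index ≠ 0 := by
  rw [localField_index_range_pow A F L n hn]
  have hnA : (n : A) ≠ 0 := by
    intro h0
    have h1 := congrArg (algebraMap A F) h0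
    rw [map_natCast, map_zero] at h1
    exact hn (by exact_mod_cast h1)
  obtain ⟨ϖ, hϖ⟩ := IsDiscreteValuationRing.exists_irreducible A
  obtain ⟨v, u, hu⟩ := IsDiscreteValuationRing.eq_unit_mul_pow_irreducible hnA hϖ
  have h1 : Nat.card (rootsOfUnity n L) ≠ 0 := by
    haveI : NeZero n := ⟨hn⟩
    exact Nat.card_pos.ne'
  have h2 : Nat.card (ResidueField A) ≠ 0 := Nat.card_pos.ne'
  rw [card_quot_span_dvr hϖ hu]
  exact mul_ne_zero hn (mul_ne_zero h1 (pow_ne_zero _ (pow_ne_zero v h2)))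

end InstanceFree

end Fermat.Agent.S55.H424

end
-- ===== PACK-END S55/H424/LocalPow.lean

-- ===== PACK-BEGIN S55/L/H715/Transport.lean
section




/-!
# S55, layer L (helper715): transport of class modules along equivariant isomorphisms

`e : G ≃* G'`, `A : Rep ℤ G`, `B : Rep ℤ G'`, `φ : A.V ≃+ B.V` with `φ (g • x) = e g • φ x`.
For every subgroup `H ≤ G` and every `n`, `Hⁿ(H, A) ≅ Hⁿ(e H, B)` (`subIso715`); consequently
the hypotheses of the class-module criterion transport from `B` to `A`, and so does Hilbert 90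
(`isZero_H1_of_equiv715`).  Also: a class module (layer T) is a class module at every `p`
(engine E1), `isClassModuleAt_of_isClassModule715`.
-/

set_option autoImplicit false

namespace Fermat.Agent.S55.L.H715

open CategoryTheory groupCohomology

section Generic

variable {G G' : Type} [Group G] [Group G'] (e : G ≃* G') {A : Rep.{0} ℤ G} {B : Rep.{0} ℤ G'}
  (φ : A.V ≃+ B.V)

/-- An additive equivalence between the underlying groups of two `ℤ`-representations, as a
`ℤ`-linear equivalence for the module structures carried by the representations. -/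
noncomputable def linOfAdd715 :
    @LinearEquiv ℤ ℤ _ _ (RingHom.id ℤ) (RingHom.id ℤ) _ _ A.V B.V _ _ A.hV2 B.hV2 :=
  @LinearEquiv.mk ℤ ℤ _ _ (RingHom.id ℤ) (RingHom.id ℤ) _ _ A.V B.V _ _ A.hV2 B.hV2
    (@LinearMap.mk ℤ ℤ _ _ (RingHom.id ℤ) A.V B.V _ _ A.hV2 B.hV2 φ.toAddMonoidHom
      (fun c x => by
        have h := @map_intCast_smul A.V B.V _ _ _ _ _ φ.toAddMonoidHom ℤ ℤ _ _ A.hV2 B.hV2 c x
        simpa using h))
    φ.symm φ.left_inv φ.right_inv

@[simp] theorem linOfAdd715_apply (x : A.V) : linOfAdd715 φ x = φ x := rfl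

/-- `Hⁿ(H, A) ≅ Hⁿ(e H, B)`. -/
noncomputable def subIso715 (hφ : ∀ (g : G) (x : A.V), φ (A.ρ g x) = B.ρ (e g) (φ x))
    (H : Subgroup G) (n : ℕ) :
    groupCohomology (T.resSub A H) n ≅
      groupCohomology (T.resSub B (H.map e.toMonoidHom)) n :=
  groupCohomology.mapIso (A := T.resSub B (H.map e.toMonoidHom)) (B := T.resSub A H)
    (e.subgroupMap H) (linOfAdd715 φ)
    (fun g => DFunLike.ext _ _ (fun x => hφ g.1 x)) n

/-- Hilbert 90 (vanishing of `H¹` of all subgroups) transports along an equivariant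
isomorphism. -/
theorem isZero_H1_of_equiv715 (hφ : ∀ (g : G) (x : A.V), φ (A.ρ g x) = B.ρ (e g) (φ x))
    (h : ∀ H' : Subgroup G', Limits.IsZero (groupCohomology (T.resSub B H') 1))
    (H : Subgroup G) : Limits.IsZero (groupCohomology (T.resSub A H) 1) :=
  (h (H.map e.toMonoidHom)).of_iso (subIso715 e φ hφ H 1)

theorem subsingleton_H1_of_equiv715
    (hφ : ∀ (g : G) (x : A.V), φ (A.ρ g x) = B.ρ (e g) (φ x))
    (h : ∀ H' : Subgroup G', Subsingleton (groupCohomology (T.resSub B H') 1))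
    (H : Subgroup G) : Subsingleton (groupCohomology (T.resSub A H) 1) :=
  haveI := h (H.map e.toMonoidHom)
  (subIso715 e φ hφ H 1).toLinearEquiv.toEquiv.subsingleton

theorem card_map_equiv715 (H : Subgroup G) :
    Nat.card (H.map e.toMonoidHom) = Nat.card H :=
  (Nat.card_congr (e.subgroupMap H).toEquiv).symm

theorem nonempty_H2_equiv_of_equiv715
    (hφ : ∀ (g : G) (x : A.V), φ (A.ρ g x) = B.ρ (e g) (φ x))
    (h : ∀ H' : Subgroup G',
      Nonempty (groupCohomology (T.resSub B H') 2 ≃+ ZMod (Nat.card H')))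
    (H : Subgroup G) :
    Nonempty (groupCohomology (T.resSub A H) 2 ≃+ ZMod (Nat.card H)) := by
  obtain ⟨f⟩ := h (H.map e.toMonoidHom)
  exact ⟨((subIso715 e φ hφ H 2).toLinearEquiv.toAddEquiv.trans f).trans
    (ZMod.ringEquivCongr (card_map_equiv715 e H)).toAddEquiv⟩

end Generic

section Cyclic

/-- An abelian group generated by `g` with annihilator `m ℤ` (`m > 0`) has `m` elements, and
every element is a natural multiple of `g`. -/
theorem cyclic_aux715 {M : Type} [AddCommGroup M] (g : M) (m : ℕ) (hm : 0 < m)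
    (h2 : ∀ x : M, ∃ c : ℤ, x = c • g)
    (h3 : ∀ c : ℤ, c • g = 0 → ∃ d : ℤ, c = (m : ℤ) * d)
    (h4 : (m : ℤ) • g = 0) :
    Nat.card M = m ∧ ∀ x : M, ∃ n : ℕ, x = n • g := by
  have h4' : m • g = 0 := by
    rw [← natCast_zsmul]
    exact h4
  have h2' : ∀ x : M, ∃ n : ℕ, x = n • g := by
    intro x
    obtain ⟨c, hc⟩ := h2 x
    refine ⟨(c % (m : ℤ)).toNat, ?_⟩
    have hnn : 0 ≤ c % (m : ℤ) := Int.emod_nonneg _ (by exact_mod_cast hm.ne')
    have e2 : ((c % (m : ℤ)).toNat : ℤ) = c % (m : ℤ) := Int.toNat_of_nonneg hnn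
    have e1 : c = (c / (m : ℤ)) * (m : ℤ) + c % (m : ℤ) := by
      rw [mul_comm]
      exact (Int.mul_ediv_add_emod c _).symm
    rw [hc, ← natCast_zsmul, e2]
    conv_lhs => rw [e1]
    rw [add_zsmul, mul_zsmul, h4, zsmul_zero, zero_add]
  refine ⟨?_, h2'⟩
  have htop : AddSubgroup.zmultiples g = ⊤ := by
    rw [eq_top_iff]
    intro x _
    obtain ⟨n, hn⟩ := h2' x
    rw [hn]
    exact AddSubgroup.nsmul_mem _ (AddSubgroup.mem_zmultiples g) n
  have hord : addOrderOf g = m := by
    rw [addOrderOf_eq_iff hm]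
    refine ⟨h4', fun j hj hj0 hjg => ?_⟩
    have hj' : (j : ℤ) • g = 0 := by
      rw [natCast_zsmul]
      exact hjg
    obtain ⟨d, hd⟩ := h3 (j : ℤ) hj'
    have hdvd : (m : ℤ) ∣ (j : ℤ) := ⟨d, hd⟩
    have hdvd' : m ∣ j := by exact_mod_cast hdvd
    exact absurd (Nat.le_of_dvd hj0 hdvd') (not_le.2 hj)
  rw [← hord, ← Nat.card_zmultiples, htop]
  exact (Nat.card_congr (AddSubgroup.topEquiv (G := M)).toEquiv).symm

end Cyclic

section ClassModuleAt

variable {G : Type} [Group G] [Finite G] (C : Rep.{0} ℤ G)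

/-- A class module is a class module at every `p`. -/
theorem isClassModuleAt_of_isClassModule715 (p : ℕ) {γ : groupCohomology C 2}
    (hγ : T.IsClassModule C γ) : E1.IsClassModuleAt p C γ := by
  intro H _
  obtain ⟨h1, h2, h3, h4⟩ := hγ H
  obtain ⟨hc, hg⟩ := cyclic_aux715 ((T.resMap C H 2).hom γ) (Nat.card H) Nat.card_pos
    (fun x => by
      obtain ⟨c, hc⟩ := h2 x
      exact ⟨c, hc.trans (int_smul_eq_zsmul _ c _)⟩)
    (fun c hc => h3 c ((int_smul_eq_zsmul _ c _).trans hc))
    ((int_smul_eq_zsmul _ _ _).symm.trans h4)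
  exact ⟨h1, hc, hg⟩

/-- The class-module criterion, delivering a class module at `p`. -/
theorem exists_isClassModuleAt715 (p : ℕ)
    (h1 : ∀ H : Subgroup G, Subsingleton (groupCohomology (T.resSub C H) 1))
    (h2 : ∀ H : Subgroup G, Nonempty (groupCohomology (T.resSub C H) 2 ≃+ ZMod (Nat.card H))) :
    ∃ γ : groupCohomology C 2, E1.IsClassModuleAt p C γ := by
  obtain ⟨γ, hγ⟩ := exists_isClassModule_h301 C h1 h2
  exact ⟨γ, isClassModuleAt_of_isClassModule715 C p hγ⟩

end ClassModuleAt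

end Fermat.Agent.S55.L.H715

end
-- ===== PACK-END S55/L/H715/Transport.lean

-- ===== PACK-BEGIN S55/Mackey/Acyclic.lean
section


/-!
# S55 (helper61): Mackey–Shapiro — acyclicity and exactness inputs

* `isZero_res_funRep_of_injective` : for an injective `β : S →* G₀`,
  `Hⁿ⁺¹(S, Res_β (G₀ → V)) = 0`;
* `coindFunRepIso` : `Coind_D^G (D → V) ≅ (G → V)`;
* `isZero_indRes_funRep` : for injective `α : H →* G`, `Hⁿ⁺¹(H, Res_α Coind_D^G (D → V)) = 0`;
* `indResSC_shortExact` : `Res_α Coind_D^G` of the dimension shifting sequence is short exact.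
-/

set_option autoImplicit false

open CategoryTheory CategoryTheory.Limits groupCohomology

namespace Fermat.Agent.S55.Mackey

open Fermat.Agent.S55.H783

universe u

variable {k : Type u} [CommRing k]

section Injective

variable {S G₀ : Type u} [Group S] [Group G₀]

/-- Cohomology of the restriction along an injective homomorphism is the cohomology of the
restriction to its range. -/
noncomputable def resRangeIso (β : S →* G₀) (hβ : Function.Injective β) (X : Rep k G₀) (n : ℕ) :
    groupCohomology (Rep.res β X) n ≅ groupCohomology (Rep.res β.range.subtype X) n :=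
  mapIso (A := Rep.res β.range.subtype X) (B := Rep.res β X) (MonoidHom.ofInjective hβ)
    (LinearEquiv.refl k X.V) (fun g => by
      ext v
      rfl) n

theorem isZero_res_funRep_of_injective (β : S →* G₀) (hβ : Function.Injective β)
    (V : Type u) [AddCommGroup V] [Module k V] (n : ℕ) :
    IsZero (groupCohomology (Rep.res β (funRep k G₀ V)) (n + 1)) :=
  (isZero_res_funRep β.range V n).of_iso (resRangeIso β hβ (funRep k G₀ V) (n + 1))

end Injective

variable {H G : Type u} [Group H] [Group G] (α : H →* G) (D : Subgroup G)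

section CoindFun

variable (V : Type u) [AddCommGroup V] [Module k V]

/-- `Coind_D^G (D → V) ≃ (G → V)`, `f ↦ (g ↦ f g 1)`. -/
noncomputable def coindFunEquiv :
    (Rep.coind D.subtype (funRep k D V)).V ≃ₗ[k] (G → V) where
  toFun f := fun g => f.1 g 1
  invFun F := ⟨fun g d => F ((d : G) * g), fun d₀ g => by
    funext d
    change F ((d : G) * ((d₀ : G) * g)) = F (((d * d₀ : D) : G) * g)
    rw [Subgroup.coe_mul, mul_assoc]⟩
  map_add' _ _ := rfl
  map_smul' _ _ := rfl
  left_inv f := by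
    apply Subtype.ext
    funext g d
    change f.1 ((d : G) * g) 1 = f.1 g d
    rw [coind_apply_mul]
    change f.1 g (1 * d) = f.1 g d
    rw [one_mul]
  right_inv F := by
    funext g
    change F (((1 : D) : G) * g) = F g
    rw [Subgroup.coe_one, one_mul]

/-- `Coind_D^G (D → V) ≅ (G → V)`. -/
noncomputable def coindFunRepIso :
    Rep.coind D.subtype (funRep k D V) ≅ funRep k G V :=
  Rep.mkIso (ρ := (Rep.coind D.subtype (funRep k D V)).ρ) (σ := funRho k G V)
    { toLinearEquiv := coindFunEquiv D V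
      isIntertwining' := fun g => by
        ext f
        rfl }

theorem isZero_indRes_funRep (hα : Function.Injective α) (n : ℕ) :
    IsZero (groupCohomology (indRes α (funRep k D V)) (n + 1)) :=
  (isZero_res_funRep_of_injective α hα V n).of_iso
    ((groupCohomology.functor k H (n + 1)).mapIso
      ((Rep.resFunctor α).mapIso (coindFunRepIso D V)))

end CoindFun

section Exact

variable {D}
variable (A : Rep k D)

/-- `Coind_D^G` of the dimension shifting sequence `0 → A → (D → A) → A' → 0`. -/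
noncomputable abbrev coindSC : ShortComplex (Rep k G) :=
  (shiftSC A).map (Rep.coindFunctor k D.subtype)

lemma coindSC_shortExact : (coindSC (G := G) A).ShortExact where
  exact := by
    rw [← ShortComplex.exact_map_iff_of_faithful _ (forget₂ (Rep k G) (ModuleCat k)),
      ShortComplex.moduleCat_exact_iff_ker_sub_range]
    intro f hf
    -- `f : G → (D → A)` is `D`-equivariant and projects to zero
    have hf' : ∀ g : G, (shiftProj A).hom (f.1 g) = 0 := fun g =>
      congrFun (congrArg Subtype.val hf) g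
    have hmem : ∀ g : G, f.1 g ∈ shiftRange A := fun g => (shiftProj_eq_zero_iff A _).1 (hf' g)
    choose a ha using hmem
    have ha' : ∀ g : G, (shiftIncl A).hom (a g) = f.1 g := ha
    refine ⟨⟨a, fun d g => ?_⟩, Subtype.ext (funext fun g => ha' g)⟩
    apply shiftIncl_injective A
    have h1 : f.1 ((d : G) * g) = (funRep k D A.V).ρ d (f.1 g) := f.2 d g
    have h2 := Rep.hom_comm_apply (shiftIncl A) d (a g)
    exact (ha' _).trans (h1.trans ((congrArg ((funRep k D A.V).ρ d) (ha' g).symm).trans h2.symm))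
  mono_f := by
    rw [Rep.mono_iff_injective]
    intro f₁ f₂ h
    apply Subtype.ext
    funext g
    apply shiftIncl_injective A
    exact congrFun (congrArg Subtype.val h) g
  epi_g := by
    have : Epi (shiftSC A).g := (shiftSC_shortExact A).epi_g
    exact (Rep.coindFunctor k D.subtype).map_epi (shiftSC A).g

/-- `Res_α Coind_D^G` of the dimension shifting sequence. -/
noncomputable abbrev indResSC : ShortComplex (Rep k H) :=
  (coindSC (G := G) A).map (Rep.resFunctor α)

lemma indResSC_shortExact : (indResSC α A).ShortExact :=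
  (Rep.shortExact_res α).2 (coindSC_shortExact A)

end Exact

end Fermat.Agent.S55.Mackey

end
-- ===== PACK-END S55/Mackey/Acyclic.lean

-- ===== PACK-BEGIN S55/KL/LocalDegreeH215.lean
section


/-!
# S55, layer KL, leaf KL-DEG: `LocalDegreeSpec`                         (producer: helper215)

Degrees of finite Galois extensions of `ℚ_q` are unbounded at every prime `p`: below every level
`V` of an open subgroup `U` of `Gal(ℚ̄_q/ℚ_q)` there is a level `V'` with `p · [U : V] ∣ [U : V']`.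

Proof.  A finite extension `E/ℚ_q` of degree `d` contains an element which is not a `p`-th power:
otherwise `q = b ^ (p ^ d)` with `b ∈ E`, and taking norms to `ℚ_q` and then the `q`-adic valuation
gives `p ^ d ∣ d`.  For such an `a ∈ E` the polynomial `X ^ p - a` is irreducible over `E`, so
adjoining a root `α` gives an extension of degree `p` of `E`; the Galois closure of `E(α)` over
`ℚ_q` is a finite Galois extension of degree divisible by `p · [E : ℚ_q]`.  The statement follows
by multiplicativity of indices.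
-/

set_option autoImplicit false

namespace Fermat.Agent.S55.KL.H215

open IntermediateField Polynomial

/-- In a finite extension `E` of `ℚ_q`, not every element is a `p`-th power. -/
theorem exists_not_pow_h215 (q : ℕ) [Fact q.Prime] (p : ℕ) (hp : p.Prime)
    (E : Type) [Field E] [Algebra ℚ_[q] E] [FiniteDimensional ℚ_[q] E] :
    ∃ a : E, ∀ b : E, b ^ p ≠ a := by
  by_contra hcon
  have hcon' : ∀ a : E, ∃ b : E, b ^ p = a := by
    intro a
    by_contra h
    exact hcon ⟨a, fun b hb => h ⟨b, hb⟩⟩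
  have hiter : ∀ k : ℕ, ∀ a : E, ∃ b : E, b ^ (p ^ k) = a := by
    intro k
    induction k with
    | zero => intro a; exact ⟨a, by simp⟩
    | succ k ih =>
      intro a
      obtain ⟨b, hb⟩ := ih a
      obtain ⟨c, hc⟩ := hcon' b
      exact ⟨c, by rw [pow_succ', pow_mul, hc, hb]⟩
  set d : ℕ := Module.finrank ℚ_[q] E with hd
  have hdpos : 0 < d := Module.finrank_pos
  obtain ⟨b, hb⟩ := hiter d (algebraMap ℚ_[q] E (q : ℚ_[q]))
  have hN : (Algebra.norm ℚ_[q] b) ^ (p ^ d) = (q : ℚ_[q]) ^ d := by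
    rw [← map_pow, hb, Algebra.norm_algebraMap]
  have hv := congrArg Padic.valuation hN
  rw [Padic.valuation_pow, Padic.valuation_pow, Padic.valuation_p, mul_one] at hv
  have hdvd : ((p ^ d : ℕ) : ℤ) ∣ (d : ℤ) := ⟨_, hv.symm⟩
  have hdvd' : p ^ d ∣ d := Int.natCast_dvd_natCast.mp hdvd
  have hle : p ^ d ≤ d := Nat.le_of_dvd hdpos hdvd'
  have h2 : d < 2 ^ d := Nat.lt_two_pow_self
  have h3 : 2 ^ d ≤ p ^ d := Nat.pow_le_pow_left hp.two_le d
  omega

/-- Kummer-type step: if `a ∈ E₁` is not a `p`-th power in `E₁` and `α ^ p = a`, then every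
intermediate field `E₂ ⊇ E₁` containing `α` has degree divisible by `p · [E₁ : K]` (in terms of
indices of fixing subgroups). -/
theorem mul_index_dvd_h215 {K Ω : Type} [Field K] [Field Ω] [Algebra K Ω] [IsGalois K Ω]
    (p : ℕ) (hp : p.Prime) (E₁ E₂ : IntermediateField K Ω)
    (h12 : E₁ ≤ E₂) (a : E₁) (ha : ∀ b : E₁, b ^ p ≠ a) (α : Ω) (hα : α ^ p = (a : Ω))
    (hα2 : α ∈ E₂) :
    p * E₁.fixingSubgroup.index ∣ E₂.fixingSubgroup.index := by
  have hirr : Irreducible (X ^ p - C a : (↥E₁)[X]) := X_pow_sub_C_irreducible_of_prime hp ha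
  have hmonic : (X ^ p - C a : (↥E₁)[X]).Monic := monic_X_pow_sub_C a hp.ne_zero
  have hroot : aeval α (X ^ p - C a : (↥E₁)[X]) = 0 := by
    simp [hα]
  have hmin : minpoly ↥E₁ α = X ^ p - C a :=
    (minpoly.eq_of_irreducible_of_monic hirr hroot hmonic).symm
  have hint : IsIntegral ↥E₁ α := ⟨_, hmonic, by simpa using hroot⟩
  have hdeg : Module.finrank ↥E₁ ↥(E₁⟮α⟯) = p := by
    rw [IntermediateField.adjoin.finrank hint, hmin, natDegree_X_pow_sub_C]
  set L : IntermediateField K Ω := (E₁⟮α⟯).restrictScalars K with hL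
  have hLfin : Module.finrank K ↥L = Module.finrank K ↥E₁ * p := by
    rw [← hdeg]
    exact (Module.finrank_mul_finrank K ↥E₁ ↥(E₁⟮α⟯)).symm
  have hLle : L ≤ E₂ := by
    rw [hL, restrictScalars_adjoin, adjoin_le_iff]
    rintro x (hx | hx)
    · exact h12 hx
    · rw [Set.mem_singleton_iff] at hx
      rw [hx]; exact hα2
  have hfix : E₂.fixingSubgroup ≤ L.fixingSubgroup :=
    IntermediateField.fixingSubgroup_antitone hLle
  have h1 : L.fixingSubgroup.index ∣ E₂.fixingSubgroup.index := Subgroup.index_dvd_of_le hfix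
  rw [← finrank_eq_fixingSubgroup_index Ω L, hLfin, finrank_eq_fixingSubgroup_index Ω E₁,
    mul_comm] at h1
  exact h1

/-- Above every finite Galois extension `E₁/ℚ_q` inside `ℚ̄_q` there is a finite Galois extension
`E₂/ℚ_q` with `p · [E₁ : ℚ_q] ∣ [E₂ : ℚ_q]`. -/
theorem exists_finiteGalois_mul_dvd_h215 (q : ℕ) [Fact q.Prime] (p : ℕ) (hp : p.Prime)
    (E₁ : FiniteGaloisIntermediateField ℚ_[q] (PadicAlgCl q)) :
    ∃ E₂ : FiniteGaloisIntermediateField ℚ_[q] (PadicAlgCl q), E₁ ≤ E₂ ∧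
      p * E₁.toIntermediateField.fixingSubgroup.index ∣
        E₂.toIntermediateField.fixingSubgroup.index := by
  obtain ⟨a, ha⟩ := exists_not_pow_h215 q p hp ↥E₁.toIntermediateField
  obtain ⟨α, hα⟩ := IsAlgClosed.exists_pow_nat_eq (a : PadicAlgCl q) hp.pos
  refine ⟨E₁ ⊔ FiniteGaloisIntermediateField.adjoin ℚ_[q] {α}, le_sup_left, ?_⟩
  refine mul_index_dvd_h215 p hp E₁.toIntermediateField _ ?_ a ha α hα ?_
  · exact (FiniteGaloisIntermediateField.le_iff _ _).mp le_sup_left
  · have h1 : FiniteGaloisIntermediateField.adjoin ℚ_[q] {α} ≤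
        E₁ ⊔ FiniteGaloisIntermediateField.adjoin ℚ_[q] {α} := le_sup_right
    exact (FiniteGaloisIntermediateField.le_iff _ _).mp h1
      (FiniteGaloisIntermediateField.subset_adjoin ℚ_[q] {α} (Set.mem_singleton α))

/-- **KL-DEG.** -/
theorem localDegree : LocalDegreeSpec := by
  intro q _ p hp U hU V
  obtain ⟨W₀, ⟨E₀, rfl⟩, hW₀⟩ := hU
  obtain ⟨W, ⟨E', rfl⟩, hVW⟩ := V.mem
  obtain ⟨E₂, h12, hdvd⟩ := exists_finiteGalois_mul_dvd_h215 q p hp (E' ⊔ E₀)
  have hfix1 : (E' ⊔ E₀).toIntermediateField.fixingSubgroup =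
      E'.toIntermediateField.fixingSubgroup ⊓ E₀.toIntermediateField.fixingSubgroup := by
    show (E'.toIntermediateField ⊔ E₀.toIntermediateField).fixingSubgroup = _
    rw [IntermediateField.fixingSubgroup_sup]
  set W₁ := (E' ⊔ E₀).toIntermediateField.fixingSubgroup with hW₁
  set W₂ := E₂.toIntermediateField.fixingSubgroup with hW₂
  have h1U : W₁ ≤ U := by rw [hfix1]; exact inf_le_right.trans hW₀
  have h1W : W₁ ≤ E'.toIntermediateField.fixingSubgroup := by rw [hfix1]; exact inf_le_left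
  have h21 : W₂ ≤ W₁ :=
    IntermediateField.fixingSubgroup_antitone ((FiniteGaloisIntermediateField.le_iff _ _).mp h12)
  refine ⟨⟨W₂.subgroupOf U, W₂, ⟨E₂, rfl⟩, rfl⟩, ?_, ?_⟩
  · show W₂.subgroupOf U ≤ V.W
    rw [hVW]
    intro x hx
    exact h1W (h21 hx)
  · show p * Nat.card (↥U ⧸ V.W) ∣ Nat.card (↥U ⧸ W₂.subgroupOf U)
    rw [hVW]
    show p * (E'.toIntermediateField.fixingSubgroup).relIndex U ∣ W₂.relIndex U
    have hfin : W₁.index ≠ 0 := by
      rw [hW₁, ← finrank_eq_fixingSubgroup_index]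
      exact Module.finrank_pos.ne'
    have hp21 : p ∣ W₂.relIndex W₁ := by
      have h := Subgroup.relIndex_mul_index h21
      rw [← h] at hdvd
      exact (Nat.mul_dvd_mul_iff_right (Nat.pos_of_ne_zero hfin)).mp hdvd
    have hmul : W₂.relIndex W₁ * W₁.relIndex U = W₂.relIndex U :=
      Subgroup.relIndex_mul_relIndex W₂ W₁ U h21 h1U
    have hWdvd : (E'.toIntermediateField.fixingSubgroup).relIndex U ∣ W₁.relIndex U :=
      Subgroup.relIndex_dvd_of_le_left U h1W
    rw [← hmul]
    exact Nat.mul_dvd_mul hp21 hWdvd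

end Fermat.Agent.S55.KL.H215

end
-- ===== PACK-END S55/KL/LocalDegreeH215.lean

-- ===== PACK-BEGIN S55/PT/ConeExactH113.lean
section


/-!
# S55 / PT layer, leaf D-F4 (helper113): exactness of the cone sequence

`∏_v H¹(G_v, A) →j H²_c(A) →u H²(A) →loc ∏_v H²(G_v, A)` is exact at `H²_c(A)` and at `H²(A)`.
-/

set_option autoImplicit false

noncomputable section

namespace Fermat.Agent.S55.PT.H113

open groupCohomology Fermat.Agent.S55.PT

variable {k : Type} [Field k] {G : Type} [Group G]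
variable {ι : Type} [Fintype ι] [DecidableEq ι] {Gv : ι → Type} [∀ v, Group (Gv v)]
variable {L : LevelSys G} {Lv : ∀ v, LevelSys (Gv v)} {r : ∀ v, Gv v →* G}
variable (hr : ∀ v, IsLevelCompatible (r v) L (Lv v))
variable (A : Rep.{0, 0, 0} k G)

/-- every family of local classes is a family of classes of cocycles. -/
lemma exists_locZ1 (y : (v : ι) → (Lv v).H1 (Rep.res (r v) A)) :
    ∃ b : (v : ι) → ↥((Lv v).Z1 (Rep.res (r v) A)), (fun v => (Lv v).H1π _ (b v)) = y := by
  choose b hb using fun v => (Lv v).H1π_surjective (Rep.res (r v) A) (y v)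
  exact ⟨b, funext hb⟩

/-- `u ∘ j = 0`. -/
theorem uH_jH (y : (v : ι) → (Lv v).H1 (Rep.res (r v) A)) :
    uH (L := L) (Lv := Lv) (r := r) A (jH (L := L) (Lv := Lv) (r := r) A y) = 0 := by
  obtain ⟨b, rfl⟩ := exists_locZ1 A y
  rw [jH_mk, uH_mk]
  have : uZ (L := L) (Lv := Lv) (r := r) A (jZ A b) = 0 := by
    apply Subtype.ext
    rfl
  rw [this, map_zero]

include hr in
/-- (D-F4) exactness at `H²_c`: `ker u = im j`. -/
theorem ker_uH :
    LinearMap.ker (uH (L := L) (Lv := Lv) (r := r) A) = LinearMap.range (jH (L := L) (Lv := Lv) (r := r) A) := by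
  ext x
  rw [LinearMap.mem_ker, LinearMap.mem_range]
  constructor
  · intro hx
    obtain ⟨z, rfl⟩ := Hc2π_surjective A x
    rw [uH_mk, LevelSys.H2π_eq_zero_iff] at hx
    obtain ⟨y, hy, hyz⟩ := hx
    have hylc : L.IsLC₁ y := hy
    have hyz' : (d₁₂ A).hom y = (z : (G × G → A) × ((v : ι) → Gv v → A)).1 := hyz
    have hb : ∀ v, ((z : (G × G → A) × ((v : ι) → Gv v → A)).2 v - y ∘ r v :
        Gv v → Rep.res (r v) A) ∈ (Lv v).Z1 (Rep.res (r v) A) := by
      intro v
      obtain ⟨hz1, hz2⟩ := z.2.2 v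
      refine ⟨?_, ((Lv v).C1 (Rep.res (r v) A)).sub_mem hz1 (IsLC₁.res (hr v) hylc)⟩
      show (d₁₂ (Rep.res (r v) A)).hom _ = 0
      rw [map_sub, hz2, res_d₁₂, hyz', sub_self]
    refine ⟨fun v => (Lv v).H1π _ ⟨_, hb v⟩, ?_⟩
    rw [jH_mk, ← sub_eq_zero, ← map_sub, Hc2π_eq_zero_iff]
    refine (mem_Bc2_iff A _).2 ⟨-y, fun _ => 0, (L.C1 A).neg_mem hy, ?_⟩
    apply Prod.ext
    · show (d₁₂ A).hom (-y) = (0 : G × G → A) - (z : (G × G → A) × ((v : ι) → Gv v → A)).1
      rw [map_neg, hyz', zero_sub]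
    · funext v g
      show (-y) (r v g) + ((d₀₁ (Rep.res (r v) A)).hom (0 : A) : Gv v → A) g =
        ((z : (G × G → A) × ((v : ι) → Gv v → A)).2 v g - y (r v g)) -
          (z : (G × G → A) × ((v : ι) → Gv v → A)).2 v g
      rw [map_zero]
      simp
      rfl
  · rintro ⟨y, rfl⟩
    exact uH_jH A y

/-- (D-F4) exactness at `H²`: `im u = ker loc2 = Ш²`. -/
theorem range_uH :
    LinearMap.range (uH (L := L) (Lv := Lv) (r := r) A) = LinearMap.ker (loc2 hr A) := by
  ext x
  rw [LinearMap.mem_range, LinearMap.mem_ker]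
  constructor
  · rintro ⟨y, rfl⟩
    obtain ⟨z, rfl⟩ := Hc2π_surjective A y
    rw [uH_mk]
    funext v
    rw [loc2_apply, resH2_mk, Pi.zero_apply, LevelSys.H2π_eq_zero_iff]
    obtain ⟨hz1, hz2⟩ := z.2.2 v
    exact ⟨_, hz1, hz2⟩
  · intro hx
    obtain ⟨a, rfl⟩ := L.H2π_surjective A x
    have hx' : ∀ v, ((a : G × G → A) ∘ Prod.map (r v) (r v) :
        Gv v × Gv v → Rep.res (r v) A) ∈ (Lv v).B2 (Rep.res (r v) A) := by
      intro v
      have := congrFun hx v
      rw [loc2_apply, resH2_mk, Pi.zero_apply, LevelSys.H2π_eq_zero_iff] at this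
      exact this
    choose b hb hbd using hx'
    have hz : ((a : G × G → A), fun v => (b v : Gv v → A)) ∈ Zc2 L Lv r A :=
      ⟨a.2, fun v => ⟨hb v, hbd v⟩⟩
    refine ⟨Hc2π L Lv r A ⟨_, hz⟩, ?_⟩
    rw [uH_mk]
    congr 1

/-- `Ш²(A)` is the image of `u`. -/
theorem mem_Sha2_iff_exists (x : L.H2 A) :
    x ∈ Sha2 hr A ↔ ∃ y : Hc2 L Lv r A, uH A y = x := by
  rw [← LinearMap.mem_range, range_uH hr A]

end Fermat.Agent.S55.PT.H113

end

end
-- ===== PACK-END S55/PT/ConeExactH113.lean

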