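import Fermat.Prelude.Def_GroupCohomology_ContinuousUnramified
import Mathlib
import Fermat.Prelude.Def_GaloisRep_CompletionBridge
import Fermat.Agent.Pack.S56.E9L0
import Fermat.Agent.Pack.S56.E9L1
import Fermat.Agent.Pack.S56.E7L3
import Fermat.Agent.Pack.S56.E5L1
import Fermat.Agent.Pack.S56.E0L1
import Fermat.Agent.Pack.S56.E3L3
import Fermat.Agent.Pack.S56.E9L2
import Fermat.Agent.Pack.S56.E1L0
import Fermat.Agent.Pack.S56.E10L3
import Fermat.Agent.Pack.S56.E10L2
import Fermat.Agent.Pack.S56.E8L2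
import Fermat.Agent.Pack.S56.E1L1
import Fermat.Agent.Pack.S56.E5L3
import Fermat.Agent.Pack.S56.E8L1
import Fermat.Agent.Pack.S56.E0L0
import Fermat.Agent.Pack.S56.E4L3
import Fermat.Agent.Pack.S56.E8L0
import Fermat.Agent.Pack.S56.E9L3
import Fermat.Agent.Pack.S56.E1L2

-- ===== PACK-BEGIN Lib/Cheb/FrobeniusDivision.lean
section



/-!
# CHEB, Tier 1 END: the Frobenius division theorem over `ℚ̄`

`Fermat.Agent.Lib.Cheb.frobeniusDivision : Spec.FrobeniusDivisionStatement`

For every finite extension `E ⊆ ℚ̄` of `ℚ`, every `σ ∈ Gal(ℚ̄/ℚ)` and every finite set `S` of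
numbers there are a prime `ℓ ∉ S`, a valuation subring `A` of `ℚ̄` over `ℓ`, a Frobenius `τ` at `A`
(Prelude's `IsFrobeniusAt`) and exponents `k`, `j` such that the inertia group of `A` acts
trivially on `E`, `τ = σ ^ k` on `E` and `τ ^ j = σ` on `E`
(i.e. `τ|_E` and `σ|_E` generate the same cyclic subgroup: "Frobenius density, qualitative").

Assembled from
* `frobFinite` (finite level, Galois number fields; pieces Z, B0, A, D, M), and
* `H476.bridgeDivision` (bridge F6 from the finite level to valuation subrings of `ℚ̄`).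
-/

set_option autoImplicit false

namespace Fermat.Agent.Lib.Cheb

/-- **Frobenius division theorem** (qualitative Frobenius density theorem over `ℚ̄`). -/
theorem frobeniusDivision : Spec.FrobeniusDivisionStatement :=
  H476.bridgeDivision frobFinite

end Fermat.Agent.Lib.Cheb

end
-- ===== PACK-END Lib/Cheb/FrobeniusDivision.lean

-- ===== PACK-BEGIN S56/FL/LMGlue.lean
section


/-!
# Row S56 — wall W-FLAT-SS — glue
`IntStatement → StructStatement → RootStatement → LocalModelStatement`  (helper434).  Sorry-free.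
-/

set_option autoImplicit false

open Polynomial IsLocalRing

noncomputable section

namespace Fermat.Agent.S56.FL

open Fermat.Agent.S56 Fermat.Agent.S56.H716

/-- A unit of `B` maps to an element of valuation `1` when `ι` lands in `P`. -/
theorem valuation_eq_one_of_isUnit {B : Type} [CommRing B] (P : ValuationSubring Qb)
    (ι : B →+* Qb) (hι : ∀ b, ι b ∈ P) {u : B} (hu : IsUnit u) : P.valuation (ι u) = 1 := by
  obtain ⟨w, hw⟩ := hu.exists_right_inv
  have h1 : P.valuation (ι u) ≤ 1 := (P.valuation_le_one_iff _).mpr (hι u)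
  have h2 : P.valuation (ι w) ≤ 1 := (P.valuation_le_one_iff _).mpr (hι w)
  have h3 : P.valuation (ι u) * P.valuation (ι w) = 1 := by
    rw [← map_mul, ← map_mul, hw, map_one, map_one]
  refine le_antisymm h1 ?_
  calc (1 : P.ValueGroup) = P.valuation (ι u) * P.valuation (ι w) := h3.symm
    _ ≤ P.valuation (ι u) * 1 := mul_le_mul' le_rfl h2
    _ = P.valuation (ι u) := mul_one _

/-- Glue: the concrete model, the structure theory and the root statement give the local model
with its different bound. -/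
theorem localModel_of (hInt : IntStatement) (hStruct : StructStatement) (hRoot : RootStatement) :
    LocalModelStatement := by
  intro k _ _ p _ hp2 hchar ρbar hdet P hP c₁ c₂ h₁ h₂ ρ₁ ρ₂ hl₁ hl₂ hf₁ hf₂
  obtain ⟨A, B, iA1, iA2, iA3, iB1, iB2, iB3, iB4, iAB1, iAB2, iAB3, Γ, iΓ1, iΓ2, iΓ3, iΓ4, iΓ5,
    iΓ6, π, ζ, e, ι, hπ, hker, hA, hκ, hζ, hcyc, he, hιinj, hιrange, hequiv⟩ :=
    hInt k p hp2 hchar ρbar hdet P hP c₁ c₂ h₁ h₂ ρ₁ ρ₂ hl₁ hl₂ hf₁ hf₂
  refine ⟨A, B, iA1, iA2, iA3, iB1, iB2, iB3, iB4, iAB1, iAB2, iAB3, Γ, iΓ1, iΓ2, iΓ3, iΓ4, iΓ5,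
    iΓ6, π, ζ, e, hπ, hker, hA, hκ, hζ, hcyc, he, ?_⟩
  obtain ⟨B', ϖ, G, hAB', hB'val, hϖ, hrep, hGm, hGdeg, hGcoef, hGp, hG0, hGroot, hbound⟩ :=
    hStruct p A B Γ hA hκ e he
  intro j hpj hje hej
  have hj0 : 0 < j := by
    rcases Nat.eq_zero_or_pos j with h | h
    · subst h; simp at hej
    · exact h
  refine hbound j hpj hj0 hje ?_
  -- range of `ι`
  have hιmem : ∀ b : B, ι b ∈ levelSet ρbar c₁ c₂ P := fun b => hιrange ▸ Set.mem_range_self b
  have hιP : ∀ b : B, ι b ∈ P := fun b => (hιmem b).1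
  have hιp : ι (p : B) = (p : Qb) := map_natCast ι p
  -- the root in `ℚ̄`
  obtain ⟨ϖ', hϖ'mem, hϖ'root⟩ := hRoot k p hp2 hchar ρbar P hP c₁ c₂ h₁ h₂ ρ₁ ρ₂ hl₁ hl₂ hf₁ hf₂
    (B'.map ι) (ι ϖ) e (G.map ι)
    (by
      intro x hxP hxfix
      have hx : x ∈ levelSet ρbar c₁ c₂ P := ⟨hxP, fun σ hσ _ _ _ => hxfix σ hσ⟩
      rw [← hιrange] at hx
      obtain ⟨b, rfl⟩ := hx
      have hbfix : ∀ γ : Γ, γ • b = b := by
        intro γ
        obtain ⟨σ, rfl⟩ := hπ γ
        apply hιinj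
        rw [hequiv]
        exact hxfix σ σ.2
      obtain ⟨a, rfl⟩ := Algebra.IsInvariant.isInvariant (A := A) (G := Γ) b hbfix
      exact Subring.mem_map.mpr ⟨_, hAB' a, rfl⟩)
    (by
      intro b hb
      obtain ⟨b₀, -, rfl⟩ := Subring.mem_map.mp hb
      exact hιmem b₀)
    (by
      intro b hb hb0
      obtain ⟨b₀, hb₀, rfl⟩ := Subring.mem_map.mp hb
      have hb₀0 : b₀ ≠ 0 := by
        rintro rfl
        exact hb0 (map_zero ι)
      obtain ⟨n, u, -, hu, rfl⟩ := hB'val b₀ hb₀ hb₀0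
      refine ⟨n, ?_⟩
      rw [map_mul, map_pow, hιp, map_mul, map_pow, valuation_eq_one_of_isUnit P ι hιP hu,
        mul_one])
    (hιmem ϖ)
    (by
      have h1 : Ideal.span {(p : B)} = Ideal.span {ϖ ^ e} := by
        rw [he, hϖ, Ideal.span_singleton_pow]
      obtain ⟨u, hu⟩ := (Ideal.span_singleton_eq_span_singleton.mp h1)
      have : P.valuation (ι ((p : B) * (u : B))) = P.valuation (ι (ϖ ^ e)) := by rw [hu]
      rw [map_mul, map_mul, hιp, valuation_eq_one_of_isUnit P ι hιP u.isUnit, mul_one,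
        map_pow, map_pow] at this
      exact this.symm)
    (by
      intro b hb
      rw [← hιrange] at hb
      obtain ⟨b₀, rfl⟩ := hb
      obtain ⟨a, ha, hsum⟩ := hrep b₀
      refine ⟨fun i => ι (a i), fun i => Subring.mem_map.mpr ⟨_, ha i, rfl⟩, ?_⟩
      rw [hsum, map_sum]
      refine Finset.sum_congr rfl fun i _ => ?_
      rw [map_mul, map_pow])
    (hGm.map ι)
    (by rw [hGm.natDegree_map, hGdeg])
    (by
      intro i
      rw [coeff_map]
      exact Subring.mem_map.mpr ⟨_, hGcoef i, rfl⟩)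
    (by
      intro i hi
      obtain ⟨b, hb⟩ := Ideal.mem_span_singleton'.mp (hGp i hi)
      rw [coeff_map, ← hb, map_mul, map_mul, hιp]
      calc P.valuation (ι b) * P.valuation (p : Qb) ≤ 1 * P.valuation (p : Qb) :=
            mul_le_mul' ((P.valuation_le_one_iff _).mpr (hιP b)) le_rfl
        _ = P.valuation (p : Qb) := one_mul _)
    (by
      obtain ⟨u, hu, hG0u⟩ := hG0
      rw [coeff_map, hG0u, map_mul, map_mul, hιp, valuation_eq_one_of_isUnit P ι hιP hu,
        mul_one])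
    (by rw [eval_map, eval₂_at_apply, hGroot, map_zero])
    j hpj hj0 hje hej
  rw [← hιrange] at hϖ'mem
  obtain ⟨b', rfl⟩ := hϖ'mem
  refine ⟨b', hιinj ?_⟩
  rw [map_add, map_mul, map_pow, hιp, map_zero, ← hϖ'root, eval_map, eval₂_at_apply]

end Fermat.Agent.S56.FL

end

end
-- ===== PACK-END S56/FL/LMGlue.lean

-- ===== PACK-BEGIN S56/H254/RootR2.lean
section






/-!
# S56 / W-FLAT-SS / LocalModel / ROOT, step R2 (helper254)

`FL.RationalityStatement` (Theorem A) applied to the pair of flat lifts: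

* `levelSubring ρbar c₁ c₂ P` — `FL.levelSet` as a subring of `ℚ̄`;
* `point_mem_levelSet` — values of points of the flat model of `V_{c₁} × V_{c₂}` lie in `levelSet`;
* `level_of_fixes` — **R2**: if `η` is an approximate ring homomorphism on `levelSet`
  (hypotheses of Theorem A, `γ ^ (p-1) < |p|`), then every `σ ∈ D_P` fixing the values of `η`
  satisfies `ρ̄ σ = 1`, `c₁ σ = 0`, `c₂ σ = 0`.

Sorry-free.
-/

set_option autoImplicit false

open scoped TensorProduct
open WithConv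

noncomputable section

namespace Fermat.Agent.S56.H254

open Fermat.Agent.S56 Fermat.Agent.S56.H716 Fermat.Agent.S56.FL

local notation "Zloc" => GaloisRep.ratLocalizedAt

section level

variable {k : Type} [Field k] (ρbar : ResidualGaloisRep k)
  (c₁ c₂ : GQ → Module.End k ρbar.V) (P : ValuationSubring Qb)

/-- `FL.levelSet` as a subring of `ℚ̄`. -/
def levelSubring : Subring Qb where
  carrier := levelSet ρbar c₁ c₂ P
  mul_mem' := by
    rintro a b ⟨ha, ha'⟩ ⟨hb, hb'⟩
    refine ⟨P.mul_mem _ _ ha hb, fun σ hσ h1 h2 h3 => ?_⟩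
    rw [map_mul, ha' σ hσ h1 h2 h3, hb' σ hσ h1 h2 h3]
  one_mem' := ⟨P.one_mem, fun σ _ _ _ _ => map_one σ⟩
  add_mem' := by
    rintro a b ⟨ha, ha'⟩ ⟨hb, hb'⟩
    refine ⟨P.add_mem _ _ ha hb, fun σ hσ h1 h2 h3 => ?_⟩
    rw [map_add, ha' σ hσ h1 h2 h3, hb' σ hσ h1 h2 h3]
  zero_mem' := ⟨P.zero_mem, fun σ _ _ _ _ => map_zero σ⟩
  neg_mem' := by
    rintro a ⟨ha, ha'⟩
    refine ⟨P.neg_mem _ ha, fun σ hσ h1 h2 h3 => ?_⟩
    rw [map_neg, ha' σ hσ h1 h2 h3]

@[simp] theorem mem_levelSubring {x : Qb} :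
    x ∈ levelSubring ρbar c₁ c₂ P ↔ x ∈ levelSet ρbar c₁ c₂ P := Iff.rfl

end level

/-- The rank-one condition of `FL.RationalityStatement` for a valuation subring of `ℚ̄` over a
prime. -/
theorem rankOne_of_liesOverPrime (P : ValuationSubring Qb) {p : ℕ} (hp : p.Prime)
    (hP : P.LiesOverPrime p) :
    ∀ x y : P.ValueGroup, x < 1 → y ≠ 0 → ∃ n : ℕ, x ^ n ≤ y := by
  haveI : Algebra.IsAlgebraic ℚ Qb := AlgebraicClosure.isAlgebraic ℚ
  intro x y hx hy
  obtain ⟨a, rfl⟩ := P.valuation_surjective x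
  obtain ⟨d, rfl⟩ := P.valuation_surjective y
  have ha : a ∈ P.nonunits := (ValuationSubring.mem_nonunits_iff (A := P)).mpr hx
  have hd : d ≠ 0 := (Valuation.ne_zero_iff _).mp hy
  obtain ⟨m, hm⟩ := Fermat.Agent.S37.H700.archVal_of_liesOverPrime P hp hP a ha d hd
  exact ⟨m, hm.le⟩

section points

variable {k : Type} [Field k] {ρbar : ResidualGaloisRep k}
  {c₁ c₂ : GQ → Module.End k ρbar.V} {P : ValuationSubring Qb} {p : ℕ}

/-- In an additive group, an additive bijection from a convolution monoid sends `1` to `0`. -/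
theorem map_one_of_add {M X : Type} [Monoid M] [AddCommGroup X] (e : M ≃ X)
    (hadd : ∀ f g : M, e (f * g) = e f + e g) : e 1 = 0 := by
  have h := hadd 1 1
  rw [mul_one] at h
  exact left_eq_add.mp h

/-- An additive bijection sends powers to multiples. -/
theorem map_pow_of_add {M X : Type} [Monoid M] [AddCommGroup X] (e : M ≃ X)
    (hadd : ∀ f g : M, e (f * g) = e f + e g) (f : M) (n : ℕ) : e (f ^ n) = n • e f := by
  induction n with
  | zero => rw [pow_zero, zero_smul, map_one_of_add e hadd]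
  | succ n ih => rw [pow_succ, hadd, ih, succ_nsmul]

/-- **R2.**  Theorem A for the pair of flat lifts: an element of the decomposition group which
fixes the values of an approximate ring homomorphism `η` on `levelSet` acts trivially on
`V_{c₁} × V_{c₂}`. -/
theorem level_of_fixes (hRat : RationalityStatement) [Finite k] [Fact p.Prime] (hchar : CharP k p)
    (hP : P.LiesOverPrime p)
    {ρ₁ ρ₂ : GaloisRepAdic (DualNumber k)} (h₁ : IsLiftOf ρbar c₁ ρ₁) (h₂ : IsLiftOf ρbar c₂ ρ₂)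
    (hf₁ : ρ₁.IsFlatAt p) (hf₂ : ρ₂.IsFlatAt p)
    (γ : P.ValueGroup) (hγ0 : γ ≠ 0) (hγ : γ ^ (p - 1) < P.valuation (p : Qb))
    (η : Qb → Qb)
    (hη1 : ∀ a ∈ levelSet ρbar c₁ c₂ P, P.valuation (η a) ≤ 1)
    (hηadd : ∀ a ∈ levelSet ρbar c₁ c₂ P, ∀ b ∈ levelSet ρbar c₁ c₂ P,
      P.valuation (η (a + b) - (η a + η b)) ≤ P.valuation (p : Qb) * γ)
    (hηmul : ∀ a ∈ levelSet ρbar c₁ c₂ P, ∀ b ∈ levelSet ρbar c₁ c₂ P,
      P.valuation (η (a * b) - η a * η b) ≤ P.valuation (p : Qb) * γ)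
    (hηR : ∀ r : Zloc p, P.valuation (η (algebraMap (Zloc p) Qb r) - algebraMap (Zloc p) Qb r)
      ≤ P.valuation (p : Qb) * γ)
    (hηiso : ∀ a ∈ levelSet ρbar c₁ c₂ P, P.valuation (η a) ≤ γ → P.valuation a ≤ γ)
    {σ : GQ} (hσ : σ ∈ P.decompositionSubgroup ℚ)
    (hfix : ∀ a ∈ levelSet ρbar c₁ c₂ P, σ (η a) = η a) :
    ρbar.ρ σ = 1 ∧ c₁ σ = 0 ∧ c₂ σ = 0 := by
  haveI : Algebra.IsAlgebraic ℚ Qb := AlgebraicClosure.isAlgebraic ℚ
  have hp : p.Prime := Fact.out
  obtain ⟨H, i1, i2, hfin, hflat, hco, e, hadd, heq⟩ := isFlatMod_pair h₁ hf₁ h₂ hf₂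
  -- the action is trivial on `N`
  have hN : ∀ τ ∈ P.decompositionSubgroup ℚ, ρbar.ρ τ = 1 → c₁ τ = 0 → c₂ τ = 0 →
      ∀ (f : H →ₐ[Zloc p] Qb) (h : H), τ (f h) = f h := by
    intro τ _ h1 h2 h3 f h
    have hact := (pair_fixed_iff c₁ c₂ τ).mpr ⟨h1, h2, h3⟩
    have hg : e (toConv (galPoint τ f)) = e (toConv f) :=
      (heq τ (toConv f) (toConv (galPoint τ f)) (fun h => rfl)).trans (hact _)
    have := e.injective hg
    have h4 : galPoint τ f = f := WithConv.toConv_injective this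
    have := congrArg (fun g : H →ₐ[Zloc p] Qb => g h) h4
    exact this
  -- instances for Theorem A
  haveI : Module.Finite (Zloc p) H := hfin
  haveI : Module.Flat (Zloc p) H := hflat
  haveI : Coalgebra.IsCocomm (Zloc p) H := hco
  haveI : Module.Free (Zloc p) H := Module.free_of_flat_of_isLocalRing
  haveI : Finite (DualNumber k) := finite_dualNumber
  haveI : Finite (DualNumber k ⊗[k] ρbar.V) := by
    haveI : Module.Finite k (DualNumber k) := Module.Finite.of_finite
    haveI : Module.Finite k (DualNumber k ⊗[k] ρbar.V) := inferInstance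
    exact Module.finite_of_finite k
  haveI : Finite (WithConv (H →ₐ[Zloc p] Qb)) := Finite.of_equiv _ e.symm
  haveI : Finite (H →ₐ[Zloc p] Qb) := Finite.of_equiv _ (WithConv.equiv _)
  -- points are killed by `p`
  have hpk : (p : k) = 0 := CharP.cast_eq_zero k p
  have hpow : ∀ x : WithConv (H →ₐ[Zloc p] Qb), x ^ p = 1 := by
    intro x
    apply e.injective
    rw [map_pow_of_add e hadd, map_one_of_add e hadd]
    have : (p : ℕ) • e x = (p : k) • e x := (Nat.cast_smul_eq_nsmul k p (e x)).symm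
    rw [this, hpk, zero_smul]
  -- apply Theorem A
  have key := hRat Qb P.ValueGroup P.valuation (rankOne_of_liesOverPrime P hp hP) (Zloc p)
    (fun r => (P.valuation_le_one_iff _).mpr (algebraMap_mem_valuationSubring P hP r))
    H p hp hpow γ hγ0 hγ (levelSubring ρbar c₁ c₂ P)
    (fun a ha => (P.valuation_le_one_iff _).mpr ha.1)
    (fun x h => ⟨point_mem_valuationSubring P hP x h, fun τ hτ h1 h2 h3 => hN τ hτ h1 h2 h3 x h⟩)
    η hη1 hηadd hηmul hηR hηiso
    (σ : Qb →+* Qb)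
    (fun a => Fermat.Agent.A2.H708.valuation_apply_of_mem_decomposition P hσ a)
    (fun r => σ.commutes _)
    hfix
  -- conclude
  refine (pair_fixed_iff c₁ c₂ σ).mp fun x => ?_
  obtain ⟨f, rfl⟩ := e.surjective x
  have hg : e (toConv (galPoint σ f.ofConv)) = (liftEnd ρbar c₁ σ (e f).1, liftEnd ρbar c₂ σ (e f).2) :=
    heq σ f (toConv (galPoint σ f.ofConv)) (fun h => rfl)
  rw [← hg]
  congr 1
  apply WithConv.ofConv_injective
  refine AlgHom.ext fun h => ?_
  exact key f.ofConv h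

end points

end Fermat.Agent.S56.H254

end

end
-- ===== PACK-END S56/H254/RootR2.lean

-- ===== PACK-BEGIN S55/Bridge/H594/Unram.lean
section



/-!
# S55 bridge (helper594), piece B10: Prelude "unramified" versus classical "unramified"

`F ⊂ ℚ̄` a finite Galois extension of `ℚ`, `q` a prime number.  The Prelude condition

  `∀ A : ValuationSubring ℚ̄, A.LiesOverPrime q → A.inertiaSubgroupIn ℚ ≤ F.fixingSubgroup`

is equivalent to: all inertia groups in `Gal(F/ℚ)` of primes of `𝓞 F` containing `q` are trivial,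
and to: the ramification index of `q` in `𝓞 F` is `1`.
-/

set_option autoImplicit false
set_option linter.style.haveILetI false
set_option linter.unusedSectionVars false

namespace Fermat.Agent.S55.Bridge.H594

open Fermat.Agent.S54 Fermat.Agent.S55.Bridge NumberField
open scoped Pointwise

attribute [local instance] isAlgebraic_Qbar isGalois_Qbar

section unram

variable (F : IntermediateField ℚ (AlgebraicClosure ℚ)) [FiniteDimensional ℚ F]

/-- A finite intermediate field of `ℚ̄/ℚ` is a number field. -/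
theorem numberField_of_finite : NumberField F :=
  { to_charZero := inferInstance, to_finiteDimensional := inferInstance }

attribute [local instance] numberField_of_finite

variable (A : ValuationSubring (AlgebraicClosure ℚ))

theorem algebraMap_ringOfIntegers_mem (x : 𝓞 F) :
    algebraMap (𝓞 F) (AlgebraicClosure ℚ) x ∈ A := by
  apply isIntegral_mem_valuationSubring A
  exact (RingOfIntegers.isIntegral x).map
    (IsScalarTower.toAlgHom ℤ (𝓞 F) (AlgebraicClosure ℚ))

/-- The prime of `𝓞 F` below the valuation subring `A` of `ℚ̄`. -/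
def primeBelowF : Ideal (𝓞 F) where
  carrier := {x | algebraMap (𝓞 F) (AlgebraicClosure ℚ) x ∈ A.nonunits}
  add_mem' := fun {a b} ha hb => by
    simp only [Set.mem_ofPred_eq, map_add] at ha hb ⊢
    exact A.nonunits.add_mem ha hb
  zero_mem' := by
    simp only [Set.mem_ofPred_eq, map_zero]
    exact A.nonunits.zero_mem
  smul_mem' := fun c b hb => by
    simp only [Set.mem_ofPred_eq, smul_eq_mul, map_mul] at hb ⊢
    rw [ValuationSubring.mem_nonunits_iff] at hb ⊢
    rw [map_mul]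
    have hc : A.valuation (algebraMap (𝓞 F) (AlgebraicClosure ℚ) c) ≤ 1 :=
      (A.valuation_le_one_iff _).mpr (algebraMap_ringOfIntegers_mem F A c)
    exact mul_lt_one_of_nonneg_of_lt_one_right hc zero_le hb

theorem mem_primeBelowF (x : 𝓞 F) :
    x ∈ primeBelowF F A ↔ algebraMap (𝓞 F) (AlgebraicClosure ℚ) x ∈ A.nonunits := Iff.rfl

theorem primeBelowF_isPrime : (primeBelowF F A).IsPrime := by
  constructor
  · intro h
    have : (1 : 𝓞 F) ∈ primeBelowF F A := by rw [h]; trivial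
    rw [mem_primeBelowF, ValuationSubring.mem_nonunits_iff, map_one, map_one] at this
    exact lt_irrefl _ this
  · intro a b hab
    rw [mem_primeBelowF, ValuationSubring.mem_nonunits_iff] at hab ⊢
    rw [mem_primeBelowF, ValuationSubring.mem_nonunits_iff]
    have ha : A.valuation (algebraMap (𝓞 F) (AlgebraicClosure ℚ) a) ≤ 1 :=
      (A.valuation_le_one_iff _).mpr (algebraMap_ringOfIntegers_mem F A a)
    have hb : A.valuation (algebraMap (𝓞 F) (AlgebraicClosure ℚ) b) ≤ 1 :=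
      (A.valuation_le_one_iff _).mpr (algebraMap_ringOfIntegers_mem F A b)
    by_contra hcon
    rw [not_or, not_lt, not_lt] at hcon
    have ha1 := le_antisymm ha hcon.1
    have hb1 := le_antisymm hb hcon.2
    rw [map_mul, map_mul, ha1, hb1, mul_one] at hab
    exact lt_irrefl _ hab

theorem natCast_mem_primeBelowF {q : ℕ} (hA : A.LiesOverPrime q) :
    (q : 𝓞 F) ∈ primeBelowF F A := by
  rw [mem_primeBelowF, map_natCast]
  exact hA

variable [IsGalois ℚ F]

theorem algebraMap_smul_ringOfIntegers (τ : F ≃ₐ[ℚ] F) (x : 𝓞 F) :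
    algebraMap (𝓞 F) (AlgebraicClosure ℚ) (τ • x) =
      ((τ (algebraMap (𝓞 F) F x) : F) : AlgebraicClosure ℚ) := rfl

theorem algebraMap_restrict_smul (σ : AlgebraicClosure ℚ ≃ₐ[ℚ] AlgebraicClosure ℚ) (x : 𝓞 F) :
    algebraMap (𝓞 F) (AlgebraicClosure ℚ) (AlgEquiv.restrictNormalHom F σ • x) =
      σ (algebraMap (𝓞 F) (AlgebraicClosure ℚ) x) := by
  rw [algebraMap_smul_ringOfIntegers, restrictNormalHom_apply]
  rfl

/-- The restriction to `F` of an element of the inertia group of `A` lies in the inertia group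
of the prime of `𝓞 F` below `A`. -/
theorem restrict_mem_inertia_primeBelowF (σ : AlgebraicClosure ℚ ≃ₐ[ℚ] AlgebraicClosure ℚ)
    (hσ : σ ∈ A.inertiaSubgroupIn ℚ) :
    AlgEquiv.restrictNormalHom F σ ∈ (primeBelowF F A).inertia (F ≃ₐ[ℚ] F) := by
  intro x
  show _ - x ∈ primeBelowF F A
  rw [mem_primeBelowF, map_sub, algebraMap_restrict_smul]
  exact ((mem_inertiaSubgroupIn_iff A σ).mp hσ).2 _ (algebraMap_ringOfIntegers_mem F A x)

/-- **B14 (inertia), ideal form**: the image in `Gal(F/ℚ)` of the inertia group of `A` is the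
inertia group of the prime of `𝓞 F` below `A`. -/
theorem map_inertiaSubgroupIn_eq {q : ℕ} (hq : q.Prime) (hA : A.LiesOverPrime q) :
    (A.inertiaSubgroupIn ℚ).map (AlgEquiv.restrictNormalHom F) =
      (primeBelowF F A).inertia (F ≃ₐ[ℚ] F) := by
  apply le_antisymm
  · rintro _ ⟨σ, hσ, rfl⟩
    exact restrict_mem_inertia_primeBelowF F A σ hσ
  · intro τ hτ
    obtain ⟨σ, hσ, hστ⟩ := exists_inertia_lift F A hq hA τ (fun x hx => by
      obtain ⟨y, rfl⟩ : ∃ y : 𝓞 F, algebraMap (𝓞 F) F y = x := ⟨⟨x, hx⟩, rfl⟩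
      have h2 : τ • y - y ∈ primeBelowF F A := hτ y
      rw [mem_primeBelowF, map_sub, algebraMap_smul_ringOfIntegers] at h2
      exact h2)
    exact ⟨σ, hσ, hστ⟩

/-- **B10.**  The Prelude unramifiedness condition at `q` for the finite Galois field `F` is
equivalent to the triviality of all inertia groups in `Gal(F/ℚ)` of primes of `𝓞 F` over `q`. -/
theorem inertia_le_fixingSubgroup_iff_inertia_eq_bot {q : ℕ} (hq : q.Prime) :
    (∀ A : ValuationSubring (AlgebraicClosure ℚ), A.LiesOverPrime q →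
        A.inertiaSubgroupIn ℚ ≤ F.fixingSubgroup) ↔
      ∀ P : Ideal (𝓞 F), P.IsPrime → (q : 𝓞 F) ∈ P → P.inertia (F ≃ₐ[ℚ] F) = ⊥ := by
  constructor
  · intro h P hP hqP
    rw [eq_bot_iff]
    intro τ hτ
    -- a valuation subring of `ℚ̄` above `P`
    let A₀ : Subring (AlgebraicClosure ℚ) := (algebraMap (𝓞 F) (AlgebraicClosure ℚ)).range
    let g : 𝓞 F →+* A₀ := (algebraMap (𝓞 F) (AlgebraicClosure ℚ)).rangeRestrict
    have hginj : Function.Injective g := by
      intro x y hxy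
      have h1 : algebraMap (𝓞 F) (AlgebraicClosure ℚ) x =
          algebraMap (𝓞 F) (AlgebraicClosure ℚ) y :=
        congrArg (fun z : A₀ => (z : AlgebraicClosure ℚ)) hxy
      exact FaithfulSMul.algebraMap_injective (𝓞 F) (AlgebraicClosure ℚ) h1
    have hgsurj : Function.Surjective g :=
      (algebraMap (𝓞 F) (AlgebraicClosure ℚ)).rangeRestrict_surjective
    have hI : P.map g ≠ ⊤ := by
      intro htop
      have h1 : (P.map g).comap g = P := Ideal.comap_map_of_bijective g ⟨hginj, hgsurj⟩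
      rw [htop, Ideal.comap_top] at h1
      exact hP.ne_top h1.symm
    obtain ⟨A, -, hA⟩ := Ideal.image_subset_nonunits_valuationSubring _ hI
    have hPA : ∀ x ∈ P, algebraMap (𝓞 F) (AlgebraicClosure ℚ) x ∈ A.nonunits := by
      intro x hx
      exact hA ⟨g x, Ideal.mem_map_of_mem g hx, rfl⟩
    have hAq : A.LiesOverPrime q := by
      have := hPA _ hqP
      rwa [map_natCast] at this
    obtain ⟨σ, hσ, hστ⟩ := exists_inertia_lift F A hq hAq τ (fun x hx => by
      obtain ⟨y, rfl⟩ : ∃ y : 𝓞 F, algebraMap (𝓞 F) F y = x := ⟨⟨x, hx⟩, rfl⟩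
      have h2 := hPA _ (hτ y)
      rw [map_sub, algebraMap_smul_ringOfIntegers] at h2
      exact h2)
    have h3 := h A hAq hσ
    rw [← hστ, Subgroup.mem_bot]
    exact restrictNormalHom_eq_one_of_mem_fixingSubgroup F σ h3
  · intro h A hA σ hσ
    haveI := primeBelowF_isPrime F A
    have h1 := restrict_mem_inertia_primeBelowF F A σ hσ
    rw [h (primeBelowF F A) inferInstance (natCast_mem_primeBelowF F A hA), Subgroup.mem_bot] at h1
    rw [IntermediateField.mem_fixingSubgroup_iff]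
    intro x hx
    have h2 := restrictNormalHom_apply F σ ⟨x, hx⟩
    rw [h1] at h2
    exact h2.symm

/-- A prime of `𝓞 F` containing the prime number `q` lies over `(q) ⊂ ℤ`. -/
theorem liesOver_span_of_natCast_mem {q : ℕ} (hq : q.Prime) (P : Ideal (𝓞 F)) [P.IsPrime]
    (hqP : (q : 𝓞 F) ∈ P) : P.LiesOver (Ideal.span {(q : ℤ)}) := by
  haveI hmax : (Ideal.span {(q : ℤ)}).IsMaximal :=
    PrincipalIdealRing.isMaximal_of_irreducible (Nat.prime_iff_prime_int.mp hq).irreducible
  refine ⟨?_⟩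
  have hle : Ideal.span {(q : ℤ)} ≤ P.under ℤ := by
    rw [Ideal.span_le, Set.singleton_subset_iff]
    show algebraMap ℤ (𝓞 F) (q : ℤ) ∈ P
    simpa using hqP
  exact hmax.eq_of_le (Ideal.IsPrime.under ℤ P).ne_top hle

/-- **B10, ramification index form.**  The Prelude unramifiedness condition at `q` for the
finite Galois field `F` holds iff `q` has ramification index `1` in `𝓞 F`. -/
theorem inertia_le_fixingSubgroup_iff_ramificationIdxIn {q : ℕ} (hq : q.Prime) :
    (∀ A : ValuationSubring (AlgebraicClosure ℚ), A.LiesOverPrime q →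
        A.inertiaSubgroupIn ℚ ≤ F.fixingSubgroup) ↔
      (Ideal.span {(q : ℤ)}).ramificationIdxIn (𝓞 F) = 1 := by
  haveI hgal : IsGaloisGroup (F ≃ₐ[ℚ] F) ℤ (𝓞 F) :=
    IsGaloisGroup.of_isFractionRing (F ≃ₐ[ℚ] F) ℤ (𝓞 F) ℚ F
  haveI hmax : (Ideal.span {(q : ℤ)}).IsMaximal :=
    PrincipalIdealRing.isMaximal_of_irreducible (Nat.prime_iff_prime_int.mp hq).irreducible
  haveI hprime : (Ideal.span {(q : ℤ)}).IsPrime := hmax.isPrime
  rw [inertia_le_fixingSubgroup_iff_inertia_eq_bot F hq]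
  constructor
  · intro h
    obtain ⟨A, hA⟩ := exists_valuationSubring_liesOver q hq
    haveI := primeBelowF_isPrime F A
    haveI := liesOver_span_of_natCast_mem F hq (primeBelowF F A) (natCast_mem_primeBelowF F A hA)
    rw [← Ideal.card_inertia_eq_ramificationIdxIn (G := F ≃ₐ[ℚ] F) (Ideal.span {(q : ℤ)})
      (primeBelowF F A), h _ inferInstance (natCast_mem_primeBelowF F A hA)]
    exact Subgroup.card_bot
  · intro h P hP hqP
    haveI := hP
    haveI := liesOver_span_of_natCast_mem F hq P hqP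
    have h1 := Ideal.card_inertia_eq_ramificationIdxIn (G := F ≃ₐ[ℚ] F) (Ideal.span {(q : ℤ)}) P
    rw [h] at h1
    exact (Subgroup.card_eq_one).mp h1

/-- **B10 for levels.**  A finite Galois `F` is unramified outside `S` in the Prelude sense iff
every prime number outside `S` has ramification index `1` in `𝓞 F`. -/
theorem isUnramifiedOutside_iff_ramificationIdxIn (S : Finset Nat.Primes) :
    F.IsUnramifiedOutside S ↔
      ∀ q : Nat.Primes, q ∉ S → (Ideal.span {((q : ℕ) : ℤ)}).ramificationIdxIn (𝓞 F) = 1 := by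
  constructor
  · intro h q hqS
    exact (inertia_le_fixingSubgroup_iff_ramificationIdxIn F q.2).mp (h.2 q hqS)
  · intro h
    exact ⟨inferInstance, fun q hqS =>
      (inertia_le_fixingSubgroup_iff_ramificationIdxIn F q.2).mpr (h q hqS)⟩

/-- **B10 for levels, inertia form.** -/
theorem isUnramifiedOutside_iff_inertia_eq_bot (S : Finset Nat.Primes) :
    F.IsUnramifiedOutside S ↔
      ∀ q : Nat.Primes, q ∉ S → ∀ P : Ideal (𝓞 F), P.IsPrime → ((q : ℕ) : 𝓞 F) ∈ P →
        P.inertia (F ≃ₐ[ℚ] F) = ⊥ := by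
  constructor
  · intro h q hqS
    exact (inertia_le_fixingSubgroup_iff_inertia_eq_bot F q.2).mp (h.2 q hqS)
  · intro h
    exact ⟨inferInstance, fun q hqS =>
      (inertia_le_fixingSubgroup_iff_inertia_eq_bot F q.2).mpr (h q hqS)⟩

end unram

end Fermat.Agent.S55.Bridge.H594

end
-- ===== PACK-END S55/Bridge/H594/Unram.lean

-- ===== PACK-BEGIN S55/G/Rec/SCH174/ChangeRep.lean
section



/-!
# S55 / G / REC, leaf SC (helper174) : change of double-coset representative

`locBr q g U z = 0 → locBr q (u * g * loc τ₀) U z = 0` for `u ∈ U`, `τ₀ ∈ G_{ℚ_q}`: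
local triviality of a global Brauer class at a place does not depend on the representative
`g` of the double coset `U g D_q`.
-/

set_option autoImplicit false
set_option linter.style.haveILetI false

noncomputable section

namespace Fermat.Agent.S55.G.Rec.H174

open groupCohomology Fermat.Agent.S55.G.Rec

local notation "Qb" => AlgebraicClosure ℚ
local notation "GQ" => (AlgebraicClosure ℚ ≃ₐ[ℚ] AlgebraicClosure ℚ)

/-- The homotopy `innerH` of a level cocycle is level-constant. -/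
lemma isLevelConstant₁_innerH {U : Subgroup GQ} (hU : IsOpenQ U) (u : ↥U)
    {c : ↥U × ↥U → gModOn U} (hc : IsLevelConstant₂ U.subtype c) :
    IsLevelConstant₁ U.subtype (innerH (gModOn U) u c) := by
  obtain ⟨F, hF, hN, hle, hconst⟩ := H181.exists_normal_level hU hc
  refine ⟨F, hF, fun g s hs => ?_⟩
  have hs' : (s : GQ) ∈ F.fixingSubgroup := hs
  have hone : ((1 : ↥U) : GQ) ∈ F.fixingSubgroup := by
    rw [Subgroup.coe_one]; exact one_mem _
  have hconj : ((u * s * u⁻¹ : ↥U) : GQ) ∈ F.fixingSubgroup := by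
    have := H181.conj_mem_fixingSubgroup F (u : GQ) hs'
    simpa using this
  simp only [innerH_apply]
  have h1 : c (u * (g * s) * u⁻¹, u) = c (u * g * u⁻¹, u) := by
    have := hconst (u * g * u⁻¹) u (u * s * u⁻¹) 1 hconj hone
    rw [mul_one] at this
    rw [← this]
    congr 2
    group
  have h2 : c (u, g * s) = c (u, g) := by
    have := hconst u g 1 s hone hs'
    rwa [mul_one] at this
  rw [h1, h2]

variable (q : ℕ) [Fact q.Prime]

local notation "Gq" => (PadicAlgCl q ≃ₐ[ℚ_[q]] PadicAlgCl q)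

/-- Conjugation `τ ↦ τ₀ τ τ₀⁻¹` from `locSub q (u * g * loc τ₀) U` to `locSub q g U`. -/
def conjSub (g : GQ) (U : Subgroup GQ) (u : ↥U) (τ₀ : Gq) :
    ↥(locSub q ((u : GQ) * g * localGaloisToGlobal q τ₀) U) →* ↥(locSub q g U) where
  toFun τ := ⟨τ₀ * τ * τ₀⁻¹, by
    have hτ := τ.2
    rw [mem_locSub] at hτ ⊢
    have : g * localGaloisToGlobal q (τ₀ * τ * τ₀⁻¹) * g⁻¹ =
        (u : GQ)⁻¹ * ((u : GQ) * g * localGaloisToGlobal q τ₀ * localGaloisToGlobal q τ *
          ((u : GQ) * g * localGaloisToGlobal q τ₀)⁻¹) * (u : GQ) := by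
      simp only [map_mul, map_inv]
      group
    rw [this]
    exact U.mul_mem (U.mul_mem (U.inv_mem u.2) hτ) u.2⟩
  map_one' := by ext1; simp
  map_mul' a b := by ext1; simp [mul_assoc]

@[simp] lemma conjSub_coe (g : GQ) (U : Subgroup GQ) (u : ↥U) (τ₀ : Gq)
    (τ : ↥(locSub q ((u : GQ) * g * localGaloisToGlobal q τ₀) U)) :
    ((conjSub q g U u τ₀ τ : ↥(locSub q g U)) : Gq) = τ₀ * τ * τ₀⁻¹ := rfl

/-- `u * locHom_g (κ τ) * u⁻¹ = locHom_{g'} τ`. -/
lemma locHom_conjSub (g : GQ) (U : Subgroup GQ) (u : ↥U) (τ₀ : Gq)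
    (τ : ↥(locSub q ((u : GQ) * g * localGaloisToGlobal q τ₀) U)) :
    u * locHom q g U (conjSub q g U u τ₀ τ) * u⁻¹ =
      locHom q ((u : GQ) * g * localGaloisToGlobal q τ₀) U τ := by
  apply Subtype.ext
  simp only [Subgroup.coe_mul, Subgroup.coe_inv, locHom_coe, conjSub_coe, map_mul, map_inv]
  group

/-- The coefficient identity: `τ₀⁻¹ • ι_q (g⁻¹ (u⁻¹ m)) = ι_q (g'⁻¹ m)`. -/
lemma locPushMul_change (g : GQ) (u : GQ) (τ₀ : Gq) (m : Qbˣ) :
    τ₀⁻¹ • locPushMul q g (u⁻¹ • m) = locPushMul q (u * g * localGaloisToGlobal q τ₀) m := by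
  apply Units.ext
  show τ₀⁻¹ (padicEmbedding q (g⁻¹ (u⁻¹ (m : Qb)))) =
    padicEmbedding q ((u * g * localGaloisToGlobal q τ₀)⁻¹ (m : Qb))
  rw [← padicEmbedding_localGaloisToGlobal]
  congr 1
  simp only [mul_inv_rev, map_inv, AlgEquiv.mul_apply]

/-- The twisted pull-back of `1`-cochains along `conjSub`. -/
def conjCochain₁ (g : GQ) (U : Subgroup GQ) (u : ↥U) (τ₀ : Gq)
    (B : ↥(locSub q g U) → lModOn q (locSub q g U)) :
    ↥(locSub q ((u : GQ) * g * localGaloisToGlobal q τ₀) U) →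
      lModOn q (locSub q ((u : GQ) * g * localGaloisToGlobal q τ₀) U) :=
  fun τ => (lMod q).ρ τ₀⁻¹ (B (conjSub q g U u τ₀ τ))

lemma isLevelConstant₁_conjCochain₁ (g : GQ) (U : Subgroup GQ) (u : ↥U) (τ₀ : Gq)
    {B : ↥(locSub q g U) → lModOn q (locSub q g U)}
    (hB : IsLevelConstant₁ (lHom q (locSub q g U)) B) :
    IsLevelConstant₁ (lHom q (locSub q ((u : GQ) * g * localGaloisToGlobal q τ₀) U))
      (conjCochain₁ q g U u τ₀ B) := by
  obtain ⟨F, hF, h⟩ := hB
  haveI := hF
  haveI : Algebra.IsAlgebraic ℚ Qb := AlgebraicClosure.isAlgebraic ℚ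
  haveI : IsAlgClosure ℚ Qb := ⟨inferInstance, inferInstance⟩
  haveI : Normal ℚ Qb := IsAlgClosure.normal ℚ Qb
  have hle : F ≤ IntermediateField.normalClosure ℚ ↥F Qb :=
    IntermediateField.le_normalClosure _
  haveI : Normal ℚ (IntermediateField.normalClosure ℚ ↥F Qb) := normalClosure.normal ℚ _ Qb
  refine ⟨IntermediateField.normalClosure ℚ ↥F Qb,
    normalClosure.is_finiteDimensional ℚ _ Qb, fun τ σ hσ => ?_⟩
  have hσ' : localGaloisToGlobal q (σ : Gq) ∈
      (IntermediateField.normalClosure ℚ ↥F Qb).fixingSubgroup := hσ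
  have hconj := H181.conj_mem_fixingSubgroup _ (localGaloisToGlobal q τ₀) hσ'
  have hmem : lHom q (locSub q g U) (conjSub q g U u τ₀ σ) ∈ F.fixingSubgroup := by
    apply IntermediateField.fixingSubgroup_antitone hle
    show localGaloisToGlobal q (τ₀ * σ * τ₀⁻¹) ∈ _
    simpa only [map_mul, map_inv] using hconj
  simp only [conjCochain₁, map_mul]
  rw [h _ _ hmem]

/-- **Change of representative, cochain level.** -/
theorem locCochain₂_change {U : Subgroup GQ} (hU : IsOpenQ U) (g : GQ) (u : ↥U) (τ₀ : Gq)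
    {c : ↥U × ↥U → gModOn U} (hc : c ∈ levelCocycles₂ U.subtype (gModOn U))
    (h : locCochain₂ q g U c ∈
      levelCoboundaries₂ (lHom q (locSub q g U)) (lModOn q (locSub q g U))) :
    locCochain₂ q ((u : GQ) * g * localGaloisToGlobal q τ₀) U c ∈
      levelCoboundaries₂ (lHom q (locSub q ((u : GQ) * g * localGaloisToGlobal q τ₀) U))
        (lModOn q (locSub q ((u : GQ) * g * localGaloisToGlobal q τ₀) U)) := by
  obtain ⟨b, hb, hdb⟩ := (mem_levelCoboundaries₂_iff _ _ _).1 h
  set hh : ↥U → gModOn U := innerH (gModOn U) u c with hhdef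
  have hhlc : IsLevelConstant₁ U.subtype hh := isLevelConstant₁_innerH hU u hc.2
  set B : ↥(locSub q g U) → lModOn q (locSub q g U) := b + locCochain₁ q g U hh with hBdef
  have hBlc : IsLevelConstant₁ (lHom q (locSub q g U)) B :=
    hb.add ((isLevelConstant₁_loc q g U hhlc).comp (locPush q g U) :)
  have hdB : (d₁₂ (lModOn q (locSub q g U))).hom B =
      locCochain₂ q g U (c + (d₁₂ (gModOn U)).hom hh) := by
    rw [hBdef, map_add, hdb, map_add]
    congr 1
    exact (cochainsPullPush₂_d₁₂ (locHom q g U) (locPush q g U)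
      (locPush_equivariant q g U) hh).symm
  refine (mem_levelCoboundaries₂_iff _ _ _).2
    ⟨conjCochain₁ q g U u τ₀ B, isLevelConstant₁_conjCochain₁ q g U u τ₀ hBlc, ?_⟩
  funext ⟨τ₁, τ₂⟩
  have key := congrFun hdB (conjSub q g U u τ₀ τ₁, conjSub q g U u τ₀ τ₂)
  rw [d₁₂_hom_apply] at key ⊢
  simp only at key ⊢
  have hρ : ∀ x : lModOn q (locSub q g U),
      (lModOn q (locSub q ((u : GQ) * g * localGaloisToGlobal q τ₀) U)).ρ τ₁
        ((lMod q).ρ τ₀⁻¹ x) =
      (lMod q).ρ τ₀⁻¹ ((lModOn q (locSub q g U)).ρ (conjSub q g U u τ₀ τ₁) x) := by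
    intro x
    show Additive.ofMul ((τ₁ : Gq) • (τ₀⁻¹ • (Additive.toMul x : (PadicAlgCl q)ˣ))) =
      Additive.ofMul (τ₀⁻¹ • ((τ₀ * (τ₁ : Gq) * τ₀⁻¹) • (Additive.toMul x : (PadicAlgCl q)ˣ)))
    rw [← mul_smul, ← mul_smul]
    congr 2
    group
  have hconj := conj_cocycle_eq (gModOn U) u hc.1
    (locHom q g U (conjSub q g U u τ₀ τ₁)) (locHom q g U (conjSub q g U u τ₀ τ₂))
  rw [locHom_conjSub, locHom_conjSub] at hconj
  simp only [conjCochain₁, map_mul]
  rw [hρ, ← map_sub, ← map_add, key]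
  show (lMod q).ρ τ₀⁻¹ (locPush q g U ((c + (d₁₂ (gModOn U)).hom hh)
      (locHom q g U (conjSub q g U u τ₀ τ₁), locHom q g U (conjSub q g U u τ₀ τ₂)))) =
    locPush q ((u : GQ) * g * localGaloisToGlobal q τ₀) U
      (c (locHom q ((u : GQ) * g * localGaloisToGlobal q τ₀) U τ₁,
        locHom q ((u : GQ) * g * localGaloisToGlobal q τ₀) U τ₂))
  rw [Pi.add_apply, ← hconj]
  exact congrArg Additive.ofMul (locPushMul_change q g u τ₀ (Additive.toMul _))

/-- **Change of representative**: local triviality at the place of `g` implies local triviality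
at the place of `u * g * loc τ₀`. -/
theorem locBr_change {U : Subgroup GQ} (hU : IsOpenQ U) (g : GQ) (u : ↥U) (τ₀ : Gq) (z : gBr U)
    (hz : locBr q g U z = 0) :
    locBr q ((u : GQ) * g * localGaloisToGlobal q τ₀) U z = 0 := by
  obtain ⟨c, rfl⟩ := Submodule.mkQ_surjective _ z
  change locBr q g U (continuousH2π U.subtype (gModOn U) c) = 0 at hz
  change locBr q _ U (continuousH2π U.subtype (gModOn U) c) = 0
  rw [locBr_mk, continuousH2π_eq_zero_iff] at hz ⊢
  exact locCochain₂_change q hU g u τ₀ c.2 hz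

/-- Local triviality only depends on the double coset `U g D_q`. -/
theorem locBr_eq_zero_of_doubleCoset {U : Subgroup GQ} (hU : IsOpenQ U) {g g' : GQ}
    (h : ∃ u ∈ U, ∃ d ∈ (localGaloisToGlobal q).range, g' = u * g * d) (z : gBr U)
    (hz : locBr q g U z = 0) : locBr q g' U z = 0 := by
  obtain ⟨u, hu, d, ⟨τ₀, rfl⟩, rfl⟩ := h
  exact locBr_change q hU g ⟨u, hu⟩ τ₀ z hz

end Fermat.Agent.S55.G.Rec.H174

end
end
-- ===== PACK-END S55/G/Rec/SCH174/ChangeRep.lean

-- ===== PACK-BEGIN S55/H713/Param.lean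
section


/-!
# Parameters in a Galois-stable discrete valuation ring
-/

set_option autoImplicit false
set_option linter.unusedSectionVars false

open IsLocalRing

namespace Fermat.Agent.S55.H713

variable {F E : Type*} [Field F] [Field E] [Algebra F E] [FiniteDimensional F E] [IsGalois F E]
variable {O : ValuationSubring E} [IsDiscreteValuationRing O]

namespace IsParam

variable {p : F} (hp : IsParam O p)
include hp

lemma coe_toO_pow (k : ℕ) : ((hp.toO ^ k : O) : E) = algebraMap F E (p ^ k) := by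
  rw [map_pow]; rfl

/-- Every element of `E` is moved into `O` by a power of the parameter. -/
lemma exists_pow_smul_mem (x : E) : ∃ k, p ^ k • x ∈ O := by
  by_cases hx : x ∈ O
  · exact ⟨0, by simpa using hx⟩
  have hx' : x⁻¹ ∈ O := (O.mem_or_inv_mem x).resolve_left hx
  have hx0 : x ≠ 0 := fun h => hx (h ▸ O.zero_mem)
  obtain ⟨ϖ, hϖ⟩ := IsDiscreteValuationRing.exists_irreducible O
  have hy0 : (⟨x⁻¹, hx'⟩ : O) ≠ 0 := by
    intro h
    exact inv_ne_zero hx0 (congrArg Subtype.val h)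
  obtain ⟨j, u, hu⟩ := IsDiscreteValuationRing.eq_unit_mul_pow_irreducible hy0 hϖ
  have hmem := hp.toO_mem_maximalIdeal
  rw [hϖ.maximalIdeal_eq, Ideal.mem_span_singleton'] at hmem
  obtain ⟨r, hr⟩ := hmem
  refine ⟨j, ?_⟩
  have h1 : x⁻¹ = ((u : O) : E) * (ϖ : E) ^ j := by
    have := congrArg Subtype.val hu
    simpa using this
  have h2 : algebraMap F E p = (r : E) * (ϖ : E) := by
    have := congrArg Subtype.val hr
    simpa [IsParam.toO] using this.symm
  have h3 : p ^ j • x = (r : E) ^ j * ((u⁻¹ : Oˣ) : O) := by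
    rw [Algebra.smul_def, map_pow, h2, mul_pow]
    have hu1 : ((u : O) : E) * ((u⁻¹ : Oˣ) : O) = 1 := by
      rw [← Subring.coe_mul]; simp
    have hx1 : x * x⁻¹ = 1 := mul_inv_cancel₀ hx0
    rw [h1] at hx1
    have : (ϖ : E) ^ j * x = ((u⁻¹ : Oˣ) : O) := by
      calc (ϖ : E) ^ j * x = (ϖ : E) ^ j * x * (((u : O) : E) * ((u⁻¹ : Oˣ) : O)) := by
            rw [hu1, mul_one]
        _ = (x * (((u : O) : E) * (ϖ : E) ^ j)) * ((u⁻¹ : Oˣ) : O) := by ring
        _ = ((u⁻¹ : Oˣ) : O) := by rw [hx1, one_mul]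
    rw [mul_assoc, this]
  rw [h3]
  exact O.mul_mem _ _ (O.toSubring.pow_mem r.2 j) ((u⁻¹ : Oˣ) : O).2

/-- Powers of the maximal ideal are eventually inside `(p ^ t)`. -/
lemma exists_pow_le : ∃ e : ℕ, ∀ (t : ℕ) (x : O), x ∈ maximalIdeal O ^ (e * t) →
    ∃ y : O, x = hp.toO ^ t * y := by
  obtain ⟨ϖ, hϖ⟩ := IsDiscreteValuationRing.exists_irreducible O
  have hne : Ideal.span {hp.toO} ≠ ⊥ := by
    rw [Ne, Ideal.span_singleton_eq_bot]; exact hp.toO_ne_zero
  obtain ⟨e, he⟩ := IsDiscreteValuationRing.ideal_eq_span_pow_irreducible hne hϖ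
  refine ⟨e, fun t x hx => ?_⟩
  have : maximalIdeal O ^ (e * t) = Ideal.span {hp.toO ^ t} := by
    rw [hϖ.maximalIdeal_eq, Ideal.span_singleton_pow, pow_mul, ← Ideal.span_singleton_pow, ← he,
      Ideal.span_singleton_pow]
  rw [this, Ideal.mem_span_singleton'] at hx
  obtain ⟨y, hy⟩ := hx
  exact ⟨y, by rw [← hy, mul_comm]⟩

end IsParam

/-- A parameter exists: the norm of a uniformizer. -/
theorem exists_isParam (hstab : GalStable F O) : ∃ p : F, IsParam O p := by
  classical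
  obtain ⟨ϖ, hϖ⟩ := IsDiscreteValuationRing.exists_irreducible O
  have hϖ0 : (ϖ : E) ≠ 0 := fun h => hϖ.ne_zero (Subtype.ext h)
  refine ⟨Algebra.norm F (ϖ : E), ?_, ?_, ?_⟩
  · rw [Ne, Algebra.norm_eq_zero_iff]; exact hϖ0
  · rw [Algebra.norm_eq_prod_automorphisms]
    exact O.toSubring.prod_mem (fun g _ => hstab g _ ϖ.2)
  · rw [Algebra.norm_eq_prod_automorphisms]
    intro hinv
    -- the product as an element of `O`
    set P : O := ∏ g : Gal(E/F), (⟨g (ϖ : E), hstab g _ ϖ.2⟩ : O) with hP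
    have hPc : (P : E) = ∏ g : Gal(E/F), g (ϖ : E) := by
      rw [hP]
      simp
    have hPm : P ∈ maximalIdeal O := by
      rw [hP, ← Finset.mul_prod_erase Finset.univ _ (Finset.mem_univ (1 : Gal(E/F)))]
      apply Ideal.mul_mem_right
      have : (⟨(1 : Gal(E/F)) (ϖ : E), hstab 1 _ ϖ.2⟩ : O) = ϖ := Subtype.ext rfl
      rw [this, mem_maximalIdeal, mem_nonunits_iff]
      exact hϖ.not_isUnit
    have hP0 : (P : E) ≠ 0 := by
      rw [hPc]
      exact Finset.prod_ne_zero_iff.2 (fun g _ => by simpa using hϖ0)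
    have hPu : IsUnit P := by
      refine IsUnit.of_mul_eq_one (⟨(P : E)⁻¹, by rw [hPc]; exact hinv⟩ : O) ?_
      apply Subtype.ext
      simp [mul_inv_cancel₀ hP0]
    exact (mem_nonunits_iff.1 ((mem_maximalIdeal P).1 hPm)) hPu

end Fermat.Agent.S55.H713

end
-- ===== PACK-END S55/H713/Param.lean

-- ===== PACK-BEGIN S55/Herbrand/RepCyclic.lean
section


/-!
# Herbrand indices of a representation of a finite cyclic group (no `CommGroup` instance)

Same as `RepBridge.lean`, but for `[Group G]` together with a generator `g`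
(`hg : ∀ x, x ∈ Subgroup.zpowers g`), which is the form needed for Galois groups.

* `gAct A g` : the additive endomorphism `ρ g` of `A`;
* `card_H2_eq_h0`, `card_H1_eq_h1` : `|H²(G, A)| = h0`, `|H¹(G, A)| = h1`;
* `ker_delta_gAct` : `ker (g - 1) = A^G`;
* `range_normN_gAct`, `ker_normN_gAct` : `normN = ∑_{h ∈ G} ρ h`;
* `range_delta_gAct` : `im (g - 1) = ∑_h im (h - 1)`.
-/

set_option autoImplicit false

namespace Fermat.Agent.S55.Herbrand

open CategoryTheory groupCohomology

universe u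

variable {k G : Type u} [CommRing k] [Group G]

/-- additive endomorphism given by the action of `g`. -/
def gAct (A : Rep k G) (g : G) : AddMonoid.End A.V := (A.ρ g).toAddMonoidHom

@[simp] lemma gAct_apply (A : Rep k G) (g : G) (x : A.V) : gAct A g x = A.ρ g x := rfl

lemma gAct_pow_apply (A : Rep k G) (g : G) (i : ℕ) (x : A.V) :
    (gAct A g ^ i) x = A.ρ (g ^ i) x := by
  induction i generalizing x with
  | zero => simp
  | succ i ih =>
    rw [pow_succ, pow_succ]
    change (gAct A g ^ i) (gAct A g x) = _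
    rw [ih, gAct_apply, map_mul]
    rfl

lemma mul_comm_of_forall_mem_zpowers (g : G) (hg : ∀ x, x ∈ Subgroup.zpowers g) (a b : G) :
    a * b = b * a := by
  obtain ⟨m, rfl⟩ := Subgroup.mem_zpowers_iff.1 (hg a)
  obtain ⟨n, rfl⟩ := Subgroup.mem_zpowers_iff.1 (hg b)
  rw [← zpow_add, ← zpow_add, add_comm]

lemma gAct_pow_card [Finite G] (A : Rep k G) (g : G) : gAct A g ^ Nat.card G = 1 := by
  ext x
  rw [gAct_pow_apply, pow_card_eq_one', map_one]
  rfl

/-- equivariance of a morphism of representations. -/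
lemma hom_gAct {A B : Rep k G} (f : A ⟶ B) (g : G) (x : A.V) :
    f.hom (gAct A g x) = gAct B g (f.hom x) := by
  simp only [gAct_apply]
  exact Rep.hom_comm_apply f g x

lemma ker_delta_gAct (A : Rep k G) (g : G) (hg : ∀ x, x ∈ Subgroup.zpowers g) :
    AddMonoidHom.ker (delta (gAct A g)) = A.ρ.invariants.toAddSubgroup := by
  ext x
  rw [AddMonoidHom.mem_ker, delta_apply, sub_eq_zero, gAct_apply]
  exact (Representation.mem_invariants_iff_of_forall_mem_zpowers A.ρ g hg x).symm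

lemma range_sub_one_le_of_gen [Finite G] (A : Rep k G) (g : G)
    (hg : ∀ x, x ∈ Subgroup.zpowers g) (h : G) :
    LinearMap.range (A.ρ h - 1) ≤ LinearMap.range (A.ρ g - 1) := by
  classical
  obtain ⟨i, -, rfl⟩ :=
    Finset.mem_image.1 ((mem_zpowers_iff_mem_range_orderOf (x := g) (y := h)).1 (hg h))
  rintro _ ⟨x, rfl⟩
  have key : A.ρ (g ^ i) - 1 = (A.ρ g - 1) * ∑ j ∈ Finset.range i, A.ρ g ^ j := by
    rw [mul_geom_sum, map_pow]
  rw [key]
  exact ⟨(∑ j ∈ Finset.range i, A.ρ g ^ j) x, rfl⟩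

lemma range_delta_gAct [Finite G] (A : Rep k G) (g : G)
    (hg : ∀ x, x ∈ Subgroup.zpowers g) :
    AddMonoidHom.range (delta (gAct A g)) =
      (⨆ h : G, LinearMap.range (A.ρ h - 1)).toAddSubgroup := by
  have hsup : (⨆ h : G, LinearMap.range (A.ρ h - 1)) = LinearMap.range (A.ρ g - 1) :=
    le_antisymm (iSup_le fun h => range_sub_one_le_of_gen A g hg h)
      (le_iSup (fun h : G => LinearMap.range (A.ρ h - 1)) g)
  rw [hsup]
  ext x
  constructor
  · rintro ⟨y, rfl⟩
    exact ⟨y, rfl⟩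
  · rintro ⟨y, rfl⟩
    exact ⟨y, rfl⟩

variable [Fintype G]

theorem card_H2_eq_h0 (A : Rep k G) (g : G) (hg : ∀ x, x ∈ Subgroup.zpowers g) :
    Nat.card (groupCohomology A 2) = h0 (gAct A g) (Nat.card G) := by
  let inst : CommGroup G :=
    { (inferInstance : Group G) with mul_comm := mul_comm_of_forall_mem_zpowers g hg }
  exact card_groupCohomology_even A g hg 2 (by decide)

theorem card_H1_eq_h1 (A : Rep k G) (g : G) (hg : ∀ x, x ∈ Subgroup.zpowers g) :
    Nat.card (groupCohomology A 1) = h1 (gAct A g) (Nat.card G) := by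
  let inst : CommGroup G :=
    { (inferInstance : Group G) with mul_comm := mul_comm_of_forall_mem_zpowers g hg }
  exact card_groupCohomology_odd A g hg 1 (by decide)

lemma normN_gAct_apply (A : Rep k G) (g : G) (hg : ∀ x, x ∈ Subgroup.zpowers g) (x : A.V) :
    normN (gAct A g) (Nat.card G) x = ∑ h : G, A.ρ h x := by
  rw [normN_apply, sum_eq_sum_range_pow g hg]
  exact Finset.sum_congr rfl fun i _ => gAct_pow_apply A g i x

lemma normN_gAct_apply' (A : Rep k G) (g : G) (hg : ∀ x, x ∈ Subgroup.zpowers g) (x : A.V) :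
    normN (gAct A g) (Nat.card G) x = A.ρ.norm x := by
  rw [normN_gAct_apply A g hg]
  simp [Representation.norm]

lemma range_normN_gAct (A : Rep k G) (g : G) (hg : ∀ x, x ∈ Subgroup.zpowers g) :
    AddMonoidHom.range (normN (gAct A g) (Nat.card G)) =
      (LinearMap.range A.ρ.norm).toAddSubgroup := by
  ext x
  constructor
  · rintro ⟨y, rfl⟩
    exact ⟨y, (normN_gAct_apply' A g hg y).symm⟩
  · rintro ⟨y, rfl⟩
    exact ⟨y, normN_gAct_apply' A g hg y⟩

lemma ker_normN_gAct (A : Rep k G) (g : G) (hg : ∀ x, x ∈ Subgroup.zpowers g) :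
    AddMonoidHom.ker (normN (gAct A g) (Nat.card G)) =
      (LinearMap.ker A.ρ.norm).toAddSubgroup := by
  ext x
  rw [AddMonoidHom.mem_ker, normN_gAct_apply' A g hg]
  rfl

/-- finiteness of `H¹` and `H²` is the statement that the Herbrand quotient is defined. -/
lemma finite_H1_and_H2_iff (A : Rep k G) (g : G) (hg : ∀ x, x ∈ Subgroup.zpowers g) :
    (Finite (groupCohomology A 1) ∧ Finite (groupCohomology A 2)) ↔
      HerbrandDefined (gAct A g) (Nat.card G) := by
  rw [herbrandDefined_iff, ← card_H2_eq_h0 A g hg, ← card_H1_eq_h1 A g hg]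
  constructor
  · rintro ⟨h1, h2⟩
    exact ⟨Nat.card_pos.ne', Nat.card_pos.ne'⟩
  · rintro ⟨h2, h1⟩
    exact ⟨(Nat.card_ne_zero.1 h1).2, (Nat.card_ne_zero.1 h2).2⟩

end Fermat.Agent.S55.Herbrand

end
-- ===== PACK-END S55/Herbrand/RepCyclic.lean

-- ===== PACK-BEGIN S55/Local/H964/T5Middle.lean
section


/-!
# S55, layer L, T5 glue: the lower bound for a tower with an unramified quotient (helper964)

`exists_cocycle_lower_bound` : let `L / K` be finite Galois of degree `n`, `N ⊇ L` Galois over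
`K` with `N / L` unramified of degree `n`, and `E ⊆ N` Galois over `K`, unramified over `K`, with
`Gal(N/L) ∩ Gal(N/E) = 1` and `|Gal(N/E)| = e(N/K)`.  Then there is a 2-cocycle of `Gal(L/K)`
with values in `Lˣ` none of whose powers `k`, `n ∤ k`, is a coboundary.
-/

set_option autoImplicit false
set_option linter.style.haveILetI false
set_option linter.unusedSectionVars false
set_option linter.unusedVariables false

namespace Fermat.Agent.S55.Local.H964

open groupCohomology Fermat.Agent.S55.Local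

theorem exists_cocycle_lower_bound
    (hUR1 : UnramCyclicStatement) (hT2 : UnramNormRangeStatement) (hLF2 : ExistsUnifStatement)
    (hLF3 : IntUnitsComapStatement) (hA4a : CycCocycleIsCocycleStatement)
    (hA4b : CycCocycleCoboundaryIffStatement) (hA4d : CycCocyclePullbackStatement)
    (A F : Type) [CommRing A] [IsDomain A] [IsDiscreteValuationRing A]
    [IsAdicComplete (IsLocalRing.maximalIdeal A) A] [Finite (IsLocalRing.ResidueField A)]
    [Field F] [CharZero F] [Algebra A F] [IsFractionRing A F]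
    (K : Type) [Field K] [Algebra F K] [FiniteDimensional F K]
    (L : Type) [Field L] [Algebra F L] [Algebra K L] [IsScalarTower F K L]
    [FiniteDimensional K L] [IsGalois K L]
    (E : Type) [Field E] [Algebra F E] [Algebra K E] [IsScalarTower F K E]
    [FiniteDimensional K E] [IsGalois K E]
    (N : Type) [Field N] [Algebra F N] [Algebra K N] [Algebra L N] [Algebra E N]
    [IsScalarTower F K N] [IsScalarTower F L N] [IsScalarTower K L N] [IsScalarTower K E N]
    [FiniteDimensional K N] [IsGalois K N]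
    (hNL : IsUnram A F N L) (hdeg : Module.finrank L N = Module.finrank K L)
    (hEK : IsUnram A F E K)
    (hdisj : kerRes K L N ⊓ kerRes K E N = ⊥)
    (hcard : ∀ (ϖK : Kˣ) (ϖN : Nˣ), IsUnif A F K ϖK → IsUnif A F N ϖN →
        unitsIncl N K ϖK * ϖN ^ (-(Nat.card (kerRes K E N) : ℤ)) ∈ intUnits A F N) :
    ∃ cL : (L ≃ₐ[K] L) × (L ≃ₐ[K] L) → Lˣ, IsMulCocycle₂ cL ∧
      ∀ k : ℕ, IsMulCoboundary₂ (fun p => cL p ^ k) → Module.finrank K L ∣ k := by
  classical
  set n := Module.finrank K L with hn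
  have hnpos : 0 < n := Module.finrank_pos
  haveI : FiniteDimensional F L := Module.Finite.trans K L
  haveI : FiniteDimensional L N := Module.Finite.of_restrictScalars_finite K L N
  haveI : IsGalois L N := IsGalois.tower_top_of_isGalois K L N
  haveI hC : IsCyclic (E ≃ₐ[K] E) := hUR1 A F K E hEK
  -- the map `ρ : Gal(N/L) → Gal(E/K)`
  let ρ : kerRes K L N →* (E ≃ₐ[K] E) := (resHom K E N).comp (kerRes K L N).subtype
  have hρinj : Function.Injective ρ := by
    refine (injective_iff_map_eq_one ρ).2 fun s hs => ?_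
    have h1 : (s : N ≃ₐ[K] N) ∈ kerRes K L N ⊓ kerRes K E N := ⟨s.2, hs⟩
    rw [hdisj, Subgroup.mem_bot] at h1
    exact Subtype.ext h1
  haveI : IsCyclic (kerRes K L N) := isCyclic_of_injective ρ hρinj
  obtain ⟨ψ, hψ⟩ := IsCyclic.exists_generator (α := kerRes K L N)
  have hcardS : Nat.card (kerRes K L N) = n := by rw [card_kerRes, hdeg]
  have hordψ : orderOf ψ = n := by rw [orderOf_eq_card_of_forall_mem_zpowers hψ, hcardS]
  have horda : orderOf (ρ ψ) = n := by rw [orderOf_injective ρ hρinj, hordψ]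
  obtain ⟨φ, hφ, hφpow⟩ := exists_generator_pow_eq (ρ ψ)
  rw [horda] at hφpow
  set f := Nat.card (E ≃ₐ[K] E) with hf
  have hfE : f = Module.finrank K E := IsGalois.card_aut_eq_finrank K E
  have hnf : n ∣ f := by
    have := orderOf_dvd_natCard (ρ ψ)
    rwa [horda] at this
  set d := f / n with hd
  have hdn : d * n = f := Nat.div_mul_cancel hnf
  set e := Nat.card (kerRes K E N) with he
  have hef : e * f = n * n := by
    have h1 : e = Module.finrank E N := card_kerRes
    have h2 : Module.finrank K E * Module.finrank E N = Module.finrank K N :=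
      Module.finrank_mul_finrank K E N
    have h3 : Module.finrank K L * Module.finrank L N = Module.finrank K N :=
      Module.finrank_mul_finrank K L N
    rw [h1, hfE, mul_comm, h2, ← h3, hdeg]
  have hed : e * d = n := by
    have h1 : e * d * n = n * n := by rw [mul_assoc, hdn, hef]
    exact Nat.eq_of_mul_eq_mul_right hnpos h1
  have hdpos : 0 < d := Nat.pos_of_ne_zero (by rintro h; rw [h, mul_zero] at hed; omega)
  obtain ⟨ϖK, hϖK⟩ := hLF2 A F K
  obtain ⟨ϖL, hϖL⟩ := hLF2 A F L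
  -- ramification index of `L / K` is `e`
  have hram : unitsIncl L K ϖK * ϖL ^ (-(e : ℤ)) ∈ intUnits A F L := by
    have h1 := hcard ϖK (unitsIncl N L ϖL) hϖK (isUnif_unitsIncl A F hLF3 L N hNL hϖL)
    rw [← unitsIncl_unitsIncl (L := L), ← map_zpow, ← map_mul] at h1
    exact (hLF3 A F L N _).1 h1
  set u₀ : Lˣ := unitsIncl L K ϖK * ϖL ^ (-(e : ℤ)) with hu₀
  have hu₀' : unitsIncl L K ϖK = u₀ * ϖL ^ e := by
    rw [hu₀, zpow_neg, zpow_natCast, inv_mul_cancel_right]
  -- the cocycles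
  have haE : IsMulCocycle₂ (cycCocycle φ (unitsIncl E K (ϖK ^ d))) :=
    hA4a _ _ φ hφ _ (smul_unitsIncl_base φ _)
  set c₀ : (N ≃ₐ[K] N) × (N ≃ₐ[K] N) → Nˣ := fun p =>
    unitsIncl N E (cycCocycle φ (unitsIncl E K (ϖK ^ d)) (resHom K E N p.1, resHom K E N p.2))
    with hc₀def
  have hc₀ : IsMulCocycle₂ c₀ := isMulCocycle₂_inflate haE
  -- (2a) `c₀ ^ k` coboundary implies `n ∣ k`
  have h2a : ∀ k : ℕ, IsMulCoboundary₂ (fun p => c₀ p ^ k) → n ∣ k := by
    intro k hk
    have h1 : IsMulCoboundary₂ (cycCocycle φ (unitsIncl E K (ϖK ^ (d * k)))) := by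
      apply isMulCoboundary₂_of_inflate (N := N)
      have e1 : (fun p : (N ≃ₐ[K] N) × (N ≃ₐ[K] N) =>
          unitsIncl N E (cycCocycle φ (unitsIncl E K (ϖK ^ (d * k)))
            (resHom K E N p.1, resHom K E N p.2))) = fun p => c₀ p ^ k := by
        funext p
        rw [hc₀def]
        simp only
        rw [← map_pow, ← cycCocycle_pow, ← map_pow, ← pow_mul]
      rw [e1]
      exact hk
    have h2 := finrank_dvd_of_cycCocycle_coboundary A F hA4b hT2 K E hEK hϖK φ hφ (d * k) h1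
    rw [← hfE, ← hdn] at h2
    exact (Nat.mul_dvd_mul_iff_left hdpos).1 h2
  -- (2b) the restriction of `c₀` to `Gal(N/L)` is a coboundary
  have hρψ : ρ ψ = φ ^ (Nat.card (E ≃ₐ[K] E) / Nat.card (kerRes K L N)) := by
    rw [hcardS]
    exact hφpow.symm
  have hX : unitsIncl N K (ϖK ^ d) = unitsIncl N L (u₀ ^ d * ϖL ^ n) := by
    rw [← unitsIncl_unitsIncl (L := L), map_pow (unitsIncl L K), hu₀', mul_pow, ← pow_mul, hed]
  have h2b : ∃ φ' : kerRes K L N → Nˣ, ∀ s t : kerRes K L N,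
      c₀ ((s : N ≃ₐ[K] N), (t : N ≃ₐ[K] N)) =
        (s : N ≃ₐ[K] N) • φ' t / φ' (s * t) * φ' s := by
    obtain ⟨φ', hφ'⟩ := cycCocycle_kerRes_coboundary A F hA4b hT2 K L N hNL hϖL ψ hψ (u₀ ^ d)
      ((intUnits A F L).pow_mem hram d) n (by rw [hdeg])
    refine ⟨φ', fun s t => ?_⟩
    have h1 : c₀ ((s : N ≃ₐ[K] N), (t : N ≃ₐ[K] N)) =
        cycCocycle φ (unitsIncl N K (ϖK ^ d)) (ρ s, ρ t) := by
      rw [hc₀def]
      simp only
      rw [← cycCocycle_map, unitsIncl_unitsIncl]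
      rfl
    rw [h1, hA4d (E ≃ₐ[K] E) (kerRes K L N) Nˣ φ ψ ρ hφ hψ hρinj hρψ _ (s, t), hX]
    exact (hφ' s t).symm
  obtain ⟨φ', hφ'⟩ := h2b
  -- (3) descend to `Gal(L/K)`
  obtain ⟨c, f', hff', hf', i2, i1, i3⟩ :=
    mul_exists_inflated (kerRes K L N) mulHOneVanishes_kerRes hc₀ φ' hφ'
  obtain ⟨cL, hcL⟩ := exists_descend₂ f' i2 i1 i3
  refine ⟨cL, isMulCocycle₂_of_descend hf' hcL, fun k hk => h2a k ?_⟩
  obtain ⟨b, hb⟩ := (isMulCoboundary₂_iff _).1 hk
  have h1 := inflate_dMul (N := N) (f' := fun p => f' p ^ k) (cL := fun p => cL p ^ k)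
    (fun g h => by simp only [map_pow, hcL]) b hb
  refine (isMulCoboundary₂_iff _).2
    ⟨fun g => unitsIncl N L (b (resHom K L N g)) * c g ^ k, fun g h => ?_⟩
  rw [dMul_mul, dMul_pow, ← h1, hff', mul_pow]

end Fermat.Agent.S55.Local.H964

end
-- ===== PACK-END S55/Local/H964/T5Middle.lean

-- ===== PACK-BEGIN S55/Spec/Datum2.lean
section
/-
S55 moonshot — interface G/L → D, version 2 (WEAKER for producers, this is what the engine
consumes): the arithmetic properties GD1, GD3, GD6, GD8 are only required for levels containing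
`μ_p` (as proposed by helper955, G-ADAPTER).  Chief architect: helper55.  NO sorry.

`GlobalSpecMu S p` is the FINAL target of layer G;  `GlobalSpec S p → GlobalSpecMu S p`.
-/


set_option autoImplicit false

open CategoryTheory

namespace Fermat.Agent.S55.Tow

noncomputable section

variable {S : Finset Nat.Primes}

/-- `μ_p ⊂ F`. -/
def Level.HasMu (p : ℕ) (L : Level S) : Prop := ∃ ζ : Qbar, ζ ∈ L.F ∧ IsPrimitiveRoot ζ p

lemma Level.HasMu.mono {p : ℕ} {L L' : Level S} (h : L ≤ L') (hL : L.HasMu p) : L'.HasMu p := by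
  obtain ⟨ζ, hζ, hprim⟩ := hL
  exact ⟨ζ, h hζ, hprim⟩

namespace TowerDatum

variable (D : TowerDatum S)

/-- The properties of a tower datum consumed by the engine E1, arithmetic ones only above `μ_p`. -/
structure IsGoodMu (p : ℕ) : Prop where
  /-- GD1: `(C(F), γ_F)` is a class module at `p`, for `F ⊇ μ_p`. -/
  gd1 : ∀ L : Level S, L.HasMu p → E1.IsClassModuleAt p (D.C L) (D.γ L)
  /-- GD3: `(j_q)_*` is injective on `p`-torsion of `H²(G_F, J_q(F))`, for `F ⊇ μ_p`. -/
  gd3 : ∀ (L : Level S), L.HasMu p → ∀ (q : Nat.Primes), q ∈ S →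
    ∀ y : groupCohomology (L.J q) 2,
      p • y = 0 → (T.coeffMap (D.j L q) 2).hom y = 0 → y = 0
  /-- GD4: the kernel of `J(F) → C(F)` is the diagonal image of the `S`-units. -/
  gd4 : ∀ (L : Level S) (x : ∀ q : S, (L.J q.1).V),
    ∑ q : S, (D.j L q.1).hom (x q) = 0 ↔
      ∃ e : L.units.V, L.IsSUnit e ∧ ∀ q : S, x q = (L.diag q.1).hom e
  /-- GD5: capitulation of the `p`-part of `C(F)/im J(F)`. -/
  gd5 : ∀ (L : Level S) (c : (D.C L).V) (a : ℕ), D.IsLocalSum L (p ^ a • c) →
    ∃ (L' : Level S) (h : L ≤ L'), D.IsLocalSum L' ((D.tr h).hom c)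
  /-- GD6: existence theorem mod `p` over base levels `F₀ ⊇ μ_p`. -/
  gd6 : ∀ L₀ : Level S, L₀.HasMu p → ∃ L₁ : Level S, L₀ ≤ L₁ ∧
    ∀ (L : Level S) (h : L₀ ≤ L), L₁ ≤ L →
      @E1.NormInP p L.Gal _ (Level.relGal h) (Fintype.ofFinite _) (D.C L)
  /-- GD7a: `tr` is compatible with `j` and the inclusions `J_q(F) → J_q(F')`. -/
  gd7a : ∀ {L L' : Level S} (h : L ≤ L') (q : Nat.Primes), q ∈ S → ∀ (x : (L.J q).V),
    (D.tr h).hom ((D.j L q).hom x) = (D.j L' q).hom ((Level.trJ h q).hom x)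
  /-- GD7b: `tr` is transitive. -/
  gd7b : ∀ {L L' L'' : Level S} (h : L ≤ L') (h' : L' ≤ L'') (c : (D.C L).V),
    (D.tr h').hom ((D.tr h).hom c) = (D.tr (h.trans h')).hom c
  /-- GD8: inflation is injective on `p`-torsion of `H²(G_F, C(F))`, for `F ⊇ μ_p`. -/
  gd8 : ∀ {L L' : Level S} (h : L ≤ L'), L.HasMu p → ∀ (z : groupCohomology (D.C L) 2),
    p • z = 0 → D.inf h z = 0 → z = 0

theorem IsGood.isGoodMu {p : ℕ} (h : D.IsGood p) : D.IsGoodMu p where
  gd1 L _ := h.gd1 L
  gd3 L _ q hq y := h.gd3 L q hq y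
  gd4 := h.gd4
  gd5 := h.gd5
  gd6 L₀ _ := h.gd6 L₀
  gd7a hLL q _ x := h.gd7a hLL q x
  gd7b := h.gd7b
  gd8 hLL _ z := h.gd8 hLL z

end TowerDatum

/-- **FINAL TARGET OF LAYER G** (weak form): a tower datum which is good above `μ_p`. -/
def GlobalSpecMu (S : Finset Nat.Primes) (p : ℕ) : Prop :=
  ∃ D : TowerDatum S, D.IsGoodMu p

theorem GlobalSpec.globalSpecMu {p : ℕ} (h : GlobalSpec S p) : GlobalSpecMu S p := by
  obtain ⟨D, hD⟩ := h
  exact ⟨D, hD.isGoodMu⟩

end

end Fermat.Agent.S55.Tow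

end
-- ===== PACK-END S55/Spec/Datum2.lean

-- ===== PACK-BEGIN S55/Bridge/H175/DecompLevel.lean
section







set_option autoImplicit false
set_option linter.style.haveILetI false

/-!
# B11, part 3 (and the decomposition half of B14)

* `exists_stabilizer_lift` : abstract profinite lifting of stabilisers along a closed normal
  subgroup;
* `exists_decomposition_lift` : for a valuation subring `A` of `ℚ̄` over a prime and a normal
  level `F`, every `g₀ ∈ Gal(ℚ̄/ℚ)` whose restriction to `F` stabilises `A ∩ F` agrees on `F` with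
  an element of the decomposition group of `A`;
* `map_decompositionSubgroup` : `res_F (D_A) = D_{A ∩ F}`;
* `decompositionAt_eq` : the image `D_q(F)` of `Gal(ℚ̄_q/ℚ_q)` in `Gal(F/ℚ)` is the decomposition
  group of the valuation subring `{x ∈ F | ‖ι x‖ ≤ 1}` of `F`.
-/

open scoped NNReal Pointwise

namespace Fermat.Agent.S55.Bridge.H175

section Abstract

universe u

variable {B : Type*} [CommRing B]
variable {G : Type u} [Group G] [MulSemiringAction G B]
variable [TopologicalSpace G] [CompactSpace G] [TotallyDisconnectedSpace G]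
variable [IsTopologicalGroup G] [TopologicalSpace B] [DiscreteTopology B] [ContinuousSMul G B]

/-- `G` profinite acting continuously on a discrete ring `B`, `N` closed normal, `Q` a prime of
`B`.  If `g₀` preserves `Q` on the `N`-invariants, some element of `N g₀` stabilises `Q`. -/
theorem exists_stabilizer_lift (N : Subgroup G) [hn : N.Normal] (hN : IsClosed (N : Set G))
    (Q : Ideal B) [hQ : Q.IsPrime] (g₀ : G)
    (h₀ : ∀ x : B, (∀ n ∈ N, n • x = x) → (g₀ • x ∈ Q ↔ x ∈ Q)) :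
    ∃ n ∈ N, (n * g₀) • Q = Q := by
  have : CompactSpace N := isCompact_iff_compactSpace.mp hN.isCompact
  have := Fermat.Agent.S13.H175.isInvariant_fixedPoints (B := B) N
  have hunder : (g₀ • Q).under (FixedPoints.subalgebra ℤ B N) =
      Q.under (FixedPoints.subalgebra ℤ B N) := by
    ext ⟨x, hx⟩
    have hx' : ∀ n ∈ N, n • x = x := fun n hn' => hx ⟨n, hn'⟩
    simp only [Ideal.mem_comap]
    show x ∈ g₀ • Q ↔ x ∈ Q
    rw [Ideal.mem_pointwise_smul_iff_inv_smul_mem]
    have hy : ∀ n ∈ N, n • (g₀⁻¹ • x) = g₀⁻¹ • x :=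
      Fermat.Agent.S13.H175.smul_mem_fixedPoints N g₀⁻¹ hx'
    have h1 := h₀ _ hy
    rw [smul_inv_smul] at h1
    exact h1.symm
  obtain ⟨n, hn1⟩ := Algebra.IsInvariant.exists_smul_of_under_eq_of_profinite
    (A := FixedPoints.subalgebra ℤ B N) (G := N) (g₀ • Q) Q hunder
  refine ⟨n, n.2, ?_⟩
  rw [mul_smul]
  exact hn1.symm

end Abstract

/-- An automorphism of an algebraic extension `K` of `ℚ` which preserves the prime of the ring of
integers below a valuation subring `A` (over a rational prime) stabilises `A`. -/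
theorem smul_valuationSubring_eq_of_algebraic {K : Type*} [Field K] [CharZero K]
    [Algebra.IsAlgebraic ℚ K] (A : ValuationSubring K) (ℓ : ℕ)
    (hℓ : ℓ.Prime) (hA : A.LiesOverPrime ℓ) (σ : K ≃ₐ[ℚ] K)
    (h : ∀ b : K, IsIntegral ℤ b → (σ b ∈ A.nonunits ↔ b ∈ A.nonunits)) :
    σ • A = A := by
  have hint : ∀ (τ : K ≃ₐ[ℚ] K) (x : K), IsIntegral ℤ x → IsIntegral ℤ (τ x) :=
    fun τ x hx => hx.map τ
  have h' : ∀ b : K, IsIntegral ℤ b → (σ.symm b ∈ A.nonunits ↔ b ∈ A.nonunits) := by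
    intro b hb
    have h1 := h (σ.symm b) (hint σ.symm b hb)
    rw [AlgEquiv.apply_symm_apply] at h1
    exact h1.symm
  have key : ∀ (τ : K ≃ₐ[ℚ] K),
      (∀ b : K, IsIntegral ℤ b → (τ b ∈ A.nonunits ↔ b ∈ A.nonunits)) →
      ∀ x : K, x ∈ A → τ x ∈ A := by
    intro τ hτ x hx
    obtain ⟨b, s, hb, hs, hsA, hxs⟩ :=
      (Fermat.Agent.S54.mem_valuationSubring_iff A ℓ hℓ hA x).mp hx
    refine (Fermat.Agent.S54.mem_valuationSubring_iff A ℓ hℓ hA (τ x)).mpr
      ⟨τ b, τ s, hint τ b hb, hint τ s hs, fun hc => hsA ((hτ s hs).mp hc), ?_⟩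
    rw [← map_mul, hxs]
  apply le_antisymm
  · intro y hy
    obtain ⟨x, hx, rfl⟩ := (ValuationSubring.mem_smul_pointwise_iff_exists σ y A).mp hy
    exact key σ h x hx
  · intro y hy
    rw [ValuationSubring.mem_smul_pointwise_iff_exists]
    refine ⟨σ.symm y, key σ.symm h' y hy, ?_⟩
    simp

/-- An automorphism of `ℚ̄` preserving the prime of `ℤ̄` below `A` stabilises `A`. -/
theorem smul_valuationSubring_eq (A : ValuationSubring (AlgebraicClosure ℚ)) (ℓ : ℕ)
    (hℓ : ℓ.Prime) (hA : A.LiesOverPrime ℓ)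
    (σ : AlgebraicClosure ℚ ≃ₐ[ℚ] AlgebraicClosure ℚ)
    (h : ∀ b : AlgebraicClosure ℚ, IsIntegral ℤ b → (σ b ∈ A.nonunits ↔ b ∈ A.nonunits)) :
    σ • A = A := by
  have : Algebra.IsAlgebraic ℚ (AlgebraicClosure ℚ) := AlgebraicClosure.isAlgebraic ℚ
  exact smul_valuationSubring_eq_of_algebraic A ℓ hℓ hA σ h

/-- Elements of the decomposition group preserve the maximal ideal. -/
theorem apply_mem_nonunits_iff {L : Type*} [Field L] {K : Type*} [Field K] [Algebra K L]
    (A : ValuationSubring L) (σ : L ≃ₐ[K] L)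
    (h : ∀ x : L, σ x ∈ A ↔ x ∈ A) (y : L) : σ y ∈ A.nonunits ↔ y ∈ A.nonunits := by
  rw [ValuationSubring.mem_nonunits_iff_or, ValuationSubring.mem_nonunits_iff_or,
    ← map_inv₀, h, map_eq_zero_iff σ σ.injective]

section Lift

variable (F : IntermediateField ℚ (AlgebraicClosure ℚ)) [hFn : Normal ℚ F]

/-- **Lifting decomposition elements** from a normal level `F` to `ℚ̄`. -/
theorem exists_decomposition_lift (A : ValuationSubring (AlgebraicClosure ℚ)) (ℓ : ℕ)
    (hℓ : ℓ.Prime) (hA : A.LiesOverPrime ℓ)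
    (g₀ : AlgebraicClosure ℚ ≃ₐ[ℚ] AlgebraicClosure ℚ)
    (h₀ : ∀ x ∈ F, (g₀ x ∈ A ↔ x ∈ A)) :
    ∃ σ : AlgebraicClosure ℚ ≃ₐ[ℚ] AlgebraicClosure ℚ,
      σ ∈ A.decompositionSubgroup ℚ ∧ ∀ x ∈ F, σ x = g₀ x := by
  have hgal := Fermat.Agent.S54.isGalois_algebraicClosure_rat
  have hQprime := Fermat.Agent.S54.primeBelow_isPrime A
  set N : Subgroup (AlgebraicClosure ℚ ≃ₐ[ℚ] AlgebraicClosure ℚ) := F.fixingSubgroup with hNdef
  have hclosed : IsClosed (N : Set (AlgebraicClosure ℚ ≃ₐ[ℚ] AlgebraicClosure ℚ)) :=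
    InfiniteGalois.fixingSubgroup_isClosed F
  have hnormal : N.Normal := by
    rw [hNdef, ← @IntermediateField.restrictNormalHom_ker _ _ _ _ _ F hFn]
    exact MonoidHom.normal_ker _
  -- `g₀` preserves nonunits on `F`
  have h₀' : ∀ x ∈ F, (g₀ x ∈ A.nonunits ↔ x ∈ A.nonunits) := by
    intro x hx
    rw [ValuationSubring.mem_nonunits_iff_or, ValuationSubring.mem_nonunits_iff_or,
      ← map_inv₀, h₀ _ (F.inv_mem hx), map_eq_zero_iff g₀ g₀.injective]
  have h₁ : ∀ x : integralClosure ℤ (AlgebraicClosure ℚ),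
      (∀ n ∈ N, n • x = x) →
        (g₀ • x ∈ Fermat.Agent.S54.primeBelow A ↔ x ∈ Fermat.Agent.S54.primeBelow A) := by
    intro x hx
    have hxF : (x : AlgebraicClosure ℚ) ∈ F := by
      rw [← InfiniteGalois.fixedField_fixingSubgroup F, IntermediateField.mem_fixedField_iff]
      intro f hf
      exact congrArg Subtype.val (hx f hf)
    rw [Fermat.Agent.S54.mem_primeBelow, Fermat.Agent.S54.mem_primeBelow]
    exact h₀' _ hxF
  letI : TopologicalSpace (integralClosure ℤ (AlgebraicClosure ℚ)) := ⊥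
  haveI : DiscreteTopology (integralClosure ℤ (AlgebraicClosure ℚ)) := ⟨rfl⟩
  haveI := Fermat.Agent.S54.continuousSMul_integralClosure
  obtain ⟨n, hnN, hσQ⟩ := exists_stabilizer_lift
    (G := AlgebraicClosure ℚ ≃ₐ[ℚ] AlgebraicClosure ℚ) N hclosed
    (Fermat.Agent.S54.primeBelow A) g₀ h₁
  refine ⟨n * g₀, ?_, ?_⟩
  · rw [ValuationSubring.decompositionSubgroup, MulAction.mem_stabilizer_iff]
    apply smul_valuationSubring_eq A ℓ hℓ hA
    intro b hb
    have h1 : (n * g₀) • (⟨b, hb⟩ : integralClosure ℤ (AlgebraicClosure ℚ)) ∈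
        (n * g₀) • Fermat.Agent.S54.primeBelow A ↔
        (⟨b, hb⟩ : integralClosure ℤ (AlgebraicClosure ℚ)) ∈ Fermat.Agent.S54.primeBelow A :=
      Ideal.smul_mem_pointwise_smul_iff
    rw [hσQ] at h1
    exact h1
  · intro x hx
    have h2 : g₀ x ∈ F := apply_mem_of_normal F g₀ hx
    exact (IntermediateField.mem_fixingSubgroup_iff F n).mp hnN _ h2

/-- The valuation subring `A ∩ F` of a level `F` induced by a valuation subring `A` of `ℚ̄`. -/
noncomputable def levelPlace (A : ValuationSubring (AlgebraicClosure ℚ)) : ValuationSubring F :=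
  A.comap (algebraMap F (AlgebraicClosure ℚ))

omit hFn in
theorem mem_levelPlace {A : ValuationSubring (AlgebraicClosure ℚ)} {x : F} :
    x ∈ levelPlace F A ↔ (x : AlgebraicClosure ℚ) ∈ A := Iff.rfl

theorem restrictNormalHom_apply_coe (σ : AlgebraicClosure ℚ ≃ₐ[ℚ] AlgebraicClosure ℚ) (x : F) :
    ((AlgEquiv.restrictNormalHom (F := ℚ) (K₁ := AlgebraicClosure ℚ) F σ x : F) :
      AlgebraicClosure ℚ) = σ (x : AlgebraicClosure ℚ) :=
  AlgEquiv.restrictNormal_commutes σ F x

/-- **B14, decomposition half: `res_F (D_A) = D_{A ∩ F}`.** -/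
theorem map_decompositionSubgroup (A : ValuationSubring (AlgebraicClosure ℚ)) (ℓ : ℕ)
    (hℓ : ℓ.Prime) (hA : A.LiesOverPrime ℓ) :
    (A.decompositionSubgroup ℚ).map
        (AlgEquiv.restrictNormalHom (F := ℚ) (K₁ := AlgebraicClosure ℚ) F) =
      (levelPlace F A).decompositionSubgroup ℚ := by
  apply le_antisymm
  · rintro _ ⟨σ, hσ, rfl⟩
    have hstab : σ • A = A := MulAction.mem_stabilizer_iff.mp hσ
    rw [ValuationSubring.decompositionSubgroup, MulAction.mem_stabilizer_iff]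
    ext x
    rw [ValuationSubring.mem_pointwise_smul_iff_inv_smul_mem, ← map_inv, AlgEquiv.smul_def,
      mem_levelPlace, mem_levelPlace, restrictNormalHom_apply_coe]
    have h1 : σ⁻¹ (x : AlgebraicClosure ℚ) ∈ A ↔ (x : AlgebraicClosure ℚ) ∈ σ • A :=
      (ValuationSubring.mem_pointwise_smul_iff_inv_smul_mem (g := σ) (S := A)
        (x := (x : AlgebraicClosure ℚ))).symm
    rw [h1, hstab]
  · intro σ' hσ'
    have hstab : σ' • levelPlace F A = levelPlace F A := MulAction.mem_stabilizer_iff.mp hσ'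
    have : Algebra.IsAlgebraic ℚ (AlgebraicClosure ℚ) := AlgebraicClosure.isAlgebraic ℚ
    have : IsAlgClosure ℚ (AlgebraicClosure ℚ) := ⟨inferInstance, inferInstance⟩
    have : Normal ℚ (AlgebraicClosure ℚ) := IsAlgClosure.normal ℚ (AlgebraicClosure ℚ)
    obtain ⟨g₀, hg₀⟩ := AlgEquiv.restrictNormalHom_surjective (F := ℚ) (K₁ := F)
      (AlgebraicClosure ℚ) σ'
    have hg₀F : ∀ x : F, g₀ (x : AlgebraicClosure ℚ) = ((σ' x : F) : AlgebraicClosure ℚ) := by
      intro x
      rw [← hg₀]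
      exact (restrictNormalHom_apply_coe F g₀ x).symm
    have h₀ : ∀ x ∈ F, (g₀ x ∈ A ↔ x ∈ A) := by
      intro x hx
      have h1 := hg₀F ⟨x, hx⟩
      rw [show g₀ x = g₀ ((⟨x, hx⟩ : F) : AlgebraicClosure ℚ) from rfl, h1]
      have h2 : σ' • (⟨x, hx⟩ : F) ∈ σ' • levelPlace F A ↔ (⟨x, hx⟩ : F) ∈ levelPlace F A :=
        ValuationSubring.smul_mem_pointwise_smul_iff
      rw [hstab] at h2
      exact h2
    obtain ⟨σ, hσD, hσF⟩ := exists_decomposition_lift F A ℓ hℓ hA g₀ h₀
    refine ⟨σ, hσD, ?_⟩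
    ext x
    rw [restrictNormalHom_apply_coe, hσF _ x.2, hg₀F]

end Lift

section Padic

variable (q : ℕ) [Fact q.Prime]
variable (F : IntermediateField ℚ (AlgebraicClosure ℚ)) [hFn : Normal ℚ F]

theorem padicPlace_liesOverPrime : (padicPlace q).LiesOverPrime q :=
  Fermat.Agent.S55.H175.primeLocalPlace_liesOverPrime ⟨q, Fact.out⟩

omit hFn in
theorem mem_levelPlace_padicPlace {x : F} :
    x ∈ levelPlace F (padicPlace q) ↔ ‖padicEmbedding q (x : AlgebraicClosure ℚ)‖ ≤ 1 := by
  rw [mem_levelPlace, Fermat.Agent.S55.H175.mem_padicPlace_iff_norm]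

/-- **The finite-level decomposition group.**  The image of `Gal(ℚ̄_q/ℚ_q)` in `Gal(F/ℚ)` is the
decomposition group of the valuation subring `{x ∈ F | ‖ι x‖ ≤ 1}` of `F`. -/
theorem decompositionAt_eq :
    decompositionAt q F = (levelPlace F (padicPlace q)).decompositionSubgroup ℚ := by
  rw [decompositionAt_eq_map]
  exact map_decompositionSubgroup F (padicPlace q) q Fact.out (padicPlace_liesOverPrime q)

/-- Membership in the finite-level decomposition group: isometries of `(F, ‖ι ·‖)`. -/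
theorem mem_decompositionAt_iff (σ : F ≃ₐ[ℚ] F) :
    σ ∈ decompositionAt q F ↔
      ∀ x : F, ‖padicEmbedding q ((σ x : F) : AlgebraicClosure ℚ)‖ ≤ 1 ↔
        ‖padicEmbedding q (x : AlgebraicClosure ℚ)‖ ≤ 1 := by
  rw [decompositionAt_eq, ValuationSubring.decompositionSubgroup, MulAction.mem_stabilizer_iff]
  constructor
  · intro h x
    rw [← mem_levelPlace_padicPlace, ← mem_levelPlace_padicPlace]
    have h2 : σ • x ∈ σ • levelPlace F (padicPlace q) ↔ x ∈ levelPlace F (padicPlace q) :=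
      ValuationSubring.smul_mem_pointwise_smul_iff
    rw [h] at h2
    exact h2
  · intro h
    ext x
    rw [ValuationSubring.mem_pointwise_smul_iff_inv_smul_mem, mem_levelPlace_padicPlace,
      mem_levelPlace_padicPlace]
    have h1 := h (σ⁻¹ • x)
    rw [show σ (σ⁻¹ • x) = x from by simp [AlgEquiv.smul_def]] at h1
    exact h1.symm

/-- Every element of the finite-level decomposition group comes from `Gal(F_q/ℚ_q)`. -/
theorem exists_local_of_mem_decompositionAt (σ : F ≃ₐ[ℚ] F)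
    (hσ : ∀ x : F, ‖padicEmbedding q ((σ x : F) : AlgebraicClosure ℚ)‖ ≤ 1 ↔
        ‖padicEmbedding q (x : AlgebraicClosure ℚ)‖ ≤ 1) :
    ∃ τ : PadicAlgCl q ≃ₐ[ℚ_[q]] PadicAlgCl q, toLevel q F τ = σ :=
  (mem_decompositionAt_iff q F σ).mpr hσ

end Padic

end Fermat.Agent.S55.Bridge.H175

end
-- ===== PACK-END S55/Bridge/H175/DecompLevel.lean

-- ===== PACK-BEGIN S55/LocalSpec/H964/Clause3.lean
section




/-!
# S55, `Tow.LocalSpec` (helper964): clause 3 (LDIV)

Every element of `F_qˣ` becomes a `p`-th power in `F'_qˣ` for some finite Galois `F' ⊇ F`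
(a level for a bigger finite set of primes): take a `p`-th root in `ℚ̄_q`, cover the finite
extension it generates by a global level (Krasner, B-layer), enlarge to a Galois level.
-/

set_option autoImplicit false
set_option linter.style.haveILetI false

open CategoryTheory

namespace Fermat.Agent.S55.LocalSpec.H964

open Fermat.Agent.S55 Fermat.Agent.S55.Tow

/-- Clause 3 of `Tow.LocalSpec` (LDIV). -/
theorem exists_root_in_tower (p : ℕ) (hp : p ≠ 0) (S' : Finset Nat.Primes) (Lv : Level S')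
    (q : Nat.Primes) (x : (Lv.locUnits q).V) :
    ∃ (S'' : Finset Nat.Primes) (hS : S' ⊆ S'') (Lv' : Level S'')
      (h : Level.ofLE hS Lv ≤ Lv') (y : (Lv'.locUnits q).V),
      p • y = (Level.trLoc h q).hom x := by
  letI : Fact (q : ℕ).Prime := ⟨q.2⟩
  -- the underlying element and a `p`-th root
  set a : (PadicAlgCl (q : ℕ))ˣ := Additive.toMul (Lv.locCoe q x) with ha
  obtain ⟨b₀, hb₀⟩ := IsAlgClosed.exists_pow_nat_eq (a : PadicAlgCl (q : ℕ))
    (Nat.pos_of_ne_zero hp)
  have hb₀ne : b₀ ≠ 0 := by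
    rintro rfl
    rw [zero_pow hp] at hb₀
    exact a.ne_zero hb₀.symm
  set b : (PadicAlgCl (q : ℕ))ˣ := Units.mk0 b₀ hb₀ne with hb
  have hbp : b ^ p = a := by
    apply Units.ext
    rw [Units.val_pow_eq_pow_val]
    exact hb₀
  -- the finite extension generated by the root, covered by a global level
  haveI : Algebra.IsAlgebraic ℚ_[(q : ℕ)] (PadicAlgCl (q : ℕ)) :=
    AlgebraicClosure.isAlgebraic ℚ_[(q : ℕ)]
  haveI : FiniteDimensional ℚ_[(q : ℕ)] (IntermediateField.adjoin ℚ_[(q : ℕ)] {b₀}) :=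
    IntermediateField.adjoin.finiteDimensional (Algebra.IsIntegral.isIntegral b₀)
  obtain ⟨F₁, hF₁, hcover⟩ := Bridge.exists_global_level_of_local (q : ℕ)
    (IntermediateField.adjoin ℚ_[(q : ℕ)] {b₀})
  haveI := hF₁
  haveI : FiniteDimensional ℚ Lv.F := Lv.unram.1
  have hF₂ : FiniteDimensional ℚ (Lv.F ⊔ F₁ : IntermediateField ℚ Qbar) :=
    IntermediateField.finiteDimensional_sup Lv.F F₁
  obtain ⟨T, L', hST, hunr, hgal, hle⟩ :=
    Bridge.exists_galois_ge_isUnramifiedOutside S' (Lv.F ⊔ F₁) hF₂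
  have hnormal : (L'.fixingSubgroup).Normal := by
    haveI := Bridge.isGalois_Qbar
    exact (InfiniteGalois.normal_iff_isGalois L').mpr hgal
  let Lv' : Level T := ⟨L', hunr, hnormal⟩
  have h : Level.ofLE hST Lv ≤ Lv' := le_sup_left.trans hle
  -- the root lies in `F'_q`
  have hfix : ∀ g ∈ Lv'.V q, (unitsQpbar q).ρ g (Additive.ofMul b) = Additive.ofMul b := by
    intro g hg
    have hg1 : locQ q g ∈ L'.fixingSubgroup := hg
    have hg2 : locQ q g ∈ F₁.fixingSubgroup :=
      IntermediateField.fixingSubgroup_antitone (le_sup_right.trans hle) hg1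
    have hg3 := hcover g hg2
    have hg4 : (show PadicAlgCl (q : ℕ) ≃ₐ[ℚ_[(q : ℕ)]] PadicAlgCl (q : ℕ) from g) b₀ = b₀ :=
      (IntermediateField.mem_fixingSubgroup_iff _ _).1 hg3 b₀
        (IntermediateField.subset_adjoin _ _ (Set.mem_singleton b₀))
    apply Additive.toMul.injective
    apply Units.ext
    exact hg4
  refine ⟨T, hST, Lv', h, Lv'.locMk q (Additive.ofMul b) hfix, ?_⟩
  apply Lv'.locCoe_injective q
  rw [map_nsmul, Level.locCoe_mk]
  show p • Additive.ofMul b = Lv.locCoe q x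
  rw [← ofMul_pow, hbp, ha, ofMul_toMul]

end Fermat.Agent.S55.LocalSpec.H964

end
-- ===== PACK-END S55/LocalSpec/H964/Clause3.lean

-- ===== PACK-BEGIN S55/H901/H1FinChar.lean
section



/-!
# S55 / G5: Kummer generator of a character of `G_L` of finite level

`L ≤ F` finite extensions of `ℚ` inside `ℚ̄`, `F/ℚ` Galois, `ζ ∈ L` a primitive `p`-th root of
unity, `χ : G_ℚ → ZMod p` additive on `G_L` and constant modulo `G_F`.  Then there is
`β ∈ F`, `β ≠ 0`, `β^p ∈ L` with `s β = ζ^{χ(s)} β` for all `s ∈ G_L` (Hilbert 90).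
-/

set_option autoImplicit false
set_option linter.style.haveILetI false
set_option linter.unusedSectionVars false

open IntermediateField

namespace Fermat.Agent.S55.H901

open Fermat.Agent.S55.Bridge

/-- `u ^ p = 1` implies `u ^ (a + b).val = u ^ a.val * u ^ b.val` for `a b : ZMod p`. -/
theorem pow_val_add {G : Type*} [Monoid G] {p : ℕ} [NeZero p] {u : G} (hu : u ^ p = 1)
    (a b : ZMod p) : u ^ (a + b).val = u ^ a.val * u ^ b.val := by
  rw [ZMod.val_add, ← pow_eq_pow_mod _ hu, pow_add]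

/-- **Kummer generator of a character.** -/
theorem exists_kummer_generator {p : ℕ} [Fact p.Prime]
    (L F : IntermediateField ℚ (AlgebraicClosure ℚ)) [FiniteDimensional ℚ F] [IsGalois ℚ F]
    (hLF : L ≤ F) {ζ : AlgebraicClosure ℚ} (hζL : ζ ∈ L) (hζ : ζ ^ p = 1) (hζ0 : ζ ≠ 0)
    (χ : (AlgebraicClosure ℚ ≃ₐ[ℚ] AlgebraicClosure ℚ) → ZMod p)
    (hadd : ∀ s ∈ L.fixingSubgroup, ∀ t ∈ L.fixingSubgroup, χ (s * t) = χ s + χ t)
    (hconst : ∀ s ∈ L.fixingSubgroup, ∀ t ∈ F.fixingSubgroup, χ (s * t) = χ s) :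
    ∃ β : AlgebraicClosure ℚ, β ∈ F ∧ β ≠ 0 ∧ β ^ p ∈ L ∧
      ∀ s ∈ L.fixingSubgroup, s β = ζ ^ (χ s).val * β := by
  classical
  haveI : NeZero p := ⟨(Fact.out : p.Prime).ne_zero⟩
  have hχ1 : χ 1 = 0 := by
    have := hadd 1 (one_mem _) 1 (one_mem _)
    rw [mul_one] at this
    exact (add_eq_left.1 this.symm)
  -- restriction to `F`
  let ρF : (AlgebraicClosure ℚ ≃ₐ[ℚ] AlgebraicClosure ℚ) →* (F ≃ₐ[ℚ] F) :=
    AlgEquiv.restrictNormalHom (F := ℚ) (K₁ := AlgebraicClosure ℚ) F
  have hρ : ∀ (s : AlgebraicClosure ℚ ≃ₐ[ℚ] AlgebraicClosure ℚ) (x : F),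
      ((ρF s x : F) : AlgebraicClosure ℚ) = s (x : AlgebraicClosure ℚ) :=
    fun s x => AlgEquiv.restrictNormal_commutes s F x
  let T : Subgroup (F ≃ₐ[ℚ] F) := L.fixingSubgroup.map ρF
  let f : ↥L.fixingSubgroup →* ↥T := ρF.subgroupMap L.fixingSubgroup
  have hf : Function.Surjective f := ρF.subgroupMap_surjective L.fixingSubgroup
  have hfval : ∀ s : ↥L.fixingSubgroup, ((f s : ↥T) : F ≃ₐ[ℚ] F) = ρF (s : _) := fun s => rfl
  -- the root of unity in `F`
  let ζF : Fˣ := Units.mk0 ⟨ζ, hLF hζL⟩ (fun h => hζ0 (congrArg Subtype.val h))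
  have hζF : ζF ^ p = 1 := by
    apply Units.ext
    apply Subtype.ext
    simpa [ζF] using hζ
  -- the character with values in `Fˣ`
  let z₀ : ↥L.fixingSubgroup →* Fˣ :=
    { toFun := fun s => ζF ^ (χ (s : _)).val
      map_one' := by
        show ζF ^ (χ ((1 : ↥L.fixingSubgroup) : _)).val = 1
        rw [Subgroup.coe_one, hχ1, ZMod.val_zero, pow_zero]
      map_mul' := fun s t => by
        show ζF ^ (χ ((s * t : ↥L.fixingSubgroup) : _)).val = _
        rw [Subgroup.coe_mul, hadd _ s.2 _ t.2, pow_val_add hζF] }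
  have hker : f.ker ≤ z₀.ker := by
    intro s hs
    rw [MonoidHom.mem_ker] at hs ⊢
    have h1 : ρF (s : _) = 1 := by
      have := congrArg (Subtype.val) hs
      simpa [hfval] using this
    have hsF : (s : AlgebraicClosure ℚ ≃ₐ[ℚ] AlgebraicClosure ℚ) ∈ F.fixingSubgroup := by
      rw [IntermediateField.mem_fixingSubgroup_iff]
      intro x hx
      have := hρ (s : _) ⟨x, hx⟩
      rw [h1] at this
      exact this.symm
    have h2 : χ (s : _) = 0 := by
      have := hconst 1 (one_mem _) _ hsF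
      rw [one_mul, hχ1] at this
      exact this
    show ζF ^ (χ (s : _)).val = 1
    rw [h2, ZMod.val_zero, pow_zero]
  let z : ↥T →* Fˣ := (f.liftOfSurjective hf) ⟨z₀, hker⟩
  have hz₀ : ∀ s : ↥L.fixingSubgroup, z (f s) = z₀ s := fun s =>
    MonoidHom.liftOfRightInverse_comp_apply f _ _ ⟨z₀, hker⟩ s
  -- `T` fixes `ζF`
  have hTζ : ∀ σ : ↥T, σ • ((ζF : Fˣ) : F) = ζF := by
    intro σ
    obtain ⟨s, rfl⟩ := hf σ
    apply Subtype.ext
    show ((ρF (s : _) (ζF : F) : F) : AlgebraicClosure ℚ) = _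
    rw [hρ]
    exact (IntermediateField.mem_fixingSubgroup_iff _ _).1 s.2 ζ hζL
  have hzfix : ∀ σ τ : ↥T, σ • ((z τ : Fˣ) : F) = z τ := by
    intro σ τ
    obtain ⟨t, rfl⟩ := hf τ
    rw [hz₀]
    have h1 : ((z₀ t : Fˣ) : F) = ((ζF : Fˣ) : F) ^ (χ (t : _)).val :=
      Units.val_pow_eq_pow_val _ _
    rw [h1, smul_pow', hTζ]
  obtain ⟨βF, hβ0, hβ⟩ := exists_ne_zero_forall_smul_eq z hzfix
  have hβs : ∀ s ∈ L.fixingSubgroup, s (βF : AlgebraicClosure ℚ) = ζ ^ (χ s).val * βF := by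
    intro s hs
    have h1 := hβ (f ⟨s, hs⟩)
    rw [hz₀] at h1
    have h2 := congrArg (Subtype.val) h1
    have h3 : ((f ⟨s, hs⟩ • βF : F) : AlgebraicClosure ℚ) = s (βF : AlgebraicClosure ℚ) := hρ s βF
    rw [h3] at h2
    rw [h2]
    show (((ζF ^ (χ s).val : Fˣ) : F) * βF : F).1 = _
    simp [ζF]
  refine ⟨βF, βF.2, fun h => hβ0 (Subtype.ext h), ?_, hβs⟩
  haveI := isGalois_Qbar
  rw [← InfiniteGalois.fixedField_fixingSubgroup L, IntermediateField.mem_fixedField_iff]
  intro s hs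
  rw [map_pow, hβs s hs, mul_pow, ← pow_mul, mul_comm (χ s).val p, pow_mul, hζ, one_pow, one_mul]

end Fermat.Agent.S55.H901

end
-- ===== PACK-END S55/H901/H1FinChar.lean

-- ===== PACK-BEGIN S55/K/Spec.lean
section
/-
S55 moonshot — LAYER K (global Kummer bridge), interface.   Architect: helper4.
Namespace `Fermat.Agent.S55.K`.  NO sorry.  Blueprint + leaf table: `coord/S55-K.md` (origin/helper4).

Spec pattern: every interface is a `def XxxSpec : Prop`; producers prove `theorem xxx : XxxSpec`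
or `theorem xxx_of (h : YyySpec …) : XxxSpec` in `Fermat/Agent/S55/K/<Leaf>H<seat>.lean`,
namespace `Fermat.Agent.S55.K.H<seat>`.

Everything is COCHAIN-LEVEL on `G_ℚ` with the level system `globalLevels S` (and `localLevels q` on the
Prelude's local groups): no quotient types, no colimits, no `Ext`.
`μ = Bridge.muP p`, `𝔼 = sUnits S` (S-units of `ℚ̄`), `Ind_V A = indG V A = (G_ℚ ⧸ V →₀ A)`.

PART A  outputs of layer K for layer D (route C′):   A1 `FinH1Spec`, A3 `SurjH2Spec`, A8 `CapSpec`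
        (A5/A5′/A7 are in `SpecTop.lean`, after `PT/Spec.lean` of helper835 is frozen).
PART B  K-top reductions (formal, cochain level):     `H3FinSpec`, `H3IndMuSpec`
PART C  inputs of layer K (= what class field theory must deliver, in cochain form):
        `KummerSpec` (KUM), `H2DivESpec` (GO1), `H3TorsESpec` (GO2), `HasseESpec` (GO3),
        `NormCapSpec` (GO6), `FinESpec` (GO7).
-/


set_option autoImplicit false

noncomputable section

namespace Fermat.Agent.S55.K

open groupCohomology Fermat.Agent.S55.PT Fermat.Agent.S55.Bridge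

variable (p : ℕ) [Fact p.Prime] (S : Finset Nat.Primes)

/-! ### PART A — outputs -/

/-- **A1 (FIN-glob).** `H¹_S(N)` is finite-dimensional. -/
def FinH1Spec : Prop :=
  p ≠ 2 → ExtCitation.pPrime p ∈ S →
  ∀ N : Rep.{0, 0, 0} (ZMod p) _root_.Fermat.Agent.S55.PT.GQ, FiniteDimensional (ZMod p) N → (globalLevels S).IsUSmooth N →
    Module.Finite (ZMod p) ((globalLevels S).H1 N)

/-- **A3 (SURJ2-glob).** `H²_S` is right exact on finite modules (`cd_p G_S ≤ 2`). -/
def SurjH2Spec : Prop :=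
  p ≠ 2 → ExtCitation.pPrime p ∈ S →
  ∀ P N : Rep.{0, 0, 0} (ZMod p) _root_.Fermat.Agent.S55.PT.GQ, FiniteDimensional (ZMod p) P → FiniteDimensional (ZMod p) N →
    (globalLevels S).IsUSmooth P → (globalLevels S).IsUSmooth N →
    ∀ (φ : P →ₗ[ZMod p] N) (hφ : IsEquivariant φ), Function.Surjective φ →
      Function.Surjective (pushH2 φ hφ (globalLevels S))

/-- **A8 (CAP)**, cochain form.  For every level `V` there is a normal level `U ≤ V` such that
every level-constant 2-cocycle of `Ind_U μ` which is locally a (level-constant) coboundary at all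
`q ∈ S` becomes a level-constant coboundary in `Ind_V μ`. -/
def CapSpec : Prop :=
  p ≠ 2 → ExtCitation.pPrime p ∈ S →
  ∀ V ∈ (globalLevels S).levels, ∃ U ∈ (globalLevels S).levels, ∃ hUV : U ≤ V, U.Normal ∧
    ∀ x ∈ (globalLevels S).Z2 (indG U (muP p)),
      (∀ q ∈ S, (x ∘ Prod.map (rl q) (rl q) : Gl q × Gl q → indG U (muP p)) ∈
        (localLevels q).B2 (Rep.res (rl q) (indG U (muP p)))) →
      (indProj (MonoidHom.id _root_.Fermat.Agent.S55.PT.GQ) hUV (muP p) ∘ x : _root_.Fermat.Agent.S55.PT.GQ × _root_.Fermat.Agent.S55.PT.GQ → indG V (muP p)) ∈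
        (globalLevels S).B2 (indG V (muP p))

/-! ### PART B — formal reductions inside layer K -/

/-- `H³_S(R) = 0` for every finite module `R`. -/
def H3FinSpec : Prop :=
  p ≠ 2 → ExtCitation.pPrime p ∈ S →
  ∀ R : Rep.{0, 0, 0} (ZMod p) _root_.Fermat.Agent.S55.PT.GQ, FiniteDimensional (ZMod p) R → (globalLevels S).IsUSmooth R →
    H3Vanish (globalLevels S) R

/-- `H³_S(Ind_V μ) = 0` for every level `V` (`= H³(G_S(K_V), μ_p) = 0`). -/
def H3IndMuSpec : Prop :=
  p ≠ 2 → ExtCitation.pPrime p ∈ S →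
  ∀ V ∈ (globalLevels S).levels, H3Vanish (globalLevels S) (indG V (muP p))

/-! ### PART C — inputs (arithmetic, cochain form) -/

/-- **KUM.** The `S`-smooth `S`-units are `p`-divisible (`p ∈ S`): an `S`-unit fixed by a level
has a `p`-th root which is fixed by a level. -/
def KummerSpec : Prop :=
  ExtCitation.pPrime p ∈ S →
  ∀ x : sUnits S, (∃ U ∈ (globalLevels S).levels, ∀ s ∈ U, (sUnits S).ρ s x = x) →
    ∃ y : sUnits S, p • y = x ∧ ∃ U ∈ (globalLevels S).levels, ∀ s ∈ U, (sUnits S).ρ s y = y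

/-- **GO1.** `H²(G_S(K_V), 𝒪_Sˣ)` is `p`-divisible. -/
def H2DivESpec : Prop :=
  p ≠ 2 → ExtCitation.pPrime p ∈ S →
  ∀ V ∈ (globalLevels S).levels, H2Divisible (globalLevels S) (indG V (sUnits S)) p

/-- **GO2.** `H³(G_S(K_V), 𝒪_Sˣ)[p] = 0`. -/
def H3TorsESpec : Prop :=
  p ≠ 2 → ExtCitation.pPrime p ∈ S →
  ∀ V ∈ (globalLevels S).levels, H3TorsVanish (globalLevels S) (indG V (sUnits S)) p

/-- **GO3 (Hasse principle for `S`-units).** A class of `H²(G_S(K_V), 𝒪_Sˣ)[p]` which is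
trivial in `H²(G_q, Ind_V ℚ̄_qˣ)` for all `q ∈ S` is trivial. -/
def HasseESpec : Prop :=
  p ≠ 2 → ExtCitation.pPrime p ∈ S →
  ∀ V ∈ (globalLevels S).levels, ∀ x ∈ (globalLevels S).Z2 (indG V (sUnits S)),
    p • x ∈ (globalLevels S).B2 (indG V (sUnits S)) →
    (∀ q ∈ S, (indLocE q S V ∘ x ∘ Prod.map (rl q) (rl q) :
        Gl q × Gl q → ind (rl q) V (Tow.unitsQpbar q)) ∈
      (localLevels q).B2 (ind (rl q) V (Tow.unitsQpbar q))) →
    x ∈ (globalLevels S).B2 (indG V (sUnits S))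

/-- **GO6 (existence mod `p`, cohomological form).** For every level `V` there is a normal level
`U ≤ V` with `im(H¹_S(Ind_U 𝔼) → H¹_S(Ind_V 𝔼)) ⊂ p·H¹_S(Ind_V 𝔼)`
(`H¹_S(Ind_V 𝔼) = Cl_S(K_V)`, the map is the norm: `K_U ⊇` the `p`-Hilbert `S`-class field). -/
def NormCapSpec : Prop :=
  p ≠ 2 → ExtCitation.pPrime p ∈ S →
  ∀ V ∈ (globalLevels S).levels, ∃ U ∈ (globalLevels S).levels, ∃ hUV : U ≤ V, U.Normal ∧
    ∀ z ∈ (globalLevels S).Z1 (indG U (sUnits S)),
      ∃ w ∈ (globalLevels S).Z1 (indG V (sUnits S)),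
        (indProj (MonoidHom.id _root_.Fermat.Agent.S55.PT.GQ) hUV (sUnits S) ∘ z - p • w : _root_.Fermat.Agent.S55.PT.GQ → indG V (sUnits S)) ∈
          LevelSys.B1 (indG V (sUnits S))

/-- **GO7 (finiteness).** `(Ind_V 𝔼)^{G_ℚ}/p = 𝒪_{K_V,S}ˣ/p` and `H¹_S(Ind_V 𝔼)[p] = Cl_S(K_V)[p]`
are finite: there are finitely many invariants `e_i` and cocycles `z_j` such that every invariant
is `≡ Σ n_i e_i` mod `p` and every `p`-torsion class is `Σ n_j [z_j]`. -/
def FinESpec : Prop :=
  ExtCitation.pPrime p ∈ S →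
  ∀ V ∈ (globalLevels S).levels,
    (∃ T : Finset (indG V (sUnits S)), ∀ e : indG V (sUnits S),
        (∀ g : _root_.Fermat.Agent.S55.PT.GQ, (indG V (sUnits S)).ρ g e = e) →
        ∃ e' : indG V (sUnits S), (∀ g : _root_.Fermat.Agent.S55.PT.GQ, (indG V (sUnits S)).ρ g e' = e') ∧
          e - p • e' ∈ Submodule.span ℤ (T : Set (indG V (sUnits S)))) ∧
    (∃ T : Finset (_root_.Fermat.Agent.S55.PT.GQ → indG V (sUnits S)), ∀ z ∈ (globalLevels S).Z1 (indG V (sUnits S)),
        p • z ∈ LevelSys.B1 (indG V (sUnits S)) →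
        ∃ t ∈ Submodule.span ℤ (T : Set (_root_.Fermat.Agent.S55.PT.GQ → indG V (sUnits S))),
          z - t ∈ LevelSys.B1 (indG V (sUnits S)))

end Fermat.Agent.S55.K

end

end
-- ===== PACK-END S55/K/Spec.lean

-- ===== PACK-BEGIN S55/KL/H824/PUnbounded.lean
section




/-!
# S55 / layer KL, leaf KL-A3 (`LocalPUnboundedSpec`)                       (helper824)

The `p`-part of the index `[G_{ℚ_q} : V]` of the normal local levels `V` below any given level
is unbounded.

Proof.  Let `ζ_j ∈ ℚ̄` be a primitive `p^j`-th root of unity and `E_j = ℚ_q(ι ζ_j) ⊆ ℚ̄_q`.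
* `[E_j : ℚ_q]` divides `φ(p^j)` (cyclotomic extension);
* `[E_j : ℚ_q]` is unbounded: otherwise some `E_{j₀}` contains all `ζ_j`; it is a
  finite-dimensional normed space over the locally compact field `ℚ_q`, so its unit ball is compact;
  but two distinct roots of unity of `p`-power order have distance `≥ ‖p‖ > 0` (ultrametric);
* hence `p^m ∣ [E_j : ℚ_q]` for a suitable `j`;
* the level `r⁻¹(G_{ℚ(ζ_j)})` is the fixing subgroup of `E_j`, of index `[E_j : ℚ_q]`, and the
  index of any smaller level is a multiple of it.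

The statement is given in unfolded form (`localPUnbounded`); it is definitionally
`KL.LocalPUnboundedSpec` of the KL blueprint.
-/

set_option autoImplicit false
set_option linter.style.haveILetI false
set_option linter.unusedSectionVars false

noncomputable section

namespace Fermat.Agent.S55.KL.H824

open Fermat.Agent.S55.PT ExtCitation

/-! ## 1. Roots of unity of `p`-power order in an ultrametric field are `‖p‖`-separated -/

section Norm

variable {K : Type*} [NormedField K] [IsUltrametricDist K]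

lemma norm_geom_sum_le_one {x : K} (hx : ‖x‖ ≤ 1) (n : ℕ) :
    ‖∑ i ∈ Finset.range n, x ^ i‖ ≤ 1 := by
  refine IsUltrametricDist.norm_sum_le_of_forall_le_of_nonneg zero_le_one (fun i _ => ?_)
  rw [norm_pow]
  exact pow_le_one₀ (norm_nonneg _) hx

lemma norm_one_sub_pow_le {x : K} (hx : ‖x‖ ≤ 1) (n : ℕ) : ‖1 - x ^ n‖ ≤ ‖1 - x‖ := by
  have h : 1 - x ^ n = (∑ i ∈ Finset.range n, x ^ i) * (1 - x) := by
    have := geom_sum_mul x n
    linear_combination this
  rw [h, norm_mul]
  calc ‖∑ i ∈ Finset.range n, x ^ i‖ * ‖1 - x‖ ≤ 1 * ‖1 - x‖ := by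
        gcongr
        exact norm_geom_sum_le_one hx n
    _ = ‖1 - x‖ := one_mul _

omit [IsUltrametricDist K] in
lemma norm_eq_one_of_pow_eq_one' {x : K} {n : ℕ} (hn : n ≠ 0) (h : x ^ n = 1) : ‖x‖ = 1 := by
  have h1 : ‖x‖ ^ n = 1 := by rw [← norm_pow, h, norm_one]
  exact (pow_eq_one_iff_of_nonneg (norm_nonneg _) hn).1 h1

lemma norm_prime_le_norm_one_sub {p : ℕ} (hp : p.Prime) :
    ∀ (k : ℕ) {ξ : K}, ξ ^ (p ^ k) = 1 → ξ ≠ 1 → ‖(p : K)‖ ≤ ‖1 - ξ‖ := by
  intro k
  induction k with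
  | zero =>
    intro ξ h h1
    simp only [pow_zero, pow_one] at h
    exact absurd h h1
  | succ k ih =>
    intro ξ h h1
    have hξ : ‖ξ‖ ≤ 1 := le_of_eq (norm_eq_one_of_pow_eq_one' (pow_ne_zero _ hp.ne_zero) h)
    by_cases hη : ξ ^ p = 1
    · have hsum : ∑ i ∈ Finset.range p, ξ ^ i = 0 := by
        have := geom_sum_mul ξ p
        rw [hη, sub_self] at this
        rcases mul_eq_zero.1 this with h0 | h0
        · exact h0
        · exact absurd (sub_eq_zero.1 h0) h1
      have hp' : (p : K) = ∑ i ∈ Finset.range p, (1 - ξ ^ i) := by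
        rw [Finset.sum_sub_distrib, hsum, sub_zero]
        simp
      rw [hp']
      exact IsUltrametricDist.norm_sum_le_of_forall_le_of_nonneg (norm_nonneg _)
        (fun i _ => norm_one_sub_pow_le hξ i)
    · have h' : (ξ ^ p) ^ (p ^ k) = 1 := by
        rw [← pow_mul, ← pow_succ']
        exact h
      exact (ih h' hη).trans (norm_one_sub_pow_le hξ p)

end Norm

/-! ## 2. A finite-dimensional subspace over a locally compact field cannot contain
primitive `p^j`-th roots of unity for all `j` -/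

section Compact

variable {K : Type*} [NormedField K] [IsUltrametricDist K]

lemma norm_prime_le_norm_sub {p : ℕ} (hp : p.Prime) {ζ : ℕ → K}
    (hζ : ∀ j, IsPrimitiveRoot (ζ j) (p ^ j)) {a b : ℕ} (hab : a < b) :
    ‖(p : K)‖ ≤ ‖ζ a - ζ b‖ := by
  have ha0 : ζ a ≠ 0 := (hζ a).ne_zero (pow_ne_zero _ hp.ne_zero)
  have hna : ‖ζ a‖ = 1 :=
    norm_eq_one_of_pow_eq_one' (pow_ne_zero a hp.ne_zero) (hζ a).pow_eq_one
  have hapow : ζ a ^ (p ^ b) = 1 := by
    obtain ⟨c, rfl⟩ := Nat.exists_eq_add_of_le hab.le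
    rw [pow_add, pow_mul, (hζ a).pow_eq_one, one_pow]
  have hξpow : (ζ b * (ζ a)⁻¹) ^ (p ^ b) = 1 := by
    rw [mul_pow, inv_pow, (hζ b).pow_eq_one, hapow, inv_one, one_mul]
  have hξne : ζ b * (ζ a)⁻¹ ≠ 1 := by
    intro h
    have hba : ζ b = ζ a := by
      have := congrArg (· * ζ a) h
      simpa [mul_assoc, inv_mul_cancel₀ ha0] using this
    have hpow : p ^ b = p ^ a := IsPrimitiveRoot.unique (hζ b) (hba ▸ hζ a)
    have := Nat.pow_right_injective hp.two_le hpow
    omega
  have hfac : ζ a - ζ b = ζ a * (1 - ζ b * (ζ a)⁻¹) := by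
    field_simp
  rw [hfac, norm_mul, hna, one_mul]
  exact norm_prime_le_norm_one_sub hp b hξpow hξne

variable {k : Type*} [NontriviallyNormedField k] [LocallyCompactSpace k] [NormedAlgebra k K]

theorem not_forall_primitiveRoot_mem {p : ℕ} (hp : p.Prime) (hpK : (p : K) ≠ 0)
    (E : Submodule k K) [FiniteDimensional k E] (ζ : ℕ → K)
    (hζ : ∀ j, IsPrimitiveRoot (ζ j) (p ^ j)) : ¬ ∀ j, ζ j ∈ E := by
  intro hmem
  have : ProperSpace E := FiniteDimensional.proper k E
  let x : ℕ → E := fun j => ⟨ζ j, hmem j⟩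
  have hb : ∀ j, x j ∈ Metric.closedBall (0 : E) 1 := by
    intro j
    rw [mem_closedBall_zero_iff]
    exact le_of_eq (norm_eq_one_of_pow_eq_one' (pow_ne_zero j hp.ne_zero) (hζ j).pow_eq_one)
  obtain ⟨a, -, φ, hφ, hlim⟩ := tendsto_subseq_of_bounded Metric.isBounded_closedBall hb
  have hc := hlim.cauchySeq
  rw [Metric.cauchySeq_iff] at hc
  obtain ⟨N, hN⟩ := hc ‖(p : K)‖ (norm_pos_iff.2 hpK)
  have h1 := hN N le_rfl (N + 1) (Nat.le_succ N)
  have h2 : ‖(p : K)‖ ≤ ‖ζ (φ N) - ζ (φ (N + 1))‖ :=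
    norm_prime_le_norm_sub hp hζ (hφ (Nat.lt_succ_self N))
  have h3 : dist ((x ∘ φ) N) ((x ∘ φ) (N + 1)) = ‖ζ (φ N) - ζ (φ (N + 1))‖ := by
    rw [dist_eq_norm]
    rfl
  rw [h3] at h1
  exact absurd h1 (not_lt.2 h2)

end Compact

/-! ## 3. Degrees of the `p`-power cyclotomic extensions -/

section Field

variable (k : Type*) {K : Type*} [Field k] [Field K] [Algebra k K] [Algebra.IsIntegral k K]

lemma finrank_adjoin_dvd_totient {n : ℕ} [NeZero n] {ζ : K} (hζ : IsPrimitiveRoot ζ n) :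
    Module.finrank k (IntermediateField.adjoin k {ζ}) ∣ n.totient := by
  have hcyc := hζ.intermediateField_adjoin_isCyclotomicExtension k
  have hgal : IsGalois k (IntermediateField.adjoin k {ζ}) :=
    IsCyclotomicExtension.isGalois {n} k _
  have hfd : FiniteDimensional k (IntermediateField.adjoin k {ζ}) :=
    IsCyclotomicExtension.finiteDimensional {n} k _
  let μ : IntermediateField.adjoin k {ζ} := ⟨ζ, IntermediateField.mem_adjoin_simple_self k ζ⟩
  have hμ : IsPrimitiveRoot μ n := IsPrimitiveRoot.coe_submonoidClass_iff.1 hζ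
  rw [← IsGalois.card_aut_eq_finrank, ← ZMod.card_units_eq_totient n, ← Nat.card_eq_fintype_card]
  exact Subgroup.card_dvd_of_injective _ (hμ.autToPow_injective k)

lemma adjoin_primitiveRoot_mono {p : ℕ} (hp : p.Prime) {ζ : ℕ → K}
    (hζ : ∀ j, IsPrimitiveRoot (ζ j) (p ^ j)) {i j : ℕ} (hij : i ≤ j) :
    IntermediateField.adjoin k {ζ i} ≤ IntermediateField.adjoin k {ζ j} := by
  rw [IntermediateField.adjoin_simple_le_iff]
  haveI : NeZero (p ^ j) := ⟨pow_ne_zero _ hp.ne_zero⟩
  have hpow : ζ i ^ (p ^ j) = 1 := by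
    obtain ⟨c, rfl⟩ := Nat.exists_eq_add_of_le hij
    rw [pow_add, pow_mul, (hζ i).pow_eq_one, one_pow]
  obtain ⟨e, -, he⟩ := (hζ j).eq_pow_of_pow_eq_one hpow
  rw [← he]
  exact pow_mem (IntermediateField.mem_adjoin_simple_self k _) e

lemma pow_dvd_of_dvd_of_lt {p : ℕ} (hp : p.Prime) {d j m : ℕ} (hd : d ∣ p ^ j * (p - 1))
    (hlt : p ^ m * (p - 1) < d) : p ^ m ∣ d := by
  obtain ⟨d1, d2, h1, h2, rfl⟩ := (Nat.dvd_mul).1 hd
  obtain ⟨a, ha, rfl⟩ := (Nat.dvd_prime_pow hp).1 h1
  have hp1 : 0 < p - 1 := Nat.sub_pos_of_lt hp.one_lt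
  have hd2 : d2 ≤ p - 1 := Nat.le_of_dvd hp1 h2
  have h3 : p ^ m * (p - 1) < p ^ a * (p - 1) := lt_of_lt_of_le hlt (Nat.mul_le_mul_left _ hd2)
  have h4 : p ^ m < p ^ a := lt_of_mul_lt_mul_right h3 (Nat.zero_le _)
  have h5 : m < a := (Nat.pow_lt_pow_iff_right hp.one_lt).1 h4
  exact Dvd.dvd.mul_right (pow_dvd_pow p h5.le) d2

lemma totient_prime_pow_dvd {p : ℕ} (hp : p.Prime) (j : ℕ) :
    (p ^ j).totient ∣ p ^ j * (p - 1) := by
  rcases Nat.eq_zero_or_pos j with rfl | hj
  · simp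
  · rw [Nat.totient_prime_pow hp hj]
    exact Nat.mul_dvd_mul_right (pow_dvd_pow p (Nat.sub_le j 1)) _

end Field

section Unbounded

variable (k : Type*) {K : Type*} [NontriviallyNormedField k] [LocallyCompactSpace k]
  [NormedField K] [NormedAlgebra k K] [IsUltrametricDist K] [Algebra.IsIntegral k K]

theorem exists_lt_finrank_adjoin {p : ℕ} (hp : p.Prime) (hpK : (p : K) ≠ 0) (ζ : ℕ → K)
    (hζ : ∀ j, IsPrimitiveRoot (ζ j) (p ^ j)) (B : ℕ) :
    ∃ j, B < Module.finrank k (IntermediateField.adjoin k {ζ j}) := by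
  by_contra hcon
  push Not at hcon
  have hfd : ∀ j, FiniteDimensional k (IntermediateField.adjoin k {ζ j}) := fun j =>
    IntermediateField.adjoin.finiteDimensional (Algebra.IsIntegral.isIntegral (ζ j))
  -- an index of maximal degree
  have hmax : ∃ j0, ∀ j, Module.finrank k (IntermediateField.adjoin k {ζ j}) ≤
      Module.finrank k (IntermediateField.adjoin k {ζ j0}) := by
    by_contra hno
    push Not at hno
    have hall : ∀ n : ℕ, ∃ j, n ≤ Module.finrank k (IntermediateField.adjoin k {ζ j}) := by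
      intro n
      induction n with
      | zero => exact ⟨0, Nat.zero_le _⟩
      | succ n ih =>
        obtain ⟨j, hj⟩ := ih
        obtain ⟨j', hj'⟩ := hno j
        exact ⟨j', by omega⟩
    obtain ⟨j, hj⟩ := hall (B + 1)
    have := hcon j
    omega
  obtain ⟨j0, hj0⟩ := hmax
  have hmem : ∀ j, ζ j ∈ IntermediateField.adjoin k {ζ j0} := by
    intro j
    have hle : IntermediateField.adjoin k {ζ j0} ≤ IntermediateField.adjoin k {ζ (max j j0)} :=
      adjoin_primitiveRoot_mono k hp hζ (le_max_right j j0)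
    haveI := hfd (max j j0)
    have heq : IntermediateField.adjoin k {ζ j0} = IntermediateField.adjoin k {ζ (max j j0)} :=
      IntermediateField.eq_of_le_of_finrank_le hle (hj0 _)
    rw [heq]
    exact adjoin_primitiveRoot_mono k hp hζ (le_max_left j j0)
      (IntermediateField.mem_adjoin_simple_self k _)
  haveI : FiniteDimensional k
      ↥((IntermediateField.adjoin k {ζ j0}).toSubalgebra.toSubmodule) := hfd j0
  exact not_forall_primitiveRoot_mem hp hpK
    ((IntermediateField.adjoin k {ζ j0}).toSubalgebra.toSubmodule) ζ hζ hmem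

theorem exists_pow_dvd_finrank_adjoin {p : ℕ} (hp : p.Prime) (hpK : (p : K) ≠ 0) (ζ : ℕ → K)
    (hζ : ∀ j, IsPrimitiveRoot (ζ j) (p ^ j)) (m : ℕ) :
    ∃ j, p ^ m ∣ Module.finrank k (IntermediateField.adjoin k {ζ j}) := by
  obtain ⟨j, hj⟩ := exists_lt_finrank_adjoin k hp hpK ζ hζ (p ^ m * (p - 1))
  refine ⟨j, ?_⟩
  haveI : NeZero (p ^ j) := ⟨pow_ne_zero _ hp.ne_zero⟩
  exact pow_dvd_of_dvd_of_lt hp
    ((finrank_adjoin_dvd_totient k (hζ j)).trans (totient_prime_pow_dvd hp j)) hj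

end Unbounded

/-! ## 4. The local levels attached to the cyclotomic fields -/

section Galois

lemma mem_fixingSubgroup_adjoin_simple_iff {F E : Type*} [Field F] [Field E] [Algebra F E]
    (σ : E ≃ₐ[F] E) (y : E) :
    σ ∈ (IntermediateField.adjoin F {y}).fixingSubgroup ↔ σ y = y := by
  rw [IntermediateField.mem_fixingSubgroup_iff]
  constructor
  · intro h
    exact h y (IntermediateField.mem_adjoin_simple_self F y)
  · intro h x hx
    induction hx using IntermediateField.adjoin_induction with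
    | mem x hx =>
      rw [Set.mem_singleton_iff] at hx
      rw [hx]
      exact h
    | algebraMap x => exact σ.commutes x
    | add x y _ _ hx hy => rw [map_add, hx, hy]
    | inv x _ hx => rw [map_inv₀, hx]
    | mul x y _ _ hx hy => rw [map_mul, hx, hy]

variable (q : ℕ) [Fact q.Prime]

lemma comap_fixingSubgroup_adjoin_eq (z : AlgebraicClosure ℚ) :
    (IntermediateField.adjoin ℚ {z}).fixingSubgroup.comap (localGaloisToGlobal q) =
      (IntermediateField.adjoin ℚ_[q] {padicEmbedding q z}).fixingSubgroup := by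
  ext τ
  rw [Subgroup.mem_comap, mem_fixingSubgroup_adjoin_simple_iff,
    mem_fixingSubgroup_adjoin_simple_iff, ← padicEmbedding_localGaloisToGlobal]
  exact ((padicEmbedding q).injective.eq_iff).symm

lemma index_comap_fixingSubgroup_adjoin (z : AlgebraicClosure ℚ) :
    ((IntermediateField.adjoin ℚ {z}).fixingSubgroup.comap (localGaloisToGlobal q)).index =
      Module.finrank ℚ_[q] (IntermediateField.adjoin ℚ_[q] {padicEmbedding q z}) := by
  rw [comap_fixingSubgroup_adjoin_eq]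
  exact (IntermediateField.finrank_eq_fixingSubgroup_index _ _).symm

end Galois

/-! ## 5. KL-A3 -/

/-- **KL-A3** (`LocalPUnboundedSpec`, unfolded).  The `p`-part of `[G_{ℚ_q} : V]`, `V` a normal
local level below `V₀`, is unbounded. -/
theorem localPUnbounded (p : ℕ) [Fact p.Prime] (q : Nat.Primes) (V₀ : Subgroup (Gl q))
    (hV₀ : V₀ ∈ (localLevels q).levels) (m : ℕ) :
    ∃ V : Subgroup (Gl q), V ∈ (localLevels q).levels ∧ V.Normal ∧ V ≤ V₀ ∧
      p ^ m ∣ V.index := by
  letI : Fact (q : ℕ).Prime := ⟨q.2⟩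
  have hp : p.Prime := Fact.out
  have hex : ∀ j : ℕ, ∃ z : AlgebraicClosure ℚ, IsPrimitiveRoot z (p ^ j) := fun j => by
    haveI : NeZero ((p : ℕ) : AlgebraicClosure ℚ) := ⟨Nat.cast_ne_zero.2 hp.ne_zero⟩
    exact HasEnoughRootsOfUnity.exists_primitiveRoot _ _
  choose z hz using hex
  have hζ : ∀ j, IsPrimitiveRoot (padicEmbedding (q : ℕ) (z j)) (p ^ j) := fun j =>
    (hz j).map_of_injective (padicEmbedding (q : ℕ)).injective
  have hpK : ((p : ℕ) : PadicAlgCl (q : ℕ)) ≠ 0 := Nat.cast_ne_zero.2 hp.ne_zero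
  obtain ⟨j, hj⟩ := exists_pow_dvd_finrank_adjoin ℚ_[(q : ℕ)] hp hpK
    (fun j => padicEmbedding (q : ℕ) (z j)) hζ m
  have hfd : FiniteDimensional ℚ (IntermediateField.adjoin ℚ {z j}) :=
    IntermediateField.adjoin.finiteDimensional
      ((AlgebraicClosure.isAlgebraic ℚ).isAlgebraic (z j)).isIntegral
  have hH : (IntermediateField.adjoin ℚ {z j}).fixingSubgroup.comap (rl q) ∈
      (localLevels q).levels := ⟨IntermediateField.adjoin ℚ {z j}, hfd, rfl⟩
  have hidx : ((IntermediateField.adjoin ℚ {z j}).fixingSubgroup.comap (rl q)).index =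
      Module.finrank ℚ_[(q : ℕ)]
        (IntermediateField.adjoin ℚ_[(q : ℕ)] {padicEmbedding (q : ℕ) (z j)}) :=
    index_comap_fixingSubgroup_adjoin (q : ℕ) (z j)
  obtain ⟨U, hU, hUle⟩ := (localLevels q).directed V₀ hV₀ _ hH
  obtain ⟨V, hV, hVU, hVn⟩ := pullbackLevels_normal_cofinal724 (rl q) U hU
  refine ⟨V, hV, hVn, hVU.trans (hUle.trans inf_le_left), ?_⟩
  have hdvd : ((IntermediateField.adjoin ℚ {z j}).fixingSubgroup.comap (rl q)).index ∣ V.index :=
    Subgroup.index_dvd_of_le (hVU.trans (hUle.trans inf_le_right))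
  rw [hidx] at hdvd
  exact hj.trans hdvd

end Fermat.Agent.S55.KL.H824

end

end
-- ===== PACK-END S55/KL/H824/PUnbounded.lean

-- ===== PACK-BEGIN S55/KL/FormalH587.lean
section


/-!
# S55, layer KL: the formal leaves KL-SM, KL-DIV, KL-MU, KL-OPEN                 (helper587)

* `unitsSmooth : UnitsSmoothSpec`   — `Ωˣ` is smooth for the levels `galLevels K Ω`;
* `unitsDiv : UnitsDivSpec`         — `Ωˣ` is `p`-divisible if `Ω` is algebraically closed;
* `unitsTors : UnitsTorsSpec`       — `|μ_p(Ω)| = p` if `Ω` is algebraically closed of char. 0;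
* `openSubgroup : OpenSubgroupSpec` — the open subgroups of `Gal(Ω/K)` are the `Gal(Ω/E)`,
  `E/K` finite.

Mathlib only (infinite Galois theory), no `sorry`.
-/

set_option autoImplicit false
set_option linter.style.haveILetI false

open CategoryTheory groupCohomology

namespace Fermat.Agent.S55.KL.H587

/-! ## KL-SM -/

/-- **KL-SM.** -/
theorem unitsSmooth : UnitsSmoothSpec := by
  intro K Ω _ _ _ _ b
  let u : Ωˣ := Additive.toMul b
  refine ⟨_, ⟨FiniteGaloisIntermediateField.adjoin K {(u : Ω)}, rfl⟩, ?_⟩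
  intro w hw
  have hmem : (u : Ω) ∈ (FiniteGaloisIntermediateField.adjoin K {(u : Ω)}).toIntermediateField :=
    FiniteGaloisIntermediateField.subset_adjoin K {(u : Ω)} rfl
  have hfix : w (u : Ω) = (u : Ω) := hw ⟨(u : Ω), hmem⟩
  show Additive.ofMul (w • u) = b
  have : w • u = u := Units.ext hfix
  rw [this]
  rfl

/-! ## KL-DIV -/

/-- **KL-DIV.** -/
theorem unitsDiv : UnitsDivSpec := by
  intro K Ω _ _ _ _ p hp b
  let u : Ωˣ := Additive.toMul b
  obtain ⟨z, hz⟩ := IsAlgClosed.exists_pow_nat_eq (u : Ω) hp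
  have hz0 : z ≠ 0 := by
    rintro rfl
    rw [zero_pow hp.ne'] at hz
    exact u.ne_zero hz.symm
  refine ⟨Additive.ofMul (Units.mk0 z hz0), ?_⟩
  show Additive.ofMul ((Units.mk0 z hz0) ^ p) = b
  have : (Units.mk0 z hz0) ^ p = u := Units.ext (by simpa using hz)
  rw [this]
  rfl

/-! ## KL-MU -/

/-- The `p`-torsion of `Additive Ωˣ` is `μ_p(Ω)`. -/
def torsEquivRootsOfUnity (K Ω : Type) [Field K] [Field Ω] [Algebra K Ω] (p : ℕ) :
    (tors (unitsOm K Ω) p).V ≃ rootsOfUnity p Ω where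
  toFun b := ⟨Additive.toMul (b.1 : Additive Ωˣ), by
    have h : p • (b.1 : Additive Ωˣ) = 0 := b.2
    rw [mem_rootsOfUnity]
    exact congrArg Additive.toMul h⟩
  invFun u := ⟨Additive.ofMul u.1, by
    have h : u.1 ^ p = 1 := (mem_rootsOfUnity _ _).1 u.2
    show p • Additive.ofMul u.1 = 0
    exact congrArg Additive.ofMul h⟩
  left_inv _ := rfl
  right_inv _ := rfl

/-- **KL-MU.** -/
theorem unitsTors : UnitsTorsSpec := by
  intro K Ω _ _ _ _ _ p hp
  haveI : NeZero (p : Ω) := ⟨Nat.cast_ne_zero.2 hp.ne_zero⟩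
  haveI : NeZero p := ⟨hp.ne_zero⟩
  rw [Nat.card_congr (torsEquivRootsOfUnity K Ω p)]
  exact HasEnoughRootsOfUnity.natCard_rootsOfUnity Ω p

/-! ## KL-OPEN -/

/-- **KL-OPEN.** -/
theorem openSubgroup : OpenSubgroupSpec := by
  intro K Ω _ _ _ _ U
  constructor
  · rintro ⟨W, ⟨E', rfl⟩, hWU⟩
    have hopen : IsOpen (U : Set (Ω ≃ₐ[K] Ω)) :=
      Subgroup.isOpen_mono hWU (IntermediateField.fixingSubgroup_isOpen E'.toIntermediateField)
    have hclosed : IsClosed (U : Set (Ω ≃ₐ[K] Ω)) := U.isClosed_of_isOpen hopen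
    let Uc : ClosedSubgroup (Ω ≃ₐ[K] Ω) := ⟨U, hclosed⟩
    have hfix : (IntermediateField.fixedField U).fixingSubgroup = U :=
      InfiniteGalois.fixingSubgroup_fixedField Uc
    refine ⟨IntermediateField.fixedField U, ?_, hfix.symm⟩
    exact (InfiniteGalois.isOpen_iff_finite _).1 (by rw [hfix]; exact hopen)
  · rintro ⟨E, hE, rfl⟩
    haveI : FiniteDimensional K E := hE
    let E' : FiniteGaloisIntermediateField K Ω :=
      { IntermediateField.normalClosure K E Ω with
        finiteDimensional := normalClosure.is_finiteDimensional K E Ω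
        isGalois := IsGalois.normalClosure K E Ω }
    refine ⟨_, ⟨E', rfl⟩, ?_⟩
    have hle : E ≤ E'.toIntermediateField := IntermediateField.le_normalClosure E
    exact IntermediateField.fixingSubgroup_antitone hle

end Fermat.Agent.S55.KL.H587

end
-- ===== PACK-END S55/KL/FormalH587.lean

-- ===== PACK-BEGIN S55/PT/LesNatH113.lean
section


/-!
# S55 / PT layer, leaf D-F6 (helper113): the connecting maps do not depend on choices and are
natural

* `del0_eq_of_lift`, `del1_eq_of_lift`: `δ⁰`, `δ¹` computed from ARBITRARY lifts;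
* `resH1_del0`, `resH2_del1`: naturality with respect to restriction along a level-compatible
  group homomorphism;
* `pushH1_del0`, `pushH2_del1`: naturality with respect to morphisms of short exact sequences.
-/

set_option autoImplicit false

noncomputable section

namespace Fermat.Agent.S55.PT.H113

open groupCohomology Fermat.Agent.S55.PT

variable {k : Type} [Field k] {G : Type} [Group G]
variable {A B C : Rep.{0, 0, 0} k G} (E : SES A B C) (L : LevelSys G)

/-- `δ⁰` computed from an arbitrary lift `b` of the invariant `c` and the cocycle `a` with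
`i ∘ a = d b`. -/
theorem del0_eq_of_lift (hB : L.IsUSmooth B) (c : ↥(LevelSys.H0 C)) (b : B)
    (hb : E.π b = (c : C)) (a : ↥(L.Z1 A)) (ha : E.i ∘ (a : G → A) = (d₀₁ B).hom b) :
    E.del0 L hB c = L.H1π A a := by
  rw [SES.del0_apply, ← sub_eq_zero, ← map_sub, LevelSys.H1π_eq_zero_iff]
  have hker : E.π (E.sec (c : C) - b) = 0 := by
    rw [map_sub, E.π_sec, hb, sub_self]
  refine ⟨E.ret (E.sec (c : C) - b), ?_⟩
  apply ses_comp_injective E
  rw [← push_d₀₁ E.i E.hi, E.i_ret hker, map_sub]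
  have h1 := E.i_comp_del0Fun c
  funext g
  have h1g := congrFun h1 g
  have hag := congrFun ha g
  simp only [Function.comp_apply] at h1g hag
  simp only [Pi.sub_apply, Function.comp_apply, Submodule.coe_sub, map_sub]
  rw [← h1g, ← hag]

/-- `δ¹` computed from an arbitrary level-constant lift `x` of the cocycle `c` and the cocycle
`a` with `i ∘ a = d x`. -/
theorem del1_eq_of_lift (hN : L.NormalCofinal) (hB : L.IsUSmooth B) (hC : L.IsUSmooth C)
    (c : ↥(L.Z1 C)) (x : G → B) (hx : L.IsLC₁ x) (hπx : E.π ∘ x = (c : G → C))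
    (a : ↥(L.Z2 A)) (ha : E.i ∘ (a : G × G → A) = (d₁₂ B).hom x) :
    E.del1 L hN hB hC (L.H1π C c) = L.H2π A a := by
  rw [SES.del1_mk, ← sub_eq_zero, ← map_sub, LevelSys.H2π_eq_zero_iff]
  have hclc : L.IsLC₁ (c : G → C) := c.2.2
  have hker : ∀ g, E.π ((E.sec ∘ (c : G → C) - x) g) = 0 := by
    intro g
    have h := congrFun hπx g
    simp only [Function.comp_apply] at h
    simp only [Pi.sub_apply, Function.comp_apply, map_sub, E.π_sec, h, sub_self]
  refine ⟨E.ret ∘ (E.sec ∘ (c : G → C) - x),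
    (((L.C1 B).sub_mem (hclc.comp E.sec) hx) : L.IsLC₁ _).comp E.ret, ?_⟩
  apply ses_comp_injective E
  rw [← push_d₁₂ E.i E.hi, E.i_comp_ret_comp hker, map_sub]
  have h1 := E.i_comp_del1Fun c.2.1
  funext g
  have h1g := congrFun h1 g
  have hag := congrFun ha g
  simp only [Function.comp_apply] at h1g hag
  simp only [Pi.sub_apply, Function.comp_apply, Submodule.coe_sub, map_sub]
  rw [← h1g, ← hag]

/-! ### Naturality with respect to restriction -/

section Res

variable {G' : Type} [Group G'] {r : G' →* G} {L} {L' : LevelSys G'}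

/-- restriction of a uniformly smooth representation along a level-compatible map is
uniformly smooth. -/
theorem isUSmooth_res (hr : IsLevelCompatible r L L') {B : Rep.{0, 0, 0} k G}
    (hB : L.IsUSmooth B) : L'.IsUSmooth (Rep.res r B) := by
  obtain ⟨U, hU, h⟩ := hB
  obtain ⟨V, hV, hle⟩ := hr U hU
  exact ⟨V, hV, fun s hs a => h (r s) (hle hs) a⟩

/-- `res ∘ δ⁰ = δ⁰ ∘ res`. -/
theorem resH1_del0 (hr : IsLevelCompatible r L L') (hB : L.IsUSmooth B)
    (hB' : L'.IsUSmooth (Rep.res r B)) (c : ↥(LevelSys.H0 C)) :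
    resH1 hr A (E.del0 L hB c) = (E.res r).del0 L' hB' (resH0 r C c) := by
  rw [SES.del0_apply, resH1_mk]
  symm
  refine del0_eq_of_lift (E.res r) L' hB' (resH0 r C c) (E.sec (c : C)) (E.π_sec _) _ ?_
  have h1 := E.i_comp_del0Fun c
  funext g
  have h1g := congrFun h1 (r g)
  exact h1g

/-- `res ∘ δ¹ = δ¹ ∘ res`. -/
theorem resH2_del1 (hr : IsLevelCompatible r L L') (hN : L.NormalCofinal)
    (hN' : L'.NormalCofinal) (hB : L.IsUSmooth B) (hC : L.IsUSmooth C)
    (hB' : L'.IsUSmooth (Rep.res r B)) (hC' : L'.IsUSmooth (Rep.res r C)) (x : L.H1 C) :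
    resH2 hr A (E.del1 L hN hB hC x) = (E.res r).del1 L' hN' hB' hC' (resH1 hr C x) := by
  obtain ⟨c, rfl⟩ := L.H1π_surjective C x
  rw [SES.del1_mk, resH2_mk, resH1_mk]
  symm
  have hclc : L.IsLC₁ (c : G → C) := c.2.2
  refine del1_eq_of_lift (E.res r) L' hN' hB' hC' (resZ1 hr C c) ((E.sec ∘ (c : G → C)) ∘ r)
    (IsLC₁.res hr (hclc.comp E.sec)) ?_ _ ?_
  · funext g
    exact E.π_sec _
  · have h1 := E.i_comp_del1Fun c.2.1
    rw [coe_resZ2]
    have h2 := res_d₁₂ (r := r) B (E.sec ∘ (c : G → C))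
    rw [h2, ← h1]
    rfl

end Res

/-! ### Naturality with respect to morphisms of short exact sequences -/

section Mor

variable {A' B' C' : Rep.{0, 0, 0} k G} (E' : SES A' B' C')
variable (α : A →ₗ[k] A') (β : B →ₗ[k] B') (γ : C →ₗ[k] C')
variable (hα : IsEquivariant α) (hβ : IsEquivariant β) (hγ : IsEquivariant γ)
variable (hl : ∀ a, β (E.i a) = E'.i (α a)) (hr : ∀ b, γ (E.π b) = E'.π (β b))

include hβ hl hr in
/-- `α_* ∘ δ⁰ = δ⁰ ∘ γ_*`. -/
theorem pushH1_del0 (hB : L.IsUSmooth B) (hB' : L.IsUSmooth B') (c : ↥(LevelSys.H0 C)) :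
    pushH1 α hα L (E.del0 L hB c) = E'.del0 L hB' (pushH0 γ hγ c) := by
  rw [SES.del0_apply, pushH1_mk]
  symm
  refine del0_eq_of_lift E' L hB' (pushH0 γ hγ c) (β (E.sec (c : C))) ?_ _ ?_
  · rw [← hr, E.π_sec, coe_pushH0]
  · rw [coe_pushZ1, push_d₀₁ β hβ, ← E.i_comp_del0Fun c]
    funext g
    exact (hl _).symm

include hβ hl hr in
/-- `α_* ∘ δ¹ = δ¹ ∘ γ_*`. -/
theorem pushH2_del1 (hN : L.NormalCofinal) (hB : L.IsUSmooth B) (hC : L.IsUSmooth C)
    (hB' : L.IsUSmooth B') (hC' : L.IsUSmooth C') (x : L.H1 C) :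
    pushH2 α hα L (E.del1 L hN hB hC x) = E'.del1 L hN hB' hC' (pushH1 γ hγ L x) := by
  obtain ⟨c, rfl⟩ := L.H1π_surjective C x
  rw [SES.del1_mk, pushH2_mk, pushH1_mk]
  symm
  have hclc : L.IsLC₁ (c : G → C) := c.2.2
  refine del1_eq_of_lift E' L hN hB' hC' (pushZ1 γ hγ L c) (β ∘ (E.sec ∘ (c : G → C)))
    ((hclc.comp E.sec).comp β) ?_ _ ?_
  · rw [coe_pushZ1]
    funext g
    simp only [Function.comp_apply]
    rw [← hr, E.π_sec]
  · rw [coe_pushZ2, push_d₁₂ β hβ, ← E.i_comp_del1Fun c.2.1]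
    funext g
    exact (hl _).symm

end Mor

end Fermat.Agent.S55.PT.H113

end

end
-- ===== PACK-END S55/PT/LesNatH113.lean

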