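import Mathlib
import Fermat.Agent.Pack.S56.E3L3
import Fermat.Agent.Pack.S56.E10L2
import Fermat.Agent.Pack.S56.E1L1
import Fermat.Agent.Pack.S56.E10L3
import Fermat.Agent.Pack.S56.E5L2
import Fermat.Agent.Pack.S56.E8L2
import Fermat.Agent.Pack.S56.E8L3
import Fermat.Agent.Pack.S56.E8L0
import Fermat.Agent.Pack.S56.E10L0
import Fermat.Agent.Pack.S56.E10L1
import Fermat.Agent.Pack.S56.E8L1
import Fermat.Agent.Pack.S56.E5L0
import Fermat.Agent.Pack.S56.E11L0
import Fermat.Agent.Pack.S56.E11L3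
import Fermat.Agent.Pack.S56.E11L1
import Fermat.Agent.Pack.S56.E4L0
import Fermat.Agent.Pack.S56.E1L2

-- ===== PACK-BEGIN S55/Local/H954/T4.lean
section



/-!
# S55, layer L (core of helper715), piece **T4**: `CyclicH2CardStatement → H2CardDvdStatement`
(helper954)

`|H²(Gal(L/K), Lˣ)|` divides `[L : K]` for every finite Galois extension of local fields, from the
cyclic case: Sylow reduction (`card_H2_dvd_card_of_sylow`), `p`-group induction along a normal
subgroup of index `p` (inflation–restriction in degree `2`, Hilbert 90), Galois correspondence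
(`transportIso`, `quotTransportIso`).
-/

set_option autoImplicit false
set_option linter.unusedSectionVars false
set_option linter.style.haveILetI false

namespace Fermat.Agent.S55.Local.H954

open groupCohomology CategoryTheory IntermediateField Fermat.Agent.S55.Local
  Fermat.Agent.S55.L Fermat.Agent.S55.L.H954 Fermat.Agent.S55.H954

section

/-- The `p`-group case of T4. -/
theorem h2_card_dvd_of_pgroup_local
    (A F : Type) [CommRing A] [IsDomain A] [IsDiscreteValuationRing A]
    [IsAdicComplete (IsLocalRing.maximalIdeal A) A] [Finite (IsLocalRing.ResidueField A)]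
    [Field F] [CharZero F] [Algebra A F] [IsFractionRing A F]
    (hcyc : CyclicH2CardStatement) (p : ℕ) [hp : Fact p.Prime] :
    ∀ (n : ℕ) (K : Type) [Field K] [Algebra F K] [FiniteDimensional F K]
      (L : Type) [Field L] [Algebra F L] [Algebra K L] [IsScalarTower F K L]
      [FiniteDimensional K L] [IsGalois K L], Nat.card (L ≃ₐ[K] L) = p ^ n →
      Finite (H2 (unitsRep K L)) ∧ Nat.card (H2 (unitsRep K L)) ∣ p ^ n := by
  intro n
  induction n with
  | zero =>
    intro K _ _ _ L _ _ _ _ _ _ hG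
    rw [pow_zero] at hG
    have hz : ∀ x : H2 (unitsRep K L), x = 0 := H2_eq_zero_of_card_eq_one (unitsRep K L) hG
    haveI : Subsingleton (H2 (unitsRep K L)) := ⟨fun a b => (hz a).trans (hz b).symm⟩
    refine ⟨inferInstance, ?_⟩
    rw [Nat.card_unique]
    exact one_dvd _
  | succ n ih =>
    intro K _ _ _ L _ _ _ _ _ _ hG
    obtain ⟨N, hN⟩ := Sylow.exists_subgroup_card_pow_prime (G := L ≃ₐ[K] L) p (n := n)
      (by rw [hG]; exact pow_dvd_pow p (Nat.le_succ n))
    have hidx : N.index = p := by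
      have h := N.card_mul_index
      rw [hN, hG, pow_succ] at h
      exact Nat.eq_of_mul_eq_mul_left (pow_pos hp.out.pos n) h
    haveI hNn : N.Normal := Subgroup.normal_of_index_eq_minFac_card (by
      rw [hidx, hG, Nat.pow_minFac (Nat.succ_ne_zero n), hp.out.minFac_eq])
    -- the intermediate field is a local field
    haveI : FiniteDimensional F (fixedField N) := FiniteDimensional.trans F K (fixedField N)
    haveI : IsScalarTower F (fixedField N) L := IsScalarTower.of_algebraMap_eq (fun _ => rfl)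
    -- the top layer `L / F`
    haveI : IsGalois (fixedField N) L := IsGalois.tower_top_of_isGalois K _ L
    have IH := ih (fixedField N) L ((card_aut_fixedField K L N).trans hN)
    have hNc : Finite (H2 (Rep.res N.subtype (unitsRep K L))) ∧
        Nat.card (H2 (Rep.res N.subtype (unitsRep K L))) ∣ p ^ n :=
      finite_and_card_of_addEquiv (transportAddEquiv K L N 2) IH
    -- the bottom layer, cyclic of degree `p`
    have hq : Nat.card ((fixedField N) ≃ₐ[K] (fixedField N)) = p := by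
      rw [← Nat.card_congr (IsGalois.normalAutEquivQuotient N).toEquiv,
        ← Subgroup.index_eq_card]
      exact hidx
    haveI : IsCyclic ((fixedField N) ≃ₐ[K] (fixedField N)) := isCyclic_of_prime_card hq
    have hQc : Nat.card (H2 (unitsRep K (fixedField N))) = p := by
      have := hcyc A F K (fixedField N) inferInstance
      rw [← IsGalois.card_aut_eq_finrank, hq] at this
      exact this
    have hQf : Finite (H2 (unitsRep K (fixedField N))) :=
      Nat.finite_of_card_ne_zero (by rw [hQc]; exact hp.out.ne_zero)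
    have hQ : Finite (H2 ((unitsRep K L).quotientToInvariants N)) ∧
        Nat.card (H2 ((unitsRep K L).quotientToInvariants N)) ∣ p :=
      finite_and_card_of_addEquiv (quotTransportIso K L N 2).toLinearEquiv.toAddEquiv
        ⟨hQf, hQc ▸ dvd_rfl⟩
    obtain ⟨hfin, hdvd⟩ := H2_card_dvd_mul_of_normal (unitsRep K L) N
      (H1_res_eq_zero K L N) hNc.1 hQ.1 hNc.2 hQ.2
    refine ⟨hfin, ?_⟩
    rw [pow_succ, mul_comm]
    exact hdvd

end

/-- **T4** (`H2CardDvdStatement`) from the cyclic case **T3'**. -/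
theorem h2CardDvd_of_cyclicH2Card (hcyc : CyclicH2CardStatement) : H2CardDvdStatement := by
  intro A F _ _ _ _ _ _ _ _ _ K _ _ _ L _ _ _ _ _ _
  have key : Finite (H2 (unitsRep K L)) ∧
      Nat.card (H2 (unitsRep K L)) ∣ Nat.card (L ≃ₐ[K] L) := by
    refine card_H2_dvd_card_of_sylow (unitsRep K L) (fun p hp _ => ?_)
    haveI : Fact p.Prime := ⟨hp⟩
    obtain ⟨P⟩ : Nonempty (Sylow p (L ≃ₐ[K] L)) := inferInstance
    refine ⟨P, ?_⟩
    have hP : Nat.card (P : Subgroup (L ≃ₐ[K] L)) =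
        p ^ ((Nat.card (L ≃ₐ[K] L)).factorization p) := Sylow.card_eq_multiplicity P
    haveI : FiniteDimensional F (fixedField (P : Subgroup (L ≃ₐ[K] L))) :=
      FiniteDimensional.trans F K _
    haveI : IsScalarTower F (fixedField (P : Subgroup (L ≃ₐ[K] L))) L :=
      IsScalarTower.of_algebraMap_eq (fun _ => rfl)
    haveI : IsGalois (fixedField (P : Subgroup (L ≃ₐ[K] L))) L :=
      IsGalois.tower_top_of_isGalois K _ L
    have h := h2_card_dvd_of_pgroup_local A F hcyc p _
      (fixedField (P : Subgroup (L ≃ₐ[K] L))) L ((card_aut_fixedField K L _).trans hP)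
    rw [hP]
    exact finite_and_card_of_addEquiv (transportAddEquiv K L _ 2) h
  rw [← IsGalois.card_aut_eq_finrank]
  exact key.2

end Fermat.Agent.S55.Local.H954

end
-- ===== PACK-END S55/Local/H954/T4.lean

-- ===== PACK-BEGIN S55/T/HerbrandH895.lean
section



/-!
# S55, layer T, leaves T2a / T2b / T2c (helper895)

* `cyclicCard : CyclicCardSpec`
* `herbrand : HerbrandSpec`
* `herbrandFinite : HerbrandFiniteSpec`

All three are unconditional.  They are deduced from the elementary Herbrand-quotient library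
`Fermat.Agent.S55.Herbrand` (index calculus) and Mathlib's computation of the cohomology of a
finite cyclic group.
-/

set_option autoImplicit false

namespace Fermat.Agent.S55.T.H895

open CategoryTheory groupCohomology Fermat.Agent.S55.Herbrand

section Basic

variable {k G : Type} [CommRing k] [Group G]

/-- additive endomorphism given by the action of `g`. -/
def act (A : Rep.{0} k G) (g : G) : AddMonoid.End A.V := (A.ρ g).toAddMonoidHom

@[simp] lemma act_apply (A : Rep.{0} k G) (g : G) (x : A.V) : act A g x = A.ρ g x := rfl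

lemma act_pow_apply (A : Rep.{0} k G) (g : G) (i : ℕ) (x : A.V) :
    (act A g ^ i) x = A.ρ (g ^ i) x := by
  induction i generalizing x with
  | zero => simp
  | succ i ih =>
    rw [pow_succ, pow_succ]
    change (act A g ^ i) (act A g x) = _
    rw [ih, act_apply, map_mul]
    rfl

lemma mul_comm_of_gen (g : G) (hg : ∀ x, x ∈ Subgroup.zpowers g) (a b : G) : a * b = b * a := by
  obtain ⟨m, rfl⟩ := Subgroup.mem_zpowers_iff.1 (hg a)
  obtain ⟨n, rfl⟩ := Subgroup.mem_zpowers_iff.1 (hg b)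
  rw [← zpow_add, ← zpow_add, add_comm]

lemma act_pow_card [Finite G] (A : Rep.{0} k G) (g : G) : act A g ^ Nat.card G = 1 := by
  ext x
  rw [act_pow_apply, pow_card_eq_one', map_one]
  rfl

/-- equivariance of a morphism of representations, in the form used by the Herbrand library. -/
lemma hom_act {A B : Rep.{0} k G} (f : A ⟶ B) (g : G) (x : A.V) :
    f.hom (act A g x) = act B g (f.hom x) := by
  simp only [act_apply]
  exact Rep.hom_comm_apply f g x

variable [Fintype G]

theorem card_H2 (A : Rep.{0} k G) (g : G) (hg : ∀ x, x ∈ Subgroup.zpowers g) :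
    Nat.card (groupCohomology A 2) = h0 (act A g) (Nat.card G) := by
  let inst : CommGroup G := { (inferInstance : Group G) with mul_comm := mul_comm_of_gen g hg }
  exact card_groupCohomology_even A g hg 2 (by decide)

theorem card_H1 (A : Rep.{0} k G) (g : G) (hg : ∀ x, x ∈ Subgroup.zpowers g) :
    Nat.card (groupCohomology A 1) = h1 (act A g) (Nat.card G) := by
  let inst : CommGroup G := { (inferInstance : Group G) with mul_comm := mul_comm_of_gen g hg }
  exact card_groupCohomology_odd A g hg 1 (by decide)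

lemma normN_act_apply (A : Rep.{0} k G) (g : G) (hg : ∀ x, x ∈ Subgroup.zpowers g) (x : A.V) :
    normN (act A g) (Nat.card G) x = A.ρ.norm x := by
  rw [normN_apply]
  have : A.ρ.norm x = ∑ h : G, A.ρ h x := by
    simp [Representation.norm]
  rw [this, sum_eq_sum_range_pow g hg]
  exact Finset.sum_congr rfl fun i _ => act_pow_apply A g i x

lemma range_normN_act (A : Rep.{0} k G) (g : G) (hg : ∀ x, x ∈ Subgroup.zpowers g) :
    AddMonoidHom.range (normN (act A g) (Nat.card G)) =
      (LinearMap.range A.ρ.norm).toAddSubgroup := by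
  ext x
  constructor
  · rintro ⟨y, rfl⟩
    exact ⟨y, (normN_act_apply A g hg y).symm⟩
  · rintro ⟨y, rfl⟩
    exact ⟨y, normN_act_apply A g hg y⟩

lemma ker_normN_act (A : Rep.{0} k G) (g : G) (hg : ∀ x, x ∈ Subgroup.zpowers g) :
    AddMonoidHom.ker (normN (act A g) (Nat.card G)) =
      (LinearMap.ker A.ρ.norm).toAddSubgroup := by
  ext x
  rw [AddMonoidHom.mem_ker, normN_act_apply A g hg]
  rfl

omit [Fintype G] in
lemma ker_delta_act (A : Rep.{0} k G) (g : G) (hg : ∀ x, x ∈ Subgroup.zpowers g) :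
    AddMonoidHom.ker (delta (act A g)) = A.ρ.invariants.toAddSubgroup := by
  ext x
  rw [AddMonoidHom.mem_ker, delta_apply, sub_eq_zero, act_apply]
  exact (Representation.mem_invariants_iff_of_forall_mem_zpowers A.ρ g hg x).symm

omit [Fintype G] in
lemma range_sub_one_le [Finite G] (A : Rep.{0} k G) (g : G)
    (hg : ∀ x, x ∈ Subgroup.zpowers g) (h : G) :
    LinearMap.range (A.ρ h - 1) ≤ LinearMap.range (A.ρ g - 1) := by
  classical
  obtain ⟨i, -, rfl⟩ :=
    Finset.mem_image.1 ((mem_zpowers_iff_mem_range_orderOf (x := g) (y := h)).1 (hg h))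
  rintro _ ⟨x, rfl⟩
  have key : A.ρ (g ^ i) - 1 = (A.ρ g - 1) * ∑ j ∈ Finset.range i, A.ρ g ^ j := by
    rw [mul_geom_sum, map_pow]
  rw [key]
  exact ⟨(∑ j ∈ Finset.range i, A.ρ g ^ j) x, rfl⟩

omit [Fintype G] in
lemma range_delta_act [Finite G] (A : Rep.{0} k G) (g : G)
    (hg : ∀ x, x ∈ Subgroup.zpowers g) :
    AddMonoidHom.range (delta (act A g)) =
      (⨆ h : G, LinearMap.range (A.ρ h - 1)).toAddSubgroup := by
  have hsup : (⨆ h : G, LinearMap.range (A.ρ h - 1)) = LinearMap.range (A.ρ g - 1) :=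
    le_antisymm (iSup_le fun h => range_sub_one_le A g hg h)
      (le_iSup (fun h : G => LinearMap.range (A.ρ h - 1)) g)
  rw [hsup]
  ext x
  constructor
  · rintro ⟨y, rfl⟩
    exact ⟨y, rfl⟩
  · rintro ⟨y, rfl⟩
    exact ⟨y, rfl⟩

theorem hat0Card_eq (A : Rep.{0} k G) (g : G) (hg : ∀ x, x ∈ Subgroup.zpowers g) :
    hat0Card A = h0 (act A g) (Nat.card G) := by
  rw [h0_eq_relIndex, ker_delta_act A g hg, range_normN_act A g hg]
  rfl

theorem hatNeg1Card_eq (A : Rep.{0} k G) (g : G) (hg : ∀ x, x ∈ Subgroup.zpowers g) :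
    hatNeg1Card A = h1 (act A g) (Nat.card G) := by
  rw [h1_eq_relIndex, ker_normN_act A g hg, range_delta_act A g hg]
  rfl

end Basic

/-- **T2a.** -/
theorem cyclicCard : CyclicCardSpec := by
  intro k G _ _ _ _ A
  obtain ⟨g, hg⟩ := IsCyclic.exists_generator (α := G)
  exact ⟨(card_H2 A g hg).trans (hat0Card_eq A g hg).symm,
    (card_H1 A g hg).trans (hatNeg1Card_eq A g hg).symm⟩

section Fin

variable {k G : Type} [CommRing k] [Group G] [Fintype G]

/-- finiteness of `H¹` and `H²` is the statement that the Herbrand quotient is defined. -/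
lemma fin_iff (A : Rep.{0} k G) (g : G) (hg : ∀ x, x ∈ Subgroup.zpowers g) :
    (Finite (groupCohomology A 1) ∧ Finite (groupCohomology A 2)) ↔
      HerbrandDefined (act A g) (Nat.card G) := by
  rw [herbrandDefined_iff, ← card_H2 A g hg, ← card_H1 A g hg]
  constructor
  · rintro ⟨h1, h2⟩
    exact ⟨Nat.card_pos.ne', Nat.card_pos.ne'⟩
  · rintro ⟨h2, h1⟩
    exact ⟨(Nat.card_ne_zero.1 h1).2, (Nat.card_ne_zero.1 h2).2⟩

end Fin

/-- **T2b.** -/
theorem herbrand : HerbrandSpec := by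
  intro k G _ _ _ _ S hS
  let _ : Fintype G := Fintype.ofFinite G
  obtain ⟨g, hg⟩ := IsCyclic.exists_generator (α := G)
  have hi : Function.Injective S.f.hom := (Rep.mono_iff_injective S.f).1 hS.2
  have hp : Function.Surjective S.g.hom := (Rep.epi_iff_surjective S.g).1 hS.3
  have hrk : LinearMap.range S.f.hom.toLinearMap = LinearMap.ker S.g.hom.toLinearMap :=
    (hS.exact.map (forget₂ (Rep k G) (ModuleCat k))).moduleCat_range_eq_ker
  set i : S.X₁.V →+ S.X₂.V := S.f.hom.toLinearMap.toAddMonoidHom with hi_def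
  set p : S.X₂.V →+ S.X₃.V := S.g.hom.toLinearMap.toAddMonoidHom with hp_def
  have hi' : Function.Injective i := hi
  have hp' : Function.Surjective p := hp
  have hex : p.ker = i.range := by
    ext x
    have := congrArg (fun M : Submodule k S.X₂.V => x ∈ M) hrk
    simp only [LinearMap.mem_range, LinearMap.mem_ker, eq_iff_iff] at this
    rw [AddMonoidHom.mem_ker, AddMonoidHom.mem_range]
    exact this.symm
  have hiσ : ∀ a, i (act S.X₁ g a) = act S.X₂ g (i a) := fun a => hom_act S.f g a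
  have hpσ : ∀ b, p (act S.X₂ g b) = act S.X₃ g (p b) := fun b => hom_act S.g g b
  have hσ : act S.X₂ g ^ Nat.card G = 1 := act_pow_card S.X₂ g
  intro fin
  have hfin : ∀ A : Rep.{0} k G, fin A ↔ HerbrandDefined (act A g) (Nat.card G) :=
    fun A => fin_iff A g hg
  refine ⟨?_, ?_, ?_, ?_⟩
  · intro h1 h3
    exact (hfin _).2 (herbrandDefined_mid hσ hi' hp' hex hiσ hpσ ((hfin _).1 h1) ((hfin _).1 h3))
  · intro h1 h2
    exact (hfin _).2
      (herbrandDefined_right hσ hi' hp' hex hiσ hpσ ((hfin _).1 h1) ((hfin _).1 h2))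
  · intro h2 h3
    exact (hfin _).2
      (herbrandDefined_left hσ hi' hp' hex hiσ hpσ ((hfin _).1 h2) ((hfin _).1 h3))
  · intro _ _ _
    rw [card_H2 S.X₂ g hg, card_H1 S.X₁ g hg, card_H1 S.X₃ g hg, card_H1 S.X₂ g hg,
      card_H2 S.X₁ g hg, card_H2 S.X₃ g hg]
    have hex6 := hexagon_of_exact (fA := delta (act S.X₁ g)) (gA := normN (act S.X₁ g) (Nat.card G))
      (fB := delta (act S.X₂ g)) (gB := normN (act S.X₂ g) (Nat.card G))
      (fC := delta (act S.X₃ g)) (gC := normN (act S.X₃ g) (Nat.card G))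
      (delta_normN hσ) (normN_delta hσ) hi' hp' hex
      (map_delta_of_comm hiσ) (map_normN_of_comm hiσ _)
      (map_delta_of_comm hpσ) (map_normN_of_comm hpσ _)
    -- hex6 : h0 A * h0 C * h1 B = h1 A * h1 C * h0 B
    change h0 (act S.X₁ g) _ * h0 (act S.X₃ g) _ * h1 (act S.X₂ g) _ =
      h1 (act S.X₁ g) _ * h1 (act S.X₃ g) _ * h0 (act S.X₂ g) _ at hex6
    linarith [hex6]

/-- **T2c.** -/
theorem herbrandFinite : HerbrandFiniteSpec := by
  intro k G _ _ _ _ A hA
  let _ : Fintype G := Fintype.ofFinite G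
  obtain ⟨g, hg⟩ := IsCyclic.exists_generator (α := G)
  have : Finite A.V := hA
  have hdef : HerbrandDefined (act A g) (Nat.card G) := herbrandDefined_of_finite _ _
  obtain ⟨f1, f2⟩ := (fin_iff A g hg).2 hdef
  refine ⟨f1, f2, ?_⟩
  rw [card_H1 A g hg, card_H2 A g hg]
  exact (h0_eq_h1_of_finite (act_pow_card A g)).symm

end Fermat.Agent.S55.T.H895

end
-- ===== PACK-END S55/T/HerbrandH895.lean

-- ===== PACK-BEGIN S55/G/UnitsAssembly.lean
section
/-
S55, layer G, block G-U (helper595): assembly A2, `UnitsHerbrandSpec` from the leaf specs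
`UnitsLogSpec`, `LatticeSpec`, `TraceZeroSpec`, `OrbitInfSpec`, `TraceZeroBasisSpec`.

`𝒪_L^× → φ(𝒪_L^×)` has finite kernel; `φ(𝒪_L^×)` and the integral trace-zero lattice are two
`G`-stable lattices spanning the trace-zero hyperplane of `ℝ^{places}`, hence have the same
Herbrand quotient (`LatticeSpec`); the latter is computed by `TraceZeroSpec`.
-/







set_option autoImplicit false

namespace Fermat.Agent.S55.G

open Fermat.Agent.S55.Herbrand NumberField

universe u v

section PermLin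

variable (G : Type u) [Group G] (X : Type v) [MulAction G X]

/-- The permutation action as an `ℝ`-linear map. -/
def permLin (τ : G) : (X → ℝ) →ₗ[ℝ] (X → ℝ) := LinearMap.funLeft ℝ ℝ (fun x => τ⁻¹ • x)

lemma permLin_apply (τ : G) (a : X → ℝ) : permLin G X τ a = permHomR G X τ a := rfl

lemma permLin_pow (τ : G) (k : ℕ) : permLin G X τ ^ k = permLin G X (τ ^ k) := by
  induction k with
  | zero =>
    refine LinearMap.ext fun a => ?_
    rw [pow_zero, pow_zero, permLin_apply, permHomR_one]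
    rfl
  | succ k ih =>
    refine LinearMap.ext fun a => ?_
    rw [pow_succ, ih, pow_succ, Module.End.mul_apply, permLin_apply, permLin_apply,
      permLin_apply, permHomR_mul]

lemma permLin_sub_one (σ : G) :
    (permLin G X σ - 1 : (X → ℝ) →ₗ[ℝ] (X → ℝ)).toAddMonoidHom = permAugR G X σ := by
  refine AddMonoidHom.ext fun a => ?_
  rfl

lemma permLin_sum_pow [Fintype G] (σ : G) (hσ : ∀ τ : G, τ ∈ Subgroup.zpowers σ) :
    (∑ k ∈ Finset.range (Fintype.card G), permLin G X σ ^ k :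
      (X → ℝ) →ₗ[ℝ] (X → ℝ)).toAddMonoidHom = permNormR G X := by
  classical
  refine AddMonoidHom.ext fun a => ?_
  show (∑ k ∈ Finset.range (Fintype.card G), permLin G X σ ^ k) a = permNormR G X a
  rw [LinearMap.sum_apply, permNormR_apply]
  simp only [permLin_pow, permLin_apply]
  have himg := IsCyclic.image_range_card hσ
  rw [Nat.card_eq_fintype_card] at himg
  rw [← himg, Finset.sum_image]
  have hord : orderOf σ = Fintype.card G := by
    rw [orderOf_eq_card_of_forall_mem_zpowers hσ, Nat.card_eq_fintype_card]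
  intro i hi j hj hij
  apply pow_injOn_Iio_orderOf (x := σ)
  · rw [hord]
    exact Finset.mem_range.1 hi
  · rw [hord]
    exact Finset.mem_range.1 hj
  · exact hij

end PermLin

/-- **Assembly A2.** -/
theorem unitsHerbrandSpec_of (hLog : UnitsLogSpec.{u, v}) (hLat : LatticeSpec.{v})
    (hTZ : TraceZeroSpec.{v, v}) (hOrb : OrbitInfSpec.{u, v}) (hB : TraceZeroBasisSpec.{v}) :
    UnitsHerbrandSpec.{u, v} := by
  intro K L _ _ _ _ _ _ σ hσ
  obtain ⟨φ, hφ, hfin, r, b, hb_li, hb_span, hb_img⟩ := hLog K L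
  obtain ⟨r₂, b₂, hb₂_li, hb₂_span, hb₂_img⟩ := hB (InfinitePlace L)
  -- the two ranks agree
  have hr : r = r₂ := by
    have h1 := finrank_span_eq_card hb_li
    have h2 := finrank_span_eq_card hb₂_li
    rw [Fintype.card_fin] at h1 h2
    rw [← h1, ← h2, hb_span, hb₂_span]
    rfl
  subst hr
  -- equivariance of `φ`
  have hφf : ∀ x, φ (unitsAug K L σ x) =
      permAugR (L ≃ₐ[K] L) (InfinitePlace L) σ (φ x) := by
    intro x
    rw [unitsAug_apply, permAugR_apply, map_sub, hφ]
  have hφg : ∀ x, φ (unitsNorm K L x) = permNormR (L ≃ₐ[K] L) (InfinitePlace L) (φ x) := by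
    intro x
    rw [unitsNorm_apply, permNormR_apply, map_sum]
    simp only [hφ]
  -- step 1: finite kernel
  have hfin' : Finite ↥(φ.ker ⊓ intUnits L) := hfin
  obtain ⟨k1, k2⟩ := hIndexSub_of_finite_ker (unitsAug K L σ) (unitsNorm K L)
    (permAugR (L ≃ₐ[K] L) (InfinitePlace L) σ) (permNormR (L ≃ₐ[K] L) (InfinitePlace L)) φ
    hφf hφg (intUnits L) (unitsAug_mem_intUnits K L σ) (unitsNorm_mem_intUnits K L)
    (fun x _ => unitsAug_unitsNorm K L σ x) (fun x _ => unitsNorm_unitsAug K L σ x) hfin'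
  -- step 2: the lattice lemma
  have hn : 0 < Fintype.card (L ≃ₐ[K] L) := Fintype.card_pos
  have hsn : permLin (L ≃ₐ[K] L) (InfinitePlace L) σ ^ Fintype.card (L ≃ₐ[K] L) = 1 := by
    rw [permLin_pow, pow_card_eq_one]
    refine LinearMap.ext fun a => ?_
    rw [permLin_apply, permHomR_one]
    rfl
  have hst₁ : ∀ i, permLin (L ≃ₐ[K] L) (InfinitePlace L) σ (b i) ∈
      Submodule.span ℤ (Set.range b) := by
    intro i
    have hi : b i ∈ (Submodule.span ℤ (Set.range b)).toAddSubgroup :=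
      Submodule.subset_span ⟨i, rfl⟩
    rw [← hb_img] at hi
    obtain ⟨x, hx, hxb⟩ := hi
    have : permLin (L ≃ₐ[K] L) (InfinitePlace L) σ (b i) ∈
        (Submodule.span ℤ (Set.range b)).toAddSubgroup := by
      rw [← hb_img, ← hxb, permLin_apply, ← hφ]
      exact ⟨_, unitsHom_mem_intUnits K L σ x hx, rfl⟩
    exact this
  have hst₂ : ∀ i, permLin (L ≃ₐ[K] L) (InfinitePlace L) σ (b₂ i) ∈
      Submodule.span ℤ (Set.range b₂) := by
    intro i
    have hi : b₂ i ∈ (Submodule.span ℤ (Set.range b₂)).toAddSubgroup :=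
      Submodule.subset_span ⟨i, rfl⟩
    rw [hb₂_img] at hi
    obtain ⟨a, ha, hab⟩ := hi
    have : permLin (L ≃ₐ[K] L) (InfinitePlace L) σ (b₂ i) ∈
        (Submodule.span ℤ (Set.range b₂)).toAddSubgroup := by
      rw [hb₂_img, ← hab, permLin_apply, ← coeHomR_permHom]
      refine ⟨_, ?_, rfl⟩
      show sumHom (InfinitePlace L) (permHom (L ≃ₐ[K] L) (InfinitePlace L) σ a) = 0
      rw [sumHom_permHom]
      exact ha
    exact this
  obtain ⟨l1, l2, l3, l4, l5⟩ := hLat (InfinitePlace L → ℝ)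
    (permLin (L ≃ₐ[K] L) (InfinitePlace L) σ) (Fintype.card (L ≃ₐ[K] L)) r hn hsn b b₂
    hb_li hb₂_li (hb_span.trans hb₂_span.symm) hst₁ hst₂
  rw [permLin_sub_one, permLin_sum_pow _ _ σ hσ, ← hb_img] at l1 l2
  rw [permLin_sub_one, permLin_sum_pow _ _ σ hσ, hb₂_img] at l3 l4
  rw [permLin_sub_one, permLin_sum_pow _ _ σ hσ, ← hb_img, hb₂_img] at l5
  -- step 3: transport from `ℤ^X` to `ℝ^X`
  have m1 := hIndexSub_map_of_injective (permAug (L ≃ₐ[K] L) (InfinitePlace L) σ)
    (permNorm (L ≃ₐ[K] L) (InfinitePlace L)) (permAugR (L ≃ₐ[K] L) (InfinitePlace L) σ)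
    (permNormR (L ≃ₐ[K] L) (InfinitePlace L)) (coeHomR (InfinitePlace L))
    (coeHomR_injective _) (coeHomR_permAug _ _ σ) (coeHomR_permNorm _ _)
    (traceZero (InfinitePlace L))
  have m2 := hIndexSub_map_of_injective (permNorm (L ≃ₐ[K] L) (InfinitePlace L))
    (permAug (L ≃ₐ[K] L) (InfinitePlace L) σ) (permNormR (L ≃ₐ[K] L) (InfinitePlace L))
    (permAugR (L ≃ₐ[K] L) (InfinitePlace L) σ) (coeHomR (InfinitePlace L))
    (coeHomR_injective _) (coeHomR_permNorm _ _) (coeHomR_permAug _ _ σ)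
    (traceZero (InfinitePlace L))
  rw [m1] at l3 l5
  rw [m2] at l4 l5
  -- step 4: the trace-zero lattice
  obtain ⟨t1, t2, t3⟩ := hTZ (L ≃ₐ[K] L) (InfinitePlace L) σ hσ
  rw [hOrb K L] at t3
  have hcard : Fintype.card (L ≃ₐ[K] L) = Module.finrank K L := by
    rw [← Nat.card_eq_fintype_card]
    exact IsGalois.card_aut_eq_finrank K L
  rw [hcard] at t3
  -- conclusion
  obtain ⟨c1, c2⟩ := k1.2 ⟨l1, l2⟩
  refine ⟨c1, c2, ?_⟩
  have hne : hIndexSub (permNormR (L ≃ₐ[K] L) (InfinitePlace L))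
      (permAugR (L ≃ₐ[K] L) (InfinitePlace L) σ) ((intUnits L).map φ) *
      hIndexSub (permNorm (L ≃ₐ[K] L) (InfinitePlace L))
        (permAug (L ≃ₐ[K] L) (InfinitePlace L) σ) (traceZero (InfinitePlace L)) ≠ 0 :=
    Nat.mul_ne_zero l2 l4
  apply Nat.eq_of_mul_eq_mul_right (Nat.pos_of_ne_zero hne)
  generalize hIndexSub (unitsAug K L σ) (unitsNorm K L) (intUnits L) = a at *
  generalize hIndexSub (unitsNorm K L) (unitsAug K L σ) (intUnits L) = b' at *
  generalize hIndexSub (permAugR (L ≃ₐ[K] L) (InfinitePlace L) σ)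
    (permNormR (L ≃ₐ[K] L) (InfinitePlace L)) ((intUnits L).map φ) = a₁ at *
  generalize hIndexSub (permNormR (L ≃ₐ[K] L) (InfinitePlace L))
    (permAugR (L ≃ₐ[K] L) (InfinitePlace L) σ) ((intUnits L).map φ) = b₁ at *
  generalize hIndexSub (permAug (L ≃ₐ[K] L) (InfinitePlace L) σ)
    (permNorm (L ≃ₐ[K] L) (InfinitePlace L)) (traceZero (InfinitePlace L)) = a₂ at *
  generalize hIndexSub (permNorm (L ≃ₐ[K] L) (InfinitePlace L))
    (permAug (L ≃ₐ[K] L) (InfinitePlace L) σ) (traceZero (InfinitePlace L)) = b₂' at *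
  calc a * Module.finrank K L * (b₁ * b₂')
      = (a * b₁) * (Module.finrank K L * b₂') := by ring
    _ = (b' * a₁) * (Module.finrank K L * b₂') := by rw [k2]
    _ = b' * Module.finrank K L * (a₁ * b₂') := by ring
    _ = b' * Module.finrank K L * (a₂ * b₁) := by rw [l5]
    _ = b' * b₁ * (a₂ * Module.finrank K L) := by ring
    _ = b' * b₁ * (b₂' * infDegProd K L) := by rw [t3]
    _ = b' * infDegProd K L * (b₁ * b₂') := by ring

end Fermat.Agent.S55.G

end
-- ===== PACK-END S55/G/UnitsAssembly.lean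

-- ===== PACK-BEGIN S55/G/SUnitsAssembly.lean
section
/-
S55, layer G, block G-U (helper595): assembly A3, `SUnitsHerbrandSpec` from
`UnitsHerbrandSpec`, `SUnitsOrdSpec`, `PermSpec`, `SUnitsStableSpec`.

`0 → 𝒪_L^× → 𝒪_{L,T}^× → ψ(𝒪_{L,T}^×) → 0`, the last group of finite index in the permutation
lattice `ℤ^{primes above T}`.
-/







set_option autoImplicit false

namespace Fermat.Agent.S55.G

open Fermat.Agent.S55.Herbrand NumberField

universe u v

/-- **Assembly A3.** -/
theorem sUnitsHerbrandSpec_of (hU : UnitsHerbrandSpec.{u, v}) (hO : SUnitsOrdSpec.{u, v})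
    (hP : PermSpec.{v, v}) (hS : SUnitsStableSpec.{u, v}) : SUnitsHerbrandSpec.{u, v} := by
  intro K L _ _ _ _ _ _ σ hσ T
  obtain ⟨u1, u2, u3⟩ := hU K L σ hσ
  obtain ⟨iMA, iFT, ψ, hψ, hker, hidx, hstab⟩ := hO K L T
  obtain ⟨p1, p2⟩ := hP (L ≃ₐ[K] L) ↥(primesAbove K L T) σ hσ
  -- stability of the `T`-units
  have hSf : ∀ x ∈ sUnits K L T, unitsAug K L σ x ∈ sUnits K L T := by
    intro x hx
    rw [unitsAug_apply]
    exact (sUnits K L T).sub_mem (hS K L T σ x hx) hx
  have hSg : ∀ x ∈ sUnits K L T, unitsNorm K L x ∈ sUnits K L T := by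
    intro x hx
    rw [unitsNorm_apply]
    exact (sUnits K L T).sum_mem (fun τ _ => hS K L T τ x hx)
  -- equivariance of `ψ`
  have hψf : ∀ b, ψ (unitsAug K L σ b) = permAug (L ≃ₐ[K] L) ↥(primesAbove K L T) σ (ψ b) := by
    intro b
    rw [unitsAug_apply, permAug_apply, map_sub, hψ]
  have hψg : ∀ b, ψ (unitsNorm K L b) = permNorm (L ≃ₐ[K] L) ↥(primesAbove K L T) (ψ b) := by
    intro b
    rw [unitsNorm_apply, permNorm_apply, map_sum]
    simp only [hψ]
  -- the six factors
  obtain ⟨Ef, Eg, w, y, w', y', e1, e2, e3, e4, e5, e6⟩ :=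
    hIndexSub_six (unitsAug K L σ) (unitsNorm K L)
      (permAug (L ≃ₐ[K] L) ↥(primesAbove K L T) σ) (permNorm (L ≃ₐ[K] L) ↥(primesAbove K L T))
      ψ hψf hψg (sUnits K L T) hSf hSg
      (fun b _ => unitsAug_unitsNorm K L σ b) (fun b _ => unitsNorm_unitsAug K L σ b)
  rw [hker] at e1 e4
  -- the image has finite index in the permutation lattice
  obtain ⟨f1, f2⟩ := hIndexSub_of_finite_index
    (permAug (L ≃ₐ[K] L) ↥(primesAbove K L T) σ) (permNorm (L ≃ₐ[K] L) ↥(primesAbove K L T))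
    ((sUnits K L T).map ψ) ⊤ le_top (by rwa [AddSubgroup.relIndex_top_right])
    (by
      rintro _ ⟨x, hx, rfl⟩
      exact ⟨_, hSf x hx, hψf x⟩)
    (by
      rintro _ ⟨x, hx, rfl⟩
      exact ⟨_, hSg x hx, hψg x⟩)
    (fun _ _ => AddSubgroup.mem_top _) (fun _ _ => AddSubgroup.mem_top _)
    (fun b _ => permAug_permNorm _ _ σ b) (fun b _ => permNorm_permAug _ _ σ b)
  rw [hIndexSub_top, hIndexSub_top, p1, p2, hstab] at f1 f2
  have hD : finDegProd K L T ≠ 0 := by
    rw [← hstab]
    exact stabProd_ne_zero _ _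
  obtain ⟨g1, g2⟩ := f1.2 ⟨hD, one_ne_zero⟩
  rw [mul_one] at f2
  rw [e3] at g1 f2
  rw [e6] at g2 f2
  rw [e1] at u1 u3
  rw [e4] at u2 u3
  rw [e2, e5]
  have hEg : Eg ≠ 0 := left_ne_zero_of_mul u1
  have hw : w ≠ 0 := right_ne_zero_of_mul u1
  have hEf : Ef ≠ 0 := left_ne_zero_of_mul u2
  have hw' : w' ≠ 0 := right_ne_zero_of_mul u2
  have hy : y ≠ 0 := right_ne_zero_of_mul g1
  have hy' : y' ≠ 0 := right_ne_zero_of_mul g2
  refine ⟨Nat.mul_ne_zero hw hy, Nat.mul_ne_zero hw' hy', ?_⟩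
  have hne : Eg * Ef ≠ 0 := Nat.mul_ne_zero hEg hEf
  apply Nat.eq_of_mul_eq_mul_right (Nat.pos_of_ne_zero hne)
  calc w * y * Module.finrank K L * (Eg * Ef)
      = (Eg * w * Module.finrank K L) * (Ef * y) := by ring
    _ = (Ef * w' * infDegProd K L) * (Eg * y' * finDegProd K L T) := by rw [u3, f2]
    _ = w' * y' * (infDegProd K L * finDegProd K L T) * (Eg * Ef) := by ring

end Fermat.Agent.S55.G

end
-- ===== PACK-END S55/G/SUnitsAssembly.lean

-- ===== PACK-BEGIN S55/G/StabH707.lean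
section




/-!
# S55 / layer G / block G-U, leaf GU-STAB (helper707, spare)

`sUnitsStable : SUnitsStableSpec` : the `T`-units are stable under `Gal(L/K)`;
immediate from `OrdH707.valuation_smulH`.
-/

set_option autoImplicit false

namespace Fermat.Agent.S55.G.StabH707

open Fermat.Agent.S55.G.OrdH707 NumberField IsDedekindDomain

universe u v

/-- **GU-STAB**: the `T`-units are Galois stable. -/
theorem sUnitsStable : SUnitsStableSpec.{u, v} := by
  intro K L _ _ _ _ _ _ T τ x hx
  rw [mem_sUnits_iff] at hx ⊢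
  intro w hw
  have h1 := valuation_smulH K L τ (smulH K L τ⁻¹ w) ((Additive.toMul x : Lˣ) : L)
  rw [← smulH_mul, mul_inv_cancel, smulH_one] at h1
  have h2 : smulH K L τ⁻¹ w ∉ primesAbove K L T := by
    intro h
    apply hw
    have := smulH_mem K L T τ h
    rwa [← smulH_mul, mul_inv_cancel, smulH_one] at this
  have h3 := hx _ h2
  rw [← h1] at h3
  exact h3

end Fermat.Agent.S55.G.StabH707

end
-- ===== PACK-END S55/G/StabH707.lean

-- ===== PACK-BEGIN S55/G/UpH119/Main.lean
section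




/-!
# G-UP: the upper bound for `p`-groups (helper119)

`pClassUpper_of : CyclicLayerSpec → DescentSpec → PClassUpperSpec`:
for a finite `p`-group `G` acting faithfully on a number field `L`, unramified outside `S ∋ p`,
with `μ_p ⊂ L^G`, and every subgroup `H ≤ G`:
`H¹(H, C_S(L)) = 0` and `|H²(H, C_S(L))|` divides `|H|`.

Proof: dévissage along a normal subgroup `K ⊴ H` of index `p`; the cyclic layer `H ⧸ K` acts on
the fixed field `L^K`, where `CyclicLayerSpec` applies (`Quot.lean`), and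
`C_S(L)^K ≅ C_S(L^K)` by `DescentSpec` (`Desc.lean`).  The counting in degree 2 is
`T.UglySpec` (helper954, on main).
-/

set_option autoImplicit false
set_option linter.style.haveILetI false
set_option linter.unusedSectionVars false

open scoped NumberField TensorProduct Pointwise
open IsDedekindDomain CategoryTheory groupCohomology

noncomputable section

namespace Fermat.Agent.S55.G.UpH119

section Layer

variable (S : Finset Nat.Primes) (G L : Type) [Group G] [Finite G] [Field L] [NumberField L]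
  [MulSemiringAction G L] [FaithfulSMul G L] (N : Subgroup G) [N.Normal]

/-- The cyclic layer `G ⧸ N` of order `p`: `H¹(G ⧸ N, C_S(L)^N) = 0` and
`|H²(G ⧸ N, C_S(L)^N)|` divides `p`. -/
theorem quot_layer (hC : CyclicLayerSpec) (hD : DescentSpec) (p : ℕ) [hp : Fact p.Prime]
    (hp2 : p ≠ 2) (hpS : (⟨p, hp.out⟩ : Nat.Primes) ∈ S) (hunr : IsUnramOut S G L)
    (hζ : HasFixedRootOfUnity p G L) (hcard : Nat.card (G ⧸ N) = p) :
    Limits.IsZero (groupCohomology ((CRep S G L).quotientToInvariants N) 1) ∧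
    T.CardDvd (groupCohomology ((CRep S G L).quotientToInvariants N) 2) p := by
  letI := quotAct G L N
  haveI := faithfulSMul_quot G L N
  obtain ⟨h1, h2⟩ := hC p hp2 S (G ⧸ N) (FixN G L N) hpS hcard (isUnramOut_quot S G L N hunr)
    (hasFixedRootOfUnity_quot G L N p hζ)
  obtain ⟨e1⟩ := nonempty_iso_quot S G L N hD ⟨_, hpS⟩ hunr 1
  obtain ⟨e2⟩ := nonempty_iso_quot S G L N hD ⟨_, hpS⟩ hunr 2
  refine ⟨Limits.IsZero.of_iso h1 e1.symm, ?_⟩
  have hfin : Finite (groupCohomology (CRep S (G ⧸ N) (FixN G L N)) 2) :=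
    Nat.finite_of_card_ne_zero (by rw [h2]; exact hp.out.ne_zero)
  exact T.H954.cardDvd_of_iso e2.symm ⟨hfin, by rw [h2]⟩

end Layer

section Induction

variable (S : Finset Nat.Primes) (L : Type) [Field L] [NumberField L]

/-- `H¹(G, C_S(L)) = 0` for `p`-groups, by induction on the order. -/
theorem h1_isZero (hC : CyclicLayerSpec) (hD : DescentSpec) (p : ℕ) [hp : Fact p.Prime]
    (hp2 : p ≠ 2) (hpS : (⟨p, hp.out⟩ : Nat.Primes) ∈ S) :
    ∀ (n : ℕ) (G : Type) [Group G] [Finite G] [MulSemiringAction G L] [FaithfulSMul G L],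
      Nat.card G = p ^ n → IsUnramOut S G L → HasFixedRootOfUnity p G L →
      Limits.IsZero (groupCohomology (CRep S G L) 1) := by
  intro n
  induction n with
  | zero =>
    intro G _ _ _ _ hG _ _
    rw [pow_zero] at hG
    rw [ModuleCat.isZero_iff_subsingleton]
    exact ⟨fun a b => (Fermat.Agent.S55.H954.H1_eq_zero_of_card_eq_one (CRep S G L) hG a).trans
      (Fermat.Agent.S55.H954.H1_eq_zero_of_card_eq_one (CRep S G L) hG b).symm⟩
  | succ n ih =>
    intro G _ _ _ _ hG hunr hζ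
    obtain ⟨K, hK⟩ := Sylow.exists_subgroup_card_pow_prime (G := G) p (n := n)
      (by rw [hG]; exact pow_dvd_pow p (Nat.le_succ n))
    have hidx : K.index = p := by
      have h := K.card_mul_index
      rw [hK, hG, pow_succ] at h
      exact Nat.eq_of_mul_eq_mul_left (pow_pos hp.out.pos n) h
    haveI hKn : K.Normal := Subgroup.normal_of_index_eq_minFac_card (by
      rw [hidx, hG, Nat.pow_minFac (Nat.succ_ne_zero n), hp.out.minFac_eq])
    have hq : Nat.card (G ⧸ K) = p := by rw [← Subgroup.index_eq_card]; exact hidx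
    have hKz : Limits.IsZero (groupCohomology (CRep S K L) 1) :=
      ih K hK (fun w hw g hg x => hunr w hw (g : G) hg x)
        (by obtain ⟨ζ, h1, h2⟩ := hζ; exact ⟨ζ, h1, fun g => h2 (g : G)⟩)
    have hQz := (quot_layer S G L K hC hD p hp2 hpS hunr hζ hq).1
    have hK0 : ∀ x : H1 (Rep.res K.subtype (CRep S G L)), x = 0 := fun x =>
      (ModuleCat.isZero_iff_subsingleton.1 hKz).elim x 0
    have hQ0 : ∀ x : H1 ((CRep S G L).quotientToInvariants K), x = 0 := fun x =>
      (ModuleCat.isZero_iff_subsingleton.1 hQz).elim x 0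
    rw [ModuleCat.isZero_iff_subsingleton]
    exact ⟨fun a b =>
      (Fermat.Agent.S55.H954.H1_eq_zero_of_normal (CRep S G L) K hK0 hQ0 a).trans
        (Fermat.Agent.S55.H954.H1_eq_zero_of_normal (CRep S G L) K hK0 hQ0 b).symm⟩

end Induction

/-- **G-UP** (`PClassUpperSpec`) from G-CYC and G-DESC. -/
theorem pClassUpper_of (hC : CyclicLayerSpec) (hD : DescentSpec) : PClassUpperSpec := by
  intro p hp hp2 S G L _ _ _ _ _ _ hpS hG hunr hζ
  have hsub : ∀ H : Subgroup G, ∃ n, Nat.card H = p ^ n := fun H =>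
    IsPGroup.iff_card.1 (hG.to_subgroup H)
  have hunrH : ∀ H : Subgroup G, IsUnramOut S H L := fun H w hw g hg x =>
    hunr w hw (g : G) hg x
  have hζH : ∀ H : Subgroup G, HasFixedRootOfUnity p H L := fun H => by
    obtain ⟨ζ, h1, h2⟩ := hζ
    exact ⟨ζ, h1, fun g => h2 (g : G)⟩
  have h1 : ∀ H : Subgroup G,
      Limits.IsZero (groupCohomology (T.resSub (CRep S G L) H) 1) := by
    intro H
    obtain ⟨n, hn⟩ := hsub H
    exact h1_isZero S L hC hD p hp2 hpS n H hn (hunrH H) (hζH H)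
  have h2 : ∀ (H : Subgroup G) (K : Subgroup H) [K.Normal], (Nat.card (H ⧸ K)).Prime →
      T.CardDvd (groupCohomology ((T.resSub (CRep S G L) H).quotientToInvariants K) 2)
        (Nat.card (H ⧸ K)) := by
    intro H K _ hprime
    obtain ⟨n, hn⟩ := hsub H
    have hdvd : Nat.card (H ⧸ K) ∣ p ^ n := by
      rw [← hn, ← Subgroup.index_eq_card]
      exact K.index_dvd_card
    have hqp : Nat.card (H ⧸ K) = p :=
      (Nat.prime_dvd_prime_iff_eq hprime hp.out).1 (hprime.dvd_of_dvd_pow hdvd)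
    rw [hqp]
    exact (quot_layer S H L K hC hD p hp2 hpS (hunrH H) (hζH H) hqp).2
  have hugly := T.H954.ugly ℤ G (CRep S G L) h1 h2
  exact fun H => ⟨h1 H, hugly H⟩

/-- **G-UP** from the two inequalities and descent. -/
theorem pClassUpper_of_inequalities (hFI : FirstInequalitySpec) (hSI : SecondInequalitySpec)
    (hD : DescentSpec) : PClassUpperSpec :=
  pClassUpper_of (cyclicLayer_of hFI hSI) hD

end Fermat.Agent.S55.G.UpH119

end
end
-- ===== PACK-END S55/G/UpH119/Main.lean

-- ===== PACK-BEGIN S55/H963/BrDiv.lean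
section


/-!
# S55 / G-SI bridge (helper963): the divisor prime to `S` of an ideal

`divS S K I ∈ Div^S(K) = ℤ[primes of K not above S]` for an ideal `I` of `𝓞 K`;
multiplicative, `divS (x) = div x` (helper421's `ordHom`), `divS 𝔭 = [𝔭]`.
-/

set_option autoImplicit false
set_option linter.style.haveILetI false
set_option linter.unusedSectionVars false
set_option linter.unusedVariables false

open scoped NumberField TensorProduct nonZeroDivisors

open IsDedekindDomain

noncomputable section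

namespace Fermat.Agent.S55.H963.Br

open Fermat.Agent.S55.G

variable (S : Finset Nat.Primes) (K : Type) [Field K] [NumberField K]

/-- The divisor prime to `S` of an ideal of `𝓞 K` (junk value `0` at `I = ⊥`). -/
def divS (I : Ideal (𝓞 K)) : PrimeOut S K →₀ ℤ :=
  Finsupp.ofSupportFinite
    (fun v : PrimeOut S K => FractionalIdeal.count K v.1 (I : FractionalIdeal (𝓞 K)⁰ K))
    ((FractionalIdeal.finite_factors (I : FractionalIdeal (𝓞 K)⁰ K)).preimage
      Subtype.val_injective.injOn)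

theorem divS_apply (I : Ideal (𝓞 K)) (v : PrimeOut S K) :
    divS S K I v = FractionalIdeal.count K v.1 (I : FractionalIdeal (𝓞 K)⁰ K) := rfl

theorem divS_mul {I J : Ideal (𝓞 K)} (hI : I ≠ ⊥) (hJ : J ≠ ⊥) :
    divS S K (I * J) = divS S K I + divS S K J := by
  ext v
  rw [Finsupp.add_apply, divS_apply, divS_apply, divS_apply, FractionalIdeal.coeIdeal_mul]
  exact FractionalIdeal.count_mul K v.1 (FractionalIdeal.coeIdeal_ne_zero.mpr hI)
    (FractionalIdeal.coeIdeal_ne_zero.mpr hJ)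

theorem divS_top : divS S K ⊤ = 0 := by
  ext v
  rw [divS_apply, FractionalIdeal.coeIdeal_top, FractionalIdeal.count_one]
  rfl

theorem divS_prime (v : PrimeOut S K) : divS S K v.1.asIdeal = Finsupp.single v 1 := by
  classical
  ext w
  rw [divS_apply, Finsupp.single_apply]
  by_cases h : v = w
  · rw [if_pos h, ← h, FractionalIdeal.count_self]
  · rw [if_neg h]
    exact FractionalIdeal.count_maximal_coprime K w.1 fun h' => h (Subtype.ext h')

theorem divS_span (x : 𝓞 K) (hx : (x : K) ≠ 0) :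
    divS S K (Ideal.span {x}) = ordHom S K (Additive.ofMul (Units.mk0 (x : K) hx)) := by
  ext v
  have hx0 : x ≠ 0 := fun h => hx (by rw [h]; simp)
  have hI : (Ideal.span {x} : Ideal (𝓞 K)) ≠ 0 := by
    rw [Ne, Submodule.zero_eq_bot, Ideal.span_singleton_eq_bot]
    exact hx0
  rw [divS_apply, ordHom_apply, ordAt_apply, FractionalIdeal.count_coe K v.1 hI]
  have h1 : v.1.valuation K ((Additive.toMul (Additive.ofMul (Units.mk0 (x : K) hx)) : Kˣ) : K)
      = v.1.intValuation x := by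
    rw [toMul_ofMul, Units.val_mk0]
    exact HeightOneSpectrum.valuation_of_algebraMap v.1 x
  rw [h1, HeightOneSpectrum.intValuation_if_neg v.1 hx0, WithZero.log_exp, neg_neg]

end Fermat.Agent.S55.H963.Br

end
end
-- ===== PACK-END S55/H963/BrDiv.lean

-- ===== PACK-BEGIN S14/H74/Orbit.lean
section



/-!
# S14/N1 (helper74): orbit decomposition of the smoothed sum (piece P3)
-/

namespace Fermat.Agent.S14.H74

open NumberField NumberField.mixedEmbedding NumberField.Units
  NumberField.Units.dirichletUnitTheorem NumberField.InfinitePlace Module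

open scoped Classical

variable {K : Type*} [Field K] [NumberField K]

/-- Nonzero principal ideals contained in `J`. -/
def PJ (J : Ideal (𝓞 K)) : Type _ :=
  {I : Ideal (𝓞 K) // I ≠ ⊥ ∧ I.IsPrincipal ∧ I ≤ J}

/-- A chosen generator. -/
noncomputable def pjGen {J : Ideal (𝓞 K)} (I : PJ J) : 𝓞 K :=
  haveI := I.2.2.1
  Submodule.IsPrincipal.generator I.1

theorem span_pjGen {J : Ideal (𝓞 K)} (I : PJ J) : Ideal.span {pjGen I} = I.1 := by
  have := I.2.2.1
  exact Ideal.span_singleton_generator I.1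

theorem pjGen_ne_zero {J : Ideal (𝓞 K)} (I : PJ J) : pjGen I ≠ 0 := by
  intro h
  have := span_pjGen I
  rw [h, Ideal.span_singleton_eq_bot.mpr rfl] at this
  exact I.2.1 this.symm

theorem pjGen_mem {J : Ideal (𝓞 K)} (I : PJ J) : pjGen I ∈ J := by
  apply I.2.2.2
  rw [← span_pjGen I]
  exact Ideal.mem_span_singleton_self _

theorem span_unit_mul (u : (𝓞 K)ˣ) (g : 𝓞 K) :
    Ideal.span {(u : 𝓞 K) * g} = Ideal.span {g} :=
  Ideal.span_singleton_mul_left_unit u.isUnit g

/-- The orbit decomposition of the nonzero elements of `J`. -/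
noncomputable def orbitEquiv (J : Ideal (𝓞 K)) :
    PJ J × (𝓞 K)ˣ ≃ {y : 𝓞 K // y ∈ J ∧ y ≠ 0} :=
  Equiv.ofBijective (fun p ↦ ⟨(p.2 : 𝓞 K) * pjGen p.1,
    J.mul_mem_left _ (pjGen_mem p.1), mul_ne_zero p.2.ne_zero (pjGen_ne_zero p.1)⟩) (by
    constructor
    · rintro ⟨I, u⟩ ⟨I', u'⟩ h
      have h1 : (u : 𝓞 K) * pjGen I = (u' : 𝓞 K) * pjGen I' := congrArg Subtype.val h
      have e1 : I.1 = Ideal.span {(u : 𝓞 K) * pjGen I} := by rw [span_unit_mul, span_pjGen]
      have e2 : I'.1 = Ideal.span {(u' : 𝓞 K) * pjGen I'} := by rw [span_unit_mul, span_pjGen]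
      have h2 : I = I' := Subtype.ext (by rw [e1, e2, h1])
      subst h2
      have h3 : (u : 𝓞 K) = u' := mul_right_cancel₀ (pjGen_ne_zero I) h1
      rw [Units.ext h3]
    · rintro ⟨y, hyJ, hy0⟩
      let I : PJ J := ⟨Ideal.span {y}, by
        rw [Ne, Ideal.span_singleton_eq_bot]
        exact hy0, ⟨⟨y, rfl⟩⟩, by
        rw [Ideal.span_singleton_le_iff_mem]
        exact hyJ⟩
      have h1 : Ideal.span {pjGen I} = Ideal.span {y} := span_pjGen I
      rw [Ideal.span_singleton_eq_span_singleton] at h1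
      obtain ⟨u, hu⟩ := h1
      refine ⟨(I, u), Subtype.ext ?_⟩
      show (u : 𝓞 K) * pjGen I = y
      rw [mul_comm]
      exact hu)

theorem orbitEquiv_apply (J : Ideal (𝓞 K)) (p : PJ J × (𝓞 K)ˣ) :
    ((orbitEquiv J p : {y : 𝓞 K // y ∈ J ∧ y ≠ 0}) : 𝓞 K) = (p.2 : 𝓞 K) * pjGen p.1 := rfl

theorem mixedEmbedding_unit_mul (u : (𝓞 K)ˣ) (g : 𝓞 K) :
    mixedEmbedding K (((u : 𝓞 K) * g : 𝓞 K) : K) = u • mixedEmbedding K (g : K) := by
  rw [unitSMul_smul, ← map_mul]
  rfl

theorem norm_pjGen {J : Ideal (𝓞 K)} (I : PJ J) :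
    mixedEmbedding.norm (mixedEmbedding K (pjGen I : K)) = (Ideal.absNorm I.1 : ℝ) := by
  rw [mixedEmbedding_norm_coe, ← span_pjGen I, Ideal.absNorm_span_singleton, Nat.cast_natAbs,
    Int.cast_abs]

theorem FS_unit_mul (s : ℝ) (u : (𝓞 K)ˣ) {J : Ideal (𝓞 K)} (I : PJ J) :
    FS K s ((u : 𝓞 K) * pjGen I) =
      rho K (u • mixedEmbedding K (pjGen I : K)) * (Ideal.absNorm I.1 : ℝ) ^ (-s) := by
  unfold FS fS
  rw [mixedEmbedding_unit_mul, norm_unit_smul, norm_pjGen]

theorem tsum_ideal_eq_tsum_ne_zero (J : Ideal (𝓞 K)) (s : ℝ) :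
    ∑' y : J, FS K s (y : 𝓞 K) = ∑' y : {y : 𝓞 K // y ∈ J ∧ y ≠ 0}, FS K s (y : 𝓞 K) := by
  have h1 := tsum_subtype (J : Set (𝓞 K)) (FS K s)
  have h2 := tsum_subtype ({y : 𝓞 K | y ∈ J ∧ y ≠ 0}) (FS K s)
  have h3 : (J : Set (𝓞 K)).indicator (FS K s) =
      ({y : 𝓞 K | y ∈ J ∧ y ≠ 0}).indicator (FS K s) := by
    funext y
    by_cases hy : y = 0
    · subst hy
      simp [Set.indicator, FS_zero]
    · simp [Set.indicator, hy]
  calc ∑' y : J, FS K s (y : 𝓞 K) = ∑' y, (J : Set (𝓞 K)).indicator (FS K s) y := h1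
    _ = ∑' y, ({y : 𝓞 K | y ∈ J ∧ y ≠ 0}).indicator (FS K s) y := by rw [h3]
    _ = _ := h2.symm

/-- **P3**: the smoothed sum over `J` is the sum over the nonzero principal ideals contained
in `J`, counted with multiplicity `torsionOrder K`. -/
theorem tsum_FS_eq (J : Ideal (𝓞 K)) {s : ℝ} (hs : 1 < s) :
    ∑' y : J, FS K s (y : 𝓞 K) =
      (torsionOrder K : ℝ) * ∑' I : PJ J, (Ideal.absNorm I.1 : ℝ) ^ (-s) := by
  rw [tsum_ideal_eq_tsum_ne_zero]
  have hsumF := summable_FS (K := K) hs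
  have hsum0 : Summable fun y : {y : 𝓞 K // y ∈ J ∧ y ≠ 0} ↦ FS K s (y : 𝓞 K) :=
    hsumF.comp_injective Subtype.val_injective
  set G : PJ J × (𝓞 K)ˣ → ℝ := fun p ↦
    rho K (p.2 • mixedEmbedding K (pjGen p.1 : K)) * (Ideal.absNorm p.1.1 : ℝ) ^ (-s) with hG
  have hcomp : (fun y : {y : 𝓞 K // y ∈ J ∧ y ≠ 0} ↦ FS K s (y : 𝓞 K)) ∘ orbitEquiv J = G := by
    funext p
    simp only [Function.comp_apply, orbitEquiv_apply, hG]
    exact FS_unit_mul s p.2 p.1
  have hsumG : Summable G := by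
    rw [← hcomp]
    exact (orbitEquiv J).summable_iff.mpr hsum0
  have hfib : ∀ I : PJ J, HasSum (fun u : (𝓞 K)ˣ ↦ G (I, u))
      ((torsionOrder K : ℝ) * (Ideal.absNorm I.1 : ℝ) ^ (-s)) := by
    intro I
    have hN : mixedEmbedding.norm (mixedEmbedding K (pjGen I : K)) ≠ 0 := by
      rw [norm_pjGen]
      have : Ideal.absNorm I.1 ≠ 0 := by
        rw [Ne, Ideal.absNorm_eq_zero_iff]
        exact I.2.1
      exact_mod_cast this
    exact (hasSum_rho_unit_smul hN).mul_right _
  calc ∑' y : {y : 𝓞 K // y ∈ J ∧ y ≠ 0}, FS K s (y : 𝓞 K)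
      = ∑' p : PJ J × (𝓞 K)ˣ, G p := by
        rw [← hcomp]
        exact ((orbitEquiv J).tsum_eq _).symm
    _ = ∑' I : PJ J, ∑' u : (𝓞 K)ˣ, G (I, u) := hsumG.tsum_prod' fun I ↦ (hfib I).summable
    _ = ∑' I : PJ J, (torsionOrder K : ℝ) * (Ideal.absNorm I.1 : ℝ) ^ (-s) :=
        tsum_congr fun I ↦ (hfib I).tsum_eq
    _ = _ := tsum_mul_left

end Fermat.Agent.S14.H74

end
-- ===== PACK-END S14/H74/Orbit.lean

-- ===== PACK-BEGIN S55/Local/H483/UR6.lean
section




/-!
# S55, layer L, pieces UR6 / UR6' : `InertiaStatement`, `InertiaCardStatement`   (helper483)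

* `inertiaCard483 : InertiaCardStatement` (UR6' of `Spec2.lean`),
* `inertia483 : InertiaStatement` (UR6 of `Spec.lean`).

The inertia subgroup `I` of `Gal(N/K)` is the Mathlib inertia group of the maximal ideal of the
ring of integers of `N` (see `Abs.lean`, `Rel.lean`); it is described intrinsically by
`σ ∈ I ↔ ∀ x integral, σ x - x ∈ 𝔪_N` and has order `e(N/K)`.  For an intermediate field `E`
the inertia subgroup of `N / E` is `Gal(N/E) ⊓ I` (same intrinsic description), whence
`e(N/E) = |Gal(N/E) ⊓ I|` and, by multiplicativity of `e`, `e(E/K) = |I| / |Gal(N/E) ⊓ I|`.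
-/

set_option autoImplicit false
set_option linter.unusedSectionVars false
set_option linter.style.haveILetI false

namespace Fermat.Agent.S55.Local.H483

open Fermat.Agent.S55.Local

section Unram

variable (A F : Type) [CommRing A] [Field F] [Algebra A F]
  (K : Type) [Field K] [Algebra F K]
  (L : Type) [Field L] [Algebra F L] [Algebra K L] [IsScalarTower F K L]

/-- Given uniformizers with `ϖK = unit * ϖL ^ e`, `L / K` is unramified iff `e = 1`. -/
lemma isUnram_iff_of_unif {ϖK : Kˣ} {ϖL : Lˣ} (hK : IsUnif A F K ϖK) (hL : IsUnif A F L ϖL)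
    {e : ℕ} (he : unitsIncl L K ϖK * ϖL ^ (-(e : ℤ)) ∈ intUnits A F L) :
    IsUnram A F L K ↔ e = 1 := by
  constructor
  · intro h
    obtain ⟨y, hy⟩ := h ϖL
    obtain ⟨m, hm⟩ := hK.2.2 y
    have hm' : unitsIncl L K (y * ϖK ^ (-m)) ∈ intUnits A F L :=
      (H724.unitsIncl_mem_intUnits_iff724 A F K L _).2 hm
    have key : ϖL ^ (1 - (e : ℤ) * m) ∈ intUnits A F L := by
      have := (intUnits A F L).mul_mem ((intUnits A F L).mul_mem hy hm')
        ((intUnits A F L).zpow_mem he m)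
      have heq : ϖL * (unitsIncl L K y)⁻¹ * unitsIncl L K (y * ϖK ^ (-m)) *
          (unitsIncl L K ϖK * ϖL ^ (-(e : ℤ))) ^ m = ϖL ^ (1 - (e : ℤ) * m) := by
        rw [map_mul, map_zpow]
        apply Additive.ofMul.injective
        simp only [ofMul_mul, ofMul_zpow, ofMul_inv]
        module
      rwa [heq] at this
    have h0 := H724.zpow_mem_intUnits724 A F L hL.1 hL.2.1 key
    have h1 : (e : ℤ) * m = 1 := by linarith
    have h2 : (e : ℤ) = 1 := by
      rcases Int.eq_one_or_neg_one_of_mul_eq_one h1 with h | h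
      · exact h
      · have : (0 : ℤ) ≤ e := Int.natCast_nonneg e
        omega
    exact_mod_cast h2
  · rintro rfl
    intro x
    obtain ⟨n, hn⟩ := hL.2.2 x
    refine ⟨ϖK ^ n, ?_⟩
    have := (intUnits A F L).mul_mem hn ((intUnits A F L).zpow_mem he (-n))
    have heq : x * ϖL ^ (-n) * (unitsIncl L K ϖK * ϖL ^ (-((1 : ℕ) : ℤ))) ^ (-n) =
        x * (unitsIncl L K (ϖK ^ n))⁻¹ := by
      rw [map_zpow]
      apply Additive.ofMul.injective
      simp only [ofMul_mul, ofMul_zpow, ofMul_inv]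
      push_cast
      module
    rwa [heq] at this

end Unram

section Tower

variable (A F : Type) [CommRing A] [IsDomain A] [IsDiscreteValuationRing A]
  [IsAdicComplete (IsLocalRing.maximalIdeal A) A] [Finite (IsLocalRing.ResidueField A)]
  [Field F] [CharZero F] [Algebra A F] [IsFractionRing A F]
  (K : Type) [Field K] [Algebra F K] [FiniteDimensional F K]
  (N : Type) [Field N] [Algebra F N] [Algebra K N] [IsScalarTower F K N]
  [FiniteDimensional K N] [IsGalois K N]
  (E : Type) [Field E] [Algebra F E] [Algebra K E] [Algebra E N]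
  [IsScalarTower F K E] [IsScalarTower F E N] [IsScalarTower K E N]

/-- The tower argument, for an abstract intermediate field `K ⊆ E ⊆ N` and a subgroup `H`
which is the fixing subgroup of `E`. -/
theorem tower_inertia (I : Subgroup (N ≃ₐ[K] N))
    (hmem : ∀ σ, σ ∈ I ↔ ∀ x : N, IsInt A F N x → InMax A F N (σ x - x))
    (hcard : ∀ (ϖK : Kˣ) (ϖN : Nˣ), IsUnif A F K ϖK → IsUnif A F N ϖN →
      unitsIncl N K ϖK * ϖN ^ (-(Nat.card I : ℤ)) ∈ intUnits A F N)
    (H : Subgroup (N ≃ₐ[K] N))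
    (hH : ∀ σ : N ≃ₐ[K] N, σ ∈ H ↔ ∀ x : E, σ (algebraMap E N x) = algebraMap E N x) :
    (IsUnram A F N E ↔ H ⊓ I = ⊥) ∧ (IsUnram A F E K ↔ I ≤ H) := by
  haveI : FiniteDimensional F N := FiniteDimensional.trans F K N
  haveI : FiniteDimensional F E := FiniteDimensional.left F E N
  haveI : FiniteDimensional K E := FiniteDimensional.left K E N
  haveI : FiniteDimensional E N := FiniteDimensional.right K E N
  haveI : IsGalois E N := IsGalois.tower_top_of_isGalois K E N
  obtain ⟨IE, -, hmemE, hcardE⟩ := exists_inertia A F E N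
  obtain ⟨ϖK, hϖK⟩ := H608.exists_isUnif A F K
  obtain ⟨ϖE, hϖE⟩ := H608.exists_isUnif A F E
  obtain ⟨ϖN, hϖN⟩ := H608.exists_isUnif A F N
  -- the inertia subgroup of `N / E` is `H ⊓ I`
  have hcardEq : Nat.card IE = Nat.card ↥(H ⊓ I) := by
    have hmap : ∀ σ : N ≃ₐ[E] N, σ ∈ IE → AlgEquiv.restrictScalars K σ ∈ H ⊓ I := by
      intro σ hσ
      refine ⟨(hH _).2 (fun x => ?_), (hmem _).2 (fun x hx => ?_)⟩
      · exact σ.commutes x
      · exact (hmemE σ).1 hσ x hx
    refine Nat.card_eq_of_bijective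
      (fun σ : IE => (⟨AlgEquiv.restrictScalars K σ.1, hmap σ.1 σ.2⟩ : ↥(H ⊓ I))) ⟨?_, ?_⟩
    · intro σ τ hστ
      have h1 : AlgEquiv.restrictScalars K σ.1 = AlgEquiv.restrictScalars K τ.1 :=
        congrArg Subtype.val hστ
      exact Subtype.ext (AlgEquiv.restrictScalars_injective K h1)
    · rintro ⟨τ, hτH, hτI⟩
      have hτE : ∀ x : E, τ (algebraMap E N x) = algebraMap E N x := (hH τ).1 hτH
      let σ : N ≃ₐ[E] N := AlgEquiv.ofRingEquiv (f := τ.toRingEquiv) hτE
      have hσ : σ ∈ IE := (hmemE σ).2 (fun x hx => (hmem τ).1 hτI x hx)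
      refine ⟨⟨σ, hσ⟩, Subtype.ext ?_⟩
      ext x
      rfl
  -- `e(E/K)` and multiplicativity
  obtain ⟨e', f', -, he', -⟩ := H724.ramification_core724 A F K E ϖK ϖE hϖK hϖE
  have hcK := hcard ϖK ϖN hϖK hϖN
  have hcE := hcardE ϖE ϖN hϖE hϖN
  have hmul : (Nat.card I : ℤ) = e' * Nat.card IE := by
    have he'' : unitsIncl N E (unitsIncl E K ϖK * ϖE ^ (-(e' : ℤ))) ∈ intUnits A F N :=
      (H724.unitsIncl_mem_intUnits_iff724 A F E N _).2 he'
    have hincl : unitsIncl N E (unitsIncl E K ϖK) = unitsIncl N K ϖK := by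
      ext
      simp only [unitsIncl_coe]
      exact (IsScalarTower.algebraMap_apply K E N _).symm
    rw [map_mul, map_zpow, hincl] at he''
    have key : ϖN ^ ((e' : ℤ) * Nat.card IE - Nat.card I) ∈ intUnits A F N := by
      have := (intUnits A F N).mul_mem
        ((intUnits A F N).mul_mem hcK ((intUnits A F N).inv_mem he''))
        ((intUnits A F N).zpow_mem hcE (-(e' : ℤ)))
      have heq : unitsIncl N K ϖK * ϖN ^ (-(Nat.card I : ℤ)) *
          (unitsIncl N K ϖK * unitsIncl N E ϖE ^ (-(e' : ℤ)))⁻¹ *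
          (unitsIncl N E ϖE * ϖN ^ (-(Nat.card IE : ℤ))) ^ (-(e' : ℤ)) =
          ϖN ^ ((e' : ℤ) * Nat.card IE - Nat.card I) := by
        apply Additive.ofMul.injective
        simp only [ofMul_mul, ofMul_zpow, ofMul_inv]
        module
      rwa [heq] at this
    have h0 := H724.zpow_mem_intUnits724 A F N hϖN.1 hϖN.2.1 key
    linarith
  have hmulN : Nat.card I = e' * Nat.card ↥(H ⊓ I) := by
    rw [← hcardEq]
    exact_mod_cast hmul
  have hpos : 0 < Nat.card ↥(H ⊓ I) := Nat.card_pos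
  have hposI : 0 < Nat.card I := Nat.card_pos
  constructor
  · rw [isUnram_iff_of_unif A F E N hϖE hϖN hcE, hcardEq]
    exact Subgroup.card_eq_one
  · rw [isUnram_iff_of_unif A F K E hϖK hϖE he']
    constructor
    · intro h1
      have hc : Nat.card I = Nat.card ↥(H ⊓ I) := by rw [hmulN, h1, one_mul]
      have heq : H ⊓ I = I := Subgroup.eq_of_le_of_card_ge inf_le_right hc.le
      rw [← heq]
      exact inf_le_left
    · intro hle
      have heq : H ⊓ I = I := inf_eq_right.2 hle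
      rw [heq] at hmulN
      have : e' * Nat.card I = 1 * Nat.card I := by rw [one_mul]; exact hmulN.symm
      exact Nat.eq_of_mul_eq_mul_right hposI this

end Tower

section Final

/-- **UR6'** (`InertiaCardStatement` of `Spec2.lean`): inertia subgroup with the unramified
sub-extension property and of order the ramification index. -/
theorem inertiaCard483 : InertiaCardStatement := by
  intro A F _ _ _ _ _ _ _ _ _ K _ _ _ N _ _ _ _ _ _
  obtain ⟨I, hI, hmem, hcard⟩ := exists_inertia A F K N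
  refine ⟨I, hI, ?_, hcard⟩
  intro E
  letI algFE : Algebra F E := ((algebraMap K E).comp (algebraMap F K)).toAlgebra
  haveI : @IsScalarTower F K E _ _ (@Algebra.toSMul F E _ _ algFE) :=
    IsScalarTower.of_algebraMap_eq (fun _ => rfl)
  haveI : @IsScalarTower F E N (@Algebra.toSMul F E _ _ algFE) _ _ :=
    IsScalarTower.of_algebraMap_eq (fun x => by
      show algebraMap F N x = algebraMap E N (algebraMap K E (algebraMap F K x))
      rw [← IsScalarTower.algebraMap_apply K E N, ← IsScalarTower.algebraMap_apply F K N])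
  exact tower_inertia A F K N E I hmem hcard E.fixingSubgroup (fun σ => by
    rw [IntermediateField.mem_fixingSubgroup_iff]
    exact ⟨fun h x => h x.1 x.2, fun h x hx => h ⟨x, hx⟩⟩)

/-- **UR6** (`InertiaStatement` of `Spec.lean`). -/
theorem inertia483 : InertiaStatement :=
  inertiaStatement_of_inertiaCard inertiaCard483

end Final

end Fermat.Agent.S55.Local.H483

end
-- ===== PACK-END S55/Local/H483/UR6.lean

-- ===== PACK-BEGIN S55/H901/H1Fin.lean
section




/-!
# S55 / G5: finiteness of `H¹(G_S, M)` in Prelude terms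

`M` a finite-dimensional smooth `𝔽_p`-representation of `G_ℚ`, unramified outside `S ∋ p`.
Then `continuousH1S S M` (hence `sha₁ S M`) is finite-dimensional.

Proof: there is ONE finite extension `Lmax/ℚ` such that every `S`-level-constant 1-cocycle of
`M` vanishes on `G_{Lmax}` (`exists_level_bound`): on `G_L` (`L` a common Galois level of `M`
and `μ_p`) a cocycle is a homomorphism of finite `S`-unramified level; each of its coordinates
is cut out by a Kummer generator `β`, `β^p ∈ L` (`exists_kummer_generator`), and all such `β`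
lie in the bound field (`exists_bound_field`: finiteness of the Selmer group `L(S,p)`).
Hence all such cocycles factor through the finite set `G_ℚ / G_{Lmax}`.

The only input not proved here is `UnramClassicalSpec S` (B10-classical: Prelude-unramified
implies ramification index `1`).
-/

set_option autoImplicit false
set_option linter.style.haveILetI false
set_option linter.unusedSectionVars false

open IntermediateField groupCohomology ExtCitation

namespace Fermat.Agent.S55.H901

open Fermat.Agent.S55.Bridge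

variable {p : ℕ} [Fact p.Prime]

/-- **Uniform level bound.** -/
theorem exists_level_bound (S : Finset Nat.Primes) (hB : UnramClassicalSpec S)
    (hpS : pPrime p ∈ S)
    (M : Rep.{0, 0, 0} (ZMod p) (AlgebraicClosure ℚ ≃ₐ[ℚ] AlgebraicClosure ℚ))
    [FiniteDimensional (ZMod p) M]
    (hsm : ∀ m : M, ∃ F : IntermediateField ℚ (AlgebraicClosure ℚ), FiniteDimensional ℚ F ∧
      ∀ s ∈ F.fixingSubgroup, M.ρ s m = m)
    (hMur : ∀ q : Nat.Primes, q ∉ S → ∀ A : ValuationSubring (AlgebraicClosure ℚ),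
      A.LiesOverPrime (q : ℕ) → ∀ g ∈ A.inertiaSubgroupIn ℚ, M.ρ g = 1) :
    ∃ Lmax : IntermediateField ℚ (AlgebraicClosure ℚ), FiniteDimensional ℚ Lmax ∧
      ∀ c : cocycles₁ M, IsLevelConstantS₁ S c → ∀ s ∈ Lmax.fixingSubgroup, c s = 0 := by
  classical
  haveI : NeZero p := ⟨(Fact.out : p.Prime).ne_zero⟩
  haveI := isGalois_Qbar
  obtain ⟨L, hL, hLgal, hLM, hLcyc, -⟩ := exists_common_galois_level M S hpS hsm hMur
  haveI := hL.1
  -- a primitive `p`-th root of unity, lying in `L`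
  haveI : NeZero ((p : ℕ) : AlgebraicClosure ℚ) := ⟨by exact_mod_cast (Fact.out : p.Prime).ne_zero⟩
  obtain ⟨ζ, hζ⟩ := HasEnoughRootsOfUnity.exists_primitiveRoot (AlgebraicClosure ℚ) p
  have hζ0 : ζ ≠ 0 := hζ.ne_zero (Fact.out : p.Prime).ne_zero
  have hζL : ζ ∈ L := by
    rw [← InfiniteGalois.fixedField_fixingSubgroup L, IntermediateField.mem_fixedField_iff]
    intro s hs
    have h1 := (cycloChar_eq_one_iff p s).1 (hLcyc s hs) (hζ.isUnit (Fact.out : p.Prime).ne_zero).unit
      (by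
        rw [mem_rootsOfUnity]
        apply Units.ext
        simpa using hζ.pow_eq_one)
    simpa using h1
  obtain ⟨Lmax, hfin, hLLmax, hbound⟩ :=
    exists_bound_field S hB (Fact.out : p.Prime).pos L
  refine ⟨Lmax, hfin, fun c hc s hs => ?_⟩
  obtain ⟨F, hF, hFgal, hLF, hconst⟩ := (isLevelConstantS₁_iff_galois S c L hL).1 hc
  haveI := hF.1
  have hsL : s ∈ L.fixingSubgroup := IntermediateField.fixingSubgroup_antitone hLLmax hs
  have hcadd : ∀ s ∈ L.fixingSubgroup, ∀ t ∈ L.fixingSubgroup, c (s * t) = c s + c t := by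
    intro s hs t _
    rw [(mem_cocycles₁_iff c).1 c.2 s t, hLM s hs, add_comm]
    rfl
  rw [← Module.forall_dual_apply_eq_zero_iff (ZMod p)]
  intro φ
  obtain ⟨β, hβF, hβ0, hβL, hβs⟩ := exists_kummer_generator L F hLF hζL hζ.pow_eq_one hζ0
    (fun s => φ (c s))
    (fun s hs t ht => by rw [hcadd s hs t ht, map_add])
    (fun s _ t ht => by rw [hconst s t ht])
  have hβmax : β ∈ Lmax := hbound F hF hFgal hLF β hβF hβ0 hβL
  have h1 : s β = β := (IntermediateField.mem_fixingSubgroup_iff _ _).1 hs β hβmax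
  have h2 := hβs s hsL
  rw [h1] at h2
  have h3 : ζ ^ (φ (c s)).val = 1 := by
    have : ζ ^ (φ (c s)).val * β = 1 * β := by rw [one_mul]; exact h2.symm
    exact mul_right_cancel₀ hβ0 this
  have h4 : p ∣ (φ (c s)).val := (hζ.pow_eq_one_iff_dvd _).1 h3
  have h5 : (φ (c s)).val = 0 := Nat.eq_zero_of_dvd_of_lt h4 (ZMod.val_lt _)
  exact (ZMod.val_eq_zero _).1 h5

/-- The fixing subgroup of a finite extension has finite index in `G_ℚ`. -/
theorem finite_quotient_fixingSubgroup (E : IntermediateField ℚ (AlgebraicClosure ℚ))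
    [FiniteDimensional ℚ E] :
    Finite ((AlgebraicClosure ℚ ≃ₐ[ℚ] AlgebraicClosure ℚ) ⧸ E.fixingSubgroup) := by
  haveI := isAlgebraic_Qbar
  haveI := isGalois_Qbar
  exact Subgroup.quotient_finite_of_isOpen _ (IntermediateField.fixingSubgroup_isOpen E)

/-- If all `S`-level-constant cocycles vanish on `G_E` for one finite `E/ℚ`, then there are only
finitely many of them. -/
theorem finite_levelCocyclesS₁_of_bound (S : Finset Nat.Primes)
    (M : Rep.{0, 0, 0} (ZMod p) (AlgebraicClosure ℚ ≃ₐ[ℚ] AlgebraicClosure ℚ))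
    [FiniteDimensional (ZMod p) M]
    (E : IntermediateField ℚ (AlgebraicClosure ℚ)) [FiniteDimensional ℚ E]
    (h : ∀ c : cocycles₁ M, IsLevelConstantS₁ S c → ∀ s ∈ E.fixingSubgroup, c s = 0) :
    Finite (levelCocyclesS₁ S M) := by
  classical
  haveI := finite_quotient_fixingSubgroup E
  haveI : Finite M := Module.finite_of_finite (ZMod p)
  let Φ : levelCocyclesS₁ S M →
      ((AlgebraicClosure ℚ ≃ₐ[ℚ] AlgebraicClosure ℚ) ⧸ E.fixingSubgroup → M) :=
    fun c q => (c : cocycles₁ M) (Quotient.out q)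
  have hconst : ∀ (c : levelCocyclesS₁ S M) (g : AlgebraicClosure ℚ ≃ₐ[ℚ] AlgebraicClosure ℚ),
      (c : cocycles₁ M) (Quotient.out (QuotientGroup.mk g :
        (AlgebraicClosure ℚ ≃ₐ[ℚ] AlgebraicClosure ℚ) ⧸ E.fixingSubgroup)) = (c : cocycles₁ M) g := by
    intro c g
    obtain ⟨t, ht⟩ := QuotientGroup.mk_out_eq_mul E.fixingSubgroup g
    rw [ht, (mem_cocycles₁_iff (c : cocycles₁ M)).1 (c : cocycles₁ M).2 g t,
      h (c : cocycles₁ M) c.2 t t.2, map_zero, zero_add]
  refine Finite.of_injective Φ (fun c c' hcc' => ?_)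
  apply Subtype.ext
  apply cocycles₁_ext
  intro g
  rw [← hconst c g, ← hconst c' g]
  exact congrFun hcc' _

/-- **G5 (finiteness of `H¹(G_S, M)`), conditional on B10-classical.** -/
theorem finite_continuousH1S_of (S : Finset Nat.Primes) (hB : UnramClassicalSpec S)
    (hpS : pPrime p ∈ S)
    (M : Rep.{0, 0, 0} (ZMod p) (AlgebraicClosure ℚ ≃ₐ[ℚ] AlgebraicClosure ℚ))
    [FiniteDimensional (ZMod p) M]
    (hsm : ∀ m : M, ∃ F : IntermediateField ℚ (AlgebraicClosure ℚ), FiniteDimensional ℚ F ∧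
      ∀ s ∈ F.fixingSubgroup, M.ρ s m = m)
    (hMur : ∀ q : Nat.Primes, q ∉ S → ∀ A : ValuationSubring (AlgebraicClosure ℚ),
      A.LiesOverPrime (q : ℕ) → ∀ g ∈ A.inertiaSubgroupIn ℚ, M.ρ g = 1) :
    Finite (continuousH1S S M) := by
  obtain ⟨Lmax, hfin, hbound⟩ := exists_level_bound S hB hpS M hsm hMur
  haveI := hfin
  haveI := finite_levelCocyclesS₁_of_bound S M Lmax hbound
  let Ψ : levelCocyclesS₁ S M → continuousH1S S M :=
    fun c => ⟨(H1π M).hom (c : cocycles₁ M), Submodule.mem_map_of_mem c.2⟩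
  refine Finite.of_surjective Ψ ?_
  rintro ⟨x, hx⟩
  obtain ⟨c, hc, rfl⟩ := (mem_continuousH1S_iff S M x).1 hx
  exact ⟨⟨c, hc⟩, rfl⟩

/-- **G5**: `H¹(G_S, M)` is finite-dimensional (conditional on B10-classical). -/
theorem finiteDimensional_continuousH1S_of (S : Finset Nat.Primes) (hB : UnramClassicalSpec S)
    (hpS : pPrime p ∈ S)
    (M : Rep.{0, 0, 0} (ZMod p) (AlgebraicClosure ℚ ≃ₐ[ℚ] AlgebraicClosure ℚ))
    [FiniteDimensional (ZMod p) M]
    (hsm : ∀ m : M, ∃ F : IntermediateField ℚ (AlgebraicClosure ℚ), FiniteDimensional ℚ F ∧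
      ∀ s ∈ F.fixingSubgroup, M.ρ s m = m)
    (hMur : ∀ q : Nat.Primes, q ∉ S → ∀ A : ValuationSubring (AlgebraicClosure ℚ),
      A.LiesOverPrime (q : ℕ) → ∀ g ∈ A.inertiaSubgroupIn ℚ, M.ρ g = 1) :
    FiniteDimensional (ZMod p) (continuousH1S S M) := by
  haveI := finite_continuousH1S_of S hB hpS M hsm hMur
  exact Module.Finite.of_finite

/-- `Ш¹_S(M)` is finite-dimensional (conditional on B10-classical). -/
theorem finiteDimensional_sha₁_of (S : Finset Nat.Primes) (hB : UnramClassicalSpec S)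
    (hpS : pPrime p ∈ S)
    (M : Rep.{0, 0, 0} (ZMod p) (AlgebraicClosure ℚ ≃ₐ[ℚ] AlgebraicClosure ℚ))
    [FiniteDimensional (ZMod p) M]
    (hsm : ∀ m : M, ∃ F : IntermediateField ℚ (AlgebraicClosure ℚ), FiniteDimensional ℚ F ∧
      ∀ s ∈ F.fixingSubgroup, M.ρ s m = m)
    (hMur : ∀ q : Nat.Primes, q ∉ S → ∀ A : ValuationSubring (AlgebraicClosure ℚ),
      A.LiesOverPrime (q : ℕ) → ∀ g ∈ A.inertiaSubgroupIn ℚ, M.ρ g = 1) :
    FiniteDimensional (ZMod p) (sha₁ S M) := by
  haveI := finiteDimensional_continuousH1S_of S hB hpS M hsm hMur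
  exact Submodule.finiteDimensional_of_le (inf_le_left : sha₁ S M ≤ continuousH1S S M)

end Fermat.Agent.S55.H901

end
-- ===== PACK-END S55/H901/H1Fin.lean

-- ===== PACK-BEGIN S55/E1/H594/TensUnits.lean
section
/-
S55 / engine E1 / G-ADAPTER leaf TENS (helper594), part 2: units, tower form.

For a tower level `L : Tow.Level S` and a prime `q`:
`tensLocEquiv L q : Additive (ℚ_q ⊗[ℚ] L.F)ˣ ≃+ (L.J q).V`
(the local factor of the `S`-idèles in the tensor model of layer G is the coinduced module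
`J_q(F) = Coind_{Dec q}^{Gal} F_qˣ` of the tower), with
`tensLocEquiv L q u` = the function `g ↦ ev_g(u)`, `ev_g (c ⊗ x) = c · ι(g x)`,
and equivariant for the action of `L.Gal` on the second factor.
No `sorry`.
-/



set_option autoImplicit false
set_option linter.unusedSectionVars false
set_option linter.style.haveILetI false

namespace Fermat.Agent.S55.E1.H594

open Fermat.Agent.S55 Fermat.Agent.S55.Tow Fermat.Agent.S55.Bridge
open Fermat.Agent.S55.Bridge.H175
open scoped TensorProduct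

attribute [local instance] isAlgebraic_Qbar isGalois_Qbar

noncomputable section

/-- `q : Nat.Primes` is prime (local instance of this file). -/
local instance instFactPrimeH594 (q : Nat.Primes) : Fact (q : ℕ).Prime := ⟨q.2⟩

variable {S : Finset Nat.Primes} (L : Level S) (q : Nat.Primes)

/-- An element of the Prelude local Galois group as an automorphism of `ℚ̄_q`. -/
def locAut (τ : GQp q) : PadicAlgCl (q : ℕ) ≃ₐ[ℚ_[(q : ℕ)]] PadicAlgCl (q : ℕ) := τ

theorem locQ_eq (τ : GQp q) : locQ q τ = localGaloisToGlobal (q : ℕ) (locAut q τ) := rfl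

theorem locAut_mul (τ τ' : GQp q) : locAut q (τ * τ') = locAut q τ * locAut q τ' := rfl

/-- `toLevel` (B11) in tower terms. -/
theorem toLevel_locAut (τ : GQp q) :
    toLevel (q : ℕ) L.F (locAut q τ) = levelGalEquiv L (QuotientGroup.mk (locQ q τ) : L.Gal) :=
  rfl

theorem toLevel_eq_one_of_mem_V (τ : GQp q) (hτ : τ ∈ L.V q) :
    toLevel (q : ℕ) L.F (locAut q τ) = 1 := by
  rw [toLevel_locAut]
  have : (QuotientGroup.mk (locQ q τ) : L.Gal) = 1 := (QuotientGroup.eq_one_iff _).2 hτ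
  rw [this, map_one]

/-- The underlying element of `ℚ̄_q` of an element of `F_qˣ = (ℚ̄_qˣ)^{V}`. -/
def locVal (x : (L.locUnits q).V) : PadicAlgCl (q : ℕ) :=
  ((Additive.toMul (α := (PadicAlgCl (q : ℕ))ˣ) (x.1 : Additive (PadicAlgCl (q : ℕ))ˣ) :
    (PadicAlgCl (q : ℕ))ˣ) : PadicAlgCl (q : ℕ))

theorem locVal_injective : Function.Injective (locVal L q) := by
  intro x y h
  apply Subtype.ext
  apply Additive.toMul.injective
  apply Units.ext
  exact h

theorem locVal_add (x y : (L.locUnits q).V) : locVal L q (x + y) = locVal L q x * locVal L q y :=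
  rfl

theorem locVal_zero : locVal L q 0 = 1 := rfl

theorem locVal_ne_zero (x : (L.locUnits q).V) : locVal L q x ≠ 0 :=
  (Additive.toMul (α := (PadicAlgCl (q : ℕ))ˣ) (x.1 : Additive (PadicAlgCl (q : ℕ))ˣ)).ne_zero

theorem locVal_ρ_mk (τ : GQp q) (x : (L.locUnits q).V) :
    locVal L q ((L.locUnits q).ρ (QuotientGroup.mk τ : L.Dec q) x) = locAut q τ (locVal L q x) :=
  rfl

theorem locVal_fixed (x : (L.locUnits q).V) (τ : GQp q) (hτ : τ ∈ L.V q) :
    locAut q τ (locVal L q x) = locVal L q x := by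
  have h := x.2 ⟨τ, hτ⟩
  exact congrArg (fun v : Additive (PadicAlgCl (q : ℕ))ˣ =>
    ((Additive.toMul v : (PadicAlgCl (q : ℕ))ˣ) : PadicAlgCl (q : ℕ))) h

/-- Construct an element of `F_qˣ` from a nonzero `V`-fixed element of `ℚ̄_q`. -/
def locMk (w : PadicAlgCl (q : ℕ)) (hw : w ≠ 0)
    (hfix : ∀ τ : GQp q, τ ∈ L.V q → locAut q τ w = w) : (L.locUnits q).V :=
  ⟨Additive.ofMul (Units.mk0 w hw), fun τ => by
    apply Additive.toMul.injective
    apply Units.ext
    exact hfix τ.1 τ.2⟩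

theorem locVal_locMk (w : PadicAlgCl (q : ℕ)) (hw : w ≠ 0)
    (hfix : ∀ τ : GQp q, τ ∈ L.V q → locAut q τ w = w) :
    locVal L q (locMk L q w hw hfix) = w := rfl

/-- Evaluation at `g ∈ L.Gal`: the `ℚ_q`-algebra map `ℚ_q ⊗ F → ℚ̄_q`, `c ⊗ x ↦ c · ι(g x)`. -/
def towerEv (g : L.Gal) : ℚ_[(q : ℕ)] ⊗[ℚ] L.F →ₐ[ℚ_[(q : ℕ)]] PadicAlgCl (q : ℕ) :=
  coreEv (q : ℕ) L.F (levelGalEquiv L g)

theorem towerEv_tmul (g : L.Gal) (c : ℚ_[(q : ℕ)]) (x : L.F) :
    towerEv L q g (c ⊗ₜ[ℚ] x) = algebraMap ℚ_[(q : ℕ)] (PadicAlgCl (q : ℕ)) c *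
      padicEmbedding (q : ℕ) ((g • x : L.F) : Qbar) := rfl

theorem towerEv_decHom_mul (τ : GQp q) (g : L.Gal) (a : ℚ_[(q : ℕ)] ⊗[ℚ] L.F) :
    towerEv L q (L.decHom q (QuotientGroup.mk τ : L.Dec q) * g) a =
      locAut q τ (towerEv L q g a) := by
  have h := corePhi_mem (q : ℕ) L.F a (locAut q τ) (levelGalEquiv L g)
  rw [toLevel_locAut, ← map_mul] at h
  exact h

theorem towerEv_fixed (g : L.Gal) (a : ℚ_[(q : ℕ)] ⊗[ℚ] L.F) (τ : GQp q) (hτ : τ ∈ L.V q) :
    locAut q τ (towerEv L q g a) = towerEv L q g a := by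
  have h := corePhi_mem (q : ℕ) L.F a (locAut q τ) (levelGalEquiv L g)
  rw [toLevel_eq_one_of_mem_V L q τ hτ, one_mul] at h
  exact h.symm

/-- The action of `h ∈ L.Gal` on `ℚ_q ⊗ F` (through the second factor). -/
def towerAct (h : L.Gal) : ℚ_[(q : ℕ)] ⊗[ℚ] L.F →ₐ[ℚ_[(q : ℕ)]] ℚ_[(q : ℕ)] ⊗[ℚ] L.F :=
  Algebra.TensorProduct.map (AlgHom.id ℚ_[(q : ℕ)] ℚ_[(q : ℕ)])
    ((levelGalEquiv L h : L.F ≃ₐ[ℚ] L.F) : L.F →ₐ[ℚ] L.F)

theorem towerAct_tmul (h : L.Gal) (c : ℚ_[(q : ℕ)]) (x : L.F) :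
    towerAct L q h (c ⊗ₜ[ℚ] x) = c ⊗ₜ[ℚ] (h • x) := rfl

theorem towerEv_towerAct (g h : L.Gal) (a : ℚ_[(q : ℕ)] ⊗[ℚ] L.F) :
    towerEv L q g (towerAct L q h a) = towerEv L q (g * h) a := by
  have := coreEv_map (q : ℕ) L.F (levelGalEquiv L h) (levelGalEquiv L g) a
  rw [← map_mul] at this
  exact this

/-- `u ↦ (g ↦ ev_g u)`: the map `(ℚ_q ⊗ F)ˣ → J_q(F)`. -/
def tensLocFun (u : (ℚ_[(q : ℕ)] ⊗[ℚ] L.F)ˣ) : (L.J q).V :=
  ⟨fun g => locMk L q (towerEv L q g (u : ℚ_[(q : ℕ)] ⊗[ℚ] L.F))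
      (IsUnit.ne_zero (u.isUnit.map (towerEv L q g).toRingHom))
      (fun τ hτ => towerEv_fixed L q g _ τ hτ), by
    intro d g
    induction d using QuotientGroup.induction_on with
    | H τ =>
      apply locVal_injective
      rw [locVal_ρ_mk, locVal_locMk, locVal_locMk]
      exact towerEv_decHom_mul L q τ g _⟩

theorem locVal_tensLocFun (u : (ℚ_[(q : ℕ)] ⊗[ℚ] L.F)ˣ) (g : L.Gal) :
    locVal L q ((tensLocFun L q u).1 g) = towerEv L q g (u : ℚ_[(q : ℕ)] ⊗[ℚ] L.F) := rfl

/-- Two elements of `J_q(F)` with the same values are equal. -/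
theorem J_ext {f f' : (L.J q).V} (h : ∀ g, locVal L q (f.1 g) = locVal L q (f'.1 g)) :
    f = f' := by
  apply Subtype.ext
  funext g
  exact locVal_injective L q (h g)

/-- `(ℚ_q ⊗ F)ˣ → J_q(F)` as an additive map. -/
def tensLocHom : Additive (ℚ_[(q : ℕ)] ⊗[ℚ] L.F)ˣ →+ (L.J q).V where
  toFun u := tensLocFun L q u.toMul
  map_zero' := by
    apply J_ext
    intro g
    rw [locVal_tensLocFun]
    exact map_one (towerEv L q g).toRingHom
  map_add' u v := by
    apply J_ext
    intro g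
    rw [locVal_tensLocFun]
    exact map_mul (towerEv L q g).toRingHom _ _

theorem locVal_tensLocHom (u : Additive (ℚ_[(q : ℕ)] ⊗[ℚ] L.F)ˣ) (g : L.Gal) :
    locVal L q ((tensLocHom L q u).1 g) =
      towerEv L q g ((u.toMul : (ℚ_[(q : ℕ)] ⊗[ℚ] L.F)ˣ) : ℚ_[(q : ℕ)] ⊗[ℚ] L.F) := rfl

theorem tensLocHom_injective : Function.Injective (tensLocHom L q) := by
  intro u v h
  apply Additive.toMul.injective
  apply Units.ext
  apply corePhi_injective (q : ℕ) L.F
  funext γ
  have h1 := congrArg (fun f : (L.J q).V => locVal L q (f.1 ((levelGalEquiv L).symm γ))) h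
  simp only [locVal_tensLocHom, towerEv, MulEquiv.apply_symm_apply] at h1
  exact h1

/-- The function `Γ → Ω` underlying an element of `J_q(F)`. -/
def coreOfJ (f : (L.J q).V) : (L.F ≃ₐ[ℚ] L.F) → PadicAlgCl (q : ℕ) :=
  fun γ => locVal L q (f.1 ((levelGalEquiv L).symm γ))

theorem coreOfJ_mem (f : (L.J q).V) : coreOfJ L q f ∈ coreR (q : ℕ) L.F := by
  intro τ' γ
  let τ : GQp q := τ'
  have h1 : toLevel (q : ℕ) L.F τ' =
      levelGalEquiv L (L.decHom q (QuotientGroup.mk τ : L.Dec q)) := rfl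
  have h2 : (levelGalEquiv L).symm (toLevel (q : ℕ) L.F τ' * γ) =
      L.decHom q (QuotientGroup.mk τ : L.Dec q) * (levelGalEquiv L).symm γ := by
    rw [h1, MulEquiv.symm_apply_eq, map_mul, MulEquiv.apply_symm_apply]
  have h3 := f.2 (QuotientGroup.mk τ : L.Dec q) ((levelGalEquiv L).symm γ)
  change locVal L q (f.1 ((levelGalEquiv L).symm (toLevel (q : ℕ) L.F τ' * γ))) =
    τ' (locVal L q (f.1 ((levelGalEquiv L).symm γ)))
  rw [h2, h3]
  rfl

theorem coreOfJ_neg_mul (f : (L.J q).V) (γ : L.F ≃ₐ[ℚ] L.F) :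
    coreOfJ L q (-f) γ * coreOfJ L q f γ = 1 := by
  have h : (-f + f : (L.J q).V) = 0 := neg_add_cancel f
  have h1 := congrArg (fun f' : (L.J q).V => locVal L q (f'.1 ((levelGalEquiv L).symm γ))) h
  exact h1

theorem tensLocHom_surjective : Function.Surjective (tensLocHom L q) := by
  intro f
  let e := (coreEquiv (q : ℕ) L.F).toRingEquiv
  let a := e.symm ⟨coreOfJ L q f, coreOfJ_mem L q f⟩
  let b := e.symm ⟨coreOfJ L q (-f), coreOfJ_mem L q (-f)⟩
  have hba : b * a = 1 := by
    apply e.injective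
    rw [map_mul, map_one, RingEquiv.apply_symm_apply, RingEquiv.apply_symm_apply]
    apply Subtype.ext
    funext γ
    exact coreOfJ_neg_mul L q f γ
  have hab : a * b = 1 := (mul_comm a b).trans hba
  refine ⟨Additive.ofMul ⟨a, b, hab, hba⟩, ?_⟩
  apply J_ext
  intro g
  rw [locVal_tensLocHom]
  change ((coreEquiv (q : ℕ) L.F a : coreR (q : ℕ) L.F) :
    (L.F ≃ₐ[ℚ] L.F) → PadicAlgCl (q : ℕ)) (levelGalEquiv L g) = _
  have h1 : coreEquiv (q : ℕ) L.F a = ⟨coreOfJ L q f, coreOfJ_mem L q f⟩ :=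
    e.apply_symm_apply _
  rw [h1]
  change locVal L q (f.1 ((levelGalEquiv L).symm (levelGalEquiv L g))) = _
  rw [MulEquiv.symm_apply_apply]

/-- **TENS, local factor**: `(ℚ_q ⊗[ℚ] F)ˣ ≃ J_q(F) = Coind_{Dec q}^{Gal} F_qˣ`. -/
def tensLocEquiv : Additive (ℚ_[(q : ℕ)] ⊗[ℚ] L.F)ˣ ≃+ (L.J q).V :=
  AddEquiv.ofBijective (tensLocHom L q) ⟨tensLocHom_injective L q, tensLocHom_surjective L q⟩

theorem locVal_tensLocEquiv (u : Additive (ℚ_[(q : ℕ)] ⊗[ℚ] L.F)ˣ) (g : L.Gal) :
    locVal L q ((tensLocEquiv L q u).1 g) =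
      towerEv L q g ((u.toMul : (ℚ_[(q : ℕ)] ⊗[ℚ] L.F)ˣ) : ℚ_[(q : ℕ)] ⊗[ℚ] L.F) := rfl

/-- The action of `h ∈ L.Gal` on the units of `ℚ_q ⊗ F`. -/
def towerActUnits (h : L.Gal) :
    Additive (ℚ_[(q : ℕ)] ⊗[ℚ] L.F)ˣ →+ Additive (ℚ_[(q : ℕ)] ⊗[ℚ] L.F)ˣ :=
  MonoidHom.toAdditive (Units.map ((towerAct L q h).toRingHom : _ →* _))

theorem coe_towerActUnits (h : L.Gal) (u : Additive (ℚ_[(q : ℕ)] ⊗[ℚ] L.F)ˣ) :
    (((towerActUnits L q h u).toMul : (ℚ_[(q : ℕ)] ⊗[ℚ] L.F)ˣ) : ℚ_[(q : ℕ)] ⊗[ℚ] L.F) =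
      towerAct L q h ((u.toMul : (ℚ_[(q : ℕ)] ⊗[ℚ] L.F)ˣ) : ℚ_[(q : ℕ)] ⊗[ℚ] L.F) := rfl

/-- Equivariance of `tensLocEquiv`. -/
theorem tensLocEquiv_equivariant (h : L.Gal) (u : Additive (ℚ_[(q : ℕ)] ⊗[ℚ] L.F)ˣ) :
    tensLocEquiv L q (towerActUnits L q h u) = (L.J q).ρ h (tensLocEquiv L q u) := by
  apply J_ext
  intro g
  rw [locVal_tensLocEquiv, coe_towerActUnits, towerEv_towerAct]
  rfl

end

end Fermat.Agent.S55.E1.H594

end
-- ===== PACK-END S55/E1/H594/TensUnits.lean

-- ===== PACK-BEGIN S55/G/SIndH237/Assembly.lean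
section
/-
S55 (Poitou–Tate), layer G, leaf G-SIND (`SIndepSpec`, independence of `S`; REC (O5)) — ASSEMBLY.
Owner: helper237.  Interface of the sub-leaves: `SIndH237/Spec.lean`.

    sIndep_of : ApproxSpec → IntSpec → PrescribedOrdSpec → UnitsCohTrivSpec →
      T.TwinVanishingSpec → SIndepSpec

Contents (one file, to keep import closures small):
1. the splitting `L ⊗ ℚ_{S'} ≅ (L ⊗ ℚ_S) × (L ⊗ ℚ_T)`, `T = S' \ S`, and the bijection
   `(jRes, jRes_T) : J_{S'}(L) → J_S(L) × J_T(L)`;
2. the divisor map `δ_T : J_T(L) → Div^S(L)`, `δ_T (diag x + u) = ∑_{w | T} ord_w(x) [w]`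
   (from `ApproxSpec`, `IntSpec`);
3. `Φ (j, d) = (jRes j, divIncl d + δ_T (jRes_T j))`: equivariance, diagonal, surjectivity, kernel;
4. `π : C_{S'}(L) ⟶ C_S(L)`, `ι : U_T(L) ⟶ C_{S'}(L)` and the short exact sequence
   `0 → U_T(L) → C_{S'}(L) → C_S(L) → 0` in `Rep ℤ G`;
5. cohomology: `U_T(L)` is cohomologically trivial (`UnitsCohTrivSpec` + twin vanishing), so `π`
   is bijective on `Hⁿ(H, -)`, `n ≥ 1`, for all `H ≤ G`.
-/




set_option autoImplicit false
set_option linter.unusedSectionVars false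
set_option linter.style.haveILetI false

open scoped NumberField TensorProduct
open IsDedekindDomain CategoryTheory groupCohomology

noncomputable section

namespace Fermat.Agent.S55.G.SIndH237

open Fermat.Agent.S55.G

/-! # Part: Split -/

section SplitPart

variable {S S' : Finset Nat.Primes} (h : S ⊆ S')

/-- `T = S' \ S`. -/
abbrev sdiffT (S S' : Finset Nat.Primes) : Finset Nat.Primes := S' \ S

lemma sdiffT_subset (S S' : Finset Nat.Primes) : sdiffT S S' ⊆ S' := Finset.sdiff_subset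

/-- The pair of projections `ℚ_{S'} → ℚ_S × ℚ_T`. -/
def qsPair : QS S' →ₐ[ℚ] QS S × QS (sdiffT S S') :=
  AlgHom.prod (QS.res h) (QS.res (sdiffT_subset S S'))

lemma qsPair_injective : Function.Injective (qsPair h) := by
  intro x y hxy
  have h1 : QS.res h x = QS.res h y := congrArg Prod.fst hxy
  have h2 : QS.res (sdiffT_subset S S') x = QS.res (sdiffT_subset S S') y :=
    congrArg Prod.snd hxy
  apply (QS.toPi S').injective
  funext q
  by_cases hq : q.1 ∈ S
  · have := congrArg (fun z => QS.toPi S z ⟨q.1, hq⟩) h1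
    simpa using this
  · have hq' : q.1 ∈ sdiffT S S' := Finset.mem_sdiff.2 ⟨q.2, hq⟩
    have := congrArg (fun z => QS.toPi (sdiffT S S') z ⟨q.1, hq'⟩) h2
    simpa using this

lemma qsPair_surjective : Function.Surjective (qsPair h) := by
  classical
  rintro ⟨a, b⟩
  refine ⟨(QS.toPi S').symm (fun q =>
    if hq : q.1 ∈ S then QS.toPi S a ⟨q.1, hq⟩
    else QS.toPi (sdiffT S S') b ⟨q.1, Finset.mem_sdiff.2 ⟨q.2, hq⟩⟩), ?_⟩
  refine Prod.ext ?_ ?_
  · apply (QS.toPi S).injective
    funext q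
    change QS.toPi S (QS.res h _) q = _
    rw [QS.res_apply, AlgEquiv.apply_symm_apply]
    simp [q.2]
  · apply (QS.toPi (sdiffT S S')).injective
    funext q
    change QS.toPi (sdiffT S S') (QS.res (sdiffT_subset S S') _) q = _
    rw [QS.res_apply, AlgEquiv.apply_symm_apply]
    have hq : q.1 ∉ S := (Finset.mem_sdiff.1 q.2).2
    simp [hq]

/-- `ℚ_{S'} ≃ ℚ_S × ℚ_T`. -/
def qsSplit : QS S' ≃ₐ[ℚ] QS S × QS (sdiffT S S') :=
  AlgEquiv.ofBijective (qsPair h) ⟨qsPair_injective h, qsPair_surjective h⟩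

variable (L : Type) [Field L] [CharZero L]

/-- The pair of projections `L ⊗ ℚ_{S'} → (L ⊗ ℚ_S) × (L ⊗ ℚ_T)`. -/
def asPair : AS S' L →ₐ[ℚ] AS S L × AS (sdiffT S S') L :=
  AlgHom.prod (asRes h L) (asRes (sdiffT_subset S S') L)

/-- `L ⊗ ℚ_{S'} ≃ (L ⊗ ℚ_S) × (L ⊗ ℚ_T)`. -/
def asSplit : AS S' L ≃ₐ[ℚ] AS S L × AS (sdiffT S S') L :=
  (Algebra.TensorProduct.congr (AlgEquiv.refl : L ≃ₐ[ℚ] L) (qsSplit h)).trans
    (Algebra.TensorProduct.prodRight ℚ ℚ L (QS S) (QS (sdiffT S S')))

lemma asSplit_eq_asPair (z : AS S' L) : asSplit h L z = asPair h L z := by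
  induction z using TensorProduct.induction_on with
  | zero => simp
  | tmul a b =>
    change Algebra.TensorProduct.prodRight ℚ ℚ L (QS S) (QS (sdiffT S S'))
      (Algebra.TensorProduct.congr (AlgEquiv.refl : L ≃ₐ[ℚ] L) (qsSplit h) (a ⊗ₜ[ℚ] b)) = _
    rw [Algebra.TensorProduct.congr_apply, Algebra.TensorProduct.map_tmul,
      Algebra.TensorProduct.prodRight_tmul]
    refine Prod.ext ?_ ?_
    · change _ = asRes h L (a ⊗ₜ[ℚ] b)
      rw [asRes_tmul]
      rfl
    · change _ = asRes (sdiffT_subset S S') L (a ⊗ₜ[ℚ] b)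
      rw [asRes_tmul]
      rfl
  | add a b ha hb => rw [map_add, map_add, ha, hb]

lemma asPair_bijective : Function.Bijective (asPair h L) := by
  have : (asPair h L : AS S' L → _) = asSplit h L := by
    funext z; exact (asSplit_eq_asPair h L z).symm
  rw [this]
  exact (asSplit h L).bijective

/-- Injectivity of `(jRes, jRes_T)`. -/
lemma jRes_pair_injective {j j' : Additive (AS S' L)ˣ}
    (h1 : jRes h L j = jRes h L j')
    (h2 : jRes (sdiffT_subset S S') L j = jRes (sdiffT_subset S S') L j') : j = j' := by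
  apply Additive.toMul.injective
  apply Units.ext
  apply (asPair_bijective h L).1
  refine Prod.ext ?_ ?_
  · have := congrArg (fun z : Additive (AS S L)ˣ => ((z.toMul : (AS S L)ˣ) : AS S L)) h1
    simp only [coe_jRes_apply] at this
    exact this
  · have := congrArg
      (fun z : Additive (AS (sdiffT S S') L)ˣ =>
        ((z.toMul : (AS (sdiffT S S') L)ˣ) : AS (sdiffT S S') L)) h2
    simp only [coe_jRes_apply] at this
    exact this

/-- Surjectivity of `(jRes, jRes_T)`. -/
lemma exists_jRes_pair (a : Additive (AS S L)ˣ) (b : Additive (AS (sdiffT S S') L)ˣ) :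
    ∃ j : Additive (AS S' L)ˣ, jRes h L j = a ∧ jRes (sdiffT_subset S S') L j = b := by
  obtain ⟨z, hz⟩ := (asPair_bijective h L).2
    (((a.toMul : (AS S L)ˣ) : AS S L), ((b.toMul : (AS (sdiffT S S') L)ˣ) : AS (sdiffT S S') L))
  obtain ⟨z', hz'⟩ := (asPair_bijective h L).2
    ((((a.toMul)⁻¹ : (AS S L)ˣ) : AS S L),
      (((b.toMul)⁻¹ : (AS (sdiffT S S') L)ˣ) : AS (sdiffT S S') L))
  have hzz' : z * z' = 1 := by
    apply (asPair_bijective h L).1
    rw [map_mul, hz, hz', map_one]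
    refine Prod.ext ?_ ?_
    · simp
    · simp
  have hz'z : z' * z = 1 := by rw [mul_comm]; exact hzz'
  refine ⟨Additive.ofMul ⟨z, z', hzz', hz'z⟩, ?_, ?_⟩
  · apply Additive.toMul.injective
    apply Units.ext
    rw [coe_jRes_apply]
    exact congrArg Prod.fst hz
  · apply Additive.toMul.injective
    apply Units.ext
    rw [coe_jRes_apply]
    exact congrArg Prod.snd hz

end SplitPart

/-! # Part: Delta -/

section DeltaPart

variable (S T : Finset Nat.Primes) (G L : Type) [Group G] [Field L] [NumberField L]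
  [MulSemiringAction G L]

/-! ## The `T`-part of the divisor of `x ∈ Lˣ` -/

/-- The part of the divisor of `x` (as an element of `Div^S(L)`) supported above `T`. -/
def ordAbove : Additive Lˣ →+ (PrimeOut S L →₀ ℤ) where
  toFun x := by
    classical
    exact (ordHom S L x).filter (fun w => IsAbove T L w.1)
  map_zero' := by
    classical
    rw [map_zero]
    exact Finsupp.filter_zero _
  map_add' x y := by
    classical
    simp only [map_add, Finsupp.filter_add]

lemma ordAbove_apply (x : Additive Lˣ) (w : PrimeOut S L) :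
    ordAbove S T L x w = by
      classical
      exact if IsAbove T L w.1 then ordAt w.1 x else 0 := by
  classical
  change ((ordHom S L x).filter (fun w => IsAbove T L w.1)) w = _
  rw [Finsupp.filter_apply]
  rfl

lemma ordAbove_apply_of_isAbove (x : Additive Lˣ) (w : PrimeOut S L) (hw : IsAbove T L w.1) :
    ordAbove S T L x w = ordAt w.1 x := by
  classical
  rw [ordAbove_apply, if_pos hw]

lemma ordAbove_apply_of_not_isAbove (x : Additive Lˣ) (w : PrimeOut S L)
    (hw : ¬ IsAbove T L w.1) : ordAbove S T L x w = 0 := by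
  classical
  rw [ordAbove_apply, if_neg hw]

lemma ordAbove_eq_zero_of_forall (x : Additive Lˣ)
    (hx : ∀ w : HeightOneSpectrum (𝓞 L), IsAbove T L w → ordAt w x = 0) :
    ordAbove S T L x = 0 := by
  classical
  ext w
  by_cases hw : IsAbove T L w.1
  · rw [ordAbove_apply_of_isAbove S T L x w hw, hx w.1 hw]; rfl
  · rw [ordAbove_apply_of_not_isAbove S T L x w hw]; rfl

/-- Equivariance of `ordAbove`. -/
lemma ordAbove_equivariant (g : G) (x : Additive Lˣ) :
    ordAbove S T L (lRepr G L g x) = divRepr S G L g (ordAbove S T L x) := by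
  classical
  ext w
  have hw : w = primeOutMap S G L g (primeOutMap S G L g⁻¹ w) := by
    rw [← primeOutMap_mul, mul_inv_cancel, primeOutMap_one]
  set w' := primeOutMap S G L g⁻¹ w with hw'
  rw [hw, divRepr_apply_apply]
  have hiff : IsAbove T L (primeOutMap S G L g w').1 ↔ IsAbove T L w'.1 := by
    rw [primeOutMap_val]
    exact isAbove_primeSMul_iff T G g w'.1
  by_cases hab : IsAbove T L w'.1
  · rw [ordAbove_apply_of_isAbove S T L _ _ (hiff.2 hab),
      ordAbove_apply_of_isAbove S T L _ _ hab, primeOutMap_val, ordAt_primeSMul]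
  · rw [ordAbove_apply_of_not_isAbove S T L _ _ (fun hh => hab (hiff.1 hh)),
      ordAbove_apply_of_not_isAbove S T L _ _ hab]

/-! ## The map `δ_T` -/

section Delta

variable (hA : ApproxSpec) (hI : IntSpec)

/-- Auxiliary: the underlying function of `δ_T`. -/
def deltaFun (hA : ApproxSpec) (j : Additive (AS T L)ˣ) : PrimeOut S L →₀ ℤ :=
  ordAbove S T L (Classical.choose (hA T L j))

include hI in
/-- Independence of the choice: `δ_T (diag x + u) = ord_T x`. -/
lemma deltaFun_eq {j : Additive (AS T L)ˣ} {x : Additive Lˣ} {u : Additive (AS T L)ˣ}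
    (hu : u ∈ UT T L) (hj : j = unitsDiag T L x + u) :
    deltaFun S T L hA j = ordAbove S T L x := by
  obtain ⟨u₀, hu₀, hj₀⟩ := Classical.choose_spec (hA T L j)
  set x₀ := Classical.choose (hA T L j) with hx₀
  have hdiff : unitsDiag T L (x - x₀) ∈ UT T L := by
    have h1 : unitsDiag T L (x - x₀) = u₀ - u := by
      rw [map_sub]
      have : unitsDiag T L x + u = unitsDiag T L x₀ + u₀ := by rw [← hj, ← hj₀]
      rw [sub_eq_sub_iff_add_eq_add, this, add_comm]
    rw [h1]
    exact (UT T L).sub_mem hu₀ hu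
  have hz := ordAbove_eq_zero_of_forall S T L (x - x₀) ((hI T L (x - x₀)).1 hdiff)
  rw [map_sub, sub_eq_zero] at hz
  exact hz.symm

/-- The divisor map `δ_T : J_T(L) → Div^S(L)`. -/
def deltaT : Additive (AS T L)ˣ →+ (PrimeOut S L →₀ ℤ) where
  toFun := deltaFun S T L hA
  map_zero' := by
    have := deltaFun_eq S T L hA hI (j := 0) (x := 0) (u := 0) (UT T L).zero_mem (by simp)
    rw [this, map_zero]
  map_add' j j' := by
    obtain ⟨u, hu, hj⟩ := Classical.choose_spec (hA T L j)
    obtain ⟨u', hu', hj'⟩ := Classical.choose_spec (hA T L j')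
    set x := Classical.choose (hA T L j)
    set x' := Classical.choose (hA T L j')
    have h1 : j + j' = unitsDiag T L (x + x') + (u + u') := by
      rw [map_add]
      nth_rewrite 1 [hj]
      nth_rewrite 1 [hj']
      abel
    rw [deltaFun_eq S T L hA hI ((UT T L).add_mem hu hu') h1, map_add]
    rfl

lemma deltaT_eq {j : Additive (AS T L)ˣ} {x : Additive Lˣ} {u : Additive (AS T L)ˣ}
    (hu : u ∈ UT T L) (hj : j = unitsDiag T L x + u) :
    deltaT S T L hA hI j = ordAbove S T L x :=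
  deltaFun_eq S T L hA hI hu hj

lemma deltaT_unitsDiag (x : Additive Lˣ) :
    deltaT S T L hA hI (unitsDiag T L x) = ordAbove S T L x :=
  deltaT_eq S T L hA hI (UT T L).zero_mem (by simp)

lemma deltaT_of_mem_UT {u : Additive (AS T L)ˣ} (hu : u ∈ UT T L) :
    deltaT S T L hA hI u = 0 := by
  rw [deltaT_eq S T L hA hI hu (x := 0) (by simp), map_zero]

/-- The support of `δ_T j` consists of primes above `T`. -/
lemma deltaT_apply_of_not_isAbove (j : Additive (AS T L)ˣ) (w : PrimeOut S L)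
    (hw : ¬ IsAbove T L w.1) : deltaT S T L hA hI j w = 0 := by
  obtain ⟨x, u, hu, hj⟩ := hA T L j
  rw [deltaT_eq S T L hA hI hu hj]
  exact ordAbove_apply_of_not_isAbove S T L x w hw

/-- Kernel of `δ_T`: if no prime above `T` lies above `S`, then `ker δ_T = U_T`. -/
lemma mem_UT_of_deltaT_eq_zero
    (hdisj : ∀ w : HeightOneSpectrum (𝓞 L), IsAbove T L w → ¬ IsAbove S L w)
    {j : Additive (AS T L)ˣ} (hj0 : deltaT S T L hA hI j = 0) : j ∈ UT T L := by
  obtain ⟨x, u, hu, hj⟩ := hA T L j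
  rw [deltaT_eq S T L hA hI hu hj] at hj0
  have hx : unitsDiag T L x ∈ UT T L := by
    refine (hI T L x).2 fun w hw => ?_
    let w' : PrimeOut S L := ⟨w, hdisj w hw⟩
    have h1 : ordAbove S T L x w' = 0 := by rw [hj0]; rfl
    have h2 : ordAbove S T L x w' = ordAt w x := ordAbove_apply_of_isAbove S T L x w' hw
    rw [← h2, h1]
  rw [hj]
  exact (UT T L).add_mem hx hu

include hI in
/-- Equivariance of `δ_T`. -/
lemma deltaT_equivariant (g : G) (j : Additive (AS T L)ˣ) :
    deltaT S T L hA hI (jRepr G T L g j) = divRepr S G L g (deltaT S T L hA hI j) := by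
  obtain ⟨x, u, hu, hj⟩ := hA T L j
  have hgu : jRepr G T L g u ∈ UT T L := UT_stable T G L g hu
  have hgj : jRepr G T L g j = unitsDiag T L (lRepr G L g x) + jRepr G T L g u := by
    rw [hj, map_add, unitsDiag_equivariant]
  rw [deltaT_eq S T L hA hI hgu hgj, deltaT_eq S T L hA hI hu hj, ordAbove_equivariant]

/-- Surjectivity of `δ_T` onto the divisors supported above `T`. -/
lemma exists_deltaT_eq (hP : PrescribedOrdSpec) (d : PrimeOut S L →₀ ℤ)
    (hd : ∀ w, d w ≠ 0 → IsAbove T L w.1) :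
    ∃ j : Additive (AS T L)ˣ, deltaT S T L hA hI j = d := by
  classical
  let d' : HeightOneSpectrum (𝓞 L) →₀ ℤ := d.mapDomain Subtype.val
  have hd'val : ∀ w : PrimeOut S L, d' w.1 = d w := fun w =>
    Finsupp.mapDomain_apply Subtype.val_injective d w
  have hd' : ∀ w, d' w ≠ 0 → IsAbove T L w := by
    intro w hw
    have hmem : w ∈ (d.mapDomain Subtype.val).support := Finsupp.mem_support_iff.2 hw
    have := Finsupp.mapDomain_support hmem
    obtain ⟨w₀, hw₀, rfl⟩ := Finset.mem_image.1 this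
    exact hd w₀ (Finsupp.mem_support_iff.1 hw₀)
  obtain ⟨x, hx⟩ := hP T L d' hd'
  refine ⟨unitsDiag T L x, ?_⟩
  rw [deltaT_unitsDiag]
  ext w
  by_cases hw : IsAbove T L w.1
  · rw [ordAbove_apply_of_isAbove S T L x w hw, hx w.1 hw, hd'val]
  · rw [ordAbove_apply_of_not_isAbove S T L x w hw]
    by_contra hne
    exact hw (hd w (Ne.symm hne))

end Delta

end DeltaPart

/-! # Part: Phi -/

section PhiPart

variable {S S' : Finset Nat.Primes} (h : S ⊆ S') (G L : Type) [Group G] [Field L]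
  [NumberField L] [MulSemiringAction G L]

/-! ## Primes above `S`, `S'` and `T = S' \ S` -/

/-- A prime of `L` lies above at most one rational prime. -/
lemma eq_of_mem_of_mem (w : HeightOneSpectrum (𝓞 L)) {q q' : Nat.Primes}
    (hq : ((q : ℕ) : 𝓞 L) ∈ w.asIdeal) (hq' : ((q' : ℕ) : 𝓞 L) ∈ w.asIdeal) : q = q' := by
  by_contra hne
  have hne' : (q : ℕ) ≠ (q' : ℕ) := fun hh => hne (Subtype.ext hh)
  have hcop : Nat.Coprime (q : ℕ) (q' : ℕ) := (Nat.coprime_primes q.2 q'.2).2 hne'
  have hc : IsCoprime ((q : ℕ) : ℤ) ((q' : ℕ) : ℤ) := Nat.isCoprime_iff_coprime.2 hcop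
  obtain ⟨a, b, hab⟩ := hc
  have h1 : ((a : 𝓞 L)) * ((q : ℕ) : 𝓞 L) + (b : 𝓞 L) * ((q' : ℕ) : 𝓞 L) = 1 := by
    have := congrArg (fun z : ℤ => (z : 𝓞 L)) hab
    simpa using this
  have h2 : (1 : 𝓞 L) ∈ w.asIdeal := by
    rw [← h1]
    exact w.asIdeal.add_mem (w.asIdeal.mul_mem_left _ hq) (w.asIdeal.mul_mem_left _ hq')
  exact w.isPrime.ne_top ((Ideal.eq_top_iff_one _).2 h2)

/-- No prime above `T = S' \ S` lies above `S`. -/
lemma not_isAbove_of_isAbove_sdiff (w : HeightOneSpectrum (𝓞 L))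
    (hw : IsAbove (sdiffT S S') L w) : ¬ IsAbove S L w := by
  rintro ⟨q', hq', hmem'⟩
  obtain ⟨q, hq, hmem⟩ := hw
  have := eq_of_mem_of_mem L w hmem hmem'
  subst this
  exact (Finset.mem_sdiff.1 hq).2 hq'

include h in
lemma isAbove_iff_or (w : HeightOneSpectrum (𝓞 L)) :
    IsAbove S' L w ↔ IsAbove S L w ∨ IsAbove (sdiffT S S') L w := by
  constructor
  · rintro ⟨q, hq, hmem⟩
    by_cases hqS : q ∈ S
    · exact Or.inl ⟨q, hqS, hmem⟩
    · exact Or.inr ⟨q, Finset.mem_sdiff.2 ⟨hq, hqS⟩, hmem⟩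
  · rintro (⟨q, hq, hmem⟩ | ⟨q, hq, hmem⟩)
    · exact ⟨q, h hq, hmem⟩
    · exact ⟨q, (Finset.mem_sdiff.1 hq).1, hmem⟩

include h in
/-- For a prime not above `S`: above `S'` iff above `T`. -/
lemma isAbove_iff_of_primeOut (w : PrimeOut S L) :
    IsAbove S' L w.1 ↔ IsAbove (sdiffT S S') L w.1 := by
  rw [isAbove_iff_or h L w.1]
  constructor
  · rintro (h1 | h1)
    · exact absurd h1 w.2
    · exact h1
  · exact Or.inr

/-! ## `divIncl` pointwise -/

lemma divIncl_apply_of_isAbove (d : PrimeOut S' L →₀ ℤ) (w : PrimeOut S L)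
    (hw : IsAbove S' L w.1) : divIncl h L d w = 0 := by
  classical
  refine Finsupp.mapDomain_of_notMem_range _ _ ?_
  rintro ⟨w', rfl⟩
  exact w'.2 hw

lemma divIncl_apply_of_not_isAbove (d : PrimeOut S' L →₀ ℤ) (w : PrimeOut S L)
    (hw : ¬ IsAbove S' L w.1) : divIncl h L d w = d ⟨w.1, hw⟩ :=
  divIncl_apply h L d ⟨w.1, hw⟩

/-- Every divisor prime to `S` with support outside `S'` comes from `Div^{S'}`. -/
lemma exists_divIncl_eq (e : PrimeOut S L →₀ ℤ) (he : ∀ w, e w ≠ 0 → ¬ IsAbove S' L w.1) :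
    ∃ d : PrimeOut S' L →₀ ℤ, divIncl h L d = e := by
  classical
  refine ⟨e.comapDomain (primeOutIncl h L) (primeOutIncl_injective h L).injOn, ?_⟩
  refine Finsupp.mapDomain_comapDomain _ (primeOutIncl_injective h L) e ?_
  intro w hw
  have hw' : e w ≠ 0 := Finsupp.mem_support_iff.1 hw
  exact ⟨⟨w.1, he w hw'⟩, rfl⟩

/-- The divisor of `x` prime to `S` is the sum of its part prime to `S'` and its part above
`T = S' \ S`. -/
lemma ordHom_split (x : Additive Lˣ) :
    divIncl h L (ordHom S' L x) + ordAbove S (sdiffT S S') L x = ordHom S L x := by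
  ext w
  rw [Finsupp.add_apply]
  by_cases hw : IsAbove (sdiffT S S') L w.1
  · rw [divIncl_apply_of_isAbove h L _ w ((isAbove_iff_of_primeOut h L w).2 hw),
      ordAbove_apply_of_isAbove S _ L x w hw, zero_add]
    rfl
  · have hw' : ¬ IsAbove S' L w.1 := fun hh => hw ((isAbove_iff_of_primeOut h L w).1 hh)
    rw [divIncl_apply_of_not_isAbove h L _ w hw',
      ordAbove_apply_of_not_isAbove S _ L x w hw, add_zero]
    rfl

/-! ## The map `Φ` -/

section Phi

variable (hA : ApproxSpec) (hI : IntSpec)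

/-- `Φ (j, d) = (jRes j, divIncl d + δ_T (jRes_T j))`. -/
def PhiHom : JD S' L →+ JD S L :=
  ((jRes h L).comp (AddMonoidHom.fst _ _)).prod
    (((divIncl h L).comp (AddMonoidHom.snd _ _)) +
      ((deltaT S (sdiffT S S') L hA hI).comp
        ((jRes (sdiffT_subset S S') L).comp (AddMonoidHom.fst _ _))))

lemma PhiHom_apply (y : JD S' L) :
    PhiHom h L hA hI y = (jRes h L y.1,
      divIncl h L y.2 + deltaT S (sdiffT S S') L hA hI (jRes (sdiffT_subset S S') L y.1)) := rfl

lemma PhiHom_fst (y : JD S' L) : (PhiHom h L hA hI y).1 = jRes h L y.1 := rfl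

lemma PhiHom_snd (y : JD S' L) : (PhiHom h L hA hI y).2 =
    divIncl h L y.2 + deltaT S (sdiffT S S') L hA hI (jRes (sdiffT_subset S S') L y.1) := rfl

lemma jdRepr_apply (S : Finset Nat.Primes) (g : G) (y : JD S L) :
    jdRepr S G L g y = (jRepr G S L g y.1, divRepr S G L g y.2) := rfl

/-- (1) `Φ` is equivariant. -/
lemma PhiHom_equivariant (g : G) (y : JD S' L) :
    PhiHom h L hA hI (jdRepr S' G L g y) = jdRepr S G L g (PhiHom h L hA hI y) := by
  rw [jdRepr_apply, jdRepr_apply, PhiHom_apply, PhiHom_apply]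
  refine Prod.ext ?_ ?_
  · exact jRes_equivariant h L G g y.1
  · change divIncl h L (divRepr S' G L g y.2) +
        deltaT S (sdiffT S S') L hA hI (jRes (sdiffT_subset S S') L (jRepr G S' L g y.1)) =
      divRepr S G L g (divIncl h L y.2 +
        deltaT S (sdiffT S S') L hA hI (jRes (sdiffT_subset S S') L y.1))
    rw [divIncl_equivariant, jRes_equivariant, deltaT_equivariant S _ G L hA hI, map_add]

/-- (2) `Φ` is compatible with the diagonal embeddings of `Lˣ`. -/
lemma PhiHom_diagHom (x : Additive Lˣ) :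
    PhiHom h L hA hI (diagHom S' L x) = diagHom S L x := by
  rw [PhiHom_apply]
  refine Prod.ext ?_ ?_
  · exact jRes_unitsDiag h L x
  · change divIncl h L (ordHom S' L x) +
        deltaT S (sdiffT S S') L hA hI (jRes (sdiffT_subset S S') L (unitsDiag S' L x)) =
      ordHom S L x
    rw [jRes_unitsDiag, deltaT_unitsDiag, ordHom_split]

/-- (4) `Φ` is `divIncl` on `Div^{S'}`. -/
lemma PhiHom_inr (d : PrimeOut S' L →₀ ℤ) :
    PhiHom h L hA hI (0, d) = (0, divIncl h L d) := by
  rw [PhiHom_apply]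
  refine Prod.ext ?_ ?_
  · exact map_zero _
  · change divIncl h L d + deltaT S (sdiffT S S') L hA hI (jRes (sdiffT_subset S S') L 0) = _
    rw [map_zero, map_zero, add_zero]

/-- (6) `Φ` is surjective. -/
lemma PhiHom_surjective (hP : PrescribedOrdSpec) : Function.Surjective (PhiHom h L hA hI) := by
  classical
  rintro ⟨a, e⟩
  -- the part of `e` above `T`
  let e₁ : PrimeOut S L →₀ ℤ := e.filter (fun w => IsAbove (sdiffT S S') L w.1)
  let e₂ : PrimeOut S L →₀ ℤ := e.filter (fun w => ¬ IsAbove (sdiffT S S') L w.1)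
  have he : e₁ + e₂ = e := Finsupp.filter_add_filter_not e _
  obtain ⟨b, hb⟩ := exists_deltaT_eq S (sdiffT S S') L hA hI hP e₁ (by
    intro w hw
    by_contra hcon
    exact hw (Finsupp.filter_apply_neg _ _ hcon))
  obtain ⟨d, hd⟩ := exists_divIncl_eq h L e₂ (by
    intro w hw hab
    have h1 : IsAbove (sdiffT S S') L w.1 := (isAbove_iff_of_primeOut h L w).1 hab
    exact hw (Finsupp.filter_apply_neg _ _ (not_not.2 h1)))
  obtain ⟨j, hj1, hj2⟩ := exists_jRes_pair h L a b
  refine ⟨(j, d), ?_⟩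
  rw [PhiHom_apply]
  refine Prod.ext hj1 ?_
  change divIncl h L d + deltaT S (sdiffT S S') L hA hI (jRes (sdiffT_subset S S') L j) = e
  rw [hj2, hb, hd, add_comm, he]

/-- Kernel of `Φ`: `Φ (j, d) = 0` iff `d = 0`, `jRes j = 0` and `jRes_T j ∈ U_T`. -/
lemma PhiHom_eq_zero {y : JD S' L} (hy : PhiHom h L hA hI y = 0) :
    y.2 = 0 ∧ jRes h L y.1 = 0 ∧ jRes (sdiffT_subset S S') L y.1 ∈ UT (sdiffT S S') L := by
  have h1 : jRes h L y.1 = 0 := congrArg Prod.fst hy
  have h2 : divIncl h L y.2 +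
      deltaT S (sdiffT S S') L hA hI (jRes (sdiffT_subset S S') L y.1) = 0 :=
    congrArg Prod.snd hy
  have hd : y.2 = 0 := by
    ext w'
    have h3 := DFunLike.congr_fun h2 (primeOutIncl h L w')
    rw [Finsupp.add_apply, divIncl_apply] at h3
    have h4 : ¬ IsAbove (sdiffT S S') L (primeOutIncl h L w').1 := fun hh =>
      w'.2 ((isAbove_iff_of_primeOut h L (primeOutIncl h L w')).2 hh)
    rw [deltaT_apply_of_not_isAbove S _ L hA hI _ _ h4, add_zero] at h3
    exact h3
  refine ⟨hd, h1, ?_⟩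
  rw [hd, map_zero, zero_add] at h2
  exact mem_UT_of_deltaT_eq_zero S _ L hA hI
    (fun w hw => not_isAbove_of_isAbove_sdiff L w hw) h2

lemma PhiHom_of_mem_UT {j : Additive (AS S' L)ˣ} (hj1 : jRes h L j = 0)
    (hj2 : jRes (sdiffT_subset S S') L j ∈ UT (sdiffT S S') L) :
    PhiHom h L hA hI (j, 0) = 0 := by
  rw [PhiHom_apply]
  refine Prod.ext hj1 ?_
  change divIncl h L 0 + deltaT S (sdiffT S S') L hA hI (jRes (sdiffT_subset S S') L j) = 0
  rw [map_zero, zero_add, deltaT_of_mem_UT S _ L hA hI hj2]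

end Phi

/-! ## Unramified outside `S` implies unramified above `T` -/

lemma isUnramAbove_of_isUnramOut (hur : IsUnramOut S G L) :
    IsUnramAbove (sdiffT S S') G L := fun w hw g hg x =>
  hur w (not_isAbove_of_isAbove_sdiff L w hw) g hg x

end PhiPart

/-! # Part: Pi -/

section PiPart

variable {S S' : Finset Nat.Primes} (h : S ⊆ S') (G L : Type) [Group G] [Field L]
  [NumberField L] [MulSemiringAction G L] (hA : ApproxSpec) (hI : IntSpec)

/-! ## The morphism `π` -/

lemma principal_le_comap_Phi :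
    principal S' L ≤ (principal S L).comap (PhiHom h L hA hI).toIntLinearMap := by
  rintro _ ⟨x, rfl⟩
  exact ⟨x, (PhiHom_diagHom h L hA hI x).symm⟩

/-- The linear map `C_{S'}(L) → C_S(L)` induced by `Φ`. -/
def piLin : CS S' L →ₗ[ℤ] CS S L :=
  (principal S' L).mapQ (principal S L) (PhiHom h L hA hI).toIntLinearMap
    (principal_le_comap_Phi h L hA hI)

lemma piLin_mk (y : JD S' L) :
    piLin h L hA hI ((principal S' L).mkQ y) = (principal S L).mkQ (PhiHom h L hA hI y) := rfl

/-- The morphism `π : C_{S'}(L) ⟶ C_S(L)` in `Rep ℤ G`. -/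
def piHom : CRep S' G L ⟶ CRep S G L :=
  Rep.ofHom ⟨piLin h L hA hI, fun g => LinearMap.ext fun c => by
    obtain ⟨y, rfl⟩ := (principal S' L).mkQ_surjective c
    change piLin h L hA hI ((principal S' L).mkQ (jdRepr S' G L g y)) =
      (principal S L).mkQ (jdRepr S G L g (PhiHom h L hA hI y))
    rw [piLin_mk, PhiHom_equivariant]⟩

/-- (5) `π` is induced by `Φ`. -/
lemma piHom_mk (y : JD S' L) :
    (piHom h G L hA hI).hom ((principal S' L).mkQ y) =
      (principal S L).mkQ (PhiHom h L hA hI y) := rfl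

lemma piHom_surjective (hP : PrescribedOrdSpec) :
    Function.Surjective (piHom h G L hA hI).hom := by
  intro c
  obtain ⟨z, rfl⟩ := (principal S L).mkQ_surjective c
  obtain ⟨y, rfl⟩ := PhiHom_surjective h L hA hI hP z
  exact ⟨(principal S' L).mkQ y, rfl⟩

/-! ## The lift `J_T(L) → J_{S'}(L)` -/

/-- The idèle with `T`-component `u` and trivial `S`-component. -/
def liftT : Additive (AS (sdiffT S S') L)ˣ →+ Additive (AS S' L)ˣ where
  toFun u := Classical.choose (exists_jRes_pair h L 0 u)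
  map_zero' := by
    obtain ⟨h1, h2⟩ := Classical.choose_spec (exists_jRes_pair h L 0
      (0 : Additive (AS (sdiffT S S') L)ˣ))
    exact jRes_pair_injective h L (by rw [h1, map_zero]) (by rw [h2, map_zero])
  map_add' u v := by
    obtain ⟨h1, h2⟩ := Classical.choose_spec (exists_jRes_pair h L 0 (u + v))
    obtain ⟨hu1, hu2⟩ := Classical.choose_spec (exists_jRes_pair h L 0 u)
    obtain ⟨hv1, hv2⟩ := Classical.choose_spec (exists_jRes_pair h L 0 v)
    exact jRes_pair_injective h L (by rw [h1, map_add, hu1, hv1, add_zero])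
      (by rw [h2, map_add, hu2, hv2])

lemma jRes_liftT (u : Additive (AS (sdiffT S S') L)ˣ) : jRes h L (liftT h L u) = 0 :=
  (Classical.choose_spec (exists_jRes_pair h L 0 u)).1

lemma jResT_liftT (u : Additive (AS (sdiffT S S') L)ˣ) :
    jRes (sdiffT_subset S S') L (liftT h L u) = u :=
  (Classical.choose_spec (exists_jRes_pair h L 0 u)).2

lemma eq_liftT {j : Additive (AS S' L)ˣ} (hj : jRes h L j = 0) :
    j = liftT h L (jRes (sdiffT_subset S S') L j) :=
  jRes_pair_injective h L (by rw [hj, jRes_liftT]) (by rw [jResT_liftT])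

lemma liftT_equivariant (g : G) (u : Additive (AS (sdiffT S S') L)ˣ) :
    liftT h L (jRepr G (sdiffT S S') L g u) = jRepr G S' L g (liftT h L u) := by
  refine jRes_pair_injective h L ?_ ?_
  · rw [jRes_liftT, jRes_equivariant, jRes_liftT, map_zero]
  · rw [jResT_liftT, jRes_equivariant, jResT_liftT]

lemma liftT_injective : Function.Injective (liftT h L) := fun u v huv => by
  have := congrArg (jRes (sdiffT_subset S S') L) huv
  rwa [jResT_liftT, jResT_liftT] at this

/-! ## The embedding `ι : U_T(L) ⟶ C_{S'}(L)` -/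

/-- The linear map `U_T(L) → C_{S'}(L)`, `u ↦ [(liftT u, 0)]`. -/
def iotaLin : (UT (sdiffT S S') L).toIntSubmodule →ₗ[ℤ] CS S' L :=
  (principal S' L).mkQ ∘ₗ
    (LinearMap.inl ℤ (Additive (AS S' L)ˣ) (PrimeOut S' L →₀ ℤ)) ∘ₗ
    (liftT h L).toIntLinearMap ∘ₗ (UT (sdiffT S S') L).toIntSubmodule.subtype

lemma iotaLin_apply (u : (UT (sdiffT S S') L).toIntSubmodule) :
    iotaLin h L u = (principal S' L).mkQ (liftT h L u.1, 0) := rfl

/-- The morphism `ι : U_T(L) ⟶ C_{S'}(L)` in `Rep ℤ G`. -/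
def iotaHom : URep (sdiffT S S') G L ⟶ CRep S' G L :=
  Rep.ofHom ⟨iotaLin h L, fun g => LinearMap.ext fun u => by
    change (principal S' L).mkQ (liftT h L (jRepr G (sdiffT S S') L g u.1), 0) =
      (principal S' L).mkQ (jdRepr S' G L g (liftT h L u.1, 0))
    rw [liftT_equivariant, jdRepr_apply, map_zero]⟩

lemma iotaHom_apply (u : (UT (sdiffT S S') L).toIntSubmodule) :
    (iotaHom h G L).hom u = (principal S' L).mkQ (liftT h L u.1, 0) := rfl

/-- Injectivity of the diagonal `Lˣ → J_S(L)` for `S ≠ ∅`. -/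
lemma unitsDiag_inj (S : Finset Nat.Primes) (L : Type) [Field L] [CharZero L]
    (hS : S.Nonempty) : Function.Injective (unitsDiag S L) := by
  obtain ⟨q, hq⟩ := hS
  have hinj : Function.Injective (algebraMap ℚ (QS S)) := by
    intro a b hab
    have h1 := congrArg (QS.proj S ⟨q, hq⟩) hab
    simpa using h1
  have hdiag : Function.Injective (asDiag S L) :=
    Algebra.TensorProduct.includeLeft_injective (R := ℚ) (S := ℚ) (A := L) (B := QS S) hinj
  intro x y hxy
  apply Additive.toMul.injective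
  apply Units.ext
  apply hdiag
  have := congrArg (fun z : Additive (AS S L)ˣ => ((z.toMul : (AS S L)ˣ) : AS S L)) hxy
  simpa [coe_unitsDiag_apply] using this

lemma iotaHom_injective (hS : S.Nonempty) : Function.Injective (iotaHom h G L).hom := by
  rw [injective_iff_map_eq_zero]
  intro u hu
  rw [iotaHom_apply] at hu
  have hmem : ((liftT h L u.1, 0) : JD S' L) ∈ principal S' L :=
    (Submodule.Quotient.mk_eq_zero _).1 hu
  obtain ⟨x, hx⟩ := hmem
  have hx1 : unitsDiag S' L x = liftT h L u.1 := congrArg Prod.fst hx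
  have hx2 : unitsDiag S L x = 0 := by
    rw [← jRes_unitsDiag h L x, hx1, jRes_liftT]
  have hx0 : x = 0 := unitsDiag_inj S L hS (by rw [hx2, map_zero])
  have hl : liftT h L u.1 = 0 := by rw [← hx1, hx0, map_zero]
  have hu0 : u.1 = 0 := liftT_injective h L (by rw [hl, map_zero])
  exact Subtype.ext hu0

lemma piHom_iotaHom (u : (UT (sdiffT S S') L).toIntSubmodule) :
    (piHom h G L hA hI).hom ((iotaHom h G L).hom u) = 0 := by
  rw [iotaHom_apply, piHom_mk,
    PhiHom_of_mem_UT h L hA hI (jRes_liftT h L u.1) (by rw [jResT_liftT]; exact u.2)]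
  exact map_zero _

lemma exists_iotaHom_eq (c : CS S' L) (hc : (piHom h G L hA hI).hom c = 0) :
    ∃ u : (UT (sdiffT S S') L).toIntSubmodule, (iotaHom h G L).hom u = c := by
  obtain ⟨y, rfl⟩ := (principal S' L).mkQ_surjective c
  rw [piHom_mk] at hc
  obtain ⟨x, hx⟩ := (Submodule.Quotient.mk_eq_zero _).1 hc
  have hx' : diagHom S L x = PhiHom h L hA hI y := hx
  have hker : PhiHom h L hA hI (y - diagHom S' L x) = 0 := by
    rw [map_sub, PhiHom_diagHom, hx', sub_self]
  obtain ⟨h2, h1, hU⟩ := PhiHom_eq_zero h L hA hI hker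
  refine ⟨⟨jRes (sdiffT_subset S S') L (y - diagHom S' L x).1, hU⟩, ?_⟩
  rw [iotaHom_apply]
  change (principal S' L).mkQ (liftT h L (jRes (sdiffT_subset S S') L (y - diagHom S' L x).1), 0)
    = (principal S' L).mkQ y
  rw [← eq_liftT h L h1, ← h2]
  change (principal S' L).mkQ (y - diagHom S' L x) = (principal S' L).mkQ y
  rw [map_sub, sub_eq_self]
  exact (Submodule.Quotient.mk_eq_zero _).2 ⟨x, rfl⟩

/-! ## The short exact sequence -/

/-- The short complex `U_T(L) ⟶ C_{S'}(L) ⟶ C_S(L)`. -/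
def sIndShortComplex : ShortComplex (Rep ℤ G) :=
  ShortComplex.mk (iotaHom h G L) (piHom h G L hA hI) (by
    ext u
    exact piHom_iotaHom h G L hA hI u)

lemma sIndShortComplex_shortExact (hP : PrescribedOrdSpec) (hS : S.Nonempty) :
    (sIndShortComplex h G L hA hI).ShortExact :=
  Fermat.Agent.S55.H295.rep_shortExact_of (sIndShortComplex h G L hA hI)
    (iotaHom_injective h G L hS)
    (fun c hc => exists_iotaHom_eq h G L hA hI c hc)
    (piHom_surjective h G L hA hI hP)

end PiPart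

/-! # Part: Coh -/

section CohPart

/-- For a short exact sequence `0 → X₁ → X₂ → X₃ → 0` with `Hⁿ(X₁) = 0 = Hⁿ⁺¹(X₁)`, the map
`Hⁿ(X₂) → Hⁿ(X₃)` is bijective. -/
theorem bijective_coeffMap_of_isZero {k G : Type} [CommRing k] [Group G]
    {X : ShortComplex (Rep.{0} k G)} (hX : X.ShortExact) (n : ℕ)
    (h1 : Limits.IsZero (groupCohomology X.X₁ n))
    (h2 : Limits.IsZero (groupCohomology X.X₁ (n + 1))) :
    Function.Bijective (T.coeffMap X.g n).hom := by
  constructor
  · have hex := mapShortComplex₂_exact hX n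
    have hm : Mono (mapShortComplex₂ X n).g := hex.mono_g (h1.eq_of_src _ _)
    exact (ModuleCat.mono_iff_injective _).1 hm
  · have hex := mapShortComplex₃_exact hX (i := n) rfl
    have he : Epi (mapShortComplex₃ hX (i := n) rfl).f := hex.epi_f (h2.eq_of_tgt _ _)
    exact (ModuleCat.epi_iff_surjective _).1 he

/-- Cohomologically trivial modules have vanishing `Hⁿ(H, -)`, `n ≥ 1`. -/
theorem isZero_of_isCohTriv {k G : Type} [CommRing k] [Group G] [Finite G] (A : Rep.{0} k G)
    (hA : T.IsCohTriv A) (H : Subgroup G) (n : ℕ) (hn : 0 < n) :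
    Limits.IsZero (groupCohomology (T.resSub A H) n) := by
  haveI : NeZero n := ⟨hn.ne'⟩
  letI : Fintype H := Fintype.ofFinite H
  exact Limits.IsZero.of_iso (hA H (n : ℤ))
    ((TateCohomology.isoGroupCohomology n).app (T.resSub A H)).symm

variable {S S' : Finset Nat.Primes} (h : S ⊆ S') (G L : Type) [Group G] [Field L]
  [NumberField L] [MulSemiringAction G L] (hA : ApproxSpec) (hI : IntSpec)

/-- The restriction of the short exact sequence to a subgroup `H ≤ G`. -/
lemma sIndShortComplex_res_shortExact (hP : PrescribedOrdSpec) (hS : S.Nonempty)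
    (H : Subgroup G) :
    ((sIndShortComplex h G L hA hI).map (Rep.resFunctor H.subtype)).ShortExact :=
  Fermat.Agent.S55.H295.rep_shortExact_of _
    (iotaHom_injective h G L hS)
    (fun c hc => exists_iotaHom_eq h G L hA hI c hc)
    (piHom_surjective h G L hA hI hP)

/-- (7) `π` induces bijections on `Hⁿ(H, -)`, `n ≥ 1`, as soon as `U_T(L)` is cohomologically
trivial. -/
theorem piHom_bijective [Finite G] (hP : PrescribedOrdSpec) (hS : S.Nonempty)
    (hU : T.IsCohTriv (URep (sdiffT S S') G L)) (H : Subgroup G) (n : ℕ) (hn : 0 < n) :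
    Function.Bijective
      (T.coeffMap ((Rep.resFunctor H.subtype).map (piHom h G L hA hI)) n).hom :=
  bijective_coeffMap_of_isZero (sIndShortComplex_res_shortExact h G L hA hI hP hS H) n
    (isZero_of_isCohTriv _ hU H n hn) (isZero_of_isCohTriv _ hU H (n + 1) (Nat.succ_pos n))

end CohPart

/-! # Part: Assembly -/

section AssemblyPart

/-- **G-SIND**, assembled from its four sub-leaves and the twin-vanishing criterion. -/
theorem sIndep_of (hA : ApproxSpec) (hI : IntSpec) (hP : PrescribedOrdSpec)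
    (hU : UnitsCohTrivSpec) (hT : T.TwinVanishingSpec) : SIndepSpec := by
  intro S S' h G L _ _ _ _ _ _ hS hur
  have hUct : T.IsCohTriv (URep (sdiffT S S') G L) :=
    hT ℤ G (URep (sdiffT S S') G L)
      (fun H => hU (sdiffT S S') G L (isUnramAbove_of_isUnramOut G L hur) H)
  exact ⟨PhiHom h L hA hI, piHom h G L hA hI, PhiHom_equivariant h G L hA hI,
    PhiHom_diagHom h L hA hI, PhiHom_fst h L hA hI, PhiHom_inr h L hA hI,
    piHom_mk h G L hA hI, PhiHom_surjective h L hA hI hP,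
    fun H n hn => piHom_bijective h G L hA hI hP hS hUct H n hn⟩

end AssemblyPart

end Fermat.Agent.S55.G.SIndH237

end
end
-- ===== PACK-END S55/G/SIndH237/Assembly.lean

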