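import Fermat.Agent.Pack.S56.E10L2
import Fermat.Agent.Pack.S56.E10L1
import Fermat.Agent.Pack.S56.E10L3
import Fermat.Agent.Pack.S56.E5L0
import Fermat.Agent.Pack.S56.E11L1
import Fermat.Agent.Pack.S56.E9L3
import Fermat.Agent.Pack.S56.E9L2
import Fermat.Agent.Pack.S56.E2L3
import Fermat.Agent.Pack.S56.E2L0
import Fermat.Agent.Pack.S56.E11L0

-- ===== PACK-BEGIN S55/Local/H775/InertiaOrd.lean
section


/-!
# S55 layer L, piece UR6 (helper775): orders of invariant elements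

`exists_inertia_dvd`: for `N / K` finite Galois of local fields and a uniformizer `ϖ` of `N`
there is a normal subgroup `I` of `Gal(N/K)` such that, for every subgroup `H`, the set of
orders of the `H`-invariant elements of `Nˣ` is exactly `|I ⊓ H| • ℤ`.
-/

set_option autoImplicit false
set_option linter.unusedSectionVars false
set_option linter.style.haveILetI false

namespace Fermat.Agent.S55.Local.H775

open Fermat.Agent.S55.Local IsLocalRing

section Fixed

variable (K : Type) [Field K] (N : Type) [Field N] [Algebra K N]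

/-- The `H`-invariant elements of `Nˣ`. -/
def fixedUnits (H : Subgroup (N ≃ₐ[K] N)) : Subgroup Nˣ where
  carrier := {y | ∀ σ ∈ H, σ • y = y}
  mul_mem' := by
    intro a b ha hb σ hσ
    rw [smul_mul', ha σ hσ, hb σ hσ]
  one_mem' := fun σ _ => smul_one σ
  inv_mem' := by
    intro a ha σ hσ
    rw [smul_inv', ha σ hσ]

variable {K N}

lemma mem_fixedUnits {H : Subgroup (N ≃ₐ[K] N)} {y : Nˣ} :
    y ∈ fixedUnits K N H ↔ ∀ σ ∈ H, σ • y = y := Iff.rfl

lemma mem_fixedUnits_iff_coe {H : Subgroup (N ≃ₐ[K] N)} {y : Nˣ} :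
    y ∈ fixedUnits K N H ↔ ∀ σ ∈ H, σ (y : N) = (y : N) := by
  rw [mem_fixedUnits]
  refine forall₂_congr fun σ _ => ?_
  constructor
  · intro h
    exact congrArg (fun t : Nˣ => (t : N)) h
  · intro h
    exact Units.ext h

lemma unitsIncl_mem_fixedUnits (H : Subgroup (N ≃ₐ[K] N)) (y : Kˣ) :
    unitsIncl N K y ∈ fixedUnits K N H := by
  rw [mem_fixedUnits_iff_coe]
  intro σ _
  exact σ.commutes _

lemma fixedUnits_anti {H H' : Subgroup (N ≃ₐ[K] N)} (h : H ≤ H') :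
    fixedUnits K N H' ≤ fixedUnits K N H :=
  fun _ hy σ hσ => hy σ (h hσ)

end Fixed

section Concrete

variable (A F : Type) [CommRing A] [IsDomain A] [IsDiscreteValuationRing A]
  [IsAdicComplete (IsLocalRing.maximalIdeal A) A] [Finite (IsLocalRing.ResidueField A)]
  [Field F] [CharZero F] [Algebra A F] [IsFractionRing A F]
  (K : Type) [Field K] [Algebra F K] [FiniteDimensional F K]
  (N : Type) [Field N] [Algebra F N] [Algebra K N] [IsScalarTower F K N]
  [FiniteDimensional K N] [IsGalois K N]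

variable {A F N} in
/-- The image in `N` of a uniformizer of `K` has positive order. -/
lemma ord_unitsIncl_unif_pos {ϖ : Nˣ} (hϖ : IsUnif A F N ϖ) {ϖK : Kˣ} (hK : IsUnif A F K ϖK) :
    0 < ord A F N ϖ (unitsIncl N K ϖK) := by
  have h0 : 0 ≤ ord A F N ϖ (unitsIncl N K ϖK) := by
    rw [← isInt_iff_ord_nonneg hϖ]
    exact (H608.isInt_algebraMap_iff A F N K _).mpr hK.1
  rcases h0.lt_or_eq with h | h
  · exact h
  · exfalso
    have hu := (ord_eq_zero_iff hϖ).mp h.symm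
    apply hK.2.1
    rw [mem_intUnits] at hu ⊢
    refine ⟨hK.1, ?_⟩
    have e : (((unitsIncl N K ϖK)⁻¹ : Nˣ) : N) = algebraMap K N ((ϖK⁻¹ : Kˣ) : K) := by
      rw [← map_inv]; rfl
    rw [e] at hu
    exact (H608.isInt_algebraMap_iff A F N K _).mp hu.2

/-- **Structure theorem.** -/
theorem exists_inertia_dvd {ϖ : Nˣ} (hϖ : IsUnif A F N ϖ) :
    ∃ I : Subgroup (N ≃ₐ[K] N), I.Normal ∧ ∀ H : Subgroup (N ≃ₐ[K] N),
      0 < Nat.card ↥(I ⊓ H) ∧
      (∀ y ∈ fixedUnits K N H, ((Nat.card ↥(I ⊓ H) : ℕ) : ℤ) ∣ ord A F N ϖ y) ∧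
      (∃ y ∈ fixedUnits K N H, ord A F N ϖ y = (Nat.card ↥(I ⊓ H) : ℕ)) := by
  classical
  obtain ⟨I, hI, hcard⟩ := exists_inertia_ord A F K N hϖ
  refine ⟨I, hI, fun H => ?_⟩
  -- the least positive order of an invariant element
  obtain ⟨ϖK, hK⟩ := H608.exists_isUnif A F K
  have hex : ∃ n : ℕ, 0 < n ∧ ∃ y ∈ fixedUnits K N H, ord A F N ϖ y = n := by
    have hpos := ord_unitsIncl_unif_pos (K := K) hϖ hK
    refine ⟨(ord A F N ϖ (unitsIncl N K ϖK)).toNat, by omega, unitsIncl N K ϖK,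
      unitsIncl_mem_fixedUnits H ϖK, ?_⟩
    rw [Int.toNat_of_nonneg hpos.le]
  set d := Nat.find hex with hd
  obtain ⟨hdpos, y₀, hy₀, hy₀d⟩ := Nat.find_spec hex
  have hmin : ∀ y : Nˣ, (∀ σ ∈ H, σ • y = y) → 0 < ord A F N ϖ y → (d : ℤ) ≤ ord A F N ϖ y := by
    intro y hy hpos
    have : d ≤ (ord A F N ϖ y).toNat :=
      Nat.find_min' hex ⟨by omega, y, hy, by rw [Int.toNat_of_nonneg hpos.le]⟩
    omega
  have hc : Nat.card ↥(I ⊓ H) = d := hcard H d hmin ⟨y₀, hy₀, hy₀d⟩ hdpos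
  rw [hc]
  refine ⟨hdpos, ?_, y₀, hy₀, hy₀d⟩
  intro y hy
  -- division with remainder
  set q := ord A F N ϖ y / (d : ℤ) with hq
  set r := ord A F N ϖ y % (d : ℤ) with hr
  have hdz : (0 : ℤ) < d := by exact_mod_cast hdpos
  have hr0 : 0 ≤ r := Int.emod_nonneg _ hdz.ne'
  have hrd : r < d := Int.emod_lt_of_pos _ hdz
  have hdecomp : ord A F N ϖ y = (d : ℤ) * q + r := (Int.mul_ediv_add_emod _ _).symm
  have hy' : y * y₀ ^ (-q) ∈ fixedUnits K N H :=
    (fixedUnits K N H).mul_mem hy ((fixedUnits K N H).zpow_mem hy₀ _)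
  have hord' : ord A F N ϖ (y * y₀ ^ (-q)) = r := by
    rw [ord_mul hϖ, ord_zpow hϖ, hy₀d, hdecomp]
    ring
  have hr_zero : r = 0 := by
    by_contra hne
    have hrpos : 0 < r := lt_of_le_of_ne hr0 (Ne.symm hne)
    have := hmin _ hy' (by rw [hord']; exact hrpos)
    rw [hord'] at this
    omega
  exact Int.dvd_of_emod_eq_zero hr_zero

end Concrete

end Fermat.Agent.S55.Local.H775

end
-- ===== PACK-END S55/Local/H775/InertiaOrd.lean

-- ===== PACK-BEGIN S55/T/NakH837/Coind.lean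
section


/-!
# S55, layer T, leaf T6 (helper837): `coind₁ A` is weakly projective; lifting and extension

* `isWeakProj_coind₁` : `coind₁ A = Fun(G, A)` is weakly projective.
* `exists_lift_coind₁` : a morphism `coind₁ A ⟶ Z` lifts along a surjection `Y ⟶ Z`
  (if `A` is projective over `k`).
* `coind₁ι_comp_normHom_ev` : a norm `N ψ : A ⟶ T` extends to `coind₁ A ⟶ T`.
-/

set_option autoImplicit false
set_option linter.unusedSectionVars false

open CategoryTheory groupCohomology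

namespace Fermat.Agent.S55.T.H837

open Fermat.Agent.S55.H572

noncomputable section

variable {k G : Type} [CommRing k] [Group G] [Fintype G]

/-- Evaluation at `1 : G`, as a linear map `coind₁ A → A`. -/
def ev₁ (A : Rep.{0} k G) : (coind₁ A).V →ₗ[k] A.V where
  toFun φ := φ.1 1
  map_add' _ _ := rfl
  map_smul' _ _ := rfl

lemma ev₁_apply (A : Rep.{0} k G) (φ : (coind₁ A).V) : ev₁ A φ = φ.1 1 := rfl

open Classical in
/-- The function supported at `1 : G` with value `a`, as a linear map `A → coind₁ A`. -/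
def place₁ (A : Rep.{0} k G) : A.V →ₗ[k] (coind₁ A).V where
  toFun a := mkCoind (Rep.res (⊥ : Subgroup G).subtype A) (fun x => if x = 1 then a else 0)
  map_add' a b := by
    apply Subtype.ext
    funext x
    change (if x = 1 then a + b else 0) = (if x = 1 then a else 0) + (if x = 1 then b else 0)
    split_ifs <;> simp
  map_smul' r a := by
    apply Subtype.ext
    funext x
    change (if x = 1 then r • a else 0) = r • (if x = 1 then a else 0)
    split_ifs <;> simp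

open Classical in
lemma place₁_apply (A : Rep.{0} k G) (a : A.V) (x : G) :
    (place₁ A a).1 x = if x = 1 then a else 0 := rfl

lemma ev₁_coind₁ι (A : Rep.{0} k G) (a : A.V) : ev₁ A ((coind₁ι A).hom a) = a := by
  rw [ev₁_apply, coind₁ι_hom_apply, map_one]
  rfl

lemma coind₁_sum_coe {ι : Type*} (A : Rep.{0} k G) (s : Finset ι) (F : ι → (coind₁ A).V)
    (x : G) : (∑ i ∈ s, F i).1 x = ∑ i ∈ s, (F i).1 x := by
  rw [Submodule.coe_sum, Finset.sum_apply]

/-- `coind₁ A` is weakly projective. -/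
theorem isWeakProj_coind₁ (A : Rep.{0} k G) : IsWeakProj (coind₁ A) := by
  classical
  refine ⟨place₁ A ∘ₗ ev₁ A, fun φ => ?_⟩
  apply Subtype.ext
  funext x
  rw [coind₁_sum_coe]
  have key : ∀ g : G, ((coind₁ A).ρ g ((place₁ A ∘ₗ ev₁ A) ((coind₁ A).ρ g⁻¹ φ))).1 x =
      if g = x⁻¹ then φ.1 x else 0 := by
    intro g
    rw [coind_ρ_coe, LinearMap.comp_apply, place₁_apply, ev₁_apply, coind_ρ_coe, one_mul]
    by_cases h : g = x⁻¹
    · subst h
      simp
    · have : ¬ x * g = 1 := fun h' => h (eq_inv_of_mul_eq_one_right h')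
      simp [h, this]
  rw [Finset.sum_congr rfl fun g _ => key g]
  simp

/-- A morphism out of `coind₁ A` is a norm. -/
lemma hom_coind₁_eq_normHom {A B : Rep.{0} k G} (F : coind₁ A ⟶ B) :
    ∃ ψ : (coind₁ A).V →ₗ[k] B.V, F = normHom ψ :=
  hom_eq_normHom_of_isWeakProj_left (isWeakProj_coind₁ A) F

/-- Lifting property of `coind₁ A` (for `A` projective over `k`) against surjections. -/
theorem exists_lift_coind₁ {A Y Z : Rep.{0} k G} [Module.Projective k A.V] (q : Y ⟶ Z)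
    (hq : Function.Surjective q.hom) (F : coind₁ A ⟶ Z) :
    ∃ F' : coind₁ A ⟶ Y, F' ≫ q = F := by
  obtain ⟨h, hh⟩ := Module.projective_lifting_property q.hom.toLinearMap
    (F.hom.toLinearMap ∘ₗ place₁ A) hq
  refine ⟨normHom (h ∘ₗ ev₁ A), ?_⟩
  rw [normHom_comp, ← LinearMap.comp_assoc, hh, LinearMap.comp_assoc, ← normHom_comp]
  obtain ⟨u, hu⟩ := isWeakProj_coind₁ A
  have : normHom (place₁ A ∘ₗ ev₁ A) = 𝟙 (coind₁ A) := by
    apply IsWeakProj.normHom_eq
    classical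
    intro φ
    apply Subtype.ext
    funext x
    rw [coind₁_sum_coe]
    have key : ∀ g : G, ((coind₁ A).ρ g ((place₁ A ∘ₗ ev₁ A) ((coind₁ A).ρ g⁻¹ φ))).1 x =
        if g = x⁻¹ then φ.1 x else 0 := by
      intro g
      rw [coind_ρ_coe, LinearMap.comp_apply, place₁_apply, ev₁_apply, coind_ρ_coe, one_mul]
      by_cases h : g = x⁻¹
      · subst h
        simp
      · have : ¬ x * g = 1 := fun h' => h (eq_inv_of_mul_eq_one_right h')
        simp [h, this]
    rw [Finset.sum_congr rfl fun g _ => key g]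
    simp
  rw [this, Category.id_comp]

/-- A norm `N ψ : A ⟶ T` extends along `A ⟶ coind₁ A`. -/
theorem coind₁ι_comp_normHom_ev {A T : Rep.{0} k G} (ψ : A.V →ₗ[k] T.V) :
    coind₁ι A ≫ normHom (ψ ∘ₗ ev₁ A) = normHom ψ := by
  rw [comp_normHom]
  congr 1
  apply LinearMap.ext
  intro a
  change ψ (ev₁ A ((coind₁ι A).hom a)) = ψ a
  rw [ev₁_coind₁ι]

end

end Fermat.Agent.S55.T.H837

end
-- ===== PACK-END S55/T/NakH837/Coind.lean

-- ===== PACK-BEGIN S55/T/NakHomH719.lean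
section


/-!
# S55, layer T, leaf T6a (Nakayama) — the internal Hom functor `Hom_ℤ(R, -)` (helper719)

* `rep_exact_iff`, `rep_shortExact_iff` : exactness in `Rep ℤ G` on elements;
* `ihomSC`, `ihomSC_shortExact` : `Hom_ℤ(R, -)` preserves short exact sequences if `R` is
  `ℤ`-projective;
* `ihomCoind₁Iso` : `Hom_ℤ(R, coind₁ A) ≅ coind₁ (Hom_ℤ(R, A))`;
* `isCohTriv_ihom_coind₁`.
-/

set_option autoImplicit false
set_option linter.style.haveILetI false

open CategoryTheory Limits groupCohomology Rep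

namespace Fermat.Agent.S55.T.H719

open Fermat.Agent.S55.H572

noncomputable section

variable {k G : Type} [CommRing k] [Group G]

/-! ## Exactness on elements -/

theorem rep_exact_iff (S : ShortComplex (Rep.{0} k G)) :
    S.Exact ↔ ∀ x : S.X₂.V, S.g.hom x = 0 → ∃ y : S.X₁.V, S.f.hom y = x := by
  rw [← ShortComplex.exact_map_iff_of_faithful S (forget₂ (Rep.{0} k G) (ModuleCat.{0} k)),
    ShortComplex.moduleCat_exact_iff]
  rfl

theorem rep_shortExact_iff (S : ShortComplex (Rep.{0} k G)) :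
    S.ShortExact ↔ Function.Injective S.f.hom ∧ Function.Surjective S.g.hom ∧
      ∀ x : S.X₂.V, S.g.hom x = 0 → ∃ y : S.X₁.V, S.f.hom y = x := by
  constructor
  · intro h
    exact ⟨(Rep.mono_iff_injective _).1 h.mono_f, (Rep.epi_iff_surjective _).1 h.epi_g,
      (rep_exact_iff S).1 h.exact⟩
  · rintro ⟨h1, h2, h3⟩
    exact { exact := (rep_exact_iff S).2 h3
            mono_f := (Rep.mono_iff_injective _).2 h1
            epi_g := (Rep.epi_iff_surjective _).2 h2 }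

/-! ## `Hom_ℤ(R, -)` on short exact sequences -/

/-- View an element of `Hom_k(R, X)` as a linear map. -/
abbrev ihomLin {R X : Rep.{0} k G} (φ : ((Rep.ihom R).obj X).V) : R.V →ₗ[k] X.V := φ

/-- View a linear map as an element of `Hom_k(R, X)`. -/
abbrev ihomMk {R X : Rep.{0} k G} (φ : R.V →ₗ[k] X.V) : ((Rep.ihom R).obj X).V := φ

theorem ihom_map_hom_apply (R : Rep.{0} k G) {X Y : Rep.{0} k G} (f : X ⟶ Y)
    (φ : ((Rep.ihom R).obj X).V) (r : R.V) :
    ihomLin (((Rep.ihom R).map f).hom φ) r = f.hom (ihomLin φ r) := rfl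

theorem ihom_ρ_apply (R X : Rep.{0} k G) (g : G) (φ : ((Rep.ihom R).obj X).V) (r : R.V) :
    ihomLin (((Rep.ihom R).obj X).ρ g φ) r = X.ρ g (ihomLin φ (R.ρ g⁻¹ r)) := rfl

/-- The image of a short complex under `Hom_ℤ(R, -)`. -/
def ihomSC (R : Rep.{0} k G) (S : ShortComplex (Rep.{0} k G)) : ShortComplex (Rep.{0} k G) :=
  ShortComplex.mk ((Rep.ihom R).map S.f) ((Rep.ihom R).map S.g) (by
    rw [← Functor.map_comp, S.zero]
    apply Rep.hom_ext
    apply Representation.IntertwiningMap.ext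
    apply LinearMap.ext
    intro φ
    apply LinearMap.ext
    intro r
    rfl)

theorem ihomSC_shortExact (R : Rep.{0} k G) (hR : Module.Projective k R.V)
    {S : ShortComplex (Rep.{0} k G)} (hS : S.ShortExact) : (ihomSC R S).ShortExact := by
  rw [rep_shortExact_iff] at hS ⊢
  obtain ⟨h1, h2, h3⟩ := hS
  refine ⟨?_, ?_, ?_⟩
  · intro φ ψ h
    apply LinearMap.ext
    intro r
    apply h1
    have := congrArg (fun χ : R.V →ₗ[k] S.X₂.V => χ r) h
    exact this
  · intro ψ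
    obtain ⟨φ, hφ⟩ := Module.projective_lifting_property S.g.hom.toLinearMap
      (ψ : R.V →ₗ[k] S.X₃.V) h2
    refine ⟨φ, ?_⟩
    apply LinearMap.ext
    intro r
    exact congrArg (fun χ : R.V →ₗ[k] S.X₃.V => χ r) hφ
  · intro ψ hψ
    have hker : ∀ r : R.V, S.g.hom (ihomLin ψ r) = 0 := fun r =>
      congrArg (fun χ : R.V →ₗ[k] S.X₃.V => χ r) hψ
    -- lift through the range of `f`
    let f' : S.X₁.V →ₗ[k] LinearMap.range S.f.hom.toLinearMap :=
      S.f.hom.toLinearMap.rangeRestrict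
    have hf' : Function.Surjective f' := LinearMap.surjective_rangeRestrict _
    let ψ' : R.V →ₗ[k] LinearMap.range S.f.hom.toLinearMap :=
      LinearMap.codRestrict _ (ψ : R.V →ₗ[k] S.X₂.V) (fun r => by
        obtain ⟨y, hy⟩ := h3 _ (hker r)
        exact ⟨y, hy⟩)
    obtain ⟨φ, hφ⟩ := Module.projective_lifting_property f' ψ' hf'
    refine ⟨φ, ?_⟩
    apply LinearMap.ext
    intro r
    have := congrArg (fun χ : R.V →ₗ[k] LinearMap.range S.f.hom.toLinearMap => (χ r : S.X₂.V)) hφ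
    exact this

/-! ## `Hom_k(R, coind₁ A) ≅ coind₁ (Hom_k(R, A))` -/

/-- Evaluation `coind₁ A → A` at `x : G` (linear, not equivariant). -/
def coind₁Eval (A : Rep.{0} k G) (x : G) : (coind₁ A).V →ₗ[k] A.V where
  toFun f := f.1 x
  map_add' _ _ := rfl
  map_smul' _ _ := rfl

theorem coind₁Eval_apply (A : Rep.{0} k G) (x : G) (f : (coind₁ A).V) :
    coind₁Eval A x f = f.1 x := rfl

/-- The linear map `A → coind₁ A` built from a family of linear maps. -/
def coind₁Pi {M : Type} [AddCommGroup M] [Module k M] (A : Rep.{0} k G)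
    (F : G → (M →ₗ[k] A.V)) : M →ₗ[k] (coind₁ A).V where
  toFun m := mkCoind (res (⊥ : Subgroup G).subtype A) (fun x => F x m)
  map_add' m m' := by
    apply Subtype.ext
    funext x
    exact map_add (F x) m m'
  map_smul' c m := by
    apply Subtype.ext
    funext x
    exact map_smul (F x) c m

theorem coind₁Pi_apply {M : Type} [AddCommGroup M] [Module k M] (A : Rep.{0} k G)
    (F : G → (M →ₗ[k] A.V)) (m : M) (x : G) : (coind₁Pi A F m).1 x = F x m := rfl

/-- Underlying linear equivalence of `ihomCoind₁Iso`: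
`φ ↦ (x ↦ (r ↦ φ (x⁻¹ r) x))`. -/
def ihomCoind₁LinearEquiv (R A : Rep.{0} k G) :
    ((Rep.ihom R).obj (coind₁ A)).V ≃ₗ[k] (coind₁ ((Rep.ihom R).obj A)).V where
  toFun φ := mkCoind (res (⊥ : Subgroup G).subtype ((Rep.ihom R).obj A))
    (fun x => ihomMk ((coind₁Eval A x) ∘ₗ (ihomLin φ) ∘ₗ (R.ρ x⁻¹)))
  map_add' φ ψ := by
    apply Subtype.ext
    funext x
    apply LinearMap.ext
    intro r
    rfl
  map_smul' c φ := by
    apply Subtype.ext
    funext x
    apply LinearMap.ext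
    intro r
    rfl
  invFun F := ihomMk (coind₁Pi A (fun x => (ihomLin (F.1 x)) ∘ₗ (R.ρ x)))
  left_inv φ := by
    apply LinearMap.ext
    intro r
    apply Subtype.ext
    funext x
    change (ihomLin φ (R.ρ x⁻¹ (R.ρ x r))).1 x = (ihomLin φ r).1 x
    rw [← Module.End.mul_apply, ← map_mul, inv_mul_cancel, map_one, Module.End.one_apply]
  right_inv F := by
    apply Subtype.ext
    funext x
    apply LinearMap.ext
    intro r
    change ihomLin (F.1 x) (R.ρ x (R.ρ x⁻¹ r)) = ihomLin (F.1 x) r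
    rw [← Module.End.mul_apply, ← map_mul, mul_inv_cancel, map_one, Module.End.one_apply]

/-- `Hom_k(R, coind₁ A) ≅ coind₁ (Hom_k(R, A))`. -/
def ihomCoind₁Iso (R A : Rep.{0} k G) :
    (Rep.ihom R).obj (coind₁ A) ≅ coind₁ ((Rep.ihom R).obj A) :=
  Rep.mkIso (Representation.Equiv.mk (ihomCoind₁LinearEquiv R A) (fun g => by
    apply LinearMap.ext
    intro φ
    apply Subtype.ext
    funext x
    apply LinearMap.ext
    intro r
    change ((coind₁ A).ρ g (ihomLin φ (R.ρ g⁻¹ (R.ρ x⁻¹ r)))).1 x =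
      (ihomLin φ (R.ρ (x * g)⁻¹ r)).1 (x * g)
    rw [coind_ρ_coe, ← Module.End.mul_apply, ← map_mul, mul_inv_rev]))

theorem isCohTriv_coind₁ [Finite G] (A : Rep.{0} k G) : IsCohTriv (coind₁ A) := by
  intro H _ n
  exact isZero_tateCohomology_res_coind₁ H A n

theorem isCohTriv_ihom_coind₁ [Finite G] (R A : Rep.{0} k G) :
    IsCohTriv ((Rep.ihom R).obj (coind₁ A)) :=
  isCohTriv_of_iso (ihomCoind₁Iso R A).symm (isCohTriv_coind₁ _)

end

end Fermat.Agent.S55.T.H719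

end
-- ===== PACK-END S55/T/NakHomH719.lean

-- ===== PACK-BEGIN S55/T/NakSylowH719.lean
section


/-!
# S55, layer T, leaf T6a (Nakayama) — Sylow reduction of cohomological triviality (helper719)

`isCohTriv_of_pSubgroups` : if `Ĥⁿ(Q, A) = 0` for all `n : ℤ` and all subgroups `Q ≤ G` of prime
power order, then `A` is cohomologically trivial.
-/

set_option autoImplicit false
set_option linter.style.haveILetI false

open CategoryTheory Limits groupCohomology Rep

namespace Fermat.Agent.S55.T.H719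

open Fermat.Agent.S55.H572 Fermat.Agent.S55.H119

noncomputable section

variable {k G : Type} [CommRing k] [Group G]

/-- Transport of `H¹ = 0` from the image subgroup `P.map H.subtype ≤ G` to `P ≤ H`. -/
theorem h1Triv_res_res_of_map (A : Rep.{0} k G) (H : Subgroup G) (P : Subgroup H)
    (h : H1Triv (res (P.map H.subtype).subtype A)) :
    H1Triv (res P.subtype (res H.subtype A)) := by
  intro c hc
  have hmem : ∀ q : (P.map H.subtype), ∃ x : P, ((x : H) : G) = (q : G) := by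
    rintro ⟨q, x, hx, rfl⟩
    exact ⟨⟨x, hx⟩, rfl⟩
  choose s hs using hmem
  have hs_mul : ∀ q q' : (P.map H.subtype), s (q * q') = s q * s q' := by
    intro q q'
    apply Subtype.ext
    apply Subtype.ext
    rw [hs]
    simp [hs]
  obtain ⟨y, hy⟩ := h (fun q => c (s q)) (fun q q' => by
    have h1 := hc (s q) (s q')
    rw [hs_mul]
    rw [h1]
    have h2 : (res P.subtype (res H.subtype A)).ρ (s q) = (res (P.map H.subtype).subtype A).ρ q := by
      change A.ρ ((s q : H) : G) = A.ρ (q : G)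
      rw [hs]
    rw [h2])
  refine ⟨y, fun g => ?_⟩
  have hg : ((g : H) : G) ∈ P.map H.subtype := ⟨g, g.2, rfl⟩
  have h3 : s ⟨((g : H) : G), hg⟩ = g := by
    apply Subtype.ext
    apply Subtype.ext
    rw [hs]
  have h4 := hy ⟨((g : H) : G), hg⟩
  rw [h3] at h4
  exact h4

/-- **Sylow reduction**: a module whose Tate cohomology vanishes on all subgroups of prime power
order is cohomologically trivial. -/
theorem isCohTriv_of_pSubgroups [Finite G] (A : Rep.{0} k G)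
    (h : ∀ p : ℕ, p.Prime → ∀ Q : Subgroup G, IsPGroup p Q → ∀ [Fintype Q] (n : ℤ),
      IsZero (tateCohomology (res Q.subtype A) n)) : IsCohTriv A := by
  intro H _ n
  obtain ⟨A', hA'⟩ := exists_shift_one n A
  obtain ⟨e⟩ := hA' H
  refine IsZero.of_iso ?_ e
  refine IsZero.of_iso ?_ ((TateCohomology.isoGroupCohomology 1).app _)
  rw [ModuleCat.isZero_iff_subsingleton]
  refine ⟨fun x y => ?_⟩
  suffices ∀ z : H1 (res H.subtype A'), z = 0 by rw [this x, this y]
  intro z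
  refine eq_zero_of_forall_sylow_resMap_eq_zero_one (res H.subtype A') z fun p hp => ?_
  haveI : Fact p.Prime := ⟨hp⟩
  obtain ⟨P⟩ : Nonempty (Sylow p H) := inferInstance
  refine ⟨P, ?_⟩
  have hQ : IsPGroup p ((P : Subgroup H).map H.subtype) := P.2.map H.subtype
  letI : Fintype ((P : Subgroup H).map H.subtype) := Fintype.ofFinite _
  obtain ⟨e'⟩ := hA' ((P : Subgroup H).map H.subtype)
  have h1 : IsZero (tateCohomology (res ((P : Subgroup H).map H.subtype).subtype A') 1) :=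
    IsZero.of_iso (h p hp _ hQ n) e'.symm
  rw [isZero_tate_one_iff] at h1
  have h2 := h1Triv_res_res_of_map A' H (P : Subgroup H) h1
  rw [← isZero_H1_iff] at h2
  exact (ModuleCat.isZero_iff_subsingleton.1 h2).elim _ _

end

end Fermat.Agent.S55.T.H719

end
-- ===== PACK-END S55/T/NakSylowH719.lean

-- ===== PACK-BEGIN S55/T/T6pH353/NormRel.lean
section


/-!
# S55, layer T, leaf T6p (helper353): the relative norm of an `H`-morphism

For a subgroup `H ≤ G` of finite index, `G`-representations `A`, `B` and an `H`-morphism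
`f₀ : Res_H A ⟶ Res_H B`, the **relative norm**
`normRel H f₀ : A ⟶ B`, `a ↦ ∑_{q ∈ G/H} q f₀ (q⁻¹ a)` is a `G`-morphism.
It is compatible with composition by `G`-morphisms on both sides.
-/

set_option autoImplicit false

open CategoryTheory groupCohomology Rep Limits

universe u

namespace Fermat.Agent.S55.T.H353

open Fermat.Agent.S55.H572

noncomputable section

variable {k G : Type u} [CommRing k] [Group G] (H : Subgroup G)

/-- The conjugate `g f₀ g⁻¹` of an `H`-morphism, as a function. -/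
def conjTerm {A B : Rep.{u} k G} (f₀ : res H.subtype A ⟶ res H.subtype B) (g : G) (a : A.V) :
    B.V :=
  B.ρ g (f₀.hom (A.ρ g⁻¹ a))

lemma conjTerm_mul_mem {A B : Rep.{u} k G} (f₀ : res H.subtype A ⟶ res H.subtype B) (g : G)
    (h : H) (a : A.V) : conjTerm H f₀ (g * (h : G)) a = conjTerm H f₀ g a := by
  unfold conjTerm
  have h1 : A.ρ (g * (h : G))⁻¹ a = (res H.subtype A).ρ h⁻¹ (A.ρ g⁻¹ a) := by
    rw [mul_inv_rev, map_mul]
    rfl
  rw [h1, Rep.hom_comm_apply f₀ h⁻¹ (A.ρ g⁻¹ a), map_mul]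
  change B.ρ g (B.ρ (h : G) (B.ρ ((h⁻¹ : H) : G) _)) = _
  rw [← Module.End.mul_apply (B.ρ (h : G)), ← map_mul]
  simp

lemma conjTerm_out {A B : Rep.{u} k G} (f₀ : res H.subtype A ⟶ res H.subtype B) (g : G)
    (a : A.V) : conjTerm H f₀ (QuotientGroup.mk g : G ⧸ H).out a = conjTerm H f₀ g a := by
  have h1 := conjTerm_mul_mem H f₀ (QuotientGroup.mk g : G ⧸ H).out (hPart H g) a
  rw [out_mul_hPart] at h1
  exact h1.symm

lemma conjTerm_smul {A B : Rep.{u} k G} (f₀ : res H.subtype A ⟶ res H.subtype B) (g x : G)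
    (a : A.V) : conjTerm H f₀ g (A.ρ x a) = B.ρ x (conjTerm H f₀ (x⁻¹ * g) a) := by
  unfold conjTerm
  rw [← Module.End.mul_apply (B.ρ x), ← map_mul, mul_inv_cancel_left, mul_inv_rev, inv_inv,
    map_mul]
  rfl

variable [Fintype (G ⧸ H)]

/-- Underlying linear map of the relative norm. -/
def normRelLin {A B : Rep.{u} k G} (f₀ : res H.subtype A ⟶ res H.subtype B) : A.V →ₗ[k] B.V where
  toFun a := ∑ q : G ⧸ H, conjTerm H f₀ q.out a
  map_add' a b := by
    rw [← Finset.sum_add_distrib]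
    refine Finset.sum_congr rfl fun q _ => ?_
    simp [conjTerm]
  map_smul' r a := by
    rw [RingHom.id_apply, Finset.smul_sum]
    refine Finset.sum_congr rfl fun q _ => ?_
    simp [conjTerm]

lemma normRelLin_apply {A B : Rep.{u} k G} (f₀ : res H.subtype A ⟶ res H.subtype B) (a : A.V) :
    normRelLin H f₀ a = ∑ q : G ⧸ H, B.ρ q.out (f₀.hom (A.ρ q.out⁻¹ a)) := rfl

lemma normRelLin_equivariant {A B : Rep.{u} k G} (f₀ : res H.subtype A ⟶ res H.subtype B)
    (x : G) (a : A.V) : normRelLin H f₀ (A.ρ x a) = B.ρ x (normRelLin H f₀ a) := by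
  change ∑ q : G ⧸ H, conjTerm H f₀ q.out (A.ρ x a) = B.ρ x (∑ q : G ⧸ H, conjTerm H f₀ q.out a)
  rw [map_sum]
  have h1 : ∀ q : G ⧸ H, conjTerm H f₀ q.out (A.ρ x a) =
      B.ρ x (conjTerm H f₀ ((x⁻¹ • q : G ⧸ H)).out a) := by
    intro q
    rw [conjTerm_smul]
    congr 1
    have h2 : (x⁻¹ • q : G ⧸ H) = QuotientGroup.mk (x⁻¹ * q.out) := by
      conv_lhs => rw [← QuotientGroup.out_eq' q]
      rfl
    rw [h2, conjTerm_out]
  rw [Finset.sum_congr rfl (fun q _ => h1 q)]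
  exact Fintype.sum_equiv (MulAction.toPerm x⁻¹) _ _ (fun q => rfl)

/-- The **relative norm** `N_{G/H} f₀ = ∑_{q ∈ G/H} q f₀ q⁻¹ : A ⟶ B` of an `H`-morphism
`f₀ : Res_H A ⟶ Res_H B`. -/
def normRel {A B : Rep.{u} k G} (f₀ : res H.subtype A ⟶ res H.subtype B) : A ⟶ B :=
  Rep.ofHom (ρ := A.ρ) (σ := B.ρ) ⟨normRelLin H f₀, fun g => by
    apply LinearMap.ext
    intro a
    exact normRelLin_equivariant H f₀ g a⟩

lemma normRel_hom_apply {A B : Rep.{u} k G} (f₀ : res H.subtype A ⟶ res H.subtype B) (a : A.V) :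
    (normRel H f₀).hom a = ∑ q : G ⧸ H, B.ρ q.out (f₀.hom (A.ρ q.out⁻¹ a)) := rfl

/-- The relative norm does not depend on the choice of representatives. -/
lemma normRel_hom_apply_of_section {A B : Rep.{u} k G}
    (f₀ : res H.subtype A ⟶ res H.subtype B) (s : G ⧸ H → G)
    (hs : ∀ q, (QuotientGroup.mk (s q) : G ⧸ H) = q) (a : A.V) :
    (normRel H f₀).hom a = ∑ q : G ⧸ H, B.ρ (s q) (f₀.hom (A.ρ (s q)⁻¹ a)) := by
  rw [normRel_hom_apply]
  refine Finset.sum_congr rfl fun q _ => ?_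
  have h1 := conjTerm_out H f₀ (s q) a
  rw [hs q] at h1
  exact h1

/-- Compatibility of the relative norm with composition by a `G`-morphism on the left. -/
lemma normRel_comp_left {A' A B : Rep.{u} k G} (g : A' ⟶ A)
    (f₀ : res H.subtype A ⟶ res H.subtype B) :
    normRel H ((resFunctor H.subtype).map g ≫ f₀) = g ≫ normRel H f₀ := by
  apply Rep.hom_ext
  apply Representation.IntertwiningMap.ext
  apply LinearMap.ext
  intro a
  change ∑ q : G ⧸ H, B.ρ q.out (f₀.hom (g.hom (A'.ρ q.out⁻¹ a))) =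
    ∑ q : G ⧸ H, B.ρ q.out (f₀.hom (A.ρ q.out⁻¹ (g.hom a)))
  refine Finset.sum_congr rfl fun q _ => ?_
  rw [Rep.hom_comm_apply g]

/-- Compatibility of the relative norm with composition by a `G`-morphism on the right. -/
lemma normRel_comp_right {A B B' : Rep.{u} k G} (f₀ : res H.subtype A ⟶ res H.subtype B)
    (g : B ⟶ B') :
    normRel H (f₀ ≫ (resFunctor H.subtype).map g) = normRel H f₀ ≫ g := by
  apply Rep.hom_ext
  apply Representation.IntertwiningMap.ext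
  apply LinearMap.ext
  intro a
  change ∑ q : G ⧸ H, B'.ρ q.out (g.hom (f₀.hom (A.ρ q.out⁻¹ a))) =
    g.hom (∑ q : G ⧸ H, B.ρ q.out (f₀.hom (A.ρ q.out⁻¹ a)))
  rw [map_sum]
  refine Finset.sum_congr rfl fun q _ => ?_
  rw [Rep.hom_comm_apply g]

/-- The relative norm of (the restriction of) a `G`-morphism is `[G : H]` times it. -/
lemma normRel_res {A B : Rep.{u} k G} (f : A ⟶ B) (a : A.V) :
    (normRel H ((resFunctor H.subtype).map f)).hom a = H.index • f.hom a := by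
  change ∑ q : G ⧸ H, B.ρ q.out (f.hom (A.ρ q.out⁻¹ a)) = _
  have h1 : ∀ q : G ⧸ H, B.ρ q.out (f.hom (A.ρ q.out⁻¹ a)) = f.hom a := by
    intro q
    rw [Rep.hom_comm_apply f, ← Module.End.mul_apply, ← map_mul]
    simp
  rw [Finset.sum_congr rfl (fun q _ => h1 q), Finset.sum_const, Finset.card_univ,
    Subgroup.index_eq_card, Nat.card_eq_fintype_card]

end

end Fermat.Agent.S55.T.H353

end
-- ===== PACK-END S55/T/T6pH353/NormRel.lean

-- ===== PACK-BEGIN S55/G/PL1H597/Prime.lean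
section
/-
S55 (Poitou–Tate), layer G, leaf G-PL1 (`PlacePrimeSpec`) — helper597.
Part 2: the prime `primeOf 𝔪` of `𝓞 L` below a place `𝔪` of `L ⊗ ℚ_S`; Galois equivariance;
the integers of `L_𝔪` meet `L` in the localisation of `𝓞 L` at `primeOf 𝔪`.
-/


set_option autoImplicit false
set_option linter.unusedSectionVars false
set_option linter.style.haveILetI false
set_option linter.unusedSimpArgs false
set_option backward.isDefEq.respectTransparency false

open scoped NumberField TensorProduct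
open IsDedekindDomain Polynomial

noncomputable section

namespace Fermat.Agent.S55.G.PL1H597

open Fermat.Agent.S55.G

variable {S : Finset Nat.Primes} {L : Type} [Field L] [NumberField L]

/-- The map `𝓞 L → intA 𝔪`. -/
def toInt (𝔪 : SPlace S L) : 𝓞 L →+* intA 𝔪 :=
  ((toLoc S 𝔪).comp (algebraMap (𝓞 L) L)).codRestrict (intA 𝔪).toSubring
    (fun x => toLoc_mem_intA_of_isIntegral 𝔪 _ (NumberField.RingOfIntegers.isIntegral_coe x))

@[simp] lemma coe_toInt (𝔪 : SPlace S L) (x : 𝓞 L) :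
    ((toInt 𝔪 x : intA 𝔪) : LocField S 𝔪) = toLoc S 𝔪 (x : L) := rfl

/-- The prime ideal of `𝓞 L` below `𝔪`. -/
def primeIdeal (𝔪 : SPlace S L) : Ideal (𝓞 L) :=
  (IsLocalRing.maximalIdeal (intA 𝔪)).comap (toInt 𝔪)

lemma mem_primeIdeal_iff (𝔪 : SPlace S L) (x : 𝓞 L) :
    x ∈ primeIdeal 𝔪 ↔ toLoc S 𝔪 (x : L) ∈ (intA 𝔪).nonunits := by
  rw [primeIdeal, Ideal.mem_comap, ← ValuationSubring.coe_mem_nonunits_iff, coe_toInt]

instance isPrime_primeIdeal (𝔪 : SPlace S L) : (primeIdeal 𝔪).IsPrime :=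
  Ideal.comap_isPrime _ _

lemma natCast_mem_primeIdeal (𝔪 : SPlace S L) (q : S) (h : Over 𝔪 q) :
    (((q.1 : ℕ) : ℕ) : 𝓞 L) ∈ primeIdeal 𝔪 := by
  rw [mem_primeIdeal_iff]
  have := natCast_mem_nonunits 𝔪 q h
  simpa using this

lemma primeIdeal_ne_bot (𝔪 : SPlace S L) : primeIdeal 𝔪 ≠ ⊥ := by
  intro hbot
  have h := natCast_mem_primeIdeal 𝔪 (qAt 𝔪) (over_qAt 𝔪)
  rw [hbot, Ideal.mem_bot] at h
  have : (((qAt 𝔪).1 : ℕ) : ℕ) = 0 := by exact_mod_cast h
  exact (qAt 𝔪).1.2.ne_zero this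

/-- The prime of `𝓞 L` below the place `𝔪`. -/
def primeOf (𝔪 : SPlace S L) : HeightOneSpectrum (𝓞 L) where
  asIdeal := primeIdeal 𝔪
  isPrime := isPrime_primeIdeal 𝔪
  ne_bot := primeIdeal_ne_bot 𝔪

lemma mem_primeOf_iff (𝔪 : SPlace S L) (x : 𝓞 L) :
    x ∈ (primeOf 𝔪).asIdeal ↔ toLoc S 𝔪 (x : L) ∈ (intA 𝔪).nonunits :=
  mem_primeIdeal_iff 𝔪 x

lemma isAbove_primeOf (𝔪 : SPlace S L) : IsAbove S L (primeOf 𝔪) :=
  ⟨(qAt 𝔪).1, (qAt 𝔪).2, natCast_mem_primeIdeal 𝔪 (qAt 𝔪) (over_qAt 𝔪)⟩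

/-- A prime of `𝓞 L` contains at most one rational prime. -/
lemma eq_of_natCast_mem (w : HeightOneSpectrum (𝓞 L)) {q q' : Nat.Primes}
    (h : (((q : ℕ) : ℕ) : 𝓞 L) ∈ w.asIdeal) (h' : (((q' : ℕ) : ℕ) : 𝓞 L) ∈ w.asIdeal) :
    q = q' := by
  by_contra hne
  have hcop : Nat.Coprime (q : ℕ) (q' : ℕ) :=
    (Nat.coprime_primes q.2 q'.2).2 (fun h => hne (Subtype.ext h))
  have h1 : (1 : 𝓞 L) ∈ w.asIdeal := by
    have hb := Nat.gcd_eq_gcd_ab (q : ℕ) (q' : ℕ)
    rw [hcop.gcd_eq_one] at hb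
    have hb' : (1 : 𝓞 L) = ((q : ℕ) : 𝓞 L) * ((Nat.gcdA q q' : ℤ) : 𝓞 L) +
        ((q' : ℕ) : 𝓞 L) * ((Nat.gcdB q q' : ℤ) : 𝓞 L) := by
      have := congrArg (Int.cast : ℤ → 𝓞 L) hb
      push_cast at this
      exact this
    rw [hb']
    exact w.asIdeal.add_mem (w.asIdeal.mul_mem_right _ h) (w.asIdeal.mul_mem_right _ h')
  exact w.isPrime.ne_top ((Ideal.eq_top_iff_one _).2 h1)

lemma over_iff_mem (𝔪 : SPlace S L) (q : S) :
    Over 𝔪 q ↔ (((q.1 : ℕ) : ℕ) : 𝓞 L) ∈ (primeOf 𝔪).asIdeal := by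
  constructor
  · exact fun h => natCast_mem_primeIdeal 𝔪 q h
  · intro h
    have h' := natCast_mem_primeIdeal 𝔪 (qAt 𝔪) (over_qAt 𝔪)
    have := eq_of_natCast_mem (primeOf 𝔪) h h'
    have hq : q = qAt 𝔪 := Subtype.ext this
    rw [hq]
    exact over_qAt 𝔪

/-- Membership in `primeOf 𝔪` in terms of integrality over `ℤ_S` in `L ⊗ ℚ_S`. -/
lemma mem_primeOf_iff_intAS (𝔪 : SPlace S L) (x : 𝓞 L) :
    x ∈ (primeOf 𝔪).asIdeal ↔ x = 0 ∨ ¬ IntAS 𝔪 (asDiag S L ((x : L)⁻¹)) := by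
  rw [mem_primeOf_iff, mem_nonunits_iff_inv, ← mk_mem_intA_iff]
  have h1 : LocField.mk S 𝔪 (asDiag S L ((x : L)⁻¹)) = (toLoc S 𝔪 (x : L))⁻¹ := by
    rw [← map_inv₀ (toLoc S 𝔪)]
    rfl
  rw [h1]
  have h2 : toLoc S 𝔪 (x : L) = 0 ↔ x = 0 := by
    rw [map_eq_zero]
    exact NumberField.RingOfIntegers.coe_eq_zero_iff
  rw [h2]

/-- Compatibility with any ring of integers of `L_𝔪`. -/
lemma mem_primeOf_iff_of_isLocalRingOfIntegers (𝔪 : SPlace S L)
    (A : ValuationSubring (LocField S 𝔪)) (hA : S55.L.IsLocalRingOfIntegers A) (x : 𝓞 L) :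
    x ∈ (primeOf 𝔪).asIdeal ↔ toLoc S 𝔪 (x : L) ∈ A.nonunits := by
  rw [eq_intA 𝔪 A hA]
  exact mem_primeOf_iff 𝔪 x

/-! ### Galois equivariance -/

section Equivariance

variable (G : Type) [Group G] [MulSemiringAction G L]

lemma asAut_comp_zsIncl (g : G) (P : (ZS S)[X]) (z : AS S L) :
    asAut S G L g (Polynomial.eval₂ (zsIncl S L) z P) =
      Polynomial.eval₂ (zsIncl S L) (asAut S G L g z) P := by
  have h : ((asAut S G L g : AS S L ≃ₐ[ℚ] AS S L) : AS S L →+* AS S L).comp (zsIncl S L) =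
      zsIncl S L := by
    ext z
    exact asAut_asIncl S G L g z.1
  have := Polynomial.hom_eval₂ P (zsIncl S L)
    ((asAut S G L g : AS S L ≃ₐ[ℚ] AS S L) : AS S L →+* AS S L) z
  rw [h] at this
  exact this

lemma intAS_sPlaceSMul_iff (g : G) (𝔪 : SPlace S L) (z : AS S L) :
    IntAS (sPlaceSMul S G g 𝔪) z ↔ IntAS 𝔪 (asAut S G L g⁻¹ z) := by
  unfold IntAS
  simp only [mem_sPlaceSMul_iff, asAut_comp_zsIncl]

theorem primeOf_sPlaceSMul (g : G) (𝔪 : SPlace S L) :
    primeOf (sPlaceSMul S G g 𝔪) = primeSMul G g (primeOf 𝔪) := by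
  apply HeightOneSpectrum.ext
  ext x
  rw [mem_primeSMul_iff, mem_primeOf_iff_intAS, mem_primeOf_iff_intAS, intAS_sPlaceSMul_iff,
    asAut_asDiag]
  have h1 : g⁻¹ • x = 0 ↔ x = 0 := smul_eq_zero_iff_eq g⁻¹
  have h2 : (((g⁻¹ • x : 𝓞 L) : 𝓞 L) : L)⁻¹ = g⁻¹ • ((x : L)⁻¹) := by
    rw [smul_inv'']
    rfl
  rw [h1, h2]

end Equivariance

end Fermat.Agent.S55.G.PL1H597

end
end
-- ===== PACK-END S55/G/PL1H597/Prime.lean

-- ===== PACK-BEGIN S55/H963/RayZeta.lean
section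


/-!
# S55 / leaf RAY-N1 (helper963): partial zeta functions of ray classes

`D.zeta a s = ∑ N(I)^(-s)` over the nonzero ideals `I` coprime to the modulus with `ψ I = a`.
Main results (for an abstract smoothing kernel `κ`):

* `exists_zetaDvd_bound` : `N(𝔠) * ∑_{I ∈ class a, I ≤ 𝔠} N(I)^(-s) = ζ(s, a) + O(1)`;
* `exists_zeta_le_total` : `ζ(s, a) ≤ c * Φ(s)`;
* `zeta_eq_zetaDvd`      : `ζ(s, a) = N(𝔠)^s * ∑_{I ∈ class a ψ(𝔠), I ≤ 𝔠} N(I)^(-s)`.
-/

set_option autoImplicit false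

namespace Fermat.Agent.S55.H963

open NumberField

variable {K : Type*} [Field K] [NumberField K] {A : Type*} [CommGroup A]

namespace RayDatum

variable (D : RayDatum K A) (κ : UnitKernel K)

/-- Nonzero ideals coprime to the modulus, of class `a`, contained in `𝔠`. -/
def clsDvd (𝔠 : Ideal (𝓞 K)) (a : A) : Set (Ideal (𝓞 K)) :=
  {I | I ≠ ⊥ ∧ IsCoprime I D.m ∧ D.ψ I = a ∧ I ≤ 𝔠}

/-- Nonzero ideals coprime to the modulus, of class `a`. -/
def cls (a : A) : Set (Ideal (𝓞 K)) :=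
  {I | I ≠ ⊥ ∧ IsCoprime I D.m ∧ D.ψ I = a}

/-- The part of `clsDvd 𝔠 a` lying in the ideal class `C`. -/
def clsDvdAt (𝔠 : Ideal (𝓞 K)) (a : A) (C : ClassGroup (𝓞 K)) : Set (Ideal (𝓞 K)) :=
  {I | I ∈ D.clsDvd 𝔠 a ∧ cl I = C}

/-- The partial zeta function of the class `a`. -/
noncomputable def zeta (a : A) (s : ℝ) : ℝ :=
  ∑' I : D.cls a, (Ideal.absNorm (I : Ideal (𝓞 K)) : ℝ) ^ (-s)

/-- The partial zeta function of the ideals of class `a` divisible by `𝔠`. -/
noncomputable def zetaDvd (𝔠 : Ideal (𝓞 K)) (a : A) (s : ℝ) : ℝ :=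
  ∑' I : D.clsDvd 𝔠 a, (Ideal.absNorm (I : Ideal (𝓞 K)) : ℝ) ^ (-s)

/-- The part of `zetaDvd` in the ideal class `C`. -/
noncomputable def zetaDvdAt (𝔠 : Ideal (𝓞 K)) (a : A) (C : ClassGroup (𝓞 K)) (s : ℝ) : ℝ :=
  ∑' I : D.clsDvdAt 𝔠 a C, (Ideal.absNorm (I : Ideal (𝓞 K)) : ℝ) ^ (-s)

theorem clsDvd_top (a : A) : D.clsDvd ⊤ a = D.cls a := by
  ext I
  simp [clsDvd, cls]

theorem zetaDvd_top (a : A) (s : ℝ) : D.zetaDvd ⊤ a s = D.zeta a s := by
  unfold zetaDvd zeta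
  rw [D.clsDvd_top a]

section PerClass

variable {𝔟 𝔠 : Ideal (𝓞 K)} {C : ClassGroup (𝓞 K)}

theorem mul_mem_prinSet_below (h𝔟 : 𝔟 ≠ ⊥) (h𝔟m : IsCoprime 𝔟 D.m) (h𝔟C : cl 𝔟 = C⁻¹)
    (a : A) {I : Ideal (𝓞 K)} (hI : I ∈ D.clsDvdAt 𝔠 a C) :
    I * 𝔟 ∈ prinSet (D.below (𝔠 * 𝔟) (a * D.ψ 𝔟)) := by
  obtain ⟨⟨hI0, hIm, hIψ, hI𝔠⟩, hIC⟩ := hI
  refine ⟨mul_ne_zero hI0 h𝔟, ?_, Ideal.mul_mono hI𝔠 le_rfl, hIm.mul_left h𝔟m, ?_⟩
  · rw [← cl_eq_one_iff (mul_ne_zero hI0 h𝔟), cl_mul hI0 h𝔟, hIC, h𝔟C, mul_inv_cancel]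
  · rw [D.map_mul _ _ hIm h𝔟m, hIψ]

theorem exists_mul_eq_of_mem_prinSet_below (h𝔟 : 𝔟 ≠ ⊥) (h𝔟m : IsCoprime 𝔟 D.m)
    (h𝔟C : cl 𝔟 = C⁻¹) (a : A) {J : Ideal (𝓞 K)}
    (hJ : J ∈ prinSet (D.below (𝔠 * 𝔟) (a * D.ψ 𝔟))) :
    ∃ I ∈ D.clsDvdAt 𝔠 a C, I * 𝔟 = J := by
  obtain ⟨hJ0, hJp, hJle, hJm, hJψ⟩ := hJ
  obtain ⟨I', hI'⟩ := Ideal.dvd_iff_le.mpr hJle
  have hJeq : (𝔠 * I') * 𝔟 = J := by rw [hI']; ring
  have hI0 : 𝔠 * I' ≠ ⊥ := by
    intro h
    rw [h] at hJeq
    exact hJ0 (by rw [← hJeq]; simp)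
  have hIm : IsCoprime (𝔠 * I') D.m := by
    rw [← hJeq] at hJm
    exact hJm.of_mul_left_left
  refine ⟨𝔠 * I', ⟨⟨hI0, hIm, ?_, Ideal.mul_le_left⟩, ?_⟩, hJeq⟩
  · have h1 : D.ψ (𝔠 * I') * D.ψ 𝔟 = a * D.ψ 𝔟 := by
      rw [← D.map_mul _ _ hIm h𝔟m, hJeq, hJψ]
    exact mul_right_cancel h1
  · have h1 : cl ((𝔠 * I') * 𝔟) = 1 := by
      rw [hJeq]
      exact (cl_eq_one_iff hJ0).mpr hJp
    rw [cl_mul hI0 h𝔟, h𝔟C] at h1
    exact mul_inv_eq_one.mp h1

/-- The partial zeta sum of an ideal class as a smoothed sum over elements. -/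
theorem zetaDvdAt_eq (h𝔟 : 𝔟 ≠ ⊥) (h𝔟m : IsCoprime 𝔟 D.m) (h𝔟C : cl 𝔟 = C⁻¹)
    (𝔠 : Ideal (𝓞 K)) (a : A) {s : ℝ} (hs : 1 < s) :
    D.zetaDvdAt 𝔠 a C s = (Ideal.absNorm 𝔟 : ℝ) ^ s * (κ.w⁻¹ *
      ∑' x : genSet (D.below (𝔠 * 𝔟) (a * D.ψ 𝔟)), κ.F s x) := by
  unfold zetaDvdAt
  rw [tsum_mul_ideal 𝔟 h𝔟 (D.clsDvdAt 𝔠 a C) (prinSet (D.below (𝔠 * 𝔟) (a * D.ψ 𝔟)))
    (fun I hI => D.mul_mem_prinSet_below h𝔟 h𝔟m h𝔟C a hI)
    (fun J hJ => D.exists_mul_eq_of_mem_prinSet_below h𝔟 h𝔟m h𝔟C a hJ) s,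
    ← tsum_prinSet κ _ hs, ← mul_assoc κ.w⁻¹, inv_mul_cancel₀ κ.w_pos.ne', one_mul]

include κ in
theorem summable_clsDvdAt (h𝔟 : 𝔟 ≠ ⊥) (h𝔟m : IsCoprime 𝔟 D.m) (h𝔟C : cl 𝔟 = C⁻¹)
    (𝔠 : Ideal (𝓞 K)) (a : A) {s : ℝ} (hs : 1 < s) :
    Summable fun I : D.clsDvdAt 𝔠 a C => (Ideal.absNorm (I : Ideal (𝓞 K)) : ℝ) ^ (-s) :=
  summable_of_mul_ideal 𝔟 h𝔟 (D.clsDvdAt 𝔠 a C) (prinSet (D.below (𝔠 * 𝔟) (a * D.ψ 𝔟)))
    (fun I hI => D.mul_mem_prinSet_below h𝔟 h𝔟m h𝔟C a hI) s (summable_prinSet κ _ hs)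

end PerClass

include κ in
/-- Each class part is summable. -/
theorem summable_clsDvdAt' (𝔠 : Ideal (𝓞 K)) (a : A) (C : ClassGroup (𝓞 K)) {s : ℝ}
    (hs : 1 < s) :
    Summable fun I : D.clsDvdAt 𝔠 a C => (Ideal.absNorm (I : Ideal (𝓞 K)) : ℝ) ^ (-s) := by
  obtain ⟨𝔟, h𝔟, h𝔟m, h𝔟C⟩ := exists_coprime_rep D.m D.m_ne_bot C⁻¹
  exact D.summable_clsDvdAt κ h𝔟 h𝔟m h𝔟C 𝔠 a hs

include κ in
/-- **Partition into ideal classes.** -/
theorem zetaDvd_eq_sum (𝔠 : Ideal (𝓞 K)) (a : A) {s : ℝ} (hs : 1 < s) :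
    D.zetaDvd 𝔠 a s = ∑ C : ClassGroup (𝓞 K), D.zetaDvdAt 𝔠 a C s := by
  classical
  unfold zetaDvd zetaDvdAt
  set f : Ideal (𝓞 K) → ℝ := fun I => (Ideal.absNorm I : ℝ) ^ (-s) with hf
  have h1 : ∀ C : ClassGroup (𝓞 K), Summable ((D.clsDvdAt 𝔠 a C).indicator f) := fun C =>
    summable_subtype_iff_indicator.mp (D.summable_clsDvdAt' κ 𝔠 a C hs)
  have h2 : (D.clsDvd 𝔠 a).indicator f =
      fun I => ∑ C : ClassGroup (𝓞 K), (D.clsDvdAt 𝔠 a C).indicator f I := by
    funext I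
    by_cases hI : I ∈ D.clsDvd 𝔠 a
    · rw [Set.indicator_of_mem hI, Finset.sum_eq_single (cl I)]
      · rw [Set.indicator_of_mem]
        exact ⟨hI, rfl⟩
      · intro C _ hC
        rw [Set.indicator_of_notMem]
        rintro ⟨-, h⟩
        exact hC h.symm
      · intro h
        exact absurd (Finset.mem_univ _) h
    · rw [Set.indicator_of_notMem hI]
      symm
      apply Finset.sum_eq_zero
      intro C _
      rw [Set.indicator_of_notMem]
      rintro ⟨h, -⟩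
      exact hI h
  rw [tsum_subtype (D.clsDvd 𝔠 a) f, h2, Summable.tsum_finsetSum (fun C _ => h1 C)]
  refine Finset.sum_congr rfl fun C _ => ?_
  rw [tsum_subtype (D.clsDvdAt 𝔠 a C) f]

include κ in
theorem summable_clsDvd (𝔠 : Ideal (𝓞 K)) (a : A) {s : ℝ} (hs : 1 < s) :
    Summable fun I : D.clsDvd 𝔠 a => (Ideal.absNorm (I : Ideal (𝓞 K)) : ℝ) ^ (-s) := by
  classical
  set f : Ideal (𝓞 K) → ℝ := fun I => (Ideal.absNorm I : ℝ) ^ (-s) with hf
  have h1 : ∀ C : ClassGroup (𝓞 K), Summable ((D.clsDvdAt 𝔠 a C).indicator f) := fun C =>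
    summable_subtype_iff_indicator.mp (D.summable_clsDvdAt' κ 𝔠 a C hs)
  have h2 : (D.clsDvd 𝔠 a).indicator f =
      fun I => ∑ C : ClassGroup (𝓞 K), (D.clsDvdAt 𝔠 a C).indicator f I := by
    funext I
    by_cases hI : I ∈ D.clsDvd 𝔠 a
    · rw [Set.indicator_of_mem hI, Finset.sum_eq_single (cl I)]
      · rw [Set.indicator_of_mem]
        exact ⟨hI, rfl⟩
      · intro C _ hC
        rw [Set.indicator_of_notMem]
        rintro ⟨-, h⟩
        exact hC h.symm
      · intro h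
        exact absurd (Finset.mem_univ _) h
    · rw [Set.indicator_of_notMem hI]
      symm
      apply Finset.sum_eq_zero
      intro C _
      rw [Set.indicator_of_notMem]
      rintro ⟨h, -⟩
      exact hI h
  have h3 : Summable ((D.clsDvd 𝔠 a).indicator f) := by
    rw [h2]
    exact summable_sum fun C _ => h1 C
  exact summable_subtype_iff_indicator.mpr h3

end RayDatum

end Fermat.Agent.S55.H963

end
-- ===== PACK-END S55/H963/RayZeta.lean

-- ===== PACK-BEGIN S55/G/Rec/Loc/H483/NormInt.lean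
section



/-!
# S55 / G / REC / LOC : norm versus integrality in `ℚ̄_q`   (helper483)

`normIntegral : NormIntegralSpec` — `‖x‖ ≤ 1 ↔ x` integral over `ℤ_q`, for `x : PadicAlgCl q`
(the norm of `PadicAlgCl q` is the spectral norm, so this is `spectralValue_le_one_iff` for the
minimal polynomial), and consequences for intermediate fields.
-/

set_option autoImplicit false

noncomputable section

namespace Fermat.Agent.S55.G.Rec.Loc.H483

open Fermat.Agent.S55.G.Rec Fermat.Agent.S55.G.Rec.Loc Fermat.Agent.S55.Local Polynomial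

section

variable (q : ℕ) [Fact q.Prime]

lemma toL_padic_eq :
    toL ℤ_[q] ℚ_[q] (PadicAlgCl q) = algebraMap ℤ_[q] (PadicAlgCl q) := by
  ext a
  exact (IsScalarTower.algebraMap_apply ℤ_[q] ℚ_[q] (PadicAlgCl q) a).symm

lemma isInt_padic_iff (x : PadicAlgCl q) :
    IsInt ℤ_[q] ℚ_[q] (PadicAlgCl q) x ↔ IsIntegral ℤ_[q] x := by
  unfold IsInt IsIntegral
  rw [toL_padic_eq]

theorem norm_le_one_iff_isIntegral (x : PadicAlgCl q) : ‖x‖ ≤ 1 ↔ IsIntegral ℤ_[q] x := by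
  have hint : IsIntegral ℚ_[q] x := Algebra.IsIntegral.isIntegral x
  rw [← PadicAlgCl.spectralNorm_eq, spectralNorm, spectralValue_le_one_iff (minpoly.monic hint)]
  constructor
  · intro h
    have hl : minpoly ℚ_[q] x ∈ Polynomial.lifts (algebraMap ℤ_[q] ℚ_[q]) := by
      rw [Polynomial.lifts_iff_coeff_lifts]
      intro n
      exact ⟨⟨(minpoly ℚ_[q] x).coeff n, h n⟩, rfl⟩
    obtain ⟨p, hp, -, hmonic⟩ :=
      Polynomial.lifts_and_degree_eq_and_monic hl (minpoly.monic hint)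
    refine ⟨p, hmonic, ?_⟩
    have h1 : Polynomial.eval₂ (algebraMap ℤ_[q] (PadicAlgCl q)) x p =
        Polynomial.eval₂ (algebraMap ℚ_[q] (PadicAlgCl q)) x
          (p.map (algebraMap ℤ_[q] ℚ_[q])) := by
      rw [Polynomial.eval₂_map, IsScalarTower.algebraMap_eq ℤ_[q] ℚ_[q] (PadicAlgCl q)]
    rw [h1, hp]
    exact minpoly.aeval ℚ_[q] x
  · intro hx n
    rw [minpoly.isIntegrallyClosed_eq_field_fractions' ℚ_[q] hx, Polynomial.coeff_map]
    exact PadicInt.norm_le_one _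

/-- **LOC-INERT1** -/
theorem normIntegral : NormIntegralSpec := by
  intro q _ x
  rw [isInt_padic_iff]
  exact norm_le_one_iff_isIntegral q x

end

end Fermat.Agent.S55.G.Rec.Loc.H483

end
end
-- ===== PACK-END S55/G/Rec/Loc/H483/NormInt.lean

-- ===== PACK-BEGIN S55/E1/H603/FinLevelH2.lean
section
/-
S55 / engine E1 / block LIM, B-part of LIM5 (helper603): the Prelude `continuousH2S S A` and
`sha₂ S A` as elementwise colimits of the finite-level groups `H²(Gal(F/ℚ), A^{U_F})`.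

* `H2desc` : descend a linear map from 2-cocycles to `H2`;
* `infl₂ A L : H2 (coeff A L) →ₗ[K] continuousH2S S A`, `tr₂ A h : H2 (coeff A L) →ₗ[K] H2 (coeff A L')`;
* `infl₂_tr₂` (compat), `exists_infl₂_eq` (surj), `exists_tr₂_eq_zero` (sep)
  = the three fields of `E1.AddSys.IsColim` (helper474, `E1/LimAbs.lean`).

Mathlib + Prelude + `Spec/Tower.lean` + `Bridge/Cochain.lean`.  No sorry.
-/


set_option autoImplicit false

namespace Fermat.Agent.S55.E1.H603

open groupCohomology CategoryTheory ExtCitation Fermat.Agent.S55.Tow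

noncomputable section

/-! ### Descending maps from cocycles to `H²` -/

section Desc

variable {k G : Type} [CommRing k] [Group G] (A : Rep.{0, 0, 0} k G)

theorem H2π_surjective : Function.Surjective (H2π A).hom :=
  (ModuleCat.epi_iff_surjective (H2π A)).1 inferInstance

theorem ker_H2π_le {X : Type} [AddCommGroup X] [Module k X] (φ : cocycles₂ A →ₗ[k] X)
    (h : ∀ c : cocycles₂ A, (c : G × G → A) ∈ coboundaries₂ A → φ c = 0) :
    LinearMap.ker (H2π A).hom ≤ LinearMap.ker φ := fun c hc =>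
  LinearMap.mem_ker.2 (h c ((H2π_eq_zero_iff c).1 (LinearMap.mem_ker.1 hc)))

/-- A linear map on 2-cocycles killing the coboundaries descends to `H²`. -/
def H2desc {X : Type} [AddCommGroup X] [Module k X] (φ : cocycles₂ A →ₗ[k] X)
    (h : ∀ c : cocycles₂ A, (c : G × G → A) ∈ coboundaries₂ A → φ c = 0) : H2 A →ₗ[k] X :=
  ((LinearMap.ker (H2π A).hom).liftQ φ (ker_H2π_le A φ h)) ∘ₗ
    ((H2π A).hom.quotKerEquivOfSurjective (H2π_surjective A)).symm.toLinearMap

theorem H2desc_mk {X : Type} [AddCommGroup X] [Module k X] (φ : cocycles₂ A →ₗ[k] X)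
    (h : ∀ c : cocycles₂ A, (c : G × G → A) ∈ coboundaries₂ A → φ c = 0) (c : cocycles₂ A) :
    H2desc A φ h ((H2π A).hom c) = φ c := by
  have : ((H2π A).hom.quotKerEquivOfSurjective (H2π_surjective A)).symm ((H2π A).hom c)
      = Submodule.Quotient.mk c := by
    rw [LinearEquiv.symm_apply_eq]
    rfl
  simp only [H2desc, LinearMap.comp_apply, LinearEquiv.coe_coe, this, Submodule.liftQ_apply]

end Desc

variable {S : Finset Nat.Primes} {K : Type} [Field K] (A : Rep.{0, 0, 0} K GQ)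

/-! ### Inflation to the Prelude `continuousH2S` -/

/-- inflation of 2-cocycles -/
def inflCoc₂ (L : Level S) : cocycles₂ (coeff A L) →ₗ[K] cocycles₂ A :=
  (mapCocycles₂ (QuotientGroup.mk' L.U) (liftHom A L)).hom

@[simp] theorem inflCoc₂_apply (L : Level S) (c : cocycles₂ (coeff A L)) (g h : GQ) :
    inflCoc₂ A L c (g, h) = ((c (QuotientGroup.mk g, QuotientGroup.mk h) : coeff A L) : A) := rfl

theorem mk_mul_of_mem (L : Level S) (g s : GQ) (hs : s ∈ L.U) :
    (QuotientGroup.mk (g * s) : L.Gal) = QuotientGroup.mk g := by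
  rw [QuotientGroup.eq]
  simpa using (L.U).inv_mem hs

theorem isConstMod₂_inflCoc₂ (L : Level S) (c : cocycles₂ (coeff A L)) :
    Fermat.Agent.S55.Bridge.IsConstMod₂ L.U (inflCoc₂ A L c) := by
  intro g g' s s' hs hs'
  rw [inflCoc₂_apply, inflCoc₂_apply, mk_mul_of_mem L g s hs, mk_mul_of_mem L g' s' hs']

theorem inflCoc₂_mem_levelCocyclesS₂ (L : Level S) (c : cocycles₂ (coeff A L)) :
    (inflCoc₂ A L c : GQ × GQ → A) ∈ levelCocyclesS₂ S A :=
  ⟨(inflCoc₂ A L c).2, ⟨L.F, L.unram, isConstMod₂_inflCoc₂ A L c⟩⟩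

/-- inflation of 2-cocycles, landing in the level-constant cocycles of the Prelude. -/
def inflLC₂ (L : Level S) : cocycles₂ (coeff A L) →ₗ[K] levelCocyclesS₂ S A :=
  ((cocycles₂ A).subtype ∘ₗ inflCoc₂ A L).codRestrict (levelCocyclesS₂ S A)
    (inflCoc₂_mem_levelCocyclesS₂ A L)

@[simp] theorem coe_inflLC₂ (L : Level S) (c : cocycles₂ (coeff A L)) :
    ((inflLC₂ A L c : levelCocyclesS₂ S A) : GQ × GQ → A) = inflCoc₂ A L c := rfl

/-- inflation of 1-cochains -/
def inflCoch₁ (L : Level S) (x : L.Gal → coeff A L) : GQ → A :=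
  fun g => ((x (QuotientGroup.mk g) : coeff A L) : A)

theorem isConstMod₁_inflCoch₁ (L : Level S) (x : L.Gal → coeff A L) :
    Fermat.Agent.S55.Bridge.IsConstMod₁ L.U (inflCoch₁ A L x) := by
  intro g s hs
  unfold inflCoch₁
  rw [mk_mul_of_mem L g s hs]

theorem d₁₂_inflCoch₁ (L : Level S) (x : L.Gal → coeff A L) (g h : GQ) :
    (d₁₂ A).hom (inflCoch₁ A L x) (g, h) =
      (((d₁₂ (coeff A L)).hom x (QuotientGroup.mk g, QuotientGroup.mk h) : coeff A L) : A) := by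
  rw [d₁₂_hom_apply, d₁₂_hom_apply]
  rfl

theorem inflLC₂_eq_zero_of_mem_coboundaries (L : Level S) (c : cocycles₂ (coeff A L))
    (hc : (c : L.Gal × L.Gal → coeff A L) ∈ coboundaries₂ (coeff A L)) :
    continuousH2Sπ S A (inflLC₂ A L c) = 0 := by
  rw [continuousH2Sπ_eq_zero_iff, mem_levelCoboundariesS₂_iff]
  obtain ⟨x, hx⟩ := hc
  refine ⟨inflCoch₁ A L x, ⟨L.F, L.unram, isConstMod₁_inflCoch₁ A L x⟩, ?_⟩
  funext ⟨g, h⟩
  rw [d₁₂_inflCoch₁, coe_inflLC₂, inflCoc₂_apply]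
  have := congrFun hx (QuotientGroup.mk g, QuotientGroup.mk h)
  rw [← this]

/-- inflation `H²(Gal(F/ℚ), A^{U_F}) → continuousH2S S A`. -/
def infl₂ (L : Level S) : H2 (coeff A L) →ₗ[K] continuousH2S S A :=
  H2desc (coeff A L) (continuousH2Sπ S A ∘ₗ inflLC₂ A L)
    (fun c hc => inflLC₂_eq_zero_of_mem_coboundaries A L c hc)

theorem infl₂_mk (L : Level S) (c : cocycles₂ (coeff A L)) :
    infl₂ A L ((H2π (coeff A L)).hom c) = continuousH2Sπ S A (inflLC₂ A L c) :=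
  H2desc_mk (coeff A L) _ _ c

/-! ### Transition maps between levels -/

/-- the inclusion `A^{U_F} ⊆ A^{U_{F'}}` for `F ≤ F'`, as a linear map. -/
def transLin {L L' : Level S} (h : L ≤ L') : (coeff A L) →ₗ[K] (coeff A L') where
  toFun a := ⟨(a : A), fun s => a.2 ⟨s.1, Level.U_anti h s.2⟩⟩
  map_add' _ _ := rfl
  map_smul' _ _ := rfl

@[simp] theorem coe_transLin {L L' : Level S} (h : L ≤ L') (a : coeff A L) :
    ((transLin A h a : coeff A L') : A) = (a : A) := rfl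

/-- the inclusion `A^{U_F} ⊆ A^{U_{F'}}` as a morphism along `Gal(F'/ℚ) → Gal(F/ℚ)`. -/
def transHom {L L' : Level S} (h : L ≤ L') :
    Rep.res (Level.proj h) (coeff A L) ⟶ coeff A L' :=
  Rep.ofHom ⟨transLin A h, fun g => by
    induction g using QuotientGroup.induction_on with | @H g =>
    rfl⟩

/-- inflation `H²(Gal(F/ℚ), A^{U_F}) → H²(Gal(F'/ℚ), A^{U_{F'}})` for `F ≤ F'`. -/
def tr₂ {L L' : Level S} (h : L ≤ L') : H2 (coeff A L) →ₗ[K] H2 (coeff A L') :=
  (groupCohomology.map (Level.proj h) (transHom A h) 2).hom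

/-- inflation of 2-cocycles between levels. -/
def trCoc₂ {L L' : Level S} (h : L ≤ L') : cocycles₂ (coeff A L) →ₗ[K] cocycles₂ (coeff A L') :=
  (mapCocycles₂ (Level.proj h) (transHom A h)).hom

theorem proj_mk {L L' : Level S} (h : L ≤ L') (g : GQ) :
    Level.proj h (QuotientGroup.mk g) = QuotientGroup.mk g := rfl

@[simp] theorem trCoc₂_apply {L L' : Level S} (h : L ≤ L') (c : cocycles₂ (coeff A L))
    (g g' : L'.Gal) :
    trCoc₂ A h c (g, g') = transLin A h (c (Level.proj h g, Level.proj h g')) := rfl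

theorem tr₂_mk {L L' : Level S} (h : L ≤ L') (c : cocycles₂ (coeff A L)) :
    tr₂ A h ((H2π (coeff A L)).hom c) = (H2π (coeff A L')).hom (trCoc₂ A h c) := by
  have hcomp := congrArg (fun φ => φ.hom c)
    (H2π_comp_map (A := coeff A L) (B := coeff A L') (Level.proj h) (transHom A h))
  simp only [ModuleCat.hom_comp, LinearMap.comp_apply] at hcomp
  exact hcomp

theorem inflCoc₂_trCoc₂ {L L' : Level S} (h : L ≤ L') (c : cocycles₂ (coeff A L)) :
    inflCoc₂ A L' (trCoc₂ A h c) = inflCoc₂ A L c := by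
  apply Subtype.ext
  funext ⟨g, g'⟩
  rfl

/-- **compat**: inflation to the Prelude group commutes with the transition maps. -/
theorem infl₂_tr₂ {L L' : Level S} (h : L ≤ L') (x : H2 (coeff A L)) :
    infl₂ A L' (tr₂ A h x) = infl₂ A L x := by
  induction x using H2_induction_on with | @h c =>
  rw [tr₂_mk, infl₂_mk, infl₂_mk]
  congr 1

theorem tr₂_tr₂ {L L' L'' : Level S} (h : L ≤ L') (h' : L' ≤ L'') (x : H2 (coeff A L)) :
    tr₂ A h' (tr₂ A h x) = tr₂ A (h.trans h') x := by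
  induction x using H2_induction_on with | @h c =>
  rw [tr₂_mk, tr₂_mk, tr₂_mk]
  congr 1
  apply Subtype.ext
  funext ⟨g, g'⟩
  induction g using QuotientGroup.induction_on with | @H g =>
  induction g' using QuotientGroup.induction_on with | @H g' =>
  rfl

/-! ### Descent of level-constant cochains -/

/-- the element `a`, viewed in `A^{U_F}` when `U_F` acts trivially. -/
def toCoeff (L : Level S) (hA : ∀ s ∈ L.U, ∀ a : A, A.ρ s a = a) (a : A) : coeff A L :=
  ⟨a, fun s => hA s.1 s.2 a⟩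

@[simp] theorem coe_toCoeff (L : Level S) (hA : ∀ s ∈ L.U, ∀ a : A, A.ρ s a = a) (a : A) :
    ((toCoeff A L hA a : coeff A L) : A) = a := rfl

theorem exists_inflCoch₁_eq (L : Level S) (hA : ∀ s ∈ L.U, ∀ a : A, A.ρ s a = a)
    (c : GQ → A) (hc : Fermat.Agent.S55.Bridge.IsConstMod₁ L.U c) :
    ∃ cbar : L.Gal → coeff A L, inflCoch₁ A L cbar = c := by
  refine ⟨fun g => Quotient.liftOn' g (fun g => toCoeff A L hA (c g)) ?_, ?_⟩
  · intro g g' h
    apply Subtype.ext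
    have := hc g (g⁻¹ * g') (QuotientGroup.leftRel_apply.1 h)
    rw [mul_inv_cancel_left] at this
    exact this.symm
  · funext g
    rfl

theorem exists_inflCoc₂_eq (L : Level S) (hA : ∀ s ∈ L.U, ∀ a : A, A.ρ s a = a)
    (f : cocycles₂ A) (hf : Fermat.Agent.S55.Bridge.IsConstMod₂ L.U f) :
    ∃ cbar : cocycles₂ (coeff A L), inflCoc₂ A L cbar = f := by
  have hwd : ∀ (g h g' h' : GQ), (QuotientGroup.leftRel L.U) g g' →
      (QuotientGroup.leftRel L.U) h h' →
      toCoeff A L hA (f (g, h)) = toCoeff A L hA (f (g', h')) := by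
    intro g h g' h' hg hh
    apply Subtype.ext
    have := hf g h (g⁻¹ * g') (h⁻¹ * h') (QuotientGroup.leftRel_apply.1 hg)
      (QuotientGroup.leftRel_apply.1 hh)
    rw [mul_inv_cancel_left, mul_inv_cancel_left] at this
    exact this.symm
  have h3 := (mem_cocycles₂_iff (f : GQ × GQ → A)).1 f.2
  refine ⟨⟨fun x => Quotient.liftOn₂' x.1 x.2 (fun g h => toCoeff A L hA (f (g, h))) hwd, ?_⟩, ?_⟩
  · rw [mem_cocycles₂_iff]
    intro g h j
    induction g using QuotientGroup.induction_on with | @H g =>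
    induction h using QuotientGroup.induction_on with | @H h =>
    induction j using QuotientGroup.induction_on with | @H j =>
    apply Subtype.ext
    exact h3 g h j
  · apply Subtype.ext
    funext ⟨g, h⟩
    rfl

/-! ### The colimit properties -/

/-- **surj**: every class of `continuousH2S S A` is inflated from a level above a given one
on which `A` is trivial. -/
theorem exists_infl₂_eq (L₀ : Level S) (hA : ∀ s ∈ L₀.U, ∀ a : A, A.ρ s a = a)
    (y : continuousH2S S A) :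
    ∃ L : Level S, L₀ ≤ L ∧ ∃ x : H2 (coeff A L), infl₂ A L x = y := by
  obtain ⟨F, hF, hgal, hle, f, hf, rfl⟩ :=
    Fermat.Agent.S55.Bridge.exists_rep_continuousH2S S A y L₀.F L₀.unram
  have hle' : L₀ ≤ levelOfGalois F hF hgal := hle
  have hAL : ∀ s ∈ (levelOfGalois F hF hgal).U, ∀ a : A, A.ρ s a = a :=
    fun s hs => hA s (Level.U_anti hle' hs)
  obtain ⟨cbar, hcbar⟩ := exists_inflCoc₂_eq A (levelOfGalois F hF hgal) hAL
    ⟨(f : GQ × GQ → A), f.2.1⟩ hf
  refine ⟨levelOfGalois F hF hgal, hle', (H2π _).hom cbar, ?_⟩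
  rw [infl₂_mk]
  congr 1
  apply Subtype.ext
  have := congrArg (fun z : cocycles₂ A => (z : GQ × GQ → A)) hcbar
  exact this

/-- **sep**: a class at level `F` dying in `continuousH2S S A` dies at a higher level. -/
theorem exists_tr₂_eq_zero (L : Level S) (hA : ∀ s ∈ L.U, ∀ a : A, A.ρ s a = a)
    (x : H2 (coeff A L)) (hx : infl₂ A L x = 0) :
    ∃ L' : Level S, ∃ h : L ≤ L', tr₂ A h x = 0 := by
  induction x using H2_induction_on with | @h c =>
  rw [infl₂_mk] at hx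
  obtain ⟨F, hF, hgal, hle, y, hy, hd⟩ :=
    (Fermat.Agent.S55.Bridge.continuousH2Sπ_eq_zero_iff_galois S A _ L.F L.unram).1 hx
  have hle' : L ≤ levelOfGalois F hF hgal := hle
  have hAL : ∀ s ∈ (levelOfGalois F hF hgal).U, ∀ a : A, A.ρ s a = a :=
    fun s hs => hA s (Level.U_anti hle' hs)
  obtain ⟨ybar, hybar⟩ := exists_inflCoch₁_eq A (levelOfGalois F hF hgal) hAL y hy
  refine ⟨levelOfGalois F hF hgal, hle', ?_⟩
  rw [tr₂_mk, H2π_eq_zero_iff]
  refine ⟨ybar, ?_⟩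
  funext ⟨g, g'⟩
  induction g using QuotientGroup.induction_on with | @H g =>
  induction g' using QuotientGroup.induction_on with | @H g' =>
  apply Subtype.ext
  have h1 := d₁₂_inflCoch₁ A (levelOfGalois F hF hgal) ybar g g'
  rw [hybar, hd] at h1
  rw [← h1]
  rfl

end

end Fermat.Agent.S55.E1.H603

end
-- ===== PACK-END S55/E1/H603/FinLevelH2.lean

-- ===== PACK-BEGIN S55/G/Exist121/Desc.lean
section



/-!
# S55, layer G, block EXIST: leaf EX-DESC (descent to the base field)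

Author: helper121.  `descentTop : DescentTopSpec`, unconditional, from helper773's descent library
(`Fermat.Agent.S55.G.DescH773`: `cBase`, `cBase_injective`, `mem_range_cBase_iff`,
`eAt_eq_one_of_inertia`).
-/

set_option autoImplicit false

open scoped NumberField
open IsDedekindDomain

noncomputable section

namespace Fermat.Agent.S55.G.Exist121

open Fermat.Agent.S55.G Fermat.Agent.S55.G.DescH773

/-- `IsUnramOut` gives ramification index one at the primes outside `S`. -/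
lemma eAt_eq_one_of_isUnramOut (S : Finset Nat.Primes) (G K L : Type) [Group G] [Finite G]
    [Field K] [NumberField K] [Field L] [NumberField L] [Algebra K L] [MulSemiringAction G L]
    [IsGaloisGroup G K L] (hur : IsUnramOut S G L) (w : PrimeOut S L) : eAt K w.1 = 1 := by
  have : FaithfulSMul G L := IsGaloisGroup.faithful K
  refine eAt_eq_one_of_inertia G K w.1 fun g hg => ?_
  have h1 : ∀ x : L, g • x = x := hur w.1 w.2 g hg
  exact eq_of_smul_eq_smul (α := L) fun x => by rw [h1 x, one_smul]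

/-- **EX-DESC.** -/
theorem descentTop : DescentTopSpec := by
  intro S G K L _ _ _ _ _ _ _ _ _ hS hur
  have he : ∀ w : PrimeOut S L, eAt K w.1 = 1 := eAt_eq_one_of_isUnramOut S G K L hur
  refine ⟨cBase S K L, cBase_injective S G K L hS, fun c => ?_, fun y => ?_⟩
  · have := mem_range_cBase_iff S G K L hS he c
    constructor
    · intro h
      obtain ⟨c', hc'⟩ := this.2 h
      exact ⟨c', hc'⟩
    · rintro ⟨c', rfl⟩ g
      exact cRepr_cBase S G K L g c'
  · change cBase S K L (Submodule.Quotient.mk (y, 0)) = Submodule.Quotient.mk (jMap S K L y, 0)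
    rw [cBase_mk]
    congr 1
    exact Prod.ext rfl (map_zero (divBase S K L))

end Fermat.Agent.S55.G.Exist121

end
end
-- ===== PACK-END S55/G/Exist121/Desc.lean

-- ===== PACK-BEGIN S55/G/Exist/H361/KummerField.lean
section
/-
S55 / layer G / block EXIST, leaf EX-KUM (helper361), part 3: `kummerFieldSpec : KummerFieldSpec`.

For a number field `K ∋ μ_p`, `p ∈ S`, and `pX ≤ B ≤ Δ_S(K)` of finite index over `pX`, the field
`M = K(ᵖ√B)` (inside `AlgebraicClosure K`) with `Γ = Gal(M/K)` has all the properties required by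
`KummerFieldSpec` (exact type of `G/Exist/Spec.lean`, owner helper233):

* `Γ` is commutative of exponent `p`, of order `[B : pX]`, with fixed field `K`
  (Kummer theory: `Fermat/Agent/S55/H361/Kummer.lean`);
* `M / K` is unramified outside `S` (`Unram.lean`);
* if `B ≤ Ш_S(K)`, every `S`-idèle of `K` is a norm from `M` (`SplitNorm.lean`).
-/





set_option autoImplicit false
set_option linter.unusedSectionVars false
set_option linter.style.haveILetI false

open scoped NumberField TensorProduct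
open IsDedekindDomain

noncomputable section

namespace Fermat.Agent.S55.G.Exist.H361

open Fermat.Agent.S55.G Fermat.Agent.S55.H361

section General

variable {K M : Type} [Field K] [NumberField K] [Field M] [NumberField M] [Algebra K M]
  (p : ℕ) [hp : Fact p.Prime] (S : Finset Nat.Primes)

/-- A Kummer extension generated by `p`-th roots of elements of `Δ_S(K)` is unramified outside
`S` (`p ∈ S`). -/
theorem isUnramOut_of_kummer [HasEnoughRootsOfUnity K p]
    (hpS : (⟨p, hp.out⟩ : Nat.Primes) ∈ S) {A : Subgroup Kˣ}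
    (hgen : IntermediateField.adjoin K (rootSetOf M p A) = ⊤)
    (hΔ : ∀ a ∈ A, ∀ v : PrimeOut S K, (p : ℤ) ∣ ordAt v.1 (Additive.ofMul a)) :
    IsUnramOut S (M ≃ₐ[K] M) M := by
  haveI : NeZero p := ⟨hp.out.ne_zero⟩
  intro w hw g hg x
  have h1 : g = 1 := by
    refine eq_one_of_forall_rootSetOf (n := p) hgen ?_
    rintro β ⟨a, ha, hβ⟩
    refine fixes_root_of_inertia p S hpS w hw g (fun x y hxy => ?_) a (hΔ a ha) β hβ
    have hy : y = g • x := by
      apply NumberField.RingOfIntegers.coe_injective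
      exact hxy
    rw [hy]
    exact hg x
  rw [h1]
  exact one_smul _ x

/-- `g ⊗ 1` fixes the image of `K ⊗ ℚ_S`. -/
lemma asAut_asMap (g : M ≃ₐ[K] M) (y : AS S K) :
    asAut S (M ≃ₐ[K] M) M g (asMap S K M y) = asMap S K M y := by
  induction y using TensorProduct.induction_on with
  | zero => simp
  | tmul x q =>
    have h : asMap S K M (x ⊗ₜ[ℚ] q) = (algebraMap K M x) ⊗ₜ[ℚ] q := by
      simp [asMap]
    rw [h, asAut_tmul]
    congr 1
    exact g.commutes x
  | add a b ha hb => simp only [map_add, ha, hb]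

lemma asMap_asDiag (x : K) : asMap S K M (asDiag S K x) = asDiag S M (algebraMap K M x) := by
  simp [asMap, asDiag_apply]

/-- **Split norms.**  If `M / K` is a finite abelian extension of exponent `p` (`μ_p ⊂ K`) such
that every element of its Kummer group is a `p`-th power in `K ⊗ ℚ_S`, then every `S`-idèle of `K`
is a norm from `M`. -/
theorem exists_norm_of_split {ζ : K} (hζ : IsPrimitiveRoot ζ p) [FiniteDimensional K M]
    [IsGalois K M] [HasEnoughRootsOfUnity K p]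
    (hcomm : ∀ σ τ : M ≃ₐ[K] M, σ * τ = τ * σ) (hexp : ∀ σ : M ≃ₐ[K] M, σ ^ p = 1)
    (hSha : ∀ a : kummerSubgroup K M p, ∃ u : (AS S K)ˣ,
      ((u ^ p : (AS S K)ˣ) : AS S K) = asDiag S K ((a : Kˣ) : K))
    (j : (AS S K)ˣ) :
    ∃ j' : (AS S M)ˣ,
      ∏ g : M ≃ₐ[K] M,
        Units.map (((asRingAut (M ≃ₐ[K] M) S M g : AS S M ≃+* AS S M)) : AS S M →* AS S M) j' =
      Units.map ((asMap S K M : AS S K →ₐ[ℚ] AS S M) : AS S K →* AS S M) j := by
  classical
  haveI : NeZero p := ⟨hp.out.ne_zero⟩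
  -- the data
  have h1 : ∀ i : M ≃ₐ[K] M, ∃ a : kummerSubgroup K M p, i ≠ 1 → kummerRoot K M p i a ≠ 1 := by
    intro i
    by_cases h : i = 1
    · exact ⟨1, fun h' => absurd h h'⟩
    · obtain ⟨a, ha⟩ := exists_kummerRoot_ne_one hcomm hexp h
      exact ⟨a, fun _ => ha⟩
  choose a ha using h1
  have h2 : ∀ i : M ≃ₐ[K] M, ∃ β : M, β ^ p = algebraMap K M (((a i : Kˣ)) : K) :=
    fun i => exists_root_of_mem (a i)
  choose β hβ using h2
  choose u hu using fun i : M ≃ₐ[K] M => hSha (a i)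
  let ι : K →+* AS S M := ((asDiag S M : M →ₐ[ℚ] AS S M) : M →+* AS S M).comp (algebraMap K M)
  let t : (M ≃ₐ[K] M) → AS S M := fun i =>
    asDiag S M (β i) * asMap S K M (((u i)⁻¹ : (AS S K)ˣ) : AS S K)
  have hpK : (p : K) ≠ 0 := by
    have : (p : K) = ((p : ℕ) : K) := rfl
    exact_mod_cast hp.out.ne_zero
  have hfix : ∀ (g : M ≃ₐ[K] M) (x : K), asRingAut (M ≃ₐ[K] M) S M g (ι x) = ι x := by
    intro g x
    change asAut S (M ≃ₐ[K] M) M g (asDiag S M (algebraMap K M x)) = asDiag S M (algebraMap K M x)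
    rw [asAut_asDiag]
    congr 1
    exact g.commutes x
  have ht : ∀ i, t i ^ p = 1 := by
    intro i
    change (asDiag S M (β i) * asMap S K M (((u i)⁻¹ : (AS S K)ˣ) : AS S K)) ^ p = 1
    rw [mul_pow, ← map_pow, hβ, ← asMap_asDiag, ← map_pow, ← map_mul, ← hu i, ← Units.val_pow_eq_pow_val,
      ← Units.val_mul, inv_pow, mul_inv_cancel, Units.val_one, map_one]
  have hact : ∀ i g, asRingAut (M ≃ₐ[K] M) S M g (t i) =
      ι (((kummerDual K M p (a i) g : rootsOfUnity p K) : Kˣ) : K) * t i := by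
    intro i g
    change asAut S (M ≃ₐ[K] M) M g
        (asDiag S M (β i) * asMap S K M (((u i)⁻¹ : (AS S K)ˣ) : AS S K)) =
      asDiag S M (algebraMap K M _) *
        (asDiag S M (β i) * asMap S K M (((u i)⁻¹ : (AS S K)ˣ) : AS S K))
    rw [map_mul, asAut_asMap, asAut_asDiag, ← mul_assoc, ← map_mul]
    congr 2
    rw [kummerDual_apply]
    exact kummerRoot_spec g (a i) (hβ i)
  have hsep : ∀ g : M ≃ₐ[K] M, g ≠ 1 → ∃ i, kummerDual K M p (a i) g ≠ 1 := by
    intro g hg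
    exact ⟨g, by rw [kummerDual_apply]; exact ha g hg⟩
  have hj : ∀ g : M ≃ₐ[K] M, asRingAut (M ≃ₐ[K] M) S M g
      ((Units.map ((asMap S K M : AS S K →ₐ[ℚ] AS S M) : AS S K →* AS S M) j : (AS S M)ˣ) :
        AS S M) =
      ((Units.map ((asMap S K M : AS S K →ₐ[ℚ] AS S M) : AS S K →* AS S M) j : (AS S M)ˣ) :
        AS S M) := by
    intro g
    exact asAut_asMap S g _
  exact exists_units_prod_eq hp.out ι hpK hζ (asRingAut (M ≃ₐ[K] M) S M) hfix t ht
    (fun i => kummerDual K M p (a i)) hact hsep _ hj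

end General

section Translate

variable (p : ℕ) (K : Type) [Field K]

lemma toAddSubgroup_powSubgroup :
    Subgroup.toAddSubgroup (powSubgroup K p) = pMul p (Additive Kˣ) := by
  ext x
  constructor
  · rintro ⟨b, hb⟩
    refine ⟨Additive.ofMul b, ?_⟩
    exact congrArg Additive.ofMul hb
  · rintro ⟨y, hy⟩
    refine ⟨y.toMul, ?_⟩
    exact congrArg Additive.toMul hy

end Translate

/-- **EX-KUM.** -/
theorem kummerFieldSpec : KummerFieldSpec := by
  intro p hp hp2 S K _ _ hpS hζ B hpB hBΔ hfin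
  classical
  obtain ⟨ζ, hζ'⟩ := hζ
  haveI : NeZero p := ⟨hp.out.ne_zero⟩
  haveI : HasEnoughRootsOfUnity K p := ⟨⟨ζ, hζ'⟩, inferInstance⟩
  -- the multiplicative subgroup
  let A : Subgroup Kˣ := Subgroup.toAddSubgroup.symm B
  have hAB : Subgroup.toAddSubgroup A = B := OrderIso.apply_symm_apply _ B
  have hmemA : ∀ a : Kˣ, a ∈ A ↔ Additive.ofMul a ∈ B := fun a => Iff.rfl
  have hPA : powSubgroup K p ≤ A := by
    rw [← Subgroup.toAddSubgroup.le_iff_le, hAB, toAddSubgroup_powSubgroup]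
    exact hpB
  have hfinA : (powSubgroup K p).relIndex A ≠ 0 := by
    rw [← Subgroup.relIndex_toAddSubgroup, hAB, toAddSubgroup_powSubgroup]
    exact hfin
  have hrel : (powSubgroup K p).relIndex A = (pMul p (Additive Kˣ)).relIndex B := by
    rw [← Subgroup.relIndex_toAddSubgroup, hAB, toAddSubgroup_powSubgroup]
  have hA : A ≤ kummerSubgroup K (AlgebraicClosure K) p := by
    intro a _
    obtain ⟨z, hz⟩ := IsAlgClosed.exists_pow_nat_eq
      (algebraMap K (AlgebraicClosure K) (a : K)) hp.out.pos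
    exact mem_kummerSubgroup_iff'.2 ⟨z, hz⟩
  have hΔ : ∀ a ∈ A, ∀ v : PrimeOut S K, (p : ℤ) ∣ ordAt v.1 (Additive.ofMul a) := by
    intro a ha v
    obtain ⟨d, hd⟩ := (mem_kDelta_iff p (Additive.ofMul a)).1 (hBΔ ((hmemA a).1 ha))
    refine ⟨d v, ?_⟩
    have := congrArg (fun f : PrimeOut S K →₀ ℤ => f v) hd
    simp only [Finsupp.smul_apply, nsmul_eq_mul] at this
    rw [this]
    rfl
  -- the field
  let M : IntermediateField K (AlgebraicClosure K) := kummerField (AlgebraicClosure K) p A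
  haveI hfd : FiniteDimensional K M := finiteDimensional_kummerField hA hfinA
  haveI hnf : NumberField M := NumberField.of_module_finite K M
  have hgen : IntermediateField.adjoin K (rootSetOf M p A) = ⊤ :=
    adjoin_rootSetOf_kummerField_eq_top
  have hcomm : ∀ σ τ : M ≃ₐ[K] M, σ * τ = τ * σ := mul_comm_aut_kummerField hA
  have hexp : ∀ σ : M ≃ₐ[K] M, σ ^ p = 1 := pow_eq_one_aut_kummerField hA
  have hKA : kummerSubgroup K M p = A := kummerSubgroup_kummerField hPA hA hfinA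
  refine ⟨M, inferInstance, hnf, inferInstance, M ≃ₐ[K] M, inferInstance, inferInstance,
    inferInstance, inferInstance, ?_, hcomm, hexp, ?_, ?_, ?_, ?_⟩
  · -- fixed field
    intro x
    rw [RingHom.mem_range]
    constructor
    · intro h
      exact (IsGalois.mem_range_algebraMap_iff_fixed x).2 h
    · intro h g
      exact (IsGalois.mem_range_algebraMap_iff_fixed x).1 h g
  · -- cardinality
    rw [← Nat.card_eq_fintype_card, IsGalois.card_aut_eq_finrank K M,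
      finrank_kummerField hPA hA hfinA, hrel]
  · -- unramified
    exact isUnramOut_of_kummer p S hpS hgen hΔ
  · -- roots
    intro x hx
    have hxA : x.toMul ∈ A := hx
    obtain ⟨β, hβ⟩ := mem_kummerSubgroup_iff'.1 (hKA ▸ hxA : x.toMul ∈ kummerSubgroup K M p)
    exact ⟨β, hβ⟩
  · -- split norms
    intro hSha j
    have hS : ∀ a : kummerSubgroup K M p, ∃ u : (AS S K)ˣ,
        ((u ^ p : (AS S K)ˣ) : AS S K) = asDiag S K ((a : Kˣ) : K) := by
      intro a
      have haA : (a : Kˣ) ∈ A := hKA ▸ a.2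
      obtain ⟨-, u, hu⟩ := (mem_kSha_iff p (Additive.ofMul (a : Kˣ))).1
        (hSha ((hmemA _).1 haA))
      refine ⟨u.toMul, ?_⟩
      have h1 : (u.toMul ^ p : (AS S K)ˣ) = (unitsDiag S K (Additive.ofMul (a : Kˣ))).toMul :=
        congrArg Additive.toMul hu
      rw [h1]
      rfl
    obtain ⟨j', hj'⟩ := exists_norm_of_split p S hζ' hcomm hexp hS j.toMul
    refine ⟨Additive.ofMul j', ?_⟩
    have h2 : ∀ g : M ≃ₐ[K] M, jRepr (M ≃ₐ[K] M) S M g (Additive.ofMul j') =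
        Additive.ofMul (Units.map
          (((asRingAut (M ≃ₐ[K] M) S M g : AS S M ≃+* AS S M)) : AS S M →* AS S M) j') :=
      fun g => rfl
    simp_rw [h2]
    rw [← ofMul_prod, hj']
    rfl

end Fermat.Agent.S55.G.Exist.H361

end

end
-- ===== PACK-END S55/G/Exist/H361/KummerField.lean

-- ===== PACK-BEGIN S55/G/SIndH237/ApproxH959.lean
section
/-
S55 (Poitou–Tate), layer G, leaf G-SIND, sub-leaf SIND-APPROX (helper959).

`theorem approx : Fermat.Agent.S55.G.SIndH237.ApproxSpec` — weak approximation in the integral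
model: `J_T(L) = Lˣ · U_T(L)`.

Proof (Mathlib only).  `n := ∏_{q ∈ T} q`.
* Part A (`ℚ_T`): `|n|_q = 1/q`; `1 + n c` is a unit of `ℤ_T`; bounded denominators
  (`n ^ k c ∈ ℤ_T`); simultaneous approximation of `c ∈ ℚ_T` by a rational modulo `n ^ N ℤ_T`
  (`PadicInt.appr` + Chinese remainder theorem).
* Part B: `RS = 𝒪_L ⊗ ℤ_T` is integral over `ℤ_T`, hence every maximal ideal of `RS` contains
  `n` and `1 + n z` is a unit of `RS` for all `z ∈ RS` (`isUnit_one_add_nT_mul`).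
* Part C: bounded denominators in `L ⊗ ℚ_T` (`exists_pow_mul_mem_RS`) and density of `L ⊗ 1`
  modulo `n ^ N RS` (`exists_approx`).
* Part D: for a unit `j` choose `k` with `n ^ k j⁻¹ ∈ RS` and `y ∈ L` with
  `j - y ⊗ 1 ∈ n ^ (k + 1) RS`; then `j⁻¹ (y ⊗ 1) ∈ 1 + n RS ⊆ RSˣ`.
-/


set_option autoImplicit false
set_option linter.unusedSectionVars false
set_option linter.style.haveILetI false

open scoped NumberField TensorProduct
open IsDedekindDomain

noncomputable section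

namespace Fermat.Agent.S55.G.SIndH237.H959

open Fermat.Agent.S55.G Fermat.Agent.S55.G.SIndH237

/-! ## Part A : the semi-local ring `ℚ_T` and its integers `ℤ_T` -/

section PartA

variable (T : Finset Nat.Primes)

/-- `n = ∏_{q ∈ T} q`. -/
def nT : ℕ := ∏ q ∈ T, (q : ℕ)

lemma nT_pos : 0 < nT T := Finset.prod_pos fun q _ => q.2.pos

lemma nT_ne_zero : nT T ≠ 0 := (nT_pos T).ne'

/-- Two elements of `ℚ_T` with the same components are equal. -/
lemma QS_ext {c d : QS T} (h : ∀ q : T, QS.toPi T c q = QS.toPi T d q) : c = d :=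
  (QS.toPi T).injective (funext h)

@[simp] lemma toPi_natCast (m : ℕ) (q : T) : QS.toPi T (m : QS T) q = (m : Qq q.1) := by
  rw [map_natCast]; rfl

@[simp] lemma toPi_mul (c d : QS T) (q : T) :
    QS.toPi T (c * d) q = QS.toPi T c q * QS.toPi T d q := rfl

@[simp] lemma toPi_add (c d : QS T) (q : T) :
    QS.toPi T (c + d) q = QS.toPi T c q + QS.toPi T d q := rfl

@[simp] lemma toPi_sub (c d : QS T) (q : T) :
    QS.toPi T (c - d) q = QS.toPi T c q - QS.toPi T d q := rfl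

@[simp] lemma toPi_pow (c : QS T) (k : ℕ) (q : T) :
    QS.toPi T (c ^ k) q = QS.toPi T c q ^ k := rfl

@[simp] lemma toPi_one (q : T) : QS.toPi T (1 : QS T) q = 1 := rfl

@[simp] lemma toPi_algebraMap (r : ℚ) (q : T) :
    QS.toPi T (algebraMap ℚ (QS T) r) q = (r : Qq q.1) := by
  have := (QS.proj T q).commutes r
  rw [QS.proj_apply] at this
  rw [this]
  exact (eq_ratCast (algebraMap ℚ (Qq q.1)) r)

@[simp] lemma toPi_symm_apply (f : ∀ q : T, Qq q.1) (q : T) :
    QS.toPi T ((QS.toPi T).symm f) q = f q := rfl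

/-- `|n|_q = 1/q` for `q ∈ T`. -/
lemma norm_nT (q : T) : ‖((nT T : ℕ) : Qq q.1)‖ = ((q.1 : ℕ) : ℝ)⁻¹ := by
  haveI : Fact (Nat.Prime (q.1 : ℕ)) := ⟨q.1.2⟩
  classical
  have h1 : nT T = (q.1 : ℕ) * ∏ q' ∈ T.erase q.1, (q' : ℕ) := by
    rw [nT, Finset.mul_prod_erase T (fun q' : Nat.Primes => (q' : ℕ)) q.2]
  have h2 : Nat.Coprime (q.1 : ℕ) (∏ q' ∈ T.erase q.1, (q' : ℕ)) := by
    refine Nat.Coprime.prod_right fun q' hq' => ?_
    rw [Nat.coprime_primes q.1.2 q'.2]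
    intro h
    exact (Finset.ne_of_mem_erase hq') (Subtype.ext h).symm
  rw [h1, Nat.cast_mul, norm_mul, Padic.norm_p, Padic.norm_natCast_eq_one_iff.2 h2, mul_one]

lemma norm_nT_lt_one (q : T) : ‖((nT T : ℕ) : Qq q.1)‖ < 1 := by
  rw [norm_nT]
  exact inv_lt_one_of_one_lt₀ (by exact_mod_cast q.1.2.one_lt)

lemma norm_nT_pos (q : T) : 0 < ‖((nT T : ℕ) : Qq q.1)‖ := by
  rw [norm_nT]
  exact inv_pos.2 (by exact_mod_cast q.1.2.pos)

lemma nT_cast_ne_zero (q : T) : ((nT T : ℕ) : Qq q.1) ≠ 0 :=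
  norm_pos_iff.1 (norm_nT_pos T q)

/-- An element all of whose components have norm `≤ |n|^N` is `n ^ N` times an element of
`ℤ_T`. -/
lemma exists_eq_pow_mul_of_norm_le (N : ℕ) (d : QS T)
    (hd : ∀ q : T, ‖QS.toPi T d q‖ ≤ ‖((nT T : ℕ) : Qq q.1)‖ ^ N) :
    ∃ d' ∈ ZS T, d = (nT T : QS T) ^ N * d' := by
  refine ⟨(QS.toPi T).symm (fun q => QS.toPi T d q / ((nT T : ℕ) : Qq q.1) ^ N), ?_, ?_⟩
  · intro q
    rw [toPi_symm_apply, norm_div, norm_pow]
    exact div_le_one_of_le₀ (hd q) (pow_nonneg (norm_nonneg _) _)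
  · refine QS_ext T fun q => ?_
    rw [toPi_mul, toPi_pow, toPi_natCast, toPi_symm_apply,
      mul_div_cancel₀ _ (pow_ne_zero _ (nT_cast_ne_zero T q))]

/-- `1 + n c` is a unit of `ℤ_T` for `c ∈ ℤ_T`. -/
lemma isUnit_nT_mul_add_one (c : ZS T) : IsUnit ((nT T : ZS T) * c + 1) := by
  have hnorm : ∀ q : T, ‖QS.toPi T (((nT T : ZS T) * c + 1 : ZS T) : QS T) q‖ = 1 := by
    intro q
    haveI : Fact (Nat.Prime (q.1 : ℕ)) := ⟨q.1.2⟩
    have h1 : QS.toPi T (((nT T : ZS T) * c + 1 : ZS T) : QS T) q =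
        ((nT T : ℕ) : Qq q.1) * QS.toPi T (c : QS T) q + 1 := by
      rw [Subring.coe_add, Subring.coe_mul, Subring.coe_one, Subring.coe_natCast, toPi_add,
        toPi_mul, toPi_natCast, toPi_one]
    rw [h1]
    have h2 : ‖((nT T : ℕ) : Qq q.1) * QS.toPi T (c : QS T) q‖ < 1 := by
      rw [norm_mul]
      calc ‖((nT T : ℕ) : Qq q.1)‖ * ‖QS.toPi T (c : QS T) q‖
          ≤ ‖((nT T : ℕ) : Qq q.1)‖ * 1 :=
            mul_le_mul_of_nonneg_left (c.2 q) (norm_nonneg _)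
        _ < 1 := by rw [mul_one]; exact norm_nT_lt_one T q
    have h3 : ‖((nT T : ℕ) : Qq q.1) * QS.toPi T (c : QS T) q‖ ≠ ‖(1 : Qq q.1)‖ := by
      rw [norm_one]; exact h2.ne
    rw [Padic.add_eq_max_of_ne h3, norm_one, max_eq_right h2.le]
  have hne : ∀ q : T, QS.toPi T (((nT T : ZS T) * c + 1 : ZS T) : QS T) q ≠ 0 := by
    intro q
    rw [← norm_pos_iff, hnorm q]
    exact one_pos
  refine IsUnit.of_mul_eq_one
    (⟨(QS.toPi T).symm (fun q => (QS.toPi T (((nT T : ZS T) * c + 1 : ZS T) : QS T) q)⁻¹),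
      ?_⟩ : ZS T) ?_
  · intro q
    rw [toPi_symm_apply, norm_inv, hnorm q, inv_one]
  · apply Subtype.ext
    rw [Subring.coe_mul, Subring.coe_one]
    refine QS_ext T fun q => ?_
    rw [toPi_mul, toPi_symm_apply, toPi_one, mul_inv_cancel₀ (hne q)]

/-- Bounded denominators: `n ^ k c ∈ ℤ_T` for `k` large. -/
lemma exists_pow_mul_mem_ZS (c : QS T) : ∃ k : ℕ, (nT T : QS T) ^ k * c ∈ ZS T := by
  have h1 : ∀ q : T, ∃ k : ℕ, ‖((nT T : ℕ) : Qq q.1)‖ ^ k * ‖QS.toPi T c q‖ ≤ 1 := by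
    intro q
    have hpos : (0 : ℝ) < 1 / (‖QS.toPi T c q‖ + 1) :=
      div_pos one_pos (by positivity)
    obtain ⟨k, hk⟩ := exists_pow_lt_of_lt_one hpos (norm_nT_lt_one T q)
    refine ⟨k, ?_⟩
    have h2 : ‖((nT T : ℕ) : Qq q.1)‖ ^ k * (‖QS.toPi T c q‖ + 1) ≤ 1 := by
      have := mul_le_mul_of_nonneg_right hk.le
        (by positivity : (0 : ℝ) ≤ ‖QS.toPi T c q‖ + 1)
      rwa [one_div, inv_mul_cancel₀ (by positivity)] at this
    refine le_trans (mul_le_mul_of_nonneg_left (by linarith) (by positivity)) h2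
  choose k hk using h1
  refine ⟨Finset.univ.sup k, fun q => ?_⟩
  rw [toPi_mul, toPi_pow, toPi_natCast, norm_mul, norm_pow]
  refine le_trans (mul_le_mul_of_nonneg_right ?_ (norm_nonneg _)) (hk q)
  exact pow_le_pow_of_le_one (norm_nonneg _) (norm_nT_lt_one T q).le
    (Finset.le_sup (Finset.mem_univ q))

/-- Simultaneous approximation of an element of `ℤ_T` by a natural number. -/
lemma exists_nat_approx (c : QS T) (hc : c ∈ ZS T) (N : ℕ) :
    ∃ r : ℕ, ∀ q : T, ‖QS.toPi T c q - (r : Qq q.1)‖ ≤ ‖((nT T : ℕ) : Qq q.1)‖ ^ N := by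
  classical
  -- local approximations
  let a : T → ℕ := fun q =>
    haveI : Fact (Nat.Prime (q.1 : ℕ)) := ⟨q.1.2⟩
    PadicInt.appr (⟨QS.toPi T c q, hc q⟩ : ℤ_[(q.1 : ℕ)]) N
  let s : T → ℕ := fun q => (q.1 : ℕ) ^ N
  have hs : ∀ q ∈ (Finset.univ : Finset T), s q ≠ 0 := fun q _ =>
    pow_ne_zero _ q.1.2.ne_zero
  have pp : Set.Pairwise (↑(Finset.univ : Finset T)) (Function.onFun Nat.Coprime s) := by
    intro q _ q' _ hne
    show Nat.Coprime ((q.1 : ℕ) ^ N) ((q'.1 : ℕ) ^ N)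
    apply Nat.Coprime.pow
    rw [Nat.coprime_primes q.1.2 q'.1.2]
    intro h
    exact hne (Subtype.ext (Subtype.ext h))
  obtain ⟨r, hr⟩ := Nat.chineseRemainderOfFinset a s Finset.univ hs pp
  refine ⟨r, fun q => ?_⟩
  haveI : Fact (Nat.Prime (q.1 : ℕ)) := ⟨q.1.2⟩
  have hpow : ‖((nT T : ℕ) : Qq q.1)‖ ^ N = ((q.1 : ℕ) : ℝ) ^ (-(N : ℤ)) := by
    rw [norm_nT, zpow_neg, zpow_natCast, inv_pow]
  rw [hpow]
  have h1 : ‖QS.toPi T c q - ((a q : ℕ) : Qq q.1)‖ ≤ ((q.1 : ℕ) : ℝ) ^ (-(N : ℤ)) := by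
    have := PadicInt.appr_spec N (⟨QS.toPi T c q, hc q⟩ : ℤ_[(q.1 : ℕ)])
    rw [← PadicInt.norm_le_pow_iff_mem_span_pow] at this
    exact this
  have h2 : ‖(((a q : ℕ) : Qq q.1) - (r : Qq q.1))‖ ≤ ((q.1 : ℕ) : ℝ) ^ (-(N : ℤ)) := by
    have hmod : r ≡ a q [MOD s q] := hr q (Finset.mem_univ q)
    have hdvd : (((q.1 : ℕ) ^ N : ℕ) : ℤ) ∣ (a q : ℤ) - (r : ℤ) := Nat.modEq_iff_dvd.1 hmod
    have h3 := (Padic.norm_int_le_pow_iff_dvd (p := (q.1 : ℕ)) ((a q : ℤ) - (r : ℤ)) N).2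
      (by exact_mod_cast hdvd)
    have h4 : (((a q : ℤ) - (r : ℤ) : ℤ) : ℚ_[(q.1 : ℕ)]) =
        ((a q : ℕ) : Qq q.1) - (r : Qq q.1) := by push_cast; rfl
    rwa [h4] at h3
  have h5 : QS.toPi T c q - (r : Qq q.1) =
      (QS.toPi T c q - ((a q : ℕ) : Qq q.1)) + (((a q : ℕ) : Qq q.1) - (r : Qq q.1)) := by ring
  rw [h5]
  exact (Padic.nonarchimedean _ _).trans (max_le h1 h2)

/-- Simultaneous approximation of an element of `ℚ_T` by a rational number, modulo
`n ^ N ℤ_T`. -/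
lemma exists_rat_approx (c : QS T) (N : ℕ) :
    ∃ r : ℚ, ∃ d ∈ ZS T, c = algebraMap ℚ (QS T) r + (nT T : QS T) ^ N * d := by
  obtain ⟨k, hk⟩ := exists_pow_mul_mem_ZS T c
  obtain ⟨r, hr⟩ := exists_nat_approx T _ hk (N + k)
  obtain ⟨d, hd, hd'⟩ := exists_eq_pow_mul_of_norm_le T (N + k)
    ((nT T : QS T) ^ k * c - (r : QS T)) (fun q => by
      rw [toPi_sub, toPi_natCast]
      exact hr q)
  refine ⟨(r : ℚ) / ((nT T : ℚ) ^ k), d, hd, QS_ext T fun q => ?_⟩
  have h1 := congrArg (fun x => QS.toPi T x q) hd'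
  simp only [toPi_sub, toPi_mul, toPi_pow, toPi_natCast] at h1
  rw [toPi_add, toPi_algebraMap, toPi_mul, toPi_pow, toPi_natCast]
  have hn0 : ((nT T : ℕ) : Qq q.1) ≠ 0 := nT_cast_ne_zero T q
  have hcast : (((r : ℚ) / ((nT T : ℚ) ^ k) : ℚ) : Qq q.1) =
      (r : Qq q.1) / ((nT T : ℕ) : Qq q.1) ^ k := by
    push_cast; rfl
  rw [hcast]
  field_simp
  rw [pow_add] at h1
  linear_combination h1

end PartA

/-! ## Part B : the integral model `RS` is integral over `ℤ_T`; `n` lies in its radical -/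

section PartB

lemma isIntegralElem_of_isIntegral_int {A B : Type} [CommRing A] [CommRing B] (f : A →+* B)
    {z : B} (hz : IsIntegral ℤ z) : f.IsIntegralElem z := by
  obtain ⟨P, hP, hPz⟩ := hz
  refine ⟨P.map (Int.castRingHom A), hP.map _, ?_⟩
  rw [Polynomial.eval₂_map]
  have : f.comp (Int.castRingHom A) = algebraMap ℤ B := RingHom.ext_int _ _
  rw [this]
  exact hPz

variable (T : Finset Nat.Primes) (L : Type) [Field L] [NumberField L]

lemma tmul_one_mem_RS (a : 𝓞 L) : ((a : L) ⊗ₜ[ℚ] (1 : QS T) : AS T L) ∈ RS T L :=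
  Subring.subset_closure (Or.inl ⟨a, rfl⟩)

lemma one_tmul_mem_RS {c : QS T} (hc : c ∈ ZS T) : ((1 : L) ⊗ₜ[ℚ] c : AS T L) ∈ RS T L :=
  Subring.subset_closure (Or.inr ⟨c, hc, rfl⟩)

lemma tmul_mem_RS (a : 𝓞 L) {c : QS T} (hc : c ∈ ZS T) :
    ((a : L) ⊗ₜ[ℚ] c : AS T L) ∈ RS T L := by
  have := (RS T L).mul_mem (tmul_one_mem_RS T L a) (one_tmul_mem_RS T L hc)
  rwa [Algebra.TensorProduct.tmul_mul_tmul, mul_one, one_mul] at this

/-- `ℤ_T → RS`, `c ↦ 1 ⊗ c`. -/
def zsToRs : ZS T →+* RS T L :=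
  ((asIncl T L : QS T →ₐ[ℚ] AS T L) : QS T →+* AS T L).restrict (ZS T) (RS T L)
    (fun _ hc => one_tmul_mem_RS T L hc)

lemma coe_zsToRs (c : ZS T) : ((zsToRs T L c : RS T L) : AS T L) = (1 : L) ⊗ₜ[ℚ] (c : QS T) :=
  rfl

lemma zsToRs_isIntegral : (zsToRs T L).IsIntegral := by
  rintro ⟨z, hz⟩
  induction hz using Subring.closure_induction with
  | mem x hx =>
    rcases hx with ⟨a, rfl⟩ | ⟨c, hc, rfl⟩
    · apply isIntegralElem_of_isIntegral_int
      have h1 : IsIntegral ℤ ((a : L) ⊗ₜ[ℚ] (1 : QS T) : AS T L) :=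
        map_isIntegral_int ((asDiag T L : L →ₐ[ℚ] AS T L) : L →+* AS T L)
          (NumberField.RingOfIntegers.isIntegral_coe a)
      exact (isIntegral_algHom_iff ((RS T L).subtype.toIntAlgHom)
        Subtype.val_injective).1 h1
    · exact (zsToRs T L).isIntegralElem_map (x := ⟨c, hc⟩)
  | zero => exact RingHom.isIntegralElem_zero _
  | one => exact RingHom.isIntegralElem_one _
  | add x y hx hy ihx ihy => exact RingHom.IsIntegralElem.add _ ihx ihy
  | neg x hx ihx => exact RingHom.IsIntegralElem.neg _ ihx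
  | mul x y hx hy ihx ihy => exact RingHom.IsIntegralElem.mul _ ihx ihy

/-- `1 + n z` is a unit of `RS` for every `z ∈ RS`. -/
lemma isUnit_one_add_nT_mul (z : RS T L) : IsUnit (1 + (nT T : RS T L) * z) := by
  by_contra hnu
  obtain ⟨M, hM, hmem⟩ := exists_max_ideal_of_mem_nonunits (mem_nonunits_iff.2 hnu)
  haveI := hM
  have hM' := Ideal.isMaximal_comap_of_isIntegral_of_isMaximal' (zsToRs T L)
    (zsToRs_isIntegral T L) M
  have hn : (nT T : ZS T) ∈ M.comap (zsToRs T L) := by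
    have hj : (nT T : ZS T) ∈ Ideal.jacobson (⊥ : Ideal (ZS T)) :=
      Ideal.mem_jacobson_bot.2 (fun y => isUnit_nT_mul_add_one T y)
    exact (Ideal.mem_sInf.1 hj) ⟨bot_le, hM'⟩
  rw [Ideal.mem_comap, map_natCast] at hn
  have h1 : (1 : RS T L) ∈ M := by
    have := M.sub_mem hmem (M.mul_mem_right z hn)
    simpa using this
  exact hM.ne_top ((Ideal.eq_top_iff_one M).2 h1)

end PartB

/-! ## Part C : `L ⊗ 1` is dense in `L ⊗ ℚ_T` for the `n`-adic topology of the integral model -/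

section PartC

variable (T : Finset Nat.Primes) (L : Type) [Field L] [NumberField L]

/-- Every pure tensor is `a ⊗ c'` with `a` an algebraic integer. -/
lemma exists_tmul_eq (x : L) (c : QS T) :
    ∃ (a : 𝓞 L) (c' : QS T), (x ⊗ₜ[ℚ] c : AS T L) = (a : L) ⊗ₜ[ℚ] c' := by
  obtain ⟨m, hm, hint⟩ := ((IsFractionRing.isAlgebraic_iff ℤ ℚ L).2
    (Algebra.IsAlgebraic.isAlgebraic (R := ℚ) x)).exists_integral_multiple
  refine ⟨⟨m • x, hint⟩, (m : ℚ)⁻¹ • c, ?_⟩
  have h1 : (m • x : L) = (m : ℚ) • x := by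
    rw [Int.cast_smul_eq_zsmul]
  show (x ⊗ₜ[ℚ] c : AS T L) = (m • x) ⊗ₜ[ℚ] ((m : ℚ)⁻¹ • c)
  rw [h1, TensorProduct.smul_tmul, smul_smul, mul_inv_cancel₀ (Int.cast_ne_zero.2 hm), one_smul]

lemma natCast_pow_eq (k : ℕ) :
    ((nT T : ℕ) : AS T L) ^ k = (1 : L) ⊗ₜ[ℚ] ((nT T : QS T) ^ k) := by
  rw [← Algebra.TensorProduct.includeRight_apply, map_pow, map_natCast]

lemma natCast_pow_mul_tmul (k : ℕ) (x : L) (c : QS T) :
    ((nT T : ℕ) : AS T L) ^ k * (x ⊗ₜ[ℚ] c) = x ⊗ₜ[ℚ] ((nT T : QS T) ^ k * c) := by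
  rw [natCast_pow_eq, Algebra.TensorProduct.tmul_mul_tmul, one_mul]

lemma natCast_pow_mem_RS (k : ℕ) : ((nT T : ℕ) : AS T L) ^ k ∈ RS T L :=
  pow_mem (natCast_mem _ _) _

/-- Bounded denominators in `L ⊗ ℚ_T`. -/
lemma exists_pow_mul_mem_RS (z : AS T L) :
    ∃ k : ℕ, ((nT T : ℕ) : AS T L) ^ k * z ∈ RS T L := by
  induction z using TensorProduct.induction_on with
  | zero => exact ⟨0, by rw [mul_zero]; exact (RS T L).zero_mem⟩
  | tmul x c =>
    obtain ⟨a, c', h⟩ := exists_tmul_eq T L x c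
    obtain ⟨k, hk⟩ := exists_pow_mul_mem_ZS T c'
    refine ⟨k, ?_⟩
    rw [h, natCast_pow_mul_tmul]
    exact tmul_mem_RS T L a hk
  | add z₁ z₂ h₁ h₂ =>
    obtain ⟨k₁, hk₁⟩ := h₁
    obtain ⟨k₂, hk₂⟩ := h₂
    refine ⟨k₁ + k₂, ?_⟩
    have : ((nT T : ℕ) : AS T L) ^ (k₁ + k₂) * (z₁ + z₂) =
        ((nT T : ℕ) : AS T L) ^ k₂ * (((nT T : ℕ) : AS T L) ^ k₁ * z₁) +
        ((nT T : ℕ) : AS T L) ^ k₁ * (((nT T : ℕ) : AS T L) ^ k₂ * z₂) := by ring
    rw [this]
    exact (RS T L).add_mem ((RS T L).mul_mem (natCast_pow_mem_RS T L k₂) hk₁)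
      ((RS T L).mul_mem (natCast_pow_mem_RS T L k₁) hk₂)

/-- Density of `L ⊗ 1`. -/
lemma exists_approx (z : AS T L) (N : ℕ) :
    ∃ y : L, ∃ z₀ ∈ RS T L,
      z = y ⊗ₜ[ℚ] (1 : QS T) + ((nT T : ℕ) : AS T L) ^ N * z₀ := by
  induction z using TensorProduct.induction_on with
  | zero => exact ⟨0, 0, (RS T L).zero_mem, by rw [TensorProduct.zero_tmul, mul_zero, add_zero]⟩
  | tmul x c =>
    obtain ⟨a, c', h⟩ := exists_tmul_eq T L x c
    obtain ⟨r, d, hd, hc'⟩ := exists_rat_approx T c' N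
    refine ⟨r • (a : L), (a : L) ⊗ₜ[ℚ] d, tmul_mem_RS T L a hd, ?_⟩
    rw [h, natCast_pow_mul_tmul]
    conv_lhs => rw [hc']
    rw [TensorProduct.tmul_add]
    congr 1
    rw [Algebra.algebraMap_eq_smul_one, TensorProduct.tmul_smul, TensorProduct.smul_tmul']
  | add z₁ z₂ h₁ h₂ =>
    obtain ⟨y₁, w₁, hw₁, e₁⟩ := h₁
    obtain ⟨y₂, w₂, hw₂, e₂⟩ := h₂
    refine ⟨y₁ + y₂, w₁ + w₂, (RS T L).add_mem hw₁ hw₂, ?_⟩
    conv_lhs => rw [e₁, e₂]
    rw [TensorProduct.add_tmul]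
    ring

end PartC

/-! ## Part D : weak approximation -/

section PartD

/-- **SIND-APPROX** : `J_T(L) = Lˣ · U_T(L)`. -/
theorem approx : ApproxSpec := by
  intro T L _ _ j
  rcases subsingleton_or_nontrivial (AS T L) with hsub | hnt
  · refine ⟨0, j, ⟨?_, ?_⟩, by rw [map_zero, zero_add]⟩
    · rw [Subsingleton.elim ((j.toMul : (AS T L)ˣ) : AS T L) 0]
      exact (RS T L).zero_mem
    · rw [Subsingleton.elim (((j.toMul)⁻¹ : (AS T L)ˣ) : AS T L) 0]
      exact (RS T L).zero_mem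
  · obtain ⟨k, hk⟩ := exists_pow_mul_mem_RS T L (((j.toMul)⁻¹ : (AS T L)ˣ) : AS T L)
    obtain ⟨y, z₀, hz₀, hy⟩ := exists_approx T L ((j.toMul : (AS T L)ˣ) : AS T L) (k + 1)
    obtain ⟨w, hw⟩ := isUnit_one_add_nT_mul T L
      (⟨-(((nT T : ℕ) : AS T L) ^ k * (((j.toMul)⁻¹ : (AS T L)ˣ) : AS T L) * z₀),
        (RS T L).neg_mem ((RS T L).mul_mem hk hz₀)⟩ : RS T L)
    have hwval : ((w : RS T L) : AS T L) =
        1 + ((nT T : ℕ) : AS T L) *
          -(((nT T : ℕ) : AS T L) ^ k * (((j.toMul)⁻¹ : (AS T L)ˣ) : AS T L) * z₀) := by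
      rw [hw]
      rfl
    have hJ : ((j.toMul : (AS T L)ˣ) : AS T L) * (((j.toMul)⁻¹ : (AS T L)ˣ) : AS T L) = 1 := by
      rw [← Units.val_mul, mul_inv_cancel, Units.val_one]
    have hyw : (y ⊗ₜ[ℚ] (1 : QS T) : AS T L) =
        ((j.toMul : (AS T L)ˣ) : AS T L) * ((w : RS T L) : AS T L) := by
      rw [hwval]
      have e : (y ⊗ₜ[ℚ] (1 : QS T) : AS T L) = ((j.toMul : (AS T L)ˣ) : AS T L) -
          ((nT T : ℕ) : AS T L) ^ (k + 1) * z₀ := by
        rw [eq_sub_iff_add_eq]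
        exact hy.symm
      rw [e]
      linear_combination (((nT T : ℕ) : AS T L) ^ (k + 1) * z₀) * hJ
    have hwinv : ((w : RS T L) : AS T L) * (((w⁻¹ : (RS T L)ˣ) : RS T L) : AS T L) = 1 := by
      rw [← Subring.coe_mul, ← Units.val_mul, mul_inv_cancel, Units.val_one, Subring.coe_one]
    have hy0 : y ≠ 0 := by
      rintro rfl
      rw [TensorProduct.zero_tmul] at hyw
      have h1 : (1 : AS T L) = 0 := by
        calc (1 : AS T L) = (((j.toMul)⁻¹ : (AS T L)ˣ) : AS T L) *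
              (((j.toMul : (AS T L)ˣ) : AS T L) * ((w : RS T L) : AS T L)) *
              (((w⁻¹ : (RS T L)ˣ) : RS T L) : AS T L) := by
              rw [← mul_assoc, mul_comm (((j.toMul)⁻¹ : (AS T L)ˣ) : AS T L), hJ, one_mul, hwinv]
          _ = 0 := by rw [← hyw, mul_zero, zero_mul]
      exact one_ne_zero h1
    refine ⟨Additive.ofMul (Units.mk0 y hy0),
      Additive.ofMul (Units.map (RS T L).subtype.toMonoidHom w⁻¹), ⟨?_, ?_⟩, ?_⟩
    · exact ((w⁻¹ : (RS T L)ˣ) : RS T L).2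
    · have : ((Units.map (RS T L).subtype.toMonoidHom w⁻¹)⁻¹ : (AS T L)ˣ) =
          Units.map (RS T L).subtype.toMonoidHom w := by
        rw [← map_inv, inv_inv]
      show (((Units.map (RS T L).subtype.toMonoidHom w⁻¹)⁻¹ : (AS T L)ˣ) : AS T L) ∈ RS T L
      rw [this]
      exact (w : RS T L).2
    · apply Additive.toMul.injective
      apply Units.ext
      show ((j.toMul : (AS T L)ˣ) : AS T L) =
        (y ⊗ₜ[ℚ] (1 : QS T) : AS T L) * (((w⁻¹ : (RS T L)ˣ) : RS T L) : AS T L)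
      rw [hyw, mul_assoc, hwinv, mul_one]

end PartD

end Fermat.Agent.S55.G.SIndH237.H959

end
end
-- ===== PACK-END S55/G/SIndH237/ApproxH959.lean

-- ===== PACK-BEGIN S55/G/SIndH237/IntH63.lean
section


/-!
# S55 / G / G-SIND : leaf SIND-INT (`IntSpec`) — helper63

For `x ∈ Lˣ`: `x ⊗ 1 ∈ U_T(L)` iff `ord_w x = 0` for all primes `w` of `L` above `T`.

Key statement (`tmul_one_mem_RS_iff63`): for `y ∈ L`,
`y ⊗ 1 ∈ RS T L  ↔  ∀ w above T, w.valuation L y ≤ 1`.
-/

set_option autoImplicit false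
set_option linter.unusedSectionVars false

open scoped NumberField TensorProduct
open IsDedekindDomain

noncomputable section

namespace Fermat.Agent.S55.G.SIndH237.H63

open Fermat.Agent.S55.G Fermat.Agent.S55.G.SIndH237

variable (T : Finset Nat.Primes) (L : Type) [Field L] [NumberField L]

local notation "ι63" => Module.Free.ChooseBasisIndex ℤ (𝓞 L)

/-! ## Coordinates on `L ⊗ ℚ_T` with respect to an integral basis -/

/-- The `ℚ_T`-basis `1 ⊗ b_k` of `ℚ_T ⊗ L`. -/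
def tbasis63 : Module.Basis ι63 (QS T) (QS T ⊗[ℚ] L) :=
  Algebra.TensorProduct.basis (QS T) (NumberField.integralBasis L)

/-- The `k`-th coordinate of an element of `L ⊗ ℚ_T` (a `ℚ`-linear map to `ℚ_T`). -/
def coord63 (k : ι63) : AS T L →ₗ[ℚ] QS T :=
  ((Finsupp.lapply k : (ι63 →₀ QS T) →ₗ[QS T] QS T).restrictScalars ℚ) ∘ₗ
    ((tbasis63 T L).repr.toLinearMap.restrictScalars ℚ) ∘ₗ
      (Algebra.TensorProduct.comm ℚ L (QS T)).toLinearMap

lemma coord63_tmul (k : ι63) (x : L) (c : QS T) :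
    coord63 T L k (x ⊗ₜ[ℚ] c) =
      c * algebraMap ℚ (QS T) ((NumberField.integralBasis L).repr x k) := by
  simp [coord63, tbasis63]

lemma sum_coord63 (z : AS T L) :
    z = ∑ k : ι63, (NumberField.integralBasis L k) ⊗ₜ[ℚ] (coord63 T L k z) := by
  have h := (tbasis63 T L).sum_repr ((Algebra.TensorProduct.comm ℚ L (QS T)) z)
  have h2 := congrArg (Algebra.TensorProduct.comm ℚ L (QS T)).symm h
  rw [AlgEquiv.symm_apply_apply] at h2
  have h3 : ∀ k : ι63,
      (tbasis63 T L).repr ((Algebra.TensorProduct.comm ℚ L (QS T)) z) k • (tbasis63 T L) k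
      = (coord63 T L k z) ⊗ₜ[ℚ] (NumberField.integralBasis L k) := by
    intro k
    rw [tbasis63, Algebra.TensorProduct.basis_repr_symm_apply']
    rfl
  calc z = (Algebra.TensorProduct.comm ℚ L (QS T)).symm
        (∑ i, ((tbasis63 T L).repr ((Algebra.TensorProduct.comm ℚ L (QS T)) z)) i •
          (tbasis63 T L) i) := h2.symm
    _ = ∑ k : ι63, (Algebra.TensorProduct.comm ℚ L (QS T)).symm
          ((coord63 T L k z) ⊗ₜ[ℚ] (NumberField.integralBasis L k)) := by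
        rw [map_sum]
        exact Finset.sum_congr rfl fun k _ => by rw [h3 k]
    _ = ∑ k : ι63, (NumberField.integralBasis L k) ⊗ₜ[ℚ] (coord63 T L k z) := rfl

/-! ## Elements of `RS` have integral coordinates -/

lemma toPi_algebraMap63 (α : ℚ) (q : T) :
    QS.toPi T (algebraMap ℚ (QS T) α) q = ((α : ℚ) : Qq q.1) := by
  have h : QS.toPi T (algebraMap ℚ (QS T) α) q = algebraMap ℚ (Qq q.1) α := rfl
  rw [h, eq_ratCast]

lemma algebraMap_mem_ZS_iff63 (α : ℚ) :
    algebraMap ℚ (QS T) α ∈ ZS T ↔ ∀ q ∈ T, ¬ ((q : ℕ) ∣ α.den) := by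
  rw [mem_ZS_iff]
  constructor
  · intro h q hq
    have : Fact (q : ℕ).Prime := ⟨q.2⟩
    have h1 := h ⟨q, hq⟩
    rw [toPi_algebraMap63] at h1
    have h2 := (Padic.norm_rat_le_one_iff_padicValuation_le_one (q : ℕ)).1 h1
    exact Rat.padicValuation_le_one_iff.1 h2
  · intro h q
    have : Fact (q.1 : ℕ).Prime := ⟨q.1.2⟩
    rw [toPi_algebraMap63]
    exact Padic.norm_rat_le_one (h q.1 q.2)

lemma algebraMap_int_mem_ZS63 (n : ℤ) : algebraMap ℚ (QS T) (n : ℚ) ∈ ZS T := by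
  rw [algebraMap_mem_ZS_iff63]
  intro q _ h
  rw [Rat.den_intCast] at h
  exact q.2.one_lt.ne' (Nat.dvd_one.1 h)

/-- `z` has all its coordinates in `ℤ_T`. -/
def Good63 (z : AS T L) : Prop := ∀ k : ι63, coord63 T L k z ∈ ZS T

lemma good63_tmul (a : 𝓞 L) (c : QS T) (hc : c ∈ ZS T) :
    Good63 T L ((a : L) ⊗ₜ[ℚ] c) := by
  intro k
  rw [coord63_tmul]
  refine (ZS T).mul_mem hc ?_
  have h := NumberField.integralBasis_repr_apply L a k
  rw [show ((a : L)) = algebraMap (𝓞 L) L a from rfl, h]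
  exact algebraMap_int_mem_ZS63 T _

lemma good63_zero : Good63 T L 0 := fun k => by
  rw [map_zero]; exact (ZS T).zero_mem

lemma good63_add {z z' : AS T L} (hz : Good63 T L z) (hz' : Good63 T L z') :
    Good63 T L (z + z') := fun k => by
  rw [map_add]; exact (ZS T).add_mem (hz k) (hz' k)

lemma good63_neg {z : AS T L} (hz : Good63 T L z) : Good63 T L (-z) := fun k => by
  rw [map_neg]; exact (ZS T).neg_mem (hz k)

lemma good63_sum {α : Type} (s : Finset α) (f : α → AS T L)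
    (h : ∀ i ∈ s, Good63 T L (f i)) : Good63 T L (∑ i ∈ s, f i) := by
  classical
  induction s using Finset.induction_on with
  | empty => simpa using good63_zero T L
  | insert a s ha ih =>
    rw [Finset.sum_insert ha]
    exact good63_add T L (h a (Finset.mem_insert_self a s))
      (ih fun i hi => h i (Finset.mem_insert_of_mem hi))

lemma good63_mul {z z' : AS T L} (hz : Good63 T L z) (hz' : Good63 T L z') :
    Good63 T L (z * z') := by
  have e : z * z' = ∑ i : ι63, ∑ j : ι63,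
      ((NumberField.integralBasis L i) ⊗ₜ[ℚ] (coord63 T L i z)) *
        ((NumberField.integralBasis L j) ⊗ₜ[ℚ] (coord63 T L j z')) := by
    conv_lhs => rw [sum_coord63 T L z, sum_coord63 T L z', Finset.sum_mul_sum]
  rw [e]
  refine good63_sum T L _ _ fun i _ => good63_sum T L _ _ fun j _ => ?_
  rw [Algebra.TensorProduct.tmul_mul_tmul, NumberField.integralBasis_apply,
    NumberField.integralBasis_apply, ← map_mul]
  exact good63_tmul T L _ _ ((ZS T).mul_mem (hz i) (hz' j))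

lemma good63_one : Good63 T L 1 := by
  have h := good63_tmul T L 1 1 (ZS T).one_mem
  rwa [show ((1 : 𝓞 L) : L) = 1 from rfl] at h

lemma good63_of_mem_RS {z : AS T L} (hz : z ∈ RS T L) : Good63 T L z := by
  induction hz using Subring.closure_induction with
  | mem x hx =>
    rcases hx with ⟨a, rfl⟩ | ⟨c, hc, rfl⟩
    · exact good63_tmul T L a 1 (ZS T).one_mem
    · have h := good63_tmul T L 1 c hc
      rwa [show ((1 : 𝓞 L) : L) = 1 from rfl] at h
  | zero => exact good63_zero T L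
  | one => exact good63_one T L
  | add x y _ _ hx hy => exact good63_add T L hx hy
  | neg x _ hx => exact good63_neg T L hx
  | mul x y _ _ hx hy => exact good63_mul T L hx hy

/-! ## Denominators -/

/-- The product of the denominators of the coordinates of `y` in the integral basis. -/
def prodDen63 (y : L) : ℕ := ∏ k : ι63, ((NumberField.integralBasis L).repr y k).den

lemma prodDen63_ne_zero (y : L) : prodDen63 L y ≠ 0 :=
  Finset.prod_ne_zero_iff.2 fun _ _ => Rat.den_nz _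

lemma prodDen63_mul_mem (y : L) :
    ((prodDen63 L y : ℕ) : L) * y ∈ (algebraMap (𝓞 L) L).range := by
  classical
  rw [← NumberField.mem_span_integralBasis, Module.Basis.mem_span_iff_repr_mem]
  intro i
  have h1 : ((prodDen63 L y : ℕ) : L) * y = ((prodDen63 L y : ℕ) : ℚ) • y := by
    rw [Algebra.smul_def]
    simp
  rw [h1, map_smul, Finsupp.smul_apply, smul_eq_mul]
  have h2 : prodDen63 L y =
      (∏ k ∈ Finset.univ.erase i, ((NumberField.integralBasis L).repr y k).den) *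
        ((NumberField.integralBasis L).repr y i).den := by
    unfold prodDen63
    rw [Finset.prod_erase_mul _ _ (Finset.mem_univ i)]
  refine ⟨((∏ k ∈ Finset.univ.erase i, ((NumberField.integralBasis L).repr y k).den : ℕ) : ℤ) *
    ((NumberField.integralBasis L).repr y i).num, ?_⟩
  rw [h2]
  have h3 := Rat.mul_den_eq_num ((NumberField.integralBasis L).repr y i)
  push_cast
  rw [mul_assoc, mul_comm ((((NumberField.integralBasis L).repr y i).den : ℕ) : ℚ), h3]
  simp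

lemma not_dvd_prodDen63 (y : L) (hy : y ⊗ₜ[ℚ] (1 : QS T) ∈ RS T L) (q : Nat.Primes)
    (hq : q ∈ T) : ¬ ((q : ℕ) ∣ prodDen63 L y) := by
  intro h
  obtain ⟨k, _, hk⟩ := (Prime.dvd_finsetProd_iff (Nat.Prime.prime q.2) _).1 h
  have h1 := good63_of_mem_RS T L hy k
  rw [coord63_tmul, one_mul, algebraMap_mem_ZS_iff63] at h1
  exact h1 q hq hk

/-! ## Valuations of rational integers -/

lemma natCast_notMem63 (w : HeightOneSpectrum (𝓞 L)) (q : Nat.Primes)
    (hq : ((q : ℕ) : 𝓞 L) ∈ w.asIdeal) (s : ℕ) (hs : ¬ ((q : ℕ) ∣ s)) :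
    ((s : ℕ) : 𝓞 L) ∉ w.asIdeal := by
  intro h
  have hc : Nat.Coprime s q := (Nat.Coprime.symm ((Nat.Prime.coprime_iff_not_dvd q.2).2 hs))
  obtain ⟨a, b, hab⟩ := Nat.isCoprime_iff_coprime.2 hc
  have h1 : ((a : ℤ) : 𝓞 L) * ((s : ℕ) : 𝓞 L) + ((b : ℤ) : 𝓞 L) * ((q : ℕ) : 𝓞 L) = 1 := by
    have := congrArg (fun z : ℤ => (z : 𝓞 L)) hab
    simpa using this
  have h2 : (1 : 𝓞 L) ∈ w.asIdeal := by
    rw [← h1]
    exact w.asIdeal.add_mem (w.asIdeal.mul_mem_left _ h) (w.asIdeal.mul_mem_left _ hq)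
  exact w.isPrime.ne_top ((Ideal.eq_top_iff_one _).2 h2)

lemma valuation_natCast_eq_one63 (w : HeightOneSpectrum (𝓞 L)) (s : ℕ)
    (hs : ((s : ℕ) : 𝓞 L) ∉ w.asIdeal) : w.valuation L ((s : ℕ) : L) = 1 := by
  have h := (HeightOneSpectrum.valuation_eq_one_iff_notMem (K := L) (v := w)
    (r := ((s : ℕ) : 𝓞 L))).2 hs
  rwa [map_natCast] at h

lemma valuation_le_one_of_mem_range63 (w : HeightOneSpectrum (𝓞 L)) {z : L}
    (hz : z ∈ (algebraMap (𝓞 L) L).range) : w.valuation L z ≤ 1 := by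
  obtain ⟨a, rfl⟩ := hz
  exact w.valuation_le_one a

/-! ## The key equivalence -/

lemma valuation_le_one_of_mem_RS63 (y : L) (hy : y ⊗ₜ[ℚ] (1 : QS T) ∈ RS T L)
    (w : HeightOneSpectrum (𝓞 L)) (hw : IsAbove T L w) : w.valuation L y ≤ 1 := by
  obtain ⟨q, hq, hqw⟩ := hw
  have h1 := valuation_le_one_of_mem_range63 L w (prodDen63_mul_mem L y)
  rw [map_mul, valuation_natCast_eq_one63 L w _
    (natCast_notMem63 L w q hqw _ (not_dvd_prodDen63 T L y hy q hq)), one_mul] at h1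
  exact h1

lemma exists_factor63 (m : ℕ) (hm : m ≠ 0) :
    ∃ n' s : ℕ, m = n' * s ∧ (∀ q ∈ T, ¬ ((q : ℕ) ∣ s)) ∧
      ∀ w : HeightOneSpectrum (𝓞 L), ¬ IsAbove T L w → ((n' : ℕ) : 𝓞 L) ∉ w.asIdeal := by
  classical
  induction T using Finset.induction_on with
  | empty =>
    refine ⟨1, m, (one_mul m).symm, fun q hq => absurd hq (Finset.notMem_empty q), fun w _ h => ?_⟩
    rw [Nat.cast_one] at h
    exact w.isPrime.ne_top ((Ideal.eq_top_iff_one _).2 h)
  | insert q T hqT ih =>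
    obtain ⟨n', s, hms, hs, hn'⟩ := ih
    have hs0 : s ≠ 0 := by
      rintro rfl
      exact hm (by rw [hms, mul_zero])
    obtain ⟨e, s', hs', hse⟩ := Nat.exists_eq_pow_mul_and_not_dvd hs0 (q : ℕ) q.2.one_lt.ne'
    refine ⟨n' * (q : ℕ) ^ e, s', ?_, ?_, ?_⟩
    · rw [hms, hse, mul_assoc]
    · intro q' hq'
      rcases Finset.mem_insert.1 hq' with rfl | hq'
      · exact hs'
      · exact fun h => hs q' hq' (hse ▸ Dvd.dvd.mul_left h _)
    · intro w hw h
      have hwT : ¬ IsAbove T L w := fun ⟨q', hq', hq'w⟩ =>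
        hw ⟨q', Finset.mem_insert_of_mem hq', hq'w⟩
      have hqw : ((q : ℕ) : 𝓞 L) ∉ w.asIdeal := fun hq' =>
        hw ⟨q, Finset.mem_insert_self q T, hq'⟩
      rw [Nat.cast_mul, Nat.cast_pow] at h
      rcases w.isPrime.mem_or_mem h with h | h
      · exact hn' w hwT h
      · exact hqw (w.isPrime.mem_of_pow_mem e h)

lemma tmul_one_mem_RS_of63 (y : L)
    (h : ∀ w : HeightOneSpectrum (𝓞 L), IsAbove T L w → w.valuation L y ≤ 1) :
    y ⊗ₜ[ℚ] (1 : QS T) ∈ RS T L := by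
  obtain ⟨n', s, hms, hs, hn'⟩ := exists_factor63 T L (prodDen63 L y) (prodDen63_ne_zero L y)
  have hs0 : s ≠ 0 := by
    rintro rfl
    exact prodDen63_ne_zero L y (by rw [hms, mul_zero])
  have hmy := prodDen63_mul_mem L y
  -- `z = s y` is integral
  have hz : ((s : ℕ) : L) * y ∈ (algebraMap (𝓞 L) L).range := by
    apply HeightOneSpectrum.mem_integers_of_valuation_le_one
    intro w
    by_cases hw : IsAbove T L w
    · rw [map_mul]
      refine mul_le_one' ?_ (h w hw)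
      exact valuation_le_one_of_mem_range63 L w
        ⟨((s : ℕ) : 𝓞 L), map_natCast (algebraMap (𝓞 L) L) s⟩
    · have h1 := valuation_le_one_of_mem_range63 L w hmy
      rw [hms, Nat.cast_mul, mul_assoc, map_mul,
        valuation_natCast_eq_one63 L w _ (hn' w hw), one_mul] at h1
      exact h1
  obtain ⟨a, ha⟩ := hz
  have hc : algebraMap ℚ (QS T) ((s : ℚ)⁻¹) ∈ ZS T := by
    rw [algebraMap_mem_ZS_iff63]
    intro q hq
    rw [Rat.inv_natCast_den, if_neg hs0]
    exact hs q hq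
  have e : y ⊗ₜ[ℚ] (1 : QS T) =
      ((a : L) ⊗ₜ[ℚ] (1 : QS T)) * ((1 : L) ⊗ₜ[ℚ] (algebraMap ℚ (QS T) ((s : ℚ)⁻¹))) := by
    rw [Algebra.TensorProduct.tmul_mul_tmul, mul_one, one_mul, Algebra.algebraMap_eq_smul_one,
      TensorProduct.tmul_smul, TensorProduct.smul_tmul']
    congr 1
    rw [show ((a : L)) = algebraMap (𝓞 L) L a from rfl, ha, Algebra.smul_def]
    have hsL : ((s : ℕ) : L) ≠ 0 := Nat.cast_ne_zero.2 hs0
    simp only [map_inv₀, map_natCast]
    field_simp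
  rw [e]
  exact (RS T L).mul_mem (Subring.subset_closure (Or.inl ⟨a, rfl⟩))
    (Subring.subset_closure (Or.inr ⟨_, hc, rfl⟩))

theorem tmul_one_mem_RS_iff63 (y : L) :
    y ⊗ₜ[ℚ] (1 : QS T) ∈ RS T L ↔
      ∀ w : HeightOneSpectrum (𝓞 L), IsAbove T L w → w.valuation L y ≤ 1 :=
  ⟨fun hy w hw => valuation_le_one_of_mem_RS63 T L y hy w hw, tmul_one_mem_RS_of63 T L y⟩

/-! ## The leaf -/

theorem int63 : IntSpec := by
  intro T L _ _ x
  rw [mem_UT_iff]
  have e1 : (((unitsDiag T L x).toMul : (AS T L)ˣ) : AS T L) =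
      ((x.toMul : Lˣ) : L) ⊗ₜ[ℚ] (1 : QS T) := rfl
  have e2 : ((((unitsDiag T L x).toMul)⁻¹ : (AS T L)ˣ) : AS T L) =
      (((x.toMul)⁻¹ : Lˣ) : L) ⊗ₜ[ℚ] (1 : QS T) := by
    have : ((unitsDiag T L x).toMul)⁻¹ = (unitsDiag T L (-x)).toMul := by
      rw [map_neg]; rfl
    rw [this]
    rfl
  rw [e1, e2, tmul_one_mem_RS_iff63, tmul_one_mem_RS_iff63]
  constructor
  · rintro ⟨h1, h2⟩ w hw
    rw [ordAt_eq_zero_iff]
    refine le_antisymm (h1 w hw) ?_
    have h3 := h2 w hw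
    rw [Units.val_inv_eq_inv_val, map_inv₀] at h3
    have hne : w.valuation L ((x.toMul : Lˣ) : L) ≠ 0 := by simp
    exact (inv_le_one₀ (zero_lt_iff.2 hne)).1 h3
  · intro h
    refine ⟨fun w hw => ?_, fun w hw => ?_⟩
    · exact ((ordAt_eq_zero_iff w x).1 (h w hw)).le
    · rw [Units.val_inv_eq_inv_val, map_inv₀, (ordAt_eq_zero_iff w x).1 (h w hw), inv_one]

end Fermat.Agent.S55.G.SIndH237.H63

end
end
-- ===== PACK-END S55/G/SIndH237/IntH63.lean

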