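import Mathlib
import Fermat.Prelude.Def_GaloisRep_CompletionBridge
import Fermat.Agent.Pack.S56.E10L0
import Fermat.Agent.Pack.S56.E5L1
import Fermat.Agent.Pack.S56.E10L3
import Fermat.Agent.Pack.S56.E3L2
import Fermat.Agent.Pack.S56.E7L3
import Fermat.Agent.Pack.S56.E8L2
import Fermat.Agent.Pack.S56.E8L1
import Fermat.Agent.Pack.S56.E0L0
import Fermat.Agent.Pack.S56.E10L1
import Fermat.Agent.Pack.S56.E4L0
import Fermat.Agent.Pack.S56.E6L2
import Fermat.Agent.Pack.S56.E11L1
import Fermat.Agent.Pack.S56.E11L3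
import Fermat.Agent.Pack.S56.E11L0
import Fermat.Agent.Pack.S56.E8L0

-- ===== PACK-BEGIN S55/Local/H535/A4c.lean
section



/-!
# S55 layer L, piece A4c (`CycCocycleSurjStatement`) — helper535

Every `2`-cocycle of a finite cyclic group is cohomologous to a standard cyclic cocycle.
-/

set_option autoImplicit false

namespace Fermat.Agent.S55.Local.H535

open Fermat.Agent.S55.Local groupCohomology Finset

section

variable {G M : Type} [Group G] [CommGroup M] [MulDistribMulAction G M]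

/-- The quotient of a cocycle by a coboundary is a cocycle. -/
lemma isMulCocycle₂_div_d1' {c : G × G → M} (hc : IsMulCocycle₂ c) (b : G → M) :
    IsMulCocycle₂ (fun p => c p / (p.1 • b p.2 / b (p.1 * p.2) * b p.1)) := by
  have h1 : d2 c = 1 := (d2_eq_one_iff c).2 hc
  have h2 : d2 (d1' b) = 1 := d2_d1' b
  have h3 : d2 (c / d1' b) = 1 := by rw [map_div, h1, h2, div_one]
  exact (d2_eq_one_iff _).1 h3

end

/-- **A4c.** Every `2`-cocycle of a finite cyclic group is cohomologous to a standard one. -/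
theorem cycCocycleSurj : Fermat.Agent.S55.Local.CycCocycleSurjStatement := by
  intro G M _ _ _ _ σ hσ c hc
  have hn : 0 < Nat.card G := Nat.card_pos
  rcases Nat.lt_or_ge (Nat.card G) 2 with h1 | h2
  · -- trivial group
    have hc1 : Nat.card G = 1 := by omega
    have hsub : ∀ g : G, g = 1 := by
      intro g
      have := cycIdx_lt hσ g
      rw [← pow_cycIdx hσ g, show cycIdx σ g = 0 by omega, pow_zero]
    refine ⟨1, smul_one σ, fun _ => c (1, 1), fun g h => ?_⟩
    rw [hsub g, hsub h]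
    simp [cycCocycle_apply]
  · set n := Nat.card G with hndef
    -- partial products and the candidate
    set Q : ℕ → M := fun m => ∏ k ∈ range m, c (σ ^ k, σ) with hQ
    have hQsucc : ∀ m, Q (m + 1) = Q m * c (σ ^ m, σ) := fun m => prod_range_succ _ _
    have hQ0 : Q 0 = 1 := prod_range_zero _
    set x : M := Q n with hx
    set b : G → M := fun g => c (1, 1) / Q (cycIdx σ g) with hb
    set c' : G × G → M := fun p => c p / (p.1 • b p.2 / b (p.1 * p.2) * b p.1) with hc'def
    have hc' : IsMulCocycle₂ c' := isMulCocycle₂_div_d1' hc b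
    have hσn : σ ^ n = 1 := by rw [hndef, ← orderOf_eq_card hσ]; exact pow_orderOf_eq_one σ
    have hbpow : ∀ i, i < n → b (σ ^ i) = c (1, 1) / Q i := by
      intro i hi
      simp only [hb, cycIdx_pow_of_lt hσ hi]
    have hbσ : b σ = 1 := by
      have := hbpow 1 (by omega)
      rw [pow_one] at this
      rw [this, hQsucc, hQ0, one_mul, pow_zero, map_one_fst_of_isMulCocycle₂ hc σ, div_self']
    have hb1 : b 1 = c (1, 1) := by
      have := hbpow 0 (by omega)
      rw [pow_zero] at this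
      rw [this, hQ0, div_one]
    -- (i) values at `(σ^i, σ)`
    have hi1 : ∀ i, i + 1 < n → c' (σ ^ i, σ) = 1 := by
      intro i hi
      simp only [hc'def]
      rw [hbσ, smul_one, ← pow_succ, hbpow (i + 1) hi, hbpow i (by omega), hQsucc]
      apply Additive.ofMul.injective
      simp only [ofMul_mul, ofMul_div, ofMul_one]
      abel
    have hi2 : c' (σ ^ (n - 1), σ) = x := by
      simp only [hc'def]
      have e : σ ^ (n - 1) * σ = 1 := by rw [← pow_succ, Nat.sub_add_cancel (by omega), hσn]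
      rw [hbσ, smul_one, e, hb1, hbpow (n - 1) (by omega)]
      have hxQ : x = Q (n - 1) * c (σ ^ (n - 1), σ) := by
        rw [hx, ← hQsucc, Nat.sub_add_cancel (by omega)]
      rw [hxQ]
      apply Additive.ofMul.injective
      simp only [ofMul_mul, ofMul_div, ofMul_one]
      abel
    -- normalisation
    have h11 : c' (1, 1) = 1 := by
      have := hi1 0 (by omega)
      rw [pow_zero] at this
      rw [← map_one_fst_of_isMulCocycle₂ hc' σ, this]
    have hg1 : ∀ g : G, c' (g, 1) = 1 := fun g => by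
      rw [map_one_snd_of_isMulCocycle₂ hc', h11, smul_one]
    -- (iii) all values
    have hall : ∀ j, j < n → ∀ i, i < n → c' (σ ^ i, σ ^ j) = x ^ ((i + j) / n) := by
      intro j
      induction j with
      | zero =>
        intro _ i hi
        rw [pow_zero, hg1, add_zero, Nat.div_eq_of_lt hi, pow_zero]
      | succ j ih =>
        intro hj i hi
        have ihj := ih (by omega) i hi
        have hC := hc' (σ ^ i) (σ ^ j) σ
        rw [hi1 j hj, smul_one, one_mul, ← pow_succ, ← pow_add, ihj] at hC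
        -- hC : c' (σ ^ (i + j), σ) * x ^ ((i + j) / n) = c' (σ ^ i, σ ^ (j + 1))
        rw [← hC]
        rcases Nat.lt_trichotomy (i + j) (n - 1) with hlt | heq | hgt
        · rw [hi1 (i + j) (by omega), one_mul, Nat.div_eq_of_lt (by omega),
            show i + (j + 1) = i + j + 1 by ring, Nat.div_eq_of_lt (by omega)]
        · rw [heq, hi2, Nat.div_eq_of_lt (by omega), pow_zero, mul_one,
            show i + (j + 1) = n by omega, Nat.div_self hn, pow_one]
        · have hmod : σ ^ (i + j) = σ ^ (i + j - n) := by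
            conv_lhs => rw [show i + j = (i + j - n) + n by omega, pow_add, hσn, mul_one]
          rw [hmod, hi1 (i + j - n) (by omega), one_mul,
            div_one_case (by omega : n ≤ i + j) (by omega),
            div_one_case (by omega : n ≤ i + (j + 1)) (by omega)]
    -- (iv) invariance
    have hxinv : σ • x = x := by
      have hC := hc' σ (σ ^ (n - 1)) σ
      have e1 : σ * σ ^ (n - 1) = 1 := by
        rw [← pow_succ', Nat.sub_add_cancel (by omega), hσn]
      have e2 : σ ^ (n - 1) * σ = 1 := by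
        rw [← pow_succ, Nat.sub_add_cancel (by omega), hσn]
      have e3 : c' (σ, σ ^ (n - 1)) = x := by
        have := hall (n - 1) (by omega) 1 (by omega)
        rw [pow_one, show 1 + (n - 1) = n by omega, Nat.div_self hn, pow_one] at this
        exact this
      rw [e1, e2, hi2, hg1, mul_one, e3, map_one_fst_of_isMulCocycle₂ hc' σ, h11, one_mul] at hC
      exact hC.symm
    refine ⟨x, hxinv, b, fun g h => ?_⟩
    have hgh := hall (cycIdx σ h) (cycIdx_lt hσ h) (cycIdx σ g) (cycIdx_lt hσ g)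
    rw [pow_cycIdx hσ, pow_cycIdx hσ] at hgh
    show g • b h / b (g * h) * b g = c (g, h) / cycCocycle σ x (g, h)
    rw [cycCocycle_apply, ← hgh]
    simp only [hc'def]
    apply Additive.ofMul.injective
    simp only [ofMul_mul, ofMul_div]
    abel

end Fermat.Agent.S55.Local.H535

end
-- ===== PACK-END S55/Local/H535/A4c.lean

-- ===== PACK-BEGIN S55/G/TraceZeroBasis.lean
section
/-
S55, layer G, block G-U, subtask 287 (helper831): `TraceZeroBasisSpec`.

A `ℤ`-basis of the integral trace-zero lattice inside `ℝ^X`: fix `x₀`, take the family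
`e_x - e_{x₀}` (`x ≠ x₀`), reindexed by `Fin (card {x // x ≠ x₀})`.
-/



set_option autoImplicit false

namespace Fermat.Agent.S55.G.TZB

open Fermat.Agent.S55.G

universe v

section

variable {X : Type v} [DecidableEq X] (x0 : X)

/-- The vector `e_x - e_{x₀}` of `ℝ^X`. -/
def diffVec (x : X) : X → ℝ := Pi.single x 1 - Pi.single x0 1

/-- The vector `e_x - e_{x₀}` of `ℤ^X`. -/
def diffVecZ (x : X) : X → ℤ := Pi.single x 1 - Pi.single x0 1

lemma coeHomR_diffVecZ (x : X) : coeHomR X (diffVecZ x0 x) = diffVec x0 x := by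
  funext y
  simp only [coeHomR_apply, diffVecZ, diffVec, Pi.sub_apply, Pi.single_apply]
  split_ifs <;> simp

variable [Fintype X]

lemma sum_diffVecZ (x : X) : ∑ y, diffVecZ x0 x y = 0 := by
  simp [diffVecZ, Finset.sum_sub_distrib]

lemma diffVecZ_mem_traceZero (x : X) : diffVecZ x0 x ∈ traceZero X := by
  show sumHom X (diffVecZ x0 x) = 0
  exact sum_diffVecZ x0 x

lemma sum_diffVec (x : X) : ∑ y, diffVec x0 x y = 0 := by
  simp [diffVec, Finset.sum_sub_distrib]

/-- Evaluation of a combination of the `e_y - e_{x₀}` at a point `x ≠ x₀`. -/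
lemma comb_apply_ne (c : {x : X // x ≠ x0} → ℝ) (x : X) (hx : x ≠ x0) :
    (∑ y : {x : X // x ≠ x0}, c y • diffVec x0 y.1) x = c ⟨x, hx⟩ := by
  rw [Finset.sum_apply, Finset.sum_eq_single (⟨x, hx⟩ : {x : X // x ≠ x0})]
  · simp [diffVec, hx]
  · intro y _ hy
    have hne : x ≠ y.1 := fun h => hy (Subtype.ext h.symm)
    simp [diffVec, hne, hx]
  · intro h
    exact absurd (Finset.mem_univ _) h

/-- Evaluation of a combination of the `e_y - e_{x₀}` at `x₀`. -/
lemma comb_apply_self (c : {x : X // x ≠ x0} → ℝ) :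
    (∑ y : {x : X // x ≠ x0}, c y • diffVec x0 y.1) x0 = - ∑ y, c y := by
  rw [Finset.sum_apply, ← Finset.sum_neg_distrib]
  refine Finset.sum_congr rfl fun y _ => ?_
  have hne : x0 ≠ y.1 := fun h => y.2 h.symm
  simp [diffVec, hne]

lemma sum_subtype_ne (a : X → ℝ) :
    ∑ x, a x = a x0 + ∑ y : {x : X // x ≠ x0}, a y.1 := by
  rw [← Finset.add_sum_erase Finset.univ a (Finset.mem_univ x0)]
  congr 1
  exact Finset.sum_subtype (Finset.univ.erase x0) (fun x => by simp) a

/-- Every trace-zero real vector is the obvious combination of the `e_y - e_{x₀}`. -/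
lemma decomp (a : X → ℝ) (ha : ∑ x, a x = 0) :
    a = ∑ y : {x : X // x ≠ x0}, a y.1 • diffVec x0 y.1 := by
  funext x
  by_cases hx : x = x0
  · subst hx
    rw [comb_apply_self]
    have := sum_subtype_ne x a
    linarith
  · rw [comb_apply_ne x0 (fun y => a y.1) x hx]

end

/-- **(TZ-BASIS)**, subtask 287 (proof). -/
theorem traceZeroBasisSpec_aux : TraceZeroBasisSpec.{v} := by
  classical
  intro X _ _
  obtain ⟨x0⟩ := (inferInstance : Nonempty X)
  let Y := {x : X // x ≠ x0}
  let e : Fin (Fintype.card Y) ≃ Y := (Fintype.equivFin Y).symm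
  let b : Fin (Fintype.card Y) → (X → ℝ) := fun i => diffVec x0 (e i).1
  -- reindexing of combinations
  have hre : ∀ c : Y → ℝ, ∑ i, c (e i) • b i = ∑ y : Y, c y • diffVec x0 y.1 := fun c =>
    Fintype.sum_equiv e (fun i => c (e i) • b i) (fun y => c y • diffVec x0 y.1) (fun _ => rfl)
  have hker : ∀ i, b i ∈ LinearMap.ker (∑ x : X, LinearMap.proj x : (X → ℝ) →ₗ[ℝ] ℝ) := by
    intro i
    rw [LinearMap.mem_ker, LinearMap.sum_apply]
    simp only [LinearMap.proj_apply]
    exact sum_diffVec x0 _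
  refine ⟨Fintype.card Y, b, ?_, ?_, ?_⟩
  · -- linear independence
    rw [Fintype.linearIndependent_iff]
    intro g hg i
    have h1 : ∑ j, g j • b j = ∑ y : Y, g (e.symm y) • diffVec x0 y.1 := by
      rw [← hre (fun y => g (e.symm y))]
      simp
    rw [h1] at hg
    have h2 := comb_apply_ne x0 (fun y => g (e.symm y)) (e i).1 (e i).2
    rw [hg] at h2
    simpa using h2.symm
  · -- real span
    apply le_antisymm
    · rw [Submodule.span_le]
      rintro _ ⟨i, rfl⟩
      exact hker i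
    · intro a ha
      rw [LinearMap.mem_ker, LinearMap.sum_apply] at ha
      simp only [LinearMap.proj_apply] at ha
      rw [_root_.Fermat.Agent.S55.G.TZB.decomp x0 a ha, ← hre (fun y => a y.1)]
      exact Submodule.sum_mem _ fun i _ =>
        Submodule.smul_mem _ _ (Submodule.subset_span ⟨i, rfl⟩)
  · -- integral span
    apply le_antisymm
    · have : Submodule.span ℤ (Set.range b) ≤
          AddSubgroup.toIntSubmodule ((traceZero X).map (coeHomR X)) := by
        rw [Submodule.span_le]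
        rintro _ ⟨i, rfl⟩
        exact ⟨diffVecZ x0 (e i).1, diffVecZ_mem_traceZero x0 _, coeHomR_diffVecZ x0 _⟩
      intro v hv
      exact this hv
    · rintro _ ⟨a, ha, rfl⟩
      have ha' : ∑ x, coeHomR X a x = 0 := by
        have h0 : sumHom X a = 0 := ha
        have h1 : ((∑ x, a x : ℤ) : ℝ) = 0 := by
          have : (∑ x, a x : ℤ) = 0 := h0
          rw [this]; simp
        simpa using h1
      have hdec := _root_.Fermat.Agent.S55.G.TZB.decomp x0 (coeHomR X a) ha'
      rw [← hre (fun y => coeHomR X a y.1)] at hdec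
      show coeHomR X a ∈ Submodule.span ℤ (Set.range b)
      rw [hdec]
      refine Submodule.sum_mem _ fun i _ => ?_
      have : (coeHomR X a (e i).1) • b i = (a (e i).1) • b i := by
        rw [coeHomR_apply]
        exact Int.cast_smul_eq_zsmul ℝ _ _
      rw [this]
      exact Submodule.smul_mem _ _ (Submodule.subset_span ⟨i, rfl⟩)

end Fermat.Agent.S55.G.TZB

namespace Fermat.Agent.S55.G

universe v

/-- **(TZ-BASIS)**: a `ℤ`-basis of the integral trace-zero lattice inside `ℝ^X`. -/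
theorem traceZeroBasisSpec : TraceZeroBasisSpec.{v} := TZB.traceZeroBasisSpec_aux

end Fermat.Agent.S55.G

end
-- ===== PACK-END S55/G/TraceZeroBasis.lean

-- ===== PACK-BEGIN S55/G/Rec/Loc/UnifH544/Norm.lean
section




/-!
# S55 / G / REC / LOC, leaf LOC-UNIF (helper544), part 1: the norm of `PadicAlgCl q`

* `norm_galois544`: automorphisms of `ℚ̄_q / ℚ_q` are isometries;
* `norm_coeff_minpoly_le_one544`: `‖x‖ ≤ 1` implies that the minimal polynomial of `x` over `ℚ_q`
  has coefficients of norm `≤ 1`;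
* `norm_le_one_of_eval₂_eq_zero544`: roots of monic polynomials with coefficients of norm `≤ 1`
  have norm `≤ 1` (ultrametric fields);
* `exists_rootOfUnity_near544`: Teichmüller representatives: every `x` of norm `1` is congruent
  modulo the maximal ideal to a root of unity of order prime to `q`;
* `isInertial_of_fixes_roots544`: an automorphism fixing all roots of unity of order prime to `q`
  is inertial.
-/

set_option autoImplicit false

noncomputable section

namespace Fermat.Agent.S55.G.Rec.Loc.H544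

open Polynomial

section Ultra

variable {R L : Type*} [CommRing R] [NormedField L] [IsUltrametricDist L]

/-- Roots of monic polynomials with coefficients of norm `≤ 1` have norm `≤ 1`. -/
theorem norm_le_one_of_eval₂_eq_zero544 (φ : R →+* L) (hφ : ∀ r, ‖φ r‖ ≤ 1) (p : R[X])
    (hp : p.Monic) (x : L) (hx : p.eval₂ φ x = 0) : ‖x‖ ≤ 1 := by
  by_contra hlt
  rw [not_le] at hlt
  have hx0 : 0 < ‖x‖ := lt_trans zero_lt_one hlt
  rw [eval₂_eq_sum_range, Finset.sum_range_succ, hp.coeff_natDegree, map_one, one_mul] at hx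
  have h1 : x ^ p.natDegree = - ∑ i ∈ Finset.range p.natDegree, φ (p.coeff i) * x ^ i :=
    eq_neg_of_add_eq_zero_right hx
  rcases Nat.eq_zero_or_pos p.natDegree with h0 | hpos
  · rw [h0] at h1
    simp at h1
  have h2 : ‖∑ i ∈ Finset.range p.natDegree, φ (p.coeff i) * x ^ i‖ ≤
      ‖x‖ ^ (p.natDegree - 1) := by
    refine IsUltrametricDist.norm_sum_le_of_forall_le_of_nonneg (by positivity) ?_
    intro i hi
    rw [Finset.mem_range] at hi
    rw [norm_mul, norm_pow]
    calc ‖φ (p.coeff i)‖ * ‖x‖ ^ i ≤ 1 * ‖x‖ ^ i :=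
          mul_le_mul_of_nonneg_right (hφ _) (by positivity)
      _ = ‖x‖ ^ i := one_mul _
      _ ≤ ‖x‖ ^ (p.natDegree - 1) := pow_le_pow_right₀ hlt.le (by omega)
  have h3 : ‖x‖ ^ p.natDegree ≤ ‖x‖ ^ (p.natDegree - 1) := by
    rw [← norm_pow, h1, norm_neg]
    exact h2
  have h4 : ‖x‖ ^ (p.natDegree - 1) < ‖x‖ ^ p.natDegree :=
    pow_lt_pow_right₀ hlt (by omega)
  exact absurd h3 (not_le.2 h4)

end Ultra

variable (q : ℕ) [Fact q.Prime]

local notation "Gq" => (PadicAlgCl q ≃ₐ[ℚ_[q]] PadicAlgCl q)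

/-- Automorphisms of `ℚ̄_q / ℚ_q` are isometries. -/
theorem norm_galois544 (τ : Gq) (x : PadicAlgCl q) : ‖τ x‖ = ‖x‖ := by
  rw [← PadicAlgCl.spectralNorm_eq, ← PadicAlgCl.spectralNorm_eq]
  exact (spectralNorm_eq_of_equiv τ x).symm

/-- `‖x‖ ≤ 1` implies that the minimal polynomial of `x` over `ℚ_q` has coefficients of norm
`≤ 1`. -/
theorem norm_coeff_minpoly_le_one544 {x : PadicAlgCl q} (hx : ‖x‖ ≤ 1) (n : ℕ) :
    ‖(minpoly ℚ_[q] x).coeff n‖ ≤ 1 := by
  have hint : IsIntegral ℚ_[q] x := Algebra.IsIntegral.isIntegral x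
  have h : spectralValue (minpoly ℚ_[q] x) ≤ 1 := by
    have h1 : spectralNorm ℚ_[q] (PadicAlgCl q) x = ‖x‖ := PadicAlgCl.spectralNorm_eq q x
    rw [spectralNorm] at h1
    rw [h1]
    exact hx
  exact (spectralValue_le_one_iff (minpoly.monic hint)).1 h n

/-- An ultrametric inequality. -/
theorem norm_sub_lt_one544 {x y : PadicAlgCl q} (hx : ‖x‖ < 1) (hy : ‖y‖ < 1) : ‖x - y‖ < 1 := by
  rw [sub_eq_add_neg]
  refine lt_of_le_of_lt (IsUltrametricDist.norm_add_le_max _ _) (max_lt hx ?_)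
  rwa [norm_neg]

theorem norm_add_lt_one544 {x y : PadicAlgCl q} (hx : ‖x‖ < 1) (hy : ‖y‖ < 1) : ‖x + y‖ < 1 :=
  lt_of_le_of_lt (IsUltrametricDist.norm_add_le_max _ _) (max_lt hx hy)

/-! ### Valuation subrings cut out by a norm -/

section NormVS

variable {F : Type*} [Field F] {L : Type*} [NormedField L] (ι : F →+* L)
  (A : ValuationSubring F) (hA : ∀ x : F, x ∈ A ↔ ‖ι x‖ ≤ 1)

include hA in
/-- The nonunits of a valuation subring cut out by a norm are the elements of norm `< 1`. -/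
theorem mem_nonunits_iff_norm544 (x : F) : x ∈ A.nonunits ↔ ‖ι x‖ < 1 := by
  rw [ValuationSubring.mem_nonunits_iff_or]
  by_cases hx : x = 0
  · subst hx
    simp
  · have hι : ι x ≠ 0 := (map_ne_zero ι).2 hx
    have hpos : 0 < ‖ι x‖ := norm_pos_iff.2 hι
    rw [hA, map_inv₀, norm_inv, not_le]
    constructor
    · rintro (h | h)
      · exact absurd h hx
      · exact (one_lt_inv₀ hpos).1 h
    · intro h
      exact Or.inr ((one_lt_inv₀ hpos).2 h)

include hA in
theorem mem_maximalIdeal_iff_norm544 (a : A) :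
    a ∈ IsLocalRing.maximalIdeal A ↔ ‖ι (a : F)‖ < 1 := by
  rw [← ValuationSubring.coe_mem_nonunits_iff, mem_nonunits_iff_norm544 ι A hA]

end NormVS

/-! ### Teichmüller representatives -/

/-- In an ultrametric normed field, a product of elements of norm `≥ 1` has norm `≥ 1`. -/
theorem one_le_norm_multiset_prod544 {L : Type*} [NormedField L] (s : Multiset L)
    (h : ∀ a ∈ s, 1 ≤ ‖a‖) : 1 ≤ ‖s.prod‖ := by
  induction s using Multiset.induction_on with
  | empty => simp
  | cons a s ih =>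
    rw [Multiset.prod_cons, norm_mul]
    have h1 : 1 ≤ ‖a‖ := h a (Multiset.mem_cons_self a s)
    have h2 : 1 ≤ ‖s.prod‖ := ih fun b hb => h b (Multiset.mem_cons_of_mem hb)
    calc (1 : ℝ) = 1 * 1 := (one_mul 1).symm
      _ ≤ ‖a‖ * ‖s.prod‖ := mul_le_mul h1 h2 zero_le_one (le_trans zero_le_one h1)

/-- `‖(q : ℚ̄_q)‖ < 1`. -/
theorem norm_prime_lt_one544 : ‖(q : PadicAlgCl q)‖ < 1 := by
  have h1 : ((q : ℚ_[q]) : PadicAlgCl q) = (q : PadicAlgCl q) :=
    map_natCast (algebraMap ℚ_[q] (PadicAlgCl q)) q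
  rw [← h1, PadicAlgCl.norm_extends, Padic.norm_p]
  have hq : (1 : ℝ) < q := by exact_mod_cast (Fact.out : q.Prime).one_lt
  exact inv_lt_one_of_one_lt₀ hq

/-- Every element of the unit ball of `ℚ̄_q` is fixed modulo the maximal ideal by a power of the
Frobenius: `x ^ Q ≡ x` with `Q > 1` a power of `q` (the order of the residue field of `ℚ_q(x)`). -/
theorem exists_pow_card_sub_lt544 (x : PadicAlgCl q) (hx : ‖x‖ ≤ 1) :
    ∃ Q : ℕ, q ∣ Q ∧ 1 < Q ∧ ‖x ^ Q - x‖ < 1 := by
  have hint : IsIntegral ℚ_[q] x := Algebra.IsIntegral.isIntegral x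
  set E : IntermediateField ℚ_[q] (PadicAlgCl q) := IntermediateField.adjoin ℚ_[q] {x} with hE
  haveI : FiniteDimensional ℚ_[q] E := IntermediateField.adjoin.finiteDimensional hint
  obtain ⟨A, ⟨hdvr, -, hfin⟩, hmem⟩ := L.exists_ringOfIntegers_eq_unitBall63 q E
  haveI := hfin
  have hA : ∀ y : E, y ∈ A ↔ ‖(algebraMap E (PadicAlgCl q)) y‖ ≤ 1 := hmem
  letI : Fintype (IsLocalRing.ResidueField A) := Fintype.ofFinite _
  set Q : ℕ := Fintype.card (IsLocalRing.ResidueField A) with hQ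
  -- the residue characteristic
  have hq0 : ((q : ℕ) : IsLocalRing.ResidueField A) = 0 := by
    have h1 : ((q : ℕ) : A) ∈ IsLocalRing.maximalIdeal A := by
      rw [mem_maximalIdeal_iff_norm544 _ A hA]
      have : (algebraMap E (PadicAlgCl q)) (((q : ℕ) : A) : E) = (q : PadicAlgCl q) := by
        simp
      rw [this]
      exact norm_prime_lt_one544 q
    have h2 := (IsLocalRing.residue_eq_zero_iff ((q : ℕ) : A)).2 h1
    rwa [map_natCast] at h2
  haveI : CharP (IsLocalRing.ResidueField A) q :=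
    (CharP.charP_iff_prime_eq_zero (Fact.out : q.Prime)).2 hq0
  obtain ⟨n, -, hn⟩ := FiniteField.card (IsLocalRing.ResidueField A) q
  have hqQ : q ∣ Q := by
    rw [hQ, hn]
    exact dvd_pow_self q n.ne_zero
  have hQ1 : 1 < Q := Fintype.one_lt_card
  refine ⟨Q, hqQ, hQ1, ?_⟩
  -- the element
  let x' : E := ⟨x, IntermediateField.subset_adjoin ℚ_[q] {x} rfl⟩
  have hx' : x' ∈ A := (hmem x').2 hx
  let xA : A := ⟨x', hx'⟩
  have h1 : IsLocalRing.residue A (xA ^ Q - xA) = 0 := by
    rw [map_sub, map_pow, hQ, FiniteField.pow_card, sub_self]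
  have h2 := (IsLocalRing.residue_eq_zero_iff _).1 h1
  rw [mem_maximalIdeal_iff_norm544 _ A hA] at h2
  exact h2

/-- **Teichmüller representatives.**  Every `x` of norm `1` is congruent modulo the maximal ideal
to a root of unity of order prime to `q`. -/
theorem exists_rootOfUnity_near544 (x : PadicAlgCl q) (hx : ‖x‖ = 1) :
    ∃ (r : ℕ) (ζ : PadicAlgCl q), ¬ q ∣ r ∧ ζ ^ r = 1 ∧ ‖x - ζ‖ < 1 := by
  obtain ⟨Q, hqQ, hQ1, hlt⟩ := exists_pow_card_sub_lt544 q x hx.le
  have hq2 : 2 ≤ q := (Fact.out : q.Prime).two_le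
  have hr : ¬ q ∣ Q - 1 := by
    intro h
    have h1 : q ∣ Q - (Q - 1) := Nat.dvd_sub hqQ h
    have h2 : Q - (Q - 1) = 1 := by omega
    rw [h2, Nat.dvd_one] at h1
    omega
  have hr0 : Q - 1 ≠ 0 := by omega
  have hfac : x ^ Q - x = x * (x ^ (Q - 1) - 1) := by
    have : Q = (Q - 1) + 1 := by omega
    conv_lhs => rw [this, pow_succ]
    ring
  rw [hfac, norm_mul, hx, one_mul] at hlt
  -- factor `X ^ r - 1`
  set P : (PadicAlgCl q)[X] := X ^ (Q - 1) - 1 with hP
  have hPm : P.Monic := monic_X_pow_sub_C 1 hr0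
  have hsplit : P.Splits := IsAlgClosed.splits P
  have heval : P.eval x = (P.roots.map fun a => x - a).prod :=
    hsplit.eval_eq_prod_roots_of_monic hPm x
  have hev : P.eval x = x ^ (Q - 1) - 1 := by simp [hP]
  rw [hev] at heval
  by_contra hcon
  have hall : ∀ a ∈ P.roots.map fun a => x - a, 1 ≤ ‖a‖ := by
    intro a ha
    rw [Multiset.mem_map] at ha
    obtain ⟨ζ, hζ, rfl⟩ := ha
    by_contra hlt'
    rw [not_le] at hlt'
    apply hcon
    refine ⟨Q - 1, ζ, hr, ?_, hlt'⟩
    have h0 := (mem_roots hPm.ne_zero).1 hζ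
    rw [IsRoot.def, hP] at h0
    simp only [eval_sub, eval_pow, eval_X, eval_one] at h0
    exact sub_eq_zero.1 h0
  have := one_le_norm_multiset_prod544 _ hall
  rw [← heval] at this
  exact absurd hlt (not_lt.2 this)

/-- An automorphism fixing all roots of unity of order prime to `q` is inertial. -/
theorem isInertial_of_fixes_roots544 (τ : Gq)
    (hτ : ∀ (r : ℕ) (ζ : PadicAlgCl q), ¬ q ∣ r → ζ ^ r = 1 → τ ζ = ζ) : IsInertial q τ := by
  intro x hx
  rcases lt_or_eq_of_le hx with hlt | heq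
  · exact norm_sub_lt_one544 q (by rwa [norm_galois544]) hlt
  · obtain ⟨r, ζ, hr, hζ, hnear⟩ := exists_rootOfUnity_near544 q x heq
    have e : τ x - x = τ (x - ζ) - (x - ζ) := by
      rw [map_sub, hτ r ζ hr hζ]
      ring
    rw [e]
    exact norm_sub_lt_one544 q (by rwa [norm_galois544]) hnear

/-- Inertial automorphisms fix the roots of unity of order prime to `q`. -/
theorem fixes_roots_of_isInertial544 (τ : Gq) (hτ : IsInertial q τ) (r : ℕ) (ζ : PadicAlgCl q)
    (hr : ¬ q ∣ r) (hζ : ζ ^ r = 1) : τ ζ = ζ :=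
  (H533.cycloFrob533 q r hr).1 τ hτ ζ hζ

end Fermat.Agent.S55.G.Rec.Loc.H544

end
end
-- ===== PACK-END S55/G/Rec/Loc/UnifH544/Norm.lean

-- ===== PACK-BEGIN S55/G/Rec/Loc/DownH363.lean
section





/-!
# S55 / G / REC / LOC : leaf LOC-DOWN (`DownSpec`) — helper363

Inflation from a finite Galois level `E / K_V` to the absolute level `V` is injective on classes:
if the level cocycle `c = Inf f` on `V` is the coboundary of a level-constant `1`-cochain `x`,
then `f` is a coboundary.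

Proof.  `x` is right-invariant under `G_{E₁} ∩ V` for a finite `E₁ / ℚ_q` (Krasner bridge), hence
takes finitely many values.  Let `N / K_V` be finite Galois containing `E`, `E₁` and the values of
`x`.  Then `x` descends to a `1`-cochain `b` of `Gal(N / K_V)` with values in `Nˣ`, and
`d b = Inf_{E → N} f`.  Inflation `H²(E / K_V) → H²(N / K_V)` is injective (Hilbert 90;
`L.Inv481.inflPair_pull_injective`), so `cls f = 0`.

Main results: `down_of : OpenSpec → DownSpec` and `down : DownSpec`.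
-/

set_option autoImplicit false
set_option linter.style.haveILetI false
set_option linter.unusedSectionVars false

noncomputable section

namespace Fermat.Agent.S55.G.Rec.Loc.H363

open groupCohomology IntermediateField

variable (q : ℕ) [Fact q.Prime]

/-- `V → Gal(ℚ̄_q / K_V)` is onto when `V` is the full fixing subgroup of its fixed field. -/
lemma toAbsGal_surjective (V : Subgroup (PadicAlgCl q ≃ₐ[ℚ_[q]] PadicAlgCl q))
    (hfix : (fixedFld q V).fixingSubgroup = V) : Function.Surjective (toAbsGal q V) := by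
  intro σ
  have hτ : (((IntermediateField.fixingSubgroupEquiv (fixedFld q V)).symm σ :
      ↥(fixedFld q V).fixingSubgroup) : PadicAlgCl q ≃ₐ[ℚ_[q]] PadicAlgCl q) ∈ V :=
    (le_of_eq hfix) ((IntermediateField.fixingSubgroupEquiv (fixedFld q V)).symm σ).2
  refine ⟨⟨_, hτ⟩, ?_⟩
  ext y
  rw [toAbsGal_apply]
  have h2 := congrArg (fun τ : PadicAlgCl q ≃ₐ[fixedFld q V] PadicAlgCl q => τ y)
    ((IntermediateField.fixingSubgroupEquiv (fixedFld q V)).apply_symm_apply σ)
  exact h2

/-- Restriction `V → Gal(N / K_V)` is onto when `V` is the full fixing subgroup. -/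
lemma resHom_surjective (V : Subgroup (PadicAlgCl q ≃ₐ[ℚ_[q]] PadicAlgCl q))
    (hfix : (fixedFld q V).fixingSubgroup = V)
    (N : IntermediateField (fixedFld q V) (PadicAlgCl q)) [Normal (fixedFld q V) N] :
    Function.Surjective (resHom q V N) := by
  intro σ
  obtain ⟨τ, hτ⟩ := AlgEquiv.restrictNormalHom_surjective (F := fixedFld q V) (K₁ := N)
    (PadicAlgCl q) σ
  obtain ⟨g, rfl⟩ := toAbsGal_surjective q V hfix τ
  exact ⟨g, hτ⟩

/-- A finite Galois level above `E`, a finite `E₁ / ℚ_q` and a finite set `T`. -/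
lemma exists_galois_level (K : IntermediateField ℚ_[q] (PadicAlgCl q))
    (E : IntermediateField K (PadicAlgCl q)) [FiniteDimensional K E]
    (E₁ : IntermediateField ℚ_[q] (PadicAlgCl q)) [FiniteDimensional ℚ_[q] E₁]
    (T : Set (PadicAlgCl q)) (hT : T.Finite) :
    ∃ N : IntermediateField K (PadicAlgCl q), FiniteDimensional K N ∧ IsGalois K N ∧ E ≤ N ∧
      (∀ y ∈ E₁, y ∈ N) ∧ ∀ t ∈ T, t ∈ N := by
  obtain ⟨α, hα⟩ := Field.exists_primitive_element ℚ_[q] E₁
  haveI hTfin : Finite ↑(insert (α : PadicAlgCl q) T) := (hT.insert _).to_subtype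
  have hint : ∀ y ∈ insert (α : PadicAlgCl q) T, IsIntegral K y :=
    fun y _ => Algebra.IsIntegral.isIntegral y
  haveI := IntermediateField.finiteDimensional_adjoin (K := K) hint
  haveI : FiniteDimensional K ↥(E ⊔ adjoin K (insert (α : PadicAlgCl q) T)) :=
    IntermediateField.finiteDimensional_sup _ _
  have hle : E ⊔ adjoin K (insert (α : PadicAlgCl q) T) ≤
      normalClosure K ↥(E ⊔ adjoin K (insert (α : PadicAlgCl q) T)) (PadicAlgCl q) :=
    IntermediateField.le_normalClosure _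
  have hsub : ∀ t ∈ insert (α : PadicAlgCl q) T,
      t ∈ normalClosure K ↥(E ⊔ adjoin K (insert (α : PadicAlgCl q) T)) (PadicAlgCl q) :=
    fun t ht => hle ((le_sup_right : adjoin K (insert (α : PadicAlgCl q) T) ≤ _)
      (IntermediateField.subset_adjoin K _ ht))
  refine ⟨normalClosure K ↥(E ⊔ adjoin K (insert (α : PadicAlgCl q) T)) (PadicAlgCl q),
    inferInstance, ⟨⟩, le_sup_left.trans hle, ?_, fun t ht => hsub t (Set.mem_insert_of_mem _ ht)⟩
  intro y hy
  have hy' : (⟨y, hy⟩ : E₁) ∈ IntermediateField.adjoin ℚ_[q] {α} := by rw [hα]; trivial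
  have hyα : y ∈ IntermediateField.adjoin ℚ_[q] {(α : PadicAlgCl q)} := by
    have h1 : IntermediateField.lift (IntermediateField.adjoin ℚ_[q] {α})
        = IntermediateField.adjoin ℚ_[q] {(α : PadicAlgCl q)} := by
      rw [IntermediateField.lift_adjoin, Set.image_singleton]
    rw [← h1]
    exact (IntermediateField.mem_lift (⟨y, hy⟩ : E₁)).2 hy'
  have hle2 : IntermediateField.adjoin ℚ_[q] {(α : PadicAlgCl q)} ≤
      (normalClosure K ↥(E ⊔ adjoin K (insert (α : PadicAlgCl q) T))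
        (PadicAlgCl q)).restrictScalars ℚ_[q] := by
    rw [IntermediateField.adjoin_le_iff]
    rintro z hz
    rw [Set.mem_singleton_iff] at hz
    subst hz
    exact hsub _ (Set.mem_insert _ _)
  exact hle2 hyα

/-- If `g, g' ∈ V` have the same restriction to a level `M ⊇ E₁`, then `g⁻¹ g'` fixes `E₁`. -/
lemma inv_mul_mem_fixingSubgroup (V : Subgroup (PadicAlgCl q ≃ₐ[ℚ_[q]] PadicAlgCl q))
    (M : IntermediateField (fixedFld q V) (PadicAlgCl q)) [Normal (fixedFld q V) M]
    (E₁ : IntermediateField ℚ_[q] (PadicAlgCl q)) (hM : ∀ y ∈ E₁, y ∈ M)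
    (g g' : ↥V) (h : resHom q V M g = resHom q V M g') :
    ((g⁻¹ * g' : ↥V) : PadicAlgCl q ≃ₐ[ℚ_[q]] PadicAlgCl q) ∈ E₁.fixingSubgroup := by
  rw [IntermediateField.mem_fixingSubgroup_iff]
  intro y hy
  have h1 := resHom_apply_coe q V M g ⟨y, hM y hy⟩
  have h2 := resHom_apply_coe q V M g' ⟨y, hM y hy⟩
  rw [h] at h1
  have h3 : (g : PadicAlgCl q ≃ₐ[ℚ_[q]] PadicAlgCl q) y =
      (g' : PadicAlgCl q ≃ₐ[ℚ_[q]] PadicAlgCl q) y := h1.symm.trans h2
  show (g : PadicAlgCl q ≃ₐ[ℚ_[q]] PadicAlgCl q)⁻¹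
    ((g' : PadicAlgCl q ≃ₐ[ℚ_[q]] PadicAlgCl q) y) = y
  rw [← h3]
  exact AlgEquiv.symm_apply_apply _ y

/-- The unit of an intermediate field with a given value. -/
def unitOfMem {K : Type} [Field K] [Algebra K (PadicAlgCl q)]
    (N : IntermediateField K (PadicAlgCl q)) (u : (PadicAlgCl q)ˣ)
    (h : (u : PadicAlgCl q) ∈ N) : (↥N)ˣ :=
  Units.mk0 ⟨(u : PadicAlgCl q), h⟩ (fun h0 => u.ne_zero (congrArg Subtype.val h0))

lemma unitsIncl_unitOfMem (V : Subgroup (PadicAlgCl q ≃ₐ[ℚ_[q]] PadicAlgCl q))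
    (N : IntermediateField (fixedFld q V) (PadicAlgCl q)) (u : (PadicAlgCl q)ˣ)
    (h : (u : PadicAlgCl q) ∈ N) : unitsIncl q V N (unitOfMem q N u h) = u := by
  apply Units.ext
  rfl

lemma unitsIncl_injective (V : Subgroup (PadicAlgCl q ≃ₐ[ℚ_[q]] PadicAlgCl q))
    (N : IntermediateField (fixedFld q V) (PadicAlgCl q)) :
    Function.Injective (unitsIncl q V N) := by
  intro a b hab
  apply Units.ext
  apply Subtype.ext
  exact congrArg (fun u : (PadicAlgCl q)ˣ => (u : PadicAlgCl q)) hab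

/-- equivariance of the inclusion `Nˣ → ℚ̄_qˣ` -/
lemma unitsIncl_smul (V : Subgroup (PadicAlgCl q ≃ₐ[ℚ_[q]] PadicAlgCl q))
    (N : IntermediateField (fixedFld q V) (PadicAlgCl q)) [Normal (fixedFld q V) N]
    (g : ↥V) (u : (↥N)ˣ) :
    ((unitsIncl q V N (Additive.toMul ((L.unitsRep (fixedFld q V) N).ρ (resHom q V N g)
        (Additive.ofMul u))) : (PadicAlgCl q)ˣ) : PadicAlgCl q) =
      (g : PadicAlgCl q ≃ₐ[ℚ_[q]] PadicAlgCl q) ((unitsIncl q V N u : (PadicAlgCl q)ˣ) :
        PadicAlgCl q) :=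
  resHom_apply_coe q V N g (u : ↥N)

/-- The inclusion `Nˣ → ℚ̄_qˣ`, additively, between the Galois modules. -/
def inclAdd (V : Subgroup (PadicAlgCl q ≃ₐ[ℚ_[q]] PadicAlgCl q))
    (N : IntermediateField (fixedFld q V) (PadicAlgCl q)) :
    L.unitsRep (fixedFld q V) N →+ lModOn q V :=
  (MonoidHom.toAdditive (unitsIncl q V N) : Additive (↥N)ˣ →+ Additive (PadicAlgCl q)ˣ)

lemma inclAdd_apply (V : Subgroup (PadicAlgCl q ≃ₐ[ℚ_[q]] PadicAlgCl q))
    (N : IntermediateField (fixedFld q V) (PadicAlgCl q)) (a : L.unitsRep (fixedFld q V) N) :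
    inclAdd q V N a = Additive.ofMul (unitsIncl q V N (Additive.toMul a)) := rfl

lemma inclAdd_injective (V : Subgroup (PadicAlgCl q ≃ₐ[ℚ_[q]] PadicAlgCl q))
    (N : IntermediateField (fixedFld q V) (PadicAlgCl q)) :
    Function.Injective (inclAdd q V N) := by
  intro a b hab
  apply Additive.toMul.injective
  apply unitsIncl_injective q V N
  exact congrArg Additive.toMul hab

lemma inclAdd_ρ (V : Subgroup (PadicAlgCl q ≃ₐ[ℚ_[q]] PadicAlgCl q))
    (N : IntermediateField (fixedFld q V) (PadicAlgCl q)) [Normal (fixedFld q V) N]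
    (g : ↥V) (a : L.unitsRep (fixedFld q V) N) :
    inclAdd q V N ((L.unitsRep (fixedFld q V) N).ρ (resHom q V N g) a) =
      (lModOn q V).ρ g (inclAdd q V N a) := by
  apply Additive.toMul.injective
  apply Units.ext
  exact resHom_apply_coe q V N g ((Additive.toMul a : (↥N)ˣ) : ↥N)

/-- compatibility of the restrictions `V → Gal(N/K_V) → Gal(E/K_V)` -/
lemma restrictNormalHom_resHom (V : Subgroup (PadicAlgCl q ≃ₐ[ℚ_[q]] PadicAlgCl q))
    (E N : IntermediateField (fixedFld q V) (PadicAlgCl q)) [Normal (fixedFld q V) E]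
    [Normal (fixedFld q V) N] [Algebra ↥E ↥N] [IsScalarTower (fixedFld q V) ↥E ↥N]
    (hι : ∀ y : ↥E, ((algebraMap ↥E ↥N y : ↥N) : PadicAlgCl q) = (y : PadicAlgCl q)) (g : ↥V) :
    AlgEquiv.restrictNormalHom (F := fixedFld q V) (K₁ := ↥N) ↥E (resHom q V N g) =
      resHom q V E g := by
  ext y
  have h1 : algebraMap ↥E ↥N ((AlgEquiv.restrictNormalHom (F := fixedFld q V) (K₁ := ↥N) ↥E
      (resHom q V N g)) y) = (resHom q V N g) (algebraMap ↥E ↥N y) :=
    AlgEquiv.restrictNormal_commutes (resHom q V N g) ↥E y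
  have h2 : ((algebraMap ↥E ↥N ((AlgEquiv.restrictNormalHom (F := fixedFld q V) (K₁ := ↥N) ↥E
      (resHom q V N g)) y) : ↥N) : PadicAlgCl q) =
      (((resHom q V N g) (algebraMap ↥E ↥N y) : ↥N) : PadicAlgCl q) := by rw [h1]
  rw [hι, resHom_apply_coe, hι] at h2
  exact h2.trans (resHom_apply_coe q V E g y).symm

/-- the inflation of `f` to `N`, pushed to `ℚ̄_qˣ`, is the absolute inflation of `f` -/
lemma inclAdd_pullCocycle (V : Subgroup (PadicAlgCl q ≃ₐ[ℚ_[q]] PadicAlgCl q))
    (E N : IntermediateField (fixedFld q V) (PadicAlgCl q)) [Normal (fixedFld q V) E]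
    [Normal (fixedFld q V) N] [Algebra ↥E ↥N] [IsScalarTower (fixedFld q V) ↥E ↥N]
    (hι : ∀ y : ↥E, ((algebraMap ↥E ↥N y : ↥N) : PadicAlgCl q) = (y : PadicAlgCl q))
    (f : cocycles₂ (L.unitsRep (fixedFld q V) E)) (g h : ↥V) :
    inclAdd q V N (((L.Inv481.inflPair (fixedFld q V) E N).pullCocycle f :
        (N ≃ₐ[fixedFld q V] N) × (N ≃ₐ[fixedFld q V] N) → L.unitsRep (fixedFld q V) N)
        (resHom q V N g, resHom q V N h)) =
      inflCochain₂ q V E (f : (E ≃ₐ[fixedFld q V] E) × (E ≃ₐ[fixedFld q V] E) →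
        L.unitsRep (fixedFld q V) E) (g, h) := by
  rw [(L.Inv481.inflPair (fixedFld q V) E N).isPull_pullCocycle f (resHom q V N g)
    (resHom q V N h)]
  have r1 : (L.Inv481.inflPair (fixedFld q V) E N).f (resHom q V N g) = resHom q V E g :=
    restrictNormalHom_resHom q V E N hι g
  have r2 : (L.Inv481.inflPair (fixedFld q V) E N).f (resHom q V N h) = resHom q V E h :=
    restrictNormalHom_resHom q V E N hι h
  rw [r1, r2]
  apply Additive.toMul.injective
  apply Units.ext
  exact hι _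

/-- Descent of a level-constant `1`-cochain: if `x` only depends on the restriction to `N` and
takes values in `N`, it comes from a cochain of `Gal(N / K_V)`. -/
lemma exists_descent (V : Subgroup (PadicAlgCl q ≃ₐ[ℚ_[q]] PadicAlgCl q))
    (hfix : (fixedFld q V).fixingSubgroup = V)
    (N : IntermediateField (fixedFld q V) (PadicAlgCl q)) [Normal (fixedFld q V) N]
    (x : ↥V → lModOn q V)
    (hdep : ∀ g g' : ↥V, resHom q V N g = resHom q V N g' → x g = x g')
    (hval : ∀ g : ↥V, ((Additive.toMul (x g) : (PadicAlgCl q)ˣ) : PadicAlgCl q) ∈ N) :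
    ∃ b : (N ≃ₐ[fixedFld q V] N) → L.unitsRep (fixedFld q V) N,
      ∀ g : ↥V, inclAdd q V N (b (resHom q V N g)) = x g := by
  have hsurj := resHom_surjective q V hfix N
  choose lift hlift using hsurj
  refine ⟨fun σ => Additive.ofMul (unitOfMem q N (Additive.toMul (x (lift σ))) (hval (lift σ))),
    fun g => ?_⟩
  show Additive.ofMul (unitsIncl q V N (unitOfMem q N _ _)) = _
  rw [unitsIncl_unitOfMem, hdep _ g (hlift _)]
  rfl

/-- If the absolute inflation of `f` is `d x` with `x` descending to the level `N ⊇ E`, then the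
inflation of `f` to `N` is a coboundary. -/
lemma pullCocycle_mem_coboundaries₂ (V : Subgroup (PadicAlgCl q ≃ₐ[ℚ_[q]] PadicAlgCl q))
    (hfix : (fixedFld q V).fixingSubgroup = V)
    (E N : IntermediateField (fixedFld q V) (PadicAlgCl q)) [Normal (fixedFld q V) E]
    [Normal (fixedFld q V) N] [Algebra ↥E ↥N] [IsScalarTower (fixedFld q V) ↥E ↥N]
    (hι : ∀ y : ↥E, ((algebraMap ↥E ↥N y : ↥N) : PadicAlgCl q) = (y : PadicAlgCl q))
    (f : cocycles₂ (L.unitsRep (fixedFld q V) E))
    (x : ↥V → lModOn q V)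
    (hd : (d₁₂ (lModOn q V)).hom x = inflCochain₂ q V E
      (f : (E ≃ₐ[fixedFld q V] E) × (E ≃ₐ[fixedFld q V] E) → L.unitsRep (fixedFld q V) E))
    (b : (N ≃ₐ[fixedFld q V] N) → L.unitsRep (fixedFld q V) N)
    (hb : ∀ g : ↥V, inclAdd q V N (b (resHom q V N g)) = x g) :
    ((L.Inv481.inflPair (fixedFld q V) E N).pullCocycle f :
        (N ≃ₐ[fixedFld q V] N) × (N ≃ₐ[fixedFld q V] N) → L.unitsRep (fixedFld q V) N) ∈
      coboundaries₂ (L.unitsRep (fixedFld q V) N) := by
  refine ⟨b, ?_⟩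
  funext ⟨σ, τ⟩
  obtain ⟨g, rfl⟩ := resHom_surjective q V hfix N σ
  obtain ⟨h, rfl⟩ := resHom_surjective q V hfix N τ
  apply inclAdd_injective q V N
  have h1 := inclAdd_pullCocycle q V E N hι f g h
  have h2 : (d₁₂ (lModOn q V)).hom x (g, h) = (lModOn q V).ρ g (x h) - x (g * h) + x g :=
    d₁₂_hom_apply _ _ _
  have h3 : (d₁₂ (L.unitsRep (fixedFld q V) N)).hom b (resHom q V N g, resHom q V N h) =
      (L.unitsRep (fixedFld q V) N).ρ (resHom q V N g) (b (resHom q V N h)) -
        b (resHom q V N g * resHom q V N h) + b (resHom q V N g) :=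
    d₁₂_hom_apply _ _ _
  have h4 : inclAdd q V N ((L.unitsRep (fixedFld q V) N).ρ (resHom q V N g)
      (b (resHom q V N h)) - b (resHom q V N g * resHom q V N h) + b (resHom q V N g)) =
      (lModOn q V).ρ g (x h) - x (g * h) + x g := by
    rw [map_add, map_sub, inclAdd_ρ, ← map_mul, hb, hb, hb]
  exact (congrArg (inclAdd q V N) h3).trans
    (h4.trans (h2.symm.trans ((congrFun hd (g, h)).trans h1.symm)))

/-- Injectivity of inflation at finite level, in the form needed here. -/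
lemma cls_eq_zero_of_pullCocycle (K E N : Type) [Field K] [Field E] [Field N] [Algebra K E]
    [Algebra K N] [Algebra E N] [IsScalarTower K E N] [Normal K E] [FiniteDimensional K N]
    [IsGalois K N] (f : cocycles₂ (L.unitsRep K E))
    (h : ((L.Inv481.inflPair K E N).pullCocycle f : (N ≃ₐ[K] N) × (N ≃ₐ[K] N) → L.unitsRep K N) ∈
      coboundaries₂ (L.unitsRep K N)) : L.cls f = 0 := by
  apply L.Inv481.inflPair_pull_injective K E N
  rw [map_zero, L.Inv481.GalPair.pull_cls]
  exact (H2π_eq_zero_iff _).2 h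

/-- **LOC-DOWN**: inflation to the absolute level is injective on classes. -/
theorem down_of (hO : OpenSpec) : DownSpec := by
  intro q _ V hV E _ _ f c hinfl hcob
  obtain ⟨hfin, hfix⟩ := hO q V hV
  obtain ⟨x, hx, hd⟩ := (mem_levelCoboundaries₂_iff _ _ _).1 hcob
  obtain ⟨F, hF, hxF⟩ := hx
  haveI := hF
  obtain ⟨E₁, hE₁, hE₁F⟩ := Bridge.exists_local_level_of_global q F
  haveI := hE₁
  have hxE₁ : ∀ g s : ↥V,
      (s : PadicAlgCl q ≃ₐ[ℚ_[q]] PadicAlgCl q) ∈ E₁.fixingSubgroup → x (g * s) = x g :=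
    fun g s hs => hxF g s (hE₁F _ hs)
  -- `x g` depends only on the restriction of `g` to a level containing `E₁`
  have hdep : ∀ (M : IntermediateField (fixedFld q V) (PadicAlgCl q)) [Normal (fixedFld q V) M],
      (∀ y ∈ E₁, y ∈ M) → ∀ g g' : ↥V, resHom q V M g = resHom q V M g' → x g = x g' := by
    intro M _ hM g g' h
    have := hxE₁ g (g⁻¹ * g') (inv_mul_mem_fixingSubgroup q V M E₁ hM g g' h)
    rw [mul_inv_cancel_left] at this
    exact this.symm
  -- first level: finitely many values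
  obtain ⟨N₁, hN₁fin, hN₁gal, -, hN₁E₁, -⟩ :=
    exists_galois_level q (fixedFld q V) E E₁ ∅ Set.finite_empty
  haveI := hN₁fin
  haveI := hN₁gal
  have hsurj₁ := resHom_surjective q V hfix N₁
  choose lift₁ hlift₁ using hsurj₁
  have hT : (Set.range (fun σ : N₁ ≃ₐ[fixedFld q V] N₁ =>
      ((Additive.toMul (x (lift₁ σ)) : (PadicAlgCl q)ˣ) : PadicAlgCl q))).Finite :=
    Set.finite_range _
  -- second level: contains `E`, `E₁` and the values of `x`
  obtain ⟨N, hNfin, hNgal, hEN, hNE₁, hNT⟩ := exists_galois_level q (fixedFld q V) E E₁ _ hT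
  haveI := hNfin
  haveI := hNgal
  have hval : ∀ g : ↥V, ((Additive.toMul (x g) : (PadicAlgCl q)ˣ) : PadicAlgCl q) ∈ N := by
    intro g
    apply hNT
    refine ⟨resHom q V N₁ g, ?_⟩
    show ((Additive.toMul (x (lift₁ (resHom q V N₁ g))) : (PadicAlgCl q)ˣ) : PadicAlgCl q) = _
    rw [hdep N₁ hN₁E₁ _ g (hlift₁ _)]
  obtain ⟨b, hb⟩ := exists_descent q V hfix N x (hdep N hNE₁) hval
  -- the tower `K_V ⊆ E ⊆ N`
  letI : Algebra ↥E ↥N := (IntermediateField.inclusion hEN).toRingHom.toAlgebra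
  haveI : IsScalarTower (fixedFld q V) ↥E ↥N := IsScalarTower.of_algebraMap_eq (fun _ => rfl)
  have hι : ∀ y : ↥E, ((algebraMap ↥E ↥N y : ↥N) : PadicAlgCl q) = (y : PadicAlgCl q) :=
    fun _ => rfl
  have hd' : (d₁₂ (lModOn q V)).hom x = inflCochain₂ q V E
      (f : (E ≃ₐ[fixedFld q V] E) × (E ≃ₐ[fixedFld q V] E) → L.unitsRep (fixedFld q V) E) :=
    hd.trans hinfl
  exact cls_eq_zero_of_pullCocycle (fixedFld q V) E N f
    (pullCocycle_mem_coboundaries₂ q V hfix E N hι f x hd' b hb)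

/-- **LOC-DOWN**, unconditionally (`OpenSpec` is `H478.openSpec`). -/
theorem down : DownSpec := down_of H478.openSpec

end Fermat.Agent.S55.G.Rec.Loc.H363

end

end
-- ===== PACK-END S55/G/Rec/Loc/DownH363.lean

-- ===== PACK-BEGIN S55/L/UnrInv/Pack.lean
section



/-!
# S55, layer L, unramified invariants: the package of data of an unramified extension
-/

set_option autoImplicit false
set_option linter.style.haveILetI false

namespace Fermat.Agent.S55.L.UnrInv

open groupCohomology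

/-- The data attached to an unramified extension `E/K` of local fields which is used to define
the invariant map. -/
structure UnrPack (K E : Type) [Field K] [Field E] [Algebra K E] where
  /-- ring of integers of `K` -/
  A : ValuationSubring K
  /-- ring of integers of `E` -/
  B : ValuationSubring E
  hA : IsLocalRingOfIntegers A
  hB : IsLocalRingOfIntegers B
  /-- the Frobenius -/
  φ : E ≃ₐ[K] E
  frob : ∀ x ∈ B, φ x - x ^ Nat.card (IsLocalRing.ResidueField A) ∈ B.nonunits
  gen : ∀ g : E ≃ₐ[K] E, g ∈ Subgroup.zpowers φ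
  ordπ : ∀ π : K, IsUniformizer A π → ordZ B hB.1 (algebraMap K E π) = 1
  galB : ∀ (g : E ≃ₐ[K] E) (x : E), g x ∈ B ↔ x ∈ B
  galNon : ∀ (g : E ≃ₐ[K] E) (x : E), g x ∈ B.nonunits ↔ x ∈ B.nonunits
  intAB : ∀ x : K, algebraMap K E x ∈ B ↔ x ∈ A
  inertia : ∀ g : E ≃ₐ[K] E, (∀ x ∈ B, g x - x ∈ B.nonunits) → g = 1

variable {K E : Type} [Field K] [Field E] [Algebra K E]

/-- Existence of the package. -/
theorem exists_unrPack [FiniteDimensional K E] [IsLocalFld K]
    (h0 : RingOfIntegersUniqueSpec) (h1 : FiniteExtSpec)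
    (hcyc : UnramifiedCyclicSpec) (hint : IntegersComapSpec) (hin : UnramifiedInertiaSpec)
    (hu : IsUnramifiedExt K E) : Nonempty (UnrPack K E) := by
  haveI : IsLocalFld E := h1 K E
  obtain ⟨A, B, π₀, hA, hB, hπ₀A, hπ₀B⟩ := hu
  obtain ⟨-, φ, ⟨A₁, B₁, hA₁, hB₁, hfrob⟩, hgen⟩ := hcyc K E ⟨A, B, π₀, hA, hB, hπ₀A, hπ₀B⟩
  obtain rfl : A₁ = A := h0 K A₁ A hA₁ hA
  obtain rfl : B₁ = B := h0 E B₁ B hB₁ hB
  have hAB : ∀ x : K, algebraMap K E x ∈ B₁ ↔ x ∈ A₁ := hint K E A₁ B₁ hA hB
  refine ⟨⟨A₁, B₁, hA, hB, φ, hfrob, hgen, ?_, ?_, ?_, hAB, ?_⟩⟩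
  · intro π hπ
    have hπ0 : π ≠ 0 := uniformizer_ne_zero A₁ hπ
    have hπ₀0 : π₀ ≠ 0 := uniformizer_ne_zero A₁ hπ₀A
    have hu0 : π / π₀ ≠ 0 := div_ne_zero hπ0 hπ₀0
    have h1 : ordZ A₁ hA.1 (π / π₀) = 0 := by
      rw [div_eq_mul_inv, ordZ_mul A₁ hA.1 hπ0 (inv_ne_zero hπ₀0), ordZ_inv,
        ordZ_uniformizer A₁ hA.1 hπ, ordZ_uniformizer A₁ hA.1 hπ₀A]
      ring
    obtain ⟨h2, h3⟩ := (ordZ_eq_zero_iff A₁ hA.1 hu0).mp h1
    have h4 : ordZ B₁ hB.1 (algebraMap K E (π / π₀)) = 0 := by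
      rw [ordZ_eq_zero_iff B₁ hB.1 ((map_ne_zero _).mpr hu0), ← map_inv₀]
      exact ⟨(hAB _).mpr h2, (hAB _).mpr h3⟩
    have h5 : algebraMap K E π = algebraMap K E (π / π₀) * algebraMap K E π₀ := by
      rw [← map_mul, div_mul_cancel₀ _ hπ₀0]
    rw [h5, ordZ_mul B₁ hB.1 ((map_ne_zero _).mpr hu0) ((map_ne_zero _).mpr hπ₀0), h4,
      ordZ_uniformizer B₁ hB.1 hπ₀B]
    ring
  · intro g x
    exact mem_of_ringEquiv hint g.toRingEquiv B₁ B₁ hB hB
  · intro g x
    exact mem_nonunits_of_ringEquiv hint g.toRingEquiv B₁ B₁ hB hB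
  · intro g hg
    exact hin K E ⟨A₁, B₁, π₀, hA, hB, hπ₀A, hπ₀B⟩ B₁ hB g hg

namespace UnrPack

variable (P : UnrPack K E)

/-- the valuation of `E` as an additive map on the Galois module `Eˣ` -/
noncomputable def w : (unitsRep K E) →+ ℤ where
  toFun x := ordZ P.B P.hB.1 ((Additive.toMul (α := Eˣ) x : Eˣ) : E)
  map_zero' := by
    change ordZ P.B P.hB.1 ((1 : Eˣ) : E) = 0
    simp
  map_add' x y := by
    change ordZ P.B P.hB.1
      (((Additive.toMul (α := Eˣ) x * Additive.toMul (α := Eˣ) y : Eˣ)) : E) = _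
    rw [Units.val_mul, ordZ_mul P.B P.hB.1 (Units.ne_zero _) (Units.ne_zero _)]

theorem w_apply (x : unitsRep K E) :
    P.w x = ordZ P.B P.hB.1 ((Additive.toMul (α := Eˣ) x : Eˣ) : E) := rfl

theorem ordZ_gal (g : E ≃ₐ[K] E) (x : E) : ordZ P.B P.hB.1 (g x) = ordZ P.B P.hB.1 x :=
  ordZ_equiv P.B P.hB.1 P.B P.hB.1 g.toRingEquiv
    (fun x hx => (P.galB g x).mpr hx)
    (fun y hy => by
      have := (P.galB g (g.symm y))
      rw [AlgEquiv.apply_symm_apply] at this
      exact this.mp hy) x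

theorem w_invariant (g : E ≃ₐ[K] E) (x : unitsRep K E) :
    P.w ((unitsRep K E).ρ g x) = P.w x :=
  P.ordZ_gal g _

end UnrPack

end Fermat.Agent.S55.L.UnrInv

end
-- ===== PACK-END S55/L/UnrInv/Pack.lean

-- ===== PACK-BEGIN S55/E1/SpecAlg2.lean
section
/-
S55 engine E1 — block ALG, part 2: frozen Spec statements ALG6, ALG7, ALG8 (+ the p-torsion leaf).
Sub-architect: helper957.  Blueprint: coord/S55-E1.md §3; details: coord/S55-E1-ALG678.md.
NO proof obligations in this file: specs are `def … : Prop`.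
Producers prove `theorem algN : ALGnSpec`; consumers take hypotheses.

Setting: `G` finite, `φ : D →* G` injective (a decomposition group), `N : Rep ℤ G`,
`0 → R → P → N → 0` the standard presentation (`E1/Defs.lean`); `X : Rep ℤ D`,
`J = Rep.coind φ X`, `j : J ⟶ C`.  As a `D`-module `(P, R)` is again a presentation of `N`
by a free `ℤ[D]`-module: the RESTRICTED presentation `resSC φ N`.
-/



set_option autoImplicit false

open CategoryTheory CategoryTheory.Limits

namespace Fermat.Agent.S55.E1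

noncomputable section

variable {G D : Type} [Group G] [Group D]

/-! ## Vocabulary -/

/-- Restriction along `φ : D →* G` in degree `n`: `Hⁿ(G, A) → Hⁿ(D, A)`. -/
def resAlong (φ : D →* G) (A : Rep.{0} ℤ G) (n : ℕ) :
    groupCohomology A n →ₗ[ℤ] groupCohomology (Rep.res φ A) n :=
  (groupCohomology.map φ (𝟙 (Rep.res φ A)) n).hom

/-- The standard presentation of `N`, restricted to `D`: `0 → R|_D → P|_D → N|_D → 0`. -/
def resSC (φ : D →* G) (N : Rep.{0} ℤ G) : ShortComplex (Rep.{0} ℤ D) :=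
  (stdSC N).map (Rep.resFunctor φ)

theorem resSC_shortExact (φ : D →* G) (N : Rep.{0} ℤ G) : (resSC φ N).ShortExact :=
  (Rep.shortExact_res φ).2 (stdSC_shortExact N)

/-- The connecting map `δ_D : H¹(D, N) → H²(D, R)` of the restricted presentation. -/
def resδ (φ : D →* G) (N : Rep.{0} ℤ G) :
    groupCohomology (Rep.res φ N) 1 →ₗ[ℤ] groupCohomology (Rep.res φ (stdR N)) 2 :=
  (groupCohomology.δ (resSC_shortExact φ N) 1 2 rfl).hom

/-- The local pairing `⟨f, x⟩_D = f_*(δ_D x) ∈ H²(D, X)`, `f ∈ Hom_D(R, X)`, `x ∈ H¹(D, N)`. -/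
def pairLoc (φ : D →* G) {N : Rep.{0} ℤ G} {X : Rep.{0} ℤ D} (f : Rep.res φ (stdR N) ⟶ X)
    (x : groupCohomology (Rep.res φ N) 1) : groupCohomology X 2 :=
  (T.coeffMap f 2).hom (resδ φ N x)

/-- `f ↦ f^♭ = ev₁ ∘ f`: `Hom_G(R, Coind X) → Hom_D(R, X)` (Frobenius reciprocity). -/
def flat (φ : D →* G) {R : Rep.{0} ℤ G} {X : Rep.{0} ℤ D} (f : R ⟶ Rep.coind φ X) :
    Rep.res φ R ⟶ X :=
  (Rep.resFunctor φ).map f ≫ H173.ev1Hom φ X

/-- The Shapiro map `sh = (ev₁)_* ∘ res_φ : H²(G, Coind X) → H²(D, X)` (helper173). -/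
abbrev sh2 (φ : D →* G) (X : Rep.{0} ℤ D) :
    groupCohomology (Rep.coind φ X) 2 →ₗ[ℤ] groupCohomology X 2 :=
  (H173.shapiroHom φ X 2).hom

/-- `x ∈ H¹(G, N)` is locally trivial at all `i`: `x ∈ Ш¹_fin = ⋂_i ker res_i`. -/
def IsLocTriv {ι : Type} {Dc : ι → Type} [∀ i, Group (Dc i)] (φ : ∀ i, Dc i →* G)
    (N : Rep.{0} ℤ G) (x : groupCohomology N 1) : Prop :=
  ∀ i, resAlong (φ i) N 1 x = 0

/-- `Ш¹_fin = ⋂_i ker (res_i : H¹(G, N) → H¹(D_i, N))` as a subgroup of `H¹(G, N)`. -/
def shaFin {ι : Type} {Dc : ι → Type} [∀ i, Group (Dc i)] (φ : ∀ i, Dc i →* G)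
    (N : Rep.{0} ℤ G) : AddSubgroup (groupCohomology N 1) where
  carrier := {x | IsLocTriv φ N x}
  zero_mem' := fun i => map_zero _
  add_mem' := fun {a b} ha hb i => by
    show resAlong (φ i) N 1 (a + b) = 0
    rw [map_add, ha i, hb i, add_zero]
  neg_mem' := fun {a} ha i => by
    show resAlong (φ i) N 1 (-a) = 0
    rw [map_neg, ha i, neg_zero]

/-- `f ∈ A(C)` is a sum of local homs and of a hom which extends to `P`:
`f ∈ Σ_i j_i ∘ A(J_i) + res Bc(C)`. -/
def IsLocSum {ι : Type} [Fintype ι] {N C : Rep.{0} ℤ G} {J : ι → Rep.{0} ℤ G}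
    (j : ∀ i, J i ⟶ C) (f : homA N C) : Prop :=
  ∃ (fJ : ∀ i, homA N (J i)) (h : homB N C), f = ∑ i, fJ i ≫ j i + resBA N C h

/-! ## Specs -/

/-- **ALG6 (Shapiro and the restricted presentation).**  `G` finite, `φ : D →* G` injective.
(a) `δ_D : H¹(D, N) → H²(D, R)` is bijective and `res_φ ∘ δ = δ_D ∘ res_φ`;
(b) `f ↦ f^♭` is a bijection `Hom_G(R, Coind X) → Hom_D(R, X)`;
(c) `sh ⟨f, x⟩ = ⟨f^♭, res_φ x⟩_D`  (`sh` is bijective: `H173.shapiroHom_bijective`). -/
def ALG6Spec : Prop :=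
  ∀ (G D : Type) [Group G] [Group D] [Finite G] (φ : D →* G), Function.Injective φ →
    ∀ (N : Rep.{0} ℤ G),
    Function.Bijective (resδ φ N) ∧
    (∀ x : groupCohomology N 1,
      resAlong φ (stdR N) 2 (stdδ N x) = resδ φ N (resAlong φ N 1 x)) ∧
    ∀ X : Rep.{0} ℤ D,
      Function.Bijective (fun f : homA N (Rep.coind φ X) => flat φ f) ∧
      ∀ (f : homA N (Rep.coind φ X)) (x : groupCohomology N 1),
        sh2 φ X (pair f x) = pairLoc φ (flat φ f) (resAlong φ N 1 x)

/-- **ALG7a (`p`-torsion of `H²` of a class module at `p`).**  `H²(G, C)[p]` is cyclic of order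
`≤ p` (every nonzero element generates), and nonzero as soon as `p ∣ |G|`. -/
def ALG7aSpec : Prop :=
  ∀ (p : ℕ), p.Prime → ∀ (G : Type) [Group G] [Finite G] (C : Rep.{0} ℤ G)
    (γ : groupCohomology C 2), IsClassModuleAt p C γ →
    (∀ w w' : groupCohomology C 2, p • w = 0 → p • w' = 0 → w ≠ 0 → ∃ n : ℕ, w' = n • w) ∧
    (p ∣ Nat.card G → ∃ w : groupCohomology C 2, w ≠ 0 ∧ p • w = 0)

/-- **ALG7 (local image).**  `(X, γ_X)` a class module at `p` for `D`, `(C, γ)` a class module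
at `p` for `G`, `j : J = Coind X → C` with `j_*` injective on `H²(G, J)[p]` (GD3).  Then
`{⟨j ∘ f, ·⟩ : f ∈ A(J)} = {χ : H¹(G, N) → H²(G, C) | χ (ker res_φ) = 0}`. -/
def ALG7Spec : Prop :=
  ∀ (p : ℕ), p.Prime → ∀ (G D : Type) [Group G] [Group D] [Fintype G] [Finite D]
    (φ : D →* G), Function.Injective φ →
    ∀ (N C : Rep.{0} ℤ G) (γ : groupCohomology C 2) (X : Rep.{0} ℤ D)
      (γX : groupCohomology X 2) (j : Rep.coind φ X ⟶ C),
    Finite N.V → (∀ n : N.V, p • n = 0) →
    IsClassModuleAt p C γ → IsClassModuleAt p X γX → TateNakayamaAtSpec →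
    (∀ y : groupCohomology (Rep.coind φ X) 2, p • y = 0 → (T.coeffMap j 2).hom y = 0 → y = 0) →
    ∀ χ : groupCohomology N 1 →+ groupCohomology C 2,
      (∀ x, resAlong φ N 1 x = 0 → χ x = 0) ↔
        ∃ f : homA N (Rep.coind φ X), ∀ x, pair (f ≫ j) x = χ x

/-- **ALG8 (count), elementwise form.**  `(C, γ)` a class module at `p` with the norm-kill
hypothesis of ALG4/ALG5(c) for some `H ⊴ G` acting trivially on `N`; for every `i` a local
datum `φ_i : D_i ↪ G`, `(X_i, γ_i)` class module at `p`, `j_i : J_i = Coind X_i → C` injective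
on `H²[p]`.  With `Ш = Ш¹_fin = ⋂_i ker res_i ⊂ H¹(G, N)`:
(a) `⟨f, ·⟩` vanishes on `Ш`  ⇔  `f ∈ Σ_i j_i ∘ A(J_i) + res Bc(C)`;
(b) every additive `χ : H¹(G, N) → H²(G, C)` agrees on `Ш` with some `⟨f, ·⟩`;
(c) `|Hom(Ш, H²(G, C))| = |Ш|` and `Ш` is finite.
Hence `T := A(C)/(Σ_i j_i A(J_i) + res Bc(C)) ≅ Hom(Ш, H²(G, C))` has `|Ш|` elements. -/
def ALG8Spec : Prop :=
  ∀ (p : ℕ), p.Prime → ∀ (G : Type) [Group G] [Fintype G] (N C : Rep.{0} ℤ G)
    (γ : groupCohomology C 2), Finite N.V → (∀ n : N.V, p • n = 0) →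
    IsClassModuleAt p C γ → TateNakayamaAtSpec →
    ∀ (H : Subgroup G) [H.Normal] [Fintype H], (∀ h ∈ H, ∀ n : N.V, N.ρ h n = n) →
    NormInP p H C →
    ∀ (ι : Type) [Fintype ι] (Dc : ι → Type) [∀ i, Group (Dc i)] [∀ i, Finite (Dc i)]
      (φ : ∀ i, Dc i →* G), (∀ i, Function.Injective (φ i)) →
    ∀ (X : ∀ i, Rep.{0} ℤ (Dc i)) (γX : ∀ i, groupCohomology (X i) 2)
      (j : ∀ i, Rep.coind (φ i) (X i) ⟶ C),
    (∀ i, IsClassModuleAt p (X i) (γX i)) →
    (∀ i, ∀ y : groupCohomology (Rep.coind (φ i) (X i)) 2,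
      p • y = 0 → (T.coeffMap (j i) 2).hom y = 0 → y = 0) →
    (∀ f : homA N C, (∀ x, IsLocTriv φ N x → pair f x = 0) ↔ IsLocSum j f) ∧
    (∀ χ : groupCohomology N 1 →+ groupCohomology C 2,
      ∃ f : homA N C, ∀ x, IsLocTriv φ N x → pair f x = χ x) ∧
    Finite (shaFin φ N) ∧
    Nat.card (shaFin φ N →+ groupCohomology C 2) = Nat.card (shaFin φ N)

/-- ALG8 from ALG5, ALG7, ALG7a (assembly leaf; linear algebra over `𝔽_p`). -/
def ALG8AssemblySpec : Prop := ALG5Spec → ALG7Spec → ALG7aSpec → ALG8Spec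

end

end Fermat.Agent.S55.E1

end
-- ===== PACK-END S55/E1/SpecAlg2.lean

-- ===== PACK-BEGIN S55/Spec/Datum3.lean
section
/-
S55 moonshot — interface G/L → D, version 3 (FINAL): `IsGoodMu` (Spec/Datum2.lean) PLUS
GD5b: `C(F) / im J(F)` (the `S`-class group of `F`) is TORSION.  Chief architect: helper55.  NO sorry.

WHY (found while checking LIM2 "capitulation, cokernel part", coord/S55-E1.md §5): to push
`f ∈ Hom_G(R, C(F))` into `Hom(R, C'(F'))`, `C' = im J`, one multiplies `f` by `w ≡ 1 (p)`,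
`w ≡ 0 (m')` where `m' p^a` kills the classes of the values of `f` in `C/C'`; then GD5 applies.
This needs that every element of `C(F)` has a nonzero multiple in `im J(F)`.  In the intended model
`C/C' = Cl_S(F)`, which is finite (Mathlib: finiteness of the class group).

`GlobalSpecFin S p` is the FINAL target of layer G.   `GlobalSpec → GlobalSpecMu` is unchanged;
`GlobalSpecFin → GlobalSpecMu`.
-/


set_option autoImplicit false

open CategoryTheory

namespace Fermat.Agent.S55.Tow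

noncomputable section

variable {S : Finset Nat.Primes}

namespace TowerDatum

variable (D : TowerDatum S)

/-- GD5b: every element of `C(F)` has a nonzero multiple in the image of `J(F) = ⊕_{q ∈ S} J_q(F)`
(`C(F)/im J(F)` is the `S`-class group, a finite group). -/
def IsTorsModLocal : Prop :=
  ∀ (L : Level S) (c : (D.C L).V), ∃ m : ℕ, 0 < m ∧ D.IsLocalSum L (m • c)

/-- The properties of a tower datum consumed by the engine E1, final form. -/
structure IsGoodFin (p : ℕ) : Prop where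
  /-- GD1, GD3–GD8 (arithmetic ones above `μ_p`) -/
  good : D.IsGoodMu p
  /-- GD5b: `C(F)/im J(F)` is torsion -/
  gd5b : D.IsTorsModLocal

end TowerDatum

/-- **FINAL TARGET OF LAYER G**: a tower datum which is good above `μ_p` and whose
`C(F)/im J(F)` are torsion. -/
def GlobalSpecFin (S : Finset Nat.Primes) (p : ℕ) : Prop :=
  ∃ D : TowerDatum S, D.IsGoodFin p

theorem GlobalSpecFin.globalSpecMu {p : ℕ} (h : GlobalSpecFin S p) : GlobalSpecMu S p := by
  obtain ⟨D, hD⟩ := h
  exact ⟨D, hD.good⟩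

end

end Fermat.Agent.S55.Tow

end
-- ===== PACK-END S55/Spec/Datum3.lean

-- ===== PACK-BEGIN S55/E1/Main2.lean
section
/-
S55 engine E1 — top level, version 2 (CANONICAL): the engine consumes the weak global spec
`Tow.GlobalSpecMu`.  Chief architect: helper55.  NO sorry.

`EngineSpecMu` = the TARGET of layer D (engine E1).
`S55_of_specsMu : EngineSpecMu → InputsSpecMu → <frozen statement S55>`.
-/



set_option autoImplicit false

open CategoryTheory Module groupCohomology ExtCitation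

namespace Fermat.Agent.S55.E1

open Fermat.Agent.S55.Tow

/-- **TARGET OF LAYER D (engine E1), canonical form.** -/
def EngineSpecMu : Prop :=
  ∀ (p : ℕ) [Fact p.Prime], p ≠ 2 → ∀ (S : Finset Nat.Primes), pPrime p ∈ S →
    TateNakayamaAtSpec → GlobalSpecMu S p → LocalSpec p → SUnitsDivSpec S p → H1FiniteSpec S p →
    ∀ (M : Rep.{0, 0, 0} (ZMod p) (AlgebraicClosure ℚ ≃ₐ[ℚ] AlgebraicClosure ℚ))
      [FiniteDimensional (ZMod p) M], IsAdmissible S M → DimEq S M

/-- The arithmetic inputs (for all odd `p ∈ S`), canonical form. -/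
def InputsSpecMu : Prop :=
  TateNakayamaAtSpec ∧
  ∀ (p : ℕ) [Fact p.Prime], p ≠ 2 → ∀ (S : Finset Nat.Primes), pPrime p ∈ S →
    GlobalSpecMu S p ∧ LocalSpec p ∧ SUnitsDivSpec S p ∧ H1FiniteSpec S p

theorem EngineSpecMu.engineSpec (h : EngineSpecMu) : EngineSpec :=
  fun p _ hp2 S hpS hT hG hL hU hF M _ hM =>
    h p hp2 S hpS hT hG.globalSpecMu hL hU hF M hM

/-- S55 from the engine and the arithmetic inputs (canonical form). -/
theorem S55_of_specsMu (hE : EngineSpecMu) (hI : InputsSpecMu)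
    {p : ℕ} [Fact p.Prime] (hp2 : p ≠ 2) (S : Finset Nat.Primes) (hpS : pPrime p ∈ S)
    (M : Rep (ZMod p) (AlgebraicClosure ℚ ≃ₐ[ℚ] AlgebraicClosure ℚ))
    [FiniteDimensional (ZMod p) M]
    (hsm : ∀ m : M, ∃ F : IntermediateField ℚ (AlgebraicClosure ℚ), FiniteDimensional ℚ F ∧
      ∀ s ∈ F.fixingSubgroup, M.ρ s m = m)
    (hMur : ∀ q : Nat.Primes, q ∉ S → ∀ A : ValuationSubring (AlgebraicClosure ℚ),
      A.LiesOverPrime (q : ℕ) → ∀ g ∈ A.inertiaSubgroupIn ℚ, M.ρ g = 1) :
    ∃ B : sha₁ S (M.dualTwist (cycloChar p)) →ₗ[ZMod p] sha₂ S M →ₗ[ZMod p] ZMod p,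
      (∀ y, (∀ x, B y x = 0) → y = 0) ∧ (∀ x, (∀ y, B y x = 0) → x = 0) := by
  obtain ⟨hT, hrest⟩ := hI
  obtain ⟨hG, hL, hU, hF⟩ := hrest p hp2 S hpS
  obtain ⟨h1, h2, h3⟩ := hE p hp2 S hpS hT hG hL hU hF M ⟨hsm, hMur⟩
  exact Fermat.Agent.S55.Bridge.pairing_of_finrank_eq S M h1 h2 h3

end Fermat.Agent.S55.E1

end
-- ===== PACK-END S55/E1/Main2.lean

-- ===== PACK-BEGIN S55/Cap/Mod.lean
section



/-!
# S55 / A8 (CAP): the big Galois modules `𝔼 ⊂ 𝕁`   (helper303)

* `SU S`  (`𝔼`) : the smooth `S`-units of `ℚ̄`, i.e. the `S`-units of the maximal extension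
  `ℚ_S` of `ℚ` unramified outside `S`;  `= colim_L {e ∈ L.units | L.IsSUnit e}`;
* `JJ S q` (`𝕁_q`) : the smooth coinduction of `ℚ̄_qˣ` from the Prelude local group at `q`:
  functions `f : G_ℚ → ℚ̄_qˣ` with `f (d g) = d f(g)` (`d` local) which are right-invariant under
  some level `U_L`; `G_ℚ` acts by right translation;  `= colim_L (L.J q)`;
* `JJS S = ∏_{q ∈ S} 𝕁_q`  (`𝕁`);
* `iEJ S : 𝔼 → 𝕁`, the diagonal embedding `x ↦ (g ↦ emb_q (g x))_q`.

All are `G_ℚ`-modules (`AddCommGroup` + `DistribMulAction`), smooth for the tower `Tow.Level S`.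
-/

set_option autoImplicit false
set_option linter.unusedVariables false
set_option linter.unusedSectionVars false
set_option linter.style.haveILetI false

noncomputable section

namespace Fermat.Agent.S55.Cap

open Fermat.Agent.S55.PT Fermat.Agent.S55.Tow

variable (S : Finset Nat.Primes)

/-! ### levels -/

/-- the compositum of two levels -/
def capSup (L L' : Level S) : Level S where
  F := L.F ⊔ L'.F
  unram := L.unram.sup L'.unram
  normalU := by
    rw [IntermediateField.fixingSubgroup_sup]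
    haveI := L.normalU
    haveI := L'.normalU
    infer_instance

lemma le_capSup_left (L L' : Level S) : L ≤ capSup S L L' :=
  (le_sup_left : L.F ≤ L.F ⊔ L'.F)

lemma le_capSup_right (L L' : Level S) : L' ≤ capSup S L L' :=
  (le_sup_right : L'.F ≤ L.F ⊔ L'.F)

/-- the bottom level `ℚ` -/
def capBot : Level S where
  F := ⊥
  unram := IntermediateField.isUnramifiedOutside_bot S
  normalU := by
    have : (⊥ : IntermediateField ℚ Qbar).fixingSubgroup = ⊤ := by
      ext g
      simp only [Subgroup.mem_top, iff_true]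
      rw [IntermediateField.mem_fixingSubgroup_iff]
      intro x hx
      obtain ⟨r, rfl⟩ := IntermediateField.mem_bot.1 hx
      exact g.commutes r
    rw [this]
    infer_instance

lemma Level.U_mem_globalLevels (L : Level S) : L.U ∈ (globalLevels S).levels :=
  ⟨L.F, L.unram, rfl⟩

lemma Level.conj_mem_U (L : Level S) {u : Tow.GQ} (hu : u ∈ L.U) (g : Tow.GQ) : g * u * g⁻¹ ∈ L.U :=
  L.normalU.conj_mem u hu g

lemma Level.conj_mem_U' (L : Level S) {u : Tow.GQ} (hu : u ∈ L.U) (g : Tow.GQ) : g⁻¹ * u * g ∈ L.U := by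
  have := L.normalU.conj_mem u hu g⁻¹
  rwa [inv_inv] at this

/-! ### `𝔼` -/

/-- `x ∈ ℚ̄ˣ` is a unit at all places outside `S` -/
def IsSUq (x : unitsQbar.V) : Prop :=
  ∀ ℓ : Nat.Primes, ℓ ∉ S → ∀ A : ValuationSubring Qbar, A.LiesOverPrime (ℓ : ℕ) →
    ((Additive.toMul x : Qbarˣ) : Qbar) ∈ A ∧ (((Additive.toMul x)⁻¹ : Qbarˣ) : Qbar) ∈ A

lemma isSUq_iff (L : Level S) (e : L.units.V) : L.IsSUnit e ↔ IsSUq S (L.unitsCoe e) := Iff.rfl

lemma toMul_add' (x y : unitsQbar.V) :
    (Additive.toMul (x + y) : Qbarˣ) = (Additive.toMul x : Qbarˣ) * (Additive.toMul y : Qbarˣ) :=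
  rfl

lemma toMul_neg' (x : unitsQbar.V) :
    (Additive.toMul (-x) : Qbarˣ) = (Additive.toMul x : Qbarˣ)⁻¹ := rfl

lemma toMul_zero' : (Additive.toMul (0 : unitsQbar.V) : Qbarˣ) = 1 := rfl

lemma toMul_ρ (g : Tow.GQ) (x : unitsQbar.V) :
    ((Additive.toMul (unitsQbar.ρ g x) : Qbarˣ) : Qbar) = g ((Additive.toMul x : Qbarˣ) : Qbar) :=
  rfl

lemma toMul_ρ_inv (g : Tow.GQ) (x : unitsQbar.V) :
    (((Additive.toMul (unitsQbar.ρ g x))⁻¹ : Qbarˣ) : Qbar)
      = g (((Additive.toMul x)⁻¹ : Qbarˣ) : Qbar) := by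
  rw [Units.val_inv_eq_inv_val, Units.val_inv_eq_inv_val, toMul_ρ, map_inv₀]

/-- the transport of a valuation subring by an automorphism lies over the same prime -/
lemma liesOverPrime_comap (A : ValuationSubring Qbar) (g : Tow.GQ) (ℓ : ℕ)
    (hA : A.LiesOverPrime ℓ) :
    (A.comap ((g : Qbar ≃ₐ[ℚ] Qbar) : Qbar →+* Qbar)).LiesOverPrime ℓ := by
  unfold ValuationSubring.LiesOverPrime at hA ⊢
  rw [ValuationSubring.mem_nonunits_iff_or] at hA ⊢
  rcases hA with h0 | h
  · exact Or.inl h0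
  · right
    intro hmem
    apply h
    rw [ValuationSubring.mem_comap] at hmem
    have : ((g : Qbar ≃ₐ[ℚ] Qbar) : Qbar →+* Qbar) ((ℓ : Qbar)⁻¹) = (ℓ : Qbar)⁻¹ := by
      rw [map_inv₀, map_natCast]
    rwa [this] at hmem

lemma isSUq_ρ (g : Tow.GQ) {x : unitsQbar.V} (hx : IsSUq S x) : IsSUq S (unitsQbar.ρ g x) := by
  intro ℓ hℓ A hA
  obtain ⟨h1, h2⟩ := hx ℓ hℓ _ (liesOverPrime_comap A g ℓ hA)
  rw [ValuationSubring.mem_comap] at h1 h2
  exact ⟨by rw [toMul_ρ]; exact h1, by rw [toMul_ρ_inv]; exact h2⟩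

/-- the smooth `S`-units, as a subgroup of `ℚ̄ˣ` -/
def SUsub : AddSubgroup unitsQbar.V where
  carrier := {x | IsSUq S x ∧ ∃ L : Level S, ∀ g ∈ L.U, unitsQbar.ρ g x = x}
  zero_mem' := by
    refine ⟨fun ℓ hℓ A hA => ?_, capBot S, fun g hg => map_zero _⟩
    rw [toMul_zero']
    exact ⟨A.one_mem, by rw [inv_one]; exact A.one_mem⟩
  add_mem' := by
    rintro x y ⟨hx, L, hL⟩ ⟨hy, L', hL'⟩
    refine ⟨fun ℓ hℓ A hA => ?_, capSup S L L', fun g hg => ?_⟩
    · obtain ⟨h1, h2⟩ := hx ℓ hℓ A hA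
      obtain ⟨h3, h4⟩ := hy ℓ hℓ A hA
      rw [toMul_add']
      constructor
      · rw [Units.val_mul]
        exact A.mul_mem _ _ h1 h3
      · rw [mul_inv, Units.val_mul]
        exact A.mul_mem _ _ h2 h4
    · rw [map_add, hL g (Level.U_anti (le_capSup_left S L L') hg),
        hL' g (Level.U_anti (le_capSup_right S L L') hg)]
  neg_mem' := by
    rintro x ⟨hx, L, hL⟩
    refine ⟨fun ℓ hℓ A hA => ?_, L, fun g hg => ?_⟩
    · obtain ⟨h1, h2⟩ := hx ℓ hℓ A hA
      rw [toMul_neg']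
      exact ⟨h2, by rw [inv_inv]; exact h1⟩
    · rw [map_neg, hL g hg]

/-- `𝔼` : the smooth `S`-units -/
def SU : Type := ↥(SUsub S)

instance SU.instAddCommGroup : AddCommGroup (SU S) :=
  inferInstanceAs (AddCommGroup ↥(SUsub S))

/-- the underlying element of `ℚ̄ˣ` -/
def SU.val : SU S →+ unitsQbar.V := (SUsub S).subtype

lemma SU.val_injective : Function.Injective (SU.val S) := Subtype.val_injective

lemma SU.isSUq (x : SU S) : IsSUq S (SU.val S x) := x.2.1

lemma SU.exists_level (x : SU S) : ∃ L : Level S, ∀ g ∈ L.U, unitsQbar.ρ g (SU.val S x) = SU.val S x :=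
  x.2.2

lemma SU.ext {x y : SU S} (h : SU.val S x = SU.val S y) : x = y := SU.val_injective S h

/-- constructor for elements of `𝔼` -/
def SU.mk (x : unitsQbar.V) (hx : IsSUq S x)
    (hsm : ∃ L : Level S, ∀ g ∈ L.U, unitsQbar.ρ g x = x) : SU S := ⟨x, hx, hsm⟩

@[simp] lemma SU.val_mk (x : unitsQbar.V) (hx) (hsm) : SU.val S (SU.mk S x hx hsm) = x := rfl

lemma ρ_comm_of_fixed (L : Level S) (g : Tow.GQ) {x : unitsQbar.V}
    (hx : ∀ u ∈ L.U, unitsQbar.ρ u x = x) : ∀ u ∈ L.U, unitsQbar.ρ u (unitsQbar.ρ g x) = unitsQbar.ρ g x := by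
  intro u hu
  have h1 : u * g = g * (g⁻¹ * u * g) := by group
  rw [← Module.End.mul_apply, ← map_mul, h1, map_mul, Module.End.mul_apply,
    hx _ (Level.conj_mem_U' S L hu g)]

instance SU.instDistribMulAction : DistribMulAction Tow.GQ (SU S) where
  smul g x := SU.mk S (unitsQbar.ρ g (SU.val S x)) (isSUq_ρ S g (SU.isSUq S x)) (by
    obtain ⟨L, hL⟩ := SU.exists_level S x
    exact ⟨L, ρ_comm_of_fixed S L g hL⟩)
  one_smul x := by
    apply SU.ext
    show unitsQbar.ρ 1 (SU.val S x) = SU.val S x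
    rw [map_one, Module.End.one_apply]
  mul_smul g h x := by
    apply SU.ext
    show unitsQbar.ρ (g * h) (SU.val S x) = unitsQbar.ρ g (unitsQbar.ρ h (SU.val S x))
    rw [map_mul, Module.End.mul_apply]
  smul_zero g := by
    apply SU.ext
    show unitsQbar.ρ g (SU.val S 0) = SU.val S 0
    rw [map_zero, map_zero]
  smul_add g x y := by
    apply SU.ext
    show unitsQbar.ρ g (SU.val S (x + y)) = unitsQbar.ρ g (SU.val S x) + unitsQbar.ρ g (SU.val S y)
    rw [map_add, map_add]

@[simp] lemma SU.val_smul (g : Tow.GQ) (x : SU S) :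
    SU.val S (g • x) = unitsQbar.ρ g (SU.val S x) := rfl

/-- `𝔼` is smooth for the tower -/
lemma SU.smooth (x : SU S) : ∃ L : Level S, ∀ g ∈ L.U, g • x = x := by
  obtain ⟨L, hL⟩ := SU.exists_level S x
  exact ⟨L, fun g hg => SU.ext S (hL g hg)⟩

/-! ### `𝕁` -/

/-- the smooth coinduction of `ℚ̄_qˣ`, as a subgroup of the group of all functions -/
def JJsub (q : Nat.Primes) : AddSubgroup (Tow.GQ → (unitsQpbar q).V) where
  carrier := {f | (∀ (d : GQp q) (g : Tow.GQ), f (locQ q d * g) = (unitsQpbar q).ρ d (f g)) ∧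
    ∃ L : Level S, ∀ u ∈ L.U, ∀ g : Tow.GQ, f (g * u) = f g}
  zero_mem' := ⟨fun d g => (map_zero _).symm, capBot S, fun u hu g => rfl⟩
  add_mem' := by
    rintro f f' ⟨hf, L, hL⟩ ⟨hf', L', hL'⟩
    refine ⟨fun d g => ?_, capSup S L L', fun u hu g => ?_⟩
    · show f (locQ q d * g) + f' (locQ q d * g) = (unitsQpbar q).ρ d (f g + f' g)
      rw [hf, hf', map_add]
    · show f (g * u) + f' (g * u) = f g + f' g
      rw [hL u (Level.U_anti (le_capSup_left S L L') hu),
        hL' u (Level.U_anti (le_capSup_right S L L') hu)]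
  neg_mem' := by
    rintro f ⟨hf, L, hL⟩
    refine ⟨fun d g => ?_, L, fun u hu g => ?_⟩
    · show -f (locQ q d * g) = (unitsQpbar q).ρ d (-f g)
      rw [hf, map_neg]
    · show -f (g * u) = -f g
      rw [hL u hu]

/-- `𝕁_q` -/
def JJ (q : Nat.Primes) : Type := ↥(JJsub S q)

instance JJ.instAddCommGroup (q : Nat.Primes) : AddCommGroup (JJ S q) :=
  inferInstanceAs (AddCommGroup ↥(JJsub S q))

/-- the underlying function -/
def JJ.val (q : Nat.Primes) : JJ S q →+ (Tow.GQ → (unitsQpbar q).V) := (JJsub S q).subtype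

/-- evaluation at `g` -/
def JJ.ev (q : Nat.Primes) (g : Tow.GQ) : JJ S q →+ (unitsQpbar q).V :=
  (Pi.evalAddMonoidHom _ g).comp (JJ.val S q)

lemma JJ.ext {q : Nat.Primes} {f f' : JJ S q} (h : ∀ g, JJ.ev S q g f = JJ.ev S q g f') : f = f' :=
  Subtype.ext (funext h)

lemma JJ.ev_mul_left (q : Nat.Primes) (f : JJ S q) (d : GQp q) (g : Tow.GQ) :
    JJ.ev S q (locQ q d * g) f = (unitsQpbar q).ρ d (JJ.ev S q g f) := f.2.1 d g

lemma JJ.exists_level (q : Nat.Primes) (f : JJ S q) :
    ∃ L : Level S, ∀ u ∈ L.U, ∀ g : Tow.GQ, JJ.ev S q (g * u) f = JJ.ev S q g f := f.2.2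

/-- constructor for elements of `𝕁_q` -/
def JJ.mk (q : Nat.Primes) (f : Tow.GQ → (unitsQpbar q).V)
    (h1 : ∀ (d : GQp q) (g : Tow.GQ), f (locQ q d * g) = (unitsQpbar q).ρ d (f g))
    (h2 : ∃ L : Level S, ∀ u ∈ L.U, ∀ g : Tow.GQ, f (g * u) = f g) : JJ S q := ⟨f, h1, h2⟩

@[simp] lemma JJ.ev_mk (q : Nat.Primes) (f) (h1) (h2) (g : Tow.GQ) :
    JJ.ev S q g (JJ.mk S q f h1 h2) = f g := rfl

instance JJ.instDistribMulAction (q : Nat.Primes) : DistribMulAction Tow.GQ (JJ S q) where
  smul γ f := JJ.mk S q (fun g => JJ.ev S q (g * γ) f)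
    (fun d g => by
      show JJ.ev S q (locQ q d * g * γ) f = _
      rw [mul_assoc, JJ.ev_mul_left])
    (by
      obtain ⟨L, hL⟩ := JJ.exists_level S q f
      refine ⟨L, fun u hu g => ?_⟩
      show JJ.ev S q (g * u * γ) f = JJ.ev S q (g * γ) f
      have h1 : g * u * γ = g * γ * (γ⁻¹ * u * γ) := by group
      rw [h1, hL _ (Level.conj_mem_U' S L hu γ)])
  one_smul f := by
    apply JJ.ext
    intro g
    show JJ.ev S q (g * 1) f = _
    rw [mul_one]
  mul_smul γ γ' f := by
    apply JJ.ext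
    intro g
    show JJ.ev S q (g * (γ * γ')) f = JJ.ev S q (g * γ * γ') f
    rw [mul_assoc]
  smul_zero γ := by
    apply JJ.ext
    intro g
    rfl
  smul_add γ f f' := by
    apply JJ.ext
    intro g
    rfl

@[simp] lemma JJ.ev_smul (q : Nat.Primes) (γ g : Tow.GQ) (f : JJ S q) :
    JJ.ev S q g (γ • f) = JJ.ev S q (g * γ) f := rfl

/-- `𝕁_q` is smooth for the tower -/
lemma JJ.smooth (q : Nat.Primes) (f : JJ S q) : ∃ L : Level S, ∀ u ∈ L.U, u • f = f := by
  obtain ⟨L, hL⟩ := JJ.exists_level S q f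
  exact ⟨L, fun u hu => JJ.ext S fun g => hL u hu g⟩

/-- `𝕁 = ∏_{q ∈ S} 𝕁_q` -/
def JJS : Type := (q : ↥S) → JJ S q.1

instance JJS.instAddCommGroup : AddCommGroup (JJS S) :=
  inferInstanceAs (AddCommGroup ((q : ↥S) → JJ S q.1))

instance JJS.instDistribMulAction : DistribMulAction Tow.GQ (JJS S) :=
  inferInstanceAs (DistribMulAction Tow.GQ ((q : ↥S) → JJ S q.1))

/-- the `q`-component -/
def JJS.proj (q : ↥S) : JJS S →+ JJ S q.1 := Pi.evalAddMonoidHom _ q

lemma JJS.ext {x y : JJS S} (h : ∀ q, JJS.proj S q x = JJS.proj S q y) : x = y := funext h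

@[simp] lemma JJS.proj_smul (q : ↥S) (γ : Tow.GQ) (x : JJS S) :
    JJS.proj S q (γ • x) = γ • JJS.proj S q x := rfl

/-- `𝕁` is smooth for the tower -/
lemma JJS.smooth (x : JJS S) : ∃ L : Level S, ∀ u ∈ L.U, u • x = x := by
  classical
  have key : ∀ T : Finset ↥S, ∃ L : Level S, ∀ q ∈ T, ∀ u ∈ L.U, u • JJS.proj S q x = JJS.proj S q x := by
    intro T
    induction T using Finset.induction_on with
    | empty => exact ⟨capBot S, fun q hq => absurd hq (Finset.notMem_empty q)⟩
    | insert a T ha ih =>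
      obtain ⟨L, hL⟩ := ih
      obtain ⟨L', hL'⟩ := JJ.smooth S a.1 (JJS.proj S a x)
      refine ⟨capSup S L L', fun q hq u hu => ?_⟩
      rcases Finset.mem_insert.1 hq with rfl | hq'
      · exact hL' u (Level.U_anti (le_capSup_right S L L') hu)
      · exact hL q hq' u (Level.U_anti (le_capSup_left S L L') hu)
  obtain ⟨L, hL⟩ := key Finset.univ
  exact ⟨L, fun u hu => JJS.ext S fun q => hL q (Finset.mem_univ q) u hu⟩

/-! ### the diagonal embedding `𝔼 → 𝕁` -/

/-- the `q`-component of the diagonal embedding: `x ↦ (g ↦ emb_q (g x))` -/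
def iEJq (q : Nat.Primes) : SU S →+ JJ S q where
  toFun x := JJ.mk S q (fun g => embQbar q (unitsQbar.ρ g (SU.val S x)))
    (fun d g => by
      rw [map_mul, Module.End.mul_apply, embQbar_equivariant])
    (by
      obtain ⟨L, hL⟩ := SU.exists_level S x
      refine ⟨L, fun u hu g => ?_⟩
      rw [map_mul, Module.End.mul_apply, hL u hu])
  map_zero' := by
    apply JJ.ext
    intro g
    show embQbar q (unitsQbar.ρ g (SU.val S 0)) = 0
    rw [map_zero, map_zero, map_zero]
  map_add' x y := by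
    apply JJ.ext
    intro g
    show embQbar q (unitsQbar.ρ g (SU.val S (x + y))) =
      embQbar q (unitsQbar.ρ g (SU.val S x)) + embQbar q (unitsQbar.ρ g (SU.val S y))
    rw [map_add, map_add, map_add]

@[simp] lemma ev_iEJq (q : Nat.Primes) (g : Tow.GQ) (x : SU S) :
    JJ.ev S q g (iEJq S q x) = embQbar q (unitsQbar.ρ g (SU.val S x)) := rfl

lemma iEJq_smul (q : Nat.Primes) (γ : Tow.GQ) (x : SU S) : iEJq S q (γ • x) = γ • iEJq S q x := by
  apply JJ.ext
  intro g
  rw [JJ.ev_smul, ev_iEJq, ev_iEJq, SU.val_smul, map_mul, Module.End.mul_apply]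

lemma embQbar_injective (q : Nat.Primes) : Function.Injective (embQbar q) := by
  intro x y h
  apply Additive.toMul.injective
  apply Units.ext
  have h' := congrArg (fun z : (unitsQpbar q).V =>
    ((Additive.toMul z : (PadicAlgCl (q : ℕ))ˣ) : PadicAlgCl (q : ℕ))) h
  exact (padicEmbedding (q : ℕ)).toRingHom.injective h'

lemma iEJq_injective (q : Nat.Primes) : Function.Injective (iEJq S q) := by
  intro x y h
  apply SU.ext
  have h1 := congrArg (JJ.ev S q 1) h
  rw [ev_iEJq, ev_iEJq, map_one, Module.End.one_apply, Module.End.one_apply] at h1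
  exact embQbar_injective q h1

/-- the diagonal embedding `𝔼 → 𝕁` -/
def iEJ : SU S →+ JJS S := AddMonoidHom.mk' (fun x q => iEJq S q.1 x) (fun x y => by
  funext q
  exact map_add (iEJq S q.1) x y)

@[simp] lemma proj_iEJ (q : ↥S) (x : SU S) : JJS.proj S q (iEJ S x) = iEJq S q.1 x := rfl

lemma iEJ_smul (γ : Tow.GQ) (x : SU S) : iEJ S (γ • x) = γ • iEJ S x :=
  JJS.ext S fun q => iEJq_smul S q.1 γ x

lemma iEJ_injective (hS : S.Nonempty) : Function.Injective (iEJ S) := by
  obtain ⟨q, hq⟩ := hS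
  intro x y h
  exact iEJq_injective S q (congrArg (JJS.proj S ⟨q, hq⟩) h)

end Fermat.Agent.S55.Cap

end
end
-- ===== PACK-END S55/Cap/Mod.lean

-- ===== PACK-BEGIN S55/E1/H603/FiniteRamification.lean
section
/-
S55 bridge (helper603): FINITENESS OF RAMIFICATION in the Prelude's valuation-subring language.

`exists_isUnramifiedOutside F : ∃ S', F.IsUnramifiedOutside S'` for every finite `F/ℚ` inside `ℚ̄`,
and `exists_isUnramifiedOutside_ge S F : ∃ S' ⊇ S, F.IsUnramifiedOutside S'`.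
Hence every finite Galois `F'/ℚ` is a `Tow.Level S'` for some `S' ⊇ S`
(`exists_level_of_nLevel`).

Proof: `F = ℚ(α)`; for almost all `q` the differences of the conjugates of `α` are units at
every place above `q`, and an element of inertia moves `α` to a congruent conjugate.
Mathlib + Prelude + Bridge (on main).  No sorry.
-/


set_option autoImplicit false

namespace Fermat.Agent.S55.E1.H603

open Fermat.Agent.S55.Tow

section Units

variable (A : ValuationSubring Qbar)

theorem intCast_mem' (m : ℤ) : ((m : ℤ) : Qbar) ∈ A := intCast_mem A m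

/-- An integer prime to `q` is a unit at every place above `q`. -/
theorem inv_intCast_mem {q : ℕ} (hq : q.Prime) (hA : A.LiesOverPrime q) (m : ℤ)
    (hm : ¬ ((q : ℤ) ∣ m)) : ((m : Qbar))⁻¹ ∈ A := by
  have hcop : IsCoprime m (q : ℤ) := by
    have hqz : Prime (q : ℤ) := Nat.prime_iff_prime_int.1 hq
    exact ((hqz.coprime_iff_not_dvd).2 hm).symm
  obtain ⟨a, b, hab⟩ := hcop
  -- `m` is not a nonunit
  have hv : ¬ A.valuation (m : Qbar) < 1 := by
    intro hlt
    have hmn : (m : Qbar) ∈ A.nonunits := (A.mem_nonunits_iff).2 hlt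
    have hqn : ((q : ℕ) : Qbar) ∈ A.nonunits := hA
    have hmul : ∀ (c x : Qbar), c ∈ A → x ∈ A.nonunits → c * x ∈ A.nonunits := by
      intro c x hc hx
      rw [A.mem_nonunits_iff] at hx ⊢
      rw [map_mul]
      have hc1 : A.valuation c ≤ 1 := (A.valuation_le_one_iff c).2 hc
      calc A.valuation c * A.valuation x ≤ 1 * A.valuation x := by gcongr
        _ = A.valuation x := one_mul _
        _ < 1 := hx
    have h1 : (a : Qbar) * m ∈ A.nonunits := hmul _ _ (intCast_mem A a) hmn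
    have h2 : (b : Qbar) * (q : ℕ) ∈ A.nonunits := hmul _ _ (intCast_mem A b) hqn
    have h3 : (a : Qbar) * m + (b : Qbar) * (q : ℕ) ∈ A.nonunits := by
      rw [A.mem_nonunits_iff] at h1 h2 ⊢
      exact lt_of_le_of_lt (A.valuation.map_add _ _) (max_lt h1 h2)
    have h4 : (a : Qbar) * m + (b : Qbar) * (q : ℕ) = 1 := by
      have := congrArg (fun z : ℤ => (z : Qbar)) hab
      simpa using this
    rw [h4, A.mem_nonunits_iff, map_one] at h3
    exact lt_irrefl _ h3
  have hm0 : (m : Qbar) ≠ 0 := by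
    intro h0
    rw [h0, map_zero] at hv
    exact hv zero_lt_one
  rw [← A.valuation_le_one_iff, map_inv₀]
  have hge : 1 ≤ A.valuation (m : Qbar) := not_lt.1 hv
  exact inv_le_one_of_one_le₀ hge

/-- An element integral over `ℤ` lies in every valuation subring. -/
theorem mem_of_isIntegral_int {x : Qbar} (hx : IsIntegral ℤ x) : x ∈ A := by
  have h1 : IsIntegral A x := hx.tower_top
  obtain ⟨y, rfl⟩ := IsIntegrallyClosed.isIntegral_iff.1 h1
  exact y.2

end Units

/-- Every element of `ℚ̄` is integral at all places above all but finitely many primes. -/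
theorem exists_int_forall_mem (β : Qbar) :
    ∃ y : ℤ, y ≠ 0 ∧ ∀ q : ℕ, q.Prime → ¬ ((q : ℤ) ∣ y) →
      ∀ A : ValuationSubring Qbar, A.LiesOverPrime q → β ∈ A := by
  have halgQ : IsAlgebraic ℚ β := (Fermat.Agent.S55.Bridge.isAlgebraic_Qbar).isAlgebraic β
  have halg : IsAlgebraic ℤ β := (IsFractionRing.isAlgebraic_iff ℤ ℚ Qbar).2 halgQ
  obtain ⟨y, hy0, hy⟩ := halg.exists_integral_multiple
  refine ⟨y, hy0, fun q hq hqy A hA => ?_⟩
  have h1 : y • β ∈ A := mem_of_isIntegral_int A hy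
  have h2 : ((y : Qbar))⁻¹ ∈ A := inv_intCast_mem A hq hA y hqy
  have hy0' : (y : Qbar) ≠ 0 := by exact_mod_cast hy0
  have : β = ((y : Qbar))⁻¹ * (y • β) := by
    rw [zsmul_eq_mul, ← mul_assoc, inv_mul_cancel₀ hy0', one_mul]
  rw [this]
  exact A.mul_mem _ _ h2 h1

/-- Every nonzero element of `ℚ̄` is a unit at all places above all but finitely many primes. -/
theorem exists_int_forall_inv_mem (β : Qbar) :
    ∃ y : ℤ, y ≠ 0 ∧ ∀ q : ℕ, q.Prime → ¬ ((q : ℤ) ∣ y) →
      ∀ A : ValuationSubring Qbar, A.LiesOverPrime q → β⁻¹ ∈ A :=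
  exists_int_forall_mem β⁻¹

/-- A finite set of elements: common bad integer. -/
theorem exists_int_forall_mem_finset (T : Finset Qbar) :
    ∃ y : ℤ, y ≠ 0 ∧ ∀ q : ℕ, q.Prime → ¬ ((q : ℤ) ∣ y) →
      ∀ A : ValuationSubring Qbar, A.LiesOverPrime q → ∀ β ∈ T, β ∈ A ∧ β⁻¹ ∈ A := by
  classical
  induction T using Finset.induction_on with
  | empty => exact ⟨1, one_ne_zero, fun _ _ _ _ _ β hβ => absurd hβ (Finset.notMem_empty β)⟩
  | insert b T _ ih =>
    obtain ⟨y, hy0, hy⟩ := ih
    obtain ⟨y₁, hy₁0, hy₁⟩ := exists_int_forall_mem b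
    obtain ⟨y₂, hy₂0, hy₂⟩ := exists_int_forall_inv_mem b
    refine ⟨y * y₁ * y₂, mul_ne_zero (mul_ne_zero hy0 hy₁0) hy₂0, fun q hq hqy A hA β hβ => ?_⟩
    have hq1 : ¬ ((q : ℤ) ∣ y) := fun h => hqy (Dvd.dvd.mul_right (Dvd.dvd.mul_right h _) _)
    have hq2 : ¬ ((q : ℤ) ∣ y₁) := fun h => hqy (Dvd.dvd.mul_right (Dvd.dvd.mul_left h _) _)
    have hq3 : ¬ ((q : ℤ) ∣ y₂) := fun h => hqy (Dvd.dvd.mul_left h _)
    rcases Finset.mem_insert.1 hβ with rfl | hβT
    · exact ⟨hy₁ q hq hq2 A hA, hy₂ q hq hq3 A hA⟩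
    · exact hy q hq hq1 A hA β hβT

/-- **Finiteness of ramification.** -/
theorem exists_isUnramifiedOutside (F : IntermediateField ℚ Qbar) (hF : FiniteDimensional ℚ F) :
    ∃ S' : Finset Nat.Primes, F.IsUnramifiedOutside S' := by
  classical
  obtain ⟨α, hα⟩ := Field.exists_primitive_element ℚ F
  -- the conjugates of `α`
  let f := minpoly ℚ (α : Qbar)
  have hint : IsIntegral ℚ (α : Qbar) :=
    (Fermat.Agent.S55.Bridge.isAlgebraic_Qbar).isAlgebraic (α : Qbar) |>.isIntegral
  have hf0 : f ≠ 0 := minpoly.ne_zero hint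
  let R : Finset Qbar := (f.rootSet Qbar).toFinset
  let D : Finset Qbar := insert (α : Qbar) ((R ×ˢ R).image fun x => x.1 - x.2)
  obtain ⟨y, hy0, hy⟩ := exists_int_forall_mem_finset D
  -- the bad primes
  let Sn : Finset ℕ := y.natAbs.primeFactors
  let S' : Finset Nat.Primes := Sn.attach.image fun q => ⟨q.1, Nat.prime_of_mem_primeFactors q.2⟩
  refine ⟨S', hF, fun q hq A hA σ hσ => ?_⟩
  have hqy : ¬ (((q : ℕ) : ℤ) ∣ y) := by
    intro hdvd
    apply hq
    have h1 : (q : ℕ) ∣ y.natAbs := Int.natCast_dvd.1 hdvd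
    have h2 : (q : ℕ) ∈ Sn :=
      Nat.mem_primeFactors.2 ⟨q.2, h1, Int.natAbs_ne_zero.2 hy0⟩
    exact Finset.mem_image.2 ⟨⟨(q : ℕ), h2⟩, Finset.mem_attach _ _, Subtype.ext rfl⟩
  have hD := hy q q.2 hqy A hA
  have hαA : (α : Qbar) ∈ A := (hD _ (Finset.mem_insert_self _ _)).1
  rw [Fermat.Agent.S55.Bridge.mem_inertiaSubgroupIn_iff] at hσ
  have hnon : σ (α : Qbar) - α ∈ A.nonunits := hσ.2 _ hαA
  -- `σ α` is a conjugate of `α`
  have hαR : (α : Qbar) ∈ R := by
    rw [Set.mem_toFinset, Polynomial.mem_rootSet]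
    exact ⟨hf0, minpoly.aeval ℚ _⟩
  have hσR : σ (α : Qbar) ∈ R := by
    rw [Set.mem_toFinset, Polynomial.mem_rootSet]
    exact ⟨hf0, minpoly.aeval_algHom ℚ (σ : Qbar →ₐ[ℚ] Qbar) _⟩
  have hfix : σ (α : Qbar) = α := by
    by_contra hne
    have hd : σ (α : Qbar) - α ∈ D :=
      Finset.mem_insert_of_mem (Finset.mem_image.2
        ⟨(σ (α : Qbar), (α : Qbar)), Finset.mem_product.2 ⟨hσR, hαR⟩, rfl⟩)
    have hinv := (hD _ hd).2
    have hne0 : σ (α : Qbar) - α ≠ 0 := sub_ne_zero.2 hne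
    rw [A.mem_nonunits_iff] at hnon
    rw [← A.valuation_le_one_iff, map_inv₀] at hinv
    have hpos : 0 < A.valuation (σ (α : Qbar) - α) :=
      lt_of_le_of_ne zero_le (Ne.symm ((map_ne_zero _).2 hne0))
    have h1 : 1 ≤ A.valuation (σ (α : Qbar) - α) := by
      by_contra hlt
      rw [not_le] at hlt
      have : 1 < (A.valuation (σ (α : Qbar) - α))⁻¹ := (one_lt_inv₀ hpos).2 hlt
      exact absurd hinv (not_le.2 this)
    exact absurd hnon (not_lt.2 h1)
  -- hence `σ` fixes `F = ℚ(α)`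
  rw [IntermediateField.mem_fixingSubgroup_iff]
  intro x hx
  have hx' : (⟨x, hx⟩ : F) ∈ IntermediateField.adjoin ℚ {α} := by rw [hα]; trivial
  have hle : IntermediateField.adjoin ℚ {(α : Qbar)}
      ≤ IntermediateField.fixedField (Subgroup.zpowers σ) := by
    rw [IntermediateField.adjoin_le_iff]
    rintro z hz
    rw [Set.mem_singleton_iff] at hz
    subst hz
    rintro ⟨τ, hτ⟩
    obtain ⟨n, rfl⟩ := Subgroup.mem_zpowers_iff.1 hτ
    show (σ ^ n) (α : Qbar) = α
    have hstab : σ ∈ MulAction.stabilizer (Qbar ≃ₐ[ℚ] Qbar) (α : Qbar) := hfix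
    exact (Subgroup.zpow_mem _ hstab n : _)
  have hxα : x ∈ IntermediateField.adjoin ℚ {(α : Qbar)} := by
    have h1 : IntermediateField.lift (IntermediateField.adjoin ℚ {α})
        = IntermediateField.adjoin ℚ {(α : Qbar)} := by
      rw [IntermediateField.lift_adjoin, Set.image_singleton]
    rw [← h1]
    exact (IntermediateField.mem_lift (⟨x, hx⟩ : F)).2 hx'
  exact hle hxα ⟨σ, Subgroup.mem_zpowers _⟩

/-- Finiteness of ramification, above a given set. -/
theorem exists_isUnramifiedOutside_ge (S : Finset Nat.Primes) (F : IntermediateField ℚ Qbar)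
    (hF : FiniteDimensional ℚ F) :
    ∃ S' : Finset Nat.Primes, S ⊆ S' ∧ F.IsUnramifiedOutside S' := by
  classical
  obtain ⟨S₁, hS₁⟩ := exists_isUnramifiedOutside F hF
  exact ⟨S ∪ S₁, Finset.subset_union_left, hS₁.mono Finset.subset_union_right⟩

end Fermat.Agent.S55.E1.H603

end
-- ===== PACK-END S55/E1/H603/FiniteRamification.lean

-- ===== PACK-BEGIN S55/Bridge/H175/LevelPrime.lean
section




set_option autoImplicit false
set_option linter.style.haveILetI false

/-!
# B11, part 4: prime-ideal form of the finite-level decomposition group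

* `primeOfPlace V : Ideal (𝓞 K)` : the prime of the ring of integers below a valuation subring;
* `decompositionSubgroup_eq_stabilizer` : for `K/ℚ` algebraic and `V` over a rational prime, the
  decomposition group of `V` is the stabiliser of `primeOfPlace V`;
* `levelPrime q F` : the prime `{x ∈ 𝓞 F | ‖ι x‖ < 1}` of `𝓞 F`;
* `decompositionAt_eq_stabilizer` : the image of `Gal(ℚ̄_q/ℚ_q)` in `Gal(F/ℚ)` is the stabiliser
  of `levelPrime q F`.
-/

open scoped NNReal Pointwise NumberField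

namespace Fermat.Agent.S55.Bridge.H175

section General

variable {K : Type*} [Field K]

/-- The prime of `𝓞 K` below a valuation subring `V` of `K`. -/
def primeOfPlace (V : ValuationSubring K) : Ideal (𝓞 K) where
  carrier := {b | (b : K) ∈ V.nonunits}
  add_mem' := fun {a b} ha hb => by
    change algebraMap (𝓞 K) K (a + b) ∈ V.nonunits
    rw [map_add]
    exact V.nonunits.add_mem ha hb
  zero_mem' := by
    change algebraMap (𝓞 K) K 0 ∈ V.nonunits
    rw [map_zero]
    exact V.nonunits.zero_mem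
  smul_mem' := fun c b hb => by
    change algebraMap (𝓞 K) K (c * b) ∈ V.nonunits
    rw [map_mul]
    obtain ⟨hb1, hb2⟩ := ValuationSubring.mem_nonunits_iff_exists_mem_maximalIdeal.mp hb
    have hc : (c : K) ∈ V :=
      Fermat.Agent.S54.isIntegral_mem_valuationSubring V (NumberField.RingOfIntegers.isIntegral_coe c)
    have := Ideal.mul_mem_left _ (⟨(c : K), hc⟩ : V) hb2
    exact ValuationSubring.mem_nonunits_iff_exists_mem_maximalIdeal.mpr ⟨_, this⟩

theorem mem_primeOfPlace {V : ValuationSubring K} {b : 𝓞 K} :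
    b ∈ primeOfPlace V ↔ (b : K) ∈ V.nonunits := Iff.rfl

theorem primeOfPlace_isPrime (V : ValuationSubring K) : (primeOfPlace V).IsPrime := by
  constructor
  · intro h
    have : (1 : 𝓞 K) ∈ primeOfPlace V := by rw [h]; trivial
    have h1 : algebraMap (𝓞 K) K 1 ∈ V.nonunits := this
    rw [map_one, ValuationSubring.mem_nonunits_iff] at h1
    simp at h1
  · intro a b hab
    have hab' : algebraMap (𝓞 K) K (a * b) ∈ V.nonunits := hab
    rw [map_mul] at hab'
    replace hab : (a : K) * (b : K) ∈ V.nonunits := hab'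
    rw [mem_primeOfPlace, mem_primeOfPlace]
    have ha : (a : K) ∈ V :=
      Fermat.Agent.S54.isIntegral_mem_valuationSubring V (NumberField.RingOfIntegers.isIntegral_coe a)
    have hb : (b : K) ∈ V :=
      Fermat.Agent.S54.isIntegral_mem_valuationSubring V (NumberField.RingOfIntegers.isIntegral_coe b)
    obtain ⟨h1, h2⟩ := ValuationSubring.mem_nonunits_iff_exists_mem_maximalIdeal.mp hab
    have h3 : (⟨(a : K), ha⟩ : V) * ⟨(b : K), hb⟩ ∈ IsLocalRing.maximalIdeal V := h2
    rcases (IsLocalRing.maximalIdeal.isMaximal V).isPrime.mem_or_mem h3 with h | h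
    · exact Or.inl (ValuationSubring.mem_nonunits_iff_exists_mem_maximalIdeal.mpr ⟨ha, h⟩)
    · exact Or.inr (ValuationSubring.mem_nonunits_iff_exists_mem_maximalIdeal.mpr ⟨hb, h⟩)

theorem natCast_mem_primeOfPlace {V : ValuationSubring K} {ℓ : ℕ} (hV : V.LiesOverPrime ℓ) :
    (ℓ : 𝓞 K) ∈ primeOfPlace V := by
  change algebraMap (𝓞 K) K (ℓ : 𝓞 K) ∈ V.nonunits
  rw [map_natCast]
  exact hV

variable [CharZero K]

theorem coe_smul_ringOfIntegers (σ : K ≃ₐ[ℚ] K) (b : 𝓞 K) : ((σ • b : 𝓞 K) : K) = σ (b : K) :=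
  rfl

variable [Algebra.IsAlgebraic ℚ K]

/-- **Decomposition group = stabiliser of the prime below.** -/
theorem decompositionSubgroup_eq_stabilizer (V : ValuationSubring K) (ℓ : ℕ) (hℓ : ℓ.Prime)
    (hV : V.LiesOverPrime ℓ) :
    V.decompositionSubgroup ℚ = MulAction.stabilizer (K ≃ₐ[ℚ] K) (primeOfPlace V) := by
  ext σ
  rw [ValuationSubring.decompositionSubgroup, MulAction.mem_stabilizer_iff,
    MulAction.mem_stabilizer_iff]
  constructor
  · intro h
    have hmem : ∀ x : K, σ x ∈ V ↔ x ∈ V := by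
      intro x
      have h2 : σ • x ∈ σ • V ↔ x ∈ V := ValuationSubring.smul_mem_pointwise_smul_iff
      rw [h] at h2
      exact h2
    have hinv : ∀ x : K, σ⁻¹ x ∈ V.nonunits ↔ x ∈ V.nonunits := by
      intro x
      have h3 := apply_mem_nonunits_iff V σ hmem (σ⁻¹ x)
      rw [show σ (σ⁻¹ x) = x from by simp [AlgEquiv.aut_inv]] at h3
      exact h3.symm
    ext b
    rw [Ideal.mem_pointwise_smul_iff_inv_smul_mem, mem_primeOfPlace, mem_primeOfPlace,
      coe_smul_ringOfIntegers]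
    exact hinv _
  · intro h
    apply smul_valuationSubring_eq_of_algebraic V ℓ hℓ hV
    intro b hb
    let b' : 𝓞 K := ⟨b, hb⟩
    have h1 : σ • b' ∈ σ • primeOfPlace V ↔ b' ∈ primeOfPlace V :=
      Ideal.smul_mem_pointwise_smul_iff
    rw [h] at h1
    exact h1

end General

section Padic

variable (q : ℕ) [Fact q.Prime]
variable (F : IntermediateField ℚ (AlgebraicClosure ℚ))

/-- The prime `{x ∈ 𝓞 F | ‖ι x‖ < 1}` of `𝓞 F` cut out by the `q`-adic place of `ℚ̄`. -/
noncomputable def levelPrime : Ideal (𝓞 F) := primeOfPlace (levelPlace F (padicPlace q))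

theorem levelPrime_isPrime : (levelPrime q F).IsPrime := primeOfPlace_isPrime _

theorem levelPlace_liesOverPrime : (levelPlace F (padicPlace q)).LiesOverPrime q := by
  have h := padicPlace_liesOverPrime q
  unfold ValuationSubring.LiesOverPrime at h ⊢
  rw [ValuationSubring.mem_nonunits_iff_or] at h ⊢
  rcases h with h | h
  · left
    exact_mod_cast h
  · right
    intro hc
    apply h
    have := (mem_levelPlace F).mp hc
    simpa using this

theorem natCast_mem_levelPrime : (q : 𝓞 F) ∈ levelPrime q F :=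
  natCast_mem_primeOfPlace (levelPlace_liesOverPrime q F)

theorem mem_levelPrime_iff {x : 𝓞 F} :
    x ∈ levelPrime q F ↔ ‖padicEmbedding q (((x : F)) : AlgebraicClosure ℚ)‖ < 1 := by
  unfold levelPrime
  rw [mem_primeOfPlace, ValuationSubring.mem_nonunits_iff_or]
  constructor
  · rintro (h | h)
    · rw [h]; simp
    · by_contra hc
      apply h
      rw [mem_levelPlace_padicPlace]
      push Not at hc
      rw [IntermediateField.coe_inv, map_inv₀, norm_inv]
      exact inv_le_one_of_one_le₀ hc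
  · intro h
    by_cases h0 : (x : F) = 0
    · exact Or.inl h0
    · right
      intro hc
      rw [mem_levelPlace_padicPlace, IntermediateField.coe_inv, map_inv₀, norm_inv] at hc
      have hpos : 0 < ‖padicEmbedding q (((x : F)) : AlgebraicClosure ℚ)‖ := by
        rw [norm_pos_iff]
        intro h1
        apply h0
        have h2 : (((x : F)) : AlgebraicClosure ℚ) = 0 := by
          apply Fermat.Agent.S55.H175.padicEmbedding_injective q
          rw [h1, map_zero]
        exact_mod_cast h2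
      have := (inv_le_one₀ hpos).mp hc
      linarith

variable [hFn : Normal ℚ F]

/-- **The finite-level decomposition group is the stabiliser of the prime `levelPrime q F`.** -/
theorem decompositionAt_eq_stabilizer :
    decompositionAt q F = MulAction.stabilizer (F ≃ₐ[ℚ] F) (levelPrime q F) := by
  have : Algebra.IsAlgebraic ℚ (AlgebraicClosure ℚ) := AlgebraicClosure.isAlgebraic ℚ
  have : Algebra.IsAlgebraic ℚ F := Algebra.IsAlgebraic.of_injective F.val F.val.injective
  rw [decompositionAt_eq]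
  exact decompositionSubgroup_eq_stabilizer _ q Fact.out (levelPlace_liesOverPrime q F)

end Padic

end Fermat.Agent.S55.Bridge.H175

end
-- ===== PACK-END S55/Bridge/H175/LevelPrime.lean

-- ===== PACK-BEGIN S55/G/SIndH237/OrdH870.lean
section
/-
S55 (Poitou–Tate), layer G, leaf G-SIND:ORD — `PrescribedOrdSpec` (helper870).

Every divisor supported above `T` is the `T`-part of the divisor of some `x ∈ Lˣ`:
Chinese remainder theorem in the Dedekind domain `𝓞 L` with uniformisers.
Sorry-free; Mathlib + the frozen `SIndH237/Spec.lean` only.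
-/


set_option autoImplicit false

open scoped NumberField
open IsDedekindDomain

namespace Fermat.Agent.S55.G.SIndH237.H870

open Fermat.Agent.S55.G Fermat.Agent.S55.G.SIndH237

variable {L : Type} [Field L] [NumberField L]

/-- Only finitely many primes of `L` lie above a finite set `T` of rational primes. -/
theorem finite_isAbove (T : Finset Nat.Primes) :
    {w : HeightOneSpectrum (𝓞 L) | IsAbove T L w}.Finite := by
  classical
  set n : ℕ := ∏ q ∈ T, (q : ℕ) with hn
  have hn0 : n ≠ 0 := Finset.prod_ne_zero_iff.2 (fun q _ => q.2.ne_zero)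
  have hI : (Ideal.span {((n : ℕ) : 𝓞 L)} : Ideal (𝓞 L)) ≠ 0 := by
    rw [Ne, Ideal.zero_eq_bot, Ideal.span_singleton_eq_bot]
    exact_mod_cast hn0
  refine (Ideal.finite_factors hI).subset ?_
  rintro w ⟨q, hq, hqw⟩
  show w.asIdeal ∣ Ideal.span {((n : ℕ) : 𝓞 L)}
  rw [Ideal.dvd_span_singleton]
  obtain ⟨m, hm⟩ : (q : ℕ) ∣ n := Finset.dvd_prod_of_mem _ hq
  rw [hm, Nat.cast_mul]
  exact w.asIdeal.mul_mem_right _ hqw

/-- An integer of `L` with prescribed nonnegative orders at finitely many primes. -/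
theorem exists_intValuation_eq (W : Finset (HeightOneSpectrum (𝓞 L)))
    (e : HeightOneSpectrum (𝓞 L) → ℕ) :
    ∃ a : 𝓞 L, a ≠ 0 ∧ ∀ w ∈ W, w.intValuation a = WithZero.exp (-(e w : ℤ)) := by
  classical
  rcases W.eq_empty_or_nonempty with rfl | ⟨w₀, hw₀⟩
  · exact ⟨1, one_ne_zero, fun w hw => absurd hw (Finset.notMem_empty w)⟩
  have hunif : ∀ w : HeightOneSpectrum (𝓞 L), ∃ π : 𝓞 L,
      w.intValuation π = WithZero.exp (-(1 : ℤ)) := fun w => w.intValuation_exists_uniformizer
  choose π hπ using hunif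
  obtain ⟨y, hy⟩ := IsDedekindDomain.exists_forall_sub_mem_ideal (s := W)
    (fun w : HeightOneSpectrum (𝓞 L) => w.asIdeal) (fun w => e w + 1)
    (fun w _ => w.prime)
    (fun w _ w' _ hne h => hne (HeightOneSpectrum.ext h))
    (fun w => π w.1 ^ e w.1)
  have hval : ∀ w ∈ W, w.intValuation y = WithZero.exp (-(e w : ℤ)) := by
    intro w hw
    have h1 : w.intValuation (y - π w ^ e w) ≤ WithZero.exp (-((e w + 1 : ℕ) : ℤ)) :=
      (w.intValuation_le_pow_iff_mem _ _).2 (hy w hw)
    have h2 : w.intValuation (π w ^ e w) = WithZero.exp (-(e w : ℤ)) := by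
      rw [map_pow, hπ w, ← WithZero.exp_nsmul]
      congr 1
      simp
    have h3 : w.intValuation (y - π w ^ e w) < w.intValuation (π w ^ e w) := by
      rw [h2]
      refine lt_of_le_of_lt h1 ?_
      rw [WithZero.exp_lt_exp]
      push_cast
      omega
    have h4 : y = (y - π w ^ e w) + π w ^ e w := by ring
    rw [h4, Valuation.map_add_eq_of_lt_right _ h3, h2]
  refine ⟨y, ?_, hval⟩
  rintro rfl
  have := hval w₀ hw₀
  rw [map_zero] at this
  exact WithZero.exp_ne_zero.symm this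

/-- **SIND-ORD.** -/
theorem prescribedOrd : PrescribedOrdSpec := by
  classical
  intro T L _ _ d _
  set W : Finset (HeightOneSpectrum (𝓞 L)) := (finite_isAbove (L := L) T).toFinset with hW
  obtain ⟨a, ha0, ha⟩ := exists_intValuation_eq W (fun w => (d w).toNat)
  obtain ⟨b, hb0, hb⟩ := exists_intValuation_eq W (fun w => (-(d w)).toNat)
  have ha0' : (a : L) ≠ 0 := by
    intro h
    exact ha0 (by exact_mod_cast h)
  have hb0' : (b : L) ≠ 0 := by
    intro h
    exact hb0 (by exact_mod_cast h)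
  refine ⟨Additive.ofMul (Units.mk0 ((a : L) / (b : L)) (div_ne_zero ha0' hb0')), ?_⟩
  intro w hw
  have hwW : w ∈ W := by
    rw [hW, Set.Finite.mem_toFinset]
    exact hw
  have hva : w.valuation L (a : L) = WithZero.exp (-((d w).toNat : ℤ)) := by
    have := w.valuation_of_algebraMap (K := L) a
    rw [← ha w hwW, ← this]
  have hvb : w.valuation L (b : L) = WithZero.exp (-((-(d w)).toNat : ℤ)) := by
    have := w.valuation_of_algebraMap (K := L) b
    rw [← hb w hwW, ← this]
  rw [ordAt_apply]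
  show -WithZero.log (w.valuation L ((a : L) / (b : L))) = d w
  rw [map_div₀, hva, hvb, ← WithZero.exp_sub, WithZero.log_exp]
  have := Int.toNat_sub_toNat_neg (d w)
  omega

end Fermat.Agent.S55.G.SIndH237.H870

end
-- ===== PACK-END S55/G/SIndH237/OrdH870.lean

-- ===== PACK-BEGIN S55/KC/IndShapiroH475.lean
section



/-!
# S55 / layer KC, leaf KC-I2 (helper475): induced modules at finite level

Generic in the coefficient ring `k`.  `A : Rep k G`, `H ≤ G`, and `ρ` is a representation of `G`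
on `(G ⧸ H) →₀ A` with the *diagonal* action on singles (`IsDiag`).  For a normal subgroup
`V ≤ H` of `G`:

* `evHom` : the coefficient-at-`x` map `(Ind_H A)^V → A^V`, equivariant for every subgroup of
  `G ⧸ V` fixing `x`;
* `shapiro_ind` : `Hⁿ(G ⧸ V, (Ind_H A)^V) → Hⁿ(H ⧸ V, A^V)` is bijective (finite Shapiro,
  recognition form `T.ShapiroRecognitionSpec`);
* `ev_family_bijective` : `(Ind_H A)^V → ∏_{G ⧸ H} A^V` is bijective (for `T.FiniteProdSpec`).
-/

set_option autoImplicit false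

open CategoryTheory groupCohomology

namespace Fermat.Agent.S55.KC.H475

noncomputable section

/-- The type of representations of `G` on `(G ⧸ H) →₀ A` (declared generically in `k`, so that
the module structure is the one induced by `A`, also for `k = ℤ`). -/
abbrev IndRepr {k G : Type} [CommRing k] [Group G] (A : Rep.{0} k G) (H : Subgroup G) : Type :=
  Representation k G ((G ⧸ H) →₀ A.V)

variable {k G : Type} [CommRing k] [Group G] (A : Rep.{0} k G) (H : Subgroup G)
  (ρ : IndRepr A H)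

/-- `ρ` is the diagonal action on `(G ⧸ H) →₀ A`. -/
def IsDiag : Prop :=
  ∀ (g : G) (x : G ⧸ H) (a : A.V), ρ g (Finsupp.single x a) = Finsupp.single (g • x) (A.ρ g a)

variable {A H ρ}

lemma IsDiag.apply (hρ : IsDiag A H ρ) (g : G) (b : (G ⧸ H) →₀ A.V) (x : G ⧸ H) :
    ρ g b x = A.ρ g (b (g⁻¹ • x)) := by
  classical
  induction b using Finsupp.induction_linear with
  | zero => simp
  | add b c hb hc => simp only [map_add, Finsupp.add_apply, hb, hc]
  | single y a =>
    rw [hρ]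
    simp only [Finsupp.single_apply]
    by_cases h : y = g⁻¹ • x
    · subst h
      simp
    · have h' : g • y ≠ x := fun h' => h (by rw [← h', inv_smul_smul])
      simp [h, h']

/-- A normal subgroup contained in `H` acts trivially on `G ⧸ H`. -/
lemma smul_coset_eq (V : Subgroup G) [V.Normal] (hVH : V ≤ H) {v : G} (hv : v ∈ V)
    (x : G ⧸ H) : v • x = x := by
  induction x using QuotientGroup.induction_on with
  | H g =>
    change ((v * g : G) : G ⧸ H) = (g : G ⧸ H)
    rw [QuotientGroup.eq]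
    have h1 : (v * g)⁻¹ * g = g⁻¹ * v⁻¹ * g := by group
    rw [h1]
    exact hVH (Subgroup.Normal.conj_mem' inferInstance v⁻¹ (V.inv_mem hv) g)

/-! ### The finite-level modules -/

variable (A ρ) in
/-- `(Ind_H A)^V` as a representation of `G ⧸ V`. -/
abbrev indQ (V : Subgroup G) [V.Normal] : Rep.{0} k (G ⧸ V) :=
  (Rep.of ρ).quotientToInvariants V

variable (A) in
/-- `A^V` as a representation of `G ⧸ V`. -/
abbrev coefQ (V : Subgroup G) [V.Normal] : Rep.{0} k (G ⧸ V) :=
  A.quotientToInvariants V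

lemma indQ_ρ_coe (V : Subgroup G) [V.Normal] (g : G) (b : (indQ A ρ V).V) :
    (((indQ A ρ V).ρ (g : G ⧸ V) b : (indQ A ρ V).V) : (G ⧸ H) →₀ A.V) = ρ g b.1 := rfl

lemma coefQ_ρ_coe (V : Subgroup G) [V.Normal] (g : G) (a : (coefQ A V).V) :
    (((coefQ A V).ρ (g : G ⧸ V) a : (coefQ A V).V) : A.V) = A.ρ g a.1 := rfl

lemma value_mem (hρ : IsDiag A H ρ) (V : Subgroup G) [V.Normal] (hVH : V ≤ H)
    (b : (indQ A ρ V).V) (x : G ⧸ H) :
    b.1 x ∈ Representation.invariants (A.ρ.comp V.subtype) := by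
  intro v
  have h1 : ρ (v : G) b.1 = b.1 := b.2 v
  have h2 := hρ.apply (v : G) b.1 x
  rw [h1, smul_coset_eq V hVH (V.inv_mem v.2)] at h2
  exact h2.symm

/-- The coefficient-at-`x` map `(Ind_H A)^V → A^V`. -/
def evLin (hρ : IsDiag A H ρ) (V : Subgroup G) [V.Normal] (hVH : V ≤ H) (x : G ⧸ H) :
    (indQ A ρ V).V →ₗ[k] (coefQ A V).V :=
  LinearMap.codRestrict _ ((Finsupp.lapply x) ∘ₗ (Submodule.subtype _))
    (fun b => value_mem hρ V hVH b x)

lemma evLin_coe (hρ : IsDiag A H ρ) (V : Subgroup G) [V.Normal] (hVH : V ≤ H) (x : G ⧸ H)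
    (b : (indQ A ρ V).V) : ((evLin hρ V hVH x b : (coefQ A V).V) : A.V) = b.1 x := rfl

lemma evLin_equivariant (hρ : IsDiag A H ρ) (V : Subgroup G) [V.Normal] (hVH : V ≤ H)
    (x : G ⧸ H) (g : G) (hg : g • x = x) (b : (indQ A ρ V).V) :
    evLin hρ V hVH x ((indQ A ρ V).ρ (g : G ⧸ V) b) =
      (coefQ A V).ρ (g : G ⧸ V) (evLin hρ V hVH x b) := by
  apply Subtype.ext
  rw [evLin_coe, indQ_ρ_coe, coefQ_ρ_coe, evLin_coe, hρ.apply]
  have h : g⁻¹ • x = x := by
    rw [inv_smul_eq_iff, hg]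
  rw [h]

/-- The coefficient-at-`x` map as a morphism of representations of a subgroup `K ≤ G ⧸ V`
fixing `x`. -/
def evHom (hρ : IsDiag A H ρ) (V : Subgroup G) [V.Normal] (hVH : V ≤ H)
    (K : Subgroup (G ⧸ V)) (x : G ⧸ H) (hK : ∀ g : G, (g : G ⧸ V) ∈ K → g • x = x) :
    Rep.res K.subtype (indQ A ρ V) ⟶ Rep.res K.subtype (coefQ A V) :=
  Rep.ofHom
    { toLinearMap := evLin hρ V hVH x
      isIntertwining' := fun s => by
        obtain ⟨q, hq⟩ := s
        induction q using QuotientGroup.induction_on with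
        | H g =>
          apply LinearMap.ext
          intro b
          exact evLin_equivariant hρ V hVH x g (hK g hq) b }

lemma evHom_hom_apply (hρ : IsDiag A H ρ) (V : Subgroup G) [V.Normal] (hVH : V ≤ H)
    (K : Subgroup (G ⧸ V)) (x : G ⧸ H) (hK : ∀ g : G, (g : G ⧸ V) ∈ K → g • x = x)
    (b : (indQ A ρ V).V) :
    (((evHom hρ V hVH K x hK).hom b : (coefQ A V).V) : A.V) = b.1 x := rfl

/-! ### Finite Shapiro -/

lemma mem_of_mk_mem_map (V : Subgroup G) [V.Normal] (hVH : V ≤ H) {g : G}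
    (hg : (g : G ⧸ V) ∈ H.map (QuotientGroup.mk' V)) : g ∈ H := by
  obtain ⟨h, hh, hhg⟩ := hg
  have h1 : h⁻¹ * g ∈ V := by
    rw [← QuotientGroup.eq]
    exact hhg
  have h2 : g = h * (h⁻¹ * g) := by group
  rw [h2]
  exact H.mul_mem hh (hVH h1)

lemma smul_one_coset_eq_of_mem {g : G} (hg : g ∈ H) :
    g • ((1 : G) : G ⧸ H) = ((1 : G) : G ⧸ H) := by
  change ((g * 1 : G) : G ⧸ H) = ((1 : G) : G ⧸ H)
  rw [QuotientGroup.eq]
  simpa using hg

lemma fixes_one_coset (V : Subgroup G) [V.Normal] (hVH : V ≤ H) (g : G)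
    (hg : (g : G ⧸ V) ∈ H.map (QuotientGroup.mk' V)) :
    g • ((1 : G) : G ⧸ H) = ((1 : G) : G ⧸ H) :=
  smul_one_coset_eq_of_mem (mem_of_mk_mem_map V hVH hg)

/-- The Shapiro map `π : Res_{H/V} (Ind_H A)^V → A^V`, coefficient at the trivial coset. -/
def shapPi (hρ : IsDiag A H ρ) (V : Subgroup G) [V.Normal] (hVH : V ≤ H) :
    Rep.res (H.map (QuotientGroup.mk' V)).subtype (indQ A ρ V) ⟶
      Rep.res (H.map (QuotientGroup.mk' V)).subtype (coefQ A V) :=
  evHom hρ V hVH (H.map (QuotientGroup.mk' V)) ((1 : G) : G ⧸ H) (fixes_one_coset V hVH)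

section recognition

variable [Finite (G ⧸ H)] (hρ : IsDiag A H ρ) (V : Subgroup G) [V.Normal] (hVH : V ≤ H)
  (f : G ⧸ V → (coefQ A V).V)
  (hf : ∀ (s : H.map (QuotientGroup.mk' V)) (g : G ⧸ V),
    f ((s : G ⧸ V) * g) = (coefQ A V).ρ (s : G ⧸ V) (f g))

/-- the values of the preimage of `f` under the Shapiro bijection -/
def shapFun (f : G ⧸ V → (coefQ A V).V) (x : G ⧸ H) : A.V :=
  A.ρ x.out (f ((x.out⁻¹ : G) : G ⧸ V)).1

omit [Finite (G ⧸ H)] in
include hf in
lemma shapFun_mk (y : G) :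
    shapFun (H := H) V f (y : G ⧸ H) = A.ρ y (f ((y⁻¹ : G) : G ⧸ V)).1 := by
  unfold shapFun
  set y' := ((y : G ⧸ H)).out with hy'
  have h1 : ((y' : G) : G ⧸ H) = (y : G ⧸ H) := QuotientGroup.out_eq' _
  have h2 : y'⁻¹ * y ∈ H := by
    rw [← QuotientGroup.eq]
    exact h1
  have h3 : ((y'⁻¹ * y : G) : G ⧸ V) ∈ H.map (QuotientGroup.mk' V) := ⟨_, h2, rfl⟩
  have h4 := hf ⟨_, h3⟩ ((y⁻¹ : G) : G ⧸ V)
  have h5 : (((y'⁻¹ * y : G) : G ⧸ V)) * ((y⁻¹ : G) : G ⧸ V) = ((y'⁻¹ : G) : G ⧸ V) := by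
    rw [← QuotientGroup.mk_mul]
    congr 1
    group
  simp only [h5] at h4
  rw [h4, coefQ_ρ_coe, ← Module.End.mul_apply, ← map_mul]
  congr 2
  group

/-- the preimage of `f` under the Shapiro bijection, as a finitely supported function -/
def shapFinsupp (f : G ⧸ V → (coefQ A V).V) : (G ⧸ H) →₀ A.V :=
  Finsupp.ofSupportFinite (shapFun (H := H) V f) (Set.toFinite _)

lemma shapFinsupp_apply (x : G ⧸ H) :
    shapFinsupp (H := H) V f x = shapFun (H := H) V f x := rfl

include hf hρ hVH in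
lemma shapFinsupp_mem :
    shapFinsupp (H := H) V f ∈
      Representation.invariants ((Rep.of ρ).ρ.comp V.subtype) := by
  intro v
  change ρ (v : G) (shapFinsupp (H := H) V f) = shapFinsupp (H := H) V f
  apply Finsupp.ext
  intro x
  rw [hρ.apply, smul_coset_eq V hVH (V.inv_mem v.2)]
  induction x using QuotientGroup.induction_on with
  | H y =>
    rw [shapFinsupp_apply, shapFun_mk V f hf y, ← Module.End.mul_apply, ← map_mul]
    have h1 : (v : G) * y = y * (y⁻¹ * v * y) := by group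
    rw [h1, map_mul, Module.End.mul_apply]
    congr 1
    exact (f ((y⁻¹ : G) : G ⧸ V)).2 ⟨y⁻¹ * v * y, Subgroup.Normal.conj_mem' inferInstance _ v.2 y⟩

include hf in
theorem shapiro_unique :
    ∃! b : (indQ A ρ V).V, ∀ g : G ⧸ V,
      (shapPi hρ V hVH).hom ((indQ A ρ V).ρ g b) = f g := by
  refine ⟨⟨shapFinsupp (H := H) V f, shapFinsupp_mem hρ V hVH f hf⟩, ?_, ?_⟩
  · intro q
    induction q using QuotientGroup.induction_on with
    | H g =>
      apply Subtype.ext
      change (ρ g (shapFinsupp (H := H) V f)) ((1 : G) : G ⧸ H) = _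
      rw [hρ.apply]
      have h1 : g⁻¹ • ((1 : G) : G ⧸ H) = ((g⁻¹ : G) : G ⧸ H) := by
        change ((g⁻¹ * 1 : G) : G ⧸ H) = _
        rw [mul_one]
      rw [h1, shapFinsupp_apply, shapFun_mk V f hf, inv_inv, ← Module.End.mul_apply, ← map_mul,
        mul_inv_cancel, map_one, Module.End.one_apply]
  · intro b' hb'
    apply Subtype.ext
    apply Finsupp.ext
    intro x
    induction x using QuotientGroup.induction_on with
    | H y =>
      change b'.1 (y : G ⧸ H) = shapFinsupp (H := H) V f (y : G ⧸ H)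
      rw [shapFinsupp_apply, shapFun_mk V f hf]
      have h1 := congrArg Subtype.val (hb' ((y⁻¹ : G) : G ⧸ V))
      change (ρ y⁻¹ b'.1) ((1 : G) : G ⧸ H) = _ at h1
      rw [hρ.apply, inv_inv] at h1
      have h2 : y • ((1 : G) : G ⧸ H) = (y : G ⧸ H) := by
        change ((y * 1 : G) : G ⧸ H) = _
        rw [mul_one]
      rw [h2] at h1
      rw [← h1, ← Module.End.mul_apply, ← map_mul, mul_inv_cancel, map_one, Module.End.one_apply]

end recognition

/-- **Finite Shapiro for induced modules**: `Hⁿ(G ⧸ V, (Ind_H A)^V) → Hⁿ(H ⧸ V, A^V)` is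
bijective. -/
theorem shapiro_ind [Finite (G ⧸ H)] (hρ : IsDiag A H ρ) (V : Subgroup G) [V.Normal]
    (hVH : V ≤ H) (n : ℕ) :
    Function.Bijective
      (groupCohomology.map (H.map (QuotientGroup.mk' V)).subtype (shapPi hρ V hVH) n).hom :=
  Fermat.Agent.S55.T.ShapiroH303.shapiroRecognition k (G ⧸ V) (H.map (QuotientGroup.mk' V))
    (Rep.res (H.map (QuotientGroup.mk' V)).subtype (coefQ A V)) (indQ A ρ V) (shapPi hρ V hVH)
    (fun f hf => shapiro_unique hρ V hVH f hf) n

/-- The Shapiro isomorphism as an additive equivalence. -/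
def shapiroEquiv [Finite (G ⧸ H)] (hρ : IsDiag A H ρ) (V : Subgroup G) [V.Normal]
    (hVH : V ≤ H) (n : ℕ) :
    groupCohomology (indQ A ρ V) n ≃+
      groupCohomology (Rep.res (H.map (QuotientGroup.mk' V)).subtype (coefQ A V)) n :=
  AddEquiv.ofBijective
    (groupCohomology.map (H.map (QuotientGroup.mk' V)).subtype
      (shapPi hρ V hVH) n).hom.toAddMonoidHom
    (shapiro_ind hρ V hVH n)

/-! ### Restriction to a subgroup acting trivially on `G ⧸ H` -/

section trivialOnCosets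

variable [Finite (G ⧸ H)] (hρ : IsDiag A H ρ) (V : Subgroup G) [V.Normal] (hVH : V ≤ H)
  (K : Subgroup (G ⧸ V)) (hK : ∀ (g : G) (x : G ⧸ H), (g : G ⧸ V) ∈ K → g • x = x)

include hρ hVH in
lemma ev_family_bijective :
    Function.Bijective
      (fun (b : (indQ A ρ V).V) (x : G ⧸ H) => evLin hρ V hVH x b) := by
  constructor
  · intro b b' h
    apply Subtype.ext
    apply Finsupp.ext
    intro x
    exact congrArg Subtype.val (congrFun h x)
  · intro a
    have hmem : Finsupp.ofSupportFinite (fun x : G ⧸ H => ((a x : (coefQ A V).V) : A.V))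
        (Set.toFinite _) ∈ Representation.invariants ((Rep.of ρ).ρ.comp V.subtype) := by
      intro v
      change ρ (v : G) _ = _
      apply Finsupp.ext
      intro x
      rw [hρ.apply, smul_coset_eq V hVH (V.inv_mem v.2)]
      exact (a x).2 v
    refine ⟨⟨_, hmem⟩, ?_⟩
    funext x
    apply Subtype.ext
    rfl

include hK hρ hVH in
/-- If `K ≤ G ⧸ V` acts trivially on `G ⧸ H` and `Hⁿ(K, A^V) = 0` then
`Hⁿ(K, (Ind_H A)^V) = 0`. -/
theorem subsingleton_res_ind (n : ℕ)
    (h0 : Subsingleton (groupCohomology (Rep.res K.subtype (coefQ A V)) n)) :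
    Subsingleton (groupCohomology (Rep.res K.subtype (indQ A ρ V)) n) := by
  have hbij := Fermat.Agent.S55.T.H415.finiteProd k K (G ⧸ H)
    (fun _ => Rep.res K.subtype (coefQ A V)) (Rep.res K.subtype (indQ A ρ V))
    (fun x => evHom hρ V hVH K x (fun g hg => hK g x hg))
    (ev_family_bijective hρ V hVH) n
  refine ⟨fun x y => hbij.1 ?_⟩
  funext i
  exact Subsingleton.elim _ _

end trivialOnCosets

end

end Fermat.Agent.S55.KC.H475

end
-- ===== PACK-END S55/KC/IndShapiroH475.lean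

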