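import Mathlib
import Fermat.Prelude.Def_GroupCohomology_ContinuousUnramified
import Fermat.Agent.Pack.S56.E5L1
import Fermat.Agent.Pack.S56.E10L3
import Fermat.Agent.Pack.S56.E10L0
import Fermat.Agent.Pack.S56.E10L2
import Fermat.Agent.Pack.S56.E1L1
import Fermat.Agent.Pack.S56.E4L0
import Fermat.Agent.Pack.S56.E8L2
import Fermat.Agent.Pack.S56.E8L1
import Fermat.Agent.Pack.S56.E1L0
import Fermat.Agent.Pack.S56.E1L2
import Fermat.Agent.Pack.S56.E6L1
import Fermat.Agent.Pack.S56.E4L2
import Fermat.Agent.Pack.S56.E4L1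
import Fermat.Agent.Pack.S56.E2L2
import Fermat.Agent.Pack.S56.E11L0
import Fermat.Agent.Pack.S56.E2L3
import Fermat.Agent.Pack.S56.E6L2
import Fermat.Agent.Pack.S56.E9L3
import Fermat.Agent.Pack.S56.E0L2
import Fermat.Agent.Pack.S56.E11L3
import Fermat.Agent.Pack.S56.E5L2

-- ===== PACK-BEGIN S55/Local/H542/FF2Final.lean
section
/-
S55, layer L, piece FF2 (helper542), unconditional form:

  theorem mulH2FiniteField : Fermat.Agent.S55.Local.MulH2FiniteFieldStatement
-/




set_option autoImplicit false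

namespace Fermat.Agent.S55.Local.H542

open Fermat.Agent.S55.Local

/-- **FF2.** The multiplicative `H²` of an extension of finite fields vanishes. -/
theorem mulH2FiniteField : MulH2FiniteFieldStatement :=
  mulH2FiniteField_of cycCocycleCoboundaryIff cycCocycleSurj

end Fermat.Agent.S55.Local.H542

end
-- ===== PACK-END S55/Local/H542/FF2Final.lean

-- ===== PACK-BEGIN S55/H953/LocalNormIndex.lean
section




/-!
# S55 / local norm index theorem for cyclic extensions

`K` a complete ultrametric nontrivially normed field, `L/K` a finite cyclic Galois extension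
(normed), `L` locally compact.  Then `[Kˣ : N_{L/K} Lˣ] = [L : K]`.
-/

set_option autoImplicit false

namespace Fermat.Agent.S55.H953

open Fermat.Agent.S55.Herbrand Finset

section GroupEnd

variable {G : Type*} [CommGroup G]

/-- the additive endomorphism induced by a monoid endomorphism -/
def endA (φ : G →* G) : AddMonoid.End (Additive G) := MonoidHom.toAdditive φ

lemma endA_apply (φ : G →* G) (x : Additive G) :
    endA φ x = Additive.ofMul (φ (Additive.toMul x)) := rfl

lemma endA_pow_apply (φ : G →* G) (j : ℕ) (x : Additive G) :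
    (endA φ ^ j) x = Additive.ofMul ((⇑φ)^[j] (Additive.toMul x)) := by
  induction j generalizing x with
  | zero => rfl
  | succ j ih =>
    rw [pow_succ, Function.iterate_succ_apply]
    change (endA φ ^ j) (endA φ x) = _
    rw [ih]
    rfl

lemma endA_pow_eq_one (φ : G →* G) (n : ℕ) (h : ∀ x, (⇑φ)^[n] x = x) : endA φ ^ n = 1 := by
  ext x
  rw [endA_pow_apply, h]
  rfl

lemma delta_endA_apply (φ : G →* G) (x : Additive G) :
    delta (endA φ) x = Additive.ofMul (φ (Additive.toMul x) / Additive.toMul x) := rfl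

lemma normN_endA_apply (φ : G →* G) (n : ℕ) (x : Additive G) :
    normN (endA φ) n x = Additive.ofMul (∏ j ∈ range n, (⇑φ)^[j] (Additive.toMul x)) := by
  rw [normN_apply]
  simp_rw [endA_pow_apply]
  rw [ofMul_prod]

/-- restriction of an endomorphism to a stable subgroup -/
def resHom (φ : G →* G) (H : Subgroup G) (hH : ∀ x ∈ H, φ x ∈ H) : ↥H →* ↥H :=
  (φ.comp H.subtype).codRestrict H (fun x => hH x x.2)

lemma coe_resHom (φ : G →* G) (H : Subgroup G) (hH : ∀ x ∈ H, φ x ∈ H) (x : ↥H) :
    (resHom φ H hH x : G) = φ x := rfl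

lemma coe_resHom_iterate (φ : G →* G) (H : Subgroup G) (hH : ∀ x ∈ H, φ x ∈ H) (j : ℕ)
    (x : ↥H) : (((⇑(resHom φ H hH))^[j] x : ↥H) : G) = (⇑φ)^[j] x := by
  induction j generalizing x with
  | zero => rfl
  | succ j ih =>
    rw [Function.iterate_succ_apply, Function.iterate_succ_apply, ih]
    rfl

/-- `h⁰ = 1` for a stable subgroup on which fixed elements are norms -/
lemma h0_resHom_eq_one (φ : G →* G) (n : ℕ) (H : Subgroup G) (hH : ∀ x ∈ H, φ x ∈ H)
    (h : ∀ u ∈ H, φ u = u → ∃ y ∈ H, ∏ j ∈ range n, (⇑φ)^[j] y = u) :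
    h0 (endA (resHom φ H hH)) n = 1 := by
  rw [h0_eq_relIndex, AddSubgroup.relIndex_eq_one]
  intro x hx
  rw [AddMonoidHom.mem_ker, delta_endA_apply] at hx
  have hx' : resHom φ H hH (Additive.toMul x) / Additive.toMul x = 1 := ofMul_eq_zero.1 hx
  have hfix : φ (Additive.toMul x : ↥H) = (Additive.toMul x : ↥H) := by
    have := congrArg (Subtype.val) (div_eq_one.1 hx')
    simpa [coe_resHom] using this
  obtain ⟨y, hy, hyx⟩ := h _ (Additive.toMul x).2 hfix
  refine ⟨Additive.ofMul ⟨y, hy⟩, ?_⟩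
  rw [normN_endA_apply]
  apply Additive.toMul.injective
  apply Subtype.ext
  rw [toMul_ofMul, Subgroup.val_finsetProd]
  simp only [coe_resHom_iterate]
  exact hyx

/-- `h¹ = 1` for a stable subgroup on which elements of norm one are of the form `φ y / y` -/
lemma h1_resHom_eq_one (φ : G →* G) (n : ℕ) (H : Subgroup G) (hH : ∀ x ∈ H, φ x ∈ H)
    (h : ∀ u ∈ H, ∏ j ∈ range n, (⇑φ)^[j] u = 1 → ∃ y ∈ H, φ y / y = u) :
    h1 (endA (resHom φ H hH)) n = 1 := by
  rw [h1_eq_relIndex, AddSubgroup.relIndex_eq_one]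
  intro x hx
  rw [AddMonoidHom.mem_ker, normN_endA_apply] at hx
  have hx' : ∏ j ∈ range n, (⇑(resHom φ H hH))^[j] (Additive.toMul x) = 1 :=
    ofMul_eq_zero.1 hx
  have hN : ∏ j ∈ range n, (⇑φ)^[j] (Additive.toMul x : ↥H) = 1 := by
    have := congrArg (Subtype.val) hx'
    rw [Subgroup.val_finsetProd] at this
    simpa only [coe_resHom_iterate, Subgroup.coe_one] using this
  obtain ⟨y, hy, hyx⟩ := h _ (Additive.toMul x).2 hN
  refine ⟨Additive.ofMul ⟨y, hy⟩, ?_⟩
  rw [delta_endA_apply]
  apply Additive.toMul.injective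
  apply Subtype.ext
  simp only [toMul_ofMul]
  exact hyx

end GroupEnd

lemma exists_norm_lt_one_L (K L : Type*) [NontriviallyNormedField K] [NormedField L]
    [NormedAlgebra K L] : ∃ x : L, x ≠ 0 ∧ ‖x‖ < 1 := by
  obtain ⟨x, hx0, hx1⟩ := NormedField.exists_norm_lt_one K
  refine ⟨algebraMap K L x, ?_, ?_⟩
  · rw [Ne, map_eq_zero]
    exact norm_pos_iff.1 hx0
  · rw [norm_algebraMap']
    exact hx1

section Local

variable {K L : Type} [NontriviallyNormedField K] [IsUltrametricDist K] [CompleteSpace K]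
  [NormedField L] [NormedAlgebra K L] [FiniteDimensional K L] [IsGalois K L]
  (σ : L ≃ₐ[K] L) (hσ : ∀ g : L ≃ₐ[K] L, g ∈ Subgroup.zpowers σ)

/-- `σ` acting on the units of `L` -/
def sigU : Lˣ →* Lˣ := Units.map (σ : L →* L)

omit [IsUltrametricDist K] [CompleteSpace K] [FiniteDimensional K L] [IsGalois K L] in
lemma coe_sigU (u : Lˣ) : ((sigU σ u : Lˣ) : L) = σ (u : L) := rfl

omit [IsUltrametricDist K] [CompleteSpace K] [FiniteDimensional K L] [IsGalois K L] in
lemma coe_sigU_iterate (j : ℕ) (u : Lˣ) : (((⇑(sigU σ))^[j] u : Lˣ) : L) = (σ ^ j) (u : L) := by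
  induction j generalizing u with
  | zero => rfl
  | succ j ih =>
    rw [Function.iterate_succ_apply, ih, pow_succ]
    rfl

omit [IsUltrametricDist K] [CompleteSpace K] [FiniteDimensional K L] [IsGalois K L] in
lemma sigU_iterate_orderOf (u : Lˣ) : (⇑(sigU σ))^[orderOf σ] u = u := by
  apply Units.ext
  rw [coe_sigU_iterate, pow_orderOf_eq_one]
  rfl

omit [IsUltrametricDist K] [CompleteSpace K] [FiniteDimensional K L] [IsGalois K L] in
lemma coe_prod_sigU_iterate (n : ℕ) (u : Lˣ) :
    ((∏ j ∈ range n, (⇑(sigU σ))^[j] u : Lˣ) : L) = ∏ j ∈ range n, (σ ^ j) (u : L) := by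
  rw [Units.coe_prod]
  simp_rw [coe_sigU_iterate]

lemma sigU_mem_unitsNormOne (u : Lˣ) (hu : u ∈ unitsNormOne L) : sigU σ u ∈ unitsNormOne L := by
  rw [mem_unitsNormOne] at hu ⊢
  rw [coe_sigU, norm_algEquiv, hu]

/-- the subgroup `V = 1 + Λ₀` of `Lˣ` -/
noncomputable def subV [ProperSpace L] : Subgroup Lˣ where
  carrier := {u | (u : L) - 1 ∈ (normalFiltration σ hσ).Λ 0}
  one_mem' := (normalFiltration σ hσ).V_one 0
  mul_mem' := by
    intro a b ha hb
    exact (normalFiltration σ hσ).V_mul ha hb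
  inv_mem' := by
    intro a ha
    have := (normalFiltration σ hσ).V_inv ha
    simpa using this

variable [ProperSpace L]

lemma mem_subV {u : Lˣ} : u ∈ subV σ hσ ↔ (u : L) - 1 ∈ (normalFiltration σ hσ).Λ 0 := Iff.rfl

lemma sigU_mem_subV (u : Lˣ) (hu : u ∈ subV σ hσ) : sigU σ u ∈ subV σ hσ := by
  rw [mem_subV] at hu ⊢
  have := (normalFiltration σ hσ).V_stable hu 1
  rw [coe_sigU]
  simpa using this

lemma subV_le : subV σ hσ ≤ unitsNormOne L := by
  intro u hu
  rw [mem_subV] at hu
  rw [mem_unitsNormOne]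
  have : IsUltrametricDist L := IsUltrametricDist.of_normedAlgebra K
  have h1 : ‖(u : L) - 1‖ < 1 := (normalFiltration σ hσ).norm_lt_one hu
  have h2 : ‖(u : L)‖ = ‖((u : L) - 1) + 1‖ := by rw [sub_add_cancel]
  rw [h2, IsUltrametricDist.norm_add_eq_max_of_norm_ne_norm (by rw [norm_one]; exact h1.ne),
    norm_one, max_eq_right h1.le]

lemma exists_ball_subV : ∃ ε : ℝ, 0 < ε ∧ ∀ u : Lˣ, ‖(u : L) - 1‖ < ε → u ∈ subV σ hσ := by
  have hopen : IsOpen ((normalFiltration σ hσ).Λ 0 : Set L) := by
    change IsOpen (lam K L (rho0 K L * 2⁻¹ ^ 0) : Set L)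
    exact isOpen_lam (by rw [pow_zero, mul_one]; exact rho0_pos.ne')
  obtain ⟨ε, hε, hball⟩ := Metric.isOpen_iff.1 hopen 0 ((normalFiltration σ hσ).Λ 0).zero_mem
  refine ⟨ε, hε, fun u hu => ?_⟩
  rw [mem_subV]
  apply hball
  rwa [mem_ball_zero_iff]

omit [ProperSpace L] [IsUltrametricDist K] [CompleteSpace K] [IsGalois K L] in
lemma orderOf_ne_zero_gen : orderOf σ ≠ 0 :=
  (orderOf_pos σ).ne'

omit [ProperSpace L] [CompleteSpace K] in
include hσ in
/-- Hilbert 90 in the form `h¹(Lˣ) = 1`. -/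
lemma h1_sigU_eq_one : h1 (endA (sigU σ)) (orderOf σ) = 1 := by
  rw [h1_eq_relIndex, AddSubgroup.relIndex_eq_one]
  intro x hx
  rw [AddMonoidHom.mem_ker, normN_endA_apply] at hx
  have hx' : ∏ j ∈ range (orderOf σ), (⇑(sigU σ))^[j] (Additive.toMul x) = 1 :=
    ofMul_eq_zero.1 hx
  set u : Lˣ := Additive.toMul x with hu
  have hprod : ∏ j ∈ range (orderOf σ), (σ ^ j) (u : L) = 1 := by
    rw [← coe_prod_sigU_iterate, hx']
    rfl
  have hnorm : Algebra.norm K (u : L) = 1 := by
    apply (algebraMap K L).injective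
    rw [Algebra.norm_eq_prod_automorphisms, map_one,
      ← prod_range_pow_eq_prod_univ σ hσ (fun g => g (u : L))]
    exact hprod
  have : IsCyclic (L ≃ₐ[K] L) := ⟨σ, hσ⟩
  obtain ⟨y, hy⟩ := groupCohomology.exists_div_of_norm_eq_one hσ hnorm
  refine ⟨Additive.ofMul y⁻¹, ?_⟩
  rw [delta_endA_apply]
  apply Additive.toMul.injective
  apply Units.ext
  simp only [toMul_ofMul, Units.val_div_eq_div_val, coe_sigU, Units.val_inv_eq_inv_val, map_inv₀]
  rw [← hy]
  have hy0 : (y : L) ≠ 0 := y.ne_zero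
  have hσy0 : σ (y : L) ≠ 0 := by simpa using hy0
  field_simp

include hσ in
/-- **The Herbrand computation**: `h⁰(Lˣ) = [ker(σ - 1) : im N] = n`. -/
theorem h0_sigU_eq : h0 (endA (sigU σ)) (orderOf σ) = orderOf σ := by
  have hUL : IsUltrametricDist L := IsUltrametricDist.of_normedAlgebra K
  obtain ⟨ϖ, h0, h1, hmax⟩ := exists_uniformizer (exists_norm_lt_one_L K L)
  set F := normalFiltration σ hσ with hF
  have hU : ∀ x ∈ unitsNormOne L, sigU σ x ∈ unitsNormOne L := sigU_mem_unitsNormOne σ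
  have hV : ∀ x ∈ subV σ hσ, sigU σ x ∈ subV σ hσ := sigU_mem_subV σ hσ
  have hVU : subV σ hσ ≤ unitsNormOne L := subV_le σ hσ
  refine h0_eq_of_units_trivial (σV := endA (resHom (sigU σ) (subV σ hσ) hV))
    (σU := endA (resHom (sigU σ) (unitsNormOne L) hU))
    (i₁ := MonoidHom.toAdditive (Subgroup.inclusion hVU))
    (i₂ := MonoidHom.toAdditive (unitsNormOne L).subtype)
    (p := valA h0 h1 hmax) (orderOf_ne_zero_gen σ) ?_ ?_ ?_ ?_ ?_ ?_ ?_ ?_ ?_ ?_ ?_ ?_
    (h1_sigU_eq_one σ hσ)
  · -- σU ^ n = 1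
    refine endA_pow_eq_one _ _ (fun x => ?_)
    apply Subtype.ext
    rw [coe_resHom_iterate, sigU_iterate_orderOf]
  · -- σB ^ n = 1
    exact endA_pow_eq_one _ _ (sigU_iterate_orderOf σ)
  · -- i₁ injective
    intro x y hxy
    exact Additive.toMul.injective (Subgroup.inclusion_injective hVU hxy)
  · -- finite index
    obtain ⟨ε, hε, hball⟩ := exists_ball_subV σ hσ
    have hfin := finite_quotient_of_ball (subV σ hσ) hε hball
    have hrange : (MonoidHom.toAdditive (Subgroup.inclusion hVU)).range =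
        Subgroup.toAddSubgroup ((subV σ hσ).subgroupOf (unitsNormOne L)) := by
      ext x
      constructor
      · rintro ⟨y, rfl⟩
        exact (Additive.toMul y).2
      · intro hx
        exact ⟨Additive.ofMul ⟨(Additive.toMul x : ↥(unitsNormOne L)), hx⟩, rfl⟩
    rw [hrange]
    constructor
    rw [Subgroup.index_toAddSubgroup]
    exact Subgroup.index_ne_zero_of_finite
  · intro a; rfl
  · -- i₂ injective
    intro x y hxy
    exact Additive.toMul.injective (Subtype.val_injective hxy)
  · intro a; rfl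
  · exact valA_surjective h0 h1 hmax
  · -- exactness
    ext x
    rw [AddMonoidHom.mem_ker]
    constructor
    · intro hx
      have : ‖((Additive.toMul x : Lˣ) : L)‖ = 1 := (valA_eq_zero_iff h0 h1 hmax _).1 hx
      exact ⟨Additive.ofMul ⟨Additive.toMul x, this⟩, rfl⟩
    · rintro ⟨y, rfl⟩
      exact (valA_eq_zero_iff h0 h1 hmax _).2 (Additive.toMul y).2
  · -- valuation is σ-invariant
    intro b
    exact valA_eq_of_norm_eq h0 h1 hmax (norm_algEquiv σ _)
  · -- h⁰(V) = 1
    refine h0_resHom_eq_one _ _ _ _ (fun u hu hfix => ?_)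
    have hfix' : (σ : L ≃+* L) (u : L) = (u : L) := congrArg Units.val hfix
    obtain ⟨y, hy, hyu⟩ := F.exists_nm_eq hu hfix'
    have hy0 : y ≠ 0 := F.V_ne_zero hy
    refine ⟨Units.mk0 y hy0, hy, ?_⟩
    apply Units.ext
    rw [coe_prod_sigU_iterate, Units.val_mk0, ← hyu]
    unfold Filtration.nm
    simp_rw [toRingEquiv_pow_apply]
  · -- h¹(V) = 1
    refine h1_resHom_eq_one _ _ _ _ (fun u hu hN => ?_)
    have hN' : F.nm (u : L) = 1 := by
      unfold Filtration.nm
      simp_rw [toRingEquiv_pow_apply]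
      rw [← coe_prod_sigU_iterate, hN]
      rfl
    obtain ⟨y, hy, hyu⟩ := F.exists_div_eq hu hN'
    have hy0 : y ≠ 0 := F.V_ne_zero hy
    refine ⟨Units.mk0 y hy0, hy, ?_⟩
    apply Units.ext
    rw [Units.val_div_eq_div_val, coe_sigU, Units.val_mk0]
    exact hyu

omit [ProperSpace L] [CompleteSpace K] [IsUltrametricDist K] in
include hσ in
lemma ker_delta_sigU :
    AddMonoidHom.ker (delta (endA (sigU σ))) =
      Subgroup.toAddSubgroup ((⊤ : Subgroup Kˣ).map (Units.map (algebraMap K L : K →* L))) := by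
  ext x
  rw [AddMonoidHom.mem_ker, delta_endA_apply]
  constructor
  · intro hx
    have hx' : sigU σ (Additive.toMul x) / Additive.toMul x = 1 := ofMul_eq_zero.1 hx
    have hfix : σ ((Additive.toMul x : Lˣ) : L) = ((Additive.toMul x : Lˣ) : L) :=
      congrArg Units.val (div_eq_one.1 hx')
    have hall : ∀ g : L ≃ₐ[K] L, g ((Additive.toMul x : Lˣ) : L) = ((Additive.toMul x : Lˣ) : L) := by
      intro g
      have h1 : Subgroup.zpowers σ ≤
          MulAction.stabilizer (L ≃ₐ[K] L) ((Additive.toMul x : Lˣ) : L) := by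
        rw [Subgroup.zpowers_le]
        exact hfix
      exact h1 (hσ g)
    have hbot : ((Additive.toMul x : Lˣ) : L) ∈ (⊥ : IntermediateField K L) :=
      (IsGalois.mem_bot_iff_fixed _).2 hall
    obtain ⟨a, ha⟩ := IntermediateField.mem_bot.1 hbot
    have ha0 : a ≠ 0 := by
      rintro rfl
      rw [map_zero] at ha
      exact (Additive.toMul x : Lˣ).ne_zero ha.symm
    refine ⟨Units.mk0 a ha0, Subgroup.mem_top _, ?_⟩
    apply Units.ext
    exact ha
  · rintro ⟨a, -, ha⟩
    apply ofMul_eq_zero.2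
    rw [div_eq_one]
    apply Units.ext
    rw [coe_sigU]
    have : ((Additive.toMul x : Lˣ) : L) = algebraMap K L (a : K) := by
      have := congrArg Units.val ha
      exact this.symm
    rw [this]
    exact σ.commutes _

omit [ProperSpace L] [CompleteSpace K] in
include hσ in
lemma range_normN_sigU :
    AddMonoidHom.range (normN (endA (sigU σ)) (orderOf σ)) =
      Subgroup.toAddSubgroup
        ((Units.map (Algebra.norm K : L →* K)).range.map
          (Units.map (algebraMap K L : K →* L))) := by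
  have key : ∀ u : Lˣ, ∏ j ∈ range (orderOf σ), (⇑(sigU σ))^[j] u =
      Units.map (algebraMap K L : K →* L) (Units.map (Algebra.norm K : L →* K) u) := by
    intro u
    apply Units.ext
    rw [coe_prod_sigU_iterate]
    change _ = algebraMap K L (Algebra.norm K (u : L))
    rw [Algebra.norm_eq_prod_automorphisms,
      ← prod_range_pow_eq_prod_univ σ hσ (fun g => g (u : L))]
  ext x
  constructor
  · rintro ⟨y, rfl⟩
    rw [normN_endA_apply, key]
    exact ⟨_, ⟨Additive.toMul y, rfl⟩, rfl⟩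
  · rintro ⟨_, ⟨y, rfl⟩, hy⟩
    refine ⟨Additive.ofMul y, ?_⟩
    rw [normN_endA_apply]
    apply Additive.toMul.injective
    rw [toMul_ofMul, toMul_ofMul, key]
    exact hy

/-- **Local norm index theorem** (normed form): for a finite cyclic extension `L/K` of
locally compact ultrametric normed fields, `[Kˣ : N(Lˣ)] = [L : K]`. -/
theorem norm_index_eq_finrank_of_normed [IsCyclic (L ≃ₐ[K] L)] :
    (Units.map (Algebra.norm K : L →* K)).range.index = Module.finrank K L := by
  obtain ⟨σ, hσ⟩ := IsCyclic.exists_generator (α := L ≃ₐ[K] L)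
  have h := h0_sigU_eq σ hσ
  rw [h0_eq_relIndex, ker_delta_sigU σ hσ, range_normN_sigU σ hσ,
    Subgroup.relIndex_toAddSubgroup] at h
  have hinj : Function.Injective (Units.map (algebraMap K L : K →* L)) :=
    Units.map_injective (algebraMap K L).injective
  rw [Subgroup.relIndex_map_map_of_injective _ _ hinj, Subgroup.relIndex_top_right] at h
  rw [h, orderOf_eq_card_of_forall_mem_zpowers hσ, IsGalois.card_aut_eq_finrank]

end Local

end Fermat.Agent.S55.H953

end
-- ===== PACK-END S55/H953/LocalNormIndex.lean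

-- ===== PACK-BEGIN S55/H295/InfRes.lean
section


/-!
# Cohomological triviality, part 3: higher inflation–restriction (vanishing form)

For `S ⊴ G` and `A : Rep k G`:

* `isZero_H_quot_of`: if `Hⁱ(S, A) = 0` for `1 ≤ i ≤ n` and `Hⁿ⁺¹(G, A) = 0`, then
  `Hⁿ⁺¹(G ⧸ S, A^S) = 0` (injectivity of inflation);
* `isZero_H_of_quot`: if `Hⁱ(S, A) = 0` for `1 ≤ i ≤ n + 1` and `Hⁿ⁺¹(G ⧸ S, A^S) = 0`, then
  `Hⁿ⁺¹(G, A) = 0` (exactness in the middle).

Both are proved by dimension shifting, starting from Mathlib's degree-one statement.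
-/

set_option autoImplicit false

open CategoryTheory groupCohomology Rep Limits

universe u

namespace Fermat.Agent.S55.H295

noncomputable section

variable {k G : Type u} [CommRing k] [Group G] (S : Subgroup G) [S.Normal]

/-- The invariants of the shifting sequence, as a short exact sequence of `G ⧸ S`-modules. -/
lemma upSES_qti_shortExact (A : Rep.{u} k G)
    (h1 : IsZero (groupCohomology (res S.subtype A) 1)) :
    ((upSES A).map (quotientToInvariantsFunctor.{u} k S)).ShortExact :=
  shortExact_quotientToInvariants S (upSES_shortExact A) h1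

/-- Injectivity of inflation in degree `n + 1`, in vanishing form. -/
theorem isZero_H_quot_of : ∀ (n : ℕ) (A : Rep.{u} k G),
    (∀ i, i < n → IsZero (groupCohomology (res S.subtype A) (i + 1))) →
    IsZero (groupCohomology A (n + 1)) →
    IsZero (groupCohomology (A.quotientToInvariants S) (n + 1)) := by
  intro n
  induction n with
  | zero =>
    intro A _ hG
    have h := IsZero.of_mono (H1InfRes A S).f (show IsZero (H1InfRes A S).X₂ from hG)
    exact h
  | succ n ih =>
    intro A hS hG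
    have hS1 : IsZero (groupCohomology (res S.subtype A) 1) := hS 0 (Nat.succ_pos n)
    have hup : IsZero (groupCohomology ((up A).quotientToInvariants S) (n + 1)) := by
      apply ih (up A)
      · intro i hi
        exact (isZero_H_up_iff S.subtype S.subtype_injective A i).2 (hS (i + 1) (by omega))
      · exact (isZero_H_up_iff_self A n).2 hG
    exact isZero_H_left (upSES_qti_shortExact S A hS1) (n + 1) hup
      (isZero_H_quotientToInvariants_coindBot S A (n + 1))

/-- Exactness of inflation–restriction in the middle in degree `n + 1`, in vanishing form. -/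
theorem isZero_H_of_quot : ∀ (n : ℕ) (A : Rep.{u} k G),
    (∀ i, i ≤ n → IsZero (groupCohomology (res S.subtype A) (i + 1))) →
    IsZero (groupCohomology (A.quotientToInvariants S) (n + 1)) →
    IsZero (groupCohomology A (n + 1)) := by
  intro n
  induction n with
  | zero =>
    intro A hS hQ
    exact (H1InfRes_exact A S).isZero_of_both_isZero hQ (hS 0 le_rfl)
  | succ n ih =>
    intro A hS hQ
    have hS1 : IsZero (groupCohomology (res S.subtype A) 1) := hS 0 (Nat.zero_le _)
    have hupQ : IsZero (groupCohomology ((up A).quotientToInvariants S) (n + 1)) :=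
      isZero_H_right (upSES_qti_shortExact S A hS1) (n + 1)
        (isZero_H_quotientToInvariants_coindBot S A n) hQ
    have hup : IsZero (groupCohomology (up A) (n + 1)) := by
      apply ih (up A) _ hupQ
      intro i hi
      exact (isZero_H_up_iff S.subtype S.subtype_injective A i).2 (hS (i + 1) (by omega))
    exact (isZero_H_up_iff_self A n).1 hup

end

end Fermat.Agent.S55.H295

end
-- ===== PACK-END S55/H295/InfRes.lean

-- ===== PACK-BEGIN S55/T/PermMainH652.lean
section




/-!
# S55, layer T, piece T10 (helper652): unconditional form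

`permSpec : PermSpec` and `permH1Spec : PermH1Spec`, from `PermH652` (conditional proofs),
`ShapiroH303.shapiroRecognition` and `H635.directSum`.
-/

set_option autoImplicit false

namespace Fermat.Agent.S55.T.H652

open Fermat.Agent.S55.T

/-- **T10.**  Permutation modules over a finite group: localisations detect classes and are
surjective orbitwise. -/
theorem permSpec : PermSpec :=
  permSpec_of ShapiroH303.shapiroRecognition H635.directSum

/-- **T10'.**  `H¹(G, ℤ[X]) = 0` for a finite group `G`. -/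
theorem permH1Spec : PermH1Spec :=
  permH1Spec_of ShapiroH303.shapiroRecognition H635.directSum

end Fermat.Agent.S55.T.H652

end
-- ===== PACK-END S55/T/PermMainH652.lean

-- ===== PACK-BEGIN S55/G/SesH604.lean
section
/-
S55, layer G, leaf G-SES (helper604), on top of helper421's `G/Defs.lean`.

* `diagHom_injective`   : `Lˣ → J_S(L) × Div^S(L)` is injective for `S ≠ ∅`;
* `primeIn_finite`      : only finitely many primes of `L` lie above `S`;
* `sUnit_eq`            : `sUnit S L` is Mathlib's group of `S`-units (`Set.unit`) for the set of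
                          primes above `S`;
* bridge to the Dirichlet `S`-unit theorem of `S55/H604`.
-/




set_option autoImplicit false
set_option linter.unusedSectionVars false

open scoped NumberField TensorProduct
open IsDedekindDomain

noncomputable section

namespace Fermat.Agent.S55.G.SesH604

open Fermat.Agent.S55.G

/-! ## 1. Injectivity of the diagonal map -/

section Diag

variable (S : Finset Nat.Primes) (L : Type) [Field L] [CharZero L]

lemma nonempty_subtype_of_nonempty (hS : S.Nonempty) : Nonempty S :=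
  let ⟨q, hq⟩ := hS
  ⟨⟨q, hq⟩⟩

lemma algebraMap_QS_injective (hS : S.Nonempty) :
    Function.Injective (algebraMap ℚ (QS S)) := by
  obtain ⟨q, hq⟩ := hS
  intro a b hab
  have h := congrArg (QS.proj S ⟨q, hq⟩) hab
  simpa using h

lemma asDiag_injective (hS : S.Nonempty) : Function.Injective (asDiag S L) :=
  Algebra.TensorProduct.includeLeft_injective (R := ℚ) (S := ℚ) (A := L) (B := QS S)
    (algebraMap_QS_injective S hS)

lemma unitsDiag_injective (hS : S.Nonempty) : Function.Injective (unitsDiag S L) := by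
  intro x y hxy
  apply Additive.toMul.injective
  apply Units.ext
  apply asDiag_injective S L hS
  have := congrArg (fun z : Additive (AS S L)ˣ => ((z.toMul : (AS S L)ˣ) : AS S L)) hxy
  simpa [coe_unitsDiag_apply] using this

end Diag

section Global

variable (S : Finset Nat.Primes) (G L : Type) [Group G] [Field L] [NumberField L]
  [MulSemiringAction G L]

/-- **G-SES (a).** The diagonal map `Lˣ → J_S(L) × Div^S(L)` is injective when `S ≠ ∅`. -/
theorem diagHom_injective (hS : S.Nonempty) : Function.Injective (diagHom S L) := by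
  intro x y hxy
  exact unitsDiag_injective S L hS (congrArg Prod.fst hxy)

/-! ## 2. The primes above `S` -/

/-- The set of primes of `L` above `S`. -/
def primeInSet : Set (HeightOneSpectrum (𝓞 L)) := {w | IsAbove S L w}

lemma mem_primeInSet (w : HeightOneSpectrum (𝓞 L)) : w ∈ primeInSet S L ↔ IsAbove S L w := Iff.rfl

lemma natCast_ne_zero_of_prime (q : Nat.Primes) : ((q : ℕ) : 𝓞 L) ≠ 0 := by
  intro h
  have h2 : ((q : ℕ) : L) = 0 := by
    have := congrArg (algebraMap (𝓞 L) L) h
    simpa using this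
  exact q.2.ne_zero (Nat.cast_eq_zero.1 h2)

/-- **G-SES.** Only finitely many primes of `L` lie above `S`. -/
theorem primeInSet_finite : (primeInSet S L).Finite := by
  classical
  have h : primeInSet S L ⊆ ⋃ q ∈ S, {w : HeightOneSpectrum (𝓞 L) |
      w.asIdeal ∣ Ideal.span {((q : ℕ) : 𝓞 L)}} := by
    rintro w ⟨q, hq, hw⟩
    simp only [Set.mem_iUnion]
    refine ⟨q, hq, ?_⟩
    change w.asIdeal ∣ Ideal.span {((q : ℕ) : 𝓞 L)}
    rw [Ideal.dvd_span_singleton]
    exact hw
  refine Set.Finite.subset ?_ h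
  refine Set.Finite.biUnion S.finite_toSet fun q _ => ?_
  exact Ideal.finite_factors (by
    rw [Ne, Ideal.zero_eq_bot, Ideal.span_singleton_eq_bot]
    exact natCast_ne_zero_of_prime L q)

/-- The finite set of primes of `L` above `S`. -/
def primeInFinset : Finset (HeightOneSpectrum (𝓞 L)) := (primeInSet_finite S L).toFinset

lemma mem_primeInFinset (w : HeightOneSpectrum (𝓞 L)) :
    w ∈ primeInFinset S L ↔ IsAbove S L w := by
  simp [primeInFinset, primeInSet]

lemma coe_primeInFinset :
    (primeInFinset S L : Set (HeightOneSpectrum (𝓞 L))) = primeInSet S L := by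
  ext w
  simp [mem_primeInFinset, primeInSet]

instance finite_primeIn : Finite (PrimeIn S L) := (primeInSet_finite S L).to_subtype

lemma natCard_primeIn : Nat.card (PrimeIn S L) = (primeInFinset S L).card := by
  classical
  rw [← Nat.card_eq_finsetCard]
  exact Nat.card_congr
    { toFun := fun w => ⟨w.1, (mem_primeInFinset S L w.1).2 w.2⟩
      invFun := fun w => ⟨w.1, (mem_primeInFinset S L w.1).1 w.2⟩
      left_inv := fun _ => rfl
      right_inv := fun _ => rfl }

/-! ## 3. The `S`-units -/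

lemma mem_sUnit_iff_valuation (x : Additive Lˣ) :
    x ∈ sUnit S L ↔ ∀ w : HeightOneSpectrum (𝓞 L), ¬ IsAbove S L w →
      w.valuation L ((x.toMul : Lˣ) : L) = 1 := by
  rw [mem_sUnit_iff]
  constructor
  · intro h w hw
    exact (ordAt_eq_zero_iff w x).1 (h ⟨w, hw⟩)
  · intro h w
    exact (ordAt_eq_zero_iff w.1 x).2 (h w.1 w.2)

/-- **G-SES (bridge).** The `S`-units of `Defs.lean` are Mathlib's `S`-units for the set of primes
above `S`. -/
theorem sUnit_toAddSubgroup_eq :
    (sUnit S L).toAddSubgroup =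
      ((primeInFinset S L : Set (HeightOneSpectrum (𝓞 L))).unit L).toAddSubgroup := by
  ext x
  rw [Submodule.mem_toAddSubgroup, mem_sUnit_iff_valuation]
  constructor
  · intro h w hw
    exact h w (fun hw' => hw ((Finset.mem_coe).2 ((mem_primeInFinset S L w).2 hw')))
  · intro h w hw
    exact h w (fun hw' => hw ((mem_primeInFinset S L w).1 (Finset.mem_coe.1 hw')))


open Fermat.Agent.S55.H604 in
/-- The `S`-units of `Defs.lean` as the (additive) group of Mathlib `S`-units. -/
def sUnitEquiv : sUnit S L ≃+ Additive (SUnit L (primeInFinset S L)) where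
  toFun x := Additive.ofMul ⟨x.1.toMul, by
    have h : x.1 ∈ (sUnit S L).toAddSubgroup := x.2
    rw [sUnit_toAddSubgroup_eq] at h
    exact h⟩
  invFun y := ⟨Additive.ofMul ((y.toMul : SUnit L (primeInFinset S L)) : Lˣ), by
    have h : Additive.ofMul ((y.toMul : SUnit L (primeInFinset S L)) : Lˣ) ∈
        ((primeInFinset S L : Set (HeightOneSpectrum (𝓞 L))).unit L).toAddSubgroup :=
      (y.toMul).2
    rw [← sUnit_toAddSubgroup_eq] at h
    exact h⟩
  left_inv x := rfl
  right_inv y := rfl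
  map_add' x y := rfl

open Fermat.Agent.S55.H604 in
lemma coe_sUnitEquiv (x : sUnit S L) :
    (((sUnitEquiv S L x).toMul : SUnit L (primeInFinset S L)) : Lˣ) = x.1.toMul := rfl

open Fermat.Agent.S55.H604 in
/-- **Dirichlet's `S`-unit theorem** for `sUnit S L`: finite generation. -/
instance moduleFinite_sUnit : Module.Finite ℤ (sUnit S L) :=
  Module.Finite.equiv (sUnitEquiv S L).toIntLinearEquiv.symm

open Fermat.Agent.S55.H604 in
/-- **`S`-unit power index** in the vocabulary of `Defs.lean`: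
`[E_S : n E_S] = #μ_n(L) · n ^ (#∞ + #{w | S} - 1)`. -/
theorem index_range_nsmul_sUnit' (n : ℕ) (hn : n ≠ 0) :
    (nsmulAddMonoidHom (α := sUnit S L) n).range.index =
      Nat.card (rootsOfUnity n L) *
        n ^ (Fintype.card (NumberField.InfinitePlace L) + Nat.card (PrimeIn S L) - 1) := by
  rw [natCard_primeIn, ← Nat.card_congr (kerNsmulEquiv L (primeInFinset S L) n hn),
    ← index_range_nsmul_sUnit L (primeInFinset S L) n hn,
    ← AddEquiv.map_range_nsmulAddMonoidHom (sUnitEquiv S L) n]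
  exact (AddSubgroup.index_map_equiv _ (sUnitEquiv S L)).symm

open Fermat.Agent.S55.H604 in
/-- If `L` contains a primitive `n`-th root of unity: `[E_S : n E_S] = n ^ (#∞ + #{w | S})`. -/
theorem index_range_nsmul_sUnit_of_primitiveRoot (n : ℕ) (hn : n ≠ 0) {ζ : L}
    (hζ : IsPrimitiveRoot ζ n) :
    (nsmulAddMonoidHom (α := sUnit S L) n).range.index =
      n ^ (Fintype.card (NumberField.InfinitePlace L) + Nat.card (PrimeIn S L)) := by
  have : NeZero n := ⟨hn⟩
  rw [index_range_nsmul_sUnit' S L n hn, hζ.card_rootsOfUnity]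
  have hpos : 0 < Fintype.card (NumberField.InfinitePlace L) := Fintype.card_pos
  have : Fintype.card (NumberField.InfinitePlace L) + Nat.card (PrimeIn S L) =
      (Fintype.card (NumberField.InfinitePlace L) + Nat.card (PrimeIn S L) - 1) + 1 := by omega
  rw [this, pow_succ, Nat.add_sub_cancel, mul_comm]


/-! ## 4. Short exactness of `Lˣ → J_S × Div^S → C_S` -/

open CategoryTheory in
/-- **G-SES (a).** `0 → Lˣ → J_S(L) × Div^S(L) → C_S(L) → 0` is short exact in `Rep ℤ G`
when `S ≠ ∅`. -/
theorem classShortComplex_shortExact (hS : S.Nonempty) :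
    (classShortComplex S G L).ShortExact := by
  refine Fermat.Agent.S55.H295.rep_shortExact_of (k := ℤ) (classShortComplex S G L) ?_ ?_ ?_
  · intro x y hxy
    exact diagHom_injective S L hS hxy
  · intro x hx
    have hx' : x ∈ principal S L := (Submodule.Quotient.mk_eq_zero _).1 hx
    obtain ⟨y, hy⟩ := hx'
    exact ⟨y, hy⟩
  · exact Submodule.mkQ_surjective _

end Global

end Fermat.Agent.S55.G.SesH604

end
end
-- ===== PACK-END S55/G/SesH604.lean

-- ===== PACK-BEGIN S55/G/H357/Lower.lean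
section



/-!
# S55, layer G (helper357): lower bound for the mass of the primes below degree one primes

`L / K` an extension of number fields of degree `n`.  The primes `v` of `K` (outside a finite
set) lying under a prime `w` of `L` of degree one over `ℚ` satisfy
`ζ_L(s) ≤ C (∏_{v ∈ T} (1 + N v^{-s}))^n` for suitable finite sets `T` of such primes.
-/

set_option autoImplicit false
set_option linter.unusedSectionVars false
set_option linter.deprecated false

namespace Fermat.Agent.S55.G.H357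

open NumberField IsDedekindDomain Filter Topology
open scoped nonZeroDivisors
open Fermat.Agent.S14

variable (K L : Type*) [Field K] [NumberField K] [Field L] [NumberField L] [Algebra K L]

/-- The prime of `K` under a prime of `L`. -/
noncomputable def und (w : HeightOneSpectrum (𝓞 L)) : HeightOneSpectrum (𝓞 K) :=
  HeightOneSpectrum.under (𝓞 K) w

theorem und_asIdeal (w : HeightOneSpectrum (𝓞 L)) :
    (und K L w).asIdeal = w.asIdeal.under (𝓞 K) := rfl

instance und_liesOver (w : HeightOneSpectrum (𝓞 L)) :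
    w.asIdeal.LiesOver (und K L w).asIdeal := ⟨rfl⟩

theorem asIdeal_mem_primesOverFinset (w : HeightOneSpectrum (𝓞 L)) :
    w.asIdeal ∈ IsDedekindDomain.primesOverFinset (und K L w).asIdeal (𝓞 L) := by
  have := (und K L w).isMaximal
  rw [IsDedekindDomain.mem_primesOverFinset_iff (und K L w).ne_bot]
  exact ⟨w.isPrime, und_liesOver K L w⟩

theorem noZeroSMulDivisors_ringOfIntegers : NoZeroSMulDivisors (𝓞 K) (𝓞 L) := by
  refine ⟨fun {c x} h => ?_⟩
  rw [Algebra.smul_def, mul_eq_zero] at h
  rcases h with h | h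
  · left
    exact (FaithfulSMul.algebraMap_eq_zero_iff (𝓞 K) (𝓞 L)).mp h
  · right
    exact h

/-- At most `[L : K]` primes of `L` lie over a given prime of `K`. -/
theorem card_fiber_le (v : HeightOneSpectrum (𝓞 K)) (T : Finset (HeightOneSpectrum (𝓞 L)))
    [DecidableEq (HeightOneSpectrum (𝓞 K))] :
    (T.filter (fun w => und K L w = v)).card ≤ Module.finrank K L := by
  classical
  have := v.isMaximal
  have : NoZeroSMulDivisors (𝓞 K) (𝓞 L) := noZeroSMulDivisors_ringOfIntegers K L
  refine le_trans ?_ (Ideal.card_primesOverFinset_le_finrank (𝓞 L) K L v.ne_bot)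
  refine Finset.card_le_card_of_injOn (fun w => w.asIdeal) ?_ ?_
  · intro w hw
    rw [Finset.mem_coe, Finset.mem_filter] at hw
    have := asIdeal_mem_primesOverFinset K L w
    rw [hw.2] at this
    exact this
  · intro w₁ _ w₂ _ h
    exact HeightOneSpectrum.ext h

/-- The primes of `L` over a given prime of `K` form a finite set. -/
theorem finite_fiber (v : HeightOneSpectrum (𝓞 K)) :
    {w : HeightOneSpectrum (𝓞 L) | und K L w = v}.Finite := by
  classical
  have := v.isMaximal
  refine Set.Finite.of_injOn (f := fun w : HeightOneSpectrum (𝓞 L) => w.asIdeal)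
    (t := (IsDedekindDomain.primesOverFinset v.asIdeal (𝓞 L) : Set (Ideal (𝓞 L)))) ?_ ?_ (Finset.finite_toSet _)
  · intro w hw
    have := asIdeal_mem_primesOverFinset K L w
    rw [Set.mem_setOf_eq.mp hw] at this
    exact this
  · intro w₁ _ w₂ _ h
    exact HeightOneSpectrum.ext h

/-- A prime of `L` with prime absolute norm has the same norm as the prime of `K` under it. -/
theorem absNorm_und_of_prime (w : HeightOneSpectrum (𝓞 L))
    (hw : (Ideal.absNorm w.asIdeal).Prime) :
    Ideal.absNorm (und K L w).asIdeal = Ideal.absNorm w.asIdeal := by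
  have h := Ideal.absNorm_eq_pow_inertiaDeg'_of_liesOver w.asIdeal (und K L w).asIdeal
    (und K L w).isPrime (und K L w).ne_bot
  exact ((Nat.Prime.pow_eq_iff hw).mp h.symm).1

/-- **Lower bound**: the primes of `K` under the degree one primes of `L` carry the mass of
`ζ_L`, with multiplicity at most `[L : K]`. -/
theorem lower_mass (Bad : Set (HeightOneSpectrum (𝓞 K))) (hBad : Bad.Finite) :
    ∃ C : ℝ, 0 < C ∧ ∀ s : ℝ, 1 < s → s ≤ 2 → ∃ T : Finset (HeightOneSpectrum (𝓞 K)),
      (∀ v ∈ T, v ∉ Bad ∧ ∃ w : HeightOneSpectrum (𝓞 L),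
        (Ideal.absNorm w.asIdeal).Prime ∧ und K L w = v) ∧
      H163.zetaR L s ≤
        C * (∏ v ∈ T, (1 + H163.normPow s (H163.toI0 v))) ^ Module.finrank K L := by
  classical
  -- the bad primes of `L`
  have hBadL : {w : HeightOneSpectrum (𝓞 L) | und K L w ∈ Bad}.Finite := by
    have : {w : HeightOneSpectrum (𝓞 L) | und K L w ∈ Bad} =
        ⋃ v ∈ Bad, {w : HeightOneSpectrum (𝓞 L) | und K L w = v} := by
      ext w
      simp
    rw [this]
    exact hBad.biUnion fun v _ => finite_fiber K L v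
  obtain ⟨C, hC, hmass⟩ := H163.goodMass L hBadL.toFinset
  refine ⟨C, hC, fun s hs1 hs2 => ?_⟩
  obtain ⟨TL, hTL, hle⟩ := hmass s hs1 hs2
  rw [H163.zetaI_eq_zetaR] at hle
  refine ⟨TL.image (und K L), ?_, ?_⟩
  · intro v hv
    obtain ⟨w, hw, rfl⟩ := Finset.mem_image.mp hv
    refine ⟨?_, w, (hTL w hw).1, rfl⟩
    have := (hTL w hw).2
    rw [Set.Finite.mem_toFinset, Set.mem_setOf_eq] at this
    exact this
  · refine hle.trans (mul_le_mul_of_nonneg_left ?_ hC.le)
    rw [← Finset.prod_fiberwise_of_maps_to (g := und K L) (t := TL.image (und K L))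
      (fun w hw => Finset.mem_image_of_mem _ hw), ← Finset.prod_pow]
    refine Finset.prod_le_prod ?_ ?_
    · intro v _
      refine Finset.prod_nonneg fun w _ => ?_
      have := H163.normPow_pos s (H163.toI0 w)
      rw [H163.pN_eq]
      linarith
    · intro v _
      have hx : (1 : ℝ) ≤ 1 + H163.normPow s (H163.toI0 v) := by
        have := H163.normPow_pos s (H163.toI0 v)
        linarith
      calc ∏ w ∈ TL with und K L w = v, (1 + H34.pN s w)
          = ∏ _w ∈ TL.filter (fun w => und K L w = v),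
              (1 + H163.normPow s (H163.toI0 v)) := by
            refine Finset.prod_congr rfl fun w hw => ?_
            rw [Finset.mem_filter] at hw
            rw [H34.pN_def, H163.normPow_apply]
            congr 2
            have := absNorm_und_of_prime K L w (hTL w hw.1).1
            rw [hw.2] at this
            exact_mod_cast this.symm
        _ = (1 + H163.normPow s (H163.toI0 v)) ^ (TL.filter (fun w => und K L w = v)).card :=
            Finset.prod_const _
        _ ≤ (1 + H163.normPow s (H163.toI0 v)) ^ Module.finrank K L :=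
            pow_le_pow_right₀ hx (card_fiber_le K L v TL)

end Fermat.Agent.S55.G.H357

end
-- ===== PACK-END S55/G/H357/Lower.lean

-- ===== PACK-BEGIN S55/L/Unram784/Inst.lean
section



/-!
# S55, layer L, leaf L-A2 (helper784): from valuation subrings to the AKLB setting

For unramified data `(A, B, π)` (`IsUnramifiedExt`) we build the local algebra structure
`A → B` and verify the hypotheses of the ring-level theory.
-/

set_option autoImplicit false
set_option linter.unusedSectionVars false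

namespace Fermat.Agent.S55.L

open IsLocalRing Polynomial

section Inst

variable {K L : Type} [Field K] [Field L] [Algebra K L] (A : ValuationSubring K)
  (B : ValuationSubring L)

/-- The inclusion `A → B` induced by `K → L`. -/
def u784_incl (hAB : ∀ x : K, x ∈ A → algebraMap K L x ∈ B) : ↥A →+* ↥B where
  toFun x := ⟨algebraMap K L x, hAB x x.2⟩
  map_one' := Subtype.ext (by simp)
  map_mul' x y := Subtype.ext (by simp)
  map_zero' := Subtype.ext (by simp)
  map_add' x y := Subtype.ext (by simp)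

@[simp]
theorem u784_incl_coe (hAB : ∀ x : K, x ∈ A → algebraMap K L x ∈ B) (x : A) :
    ((u784_incl A B hAB x : B) : L) = algebraMap K L (x : K) := rfl

variable {A B}

/-- Master theorem for unramified data `(A, B, π)`. -/
theorem u784_master [CharZero K] (hA : IsLocalRingOfIntegers A) (hB : IsLocalRingOfIntegers B)
    (π : K) (hπA : IsUniformizer A π) (hπB : IsUniformizer B (algebraMap K L π)) :
    FiniteDimensional K L ∧ IsGalois K L ∧
    (∃ g : (↥A)[X], g.Monic ∧ Irreducible (g.map (residue ↥A)) ∧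
      g.natDegree = Module.finrank K L) ∧
    (∀ g : (↥A)[X], g.Monic → Irreducible (g.map (residue ↥A)) →
      g.natDegree = Module.finrank K L →
        ((g.map (algebraMap ↥A K)).map (algebraMap K L)).Splits) ∧
    (∃ φ : L ≃ₐ[K] L, (∀ x ∈ B, φ x - x ^ Nat.card (ResidueField ↥A) ∈ B.nonunits) ∧
      ∀ σ : L ≃ₐ[K] L, σ ∈ Subgroup.zpowers φ) := by
  have hAB : ∀ x : K, x ∈ A → algebraMap K L x ∈ B :=
    fun x hx => u784_algebraMap_mem hA hB π hπA hπB hx
  obtain ⟨hdvrA, hcA, hfA⟩ := id hA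
  obtain ⟨hdvrB, hcB, hfB⟩ := id hB
  let _ : Algebra ↥A ↥B := (u784_incl A B hAB).toAlgebra
  have halg : ∀ x : A, ((algebraMap ↥A ↥B x : B) : L) = algebraMap K L (x : K) := fun _ => rfl
  have : IsScalarTower ↥A ↥B L := IsScalarTower.of_algebraMap_eq (fun x => rfl)
  have : IsLocalHom (algebraMap ↥A ↥B) := by
    refine ⟨fun a ha => ?_⟩
    rw [A.valuation_eq_one_iff]
    rcases A.valuation_lt_one_or_eq_one a with h1 | h1
    · exfalso
      have h2 : algebraMap K L (a : K) ∈ B.nonunits :=
        u784_algebraMap_mem_nonunits hA hB π hπA hπB (A.mem_nonunits_iff.mpr h1)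
      have h3 := (B.valuation_eq_one_iff _).mp ha
      rw [halg] at h3
      exact (B.mem_nonunits_iff.mp h2).ne h3
    · exact h1
  have hunr : (maximalIdeal ↥A).map (algebraMap ↥A ↥B) = maximalIdeal ↥B := by
    obtain ⟨hπ, hirr⟩ := hπA
    obtain ⟨hπ', hirr'⟩ := hπB
    rw [(IsDiscreteValuationRing.irreducible_iff_uniformizer _).mp hirr,
      (IsDiscreteValuationRing.irreducible_iff_uniformizer _).mp hirr', Ideal.map_span,
      Set.image_singleton]
    rfl
  obtain ⟨g₀, hg₀, hirr₀, hdeg₀⟩ := u784_exists_poly (R := ↥A) (S := ↥B)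
  obtain ⟨β₀, hβ₀⟩ := u784_exists_root g₀ hg₀ hirr₀ hdeg₀
  have hfin : Module.finrank K L = g₀.natDegree :=
    u784_finrank_eq hunr g₀ hg₀ hirr₀ hdeg₀ β₀ hβ₀
  refine ⟨u784_finiteDimensional hunr g₀ hg₀ hirr₀ hdeg₀ β₀ hβ₀,
    u784_isGalois hunr g₀ hg₀ hirr₀ hdeg₀ β₀ hβ₀, ⟨g₀, hg₀, hirr₀, hfin.symm⟩, ?_, ?_⟩
  · intro g hg hirr hdeg
    exact u784_splits g hg hirr (hdeg.trans (hfin.trans hdeg₀))
  · obtain ⟨φ, hφ1, hφ2⟩ := u784_exists_frobenius (K := K) (L := L) hunr g₀ hg₀ hirr₀ hdeg₀ β₀ hβ₀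
    refine ⟨φ, fun x hx => ?_, hφ2⟩
    obtain ⟨y, hy1, hy2⟩ := hφ1 ⟨x, hx⟩
    replace hy1 : ((y : B) : L) = φ x := hy1
    rw [ValuationSubring.mem_nonunits_iff_exists_mem_maximalIdeal]
    have hmem : φ x - x ^ Nat.card (ResidueField ↥A) ∈ B := by
      have : φ x - x ^ Nat.card (ResidueField ↥A) =
          ((y - ⟨x, hx⟩ ^ Nat.card (ResidueField ↥A) : B) : L) := by
        rw [← hy1]
        rfl
      rw [this]
      exact Subtype.coe_prop _
    refine ⟨hmem, ?_⟩
    have heq : (⟨φ x - x ^ Nat.card (ResidueField ↥A), hmem⟩ : B) =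
        y - ⟨x, hx⟩ ^ Nat.card (ResidueField ↥A) := by
      apply Subtype.ext
      change φ x - x ^ Nat.card (ResidueField ↥A) = (y : L) - x ^ Nat.card (ResidueField ↥A)
      rw [hy1]
    rw [heq]
    exact hy2

end Inst

end Fermat.Agent.S55.L

end
-- ===== PACK-END S55/L/Unram784/Inst.lean

-- ===== PACK-BEGIN S55/L/UnrInv/Inertia775.lean
section





/-!
# S55, layer L, leaves UI-INT and UI-INERTIA (helper775)

* `integersComap775 : UnrInv.IntegersComapSpec` (`B ∩ K = A`);
* `unramifiedInertia775 : UnrInv.UnramifiedInertiaSpec` (the inertia group of an unramified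
  extension is trivial);
* `mem_iff_isIntegral775`: the ring of integers of a finite extension is the integral closure.

Route: uniqueness of the ring of integers (`ringOfIntegersUnique775`), the integral closure is a
ring of integers (`exists_ringOfIntegers_eq_integralClosure286`), and
`Local.H775.card_inertia_inf_eq` (Mathlib `Ideal.card_inertia_eq_ramificationIdxIn`).
-/

set_option autoImplicit false
set_option linter.unusedSectionVars false
set_option linter.style.haveILetI false

namespace Fermat.Agent.S55.L.UnrInv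

open Fermat.Agent.S55.L IsLocalRing

section Generic

variable {K L : Type} [Field K] [Field L] [Algebra K L] [FiniteDimensional K L] [IsLocalFld K]

/-- The ring of integers of a finite extension is the integral closure of the ring of integers of
the base field, and it meets the base field in the ring of integers of the base field. -/
theorem mem_iff_isIntegral775 (A : ValuationSubring K) (B : ValuationSubring L)
    (hA : IsLocalRingOfIntegers A) (hB : IsLocalRingOfIntegers B)
    [Algebra A L] [IsScalarTower A K L] :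
    (∀ x : L, x ∈ B ↔ IsIntegral A x) ∧ (∀ x : K, algebraMap K L x ∈ B ↔ x ∈ A) := by
  haveI : CharZero K := IsLocalFld.charZero
  haveI : IsLocalFld L := finiteExt286 K L
  obtain ⟨B₁, hB₁, h1, h2⟩ := exists_ringOfIntegers_eq_integralClosure286 (K := K) (L := L) A hA
  have hBB : B = B₁ := ringOfIntegersUnique775 L B B₁ hB hB₁
  subst hBB
  exact ⟨h1, h2⟩

end Generic

/-- **UI-INT** -/
theorem integersComap775 : IntegersComapSpec := by
  intro K L _ _ _ _ _ A B hA hB x
  letI : Algebra A L := ((algebraMap K L).comp (algebraMap A K)).toAlgebra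
  haveI : IsScalarTower A K L := IsScalarTower.of_algebraMap_eq (fun _ => rfl)
  exact (mem_iff_isIntegral775 A B hA hB).2 x

/-- **UI-INERTIA** -/
theorem unramifiedInertia775 : UnramifiedInertiaSpec := by
  intro K E _ _ _ _ hK hU B hB g hg
  obtain ⟨A₀, B₀, π, hA₀, hB₀, hπA, hπB⟩ := hU
  haveI : CharZero K := IsLocalFld.charZero
  haveI : IsLocalFld E := finiteExt286 K E
  have hBB : B₀ = B := ringOfIntegersUnique775 E B₀ B hB₀ hB
  subst hBB
  letI : Algebra A₀ E := ((algebraMap K E).comp (algebraMap A₀ K)).toAlgebra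
  haveI : IsScalarTower A₀ K E := IsScalarTower.of_algebraMap_eq (fun _ => rfl)
  obtain ⟨hmem, -⟩ := mem_iff_isIntegral775 A₀ B₀ hA₀ hB₀
  -- the integral closure as a ring
  obtain ⟨hloc, hdvr, hcomp, hfin⟩ :=
    isLocalRingOfIntegers_integralClosure286 (K := K) (L := E) A₀ hA₀ (integralClosure A₀ E)
  haveI := hdvr
  haveI : Finite (ResidueField (integralClosure A₀ E)) := hfin
  haveI := hA₀.1
  haveI : Module.Finite A₀ (integralClosure A₀ E) :=
    IsIntegralClosure.finite A₀ K E (integralClosure A₀ E)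
  haveI : IsFractionRing (integralClosure A₀ E) E :=
    IsIntegralClosure.isFractionRing_of_finite_extension A₀ K E _
  haveI : SMulCommClass (E ≃ₐ[K] E) A₀ E := by
    refine ⟨fun σ a x => ?_⟩
    rw [Algebra.smul_def, Algebra.smul_def, AlgEquiv.smul_def, AlgEquiv.smul_def, map_mul]
    congr 1
    show σ (algebraMap K E (algebraMap A₀ K a)) = algebraMap K E (algebraMap A₀ K a)
    exact σ.commutes _
  haveI : FaithfulSMul (E ≃ₐ[K] E) (integralClosure A₀ E) := by
    refine ⟨fun {σ τ} h => ?_⟩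
    apply AlgEquiv.ext
    intro x
    obtain ⟨a, b, hb, rfl⟩ := IsFractionRing.div_surjective (A := integralClosure A₀ E) x
    have ha' : σ (a : E) = τ (a : E) :=
      congrArg (fun t : integralClosure A₀ E => (t : E)) (h a)
    have hb' : σ (b : E) = τ (b : E) :=
      congrArg (fun t : integralClosure A₀ E => (t : E)) (h b)
    have e1 : algebraMap (integralClosure A₀ E) E a = (a : E) := rfl
    have e2 : algebraMap (integralClosure A₀ E) E b = (b : E) := rfl
    rw [e1, e2, map_div₀, map_div₀, ha', hb']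
  -- the uniformizer
  obtain ⟨hπmem, hπirr⟩ := hπB
  have hπint : algebraMap K E π ∈ integralClosure A₀ E := (hmem _).mp hπmem
  set r : integralClosure A₀ E := ⟨algebraMap K E π, hπint⟩ with hr
  have hrirr : Irreducible r := by
    -- transport irreducibility along the identification of `B₀` with the integral closure
    let e : B₀ ≃+* integralClosure A₀ E :=
      { toFun := fun x => ⟨x, (hmem _).mp x.2⟩
        invFun := fun x => ⟨x, (hmem _).mpr x.2⟩
        left_inv := fun _ => rfl
        right_inv := fun _ => rfl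
        map_mul' := fun _ _ => rfl
        map_add' := fun _ _ => rfl }
    have : r = e ⟨algebraMap K E π, hπmem⟩ := rfl
    rw [this]
    exact (MulEquiv.irreducible_iff e.toMulEquiv).mpr hπirr
  have hmax : maximalIdeal (integralClosure A₀ E) = Ideal.span {r} := hrirr.maximalIdeal_eq
  have hcard := Local.H775.card_inertia_inf_eq (A := A₀) (S := integralClosure A₀ E)
    (G := E ≃ₐ[K] E) (Subgroup.zpowers g) 1 (fun r _ hr => by simpa using hr) ⟨r, ?_, ?_, ?_⟩
  · -- `g` lies in the inertia group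
    have hgin : g ∈ (maximalIdeal (integralClosure A₀ E)).inertia (E ≃ₐ[K] E) ⊓
        Subgroup.zpowers g := by
      refine ⟨fun s => ?_, Subgroup.mem_zpowers g⟩
      show g • s - s ∈ maximalIdeal (integralClosure A₀ E)
      rw [mem_maximalIdeal, mem_nonunits_iff]
      intro hu
      have hsB : (s : E) ∈ B₀ := (hmem _).mpr s.2
      obtain ⟨ha, hmaxB⟩ :=
        ValuationSubring.mem_nonunits_iff_exists_mem_maximalIdeal.mp (hg (s : E) hsB)
      rw [mem_maximalIdeal, mem_nonunits_iff] at hmaxB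
      apply hmaxB
      obtain ⟨t, ht⟩ := isUnit_iff_exists_inv.mp hu
      refine isUnit_iff_exists_inv.mpr ⟨⟨(t : E), (hmem _).mpr t.2⟩, Subtype.ext ?_⟩
      have := congrArg (fun z : integralClosure A₀ E => (z : E)) ht
      simpa using this
    have hbot : (maximalIdeal (integralClosure A₀ E)).inertia (E ≃ₐ[K] E) ⊓
        Subgroup.zpowers g = ⊥ := Subgroup.card_eq_one.mp hcard
    rw [hbot, Subgroup.mem_bot] at hgin
    exact hgin
  · intro σ _
    apply Subtype.ext
    show σ (algebraMap K E π) = algebraMap K E π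
    exact σ.commutes π
  · rw [hmax]
    exact Ideal.mem_span_singleton_self r
  · rw [hmax, Ideal.span_singleton_pow, Ideal.mem_span_singleton]
    rintro ⟨c, hc⟩
    have h0 : r ≠ 0 := hrirr.ne_zero
    have h1 : r * (r * c) = r * 1 := by
      rw [mul_one, ← mul_assoc, ← pow_two]
      exact hc.symm
    have h2 : r * c = 1 := mul_left_cancel₀ h0 h1
    exact hrirr.not_isUnit (isUnit_iff_exists_inv.mpr ⟨c, h2⟩)

end Fermat.Agent.S55.L.UnrInv

end
-- ===== PACK-END S55/L/UnrInv/Inertia775.lean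

-- ===== PACK-BEGIN S55/L/Inv481/Transport.lean
section


/-!
# S55 / layer L / leaf L-C2 (helper481): transport of local-field structure along isomorphisms

`IsLocalRingOfIntegers`, `IsUniformizer`, `IsUnramifiedExt` are invariant under compatible ring
isomorphisms.
-/

set_option autoImplicit false
set_option linter.style.haveILetI false

namespace Fermat.Agent.S55.L.Inv481

section Transport

variable {K K' : Type} [Field K] [Field K']

/-- the ring isomorphism between the preimage of a valuation subring under a ring isomorphism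
and the valuation subring -/
noncomputable def comapEquiv (e : K' ≃+* K) (A : ValuationSubring K) :
    A.comap (e : K' →+* K) ≃+* A where
  toFun x := ⟨e x, x.2⟩
  invFun y := ⟨e.symm y, by
    rw [ValuationSubring.mem_comap]
    change e (e.symm y) ∈ A
    rw [e.apply_symm_apply]
    exact y.2⟩
  left_inv x := Subtype.ext (e.symm_apply_apply _)
  right_inv y := Subtype.ext (e.apply_symm_apply _)
  map_mul' x y := Subtype.ext (map_mul e _ _)
  map_add' x y := Subtype.ext (map_add e _ _)

@[simp] theorem comapEquiv_apply_coe (e : K' ≃+* K) (A : ValuationSubring K)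
    (x : A.comap (e : K' →+* K)) : ((comapEquiv e A x : A) : K) = e x := rfl

theorem isLocalRingOfIntegers_comap (e : K' ≃+* K) {A : ValuationSubring K}
    (hA : IsLocalRingOfIntegers A) : IsLocalRingOfIntegers (A.comap (e : K' →+* K)) := by
  obtain ⟨h1, h2, h3⟩ := hA
  have hdvr : IsDiscreteValuationRing (A.comap (e : K' →+* K)) :=
    IsDiscreteValuationRing.RingEquivClass.isDiscreteValuationRing (comapEquiv e A).symm
  refine ⟨hdvr, ?_, ?_⟩
  · have hmap : (IsLocalRing.maximalIdeal A).map ((comapEquiv e A).symm) =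
        IsLocalRing.maximalIdeal (A.comap (e : K' →+* K)) :=
      IsLocalRing.map_ringEquiv_maximalIdeal _
    rw [← hmap]
    exact (IsAdicComplete.congr_ringEquiv (IsLocalRing.maximalIdeal A)
      (comapEquiv e A).symm).mpr h2
  · exact Finite.of_equiv _ (IsLocalRing.ResidueField.mapEquiv (comapEquiv e A).symm).toEquiv

theorem isUniformizer_comap (e : K' ≃+* K) {A : ValuationSubring K} {π : K}
    (hπ : IsUniformizer A π) : IsUniformizer (A.comap (e : K' →+* K)) (e.symm π) := by
  obtain ⟨h, hirr⟩ := hπ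
  have hmem : e.symm π ∈ A.comap (e : K' →+* K) := by
    rw [ValuationSubring.mem_comap]
    change e (e.symm π) ∈ A
    rw [e.apply_symm_apply]
    exact h
  refine ⟨hmem, ?_⟩
  have : (comapEquiv e A) ⟨e.symm π, hmem⟩ = ⟨π, h⟩ := Subtype.ext (e.apply_symm_apply π)
  rw [← MulEquiv.irreducible_iff (comapEquiv e A).toMulEquiv]
  change Irreducible ((comapEquiv e A) ⟨e.symm π, hmem⟩)
  rw [this]
  exact hirr

end Transport

section UnrTransport

variable {K E K' E' : Type} [Field K] [Field E] [Algebra K E] [Field K'] [Field E']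
  [Algebra K' E']

/-- `IsUnramifiedExt` is invariant under compatible isomorphisms. -/
theorem isUnramifiedExt_of_equiv (e₀ : K ≃+* K') (e : E ≃+* E')
    (h : ∀ x, e (algebraMap K E x) = algebraMap K' E' (e₀ x)) (hu : IsUnramifiedExt K E) :
    IsUnramifiedExt K' E' := by
  obtain ⟨A, B, π, hA, hB, hπA, hπB⟩ := hu
  refine ⟨A.comap (e₀.symm : K' →+* K), B.comap (e.symm : E' →+* E), e₀ π,
    isLocalRingOfIntegers_comap e₀.symm hA, isLocalRingOfIntegers_comap e.symm hB, ?_, ?_⟩
  · have := isUniformizer_comap e₀.symm hπA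
    simpa using this
  · have := isUniformizer_comap e.symm hπB
    rw [← h]
    simpa using this

/-- `IsUnramifiedExt` is invariant under `K`-algebra isomorphisms of the top field. -/
theorem isUnramifiedExt_of_algEquiv {K E E' : Type} [Field K] [Field E] [Algebra K E]
    [Field E'] [Algebra K E'] (e : E ≃ₐ[K] E') (hu : IsUnramifiedExt K E) :
    IsUnramifiedExt K E' :=
  isUnramifiedExt_of_equiv (RingEquiv.refl K) e.toRingEquiv (fun x => e.commutes x) hu

end UnrTransport

end Fermat.Agent.S55.L.Inv481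

end
-- ===== PACK-END S55/L/Inv481/Transport.lean

-- ===== PACK-BEGIN S55/L/Unr534/Main.lean
section


/-!
# S55, layer L, unramified extensions (helper534): nesting and base change

Inputs of leaf L-C2 (`InvSpec`, helper481, `L/Inv481/Inputs.lean`):

* `unrNest534 : RingOfIntegersUniqueSpec → UnrNestSpec` (statement unfolded);
* `unrBC534   : RingOfIntegersUniqueSpec → UnrBCSpec`   (statement unfolded).

Both follow from the characterisation: `E / K` is unramified iff `E = K(ζ)` for a root of unity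
`ζ` of order prime to the residue characteristic
(`exists_root_of_isUnramifiedExt534`, `isUnramifiedExt_of_root534`).
-/

set_option autoImplicit false
set_option linter.style.haveILetI false
set_option linter.unusedSectionVars false

namespace Fermat.Agent.S55.L.Unr534

open IsLocalRing Polynomial IntermediateField

/-- An unramified extension of degree `n` is generated by a primitive `(Q ^ n - 1)`-th root of
unity, `Q` the cardinality of the residue field of `K`. -/
theorem exists_root_of_isUnramifiedExt534 (h0 : RingOfIntegersUniqueSpec)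
    {K : Type} [Field K] [IsLocalFld K] (A : ValuationSubring K) (hA : IsLocalRingOfIntegers A)
    (E : Type) [Field E] [Algebra K E] [FiniteDimensional K E] (hE : IsUnramifiedExt K E) :
    haveI := hA.1
    ∃ ζ : E, IsPrimitiveRoot ζ (Nat.card (ResidueField A) ^ Module.finrank K E - 1) ∧
      IntermediateField.adjoin K {ζ} = ⊤ := by
  haveI := IsLocalFld.charZero (K := K)
  haveI := hA.1
  haveI := hA.2.1
  haveI := hA.2.2
  obtain ⟨A₁, B, π, hA₁, hB, hπ, hπ'⟩ := hE
  have hAA : A₁ = A := h0 K A₁ A hA₁ hA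
  subst hAA
  have hBB : B = intVS534 A₁ E hA := eq_intVS534 A₁ E h0 hA B hB
  subst hBB
  have hunr := (isUniformizer_intVS_iff534 A₁ E hA π hπ).mp hπ'
  exact exists_primitiveRoot_of_unram534 A₁ K E hunr

/-- `K(ζ) / K` is unramified for a root of unity `ζ` of order prime to the residue
characteristic. -/
theorem isUnramifiedExt_of_root534
    {K : Type} [Field K] [IsLocalFld K] (A : ValuationSubring K) (hA : IsLocalRingOfIntegers A)
    (E : Type) [Field E] [Algebra K E] [FiniteDimensional K E] (ζ : E) (m : ℕ)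
    (hm : IsUnit ((m : ℕ) : A)) (hζ : ζ ^ m = 1) (htop : IntermediateField.adjoin K {ζ} = ⊤) :
    IsUnramifiedExt K E := by
  haveI := IsLocalFld.charZero (K := K)
  haveI := hA.1
  haveI := hA.2.1
  haveI := hA.2.2
  obtain ⟨π, hπ⟩ := exists_isUniformizer534 A hA
  exact ⟨A, intVS534 A E hA, π, hA, isLocalRingOfIntegers_intVS534 A E hA, hπ,
    (isUniformizer_intVS_iff534 A E hA π hπ).mpr (unram_of_adjoin_root534 A K E ζ m hm hζ htop)⟩

/-- The image in `M` of a generator of an intermediate field generates it. -/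
theorem eq_adjoin_of_adjoin_eq_top534 {K M : Type} [Field K] [Field M] [Algebra K M]
    (E : IntermediateField K M) (ζ : E) (htop : IntermediateField.adjoin K {ζ} = ⊤) :
    E = K⟮(ζ : M)⟯ := by
  have h := congrArg (IntermediateField.map E.val) htop
  rw [IntermediateField.adjoin_map, Set.image_singleton, ← AlgHom.fieldRange_eq_map,
    IntermediateField.fieldRange_val] at h
  exact h.symm

/-- The generator of a simple extension generates it. -/
theorem adjoin_gen_eq_top534 {K M : Type} [Field K] [Field M] [Algebra K M] (z : M) :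
    IntermediateField.adjoin K {(⟨z, mem_adjoin_simple_self K z⟩ : K⟮z⟯)} = ⊤ := by
  apply IntermediateField.map_injective (K⟮z⟯).val
  rw [IntermediateField.adjoin_map, Set.image_singleton, ← AlgHom.fieldRange_eq_map,
    IntermediateField.fieldRange_val]
  rfl

theorem one_le_pow_sub_one534 {Q n : ℕ} (hQ : 2 ≤ Q) (hn : 0 < n) : 1 ≤ Q ^ n - 1 := by
  have h1 : Q ^ 1 ≤ Q ^ n := Nat.pow_le_pow_right (by omega) hn
  rw [pow_one] at h1
  omega

/-- **UnrNestSpec** (statement unfolded), assuming uniqueness of the ring of integers. -/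
theorem unrNest534 (h0 : RingOfIntegersUniqueSpec) :
    ∀ (K M : Type) [Field K] [Field M] [Algebra K M] [FiniteDimensional K M] [IsLocalFld K]
      (E₁ E₂ : IntermediateField K M), IsUnramifiedExt K E₁ → IsUnramifiedExt K E₂ →
        Module.finrank K E₁ ∣ Module.finrank K E₂ → E₁ ≤ E₂ := by
  intro K M _ _ _ _ hK E₁ E₂ h1 h2 hdvd
  obtain ⟨A, hA⟩ := hK.exists_ringOfIntegers
  haveI := hA.1
  haveI := hA.2.1
  haveI := hA.2.2
  obtain ⟨ζ₁, hζ₁, htop₁⟩ := exists_root_of_isUnramifiedExt534 h0 A hA E₁ h1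
  obtain ⟨ζ₂, hζ₂, -⟩ := exists_root_of_isUnramifiedExt534 h0 A hA E₂ h2
  set Q := Nat.card (ResidueField A) with hQ
  have hQ2 : 2 ≤ Q := two_le_card_residue534 A
  have hn₂ : 0 < Module.finrank K E₂ := Module.finrank_pos
  have hm₂ : 1 ≤ Q ^ Module.finrank K E₂ - 1 := one_le_pow_sub_one534 hQ2 hn₂
  haveI : NeZero (Q ^ Module.finrank K E₂ - 1) := ⟨by omega⟩
  have hmdvd : (Q ^ Module.finrank K E₁ - 1) ∣ (Q ^ Module.finrank K E₂ - 1) := by
    obtain ⟨k, hk⟩ := hdvd
    rw [hk, pow_mul]
    exact Nat.sub_one_dvd_pow_sub_one _ _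
  have hζ₁M : ((ζ₁ : E₁) : M) ^ (Q ^ Module.finrank K E₂ - 1) = 1 := by
    obtain ⟨k, hk⟩ := hmdvd
    rw [hk, pow_mul]
    have := congrArg (fun x : E₁ => (x : M)) hζ₁.pow_eq_one
    simp only [SubmonoidClass.coe_pow, OneMemClass.coe_one] at this
    rw [this, one_pow]
  have hζ₂M : IsPrimitiveRoot ((ζ₂ : E₂) : M) (Q ^ Module.finrank K E₂ - 1) :=
    hζ₂.map_of_injective (f := E₂.val) E₂.val.injective
  obtain ⟨i, -, hi⟩ := hζ₂M.eq_pow_of_pow_eq_one hζ₁M
  have hmem : ((ζ₁ : E₁) : M) ∈ E₂ := by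
    rw [← hi]
    exact pow_mem ζ₂.2 i
  rw [eq_adjoin_of_adjoin_eq_top534 E₁ ζ₁ htop₁]
  exact IntermediateField.adjoin_simple_le_iff.mpr hmem

/-- `Q ^ n - 1` is a unit of a local ring with residue field of cardinality `Q`. -/
theorem isUnit_card_pow_sub_one534 (R : Type) [CommRing R] [IsLocalRing R]
    [IsAdicComplete (maximalIdeal R) R] [Finite (ResidueField R)] {n : ℕ} (hn : 0 < n) :
    IsUnit (((Nat.card (ResidueField R) ^ n - 1 : ℕ) : ℕ) : R) := by
  rw [← notMem_maximalIdeal, ← residue_eq_zero_iff, map_natCast]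
  have h1 : 1 ≤ Nat.card (ResidueField R) ^ n := Nat.one_le_pow _ _ Nat.card_pos
  rw [Nat.cast_sub h1, Nat.cast_pow, card_residue_cast534 R, zero_pow hn.ne']
  simp

/-- A natural number which is a unit in the ring of integers of `K` is a unit in the ring of
integers of any finite extension `K'`. -/
theorem isUnit_natCast_ext534 (h0 : RingOfIntegersUniqueSpec)
    {K : Type} [Field K] [CharZero K] (A : ValuationSubring K) (hA : IsLocalRingOfIntegers A)
    (K' : Type) [Field K'] [Algebra K K'] [FiniteDimensional K K']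
    (A' : ValuationSubring K') (hA' : IsLocalRingOfIntegers A') (m : ℕ)
    (hm : IsUnit ((m : ℕ) : A)) : IsUnit ((m : ℕ) : A') := by
  haveI := hA.1
  haveI := hA.2.1
  haveI := hA.2.2
  have hAA : A' = intVS534 A K' hA := eq_intVS534 A K' h0 hA A' hA'
  subst hAA
  have h1 : IsUnit ((m : ℕ) : OE A K') := by
    have := hm.map (algebraMap A (OE A K'))
    rwa [map_natCast] at this
  have h2 := h1.map (equivVS534 A K' hA).symm
  rwa [map_natCast] at h2

/-- **UnrBCSpec** (statement unfolded), assuming uniqueness of the ring of integers. -/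
theorem unrBC534 (h0 : RingOfIntegersUniqueSpec) :
    ∀ (K K' M : Type) [Field K] [Field K'] [Field M] [Algebra K K'] [Algebra K M] [Algebra K' M]
      [IsScalarTower K K' M] [FiniteDimensional K M] [IsLocalFld K] [IsLocalFld K']
      (E : IntermediateField K M), IsUnramifiedExt K E →
        ∃ E' : IntermediateField K' M, IsUnramifiedExt K' E' ∧ ∀ x : M, x ∈ E → x ∈ E' := by
  intro K K' M _ _ _ _ _ _ _ _ hK hK' E hE
  obtain ⟨A, hA⟩ := hK.exists_ringOfIntegers
  obtain ⟨A', hA'⟩ := hK'.exists_ringOfIntegers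
  haveI := hK.charZero
  haveI := hA.1
  haveI := hA.2.1
  haveI := hA.2.2
  haveI : FiniteDimensional K K' := FiniteDimensional.left K K' M
  haveI : FiniteDimensional K' M := FiniteDimensional.right K K' M
  obtain ⟨ζ, hζ, htop⟩ := exists_root_of_isUnramifiedExt534 h0 A hA E hE
  set m := Nat.card (ResidueField A) ^ Module.finrank K E - 1 with hm
  have hn : 0 < Module.finrank K E := Module.finrank_pos
  have hmA : IsUnit ((m : ℕ) : A) := isUnit_card_pow_sub_one534 A hn
  have hmA' : IsUnit ((m : ℕ) : A') := isUnit_natCast_ext534 h0 A hA K' A' hA' m hmA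
  have hζM : ((ζ : E) : M) ^ m = 1 := by
    have := congrArg (fun x : E => (x : M)) hζ.pow_eq_one
    simpa using this
  refine ⟨K'⟮((ζ : E) : M)⟯, ?_, fun x hx => ?_⟩
  · refine isUnramifiedExt_of_root534 A' hA' (K'⟮((ζ : E) : M)⟯)
      ⟨((ζ : E) : M), mem_adjoin_simple_self K' _⟩ m hmA' (Subtype.ext ?_)
      (adjoin_gen_eq_top534 _)
    simpa using hζM
  · rw [eq_adjoin_of_adjoin_eq_top534 E ζ htop] at hx
    have hle : K⟮((ζ : E) : M)⟯ ≤ (K'⟮((ζ : E) : M)⟯).restrictScalars K :=
      IntermediateField.adjoin_simple_le_iff.mpr (mem_adjoin_simple_self K' _)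
    exact hle hx

end Fermat.Agent.S55.L.Unr534

end
-- ===== PACK-END S55/L/Unr534/Main.lean

-- ===== PACK-BEGIN S55/Bridge/FiniteLevel.lean
section




/-!
# S55 bridge: the Prelude's `continuousH2S` / `sha₂` through the finite levels of the tower

Vocabulary of `Spec/Tower.lean` (`Tow.Level S`, `L.U`, `L.Gal = G_ℚ ⧸ L.U`).  For a level `L`
whose subgroup `L.U` acts trivially on `M` (hypothesis `hL : ∀ s ∈ L.U, M.ρ s = 1`):

* `atLevel M L hL : Rep k L.Gal` — `M` as a `Gal(F/ℚ)`-module (`= M.ofQuotient L.U`, same carrier);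
* `inflH2S M L hL : H2 (atLevel M L hL) →ₗ[k] continuousH2S S M` — inflation to the Prelude group;
* `inflLevel M h hL : H2 (atLevel M L hL) →ₗ[k] H2 (atLevel M L' _)` — inflation `L ≤ L'`
  (Mathlib's `groupCohomology.map` along `Tow.Level.proj h`);
* `inflH2S_inflLevel`, `exists_inflH2S_eq` (joint surjectivity), `inflH2S_eq_zero_iff`
  (kernel = classes dying at a higher level): `continuousH2S S M = colim_L H²(Gal(F_L/ℚ), M)`.
-/

set_option autoImplicit false
set_option linter.unusedSectionVars false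

namespace Fermat.Agent.S55.Bridge

open groupCohomology CategoryTheory ExtCitation IntermediateField

attribute [local instance] isAlgebraic_Qbar isGalois_Qbar

variable {S : Finset Nat.Primes} {k : Type} [CommRing k] (M : Rep.{0, 0, 0} k Tow.GQ)

/-- A subgroup acting trivially gives Mathlib's `Representation.IsTrivial` for the restriction. -/
theorem isTrivial_comp_subtype {G : Type} [Group G] (A : Rep.{0, 0, 0} k G) (N : Subgroup G)
    (h : ∀ s ∈ N, A.ρ s = 1) : Representation.IsTrivial (A.ρ.comp N.subtype) :=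
  ⟨fun s => by
    show A.ρ (s : G) = LinearMap.id
    rw [h s s.2]; rfl⟩

/-- Triviality of the action passes to higher levels. -/
theorem trivial_of_le {L L' : Tow.Level S} (h : L ≤ L') (hL : ∀ s ∈ L.U, M.ρ s = 1) :
    ∀ s ∈ L'.U, M.ρ s = 1 := fun s hs => hL s (Tow.Level.U_anti h hs)

/-- `M` as a `Gal(F/ℚ)`-module, for a level `L` trivialising `M`. -/
noncomputable abbrev atLevel (L : Tow.Level S) (hL : ∀ s ∈ L.U, M.ρ s = 1) : Rep.{0, 0, 0} k L.Gal :=
  haveI := isTrivial_comp_subtype M L.U hL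
  M.ofQuotient L.U

theorem atLevel_ρ_mk (L : Tow.Level S) (hL : ∀ s ∈ L.U, M.ρ s = 1) (g : Tow.GQ) (m : M) :
    (atLevel M L hL).ρ (g : L.Gal) m = M.ρ g m := rfl

section Global

variable (L : Tow.Level S) (hL : ∀ s ∈ L.U, M.ρ s = 1)

/-- Inflation of 2-cocycles of `Gal(F/ℚ)` to `S`-level-constant 2-cocycles of `G_ℚ`. -/
noncomputable def inflZ2S : cocycles₂ (atLevel M L hL) →ₗ[k] ↥(levelCocyclesS₂ S M) :=
  haveI := isTrivial_comp_subtype M L.U hL
  LinearMap.codRestrict (levelCocyclesS₂ S M)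
    ((inflCochain₂ M L.U).comp (cocycles₂ (atLevel M L hL)).subtype)
    (fun f => ⟨(inflCochain₂_mem_cocycles₂_iff M L.U f).2 f.2, L.F, L.unram,
      isConstMod₂_inflCochain₂ M L.U f⟩)

theorem coe_inflZ2S (f : cocycles₂ (atLevel M L hL)) :
    (inflZ2S M L hL f : Tow.GQ × Tow.GQ → M) = inflCochain₂ M L.U f := rfl

theorem inflZ2S_apply (f : cocycles₂ (atLevel M L hL)) (g g' : Tow.GQ) :
    (inflZ2S M L hL f : Tow.GQ × Tow.GQ → M) (g, g') = f ((g : L.Gal), (g' : L.Gal)) := rfl

/-- Inflation `H²(Gal(F/ℚ), M) → continuousH2S S M`. -/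
noncomputable def inflH2S : H2 (atLevel M L hL) →ₗ[k] continuousH2S S M :=
  H2desc (atLevel M L hL) ((continuousH2Sπ S M).comp (inflZ2S M L hL)) (by
    haveI := isTrivial_comp_subtype M L.U hL
    intro c hc
    rw [LinearMap.comp_apply, continuousH2Sπ_eq_zero_iff, mem_levelCoboundariesS₂_iff]
    obtain ⟨c', hc'⟩ := hc
    refine ⟨inflCochain₁ M L.U c', ⟨L.F, L.unram, isConstMod₁_inflCochain₁ M L.U c'⟩, ?_⟩
    rw [coe_inflZ2S, ← hc']
    exact (inflCochain₂_d₁₂ M L.U c').symm)

@[simp] theorem inflH2S_H2π (f : cocycles₂ (atLevel M L hL)) :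
    inflH2S M L hL ((H2π (atLevel M L hL)).hom f) = continuousH2Sπ S M (inflZ2S M L hL f) :=
  H2desc_H2π _ _ _ f

/-- Joint surjectivity: every class of `continuousH2S S M` is inflated from a level above any
given level. -/
theorem exists_inflH2S_eq (x : continuousH2S S M) :
    ∃ (L' : Tow.Level S) (h : L ≤ L') (y : H2 (atLevel M L' (trivial_of_le M h hL))),
      inflH2S M L' (trivial_of_le M h hL) y = x := by
  obtain ⟨F, hF, hgal, hle, f, hc, rfl⟩ := exists_rep_continuousH2S S M x L.F L.unram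
  let L' : Tow.Level S := ⟨F, hF, (InfiniteGalois.normal_iff_isGalois _).2 hgal⟩
  have h : L ≤ L' := hle
  haveI := isTrivial_comp_subtype M L'.U (trivial_of_le M h hL)
  obtain ⟨f', hf'⟩ := exists_inflCochain₂_eq M L'.U (f : Tow.GQ × Tow.GQ → M) hc
  have hcoc : f' ∈ cocycles₂ (atLevel M L' (trivial_of_le M h hL)) := by
    rw [← inflCochain₂_mem_cocycles₂_iff M L'.U f', hf']
    exact f.2.1
  refine ⟨L', h, (H2π _).hom ⟨f', hcoc⟩, ?_⟩
  rw [inflH2S_H2π]
  congr 1
  exact Subtype.ext hf'

end Global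

section Transition

variable {L L' : Tow.Level S} (h : L ≤ L') (hL : ∀ s ∈ L.U, M.ρ s = 1)

/-- The identity of `M`, as a morphism `Res_{proj}(M at L) ⟶ M at L'`. -/
noncomputable def levelHom :
    Rep.res (Tow.Level.proj h) (atLevel M L hL) ⟶ atLevel M L' (trivial_of_le M h hL) :=
  Rep.ofHom ⟨LinearMap.id, fun g => QuotientGroup.induction_on g fun _ => rfl⟩

/-- Inflation `H²(Gal(F/ℚ), M) → H²(Gal(F'/ℚ), M)` for `F ≤ F'`. -/
noncomputable def inflLevel :
    H2 (atLevel M L hL) →ₗ[k] H2 (atLevel M L' (trivial_of_le M h hL)) :=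
  (groupCohomology.map (Tow.Level.proj h) (levelHom M h hL) 2).hom

theorem inflLevel_H2π (f : cocycles₂ (atLevel M L hL)) :
    inflLevel M h hL ((H2π (atLevel M L hL)).hom f) =
      (H2π (atLevel M L' (trivial_of_le M h hL))).hom
        ((mapCocycles₂ (Tow.Level.proj h) (levelHom M h hL)).hom f) := by
  have := congrArg (fun φ => φ.hom f)
    (H2π_comp_map (A := atLevel M L hL) (B := atLevel M L' (trivial_of_le M h hL))
      (Tow.Level.proj h) (levelHom M h hL))
  simp only [ModuleCat.hom_comp, LinearMap.comp_apply] at this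
  exact this

theorem mapCocycles₂_levelHom_apply (f : cocycles₂ (atLevel M L hL)) (x y : L'.Gal) :
    ((mapCocycles₂ (Tow.Level.proj h) (levelHom M h hL)).hom f : L'.Gal × L'.Gal → M) (x, y)
      = f (Tow.Level.proj h x, Tow.Level.proj h y) := rfl

/-- Inflation to the Prelude group is compatible with the transition maps. -/
theorem inflH2S_inflLevel (y : H2 (atLevel M L hL)) :
    inflH2S M L' (trivial_of_le M h hL) (inflLevel M h hL y) = inflH2S M L hL y := by
  obtain ⟨f, rfl⟩ := H2π_surjective (atLevel M L hL) y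
  rw [inflLevel_H2π, inflH2S_H2π, inflH2S_H2π]
  congr 1

/-- The kernel of the inflation to the Prelude group: classes dying at a higher level. -/
theorem inflH2S_eq_zero_iff (L : Tow.Level S) (hL : ∀ s ∈ L.U, M.ρ s = 1)
    (y : H2 (atLevel M L hL)) :
    inflH2S M L hL y = 0 ↔ ∃ (L' : Tow.Level S) (h : L ≤ L'), inflLevel M h hL y = 0 := by
  constructor
  · intro hy
    obtain ⟨f, rfl⟩ := H2π_surjective (atLevel M L hL) y
    rw [inflH2S_H2π] at hy
    obtain ⟨F, hF, hgal, hle, c, hc, hd⟩ :=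
      (continuousH2Sπ_eq_zero_iff_galois S M _ L.F L.unram).1 hy
    let L' : Tow.Level S := ⟨F, hF, (InfiniteGalois.normal_iff_isGalois _).2 hgal⟩
    have h : L ≤ L' := hle
    haveI := isTrivial_comp_subtype M L'.U (trivial_of_le M h hL)
    obtain ⟨c', rfl⟩ := exists_inflCochain₁_eq M L'.U c hc
    refine ⟨L', h, ?_⟩
    rw [inflLevel_H2π, H2π_eq_zero_iff]
    refine ⟨c', ?_⟩
    apply inflCochain₂_injective M L'.U
    rw [inflCochain₂_d₁₂]
    rw [hd]
    rfl
  · rintro ⟨L', h, hy⟩
    rw [← inflH2S_inflLevel M h hL y, hy, map_zero]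

end Transition

end Fermat.Agent.S55.Bridge

end
-- ===== PACK-END S55/Bridge/FiniteLevel.lean

-- ===== PACK-BEGIN S55/G/Rec/H63AuxField.lean
section





/-!
# S55 / G / REC, leaf N4 : the auxiliary cyclic fields `L(r, n) ⊂ ℚ(ζ_r)`

For a prime `r` and `n ∣ r - 1` we construct, inside `ℚ̄ = AlgebraicClosure ℚ`,

* the character `auxChar63 r n : G_ℚ →* (ℤ/r)ˣ ⧸ ((ℤ/r)ˣ)ⁿ` (the mod `r` cyclotomic character
  of the Prelude followed by the quotient map), and
* the field `auxField63 r n = ℚ̄ ^ ker (auxChar63 r n)`: the subfield of degree `n` of `ℚ(ζ_r)`.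

Main results (all in Prelude language: `ValuationSubring ℚ̄`, `LiesOverPrime`,
`inertiaSubgroupIn`, `IsFrobeniusAt`, `IntermediateField.IsUnramifiedOutside`):

* `cycloChar_surjective63`, `auxChar63_surjective`;
* `card_quotient_powSubgroup63`, `isCyclic_quotient_powSubgroup63` : the target is cyclic of
  order `n`;
* `fixingSubgroup_auxField63 : (auxField63 r n).fixingSubgroup = (auxChar63 r n).ker`;
* `finiteDimensional_auxField63`, `isGalois_auxField63`, `finrank_auxField63 : [L : ℚ] = n`;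
* `auxField63_isUnramifiedOutside` : `L` is unramified outside `{r}`;
* `auxChar63_frobenius` : a Frobenius element at `ℓ ≠ r` is mapped to the class of `ℓ`;
* `exists_inertia_cycloChar_eq63`, `exists_inertia_auxChar_eq63` : `L` is totally ramified at
  `r` (the inertia group of every place over `r` surjects onto `Gal(L/ℚ)`).
-/

set_option autoImplicit false
set_option linter.style.haveILetI false

namespace Fermat.Agent.S55.G.Rec

open ExtCitation Fermat.Agent.S55.Bridge

local notation "Qb" => AlgebraicClosure ℚ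
local notation "GQ" => (AlgebraicClosure ℚ ≃ₐ[ℚ] AlgebraicClosure ℚ)

section defs

variable (r : ℕ) [Fact r.Prime] (n : ℕ)

/-- The subgroup of `n`-th powers of `(ℤ/r)ˣ`. -/
def powSubgroup63 : Subgroup (ZMod r)ˣ := (powMonoidHom n : (ZMod r)ˣ →* (ZMod r)ˣ).range

lemma mem_powSubgroup63 (a : (ZMod r)ˣ) : a ∈ powSubgroup63 r n ↔ ∃ b : (ZMod r)ˣ, b ^ n = a :=
  Iff.rfl

/-- The character `G_ℚ → (ℤ/r)ˣ ⧸ ((ℤ/r)ˣ)ⁿ` cutting out `L(r, n)`. -/
noncomputable def auxChar63 : GQ →* (ZMod r)ˣ ⧸ powSubgroup63 r n :=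
  (QuotientGroup.mk' (powSubgroup63 r n)).comp (cycloChar r)

lemma auxChar63_apply (σ : GQ) :
    auxChar63 r n σ = QuotientGroup.mk' (powSubgroup63 r n) (cycloChar r σ) := rfl

lemma auxChar63_eq_one_iff (σ : GQ) :
    auxChar63 r n σ = 1 ↔ cycloChar r σ ∈ powSubgroup63 r n := by
  rw [auxChar63_apply, QuotientGroup.mk'_apply, QuotientGroup.eq_one_iff]

/-- The auxiliary field `L(r, n)`: the fixed field of the kernel of `auxChar63 r n`. -/
noncomputable def auxField63 : IntermediateField ℚ Qb :=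
  IntermediateField.fixedField (auxChar63 r n).ker

end defs

section surj

variable (r : ℕ) [Fact r.Prime]

/-- `ℚ̄` contains a primitive `r`-th root of unity. -/
theorem exists_primitiveRoot63 : ∃ ζ : Qb, IsPrimitiveRoot ζ r := by
  haveI : NeZero r := ⟨(Fact.out : r.Prime).ne_zero⟩
  exact HasEnoughRootsOfUnity.exists_primitiveRoot Qb r

/-- `cycloChar r σ` is characterised by its action on one primitive root. -/
theorem cycloChar_eq_of_apply63 {ζ : Qb} (hζ : IsPrimitiveRoot ζ r) (σ : GQ) (a : (ZMod r)ˣ)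
    (h : σ ζ = ζ ^ (a : ZMod r).val) : cycloChar r σ = a := by
  have hr : r.Prime := Fact.out
  haveI : NeZero r := ⟨hr.ne_zero⟩
  have h1 := cycloChar_spec r σ (t := (hζ.toRootsOfUnity : Qbˣ)) hζ.toRootsOfUnity.2
  have h2 : ((hζ.toRootsOfUnity : Qbˣ) : Qb) = ζ := rfl
  rw [h2, h] at h1
  have h3 := hζ.pow_inj (ZMod.val_lt _) (ZMod.val_lt _) h1
  apply Units.ext
  exact (ZMod.val_injective r h3).symm

/-- The mod `r` cyclotomic character of `G_ℚ` is surjective. -/
theorem cycloChar_surjective63 : Function.Surjective (cycloChar r) := by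
  intro a
  have hr : r.Prime := Fact.out
  haveI : NeZero r := ⟨hr.ne_zero⟩
  obtain ⟨ζ, hζ⟩ := exists_primitiveRoot63 r
  have hcop : (a : ZMod r).val.Coprime r := ZMod.val_coe_unit_coprime a
  have hζa : IsPrimitiveRoot (ζ ^ (a : ZMod r).val) r := hζ.pow_of_coprime _ hcop
  have hmin : minpoly ℚ (ζ ^ (a : ZMod r).val) = minpoly ℚ ζ := by
    rw [← Polynomial.cyclotomic_eq_minpoly_rat hζ hr.pos,
      ← Polynomial.cyclotomic_eq_minpoly_rat hζa hr.pos]
  haveI : Algebra.IsAlgebraic ℚ Qb := AlgebraicClosure.isAlgebraic ℚ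
  haveI : IsAlgClosure ℚ Qb := ⟨inferInstance, inferInstance⟩
  haveI : Normal ℚ Qb := IsAlgClosure.normal ℚ Qb
  have halg : IsAlgebraic ℚ (ζ ^ (a : ZMod r).val) :=
    (AlgebraicClosure.isAlgebraic ℚ).isAlgebraic _
  obtain ⟨σ, hσ⟩ := minpoly.exists_algEquiv_of_root (K := ℚ) (L := Qb) (x := ζ)
    (y := ζ ^ (a : ZMod r).val) halg (by rw [hmin]; exact minpoly.aeval ℚ ζ)
  exact ⟨σ, cycloChar_eq_of_apply63 r hζ σ a hσ⟩

theorem auxChar63_surjective (n : ℕ) : Function.Surjective (auxChar63 r n) :=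
  (QuotientGroup.mk'_surjective _).comp (cycloChar_surjective63 r)

end surj

section quotient

variable (r : ℕ) [Fact r.Prime] (n : ℕ)

/-- `(ℤ/r)ˣ ⧸ ((ℤ/r)ˣ)ⁿ` has `n` elements when `n ∣ r - 1`. -/
theorem card_quotient_powSubgroup63 (hn : n ∣ r - 1) :
    Nat.card ((ZMod r)ˣ ⧸ powSubgroup63 r n) = n := by
  have hr : r.Prime := Fact.out
  have h1 : Nat.card (ZMod r)ˣ = r - 1 := by
    rw [Nat.card_eq_fintype_card, ZMod.card_units]
  rw [← Subgroup.index_eq_card]
  unfold powSubgroup63
  rw [IsCyclic.index_powMonoidHom_range, h1]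
  exact Nat.gcd_eq_right hn

theorem isCyclic_quotient_powSubgroup63 : IsCyclic ((ZMod r)ˣ ⧸ powSubgroup63 r n) :=
  inferInstance

theorem finite_quotient_powSubgroup63 : Finite ((ZMod r)ˣ ⧸ powSubgroup63 r n) :=
  inferInstance

end quotient

/-- `ℚ(ζ)` is finite over `ℚ`. -/
theorem finiteDimensional_adjoin_root63 (ζ : Qb) :
    FiniteDimensional ℚ (IntermediateField.adjoin ℚ {ζ}) :=
  IntermediateField.adjoin.finiteDimensional
    ((AlgebraicClosure.isAlgebraic ℚ).isAlgebraic ζ).isIntegral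

section galois

variable (r : ℕ) [Fact r.Prime] (n : ℕ)

/-- The kernel of the cyclotomic character is the fixing subgroup of `ℚ(ζ)`. -/
theorem ker_cycloChar_eq63 {ζ : Qb} (hζ : IsPrimitiveRoot ζ r) :
    (cycloChar r).ker = (IntermediateField.adjoin ℚ {ζ}).fixingSubgroup := by
  have hr : r.Prime := Fact.out
  haveI : NeZero r := ⟨hr.ne_zero⟩
  ext σ
  rw [MonoidHom.mem_ker, IntermediateField.mem_fixingSubgroup_iff]
  constructor
  · intro h x hx
    have hfix : ∀ y ∈ ({ζ} : Set Qb), σ y = y := by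
      intro y hy
      rw [Set.mem_singleton_iff] at hy
      subst hy
      have := (cycloChar_eq_one_iff r σ).1 h hζ.toRootsOfUnity hζ.toRootsOfUnity.2
      exact this
    -- the fixed points of `σ` form an intermediate field containing `ζ`
    have hle : IntermediateField.adjoin ℚ {ζ} ≤
        IntermediateField.fixedField (Subgroup.zpowers σ) := by
      rw [IntermediateField.adjoin_le_iff]
      intro y hy
      rw [SetLike.mem_coe, IntermediateField.mem_fixedField_iff]
      intro τ hτ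
      obtain ⟨k, rfl⟩ := Subgroup.mem_zpowers_iff.1 hτ
      have h1 : σ • y = y := hfix y hy
      have : (σ ^ k) • y = y := by
        have hs : σ ∈ MulAction.stabilizer GQ y := h1
        exact (MulAction.stabilizer GQ y).zpow_mem hs k
      exact this
    have := hle hx
    rw [IntermediateField.mem_fixedField_iff] at this
    exact this σ (Subgroup.mem_zpowers σ)
  · intro h
    have hζfix : σ ζ = ζ := h ζ (IntermediateField.subset_adjoin ℚ _ rfl)
    apply cycloChar_eq_of_apply63 r hζ σ 1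
    rw [Units.val_one, ZMod.val_one'' (by exact hr.ne_one), pow_one, hζfix]

theorem isOpen_ker_cycloChar63 : IsOpen ((cycloChar r).ker : Set GQ) := by
  obtain ⟨ζ, hζ⟩ := exists_primitiveRoot63 r
  rw [ker_cycloChar_eq63 r hζ]
  haveI := finiteDimensional_adjoin_root63 ζ
  exact IntermediateField.fixingSubgroup_isOpen _

theorem ker_cycloChar_le_ker_auxChar63 : (cycloChar r).ker ≤ (auxChar63 r n).ker := by
  intro σ hσ
  rw [MonoidHom.mem_ker] at hσ ⊢
  rw [auxChar63_apply, hσ, map_one]

theorem isOpen_ker_auxChar63 : IsOpen ((auxChar63 r n).ker : Set GQ) :=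
  Subgroup.isOpen_mono (ker_cycloChar_le_ker_auxChar63 r n) (isOpen_ker_cycloChar63 r)

theorem isClosed_ker_auxChar63 : IsClosed ((auxChar63 r n).ker : Set GQ) :=
  Subgroup.isClosed_of_isOpen _ (isOpen_ker_auxChar63 r n)

/-- Galois correspondence for `L(r, n)`. -/
theorem fixingSubgroup_auxField63 : (auxField63 r n).fixingSubgroup = (auxChar63 r n).ker := by
  haveI := Fermat.Agent.S54.isGalois_algebraicClosure_rat
  exact InfiniteGalois.fixingSubgroup_fixedField
    ⟨(auxChar63 r n).ker, isClosed_ker_auxChar63 r n⟩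

theorem mem_fixingSubgroup_auxField63 (σ : GQ) :
    σ ∈ (auxField63 r n).fixingSubgroup ↔ cycloChar r σ ∈ powSubgroup63 r n := by
  rw [fixingSubgroup_auxField63, MonoidHom.mem_ker, auxChar63_eq_one_iff]

/-- `L(r, n) ⊆ ℚ(ζ_r)`. -/
theorem auxField63_le_adjoin {ζ : Qb} (hζ : IsPrimitiveRoot ζ r) :
    auxField63 r n ≤ IntermediateField.adjoin ℚ {ζ} := by
  haveI := Fermat.Agent.S54.isGalois_algebraicClosure_rat
  rw [← InfiniteGalois.fixedField_fixingSubgroup (IntermediateField.adjoin ℚ {ζ}),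
    ← ker_cycloChar_eq63 r hζ]
  intro x hx
  rw [IntermediateField.mem_fixedField_iff]
  intro σ hσ
  have hx' := (IntermediateField.mem_fixedField_iff _ x).1 hx
  exact hx' σ (ker_cycloChar_le_ker_auxChar63 r n hσ)

theorem finiteDimensional_auxField63 : FiniteDimensional ℚ (auxField63 r n) := by
  haveI := Fermat.Agent.S54.isGalois_algebraicClosure_rat
  rw [← InfiniteGalois.isOpen_iff_finite, fixingSubgroup_auxField63]
  exact isOpen_ker_auxChar63 r n

theorem isGalois_auxField63 : IsGalois ℚ (auxField63 r n) := by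
  haveI := Fermat.Agent.S54.isGalois_algebraicClosure_rat
  have h : @IsGalois ℚ _ (auxField63 r n) _ (IntermediateField.algebra' _) := by
    rw [← InfiniteGalois.normal_iff_isGalois, fixingSubgroup_auxField63]
    exact MonoidHom.normal_ker _
  convert h
  exact Subsingleton.elim _ _

/-- `[L(r, n) : ℚ] = n` when `n ∣ r - 1`. -/
theorem finrank_auxField63 (hn : n ∣ r - 1) : Module.finrank ℚ (auxField63 r n) = n := by
  haveI := Fermat.Agent.S54.isGalois_algebraicClosure_rat
  rw [IntermediateField.finrank_eq_fixingSubgroup_index, fixingSubgroup_auxField63,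
    Subgroup.index_ker, MonoidHom.range_eq_top.2 (auxChar63_surjective r n),
    Subgroup.card_top, card_quotient_powSubgroup63 r n hn]

end galois

section arithmetic

variable (r : ℕ) [Fact r.Prime] (n : ℕ)

/-- `L(r, n)` is unramified outside `r` (Prelude form). -/
theorem auxField63_isUnramifiedOutside (S : Finset Nat.Primes)
    (hS : (⟨r, Fact.out⟩ : Nat.Primes) ∈ S) : (auxField63 r n).IsUnramifiedOutside S := by
  refine ⟨finiteDimensional_auxField63 r n, fun q hq A hA σ hσ => ?_⟩
  have hqr : (q : ℕ) ≠ r := by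
    rintro h
    apply hq
    have : q = ⟨r, Fact.out⟩ := Subtype.ext h
    rw [this]
    exact hS
  rw [mem_fixingSubgroup_auxField63,
    cycloChar_eq_one_of_mem_inertia r q.2 hqr A hA σ hσ]
  exact one_mem _

/-- The inertia groups at primes `q ≠ r` act trivially on `L(r, n)`. -/
theorem inertia_le_fixingSubgroup_auxField63 {q : ℕ} (hq : q.Prime) (hqr : q ≠ r)
    (A : ValuationSubring Qb) (hA : A.LiesOverPrime q) :
    A.inertiaSubgroupIn ℚ ≤ (auxField63 r n).fixingSubgroup := by
  intro σ hσ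
  rw [mem_fixingSubgroup_auxField63, cycloChar_eq_one_of_mem_inertia r hq hqr A hA σ hσ]
  exact one_mem _

/-- A Frobenius element with exponent `N` at a place over `ℓ ≠ r` acts on `r`-th roots of unity
by `t ↦ t ^ N`. -/
theorem frob_root_eq_pow63 {ℓ : ℕ} (hℓ : ℓ.Prime) (hℓr : ℓ ≠ r)
    (A : ValuationSubring Qb) (hA : A.LiesOverPrime ℓ) (N : ℕ)
    (τ : GQ) (hτ : A.IsFrobeniusAt τ N) {t : Qb} (htr : t ^ r = 1) : τ t = t ^ N := by
  have hr : r.Prime := Fact.out
  by_contra hne
  have hrv := val_prime_eq_one (A := A) hA hℓ hr hℓr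
  have hσt : (τ t) ^ r = 1 := by rw [← map_pow, htr, map_one]
  have htl : (t ^ N) ^ r = 1 := by rw [← pow_mul, mul_comm, pow_mul, htr, one_pow]
  have h1 := val_sub_roots_eq_one (A := A) hr.ne_zero hrv hσt htl hne
  have hvt : A.valuation t ≤ 1 := by
    have h : (A.valuation t) ^ r = 1 := by rw [← map_pow, htr, map_one]
    exact ((pow_eq_one_iff.1 h).resolve_right hr.ne_zero).le
  have h2 := Fermat.Agent.S29.H872.frob_val_sub_lt_one A hτ t hvt
  rw [h1] at h2
  exact lt_irrefl _ h2

/-- **Cyclotomic character at Frobenius (general exponent).** -/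
theorem cycloChar_frobenius63 {ℓ : ℕ} (hℓ : ℓ.Prime) (hℓr : ℓ ≠ r)
    (A : ValuationSubring Qb) (hA : A.LiesOverPrime ℓ) (N : ℕ)
    (τ : GQ) (hτ : A.IsFrobeniusAt τ N) :
    ((cycloChar r τ : (ZMod r)ˣ) : ZMod r) = (N : ZMod r) := by
  have hr : r.Prime := Fact.out
  haveI : NeZero r := ⟨hr.ne_zero⟩
  obtain ⟨ζ, hζ⟩ := exists_primitiveRoot63 r
  have h1 := cycloChar_spec r τ (t := (hζ.toRootsOfUnity : Qbˣ)) hζ.toRootsOfUnity.2
  have h2 : ((hζ.toRootsOfUnity : Qbˣ) : Qb) = ζ := rfl
  rw [h2, frob_root_eq_pow63 r hℓ hℓr A hA N τ hτ hζ.pow_eq_one] at h1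
  have h3 : ζ ^ (N % r) = ζ ^ ((cycloChar r τ : (ZMod r)ˣ) : ZMod r).val := by
    rw [← h1]
    conv_rhs => rw [← Nat.div_add_mod N r, pow_add, pow_mul, hζ.pow_eq_one, one_pow, one_mul]
  have h4 := hζ.pow_inj (Nat.mod_lt _ hr.pos) (ZMod.val_lt _) h3
  rw [← ZMod.natCast_zmod_val ((cycloChar r τ : (ZMod r)ˣ) : ZMod r), ← h4]
  exact (ZMod.natCast_mod N r)

/-- A Frobenius element at `ℓ ≠ r` is mapped by `auxChar63` to the class of `ℓ`. -/
theorem auxChar63_frobenius {ℓ : ℕ} (hℓ : ℓ.Prime) (hℓr : ℓ ≠ r)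
    (A : ValuationSubring Qb) (hA : A.LiesOverPrime ℓ) (N : ℕ)
    (τ : GQ) (hτ : A.IsFrobeniusAt τ N) (u : (ZMod r)ˣ) (hu : (u : ZMod r) = (N : ZMod r)) :
    auxChar63 r n τ = QuotientGroup.mk' (powSubgroup63 r n) u := by
  rw [auxChar63_apply]
  congr 1
  apply Units.ext
  rw [cycloChar_frobenius63 r hℓ hℓr A hA N τ hτ, hu]

/-- **Total ramification at `r`.** For every place `A` of `ℚ̄` over `r`, the inertia group of
`A` surjects onto `Gal(ℚ(ζ_r)/ℚ)`. -/
theorem exists_inertia_cycloChar_eq63 (A : ValuationSubring Qb) (hA : A.LiesOverPrime r)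
    (g : GQ) : ∃ σ ∈ A.inertiaSubgroupIn ℚ, cycloChar r σ = cycloChar r g := by
  have hr : r.Prime := Fact.out
  haveI : NeZero r := ⟨hr.ne_zero⟩
  obtain ⟨ζ, hζ⟩ := exists_primitiveRoot63 r
  have hconj : ∀ τ : GQ, (∀ x ∈ (⊥ : IntermediateField ℚ Qb), τ x = x) →
      A.valuation (τ (ζ - 1)) = A.valuation (ζ - 1) := by
    intro τ _
    have hτζ : IsPrimitiveRoot (τ ζ) r := hζ.map_of_injective τ.injective
    rw [map_sub, map_one]
    exact Fermat.Agent.S14.H894.valuation_sub_one_eq_of_mem_primitiveRoots A r hr ζ hζ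
      ((mem_primitiveRoots hr.pos).2 hτζ)
  have hbot : ∀ x ∈ (⊥ : IntermediateField ℚ Qb), g x = x := by
    intro x hx
    obtain ⟨q, rfl⟩ := IntermediateField.mem_bot.1 hx
    exact g.commutes q
  obtain ⟨σ, hσ, -, hσγ⟩ := Fermat.Agent.S14.H894.exists_inertia_eq_on_adjoin A r hr hA ⊥
    (ζ - 1) (Fermat.Agent.S14.H894.cycloShift r) (Fermat.Agent.S14.H894.cycloShift_monic r)
    (Fermat.Agent.S14.H894.cycloShift_aeval r hr ζ hζ)
    (Fermat.Agent.S14.H894.cyclo_indep A r hr hA ζ hζ) hconj g hbot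
  refine ⟨σ, hσ, ?_⟩
  have hσζ : σ ζ = g ζ := by
    have := hσγ
    rw [map_sub, map_sub, map_one, map_one] at this
    exact sub_left_injective this
  apply cycloChar_eq_of_apply63 r hζ σ (cycloChar r g)
  rw [hσζ]
  exact cycloChar_spec r g (t := (hζ.toRootsOfUnity : Qbˣ)) hζ.toRootsOfUnity.2

/-- `L(r, n)` is totally ramified at `r`: inertia at `r` surjects onto `Gal(L(r, n)/ℚ)`. -/
theorem exists_inertia_auxChar_eq63 (A : ValuationSubring Qb) (hA : A.LiesOverPrime r)
    (g : GQ) : ∃ σ ∈ A.inertiaSubgroupIn ℚ, auxChar63 r n σ = auxChar63 r n g := by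
  obtain ⟨σ, hσ, h⟩ := exists_inertia_cycloChar_eq63 r A hA g
  exact ⟨σ, hσ, by rw [auxChar63_apply, auxChar63_apply, h]⟩

/-- Total ramification, coset form: `G_ℚ = I_A · Gal(ℚ̄ / L(r, n))`. -/
theorem exists_inertia_mul_mem_fixingSubgroup63 (A : ValuationSubring Qb)
    (hA : A.LiesOverPrime r) (g : GQ) :
    ∃ σ ∈ A.inertiaSubgroupIn ℚ, σ⁻¹ * g ∈ (auxField63 r n).fixingSubgroup := by
  obtain ⟨σ, hσ, h⟩ := exists_inertia_auxChar_eq63 r n A hA g
  refine ⟨σ, hσ, ?_⟩
  rw [fixingSubgroup_auxField63, MonoidHom.mem_ker, map_mul, map_inv, h, inv_mul_cancel]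

end arithmetic

end Fermat.Agent.S55.G.Rec

end
-- ===== PACK-END S55/G/Rec/H63AuxField.lean

-- ===== PACK-BEGIN S55/H696/DevClosure.lean
section


/-!
# S55 / dévissage for level-constant `H³` (helper696), part 1: closure properties

Vocabulary (verbatim copies of the definitions of helper53's layer-KL interface, so that the
final statement is definitionally the Spec `H3DevissageSpec`):

* `IsLC3 L f`      : the 3-cochain `f` is level-constant;
* `IsCoc3 A f`     : the inhomogeneous 3-cocycle condition;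
* `H3Van L A`      : every level-constant 3-cocycle is `d` of a level-constant 2-cochain.

Closure properties of `H3Van` (cochain level, `k` a field):

* `h3Van_of_subsingleton` : the zero module;
* `h3Van_of_retract`      : `A → B → A` equivariant with composite an invertible scalar;
* `h3Van_of_ses`          : extensions `0 → A → B → C → 0` (`B` uniformly smooth, normal levels
                            cofinal).
-/

set_option autoImplicit false

noncomputable section

namespace Fermat.Agent.S55.H696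

open groupCohomology Fermat.Agent.S55.PT

variable {G : Type} [Group G] {k : Type}

/-- `H` contains a level. -/
def IsOpenSubgroup (L : LevelSys G) (H : Subgroup G) : Prop := ∃ U ∈ L.levels, U ≤ H

/-- Level-constant 3-cochains. -/
def IsLC3 (L : LevelSys G) {X : Type*} (f : G × G × G → X) : Prop :=
  ∃ U ∈ L.levels, ∀ g₁ g₂ g₃ s₁ s₂ s₃ : G, s₁ ∈ U → s₂ ∈ U → s₃ ∈ U →
    f (g₁ * s₁, g₂ * s₂, g₃ * s₃) = f (g₁, g₂, g₃)

/-- The inhomogeneous 3-cocycle condition. -/
def IsCoc3 [CommRing k] (A : Rep.{0, 0, 0} k G) (f : G × G × G → A) : Prop :=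
  ∀ g h i j : G,
    A.ρ g (f (h, i, j)) - f (g * h, i, j) + f (g, h * i, j) - f (g, h, i * j) + f (g, h, i) = 0

/-- `H³_lc(G, A) = 0`. -/
def H3Van [CommRing k] (L : LevelSys G) (A : Rep.{0, 0, 0} k G) : Prop :=
  ∀ z : G × G × G → A, IsLC3 L z → IsCoc3 A z →
    ∃ b : G × G → A, L.IsLC₂ b ∧ (d₂₃ A).hom b = z

/-! ### level-constancy -/

section LC

variable {L : LevelSys G}

lemma IsLC3.comp {X Y : Type*} {f : G × G × G → X} (hf : IsLC3 L f) (φ : X → Y) :
    IsLC3 L (φ ∘ f) := by
  obtain ⟨U, hU, h⟩ := hf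
  exact ⟨U, hU, fun g₁ g₂ g₃ s₁ s₂ s₃ h₁ h₂ h₃ => by
    simp only [Function.comp_apply, h g₁ g₂ g₃ s₁ s₂ s₃ h₁ h₂ h₃]⟩

lemma IsLC3.sub {X : Type*} [Sub X] {f f' : G × G × G → X} (hf : IsLC3 L f)
    (hf' : IsLC3 L f') : IsLC3 L (f - f') := by
  obtain ⟨U, hU, h⟩ := hf
  obtain ⟨V, hV, h'⟩ := hf'
  obtain ⟨W, hW, hle⟩ := L.directed U hU V hV
  refine ⟨W, hW, fun g₁ g₂ g₃ s₁ s₂ s₃ h₁ h₂ h₃ => ?_⟩
  simp only [Pi.sub_apply]
  rw [h g₁ g₂ g₃ s₁ s₂ s₃ (hle h₁).1 (hle h₂).1 (hle h₃).1,
    h' g₁ g₂ g₃ s₁ s₂ s₃ (hle h₁).2 (hle h₂).2 (hle h₃).2]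

/-- A level below two given levels which is moreover normal. -/
lemma exists_normal_level_le (hN : L.NormalCofinal) {U V : Subgroup G} (hU : U ∈ L.levels)
    (hV : V ∈ L.levels) : ∃ W ∈ L.levels, W ≤ U ∧ W ≤ V ∧ W.Normal := by
  obtain ⟨W₀, hW₀, hle⟩ := L.directed U hU V hV
  obtain ⟨W, hW, hWle, hWn⟩ := hN W₀ hW₀
  exact ⟨W, hW, fun x hx => (hle (hWle hx)).1, fun x hx => (hle (hWle hx)).2, hWn⟩

variable [CommRing k] {A : Rep.{0, 0, 0} k G}

/-- `d` of a level-constant 2-cochain with values in a uniformly smooth module is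
level-constant. -/
lemma isLC3_d₂₃ (hN : L.NormalCofinal) (hA : L.IsUSmooth A) {b : G × G → A}
    (hb : L.IsLC₂ b) : IsLC3 L ((d₂₃ A).hom b) := by
  obtain ⟨U, hU, hUA⟩ := hA
  obtain ⟨V, hV, hVb⟩ := hb
  obtain ⟨W, hW, hWU, hWV, hWn⟩ := exists_normal_level_le hN hU hV
  refine ⟨W, hW, fun g₁ g₂ g₃ s₁ s₂ s₃ h₁ h₂ h₃ => ?_⟩
  have conj : ∀ (g s : G), s ∈ W → g⁻¹ * s * g ∈ W := fun g s hs => by
    have := hWn.conj_mem s hs g⁻¹
    simpa using this
  have e1 : g₁ * s₁ * (g₂ * s₂) = g₁ * g₂ * (g₂⁻¹ * s₁ * g₂ * s₂) := by group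
  have e2 : g₂ * s₂ * (g₃ * s₃) = g₂ * g₃ * (g₃⁻¹ * s₂ * g₃ * s₃) := by group
  have m1 : g₂⁻¹ * s₁ * g₂ * s₂ ∈ V := hWV (W.mul_mem (conj g₂ s₁ h₁) h₂)
  have m2 : g₃⁻¹ * s₂ * g₃ * s₃ ∈ V := hWV (W.mul_mem (conj g₃ s₂ h₂) h₃)
  simp only [d₂₃_hom_apply]
  rw [e1, e2, hVb g₂ g₃ s₂ s₃ (hWV h₂) (hWV h₃), hVb (g₁ * g₂) g₃ _ s₃ m1 (hWV h₃),
    hVb g₁ (g₂ * g₃) s₁ _ (hWV h₁) m2, hVb g₁ g₂ s₁ s₂ (hWV h₁) (hWV h₂), map_mul,
    Module.End.mul_apply, hUA s₁ (hWU h₁)]

end LC

/-! ### the cocycle condition -/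

section Coc

variable [CommRing k] {A B : Rep.{0, 0, 0} k G}

lemma isCoc3_d₂₃ (b : G × G → A) : IsCoc3 A ((d₂₃ A).hom b) := by
  intro g h i j
  simp only [d₂₃_hom_apply, map_sub, map_add, mul_assoc]
  rw [← Module.End.mul_apply, ← map_mul]
  abel

lemma IsCoc3.sub {f f' : G × G × G → A} (hf : IsCoc3 A f) (hf' : IsCoc3 A f') :
    IsCoc3 A (f - f') := by
  intro g h i j
  have h1 := hf g h i j
  have h2 := hf' g h i j
  simp only [Pi.sub_apply, map_sub]
  have : A.ρ g (f (h, i, j)) - A.ρ g (f' (h, i, j)) - (f (g * h, i, j) - f' (g * h, i, j)) +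
      (f (g, h * i, j) - f' (g, h * i, j)) - (f (g, h, i * j) - f' (g, h, i * j)) +
      (f (g, h, i) - f' (g, h, i)) =
      (A.ρ g (f (h, i, j)) - f (g * h, i, j) + f (g, h * i, j) - f (g, h, i * j) + f (g, h, i)) -
      (A.ρ g (f' (h, i, j)) - f' (g * h, i, j) + f' (g, h * i, j) - f' (g, h, i * j)
        + f' (g, h, i)) := by abel
  rw [this, h1, h2, sub_zero]

end Coc

/-! ### closure properties of `H3Van` -/

section Closure

variable [Field k] {A B C : Rep.{0, 0, 0} k G} {L : LevelSys G}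

lemma IsCoc3.push {φ : A →ₗ[k] B} (hφ : IsEquivariant φ) {f : G × G × G → A}
    (hf : IsCoc3 A f) : IsCoc3 B (φ ∘ f) := by
  intro g h i j
  have hφ' : ∀ (g : G) (a : A), φ (A.ρ g a) = B.ρ g (φ a) := hφ
  have := congrArg φ (hf g h i j)
  simpa only [Function.comp_apply, map_sub, map_add, map_zero, hφ'] using this

lemma IsCoc3.of_push {φ : A →ₗ[k] B} (hφ : IsEquivariant φ) (hinj : Function.Injective φ)
    {f : G × G × G → A} (hf : IsCoc3 B (φ ∘ f)) : IsCoc3 A f := by
  intro g h i j
  have hφ' : ∀ (g : G) (a : A), φ (A.ρ g a) = B.ρ g (φ a) := hφ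
  apply hinj
  have := hf g h i j
  simpa only [Function.comp_apply, map_sub, map_add, map_zero, hφ'] using this

/-- The zero module. -/
theorem h3Van_of_subsingleton [Subsingleton A] (L : LevelSys G) : H3Van L A := by
  intro z _ _
  refine ⟨0, L.isLC₂_const (0 : A), ?_⟩
  funext x
  exact Subsingleton.elim _ _

/-- Retracts (up to an invertible scalar). -/
theorem h3Van_of_retract {i : A →ₗ[k] B} {r : B →ₗ[k] A} (hi : IsEquivariant i)
    (hr : IsEquivariant r) {c : k} (hc : c ≠ 0) (hri : ∀ a : A, r (i a) = c • a)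
    (hB : H3Van L B) : H3Van L A := by
  intro z hz hzc
  obtain ⟨b, hb, hdb⟩ := hB (i ∘ z) (hz.comp i) (hzc.push hi)
  refine ⟨(c⁻¹ • r) ∘ b, hb.comp _, ?_⟩
  have hr' : IsEquivariant (A := B) (B := A) (c⁻¹ • r) := by
    intro g a
    have hr'' : ∀ (g : G) (a : B), r (B.ρ g a) = A.ρ g (r a) := hr
    simp only [LinearMap.smul_apply, hr'', map_smul]
  rw [push_d₂₃ (c⁻¹ • r) hr', hdb]
  funext x
  simp only [Function.comp_apply, LinearMap.smul_apply, hri, smul_smul, inv_mul_cancel₀ hc,
    one_smul]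

/-- Isomorphisms. -/
theorem h3Van_of_equiv (e : A ≃ₗ[k] B) (he : IsEquivariant (e : A →ₗ[k] B))
    (hB : H3Van L B) : H3Van L A := by
  refine h3Van_of_retract (i := (e : A →ₗ[k] B)) (r := (e.symm : B →ₗ[k] A)) he ?_
    (one_ne_zero : (1 : k) ≠ 0) (fun a => by simp) hB
  intro g b
  have he' : ∀ (g : G) (a : A), e (A.ρ g a) = B.ρ g (e a) := he
  apply e.injective
  simp only [LinearEquiv.coe_coe, LinearEquiv.apply_symm_apply, he']

/-- Extensions. -/
theorem h3Van_of_ses (E : SES A B C) (hN : L.NormalCofinal) (hBs : L.IsUSmooth B)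
    (hA : H3Van L A) (hC : H3Van L C) : H3Van L B := by
  intro z hz hzc
  -- kill the image in `C`
  obtain ⟨c, hc, hdc⟩ := hC (E.π ∘ z) (hz.comp E.π) (hzc.push E.hπ)
  set c' : G × G → B := E.sec ∘ c with hc'
  have hc'lc : L.IsLC₂ c' := hc.comp E.sec
  set z' : G × G × G → B := z - (d₂₃ B).hom c' with hz'
  have hz'lc : IsLC3 L z' := hz.sub (isLC3_d₂₃ hN hBs hc'lc)
  have hz'c : IsCoc3 B z' := hzc.sub (isCoc3_d₂₃ c')
  have hπz' : ∀ x, E.π (z' x) = 0 := by
    intro x
    have h1 : E.π ∘ (d₂₃ B).hom c' = (d₂₃ C).hom (E.π ∘ c') := (push_d₂₃ E.π E.hπ c').symm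
    have h2 : E.π ∘ c' = c := by
      funext y
      simp only [hc', Function.comp_apply, E.π_sec]
    have h3 := congrFun h1 x
    rw [h2, hdc] at h3
    simp only [Function.comp_apply] at h3
    simp only [hz', Pi.sub_apply, map_sub, h3, sub_self]
  -- descend to `A`
  have hiz : (E.i ∘ (E.ret ∘ z') : G × G × G → B) = z' := E.i_comp_ret_comp hπz'
  have hz''lc : IsLC3 L (E.ret ∘ z') := hz'lc.comp E.ret
  have hz''c : IsCoc3 A (E.ret ∘ z') := IsCoc3.of_push E.hi E.inj (by rw [hiz]; exact hz'c)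
  obtain ⟨a, ha, hda⟩ := hA (E.ret ∘ z') hz''lc hz''c
  refine ⟨c' + E.i ∘ a, hc'lc.add (ha.comp E.i), ?_⟩
  rw [map_add, push_d₂₃ E.i E.hi, hda, hiz, hz']
  abel

end Closure

end Fermat.Agent.S55.H696

end

end
-- ===== PACK-END S55/H696/DevClosure.lean

-- ===== PACK-BEGIN S55/K/T2aH635.lean
section



/-!
# S55 / layer K, leaf K-T2a (helper635): closure properties of `H3Vanish`

Cochain level, ANY commutative coefficient ring `k`, any group `G` with a level system `L`.

* `d34_d₂₃`, `d₂₃_isLC₃`, `d₂₃_comp`, `d34_comp` : basics in degree 3;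
* `h3Vanish_of_retract`, `h3Vanish_of_addEquiv` : retracts, isomorphisms;
* `h3Vanish_of_extension` : extensions `0 → A → B → C → 0` (additive equivariant maps,
  `B` uniformly smooth, normal levels cofinal);
* `h3Vanish_of_sum_eq_id`, `h3Vanish_of_bijective_pi` : finite direct sums;
* `h3Vanish_of_subsingleton` : the zero module;
* `h3Vanish_of_ses` : extensions in the form of `PT.SES` (coefficients in a field).
-/

set_option autoImplicit false

noncomputable section

namespace Fermat.Agent.S55.K.H635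

open groupCohomology Fermat.Agent.S55.PT

variable {k : Type} [CommRing k] {G : Type} [Group G]

/-! ### Basics in degree 3 -/

/-- `d ∘ d = 0` in degrees `2 → 3 → 4`. -/
theorem d34_d₂₃ (A : Rep.{0, 0, 0} k G) (b : G × G → A) : d34 A ((d₂₃ A).hom b) = 0 := by
  funext x
  obtain ⟨g₁, g₂, g₃, g₄⟩ := x
  simp only [d34, d₂₃_hom_apply, map_add, map_sub, Pi.zero_apply, map_mul, Module.End.mul_apply,
    mul_assoc]
  abel

/-- `d34` is additive. -/
theorem d34_sub (A : Rep.{0, 0, 0} k G) (f f' : G × G × G → A) :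
    d34 A (f - f') = d34 A f - d34 A f' := by
  funext x
  simp only [d34, Pi.sub_apply, map_sub]
  abel

theorem isLC₃_comp {L : LevelSys G} {X Y : Type*} {f : G × G × G → X} (hf : IsLC₃ L f)
    (φ : X → Y) : IsLC₃ L (φ ∘ f) := by
  obtain ⟨U, hU, h⟩ := hf
  exact ⟨U, hU, fun g₁ g₂ g₃ s₁ s₂ s₃ h₁ h₂ h₃ => by
    simp only [Function.comp_apply, h g₁ g₂ g₃ s₁ s₂ s₃ h₁ h₂ h₃]⟩

theorem isLC₃_map₂ {L : LevelSys G} {X Y Z : Type*} {f : G × G × G → X} {f' : G × G × G → Y}
    (hf : IsLC₃ L f) (hf' : IsLC₃ L f') (φ : X → Y → Z) :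
    IsLC₃ L (fun x => φ (f x) (f' x)) := by
  obtain ⟨U, hU, h⟩ := hf
  obtain ⟨V, hV, h'⟩ := hf'
  obtain ⟨W, hW, hle⟩ := L.directed U hU V hV
  refine ⟨W, hW, fun g₁ g₂ g₃ s₁ s₂ s₃ h₁ h₂ h₃ => ?_⟩
  simp only
  rw [h g₁ g₂ g₃ s₁ s₂ s₃ (hle h₁).1 (hle h₂).1 (hle h₃).1,
    h' g₁ g₂ g₃ s₁ s₂ s₃ (hle h₁).2 (hle h₂).2 (hle h₃).2]

theorem isLC₃_sub {L : LevelSys G} {X : Type*} [Sub X] {f f' : G × G × G → X}
    (hf : IsLC₃ L f) (hf' : IsLC₃ L f') : IsLC₃ L (f - f') :=
  isLC₃_map₂ hf hf' (· - ·)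

theorem isLC₃_add {L : LevelSys G} {X : Type*} [Add X] {f f' : G × G × G → X}
    (hf : IsLC₃ L f) (hf' : IsLC₃ L f') : IsLC₃ L (f + f') :=
  isLC₃_map₂ hf hf' (· + ·)

/-- The coboundary of a level-constant 2-cochain is level-constant. -/
theorem d₂₃_isLC₃ {L : LevelSys G} (hN : L.NormalCofinal) {A : Rep.{0, 0, 0} k G}
    (hA : L.IsUSmooth A) {b : G × G → A} (hb : L.IsLC₂ b) : IsLC₃ L ((d₂₃ A).hom b) := by
  obtain ⟨U, hU, h⟩ := hA
  obtain ⟨V, hV, hb⟩ := hb
  obtain ⟨W, hW, hWle⟩ := L.directed U hU V hV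
  obtain ⟨N, hNl, hNW, hNn⟩ := hN W hW
  refine ⟨N, hNl, fun g₁ g₂ g₃ s₁ s₂ s₃ h₁ h₂ h₃ => ?_⟩
  have hV' : ∀ s ∈ N, s ∈ V := fun s hs => (hWle (hNW hs)).2
  have hU' : ∀ s ∈ N, s ∈ U := fun s hs => (hWle (hNW hs)).1
  have hconj : ∀ (g s : G), s ∈ N → g⁻¹ * s * g ∈ N := by
    intro g s hs
    have := hNn.conj_mem s hs g⁻¹
    simpa using this
  have e1 : g₁ * s₁ * (g₂ * s₂) = g₁ * g₂ * (g₂⁻¹ * s₁ * g₂ * s₂) := by group
  have e2 : g₂ * s₂ * (g₃ * s₃) = g₂ * g₃ * (g₃⁻¹ * s₂ * g₃ * s₃) := by group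
  simp only [d₂₃_hom_apply]
  rw [e1, e2, hb g₂ g₃ s₂ s₃ (hV' _ h₂) (hV' _ h₃),
    hb (g₁ * g₂) g₃ _ s₃ (hV' _ (N.mul_mem (hconj g₂ s₁ h₁) h₂)) (hV' _ h₃),
    hb g₁ (g₂ * g₃) s₁ _ (hV' _ h₁) (hV' _ (N.mul_mem (hconj g₃ s₂ h₂) h₃)),
    hb g₁ g₂ s₁ s₂ (hV' _ h₁) (hV' _ h₂), map_mul, Module.End.mul_apply, h s₁ (hU' _ h₁)]

section Comp

variable {A B : Rep.{0, 0, 0} k G} (φ : A →+ B) (hφ : ∀ (g : G) (a : A), φ (A.ρ g a) = B.ρ g (φ a))

include hφ in
/-- `d₂₃` commutes with equivariant additive maps. -/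
theorem d₂₃_comp (b : G × G → A) : (d₂₃ B).hom (φ ∘ b) = φ ∘ (d₂₃ A).hom b := by
  funext x
  simp only [d₂₃_hom_apply, Function.comp_apply, map_add, map_sub, hφ]

include hφ in
/-- `d34` commutes with equivariant additive maps. -/
theorem d34_comp (f : G × G × G → A) : d34 B (φ ∘ f) = φ ∘ d34 A f := by
  funext x
  simp only [d34, Function.comp_apply, map_add, map_sub, hφ]

end Comp

/-! ### Retracts and isomorphisms -/

/-- `H3Vanish` passes to retracts. -/
theorem h3Vanish_of_retract {L : LevelSys G} {A B : Rep.{0, 0, 0} k G} (i : A →+ B) (r : B →+ A)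
    (hi : ∀ (g : G) (a : A), i (A.ρ g a) = B.ρ g (i a))
    (hr : ∀ (g : G) (b : B), r (B.ρ g b) = A.ρ g (r b))
    (hri : ∀ a : A, r (i a) = a) (hB : H3Vanish L B) : H3Vanish L A := by
  intro f hf hdf
  have h1 : d34 B (i ∘ f) = 0 := by
    rw [d34_comp i hi, hdf]
    funext x
    exact map_zero i
  obtain ⟨b, hb, hdb⟩ := hB (i ∘ f) (isLC₃_comp hf i) h1
  refine ⟨r ∘ b, LevelSys.IsLC₂.comp hb r, ?_⟩
  rw [d₂₃_comp r hr, hdb]
  funext x
  exact hri (f x)

/-- `H3Vanish` is invariant under equivariant additive isomorphisms. -/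
theorem h3Vanish_of_addEquiv {L : LevelSys G} {A B : Rep.{0, 0, 0} k G} (e : A ≃+ B)
    (he : ∀ (g : G) (a : A), e (A.ρ g a) = B.ρ g (e a)) (hB : H3Vanish L B) : H3Vanish L A := by
  refine h3Vanish_of_retract e.toAddMonoidHom e.symm.toAddMonoidHom he ?_ ?_ hB
  · intro g b
    apply e.injective
    show e (e.symm (B.ρ g b)) = e (A.ρ g (e.symm b))
    rw [he, e.apply_symm_apply, e.apply_symm_apply]
  · intro a
    exact e.symm_apply_apply a

/-- The zero module. -/
theorem h3Vanish_of_subsingleton {L : LevelSys G} {A : Rep.{0, 0, 0} k G} [Subsingleton A] :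
    H3Vanish L A := by
  intro f _ _
  refine ⟨0, (L.C2 A).zero_mem, ?_⟩
  funext x
  exact Subsingleton.elim _ _

/-! ### Extensions -/

/-- `H3Vanish` is closed under extensions `0 → A → B → C → 0`. -/
theorem h3Vanish_of_extension {L : LevelSys G} (hN : L.NormalCofinal)
    {A B C : Rep.{0, 0, 0} k G} (hB : L.IsUSmooth B) (i : A →+ B) (π : B →+ C)
    (hi : ∀ (g : G) (a : A), i (A.ρ g a) = B.ρ g (i a))
    (hπ : ∀ (g : G) (b : B), π (B.ρ g b) = C.ρ g (π b))
    (hinj : Function.Injective i) (hsurj : Function.Surjective π)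
    (hex : ∀ b : B, π b = 0 → ∃ a : A, i a = b)
    (hA : H3Vanish L A) (hC : H3Vanish L C) : H3Vanish L B := by
  classical
  intro f hf hdf
  -- the image in `C` is a coboundary
  have h1 : d34 C (π ∘ f) = 0 := by
    rw [d34_comp π hπ, hdf]
    funext x
    exact map_zero π
  obtain ⟨b'', hb'', hdb''⟩ := hC (π ∘ f) (isLC₃_comp hf π) h1
  -- lift `b''` to `B`
  set bt : G × G → B := Function.surjInv hsurj ∘ b'' with hbt
  have hbtLC : L.IsLC₂ bt := LevelSys.IsLC₂.comp hb'' _
  have hπbt : (π ∘ bt : G × G → C) = b'' := by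
    funext x
    exact Function.surjInv_eq hsurj (b'' x)
  -- `f' = f - d bt` has values in `ker π = im i`
  set f' : G × G × G → B := f - (d₂₃ B).hom bt with hf'
  have hf'LC : IsLC₃ L f' := isLC₃_sub hf (d₂₃_isLC₃ hN hB hbtLC)
  have hπf' : ∀ x, π (f' x) = 0 := by
    intro x
    have h2 := congrFun (d₂₃_comp π hπ bt) x
    rw [hπbt, hdb''] at h2
    simp only [hf', Pi.sub_apply, map_sub]
    simp only [Function.comp_apply] at h2
    rw [← h2, sub_self]
  -- a set-theoretic inverse of `i` on `ker π`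
  let ι : B → A := fun b => if h : π b = 0 then Classical.choose (hex b h) else 0
  have hι : ∀ b, π b = 0 → i (ι b) = b := by
    intro b h
    simp only [ι, dif_pos h]
    exact Classical.choose_spec (hex b h)
  set f'' : G × G × G → A := ι ∘ f' with hf''
  have hif'' : (i ∘ f'' : G × G × G → B) = f' := by
    funext x
    exact hι _ (hπf' x)
  have hdf'' : d34 A f'' = 0 := by
    have h3 : (i ∘ d34 A f'' : G × G × G × G → B) = 0 := by
      rw [← d34_comp i hi, hif'', hf', d34_sub, hdf, d34_d₂₃, sub_zero]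
    funext x
    apply hinj
    rw [Pi.zero_apply, map_zero]
    exact congrFun h3 x
  obtain ⟨b', hb', hdb'⟩ := hA f'' (isLC₃_comp hf'LC ι) hdf''
  refine ⟨i ∘ b' + bt, (L.C2 B).add_mem (LevelSys.IsLC₂.comp hb' i) hbtLC, ?_⟩
  rw [map_add, d₂₃_comp i hi, hdb', hif'', hf']
  abel

/-! ### Finite direct sums -/

/-- `H3Vanish` is closed under finite direct sums, in "biproduct" form: `B` with equivariant maps
`inc j : A j → B`, `pr j : B → A j` such that `∑ j, inc j (pr j b) = b`. -/
theorem h3Vanish_of_sum_eq_id {L : LevelSys G} {ι : Type} [Fintype ι]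
    (A : ι → Rep.{0, 0, 0} k G) (B : Rep.{0, 0, 0} k G)
    (inc : ∀ j, A j →+ B) (pr : ∀ j, B →+ A j)
    (hinc : ∀ (j : ι) (g : G) (a : A j), inc j ((A j).ρ g a) = B.ρ g (inc j a))
    (hpr : ∀ (j : ι) (g : G) (b : B), pr j (B.ρ g b) = (A j).ρ g (pr j b))
    (hsum : ∀ b : B, ∑ j, inc j (pr j b) = b)
    (hA : ∀ j, H3Vanish L (A j)) : H3Vanish L B := by
  classical
  intro f hf hdf
  have h1 : ∀ j, d34 (A j) (pr j ∘ f) = 0 := by
    intro j
    rw [d34_comp (pr j) (hpr j), hdf]
    funext x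
    exact map_zero (pr j)
  choose b hb hdb using fun j => hA j (pr j ∘ f) (isLC₃_comp hf (pr j)) (h1 j)
  refine ⟨∑ j, (inc j ∘ b j : G × G → B), (L.C2 B).sum_mem fun j _ =>
    LevelSys.IsLC₂.comp (hb j) (inc j), ?_⟩
  rw [map_sum]
  funext x
  rw [Finset.sum_apply, ← hsum (f x)]
  refine Finset.sum_congr rfl fun j _ => ?_
  rw [d₂₃_comp (inc j) (hinc j), hdb j]
  rfl

/-- `H3Vanish` is closed under finite products, in the form of `T.FiniteProdSpec`: the map
`B → ∏ j, A j` with components `pr j` is bijective. -/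
theorem h3Vanish_of_bijective_pi {L : LevelSys G} {ι : Type} [Finite ι]
    (A : ι → Rep.{0, 0, 0} k G) (B : Rep.{0, 0, 0} k G) (pr : ∀ j, B →+ A j)
    (hpr : ∀ (j : ι) (g : G) (b : B), pr j (B.ρ g b) = (A j).ρ g (pr j b))
    (hbij : Function.Bijective (fun (b : B) (j : ι) => pr j b))
    (hA : ∀ j, H3Vanish L (A j)) : H3Vanish L B := by
  classical
  have : Fintype ι := Fintype.ofFinite ι
  intro f hf hdf
  have h1 : ∀ j, d34 (A j) (pr j ∘ f) = 0 := by
    intro j
    rw [d34_comp (pr j) (hpr j), hdf]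
    funext x
    exact map_zero (pr j)
  choose b hb hdb using fun j => hA j (pr j ∘ f) (isLC₃_comp hf (pr j)) (h1 j)
  -- the inverse of `B → ∏ A j`
  let e : B ≃ (∀ j, A j) := Equiv.ofBijective _ hbij
  have he : ∀ (y : ∀ j, A j) (j : ι), pr j (e.symm y) = y j := by
    intro y j
    exact congrFun (e.apply_symm_apply y) j
  set bb : G × G → B := fun x => e.symm (fun j => b j x) with hbb
  have hbbLC : L.IsLC₂ bb := by
    -- a common level for the finitely many `b j`
    have hall : ∀ T : Finset ι, ∃ U ∈ L.levels, ∀ j ∈ T, ∀ g g' s s' : G, s ∈ U → s' ∈ U →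
        b j (g * s, g' * s') = b j (g, g') := by
      intro T
      induction T using Finset.induction_on with
      | empty =>
        obtain ⟨U, hU⟩ := L.nonempty
        exact ⟨U, hU, fun j hj => absurd hj (Finset.notMem_empty j)⟩
      | insert a T _ ih =>
        obtain ⟨U, hU, h⟩ := ih
        obtain ⟨V, hV, h'⟩ := hb a
        obtain ⟨W, hW, hle⟩ := L.directed U hU V hV
        refine ⟨W, hW, fun j hj g g' s s' hs hs' => ?_⟩
        rcases Finset.mem_insert.1 hj with rfl | hj
        · exact h' g g' s s' (hle hs).2 (hle hs').2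
        · exact h j hj g g' s s' (hle hs).1 (hle hs').1
    obtain ⟨U, hU, h⟩ := hall Finset.univ
    refine ⟨U, hU, fun g g' s s' hs hs' => ?_⟩
    simp only [hbb]
    congr 1
    funext j
    exact h j (Finset.mem_univ j) g g' s s' hs hs'
  refine ⟨bb, hbbLC, ?_⟩
  funext x
  apply hbij.1
  funext j
  show pr j ((d₂₃ B).hom bb x) = pr j (f x)
  have h2 := congrFun (d₂₃_comp (pr j) (hpr j) bb) x
  have h3 : (pr j ∘ bb : G × G → A j) = b j := by
    funext y
    exact he _ j
  rw [h3, hdb j] at h2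
  simp only [Function.comp_apply] at h2
  exact h2.symm

/-! ### Field coefficients: the `PT` form -/

/-- `H3Vanish` is closed under extensions, in the form of `PT.SES`. -/
theorem h3Vanish_of_ses {F : Type} [Field F] {L : LevelSys G} (hN : L.NormalCofinal)
    {A B C : Rep.{0, 0, 0} F G} (E : SES A B C) (hB : L.IsUSmooth B)
    (hA : H3Vanish L A) (hC : H3Vanish L C) : H3Vanish L B :=
  h3Vanish_of_extension hN hB E.i.toAddMonoidHom E.π.toAddMonoidHom E.hi E.hπ E.inj E.surj
    (fun b hb => by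
      have : b ∈ LinearMap.range E.i := by rw [E.exact]; exact hb
      exact this) hA hC

/-- `H3Vanish` passes to retracts (`PT.IsEquivariant` form). -/
theorem h3Vanish_of_retract' {F : Type} [Field F] {L : LevelSys G}
    {A B : Rep.{0, 0, 0} F G} (i : A →ₗ[F] B) (r : B →ₗ[F] A) (hi : IsEquivariant i)
    (hr : IsEquivariant r) (hri : ∀ a : A, r (i a) = a) (hB : H3Vanish L B) : H3Vanish L A :=
  h3Vanish_of_retract i.toAddMonoidHom r.toAddMonoidHom hi hr hri hB

/-- `H3Vanish` is invariant under equivariant linear isomorphisms (`PT.IsEquivariant` form). -/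
theorem h3Vanish_of_linearEquiv {F : Type} [Field F] {L : LevelSys G}
    {A B : Rep.{0, 0, 0} F G} (e : A ≃ₗ[F] B) (he : IsEquivariant e.toLinearMap)
    (hB : H3Vanish L B) : H3Vanish L A :=
  h3Vanish_of_addEquiv e.toAddEquiv he hB

end Fermat.Agent.S55.K.H635

end
end
-- ===== PACK-END S55/K/T2aH635.lean

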