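import Fermat.Agent.Pack.S56.E11L2
import Fermat.Agent.Pack.S56.E11L0
import Fermat.Agent.Pack.S56.E9L0
import Fermat.Agent.Pack.S56.E9L3
import Fermat.Agent.Pack.S56.E9L2
import Fermat.Agent.Pack.S56.E3L1
import Fermat.Agent.Pack.S56.E0L1
import Fermat.Agent.Pack.S56.E9L1
import Fermat.Agent.Pack.S56.E1L1
import Fermat.Agent.Pack.S56.E11L3
import Fermat.Agent.Pack.S56.E1L2
import Fermat.Agent.Pack.S56.E7L3
import Fermat.Agent.Pack.S56.E12L3
import Fermat.Agent.Pack.S56.E4L0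
import Fermat.Agent.Pack.S56.E11L1
import Fermat.Agent.Pack.S56.E7L2

-- ===== PACK-BEGIN S56/H956/TWP.lean
section


/-!
# S56 / TWP — Taylor–Wiles primes from the Taylor–Wiles element (helper956)

`twPrimesOfElement : TWPrimesOfElementStatement`, i.e.
`TWElementStatement → FrobeniusDivisionStatement → TWPrimesStatement`:
given the group-theoretic Taylor–Wiles element (P3) and Frobenius' density theorem (Lib/Cheb
Tier 1), every dual Selmer frame `D` of dimension `r` is killed by `r` distinct Taylor–Wiles primes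
`q ≡ 1 mod p^{n+1}`.

Proof: induction on the number `i` of primes already chosen, carrying a subspace `W ≤ D` of
dimension `≤ r - i` which contains every class of `D` locally trivial at the chosen primes.  If
`W ≠ 0`, pick `0 ≠ c ∈ W`; `exists_prime_not_locTrivAt` gives a new prime `ℓ` at which `c` is not
locally trivial, and `W ⊓ locSub A` (for a place `A` over `ℓ`) is strictly smaller.  If `W = 0`
pad with any further Taylor–Wiles prime.
-/

set_option autoImplicit false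

open Polynomial IsLocalRing
open scoped Pointwise

noncomputable section

namespace Fermat.Agent.S56.H956

open Fermat.Agent.S56

section

variable (hP3 : TWElementStatement)
  (hCheb : Fermat.Agent.Lib.Cheb.Spec.FrobeniusDivisionStatement)
  {𝒪 : Type} [CommRing 𝒪] [IsDomain 𝒪] [IsDiscreteValuationRing 𝒪]
  [IsAdicComplete (maximalIdeal 𝒪) 𝒪] [Finite (ResidueField 𝒪)]
  {p : ℕ} {ρbar : ResidualGaloisRep (ResidueField 𝒪)} {S Smin : Finset ℕ}

include hP3 hCheb in
/-- The induction: `i` Taylor–Wiles primes cutting `D` down to dimension `≤ r - i`. -/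
theorem exists_finset_cut (H : Hyp 𝒪 p ρbar S Smin)
    (D : Submodule (ResidueField 𝒪) (GQ → Module.End (ResidueField 𝒪) ρbar.V))
    (hD : IsDualFrame ρbar p D) (n : ℕ) (i : ℕ) :
    ∃ (Q : Finset ℕ) (W : Submodule (ResidueField 𝒪) (GQ → Module.End (ResidueField 𝒪) ρbar.V)),
      Q.card = i ∧
      (∀ q ∈ Q, q.Prime ∧ q ∉ S ∧ p ^ (n + 1) ∣ q - 1 ∧
        ∀ P : ValuationSubring Qb, P.LiesOverPrime q → ∀ φ : GQ, P.IsFrobeniusAt φ q →
          ∃ α β : ResidueField 𝒪, α ≠ β ∧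
            LinearMap.charpoly (ρbar.ρ φ) = (X - C α) * (X - C β)) ∧
      W ≤ D ∧
      Module.finrank (ResidueField 𝒪) W ≤ Module.finrank (ResidueField 𝒪) D - i ∧
      ∀ c ∈ D, (∀ q ∈ Q, LocTrivAt ρbar p q c) → c ∈ W := by
  have : CharP (ResidueField 𝒪) p := charP_residueField H.hp H.hp𝒪
  have hp0 : p ≠ 0 := H.hp.ne_zero
  have hDfin : Module.Finite (ResidueField 𝒪) D := hD.finite
  induction i with
  | zero =>
    exact ⟨∅, D, Finset.card_empty, fun q hq => absurd hq (Finset.notMem_empty q), le_rfl,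
      le_rfl, fun c hc _ => hc⟩
  | succ i ih =>
    obtain ⟨Q, W, hcard, hgood, hWD, hrank, hW⟩ := ih
    by_cases hbot : W = ⊥
    · -- pad
      obtain ⟨ℓ, hℓ, hℓS, hℓQ, hdvd, hfrob⟩ := exists_prime_pad hP3 hCheb H n Q
      refine ⟨insert ℓ Q, ⊥, ?_, ?_, bot_le, ?_, ?_⟩
      · rw [Finset.card_insert_of_notMem hℓQ, hcard]
      · intro q hq
        rcases Finset.mem_insert.mp hq with rfl | hq
        · exact ⟨hℓ, hℓS, hdvd, hfrob⟩
        · exact hgood q hq
      · rw [finrank_bot]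
        exact Nat.zero_le _
      · intro c hc hloc
        rw [← hbot]
        exact hW c hc (fun q hq => hloc q (Finset.mem_insert_of_mem hq))
    · -- cut
      obtain ⟨c, hcW, hc0⟩ := Submodule.exists_mem_ne_zero_of_ne_bot hbot
      have hcD : c ∈ D := hWD hcW
      have hcc : IsTwCocycle ρbar p c := hD.isTwCocycle c hcD
      have hnc : ¬ IsTwCoboundary ρbar p c := fun h => hc0 (hD.inj c hcD h)
      obtain ⟨ℓ, hℓ, hℓS, hℓQ, hdvd, hfrob, hnloc⟩ :=
        exists_prime_not_locTrivAt hP3 hCheb H n Q hcc hnc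
      obtain ⟨A, hA⟩ := Fermat.Agent.S54.exists_valuationSubring_liesOver ℓ hℓ
      have hWfin : Module.Finite (ResidueField 𝒪) W := Submodule.finiteDimensional_of_le hWD
      have hlt : W ⊓ locSub ρbar p hp0 A < W := by
        refine lt_of_le_of_ne inf_le_left (fun heq => hnloc ?_)
        have hmem : c ∈ W ⊓ locSub ρbar p hp0 A := by
          rw [heq]
          exact hcW
        obtain ⟨m, hm⟩ := hmem.2
        exact ⟨A, hA, m, hm⟩
      have hrk := Submodule.finrank_lt_finrank_of_lt hlt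
      refine ⟨insert ℓ Q, W ⊓ locSub ρbar p hp0 A, ?_, ?_, inf_le_left.trans hWD, ?_, ?_⟩
      · rw [Finset.card_insert_of_notMem hℓQ, hcard]
      · intro q hq
        rcases Finset.mem_insert.mp hq with rfl | hq
        · exact ⟨hℓ, hℓS, hdvd, hfrob⟩
        · exact hgood q hq
      · omega
      · intro c' hc' hloc
        refine ⟨hW c' hc' (fun q hq => hloc q (Finset.mem_insert_of_mem hq)), ?_⟩
        exact (locTrivAt_iff hp0 (hD.isTwCocycle c' hc') hℓ hA).mp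
          (hloc ℓ (Finset.mem_insert_self ℓ Q))

end

/-- **(TWP-of)** Taylor–Wiles primes from the Taylor–Wiles element and Frobenius density. -/
theorem twPrimesOfElement : TWPrimesOfElementStatement := by
  intro hP3 hCheb 𝒪 _ _ _ _ _ p ρbar S Smin H D hD n
  have hDfin : Module.Finite (ResidueField 𝒪) D := hD.finite
  obtain ⟨Q, W, hcard, hgood, hWD, hrank, hW⟩ :=
    exists_finset_cut hP3 hCheb H D hD n (Module.finrank (ResidueField 𝒪) D)
  have hWfin : Module.Finite (ResidueField 𝒪) W := Submodule.finiteDimensional_of_le hWD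
  have hWbot : W = ⊥ := by
    rw [Nat.sub_self, Nat.le_zero] at hrank
    exact Submodule.finrank_eq_zero.mp hrank
  have himg : Finset.univ.image (Q.orderEmbOfFin hcard) = Q :=
    Finset.image_orderEmbOfFin_univ Q hcard
  refine ⟨Q.orderEmbOfFin hcard, (Q.orderEmbOfFin hcard).injective, fun i => ?_, fun i => ?_,
    ?_⟩
  · obtain ⟨h1, h2, h3, -⟩ := hgood _ (Finset.orderEmbOfFin_mem Q hcard i)
    exact ⟨h1, h2, h3⟩
  · exact (hgood _ (Finset.orderEmbOfFin_mem Q hcard i)).2.2.2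
  · rw [himg]
    intro c hc hloc
    have := hW c hc hloc
    rw [hWbot] at this
    exact (Submodule.mem_bot _).mp this

end Fermat.Agent.S56.H956

end

end
-- ===== PACK-END S56/H956/TWP.lean

-- ===== PACK-BEGIN S56/H716/SBGlue.lean
section



/-!
# Row S56 — SELBOUND, layer 2: glue (deputy helper716)

* `unramAt_of_isLiftOf` (LOC-UR): a lift unramified at `q` has a cocycle vanishing on inertia.
* `loc_of_local`        : `LOC(cond)` from one `LocalBoundAt` per place of `Smin`.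
* `locOrd_of`   : `LocMinStatement → LocOrdPStatement → LocOrdStatement`
* `locFlat_of`  : `LocMinStatement → LocFlatPStatement → LocFlatStatement`
* `selBoundOrd_of`  : `LocOrdStatement → GWWallStatement → SelBoundOrdStatement`
* `selBoundFlat_of` : `LocFlatStatement → GWWallStatement → SelBoundFlatStatement`
* `tangentBoundOrd_of_leaves`, `tangentBoundFlat_of_leaves`: the two (TB) statements of layer 0
  from the leaves `DICT`, `LOC-MIN`, `LOC-SO` / `LOC-FLAT` and the wall `GW-WALL`.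
-/

set_option autoImplicit false

open Polynomial IsLocalRing
open scoped TensorProduct

noncomputable section

namespace Fermat.Agent.S56.H716

open Fermat.Agent.S56

section

variable {k : Type} [Field k] (ρbar : ResidualGaloisRep k)

/-- If the lift `(1 + ε c(σ)) ρ̄(σ)` is the identity, then `c(σ) = 0`. -/
lemma eq_zero_of_liftEnd_eq_one {c : GQ → Module.End k ρbar.V} {σ : GQ}
    (h : liftEnd ρbar c σ = 1) : c σ = 0 := by
  have hinv : ρbar.ρ σ * ρbar.ρ σ⁻¹ = 1 := by rw [← map_mul, mul_inv_cancel, map_one]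
  have key : ∀ w : ρbar.V, c σ (ρbar.ρ σ w) = 0 := by
    intro w
    have h1 := congrArg (fun f => f ((1 : DualNumber k) ⊗ₜ[k] w)) h
    simp only [liftEnd, LinearMap.add_apply, LinearMap.smul_apply, LinearMap.baseChange_tmul,
      Module.End.one_apply, Module.End.mul_apply, TensorProduct.smul_tmul', smul_eq_mul,
      mul_one] at h1
    have h2 := congrArg (fun x => TensorProduct.lid k ρbar.V
      ((TrivSqZeroExt.sndHom k k).rTensor ρbar.V x)) h1
    simpa using h2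
  ext w
  have h3 := key (ρbar.ρ σ⁻¹ w)
  have h4 : ρbar.ρ σ (ρbar.ρ σ⁻¹ w) = w := by
    rw [← Module.End.mul_apply, hinv, Module.End.one_apply]
  rw [h4] at h3
  simpa using h3

/-- (LOC-UR) The cocycle of a lift which is unramified at `q` vanishes on inertia at `q`. -/
lemma unramAt_of_isLiftOf {c : GQ → Module.End k ρbar.V} {ρ' : GaloisRepAdic (DualNumber k)}
    (hl : IsLiftOf ρbar c ρ') {q : ℕ} (hu : ρ'.IsUnramifiedAt q) : UnramAt ρbar c q := by
  obtain ⟨e, he⟩ := hl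
  intro P hP σ hσ
  apply eq_zero_of_liftEnd_eq_one
  refine LinearMap.ext fun x => ?_
  obtain ⟨v, rfl⟩ := e.surjective x
  rw [← he σ v, hu P hP σ hσ, Module.End.one_apply, Module.End.one_apply]

end

section

variable (𝒪 : Type) [CommRing 𝒪] [IsDomain 𝒪] [IsDiscreteValuationRing 𝒪]
  (p : ℕ) (ρbar : ResidualGaloisRep (ResidueField 𝒪)) (S Smin : Finset ℕ)

/-- `LOC(cond)` from one local bound per place of `Smin`. -/
theorem loc_of_local (cond : Finset ℕ → DefCond 𝒪)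
    (Ty : ℕ → GaloisRepAdic (DualNumber (ResidueField 𝒪)) → Prop) (d : ℕ → ℕ)
    (hd : ∑ v ∈ Smin, d v ≤ 1)
    (hloc : ∀ v ∈ Smin, ∀ P : ValuationSubring Qb, P.LiesOverPrime v →
      LocalBoundAt ρbar P (Ty v) (d v))
    (hTy : ∀ (Q : Finset ℕ) (ρ' : GaloisRepAdic (DualNumber (ResidueField 𝒪))),
      @cond Q (DualNumber (ResidueField 𝒪)) _ _ (tanAlgebra 𝒪) ρ' →
        (∀ v ∈ Smin, Ty v ρ') ∧ ∀ q : ℕ, q.Prime → q ∉ Smin ∪ Q → ρ'.IsUnramifiedAt q) :
    Loc 𝒪 p ρbar S Smin cond := by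
  classical
  intro Pl hPl
  let Λ : ℕ → Submodule (ResidueField 𝒪) (GQ → Module.End (ResidueField 𝒪) ρbar.V) :=
    fun v => if h : v ∈ Smin then (hloc v h (Pl v) (hPl v h)).choose else ⊥
  have hΛ : ∀ v (h : v ∈ Smin), Λ v = (hloc v h (Pl v) (hPl v h)).choose := fun v h => dif_pos h
  refine ⟨Λ, d, ⟨fun v hv => ?_, hd⟩, fun Q _ c hc => ?_⟩
  · rw [hΛ v hv]
    exact ⟨(hloc v hv (Pl v) (hPl v hv)).choose_spec.1,
      (hloc v hv (Pl v) (hPl v hv)).choose_spec.2.1⟩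
  · obtain ⟨hcoc, ρ', hl, hcond⟩ := hc
    obtain ⟨hT, hur⟩ := hTy Q ρ' hcond
    refine ⟨hcoc, fun q hq hqn => unramAt_of_isLiftOf ρbar hl (hur q hq hqn), fun v hv => ?_⟩
    rw [hΛ v hv]
    exact (hloc v hv (Pl v) (hPl v hv)).choose_spec.2.2 c hcoc ⟨ρ', hl, hT v hv⟩

/-- `SELBOUND(cond) ⇐ LOC(cond) + GW-WALL`. -/
theorem selBound_of_loc_gwWall (cond : Finset ℕ → DefCond 𝒪)
    (hloc : Loc 𝒪 p ρbar S Smin cond) (hw : GWWall 𝒪 p ρbar S Smin) :
    SelBound 𝒪 p ρbar S cond := by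
  obtain ⟨Pl, hPl, hW⟩ := hw
  obtain ⟨Λ, δ, hb, hsel⟩ := hloc Pl hPl
  obtain ⟨D, hD, h⟩ := hW Λ δ hb
  refine ⟨D, hD, fun Q hQ hK => ?_⟩
  obtain ⟨T, hT1, hT2, hT3⟩ := h Q hQ hK
  exact ⟨T, hT1, hT2, fun c hc => hT3 c (hsel Q hQ c hc)⟩

end

/-- The sum of the defects `1` at `p` and `0` elsewhere. -/
lemma sum_defect_le_one (p : ℕ) (Smin : Finset ℕ) :
    ∑ v ∈ Smin, (if v = p then 1 else 0 : ℕ) ≤ 1 := by
  classical
  rw [Finset.sum_ite_eq' Smin p (fun _ => (1 : ℕ))]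
  split_ifs <;> simp

/-- (LOC-ord) from the local leaves (LOC-MIN) and (LOC-SO). -/
theorem locOrd_of (hmin : LocMinStatement) (hord : LocOrdPStatement) : LocOrdStatement := by
  classical
  intro 𝒪 _ _ _ _ _ p ρbar S Smin hyp
  refine loc_of_local 𝒪 p ρbar S Smin (ordCond 𝒪 p Smin)
    (fun v ρ' => if v = p then ρ'.DetIsCyclotomic p ∧ ρ'.IsStrictOrdinaryAt p
      else ρ'.DetIsCyclotomic p ∧ ρ'.IsUnipotentOnInertiaAt v)
    (fun v => if v = p then 1 else 0) (sum_defect_le_one p Smin) ?_ ?_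
  · intro v hv P hP
    by_cases hvp : v = p
    · subst hvp
      simpa using hord 𝒪 v ρbar S Smin hyp P hP
    · simpa [hvp] using hmin 𝒪 p ρbar S Smin hyp v hv hvp P hP
  · rintro Q ρ' ⟨⟨hdet, hso, hur⟩, huni⟩
    refine ⟨fun v hv => ?_, hur⟩
    by_cases hvp : v = p
    · simp only [hvp, if_true]
      exact ⟨hdet, hso⟩
    · simp only [hvp, if_false]
      exact ⟨hdet, huni v hv (hyp.hS v (hyp.hSmin hv)) hvp⟩

/-- (LOC-flat) from the local leaves (LOC-MIN) and (LOC-FLAT). -/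
theorem locFlat_of (hmin : LocMinStatement) (hflat : LocFlatPStatement) : LocFlatStatement := by
  classical
  intro 𝒪 _ _ _ _ _ p ρbar S Smin hyp
  refine loc_of_local 𝒪 p ρbar S Smin (flatCond 𝒪 p Smin)
    (fun v ρ' => if v = p then ρ'.DetIsCyclotomic p ∧ ρ'.IsFlatAt p
      else ρ'.DetIsCyclotomic p ∧ ρ'.IsUnipotentOnInertiaAt v)
    (fun v => if v = p then 1 else 0) (sum_defect_le_one p Smin) ?_ ?_
  · intro v hv P hP
    by_cases hvp : v = p
    · subst hvp
      simpa using hflat 𝒪 v ρbar S Smin hyp P hP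
    · simpa [hvp] using hmin 𝒪 p ρbar S Smin hyp v hv hvp P hP
  · rintro Q ρ' ⟨⟨hdet, hfl, hur⟩, huni⟩
    refine ⟨fun v hv => ?_, hur⟩
    by_cases hvp : v = p
    · simp only [hvp, if_true]
      exact ⟨hdet, hfl⟩
    · simp only [hvp, if_false]
      exact ⟨hdet, huni v hv (hyp.hS v (hyp.hSmin hv)) hvp⟩

/-- (SELBOUND-ord) from (LOC-ord) and the wall. -/
theorem selBoundOrd_of (hloc : LocOrdStatement) (hw : GWWallStatement) : SelBoundOrdStatement :=
  fun 𝒪 _ _ _ _ _ p ρbar S Smin hyp =>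
    selBound_of_loc_gwWall 𝒪 p ρbar S Smin (ordCond 𝒪 p Smin)
      (hloc 𝒪 p ρbar S Smin hyp) (hw 𝒪 p ρbar S Smin hyp)

/-- (SELBOUND-flat) from (LOC-flat) and the wall. -/
theorem selBoundFlat_of (hloc : LocFlatStatement) (hw : GWWallStatement) :
    SelBoundFlatStatement :=
  fun 𝒪 _ _ _ _ _ p ρbar S Smin hyp =>
    selBound_of_loc_gwWall 𝒪 p ρbar S Smin (flatCond 𝒪 p Smin)
      (hloc 𝒪 p ρbar S Smin hyp) (hw 𝒪 p ρbar S Smin hyp)

/-- (TB-ord) of layer 0 from the leaves. -/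
theorem tangentBoundOrd_of_leaves (hdict : DictOrdStatement) (hmin : LocMinStatement)
    (hord : LocOrdPStatement) (hw : GWWallStatement) : TangentBoundOrdStatement :=
  tangentBoundOrd_of hdict (selBoundOrd_of (locOrd_of hmin hord) hw)

/-- (TB-flat) of layer 0 from the leaves. -/
theorem tangentBoundFlat_of_leaves (hdict : DictFlatStatement) (hmin : LocMinStatement)
    (hflat : LocFlatPStatement) (hw : GWWallStatement) : TangentBoundFlatStatement :=
  tangentBoundFlat_of hdict (selBoundFlat_of (locFlat_of hmin hflat) hw)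

end Fermat.Agent.S56.H716

end

end
-- ===== PACK-END S56/H716/SBGlue.lean

-- ===== PACK-BEGIN S56/H656/LocOrdP.lean
section






/-!
# Row S56 — leaf LOC-SO, complete (helper656): `locOrdP : H716.LocOrdPStatement`

The frozen layer-2 leaf `LocOrdPStatement` of `S56/H716/SBSpec.lean`: at a place `P | p`, the
classes on `D_P` of the `ad⁰`-cocycles having a strictly ordinary lift with cyclotomic
determinant lie in a space of dimension `≤ h⁰(D_P, ad⁰ρ̄) + 1`.  Uses KUMMER-P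
(`H734.kummerP`).  Single file (sections: dual-number coordinates, structure of a strictly
ordinary lift, inertia at `p` acts non-trivially on `μ_p`, linear algebra, cocycle calculus,
the bound).  Nothing unproved in this file.
-/
/-!
# S56 / LOC-SO (helper656): coordinates on `k[ε] ⊗ V`

Every element of `k[ε] ⊗_k V` is uniquely `1 ⊗ v₀ + ε • (1 ⊗ v₁)`.  We provide the two coordinate
maps `dPi0`, `dPi1`, the inclusion `dIota`, and the formulas for scalar multiplication, base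
changed endomorphisms and `liftEnd` in these coordinates.
-/

set_option autoImplicit false

open scoped TensorProduct

noncomputable section

namespace Fermat.Agent.S56.H656

open Fermat.Agent.S56 Fermat.Agent.S56.H716

section coord

variable {k : Type} [Field k] {V : Type} [AddCommGroup V] [Module k V]

/-- `v ↦ 1 ⊗ v`. -/
def dIota : V →ₗ[k] (DualNumber k ⊗[k] V) := TensorProduct.mk k (DualNumber k) V 1

/-- The constant coordinate of an element of `k[ε] ⊗ V`. -/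
def dPi0 : (DualNumber k ⊗[k] V) →ₗ[k] V :=
  TensorProduct.lift ((LinearMap.lsmul k V).comp (TrivSqZeroExt.fstHom k k k).toLinearMap)

/-- The `ε`-coordinate of an element of `k[ε] ⊗ V`. -/
def dPi1 : (DualNumber k ⊗[k] V) →ₗ[k] V :=
  TensorProduct.lift ((LinearMap.lsmul k V).comp (TrivSqZeroExt.sndHom k k))

@[simp] theorem dIota_apply (v : V) : dIota (k := k) v = (1 : DualNumber k) ⊗ₜ[k] v := rfl

@[simp] theorem dPi0_tmul (a : DualNumber k) (v : V) :
    dPi0 (a ⊗ₜ[k] v) = TrivSqZeroExt.fst a • v := by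
  simp [dPi0]

@[simp] theorem dPi1_tmul (a : DualNumber k) (v : V) :
    dPi1 (a ⊗ₜ[k] v) = TrivSqZeroExt.snd a • v := by
  simp [dPi1]

theorem dPi0_dIota (v : V) : dPi0 (dIota (k := k) v) = v := by simp

theorem dPi1_dIota (v : V) : dPi1 (dIota (k := k) v) = 0 := by simp

theorem dualNumber_eq (a : DualNumber k) :
    a = TrivSqZeroExt.fst a • (1 : DualNumber k) + TrivSqZeroExt.snd a • DualNumber.eps := by
  apply TrivSqZeroExt.ext <;> simp

theorem tmul_eq_coord (a : DualNumber k) (v : V) :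
    a ⊗ₜ[k] v = dIota (TrivSqZeroExt.fst a • v) +
      (DualNumber.eps : DualNumber k) • dIota (TrivSqZeroExt.snd a • v) := by
  have h1 : dIota (k := k) (TrivSqZeroExt.fst a • v) =
      (TrivSqZeroExt.fst a • (1 : DualNumber k)) ⊗ₜ[k] v := by
    rw [dIota_apply, TensorProduct.smul_tmul]
  have h2 : (DualNumber.eps : DualNumber k) • dIota (k := k) (TrivSqZeroExt.snd a • v) =
      (TrivSqZeroExt.snd a • (DualNumber.eps : DualNumber k)) ⊗ₜ[k] v := by
    rw [dIota_apply, TensorProduct.smul_tmul', smul_eq_mul, mul_one, TensorProduct.smul_tmul]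
  rw [h1, h2, ← TensorProduct.add_tmul, ← dualNumber_eq a]

/-- Every element is `ι (π₀ w) + ε • ι (π₁ w)`. -/
theorem eq_coord (w : DualNumber k ⊗[k] V) :
    w = dIota (dPi0 w) + (DualNumber.eps : DualNumber k) • dIota (dPi1 w) := by
  induction w using TensorProduct.induction_on with
  | zero => simp
  | tmul a v => rw [dPi0_tmul, dPi1_tmul]; exact tmul_eq_coord a v
  | add x y hx hy =>
    rw [map_add, map_add, map_add, map_add, smul_add]
    conv_lhs => rw [hx, hy]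
    abel

theorem dPi0_smul (x : DualNumber k) (w : DualNumber k ⊗[k] V) :
    dPi0 (x • w) = TrivSqZeroExt.fst x • dPi0 w := by
  induction w using TensorProduct.induction_on with
  | zero => simp
  | tmul a v =>
    rw [TensorProduct.smul_tmul', dPi0_tmul, dPi0_tmul, smul_eq_mul, TrivSqZeroExt.fst_mul,
      mul_smul]
  | add x' y hx hy => rw [smul_add, map_add, map_add, hx, hy, smul_add]

theorem dPi1_smul (x : DualNumber k) (w : DualNumber k ⊗[k] V) :
    dPi1 (x • w) = TrivSqZeroExt.fst x • dPi1 w + TrivSqZeroExt.snd x • dPi0 w := by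
  induction w using TensorProduct.induction_on with
  | zero => simp
  | tmul a v =>
    rw [TensorProduct.smul_tmul', dPi1_tmul, dPi1_tmul, dPi0_tmul, smul_eq_mul,
      TrivSqZeroExt.snd_mul]
    simp only [smul_eq_mul, MulOpposite.smul_eq_mul_unop, MulOpposite.unop_op, add_smul,
      mul_smul]
  | add x' y hx hy =>
    rw [smul_add, map_add, map_add, map_add, hx, hy, smul_add, smul_add]
    abel

theorem dPi0_baseChange (f : Module.End k V) (w : DualNumber k ⊗[k] V) :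
    dPi0 (f.baseChange (DualNumber k) w) = f (dPi0 w) := by
  induction w using TensorProduct.induction_on with
  | zero => simp
  | tmul a v => rw [LinearMap.baseChange_tmul, dPi0_tmul, dPi0_tmul, map_smul]
  | add x y hx hy => rw [map_add, map_add, map_add, hx, hy, map_add]

theorem dPi1_baseChange (f : Module.End k V) (w : DualNumber k ⊗[k] V) :
    dPi1 (f.baseChange (DualNumber k) w) = f (dPi1 w) := by
  induction w using TensorProduct.induction_on with
  | zero => simp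
  | tmul a v => rw [LinearMap.baseChange_tmul, dPi1_tmul, dPi1_tmul, map_smul]
  | add x y hx hy => rw [map_add, map_add, map_add, hx, hy, map_add]

theorem coord_ext {w w' : DualNumber k ⊗[k] V} (h0 : dPi0 w = dPi0 w') (h1 : dPi1 w = dPi1 w') :
    w = w' := by
  rw [eq_coord w, eq_coord w', h0, h1]

end coord

section lift

variable {k : Type} [Field k] (ρbar : ResidualGaloisRep k)

theorem dPi0_liftEnd (c : GQ → Module.End k ρbar.V) (σ : GQ)
    (w : DualNumber k ⊗[k] ρbar.V) :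
    dPi0 (liftEnd ρbar c σ w) = ρbar.ρ σ (dPi0 w) := by
  unfold liftEnd
  rw [LinearMap.add_apply, LinearMap.smul_apply, map_add, dPi0_smul, dPi0_baseChange,
    DualNumber.fst_eps, zero_smul, add_zero]

theorem dPi1_liftEnd (c : GQ → Module.End k ρbar.V) (σ : GQ)
    (w : DualNumber k ⊗[k] ρbar.V) :
    dPi1 (liftEnd ρbar c σ w) = ρbar.ρ σ (dPi1 w) + c σ (ρbar.ρ σ (dPi0 w)) := by
  unfold liftEnd
  rw [LinearMap.add_apply, LinearMap.smul_apply, map_add, dPi1_smul, dPi1_baseChange,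
    dPi0_baseChange, DualNumber.fst_eps, DualNumber.snd_eps, zero_smul, zero_add, one_smul,
    Module.End.mul_apply]

end lift

end Fermat.Agent.S56.H656

end

/-!
# S56 / LOC-SO (helper656), part 1: the shape of a strict-ordinary tangent cocycle on `D_P`

Let `ρ'` be a lift of `ρ̄` to the dual numbers `k[ε]` with cocycle `c` (`IsLiftOf ρbar c ρ'`),
with cyclotomic determinant and strict-ordinary at `p` (`p` odd).  For a place `P` over `p` the
strict-ordinary line of `ρ'` has a generator with coordinates `(ℓ₀, ℓ₁)`, `ℓ₀ ≠ 0`, and for every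
`σ ∈ D_P` there is `z₀ ∈ k` with `z₀² = 1` such that (with `a` a cyclotomic exponent of `σ`)

* `ρ̄(σ) ℓ₀ = a z₀ ℓ₀` and `ρ̄(σ) ℓ₁ + c(σ) ρ̄(σ) ℓ₀ = a z₀ ℓ₁`   (NO `ε`-part: rigidity),
* `ρ̄(σ) v − z₀ v = s ℓ₀` and `c(σ) ρ̄(σ) v = s ℓ₁ + t ℓ₀` for every `v`,
* `z₀ = 1` if `σ` is in the inertia group.

This is `locSO_struct`.  The rigidity `z² = 1 ⇒ z ∈ {±1} ⊂ k` uses `DetIsCyclotomic` and `p ≠ 2`.
-/

set_option autoImplicit false

open scoped TensorProduct
open IsLocalRing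

noncomputable section

namespace Fermat.Agent.S56.H656

open Fermat.Agent.S56 Fermat.Agent.S56.H716

section dual

variable {k : Type} [Field k]

theorem fst_eq_zero_of_mem_maximalIdeal {x : DualNumber k}
    (hx : x ∈ maximalIdeal (DualNumber k)) : TrivSqZeroExt.fst x = 0 := by
  by_contra h
  have hu : IsUnit x := TrivSqZeroExt.isUnit_iff_isUnit_fst.mpr (isUnit_iff_ne_zero.mpr h)
  exact (mem_maximalIdeal x).mp hx hu

theorem natCast_dual_eq_zero {p : ℕ} (hp : (p : DualNumber k) ∈ maximalIdeal (DualNumber k)) :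
    (p : DualNumber k) = 0 := by
  apply TrivSqZeroExt.ext
  · exact fst_eq_zero_of_mem_maximalIdeal hp
  · simp

theorem natCast_eq_zero_of_mem {p : ℕ}
    (hp : (p : DualNumber k) ∈ maximalIdeal (DualNumber k)) : (p : k) = 0 := by
  have := fst_eq_zero_of_mem_maximalIdeal hp
  rwa [TrivSqZeroExt.fst_natCast] at this

theorem span_pow_one_eq_bot {p : ℕ} (hp : (p : DualNumber k) ∈ maximalIdeal (DualNumber k)) :
    Ideal.span {(((p ^ 1 : ℕ)) : DualNumber k)} = ⊥ := by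
  rw [pow_one, natCast_dual_eq_zero hp, Ideal.span_singleton_eq_bot]

/-- In `k[ε]`, `char k ≠ 2`: `z * z = 1` forces `z` to be a constant `±1`. -/
theorem snd_eq_zero_of_mul_self_eq_one (h2 : (2 : k) ≠ 0) {z : DualNumber k} (hz : z * z = 1) :
    TrivSqZeroExt.fst z * TrivSqZeroExt.fst z = 1 ∧ TrivSqZeroExt.snd z = 0 := by
  have h0 : TrivSqZeroExt.fst z * TrivSqZeroExt.fst z = 1 := by
    have := congrArg TrivSqZeroExt.fst hz
    simpa using this
  refine ⟨h0, ?_⟩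
  have h1 := congrArg TrivSqZeroExt.snd hz
  simp only [TrivSqZeroExt.snd_mul, TrivSqZeroExt.snd_one, smul_eq_mul,
    MulOpposite.smul_eq_mul_unop, MulOpposite.unop_op] at h1
  have hz0 : TrivSqZeroExt.fst z ≠ 0 := by
    intro h
    rw [h, mul_zero] at h0
    exact zero_ne_one h0
  have h3 : (2 : k) * (TrivSqZeroExt.fst z * TrivSqZeroExt.snd z) = 0 := by
    rw [← h1]; ring
  rcases mul_eq_zero.mp h3 with h | h
  · exact absurd h h2
  · rcases mul_eq_zero.mp h with h | h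
    · exact absurd h hz0
    · exact h

end dual

section cyc

variable {k : Type} [Field k]

/-- A cyclotomic exponent is nonzero in characteristic `p`. -/
theorem isCycExp_cast_ne_zero {p : ℕ} (hp : p.Prime) [CharP k p] {σ : GQ} {a : ℕ}
    (ha : IsCycExp p σ a) : (a : k) ≠ 0 := by
  intro h0
  obtain ⟨ζ, hζ⟩ := Fermat.Agent.S56.H966.exists_primitiveRoot_Qb p hp.ne_zero
  have hdvd : p ∣ a := (CharP.cast_eq_zero_iff k p a).mp h0
  have h1 : σ ζ = 1 := by
    rw [ha ζ hζ.pow_eq_one]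
    obtain ⟨b, rfl⟩ := hdvd
    rw [pow_mul, hζ.pow_eq_one, one_pow]
  have h2 : ζ = 1 := by
    have : σ ζ = σ 1 := by rw [h1, map_one]
    exact σ.injective this
  exact hp.one_lt.ne' (hζ.unique (h2 ▸ IsPrimitiveRoot.one) )

end cyc

section struct

variable {k : Type} [Field k] (ρbar : ResidualGaloisRep k)

theorem mem_decomposition_of_mem_inertia {P : ValuationSubring Qb} {σ : GQ}
    (hσ : σ ∈ P.inertiaSubgroupIn ℚ) : σ ∈ P.decompositionSubgroup ℚ := by
  obtain ⟨x, -, rfl⟩ := Subgroup.mem_map.mp hσ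
  exact x.2

/-- **LOC-SO, part 1** (see the module docstring). -/
theorem locSO_struct (p : ℕ) (hp : p.Prime) (hp2 : p ≠ 2)
    (c : GQ → Module.End k ρbar.V) (ρ' : GaloisRepAdic (DualNumber k))
    (hlift : IsLiftOf ρbar c ρ') (hdet : ρ'.DetIsCyclotomic p) (hso : ρ'.IsStrictOrdinaryAt p)
    (P : ValuationSubring Qb) (hP : P.LiesOverPrime p) :
    ∃ ℓ₀ ℓ₁ : ρbar.V, ℓ₀ ≠ 0 ∧
      ∀ σ ∈ P.decompositionSubgroup ℚ, ∃ z₀ : k, z₀ * z₀ = 1 ∧
        (∀ a : ℕ, IsCycExp p σ a →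
          ρbar.ρ σ ℓ₀ = ((a : k) * z₀) • ℓ₀ ∧
          ρbar.ρ σ ℓ₁ + c σ (ρbar.ρ σ ℓ₀) = ((a : k) * z₀) • ℓ₁) ∧
        (∀ v : ρbar.V, ∃ s t : k, ρbar.ρ σ v - z₀ • v = s • ℓ₀ ∧
          c σ (ρbar.ρ σ v) = s • ℓ₁ + t • ℓ₀) ∧
        (σ ∈ P.inertiaSubgroupIn ℚ → z₀ = 1) := by
  classical
  have hpm := hso.1
  have hpk : (p : k) = 0 := natCast_eq_zero_of_mem hpm
  have : CharP k p := (CharP.charP_iff_prime_eq_zero hp).mpr hpk
  have h2k : (2 : k) ≠ 0 := by
    intro h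
    have h' : ((2 : ℕ) : k) = 0 := by exact_mod_cast h
    have hdvd : p ∣ 2 := (CharP.cast_eq_zero_iff k p 2).mp h'
    exact hp2 ((Nat.prime_dvd_prime_iff_eq hp Nat.prime_two).mp hdvd)
  have hbot := span_pow_one_eq_bot (k := k) hpm
  obtain ⟨L, ⟨b, hLb⟩, -, hI, hchar⟩ := hso.2 P hP
  obtain ⟨e, he⟩ := hlift
  have hb0L : b 0 ∈ L := by rw [hLb]; exact Submodule.mem_span_singleton_self _
  refine ⟨dPi0 (e (b 0)), dPi1 (e (b 0)), ?_, ?_⟩
  · -- `ℓ₀ ≠ 0`
    intro h0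
    have hε : (DualNumber.eps : DualNumber k) • e (b 0) = 0 := by
      apply coord_ext
      · rw [dPi0_smul, h0, smul_zero, map_zero]
      · rw [dPi1_smul, h0, DualNumber.fst_eps, zero_smul, smul_zero, add_zero, map_zero]
    rw [← map_smul, LinearEquiv.map_eq_zero_iff] at hε
    have h1 := congrArg (fun f => b.repr f 0) hε
    simp only [map_smul, Module.Basis.repr_self, Finsupp.smul_apply, Finsupp.single_eq_same,
      smul_eq_mul, mul_one, map_zero, Finsupp.zero_apply] at h1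
    have h2 := congrArg TrivSqZeroExt.snd h1
    simp at h2
  · intro σ hσ
    obtain ⟨x, z, hx, hz, hcyc⟩ := hchar σ hσ
    obtain ⟨a₀, ha₀⟩ := Fermat.Agent.S56.H966.exists_isCycExp p hp.ne_zero σ
    have hcond : ∀ a : ℕ, IsCycExp p σ a → ∀ μ : Qb, μ ^ p ^ 1 = 1 → σ μ = μ ^ a := by
      intro a ha μ hμ
      rw [pow_one] at hμ
      exact ha μ hμ
    -- `x = a z` and `det = a`
    have hxz : ∀ a : ℕ, IsCycExp p σ a → x = (a : DualNumber k) * z := by
      intro a ha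
      have := hcyc 1 a (hcond a ha)
      rw [hbot, Ideal.mem_bot, sub_eq_zero] at this
      exact this
    have hdeta : ∀ a : ℕ, IsCycExp p σ a → LinearMap.det (ρ'.ρ σ) = (a : DualNumber k) := by
      intro a ha
      have := hdet.2 1 σ a (hcond a ha)
      rw [hbot, Ideal.mem_bot, sub_eq_zero] at this
      exact this
    -- the matrix of `ρ'(σ)` in the basis `b`
    obtain ⟨t₁, ht₁⟩ : ∃ t₁ : DualNumber k, ρ'.ρ σ (b 1) - z • b 1 = t₁ • b 0 := by
      have := hz (b 1)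
      rw [hLb, Submodule.mem_span_singleton] at this
      obtain ⟨t, ht⟩ := this
      exact ⟨t, ht.symm⟩
    have hb1 : ρ'.ρ σ (b 1) = z • b 1 + t₁ • b 0 := by
      rw [← ht₁]; abel
    have hdetxz : LinearMap.det (ρ'.ρ σ) = x * z := by
      rw [← LinearMap.det_toMatrix b, Matrix.det_fin_two]
      simp only [LinearMap.toMatrix_apply, hx (b 0) hb0L, hb1, map_smul, map_add,
        Module.Basis.repr_self, Finsupp.smul_apply, Finsupp.add_apply, smul_eq_mul]
      simp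
    have hzz : z * z = 1 := by
      have h1 : (a₀ : DualNumber k) * (z * z) = (a₀ : DualNumber k) := by
        calc (a₀ : DualNumber k) * (z * z) = ((a₀ : DualNumber k) * z) * z := by ring
          _ = x * z := by rw [← hxz a₀ ha₀]
          _ = LinearMap.det (ρ'.ρ σ) := hdetxz.symm
          _ = (a₀ : DualNumber k) := hdeta a₀ ha₀
      have hunit : IsUnit (a₀ : DualNumber k) := by
        rw [TrivSqZeroExt.isUnit_iff_isUnit_fst, TrivSqZeroExt.fst_natCast]
        exact isUnit_iff_ne_zero.mpr (isCycExp_cast_ne_zero hp ha₀)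
      have h2 : (a₀ : DualNumber k) * (z * z) = (a₀ : DualNumber k) * 1 := by rw [h1, mul_one]
      exact hunit.mul_left_cancel h2
    obtain ⟨hz0, hz1⟩ := snd_eq_zero_of_mul_self_eq_one h2k hzz
    have hxfst : ∀ a : ℕ, IsCycExp p σ a → TrivSqZeroExt.fst x = (a : k) * TrivSqZeroExt.fst z := by
      intro a ha
      rw [hxz a ha, TrivSqZeroExt.fst_mul, TrivSqZeroExt.fst_natCast]
    have hxsnd : TrivSqZeroExt.snd x = 0 := by
      rw [hxz a₀ ha₀, TrivSqZeroExt.snd_mul, hz1, TrivSqZeroExt.snd_natCast]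
      simp
    refine ⟨TrivSqZeroExt.fst z, hz0, ?_, ?_, ?_⟩
    · intro a ha
      have hA : liftEnd ρbar c σ (e (b 0)) = x • e (b 0) := by
        rw [← he, hx (b 0) hb0L, map_smul]
      constructor
      · have := congrArg dPi0 hA
        rw [dPi0_liftEnd, dPi0_smul, hxfst a ha] at this
        exact this
      · have := congrArg dPi1 hA
        rw [dPi1_liftEnd, dPi1_smul, hxfst a ha, hxsnd, zero_smul, add_zero] at this
        exact this
    · intro v
      have hv := hz (e.symm (dIota v))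
      rw [hLb, Submodule.mem_span_singleton] at hv
      obtain ⟨t, ht⟩ := hv
      have hB : liftEnd ρbar c σ (dIota v) - z • dIota v = t • e (b 0) := by
        have := congrArg e ht
        rw [map_smul, map_sub, he, map_smul, LinearEquiv.apply_symm_apply] at this
        exact this.symm
      refine ⟨TrivSqZeroExt.fst t, TrivSqZeroExt.snd t, ?_, ?_⟩
      · have := congrArg dPi0 hB
        rw [map_sub, dPi0_liftEnd, dPi0_smul, dPi0_smul, dPi0_dIota] at this
        exact this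
      · have := congrArg dPi1 hB
        rw [map_sub, dPi1_liftEnd, dPi1_smul, dPi1_smul, dPi0_dIota, dPi1_dIota, hz1,
          map_zero, zero_add, smul_zero, zero_smul, add_zero, sub_zero] at this
        exact this
    · intro hσI
      -- on inertia `(z - 1) • b 1 ∈ L`, hence `z = 1`
      have h1 := hI σ hσI (b 1)
      have h2 := hz (b 1)
      have h3 : (z - 1) • b 1 ∈ L := by
        have : (z - 1) • b 1 = (ρ'.ρ σ (b 1) - b 1) - (ρ'.ρ σ (b 1) - z • b 1) := by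
          rw [sub_smul, one_smul]; abel
        rw [this]
        exact L.sub_mem h1 h2
      rw [hLb, Submodule.mem_span_singleton] at h3
      obtain ⟨t, ht⟩ := h3
      have h4 := congrArg (fun f => b.repr f 1) ht
      simp only [map_smul, Module.Basis.repr_self, Finsupp.smul_apply, smul_eq_mul] at h4
      have h5 : z - 1 = 0 := by
        have e1 : (Finsupp.single (0 : Fin 2) (1 : DualNumber k)) 1 = 0 := by
          rw [Finsupp.single_apply]; simp
        have e2 : (Finsupp.single (1 : Fin 2) (1 : DualNumber k)) 1 = 1 := by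
          rw [Finsupp.single_apply]; simp
        rw [e1, e2, mul_zero, mul_one] at h4
        exact h4.symm
      have h6 : z = 1 := sub_eq_zero.mp h5
      rw [h6, TrivSqZeroExt.fst_one]

end struct

end Fermat.Agent.S56.H656

end

/-!
# S56 / LOC-SO (helper656): inertia at `p` acts non-trivially on `μ_p` (`p` odd)

`exists_inertia_isCycExp_ne_one`: for a place `P` of `ℚ̄` over an odd prime `p` there is `σ` in the
inertia group of `P` with a cyclotomic exponent `a` on `μ_p` such that `a ≠ 1` in characteristic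
`p`.  (Total ramification of `ℚ(ζ_p)` at `p`, landed `S14/H894/TotRam`.)
-/

set_option autoImplicit false

noncomputable section

namespace Fermat.Agent.S56.H656

open Fermat.Agent.S56

/-- For every `g ∈ G_ℚ` there is `σ` in the inertia group of `P` (over `p`) with `σ ζ = g ζ`. -/
theorem exists_inertia_apply_eq {p : ℕ} (hp : p.Prime) (P : ValuationSubring Qb)
    (hP : P.LiesOverPrime p) {ζ : Qb} (hζ : IsPrimitiveRoot ζ p) (g : GQ) :
    ∃ σ ∈ P.inertiaSubgroupIn ℚ, σ ζ = g ζ := by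
  have hconj : ∀ τ : GQ, (∀ x ∈ (⊥ : IntermediateField ℚ Qb), τ x = x) →
      P.valuation (τ (ζ - 1)) = P.valuation (ζ - 1) := by
    intro τ _
    have hτζ : IsPrimitiveRoot (τ ζ) p := hζ.map_of_injective τ.injective
    rw [map_sub, map_one]
    exact Fermat.Agent.S14.H894.valuation_sub_one_eq_of_mem_primitiveRoots P p hp ζ hζ
      ((mem_primitiveRoots hp.pos).2 hτζ)
  have hbot : ∀ x ∈ (⊥ : IntermediateField ℚ Qb), g x = x := by
    intro x hx
    obtain ⟨q, rfl⟩ := IntermediateField.mem_bot.1 hx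
    exact g.commutes q
  obtain ⟨σ, hσ, -, hσγ⟩ := Fermat.Agent.S14.H894.exists_inertia_eq_on_adjoin P p hp hP ⊥
    (ζ - 1) (Fermat.Agent.S14.H894.cycloShift p) (Fermat.Agent.S14.H894.cycloShift_monic p)
    (Fermat.Agent.S14.H894.cycloShift_aeval p hp ζ hζ)
    (Fermat.Agent.S14.H894.cyclo_indep P p hp hP ζ hζ) hconj g hbot
  refine ⟨σ, hσ, ?_⟩
  rw [map_sub, map_sub, map_one, map_one] at hσγ
  exact sub_left_injective hσγ

/-- Some element of `G_ℚ` moves a primitive `p`-th root of unity, `p ≥ 3`. -/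
theorem exists_apply_ne_of_primitiveRoot {p : ℕ} (hp : p.Prime) (hp2 : p ≠ 2) {ζ : Qb}
    (hζ : IsPrimitiveRoot ζ p) : ∃ g : GQ, g ζ ≠ ζ := by
  have hnot : ζ ∉ (⊥ : IntermediateField ℚ Qb) := by
    intro hmem
    obtain ⟨q, hq⟩ := IntermediateField.mem_bot.1 hmem
    have hqp : q ^ p = 1 := by
      have h1 : (algebraMap ℚ Qb q) ^ p = 1 := by rw [hq, hζ.pow_eq_one]
      rw [← map_pow] at h1
      exact (algebraMap ℚ Qb).injective (by rw [h1, map_one])
    have hodd : Odd p := hp.odd_of_ne_two hp2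
    have hq1 : q = 1 := hodd.strictMono_pow.injective (by simpa using hqp)
    have hζ1 : ζ = 1 := by rw [← hq, hq1, map_one]
    exact hp.one_lt.ne' (hζ.unique (hζ1 ▸ IsPrimitiveRoot.one))
  obtain ⟨τ, -, hτ⟩ := Fermat.Agent.S14.H894.exists_fixing_ne_of_not_mem ⊥ ζ hnot
  exact ⟨τ, hτ⟩

/-- Inertia at `p` acts non-trivially on `μ_p` for `p` odd. -/
theorem exists_inertia_isCycExp_ne_one {p : ℕ} (hp : p.Prime) (hp2 : p ≠ 2)
    (k : Type) [Field k] [CharP k p] (P : ValuationSubring Qb) (hP : P.LiesOverPrime p) :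
    ∃ σ ∈ P.inertiaSubgroupIn ℚ, ∃ a : ℕ, IsCycExp p σ a ∧ (a : k) ≠ 1 := by
  obtain ⟨ζ, hζ⟩ := Fermat.Agent.S56.H966.exists_primitiveRoot_Qb p hp.ne_zero
  obtain ⟨g, hg⟩ := exists_apply_ne_of_primitiveRoot hp hp2 hζ
  obtain ⟨σ, hσ, hσζ⟩ := exists_inertia_apply_eq hp P hP hζ g
  obtain ⟨a, ha⟩ := Fermat.Agent.S56.H966.exists_isCycExp p hp.ne_zero σ
  refine ⟨σ, hσ, a, ha, ?_⟩
  intro h1
  apply hg
  rw [← hσζ, ha ζ hζ.pow_eq_one]
  have h2 : ((a : ℕ) : k) = ((1 : ℕ) : k) := by rw [h1, Nat.cast_one]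
  have h3 : a ≡ 1 [MOD p] := (CharP.natCast_eq_natCast k p).mp h2
  have hfin : IsOfFinOrder ζ :=
    isOfFinOrder_iff_pow_eq_one.mpr ⟨p, hp.pos, hζ.pow_eq_one⟩
  have h4 : ζ ^ a = ζ ^ 1 := by
    rw [hfin.pow_eq_pow_iff_modEq, ← hζ.eq_orderOf]
    exact h3
  rw [h4, pow_one]

end Fermat.Agent.S56.H656

end

/-!
# S56 / LOC-SO (helper656): the linear algebra (no Galois theory)

`V` is a plane over a field `k` with a basis `B`; `ℓ₀ = B 0` spans the "ordinary line".
* `nil0 B`  — the nilpotent `n₀ : v ↦ g(v) ℓ₀` (`g = B.coord 1`), a generator of `Hom(V/L, L)`;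
* `proj0 B` — the projector `d : v ↦ f(v) ℓ₀` (`f = B.coord 0`).
-/

set_option autoImplicit false

noncomputable section

namespace Fermat.Agent.S56.H656

variable {k : Type} [Field k] {V : Type} [AddCommGroup V] [Module k V]

/-- `n₀ : v ↦ (B.coord 1 v) • B 0`. -/
def nil0 (B : Module.Basis (Fin 2) k V) : Module.End k V := (B.coord 1).smulRight (B 0)

/-- `d : v ↦ (B.coord 0 v) • B 0`. -/
def proj0 (B : Module.Basis (Fin 2) k V) : Module.End k V := (B.coord 0).smulRight (B 0)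

variable (B : Module.Basis (Fin 2) k V)

@[simp] theorem nil0_apply (u : V) : nil0 B u = B.coord 1 u • B 0 := rfl

@[simp] theorem proj0_apply (u : V) : proj0 B u = B.coord 0 u • B 0 := rfl

theorem coord0_self : B.coord 0 (B 0) = 1 := by simp

theorem coord1_self0 : B.coord 1 (B 0) = 0 := by
  rw [Module.Basis.coord_apply, Module.Basis.repr_self, Finsupp.single_apply]; simp

theorem coord0_self1 : B.coord 0 (B 1) = 0 := by
  rw [Module.Basis.coord_apply, Module.Basis.repr_self, Finsupp.single_apply]; simp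

theorem coord1_self : B.coord 1 (B 1) = 1 := by simp

theorem basis0_ne_zero : B 0 ≠ 0 := B.ne_zero 0

theorem expand (u : V) : u = B.coord 0 u • B 0 + B.coord 1 u • B 1 := by
  have h := B.sum_repr u
  rw [Fin.sum_univ_two] at h
  exact h.symm

theorem smul_basis0_inj {s t : k} (h : s • B 0 = t • B 0) : s = t := by
  have := congrArg (B.coord 0) h
  simpa using this

/-- An endomorphism killing `ℓ₀` with image in `k ℓ₀` is a multiple of `n₀`. -/
theorem eq_smul_nil0 (C : Module.End k V) (h0 : C (B 0) = 0)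
    (h1 : ∀ u, ∃ t : k, C u = t • B 0) : C = B.coord 0 (C (B 1)) • nil0 B := by
  apply LinearMap.ext
  intro u
  obtain ⟨t, ht⟩ := h1 (B 1)
  conv_lhs => rw [expand B u]
  rw [map_add, map_smul, map_smul, h0, smul_zero, zero_add, LinearMap.smul_apply, nil0_apply,
    ht, map_smul, coord0_self, smul_eq_mul, mul_one, smul_smul, smul_smul, mul_comm]

theorem coord0_smul_nil0_basis1 (κ : k) : B.coord 0 ((κ • nil0 B) (B 1)) = κ := by
  rw [LinearMap.smul_apply, nil0_apply, coord1_self, one_smul, map_smul, coord0_self,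
    smul_eq_mul, mul_one]

theorem nil0_ne_zero : nil0 B ≠ 0 := by
  intro h
  have := coord0_smul_nil0_basis1 B 1
  rw [one_smul, h, LinearMap.zero_apply, map_zero] at this
  exact zero_ne_one this

theorem smul_nil0_inj {s t : k} (h : s • nil0 B = t • nil0 B) : s = t := by
  rw [← coord0_smul_nil0_basis1 B s, h, coord0_smul_nil0_basis1]

section conj

variable (R Rinv : Module.End k V) (hR : R * Rinv = 1) (hR' : Rinv * R = 1)
  (x₀ z₀ : k) (hzz : z₀ * z₀ = 1) (h1 : R (B 0) = x₀ • B 0)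
  (h3 : ∀ v, ∃ s : k, R v - z₀ • v = s • B 0)

include hR in
theorem apply_inv_apply' (u : V) : R (Rinv u) = u := by
  have := congrArg (fun F : Module.End k V => F u) hR
  simpa using this

include hR' in
theorem inv_apply_apply' (u : V) : Rinv (R u) = u := by
  have := congrArg (fun F : Module.End k V => F u) hR'
  simpa using this

include hR hzz h3 in
theorem coord1_inv (u : V) : B.coord 1 (Rinv u) = z₀ * B.coord 1 u := by
  obtain ⟨s, hs⟩ := h3 (Rinv u)
  rw [apply_inv_apply' R Rinv hR] at hs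
  have := congrArg (B.coord 1) hs
  rw [map_sub, map_smul, map_smul, coord1_self0, smul_eq_mul, smul_eq_mul, mul_zero,
    sub_eq_zero] at this
  rw [this, ← mul_assoc, hzz, one_mul]

include hR hzz h1 h3 in
/-- `R n₀ R⁻¹ = x₀ z₀ n₀`. -/
theorem conj_nil0 : R * nil0 B * Rinv = (x₀ * z₀) • nil0 B := by
  apply LinearMap.ext
  intro u
  rw [Module.End.mul_apply, Module.End.mul_apply, nil0_apply, map_smul, h1,
    coord1_inv B R Rinv hR z₀ hzz h3, LinearMap.smul_apply, nil0_apply, smul_smul, smul_smul]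
  congr 1
  ring

include hR' h1 in
theorem inv_basis0 (hx₀ : x₀ ≠ 0) : Rinv (B 0) = x₀⁻¹ • B 0 := by
  have h : Rinv (R (B 0)) = B 0 := inv_apply_apply' R Rinv hR' _
  rw [h1, map_smul] at h
  calc Rinv (B 0) = x₀⁻¹ • (x₀ • Rinv (B 0)) := by
        rw [smul_smul, inv_mul_cancel₀ hx₀, one_smul]
    _ = x₀⁻¹ • B 0 := by rw [h]

include hR' h1 in
/-- `R d R⁻¹ − d` kills `ℓ₀`. -/
theorem conj_proj0_basis0 (hx₀ : x₀ ≠ 0) : (R * proj0 B * Rinv - proj0 B) (B 0) = 0 := by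
  have e0 : B.coord 0 (x₀⁻¹ • B 0) = x₀⁻¹ := by
    rw [map_smul, coord0_self, smul_eq_mul, mul_one]
  have e1 : (R * proj0 B * Rinv) (B 0) = B 0 := by
    rw [Module.End.mul_apply, Module.End.mul_apply, inv_basis0 B R Rinv hR' x₀ h1 hx₀,
      proj0_apply, e0, map_smul, h1, smul_smul, inv_mul_cancel₀ hx₀, one_smul]
  have e2 : proj0 B (B 0) = B 0 := by rw [proj0_apply, coord0_self, one_smul]
  rw [LinearMap.sub_apply, e1, e2, sub_self]

include h1 in
/-- `R d R⁻¹ − d` has image in `k ℓ₀`. -/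
theorem conj_proj0_mem (u : V) : ∃ t : k, (R * proj0 B * Rinv - proj0 B) u = t • B 0 := by
  refine ⟨B.coord 0 (Rinv u) * x₀ - B.coord 0 u, ?_⟩
  rw [LinearMap.sub_apply, Module.End.mul_apply, Module.End.mul_apply, proj0_apply, proj0_apply,
    map_smul, h1, smul_smul, sub_smul]

end conj

section cprime

variable (R Rinv C : Module.End k V) (hR : R * Rinv = 1) (hR' : Rinv * R = 1)
  (ℓ₁ : V) (x₀ z₀ : k) (hx₀ : x₀ ≠ 0)
  (h1 : R (B 0) = x₀ • B 0) (h2 : R ℓ₁ + C (R (B 0)) = x₀ • ℓ₁)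
  (h3 : ∀ v, ∃ s t : k, R v - z₀ • v = s • B 0 ∧ C (R v) = s • ℓ₁ + t • B 0)

/-- The correcting endomorphism `m : v ↦ f(v) ℓ₁`. -/
def corr (ℓ₁ : V) : Module.End k V := (B.coord 0).smulRight ℓ₁

@[simp] theorem corr_apply (u : V) : corr B ℓ₁ u = B.coord 0 u • ℓ₁ := rfl

include hR' hx₀ h1 h2 in
theorem cprime_basis0 : (C + (R * corr B ℓ₁ * Rinv - corr B ℓ₁)) (B 0) = 0 := by
  have hRl : R ℓ₁ = x₀ • ℓ₁ - x₀ • C (B 0) := by
    rw [h1, map_smul] at h2
    rw [← h2]; abel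
  have e0 : B.coord 0 (x₀⁻¹ • B 0) = x₀⁻¹ := by
    rw [map_smul, coord0_self, smul_eq_mul, mul_one]
  have e1 : (R * corr B ℓ₁ * Rinv) (B 0) = ℓ₁ - C (B 0) := by
    rw [Module.End.mul_apply, Module.End.mul_apply, inv_basis0 B R Rinv hR' x₀ h1 hx₀,
      corr_apply, e0, map_smul, hRl, smul_sub, smul_smul, smul_smul, inv_mul_cancel₀ hx₀,
      one_smul, one_smul]
  have e2 : corr B ℓ₁ (B 0) = ℓ₁ := by rw [corr_apply, coord0_self, one_smul]
  rw [LinearMap.add_apply, LinearMap.sub_apply, e1, e2]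
  abel

include hR h1 h2 h3 in
theorem cprime_mem (u : V) : ∃ t : k, (C + (R * corr B ℓ₁ * Rinv - corr B ℓ₁)) u = t • B 0 := by
  obtain ⟨s, t, hs, ht⟩ := h3 (Rinv u)
  rw [apply_inv_apply' R Rinv hR] at hs ht
  obtain ⟨s'', t'', hs'', ht''⟩ := h3 (B 0)
  have hs2 : s'' = x₀ - z₀ := by
    rw [h1, ← sub_smul] at hs''
    exact (smul_basis0_inj B hs'').symm
  have hRl : R ℓ₁ = z₀ • ℓ₁ - t'' • B 0 := by
    have : R ℓ₁ = x₀ • ℓ₁ - C (R (B 0)) := by rw [← h2]; abel
    rw [this, ht'', hs2, sub_smul]; abel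
  have hf : B.coord 0 u - z₀ * B.coord 0 (Rinv u) = s := by
    have := congrArg (B.coord 0) hs
    rw [map_sub, map_smul, map_smul, coord0_self, smul_eq_mul, smul_eq_mul, mul_one] at this
    exact this
  refine ⟨t - B.coord 0 (Rinv u) * t'', ?_⟩
  rw [LinearMap.add_apply, LinearMap.sub_apply, Module.End.mul_apply, Module.End.mul_apply,
    corr_apply, corr_apply, map_smul, hRl, ht, ← hf]
  module

end cprime

section traces

variable [Module.Finite k V]

theorem trace_nil0 : LinearMap.trace k V (nil0 B) = 0 := by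
  rw [nil0, LinearMap.trace_smulRight, coord1_self0]

theorem trace_proj0 : LinearMap.trace k V (proj0 B) = 1 := by
  rw [proj0, LinearMap.trace_smulRight, coord0_self]

omit [Module.Finite k V] in
theorem finrank_eq_two_of_basis (B' : Module.Basis (Fin 2) k V) : Module.finrank k V = 2 := by
  rw [Module.finrank_eq_card_basis B', Fintype.card_fin]

omit [Module.Finite k V] in
theorem trace_conj_sub (R Rinv m : Module.End k V) (hR' : Rinv * R = 1) :
    LinearMap.trace k V (R * m * Rinv - m) = 0 := by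
  rw [map_sub, LinearMap.trace_mul_comm, ← mul_assoc, hR', one_mul, sub_self]

end traces

end Fermat.Agent.S56.H656

end

/-!
# S56 / LOC-SO (helper656): cocycle calculus on `D_P` relative to the ordinary line

* `IsSOLine`, `IsSOData`: the data produced by `locSO_struct`; uniqueness of the line
  (`IsSOLine.unique`, uses that inertia at `p` acts non-trivially on `μ_p`).
* `isAdCocycle_cob`, `IsAdCocycle.add`: coboundaries and sums are cocycles of finite level.
* `kappa_props`: an `ad⁰`-cocycle with values in `Hom(V/L, L)` on `D_P` is `κ • n₀` with `κ` an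
  `ω`-twisted `k`-valued cocycle on `D_P` of (global) finite level.
-/

set_option autoImplicit false

open IsLocalRing

noncomputable section

namespace Fermat.Agent.S56.H656

open Fermat.Agent.S56 Fermat.Agent.S56.H716

section line

variable {k : Type} [Field k] (ρbar : ResidualGaloisRep k) (p : ℕ) (P : ValuationSubring Qb)

/-- The `c`-independent part of the strict-ordinary data: `ℓ₀` spans a `D_P`-stable line on
which `σ` acts by `ω(σ) z₀(σ)`, `z₀(σ) = ±1` is the action on the quotient, inertia acts trivially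
on the quotient. -/
def IsSOLine (ℓ₀ : ρbar.V) : Prop :=
  ℓ₀ ≠ 0 ∧ ∀ σ ∈ P.decompositionSubgroup ℚ, ∃ z₀ : k, z₀ * z₀ = 1 ∧
    (∀ a : ℕ, IsCycExp p σ a → ρbar.ρ σ ℓ₀ = ((a : k) * z₀) • ℓ₀) ∧
    (∀ v : ρbar.V, ∃ s : k, ρbar.ρ σ v - z₀ • v = s • ℓ₀) ∧
    (σ ∈ P.inertiaSubgroupIn ℚ → z₀ = 1)

/-- The full strict-ordinary data of a tangent cocycle `c` (output of `locSO_struct`). -/
def IsSOData (c : GQ → Module.End k ρbar.V) (ℓ₀ ℓ₁ : ρbar.V) : Prop :=
  ℓ₀ ≠ 0 ∧ ∀ σ ∈ P.decompositionSubgroup ℚ, ∃ z₀ : k, z₀ * z₀ = 1 ∧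
    (∀ a : ℕ, IsCycExp p σ a →
      ρbar.ρ σ ℓ₀ = ((a : k) * z₀) • ℓ₀ ∧
      ρbar.ρ σ ℓ₁ + c σ (ρbar.ρ σ ℓ₀) = ((a : k) * z₀) • ℓ₁) ∧
    (∀ v : ρbar.V, ∃ s t : k, ρbar.ρ σ v - z₀ • v = s • ℓ₀ ∧
      c σ (ρbar.ρ σ v) = s • ℓ₁ + t • ℓ₀) ∧
    (σ ∈ P.inertiaSubgroupIn ℚ → z₀ = 1)

variable {ρbar p P}

theorem IsSOData.isSOLine {c : GQ → Module.End k ρbar.V} {ℓ₀ ℓ₁ : ρbar.V}
    (h : IsSOData ρbar p P c ℓ₀ ℓ₁) : IsSOLine ρbar p P ℓ₀ := by
  refine ⟨h.1, fun σ hσ => ?_⟩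
  obtain ⟨z₀, hzz, ha, hv, hI⟩ := h.2 σ hσ
  refine ⟨z₀, hzz, fun a hcyc => (ha a hcyc).1, fun v => ?_, hI⟩
  obtain ⟨s, t, hs, -⟩ := hv v
  exact ⟨s, hs⟩

theorem IsSOData.smul {c : GQ → Module.End k ρbar.V} {ℓ₀ ℓ₁ : ρbar.V}
    (h : IsSOData ρbar p P c ℓ₀ ℓ₁) {r : k} (hr : r ≠ 0) :
    IsSOData ρbar p P c (r • ℓ₀) (r • ℓ₁) := by
  refine ⟨smul_ne_zero hr h.1, fun σ hσ => ?_⟩
  obtain ⟨z₀, hzz, ha, hv, hI⟩ := h.2 σ hσ
  refine ⟨z₀, hzz, fun a hcyc => ?_, fun v => ?_, hI⟩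
  · obtain ⟨h1, h2⟩ := ha a hcyc
    constructor
    · rw [map_smul, h1, smul_comm]
    · rw [map_smul, map_smul, map_smul, ← smul_add, h2, smul_comm]
  · obtain ⟨s, t, hs, ht⟩ := hv v
    refine ⟨s * r⁻¹, t * r⁻¹, ?_, ?_⟩
    · rw [hs, smul_smul, mul_assoc, inv_mul_cancel₀ hr, mul_one]
    · rw [ht, smul_smul, smul_smul, mul_assoc, mul_assoc, inv_mul_cancel₀ hr, mul_one, mul_one]

/-- The ordinary line is unique (`p` odd). -/
theorem IsSOLine.unique [CharP k p] (hp : p.Prime) (hp2 : p ≠ 2) (hP : P.LiesOverPrime p)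
    {ℓ₀ ℓ₀' : ρbar.V} (h : IsSOLine ρbar p P ℓ₀) (h' : IsSOLine ρbar p P ℓ₀') :
    ∃ r : k, r ≠ 0 ∧ ℓ₀' = r • ℓ₀ := by
  obtain ⟨σ, hσI, a, ha, ha1⟩ := exists_inertia_isCycExp_ne_one hp hp2 k P hP
  have hσD := mem_decomposition_of_mem_inertia hσI
  obtain ⟨z₀, -, -, hv, hI⟩ := h.2 σ hσD
  obtain ⟨z₀', -, hcyc', -, hI'⟩ := h'.2 σ hσD
  have hz : z₀ = 1 := hI hσI
  have hz' : z₀' = 1 := hI' hσI
  obtain ⟨s, hs⟩ := hv ℓ₀'
  rw [hcyc' a ha, hz, hz', mul_one, one_smul] at hs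
  have ha1' : (a : k) - 1 ≠ 0 := sub_ne_zero.mpr ha1
  have hs' : ((a : k) - 1) • ℓ₀' = s • ℓ₀ := by rw [sub_smul, one_smul]; exact hs
  have hℓ : ℓ₀' = (((a : k) - 1)⁻¹ * s) • ℓ₀ := by
    rw [mul_smul, ← hs', smul_smul, inv_mul_cancel₀ ha1', one_smul]
  refine ⟨((a : k) - 1)⁻¹ * s, ?_, hℓ⟩
  intro h0
  rw [h0, zero_smul] at hℓ
  exact h'.1 hℓ

end line

section cocycles

variable {k : Type} [Field k] (ρbar : ResidualGaloisRep k)

theorem rho_mul_inv' (σ : GQ) : ρbar.ρ σ * ρbar.ρ σ⁻¹ = 1 := by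
  rw [← map_mul, mul_inv_cancel, map_one]

theorem rho_inv_mul' (σ : GQ) : ρbar.ρ σ⁻¹ * ρbar.ρ σ = 1 := by
  rw [← map_mul, inv_mul_cancel, map_one]

/-- Coboundaries are cocycles of finite level. -/
theorem isAdCocycle_cob (m : Module.End k ρbar.V) :
    IsAdCocycle ρbar (fun σ => ρbar.ρ σ * m * ρbar.ρ σ⁻¹ - m) where
  trace_eq_zero σ := trace_conj_sub _ _ m (rho_inv_mul' ρbar σ)
  map_mul σ τ := by
    simp only [map_mul, mul_inv_rev, mul_sub, sub_mul, mul_assoc]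
    abel
  level := by
    obtain ⟨L, hL, h1⟩ := ρbar.factorsThroughFiniteLevel
    refine ⟨L, hL, fun σ τ hτ => ?_⟩
    have hτ1 : ρbar.ρ τ = 1 := h1 τ hτ
    have hτi : ρbar.ρ τ⁻¹ = 1 := by
      apply h1
      intro x hx
      have := hτ x hx
      calc τ⁻¹ x = τ⁻¹ (τ x) := by rw [this]
        _ = x := by
          show (τ⁻¹ * τ) x = x
          rw [inv_mul_cancel]; rfl
    show ρbar.ρ (σ * τ) * m * ρbar.ρ (σ * τ)⁻¹ - m = ρbar.ρ σ * m * ρbar.ρ σ⁻¹ - m
    rw [mul_inv_rev, map_mul, map_mul, hτ1, hτi, mul_one, one_mul]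

variable {ρbar}

theorem IsAdCocycle.add' {c₁ c₂ : GQ → Module.End k ρbar.V} (h₁ : IsAdCocycle ρbar c₁)
    (h₂ : IsAdCocycle ρbar c₂) : IsAdCocycle ρbar (fun σ => c₁ σ + c₂ σ) where
  trace_eq_zero σ := by rw [map_add, h₁.trace_eq_zero, h₂.trace_eq_zero, add_zero]
  map_mul σ τ := by
    rw [h₁.map_mul, h₂.map_mul, mul_add, add_mul]
    abel
  level := by
    obtain ⟨L₁, hL₁, h1⟩ := h₁.level
    obtain ⟨L₂, hL₂, h2⟩ := h₂.level
    have := hL₁
    have := hL₂
    refine ⟨L₁ ⊔ L₂, IntermediateField.finiteDimensional_sup L₁ L₂, fun σ τ hτ => ?_⟩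
    rw [h1 σ τ fun x hx => hτ x ((le_sup_left : L₁ ≤ L₁ ⊔ L₂) hx),
      h2 σ τ fun x hx => hτ x ((le_sup_right : L₂ ≤ L₁ ⊔ L₂) hx)]

end cocycles

section kappa

variable {k : Type} [Field k] {ρbar : ResidualGaloisRep k} {p : ℕ} {P : ValuationSubring Qb}
  (B : Module.Basis (Fin 2) k ρbar.V)

/-- On `D_P`, conjugation by `ρ̄(σ)` multiplies `n₀` by the cyclotomic character. -/
theorem conj_nil0_of_line (hline : IsSOLine ρbar p P (B 0)) {σ : GQ}
    (hσ : σ ∈ P.decompositionSubgroup ℚ) {a : ℕ} (ha : IsCycExp p σ a) :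
    ρbar.ρ σ * nil0 B * ρbar.ρ σ⁻¹ = (a : k) • nil0 B := by
  obtain ⟨z₀, hzz, hcyc, hv, -⟩ := hline.2 σ hσ
  rw [conj_nil0 B (ρbar.ρ σ) (ρbar.ρ σ⁻¹) (rho_mul_inv' ρbar σ) ((a : k) * z₀) z₀ hzz
    (hcyc a ha) hv, mul_assoc, hzz, mul_one]

/-- An `ad⁰`-cocycle with values in `Hom(V/L, L)` on `D_P` is `κ • n₀`, `κ` an `ω`-twisted cocycle
on `D_P` of global finite level. -/
theorem kappa_props (hline : IsSOLine ρbar p P (B 0)) {c' : GQ → Module.End k ρbar.V}
    (hc' : IsAdCocycle ρbar c')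
    (hval : ∀ σ ∈ P.decompositionSubgroup ℚ, c' σ (B 0) = 0 ∧ ∀ u, ∃ t : k, c' σ u = t • B 0) :
    (∀ σ ∈ P.decompositionSubgroup ℚ, c' σ = B.coord 0 (c' σ (B 1)) • nil0 B) ∧
    (∀ σ ∈ P.decompositionSubgroup ℚ, ∀ τ ∈ P.decompositionSubgroup ℚ, ∀ a : ℕ,
      IsCycExp p σ a →
        B.coord 0 (c' (σ * τ) (B 1)) = B.coord 0 (c' σ (B 1)) + (a : k) * B.coord 0 (c' τ (B 1))) ∧
    (∃ L : IntermediateField ℚ Qb, FiniteDimensional ℚ L ∧
      ∀ σ τ : GQ, (∀ x ∈ L, τ x = x) →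
        B.coord 0 (c' (σ * τ) (B 1)) = B.coord 0 (c' σ (B 1))) := by
  have h1 : ∀ σ ∈ P.decompositionSubgroup ℚ, c' σ = B.coord 0 (c' σ (B 1)) • nil0 B :=
    fun σ hσ => eq_smul_nil0 B (c' σ) (hval σ hσ).1 (hval σ hσ).2
  refine ⟨h1, ?_, ?_⟩
  · intro σ hσ τ hτ a ha
    have e1 : c' (σ * τ) = c' σ + ρbar.ρ σ * c' τ * ρbar.ρ σ⁻¹ := hc'.map_mul σ τ
    have e2 : ρbar.ρ σ * c' τ * ρbar.ρ σ⁻¹ =
        (B.coord 0 (c' τ (B 1)) * (a : k)) • nil0 B := by
      conv_lhs => rw [h1 τ hτ]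
      rw [mul_smul_comm, smul_mul_assoc, conj_nil0_of_line B hline hσ ha, smul_smul]
    have e3 : c' (σ * τ) =
        (B.coord 0 (c' σ (B 1)) + (a : k) * B.coord 0 (c' τ (B 1))) • nil0 B := by
      rw [e1, e2, add_smul, mul_comm]
      congr 1
      exact h1 σ hσ
    rw [e3, coord0_smul_nil0_basis1]
  · obtain ⟨L, hL, h⟩ := hc'.level
    exact ⟨L, hL, fun σ τ hτ => by rw [h σ τ hτ]⟩

end kappa

end Fermat.Agent.S56.H656

end

/-!
# S56 / LOC-SO (helper656): the local tangent bound at `p`, strict-ordinary condition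

`locSO_of_kummerP : KummerPStatement → LocSOStatement`.

Every strict-ordinary tangent cocycle is, on `D_P`, cohomologous to `κ • n₀` with `κ` an
`ω`-twisted cocycle (`LocSOStruct`, `LocSOCoc`); by KUMMER-P these span a space of dimension `≤ 2`.
If `H⁰(D_P, ad⁰ρ̄) = 0` the coboundary of the projector onto the ordinary line is a nonzero class
of this type which dies in `ad⁰`, so the span has dimension `≤ 1`.
-/

set_option autoImplicit false

open IsLocalRing

noncomputable section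

namespace Fermat.Agent.S56.H656

open Fermat.Agent.S56 Fermat.Agent.S56.H716

section aux

variable {k : Type} [Field k] {W : Type} [AddCommGroup W] [Module k W]

theorem finrank_span_pair_le (t₁ t₂ : W) :
    Module.finrank k (Submodule.span k ({t₁, t₂} : Set W)) ≤ 2 := by
  classical
  have h := finrank_span_finset_le_card (R := k) ({t₁, t₂} : Finset W)
  have h2 : ({t₁, t₂} : Finset W).card ≤ 2 := Finset.card_le_two
  have : ((({t₁, t₂} : Finset W) : Set W)) = ({t₁, t₂} : Set W) := by simp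
  rw [this] at h
  exact h.trans h2

theorem finrank_span_single_le (t₁ : W) :
    Module.finrank k (Submodule.span k ({t₁} : Set W)) ≤ 1 := by
  classical
  have h := finrank_span_finset_le_card (R := k) ({t₁} : Finset W)
  have h2 : ({t₁} : Finset W).card ≤ 1 := by simp
  have : ((({t₁} : Finset W) : Set W)) = ({t₁} : Set W) := by simp
  rw [this] at h
  exact h.trans h2

end aux

section main

variable {k : Type} [Field k] {ρbar : ResidualGaloisRep k} {p : ℕ} {P : ValuationSubring Qb}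
  (B : Module.Basis (Fin 2) k ρbar.V)

/-- The coboundary of `m' • n₀` on `D_P`. -/
theorem cob_smul_nil0 (hline : IsSOLine ρbar p P (B 0)) {σ : GQ}
    (hσ : σ ∈ P.decompositionSubgroup ℚ) {a : ℕ} (ha : IsCycExp p σ a) (m' : k) :
    ρbar.ρ σ * (m' • nil0 B) * ρbar.ρ σ⁻¹ - m' • nil0 B = (((a : k) - 1) * m') • nil0 B := by
  rw [mul_smul_comm, smul_mul_assoc, conj_nil0_of_line B hline hσ ha, smul_smul, ← sub_smul]
  congr 1
  ring

/-- Values of the corrected cocycle `c + ∂(corr)` on `D_P`. -/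
theorem corrected_values [CharP k p] (hp : p.Prime) {c : GQ → Module.End k ρbar.V} {ℓ₁ : ρbar.V}
    (hdata : IsSOData ρbar p P c (B 0) ℓ₁) {σ : GQ} (hσ : σ ∈ P.decompositionSubgroup ℚ) :
    (c σ + (ρbar.ρ σ * corr B ℓ₁ * ρbar.ρ σ⁻¹ - corr B ℓ₁)) (B 0) = 0 ∧
      ∀ u, ∃ t : k, (c σ + (ρbar.ρ σ * corr B ℓ₁ * ρbar.ρ σ⁻¹ - corr B ℓ₁)) u = t • B 0 := by
  obtain ⟨z₀, hzz, hcyc, hv, -⟩ := hdata.2 σ hσ
  obtain ⟨a, ha⟩ := Fermat.Agent.S56.H966.exists_isCycExp p hp.ne_zero σ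
  have ha0 : (a : k) ≠ 0 := isCycExp_cast_ne_zero hp ha
  have hz0 : z₀ ≠ 0 := by
    intro h
    rw [h, mul_zero] at hzz
    exact zero_ne_one hzz
  have hx0 : (a : k) * z₀ ≠ 0 := mul_ne_zero ha0 hz0
  exact ⟨cprime_basis0 B (ρbar.ρ σ) (ρbar.ρ σ⁻¹) (c σ) (rho_inv_mul' ρbar σ) ℓ₁ _ hx0
      (hcyc a ha).1 (hcyc a ha).2,
    cprime_mem B (ρbar.ρ σ) (ρbar.ρ σ⁻¹) (c σ) (rho_mul_inv' ρbar σ) ℓ₁ _ z₀
      (hcyc a ha).1 (hcyc a ha).2 hv⟩

/-- Values of the coboundary of the projector on `D_P`. -/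
theorem proj_values [CharP k p] (hp : p.Prime) (hline : IsSOLine ρbar p P (B 0)) {σ : GQ}
    (hσ : σ ∈ P.decompositionSubgroup ℚ) :
    (ρbar.ρ σ * proj0 B * ρbar.ρ σ⁻¹ - proj0 B) (B 0) = 0 ∧
      ∀ u, ∃ t : k, (ρbar.ρ σ * proj0 B * ρbar.ρ σ⁻¹ - proj0 B) u = t • B 0 := by
  obtain ⟨z₀, hzz, hcyc, -, -⟩ := hline.2 σ hσ
  obtain ⟨a, ha⟩ := Fermat.Agent.S56.H966.exists_isCycExp p hp.ne_zero σ
  have ha0 : (a : k) ≠ 0 := isCycExp_cast_ne_zero hp ha
  have hz0 : z₀ ≠ 0 := by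
    intro h
    rw [h, mul_zero] at hzz
    exact zero_ne_one hzz
  have hx0 : (a : k) * z₀ ≠ 0 := mul_ne_zero ha0 hz0
  exact ⟨conj_proj0_basis0 B (ρbar.ρ σ) (ρbar.ρ σ⁻¹) (rho_inv_mul' ρbar σ) _ (hcyc a ha) hx0,
    conj_proj0_mem B (ρbar.ρ σ) (ρbar.ρ σ⁻¹) _ (hcyc a ha)⟩

/-- **Key step**: with KUMMER-P functions `κ₁ κ₂`, every cocycle with strict-ordinary data
relative to the line `B 0` is on `D_P` cohomologous to `(x κ₁ + y κ₂) • n₀`. -/
theorem key_of_data [CharP k p] (hp : p.Prime) {κ₁ κ₂ : GQ → k}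
    (hκ : ∀ κ : GQ → k,
      (∀ σ ∈ P.decompositionSubgroup ℚ, ∀ τ ∈ P.decompositionSubgroup ℚ, ∀ a : ℕ,
        IsCycExp p σ a → κ (σ * τ) = κ σ + (a : k) * κ τ) →
      (∃ L : IntermediateField ℚ Qb, FiniteDimensional ℚ L ∧
        ∀ σ τ : GQ, (∀ x ∈ L, τ x = x) → κ (σ * τ) = κ σ) →
      ∃ x y m : k, ∀ σ ∈ P.decompositionSubgroup ℚ, ∀ a : ℕ, IsCycExp p σ a →
        κ σ = x * κ₁ σ + y * κ₂ σ + ((a : k) - 1) * m)
    {c : GQ → Module.End k ρbar.V} (hc : IsAdCocycle ρbar c) {ℓ₁ : ρbar.V}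
    (hdata : IsSOData ρbar p P c (B 0) ℓ₁) :
    ∃ (x y : k) (M : Module.End k ρbar.V), ∀ σ ∈ P.decompositionSubgroup ℚ,
      c σ - (x * κ₁ σ + y * κ₂ σ) • nil0 B = ρbar.ρ σ * M * ρbar.ρ σ⁻¹ - M := by
  have hline := hdata.isSOLine
  have hc' : IsAdCocycle ρbar
      (fun σ => c σ + (ρbar.ρ σ * corr B ℓ₁ * ρbar.ρ σ⁻¹ - corr B ℓ₁)) :=
    IsAdCocycle.add' hc (isAdCocycle_cob ρbar (corr B ℓ₁))
  obtain ⟨h1, h2, h3⟩ := kappa_props B hline hc' (fun σ hσ => corrected_values B hp hdata hσ)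
  obtain ⟨x, y, m', hxy⟩ := hκ
    (fun σ => B.coord 0 ((c σ + (ρbar.ρ σ * corr B ℓ₁ * ρbar.ρ σ⁻¹ - corr B ℓ₁)) (B 1))) h2 h3
  refine ⟨x, y, m' • nil0 B - corr B ℓ₁, fun σ hσ => ?_⟩
  obtain ⟨a, ha⟩ := Fermat.Agent.S56.H966.exists_isCycExp p hp.ne_zero σ
  have e1 := h1 σ hσ
  have e2 := hxy σ hσ a ha
  beta_reduce at e1 e2
  rw [e2] at e1
  have e3 := cob_smul_nil0 B hline hσ ha m'
  have e4 : ρbar.ρ σ * (m' • nil0 B - corr B ℓ₁) * ρbar.ρ σ⁻¹ - (m' • nil0 B - corr B ℓ₁) =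
      (ρbar.ρ σ * (m' • nil0 B) * ρbar.ρ σ⁻¹ - m' • nil0 B) -
        (ρbar.ρ σ * corr B ℓ₁ * ρbar.ρ σ⁻¹ - corr B ℓ₁) := by
    rw [mul_sub, sub_mul]; abel
  rw [e4, e3]
  have e5 : c σ = (x * κ₁ σ + y * κ₂ σ + ((a : k) - 1) * m') • nil0 B -
      (ρbar.ρ σ * corr B ℓ₁ * ρbar.ρ σ⁻¹ - corr B ℓ₁) := by
    rw [← e1]; abel
  rw [e5, add_smul]
  abel

/-- The cocycle of the projector, in KUMMER-P coordinates. -/
theorem key_of_proj [CharP k p] (hp : p.Prime) {κ₁ κ₂ : GQ → k}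
    (hκ : ∀ κ : GQ → k,
      (∀ σ ∈ P.decompositionSubgroup ℚ, ∀ τ ∈ P.decompositionSubgroup ℚ, ∀ a : ℕ,
        IsCycExp p σ a → κ (σ * τ) = κ σ + (a : k) * κ τ) →
      (∃ L : IntermediateField ℚ Qb, FiniteDimensional ℚ L ∧
        ∀ σ τ : GQ, (∀ x ∈ L, τ x = x) → κ (σ * τ) = κ σ) →
      ∃ x y m : k, ∀ σ ∈ P.decompositionSubgroup ℚ, ∀ a : ℕ, IsCycExp p σ a →
        κ σ = x * κ₁ σ + y * κ₂ σ + ((a : k) - 1) * m)
    (hline : IsSOLine ρbar p P (B 0)) :
    ∃ (x y m : k), ∀ σ ∈ P.decompositionSubgroup ℚ,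
      (x * κ₁ σ + y * κ₂ σ) • nil0 B =
        ρbar.ρ σ * (proj0 B - m • nil0 B) * ρbar.ρ σ⁻¹ - (proj0 B - m • nil0 B) := by
  have hc' : IsAdCocycle ρbar (fun σ => ρbar.ρ σ * proj0 B * ρbar.ρ σ⁻¹ - proj0 B) :=
    isAdCocycle_cob ρbar (proj0 B)
  obtain ⟨h1, h2, h3⟩ := kappa_props B hline hc' (fun σ hσ => proj_values B hp hline hσ)
  obtain ⟨x, y, m', hxy⟩ := hκ
    (fun σ => B.coord 0 ((ρbar.ρ σ * proj0 B * ρbar.ρ σ⁻¹ - proj0 B) (B 1))) h2 h3
  refine ⟨x, y, m', fun σ hσ => ?_⟩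
  obtain ⟨a, ha⟩ := Fermat.Agent.S56.H966.exists_isCycExp p hp.ne_zero σ
  have e1 := h1 σ hσ
  have e2 := hxy σ hσ a ha
  beta_reduce at e1 e2
  rw [e2] at e1
  have e3 := cob_smul_nil0 B hline hσ ha m'
  have e4 : ρbar.ρ σ * (proj0 B - m' • nil0 B) * ρbar.ρ σ⁻¹ - (proj0 B - m' • nil0 B) =
      (ρbar.ρ σ * proj0 B * ρbar.ρ σ⁻¹ - proj0 B) -
        (ρbar.ρ σ * (m' • nil0 B) * ρbar.ρ σ⁻¹ - m' • nil0 B) := by
    rw [mul_sub, sub_mul]; abel
  rw [e4, e3, e1]
  module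

end main

section final

variable {k : Type} [Field k]

theorem exists_basis_zero_eq {V : Type} [AddCommGroup V] [Module k V]
    (h2 : Module.finrank k V = 2) {ℓ₀ : V} (h0 : ℓ₀ ≠ 0) :
    ∃ B : Module.Basis (Fin 2) k V, B 0 = ℓ₀ := by
  obtain ⟨y, hy⟩ := exists_linearIndependent_pair_of_one_lt_finrank (R := k) (by omega) h0
  refine ⟨basisOfLinearIndependentOfCardEqFinrank hy (by rw [Fintype.card_fin, h2]), ?_⟩
  rw [coe_basisOfLinearIndependentOfCardEqFinrank]
  rfl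

theorem exists_complement_pair {x_d y_d : k} (h : ¬ (x_d = 0 ∧ y_d = 0)) :
    ∃ x_t y_t : k, ∀ x y : k, ∃ α β : k, x = α * x_d + β * x_t ∧ y = α * y_d + β * y_t := by
  by_cases hx : x_d = 0
  · have hy : y_d ≠ 0 := fun hy => h ⟨hx, hy⟩
    refine ⟨1, 0, fun x y => ⟨y / y_d, x, ?_, ?_⟩⟩
    · rw [hx]; ring
    · field_simp; ring
  · refine ⟨0, 1, fun x y => ⟨x / x_d, y - x / x_d * y_d, ?_, ?_⟩⟩
    · field_simp; ring
    · ring

theorem conj_add_smul {V' : Type} [AddCommGroup V'] [Module k V']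
    (R Rinv M N : Module.End k V') (α : k) :
    R * (M + α • N) * Rinv - (M + α • N) = (R * M * Rinv - M) + α • (R * N * Rinv - N) := by
  rw [mul_add, add_mul, mul_smul_comm, smul_mul_assoc, smul_sub]
  abel

/-- **LOC-SO over a field**: the local tangent bound at `p` for strictly ordinary lifts with
cyclotomic determinant, defect `1`. -/
theorem localBoundAt_so {p : ℕ} [CharP k p] (hp : p.Prime) (hp2 : p ≠ 2)
    (ρbar : ResidualGaloisRep k) (P : ValuationSubring Qb) (hP : P.LiesOverPrime p) :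
    LocalBoundAt ρbar P (fun ρ' => ρ'.DetIsCyclotomic p ∧ ρ'.IsStrictOrdinaryAt p) 1 := by
  classical
  haveI : Fact p.Prime := ⟨hp⟩
  by_cases hex : ∃ (c : GQ → Module.End k ρbar.V) (ρ' : GaloisRepAdic (DualNumber k)),
      IsLiftOf ρbar c ρ' ∧ ρ'.DetIsCyclotomic p ∧ ρ'.IsStrictOrdinaryAt p
  swap
  · refine ⟨⊥, inferInstance, ?_, fun c _ h => ?_⟩
    · rw [finrank_bot]; exact Nat.zero_le _
    · obtain ⟨ρ', hl, hd, hs⟩ := h
      exact (hex ⟨c, ρ', hl, hd, hs⟩).elim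
  obtain ⟨c₀, ρ₀, hl₀, hd₀, hs₀⟩ := hex
  obtain ⟨ℓ₀, ℓ₁, hdata₀⟩ := locSO_struct ρbar p hp hp2 c₀ ρ₀ hl₀ hd₀ hs₀ P hP
  have hdata₀' : IsSOData ρbar p P c₀ ℓ₀ ℓ₁ := hdata₀
  obtain ⟨B, hB0⟩ := exists_basis_zero_eq ρbar.finrank_eq hdata₀'.1
  have hline : IsSOLine ρbar p P (B 0) := by rw [hB0]; exact hdata₀'.isSOLine
  obtain ⟨κ₁, κ₂, -, -, hκ'⟩ := Fermat.Agent.S56.H734.kummerP p hp2 k P hP
  have hκ : ∀ κ : GQ → k,
      (∀ σ ∈ P.decompositionSubgroup ℚ, ∀ τ ∈ P.decompositionSubgroup ℚ, ∀ a : ℕ,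
        IsCycExp p σ a → κ (σ * τ) = κ σ + (a : k) * κ τ) →
      (∃ L : IntermediateField ℚ Qb, FiniteDimensional ℚ L ∧
        ∀ σ τ : GQ, (∀ x ∈ L, τ x = x) → κ (σ * τ) = κ σ) →
      ∃ x y m : k, ∀ σ ∈ P.decompositionSubgroup ℚ, ∀ a : ℕ, IsCycExp p σ a →
        κ σ = x * κ₁ σ + y * κ₂ σ + ((a : k) - 1) * m := by
    rintro κ hc ⟨L, hL, hl⟩
    exact hκ' κ hc ⟨L, hL, fun σ _ τ _ hτ => hl σ τ hτ⟩
  -- every admissible cocycle is cohomologous on `D_P` to `(x κ₁ + y κ₂) • n₀`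
  have key : ∀ c : GQ → Module.End k ρbar.V, IsAdCocycle ρbar c →
      (∃ ρ' : GaloisRepAdic (DualNumber k), IsLiftOf ρbar c ρ' ∧
        ρ'.DetIsCyclotomic p ∧ ρ'.IsStrictOrdinaryAt p) →
      ∃ (x y : k) (M : Module.End k ρbar.V), ∀ σ ∈ P.decompositionSubgroup ℚ,
        c σ - (x * κ₁ σ + y * κ₂ σ) • nil0 B = ρbar.ρ σ * M * ρbar.ρ σ⁻¹ - M := by
    rintro c hc ⟨ρ', hl, hd, hs⟩
    obtain ⟨ℓ₀', ℓ₁', hdata⟩ := locSO_struct ρbar p hp hp2 c ρ' hl hd hs P hP
    have hdata' : IsSOData ρbar p P c ℓ₀' ℓ₁' := hdata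
    obtain ⟨r, hr, hrl⟩ := IsSOLine.unique hp hp2 hP hline hdata'.isSOLine
    have h2 := hdata'.smul (inv_ne_zero hr)
    have e : r⁻¹ • ℓ₀' = B 0 := by rw [hrl, smul_smul, inv_mul_cancel₀ hr, one_smul]
    rw [e] at h2
    exact key_of_data B hp hκ hc h2
  set t₁ : GQ → Module.End k ρbar.V := fun σ => κ₁ σ • nil0 B with ht₁
  set t₂ : GQ → Module.End k ρbar.V := fun σ => κ₂ σ • nil0 B with ht₂
  by_cases hinv : adInv ρbar (P.decompositionSubgroup ℚ) = ⊥
  · -- `H⁰ = 0`: the projector cocycle is a non-trivial relation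
    obtain ⟨x_d, y_d, m_d, hd⟩ := key_of_proj B hp hκ hline
    have h2k : (2 : k) ≠ 0 := by
      intro h
      have h' : ((2 : ℕ) : k) = 0 := by exact_mod_cast h
      have hdvd : p ∣ 2 := (CharP.cast_eq_zero_iff k p 2).mp h'
      exact hp2 ((Nat.prime_dvd_prime_iff_eq hp Nat.prime_two).mp hdvd)
    have hne : ¬ (x_d = 0 ∧ y_d = 0) := by
      rintro ⟨hx, hy⟩
      have hmem : proj0 B - m_d • nil0 B - (2 : k)⁻¹ • (1 : Module.End k ρbar.V) ∈
          adInv ρbar (P.decompositionSubgroup ℚ) := by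
        refine ⟨?_, fun σ hσ => ?_⟩
        · rw [map_sub, map_sub, map_smul, map_smul, trace_proj0, trace_nil0,
            LinearMap.trace_one, ρbar.finrank_eq]
          simp only [smul_eq_mul, mul_zero, sub_zero, Nat.cast_ofNat]
          rw [inv_mul_cancel₀ h2k, sub_self]
        · have h := hd σ hσ
          rw [hx, hy, zero_mul, zero_mul, add_zero, zero_smul] at h
          have h' : ρbar.ρ σ * (proj0 B - m_d • nil0 B) * ρbar.ρ σ⁻¹ =
              proj0 B - m_d • nil0 B := (sub_eq_zero.mp h.symm)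
          rw [mul_sub, sub_mul, h', mul_smul_comm, smul_mul_assoc, mul_one,
            rho_mul_inv' ρbar σ]
      rw [hinv, Submodule.mem_bot] at hmem
      have h0 := congrArg (fun F : Module.End k ρbar.V => B.coord 0 (F (B 0))) hmem
      simp only [LinearMap.sub_apply, LinearMap.smul_apply, proj0_apply, nil0_apply,
        Module.End.one_apply, map_sub, map_smul, coord0_self, coord1_self0, smul_eq_mul,
        mul_one, zero_smul, smul_zero, sub_zero, one_smul, LinearMap.zero_apply,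
        map_zero] at h0
      have : (2 : k)⁻¹ = 1 := (sub_eq_zero.mp h0).symm
      have h21 : (2 : k) = 1 := by
        have := congrArg (fun t => (2 : k) * t) this
        simp only [mul_inv_cancel₀ h2k, mul_one] at this
        exact this.symm
      have h10 : (1 : k) = 0 := by
        have : (2 : k) - 1 = 0 := by rw [h21, sub_self]
        norm_num at this
      exact one_ne_zero h10
    obtain ⟨x_t, y_t, hcomp⟩ := exists_complement_pair hne
    refine ⟨Submodule.span k {x_t • t₁ + y_t • t₂},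
      Module.Finite.span_of_finite k (Set.toFinite _), ?_, fun c hc hex' => ?_⟩
    · rw [hinv, finrank_bot, zero_add]
      exact finrank_span_single_le _
    · obtain ⟨x, y, M, hM⟩ := key c hc hex'
      obtain ⟨α, β, hx, hy⟩ := hcomp x y
      refine ⟨β • (x_t • t₁ + y_t • t₂),
        Submodule.smul_mem _ _ (Submodule.subset_span (Set.mem_singleton _)),
        M + α • (proj0 B - m_d • nil0 B), fun σ hσ => ?_⟩
      rw [conj_add_smul, ← hM σ hσ, ← hd σ hσ]
      show c σ - β • (x_t • κ₁ σ • nil0 B + y_t • κ₂ σ • nil0 B) = _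
      rw [hx, hy]
      module
  · -- `H⁰ ≠ 0`: the Kummer bound suffices
    refine ⟨Submodule.span k {t₁, t₂}, Module.Finite.span_of_finite k (Set.toFinite _), ?_,
      fun c hc hex' => ?_⟩
    · have h1 : 1 ≤ Module.finrank k (adInv ρbar (P.decompositionSubgroup ℚ)) :=
        Submodule.one_le_finrank_iff.mpr hinv
      have h2 := finrank_span_pair_le (k := k) t₁ t₂
      omega
    · obtain ⟨x, y, M, hM⟩ := key c hc hex'
      refine ⟨x • t₁ + y • t₂, ?_, M, fun σ hσ => ?_⟩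
      · exact Submodule.add_mem _
          (Submodule.smul_mem _ _ (Submodule.subset_span (Set.mem_insert _ _)))
          (Submodule.smul_mem _ _ (Submodule.subset_span
            (Set.mem_insert_of_mem _ (Set.mem_singleton _))))
      · rw [← hM σ hσ]
        show c σ - (x • κ₁ σ • nil0 B + y • κ₂ σ • nil0 B) = _
        module

end final

/-- **LOC-SO** (frozen layer-2 leaf `LocOrdPStatement` of `H716/SBSpec.lean`). -/
theorem locOrdP : LocOrdPStatement := by
  intro 𝒪 _ _ _ _ _ p ρbar S Smin hyp P hP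
  have hpk : ((p : ℕ) : ResidueField 𝒪) = 0 := by
    have h := (IsLocalRing.residue_eq_zero_iff (p : 𝒪)).mpr hyp.hp𝒪
    rwa [map_natCast] at h
  haveI : CharP (ResidueField 𝒪) p := (CharP.charP_iff_prime_eq_zero hyp.hp).mpr hpk
  exact localBoundAt_so hyp.hp hyp.hp2 ρbar P hP

end Fermat.Agent.S56.H656

end

end
-- ===== PACK-END S56/H656/LocOrdP.lean

-- ===== PACK-BEGIN S56/FL/ShapeSpec.lean
section


/-!
# Row S56 — W-FLAT-SS, piece RAMCOUNT: FROZEN statements `RLCyc` and `RCShape`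
(sub-architect helper426).  Pure algebra, Mathlib only.  Nothing unproved in this file.

These are the last two inputs of the bridge `FL/CntBridge.lean`
(`RCDepStatement ⇐ H846.FLCntStatement + H846.FLCycStatement + RL* + RLCyc + RCShape`).

* `RCDatum.TameData d τ₀ φ μ` : the conclusion of `RLTameStatement` for given `τ₀ φ μ`
  (tame generator, Frobenius lift, tame character value `μ = θ₀(τ₀)`).
* `RLCycStatement` : the mod-`p` cyclotomic character has exact order `p - 1` on tame inertia: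
  if `τ₀ ^ j • ζ = ζ ^ a` then `a ≡ 1 [MOD p] ↔ p - 1 ∣ j`.
  (Proof: `v_B(ζ - 1) = e / (p - 1) =: s`, `σ(ζ - 1)/(ζ - 1) ≡ a`, and `≡ θ₀(σ) ^ s` for `σ ∈ Γ₀`;
  `e = |Γ₀| = e₀ p ^ r` with `e₀ = ord μ`, so `μ ^ s` has exact order `p - 1`.)
* `RCShapeStatement` : the shape of `ρ` and of `Ad ρ` on trace-zero endomorphisms
  (the supersingular structure theorem, linear algebra + arithmetic of the orders):
  in the eigenbasis `v₁, v₂` of `ρ τ₀ = diag(χ, χ')`, with `ρ φ` antidiagonal,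
  `ℓ₁ z = z₁₁`, `ℓp z = z₁₂`, `ℓm z = z₂₁`, `ψ₀ = χ / χ'`, `m = ord ψ₀`.
  (`χ' = χ ^ p`, `χ = χ' ^ p`, `det ρ τ₀ = χ ^ (p + 1)` of exact order `p - 1` by `hcyc`, so
  `ord χ = (p - 1) m`, `m ∣ p + 1`, `(p + 1) / m` odd.)
-/

set_option autoImplicit false

open Polynomial IsLocalRing

noncomputable section

namespace Fermat.Agent.S56.FL

namespace RCDatum

/-- The conclusion of `RLTameStatement` for given `τ₀ φ μ`. -/
def TameData (d : RCDatum) (τ₀ φ : d.Γ) (μ : ResidueField d.B) : Prop :=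
  τ₀ ∈ ramGroup d.B d.Γ 0 ∧
    (∀ σ ∈ ramGroup d.B d.Γ 0, ∃ j : ℕ, σ * (τ₀ ^ j)⁻¹ ∈ ramGroup d.B d.Γ 1) ∧
    (∀ j : ℕ, τ₀ ^ j ∈ ramGroup d.B d.Γ 1 ↔ μ ^ j = 1) ∧
    (∀ ϖ : d.B, Irreducible ϖ → ∀ u : d.B, τ₀ • ϖ = u * ϖ → residue d.B u = μ) ∧
    (∀ x : d.B, residue d.B (φ • x) = residue d.B x ^ d.p) ∧
    (∀ σ : d.Γ, ∃ j : ℕ, σ * (φ ^ j)⁻¹ ∈ ramGroup d.B d.Γ 0) ∧
    φ * τ₀ * φ⁻¹ * (τ₀ ^ d.p)⁻¹ ∈ ramGroup d.B d.Γ 1

end RCDatum

/-- `RLTameStatement` produces `TameData`. -/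
theorem exists_tameData (h : RLTameStatement) (d : RCDatum) :
    ∃ (τ₀ φ : d.Γ) (μ : ResidueField d.B), d.TameData τ₀ φ μ := by
  obtain ⟨τ₀, hτ₀, φ, μ, h1, h2, h3, h4, h5, h6⟩ := h d
  exact ⟨τ₀, φ, μ, hτ₀, h1, h2, h3, h4, h5, h6⟩

/-- (RL-CYC) the mod-`p` cyclotomic character has exact order `p - 1` on tame inertia. -/
def RLCycStatement : Prop :=
  ∀ d : RCDatum, IsPGroup d.p (ramGroup d.B d.Γ 1) →
    d.e = Nat.card (ramGroup d.B d.Γ 0) →
    ∀ (τ₀ φ : d.Γ) (μ : ResidueField d.B), d.TameData τ₀ φ μ →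
      ∀ j a : ℕ, τ₀ ^ j • d.ζ = d.ζ ^ a → (a ≡ 1 [MOD d.p] ↔ d.p - 1 ∣ j)

/-- (SHAPE) the supersingular structure theorem for `ρ` and `Ad ρ`. -/
def RCShapeStatement : Prop :=
  ∀ d : RCDatum, ¬ d.p ∣ d.ρ.ker.index →
    IsPGroup d.p (ramGroup d.B d.Γ 1) →
    ∀ (τ₀ φ : d.Γ) (μ : ResidueField d.B), d.TameData τ₀ φ μ →
      (∀ j a : ℕ, τ₀ ^ j • d.ζ = d.ζ ^ a → (a ≡ 1 [MOD d.p] ↔ d.p - 1 ∣ j)) →
      ∃ (ℓ₁ ℓp ℓm : Module.End d.k d.V →ₗ[d.k] d.k) (ψ₀ a b : d.k) (m : ℕ),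
        (∀ z : Module.End d.k d.V, LinearMap.trace d.k d.V z = 0 →
          ℓ₁ z = 0 → ℓp z = 0 → ℓm z = 0 → z = 0) ∧
        (∀ z, ℓ₁ (d.ρ τ₀ * z * d.ρ τ₀⁻¹) = ℓ₁ z) ∧
        (∀ z, ℓp (d.ρ τ₀ * z * d.ρ τ₀⁻¹) = ψ₀ * ℓp z) ∧
        (∀ z, ℓm (d.ρ τ₀ * z * d.ρ τ₀⁻¹) = ψ₀⁻¹ * ℓm z) ∧
        (∀ z, LinearMap.trace d.k d.V z = 0 → ℓ₁ (d.ρ φ * z * d.ρ φ⁻¹) = - ℓ₁ z) ∧
        (∀ z, ℓp (d.ρ φ * z * d.ρ φ⁻¹) = a * ℓm z) ∧
        (∀ z, ℓm (d.ρ φ * z * d.ρ φ⁻¹) = b * ℓp z) ∧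
        m ∣ d.p + 1 ∧ Odd ((d.p + 1) / m) ∧
        (∀ j : ℕ, d.ρ (τ₀ ^ j) = 1 ↔ (d.p - 1) * m ∣ j) ∧
        (∀ j : ℕ, ψ₀ ^ j = 1 ↔ m ∣ j) ∧
        Nat.card (ramGroup d.B d.Γ 0) =
          (d.p - 1) * m * Nat.card (d.ρ.ker ⊓ ramGroup d.B d.Γ 0 : Subgroup d.Γ)

end Fermat.Agent.S56.FL

end

end
-- ===== PACK-END S56/FL/ShapeSpec.lean

-- ===== PACK-BEGIN S56/H194/RCTame.lean
section




/-!
# S56 / W-FLAT-SS, leaf RCTame (helper194)

`rcTame_of : RLWildStatement → RLTameStatement → RCTameStatement`: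
for an `RCDatum` the image of `ρ` has order prime to `p` (`p ∤ [Γ : ker ρ]`).

Proof: the abstract structure theorem `SS.Hyp.structure_thm` (`SSAbs.lean`, `SSAd.lean`) for
`D = Γ`, `I = Γ₀`, `W = Γ₁`, Frobenius lift `φ`; its hypotheses are exactly the frozen
ramification lemmas (RL-A) `Γ₁` is a `p`-group and (RL-C) tame generator / Frobenius lift.
Then every `ρ σ` is monomial in a basis, `ρ σ ^ (2 (|k| - 1)) = 1`, and Cauchy.
-/

set_option autoImplicit false

open Polynomial IsLocalRing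

namespace Fermat.Agent.S56.H194

open Fermat.Agent.S56.FL

section Ram

variable {B Γ : Type} [CommRing B] [IsLocalRing B] [Group Γ] [MulSemiringAction Γ B]

theorem smul_mem_maximalIdeal_pow (g : Γ) (n : ℕ) {x : B} (hx : x ∈ maximalIdeal B ^ n) :
    g • x ∈ maximalIdeal B ^ n := by
  have hmap : (maximalIdeal B).map (MulSemiringAction.toRingHom Γ B g) ≤ maximalIdeal B := by
    rw [Ideal.map_le_iff_le_comap]
    intro y hy
    rw [Ideal.mem_comap, mem_maximalIdeal, mem_nonunits_iff] at *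
    intro hu
    apply hy
    have := hu.map (MulSemiringAction.toRingHom Γ B g⁻¹)
    simpa using this
  have h1 : g • x ∈ (maximalIdeal B ^ n).map (MulSemiringAction.toRingHom Γ B g) :=
    Ideal.mem_map_of_mem _ hx
  rw [Ideal.map_pow] at h1
  exact Ideal.pow_right_mono hmap n h1

theorem ramGroup_conj_mem (n : ℕ) (g : Γ) {σ : Γ} (hσ : σ ∈ ramGroup B Γ n) :
    g * σ * g⁻¹ ∈ ramGroup B Γ n := by
  rw [mem_ramGroup] at hσ ⊢
  intro x
  have h := smul_mem_maximalIdeal_pow g (n + 1) (hσ (g⁻¹ • x))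
  rwa [smul_sub, smul_inv_smul, ← mul_smul, ← mul_smul] at h

theorem ramGroup_normal (n : ℕ) : (ramGroup B Γ n).Normal :=
  ⟨fun _ hσ g => ramGroup_conj_mem n g hσ⟩

theorem ramGroup_one_le_zero : ramGroup B Γ 1 ≤ ramGroup B Γ 0 := by
  intro σ hσ
  rw [mem_ramGroup] at hσ ⊢
  intro x
  exact Ideal.pow_le_pow_right (by norm_num) (hσ x)

end Ram

theorem natCast_p_mem_maximalIdeal (d : RCDatum) : (d.p : d.B) ∈ maximalIdeal d.B := by
  have hmax : ((maximalIdeal d.B).comap (algebraMap d.A d.B)).IsMaximal :=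
    Ideal.isMaximal_comap_of_isIntegral_of_isMaximal _
  have heq := IsLocalRing.eq_maximalIdeal hmax
  have hp : (d.p : d.A) ∈ maximalIdeal d.A := by
    rw [d.hA]; exact Ideal.mem_span_singleton_self _
  rw [← heq, Ideal.mem_comap, map_natCast] at hp
  exact hp

theorem charP_residueField (d : RCDatum) : CharP (ResidueField d.B) d.p := by
  have h0 : ((d.p : ℕ) : ResidueField d.B) = 0 := by
    have := (residue_eq_zero_iff _).mpr (natCast_p_mem_maximalIdeal d)
    rwa [map_natCast] at this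
  have hdvd : ringChar (ResidueField d.B) ∣ d.p := (ringChar.spec _ _).mp h0
  rcases (Nat.dvd_prime d.hp).mp hdvd with h1 | hp
  · exact absurd h1 CharP.ringChar_ne_one
  · exact ringChar.of_eq hp

/-- The hypotheses of the abstract (SS) statement hold for an `RCDatum`, given the frozen
ramification lemmas (RL-A) and (RL-C). -/
theorem exists_hyp_of (hW : RLWildStatement) (hT : RLTameStatement) (d : RCDatum) :
    ∃ φ : d.Γ, SS.Hyp d.p d.ρ ⊤ (ramGroup d.B d.Γ 0) (ramGroup d.B d.Γ 1) φ := by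
  obtain ⟨τ₀, hτ₀, φ, μ, hgen₀, hμ, hu, -, hgenφ, hfrob⟩ := hT d
  have : Fact d.p.Prime := ⟨d.hp⟩
  have := charP_residueField d
  have hnorm : (ramGroup d.B d.Γ 1).Normal := ramGroup_normal 1
  set W := ramGroup d.B d.Γ 1 with hWdef
  set I := ramGroup d.B d.Γ 0 with hIdef
  -- the quotient map
  let q : d.Γ →* d.Γ ⧸ W := QuotientGroup.mk' W
  have hq1 : ∀ σ : d.Γ, q σ = 1 ↔ σ ∈ W := fun σ => QuotientGroup.eq_one_iff σ
  have hqI : ∀ σ ∈ I, ∃ j : ℕ, q σ = q τ₀ ^ j := by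
    intro σ hσ
    obtain ⟨j, hj⟩ := hgen₀ σ hσ
    refine ⟨j, ?_⟩
    have := (hq1 _).mpr hj
    rw [map_mul, map_inv, map_pow, mul_inv_eq_one] at this
    exact this
  -- a prime-to-`p` exponent killing the tame quotient
  have hN : ∃ N : ℕ, ¬ d.p ∣ N ∧ q τ₀ ^ N = 1 := by
    have hord : orderOf τ₀ ≠ 0 := (orderOf_pos τ₀).ne'
    obtain ⟨a, N, hpN, hN⟩ := Nat.exists_eq_pow_mul_and_not_dvd hord d.p d.hp.ne_one
    refine ⟨N, hpN, ?_⟩
    have h1 : μ ^ orderOf τ₀ = 1 := by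
      rw [← hμ, pow_orderOf_eq_one]
      exact one_mem _
    rw [hN, ExpChar.pow_prime_pow_mul_eq_one_iff] at h1
    rw [← map_pow, hq1]
    exact (hμ N).mpr h1
  obtain ⟨N, hpN, hN⟩ := hN
  refine ⟨φ, ?_⟩
  refine
    { finrank_eq := d.hV
      I_le := le_top
      W_le := ramGroup_one_le_zero
      I_norm := fun g _ τ hτ => ramGroup_conj_mem 0 g hτ
      W_norm := fun g _ w hw => ramGroup_conj_mem 1 g hw
      W_pow := ?_
      comm := ?_
      tame := ?_
      phi_mem := Subgroup.mem_top φ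
      gen := ?_
      frob := ?_
      split := d.hsplit
      irr := fun U hU => d.hirr U (fun σ x hx => hU σ (Subgroup.mem_top σ) x hx) }
  · -- `W` is a `p`-group
    intro w hw
    obtain ⟨a, ha⟩ := hW d ⟨w, hw⟩
    refine ⟨a, ?_⟩
    have : w ^ d.p ^ a = 1 := by
      have := congrArg Subtype.val ha
      simpa using this
    rw [← map_pow, this, map_one]
  · -- commutators of inertia elements are wild
    intro σ hσ τ hτ
    obtain ⟨i, hi⟩ := hqI σ hσ
    obtain ⟨j, hj⟩ := hqI τ hτ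
    refine ⟨σ * τ * σ⁻¹ * τ⁻¹, ?_, rfl⟩
    rw [← hq1, map_mul, map_mul, map_mul, map_inv, map_inv, hi, hj]
    rw [mul_inv_eq_one, mul_inv_eq_iff_eq_mul, ← pow_add, ← pow_add, add_comm]
  · -- tameness
    intro τ hτ
    obtain ⟨j, hj⟩ := hqI τ hτ
    refine ⟨N, hpN, τ ^ N, ?_, rfl⟩
    rw [← hq1, map_pow, hj, ← pow_mul, mul_comm, pow_mul, hN, one_pow]
  · -- generation by Frobenius and inertia
    intro σ _
    obtain ⟨j, hj⟩ := hgenφ σ
    refine ⟨j, (φ ^ j)⁻¹ * (σ * (φ ^ j)⁻¹) * φ ^ j, ?_, ?_⟩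
    · have := ramGroup_conj_mem 0 (φ ^ j)⁻¹ hj
      rwa [inv_inv] at this
    · congr 1
      group
  · -- the Frobenius relation
    intro τ hτ
    obtain ⟨j, hj⟩ := hqI τ hτ
    have hφτ₀ : q φ * q τ₀ * (q φ)⁻¹ = q τ₀ ^ d.p := by
      have := (hq1 _).mpr hfrob
      rw [map_mul, map_mul, map_mul, map_inv, map_inv, map_pow, mul_inv_eq_one] at this
      exact this
    have hmem : (τ ^ d.p)⁻¹ * (φ * τ * φ⁻¹) ∈ W := by
      rw [← hq1, map_mul, map_inv, map_pow, map_mul, map_mul, map_inv, hj, inv_mul_eq_one,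
        ← conj_pow, hφτ₀, ← pow_mul, ← pow_mul, mul_comm]
    refine ⟨_, hmem, ?_⟩
    congr 1
    group

/-- **RCTame** from the frozen ramification lemmas (RL-A) and (RL-C). -/
theorem rcTame_of (hW : RLWildStatement) (hT : RLTameStatement) : RCTameStatement := by
  intro d
  obtain ⟨φ, hyp⟩ := exists_hyp_of hW hT d
  have : Fact d.p.Prime := ⟨d.hp⟩
  have := d.hchar
  obtain ⟨N, hpN, hN⟩ := hyp.exists_exponent d.hp2
  have hne := IR.natCast_card_quotient_ne_zero (k := d.k) d.p d.ρ.ker N hpN (fun σ => by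
    rw [MonoidHom.mem_ker, map_pow]
    exact hN σ (Subgroup.mem_top σ))
  intro hdvd
  apply hne
  rw [← Subgroup.index_eq_card]
  exact (CharP.cast_eq_zero_iff d.k d.p _).mpr hdvd

end Fermat.Agent.S56.H194

end
-- ===== PACK-END S56/H194/RCTame.lean

-- ===== PACK-BEGIN S56/H102/RLQuotFormula.lean
section



/-!
# S56 / W-FLAT-SS, FL-RAM: `FL.RLQuotFormulaStatement` VERBATIM (helper102)

Adapter from `H334.quot_formula` (Serre, Local Fields IV §1 Prop. 3; same statement as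
`H102.quot_formula_finsum`) to the frozen shape of `FL/RamLemSpec.lean`:
`i_Γ(τ) = #{n | τ ∈ Γ_n}` and `i_{Γ/N}(σ N) = #{n | σ ∈ qRam d N n}`.
-/

set_option autoImplicit false
set_option linter.unusedSectionVars false
set_option linter.style.haveILetI false

open IsLocalRing

namespace Fermat.Agent.S56.H102.RLQF

open Fermat.Agent.S56.H334 Fermat.Agent.S56.FL

/-- `#{n | n < k} = k`. -/
theorem card_setOf_lt (k : ℕ) : Nat.card {n : ℕ | n < k} = k := by
  have h : {n : ℕ | n < k} = Set.Iio k := rfl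
  rw [h, Nat.card_eq_card_toFinset]
  simp

section General

variable {B : Type*} [CommRing B] [IsDomain B] [IsDiscreteValuationRing B]
variable {Γ : Type*} [Group Γ] [MulSemiringAction Γ B]

/-- `i_Γ(σ) = #{n | σ ∈ Γ_n}` for `σ ≠ 1`. -/
theorem card_setOf_mem_ramGroup [FaithfulSMul Γ B] {σ : Γ} (hσ : σ ≠ 1) :
    Nat.card {n : ℕ | σ ∈ H334.ramGroup Γ B n} = lowIdx Γ B σ := by
  have h : {n : ℕ | σ ∈ H334.ramGroup Γ B n} = {n : ℕ | n < lowIdx Γ B σ} := by
    ext n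
    exact mem_ramGroup_iff_lt_lowIdx hσ n
  rw [h, card_setOf_lt]

end General

section Datum

variable (A B Γ : Type*) [CommRing A] [IsDomain A] [IsDiscreteValuationRing A]
  [CommRing B] [IsDomain B] [IsDiscreteValuationRing B] [Algebra A B] [Module.Finite A B]
  [FaithfulSMul A B] [Group Γ] [Finite Γ] [MulSemiringAction Γ B] [SMulCommClass Γ A B]
  [Algebra.IsInvariant A B Γ] [FaithfulSMul Γ B]
  (N : Subgroup Γ) [N.Normal] [Finite (ResidueField A)]

/-- The ramification groups of `Γ ⧸ N` acting on `B^N`, described inside `B`. -/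
theorem mem_quotRamGroup_iff_forall (hN : N ≤ H334.ramGroup Γ B 0) (n : ℕ) (σ : Γ) :
    σ ∈ quotRamGroup A B Γ N n ↔
      ∀ x : B, (∀ ν ∈ N, ν • x = x) → σ • x - x ∈ maximalIdeal B ^ (Nat.card N * (n + 1)) := by
  haveI := isDiscreteValuationRing_fixedPoints A B N
  haveI := isLocalHom_fixedPoints A B Γ N
  have he := map_maximalIdeal_fixedPoints A B Γ N hN
  rw [mem_quotRamGroup_iff]
  constructor
  · intro h x hx
    have hxS : x ∈ FixedPoints.subalgebra A B N := fun ν => hx ν.1 ν.2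
    have h1 : (σ : Γ ⧸ N) • (⟨x, hxS⟩ : FixedPoints.subalgebra A B N) - ⟨x, hxS⟩ ∈
        maximalIdeal (FixedPoints.subalgebra A B N) ^ (n + 1) := h ⟨x, hxS⟩
    rw [mem_maximalIdeal_pow_iff_of_map_eq he] at h1
    exact h1
  · intro h x
    show (σ : Γ ⧸ N) • x - x ∈ maximalIdeal (FixedPoints.subalgebra A B N) ^ (n + 1)
    rw [mem_maximalIdeal_pow_iff_of_map_eq he]
    exact h (x : B) fun ν hν => x.2 ⟨ν, hν⟩

/-- `i_{Γ/N}(σ N) = #{n | σ ∈ F N n}` for `σ ∉ N`. -/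
theorem card_setOf_mem_quotRamGroup {σ : Γ} (hσ : σ ∉ N) :
    Nat.card {n : ℕ | σ ∈ quotRamGroup A B Γ N n} = quotLowIdx A B Γ N σ := by
  have h : {n : ℕ | σ ∈ quotRamGroup A B Γ N n} = {n : ℕ | n < quotLowIdx A B Γ N σ} := by
    ext n
    show σ ∈ quotRamGroup A B Γ N n ↔ n < quotLowIdx A B Γ N σ
    rw [mem_quotRamGroup_iff_lowIdx]
    constructor
    · rintro (h | h)
      · exact absurd h hσ
      · exact h
    · intro h
      exact Or.inr h
  rw [h, card_setOf_lt]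

end Datum

/-- **RL-QF**, verbatim. -/
theorem rlQuotFormula : RLQuotFormulaStatement := by
  intro d N hN σ hσ
  haveI : N.Normal := hN.1
  haveI : Finite (ResidueField d.A) := by
    apply Nat.finite_of_card_ne_zero
    rw [d.hκ]
    exact d.hp.ne_zero
  have hN0 : N ≤ H334.ramGroup d.Γ d.B 0 := fun ν hν =>
    H334.ramGroup_antitone (Nat.zero_le 1) (hN.2 hν)
  have key := H334.quot_formula d.A d.B d.Γ N hN0 hσ
  have h1 : ∀ w : d.Γ, w ∈ N →
      Nat.card {n : ℕ | σ * w ∈ FL.ramGroup d.B d.Γ n} = lowIdx d.Γ d.B (σ * w) := by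
    intro w hw
    have hne : σ * w ≠ 1 := by
      intro h
      apply hσ
      have : σ = w⁻¹ := eq_inv_of_mul_eq_one_left h
      rw [this]
      exact N.inv_mem hw
    exact card_setOf_mem_ramGroup hne
  have h2 : Nat.card {n : ℕ | σ ∈ d.qRam N n} = quotLowIdx d.A d.B d.Γ N σ := by
    have hset : {n : ℕ | σ ∈ d.qRam N n} = {n : ℕ | σ ∈ quotRamGroup d.A d.B d.Γ N n} := by
      ext n
      exact (_root_.Fermat.Agent.S56.H102.RLQF.mem_quotRamGroup_iff_forall d.A d.B d.Γ N hN0 n σ).symm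
    rw [hset, card_setOf_mem_quotRamGroup d.A d.B d.Γ N hσ]
  rw [h2, ← key]
  exact finsum_congr fun w => finsum_congr fun hw => h1 w hw

end Fermat.Agent.S56.H102.RLQF

end
-- ===== PACK-END S56/H102/RLQuotFormula.lean

-- ===== PACK-BEGIN S55/G/Rec/SCH174/Main.lean
section







/-!
# S55 / G / REC, leaf SC (helper174) : STEP C, `KillAbovePSpec`

`killAboveP_core` : for `p` odd, from the leaf specs K1, K2, L2, L3, L4, L6, G3 and STEP A,
every `x ∈ Br(K)(p)` differs from a cup class `y = a ∪ δχ_r` with vanishing sum of invariants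
by a class which is locally trivial at all places above `p`.
-/

set_option autoImplicit false
set_option linter.style.haveILetI false
set_option linter.unusedSectionVars false

noncomputable section

namespace Fermat.Agent.S55.G.Rec.H174

open groupCohomology Fermat.Agent.S55.G.Rec

local notation "Qb" => AlgebraicClosure ℚ
local notation "GQ" => (AlgebraicClosure ℚ ≃ₐ[ℚ] AlgebraicClosure ℚ)

/-- **STEP C.** -/
theorem killAboveP_core (I : LocalInvSystem) (p : ℕ) [Fact p.Prime] (hp2 : p ≠ 2)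
    (hK1 : CupLocSpec) (hK2 : CupAddSpec) (hL2 : LocalStructureSpec) (hL3 : UnramCupSpec I)
    (hL4 : CycloFrobSpec) (hL6 : LocalRootSpec) (hG3 : WeakApproxSpec) (hSA : CycloSumSpec I) :
    KillAbovePSpec I p := by
  intro U hU x hx
  obtain ⟨k, hk⟩ := hx
  have hp : p.Prime := Fact.out
  -- places above `p`
  obtain ⟨Rp, hRp⟩ := exists_placeReps hU p
  -- local structure at every `g`
  have hopen : ∀ g : GQ, IsOpenL p (locSub p g U) := fun g => H181.isOpenL_locSub p g hU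
  choose f φ π hf hφmem hφ hπ hvπ hdec using fun g : GQ => hL2 p (locSub p g U) (hopen g)
  -- the auxiliary prime `r`
  obtain ⟨r, hr, hrp, hord, hdvd⟩ := H897.exists_prime_orderOf_eq_prime_pow' p hp
    (k + Rp.sup (fun g => padicValNat p (f g)) + 1) (by omega)
  haveI : Fact r.Prime := ⟨hr⟩
  have hpr : p ≠ r := hrp.symm
  have hNpos : 1 ≤ k + Rp.sup (fun g => padicValNat p (f g)) + 1 := by omega
  have hr2 : r ≠ 2 := by
    have h1 : p ^ (k + Rp.sup (fun g => padicValNat p (f g)) + 1) ≤ r - 1 :=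
      Nat.le_of_dvd (by have := hr.two_le; omega) hdvd
    have h2 : p ^ 1 ≤ p ^ (k + Rp.sup (fun g => padicValNat p (f g)) + 1) :=
      Nat.pow_le_pow_right hp.pos hNpos
    have h3 := hp.two_le
    rw [pow_one] at h2
    omega
  have hprdvd : ¬ p ∣ r := fun h => hpr ((Nat.prime_dvd_prime_iff_eq hp hr).1 h)
  -- the character
  have hn0 : ppart p r ≠ 0 := ppart_ne_zero p r
  have hχlc : IsLevelConstant₁ U.subtype (chiU p r U) := isLevelConstant₁_chiU p r U
  have hχcyc : IsCycloChar U (r ^ 1) (chiU p r U) := isCycloChar_chiU p r U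
  have hrn : ¬ r ∣ ppart p r := by
    intro h
    exact hpr ((Nat.prime_dvd_prime_iff_eq hr hp).1 (hr.dvd_of_dvd_pow h)).symm
  have hodd : Odd (ppart p r) := (hp.odd_of_ne_two hp2).pow
  -- Frobenius elements
  have hFrob : ∀ g : GQ, chiAdd (chiU p r U) (locHom p g U ⟨φ g, hφmem g⟩) =
      f g • tzero p r hpr := by
    intro g
    have hact := (hL4 p r hprdvd).2 (φ g) (f g) (hφ g)
    exact chiAdd_chiQ_of_acts p r hpr (acts_conj_loc p r (p ^ f g) g (φ g) hact)
  -- the local invariants of `x` above `p` are killed by `p ^ k`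
  have hξ : ∀ g : GQ, p ^ k • I.inv p (locSub p g U) (locBr p g U x) = 0 := by
    intro g
    rw [← map_nsmul, ← map_nsmul, hk, map_zero, map_zero]
  -- solving for the valuations
  have hsolve : ∀ g ∈ Rp, ∃ j : ℤ,
      ((((j : ℚ) * ((chiAdd (chiU p r U) (locHom p g U ⟨φ g, hφmem g⟩)).val : ℚ) /
        (ppart p r : ℚ) : ℚ)) : AddCircle (1 : ℚ)) = I.inv p (locSub p g U) (locBr p g U x) := by
    intro g hg
    have hle : padicValNat p (f g) ≤ Rp.sup (fun g => padicValNat p (f g)) :=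
      Finset.le_sup (f := fun g => padicValNat p (f g)) hg
    obtain ⟨b, hkb, hb⟩ := addOrderOf_nsmul_prime_pow (k := k) hp
      (addOrderOf_tzero p r hpr hord) (hf g).1.ne' (by omega)
    rw [hFrob g]
    exact exists_int_mul_val_div_eq (ppart p r) hp _ hb hkb (hξ g)
  choose! j hj using hsolve
  -- weak approximation
  obtain ⟨a, ha, hap, har⟩ := hG3 U hU p r hpr Rp hRp j
  refine ⟨gcc U (ppart p r) (chiU p r U) a, ⟨expM p r, ?_⟩, ?_, ?_⟩
  · -- `y` is killed by `p ^ M`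
    exact gcc_nsmul_eq_zero hK2 U (ppart p r) hn0 (chiU p r U) hχlc a ha
  · -- local triviality of `x - y` above `p`
    intro g'
    obtain ⟨r₀, ⟨hr₀, hrep⟩, -⟩ := hRp g'
    refine locBr_eq_zero_of_doubleCoset p hU hrep _ ?_
    apply I.inv_injective p (locSub p r₀ U) (hopen r₀)
    rw [map_zero, map_sub, map_sub, sub_eq_zero, ← hj r₀ hr₀]
    obtain ⟨⟨hlc', hfix'⟩, heq⟩ := hK1 p r₀ U (ppart p r) (chiU p r U) a hn0 hχlc ha
    rw [heq]
    -- the localised character is unramified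
    have hunr : ∀ τ : ↥(locSub p r₀ U),
        IsInertial p (τ : PadicAlgCl p ≃ₐ[ℚ_[p]] PadicAlgCl p) →
        (chiU p r U).comp (locHom p r₀ U) τ = 1 := by
      intro τ hτ
      have hfixμ := (hL4 p r hprdvd).1 (τ : PadicAlgCl p ≃ₐ[ℚ_[p]] PadicAlgCl p) hτ
      show chiQ p r (r₀ * localGaloisToGlobal p τ * r₀⁻¹) = 1
      apply chiQ_eq_one_of_fixes
      intro ζ hζ
      have := acts_conj_loc p r 1 r₀ (τ : PadicAlgCl p ≃ₐ[ℚ_[p]] PadicAlgCl p)
        (fun ζ' hζ' => by rw [hfixμ ζ' hζ', pow_one]) ζ hζ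
      rwa [pow_one] at this
    -- the valuation of `a` at the place `r₀`
    obtain ⟨π', u', hπ', hu', hdec'⟩ := hap r₀ hr₀
    obtain ⟨k', u, hufix, hu, hdecL, hvdeg⟩ := hdec r₀ (locPushMul p r₀ a) hfix'
    have hkj : k' = j r₀ := zpow_exponent_unique p (hπ r₀) hπ' hu hu' (hdecL.symm.trans hdec')
    rw [hkj] at hvdeg
    have hinv := hL3 p (locSub p r₀ U) (hopen r₀) (ppart p r)
      ((chiU p r U).comp (locHom p r₀ U)) hlc' hunr (f r₀) (hf r₀) ⟨φ r₀, hφmem r₀⟩ (hφ r₀)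
      (locPushMul p r₀ a) hfix' (j r₀) hvdeg
    rw [hinv]
    rfl
  · -- the sum of the invariants of `y` vanishes
    intro R hR
    refine hSA U hU r hr2 1 one_pos (ppart p r) hodd (chiU p r U) hχlc hχcyc a ha ?_ R hR
    intro g
    obtain ⟨⟨hlc', hfix'⟩, heq⟩ := hK1 r g U (ppart p r) (chiU p r U) a hn0 hχlc ha
    rw [heq]
    obtain ⟨b, hb, hba⟩ := hL6 r (locSub r g U) (ppart p r) hrn (locPushMul r g a) hfix' (har g)
    rw [← hba]
    exact lcc_pow_self_eq_zero r hK2 _ _ hn0 _ hlc' b hb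

end Fermat.Agent.S55.G.Rec.H174

end
end
-- ===== PACK-END S55/G/Rec/SCH174/Main.lean

-- ===== PACK-BEGIN S55/G/Rec/HP/SylH841.lean
section



/-!
# S55 / layer G / block REC / adapter HP : leaf HP-SYL (helper841, subtask 484)

`hasseFin_of : HasseFinPSpec p → HasseFinSpec p` (`p` prime): the finite-level Hasse principle
for `p`-primary classes follows from the case of `p`-groups, by restriction to a Sylow
`p`-subgroup `P ≤ Γ` (`[Γ : P] • x = 0` if `res_P x = 0`, layer T `ResIndexSpec`), since the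
localisation maps commute with restriction.
-/

set_option autoImplicit false
set_option linter.unusedSectionVars false

noncomputable section

namespace Fermat.Agent.S55.G.Rec.HP.H841

open groupCohomology CategoryTheory

section Square

variable (S : Finset Nat.Primes) {Γ : Type} (L : Type) [Group Γ] [Field L] [CharZero L]
  [MulSemiringAction Γ L] (P : Subgroup Γ)

/-- The restriction of `Lˣ` to a subgroup `P ≤ Γ` is `Lˣ` with its `P`-action. -/
lemma res_LRep : Rep.res P.subtype (G.LRep Γ L) = G.LRep ↥P L := rfl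

/-- The decomposition group of `𝔪` in `P` sits inside the decomposition group in `Γ`. -/
def decompIncl (𝔪 : G.SPlace S L) : ↥(G.decomp S ↥P 𝔪) →* ↥(G.decomp S Γ 𝔪) where
  toFun g := ⟨((g : ↥P) : Γ), g.2⟩
  map_one' := rfl
  map_mul' _ _ := rfl

@[simp] lemma decompIncl_coe (𝔪 : G.SPlace S L) (g : ↥(G.decomp S ↥P 𝔪)) :
    ((decompIncl S L P 𝔪 g : ↥(G.decomp S Γ 𝔪)) : Γ) = ((g : ↥P) : Γ) := rfl

/-- The local module of `P` at `𝔪` is the restriction of the local module of `Γ`. -/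
lemma res_LocRep (𝔪 : G.SPlace S L) :
    Rep.res (decompIncl S L P 𝔪) (G.LocRep S Γ 𝔪) = G.LocRep S ↥P 𝔪 := rfl

/-- The restriction map on the local cohomology groups. -/
def locRes (𝔪 : G.SPlace S L) (n : ℕ) :
    groupCohomology (G.LocRep S Γ 𝔪) n ⟶ groupCohomology (G.LocRep S ↥P 𝔪) n :=
  groupCohomology.map (decompIncl S L P 𝔪)
    (𝟙 (Rep.res (decompIncl S L P 𝔪) (G.LocRep S Γ 𝔪))) n

/-- The global restriction map `Hⁿ(Γ, Lˣ) ⟶ Hⁿ(P, Lˣ)`. -/
def globRes (n : ℕ) : groupCohomology (G.LRep Γ L) n ⟶ groupCohomology (G.LRep ↥P L) n :=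
  groupCohomology.map P.subtype (𝟙 (Rep.res P.subtype (G.LRep Γ L))) n

lemma globRes_eq_resMap (n : ℕ) :
    globRes L P n = Fermat.Agent.S55.T.resMap (G.LRep Γ L) P n := rfl

/-- **Localisation commutes with restriction to a subgroup.** -/
theorem globRes_locMapL (𝔪 : G.SPlace S L) (n : ℕ) :
    globRes L P n ≫ G.locMapL S ↥P 𝔪 n = G.locMapL S Γ 𝔪 n ≫ locRes S L P 𝔪 n := by
  have h1 := groupCohomology.map_comp (A := G.LRep Γ L) (B := G.LRep ↥P L)
    (C := G.LocRep S ↥P 𝔪) P.subtype (G.decomp S ↥P 𝔪).subtype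
    (𝟙 (Rep.res P.subtype (G.LRep Γ L))) (G.lToLocRepHom S ↥P 𝔪) n
  have h2 := groupCohomology.map_comp (A := G.LRep Γ L) (B := G.LocRep S Γ 𝔪)
    (C := G.LocRep S ↥P 𝔪) (G.decomp S Γ 𝔪).subtype (decompIncl S L P 𝔪)
    (G.lToLocRepHom S Γ 𝔪) (𝟙 (Rep.res (decompIncl S L P 𝔪) (G.LocRep S Γ 𝔪))) n
  exact h1.symm.trans ((groupCohomology.map_congr rfl rfl n).trans h2)

end Square

/-- **HP-SYL**: the finite-level Hasse principle for `p`-groups implies the finite-level Hasse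
principle for classes of `p`-power order of arbitrary finite groups. -/
theorem hasseFin_of (p : ℕ) [hp : Fact p.Prime] (hP : HasseFinPSpec p) : HasseFinSpec p := by
  intro Γ L _ _ _ _ _ _ hζ x hx hloc
  obtain ⟨k, hk⟩ := hx
  classical
  obtain ⟨P⟩ : Nonempty (Sylow p Γ) := inferInstance
  have h0 : (globRes L (P : Subgroup Γ) 2).hom x = 0 := by
    refine hP ↥(P : Subgroup Γ) L P.isPGroup' hζ _ ?_
    intro S 𝔪
    have h := ConcreteCategory.congr_hom (globRes_locMapL S L (P : Subgroup Γ) 𝔪 2) x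
    rw [ConcreteCategory.comp_apply, ConcreteCategory.comp_apply] at h
    rw [h, hloc S 𝔪, map_zero]
  have h1 : (P : Subgroup Γ).index • x = 0 :=
    Fermat.Agent.S55.T.H572.resIndex ℤ Γ (G.LRep Γ L) (P : Subgroup Γ) 2 (by norm_num) x h0
  have hcop : Nat.Coprime (P : Subgroup Γ).index (p ^ k) :=
    Nat.Coprime.pow_right k ((Nat.Prime.coprime_iff_not_dvd hp.out).2 P.not_dvd_index).symm
  have h3 : addOrderOf x ∣ 1 := by
    rw [← Nat.Coprime.gcd_eq_one hcop]
    exact Nat.dvd_gcd (addOrderOf_dvd_of_nsmul_eq_zero h1) (addOrderOf_dvd_of_nsmul_eq_zero hk)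
  exact AddMonoid.addOrderOf_eq_one_iff.1 (Nat.dvd_one.1 h3)

end Fermat.Agent.S55.G.Rec.HP.H841


end
end
-- ===== PACK-END S55/G/Rec/HP/SylH841.lean

-- ===== PACK-BEGIN S55/G/SeqH604.lean
section
/-
S55, layer G, leaf G-SES part (d) (helper604), on top of helper421's `G/Defs.lean`.

The two short exact sequences of `Rep ℤ G` used for the Herbrand quotient of `C_S(L)`:

* `0 → E_S(L) → J_S(L) → C'_S(L) → 0`      (`ejcShortComplex`,  `C'_S = J_S / E_S`),
* `0 → C'_S(L) → C_S(L) → Cl_S(L) → 0`     (`cclShortComplex`), with `Cl_S(L)` FINITE.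
-/



set_option autoImplicit false
set_option linter.unusedSectionVars false

open scoped NumberField TensorProduct
open IsDedekindDomain CategoryTheory

noncomputable section

namespace Fermat.Agent.S55.G.SeqH604

open Fermat.Agent.S55.G Fermat.Agent.S55.G.SesH604 Fermat.Agent.S55.G.ClsH604

variable (S : Finset Nat.Primes) (G L : Type) [Group G] [Field L] [NumberField L]
  [MulSemiringAction G L]

/-! ## 1. `E_S → J_S → C'_S` -/

/-- The map `E_S(L) → J_S(L)`, `e ↦ e ⊗ 1`, as a linear map. -/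
def eToJ : sUnit S L →ₗ[ℤ] Additive (AS S L)ˣ :=
  (unitsDiag S L).toIntLinearMap ∘ₗ (sUnit S L).subtype

@[simp] lemma eToJ_apply (e : sUnit S L) : eToJ S L e = unitsDiag S L e.1 := rfl

lemma eToJ_equivariant (g : G) (e : sUnit S L) :
    eToJ S L (eRepr S G L g e) = jRepr G S L g (eToJ S L e) :=
  unitsDiag_equivariant G S L g e.1

lemma eToJ_injective (hS : S.Nonempty) : Function.Injective (eToJ S L) := by
  intro x y hxy
  exact Subtype.ext (unitsDiag_injective S L hS hxy)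

/-- The image of the `S`-units in the `S`-idèles. -/
def eImage : Submodule ℤ (Additive (AS S L)ˣ) := LinearMap.range (eToJ S L)

lemma eImage_stable (g : G) : eImage S L ≤ (eImage S L).comap (jRepr G S L g) := by
  rintro _ ⟨e, rfl⟩
  exact ⟨eRepr S G L g e, eToJ_equivariant S G L g e⟩

/-- The representation of `G` on `C'_S(L) = J_S(L) / E_S(L)`. -/
def cPrimeRepr : Representation ℤ G (Additive (AS S L)ˣ ⧸ eImage S L) :=
  (jRepr G S L).quotient (eImage S L) (eImage_stable S G L)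

/-- `C'_S(L) = J_S(L) / E_S(L)` as an object of `Rep ℤ G`. -/
def CPrimeRep : Rep ℤ G := Rep.of (cPrimeRepr S G L)

/-- `E_S(L) ⟶ J_S(L)` in `Rep ℤ G`. -/
def eToJRepHom : ERep S G L ⟶ JRep G S L :=
  Rep.ofHom ⟨eToJ S L, fun g => LinearMap.ext fun e => eToJ_equivariant S G L g e⟩

/-- `J_S(L) ⟶ C'_S(L)` in `Rep ℤ G`. -/
def jToCPrimeRepHom : JRep G S L ⟶ CPrimeRep S G L :=
  Rep.ofHom ⟨(eImage S L).mkQ, fun _ => LinearMap.ext fun _ => rfl⟩

/-- The short complex `E_S(L) ⟶ J_S(L) ⟶ C'_S(L)`. -/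
def ejcShortComplex : ShortComplex (Rep ℤ G) :=
  ShortComplex.mk (eToJRepHom S G L) (jToCPrimeRepHom S G L) (by
    ext x
    exact (Submodule.Quotient.mk_eq_zero _).2 ⟨x, rfl⟩)

/-- **G-SES (d1).** `0 → E_S(L) → J_S(L) → C'_S(L) → 0` is short exact when `S ≠ ∅`. -/
theorem ejcShortComplex_shortExact (hS : S.Nonempty) : (ejcShortComplex S G L).ShortExact := by
  refine Fermat.Agent.S55.H295.rep_shortExact_of (k := ℤ) (ejcShortComplex S G L) ?_ ?_ ?_
  · intro x y hxy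
    exact eToJ_injective S L hS hxy
  · intro x hx
    have hx' : x ∈ eImage S L := (Submodule.Quotient.mk_eq_zero _).1 hx
    obtain ⟨y, hy⟩ := hx'
    exact ⟨y, hy⟩
  · exact Submodule.mkQ_surjective _

/-! ## 2. `C'_S → C_S → Cl_S` -/

/-- The linear map `J_S(L) → C_S(L)`. -/
def jToC : Additive (AS S L)ˣ →ₗ[ℤ] CS S L :=
  (principal S L).mkQ ∘ₗ LinearMap.inl ℤ (Additive (AS S L)ˣ) (PrimeOut S L →₀ ℤ)

lemma range_jToC : LinearMap.range (jToC S L) = jImage S L := rfl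

lemma jToC_apply (j : Additive (AS S L)ˣ) :
    jToC S L j = Submodule.Quotient.mk ((j, 0) : JD S L) := rfl

/-- `(j, 0)` is principal iff `j` comes from an `S`-unit. -/
lemma jToC_eq_zero_iff (j : Additive (AS S L)ˣ) : jToC S L j = 0 ↔ j ∈ eImage S L := by
  rw [jToC_apply, Submodule.Quotient.mk_eq_zero]
  constructor
  · rintro ⟨x, hx⟩
    have h1 : unitsDiag S L x = j := congrArg Prod.fst hx
    have h2 : ordHom S L x = 0 := congrArg Prod.snd hx
    exact ⟨⟨x, h2⟩, h1⟩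
  · rintro ⟨e, rfl⟩
    refine ⟨e.1, Prod.ext rfl ?_⟩
    exact e.2

lemma ker_jToC : LinearMap.ker (jToC S L) = eImage S L := by
  ext j
  exact jToC_eq_zero_iff S L j

/-- The linear map `C'_S(L) → C_S(L)`. -/
def cPrimeToC : (Additive (AS S L)ˣ ⧸ eImage S L) →ₗ[ℤ] CS S L :=
  (eImage S L).liftQ (jToC S L) (ker_jToC S L).ge

@[simp] lemma cPrimeToC_mk (j : Additive (AS S L)ˣ) :
    cPrimeToC S L (Submodule.Quotient.mk j) = jToC S L j := rfl

lemma cPrimeToC_injective : Function.Injective (cPrimeToC S L) := by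
  rw [← LinearMap.ker_eq_bot, cPrimeToC, Submodule.ker_liftQ_eq_bot _ _ _ (ker_jToC S L).le]

lemma range_cPrimeToC : LinearMap.range (cPrimeToC S L) = jImage S L := by
  rw [cPrimeToC, Submodule.range_liftQ, range_jToC]

lemma jToC_equivariant (g : G) (j : Additive (AS S L)ˣ) :
    jToC S L (jRepr G S L g j) = cRepr S G L g (jToC S L j) := by
  rw [jToC_apply, jToC_apply]
  change _ = Submodule.Quotient.mk (jdRepr S G L g ((j, 0) : JD S L))
  have h : jdRepr S G L g ((j, 0) : JD S L) = ((jRepr G S L g j, 0) : JD S L) := by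
    refine Prod.ext rfl ?_
    simp [jdRepr, Representation.prod]
  rw [h]

lemma cPrimeToC_equivariant (g : G) (c : Additive (AS S L)ˣ ⧸ eImage S L) :
    cPrimeToC S L (cPrimeRepr S G L g c) = cRepr S G L g (cPrimeToC S L c) := by
  induction c using Submodule.Quotient.induction_on with
  | H j => exact jToC_equivariant S G L g j

lemma jImage_stable (g : G) : jImage S L ≤ (jImage S L).comap (cRepr S G L g) := by
  rintro _ ⟨j, rfl⟩
  exact ⟨jRepr G S L g j, jToC_equivariant S G L g j⟩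

/-- The representation of `G` on `Cl_S(L) = C_S(L) / C'_S(L)`. -/
def clRepr : Representation ℤ G (CS S L ⧸ jImage S L) :=
  (cRepr S G L).quotient (jImage S L) (jImage_stable S G L)

/-- The `S`-class group `Cl_S(L) = C_S(L) / C'_S(L)` as an object of `Rep ℤ G`. -/
def ClRep : Rep ℤ G := Rep.of (clRepr S G L)

/-- `C'_S(L) ⟶ C_S(L)` in `Rep ℤ G`. -/
def cPrimeToCRepHom : CPrimeRep S G L ⟶ CRep S G L :=
  Rep.ofHom ⟨cPrimeToC S L, fun g => LinearMap.ext fun c => cPrimeToC_equivariant S G L g c⟩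

/-- `C_S(L) ⟶ Cl_S(L)` in `Rep ℤ G`. -/
def cToClRepHom : CRep S G L ⟶ ClRep S G L :=
  Rep.ofHom ⟨(jImage S L).mkQ, fun _ => LinearMap.ext fun _ => rfl⟩

/-- The short complex `C'_S(L) ⟶ C_S(L) ⟶ Cl_S(L)`. -/
def cclShortComplex : ShortComplex (Rep ℤ G) :=
  ShortComplex.mk (cPrimeToCRepHom S G L) (cToClRepHom S G L) (by
    ext x
    refine (Submodule.Quotient.mk_eq_zero _).2 ?_
    rw [← range_cPrimeToC]
    exact ⟨x, rfl⟩)

/-- **G-SES (d2).** `0 → C'_S(L) → C_S(L) → Cl_S(L) → 0` is short exact. -/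
theorem cclShortComplex_shortExact : (cclShortComplex S G L).ShortExact := by
  refine Fermat.Agent.S55.H295.rep_shortExact_of (k := ℤ) (cclShortComplex S G L) ?_ ?_ ?_
  · intro x y hxy
    exact cPrimeToC_injective S L hxy
  · intro x hx
    have hx' : x ∈ jImage S L := (Submodule.Quotient.mk_eq_zero _).1 hx
    rw [← range_cPrimeToC] at hx'
    obtain ⟨y, hy⟩ := hx'
    exact ⟨y, hy⟩
  · exact Submodule.mkQ_surjective _

/-! ## 3. Finiteness of `Cl_S` -/

/-- The map `Div^S(L) → Cl_S(L) = C_S(L)/C'_S(L)`. -/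
def divToCl : (PrimeOut S L →₀ ℤ) →ₗ[ℤ] (CS S L ⧸ jImage S L) :=
  (jImage S L).mkQ ∘ₗ (principal S L).mkQ ∘ₗ
    LinearMap.inr ℤ (Additive (AS S L)ˣ) (PrimeOut S L →₀ ℤ)

lemma divToCl_surjective : Function.Surjective (divToCl S L) := by
  intro c
  induction c using Submodule.Quotient.induction_on with
  | H c =>
    induction c using Submodule.Quotient.induction_on with
    | H jd =>
      refine ⟨jd.2, ?_⟩
      change Submodule.Quotient.mk (Submodule.Quotient.mk ((0, jd.2) : JD S L)) = _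
      rw [Submodule.Quotient.eq]
      refine ⟨-jd.1, ?_⟩
      change Submodule.Quotient.mk ((-jd.1, 0) : JD S L) = _
      rw [← Submodule.Quotient.mk_sub]
      congr 1
      refine Prod.ext ?_ ?_ <;> simp

lemma ordHom_range_le_ker_divToCl :
    (ordHom S L).range ≤ (divToCl S L).toAddMonoidHom.ker := by
  rintro _ ⟨x, rfl⟩
  change divToCl S L (ordHom S L x) = 0
  change Submodule.Quotient.mk (Submodule.Quotient.mk ((0, ordHom S L x) : JD S L)) = 0
  rw [Submodule.Quotient.mk_eq_zero]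
  refine ⟨-(unitsDiag S L x), ?_⟩
  change Submodule.Quotient.mk ((-(unitsDiag S L x), 0) : JD S L) = _
  rw [eq_comm, ← sub_eq_zero, ← Submodule.Quotient.mk_sub, Submodule.Quotient.mk_eq_zero]
  refine ⟨x, ?_⟩
  refine Prod.ext ?_ ?_ <;> simp

/-- **G-SES (d3).** The `S`-class group `Cl_S(L) = C_S(L) / C'_S(L)` is finite. -/
instance finite_cl : Finite (CS S L ⧸ jImage S L) := by
  have hfi : (divToCl S L).toAddMonoidHom.ker.FiniteIndex :=
    AddSubgroup.finiteIndex_of_le (ordHom_range_le_ker_divToCl S L)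
  have hfin : Finite ((PrimeOut S L →₀ ℤ) ⧸ (divToCl S L).toAddMonoidHom.ker) :=
    AddSubgroup.finite_quotient_of_finiteIndex
  have e := QuotientAddGroup.quotientKerEquivOfSurjective (divToCl S L).toAddMonoidHom
    (divToCl_surjective S L)
  exact Finite.of_equiv _ e.toEquiv

instance finite_ClRep : Finite (ClRep S G L).V := finite_cl S L

end Fermat.Agent.S55.G.SeqH604

end
end
-- ===== PACK-END S55/G/SeqH604.lean

-- ===== PACK-BEGIN S55/KL/TransportH496.lean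
section


/-!
# S55 / layer KL, leaf KL-TR (helper496): `TransportSpec`

For `U = Gal(Ω/E)` and the level `V = Gal(Ω/E')` (`E'/K` finite Galois): `M = E·E'` is finite
Galois over `E`, `U/(V ∩ U) ≅ Gal(M/E)` has order `[M : E]`, and
`Hⁿ(U/(V ∩ U), (Ωˣ)^{V ∩ U}) ≅ Hⁿ(Gal(M/E), Mˣ)` for all `n`.
-/

set_option autoImplicit false

noncomputable section

namespace Fermat.Agent.S55.KL.H496

open CategoryTheory groupCohomology

/-- **KL-TR.** -/
theorem transport : TransportSpec := by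
  intro K Ω _ _ _ _ E E'
  exact ⟨finiteDimensional_comp496 E E'.toIntermediateField,
    isGalois_comp496 E E'.toIntermediateField,
    card_quot496 E E'.toIntermediateField,
    fun n => ⟨transportIso496 E E'.toIntermediateField n⟩⟩

end Fermat.Agent.S55.KL.H496

end
end
-- ===== PACK-END S55/KL/TransportH496.lean

-- ===== PACK-BEGIN S56/H666/Inv0.lean
section





/-!
# S56 / TB layer 2, leaf INV0 (helper666)

Under the standing hypotheses `Hyp` of S56 (`M = ad⁰ρ̄`):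

* `inv0_line` : no nonzero trace-zero `m` with `ρ̄σ m ρ̄σ⁻¹ ∈ k·m` for all `σ`
  (no Galois-stable line in `ad⁰ρ̄`, whatever the character);
* `adInv_top_eq_bot` : `H⁰(G_ℚ, ad⁰ρ̄) = 0`, in the form `adInv ρbar ⊤ = ⊥`;
* `inv0_twisted` : `H⁰(G_ℚ, ad⁰ρ̄(1)) = 0`: no nonzero trace-zero `m` with
  `a • (ρ̄σ m ρ̄σ⁻¹) = m` whenever `IsCycExp p σ a`;
* `inv0_twisted_inv` : the same for the inverse twist `ρ̄σ m ρ̄σ⁻¹ = a • m`.
-/

set_option autoImplicit false

open Polynomial IsLocalRing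

namespace Fermat.Agent.S56.H666

open Fermat.Agent.S56

variable {𝒪 : Type} [CommRing 𝒪] [IsDomain 𝒪] [IsDiscreteValuationRing 𝒪]
  {p : ℕ} {ρbar : ResidualGaloisRep (ResidueField 𝒪)} {S Smin : Finset ℕ}

/-- No Galois-stable line in `ad⁰ρ̄`. -/
theorem inv0_line (H : Hyp 𝒪 p ρbar S Smin) (m : Module.End (ResidueField 𝒪) ρbar.V)
    (htr : LinearMap.trace (ResidueField 𝒪) ρbar.V m = 0)
    (hst : ∀ σ : GQ, ∃ c : ResidueField 𝒪, ρbar.ρ σ * m * ρbar.ρ σ⁻¹ = c • m) : m = 0 := by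
  by_contra hm
  have : Fact p.Prime := ⟨H.hp⟩
  exact Fermat.Agent.S56.P3.H666.line_false ρbar.ρ p H.hp2 (Fermat.Agent.S56.P3.twHyp_of_hyp H)
    m hm htr hst

/-- `H⁰(G_ℚ, ad⁰ρ̄) = 0`. -/
theorem adInv_top_eq_bot (H : Hyp 𝒪 p ρbar S Smin) :
    Fermat.Agent.S56.H716.adInv ρbar ⊤ = ⊥ := by
  rw [Submodule.eq_bot_iff]
  rintro m ⟨htr, hinv⟩
  refine inv0_line H m htr (fun σ => ⟨1, ?_⟩)
  rw [one_smul]
  exact hinv σ (Subgroup.mem_top σ)

/-- `H⁰(G_ℚ, ad⁰ρ̄(1)) = 0`. -/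
theorem inv0_twisted (H : Hyp 𝒪 p ρbar S Smin) (m : Module.End (ResidueField 𝒪) ρbar.V)
    (htr : LinearMap.trace (ResidueField 𝒪) ρbar.V m = 0)
    (hinv : ∀ (σ : GQ) (a : ℕ), IsCycExp p σ a →
      (a : ResidueField 𝒪) • (ρbar.ρ σ * m * ρbar.ρ σ⁻¹) = m) : m = 0 := by
  have : Fact p.Prime := ⟨H.hp⟩
  refine inv0_line H m htr (fun σ => ?_)
  obtain ⟨a, ha⟩ := Fermat.Agent.S56.P3.H254.cycExpExists p σ
  have h1 := hinv σ a ha
  by_cases ha0 : (a : ResidueField 𝒪) = 0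
  · refine ⟨0, ?_⟩
    rw [ha0, zero_smul] at h1
    rw [← h1, mul_zero, zero_mul, smul_zero]
  · refine ⟨(a : ResidueField 𝒪)⁻¹, ?_⟩
    rw [← h1, smul_smul, inv_mul_cancel₀ ha0, one_smul, h1]

/-- `H⁰(G_ℚ, ad⁰ρ̄(-1)) = 0`. -/
theorem inv0_twisted_inv (H : Hyp 𝒪 p ρbar S Smin) (m : Module.End (ResidueField 𝒪) ρbar.V)
    (htr : LinearMap.trace (ResidueField 𝒪) ρbar.V m = 0)
    (hinv : ∀ (σ : GQ) (a : ℕ), IsCycExp p σ a →
      ρbar.ρ σ * m * ρbar.ρ σ⁻¹ = (a : ResidueField 𝒪) • m) : m = 0 := by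
  have : Fact p.Prime := ⟨H.hp⟩
  refine inv0_line H m htr (fun σ => ?_)
  obtain ⟨a, ha⟩ := Fermat.Agent.S56.P3.H254.cycExpExists p σ
  exact ⟨a, hinv σ a ha⟩

end Fermat.Agent.S56.H666

end
-- ===== PACK-END S56/H666/Inv0.lean

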