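import Mathlib
import Fermat.Agent.Pack.S56.E11L0
import Fermat.Agent.Pack.S56.E5L2
import Fermat.Agent.Pack.S56.E11L1
import Fermat.Agent.Pack.S56.E1L3
import Fermat.Agent.Pack.S56.E9L1
import Fermat.Agent.Pack.S56.E9L2
import Fermat.Agent.Pack.S56.E1L2
import Fermat.Agent.Pack.S56.E9L0
import Fermat.Agent.Pack.S56.E7L1
import Fermat.Agent.Pack.S56.E7L3
import Fermat.Agent.Pack.S56.E10L1
import Fermat.Agent.Pack.S56.E11L3
import Fermat.Agent.Pack.S56.E12L1
import Fermat.Agent.Pack.S56.E10L3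
import Fermat.Agent.Pack.S56.E10L2
import Fermat.Agent.Pack.S56.E12L0
import Fermat.Agent.Pack.S56.E8L3
import Fermat.Agent.Pack.S56.E10L0
import Fermat.Agent.Pack.S56.E8L1
import Fermat.Agent.Pack.S56.E8L2
import Fermat.Agent.Pack.S56.E8L0
import Fermat.Agent.Pack.S56.E12L2
import Fermat.Agent.Pack.S56.E2L2
import Fermat.Agent.Pack.S56.E11L2

-- ===== PACK-BEGIN S56/H716/GWSpec.lean
section


/-!
# Row S56 — the wall GW-WALL, layer 3: FROZEN statements (deputy helper716)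

`GW-WALL  ⇐  BASE + REC-Q`      (glue: `H716/GWGlue.lean`)

`M = ad⁰ρ̄`, `M' = M(1)`; plain-function language of layers 0–2.  For a choice `Pl` of places over
`Smin`, the STRICT Selmer cocycles of `Q` are the ad⁰-cocycles which are unramified outside
`Smin ∪ Q` and coboundaries on `D_{Pl v}` for every `v ∈ Smin`
(`IsSelCocycle ρbar Pl (fun _ => ⊥) Smin Q c`).

* `BaseStatement` (BASE = Tate's global Euler characteristic + frozen S55 + the tail of the
  Poitou–Tate sequence): there are a dual frame `D`, all of whose elements are unramified outside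
  `Smin`, and a finite-dimensional space `X` representing all strict Selmer classes of `Q = ∅`
  (`= Ш¹_Smin(M)`), with

      `dim X + ∑_{v ∈ Smin} h⁰(D_{Pl v}, M) + 1 ≤ dim D`.

  (True with equality for `D` = representatives of ALL of `H¹(G_{ℚ,Smin}, M')`:
  `h¹(M') = h²(M') − χ(M')`, `χ(M') = h⁰(G_ℝ, M') − dim M' = −1`,
  `h²(M') = dim Ш²(M') + ∑_v h²(G_v, M') − h⁰(G_ℚ, M)`, `Ш²(M') ≅ Ш¹(M)^∨`.)
* `RecQStatement` (REC-Q = reciprocity over `Q` + tame local duality at Taylor–Wiles primes):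
  for EVERY dual frame `D` unramified outside `Smin` and every set `Q` of Taylor–Wiles primes
  killing `D`, the strict Selmer classes of `Q` modulo those of `∅` have dimension `≤ #Q − dim D`.

Nothing unproved in this file.  Plan: `coord/S56-TB.md` on `origin/main`.
-/

set_option autoImplicit false

open Polynomial IsLocalRing

noncomputable section

namespace Fermat.Agent.S56.H716

open Fermat.Agent.S56

section

variable (𝒪 : Type) [CommRing 𝒪] [IsDomain 𝒪] [IsDiscreteValuationRing 𝒪]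
  (p : ℕ) (ρbar : ResidualGaloisRep (ResidueField 𝒪)) (S Smin : Finset ℕ)

/-- (BASE) for one residual representation. -/
def Base : Prop :=
  ∃ Pl : ℕ → ValuationSubring Qb, (∀ v ∈ Smin, (Pl v).LiesOverPrime v) ∧
    ∃ D X : Submodule (ResidueField 𝒪) (GQ → Module.End (ResidueField 𝒪) ρbar.V),
      IsDualFrame ρbar p D ∧
      (∀ y ∈ D, ∀ q : ℕ, q.Prime → q ∉ Smin → UnramAt ρbar y q) ∧
      Module.Finite (ResidueField 𝒪) X ∧
      (∀ c, IsSelCocycle ρbar Pl (fun _ => ⊥) Smin ∅ c → ∃ t ∈ X, IsAdCoboundary ρbar (c - t)) ∧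
      Module.finrank (ResidueField 𝒪) X +
          ∑ v ∈ Smin, Module.finrank (ResidueField 𝒪)
            (adInv ρbar ((Pl v).decompositionSubgroup ℚ)) + 1
        ≤ Module.finrank (ResidueField 𝒪) D

/-- (REC-Q) for one residual representation. -/
def RecQ : Prop :=
  ∀ Pl : ℕ → ValuationSubring Qb, (∀ v ∈ Smin, (Pl v).LiesOverPrime v) →
    ∀ D : Submodule (ResidueField 𝒪) (GQ → Module.End (ResidueField 𝒪) ρbar.V),
      IsDualFrame ρbar p D →
      (∀ y ∈ D, ∀ q : ℕ, q.Prime → q ∉ Smin → UnramAt ρbar y q) →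
      ∀ Q : Finset ℕ, (∀ q ∈ Q, IsTWPrime ρbar p S q) → Kills ρbar p D Q →
        ∃ U : Submodule (ResidueField 𝒪) (GQ → Module.End (ResidueField 𝒪) ρbar.V),
          Module.Finite (ResidueField 𝒪) U ∧
          Module.finrank (ResidueField 𝒪) U + Module.finrank (ResidueField 𝒪) D ≤ Q.card ∧
          ∀ c, IsSelCocycle ρbar Pl (fun _ => ⊥) Smin Q c →
            ∃ u ∈ U, ∃ c', IsSelCocycle ρbar Pl (fun _ => ⊥) Smin ∅ c' ∧
              IsAdCoboundary ρbar (c - u - c')

end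

/-- (BASE): lower bound for `h¹(G_{ℚ,Smin}, ad⁰ρ̄(1))`. -/
def BaseStatement : Prop :=
  ∀ (𝒪 : Type) [CommRing 𝒪] [IsDomain 𝒪] [IsDiscreteValuationRing 𝒪]
    [IsAdicComplete (maximalIdeal 𝒪) 𝒪] [Finite (ResidueField 𝒪)]
    (p : ℕ) (ρbar : ResidualGaloisRep (ResidueField 𝒪)) (S Smin : Finset ℕ),
    Hyp 𝒪 p ρbar S Smin → Base 𝒪 p ρbar Smin

/-- (REC-Q): reciprocity over the Taylor–Wiles primes. -/
def RecQStatement : Prop :=
  ∀ (𝒪 : Type) [CommRing 𝒪] [IsDomain 𝒪] [IsDiscreteValuationRing 𝒪]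
    [IsAdicComplete (maximalIdeal 𝒪) 𝒪] [Finite (ResidueField 𝒪)]
    (p : ℕ) (ρbar : ResidualGaloisRep (ResidueField 𝒪)) (S Smin : Finset ℕ),
    Hyp 𝒪 p ρbar S Smin → RecQ 𝒪 p ρbar S Smin

end Fermat.Agent.S56.H716

end

end
-- ===== PACK-END S56/H716/GWSpec.lean

-- ===== PACK-BEGIN S56/H906/FlatOSpec.lean
section



/-!
# Row S56 — FLAT-O (flat tangent bound at `p`, reducible case): interface (helper906)

Plan and all the mathematics: `coord/S56-FLATO-helper906.md` on `origin/helper906`.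

`FlatOStatement`  ⇐  (FI) + (FT) + (FU) + (KUM) + (TAMEFROB) + (UNRHOM)      (assembly = piece ASM)

Everything local at `p` is phrased on the landed A3 Hopf lattices
(`Fermat.Agent.S19.H435.IsHopfLattice`): a `ℤ_(p)`-subalgebra `Λ ⊂ (M → ℚ̄)` of equivariant
functions on a finite Galois module `M`, closed under `f ↦ f(x + y)`.  A Prelude `IsFlatAt`
gives such a lattice by `Fermat.Agent.S19.H435.exists_isHopfLattice_of_hopfModel`; quotients
are `IsHopfLattice.quotient`.

* `UnrValStatement` (UNR): an inertia-fixed element of `ℚ̄` has the valuation of a power of `p`.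
* `LemmaAStatement` (A): a point of order `p` all of whose coordinates are `≡` the coordinates
  of `0` modulo `lam`, where `v(lam)^(p-1) < v(p)`, is `0`.
* `FlatInertiaStatement` (FI): an inertia-fixed point in the subgroup generated by the
  `σ y - y`, `σ ∈ I_P`, is `0`.                                           [(UNR) + (A)]
* `FlatTameStatement` (FT): if inertia acts on `x ≠ 0` through `𝔽_p^×`, the character is trivial
  or the cyclotomic character.                                        [(UNR) + (A) + leading terms]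
* `FlatUnitStatement` (FU): unit resolvent = "peu ramifié".
* `KumStatement` (KUM): the peu ramifié classes in `H¹(D_P, k(a))`, `a|_I = ω`, span `≤ 1`
  dimension.
* `TameFrobStatement`, `UnramHomStatement`: structure of `D_P / wild inertia`.

Nothing is proved in this file; nothing is `sorry`.
-/

set_option autoImplicit false

open Polynomial IsLocalRing

noncomputable section

namespace Fermat.Agent.S56.H906

open Fermat.Agent.S56 Fermat.Agent.S56.H716

/-- `ℤ_(p)` (the Prelude ring). -/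
abbrev Zp (p : ℕ) : Type := Fermat.Agent.S19.H435.Zl p

/-- Hopf lattices of cell A3. -/
abbrev IsHL (p : ℕ) {M : Type} [AddCommGroup M] (act : GQ → M → M)
    (Λ : Subalgebra (Zp p) (M → Qb)) : Prop :=
  Fermat.Agent.S19.H435.IsHopfLattice p act Λ

/-! ## Local flatness inputs -/

/-- (UNR) the inertia field is unramified: the valuation of an inertia-fixed element is an
integral power of the valuation of `p`. -/
def UnrValStatement : Prop :=
  ∀ p : ℕ, p.Prime → ∀ P : ValuationSubring Qb, P.LiesOverPrime p →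
    ∀ y : Qb, y ≠ 0 → (∀ σ ∈ P.inertiaSubgroupIn ℚ, σ y = y) →
      ∃ n : ℤ, P.valuation y = P.valuation (p : Qb) ^ n

/-- (A) rigidity of points of order `p` ("Lemma A", all `p`; for `lam = p` it needs `p ≥ 3`). -/
def LemmaAStatement : Prop :=
  ∀ (p : ℕ) [Fact p.Prime] (M : Type) [AddCommGroup M] [Finite M] (act : GQ → M → M)
    (Λ : Subalgebra (Zp p) (M → Qb)), IsHL p act Λ →
    ∀ P : ValuationSubring Qb, P.LiesOverPrime p →
    ∀ (x : M) (lam : Qb), p • x = 0 →
      P.valuation lam ^ (p - 1) < P.valuation (p : Qb) →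
      (∀ f ∈ Λ, P.valuation (f x - f 0) ≤ P.valuation lam) → x = 0

/-- (FI) connected–étale, Galois-module form: `(I_aug M) ∩ M^I = 0` for a flat `M` killed by
`p`, `p` odd. -/
def FlatInertiaStatement : Prop :=
  ∀ (p : ℕ) [Fact p.Prime], p ≠ 2 →
    ∀ (M : Type) [AddCommGroup M] [Finite M] (act : GQ → M → M)
    (Λ : Subalgebra (Zp p) (M → Qb)), IsHL p act Λ → (∀ x : M, p • x = 0) →
    ∀ P : ValuationSubring Qb, P.LiesOverPrime p → ∀ x : M,
      (∀ σ ∈ P.inertiaSubgroupIn ℚ, act σ x = x) →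
      x ∈ AddSubgroup.closure
        {z : M | ∃ σ ∈ P.inertiaSubgroupIn ℚ, ∃ y : M, z = act σ y - y} →
      x = 0

/-- (FT) Raynaud's tame characters in the only case needed: if inertia acts on a nonzero point
`x` of a flat `M` (killed by `p`, `p` odd) through scalars of `𝔽_p`, then it acts trivially or
through the cyclotomic character. -/
def FlatTameStatement : Prop :=
  ∀ (p : ℕ) [Fact p.Prime], p ≠ 2 →
    ∀ (M : Type) [AddCommGroup M] [Finite M] (act : GQ → M → M)
    (Λ : Subalgebra (Zp p) (M → Qb)), IsHL p act Λ → (∀ x : M, p • x = 0) →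
    ∀ P : ValuationSubring Qb, P.LiesOverPrime p → ∀ x : M, x ≠ 0 →
      (∀ τ ∈ P.inertiaSubgroupIn ℚ, ∃ n : ℕ, act τ x = n • x) →
      (∀ τ ∈ P.inertiaSubgroupIn ℚ, act τ x = x) ∨
        (∀ τ ∈ P.inertiaSubgroupIn ℚ, ∀ a : ℕ, IsCycExp p τ a → act τ x = a • x)

/-- (FU) unit resolvent.  `H := {σ ∈ I_P : σ ζ = ζ}`; `L ⊂ M` a subgroup fixed pointwise by `H`
and containing all `σ y - y` (`σ ∈ H`).  Then for every point `x` and every additive character
`ξ : M → 𝔽_p` the Kummer character `σ ↦ ζ^{ξ(σ x - x)}` of `H` is the Kummer character of a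
`P`-unit. -/
def FlatUnitStatement : Prop :=
  ∀ (p : ℕ) [Fact p.Prime]
    (M : Type) [AddCommGroup M] [Finite M] (act : GQ → M → M)
    (Λ : Subalgebra (Zp p) (M → Qb)), IsHL p act Λ → (∀ x : M, p • x = 0) →
    ∀ P : ValuationSubring Qb, P.LiesOverPrime p →
    ∀ ζ : Qb, IsPrimitiveRoot ζ p → ∀ L : AddSubgroup M,
      (∀ σ ∈ P.inertiaSubgroupIn ℚ, σ ζ = ζ → ∀ t ∈ L, act σ t = t) →
      (∀ σ ∈ P.inertiaSubgroupIn ℚ, σ ζ = ζ → ∀ y : M, act σ y - y ∈ L) →
      ∀ (ξ : M →+ ZMod p) (x : M),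
        ∃ B : Qb, P.valuation B = 1 ∧
          ∀ σ ∈ P.inertiaSubgroupIn ℚ, σ ζ = ζ → σ B = ζ ^ (ξ (act σ x - x)).val * B

/-! ## Local Galois cohomology at `p` -/

section Loc

variable (p : ℕ) (P : ValuationSubring Qb) {k : Type} [Field k]

/-- `a` has finite level on `D_P`. -/
def HasLevelOn (a : GQ → k) : Prop :=
  ∃ L : IntermediateField ℚ Qb, FiniteDimensional ℚ L ∧
    ∀ σ ∈ P.decompositionSubgroup ℚ, ∀ τ ∈ P.decompositionSubgroup ℚ,
      (∀ x ∈ L, τ x = x) → a (σ * τ) = a σ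

/-- `a : G_ℚ → k` restricts to a character of `D_P` of finite level. -/
structure IsLocChar (a : GQ → k) : Prop where
  map_one : a 1 = 1
  map_mul : ∀ σ ∈ P.decompositionSubgroup ℚ, ∀ τ ∈ P.decompositionSubgroup ℚ,
    a (σ * τ) = a σ * a τ
  level : HasLevelOn P a

/-- `a` is a character of `D_P` which is the mod-`p` cyclotomic character on inertia. -/
structure IsOrdChar (a : GQ → k) : Prop extends IsLocChar P a where
  cyc : ∀ σ ∈ P.inertiaSubgroupIn ℚ, ∀ n : ℕ, IsCycExp p σ n → a σ = (n : k)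

/-- `c` restricts to a cocycle `D_P → k(a)` of finite level. -/
structure IsLocCocycle (a c : GQ → k) : Prop where
  map_mul : ∀ σ ∈ P.decompositionSubgroup ℚ, ∀ τ ∈ P.decompositionSubgroup ℚ,
    c (σ * τ) = c σ + a σ * c τ
  level : HasLevelOn P c

/-- `c` is *peu ramifié*: every `𝔽_p`-component of `c`, restricted to `{σ ∈ I_P : σ ζ = ζ}`,
is the Kummer character of a `P`-unit. -/
def IsPeu (c : GQ → k) : Prop :=
  ∀ ζ : Qb, IsPrimitiveRoot ζ p → ∀ ℓ : k →+ ZMod p,
    ∃ B : Qb, P.valuation B = 1 ∧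
      ∀ σ ∈ P.inertiaSubgroupIn ℚ, σ ζ = ζ → σ B = ζ ^ (ℓ (c σ)).val * B

end Loc

/-- (KUM) the peu ramifié classes in `H¹(D_P, k(a))`, `a|_{I_P}` cyclotomic, span at most one
dimension. -/
def KumStatement : Prop :=
  ∀ (p : ℕ) [Fact p.Prime], p ≠ 2 → ∀ (k : Type) [Field k] [Finite k] [CharP k p]
    (P : ValuationSubring Qb), P.LiesOverPrime p → ∀ a : GQ → k, IsOrdChar p P a →
    ∃ c₀ : GQ → k, ∀ c : GQ → k, IsLocCocycle P a c → IsPeu p P c →
      ∃ lam m : k, ∀ σ ∈ P.decompositionSubgroup ℚ, c σ = lam * c₀ σ + (a σ - 1) * m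

/-- (TAMEFROB) a character `D_P → k^×` (`k` finite of characteristic `p`) has values in
`𝔽_p^×` on inertia. -/
def TameFrobStatement : Prop :=
  ∀ (p : ℕ) [Fact p.Prime] (k : Type) [Field k] [Finite k] [CharP k p]
    (P : ValuationSubring Qb), P.LiesOverPrime p → ∀ a : GQ → k, IsLocChar P a →
    ∀ τ ∈ P.inertiaSubgroupIn ℚ, a τ ^ p = a τ

/-- (UNRHOM) `D_P / I_P` is procyclic: an unramified homomorphism `D_P → k` of finite level
vanishing at one (suitable) element `φ` vanishes. -/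
def UnramHomStatement : Prop :=
  ∀ (p : ℕ), p.Prime → ∀ (P : ValuationSubring Qb), P.LiesOverPrime p →
    ∃ φ ∈ P.decompositionSubgroup ℚ, ∀ (k : Type) [Field k] (h : GQ → k),
      (∀ σ ∈ P.decompositionSubgroup ℚ, ∀ τ ∈ P.decompositionSubgroup ℚ,
        h (σ * τ) = h σ + h τ) →
      HasLevelOn P h → (∀ σ ∈ P.inertiaSubgroupIn ℚ, h σ = 0) → h φ = 0 →
      ∀ σ ∈ P.decompositionSubgroup ℚ, h σ = 0

/-! ## The local bound -/

section Top

variable {k : Type} [Field k] (ρbar : ResidualGaloisRep k) (P : ValuationSubring Qb)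

/-- `H⁰(D_P, ad⁰ ρ̄)`: trace-zero endomorphisms commuting with `ρ̄(D_P)`. -/
def adInv : Submodule k (Module.End k ρbar.V) where
  carrier := {m | LinearMap.trace k ρbar.V m = 0 ∧
    ∀ σ ∈ P.decompositionSubgroup ℚ, ρbar.ρ σ * m = m * ρbar.ρ σ}
  add_mem' := by
    rintro a b ⟨ha, ha'⟩ ⟨hb, hb'⟩
    refine ⟨by rw [map_add, ha, hb, add_zero], fun σ hσ => ?_⟩
    rw [mul_add, add_mul, ha' σ hσ, hb' σ hσ]
  zero_mem' := ⟨map_zero _, fun σ _ => by rw [mul_zero, zero_mul]⟩
  smul_mem' := by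
    rintro r a ⟨ha, ha'⟩
    refine ⟨by rw [map_smul, ha, smul_zero], fun σ hσ => ?_⟩
    rw [mul_smul_comm, smul_mul_assoc, ha' σ hσ]

/-- `c` and `t` are cohomologous on `D_P` (as `ad⁰`-valued cochains). -/
def CohomOn (c t : GQ → Module.End k ρbar.V) : Prop :=
  ∃ m : Module.End k ρbar.V, LinearMap.trace k ρbar.V m = 0 ∧
    ∀ σ ∈ P.decompositionSubgroup ℚ, c σ - t σ = ρbar.ρ σ * m * ρbar.ρ σ⁻¹ - m

end Top

/-- The local flat bound at `P | p`: all flat tangent cocycles (any `Q`) lie, on `D_P` and modulo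
coboundaries, in one `k`-space of dimension `≤ h⁰(D_P, ad⁰ ρ̄) + 1`. -/
def LocalBoundFlatAt (𝒪 : Type) [CommRing 𝒪] [IsLocalRing 𝒪] (p : ℕ)
    (ρbar : ResidualGaloisRep (ResidueField 𝒪)) (Smin : Finset ℕ)
    (P : ValuationSubring Qb) : Prop :=
  ∃ T : Submodule (ResidueField 𝒪) (GQ → Module.End (ResidueField 𝒪) ρbar.V),
    Module.Finite (ResidueField 𝒪) T ∧
    Module.finrank (ResidueField 𝒪) T ≤ Module.finrank (ResidueField 𝒪) (_root_.Fermat.Agent.S56.H906.adInv ρbar P) + 1 ∧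
    ∀ (Q : Finset ℕ) (c : GQ → Module.End (ResidueField 𝒪) ρbar.V),
      IsTanCocycle 𝒪 ρbar (flatCond 𝒪 p Smin Q) c → ∃ t ∈ T, CohomOn ρbar P c t

/-- `ρ̄|_{D_P}` is reducible. -/
def IsReducibleAt {k : Type} [Field k] (ρbar : ResidualGaloisRep k)
    (P : ValuationSubring Qb) : Prop :=
  ∃ W : Submodule k ρbar.V, W ≠ ⊥ ∧ W ≠ ⊤ ∧
    ∀ σ ∈ P.decompositionSubgroup ℚ, ∀ x ∈ W, ρbar.ρ σ x ∈ W

/-- (FLAT-O) the local flat bound when `ρ̄|_{D_P}` is reducible. -/
def FlatOStatement : Prop :=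
  ∀ (𝒪 : Type) [CommRing 𝒪] [IsDomain 𝒪] [IsDiscreteValuationRing 𝒪]
    [IsAdicComplete (maximalIdeal 𝒪) 𝒪] [Finite (ResidueField 𝒪)]
    (p : ℕ) (ρbar : ResidualGaloisRep (ResidueField 𝒪)) (S Smin : Finset ℕ),
    Hyp 𝒪 p ρbar S Smin → ∀ P : ValuationSubring Qb, P.LiesOverPrime p →
      IsReducibleAt ρbar P → LocalBoundFlatAt 𝒪 p ρbar Smin P

/-- (FLAT-SS) the local flat bound when `ρ̄|_{D_P}` is irreducible (owner: FL plan of helper426). -/
def FlatSSStatement : Prop :=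
  ∀ (𝒪 : Type) [CommRing 𝒪] [IsDomain 𝒪] [IsDiscreteValuationRing 𝒪]
    [IsAdicComplete (maximalIdeal 𝒪) 𝒪] [Finite (ResidueField 𝒪)]
    (p : ℕ) (ρbar : ResidualGaloisRep (ResidueField 𝒪)) (S Smin : Finset ℕ),
    Hyp 𝒪 p ρbar S Smin → ∀ P : ValuationSubring Qb, P.LiesOverPrime p →
      ¬ IsReducibleAt ρbar P → LocalBoundFlatAt 𝒪 p ρbar Smin P

/-- (FLAT) = (FLAT-O) + (FLAT-SS): the local flat bound at every `P | p`. -/
def FlatStatement : Prop :=
  ∀ (𝒪 : Type) [CommRing 𝒪] [IsDomain 𝒪] [IsDiscreteValuationRing 𝒪]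
    [IsAdicComplete (maximalIdeal 𝒪) 𝒪] [Finite (ResidueField 𝒪)]
    (p : ℕ) (ρbar : ResidualGaloisRep (ResidueField 𝒪)) (S Smin : Finset ℕ),
    Hyp 𝒪 p ρbar S Smin → ∀ P : ValuationSubring Qb, P.LiesOverPrime p →
      LocalBoundFlatAt 𝒪 p ρbar Smin P

theorem flat_of_cases (hO : FlatOStatement) (hSS : FlatSSStatement) : FlatStatement := by
  intro 𝒪 _ _ _ _ _ p ρbar S Smin hyp P hP
  by_cases h : IsReducibleAt ρbar P
  · exact hO 𝒪 p ρbar S Smin hyp P hP h
  · exact hSS 𝒪 p ρbar S Smin hyp P hP h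

/-- Target of the assembly (piece ASM). -/
def AsmStatement : Prop :=
  FlatInertiaStatement → FlatTameStatement → FlatUnitStatement → KumStatement →
    TameFrobStatement → UnramHomStatement → FlatOStatement

end Fermat.Agent.S56.H906

end

end
-- ===== PACK-END S56/H906/FlatOSpec.lean

-- ===== PACK-BEGIN S19/H435/Sub.lean
section
/-
A3 / WP-C pieces C, D (helper435): pullback of a Hopf lattice along an injective, additive,
Galois-compatible map (sub-objects and transport along isomorphisms).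
-/




set_option autoImplicit false
set_option linter.style.haveILetI false

noncomputable section

namespace Fermat.Agent.S19.H435

variable {ℓ : ℕ} {M : Type*} [AddCommGroup M] {act : Gal → M → M}
  {Λ : Subalgebra (Zl ℓ) (M → _root_.Fermat.Agent.S19.H435.Qb)}

namespace IsHopfLattice

/-- **Pieces C, D (sub-objects, transport).** Restriction of a Hopf lattice along an injective
additive map compatible with the Galois actions. -/
theorem pullback (hΛ : IsHopfLattice ℓ act Λ) {M' : Type*} [AddCommGroup M'] (ι : M' →+ M)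
    (hι : Function.Injective ι) (act' : Gal → M' → M')
    (hcompat : ∀ σ m', ι (act' σ m') = act σ (ι m')) :
    IsHopfLattice ℓ act' (Λ.map (precompAlgHom ℓ ι)) := by
  refine ⟨?_, ?_, ?_, ?_⟩
  · have h1 : Subalgebra.toSubmodule (Λ.map (precompAlgHom ℓ ι)) =
        (Subalgebra.toSubmodule Λ).map (precompAlgHom ℓ ι).toLinearMap := by
      ext f
      simp [Subalgebra.mem_map]
    rw [h1]
    exact hΛ.fg.map _
  · rintro _ ⟨f, hf, rfl⟩ σ m'
    show f (ι (act' σ m')) = σ (f (ι m'))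
    rw [hcompat]
    exact hΛ.equivariant f hf σ (ι m')
  · intro m n hmn
    obtain ⟨f, hf, hfne⟩ := hΛ.separates (ι m) (ι n) (fun h => hmn (hι h))
    exact ⟨precompAlgHom ℓ ι f, ⟨f, hf, rfl⟩, hfne⟩
  · rintro _ ⟨f, hf, rfl⟩
    obtain ⟨n, a, b, ha, hb, hab⟩ := hΛ.comul_mem f hf
    refine ⟨n, fun k => precompAlgHom ℓ ι (a k), fun k => precompAlgHom ℓ ι (b k),
      fun k => ⟨a k, ha k, rfl⟩, fun k => ⟨b k, hb k, rfl⟩, ?_⟩
    intro x y
    show f (ι (x + y)) = ∑ k, a k (ι x) * b k (ι y)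
    rw [map_add, hab]

end IsHopfLattice

section HopfModel

open Fermat.Agent.S19 (HopfModel OrdStatement)

/-- Sub-objects (and transport): Hopf models pull back along injective compatible maps. -/
theorem hopfModel_of_injective (hord : OrdStatement) {ℓ : ℕ} [Fact ℓ.Prime] {M M' : Type}
    [AddCommGroup M] [AddCommGroup M'] {act : Gal → M → M} (h : HopfModel ℓ M act)
    (ι : M' →+ M) (hι : Function.Injective ι) (act' : Gal → M' → M')
    (hcompat : ∀ σ m', ι (act' σ m') = act σ (ι m')) : HopfModel ℓ M' act' := by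
  obtain ⟨Λ, hΛ⟩ := exists_isHopfLattice_of_hopfModel h
  exact (hΛ.pullback ι hι act' hcompat).hopfModel hord

/-- Quotients: Hopf models push forward along surjective compatible maps. -/
theorem hopfModel_of_surjective (hord : OrdStatement) {ℓ : ℕ} [Fact ℓ.Prime] {M M'' : Type}
    [AddCommGroup M] [AddCommGroup M''] {act : Gal → M → M} (h : HopfModel ℓ M act)
    (π : M →+ M'') (hπ : Function.Surjective π) (act'' : Gal → M'' → M'')
    (hcompat : ∀ σ m, act'' σ (π m) = π (act σ m)) : HopfModel ℓ M'' act'' := by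
  obtain ⟨Λ, hΛ⟩ := exists_isHopfLattice_of_hopfModel h
  haveI : Finite M := hΛ.finite
  exact (hΛ.quotient π hπ act'' hcompat).hopfModel hord

/-- Subquotients of Hopf models are Hopf models. -/
theorem hopfModel_of_subquotient (hord : OrdStatement) {ℓ : ℕ} [Fact ℓ.Prime] {M M' M'' : Type}
    [AddCommGroup M] [AddCommGroup M'] [AddCommGroup M''] {act : Gal → M → M}
    (h : HopfModel ℓ M act)
    (ι : M' →+ M) (hι : Function.Injective ι) (act' : Gal → M' → M')
    (hcompat' : ∀ σ m', ι (act' σ m') = act σ (ι m'))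
    (π : M' →+ M'') (hπ : Function.Surjective π) (act'' : Gal → M'' → M'')
    (hcompat'' : ∀ σ m, act'' σ (π m) = π (act' σ m)) : HopfModel ℓ M'' act'' :=
  hopfModel_of_surjective hord (hopfModel_of_injective hord h ι hι act' hcompat') π hπ act''
    hcompat''

end HopfModel

end Fermat.Agent.S19.H435

end
end
-- ===== PACK-END S19/H435/Sub.lean

-- ===== PACK-BEGIN S55/PT/Spec.lean
section


/-!
# S55 / layer D (duality engine, route C′): INTERFACE — inputs A1–A8 and Theorem D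

See `coord/S55-D.md` (branch `origin/helper835`).  Spec pattern: every statement here is a
`def … : Prop`; producers prove `theorem foo : FooSpec p S`, consumers take hypotheses.

Notation: `L = globalLevels S` on `G_ℚ`; `Lv = localLevels v` on `G_v = Gl v`;
`H^i = LevelSys.H1 / LevelSys.H2` (level-constant cochain cohomology = Prelude's definition);
`μ = mu p`; `Ind_U N = indRep U N = (G ⧸ U →₀ N)`.
-/

set_option autoImplicit false

noncomputable section

namespace Fermat.Agent.S55.PT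

open groupCohomology ExtCitation

variable (p : ℕ) [Fact p.Prime] (S : Finset Nat.Primes)

/-! ## Inputs (outputs of the arithmetic layers K, KL) -/

/-- **A1 (FIN-glob).** `H¹_S(N)` is finite-dimensional for finite-dimensional smooth `N`. -/
def FinGlobSpec : Prop :=
  ∀ N : Rep.{0, 0, 0} (ZMod p) GQ, FiniteDimensional (ZMod p) N → (globalLevels S).IsUSmooth N →
    FiniteDimensional (ZMod p) ((globalLevels S).H1 N)

/-- **A2 (FIN-loc).** `H¹(G_q, N)` is finite-dimensional for finite-dimensional smooth `N`. -/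
def FinLocSpec : Prop :=
  ∀ q : Nat.Primes, q ∈ S → ∀ N : Rep.{0, 0, 0} (ZMod p) (Gl q), FiniteDimensional (ZMod p) N →
    (localLevels q).IsUSmooth N → FiniteDimensional (ZMod p) ((localLevels q).H1 N)

/-- **A3 (SURJ2-glob).** `H²_S` is right exact on finite-dimensional smooth modules
(`cd_p(G_S) ≤ 2`, `p` odd). -/
def Surj2GlobSpec : Prop :=
  ∀ (P N : Rep.{0, 0, 0} (ZMod p) GQ) (φ : P →ₗ[ZMod p] N) (hφ : IsEquivariant φ),
    FiniteDimensional (ZMod p) P → (globalLevels S).IsUSmooth P → (globalLevels S).IsUSmooth N →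
    Function.Surjective φ → Function.Surjective (pushH2 φ hφ (globalLevels S))

/-- **A4 (SURJ2-loc).** `H²(G_q, −)` is right exact on finite-dimensional smooth modules
(`cd_p(G_q) ≤ 2`). -/
def Surj2LocSpec : Prop :=
  ∀ q : Nat.Primes, q ∈ S → ∀ (P N : Rep.{0, 0, 0} (ZMod p) (Gl q)) (φ : P →ₗ[ZMod p] N)
    (hφ : IsEquivariant φ),
    FiniteDimensional (ZMod p) P → (localLevels q).IsUSmooth P → (localLevels q).IsUSmooth N →
    Function.Surjective φ → Function.Surjective (pushH2 φ hφ (localLevels q))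

variable {p S} in
/-- **A5′ (RECIP).** `Σ_v inv_v(loc_v y) = 0` for `y ∈ H²_S(μ)`. -/
def RecipSpec (inv : InvFamily p S) : Prop :=
  ∀ y : (globalLevels S).H2 (mu p), ∑ v : ↥S, inv v (resH2 (hrl S v) (mu p) y) = 0

variable {p S} in
/-- **A6 (TOP-loc-ind).** For a normal local level `W` acting trivially on `μ`:
`inv_v ∘ aug_* : H²(G_v, Ind_W μ) → F_p` is bijective (`Br(E)[p] ≅ Z/p`, `inv_E = inv_v ∘ cor`). -/
def TopLocIndSpec (inv : InvFamily p S) : Prop :=
  ∀ (v : ↥S) (W : Subgroup (Gl v.1)), W ∈ (localLevels v.1).levels → W.Normal →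
    (∀ s ∈ W, (muLoc p v.1).ρ s = 1) →
    Function.Bijective ((inv v) ∘ₗ
      pushH2 (A := indRep W (muLoc p v.1)) (B := muLoc p v.1) (indAug W (muLoc p v.1))
        (indAug_equivariant W (muLoc p v.1)) (localLevels v.1))

variable {p S} in
/-- the functional `x ↦ Σ_v inv_v(aug_* x_v)` on `∏_v H²(G_v, Ind_U μ)` -/
def topIndFun (inv : InvFamily p S) (U : Subgroup GQ) :
    ((v : ↥S) → (localLevels v.1).H2 (Rep.res (rl v.1) (indRep U (mu p)))) →ₗ[ZMod p] ZMod p :=
  ∑ v : ↥S, (inv v) ∘ₗ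
    pushH2 (A := Rep.res (rl v.1) (indRep U (mu p))) (B := muLoc p v.1) (indAug U (mu p))
      ((indAug_equivariant U (mu p)).res (rl v.1)) (localLevels v.1) ∘ₗ LinearMap.proj v

variable {p S} in
/-- **A7 (TOP-glob-ind).** For a normal level `U` acting trivially on `μ`: a family
`x ∈ ∏_v H²(G_v, Ind_U μ)` with `Σ_v inv_v(aug_* x_v) = 0` is the localisation of a global class
(`H²(G_S(K), μ_p) → ⊕_{w ∈ S_K} Br(K_w)[p] → Z/p` exact in the middle). -/
def TopGlobIndSpec (inv : InvFamily p S) : Prop :=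
  ∀ (U : Subgroup GQ), U ∈ (globalLevels S).levels → U.Normal → (∀ s ∈ U, (mu p).ρ s = 1) →
    ∀ x : (v : ↥S) → (localLevels v.1).H2 (Rep.res (rl v.1) (indRep U (mu p))),
      topIndFun inv U x = 0 → x ∈ LinearMap.range (loc2 (hrl S) (indRep U (mu p)))

/-- **A5–A7.** There is a family of invariant maps satisfying RECIP, TOP-loc-ind, TOP-glob-ind. -/
def InvSpec : Prop :=
  ∃ inv : InvFamily p S, RecipSpec inv ∧ TopLocIndSpec inv ∧ TopGlobIndSpec inv

/-- **A8 (CAP).** For every normal level `V` acting trivially on `μ` there is a normal level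
`U ≤ V` such that `Ш²(Ind_U μ) → Ш²(Ind_V μ)` is zero
(`Ш²(G_S(K), μ_p) = Cl_S(K)/p`; the norm from the `p`-Hilbert `S`-class field kills `Cl_S/p`). -/
def CapSpec : Prop :=
  ∀ (V : Subgroup GQ), V ∈ (globalLevels S).levels → V.Normal → (∀ s ∈ V, (mu p).ρ s = 1) →
    ∃ (U : Subgroup GQ) (h : U ≤ V), U ∈ (globalLevels S).levels ∧ U.Normal ∧
      ∀ x ∈ Sha2 (hrl S) (indRep U (mu p)),
        pushH2 (A := indRep U (mu p)) (B := indRep V (mu p)) (indLE (mu p) h)
          (indLE_equivariant U (mu p) h) (globalLevels S) x = 0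

/-! ## Output of layer D -/

/-- **Theorem D.** `Ш²(M) ≅ Dual(Ш¹(M′))` for finite-dimensional smooth `M`. -/
def TheoremDSpec : Prop :=
  ∀ M : Rep.{0, 0, 0} (ZMod p) GQ, FiniteDimensional (ZMod p) M → (globalLevels S).IsUSmooth M →
    Nonempty (↥(Sha2 (hrl S) M) ≃ₗ[ZMod p]
      Module.Dual (ZMod p) ↥(Sha1 (hrl S) (tdual p M)))

/-- **Master statement of layer D** (to be assembled from the leaves). -/
def MasterSpec : Prop :=
  p ≠ 2 → pPrime p ∈ S → FinGlobSpec p S → FinLocSpec p S → Surj2GlobSpec p S →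
    Surj2LocSpec p S → InvSpec p S → CapSpec p S → TheoremDSpec p S

/-- **Leaf D-B.** S55 follows from Theorem D (bridge to the Prelude's `sha₁`, `sha₂`). -/
def BridgeSpec : Prop :=
  p ≠ 2 → pPrime p ∈ S → TheoremDSpec p S →
    ∀ (M : Rep (ZMod p) (AlgebraicClosure ℚ ≃ₐ[ℚ] AlgebraicClosure ℚ))
      [FiniteDimensional (ZMod p) M],
      (∀ m : M, ∃ F : IntermediateField ℚ (AlgebraicClosure ℚ), FiniteDimensional ℚ F ∧
        ∀ s ∈ F.fixingSubgroup, M.ρ s m = m) →
      (∀ q : Nat.Primes, q ∉ S → ∀ A : ValuationSubring (AlgebraicClosure ℚ),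
        A.LiesOverPrime (q : ℕ) → ∀ g ∈ A.inertiaSubgroupIn ℚ, M.ρ g = 1) →
      ∃ B : sha₁ S (M.dualTwist (cycloChar p)) →ₗ[ZMod p] sha₂ S M →ₗ[ZMod p] ZMod p,
        (∀ y, (∀ x, B y x = 0) → y = 0) ∧ (∀ x, (∀ y, B y x = 0) → x = 0)

end Fermat.Agent.S55.PT

end

end
-- ===== PACK-END S55/PT/Spec.lean

-- ===== PACK-BEGIN S55/Inv/WrH413/Global.lean
section








/-!
# S55 / INV-WR (helper413), part 5: the Brauer class of a `μ_p`-valued 2-cocycle

For a level-constant 2-cocycle `c` of `G_ℚ` with values in `μ_p = ofChar (cycloChar p)` we form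
the class `gClass p S c ∈ Br(ℚ) = gBr ⊤` of `(g, h) ↦ ζ ^ c(g, h)` and compute its localisations.
-/

set_option autoImplicit false
set_option linter.style.haveILetI false
set_option linter.unusedSectionVars false

noncomputable section

namespace Fermat.Agent.S55.Inv.H413

open Fermat.Agent.S55.PT Fermat.Agent.S55.G.Rec groupCohomology ExtCitation

local notation "Qb" => AlgebraicClosure ℚ
local notation "T" => (⊤ : Subgroup GQ)

variable (p : ℕ) [Fact p.Prime] (S : Finset Nat.Primes)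

/-- `kap` as a map of the underlying modules. -/
def kapT : ↥(mu p) →+ ↥(gModOn T) := kap p

lemma kapT_equivariant (g : ↥T) (a : ↥(mu p)) :
    kapT p ((mu p).ρ ((Subgroup.subtype T) g) a) = (gModOn T).ρ g (kapT p a) := by
  apply Additive.toMul.injective
  apply Units.ext
  exact kapV_equivariant p (g : GQ) a

/-- the global `ℚ̄ˣ`-valued 2-cochain `(g, h) ↦ ζ ^ c(g, h)` -/
def gCoch (c : GQ × GQ → ↥(mu p)) : ↥T × ↥T → ↥(gModOn T) :=
  pp₂ (mu p) (gModOn T) (Subgroup.subtype T) (kapT p) c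

lemma gCoch_apply (c : GQ × GQ → ↥(mu p)) (g h : ↥T) :
    gCoch p c (g, h) = kapT p (c ((g : GQ), (h : GQ))) := rfl

lemma gCoch_mem (c : ↥((globalLevels S).Z2 (mu p))) :
    gCoch p (c : GQ × GQ → ↥(mu p)) ∈ levelCocycles₂ (Subgroup.subtype T) (gModOn T) := by
  refine ⟨pp₂_mem_cocycles₂ (mu p) (gModOn T) (Subgroup.subtype T) (kapT p) (kapT_equivariant p) c.2.1, ?_⟩
  obtain ⟨U, ⟨F, hF, rfl⟩, h⟩ := c.2.2
  refine ⟨F, hF.1, fun g g' s s' hs hs' => ?_⟩
  rw [gCoch_apply, gCoch_apply]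
  exact congrArg (kapT p) (h (g : GQ) (g' : GQ) (s : GQ) (s' : GQ) hs hs')

/-- the Brauer class of `c` -/
def gClass (c : ↥((globalLevels S).Z2 (mu p))) : gBr T :=
  continuousH2π (Subgroup.subtype T) (gModOn T) ⟨gCoch p (c : GQ × GQ → ↥(mu p)), gCoch_mem p S c⟩

lemma gClass_torsion (c : ↥((globalLevels S).Z2 (mu p))) : p ^ 1 • gClass p S c = 0 := by
  rw [pow_one]
  unfold gClass
  rw [← map_nsmul]
  have : p • (⟨gCoch p (c : GQ × GQ → ↥(mu p)), gCoch_mem p S c⟩ :
      ↥(levelCocycles₂ (Subgroup.subtype T) (gModOn T))) = 0 := by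
    apply Subtype.ext
    funext ⟨g, h⟩
    show p • kapT p ((c : GQ × GQ → ↥(mu p)) ((g : GQ), (h : GQ))) = 0
    rw [← map_nsmul]
    have h0 : p • ((c : GQ × GQ → ↥(mu p)) ((g : GQ), (h : GQ))) = 0 := by
      show p • ((c : GQ × GQ → ↥(mu p)) ((g : GQ), (h : GQ)) : ZMod p) = 0
      rw [nsmul_eq_mul, ZMod.natCast_self, zero_mul]
    rw [h0, map_zero]
  rw [this, map_zero]

lemma isOpenQ_top : IsOpenQ T := ⟨⊥, inferInstance, le_top⟩

lemma isDoubleCosetReps_top (D : Subgroup GQ) : IsDoubleCosetReps T D {1} := by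
  intro g
  refine ⟨1, ⟨Finset.mem_singleton_self 1, g, Subgroup.mem_top g, 1, one_mem D, by simp⟩,
    fun r hr => Finset.mem_singleton.1 hr.1⟩

section Local

variable (q : ℕ) [Fact q.Prime]

local notation "Ω" => PadicAlgCl q
local notation "Gq" => (PadicAlgCl q ≃ₐ[ℚ_[q]] PadicAlgCl q)

/-- the local cyclotomic character, as a function -/
def chiq (g : Gq) : ZMod p := ((cycloChar p (localGaloisToGlobal q g) : (ZMod p)ˣ) : ZMod p)

lemma mem_locSub_top (τ : Gq) : τ ∈ locSub q 1 T := Subgroup.mem_top _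

/-- `lamq` as a map into the local module -/
def lamT : ZMod p →+ ↥(lModOn q (locSub q 1 T)) := lamq p q

lemma lamT_equivariant (g : ↥(locSub q 1 T)) (a : ZMod p) :
    (lModOn q (locSub q 1 T)).ρ g (lamT p q a) = lamT p q (chiq p q (g : Gq) * a) := by
  apply Additive.toMul.injective
  apply Units.ext
  exact (lamq_equivariant p q (g : Gq) a).symm

lemma locCochain_gCoch (c : GQ × GQ → ↥(mu p)) (τ₁ τ₂ : ↥(locSub q 1 T)) :
    locCochain₂ q 1 T (gCoch p c) (τ₁, τ₂) =
      lamT p q (c (localGaloisToGlobal q (τ₁ : Gq), localGaloisToGlobal q (τ₂ : Gq))) := by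
  apply Additive.toMul.injective
  apply Units.ext
  show padicEmbedding q ((1 : GQ)⁻¹ (kapV p (c ((1 : GQ) * localGaloisToGlobal q (τ₁ : Gq) * 1⁻¹,
    (1 : GQ) * localGaloisToGlobal q (τ₂ : Gq) * 1⁻¹)))) = padicEmbedding q (kapV p
      (c (localGaloisToGlobal q (τ₁ : Gq), localGaloisToGlobal q (τ₂ : Gq))))
  rw [inv_one, one_mul, mul_one, one_mul, mul_one]
  rfl

/-- If the restriction of `c` to `G_q` is a level-constant coboundary, the Brauer class of `c`
is trivial at `q`. -/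
theorem locBr_eq_zero_of_cob (c : ↥((globalLevels S).Z2 (mu p))) (x : Gq → ZMod p)
    (hx : IsLevelConstant₁ (localGaloisToGlobal q) x)
    (hdx : ∀ g h : Gq, chiq p q g * x h - x (g * h) + x g =
      (c : GQ × GQ → ↥(mu p)) (localGaloisToGlobal q g, localGaloisToGlobal q h)) :
    locBr q 1 T (gClass p S c) = 0 := by
  unfold gClass
  rw [locBr_mk, continuousH2π_eq_zero_iff, mem_levelCoboundaries₂_iff]
  refine ⟨fun τ => lamT p q (x (τ : Gq)), ?_, ?_⟩
  · obtain ⟨F, hF, h⟩ := hx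
    refine ⟨F, hF, fun g s hs => ?_⟩
    show lamT p q (x ((g : Gq) * (s : Gq))) = lamT p q (x (g : Gq))
    rw [h (g : Gq) (s : Gq) hs]
  · funext ⟨g, h⟩
    rw [d₁₂_hom_apply, coe_locCocycles₂]
    show (lModOn q (locSub q 1 T)).ρ g (lamT p q (x (h : Gq))) - lamT p q (x ((g : Gq) * (h : Gq)))
      + lamT p q (x (g : Gq)) = locCochain₂ q 1 T (gCoch p (c : GQ × GQ → ↥(mu p))) (g, h)
    rw [locCochain_gCoch, ← hdx, map_add, map_sub, lamT_equivariant]

/-- **Local Kummer injectivity**, applied to the Brauer class of `c`. -/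
theorem exists_cob_of_locBr_eq_zero (c : ↥((globalLevels S).Z2 (mu p)))
    (h0 : locBr q 1 T (gClass p S c) = 0) :
    ∃ x : Gq → ZMod p, IsLevelConstant₁ (localGaloisToGlobal q) x ∧
      ∀ g h : Gq, chiq p q g * x h - x (g * h) + x g =
        (c : GQ × GQ → ↥(mu p)) (localGaloisToGlobal q g, localGaloisToGlobal q h) := by
  unfold gClass at h0
  rw [locBr_mk, continuousH2π_eq_zero_iff, mem_levelCoboundaries₂_iff] at h0
  obtain ⟨bL, hbL, hd⟩ := h0
  refine local_kummer q p (lamq p q) (lamq_injective p q) (lamq_surj p q) (chiq p q)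
    (lamq_equivariant p q)
    (fun y => (c : GQ × GQ → ↥(mu p)) (localGaloisToGlobal q y.1, localGaloisToGlobal q y.2))
    (fun τ => Additive.toMul (bL ⟨τ, mem_locSub_top q τ⟩)) ?_ ?_
  · obtain ⟨F, hF, h⟩ := hbL
    refine ⟨F, hF, fun g s hs => ?_⟩
    exact congrArg Additive.toMul (h ⟨g, mem_locSub_top q g⟩ ⟨s, mem_locSub_top q s⟩ hs)
  · intro g h
    have h1 := congrFun hd (⟨g, mem_locSub_top q g⟩, ⟨h, mem_locSub_top q h⟩)
    rw [d₁₂_hom_apply, coe_locCocycles₂, locCochain_gCoch] at h1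
    have h2 := congrArg (fun m : ↥(lModOn q (locSub q 1 T)) =>
      ((Additive.toMul m : Ωˣ) : Ω)) h1
    exact h2

end Local

end Fermat.Agent.S55.Inv.H413

end

end
-- ===== PACK-END S55/Inv/WrH413/Global.lean

-- ===== PACK-BEGIN S55/G/Rec/L2H931/Arith.lean
section




/-!
# S55 / layer G / block REC : leaf (L2) `LocalStructureSpec`, part 2 (helper931)

Arithmetic of the unit ball `B` of a finite extension `E / ℚ_q` inside `ℚ̄_q`:
units, maximal ideal, uniformizers, residue degree, and the fundamental identity `e f = n`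
(from helper355's cardinality form).
-/

set_option autoImplicit false
set_option linter.style.haveILetI false

noncomputable section

namespace Fermat.Agent.S55.G.Rec.H931

open Fermat.Agent.S55

section VS

variable {F : Type} [Field F] (B : ValuationSubring F) (N : F →*₀ ℝ) (hN : ∀ x, 0 ≤ N x)
  (hB : ∀ x : F, x ∈ B ↔ N x ≤ 1)

include hN hB in
theorem L2_isUnit_iff (x : B) : IsUnit x ↔ N (x : F) = 1 := by
  constructor
  · intro hx
    obtain ⟨y, hy⟩ := hx.exists_right_inv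
    have h1 : N (x : F) * N (y : F) = 1 := by
      rw [← map_mul]
      have := congrArg (fun z : B => N (z : F)) hy
      simpa using this
    have hx1 : N (x : F) ≤ 1 := (hB _).1 x.2
    have hy1 : N (y : F) ≤ 1 := (hB _).1 y.2
    by_contra hne
    have hlt : N (x : F) < 1 := lt_of_le_of_ne hx1 hne
    have : N (x : F) * N (y : F) < 1 := by
      calc N (x : F) * N (y : F) ≤ N (x : F) * 1 :=
            mul_le_mul_of_nonneg_left hy1 (hN _)
        _ < 1 := by rw [mul_one]; exact hlt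
    rw [h1] at this
    exact lt_irrefl _ this
  · intro hx
    have hx0 : (x : F) ≠ 0 := by
      intro h0
      rw [h0, map_zero] at hx
      exact zero_ne_one hx
    have hinv : (x : F)⁻¹ ∈ B := by
      rw [hB, map_inv₀, hx, inv_one]
    refine IsUnit.of_mul_eq_one ⟨(x : F)⁻¹, hinv⟩ ?_
    apply Subtype.ext
    show (x : F) * (x : F)⁻¹ = 1
    exact mul_inv_cancel₀ hx0

include hN hB in
theorem L2_mem_maximalIdeal_iff (x : B) : x ∈ IsLocalRing.maximalIdeal B ↔ N (x : F) < 1 := by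
  rw [IsLocalRing.mem_maximalIdeal, mem_nonunits_iff, L2_isUnit_iff B N hN hB]
  have hx1 : N (x : F) ≤ 1 := (hB _).1 x.2
  constructor
  · intro h; exact lt_of_le_of_ne hx1 h
  · intro h; exact h.ne

include hN hB in
theorem L2_norm_unitGroup (u : Fˣ) (hu : u ∈ B.unitGroup) : N (u : F) = 1 := by
  have h1 : B.valuation (u : F) = 1 := (B.mem_unitGroup_iff u).1 hu
  have h2 : (u : F) ∈ B := (B.valuation_le_one_iff _).1 h1.le
  have h3 : ((u⁻¹ : Fˣ) : F) ∈ B := by
    rw [← B.valuation_le_one_iff, Units.val_inv_eq_inv_val, map_inv₀, h1, inv_one]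
  have h4 : N (u : F) ≤ 1 := (hB _).1 h2
  have h5 : N ((u⁻¹ : Fˣ) : F) ≤ 1 := (hB _).1 h3
  rw [Units.val_inv_eq_inv_val, map_inv₀] at h5
  have hpos : 0 < N (u : F) := lt_of_le_of_ne (hN _) (Ne.symm ((map_ne_zero N).2 u.ne_zero))
  have h6 : 1 ≤ N (u : F) := by
    rwa [inv_le_one₀ hpos] at h5
  exact le_antisymm h4 h6

end VS

section PadicBase

variable (q : ℕ) [Fact q.Prime]

/-- The unit ball of `ℚ_q` as a valuation subring. -/
def L2_A : ValuationSubring ℚ_[q] := L.unitBall63 ℚ_[q]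

variable {q}

theorem L2_mem_A {x : ℚ_[q]} : x ∈ L2_A q ↔ ‖x‖ ≤ 1 := L.mem_unitBall63 ℚ_[q] x

theorem L2_A_isLocal : L.IsLocalRingOfIntegers (L2_A q) :=
  L.isLocalRingOfIntegers_unitBall63 ℚ_[q]

variable (q) in
/-- `ℤ_q` is the unit ball. -/
def L2_equivA : ℤ_[q] ≃+* ↥(L2_A q) where
  toFun x := ⟨(x : ℚ_[q]), L2_mem_A.2 x.2⟩
  invFun y := ⟨(y : ℚ_[q]), L2_mem_A.1 y.2⟩
  left_inv _ := rfl
  right_inv _ := rfl
  map_mul' _ _ := rfl
  map_add' _ _ := rfl

theorem L2_card_residue_A : Nat.card (IsLocalRing.ResidueField (L2_A q)) = q := by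
  have e1 : IsLocalRing.ResidueField ℤ_[q] ≃+* IsLocalRing.ResidueField (L2_A q) :=
    IsLocalRing.ResidueField.mapEquiv (L2_equivA q)
  rw [← Nat.card_congr e1.toEquiv, Nat.card_congr (PadicInt.residueField (p := q)).toEquiv,
    Nat.card_zmod]

theorem L2_q_mem_A : (q : ℚ_[q]) ∈ L2_A q := by
  rw [L2_mem_A, Padic.norm_p]
  exact inv_le_one_of_one_le₀ (by exact_mod_cast (Fact.out : q.Prime).one_lt.le)

theorem L2_isUniformizer_q : L.IsUniformizer (L2_A q) (q : ℚ_[q]) := by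
  refine ⟨L2_q_mem_A, ?_⟩
  have hq : q.Prime := Fact.out
  have hirr : Irreducible (q : ℤ_[q]) := PadicInt.irreducible_p
  have := (MulEquiv.irreducible_iff (L2_equivA q).toMulEquiv).2 hirr
  exact this

end PadicBase

section Ext

variable {q : ℕ} [Fact q.Prime]

/-- The norm of `ℚ̄_q` restricted to an intermediate field. -/
def L2_N (E : IntermediateField ℚ_[q] (PadicAlgCl q)) : ↥E →*₀ ℝ where
  toFun x := ‖(x : PadicAlgCl q)‖
  map_zero' := by simp
  map_one' := by simp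
  map_mul' x y := by simp

theorem L2_N_apply (E : IntermediateField ℚ_[q] (PadicAlgCl q)) (x : E) :
    L2_N E x = ‖(x : PadicAlgCl q)‖ := rfl

/-- The structure of a finite extension `E / ℚ_q` inside `ℚ̄_q`: residue degree `f`, ramification
index `e`, uniformizer `ϖ`, with `e f = [E : ℚ_q]`. -/
theorem L2_structure (E : IntermediateField ℚ_[q] (PadicAlgCl q)) [FiniteDimensional ℚ_[q] E] :
    ∃ (f e : ℕ) (ϖ : E), 0 < f ∧ e * f = Module.finrank ℚ_[q] E ∧ ϖ ≠ 0 ∧
      ‖(ϖ : PadicAlgCl q)‖ < 1 ∧ ‖(ϖ : PadicAlgCl q)‖ ^ e = (q : ℝ)⁻¹ ∧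
      (∀ x : E, ‖(x : PadicAlgCl q)‖ < 1 → ‖(x : PadicAlgCl q)‖ ≤ ‖(ϖ : PadicAlgCl q)‖) ∧
      (∀ x : E, x ≠ 0 → ∃ (k : ℤ) (u : E), ‖(u : PadicAlgCl q)‖ = 1 ∧ x = ϖ ^ k * u) ∧
      (∀ x : E, ‖(x : PadicAlgCl q)‖ ≤ 1 → ‖(x : PadicAlgCl q) ^ (q ^ f) - x‖ < 1) ∧
      (∀ m, 0 < m →
        (∀ x : E, ‖(x : PadicAlgCl q)‖ ≤ 1 → ‖(x : PadicAlgCl q) ^ (q ^ m) - x‖ < 1) → f ≤ m) := by
  classical
  have hq : q.Prime := Fact.out
  obtain ⟨B, hBloc, hBmem⟩ := L.exists_ringOfIntegers_eq_unitBall63 q E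
  have hN : ∀ x, 0 ≤ L2_N E x := fun x => norm_nonneg (x : PadicAlgCl q)
  have hBmem' : ∀ x : E, x ∈ B ↔ L2_N E x ≤ 1 := hBmem
  haveI : IsDiscreteValuationRing B := hBloc.1
  haveI : Finite (IsLocalRing.ResidueField B) := hBloc.2.2
  letI : Fintype (IsLocalRing.ResidueField B) := Fintype.ofFinite _
  obtain ⟨ϖ, hϖm, hϖirr⟩ := L.H355.exists_isUniformizer hBloc.1
  have hϖ : L.IsUniformizer B ϖ := ⟨hϖm, hϖirr⟩
  have hϖ0 : ϖ ≠ 0 := L.H355.isUniformizer_ne_zero hϖ
  -- norm of the uniformizer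
  have hϖlt : ‖(ϖ : PadicAlgCl q)‖ < 1 := by
    have h1 : (⟨ϖ, hϖm⟩ : B) ∈ IsLocalRing.maximalIdeal B := by
      rw [IsLocalRing.mem_maximalIdeal]; exact hϖirr.not_isUnit
    have h2 := (L2_mem_maximalIdeal_iff B (L2_N E) hN hBmem' ⟨ϖ, hϖm⟩).1 h1
    rw [L2_N_apply] at h2
    exact h2
  have hϖpos : 0 < ‖(ϖ : PadicAlgCl q)‖ := by
    rw [norm_pos_iff]
    intro h0
    exact hϖ0 (Subtype.ext h0)
  -- the prime `q` in `B`
  have hqnorm : ‖((algebraMap ℚ_[q] E (q : ℚ_[q]) : E) : PadicAlgCl q)‖ = (q : ℝ)⁻¹ :=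
    L.norm_natCast_prime63 q
  have hqinv_lt : (q : ℝ)⁻¹ < 1 := inv_lt_one_of_one_lt₀ (by exact_mod_cast hq.one_lt)
  have hqB : algebraMap ℚ_[q] E (q : ℚ_[q]) ∈ B := by
    rw [hBmem, hqnorm]; exact hqinv_lt.le
  have hq0 : (⟨algebraMap ℚ_[q] E (q : ℚ_[q]), hqB⟩ : B) ≠ 0 := by
    intro h0
    have h1 := congrArg (fun z : B => ‖((z : E) : PadicAlgCl q)‖) h0
    simp only [hqnorm] at h1
    simp at h1
    exact hq.ne_zero h1
  obtain ⟨e, u, hu⟩ := IsDiscreteValuationRing.eq_unit_mul_pow_irreducible hq0 hϖirr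
  have hu' : algebraMap ℚ_[q] E (q : ℚ_[q]) = ((u : B) : E) * ϖ ^ e := by
    have := congrArg Subtype.val hu
    simpa using this
  have hunorm : ‖(((u : B) : E) : PadicAlgCl q)‖ = 1 := by
    have h2 := (L2_isUnit_iff B (L2_N E) hN hBmem' (u : B)).1 u.isUnit
    rw [L2_N_apply] at h2
    exact h2
  have hnorme : ‖(ϖ : PadicAlgCl q)‖ ^ e = (q : ℝ)⁻¹ := by
    rw [← hqnorm, hu']
    push_cast
    rw [norm_mul, norm_pow, hunorm, one_mul]
  have he : 0 < e := by
    rcases Nat.eq_zero_or_pos e with h0 | h0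
    · rw [h0, pow_zero] at hnorme
      rw [← hnorme] at hqinv_lt
      exact absurd hqinv_lt (lt_irrefl _)
    · exact h0
  have hval : B.valuation (algebraMap ℚ_[q] E (q : ℚ_[q])) = B.valuation ϖ ^ e := by
    rw [hu', map_mul, map_pow, B.valuation_unit u, one_mul]
  -- the fundamental identity
  have hfund := L.H355.card_residue_pow_eq L2_A_isLocal hBloc L2_isUniformizer_q hϖ hval he
  rw [L2_card_residue_A] at hfund
  have hcard1 : 1 < Nat.card (IsLocalRing.ResidueField B) := L.H355.one_lt_card_residue hBloc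
  obtain ⟨f, -, hf⟩ : ∃ f, f ≤ Module.finrank ℚ_[q] E ∧
      Nat.card (IsLocalRing.ResidueField B) = q ^ f := by
    apply (Nat.dvd_prime_pow hq).1
    rw [← hfund]
    exact dvd_pow_self _ he.ne'
  have hfpos : 0 < f := by
    rcases Nat.eq_zero_or_pos f with h0 | h0
    · rw [h0, pow_zero] at hf
      rw [hf] at hcard1
      exact absurd hcard1 (lt_irrefl _)
    · exact h0
  have hef : e * f = Module.finrank ℚ_[q] E := by
    rw [hf, ← pow_mul] at hfund
    have := Nat.pow_right_injective hq.two_le hfund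
    rw [← this, mul_comm]
  -- residues
  have hres : ∀ (x : E) (hx : x ∈ B) (m : ℕ),
      (IsLocalRing.residue B ⟨x, hx⟩) ^ (q ^ m) = IsLocalRing.residue B ⟨x, hx⟩ ↔
        ‖(x : PadicAlgCl q) ^ (q ^ m) - x‖ < 1 := by
    intro x hx m
    have h2 := L2_mem_maximalIdeal_iff B (L2_N E) hN hBmem' ((⟨x, hx⟩ : B) ^ (q ^ m) - ⟨x, hx⟩)
    rw [L2_N_apply] at h2
    rw [← map_pow, ← sub_eq_zero, ← map_sub, IsLocalRing.residue_eq_zero_iff, h2]
    rfl
  refine ⟨f, e, ϖ, hfpos, hef, hϖ0, hϖlt, hnorme, ?_, ?_, ?_, ?_⟩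
  · -- maximality of the norm of the uniformizer
    intro x hx
    have hxB : x ∈ B := (hBmem x).2 hx.le
    have h1 : (⟨x, hxB⟩ : B) ∈ IsLocalRing.maximalIdeal B := by
      have h2 := L2_mem_maximalIdeal_iff B (L2_N E) hN hBmem' ⟨x, hxB⟩
      rw [L2_N_apply] at h2
      exact h2.2 hx
    rw [hϖirr.maximalIdeal_eq, Ideal.mem_span_singleton'] at h1
    obtain ⟨y, hy⟩ := h1
    have h2 : (x : PadicAlgCl q) = ((y : E) : PadicAlgCl q) * (ϖ : PadicAlgCl q) := by
      have := congrArg (fun z : B => ((z : E) : PadicAlgCl q)) hy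
      simpa using this.symm
    rw [h2, norm_mul]
    calc ‖((y : E) : PadicAlgCl q)‖ * ‖(ϖ : PadicAlgCl q)‖ ≤ 1 * ‖(ϖ : PadicAlgCl q)‖ :=
          mul_le_mul_of_nonneg_right ((hBmem _).1 y.2) (norm_nonneg _)
      _ = ‖(ϖ : PadicAlgCl q)‖ := one_mul _
  · -- decomposition
    intro x hx
    obtain ⟨w, hw, hxw⟩ := L.H355.exists_unit_mul_zpow hBloc.1 hϖ (Units.mk0 x hx)
    refine ⟨L.H355.ordZ B ϖ (Units.mk0 x hx), (w : E), ?_, ?_⟩
    · have h2 := L2_norm_unitGroup B (L2_N E) hN hBmem' w hw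
      rw [L2_N_apply] at h2
      exact h2
    · have := congrArg (fun z : (↥E)ˣ => (z : E)) hxw
      simpa using this
  · -- the residue degree property
    intro x hx
    have hxB : x ∈ B := (hBmem x).2 hx
    rw [← hres x hxB f, ← hf, Nat.card_eq_fintype_card]
    exact FiniteField.pow_card _
  · -- minimality
    intro m hm hall
    have hall' : ∀ t : IsLocalRing.ResidueField B, t ^ (q ^ m) = t ^ 1 := by
      intro t
      obtain ⟨⟨x, hxB⟩, rfl⟩ := IsLocalRing.residue_surjective t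
      rw [pow_one, hres x hxB m]
      exact hall x ((hBmem x).1 hxB)
    have h1 := L.H355.modEq_of_forall_pow_eq hall'
    rw [hf] at h1
    have h2 : q ^ m ≡ q ^ 0 [MOD q ^ f - 1] := by simpa using h1
    have h3 := L.H355.modEq_of_pow_modEq hq.two_le hfpos h2
    have h4 : f ∣ m := (Nat.modEq_zero_iff_dvd).1 h3
    exact Nat.le_of_dvd hm h4

end Ext

end Fermat.Agent.S55.G.Rec.H931

end
end
-- ===== PACK-END S55/G/Rec/L2H931/Arith.lean

-- ===== PACK-BEGIN S55/Local/H964/T5.lean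
section


/-!
# S55, layer L, piece T5 : `H²(Gal(L/K), Lˣ)` is cyclic of order `[L : K]` (helper964)

`h2Cyclic_of` : the glue theorem deriving `H2CyclicStatement` (T5) from

* UR5 `ExistsUnramExtStatement`, UR6' `InertiaCardStatement` (`Spec2.lean`),
  UR1 `UnramCyclicStatement`, T2 `UnramNormRangeStatement`,
* LF2 `ExistsUnifStatement`, LF3 `IntUnitsComapStatement`,
* A4a, A4b, A4d (standard cocycles of cyclic groups),
* T4 `H2CardDvdStatement` (upper bound).

Proof (helper715's plan, §3 of `coord/S55-L.md`): `n = [L : K]`; `N / L` unramified of degree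
`n`, Galois over `K` (UR5); `I` the inertia subgroup of `Gal(N/K)`, `E = N^I`; `E / K` is
unramified, hence cyclic, and `Gal(N/L) → Gal(E/K)` is injective.  The standard cocycle of
`ϖK ^ ([E : K] / n)` for a suitable generator of `Gal(E/K)` inflates to a cocycle of `Gal(N/K)`
whose class has order divisible by `n` (T2 for `E / K`) and whose restriction to `Gal(N/L)` is
trivial (T2 for `N / L`, as `|I| = e(N/K) = e(L/K)`); by inflation–restriction (Hilbert 90) it
comes from a class of `H²(Gal(L/K), Lˣ)` of order divisible by `n`; conclude with T4.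
-/

set_option autoImplicit false
set_option linter.style.haveILetI false
set_option linter.unusedSectionVars false
set_option linter.unusedVariables false

namespace Fermat.Agent.S55.Local.H964

open groupCohomology Fermat.Agent.S55.Local

/-- The lower bound of T5 in cocycle form: there is a 2-cocycle of `Gal(L/K)` with values in
`Lˣ` such that if its `k`-th power is a coboundary then `[L : K] ∣ k`. -/
theorem exists_cocycle_order (hUR5 : ExistsUnramExtStatement) (hIC : InertiaCardStatement)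
    (hUR1 : UnramCyclicStatement) (hT2 : UnramNormRangeStatement) (hLF2 : ExistsUnifStatement)
    (hLF3 : IntUnitsComapStatement) (hA4a : CycCocycleIsCocycleStatement)
    (hA4b : CycCocycleCoboundaryIffStatement) (hA4d : CycCocyclePullbackStatement)
    (A F : Type) [CommRing A] [IsDomain A] [IsDiscreteValuationRing A]
    [IsAdicComplete (IsLocalRing.maximalIdeal A) A] [Finite (IsLocalRing.ResidueField A)]
    [Field F] [CharZero F] [Algebra A F] [IsFractionRing A F]
    (K : Type) [Field K] [Algebra F K] [FiniteDimensional F K]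
    (L : Type) [Field L] [Algebra F L] [Algebra K L] [IsScalarTower F K L]
    [FiniteDimensional K L] [IsGalois K L] :
    ∃ cL : (L ≃ₐ[K] L) × (L ≃ₐ[K] L) → Lˣ, IsMulCocycle₂ cL ∧
      ∀ k : ℕ, IsMulCoboundary₂ (fun p => cL p ^ k) → Module.finrank K L ∣ k := by
  classical
  have hnpos : 0 < Module.finrank K L := Module.finrank_pos
  obtain ⟨N, _, _, _, _, _, _, _, _, _, hNL, hdeg⟩ := hUR5 A F K L (Module.finrank K L) hnpos
  obtain ⟨I, hInormal, hI, hIcard⟩ := hIC A F K N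
  haveI := hInormal
  -- the maximal unramified subextension
  let Ku : IntermediateField K N := IntermediateField.fixedField I
  letI algFKu : Algebra F Ku := ((algebraMap K Ku).comp (algebraMap F K)).toAlgebra
  haveI : IsScalarTower F K Ku := IsScalarTower.of_algebraMap_eq (fun _ => rfl)
  haveI : IsGalois K Ku := IsGalois.of_fixedField_normal_subgroup I
  have hker : kerRes K Ku N = I := by
    unfold kerRes resHom
    rw [IntermediateField.restrictNormalHom_ker, IntermediateField.fixingSubgroup_fixedField]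
  have hKuK : IsUnram A F Ku K :=
    (hI Ku).2.2 (le_of_eq (IntermediateField.fixingSubgroup_fixedField I).symm)
  -- `Gal(N/L) ⊓ I = ⊥`
  have hdisj : kerRes K L N ⊓ kerRes K Ku N = ⊥ := by
    rw [hker]
    have h1 := (hI (IntermediateField.fixedField (kerRes K L N))).1
    rw [IntermediateField.fixingSubgroup_fixedField] at h1
    apply h1.1
    intro x
    obtain ⟨y, hy⟩ := hNL x
    have hmem : algebraMap L N (y : L) ∈ IntermediateField.fixedField (kerRes K L N) := by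
      rw [IntermediateField.mem_fixedField_iff]
      intro s hs
      exact (mem_kerRes_iff s).1 hs _
    have hne : (⟨algebraMap L N (y : L), hmem⟩ :
        IntermediateField.fixedField (kerRes K L N)) ≠ 0 := by
      intro h0
      have := congrArg Subtype.val h0
      simp at this
    refine ⟨Units.mk0 _ hne, ?_⟩
    have e1 : unitsIncl N (IntermediateField.fixedField (kerRes K L N)) (Units.mk0 _ hne) =
        unitsIncl N L y := Units.ext rfl
    rw [e1]
    exact hy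
  exact exists_cocycle_lower_bound hUR1 hT2 hLF2 hLF3 hA4a hA4b hA4d A F K L Ku N hNL hdeg hKuK
    hdisj (by rw [hker]; exact hIcard)

/-- **T5** (glue): `H²(Gal(L/K), Lˣ)` is cyclic of order `[L : K]`. -/
theorem h2Cyclic_of (hUR5 : ExistsUnramExtStatement) (hIC : InertiaCardStatement)
    (hUR1 : UnramCyclicStatement) (hT2 : UnramNormRangeStatement) (hLF2 : ExistsUnifStatement)
    (hLF3 : IntUnitsComapStatement) (hA4a : CycCocycleIsCocycleStatement)
    (hA4b : CycCocycleCoboundaryIffStatement) (hA4d : CycCocyclePullbackStatement)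
    (hT4 : H2CardDvdStatement) : H2CyclicStatement := by
  intro A F _ _ _ _ _ _ _ _ _ K _ _ _ L _ _ _ _ _ _
  have hnpos : 0 < Module.finrank K L := Module.finrank_pos
  obtain ⟨cL, hcL, hlow⟩ :=
    exists_cocycle_order hUR5 hIC hUR1 hT2 hLF2 hLF3 hA4a hA4b hA4d A F K L
  refine card_eq_and_isAddCyclic hnpos (hT4 A F K L)
    (H2π (Rep.ofAlgebraAutOnUnits K L) (cocyclesOfIsMulCocycle₂ hcL)) (fun k hk => hlow k ?_)
  rw [← map_nsmul, H2π_eq_zero_iff] at hk
  have h1 := isMulCoboundary₂_of_mem_coboundaries₂ _ hk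
  exact h1

end Fermat.Agent.S55.Local.H964

end
-- ===== PACK-END S55/Local/H964/T5.lean

-- ===== PACK-BEGIN S55/T/NakCoverH719.lean
section


/-!
# S55, layer T, leaf T6a (Nakayama) — torsion-free covers and reduction mod `p` (helper719)

* `PTorsionFree p M` : multiplication by `p` is injective on `M`;
* `coverSC X : 0 → K → coind₁ (k^(X)) → X → 0`, with `K` and the middle term torsion-free
  (if `k` is);
* `pSC A p : 0 → A → A → A/p → 0` for `p`-torsion-free `A`.
-/

set_option autoImplicit false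
set_option linter.style.haveILetI false

open CategoryTheory Limits groupCohomology Rep

namespace Fermat.Agent.S55.T.H719

open Fermat.Agent.S55.H572

noncomputable section

variable {k G : Type} [CommRing k] [Group G]

/-- Multiplication by `p` is injective. -/
def PTorsionFree (p : ℕ) (M : Type) [AddCommGroup M] : Prop := ∀ x : M, p • x = 0 → x = 0

theorem pTorsionFree_of_injective {p : ℕ} {M N : Type} [AddCommGroup M] [AddCommGroup N]
    (f : M →+ N) (hf : Function.Injective f) (hN : PTorsionFree p N) : PTorsionFree p M := by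
  intro x hx
  apply hf
  rw [map_zero]
  apply hN
  rw [← map_nsmul, hx, map_zero]

theorem pTorsionFree_ihom {p : ℕ} (R X : Rep.{0} k G) (hX : PTorsionFree p X.V) :
    PTorsionFree p ((Rep.ihom R).obj X).V := by
  intro φ hφ
  apply LinearMap.ext
  intro r
  apply hX
  have := congrArg (fun χ : R.V →ₗ[k] X.V => χ r) hφ
  exact this

theorem pTorsionFree_coind₁ {p : ℕ} (A : Rep.{0} k G) (hA : PTorsionFree p A.V) :
    PTorsionFree p (coind₁ A).V := by
  intro f hf
  apply Subtype.ext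
  funext x
  apply hA
  have := congrArg (fun χ : (coind₁ A).V => χ.1 x) hf
  simpa using this

theorem pTorsionFree_finsupp {p : ℕ} (hk : PTorsionFree p k) (ι : Type) :
    PTorsionFree p (ι →₀ k) := by
  intro f hf
  apply Finsupp.ext
  intro i
  apply hk
  have := congrArg (fun χ : ι →₀ k => χ i) hf
  simpa using this

/-! ## The free cover -/

section Cover

variable [Fintype G]

/-- The coefficient module of the cover: the free `k`-module on the set `X`, with trivial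
action. -/
abbrev coverCoeff (X : Rep.{0} k G) : Rep.{0} k G := Rep.trivial k G (X.V →₀ k)

/-- Underlying linear map of `coverπ`. -/
def coverπLin (X : Rep.{0} k G) : (coind₁ (coverCoeff X)).V →ₗ[k] X.V where
  toFun f := ∑ x : G, X.ρ x⁻¹ (Finsupp.linearCombination k (id : X.V → X.V) (f.1 x))
  map_add' f g := by
    rw [← Finset.sum_add_distrib]
    refine Finset.sum_congr rfl fun x _ => ?_
    rw [← map_add, ← map_add]
    rfl
  map_smul' r f := by
    rw [RingHom.id_apply, Finset.smul_sum]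
    refine Finset.sum_congr rfl fun x _ => ?_
    rw [← map_smul, ← map_smul]
    rfl

/-- The cover `coind₁ (k^(X)) ⟶ X`. -/
def coverπ (X : Rep.{0} k G) : coind₁ (coverCoeff X) ⟶ X :=
  Rep.ofHom (ρ := (coind₁ (coverCoeff X)).ρ) (σ := X.ρ) ⟨coverπLin X, fun g => by
    apply LinearMap.ext
    intro f
    change ∑ x : G, X.ρ x⁻¹ (Finsupp.linearCombination k (id : X.V → X.V) (f.1 (x * g))) =
      X.ρ g (∑ x : G, X.ρ x⁻¹ (Finsupp.linearCombination k (id : X.V → X.V) (f.1 x)))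
    rw [map_sum]
    refine Fintype.sum_equiv (Equiv.mulRight g) _ _ fun x => ?_
    change X.ρ x⁻¹ _ = X.ρ g (X.ρ (x * g)⁻¹ _)
    rw [← Module.End.mul_apply, ← map_mul, mul_inv_rev, mul_inv_cancel_left]
    rfl⟩

theorem coverπ_hom_apply (X : Rep.{0} k G) (f : (coind₁ (coverCoeff X)).V) :
    (coverπ X).hom f =
      ∑ x : G, X.ρ x⁻¹ (Finsupp.linearCombination k (id : X.V → X.V) (f.1 x)) := rfl

instance coverπ_epi (X : Rep.{0} k G) : Epi (coverπ X) := by
  classical
  rw [Rep.epi_iff_surjective]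
  intro a
  refine ⟨mkCoind (res (⊥ : Subgroup G).subtype (coverCoeff X))
    (fun x => if x = 1 then Finsupp.single a 1 else 0), ?_⟩
  rw [coverπ_hom_apply]
  rw [Finset.sum_eq_single (1 : G)]
  · simp
  · intro x _ hx
    simp [hx]
  · intro h; exact absurd (Finset.mem_univ _) h

/-- The short exact sequence `0 → K → coind₁ (k^(X)) → X → 0`. -/
def coverSC (X : Rep.{0} k G) : ShortComplex (Rep.{0} k G) :=
  ShortComplex.mk (kernel.ι (coverπ X)) (coverπ X) (kernel.condition _)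

theorem coverSC_shortExact (X : Rep.{0} k G) : (coverSC X).ShortExact where
  exact := ShortComplex.exact_of_f_is_kernel _ (kernelIsKernel _)
  mono_f := equalizer.ι_mono
  epi_g := coverπ_epi X

theorem pTorsionFree_coverSC_X₂ {p : ℕ} (hk : PTorsionFree p k) (X : Rep.{0} k G) :
    PTorsionFree p (coverSC X).X₂.V :=
  pTorsionFree_coind₁ _ (pTorsionFree_finsupp hk _)

theorem pTorsionFree_coverSC_X₁ {p : ℕ} (hk : PTorsionFree p k) (X : Rep.{0} k G) :
    PTorsionFree p (coverSC X).X₁.V :=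
  pTorsionFree_of_injective (coverSC X).f.hom.toLinearMap.toAddMonoidHom
    ((Rep.mono_iff_injective _).1 (coverSC_shortExact X).mono_f) (pTorsionFree_coverSC_X₂ hk X)

end Cover

/-! ## Reduction mod `p` -/

theorem nsmul_id_hom_apply (A : Rep.{0} k G) (p : ℕ) (x : A.V) :
    (p • 𝟙 A : A ⟶ A).hom x = p • x := by
  rw [← Nat.cast_smul_eq_nsmul k p (𝟙 A), Rep.smul_hom]
  change (p : k) • x = p • x
  exact Nat.cast_smul_eq_nsmul k p x

/-- The short complex `A --p--> A --> A/p`. -/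
def pSC (A : Rep.{0} k G) (p : ℕ) : ShortComplex (Rep.{0} k G) :=
  ShortComplex.mk (p • 𝟙 A) (cokernel.π (p • 𝟙 A)) (cokernel.condition _)

theorem pSC_shortExact (A : Rep.{0} k G) (p : ℕ) (hA : PTorsionFree p A.V) :
    (pSC A p).ShortExact where
  exact := ShortComplex.exact_of_g_is_cokernel _ (cokernelIsCokernel _)
  mono_f := by
    rw [Rep.mono_iff_injective]
    intro (x : A.V) (y : A.V) h
    have h' : (p • 𝟙 A : A ⟶ A).hom x = (p • 𝟙 A : A ⟶ A).hom y := h
    rw [nsmul_id_hom_apply, nsmul_id_hom_apply] at h'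
    have h2 : p • (x - y) = 0 := by rw [smul_sub, h', sub_self]
    exact sub_eq_zero.1 (hA _ h2)
  epi_g := coequalizer.π_epi

theorem pSC_X₃_nsmul (A : Rep.{0} k G) (p : ℕ) (v : (pSC A p).X₃.V) : p • v = 0 := by
  obtain ⟨(a : A.V), rfl⟩ :=
    (Rep.epi_iff_surjective (cokernel.π (p • 𝟙 A : A ⟶ A))).1 coequalizer.π_epi v
  have h1 : (cokernel.π (p • 𝟙 A : A ⟶ A)).hom ((p • 𝟙 A : A ⟶ A).hom a) = 0 :=
    congrArg (fun f : A ⟶ cokernel (p • 𝟙 A : A ⟶ A) => f.hom a)
      (cokernel.condition (p • 𝟙 A : A ⟶ A))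
  rw [nsmul_id_hom_apply, map_nsmul] at h1
  exact h1

end

end Fermat.Agent.S55.T.H719

end
-- ===== PACK-END S55/T/NakCoverH719.lean

-- ===== PACK-BEGIN S55/G/UnitsHerbrand.lean
section
/-
S55, layer G, block G-U (helper595): **the Herbrand quotient of the units and of the `T`-units
of a cyclic extension of number fields** — final theorems of the block.

For `L/K` cyclic of degree `n` with generator `σ`, `f = σ - 1`, `g = N` on `Additive Lˣ`:

* `unitsHerbrandSpec`  : `[𝒪_L^× ∩ ker f : g 𝒪_L^×] * n = [𝒪_L^× ∩ ker g : f 𝒪_L^×] * ∏_{v | ∞} n_v`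
  with both indices finite;
* `sUnitsHerbrandSpec` : the same for the `T`-units with `∏_{v | ∞} n_v * ∏_{v ∈ T} e_v f_v`.

Leaves: helper379 (`PermSpec`), helper793 (`LatticeSpec`), helper101 (`UnitsLogSpec`),
helper434 (`OrbitInfSpec`), helper707 (`SUnitsOrdSpec`, `SUnitsStableSpec`),
helper831 (`TraceZeroBasisSpec`); assemblies: helper595.
-/














set_option autoImplicit false

namespace Fermat.Agent.S55.G

universe u v

/-- Herbrand quotient of the trace-zero permutation lattice. -/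
theorem traceZeroSpec : TraceZeroSpec.{u, v} := traceZeroSpec_of Perm379.permSpec

/-- **Herbrand quotient of the units** of a cyclic extension of number fields. -/
theorem unitsHerbrandSpec : UnitsHerbrandSpec.{u, v} :=
  unitsHerbrandSpec_of Log101.unitsLogSpec Lat793.latticeSpec traceZeroSpec
    Orb434.orbitInfSpec traceZeroBasisSpec

/-- **Herbrand quotient of the `T`-units** of a cyclic extension of number fields. -/
theorem sUnitsHerbrandSpec : SUnitsHerbrandSpec.{u, v} :=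
  sUnitsHerbrandSpec_of unitsHerbrandSpec OrdH707.sUnitsOrd Perm379.permSpec
    StabH707.sUnitsStable

end Fermat.Agent.S55.G

end
-- ===== PACK-END S55/G/UnitsHerbrand.lean

-- ===== PACK-BEGIN S55/G/PL1H597/Surj.lean
section
/-
S55 (Poitou–Tate), layer G, leaf G-PL1 (`PlacePrimeSpec`) — helper597.
Part 4: surjectivity of `𝔪 ↦ primeOf 𝔪` onto the primes above `S` (integrality argument).
-/


set_option autoImplicit false
set_option linter.unusedSectionVars false
set_option linter.style.haveILetI false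
set_option linter.unusedSimpArgs false
set_option backward.isDefEq.respectTransparency false

open scoped NumberField TensorProduct
open IsDedekindDomain Polynomial

noncomputable section

namespace Fermat.Agent.S55.G.PL1H597

open Fermat.Agent.S55.G

variable {S : Finset Nat.Primes} {L : Type} [Field L] [NumberField L]

/-! ### `L ⊗ ℚ_S` is Artinian -/

instance isArtinianRing_QS : IsArtinianRing (QS S) :=
  inferInstanceAs (IsArtinianRing (∀ q : S, Qq q.1))

instance isArtinianRing_AS : IsArtinianRing (AS S L) := by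
  haveI : IsArtinianRing (QS S ⊗[ℚ] L) := IsArtinianRing.of_finite (QS S) (QS S ⊗[ℚ] L)
  exact Function.Surjective.isArtinianRing
    (f := ((Algebra.TensorProduct.comm ℚ (QS S) L : (QS S ⊗[ℚ] L) ≃ₐ[ℚ] (L ⊗[ℚ] QS S)) :
      (QS S ⊗[ℚ] L) →+* (L ⊗[ℚ] QS S)))
    (Algebra.TensorProduct.comm ℚ (QS S) L).surjective

instance finite_SPlace : Finite (SPlace S L) :=
  inferInstanceAs (Finite (MaximalSpectrum (AS S L)))

/-! ### Global integrality from local integrality -/

lemma exists_monic_eval₂_eq_zero (u : AS S L) (h : ∀ 𝔪 : SPlace S L, IntAS 𝔪 u) :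
    ∃ P : (ZS S)[X], P.Monic ∧ Polynomial.eval₂ (zsIncl S L) u P = 0 := by
  classical
  haveI : Fintype (SPlace S L) := Fintype.ofFinite _
  choose P hP hPu using h
  let Q : (ZS S)[X] := ∏ 𝔪 : SPlace S L, P 𝔪
  have hQ : Q.Monic := Polynomial.monic_prod_of_monic _ _ (fun 𝔪 _ => hP 𝔪)
  have hQu : Polynomial.eval₂ (zsIncl S L) u Q ∈ Ideal.jacobson (⊥ : Ideal (AS S L)) := by
    rw [Ideal.jacobson, Ideal.mem_sInf]
    rintro J ⟨-, hJ⟩
    have h1 : Polynomial.eval₂ (zsIncl S L) u Q =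
        ∏ 𝔪 : SPlace S L, Polynomial.eval₂ (zsIncl S L) u (P 𝔪) :=
      Polynomial.eval₂_finsetProd _ _ _ _
    rw [h1]
    exact Ideal.mem_of_dvd _ (Finset.dvd_prod_of_mem _ (Finset.mem_univ (⟨J, hJ⟩ : SPlace S L)))
      (hPu ⟨J, hJ⟩)
  obtain ⟨n, hn⟩ := IsArtinianRing.isNilpotent_jacobson_bot (R := AS S L)
  refine ⟨Q ^ n, hQ.pow n, ?_⟩
  rw [Polynomial.eval₂_pow]
  have h2 := Ideal.pow_mem_pow hQu n
  rw [hn] at h2
  exact h2

/-! ### The integral model `𝓞 L ⊗ ℤ_S` -/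

variable (S L) in
/-- The comparison map `𝓞 L ⊗[ℤ] ℤ_S → L ⊗[ℚ] ℚ_S`. -/
def iotaT : (𝓞 L ⊗[ℤ] ZS S) →ₐ[ℤ] AS S L :=
  Algebra.TensorProduct.lift
    (((asDiag S L : L →ₐ[ℚ] AS S L) : L →+* AS S L).comp (algebraMap (𝓞 L) L)).toIntAlgHom
    (zsIncl S L).toIntAlgHom
    (fun _ _ => Commute.all _ _)

lemma iotaT_tmul (a : 𝓞 L) (z : ZS S) :
    iotaT S L (a ⊗ₜ[ℤ] z) = (a : L) ⊗ₜ[ℚ] (z : QS S) := by
  simp [iotaT, zsIncl, asIncl]

instance flat_int_QS : Module.Flat ℤ (QS S) := Module.Flat.trans ℤ ℚ (QS S)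

lemma iotaT_injective : Function.Injective (iotaT S L) := by
  let f : 𝓞 L →ₗ[ℤ] L := (Algebra.linearMap (𝓞 L) L).restrictScalars ℤ
  let g : ZS S →ₗ[ℤ] QS S := (ZS S).subtype.toIntAlgHom.toLinearMap
  have hf : Function.Injective f := NumberField.RingOfIntegers.coe_injective
  have hg : Function.Injective g := Subtype.val_injective
  have h1 : Function.Injective (TensorProduct.map f g) :=
    TensorProduct.map_injective_of_flat_flat' f g hf hg
  let e : L ⊗[ℤ] QS S ≃ₗ[ℤ] L ⊗[ℚ] QS S :=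
    TensorProduct.equivOfCompatibleSMul ℚ ℤ ℤ L (QS S)
  have h2 : ∀ t, iotaT S L t = e (TensorProduct.map f g t) := by
    intro t
    induction t using TensorProduct.induction_on with
    | zero => simp
    | tmul a z =>
      rw [iotaT_tmul, TensorProduct.map_tmul]
      rfl
    | add t₁ t₂ h₁ h₂ => rw [map_add, map_add, map_add, h₁, h₂]
  intro t₁ t₂ h
  rw [h2, h2] at h
  exact h1 (e.injective h)

/-- The residue map `ℤ_S → ℤ_q`. -/
def zsToPadicInt (q : S) : letI : Fact (q.1 : ℕ).Prime := ⟨q.1.2⟩; ZS S →+* ℤ_[(q.1 : ℕ)] :=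
  letI : Fact (q.1 : ℕ).Prime := ⟨q.1.2⟩
  { toFun := fun z => ⟨QS.toPi S z.1 q, (mem_Zq _ _).1 (z.2 q)⟩
    map_one' := rfl
    map_mul' := fun _ _ => rfl
    map_zero' := rfl
    map_add' := fun _ _ => rfl }

/-- The residue map `ℤ_S → 𝓞 L ⧸ w` for a prime `w` above `q ∈ S`. -/
def zsRes (w : HeightOneSpectrum (𝓞 L)) (q : S)
    (hq : (((q.1 : ℕ) : ℕ) : 𝓞 L) ∈ w.asIdeal) : ZS S →+* (𝓞 L ⧸ w.asIdeal) :=
  letI : Fact (q.1 : ℕ).Prime := ⟨q.1.2⟩
  haveI : CharP (𝓞 L ⧸ w.asIdeal) (q.1 : ℕ) := by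
    haveI : Nontrivial (𝓞 L ⧸ w.asIdeal) := Ideal.Quotient.nontrivial_iff.2 w.isPrime.ne_top
    rw [CharP.charP_iff_prime_eq_zero q.1.2]
    have : (((q.1 : ℕ) : ℕ) : 𝓞 L ⧸ w.asIdeal) =
        Ideal.Quotient.mk w.asIdeal (((q.1 : ℕ) : ℕ) : 𝓞 L) := (map_natCast _ _).symm
    rw [this, Ideal.Quotient.eq_zero_iff_mem]
    exact hq
  ((ZMod.castHom (dvd_refl (q.1 : ℕ)) (𝓞 L ⧸ w.asIdeal)).comp PadicInt.toZMod).comp
    (zsToPadicInt q)

/-- The reduction map `𝓞 L ⊗[ℤ] ℤ_S → 𝓞 L ⧸ w` for a prime `w` above `q ∈ S`. -/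
def phiW (w : HeightOneSpectrum (𝓞 L)) (q : S)
    (hq : (((q.1 : ℕ) : ℕ) : 𝓞 L) ∈ w.asIdeal) : (𝓞 L ⊗[ℤ] ZS S) →ₐ[ℤ] (𝓞 L ⧸ w.asIdeal) :=
  Algebra.TensorProduct.lift (Ideal.Quotient.mk w.asIdeal).toIntAlgHom
    (zsRes w q hq).toIntAlgHom (fun _ _ => Commute.all _ _)

lemma phiW_tmul_one (w : HeightOneSpectrum (𝓞 L)) (q : S)
    (hq : (((q.1 : ℕ) : ℕ) : 𝓞 L) ∈ w.asIdeal) (a : 𝓞 L) :
    phiW w q hq (a ⊗ₜ[ℤ] 1) = Ideal.Quotient.mk w.asIdeal a := by
  simp [phiW]

/-! ### Surjectivity -/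

lemma exists_mem_notMem (w : HeightOneSpectrum (𝓞 L)) (hab : IsAbove S L w)
    (hw : ∀ 𝔪 : SPlace S L, primeOf 𝔪 ≠ w) :
    ∃ x : 𝓞 L, x ∈ w.asIdeal ∧ x ≠ 0 ∧ ∀ 𝔪 : SPlace S L, x ∉ (primeOf 𝔪).asIdeal := by
  classical
  haveI : Fintype (SPlace S L) := Fintype.ofFinite _
  by_cases hne : Nonempty (SPlace S L)
  · obtain ⟨𝔪₀⟩ := hne
    by_contra hcon
    push Not at hcon
    have hsub : ((w.asIdeal : Ideal (𝓞 L)) : Set (𝓞 L)) ⊆
        ⋃ 𝔪 ∈ ((Finset.univ : Finset (SPlace S L)) : Set (SPlace S L)),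
          ((primeOf 𝔪).asIdeal : Set (𝓞 L)) := by
      intro x hx
      rcases eq_or_ne x 0 with rfl | hx0
      · exact Set.mem_biUnion (Finset.mem_coe.2 (Finset.mem_univ 𝔪₀)) (Ideal.zero_mem _)
      · obtain ⟨𝔪, h𝔪⟩ := hcon x hx hx0
        exact Set.mem_biUnion (Finset.mem_coe.2 (Finset.mem_univ 𝔪)) h𝔪
    obtain ⟨𝔪, -, hle⟩ := (Ideal.subset_union_prime (f := fun 𝔪 : SPlace S L => (primeOf 𝔪).asIdeal)
      𝔪₀ 𝔪₀ (fun 𝔪 _ _ _ => (primeOf 𝔪).isPrime)).1 hsub
    apply hw 𝔪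
    apply HeightOneSpectrum.ext
    exact (w.isMaximal.eq_of_le (primeOf 𝔪).isPrime.ne_top hle).symm
  · obtain ⟨q, hqS, hq⟩ := hab
    refine ⟨((q : ℕ) : 𝓞 L), hq, ?_, fun 𝔪 => absurd ⟨𝔪⟩ hne⟩
    exact_mod_cast q.2.ne_zero

theorem exists_primeOf_eq (w : HeightOneSpectrum (𝓞 L)) (hab : IsAbove S L w) :
    ∃ 𝔪 : SPlace S L, primeOf 𝔪 = w := by
  by_contra hcon
  push Not at hcon
  obtain ⟨x, hxw, hx0, hx⟩ := exists_mem_notMem w hab hcon
  obtain ⟨q, hqS, hq⟩ := hab
  have hxL : (x : L) ≠ 0 := fun h => hx0 (NumberField.RingOfIntegers.coe_eq_zero_iff.1 h)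
  -- local integrality of `x⁻¹`
  have hint : ∀ 𝔪 : SPlace S L, IntAS 𝔪 (asDiag S L ((x : L)⁻¹)) := by
    intro 𝔪
    have := hx 𝔪
    rw [mem_primeOf_iff_intAS] at this
    push Not at this
    exact this.2
  obtain ⟨P, hP, hPu⟩ := exists_monic_eval₂_eq_zero _ hint
  -- pass to the reversed polynomial
  have h1 : asDiag S L (x : L) * asDiag S L ((x : L)⁻¹) = 1 := by
    rw [← map_mul, mul_inv_cancel₀ hxL, map_one]
  letI inv : Invertible (asDiag S L ((x : L)⁻¹)) :=
    ⟨asDiag S L (x : L), h1, by rw [mul_comm]; exact h1⟩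
  have h2 : Polynomial.eval₂ (zsIncl S L) (asDiag S L (x : L)) P.reverse = 0 :=
    (Polynomial.eval₂_reverse_eq_zero_iff (zsIncl S L) (asDiag S L ((x : L)⁻¹)) P).2 hPu
  -- lift the identity to `𝓞 L ⊗ ℤ_S`
  let incl : ZS S →+* (𝓞 L ⊗[ℤ] ZS S) :=
    (Algebra.TensorProduct.includeRight : ZS S →ₐ[ℤ] (𝓞 L ⊗[ℤ] ZS S))
  let τ : 𝓞 L ⊗[ℤ] ZS S := Polynomial.eval₂ incl (x ⊗ₜ[ℤ] 1) P.reverse
  have hτ : τ = 0 := by
    apply iotaT_injective
    rw [map_zero]
    have h3 : ((iotaT S L : (𝓞 L ⊗[ℤ] ZS S) →+* AS S L)).comp incl = zsIncl S L := by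
      ext z
      change iotaT S L ((1 : 𝓞 L) ⊗ₜ[ℤ] z) = _
      rw [iotaT_tmul]
      simp [zsIncl, asIncl]
    have h4 : iotaT S L (x ⊗ₜ[ℤ] (1 : ZS S)) = asDiag S L (x : L) := by
      rw [iotaT_tmul]
      rfl
    have := Polynomial.hom_eval₂ P.reverse incl
      ((iotaT S L : (𝓞 L ⊗[ℤ] ZS S) →+* AS S L)) (x ⊗ₜ[ℤ] 1)
    rw [h3] at this
    change iotaT S L τ = 0
    change iotaT S L τ = _ at this
    rw [this]
    change Polynomial.eval₂ (zsIncl S L) (iotaT S L (x ⊗ₜ[ℤ] (1 : ZS S))) P.reverse = 0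
    rw [h4]
    exact h2
  -- reduce modulo `w`
  have h5 := Polynomial.hom_eval₂ P.reverse incl
      ((phiW w ⟨q, hqS⟩ hq : (𝓞 L ⊗[ℤ] ZS S) →+* (𝓞 L ⧸ w.asIdeal))) (x ⊗ₜ[ℤ] 1)
  change phiW w ⟨q, hqS⟩ hq τ = Polynomial.eval₂ _ (phiW w ⟨q, hqS⟩ hq (x ⊗ₜ[ℤ] 1)) _ at h5
  rw [hτ, map_zero, phiW_tmul_one, Ideal.Quotient.eq_zero_iff_mem.2 hxw,
    Polynomial.eval₂_at_zero, Polynomial.coeff_zero_reverse, hP.leadingCoeff, map_one] at h5
  haveI : Nontrivial (𝓞 L ⧸ w.asIdeal) := Ideal.Quotient.nontrivial_iff.2 w.isPrime.ne_top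
  exact zero_ne_one h5

end Fermat.Agent.S55.G.PL1H597

end
end
-- ===== PACK-END S55/G/PL1H597/Surj.lean

-- ===== PACK-BEGIN S55/K/H724/Basic.lean
section


/-!
# S55 / layer K : basic cochain lemmas for the leaves K-T3, K-T4   (helper724)

* additive equivariant maps between representations over DIFFERENT coefficient rings commute
  with the differentials `d₀₁`, `d₁₂`, `d₂₃`, `d34` (`comp_d01`, …);
* `K-I3` in degrees 0 and 1 (`smooth_of_d01_lc`, `smooth_of_d12_lc`);
* a smooth level-constant cochain has level-constant coboundary (`d01_lc_of_smooth`,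
  `d12_lc_of_smooth`);
* common normal levels for finitely many smooth elements (`exists_common_level`);
* level-constant functions have finitely many values (`finite_range_of_lc`).
-/

set_option autoImplicit false

noncomputable section

namespace Fermat.Agent.S55.K.H724

open groupCohomology Fermat.Agent.S55.PT Fermat.Agent.S55.K

/-! ### additive equivariant maps -/

section Equiv

variable {G : Type} [Group G] {k k' : Type} [CommRing k] [CommRing k']
variable {A : Rep.{0, 0, 0} k G} {B : Rep.{0, 0, 0} k' G}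

/-- `φ : A →+ B` commutes with the actions. -/
def IsAddEquivariant (φ : A →+ B) : Prop := ∀ (g : G) (a : A), φ (A.ρ g a) = B.ρ g (φ a)

variable {φ : A →+ B} (hφ : IsAddEquivariant φ)

include hφ

lemma comp_d01 (a : A) : (φ ∘ (d₀₁ A).hom a : G → B) = (d₀₁ B).hom (φ a) := by
  funext g
  simp only [Function.comp_apply, d₀₁_hom_apply, map_sub]
  rw [hφ g a]

lemma comp_d12 (f : G → A) : (φ ∘ (d₁₂ A).hom f : G × G → B) = (d₁₂ B).hom (φ ∘ f) := by
  funext ⟨g, h⟩
  simp only [Function.comp_apply, d₁₂_hom_apply, map_sub, map_add]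
  rw [hφ g _]

lemma comp_d23 (f : G × G → A) :
    (φ ∘ (d₂₃ A).hom f : G × G × G → B) = (d₂₃ B).hom (φ ∘ f) := by
  funext ⟨g, h, j⟩
  simp only [Function.comp_apply, d₂₃_hom_apply, map_sub, map_add]
  rw [hφ g _]

lemma comp_d34 (f : G × G × G → A) :
    (φ ∘ d34 A f : G × G × G × G → B) = d34 B (φ ∘ f) := by
  funext ⟨g, h, j, l⟩
  simp only [Function.comp_apply, d34, map_sub, map_add]
  rw [hφ g _]

end Equiv

/-! ### smooth elements, level-constant cochains -/

section Smooth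

variable {G : Type} [Group G] (L : LevelSys G) {k : Type} [CommRing k] (A : Rep.{0, 0, 0} k G)

/-- an element fixed by some level -/
def IsSm (a : A) : Prop := ∃ U ∈ L.levels, ∀ s ∈ U, A.ρ s a = a

variable {L A}

lemma isSm_zero : IsSm L A 0 := by
  obtain ⟨U, hU⟩ := L.nonempty
  exact ⟨U, hU, fun s _ => map_zero _⟩

/-- Finitely many smooth elements are fixed by a common normal level inside a given level. -/
lemma exists_common_level (hN : L.NormalCofinal) (T : Finset A) (hT : ∀ a ∈ T, IsSm L A a)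
    (W : Subgroup G) (hW : W ∈ L.levels) :
    ∃ U ∈ L.levels, U ≤ W ∧ U.Normal ∧ ∀ a ∈ T, ∀ s ∈ U, A.ρ s a = a := by
  classical
  induction T using Finset.induction_on with
  | empty =>
    obtain ⟨U, hU, hUW, hUn⟩ := hN W hW
    exact ⟨U, hU, hUW, hUn, fun a ha => absurd ha (Finset.notMem_empty a)⟩
  | insert a T _ ih =>
    obtain ⟨U, hU, hUW, -, hfix⟩ := ih (fun b hb => hT b (Finset.mem_insert_of_mem hb))
    obtain ⟨U', hU', hfix'⟩ := hT a (Finset.mem_insert_self a T)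
    obtain ⟨U'', hU'', hle⟩ := L.directed U hU U' hU'
    obtain ⟨U₃, hU₃, hle₃, hn₃⟩ := hN U'' hU''
    refine ⟨U₃, hU₃, fun s hs => hUW (hle (hle₃ hs)).1, hn₃, fun b hb s hs => ?_⟩
    rcases Finset.mem_insert.1 hb with rfl | hb
    · exact hfix' s (hle (hle₃ hs)).2
    · exact hfix b hb s (hle (hle₃ hs)).1

/-- A function which is right-invariant under a subgroup of finite index has finite range. -/
lemma finite_range_of_rightInv {X : Type*} (U : Subgroup G) [U.FiniteIndex] (f : G → X)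
    (hf : ∀ g s : G, s ∈ U → f (g * s) = f g) : (Set.range f).Finite := by
  haveI : Finite (G ⧸ U) := Subgroup.finite_quotient_of_finiteIndex
  let f' : G ⧸ U → X := Quotient.lift f (by
    intro a b hab
    have hab' : a⁻¹ * b ∈ U := QuotientGroup.leftRel_apply.1 hab
    have := hf a (a⁻¹ * b) hab'
    rw [mul_inv_cancel_left] at this
    exact this.symm)
  have : Set.range f ⊆ Set.range f' := by
    rintro x ⟨g, rfl⟩
    exact ⟨(g : G ⧸ U), rfl⟩
  exact (Set.finite_range f').subset this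

/-- **K-I3, degree 0.** If `d a` is level constant then `a` is smooth. -/
lemma smooth_of_d01_lc (a : A) (h : L.IsLC₁ ((d₀₁ A).hom a)) : IsSm L A a := by
  obtain ⟨U, hU, hc⟩ := h
  refine ⟨U, hU, fun s hs => ?_⟩
  have h1 := hc 1 s hs
  rw [d₀₁_hom_apply, d₀₁_hom_apply, one_mul, map_one, Module.End.one_apply, sub_self,
    sub_eq_zero] at h1
  exact h1

/-- A smooth element has level-constant coboundary. -/
lemma d01_lc_of_smooth (a : A) (h : IsSm L A a) : L.IsLC₁ ((d₀₁ A).hom a) := by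
  obtain ⟨U, hU, hfix⟩ := h
  refine ⟨U, hU, fun g s hs => ?_⟩
  rw [d₀₁_hom_apply, d₀₁_hom_apply, map_mul, Module.End.mul_apply, hfix s hs]

/-- **K-I3, degree 1.** If `a` and `d a` are level constant then `a` is right-invariant under a
normal level `U` (inside any given level) which fixes all values of `a`. -/
lemma smooth_of_d12_lc (hN : L.NormalCofinal) (a : G → A) (ha : L.IsLC₁ a)
    (hda : L.IsLC₂ ((d₁₂ A).hom a)) (W : Subgroup G) (hW : W ∈ L.levels) :
    ∃ U ∈ L.levels, U ≤ W ∧ U.Normal ∧ (∀ g s : G, s ∈ U → a (g * s) = a g) ∧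
      ∀ g s : G, s ∈ U → A.ρ s (a g) = a g := by
  obtain ⟨U₁, hU₁, h₁⟩ := ha
  obtain ⟨U₂, hU₂, h₂⟩ := hda
  obtain ⟨U₃, hU₃, hle₃⟩ := L.directed U₁ hU₁ U₂ hU₂
  obtain ⟨U₄, hU₄, hle₄⟩ := L.directed U₃ hU₃ W hW
  obtain ⟨U, hU, hle, hn⟩ := hN U₄ hU₄
  have hUU₁ : U ≤ U₁ := fun s hs => (hle₃ (hle₄ (hle hs)).1).1
  have hUU₂ : U ≤ U₂ := fun s hs => (hle₃ (hle₄ (hle hs)).1).2
  refine ⟨U, hU, fun s hs => (hle₄ (hle hs)).2, hn, fun g s hs => h₁ g s (hUU₁ hs),
    fun g s hs => ?_⟩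
  have h3 := h₂ 1 g s 1 (hUU₂ hs) (one_mem _)
  rw [d₁₂_hom_apply, d₁₂_hom_apply] at h3
  simp only [one_mul, mul_one, map_one, Module.End.one_apply] at h3
  -- a (s * g) = a (g * (g⁻¹ * s * g)) = a g
  have h4 : a (s * g) = a g := by
    have : s * g = g * (g⁻¹ * s * g) := by group
    rw [this]
    exact h₁ g _ (hUU₁ (by
      have := hn.conj_mem s hs g⁻¹
      simpa using this))
  have h5 : a s = a 1 := by
    have := h₁ 1 s (hUU₁ hs)
    rwa [one_mul] at this
  rw [h4, h5] at h3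
  have h6 : A.ρ s (a g) - a g = 0 := by
    have : A.ρ s (a g) - a g + a 1 = a g - a g + a 1 := h3
    rw [sub_self, zero_add] at this
    exact add_eq_right.1 this
  exact sub_eq_zero.1 h6

/-- A cochain which is right-invariant under a normal subgroup `U` fixing all its values has a
coboundary which is right-invariant under `U`. -/
lemma d12_rightInv_of_smooth (U : Subgroup G) [hn : U.Normal] (a : G → A)
    (ha : ∀ g s : G, s ∈ U → a (g * s) = a g) (hfix : ∀ g s : G, s ∈ U → A.ρ s (a g) = a g)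
    (g g' s s' : G) (hs : s ∈ U) (hs' : s' ∈ U) :
    (d₁₂ A).hom a (g * s, g' * s') = (d₁₂ A).hom a (g, g') := by
  rw [d₁₂_hom_apply, d₁₂_hom_apply]
  have h1 : a (g' * s') = a g' := ha g' s' hs'
  have h2 : a (g * s) = a g := ha g s hs
  have h3 : a (g * s * (g' * s')) = a (g * g') := by
    have : g * s * (g' * s') = g * g' * ((g'⁻¹ * s * g') * s') := by group
    rw [this]
    exact ha _ _ (U.mul_mem (by
      have := hn.conj_mem s hs g'⁻¹
      simpa using this) hs')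
  rw [h1, h2, h3, map_mul, Module.End.mul_apply, hfix g' s hs]

end Smooth

end Fermat.Agent.S55.K.H724

end

end
-- ===== PACK-END S55/K/H724/Basic.lean

-- ===== PACK-BEGIN S55/H173/TowerShapiro.lean
section



/-!
# S55 (helper173): Shapiro for the semilocal modules `J_q(F)` of the tower

`Hⁿ(Gal(F/ℚ), J_q(F)) ≅ Hⁿ(Gal(F_q/ℚ_q), F_qˣ)`, explicitly given by restriction along
`decHom` followed by evaluation at `1`.
-/

set_option autoImplicit false

open CategoryTheory groupCohomology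

namespace Fermat.Agent.S55.H173

open Fermat.Agent.S55.Tow

variable {S : Finset Nat.Primes}

/-- The map `Gal(F_q/ℚ_q) → Gal(F/ℚ)` is injective. -/
theorem decHom_injective_H173 (L : Level S) (q : Nat.Primes) :
    Function.Injective (L.decHom q) := by
  rw [injective_iff_map_eq_one]
  intro x hx
  induction x using QuotientGroup.induction_on with
  | H g =>
    change ((locQ q g : GQ) : GQ ⧸ L.U) = 1 at hx
    rw [QuotientGroup.eq_one_iff] at hx
    exact (QuotientGroup.eq_one_iff g).2 hx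

/-- The Shapiro map for the semilocal module `J_q(F)`. -/
noncomputable abbrev shapiroJ (L : Level S) (q : Nat.Primes) (n : ℕ) :
    groupCohomology (L.J q) n ⟶ groupCohomology (L.locUnits q) n :=
  shapiroHom (L.decHom q) (L.locUnits q) n

/-- **Shapiro for `J_q(F)`**: `Hⁿ(Gal(F/ℚ), J_q(F)) → Hⁿ(Gal(F_q/ℚ_q), F_qˣ)` is bijective. -/
theorem shapiroJ_bijective (L : Level S) (q : Nat.Primes) (n : ℕ) :
    Function.Bijective (shapiroJ L q n).hom :=
  shapiroHom_bijective (decHom_injective_H173 L q) n (L.locUnits q)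

/-- The Shapiro isomorphism for `J_q(F)`. -/
noncomputable def shapiroJIso (L : Level S) (q : Nat.Primes) (n : ℕ) :
    groupCohomology (L.J q) n ≅ groupCohomology (L.locUnits q) n :=
  shapiroIsoInj (decHom_injective_H173 L q) (L.locUnits q) n

end Fermat.Agent.S55.H173

end
-- ===== PACK-END S55/H173/TowerShapiro.lean

-- ===== PACK-BEGIN S55/PT/ConeDelH113.lean
section



/-!
# S55 / PT layer, leaf D-F5 (helper113): the cone connecting map `∂ : H²_c(C) → T³(A)`

For a short exact sequence `E : SES A B C` of uniformly smooth representations of the global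
group such that `H²(B) → H²(C)` is surjective, we construct
`coneDel : H²_c(C) → T³(A) = coker (H²(A) → ∏_v H²(G_v, A))` and prove

* `coneDel_mk`    : `∂[z] = [α]` for ANY witness `(b, y, x)` of the relation `Rel z α`;
* `ker_coneDel`   : `ker ∂ = im (H²_c(B) → H²_c(C))`;
* `range_coneDel` : `im ∂ = ker (T³(A) → T³(B))`;
* `coneDel_jH`    : `∂ (j y) = - [ (δ¹_v y_v)_v ]`.
-/

set_option autoImplicit false
set_option linter.unusedSectionVars false

noncomputable section

namespace Fermat.Agent.S55.PT.H113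

open groupCohomology Fermat.Agent.S55.PT

/-! ### a linear relation which is total and single-valued modulo `q` is a linear map -/

section Generic

variable {k : Type*} [Field k] {X Y T : Type*} [AddCommGroup X] [Module k X]
  [AddCommGroup Y] [Module k Y] [AddCommGroup T] [Module k T]

theorem exists_linearMap_of_rel (Γ : Submodule k (X × Y)) (q : Y →ₗ[k] T) (N : Submodule k X)
    (total : ∀ x, ∃ y, (x, y) ∈ Γ) (h : ∀ x y, (x, y) ∈ Γ → x ∈ N → q y = 0) :
    ∃ φ : (X ⧸ N) →ₗ[k] T, ∀ x y, (x, y) ∈ Γ → φ (Submodule.Quotient.mk x) = q y := by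
  classical
  let p₁ : ↥Γ →ₗ[k] X := (LinearMap.fst k X Y).comp Γ.subtype
  let p₂ : ↥Γ →ₗ[k] T := q.comp ((LinearMap.snd k X Y).comp Γ.subtype)
  have hp₁ : Function.Surjective p₁ := by
    intro x
    obtain ⟨y, hy⟩ := total x
    exact ⟨⟨(x, y), hy⟩, rfl⟩
  have hker : LinearMap.ker p₁ ≤ LinearMap.ker p₂ := by
    rintro ⟨⟨x, y⟩, hxy⟩ hx
    rw [LinearMap.mem_ker] at hx ⊢
    have hx0 : x = 0 := hx
    subst hx0
    exact h 0 y hxy N.zero_mem
  let e := p₁.quotKerEquivOfSurjective hp₁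
  let ψ : X →ₗ[k] T := ((LinearMap.ker p₁).liftQ p₂ hker) ∘ₗ e.symm.toLinearMap
  have hψ : ∀ γ : ↥Γ, ψ (p₁ γ) = p₂ γ := by
    intro γ
    have he : e.symm (p₁ γ) = Submodule.Quotient.mk γ := by
      rw [LinearEquiv.symm_apply_eq]
      rfl
    show ((LinearMap.ker p₁).liftQ p₂ hker) (e.symm (p₁ γ)) = _
    rw [he, Submodule.liftQ_apply]
  have hψ' : ∀ x y, (x, y) ∈ Γ → ψ x = q y := fun x y hxy => hψ ⟨(x, y), hxy⟩
  have hN : N ≤ LinearMap.ker ψ := by
    intro x hx
    obtain ⟨y, hy⟩ := total x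
    rw [LinearMap.mem_ker, hψ' x y hy]
    exact h x y hy hx
  refine ⟨N.liftQ ψ hN, fun x y hxy => ?_⟩
  rw [Submodule.liftQ_apply]
  exact hψ' x y hxy

end Generic

/-! ### generic cochain lemmas for a short exact sequence -/

section GenericSES

variable {k : Type} [Field k] {H : Type} [Group H] {A B C : Rep.{0, 0, 0} k H}
  (E : SES A B C) (L : LevelSys H)

lemma eq_ret_comp_of_i_comp {X : Type*} {t : X → A} {t' : X → B} (h : E.i ∘ t = t') :
    t = E.ret ∘ t' := by
  funext g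
  rw [← h]
  exact (E.ret_i _).symm

lemma isLC₁_of_i_comp {t : H → A} {t' : H → B} (ht' : L.IsLC₁ t') (h : E.i ∘ t = t') :
    L.IsLC₁ t := by
  rw [eq_ret_comp_of_i_comp E h]
  exact ht'.comp E.ret

lemma isLC₂_of_i_comp {t : H × H → A} {t' : H × H → B} (ht' : L.IsLC₂ t') (h : E.i ∘ t = t') :
    L.IsLC₂ t := by
  rw [eq_ret_comp_of_i_comp E h]
  exact ht'.comp E.ret

/-- a 2-cochain of `A` whose image in `B` is a level-constant cocycle is one. -/
lemma mem_Z2_of_i_comp {a : H × H → A} {u : H × H → B} (hu : u ∈ L.Z2 B) (h : E.i ∘ a = u) :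
    a ∈ L.Z2 A := by
  refine ⟨?_, isLC₂_of_i_comp E L hu.2 h⟩
  show (d₂₃ A).hom a = 0
  have h3 : (d₂₃ B).hom u = 0 := hu.1
  have h1 := push_d₂₃ E.i E.hi a
  rw [h, h3] at h1
  funext g
  apply E.inj
  rw [Pi.zero_apply, map_zero]
  exact (congrFun h1 g).symm

/-- two level-constant cocycles of `A` whose images in `B` differ by the coboundary of a
level-constant 1-cochain with values in `ker π` are cohomologous. -/
lemma H2π_eq_of_i_comp_sub {a a' : ↥(L.Z2 A)} {t' : H → B} (ht' : L.IsLC₁ t')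
    (hπ : ∀ g, E.π (t' g) = 0)
    (h : ∀ g, E.i ((a : H × H → A) g) - E.i ((a' : H × H → A) g) = (d₁₂ B).hom t' g) :
    L.H2π A a = L.H2π A a' := by
  rw [← sub_eq_zero, ← map_sub, LevelSys.H2π_eq_zero_iff]
  refine ⟨E.ret ∘ t', ht'.comp E.ret, ?_⟩
  apply ses_comp_injective E
  rw [← push_d₁₂ E.i E.hi, E.i_comp_ret_comp hπ]
  funext g
  rw [← h g]
  simp only [Function.comp_apply, Submodule.coe_sub, Pi.sub_apply, map_sub]

/-- conversely, cohomologous cocycles differ by the coboundary of a level-constant cochain. -/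
lemma exists_of_H2π_eq {a a' : ↥(L.Z2 A)} (h : L.H2π A a = L.H2π A a') :
    ∃ t : H → A, L.IsLC₁ t ∧
      ∀ g, (d₁₂ A).hom t g = (a : H × H → A) g - (a' : H × H → A) g := by
  rw [← sub_eq_zero, ← map_sub, LevelSys.H2π_eq_zero_iff] at h
  obtain ⟨t, ht, htd⟩ := h
  refine ⟨t, ht, fun g => ?_⟩
  have := congrFun htd g
  rw [this]
  rfl

end GenericSES

variable {k : Type} [Field k] {G : Type} [Group G]
variable {ι : Type} [Fintype ι] [DecidableEq ι] {Gv : ι → Type} [∀ v, Group (Gv v)]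
variable {L : LevelSys G} {Lv : ∀ v, LevelSys (Gv v)} {r : ∀ v, Gv v →* G}
variable (hr : ∀ v, IsLevelCompatible (r v) L (Lv v))
variable {A B C : Rep.{0, 0, 0} k G} (E : SES A B C)

/-! ### the relation -/

variable (L Lv r) in
/-- `(z, α)` are related if there are a level-constant 2-cocycle `b` of `B`, a level-constant
1-cochain `y` of `C` and level-constant local 1-cochains `x_v` of `B` with
`z₁ = π b + d y`, `π x_v = z₂ v - y|_v`, `i α_v = b|_v - d x_v`. -/
def Rel (z : (G × G → C) × ((v : ι) → Gv v → C)) (α : (v : ι) → (Gv v × Gv v → A)) : Prop :=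
  ∃ (b : G × G → B) (y : G → C) (x : (v : ι) → Gv v → B),
    b ∈ L.Z2 B ∧ L.IsLC₁ y ∧ (∀ v, (Lv v).IsLC₁ (x v)) ∧
    z.1 = E.π ∘ b + ((d₁₂ C).hom y : G × G → C) ∧
    (∀ v, E.π ∘ x v = z.2 v - y ∘ r v) ∧
    (∀ v, E.i ∘ α v = b ∘ Prod.map (r v) (r v) -
      ((d₁₂ (Rep.res (r v) B)).hom (x v) : Gv v × Gv v → B))

lemma Rel.zero : Rel L Lv r E 0 0 := by
  refine ⟨0, 0, 0, (L.Z2 B).zero_mem, (L.C1 C).zero_mem, fun v => (Lv v).isLC₁_const (0 : B),
    ?_, fun v => ?_, fun v => ?_⟩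
  · funext g
    simp
    rfl
  · funext g
    simp
  · funext g
    simp
    rfl

lemma Rel.add {z z' : (G × G → C) × ((v : ι) → Gv v → C)}
    {α α' : (v : ι) → (Gv v × Gv v → A)} (h : Rel L Lv r E z α) (h' : Rel L Lv r E z' α') :
    Rel L Lv r E (z + z') (α + α') := by
  obtain ⟨b, y, x, hb, hy, hx, h1, h2, h3⟩ := h
  obtain ⟨b', y', x', hb', hy', hx', h1', h2', h3'⟩ := h'
  refine ⟨b + b', y + y', x + x', (L.Z2 B).add_mem hb hb', (L.C1 C).add_mem hy hy',
    fun v => LevelSys.IsLC₁.add (hx v) (hx' v), ?_, fun v => ?_, fun v => ?_⟩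
  · rw [Prod.fst_add, h1, h1', map_add]
    funext g
    simp only [Pi.add_apply, Function.comp_apply, map_add]
    abel
  · have e := h2 v
    have e' := h2' v
    funext g
    have eg := congrFun e g
    have eg' := congrFun e' g
    simp only [Function.comp_apply, Pi.sub_apply] at eg eg'
    simp only [Pi.add_apply, Function.comp_apply, Pi.sub_apply, Prod.snd_add, map_add, eg, eg']
    abel
  · have e := h3 v
    have e' := h3' v
    funext g
    have eg := congrFun e g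
    have eg' := congrFun e' g
    simp only [Function.comp_apply, Pi.sub_apply] at eg eg'
    simp only [Pi.add_apply, Function.comp_apply, Pi.sub_apply, map_add, eg, eg']
    abel

lemma Rel.smul (c : k) {z : (G × G → C) × ((v : ι) → Gv v → C)}
    {α : (v : ι) → (Gv v × Gv v → A)} (h : Rel L Lv r E z α) :
    Rel L Lv r E (c • z) (c • α) := by
  obtain ⟨b, y, x, hb, hy, hx, h1, h2, h3⟩ := h
  refine ⟨c • b, c • y, c • x, (L.Z2 B).smul_mem c hb, (L.C1 C).smul_mem c hy,
    fun v => (hx v).comp (c • ·), ?_, fun v => ?_, fun v => ?_⟩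
  · rw [Prod.smul_fst, h1, map_smul]
    funext g
    simp only [Pi.add_apply, Pi.smul_apply, Function.comp_apply, map_smul, smul_add]
  · have e := h2 v
    funext g
    have eg := congrFun e g
    simp only [Function.comp_apply, Pi.sub_apply] at eg
    simp only [Pi.smul_apply, Function.comp_apply, Pi.sub_apply, Prod.smul_snd, map_smul, eg,
      smul_sub]
  · have e := h3 v
    funext g
    have eg := congrFun e g
    simp only [Function.comp_apply, Pi.sub_apply] at eg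
    simp only [Pi.smul_apply, Function.comp_apply, Pi.sub_apply, map_smul, eg, smul_sub]

/-! ### local cocycles from global data -/

include hr in
/-- the local 2-cochain `ret ∘ (b|_v - d x)` is a level-constant cocycle as soon as
`b|_v - d x` has values in `ker π`. -/
lemma ret_comp_mem_Z2 (hNv : ∀ v, (Lv v).NormalCofinal)
    (hBv : ∀ v, (Lv v).IsUSmooth (Rep.res (r v) B)) {b : G × G → B} (hb : b ∈ L.Z2 B) (v : ι)
    {x : Gv v → B} (hx : (Lv v).IsLC₁ x)
    (hπ : ∀ g, E.π ((b ∘ Prod.map (r v) (r v) -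
      ((d₁₂ (Rep.res (r v) B)).hom x : Gv v × Gv v → B)) g) = 0) :
    (E.ret ∘ (b ∘ Prod.map (r v) (r v) -
      ((d₁₂ (Rep.res (r v) B)).hom x : Gv v × Gv v → B)) : Gv v × Gv v → Rep.res (r v) A) ∈
      (Lv v).Z2 (Rep.res (r v) A) := by
  have hbres : (b ∘ Prod.map (r v) (r v) : Gv v × Gv v → Rep.res (r v) B) ∈
      (Lv v).Z2 (Rep.res (r v) B) := res_mem_Z2 (hr v) B hb
  have hdx : ((d₁₂ (Rep.res (r v) B)).hom x) ∈ (Lv v).Z2 (Rep.res (r v) B) :=
    (Lv v).B2_le_Z2 (hNv v) (hBv v) ⟨x, hx, rfl⟩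
  have hu : (b ∘ Prod.map (r v) (r v) -
      ((d₁₂ (Rep.res (r v) B)).hom x : Gv v × Gv v → B) : Gv v × Gv v → Rep.res (r v) B) ∈
      (Lv v).Z2 (Rep.res (r v) B) := ((Lv v).Z2 (Rep.res (r v) B)).sub_mem hbres hdx
  refine ⟨?_, LevelSys.IsLC₂.comp hu.2 E.ret⟩
  show (d₂₃ (Rep.res (r v) A)).hom _ = 0
  apply ses_comp_injective (E.res (r v))
  have h1 := push_d₂₃ (A := Rep.res (r v) A) (B := Rep.res (r v) B) E.i (E.hi.res (r v))
    (E.ret ∘ (b ∘ Prod.map (r v) (r v) -
      ((d₁₂ (Rep.res (r v) B)).hom x : Gv v × Gv v → B)))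
  have h2 : (E.i ∘ (E.ret ∘ (b ∘ Prod.map (r v) (r v) -
      ((d₁₂ (Rep.res (r v) B)).hom x : Gv v × Gv v → B))) : Gv v × Gv v → B) = _ :=
    E.i_comp_ret_comp hπ
  have h3 : (d₂₃ (Rep.res (r v) B)).hom (b ∘ Prod.map (r v) (r v) -
      ((d₁₂ (Rep.res (r v) B)).hom x : Gv v × Gv v → B)) = 0 := hu.1
  show E.i ∘ (d₂₃ (Rep.res (r v) A)).hom _ = E.i ∘ (0 : Gv v × Gv v × Gv v → A)
  rw [← h1, h2, h3]
  funext g
  exact (map_zero E.i).symm

include hr in
/-- (R1) the relation is total. -/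
theorem Rel.total (hN : L.NormalCofinal) (hNv : ∀ v, (Lv v).NormalCofinal)
    (hB : L.IsUSmooth B) (hsurj : Function.Surjective (pushH2 E.π E.hπ L))
    (z : ↥(Zc2 L Lv r C)) :
    ∃ α : (v : ι) → ↥((Lv v).Z2 (Rep.res (r v) A)),
      Rel L Lv r E (z : (G × G → C) × ((v : ι) → Gv v → C))
        (fun v => ((α v : Gv v × Gv v → Rep.res (r v) A) : Gv v × Gv v → A)) := by
  have _hN := hN
  have hBv : ∀ v, (Lv v).IsUSmooth (Rep.res (r v) B) := fun v => isUSmooth_res (hr v) hB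
  obtain ⟨β, hβ⟩ := hsurj (L.H2π C ⟨_, z.2.1⟩)
  obtain ⟨b, rfl⟩ := L.H2π_surjective B β
  rw [pushH2_mk, ← sub_eq_zero, ← map_sub, LevelSys.H2π_eq_zero_iff] at hβ
  obtain ⟨y', hy', hyd⟩ := hβ
  have hy'lc : L.IsLC₁ y' := hy'
  have hyd' : (d₁₂ C).hom y' = E.π ∘ (b : G × G → B) -
      (z : (G × G → C) × ((v : ι) → Gv v → C)).1 := hyd
  have h1 : (z : (G × G → C) × ((v : ι) → Gv v → C)).1 =
      E.π ∘ (b : G × G → B) + ((d₁₂ C).hom (-y') : G × G → C) := by
    rw [map_neg, hyd']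
    funext g
    simp
  have hylc : L.IsLC₁ (-y') := (L.C1 C).neg_mem hy'
  -- the local lifts
  have hxlc : ∀ v, (Lv v).IsLC₁ (E.sec ∘ ((z : (G × G → C) × ((v : ι) → Gv v → C)).2 v -
      (-y') ∘ r v)) := by
    intro v
    have ha : (Lv v).IsLC₁ ((z : (G × G → C) × ((v : ι) → Gv v → C)).2 v) := (z.2.2 v).1
    have hb' : (Lv v).IsLC₁ ((-y') ∘ r v) := IsLC₁.res (hr v) hylc
    have : (Lv v).IsLC₁ ((z : (G × G → C) × ((v : ι) → Gv v → C)).2 v - (-y') ∘ r v) :=
      ((Lv v).C1 (Rep.res (r v) C)).sub_mem ha hb'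
    exact this.comp E.sec
  have hπx : ∀ v, E.π ∘ (E.sec ∘ ((z : (G × G → C) × ((v : ι) → Gv v → C)).2 v -
      (-y') ∘ r v)) = (z : (G × G → C) × ((v : ι) → Gv v → C)).2 v - (-y') ∘ r v := by
    intro v
    funext g
    exact E.π_sec _
  have hπ0 : ∀ v g, E.π (((b : G × G → B) ∘ Prod.map (r v) (r v) -
      ((d₁₂ (Rep.res (r v) B)).hom (E.sec ∘ ((z : (G × G → C) × ((v : ι) → Gv v → C)).2 v -
        (-y') ∘ r v)) : Gv v × Gv v → B)) g) = 0 := by
    intro v g
    have e1 := push_d₁₂ (A := Rep.res (r v) B) (B := Rep.res (r v) C) E.π (E.hπ.res (r v))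
      (E.sec ∘ ((z : (G × G → C) × ((v : ι) → Gv v → C)).2 v - (-y') ∘ r v))
    rw [hπx v] at e1
    have e2 : (d₁₂ (Rep.res (r v) C)).hom ((z : (G × G → C) × ((v : ι) → Gv v → C)).2 v) =
        ((z : (G × G → C) × ((v : ι) → Gv v → C)).1 ∘ Prod.map (r v) (r v) :
          Gv v × Gv v → C) := (z.2.2 v).2
    have e3 := res_d₁₂ (r := r v) C (-y')
    rw [map_sub, e2, e3] at e1
    have e1g := congrFun e1 g
    have h1g := congrFun h1 (Prod.map (r v) (r v) g)
    simp only [Pi.sub_apply, Function.comp_apply, Pi.add_apply] at e1g h1g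
    simp only [Pi.sub_apply, Function.comp_apply, map_sub]
    rw [← e1g, h1g]
    abel
  refine ⟨fun v => ⟨_, ret_comp_mem_Z2 hr E hNv hBv b.2 v (hxlc v) (hπ0 v)⟩, ?_⟩
  refine ⟨b, -y', _, b.2, hylc, hxlc, h1, hπx, fun v => ?_⟩
  exact E.i_comp_ret_comp (hπ0 v)

/-! ### well-definedness -/

include hr in
/-- (R2) if `z` is a cone coboundary then the family `([α_v])_v` is a global class. -/
theorem Rel.wd (hN : L.NormalCofinal) (hB : L.IsUSmooth B)
    {z : (G × G → C) × ((v : ι) → Gv v → C)}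
    {α : (v : ι) → ↥((Lv v).Z2 (Rep.res (r v) A))}
    (h : Rel L Lv r E z
      (fun v => ((α v : Gv v × Gv v → Rep.res (r v) A) : Gv v × Gv v → A)))
    (hz : z ∈ Bc2 L r C) :
    (fun v => (Lv v).H2π (Rep.res (r v) A) (α v)) ∈ LinearMap.range (loc2 hr A) := by
  obtain ⟨b, y, x, hb, hy, hx, h1, h2, h3⟩ := h
  obtain ⟨x₀, m₀, hx₀, rfl⟩ := (mem_Bc2_iff C _).1 hz
  have hBv : ∀ v, (Lv v).IsUSmooth (Rep.res (r v) B) := fun v => isUSmooth_res (hr v) hB
  have h1' : ∀ g, (d₁₂ C).hom x₀ g = E.π (b g) + (d₁₂ C).hom y g := fun g => congrFun h1 g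
  have h2' : ∀ v g, E.π (x v g) = x₀ (r v g) + (d₀₁ (Rep.res (r v) C)).hom (m₀ v) g - y (r v g) :=
    fun v g => congrFun (h2 v) g
  have h3' : ∀ v g, E.i ((α v : Gv v × Gv v → Rep.res (r v) A) g) =
      b (Prod.map (r v) (r v) g) - (d₁₂ (Rep.res (r v) B)).hom (x v) g :=
    fun v g => congrFun (h3 v) g
  -- the global correction
  have hwlc : L.IsLC₁ (x₀ - y) := (L.C1 C).sub_mem hx₀ hy
  have hslc : L.IsLC₁ (E.sec ∘ (x₀ - y)) := hwlc.comp E.sec
  have hπs : E.π ∘ (E.sec ∘ (x₀ - y)) = x₀ - y := by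
    funext g
    exact E.π_sec _
  have hds : (d₁₂ B).hom (E.sec ∘ (x₀ - y)) ∈ L.Z2 B := L.B2_le_Z2 hN hB ⟨_, hslc, rfl⟩
  have hu : b - (d₁₂ B).hom (E.sec ∘ (x₀ - y)) ∈ L.Z2 B := (L.Z2 B).sub_mem hb hds
  have hπds : ∀ g, E.π ((d₁₂ B).hom (E.sec ∘ (x₀ - y)) g) =
      (d₁₂ C).hom x₀ g - (d₁₂ C).hom y g := by
    intro g
    have e1 := congrFun (push_d₁₂ E.π E.hπ (E.sec ∘ (x₀ - y))) g
    rw [hπs, map_sub] at e1
    exact e1.symm
  have hπu : ∀ g, E.π ((b - (d₁₂ B).hom (E.sec ∘ (x₀ - y))) g) = 0 := by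
    intro g
    rw [Pi.sub_apply, map_sub, hπds g, h1' g]
    abel
  have ha₀ : E.ret ∘ (b - (d₁₂ B).hom (E.sec ∘ (x₀ - y))) ∈ L.Z2 A :=
    mem_Z2_of_i_comp E L hu (E.i_comp_ret_comp hπu)
  refine ⟨L.H2π A ⟨_, ha₀⟩, ?_⟩
  funext v
  rw [loc2_apply, resH2_mk]
  symm
  -- the local correction
  have htlc : (Lv v).IsLC₁ ((E.sec ∘ (x₀ - y)) ∘ r v - x v +
      ((d₀₁ (Rep.res (r v) B)).hom (E.sec (m₀ v)) : Gv v → B)) := by
    have t1 : (Lv v).IsLC₁ ((E.sec ∘ (x₀ - y)) ∘ r v) := IsLC₁.res (hr v) hslc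
    have t2 : (Lv v).IsLC₁ ((d₀₁ (Rep.res (r v) B)).hom (E.sec (m₀ v))) :=
      (Lv v).d₀₁_isLC₁ (hBv v) (E.sec (m₀ v))
    exact ((Lv v).C1 (Rep.res (r v) B)).add_mem
      (((Lv v).C1 (Rep.res (r v) B)).sub_mem t1 (hx v)) t2
  refine H2π_eq_of_i_comp_sub (E.res (r v)) (Lv v) htlc ?_ ?_
  · intro g
    have e1 := congrFun (push_d₀₁ (A := Rep.res (r v) B) (B := Rep.res (r v) C) E.π
      (E.hπ.res (r v)) (E.sec (m₀ v))) g
    rw [E.π_sec] at e1
    simp only [Function.comp_apply] at e1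
    show E.π _ = 0
    simp only [Pi.add_apply, Pi.sub_apply, Function.comp_apply, map_add, map_sub, E.π_sec,
      h2' v g, ← e1]
    abel
  · intro g
    show E.i ((α v : Gv v × Gv v → Rep.res (r v) A) g) -
      E.i ((E.ret ∘ (b - (d₁₂ B).hom (E.sec ∘ (x₀ - y)))) (Prod.map (r v) (r v) g)) = _
    have e0 : E.i ((E.ret ∘ (b - (d₁₂ B).hom (E.sec ∘ (x₀ - y)))) (Prod.map (r v) (r v) g)) =
        (b - (d₁₂ B).hom (E.sec ∘ (x₀ - y))) (Prod.map (r v) (r v) g) :=
      E.i_ret (hπu _)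
    have e1 := congrFun (res_d₁₂ (r := r v) B (E.sec ∘ (x₀ - y))) g
    have e2 : (d₁₂ (Rep.res (r v) B)).hom ((d₀₁ (Rep.res (r v) B)).hom (E.sec (m₀ v))) = 0 :=
      d₁₂_d₀₁ (B := Rep.res (r v) B) (E.sec (m₀ v))
    have e2g : (d₁₂ (Rep.res (r v) B)).hom
        ((d₀₁ (Rep.res (r v) B)).hom (E.sec (m₀ v))) g = 0 := by
      rw [e2]
      rfl
    rw [e0, h3' v g, map_add, map_sub]
    simp only [Pi.add_apply, Pi.sub_apply, Function.comp_apply] at e1 ⊢
    rw [e1, e2g]
    abel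

/-! ### the connecting map -/

variable (L Lv r) in
/-- the graph of the relation, as a submodule -/
def relGraph : Submodule k
    (↥(Zc2 L Lv r C) × ((v : ι) → ↥((Lv v).Z2 (Rep.res (r v) A)))) where
  carrier := {p | Rel L Lv r E (p.1 : (G × G → C) × ((v : ι) → Gv v → C))
    (fun v => ((p.2 v : Gv v × Gv v → Rep.res (r v) A) : Gv v × Gv v → A))}
  add_mem' := fun h h' => Rel.add E h h'
  zero_mem' := Rel.zero E
  smul_mem' := fun c _ h => Rel.smul E c h

/-- the class map `∏_v Z²(G_v, A) → T³(A)` -/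
def relQ : ((v : ι) → ↥((Lv v).Z2 (Rep.res (r v) A))) →ₗ[k] T3 hr A :=
  T3π hr A ∘ₗ LinearMap.pi fun v => (Lv v).H2π (Rep.res (r v) A) ∘ₗ LinearMap.proj v

lemma relQ_apply (α : (v : ι) → ↥((Lv v).Z2 (Rep.res (r v) A))) :
    relQ hr α = T3π hr A (fun v => (Lv v).H2π (Rep.res (r v) A) (α v)) := rfl

/-- existence of the cone connecting map -/
theorem exists_coneDel (hN : L.NormalCofinal) (hNv : ∀ v, (Lv v).NormalCofinal)
    (hB : L.IsUSmooth B) (hsurj : Function.Surjective (pushH2 E.π E.hπ L)) :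
    ∃ φ : Hc2 L Lv r C →ₗ[k] T3 hr A,
      ∀ (z : ↥(Zc2 L Lv r C)) (α : (v : ι) → ↥((Lv v).Z2 (Rep.res (r v) A))),
        Rel L Lv r E (z : (G × G → C) × ((v : ι) → Gv v → C))
          (fun v => ((α v : Gv v × Gv v → Rep.res (r v) A) : Gv v × Gv v → A)) →
        φ (Hc2π L Lv r C z) = T3π hr A (fun v => (Lv v).H2π (Rep.res (r v) A) (α v)) := by
  obtain ⟨φ, hφ⟩ := exists_linearMap_of_rel (relGraph L Lv r E) (relQ hr (A := A))
    ((Bc2 L r C).comap (Zc2 L Lv r C).subtype)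
    (fun z => Rel.total hr E hN hNv hB hsurj z)
    (fun z α hzα hz => by
      rw [relQ_apply, T3π_eq_zero_iff]
      exact Rel.wd hr E hN hB hzα hz)
  exact ⟨φ, fun z α h => hφ z α h⟩

/-- **the cone connecting map** `∂ : H²_c(C) → T³(A)` -/
def coneDel (hN : L.NormalCofinal) (hNv : ∀ v, (Lv v).NormalCofinal)
    (hB : L.IsUSmooth B) (hsurj : Function.Surjective (pushH2 E.π E.hπ L)) :
    Hc2 L Lv r C →ₗ[k] T3 hr A :=
  Classical.choose (exists_coneDel hr E hN hNv hB hsurj)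

/-- `∂[z] = [α]` for every witness of the relation. -/
theorem coneDel_mk (hN : L.NormalCofinal) (hNv : ∀ v, (Lv v).NormalCofinal)
    (hB : L.IsUSmooth B) (hsurj : Function.Surjective (pushH2 E.π E.hπ L))
    (z : ↥(Zc2 L Lv r C)) (α : (v : ι) → ↥((Lv v).Z2 (Rep.res (r v) A)))
    (h : Rel L Lv r E (z : (G × G → C) × ((v : ι) → Gv v → C))
      (fun v => ((α v : Gv v × Gv v → Rep.res (r v) A) : Gv v × Gv v → A))) :
    coneDel hr E hN hNv hB hsurj (Hc2π L Lv r C z) =
      T3π hr A (fun v => (Lv v).H2π (Rep.res (r v) A) (α v)) :=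
  Classical.choose_spec (exists_coneDel hr E hN hNv hB hsurj) z α h

/-! ### exactness at `H²_c(C)` -/

/-- `∂ ∘ π_* = 0`. -/
theorem coneDel_pushHc2 (hN : L.NormalCofinal) (hNv : ∀ v, (Lv v).NormalCofinal)
    (hB : L.IsUSmooth B) (hsurj : Function.Surjective (pushH2 E.π E.hπ L))
    (x : Hc2 L Lv r B) :
    coneDel hr E hN hNv hB hsurj (pushHc2 (L := L) (Lv := Lv) (r := r) E.π E.hπ x) = 0 := by
  obtain ⟨zB, rfl⟩ := Hc2π_surjective B x
  rw [pushHc2_mk]
  have hrel : Rel L Lv r E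
      ((pushZc2 (L := L) (Lv := Lv) (r := r) E.π E.hπ zB : ↥(Zc2 L Lv r C)) :
        (G × G → C) × ((v : ι) → Gv v → C))
      (fun v => (((0 : (v : ι) → ↥((Lv v).Z2 (Rep.res (r v) A))) v :
        Gv v × Gv v → Rep.res (r v) A) : Gv v × Gv v → A)) := by
    refine ⟨(zB : (G × G → B) × ((v : ι) → Gv v → B)).1, 0,
      (zB : (G × G → B) × ((v : ι) → Gv v → B)).2, zB.2.1, (L.C1 C).zero_mem,
      fun v => (zB.2.2 v).1, ?_, fun v => ?_, fun v => ?_⟩
    · rw [map_zero, add_zero]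
      rfl
    · funext g
      show E.π _ = E.π _ - 0
      rw [sub_zero]
      rfl
    · have h := (zB.2.2 v).2
      rw [h, sub_self]
      funext g
      exact map_zero E.i
  rw [coneDel_mk hr E hN hNv hB hsurj _ 0 hrel]
  have : (fun v => (Lv v).H2π (Rep.res (r v) A)
      ((0 : (v : ι) → ↥((Lv v).Z2 (Rep.res (r v) A))) v)) = 0 := by
    funext v
    exact map_zero _
  rw [this, map_zero]

/-- (D-F5) exactness at `H²_c(C)`: `ker ∂ = im (H²_c(B) → H²_c(C))`. -/
theorem ker_coneDel (hN : L.NormalCofinal) (hNv : ∀ v, (Lv v).NormalCofinal)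
    (hB : L.IsUSmooth B) (hsurj : Function.Surjective (pushH2 E.π E.hπ L)) :
    LinearMap.ker (coneDel hr E hN hNv hB hsurj) =
      LinearMap.range (pushHc2 (L := L) (Lv := Lv) (r := r) E.π E.hπ) := by
  ext ξ
  rw [LinearMap.mem_ker, LinearMap.mem_range]
  constructor
  · intro hξ
    obtain ⟨z, rfl⟩ := Hc2π_surjective C ξ
    obtain ⟨α, hα⟩ := Rel.total hr E hN hNv hB hsurj z
    rw [coneDel_mk hr E hN hNv hB hsurj z α hα, T3π_eq_zero_iff] at hξ
    obtain ⟨β, hβ⟩ := hξ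
    obtain ⟨a₀, rfl⟩ := L.H2π_surjective A β
    obtain ⟨b, y, x, hb, hy, hx, h1, h2, h3⟩ := hα
    -- local primitives
    have hloc : ∀ v, ∃ t : Gv v → Rep.res (r v) A, (Lv v).IsLC₁ t ∧
        ∀ g, (d₁₂ (Rep.res (r v) A)).hom t g =
          (α v : Gv v × Gv v → Rep.res (r v) A) g -
            (resZ2 (hr v) A a₀ : Gv v × Gv v → Rep.res (r v) A) g := by
      intro v
      apply exists_of_H2π_eq (Lv v)
      have := congrFun hβ v
      rw [loc2_apply, resH2_mk] at this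
      exact this.symm
    choose t htlc htd using hloc
    -- the corrected lift
    have hb' : b - E.i ∘ (a₀ : G × G → A) ∈ L.Z2 B :=
      (L.Z2 B).sub_mem hb (push_mem_Z2 E.i E.hi L a₀.2)
    have hzB : ((b - E.i ∘ (a₀ : G × G → A) : G × G → B),
        (fun v => (x v + E.i ∘ (t v : Gv v → A) : Gv v → B))) ∈ Zc2 L Lv r B := by
      refine ⟨hb', fun v => ⟨?_, ?_⟩⟩
      · exact ((Lv v).C1 (Rep.res (r v) B)).add_mem (hx v) ((htlc v).comp E.i)
      · show (d₁₂ (Rep.res (r v) B)).hom (x v + E.i ∘ (t v : Gv v → A)) = _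
        rw [map_add, push_d₁₂ (A := Rep.res (r v) A) (B := Rep.res (r v) B) E.i
          (E.hi.res (r v)) (t v)]
        funext g
        have e3 := congrFun (h3 v) g
        simp only [Function.comp_apply, Pi.sub_apply] at e3
        simp only [Pi.add_apply, Function.comp_apply, Pi.sub_apply, htd v g, map_sub, e3]
        show _ = b (Prod.map (r v) (r v) g) - E.i ((a₀ : G × G → A) (Prod.map (r v) (r v) g))
        have e4 : (resZ2 (hr v) A a₀ : Gv v × Gv v → Rep.res (r v) A) g =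
          (a₀ : G × G → A) (Prod.map (r v) (r v) g) := rfl
        rw [e4]
        abel
    refine ⟨Hc2π L Lv r B ⟨_, hzB⟩, ?_⟩
    rw [pushHc2_mk, ← sub_eq_zero, ← map_sub, Hc2π_eq_zero_iff]
    refine (mem_Bc2_iff C _).2 ⟨-y, 0, (L.C1 C).neg_mem hy, ?_⟩
    ext1
    · show (d₁₂ C).hom (-y) = E.π ∘ (b - E.i ∘ (a₀ : G × G → A)) -
        (z : (G × G → C) × ((v : ι) → Gv v → C)).1
      rw [h1, map_neg]
      funext g
      simp only [Pi.neg_apply, Pi.sub_apply, Pi.add_apply, Function.comp_apply, map_sub, E.π_i]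
      abel
    · funext v g
      show (-y) (r v g) + (d₀₁ (Rep.res (r v) C)).hom ((0 : ι → C) v) g =
        E.π ((x v + E.i ∘ (t v : Gv v → A)) g) -
          (z : (G × G → C) × ((v : ι) → Gv v → C)).2 v g
      have e2 := congrFun (h2 v) g
      simp only [Function.comp_apply, Pi.sub_apply] at e2
      have e0 : (d₀₁ (Rep.res (r v) C)).hom ((0 : ι → C) v) g = 0 := by
        rw [Pi.zero_apply, map_zero]
        rfl
      rw [e0]
      simp only [Pi.neg_apply, Pi.add_apply, Function.comp_apply, map_add, E.π_i, e2]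
      abel
  · rintro ⟨x, rfl⟩
    exact coneDel_pushHc2 hr E hN hNv hB hsurj x

/-! ### exactness at `T³(A)` -/

/-- `i_* ∘ ∂ = 0`. -/
theorem pushT3_coneDel (hN : L.NormalCofinal) (hNv : ∀ v, (Lv v).NormalCofinal)
    (hB : L.IsUSmooth B) (hsurj : Function.Surjective (pushH2 E.π E.hπ L))
    (ξ : Hc2 L Lv r C) :
    pushT3 hr E.i E.hi (coneDel hr E hN hNv hB hsurj ξ) = 0 := by
  obtain ⟨z, rfl⟩ := Hc2π_surjective C ξ
  obtain ⟨α, hα⟩ := Rel.total hr E hN hNv hB hsurj z
  rw [coneDel_mk hr E hN hNv hB hsurj z α hα, pushT3_mk, T3π_eq_zero_iff]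
  obtain ⟨b, y, x, hb, hy, hx, h1, h2, h3⟩ := hα
  refine ⟨L.H2π B ⟨b, hb⟩, ?_⟩
  funext v
  rw [loc2_apply, resH2_mk, pushLoc2_apply, pushH2_mk, ← sub_eq_zero, ← map_sub,
    LevelSys.H2π_eq_zero_iff]
  refine ⟨x v, hx v, ?_⟩
  funext g
  have e3 := congrFun (h3 v) g
  simp only [Function.comp_apply, Pi.sub_apply] at e3
  show _ = b (Prod.map (r v) (r v) g) - E.i ((α v : Gv v × Gv v → Rep.res (r v) A) g)
  rw [e3]
  abel

/-- (D-F5) exactness at `T³(A)`: `im ∂ = ker (T³(A) → T³(B))`. -/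
theorem range_coneDel (hN : L.NormalCofinal) (hNv : ∀ v, (Lv v).NormalCofinal)
    (hB : L.IsUSmooth B) (hsurj : Function.Surjective (pushH2 E.π E.hπ L)) :
    LinearMap.range (coneDel hr E hN hNv hB hsurj) = LinearMap.ker (pushT3 hr E.i E.hi) := by
  ext τ
  rw [LinearMap.mem_range, LinearMap.mem_ker]
  constructor
  · rintro ⟨ξ, rfl⟩
    exact pushT3_coneDel hr E hN hNv hB hsurj ξ
  · intro hτ
    obtain ⟨ξ, rfl⟩ := T3π_surjective hr A τ
    have hα : ∃ α : (v : ι) → ↥((Lv v).Z2 (Rep.res (r v) A)),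
        (fun v => (Lv v).H2π (Rep.res (r v) A) (α v)) = ξ := by
      choose α hα using fun v => (Lv v).H2π_surjective (Rep.res (r v) A) (ξ v)
      exact ⟨α, funext hα⟩
    obtain ⟨α, rfl⟩ := hα
    rw [pushT3_mk, T3π_eq_zero_iff] at hτ
    obtain ⟨β, hβ⟩ := hτ
    obtain ⟨b, rfl⟩ := L.H2π_surjective B β
    have hloc : ∀ v, ∃ s : Gv v → Rep.res (r v) B, (Lv v).IsLC₁ s ∧
        ∀ g, (d₁₂ (Rep.res (r v) B)).hom s g =
          E.i ((α v : Gv v × Gv v → Rep.res (r v) A) g) -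
            (b : G × G → B) (Prod.map (r v) (r v) g) := by
      intro v
      have := congrFun hβ v
      rw [loc2_apply, resH2_mk, pushLoc2_apply, pushH2_mk] at this
      exact exists_of_H2π_eq (Lv v) this.symm
    choose s hslc hsd using hloc
    have hz : ((E.π ∘ (b : G × G → B) : G × G → C),
        (fun v => (-(E.π ∘ (s v : Gv v → B)) : Gv v → C))) ∈ Zc2 L Lv r C := by
      refine ⟨push_mem_Z2 E.π E.hπ L b.2, fun v => ⟨?_, ?_⟩⟩
      · exact ((Lv v).C1 (Rep.res (r v) C)).neg_mem ((hslc v).comp E.π)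
      · show (d₁₂ (Rep.res (r v) C)).hom (-(E.π ∘ (s v : Gv v → B))) = _
        rw [map_neg, push_d₁₂ (A := Rep.res (r v) B) (B := Rep.res (r v) C) E.π
          (E.hπ.res (r v)) (s v)]
        funext g
        simp only [Pi.neg_apply, Function.comp_apply, hsd v g, map_sub, E.π_i]
        abel
    refine ⟨Hc2π L Lv r C ⟨_, hz⟩, ?_⟩
    refine coneDel_mk hr E hN hNv hB hsurj _ α ?_
    refine ⟨b, 0, fun v => -(s v : Gv v → B), b.2, (L.C1 C).zero_mem,
      fun v => ((Lv v).C1 (Rep.res (r v) B)).neg_mem (hslc v), ?_, fun v => ?_, fun v => ?_⟩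
    · rw [map_zero, add_zero]
    · funext g
      show E.π (-(s v g)) = -(E.π (s v g)) - 0
      rw [map_neg, sub_zero]
    · funext g
      show E.i ((α v : Gv v × Gv v → Rep.res (r v) A) g) =
        (b : G × G → B) (Prod.map (r v) (r v) g) -
          (d₁₂ (Rep.res (r v) B)).hom (-(s v : Gv v → B)) g
      rw [map_neg, Pi.neg_apply, hsd v g]
      abel

/-! ### anticommutativity with the local connecting maps -/

/-- (D-F5) `∂ (j y) = - [ (δ¹_v y_v)_v ]`. -/
theorem coneDel_jH (hN : L.NormalCofinal) (hNv : ∀ v, (Lv v).NormalCofinal)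
    (hB : L.IsUSmooth B) (hsurj : Function.Surjective (pushH2 E.π E.hπ L))
    (hBv : ∀ v, (Lv v).IsUSmooth (Rep.res (r v) B))
    (hCv : ∀ v, (Lv v).IsUSmooth (Rep.res (r v) C))
    (y : (v : ι) → (Lv v).H1 (Rep.res (r v) C)) :
    coneDel hr E hN hNv hB hsurj (jH (L := L) (Lv := Lv) (r := r) C y) =
      - T3π hr A (fun v => (E.res (r v)).del1 (Lv v) (hNv v) (hBv v) (hCv v) (y v)) := by
  obtain ⟨c, rfl⟩ := exists_locZ1 C y
  rw [jH_mk]
  have hxlc : ∀ v, (Lv v).IsLC₁ (E.sec ∘ (c v : Gv v → Rep.res (r v) C)) :=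
    fun v => LevelSys.IsLC₁.comp (c v).2.2 E.sec
  have hπx : ∀ v, E.π ∘ (E.sec ∘ (c v : Gv v → Rep.res (r v) C)) =
      (c v : Gv v → Rep.res (r v) C) := by
    intro v
    funext g
    exact E.π_sec _
  have hπ0 : ∀ v g, E.π (((0 : G × G → B) ∘ Prod.map (r v) (r v) -
      ((d₁₂ (Rep.res (r v) B)).hom (E.sec ∘ (c v : Gv v → Rep.res (r v) C)) :
        Gv v × Gv v → B)) g) = 0 := by
    intro v g
    have e1 := push_d₁₂ (A := Rep.res (r v) B) (B := Rep.res (r v) C) E.π (E.hπ.res (r v))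
      (E.sec ∘ (c v : Gv v → Rep.res (r v) C))
    rw [hπx v] at e1
    have e2 : (d₁₂ (Rep.res (r v) C)).hom (c v : Gv v → Rep.res (r v) C) = 0 := (c v).2.1
    rw [e2] at e1
    show E.π ((0 : B) - (d₁₂ (Rep.res (r v) B)).hom
      (E.sec ∘ (c v : Gv v → Rep.res (r v) C)) g) = 0
    rw [zero_sub, map_neg, neg_eq_zero]
    exact (congrFun e1 g).symm
  have hα : ∀ v, (E.ret ∘ ((0 : G × G → B) ∘ Prod.map (r v) (r v) -
      ((d₁₂ (Rep.res (r v) B)).hom (E.sec ∘ (c v : Gv v → Rep.res (r v) C)) :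
        Gv v × Gv v → B)) : Gv v × Gv v → Rep.res (r v) A) ∈ (Lv v).Z2 (Rep.res (r v) A) :=
    fun v => ret_comp_mem_Z2 hr E hNv hBv (L.Z2 B).zero_mem v (hxlc v) (hπ0 v)
  have hrel : Rel L Lv r E
      ((jZ (L := L) C c : ↥(Zc2 L Lv r C)) : (G × G → C) × ((v : ι) → Gv v → C))
      (fun v => (((⟨_, hα v⟩ : ↥((Lv v).Z2 (Rep.res (r v) A))) :
        Gv v × Gv v → Rep.res (r v) A) : Gv v × Gv v → A)) := by
    refine ⟨0, 0, fun v => E.sec ∘ (c v : Gv v → Rep.res (r v) C), (L.Z2 B).zero_mem,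
      (L.C1 C).zero_mem, hxlc, ?_, fun v => ?_, fun v => ?_⟩
    · rw [map_zero, add_zero]
      funext g
      exact (map_zero E.π).symm
    · rw [hπx v]
      funext g
      exact (sub_zero _).symm
    · exact E.i_comp_ret_comp (hπ0 v)
  rw [coneDel_mk hr E hN hNv hB hsurj _ (fun v => ⟨_, hα v⟩) hrel, ← map_neg]
  congr 1
  funext v
  rw [Pi.neg_apply, eq_neg_iff_add_eq_zero, add_comm, ← eq_neg_iff_add_eq_zero, ← map_neg]
  refine del1_eq_of_lift (E.res (r v)) (Lv v) (hNv v) (hBv v) (hCv v) (c v)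
    (E.sec ∘ (c v : Gv v → Rep.res (r v) C)) (hxlc v) (hπx v) _ ?_
  funext g
  have e0 := congrFun (E.i_comp_ret_comp (hπ0 v)) g
  simp only [Function.comp_apply, Pi.sub_apply, Pi.zero_apply, zero_sub] at e0
  show E.i (-(E.ret _)) = _
  rw [map_neg]
  simp only [Pi.sub_apply, Function.comp_apply, Pi.zero_apply, zero_sub, map_neg, neg_neg] at e0 ⊢
  exact neg_inj.1 e0

end Fermat.Agent.S55.PT.H113

end

end
-- ===== PACK-END S55/PT/ConeDelH113.lean

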