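import Fermat.Agent.Pack.S56.E7L2
import Fermat.Agent.Pack.S56.E9L2
import Fermat.Agent.Pack.S56.E11L2
import Fermat.Agent.Pack.S56.E11L0
import Fermat.Agent.Pack.S56.E9L3
import Fermat.Agent.Pack.S56.E11L3
import Fermat.Agent.Pack.S56.E3L0
import Fermat.Agent.Pack.S56.E0L3
import Fermat.Agent.Pack.S56.E9L1
import Fermat.Agent.Pack.S56.E7L1
import Fermat.Agent.Pack.S56.E11L1
import Fermat.Agent.Pack.S56.E5L3
import Fermat.Agent.Pack.S56.E1L2
import Fermat.Agent.Pack.S56.E12L1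
import Fermat.Agent.Pack.S56.E5L0
import Fermat.Agent.Pack.S56.E12L3
import Fermat.Agent.Pack.S56.E6L0

-- ===== PACK-BEGIN S56/P3/H306/Final.lean
section





/-!
# S56 / P3 : assembly from the five remaining leaves (helper306)

`twElement_of_leaves : SPAN → IRR → (SPAN → REG) → CYC → DETORD →
  Fermat.Agent.S56.TWElementStatement`
-/

set_option autoImplicit false

namespace Fermat.Agent.S56.P3.H306

open Fermat.Agent.S56.P3

/-- (CYCEXP) from helper14's `exists_isCycExp`. -/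
theorem cycExpExists : CycExpExistsStatement := fun p hp σ =>
  Fermat.Agent.S56.H14.exists_isCycExp p hp.out.pos σ

/-- **P3 from the five remaining leaves** SPAN, IRR, REG, CYC, DETORD. -/
theorem twElement_of_leaves (hspan : SpanDeltaStatement) (hirr : Ad0IrreducibleStatement)
    (hreg : SpanDeltaStatement → ExistsRegularStatement) (hcyc : CycloQuotientStatement)
    (hord : DetOrderStatement) : Fermat.Agent.S56.TWElementStatement :=
  twElement_of_pieces (sel (h1_of_span hspan) hirr (hreg hspan)) (hreg hspan) hcyc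
    cycExpExists hord

end Fermat.Agent.S56.P3.H306

end
-- ===== PACK-END S56/P3/H306/Final.lean

-- ===== PACK-BEGIN S56/H606/UnrBound.lean
section



/-!
# S56 / LOC-MIN-B (helper606): the unramified local bound

`ρbar : ResidualGaloisRep k`, `P` a valuation subring of `ℚ̄` over a prime `q`, `φ` a Frobenius
element at `P`.  If every ad⁰-cocycle of local type `Ty` is a coboundary on the inertia group
`I_P`, then the local tangent bound with defect `0` holds at `P`
(`H716.LocalBoundAt ρbar P Ty 0`): the classes on `D_P` of these cocycles are unramified, and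
`dim H¹_ur(D_P, ad⁰ρ̄) = dim coker(φ − 1 | (ad⁰)^{I_P}) = dim ker(φ − 1 | (ad⁰)^{I_P}) = h⁰(D_P)`.

The structure of the decomposition group enters through the landed
`exists_frobenius_pow_mul_inertia` (`H606/Gen.lean`): modulo any finite level, `D_P = ⟨φ⟩ I_P`.

Main results (namespace `Fermat.Agent.S56.H606`):
* `isAdCocycle_cob`, `isAdCocycle_sub`, … : the ad⁰-cocycles form a `k`-space containing the
  coboundaries;
* `apply_frobenius_mem_adInv` : an ad⁰-cocycle vanishing on `I_P` has `c φ ∈ (ad⁰)^{I_P}`;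
* `eq_zero_on_decomposition` : an ad⁰-cocycle vanishing on `I_P` and at `φ` vanishes on `D_P`;
* `mem_adInv_decomposition` : `(ad⁰)^{I_P} ∩ ker(φ − 1) = (ad⁰)^{D_P}`;
* `exists_unramified_space`, `localBoundAt_zero_of_frobenius` : the local bound.
-/

set_option autoImplicit false
set_option linter.style.haveILetI false

open Polynomial

noncomputable section

namespace Fermat.Agent.S56.H606

open Fermat.Agent.S56 Fermat.Agent.S56.H716

variable {k : Type} [Field k] (ρbar : ResidualGaloisRep k)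

/-! ## 1. Conjugation and coboundaries -/

theorem rho_mul_inv (σ : GQ) : ρbar.ρ σ * ρbar.ρ σ⁻¹ = 1 := by
  rw [← map_mul, mul_inv_cancel, map_one]

theorem rho_inv_mul (σ : GQ) : ρbar.ρ σ⁻¹ * ρbar.ρ σ = 1 := by
  rw [← map_mul, inv_mul_cancel, map_one]

/-- Conjugation by a product. -/
theorem conj_mul (σ τ : GQ) (m : Module.End k ρbar.V) :
    ρbar.ρ (σ * τ) * m * ρbar.ρ (σ * τ)⁻¹ =
      ρbar.ρ σ * (ρbar.ρ τ * m * ρbar.ρ τ⁻¹) * ρbar.ρ σ⁻¹ := by
  rw [mul_inv_rev, map_mul, map_mul]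
  simp only [mul_assoc]

/-- Conjugation by the identity. -/
theorem conj_one (m : Module.End k ρbar.V) :
    ρbar.ρ (1 : GQ) * m * ρbar.ρ (1 : GQ)⁻¹ = m := by
  rw [inv_one, map_one, one_mul, mul_one]

/-- Conjugation preserves the trace. -/
theorem trace_conj (σ : GQ) (m : Module.End k ρbar.V) :
    LinearMap.trace k ρbar.V (ρbar.ρ σ * m * ρbar.ρ σ⁻¹) = LinearMap.trace k ρbar.V m := by
  rw [LinearMap.trace_mul_comm, ← mul_assoc, rho_inv_mul, one_mul]

/-- Conjugation of a difference. -/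
theorem conj_sub (σ : GQ) (a b : Module.End k ρbar.V) :
    ρbar.ρ σ * (a - b) * ρbar.ρ σ⁻¹ =
      ρbar.ρ σ * a * ρbar.ρ σ⁻¹ - ρbar.ρ σ * b * ρbar.ρ σ⁻¹ := by
  rw [mul_sub, sub_mul]

/-- Conjugation of a sum. -/
theorem conj_add (σ : GQ) (a b : Module.End k ρbar.V) :
    ρbar.ρ σ * (a + b) * ρbar.ρ σ⁻¹ =
      ρbar.ρ σ * a * ρbar.ρ σ⁻¹ + ρbar.ρ σ * b * ρbar.ρ σ⁻¹ := by
  rw [mul_add, add_mul]

/-- Conjugation of zero. -/
theorem conj_zero (σ : GQ) :
    ρbar.ρ σ * (0 : Module.End k ρbar.V) * ρbar.ρ σ⁻¹ = 0 := by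
  rw [mul_zero, zero_mul]

/-- Conjugation of a scalar multiple. -/
theorem conj_smul (σ : GQ) (r : k) (a : Module.End k ρbar.V) :
    ρbar.ρ σ * (r • a) * ρbar.ρ σ⁻¹ = r • (ρbar.ρ σ * a * ρbar.ρ σ⁻¹) := by
  rw [mul_smul_comm, smul_mul_assoc]

/-- The coboundary of `m`. -/
def cob (m : Module.End k ρbar.V) : GQ → Module.End k ρbar.V :=
  fun σ => ρbar.ρ σ * m * ρbar.ρ σ⁻¹ - m

theorem cob_apply (m : Module.End k ρbar.V) (σ : GQ) :
    cob ρbar m σ = ρbar.ρ σ * m * ρbar.ρ σ⁻¹ - m := rfl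

/-- Coboundaries are ad⁰-cocycles. -/
theorem isAdCocycle_cob (m : Module.End k ρbar.V) : IsAdCocycle ρbar (cob ρbar m) := by
  refine ⟨fun σ => ?_, fun σ τ => ?_, ?_⟩
  · rw [cob_apply, map_sub, trace_conj, sub_self]
  · rw [cob_apply, cob_apply, cob_apply, conj_mul, conj_sub]
    abel
  · obtain ⟨L, hL, h⟩ := ρbar.factorsThroughFiniteLevel
    refine ⟨L, hL, fun σ τ hτ => ?_⟩
    rw [cob_apply, cob_apply, conj_mul, conj_of_eq_one ρbar (h τ hτ)]
where
  conj_of_eq_one (ρbar : ResidualGaloisRep k) {τ : GQ} (h : ρbar.ρ τ = 1)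
      {m : Module.End k ρbar.V} : ρbar.ρ τ * m * ρbar.ρ τ⁻¹ = m := by
    have h' : ρbar.ρ τ⁻¹ = 1 := by
      have := rho_inv_mul ρbar τ
      rwa [h, mul_one] at this
    rw [h, h', one_mul, mul_one]

variable {ρbar}

theorem adCocycle_apply_one {c : GQ → Module.End k ρbar.V} (hc : IsAdCocycle ρbar c) :
    c 1 = 0 := by
  have h := hc.map_mul 1 1
  rw [mul_one, conj_one] at h
  exact left_eq_add.mp h

theorem isAdCocycle_zero : IsAdCocycle ρbar (0 : GQ → Module.End k ρbar.V) := by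
  refine ⟨fun σ => ?_, fun σ τ => ?_, ⟨⊥, inferInstance, fun σ τ _ => rfl⟩⟩
  · rw [Pi.zero_apply, map_zero]
  · rw [Pi.zero_apply, Pi.zero_apply, Pi.zero_apply, conj_zero, add_zero]

theorem isAdCocycle_add {c c' : GQ → Module.End k ρbar.V} (hc : IsAdCocycle ρbar c)
    (hc' : IsAdCocycle ρbar c') : IsAdCocycle ρbar (c + c') := by
  refine ⟨fun σ => ?_, fun σ τ => ?_, ?_⟩
  · rw [Pi.add_apply, map_add, hc.trace_eq_zero, hc'.trace_eq_zero, add_zero]
  · rw [Pi.add_apply, Pi.add_apply, Pi.add_apply, hc.map_mul, hc'.map_mul, conj_add]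
    abel
  · obtain ⟨L, hL, h⟩ := hc.level
    obtain ⟨L', hL', h'⟩ := hc'.level
    refine ⟨L ⊔ L', IntermediateField.finiteDimensional_sup L L', fun σ τ hτ => ?_⟩
    rw [Pi.add_apply, Pi.add_apply,
      h σ τ (fun x hx => hτ x ((le_sup_left : L ≤ L ⊔ L') hx)),
      h' σ τ (fun x hx => hτ x ((le_sup_right : L' ≤ L ⊔ L') hx))]

theorem isAdCocycle_smul {c : GQ → Module.End k ρbar.V} (hc : IsAdCocycle ρbar c) (r : k) :
    IsAdCocycle ρbar (r • c) := by
  refine ⟨fun σ => ?_, fun σ τ => ?_, ?_⟩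
  · rw [Pi.smul_apply, map_smul, hc.trace_eq_zero, smul_zero]
  · rw [Pi.smul_apply, Pi.smul_apply, Pi.smul_apply, hc.map_mul, conj_smul, smul_add]
  · obtain ⟨L, hL, h⟩ := hc.level
    refine ⟨L, hL, fun σ τ hτ => ?_⟩
    rw [Pi.smul_apply, Pi.smul_apply, h σ τ hτ]

theorem isAdCocycle_neg {c : GQ → Module.End k ρbar.V} (hc : IsAdCocycle ρbar c) :
    IsAdCocycle ρbar (-c) := by
  have := isAdCocycle_smul hc (-1 : k)
  rwa [neg_one_smul] at this

theorem isAdCocycle_sub {c c' : GQ → Module.End k ρbar.V} (hc : IsAdCocycle ρbar c)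
    (hc' : IsAdCocycle ρbar c') : IsAdCocycle ρbar (c - c') := by
  rw [sub_eq_add_neg]
  exact isAdCocycle_add hc (isAdCocycle_neg hc')

/-- The value of a cocycle at a power. -/
theorem adCocycle_apply_pow_eq_zero {c : GQ → Module.End k ρbar.V} (hc : IsAdCocycle ρbar c)
    {φ : GQ} (h : c φ = 0) (n : ℕ) : c (φ ^ n) = 0 := by
  induction n with
  | zero => rw [pow_zero, adCocycle_apply_one hc]
  | succ n ih => rw [pow_succ, hc.map_mul, ih, h, conj_zero, add_zero]

/-! ## 2. Cocycles on the decomposition group -/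

section decomp

open scoped Pointwise

variable (P : ValuationSubring Qb)

/-- The inertia group is normalised by the decomposition group. -/
theorem inv_conj_mem_inertia {φ ι : GQ} (hφ : φ ∈ P.decompositionSubgroup ℚ)
    (hι : ι ∈ P.inertiaSubgroupIn ℚ) : φ⁻¹ * ι * φ ∈ P.inertiaSubgroupIn ℚ := by
  have h := Fermat.Agent.S55.Bridge.conj_mem_inertiaSubgroupIn P φ⁻¹ ι hι
  have hP : φ⁻¹ • P = P := MulAction.mem_stabilizer_iff.mp (Subgroup.inv_mem _ hφ)
  rw [hP, inv_inv] at h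
  exact h

variable {P}

/-- An ad⁰-cocycle vanishing on `I_P` takes `I_P`-invariant values on `D_P`. -/
theorem conj_apply_eq_of_vanishes {c : GQ → Module.End k ρbar.V} (hc : IsAdCocycle ρbar c)
    (hI : ∀ ι ∈ P.inertiaSubgroupIn ℚ, c ι = 0) {φ : GQ}
    (hφ : φ ∈ P.decompositionSubgroup ℚ) {ι : GQ} (hι : ι ∈ P.inertiaSubgroupIn ℚ) :
    ρbar.ρ ι * c φ * ρbar.ρ ι⁻¹ = c φ := by
  have h1 : c (ι * φ) = ρbar.ρ ι * c φ * ρbar.ρ ι⁻¹ := by
    rw [hc.map_mul, hI ι hι, zero_add]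
  have h2 : ι * φ = φ * (φ⁻¹ * ι * φ) := by group
  have h3 : c (φ * (φ⁻¹ * ι * φ)) = c φ := by
    rw [hc.map_mul, hI _ (inv_conj_mem_inertia P hφ hι), conj_zero, add_zero]
  rw [← h1, h2, h3]

/-- An ad⁰-cocycle vanishing on `I_P` has `c φ ∈ H⁰(I_P, ad⁰ρ̄)` for `φ ∈ D_P`. -/
theorem apply_mem_adInv {c : GQ → Module.End k ρbar.V} (hc : IsAdCocycle ρbar c)
    (hI : ∀ ι ∈ P.inertiaSubgroupIn ℚ, c ι = 0) {φ : GQ}
    (hφ : φ ∈ P.decompositionSubgroup ℚ) : c φ ∈ adInv ρbar (P.inertiaSubgroupIn ℚ) :=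
  ⟨hc.trace_eq_zero φ, fun _ hι => conj_apply_eq_of_vanishes hc hI hφ hι⟩

/-- **Unramified cocycles are determined by their value at Frobenius.**  An ad⁰-cocycle
vanishing on `I_P` and at a Frobenius element `φ` vanishes on `D_P`. -/
theorem eq_zero_on_decomposition {q : ℕ} (hq : q.Prime) (hP : P.LiesOverPrime q) {φ : GQ}
    (hφ : P.IsFrobeniusAt φ q) {c : GQ → Module.End k ρbar.V} (hc : IsAdCocycle ρbar c)
    (hI : ∀ ι ∈ P.inertiaSubgroupIn ℚ, c ι = 0) (hcφ : c φ = 0) {σ : GQ}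
    (hσ : σ ∈ P.decompositionSubgroup ℚ) : c σ = 0 := by
  obtain ⟨L, hL, h⟩ := hc.level
  haveI := hL
  obtain ⟨n, ι, hι, hσL⟩ := exists_frobenius_pow_mul_inertia hq hP L hφ hσ
  have h1 : σ = (φ ^ n * ι) * ((φ ^ n * ι)⁻¹ * σ) := by group
  have h2 : ∀ x ∈ L, ((φ ^ n * ι)⁻¹ * σ) x = x := by
    intro x hx
    show (φ ^ n * ι)⁻¹ (σ x) = x
    rw [hσL x hx]
    show ((φ ^ n * ι)⁻¹ * (φ ^ n * ι)) x = x
    rw [inv_mul_cancel]
    rfl
  rw [h1, h _ _ h2, hc.map_mul, hI ι hι, conj_zero, add_zero,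
    adCocycle_apply_pow_eq_zero hc hcφ]

variable (ρbar) in
/-- The stabiliser of an endomorphism under the adjoint action. -/
def adStab (x : Module.End k ρbar.V) : Subgroup GQ where
  carrier := {σ | ρbar.ρ σ * x * ρbar.ρ σ⁻¹ = x}
  mul_mem' := fun {a b} ha hb => by
    show ρbar.ρ (a * b) * x * ρbar.ρ (a * b)⁻¹ = x
    rw [conj_mul, hb, ha]
  one_mem' := conj_one ρbar x
  inv_mem' := fun {a} ha => by
    show ρbar.ρ a⁻¹ * x * ρbar.ρ a⁻¹⁻¹ = x
    have h1 : ρbar.ρ a⁻¹ * (ρbar.ρ a * x * ρbar.ρ a⁻¹) * ρbar.ρ a⁻¹⁻¹ = x := by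
      rw [← conj_mul, inv_mul_cancel, conj_one]
    rw [ha] at h1
    exact h1

theorem mem_adStab {x : Module.End k ρbar.V} {σ : GQ} :
    σ ∈ adStab ρbar x ↔ ρbar.ρ σ * x * ρbar.ρ σ⁻¹ = x := Iff.rfl

/-- **Invariants.**  An endomorphism fixed by `I_P` and by a Frobenius element is fixed by
`D_P`. -/
theorem conj_eq_of_mem_decomposition {q : ℕ} (hq : q.Prime) (hP : P.LiesOverPrime q) {φ : GQ}
    (hφ : P.IsFrobeniusAt φ q) {x : Module.End k ρbar.V}
    (hI : ∀ ι ∈ P.inertiaSubgroupIn ℚ, ρbar.ρ ι * x * ρbar.ρ ι⁻¹ = x)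
    (hxφ : ρbar.ρ φ * x * ρbar.ρ φ⁻¹ = x) {σ : GQ}
    (hσ : σ ∈ P.decompositionSubgroup ℚ) : ρbar.ρ σ * x * ρbar.ρ σ⁻¹ = x := by
  obtain ⟨L, hL, h⟩ := ρbar.factorsThroughFiniteLevel
  haveI := hL
  obtain ⟨n, ι, hι, hσL⟩ := exists_frobenius_pow_mul_inertia hq hP L hφ hσ
  have h1 : σ = (φ ^ n * ι) * ((φ ^ n * ι)⁻¹ * σ) := by group
  have h2 : ∀ x ∈ L, ((φ ^ n * ι)⁻¹ * σ) x = x := by
    intro x hx
    show (φ ^ n * ι)⁻¹ (σ x) = x
    rw [hσL x hx]
    show ((φ ^ n * ι)⁻¹ * (φ ^ n * ι)) x = x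
    rw [inv_mul_cancel]
    rfl
  have h3 : (φ ^ n * ι)⁻¹ * σ ∈ adStab ρbar x := by
    rw [mem_adStab]
    exact isAdCocycle_cob.conj_of_eq_one ρbar (h _ h2)
  have h4 : φ ^ n * ι ∈ adStab ρbar x :=
    Subgroup.mul_mem _ (Subgroup.pow_mem _ (mem_adStab.mpr hxφ) n) (mem_adStab.mpr (hI ι hι))
  rw [← mem_adStab, h1]
  exact Subgroup.mul_mem _ h4 h3

end decomp

/-! ## 3. The local bound -/

section bound

variable (ρbar) (P : ValuationSubring Qb)

theorem cob_add (a b : Module.End k ρbar.V) : cob ρbar (a + b) = cob ρbar a + cob ρbar b := by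
  funext σ
  rw [Pi.add_apply, cob_apply, cob_apply, cob_apply, conj_add]
  abel

theorem cob_smul (r : k) (a : Module.End k ρbar.V) : cob ρbar (r • a) = r • cob ρbar a := by
  funext σ
  rw [Pi.smul_apply, cob_apply, cob_apply, conj_smul, smul_sub]

/-- The `k`-space of ad⁰-cocycles vanishing on `I_P`. -/
def unrCocycles : Submodule k (GQ → Module.End k ρbar.V) where
  carrier := {c | IsAdCocycle ρbar c ∧ ∀ ι ∈ P.inertiaSubgroupIn ℚ, c ι = 0}
  add_mem' := fun {a b} ha hb =>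
    ⟨isAdCocycle_add ha.1 hb.1, fun ι hι => by
      rw [Pi.add_apply, ha.2 ι hι, hb.2 ι hι, add_zero]⟩
  zero_mem' := ⟨isAdCocycle_zero, fun _ _ => rfl⟩
  smul_mem' := fun r a ha =>
    ⟨isAdCocycle_smul ha.1 r, fun ι hι => by rw [Pi.smul_apply, ha.2 ι hι, smul_zero]⟩

variable {ρbar P}

theorem mem_unrCocycles {c : GQ → Module.End k ρbar.V} :
    c ∈ unrCocycles ρbar P ↔ IsAdCocycle ρbar c ∧ ∀ ι ∈ P.inertiaSubgroupIn ℚ, c ι = 0 :=
  Iff.rfl

/-- The coboundary of an `I_P`-invariant endomorphism vanishes on `I_P`. -/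
theorem cob_mem_unrCocycles {x : Module.End k ρbar.V}
    (hx : ∀ ι ∈ P.inertiaSubgroupIn ℚ, ρbar.ρ ι * x * ρbar.ρ ι⁻¹ = x) :
    cob ρbar x ∈ unrCocycles ρbar P :=
  ⟨isAdCocycle_cob ρbar x, fun ι hι => by rw [cob_apply, hx ι hι, sub_self]⟩

variable (ρbar P)

/-- Evaluation of unramified cocycles at `φ ∈ D_P`, with values in `H⁰(I_P, ad⁰ρ̄)`. -/
def evalAt (φ : GQ) (hφ : φ ∈ P.decompositionSubgroup ℚ) :
    unrCocycles ρbar P →ₗ[k] adInv ρbar (P.inertiaSubgroupIn ℚ) where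
  toFun c := ⟨c.1 φ, apply_mem_adInv c.2.1 c.2.2 hφ⟩
  map_add' := fun _ _ => rfl
  map_smul' := fun _ _ => rfl

/-- `Ad φ − 1` on `H⁰(I_P, ad⁰ρ̄)`, for `φ ∈ D_P`. -/
def frobSubOne (φ : GQ) (hφ : φ ∈ P.decompositionSubgroup ℚ) :
    adInv ρbar (P.inertiaSubgroupIn ℚ) →ₗ[k] adInv ρbar (P.inertiaSubgroupIn ℚ) where
  toFun x := ⟨cob ρbar x.1 φ,
    apply_mem_adInv (cob_mem_unrCocycles x.2.2).1 (cob_mem_unrCocycles x.2.2).2 hφ⟩
  map_add' := fun a b => by
    apply Subtype.ext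
    show cob ρbar (a.1 + b.1) φ = cob ρbar a.1 φ + cob ρbar b.1 φ
    rw [cob_add]
    rfl
  map_smul' := fun r a => by
    apply Subtype.ext
    show cob ρbar (r • a.1) φ = r • cob ρbar a.1 φ
    rw [cob_smul]
    rfl

variable {ρbar P}

/-- The kernel of `Ad φ − 1` on `H⁰(I_P, ad⁰ρ̄)` is `H⁰(D_P, ad⁰ρ̄)`. -/
theorem finrank_ker_frobSubOne_le {q : ℕ} (hq : q.Prime) (hP : P.LiesOverPrime q) {φ : GQ}
    (hφ : P.IsFrobeniusAt φ q) :
    Module.finrank k (LinearMap.ker (frobSubOne ρbar P φ hφ.mem_decompositionSubgroup)) ≤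
      Module.finrank k (adInv ρbar (P.decompositionSubgroup ℚ)) := by
  let j : LinearMap.ker (frobSubOne ρbar P φ hφ.mem_decompositionSubgroup) →ₗ[k]
      adInv ρbar (P.decompositionSubgroup ℚ) :=
    { toFun := fun x => ⟨x.1.1, x.1.2.1, fun σ hσ => by
        have hx : frobSubOne ρbar P φ hφ.mem_decompositionSubgroup x.1 = 0 := x.2
        have hx' : cob ρbar x.1.1 φ = 0 := congrArg Subtype.val hx
        rw [cob_apply, sub_eq_zero] at hx'
        exact conj_eq_of_mem_decomposition hq hP hφ x.1.2.2 hx' hσ⟩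
      map_add' := fun _ _ => rfl
      map_smul' := fun _ _ => rfl }
  have hj : Function.Injective j := by
    intro a b hab
    apply Subtype.ext
    apply Subtype.ext
    have h1 : (j a).1 = (j b).1 := congrArg Subtype.val hab
    exact h1
  exact LinearMap.finrank_le_finrank_of_injective hj

/-- **LOC-MIN-B, unramified classes.**  There is a `k`-space `Λ` of functions with
`dim Λ ≤ h⁰(D_P, ad⁰ρ̄)` such that every ad⁰-cocycle which is a coboundary on the inertia group
`I_P` is, on `D_P`, cohomologous to an element of `Λ`. -/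
theorem exists_unramified_space {q : ℕ} (hq : q.Prime) (hP : P.LiesOverPrime q) {φ : GQ}
    (hφ : P.IsFrobeniusAt φ q) :
    ∃ Λ : Submodule k (GQ → Module.End k ρbar.V), Module.Finite k Λ ∧
      Module.finrank k Λ ≤ Module.finrank k (adInv ρbar (P.decompositionSubgroup ℚ)) ∧
      ∀ c : GQ → Module.End k ρbar.V, IsAdCocycle ρbar c →
        IsAdCoboundaryOn ρbar (P.inertiaSubgroupIn ℚ) c →
        ∃ t ∈ Λ, IsAdCoboundaryOn ρbar (P.decompositionSubgroup ℚ) (c - t) := by
  have hφD := hφ.mem_decompositionSubgroup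
  let T := frobSubOne ρbar P φ hφD
  let ev := evalAt ρbar P φ hφD
  let f : unrCocycles ρbar P →ₗ[k] (adInv ρbar (P.inertiaSubgroupIn ℚ) ⧸ LinearMap.range T) :=
    (LinearMap.range T).mkQ ∘ₗ ev
  obtain ⟨g, hg⟩ := LinearMap.exists_rightInverse_of_surjective f.rangeRestrict
    (LinearMap.range_rangeRestrict f)
  refine ⟨LinearMap.range ((unrCocycles ρbar P).subtype ∘ₗ g), ?_, ?_, ?_⟩
  · infer_instance
  · calc Module.finrank k (LinearMap.range ((unrCocycles ρbar P).subtype ∘ₗ g))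
        ≤ Module.finrank k (LinearMap.range f) := LinearMap.finrank_range_le _
      _ ≤ Module.finrank k (adInv ρbar (P.inertiaSubgroupIn ℚ) ⧸ LinearMap.range T) :=
          Submodule.finrank_le _
      _ = Module.finrank k (LinearMap.ker T) := by
          have h1 := Submodule.finrank_quotient_add_finrank (LinearMap.range T)
          have h2 := LinearMap.finrank_range_add_finrank_ker T
          omega
      _ ≤ Module.finrank k (adInv ρbar (P.decompositionSubgroup ℚ)) :=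
          finrank_ker_frobSubOne_le hq hP hφ
  · rintro c hc ⟨m, hm⟩
    let c' : unrCocycles ρbar P := ⟨c - cob ρbar m, isAdCocycle_sub hc (isAdCocycle_cob ρbar m),
      fun ι hι => by rw [Pi.sub_apply, hm ι hι, cob_apply, sub_self]⟩
    let r : LinearMap.range f := f.rangeRestrict c'
    refine ⟨((g r : unrCocycles ρbar P) : GQ → Module.End k ρbar.V), ⟨r, rfl⟩, ?_⟩
    have h1 : f (c' - g r) = 0 := by
      rw [map_sub, sub_eq_zero]
      have := congrArg Subtype.val (LinearMap.congr_fun hg r)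
      exact this.symm
    have h2 : ev (c' - g r) ∈ LinearMap.range T := (Submodule.Quotient.mk_eq_zero _).mp h1
    obtain ⟨u, hu⟩ := h2
    have hu' : cob ρbar u.1 φ = c φ - cob ρbar m φ - (g r).1 φ := congrArg Subtype.val hu
    have hcu : cob ρbar u.1 ∈ unrCocycles ρbar P := cob_mem_unrCocycles u.2.2
    have hmem : ((c' - g r : unrCocycles ρbar P) : GQ → Module.End k ρbar.V) - cob ρbar u.1 ∈
        unrCocycles ρbar P := Submodule.sub_mem _ (c' - g r).2 hcu
    refine ⟨m + u.1, fun σ hσ => ?_⟩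
    have hz := eq_zero_on_decomposition hq hP hφ hmem.1 hmem.2 (by
      show c φ - cob ρbar m φ - (g r).1 φ - cob ρbar u.1 φ = 0
      rw [hu', sub_self]) hσ
    have hz' : c σ - cob ρbar m σ - (g r).1 σ - cob ρbar u.1 σ = 0 := hz
    show c σ - (g r).1 σ = ρbar.ρ σ * (m + u.1) * ρbar.ρ σ⁻¹ - (m + u.1)
    have h3 : ρbar.ρ σ * (m + u.1) * ρbar.ρ σ⁻¹ - (m + u.1) = cob ρbar m σ + cob ρbar u.1 σ := by
      rw [cob_apply, cob_apply, conj_add]
      abel
    rw [h3]
    have h4 : c σ - (g r).1 σ =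
        (c σ - cob ρbar m σ - (g r).1 σ - cob ρbar u.1 σ) + (cob ρbar m σ + cob ρbar u.1 σ) := by
      abel
    rw [h4, hz', zero_add]

/-- **LOC-MIN-B, local bound.**  If every ad⁰-cocycle of local type `Ty` is a coboundary on the
inertia group `I_P`, then the local bound with defect `0` holds at `P`. -/
theorem localBoundAt_zero_of_frobenius {q : ℕ} (hq : q.Prime) (hP : P.LiesOverPrime q) {φ : GQ}
    (hφ : P.IsFrobeniusAt φ q) (Ty : GaloisRepAdic (DualNumber k) → Prop)
    (h : ∀ c : GQ → Module.End k ρbar.V, IsAdCocycle ρbar c →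
      (∃ ρ' : GaloisRepAdic (DualNumber k), IsLiftOf ρbar c ρ' ∧ Ty ρ') →
      IsAdCoboundaryOn ρbar (P.inertiaSubgroupIn ℚ) c) :
    LocalBoundAt ρbar P Ty 0 := by
  obtain ⟨Λ, h1, h2, h3⟩ := exists_unramified_space (ρbar := ρbar) hq hP hφ
  exact ⟨Λ, h1, h2, fun c hc hTy => h3 c hc (h c hc hTy)⟩

end bound

end Fermat.Agent.S56.H606

end

end
-- ===== PACK-END S56/H606/UnrBound.lean

-- ===== PACK-BEGIN S56/H794/LocMinSpec.lean
section




/-!
# S56 / LOC-MIN (helper794): interface + glue  `LOC-MIN ⇐ LOC-MIN-A (landed) + LOC-MIN-B`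

* `LocMinBStatement` (LOC-MIN-B, "unramified classes"; any field `k`, any prime `q`, any place
  `P | q`): there is a `k`-space `Λ` of functions with `dim Λ ≤ h⁰(D_P, ad⁰ρ̄)` such that every
  ad⁰-cocycle which is a coboundary on the inertia group `I_P` is, on `D_P`, cohomologous to an
  element of `Λ`.  (`H¹_ur(D_P, M) = H¹(D_P/I_P, M^{I_P})`, `dim = h⁰(D_P, M)`.)
* `ramified_at_of_hyp`: under `Hyp`, `ρ̄` is ramified at EVERY place `P` over `v ∈ Smin`, `v ≠ p`.
* `locMin_of_B : LocMinBStatement → H716.LocMinStatement` (glue with the landed LOC-MIN-A,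
  `exists_coboundary_on_inertia_of_unipotent`).

Nothing unproved in this file.
-/

set_option autoImplicit false

open Polynomial IsLocalRing

noncomputable section

namespace Fermat.Agent.S56.H794

open Fermat.Agent.S56 Fermat.Agent.S56.H716

/-- (LOC-MIN-B) unramified classes: cocycles which are coboundaries on the inertia group `I_P`
are, on the decomposition group `D_P`, cohomologous to the elements of a space of dimension
`≤ h⁰(D_P, ad⁰ρ̄)`. -/
def LocMinBStatement : Prop :=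
  ∀ (k : Type) [Field k] (ρbar : ResidualGaloisRep k) (q : ℕ), q.Prime →
    ∀ P : ValuationSubring Qb, P.LiesOverPrime q →
      ∃ Λ : Submodule k (GQ → Module.End k ρbar.V), Module.Finite k Λ ∧
        Module.finrank k Λ ≤ Module.finrank k (adInv ρbar (P.decompositionSubgroup ℚ)) ∧
        ∀ c : GQ → Module.End k ρbar.V, IsAdCocycle ρbar c →
          IsAdCoboundaryOn ρbar (P.inertiaSubgroupIn ℚ) c →
          ∃ t ∈ Λ, IsAdCoboundaryOn ρbar (P.decompositionSubgroup ℚ) (c - t)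

section

variable {𝒪 : Type} [CommRing 𝒪] [IsDomain 𝒪] [IsDiscreteValuationRing 𝒪]
  {p : ℕ} {ρbar : ResidualGaloisRep (ResidueField 𝒪)} {S Smin : Finset ℕ}

/-- Under `Hyp`, the residue characteristic is `p`. -/
theorem natCast_residueField_eq_zero_of_hyp (h : Hyp 𝒪 p ρbar S Smin) :
    (p : ResidueField 𝒪) = 0 := by
  have h1 : IsLocalRing.residue 𝒪 (p : 𝒪) = 0 :=
    (IsLocalRing.residue_eq_zero_iff _).mpr h.hp𝒪
  rwa [map_natCast] at h1

/-- Under `Hyp`, the primes of `Smin` are prime numbers. -/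
theorem prime_of_mem_Smin (h : Hyp 𝒪 p ρbar S Smin) {v : ℕ} (hv : v ∈ Smin) : v.Prime :=
  h.hS v (h.hSmin hv)

/-- Under `Hyp`, `ρ̄` is ramified at every place over `v ∈ Smin`, `v ≠ p`. -/
theorem ramified_at_of_hyp (h : Hyp 𝒪 p ρbar S Smin) {v : ℕ} (hv : v ∈ Smin) (hvp : v ≠ p)
    {P : ValuationSubring Qb} (hP : P.LiesOverPrime v) :
    ∃ τ ∈ P.inertiaSubgroupIn ℚ, ρbar.ρ τ ≠ 1 := by
  have hvprime : v.Prime := prime_of_mem_Smin h hv
  by_contra hcon
  push Not at hcon
  refine (h.hmin v hvprime hvp).mp hv ?_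
  intro A hA σ hσ
  exact Fermat.Agent.Lib.Cheb.H476.map_inertia_eq_one_of_liesOver ρbar.ρ hvprime hP hA hcon σ hσ

end

/-- **Glue**: LOC-MIN from LOC-MIN-B and the landed LOC-MIN-A. -/
theorem locMin_of_B (hB : LocMinBStatement) : LocMinStatement := by
  intro 𝒪 _ _ _ _ _ p ρbar S Smin h v hv hvp P hP
  have hvprime : v.Prime := prime_of_mem_Smin h hv
  have hpk : (p : ResidueField 𝒪) = 0 := natCast_residueField_eq_zero_of_hyp h
  have hram := ramified_at_of_hyp h hv hvp hP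
  obtain ⟨Λ, hfin, hrk, hΛ⟩ := hB (ResidueField 𝒪) ρbar v hvprime P hP
  refine ⟨Λ, hfin, by simpa using hrk, ?_⟩
  rintro c hc ⟨ρ', hlift, -, hunip⟩
  obtain ⟨m, -, hm⟩ := exists_coboundary_on_inertia_of_unipotent h.hp h.hp2 hpk hc hlift
    hvprime hvp hunip hP hram
  exact hΛ c hc ⟨m, hm⟩

end Fermat.Agent.S56.H794

end

end
-- ===== PACK-END S56/H794/LocMinSpec.lean

-- ===== PACK-BEGIN S56/H116/Root.lean
section




/-!
# S56 / W-FLAT-SS / LocalModel / ROOT: assembly (helper116)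

`root_of : FL.RationalityStatement → FL.RootStatement`.

Ingredients:
* R1 (`H116.Root.exists_eta`, `RootEta.lean`): the perturbation map `η : ∑ a_i ϖ^i ↦ ∑ a_i ϖ'^i`
  attached to a root `ϖ'` of `G + p X^j` is additive, multiplicative modulo `p ϖ^j`, isometric and
  the identity on `B'`;
* R2 (`H254.level_of_fixes`): Theorem A for the pair of flat lifts;
* R3 (`H434.mem_decompositionSubgroup_of_fixes`, `H434.fixes_of_fixes`): Galois theory
  (`G1`: automorphisms fixing the decomposition ring lie in `D_P`; `G2`: degree count).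

Sorry-free.
-/

set_option autoImplicit false

open Polynomial

noncomputable section

namespace Fermat.Agent.S56.H116.Root

open Fermat.Agent.S56 Fermat.Agent.S56.H716 Fermat.Agent.S56.FL

local notation "Zloc" => GaloisRep.ratLocalizedAt

/-- An automorphism fixing `B'` pointwise and fixing `z` fixes the values at `z` of the
polynomials with coefficients in `B'`. -/
theorem apply_ev_of_fixes (B' : Subring Qb) (σ : GQ) (hσ : ∀ b ∈ B', σ b = b) {z : Qb}
    (hz : σ z = z) (f : Polynomial B') : σ (ev B' z f) = ev B' z f := by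
  rw [ev_apply]
  have h1 := Polynomial.hom_eval₂ f B'.subtype (σ : Qb →+* Qb) z
  have h2 : ((σ : Qb →+* Qb).comp B'.subtype) = B'.subtype := by
    ext b
    exact hσ b b.2
  rw [h2] at h1
  have h3 : (σ : Qb →+* Qb) z = z := hz
  rw [h3] at h1
  exact h1

/-- Uniqueness of Eisenstein expansions, `Fin e`-indexed form. -/
theorem EisPres.eq_zero_of_sum_fin_eq_zero {Ω : Type*} [Field Ω] {Γ₀ : Type*}
    [LinearOrderedCommGroupWithZero Γ₀] {v : Valuation Ω Γ₀} {B' : Subring Ω} {π : Ω} {e : ℕ}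
    {ϖ : Ω} (h : EisPres v B' π e ϖ) (a : Fin e → Ω) (ha : ∀ i, a i ∈ B')
    (hsum : ∑ i, a i * ϖ ^ (i : ℕ) = 0) (i : Fin e) : a i = 0 := by
  classical
  set a' : ℕ → Ω := fun n => if hn : n < e then a ⟨n, hn⟩ else 0 with ha'
  have ha'mem : ∀ n, a' n ∈ B' := by
    intro n
    by_cases hn : n < e
    · simp only [ha', hn, dif_pos]
      exact ha _
    · simp only [ha', hn, dif_neg, not_false_eq_true]
      exact B'.zero_mem
  have hsum' : ∑ n ∈ Finset.range e, a' n * ϖ ^ n = 0 := by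
    rw [Finset.sum_range]
    rw [← hsum]
    refine Finset.sum_congr rfl fun n _ => ?_
    simp only [ha', n.2, dif_pos, Fin.eta]
  have := h.eq_zero_of_sum_eq_zero a' ha'mem hsum' i i.2
  simpa only [ha', i.2, dif_pos, Fin.eta] using this

/-- **ROOT.**  `RootStatement ⇐ RationalityStatement`. -/
theorem root_of (hRat : RationalityStatement) : RootStatement := by
  intro k _ _ p _ _ hchar ρbar P hP c₁ c₂ _ _ ρ₁ ρ₂ h₁ h₂ hf₁ hf₂ B' ϖ e G hA hB' hval hϖ hvpow
    hexp hGm hGdeg hGcoef hGval hG0 hroot j _ hj0 hje hejp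
  have hp : p.Prime := Fact.out
  have hp0 : (p : Qb) ≠ 0 := by exact_mod_cast hp.ne_zero
  have hvp_lt : P.valuation (p : Qb) < 1 := (ValuationSubring.mem_nonunits_iff (A := P)).mp hP
  have hvp_ne : P.valuation (p : Qb) ≠ 0 := (Valuation.ne_zero_iff _).mpr hp0
  have he0 : 0 < e := hj0.trans hje
  have hE : EisPres P.valuation B' (p : Qb) e ϖ :=
    { int := fun b hb => (P.valuation_le_one_iff _).mpr (hB' b hb).1
      val := hval
      vpow := hvpow
      lt_one := hvp_lt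
      ne_zero := hvp_ne
      epos := he0 }
  -- the perturbed polynomial
  have hdeglt : (C (p : Qb) * X ^ j).degree < G.degree := by
    refine lt_of_le_of_lt (Polynomial.degree_C_mul_X_pow_le j _) ?_
    rw [Polynomial.degree_eq_natDegree hGm.ne_zero, hGdeg]
    exact_mod_cast hje
  have hG'm : (G + C (p : Qb) * X ^ j).Monic := hGm.add_of_left hdeglt
  have hG'deg : (G + C (p : Qb) * X ^ j).natDegree = e := by
    rw [Polynomial.natDegree_add_eq_left_of_degree_lt hdeglt, hGdeg]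
  have hG'coef : ∀ i, (G + C (p : Qb) * X ^ j).coeff i ∈ B' := by
    intro i
    rw [Polynomial.coeff_add, Polynomial.coeff_C_mul_X_pow]
    refine B'.add_mem (hGcoef i) ?_
    split_ifs
    · exact natCast_mem B' p
    · exact B'.zero_mem
  obtain ⟨ϖ', hϖ'⟩ : ∃ z, (G + C (p : Qb) * X ^ j).eval z = 0 := by
    refine IsAlgClosed.exists_root _ ?_
    rw [Polynomial.degree_eq_natDegree hG'm.ne_zero, hG'deg]
    exact_mod_cast he0.ne'
  have hroot' : G.eval ϖ' + (p : Qb) * ϖ' ^ j = 0 := by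
    simpa only [Polynomial.eval_add, Polynomial.eval_mul, Polynomial.eval_C, Polynomial.eval_pow,
      Polynomial.eval_X] using hϖ'
  -- R1
  obtain ⟨hvϖ', η, hη1, hηadd, hηmul, hηB, hηv, hηev⟩ :=
    exists_eta B' hE hGm hGdeg hGcoef hGval hG0 hroot hj0 hje hroot'
      (levelSet ρbar c₁ c₂ P) hexp
  -- the bound `γ ^ (p - 1) < |p|` for `γ = |ϖ| ^ j`
  have hγ : (P.valuation ϖ ^ j) ^ (p - 1) < P.valuation (p : Qb) := by
    rw [← pow_mul, ← hvpow]
    exact pow_lt_pow_right_of_lt_one₀ hE.vϖ_pos hE.vϖ_lt_one hejp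
  have hZ : ∀ r : Zloc p, algebraMap (Zloc p) Qb r ∈ B' := fun r =>
    hA _ (H254.algebraMap_mem_valuationSubring P hP r) (fun τ _ => τ.commutes _)
  -- every automorphism fixing `B'` and `ϖ'` fixes `ϖ`
  have hkey : ∀ σ : GQ, (∀ b ∈ B', σ b = b) → σ ϖ' = ϖ' → σ ϖ = ϖ := by
    intro σ hσB hσϖ'
    have hσD : σ ∈ P.decompositionSubgroup ℚ :=
      H434.mem_decompositionSubgroup_of_fixes P σ (fun x hx hfix => hσB x (hA x hx hfix))
    have hfix : ∀ a ∈ levelSet ρbar c₁ c₂ P, σ (η a) = η a := by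
      intro a ha
      obtain ⟨f, hf⟩ := hηev a ha
      rw [hf]
      exact apply_ev_of_fixes B' σ hσB hσϖ' f
    obtain ⟨h1, h2, h3⟩ := H254.level_of_fixes hRat hchar hP h₁ h₂ hf₁ hf₂
      (P.valuation ϖ ^ j) (pow_ne_zero _ hE.vϖ_ne_zero) hγ η hη1
      (fun a ha b hb => by rw [hηadd a ha b hb, sub_self, map_zero]; exact zero_le)
      hηmul
      (fun r => by rw [hηB _ (hZ r), sub_self, map_zero]; exact zero_le)
      (fun a ha h => by rw [← hηv a ha]; exact h)
      hσD hfix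
    exact hϖ.2 σ hσD h1 h2 h3
  -- R3: degree count
  have hfinal := H434.fixes_of_fixes B' ϖ ϖ' e (G + C (p : Qb) * X ^ j) hG'm hG'deg hG'coef hϖ'
    (fun a ha hsum => hE.eq_zero_of_sum_fin_eq_zero a ha hsum) hkey
  refine ⟨ϖ', ⟨(P.valuation_le_one_iff _).mp (hvϖ' ▸ hE.vϖ_le_one), fun τ hτ h1 h2 h3 => ?_⟩,
    hroot'⟩
  exact hfinal τ (fun b hb => (hB' b hb).2 τ hτ h1 h2 h3) (hϖ.2 τ hτ h1 h2 h3)

end Fermat.Agent.S56.H116.Root

end

end
-- ===== PACK-END S56/H116/Root.lean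

-- ===== PACK-BEGIN S56/FL/Top.lean
section



/-!
# Row S56 — leaf LOC-FLAT of TB layer 2: `LocFlatPStatement ⇐ FlatSS + FlatO` (helper426)

* `FlatOStatement` (FLAT-O, ordinary case): `H716.LocFlatPStatement` under the extra hypothesis
  that `ρ̄|_{D_P}` is reducible (there is a `D_P`-stable line).  Sub-architects helper66 / helper6.
* `FlatSSStatement` (W-FLAT-SS, supersingular case): `FL/Spec.lean`.
* `locFlatP_of : FlatSSStatement → FlatOStatement → H716.LocFlatPStatement`  — PROVED here.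

Sorry-free.
-/

set_option autoImplicit false

open Polynomial IsLocalRing

noncomputable section

namespace Fermat.Agent.S56.FL

open Fermat.Agent.S56 Fermat.Agent.S56.H716

/-- **FLAT-O**: the flat local tangent bound at `p` when `ρ̄|_{D_P}` is reducible. -/
def FlatOStatement : Prop :=
  ∀ (𝒪 : Type) [CommRing 𝒪] [IsDomain 𝒪] [IsDiscreteValuationRing 𝒪]
    [IsAdicComplete (maximalIdeal 𝒪) 𝒪] [Finite (ResidueField 𝒪)]
    (p : ℕ) (ρbar : ResidualGaloisRep (ResidueField 𝒪)) (S Smin : Finset ℕ),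
    Hyp 𝒪 p ρbar S Smin →
      ∀ P : ValuationSubring Qb, P.LiesOverPrime p →
        (∃ U : Submodule (ResidueField 𝒪) ρbar.V, U ≠ ⊥ ∧ U ≠ ⊤ ∧
          ∀ σ ∈ P.decompositionSubgroup ℚ, ∀ x ∈ U, ρbar.ρ σ x ∈ U) →
        LocalBoundAt ρbar P (fun ρ' => ρ'.DetIsCyclotomic p ∧ ρ'.IsFlatAt p) 1

/-- `DetIsCyclotomic` in the `IsCycExp` form. -/
theorem det_eq_natCast_of_isCycExp {k : Type} [Field k] {p : ℕ} {ρbar : ResidualGaloisRep k}
    (hdet : (GaloisRepAdic.ofResidualGaloisRep ρbar).DetIsCyclotomic p) {σ : GQ} {a : ℕ}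
    (h : IsCycExp p σ a) : LinearMap.det (ρbar.ρ σ) = (a : k) := by
  have hp0 : (p : k) = 0 := by
    have h := hdet.1
    rwa [IsLocalRing.maximalIdeal_eq_bot, Ideal.mem_bot] at h
  have h1 := hdet.2 1 σ a (fun μ hμ => h μ (by simpa using hμ))
  have h0 : ((p ^ 1 : ℕ) : k) = 0 := by simpa using hp0
  rw [h0, Ideal.mem_span_singleton, zero_dvd_iff, sub_eq_zero] at h1
  exact h1

/-- LOC-FLAT from the supersingular and the ordinary case. -/
theorem locFlatP_of (hSS : FlatSSStatement) (hO : FlatOStatement) : LocFlatPStatement := by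
  intro 𝒪 _ _ _ _ _ p ρbar S Smin H P hP
  by_cases hred : ∃ U : Submodule (ResidueField 𝒪) ρbar.V, U ≠ ⊥ ∧ U ≠ ⊤ ∧
      ∀ σ ∈ P.decompositionSubgroup ℚ, ∀ x ∈ U, ρbar.ρ σ x ∈ U
  · exact hO 𝒪 p ρbar S Smin H P hP hred
  -- supersingular case
  have hirr : ∀ U : Submodule (ResidueField 𝒪) ρbar.V,
      (∀ σ ∈ P.decompositionSubgroup ℚ, ∀ x ∈ U, ρbar.ρ σ x ∈ U) → U = ⊥ ∨ U = ⊤ := by
    intro U hU
    by_contra hcon
    rw [not_or] at hcon
    exact hred ⟨U, hcon.1, hcon.2, hU⟩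
  have : Fact p.Prime := ⟨H.hp⟩
  have hp0 : (p : ResidueField 𝒪) = 0 := by
    have h := H.hdet.1
    rwa [IsLocalRing.maximalIdeal_eq_bot, Ideal.mem_bot] at h
  have hchar : CharP (ResidueField 𝒪) p := (CharP.charP_iff_prime_eq_zero H.hp).2 hp0
  have hdet : ∀ (σ : GQ) (a : ℕ), IsCycExp p σ a →
      LinearMap.det (ρbar.ρ σ) = (a : ResidueField 𝒪) :=
    fun σ a h => det_eq_natCast_of_isCycExp H.hdet h
  set D := P.decompositionSubgroup ℚ with hDdef
  set Ty : GaloisRepAdic (DualNumber (ResidueField 𝒪)) → Prop :=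
    fun ρ' => ρ'.DetIsCyclotomic p ∧ ρ'.IsFlatAt p with hTy
  by_cases hex : ∃ c₀ : GQ → Module.End (ResidueField 𝒪) ρbar.V, IsAdCocycle ρbar c₀ ∧
      (∃ ρ' : GaloisRepAdic (DualNumber (ResidueField 𝒪)), IsLiftOf ρbar c₀ ρ' ∧ Ty ρ') ∧
      ¬ IsAdCoboundaryOn ρbar D c₀
  · obtain ⟨c₀, hc₀, ⟨ρ₀, hl₀, hT₀⟩, hnc⟩ := hex
    refine ⟨Submodule.span (ResidueField 𝒪) {c₀}, inferInstance, ?_, ?_⟩
    · refine le_trans (finrank_span_le_card ({c₀} : Set _)) ?_
      simp
    · intro c hc ⟨ρ', hl, hT⟩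
      obtain ⟨a₁, a₂, ha, m, hm⟩ := hSS (ResidueField 𝒪) p H.hp2 hchar ρbar hdet H.hsplit P hP
        hirr c₀ c hc₀ hc ρ₀ ρ' hl₀ hl hT₀.2 hT.2
      have ha₂ : a₂ ≠ 0 := by
        intro h0
        have ha₁ : a₁ ≠ 0 := by
          rcases ha with h | h
          · exact h
          · exact absurd h0 h
        apply hnc
        refine ⟨a₁⁻¹ • m, fun σ hσ => ?_⟩
        have := hm σ hσ
        rw [h0, zero_smul, add_zero] at this
        calc c₀ σ = a₁⁻¹ • (a₁ • c₀ σ) := by rw [smul_smul, inv_mul_cancel₀ ha₁, one_smul]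
          _ = a₁⁻¹ • (ρbar.ρ σ * m * ρbar.ρ σ⁻¹ - m) := by rw [this]
          _ = ρbar.ρ σ * (a₁⁻¹ • m) * ρbar.ρ σ⁻¹ - a₁⁻¹ • m := by
            rw [smul_sub, mul_smul_comm, smul_mul_assoc]
      refine ⟨(-(a₂⁻¹ * a₁)) • c₀, Submodule.smul_mem _ _ (Submodule.mem_span_singleton_self c₀),
        a₂⁻¹ • m, fun σ hσ => ?_⟩
      have := hm σ hσ
      have h2 : c σ = a₂⁻¹ • (ρbar.ρ σ * m * ρbar.ρ σ⁻¹ - m) - (a₂⁻¹ * a₁) • c₀ σ := by
        rw [← this, smul_add, smul_smul, smul_smul, inv_mul_cancel₀ ha₂, one_smul]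
        abel
      show c σ - (-(a₂⁻¹ * a₁)) • c₀ σ = _
      rw [h2, smul_sub, mul_smul_comm, smul_mul_assoc, neg_smul]
      abel
  · refine ⟨⊥, inferInstance, by simp, ?_⟩
    intro c hc hl
    refine ⟨0, Submodule.zero_mem _, ?_⟩
    rw [sub_zero]
    by_contra hcon
    exact hex ⟨c, hc, hl, hcon⟩

end Fermat.Agent.S56.FL

end

end
-- ===== PACK-END S56/FL/Top.lean

-- ===== PACK-BEGIN S56/H334/RLBase.lean
section



/-!
# S56 / W-FLAT-SS, piece FL-RAM (helper334): the frozen statements `RLWild`, `RLComm`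

Bridge from `FL.RCDatum` to the setting of `H334/Ram*.lean`, and proofs of
`FL.RLWildStatement`, `FL.RLCommStatement` (verbatim from `FL/RamLemSpec.lean`).
-/

set_option autoImplicit false
set_option linter.unusedSectionVars false
set_option linter.style.haveILetI false

open IsLocalRing

namespace Fermat.Agent.S56.H334

open Fermat.Agent.S56

section Bridge

variable (d : FL.RCDatum)

theorem fl_ramGroup_eq (n : ℕ) : FL.ramGroup d.B d.Γ n = ramGroup d.Γ d.B n := rfl

theorem rc_fact_prime : Fact d.p.Prime := ⟨d.hp⟩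

theorem rc_finite_residue : Finite (ResidueField d.A) :=
  Nat.finite_of_card_ne_zero (by rw [d.hκ]; exact d.hp.ne_zero)

theorem rc_charP_residue : CharP (ResidueField d.A) d.p := by
  rw [CharP.charP_iff_prime_eq_zero d.hp]
  have h1 : (d.p : d.A) ∈ maximalIdeal d.A := by
    rw [d.hA]; exact Ideal.mem_span_singleton_self _
  have h2 := (residue_eq_zero_iff (d.p : d.A)).2 h1
  rwa [map_natCast] at h2

theorem rc_charP_residue_B : CharP (ResidueField d.B) d.p :=
  haveI := rc_charP_residue d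
  charP_residueField_of_charP d.A d.B d.p

theorem rc_finite_residue_B : Finite (ResidueField d.B) :=
  haveI := rc_finite_residue d
  finite_residueField_of_finite d.A d.B

theorem rc_inertiaResidue : InertiaResidue d.Γ d.B :=
  haveI := rc_finite_residue d
  inertiaResidue_of_datum d.A d.B d.Γ

end Bridge

/-- **RL-A** (frozen `FL.RLWildStatement`): the wild inertia group is a `p`-group. -/
theorem rlWild : FL.RLWildStatement := by
  intro d
  haveI := rc_fact_prime d
  haveI := rc_finite_residue d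
  haveI := rc_charP_residue d
  exact isPGroup_ramGroup_one_of_datum d.A d.B d.Γ d.p

/-- **RL-B** (frozen `FL.RLCommStatement`): commutators lie in the inertia group. -/
theorem rlComm : FL.RLCommStatement := by
  intro d g h
  haveI := rc_finite_residue d
  exact commutator_mem_ramGroup_zero_of_datum d.A d.B d.Γ g h

end Fermat.Agent.S56.H334

end
-- ===== PACK-END S56/H334/RLBase.lean

-- ===== PACK-BEGIN S56/H102/RLHilbert.lean
section



/-!
# S56 / W-FLAT-SS, FL-RAM: `FL.RLHilbertStatement` VERBATIM (helper102)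

Adapter from `H334.card_ramGroup_zero_eq` (`e = |Γ₀|`), `H334.exists_adjoin_eq_top_of_finite`
(`B = A[x]`) and `H334.differentIdeal_eq_pow_sum_lowIdx` (Hilbert's formula
`𝔇_{B/A} = 𝔪 ^ (∑_{σ ≠ 1} i_Γ(σ))`) to the frozen shape of `FL/RamLemSpec.lean`:
`𝔇_{B/A} = 𝔪 ^ (∑ᶠ n, (|Γ_n| - 1))`  (double counting `∑_{σ ≠ 1} i_Γ(σ) = ∑_n (|Γ_n| - 1)`).
-/

set_option autoImplicit false
set_option linter.unusedSectionVars false
set_option linter.style.haveILetI false

open IsLocalRing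

namespace Fermat.Agent.S56.H102.RLH

open Fermat.Agent.S56.H334 Fermat.Agent.S56.FL

section Count

variable {B : Type*} [CommRing B] [IsDomain B] [IsDiscreteValuationRing B]
variable {Γ : Type*} [Group Γ] [MulSemiringAction Γ B]

/-- Double counting: `∑_{σ ≠ 1} i_Γ(σ) = ∑_n (|Γ_n| - 1)`. -/
theorem sum_lowIdx_eq_finsum [Fintype Γ] [DecidableEq Γ] [FaithfulSMul Γ B] :
    ∑ σ ∈ Finset.univ.erase (1 : Γ), lowIdx Γ B σ =
      ∑ᶠ n : ℕ, (Nat.card (H334.ramGroup Γ B n) - 1) := by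
  classical
  obtain ⟨M, hM⟩ := exists_ramGroup_eq_bot (Γ := Γ) (B := B)
  have hbot : ∀ n, M ≤ n → H334.ramGroup Γ B n = ⊥ := fun n hn =>
    le_bot_iff.1 (hM ▸ H334.ramGroup_antitone hn)
  -- the right-hand side is a finite sum
  have hcard : ∀ n, Nat.card (H334.ramGroup Γ B n) - 1 =
      ((Finset.univ.erase (1 : Γ)).filter fun σ => σ ∈ H334.ramGroup Γ B n).card := by
    intro n
    have h1 : Nat.card (H334.ramGroup Γ B n) =
        ((Finset.univ : Finset Γ).filter fun σ => σ ∈ H334.ramGroup Γ B n).card := by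
      rw [Nat.card_eq_fintype_card]
      exact Fintype.card_of_subtype _ (fun x => by simp)
    have h2 : (Finset.univ.erase (1 : Γ)).filter (fun σ => σ ∈ H334.ramGroup Γ B n) =
        ((Finset.univ : Finset Γ).filter fun σ => σ ∈ H334.ramGroup Γ B n).erase 1 := by
      ext σ
      simp only [Finset.mem_filter, Finset.mem_erase, Finset.mem_univ, true_and, and_true]
    rw [h1, h2, Finset.card_erase_of_mem]
    simp only [Finset.mem_filter, Finset.mem_univ, true_and]
    exact Subgroup.one_mem (H334.ramGroup Γ B n)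
  have hR : ∑ᶠ n : ℕ, (Nat.card (H334.ramGroup Γ B n) - 1) =
      ∑ n ∈ Finset.range M, (Nat.card (H334.ramGroup Γ B n) - 1) := by
    apply finsum_eq_sum_of_support_subset
    intro n hn
    rw [Function.mem_support] at hn
    rw [Finset.coe_range, Set.mem_Iio]
    by_contra hlt
    rw [not_lt] at hlt
    apply hn
    simp [hbot n hlt]
  -- the left-hand side
  have hL : ∀ σ ∈ Finset.univ.erase (1 : Γ), lowIdx Γ B σ =
      ((Finset.range M).filter fun n => σ ∈ H334.ramGroup Γ B n).card := by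
    intro σ hσ
    have hσ1 : σ ≠ 1 := (Finset.mem_erase.1 hσ).1
    have hle : lowIdx Γ B σ ≤ M := by
      by_contra hlt
      rw [not_le] at hlt
      have := (mem_ramGroup_iff_lt_lowIdx hσ1 M).2 hlt
      rw [hM, Subgroup.mem_bot] at this
      exact hσ1 this
    have hfil : (Finset.range M).filter (fun n => σ ∈ H334.ramGroup Γ B n) =
        Finset.range (lowIdx Γ B σ) := by
      ext n
      simp only [Finset.mem_filter, Finset.mem_range, mem_ramGroup_iff_lt_lowIdx hσ1]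
      omega
    rw [hfil, Finset.card_range]
  rw [hR, Finset.sum_congr rfl hL, Finset.sum_congr rfl (fun n _ => hcard n)]
  simp only [Finset.card_filter]
  exact Finset.sum_comm

end Count

section Datum

variable (A B Γ : Type*) [CommRing A] [IsDomain A] [IsDiscreteValuationRing A]
  [CommRing B] [IsDomain B] [IsDiscreteValuationRing B] [Algebra A B] [Module.Finite A B]
  [FaithfulSMul A B] [Group Γ] [Finite Γ] [MulSemiringAction Γ B] [SMulCommClass Γ A B]
  [Algebra.IsInvariant A B Γ] [FaithfulSMul Γ B] [Finite (ResidueField A)]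

attribute [local instance] FractionRing.liftAlgebra in
/-- Hilbert's formula in the setting of `FL.RCDatum`. -/
theorem differentIdeal_eq_pow_sum_lowIdx_of_datum [Fintype Γ] [DecidableEq Γ] :
    differentIdeal A B =
      maximalIdeal B ^ (∑ σ ∈ Finset.univ.erase (1 : Γ), lowIdx Γ B σ) := by
  letI := IsFractionRing.mulSemiringAction Γ B (FractionRing B)
  haveI : IsGaloisGroup Γ A B := ⟨inferInstance, inferInstance, inferInstance⟩
  haveI : IsGaloisGroup Γ (FractionRing A) (FractionRing B) :=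
    IsGaloisGroup.to_isFractionRing Γ A B (FractionRing A) (FractionRing B)
  haveI : IsGalois (FractionRing A) (FractionRing B) :=
    IsGaloisGroup.isGalois Γ (FractionRing A) (FractionRing B)
  haveI : FiniteDimensional (FractionRing A) (FractionRing B) :=
    IsGaloisGroup.finiteDimensional Γ (FractionRing A) (FractionRing B)
  haveI : IsIntegralClosure B A (FractionRing B) :=
    IsIntegralClosure.of_isIntegrallyClosed B A (FractionRing B)
  obtain ⟨x, hx⟩ := exists_adjoin_eq_top_of_finite A B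
  exact differentIdeal_eq_pow_sum_lowIdx A (FractionRing A) (FractionRing B) Γ hx

end Datum

/-- **RL-H**, verbatim. -/
theorem rlHilbert : RLHilbertStatement := by
  classical
  intro d
  haveI : Finite (ResidueField d.A) := by
    apply Nat.finite_of_card_ne_zero
    rw [d.hκ]
    exact d.hp.ne_zero
  haveI : IsGaloisGroup d.Γ d.A d.B := ⟨inferInstance, inferInstance, inferInstance⟩
  cases nonempty_fintype d.Γ
  refine ⟨?_, ?_⟩
  · have he : Ideal.map (algebraMap d.A d.B) (maximalIdeal d.A) = maximalIdeal d.B ^ d.e := by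
      rw [d.hA, Ideal.map_span, Set.image_singleton, map_natCast, d.he]
    exact (card_ramGroup_zero_eq (Γ := d.Γ) he).symm
  · rw [differentIdeal_eq_pow_sum_lowIdx_of_datum d.A d.B d.Γ, sum_lowIdx_eq_finsum]
    rfl

end Fermat.Agent.S56.H102.RLH

end
-- ===== PACK-END S56/H102/RLHilbert.lean

-- ===== PACK-BEGIN S55/PT/LevelsH723.lean
section



/-!
# S55 / layer D, framework leaf D-F7 (helper723): the two Prelude level systems

* normal levels are cofinal (`GlobalNormalCofinalSpec`, `LocalNormalCofinalSpec`);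
* all levels have finite index (`GlobalFiniteIndexSpec`, `LocalFiniteIndexSpec`).
-/

set_option autoImplicit false
set_option linter.style.haveILetI false

noncomputable section

namespace Fermat.Agent.S55.PT.H723

open groupCohomology Fermat.Agent.S55.PT

/-- Every global level contains a normal global level (Galois closure inside the maximal
extension unramified outside `S`). -/
theorem globalLevels_normalCofinal (S : Finset Nat.Primes) : (globalLevels S).NormalCofinal := by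
  rintro U ⟨F, hF, rfl⟩
  obtain ⟨L, hL, hgal, hle⟩ := Fermat.Agent.S55.Bridge.exists_galois_level_ge S F hF
  haveI := Fermat.Agent.S55.Bridge.isGalois_Qbar
  haveI := Fermat.Agent.S55.Bridge.isAlgebraic_Qbar
  exact ⟨L.fixingSubgroup, ⟨L, hL, rfl⟩, IntermediateField.fixingSubgroup_antitone hle,
    (InfiniteGalois.normal_iff_isGalois L).2 hgal⟩

/-- Every pulled-back level contains a normal pulled-back level. -/
theorem pullbackLevels_normalCofinal {G : Type} [Group G] (r : G →* GQ) :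
    (pullbackLevels r).NormalCofinal := by
  rintro U ⟨F, hF, rfl⟩
  haveI := hF
  haveI := Fermat.Agent.S55.Bridge.isGalois_Qbar
  haveI := Fermat.Agent.S55.Bridge.isAlgebraic_Qbar
  have hfinN : FiniteDimensional ℚ (IntermediateField.normalClosure ℚ F (AlgebraicClosure ℚ)) :=
    normalClosure.is_finiteDimensional ℚ F (AlgebraicClosure ℚ)
  have hgalN : IsGalois ℚ (IntermediateField.normalClosure ℚ F (AlgebraicClosure ℚ)) :=
    IsGalois.normalClosure ℚ F (AlgebraicClosure ℚ)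
  have hnormal : (IntermediateField.normalClosure ℚ F
      (AlgebraicClosure ℚ)).fixingSubgroup.Normal :=
    (InfiniteGalois.normal_iff_isGalois _).2 hgalN
  refine ⟨_, ⟨IntermediateField.normalClosure ℚ F (AlgebraicClosure ℚ), hfinN, rfl⟩, ?_, ?_⟩
  · exact Subgroup.comap_mono
      (IntermediateField.fixingSubgroup_antitone (IntermediateField.le_normalClosure F))
  · exact hnormal.comap r

/-- `G_F` has finite index in `G_ℚ` for `F/ℚ` finite. -/
theorem fixingSubgroup_finiteIndex (F : IntermediateField ℚ (AlgebraicClosure ℚ))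
    [FiniteDimensional ℚ F] : F.fixingSubgroup.FiniteIndex := by
  haveI := Fermat.Agent.S55.Bridge.isGalois_Qbar
  haveI := Fermat.Agent.S55.Bridge.isAlgebraic_Qbar
  haveI : Finite (GQ ⧸ F.fixingSubgroup) :=
    Subgroup.quotient_finite_of_isOpen F.fixingSubgroup F.fixingSubgroup_isOpen
  exact Subgroup.finiteIndex_of_finite_quotient

theorem globalLevels_finiteIndex (S : Finset Nat.Primes) : (globalLevels S).FiniteIndex := by
  rintro U ⟨F, hF, rfl⟩
  haveI := hF.1
  exact fixingSubgroup_finiteIndex F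

theorem pullbackLevels_finiteIndex {G : Type} [Group G] (r : G →* GQ) :
    (pullbackLevels r).FiniteIndex := by
  rintro U ⟨F, hF, rfl⟩
  haveI := hF
  haveI := fixingSubgroup_finiteIndex F
  refine ⟨?_⟩
  rw [Subgroup.index_comap]
  exact (Subgroup.instFiniteIndex_subgroupOf F.fixingSubgroup r.range).index_ne_zero

/-- **D-F7a** -/
theorem globalNormalCofinal : GlobalNormalCofinalSpec := globalLevels_normalCofinal

/-- **D-F7b** -/
theorem localNormalCofinal : LocalNormalCofinalSpec := fun q => pullbackLevels_normalCofinal (rl q)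

/-- **D-F7c** -/
theorem globalFiniteIndex : GlobalFiniteIndexSpec := globalLevels_finiteIndex

/-- **D-F7d** -/
theorem localFiniteIndex : LocalFiniteIndexSpec := fun q => pullbackLevels_finiteIndex (rl q)

end Fermat.Agent.S55.PT.H723

end

end
-- ===== PACK-END S55/PT/LevelsH723.lean

-- ===== PACK-BEGIN S55/G/Rec/StepAH511.lean
section



/-!
# S55 / layer G / block REC / STEP A : the cyclotomic sum formula (helper511)

`H511.cycloSum_of` : `CycloSumSpec I` from the leaves `K1` (`CupLocSpec`), `K5` (`LocalNormSpec`),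
`L2` (`LocalStructureSpec`), `L3` (`UnramCupSpec I`), `L4` (`CycloFrobSpec`),
`L5` (`LocalCycloNormSpec`), `G1` (`OrbitNormSpec`), `G1'` (`ProductFormulaSpec`) and
`G4` (`SupportFiniteSpec`).

Proof (blueprint §1, STEP A).  Let `x = a ∪ δχ`, `y = N_{K/ℚ}(a) ∈ ℚˣ`, `m = ℓ^e`, `c` the cyclotomic
character mod `m`.
* `v ∤ ℓ` : `inv_v(x_v) = k_v · χ(σ_v)/n`, `σ_v ∈ U` with `c(σ_v) = q^{f_v}`, `vdeg_v(a) = f_v k_v`.
  So `∑_{v ∤ ℓ} inv_v(x_v) = χ(Σ)/n` with `c(Σ) = ∏_{q ≠ ℓ} q^{v_q(y)}` (product formula).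
* `v ∣ ℓ` : `x_v = 0` ⟹ `N_{K_v/ℚ_ℓ}(a_v) ≡ ± ℓ^k t_v mod ℓ^{k+e}`, `t_v = c(κ_v)`, `κ_v ∈ ker χ`.
  So `y ≡ ± ℓ^K ∏ t_v`, hence `∏_{q ≠ ℓ} q^{v_q(y)} = ± c(κ)`, `κ ∈ ker χ`.
* `χ` is trivial on `ker c` and of odd order ⟹ `χ(Σ) = 0`.
-/

set_option autoImplicit false
set_option linter.style.haveILetI false

noncomputable section

namespace Fermat.Agent.S55.G.Rec.H511

open Fermat.Agent.S55.G.Rec groupCohomology

local notation "Qb" => AlgebraicClosure ℚ
local notation "GQ" => (AlgebraicClosure ℚ ≃ₐ[ℚ] AlgebraicClosure ℚ)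

/-! ## Small auxiliary lemmas -/

lemma prod_zpow_const {G ι : Type*} [CommGroup G] (s : Finset ι) (g : G) (f : ι → ℤ) :
    ∏ i ∈ s, g ^ f i = g ^ ∑ i ∈ s, f i := by
  classical
  induction s using Finset.induction_on with
  | empty => simp
  | insert a s ha ih => rw [Finset.prod_insert ha, Finset.sum_insert ha, ih, zpow_add]

lemma prod_zpow_const₀ {K ι : Type*} [Field K] (s : Finset ι) {g : K} (hg : g ≠ 0) (f : ι → ℤ) :
    ∏ i ∈ s, g ^ f i = g ^ ∑ i ∈ s, f i := by
  classical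
  induction s using Finset.induction_on with
  | empty => simp
  | insert a s ha ih => rw [Finset.prod_insert ha, Finset.sum_insert ha, ih, zpow_add₀ hg]

/-- The unit `q mod m` (junk `1` if `q` is not prime to `m`). -/
def uq (m : ℕ) (q : ℕ) : (ZMod m)ˣ :=
  if h : Nat.Coprime q m then ZMod.unitOfCoprime q h else 1

lemma uq_coe {m q : ℕ} (h : Nat.Coprime q m) : ((uq m q : (ZMod m)ˣ) : ZMod m) = (q : ZMod m) := by
  rw [uq, dif_pos h, ZMod.coe_unitOfCoprime]

/-- The degree-valuation of `a` at the place `(q, r)` of `ℚ̄^U`. -/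
def vdAt (U : Subgroup GQ) (a : Qbˣ) (q : Nat.Primes) (r : GQ) : ℤ :=
  haveI : Fact (q : ℕ).Prime := ⟨q.2⟩
  vdeg (q : ℕ) (locSub (q : ℕ) r U) (locPushMul (q : ℕ) r a)

/-! ## The places away from `ℓ` -/

theorem key_away (hK1 : CupLocSpec) (hL2 : LocalStructureSpec) (hL4 : CycloFrobSpec)
    (I : LocalInvSystem) (hL3 : UnramCupSpec I)
    (U : Subgroup GQ) (hU : IsOpenQ U) (m : ℕ) [NeZero m] (n : ℕ) [NeZero n]
    (χ : ↥U →* Multiplicative (ZMod n)) (hχ : IsLevelConstant₁ U.subtype χ)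
    (hcyc : IsCycloChar U m χ) (a : Qbˣ) (ha : GFixed U a)
    (q : Nat.Primes) (r : GQ) :
    ∃ (σ : ↥U) (k : ℤ), Nat.Coprime (q : ℕ) m →
      (I.invAt q r U (gcc U n χ a) =
        ((((k : ℚ) * ((chiAdd χ σ).val : ℚ) / (n : ℚ) : ℚ)) : AddCircle (1 : ℚ)) ∧
      cyc m (σ : GQ) ^ k = uq m (q : ℕ) ^ vdAt U a q r) := by
  by_cases hq : Nat.Coprime (q : ℕ) m
  · haveI : Fact (q : ℕ).Prime := ⟨q.2⟩
    obtain ⟨σ, k, f, h1, h2, h3⟩ :=
      exists_inv_eq hK1 hL2 hL4 I hL3 U hU m n χ hχ hcyc a ha (q : ℕ) hq r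
    refine ⟨σ, k, fun _ => ⟨h1, ?_⟩⟩
    rw [h2, vdAt, h3, uq, dif_pos hq, ← zpow_natCast, ← zpow_mul]
  · exact ⟨1, 0, fun h => absurd h hq⟩

/-! ## The places above `ℓ` -/

theorem key_above (hK1 : CupLocSpec) (hK5 : LocalNormSpec) (hL5 : LocalCycloNormSpec)
    (hG1 : OrbitNormSpec)
    (U : Subgroup GQ) (hU : IsOpenQ U) (ℓ : ℕ) [Fact ℓ.Prime] (hℓ2 : ℓ ≠ 2) (e : ℕ) (he : 0 < e)
    [NeZero (ℓ ^ e)]
    (n : ℕ) [NeZero n] (χ : ↥U →* Multiplicative (ZMod n)) (hχ : IsLevelConstant₁ U.subtype χ)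
    (a : Qbˣ) (ha : GFixed U a)
    (hloc : ∀ r : GQ, locBr ℓ r U (gcc U n χ a) = 0)
    (Rℓ : Finset GQ) (hRℓ : IsDoubleCosetReps U (localGaloisToGlobal ℓ).range Rℓ)
    (y : ℚˣ) (hy : ((relNorm U a : Qbˣ) : Qb) = algebraMap ℚ Qb (y : ℚ)) :
    ∃ (K : ℤ) (S : ℤˣ) (P : ℕ) (κ : ↥U), χ κ = 1 ∧
      ((cyc (ℓ ^ e) (κ : GQ) : (ZMod (ℓ ^ e))ˣ) : ZMod (ℓ ^ e)) = (P : ZMod (ℓ ^ e)) ∧
      ‖((y : ℚ) : ℚ_[ℓ]) - ((S : ℤ) : ℚ_[ℓ]) * (ℓ : ℚ_[ℓ]) ^ K * (P : ℚ_[ℓ])‖
        ≤ ‖(ℓ : ℚ_[ℓ])‖ ^ (K + e) := by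
  classical
  have hℓ : ℓ.Prime := Fact.out
  choose k s t κ hκ hκt hest using fun r : GQ =>
    exists_norm_approx hK1 hK5 hL5 U hU ℓ hℓ2 e he n χ hχ a ha r (hloc r)
  -- the product of the `κ r`
  set c : ↥U →* (ZMod (ℓ ^ e))ˣ := (cyc (ℓ ^ e)).comp U.subtype with hc
  have hmem : ∏ r ∈ Rℓ, c (κ r) ∈ χ.ker.map c :=
    Subgroup.prod_mem _ fun r _ => Subgroup.mem_map_of_mem c (MonoidHom.mem_ker.mpr (hκ r))
  obtain ⟨κ₀, hκ₀, hκ₀c⟩ := hmem
  have hcoe : ∀ r, ((c (κ r) : (ZMod (ℓ ^ e))ˣ) : ZMod (ℓ ^ e)) = (t r : ZMod (ℓ ^ e)) := hκt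
  have htcop : ∀ r, Nat.Coprime ℓ (t r) := by
    intro r
    have h1 : IsUnit ((t r : ℕ) : ZMod (ℓ ^ e)) := by
      rw [← hcoe r]; exact Units.isUnit _
    have h2 : Nat.Coprime (t r) (ℓ ^ e) := (ZMod.isUnit_iff_coprime _ _).mp h1
    exact ((Nat.coprime_pow_right_iff he _ _).mp h2).symm
  have hℓ0 : (ℓ : PadicAlgCl ℓ) ≠ 0 := Nat.cast_ne_zero.mpr hℓ.ne_zero
  have hnormℓ : ‖(ℓ : PadicAlgCl ℓ)‖ = ‖(ℓ : ℚ_[ℓ])‖ := by
    rw [← PadicAlgCl.norm_extends, map_natCast]
  have hnormℓ_pos : 0 < ‖(ℓ : PadicAlgCl ℓ)‖ := norm_pos_iff.mpr hℓ0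
  have hnormℓ_le : ‖(ℓ : PadicAlgCl ℓ)‖ ≤ 1 := by
    rw [hnormℓ]; exact (Padic.norm_p_lt_one).le
  have hnormt : ∀ r, ‖(t r : PadicAlgCl ℓ)‖ = 1 := by
    intro r
    have h1 : ‖((t r : ℕ) : ℚ_[ℓ])‖ = 1 := Padic.norm_natCast_eq_one_iff.mpr (htcop r)
    rw [← h1, ← PadicAlgCl.norm_extends, map_natCast]
  have hnorms : ∀ r, ‖(((s r : ℤˣ) : ℤ) : PadicAlgCl ℓ)‖ = 1 := by
    intro r
    rcases Int.units_eq_one_or (s r) with h | h <;> simp [h]
  -- the product estimate
  set xs : GQ → PadicAlgCl ℓ := fun r =>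
    ((relNorm (locSub ℓ r U) (locPushMul ℓ r a) : (PadicAlgCl ℓ)ˣ) : PadicAlgCl ℓ) with hxs
  set ys : GQ → PadicAlgCl ℓ := fun r =>
    (((s r : ℤˣ) : ℤ) : PadicAlgCl ℓ) * (ℓ : PadicAlgCl ℓ) ^ (k r) * (t r : PadicAlgCl ℓ) with hys
  have hysnorm : ∀ r, ‖ys r‖ = ‖(ℓ : PadicAlgCl ℓ)‖ ^ (k r) := by
    intro r
    simp only [hys, norm_mul, hnorms r, hnormt r, one_mul, mul_one, norm_zpow]
  have hε : ∀ r ∈ Rℓ, ‖xs r - ys r‖ ≤ ‖(ℓ : PadicAlgCl ℓ)‖ ^ e * ‖ys r‖ := by
    intro r _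
    rw [hysnorm r, ← zpow_natCast, ← zpow_add₀ hnormℓ_pos.ne', add_comm]
    exact hest r
  have hprodest := (norm_prod_sub_prod_le Rℓ xs ys (‖(ℓ : PadicAlgCl ℓ)‖ ^ e)
    (pow_nonneg (norm_nonneg _) e) (pow_le_one₀ (norm_nonneg _) hnormℓ_le) hε).2
  -- the product of the `xs`
  have hxprod : ∏ r ∈ Rℓ, xs r = algebraMap ℚ_[ℓ] (PadicAlgCl ℓ) ((y : ℚ) : ℚ_[ℓ]) := by
    have h1 := (hG1 U hU a ha).2 ℓ Rℓ hRℓ
    have h2 : ∏ r ∈ Rℓ, xs r = ((locPushMul ℓ 1 (relNorm U a) : (PadicAlgCl ℓ)ˣ) : PadicAlgCl ℓ) := by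
      rw [h1, Units.coe_prod]
    rw [h2, locPushMul_coe, inv_one, AlgEquiv.one_apply, hy, AlgHom.commutes, map_ratCast,
      eq_ratCast]
  -- the product of the `ys`
  set K : ℤ := ∑ r ∈ Rℓ, k r with hK
  set S : ℤˣ := ∏ r ∈ Rℓ, s r with hS
  set P : ℕ := ∏ r ∈ Rℓ, t r with hP
  have hyprod : ∏ r ∈ Rℓ, ys r = algebraMap ℚ_[ℓ] (PadicAlgCl ℓ)
      (((S : ℤ) : ℚ_[ℓ]) * (ℓ : ℚ_[ℓ]) ^ K * (P : ℚ_[ℓ])) := by
    simp only [hys, Finset.prod_mul_distrib]
    rw [prod_zpow_const₀ Rℓ hℓ0, map_mul, map_mul, map_zpow₀, map_natCast, map_natCast,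
      map_intCast, hS, hP, Units.coe_prod, Int.cast_prod, Nat.cast_prod]
  have hynorm : ∏ r ∈ Rℓ, ‖ys r‖ = ‖(ℓ : PadicAlgCl ℓ)‖ ^ K := by
    simp_rw [hysnorm]
    exact prod_zpow_const₀ Rℓ hnormℓ_pos.ne' _
  refine ⟨K, S, P, κ₀, MonoidHom.mem_ker.mp hκ₀, ?_, ?_⟩
  · show ((c κ₀ : (ZMod (ℓ ^ e))ˣ) : ZMod (ℓ ^ e)) = _
    rw [hκ₀c, Units.coe_prod, hP, Nat.cast_prod]
    exact Finset.prod_congr rfl fun r _ => hcoe r
  · rw [hxprod, hyprod, ← map_sub, hynorm] at hprodest
    have h3 := hprodest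
    rw [show ‖algebraMap ℚ_[ℓ] (PadicAlgCl ℓ) (((y : ℚ) : ℚ_[ℓ]) -
        ((S : ℤ) : ℚ_[ℓ]) * (ℓ : ℚ_[ℓ]) ^ K * (P : ℚ_[ℓ]))‖ = ‖((y : ℚ) : ℚ_[ℓ]) -
        ((S : ℤ) : ℚ_[ℓ]) * (ℓ : ℚ_[ℓ]) ^ K * (P : ℚ_[ℓ])‖ from PadicAlgCl.norm_extends _ _,
      hnormℓ, ← zpow_natCast, ← zpow_add₀ (norm_pos_iff.mpr (Nat.cast_ne_zero.mpr hℓ.ne_zero)).ne',
      add_comm] at h3
    exact h3

/-! ## STEP A -/

/-- **STEP A** of the norm route: the cyclotomic sum formula, from the leaves. -/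
theorem cycloSum_of (hK1 : CupLocSpec) (hK5 : LocalNormSpec) (hL2 : LocalStructureSpec)
    (hL4 : CycloFrobSpec) (hL5 : LocalCycloNormSpec) (hG1 : OrbitNormSpec)
    (hG1b : ProductFormulaSpec) (hG4 : SupportFiniteSpec) (I : LocalInvSystem)
    (hL3 : UnramCupSpec I) : CycloSumSpec I := by
  classical
  intro U hU ℓ _ hℓ2 e he n hn χ hχ hcyc a ha hloc R hR
  have hℓ : ℓ.Prime := Fact.out
  haveI : NeZero (ℓ ^ e) := ⟨pow_ne_zero e hℓ.ne_zero⟩
  haveI : NeZero n := ⟨hn.pos.ne'⟩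
  obtain ⟨y, hy⟩ := (hG1 U hU a ha).1
  set ℓp : Nat.Primes := ⟨ℓ, hℓ⟩ with hℓp
  -- data away from `ℓ`
  choose σ k hσk using fun (p : Nat.Primes × GQ) =>
    key_away hK1 hL2 hL4 I hL3 U hU (ℓ ^ e) n χ hχ hcyc a ha p.1 p.2
  -- data above `ℓ`
  obtain ⟨K, S, P, κ, hκ, hκP, hest⟩ := key_above hK1 hK5 hL5 hG1 U hU ℓ hℓ2 e he n χ hχ a ha
    hloc (R ℓp) (hR ℓp) y hy
  have hcop : ∀ q : Nat.Primes, q ≠ ℓp → Nat.Coprime (q : ℕ) (ℓ ^ e) := by
    intro q hq
    apply Nat.Coprime.pow_right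
    exact (Nat.coprime_primes q.2 hℓ).mpr (fun h => hq (Subtype.ext h))
  -- the finite sets of primes
  have hfin := hG4 I U hU (gcc U n χ a)
  set Sy : Finset Nat.Primes :=
    Finset.subtype Nat.Prime ((y : ℚ).num.natAbs * (y : ℚ).den).primeFactors with hSy
  set S0 : Finset Nat.Primes := hfin.toFinset ∪ Sy with hS0
  set S' : Finset Nat.Primes := S0.erase ℓp with hS'
  have hsupp : Function.support
      (fun q : Nat.Primes => ∑ r ∈ R q, I.invAt q r U (gcc U n χ a)) ⊆ ↑S0 := by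
    intro q hq
    rw [Function.mem_support] at hq
    obtain ⟨r, hr, hne⟩ := Finset.exists_ne_zero_of_sum_ne_zero hq
    rw [Finset.mem_coe, hS0, Finset.mem_union]
    left
    rw [Set.Finite.mem_toFinset]
    refine ⟨r, fun h0 => hne ?_⟩
    unfold LocalInvSystem.invAt
    rw [h0, map_zero]
  show I.sumInv U R (gcc U n χ a) = 0
  unfold LocalInvSystem.sumInv
  rw [finsum_eq_sum_of_support_subset _ hsupp]
  have hℓterm : ∑ r ∈ R ℓp, I.invAt ℓp r U (gcc U n χ a) = 0 := by
    refine Finset.sum_eq_zero fun r _ => ?_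
    unfold LocalInvSystem.invAt
    have := hloc r
    rw [this, map_zero]
  rw [← Finset.sum_erase S0 hℓterm]
  have hterm : ∀ q ∈ S', ∀ r ∈ R q, I.invAt q r U (gcc U n χ a) =
      ((((k (q, r) : ℚ) * ((chiAdd χ (σ (q, r))).val : ℚ) / (n : ℚ) : ℚ)) :
        AddCircle (1 : ℚ)) := by
    intro q hq r _
    exact (hσk (q, r) (hcop q (Finset.ne_of_mem_erase hq))).1
  rw [Finset.sum_congr rfl (fun q hq => Finset.sum_congr rfl (hterm q hq))]
  rw [Finset.sum_sigma' S' R (fun q r =>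
    ((((k (q, r) : ℚ) * ((chiAdd χ (σ (q, r))).val : ℚ) / (n : ℚ) : ℚ)) : AddCircle (1 : ℚ)))]
  refine addCircle_sum_eq_zero (S'.sigma R) n (fun p => k (p.1, p.2))
    (fun p => chiAdd χ (σ (p.1, p.2))) ?_
  -- the group-theoretic heart
  set c : ↥U →* (ZMod (ℓ ^ e))ˣ := (cyc (ℓ ^ e)).comp U.subtype with hc
  set θ : ↥U →* (ZMod (ℓ ^ e))ˣ × Multiplicative (ZMod n) := c.prod χ with hθ
  set tw : (ZMod (ℓ ^ e))ˣ × Multiplicative (ZMod n) :=
    ∏ p ∈ S'.sigma R, θ (σ (p.1, p.2)) ^ k (p.1, p.2) with htw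
  have hmem : (tw.1, tw.2) ∈ θ.range :=
    Subgroup.prod_mem _ fun p _ => Subgroup.zpow_mem _ (MonoidHom.mem_range.mpr ⟨_, rfl⟩) _
  have htw2 : tw.2 = ∏ p ∈ S'.sigma R, χ (σ (p.1, p.2)) ^ k (p.1, p.2) := by
    rw [htw]
    rw [show (∏ p ∈ S'.sigma R, θ (σ (p.1, p.2)) ^ k (p.1, p.2)).2 =
      MonoidHom.snd _ _ (∏ p ∈ S'.sigma R, θ (σ (p.1, p.2)) ^ k (p.1, p.2)) from rfl, map_prod]
    refine Finset.prod_congr rfl fun p _ => ?_
    rw [map_zpow]
    rfl
  have htw1 : tw.1 = ∏ q ∈ S', uq (ℓ ^ e) (q : ℕ) ^ padicValRat (q : ℕ) (y : ℚ) := by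
    rw [htw]
    rw [show (∏ p ∈ S'.sigma R, θ (σ (p.1, p.2)) ^ k (p.1, p.2)).1 =
      MonoidHom.fst _ _ (∏ p ∈ S'.sigma R, θ (σ (p.1, p.2)) ^ k (p.1, p.2)) from rfl, map_prod]
    rw [← Finset.prod_sigma' S' R (fun q r =>
      (MonoidHom.fst _ _) (θ (σ (q, r)) ^ k (q, r)))]
    refine Finset.prod_congr rfl fun q hq => ?_
    have h1 : ∀ r ∈ R q, (MonoidHom.fst _ _) (θ (σ (q, r)) ^ k (q, r)) =
        uq (ℓ ^ e) (q : ℕ) ^ vdAt U a q r := by
      intro r _
      rw [map_zpow]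
      exact (hσk (q, r) (hcop q (Finset.ne_of_mem_erase hq))).2
    rw [Finset.prod_congr rfl h1, prod_zpow_const]
    congr 1
    haveI : Fact (q : ℕ).Prime := ⟨q.2⟩
    exact (hG1b U hU a ha y hy (q : ℕ) (R q) (hR q)).symm
  -- the congruence
  have hPunit : IsUnit ((P : ℕ) : ZMod (ℓ ^ e)) := by
    rw [← hκP]; exact Units.isUnit _
  have hPℓ : ¬ ℓ ∣ P := by
    have h2 : Nat.Coprime P (ℓ ^ e) := (ZMod.isUnit_iff_coprime _ _).mp hPunit
    have h3 : Nat.Coprime P ℓ := (Nat.coprime_pow_right_iff he _ _).mp h2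
    exact fun h => hℓ.one_lt.ne' (Nat.eq_one_of_dvd_coprimes h3 h (dvd_refl ℓ))
  have hy0 : (y : ℚ) ≠ 0 := y.ne_zero
  let emb : Nat.Primes ↪ ℕ := ⟨fun q => (q : ℕ), fun a b h => Subtype.ext h⟩
  set T : Finset ℕ := S'.map emb with hT
  have hTmem : ∀ q ∈ T, q.Prime ∧ q ≠ ℓ := by
    intro q hq
    obtain ⟨q', hq', rfl⟩ := Finset.mem_map.mp hq
    exact ⟨q'.2, fun h => (Finset.ne_of_mem_erase hq') (Subtype.ext h)⟩
  have hTu : ∀ q ∈ T, ((uq (ℓ ^ e) q : (ZMod (ℓ ^ e))ˣ) : ZMod (ℓ ^ e)) = (q : ZMod (ℓ ^ e)) := by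
    intro q hq
    obtain ⟨q', hq', rfl⟩ := Finset.mem_map.mp hq
    exact uq_coe (hcop q' (Finset.ne_of_mem_erase hq'))
  have hTsupp : ∀ q : ℕ, q.Prime → q ≠ ℓ → padicValRat q (y : ℚ) ≠ 0 → q ∈ T := by
    intro q hq hqℓ hval
    haveI : Fact q.Prime := ⟨hq⟩
    refine Finset.mem_map.mpr ⟨(⟨q, hq⟩ : Nat.Primes), ?_, rfl⟩
    refine Finset.mem_erase.mpr ⟨fun h => hqℓ (congrArg Subtype.val h), ?_⟩
    refine Finset.mem_union.mpr (Or.inr ?_)
    refine Finset.mem_subtype.mpr ?_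
    show q ∈ ((y : ℚ).num.natAbs * (y : ℚ).den).primeFactors
    have hnum : (y : ℚ).num.natAbs ≠ 0 := Int.natAbs_ne_zero.mpr (Rat.num_ne_zero.mpr hy0)
    have hden : (y : ℚ).den ≠ 0 := (y : ℚ).den_ne_zero
    rw [Nat.mem_primeFactors]
    refine ⟨hq, ?_, mul_ne_zero hnum hden⟩
    by_contra hnd
    have h1 : ¬ q ∣ (y : ℚ).num.natAbs := fun h => hnd (Dvd.dvd.mul_right h _)
    have h2 : ¬ q ∣ (y : ℚ).den := fun h => hnd (Dvd.dvd.mul_left h _)
    apply hval
    show (padicValInt q (y : ℚ).num : ℤ) - (padicValNat q (y : ℚ).den : ℤ) = 0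
    have h3 : padicValInt q (y : ℚ).num = padicValNat q (y : ℚ).num.natAbs := rfl
    rw [h3, padicValNat.eq_zero_of_not_dvd h1, padicValNat.eq_zero_of_not_dvd h2]
    simp
  have hpm := unit_prod_eq_pm ℓ e (y : ℚ) hy0 S K P hPℓ hest he (uq (ℓ ^ e)) T hTmem hTu hTsupp
    (c κ) hκP
  rw [hT, Finset.prod_map] at hpm
  have hpm' : tw.1 = c κ ∨ tw.1 = (-1 : (ZMod (ℓ ^ e))ˣ) * c κ := by
    rw [htw1, neg_one_mul]
    exact hpm
  have hcyc' : ∀ τ : ↥U, c τ = 1 → χ τ = 1 := fun τ h =>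
    hcyc τ (fun ζ hζ => fixes_of_cyc_eq_one (ℓ ^ e) _ h hζ)
  have hw : tw.2 = 1 := chi_eq_one_of_mem_range hn c χ hcyc' hmem (-1) (by simp) κ hκ hpm'
  rw [htw2] at hw
  have := congrArg Multiplicative.toAdd hw
  rw [toAdd_prod, toAdd_one] at this
  rw [← this]
  refine Finset.sum_congr rfl fun p _ => ?_
  rw [toAdd_zpow]
  rfl

end Fermat.Agent.S55.G.Rec.H511

end
end
-- ===== PACK-END S55/G/Rec/StepAH511.lean

-- ===== PACK-BEGIN S55/G/Rec/H742/WeakApprox.lean
section


/-!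
# S55 / G / REC2-G3 (helper742): `WeakApproxSpec`

`weakApprox : WeakApproxSpec` (exact Spec2 statement): weak approximation in `K = ℚ̄^U` with
prescribed valuations at the places above `p` and closeness to `1` at the places above `r`.

Proof: Mathlib's abstract weak approximation theorem `AbsoluteValue.denseRange_algebraMap_pi`
applied to the absolute values `x ↦ ‖ι_p (g⁻¹ x)‖` (`g ∈ Rp`) and `x ↦ ‖ι_r (φ x)‖`
(`φ : K → ℚ̄` an embedding); distinct `g ∈ Rp` give distinct places (`exists_doubleCoset_of_inter_eq`),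
uniformizers exist (`exists_isUniformizer`) and their norms are attained on `K`
(`exists_global_norm_eq`).
-/

set_option autoImplicit false
set_option linter.style.haveILetI false

noncomputable section

namespace Fermat.Agent.S55.G.Rec.H742

open scoped Pointwise

local notation "Qb" => AlgebraicClosure ℚ
local notation "GQ" => (AlgebraicClosure ℚ ≃ₐ[ℚ] AlgebraicClosure ℚ)

section Abs

variable (p : ℕ) [Fact p.Prime] (K : IntermediateField ℚ Qb)

/-- The absolute value `x ↦ ‖ι_p (φ x)‖` on `K`, for an embedding `φ : K → ℚ̄`. -/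
def embAbs (φ : K →ₐ[ℚ] Qb) : AbsoluteValue K ℝ where
  toFun x := ‖padicEmbedding p (φ x)‖
  map_mul' x y := by simp [map_mul]
  nonneg' x := norm_nonneg _
  eq_zero' x := by simp
  add_le' x y := by
    simp only [map_add]
    exact norm_add_le _ _

theorem embAbs_apply (φ : K →ₐ[ℚ] Qb) (x : K) : embAbs p K φ x = ‖padicEmbedding p (φ x)‖ := rfl

/-- The embedding `x ↦ g⁻¹ x` of `K`. -/
def gEmb (g : GQ) : K →ₐ[ℚ] Qb := ((g⁻¹ : GQ) : Qb ≃ₐ[ℚ] Qb).toAlgHom.comp K.val

theorem gEmb_apply (g : GQ) (x : K) : gEmb K g x = g⁻¹ (x : Qb) := rfl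

theorem embAbs_natCast_self (φ : K →ₐ[ℚ] Qb) : embAbs p K φ ((p : ℕ) : K) = (p : ℝ)⁻¹ := by
  rw [embAbs_apply, map_natCast, map_natCast]
  exact norm_natCast_self_padicAlgCl p

theorem embAbs_natCast_of_ne (φ : K →ₐ[ℚ] Qb) {r : ℕ} (hr : r.Prime) (hrp : r ≠ p) :
    embAbs p K φ ((r : ℕ) : K) = 1 := by
  rw [embAbs_apply, map_natCast, map_natCast]
  exact norm_natCast_padicAlgCl_of_ne p hr hrp

theorem natCast_ne_zero_K : ((p : ℕ) : K) ≠ 0 := by
  have hp : (p : ℕ).Prime := Fact.out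
  exact_mod_cast hp.ne_zero

theorem inv_natCast_ne_one : ((p : ℕ) : ℝ)⁻¹ ≠ 1 := by
  have hp : (p : ℕ).Prime := Fact.out
  rw [ne_eq, inv_eq_one]
  exact_mod_cast hp.one_lt.ne'

theorem embAbs_isNontrivial (φ : K →ₐ[ℚ] Qb) : (embAbs p K φ).IsNontrivial :=
  ⟨((p : ℕ) : K), natCast_ne_zero_K p K, by
    rw [embAbs_natCast_self]
    exact inv_natCast_ne_one p⟩

theorem embAbs_eq_of_isEquiv (φ ψ : K →ₐ[ℚ] Qb)
    (h : (embAbs p K φ).IsEquiv (embAbs p K ψ)) : embAbs p K φ = embAbs p K ψ := by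
  refine eq_of_isEquiv_of_apply_eq h (natCast_ne_zero_K p K) ?_ ?_
  · rw [embAbs_natCast_self]
    exact inv_natCast_ne_one p
  · rw [embAbs_natCast_self, embAbs_natCast_self]

theorem embAbs_not_isEquiv (r : ℕ) [Fact r.Prime] (hpr : p ≠ r) (φ ψ : K →ₐ[ℚ] Qb) :
    ¬ (embAbs p K φ).IsEquiv (embAbs r K ψ) := by
  intro h
  have hp : (p : ℕ).Prime := Fact.out
  have h1 : embAbs p K φ ((p : ℕ) : K) < 1 := by
    rw [embAbs_natCast_self]
    exact inv_lt_one_of_one_lt₀ (by exact_mod_cast hp.one_lt)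
  have h2 := h.lt_one_iff.1 h1
  rw [embAbs_natCast_of_ne r K ψ hp hpr] at h2
  exact lt_irrefl _ h2

end Abs

/-- `locSub p g U` has finite index for open `U`. -/
theorem index_locSub_ne_zero (p : ℕ) [Fact p.Prime] {U : Subgroup GQ} (hU : IsOpenQ U) (g : GQ) :
    (locSub p g U).index ≠ 0 := by
  haveI : Finite (GQ ⧸ U) := Subgroup.quotient_finite_of_isOpen U (isOpen_of_isOpenQ hU)
  haveI : U.FiniteIndex := Subgroup.finiteIndex_of_finite_quotient
  haveI h1 : (U.comap (MulAut.conj g).toMonoidHom).FiniteIndex := by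
    refine ⟨?_⟩
    rw [Subgroup.index_comap]
    exact Subgroup.FiniteIndex.index_ne_zero (H := U.subgroupOf _)
  unfold locSub
  rw [Subgroup.index_comap]
  exact Subgroup.FiniteIndex.index_ne_zero
    (H := (U.comap (MulAut.conj g).toMonoidHom).subgroupOf _)

/-- distinct representatives give distinct places of `K` -/
theorem eq_of_embAbs_eq (p : ℕ) [Fact p.Prime] {U : Subgroup GQ} (hU : IsOpenQ U)
    {R : Finset GQ} (hR : IsDoubleCosetReps U (localGaloisToGlobal p).range R) {g g' : GQ}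
    (hg : g ∈ R) (hg' : g' ∈ R)
    (h : embAbs p (fixK U) (gEmb (fixK U) g') = embAbs p (fixK U) (gEmb (fixK U) g)) :
    g' = g := by
  obtain ⟨u, hu, d, hd, hgg⟩ := exists_doubleCoset_of_inter_eq p hU g g' (fun x hx => by
    have := congrArg (fun v : AbsoluteValue (fixK U) ℝ => v ⟨x, hx⟩) h
    simp only [embAbs_apply, gEmb_apply] at this
    rw [this])
  obtain ⟨r, -, hr⟩ := hR g'
  have h1 : g' = r := hr g' ⟨hg', 1, U.one_mem, 1, Subgroup.one_mem _, by simp⟩
  have h2 : g = r := hr g ⟨hg, u, hu, d, hd, hgg⟩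
  rw [h1, h2]

/-- **Leaf (G3)**: weak approximation. -/
theorem weakApprox : WeakApproxSpec := by
  classical
  intro U hU p r _ _ hpr Rp hRp j
  have hpP : (p : ℕ).Prime := Fact.out
  have hrP : (r : ℕ).Prime := Fact.out
  set K := fixK U with hK
  haveI : FiniteDimensional ℚ K := finiteDimensional_fixK hU
  -- uniformizers and global elements with the same norm
  have hπex : ∀ g : GQ, ∃ π : (PadicAlgCl p)ˣ,
      IsUniformizer p (locSub p g U) (π : PadicAlgCl p) :=
    fun g => exists_isUniformizer p (locSub p g U) (index_locSub_ne_zero p hU g)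
  choose π hπ using hπex
  have hxex : ∀ g : GQ, ∃ x : K, x ≠ 0 ∧
      embAbs p K (gEmb K g) x = ‖((π g : (PadicAlgCl p)ˣ) : PadicAlgCl p)‖ := by
    intro g
    obtain ⟨x, hx, hx0, hxn⟩ := exists_global_norm_eq p hU g (π g) (π g).ne_zero (hπ g).1
    exact ⟨⟨x, hx⟩, fun h => hx0 (congrArg Subtype.val h), hxn⟩
  choose x hx0 hxn using hxex
  -- the finite set of absolute values
  let Sp : Set (AbsoluteValue K ℝ) := (fun g => embAbs p K (gEmb K g)) '' (Rp : Set GQ)
  let Sr : Set (AbsoluteValue K ℝ) := Set.range (fun φ : K →ₐ[ℚ] Qb => embAbs r K φ)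
  have hfin : (Sp ∪ Sr).Finite :=
    (Rp.finite_toSet.image _).union (Set.finite_range _)
  haveI : Finite ↥(Sp ∪ Sr) := hfin.to_subtype
  let v : ↥(Sp ∪ Sr) → AbsoluteValue K ℝ := Subtype.val
  have hnontriv : ∀ i, (v i).IsNontrivial := by
    rintro ⟨w, hw | hw⟩
    · obtain ⟨g, -, rfl⟩ := hw
      exact embAbs_isNontrivial p K _
    · obtain ⟨φ, rfl⟩ := hw
      exact embAbs_isNontrivial r K _
  have hpair : Pairwise fun i j ↦ ¬ (v i).IsEquiv (v j) := by
    rintro ⟨w, hw⟩ ⟨w', hw'⟩ hne heq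
    apply hne
    apply Subtype.ext
    show w = w'
    change w.IsEquiv w' at heq
    rcases hw with hw | hw <;> rcases hw' with hw' | hw'
    · obtain ⟨g, -, rfl⟩ := hw
      obtain ⟨g', -, rfl⟩ := hw'
      exact embAbs_eq_of_isEquiv p K _ _ heq
    · obtain ⟨g, -, rfl⟩ := hw
      obtain ⟨φ, rfl⟩ := hw'
      exact absurd heq (embAbs_not_isEquiv p K r hpr _ _)
    · obtain ⟨φ, rfl⟩ := hw
      obtain ⟨g', -, rfl⟩ := hw'
      exact absurd heq.symm (embAbs_not_isEquiv p K r hpr _ _)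
    · obtain ⟨φ, rfl⟩ := hw
      obtain ⟨φ', rfl⟩ := hw'
      exact embAbs_eq_of_isEquiv r K _ _ heq
  -- targets
  let t : ↥(Sp ∪ Sr) → K := fun i =>
    if h : ∃ g, g ∈ Rp ∧ embAbs p K (gEmb K g) = i.1 then x h.choose ^ j h.choose else 1
  have ht0 : ∀ i, t i ≠ 0 := by
    intro i
    simp only [t]
    split_ifs with h
    · exact zpow_ne_zero _ (hx0 _)
    · exact one_ne_zero
  let ε : ↥(Sp ∪ Sr) → ℝ := fun i => min (v i (t i)) 1
  have hε : ∀ i, 0 < ε i := fun i => lt_min ((v i).pos (ht0 i)) one_pos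
  obtain ⟨a, ha⟩ := exists_approx' v hnontriv hpair t ε hε
  -- the `p`-adic places
  have hP : ∀ g ∈ Rp, embAbs p K (gEmb K g) a =
      ‖((π g : (PadicAlgCl p)ˣ) : PadicAlgCl p)‖ ^ j g := by
    intro g hg
    have hmem : embAbs p K (gEmb K g) ∈ Sp ∪ Sr := Or.inl ⟨g, hg, rfl⟩
    have hex : ∃ g', g' ∈ Rp ∧ embAbs p K (gEmb K g') = embAbs p K (gEmb K g) := ⟨g, hg, rfl⟩
    have hch : hex.choose = g :=
      eq_of_embAbs_eq p hU hRp hg hex.choose_spec.1 hex.choose_spec.2
    have hti : t ⟨_, hmem⟩ = x g ^ j g := by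
      simp only [t]
      rw [dif_pos hex, hch]
    have h1 := ha ⟨_, hmem⟩
    have h2 : embAbs p K (gEmb K g) (a - x g ^ j g) < embAbs p K (gEmb K g) (x g ^ j g) := by
      have : ε ⟨_, hmem⟩ ≤ embAbs p K (gEmb K g) (x g ^ j g) := by
        simp only [ε, v]
        rw [hti]
        exact min_le_left _ _
      have h3 : embAbs p K (gEmb K g) (a - t ⟨_, hmem⟩) < ε ⟨_, hmem⟩ := h1
      rw [hti] at h3
      exact lt_of_lt_of_le h3 this
    have h4 : embAbs p K (gEmb K g) a = embAbs p K (gEmb K g) (x g ^ j g) := by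
      simp only [embAbs_apply] at h2 ⊢
      rw [map_sub, map_sub] at h2
      exact norm_eq_of_norm_sub_lt p h2
    rw [h4, map_zpow₀, hxn]
  -- the `r`-adic places
  have hR : ∀ φ : K →ₐ[ℚ] Qb, embAbs r K φ (a - 1) < 1 := by
    intro φ
    have hmem : embAbs r K φ ∈ Sp ∪ Sr := Or.inr ⟨φ, rfl⟩
    have hnex : ¬ ∃ g, g ∈ Rp ∧ embAbs p K (gEmb K g) = embAbs r K φ := by
      rintro ⟨g, -, hg⟩
      refine embAbs_not_isEquiv p K r hpr (gEmb K g) φ ?_
      rw [hg]
      exact AbsoluteValue.IsEquiv.refl _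
    have hti : t ⟨_, hmem⟩ = 1 := by
      simp only [t]
      rw [dif_neg hnex]
    have h1 : embAbs r K φ (a - t ⟨_, hmem⟩) < ε ⟨_, hmem⟩ := ha ⟨_, hmem⟩
    rw [hti] at h1
    exact lt_of_lt_of_le h1 (min_le_right _ _)
  have ha0 : (a : Qb) ≠ 0 := by
    intro h0
    have h1 := hR (gEmb K 1)
    have ha' : a = 0 := Subtype.ext h0
    rw [ha', zero_sub, map_neg_eq_map, map_one] at h1
    exact lt_irrefl _ h1
  refine ⟨Units.mk0 (a : Qb) ha0, gFixed_of_mem_fixK _ a.2, ?_, ?_⟩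
  · intro g hg
    have hnorm : ‖padicEmbedding p (g⁻¹ (a : Qb))‖ =
        ‖((π g : (PadicAlgCl p)ˣ) : PadicAlgCl p)‖ ^ j g := hP g hg
    refine ⟨π g, (π g ^ j g)⁻¹ * locPushMul p g (Units.mk0 (a : Qb) ha0), hπ g, ?_, ?_⟩
    · rw [Units.val_mul, norm_mul, Units.val_inv_eq_inv_val, norm_inv,
        Units.val_zpow_eq_zpow_val, norm_zpow, locPushMul_coe, Units.val_mk0, hnorm]
      have hne : ‖((π g : (PadicAlgCl p)ˣ) : PadicAlgCl p)‖ ^ j g ≠ 0 :=
        zpow_ne_zero _ (norm_ne_zero_iff.2 (π g).ne_zero)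
      exact inv_mul_cancel₀ hne
    · rw [mul_inv_cancel_left]
  · intro g
    have h1 := hR (gEmb K g)
    rw [embAbs_apply] at h1
    have h2 : padicEmbedding r (gEmb K g (a - 1)) =
        padicEmbedding r (g⁻¹ (a : Qb)) - 1 := by
      rw [gEmb_apply]
      push_cast
      rw [map_sub, map_sub, map_one, map_one]
    rw [h2] at h1
    rw [locPushMul_coe, Units.val_mk0]
    exact h1

end Fermat.Agent.S55.G.Rec.H742

end
end
-- ===== PACK-END S55/G/Rec/H742/WeakApprox.lean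

-- ===== PACK-BEGIN S55/Local/H775/Inertia.lean
section



/-!
# S55 layer L, piece UR6 (helper775): `InertiaStatement` and `InertiaCardStatement`

* `inertiaCard775 : InertiaCardStatement` (interface `Local/Spec2.lean`: existence of a normal
  subgroup `I` with the UR6 property and `|I| = e(N/K)`);
* `inertia775 : InertiaStatement` (frozen interface `Local/Spec.lean`);
* `exists_inertia_card775`: the unbundled form of `inertiaCard775`.
-/

set_option autoImplicit false
set_option linter.unusedSectionVars false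
set_option linter.style.haveILetI false

namespace Fermat.Agent.S55.Local.H775

open Fermat.Agent.S55.Local IsLocalRing

section Concrete

variable (A F : Type) [CommRing A] [IsDomain A] [IsDiscreteValuationRing A]
  [IsAdicComplete (IsLocalRing.maximalIdeal A) A] [Finite (IsLocalRing.ResidueField A)]
  [Field F] [CharZero F] [Algebra A F] [IsFractionRing A F]
  (K : Type) [Field K] [Algebra F K] [FiniteDimensional F K]
  (N : Type) [Field N] [Algebra F N] [Algebra K N] [IsScalarTower F K N]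
  [FiniteDimensional K N] [IsGalois K N]

variable {K N} in
lemma mem_fixedUnits_fixingSubgroup_iff (E : IntermediateField K N) (y : Nˣ) :
    y ∈ fixedUnits K N E.fixingSubgroup ↔ (y : N) ∈ E := by
  rw [mem_fixedUnits_iff_coe, ← IntermediateField.mem_fixedField_iff,
    IsGalois.fixedField_fixingSubgroup]

variable {K N} in
lemma exists_unitsIncl_eq_of_mem (E : IntermediateField K N) {y : Nˣ} (hy : (y : N) ∈ E) :
    ∃ y' : Eˣ, unitsIncl N E y' = y := by
  have h0 : (⟨(y : N), hy⟩ : E) ≠ 0 := by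
    intro h
    exact y.ne_zero (congrArg (fun t : E => (t : N)) h)
  exact ⟨Units.mk0 ⟨(y : N), hy⟩ h0, Units.ext rfl⟩

variable {K N} in
lemma exists_unitsIncl_eq_of_mem_top {y : Nˣ} (hy : y ∈ fixedUnits K N ⊤) :
    ∃ z : Kˣ, unitsIncl N K z = y := by
  rw [mem_fixedUnits_iff_coe] at hy
  obtain ⟨z, hz⟩ := (IsGalois.mem_range_algebraMap_iff_fixed (F := K) (E := N) (y : N)).mpr
    (fun σ => hy σ (Subgroup.mem_top σ))
  have h0 : z ≠ 0 := by
    rintro rfl
    rw [map_zero] at hz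
    exact y.ne_zero hz.symm
  exact ⟨Units.mk0 z h0, Units.ext hz⟩

/-- Integral units of a subfield are detected in the big field. -/
lemma unitsIncl_mem_intUnits_iff (A F : Type) [CommRing A] [Field F] [Algebra A F]
    (K : Type) [Field K] [Algebra F K]
    (N : Type) [Field N] [Algebra F N] [Algebra K N] [IsScalarTower F K N] (y : Kˣ) :
    unitsIncl N K y ∈ intUnits A F N ↔ y ∈ intUnits A F K := by
  rw [mem_intUnits, mem_intUnits]
  have h1 : ((unitsIncl N K y : Nˣ) : N) = algebraMap K N (y : K) := rfl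
  have h2 : (((unitsIncl N K y)⁻¹ : Nˣ) : N) = algebraMap K N ((y⁻¹ : Kˣ) : K) := by
    rw [← map_inv]; rfl
  rw [h1, h2, H608.isInt_algebraMap_iff, H608.isInt_algebraMap_iff]

/-- The UR6 property follows from the structure property of `exists_inertia_dvd`. -/
theorem isInertia_of_dvd {ϖ : Nˣ} (hϖ : IsUnif A F N ϖ) (I : Subgroup (N ≃ₐ[K] N))
    (hI : ∀ H : Subgroup (N ≃ₐ[K] N),
      0 < Nat.card ↥(I ⊓ H) ∧
      (∀ y ∈ fixedUnits K N H, ((Nat.card ↥(I ⊓ H) : ℕ) : ℤ) ∣ ord A F N ϖ y) ∧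
      (∃ y ∈ fixedUnits K N H, ord A F N ϖ y = (Nat.card ↥(I ⊓ H) : ℕ))) :
    IsInertiaSubgroup A F K N I := by
  intro E
  letI : Algebra F E := ((algebraMap K E).comp (algebraMap F K)).toAlgebra
  haveI : IsScalarTower F K E := IsScalarTower.of_algebraMap_eq (fun _ => rfl)
  haveI : IsScalarTower F E N := by
    refine IsScalarTower.of_algebraMap_eq (fun x => ?_)
    rw [IsScalarTower.algebraMap_apply F K N, IsScalarTower.algebraMap_apply F K E,
      ← IsScalarTower.algebraMap_apply K E N]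
  obtain ⟨hpos, hdvd, y₀, hy₀, hy₀c⟩ := hI E.fixingSubgroup
  obtain ⟨hposT, hdvdT, y₁, hy₁, hy₁c⟩ := hI ⊤
  have htop : Nat.card ↥(I ⊓ (⊤ : Subgroup (N ≃ₐ[K] N))) = Nat.card ↥I := by rw [inf_top_eq]
  have htower : ∀ z : Kˣ, unitsIncl N E (unitsIncl E K z) = unitsIncl N K z := by
    intro z
    apply Units.ext
    show algebraMap E N (algebraMap K E (z : K)) = algebraMap K N (z : K)
    rw [← IsScalarTower.algebraMap_apply K E N]
  constructor
  · -- (i)
    show IsUnram A F N E ↔ E.fixingSubgroup ⊓ I = ⊥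
    constructor
    · intro hU
      obtain ⟨y, hy⟩ := hU ϖ
      have h1 : ord A F N ϖ (unitsIncl N E y) = 1 := by
        rw [← ord_eq_of_div_mem hϖ hy, ord_self hϖ]
      have h2 := hdvd (unitsIncl N E y)
        ((mem_fixedUnits_fixingSubgroup_iff E _).mpr (y : E).2)
      rw [h1] at h2
      have h3 : Nat.card ↥(I ⊓ E.fixingSubgroup) = 1 := by
        have : (Nat.card ↥(I ⊓ E.fixingSubgroup) : ℤ) = 1 :=
          Int.eq_one_of_dvd_one (by positivity) h2
        exact_mod_cast this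
      rw [inf_comm]
      exact Subgroup.card_eq_one.mp h3
    · intro hbot
      have h3 : Nat.card ↥(I ⊓ E.fixingSubgroup) = 1 := by
        rw [inf_comm, hbot]
        exact Subgroup.card_eq_one.mpr rfl
      rw [h3] at hy₀c
      obtain ⟨y₀', hy₀'⟩ := exists_unitsIncl_eq_of_mem E
        ((mem_fixedUnits_fixingSubgroup_iff E _).mp hy₀)
      intro x
      refine ⟨y₀' ^ (ord A F N ϖ x), ?_⟩
      apply div_mem_of_ord_eq hϖ
      rw [map_zpow, hy₀', ord_zpow hϖ, hy₀c]
      push_cast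
      ring
  · -- (ii)
    show IsUnram A F E K ↔ I ≤ E.fixingSubgroup
    constructor
    · intro hU
      obtain ⟨y₀', hy₀'⟩ := exists_unitsIncl_eq_of_mem E
        ((mem_fixedUnits_fixingSubgroup_iff E _).mp hy₀)
      obtain ⟨z, hz⟩ := hU y₀'
      have hz' : unitsIncl N E (y₀' * (unitsIncl E K z)⁻¹) ∈ intUnits A F N :=
        (unitsIncl_mem_intUnits_iff A F E N _).mpr hz
      rw [map_mul, map_inv, hy₀', htower] at hz'
      have h1 : ord A F N ϖ (unitsIncl N K z) = (Nat.card ↥(I ⊓ E.fixingSubgroup) : ℕ) := by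
        rw [← ord_eq_of_div_mem hϖ hz', hy₀c]
      have h2 := hdvdT (unitsIncl N K z) (unitsIncl_mem_fixedUnits ⊤ z)
      rw [h1, htop] at h2
      have h3 : Nat.card ↥I ∣ Nat.card ↥(I ⊓ E.fixingSubgroup) := by exact_mod_cast h2
      have h4 : Nat.card ↥I ≤ Nat.card ↥(I ⊓ E.fixingSubgroup) := Nat.le_of_dvd hpos h3
      have h5 : I ⊓ E.fixingSubgroup = I := Subgroup.eq_of_le_of_card_ge inf_le_left h4
      exact inf_eq_left.mp h5
    · intro hle
      have h5 : I ⊓ E.fixingSubgroup = I := inf_eq_left.mpr hle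
      rw [h5] at hdvd
      rw [htop] at hy₁c
      obtain ⟨z, hz⟩ := exists_unitsIncl_eq_of_mem_top hy₁
      intro x
      obtain ⟨m, hm⟩ := hdvd (unitsIncl N E x)
        ((mem_fixedUnits_fixingSubgroup_iff E _).mpr (x : E).2)
      refine ⟨z ^ m, ?_⟩
      rw [← unitsIncl_mem_intUnits_iff A F E N, map_mul, map_inv, htower]
      apply div_mem_of_ord_eq hϖ
      rw [hm, map_zpow, hz, ord_zpow hϖ, hy₁c]
      ring

/-- Existence of the inertia subgroup with the UR6 property and of order `e(N/K)`. -/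
theorem exists_inertia_card775 :
    ∃ I : Subgroup (N ≃ₐ[K] N), I.Normal ∧ IsInertiaSubgroup A F K N I ∧
      ∀ (ϖK : Kˣ) (ϖN : Nˣ), IsUnif A F K ϖK → IsUnif A F N ϖN →
        unitsIncl N K ϖK * ϖN ^ (-(Nat.card I : ℤ)) ∈ intUnits A F N := by
  haveI : FiniteDimensional F N := FiniteDimensional.trans F K N
  obtain ⟨ϖ, hϖ⟩ := H608.exists_isUnif A F N
  obtain ⟨I, hIn, hI⟩ := exists_inertia_dvd A F K N hϖ
  refine ⟨I, hIn, isInertia_of_dvd A F K N hϖ I hI, ?_⟩
  intro ϖK ϖN hK hN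
  obtain ⟨hposT, hdvdT, y₁, hy₁, hy₁c⟩ := hI ⊤
  have htop : Nat.card ↥(I ⊓ (⊤ : Subgroup (N ≃ₐ[K] N))) = Nat.card ↥I := by rw [inf_top_eq]
  rw [htop] at hposT hdvdT hy₁c
  -- `ord (ϖK) = |I|`
  have h1 := hdvdT (unitsIncl N K ϖK) (unitsIncl_mem_fixedUnits ⊤ ϖK)
  have h2 : 0 < ord A F N ϖ (unitsIncl N K ϖK) := ord_unitsIncl_unif_pos (K := K) hϖ hK
  obtain ⟨z, hz⟩ := exists_unitsIncl_eq_of_mem_top hy₁
  obtain ⟨n, hn⟩ := hK.2.2 z
  have hn' : unitsIncl N K (z * ϖK ^ (-n)) ∈ intUnits A F N :=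
    (unitsIncl_mem_intUnits_iff A F K N _).mpr hn
  have h3 : ord A F N ϖ (unitsIncl N K (z * ϖK ^ (-n))) = 0 := (ord_eq_zero_iff hϖ).mpr hn'
  rw [map_mul, map_zpow, ord_mul hϖ, ord_zpow hϖ, hz, hy₁c] at h3
  have h4 : ord A F N ϖ (unitsIncl N K ϖK) ∣ (Nat.card ↥I : ℤ) := ⟨n, by linarith⟩
  have h5 : ord A F N ϖ (unitsIncl N K ϖK) = (Nat.card ↥I : ℤ) :=
    Int.dvd_antisymm h2.le (by positivity) h4 h1
  apply (ord_eq_zero_iff hϖ).mp
  rw [ord_mul hϖ, ord_zpow hϖ, h5, ord_eq_ord hN hϖ ϖN, ord_self hN]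
  ring

end Concrete

/-- **UR6** `InertiaStatement`, exact frozen form. -/
theorem inertia775 : InertiaStatement := by
  intro A F _ _ _ _ _ _ _ _ _ K _ _ _ N _ _ _ _ _ _
  obtain ⟨I, hIn, hI, -⟩ := exists_inertia_card775 A F K N
  exact ⟨I, hIn, hI⟩

/-- **UR6'** `InertiaCardStatement`, exact form of `Local/Spec2.lean`. -/
theorem inertiaCard775 : InertiaCardStatement := by
  intro A F _ _ _ _ _ _ _ _ _ K _ _ _ N _ _ _ _ _ _
  exact exists_inertia_card775 A F K N

end Fermat.Agent.S55.Local.H775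

end
-- ===== PACK-END S55/Local/H775/Inertia.lean

-- ===== PACK-BEGIN S55/H295/Core.lean
section



/-!
# Cohomological triviality, part 4: the core of the twin-vanishing criterion

Let `G` be a finite group and `A : Rep k G`.  Write `TwinVanish A d` for
"`H^d(H, A) = H^{d+1}(H, A) = 0` for every injective `f : H →* G`" (hom-form).

* `isZero_H3_of_twinVanish` : `TwinVanish A 1 → H³(G, A) = 0`;
* `isZero_H1_of_twinVanish` : `TwinVanish A 2 → H¹(G, A) = 0`.

Proof: Sylow reduction (`helper783`), induction on the order of a `p`-group through a normal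
subgroup of index `p`, higher inflation–restriction (`InfRes.lean`) and periodicity of the
cohomology of cyclic groups (Mathlib).
-/

set_option autoImplicit false

open CategoryTheory groupCohomology Rep Limits

universe u

namespace Fermat.Agent.S55.H295

noncomputable section

variable {k : Type u} [CommRing k]

/-- Hom-form twin vanishing: `H^d` and `H^{d+1}` vanish on every "subgroup" `f : H ↪ G`. -/
def TwinVanish {G : Type u} [Group G] (A : Rep.{u} k G) (d : ℕ) : Prop :=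
  ∀ (H : Type u) [Group H] (f : H →* G), Function.Injective f →
    IsZero (groupCohomology (res f A) d) ∧ IsZero (groupCohomology (res f A) (d + 1))

lemma TwinVanish.res {G : Type u} [Group G] {A : Rep.{u} k G} {d : ℕ} (h : TwinVanish A d)
    {H : Type u} [Group H] (f : H →* G) (hf : Function.Injective f) :
    TwinVanish (res f A) d :=
  fun K _ g hg => h K (f.comp g) (hf.comp hg)

lemma TwinVanish.self {G : Type u} [Group G] {A : Rep.{u} k G} {d : ℕ} (h : TwinVanish A d) :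
    IsZero (groupCohomology A d) ∧ IsZero (groupCohomology A (d + 1)) :=
  h G (MonoidHom.id G) Function.injective_id

/-- Subgroup-form twin vanishing implies hom-form twin vanishing. -/
lemma twinVanish_of_subgroups {G : Type u} [Group G] (A : Rep.{u} k G) (d : ℕ)
    (h : ∀ H : Subgroup G, IsZero (groupCohomology (Rep.res H.subtype A) d) ∧
      IsZero (groupCohomology (Rep.res H.subtype A) (d + 1))) :
    TwinVanish A d :=
  fun _ _ f hf => ⟨isZero_res_of_range f hf A d (h f.range).1,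
    isZero_res_of_range f hf A (d + 1) (h f.range).2⟩

/-- Periodicity for finite cyclic groups: `H¹ = 0 ↔ H³ = 0`. -/
theorem isZero_H1_iff_H3_of_isCyclic {Q : Type u} [Group Q] [Finite Q] [IsCyclic Q]
    (B : Rep.{u} k Q) :
    IsZero (groupCohomology B 1) ↔ IsZero (groupCohomology B 3) := by
  classical
  obtain ⟨g, hg⟩ := IsCyclic.exists_generator (α := Q)
  let _ : Fintype Q := Fintype.ofFinite Q
  let _ : CommGroup Q := IsCyclic.commGroup
  have e1 := Rep.FiniteCyclicGroup.groupCohomologyIsoOdd B g hg 1 (by decide)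
  have e3 := Rep.FiniteCyclicGroup.groupCohomologyIsoOdd B g hg 3 (by decide)
  exact (e1 ≪≫ e3.symm).isZero_iff

/-- A nontrivial finite `p`-group has a normal subgroup of index `p`. -/
theorem exists_normal_index_prime {p : ℕ} [hp : Fact p.Prime] {G : Type u} [Group G] [Finite G]
    (hG : IsPGroup p G) (hnt : Nontrivial G) : ∃ S : Subgroup G, S.Normal ∧ S.index = p := by
  obtain ⟨n, hn⟩ := (IsPGroup.iff_card (p := p) (G := G)).1 hG
  have hn0 : n ≠ 0 := by
    rintro rfl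
    rw [pow_zero] at hn
    have := Finite.one_lt_card (α := G)
    omega
  obtain ⟨m, rfl⟩ := Nat.exists_eq_succ_of_ne_zero hn0
  obtain ⟨K, hK⟩ := Sylow.exists_subgroup_card_pow_prime (G := G) p (n := m)
    (by rw [hn]; exact pow_dvd_pow p (Nat.le_succ m))
  have hidx : K.index = p := by
    have h := K.card_mul_index
    rw [hK, hn, pow_succ] at h
    exact Nat.eq_of_mul_eq_mul_left (pow_pos hp.out.pos m) h
  refine ⟨K, ?_, hidx⟩
  apply Subgroup.normal_of_index_eq_minFac_card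
  rw [hidx, hn, Nat.Prime.pow_minFac hp.out (Nat.succ_ne_zero m)]

/-- The data used in the induction step: a normal subgroup of index `p`, of smaller order,
with cyclic quotient. -/
theorem exists_normal_step {p : ℕ} [hp : Fact p.Prime] {G : Type u} [Group G] [Finite G]
    (hG : IsPGroup p G) (hnt : Nontrivial G) :
    ∃ S : Subgroup G, ∃ _ : S.Normal, Nat.card S < Nat.card G ∧ IsCyclic (G ⧸ S) := by
  obtain ⟨S, hS, hidx⟩ := exists_normal_index_prime hG hnt
  refine ⟨S, hS, ?_, ?_⟩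
  · have h := S.card_mul_index
    rw [hidx] at h
    have hpos : 0 < Nat.card S := Nat.card_pos
    have h2 : 2 ≤ p := hp.out.two_le
    nlinarith
  · have hcard : Nat.card (G ⧸ S) = p := by rw [← Subgroup.index_eq_card, hidx]
    exact isCyclic_of_prime_card hcard

/-- Core (a) for `p`-groups. -/
theorem isZero_H3_of_pGroup (p : ℕ) [hp : Fact p.Prime] :
    ∀ (n : ℕ) (G : Type u) [Group G] [Finite G], Nat.card G ≤ n → IsPGroup p G →
      ∀ A : Rep.{u} k G, TwinVanish A 1 → IsZero (groupCohomology A 3) := by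
  intro n
  induction n with
  | zero =>
    intro G _ _ hcard _ A _
    have : 0 < Nat.card G := Nat.card_pos
    omega
  | succ n ih =>
    intro G _ _ hcard hG A hA
    rcases subsingleton_or_nontrivial G with hs | hnt
    · exact isZero_groupCohomology_succ_of_subsingleton A 2
    · obtain ⟨S, hSn, hlt, hcyc⟩ := exists_normal_step hG hnt
      have hS12 := hA S S.subtype S.subtype_injective
      have hS3 : IsZero (groupCohomology (res S.subtype A) 3) :=
        ih S (by omega) (hG.to_subgroup S) (res S.subtype A) (hA.res S.subtype S.subtype_injective)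
      have hG1 : IsZero (groupCohomology A 1) := hA.self.1
      have hQ1 : IsZero (groupCohomology (A.quotientToInvariants S) 1) :=
        isZero_H_quot_of S 0 A (fun i hi => absurd hi (Nat.not_lt_zero i)) hG1
      have hQ3 : IsZero (groupCohomology (A.quotientToInvariants S) 3) :=
        (isZero_H1_iff_H3_of_isCyclic _).1 hQ1
      refine isZero_H_of_quot S 2 A (fun i hi => ?_) hQ3
      interval_cases i
      · exact hS12.1
      · exact hS12.2
      · exact hS3

/-- Core (b') for `p`-groups. -/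
theorem isZero_H1_of_pGroup (p : ℕ) [hp : Fact p.Prime] :
    ∀ (n : ℕ) (G : Type u) [Group G] [Finite G], Nat.card G ≤ n → IsPGroup p G →
      ∀ A : Rep.{u} k G, TwinVanish A 2 → IsZero (groupCohomology A 1) := by
  intro n
  induction n with
  | zero =>
    intro G _ _ hcard _ A _
    have : 0 < Nat.card G := Nat.card_pos
    omega
  | succ n ih =>
    intro G _ _ hcard hG A hA
    rcases subsingleton_or_nontrivial G with hs | hnt
    · exact isZero_groupCohomology_succ_of_subsingleton A 0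
    · obtain ⟨S, hSn, hlt, hcyc⟩ := exists_normal_step hG hnt
      have hS23 := hA S S.subtype S.subtype_injective
      have hS1 : IsZero (groupCohomology (res S.subtype A) 1) :=
        ih S (by omega) (hG.to_subgroup S) (res S.subtype A) (hA.res S.subtype S.subtype_injective)
      have hG3 : IsZero (groupCohomology A 3) := hA.self.2
      have hQ3 : IsZero (groupCohomology (A.quotientToInvariants S) 3) := by
        refine isZero_H_quot_of S 2 A (fun i hi => ?_) hG3
        interval_cases i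
        · exact hS1
        · exact hS23.1
      have hQ1 : IsZero (groupCohomology (A.quotientToInvariants S) 1) :=
        (isZero_H1_iff_H3_of_isCyclic _).2 hQ3
      refine isZero_H_of_quot S 0 A (fun i hi => ?_) hQ1
      interval_cases i
      exact hS1

section Sylow

variable {G : Type u} [Group G] [Finite G]

/-- Core (a): twin vanishing in degrees `1, 2` implies `H³(G, A) = 0`. -/
theorem isZero_H3_of_twinVanish (A : Rep.{u} k G) (hA : TwinVanish A 1) :
    IsZero (groupCohomology A 3) := by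
  have key : ∀ x : groupCohomology A 3, x = 0 := by
    intro x
    apply Fermat.Agent.S55.H783.eq_zero_of_forall_sylow A 2 x
    intro p _ P
    have hz : IsZero (groupCohomology (res (P : Subgroup G).subtype A) 3) :=
      isZero_H3_of_pGroup p (Nat.card P) P le_rfl P.isPGroup' _
        (hA.res _ (Subgroup.subtype_injective _))
    exact (ModuleCat.subsingleton_of_isZero hz).elim _ _
  have : Subsingleton (groupCohomology A 3) := ⟨fun x y => by rw [key x, key y]⟩
  exact ModuleCat.isZero_of_subsingleton _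

/-- Core (b'): twin vanishing in degrees `2, 3` implies `H¹(G, A) = 0`. -/
theorem isZero_H1_of_twinVanish (A : Rep.{u} k G) (hA : TwinVanish A 2) :
    IsZero (groupCohomology A 1) := by
  have key : ∀ x : groupCohomology A 1, x = 0 := by
    intro x
    apply Fermat.Agent.S55.H783.eq_zero_of_forall_sylow A 0 x
    intro p _ P
    have hz : IsZero (groupCohomology (res (P : Subgroup G).subtype A) 1) :=
      isZero_H1_of_pGroup p (Nat.card P) P le_rfl P.isPGroup' _
        (hA.res _ (Subgroup.subtype_injective _))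
    exact (ModuleCat.subsingleton_of_isZero hz).elim _ _
  have : Subsingleton (groupCohomology A 1) := ⟨fun x y => by rw [key x, key y]⟩
  exact ModuleCat.isZero_of_subsingleton _

end Sylow

end

end Fermat.Agent.S55.H295

end
-- ===== PACK-END S55/H295/Core.lean

-- ===== PACK-BEGIN S55/T/T6pH353/Transfer.lean
section


/-!
# S55, layer T, leaf T6p (helper353): the transfer formula

For a subgroup `H ≤ G` of finite index, `G`-representations `A`, `B`, an `H`-morphism
`f₀ : Res_H A ⟶ Res_H B` and all `n`: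

`(N_{G/H} f₀)_* = cor ∘ (f₀)_* ∘ res : Hⁿ(G, A) ⟶ Hⁿ(G, B)`

(`transfer`), where `cor = H572.cor` is the corestriction defined by dimension shifting.
-/

set_option autoImplicit false

open CategoryTheory groupCohomology Rep Limits

universe u

namespace Fermat.Agent.S55.T.H353

open Fermat.Agent.S55.H572

noncomputable section

variable {k G : Type u} [CommRing k] [Group G] (H : Subgroup G)

/-! ### The map induced by an `H`-morphism on `coind₁` -/

/-- Underlying linear map of `coindH`: `φ ↦ (x ↦ x f₀ (x⁻¹ φ(x)))`. -/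
def coindHLin {A B : Rep.{u} k G} (f₀ : res H.subtype A ⟶ res H.subtype B) :
    (coind₁ A).V →ₗ[k] (coind₁ B).V where
  toFun φ := mkCoind (res (⊥ : Subgroup G).subtype B) (fun x => conjTerm H f₀ x (φ.1 x))
  map_add' φ ψ := by
    apply Subtype.ext
    funext x
    simp [conjTerm]
  map_smul' r φ := by
    apply Subtype.ext
    funext x
    simp [conjTerm]

lemma coindHLin_apply {A B : Rep.{u} k G} (f₀ : res H.subtype A ⟶ res H.subtype B)
    (φ : (coind₁ A).V) (x : G) : (coindHLin H f₀ φ).1 x = conjTerm H f₀ x (φ.1 x) := rfl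

/-- The `H`-morphism `Res_H (coind₁ A) ⟶ Res_H (coind₁ B)` induced by an `H`-morphism
`f₀ : Res_H A ⟶ Res_H B`; it extends `f₀` along `coind₁ι`. -/
def coindH {A B : Rep.{u} k G} (f₀ : res H.subtype A ⟶ res H.subtype B) :
    res H.subtype (coind₁ A) ⟶ res H.subtype (coind₁ B) :=
  Rep.ofHom (ρ := (res H.subtype (coind₁ A)).ρ) (σ := (res H.subtype (coind₁ B)).ρ)
    ⟨coindHLin H f₀, fun h => by
      apply LinearMap.ext
      intro φ
      apply Subtype.ext
      funext x
      change conjTerm H f₀ x (φ.1 (x * (h : G))) = conjTerm H f₀ (x * (h : G)) (φ.1 (x * (h : G)))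
      rw [conjTerm_mul_mem]⟩

lemma coindH_hom_apply {A B : Rep.{u} k G} (f₀ : res H.subtype A ⟶ res H.subtype B)
    (φ : (coind₁ A).V) (x : G) : ((coindH H f₀).hom φ).1 x = conjTerm H f₀ x (φ.1 x) := rfl

lemma coind₁ι_coindH {A B : Rep.{u} k G} (f₀ : res H.subtype A ⟶ res H.subtype B) :
    (resFunctor H.subtype).map (coind₁ι A) ≫ coindH H f₀ =
      f₀ ≫ (resFunctor H.subtype).map (coind₁ι B) := by
  apply Rep.hom_ext
  apply Representation.IntertwiningMap.ext
  apply LinearMap.ext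
  intro a
  apply Subtype.ext
  funext x
  change conjTerm H f₀ x (A.ρ x a) = B.ρ x (f₀.hom a)
  unfold conjTerm
  rw [← Module.End.mul_apply (A.ρ x⁻¹), ← map_mul]
  simp

/-! ### The map induced by an `H`-morphism on `up` -/

instance epi_upSCRes_g (A : Rep.{u} k G) : Epi (upSCRes H A).g :=
  (upSCRes_shortExact H A).epi_g

lemma upH_aux {A B : Rep.{u} k G} (f₀ : res H.subtype A ⟶ res H.subtype B) :
    (resFunctor H.subtype).map (coind₁ι A) ≫ coindH H f₀ ≫
      (resFunctor H.subtype).map (upπ B) = 0 := by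
  rw [← Category.assoc, coind₁ι_coindH, Category.assoc, ← Functor.map_comp]
  have h2 : coind₁ι B ≫ upπ B = 0 := (upSC B).zero
  rw [h2, Functor.map_zero, comp_zero]

/-- The `H`-morphism `Res_H (up A) ⟶ Res_H (up B)` induced by an `H`-morphism
`f₀ : Res_H A ⟶ Res_H B`. -/
def upH {A B : Rep.{u} k G} (f₀ : res H.subtype A ⟶ res H.subtype B) :
    res H.subtype (up A) ⟶ res H.subtype (up B) :=
  (upSCRes_shortExact H A).exact.desc (coindH H f₀ ≫ (resFunctor H.subtype).map (upπ B))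
    (upH_aux H f₀)

lemma upπ_upH {A B : Rep.{u} k G} (f₀ : res H.subtype A ⟶ res H.subtype B) :
    (resFunctor H.subtype).map (upπ A) ≫ upH H f₀ =
      coindH H f₀ ≫ (resFunctor H.subtype).map (upπ B) :=
  (upSCRes_shortExact H A).exact.g_desc _ (upH_aux H f₀)

/-- The morphism of short complexes `Res_H (upSC A) ⟶ Res_H (upSC B)` induced by an
`H`-morphism. -/
def upHSCMap {A B : Rep.{u} k G} (f₀ : res H.subtype A ⟶ res H.subtype B) :
    upSCRes H A ⟶ upSCRes H B where
  τ₁ := f₀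
  τ₂ := coindH H f₀
  τ₃ := upH H f₀
  comm₁₂ := (coind₁ι_coindH H f₀).symm
  comm₂₃ := (upπ_upH H f₀).symm

/-- The connecting maps `δ_H` are natural with respect to `H`-morphisms. -/
lemma δH_naturalH {A B : Rep.{u} k G} (f₀ : res H.subtype A ⟶ res H.subtype B) (n : ℕ) :
    δH H A n ≫ groupCohomology.map (MonoidHom.id H) f₀ (n + 1) =
      groupCohomology.map (MonoidHom.id H) (upH H f₀) n ≫ δH H B n :=
  groupCohomology.δ_naturality (upSCRes_shortExact H A) (upSCRes_shortExact H B)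
    (upHSCMap H f₀) n (n + 1) rfl

/-! ### Relative norms of the induced maps -/

variable [Fintype (G ⧸ H)]

lemma normRel_coindH {A B : Rep.{u} k G} (f₀ : res H.subtype A ⟶ res H.subtype B) :
    normRel H (coindH H f₀) = coind₁Map (normRel H f₀) := by
  apply Rep.hom_ext
  apply Representation.IntertwiningMap.ext
  apply LinearMap.ext
  intro φ
  apply Subtype.ext
  funext x
  change (∑ q : G ⧸ H, (coind₁ B).ρ q.out ((coindH H f₀).hom ((coind₁ A).ρ q.out⁻¹ φ))).1 x =
    ∑ q : G ⧸ H, conjTerm H f₀ q.out (φ.1 x)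
  rw [Submodule.coe_sum, Finset.sum_apply]
  have h1 : ∀ q : G ⧸ H,
      ((coind₁ B).ρ q.out ((coindH H f₀).hom ((coind₁ A).ρ q.out⁻¹ φ))).1 x =
        conjTerm H f₀ ((x • q : G ⧸ H)).out (φ.1 x) := by
    intro q
    change conjTerm H f₀ (x * q.out) (φ.1 (x * q.out * q.out⁻¹)) = _
    rw [mul_inv_cancel_right]
    have h2 : (x • q : G ⧸ H) = QuotientGroup.mk (x * q.out) := by
      conv_lhs => rw [← QuotientGroup.out_eq' q]
      rfl
    rw [h2, conjTerm_out]
  rw [Finset.sum_congr rfl (fun q _ => h1 q)]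
  exact Fintype.sum_equiv (MulAction.toPerm x) _ _ (fun q => rfl)

lemma normRel_upH {A B : Rep.{u} k G} (f₀ : res H.subtype A ⟶ res H.subtype B) :
    normRel H (upH H f₀) = upMap (normRel H f₀) := by
  rw [← cancel_epi (upπ A), ← normRel_comp_left, upπ_upH, normRel_comp_right, normRel_coindH,
    upπ_naturality]

/-! ### The transfer formula -/

set_option backward.isDefEq.respectTransparency false in
/-- The transfer formula in degree `0`. -/
theorem transfer_zero {A B : Rep.{u} k G} (f₀ : res H.subtype A ⟶ res H.subtype B) :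
    groupCohomology.map (MonoidHom.id G) (normRel H f₀) 0 =
      resH H A 0 ≫ groupCohomology.map (MonoidHom.id H) f₀ 0 ≫ cor H 0 B := by
  have hcor : cor H 0 B = cor0 H B := rfl
  rw [hcor, cor0, ← cancel_mono (H0Iso B).hom]
  simp only [Category.assoc, Iso.inv_hom_id, Category.comp_id]
  rw [map_id_comp_H0Iso_hom, map_id_comp_H0Iso_hom_assoc, ← Category.assoc (resH H A 0),
    resH_H0Iso, Category.assoc]
  congr 1
  apply ModuleCat.hom_ext
  apply LinearMap.ext
  intro a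
  apply Subtype.ext
  change ∑ q : G ⧸ H, B.ρ q.out (f₀.hom (A.ρ q.out⁻¹ a.1)) =
    ∑ q : G ⧸ H, B.ρ q.out (f₀.hom a.1)
  refine Finset.sum_congr rfl fun q _ => ?_
  rw [a.2 q.out⁻¹]

/-- The map induced on `Hⁿ(G, -)` by a `G`-morphism (explicit implicit arguments). -/
abbrev mapG {A B : Rep.{u} k G} (f : A ⟶ B) (n : ℕ) :
    groupCohomology A n ⟶ groupCohomology B n :=
  groupCohomology.map (MonoidHom.id G) f n

/-- The map induced on `Hⁿ(H, -)` by an `H`-morphism between restrictions. -/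
abbrev mapH {A B : Rep.{u} k G} (f₀ : res H.subtype A ⟶ res H.subtype B) (n : ℕ) :
    groupCohomology (res H.subtype A) n ⟶ groupCohomology (res H.subtype B) n :=
  groupCohomology.map (MonoidHom.id H) f₀ n

lemma transfer_step (n : ℕ)
    (ih : ∀ {A B : Rep.{u} k G} (f₀ : res H.subtype A ⟶ res H.subtype B),
      mapG (normRel H f₀) n = resH H A n ≫ mapH H f₀ n ≫ cor H n B)
    {A B : Rep.{u} k G} (f₀ : res H.subtype A ⟶ res H.subtype B) :
    mapG (normRel H f₀) (n + 1) = resH H A (n + 1) ≫ mapH H f₀ (n + 1) ≫ cor H (n + 1) B := by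
  have e1 : δG A n ≫ mapG (normRel H f₀) (n + 1) = mapG (upMap (normRel H f₀)) n ≫ δG B n :=
    δG_natural (normRel H f₀) n
  have e2 : mapG (upMap (normRel H f₀)) n =
      resH H (up A) n ≫ mapH H (upH H f₀) n ≫ cor H n (up B) := by
    rw [← normRel_upH]
    exact ih (upH H f₀)
  have e3 : δH H B n ≫ cor H (n + 1) B = cor H n (up B) ≫ δG B n := δH_cor H n B
  have e4 : δH H A n ≫ mapH H f₀ (n + 1) = mapH H (upH H f₀) n ≫ δH H B n :=
    δH_naturalH H f₀ n
  have e5 : δG A n ≫ resH H A (n + 1) = resH H (up A) n ≫ δH H A n := δG_resH H A n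
  rw [← cancel_epi (δG A n), e1, e2]
  calc (resH H (up A) n ≫ mapH H (upH H f₀) n ≫ cor H n (up B)) ≫ δG B n
      = resH H (up A) n ≫ mapH H (upH H f₀) n ≫ (cor H n (up B) ≫ δG B n) := by
        simp only [Category.assoc]
    _ = resH H (up A) n ≫ (mapH H (upH H f₀) n ≫ δH H B n) ≫ cor H (n + 1) B := by
        rw [← e3]
        simp only [Category.assoc]
    _ = (resH H (up A) n ≫ δH H A n) ≫ mapH H f₀ (n + 1) ≫ cor H (n + 1) B := by
        rw [← e4]
        simp only [Category.assoc]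
    _ = δG A n ≫ resH H A (n + 1) ≫ mapH H f₀ (n + 1) ≫ cor H (n + 1) B := by
        rw [← e5]
        simp only [Category.assoc]

/-- **Transfer formula.**  For an `H`-morphism `f₀ : Res_H A ⟶ Res_H B`, the map induced on
`Hⁿ(G, -)` by the relative norm `N_{G/H} f₀` is `cor ∘ (f₀)_* ∘ res`. -/
theorem transfer (n : ℕ) : ∀ {A B : Rep.{u} k G} (f₀ : res H.subtype A ⟶ res H.subtype B),
    groupCohomology.map (MonoidHom.id G) (normRel H f₀) n =
      resH H A n ≫ groupCohomology.map (MonoidHom.id H) f₀ n ≫ cor H n B := by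
  induction n with
  | zero => exact fun f₀ => transfer_zero H f₀
  | succ n ih => exact fun f₀ => transfer_step H n ih f₀

/-- The transfer formula, elementwise. -/
theorem transfer_apply (n : ℕ) {A B : Rep.{u} k G} (f₀ : res H.subtype A ⟶ res H.subtype B)
    (x : groupCohomology A n) :
    (groupCohomology.map (MonoidHom.id G) (normRel H f₀) n).hom x =
      (cor H n B).hom ((groupCohomology.map (MonoidHom.id H) f₀ n).hom
        ((resH H A n).hom x)) := by
  rw [transfer H n f₀]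
  rfl

end

end Fermat.Agent.S55.T.H353

end
-- ===== PACK-END S55/T/T6pH353/Transfer.lean

-- ===== PACK-BEGIN S55/Mackey/Zero.lean
section


/-!
# S55 (helper61): Mackey–Shapiro — the map `mackeyPi` and bijectivity in degree 0
-/

set_option autoImplicit false

open CategoryTheory CategoryTheory.Limits groupCohomology

namespace Fermat.Agent.S55.Mackey

universe u v

variable {k H G : Type u} [CommRing k] [Group H] [Group G]
variable {ι : Type v} {α : H →* G} {D : Subgroup G} {Hs : ι → Type u} [∀ i, Group (Hs i)]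
  {j : ∀ i, Hs i →* H} {κ : ∀ i, Hs i →* D} {x : ι → G}

/-- The Mackey–Shapiro map `Hⁿ(H, Res_α Coind_D^G A) → ∏ᵢ Hⁿ(Hs i, Res(κ i) A)`. -/
noncomputable def mackeyPi (hsys : IsMackeySystem α D Hs j κ x) (A : Rep k D) (n : ℕ) :
    groupCohomology (indRes α A) n →ₗ[k] ∀ i, groupCohomology (Rep.res (κ i) A) n :=
  LinearMap.pi fun i => (mackeyComp α A (j i) (κ i) (x i) (hsys.comm i) n).hom

lemma mackeyPi_apply (hsys : IsMackeySystem α D Hs j κ x) (A : Rep k D) (n : ℕ)
    (c : groupCohomology (indRes α A) n) (i : ι) :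
    mackeyPi hsys A n c i = (mackeyComp α A (j i) (κ i) (x i) (hsys.comm i) n).hom c := rfl

section Zero

variable (hsys : IsMackeySystem α D Hs j κ x) (A : Rep k D)

/-- In degree `0` the component maps are evaluation at `x i` on invariants. -/
lemma H0Iso_mackeyComp (i : ι) (c : groupCohomology (indRes α A) 0) :
    (((H0Iso (Rep.res (κ i) A)).hom
      ((mackeyComp α A (j i) (κ i) (x i) (hsys.comm i) 0).hom c) :
        (Rep.res (κ i) A).ρ.invariants) : A.V) =
      (((H0Iso (indRes α A)).hom c : (indRes α A).ρ.invariants) : (indRes α A).V).1 (x i) := by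
  have h := map_H0Iso_hom_f_apply (j i) (evAt α A (j i) (κ i) (x i) (hsys.comm i)) c
  exact h

lemma indRes_invariant_apply (a : (indRes α A).ρ.invariants) (g : G) (h : H) :
    (a : (indRes α A).V).1 (g * α h) = (a : (indRes α A).V).1 g := by
  have h1 : (indRes α A).ρ h (a : (indRes α A).V) = (a : (indRes α A).V) := a.2 h
  have h2 := congrFun (congrArg Subtype.val h1) g
  exact h2

include hsys in
lemma mackeyPi_zero_injective : Function.Injective (mackeyPi hsys A 0) := by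
  rw [injective_iff_map_eq_zero]
  intro c hc
  have ha : ∀ i, (((H0Iso (indRes α A)).hom c : (indRes α A).ρ.invariants) :
      (indRes α A).V).1 (x i) = 0 := by
    intro i
    rw [← H0Iso_mackeyComp hsys A i c]
    have h1 : (mackeyComp α A (j i) (κ i) (x i) (hsys.comm i) 0).hom c = 0 :=
      congrFun hc i
    rw [h1, map_zero]
    rfl
  set a : (indRes α A).ρ.invariants := (H0Iso (indRes α A)).hom c with hadef
  have hzero : (a : (indRes α A).V) = 0 := by
    apply Subtype.ext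
    funext g
    obtain ⟨i, d, h, rfl⟩ := hsys.cover g
    rw [indRes_invariant_apply A a, coind_apply_mul, ha i, map_zero]
    rfl
  have ha0 : a = 0 := Subtype.ext hzero
  have h3 : (H0Iso (indRes α A)).hom c = (H0Iso (indRes α A)).hom 0 := by
    rw [map_zero]
    exact ha0
  exact (ConcreteCategory.bijective_of_isIso (H0Iso (indRes α A)).hom).1 h3

section Surj

variable (b : ∀ i, (Rep.res (κ i) A).ρ.invariants)

/-- Independence of the decomposition `g = d * x i * α h`. -/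
lemma rho_eq_of_decomp {A : Rep k D} (hsys : IsMackeySystem α D Hs j κ x)
    (b : ∀ i, (Rep.res (κ i) A).ρ.invariants) {i i' : ι} {d d' : D} {h h' : H}
    (e : (d : G) * x i * α h = (d' : G) * x i' * α h') :
    A.ρ d ((b i : (Rep.res (κ i) A).V) : A.V) = A.ρ d' ((b i' : (Rep.res (κ i') A).V) : A.V) := by
  have hi : i = i' := by
    apply hsys.disj i i' (d⁻¹ * d') (h' * h⁻¹)
    have : x i = (d : G)⁻¹ * ((d : G) * x i * α h) * (α h)⁻¹ := by group
    rw [this, e]
    simp only [Subgroup.coe_mul, Subgroup.coe_inv, map_mul, map_inv]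
    group
  subst hi
  -- `x i * α (h * h'⁻¹) * (x i)⁻¹ = d⁻¹ * d'`
  have hconj : x i * α (h * h'⁻¹) * (x i)⁻¹ = ((d⁻¹ * d' : D) : G) := by
    have : x i * α h = (d : G)⁻¹ * ((d : G) * x i * α h) := by group
    simp only [map_mul, map_inv, Subgroup.coe_mul, Subgroup.coe_inv]
    calc x i * (α h * (α h')⁻¹) * (x i)⁻¹ = (x i * α h) * (α h')⁻¹ * (x i)⁻¹ := by group
      _ = (d : G)⁻¹ * ((d' : G) * x i * α h') * (α h')⁻¹ * (x i)⁻¹ := by rw [this, e]
      _ = (d : G)⁻¹ * (d' : G) := by group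
  obtain ⟨h'', hh''⟩ := hsys.full i (h * h'⁻¹) (by rw [hconj]; exact (d⁻¹ * d').2)
  have hκ : κ i h'' = d⁻¹ * d' := by
    apply Subtype.ext
    have h1 := hsys.comm i h''
    rw [hh''] at h1
    have h2 : ((κ i h'' : D) : G) = x i * α (h * h'⁻¹) * (x i)⁻¹ := by
      rw [h1]
      group
    rw [h2, hconj]
  have hinv : A.ρ (κ i h'') ((b i : (Rep.res (κ i) A).V) : A.V) = (b i : (Rep.res (κ i) A).V) :=
    (b i).2 h''
  rw [hκ] at hinv
  have h3 : A.ρ d (A.ρ (d⁻¹ * d') ((b i : (Rep.res (κ i) A).V) : A.V)) =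
      A.ρ d' ((b i : (Rep.res (κ i) A).V) : A.V) := by
    rw [← Module.End.mul_apply, ← map_mul]
    congr 2
    group
  rw [← h3, hinv]

/-- The invariant function attached to a family of invariants `b i`. -/
noncomputable def glueFun {A : Rep k D} (hsys : IsMackeySystem α D Hs j κ x)
    (b : ∀ i, (Rep.res (κ i) A).ρ.invariants) (g : G) : A.V :=
  A.ρ (Classical.choose (Classical.choose_spec (hsys.cover g)))
    (b (Classical.choose (hsys.cover g))).1

lemma glueFun_eq {A : Rep k D} (hsys : IsMackeySystem α D Hs j κ x)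
    (b : ∀ i, (Rep.res (κ i) A).ρ.invariants) (i : ι) (d : D) (h : H) :
    glueFun hsys b ((d : G) * x i * α h) = A.ρ d ((b i : (Rep.res (κ i) A).V) : A.V) := by
  unfold glueFun
  obtain ⟨h', hh'⟩ := Classical.choose_spec (Classical.choose_spec
    (hsys.cover ((d : G) * x i * α h)))
  exact (rho_eq_of_decomp hsys b hh').symm

/-- The element of `(Res_α Coind_D^G A)^H` attached to a family of invariants. -/
noncomputable def glueInv {A : Rep k D} (hsys : IsMackeySystem α D Hs j κ x)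
    (b : ∀ i, (Rep.res (κ i) A).ρ.invariants) : (indRes α A).ρ.invariants :=
  ⟨⟨glueFun hsys b, fun d₀ g => by
      obtain ⟨i, d, h, rfl⟩ := hsys.cover g
      have e : (D.subtype d₀ : G) * ((d : G) * x i * α h) = ((d₀ * d : D) : G) * x i * α h := by
        simp only [Subgroup.coe_mul, Subgroup.subtype_apply]
        group
      rw [e, glueFun_eq, glueFun_eq, map_mul]
      rfl⟩, fun h₀ => by
      apply Subtype.ext
      funext g
      obtain ⟨i, d, h, rfl⟩ := hsys.cover g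
      change glueFun hsys b ((d : G) * x i * α h * α h₀) = glueFun hsys b ((d : G) * x i * α h)
      have e : (d : G) * x i * α h * α h₀ = (d : G) * x i * α (h * h₀) := by
        rw [map_mul]
        group
      rw [e, glueFun_eq, glueFun_eq]⟩

lemma glueInv_apply {A : Rep k D} (hsys : IsMackeySystem α D Hs j κ x)
    (b : ∀ i, (Rep.res (κ i) A).ρ.invariants) (i : ι) :
    (glueInv hsys b : (indRes α A).V).1 (x i) = ((b i : (Rep.res (κ i) A).V) : A.V) := by
  change glueFun hsys b (x i) = _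
  have e : x i = ((1 : D) : G) * x i * α 1 := by simp
  rw [e, glueFun_eq, map_one]
  rfl

include hsys in
lemma mackeyPi_zero_surjective : Function.Surjective (mackeyPi hsys A 0) := by
  intro y
  let b : ∀ i, (Rep.res (κ i) A).ρ.invariants := fun i => (H0Iso (Rep.res (κ i) A)).hom (y i)
  refine ⟨(H0Iso (indRes α A)).inv (glueInv hsys b), ?_⟩
  funext i
  apply (ConcreteCategory.bijective_of_isIso (H0Iso (Rep.res (κ i) A)).hom).1
  apply Subtype.ext
  rw [mackeyPi_apply]
  have h1 := H0Iso_mackeyComp hsys A i ((H0Iso (indRes α A)).inv (glueInv hsys b))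
  refine h1.trans ?_
  have h2 : (H0Iso (indRes α A)).hom ((H0Iso (indRes α A)).inv (glueInv hsys b)) =
      glueInv hsys b := Iso.inv_hom_id_apply (H0Iso (indRes α A)) _
  rw [h2, glueInv_apply]

include hsys in
theorem mackeyPi_zero_bijective : Function.Bijective (mackeyPi hsys A 0) :=
  ⟨mackeyPi_zero_injective hsys A, mackeyPi_zero_surjective hsys A⟩

end Surj

end Zero

end Fermat.Agent.S55.Mackey

end
-- ===== PACK-END S55/Mackey/Zero.lean

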