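import Mathlib
import Fermat.Prelude.Def_ExtEndgame_ProductionDatum
import Fermat.Prelude.Def_GroupCohomology_ContinuousH1
import Fermat.Agent.Pack.S56.E11L1
import Fermat.Agent.Pack.S56.E11L0
import Fermat.Agent.Pack.S56.E9L3
import Fermat.Agent.Pack.S56.E1L0
import Fermat.Agent.Pack.S56.E11L3
import Fermat.Agent.Pack.S56.E3L3
import Fermat.Agent.Pack.S56.E11L2
import Fermat.Agent.Pack.S56.E7L0
import Fermat.Agent.Pack.S56.E5L2
import Fermat.Agent.Pack.S56.E12L3
import Fermat.Agent.Pack.S56.E12L1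
import Fermat.Agent.Pack.S56.E3L2
import Fermat.Agent.Pack.S56.E6L3
import Fermat.Agent.Pack.S56.E0L0

-- ===== PACK-BEGIN S56/FL/RamGlue2.lean
section



/-!
# Row S56 — W-FLAT-SS, piece RAMCOUNT: second glue (helper426).  Sorry-free.

`RCDepStatement` merges `RCWild + RCBreak + RCLine` into one target (the shape delivered by the
abstract count `H846.FLCntStatement` once its hypotheses are instantiated from an `RCDatum`):

`ramCount_of_dep : RCTameStatement → RCDepStatement → RamCountStatement`.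
-/

set_option autoImplicit false

open Polynomial IsLocalRing

noncomputable section

namespace Fermat.Agent.S56.FL

/-- (DEP) `c₁, c₂` are linearly dependent on `ker ρ` (given `p ∤ [Γ : ker ρ]`). -/
def RCDepStatement : Prop :=
  ∀ d : RCDatum, ¬ d.p ∣ d.ρ.ker.index → d.DepOnKer

/-- The three-step form of the count gives the one-step form. -/
theorem rcDep_of (hW : RCWildStatement) (hB : RCBreakStatement) (hL : RCLineStatement) :
    RCDepStatement :=
  fun d hd => hL d hd (hW d hd) (hB d hd (hW d hd))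

/-- Glue for the ramification count, one-step form. -/
theorem ramCount_of_dep (hT : RCTameStatement) (hDep : RCDepStatement) : RamCountStatement := by
  intro p hpf hp2 A B _ _ _ _ _ _ _ _ _ _ Γ _ _ _ _ _ _ hA hκ e he hD k _ _ hchar V _ _ _ hV ρ
    hirr hsplit ζ hζ hdet c₁ c₂ hc₁ hc₂ htr₁ htr₂ hfaith
  let d : RCDatum :=
    { p := p, A := A, B := B, Γ := Γ, k := k, V := V, hp := hpf.out, hp2 := hp2, hA := hA,
      hκ := hκ, e := e, he := he, hD := hD, hchar := hchar, hV := hV, ρ := ρ, hirr := hirr,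
      hsplit := hsplit, ζ := ζ, hζ := hζ, hdet := hdet, c₁ := c₁, c₂ := c₂, hc₁ := hc₁,
      hc₂ := hc₂, htr₁ := htr₁, htr₂ := htr₂, hfaith := hfaith }
  have hT' : ¬ p ∣ ρ.ker.index := hT d
  obtain ⟨a₁, a₂, ha, hker⟩ := hDep d hT'
  have := hchar
  obtain ⟨m, hm⟩ := rcInfl p Γ k V ρ hT' (fun σ => a₁ • c₁ σ + a₂ • c₂ σ)
    (by
      intro σ τ
      simp only [hc₁, hc₂, smul_add, mul_add, add_mul, mul_smul_comm, smul_mul_assoc]
      abel)
    (fun σ hσ => hker σ hσ)
  exact ⟨a₁, a₂, ha, m, hm⟩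

end Fermat.Agent.S56.FL

end

end
-- ===== PACK-END S56/FL/RamGlue2.lean

-- ===== PACK-BEGIN S56/H66/VG0.lean
section




/-!
# S56 / FLAT-O, leaf FO-VG (helper66): valuation inputs, part 0

`vg0` : an element of `ℚ̄` fixed by the inertia group of `A | p` has `A`-valuation in `v(p)^ℤ`
("the inertia field is unramified").
-/

set_option autoImplicit false
set_option linter.style.haveILetI false

open NumberField IsDedekindDomain
open scoped Pointwise

namespace Fermat.Agent.S56.H66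

local notation "Qb" => AlgebraicClosure ℚ
local notation "GQ" => (AlgebraicClosure ℚ ≃ₐ[ℚ] AlgebraicClosure ℚ)

/-- A finite Galois extension of `ℚ` inside `ℚ̄` containing a given element. -/
theorem exists_finite_galois_mem (a : Qb) :
    ∃ F : IntermediateField ℚ Qb, FiniteDimensional ℚ F ∧ IsGalois ℚ F ∧ a ∈ F := by
  have halg : IsAlgebraic ℚ a := (AlgebraicClosure.isAlgebraic ℚ).isAlgebraic a
  haveI : FiniteDimensional ℚ (IntermediateField.adjoin ℚ {a}) :=
    IntermediateField.adjoin.finiteDimensional halg.isIntegral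
  haveI : Algebra.IsAlgebraic ℚ Qb := AlgebraicClosure.isAlgebraic ℚ
  haveI : IsAlgClosure ℚ Qb := ⟨inferInstance, inferInstance⟩
  haveI : Normal ℚ Qb := IsAlgClosure.normal ℚ Qb
  refine ⟨IntermediateField.normalClosure ℚ (IntermediateField.adjoin ℚ {a}) Qb,
    inferInstance, ?_, ?_⟩
  · haveI : Normal ℚ (IntermediateField.normalClosure ℚ (IntermediateField.adjoin ℚ {a}) Qb) :=
      normalClosure.normal ℚ (IntermediateField.adjoin ℚ {a}) Qb
    exact ⟨⟩
  · exact (IntermediateField.le_normalClosure _) (IntermediateField.mem_adjoin_simple_self ℚ a)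

/-- Finite-level core of `vg0`: `F/ℚ` finite Galois inside `ℚ̄`, `x ∈ F` fixed by the inertia
group (in `Gal(F/ℚ)`) of the prime of `𝓞 F` below `A`.  Then `v_A(x) ∈ v_A(p)^ℤ`. -/
theorem vg0_finite (p : ℕ) (hp : p.Prime) (A : ValuationSubring Qb) (hA : A.LiesOverPrime p)
    (F : IntermediateField ℚ Qb) [FiniteDimensional ℚ F] [IsGalois ℚ F]
    (x : F) (hx0 : x ≠ 0)
    (hfix : ∀ τ ∈ (Fermat.Agent.S55.Bridge.H594.primeBelowF F A).inertia (F ≃ₐ[ℚ] F), τ x = x) :
    ∃ n : ℤ, A.valuation (x : Qb) = A.valuation (p : Qb) ^ n := by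
  classical
  haveI : NumberField F := Fermat.Agent.S55.Bridge.H594.numberField_of_finite F
  set P : Ideal (𝓞 F) := Fermat.Agent.S55.Bridge.H594.primeBelowF F A with hP
  haveI hPprime : P.IsPrime := Fermat.Agent.S55.Bridge.H594.primeBelowF_isPrime F A
  have hpP : ((p : ℕ) : 𝓞 F) ∈ P := Fermat.Agent.S55.Bridge.H594.natCast_mem_primeBelowF F A hA
  have hPne : P ≠ ⊥ := by
    intro h
    rw [h, Ideal.mem_bot] at hpP
    exact (by exact_mod_cast hp.ne_zero : ((p : ℕ) : 𝓞 F) ≠ 0) hpP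
  haveI hPmax : P.IsMaximal := Ring.DimensionLEOne.maximalOfPrime hPne hPprime
  -- the inertia field
  let K : IntermediateField ℚ F := IntermediateField.fixedField (P.inertia (F ≃ₐ[ℚ] F))
  have hxK : x ∈ K := by
    rw [IntermediateField.mem_fixedField_iff]
    intro τ hτ
    exact hfix τ hτ
  have he : (P.under (𝓞 K)).ramificationIdx ℤ = 1 := by
    apply Fermat.Agent.S17.H140.ramificationIdx_under_eq_one F K P
    intro σ hσ a ha
    exact (IntermediateField.mem_fixedField_iff _ a).mp ha σ hσ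
  -- `K` as a number field with an algebra map to `ℚ̄`
  letI algK : Algebra K Qb := ((algebraMap F Qb).comp (algebraMap K F)).toAlgebra
  have halgK : ∀ y : K, algebraMap K Qb y = (((y : F)) : Qb) := fun y => rfl
  set Q : Ideal (𝓞 K) := P.under (𝓞 K) with hQ
  haveI hQprime : Q.IsPrime := Ideal.IsPrime.under (𝓞 K) P
  have hmemQ : ∀ y : 𝓞 K, y ∈ Q ↔ (((y : K) : F) : Qb) ∈ A.nonunits := by
    intro y
    rw [hQ, Ideal.under_def, Ideal.mem_comap, hP, Fermat.Agent.S55.Bridge.H594.mem_primeBelowF]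
    rfl
  have hpQ : ((p : ℕ) : 𝓞 K) ∈ Q := by
    rw [hmemQ]
    have hA' : (p : Qb) ∈ A.nonunits := hA
    simpa using hA'
  have hQne : Q ≠ ⊥ := by
    intro h
    rw [h, Ideal.mem_bot] at hpQ
    exact (by exact_mod_cast hp.ne_zero : ((p : ℕ) : 𝓞 K) ≠ 0) hpQ
  let w : HeightOneSpectrum (𝓞 K) := ⟨Q, hQprime, hQne⟩
  have hw : w.asIdeal = Fermat.Agent.S14.H937.primeOf K A := by
    ext y
    rw [Fermat.Agent.S14.H937.mem_primeOf]
    exact hmemQ y
  -- the prime of `ℤ` below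
  set q : Ideal ℤ := Q.under ℤ with hq
  haveI hqprime : q.IsPrime := Ideal.IsPrime.under ℤ Q
  have hpq : (p : ℤ) ∈ q := by
    rw [hq, Ideal.under_def, Ideal.mem_comap]
    simpa using hpQ
  have hqspan : q = Ideal.span {(p : ℤ)} := by
    have hmax : (Ideal.span {(p : ℤ)}).IsMaximal :=
      PrincipalIdealRing.isMaximal_of_irreducible
        (Nat.prime_iff_prime_int.mp hp).irreducible
    have hle : Ideal.span {(p : ℤ)} ≤ q := (Ideal.span_singleton_le_iff_mem q).mpr hpq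
    exact (hmax.eq_of_le hqprime.ne_top hle).symm
  have hqne : q ≠ ⊥ := by
    rw [hqspan]
    simp [hp.ne_zero]
  let v : HeightOneSpectrum ℤ := ⟨q, hqprime, hqne⟩
  haveI hlies : w.asIdeal.LiesOver v.asIdeal := ⟨rfl⟩
  have he' : v.asIdeal.ramificationIdx' w.asIdeal = 1 := by
    rw [Ideal.ramificationIdx'_eq_ramificationIdx v.asIdeal w.asIdeal hqne]
    exact he
  have hvp : v.valuation ℚ (algebraMap ℤ ℚ (p : ℤ)) = WithZero.exp (-1 : ℤ) := by
    rw [HeightOneSpectrum.valuation_of_algebraMap]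
    exact v.intValuation_singleton (by exact_mod_cast hp.ne_zero) hqspan
  have hwp : w.valuation K ((p : ℕ) : K) = WithZero.exp (-1 : ℤ) := by
    have h1 := HeightOneSpectrum.valuation_liesOver K v w (algebraMap ℤ ℚ (p : ℤ))
    rw [he', pow_one, hvp] at h1
    rw [h1]
    congr 1
  -- the element
  let xK : K := ⟨x, hxK⟩
  have hxK0 : xK ≠ 0 := by
    intro h
    apply hx0
    have := congrArg (fun y : K => (y : F)) h
    simpa [xK] using this
  have hwx : w.valuation K xK ≠ 0 := (Valuation.ne_zero_iff _).mpr hxK0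
  obtain ⟨m, hm⟩ : ∃ m : ℤ, w.valuation K xK = WithZero.exp m :=
    ⟨WithZero.log _, (WithZero.exp_log hwx).symm⟩
  refine ⟨-m, ?_⟩
  have hpK0 : ((p : ℕ) : K) ≠ 0 := by exact_mod_cast hp.ne_zero
  have h2 : w.valuation K (xK / ((p : ℕ) : K) ^ (-m)) = 1 := by
    rw [map_div₀, map_zpow₀, hwp, hm, ← WithZero.exp_zsmul]
    simp
  have h3 := Fermat.Agent.S14.H937.valuation_eq_one_of K A w hw _ h2
  have h4 : algebraMap K Qb (xK / ((p : ℕ) : K) ^ (-m)) = (x : Qb) / (p : Qb) ^ (-m) := by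
    rw [map_div₀, map_zpow₀, map_natCast]
    rfl
  rw [h4, map_div₀, map_zpow₀] at h3
  have hpv : A.valuation (p : Qb) ^ (-m) ≠ 0 := by
    apply zpow_ne_zero
    rw [Valuation.ne_zero_iff]
    exact_mod_cast hp.ne_zero
  exact (div_eq_one_iff_eq hpv).mp h3

/-- **(VG0)** An element of `ℚ̄` fixed by the inertia group of `A | p` has `A`-valuation in
`v(p)^ℤ` (the inertia field is unramified). -/
theorem vg0 (p : ℕ) (hp : p.Prime) (A : ValuationSubring Qb) (hA : A.LiesOverPrime p)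
    (a : Qb) (ha : a ≠ 0) (hfix : ∀ σ ∈ A.inertiaSubgroupIn ℚ, σ a = a) :
    ∃ n : ℤ, A.valuation a = A.valuation (p : Qb) ^ n := by
  obtain ⟨F, hFfin, hFgal, haF⟩ := exists_finite_galois_mem a
  haveI := hFfin
  haveI := hFgal
  have h := vg0_finite p hp A hA F ⟨a, haF⟩ (fun h0 => ha (congrArg Subtype.val h0)) ?_
  · exact h
  · intro τ hτ
    rw [← Fermat.Agent.S55.Bridge.H594.map_inertiaSubgroupIn_eq F A hp hA] at hτ
    obtain ⟨σ, hσ, rfl⟩ := hτ
    apply Subtype.ext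
    rw [Fermat.Agent.S55.Bridge.H594.restrictNormalHom_apply]
    exact hfix σ hσ

/-- (VG0), integral form: a non-unit of `A` fixed by inertia is divisible by `p` in `A`:
`v(a) ≤ v(p)`. -/
theorem vg0_le (p : ℕ) (hp : p.Prime) (A : ValuationSubring Qb) (hA : A.LiesOverPrime p)
    (a : Qb) (ha : a ∈ A.nonunits) (hfix : ∀ σ ∈ A.inertiaSubgroupIn ℚ, σ a = a) :
    A.valuation a ≤ A.valuation (p : Qb) := by
  rcases eq_or_ne a 0 with rfl | ha0
  · simp
  obtain ⟨n, hn⟩ := vg0 p hp A hA a ha0 hfix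
  have hpv : A.valuation (p : Qb) < 1 := (A.mem_nonunits_iff).mp hA
  have hp0 : A.valuation (p : Qb) ≠ 0 := by
    rw [Valuation.ne_zero_iff]
    exact_mod_cast hp.ne_zero
  have hav : A.valuation a < 1 := (A.mem_nonunits_iff).mp ha
  rw [hn] at hav ⊢
  -- `v(p)^n < 1` with `v(p) < 1` forces `n ≥ 1`
  have hn1 : 1 ≤ n := by
    by_contra hcon
    push Not at hcon
    have hn0 : n ≤ 0 := by omega
    have : 1 ≤ A.valuation (p : Qb) ^ n := by
      obtain ⟨k, rfl⟩ : ∃ k : ℕ, n = -(k : ℤ) := ⟨(-n).toNat, by omega⟩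
      rw [zpow_neg, zpow_natCast]
      exact (one_le_inv₀ (pow_pos (zero_lt_iff.mpr hp0) k)).mpr (pow_le_one₀ zero_le hpv.le)
    exact absurd hav (not_lt.mpr this)
  obtain ⟨k, rfl⟩ : ∃ k : ℕ, n = (k : ℤ) + 1 := ⟨(n - 1).toNat, by omega⟩
  rw [zpow_add_one₀ hp0, zpow_natCast]
  calc A.valuation (p : Qb) ^ k * A.valuation (p : Qb)
      ≤ 1 * A.valuation (p : Qb) := by
        gcongr
        exact pow_le_one₀ zero_le hpv.le
    _ = A.valuation (p : Qb) := one_mul _

end Fermat.Agent.S56.H66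

end
-- ===== PACK-END S56/H66/VG0.lean

-- ===== PACK-BEGIN S56/H554/LocTWCup.lean
section




/-!
# S56 / leaf LOC-TW (helper554): the tame local pairing at a Taylor–Wiles prime is non-degenerate

`q ≡ 1 mod p` a prime, `P | q`, `ρ̄` unramified at `P`, `φ` a Frobenius element at `P`,
`τ ∈ I_P`.  `x` an (untwisted) ad-cocycle, `y` a twisted cocycle vanishing on `I_P`.

* `fixes_mu_of_mem_inertia`, `fixes_mu_of_isFrobeniusAt` : `I_P` and `φ` fix `μ_p` pointwise.
* `trace_mul_eq_zero_of_cup_coboundary` : **NONDEG.** if the cup product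
  `(σ, σ') ↦ tr (x σ · σ(y σ'))` is a coboundary `dλ` on the decomposition group `D_P`
  (`λ` of finite level), then `tr (x τ · y φ) = 0`.
  (Heisenberg argument: `λ` is additive on `I_P`, `φ τ φ⁻¹ = ω τ^q` with `ω` wild.)

So for ANY injective linear `inv_q` on `H²(D_P, k(1))` the pairing
`(x, y) ↦ inv_q (x ∪ y)` on `(ramified part of x) × (y mod coboundaries)` is non-degenerate as soon
as `tr (x τ · y φ) ≠ 0`.
-/

set_option autoImplicit false

open scoped Pointwise

namespace Fermat.Agent.S56.H554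

open Fermat.Agent.A2.H708 Fermat.Agent.S56 Fermat.Agent.S56.H716

attribute [local instance] isAlgebraic_Qb

variable {P : ValuationSubring Qb} {q p : ℕ}

/-- The inertia group at `P | q`, `q ≠ p`, fixes the `p`-th roots of unity. -/
theorem fixes_mu_of_mem_inertia (hq : q.Prime) (hP : P.LiesOverPrime q) (hp : p.Prime)
    (hpq : p ≠ q) {τ : GQ} (hτ : τ ∈ P.inertiaSubgroupIn ℚ) : IsCycExp p τ 1 := by
  intro μ hμ
  rw [pow_one]
  by_contra hne
  have hpv : P.valuation ((p : ℕ) : Qb) = 1 := valuation_prime_eq_one hq hP hp hpq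
  have hτμ : (τ μ) ^ p = 1 := by rw [← map_pow, hμ, map_one]
  have h1 := Fermat.Agent.S55.Bridge.val_sub_roots_eq_one (A := P) hp.ne_zero hpv hτμ hμ hne
  have hμA : P.valuation μ ≤ 1 := by
    rw [P.valuation_le_one_iff]
    exact Fermat.Agent.S54.isIntegral_mem_valuationSubring P
      (IsIntegral.of_pow hp.pos (hμ ▸ isIntegral_one))
  have h2 := Fermat.Agent.S55.Bridge.inertia_val_sub_lt_one P hτ μ hμA
  exact absurd h1 h2.ne

/-- A Frobenius element at `P | q` with `q ≡ 1 mod p` fixes the `p`-th roots of unity. -/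
theorem fixes_mu_of_isFrobeniusAt (hq : q.Prime) (hP : P.LiesOverPrime q) (hp : p.Prime)
    (hpq : p ≠ q) (hq1 : p ∣ q - 1) {φ : GQ} (hφ : P.IsFrobeniusAt φ q) : IsCycExp p φ 1 := by
  intro μ hμ
  rw [pow_one]
  obtain ⟨-, hφF⟩ := (Fermat.Agent.Lib.Cheb.H476.isFrobeniusAt_iff P φ q).mp hφ
  have hμq : μ ^ q = μ := by
    obtain ⟨m, hm⟩ := hq1
    have h2 : q = p * m + 1 := by
      have := Nat.sub_add_cancel hq.one_le
      omega
    rw [h2, pow_succ, pow_mul, hμ, one_pow, one_mul]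
  by_contra hne
  have hpv : P.valuation ((p : ℕ) : Qb) = 1 := valuation_prime_eq_one hq hP hp hpq
  have hφμ : (φ μ) ^ p = 1 := by rw [← map_pow, hμ, map_one]
  have h1 := Fermat.Agent.S55.Bridge.val_sub_roots_eq_one (A := P) hp.ne_zero hpv hφμ hμ hne
  have hμA : μ ∈ P := Fermat.Agent.S54.isIntegral_mem_valuationSubring P
      (IsIntegral.of_pow hp.pos (hμ ▸ isIntegral_one))
  have h2 := hφF μ hμA
  rw [hμq, P.mem_nonunits_iff] at h2
  exact absurd h1 h2.ne

variable {k : Type} [Field k] {ρbar : ResidualGaloisRep k}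

theorem twAd_one (σ : GQ) (m : Module.End k ρbar.V) :
    twAd ρbar σ 1 m = ρbar.ρ σ * m * ρbar.ρ σ⁻¹ := by
  unfold twAd
  rw [Nat.cast_one, one_smul]

/-- **NONDEG at a Taylor–Wiles prime.**  If the cup product of the ad-cocycle `x` and the
twisted cocycle `y` (unramified at `P`) is the coboundary of a cochain `lam` of finite level on
the decomposition group `D_P`, then `tr (x τ · y φ) = 0` for every `τ ∈ I_P` and every Frobenius
element `φ` at `P`. -/
theorem trace_mul_eq_zero_of_cup_coboundary [CharP k p] (hq : q.Prime)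
    (hP : P.LiesOverPrime q) (hp : p.Prime) (hpq : p ≠ q) (hq1 : p ∣ q - 1)
    {L : IntermediateField ℚ Qb} [FiniteDimensional ℚ L] (hL : ∀ σ : GQ, ∀ x ∈ L, σ x ∈ L)
    (hur : ∀ σ ∈ P.inertiaSubgroupIn ℚ, ρbar.ρ σ = 1)
    {x : GQ → Module.End k ρbar.V} (hx : IsCoc ρbar L x)
    {y : GQ → Module.End k ρbar.V}
    (hy : ∀ σ τ a, IsCycExp p σ a → y (σ * τ) = y σ + twAd ρbar σ a (y τ))
    (hyI : ∀ τ ∈ P.inertiaSubgroupIn ℚ, y τ = 0)
    {lam : GQ → k}
    (hlamL : ∀ τ ∈ P.inertiaSubgroupIn ℚ, (∀ z ∈ L, τ z = z) → lam τ = lam 1)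
    (hcob : ∀ σ ∈ P.decompositionSubgroup ℚ, ∀ σ' ∈ P.decompositionSubgroup ℚ,
      ∀ a, IsCycExp p σ a →
        LinearMap.trace k ρbar.V (x σ * twAd ρbar σ a (y σ')) =
          (a : k) * lam σ' - lam (σ * σ') + lam σ)
    {φ τ : GQ} (hφ : P.IsFrobeniusAt φ q) (hτ : τ ∈ P.inertiaSubgroupIn ℚ) :
    LinearMap.trace k ρbar.V (x τ * y φ) = 0 := by
  have hφD : φ ∈ P.decompositionSubgroup ℚ :=
    ((Fermat.Agent.Lib.Cheb.H476.isFrobeniusAt_iff P φ q).mp hφ).1
  have hID : ∀ σ ∈ P.inertiaSubgroupIn ℚ, σ ∈ P.decompositionSubgroup ℚ := fun σ hσ =>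
    mem_decomposition_of_mem_inertiaIn P hσ
  have hφ1 : IsCycExp p φ 1 := fixes_mu_of_isFrobeniusAt hq hP hp hpq hq1 hφ
  have hI1 : ∀ σ ∈ P.inertiaSubgroupIn ℚ, IsCycExp p σ 1 := fun σ hσ =>
    fixes_mu_of_mem_inertia hq hP hp hpq hσ
  -- the coboundary relation for elements fixing `μ_p`
  have hrel : ∀ σ ∈ P.decompositionSubgroup ℚ, ∀ σ' ∈ P.decompositionSubgroup ℚ,
      IsCycExp p σ 1 → lam (σ * σ') = lam σ + lam σ' -
        LinearMap.trace k ρbar.V (x σ * (ρbar.ρ σ * y σ' * ρbar.ρ σ⁻¹)) := by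
    intro σ hσ σ' hσ' h1
    have := hcob σ hσ σ' hσ' 1 h1
    rw [twAd_one, Nat.cast_one, one_mul] at this
    rw [this]
    ring
  have hy1 : y 1 = 0 := by
    have h := hy 1 1 1 (fun μ _ => by rw [pow_one]; rfl)
    rw [mul_one, twAd_one, map_one, inv_one, map_one, one_mul, mul_one] at h
    exact left_eq_add.mp h
  -- `lam 1 = 0`
  have hlam1 : lam 1 = 0 := by
    have h := hrel 1 (one_mem _) 1 (one_mem _) (fun μ _ => by rw [pow_one]; rfl)
    rw [mul_one, hx.map_one, zero_mul, map_zero, sub_zero] at h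
    exact left_eq_add.mp h
  -- `lam` is additive on inertia
  have hadd : ∀ σ ∈ P.inertiaSubgroupIn ℚ, ∀ σ' ∈ P.inertiaSubgroupIn ℚ,
      lam (σ * σ') = lam σ + lam σ' := by
    intro σ hσ σ' hσ'
    rw [hrel σ (hID σ hσ) σ' (hID σ' hσ') (hI1 σ hσ), hyI σ' hσ', mul_zero, zero_mul, mul_zero,
      map_zero, sub_zero]
  let lamHom : ↥(P.inertiaSubgroupIn ℚ) →* Multiplicative k :=
    { toFun := fun σ => Multiplicative.ofAdd (lam σ)
      map_one' := by
        show Multiplicative.ofAdd (lam 1) = 1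
        rw [hlam1]; rfl
      map_mul' := fun σ σ' => by
        show Multiplicative.ofAdd (lam (σ * σ')) = _
        rw [hadd σ σ.2 σ' σ'.2]; rfl }
  have hlamHom : ∀ σ : ↥(P.inertiaSubgroupIn ℚ), lamHom σ = Multiplicative.ofAdd (lam σ) :=
    fun _ => rfl
  have hlampow : ∀ σ ∈ P.inertiaSubgroupIn ℚ, ∀ n : ℕ, lam (σ ^ n) = n • lam σ := by
    intro σ hσ n
    have h := map_pow lamHom ⟨σ, hσ⟩ n
    have h1 : lamHom (⟨σ, hσ⟩ ^ n) = Multiplicative.ofAdd (lam (σ ^ n)) := rfl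
    rw [h1, hlamHom] at h
    exact Multiplicative.ofAdd.injective h
  have hcast : ∀ (n : ℕ) (z : k), n • z = (n : k) * z := fun n z => nsmul_eq_mul n z
  have hqk : ((q : ℕ) : k) = 1 := by
    have h1 : ((q - 1 : ℕ) : k) = 0 := (CharP.cast_eq_zero_iff k p _).mpr hq1
    have h2 : q = (q - 1) + 1 := (Nat.sub_add_cancel hq.one_le).symm
    rw [h2, Nat.cast_add, h1, zero_add, Nat.cast_one]
  -- wild elements are killed by `lam`
  have hwildlam : ∀ ω ∈ P.inertiaSubgroupIn ℚ, IsWildOn P ω (L : Set Qb) → lam ω = 0 := by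
    intro ω hω hwild
    have h := map_eq_one_of_wild_subgroup (A := P) (P.inertiaSubgroupIn ℚ) lamHom L
      (fun σ hσ => by
        rw [hlamHom, hlamL σ σ.2 hσ, hlam1]
        rfl)
      hω hω (hL ω) hwild p hp (valuation_prime_eq_one hq hP hp hpq) 1
      (by
        rw [pow_one, ← map_pow]
        have h1 : lamHom (⟨ω, hω⟩ ^ p) = Multiplicative.ofAdd (lam (ω ^ p)) := rfl
        rw [h1, hlampow ω hω, hcast, CharP.cast_eq_zero, zero_mul]
        rfl)
    rw [hlamHom] at h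
    exact Multiplicative.ofAdd.injective h
  -- first computation of `lam (φ τ φ⁻¹)`
  obtain ⟨ω, hω, hwild, hconj⟩ := isWildOn_conj_frobenius hφ hτ (L : Set Qb)
  have hA : lam (φ * τ * φ⁻¹) = lam τ := by
    rw [hconj, hadd ω hω _ (pow_mem hτ q), hwildlam ω hω hwild, zero_add, hlampow τ hτ, hcast,
      hqk, one_mul]
  -- second computation
  have hρτ : ρbar.ρ τ = 1 := hur τ hτ
  have hφτD : φ * τ ∈ P.decompositionSubgroup ℚ := mul_mem hφD (hID τ hτ)
  have hφinvD : φ⁻¹ ∈ P.decompositionSubgroup ℚ := inv_mem hφD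
  have hφτ1 : IsCycExp p (φ * τ) 1 := by
    intro μ hμ
    have h1 := hI1 τ hτ μ hμ
    have h2 := hφ1 μ hμ
    rw [pow_one] at h1 h2 ⊢
    show φ (τ μ) = μ
    rw [h1, h2]
  have hYdef : ρbar.ρ φ * y φ⁻¹ * ρbar.ρ φ⁻¹ = -y φ := by
    have h := hy φ φ⁻¹ 1 hφ1
    rw [mul_inv_cancel, hy1, twAd_one] at h
    exact eq_neg_of_add_eq_zero_right h.symm
  have hρφτ : ρbar.ρ (φ * τ) = ρbar.ρ φ := by rw [map_mul, hρτ, mul_one]
  have hρφτinv : ρbar.ρ (φ * τ)⁻¹ = ρbar.ρ φ⁻¹ := by
    rw [mul_inv_rev, map_mul]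
    have : ρbar.ρ τ⁻¹ = 1 := hur _ (inv_mem hτ)
    rw [this, one_mul]
  have h1 := hrel φ hφD τ (hID τ hτ) hφ1
  rw [hyI τ hτ, mul_zero, zero_mul, mul_zero, map_zero, sub_zero] at h1
  have h2 := hrel (φ * τ) hφτD φ⁻¹ hφinvD hφτ1
  rw [hρφτ, hρφτinv, hYdef, hx.map_mul φ τ] at h2
  have h3 := hrel φ hφD φ⁻¹ hφinvD hφ1
  rw [mul_inv_cancel, hlam1, hYdef] at h3
  have hcomm := hx.commute_frobenius hq hP hp hpq hq1 hL hur hφ hτ
  have hconjx : ρbar.ρ φ * x τ * ρbar.ρ φ⁻¹ = x τ := by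
    rw [hcomm, mul_assoc, rho_mul_inv, mul_one]
  rw [hconjx, h1, add_mul, map_add] at h2
  rw [hA] at h2
  simp only [mul_neg, map_neg] at h2 h3
  linear_combination h3 - h2

end Fermat.Agent.S56.H554

end
-- ===== PACK-END S56/H554/LocTWCup.lean

-- ===== PACK-BEGIN S55/PT/Top.lean
section


/-!
# S55 / PT layer, part 7: top-degree pairings

* `charHom χ N ⊆ Dual N`: functionals `f` with `f (g n) = χ(g) f(n)`, i.e. equivariant maps
  `N → ofChar χ`, i.e. `H⁰(N.dualTwist χ)`;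
* `topPair L χ inv N : H²(N) → Dual (charHom χ N)`, `x ↦ (f ↦ inv (f_* x))`;
* `twTriv χ W`: the vector space `W` with action `g ↦ χ(g) • id` (so `ofChar χ = twTriv χ k`);
* `augTw U N : Ind_U (twTriv χ N) → N`, `single γU n ↦ χ(γ)⁻¹ • γ n`.
-/

set_option autoImplicit false

noncomputable section

namespace Fermat.Agent.S55.PT

open groupCohomology

variable {k : Type} [Field k] {G : Type} [Group G]

/-! ### additivity of push-forwards in the map -/

section PushAdd

variable {A B : Rep.{0, 0, 0} k G} (L : LevelSys G)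

lemma isEquivariant_add {φ ψ : A →ₗ[k] B} (hφ : IsEquivariant φ) (hψ : IsEquivariant ψ) :
    IsEquivariant (φ + ψ) := by
  intro g a
  have hφ' : ∀ (g : G) (a : A), φ (A.ρ g a) = B.ρ g (φ a) := hφ
  have hψ' : ∀ (g : G) (a : A), ψ (A.ρ g a) = B.ρ g (ψ a) := hψ
  simp only [LinearMap.add_apply, hφ', hψ', map_add]

lemma isEquivariant_smul (c : k) {φ : A →ₗ[k] B} (hφ : IsEquivariant φ) :
    IsEquivariant (c • φ) := by
  intro g a
  have hφ' : ∀ (g : G) (a : A), φ (A.ρ g a) = B.ρ g (φ a) := hφ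
  simp only [LinearMap.smul_apply, map_smul, hφ']

lemma isEquivariant_zero : IsEquivariant (0 : A →ₗ[k] B) := by
  intro g a
  simp

lemma pushH2_congr {φ ψ : A →ₗ[k] B} (hφ : IsEquivariant φ) (hψ : IsEquivariant ψ)
    (h : φ = ψ) (x : L.H2 A) : pushH2 φ hφ L x = pushH2 ψ hψ L x := by
  subst h
  rfl

lemma pushH2_add {φ ψ : A →ₗ[k] B} (hφ : IsEquivariant φ) (hψ : IsEquivariant ψ)
    (x : L.H2 A) :
    pushH2 (φ + ψ) (isEquivariant_add hφ hψ) L x = pushH2 φ hφ L x + pushH2 ψ hψ L x := by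
  obtain ⟨c, rfl⟩ := L.H2π_surjective A x
  rw [pushH2_mk, pushH2_mk, pushH2_mk, ← map_add]
  rfl

lemma pushH2_smul (a : k) {φ : A →ₗ[k] B} (hφ : IsEquivariant φ) (x : L.H2 A) :
    pushH2 (a • φ) (isEquivariant_smul a hφ) L x = a • pushH2 φ hφ L x := by
  obtain ⟨c, rfl⟩ := L.H2π_surjective A x
  rw [pushH2_mk, pushH2_mk, ← map_smul]
  rfl

lemma pushH2_comp {C : Rep.{0, 0, 0} k G} {φ : A →ₗ[k] B} {ψ : B →ₗ[k] C}
    (hφ : IsEquivariant φ) (hψ : IsEquivariant ψ) (hψφ : IsEquivariant (ψ ∘ₗ φ)) (x : L.H2 A) :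
    pushH2 (ψ ∘ₗ φ) hψφ L x = pushH2 ψ hψ L (pushH2 φ hφ L x) := by
  obtain ⟨c, rfl⟩ := L.H2π_surjective A x
  rfl

lemma isEquivariant_comp {C : Rep.{0, 0, 0} k G} {φ : A →ₗ[k] B} {ψ : B →ₗ[k] C}
    (hφ : IsEquivariant φ) (hψ : IsEquivariant ψ) : IsEquivariant (ψ ∘ₗ φ) := by
  intro g a
  have hφ' : ∀ (g : G) (a : A), φ (A.ρ g a) = B.ρ g (φ a) := hφ
  have hψ' : ∀ (g : G) (b : B), ψ (B.ρ g b) = C.ρ g (ψ b) := hψ
  simp only [LinearMap.comp_apply, hφ', hψ']

end PushAdd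

/-! ### `χ`-equivariant functionals -/

section CharHom

variable (χ : G →* kˣ) (N : Rep.{0, 0, 0} k G)

/-- functionals `f : N → k` with `f (g n) = χ(g) f(n)` -/
def charHom : Submodule k (Module.Dual k N) where
  carrier := {f | ∀ (g : G) (n : N), f (N.ρ g n) = (χ g : k) * f n}
  add_mem' := by
    intro f f' hf hf' g n
    simp only [LinearMap.add_apply, hf g n, hf' g n, mul_add]
  zero_mem' := by
    intro g n
    simp
  smul_mem' := by
    intro c f hf g n
    simp only [LinearMap.smul_apply, hf g n, smul_eq_mul]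
    ring

lemma mem_charHom_iff (f : Module.Dual k N) :
    f ∈ charHom χ N ↔ ∀ (g : G) (n : N), f (N.ρ g n) = (χ g : k) * f n := Iff.rfl

lemma ofChar_ρ_apply (g : G) (c : k) : (ofChar χ).ρ g c = (χ g : k) * c := by
  show ((Representation.trivial k G k).twist χ) g c = _
  simp [Representation.twist_apply_apply]

/-- an element of `charHom χ N` is an equivariant map `N → ofChar χ` -/
lemma charHom_equivariant {f : Module.Dual k N} (hf : f ∈ charHom χ N) :
    IsEquivariant (A := N) (B := ofChar χ) f := by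
  intro g n
  rw [ofChar_ρ_apply]
  exact hf g n

/-- `H⁰(N.dualTwist χ) = charHom χ N` as subspaces of `Dual N` -/
lemma H0_dualTwist_eq : (LevelSys.H0 (N.dualTwist χ) : Submodule k (Module.Dual k N)) =
    charHom χ N := by
  ext f
  have key : ∀ (g : G) (n : N), (((N.ρ.dual.twist χ) g) f) n = (χ g : k) * f (N.ρ g⁻¹ n) := by
    intro g n
    simp only [Representation.twist_apply_apply, Representation.dual_apply,
      LinearMap.smul_apply, Module.Dual.transpose_apply, LinearMap.comp_apply, smul_eq_mul]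
  have hinv : ∀ (g : G) (n : N), N.ρ g⁻¹ (N.ρ g n) = n := by
    intro g n
    rw [← Module.End.mul_apply, ← map_mul, inv_mul_cancel, map_one, Module.End.one_apply]
  have hinv' : ∀ (g : G) (n : N), N.ρ g (N.ρ g⁻¹ n) = n := by
    intro g n
    rw [← Module.End.mul_apply, ← map_mul, mul_inv_cancel, map_one, Module.End.one_apply]
  constructor
  · intro hf g n
    have h : ((N.ρ.dual.twist χ) g) f = f := hf g
    have h2 : (((N.ρ.dual.twist χ) g) f) (N.ρ g n) = f (N.ρ g n) := by rw [h]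
    rw [key, hinv] at h2
    exact h2.symm
  · intro hf g
    show ((N.ρ.dual.twist χ) g) f = f
    apply LinearMap.ext
    intro n
    rw [key]
    have h := hf g (N.ρ g⁻¹ n)
    rw [hinv'] at h
    exact h.symm

end CharHom

/-! ### the top pairing -/

section TopPair

variable (L : LevelSys G) (χ : G →* kˣ) (inv : L.H2 (ofChar χ) →ₗ[k] k) (N : Rep.{0, 0, 0} k G)

/-- `f_* : H²(N) → H²(ofChar χ)` for `f ∈ charHom χ N` -/
def pushChar (f : ↥(charHom χ N)) : L.H2 N →ₗ[k] L.H2 (ofChar χ) :=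
  pushH2 (A := N) (B := ofChar χ) (f : Module.Dual k N) (charHom_equivariant χ N f.2) L

lemma pushChar_add (f f' : ↥(charHom χ N)) (x : L.H2 N) :
    pushChar L χ N (f + f') x = pushChar L χ N f x + pushChar L χ N f' x :=
  pushH2_add (A := N) (B := ofChar χ) L (charHom_equivariant χ N f.2)
    (charHom_equivariant χ N f'.2) x

lemma pushChar_smul (a : k) (f : ↥(charHom χ N)) (x : L.H2 N) :
    pushChar L χ N (a • f) x = a • pushChar L χ N f x :=
  pushH2_smul (A := N) (B := ofChar χ) L a (charHom_equivariant χ N f.2) x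

/-- The top pairing `H²(N) → Dual (charHom χ N)`, `x ↦ (f ↦ inv (f_* x))`. -/
def topPair : L.H2 N →ₗ[k] Module.Dual k ↥(charHom χ N) :=
  LinearMap.mk₂ k (fun x f => inv (pushChar L χ N f x))
    (fun x x' f => by simp only [map_add])
    (fun a x f => by simp only [map_smul])
    (fun x f f' => by rw [pushChar_add, map_add])
    (fun a x f => by rw [pushChar_smul, map_smul])

@[simp] lemma topPair_apply (x : L.H2 N) (f : ↥(charHom χ N)) :
    topPair L χ inv N x f = inv (pushChar L χ N f x) := rfl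

end TopPair

/-! ### twisted trivial modules and the twisted augmentation -/

section Tw

variable (χ : G →* kˣ)

/-- the vector space `W` with `G` acting through `χ` -/
abbrev twTriv (W : Type) [AddCommGroup W] [Module k W] : Rep.{0, 0, 0} k G :=
  Rep.of ((Representation.trivial k G W).twist χ)

lemma twTriv_ρ_apply (W : Type) [AddCommGroup W] [Module k W] (g : G) (w : W) :
    (twTriv χ W).ρ g w = (χ g : k) • w := by
  show ((Representation.trivial k G W).twist χ) g w = _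
  simp [Representation.twist_apply_apply]

lemma ofChar_eq_twTriv : (ofChar χ : Rep.{0, 0, 0} k G) = twTriv χ k := rfl

variable (U : Subgroup G) [U.Normal] (N : Rep.{0, 0, 0} k G)

omit [U.Normal] in
/-- the function `γU ↦ χ(γ)⁻¹ • ρ(γ)` on `G ⧸ U`, well defined when `U` acts trivially on `N`
and `χ` is trivial on `U` (otherwise junk: we use `Quotient.out`) -/
def twAct (x : G ⧸ U) : N →ₗ[k] N :=
  (((χ (Quotient.out x))⁻¹ : kˣ) : k) • N.ρ (Quotient.out x)

omit [U.Normal] in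
/-- the twisted augmentation `Ind_U (twTriv χ N) → N`, `single γU n ↦ χ(γ)⁻¹ • γ n` -/
def augTw : ((G ⧸ U) →₀ N) →ₗ[k] N :=
  Finsupp.lsum k (fun x : G ⧸ U => twAct χ U N x)

omit [U.Normal] in
@[simp] lemma augTw_single (x : G ⧸ U) (n : N) :
    augTw χ U N (Finsupp.single x n : (G ⧸ U) →₀ N) = twAct χ U N x n := by
  rw [augTw, Finsupp.lsum_single]

omit [U.Normal] in
lemma twAct_mk (hχ : ∀ u ∈ U, χ u = 1) (hN : ∀ u ∈ U, N.ρ u = 1) (g : G) :
    twAct χ U N (g : G ⧸ U) = (((χ g)⁻¹ : kˣ) : k) • N.ρ g := by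
  obtain ⟨u, hu⟩ := QuotientGroup.mk_out_eq_mul U g
  unfold twAct
  rw [hu, map_mul, map_mul, hχ u u.2, hN u u.2, mul_one, mul_one]

omit [U.Normal] in
/-- the twisted augmentation is equivariant (when `U` acts trivially on `N` and `χ|_U = 1`) -/
lemma augTw_equivariant (hχ : ∀ u ∈ U, χ u = 1) (hN : ∀ u ∈ U, N.ρ u = 1) :
    IsEquivariant (A := indRep U (twTriv χ N)) (B := N) (augTw χ U N) := by
  intro g
  have : (augTw χ U N) ∘ₗ (indAct U (twTriv χ N) g) = (N.ρ g) ∘ₗ (augTw χ U N) := by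
    apply Finsupp.lhom_ext
    intro x n
    induction x using QuotientGroup.induction_on with
    | H a =>
      rw [LinearMap.comp_apply, LinearMap.comp_apply, indAct_single, augTw_single, augTw_single]
      have h1 : (g • (a : G ⧸ U)) = ((g * a : G) : G ⧸ U) := rfl
      rw [h1, twAct_mk χ U N hχ hN, twAct_mk χ U N hχ hN, twTriv_ρ_apply]
      simp only [LinearMap.smul_apply, map_mul, Module.End.mul_apply, map_smul, smul_smul]
      congr 1
      simp only [Units.val_mul, Units.val_inv_eq_inv_val, mul_inv_rev]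
      have h1 : (χ g : k) ≠ 0 := (χ g).ne_zero
      have h2 : (χ a : k) ≠ 0 := (χ a).ne_zero
      field_simp
  exact fun a => LinearMap.congr_fun this a

omit [U.Normal] in
lemma augTw_surjective (hχ : ∀ u ∈ U, χ u = 1) (hN : ∀ u ∈ U, N.ρ u = 1) :
    Function.Surjective (augTw χ U N) := by
  intro n
  refine ⟨(Finsupp.single ((1 : G) : G ⧸ U) n : (G ⧸ U) →₀ N), ?_⟩
  rw [augTw_single, twAct_mk χ U N hχ hN]
  simp

omit [U.Normal] in
/-- level change is compatible with the twisted augmentations -/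
lemma augTw_indLE {V : Subgroup G} (h : U ≤ V) (hχ : ∀ u ∈ V, χ u = 1)
    (hN : ∀ u ∈ V, N.ρ u = 1) (a : (G ⧸ U) →₀ N) :
    augTw χ V N (indLE (twTriv χ N) h a) = augTw χ U N a := by
  have : (augTw χ V N) ∘ₗ (indLE (twTriv χ N) h) = augTw χ U N := by
    apply Finsupp.lhom_ext
    intro x n
    induction x using QuotientGroup.induction_on with
    | H g =>
      rw [LinearMap.comp_apply, indLE_single, augTw_single, augTw_single]
      have h1 : Subgroup.quotientMapOfLE h (g : G ⧸ U) = (g : G ⧸ V) := rfl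
      rw [h1, twAct_mk χ V N hχ hN, twAct_mk χ U N (fun u hu => hχ u (h hu))
        (fun u hu => hN u (h hu))]
  exact LinearMap.congr_fun this a

/-- the presentation `0 → R → Ind_U (twTriv χ N) → N → 0` -/
def twSES (hχ : ∀ u ∈ U, χ u = 1) (hN : ∀ u ∈ U, N.ρ u = 1) :
    SES (kerRep (A := indRep U (twTriv χ N)) (B := N) (augTw χ U N)
      (augTw_equivariant χ U N hχ hN)) (indRep U (twTriv χ N)) N :=
  kerSES (A := indRep U (twTriv χ N)) (B := N) (augTw χ U N) (augTw_equivariant χ U N hχ hN)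
    (augTw_surjective χ U N hχ hN)

end Tw

/-! ### the global top map on `∏_v H²(G_v, −)` and on `T³` -/

section Glob

variable {ι : Type} [Fintype ι] [DecidableEq ι] {Gv : ι → Type} [∀ v, Group (Gv v)]
variable {L : LevelSys G} {Lv : ∀ v, LevelSys (Gv v)} {r : ∀ v, Gv v →* G}
variable (hr : ∀ v, IsLevelCompatible (r v) L (Lv v))
variable (χ : G →* kˣ) (inv : ∀ v, (Lv v).H2 (ofChar (χ.comp (r v))) →ₗ[k] k)
variable (N : Rep.{0, 0, 0} k G)

/-- a global `χ`-equivariant functional is locally `χ ∘ r`-equivariant -/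
def charHomRes {G' : Type} [Group G'] (s : G' →* G) :
    ↥(charHom χ N) →ₗ[k] ↥(charHom (χ.comp s) (Rep.res s N)) where
  toFun f := ⟨(f : Module.Dual k N), fun g n => f.2 (s g) n⟩
  map_add' _ _ := rfl
  map_smul' _ _ := rfl

@[simp] lemma coe_charHomRes {G' : Type} [Group G'] (s : G' →* G) (f : ↥(charHom χ N)) :
    ((charHomRes χ N s f : ↥(charHom (χ.comp s) (Rep.res s N))) : Module.Dual k N) = f := rfl

/-- `(x_v)_v ↦ (f ↦ Σ_v inv_v (f_* x_v))` -/
def topGlobFun : ((v : ι) → (Lv v).H2 (Rep.res (r v) N)) →ₗ[k] Module.Dual k ↥(charHom χ N) :=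
  ∑ v : ι, (Module.Dual.transpose (R := k) (charHomRes χ N (r v))) ∘ₗ
    (topPair (Lv v) (χ.comp (r v)) (inv v) (Rep.res (r v) N)) ∘ₗ LinearMap.proj v

lemma topGlobFun_apply (x : (v : ι) → (Lv v).H2 (Rep.res (r v) N)) (f : ↥(charHom χ N)) :
    topGlobFun χ inv N x f =
      ∑ v : ι, inv v (pushChar (Lv v) (χ.comp (r v)) (Rep.res (r v) N)
        (charHomRes χ N (r v) f) (x v)) := by
  simp only [topGlobFun, LinearMap.sum_apply, LinearMap.comp_apply, LinearMap.proj_apply,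
    Module.Dual.transpose_apply, topPair_apply]

/-- reciprocity for `inv`: `Σ_v inv_v (loc_v y) = 0` for `y ∈ H²(G, ofChar χ)` -/
def IsRecip : Prop :=
  ∀ y : L.H2 (ofChar χ), ∑ v : ι, inv v (resH2 (hr v) (ofChar χ) y) = 0

variable {χ inv}

include hr in
lemma topGlobFun_loc2 (hrec : IsRecip hr χ inv) (y : L.H2 N) :
    topGlobFun χ inv N (loc2 hr N y) = 0 := by
  apply LinearMap.ext
  intro f
  rw [topGlobFun_apply, LinearMap.zero_apply]
  have h := hrec (pushChar L χ N f y)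
  rw [← h]
  refine Finset.sum_congr rfl fun v _ => ?_
  congr 1
  exact (resH2_pushH2 (A := N) (B := ofChar χ) (f : Module.Dual k N)
    (charHom_equivariant χ N f.2) (hr v) y).symm

/-- The global top map `Θ(N) : T³(N) → Dual (charHom χ N)`. -/
def topT3 (hrec : IsRecip hr χ inv) : T3 hr N →ₗ[k] Module.Dual k ↥(charHom χ N) :=
  Submodule.liftQ _ (topGlobFun χ inv N) (by
    rintro x ⟨y, rfl⟩
    exact topGlobFun_loc2 hr N hrec y)

@[simp] lemma topT3_mk (hrec : IsRecip hr χ inv) (x : (v : ι) → (Lv v).H2 (Rep.res (r v) N)) :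
    topT3 hr N hrec (T3π hr N x) = topGlobFun χ inv N x := rfl

end Glob

end Fermat.Agent.S55.PT

end

end
-- ===== PACK-END S55/PT/Top.lean

-- ===== PACK-BEGIN S55/G/Rec/StepBH415.lean
section



/-!
# S55 / layer G / block REC, leaf SB (helper415): STEP B, `TrivAbovePSpec`

`trivAboveP_of : HassePrincipleSpec p → CyclicSplitSpec → SupportFiniteSpec → LocResSpec →
  CycloSumSpec I → TrivAbovePSpec I p`   (`p` odd).

Proof (blueprint §1 STEP B).  Let `x ∈ Br(K)`, `p ^ k • x = 0`, `x_v = 0` for `v | p`, `T` the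
(finite) support of `x`.  For `N ≫ 0` the local degrees at the primes of `T` of `ℚ(ζ_{p^N})/ℚ` are
divisible by `p ^ (k + D)`, `D = [G_ℚ : U]! · (p - 1)` (helper414, `CycloMain`).  Let `χ` be the
`p`-part of the cyclotomic character mod `p ^ N` restricted to `U`, viewed as a surjective character
onto `ℤ/p^j`.  Then all the local degrees of `ker χ` over `U` at the places above `T` are divisible
by `p ^ k`; hence `res x` is locally trivial everywhere, hence trivial by the Hasse principle,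
hence `x = a ∪ δχ` by cyclic splitting, and STEP A applies.
-/

set_option autoImplicit false

noncomputable section

namespace Fermat.Agent.S55.G.Rec.H415

open Fermat.Agent.S55.G.Rec groupCohomology Fermat.Agent.S55.H414 ExtCitation

local notation "Qb" => AlgebraicClosure ℚ
local notation "GQ" => (AlgebraicClosure ℚ ≃ₐ[ℚ] AlgebraicClosure ℚ)

/-- A homomorphism to a finite cyclic group whose values are killed by a power of `p` gives a
surjective character onto `ℤ/p^j` with the same kernel. -/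
theorem exists_char_of_cyclic {G A : Type*} [Group G] [CommGroup A] [IsCyclic A] [Finite A]
    (p : ℕ) [Fact p.Prime] (M : ℕ) (ψ : G →* A) (hψ : ∀ g, ψ g ^ (p ^ M) = 1) :
    ∃ (j : ℕ) (χ : G →* Multiplicative (ZMod (p ^ j))),
      Function.Surjective χ ∧ ∀ g, χ g = 1 ↔ ψ g = 1 := by
  have hP : IsPGroup p ψ.range := by
    rintro ⟨_, g, rfl⟩
    exact ⟨M, Subtype.ext (by simpa using hψ g)⟩
  obtain ⟨j, hj⟩ := IsPGroup.iff_card.1 hP
  have e := zmodCyclicMulEquiv (inferInstance : IsCyclic ψ.range)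
  rw [hj] at e
  refine ⟨j, e.symm.toMonoidHom.comp ψ.rangeRestrict, ?_, fun g => ?_⟩
  · exact e.symm.surjective.comp ψ.rangeRestrict_surjective
  · rw [MonoidHom.comp_apply]
    show e.symm (ψ.rangeRestrict g) = 1 ↔ _
    rw [MulEquiv.map_eq_one_iff, Subtype.ext_iff]
    rfl

/-- If `p ^ K` divides the local degree at `q` of `ℚ(ζ_{p^N})/ℚ`, some element of the local Galois
group has a cyclotomic value of order divisible by `p ^ K`. -/
theorem exists_local_elt (p : ℕ) [Fact p.Prime] (hp2 : p ≠ 2) (N K : ℕ) (Q : Nat.Primes)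
    [hQ : Fact (Q : ℕ).Prime]
    (h : p ^ K ∣ (cycloLevel (p ^ N)).fixingSubgroup.relIndex (primeLocalToGlobal Q).range) :
    ∃ τ : PadicAlgCl (Q : ℕ) ≃ₐ[ℚ_[(Q : ℕ)]] PadicAlgCl (Q : ℕ),
      p ^ K ∣ orderOf (cycloPow (p ^ N) (localGaloisToGlobal (Q : ℕ) τ)) := by
  haveI : IsCyclic (ZMod (p ^ N))ˣ := ZMod.isCyclic_units_of_prime_pow p Fact.out hp2 N
  have h' : p ^ K ∣
      (cycloLevel (p ^ N)).fixingSubgroup.relIndex (localGaloisToGlobal (Q : ℕ)).range := h
  rw [← ker_cycloPow, Subgroup.relIndex_ker, MonoidHom.map_range] at h'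
  obtain ⟨⟨w, τ, rfl⟩, hw⟩ := IsCyclic.exists_generator
    (α := ↥((cycloPow (p ^ N)).comp (localGaloisToGlobal (Q : ℕ))).range)
  refine ⟨τ, ?_⟩
  have h1 := orderOf_eq_card_of_forall_mem_zpowers hw
  rw [← Subgroup.orderOf_coe] at h1
  rw [← h1] at h'
  exact h'

/-- Localisation preserves `n`-torsion. -/
theorem nsmul_locBr_eq_zero (q : ℕ) [Fact q.Prime] (g : GQ) (U : Subgroup GQ) (x : gBr U) (n : ℕ)
    (hk : n • x = 0) : n • locBr q g U x = 0 := by
  have h1 := (locBr q g U).toAddMonoidHom.map_nsmul n x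
  have h2 := congrArg (locBr q g U) hk
  rw [map_zero] at h2
  rw [← h2]
  exact h1.symm

/-- Restriction preserves `n`-torsion. -/
theorem nsmul_gRes_eq_zero {U U' : Subgroup GQ} (h : U' ≤ U) (x : gBr U) (n : ℕ)
    (hk : n • x = 0) : n • gRes h x = 0 := by
  have h1 := (gRes h).toAddMonoidHom.map_nsmul n x
  have h2 := congrArg (gRes h) hk
  rw [map_zero] at h2
  rw [← h2]
  exact h1.symm

/-- A multiple of the order kills the invariant. -/
theorem nsmul_inv_eq_zero (I : LocalInvSystem) (q : ℕ) [Fact q.Prime]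
    (V : Subgroup (PadicAlgCl q ≃ₐ[ℚ_[q]] PadicAlgCl q)) (y : lBr q V) (n d : ℕ)
    (hk : n • y = 0) (hd : n ∣ d) : d • I.inv q V y = 0 := by
  obtain ⟨r, rfl⟩ := hd
  rw [mul_comm, mul_smul, ← map_nsmul, hk, map_zero, smul_zero]

/-- If the local degree is divisible by `n` and `n • x = 0`, then `res x` is locally trivial. -/
theorem lRes_locBr_eq_zero_of_dvd (I : LocalInvSystem) (q : ℕ) [Fact q.Prime] (g : GQ)
    {U U' : Subgroup GQ} (h : U' ≤ U) (hU' : IsOpenQ U') (x : gBr U) (n : ℕ) (hk : n • x = 0)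
    (hdiv : n ∣ (locSub q g U').relIndex (locSub q g U)) :
    lRes q (V := locSub q g U) (V' := locSub q g U') (fun _ hτ => h hτ) (locBr q g U x) = 0 := by
  have hV'open : IsOpenL q (locSub q g U') := isOpenL_locSub hU' q g
  apply I.inv_injective q _ hV'open
  refine ((I.inv_res q _ _ _ hV'open _).trans ?_).trans (map_zero _).symm
  exact nsmul_inv_eq_zero I q _ _ _ _ (nsmul_locBr_eq_zero q g U x n hk) hdiv

/-- The group-theoretic key: the local degrees of `ker χ` are divisible by `p ^ k`. -/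
theorem pow_dvd_relIndex_locSub_ker (p : ℕ) [Fact p.Prime] (q : ℕ) [Fact q.Prime] (g : GQ)
    (U : Subgroup GQ) (hidx : U.index ≠ 0) {C : Type*} [CommGroup C] (c : GQ →* C) (e : ℕ)
    (he : 0 < e) (j : ℕ) (χ : ↥U →* Multiplicative (ZMod (p ^ j)))
    (hχc : ∀ u : ↥U, χ u = 1 ↔ c (u : GQ) ^ e = 1)
    (τ : PadicAlgCl q ≃ₐ[ℚ_[q]] PadicAlgCl q) (k : ℕ)
    (hτ : p ^ (k + (U.index).factorial * e) ∣ orderOf (c (localGaloisToGlobal q τ))) :
    p ^ k ∣ (locSub q g (χ.ker.map U.subtype)).relIndex (locSub q g U) := by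
  have hp : p.Prime := Fact.out
  obtain ⟨D₀, hD₀⟩ : ∃ D₀ : ℕ, D₀ = (U.index).factorial := ⟨_, rfl⟩
  obtain ⟨D, hD⟩ : ∃ D : ℕ, D = D₀ * e := ⟨_, rfl⟩
  rw [← hD₀, ← hD] at hτ
  have hDpos : 0 < D := by
    rw [hD, hD₀]
    exact Nat.mul_pos (Nat.factorial_pos _) he
  have hcardB : Nat.card (Multiplicative (ZMod (p ^ j))) = p ^ j :=
    (Nat.card_congr Multiplicative.toAdd).trans (Nat.card_zmod _)
  rw [relIndex_locSub_ker]
  have hcard : Nat.card (χ.comp (locHom q g U)).range ∣ p ^ j := by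
    have := Subgroup.card_subgroup_dvd_card (χ.comp (locHom q g U)).range
    rwa [hcardB] at this
  obtain ⟨i, -, hi⟩ := (Nat.dvd_prime_pow hp).1 hcard
  rw [hi]
  apply pow_dvd_pow
  by_contra hlt
  rw [not_le] at hlt
  have hτV : τ ^ D₀ ∈ locSub q g U := by
    rw [mem_locSub, map_pow, ← conj_pow, hD₀]
    exact Subgroup.pow_mem_of_index_ne_zero_of_dvd hidx _
      (fun m hm hm' => Nat.dvd_factorial hm hm')
  have hw1 : (χ.comp (locHom q g U)) ⟨τ ^ D₀, hτV⟩ ^ (p ^ i) = 1 := by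
    have hwmem : (χ.comp (locHom q g U)) ⟨τ ^ D₀, hτV⟩ ∈ (χ.comp (locHom q g U)).range :=
      ⟨_, rfl⟩
    have h := pow_card_eq_one' (G := ↥(χ.comp (locHom q g U)).range)
      (x := ⟨_, hwmem⟩)
    rw [hi] at h
    exact congrArg Subtype.val h
  have h2 : χ ((locHom q g U ⟨τ ^ D₀, hτV⟩) ^ (p ^ i)) = 1 := by
    rw [map_pow]
    exact hw1
  rw [hχc, Subgroup.coe_pow, map_pow] at h2
  have h3 : c ((locHom q g U ⟨τ ^ D₀, hτV⟩ : ↥U) : GQ) = c (localGaloisToGlobal q τ) ^ D₀ := by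
    rw [locHom_coe]
    simp only [map_mul, map_inv, map_pow]
    rw [mul_comm, inv_mul_cancel_left]
  rw [h3, ← pow_mul, ← pow_mul] at h2
  have h4 : orderOf (c (localGaloisToGlobal q τ)) ∣ D₀ * (p ^ i * e) :=
    orderOf_dvd_of_pow_eq_one h2
  have h5 : p ^ (k + D) ∣ D * p ^ i := by
    have : D₀ * (p ^ i * e) = D * p ^ i := by rw [hD]; ring
    rw [← this]
    exact hτ.trans h4
  have h6 : p ^ i * p ^ (D + 1) ∣ p ^ i * D := by
    rw [← pow_add, mul_comm (p ^ i) D]
    exact (pow_dvd_pow p (by omega)).trans h5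
  have h7 : p ^ (D + 1) ∣ D := Nat.dvd_of_mul_dvd_mul_left (pow_pos hp.pos i) h6
  have h8 := Nat.le_of_dvd hDpos h7
  have h9 : D < p ^ (D + 1) :=
    (Nat.lt_pow_self hp.one_lt).trans_le (Nat.pow_le_pow_right hp.pos (Nat.le_succ _))
  omega

/-- **STEP B** of the norm route. -/
theorem trivAboveP_of (I : LocalInvSystem) (p : ℕ) [Fact p.Prime] (hp2 : p ≠ 2)
    (hHP : HassePrincipleSpec p) (hK4 : CyclicSplitSpec) (hG4 : SupportFiniteSpec)
    (hG5 : LocResSpec) (hSA : CycloSumSpec I) : TrivAbovePSpec I p := by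
  intro U hU x hx hloc R hR
  obtain ⟨k, hk⟩ := hx
  have hp : p.Prime := Fact.out
  have hTfin := hG4 I U hU x
  have hidx : U.index ≠ 0 := index_ne_zero_of_isOpenQ hU
  have hepos : 0 < p - 1 := Nat.sub_pos_of_lt hp.one_lt
  obtain ⟨n₀, hn₀⟩ := exists_forall_forall_pow_dvd_relIndex_primeLocal p hTfin.toFinset
    (k + (U.index).factorial * (p - 1))
  obtain ⟨N, hNdef⟩ : ∃ N : ℕ, N = n₀ + 1 := ⟨_, rfl⟩
  have hN := hn₀ N (by omega)
  haveI : IsCyclic (ZMod (p ^ N))ˣ := ZMod.isCyclic_units_of_prime_pow p hp hp2 N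
  -- the character
  obtain ⟨ψ, hψ_apply⟩ : ∃ ψ : ↥U →* (ZMod (p ^ N))ˣ,
      ∀ u : ↥U, ψ u = cycloPow (p ^ N) (u : GQ) ^ (p - 1) :=
    ⟨(powMonoidHom (p - 1)).comp ((cycloPow (p ^ N)).comp U.subtype), fun u => rfl⟩
  have hψ : ∀ u, ψ u ^ (p ^ n₀) = 1 := by
    intro u
    rw [hψ_apply, ← pow_mul, mul_comm]
    have h1 : p ^ n₀ * (p - 1) = Nat.totient (p ^ N) := by
      rw [hNdef, Nat.totient_prime_pow_succ hp n₀]
    rw [h1]
    exact ZMod.pow_totient _
  obtain ⟨j, χ, hsurj, hχ1⟩ := exists_char_of_cyclic p n₀ ψ hψ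
  have hχc : ∀ u : ↥U, χ u = 1 ↔ cycloPow (p ^ N) (u : GQ) ^ (p - 1) = 1 := by
    intro u
    rw [hχ1, hψ_apply]
  have hker : ∀ u : ↥U, (u : GQ) ∈ (cycloLevel (p ^ N)).fixingSubgroup → χ u = 1 := by
    intro u hu
    rw [hχc]
    rw [← ker_cycloPow, MonoidHom.mem_ker] at hu
    rw [hu, one_pow]
  have hlevel : IsLevelConstant₁ U.subtype χ :=
    ⟨cycloLevel (p ^ N), inferInstance, fun g s hs => by rw [map_mul, hker s hs, mul_one]⟩
  have hcyc : IsCycloChar U (p ^ N) χ := by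
    intro σ hσ
    apply hker
    rw [mem_fixingSubgroup_cycloLevel_iff]
    exact hσ _ (zetaBar_spec (p ^ N)).pow_eq_one
  haveI : NeZero (p ^ j) := ⟨pow_ne_zero _ hp.ne_zero⟩
  have hodd : Odd (p ^ j) := (hp.odd_of_ne_two hp2).pow
  -- the kernel is open
  have hU' : IsOpenQ (χ.ker.map U.subtype) := by
    refine isOpenQ_of_level hU (cycloLevel (p ^ N)) (fun σ hσU hσ => ?_)
    exact ⟨⟨σ, hσU⟩, hker ⟨σ, hσU⟩ hσ, rfl⟩
  -- the restriction to the kernel is locally trivial, hence trivial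
  have hres : gRes (U := U) (U' := χ.ker.map U.subtype) (Subgroup.map_subtype_le _) x = 0 := by
    refine hHP _ hU' _ ⟨k, nsmul_gRes_eq_zero _ x _ hk⟩ ?_
    intro q hq g
    obtain ⟨Q, rfl⟩ : ∃ Q : Nat.Primes, (Q : ℕ) = q := ⟨⟨q, hq.out⟩, rfl⟩
    rw [hG5 (Q : ℕ) g U _ (Subgroup.map_subtype_le _) x]
    by_cases hqT : Q ∈ hTfin.toFinset
    · -- the local degree is divisible by `p ^ k`
      exact (exists_local_elt p hp2 N _ Q (hN Q hqT)).elim fun τ hτ =>
        lRes_locBr_eq_zero_of_dvd I (Q : ℕ) g (Subgroup.map_subtype_le _) hU' x (p ^ k) hk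
          (pow_dvd_relIndex_locSub_ker p (Q : ℕ) g U hidx (cycloPow (p ^ N)) (p - 1) hepos j χ
            hχc τ k hτ)
    · have h0 : locBr (Q : ℕ) g U x = 0 := by
        by_contra h
        exact hqT (hTfin.mem_toFinset.2 ⟨g, h⟩)
      rw [h0, map_zero]
  obtain ⟨a, ha, hxa⟩ := hK4 U hU (p ^ j) χ hlevel hsurj x hres
  rw [hxa]
  refine hSA U hU p hp2 N (by omega) (p ^ j) hodd χ hlevel hcyc a ha (fun g => ?_) R hR
  rw [← hxa]
  exact hloc g

end Fermat.Agent.S55.G.Rec.H415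

end
end
-- ===== PACK-END S55/G/Rec/StepBH415.lean

-- ===== PACK-BEGIN S55/G/Rec/Glob/CyclicSplit.lean
section



/-!
# S55 / REC / leaf K4 : `CyclicSplitSpec` (helper64)

`cyclicSplit : CyclicSplitSpec` — a class of `Br(K)`, `K = ℚ̄^U`, which dies in `Br(L)`, `L / K`
cyclic cut out by a surjective continuous character `χ : U → ℤ/n`, is the cup class `a ∪ δχ` for
some `a ∈ Kˣ`.

Proof: descend the cocycle and the trivialising 1-cochain to a finite Galois level `E / K`
(global dictionary `Glob/Basic.lean`, `Glob/Cochain.lean`), apply the finite-level statement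
`exists_cupChar_of_res_coboundary` (`Glob/CyclicFinite.lean`: inflation–restriction, Hilbert 90,
cyclic periodicity), and inflate back.
-/

set_option autoImplicit false
set_option linter.style.haveILetI false

noncomputable section

namespace Fermat.Agent.S55.G.Rec.Glob

open groupCohomology IntermediateField

local notation "Qb" => AlgebraicClosure ℚ
local notation "GQ" => (AlgebraicClosure ℚ ≃ₐ[ℚ] AlgebraicClosure ℚ)

/-- The kernel of a continuous character of an open subgroup is open. -/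
theorem isOpenQ_ker_map {U : Subgroup GQ} (hU : IsOpenQ U) {n : ℕ}
    (χ : ↥U →* Multiplicative (ZMod n)) (hχ : IsLevelConstant₁ U.subtype χ) :
    IsOpenQ (χ.ker.map U.subtype) := by
  obtain ⟨F, hF, hFU⟩ := hU
  obtain ⟨F', hF', h⟩ := hχ
  haveI := hF
  haveI := hF'
  refine ⟨F ⊔ F', inferInstance, fun s hs => ?_⟩
  have hsU : s ∈ U := hFU (IntermediateField.fixingSubgroup_antitone le_sup_left hs)
  refine Subgroup.mem_map.2 ⟨⟨s, hsU⟩, ?_, rfl⟩
  rw [MonoidHom.mem_ker]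
  have := h 1 ⟨s, hsU⟩ (IntermediateField.fixingSubgroup_antitone le_sup_right hs)
  rwa [one_mul, map_one] at this

set_option maxHeartbeats 1600000 in
/-- **K4**: global cyclic splitting. -/
theorem cyclicSplit : CyclicSplitSpec := by
  intro U hU n _ χ hχ hsurj x hx
  have hle : χ.ker.map U.subtype ≤ U := Subgroup.map_subtype_le _
  have hU' : IsOpenQ (χ.ker.map U.subtype) := isOpenQ_ker_map hU χ hχ
  -- a representative
  obtain ⟨c, rfl⟩ := Submodule.mkQ_surjective _ x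
  -- its restriction is a level coboundary
  have hx' : (cochainsPullPush₂ (Subgroup.inclusion hle)
      (LinearMap.id : gModOn U →ₗ[ℤ] gModOn (χ.ker.map U.subtype))
      (c : ↥U × ↥U → gModOn U)) ∈
        levelCoboundaries₂ (χ.ker.map U.subtype).subtype (gModOn (χ.ker.map U.subtype)) :=
    (continuousH2π_eq_zero_iff _ _ _).1 hx
  obtain ⟨b, hb, hdb⟩ := (mem_levelCoboundaries₂_iff _ _ _).1 hx'
  have hbfin := finite_range_of_isLevelConstant₁ hU' hb
  obtain ⟨Fb, hFb, hbconst⟩ := hb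
  have hχ' := hχ
  obtain ⟨Fχ, hFχ, hχconst⟩ := hχ'
  haveI := hFb
  haveI := hFχ
  -- the finite level
  obtain ⟨E, hfd, hgal, cbar, hFE, hTE, hcbar⟩ := exists_level_eq_infl₂ hU
    (c : ↥U × ↥U → gModOn U) c.2.2 (Fb ⊔ Fχ)
    ((fun m : gModOn (χ.ker.map U.subtype) => ((Additive.toMul m : Qbˣ) : Qb)) '' Set.range b)
    (hbfin.image _)
  haveI := hfd
  haveI := hgal
  have hcoc : IsMulCocycle₂ cbar := by
    rw [← infl₂_mem_cocycles₂_iff hU E cbar, hcbar]
    exact c.2.1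
  have hFbE : ∀ s : ↥U, resHom U E s = 1 → (s : GQ) ∈ Fb.fixingSubgroup := fun s hs =>
    mem_fixingSubgroup_of_resHom_eq_one U E s hs (fun x hx => hFE x (le_sup_left (a := Fb) hx))
  have hFχE : ∀ s : ↥U, resHom U E s = 1 → (s : GQ) ∈ Fχ.fixingSubgroup := fun s hs =>
    mem_fixingSubgroup_of_resHom_eq_one U E s hs (fun x hx => hFE x (le_sup_right (b := Fχ) hx))
  -- the character at finite level
  have hkerχ : (resHom U E).ker ≤ χ.ker := by
    intro s hs
    rw [MonoidHom.mem_ker] at hs ⊢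
    have := hχconst 1 s (hFχE s hs)
    rwa [one_mul, map_one] at this
  let χbar : (E ≃ₐ[fixedFld U] E) →* Multiplicative (ZMod n) :=
    MonoidHom.liftOfSurjective (resHom U E) (resHom_surjective hU E) ⟨χ, hkerχ⟩
  have hχbar : ∀ u : ↥U, χbar (resHom U E u) = χ u := fun u =>
    MonoidHom.liftOfRightInverse_comp_apply _ _ _ _ u
  have hχbarsurj : Function.Surjective χbar := by
    intro m
    obtain ⟨u, rfl⟩ := hsurj m
    exact ⟨resHom U E u, hχbar u⟩
  -- lifting elements of `ker χbar` to `U' = ker χ`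
  have hlift : ∀ s : χbar.ker, ∃ v : ↥(χ.ker.map U.subtype),
      resHom U E (Subgroup.inclusion hle v) = (s : E ≃ₐ[fixedFld U] E) := by
    intro s
    obtain ⟨u, hu⟩ := resHom_surjective hU E (s : E ≃ₐ[fixedFld U] E)
    have hmem : u ∈ χ.ker := by
      rw [MonoidHom.mem_ker, ← hχbar, hu]
      exact MonoidHom.mem_ker.1 s.2
    refine ⟨⟨(u : GQ), Subgroup.mem_map.2 ⟨u, hmem, rfl⟩⟩, ?_⟩
    rw [← hu]
    rfl
  choose up hup using hlift
  have hvalb : ∀ v : ↥(χ.ker.map U.subtype), ((Additive.toMul (b v) : Qbˣ) : Qb) ∈ E :=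
    fun v => hTE _ ⟨b v, ⟨v, rfl⟩, rfl⟩
  choose β hβ using fun s : χbar.ker => exists_unitsIncl_eq U E (hvalb (up s))
  -- `b` is constant modulo the level
  have hbE : ∀ v r : ↥(χ.ker.map U.subtype), resHom U E (Subgroup.inclusion hle r) = 1 →
      b (v * r) = b v := fun v r hr => hbconst v r (hFbE _ hr)
  have hβcob : ∀ s t : χbar.ker, (s : E ≃ₐ[fixedFld U] E) • β t / β (s * t) * β s =
      cbar ((s : E ≃ₐ[fixedFld U] E), t) := by
    intro s t
    apply unitsIncl_injective U E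
    -- the value of `b` at `up (s * t)`
    have hr : resHom U E (Subgroup.inclusion hle ((up s * up t)⁻¹ * up (s * t))) = 1 := by
      rw [map_mul (Subgroup.inclusion hle), map_mul (resHom U E), hup (s * t),
        map_inv (Subgroup.inclusion hle), map_inv (resHom U E),
        map_mul (Subgroup.inclusion hle), map_mul (resHom U E), hup s, hup t]
      exact inv_mul_cancel _
    have hbst : b (up (s * t)) = b (up s * up t) := by
      have := hbE (up s * up t) ((up s * up t)⁻¹ * up (s * t)) hr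
      rwa [mul_inv_cancel_left] at this
    have hs : (s : E ≃ₐ[fixedFld U] E) • β t =
        resHom U E (Subgroup.inclusion hle (up s)) • β t := by rw [hup s]
    rw [map_mul, map_div, hs, unitsIncl_smul, hβ, hβ, hβ, hbst]
    -- the coboundary relation
    have h1 := congrFun hdb (up s, up t)
    rw [d₁₂_hom_apply] at h1
    have h2 : (c : ↥U × ↥U → gModOn U)
        (Subgroup.inclusion hle (up s), Subgroup.inclusion hle (up t)) =
        Additive.ofMul (unitsIncl U E (cbar (resHom U E (Subgroup.inclusion hle (up s)),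
          resHom U E (Subgroup.inclusion hle (up t))))) := by
      rw [← hcbar]
      rfl
    have h3 := congrArg Additive.toMul (h1.trans h2)
    rw [hup s, hup t] at h3
    exact h3
  -- the finite-level theorem
  obtain ⟨a, w, hw⟩ := exists_cupChar_of_res_coboundary (fixedFld U) E n χbar hχbarsurj cbar hcoc
    β hβcob
  -- the element `a` of `K`, in `ℚ̄`
  have haQfix : GFixed U (unitsIncl U E (Units.map (algebraMap (fixedFld U) E :
      (fixedFld U) →* E) a)) := by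
    intro u hu
    apply Units.ext
    exact (IntermediateField.mem_fixedField_iff U _).1 (a : fixedFld U).2 u hu
  refine ⟨unitsIncl U E (Units.map (algebraMap (fixedFld U) E : (fixedFld U) →* E) a),
    haQfix, ?_⟩
  rw [gcc_eq U n χ _ ⟨NeZero.ne n, hχ, haQfix⟩]
  refine (Submodule.Quotient.eq _).2 ?_
  refine (mem_levelCoboundaries₂_iff _ _ _).2 ⟨infl₁ U E w, isLevelConstant₁_infl₁ hU E w, ?_⟩
  rw [d₁₂_infl₁]
  funext ⟨g, k⟩
  have h1 : (c : ↥U × ↥U → gModOn U) (g, k) =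
      Additive.ofMul (unitsIncl U E (cbar (resHom U E g, resHom U E k))) := by
    rw [← hcbar]
    rfl
  have key : unitsIncl U E (resHom U E g • w (resHom U E k) /
        w (resHom U E g * resHom U E k) * w (resHom U E g)) =
      unitsIncl U E (cbar (resHom U E g, resHom U E k)) /
        (unitsIncl U E (Units.map (algebraMap (fixedFld U) E : (fixedFld U) →* E) a)) ^
          (H379.carry n (chiAdd χ g) (chiAdd χ k)) := by
    rw [hw, hχbar, hχbar]
    generalize (resHom U E g • w (resHom U E k) / w (resHom U E g * resHom U E k) *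
      w (resHom U E g)) = X
    rw [map_mul, map_pow]
    exact (mul_div_cancel_right _ _).symm
  have h2 : infl₂ U E (fun p => p.1 • w p.2 / w (p.1 * p.2) * w p.1) (g, k) =
      Additive.ofMul (unitsIncl U E (cbar (resHom U E g, resHom U E k)) /
        (unitsIncl U E (Units.map (algebraMap (fixedFld U) E : (fixedFld U) →* E) a)) ^
          (H379.carry n (chiAdd χ g) (chiAdd χ k))) :=
    congrArg Additive.ofMul key
  rw [h2, Submodule.subtype_apply, Submodule.coe_sub, Pi.sub_apply, h1]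
  rfl

end Fermat.Agent.S55.G.Rec.Glob

end
end
-- ===== PACK-END S55/G/Rec/Glob/CyclicSplit.lean

-- ===== PACK-BEGIN S55/H713/Graded.lean
section


/-!
# Graded exactness for the normal basis lattice (cyclic Galois group)
-/

set_option autoImplicit false
set_option linter.unusedSectionVars false

namespace Fermat.Agent.S55.H713

variable {F E : Type*} [Field F] [Field E] [Algebra F E] [FiniteDimensional F E] [IsGalois F E]
variable {O : ValuationSubring E}

lemma exists_pow_eq_of_generator {σ : Gal(E/F)} (hσ : ∀ g, g ∈ Subgroup.zpowers σ)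
    (g : Gal(E/F)) : ∃ j : ℕ, σ ^ j = g := by
  have h := hσ g
  rw [← (isOfFinOrder_of_finite σ).mem_powers_iff_mem_zpowers] at h
  exact (Submonoid.mem_powers_iff _ _).1 h

lemma repr_sum_smul_nb (c : Gal(E/F) → F) (k : Gal(E/F)) :
    (nb F E).repr (∑ g, c g • nb F E g) k = c k := by
  classical
  rw [map_sum, Finset.sum_apply']
  simp [Finsupp.single_apply]

lemma smul_nb_one_mem {s c : F} (hc : algebraMap F E (c / s) ∈ O) :
    c • nb F E 1 ∈ normLat O s := by
  classical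
  intro k
  rw [map_smul, Module.Basis.repr_self, Finsupp.smul_apply, Finsupp.single_apply, smul_eq_mul]
  split_ifs
  · simpa using hc
  · simp [O.zero_mem]

/-- exactness at the trace, modulo `p`. -/
theorem ex1_E {σ : Gal(E/F)} (hσ : ∀ g, g ∈ Subgroup.zpowers σ) {p t : F}
    {x : E} (hx : x ∈ normLat O t) (hsx : σ x - x ∈ normLat O (p * t)) :
    ∃ b ∈ normLat O t, x - ∑ g : Gal(E/F), g b ∈ normLat O (p * t) := by
  set r := (nb F E).repr x with hr
  have hstep : ∀ g : Gal(E/F), algebraMap F E ((r (σ⁻¹ * g) - r g) / (p * t)) ∈ O := by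
    intro g
    have := hsx g
    rwa [map_sub, Finsupp.sub_apply, repr_galois] at this
  have hpow : ∀ j : ℕ, algebraMap F E ((r (σ ^ j) - r 1) / (p * t)) ∈ O := by
    intro j
    induction j with
    | zero => simp [O.zero_mem]
    | succ j ih =>
      have h1 := hstep (σ ^ (j + 1))
      have e : σ⁻¹ * σ ^ (j + 1) = σ ^ j := by
        rw [pow_succ']; group
      rw [e] at h1
      have : (r (σ ^ (j + 1)) - r 1) / (p * t) =
          (r (σ ^ j) - r 1) / (p * t) - (r (σ ^ j) - r (σ ^ (j + 1))) / (p * t) := by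
        ring
      rw [this, map_sub]
      exact O.toSubring.sub_mem ih h1
  have hall : ∀ g : Gal(E/F), algebraMap F E ((r g - r 1) / (p * t)) ∈ O := by
    intro g
    obtain ⟨j, rfl⟩ := exists_pow_eq_of_generator hσ g
    exact hpow j
  refine ⟨r 1 • nb F E 1, smul_nb_one_mem (hx 1), ?_⟩
  intro k
  have h1 : ∑ g : Gal(E/F), g (r 1 • nb F E 1) = ∑ g : Gal(E/F), r 1 • nb F E g := by
    refine Finset.sum_congr rfl (fun g _ => ?_)
    rw [map_smul, galois_nb, mul_one]
  rw [h1, map_sub, Finsupp.sub_apply, repr_sum_smul_nb]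
  exact hall k

/-- the partial orbit sums. -/
noncomputable def orbSum (σ : Gal(E/F)) (j : ℕ) : E := ∑ i ∈ Finset.range j, nb F E (σ ^ i)

lemma galois_orbSum (σ : Gal(E/F)) (j : ℕ) :
    σ (orbSum σ j) - orbSum σ j = nb F E (σ ^ j) - nb F E 1 := by
  induction j with
  | zero => simp [orbSum]
  | succ j ih =>
    have e1 : orbSum σ (j + 1) = orbSum σ j + nb F E (σ ^ j) := by
      simp [orbSum, Finset.sum_range_succ]
    rw [e1, map_add, galois_nb, ← pow_succ']
    have : σ (orbSum σ j) + nb F E (σ ^ (j + 1)) - (orbSum σ j + nb F E (σ ^ j)) =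
        (σ (orbSum σ j) - orbSum σ j) + (nb F E (σ ^ (j + 1)) - nb F E (σ ^ j)) := by ring
    rw [this, ih]; ring

lemma smul_orbSum_mem {t : F} (ht : t ≠ 0) (σ : Gal(E/F)) (j : ℕ) :
    t • orbSum σ j ∈ normLat O t := by
  rw [orbSum, Finset.smul_sum]
  exact (normLat O t).sum_mem (fun i _ => smul_nb_mem_normLat ht _)

/-- exactness at `σ - 1`, modulo `p`. -/
theorem ex2_E {σ : Gal(E/F)} (hσ : ∀ g, g ∈ Subgroup.zpowers σ) {p t : F} (ht : t ≠ 0)
    {x : E} (hx : x ∈ normLat O t) (hsx : ∑ g : Gal(E/F), g x ∈ normLat O (p * t)) :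
    ∃ b ∈ normLat O t, x - (σ b - b) ∈ normLat O (p * t) := by
  classical
  set r := (nb F E).repr x with hr
  -- the sum of the coordinates
  have hs : algebraMap F E ((∑ g : Gal(E/F), r g) / (p * t)) ∈ O := by
    have := hsx 1
    rw [map_sum, Finset.sum_apply'] at this
    have e : ∑ g : Gal(E/F), (nb F E).repr (g x) 1 = ∑ g : Gal(E/F), r g := by
      refine Fintype.sum_equiv (Equiv.inv _) _ _ (fun g => ?_)
      rw [repr_galois]; simp [hr]
    rwa [e] at this
  choose j hj using exists_pow_eq_of_generator hσ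
  refine ⟨∑ g : Gal(E/F), r g • orbSum σ (j g), ?_, ?_⟩
  · refine (normLat O t).sum_mem (fun g _ => ?_)
    have : r g • orbSum σ (j g) = (r g / t) • (t • orbSum σ (j g)) := by
      rw [smul_smul, div_mul_cancel₀ _ ht]
    rw [this]
    exact smul_mem_normLat (hx g) (smul_orbSum_mem ht σ (j g))
  · have h1 : σ (∑ g : Gal(E/F), r g • orbSum σ (j g)) - ∑ g : Gal(E/F), r g • orbSum σ (j g) =
        ∑ g : Gal(E/F), r g • (nb F E g - nb F E 1) := by
      rw [map_sum, ← Finset.sum_sub_distrib]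
      refine Finset.sum_congr rfl (fun g _ => ?_)
      rw [map_smul, ← smul_sub, galois_orbSum, hj]
    have h2 : ∑ g : Gal(E/F), r g • (nb F E g - nb F E 1) =
        x - (∑ g : Gal(E/F), r g) • nb F E 1 := by
      simp_rw [smul_sub]
      rw [Finset.sum_sub_distrib, ← Finset.sum_smul]
      congr 1
      exact (nb F E).sum_repr x
    rw [h1, h2, sub_sub_cancel]
    exact smul_nb_one_mem hs

end Fermat.Agent.S55.H713

end
-- ===== PACK-END S55/H713/Graded.lean

-- ===== PACK-BEGIN S55/G/FI/FirstIneqH895.lean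
section
/-
S55, layer G, leaf **G-FI : the FIRST INEQUALITY** in Herbrand form (helper895), on helper421's
intrinsic model (`G/Defs.lean`).

For `L/K` a cyclic extension of number fields, `G = Gal(L/K) = ⟨σ⟩`, `S` a finite nonempty set
of rational primes, `C_S(L) = (J_S(L) × Div^S(L)) / Lˣ`:

  `h₀(C_S(L)) * ∏_{v | ∞} n_v = h₁(C_S(L)) * [L : K]`,   both finite

(`firstIneqSpec_of`), i.e. `|H²(G, C_S(L))| * ∏ n_v = |H¹(G, C_S(L))| * [L : K]`
(`firstIneq_card_of`), and `|H²(G, C_S(L))| = [L : K] * |H¹(G, C_S(L))|` for `[L : K]` odd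
(`firstIneq_card_of_odd`).

INPUTS (explicit hypotheses):
* `SUnitsHerbrandSpec` (block G-U, helper595, PROVED on main: `sUnitsHerbrandSpec`);
* `JHerbrandSpec` : `h₀(J_S(L)) = ∏_{v ∈ S_K} e_v f_v`, `h₁(J_S(L)) = 1`
  (leaf G-LOC + local norm index of layer L);
* `ClSFiniteSpec` : `[Div^S(L) : div(Lˣ)] < ∞` (finiteness of the `S`-class group, leaf G-SES).

The bookkeeping is the sequence `0 → E_S → J_S → C_S → Cl_S → 0`
(`jToC_ker`, `unitsDiag_injective`, `jToC_range_index`), see `KerCokerH895.lean`.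
No `sorry`.
-/






set_option autoImplicit false
set_option linter.unusedSectionVars false
set_option linter.style.haveILetI false

open Fermat.Agent.S55.G Fermat.Agent.S55.Herbrand
open scoped NumberField TensorProduct
open IsDedekindDomain

namespace Fermat.Agent.S55.G.FIH895

/-! ## 1. The primes of `K` above `S` -/

section Primes

variable (S : Finset Nat.Primes) (K : Type) [Field K] [NumberField K]

lemma natCast_ne_zero_of_prime (q : Nat.Primes) : ((q : ℕ) : 𝓞 K) ≠ 0 := by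
  exact_mod_cast q.2.ne_zero

/-- The set of primes of `K` above `S` is finite. -/
lemma finite_isAbove : {v : HeightOneSpectrum (𝓞 K) | IsAbove S K v}.Finite := by
  classical
  have h : {v : HeightOneSpectrum (𝓞 K) | IsAbove S K v} ⊆
      ⋃ q ∈ S, {v : HeightOneSpectrum (𝓞 K) | v.asIdeal ∣ Ideal.span {((q : ℕ) : 𝓞 K)}} := by
    rintro v ⟨q, hq, hv⟩
    simp only [Set.mem_iUnion, Set.mem_ofPred_eq, exists_prop]
    refine ⟨q, hq, ?_⟩
    rw [Ideal.dvd_iff_le, Ideal.span_singleton_le_iff_mem]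
    exact hv
  refine Set.Finite.subset ?_ h
  refine Set.Finite.biUnion S.finite_toSet fun q _ => ?_
  apply Ideal.finite_factors
  intro h0
  rw [Ideal.zero_eq_bot, Ideal.span_singleton_eq_bot] at h0
  exact natCast_ne_zero_of_prime K q h0

/-- The finite set `S_K` of primes of `K` above `S`. -/
noncomputable def primesOver : Finset (HeightOneSpectrum (𝓞 K)) := (finite_isAbove S K).toFinset

lemma mem_primesOver_iff (v : HeightOneSpectrum (𝓞 K)) : v ∈ primesOver S K ↔ IsAbove S K v := by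
  simp [primesOver]

end Primes

section Above

variable (S : Finset Nat.Primes) (K L : Type) [Field K] [Field L] [NumberField K] [NumberField L]
  [Algebra K L]

/-- The primes of `L` over `S_K` are the primes of `L` above `S`. -/
lemma primesAbove_primesOver :
    primesAbove K L (primesOver S K) = {w | IsAbove S L w} := by
  ext w
  simp only [primesAbove, Set.mem_ofPred_eq, mem_primesOver_iff]
  constructor
  · rintro ⟨v, ⟨q, hq, hv⟩, hwv⟩
    refine ⟨q, hq, ?_⟩
    rw [← hwv, Ideal.under_def, Ideal.mem_comap, map_natCast] at hv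
    exact hv
  · rintro ⟨q, hq, hw⟩
    have hmem : ((q : ℕ) : 𝓞 K) ∈ w.asIdeal.under (𝓞 K) := by
      rw [Ideal.under_def, Ideal.mem_comap, map_natCast]
      exact hw
    have hne : w.asIdeal.under (𝓞 K) ≠ ⊥ := by
      intro h
      rw [h, Ideal.mem_bot] at hmem
      exact natCast_ne_zero_of_prime K q hmem
    exact ⟨⟨w.asIdeal.under (𝓞 K), inferInstance, hne⟩, ⟨q, hq, hmem⟩, rfl⟩

/-- helper595's `T`-units for `T = S_K` are helper421's `S`-units. -/
lemma sUnits_primesOver : sUnits K L (primesOver S K) = (sUnit S L).toAddSubgroup := by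
  ext x
  unfold sUnits
  rw [primesAbove_primesOver]
  change x.toMul ∈ Set.unit _ L ↔ x ∈ sUnit S L
  rw [mem_sUnit_iff]
  constructor
  · intro h w
    rw [ordAt_eq_zero_iff]
    exact h w.1 w.2
  · intro h w hw
    have := h ⟨w, hw⟩
    rwa [ordAt_eq_zero_iff] at this

end Above

/-! ## 2. The diagonal embedding is injective -/

section Diag

variable (S : Finset Nat.Primes) (L : Type) [Field L] [CharZero L]

lemma nontrivial_QS (hS : S.Nonempty) : Nontrivial (QS S) := by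
  obtain ⟨q, hq⟩ := hS
  haveI : Nonempty S := ⟨⟨q, hq⟩⟩
  exact inferInstanceAs (Nontrivial (∀ q : S, Qq q.1))

lemma asDiag_injective (hS : S.Nonempty) : Function.Injective (asDiag S L) := by
  haveI := nontrivial_QS S hS
  exact Algebra.TensorProduct.includeLeft_injective (S := ℚ) (algebraMap ℚ (QS S)).injective

lemma unitsDiag_injective (hS : S.Nonempty) : Function.Injective (unitsDiag S L) := by
  intro x y h
  apply Additive.toMul.injective
  apply Units.ext
  apply asDiag_injective S L hS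
  have := congrArg (fun z : Additive (AS S L)ˣ => ((z.toMul : (AS S L)ˣ) : AS S L)) h
  simpa only [coe_unitsDiag_apply] using this

end Diag

/-! ## 3. The map `J_S(L) → C_S(L)`: kernel, range, equivariance -/

section JToC

variable (S : Finset Nat.Primes) (L : Type) [Field L] [NumberField L]

/-- The map `J_S(L) → C_S(L)` as an additive map. -/
noncomputable def jToC : Additive (AS S L)ˣ →+ CS S L :=
  ((principal S L).mkQ.toAddMonoidHom).comp
    (AddMonoidHom.inl (Additive (AS S L)ˣ) (PrimeOut S L →₀ ℤ))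

lemma jToC_apply (j : Additive (AS S L)ˣ) :
    jToC S L j = (principal S L).mkQ ((j, 0) : JD S L) := rfl

/-- `ker (J_S → C_S) = E_S` (embedded diagonally). -/
lemma jToC_ker : (jToC S L).ker = (sUnit S L).toAddSubgroup.map (unitsDiag S L) := by
  ext j
  rw [AddMonoidHom.mem_ker, jToC_apply, Submodule.mkQ_apply, Submodule.Quotient.mk_eq_zero,
    mem_principal_iff, AddSubgroup.mem_map]
  constructor
  · rintro ⟨x, hx⟩
    have h1 : unitsDiag S L x = j := congrArg Prod.fst hx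
    have h2 : ordHom S L x = 0 := congrArg Prod.snd hx
    exact ⟨x, h2, h1⟩
  · rintro ⟨x, hx, rfl⟩
    refine ⟨x, Prod.ext rfl ?_⟩
    exact hx

lemma jToC_range : (jToC S L).range = (jImage S L).toAddSubgroup := by
  ext c
  constructor
  · rintro ⟨j, rfl⟩
    exact ⟨j, rfl⟩
  · rintro ⟨j, rfl⟩
    exact ⟨j, rfl⟩

/-- `[C_S : im J_S] = [Div^S : div(Lˣ)]` (the order of the `S`-class group). -/
lemma jToC_range_index : (jToC S L).range.index = (ordHom S L).range.index := by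
  have h1 : (jToC S L).range =
      ((AddMonoidHom.inl (Additive (AS S L)ˣ) (PrimeOut S L →₀ ℤ)).range).map
        (principal S L).mkQ.toAddMonoidHom := by
    rw [jToC, AddMonoidHom.range_comp]
  have hsurj : Function.Surjective (principal S L).mkQ.toAddMonoidHom :=
    (principal S L).mkQ_surjective
  have hker : ((principal S L).mkQ.toAddMonoidHom).ker = (principal S L).toAddSubgroup := by
    ext y
    rw [AddMonoidHom.mem_ker]
    exact Submodule.Quotient.mk_eq_zero _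
  have h2 : (AddMonoidHom.inl (Additive (AS S L)ˣ) (PrimeOut S L →₀ ℤ)).range ⊔
      (principal S L).toAddSubgroup =
      (ordHom S L).range.comap (AddMonoidHom.snd (Additive (AS S L)ˣ) (PrimeOut S L →₀ ℤ)) := by
    apply le_antisymm
    · refine sup_le ?_ ?_
      · rintro _ ⟨j, rfl⟩
        exact ⟨0, by simp⟩
      · rintro _ ⟨x, rfl⟩
        exact ⟨x, rfl⟩
    · rintro ⟨j, d⟩ ⟨x, hx⟩
      have hx' : ordHom S L x = d := hx
      rw [AddSubgroup.mem_sup]
      refine ⟨(j - unitsDiag S L x, 0), ⟨j - unitsDiag S L x, rfl⟩, diagHom S L x, ⟨x, rfl⟩, ?_⟩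
      refine Prod.ext ?_ ?_
      · simp
      · simp [hx']
  have hrange : ((principal S L).mkQ.toAddMonoidHom).range = ⊤ :=
    AddMonoidHom.range_eq_top.2 hsurj
  rw [h1, AddSubgroup.index_map, hker, h2, hrange, AddSubgroup.index_top, mul_one,
    AddSubgroup.index_comap_of_surjective]
  exact fun d => ⟨(0, d), rfl⟩

variable (G : Type) [Group G] [MulSemiringAction G L]

lemma jToC_equivariant (g : G) (j : Additive (AS S L)ˣ) :
    jToC S L (jRepr G S L g j) = cRepr S G L g (jToC S L j) := by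
  rw [jToC_apply, jToC_apply]
  change _ = (principal S L).mkQ (jdRepr S G L g ((j, 0) : JD S L))
  have h : ((jRepr G S L g j, 0) : JD S L) = jdRepr S G L g ((j, 0) : JD S L) := by
    refine Prod.ext rfl ?_
    simp [jdRepr, Representation.prod]
  rw [h]

lemma jToCRepHom_apply (j : Additive (AS S L)ˣ) :
    (jToCRepHom S G L).hom j = jToC S L j := rfl

end JToC

/-! ## 4. Specs -/

/-- **(J) Herbrand indices of the `S`-idèles**: for `L/K` cyclic with generator `σ`,
`h₀(J_S(L)) = ∏_{v ∈ S_K} e_v f_v` and `h₁(J_S(L)) = 1`.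
(Leaf G-LOC: `(L ⊗ ℚ_q)ˣ = ∏_{v | q} Ind_{G_w}^G L_wˣ`, Shapiro in Herbrand form, and the local
norm index `[K_vˣ : N L_wˣ] = e_v f_v`, Hilbert 90.) -/
def JHerbrandSpec : Prop :=
  ∀ (K L : Type) [Field K] [Field L] [NumberField K] [NumberField L] [Algebra K L]
    [IsGalois K L] (σ : L ≃ₐ[K] L), (∀ τ : L ≃ₐ[K] L, τ ∈ Subgroup.zpowers σ) →
    ∀ S : Finset Nat.Primes,
      h0 (gAct (JRep (L ≃ₐ[K] L) S L) σ) (Nat.card (L ≃ₐ[K] L)) =
        finDegProd K L (primesOver S K) ∧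
      h1 (gAct (JRep (L ≃ₐ[K] L) S L) σ) (Nat.card (L ≃ₐ[K] L)) = 1

/-- **(Cl) finiteness of the `S`-class group**: `div(Lˣ)` has finite index in `Div^S(L)`. -/
def ClSFiniteSpec : Prop :=
  ∀ (L : Type) [Field L] [NumberField L] (S : Finset Nat.Primes), (ordHom S L).range.index ≠ 0

/-- **(FI) first inequality, Herbrand form**: for `L/K` cyclic with generator `σ` and `S ≠ ∅`,
`h₀(C_S(L)) * ∏_{v | ∞} n_v = h₁(C_S(L)) * [L : K]`, both indices finite. -/
def FirstIneqSpec : Prop :=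
  ∀ (K L : Type) [Field K] [Field L] [NumberField K] [NumberField L] [Algebra K L]
    [IsGalois K L] (σ : L ≃ₐ[K] L), (∀ τ : L ≃ₐ[K] L, τ ∈ Subgroup.zpowers σ) →
    ∀ S : Finset Nat.Primes, S.Nonempty →
      h0 (gAct (CRep S (L ≃ₐ[K] L) L) σ) (Nat.card (L ≃ₐ[K] L)) ≠ 0 ∧
      h1 (gAct (CRep S (L ≃ₐ[K] L) L) σ) (Nat.card (L ≃ₐ[K] L)) ≠ 0 ∧
      h0 (gAct (CRep S (L ≃ₐ[K] L) L) σ) (Nat.card (L ≃ₐ[K] L)) * infDegProd K L =
        h1 (gAct (CRep S (L ≃ₐ[K] L) L) σ) (Nat.card (L ≃ₐ[K] L)) * Module.finrank K L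

/-! ## 5. Assembly -/

section Assembly

variable (K L : Type) [Field K] [Field L] [NumberField K] [NumberField L] [Algebra K L]
  [IsGalois K L]

lemma delta_gAct_LRep (σ : L ≃ₐ[K] L) :
    (delta (gAct (LRep (L ≃ₐ[K] L) L) σ) : Additive Lˣ →+ Additive Lˣ) = unitsAug K L σ := rfl

lemma normN_gAct_LRep (σ : L ≃ₐ[K] L) (hσ : ∀ τ : L ≃ₐ[K] L, τ ∈ Subgroup.zpowers σ) :
    (normN (gAct (LRep (L ≃ₐ[K] L) L) σ) (Nat.card (L ≃ₐ[K] L)) :
      Additive Lˣ →+ Additive Lˣ) = unitsNorm K L := by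
  refine AddMonoidHom.ext fun x => ?_
  refine (normN_gAct_apply (LRep (L ≃ₐ[K] L) L) σ hσ x).trans ?_
  unfold unitsNorm
  rw [AddMonoidHom.finsetSum_apply]
  rfl

lemma finDegProd_ne_zero (T : Finset (HeightOneSpectrum (𝓞 K))) : finDegProd K L T ≠ 0 := by
  unfold finDegProd
  refine Finset.prod_ne_zero_iff.2 fun v _ => mul_ne_zero ?_ ?_
  · exact Ideal.ramificationIdxIn_ne_zero (L ≃ₐ[K] L)
  · exact Ideal.inertiaDegIn_ne_zero (L ≃ₐ[K] L)

end Assembly

lemma firstIneq_arith (a a' c c' n I P : ℕ) (ha' : a' ≠ 0) (hP : P ≠ 0)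
    (hc : a * c = a' * c' * P) (hu : a * n = a' * (I * P)) : c * I = c' * n := by
  have key : (c * I) * (a' * P) = (c' * n) * (a' * P) := by
    calc (c * I) * (a' * P) = c * (a' * (I * P)) := by ring
      _ = c * (a * n) := by rw [hu]
      _ = (a * c) * n := by ring
      _ = (a' * c' * P) * n := by rw [hc]
      _ = _ := by ring
  exact Nat.eq_of_mul_eq_mul_right (Nat.pos_of_ne_zero (mul_ne_zero ha' hP)) key

/-- **First inequality (Herbrand form) from its three inputs.** -/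
theorem firstIneqSpec_of (hU : SUnitsHerbrandSpec.{0, 0}) (hJ : JHerbrandSpec)
    (hCl : ClSFiniteSpec) : FirstIneqSpec := by
  intro K L _ _ _ _ _ _ σ hσ S hS
  obtain ⟨u1, u2, u3⟩ := hU K L σ hσ (primesOver S K)
  obtain ⟨j0, j1⟩ := hJ K L σ hσ S
  unfold h0 at j0
  unfold h1 at j1
  rw [sUnits_primesOver] at u1 u2 u3
  rw [← delta_gAct_LRep, ← normN_gAct_LRep K L σ hσ] at u1 u2 u3
  have hP : finDegProd K L (primesOver S K) ≠ 0 := finDegProd_ne_zero K L _
  have hισ : ∀ u : Additive Lˣ, unitsDiag S L (gAct (LRep (L ≃ₐ[K] L) L) σ u) =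
      gAct (JRep (L ≃ₐ[K] L) S L) σ (unitsDiag S L u) :=
    fun u => unitsDiag_equivariant (L ≃ₐ[K] L) S L σ u
  have hφσ : ∀ j : Additive (AS S L)ˣ, jToC S L (gAct (JRep (L ≃ₐ[K] L) S L) σ j) =
      gAct (CRep S (L ≃ₐ[K] L) L) σ (jToC S L j) :=
    fun j => jToC_equivariant S L (L ≃ₐ[K] L) σ j
  have hJpow := gAct_pow_card (JRep (L ≃ₐ[K] L) S L) σ
  have hCpow := gAct_pow_card (CRep S (L ≃ₐ[K] L) L) σ
  have hfin : (jToC S L).range.index ≠ 0 := by
    rw [jToC_range_index]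
    exact hCl L S
  obtain ⟨⟨c0, c1⟩, hc⟩ := kerCoker
    (delta (gAct (LRep (L ≃ₐ[K] L) L) σ))
    (normN (gAct (LRep (L ≃ₐ[K] L) L) σ) (Nat.card (L ≃ₐ[K] L)))
    (delta (gAct (JRep (L ≃ₐ[K] L) S L) σ))
    (normN (gAct (JRep (L ≃ₐ[K] L) S L) σ) (Nat.card (L ≃ₐ[K] L)))
    (delta (gAct (CRep S (L ≃ₐ[K] L) L) σ))
    (normN (gAct (CRep S (L ≃ₐ[K] L) L) σ) (Nat.card (L ≃ₐ[K] L)))
    (unitsDiag S L) (jToC S L) (sUnit S L).toAddSubgroup
    (unitsDiag_injective S L hS)
    (fun u => map_delta_of_comm hισ u) (fun u => map_normN_of_comm hισ _ u)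
    (fun j => map_delta_of_comm hφσ j) (fun j => map_normN_of_comm hφσ _ j)
    (jToC_ker S L) hfin
    (fun j => delta_normN hJpow j) (fun j => normN_delta hJpow j)
    (fun c => delta_normN hCpow c) (fun c => normN_delta hCpow c)
    ⟨u1, u2⟩ ⟨by rw [j0]; exact hP, by rw [j1]; exact one_ne_zero⟩
  refine ⟨c0, c1, ?_⟩
  change hIndex _ _ * _ = hIndex _ _ * _
  rw [j0, j1, mul_one] at hc
  exact firstIneq_arith _ _ _ _ _ _ _ u2 hP hc u3

/-! ## 6. Cohomological form -/

section Card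

open groupCohomology

variable (K L : Type) [Field K] [Field L] [NumberField K] [NumberField L] [Algebra K L]
  [IsGalois K L]

/-- For `[L : K]` odd no infinite place ramifies: `∏_{v | ∞} n_v = 1`. -/
lemma infDegProd_eq_one_of_odd (hodd : Odd (Module.finrank K L)) : infDegProd K L = 1 := by
  unfold infDegProd
  refine Finset.prod_eq_one fun v _ => ?_
  rw [if_pos]
  by_contra hv
  exact (Nat.not_even_iff_odd.2 hodd)
    (NumberField.InfinitePlace.even_finrank_of_not_isUnramifiedIn hv)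

/-- **First inequality, cohomological form**: `H¹(G, C_S(L))` and `H²(G, C_S(L))` are finite and
`|H²(G, C_S(L))| * ∏_{v | ∞} n_v = |H¹(G, C_S(L))| * [L : K]`. -/
theorem firstIneq_card_of (hFI : FirstIneqSpec) (σ : L ≃ₐ[K] L)
    (hσ : ∀ τ : L ≃ₐ[K] L, τ ∈ Subgroup.zpowers σ) (S : Finset Nat.Primes) (hS : S.Nonempty) :
    Finite (groupCohomology (CRep S (L ≃ₐ[K] L) L) 1) ∧
    Finite (groupCohomology (CRep S (L ≃ₐ[K] L) L) 2) ∧
    Nat.card (groupCohomology (CRep S (L ≃ₐ[K] L) L) 2) * infDegProd K L =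
      Nat.card (groupCohomology (CRep S (L ≃ₐ[K] L) L) 1) * Module.finrank K L := by
  obtain ⟨c0, c1, hc⟩ := hFI K L σ hσ S hS
  rw [← card_H2_eq_h0 (CRep S (L ≃ₐ[K] L) L) σ hσ] at c0 hc
  rw [← card_H1_eq_h1 (CRep S (L ≃ₐ[K] L) L) σ hσ] at c1 hc
  exact ⟨(Nat.card_ne_zero.1 c1).2, (Nat.card_ne_zero.1 c0).2, hc⟩

/-- **First inequality for odd degree**: `|H²(G, C_S(L))| = [L : K] * |H¹(G, C_S(L))|`. -/
theorem firstIneq_card_of_odd (hFI : FirstIneqSpec) (σ : L ≃ₐ[K] L)
    (hσ : ∀ τ : L ≃ₐ[K] L, τ ∈ Subgroup.zpowers σ) (S : Finset Nat.Primes) (hS : S.Nonempty)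
    (hodd : Odd (Module.finrank K L)) :
    Finite (groupCohomology (CRep S (L ≃ₐ[K] L) L) 1) ∧
    Finite (groupCohomology (CRep S (L ≃ₐ[K] L) L) 2) ∧
    Nat.card (groupCohomology (CRep S (L ≃ₐ[K] L) L) 2) =
      Module.finrank K L * Nat.card (groupCohomology (CRep S (L ≃ₐ[K] L) L) 1) := by
  obtain ⟨f1, f2, h⟩ := firstIneq_card_of K L hFI σ hσ S hS
  rw [infDegProd_eq_one_of_odd K L hodd, mul_one] at h
  exact ⟨f1, f2, by rw [h, mul_comm]⟩

/-- In particular `[L : K]` divides `|H²(G, C_S(L))|` (the first inequality proper). -/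
theorem finrank_dvd_card_H2_of_odd (hFI : FirstIneqSpec) (σ : L ≃ₐ[K] L)
    (hσ : ∀ τ : L ≃ₐ[K] L, τ ∈ Subgroup.zpowers σ) (S : Finset Nat.Primes) (hS : S.Nonempty)
    (hodd : Odd (Module.finrank K L)) :
    Module.finrank K L ∣ Nat.card (groupCohomology (CRep S (L ≃ₐ[K] L) L) 2) :=
  ⟨_, (firstIneq_card_of_odd K L hFI σ hσ S hS hodd).2.2⟩

end Card

end Fermat.Agent.S55.G.FIH895

end
-- ===== PACK-END S55/G/FI/FirstIneqH895.lean

-- ===== PACK-BEGIN S55/H953/PadicNormIndex.lean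
section


/-!
# S55 / local norm index theorem for finite extensions of `ℚ_[q]` (Mathlib-only statement)

For `K` a finite extension of `ℚ_[q]` and `L/K` a finite cyclic Galois extension:
`[Kˣ : N_{L/K}(Lˣ)] = [L : K]`.
-/

set_option autoImplicit false

namespace Fermat.Agent.S55.H953

/-- **Local norm index theorem** for a complete, locally compact, ultrametric, nontrivially
normed base field `K` and an abstract finite cyclic extension `L/K`. -/
theorem norm_index_eq_finrank_of_proper (K L : Type) [NontriviallyNormedField K]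
    [IsUltrametricDist K] [ProperSpace K] [Field L] [Algebra K L] [FiniteDimensional K L]
    [IsGalois K L] [IsCyclic (L ≃ₐ[K] L)] :
    (Units.map (Algebra.norm K : L →* K)).range.index = Module.finrank K L := by
  letI : NormedField L := spectralNorm.normedField K L
  letI : NormedAlgebra K L := spectralNorm.normedAlgebra K L
  haveI : ProperSpace L := FiniteDimensional.proper K L
  exact norm_index_eq_finrank_of_normed

/-- **Local norm index theorem**: for `K/ℚ_[q]` finite and `L/K` finite cyclic Galois,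
`[Kˣ : N_{L/K}(Lˣ)] = [L : K]`. -/
theorem padic_norm_index_eq_finrank (q : ℕ) [Fact q.Prime] (K L : Type) [Field K] [Field L]
    [Algebra ℚ_[q] K] [FiniteDimensional ℚ_[q] K] [Algebra K L] [FiniteDimensional K L]
    [IsGalois K L] [IsCyclic (L ≃ₐ[K] L)] :
    (Units.map (Algebra.norm K : L →* K)).range.index = Module.finrank K L := by
  letI : NontriviallyNormedField K := spectralNorm.nontriviallyNormedField ℚ_[q] K
  letI : NormedAlgebra ℚ_[q] K := spectralNorm.normedAlgebra ℚ_[q] K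
  haveI : IsUltrametricDist K := IsUltrametricDist.of_normedAlgebra ℚ_[q]
  haveI : ProperSpace K := FiniteDimensional.proper ℚ_[q] K
  exact norm_index_eq_finrank_of_proper K L

end Fermat.Agent.S55.H953

end
-- ===== PACK-END S55/H953/PadicNormIndex.lean

-- ===== PACK-BEGIN S55/T/NakH837/Lattice.lean
section


/-!
# S55, layer T, leaf T6 (helper837): dimension shifting preserves lattices

If `A` is finitely generated and free over a PID `k`, so are `coind₁ A` and `up A = coind₁ A / A`.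
-/

set_option autoImplicit false
set_option linter.unusedSectionVars false
set_option linter.style.haveILetI false

open CategoryTheory groupCohomology

namespace Fermat.Agent.S55.T.H837

open Fermat.Agent.S55.H572

noncomputable section

variable {k G : Type} [CommRing k] [Group G]

/-- `coind₁ A` is the module of all functions `G → A`. -/
def coind₁Equiv (A : Rep.{0} k G) : (coind₁ A).V ≃ₗ[k] (G → A.V) where
  toFun φ := φ.1
  map_add' _ _ := rfl
  map_smul' _ _ := rfl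
  invFun f := mkCoind (Rep.res (⊥ : Subgroup G).subtype A) f
  left_inv _ := rfl
  right_inv _ := rfl

theorem finite_coind₁ [Finite G] (A : Rep.{0} k G) [Module.Finite k A.V] :
    Module.Finite k (coind₁ A).V :=
  Module.Finite.equiv (coind₁Equiv A).symm

theorem free_coind₁ [Finite G] (A : Rep.{0} k G) [Module.Free k A.V] :
    Module.Free k (coind₁ A).V :=
  Module.Free.of_equiv (coind₁Equiv A).symm

theorem finite_up [Finite G] (A : Rep.{0} k G) [Module.Finite k A.V] :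
    Module.Finite k (up A).V := by
  haveI : Module.Finite k (coind₁ A).V := finite_coind₁ A
  exact Module.Finite.of_surjective (upπ A).hom.toLinearMap
    ((Rep.epi_iff_surjective (upπ A)).1 inferInstance)

/-- Concrete exactness of `A → coind₁ A → up A`. -/
lemma exists_of_upπ_eq_zero (A : Rep.{0} k G) (φ : (coind₁ A).V) (h : (upπ A).hom φ = 0) :
    ∃ a : A.V, (coind₁ι A).hom a = φ := by
  have hr : LinearMap.range (upSC A).f.hom.toLinearMap = LinearMap.ker (upSC A).g.hom.toLinearMap :=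
    ((upSC_shortExact A).exact.map (forget₂ (Rep k G) (ModuleCat k))).moduleCat_range_eq_ker
  have : φ ∈ LinearMap.ker (upSC A).g.hom.toLinearMap := h
  rw [← hr] at this
  exact this

theorem isTorsionFree_up [IsDomain k] (A : Rep.{0} k G) [Module.IsTorsionFree k A.V] :
    Module.IsTorsionFree k (up A).V where
  isSMulRegular r hr := by
    have hr0 : r ≠ 0 := hr.ne_zero
    intro y₁ y₂ hy
    have hy' : r • (y₁ - y₂) = 0 := by
      rw [smul_sub]; exact sub_eq_zero.2 hy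
    obtain ⟨φ, hφ⟩ := (Rep.epi_iff_surjective (upπ A)).1 inferInstance (y₁ - y₂)
    have h0 : (upπ A).hom (r • φ) = 0 := by
      rw [map_smul, hφ, hy']
    obtain ⟨a, ha⟩ := exists_of_upπ_eq_zero A _ h0
    have h1 : ∀ x : G, r • φ.1 x = A.ρ x a := fun x => by
      have := congrArg (fun ψ : (coind₁ A).V => ψ.1 x) ha
      rw [← coind₁ι_hom_apply A a x]
      exact this.symm
    have h2 : (coind₁ι A).hom (φ.1 1) = φ := by
      apply Subtype.ext
      funext x
      rw [coind₁ι_hom_apply]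
      apply smul_right_injective (M := A.V) hr0
      change r • A.ρ x (φ.1 1) = r • φ.1 x
      rw [← map_smul, h1 1, h1 x, map_one]
      rfl
    have h3 : y₁ - y₂ = 0 := by
      rw [← hφ, ← h2]
      exact congrArg (fun m : A ⟶ up A => m.hom (φ.1 1)) (upSC A).zero
    exact sub_eq_zero.1 h3

/-- `up A` is finitely generated free over a PID if `A` is. -/
theorem free_up [Finite G] [IsDomain k] [IsPrincipalIdealRing k] (A : Rep.{0} k G)
    [Module.Free k A.V] [Module.Finite k A.V] : Module.Free k (up A).V := by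
  haveI : Module.Finite k (up A).V := finite_up A
  haveI : Module.IsTorsionFree k A.V := inferInstance
  haveI : Module.IsTorsionFree k (up A).V := isTorsionFree_up A
  exact Module.free_of_finite_type_torsion_free'

/-- The invariants of a lattice over a PID are free. -/
theorem free_invariants [IsDomain k] [IsPrincipalIdealRing k] (L : Rep.{0} k G)
    [Module.Free k L.V] [Module.Finite k L.V] : Module.Free k L.ρ.invariants := by
  haveI : IsNoetherian k L.V := isNoetherian_of_isNoetherianRing_of_finite k L.V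
  haveI : Module.Finite k L.ρ.invariants :=
    Module.Finite.of_injective L.ρ.invariants.subtype Subtype.val_injective
  haveI : Module.IsTorsionFree k L.V := inferInstance
  haveI : Module.IsTorsionFree k L.ρ.invariants :=
    Function.Injective.moduleIsTorsionFree L.ρ.invariants.subtype Subtype.val_injective
      (fun _ _ => rfl)
  exact Module.free_of_finite_type_torsion_free'

end

end Fermat.Agent.S55.T.H837

end
-- ===== PACK-END S55/T/NakH837/Lattice.lean

-- ===== PACK-BEGIN S55/G/PL1H597/Inj.lean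
section
/-
S55 (Poitou–Tate), layer G, leaf G-PL1 (`PlacePrimeSpec`) — helper597.
Part 3: injectivity of `𝔪 ↦ primeOf 𝔪` (approximation argument).
-/


set_option autoImplicit false
set_option linter.unusedSectionVars false
set_option linter.style.haveILetI false
set_option linter.unusedSimpArgs false
set_option backward.isDefEq.respectTransparency false

open scoped NumberField TensorProduct
open IsDedekindDomain Polynomial

noncomputable section

namespace Fermat.Agent.S55.G.PL1H597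

open Fermat.Agent.S55.G

variable {S : Finset Nat.Primes} {L : Type} [Field L] [NumberField L]

/-! ### `intA 𝔪 ∩ L` is the localisation of `𝓞 L` at `primeOf 𝔪` -/

lemma inv_mem_intA_of_notMem (𝔪 : SPlace S L) (d : 𝓞 L) (hd : d ∉ (primeOf 𝔪).asIdeal) :
    (toLoc S 𝔪 (d : L))⁻¹ ∈ intA 𝔪 := by
  rw [mem_primeOf_iff, mem_nonunits_iff_inv] at hd
  push Not at hd
  exact hd.2

lemma toLoc_coe_mem_intA (𝔪 : SPlace S L) (a : 𝓞 L) : toLoc S 𝔪 (a : L) ∈ intA 𝔪 :=
  toLoc_mem_intA_of_isIntegral 𝔪 _ (NumberField.RingOfIntegers.isIntegral_coe a)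

lemma toLoc_mem_intA_iff (𝔪 : SPlace S L) (x : L) :
    toLoc S 𝔪 x ∈ intA 𝔪 ↔
      ∃ (n d : 𝓞 L), d ∉ (primeOf 𝔪).asIdeal ∧ x * (d : L) = (n : L) := by
  constructor
  · intro hx
    obtain ⟨n, ⟨d, hd⟩, h | h⟩ :=
      (primeOf 𝔪).exists_primeCompl_mul_eq_or_mul_eq (K := L) x
    · exact ⟨n, d, hd, h⟩
    · refine ⟨d, n, ?_, h⟩
      intro hn
      apply hd
      change d ∈ (primeOf 𝔪).asIdeal
      rw [mem_primeOf_iff, ValuationSubring.mem_nonunits_iff] at hn ⊢
      have h1 : toLoc S 𝔪 (d : L) = toLoc S 𝔪 x * toLoc S 𝔪 (n : L) := by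
        rw [← map_mul]
        exact congrArg _ h.symm
      rw [h1, map_mul]
      have h2 : (intA 𝔪).valuation (toLoc S 𝔪 x) ≤ 1 := ((intA 𝔪).valuation_le_one_iff _).2 hx
      calc (intA 𝔪).valuation (toLoc S 𝔪 x) * (intA 𝔪).valuation (toLoc S 𝔪 (n : L))
          ≤ 1 * (intA 𝔪).valuation (toLoc S 𝔪 (n : L)) := mul_le_mul_left h2 _
        _ < 1 := by rw [one_mul]; exact hn
  · rintro ⟨n, d, hd, h⟩
    have hd0 : toLoc S 𝔪 (d : L) ≠ 0 := by
      intro h0
      apply hd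
      rw [mem_primeOf_iff, h0]
      exact (mem_nonunits_iff_inv _ _).2 (Or.inl rfl)
    have h1 : toLoc S 𝔪 x = toLoc S 𝔪 (n : L) * (toLoc S 𝔪 (d : L))⁻¹ := by
      rw [eq_mul_inv_iff_mul_eq₀ hd0, ← map_mul, h]
    rw [h1]
    exact (intA 𝔪).mul_mem _ _ (toLoc_coe_mem_intA 𝔪 n) (inv_mem_intA_of_notMem 𝔪 d hd)

lemma toLoc_mem_intA_congr {𝔪 𝔪' : SPlace S L} (h : primeOf 𝔪 = primeOf 𝔪') (x : L) :
    toLoc S 𝔪 x ∈ intA 𝔪 ↔ toLoc S 𝔪' x ∈ intA 𝔪' := by
  rw [toLoc_mem_intA_iff, toLoc_mem_intA_iff, h]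

/-! ### The lattice `𝓞 L ⊗ ℤ_q` -/

/-- The additive subgroup of `L ⊗ ℚ_S` generated by the `a ⊗ b` with `a` integral and `b`
integral at `q`. -/
def R1 (q : S) : AddSubgroup (AS S L) :=
  AddSubgroup.closure
    {y | ∃ (a : 𝓞 L) (b : QS S), ‖QS.toPi S b q‖ ≤ 1 ∧ y = (a : L) ⊗ₜ[ℚ] b}

lemma exists_pow_mul_norm_le_one (q : Nat.Primes) (b : Qq q) :
    ∃ k : ℕ, ‖(((q : ℕ) : ℕ) : Qq q) ^ k * b‖ ≤ 1 := by
  haveI : Fact (q : ℕ).Prime := ⟨q.2⟩
  have hq1 : (1 : ℝ) < ((q : ℕ) : ℝ) := by exact_mod_cast q.2.one_lt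
  have hq0 : (0 : ℝ) < ((q : ℕ) : ℝ) := by linarith
  obtain ⟨k, hk⟩ := pow_unbounded_of_one_lt ‖b‖ hq1
  refine ⟨k, ?_⟩
  have h2 : ‖(((q : ℕ) : ℕ) : Qq q)‖ = ((q : ℕ) : ℝ)⁻¹ := Padic.norm_p
  rw [norm_mul, norm_pow, h2, inv_pow]
  rw [inv_mul_le_iff₀ (pow_pos hq0 k), mul_one]
  exact hk.le

lemma exists_zsmul_mem_R1 (q : S) (z : AS S L) : ∃ t : ℤ, t ≠ 0 ∧ t • z ∈ R1 (L := L) q := by
  induction z using TensorProduct.induction_on with
  | zero => exact ⟨1, one_ne_zero, by rw [smul_zero]; exact (R1 q).zero_mem⟩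
  | tmul x b =>
    obtain ⟨d, hd0, hd'⟩ := exists_integral_multiples ℤ ℚ ({x} : Finset L)
    have hd : IsIntegral ℤ (d • x) := hd' x (Finset.mem_singleton_self x)
    obtain ⟨k, hk⟩ := exists_pow_mul_norm_le_one q.1 (QS.toPi S b q)
    refine ⟨d * ((q.1 : ℕ) : ℤ) ^ k, mul_ne_zero hd0 (pow_ne_zero _ ?_), ?_⟩
    · exact_mod_cast q.1.2.ne_zero
    · apply AddSubgroup.subset_closure
      refine ⟨IsIntegralClosure.mk' (𝓞 L) (d • x) hd, (((q.1 : ℕ) : ℤ) ^ k) • b, ?_, ?_⟩
      · have : QS.toPi S ((((q.1 : ℕ) : ℤ) ^ k) • b) q =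
            (((q.1 : ℕ) : ℕ) : Qq q.1) ^ k * QS.toPi S b q := by
          rw [map_zsmul]
          simp [zsmul_eq_mul]
        rw [this]
        exact hk
      · rw [mul_smul, TensorProduct.smul_tmul', TensorProduct.smul_tmul',
          ← TensorProduct.smul_tmul]
        congr 1
        rw [smul_comm]
        congr 1
        exact (IsIntegralClosure.algebraMap_mk' (𝓞 L) (d • x) hd).symm
  | add z₁ z₂ h₁ h₂ =>
    obtain ⟨t₁, ht₁, hz₁⟩ := h₁
    obtain ⟨t₂, ht₂, hz₂⟩ := h₂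
    refine ⟨t₁ * t₂, mul_ne_zero ht₁ ht₂, ?_⟩
    rw [smul_add]
    refine (R1 q).add_mem ?_ ?_
    · rw [mul_comm, mul_smul]
      exact (R1 q).zsmul_mem hz₁ t₂
    · rw [mul_smul]
      exact (R1 q).zsmul_mem hz₂ t₁

/-- Approximation: modulo `q ^ k`, every element of the lattice is congruent to an element of
`𝓞 L`, simultaneously at all places over `q`. -/
lemma exists_approx (q : S) (k : ℕ) (y : AS S L) (hy : y ∈ R1 (L := L) q) :
    ∃ y₀ : 𝓞 L, ∀ (𝔪 : SPlace S L), Over 𝔪 q → ∃ α ∈ intA 𝔪,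
      LocField.mk S 𝔪 y - toLoc S 𝔪 (y₀ : L) = (((q.1 : ℕ) : ℕ) : LocField S 𝔪) ^ k * α := by
  haveI : Fact (q.1 : ℕ).Prime := ⟨q.1.2⟩
  induction hy using AddSubgroup.closure_induction with
  | mem y hy =>
    obtain ⟨a, b, hb, rfl⟩ := hy
    let bq : ℤ_[(q.1 : ℕ)] := ⟨QS.toPi S b q, hb⟩
    obtain ⟨c, hc⟩ := Ideal.mem_span_singleton'.1 (PadicInt.appr_spec k bq)
    have hc' : ((c : ℤ_[(q.1 : ℕ)]) : Qq q.1) * (((q.1 : ℕ) : ℕ) : Qq q.1) ^ k =
        QS.toPi S b q - ((bq.appr k : ℕ) : Qq q.1) := by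
      have := congrArg (fun u : ℤ_[(q.1 : ℕ)] => (u : ℚ_[(q.1 : ℕ)])) hc
      simpa [bq] using this
    refine ⟨(bq.appr k : ℕ) * a, fun 𝔪 h => ⟨toLoc S 𝔪 (a : L) * ofQq 𝔪 q h (c : Qq q.1), ?_, ?_⟩⟩
    · refine (intA 𝔪).mul_mem _ _ (toLoc_coe_mem_intA 𝔪 a) ?_
      rw [ofQq_mem_intA_iff]
      exact c.2
    · rw [mk_tmul, ofQS_eq_ofQq h]
      have h1 : QS.toPi S b q = (c : Qq q.1) * (((q.1 : ℕ) : ℕ) : Qq q.1) ^ k +
          ((bq.appr k : ℕ) : Qq q.1) := by
        rw [hc']; ring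
      rw [h1, map_add, map_mul, map_pow, map_natCast, map_natCast]
      push_cast
      rw [map_mul, map_natCast]
      ring
  | zero =>
    refine ⟨0, fun 𝔪 _ => ⟨0, (intA 𝔪).zero_mem, ?_⟩⟩
    simp
  | add y₁ y₂ _ _ h₁ h₂ =>
    obtain ⟨a₁, ha₁⟩ := h₁
    obtain ⟨a₂, ha₂⟩ := h₂
    refine ⟨a₁ + a₂, fun 𝔪 h => ?_⟩
    obtain ⟨α₁, hα₁, e₁⟩ := ha₁ 𝔪 h
    obtain ⟨α₂, hα₂, e₂⟩ := ha₂ 𝔪 h
    refine ⟨α₁ + α₂, (intA 𝔪).add_mem _ _ hα₁ hα₂, ?_⟩
    have : LocField.mk S 𝔪 (y₁ + y₂) - toLoc S 𝔪 ((a₁ + a₂ : 𝓞 L) : L) =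
        (LocField.mk S 𝔪 y₁ - toLoc S 𝔪 (a₁ : L)) + (LocField.mk S 𝔪 y₂ - toLoc S 𝔪 (a₂ : L)) := by
      push_cast
      rw [map_add, map_add]
      ring
    rw [this, e₁, e₂, mul_add]
  | neg y _ h₁ =>
    obtain ⟨a₁, ha₁⟩ := h₁
    refine ⟨-a₁, fun 𝔪 h => ?_⟩
    obtain ⟨α₁, hα₁, e₁⟩ := ha₁ 𝔪 h
    refine ⟨-α₁, (intA 𝔪).neg_mem _ hα₁, ?_⟩
    have : LocField.mk S 𝔪 (-y) - toLoc S 𝔪 ((-a₁ : 𝓞 L) : L) =
        -(LocField.mk S 𝔪 y - toLoc S 𝔪 (a₁ : L)) := by
      push_cast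
      rw [map_neg, map_neg]
      ring
    rw [this, e₁, mul_neg]

/-- An element of `L_𝔪` divisible by all powers of `q` in `intA 𝔪` is zero. -/
lemma eq_zero_of_forall_pow_dvd (𝔪 : SPlace S L) (q : S) (h : Over 𝔪 q) (c : LocField S 𝔪)
    (hc : ∀ k : ℕ, ∃ α ∈ intA 𝔪, c = (((q.1 : ℕ) : ℕ) : LocField S 𝔪) ^ k * α) : c = 0 := by
  obtain ⟨hdvr, -, -⟩ := intA_spec 𝔪
  haveI := hdvr
  have hcA : c ∈ intA 𝔪 := by
    obtain ⟨α, hα, e⟩ := hc 0
    rw [e, pow_zero, one_mul]
    exact hα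
  have hqA : (((q.1 : ℕ) : ℕ) : LocField S 𝔪) ∈ (intA 𝔪).nonunits := natCast_mem_nonunits 𝔪 q h
  obtain ⟨hq1, hq2⟩ := ValuationSubring.mem_nonunits_iff_exists_mem_maximalIdeal.1 hqA
  have hmem : ∀ k : ℕ, (⟨c, hcA⟩ : intA 𝔪) ∈ IsLocalRing.maximalIdeal (intA 𝔪) ^ k := by
    intro k
    obtain ⟨α, hα, e⟩ := hc k
    have : (⟨c, hcA⟩ : intA 𝔪) = ⟨_, hq1⟩ ^ k * ⟨α, hα⟩ := by
      apply Subtype.ext
      simpa using e
    rw [this]
    exact Ideal.mul_mem_right _ _ (Ideal.pow_mem_pow hq2 k)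
  have hbot : (⟨c, hcA⟩ : intA 𝔪) ∈ (⨅ k : ℕ, IsLocalRing.maximalIdeal (intA 𝔪) ^ k) :=
    (Ideal.mem_iInf).2 hmem
  rw [Ideal.iInf_pow_eq_bot_of_isLocalRing _ (IsLocalRing.maximalIdeal.isMaximal _).ne_top,
    Ideal.mem_bot] at hbot
  exact congrArg Subtype.val hbot

/-- Two places with the same prime below them have the same kernel. -/
lemma le_of_primeOf_eq {𝔪 𝔪' : SPlace S L} (h : primeOf 𝔪 = primeOf 𝔪') :
    𝔪.asIdeal ≤ 𝔪'.asIdeal := by
  intro z hz
  set q := qAt 𝔪 with hq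
  have hov : Over 𝔪 q := over_qAt 𝔪
  have hov' : Over 𝔪' q := by
    rw [over_iff_mem, ← h, ← over_iff_mem]
    exact hov
  obtain ⟨t, ht0, hty⟩ := exists_zsmul_mem_R1 (L := L) q z
  have hmk0 : LocField.mk S 𝔪 (t • z) = 0 := by
    rw [LocField.mk_eq_zero_iff]
    exact 𝔪.asIdeal.toAddSubgroup.zsmul_mem hz t
  have hqne : (((q.1 : ℕ) : ℕ) : L) ≠ 0 := by
    exact_mod_cast q.1.2.ne_zero
  have key : LocField.mk S 𝔪' (t • z) = 0 := by
    apply eq_zero_of_forall_pow_dvd 𝔪' q hov'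
    intro k
    obtain ⟨y₀, hy₀⟩ := exists_approx q k (t • z) hty
    obtain ⟨α, hα, e⟩ := hy₀ 𝔪 hov
    obtain ⟨α', hα', e'⟩ := hy₀ 𝔪' hov'
    rw [hmk0, zero_sub] at e
    -- `y₀ / q ^ k` is integral at `𝔪`, hence at `𝔪'`
    have hx : toLoc S 𝔪 ((y₀ : L) / (((q.1 : ℕ) : ℕ) : L) ^ k) ∈ intA 𝔪 := by
      have hqk : (((q.1 : ℕ) : ℕ) : LocField S 𝔪) ^ k ≠ 0 := by
        apply pow_ne_zero
        exact_mod_cast q.1.2.ne_zero
      have : toLoc S 𝔪 ((y₀ : L) / (((q.1 : ℕ) : ℕ) : L) ^ k) = -α := by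
        rw [map_div₀, map_pow, map_natCast, div_eq_iff hqk, mul_comm, mul_neg, ← e, neg_neg]
      rw [this]
      exact (intA 𝔪).neg_mem _ hα
    rw [toLoc_mem_intA_congr h] at hx
    refine ⟨α' + toLoc S 𝔪' ((y₀ : L) / (((q.1 : ℕ) : ℕ) : L) ^ k),
      (intA 𝔪').add_mem _ _ hα' hx, ?_⟩
    have hqk : (((q.1 : ℕ) : ℕ) : LocField S 𝔪') ^ k ≠ 0 := by
      apply pow_ne_zero
      exact_mod_cast q.1.2.ne_zero
    rw [mul_add, ← e', map_div₀, map_pow, map_natCast, mul_div_cancel₀ _ hqk]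
    ring
  rw [← LocField.mk_eq_zero_iff]
  have h1 : LocField.mk S 𝔪' (t • z) = (t : LocField S 𝔪') * LocField.mk S 𝔪' z := by
    rw [zsmul_eq_mul, map_mul, map_intCast]
  rw [h1] at key
  rcases mul_eq_zero.1 key with h0 | h0
  · exact absurd (by exact_mod_cast h0) ht0
  · exact h0

theorem primeOf_injective : Function.Injective (primeOf : SPlace S L → HeightOneSpectrum (𝓞 L)) := by
  intro 𝔪 𝔪' h
  apply MaximalSpectrum.ext
  exact 𝔪.isMaximal.eq_of_le 𝔪'.isMaximal.ne_top (le_of_primeOf_eq h)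

end Fermat.Agent.S55.G.PL1H597

end
end
-- ===== PACK-END S55/G/PL1H597/Inj.lean

-- ===== PACK-BEGIN S55/K/GO3H535/Spec.lean
section



/-!
# S55 / layer K / arithmetic input GO3 (`HasseESpec`) via the REC model   (helper535)

Route (no tower datum, no idèles):

  `hasseE_of : ShapiroInjSpec S → CapDivSpec p S → HassePrincipleSpec p → LocalInvSystem →
      HasseESpec p S`        (file `GO3H535/Main.lean`)

* evaluate a level-constant 2-cocycle `x` of `Ind_V 𝔼` at the coset `V`: a 2-cocycle `x'` of `V`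
  with values in `𝔼 ⊂ ℚ̄ˣ`, i.e. a class `ξ ∈ gBr V = Br(K_V)` with `p ξ = 0`;
* `ξ` is locally trivial at every place `(q, g)`:  `q ∉ S` by `inv_unram` + `inv_injective`
  (unit values, unramified level), `q ∈ S` by hypothesis + the conjugation homotopy;
* Hasse principle (`G.Rec.HassePrincipleSpec p`) ⇒ `x' = d z`, `z` a level cochain of `ℚ̄ˣ`;
* Hilbert 90 (landed `H844.exists_unit_of_levelCocycle844`) ⇒ `z` may be taken constant modulo
  an `S`-level;
* **`CapDivSpec`** (arithmetic leaf: capitulation of `p`-classes, Kummer) ⇒ `z` may be taken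
  `S`-unit valued;
* **`ShapiroInjSpec`** (formal leaf, = K-COL (d)) ⇒ `x` is a level-constant coboundary.

This file: the two leaf statements.  `def … : Prop` only, no `sorry`.
-/

set_option autoImplicit false

noncomputable section

namespace Fermat.Agent.S55.K.GO3H535

open groupCohomology Fermat.Agent.S55.PT Fermat.Agent.S55.Bridge

/-- `a ∈ ℚ̄ˣ` is `S`-smooth: fixed by some level `G_F`, `F/ℚ` finite unramified outside `S`. -/
def IsSm (S : Finset Nat.Primes) (a : Qbarˣ) : Prop :=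
  ∃ U ∈ (globalLevels S).levels, ∀ s ∈ U, s • a = a

/-- evaluation `Ind_V A → A` at a coset (`ℤ`-linear; equivariant for the stabiliser of the
coset). -/
def evAt (V : Subgroup _root_.Fermat.Agent.S55.PT.GQ) (A : Rep.{0, 0, 0} ℤ _root_.Fermat.Agent.S55.PT.GQ) (c : _root_.Fermat.Agent.S55.PT.GQ ⧸ V) : indG V A →ₗ[ℤ] A :=
  Finsupp.lapply c

/-- **GO3-CAPDIV** (arithmetic leaf).  `V = G_K` a level, `β` an `S`-smooth element such that for
every `σ ∈ V` the element `σβ/β` is, up to an `S`-unit, the `p`-th power of an `S`-smooth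
element (i.e. the `S`-divisor of `β` is `V`-invariant modulo `p`).  Then there is an `S`-smooth
`α` with `(σα/α)^p ≡ σβ/β` modulo `S`-units for all `σ ∈ V`.

Proof sketch.  `F ∋ β` a Galois `S`-level, `D = div^S_F(β)`; `D mod p` is `Gal(F/K)`-invariant and
`F/K` is unramified outside `S`, so `D = ext(𝔠) + p𝔞`, `𝔠 ∈ Div^S(K)`.  `Cl_S(K)` is finite:
`p^a h' 𝔠 = div(κ)`, `κ ∈ Kˣ`, `p ∤ h'`.  `δ := κ^(1/p^a)` and `α₂ := (β^h'/δ)^(1/p)` are `S`-smooth
(Kummer, `p ∈ S`: their radicands have `S`-divisors divisible by `p^a`, resp. `p`);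
`(σα₂/α₂)^p = (σβ/β)^h' · (δ/σδ)` and `δ/σδ ∈ μ_{p^a}`.  With `r h' + s p = 1`:
`α := α₂^r β^s`. -/
def CapDivSpec (p : ℕ) [Fact p.Prime] (S : Finset Nat.Primes) : Prop :=
  ExtCitation.pPrime p ∈ S →
  ∀ V ∈ (globalLevels S).levels, ∀ β : Qbarˣ, IsSm S β →
    (∀ σ ∈ V, ∃ w : Qbarˣ, IsSm S w ∧ IsSUnit S (w ^ p / (σ • β / β))) →
    ∃ α : Qbarˣ, IsSm S α ∧ ∀ σ ∈ V, IsSUnit S ((σ • α / α) ^ p / (σ • β / β))

/-- **GO3-SHAP** (formal leaf = injectivity of Shapiro's map on level-constant `H²`).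
If the evaluation at the coset `V` of a level-constant 2-cocycle `x` of `Ind_V A`, restricted
to `V`, is the coboundary of a cochain `y : V → A` which is constant modulo a level, then `x` is
a level-constant coboundary.

Proof sketch.  `U ≤ V` a normal level modulo which `x`, `y` are constant; all values are
`U`-invariant (K-I3), `(Ind_V A)^U = Ind_{V/U}(A^U)`, finite Shapiro (landed `T.ShapiroExplicitSpec`)
for `V/U ≤ G/U`, inflate back. -/
def ShapiroInjSpec (S : Finset Nat.Primes) : Prop :=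
  ∀ (A : Rep.{0, 0, 0} ℤ _root_.Fermat.Agent.S55.PT.GQ), ∀ V ∈ (globalLevels S).levels,
    ∀ x ∈ (globalLevels S).Z2 (indG V A),
    (∃ y : ↥V → A,
      (∃ U ∈ (globalLevels S).levels, U ≤ V ∧ ∀ v s : ↥V, (s : _root_.Fermat.Agent.S55.PT.GQ) ∈ U → y (v * s) = y v) ∧
      ∀ v₁ v₂ : ↥V,
        evAt V A ((1 : _root_.Fermat.Agent.S55.PT.GQ) : _root_.Fermat.Agent.S55.PT.GQ ⧸ V) (x ((v₁ : _root_.Fermat.Agent.S55.PT.GQ), (v₂ : _root_.Fermat.Agent.S55.PT.GQ))) =
          A.ρ (v₁ : _root_.Fermat.Agent.S55.PT.GQ) (y v₂) - y (v₁ * v₂) + y v₁) →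
    x ∈ (globalLevels S).B2 (indG V A)

end Fermat.Agent.S55.K.GO3H535

end

end
-- ===== PACK-END S55/K/GO3H535/Spec.lean

-- ===== PACK-BEGIN S55/KL/KummerH3ClosedH289.lean
section



/-!
# S55, layer KB, leaf KB-KUM3 (helper289): closed form

`kummerH3 : KummerH3Spec`, from `kummerH3_of` and `H304.deltaNat : DeltaNatSpec`.
-/

set_option autoImplicit false

namespace Fermat.Agent.S55.KL.H289

open Fermat.Agent.S55.KL

/-- **KB-KUM3.** -/
theorem kummerH3 : KummerH3Spec :=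
  kummerH3_of Fermat.Agent.S55.KL.H304.deltaNat

end Fermat.Agent.S55.KL.H289

end
-- ===== PACK-END S55/KL/KummerH3ClosedH289.lean

-- ===== PACK-BEGIN S55/H424/FinLocPrelude.lean
section






/-!
# `FIN-loc` in Prelude terms: level-constant 1-cocycles of `G_{ℚ_q}` form a finite-dim. space

For `N` a finite-dimensional `𝔽_p`-representation of the Prelude's local Galois group
`primeLocalGaloisGroup q` on which some level `r⁻¹(G_F)` (`F/ℚ` finite) acts trivially, the
space `cocycles₁ N ⊓ levelCochains₁ (primeLocalToGlobal q) N` of level-constant 1-cocycles is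
finite-dimensional (`prime_finiteDimensional_levelCocycles`).  Hence so is every quotient, in
particular the level-constant `H¹` (layer D input A2 = `PT.FinLocSpec`).

Inputs: local power index `[Eˣ : (Eˣ)^p] < ∞` (`H424.localField_index_range_pow_ne_zero`),
Kummer theory via Hilbert 90 (`H424.exists_kummer_level`), Krasner (`Bridge/Krasner.lean`).
-/

set_option autoImplicit false
set_option linter.unusedSectionVars false
set_option linter.style.haveILetI false

namespace Fermat.Agent.S55.H424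

open groupCohomology ExtCitation

/-- Local power index for finite extensions of `ℚ_q` inside `PadicAlgCl q`. -/
theorem padic_index_range_pow_ne_zero (q : ℕ) [Fact q.Prime]
    (E : IntermediateField ℚ_[q] (PadicAlgCl q)) (hE : FiniteDimensional ℚ_[q] E)
    (n : ℕ) (hn : n ≠ 0) :
    (powMonoidHom n : (↥E)ˣ →* (↥E)ˣ).range.index ≠ 0 :=
  localField_index_range_pow_ne_zero ℤ_[q] ℚ_[q] ↥E n hn

/-- There is one finite `E₁/ℚ_q` such that all level-constant 1-cocycles are right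
`Gal(ℚ̄_q/E₁)`-invariant. -/
theorem padic_cocycle_right_invariant (p : ℕ) [Fact p.Prime] (q : ℕ) [Fact q.Prime]
    (N : Rep.{0, 0, 0} (ZMod p) (PadicAlgCl q ≃ₐ[ℚ_[q]] PadicAlgCl q))
    (hN : ∃ F : IntermediateField ℚ (AlgebraicClosure ℚ), FiniteDimensional ℚ F ∧
      ∀ s, localGaloisToGlobal q s ∈ F.fixingSubgroup → ∀ a : N, N.ρ s a = a) :
    ∃ E₁ : IntermediateField ℚ_[q] (PadicAlgCl q), FiniteDimensional ℚ_[q] E₁ ∧
      ∀ c ∈ cocycles₁ N, IsLevelConstant₁ (localGaloisToGlobal q) c →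
        ∀ g s : PadicAlgCl q ≃ₐ[ℚ_[q]] PadicAlgCl q, s ∈ E₁.fixingSubgroup → c (g * s) = c g := by
  obtain ⟨F, hF, hFN⟩ := hN
  haveI := hF
  obtain ⟨E₀, hE₀, hE₀F⟩ := Bridge.exists_local_level_of_global q F
  haveI := hE₀
  obtain ⟨E₁, hE₁fin, -, hE₁⟩ := cocycle_right_invariant_of_kummer (k₀ := ℚ_[q])
    (Ω := PadicAlgCl q) p
    (fun E hE => padic_index_range_pow_ne_zero q E hE p (Fact.out : p.Prime).ne_zero) N E₀
    (fun s hs a => hFN s (hE₀F s hs) a)
  exact ⟨E₁, hE₁fin, fun c hc hlc g s hs =>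
    hE₁ c hc ((Bridge.isLevelConstant₁_local_iff q c).1 hlc) g s hs⟩

/-- `FIN-loc`, cocycle form, for `Gal(ℚ̄_q/ℚ_q)`. -/
theorem padic_finiteDimensional_levelCocycles (p : ℕ) [Fact p.Prime] (q : ℕ) [Fact q.Prime]
    (N : Rep.{0, 0, 0} (ZMod p) (PadicAlgCl q ≃ₐ[ℚ_[q]] PadicAlgCl q))
    [FiniteDimensional (ZMod p) N]
    (hN : ∃ F : IntermediateField ℚ (AlgebraicClosure ℚ), FiniteDimensional ℚ F ∧
      ∀ s, localGaloisToGlobal q s ∈ F.fixingSubgroup → ∀ a : N, N.ρ s a = a) :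
    FiniteDimensional (ZMod p)
      ↥(cocycles₁ N ⊓ levelCochains₁ (localGaloisToGlobal q) N) := by
  haveI : Normal ℚ_[q] (PadicAlgCl q) := IsAlgClosure.normal ℚ_[q] (PadicAlgCl q)
  obtain ⟨E₁, hE₁fin, hE₁⟩ := padic_cocycle_right_invariant p q N hN
  haveI := hE₁fin
  haveI : E₁.fixingSubgroup.FiniteIndex := fixingSubgroup_finiteIndex E₁
  exact finite_of_right_invariant E₁.fixingSubgroup _
    (fun c hc g s hs => hE₁ c hc.1 hc.2 g s hs)

/-- `FIN-loc`, cocycle form, for the Prelude's `primeLocalGaloisGroup q`. -/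
theorem prime_finiteDimensional_levelCocycles (p : ℕ) [Fact p.Prime] (q : Nat.Primes)
    (N : Rep.{0, 0, 0} (ZMod p) (primeLocalGaloisGroup q)) [FiniteDimensional (ZMod p) N]
    (hN : ∃ F : IntermediateField ℚ (AlgebraicClosure ℚ), FiniteDimensional ℚ F ∧
      ∀ s, primeLocalToGlobal q s ∈ F.fixingSubgroup → ∀ a : N, N.ρ s a = a) :
    FiniteDimensional (ZMod p)
      ↥(cocycles₁ N ⊓ levelCochains₁ (primeLocalToGlobal q) N) := by
  letI : Fact (q : ℕ).Prime := ⟨q.2⟩
  exact padic_finiteDimensional_levelCocycles p (q : ℕ) N hN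

/-- The single level killing all level-constant cocycles, in Prelude terms:
a finite `F₁/ℚ` such that every level-constant 1-cocycle is right-invariant under
`r⁻¹(G_{F₁})`. -/
theorem prime_cocycle_right_invariant (p : ℕ) [Fact p.Prime] (q : Nat.Primes)
    (N : Rep.{0, 0, 0} (ZMod p) (primeLocalGaloisGroup q))
    (hN : ∃ F : IntermediateField ℚ (AlgebraicClosure ℚ), FiniteDimensional ℚ F ∧
      ∀ s, primeLocalToGlobal q s ∈ F.fixingSubgroup → ∀ a : N, N.ρ s a = a) :
    ∃ F₁ : IntermediateField ℚ (AlgebraicClosure ℚ), FiniteDimensional ℚ F₁ ∧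
      ∀ c ∈ cocycles₁ N, IsLevelConstant₁ (primeLocalToGlobal q) c →
        ∀ g s : primeLocalGaloisGroup q, primeLocalToGlobal q s ∈ F₁.fixingSubgroup →
          c (g * s) = c g := by
  letI : Fact (q : ℕ).Prime := ⟨q.2⟩
  obtain ⟨E₁, hE₁fin, hE₁⟩ := padic_cocycle_right_invariant p (q : ℕ) N hN
  haveI := hE₁fin
  obtain ⟨F₁, hF₁, hF₁E⟩ := Bridge.exists_global_level_of_local (q : ℕ) E₁
  exact ⟨F₁, hF₁, fun c hc hlc g s hs => hE₁ c hc hlc g s (hF₁E s hs)⟩

end Fermat.Agent.S55.H424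

end
-- ===== PACK-END S55/H424/FinLocPrelude.lean

-- ===== PACK-BEGIN S55/KL/H510/Surj2Core.lean
section


/-!
# S55 / layer KL (helper53), leaf KL-P2 (`Surj2OfH3Spec`): core, independent of the location of
the interface `KL/Spec.lean` (imports only the landed `PT` layer)

`surj2OfH3_core_h510` is the statement of `Surj2OfH3Spec` with `H3Vanish`, `IsLC₃`, `IsCocycle₃`
unfolded.  Adapter (one line, wherever the Spec lives):

  `theorem surj2OfH3 : Surj2OfH3Spec := fun G _ L p _ hNC hH3 =>`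
  `  Fermat.Agent.S55.KL.H510.surj2OfH3_core_h510 G L p hNC hH3`

`H³_lc(G, R) = 0` for all finite `R` ⇒ `H²_lc(G, −)` is right exact.

Lift a cocycle `n` to the cochain `ñ = sec ∘ n` (`sec` a linear section of `φ`); `d ñ` is a
level-constant 3-cocycle with values in `R = ker φ`; write `d ñ = d b` with `b` a level-constant
2-cochain of `R`; then `ñ - b` is a level-constant 2-cocycle of `P` lifting `n`.
-/

set_option autoImplicit false
set_option linter.style.haveILetI false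

noncomputable section

namespace Fermat.Agent.S55.KL.H510

open groupCohomology ExtCitation Fermat.Agent.S55.PT

variable {k : Type} [Field k] {G : Type} [Group G]

/-- `d₂₃` of a cochain which is right-invariant under a normal subgroup `V` acting trivially on
the coefficients is right-invariant under `V` (in all three variables). -/
theorem d₂₃_rightInv_h510 (P : Rep.{0, 0, 0} k G) (V : Subgroup G) [V.Normal]
    (hP : ∀ s ∈ V, ∀ a : P, P.ρ s a = a) (f : G × G → P)
    (hf : ∀ g g' s s' : G, s ∈ V → s' ∈ V → f (g * s, g' * s') = f (g, g'))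
    (g h i s₁ s₂ s₃ : G) (h₁ : s₁ ∈ V) (h₂ : s₂ ∈ V) (h₃ : s₃ ∈ V) :
    (d₂₃ P).hom f (g * s₁, h * s₂, i * s₃) = (d₂₃ P).hom f (g, h, i) := by
  have e1 : f (h * s₂, i * s₃) = f (h, i) := hf h i s₂ s₃ h₂ h₃
  have e2 : f (g * s₁ * (h * s₂), i * s₃) = f (g * h, i) := by
    have hm : h⁻¹ * s₁ * h * s₂ ∈ V := by
      refine V.mul_mem ?_ h₂
      have := ‹V.Normal›.conj_mem s₁ h₁ h⁻¹
      simpa using this
    have : g * s₁ * (h * s₂) = g * h * (h⁻¹ * s₁ * h * s₂) := by group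
    rw [this]
    exact hf (g * h) i _ s₃ hm h₃
  have e3 : f (g * s₁, h * s₂ * (i * s₃)) = f (g, h * i) := by
    have hm : i⁻¹ * s₂ * i * s₃ ∈ V := by
      refine V.mul_mem ?_ h₃
      have := ‹V.Normal›.conj_mem s₂ h₂ i⁻¹
      simpa using this
    have : h * s₂ * (i * s₃) = h * i * (i⁻¹ * s₂ * i * s₃) := by group
    rw [this]
    exact hf g (h * i) s₁ _ h₁ hm
  have e4 : f (g * s₁, h * s₂) = f (g, h) := hf g h s₁ s₂ h₁ h₂
  have e5 : P.ρ (g * s₁) (f (h, i)) = P.ρ g (f (h, i)) := by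
    rw [map_mul]
    show P.ρ g (P.ρ s₁ (f (h, i))) = _
    rw [hP s₁ h₁]
  simp only [d₂₃_hom_apply]
  rw [e1, e2, e3, e4, e5]

/-- `d ∘ d = 0` in degrees 2, 3, inhomogeneous form. -/
theorem d₂₃_isCocycle_h510 (P : Rep.{0, 0, 0} k G) (f : G × G → P) (g h i j : G) :
    P.ρ g ((d₂₃ P).hom f (h, i, j)) - (d₂₃ P).hom f (g * h, i, j)
      + (d₂₃ P).hom f (g, h * i, j) - (d₂₃ P).hom f (g, h, i * j)
      + (d₂₃ P).hom f (g, h, i) = 0 := by
  have e : P.ρ (g * h) (f (i, j)) = P.ρ g (P.ρ h (f (i, j))) := by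
    rw [map_mul]; rfl
  simp only [d₂₃_hom_apply, map_add, map_sub, e, mul_assoc]
  abel

/-- **KL-P2** (`Surj2OfH3Spec`, unfolded): `H³_lc(G, R) = 0` for all finite `R` ⇒ `H²_lc(G, −)` is
right exact. -/
theorem surj2OfH3_core_h510 (G : Type) [Group G] (L : LevelSys G) (p : ℕ) [Fact p.Prime]
    (hNC : L.NormalCofinal)
    (hH3 : ∀ R : Rep.{0, 0, 0} (ZMod p) G, FiniteDimensional (ZMod p) R → L.IsUSmooth R →
      ∀ z : G × G × G → R,
        (∃ U ∈ L.levels, ∀ g₁ g₂ g₃ s₁ s₂ s₃ : G, s₁ ∈ U → s₂ ∈ U → s₃ ∈ U →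
          z (g₁ * s₁, g₂ * s₂, g₃ * s₃) = z (g₁, g₂, g₃)) →
        (∀ g h i j : G,
          R.ρ g (z (h, i, j)) - z (g * h, i, j) + z (g, h * i, j) - z (g, h, i * j)
            + z (g, h, i) = 0) →
        ∃ b : G × G → R, L.IsLC₂ b ∧ (d₂₃ R).hom b = z)
    (P N : Rep.{0, 0, 0} (ZMod p) G) (φ : P →ₗ[ZMod p] N) (hφ : IsEquivariant φ)
    (hfdP : FiniteDimensional (ZMod p) P) (hsmP : L.IsUSmooth P) (_hsmN : L.IsUSmooth N)
    (hsurj : Function.Surjective φ) : Function.Surjective (pushH2 φ hφ L) := by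
  intro y
  haveI := hfdP
  obtain ⟨sec, hsec⟩ := φ.exists_rightInverse_of_surjective (LinearMap.range_eq_top.2 hsurj)
  have hsec' : ∀ x : N, φ (sec x) = x := fun x => LinearMap.congr_fun hsec x
  obtain ⟨n, rfl⟩ := L.H2π_surjective N y
  have hn0 : (d₂₃ N).hom (n : G × G → N) = 0 := n.2.1
  have hnLC : L.IsLC₂ (n : G × G → N) := n.2.2
  -- the lifted cochain
  let ñ : G × G → P := sec ∘ (n : G × G → N)
  have hñLC : L.IsLC₂ ñ := hnLC.comp sec
  have hφñ : φ ∘ ñ = (n : G × G → N) := by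
    funext x
    exact hsec' _
  have hz : ∀ x, (d₂₃ P).hom ñ x ∈ LinearMap.ker φ := by
    intro x
    rw [LinearMap.mem_ker]
    have h1 := congrFun (push_d₂₃ φ hφ ñ) x
    rw [hφñ, hn0] at h1
    exact h1.symm
  -- the kernel representation
  have hfdR : FiniteDimensional (ZMod p) (kerRep φ hφ) :=
    inferInstanceAs (FiniteDimensional (ZMod p) ↥(LinearMap.ker φ))
  obtain ⟨U₁, hU₁, hU₁P⟩ := hsmP
  have hsmR : L.IsUSmooth (kerRep φ hφ) :=
    ⟨U₁, hU₁, fun s hs a => Subtype.ext (hU₁P s hs (a : P))⟩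
  let z : G × G × G → kerRep φ hφ := fun x => ⟨(d₂₃ P).hom ñ x, hz x⟩
  -- a normal level below the level of `ñ` and the level acting trivially on `P`
  obtain ⟨U₂, hU₂, hU₂ñ⟩ := hñLC
  obtain ⟨W, hW, hWle⟩ := L.directed U₁ hU₁ U₂ hU₂
  obtain ⟨V, hV, hVW, hVn⟩ := hNC W hW
  haveI := hVn
  have hzLC : ∃ U ∈ L.levels, ∀ g₁ g₂ g₃ s₁ s₂ s₃ : G, s₁ ∈ U → s₂ ∈ U → s₃ ∈ U →
      z (g₁ * s₁, g₂ * s₂, g₃ * s₃) = z (g₁, g₂, g₃) := by
    refine ⟨V, hV, fun g₁ g₂ g₃ s₁ s₂ s₃ h₁ h₂ h₃ => Subtype.ext ?_⟩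
    exact d₂₃_rightInv_h510 P V (fun s hs a => hU₁P s (hWle (hVW hs)).1 a) ñ
      (fun g g' s s' hs hs' => hU₂ñ g g' s s' (hWle (hVW hs)).2 (hWle (hVW hs')).2)
      g₁ g₂ g₃ s₁ s₂ s₃ h₁ h₂ h₃
  have hzcoc : ∀ g h i j : G,
      (kerRep φ hφ).ρ g (z (h, i, j)) - z (g * h, i, j) + z (g, h * i, j) - z (g, h, i * j)
        + z (g, h, i) = 0 := by
    intro g h i j
    apply Subtype.ext
    exact d₂₃_isCocycle_h510 P ñ g h i j
  obtain ⟨b, hbLC, hb⟩ := hH3 (kerRep φ hφ) hfdR hsmR z hzLC hzcoc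
  -- the corrected lift
  have hdb : (d₂₃ P).hom (kerIncl φ ∘ b) = (d₂₃ P).hom ñ := by
    rw [push_d₂₃ (A := kerRep φ hφ) (B := P) (kerIncl φ) (kerIncl_equivariant φ hφ) b, hb]
    rfl
  have hcLC : L.IsLC₂ (ñ - kerIncl φ ∘ b) :=
    (L.C2 P).sub_mem (show ñ ∈ L.C2 P from ⟨U₂, hU₂, hU₂ñ⟩)
      (show kerIncl φ ∘ b ∈ L.C2 P from hbLC.comp (kerIncl φ))
  have hccoc : ñ - kerIncl φ ∘ b ∈ cocycles₂ P := by
    show (d₂₃ P).hom (ñ - kerIncl φ ∘ b) = 0
    rw [map_sub, hdb, sub_self]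
  refine ⟨L.H2π P ⟨ñ - kerIncl φ ∘ b, hccoc, hcLC⟩, ?_⟩
  rw [pushH2_mk]
  congr 1
  apply Subtype.ext
  funext x
  show φ (ñ x - kerIncl φ (b x)) = (n : G × G → N) x
  rw [map_sub, show φ (kerIncl φ (b x)) = 0 from LinearMap.mem_ker.1 (b x).2, sub_zero]
  exact hsec' _

end Fermat.Agent.S55.KL.H510

end
end
-- ===== PACK-END S55/KL/H510/Surj2Core.lean

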