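import Fermat.Agent.Pack.S56.E13L0
import Fermat.Agent.Pack.S56.E1L2
import Fermat.Agent.Pack.S56.E12L0
import Fermat.Agent.Pack.S56.E4L1
import Fermat.Agent.Pack.S56.E11L3
import Fermat.Agent.Pack.S56.E12L3
import Fermat.Agent.Pack.S56.E12L2
import Fermat.Agent.Pack.S56.E11L2
import Fermat.Agent.Pack.S56.E4L3
import Fermat.Agent.Pack.S56.E4L2
import Fermat.Agent.Pack.S56.E8L0
import Fermat.Agent.Pack.S56.E11L0
import Fermat.Agent.Pack.S56.E8L2
import Fermat.Agent.Pack.S56.E12L1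
import Fermat.Agent.Pack.S56.E6L2
import Fermat.Agent.Pack.S56.E10L1
import Fermat.Agent.Pack.S56.E9L2
import Fermat.Agent.Pack.S56.E11L1
import Fermat.Agent.Pack.S56.E13L1

-- ===== PACK-BEGIN S56/H914/BRCocycle.lean
section


/-!
# Row S56 — W-FLAT-SS, piece FL-BR (helper914), part 1: cocycle side (Prelude language)

Blueprint: `coord/S56-FLATSS-helper426.md` (origin/helper426), pieces (IR) and the map
`W = Gal(L/F₀) → (ad⁰V)²`.

* `adCocycle_one`, `adCocycle_mul_of_ker`, `adCocycle_inv_of_ker`, `adCocycle_conj_of_ker`: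
  an ad⁰-cocycle restricted to `ker ρ̄` is an additive homomorphism, equivariant for conjugation.
* `adCocycle_eq_of_rho_eq`: a cocycle vanishing on `D ∩ ker ρ̄` factors through `ρ̄(D)`.
* `isAdCoboundaryOn_of_vanish_ker` (IR): if moreover `#ρ̄(D)` is invertible in `k`, the cocycle is a
  coboundary on `D`.
* `liftEnd_eq_one_iff`: `(1 + ε c(σ)) ρ̄(σ) = 1 ↔ ρ̄(σ) = 1 ∧ c(σ) = 0`.
* `rho_eq_one_iff_of_isLiftOf`: for a lift `ρ'` of `c`: `ρ'(σ) = 1 ↔ ρ̄(σ) = 1 ∧ c(σ) = 0`.
-/

set_option autoImplicit false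

open Polynomial IsLocalRing
open scoped TensorProduct

noncomputable section

namespace Fermat.Agent.S56.H914

open Fermat.Agent.S56 Fermat.Agent.S56.H716

section Basic

variable {k : Type} [Field k] (ρbar : ResidualGaloisRep k)

lemma rho_mul_inv (σ : GQ) : ρbar.ρ σ * ρbar.ρ σ⁻¹ = 1 := by
  rw [← map_mul, mul_inv_cancel, map_one]

lemma rho_inv_mul (σ : GQ) : ρbar.ρ σ⁻¹ * ρbar.ρ σ = 1 := by
  rw [← map_mul, inv_mul_cancel, map_one]

lemma rho_inv_eq_one {σ : GQ} (h : ρbar.ρ σ = 1) : ρbar.ρ σ⁻¹ = 1 := by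
  have := rho_mul_inv ρbar σ
  rwa [h, one_mul] at this

variable {ρbar}

lemma adCocycle_one {c : GQ → Module.End k ρbar.V} (hc : IsAdCocycle ρbar c) : c 1 = 0 := by
  have h := hc.map_mul 1 1
  rw [mul_one, map_one, inv_one, map_one, one_mul, mul_one] at h
  exact left_eq_add.mp h

lemma adCocycle_mul_of_ker {c : GQ → Module.End k ρbar.V} (hc : IsAdCocycle ρbar c)
    {σ : GQ} (hσ : ρbar.ρ σ = 1) (τ : GQ) : c (σ * τ) = c σ + c τ := by
  rw [hc.map_mul, hσ, rho_inv_eq_one ρbar hσ, one_mul, mul_one]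

lemma adCocycle_inv_of_ker {c : GQ → Module.End k ρbar.V} (hc : IsAdCocycle ρbar c)
    {σ : GQ} (hσ : ρbar.ρ σ = 1) : c σ⁻¹ = - c σ := by
  have h := adCocycle_mul_of_ker hc hσ σ⁻¹
  rw [mul_inv_cancel, adCocycle_one hc] at h
  exact eq_neg_of_add_eq_zero_right h.symm

/-- On `ker ρ̄` the cocycle is equivariant for conjugation. -/
lemma adCocycle_conj_of_ker {c : GQ → Module.End k ρbar.V} (hc : IsAdCocycle ρbar c)
    {σ : GQ} (hσ : ρbar.ρ σ = 1) (g : GQ) :
    c (g * σ * g⁻¹) = ρbar.ρ g * c σ * ρbar.ρ g⁻¹ := by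
  have h1 : c (g * g⁻¹) = c g + ρbar.ρ g * c g⁻¹ * ρbar.ρ g⁻¹ := hc.map_mul g g⁻¹
  rw [mul_inv_cancel, adCocycle_one hc] at h1
  have h2 : c (g * σ * g⁻¹) = c (g * σ) + ρbar.ρ (g * σ) * c g⁻¹ * ρbar.ρ (g * σ)⁻¹ :=
    hc.map_mul (g * σ) g⁻¹
  have h3 : ρbar.ρ (g * σ) = ρbar.ρ g := by rw [map_mul, hσ, mul_one]
  have h4 : ρbar.ρ (g * σ)⁻¹ = ρbar.ρ g⁻¹ := by
    rw [mul_inv_rev, map_mul, rho_inv_eq_one ρbar hσ, one_mul]
  rw [h2, h3, h4, hc.map_mul g σ]
  rw [add_assoc, add_comm (ρbar.ρ g * c σ * ρbar.ρ g⁻¹), ← add_assoc, ← h1, zero_add]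

/-- A cocycle vanishing on `D ∩ ker ρ̄` only depends on `ρ̄(σ)` for `σ ∈ D`. -/
lemma adCocycle_eq_of_rho_eq {c : GQ → Module.End k ρbar.V} (hc : IsAdCocycle ρbar c)
    (D : Subgroup GQ) (hvan : ∀ σ ∈ D, ρbar.ρ σ = 1 → c σ = 0)
    {σ τ : GQ} (hσ : σ ∈ D) (hτ : τ ∈ D) (h : ρbar.ρ σ = ρbar.ρ τ) : c σ = c τ := by
  have hmem : σ⁻¹ * τ ∈ D := D.mul_mem (D.inv_mem hσ) hτ
  have hker : ρbar.ρ (σ⁻¹ * τ) = 1 := by
    rw [map_mul, ← h, rho_inv_mul]
  have h0 := hvan _ hmem hker
  have h1 := hc.map_mul σ (σ⁻¹ * τ)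
  rw [mul_inv_cancel_left, h0, mul_zero, zero_mul, add_zero] at h1
  exact h1.symm

end Basic

section IR

variable {k : Type} [Field k] {ρbar : ResidualGaloisRep k}

/-- **(IR)** A cocycle vanishing on `D ∩ ker ρ̄` is a coboundary on `D`, as soon as the order of
the finite group `ρ̄(D)` is invertible in `k` (averaging). -/
theorem isAdCoboundaryOn_of_vanish_ker {c : GQ → Module.End k ρbar.V} (hc : IsAdCocycle ρbar c)
    (D : Subgroup GQ) (hfin : (ρbar.ρ '' (D : Set GQ)).Finite)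
    (hn : ((hfin.toFinset.card : ℕ) : k) ≠ 0)
    (hvan : ∀ σ ∈ D, ρbar.ρ σ = 1 → c σ = 0) : IsAdCoboundaryOn ρbar D c := by
  classical
  set s : Finset (Module.End k ρbar.V) := hfin.toFinset with hs
  have hmem : ∀ δ, δ ∈ s ↔ ∃ σ ∈ D, ρbar.ρ σ = δ := by
    intro δ
    rw [hs, Set.Finite.mem_toFinset]
    exact Iff.rfl
  -- the cocycle as a function on the image
  let ct : Module.End k ρbar.V → Module.End k ρbar.V := fun δ =>
    if h : ∃ σ ∈ D, ρbar.ρ σ = δ then c h.choose else 0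
  have hct : ∀ σ ∈ D, ct (ρbar.ρ σ) = c σ := by
    intro σ hσ
    have h : ∃ τ ∈ D, ρbar.ρ τ = ρbar.ρ σ := ⟨σ, hσ, rfl⟩
    show (if h : ∃ τ ∈ D, ρbar.ρ τ = ρbar.ρ σ then c h.choose else 0) = c σ
    rw [dif_pos h]
    exact adCocycle_eq_of_rho_eq hc D hvan h.choose_spec.1 hσ h.choose_spec.2
  set S : Module.End k ρbar.V := ∑ δ ∈ s, ct δ with hS
  have key : ∀ σ ∈ D, S = (s.card : k) • c σ + ρbar.ρ σ * S * ρbar.ρ σ⁻¹ := by
    intro σ hσ
    have h1 : ∑ δ ∈ s, ct (ρbar.ρ σ * δ) = S := by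
      rw [hS]
      refine Finset.sum_bij' (fun δ _ => ρbar.ρ σ * δ) (fun δ _ => ρbar.ρ σ⁻¹ * δ) ?_ ?_ ?_ ?_ ?_
      · intro δ hδ
        obtain ⟨τ, hτ, rfl⟩ := (hmem δ).mp hδ
        exact (hmem _).mpr ⟨σ * τ, D.mul_mem hσ hτ, map_mul _ _ _⟩
      · intro δ hδ
        obtain ⟨τ, hτ, rfl⟩ := (hmem δ).mp hδ
        exact (hmem _).mpr ⟨σ⁻¹ * τ, D.mul_mem (D.inv_mem hσ) hτ, map_mul _ _ _⟩
      · intro δ _
        rw [← mul_assoc, rho_inv_mul, one_mul]
      · intro δ _
        rw [← mul_assoc, rho_mul_inv, one_mul]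
      · intro δ _
        rfl
    have h2 : ∀ δ ∈ s, ct (ρbar.ρ σ * δ) = c σ + ρbar.ρ σ * ct δ * ρbar.ρ σ⁻¹ := by
      intro δ hδ
      obtain ⟨τ, hτ, rfl⟩ := (hmem δ).mp hδ
      rw [← map_mul, hct _ (D.mul_mem hσ hτ), hct _ hτ, hc.map_mul]
    have h5 : ∑ δ ∈ s, ct (ρbar.ρ σ * δ) = (s.card : k) • c σ + ρbar.ρ σ * S * ρbar.ρ σ⁻¹ := by
      rw [Finset.sum_congr rfl h2, Finset.sum_add_distrib, Finset.sum_const,
        ← Finset.sum_mul, ← Finset.mul_sum, Nat.cast_smul_eq_nsmul]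
    rw [← h5, h1]
  refine ⟨-((s.card : k)⁻¹ • S), fun σ hσ => ?_⟩
  have h := key σ hσ
  have h3 : (s.card : k) • c σ = S - ρbar.ρ σ * S * ρbar.ρ σ⁻¹ := by
    rw [eq_sub_iff_add_eq]
    exact h.symm
  have h4 : c σ = (s.card : k)⁻¹ • (S - ρbar.ρ σ * S * ρbar.ρ σ⁻¹) := by
    rw [← h3, smul_smul, inv_mul_cancel₀ hn, one_smul]
  rw [h4, mul_neg, neg_mul, mul_smul_comm, smul_mul_assoc, smul_sub]
  abel

end IR

section Lift

variable {k : Type} [Field k] (ρbar : ResidualGaloisRep k)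

/-- If the lift `(1 + ε c(σ)) ρ̄(σ)` is the identity, then `ρ̄(σ) = 1`. -/
lemma rho_eq_one_of_liftEnd_eq_one {c : GQ → Module.End k ρbar.V} {σ : GQ}
    (h : liftEnd ρbar c σ = 1) : ρbar.ρ σ = 1 := by
  ext w
  have h1 := congrArg (fun f => f ((1 : DualNumber k) ⊗ₜ[k] w)) h
  simp only [liftEnd, LinearMap.add_apply, LinearMap.smul_apply, LinearMap.baseChange_tmul,
    Module.End.one_apply, Module.End.mul_apply, TensorProduct.smul_tmul', smul_eq_mul,
    mul_one] at h1
  have h2 := congrArg (fun x => TensorProduct.lid k ρbar.V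
    ((TrivSqZeroExt.fstHom k k k).toLinearMap.rTensor ρbar.V x)) h1
  simpa using h2

/-- `(1 + ε c(σ)) ρ̄(σ) = 1 ↔ ρ̄(σ) = 1 ∧ c(σ) = 0`. -/
theorem liftEnd_eq_one_iff {c : GQ → Module.End k ρbar.V} {σ : GQ} :
    liftEnd ρbar c σ = 1 ↔ ρbar.ρ σ = 1 ∧ c σ = 0 := by
  constructor
  · intro h
    exact ⟨rho_eq_one_of_liftEnd_eq_one ρbar h, eq_zero_of_liftEnd_eq_one ρbar h⟩
  · rintro ⟨h1, h2⟩
    rw [liftEnd, h1, h2, zero_mul, LinearMap.baseChange_zero, LinearMap.baseChange_one]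
    refine LinearMap.ext fun x => ?_
    rw [LinearMap.add_apply, LinearMap.smul_apply, LinearMap.zero_apply, smul_zero, add_zero]

/-- For a lift `ρ'` of `c`: `ρ'(σ) = 1 ↔ ρ̄(σ) = 1 ∧ c(σ) = 0`. -/
theorem rho_eq_one_iff_of_isLiftOf {c : GQ → Module.End k ρbar.V}
    {ρ' : GaloisRepAdic (DualNumber k)} (hl : IsLiftOf ρbar c ρ') (σ : GQ) :
    ρ'.ρ σ = 1 ↔ ρbar.ρ σ = 1 ∧ c σ = 0 := by
  obtain ⟨e, he⟩ := hl
  rw [← liftEnd_eq_one_iff]
  constructor
  · intro h
    refine LinearMap.ext fun x => ?_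
    obtain ⟨v, rfl⟩ := e.surjective x
    rw [← he σ v, h, Module.End.one_apply, Module.End.one_apply]
  · intro h
    refine LinearMap.ext fun v => ?_
    apply e.injective
    rw [he σ v, h, Module.End.one_apply, Module.End.one_apply]

end Lift

end Fermat.Agent.S56.H914

end

end
-- ===== PACK-END S56/H914/BRCocycle.lean

-- ===== PACK-BEGIN S56/H384/RCShape.lean
section



/-!
# S56 / W-FLAT-SS, leaf RCShape (helper384)

`rcShape : FL.RCShapeStatement` (VERBATIM): the supersingular structure theorem for `ρ` and `Ad ρ`.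

Proof.  `ρ` kills the wild inertia group `Γ₁` (a `p`-group, while the image of `ρ` has order prime
to `p`), so `ρ(Γ)` is generated by `t = ρ τ₀` and `f = ρ φ`, with `f t = t ^ p f`.  `t` has order
prime to `p` and split characteristic polynomial; by irreducibility it is not scalar, so it is
`diag(χ, χ')` in a basis `v₁, v₂`, and `f` swaps the two eigenlines (`ShapeLA.exists_eigenbasis`):
`χ' = χ ^ p`, `χ = χ' ^ p`.  `det t = χ ^ (p + 1)` has exact order `p - 1` (`hdet` + `hcyc`), whence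
the arithmetic of the orders (`ShapeLA.order_shape`).  The count is `|Γ₀| = |ρ(Γ₀)| · |ker ρ ∩ Γ₀|`
with `ρ(Γ₀) = ⟨t⟩`.
-/

set_option autoImplicit false
set_option linter.style.haveILetI false

namespace Fermat.Agent.S56.H384

open Fermat.Agent.S56.FL Polynomial IsLocalRing

theorem rcShape : RCShapeStatement := by
  intro d htame hpg τ₀ φ μ hT hcyc
  classical
  obtain ⟨hτ₀, hgen0, -, -, -, hgenφ, hfrob⟩ := hT
  haveI : Fact d.p.Prime := ⟨d.hp⟩
  haveI := d.hchar
  have hp0 : d.p ≠ 0 := d.hp.ne_zero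
  have hinv' : ∀ g : d.Γ, d.ρ g⁻¹ * d.ρ g = 1 := fun g => by
    rw [← map_mul, inv_mul_cancel, map_one]
  -- the index of `ker ρ`
  have hpow_idx : ∀ g : d.Γ, d.ρ g ^ d.ρ.ker.index = 1 := fun g => by
    rw [← map_pow]
    exact MonoidHom.mem_ker.mp (Subgroup.pow_index_mem _ g)
  have hidxk : ((d.ρ.ker.index : ℕ) : d.k) ≠ 0 := fun h =>
    htame ((CharP.cast_eq_zero_iff d.k d.p _).mp h)
  -- wild inertia acts trivially
  have hwild : ∀ γ ∈ ramGroup d.B d.Γ 1, d.ρ γ = 1 := by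
    intro γ hγ
    obtain ⟨a, ha⟩ := hpg ⟨γ, hγ⟩
    have ha' : γ ^ d.p ^ a = 1 := by
      have := congrArg (fun x : ramGroup d.B d.Γ 1 => (x : d.Γ)) ha
      simpa using this
    have h1 : d.ρ γ ^ (d.p ^ a) = 1 := by rw [← map_pow, ha', map_one]
    have hcop : Nat.gcd (d.p ^ a) d.ρ.ker.index = 1 :=
      Nat.Coprime.pow_left a ((Nat.Prime.coprime_iff_not_dvd d.hp).mpr htame)
    have h2 := pow_gcd_eq_one.mpr ⟨h1, hpow_idx γ⟩
    rwa [hcop, pow_one] at h2
  -- the relation `f t = t ^ p f`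
  have hrel : d.ρ φ * d.ρ τ₀ = d.ρ τ₀ ^ d.p * d.ρ φ := by
    have hw := hwild _ hfrob
    have e : φ * τ₀ = (φ * τ₀ * φ⁻¹ * (τ₀ ^ d.p)⁻¹) * τ₀ ^ d.p * φ := by group
    rw [← map_mul, e, map_mul, map_mul, hw, one_mul, map_pow]
  -- every `ρ σ` is `t ^ i * f ^ j`
  have hgen : ∀ σ : d.Γ, ∃ i j : ℕ, d.ρ σ = d.ρ τ₀ ^ i * d.ρ φ ^ j := by
    intro σ
    obtain ⟨j, hj⟩ := hgenφ σ
    obtain ⟨i, hi⟩ := hgen0 _ hj
    refine ⟨i, j, ?_⟩
    have hw := hwild _ hi
    have e : σ = (σ * (φ ^ j)⁻¹ * (τ₀ ^ i)⁻¹) * τ₀ ^ i * φ ^ j := by group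
    conv_lhs => rw [e]
    rw [map_mul, map_mul, hw, one_mul, map_pow, map_pow]
  have hgenI : ∀ σ ∈ ramGroup d.B d.Γ 0, ∃ i : ℕ, d.ρ σ = d.ρ τ₀ ^ i := by
    intro σ hσ
    obtain ⟨i, hi⟩ := hgen0 σ hσ
    refine ⟨i, ?_⟩
    have hw := hwild _ hi
    have e : σ = (σ * (τ₀ ^ i)⁻¹) * τ₀ ^ i := by group
    conv_lhs => rw [e]
    rw [map_mul, hw, one_mul, map_pow]
  -- irreducibility for the pair `(t, f)`
  have hirr : ∀ U : Submodule d.k d.V, (∀ x ∈ U, d.ρ τ₀ x ∈ U) → (∀ x ∈ U, d.ρ φ x ∈ U) →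
      U = ⊥ ∨ U = ⊤ := by
    intro U hUt hUf
    refine d.hirr U fun σ x hx => ?_
    obtain ⟨i, j, hij⟩ := hgen σ
    rw [hij, Module.End.mul_apply]
    have hpowt : ∀ (n : ℕ) (y : d.V), y ∈ U → (d.ρ τ₀ ^ n) y ∈ U := by
      intro n
      induction n with
      | zero => intro y hy; simpa using hy
      | succ n ih =>
        intro y hy
        rw [pow_succ, Module.End.mul_apply]
        exact ih _ (hUt y hy)
    have hpowf : ∀ (n : ℕ) (y : d.V), y ∈ U → (d.ρ φ ^ n) y ∈ U := by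
      intro n
      induction n with
      | zero => intro y hy; simpa using hy
      | succ n ih =>
        intro y hy
        rw [pow_succ, Module.End.mul_apply]
        exact ih _ (hUf y hy)
    exact hpowt i _ (hpowf j x hx)
  -- eigenbasis
  obtain ⟨b, χ, χ', β, γ, hne, hβ, hγ, ht0, ht1, hf0, hf1, hχ', hχ, hdett⟩ :=
    exists_eigenbasis d.hV (d.ρ τ₀) (d.ρ φ) hrel (d.hsplit τ₀) (d.hsplit φ) hidxk
      (hpow_idx τ₀) hirr
  obtain ⟨ℓ₁, ℓp, ℓm, c1, c2, c3, c4, c5, c6, c7⟩ :=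
    ad_coords b hβ hγ (hinv' τ₀) (hinv' φ) ht0 ht1 hf0 hf1
  have hχ0 : χ ≠ 0 := by
    rintro rfl
    apply hne
    rw [hχ', zero_pow hp0]
  -- orders
  set x : d.kˣ := Units.mk0 χ hχ0 with hx
  have hxval : ∀ j : ℕ, ((x ^ j : d.kˣ) : d.k) = χ ^ j := fun j => by
    rw [Units.val_pow_eq_pow_val, hx, Units.val_mk0]
  have hxpow : ∀ j : ℕ, x ^ j = 1 ↔ χ ^ j = 1 := fun j => by
    rw [← Units.val_inj, hxval, Units.val_one]
  have hdet : ∀ j : ℕ, (x ^ (d.p + 1)) ^ j = 1 ↔ d.p - 1 ∣ j := by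
    intro j
    haveI : NeZero d.p := ⟨hp0⟩
    obtain ⟨a, -, ha⟩ := d.hζ.eq_pow_of_pow_eq_one (ξ := τ₀ ^ j • d.ζ)
      (by rw [← smul_pow', d.hζ.pow_eq_one, smul_one])
    have hda := d.hdet (τ₀ ^ j) a ha.symm
    rw [map_pow, map_pow, hdett] at hda
    rw [← hcyc j a ha.symm, ← pow_mul, hxpow, pow_mul, pow_succ, ← hχ', mul_comm χ' χ, hda]
    rw [← Nat.cast_one (R := d.k), CharP.natCast_eq_natCast d.k d.p]
  obtain ⟨hord, hmdvd, hodd⟩ := order_shape d.hp d.hp2 x hdet
  have hψval : ((x * (x ^ d.p)⁻¹ : d.kˣ) : d.k) = χ * χ'⁻¹ := by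
    rw [Units.val_mul, Units.val_inv_eq_inv_val, hxval, ← hχ', hx, Units.val_mk0]
  have hC9 : ∀ j : ℕ, d.ρ (τ₀ ^ j) = 1 ↔
      (d.p - 1) * orderOf (x * (x ^ d.p)⁻¹) ∣ j := by
    intro j
    rw [map_pow, pow_eq_one_iff_of_eigenbasis b ht0 ht1 hχ' j, ← hord,
      orderOf_dvd_iff_pow_eq_one, hxpow]
  refine ⟨ℓ₁, ℓp, ℓm, χ * χ'⁻¹, γ * β⁻¹, β * γ⁻¹, orderOf (x * (x ^ d.p)⁻¹),
    c1, c2, c3, c4, c5, c6, c7, hmdvd, hodd, hC9, ?_, ?_⟩
  · intro j
    rw [orderOf_dvd_iff_pow_eq_one, ← Units.val_inj, Units.val_pow_eq_pow_val, hψval,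
      Units.val_one]
  · -- the count
    set I : Subgroup d.Γ := ramGroup d.B d.Γ 0 with hI
    let ρu : d.Γ →* (Module.End d.k d.V)ˣ := d.ρ.toHomUnits
    let ρI : I →* (Module.End d.k d.V)ˣ := ρu.comp I.subtype
    have hρu : ∀ g : d.Γ, ((ρu g : (Module.End d.k d.V)ˣ) : Module.End d.k d.V) = d.ρ g :=
      fun g => rfl
    have hρu1 : ∀ g : d.Γ, ρu g = 1 ↔ d.ρ g = 1 := fun g => by
      rw [← Units.val_inj, hρu, Units.val_one]
    have h1 := Subgroup.card_mul_index ρI.ker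
    rw [Subgroup.index_ker] at h1
    have hrange : ρI.range = Subgroup.zpowers (ρu τ₀) := by
      ext y
      constructor
      · rintro ⟨⟨σ, hσ⟩, rfl⟩
        obtain ⟨i, hi⟩ := hgenI σ hσ
        refine ⟨(i : ℤ), ?_⟩
        apply Units.ext
        simp only [zpow_natCast, Units.val_pow_eq_pow_val]
        rw [hρu]
        exact hi.symm
      · rintro ⟨z, rfl⟩
        exact ⟨(⟨τ₀, hτ₀⟩ : I) ^ z, by simp [ρI, map_zpow]⟩
    have hordu : orderOf (ρu τ₀) = (d.p - 1) * orderOf (x * (x ^ d.p)⁻¹) := by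
      rw [← hord]
      rw [orderOf_eq_orderOf_iff]
      intro j
      rw [← map_pow, hρu1, hxpow, map_pow, pow_eq_one_iff_of_eigenbasis b ht0 ht1 hχ' j]
    have hcardrange : Nat.card ρI.range = (d.p - 1) * orderOf (x * (x ^ d.p)⁻¹) := by
      rw [hrange, Nat.card_zpowers, hordu]
    have hker : ρI.ker = (d.ρ.ker ⊓ I).subgroupOf I := by
      ext ⟨σ, hσ⟩
      rw [MonoidHom.mem_ker, Subgroup.mem_subgroupOf, Subgroup.mem_inf, MonoidHom.mem_ker]
      simp only [ρI, MonoidHom.comp_apply, Subgroup.coe_subtype]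
      rw [hρu1]
      exact ⟨fun h => ⟨h, hσ⟩, fun h => h.1⟩
    have hcardker : Nat.card ρI.ker = Nat.card (d.ρ.ker ⊓ I : Subgroup d.Γ) := by
      rw [hker]
      exact Nat.card_congr (Subgroup.subgroupOfEquivOfLe inf_le_right).toEquiv
    rw [hcardrange, hcardker] at h1
    rw [← h1, mul_comm]

end Fermat.Agent.S56.H384

end
-- ===== PACK-END S56/H384/RCShape.lean

-- ===== PACK-BEGIN S14/H74/ClassSum.lean
section



/-!
# S14/N1 (helper74): ideals in a class and principal multiples of a fixed ideal (piece P4)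
-/

namespace Fermat.Agent.S14.H74

open NumberField

open scoped nonZeroDivisors

variable {K : Type*} [Field K] [NumberField K]

/-- Multiplication by `J` identifies the ideals of the class `C` with the nonzero principal
ideals contained in `J`, when `J` lies in the class `C⁻¹`. -/
noncomputable def classEquiv {C : ClassGroup (𝓞 K)} {J : (Ideal (𝓞 K))⁰}
    (hJ : ClassGroup.mk0 J = C⁻¹) :
    {I : (Ideal (𝓞 K))⁰ // ClassGroup.mk0 I = C} ≃ PJ (J : Ideal (𝓞 K)) :=
  Equiv.ofBijective (fun I ↦ ⟨(I.1 : Ideal (𝓞 K)) * (J : Ideal (𝓞 K)),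
    nonZeroDivisors.coe_ne_zero (I.1 * J),
    (ClassGroup.mk0_eq_one_iff (I.1 * J).2).mp (by rw [map_mul, I.2, hJ, mul_inv_cancel]),
    Ideal.mul_le_right⟩) (by
    constructor
    · intro I I' h
      have h1 : (I.1 : Ideal (𝓞 K)) * (J : Ideal (𝓞 K)) = (I'.1 : Ideal (𝓞 K)) * J :=
        congrArg Subtype.val h
      have h2 : (I.1 : Ideal (𝓞 K)) = I'.1 :=
        mul_right_cancel₀ (nonZeroDivisors.coe_ne_zero J) h1
      exact Subtype.ext (Subtype.ext h2)
    · rintro ⟨I', hI'0, hI'p, hI'J⟩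
      obtain ⟨I'', rfl⟩ := Ideal.dvd_iff_le.mpr hI'J
      have hI''0 : I'' ≠ ⊥ := by
        rintro rfl
        exact hI'0 (by simp)
      let I0 : (Ideal (𝓞 K))⁰ := ⟨I'', mem_nonZeroDivisors_of_ne_zero hI''0⟩
      have hmk : ClassGroup.mk0 I0 = C := by
        have h1 : ClassGroup.mk0 (J * I0) = 1 := by
          rw [ClassGroup.mk0_eq_one_iff (J * I0).2]
          exact hI'p
        rw [map_mul, hJ] at h1
        exact (inv_mul_eq_one.mp h1).symm
      refine ⟨⟨I0, hmk⟩, Subtype.ext ?_⟩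
      show I'' * (J : Ideal (𝓞 K)) = (J : Ideal (𝓞 K)) * I''
      exact mul_comm _ _)

theorem classEquiv_apply {C : ClassGroup (𝓞 K)} {J : (Ideal (𝓞 K))⁰}
    (hJ : ClassGroup.mk0 J = C⁻¹) (I : {I : (Ideal (𝓞 K))⁰ // ClassGroup.mk0 I = C}) :
    (classEquiv hJ I).1 = (I.1 : Ideal (𝓞 K)) * (J : Ideal (𝓞 K)) := rfl

/-- **P4**. -/
theorem classZeta_eq {C : ClassGroup (𝓞 K)} {J : (Ideal (𝓞 K))⁰}
    (hJ : ClassGroup.mk0 J = C⁻¹) (s : ℝ) :
    classZeta K C s = (Ideal.absNorm (J : Ideal (𝓞 K)) : ℝ) ^ s *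
      ∑' I : PJ (J : Ideal (𝓞 K)), (Ideal.absNorm I.1 : ℝ) ^ (-s) := by
  have hJ1 : (0 : ℝ) < Ideal.absNorm (J : Ideal (𝓞 K)) := by
    have := one_le_absNorm K J
    linarith
  rw [← (classEquiv hJ).tsum_eq, ← tsum_mul_left]
  unfold classZeta
  refine tsum_congr fun I ↦ ?_
  rw [classEquiv_apply, map_mul, Nat.cast_mul, Real.mul_rpow (Nat.cast_nonneg _) hJ1.le,
    mul_comm, mul_assoc, ← Real.rpow_add hJ1, neg_add_cancel, Real.rpow_zero, mul_one]

end Fermat.Agent.S14.H74

end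
-- ===== PACK-END S14/H74/ClassSum.lean

-- ===== PACK-BEGIN S55/E1/Lim/Obj.lean
section
/-
S55 engine E1 — block LIM: OBJECTS OF THE TOWER (definitions, sorry-free).
Sub-architect E1-LIM: helper474.  Blueprint: coord/S55-E1.md §4, coord/S55-E1-LIM.md.
Namespace `Fermat.Agent.S55.E1.Lim`.  Built on the canonical `Spec/Tower*.lean`, `Spec/Datum2.lean`,
`Bridge/FiniteLevel.lean`.

* `homOfAdd` : a `Rep ℤ G`-morphism from an equivariant additive map;
* `zRep A : Rep ℤ G` : restriction of scalars of `A : Rep k G` to `ℤ` (same carrier);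
* `piRep A : Rep ℤ G` : the product of a family of `G`-modules (carrier `∀ i, (A i).V`),
  `piProj`, `piLift`, `piDesc`;
* `sUnits L : Rep ℤ L.Gal` : the `S`-units `E(F)` of a level, `sIncl : E(F) ⟶ Fˣ`, `trS`;
* `Jtot L = ∏_{q ∈ S} J_q(F)`, `diagTot : E(F) ⟶ J(F)`, `jTot D : J(F) ⟶ C(F)`, `trJtot`;
* `C1 D L = im (J(F) → C(F))`, `jC1 : J(F) ⟶ C'(F)`, `inclC1 : C'(F) ⟶ C(F)`, `trC1`.
-/



set_option autoImplicit false

open CategoryTheory CategoryTheory.Limits

namespace Fermat.Agent.S55.E1.Lim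

open Fermat.Agent.S55.Tow

noncomputable section

attribute [local instance 10000] Rep.hV2
attribute [local instance 9000] Pi.module

/-! ## Generic helpers -/

section Generic

variable {G G' : Type} [Group G] [Group G']

/-- The `ℤ`-linear map underlying an additive map between `G`-modules. -/
def linOfAdd {A : Rep.{0} ℤ G} {B : Rep.{0} ℤ G'} (k : A.V →+ B.V) : A.V →ₗ[ℤ] B.V where
  toFun := k
  map_add' := map_add k
  map_smul' m x := by
    have h1 := int_smul_eq_zsmul A.hV2 m x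
    have h2 := int_smul_eq_zsmul B.hV2 m (k x)
    exact (congrArg k h1).trans ((map_zsmul k m x).trans h2.symm)

@[simp] lemma linOfAdd_apply {A : Rep.{0} ℤ G} {B : Rep.{0} ℤ G'} (k : A.V →+ B.V) (a : A.V) :
    linOfAdd k a = k a := rfl

/-- A morphism of `G`-modules from an equivariant additive map. -/
def homOfAdd {A B : Rep.{0} ℤ G} (k : A.V →+ B.V)
    (hk : ∀ (g : G) (a : A.V), k (A.ρ g a) = B.ρ g (k a)) : A ⟶ B :=
  Rep.ofHom ⟨linOfAdd k, fun g => LinearMap.ext (hk g)⟩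

@[simp] lemma homOfAdd_apply {A B : Rep.{0} ℤ G} (k : A.V →+ B.V)
    (hk : ∀ (g : G) (a : A.V), k (A.ρ g a) = B.ρ g (k a)) (a : A.V) :
    (homOfAdd k hk).hom a = k a := rfl

/-- A semilinear morphism `Res_π A ⟶ B` from an additive map with `k (π(g') a) = g' k(a)`. -/
def semiOfAdd (π : G' →* G) {A : Rep.{0} ℤ G} {B : Rep.{0} ℤ G'} (k : A.V →+ B.V)
    (hk : ∀ (g' : G') (a : A.V), k (A.ρ (π g') a) = B.ρ g' (k a)) : Rep.res π A ⟶ B :=
  Rep.ofHom ⟨linOfAdd (A := Rep.res π A) k, fun g' => LinearMap.ext (hk g')⟩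

@[simp] lemma semiOfAdd_apply (π : G' →* G) {A : Rep.{0} ℤ G} {B : Rep.{0} ℤ G'} (k : A.V →+ B.V)
    (hk : ∀ (g' : G') (a : A.V), k (A.ρ (π g') a) = B.ρ g' (k a)) (a : A.V) :
    (semiOfAdd π k hk).hom a = k a := rfl

/-- A submodule (for the module structure of `A`) from an additive subgroup. -/
def subOfAdd (A : Rep.{0} ℤ G) (W : AddSubgroup A.V) : Submodule ℤ A.V where
  carrier := W
  add_mem' := W.add_mem
  zero_mem' := W.zero_mem
  smul_mem' m x hx := by
    have h1 := int_smul_eq_zsmul A.hV2 m x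
    exact Eq.mpr (congrArg (fun t => t ∈ W) h1) (W.zsmul_mem hx m)

@[simp] lemma mem_subOfAdd (A : Rep.{0} ℤ G) (W : AddSubgroup A.V) (x : A.V) :
    x ∈ subOfAdd A W ↔ x ∈ W := Iff.rfl

/-- The sub-`G`-module on a `G`-stable additive subgroup. -/
def subRep (A : Rep.{0} ℤ G) (W : AddSubgroup A.V) (hW : ∀ (g : G) (x : A.V), x ∈ W → A.ρ g x ∈ W) :
    Rep.{0} ℤ G :=
  Rep.subrepresentation A (subOfAdd A W) (fun g x hx => hW g x hx)

/-- The inclusion of `subRep`. -/
def subIncl (A : Rep.{0} ℤ G) (W : AddSubgroup A.V)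
    (hW : ∀ (g : G) (x : A.V), x ∈ W → A.ρ g x ∈ W) : subRep A W hW ⟶ A :=
  Rep.subtype A (subOfAdd A W) (fun g x hx => hW g x hx)

/-- The underlying element of the ambient module. -/
def subVal {A : Rep.{0} ℤ G} {W : AddSubgroup A.V}
    {hW : ∀ (g : G) (x : A.V), x ∈ W → A.ρ g x ∈ W} (x : (subRep A W hW).V) : A.V :=
  (subIncl A W hW).hom x

lemma subVal_mem {A : Rep.{0} ℤ G} {W : AddSubgroup A.V}
    {hW : ∀ (g : G) (x : A.V), x ∈ W → A.ρ g x ∈ W} (x : (subRep A W hW).V) :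
    subVal x ∈ W := x.2

lemma subVal_injective {A : Rep.{0} ℤ G} {W : AddSubgroup A.V}
    {hW : ∀ (g : G) (x : A.V), x ∈ W → A.ρ g x ∈ W} :
    Function.Injective (subVal : (subRep A W hW).V → A.V) := Subtype.val_injective

/-- Constructor for elements of `subRep`. -/
def subMk {A : Rep.{0} ℤ G} {W : AddSubgroup A.V}
    {hW : ∀ (g : G) (x : A.V), x ∈ W → A.ρ g x ∈ W} (a : A.V) (ha : a ∈ W) :
    (subRep A W hW).V := ⟨a, ha⟩

@[simp] lemma subVal_subMk {A : Rep.{0} ℤ G} {W : AddSubgroup A.V}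
    {hW : ∀ (g : G) (x : A.V), x ∈ W → A.ρ g x ∈ W} (a : A.V) (ha : a ∈ W) :
    subVal (subMk (hW := hW) a ha) = a := rfl

lemma subVal_ρ {A : Rep.{0} ℤ G} {W : AddSubgroup A.V}
    {hW : ∀ (g : G) (x : A.V), x ∈ W → A.ρ g x ∈ W} (g : G) (x : (subRep A W hW).V) :
    subVal ((subRep A W hW).ρ g x) = A.ρ g (subVal x) := rfl

lemma subVal_add {A : Rep.{0} ℤ G} {W : AddSubgroup A.V}
    {hW : ∀ (g : G) (x : A.V), x ∈ W → A.ρ g x ∈ W} (x y : (subRep A W hW).V) :
    subVal (x + y) = subVal x + subVal y := rfl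

/-- Corestriction of a morphism to a `G`-stable subgroup containing its image. -/
def subLift {A B : Rep.{0} ℤ G} (W : AddSubgroup A.V)
    (hW : ∀ (g : G) (x : A.V), x ∈ W → A.ρ g x ∈ W) (f : B ⟶ A) (hf : ∀ b : B.V, f.hom b ∈ W) :
    B ⟶ subRep A W hW :=
  homOfAdd
    { toFun := fun b => subMk (f.hom b) (hf b)
      map_zero' := subVal_injective (by
        show f.hom 0 = 0
        exact map_zero f.hom)
      map_add' := fun x y => subVal_injective (by
        show f.hom (x + y) = f.hom x + f.hom y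
        exact map_add f.hom x y) }
    (fun g b => subVal_injective (by
      show f.hom (B.ρ g b) = A.ρ g (f.hom b)
      exact Rep.hom_comm_apply f g b))

@[simp] lemma subVal_subLift {A B : Rep.{0} ℤ G} (W : AddSubgroup A.V)
    (hW : ∀ (g : G) (x : A.V), x ∈ W → A.ρ g x ∈ W) (f : B ⟶ A) (hf : ∀ b : B.V, f.hom b ∈ W)
    (b : B.V) : subVal ((subLift W hW f hf).hom b) = f.hom b := rfl

/-- Semilinear map between sub-modules induced by a semilinear map of the ambient modules. -/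
def subSemi (π : G' →* G) {A : Rep.{0} ℤ G} {B : Rep.{0} ℤ G'} (W : AddSubgroup A.V)
    (hW : ∀ (g : G) (x : A.V), x ∈ W → A.ρ g x ∈ W) (W' : AddSubgroup B.V)
    (hW' : ∀ (g : G') (x : B.V), x ∈ W' → B.ρ g x ∈ W') (ι : Rep.res π A ⟶ B)
    (hι : ∀ a : A.V, a ∈ W → ι.hom a ∈ W') :
    Rep.res π (subRep A W hW) ⟶ subRep B W' hW' :=
  semiOfAdd π (A := subRep A W hW) (B := subRep B W' hW')
    { toFun := fun x => subMk (ι.hom (subVal (A := A) (hW := hW) x))
        (hι _ (subVal_mem (A := A) (hW := hW) x))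
      map_zero' := subVal_injective (by
        show ι.hom (0 : A.V) = 0
        exact map_zero ι.hom)
      map_add' := fun x y => subVal_injective (by
        show ι.hom (subVal (A := A) (hW := hW) x + subVal (A := A) (hW := hW) y : A.V) =
          ι.hom (subVal (A := A) (hW := hW) x) + ι.hom (subVal (A := A) (hW := hW) y)
        exact map_add ι.hom _ _) }
    (fun g' x => subVal_injective (by
      show ι.hom (A.ρ (π g') (subVal (A := A) (hW := hW) x)) =
        B.ρ g' (ι.hom (subVal (A := A) (hW := hW) x))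
      exact Rep.hom_comm_apply ι g' (subVal (A := A) (hW := hW) x)))

@[simp] lemma subVal_subSemi (π : G' →* G) {A : Rep.{0} ℤ G} {B : Rep.{0} ℤ G'}
    (W : AddSubgroup A.V) (hW : ∀ (g : G) (x : A.V), x ∈ W → A.ρ g x ∈ W) (W' : AddSubgroup B.V)
    (hW' : ∀ (g : G') (x : B.V), x ∈ W' → B.ρ g x ∈ W') (ι : Rep.res π A ⟶ B)
    (hι : ∀ a : A.V, a ∈ W → ι.hom a ∈ W') (x : (subRep A W hW).V) :
    subVal (hW := hW') ((subSemi π W hW W' hW' ι hι).hom x) =
      ι.hom (subVal (A := A) (hW := hW) x) := rfl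

end Generic

/-! ## Restriction of scalars to `ℤ` -/

section ZRep

variable {k G : Type} [CommRing k] [Group G]

/-- Restriction of scalars to `ℤ` (same carrier, same action). -/
def zRep (A : Rep.{0} k G) : Rep.{0} ℤ G :=
  @Rep.of ℤ G _ _ A.V _ (AddCommGroup.toIntModule A.V)
    { toFun := fun g => (AddMonoidHom.mk' (A.ρ g) (map_add _)).toIntLinearMap
      map_one' := by
        refine LinearMap.ext fun a => ?_
        show A.ρ 1 a = a
        rw [map_one]; rfl
      map_mul' := fun g h => by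
        refine LinearMap.ext fun a => ?_
        show A.ρ (g * h) a = A.ρ g (A.ρ h a)
        rw [map_mul]; rfl }

/-- The carrier of `zRep A` is the carrier of `A`. -/
def zOf {A : Rep.{0} k G} (a : A.V) : (zRep A).V := a

/-- The carrier of `zRep A` is the carrier of `A`. -/
def zTo {A : Rep.{0} k G} (a : (zRep A).V) : A.V := a

@[simp] lemma zTo_zOf {A : Rep.{0} k G} (a : A.V) : zTo (zOf a) = a := rfl

@[simp] lemma zOf_zTo {A : Rep.{0} k G} (a : (zRep A).V) : zOf (zTo a) = a := rfl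

lemma zRep_ρ (A : Rep.{0} k G) (g : G) (a : (zRep A).V) : zTo ((zRep A).ρ g a) = A.ρ g (zTo a) :=
  rfl

lemma zTo_add {A : Rep.{0} k G} (a b : (zRep A).V) : zTo (a + b) = zTo a + zTo b := rfl

lemma zRep_ρ_eq_one {A : Rep.{0} k G} {g : G} (h : A.ρ g = 1) : (zRep A).ρ g = 1 := by
  refine LinearMap.ext fun a => ?_
  show A.ρ g (zTo a) = a
  rw [h]; rfl

end ZRep

/-! ## Products -/

section Pi

variable {G G' : Type} [Group G] [Group G'] {ι : Type}

/-- The product of a family of `G`-modules. -/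
def piRep (A : ι → Rep.{0} ℤ G) : Rep.{0} ℤ G :=
  @Rep.of ℤ G _ _ (∀ i, (A i).V) _ (Pi.module ι (fun i => (A i).V) ℤ)
    { toFun := fun g => LinearMap.pi (fun i => (A i).ρ g ∘ₗ LinearMap.proj i)
      map_one' := by
        refine LinearMap.ext fun a => funext fun i => ?_
        show (A i).ρ 1 (a i) = a i
        rw [map_one]; rfl
      map_mul' := fun g h => by
        refine LinearMap.ext fun a => funext fun i => ?_
        show (A i).ρ (g * h) (a i) = (A i).ρ g ((A i).ρ h (a i))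
        rw [map_mul]; rfl }

/-- Components of an element of the product. -/
def piTo {A : ι → Rep.{0} ℤ G} (x : (piRep A).V) (i : ι) : (A i).V := x i

/-- Constructor for elements of the product. -/
def piOf {A : ι → Rep.{0} ℤ G} (x : ∀ i, (A i).V) : (piRep A).V := x

@[simp] lemma piTo_piOf {A : ι → Rep.{0} ℤ G} (x : ∀ i, (A i).V) (i : ι) :
    piTo (piOf x) i = x i := rfl

lemma piRep_ext {A : ι → Rep.{0} ℤ G} {x y : (piRep A).V} (h : ∀ i, piTo x i = piTo y i) :
    x = y := funext h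

lemma piTo_ρ {A : ι → Rep.{0} ℤ G} (g : G) (x : (piRep A).V) (i : ι) :
    piTo ((piRep A).ρ g x) i = (A i).ρ g (piTo x i) := rfl

lemma piTo_add {A : ι → Rep.{0} ℤ G} (x y : (piRep A).V) (i : ι) :
    piTo (x + y) i = piTo x i + piTo y i := rfl

/-- The projections. -/
def piProj (A : ι → Rep.{0} ℤ G) (i : ι) : piRep A ⟶ A i :=
  homOfAdd { toFun := fun x => piTo x i, map_zero' := rfl, map_add' := fun _ _ => rfl }
    (fun _ _ => rfl)

@[simp] lemma piProj_apply (A : ι → Rep.{0} ℤ G) (i : ι) (x : (piRep A).V) :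
    (piProj A i).hom x = piTo x i := rfl

/-- The universal map into the product. -/
def piLift {A : ι → Rep.{0} ℤ G} {X : Rep.{0} ℤ G} (f : ∀ i, X ⟶ A i) : X ⟶ piRep A :=
  homOfAdd
    { toFun := fun x => piOf (fun i => (f i).hom x)
      map_zero' := piRep_ext fun i => map_zero (f i).hom
      map_add' := fun x y => piRep_ext fun i => map_add (f i).hom x y }
    (fun g x => piRep_ext fun i => Rep.hom_comm_apply (f i) g x)

@[simp] lemma piTo_piLift {A : ι → Rep.{0} ℤ G} {X : Rep.{0} ℤ G} (f : ∀ i, X ⟶ A i) (x : X.V)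
    (i : ι) : piTo ((piLift f).hom x) i = (f i).hom x := rfl

/-- The sum map out of a finite product. -/
def piDesc [Fintype ι] {A : ι → Rep.{0} ℤ G} {X : Rep.{0} ℤ G} (f : ∀ i, A i ⟶ X) :
    piRep A ⟶ X :=
  homOfAdd
    { toFun := fun x => ∑ i, (f i).hom (piTo x i)
      map_zero' := by
        refine Finset.sum_eq_zero fun i _ => ?_
        exact map_zero (f i).hom
      map_add' := fun x y => by
        rw [← Finset.sum_add_distrib]
        refine Finset.sum_congr rfl fun i _ => ?_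
        exact map_add (f i).hom _ _ }
    (fun g x => by
      show ∑ i, (f i).hom (piTo ((piRep A).ρ g x) i) = X.ρ g (∑ i, (f i).hom (piTo x i))
      rw [map_sum]
      refine Finset.sum_congr rfl fun i _ => ?_
      exact Rep.hom_comm_apply (f i) g _)

lemma piDesc_apply [Fintype ι] {A : ι → Rep.{0} ℤ G} {X : Rep.{0} ℤ G} (f : ∀ i, A i ⟶ X)
    (x : (piRep A).V) : (piDesc f).hom x = ∑ i, (f i).hom (piTo x i) := rfl

/-- Semilinear map between products, componentwise. -/
def piSemi (π : G' →* G) {A : ι → Rep.{0} ℤ G} {A' : ι → Rep.{0} ℤ G'}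
    (t : ∀ i, Rep.res π (A i) ⟶ A' i) : Rep.res π (piRep A) ⟶ piRep A' :=
  semiOfAdd π (A := piRep A) (B := piRep A')
    { toFun := fun x => piOf (fun i => (t i).hom (piTo (A := A) x i))
      map_zero' := piRep_ext fun i => map_zero (t i).hom
      map_add' := fun x y => piRep_ext fun i => map_add (t i).hom _ _ }
    (fun g' x => piRep_ext fun i => Rep.hom_comm_apply (t i) g' (piTo (A := A) x i))

@[simp] lemma piTo_piSemi (π : G' →* G) {A : ι → Rep.{0} ℤ G} {A' : ι → Rep.{0} ℤ G'}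
    (t : ∀ i, Rep.res π (A i) ⟶ A' i) (x : (piRep A).V) (i : ι) :
    piTo (A := A') ((piSemi π t).hom x) i = (t i).hom (piTo (A := A) x i) := rfl

end Pi

/-! ## The `S`-units of a level -/

section SUnits

variable {S : Finset Nat.Primes}

lemma isSUnit_zero (L : Level S) : L.IsSUnit 0 := by
  intro ℓ hℓ A hA
  have h1 : ((L.val 0 : Qbarˣ) : Qbar) = 1 := rfl
  have h2 : (((L.val 0)⁻¹ : Qbarˣ) : Qbar) = 1 := by
    have : L.val 0 = 1 := rfl
    rw [this, inv_one]; rfl
  rw [h1, h2]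
  exact ⟨A.one_mem, A.one_mem⟩

lemma isSUnit_add (L : Level S) {x y : L.units.V} (hx : L.IsSUnit x) (hy : L.IsSUnit y) :
    L.IsSUnit (x + y) := by
  intro ℓ hℓ A hA
  have h1 : L.val (x + y) = L.val x * L.val y := rfl
  rw [h1, mul_inv, Units.val_mul, Units.val_mul]
  exact ⟨A.mul_mem _ _ (hx ℓ hℓ A hA).1 (hy ℓ hℓ A hA).1,
    A.mul_mem _ _ (hx ℓ hℓ A hA).2 (hy ℓ hℓ A hA).2⟩

lemma isSUnit_neg (L : Level S) {x : L.units.V} (hx : L.IsSUnit x) : L.IsSUnit (-x) := by
  intro ℓ hℓ A hA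
  have h1 : L.val (-x) = (L.val x)⁻¹ := rfl
  rw [h1, inv_inv]
  exact ⟨(hx ℓ hℓ A hA).2, (hx ℓ hℓ A hA).1⟩

/-- The additive subgroup of `S`-units of `F` all of whose conjugates are `S`-units
(= all `S`-units, leaf `LIM-E0`). -/
def sUnitsAdd (L : Level S) : AddSubgroup L.units.V where
  carrier := {x | ∀ g : L.Gal, L.IsSUnit (L.units.ρ g x)}
  zero_mem' := fun g => by
    rw [map_zero]; exact isSUnit_zero L
  add_mem' := fun {a b} ha hb g => by
    rw [map_add]; exact isSUnit_add L (ha g) (hb g)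
  neg_mem' := fun {a} ha g => by
    rw [map_neg]; exact isSUnit_neg L (ha g)

lemma mem_sUnitsAdd (L : Level S) (x : L.units.V) :
    x ∈ sUnitsAdd L ↔ ∀ g : L.Gal, L.IsSUnit (L.units.ρ g x) := Iff.rfl

lemma isSUnit_of_mem (L : Level S) {x : L.units.V} (hx : x ∈ sUnitsAdd L) : L.IsSUnit x := by
  have := hx 1
  rwa [map_one] at this

lemma sUnitsAdd_stable (L : Level S) (g : L.Gal) (x : L.units.V) (hx : x ∈ sUnitsAdd L) :
    L.units.ρ g x ∈ sUnitsAdd L := fun g' => by
  have := hx (g' * g)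
  rwa [map_mul] at this

/-- `E(F)`: the `S`-units of a level, as a `Gal(F/ℚ)`-module. -/
def sUnits (L : Level S) : Rep.{0} ℤ L.Gal := subRep L.units (sUnitsAdd L) (sUnitsAdd_stable L)

/-- The inclusion `E(F) ⟶ Fˣ`. -/
def sIncl (L : Level S) : sUnits L ⟶ L.units := subIncl L.units (sUnitsAdd L) (sUnitsAdd_stable L)

lemma sIncl_injective (L : Level S) : Function.Injective (sIncl L).hom := Subtype.val_injective

lemma sIncl_mem (L : Level S) (e : (sUnits L).V) : (sIncl L).hom e ∈ sUnitsAdd L := e.2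

lemma trUnits_mem {L L' : Level S} (h : L ≤ L') (x : L.units.V) (hx : x ∈ sUnitsAdd L) :
    (Level.trUnits h).hom x ∈ sUnitsAdd L' := by
  intro g'
  have h1 : L'.units.ρ g' ((Level.trUnits h).hom x) =
      (Level.trUnits h).hom (L.units.ρ (Level.proj h g') x) :=
    (Rep.hom_comm_apply (Level.trUnits h) g' x).symm
  rw [h1]
  exact hx (Level.proj h g')

/-- The inclusion `E(F) ⊂ E(F')` as a semilinear map. -/
def trS {L L' : Level S} (h : L ≤ L') : Rep.res (Level.proj h) (sUnits L) ⟶ sUnits L' :=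
  subSemi (Level.proj h) (sUnitsAdd L) (sUnitsAdd_stable L) (sUnitsAdd L') (sUnitsAdd_stable L')
    (Level.trUnits h) (trUnits_mem h)

lemma sIncl_trS {L L' : Level S} (h : L ≤ L') (e : (sUnits L).V) :
    (sIncl L').hom ((trS h).hom e) = (Level.trUnits h).hom ((sIncl L).hom e) := rfl

end SUnits

/-! ## `J(F) = ∏_{q ∈ S} J_q(F)` and `C'(F) = im (J(F) → C(F))` -/

section JC

variable {S : Finset Nat.Primes}

/-- `J(F) = ∏_{q ∈ S} J_q(F)`. -/
def Jtot (L : Level S) : Rep.{0} ℤ L.Gal := piRep (fun q : S => L.J q.1)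

/-- The diagonal `E(F) ⟶ J(F)`. -/
def diagTot (L : Level S) : sUnits L ⟶ Jtot L := piLift (fun q : S => sIncl L ≫ L.diag q.1)

lemma piTo_diagTot (L : Level S) (e : (sUnits L).V) (q : S) :
    piTo ((diagTot L).hom e) q = (L.diag q.1).hom ((sIncl L).hom e) := rfl

/-- `J(F) ⟶ J(F')`. -/
def trJtot {L L' : Level S} (h : L ≤ L') : Rep.res (Level.proj h) (Jtot L) ⟶ Jtot L' :=
  piSemi (Level.proj h) (fun q : S => Level.trJ h q.1)

lemma piTo_trJtot {L L' : Level S} (h : L ≤ L') (x : (Jtot L).V) (q : S) :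
    piTo ((trJtot h).hom x) q = (Level.trJ h q.1).hom (piTo x q) := rfl

variable (D : TowerDatum S)

/-- `J(F) ⟶ C(F)`, `(x_q) ↦ ∑_q j_q(x_q)`. -/
def jTot (L : Level S) : Jtot L ⟶ D.C L := piDesc (fun q : S => D.j L q.1)

lemma jTot_apply (L : Level S) (x : (Jtot L).V) :
    (jTot D L).hom x = ∑ q : S, (D.j L q.1).hom (piTo x q) := rfl

lemma isLocalSum_iff (L : Level S) (c : (D.C L).V) :
    D.IsLocalSum L c ↔ ∃ x : (Jtot L).V, (jTot D L).hom x = c :=
  ⟨fun ⟨x, hx⟩ => ⟨piOf x, hx.symm⟩, fun ⟨x, hx⟩ => ⟨fun q => piTo x q, hx.symm⟩⟩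

/-- The image of `J(F) → C(F)` as an additive subgroup. -/
def C1Add (L : Level S) : AddSubgroup (D.C L).V where
  carrier := {c | ∃ x : (Jtot L).V, (jTot D L).hom x = c}
  zero_mem' := ⟨0, map_zero _⟩
  add_mem' := fun {a b} ⟨x, hx⟩ ⟨y, hy⟩ => ⟨x + y, by rw [map_add, hx, hy]⟩
  neg_mem' := fun {a} ⟨x, hx⟩ => ⟨-x, by rw [map_neg, hx]⟩

lemma mem_C1Add (L : Level S) (c : (D.C L).V) : c ∈ C1Add D L ↔ D.IsLocalSum L c :=
  (isLocalSum_iff D L c).symm

lemma C1Add_stable (L : Level S) (g : L.Gal) (c : (D.C L).V) (hc : c ∈ C1Add D L) :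
    (D.C L).ρ g c ∈ C1Add D L := by
  obtain ⟨x, rfl⟩ := hc
  exact ⟨(Jtot L).ρ g x, Rep.hom_comm_apply (jTot D L) g x⟩

/-- `C'(F) = im (J(F) → C(F))` as a `Gal(F/ℚ)`-module. -/
def C1 (L : Level S) : Rep.{0} ℤ L.Gal := subRep (D.C L) (C1Add D L) (C1Add_stable D L)

/-- The inclusion `C'(F) ⟶ C(F)`. -/
def inclC1 (L : Level S) : C1 D L ⟶ D.C L := subIncl (D.C L) (C1Add D L) (C1Add_stable D L)

lemma inclC1_injective (L : Level S) : Function.Injective (inclC1 D L).hom :=
  Subtype.val_injective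

/-- The surjection `J(F) ⟶ C'(F)`. -/
def jC1 (L : Level S) : Jtot L ⟶ C1 D L :=
  subLift (C1Add D L) (C1Add_stable D L) (jTot D L) (fun x => ⟨x, rfl⟩)

lemma jC1_inclC1 (L : Level S) : jC1 D L ≫ inclC1 D L = jTot D L := rfl

lemma jC1_surjective (L : Level S) : Function.Surjective (jC1 D L).hom := by
  rintro ⟨c, x, hx⟩
  exact ⟨x, Subtype.ext hx⟩

/-- GD7a in the form used here: `tr` is compatible with `j_q` for `q ∈ S`. -/
def TrCompat : Prop :=
  ∀ {L L' : Level S} (h : L ≤ L') (q : Nat.Primes), q ∈ S → ∀ (x : (L.J q).V),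
    (D.tr h).hom ((D.j L q).hom x) = (D.j L' q).hom ((Level.trJ h q).hom x)

variable {D}

lemma tr_jTot (h7 : TrCompat D) {L L' : Level S} (h : L ≤ L') (x : (Jtot L).V) :
    (D.tr h).hom ((jTot D L).hom x) = (jTot D L').hom ((trJtot h).hom x) := by
  rw [jTot_apply, jTot_apply, map_sum]
  refine Finset.sum_congr rfl fun q _ => ?_
  exact h7 h q.1 q.2 _

lemma tr_mem_C1Add (h7 : TrCompat D) {L L' : Level S} (h : L ≤ L') (c : (D.C L).V)
    (hc : c ∈ C1Add D L) : (D.tr h).hom c ∈ C1Add D L' := by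
  obtain ⟨x, rfl⟩ := hc
  exact ⟨(trJtot h).hom x, (tr_jTot h7 h x).symm⟩

/-- `C'(F) ⟶ C'(F')`. -/
def trC1 (h7 : TrCompat D) {L L' : Level S} (h : L ≤ L') :
    Rep.res (Level.proj h) (C1 D L) ⟶ C1 D L' :=
  subSemi (Level.proj h) (C1Add D L) (C1Add_stable D L) (C1Add D L') (C1Add_stable D L')
    (D.tr h) (tr_mem_C1Add h7 h)

lemma inclC1_trC1 (h7 : TrCompat D) {L L' : Level S} (h : L ≤ L') (c : (C1 D L).V) :
    (inclC1 D L').hom ((trC1 h7 h).hom c) = (D.tr h).hom ((inclC1 D L).hom c) := rfl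

lemma trC1_jC1 (h7 : TrCompat D) {L L' : Level S} (h : L ≤ L') (x : (Jtot L).V) :
    (trC1 h7 h).hom ((jC1 D L).hom x) = (jC1 D L').hom ((trJtot h).hom x) :=
  inclC1_injective D L' (tr_jTot h7 h x)

end JC

/-! ## The short exact sequence `0 → E(F) → J(F) → C'(F) → 0` -/

section Ses

variable {S : Finset Nat.Primes} (D : TowerDatum S)

/-- GD4 in the form used here. -/
def KerDiag : Prop :=
  ∀ (L : Level S) (x : ∀ q : S, (L.J q.1).V),
    ∑ q : S, (D.j L q.1).hom (x q) = 0 ↔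
      ∃ e : L.units.V, L.IsSUnit e ∧ ∀ q : S, x q = (L.diag q.1).hom e

variable {D}

lemma diagTot_jTot (h4 : KerDiag D) (L : Level S) (e : (sUnits L).V) :
    (jTot D L).hom ((diagTot L).hom e) = 0 := by
  rw [jTot_apply]
  exact (h4 L _).2 ⟨(sIncl L).hom e, isSUnit_of_mem L (sIncl_mem L e), fun q => rfl⟩

lemma diagTot_jC1 (h4 : KerDiag D) (L : Level S) : diagTot L ≫ jC1 D L = 0 := by
  apply Rep.hom_ext
  apply DFunLike.ext
  intro e
  exact inclC1_injective D L (diagTot_jTot h4 L e)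

/-- The short complex `E(F) → J(F) → C'(F)` (short exact: leaf `LIM-SES`). -/
def ses (h4 : KerDiag D) (L : Level S) : ShortComplex (Rep.{0} ℤ L.Gal) :=
  ShortComplex.mk (diagTot L) (jC1 D L) (diagTot_jC1 h4 L)

end Ses

/-! ## Coefficient modules at finite level -/

section Coeff

variable {S : Finset Nat.Primes} (A : Rep.{0} ℤ GQ)

/-- `A` as a `Gal(F/ℚ)`-module (`Bridge.atLevel`), for `F` trivialising `A`. -/
abbrev lev (L : Level S) (hL : ∀ s ∈ L.U, A.ρ s = 1) : Rep.{0} ℤ L.Gal :=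
  Fermat.Agent.S55.Bridge.atLevel A L hL

/-- Triviality passes to higher levels. -/
lemma triv_of_le {L L' : Level S} (h : L ≤ L') (hL : ∀ s ∈ L.U, A.ρ s = 1) :
    ∀ s ∈ L'.U, A.ρ s = 1 := Fermat.Agent.S55.Bridge.trivial_of_le A h hL

/-- The identity of `A` as a morphism `A_{F'} ⟶ Res (A_F)` (the `ν` of the transition maps). -/
def levν {L L' : Level S} (h : L ≤ L') (hL : ∀ s ∈ L.U, A.ρ s = 1) :
    lev A L' (triv_of_le A h hL) ⟶ Rep.res (Level.proj h) (lev A L hL) :=
  Rep.ofHom ⟨LinearMap.id, fun g => QuotientGroup.induction_on g fun _ => rfl⟩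

/-- The identity of `A` as an isomorphism `A_{F'} ≅ Res (A_F)`. -/
def levIso {L L' : Level S} (h : L ≤ L') (hL : ∀ s ∈ L.U, A.ρ s = 1) :
    lev A L' (triv_of_le A h hL) ≅ Rep.res (Level.proj h) (lev A L hL) where
  hom := levν A h hL
  inv := Fermat.Agent.S55.Bridge.levelHom A h hL
  hom_inv_id := by
    apply Rep.hom_ext
    apply DFunLike.ext
    intro x
    rfl
  inv_hom_id := by
    apply Rep.hom_ext
    apply DFunLike.ext
    intro x
    rfl

@[simp] lemma levν_apply {L L' : Level S} (h : L ≤ L') (hL : ∀ s ∈ L.U, A.ρ s = 1)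
    (a : A.V) : (levν A h hL).hom a = a := rfl

@[simp] lemma levIso_hom {L L' : Level S} (h : L ≤ L') (hL : ∀ s ∈ L.U, A.ρ s = 1) :
    (levIso A h hL).hom = levν A h hL := rfl

end Coeff

end

end Fermat.Agent.S55.E1.Lim

end
-- ===== PACK-END S55/E1/Lim/Obj.lean

-- ===== PACK-BEGIN S55/E1/H304/Alg6.lean
section
/-
S55 engine E1, block ALG — leaf ALG6 (helper304): `theorem alg6 : ALG6Spec`
(Shapiro and the restricted presentation), exact frozen statement of `E1/SpecAlg2.lean`.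

(a) `δ_D` bijective: `H304.alg1_res_bijective` (restriction of a free module to a subgroup is
    coinduced from `1`); naturality of `δ` under restriction: `H783.δ_naturality_map`.
(b) `flat φ = (Rep.resCoindHomEquiv φ R X).symm` (Frobenius reciprocity).
(c) both sides are `map φ (flat φ f) 2 (δ x)`.
-/




set_option autoImplicit false

open CategoryTheory CategoryTheory.Limits groupCohomology

namespace Fermat.Agent.S55.E1.H304

noncomputable section Alg6

variable {G D : Type} [Group G] [Group D]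

/-- ALG6 (a1): the connecting map of the restricted standard presentation is bijective. -/
theorem resδ_bijective [Finite G] (φ : D →* G) (hφ : Function.Injective φ) (N : Rep.{0} ℤ G) :
    Function.Bijective (resδ φ N) :=
  alg1_res_bijective N φ hφ

/-- ALG6 (a2), categorical form: `δ ≫ res_φ = res_φ ≫ δ_D`. -/
theorem stdδ_comp_res (φ : D →* G) (N : Rep.{0} ℤ G) :
    groupCohomology.δ (stdSC_shortExact N) 1 2 rfl ≫
        groupCohomology.map φ (𝟙 (Rep.res φ (stdR N))) 2 =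
      groupCohomology.map φ (𝟙 (Rep.res φ N)) 1 ≫
        groupCohomology.δ (resSC_shortExact φ N) 1 2 rfl :=
  Fermat.Agent.S55.H783.δ_naturality_map φ (stdSC_shortExact N) (resSC_shortExact φ N)
    (𝟙 (resSC φ N)) 1 2 rfl

/-- ALG6 (a2): `res_φ (δ x) = δ_D (res_φ x)`. -/
theorem resAlong_stdδ (φ : D →* G) (N : Rep.{0} ℤ G) (x : groupCohomology N 1) :
    resAlong φ (stdR N) 2 (stdδ N x) = resδ φ N (resAlong φ N 1 x) :=
  congrArg (fun m => m.hom x) (stdδ_comp_res φ N)

/-- `flat` is the inverse of Mathlib's Frobenius reciprocity equivalence. -/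
theorem flat_eq_symm (φ : D →* G) {R : Rep.{0} ℤ G} {X : Rep.{0} ℤ D}
    (f : R ⟶ Rep.coind φ X) : flat φ f = (Rep.resCoindHomEquiv φ R X).symm f := by
  apply Rep.hom_ext
  apply DFunLike.ext
  intro x
  rfl

/-- ALG6 (b): `f ↦ f^♭` is bijective. -/
theorem flat_bijective (φ : D →* G) (R : Rep.{0} ℤ G) (X : Rep.{0} ℤ D) :
    Function.Bijective (fun f : R ⟶ Rep.coind φ X => flat φ f) := by
  have h : (fun f : R ⟶ Rep.coind φ X => flat φ f) =
      fun f => (Rep.resCoindHomEquiv φ R X).symm f := funext fun f => flat_eq_symm φ f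
  rw [h]
  exact (Rep.resCoindHomEquiv φ R X).symm.bijective

/-- Restriction followed by a coefficient map is the mixed functoriality map. -/
theorem res_comp_coeff (φ : D →* G) {A : Rep.{0} ℤ G} {X : Rep.{0} ℤ D}
    (g : Rep.res φ A ⟶ X) (n : ℕ) :
    groupCohomology.map φ (𝟙 (Rep.res φ A)) n ≫ groupCohomology.map (MonoidHom.id D) g n =
      groupCohomology.map φ g n := by
  have h := groupCohomology.map_comp (k := ℤ) φ (MonoidHom.id D) (𝟙 (Rep.res φ A)) g n
  rw [← h]
  congr 1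

/-- A coefficient map followed by a mixed map is the mixed map of the composite. -/
theorem coeff_comp_map (φ : D →* G) {A B : Rep.{0} ℤ G} {X : Rep.{0} ℤ D}
    (f : A ⟶ B) (g : Rep.res φ B ⟶ X) (n : ℕ) :
    groupCohomology.map (MonoidHom.id G) f n ≫ groupCohomology.map φ g n =
      groupCohomology.map φ ((Rep.resFunctor φ).map f ≫ g) n := by
  have h := groupCohomology.map_comp (k := ℤ) (MonoidHom.id G) φ f g n
  exact h.symm

/-- ALG6 (c): `sh ⟨f, x⟩ = ⟨f^♭, res_φ x⟩_D`. -/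
theorem sh2_pair (φ : D →* G) {N : Rep.{0} ℤ G} {X : Rep.{0} ℤ D}
    (f : homA N (Rep.coind φ X)) (x : groupCohomology N 1) :
    sh2 φ X (pair f x) = pairLoc φ (flat φ f) (resAlong φ N 1 x) := by
  have h1 : sh2 φ X (pair f x) =
      (groupCohomology.map φ (flat φ f) 2).hom (stdδ N x) := by
    have := coeff_comp_map φ f (Fermat.Agent.S55.H173.ev1Hom φ X) 2
    exact congrArg (fun m => m.hom (stdδ N x)) this
  have h2 : pairLoc φ (flat φ f) (resAlong φ N 1 x) =
      (groupCohomology.map φ (flat φ f) 2).hom (stdδ N x) := by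
    unfold pairLoc
    rw [← resAlong_stdδ]
    have := res_comp_coeff φ (flat φ f) 2
    exact congrArg (fun m => m.hom (stdδ N x)) this
  rw [h1, h2]

/-- **ALG6** (Shapiro and the restricted presentation). -/
theorem alg6 : ALG6Spec := by
  intro G D _ _ _ φ hφ N
  refine ⟨resδ_bijective φ hφ N, resAlong_stdδ φ N, fun X => ⟨flat_bijective φ (stdR N) X, ?_⟩⟩
  intro f x
  exact sh2_pair φ f x

end Alg6

end Fermat.Agent.S55.E1.H304

end
-- ===== PACK-END S55/E1/H304/Alg6.lean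

-- ===== PACK-BEGIN S55/E1/H353/Alg8.lean
section






/-!
# S55, engine E1, block ALG8 (helper353): `alg8_of : ALG8AssemblySpec`

`ALG8Spec` from `ALG5Spec`, `ALG7Spec`, `ALG7aSpec` (exact types of `E1/SpecAlg2.lean`), by the
abstract count of `Alg8Core.lean`.
-/

set_option autoImplicit false
set_option linter.unusedSectionVars false
set_option linter.style.haveILetI false

open CategoryTheory CategoryTheory.Limits groupCohomology

namespace Fermat.Agent.S55.E1.H353

noncomputable section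

variable {G : Type} [Group G]

/-! ### The pairing as an additive map -/

lemma pair_add_left {N X : Rep.{0} ℤ G} (f f' : homA N X) (x : groupCohomology N 1) :
    pair (f + f') x = pair f x + pair f' x := by
  unfold pair
  rw [T.H415.coeffMap_add]
  rfl

lemma pair_add_right {N X : Rep.{0} ℤ G} (f : homA N X) (x x' : groupCohomology N 1) :
    pair f (x + x') = pair f x + pair f x' := by
  unfold pair
  rw [map_add, map_add]

lemma pair_zero_right {N X : Rep.{0} ℤ G} (f : homA N X) : pair f (0 : groupCohomology N 1) = 0 := by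
  unfold pair
  rw [map_zero, map_zero]

lemma pair_zero_left {N X : Rep.{0} ℤ G} (x : groupCohomology N 1) :
    pair (0 : homA N X) x = 0 := by
  have h := pair_add_left (0 : homA N X) 0 x
  rw [add_zero] at h
  exact left_eq_add.mp h

/-- The pairing `f ↦ ⟨f, ·⟩` as an additive map `A(X) → Hom(H¹(G, N), H²(G, X))`. -/
def pairHom (N X : Rep.{0} ℤ G) : homA N X →+ (groupCohomology N 1 →+ groupCohomology X 2) where
  toFun f :=
    { toFun := pair f
      map_zero' := pair_zero_right f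
      map_add' := pair_add_right f }
  map_zero' := by
    ext x
    exact pair_zero_left x
  map_add' f f' := by
    ext x
    exact pair_add_left f f' x

@[simp] lemma pairHom_apply {N X : Rep.{0} ℤ G} (f : homA N X) (x : groupCohomology N 1) :
    pairHom N X f x = pair f x := rfl

/-- Composition with `j : J ⟶ C` as an additive map `A(J) → A(C)`. -/
def compJ {N J C : Rep.{0} ℤ G} (j : J ⟶ C) : homA N J →+ homA N C where
  toFun f := f ≫ j
  map_zero' := by simp
  map_add' f f' := by simp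

@[simp] lemma compJ_apply {N J C : Rep.{0} ℤ G} (j : J ⟶ C) (f : homA N J) :
    compJ (N := N) j f = f ≫ j := rfl

/-! ### `IsLocSum` as membership in a supremum -/

lemma isLocSum_iff {ι : Type} [Fintype ι] {N C : Rep.{0} ℤ G} {J : ι → Rep.{0} ℤ G}
    (j : ∀ i, J i ⟶ C) (f : homA N C) :
    IsLocSum j f ↔ f ∈ (resBA N C).range ⊔ ⨆ i, (compJ (N := N) (j i)).range := by
  classical
  constructor
  · rintro ⟨fJ, h, rfl⟩
    rw [add_comm]
    refine AddSubgroup.add_mem_sup ⟨h, rfl⟩ ?_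
    refine AddSubgroup.sum_mem _ fun i _ => ?_
    exact (le_iSup (fun i => (compJ (N := N) (j i)).range) i) ⟨fJ i, rfl⟩
  · intro hf
    obtain ⟨b, ⟨h, rfl⟩, c, hc, rfl⟩ := AddSubgroup.mem_sup.1 hf
    have key : ∃ fJ : ∀ i, homA N (J i), c = ∑ i, fJ i ≫ j i := by
      refine AddSubgroup.iSup_induction (fun i => (compJ (N := N) (j i)).range)
        (C := fun c => ∃ fJ : ∀ i, homA N (J i), c = ∑ i, fJ i ≫ j i) hc ?_ ?_ ?_
      · rintro i _ ⟨g, rfl⟩
        refine ⟨fun k => if hk : k = i then hk ▸ g else 0, ?_⟩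
        rw [Finset.sum_eq_single i]
        · simp
        · intro k _ hk
          simp [hk]
        · intro hi
          exact absurd (Finset.mem_univ i) hi
      · exact ⟨fun _ => 0, by simp⟩
      · rintro _ _ ⟨fJ, rfl⟩ ⟨fJ', rfl⟩
        refine ⟨fun i => fJ i + fJ' i, ?_⟩
        rw [← Finset.sum_add_distrib]
        refine Finset.sum_congr rfl fun i _ => ?_
        simp
    obtain ⟨fJ, rfl⟩ := key
    exact ⟨fJ, h, by rw [add_comm]⟩

/-! ### Torsion and finiteness of `H¹` -/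

/-- `H¹(G, N)` is finite for finite `G` and `N`. -/
lemma finite_H1 [Finite G] (N : Rep.{0} ℤ G) [Finite N.V] : Finite (groupCohomology N 1) := by
  haveI : Finite (G → N.V) := Pi.finite
  haveI : Finite (cocycles₁ N) :=
    Finite.of_injective (fun c : cocycles₁ N => (c : G → N.V)) Subtype.val_injective
  refine Finite.of_surjective (fun c : cocycles₁ N => (H1π N).hom c) ?_
  intro x
  induction x using groupCohomology.H1_induction_on with
  | h f => exact ⟨f, rfl⟩

/-- If `H¹(G, N) ≠ 0` and `p N = 0` then `p ∣ |G|`. -/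
lemma dvd_card_of_H1_ne_zero [Finite G] {p : ℕ} [Fact p.Prime] (N : Rep.{0} ℤ G)
    (hN : ∀ n : N.V, p • n = 0) (x : groupCohomology N 1) (hx : x ≠ 0) : p ∣ Nat.card G := by
  have h1 : p • x = 0 := H114.nsmul_H1_eq_zero p N hN x
  have h2 : Nat.card G • x = 0 := T.H572.cardTorsion ℤ G N 1 (by norm_num) x
  rw [← addOrderOf_eq_prime h1 hx]
  exact addOrderOf_dvd_iff_nsmul_eq_zero.2 h2

/-! ### Counting homomorphisms -/

lemma card_hom_eq_of_pGen {p : ℕ} [Fact p.Prime] {M W : Type} [AddCommGroup M] [AddCommGroup W]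
    [Finite M] [Module (ZMod p) M] (g : PGen p W) : Nat.card (M →+ W) = Nat.card M :=
  (Nat.card_congr (g.homEquivDual M).toEquiv).trans (card_dual_eq M)

/-- `|Hom(M, W)| = |M|` for a finite group `M` killed by `p` and a group `W` with cyclic
`p`-torsion, nonzero as soon as `M ≠ 0`. -/
lemma card_hom_eq {p : ℕ} [Fact p.Prime] {M W : Type} [AddCommGroup M] [AddCommGroup W]
    [Finite M] (hM : ∀ m : M, p • m = 0) (hcyc : CyclicPTorsion p W)
    (hMW : (∃ m : M, m ≠ 0) → ∃ w : W, w ≠ 0 ∧ p • w = 0) :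
    Nat.card (M →+ W) = Nat.card M := by
  by_cases hMtriv : ∀ m : M, m = 0
  · haveI : Subsingleton M := ⟨fun a b => (hMtriv a).trans (hMtriv b).symm⟩
    haveI : Subsingleton (M →+ W) := ⟨fun a b => by
      ext m
      rw [hMtriv m, map_zero, map_zero]⟩
    rw [Nat.card_unique, Nat.card_unique]
  · obtain ⟨m₁, hm₁⟩ := not_forall.1 hMtriv
    obtain ⟨w₀, hne, hw₀⟩ := hMW ⟨m₁, hm₁⟩
    letI : Module (ZMod p) M := AddCommGroup.zmodModule hM
    exact card_hom_eq_of_pGen (hcyc.pGen w₀ hw₀ hne)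

/-! ### ALG8 -/

/-- **ALG8** from ALG5, ALG7, ALG7a. -/
theorem alg8_of : ALG8AssemblySpec := by
  intro h5 h7 h7a p hp G _ _ N C γ hNfin hN hC hT6p H _ _ hH hNorm ι _ Dc _ _ φ hφ X γX j hX hgd3
  haveI : Fact p.Prime := ⟨hp⟩
  haveI : Finite N.V := hNfin
  obtain ⟨h5a, h5b, h5c⟩ := h5 p hp G N C γ hNfin hN hC hT6p
  obtain ⟨hcyc, hnz⟩ := h7a p hp G C γ hC
  have hV : ∀ v : groupCohomology N 1, p • v = 0 := H114.nsmul_H1_eq_zero p N hN
  haveI : Finite (groupCohomology N 1) := finite_H1 N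
  -- the kernel of the pairing
  have hB : ∀ a : homA N C, a ∈ (resBA N C).range ↔ pairHom N C a = 0 := by
    intro a
    constructor
    · rintro ⟨h, rfl⟩
      ext x
      exact h5a h x
    · intro ha
      obtain ⟨h, hh⟩ := h5c H hH hNorm a (fun x => congrArg (fun χ => χ x) ha)
      exact ⟨h, hh⟩
  -- ALG7 for every `i`
  have hi : ∀ (i : ι) (χ : groupCohomology N 1 →+ groupCohomology C 2),
      (∃ a ∈ (compJ (N := N) (j i)).range, pairHom N C a = χ) ↔
        ∀ v ∈ (resAlong (φ i) N 1).toAddMonoidHom.ker, χ v = 0 := by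
    intro i χ
    have h := h7 p hp G (Dc i) (φ i) (hφ i) N C γ (X i) (γX i) (j i) hNfin hN hC (hX i) hT6p
      (hgd3 i) χ
    constructor
    · rintro ⟨_, ⟨f, rfl⟩, hf⟩ v hv
      exact h.2 ⟨f, fun x => congrArg (fun χ' => χ' x) hf⟩ v hv
    · intro hχ
      obtain ⟨f, hf⟩ := h.1 (fun x hx => hχ x hx)
      exact ⟨f ≫ j i, ⟨f, rfl⟩, by ext x; exact hf x⟩
  have hmem : ∀ x : groupCohomology N 1,
      x ∈ (⨅ i, (resAlong (φ i) N 1).toAddMonoidHom.ker) ↔ IsLocTriv φ N x := by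
    intro x
    rw [AddSubgroup.mem_iInf]
    rfl
  have hVW : ∀ x : groupCohomology N 1, x ≠ 0 →
      ∃ w : groupCohomology C 2, w ≠ 0 ∧ p • w = 0 :=
    fun x hx => hnz (dvd_card_of_H1_ne_zero N hN x hx)
  refine ⟨?_, ?_, ?_, ?_⟩
  · -- (a)
    intro f
    rw [isLocSum_iff, mem_sup_iff_core hV hcyc (pairHom N C) _ hB _ _ hi f]
    constructor
    · intro h v hv
      exact h v ((hmem v).1 hv)
    · intro h v hv
      exact h v ((hmem v).2 hv)
  · -- (b)
    intro χ
    obtain ⟨f, hf⟩ := h5b χ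
    exact ⟨f, fun x _ => hf x⟩
  · -- (c1)
    exact Finite.of_injective (fun x : shaFin φ N => (x : groupCohomology N 1))
      Subtype.val_injective
  · -- (c2)
    haveI : Finite (shaFin φ N) :=
      Finite.of_injective (fun x : shaFin φ N => (x : groupCohomology N 1))
        Subtype.val_injective
    refine card_hom_eq (p := p) (fun m => Subtype.ext (hV m.1)) hcyc ?_
    rintro ⟨m, hm⟩
    exact hVW m.1 (fun h => hm (Subtype.ext h))

end

end Fermat.Agent.S55.E1.H353

end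
-- ===== PACK-END S55/E1/H353/Alg8.lean

-- ===== PACK-BEGIN S55/G/SIndH237/H95/Struct.lean
section
/-
S55 / layer G / G-SIND:UCT (helper95).  Part 6: structure of the integral model `RS T L`.

With `n = ∏_{q ∈ T} q` and `I = n · RS`: `RS` is `I`-adically complete, `RS ⧸ I` is finite.
(Coordinates with respect to an integral basis: `H63.coord63`; estimates: `H959`.)
-/



set_option autoImplicit false
set_option linter.unusedSectionVars false
set_option linter.style.haveILetI false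

open scoped NumberField TensorProduct
open IsDedekindDomain

noncomputable section

namespace Fermat.Agent.S55.G.SIndH237.H95

open Fermat.Agent.S55.G Fermat.Agent.S55.G.SIndH237 Fermat.Agent.S55.G.SIndH237.H63
  Fermat.Agent.S55.G.SIndH237.H959

variable (T : Finset Nat.Primes) (L : Type) [Field L] [NumberField L]

local notation "ιB" => Module.Free.ChooseBasisIndex ℤ (𝓞 L)

/-! ## Coordinates -/

/-- All coordinates of `z` are divisible by `n ^ N` in `ℤ_T`. -/
def CoordLe (N : ℕ) (z : AS T L) : Prop :=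
  ∀ (k : ιB) (q : T), ‖QS.toPi T (coord63 T L k z) q‖ ≤ ‖((nT T : ℕ) : Qq q.1)‖ ^ N

lemma coordLe_zero_iff (z : AS T L) : CoordLe T L 0 z ↔ z ∈ RS T L := by
  constructor
  · intro h
    rw [sum_coord63 T L z]
    refine (RS T L).sum_mem fun k _ => ?_
    rw [NumberField.integralBasis_apply]
    exact tmul_mem_RS T L _ (fun q => by simpa using h k q)
  · intro h k q
    simpa using good63_of_mem_RS T L h k q

lemma coord_basis_tmul (k j : ιB) (c : QS T) :
    coord63 T L k ((NumberField.integralBasis L j) ⊗ₜ[ℚ] c) = if j = k then c else 0 := by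
  classical
  rw [coord63_tmul, Module.Basis.repr_self, Finsupp.single_apply]
  split_ifs <;> simp

lemma coord_sum_basis_tmul (k : ιB) (c : ιB → QS T) :
    coord63 T L k (∑ j : ιB, (NumberField.integralBasis L j) ⊗ₜ[ℚ] (c j)) = c k := by
  classical
  rw [map_sum]
  simp only [coord_basis_tmul]
  rw [Finset.sum_ite_eq' Finset.univ k c]
  simp

lemma coord_natCast_pow_mul (N : ℕ) (k : ιB) (z : AS T L) :
    coord63 T L k (((nT T : ℕ) : AS T L) ^ N * z) = (nT T : QS T) ^ N * coord63 T L k z := by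
  conv_lhs => rw [sum_coord63 T L z, Finset.mul_sum]
  simp only [natCast_pow_mul_tmul]
  rw [coord_sum_basis_tmul]

lemma coordLe_pow_mul {N : ℕ} {y : AS T L} (hy : y ∈ RS T L) :
    CoordLe T L N (((nT T : ℕ) : AS T L) ^ N * y) := by
  intro k q
  rw [coord_natCast_pow_mul, toPi_mul, toPi_pow, toPi_natCast, norm_mul, norm_pow]
  have h1 := good63_of_mem_RS T L hy k q
  calc ‖((nT T : ℕ) : Qq q.1)‖ ^ N * ‖QS.toPi T (coord63 T L k y) q‖
      ≤ ‖((nT T : ℕ) : Qq q.1)‖ ^ N * 1 :=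
        mul_le_mul_of_nonneg_left h1 (pow_nonneg (norm_nonneg _) _)
    _ = ‖((nT T : ℕ) : Qq q.1)‖ ^ N := mul_one _

lemma exists_eq_pow_mul_of_coordLe {N : ℕ} {z : AS T L} (h : CoordLe T L N z) :
    ∃ y ∈ RS T L, z = ((nT T : ℕ) : AS T L) ^ N * y := by
  have h1 : ∀ k : ιB, ∃ d' ∈ ZS T, coord63 T L k z = (nT T : QS T) ^ N * d' :=
    fun k => exists_eq_pow_mul_of_norm_le T N _ (h k)
  choose d hd hd' using h1
  refine ⟨∑ k : ιB, (NumberField.integralBasis L k) ⊗ₜ[ℚ] (d k), ?_, ?_⟩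
  · refine (RS T L).sum_mem fun k _ => ?_
    rw [NumberField.integralBasis_apply]
    exact tmul_mem_RS T L _ (hd k)
  · conv_lhs => rw [sum_coord63 T L z]
    rw [Finset.mul_sum]
    refine Finset.sum_congr rfl fun k _ => ?_
    rw [natCast_pow_mul_tmul, hd' k]

lemma coordLe_iff {N : ℕ} {z : AS T L} :
    CoordLe T L N z ↔ ∃ y ∈ RS T L, z = ((nT T : ℕ) : AS T L) ^ N * y :=
  ⟨exists_eq_pow_mul_of_coordLe T L, fun ⟨_, hy, h⟩ => h ▸ coordLe_pow_mul T L hy⟩

lemma coordLe_sub {N : ℕ} {z z' : AS T L} (h : CoordLe T L N z) (h' : CoordLe T L N z') :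
    CoordLe T L N (z - z') := by
  intro k q
  haveI : Fact (q.1 : ℕ).Prime := ⟨q.1.2⟩
  rw [map_sub, toPi_sub, sub_eq_add_neg]
  refine (Padic.nonarchimedean _ _).trans (max_le (h k q) ?_)
  rw [norm_neg]
  exact h' k q

lemma eq_zero_of_coordLe {z : AS T L} (h : ∀ N, CoordLe T L N z) : z = 0 := by
  have h0 : ∀ k : ιB, coord63 T L k z = 0 := by
    intro k
    refine QS_ext T fun q => ?_
    have h1 : ∀ N : ℕ, ‖QS.toPi T (coord63 T L k z) q‖ ≤ ‖((nT T : ℕ) : Qq q.1)‖ ^ N :=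
      fun N => h N k q
    have h2 : ‖QS.toPi T (coord63 T L k z) q‖ ≤ 0 :=
      ge_of_tendsto' (tendsto_pow_atTop_nhds_zero_of_lt_one (norm_nonneg _)
        (norm_nT_lt_one T q)) h1
    rw [norm_le_zero_iff] at h2
    rw [h2]
    rfl
  rw [sum_coord63 T L z]
  simp [h0]

/-! ## Limits -/

lemma exists_limit_padic (q : T) (c : ℕ → Qq q.1)
    (hc : ∀ m n, m ≤ n → ‖c m - c n‖ ≤ ‖((nT T : ℕ) : Qq q.1)‖ ^ m) :
    ∃ ℓ : Qq q.1, ∀ m, ‖c m - ℓ‖ ≤ ‖((nT T : ℕ) : Qq q.1)‖ ^ m := by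
  haveI : Fact (q.1 : ℕ).Prime := ⟨q.1.2⟩
  have hcs : CauchySeq c := by
    refine cauchySeq_of_le_geometric ‖((nT T : ℕ) : Qq q.1)‖ 1 (norm_nT_lt_one T q) fun n => ?_
    rw [dist_eq_norm, one_mul]
    exact hc n (n + 1) (Nat.le_succ n)
  obtain ⟨ℓ, hℓ⟩ := cauchySeq_tendsto_of_complete hcs
  refine ⟨ℓ, fun m => ?_⟩
  have h1 : Filter.Tendsto (fun n => ‖c m - c n‖) Filter.atTop (nhds ‖c m - ℓ‖) :=
    (tendsto_const_nhds.sub hℓ).norm
  exact le_of_tendsto h1 (Filter.eventually_atTop.2 ⟨m, fun n hn => hc m n hn⟩)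

lemma exists_limit_QS (c : ℕ → QS T)
    (hc : ∀ m n, m ≤ n → ∀ q : T,
      ‖QS.toPi T (c m - c n) q‖ ≤ ‖((nT T : ℕ) : Qq q.1)‖ ^ m) :
    ∃ ℓ : QS T, ∀ (m : ℕ) (q : T),
      ‖QS.toPi T (c m - ℓ) q‖ ≤ ‖((nT T : ℕ) : Qq q.1)‖ ^ m := by
  have h1 : ∀ q : T, ∃ ℓ : Qq q.1, ∀ m,
      ‖QS.toPi T (c m) q - ℓ‖ ≤ ‖((nT T : ℕ) : Qq q.1)‖ ^ m :=
    fun q => exists_limit_padic T q (fun n => QS.toPi T (c n) q) fun m n hmn => by
      have := hc m n hmn q
      rwa [toPi_sub] at this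
  choose ℓ hℓ using h1
  refine ⟨(QS.toPi T).symm ℓ, fun m q => ?_⟩
  rw [toPi_sub, toPi_symm_apply]
  exact hℓ q m

/-! ## The ideal `n · RS` -/

/-- The ideal `I = n · RS` of the integral model. -/
def nIdeal : Ideal (RS T L) := Ideal.span {((nT T : ℕ) : RS T L)}

lemma mem_nIdeal_pow_iff (N : ℕ) (x : RS T L) :
    x ∈ nIdeal T L ^ N ↔ CoordLe T L N (x : AS T L) := by
  rw [nIdeal, Ideal.span_singleton_pow, Ideal.mem_span_singleton', coordLe_iff]
  constructor
  · rintro ⟨a, rfl⟩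
    refine ⟨a, a.2, ?_⟩
    rw [Subring.coe_mul, Subring.coe_pow, Subring.coe_natCast, mul_comm]
  · rintro ⟨y, hy, h⟩
    refine ⟨⟨y, hy⟩, Subtype.ext ?_⟩
    rw [Subring.coe_mul, Subring.coe_pow, Subring.coe_natCast, h, mul_comm]

lemma mem_nIdeal_iff (x : RS T L) : x ∈ nIdeal T L ↔ CoordLe T L 1 (x : AS T L) := by
  rw [← mem_nIdeal_pow_iff, pow_one]

instance isHausdorff_nIdeal : IsHausdorff (nIdeal T L) (RS T L) where
  haus' x hx := by
    refine Subtype.ext (eq_zero_of_coordLe T L fun N => ?_)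
    have := hx N
    rw [SModEq.zero, smul_eq_mul, Ideal.mul_top] at this
    exact (mem_nIdeal_pow_iff T L N x).1 this

instance isPrecomplete_nIdeal : IsPrecomplete (nIdeal T L) (RS T L) where
  prec' f hf := by
    have hf' : ∀ m n, m ≤ n → CoordLe T L m ((f m : AS T L) - (f n : AS T L)) := by
      intro m n hmn
      have := hf hmn
      rw [SModEq.sub_mem, smul_eq_mul, Ideal.mul_top, mem_nIdeal_pow_iff] at this
      exact this
    have h1 : ∀ k : ιB, ∃ ℓ : QS T, ∀ (m : ℕ) (q : T),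
        ‖QS.toPi T (coord63 T L k (f m : AS T L) - ℓ) q‖ ≤ ‖((nT T : ℕ) : Qq q.1)‖ ^ m :=
      fun k => exists_limit_QS T (fun n => coord63 T L k (f n : AS T L)) fun m n hmn q => by
        have := hf' m n hmn k q
        rwa [map_sub] at this
    choose ℓ hℓ using h1
    set Lim : AS T L := ∑ j : ιB, (NumberField.integralBasis L j) ⊗ₜ[ℚ] (ℓ j) with hLim
    have hL : ∀ m, CoordLe T L m ((f m : AS T L) - Lim) := by
      intro m k q
      rw [map_sub, hLim, coord_sum_basis_tmul]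
      exact hℓ k m q
    have hmem : Lim ∈ RS T L := by
      rw [← coordLe_zero_iff]
      have h0 : CoordLe T L 0 (f 0 : AS T L) := (coordLe_zero_iff T L _).2 (f 0).2
      have := coordLe_sub T L h0 (hL 0)
      rwa [sub_sub_cancel] at this
    refine ⟨⟨Lim, hmem⟩, fun n => ?_⟩
    rw [SModEq.sub_mem, smul_eq_mul, Ideal.mul_top, mem_nIdeal_pow_iff]
    exact hL n

instance isAdicComplete_nIdeal : IsAdicComplete (nIdeal T L) (RS T L) where

/-! ## Finiteness of `RS ⧸ n · RS` -/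

lemma exists_nat_lt_approx (c : QS T) (hc : c ∈ ZS T) :
    ∃ r : ℕ, r < nT T ∧ ∀ q : T, ‖QS.toPi T c q - (r : Qq q.1)‖ ≤ ‖((nT T : ℕ) : Qq q.1)‖ ^ 1 := by
  obtain ⟨r, hr⟩ := exists_nat_approx T c hc 1
  refine ⟨r % nT T, Nat.mod_lt _ (nT_pos T), fun q => ?_⟩
  haveI : Fact (q.1 : ℕ).Prime := ⟨q.1.2⟩
  have h1 : QS.toPi T c q - ((r % nT T : ℕ) : Qq q.1) =
      (QS.toPi T c q - (r : Qq q.1)) + ((nT T : ℕ) : Qq q.1) * ((r / nT T : ℕ) : Qq q.1) := by
    have h2 : ((r : ℕ) : Qq q.1) =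
        ((nT T : ℕ) : Qq q.1) * ((r / nT T : ℕ) : Qq q.1) + ((r % nT T : ℕ) : Qq q.1) := by
      rw [← Nat.cast_mul, ← Nat.cast_add, Nat.div_add_mod]
    rw [h2]
    ring
  rw [h1]
  refine (Padic.nonarchimedean _ _).trans (max_le (hr q) ?_)
  rw [norm_mul, pow_one]
  calc ‖((nT T : ℕ) : Qq q.1)‖ * ‖((r / nT T : ℕ) : Qq q.1)‖
      ≤ ‖((nT T : ℕ) : Qq q.1)‖ * 1 :=
        mul_le_mul_of_nonneg_left (by
          have := Padic.norm_int_le_one (p := (q.1 : ℕ)) ((r / nT T : ℕ) : ℤ)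
          rwa [Int.cast_natCast] at this) (norm_nonneg _)
    _ = ‖((nT T : ℕ) : Qq q.1)‖ := mul_one _

lemma natCast_mem_ZS (r : ℕ) : (r : QS T) ∈ ZS T := natCast_mem _ _

instance finite_quotient_nIdeal : Finite (RS T L ⧸ nIdeal T L) := by
  classical
  let φ : (ιB → Fin (nT T)) → RS T L ⧸ nIdeal T L := fun r =>
    Ideal.Quotient.mk (nIdeal T L)
      ⟨∑ j : ιB, (NumberField.integralBasis L j) ⊗ₜ[ℚ] (((r j : ℕ) : QS T)),
        (RS T L).sum_mem fun k _ => by
          rw [NumberField.integralBasis_apply]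
          exact tmul_mem_RS T L _ (natCast_mem_ZS T _)⟩
  refine Finite.of_surjective φ fun x => ?_
  obtain ⟨x, rfl⟩ := Ideal.Quotient.mk_surjective x
  have h1 : ∀ k : ιB, ∃ r : ℕ, r < nT T ∧ ∀ q : T,
      ‖QS.toPi T (coord63 T L k (x : AS T L)) q - (r : Qq q.1)‖ ≤
        ‖((nT T : ℕ) : Qq q.1)‖ ^ 1 :=
    fun k => exists_nat_lt_approx T _ (good63_of_mem_RS T L x.2 k)
  choose r hr hr' using h1
  refine ⟨fun k => ⟨r k, hr k⟩, ?_⟩
  rw [eq_comm, Ideal.Quotient.eq, mem_nIdeal_iff]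
  intro k q
  have hsub : ((x - ⟨∑ j : ιB, (NumberField.integralBasis L j) ⊗ₜ[ℚ] (((r j : ℕ) : QS T)),
      (RS T L).sum_mem fun k _ => by
        rw [NumberField.integralBasis_apply]
        exact tmul_mem_RS T L _ (natCast_mem_ZS T _)⟩ : RS T L) : AS T L) =
      (x : AS T L) - ∑ j : ιB, (NumberField.integralBasis L j) ⊗ₜ[ℚ] (((r j : ℕ) : QS T)) := rfl
  change ‖QS.toPi T (coord63 T L k ((x - ⟨∑ j : ιB,
    (NumberField.integralBasis L j) ⊗ₜ[ℚ] (((r j : ℕ) : QS T)), _⟩ : RS T L) : AS T L)) q‖ ≤ _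
  rw [hsub, map_sub, coord_sum_basis_tmul, toPi_sub, toPi_natCast]
  exact hr' k q

end Fermat.Agent.S55.G.SIndH237.H95

end
end
-- ===== PACK-END S55/G/SIndH237/H95/Struct.lean

-- ===== PACK-BEGIN S55/G/SIndH237/H95/FinVanish.lean
section
/-
S55 / layer G / G-SIND:UCT (helper95).  Part 2 (layer T only).

For a FINITE module `A` over a finite group `G`:
if `H¹(H, A) = 0` for every subgroup `H ≤ G`, then `H²(H, A) = 0` for every subgroup `H ≤ G`.
(Sylow reduction, `p`-group induction with inflation–restriction in degree 2, and the Herbrand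
quotient of a finite module over a cyclic group.)
-/




set_option autoImplicit false
set_option linter.unusedSectionVars false
set_option linter.style.haveILetI false

namespace Fermat.Agent.S55.G.SIndH237.H95

open CategoryTheory groupCohomology Fermat.Agent.S55.T

section FinVanish

variable {k G : Type} [CommRing k] [Group G] [Finite G] (A : Rep.{0} k G)

lemma isZero_of_forall_eq_zero {M : ModuleCat.{0} k} (h : ∀ x : M, x = 0) : Limits.IsZero M := by
  haveI : Subsingleton M := ⟨fun a b => (h a).trans (h b).symm⟩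
  exact ModuleCat.isZero_of_subsingleton M

lemma eq_zero_of_isZero {M : ModuleCat.{0} k} (h : Limits.IsZero M) (x : M) : x = 0 :=
  (ModuleCat.isZero_iff_subsingleton.1 h).elim x 0

/-- The cyclic prime-order step: `H²(G ⧸ K, A^K) = 0` if `A` is finite, `G ⧸ K` has prime order
and `H¹(G, A) = 0`. -/
theorem isZero_H2_quotient_of_prime (hfin : Finite A.V) (K : Subgroup G) [K.Normal]
    (hp : (Nat.card (G ⧸ K)).Prime) (h1 : Limits.IsZero (groupCohomology A 1)) :
    Limits.IsZero (groupCohomology (A.quotientToInvariants K) 2) := by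
  haveI : Fact (Nat.card (G ⧸ K)).Prime := ⟨hp⟩
  haveI : IsCyclic (G ⧸ K) := isCyclic_of_prime_card rfl
  have hfinB : Finite (A.quotientToInvariants K).V := by
    change Finite ↥(Representation.invariants (MonoidHom.comp A.ρ K.subtype))
    exact Finite.of_injective (fun x => (x : A.V)) Subtype.val_injective
  obtain ⟨hf1, hf2, hcard⟩ := Fermat.Agent.S55.T.H895.herbrandFinite k (G ⧸ K)
    (A.quotientToInvariants K) hfinB
  have hinj : Function.Injective (H1InfRes A K).f.hom :=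
    (ModuleCat.mono_iff_injective _).1 inferInstance
  have hsub1 : Subsingleton (groupCohomology (A.quotientToInvariants K) 1) := by
    refine ⟨fun a b => hinj ?_⟩
    exact (ModuleCat.isZero_iff_subsingleton.1 h1).elim _ _
  have hc1 : Nat.card (groupCohomology (A.quotientToInvariants K) 1) = 1 :=
    Nat.card_of_subsingleton 0
  rw [hc1] at hcard
  haveI := hf2
  haveI : Subsingleton (groupCohomology (A.quotientToInvariants K) 2) :=
    (Nat.card_eq_one_iff_unique.1 hcard.symm).1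
  exact ModuleCat.isZero_of_subsingleton _

/-- The `p`-group case, by induction on the order. -/
theorem isZero_H2_of_finite_pgroup (hfin : Finite A.V)
    (h1 : ∀ H : Subgroup G, Limits.IsZero (groupCohomology (resSub A H) 1))
    (p : ℕ) [hp : Fact p.Prime] :
    ∀ (n : ℕ) (H : Subgroup G), Nat.card H = p ^ n →
      Limits.IsZero (groupCohomology (resSub A H) 2) := by
  intro n
  induction n with
  | zero =>
    intro H hH
    rw [pow_zero] at hH
    exact isZero_of_forall_eq_zero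
      (Fermat.Agent.S55.H954.H2_eq_zero_of_card_eq_one (resSub A H) hH)
  | succ n ih =>
    intro H hH
    obtain ⟨K, hK⟩ := Sylow.exists_subgroup_card_pow_prime (G := ↥H) p (n := n)
      (by rw [hH]; exact pow_dvd_pow p (Nat.le_succ n))
    have hidx : K.index = p := by
      have h := K.card_mul_index
      rw [hK, hH, pow_succ] at h
      exact Nat.eq_of_mul_eq_mul_left (pow_pos hp.out.pos n) h
    haveI hKn : K.Normal := Subgroup.normal_of_index_eq_minFac_card (by
      rw [hidx, hH, Nat.pow_minFac (Nat.succ_ne_zero n), hp.out.minFac_eq])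
    have hq : Nat.card (↥H ⧸ K) = p := by rw [← Subgroup.index_eq_card]; exact hidx
    have hQ : Limits.IsZero (groupCohomology ((resSub A H).quotientToInvariants K) 2) :=
      isZero_H2_quotient_of_prime (resSub A H) hfin K (by rw [hq]; exact hp.out) (h1 H)
    have hK' : Nat.card (K.map H.subtype) = p ^ n :=
      (Fermat.Agent.S55.T.H954.card_map_subtype H K).trans hK
    have IH := ih (K.map H.subtype) hK'
    have hK2 : Limits.IsZero (groupCohomology (resSub (resSub A H) K) 2) :=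
      isZero_of_forall_eq_zero
        (Fermat.Agent.S55.T.H954.eq_zero_of_iso_of_isZero
          (Fermat.Agent.S55.T.H954.resResIso A H K 2) IH)
    have hK1 : Limits.IsZero (groupCohomology (resSub (resSub A H) K) 1) :=
      isZero_of_forall_eq_zero
        (Fermat.Agent.S55.T.H954.eq_zero_of_iso_of_isZero
          (Fermat.Agent.S55.T.H954.resResIso A H K 1) (h1 (K.map H.subtype)))
    obtain ⟨-, -, hex⟩ := Fermat.Agent.S55.T.H954.infRes2 k H (resSub A H) K hK1
    refine isZero_of_forall_eq_zero fun x => ?_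
    obtain ⟨y, hy⟩ := hex x (eq_zero_of_isZero hK2 _)
    rw [← hy, eq_zero_of_isZero hQ y, map_zero]

/-- **Finite modules**: vanishing of `H¹` on all subgroups implies vanishing of `H²` on all
subgroups. -/
theorem isZero_H2_of_finite (hfin : Finite A.V)
    (h1 : ∀ H : Subgroup G, Limits.IsZero (groupCohomology (resSub A H) 1))
    (H : Subgroup G) : Limits.IsZero (groupCohomology (resSub A H) 2) := by
  refine isZero_of_forall_eq_zero fun x => ?_
  refine Fermat.Agent.S55.H119.eq_zero_of_forall_sylow_resMap_eq_zero_two (resSub A H) x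
    fun p hp => ?_
  haveI : Fact p.Prime := ⟨hp⟩
  obtain ⟨P⟩ : Nonempty (Sylow p H) := inferInstance
  refine ⟨P, ?_⟩
  have hP : Nat.card (P : Subgroup H) = p ^ ((Nat.card H).factorization p) :=
    Sylow.card_eq_multiplicity P
  have hP' : Nat.card ((P : Subgroup H).map H.subtype) = p ^ ((Nat.card H).factorization p) :=
    (Fermat.Agent.S55.T.H954.card_map_subtype H (P : Subgroup H)).trans hP
  have hz := isZero_H2_of_finite_pgroup A hfin h1 p _ ((P : Subgroup H).map H.subtype) hP'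
  exact Fermat.Agent.S55.T.H954.eq_zero_of_iso_of_isZero
    (Fermat.Agent.S55.T.H954.resResIso A H (P : Subgroup H) 2) hz _

/-- The same for the full group. -/
theorem isZero_H2_self_of_finite (hfin : Finite A.V)
    (h1 : ∀ H : Subgroup G, Limits.IsZero (groupCohomology (resSub A H) 1)) :
    Limits.IsZero (groupCohomology A 2) := by
  refine isZero_of_forall_eq_zero fun x => ?_
  refine Fermat.Agent.S55.H119.eq_zero_of_forall_sylow_resMap_eq_zero_two A x fun p hp => ?_
  haveI : Fact p.Prime := ⟨hp⟩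
  obtain ⟨P⟩ : Nonempty (Sylow p G) := inferInstance
  exact ⟨P, eq_zero_of_isZero (isZero_H2_of_finite_pgroup A hfin h1 p _ (P : Subgroup G)
    (Sylow.card_eq_multiplicity P)) _⟩

end FinVanish

end Fermat.Agent.S55.G.SIndH237.H95

end
-- ===== PACK-END S55/G/SIndH237/H95/FinVanish.lean

-- ===== PACK-BEGIN S55/KL/DevSylowH543.lean
section



/-!
# S55, layer KL / KB, leaf KB-DEV-B : `DevSylowSpec` (helper543)

Sylow reduction for `colim H³(Γ, R) = 0`:  to prove that every class of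
`H³(Γ ⧸ V', R^{V'})` is effaceable (for a finite smooth `p`-torsion module `R`) it suffices to
prove it for the open subgroups `U` such that `U ⧸ V` is a `p`-group for a level `V ≤ V₀` acting
trivially on `R`.

Proof.  Choose a level `V ≤ V₀` acting trivially on `R`, a Sylow `p`-subgroup `P` of `Γ ⧸ V` and
let `U` be its preimage.  For every level `W ≤ V` the index of the image of `U` in `Γ ⧸ W` is
`[Γ : U]`, prime to `p`; hence (`ResIndexSpec`) `rest : Hⁿ(Γ ⧸ W, R^W) → Hⁿ(U ⧸ W, R^W)` is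
injective.  As `rest` commutes with inflation, a class which becomes effaceable after `rest` is
effaceable.

Main results:
* `HLmap_comp`, `HLmap_congr`, `infl_infl`, `rest_infl` : functoriality of finite-level cohomology;
* `eq_zero_of_rest_eq_zero` : injectivity of `rest` in the coprime index case;
* `devSylow_of : T.ResIndexSpec → DevSylowSpec`, `devSylow : DevSylowSpec`.
-/

set_option autoImplicit false
set_option linter.style.haveILetI false

open CategoryTheory groupCohomology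

namespace Fermat.Agent.S55.KL.H543

open Fermat.Agent.S55.KL

variable {k : Type} [CommRing k]

/-! ## Functoriality of `HLmap` -/

section Functoriality

variable {Γ Γ' Γ'' : Type} [Group Γ] [Group Γ'] [Group Γ'']

lemma HLmap_congr {B : Rep.{0} k Γ} {B' : Rep.{0} k Γ'} {f f' : Γ' →* Γ} {W : Subgroup Γ}
    [W.Normal] {W' : Subgroup Γ'} [W'.Normal] (hf : W' ≤ W.comap f) (hf' : W' ≤ W.comap f')
    (φ : Rep.res f B ⟶ B') (φ' : Rep.res f' B ⟶ B') (h : f = f')
    (hφ : ∀ b : B.V, φ.hom b = φ'.hom b) (n : ℕ) :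
    HLmap f hf φ n = HLmap f' hf' φ' n := by
  subst h
  refine groupCohomology.map_congr rfl ?_ n
  ext b
  exact hφ b.1

lemma HLmap_comp {B : Rep.{0} k Γ} {B' : Rep.{0} k Γ'} {B'' : Rep.{0} k Γ''}
    (f : Γ' →* Γ) (g : Γ'' →* Γ') {W : Subgroup Γ} [W.Normal] {W' : Subgroup Γ'} [W'.Normal]
    {W'' : Subgroup Γ''} [W''.Normal] (hf : W' ≤ W.comap f) (hg : W'' ≤ W'.comap g)
    (φ : Rep.res f B ⟶ B') (ψ : Rep.res g B' ⟶ B'') (n : ℕ) :
    HLmap f hf φ n ≫ HLmap g hg ψ n =
      HLmap (f.comp g) (fun _ hx => hf (hg hx)) ((Rep.resFunctor g).map φ ≫ ψ) n := by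
  unfold HLmap
  rw [← groupCohomology.map_comp]
  refine groupCohomology.map_congr ?_ ?_ n
  · ext x
    rfl
  · ext b
    rfl

end Functoriality

section InflRest

variable {Γ : Type} [Group Γ]

/-- Inflation is transitive. -/
lemma infl_infl (B : Rep.{0} k Γ) {W'' W' W : Subgroup Γ} [W''.Normal] [W'.Normal] [W.Normal]
    (h' : W'' ≤ W') (h : W' ≤ W) (n : ℕ) (y : HL B W n) :
    (infl B h' n).hom ((infl B h n).hom y) = (infl B (h'.trans h) n).hom y := by
  have e : infl B h n ≫ infl B h' n = infl B (h'.trans h) n := by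
    unfold infl
    rw [HLmap_comp]
    exact HLmap_congr _ _ _ _ rfl (fun b => rfl) n
  rw [← e]
  rfl

/-- Restriction commutes with inflation. -/
lemma rest_infl (B : Rep.{0} k Γ) (U : Subgroup Γ) {W' W : Subgroup Γ} [W'.Normal] [W.Normal]
    (h : W' ≤ W) (n : ℕ) (y : HL B W n) :
    (rest B U W' n).hom ((infl B h n).hom y) =
      (infl (Rep.res U.subtype B) (W' := W'.subgroupOf U) (W := W.subgroupOf U)
        (fun _ hx => h hx) n).hom ((rest B U W n).hom y) := by
  have e : infl B h n ≫ rest B U W' n =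
      rest B U W n ≫ infl (Rep.res U.subtype B) (W' := W'.subgroupOf U) (W := W.subgroupOf U)
        (fun _ hx => h hx) n := by
    have e1 := HLmap_comp (B := B) (B' := B) (B'' := Rep.res U.subtype B) (MonoidHom.id Γ)
      U.subtype (W := W) (W' := W') (W'' := W'.subgroupOf U) (by simpa using h) le_rfl
      (𝟙 B) (𝟙 (Rep.res U.subtype B)) n
    have e2 := HLmap_comp (B := B) (B' := Rep.res U.subtype B) (B'' := Rep.res U.subtype B)
      U.subtype (MonoidHom.id ↥U) (W := W) (W' := W.subgroupOf U) (W'' := W'.subgroupOf U)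
      le_rfl (fun _ hx => h hx) (𝟙 (Rep.res U.subtype B)) (𝟙 (Rep.res U.subtype B)) n
    exact e1.trans ((HLmap_congr _ _ _ _ rfl (fun b => rfl) n).trans e2.symm)
  have e' := congrArg (fun f => f.hom y) e
  exact e'

end InflRest

/-! ## Injectivity of restriction to a subgroup of index prime to `p` -/

section RestInj

variable {Γ : Type} [Group Γ]

/-- The natural map `U ⧸ (W ∩ U) → Γ ⧸ W`. -/
noncomputable abbrev quotIncl (U W : Subgroup Γ) [W.Normal] :
    ↥U ⧸ W.subgroupOf U →* Γ ⧸ W :=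
  QuotientGroup.map (W.subgroupOf U) W U.subtype le_rfl

lemma quotIncl_injective (U W : Subgroup Γ) [W.Normal] : Function.Injective (quotIncl U W) := by
  rw [injective_iff_map_eq_one]
  intro x hx
  induction x using QuotientGroup.induction_on with
  | H u =>
    have h1 : ((u : Γ) : Γ ⧸ W) = 1 := hx
    rw [QuotientGroup.eq_one_iff] at h1 ⊢
    exact h1

lemma comap_range_quotIncl (U W : Subgroup Γ) [W.Normal] (hWU : W ≤ U) :
    (quotIncl U W).range.comap (QuotientGroup.mk' W) = U := by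
  ext g
  simp only [Subgroup.mem_comap, MonoidHom.mem_range]
  constructor
  · rintro ⟨x, hx⟩
    induction x using QuotientGroup.induction_on with
    | H u =>
      have h1 : ((u : Γ) : Γ ⧸ W) = (g : Γ ⧸ W) := hx
      rw [QuotientGroup.eq] at h1
      have h2 := U.mul_mem u.2 (hWU h1)
      simpa using h2
  · intro hg
    exact ⟨((⟨g, hg⟩ : U) : ↥U ⧸ W.subgroupOf U), rfl⟩

lemma index_range_quotIncl (U W : Subgroup Γ) [W.Normal] (hWU : W ≤ U) :
    (quotIncl U W).range.index = U.index := by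
  conv_rhs => rw [← comap_range_quotIncl U W hWU]
  exact (Subgroup.index_comap_of_surjective _ (QuotientGroup.mk'_surjective W)).symm

/-- The section of `quotIncl` over its range. -/
noncomputable def quotSec (U W : Subgroup Γ) [W.Normal] :
    ↥(quotIncl U W).range →* ↥U ⧸ W.subgroupOf U :=
  (MonoidHom.ofInjective (quotIncl_injective U W)).symm.toMonoidHom

lemma quotIncl_quotSec (U W : Subgroup Γ) [W.Normal] (h : ↥(quotIncl U W).range) :
    quotIncl U W (quotSec U W h) = (h : Γ ⧸ W) := by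
  have := (MonoidHom.ofInjective (quotIncl_injective U W)).apply_symm_apply h
  exact congrArg Subtype.val this

/-- `B^{W ∩ U} → B^W` for `W ≤ U` (underlying linear map). -/
def invBackLin (B : Rep.{0} k Γ) (U W : Subgroup Γ) (hWU : W ≤ U) :
    ↥(Representation.invariants ((Rep.res U.subtype B).ρ.comp (W.subgroupOf U).subtype)) →ₗ[k]
      ↥(Representation.invariants (B.ρ.comp W.subtype)) where
  toFun b := ⟨b.1, fun w => b.2 ⟨⟨w.1, hWU w.2⟩, Subgroup.mem_subgroupOf.2 w.2⟩⟩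
  map_add' _ _ := rfl
  map_smul' _ _ := rfl

/-- `B^{W ∩ U} → B^W` as a morphism of representations of the image of `U` in `Γ ⧸ W`. -/
noncomputable def invBack (B : Rep.{0} k Γ) (U W : Subgroup Γ) [W.Normal] (hWU : W ≤ U) :
    Rep.res (quotSec U W) ((Rep.res U.subtype B).quotientToInvariants (W.subgroupOf U)) ⟶
      Rep.res (quotIncl U W).range.subtype (B.quotientToInvariants W) :=
  Rep.ofHom ⟨invBackLin B U W hWU, fun h => by
    have hj := quotIncl_quotSec U W h
    ext b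
    show (((Rep.res U.subtype B).quotientToInvariants (W.subgroupOf U)).ρ (quotSec U W h) b).1 =
      ((B.quotientToInvariants W).ρ (h : Γ ⧸ W) (invBackLin B U W hWU b)).1
    rw [← hj]
    generalize quotSec U W h = x
    induction x using QuotientGroup.induction_on with
    | H u => rfl⟩

/-- `rest` followed by the transport back is the restriction to the image of `U` in `Γ ⧸ W`. -/
lemma rest_comp_back (B : Rep.{0} k Γ) (U W : Subgroup Γ) [W.Normal] (hWU : W ≤ U) (n : ℕ) :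
    rest B U W n ≫ groupCohomology.map (quotSec U W) (invBack B U W hWU) n =
      Fermat.Agent.S55.T.resMap (B.quotientToInvariants W) (quotIncl U W).range n := by
  unfold rest HLmap Fermat.Agent.S55.T.resMap
  rw [← groupCohomology.map_comp]
  refine groupCohomology.map_congr ?_ ?_ n
  · ext h
    exact quotIncl_quotSec U W h
  · ext b
    rfl

/-- If `rest y = 0` then `[Γ : U] • y = 0` (for `W ≤ U`). -/
theorem index_nsmul_eq_zero_of_rest (hRI : Fermat.Agent.S55.T.ResIndexSpec) (B : Rep.{0} k Γ)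
    (U W : Subgroup Γ) [W.Normal] [W.FiniteIndex] (hWU : W ≤ U) (n : ℕ) (hn : 0 < n)
    (y : HL B W n) (hy : (rest B U W n).hom y = 0) : U.index • y = 0 := by
  haveI : Finite (Γ ⧸ W) := Subgroup.finite_quotient_of_finiteIndex
  have h1 : (Fermat.Agent.S55.T.resMap (B.quotientToInvariants W) (quotIncl U W).range n).hom y
      = 0 := by
    rw [← rest_comp_back B U W hWU n]
    simp [hy]
  have h2 := hRI k (Γ ⧸ W) (B.quotientToInvariants W) (quotIncl U W).range n hn y h1
  rwa [index_range_quotIncl U W hWU] at h2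

lemma nsmul_eq_zero_of_coeff {G : Type} [Group G] (A : Rep.{0} k G) (p n : ℕ)
    (hA : ∀ a : A.V, p • a = 0) (x : groupCohomology A n) : p • x = 0 := by
  induction x using groupCohomology_induction_on with
  | h c =>
    have hc : p • c = 0 := by
      apply (ModuleCat.mono_iff_injective (iCocycles A n)).1 inferInstance
      rw [map_nsmul, map_zero]
      funext g
      exact hA _
    rw [← map_nsmul, hc, map_zero]

/-- **Injectivity of `rest`** on the cohomology of a `p`-torsion module, for `U` of index prime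
to `p`. -/
theorem eq_zero_of_rest_eq_zero (hRI : Fermat.Agent.S55.T.ResIndexSpec) (B : Rep.{0} k Γ)
    (p : ℕ) (hB : ∀ b : B.V, p • b = 0)
    (U W : Subgroup Γ) [W.Normal] [W.FiniteIndex] (hWU : W ≤ U) (hU : Nat.Coprime U.index p)
    (n : ℕ) (hn : 0 < n)
    (y : HL B W n) (hy : (rest B U W n).hom y = 0) : y = 0 := by
  have h1 := index_nsmul_eq_zero_of_rest hRI B U W hWU n hn y hy
  have h2 : p • y = 0 :=
    nsmul_eq_zero_of_coeff (B.quotientToInvariants W) p n
      (fun a => Subtype.ext (hB a.1)) y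
  have h3 : addOrderOf y ∣ 1 := by
    rw [← Nat.Coprime.gcd_eq_one hU]
    exact Nat.dvd_gcd (addOrderOf_dvd_of_nsmul_eq_zero h1) (addOrderOf_dvd_of_nsmul_eq_zero h2)
  exact AddMonoid.addOrderOf_eq_one_iff.1 (Nat.dvd_one.1 h3)

end RestInj

/-! ## Levels acting trivially, Sylow subgroups -/

section Sylow

variable {Γ : Type} [Group Γ]

/-- A finite smooth module is fixed by a level (which may be chosen below a given level). -/
lemma exists_lvl_actsTrivially (N : NLevels Γ) (R : Rep.{0} k Γ) [Finite R.V]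
    (hs : IsSmooth N R) (V₀ : N.Lvl) : ∃ V : N.Lvl, V.W ≤ V₀.W ∧ ActsTrivially V.W R := by
  classical
  have key : ∀ s : Finset R.V, ∃ V : N.Lvl, V.W ≤ V₀.W ∧ ∀ w ∈ V.W, ∀ b ∈ s, R.ρ w b = b := by
    intro s
    induction s using Finset.induction_on with
    | empty => exact ⟨V₀, le_rfl, by simp⟩
    | insert a s ha ih =>
      obtain ⟨V, hV, hVs⟩ := ih
      obtain ⟨W, hW, hWa⟩ := hs a
      obtain ⟨X, hX1, hX2⟩ := N.exists_le V ⟨W, hW⟩
      refine ⟨X, hX1.trans hV, fun w hw b hb => ?_⟩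
      rcases Finset.mem_insert.1 hb with rfl | hb
      · exact hWa w (hX2 hw)
      · exact hVs w (hX1 hw) b hb
  haveI := Fintype.ofFinite R.V
  obtain ⟨V, hV, h⟩ := key Finset.univ
  exact ⟨V, hV, fun w hw b => h w hw b (Finset.mem_univ b)⟩

/-- The preimage of a Sylow `p`-subgroup of `Γ ⧸ W`. -/
lemma exists_sylow_preimage (W : Subgroup Γ) [W.Normal] [W.FiniteIndex] (p : ℕ) (hp : p.Prime) :
    ∃ U : Subgroup Γ, W ≤ U ∧ IsPGroup p (↥U ⧸ W.subgroupOf U) ∧ Nat.Coprime U.index p := by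
  haveI : Fact p.Prime := ⟨hp⟩
  haveI : Finite (Γ ⧸ W) := Subgroup.finite_quotient_of_finiteIndex
  obtain ⟨P⟩ : Nonempty (Sylow p (Γ ⧸ W)) := inferInstance
  refine ⟨(P : Subgroup (Γ ⧸ W)).comap (QuotientGroup.mk' W), ?_, ?_, ?_⟩
  · intro w hw
    show ((w : Γ) : Γ ⧸ W) ∈ (P : Subgroup (Γ ⧸ W))
    rw [(QuotientGroup.eq_one_iff w).2 hw]
    exact Subgroup.one_mem _
  · intro x
    induction x using QuotientGroup.induction_on with
    | H u =>
      obtain ⟨j, hj⟩ := P.isPGroup' ⟨((u : Γ) : Γ ⧸ W), u.2⟩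
      refine ⟨j, ?_⟩
      have h1 : (((u : Γ) : Γ ⧸ W)) ^ (p ^ j) = 1 := congrArg Subtype.val hj
      rw [← QuotientGroup.mk_pow, QuotientGroup.eq_one_iff] at h1
      rw [← QuotientGroup.mk_pow, QuotientGroup.eq_one_iff, Subgroup.mem_subgroupOf]
      simpa using h1
  · rw [Subgroup.index_comap_of_surjective _ (QuotientGroup.mk'_surjective W)]
    exact ((Nat.Prime.coprime_iff_not_dvd hp).2 P.not_dvd_index).symm

end Sylow

/-! ## The Sylow reduction -/

/-- **KB-DEV-B** from `ResIndexSpec`. -/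
theorem devSylow_of (hRI : Fermat.Agent.S55.T.ResIndexSpec) : DevSylowSpec := by
  intro k Γ _ _ N p hp R hfin htors hsm V₀ H V' y
  haveI := hfin
  obtain ⟨V, hVV₀, hVtriv⟩ := exists_lvl_actsTrivially N R hsm V₀
  obtain ⟨U, hVU, hPG, hcop⟩ := exists_sylow_preimage V.W p hp
  have hEff := H U V hVU hVV₀ hVtriv hPG
  obtain ⟨X, hXV', hXV⟩ := N.exists_le V' V
  obtain ⟨Y', hY', hz⟩ := hEff (X.restrict U) ((rest R U X.W 3).hom ((infl R hXV' 3).hom y))
  obtain ⟨W'', hW'', hYW⟩ := Y'.mem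
  obtain ⟨X', hX'W, hX'X⟩ := N.exists_le ⟨W'', hW''⟩ X
  have hle : X'.W.subgroupOf U ≤ Y'.W := by
    rw [hYW]
    exact fun _ hx => hX'W hx
  refine ⟨X', hX'X.trans hXV', ?_⟩
  rw [← infl_infl R hX'X hXV' 3 y]
  apply eq_zero_of_rest_eq_zero hRI R p htors U X'.W (hX'X.trans (hXV.trans hVU)) hcop 3
    (by norm_num)
  rw [rest_infl R U hX'X 3]
  have h1 := infl_infl (Rep.res U.subtype R) hle hY' 3
    ((rest R U X.W 3).hom ((infl R hXV' 3).hom y))
  rw [hz, map_zero] at h1
  exact h1.symm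

/-- **KB-DEV-B.** -/
theorem devSylow : DevSylowSpec := devSylow_of Fermat.Agent.S55.T.H572.resIndex

end Fermat.Agent.S55.KL.H543

end
-- ===== PACK-END S55/KL/DevSylowH543.lean

-- ===== PACK-BEGIN S55/K/T1H635.lean
section



/-!
# S55 / layer K, leaf K-T1 (helper635): `surjH2_of : H3FinSpec p S → SurjH2Spec p S`

`cd_p ≤ 2` in cochain form: if `H³_S` vanishes on finite modules then `H²_S` is right exact.
Given `φ : P ↠ N` and a level-constant 2-cocycle `x` of `N`, lift `x` to the level-constant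
cochain `x̃ = sec ∘ x` of `P`; `d x̃` is a level-constant 3-cocycle with values in `R = ker φ`,
hence `d x̃ = d b` with `b` level-constant in `R`, and `x̃ - b` is a cocycle of `P` lifting `x`.
-/

set_option autoImplicit false

noncomputable section

namespace Fermat.Agent.S55.K.H635

open groupCohomology Fermat.Agent.S55.PT

section Abstract

variable {F : Type} [Field F] {G : Type} [Group G]

/-- The kernel of an equivariant linear map, as a representation. -/
def kerRep {P N : Rep.{0, 0, 0} F G} (φ : P →ₗ[F] N) (hφ : IsEquivariant φ) :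
    Rep.{0, 0, 0} F G :=
  Rep.of (P.ρ.subrepresentation (LinearMap.ker φ) (fun g x hx => by
    rw [LinearMap.mem_ker] at hx
    show φ (P.ρ g x) = 0
    rw [hφ g x, hx, map_zero]))

/-- The inclusion `ker φ → P`. -/
def kerIncl {P N : Rep.{0, 0, 0} F G} (φ : P →ₗ[F] N) (hφ : IsEquivariant φ) :
    _root_.Fermat.Agent.S55.K.H635.kerRep φ hφ →ₗ[F] P :=
  (LinearMap.ker φ).subtype

theorem kerIncl_equivariant {P N : Rep.{0, 0, 0} F G} (φ : P →ₗ[F] N) (hφ : IsEquivariant φ) :
    IsEquivariant (_root_.Fermat.Agent.S55.K.H635.kerIncl φ hφ) := fun _ _ => rfl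

theorem kerIncl_injective {P N : Rep.{0, 0, 0} F G} (φ : P →ₗ[F] N) (hφ : IsEquivariant φ) :
    Function.Injective (_root_.Fermat.Agent.S55.K.H635.kerIncl φ hφ) := Subtype.val_injective

theorem apply_kerIncl {P N : Rep.{0, 0, 0} F G} (φ : P →ₗ[F] N) (hφ : IsEquivariant φ)
    (a : _root_.Fermat.Agent.S55.K.H635.kerRep φ hφ) : φ (_root_.Fermat.Agent.S55.K.H635.kerIncl φ hφ a) = 0 :=
  LinearMap.mem_ker.1 (Subtype.property (show ↥(LinearMap.ker φ) from a))

theorem kerRep_isUSmooth {P N : Rep.{0, 0, 0} F G} (φ : P →ₗ[F] N) (hφ : IsEquivariant φ)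
    {L : LevelSys G} (hP : L.IsUSmooth P) : L.IsUSmooth (_root_.Fermat.Agent.S55.K.H635.kerRep φ hφ) := by
  obtain ⟨U, hU, h⟩ := hP
  exact ⟨U, hU, fun s hs a => Subtype.ext (h s hs (_root_.Fermat.Agent.S55.K.H635.kerIncl φ hφ a))⟩

theorem kerRep_finiteDimensional {P N : Rep.{0, 0, 0} F G} (φ : P →ₗ[F] N)
    (hφ : IsEquivariant φ) [FiniteDimensional F P] : FiniteDimensional F (_root_.Fermat.Agent.S55.K.H635.kerRep φ hφ) :=
  inferInstanceAs (FiniteDimensional F ↥(LinearMap.ker φ))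

/-- **K-T1, abstract form.**  If `H³_L(ker φ) = 0` then `H²_L(P) → H²_L(N)` is surjective. -/
theorem pushH2_surjective_of_h3Vanish {L : LevelSys G} (hN : L.NormalCofinal)
    {P N : Rep.{0, 0, 0} F G} (hP : L.IsUSmooth P) (φ : P →ₗ[F] N) (hφ : IsEquivariant φ)
    (hsurj : Function.Surjective φ) (hR : H3Vanish L (_root_.Fermat.Agent.S55.K.H635.kerRep φ hφ)) :
    Function.Surjective (pushH2 φ hφ L) := by
  intro y
  obtain ⟨x, rfl⟩ := L.H2π_surjective N y
  -- lift of `x`
  set xt : G × G → P := Function.surjInv hsurj ∘ (x : G × G → N) with hxt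
  have hxtLC : L.IsLC₂ xt := LevelSys.IsLC₂.comp x.2.2 _
  have hφxt : (φ ∘ xt : G × G → N) = (x : G × G → N) := by
    funext z
    exact Function.surjInv_eq hsurj _
  -- `c = d xt` has values in `ker φ`
  have hc : ∀ z, φ ((d₂₃ P).hom xt z) = 0 := by
    intro z
    have h1 := congrFun (push_d₂₃ φ hφ xt) z
    have h2 : (d₂₃ N).hom (x : G × G → N) = 0 := x.2.1
    rw [hφxt, h2] at h1
    exact h1.symm
  set c' : G × G × G → _root_.Fermat.Agent.S55.K.H635.kerRep φ hφ := fun z => ⟨(d₂₃ P).hom xt z, hc z⟩ with hc'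
  have hιc' : (_root_.Fermat.Agent.S55.K.H635.kerIncl φ hφ ∘ c' : G × G × G → P) = (d₂₃ P).hom xt := rfl
  have hc'LC : IsLC₃ L c' := by
    obtain ⟨U, hU, h⟩ := d₂₃_isLC₃ hN hP hxtLC
    exact ⟨U, hU, fun g₁ g₂ g₃ s₁ s₂ s₃ h₁ h₂ h₃ => Subtype.ext (h g₁ g₂ g₃ s₁ s₂ s₃ h₁ h₂ h₃)⟩
  have hdc' : d34 (_root_.Fermat.Agent.S55.K.H635.kerRep φ hφ) c' = 0 := by
    have h3 : (_root_.Fermat.Agent.S55.K.H635.kerIncl φ hφ ∘ d34 (_root_.Fermat.Agent.S55.K.H635.kerRep φ hφ) c' : G × G × G × G → P) = 0 := by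
      have h4 := d34_comp (_root_.Fermat.Agent.S55.K.H635.kerIncl φ hφ).toAddMonoidHom (_root_.Fermat.Agent.S55.K.H635.kerIncl_equivariant φ hφ) c'
      have h5 : d34 P (_root_.Fermat.Agent.S55.K.H635.kerIncl φ hφ ∘ c') = 0 := by rw [hιc', d34_d₂₃]
      exact h4.symm.trans h5
    funext z
    apply _root_.Fermat.Agent.S55.K.H635.kerIncl_injective φ hφ
    rw [Pi.zero_apply, map_zero]
    exact congrFun h3 z
  obtain ⟨b, hb, hdb⟩ := hR c' hc'LC hdc'
  -- the corrected lift
  have hιb : (d₂₃ P).hom (_root_.Fermat.Agent.S55.K.H635.kerIncl φ hφ ∘ b) = (d₂₃ P).hom xt := by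
    rw [push_d₂₃ (_root_.Fermat.Agent.S55.K.H635.kerIncl φ hφ) (_root_.Fermat.Agent.S55.K.H635.kerIncl_equivariant φ hφ), hdb, hιc']
  have hy'Z : xt - (_root_.Fermat.Agent.S55.K.H635.kerIncl φ hφ ∘ b : G × G → P) ∈ L.Z2 P := by
    refine ⟨?_, (L.C2 P).sub_mem hxtLC (LevelSys.IsLC₂.comp hb (_root_.Fermat.Agent.S55.K.H635.kerIncl φ hφ))⟩
    show (d₂₃ P).hom (xt - (_root_.Fermat.Agent.S55.K.H635.kerIncl φ hφ ∘ b : G × G → P)) = 0
    rw [map_sub, hιb, sub_self]
  refine ⟨L.H2π P ⟨_, hy'Z⟩, ?_⟩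
  rw [pushH2_mk]
  congr 1
  apply Subtype.ext
  funext z
  show φ (xt z - _root_.Fermat.Agent.S55.K.H635.kerIncl φ hφ (b z)) = (x : G × G → N) z
  rw [map_sub, apply_kerIncl, sub_zero]
  exact congrFun hφxt z

end Abstract

/-- **K-T1.** -/
theorem surjH2_of (p : ℕ) [Fact p.Prime] (S : Finset Nat.Primes) (h : H3FinSpec p S) :
    SurjH2Spec p S := by
  intro hp2 hpS P N hPfin _ hP _ φ hφ hsurj
  have hN : (globalLevels S).NormalCofinal := globalLevels_normal_cofinal724 S
  have := hPfin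
  exact pushH2_surjective_of_h3Vanish hN hP φ hφ hsurj
    (h hp2 hpS (_root_.Fermat.Agent.S55.K.H635.kerRep φ hφ) (kerRep_finiteDimensional φ hφ) (kerRep_isUSmooth φ hφ hP))

end Fermat.Agent.S55.K.H635

end
end
-- ===== PACK-END S55/K/T1H635.lean

-- ===== PACK-BEGIN S55/PT/SpecFH113.lean
section



/-!
# S55 / layer D: producers for the framework leaves D-F1 … D-F6 (helper113)

* `les0Spec    : Les0Spec`     (D-F1)
* `les1Spec    : Les1Spec`     (D-F2)
* `lesMidSpec  : LesMidSpec`   (D-F3)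
* `coneSpec    : ConeSpec`     (D-F4)
* `coneLesSpec : ConeLesSpec`  (D-F5)
* `del0ResSpec : Del0ResSpec`  (D-F6)
-/

set_option autoImplicit false
set_option linter.unusedSectionVars false

noncomputable section

namespace Fermat.Agent.S55.PT.H113

open groupCohomology Fermat.Agent.S55.PT

/-- **D-F1.** -/
theorem les0Spec : Les0Spec := fun _ _ _ _ L _ _ _ E hB =>
  ⟨ker_del0 E L hB, range_del0 E L hB⟩

/-- **D-F2.** -/
theorem les1Spec : Les1Spec := fun _ _ _ _ L _ _ _ E hN hB hC =>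
  ⟨ker_del1 E L hN hB hC, range_del1 E L hN hB hC⟩

section H0

variable {k : Type} [Field k] {G : Type} [Group G] {A B C : Rep.{0, 0, 0} k G} (E : SES A B C)

theorem pushH0_i_injective : Function.Injective (pushH0 E.i E.hi) := by
  intro a a' h
  apply Subtype.ext
  apply E.inj
  have := congrArg Subtype.val h
  exact this

theorem range_pushH0_i :
    LinearMap.range (pushH0 E.i E.hi) = LinearMap.ker (pushH0 E.π E.hπ) := by
  ext b
  rw [LinearMap.mem_range, LinearMap.mem_ker]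
  constructor
  · rintro ⟨a, rfl⟩
    apply Subtype.ext
    show E.π (E.i (a : A)) = 0
    exact E.π_i _
  · intro hb
    have hb0 : E.π (b : B) = 0 := congrArg Subtype.val hb
    have hinv : ∀ g : G, A.ρ g (E.ret (b : B)) = E.ret (b : B) := by
      intro g
      apply E.inj
      rw [ses_hi E g, E.i_ret hb0]
      exact b.2 g
    refine ⟨⟨E.ret (b : B), hinv⟩, ?_⟩
    apply Subtype.ext
    show E.i (E.ret (b : B)) = b
    exact E.i_ret hb0

end H0

/-- **D-F3.** -/
theorem lesMidSpec : LesMidSpec := fun _ _ _ _ L _ _ _ E hN _ hB =>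
  ⟨pushH0_i_injective E, range_pushH0_i E, (ker_pushH1 E L hB).symm, (ker_pushH2 E L hN hB).symm⟩

/-- **D-F4.** -/
theorem coneSpec : ConeSpec := fun _ _ _ _ _ _ _ _ _ _ _ _ hr _ A _ =>
  ⟨ker_uH hr A, range_uH hr A⟩

/-- **D-F5.** -/
theorem coneLesSpec : ConeLesSpec :=
  fun _ _ _ _ _ _ _ _ _ _ _ _ hr hN hNv _ _ _ E _ hB hC hsurj =>
    ⟨coneDel hr E hN hNv hB hsurj, ker_coneDel hr E hN hNv hB hsurj,
      range_coneDel hr E hN hNv hB hsurj,
      fun b => coneDel_jH hr E hN hNv hB hsurj (fun v => hB.res (hr v))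
        (fun v => hC.res (hr v)) b⟩

/-- **D-F6.** -/
theorem del0ResSpec : Del0ResSpec := fun _ _ _ _ _ _ _ _ _ hr _ _ _ E hB c =>
  resH1_del0 E hr hB (hB.res hr) c

end Fermat.Agent.S55.PT.H113

end


end
-- ===== PACK-END S55/PT/SpecFH113.lean

-- ===== PACK-BEGIN S55/PT/LevelsH724.lean
section



/-!
# S55 / layer D, leaf D-F7 : the Prelude level systems   (helper724)

Producers for the four Props of `PT/SpecF.lean`:

* `globalNormalCofinal : GlobalNormalCofinalSpec`
* `localNormalCofinal : LocalNormalCofinalSpec`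
* `globalFiniteIndex : GlobalFiniteIndexSpec`
* `localFiniteIndex : LocalFiniteIndexSpec`

(Normal cofinality is `PT/LevelsNormal.lean`, already on main.)
-/

set_option autoImplicit false

namespace Fermat.Agent.S55.PT.H724

open Fermat.Agent.S55.Bridge Fermat.Agent.S55.PT

attribute [local instance] isAlgebraic_Qbar isGalois_Qbar

/-- `G_F` has finite index in `G_ℚ` for a finite extension `F/ℚ`. -/
theorem fixingSubgroup_finiteIndex (F : IntermediateField ℚ (AlgebraicClosure ℚ))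
    [FiniteDimensional ℚ F] : F.fixingSubgroup.FiniteIndex := by
  refine ⟨?_⟩
  rw [← IntermediateField.finrank_eq_fixingSubgroup_index]
  exact Module.finrank_pos.ne'

/-- The preimage of a subgroup of finite index has finite index. -/
theorem comap_finiteIndex {G G' : Type*} [Group G] [Group G'] (f : G' →* G)
    (H : Subgroup G) [H.FiniteIndex] : (H.comap f).FiniteIndex := by
  refine ⟨?_⟩
  rw [Subgroup.index_comap]
  have h : H.IsFiniteRelIndex f.range := Subgroup.isFiniteRelIndex_of_finiteIndex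
  exact Subgroup.relIndex_ne_zero

/-- Every pulled-back level has finite index. -/
theorem pullbackLevels_finiteIndex {G : Type} [Group G] (r : G →* _root_.Fermat.Agent.S55.PT.GQ) :
    (pullbackLevels r).FiniteIndex := by
  rintro U ⟨F, hF, rfl⟩
  have := hF
  have := fixingSubgroup_finiteIndex F
  exact comap_finiteIndex r F.fixingSubgroup

/-- Normal levels are cofinal among pulled-back levels. -/
theorem pullbackLevels_normalCofinal {G : Type} [Group G] (r : G →* _root_.Fermat.Agent.S55.PT.GQ) :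
    (pullbackLevels r).NormalCofinal :=
  pullbackLevels_normal_cofinal724 r

/-- **D-F7a.** -/
theorem globalNormalCofinal : GlobalNormalCofinalSpec :=
  fun S => globalLevels_normal_cofinal724 S

/-- **D-F7b.** -/
theorem localNormalCofinal : LocalNormalCofinalSpec :=
  fun q => pullbackLevels_normalCofinal (rl q)

/-- **D-F7c.** -/
theorem globalFiniteIndex : GlobalFiniteIndexSpec := by
  rintro S U ⟨F, hF, rfl⟩
  have := hF.1
  exact fixingSubgroup_finiteIndex F

/-- **D-F7d.** -/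
theorem localFiniteIndex : LocalFiniteIndexSpec :=
  fun q => pullbackLevels_finiteIndex (rl q)

end Fermat.Agent.S55.PT.H724

end
-- ===== PACK-END S55/PT/LevelsH724.lean

-- ===== PACK-BEGIN S56/Euler/H726/Sha1Abs.lean
section


/-!
# S56 / W-BASE / Euler characteristic, leaf EUL-SHA2 (helper726): abstract part

Plain cocycle lemmas for an arbitrary group `G` and `N : Rep k G`:

* `coc_mul`, `coc_one`, `coc_inv` : the cocycle identity in plain form;
* `zeroSub c hc`                  : the zero set of a cocycle is a subgroup;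
* `coc_mul_right_of_zero`         : right invariance under the zero set;
* `cob_conj`                      : a cocycle which is a coboundary on `σ` is a coboundary on
                                    `g σ g⁻¹` (explicit 0-cochain);
* `mem_B1_dualTwist_ind`          : **contracting homotopy**: a cocycle with values in
  `(Ind_U M)′ = (indRep U M).dualTwist χ` which vanishes on `U` is a coboundary
  (`H¹(G/U, coinduced) = 0`, explicit formula, no finiteness, no normality).
-/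

set_option autoImplicit false

noncomputable section

namespace Fermat.Agent.S56.Euler.H726

open Fermat.Agent.S55.PT groupCohomology

section Abs

variable {k : Type} [Field k] {G : Type} [Group G] (N : Rep.{0, 0, 0} k G)

lemma coc_mul {c : G → N} (hc : c ∈ cocycles₁ N) (g h : G) :
    c (g * h) = N.ρ g (c h) + c g :=
  (mem_cocycles₁_iff c).1 hc g h

lemma coc_one {c : G → N} (hc : c ∈ cocycles₁ N) : c 1 = 0 := by
  have h := coc_mul N hc 1 1
  rw [mul_one, map_one, Module.End.one_apply] at h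
  have h2 : c 1 + 0 = c 1 + c 1 := by rw [add_zero]; exact h
  exact (add_left_cancel h2).symm

lemma rho_inv_apply (g : G) (x : N) : N.ρ g⁻¹ (N.ρ g x) = x := by
  rw [← Module.End.mul_apply, ← map_mul, inv_mul_cancel, map_one, Module.End.one_apply]

lemma rho_apply_inv (g : G) (x : N) : N.ρ g (N.ρ g⁻¹ x) = x := by
  rw [← Module.End.mul_apply, ← map_mul, mul_inv_cancel, map_one, Module.End.one_apply]

lemma coc_inv {c : G → N} (hc : c ∈ cocycles₁ N) (g : G) :
    c g⁻¹ = - N.ρ g⁻¹ (c g) := by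
  have h := coc_mul N hc g⁻¹ g
  rw [inv_mul_cancel, coc_one N hc] at h
  exact eq_neg_of_add_eq_zero_right h.symm

/-- The zero set of a cocycle is a subgroup. -/
def zeroSub (c : G → N) (hc : c ∈ cocycles₁ N) : Subgroup G where
  carrier := {s | c s = 0}
  one_mem' := coc_one N hc
  mul_mem' := by
    intro a b ha hb
    have ha' : c a = 0 := ha
    have hb' : c b = 0 := hb
    show c (a * b) = 0
    rw [coc_mul N hc, ha', hb', map_zero, add_zero]
  inv_mem' := by
    intro a ha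
    have ha' : c a = 0 := ha
    show c a⁻¹ = 0
    rw [coc_inv N hc, ha', map_zero, neg_zero]

lemma mem_zeroSub {c : G → N} (hc : c ∈ cocycles₁ N) (s : G) :
    s ∈ zeroSub N c hc ↔ c s = 0 := Iff.rfl

lemma coc_mul_right_of_zero {c : G → N} (hc : c ∈ cocycles₁ N) (g s : G) (hs : c s = 0) :
    c (g * s) = c g := by
  rw [coc_mul N hc, hs, map_zero, zero_add]

/-- Conjugation of a local coboundary. -/
lemma cob_conj {c : G → N} (hc : c ∈ cocycles₁ N) (g σ : G) (n : N)
    (h : c σ = N.ρ σ n - n) :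
    c (g * σ * g⁻¹) = N.ρ (g * σ * g⁻¹) (N.ρ g n - c g) - (N.ρ g n - c g) := by
  have e1 : c (g * σ * g⁻¹) = N.ρ (g * σ) (c g⁻¹) + c (g * σ) := coc_mul N hc _ _
  have e2 : c (g * σ) = N.ρ g (c σ) + c g := coc_mul N hc _ _
  have e3 : N.ρ (g * σ) (c g⁻¹) = - N.ρ (g * σ * g⁻¹) (c g) := by
    rw [coc_inv N hc, map_neg, ← Module.End.mul_apply, ← map_mul]
  have e4 : N.ρ (g * σ * g⁻¹) (N.ρ g n) = N.ρ g (N.ρ σ n) := by
    rw [← Module.End.mul_apply, ← map_mul, inv_mul_cancel_right, map_mul, Module.End.mul_apply]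
  rw [e1, e2, e3, h, map_sub, map_sub, e4]
  abel

end Abs

section Homotopy

variable {k : Type} [Field k] {G : Type} [Group G]
variable (U : Subgroup G) (M : Rep.{0, 0, 0} k G) (χ : G →* kˣ)

/-- the `0`-cochain of the contracting homotopy -/
def homotopyElt (c : G → ((indRep U M).dualTwist χ)) : ((G ⧸ U) →₀ M) →ₗ[k] k :=
  - Finsupp.lsum k (fun x : G ⧸ U =>
      ((c (Quotient.out x) : ((G ⧸ U) →₀ M) →ₗ[k] k)).comp (Finsupp.lsingle x))

lemma homotopyElt_single (c : G → ((indRep U M).dualTwist χ)) (x : G ⧸ U) (m : M) :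
    homotopyElt U M χ c (Finsupp.single x m) =
      - (c (Quotient.out x) : ((G ⧸ U) →₀ M) →ₗ[k] k) (Finsupp.single x m) := by
  unfold homotopyElt
  rw [LinearMap.neg_apply, Finsupp.lsum_single]
  rfl

/-- **Contracting homotopy.**  A cocycle with values in `(Ind_U M)′` which vanishes on `U` is a
coboundary. -/
theorem mem_B1_dualTwist_ind (c : G → ((indRep U M).dualTwist χ))
    (hc : c ∈ cocycles₁ ((indRep U M).dualTwist χ)) (hU : ∀ u ∈ U, c u = 0) :
    c ∈ LevelSys.B1 ((indRep U M).dualTwist χ) := by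
  refine ⟨(homotopyElt U M χ c : Module.Dual k ((G ⧸ U) →₀ M)), ?_⟩
  funext g
  rw [d₀₁_hom_apply]
  -- compare the two functionals on `single x m`
  have key : ∀ (x : G ⧸ U) (m : M),
      (((indRep U M).dualTwist χ).ρ g (homotopyElt U M χ c) - homotopyElt U M χ c :
        ((G ⧸ U) →₀ M) →ₗ[k] k) (Finsupp.single x m) =
      (c g : ((G ⧸ U) →₀ M) →ₗ[k] k) (Finsupp.single x m) := by
    intro x m
    -- `out x = g * out (g⁻¹ • x) * u`
    have hx : ((g * Quotient.out (g⁻¹ • x) : G) : G ⧸ U) = x := by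
      have h1 : ((g * Quotient.out (g⁻¹ • x) : G) : G ⧸ U) =
          g • ((Quotient.out (g⁻¹ • x) : G) : G ⧸ U) := rfl
      rw [h1, QuotientGroup.out_eq', smul_inv_smul]
    have hx' : ((Quotient.out x : G) : G ⧸ U) = ((g * Quotient.out (g⁻¹ • x) : G) : G ⧸ U) := by
      rw [hx, QuotientGroup.out_eq']
    obtain ⟨u, hu, hu'⟩ : ∃ u ∈ U, Quotient.out x = g * Quotient.out (g⁻¹ • x) * u := by
      have := QuotientGroup.eq.1 hx'.symm
      exact ⟨_, this, by group⟩
    have hcx : c (Quotient.out x) =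
        ((indRep U M).dualTwist χ).ρ g (c (Quotient.out (g⁻¹ • x))) + c g := by
      rw [hu', coc_mul_right_of_zero _ hc _ u (hU u hu), coc_mul _ hc]
    rw [LinearMap.sub_apply, Rep.dualTwist_ρ_apply, LinearMap.smul_apply, LinearMap.comp_apply,
      homotopyElt_single]
    have hact : (indRep U M).ρ g⁻¹ (Finsupp.single x m : (G ⧸ U) →₀ M) =
        (Finsupp.single (g⁻¹ • x) (M.ρ g⁻¹ m) : (G ⧸ U) →₀ M) := indRep_ρ_single U M g⁻¹ x m
    rw [hact, homotopyElt_single, hcx]
    rw [LinearMap.add_apply, Rep.dualTwist_ρ_apply, LinearMap.smul_apply, LinearMap.comp_apply,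
      hact]
    simp only [smul_eq_mul, mul_neg, neg_add_rev]
    ring
  have : (((indRep U M).dualTwist χ).ρ g (homotopyElt U M χ c) - homotopyElt U M χ c :
        ((G ⧸ U) →₀ M) →ₗ[k] k) = (c g : ((G ⧸ U) →₀ M) →ₗ[k] k) := by
    apply Finsupp.lhom_ext
    exact key
  exact this

end Homotopy

end Fermat.Agent.S56.Euler.H726

end

end
-- ===== PACK-END S56/Euler/H726/Sha1Abs.lean

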