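import Mathlib
import Fermat.Agent.Pack.S56.E13L2
import Fermat.Agent.Pack.S56.E13L0
import Fermat.Agent.Pack.S56.E13L3
import Fermat.Agent.Pack.S56.E0L0
import Fermat.Agent.Pack.S56.E12L1
import Fermat.Agent.Pack.S56.E10L3
import Fermat.Agent.Pack.S56.E12L3
import Fermat.Agent.Pack.S56.E8L2
import Fermat.Agent.Pack.S56.E1L0
import Fermat.Agent.Pack.S56.E12L2
import Fermat.Agent.Pack.S56.E12L0
import Fermat.Agent.Pack.S56.E10L2
import Fermat.Agent.Pack.S56.E4L1
import Fermat.Agent.Pack.S56.E1L1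
import Fermat.Agent.Pack.S56.E4L0
import Fermat.Agent.Pack.S56.E4L3
import Fermat.Agent.Pack.S56.E11L0
import Fermat.Agent.Pack.S56.E9L3
import Fermat.Agent.Pack.S56.E0L1
import Fermat.Agent.Pack.S56.E3L3
import Fermat.Agent.Pack.S56.E7L2
import Fermat.Agent.Pack.S56.E1L2
import Fermat.Agent.Pack.S56.E9L2
import Fermat.Agent.Pack.S56.E7L1

-- ===== PACK-BEGIN S56/H606/LocMin.lean
section



/-!
# S56 / LOC-MIN (helper606): the frozen leaf `H716.LocMinStatement`

Assembly of
* LOC-MIN-A (helper794, `H794/LocMinA.lean`): a tangent cocycle whose lift is unipotent on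
  inertia at `v ≠ p` is a coboundary on the inertia group of every place `P ∣ v` at which `ρ̄` is
  ramified;
* LOC-MIN-B (`H606/UnrBound.lean`): cocycles which are coboundaries on `I_P` span, modulo
  coboundaries on `D_P`, a space of dimension at most `h⁰(D_P, ad⁰ρ̄)`;
* existence of Frobenius elements at `P` and conjugacy of the places over `v`
  (`Lib/Cheb/H476`).
-/

set_option autoImplicit false

open Polynomial IsLocalRing

noncomputable section

namespace Fermat.Agent.S56.H606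

open Fermat.Agent.S56 Fermat.Agent.S56.H716

/-- **LOC-MIN** for one place, over any field `k` of odd characteristic `p`: if `ρ̄` is ramified
at the place `P ∣ v`, `v ≠ p`, the unipotent-on-inertia lifts satisfy the local bound with defect
`0`. -/
theorem localBoundAt_unipotent {k : Type} [Field k] (ρbar : ResidualGaloisRep k) {p : ℕ}
    (hp : p.Prime) (hp2 : p ≠ 2) (hpk : (p : k) = 0) {v : ℕ} (hv : v.Prime) (hvp : v ≠ p)
    {P : ValuationSubring Qb} (hP : P.LiesOverPrime v)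
    (hram : ∃ τ ∈ P.inertiaSubgroupIn ℚ, ρbar.ρ τ ≠ 1)
    (Ty : GaloisRepAdic (DualNumber k) → Prop)
    (hTy : ∀ ρ', Ty ρ' → ρ'.IsUnipotentOnInertiaAt v) :
    LocalBoundAt ρbar P Ty 0 := by
  obtain ⟨φ, hφ, -⟩ := Fermat.Agent.Lib.Cheb.H476.exists_frobenius_at v hv P hP
  apply localBoundAt_zero_of_frobenius hv hP hφ
  rintro c hc ⟨ρ', hlift, hρ'⟩
  obtain ⟨m, -, hm⟩ := Fermat.Agent.S56.H794.exists_coboundary_on_inertia_of_unipotent
    hp hp2 hpk hc hlift hv hvp (hTy ρ' hρ') hP hram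
  exact ⟨m, hm⟩

/-- A residual representation ramified at `v` is ramified at every place over `v`. -/
theorem exists_ramified_of_not_isUnramifiedAt {k : Type} [Field k] (ρbar : ResidualGaloisRep k)
    {v : ℕ} (hv : v.Prime) (hnr : ¬ ρbar.IsUnramifiedAt v) {P : ValuationSubring Qb}
    (hP : P.LiesOverPrime v) : ∃ τ ∈ P.inertiaSubgroupIn ℚ, ρbar.ρ τ ≠ 1 := by
  by_contra hcon
  have hcon' : ∀ τ ∈ P.inertiaSubgroupIn ℚ, ρbar.ρ τ = 1 := fun τ hτ => by
    by_contra h
    exact hcon ⟨τ, hτ, h⟩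
  exact hnr (fun A hA σ hσ =>
    Fermat.Agent.Lib.Cheb.H476.map_inertia_eq_one_of_liesOver ρbar.ρ hv hP hA hcon' σ hσ)

/-- **LOC-MIN-B**: the leaf `H794.LocMinBStatement` of helper794's interface. -/
theorem locMinB : Fermat.Agent.S56.H794.LocMinBStatement := by
  intro k _ ρbar q hq P hP
  obtain ⟨φ, hφ, -⟩ := Fermat.Agent.Lib.Cheb.H476.exists_frobenius_at q hq P hP
  exact exists_unramified_space hq hP hφ

/-- **LOC-MIN**: the frozen leaf `H716.LocMinStatement`. -/
theorem locMin : LocMinStatement := by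
  intro 𝒪 _ _ _ _ _ p ρbar S Smin hyp v hv hvp P hP
  have hvprime : v.Prime := hyp.hS v (hyp.hSmin hv)
  have hpk : (p : ResidueField 𝒪) = 0 := by
    have h1 : residue 𝒪 (p : 𝒪) = 0 := (residue_eq_zero_iff _).mpr hyp.hp𝒪
    rwa [map_natCast] at h1
  exact localBoundAt_unipotent ρbar hyp.hp hyp.hp2 hpk hvprime hvp hP
    (exists_ramified_of_not_isUnramifiedAt ρbar hvprime
      ((hyp.hmin v hvprime hvp).mp hv) hP) _ (fun _ h => h.2)

end Fermat.Agent.S56.H606

end

end
-- ===== PACK-END S56/H606/LocMin.lean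

-- ===== PACK-BEGIN S56/FL/CntBridgeDefs.lean
section




/-!
# Row S56 — W-FLAT-SS, piece RAMCOUNT: the bridge to the abstract count, definitions
(helper426).  Sorry-free, Mathlib only.

From an `RCDatum` `d` we build the data `H846.FLCnt.Data d.Γ d.k d.Z0` of the abstract count:
`Z0` = trace-zero endomorphisms, `adZ` = adjoint action, `qRamSub N n` = the subgroup with
carrier `d.qRam N n`, `iQ N σ = #{n | σ ∈ qRam N n}`.
-/

set_option autoImplicit false

open IsLocalRing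

noncomputable section

namespace Fermat.Agent.S56.FL

namespace RCDatum

variable (d : RCDatum)

/-! ### The action on `B` preserves the powers of the maximal ideal -/

lemma bridge_smul_mem_maxPow (σ : d.Γ) (n : ℕ) {x : d.B} (hx : x ∈ maximalIdeal d.B ^ n) :
    σ • x ∈ maximalIdeal d.B ^ n := by
  have h1 : Ideal.map (MulSemiringAction.toRingHom d.Γ d.B σ) (maximalIdeal d.B)
      ≤ maximalIdeal d.B := by
    rw [Ideal.map_le_iff_le_comap]
    intro y hy
    rw [Ideal.mem_comap, mem_maximalIdeal, mem_nonunits_iff]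
    rw [mem_maximalIdeal, mem_nonunits_iff] at hy
    intro hu
    apply hy
    have h2 : IsUnit (σ⁻¹ • (σ • y)) :=
      hu.map (MulSemiringAction.toRingHom d.Γ d.B σ⁻¹)
    rwa [inv_smul_smul] at h2
  have h3 : (MulSemiringAction.toRingHom d.Γ d.B σ) x ∈
      Ideal.map (MulSemiringAction.toRingHom d.Γ d.B σ) (maximalIdeal d.B ^ n) :=
    Ideal.mem_map_of_mem _ hx
  rw [Ideal.map_pow] at h3
  exact Ideal.pow_right_mono h1 n h3

/-! ### The groups `qRam` -/

/-- The subgroup with carrier `d.qRam N n`. -/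
def qRamSub (N : Subgroup d.Γ) (n : ℕ) : Subgroup d.Γ where
  carrier := d.qRam N n
  mul_mem' := by
    intro σ τ hσ hτ x hx
    have h1 : (σ * τ) • x - x = σ • (τ • x - x) + (σ • x - x) := by
      rw [mul_smul, smul_sub]; ring
    rw [h1]
    exact Ideal.add_mem _ (d.bridge_smul_mem_maxPow σ _ (hτ x hx)) (hσ x hx)
  one_mem' := by
    intro x _
    simp
  inv_mem' := by
    intro σ hσ x hx
    have h1 : σ⁻¹ • x - x = -(σ⁻¹ • (σ • x - x)) := by
      rw [smul_sub, inv_smul_smul]; ring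
    rw [h1]
    exact Ideal.neg_mem_iff _ |>.mpr (d.bridge_smul_mem_maxPow σ⁻¹ _ (hσ x hx))

@[simp] lemma mem_qRamSub {N : Subgroup d.Γ} {n : ℕ} {σ : d.Γ} :
    σ ∈ d.qRamSub N n ↔ σ ∈ d.qRam N n := Iff.rfl

lemma coe_qRamSub (N : Subgroup d.Γ) (n : ℕ) : (d.qRamSub N n : Set d.Γ) = d.qRam N n := rfl

lemma qRam_bot (n : ℕ) : d.qRam ⊥ n = (ramGroup d.B d.Γ n : Set d.Γ) := by
  ext σ
  have hc : Nat.card (⊥ : Subgroup d.Γ) = 1 := Subgroup.card_bot
  constructor
  · intro h
    rw [SetLike.mem_coe, mem_ramGroup]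
    intro x
    have := h x (fun ν hν => by rw [Subgroup.mem_bot.mp hν, one_smul])
    rwa [hc, one_mul] at this
  · intro h x _
    rw [SetLike.mem_coe, mem_ramGroup] at h
    rw [hc, one_mul]
    exact h x

lemma qRamSub_bot (n : ℕ) : d.qRamSub ⊥ n = ramGroup d.B d.Γ n :=
  SetLike.coe_injective (d.qRam_bot n)

lemma qRam_anti (N : Subgroup d.Γ) {n n' : ℕ} (h : n ≤ n') : d.qRam N n' ⊆ d.qRam N n := by
  intro σ hσ x hx
  exact Ideal.pow_le_pow_right (Nat.mul_le_mul_left _ (Nat.succ_le_succ h)) (hσ x hx)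

lemma mem_qRam_of_mem (N : Subgroup d.Γ) (n : ℕ) {σ : d.Γ} (hσ : σ ∈ N) : σ ∈ d.qRam N n := by
  intro x hx
  rw [hx σ hσ, sub_self]
  exact Ideal.zero_mem _

lemma ramGroup_anti {n n' : ℕ} (h : n ≤ n') : ramGroup d.B d.Γ n' ≤ ramGroup d.B d.Γ n := by
  intro σ hσ
  rw [mem_ramGroup] at hσ ⊢
  intro x
  exact Ideal.pow_le_pow_right (Nat.succ_le_succ h) (hσ x)

/-- `i_{Γ/N}(σ N)` as the number of `n` with `σ ∈ qRam N n`. -/
def iQ (N : Subgroup d.Γ) (σ : d.Γ) : ℕ := Nat.card {n : ℕ | σ ∈ d.qRam N n}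

/-! ### Trace-zero endomorphisms and the adjoint action -/

/-- The trace-zero endomorphisms of `V`. -/
abbrev Z0 : Type := ↥(LinearMap.ker (LinearMap.trace d.k d.V))

lemma rho_mul_inv (g : d.Γ) : d.ρ g * d.ρ g⁻¹ = 1 := by
  rw [← map_mul, mul_inv_cancel, map_one]

lemma rho_inv_mul (g : d.Γ) : d.ρ g⁻¹ * d.ρ g = 1 := by
  rw [← map_mul, inv_mul_cancel, map_one]

lemma trace_conj (g : d.Γ) (z : Module.End d.k d.V) :
    LinearMap.trace d.k d.V (d.ρ g * z * d.ρ g⁻¹) = LinearMap.trace d.k d.V z := by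
  rw [LinearMap.trace_mul_comm, ← mul_assoc, d.rho_inv_mul, one_mul]

/-- Conjugation by `ρ g` on trace-zero endomorphisms. -/
def adZfun (g : d.Γ) : Module.End d.k d.Z0 where
  toFun z := ⟨d.ρ g * z.1 * d.ρ g⁻¹, by
    rw [LinearMap.mem_ker, d.trace_conj]; exact z.2⟩
  map_add' z w := by
    apply Subtype.ext
    simp [mul_add, add_mul]
  map_smul' c z := by
    apply Subtype.ext
    simp

@[simp] lemma adZfun_coe (g : d.Γ) (z : d.Z0) :
    ((d.adZfun g z : d.Z0) : Module.End d.k d.V) = d.ρ g * z.1 * d.ρ g⁻¹ := rfl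

/-- The adjoint action on trace-zero endomorphisms. -/
def adZ : d.Γ →* Module.End d.k d.Z0 where
  toFun := d.adZfun
  map_one' := by
    apply LinearMap.ext
    intro z
    apply Subtype.ext
    simp
  map_mul' g h := by
    apply LinearMap.ext
    intro z
    apply Subtype.ext
    simp [mul_assoc]

@[simp] lemma adZ_coe (g : d.Γ) (z : d.Z0) :
    ((d.adZ g z : d.Z0) : Module.End d.k d.V) = d.ρ g * z.1 * d.ρ g⁻¹ := rfl

/-- The first cocycle with values in `Z0`. -/
def cz₁ (σ : d.Γ) : d.Z0 := ⟨d.c₁ σ, d.htr₁ σ⟩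

/-- The second cocycle with values in `Z0`. -/
def cz₂ (σ : d.Γ) : d.Z0 := ⟨d.c₂ σ, d.htr₂ σ⟩

/-- The data of the abstract count attached to an `RCDatum` and a choice of tame generator,
Frobenius lift and coordinates. -/
def cntData (τ₀ φ : d.Γ) (m : ℕ) (ψ₀ a b : d.k) (ℓ₁ ℓp ℓm : Module.End d.k d.V →ₗ[d.k] d.k) :
    H846.FLCnt.Data d.Γ d.k d.Z0 where
  ρ := d.adZ
  W := d.ρ.ker
  c₁ := d.cz₁
  c₂ := d.cz₂
  F := d.qRamSub
  i := d.iQ
  τ₀ := τ₀
  φ := φ
  m := m
  ψ₀ := ψ₀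
  ℓ₁ := ℓ₁ ∘ₗ (LinearMap.ker (LinearMap.trace d.k d.V)).subtype
  ℓp := ℓp ∘ₗ (LinearMap.ker (LinearMap.trace d.k d.V)).subtype
  ℓm := ℓm ∘ₗ (LinearMap.ker (LinearMap.trace d.k d.V)).subtype
  a := a
  b := b

end RCDatum

end Fermat.Agent.S56.FL

end

end
-- ===== PACK-END S56/FL/CntBridgeDefs.lean

-- ===== PACK-BEGIN S55/H963/RayBound.lean
section


/-!
# S55 / leaf RAY-N1 (helper963): partial zeta functions of ray classes differ by `O(1)`

Main theorem `RayDatum.exists_zeta_sub_bound`: for a smoothing kernel `κ` with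
`(s - 1) Φ(s) = O(1)`, a nonzero ideal `𝔠` coprime to the modulus and a class `a`,
`|ζ(s, a) - ζ(s, a ψ(𝔠))| ≤ B` uniformly in `s ∈ (1, 2]`.
-/

set_option autoImplicit false

namespace Fermat.Agent.S55.H963

open NumberField

variable {K : Type*} [Field K] [NumberField K] {A : Type*} [CommGroup A]

theorem one_le_absNorm_cast {I : Ideal (𝓞 K)} (hI : I ≠ ⊥) : (1 : ℝ) ≤ Ideal.absNorm I := by
  have : Ideal.absNorm I ≠ 0 := by
    rw [Ne, Ideal.absNorm_eq_zero_iff]
    exact hI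
  exact_mod_cast Nat.one_le_iff_ne_zero.mpr this

theorem rpow_le_sq_of_le_two {x s : ℝ} (hx : 1 ≤ x) (hs : s ≤ 2) : x ^ s ≤ x ^ 2 := by
  have := Real.rpow_le_rpow_of_exponent_le hx hs
  simpa using this

namespace RayDatum

variable (D : RayDatum K A) (κ : UnitKernel K)

theorem tsum_genSet_le_total (P : Set (Ideal (𝓞 K))) {s : ℝ} (hs : 1 < s) :
    ∑' x : genSet P, κ.F s x ≤ κ.total s := by
  unfold UnitKernel.total
  rw [tsum_subtype (genSet P) (κ.F s)]
  refine Summable.tsum_le_tsum (fun x => ?_)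
    ((κ.summable s hs).indicator _) (κ.summable s hs)
  exact Set.indicator_le_self' (fun _ _ => κ.nonneg s _) x

theorem tsum_genSet_nonneg (P : Set (Ideal (𝓞 K))) (s : ℝ) :
    0 ≤ ∑' x : genSet P, κ.F s x :=
  tsum_nonneg fun _ => κ.nonneg s _

include κ in
/-- **Per-class comparison.** -/
theorem exists_zetaDvdAt_bound (𝔠 : Ideal (𝓞 K)) (h𝔠 : 𝔠 ≠ ⊥) (h𝔠m : IsCoprime 𝔠 D.m) (a : A)
    (C : ClassGroup (𝓞 K)) : ∃ B : ℝ, ∀ s : ℝ, 1 < s → s ≤ 2 →
      |(Ideal.absNorm 𝔠 : ℝ) * D.zetaDvdAt 𝔠 a C s - D.zetaDvdAt ⊤ a C s| ≤ B := by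
  obtain ⟨𝔟, h𝔟, h𝔟m, h𝔟C⟩ := exists_coprime_rep D.m D.m_ne_bot C⁻¹
  obtain ⟨B₁, hB₁⟩ := D.exists_below_bound κ (𝔠 * 𝔟) (mul_ne_zero h𝔠 h𝔟) (h𝔠m.mul_left h𝔟m)
    (a * D.ψ 𝔟)
  obtain ⟨B₂, hB₂⟩ := D.exists_below_bound κ (⊤ * 𝔟) (by rwa [Ideal.top_mul])
    (by rwa [Ideal.top_mul]) (a * D.ψ 𝔟)
  have hN𝔟 : (1 : ℝ) ≤ Ideal.absNorm 𝔟 := one_le_absNorm_cast h𝔟
  have hNm : (1 : ℝ) ≤ Ideal.absNorm D.m := one_le_absNorm_cast D.m_ne_bot
  refine ⟨(Ideal.absNorm 𝔟 : ℝ) ^ 2 * (κ.w⁻¹ * (B₁ + B₂)), fun s hs1 hs2 => ?_⟩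
  rw [D.zetaDvdAt_eq κ h𝔟 h𝔟m h𝔟C 𝔠 a hs1, D.zetaDvdAt_eq κ h𝔟 h𝔟m h𝔟C ⊤ a hs1]
  set X₁ := ∑' x : genSet (D.below (𝔠 * 𝔟) (a * D.ψ 𝔟)), κ.F s x with hX₁
  set X₂ := ∑' x : genSet (D.below (⊤ * 𝔟) (a * D.ψ 𝔟)), κ.F s x with hX₂
  have h1 := hB₁ s hs1 hs2
  have h2 := hB₂ s hs1 hs2
  rw [← hX₁, _root_.map_mul, Nat.cast_mul] at h1
  rw [← hX₂, Ideal.top_mul] at h2
  rw [Ideal.top_mul] at hX₂
  have hw : 0 < κ.w⁻¹ := inv_pos.mpr κ.w_pos
  have hpos : 0 ≤ (Ideal.absNorm 𝔟 : ℝ) ^ s := Real.rpow_nonneg (by linarith) _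
  have hle : (Ideal.absNorm 𝔟 : ℝ) ^ s ≤ (Ideal.absNorm 𝔟 : ℝ) ^ 2 :=
    rpow_le_sq_of_le_two hN𝔟 hs2
  have h3 : |(Ideal.absNorm 𝔠 : ℝ) * X₁ - X₂| ≤ B₁ + B₂ := by
    have e : (Ideal.absNorm 𝔟 : ℝ) * (Ideal.absNorm D.m : ℝ) *
        ((Ideal.absNorm 𝔠 : ℝ) * X₁ - X₂) =
        ((Ideal.absNorm 𝔠 : ℝ) * (Ideal.absNorm 𝔟 : ℝ) * (Ideal.absNorm D.m : ℝ) * X₁ -
          (Nat.card (D.theta (a * D.ψ 𝔟)) : ℝ) * κ.total s) -
        ((Ideal.absNorm 𝔟 : ℝ) * (Ideal.absNorm D.m : ℝ) * X₂ -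
          (Nat.card (D.theta (a * D.ψ 𝔟)) : ℝ) * κ.total s) := by ring
    have h4 : |(Ideal.absNorm 𝔟 : ℝ) * (Ideal.absNorm D.m : ℝ) *
        ((Ideal.absNorm 𝔠 : ℝ) * X₁ - X₂)| ≤ B₁ + B₂ := by
      rw [e]
      exact (abs_sub _ _).trans (add_le_add h1 h2)
    have h5 : (1 : ℝ) ≤ (Ideal.absNorm 𝔟 : ℝ) * (Ideal.absNorm D.m : ℝ) := by nlinarith
    rw [abs_mul, abs_of_nonneg (by linarith : (0 : ℝ) ≤
      (Ideal.absNorm 𝔟 : ℝ) * (Ideal.absNorm D.m : ℝ))] at h4
    have h6 : 0 ≤ |(Ideal.absNorm 𝔠 : ℝ) * X₁ - X₂| := abs_nonneg _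
    nlinarith
  have hB : 0 ≤ B₁ + B₂ := (abs_nonneg _).trans h3
  have e2 : (Ideal.absNorm 𝔠 : ℝ) * ((Ideal.absNorm 𝔟 : ℝ) ^ s * (κ.w⁻¹ * X₁)) -
      (Ideal.absNorm 𝔟 : ℝ) ^ s * (κ.w⁻¹ * X₂) =
      (Ideal.absNorm 𝔟 : ℝ) ^ s * (κ.w⁻¹ * ((Ideal.absNorm 𝔠 : ℝ) * X₁ - X₂)) := by ring
  rw [e2, abs_mul, abs_mul, abs_of_nonneg hpos, abs_of_pos hw]
  exact mul_le_mul hle (mul_le_mul_of_nonneg_left h3 hw.le)
    (mul_nonneg hw.le (abs_nonneg _)) (by positivity)

include κ in
/-- **(★)** `N(𝔠) * ∑_{I ∈ class a, 𝔠 ∣ I} N(I)^(-s) = ζ(s, a) + O(1)`. -/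
theorem exists_zetaDvd_bound (𝔠 : Ideal (𝓞 K)) (h𝔠 : 𝔠 ≠ ⊥) (h𝔠m : IsCoprime 𝔠 D.m) (a : A) :
    ∃ B : ℝ, ∀ s : ℝ, 1 < s → s ≤ 2 →
      |(Ideal.absNorm 𝔠 : ℝ) * D.zetaDvd 𝔠 a s - D.zeta a s| ≤ B := by
  classical
  choose B hB using fun C => D.exists_zetaDvdAt_bound κ 𝔠 h𝔠 h𝔠m a C
  refine ⟨∑ C : ClassGroup (𝓞 K), B C, fun s hs1 hs2 => ?_⟩
  rw [← D.zetaDvd_top a s, D.zetaDvd_eq_sum κ 𝔠 a hs1, D.zetaDvd_eq_sum κ ⊤ a hs1,
    Finset.mul_sum, ← Finset.sum_sub_distrib]
  exact (Finset.abs_sum_le_sum_abs _ _).trans (Finset.sum_le_sum fun C _ => hB C s hs1 hs2)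

/-- **Growth**: the partial zeta functions are dominated by the total smoothed sum. -/
theorem exists_zeta_le_total (a : A) : ∃ c : ℝ, 0 ≤ c ∧ ∀ s : ℝ, 1 < s → s ≤ 2 →
    D.zeta a s ≤ c * κ.total s := by
  classical
  have key : ∀ C : ClassGroup (𝓞 K), ∃ c : ℝ, 0 ≤ c ∧ ∀ s : ℝ, 1 < s → s ≤ 2 →
      D.zetaDvdAt ⊤ a C s ≤ c * κ.total s := by
    intro C
    obtain ⟨𝔟, h𝔟, h𝔟m, h𝔟C⟩ := exists_coprime_rep D.m D.m_ne_bot C⁻¹
    have hN𝔟 : (1 : ℝ) ≤ Ideal.absNorm 𝔟 := one_le_absNorm_cast h𝔟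
    have hw : 0 < κ.w⁻¹ := inv_pos.mpr κ.w_pos
    refine ⟨(Ideal.absNorm 𝔟 : ℝ) ^ 2 * κ.w⁻¹, by positivity, fun s hs1 hs2 => ?_⟩
    rw [D.zetaDvdAt_eq κ h𝔟 h𝔟m h𝔟C ⊤ a hs1, mul_assoc]
    have hpos : 0 ≤ (Ideal.absNorm 𝔟 : ℝ) ^ s := Real.rpow_nonneg (by linarith) _
    have hle : (Ideal.absNorm 𝔟 : ℝ) ^ s ≤ (Ideal.absNorm 𝔟 : ℝ) ^ 2 :=
      rpow_le_sq_of_le_two hN𝔟 hs2
    have h1 := tsum_genSet_le_total κ (D.below (⊤ * 𝔟) (a * D.ψ 𝔟)) hs1
    have h2 := tsum_genSet_nonneg κ (D.below (⊤ * 𝔟) (a * D.ψ 𝔟)) s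
    exact mul_le_mul hle (mul_le_mul_of_nonneg_left h1 hw.le) (mul_nonneg hw.le h2)
      (by positivity)
  choose c hc0 hc using key
  refine ⟨∑ C : ClassGroup (𝓞 K), c C, Finset.sum_nonneg fun C _ => hc0 C,
    fun s hs1 hs2 => ?_⟩
  rw [← D.zetaDvd_top a s, D.zetaDvd_eq_sum κ ⊤ a hs1, Finset.sum_mul]
  exact Finset.sum_le_sum fun C _ => hc C s hs1 hs2

theorem zeta_nonneg (a : A) (s : ℝ) : 0 ≤ D.zeta a s :=
  tsum_nonneg fun _ => Real.rpow_nonneg (Nat.cast_nonneg _) _

/-- **Translation by `𝔠`.** -/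
theorem zeta_eq_zetaDvd (𝔠 : Ideal (𝓞 K)) (h𝔠 : 𝔠 ≠ ⊥) (h𝔠m : IsCoprime 𝔠 D.m) (a : A)
    (s : ℝ) : D.zeta a s = (Ideal.absNorm 𝔠 : ℝ) ^ s * D.zetaDvd 𝔠 (a * D.ψ 𝔠) s := by
  unfold zeta zetaDvd
  refine tsum_mul_ideal 𝔠 h𝔠 (D.cls a) (D.clsDvd 𝔠 (a * D.ψ 𝔠)) ?_ ?_ s
  · rintro I ⟨hI0, hIm, hIψ⟩
    exact ⟨mul_ne_zero hI0 h𝔠, hIm.mul_left h𝔠m, by rw [D.map_mul _ _ hIm h𝔠m, hIψ],
      Ideal.mul_le_right⟩
  · rintro J ⟨hJ0, hJm, hJψ, hJle⟩
    obtain ⟨I, hI⟩ := Ideal.dvd_iff_le.mpr hJle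
    have hJeq : I * 𝔠 = J := by rw [hI, mul_comm]
    have hI0 : I ≠ ⊥ := by
      rintro rfl
      exact hJ0 (by rw [← hJeq]; simp)
    have hIm : IsCoprime I D.m := by
      rw [← hJeq] at hJm
      exact hJm.of_mul_left_left
    refine ⟨I, ⟨hI0, hIm, ?_⟩, hJeq⟩
    have h1 : D.ψ I * D.ψ 𝔠 = a * D.ψ 𝔠 := by
      rw [← D.map_mul _ _ hIm h𝔠m, hJeq, hJψ]
    exact mul_right_cancel h1

/-- **RAY-N1**: the partial zeta functions of two classes in the same coset of the image of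
`ψ` differ by a bounded function on `(1, 2]`. -/
theorem exists_zeta_sub_bound
    (hgrow : ∃ G : ℝ, ∀ s : ℝ, 1 < s → s ≤ 2 → (s - 1) * κ.total s ≤ G)
    (𝔠 : Ideal (𝓞 K)) (h𝔠 : 𝔠 ≠ ⊥) (h𝔠m : IsCoprime 𝔠 D.m) (a : A) :
    ∃ B : ℝ, ∀ s : ℝ, 1 < s → s ≤ 2 → |D.zeta a s - D.zeta (a * D.ψ 𝔠) s| ≤ B := by
  obtain ⟨G, hG⟩ := hgrow
  obtain ⟨B₀, hB₀⟩ := D.exists_zetaDvd_bound κ 𝔠 h𝔠 h𝔠m (a * D.ψ 𝔠)
  obtain ⟨c, hc0, hc⟩ := D.exists_zeta_le_total κ (a * D.ψ 𝔠)
  have hN : (1 : ℝ) ≤ Ideal.absNorm 𝔠 := one_le_absNorm_cast h𝔠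
  have hN0 : (0 : ℝ) < Ideal.absNorm 𝔠 := by linarith
  refine ⟨(Ideal.absNorm 𝔠 : ℝ) * B₀ + ((Ideal.absNorm 𝔠 : ℝ) - 1) * (c * G),
    fun s hs1 hs2 => ?_⟩
  set N : ℝ := (Ideal.absNorm 𝔠 : ℝ) with hNdef
  set Zd := D.zetaDvd 𝔠 (a * D.ψ 𝔠) s with hZd
  set Z' := D.zeta (a * D.ψ 𝔠) s with hZ'
  have h0 := hB₀ s hs1 hs2
  rw [← hZd, ← hZ'] at h0
  have hB₀0 : 0 ≤ B₀ := (abs_nonneg _).trans h0
  have hZ'0 : 0 ≤ Z' := D.zeta_nonneg _ _
  have hpow : N ^ s = N ^ (s - 1) * N := by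
    rw [← Real.rpow_add_one hN0.ne' (s - 1)]
    congr 1
    ring
  have hp1 : 1 ≤ N ^ (s - 1) := Real.one_le_rpow hN (by linarith)
  have hp2 : N ^ (s - 1) ≤ N := by
    have := Real.rpow_le_rpow_of_exponent_le hN (by linarith : s - 1 ≤ 1)
    simpa using this
  have hp3 : N ^ (s - 1) - 1 ≤ (s - 1) * (N - 1) := by
    have := rpow_one_add_le_one_add_mul_self (s := N - 1) (by linarith)
      (p := s - 1) (by linarith) (by linarith)
    have e : 1 + (N - 1) = N := by ring
    rw [e] at this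
    linarith
  rw [D.zeta_eq_zetaDvd 𝔠 h𝔠 h𝔠m a s, ← hZd, hpow]
  have e : N ^ (s - 1) * N * Zd - Z' = N ^ (s - 1) * (N * Zd - Z') + (N ^ (s - 1) - 1) * Z' := by
    ring
  rw [e]
  refine (abs_add_le _ _).trans (add_le_add ?_ ?_)
  · rw [abs_mul, abs_of_nonneg (by linarith : (0 : ℝ) ≤ N ^ (s - 1))]
    exact mul_le_mul hp2 h0 (abs_nonneg _) hN0.le
  · rw [abs_mul, abs_of_nonneg (by linarith : (0 : ℝ) ≤ N ^ (s - 1) - 1), abs_of_nonneg hZ'0]
    have h1 : Z' ≤ c * κ.total s := hc s hs1 hs2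
    have h2 : (s - 1) * κ.total s ≤ G := hG s hs1 hs2
    have h3 : 0 ≤ κ.total s := κ.total_nonneg s
    have hs0 : 0 < s - 1 := by linarith
    calc (N ^ (s - 1) - 1) * Z' ≤ ((s - 1) * (N - 1)) * (c * κ.total s) :=
          mul_le_mul hp3 h1 hZ'0 (by nlinarith)
      _ = (N - 1) * (c * ((s - 1) * κ.total s)) := by ring
      _ ≤ (N - 1) * (c * G) :=
          mul_le_mul_of_nonneg_left (mul_le_mul_of_nonneg_left h2 hc0) (by linarith)

end RayDatum

end Fermat.Agent.S55.H963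

end
-- ===== PACK-END S55/H963/RayBound.lean

-- ===== PACK-BEGIN S55/G/H357/SecondIneq.lean
section





/-!
# S55, layer G (helper357): the second inequality, analytic form

`L / K` an extension of number fields, `A` a finite abelian group, and a family of completely
multiplicative functions `ψ χ` on the nonzero ideals of `K` (`χ` in the dual of `A`) with
`ψ χ v = χ (a v)` at the good primes and `ψ χ v = 0` at the (finitely many) bad primes.
If `a v = 1` for every good prime `v` of `K` lying under a prime of `L` of degree one, and the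
series `L(s, ψ χ)` are bounded on `(1, 2]` for `χ ≠ 1`, then `#A ≤ [L : K]`.
-/

set_option autoImplicit false
set_option linter.unusedSectionVars false

namespace Fermat.Agent.S55.G.H357

open NumberField IsDedekindDomain Filter Topology
open scoped nonZeroDivisors
open Fermat.Agent.S14

/-- The elementary comparison of growth rates behind the second inequality. -/
theorem growth_contra {h n : ℕ} (hnh : n < h) {c C δ : ℝ} (hc : 0 < c) (hC : 0 < C)
    (hδ : 0 < δ)
    (H : ∀ s : ℝ, 1 < s → s < 1 + δ →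
      ∃ P : ℝ, 1 ≤ P ∧ c / (s - 1) ≤ P ^ n ∧ P ^ h ≤ C / (s - 1)) : False := by
  have hch : 0 < c ^ h := pow_pos hc h
  have hCn : 0 < C ^ n := pow_pos hC n
  set t : ℝ := min (δ / 2) (min (1 / 2) (c ^ h / (2 * C ^ n))) with ht
  have ht0 : 0 < t := by
    rw [ht]
    refine lt_min (by linarith) (lt_min (by norm_num) (by positivity))
  have htδ : t < δ := lt_of_le_of_lt (min_le_left _ _) (by linarith)
  have ht1 : t ≤ 1 := by
    have : t ≤ 1 / 2 := (min_le_right _ _).trans (min_le_left _ _)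
    linarith
  have htc : t * C ^ n < c ^ h := by
    have h1 : t ≤ c ^ h / (2 * C ^ n) := (min_le_right _ _).trans (min_le_right _ _)
    have h2 : t * C ^ n ≤ c ^ h / (2 * C ^ n) * C ^ n :=
      mul_le_mul_of_nonneg_right h1 hCn.le
    have h3 : c ^ h / (2 * C ^ n) * C ^ n = c ^ h / 2 := by
      field_simp
    linarith
  obtain ⟨P, hP1, hPn, hPh⟩ := H (1 + t) (by linarith) (by linarith)
  rw [add_sub_cancel_left] at hPn hPh
  have hP0 : 0 ≤ P := by linarith
  -- `(c / t)^h ≤ P^(n h) ≤ (C / t)^n`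
  have hkey : (c / t) ^ h ≤ (C / t) ^ n := by
    calc (c / t) ^ h ≤ (P ^ n) ^ h := pow_le_pow_left₀ (by positivity) hPn h
      _ = (P ^ h) ^ n := by rw [← pow_mul, ← pow_mul, mul_comm]
      _ ≤ (C / t) ^ n := pow_le_pow_left₀ (by positivity) hPh n
  rw [div_pow, div_pow, div_le_div_iff₀ (pow_pos ht0 h) (pow_pos ht0 n)] at hkey
  -- `t^h ≤ t^(n+1)`
  have hth : t ^ h ≤ t ^ n * t := by
    rw [← pow_succ]
    exact pow_le_pow_of_le_one ht0.le ht1 hnh
  have htn : 0 < t ^ n := pow_pos ht0 n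
  have : c ^ h * t ^ n ≤ (t * C ^ n) * t ^ n := by
    calc c ^ h * t ^ n ≤ C ^ n * t ^ h := hkey
      _ ≤ C ^ n * (t ^ n * t) := mul_le_mul_of_nonneg_left hth hCn.le
      _ = (t * C ^ n) * t ^ n := by ring
  have := le_of_mul_le_mul_right this htn
  linarith

variable {K L : Type*} [Field K] [NumberField K] [Field L] [NumberField L] [Algebra K L]

/-- **Second inequality, analytic form.** -/
theorem card_le_finrank_of_bounded {A : Type*} [CommGroup A] [Finite A]
    (ψ : (A →* ℂˣ) → ((Ideal (𝓞 K))⁰ →* ℂ)) (hnorm : ∀ χ I, ‖ψ χ I‖ ≤ 1)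
    (a : HeightOneSpectrum (𝓞 K) → A) (Bad : Set (HeightOneSpectrum (𝓞 K)))
    (hBad : Bad.Finite)
    (hgood : ∀ χ v, v ∉ Bad → ψ χ (H163.toI0 v) = ((χ (a v) : ℂˣ) : ℂ))
    (hbad : ∀ χ v, v ∈ Bad → ψ χ (H163.toI0 v) = 0)
    (hbdd : ∀ χ : A →* ℂˣ, χ ≠ 1 → LrayBounded (ψ χ))
    (hsplit : ∀ w : HeightOneSpectrum (𝓞 L), (Ideal.absNorm w.asIdeal).Prime →
      und K L w ∉ Bad → a (und K L w) = 1) :
    Nat.card A ≤ Module.finrank K L := by
  by_contra hlt
  rw [not_le] at hlt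
  obtain ⟨C₁, hC₁, hup⟩ := kernel_mass_le ψ hnorm a Bad hgood hbad hbdd
  obtain ⟨C₂, hC₂, hlow⟩ := lower_mass K L Bad hBad
  obtain ⟨_, CK, δK, _, hδK, hZK⟩ := H163.zetaBounds (K := K)
  obtain ⟨cL, _, δL, hcL, hδL, hZL⟩ := H163.zetaBounds (K := L)
  refine growth_contra hlt (c := cL / C₂) (C := C₁ * (|CK| + 1)) (δ := min 1 (min δK δL))
    (by positivity) (by positivity) (lt_min one_pos (lt_min hδK hδL)) ?_
  intro s hs1 hsδ
  have hm1 : min 1 (min δK δL) ≤ 1 := min_le_left _ _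
  have hm2 : min 1 (min δK δL) ≤ δK := (min_le_right _ _).trans (min_le_left _ _)
  have hm3 : min 1 (min δK δL) ≤ δL := (min_le_right _ _).trans (min_le_right _ _)
  have hs2 : s ≤ 2 := by linarith
  have hsK : s < 1 + δK := by linarith
  have hsL : s < 1 + δL := by linarith
  have hs0 : 0 < s - 1 := by linarith
  obtain ⟨T, hT, hTle⟩ := hlow s hs1 hs2
  refine ⟨∏ v ∈ T, (1 + H163.normPow s (H163.toI0 v)), ?_, ?_, ?_⟩
  · refine Finset.one_le_prod (fun v _ => ?_)
    have := H163.normPow_pos s (H163.toI0 v)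
    linarith
  · have h1 := (hZL s hs1 hsL).1
    rw [H163.zetaI_eq_zetaR] at h1
    have h2 := h1.trans hTle
    rw [div_div, div_le_iff₀ (by positivity)]
    rw [div_le_iff₀ hs0] at h2
    calc cL ≤ C₂ * (∏ v ∈ T, (1 + H163.normPow s (H163.toI0 v))) ^ Module.finrank K L *
          (s - 1) := h2
      _ = _ := by ring
  · have h1 := (hZK s hs1 hsK).2
    rw [H163.zetaI_eq_zetaR] at h1
    have h2 := hup s hs1 hs2 T (fun v hv => by
      obtain ⟨hvB, w, hw, hwv⟩ := hT v hv
      refine ⟨hvB, ?_⟩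
      rw [← hwv]
      exact hsplit w hw (hwv ▸ hvB))
    refine h2.trans ?_
    rw [mul_div_assoc]
    refine mul_le_mul_of_nonneg_left (h1.trans ?_) hC₁.le
    exact div_le_div_of_nonneg_right (by linarith [le_abs_self CK]) hs0.le

end Fermat.Agent.S55.G.H357

end
-- ===== PACK-END S55/G/H357/SecondIneq.lean

-- ===== PACK-BEGIN S55/G/Rec/Loc/UnifH544/Galois.lean
section





/-!
# S55 / G / REC / LOC, leaf LOC-UNIF (helper544), part 3: Galois theory

* `exists_level_of_cupChar544`: a character `χ` whose cup cocycle with a non-unit `π` is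
  level-constant is continuous (trivial on `V ∩ Gal(ℚ̄_q / E₁)`, `E₁ / ℚ_q` finite);
* `exists_cyclotomic_level544`: a continuous unramified character of an open subgroup `V` is
  trivial on the elements of `V` fixing `μ_r`, for some `r` prime to `q`  (infinite Galois
  theory: the fixed field of `ker χ` is contained in `K_V(μ')`, `μ'` the roots of unity of order
  prime to `q`, because an automorphism fixing `μ'` is inertial);
* `cycLevel544 q V r = K_V(μ_r)`, finite Galois over `K_V`;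
* `resHom_surjective544`, `descChar544`: the character induced on `Gal(K_V(μ_r) / K_V)`.
-/

set_option autoImplicit false
set_option linter.unusedSectionVars false

noncomputable section

namespace Fermat.Agent.S55.G.Rec.Loc.H544

open groupCohomology Fermat.Agent.S55.G.Rec Fermat.Agent.S55.G.Rec.Loc

variable (q : ℕ) [Fact q.Prime]

local notation "Gq" => (PadicAlgCl q ≃ₐ[ℚ_[q]] PadicAlgCl q)

/-! ### Continuity of the character -/

theorem toLMod_nsmul544 (V : Subgroup Gq) (x : (PadicAlgCl q)ˣ) (k : ℕ) :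
    k • toLMod q V x = toLMod q V (x ^ k) := rfl

theorem toLMod_injective544 (V : Subgroup Gq) : Function.Injective (toLMod q V) :=
  fun _ _ h => h

theorem isCupChar_apply544 {G A : Type*} [Group G] [AddCommGroup A] {n : ℕ} {a : A}
    {χ : G →* Multiplicative (ZMod n)} {c : G × G → A} (hc : IsCupChar a χ c) (g h : G) :
    c (g, h) = carry χ g h • a := hc g h

/-- A power of a non-unit is `1` only for the exponent `0`. -/
theorem pow_eq_one_imp544 (π : (PadicAlgCl q)ˣ) (hπ : ‖(π : PadicAlgCl q)‖ < 1) (k : ℕ)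
    (hk : π ^ k = 1) : k = 0 := by
  by_contra h0
  have h1 : ‖((π ^ k : (PadicAlgCl q)ˣ) : PadicAlgCl q)‖ < 1 := by
    rw [Units.val_pow_eq_pow_val, norm_pow]
    exact pow_lt_one₀ (norm_nonneg _) hπ h0
  rw [hk, Units.val_one, norm_one] at h1
  exact lt_irrefl _ h1

/-- **Continuity.**  If the cup cocycle of `χ` with a non-unit `π` is level-constant then `χ` is
trivial on `V ∩ Gal(ℚ̄_q / E₁)` for some finite extension `E₁ / ℚ_q`. -/
theorem exists_level_of_cupChar544 (V : Subgroup Gq) (n : ℕ) [NeZero n]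
    (χ : ↥V →* Multiplicative (ZMod n)) (π : (PadicAlgCl q)ˣ) (hπ : ‖(π : PadicAlgCl q)‖ < 1)
    (c : ↥(levelCocycles₂ (lHom q V) (lModOn q V)))
    (hc : IsCupChar (toLMod q V π) χ (c : ↥V × ↥V → lModOn q V)) :
    ∃ E₁ : IntermediateField ℚ_[q] (PadicAlgCl q), FiniteDimensional ℚ_[q] E₁ ∧
      ∀ τ : ↥V, (τ : Gq) ∈ E₁.fixingSubgroup → χ τ = 1 := by
  obtain ⟨-, F, hF, hconst⟩ := (mem_levelCocycles₂_iff _ _ _).1 c.2
  haveI := hF
  obtain ⟨E₁, hE₁, hloc⟩ := Bridge.exists_local_level_of_global q F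
  refine ⟨E₁, hE₁, fun τ hτ => ?_⟩
  have hτF : lHom q V τ ∈ F.fixingSubgroup := hloc _ hτ
  have h1F : lHom q V 1 ∈ F.fixingSubgroup := by
    rw [map_one]
    exact Subgroup.one_mem _
  have h1 := hconst 1 τ⁻¹ τ 1 hτF h1F
  rw [one_mul, mul_one, isCupChar_apply544 hc, isCupChar_apply544 hc, carry_one_left, zero_smul,
    toLMod_nsmul544] at h1
  have h2 : π ^ carry χ τ τ⁻¹ = 1 := toLMod_injective544 q V h1
  have h3 : carry χ τ τ⁻¹ = 0 := pow_eq_one_imp544 q π hπ _ h2
  have h4 := lift_add_lift χ τ τ⁻¹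
  rw [h3, mul_zero, add_zero, mul_inv_cancel, lift_map_one] at h4
  have h5 : lift χ τ = 0 := by omega
  have h6 : Multiplicative.toAdd (χ τ) = 0 := (ZMod.val_eq_zero _).1 h5
  exact h6

/-! ### The cyclotomic level -/

/-- **Unramified continuous characters are trivial on `Gal(ℚ̄_q / K_V(μ_r))`** for some `r` prime
to `q`. -/
theorem exists_cyclotomic_level544 (hO : OpenSpec) (V : Subgroup Gq) (hV : IsOpenL q V) (n : ℕ)
    (χ : ↥V →* Multiplicative (ZMod n))
    (hχ : ∀ τ : ↥V, IsInertial q (τ : Gq) → χ τ = 1)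
    (hcont : ∃ E₁ : IntermediateField ℚ_[q] (PadicAlgCl q), FiniteDimensional ℚ_[q] E₁ ∧
      ∀ τ : ↥V, (τ : Gq) ∈ E₁.fixingSubgroup → χ τ = 1) :
    ∃ r : ℕ, 0 < r ∧ ¬ q ∣ r ∧
      ∀ τ : ↥V, (∀ ζ : PadicAlgCl q, ζ ^ r = 1 → (τ : Gq) ζ = ζ) → χ τ = 1 := by
  classical
  obtain ⟨E₁, hE₁, hE₁χ⟩ := hcont
  obtain ⟨E₀, hE₀, hE₀V⟩ := id hV
  obtain ⟨hKfin, hKfix⟩ := hO q V hV
  set H : Subgroup Gq := χ.ker.map V.subtype with hH
  have hHmem : ∀ τ : Gq, τ ∈ H ↔ ∃ h : τ ∈ V, χ ⟨τ, h⟩ = 1 := by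
    intro τ
    rw [hH, Subgroup.mem_map]
    constructor
    · rintro ⟨x, hx, rfl⟩
      exact ⟨x.2, MonoidHom.mem_ker.1 hx⟩
    · rintro ⟨h, hh⟩
      exact ⟨⟨τ, h⟩, MonoidHom.mem_ker.2 hh, rfl⟩
  have hHopen : IsOpenL q H := by
    haveI := hE₁
    haveI := hE₀
    refine ⟨E₁ ⊔ E₀, inferInstance, fun τ hτ => ?_⟩
    have h0 : τ ∈ V := hE₀V (IntermediateField.fixingSubgroup_antitone le_sup_right hτ)
    have h1 := hE₁χ ⟨τ, h0⟩ (IntermediateField.fixingSubgroup_antitone le_sup_left hτ)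
    exact (hHmem τ).2 ⟨h0, h1⟩
  obtain ⟨hMfin, hMfix⟩ := hO q H hHopen
  -- the fixed field of `H` is contained in `W = K_V(μ')`
  set μ' : Set (PadicAlgCl q) := {ζ | ∃ r : ℕ, ¬ q ∣ r ∧ ζ ^ r = 1} with hμ'
  set W : IntermediateField ℚ_[q] (PadicAlgCl q) :=
    IntermediateField.adjoin ℚ_[q] ((fixedFld q V : Set (PadicAlgCl q)) ∪ μ') with hW
  have hWH : W.fixingSubgroup ≤ H := by
    intro τ hτ
    rw [IntermediateField.mem_fixingSubgroup_iff] at hτ
    have hτV : τ ∈ V := by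
      rw [← hKfix, IntermediateField.mem_fixingSubgroup_iff]
      intro x hx
      exact hτ x (IntermediateField.subset_adjoin _ _ (Or.inl hx))
    have hin : IsInertial q τ := isInertial_of_fixes_roots544 q τ fun r ζ hr hζ =>
      hτ ζ (IntermediateField.subset_adjoin _ _ (Or.inr ⟨r, hr, hζ⟩))
    exact (hHmem τ).2 ⟨hτV, hχ ⟨τ, hτV⟩ hin⟩
  have hMW : fixedFld q H ≤ W := by
    have h1 : IntermediateField.fixedField H ≤ IntermediateField.fixedField W.fixingSubgroup :=
      IntermediateField.fixedField_le hWH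
    rwa [InfiniteGalois.fixedField_fixingSubgroup] at h1
  -- a primitive element of the fixed field of `H`
  haveI := hMfin
  obtain ⟨α, hα⟩ := Field.exists_primitive_element ℚ_[q] (fixedFld q H)
  have hαW : (α : PadicAlgCl q) ∈ W := hMW α.2
  obtain ⟨T, hTsub, hαT⟩ := IntermediateField.exists_finset_of_mem_adjoin hαW
  -- orders
  have hord : ∀ t : PadicAlgCl q, ∃ r : ℕ, 0 < r ∧ ¬ q ∣ r ∧ (t ∈ μ' → t ^ r = 1) := by
    intro t
    by_cases ht : t ∈ μ'
    · obtain ⟨r, hr, hζ⟩ := ht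
      refine ⟨r, ?_, hr, fun _ => hζ⟩
      rcases Nat.eq_zero_or_pos r with h0 | h0
      · exact absurd (h0 ▸ dvd_zero q) hr
      · exact h0
    · refine ⟨1, one_pos, fun h => ?_, fun h => absurd h ht⟩
      exact (Fact.out : q.Prime).one_lt.ne' (Nat.dvd_one.1 h)
  choose ord hord0 hordq hordpow using hord
  refine ⟨∏ t ∈ T, ord t, Finset.prod_pos fun t _ => hord0 t, ?_, ?_⟩
  · intro hdiv
    obtain ⟨t, -, ht⟩ := (Prime.dvd_finsetProd_iff (Nat.Prime.prime Fact.out) _).1 hdiv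
    exact hordq t ht
  · intro τ hτ
    have hfixT : ∀ t ∈ T, (τ : Gq) t = t := by
      intro t ht
      rcases hTsub ht with hK | hμ
      · exact (IntermediateField.mem_fixedField_iff _ _).1 hK τ τ.2
      · apply hτ
        obtain ⟨k, hk⟩ := Finset.dvd_prod_of_mem ord ht
        rw [hk, pow_mul, hordpow t hμ, one_pow]
    have hτα : (τ : Gq) (α : PadicAlgCl q) = α := by
      have hle : IntermediateField.adjoin ℚ_[q] (T : Set (PadicAlgCl q)) ≤
          IntermediateField.fixedField (Subgroup.zpowers (τ : Gq)) := by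
        rw [IntermediateField.adjoin_le_iff]
        intro t ht
        rintro ⟨σ, hσ⟩
        obtain ⟨m, rfl⟩ := Subgroup.mem_zpowers_iff.1 hσ
        have hfix : (τ : Gq) ∈ MulAction.stabilizer Gq t := hfixT t ht
        exact (Subgroup.zpow_mem _ hfix m : _)
      exact hle hαT ⟨τ, Subgroup.mem_zpowers _⟩
    have hτM : (τ : Gq) ∈ (fixedFld q H).fixingSubgroup := by
      rw [IntermediateField.mem_fixingSubgroup_iff]
      intro y hy
      have hy' : (⟨y, hy⟩ : fixedFld q H) ∈ IntermediateField.adjoin ℚ_[q] {α} := by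
        rw [hα]; trivial
      have hle : IntermediateField.adjoin ℚ_[q] {(α : PadicAlgCl q)} ≤
          IntermediateField.fixedField (Subgroup.zpowers (τ : Gq)) := by
        rw [IntermediateField.adjoin_le_iff]
        rintro z hz
        rw [Set.mem_singleton_iff] at hz
        subst hz
        rintro ⟨σ, hσ⟩
        obtain ⟨m, rfl⟩ := Subgroup.mem_zpowers_iff.1 hσ
        have hfix : (τ : Gq) ∈ MulAction.stabilizer Gq (α : PadicAlgCl q) := hτα
        exact (Subgroup.zpow_mem _ hfix m : _)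
      have hyα : y ∈ IntermediateField.adjoin ℚ_[q] {(α : PadicAlgCl q)} := by
        have h1 : IntermediateField.lift (IntermediateField.adjoin ℚ_[q] {α}) =
            IntermediateField.adjoin ℚ_[q] {(α : PadicAlgCl q)} := by
          rw [IntermediateField.lift_adjoin, Set.image_singleton]
        rw [← h1]
        exact (IntermediateField.mem_lift (⟨y, hy⟩ : fixedFld q H)).2 hy'
      exact hle hyα ⟨τ, Subgroup.mem_zpowers _⟩
    rw [hMfix] at hτM
    obtain ⟨h, hh⟩ := (hHmem _).1 hτM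
    exact hh

/-! ### The level `K_V(μ_r)` -/

/-- The polynomial `X ^ r - 1` over `K_V`. -/
def cycPoly544 (V : Subgroup Gq) (r : ℕ) : Polynomial (fixedFld q V) := Polynomial.X ^ r - 1

/-- The level `K_V(μ_r)`. -/
def cycLevel544 (V : Subgroup Gq) (r : ℕ) : IntermediateField (fixedFld q V) (PadicAlgCl q) :=
  IntermediateField.adjoin (fixedFld q V) ((cycPoly544 q V r).rootSet (PadicAlgCl q))

theorem cycPoly_ne_zero544 (V : Subgroup Gq) {r : ℕ} (hr : 0 < r) : cycPoly544 q V r ≠ 0 :=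
  (Polynomial.monic_X_pow_sub_C (1 : fixedFld q V) hr.ne').ne_zero

theorem mem_rootSet_cycPoly544 (V : Subgroup Gq) {r : ℕ} (hr : 0 < r) (ζ : PadicAlgCl q) :
    ζ ∈ (cycPoly544 q V r).rootSet (PadicAlgCl q) ↔ ζ ^ r = 1 := by
  rw [Polynomial.mem_rootSet_of_ne (cycPoly_ne_zero544 q V hr), cycPoly544]
  simp [sub_eq_zero]

theorem isSplittingField_cycLevel544 (V : Subgroup Gq) (r : ℕ) :
    Polynomial.IsSplittingField (fixedFld q V) (cycLevel544 q V r) (cycPoly544 q V r) :=
  IntermediateField.adjoin_rootSet_isSplittingField (IsAlgClosed.splits _)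

theorem normal_cycLevel544 (V : Subgroup Gq) (r : ℕ) :
    Normal (fixedFld q V) (cycLevel544 q V r) :=
  haveI := isSplittingField_cycLevel544 q V r
  Normal.of_isSplittingField (cycPoly544 q V r)

theorem finiteDimensional_cycLevel544 (V : Subgroup Gq) (r : ℕ) :
    FiniteDimensional (fixedFld q V) (cycLevel544 q V r) :=
  haveI := isSplittingField_cycLevel544 q V r
  Polynomial.IsSplittingField.finiteDimensional _ (cycPoly544 q V r)

theorem isGalois_cycLevel544 (V : Subgroup Gq) (r : ℕ) :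
    IsGalois (fixedFld q V) (cycLevel544 q V r) :=
  haveI := normal_cycLevel544 q V r
  ⟨⟩

/-- An automorphism of `K_V(μ_r)` fixing `μ_r` is trivial. -/
theorem eq_one_of_fixes_roots544 (V : Subgroup Gq) {r : ℕ} (hr : 0 < r)
    (σ : cycLevel544 q V r ≃ₐ[fixedFld q V] cycLevel544 q V r)
    (hσ : ∀ x : cycLevel544 q V r, (x : PadicAlgCl q) ^ r = 1 → σ x = x) : σ = 1 := by
  apply AlgEquiv.ext
  rintro ⟨x, hx⟩
  rw [AlgEquiv.one_apply]
  induction hx using IntermediateField.adjoin_induction with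
  | mem y hy =>
    exact hσ _ ((mem_rootSet_cycPoly544 q V hr y).1 hy)
  | algebraMap y =>
    exact σ.commutes y
  | add y z hy hz ihy ihz =>
    have : (⟨y + z, add_mem hy hz⟩ : cycLevel544 q V r) = ⟨y, hy⟩ + ⟨z, hz⟩ := rfl
    rw [this, map_add, ihy, ihz]
  | inv y hy ihy =>
    have : (⟨y⁻¹, inv_mem hy⟩ : cycLevel544 q V r) = (⟨y, hy⟩ : cycLevel544 q V r)⁻¹ := rfl
    rw [this, map_inv₀, ihy]
  | mul y z hy hz ihy ihz =>
    have : (⟨y * z, mul_mem hy hz⟩ : cycLevel544 q V r) = ⟨y, hy⟩ * ⟨z, hz⟩ := rfl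
    rw [this, map_mul, ihy, ihz]

/-! ### Restriction to a finite level -/

/-- Restriction `V → Gal(E / K_V)` is surjective, if `V = Gal(ℚ̄_q / K_V)`. -/
theorem resHom_surjective544 (V : Subgroup Gq) (hfix : (fixedFld q V).fixingSubgroup = V)
    (E : IntermediateField (fixedFld q V) (PadicAlgCl q)) [Normal (fixedFld q V) E] :
    Function.Surjective (resHom q V E) := by
  intro σ
  obtain ⟨τ, hτ⟩ := AlgEquiv.restrictNormalHom_surjective (PadicAlgCl q) σ
  have hmem' : (τ.restrictScalars ℚ_[q] : Gq) ∈ (fixedFld q V).fixingSubgroup := by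
    rw [IntermediateField.mem_fixingSubgroup_iff]
    intro x hx
    exact τ.commutes ⟨x, hx⟩
  have hmem : (τ.restrictScalars ℚ_[q] : Gq) ∈ V := hfix.le hmem'
  refine ⟨⟨τ.restrictScalars ℚ_[q], hmem⟩, ?_⟩
  have h1 : toAbsGal q V ⟨τ.restrictScalars ℚ_[q], hmem⟩ = τ := by
    apply AlgEquiv.ext
    intro x
    rw [toAbsGal_apply]
    rfl
  rw [← hτ, resHom, MonoidHom.comp_apply, h1]

/-- Elements of `Gal(E / K_V)` are isometries. -/
theorem norm_resHom544 (V : Subgroup Gq)
    (E : IntermediateField (fixedFld q V) (PadicAlgCl q)) [Normal (fixedFld q V) E]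
    (g : ↥V) (x : E) : ‖((resHom q V E g x : E) : PadicAlgCl q)‖ = ‖(x : PadicAlgCl q)‖ := by
  rw [resHom_apply_coe, norm_galois544]

theorem norm_algEquiv544 (V : Subgroup Gq) (hfix : (fixedFld q V).fixingSubgroup = V)
    (E : IntermediateField (fixedFld q V) (PadicAlgCl q)) [Normal (fixedFld q V) E]
    (σ : E ≃ₐ[fixedFld q V] E) (x : E) : ‖((σ x : E) : PadicAlgCl q)‖ = ‖(x : PadicAlgCl q)‖ := by
  obtain ⟨g, rfl⟩ := resHom_surjective544 q V hfix E σ
  exact norm_resHom544 q V E g x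

/-- The kernel of restriction to `K_V(μ_r)` fixes `μ_r`. -/
theorem fixes_of_resHom_eq_one544 (V : Subgroup Gq) {r : ℕ} (hr : 0 < r) (g : ↥V)
    (hg : haveI := normal_cycLevel544 q V r; resHom q V (cycLevel544 q V r) g = 1)
    (ζ : PadicAlgCl q) (hζ : ζ ^ r = 1) : (g : Gq) ζ = ζ := by
  haveI := normal_cycLevel544 q V r
  have hmem : ζ ∈ cycLevel544 q V r :=
    IntermediateField.subset_adjoin _ _ ((mem_rootSet_cycPoly544 q V hr ζ).2 hζ)
  have h1 := resHom_apply_coe q V (cycLevel544 q V r) g ⟨ζ, hmem⟩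
  rw [hg, AlgEquiv.one_apply] at h1
  exact h1.symm

/-- The character induced on a finite level through which it factors. -/
def descChar544 (V : Subgroup Gq) (E : IntermediateField (fixedFld q V) (PadicAlgCl q))
    [Normal (fixedFld q V) E] {n : ℕ} (χ : ↥V →* Multiplicative (ZMod n))
    (hsurj : Function.Surjective (resHom q V E))
    (hker : (resHom q V E).ker ≤ χ.ker) :
    (E ≃ₐ[fixedFld q V] E) →* Multiplicative (ZMod n) :=
  (resHom q V E).liftOfSurjective hsurj ⟨χ, hker⟩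

theorem descChar_resHom544 (V : Subgroup Gq)
    (E : IntermediateField (fixedFld q V) (PadicAlgCl q))
    [Normal (fixedFld q V) E] {n : ℕ} (χ : ↥V →* Multiplicative (ZMod n))
    (hsurj : Function.Surjective (resHom q V E))
    (hker : (resHom q V E).ker ≤ χ.ker) (g : ↥V) :
    descChar544 q V E χ hsurj hker (resHom q V E g) = χ g :=
  MonoidHom.liftOfRightInverse_comp_apply _ _ _ ⟨χ, hker⟩ g

end Fermat.Agent.S55.G.Rec.Loc.H544

end
end
-- ===== PACK-END S55/G/Rec/Loc/UnifH544/Galois.lean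

-- ===== PACK-BEGIN S55/Local/H483/Surj.lean
section


/-!
# S55, layer L : the inertia subgroup of a quotient is the image of inertia   (helper483)

`K ⊆ E ⊆ N`, `N / K` finite Galois, `E / K` normal.  Every `ι ∈ Gal(E/K)` acting trivially on the
residue field of `E` is the restriction of some `σ ∈ Gal(N/K)` acting trivially on the residue
field of `N` (`exists_inertial_lift`).  Proof by counting: `|I(N/K)| = |I(E/K)| · |I(N/E)|`.
-/

set_option autoImplicit false
set_option linter.unusedSectionVars false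
set_option linter.style.haveILetI false

namespace Fermat.Agent.S55.Local.H483

open Fermat.Agent.S55.Local

section Surj

variable (A F : Type) [CommRing A] [IsDomain A] [IsDiscreteValuationRing A]
  [IsAdicComplete (IsLocalRing.maximalIdeal A) A] [Finite (IsLocalRing.ResidueField A)]
  [Field F] [CharZero F] [Algebra A F] [IsFractionRing A F]
  (K : Type) [Field K] [Algebra F K] [FiniteDimensional F K]
  (N : Type) [Field N] [Algebra F N] [Algebra K N] [IsScalarTower F K N]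
  [FiniteDimensional K N] [IsGalois K N]
  (E : Type) [Field E] [Algebra F E] [Algebra K E] [Algebra E N]
  [IsScalarTower F K E] [IsScalarTower F E N] [IsScalarTower K E N]

/-- Multiplicativity of the orders of inertia subgroups in a tower. -/
theorem card_inertia_tower (I : Subgroup (N ≃ₐ[K] N))
    (hmem : ∀ σ, σ ∈ I ↔ ∀ x : N, IsInt A F N x → InMax A F N (σ x - x))
    (hcard : ∀ (ϖK : Kˣ) (ϖN : Nˣ), IsUnif A F K ϖK → IsUnif A F N ϖN →
      unitsIncl N K ϖK * ϖN ^ (-(Nat.card I : ℤ)) ∈ intUnits A F N)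
    (H : Subgroup (N ≃ₐ[K] N))
    (hH : ∀ σ : N ≃ₐ[K] N, σ ∈ H ↔ ∀ x : E, σ (algebraMap E N x) = algebraMap E N x)
    (e' : ℕ)
    (he' : ∀ (ϖK : Kˣ) (ϖE : Eˣ), IsUnif A F K ϖK → IsUnif A F E ϖE →
      unitsIncl E K ϖK * ϖE ^ (-(e' : ℤ)) ∈ intUnits A F E) :
    Nat.card I = e' * Nat.card ↥(H ⊓ I) := by
  haveI : FiniteDimensional F N := FiniteDimensional.trans F K N
  haveI : FiniteDimensional F E := FiniteDimensional.left F E N
  haveI : FiniteDimensional K E := FiniteDimensional.left K E N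
  haveI : FiniteDimensional E N := FiniteDimensional.right K E N
  haveI : IsGalois E N := IsGalois.tower_top_of_isGalois K E N
  obtain ⟨IE, -, hmemE, hcardE⟩ := exists_inertia A F E N
  obtain ⟨ϖK, hϖK⟩ := H608.exists_isUnif A F K
  obtain ⟨ϖE, hϖE⟩ := H608.exists_isUnif A F E
  obtain ⟨ϖN, hϖN⟩ := H608.exists_isUnif A F N
  have hcardEq : Nat.card IE = Nat.card ↥(H ⊓ I) := by
    have hmap : ∀ σ : N ≃ₐ[E] N, σ ∈ IE → AlgEquiv.restrictScalars K σ ∈ H ⊓ I := by
      intro σ hσ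
      refine ⟨(hH _).2 (fun x => ?_), (hmem _).2 (fun x hx => ?_)⟩
      · exact σ.commutes x
      · exact (hmemE σ).1 hσ x hx
    refine Nat.card_eq_of_bijective
      (fun σ : IE => (⟨AlgEquiv.restrictScalars K σ.1, hmap σ.1 σ.2⟩ : ↥(H ⊓ I))) ⟨?_, ?_⟩
    · intro σ τ hστ
      have h1 : AlgEquiv.restrictScalars K σ.1 = AlgEquiv.restrictScalars K τ.1 :=
        congrArg Subtype.val hστ
      exact Subtype.ext (AlgEquiv.restrictScalars_injective K h1)
    · rintro ⟨τ, hτH, hτI⟩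
      have hτE : ∀ x : E, τ (algebraMap E N x) = algebraMap E N x := (hH τ).1 hτH
      let σ : N ≃ₐ[E] N := AlgEquiv.ofRingEquiv (f := τ.toRingEquiv) hτE
      have hσ : σ ∈ IE := (hmemE σ).2 (fun x hx => (hmem τ).1 hτI x hx)
      refine ⟨⟨σ, hσ⟩, Subtype.ext ?_⟩
      ext x
      rfl
  have he'' := he' ϖK ϖE hϖK hϖE
  have hcK := hcard ϖK ϖN hϖK hϖN
  have hcE := hcardE ϖE ϖN hϖE hϖN
  have hmul : (Nat.card I : ℤ) = e' * Nat.card IE := by
    have he3 : unitsIncl N E (unitsIncl E K ϖK * ϖE ^ (-(e' : ℤ))) ∈ intUnits A F N :=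
      (H724.unitsIncl_mem_intUnits_iff724 A F E N _).2 he''
    have hincl : unitsIncl N E (unitsIncl E K ϖK) = unitsIncl N K ϖK := by
      ext
      simp only [unitsIncl_coe]
      exact (IsScalarTower.algebraMap_apply K E N _).symm
    rw [map_mul, map_zpow, hincl] at he3
    have key : ϖN ^ ((e' : ℤ) * Nat.card IE - Nat.card I) ∈ intUnits A F N := by
      have := (intUnits A F N).mul_mem
        ((intUnits A F N).mul_mem hcK ((intUnits A F N).inv_mem he3))
        ((intUnits A F N).zpow_mem hcE (-(e' : ℤ)))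
      have heq : unitsIncl N K ϖK * ϖN ^ (-(Nat.card I : ℤ)) *
          (unitsIncl N K ϖK * unitsIncl N E ϖE ^ (-(e' : ℤ)))⁻¹ *
          (unitsIncl N E ϖE * ϖN ^ (-(Nat.card IE : ℤ))) ^ (-(e' : ℤ)) =
          ϖN ^ ((e' : ℤ) * Nat.card IE - Nat.card I) := by
        apply Additive.ofMul.injective
        simp only [ofMul_mul, ofMul_zpow, ofMul_inv]
        module
      rwa [heq] at this
    have h0 := H724.zpow_mem_intUnits724 A F N hϖN.1 hϖN.2.1 key
    linarith
  rw [← hcardEq]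
  exact_mod_cast hmul

variable [Normal K E]

/-- **Inertia of a quotient**: every element of `Gal(E/K)` acting trivially on the residue field
is the restriction of an element of `Gal(N/K)` acting trivially on the residue field. -/
theorem exists_inertial_lift (ι : E ≃ₐ[K] E)
    (hι : ∀ x : E, IsInt A F E x → InMax A F E (ι x - x)) :
    ∃ σ : N ≃ₐ[K] N, (∀ x : N, IsInt A F N x → InMax A F N (σ x - x)) ∧
      ∀ x : E, σ (algebraMap E N x) = algebraMap E N (ι x) := by
  haveI : FiniteDimensional F N := FiniteDimensional.trans F K N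
  haveI : FiniteDimensional F E := FiniteDimensional.left F E N
  haveI : FiniteDimensional K E := FiniteDimensional.left K E N
  haveI : IsGalois K E :=
    isGalois_iff.2 ⟨Algebra.isSeparable_tower_bot_of_isSeparable K E N, inferInstance⟩
  obtain ⟨I, -, hmem, hcard⟩ := exists_inertia A F K N
  obtain ⟨J, -, hmemJ, hcardJ⟩ := exists_inertia A F K E
  -- restriction
  let r : (N ≃ₐ[K] N) →* (E ≃ₐ[K] E) := AlgEquiv.restrictNormalHom E
  have hr : ∀ (σ : N ≃ₐ[K] N) (x : E), algebraMap E N (r σ x) = σ (algebraMap E N x) :=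
    fun σ x => AlgEquiv.restrictNormal_commutes σ E x
  -- integrality is intrinsic
  have hint : ∀ y : E, IsInt A F N (algebraMap E N y) ↔ IsInt A F E y :=
    fun y => H724.isInt_algebraMap_iff724 A F E N y
  have hmax : ∀ y : E, InMax A F N (algebraMap E N y) ↔ InMax A F E y := by
    intro y
    unfold InMax
    rw [hint, ← map_inv₀, hint]
    simp only [map_eq_zero]
  -- `r` maps `I` into `J`
  have hrI : ∀ σ ∈ I, r σ ∈ J := by
    intro σ hσ
    rw [hmemJ]
    intro x hx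
    rw [← hmax, map_sub, hr]
    exact (hmem σ).1 hσ _ ((hint x).2 hx)
  -- the kernel of `r`
  have hker : ∀ σ : N ≃ₐ[K] N, σ ∈ r.ker ↔ ∀ x : E, σ (algebraMap E N x) = algebraMap E N x := by
    intro σ
    rw [MonoidHom.mem_ker]
    constructor
    · intro h x
      rw [← hr, h]
      rfl
    · intro h
      ext x
      apply (algebraMap E N).injective
      rw [hr, h]
      rfl
  have hmulc := card_inertia_tower A F K N E I hmem hcard r.ker hker (Nat.card J) hcardJ
  -- the restriction of `r` to `I`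
  let f : ↥I →* (E ≃ₐ[K] E) := r.comp I.subtype
  have hfker : Nat.card f.ker = Nat.card ↥(r.ker ⊓ I) := by
    refine Nat.card_eq_of_bijective
      (fun σ : f.ker => (⟨σ.1.1, ⟨σ.2, σ.1.2⟩⟩ : ↥(r.ker ⊓ I))) ⟨?_, ?_⟩
    · intro σ τ h
      have h' : (σ.1.1 : N ≃ₐ[K] N) = τ.1.1 :=
        congrArg (fun z : ↥(r.ker ⊓ I) => (z : N ≃ₐ[K] N)) h
      exact Subtype.ext (Subtype.ext h')
    · rintro ⟨σ, hσ1, hσ2⟩
      exact ⟨⟨⟨σ, hσ2⟩, hσ1⟩, rfl⟩
  have hrange : f.range ≤ J := by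
    rintro _ ⟨σ, rfl⟩
    exact hrI σ.1 σ.2
  have hidx : Nat.card ↥I = Nat.card f.ker * Nat.card f.range := by
    rw [← Subgroup.index_ker f, mul_comm]
    exact (Subgroup.index_mul_card f.ker).symm
  have hpos : 0 < Nat.card ↥(r.ker ⊓ I) := Nat.card_pos
  have hcr : Nat.card f.range = Nat.card J := by
    rw [hfker, hmulc, mul_comm] at hidx
    exact (Nat.eq_of_mul_eq_mul_left hpos hidx).symm
  have heq : f.range = J := Subgroup.eq_of_le_of_card_ge hrange hcr.ge
  have hιJ : ι ∈ J := (hmemJ ι).2 hι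
  rw [← heq] at hιJ
  obtain ⟨σ, hσ⟩ := hιJ
  refine ⟨σ.1, (hmem σ.1).1 σ.2, fun x => ?_⟩
  rw [← hr]
  exact congrArg (algebraMap E N) (DFunLike.congr_fun hσ x)

end Surj

end Fermat.Agent.S55.Local.H483

end
-- ===== PACK-END S55/Local/H483/Surj.lean

-- ===== PACK-BEGIN S55/L/UnrInv/PackInv.lean
section


/-!
# S55, layer L, unramified invariants: the invariant map of a package, normalisation
-/

set_option autoImplicit false
set_option linter.style.haveILetI false

namespace Fermat.Agent.S55.L.UnrInv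

open groupCohomology

theorem sub_mem_nonunits {F : Type*} [Field F] (C : ValuationSubring F) {a b : F}
    (ha : a ∈ C.nonunits) (hb : b ∈ C.nonunits) : a - b ∈ C.nonunits := by
  rw [C.mem_nonunits_iff] at ha hb ⊢
  exact lt_of_le_of_lt (Valuation.map_sub _ _ _) (max_lt ha hb)

variable {K E : Type} [Field K] [Field E] [Algebra K E]

namespace UnrPack

variable (P : UnrPack K E)

section

variable [FiniteDimensional K E] [IsGalois K E]

theorem frob_pow_finrank : P.φ ^ Module.finrank K E = 1 := by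
  rw [← IsGalois.card_aut_eq_finrank K E]
  exact pow_card_eq_one'

theorem orderOf_frob : orderOf P.φ = Module.finrank K E := by
  rw [← IsGalois.card_aut_eq_finrank K E]
  apply orderOf_eq_card_of_forall_mem_zpowers
  exact P.gen

/-- The invariant map attached to a package. -/
noncomputable def inv : H2 (unitsRep K E) →+ AddCircle (1 : ℚ) :=
  cycInv P.φ (Module.finrank K E) Module.finrank_pos P.frob_pow_finrank P.w P.w_invariant

theorem inv_cls (c : cocycles₂ (unitsRep K E)) :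
    P.inv (cls c) =
      (((P.w (cycSum P.φ (Module.finrank K E) (c : _ × _ → unitsRep K E)) : ℤ) : ℚ) /
        (Module.finrank K E : ℚ) : ℚ) :=
  cycInv_H2π _ _ _ _ _ _ c

end

/-- Uniqueness of the Frobenius. -/
theorem frob_unique [FiniteDimensional K E] [IsLocalFld K]
    (h0 : RingOfIntegersUniqueSpec) (h1 : FiniteExtSpec)
    {φ' : E ≃ₐ[K] E} (hφ' : IsFrobeniusElt K E φ') : φ' = P.φ := by
  haveI : IsLocalFld E := h1 K E
  obtain ⟨A₁, B₁, hA₁, hB₁, hfrob⟩ := hφ'
  obtain rfl : A₁ = P.A := h0 K A₁ P.A hA₁ P.hA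
  obtain rfl : B₁ = P.B := h0 E B₁ P.B hB₁ P.hB
  have key : P.φ⁻¹ * φ' = 1 := by
    apply P.inertia
    intro x hx
    have h2 : φ' x - P.φ x ∈ P.B.nonunits := by
      have := sub_mem_nonunits P.B (hfrob x hx) (P.frob x hx)
      simpa using this
    have h3 : P.φ⁻¹ (φ' x - P.φ x) ∈ P.B.nonunits := (P.galNon P.φ⁻¹ _).mpr h2
    have h4 : P.φ⁻¹ (φ' x - P.φ x) = (P.φ⁻¹ * φ') x - x := by
      rw [map_sub, AlgEquiv.mul_apply]
      congr 1
      exact P.φ.symm_apply_apply x
    rw [← h4]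
    exact h3
  have := congrArg (fun g => P.φ * g) key
  simpa [← mul_assoc] using this

/-- **Normalisation**: the class of the cyclic cocycle of `(Frobenius, uniformizer)` has
invariant `1/n`. -/
theorem inv_cyclic [FiniteDimensional K E] [IsGalois K E] [IsLocalFld K]
    (h0 : RingOfIntegersUniqueSpec) (h1 : FiniteExtSpec)
    (A' : ValuationSubring K) (hA' : IsLocalRingOfIntegers A')
    (φ' : E ≃ₐ[K] E) (hφ' : IsFrobeniusElt K E φ')
    (π : Kˣ) (hπ : IsUniformizer A' (π : K))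
    (f : cocycles₂ (unitsRep K E)) (hf : IsCyclicCocycle φ' π f) :
    P.inv (cls f) = (((Module.finrank K E : ℚ)⁻¹ : ℚ) : AddCircle (1 : ℚ)) := by
  obtain rfl : A' = P.A := h0 K A' P.A hA' P.hA
  obtain rfl : φ' = P.φ := P.frob_unique h0 h1 hφ'
  rw [P.inv_cls]
  have hn : 0 < Module.finrank K E := Module.finrank_pos
  rcases Nat.lt_or_ge 1 (Module.finrank K E) with h2 | h2
  · -- `n ≥ 2`
    obtain ⟨a, ha⟩ : ∃ a : unitsRep K E,
        a = Additive.ofMul (Units.map (algebraMap K E : K →* E) π) := ⟨_, rfl⟩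
    have hf' : ∀ i j : ℕ, i < Module.finrank K E → j < Module.finrank K E →
        (f : _ × _ → unitsRep K E) (P.φ ^ i, P.φ ^ j) =
          if i + j < Module.finrank K E then 0 else a := by
      intro i j hi hj
      rw [ha]
      exact hf i j hi hj
    have hsum : cycSum P.φ (Module.finrank K E) (f : _ × _ → unitsRep K E) = a := by
      unfold cycSum
      have hterm : ∀ i ∈ Finset.range (Module.finrank K E),
          (f : _ × _ → unitsRep K E) (P.φ ^ i, P.φ) =
            if i = Module.finrank K E - 1 then a else 0 := by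
        intro i hi
        rw [Finset.mem_range] at hi
        have := hf' i 1 hi h2
        rw [pow_one] at this
        rw [this]
        by_cases hi' : i = Module.finrank K E - 1
        · rw [if_neg (by omega), if_pos hi']
        · rw [if_pos (by omega), if_neg hi']
      rw [Finset.sum_congr rfl hterm, Finset.sum_ite_eq' (Finset.range (Module.finrank K E))
        (Module.finrank K E - 1), if_pos (Finset.mem_range.mpr (by omega))]
    rw [hsum, P.w_apply, ha]
    have : ((Additive.toMul (α := Eˣ)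
        (Additive.ofMul (Units.map (algebraMap K E : K →* E) π)) : Eˣ) : E) =
          algebraMap K E (π : K) := rfl
    rw [this, P.ordπ (π : K) hπ]
    simp [one_div]
  · -- `n = 1`
    have hn1 : Module.finrank K E = 1 := by omega
    have hφ1 : P.φ = 1 := by
      have := P.frob_pow_finrank
      rwa [hn1, pow_one] at this
    have hsum : cycSum P.φ (Module.finrank K E) (f : _ × _ → unitsRep K E) = 0 := by
      unfold cycSum
      rw [hn1, Finset.sum_range_one]
      have := hf 0 0 hn hn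
      rw [if_pos (by omega), pow_zero] at this
      rw [pow_zero, hφ1]
      exact this
    rw [hsum, map_zero, hn1]
    simp only [Int.cast_zero, Nat.cast_one, div_one, inv_one]
    rw [AddCircle.coe_zero]
    exact (AddCircle.coe_period (1 : ℚ)).symm

end UnrPack

end Fermat.Agent.S55.L.UnrInv

end
-- ===== PACK-END S55/L/UnrInv/PackInv.lean

-- ===== PACK-BEGIN S55/L/Inv481/Emb.lean
section


/-!
# S55 / layer L / leaf L-C2 (helper481): pairs attached to embeddings

For a `K`-algebra homomorphism `j : A →ₐ[K] B` of fields with `A/K` normal we get the pair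
`embPair j : (K, A) → (K, B)` (restriction of automorphisms along `j`).  Its pull-back on `H²`
is the inflation along `j`; it is injective when `B/K` is finite Galois.
-/

set_option autoImplicit false
set_option linter.style.haveILetI false

namespace Fermat.Agent.S55.L.Inv481

open groupCohomology

section PullLemmas

variable {K L K' L' K'' L'' : Type} [Field K] [Field L] [Algebra K L] [Field K'] [Field L']
  [Algebra K' L'] [Field K''] [Field L''] [Algebra K'' L'']

theorem GalPair.pull_eq_of_ι_eq {P Q : GalPair K L K' L'} (h : P.ι = Q.ι)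
    (x : H2 (unitsRep K L)) : P.pull x = Q.pull x := by
  rw [GalPair.pull_congr h]

/-- a composite of pull-backs is the pull-back along any pair with the composite ring
homomorphism -/
theorem GalPair.pull_pull (P : GalPair K L K' L') (Q : GalPair K' L' K'' L'')
    (R : GalPair K L K'' L'') (h : R.ι = Q.ι.comp P.ι) (x : H2 (unitsRep K L)) :
    Q.pull (P.pull x) = R.pull x := by
  rw [← GalPair.pull_comp]
  exact GalPair.pull_eq_of_ι_eq h.symm x

end PullLemmas

section Emb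

variable {K A B C : Type} [Field K] [Field A] [Field B] [Field C] [Algebra K A] [Algebra K B]
  [Algebra K C]

/-- The pair `(K, A) → (K, B)` of an embedding `j : A →ₐ[K] B`, `A/K` normal. -/
noncomputable def embPair [Normal K A] (j : A →ₐ[K] B) : GalPair K A K B :=
  letI : Algebra A B := j.toRingHom.toAlgebra
  haveI : IsScalarTower K A B := IsScalarTower.of_algebraMap_eq (fun x => (j.commutes x).symm)
  inflPair K A B

@[simp] theorem embPair_ι [Normal K A] (j : A →ₐ[K] B) : (embPair j).ι = (j : A →+* B) := rfl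

theorem embPair_comp [Normal K A] [Normal K B] (j : A →ₐ[K] B) (k : B →ₐ[K] C) :
    embPair (k.comp j) = (embPair j).comp (embPair k) :=
  GalPair.ext' rfl

theorem embPair_pull_comp [Normal K A] [Normal K B] (j : A →ₐ[K] B) (k : B →ₐ[K] C)
    (x : H2 (unitsRep K A)) :
    (embPair (k.comp j)).pull x = (embPair k).pull ((embPair j).pull x) := by
  rw [embPair_comp, GalPair.pull_comp]

theorem embPair_pull_injective [Normal K A] [FiniteDimensional K B] [IsGalois K B]
    (j : A →ₐ[K] B) : Function.Injective (embPair j).pull := by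
  letI : Algebra A B := j.toRingHom.toAlgebra
  haveI : IsScalarTower K A B := IsScalarTower.of_algebraMap_eq (fun x => (j.commutes x).symm)
  exact inflPair_pull_injective K A B

theorem inflPair_eq_embPair [Algebra A B] [IsScalarTower K A B] [Normal K A] :
    inflPair K A B = embPair (IsScalarTower.toAlgHom K A B) :=
  GalPair.ext' rfl

theorem embPair_id_pull [Normal K A] (x : H2 (unitsRep K A)) :
    (embPair (AlgHom.id K A)).pull x = x :=
  GalPair.pull_eq_self_of_ι_eq_id _ rfl x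

end Emb

section BaseIso

variable {K K' M : Type} [Field K] [Field K'] [Field M] [Algebra K M] [Algebra K' M]

/-- Change of the base field along an isomorphism `K ≃ K'` compatible with the algebra maps:
the Galois groups are the same. -/
noncomputable def autCongrBase (e₀ : K ≃+* K')
    (h : ∀ a, algebraMap K' M (e₀ a) = algebraMap K M a) : (M ≃ₐ[K] M) ≃* (M ≃ₐ[K'] M) where
  toFun g :=
    { g.toRingEquiv with
      commutes' := fun a' => by
        obtain ⟨a, rfl⟩ := e₀.surjective a'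
        rw [h]
        exact g.commutes a }
  invFun g :=
    { g.toRingEquiv with
      commutes' := fun a => by
        rw [← h]
        exact g.commutes (e₀ a) }
  left_inv g := by ext x; rfl
  right_inv g := by ext x; rfl
  map_mul' g g' := by ext x; rfl

@[simp] theorem autCongrBase_apply (e₀ : K ≃+* K')
    (h : ∀ a, algebraMap K' M (e₀ a) = algebraMap K M a) (g : M ≃ₐ[K] M) (x : M) :
    autCongrBase e₀ h g x = g x := rfl

/-- The pair `(K, M) → (K', M)` of a change of base field along an isomorphism. -/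
noncomputable def basePair (e₀ : K ≃+* K')
    (h : ∀ a, algebraMap K' M (e₀ a) = algebraMap K M a) : GalPair K M K' M :=
  transPair (RingEquiv.refl M) (autCongrBase e₀ h) (fun _ _ => rfl)

@[simp] theorem basePair_ι (e₀ : K ≃+* K')
    (h : ∀ a, algebraMap K' M (e₀ a) = algebraMap K M a) :
    (basePair e₀ h).ι = RingHom.id M := rfl

end BaseIso

end Fermat.Agent.S55.L.Inv481

end
-- ===== PACK-END S55/L/Inv481/Emb.lean

-- ===== PACK-BEGIN S55/L/Unr534/Closed.lean
section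




/-!
# S55, layer L (helper534): `UnrNestSpec` and `UnrBCSpec` closed

The two inputs of leaf L-C2 (`Inv481.inv_of`) about unramified subextensions, in EXACTLY the
shape of `L/Inv481/Inputs.lean`, unconditionally.
-/

set_option autoImplicit false

namespace Fermat.Agent.S55.L.Unr534

/-- **UnrNestSpec**: unramified subextensions of a finite extension are nested by degree. -/
theorem unrNestSpec534 : Inv481.UnrNestSpec := unrNest534 ringOfIntegersUnique775

/-- **UnrBCSpec**: the compositum of an unramified extension with a finite extension is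
unramified over the latter. -/
theorem unrBCSpec534 : Inv481.UnrBCSpec := unrBC534 ringOfIntegersUnique775

end Fermat.Agent.S55.L.Unr534

end
-- ===== PACK-END S55/L/Unr534/Closed.lean

-- ===== PACK-BEGIN S55/E1/Main3.lean
section
/-
S55 engine E1 — top level, version 3 (CANONICAL, FINAL): the engine consumes
`Tow.GlobalSpecFin` (= `GlobalSpecMu` + GD5b, see Spec/Datum3.lean).
Chief architect: helper55.  NO sorry.

`EngineSpecFin` = the TARGET of layer D (engine E1, block LIM).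
`S55_of_specsFin : EngineSpecFin → InputsSpecFin → <frozen statement S55>`.
(`EngineSpecMu → EngineSpecFin`, so a proof of the older target is still accepted.)
-/



set_option autoImplicit false

open CategoryTheory Module groupCohomology ExtCitation

namespace Fermat.Agent.S55.E1

open Fermat.Agent.S55.Tow

/-- **TARGET OF LAYER D (engine E1), final form.** -/
def EngineSpecFin : Prop :=
  ∀ (p : ℕ) [Fact p.Prime], p ≠ 2 → ∀ (S : Finset Nat.Primes), pPrime p ∈ S →
    TateNakayamaAtSpec → GlobalSpecFin S p → LocalSpec p → SUnitsDivSpec S p → H1FiniteSpec S p →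
    ∀ (M : Rep.{0, 0, 0} (ZMod p) (AlgebraicClosure ℚ ≃ₐ[ℚ] AlgebraicClosure ℚ))
      [FiniteDimensional (ZMod p) M], IsAdmissible S M → DimEq S M

/-- The arithmetic inputs (for all odd `p ∈ S`), final form. -/
def InputsSpecFin : Prop :=
  TateNakayamaAtSpec ∧
  ∀ (p : ℕ) [Fact p.Prime], p ≠ 2 → ∀ (S : Finset Nat.Primes), pPrime p ∈ S →
    GlobalSpecFin S p ∧ LocalSpec p ∧ SUnitsDivSpec S p ∧ H1FiniteSpec S p

theorem EngineSpecMu.engineSpecFin (h : EngineSpecMu) : EngineSpecFin :=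
  fun p _ hp2 S hpS hT hG hL hU hF M _ hM =>
    h p hp2 S hpS hT hG.globalSpecMu hL hU hF M hM

/-- S55 from the engine and the arithmetic inputs (final form). -/
theorem S55_of_specsFin (hE : EngineSpecFin) (hI : InputsSpecFin)
    {p : ℕ} [Fact p.Prime] (hp2 : p ≠ 2) (S : Finset Nat.Primes) (hpS : pPrime p ∈ S)
    (M : Rep (ZMod p) (AlgebraicClosure ℚ ≃ₐ[ℚ] AlgebraicClosure ℚ))
    [FiniteDimensional (ZMod p) M]
    (hsm : ∀ m : M, ∃ F : IntermediateField ℚ (AlgebraicClosure ℚ), FiniteDimensional ℚ F ∧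
      ∀ s ∈ F.fixingSubgroup, M.ρ s m = m)
    (hMur : ∀ q : Nat.Primes, q ∉ S → ∀ A : ValuationSubring (AlgebraicClosure ℚ),
      A.LiesOverPrime (q : ℕ) → ∀ g ∈ A.inertiaSubgroupIn ℚ, M.ρ g = 1) :
    ∃ B : sha₁ S (M.dualTwist (cycloChar p)) →ₗ[ZMod p] sha₂ S M →ₗ[ZMod p] ZMod p,
      (∀ y, (∀ x, B y x = 0) → y = 0) ∧ (∀ x, (∀ y, B y x = 0) → x = 0) := by
  obtain ⟨hT, hrest⟩ := hI
  obtain ⟨hG, hL, hU, hF⟩ := hrest p hp2 S hpS
  obtain ⟨h1, h2, h3⟩ := hE p hp2 S hpS hT hG hL hU hF M ⟨hsm, hMur⟩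
  exact Fermat.Agent.S55.Bridge.pairing_of_finrank_eq S M h1 h2 h3

end Fermat.Agent.S55.E1

end
-- ===== PACK-END S55/E1/Main3.lean

-- ===== PACK-BEGIN S55/T/InfResTorsH244.lean
section





/-!
# Inflation–restriction in degree 2 up to torsion, and its `p`-local form  (helper244)

`A : Rep k G`, `S ⊴ G`, `m : ℕ` with `m • H¹(S, A) = 0`.  Then (vocabulary of `T/Spec.lean`)

* `nsmul_eq_zero_of_infMap_eq_zero` : `inf y = 0 → m • y = 0`   (`y ∈ H²(G ⧸ S, A^S)`),
* `exists_infMap_eq_nsmul_of_resMap_eq_zero` : `res_S x = 0 → ∃ y, inf y = m • x`.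

`p`-local consequences (`p.Coprime m`): inflation is injective on `p`-primary elements, and a
`p`-primary class with trivial restriction to `S` is inflated.

This is the form of inflation–restriction needed for class modules "at `p`": there `H¹(P, C) = 0`
is only known for `p`-subgroups `P`, so for a normal subgroup `S` which is not a `p`-group one
only knows `[S : P] • H¹(S, C) = 0` (`P` a Sylow `p`-subgroup of `S`, `ResIndexSpec`);
see `hOneKilled_of_sylow`.
-/

set_option autoImplicit false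
set_option linter.unusedSectionVars false

namespace Fermat.Agent.S55.T.H244

open CategoryTheory groupCohomology Rep Fermat.Agent.S55.H954

variable {k G : Type} [CommRing k] [Group G]
variable (A : Rep.{0} k G) (S : Subgroup G) [S.Normal]

variable {A S} in
lemma hOneKilledBy_of_H1 {m : ℕ} (h : ∀ x : groupCohomology (resSub A S) 1, m • x = 0) :
    HOneKilledBy m A.ρ S := by
  intro w hw
  have hmem : w ∈ cocycles₁ (res S.subtype A) :=
    (mem_cocycles₁_iff (A := res S.subtype A) w).2 (fun s t => hw s t)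
  have h0 := h (H1π _ ⟨w, hmem⟩)
  rw [← map_nsmul, H1π_eq_zero_iff] at h0
  obtain ⟨a, ha⟩ := h0
  refine ⟨a, fun s => ?_⟩
  have := congr_fun ha s
  rw [d₀₁_hom_apply] at this
  exact this.symm

set_option backward.defeqAttrib.useBackward true in
set_option backward.isDefEq.respectTransparency false in
/-- If `m` kills `H¹(S, A)` and `res_S x = 0`, then `m • x` is inflated from `G ⧸ S`. -/
theorem exists_infMap_eq_nsmul_of_resMap_eq_zero {m : ℕ}
    (h : ∀ x : groupCohomology (resSub A S) 1, m • x = 0)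
    (x : groupCohomology A 2) (hx : (resMap A S 2).hom x = 0) :
    ∃ y : groupCohomology (A.quotientToInvariants S) 2, (infMap A S 2).hom y = m • x := by
  induction x using H2_induction_on with | @h x =>
  have hx' : H2π (res S.subtype A) (mapCocycles₂ S.subtype (𝟙 (res S.subtype A)) x) = 0 := by
    rw [← H2π_comp_map_apply S.subtype]; exact hx
  obtain ⟨(φ : S → A), hφ⟩ := (H2π_eq_zero_iff _).1 hx'
  have hcoc : IsTwoCocycle A.ρ x := (mem_cocycles₂_iff _).1 x.2
  have hφ' : ∀ s t : S, x ((s : G), (t : G)) = A.ρ s (φ t) - φ (s * t) + φ s := by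
    intro s t
    have := congr_fun hφ (s, t)
    rw [d₁₂_hom_apply] at this
    exact this.symm
  obtain ⟨c, f', hff', hf'coc, i2, i1, i3⟩ :=
    exists_inflated_of_res_coboundary_nsmul A.ρ S (hOneKilledBy_of_H1 h) hcoc φ hφ'
  have hwd : ∀ g₁ h₁ g₂ h₂ : G, QuotientGroup.leftRel S g₁ g₂ → QuotientGroup.leftRel S h₁ h₂ →
      f' (g₁, h₁) = f' (g₂, h₂) := by
    intro g₁ h₁ g₂ h₂ hg hh
    rw [QuotientGroup.leftRel_apply] at hg hh
    have e1 : g₂ = g₁ * (g₁⁻¹ * g₂) := by group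
    have e2 : h₂ = h₁ * (h₁⁻¹ * h₂) := by group
    rw [e1, e2, i1 _ hg, i2 _ hh]
  have hinvar : ∀ g h : G, f' (g, h) ∈ Representation.invariants (A.ρ.comp S.subtype) := by
    intro g h s
    exact i3 s s.2 g h
  let fbar : (G ⧸ S) × (G ⧸ S) → (A.quotientToInvariants S) := fun p =>
    Quotient.liftOn₂' p.1 p.2 (fun g h => (⟨f' (g, h), hinvar g h⟩ : (A.quotientToInvariants S)))
      (fun g₁ h₁ g₂ h₂ hg hh => Subtype.ext (hwd g₁ h₁ g₂ h₂ hg hh))
  have hfbar : fbar ∈ cocycles₂ (A.quotientToInvariants S) := by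
    rw [mem_cocycles₂_iff]
    intro g h j
    induction g using QuotientGroup.induction_on with | @H g =>
    induction h using QuotientGroup.induction_on with | @H h =>
    induction j using QuotientGroup.induction_on with | @H j =>
    apply Subtype.ext
    exact hf'coc g h j
  refine ⟨H2π _ ⟨fbar, hfbar⟩, ?_⟩
  rw [← map_nsmul]
  erw [H2π_comp_map_apply (QuotientGroup.mk' S)]
  rw [H2π_eq_iff]
  refine ⟨-c, ?_⟩
  funext ⟨g, j⟩
  have := congr_fun hff' (g, j)
  rw [d₁₂_hom_apply]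
  change _ = f' (g, j) - (m • x) (g, j)
  have hmx : (m • x) (g, j) = (m • (x : G × G → A)) (g, j) := rfl
  rw [hmx, this]
  simp only [Pi.add_apply, dOne_apply, Pi.neg_apply, map_neg]
  abel

set_option backward.defeqAttrib.useBackward true in
set_option backward.isDefEq.respectTransparency false in
/-- If `m` kills `H¹(S, A)` and `inf y = 0`, then `m • y = 0`. -/
theorem nsmul_eq_zero_of_infMap_eq_zero {m : ℕ}
    (h : ∀ x : groupCohomology (resSub A S) 1, m • x = 0)
    (y : groupCohomology (A.quotientToInvariants S) 2) (hy : (infMap A S 2).hom y = 0) :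
    m • y = 0 := by
  induction y using H2_induction_on with | @h x =>
  have hx : H2π A (mapCocycles₂ (QuotientGroup.mk' S)
      (ofHom <| A.ρ.quotientToInvariants_lift S) x) = 0 := by
    rw [← H2π_comp_map_apply (QuotientGroup.mk' S)]; exact hy
  obtain ⟨(c : G → A), hc⟩ := (H2π_eq_zero_iff _).1 hx
  set f' : G × G → A := fun p => ((x ((p.1 : G ⧸ S), (p.2 : G ⧸ S)) : A.quotientToInvariants S) : A)
    with hf'
  have hc' : f' = dOne A.ρ c := by
    funext ⟨g, j⟩
    have := congr_fun hc (g, j)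
    rw [d₁₂_hom_apply] at this
    rw [dOne_apply, this]
    rfl
  have hq : ∀ s ∈ S, ∀ g : G, ((g * s : G) : G ⧸ S) = (g : G ⧸ S) := by
    intro s hs g
    rw [QuotientGroup.mk_mul, (QuotientGroup.eq_one_iff s).2 hs, mul_one]
  obtain ⟨c', hd, hright, hval⟩ := exists_invariant_cochain_of_inf_coboundary_nsmul A.ρ S
    (hOneKilledBy_of_H1 h) (f' := f')
    (fun s hs g j => by simp only [hf', hq s hs])
    (fun s hs g j => by simp only [hf', hq s hs])
    (fun s hs g j => (x ((g : G ⧸ S), (j : G ⧸ S))).2 ⟨s, hs⟩) c hc'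
  rw [← map_nsmul, H2π_eq_zero_iff]
  refine ⟨fun q => Quotient.liftOn' q
    (fun g => (⟨c' g, fun s => hval s s.2 g⟩ : (A.quotientToInvariants S)))
    (fun g₁ g₂ hg => Subtype.ext ?_), ?_⟩
  · rw [QuotientGroup.leftRel_apply] at hg
    have e1 : g₂ = g₁ * (g₁⁻¹ * g₂) := by group
    change c' g₁ = c' g₂
    rw [e1, hright _ hg]
  · funext ⟨g, j⟩
    induction g using QuotientGroup.induction_on with | @H g =>
    induction j using QuotientGroup.induction_on with | @H j =>
    apply Subtype.ext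
    have := congr_fun hd (g, j)
    rw [d₁₂_hom_apply]
    exact this.symm

end Fermat.Agent.S55.T.H244

namespace Fermat.Agent.S55.T.H244

open CategoryTheory groupCohomology Rep

section PLocal

variable {k G : Type} [CommRing k] [Group G]
variable (A : Rep.{0} k G) (S : Subgroup G) [S.Normal]

/-- Elementary: an element of an additive group killed by two coprime integers is zero. -/
lemma eq_zero_of_coprime_nsmul {M : Type*} [AddCommGroup M] {a b : ℕ} (hab : a.Coprime b)
    {x : M} (ha : a • x = 0) (hb : b • x = 0) : x = 0 := by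
  have h1 : addOrderOf x ∣ a := addOrderOf_dvd_of_nsmul_eq_zero ha
  have h2 : addOrderOf x ∣ b := addOrderOf_dvd_of_nsmul_eq_zero hb
  have h3 : addOrderOf x ∣ 1 := by
    have := Nat.dvd_gcd h1 h2
    rwa [hab] at this
  have h4 : addOrderOf x = 1 := Nat.dvd_one.1 h3
  exact AddMonoid.addOrderOf_eq_one_iff.1 h4

/-- Elementary: if `a • x = 0` and `a`, `m` are coprime, then `x` is a multiple of `m • x`. -/
lemma exists_nsmul_nsmul_eq_of_coprime {M : Type*} [AddCommGroup M] {a m : ℕ}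
    (ham : a.Coprime m) (ha0 : 0 < a) {x : M} (ha : a • x = 0) : ∃ u : ℕ, u • m • x = x := by
  rcases Nat.lt_or_ge 1 a with h1 | h1
  · -- `m u ≡ 1 mod a`
    obtain ⟨u, -, hu⟩ := Nat.exists_mul_mod_eq_one_of_coprime ham.symm h1
    refine ⟨u, ?_⟩
    have hdm : m * u = a * (m * u / a) + 1 := by
      have := Nat.div_add_mod (m * u) a
      rw [hu] at this
      exact this.symm
    rw [← mul_nsmul', mul_comm u m, hdm, add_nsmul, one_nsmul, mul_nsmul, ha,
      smul_zero, zero_add]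
  · have h1' : a = 1 := le_antisymm h1 ha0
    subst h1'
    have hx0 : x = 0 := by simpa using ha
    exact ⟨0, by rw [hx0, smul_zero, smul_zero]⟩

/-- **`p`-local inflation–restriction, injectivity.**  If `m` kills `H¹(S, A)`, `a` is coprime
to `m` (e.g. `a = p ^ n`, `p ∤ m`) and `a • y = 0`, then `inf y = 0 → y = 0`. -/
theorem eq_zero_of_infMap_eq_zero_of_coprime {m a : ℕ} (ham : a.Coprime m)
    (h : ∀ x : groupCohomology (resSub A S) 1, m • x = 0)
    (y : groupCohomology (A.quotientToInvariants S) 2) (hay : a • y = 0)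
    (hy : (infMap A S 2).hom y = 0) : y = 0 :=
  eq_zero_of_coprime_nsmul ham hay (nsmul_eq_zero_of_infMap_eq_zero A S h y hy)

/-- **`p`-local inflation–restriction, exactness.**  If `m` kills `H¹(S, A)`, `a > 0` is coprime
to `m`, `a • x = 0` and `res_S x = 0`, then `x` is inflated from `G ⧸ S`. -/
theorem exists_infMap_eq_of_resMap_eq_zero_of_coprime {m a : ℕ} (ham : a.Coprime m)
    (ha0 : 0 < a) (h : ∀ x : groupCohomology (resSub A S) 1, m • x = 0)
    (x : groupCohomology A 2) (hax : a • x = 0) (hx : (resMap A S 2).hom x = 0) :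
    ∃ y : groupCohomology (A.quotientToInvariants S) 2, (infMap A S 2).hom y = x := by
  obtain ⟨y₀, hy₀⟩ := exists_infMap_eq_nsmul_of_resMap_eq_zero A S h x hx
  obtain ⟨u, hu⟩ := exists_nsmul_nsmul_eq_of_coprime ham ha0 hax
  exact ⟨u • y₀, by rw [map_nsmul, hy₀, hu]⟩

/-! ### Where the hypothesis `m • H¹(S, A) = 0` comes from -/

/-- If `H¹(P, A) = 0` for a subgroup `P ≤ S` (e.g. a Sylow `p`-subgroup and `A` a class module
"at `p`"), then `[S : P]` kills `H¹(S, A)`.  (`ResIndexSpec` for the group `S`.) -/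
theorem hOne_nsmul_eq_zero_of_subgroup (S : Subgroup G) [Finite S] (P : Subgroup S)
    (hP : ∀ z : groupCohomology (resSub (resSub A S) P) 1, z = 0)
    (x : groupCohomology (resSub A S) 1) : P.index • x = 0 :=
  H572.resIndex k S (resSub A S) P 1 Nat.one_pos x (hP _)

/-- **`p`-local inflation–restriction in degree 2**, Sylow form.  `S ⊴ G` finite, `P ≤ S` with
`H¹(P, A) = 0`, `a` coprime to `[S : P]`:
* `inf : H²(G ⧸ S, A^S) → H²(G, A)` is injective on elements killed by `a`;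
* an element of `H²(G, A)` killed by `a` (`a > 0`) with zero restriction to `S` is inflated. -/
theorem infRes2_of_subgroup [Finite S] (P : Subgroup S)
    (hP : ∀ z : groupCohomology (resSub (resSub A S) P) 1, z = 0)
    {a : ℕ} (ha : a.Coprime P.index) :
    (∀ y : groupCohomology (A.quotientToInvariants S) 2, a • y = 0 →
      (infMap A S 2).hom y = 0 → y = 0) ∧
    (0 < a → ∀ x : groupCohomology A 2, a • x = 0 → (resMap A S 2).hom x = 0 →
      ∃ y : groupCohomology (A.quotientToInvariants S) 2, (infMap A S 2).hom y = x) :=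
  ⟨fun y hay hy => eq_zero_of_infMap_eq_zero_of_coprime A S ha
      (hOne_nsmul_eq_zero_of_subgroup A S P hP) y hay hy,
   fun ha0 x hax hx => exists_infMap_eq_of_resMap_eq_zero_of_coprime A S ha ha0
      (hOne_nsmul_eq_zero_of_subgroup A S P hP) x hax hx⟩

/-- In the exactness statement the preimage may be chosen killed by `a` as well (so the
`a`-torsion of `H²(G ⧸ S, A^S)` maps ONTO the `a`-torsion of `ker res`), provided `a` is coprime
to `m`. -/
theorem exists_infMap_eq_of_resMap_eq_zero_of_coprime' {m a : ℕ} (ham : a.Coprime m)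
    (ha0 : 0 < a) (h : ∀ x : groupCohomology (resSub A S) 1, m • x = 0)
    (x : groupCohomology A 2) (hax : a • x = 0) (hx : (resMap A S 2).hom x = 0) :
    ∃ y : groupCohomology (A.quotientToInvariants S) 2,
      a • y = 0 ∧ (infMap A S 2).hom y = x := by
  obtain ⟨y₀, hy₀⟩ := exists_infMap_eq_nsmul_of_resMap_eq_zero A S h x hx
  obtain ⟨u, hu⟩ := exists_nsmul_nsmul_eq_of_coprime ham ha0 hax
  -- `y₁ = u • y₀` maps to `x`; `a • y₁` maps to `0`, so `m • a • y₁ = 0`; correct `y₁` by a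
  -- multiple: `y = (v * m) • y₁` with `v m ≡ 1 mod a`.
  have hy₁ : (infMap A S 2).hom (u • y₀) = x := by rw [map_nsmul, hy₀, hu]
  have hkill : m • a • (u • y₀) = 0 :=
    nsmul_eq_zero_of_infMap_eq_zero A S h _ (by rw [map_nsmul, hy₁, hax])
  obtain ⟨v, hv⟩ := exists_nsmul_nsmul_eq_of_coprime ham ha0 hax
  refine ⟨v • m • (u • y₀), ?_, ?_⟩
  · rw [smul_comm a v, smul_comm a m, hkill, smul_zero]
  · rw [map_nsmul, map_nsmul, hy₁, hv]

end PLocal

end Fermat.Agent.S55.T.H244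

end
-- ===== PACK-END S55/T/InfResTorsH244.lean

-- ===== PACK-BEGIN S55/G/Exist121/Core.lean
section




/-!
# S55, layer G, block EXIST: the existence theorem mod `p` from its leaves

Author: helper121.

* `relIndex_selmer_le` : Kummer bound `[V_S(K) : pKˣ] ≤ [G^ab : pG^ab]` when every element of
  `V_S(K)` is a `p`-th power in `L` (`L/K` Galois with group `G`, `μ_p ⊂ K`).
* `count_of` : `PowIndexSpec → ShaBoundSpec → CountSpec`.
* `existCore_of` : `RecipSpec → DescentTopSpec → CountSpec → ExistCoreSpec`.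
-/

set_option autoImplicit false

open scoped NumberField
open IsDedekindDomain

noncomputable section

namespace Fermat.Agent.S55.G.Exist121

open Fermat.Agent.S55.G

/-! ## 1. The Kummer bound -/

section Kummer

variable {G K L : Type} [Group G] [Field K] [Field L] [Algebra K L] [MulSemiringAction G L]
  [IsGaloisGroup G K L] {p : ℕ} [NeZero p]

lemma smul_algebraMap_eq (g : G) (k : K) : g • algebraMap K L k = algebraMap K L k := by
  have := IsGaloisGroup.commutes (G := G) (A := K) (B := L)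
  exact smul_algebraMap g k

/-- `p`-th roots of unity of `L` are fixed by `G` when `μ_p ⊂ K`. -/
lemma smul_eq_of_pow_eq_one {ζ : K} (hζ : IsPrimitiveRoot ζ p) (g : G) {ξ : L} (hξ : ξ ^ p = 1) :
    g • ξ = ξ := by
  have hζL : IsPrimitiveRoot (algebraMap K L ζ) p := hζ.map_of_injective (algebraMap K L).injective
  obtain ⟨i, -, rfl⟩ := hζL.eq_pow_of_pow_eq_one hξ
  rw [← map_pow]
  exact smul_algebraMap_eq g _

/-- The Kummer character `g ↦ g(y)/y` attached to `y ∈ L` with `y^p ∈ K`. -/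
def kummerChar {ζ : K} (hζ : IsPrimitiveRoot ζ p) (y : L) (hy : y ≠ 0) (x : K)
    (hyx : y ^ p = algebraMap K L x) : G →* Lˣ where
  toFun g := Units.mk0 (g • y / y) (div_ne_zero ((smul_ne_zero_iff_ne g).2 hy) hy)
  map_one' := by
    apply Units.ext
    simp [div_self hy]
  map_mul' g h := by
    apply Units.ext
    have h1 : (h • y / y) ^ p = 1 := by
      rw [div_pow, ← smul_pow', hyx, smul_algebraMap_eq, div_self]
      rw [← hyx]
      exact pow_ne_zero _ hy
    have h2 : g • (h • y / y) = h • y / y := smul_eq_of_pow_eq_one hζ g h1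
    have h3 : g • (h • y) = (h • y / y) * (g • y) := by
      have : h • y = (h • y / y) * y := by field_simp
      conv_lhs => rw [this, smul_mul', h2]
    show (g * h) • y / y = (g • y / y) * (h • y / y)
    rw [mul_smul, h3]
    field_simp

lemma kummerChar_apply {ζ : K} (hζ : IsPrimitiveRoot ζ p) (y : L) (hy : y ≠ 0) (x : K)
    (hyx : y ^ p = algebraMap K L x) (g : G) :
    ((kummerChar hζ y hy x hyx g : Lˣ) : L) = g • y / y := rfl

lemma kummerChar_pow {ζ : K} (hζ : IsPrimitiveRoot ζ p) (y : L) (hy : y ≠ 0) (x : K)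
    (hyx : y ^ p = algebraMap K L x) (g : G) :
    (kummerChar hζ y hy x hyx g) ^ p = 1 := by
  apply Units.ext
  rw [Units.val_pow_eq_pow_val, kummerChar_apply, Units.val_one, div_pow, ← smul_pow', hyx,
    smul_algebraMap_eq, div_self]
  rw [← hyx]
  exact pow_ne_zero _ hy

end Kummer

section KummerBound

variable (G K L : Type) [Group G] [Finite G] [Field K]
  [Field L] [Algebra K L] [MulSemiringAction G L] [IsGaloisGroup G K L]
  (p : ℕ) [NeZero p]

/-- **Kummer bound.**  If `μ_p ⊂ K` and every element of a subgroup `V ⊇ pKˣ` of `Kˣ` is a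
`p`-th power in `L`, then `[V : pKˣ] ≤ [G^ab : p G^ab]`. -/
theorem relIndex_le_of_sat (V : AddSubgroup (Additive Kˣ)) {ζ : K} (hζ : IsPrimitiveRoot ζ p)
    (hsat : ∀ x : Additive Kˣ, x ∈ V →
      ∃ y : L, y ^ p = algebraMap K L ((x.toMul : Kˣ) : K)) :
    (pMul (Additive Kˣ) p).relIndex V ≤ (pMul (Additive (Abelianization G)) p).index := by
  classical
  have hζL : IsPrimitiveRoot (algebraMap K L ζ) p := hζ.map_of_injective (algebraMap K L).injective
  have : HasEnoughRootsOfUnity L p := ⟨⟨_, hζL⟩, inferInstance⟩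
  -- chosen roots
  let y : V → L := fun v => (hsat v.1 v.2).choose
  have hy : ∀ v : V, y v ^ p = algebraMap K L ((v.1.toMul : Kˣ) : K) :=
    fun v => (hsat v.1 v.2).choose_spec
  have hy0 : ∀ v : V, y v ≠ 0 := by
    intro v h0
    have h1 := hy v
    rw [h0, zero_pow (NeZero.ne p)] at h1
    have h2 : ((v.1.toMul : Kˣ) : K) = 0 := (algebraMap K L).injective (by rw [← h1, map_zero])
    exact (Units.ne_zero _) h2
  let κ : V → (G →* Lˣ) := fun v => kummerChar hζ (y v) (hy0 v) _ (hy v)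
  refine relIndex_le_of_kummer (M := L) V (pMul (Additive Kˣ) p) p κ
    (fun v g => kummerChar_pow hζ _ _ _ _ g) ?_
  intro v v' h
  -- `y v / y v'` is fixed by `G`
  have h1 : ∀ g : G, g • (y v / y v') = y v / y v' := by
    intro g
    have h2 := congrArg (fun φ : G →* Lˣ => ((φ g : Lˣ) : L)) h
    simp only [κ, kummerChar_apply] at h2
    rw [smul_div₀']
    have hgv : g • y v ≠ 0 := (smul_ne_zero_iff_ne g).2 (hy0 v)
    have hgv' : g • y v' ≠ 0 := (smul_ne_zero_iff_ne g).2 (hy0 v')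
    have := hy0 v
    have := hy0 v'
    field_simp at h2 ⊢
    rw [h2]
  obtain ⟨t, ht⟩ := (IsGaloisGroup.isInvariant (G := G) (A := K) (B := L)).isInvariant _ h1
  have ht0 : t ≠ 0 := by
    rintro rfl
    rw [map_zero] at ht
    exact (div_ne_zero (hy0 v) (hy0 v')) ht.symm
  have h3 : t ^ p * ((v'.1.toMul : Kˣ) : K) = ((v.1.toMul : Kˣ) : K) := by
    apply (algebraMap K L).injective
    rw [map_mul, map_pow, ht, ← hy v, ← hy v', div_pow, div_mul_cancel₀]
    exact pow_ne_zero _ (hy0 v')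
  refine ⟨Additive.ofMul (Units.mk0 t ht0), ?_⟩
  apply Additive.toMul.injective
  apply Units.ext
  show ((Units.mk0 t ht0 ^ p : Kˣ) : K) = (((v.1.toMul : Kˣ) / (v'.1.toMul : Kˣ) : Kˣ) : K)
  rw [Units.val_pow_eq_pow_val, Units.val_mk0, Units.val_div_eq_div_val, ← h3,
    mul_div_assoc, div_self (Units.ne_zero _), mul_one]

end KummerBound

/-! ## 2. Counting -/

section Count

variable (S : Finset Nat.Primes) (K : Type) [Field K] [NumberField K] (p : ℕ)

/-- `[C_S(K) : p C_S(K)]` is the index of `Kˣ + p (J_S × Div^S)` in `J_S × Div^S`. -/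
lemma index_pMul_CS :
    (pMul (CS S K) p).index = (classP (unitsDiag S K) (ordHom S K) p).index := by
  have hsurj : Function.Surjective ((principal S K).mkQ.toAddMonoidHom) :=
    Submodule.mkQ_surjective _
  rw [index_pMul_of_surjective _ hsurj, classP, sup_comm]
  congr 2
  ext y
  rw [AddMonoidHom.mem_ker]
  show (principal S K).mkQ y = 0 ↔ _
  rw [Submodule.mkQ_apply, Submodule.Quotient.mk_eq_zero]
  rfl

/-- `[E : pE]` in the two vocabularies. -/
lemma relIndex_pKer_eq :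
    (pKer (ordHom S K) p).relIndex (ordHom S K).ker =
      (nsmulAddMonoidHom (α := sUnit S K) p).range.index := by
  rw [AddSubgroup.relIndex]
  have h : (pKer (ordHom S K) p).addSubgroupOf (ordHom S K).ker =
      (nsmulAddMonoidHom (α := (ordHom S K).ker) p).range := by
    ext x
    rw [AddSubgroup.mem_addSubgroupOf]
    constructor
    · rintro ⟨z, hz, hzx⟩
      exact ⟨⟨z, hz⟩, Subtype.ext hzx⟩
    · rintro ⟨z, rfl⟩
      exact ⟨z.1, z.2, rfl⟩
  rw [h]
  rfl

lemma relIndex_pKer_ne_zero (hp : p ≠ 0) {ζ : K} (hζ : IsPrimitiveRoot ζ p) :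
    (pKer (ordHom S K) p).relIndex (ordHom S K).ker ≠ 0 := by
  rw [relIndex_pKer_eq, SesH604.index_range_nsmul_sUnit_of_primitiveRoot S K p hp hζ]
  exact pow_ne_zero _ hp

omit [NumberField K] in
lemma div_torsionFree (hp : p ≠ 0) (i : PrimeOut S K →₀ ℤ) (h : p • i = 0) : i = 0 := by
  ext w
  have h1 := DFunLike.congr_fun h w
  simp only [Finsupp.smul_apply, Finsupp.zero_apply, nsmul_eq_mul] at h1
  rcases mul_eq_zero.1 h1 with h2 | h2
  · exact absurd (by exact_mod_cast h2) hp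
  · simpa using h2

/-- **EX-COUNT from EX-POW and EX-SHA.** -/
theorem count_of (hPow : PowIndexSpec) (hSha : ShaBoundSpec) : CountSpec := by
  intro p hp hp2 S K _ _ hpS hζ
  obtain ⟨ζ, hζ'⟩ := hζ
  have hp0 : p ≠ 0 := hp.out.ne_zero
  have hI := div_torsionFree S K p hp0
  have hfin := ClsH604.ordHom_range_index_ne_zero S K
  have hE := relIndex_pKer_ne_zero S K p hp0 hζ'
  have hJ := hPow p hp2 S K hpS ⟨ζ, hζ'⟩
  have hS := hSha p hp2 S K hpS ⟨ζ, hζ'⟩
  rw [index_pMul_CS]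
  exact ⟨index_classP_ne_zero _ _ p hfin hE hJ,
    index_classP_le _ _ p hI hfin hE hJ hS⟩

end Count

/-! ## 3. The existence theorem mod `p` -/

section Exist

/-- **EX-CORE from reciprocity, descent and counting.** -/
theorem existCore_of (hRec : RecipSpec) (hDesc : DescentTopSpec) (hCount : CountSpec) :
    ExistCoreSpec := by
  intro p hp hp2 S G K L _ _ _ _ _ _ _ _ _ hpS hG hunr hζ hsat c
  obtain ⟨ζ, hζ'⟩ := hζ
  have hSne : S.Nonempty := ⟨_, hpS⟩
  have : FaithfulSMul G L := IsGaloisGroup.faithful K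
  have hfix : HasFixedRootOfUnity p G L :=
    ⟨algebraMap K L ζ, hζ'.map_of_injective (algebraMap K L).injective,
      fun g => smul_algebraMap_eq g ζ⟩
  obtain ⟨e⟩ := hRec p hp2 S G L hpS hG hunr hfix
  obtain ⟨ι, hιinj, hιrange, -⟩ := hDesc S G K L hSne hunr
  obtain ⟨hC0, hCle⟩ := hCount p hp2 S K hpS ⟨ζ, hζ'⟩
  have hK := relIndex_le_of_sat G K L p (selmer S K p) hζ' hsat
  -- the invariants
  set A : Submodule ℤ (CS S L) := (cRepr S G L).invariants with hA
  have hmemA : ∀ c : CS S L, c ∈ A ↔ ∀ g : G, cRepr S G L g c = c :=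
    fun c => Representation.mem_invariants _ c
  -- `C_S(K) ≃ A`
  let ι' : CS S K →+ A := ι.codRestrict A.toAddSubgroup
    (fun x => (hmemA _).2 ((hιrange _).2 ⟨x, rfl⟩))
  have hι'bij : Function.Bijective ι' := by
    constructor
    · intro x y hxy
      exact hιinj (congrArg Subtype.val hxy)
    · intro a
      obtain ⟨x, hx⟩ := (hιrange a.1).1 ((hmemA _).1 a.2)
      exact ⟨x, Subtype.ext hx⟩
  let eA : CS S K ≃+ A := AddEquiv.ofBijective ι' hι'bij
  have hidx : (pMul A p).index = (pMul (CS S K) p).index := (index_pMul_congr eA p).symm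
  -- the projection to `Ĥ⁰`
  let N : Submodule ℤ A := (LinearMap.range (cRepr S G L).norm).comap A.subtype
  let π : A →+ T.hat0 (CRep S G L) := N.mkQ.toAddMonoidHom
  have hπ : Function.Surjective π := Submodule.mkQ_surjective _
  have hker := ker_le_pMul_of_equiv π hπ e p (hidx ▸ hC0)
    (hidx ▸ (hCle.trans hK))
  -- the norm of `c`
  have hnorm : (cRepr S G L).norm c ∈ A := by
    rw [hmemA]
    intro g
    have := Representation.self_norm_apply (cRepr S G L) g c
    exact this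
  have hmem : (⟨(cRepr S G L).norm c, hnorm⟩ : A) ∈ π.ker := by
    rw [AddMonoidHom.mem_ker]
    show N.mkQ _ = 0
    rw [Submodule.mkQ_apply, Submodule.Quotient.mk_eq_zero]
    exact ⟨c, rfl⟩
  obtain ⟨b, hb⟩ := hker hmem
  refine ⟨b.1, (hmemA _).1 b.2, ?_⟩
  have h1 := congrArg Subtype.val hb
  have h2 : (cRepr S G L).norm c = ∑ g : G, cRepr S G L g c := by
    simp [Representation.norm]
  rw [← h2]
  exact h1.symm

end Exist

end Fermat.Agent.S55.G.Exist121

end
end
-- ===== PACK-END S55/G/Exist121/Core.lean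

-- ===== PACK-BEGIN S56/Br/H374/Ad.lean
section






/-!
# Row S56 — BRIDGE (B1, B4): plain ad⁰-cocycles ⟷ level-constant cocycles of `adRep`  (helper374)

`adRep ρbar : Rep k G_ℚ` is the adjoint representation on the trace-zero endomorphisms of
`V = ρbar.V`.  The plain-function language of layers 0–3 (`IsAdCocycle`, `UnramAt`,
`IsAdCoboundary`) is translated into the vocabulary of the S55 `PT` layer
(`(globalLevels T).Z1`, `B1`, ...).

* `toEnd`                     : `(G_ℚ → adRep) →ₗ (G_ℚ → End V)` (injective);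
* `mem_Z1_global_iff` (B1+B4) : `f ∈ (globalLevels T).Z1 (adRep ρbar)` iff `toEnd f` is an
  `IsAdCocycle` which is `UnramAt` every prime outside `Σ`;
* `isAdCoboundary_toEnd_iff`  : `IsAdCoboundary (toEnd f) ↔ f ∈ B1 (adRep ρbar)` (char `≠ 2`).
-/

set_option autoImplicit false
set_option linter.style.haveILetI false
set_option linter.unusedSectionVars false

noncomputable section

namespace Fermat.Agent.S56.Br

open Fermat.Agent.S56 Fermat.Agent.S56.H716 Fermat.Agent.S55.PT groupCohomology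

variable {k : Type} [Field k] (ρbar : ResidualGaloisRep k)

/-- The trace-zero endomorphisms of `V`. -/
def End0 : Submodule k (Module.End k ρbar.V) := LinearMap.ker (LinearMap.trace k ρbar.V)

variable {ρbar} in
theorem mem_End0 {m : Module.End k ρbar.V} : m ∈ End0 ρbar ↔ LinearMap.trace k ρbar.V m = 0 :=
  LinearMap.mem_ker

/-- `Ad ρ̄(σ)` on `End V`. -/
def adEnd (σ : _root_.Fermat.Agent.S56.GQ) : Module.End k ρbar.V →ₗ[k] Module.End k ρbar.V where
  toFun m := ρbar.ρ σ * m * ρbar.ρ σ⁻¹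
  map_add' a b := by rw [mul_add, add_mul]
  map_smul' r a := by rw [mul_smul_comm, smul_mul_assoc, RingHom.id_apply]

@[simp] theorem adEnd_apply (σ : _root_.Fermat.Agent.S56.GQ) (m : Module.End k ρbar.V) :
    adEnd ρbar σ m = ρbar.ρ σ * m * ρbar.ρ σ⁻¹ := rfl

theorem rho_inv_mul (σ : _root_.Fermat.Agent.S56.GQ) : ρbar.ρ σ⁻¹ * ρbar.ρ σ = 1 := by
  rw [← map_mul, inv_mul_cancel, map_one]

theorem rho_mul_inv (σ : _root_.Fermat.Agent.S56.GQ) : ρbar.ρ σ * ρbar.ρ σ⁻¹ = 1 := by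
  rw [← map_mul, mul_inv_cancel, map_one]

theorem trace_adEnd (σ : _root_.Fermat.Agent.S56.GQ) (m : Module.End k ρbar.V) :
    LinearMap.trace k ρbar.V (adEnd ρbar σ m) = LinearMap.trace k ρbar.V m := by
  rw [adEnd_apply, LinearMap.trace_mul_comm, ← mul_assoc, rho_inv_mul, one_mul]

theorem adEnd_one : adEnd ρbar 1 = LinearMap.id := by
  ext m : 1
  simp [adEnd_apply]

theorem adEnd_mul (σ τ : _root_.Fermat.Agent.S56.GQ) : adEnd ρbar (σ * τ) = adEnd ρbar σ ∘ₗ adEnd ρbar τ := by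
  ext m : 1
  simp only [adEnd_apply, LinearMap.comp_apply, map_mul, mul_inv_rev, mul_assoc]

/-- The adjoint representation on trace-zero endomorphisms. -/
def adRho : Representation k _root_.Fermat.Agent.S56.GQ (End0 ρbar) where
  toFun σ := (adEnd ρbar σ).restrict (p := End0 ρbar) (q := End0 ρbar)
    (fun m hm => mem_End0.2 (by rw [trace_adEnd]; exact mem_End0.1 hm))
  map_one' := by
    ext m : 2
    simp [adEnd_one]
  map_mul' σ τ := by
    ext m : 2
    simp [adEnd_mul]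

/-- `ad⁰ρ̄` as an object of `Rep k G_ℚ`. -/
abbrev adRep : Rep.{0, 0, 0} k _root_.Fermat.Agent.S56.GQ := Rep.of (adRho ρbar)

/-- The underlying endomorphism of an element of `adRep`. -/
def val : adRep ρbar →ₗ[k] Module.End k ρbar.V := (End0 ρbar).subtype

theorem val_injective : Function.Injective (val ρbar) := Subtype.val_injective

theorem trace_val (m : adRep ρbar) : LinearMap.trace k ρbar.V (val ρbar m) = 0 :=
  mem_End0.1 (m : End0 ρbar).2

/-- An endomorphism of trace zero, as an element of `adRep`. -/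
def mk0 (m : Module.End k ρbar.V) (hm : LinearMap.trace k ρbar.V m = 0) : adRep ρbar :=
  (⟨m, mem_End0.2 hm⟩ : End0 ρbar)

@[simp] theorem val_mk0 (m : Module.End k ρbar.V) (hm : LinearMap.trace k ρbar.V m = 0) :
    val ρbar (mk0 ρbar m hm) = m := rfl

theorem val_ρ (σ : _root_.Fermat.Agent.S56.GQ) (m : adRep ρbar) :
    val ρbar ((adRep ρbar).ρ σ m) = ρbar.ρ σ * val ρbar m * ρbar.ρ σ⁻¹ := rfl

/-- Post-composition with `val`: functions to `adRep` as functions to `End V`. -/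
def toEnd : (_root_.Fermat.Agent.S56.GQ → adRep ρbar) →ₗ[k] (_root_.Fermat.Agent.S56.GQ → Module.End k ρbar.V) where
  toFun f σ := val ρbar (f σ)
  map_add' f g := by funext σ; exact (val ρbar).map_add (f σ) (g σ)
  map_smul' r f := by funext σ; exact (val ρbar).map_smul r (f σ)

@[simp] theorem toEnd_apply (f : _root_.Fermat.Agent.S56.GQ → adRep ρbar) (σ : _root_.Fermat.Agent.S56.GQ) : toEnd ρbar f σ = val ρbar (f σ) := rfl

theorem toEnd_injective : Function.Injective (toEnd ρbar) := by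
  intro f g h
  funext σ
  exact val_injective ρbar (congrFun h σ)

/-- A trace-zero valued function as a function to `adRep`. -/
def ofEnd (c : _root_.Fermat.Agent.S56.GQ → Module.End k ρbar.V) (hc : ∀ σ, LinearMap.trace k ρbar.V (c σ) = 0) :
    _root_.Fermat.Agent.S56.GQ → adRep ρbar := fun σ => mk0 ρbar (c σ) (hc σ)

@[simp] theorem toEnd_ofEnd (c : _root_.Fermat.Agent.S56.GQ → Module.End k ρbar.V)
    (hc : ∀ σ, LinearMap.trace k ρbar.V (c σ) = 0) : toEnd ρbar (ofEnd ρbar c hc) = c := rfl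

/-! ### Cocycles -/

theorem mem_cocycles₁_iff (f : _root_.Fermat.Agent.S56.GQ → adRep ρbar) :
    f ∈ cocycles₁ (adRep ρbar) ↔
      ∀ σ τ, toEnd ρbar f (σ * τ) = toEnd ρbar f σ + ρbar.ρ σ * toEnd ρbar f τ * ρbar.ρ σ⁻¹ := by
  rw [groupCohomology.mem_cocycles₁_iff]
  constructor
  · intro h σ τ
    have := congrArg (val ρbar) (h σ τ)
    rw [map_add, val_ρ] at this
    rw [toEnd_apply, this, add_comm]
    rfl
  · intro h σ τ
    apply val_injective
    rw [map_add, val_ρ]
    have := h σ τ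
    rw [toEnd_apply] at this
    rw [this, add_comm]
    rfl

theorem toEnd_one_of_cocycle {c : _root_.Fermat.Agent.S56.GQ → Module.End k ρbar.V}
    (h : ∀ σ τ, c (σ * τ) = c σ + ρbar.ρ σ * c τ * ρbar.ρ σ⁻¹) : c 1 = 0 := by
  have h1 := h 1 1
  rw [mul_one, inv_one, map_one, one_mul, mul_one] at h1
  exact left_eq_add.mp h1

/-- The right stabiliser of a function on `G_ℚ`. -/
def rightStab {X : Type*} (c : _root_.Fermat.Agent.S56.GQ → X) : Subgroup _root_.Fermat.Agent.S56.GQ where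
  carrier := {τ | ∀ σ, c (σ * τ) = c σ}
  one_mem' σ := by rw [mul_one]
  mul_mem' {a b} ha hb σ := by rw [← mul_assoc, hb, ha]
  inv_mem' {a} ha σ := by
    have := ha (σ * a⁻¹)
    rw [inv_mul_cancel_right] at this
    exact this.symm

theorem mem_rightStab {X : Type*} {c : _root_.Fermat.Agent.S56.GQ → X} {τ : _root_.Fermat.Agent.S56.GQ} :
    τ ∈ rightStab c ↔ ∀ σ, c (σ * τ) = c σ := Iff.rfl

/-- A cocycle is right-invariant under every element on which it vanishes. -/
theorem mem_rightStab_of_eq_zero {c : _root_.Fermat.Agent.S56.GQ → Module.End k ρbar.V}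
    (h : ∀ σ τ, c (σ * τ) = c σ + ρbar.ρ σ * c τ * ρbar.ρ σ⁻¹) {τ : _root_.Fermat.Agent.S56.GQ} (hτ : c τ = 0) :
    τ ∈ rightStab c := by
  intro σ
  rw [h, hτ, mul_zero, zero_mul, add_zero]

/-- **B4 (INFL).**  A function of finite level which is right-invariant under all inertia groups
outside `Σ` is level-constant for a finite extension unramified outside `Σ`. -/
theorem isLC₁_global_of_level (T : Finset Nat.Primes) {X : Type*} (c : _root_.Fermat.Agent.S56.GQ → X)
    (hlevel : ∃ L : IntermediateField ℚ Qb, FiniteDimensional ℚ L ∧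
      ∀ σ τ : _root_.Fermat.Agent.S56.GQ, (∀ x ∈ L, τ x = x) → c (σ * τ) = c σ)
    (hur : ∀ q : Nat.Primes, q ∉ T → ∀ P : ValuationSubring Qb, P.LiesOverPrime (q : ℕ) →
      ∀ τ ∈ P.inertiaSubgroupIn ℚ, ∀ σ, c (σ * τ) = c σ) :
    (globalLevels T).IsLC₁ c := by
  obtain ⟨L, hLfin, hL⟩ := hlevel
  obtain ⟨F, hF, hfix, -⟩ := Fermat.Agent.S55.Bridge.exists_level_of_subgroup T (rightStab c) L
    hLfin
    (fun τ hτ σ => hL σ τ (fun x hx => (IntermediateField.mem_fixingSubgroup_iff L τ).1 hτ x hx))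
    (fun q hq P hP τ hτ => hur q hq P hP τ hτ)
  refine ⟨F.fixingSubgroup, ⟨F, hF, rfl⟩, fun g s hs => ?_⟩
  rw [hfix] at hs
  exact hs g

/-- **B1 + B4.**  Level-constant cocycles of `adRep` for the levels unramified outside `Σ` are
exactly the plain ad⁰-cocycles of finite level which are unramified outside `Σ`. -/
theorem mem_Z1_global_iff (T : Finset Nat.Primes) (f : _root_.Fermat.Agent.S56.GQ → adRep ρbar) :
    f ∈ (globalLevels T).Z1 (adRep ρbar) ↔
      IsAdCocycle ρbar (toEnd ρbar f) ∧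
        ∀ q : Nat.Primes, q ∉ T → UnramAt ρbar (toEnd ρbar f) (q : ℕ) := by
  constructor
  · rintro ⟨hcoc, U, ⟨F, hF, rfl⟩, hU⟩
    have hmul := (mem_cocycles₁_iff ρbar f).1 hcoc
    refine ⟨⟨fun σ => trace_val ρbar (f σ), hmul, F, hF.1, fun σ τ hτ => ?_⟩, ?_⟩
    · rw [toEnd_apply, toEnd_apply, hU σ τ ((IntermediateField.mem_fixingSubgroup_iff F τ).2 hτ)]
    · intro q hq P hP σ hσ
      have h1 : f (1 * σ) = f 1 := hU 1 σ (hF.2 q hq P hP hσ)
      rw [one_mul] at h1
      rw [toEnd_apply, h1, ← toEnd_apply, toEnd_one_of_cocycle ρbar hmul]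
  · rintro ⟨hcoc, hur⟩
    refine ⟨(mem_cocycles₁_iff ρbar f).2 hcoc.map_mul, ?_⟩
    apply isLC₁_global_of_level
    · obtain ⟨L, hL, h⟩ := hcoc.level
      exact ⟨L, hL, fun σ τ hτ => toEnd_injective ρbar |> fun hinj =>
        val_injective ρbar (h σ τ hτ)⟩
    · intro q hq P hP τ hτ σ
      apply val_injective
      exact mem_rightStab_of_eq_zero ρbar hcoc.map_mul (hur q hq P hP τ hτ) σ

/-! ### Coboundaries -/

/-- The trace-zero part `m - (tr m / 2) • 1` of an endomorphism (`2 ≠ 0`). -/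
def tracelessPart (m : Module.End k ρbar.V) (h2 : (2 : k) ≠ 0) : adRep ρbar :=
  mk0 ρbar (m - (LinearMap.trace k ρbar.V m / 2) • (1 : Module.End k ρbar.V)) (by
    rw [map_sub, map_smul, LinearMap.trace_one, ρbar.finrank_eq, smul_eq_mul, Nat.cast_ofNat,
      div_mul_cancel₀ _ h2, sub_self])

theorem val_tracelessPart (m : Module.End k ρbar.V) (h2 : (2 : k) ≠ 0) :
    val ρbar (tracelessPart ρbar m h2)
      = m - (LinearMap.trace k ρbar.V m / 2) • (1 : Module.End k ρbar.V) := rfl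

/-- The coboundary of `m` equals the coboundary of its trace-zero part. -/
theorem coboundary_tracelessPart (m : Module.End k ρbar.V) (h2 : (2 : k) ≠ 0) (σ : _root_.Fermat.Agent.S56.GQ) :
    val ρbar ((adRep ρbar).ρ σ (tracelessPart ρbar m h2)) - val ρbar (tracelessPart ρbar m h2)
      = ρbar.ρ σ * m * ρbar.ρ σ⁻¹ - m := by
  rw [val_ρ, val_tracelessPart, mul_sub, sub_mul, mul_smul_comm, smul_mul_assoc, mul_one,
    rho_mul_inv]
  abel

/-- Coboundaries on a subgroup, in terms of `adRep` (`2 ≠ 0`). -/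
theorem isAdCoboundaryOn_iff (h2 : (2 : k) ≠ 0) (H : Subgroup _root_.Fermat.Agent.S56.GQ)
    (c : _root_.Fermat.Agent.S56.GQ → Module.End k ρbar.V) :
    IsAdCoboundaryOn ρbar H c ↔
      ∃ m₀ : adRep ρbar, ∀ σ ∈ H, c σ = val ρbar ((adRep ρbar).ρ σ m₀) - val ρbar m₀ := by
  constructor
  · rintro ⟨m, hm⟩
    exact ⟨tracelessPart ρbar m h2, fun σ hσ => by
      rw [coboundary_tracelessPart, hm σ hσ]⟩
  · rintro ⟨m₀, hm⟩
    exact ⟨val ρbar m₀, fun σ hσ => by rw [hm σ hσ, val_ρ]⟩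

theorem isAdCoboundary_iff_on_top (c : _root_.Fermat.Agent.S56.GQ → Module.End k ρbar.V) :
    IsAdCoboundary ρbar c ↔ IsAdCoboundaryOn ρbar ⊤ c :=
  ⟨fun ⟨m, hm⟩ => ⟨m, fun σ _ => hm σ⟩, fun ⟨m, hm⟩ => ⟨m, fun σ => hm σ (Subgroup.mem_top σ)⟩⟩

/-- **B1, coboundaries.**  `IsAdCoboundary (toEnd f) ↔ f ∈ B¹(adRep)`  (`2 ≠ 0`). -/
theorem isAdCoboundary_toEnd_iff (h2 : (2 : k) ≠ 0) (f : _root_.Fermat.Agent.S56.GQ → adRep ρbar) :
    IsAdCoboundary ρbar (toEnd ρbar f) ↔ f ∈ LevelSys.B1 (adRep ρbar) := by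
  rw [isAdCoboundary_iff_on_top, isAdCoboundaryOn_iff ρbar h2]
  constructor
  · rintro ⟨m₀, hm⟩
    refine ⟨m₀, ?_⟩
    funext σ
    apply val_injective
    have h1 := hm σ (Subgroup.mem_top σ)
    rw [toEnd_apply] at h1
    rw [h1, ← map_sub]
    rfl
  · rintro ⟨m₀, rfl⟩
    exact ⟨m₀, fun σ _ => by
      rw [toEnd_apply, ← map_sub]
      rfl⟩

/-! ### Invariants -/

/-- `adInv ρbar H` is the image of the `H`-invariants of `adRep`. -/
theorem mem_adInv_iff (H : Subgroup _root_.Fermat.Agent.S56.GQ) (m : Module.End k ρbar.V) :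
    m ∈ adInv ρbar H ↔ ∃ m₀ : adRep ρbar, val ρbar m₀ = m ∧ ∀ σ ∈ H, (adRep ρbar).ρ σ m₀ = m₀ := by
  constructor
  · rintro ⟨htr, hfix⟩
    refine ⟨mk0 ρbar m htr, rfl, fun σ hσ => ?_⟩
    apply val_injective
    rw [val_ρ, val_mk0, hfix σ hσ]
  · rintro ⟨m₀, rfl, hfix⟩
    refine ⟨trace_val ρbar m₀, fun σ hσ => ?_⟩
    rw [← val_ρ, hfix σ hσ]

/-! ### Independence of the place (conjugation) -/

open scoped Pointwise in
/-- For a cocycle, being a coboundary on the decomposition group of `P` or of `g • P` is the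
same. -/
theorem isAdCoboundaryOn_smul {c : _root_.Fermat.Agent.S56.GQ → Module.End k ρbar.V}
    (hc : ∀ σ τ, c (σ * τ) = c σ + ρbar.ρ σ * c τ * ρbar.ρ σ⁻¹)
    (P : ValuationSubring Qb) (g : _root_.Fermat.Agent.S56.GQ)
    (h : IsAdCoboundaryOn ρbar (P.decompositionSubgroup ℚ) c) :
    IsAdCoboundaryOn ρbar ((g • P).decompositionSubgroup ℚ) c := by
  obtain ⟨m, hm⟩ := h
  refine ⟨ρbar.ρ g * m * ρbar.ρ g⁻¹ - c g, fun σ' hσ' => ?_⟩
  -- `σ' = g σ g⁻¹` with `σ ∈ D_P`
  set σ : _root_.Fermat.Agent.S56.GQ := g⁻¹ * σ' * g with hσdef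
  have hσ : σ ∈ P.decompositionSubgroup ℚ := by
    have h1 := Fermat.Agent.Lib.Cheb.H476.conj_mem_decomposition g⁻¹ hσ'
    rw [inv_inv, inv_smul_smul] at h1
    exact h1
  have hσ' : σ' = g * σ * g⁻¹ := by rw [hσdef]; group
  have hg1 : c g⁻¹ = - (ρbar.ρ g⁻¹ * c g * ρbar.ρ g) := by
    have h1 := hc g⁻¹ g
    rw [inv_mul_cancel, toEnd_one_of_cocycle ρbar hc, inv_inv] at h1
    exact eq_neg_of_add_eq_zero_left h1.symm
  have e1 : ∀ x : Module.End k ρbar.V, ρbar.ρ g⁻¹ * (ρbar.ρ g * x) = x := fun x => by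
    rw [← mul_assoc, rho_inv_mul, one_mul]
  rw [hσ', hc, hc, hm σ hσ, hg1]
  simp only [map_mul, mul_inv_rev, inv_inv, mul_sub, sub_mul, mul_neg, neg_mul, mul_assoc, e1]
  abel

/-- For a cocycle, being a coboundary on the decomposition group does not depend on the place
over a given prime. -/
theorem isAdCoboundaryOn_of_liesOver {c : _root_.Fermat.Agent.S56.GQ → Module.End k ρbar.V}
    (hc : ∀ σ τ, c (σ * τ) = c σ + ρbar.ρ σ * c τ * ρbar.ρ σ⁻¹)
    {q : ℕ} (hq : q.Prime) {P P' : ValuationSubring Qb} (hP : P.LiesOverPrime q)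
    (hP' : P'.LiesOverPrime q)
    (h : IsAdCoboundaryOn ρbar (P.decompositionSubgroup ℚ) c) :
    IsAdCoboundaryOn ρbar (P'.decompositionSubgroup ℚ) c := by
  obtain ⟨g, rfl⟩ := Fermat.Agent.Lib.Cheb.H476.exists_smul_eq hq hP hP'
  exact isAdCoboundaryOn_smul ρbar hc P g h

/-! ### B3: the local groups of the Prelude -/

open ExtCitation in
/-- **B3, coboundaries.**  On the decomposition group of the Prelude's place over `v`, being a
coboundary is the same as being a coboundary after restriction to the Prelude's local Galois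
group `Gl v`  (`2 ≠ 0`). -/
theorem isAdCoboundaryOn_primeLocalPlace_iff (h2 : (2 : k) ≠ 0) (v : Nat.Primes)
    (f : _root_.Fermat.Agent.S56.GQ → adRep ρbar) :
    IsAdCoboundaryOn ρbar ((primeLocalPlace v).decompositionSubgroup ℚ) (toEnd ρbar f) ↔
      (f ∘ rl v : Gl v → adRep ρbar) ∈ LevelSys.B1 (Rep.res (rl v) (adRep ρbar)) := by
  rw [isAdCoboundaryOn_iff ρbar h2, ← Fermat.Agent.S55.Bridge.range_primeLocalToGlobal]
  constructor
  · rintro ⟨m₀, hm⟩
    refine ⟨m₀, ?_⟩
    funext τ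
    apply val_injective
    have h1 := hm (rl v τ) ⟨τ, rfl⟩
    rw [toEnd_apply] at h1
    rw [Function.comp_apply, h1, ← map_sub]
    rfl
  · rintro ⟨m₀, hm⟩
    refine ⟨m₀, ?_⟩
    rintro _ ⟨τ, rfl⟩
    have h1 := congrFun hm τ
    rw [Function.comp_apply] at h1
    rw [toEnd_apply, ← h1, ← map_sub]
    rfl

open ExtCitation in
/-- **B3, invariants.**  `H⁰(Gl v, ad⁰ρ̄)` is `adInv` of the decomposition group of the Prelude's
place over `v`. -/
def adInvLocalEquiv (v : Nat.Primes) :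
    adInv ρbar ((primeLocalPlace v).decompositionSubgroup ℚ) ≃ₗ[k]
      LevelSys.H0 (Rep.res (rl v) (adRep ρbar)) where
  toFun m := ⟨mk0 ρbar m.1 m.2.1, fun τ => by
    apply val_injective
    have hτ : rl v τ ∈ (primeLocalPlace v).decompositionSubgroup ℚ := by
      rw [← Fermat.Agent.S55.Bridge.range_primeLocalToGlobal]
      exact ⟨τ, rfl⟩
    exact m.2.2 (rl v τ) hτ⟩
  invFun m := ⟨val ρbar m.1, trace_val ρbar m.1, fun σ hσ => by
    rw [← Fermat.Agent.S55.Bridge.range_primeLocalToGlobal] at hσ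
    obtain ⟨τ, rfl⟩ := hσ
    exact congrArg (val ρbar) (m.2 τ)⟩
  map_add' a b := rfl
  map_smul' r a := rfl
  left_inv m := rfl
  right_inv m := rfl

/-! ### Sets of primes, strict Selmer cocycles -/

/-- A finite set of natural numbers as a finite set of primes (the non-primes are dropped). -/
def primesOf (T : Finset ℕ) : Finset Nat.Primes := T.subtype Nat.Prime

theorem mem_primesOf {T : Finset ℕ} {q : Nat.Primes} : q ∈ primesOf T ↔ (q : ℕ) ∈ T :=
  Finset.mem_subtype

theorem unram_outside_iff (T : Finset ℕ) (c : _root_.Fermat.Agent.S56.GQ → Module.End k ρbar.V) :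
    (∀ q : ℕ, q.Prime → q ∉ T → UnramAt ρbar c q) ↔
      ∀ q : Nat.Primes, q ∉ primesOf T → UnramAt ρbar c (q : ℕ) :=
  ⟨fun h q hq => h q q.2 (fun hq' => hq (mem_primesOf.2 hq')),
    fun h q hq hqT => h ⟨q, hq⟩ (fun hq' => hqT (mem_primesOf.1 hq'))⟩

/-- **B1 + B4**, `Finset ℕ` form. -/
theorem mem_Z1_primesOf_iff (T : Finset ℕ) (f : _root_.Fermat.Agent.S56.GQ → adRep ρbar) :
    f ∈ (globalLevels (primesOf T)).Z1 (adRep ρbar) ↔
      IsAdCocycle ρbar (toEnd ρbar f) ∧
        ∀ q : ℕ, q.Prime → q ∉ T → UnramAt ρbar (toEnd ρbar f) q := by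
  rw [mem_Z1_global_iff, unram_outside_iff]

open ExtCitation Fermat.Agent.S55.Bridge in
/-- The Prelude's place over `v` lies over `v`. -/
theorem primeLocalPlace_liesOver (v : Nat.Primes) :
    (primeLocalPlace v).LiesOverPrime (v : ℕ) := by
  letI : Fact (v : ℕ).Prime := ⟨v.2⟩
  show ((v : ℕ) : Qb) ∈ (padicPlace (v : ℕ)).nonunits
  rw [ValuationSubring.mem_nonunits_iff_exists_mem_maximalIdeal]
  have hq : (1 : ℝ) < (v : ℕ) := by exact_mod_cast v.2.one_lt
  have hmem : ((v : ℕ) : Qb) ∈ padicPlace (v : ℕ) := by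
    rw [mem_padicPlace_iff_norm, norm_padicEmbedding_natCast_self]
    exact inv_le_one_of_one_le₀ hq.le
  refine ⟨hmem, ?_⟩
  rw [IsLocalRing.mem_maximalIdeal, mem_nonunits_iff]
  rintro ⟨u, hu⟩
  have h1 : ((u⁻¹ : (padicPlace (v : ℕ))ˣ) : padicPlace (v : ℕ)) * u = 1 := by simp
  have h2 : (((u⁻¹ : (padicPlace (v : ℕ))ˣ) : padicPlace (v : ℕ)) : Qb) * ((v : ℕ) : Qb) = 1 := by
    have := congrArg (Subtype.val) h1
    rw [hu] at this
    simpa using this
  have h3 := ((u⁻¹ : (padicPlace (v : ℕ))ˣ) : padicPlace (v : ℕ)).2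
  rw [mem_padicPlace_iff_norm] at h3
  have h4 := congrArg (fun z => ‖padicEmbedding (v : ℕ) z‖) h2
  simp only [map_mul, norm_mul, map_one, norm_one] at h4
  rw [norm_padicEmbedding_natCast_self] at h4
  have hinv : ((v : ℕ) : ℝ)⁻¹ < 1 := inv_lt_one_of_one_lt₀ hq
  have hpos : (0 : ℝ) < ((v : ℕ) : ℝ)⁻¹ := by positivity
  nlinarith [norm_nonneg (padicEmbedding (v : ℕ)
    (((u⁻¹ : (padicPlace (v : ℕ))ˣ) : padicPlace (v : ℕ)) : Qb))]

open ExtCitation in
/-- **Strict Selmer cocycles** (`Λ = ⊥`) in `PT` vocabulary: level-constant cocycles for the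
levels unramified outside `Smin ∪ Q` whose restrictions to the Prelude's local groups `Gl v`,
`v ∈ Smin`, are coboundaries.  (`2 ≠ 0`; the places `Pl v` are arbitrary places over `v`.) -/
theorem isSelCocycle_bot_iff (h2 : (2 : k) ≠ 0) (Smin Q : Finset ℕ)
    (Pl : ℕ → ValuationSubring Qb) (hPl : ∀ v ∈ Smin, (Pl v).LiesOverPrime v)
    (hS : ∀ v ∈ Smin, v.Prime) (f : _root_.Fermat.Agent.S56.GQ → adRep ρbar) :
    IsSelCocycle ρbar Pl (fun _ => ⊥) Smin Q (toEnd ρbar f) ↔
      f ∈ (globalLevels (primesOf (Smin ∪ Q))).Z1 (adRep ρbar) ∧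
        ∀ v : Nat.Primes, (v : ℕ) ∈ Smin →
          (f ∘ rl v : Gl v → adRep ρbar) ∈ LevelSys.B1 (Rep.res (rl v) (adRep ρbar)) := by
  have hplace : ∀ v : Nat.Primes, (primeLocalPlace v).LiesOverPrime (v : ℕ) :=
    primeLocalPlace_liesOver
  rw [mem_Z1_primesOf_iff]
  constructor
  · intro h
    refine ⟨⟨h.cocycle, h.unram⟩, fun v hv => ?_⟩
    rw [← isAdCoboundaryOn_primeLocalPlace_iff ρbar h2]
    obtain ⟨t, ht, hcob⟩ := h.loc (v : ℕ) hv
    rw [(Submodule.mem_bot k).1 ht, sub_zero] at hcob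
    exact isAdCoboundaryOn_of_liesOver ρbar h.cocycle.map_mul v.2 (hPl _ hv) (hplace v) hcob
  · rintro ⟨⟨hcoc, hur⟩, hloc⟩
    refine ⟨hcoc, hur, fun v hv => ⟨0, Submodule.zero_mem _, ?_⟩⟩
    rw [sub_zero]
    have h1 := (isAdCoboundaryOn_primeLocalPlace_iff ρbar h2 ⟨v, hS v hv⟩ f).2
      (hloc ⟨v, hS v hv⟩ hv)
    exact isAdCoboundaryOn_of_liesOver ρbar hcoc.map_mul (hS v hv) (hplace ⟨v, hS v hv⟩)
      (hPl v hv) h1

end Fermat.Agent.S56.Br

end

end
-- ===== PACK-END S56/Br/H374/Ad.lean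

-- ===== PACK-BEGIN S55/PT/FrattiniH424.lean
section





/-!
# S55: local `p`-Frattini finiteness and basic properties of the local levels (helper424)

Stated with `PT/Levels.lean` only (no dependence on any `KL` interface), in unfolded form:

* `localLevels_pFrattini` : for every local level `U` there is a local level `V ≤ U` such that every
  level-constant `χ : G_q → 𝔽_p` which is additive on `U` vanishes on `V`
  (this is literally `KL.PFrattiniFinite (localLevels q) p` of helper53's `KL/Defs.lean`);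
* `localLevels_normalCofinal`, `localLevels_finiteIndex`.
-/

set_option autoImplicit false
set_option linter.unusedSectionVars false
set_option linter.style.haveILetI false

namespace Fermat.Agent.S55.PT.H424

open groupCohomology ExtCitation Fermat.Agent.S55.PT

/-- Kummer level, in terms of `Gal(ℚ̄_q/ℚ_q)` and global levels. -/
theorem padic_pFrattini (p : ℕ) [Fact p.Prime] (q : ℕ) [Fact q.Prime]
    (F : IntermediateField ℚ (AlgebraicClosure ℚ)) [FiniteDimensional ℚ F] :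
    ∃ F₁ : IntermediateField ℚ (AlgebraicClosure ℚ), FiniteDimensional ℚ F₁ ∧ F ≤ F₁ ∧
      ∀ χ : (PadicAlgCl q ≃ₐ[ℚ_[q]] PadicAlgCl q) → ZMod p,
        (∀ s t, localGaloisToGlobal q s ∈ F.fixingSubgroup →
          localGaloisToGlobal q t ∈ F.fixingSubgroup → χ (s * t) = χ s + χ t) →
        IsLevelConstant₁ (localGaloisToGlobal q) χ →
        ∀ s, localGaloisToGlobal q s ∈ F₁.fixingSubgroup → χ s = 0 := by
  obtain ⟨E₀, hE₀, hE₀F⟩ := Bridge.exists_local_level_of_global q F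
  haveI := hE₀
  obtain ⟨E₁, hE₁fin, -, hE₁⟩ :=
    Fermat.Agent.S55.H424.exists_kummer_level_intermediate (k₀ := ℚ_[q]) (Ω := PadicAlgCl q) p
      (Fact.out : p.Prime).ne_zero
      (fun E hE => Fermat.Agent.S55.H424.padic_index_range_pow_ne_zero q E hE p
        (Fact.out : p.Prime).ne_zero) E₀
  haveI := hE₁fin
  obtain ⟨F₁, hF₁, hF₁E⟩ := Bridge.exists_global_level_of_local q E₁
  haveI := hF₁
  refine ⟨F ⊔ F₁, inferInstance, le_sup_left, ?_⟩
  intro χ hadd hlc s hs
  have hs₁ : localGaloisToGlobal q s ∈ F₁.fixingSubgroup :=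
    IntermediateField.fixingSubgroup_le (le_sup_right : F₁ ≤ F ⊔ F₁) hs
  have hχ1 : χ 1 = 0 := by
    have h := hadd 1 1 (by rw [map_one]; exact Subgroup.one_mem _)
      (by rw [map_one]; exact Subgroup.one_mem _)
    rw [mul_one] at h
    exact left_eq_add.1 h
  obtain ⟨E', hE'fin, hE'⟩ := (Bridge.isLevelConstant₁_local_iff q χ).1 hlc
  refine hE₁ χ (fun g hg h hh => hadd g h (hE₀F g hg) (hE₀F h hh)) ⟨E', hE'fin, fun t ht => ?_⟩ s
    (hF₁E s hs₁)
  have := hE' 1 t ht
  rw [one_mul, hχ1] at this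
  exact this

/-- **Local `p`-Frattini finiteness** (`= KL.PFrattiniFinite (localLevels q) p`, unfolded). -/
theorem localLevels_pFrattini (p : ℕ) [Fact p.Prime] (q : Nat.Primes) :
    ∀ U ∈ (localLevels q).levels, ∃ V ∈ (localLevels q).levels, V ≤ U ∧
      ∀ χ : Gl q → ZMod p, (∀ s t : Gl q, s ∈ U → t ∈ U → χ (s * t) = χ s + χ t) →
        (localLevels q).IsLC₁ χ → ∀ s ∈ V, χ s = 0 := by
  letI : Fact (q : ℕ).Prime := ⟨q.2⟩
  rintro U ⟨F, hF, rfl⟩
  haveI := hF
  obtain ⟨F₁, hF₁, hle, h⟩ := padic_pFrattini p (q : ℕ) F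
  refine ⟨_, ⟨F₁, hF₁, rfl⟩, Subgroup.comap_mono (IntermediateField.fixingSubgroup_le hle), ?_⟩
  intro χ hadd hlc s hs
  exact h χ (fun s t hs ht => hadd s t hs ht) ((isLC₁_pullbackLevels_iff (rl q) χ).1 hlc) s hs

/-- Normal local levels are cofinal. -/
theorem localLevels_normalCofinal (q : Nat.Primes) : (localLevels q).NormalCofinal :=
  pullbackLevels_normal_cofinal724 (rl q)

/-- Local levels have finite index. -/
theorem localLevels_finiteIndex (q : Nat.Primes) : (localLevels q).FiniteIndex := by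
  rintro U ⟨F, hF, rfl⟩
  haveI := hF
  haveI : Algebra.IsAlgebraic ℚ (AlgebraicClosure ℚ) := AlgebraicClosure.isAlgebraic ℚ
  haveI : IsAlgClosure ℚ (AlgebraicClosure ℚ) := ⟨inferInstance, inferInstance⟩
  haveI : Normal ℚ (AlgebraicClosure ℚ) := IsAlgClosure.normal ℚ (AlgebraicClosure ℚ)
  exact Fermat.Agent.S55.H424.comap_fixingSubgroup_finiteIndex (rl q) F

/-- Global levels: normal levels are cofinal. -/
theorem globalLevels_normalCofinal (S : Finset Nat.Primes) : (globalLevels S).NormalCofinal :=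
  globalLevels_normal_cofinal724 S

end Fermat.Agent.S55.PT.H424

end
-- ===== PACK-END S55/PT/FrattiniH424.lean

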