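import Mathlib
import Fermat.Prelude.Def_ExtEndgame_ProductionDatum
import Fermat.Agent.Pack.S56.E13L2
import Fermat.Agent.Pack.S56.E7L3
import Fermat.Agent.Pack.S56.E7L1
import Fermat.Agent.Pack.S56.E7L0
import Fermat.Agent.Pack.S56.E9L0
import Fermat.Agent.Pack.S56.E13L1
import Fermat.Agent.Pack.S56.E13L0
import Fermat.Agent.Pack.S56.E4L1
import Fermat.Agent.Pack.S56.E12L1
import Fermat.Agent.Pack.S56.E12L2
import Fermat.Agent.Pack.S56.E12L0
import Fermat.Agent.Pack.S56.E11L3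
import Fermat.Agent.Pack.S56.E11L1
import Fermat.Agent.Pack.S56.E13L3
import Fermat.Agent.Pack.S56.E11L0
import Fermat.Agent.Pack.S56.E0L0
import Fermat.Agent.Pack.S56.E3L3

-- ===== PACK-BEGIN S56/P3/H306/TWElement.lean
section






/-!
# S56 / P3 : FINAL (helper306)

`twElement : Fermat.Agent.S56.TWElementStatement` — the Taylor–Wiles element (DDT Lemma 2.48 +
Theorem 2.49, group theory part), assembled from the leaves
SPAN (helper769), REG (helper635), IRR (helper934), CYC + DETORD (helper254),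
H1 core (helper726) + H1ADAPT, SEL, CYCEXP, glue (helper306).
-/

set_option autoImplicit false

namespace Fermat.Agent.S56.P3.H306

open Fermat.Agent.S56.P3

/-- **P3** : the Taylor–Wiles element. -/
theorem twElement : Fermat.Agent.S56.TWElementStatement :=
  twElement_of_leaves H769.spanDelta H934.ad0Irreducible H635.reg H254.cycloQuotient
    H254.detOrder

end Fermat.Agent.S56.P3.H306

end
-- ===== PACK-END S56/P3/H306/TWElement.lean

-- ===== PACK-BEGIN S56/H716/GWGlue.lean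
section



/-!
# Row S56 — the wall GW-WALL, layer 3: glue `GW-WALL ⇐ BASE + REC-Q` (deputy helper716)

Pure linear algebra:

* `exists_local_lift`: the Selmer cocycles of `(Λ, Q)` modulo the strict ones are spanned by a
  space `W` with `dim W ≤ ∑_{v ∈ Smin} dim Λ v`;
* `gwWall_of_base_recQ : Base → RecQ → GWWall`;
* `gwWall_of : BaseStatement → RecQStatement → GWWallStatement`;
* `tangentBoundOrd_of_walls`, `tangentBoundFlat_of_walls`: the two (TB) statements of layer 0 from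
  `DICT`, `LOC-MIN`, `LOC-SO` / `LOC-FLAT`, `BASE`, `REC-Q`.
-/

set_option autoImplicit false

open Polynomial IsLocalRing

noncomputable section

namespace Fermat.Agent.S56.H716

open Fermat.Agent.S56

/-- A linear relation `R ≤ E × T` with `T` finite-dimensional: modulo `{e | (e, 0) ∈ R}` the
first projection of `R` is spanned by a space of dimension `≤ dim T`. -/
theorem exists_lift_of_rel {k E T : Type*} [Field k] [AddCommGroup E]
    [Module k E] [AddCommGroup T] [Module k T] [Module.Finite k T]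
    (R : Submodule k (E × T)) :
    ∃ W : Submodule k E, Module.Finite k W ∧ Module.finrank k W ≤ Module.finrank k T ∧
      ∀ x ∈ R, ∃ w ∈ W, ((x.1 - w, 0) : E × T) ∈ R := by
  classical
  let f₁ : ↥R →ₗ[k] E := (LinearMap.fst k E T).comp R.subtype
  let f₂ : ↥R →ₗ[k] T := (LinearMap.snd k E T).comp R.subtype
  obtain ⟨C, hC⟩ := Submodule.exists_isCompl (LinearMap.ker f₂)
  have hinj : Function.Injective (f₂.comp C.subtype) := by
    refine (injective_iff_map_eq_zero _).2 fun c hc => ?_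
    have h1 : (c : ↥R) ∈ LinearMap.ker f₂ := hc
    have h2 : (c : ↥R) ∈ LinearMap.ker f₂ ⊓ C := ⟨h1, c.2⟩
    rw [hC.inf_eq_bot] at h2
    exact Subtype.ext ((Submodule.mem_bot k).1 h2)
  have hCfin : Module.Finite k ↥C := Module.Finite.of_injective _ hinj
  refine ⟨C.map f₁, inferInstance, ?_, ?_⟩
  · calc Module.finrank k ↥(C.map f₁) ≤ Module.finrank k ↥C := Submodule.finrank_map_le f₁ C
      _ ≤ Module.finrank k T := LinearMap.finrank_le_finrank_of_injective hinj
  · intro x hx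
    have hx' : (⟨x, hx⟩ : ↥R) ∈ LinearMap.ker f₂ ⊔ C := by rw [hC.sup_eq_top]; trivial
    obtain ⟨r₀, hr₀, rc, hrc, hsum⟩ := Submodule.mem_sup.1 hx'
    refine ⟨f₁ rc, Submodule.mem_map_of_mem hrc, ?_⟩
    have h0 : f₂ r₀ = 0 := hr₀
    have e : ((x.1 - f₁ rc, 0) : E × T) = (r₀ : E × T) := by
      have h3 : (r₀ : E × T) + (rc : E × T) = x := congrArg Subtype.val hsum
      have h4 : (r₀ : E × T).2 = 0 := h0
      refine Prod.ext ?_ h4.symm
      show x.1 - (rc : E × T).1 = (r₀ : E × T).1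
      rw [← h3]
      simp
    rw [e]
    exact r₀.2

section Closure

variable {k : Type} [Field k] (ρbar : ResidualGaloisRep k)

lemma IsAdCoboundary.add {c c' : GQ → Module.End k ρbar.V} (h : IsAdCoboundary ρbar c)
    (h' : IsAdCoboundary ρbar c') : IsAdCoboundary ρbar (c + c') := by
  obtain ⟨m, hm⟩ := h
  obtain ⟨m', hm'⟩ := h'
  refine ⟨m + m', fun σ => ?_⟩
  rw [Pi.add_apply, hm σ, hm' σ, mul_add, add_mul]
  abel

lemma IsAdCoboundaryOn.zero (H : Subgroup GQ) :
    IsAdCoboundaryOn ρbar H (0 : GQ → Module.End k ρbar.V) :=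
  ⟨0, fun σ _ => by simp⟩

lemma IsAdCoboundaryOn.add {H : Subgroup GQ} {c c' : GQ → Module.End k ρbar.V}
    (h : IsAdCoboundaryOn ρbar H c) (h' : IsAdCoboundaryOn ρbar H c') :
    IsAdCoboundaryOn ρbar H (c + c') := by
  obtain ⟨m, hm⟩ := h
  obtain ⟨m', hm'⟩ := h'
  refine ⟨m + m', fun σ hσ => ?_⟩
  rw [Pi.add_apply, hm σ hσ, hm' σ hσ, mul_add, add_mul]
  abel

lemma IsAdCoboundaryOn.smul {H : Subgroup GQ} {c : GQ → Module.End k ρbar.V} (a : k)
    (h : IsAdCoboundaryOn ρbar H c) : IsAdCoboundaryOn ρbar H (a • c) := by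
  obtain ⟨m, hm⟩ := h
  refine ⟨a • m, fun σ hσ => ?_⟩
  rw [Pi.smul_apply, hm σ hσ, mul_smul_comm, smul_mul_assoc, smul_sub]

lemma IsAdCoboundaryOn.sub {H : Subgroup GQ} {c c' : GQ → Module.End k ρbar.V}
    (h : IsAdCoboundaryOn ρbar H c) (h' : IsAdCoboundaryOn ρbar H c') :
    IsAdCoboundaryOn ρbar H (c - c') := by
  have := h.add ρbar (h'.smul ρbar (-1))
  simpa [sub_eq_add_neg] using this

lemma IsAdCocycle.zero : IsAdCocycle ρbar (0 : GQ → Module.End k ρbar.V) where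
  trace_eq_zero σ := by simp
  map_mul σ τ := by simp
  level := ⟨⊥, inferInstance, fun _ _ _ => rfl⟩

lemma IsAdCocycle.add {c c' : GQ → Module.End k ρbar.V} (h : IsAdCocycle ρbar c)
    (h' : IsAdCocycle ρbar c') : IsAdCocycle ρbar (c + c') where
  trace_eq_zero σ := by rw [Pi.add_apply, map_add, h.trace_eq_zero, h'.trace_eq_zero, add_zero]
  map_mul σ τ := by
    simp only [Pi.add_apply]
    rw [h.map_mul, h'.map_mul, mul_add, add_mul]
    abel
  level := by
    obtain ⟨L, hL, hLc⟩ := h.level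
    obtain ⟨L', hL', hLc'⟩ := h'.level
    refine ⟨L ⊔ L', inferInstance, fun σ τ hτ => ?_⟩
    simp only [Pi.add_apply]
    rw [hLc σ τ fun x hx => hτ x ((le_sup_left : L ≤ L ⊔ L') hx),
      hLc' σ τ fun x hx => hτ x ((le_sup_right : L' ≤ L ⊔ L') hx)]

lemma IsAdCocycle.smul {c : GQ → Module.End k ρbar.V} (a : k) (h : IsAdCocycle ρbar c) :
    IsAdCocycle ρbar (a • c) where
  trace_eq_zero σ := by rw [Pi.smul_apply, map_smul, h.trace_eq_zero, smul_zero]
  map_mul σ τ := by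
    simp only [Pi.smul_apply]
    rw [h.map_mul, smul_add, mul_smul_comm, smul_mul_assoc]
  level := by
    obtain ⟨L, hL, hLc⟩ := h.level
    exact ⟨L, hL, fun σ τ hτ => by simp only [Pi.smul_apply]; rw [hLc σ τ hτ]⟩

lemma IsAdCocycle.sub {c c' : GQ → Module.End k ρbar.V} (h : IsAdCocycle ρbar c)
    (h' : IsAdCocycle ρbar c') : IsAdCocycle ρbar (c - c') := by
  have := h.add ρbar (h'.smul ρbar (-1))
  simpa [sub_eq_add_neg] using this

lemma UnramAt.add {c c' : GQ → Module.End k ρbar.V} {q : ℕ} (h : UnramAt ρbar c q)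
    (h' : UnramAt ρbar c' q) : UnramAt ρbar (c + c') q := fun P hP σ hσ => by
  rw [Pi.add_apply, h P hP σ hσ, h' P hP σ hσ, add_zero]

lemma UnramAt.smul {c : GQ → Module.End k ρbar.V} {q : ℕ} (a : k) (h : UnramAt ρbar c q) :
    UnramAt ρbar (a • c) q := fun P hP σ hσ => by
  rw [Pi.smul_apply, h P hP σ hσ, smul_zero]

lemma UnramAt.zero (q : ℕ) : UnramAt ρbar (0 : GQ → Module.End k ρbar.V) q :=
  fun _ _ _ _ => rfl

variable (Pl : ℕ → ValuationSubring Qb)
  (Λ : ℕ → Submodule k (GQ → Module.End k ρbar.V)) (Smin Q : Finset ℕ)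

lemma IsSelCocycle.zero : IsSelCocycle ρbar Pl Λ Smin Q 0 where
  cocycle := IsAdCocycle.zero ρbar
  unram q _ _ := UnramAt.zero ρbar q
  loc v _ := ⟨0, (Λ v).zero_mem, by simpa using IsAdCoboundaryOn.zero ρbar _⟩

variable {Pl Λ Smin Q}

lemma IsSelCocycle.add {c c' : GQ → Module.End k ρbar.V}
    (h : IsSelCocycle ρbar Pl Λ Smin Q c) (h' : IsSelCocycle ρbar Pl Λ Smin Q c') :
    IsSelCocycle ρbar Pl Λ Smin Q (c + c') where
  cocycle := h.cocycle.add ρbar h'.cocycle
  unram q hq hqn := (h.unram q hq hqn).add ρbar (h'.unram q hq hqn)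
  loc v hv := by
    obtain ⟨t, ht, hc⟩ := h.loc v hv
    obtain ⟨t', ht', hc'⟩ := h'.loc v hv
    refine ⟨t + t', (Λ v).add_mem ht ht', ?_⟩
    have := hc.add ρbar hc'
    rwa [show c - t + (c' - t') = c + c' - (t + t') by abel] at this

lemma IsSelCocycle.smul {c : GQ → Module.End k ρbar.V} (a : k)
    (h : IsSelCocycle ρbar Pl Λ Smin Q c) : IsSelCocycle ρbar Pl Λ Smin Q (a • c) where
  cocycle := h.cocycle.smul ρbar a
  unram q hq hqn := (h.unram q hq hqn).smul ρbar a
  loc v hv := by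
    obtain ⟨t, ht, hc⟩ := h.loc v hv
    refine ⟨a • t, (Λ v).smul_mem a ht, ?_⟩
    have := hc.smul ρbar a
    rwa [smul_sub] at this

lemma IsSelCocycle.sub {c c' : GQ → Module.End k ρbar.V}
    (h : IsSelCocycle ρbar Pl Λ Smin Q c) (h' : IsSelCocycle ρbar Pl Λ Smin Q c') :
    IsSelCocycle ρbar Pl Λ Smin Q (c - c') := by
  have := h.add ρbar (h'.smul ρbar (-1))
  simpa [sub_eq_add_neg] using this

/-- The relation "`c` is a Selmer cocycle and `t v` represents its local class at `v`",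
as a submodule of `E × ∏_{v ∈ Smin} Λ v`. -/
def selRel (Pl : ℕ → ValuationSubring Qb)
    (Λ : ℕ → Submodule k (GQ → Module.End k ρbar.V)) (Smin Q : Finset ℕ) :
    Submodule k ((GQ → Module.End k ρbar.V) × ((v : ↥Smin) → ↥(Λ v.1))) where
  carrier := {x | IsSelCocycle ρbar Pl Λ Smin Q x.1 ∧
    ∀ v : ↥Smin, IsAdCoboundaryOn ρbar ((Pl v.1).decompositionSubgroup ℚ)
      (x.1 - ((x.2 v : ↥(Λ v.1)) : GQ → Module.End k ρbar.V))}
  add_mem' := by
    rintro x y ⟨hx, hx'⟩ ⟨hy, hy'⟩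
    refine ⟨hx.add ρbar hy, fun v => ?_⟩
    have := (hx' v).add ρbar (hy' v)
    simp only [Prod.fst_add, Prod.snd_add, Pi.add_apply, Submodule.coe_add]
    rwa [show x.1 - ((x.2 v : ↥(Λ v.1)) : GQ → Module.End k ρbar.V) +
      (y.1 - ((y.2 v : ↥(Λ v.1)) : GQ → Module.End k ρbar.V)) =
      x.1 + y.1 - (((x.2 v : ↥(Λ v.1)) : GQ → Module.End k ρbar.V) +
        ((y.2 v : ↥(Λ v.1)) : GQ → Module.End k ρbar.V)) by abel] at this
  zero_mem' := by
    refine ⟨IsSelCocycle.zero ρbar Pl Λ Smin Q, fun v => ?_⟩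
    simpa using IsAdCoboundaryOn.zero ρbar _
  smul_mem' := by
    rintro a x ⟨hx, hx'⟩
    refine ⟨hx.smul ρbar a, fun v => ?_⟩
    have := (hx' v).smul ρbar a
    simp only [Prod.smul_fst, Prod.smul_snd, Pi.smul_apply, Submodule.coe_smul]
    rwa [smul_sub] at this

/-- The Selmer cocycles of `(Λ, Q)` are spanned, modulo the strict Selmer cocycles, by a space of
dimension `≤ ∑_{v ∈ Smin} dim Λ v`. -/
theorem exists_local_lift (Pl : ℕ → ValuationSubring Qb)
    (Λ : ℕ → Submodule k (GQ → Module.End k ρbar.V)) (Smin Q : Finset ℕ)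
    (hfin : ∀ v ∈ Smin, Module.Finite k (Λ v)) :
    ∃ W : Submodule k (GQ → Module.End k ρbar.V), Module.Finite k W ∧
      Module.finrank k W ≤ ∑ v ∈ Smin, Module.finrank k (Λ v) ∧
      ∀ c, IsSelCocycle ρbar Pl Λ Smin Q c →
        ∃ w ∈ W, IsSelCocycle ρbar Pl (fun _ => ⊥) Smin Q (c - w) := by
  classical
  have hfin' : ∀ v : ↥Smin, Module.Finite k ↥(Λ v.1) := fun v => hfin v.1 v.2
  obtain ⟨W, hWfin, hWdim, hW⟩ := exists_lift_of_rel (selRel ρbar Pl Λ Smin Q)
  refine ⟨W, hWfin, ?_, ?_⟩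
  · calc Module.finrank k ↥W ≤ Module.finrank k ((v : ↥Smin) → ↥(Λ v.1)) := hWdim
      _ = ∑ v : ↥Smin, Module.finrank k ↥(Λ v.1) := Module.finrank_pi_fintype k
      _ = ∑ v ∈ Smin, Module.finrank k (Λ v) :=
          Finset.sum_coe_sort Smin fun v => Module.finrank k ↥(Λ v)
  · intro c hc
    choose t ht htc using hc.loc
    let tt : (v : ↥Smin) → ↥(Λ v.1) := fun v => ⟨t v.1 v.2, ht v.1 v.2⟩
    have hmem : ((c, tt) : (GQ → Module.End k ρbar.V) × ((v : ↥Smin) → ↥(Λ v.1))) ∈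
        selRel ρbar Pl Λ Smin Q := ⟨hc, fun v => htc v.1 v.2⟩
    obtain ⟨w, hw, hsel, hcob⟩ := hW _ hmem
    refine ⟨w, hw, hsel.cocycle, hsel.unram, fun v hv => ⟨0, Submodule.zero_mem _, ?_⟩⟩
    have := hcob ⟨v, hv⟩
    simpa using this

end Closure

section

variable (𝒪 : Type) [CommRing 𝒪] [IsDomain 𝒪] [IsDiscreteValuationRing 𝒪]
  (p : ℕ) (ρbar : ResidualGaloisRep (ResidueField 𝒪)) (S Smin : Finset ℕ)

/-- **Glue** `GW-WALL ⇐ BASE + REC-Q`. -/
theorem gwWall_of_base_recQ (hb : Base 𝒪 p ρbar Smin) (hr : RecQ 𝒪 p ρbar S Smin) :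
    GWWall 𝒪 p ρbar S Smin := by
  classical
  obtain ⟨Pl, hPl, D, X, hD, hDur, hXfin, hX, hdim⟩ := hb
  refine ⟨Pl, hPl, fun Λ δ hΛ => ⟨D, hD, fun Q hQ hK => ?_⟩⟩
  obtain ⟨U, hUfin, hUdim, hU⟩ := hr Pl hPl D hD hDur Q hQ hK
  obtain ⟨W, hWfin, hWdim, hW⟩ :=
    exists_local_lift ρbar Pl Λ Smin Q fun v hv => (hΛ.1 v hv).1
  have := hXfin
  have := hUfin
  have := hWfin
  refine ⟨W ⊔ U ⊔ X, inferInstance, ?_, fun c hc => ?_⟩
  · have h1 : Module.finrank (ResidueField 𝒪) ↥(W ⊔ U ⊔ X) ≤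
        Module.finrank (ResidueField 𝒪) W + Module.finrank (ResidueField 𝒪) U +
          Module.finrank (ResidueField 𝒪) X :=
      (Submodule.finrank_add_le_finrank_add_finrank (W ⊔ U) X).trans
        (Nat.add_le_add_right (Submodule.finrank_add_le_finrank_add_finrank W U) _)
    have h2 : ∑ v ∈ Smin, Module.finrank (ResidueField 𝒪) (Λ v) ≤
        ∑ v ∈ Smin, Module.finrank (ResidueField 𝒪)
          (adInv ρbar ((Pl v).decompositionSubgroup ℚ)) + ∑ v ∈ Smin, δ v := by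
      rw [← Finset.sum_add_distrib]
      exact Finset.sum_le_sum fun v hv => (hΛ.1 v hv).2
    have h3 := hΛ.2
    omega
  · obtain ⟨w, hw, hcw⟩ := hW c hc
    obtain ⟨u, hu, c', hc', hcob⟩ := hU (c - w) hcw
    obtain ⟨x, hx, hcob'⟩ := hX c' hc'
    refine ⟨w + u + x, Submodule.add_mem _ (Submodule.add_mem _
      (Submodule.mem_sup_left (Submodule.mem_sup_left hw))
      (Submodule.mem_sup_left (Submodule.mem_sup_right hu)))
      (Submodule.mem_sup_right hx), ?_⟩
    have := hcob.add ρbar hcob'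
    rwa [show c - w - u - c' + (c' - x) = c - (w + u + x) by abel] at this

end

/-- (GW-WALL) from (BASE) and (REC-Q). -/
theorem gwWall_of (hb : BaseStatement) (hr : RecQStatement) : GWWallStatement :=
  fun 𝒪 _ _ _ _ _ p ρbar S Smin hyp =>
    gwWall_of_base_recQ 𝒪 p ρbar S Smin (hb 𝒪 p ρbar S Smin hyp) (hr 𝒪 p ρbar S Smin hyp)

/-- (TB-ord) of layer 0 from the leaves and the two walls. -/
theorem tangentBoundOrd_of_walls (hdict : DictOrdStatement) (hmin : LocMinStatement)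
    (hord : LocOrdPStatement) (hb : BaseStatement) (hr : RecQStatement) :
    TangentBoundOrdStatement :=
  tangentBoundOrd_of_leaves hdict hmin hord (gwWall_of hb hr)

/-- (TB-flat) of layer 0 from the leaves and the two walls. -/
theorem tangentBoundFlat_of_walls (hdict : DictFlatStatement) (hmin : LocMinStatement)
    (hflat : LocFlatPStatement) (hb : BaseStatement) (hr : RecQStatement) :
    TangentBoundFlatStatement :=
  tangentBoundFlat_of_leaves hdict hmin hflat (gwWall_of hb hr)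

end Fermat.Agent.S56.H716

end

end
-- ===== PACK-END S56/H716/GWGlue.lean

-- ===== PACK-BEGIN S56/H194/RLCyc.lean
section



/-!
# S56 / W-FLAT-SS, leaf RL-CYC (helper194): `rlCyc : FL.RLCycStatement`

The mod-`p` cyclotomic character has exact order `p - 1` on tame inertia: for an `RCDatum` with
`Γ₁` a `p`-group, `e = |Γ₀|` and tame data `(τ₀, φ, μ)`:
`τ₀ ^ j • ζ = ζ ^ a → (a ≡ 1 [MOD p] ↔ p - 1 ∣ j)`.

Proof.  `(p) = (ζ - 1)^(p-1)`, so `ζ - 1 = w ϖ^t` with `e = t (p - 1)`.  For `σ = τ₀ ^ j`,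
`σ ϖ = u ϖ` with `ū = μ ^ j`, and `σ (ζ - 1) = ζ ^ a - 1 = (ζ - 1)(1 + ζ + ⋯ + ζ^(a-1))` gives
`μ ^ (j t) = a` in the residue field.  Finally `|Γ₀| = ord(μ) |Γ₁| = ord(μ) p ^ s`, so
`ord(μ) = (p - 1) t'`, `t = p ^ s t'`, and `ord(μ) ∣ j t ↔ p - 1 ∣ j`.
-/

set_option autoImplicit false

open Polynomial IsLocalRing Finset

namespace Fermat.Agent.S56.H194

open Fermat.Agent.S56.FL

/-- `(p) = (ζ - 1)^(p-1)` as ideals of a domain containing a primitive `p`-th root of unity. -/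
theorem span_natCast_eq_span_zeta_sub_one_pow {R : Type*} [CommRing R] [IsDomain R] {p : ℕ}
    (hp : p.Prime) {ζ : R} (hζ : IsPrimitiveRoot ζ p) :
    Ideal.span {(p : R)} = Ideal.span {ζ - 1} ^ (p - 1) := by
  obtain ⟨n, rfl⟩ : ∃ n, p = n + 1 := ⟨p - 1, (Nat.succ_pred_eq_of_pos hp.pos).symm⟩
  have hprod := hζ.prod_one_sub_pow_eq_order
  have h1 : ∀ k ∈ range n, Ideal.span {1 - ζ ^ (k + 1)} = Ideal.span {ζ - 1} := by
    intro k hk
    have hcop : (k + 1).Coprime (n + 1) :=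
      (Nat.coprime_of_lt_prime (Nat.succ_ne_zero k) (Nat.succ_lt_succ (mem_range.mp hk)) hp).symm
    have := hζ.associated_sub_one_pow_sub_one_of_coprime hcop
    rw [← neg_sub, Ideal.span_singleton_neg]
    exact (Ideal.span_singleton_eq_span_singleton.mpr this).symm
  rw [Nat.add_sub_cancel]
  calc Ideal.span {((n + 1 : ℕ) : R)} = Ideal.span {∏ k ∈ range n, (1 - ζ ^ (k + 1))} := by
        rw [hprod]; push_cast; rfl
    _ = ∏ k ∈ range n, Ideal.span {1 - ζ ^ (k + 1)} := (Ideal.prod_span_singleton _ _).symm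
    _ = Ideal.span {ζ - 1} ^ n := by rw [prod_congr rfl h1, prod_const, card_range]

section Action

variable {B Γ : Type} [CommRing B] [IsDomain B] [IsDiscreteValuationRing B] [Group Γ]
  [MulSemiringAction Γ B]

omit [IsDomain B] [IsDiscreteValuationRing B] in
theorem irreducible_smul' (g : Γ) {ϖ : B} (hϖ : Irreducible ϖ) : Irreducible (g • ϖ) :=
  (MulEquiv.irreducible_iff (MulSemiringAction.toRingEquiv Γ B g)).mpr hϖ

theorem exists_smul_eq_mul (g : Γ) {ϖ : B} (hϖ : Irreducible ϖ) :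
    ∃ u : B, IsUnit u ∧ g • ϖ = u * ϖ := by
  obtain ⟨c, hc⟩ := IsDiscreteValuationRing.associated_of_irreducible B hϖ (irreducible_smul' g hϖ)
  exact ⟨c, c.isUnit, by rw [← hc, mul_comm]⟩

theorem residue_smul_of_mem_ramGroup_zero {σ : Γ} (hσ : σ ∈ ramGroup B Γ 0) (x : B) :
    residue B (σ • x) = residue B x := by
  have h := hσ x
  rw [zero_add, pow_one] at h
  have := (residue_eq_zero_iff _).mpr h
  rwa [map_sub, sub_eq_zero] at this

end Action

/-- For tame data `(τ₀, φ, μ)`: `τ₀ ^ j • ϖ = u ϖ` implies `ū = μ ^ j`. -/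
theorem residue_unit_pow (d : RCDatum) {τ₀ φ : d.Γ} {μ : ResidueField d.B}
    (hT : d.TameData τ₀ φ μ) {ϖ : d.B} (hϖ : Irreducible ϖ) :
    ∀ (j : ℕ) (u : d.B), τ₀ ^ j • ϖ = u * ϖ → residue d.B u = μ ^ j := by
  obtain ⟨hτ₀, -, -, hu, -, -, -⟩ := hT
  have hϖ0 : ϖ ≠ 0 := hϖ.ne_zero
  intro j
  induction j with
  | zero =>
    intro u h
    rw [pow_zero, one_smul] at h
    have : u = 1 := by
      have h2 : (1 : d.B) * ϖ = u * ϖ := by rw [one_mul]; exact h
      exact (mul_right_cancel₀ hϖ0 h2).symm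
    rw [this, map_one, pow_zero]
  | succ j ih =>
    intro u h
    obtain ⟨u₁, -, h₁⟩ := exists_smul_eq_mul τ₀ hϖ
    obtain ⟨uj, -, hj⟩ := exists_smul_eq_mul (τ₀ ^ j) hϖ
    have e1 : τ₀ ^ (j + 1) • ϖ = (τ₀ ^ j • u₁ * uj) * ϖ := by
      rw [pow_succ, mul_smul, h₁, smul_mul', hj, mul_assoc]
    have e2 : u = τ₀ ^ j • u₁ * uj := mul_right_cancel₀ hϖ0 (h.symm.trans e1)
    rw [e2, map_mul, residue_smul_of_mem_ramGroup_zero (Subgroup.pow_mem _ hτ₀ j), hu ϖ hϖ u₁ h₁,
      ih uj hj, pow_succ, mul_comm]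

/-- `|Γ₀| = ord(μ) · |Γ₁|` for tame data `(τ₀, φ, μ)`. -/
theorem card_inertia_eq (d : RCDatum) {τ₀ φ : d.Γ} {μ : ResidueField d.B}
    (hT : d.TameData τ₀ φ μ) :
    Nat.card (ramGroup d.B d.Γ 0) = orderOf μ * Nat.card (ramGroup d.B d.Γ 1) := by
  obtain ⟨hτ₀, hgen, hμ, -, -, -, -⟩ := hT
  have hnorm : (ramGroup d.B d.Γ 1).Normal := ramGroup_normal 1
  have hle : ramGroup d.B d.Γ 1 ≤ ramGroup d.B d.Γ 0 := ramGroup_one_le_zero
  set I := ramGroup d.B d.Γ 0 with hI
  set W' : Subgroup I := (ramGroup d.B d.Γ 1).subgroupOf I with hW'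
  have hnorm' : W'.Normal := Subgroup.Normal.subgroupOf hnorm I
  let x₀ : I := ⟨τ₀, hτ₀⟩
  let q₀ : I ⧸ W' := QuotientGroup.mk x₀
  have hq₀ : ∀ n : ℕ, q₀ ^ n = 1 ↔ μ ^ n = 1 := by
    intro n
    rw [← hμ n]
    show ((x₀ ^ n : I) : I ⧸ W') = 1 ↔ _
    rw [QuotientGroup.eq_one_iff, hW', Subgroup.mem_subgroupOf]
    rfl
  have hall : ∀ y : I ⧸ W', y ∈ Subgroup.zpowers q₀ := by
    intro y
    induction y using QuotientGroup.induction_on with
    | H σ =>
      obtain ⟨j, hj⟩ := hgen σ.1 σ.2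
      refine ⟨(j : ℤ), ?_⟩
      have h1 : (σ * (x₀ ^ j)⁻¹ : I) ∈ W' := by
        rw [hW', Subgroup.mem_subgroupOf]
        exact hj
      have h2 := (QuotientGroup.eq_one_iff (N := W') (σ * (x₀ ^ j)⁻¹)).mpr h1
      rw [QuotientGroup.mk_mul, QuotientGroup.mk_inv, QuotientGroup.mk_pow, mul_inv_eq_one] at h2
      show q₀ ^ (j : ℤ) = _
      rw [zpow_natCast]
      exact h2.symm
  have hcard : orderOf q₀ = Nat.card (I ⧸ W') := orderOf_eq_card_of_forall_mem_zpowers hall
  have hord : orderOf q₀ = orderOf μ := orderOf_eq_orderOf_iff.mpr hq₀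
  rw [Subgroup.card_eq_card_quotient_mul_card_subgroup W', ← hcard, hord,
    Nat.card_congr (Subgroup.subgroupOfEquivOfLe hle).toEquiv]

/-- The arithmetic at the end of RL-CYC. -/
theorem dvd_mul_iff_of_mul_eq {P E₀ t s p j : ℕ} (hE₀ : 0 < E₀) (hp : 0 < p)
    (hcop : Nat.Coprime P p) (h : t * P = E₀ * p ^ s) : E₀ ∣ j * t ↔ P ∣ j := by
  have hcop' : Nat.Coprime (p ^ s) P := (Nat.Coprime.pow_right s hcop).symm
  have h1 : p ^ s ∣ t := by
    have : p ^ s ∣ t * P := ⟨E₀, by rw [h, mul_comm]⟩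
    exact hcop'.dvd_of_dvd_mul_right this
  obtain ⟨t', rfl⟩ := h1
  have hps : 0 < p ^ s := Nat.pow_pos hp
  have hE : E₀ = t' * P := by
    have : p ^ s * (t' * P) = p ^ s * E₀ := by rw [← mul_assoc, h, mul_comm]
    exact (Nat.eq_of_mul_eq_mul_left hps this).symm
  have ht' : 0 < t' := by
    rcases Nat.eq_zero_or_pos t' with h0 | h0
    · rw [h0, zero_mul] at hE
      exact absurd hE hE₀.ne'
    · exact h0
  subst hE
  constructor
  · intro hd
    have h2 : t' * P ∣ t' * (j * p ^ s) := by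
      have : j * (p ^ s * t') = t' * (j * p ^ s) := by ring
      rwa [this] at hd
    have h3 : P ∣ j * p ^ s := (Nat.mul_dvd_mul_iff_left ht').mp h2
    exact hcop'.symm.dvd_of_dvd_mul_right h3
  · rintro ⟨c, rfl⟩
    exact ⟨c * p ^ s, by ring⟩

/-- **RL-CYC.** -/
theorem rlCyc : RLCycStatement := by
  intro d hW he τ₀ φ μ hT j a hja
  have hp := d.hp
  have hchar := charP_residueField d
  have hτ₀ : τ₀ ∈ ramGroup d.B d.Γ 0 := hT.1
  have hμ : ∀ j : ℕ, τ₀ ^ j ∈ ramGroup d.B d.Γ 1 ↔ μ ^ j = 1 := hT.2.2.1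
  -- uniformizer
  obtain ⟨ϖ, hϖ⟩ := IsDiscreteValuationRing.exists_irreducible d.B
  have hϖ0 : ϖ ≠ 0 := hϖ.ne_zero
  have hζ1 : d.ζ - 1 ≠ 0 := sub_ne_zero.mpr (d.hζ.ne_one hp.one_lt)
  obtain ⟨t, w, hw⟩ := IsDiscreteValuationRing.eq_unit_mul_pow_irreducible hζ1 hϖ
  -- `e = t (p - 1)`
  have het : d.e = t * (d.p - 1) := by
    have h1 := span_natCast_eq_span_zeta_sub_one_pow hp d.hζ
    rw [d.he, hw, hϖ.maximalIdeal_eq, Ideal.span_singleton_pow, Ideal.span_singleton_pow,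
      Ideal.span_singleton_eq_span_singleton] at h1
    obtain ⟨u, hu'⟩ := h1
    have h2 : (u : d.B) * ϖ ^ d.e = ((w ^ (d.p - 1) : d.Bˣ) : d.B) * ϖ ^ (t * (d.p - 1)) := by
      rw [mul_comm, hu', mul_pow, ← pow_mul, Units.val_pow_eq_pow_val]
    exact IsDiscreteValuationRing.unit_mul_pow_congr_pow hϖ hϖ _ _ _ _ h2
  -- `0 < e`, hence `0 < t`
  have hepos : 0 < d.e := by
    rcases Nat.eq_zero_or_pos d.e with h0 | h0
    · exfalso
      have h1 := d.he
      rw [h0, pow_zero, Ideal.one_eq_top, Ideal.span_singleton_eq_top] at h1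
      exact (mem_nonunits_iff.mp ((mem_maximalIdeal _).mp (natCast_p_mem_maximalIdeal d))) h1
    · exact h0
  have htpos : 0 < t := by
    rcases Nat.eq_zero_or_pos t with h0 | h0
    · rw [h0, zero_mul] at het
      exact absurd het hepos.ne'
    · exact h0
  -- `ζ ≡ 1`
  have hresζ : residue d.B d.ζ = 1 := by
    have hmem : d.ζ - 1 ∈ maximalIdeal d.B := by
      rw [hw, hϖ.maximalIdeal_eq]
      exact Ideal.mul_mem_left _ _ (Ideal.pow_mem_of_mem _ (Ideal.mem_span_singleton_self ϖ) t htpos)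
    have := (residue_eq_zero_iff _).mpr hmem
    rwa [map_sub, map_one, sub_eq_zero] at this
  -- the key congruence `μ ^ (j t) = a`
  set σ := τ₀ ^ j with hσ
  have hσmem : σ ∈ ramGroup d.B d.Γ 0 := Subgroup.pow_mem _ hτ₀ j
  obtain ⟨u, -, hu⟩ := exists_smul_eq_mul σ hϖ
  have hresu : residue d.B u = μ ^ j := residue_unit_pow d hT hϖ j u hu
  have key : residue d.B (w : d.B) * μ ^ (j * t) = residue d.B (w : d.B) * (a : ResidueField d.B) := by
    have e1 : σ • (d.ζ - 1) = (σ • (w : d.B) * u ^ t) * ϖ ^ t := by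
      rw [hw, smul_mul', smul_pow', hu, mul_pow, mul_assoc]
    have e2 : σ • (d.ζ - 1) = ((w : d.B) * ∑ i ∈ range a, d.ζ ^ i) * ϖ ^ t := by
      rw [smul_sub, smul_one, hja, ← mul_geom_sum, hw]
      ring
    have e3 : σ • (w : d.B) * u ^ t = (w : d.B) * ∑ i ∈ range a, d.ζ ^ i :=
      mul_right_cancel₀ (pow_ne_zero t hϖ0) (e1.symm.trans e2)
    have e4 := congrArg (residue d.B) e3
    rw [map_mul, map_mul, map_pow, residue_smul_of_mem_ramGroup_zero hσmem, hresu, ← pow_mul,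
      map_sum] at e4
    rw [e4]
    congr 1
    simp only [map_pow, hresζ, one_pow, sum_const, card_range, nsmul_eq_mul, mul_one]
  have hwne : residue d.B (w : d.B) ≠ 0 := by
    intro h0
    exact (mem_nonunits_iff.mp ((mem_maximalIdeal _).mp ((residue_eq_zero_iff _).mp h0))) w.isUnit
  have hkey : μ ^ (j * t) = (a : ResidueField d.B) := mul_left_cancel₀ hwne key
  -- `a ≡ 1 [MOD p] ↔ ord μ ∣ j t`
  have h3 : a ≡ 1 [MOD d.p] ↔ orderOf μ ∣ j * t := by
    rw [orderOf_dvd_iff_pow_eq_one, hkey, ← CharP.natCast_eq_natCast (ResidueField d.B) d.p,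
      Nat.cast_one]
  rw [h3]
  -- counting
  have hcard := card_inertia_eq d hT
  have hfact : Fact d.p.Prime := ⟨hp⟩
  obtain ⟨s, hs⟩ := hW.exists_card_eq
  have hordpos : 0 < orderOf μ := by
    have hfin : IsOfFinOrder τ₀ := isOfFinOrder_of_finite τ₀
    have h1 : μ ^ orderOf τ₀ = 1 := by
      rw [← hμ, pow_orderOf_eq_one]
      exact one_mem _
    exact orderOf_pos_iff.mpr (isOfFinOrder_iff_pow_eq_one.mpr ⟨_, hfin.orderOf_pos, h1⟩)
  have hcop : Nat.Coprime (d.p - 1) d.p := by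
    have : Nat.Coprime d.p (d.p - 1) :=
      Nat.coprime_of_lt_prime (Nat.sub_pos_of_lt hp.one_lt).ne' (Nat.sub_lt hp.pos Nat.one_pos) hp
    exact this.symm
  exact dvd_mul_iff_of_mul_eq hordpos hp.pos hcop (by rw [← het, he, hcard, hs])

end Fermat.Agent.S56.H194

end
-- ===== PACK-END S56/H194/RLCyc.lean

-- ===== PACK-BEGIN S56/H334/RLTheta.lean
section


/-!
# S56 / W-FLAT-SS, piece FL-RAM (helper334): the frozen statement `RLTheta`

Proof of `FL.RLThetaStatement` (verbatim from `FL/RamLemSpec.lean`): the maps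
`θ_n : Γ_n / Γ_{n+1} ↪ κ` (`n ≥ 1`) with their equivariance.
-/

set_option autoImplicit false
set_option linter.unusedSectionVars false
set_option linter.style.haveILetI false

open IsLocalRing

namespace Fermat.Agent.S56.H334

open Fermat.Agent.S56

section ThetaFun

variable {B : Type*} [CommRing B] [IsDomain B] [IsDiscreteValuationRing B]
variable {Γ : Type*} [Group Γ] [MulSemiringAction Γ B]
variable {π : B} (hπ : Irreducible π)

/-- `θ_{m+1}` as a function on all of `Γ` (zero outside `Γ_{m+1}`). -/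
noncomputable def thetaFun (m : ℕ) (σ : Γ) : ResidueField B :=
  open Classical in
  if σ ∈ ramGroup Γ B (m + 1) then residue B (aOf hπ m σ) else 0

theorem thetaFun_of_mem {m : ℕ} {σ : Γ} (hσ : σ ∈ ramGroup Γ B (m + 1)) :
    thetaFun hπ m σ = residue B (aOf hπ m σ) := by
  rw [thetaFun, if_pos hσ]

theorem smul_sub_eq_aOf_mul {m : ℕ} {σ : Γ} (hσ : σ ∈ ramGroup Γ B (m + 1)) :
    σ • π - π = aOf hπ m σ * π ^ (m + 1 + 1) := by
  rw [smul_eq_mul_cOf hπ σ, cOf_eq_of_mem hπ hσ]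
  ring

theorem thetaFun_eq_residue {m : ℕ} {σ : Γ} (hσ : σ ∈ ramGroup Γ B (m + 1)) {a : B}
    (ha : σ • π - π = a * π ^ (m + 1 + 1)) : thetaFun hπ m σ = residue B a := by
  rw [thetaFun_of_mem hπ hσ]
  rw [smul_sub_eq_aOf_mul hπ hσ] at ha
  rw [mul_right_cancel₀ (pow_ne_zero _ hπ.ne_zero) ha]

theorem thetaFun_mul {m : ℕ} {σ τ : Γ} (hσ : σ ∈ ramGroup Γ B (m + 1))
    (hτ : τ ∈ ramGroup Γ B (m + 1)) :
    thetaFun hπ m (σ * τ) = thetaFun hπ m σ + thetaFun hπ m τ := by
  rw [thetaFun_of_mem hπ hσ, thetaFun_of_mem hπ hτ,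
    thetaFun_of_mem hπ (Subgroup.mul_mem _ hσ hτ)]
  exact residue_aOf_mul hπ ⟨σ, hσ⟩ ⟨τ, hτ⟩

theorem mem_of_thetaFun_eq_zero (hH : InertiaResidue Γ B) {m : ℕ} {σ : Γ}
    (hσ : σ ∈ ramGroup Γ B (m + 1)) (h : thetaFun hπ m σ = 0) :
    σ ∈ ramGroup Γ B (m + 1 + 1) := by
  rw [thetaFun_of_mem hπ hσ] at h
  refine (theta_eq_one_iff hπ hH m ⟨σ, hσ⟩).1 ?_
  apply Multiplicative.toAdd.injective
  rw [theta_apply]
  exact h

theorem thetaFun_conj {m : ℕ} {σ : Γ} (hσ : σ ∈ ramGroup Γ B (m + 1)) (g : Γ) {u a : B}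
    (hu : g • π = u * π) (ha : residue B a = thetaFun hπ m σ) :
    thetaFun hπ m (g * σ * g⁻¹) = residue B u ^ (m + 1) * residue B (g • a) := by
  have hconj : g * σ * g⁻¹ ∈ ramGroup Γ B (m + 1) := (ramGroup_normal (m + 1)).conj_mem _ hσ g
  rw [thetaFun_of_mem hπ hconj]
  rw [thetaFun_of_mem hπ hσ] at ha
  have hu' : u = cOf hπ g := by
    have h1 := smul_eq_mul_cOf hπ g
    rw [hu, mul_comm] at h1
    exact mul_left_cancel₀ hπ.ne_zero h1
  rw [hu', IsLocalRing.ResidueField.residue_smul, ha]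
  exact theta_conj hπ m g ⟨σ, hσ⟩

end ThetaFun

/-- **RL-θ** (frozen `FL.RLThetaStatement`). -/
theorem rlTheta : FL.RLThetaStatement := by
  intro d ϖ hϖ n hn
  obtain ⟨m, rfl⟩ : ∃ m, n = m + 1 := ⟨n - 1, by omega⟩
  have hH := rc_inertiaResidue d
  refine ⟨thetaFun hϖ m, ?_, ?_, ?_, ?_⟩
  · intro σ hσ a ha
    exact thetaFun_eq_residue hϖ hσ ha
  · intro σ hσ τ hτ
    exact thetaFun_mul hϖ hσ hτ
  · intro σ hσ h
    exact mem_of_thetaFun_eq_zero hϖ hH hσ h
  · intro σ hσ g u a hu ha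
    exact thetaFun_conj hϖ hσ g hu ha

end Fermat.Agent.S56.H334

end
-- ===== PACK-END S56/H334/RLTheta.lean

-- ===== PACK-BEGIN S56/H334/RLQuot.lean
section


/-!
# S56 / W-FLAT-SS, piece FL-RAM (helper334): the frozen statement `RLQuot`

Proof of `FL.RLQuotStatement` (verbatim from `FL/RamLemSpec.lean`): the ramification groups
`qRam d N n` of the quotients `Γ / N`, `N ≤ Γ₁` normal.

* `qRam_eq_quotRamGroup` : `d.qRam N n` is the subgroup `quotRamGroup d.A d.B d.Γ N n`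
  (ramification groups of `Γ ⧸ N` acting on the DVR `B^N`, pulled back to `Γ`).
-/

set_option autoImplicit false
set_option linter.unusedSectionVars false
set_option linter.style.haveILetI false

open IsLocalRing

namespace Fermat.Agent.S56.H334

open Fermat.Agent.S56

section QRam

variable (A B Γ : Type*) [CommRing A] [IsDomain A] [IsDiscreteValuationRing A]
  [CommRing B] [IsDomain B] [IsDiscreteValuationRing B] [Algebra A B] [Module.Finite A B]
  [FaithfulSMul A B] [Group Γ] [Finite Γ] [MulSemiringAction Γ B] [SMulCommClass Γ A B]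
  [Algebra.IsInvariant A B Γ] [FaithfulSMul Γ B]
  (N : Subgroup Γ) [N.Normal] [Finite (ResidueField A)]

/-- Membership in `quotRamGroup` in terms of `B` only (for `N ≤ Γ₀`). -/
theorem mem_quotRamGroup_iff_forall (hN : N ≤ ramGroup Γ B 0) (n : ℕ) (σ : Γ) :
    σ ∈ quotRamGroup A B Γ N n ↔
      ∀ x : B, (∀ ν ∈ N, ν • x = x) → σ • x - x ∈ maximalIdeal B ^ (Nat.card N * (n + 1)) := by
  haveI := isDiscreteValuationRing_fixedPoints A B N
  haveI := isLocalHom_fixedPoints A B Γ N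
  have he := map_maximalIdeal_fixedPoints A B Γ N hN
  rw [mem_quotRamGroup_iff]
  constructor
  · intro h x hx
    have hx' : ∀ ν : N, ν • x = x := fun ν => hx ν ν.2
    have h1 := h ⟨x, hx'⟩
    have h2 : (σ : Γ ⧸ N) • (⟨x, hx'⟩ : FixedPoints.subalgebra A B N) - ⟨x, hx'⟩ ∈
        maximalIdeal (FixedPoints.subalgebra A B N) ^ (n + 1) := h1
    rw [mem_maximalIdeal_pow_iff_of_map_eq he] at h2
    exact h2
  · intro h x
    show (σ : Γ ⧸ N) • x - x ∈ maximalIdeal (FixedPoints.subalgebra A B N) ^ (n + 1)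
    rw [mem_maximalIdeal_pow_iff_of_map_eq he]
    exact h x (fun ν hν => x.2 ⟨ν, hν⟩)

/-- Separatedness: `σ ∉ N` lies outside some `F N n`. -/
theorem exists_not_mem_quotRamGroup {σ : Γ} (hσ : σ ∉ N) :
    ∃ n, σ ∉ quotRamGroup A B Γ N n := by
  haveI := isDiscreteValuationRing_fixedPoints A B N
  haveI := faithfulSMul_quotient A B Γ N
  have hne : (σ : Γ ⧸ N) ≠ 1 := fun h => hσ ((QuotientGroup.eq_one_iff σ).1 h)
  obtain ⟨n, hn⟩ := exists_not_mem_ramGroup (Γ := Γ ⧸ N) (B := FixedPoints.subalgebra A B N) hne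
  exact ⟨n, hn⟩

end QRam

/-- `d.qRam N n` is (the underlying set of) `quotRamGroup`. -/
theorem qRam_eq_quotRamGroup (d : FL.RCDatum) (N : Subgroup d.Γ) [N.Normal]
    (hN : N ≤ ramGroup d.Γ d.B 0) (n : ℕ) :
    d.qRam N n = (quotRamGroup d.A d.B d.Γ N n : Set d.Γ) := by
  haveI := rc_finite_residue d
  ext σ
  rw [SetLike.mem_coe, mem_quotRamGroup_iff_forall d.A d.B d.Γ N hN n σ]
  rfl

/-- **RL-Q** (frozen `FL.RLQuotStatement`). -/
theorem rlQuot : FL.RLQuotStatement := by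
  intro d N hN
  haveI := hN.1
  haveI := rc_fact_prime d
  haveI := rc_finite_residue d
  haveI := rc_charP_residue d
  have hN1 : N ≤ ramGroup d.Γ d.B 1 := hN.2
  have hN0 : N ≤ ramGroup d.Γ d.B 0 := hN1.trans (ramGroup_antitone (Nat.zero_le 1))
  have key : ∀ n σ, σ ∈ d.qRam N n ↔ σ ∈ quotRamGroup d.A d.B d.Γ N n := by
    intro n σ
    rw [qRam_eq_quotRamGroup d N hN0 n]
    rfl
  refine ⟨?_, ?_, ?_, ?_, ?_, ?_⟩
  · intro n
    exact ⟨quotRamGroup d.A d.B d.Γ N n, quotRamGroup_normal d.A d.B d.Γ N n,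
      (qRam_eq_quotRamGroup d N hN0 n).symm⟩
  · intro σ hσ
    exact (key 0 σ).2 (ramGroup_zero_le_quotRamGroup d.A d.B d.Γ N hσ)
  · intro σ hσ
    exact (key 1 σ).2 (ramGroup_one_le_quotRamGroup d.A d.B d.Γ N d.p hσ)
  · intro σ hσ0 hσ1
    exact quotRamGroup_one_inf_le d.A d.B d.Γ N d.p hN1 ⟨(key 1 σ).1 hσ1, hσ0⟩
  · intro σ hσ
    obtain ⟨n, hn⟩ := exists_not_mem_quotRamGroup d.A d.B d.Γ N hσ
    exact ⟨n, fun h => hn ((key n σ).1 h)⟩
  · intro n hn σ hσ hσ' τ hτ
    rw [key, key]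
    exact quot_conj_mul_inv_mem_iff d.A d.B d.Γ N hn ((key n σ).1 hσ)
      (fun h => hσ' ((key (n + 1) σ).2 h)) hτ

end Fermat.Agent.S56.H334

end
-- ===== PACK-END S56/H334/RLQuot.lean

-- ===== PACK-BEGIN S55/E1/Tr/Defs.lean
section
/-
S55 engine E1 — block ALG, part 3: DEFINITIONS for ALG9 (edge map), ALG10 (transitions),
ALG11 (local injectivity).   Sub-architect: helper895 (assigned by helper55, note #4405).
Blueprint: coord/S55-E1.md §3.   NO sorry.   Namespace `Fermat.Agent.S55.E1`.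

CHANGE OF GROUP.  Data: `π : G' →* G`, `N : Rep ℤ G`, `N' : Rep ℤ G'`,
`ν : N' ⟶ Rep.res π N` (in the tower: the identity), `X : Rep ℤ G`, `X' : Rep ℤ G'`,
`ι : Rep.res π X ⟶ X'` (SEMILINEAR form: `ι (π(g') x) = g' ι(x)`).

* `trP π ν : stdP N' ⟶ Rep.res π (stdP N)`      `ρ : g' e_{n'} ↦ π(g') e_{ν n'}`;
* `trR π ν : stdR N' ⟶ Rep.res π (stdR N)`      restriction of `ρ` to `R'` (`trR_stdι`);
* `trA π ν ι : homA N X →+ homA N' X'`,  `trB π ν ι : homB N X →+ homB N' X'`   `f ↦ ι ∘ f ∘ ρ`;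
  `trA_resBA` (tr commutes with `res : Bc → A`), `Extends.tr`;
* `trIhom π a ι : Rep.res π (Hom(A, X)) ⟶ Hom(A', X')`   `φ ↦ ι ∘ φ ∘ a`  (generic `k`);
* `trE2 π ν ι : E2 N X →+ E2 N' X'`              on `𝔈² = H¹(G, Hom_ℤ(R, X))`;
* `infCoeff π ι n : Hⁿ(G, X) →+ Hⁿ(G', X')`      `inf_ι = ι_* ∘ (inflation along π)`.

EDGE MAP.  `edgeB N X = 𝔹 = im(Hom_ℤ(P, X) → Hom_ℤ(R, X))` (a `G`-module),
`edgeSC N X : 0 → Hom_ℤ(N, X) → Hom_ℤ(P, X) → 𝔹 → 0` (`edgeSC_shortExact`),
`edgeδ N X : H¹(G, 𝔹) → H²(G, Hom_ℤ(N, X))` (bijective: ALG9),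
`edgeIncl N X : H¹(G, 𝔹) → 𝔈²(X)`;  `IsEdge x y : Prop`  (`y = e(x)`),
`trEdgeB π ν ι : Rep.res π (edgeB N X) ⟶ edgeB N' X'`.
-/



set_option autoImplicit false

open CategoryTheory CategoryTheory.Limits

namespace Fermat.Agent.S55.E1

noncomputable section

variable {G G' : Type} [Group G] [Group G'] (π : G' →* G)
variable {N : Rep.{0} ℤ G} {N' : Rep.{0} ℤ G'} (ν : N' ⟶ Rep.res π N)

/-- `ρ : P' → P`, `g' • e_{n'} ↦ π(g') • e_{ν n'}`. -/
def trP : stdP N' ⟶ Rep.res π (stdP N) :=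
  Rep.freeLift ℤ G' (Rep.res π (stdP N)) (fun n' : N'.V => stdE N (ν.hom n'))

lemma trP_stdE (n' : N'.V) : (trP π ν).hom (stdE N' n') = stdE N (ν.hom n') := by
  simp [trP, stdE]

lemma resFunctor_map_hom_apply {A B : Rep.{0} ℤ G} (f : A ⟶ B) (x : A.V) :
    ((Rep.resFunctor π).map f).hom x = f.hom x := rfl

lemma trP_stdε : trP π ν ≫ (Rep.resFunctor π).map (stdε N) = stdε N' ≫ ν := by
  apply Rep.free_ext
  intro n'
  have h1 := trP_stdE π ν n'
  have h2 := stdε_stdE N' n'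
  have h3 := stdε_stdE N (ν.hom n')
  unfold stdE at h1 h2 h3
  rw [Rep.comp_apply, Rep.comp_apply]
  erw [h1, h2]
  exact h3

lemma trP_stdε_apply (x : (stdP N').V) :
    (stdε N).hom ((trP π ν).hom x) = ν.hom ((stdε N').hom x) := by
  have := congrArg (fun f => f.hom x) (trP_stdε π ν)
  exact this

/-- `ρ|_{R'} : R' → R`. -/
def trR : stdR N' ⟶ Rep.res π (stdR N) :=
  kernel.lift ((Rep.resFunctor π).map (stdε N)) (stdι N' ≫ trP π ν) (by
    rw [Category.assoc, trP_stdε, ← Category.assoc]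
    have : stdι N' ≫ stdε N' = 0 := kernel.condition _
    rw [this, zero_comp]) ≫ (PreservesKernel.iso (Rep.resFunctor π) (stdε N)).inv

lemma trR_stdι : trR π ν ≫ (Rep.resFunctor π).map (stdι N) = stdι N' ≫ trP π ν := by
  have h := PreservesKernel.iso_inv_ι (Rep.resFunctor π) (stdε N)
  exact (Category.assoc _ _ _).trans ((congrArg (fun t => _ ≫ t) h).trans (kernel.lift_ι _ _ _))

lemma trR_stdι_apply (r : (stdR N').V) :
    (stdι N).hom ((trR π ν).hom r) = (trP π ν).hom ((stdι N').hom r) := by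
  have := congrArg (fun f => f.hom r) (trR_stdι π ν)
  exact this

end

end Fermat.Agent.S55.E1

namespace Fermat.Agent.S55.E1

noncomputable section

variable {G G' : Type} [Group G] [Group G'] (π : G' →* G)
variable {N : Rep.{0} ℤ G} {N' : Rep.{0} ℤ G'} (ν : N' ⟶ Rep.res π N)
variable {X : Rep.{0} ℤ G} {X' : Rep.{0} ℤ G'} (ι : Rep.res π X ⟶ X')


/-- Pointwise extensionality for morphisms of representations. -/
lemma repHom_ext_tr {H : Type} [Group H] {A B : Rep.{0} ℤ H} {f g : A ⟶ B}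
    (h : ∀ x : A.V, f.hom x = g.hom x) : f = g := by
  apply Rep.hom_ext
  apply DFunLike.ext
  exact h

/-- `tr : A(X) → A'(X')`, `f ↦ ι ∘ f ∘ ρ`. -/
def trA : homA N X →+ homA N' X' where
  toFun f := trR π ν ≫ (Rep.resFunctor π).map f ≫ ι
  map_zero' := by
    rw [Functor.map_zero, zero_comp, comp_zero]
  map_add' f g := by
    rw [Functor.map_add, Preadditive.add_comp, Preadditive.comp_add]

/-- `tr : Bc(X) → Bc'(X')`, `h ↦ ι ∘ h ∘ ρ`. -/
def trB : homB N X →+ homB N' X' where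
  toFun h := trP π ν ≫ (Rep.resFunctor π).map h ≫ ι
  map_zero' := by
    rw [Functor.map_zero, zero_comp, comp_zero]
  map_add' f g := by
    rw [Functor.map_add, Preadditive.add_comp, Preadditive.comp_add]

lemma trA_hom_apply (f : homA N X) (r : (stdR N').V) :
    (trA π ν ι f).hom r = ι.hom (f.hom ((trR π ν).hom r)) := rfl

lemma trB_hom_apply (h : homB N X) (x : (stdP N').V) :
    (trB π ν ι h).hom x = ι.hom (h.hom ((trP π ν).hom x)) := rfl

/-- `tr` commutes with `res : Bc → A`. -/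
lemma trA_resBA (h : homB N X) : trA π ν ι (resBA N X h) = resBA N' X' (trB π ν ι h) := by
  change trR π ν ≫ (Rep.resFunctor π).map (stdι N ≫ h) ≫ ι =
    stdι N' ≫ trP π ν ≫ (Rep.resFunctor π).map h ≫ ι
  rw [Functor.map_comp, ← Category.assoc, ← Category.assoc, trR_stdι]
  simp only [Category.assoc]

/-- `tr` preserves extendability. -/
lemma Extends.tr {f : homA N X} (hf : Extends f) : Extends (trA π ν ι f) := by
  obtain ⟨h, rfl⟩ := hf
  exact ⟨trB π ν ι h, (trA_resBA π ν ι h).symm⟩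

end

end Fermat.Agent.S55.E1

namespace Fermat.Agent.S55.E1

noncomputable section

section Generic

variable {k G G' : Type} [CommRing k] [Group G] [Group G'] (π : G' →* G)
variable {A X : Rep.{0} k G} {A' X' : Rep.{0} k G'}

/-- The linear map `φ ↦ ι ∘ φ ∘ a` on `Hom_k(A, X) → Hom_k(A', X')`. -/
def trHomLin (a : A' ⟶ Rep.res π A) (ι : Rep.res π X ⟶ X') :
    (A.V →ₗ[k] X.V) →ₗ[k] (A'.V →ₗ[k] X'.V) where
  toFun φ := ι.hom.toLinearMap ∘ₗ φ ∘ₗ a.hom.toLinearMap
  map_add' φ ψ := by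
    ext x
    simp
  map_smul' c φ := by
    ext x
    simp

lemma trHomLin_apply (a : A' ⟶ Rep.res π A) (ι : Rep.res π X ⟶ X') (φ : A.V →ₗ[k] X.V)
    (x : A'.V) : trHomLin π a ι φ x = ι.hom (φ (a.hom x)) := rfl

/-- `Φ : res_π Hom_k(A, X) ⟶ Hom_k(A', X')`, `φ ↦ ι ∘ φ ∘ a`, as a morphism of `G'`-modules. -/
def trIhom (a : A' ⟶ Rep.res π A) (ι : Rep.res π X ⟶ X') :
    Rep.res π ((Rep.ihom A).obj X) ⟶ (Rep.ihom A').obj X' :=
  Rep.ofHom ⟨trHomLin π a ι, fun g' => by
    refine LinearMap.ext fun (φ : A.V →ₗ[k] X.V) => LinearMap.ext fun x => ?_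
    have h1 : a.hom (A'.ρ g'⁻¹ x) = A.ρ (π g')⁻¹ (a.hom x) := by
      have := Rep.hom_comm_apply a g'⁻¹ x
      rw [this]
      change A.ρ (π g'⁻¹) _ = _
      rw [map_inv]
    have h2 : ∀ y : X.V, ι.hom (X.ρ (π g') y) = X'.ρ g' (ι.hom y) :=
      fun y => Rep.hom_comm_apply ι g' y
    change ι.hom (X.ρ (π g') (φ (A.ρ (π g')⁻¹ (a.hom x)))) =
      X'.ρ g' (ι.hom (φ (a.hom (A'.ρ g'⁻¹ x))))
    rw [h1, h2]⟩

end Generic

end

end Fermat.Agent.S55.E1

namespace Fermat.Agent.S55.E1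

noncomputable section

section GenericEdge

variable {k G : Type} [CommRing k] [Group G]

/-- Precomposition `Hom_k(B, X) ⟶ Hom_k(A, X)`, `φ ↦ φ ∘ a`, as a morphism of `G`-modules. -/
def ihomPre {A B : Rep.{0} k G} (a : A ⟶ B) (X : Rep.{0} k G) :
    (Rep.ihom B).obj X ⟶ (Rep.ihom A).obj X :=
  Rep.ofHom ⟨LinearMap.lcomp k X.V a.hom.toLinearMap, fun g => by
    refine LinearMap.ext fun (φ : B.V →ₗ[k] X.V) => LinearMap.ext fun x => ?_
    change X.ρ g (φ (B.ρ g⁻¹ (a.hom x))) = X.ρ g (φ (a.hom (A.ρ g⁻¹ x)))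
    rw [Rep.hom_comm_apply]⟩

lemma ihomPre_hom_apply {A B : Rep.{0} k G} (a : A ⟶ B) (X : Rep.{0} k G)
    (φ : B.V →ₗ[k] X.V) (x : A.V) :
    (show A.V →ₗ[k] X.V from (ihomPre a X).hom φ) x = φ (a.hom x) := rfl

/-- The image of `Hom_k(B, X) → Hom_k(A, X)` as a submodule. -/
def ihomImage {A B : Rep.{0} k G} (a : A ⟶ B) (X : Rep.{0} k G) :
    Submodule k ((Rep.ihom A).obj X).V :=
  LinearMap.range (ihomPre a X).hom.toLinearMap

lemma ihomImage_stable {A B : Rep.{0} k G} (a : A ⟶ B) (X : Rep.{0} k G) (g : G) :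
    ihomImage a X ≤ (ihomImage a X).comap (((Rep.ihom A).obj X).ρ g) := by
  rintro _ ⟨ψ, rfl⟩
  exact ⟨((Rep.ihom B).obj X).ρ g ψ, (Rep.hom_comm_apply (ihomPre a X) g ψ)⟩

/-- `𝔹 = im(Hom_k(B, X) → Hom_k(A, X))` as a `G`-module. -/
def ihomImageRep {A B : Rep.{0} k G} (a : A ⟶ B) (X : Rep.{0} k G) : Rep.{0} k G :=
  Rep.subrepresentation ((Rep.ihom A).obj X) (ihomImage a X) (ihomImage_stable a X)

/-- The inclusion `𝔹 ⟶ Hom_k(A, X)`. -/
def ihomImageIncl {A B : Rep.{0} k G} (a : A ⟶ B) (X : Rep.{0} k G) :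
    ihomImageRep a X ⟶ (Rep.ihom A).obj X :=
  Rep.subtype ((Rep.ihom A).obj X) (ihomImage a X) (ihomImage_stable a X)

/-- The projection `Hom_k(B, X) ⟶ 𝔹`. -/
def ihomImageProj {A B : Rep.{0} k G} (a : A ⟶ B) (X : Rep.{0} k G) :
    (Rep.ihom B).obj X ⟶ ihomImageRep a X :=
  Rep.ofHom ⟨(ihomPre a X).hom.toLinearMap.rangeRestrict, fun g => by
    refine LinearMap.ext fun φ => Subtype.ext ?_
    exact Rep.hom_comm_apply (ihomPre a X) g φ⟩

end GenericEdge

end

end Fermat.Agent.S55.E1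

namespace Fermat.Agent.S55.E1

noncomputable section

section GenericEdge2

variable {k G : Type} [CommRing k] [Group G]

/-- For a short complex `A → B → C` the short complex
`Hom_k(C, X) → Hom_k(B, X) → im(Hom_k(B, X) → Hom_k(A, X))`. -/
def ihomImageSC (S : ShortComplex (Rep.{0} k G)) (X : Rep.{0} k G) :
    ShortComplex (Rep.{0} k G) :=
  ShortComplex.mk (ihomPre S.g X) (ihomImageProj S.f X) (by
    apply Rep.hom_ext
    apply DFunLike.ext
    intro (φ : S.X₃.V →ₗ[k] X.V)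
    apply Subtype.ext
    apply LinearMap.ext
    intro x
    change φ (S.g.hom (S.f.hom x)) = 0
    have h : S.f ≫ S.g = 0 := S.zero
    have h' : S.g.hom (S.f.hom x) = 0 := by
      have := congrArg (fun t => t.hom x) h
      exact this
    rw [h', map_zero])

end GenericEdge2

end

end Fermat.Agent.S55.E1

namespace Fermat.Agent.S55.E1

noncomputable section

section GenericEdge3

variable {k G : Type} [CommRing k] [Group G]

open Fermat.Agent.S55.T.H719 in
theorem ihomImageSC_shortExact (S : ShortComplex (Rep.{0} k G)) (hS : S.ShortExact)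
    (X : Rep.{0} k G) : (ihomImageSC S X).ShortExact := by
  obtain ⟨hinj, hsurj, hex⟩ := (rep_shortExact_iff S).1 hS
  rw [rep_shortExact_iff]
  refine ⟨?_, ?_, ?_⟩
  · intro (φ : S.X₃.V →ₗ[k] X.V) (ψ : S.X₃.V →ₗ[k] X.V) h
    apply LinearMap.ext
    intro c
    obtain ⟨b, rfl⟩ := hsurj c
    exact LinearMap.congr_fun h b
  · rintro ⟨_, ⟨ψ, rfl⟩⟩
    exact ⟨ψ, rfl⟩
  · intro (ψ : S.X₂.V →ₗ[k] X.V) hψ
    have hψ' : ∀ a : S.X₁.V, ψ (S.f.hom a) = 0 := by
      intro a
      have := congrArg (fun t : (ihomImageRep S.f X).V => (show S.X₁.V →ₗ[k] X.V from t.1) a) hψ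
      exact this
    have hker : LinearMap.ker S.g.hom.toLinearMap ≤ LinearMap.ker ψ := by
      intro b hb
      obtain ⟨a, rfl⟩ := hex b hb
      exact hψ' a
    let e := S.g.hom.toLinearMap.quotKerEquivOfSurjective hsurj
    refine ⟨((LinearMap.ker S.g.hom.toLinearMap).liftQ ψ hker) ∘ₗ e.symm.toLinearMap, ?_⟩
    apply LinearMap.ext
    intro b
    change ((LinearMap.ker S.g.hom.toLinearMap).liftQ ψ hker) (e.symm (S.g.hom b)) = ψ b
    have : e.symm (S.g.hom b) = Submodule.Quotient.mk b := by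
      rw [LinearEquiv.symm_apply_eq]
      rfl
    rw [this, Submodule.liftQ_apply]

end GenericEdge3

end

end Fermat.Agent.S55.E1

namespace Fermat.Agent.S55.E1

noncomputable section

/-! ## Transitions on `𝔈²` and on cohomology -/

section TrE2

variable {G G' : Type} [Group G] [Group G'] (π : G' →* G)
variable {N : Rep.{0} ℤ G} {N' : Rep.{0} ℤ G'} (ν : N' ⟶ Rep.res π N)
variable {X : Rep.{0} ℤ G} {X' : Rep.{0} ℤ G'} (ι : Rep.res π X ⟶ X')

/-- `inf_ι = ι_* ∘ (inflation along π) : Hⁿ(G, X) → Hⁿ(G', X')`. -/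
def infCoeff (n : ℕ) : groupCohomology X n →ₗ[ℤ] groupCohomology X' n :=
  (groupCohomology.map π ι n).hom

/-- `tr : 𝔈²_G(X) → 𝔈²_{G'}(X')`, on cocycles `tr(c)(g') = ι ∘ c(π g') ∘ ρ`. -/
def trE2 : E2 N X →ₗ[ℤ] E2 N' X' :=
  (groupCohomology.map π (trIhom π (trR π ν) ι) 1).hom

end TrE2

/-! ## The edge map -/

section Edge

variable {G : Type} [Group G]

/-- `𝔹 = im(Hom_ℤ(P, X) → Hom_ℤ(R, X))` as a `G`-module. -/
def edgeB (N X : Rep.{0} ℤ G) : Rep.{0} ℤ G := ihomImageRep (stdι N) X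

/-- The short complex `0 → Hom_ℤ(N, X) → Hom_ℤ(P, X) → 𝔹 → 0`. -/
def edgeSC (N X : Rep.{0} ℤ G) : ShortComplex (Rep.{0} ℤ G) := ihomImageSC (stdSC N) X

theorem edgeSC_shortExact (N X : Rep.{0} ℤ G) : (edgeSC N X).ShortExact :=
  ihomImageSC_shortExact (stdSC N) (stdSC_shortExact N) X

/-- The connecting map `δ' : H¹(G, 𝔹) → H²(G, Hom_ℤ(N, X))` (bijective by ALG9). -/
def edgeδ (N X : Rep.{0} ℤ G) :
    groupCohomology (edgeB N X) 1 →ₗ[ℤ] groupCohomology ((Rep.ihom N).obj X) 2 :=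
  (groupCohomology.δ (edgeSC_shortExact N X) 1 2 rfl).hom

/-- `incl_* : H¹(G, 𝔹) → 𝔈²(X) = H¹(G, Hom_ℤ(R, X))`. -/
def edgeIncl (N X : Rep.{0} ℤ G) : groupCohomology (edgeB N X) 1 →ₗ[ℤ] E2 N X :=
  (T.coeffMap (ihomImageIncl (stdι N) X) 1).hom

/-- `y = e(x)`: the edge map `e = incl_* ∘ δ'⁻¹ : H²(G, Hom_ℤ(N, X)) → 𝔈²(X)` as a relation
(functional and total by ALG9). -/
def IsEdge {N X : Rep.{0} ℤ G} (x : groupCohomology ((Rep.ihom N).obj X) 2) (y : E2 N X) : Prop :=
  ∃ b : groupCohomology (edgeB N X) 1, edgeδ N X b = x ∧ edgeIncl N X b = y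

end Edge

section TrEdgeGeneric

variable {k G G' : Type} [CommRing k] [Group G] [Group G'] (π : G' →* G)
variable {A B X : Rep.{0} k G} {A' B' X' : Rep.{0} k G'}
variable (a : A ⟶ B) (a' : A' ⟶ B') (tA : A' ⟶ Rep.res π A) (tB : B' ⟶ Rep.res π B)
variable (ι : Rep.res π X ⟶ X')

lemma trIhom_mem_ihomImage (hsq : ∀ x : A'.V, a.hom (tA.hom x) = tB.hom (a'.hom x))
    (φ : ((Rep.ihom A).obj X).V) (hφ : φ ∈ ihomImage a X) :
    (trIhom π tA ι).hom φ ∈ ihomImage a' X' := by
  obtain ⟨ψ, rfl⟩ := hφ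
  refine ⟨(trIhom π tB ι).hom ψ, ?_⟩
  refine LinearMap.ext fun r => ?_
  change ι.hom ((show B.V →ₗ[k] X.V from ψ) (tB.hom (a'.hom r))) =
    ι.hom ((show B.V →ₗ[k] X.V from ψ) (a.hom (tA.hom r)))
  rw [hsq]

/-- `tr : res_π im(Hom(B, X) → Hom(A, X)) ⟶ im(Hom(B', X') → Hom(A', X'))`, the restriction of
`φ ↦ ι ∘ φ ∘ tA`. -/
def trImage (hsq : ∀ x : A'.V, a.hom (tA.hom x) = tB.hom (a'.hom x)) :
    Rep.res π (ihomImageRep a X) ⟶ ihomImageRep a' X' :=
  Rep.ofHom ⟨((trIhom π tA ι).hom.toLinearMap.comp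
      (ihomImage a X).subtype).codRestrict (ihomImage a' X')
      (fun φ => trIhom_mem_ihomImage π a a' tA tB ι hsq φ.1 φ.2), fun g' => by
    refine LinearMap.ext fun φ => Subtype.ext ?_
    exact Rep.hom_comm_apply (trIhom π tA ι) g' φ.1⟩

end TrEdgeGeneric

section TrEdge

variable {G G' : Type} [Group G] [Group G'] (π : G' →* G)
variable {N : Rep.{0} ℤ G} {N' : Rep.{0} ℤ G'} (ν : N' ⟶ Rep.res π N)
variable {X : Rep.{0} ℤ G} {X' : Rep.{0} ℤ G'} (ι : Rep.res π X ⟶ X')

/-- `tr : res_π 𝔹 ⟶ 𝔹'`, the restriction of `φ ↦ ι ∘ φ ∘ ρ`. -/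
def trEdgeB : Rep.res π (edgeB N X) ⟶ edgeB N' X' :=
  trImage π (stdι N) (stdι N') (trR π ν) (trP π ν) ι (fun r => trR_stdι_apply π ν r)

end TrEdge

end

end Fermat.Agent.S55.E1

end
-- ===== PACK-END S55/E1/Tr/Defs.lean

-- ===== PACK-BEGIN S55/Bridge/H175/PrimeLevel.lean
section




set_option autoImplicit false
set_option linter.style.haveILetI false

/-!
# B11, part 5: the finite-level dictionary for the Prelude's `primeLocalToGlobal`

Everything of `LocalLevel`, `LevelGalois`, `DecompLevel`, `LevelPrime` restated for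
`q : Nat.Primes` and the Prelude objects `primeLocalGaloisGroup q`, `primeLocalToGlobal q`,
`primeLocalPlace q`.
-/

open scoped NNReal Pointwise NumberField

namespace Fermat.Agent.S55.Bridge.H175

open ExtCitation

variable (q : Nat.Primes) (F : IntermediateField ℚ (AlgebraicClosure ℚ))

/-- The local level `F_q = ℚ_q · ι(F)` for `q : Nat.Primes`. -/
noncomputable def primeLocalLevel :
    letI : Fact (q : ℕ).Prime := ⟨q.2⟩
    IntermediateField ℚ_[(q : ℕ)] (PadicAlgCl (q : ℕ)) :=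
  letI : Fact (q : ℕ).Prime := ⟨q.2⟩
  localLevel (q : ℕ) F

theorem finiteDimensional_primeLocalLevel [FiniteDimensional ℚ F] :
    letI : Fact (q : ℕ).Prime := ⟨q.2⟩
    FiniteDimensional ℚ_[(q : ℕ)] (primeLocalLevel q F) :=
  letI : Fact (q : ℕ).Prime := ⟨q.2⟩
  finiteDimensional_localLevel (q : ℕ) F

theorem isGalois_primeLocalLevel [Normal ℚ F] :
    letI : Fact (q : ℕ).Prime := ⟨q.2⟩
    IsGalois ℚ_[(q : ℕ)] (primeLocalLevel q F) :=
  letI : Fact (q : ℕ).Prime := ⟨q.2⟩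
  isGalois_localLevel (q : ℕ) F

/-- **`(primeLocalToGlobal q)⁻¹(G_F) = Gal(ℚ̄_q/F_q)`.** -/
theorem comap_primeLocalToGlobal_fixingSubgroup :
    letI : Fact (q : ℕ).Prime := ⟨q.2⟩
    F.fixingSubgroup.comap (primeLocalToGlobal q) = (primeLocalLevel q F).fixingSubgroup :=
  letI : Fact (q : ℕ).Prime := ⟨q.2⟩
  comap_fixingSubgroup (q : ℕ) F

/-- An element of the local Galois group restricts to `G_F` iff it fixes `ι(F)` pointwise. -/
theorem primeLocalToGlobal_mem_fixingSubgroup_iff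
    (τ : letI : Fact (q : ℕ).Prime := ⟨q.2⟩
      PadicAlgCl (q : ℕ) ≃ₐ[ℚ_[(q : ℕ)]] PadicAlgCl (q : ℕ)) :
    letI : Fact (q : ℕ).Prime := ⟨q.2⟩
    primeLocalToGlobal q τ ∈ F.fixingSubgroup ↔
      ∀ x ∈ F, τ (padicEmbedding (q : ℕ) x) = padicEmbedding (q : ℕ) x := by
  letI : Fact (q : ℕ).Prime := ⟨q.2⟩
  rw [IntermediateField.mem_fixingSubgroup_iff]
  constructor
  · intro h x hx
    have h1 := h x hx
    have h2 := padicEmbedding_localGaloisToGlobal (q : ℕ) τ x
    rw [← h2]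
    exact congrArg _ h1
  · intro h x hx
    apply Fermat.Agent.S55.H175.padicEmbedding_injective (q : ℕ)
    have h2 := padicEmbedding_localGaloisToGlobal (q : ℕ) τ x
    exact h2.trans (h x hx)

section Normal

variable [hFn : Normal ℚ F]

/-- `Gal(ℚ̄_q/ℚ_q) → Gal(F/ℚ)` for `q : Nat.Primes`. -/
noncomputable def primeToLevel : primeLocalGaloisGroup q →* (F ≃ₐ[ℚ] F) :=
  (AlgEquiv.restrictNormalHom (F := ℚ) (K₁ := AlgebraicClosure ℚ) F).comp (primeLocalToGlobal q)

theorem primeToLevel_apply_coe (τ : primeLocalGaloisGroup q) (x : F) :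
    ((primeToLevel q F τ x : F) : AlgebraicClosure ℚ) =
      primeLocalToGlobal q τ (x : AlgebraicClosure ℚ) :=
  AlgEquiv.restrictNormal_commutes (primeLocalToGlobal q τ) F x

theorem primeToLevel_eq_toLevel :
    letI : Fact (q : ℕ).Prime := ⟨q.2⟩
    primeToLevel q F = toLevel (q : ℕ) F := rfl

omit hFn in
/-- The prime of `𝓞 F` below the Prelude place `primeLocalPlace q`. -/
noncomputable def primeLevelPrime : Ideal (𝓞 F) := primeOfPlace (levelPlace F (primeLocalPlace q))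

omit hFn in
theorem primeLevelPrime_isPrime : (primeLevelPrime q F).IsPrime := primeOfPlace_isPrime _

omit hFn in
theorem natCast_mem_primeLevelPrime : ((q : ℕ) : 𝓞 F) ∈ primeLevelPrime q F :=
  letI : Fact (q : ℕ).Prime := ⟨q.2⟩
  natCast_mem_levelPrime (q : ℕ) F

/-- **The image of the local Galois group in `Gal(F/ℚ)` is the decomposition group** of the
valuation subring `primeLocalPlace q ∩ F`. -/
theorem range_primeToLevel :
    (primeToLevel q F).range = (levelPlace F (primeLocalPlace q)).decompositionSubgroup ℚ :=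
  letI : Fact (q : ℕ).Prime := ⟨q.2⟩
  decompositionAt_eq (q : ℕ) F

/-- **The image of the local Galois group in `Gal(F/ℚ)` is the stabiliser of the prime**
`primeLevelPrime q F` of `𝓞 F`. -/
theorem range_primeToLevel_eq_stabilizer :
    (primeToLevel q F).range = MulAction.stabilizer (F ≃ₐ[ℚ] F) (primeLevelPrime q F) :=
  letI : Fact (q : ℕ).Prime := ⟨q.2⟩
  decompositionAt_eq_stabilizer (q : ℕ) F

/-- **`ker (Gal(ℚ̄_q/ℚ_q) → Gal(F/ℚ)) = Gal(ℚ̄_q/F_q)`.** -/
theorem ker_primeToLevel :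
    letI : Fact (q : ℕ).Prime := ⟨q.2⟩
    (primeToLevel q F).ker = (primeLocalLevel q F).fixingSubgroup :=
  letI : Fact (q : ℕ).Prime := ⟨q.2⟩
  ker_toLevel (q : ℕ) F

/-- The order of the finite-level decomposition group is the local degree `[F_q : ℚ_q]`. -/
theorem card_range_primeToLevel [FiniteDimensional ℚ F] :
    letI : Fact (q : ℕ).Prime := ⟨q.2⟩
    Nat.card (primeToLevel q F).range = Module.finrank ℚ_[(q : ℕ)] (primeLocalLevel q F) :=
  letI : Fact (q : ℕ).Prime := ⟨q.2⟩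
  card_decompositionAt (q : ℕ) F

end Normal

end Fermat.Agent.S55.Bridge.H175

end
-- ===== PACK-END S55/Bridge/H175/PrimeLevel.lean

-- ===== PACK-BEGIN S55/H901/H1FinMain.lean
section



/-!
# S55 / G5: finiteness of `H¹(G_S, M)` — unconditional form

`UnramClassicalSpec S` is discharged by helper594's B10 (`Bridge/H594/Unram.lean`), giving

* `finiteDimensional_continuousH1S` : `H¹(G_S, M)` is finite-dimensional,
* `finiteDimensional_sha₁`, `finiteDimensional_sha₁_dualTwist`.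
-/

set_option autoImplicit false
set_option linter.style.haveILetI false
set_option linter.unusedSectionVars false

open IntermediateField groupCohomology ExtCitation IsDedekindDomain
open scoped NumberField

namespace Fermat.Agent.S55.H901

open Fermat.Agent.S55.Bridge

/-- **B10-classical**, from helper594's `isUnramifiedOutside_iff_ramificationIdxIn`. -/
theorem unramClassicalSpec (S : Finset Nat.Primes) : UnramClassicalSpec S := by
  intro F hNF hF hgal w q hq hqS hqw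
  haveI := hF.1
  have hqS' : (⟨q, hq⟩ : Nat.Primes) ∉ S := fun h => hqS ⟨q, hq⟩ h rfl
  have h1 := (H594.isUnramifiedOutside_iff_ramificationIdxIn F S).1 hF ⟨q, hq⟩ hqS'
  haveI hgalg : IsGaloisGroup (F ≃ₐ[ℚ] F) ℤ (𝓞 F) :=
    IsGaloisGroup.of_isFractionRing (F ≃ₐ[ℚ] F) ℤ (𝓞 F) ℚ F
  haveI := w.isPrime
  haveI := H594.liesOver_span_of_natCast_mem F hq w.asIdeal hqw
  have hq0 : Ideal.span {(q : ℤ)} ≠ ⊥ := by
    rw [Ne, Ideal.span_singleton_eq_bot]
    exact_mod_cast hq.ne_zero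
  rw [Ideal.ramificationIdx'_eq_ramificationIdx _ _ hq0,
    ← Ideal.ramificationIdxIn_eq_ramificationIdx (Ideal.span {(q : ℤ)}) w.asIdeal (F ≃ₐ[ℚ] F)]
  exact h1

variable {p : ℕ} [Fact p.Prime]

/-- **G5**: `H¹(G_S, M)` is finite-dimensional. -/
theorem finiteDimensional_continuousH1S (S : Finset Nat.Primes) (hpS : pPrime p ∈ S)
    (M : Rep.{0, 0, 0} (ZMod p) (AlgebraicClosure ℚ ≃ₐ[ℚ] AlgebraicClosure ℚ))
    [FiniteDimensional (ZMod p) M]
    (hsm : ∀ m : M, ∃ F : IntermediateField ℚ (AlgebraicClosure ℚ), FiniteDimensional ℚ F ∧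
      ∀ s ∈ F.fixingSubgroup, M.ρ s m = m)
    (hMur : ∀ q : Nat.Primes, q ∉ S → ∀ A : ValuationSubring (AlgebraicClosure ℚ),
      A.LiesOverPrime (q : ℕ) → ∀ g ∈ A.inertiaSubgroupIn ℚ, M.ρ g = 1) :
    FiniteDimensional (ZMod p) (continuousH1S S M) :=
  finiteDimensional_continuousH1S_of S (unramClassicalSpec S) hpS M hsm hMur

/-- `H¹(G_S, M)` is a finite set. -/
theorem finite_continuousH1S (S : Finset Nat.Primes) (hpS : pPrime p ∈ S)
    (M : Rep.{0, 0, 0} (ZMod p) (AlgebraicClosure ℚ ≃ₐ[ℚ] AlgebraicClosure ℚ))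
    [FiniteDimensional (ZMod p) M]
    (hsm : ∀ m : M, ∃ F : IntermediateField ℚ (AlgebraicClosure ℚ), FiniteDimensional ℚ F ∧
      ∀ s ∈ F.fixingSubgroup, M.ρ s m = m)
    (hMur : ∀ q : Nat.Primes, q ∉ S → ∀ A : ValuationSubring (AlgebraicClosure ℚ),
      A.LiesOverPrime (q : ℕ) → ∀ g ∈ A.inertiaSubgroupIn ℚ, M.ρ g = 1) :
    Finite (continuousH1S S M) :=
  finite_continuousH1S_of S (unramClassicalSpec S) hpS M hsm hMur

/-- `Ш¹_S(M)` is finite-dimensional. -/
theorem finiteDimensional_sha₁ (S : Finset Nat.Primes) (hpS : pPrime p ∈ S)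
    (M : Rep.{0, 0, 0} (ZMod p) (AlgebraicClosure ℚ ≃ₐ[ℚ] AlgebraicClosure ℚ))
    [FiniteDimensional (ZMod p) M]
    (hsm : ∀ m : M, ∃ F : IntermediateField ℚ (AlgebraicClosure ℚ), FiniteDimensional ℚ F ∧
      ∀ s ∈ F.fixingSubgroup, M.ρ s m = m)
    (hMur : ∀ q : Nat.Primes, q ∉ S → ∀ A : ValuationSubring (AlgebraicClosure ℚ),
      A.LiesOverPrime (q : ℕ) → ∀ g ∈ A.inertiaSubgroupIn ℚ, M.ρ g = 1) :
    FiniteDimensional (ZMod p) (sha₁ S M) :=
  finiteDimensional_sha₁_of S (unramClassicalSpec S) hpS M hsm hMur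

/-- `Ш¹_S(M*(1))` is finite-dimensional: the first of the three facts to which S55 reduces. -/
theorem finiteDimensional_sha₁_dualTwist (S : Finset Nat.Primes) (hpS : pPrime p ∈ S)
    (M : Rep.{0, 0, 0} (ZMod p) (AlgebraicClosure ℚ ≃ₐ[ℚ] AlgebraicClosure ℚ))
    [FiniteDimensional (ZMod p) M]
    (hsm : ∀ m : M, ∃ F : IntermediateField ℚ (AlgebraicClosure ℚ), FiniteDimensional ℚ F ∧
      ∀ s ∈ F.fixingSubgroup, M.ρ s m = m)
    (hMur : ∀ q : Nat.Primes, q ∉ S → ∀ A : ValuationSubring (AlgebraicClosure ℚ),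
      A.LiesOverPrime (q : ℕ) → ∀ g ∈ A.inertiaSubgroupIn ℚ, M.ρ g = 1) :
    FiniteDimensional (ZMod p) (sha₁ S (M.dualTwist (cycloChar p))) :=
  finiteDimensional_sha₁ S hpS (M.dualTwist (cycloChar p)) (dualTwist_smooth M hsm)
    (dualTwist_unramified M S hpS hMur)

end Fermat.Agent.S55.H901

end
-- ===== PACK-END S55/H901/H1FinMain.lean

-- ===== PACK-BEGIN S55/PT/FiniteIndexH424.lean
section



/-!
# S55 / layer D leaves **D-F7c, D-F7d**: global and local levels have finite index (helper424)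
-/

set_option autoImplicit false
set_option linter.unusedSectionVars false
set_option linter.style.haveILetI false

namespace Fermat.Agent.S55.PT.H424

open Fermat.Agent.S55.PT

/-- **D-F7c.** Global levels have finite index. -/
theorem globalFiniteIndex : GlobalFiniteIndexSpec := by
  rintro S U ⟨F, hF, rfl⟩
  haveI : FiniteDimensional ℚ F := hF.1
  haveI : Algebra.IsAlgebraic ℚ (AlgebraicClosure ℚ) := AlgebraicClosure.isAlgebraic ℚ
  haveI : IsAlgClosure ℚ (AlgebraicClosure ℚ) := ⟨inferInstance, inferInstance⟩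
  haveI : Normal ℚ (AlgebraicClosure ℚ) := IsAlgClosure.normal ℚ (AlgebraicClosure ℚ)
  exact Fermat.Agent.S55.H424.fixingSubgroup_finiteIndex F

/-- Levels pulled back along any `r : G → G_ℚ` have finite index. -/
theorem pullbackLevels_finiteIndex {G : Type} [Group G] (r : G →* GQ) :
    (pullbackLevels r).FiniteIndex := by
  rintro U ⟨F, hF, rfl⟩
  haveI := hF
  haveI : Algebra.IsAlgebraic ℚ (AlgebraicClosure ℚ) := AlgebraicClosure.isAlgebraic ℚ
  haveI : IsAlgClosure ℚ (AlgebraicClosure ℚ) := ⟨inferInstance, inferInstance⟩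
  haveI : Normal ℚ (AlgebraicClosure ℚ) := IsAlgClosure.normal ℚ (AlgebraicClosure ℚ)
  exact Fermat.Agent.S55.H424.comap_fixingSubgroup_finiteIndex r F

/-- **D-F7d.** Local levels have finite index. -/
theorem localFiniteIndex : LocalFiniteIndexSpec :=
  fun q => pullbackLevels_finiteIndex (rl q)

end Fermat.Agent.S55.PT.H424

end
-- ===== PACK-END S55/PT/FiniteIndexH424.lean

-- ===== PACK-BEGIN S55/K/H724/Ind.lean
section


/-!
# S55 / layer K : induced modules, coordinates, Kummer lifting   (helper724)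

* `indρ_apply` : `(g • f) x = g • f (g⁻¹ • x)` on `Ind_V A = (G ⧸ V →₀ A)`;
* a normal subgroup `U ≤ V` acts trivially on `G ⧸ V`; coordinates of `U`-fixed elements;
* equivariance of `indMap`-type maps (`mapRange`) and of `indProj`;
* `IsPDiv` : smooth elements are `p`-divisible by smooth elements; `isPDiv_ind` : this passes
  from `A` to `Ind_V A`; `exists_root_cochain` : `p`-th roots of smooth level-constant cochains.
-/

set_option autoImplicit false

noncomputable section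

namespace Fermat.Agent.S55.K.H724

open groupCohomology Fermat.Agent.S55.PT Fermat.Agent.S55.K

section Ind

variable {k : Type} [CommRing k] {G H : Type} [Group G] [Group H]

/-- view an element of `Ind_V A` as a `Finsupp` -/
def toF (φ : H →* G) (V : Subgroup G) (A : Rep.{0, 0, 0} k H) (e : ind φ V A) :
    (G ⧸ V) →₀ A := e

/-- view a `Finsupp` as an element of `Ind_V A` -/
def ofF (φ : H →* G) (V : Subgroup G) (A : Rep.{0, 0, 0} k H) (e : (G ⧸ V) →₀ A) :
    ind φ V A := e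

lemma ind_ρ_eq (φ : H →* G) (V : Subgroup G) (A : Rep.{0, 0, 0} k H) (h : H) :
    (ind φ V A).ρ h = indρ φ V A h := rfl

/-- the action on `Ind_V A` in coordinates -/
lemma indρ_apply (φ : H →* G) (V : Subgroup G) (A : Rep.{0, 0, 0} k H) (h : H)
    (f : (G ⧸ V) →₀ A) (x : G ⧸ V) :
    (indρ φ V A h f) x = A.ρ h (f ((φ h)⁻¹ • x)) := by
  classical
  induction f using Finsupp.induction_linear with
  | zero => simp
  | add f g hf hg =>
    rw [map_add, Finsupp.add_apply, hf, hg, Finsupp.add_apply, map_add]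
  | single y a =>
    rw [indρ_single, Finsupp.single_apply, Finsupp.single_apply]
    by_cases hxy : φ h • y = x
    · have : y = (φ h)⁻¹ • x := by rw [← hxy, inv_smul_smul]
      rw [if_pos hxy, if_pos this]
    · have : ¬ y = (φ h)⁻¹ • x := by
        intro hy
        exact hxy (by rw [hy, smul_inv_smul])
      rw [if_neg hxy, if_neg this, map_zero]

/-- a normal subgroup `U ≤ V` acts trivially on `G ⧸ V` -/
lemma smul_quot_of_normal_le {U V : Subgroup G} [hn : U.Normal] (hUV : U ≤ V) (u : G)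
    (hu : u ∈ U) (x : G ⧸ V) : u • x = x := by
  induction x using QuotientGroup.induction_on with
  | H g =>
    show ((u * g : G) : G ⧸ V) = (g : G ⧸ V)
    rw [QuotientGroup.eq]
    apply hUV
    have := hn.conj_mem u⁻¹ (U.inv_mem hu) g⁻¹
    simpa [mul_assoc] using this

/-- coordinates of an element of `Ind_V A` fixed by `u ∈ U`, `U ≤ V` normal -/
lemma coord_fixed {U V : Subgroup G} [U.Normal] (hUV : U ≤ V) (A : Rep.{0, 0, 0} k G)
    (f : (G ⧸ V) →₀ A) (u : G) (hu : u ∈ U)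
    (hf : indρ (MonoidHom.id G) V A u f = f) (x : G ⧸ V) : A.ρ u (f x) = f x := by
  have h := indρ_apply (MonoidHom.id G) V A u f x
  rw [hf, MonoidHom.id_apply, smul_quot_of_normal_le hUV u⁻¹ (U.inv_mem hu)] at h
  exact h.symm

/-- an element of `Ind_V A` with coordinates fixed by `u ∈ U`, `U ≤ V` normal, is fixed -/
lemma fixed_of_coord {U V : Subgroup G} [U.Normal] (hUV : U ≤ V) (A : Rep.{0, 0, 0} k G)
    (f : (G ⧸ V) →₀ A) (u : G) (hu : u ∈ U) (hf : ∀ x, A.ρ u (f x) = f x) :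
    indρ (MonoidHom.id G) V A u f = f := by
  ext x
  rw [indρ_apply, MonoidHom.id_apply, smul_quot_of_normal_le hUV u⁻¹ (U.inv_mem hu), hf]

end Ind

/-! ### `mapRange` and `indProj` are equivariant -/

section MapRange

variable {k k' : Type} [CommRing k] [CommRing k'] {G H : Type} [Group G] [Group H]

/-- `Ind_V A → Ind_V B` induced by an additive map `A →+ B` which is equivariant along `φ` -/
lemma mapRange_equivariant (φ : H →* G) (V : Subgroup G) {A : Rep.{0, 0, 0} k G}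
    {B : Rep.{0, 0, 0} k' H} (ψ : A →+ B) (hψ : ∀ (h : H) (a : A), ψ (A.ρ (φ h) a) = B.ρ h (ψ a))
    (h : H) (f : (G ⧸ V) →₀ A) :
    Finsupp.mapRange.addMonoidHom ψ (indρ (MonoidHom.id G) V A (φ h) f) =
      indρ φ V B h (Finsupp.mapRange.addMonoidHom ψ f) := by
  ext x
  rw [Finsupp.mapRange.addMonoidHom_apply, Finsupp.mapRange_apply, indρ_apply, indρ_apply,
    Finsupp.mapRange.addMonoidHom_apply, Finsupp.mapRange_apply, hψ]
  rfl

variable (φ : H →* G) {U V : Subgroup G} (hUV : U ≤ V) (A : Rep.{0, 0, 0} k H)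

/-- the map `G ⧸ U → G ⧸ V` -/
def quotLE : G ⧸ U → G ⧸ V :=
  Quotient.map' id (fun a b hab => by
    rw [QuotientGroup.leftRel_apply] at hab ⊢
    exact hUV hab)

lemma quotLE_mk (g : G) : quotLE hUV (g : G ⧸ U) = (g : G ⧸ V) := rfl

lemma quotLE_smul (g : G) (x : G ⧸ U) : quotLE hUV (g • x) = g • quotLE hUV x := by
  induction x using QuotientGroup.induction_on with
  | H a => rfl

/-- `indProj` as a map of `Finsupp`s -/
def projF : ((G ⧸ U) →₀ A) →ₗ[k] ((G ⧸ V) →₀ A) := Finsupp.lmapDomain A k (quotLE hUV)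

lemma indProj_eq_projF (f : ind φ U A) : indProj φ hUV A f = projF hUV A f := rfl

lemma projF_single (x : G ⧸ U) (a : A) :
    projF hUV A (Finsupp.single x a) = Finsupp.single (quotLE hUV x) a := by
  rw [projF, Finsupp.lmapDomain_apply, Finsupp.mapDomain_single]

lemma projF_equivariant (h : H) (f : (G ⧸ U) →₀ A) :
    projF hUV A (indρ φ U A h f) = indρ φ V A h (projF hUV A f) := by
  have key : projF hUV A ∘ₗ indρ φ U A h = indρ φ V A h ∘ₗ projF hUV A := by
    apply Finsupp.lhom_ext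
    intro y a
    rw [LinearMap.comp_apply, LinearMap.comp_apply, indρ_single, projF_single, projF_single,
      indρ_single, quotLE_smul]
  exact LinearMap.congr_fun key f

end MapRange

/-! ### `p`-divisibility of smooth elements -/

section PDiv

variable {G : Type} [Group G] (L : LevelSys G) (A : Rep.{0, 0, 0} ℤ G) (p : ℕ)

/-- smooth elements are `p`-divisible by smooth elements -/
def IsPDiv : Prop := ∀ a : A, IsSm L A a → ∃ b : A, p • b = a ∧ IsSm L A b

variable {L A p}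

/-- `p`-divisibility of smooth elements passes to `Ind_V A`. -/
lemma isPDiv_ind (hN : L.NormalCofinal) (h : IsPDiv L A p) (V : Subgroup G)
    (hV : V ∈ L.levels) : IsPDiv L (indG V A) p := by
  classical
  intro e he
  obtain ⟨U₀, hU₀, hfix₀⟩ := he
  obtain ⟨U₁', hU₁', hle₁'⟩ := L.directed U₀ hU₀ V hV
  obtain ⟨U₁, hU₁, hle₁, hn₁⟩ := hN U₁' hU₁'
  have hU₁V : U₁ ≤ V := fun s hs => (hle₁' (hle₁ hs)).2
  have hU₁U₀ : U₁ ≤ U₀ := fun s hs => (hle₁' (hle₁ hs)).1
  let ef : (G ⧸ V) →₀ A := e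
  have hcoord : ∀ x, IsSm L A (ef x) := fun x =>
    ⟨U₁, hU₁, fun s hs => coord_fixed hU₁V A ef s hs (hfix₀ s (hU₁U₀ hs)) x⟩
  choose! root hroot using h
  let root' : A → A := fun a => if a = 0 then 0 else root a
  have hroot'0 : root' 0 = 0 := if_pos rfl
  have hroot' : ∀ a, IsSm L A a → p • root' a = a ∧ IsSm L A (root' a) := by
    intro a ha
    by_cases h0 : a = 0
    · subst h0
      rw [hroot'0]
      exact ⟨smul_zero _, isSm_zero⟩
    · simp only [root', if_neg h0]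
      exact hroot a ha
  let e' : (G ⧸ V) →₀ A := Finsupp.mapRange root' hroot'0 ef
  refine ⟨e', ?_, ?_⟩
  · show (p • e' : (G ⧸ V) →₀ A) = ef
    ext x
    rw [Finsupp.smul_apply, Finsupp.mapRange_apply]
    exact (hroot' (ef x) (hcoord x)).1
  · obtain ⟨U₂, hU₂, hle₂, hn₂, hfix₂⟩ := exists_common_level hN
      (ef.support.image (fun x => root' (ef x)))
      (fun a ha => by
        obtain ⟨x, -, rfl⟩ := Finset.mem_image.1 ha
        exact (hroot' (ef x) (hcoord x)).2) V hV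
    refine ⟨U₂, hU₂, fun s hs => ?_⟩
    apply fixed_of_coord hle₂ A e' s hs
    intro x
    by_cases hx : x ∈ ef.support
    · exact hfix₂ _ (Finset.mem_image_of_mem _ hx) s hs
    · have h0 : ef x = 0 := Finsupp.notMem_support_iff.1 hx
      have h1 : e' x = 0 := by rw [Finsupp.mapRange_apply, h0, hroot'0]
      rw [h1, map_zero]

/-- `p`-th roots of smooth level-constant 1-cochains. -/
lemma exists_root_cochain (hN : L.NormalCofinal) (hF : L.FiniteIndex) (h : IsPDiv L A p)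
    (a : G → A) (U : Subgroup G) (hU : U ∈ L.levels)
    (ha : ∀ g s : G, s ∈ U → a (g * s) = a g) (hfix : ∀ g s : G, s ∈ U → A.ρ s (a g) = a g) :
    ∃ a' : G → A, p • a' = a ∧ ∃ U' ∈ L.levels, U' ≤ U ∧ U'.Normal ∧
      (∀ g s : G, s ∈ U' → a' (g * s) = a' g) ∧ ∀ g s : G, s ∈ U' → A.ρ s (a' g) = a' g := by
  classical
  choose! root hroot using h
  have hsm : ∀ g, IsSm L A (a g) := fun g => ⟨U, hU, fun s hs => hfix g s hs⟩
  haveI := hF U hU
  have hfin : (Set.range a).Finite := finite_range_of_rightInv U a ha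
  obtain ⟨U', hU', hle', hn', hfix'⟩ := exists_common_level hN (hfin.toFinset.image root)
    (fun b hb => by
      obtain ⟨c, hc, rfl⟩ := Finset.mem_image.1 hb
      obtain ⟨g, rfl⟩ := hfin.mem_toFinset.1 hc
      exact (hroot (a g) (hsm g)).2) U hU
  refine ⟨fun g => root (a g), ?_, U', hU', hle', hn', fun g s hs => ?_, fun g s hs => ?_⟩
  · funext g
    exact (hroot (a g) (hsm g)).1
  · show root (a (g * s)) = root (a g)
    rw [ha g s (hle' hs)]
  · exact hfix' _ (Finset.mem_image_of_mem _ (hfin.mem_toFinset.2 ⟨g, rfl⟩)) s hs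

end PDiv

end Fermat.Agent.S55.K.H724

end

end
-- ===== PACK-END S55/K/H724/Ind.lean

-- ===== PACK-BEGIN S55/Mackey/Main.lean
section


/-!
# S55 (helper61): Mackey–Shapiro decomposition for group cohomology — main theorem

`mackeyPi_bijective` : for an injective `α : H →* G`, a subgroup `D ≤ G`, `A : Rep k D` and a
Mackey system `(Hs i, j i, κ i, x i)` (see `Defs.lean`), the map
`Hⁿ(H, Res_α Coind_D^G A) → ∏ᵢ Hⁿ(Hs i, Res(κ i) A)`, whose `i`-th component is induced by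
`j i : Hs i →* H` and evaluation at `x i`, is bijective for every `n`.

Proof: dimension shifting along `0 → A → (D → A) → A' → 0`.
-/

set_option autoImplicit false

open CategoryTheory CategoryTheory.Limits groupCohomology

namespace Fermat.Agent.S55.Mackey

open Fermat.Agent.S55.H783

universe u v

variable {k H G : Type u} [CommRing k] [Group H] [Group G]

section Step

variable (α : H →* G) {D : Subgroup G} (A : Rep k D)
variable {Hs : Type u} [Group Hs] (j : Hs →* H) (κ : Hs →* D) (x : G)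
  (hcomm : ∀ h' : Hs, x * α (j h') = (κ h' : G) * x)

/-- The dimension shifting sequence restricted along `κ`. -/
noncomputable abbrev twSC : ShortComplex (Rep k Hs) :=
  (shiftSC A).map (Rep.resFunctor κ)

lemma twSC_shortExact : (twSC A κ).ShortExact :=
  (Rep.shortExact_res κ).2 (shiftSC_shortExact A)

/-- Evaluation at `x` as a morphism of short complexes. -/
noncomputable def evSCHom :
    (indResSC α A).map (Rep.resFunctor j) ⟶ twSC A κ where
  τ₁ := evAt α A j κ x hcomm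
  τ₂ := evAt α (funRep k D A.V) j κ x hcomm
  τ₃ := evAt α (shiftRep A) j κ x hcomm
  comm₁₂ := evAt_naturality α j κ x hcomm (shiftIncl A)
  comm₂₃ := evAt_naturality α j κ x hcomm (shiftProj A)

/-- Dimension shifting commutes with the Mackey components. -/
lemma δ_comp_mackeyComp (n : ℕ) :
    δ (indResSC_shortExact α A) n (n + 1) rfl ≫ mackeyComp α A j κ x hcomm (n + 1) =
      mackeyComp α (shiftRep A) j κ x hcomm n ≫ δ (twSC_shortExact A κ) n (n + 1) rfl :=
  δ_naturality_map j (indResSC_shortExact α A) (twSC_shortExact A κ)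
    (evSCHom α A j κ x hcomm) n (n + 1) rfl

end Step

section Main

variable {ι : Type v} {α : H →* G} {D : Subgroup G} {Hs : ι → Type u} [∀ i, Group (Hs i)]
  {j : ∀ i, Hs i →* H} {κ : ∀ i, Hs i →* D} {x : ι → G}

lemma IsMackeySystem.κ_injective (hsys : IsMackeySystem α D Hs j κ x)
    (hα : Function.Injective α) (i : ι) : Function.Injective (κ i) := by
  intro a b hab
  apply hsys.inj i
  apply hα
  have h1 := hsys.comm i a
  have h2 := hsys.comm i b
  rw [hab] at h1
  exact mul_left_cancel (h1.trans h2.symm)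

/-- **Mackey–Shapiro decomposition.** -/
theorem mackeyPi_bijective (hα : Function.Injective α) (hsys : IsMackeySystem α D Hs j κ x)
    (n : ℕ) (A : Rep k D) : Function.Bijective (mackeyPi hsys A n) := by
  induction n generalizing A with
  | zero => exact mackeyPi_zero_bijective hsys A
  | succ n ih =>
    -- the connecting homomorphisms
    have hδH : Function.Surjective (δ (indResSC_shortExact α A) n (n + 1) rfl).hom :=
      (ModuleCat.epi_iff_surjective _).1
        (epi_δ_of_isZero (indResSC_shortExact α A) n (isZero_indRes_funRep α D A.V hα n))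
    have hδi : ∀ i, Function.Surjective (δ (twSC_shortExact A (κ i)) n (n + 1) rfl).hom :=
      fun i => (ModuleCat.epi_iff_surjective _).1
        (epi_δ_of_isZero (twSC_shortExact A (κ i)) n
          (isZero_res_funRep_of_injective (κ i) (hsys.κ_injective hα i) A.V n))
    have hnat : ∀ i (z : groupCohomology (indRes α (shiftRep A)) n),
        (mackeyComp α A (j i) (κ i) (x i) (hsys.comm i) (n + 1)).hom
          ((δ (indResSC_shortExact α A) n (n + 1) rfl).hom z) =
        (δ (twSC_shortExact A (κ i)) n (n + 1) rfl).hom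
          ((mackeyComp α (shiftRep A) (j i) (κ i) (x i) (hsys.comm i) n).hom z) := fun i z =>
      congrArg (fun f => f.hom z) (δ_comp_mackeyComp α A (j i) (κ i) (x i) (hsys.comm i) n)
    constructor
    · -- injectivity
      rw [injective_iff_map_eq_zero]
      intro c hc
      obtain ⟨z, rfl⟩ := hδH c
      have hz : ∀ i, (δ (twSC_shortExact A (κ i)) n (n + 1) rfl).hom
          ((mackeyComp α (shiftRep A) (j i) (κ i) (x i) (hsys.comm i) n).hom z) = 0 := by
        intro i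
        rw [← hnat i z]
        exact congrFun hc i
      -- each component comes from `Hⁿ(Hs i, (D → A))`
      have hex : ∀ i, ∃ u : groupCohomology (Rep.res (κ i) (funRep k D A.V)) n,
          (map (MonoidHom.id (Hs i)) ((Rep.resFunctor (κ i)).map (shiftProj A)) n).hom u =
            (mackeyComp α (shiftRep A) (j i) (κ i) (x i) (hsys.comm i) n).hom z := fun i =>
        (ShortComplex.moduleCat_exact_iff _).1
          (mapShortComplex₃_exact (twSC_shortExact A (κ i)) (rfl : n + 1 = n + 1)) _ (hz i)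
      choose u hu using hex
      obtain ⟨w, hw⟩ := (ih (funRep k D A.V)).2 u
      -- `z` is the image of `w`
      have hzw : z = (map (MonoidHom.id H) (indResMap α (shiftProj A)) n).hom w := by
        apply (ih (shiftRep A)).1
        funext i
        rw [mackeyPi_apply, mackeyPi_apply]
        have h1 := congrArg (fun f => f.hom w)
          (mackeyComp_naturality α (j i) (κ i) (x i) (hsys.comm i) (shiftProj A) n)
        have h2 : (mackeyComp α (funRep k D A.V) (j i) (κ i) (x i) (hsys.comm i) n).hom w = u i :=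
          congrFun hw i
        refine (hu i).symm.trans ?_
        rw [← h2]
        exact h1.symm
      rw [hzw]
      exact congrArg (fun f => f.hom w)
        (mapShortComplex₃ (indResSC_shortExact α A) (rfl : n + 1 = n + 1)).zero
    · -- surjectivity
      intro y
      choose z hz using fun i => hδi i (y i)
      obtain ⟨w, hw⟩ := (ih (shiftRep A)).2 z
      refine ⟨(δ (indResSC_shortExact α A) n (n + 1) rfl).hom w, ?_⟩
      funext i
      rw [mackeyPi_apply, hnat i w]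
      have h2 : (mackeyComp α (shiftRep A) (j i) (κ i) (x i) (hsys.comm i) n).hom w = z i :=
        congrFun hw i
      rw [h2, hz i]

end Main

end Fermat.Agent.S55.Mackey

end
-- ===== PACK-END S55/Mackey/Main.lean

-- ===== PACK-BEGIN S55/K/GO3H535/H371/Ord.lean
section


/-!
# S55 / layer K / GO3-CAPDIV (helper371), part 1: units and orders at a place of `ℚ̄`

`A` a valuation subring of `ℚ̄`, `q` a natural number (a prime below `A`).

* `UnitAt A x`     : `x` is a unit of `A` (`A.valuation x = 1`);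
* `HasOrd A q x n` : `x / q ^ n` is a unit of `A` (`A.valuation x = A.valuation q ^ n`);
* algebra of both notions, uniqueness of the order, behaviour under `G_ℚ`;
* `isSUnit_iff` : `IsSUnit S x ↔ ∀ A outside S, UnitAt A x`.
-/

set_option autoImplicit false

noncomputable section

namespace Fermat.Agent.S55.K.GO3H535.H371

open Fermat.Agent.S55.PT Fermat.Agent.S55.Bridge Fermat.Agent.S55.K
open scoped Pointwise

variable (A : ValuationSubring Qbar)

/-- `x` is a unit of the valuation subring `A`. -/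
def UnitAt (x : Qbar) : Prop := A.valuation x = 1

variable {A}

theorem UnitAt.ne_zero {x : Qbar} (h : UnitAt A x) : x ≠ 0 := by
  rintro rfl
  rw [UnitAt, map_zero] at h
  exact zero_ne_one h

theorem unitAt_one : UnitAt A (1 : Qbar) := map_one _

theorem UnitAt.mul {x y : Qbar} (hx : UnitAt A x) (hy : UnitAt A y) : UnitAt A (x * y) := by
  rw [UnitAt, map_mul, hx, hy, mul_one]

theorem UnitAt.inv {x : Qbar} (hx : UnitAt A x) : UnitAt A x⁻¹ := by
  rw [UnitAt, map_inv₀, hx, inv_one]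

theorem UnitAt.div {x y : Qbar} (hx : UnitAt A x) (hy : UnitAt A y) : UnitAt A (x / y) := by
  rw [UnitAt, map_div₀, hx, hy, div_one]

theorem UnitAt.pow {x : Qbar} (hx : UnitAt A x) (n : ℕ) : UnitAt A (x ^ n) := by
  rw [UnitAt, map_pow, hx, one_pow]

theorem UnitAt.zpow {x : Qbar} (hx : UnitAt A x) (n : ℤ) : UnitAt A (x ^ n) := by
  rw [UnitAt, map_zpow₀, hx, one_zpow]

theorem unitAt_of_pow {x : Qbar} {n : ℕ} (hn : n ≠ 0) (hx : UnitAt A (x ^ n)) : UnitAt A x := by
  rw [UnitAt, map_pow] at hx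
  exact (pow_eq_one_iff_of_nonneg zero_le hn).1 hx

theorem unitAt_iff_mem {x : Qbar} (hx : x ≠ 0) : UnitAt A x ↔ x ∈ A ∧ x⁻¹ ∈ A := by
  constructor
  · intro h
    exact ⟨(A.valuation_le_one_iff _).1 h.le, (A.valuation_le_one_iff _).1 h.inv.le⟩
  · rintro ⟨h1, h2⟩
    have h3 : A.valuation x ≤ 1 := (A.valuation_le_one_iff _).2 h1
    have h4 : A.valuation x⁻¹ ≤ 1 := (A.valuation_le_one_iff _).2 h2
    have h0 : A.valuation x ≠ 0 := (Valuation.ne_zero_iff _).2 hx
    rw [map_inv₀] at h4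
    exact le_antisymm h3 ((inv_le_one₀ (zero_lt_iff.2 h0)).1 h4)

theorem unitAt_units_iff (x : Qbarˣ) :
    UnitAt A (x : Qbar) ↔ (x : Qbar) ∈ A ∧ ((x⁻¹ : Qbarˣ) : Qbar) ∈ A := by
  rw [unitAt_iff_mem x.ne_zero, Units.val_inv_eq_inv_val]

theorem isSUnit_iff (S : Finset Nat.Primes) (x : Qbarˣ) :
    IsSUnit S x ↔ ∀ A : ValuationSubring Qbar, OutsideS S A → UnitAt A (x : Qbar) := by
  constructor
  · intro h A hA
    exact (unitAt_units_iff x).2 (h A hA)
  · intro h A hA
    exact (unitAt_units_iff x).1 (h A hA)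

theorem unitAt_smul_iff (σ : _root_.Fermat.Agent.S55.PT.GQ) (x : Qbar) : UnitAt (σ • A) x ↔ UnitAt A (σ⁻¹ x) := by
  rcases eq_or_ne x 0 with rfl | hx
  · rw [map_zero]
    exact ⟨fun h => absurd rfl h.ne_zero, fun h => absurd rfl h.ne_zero⟩
  · have hx' : σ⁻¹ x ≠ 0 := by
      rw [Ne, map_eq_zero_iff _ (σ⁻¹).injective]
      exact hx
    rw [unitAt_iff_mem hx, unitAt_iff_mem hx', mem_smul_valuationSubring_iff,
      mem_smul_valuationSubring_iff, map_inv₀]

theorem unitAt_inv_smul_iff (σ : _root_.Fermat.Agent.S55.PT.GQ) (x : Qbar) : UnitAt (σ⁻¹ • A) x ↔ UnitAt A (σ x) := by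
  rw [unitAt_smul_iff, inv_inv]

variable (A)

/-- `x` has order `n` at the place `A` with respect to `q`: `x / q ^ n` is a unit of `A`. -/
def HasOrd (q : ℕ) (x : Qbar) (n : ℤ) : Prop := A.valuation x = A.valuation (q : Qbar) ^ n

variable {A} {q : ℕ}

theorem hasOrd_iff_unitAt (hq : q ≠ 0) (x : Qbar) (n : ℤ) :
    HasOrd A q x n ↔ UnitAt A (x / (q : Qbar) ^ n) := by
  have hq0 : A.valuation (q : Qbar) ≠ 0 := by
    rw [Valuation.ne_zero_iff]
    exact_mod_cast hq
  have hqn : A.valuation (q : Qbar) ^ n ≠ 0 := zpow_ne_zero n hq0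
  rw [HasOrd, UnitAt, map_div₀, map_zpow₀, div_eq_one_iff_eq hqn]

theorem HasOrd.ne_zero (hq : q ≠ 0) {x : Qbar} {n : ℤ} (h : HasOrd A q x n) : x ≠ 0 := by
  rintro rfl
  have := ((hasOrd_iff_unitAt hq _ _).1 h).ne_zero
  simp at this

theorem hasOrd_zero_iff (x : Qbar) : HasOrd A q x 0 ↔ UnitAt A x := by
  rw [HasOrd, UnitAt, zpow_zero]

theorem hasOrd_natCast : HasOrd A q (q : Qbar) 1 := by
  rw [HasOrd, zpow_one]

theorem HasOrd.mul {x y : Qbar} {n m : ℤ} (hq : q ≠ 0) (hx : HasOrd A q x n)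
    (hy : HasOrd A q y m) : HasOrd A q (x * y) (n + m) := by
  have hq0 : A.valuation (q : Qbar) ≠ 0 := by
    rw [Valuation.ne_zero_iff]
    exact_mod_cast hq
  rw [HasOrd, map_mul, hx, hy, zpow_add₀ hq0]

theorem HasOrd.inv {x : Qbar} {n : ℤ} (hx : HasOrd A q x n) : HasOrd A q x⁻¹ (-n) := by
  rw [HasOrd, map_inv₀, hx, zpow_neg]

theorem HasOrd.div {x y : Qbar} {n m : ℤ} (hq : q ≠ 0) (hx : HasOrd A q x n)
    (hy : HasOrd A q y m) : HasOrd A q (x / y) (n - m) := by
  rw [div_eq_mul_inv, sub_eq_add_neg]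
  exact hx.mul hq hy.inv

theorem HasOrd.pow {x : Qbar} {n : ℤ} (hx : HasOrd A q x n) (k : ℕ) :
    HasOrd A q (x ^ k) (n * k) := by
  rw [HasOrd, map_pow, hx, zpow_mul, zpow_natCast]

theorem HasOrd.zpow {x : Qbar} {n : ℤ} (hx : HasOrd A q x n) (k : ℤ) :
    HasOrd A q (x ^ k) (n * k) := by
  rw [HasOrd, map_zpow₀, hx, zpow_mul]

theorem HasOrd.of_unitAt {x : Qbar} (hx : UnitAt A x) : HasOrd A q x 0 :=
  (hasOrd_zero_iff x).2 hx

/-- The order is unique at a place over `q`. -/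
theorem HasOrd.unique (hq : q ≠ 0) (hA : A.LiesOverPrime q) {x : Qbar} {n m : ℤ}
    (hn : HasOrd A q x n) (hm : HasOrd A q x m) : n = m := by
  have hq0 : A.valuation (q : Qbar) ≠ 0 := by
    rw [Valuation.ne_zero_iff]
    exact_mod_cast hq
  have hlt : A.valuation (q : Qbar) < 1 := (A.mem_nonunits_iff).mp hA
  have h : A.valuation (q : Qbar) ^ n = A.valuation (q : Qbar) ^ m := hn.symm.trans hm
  exact zpow_right_injective₀ (zero_lt_iff.2 hq0) hlt.ne h

/-- A unit with an order has order `0`. -/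
theorem HasOrd.eq_zero_of_unitAt (hq : q ≠ 0) (hA : A.LiesOverPrime q) {x : Qbar} {n : ℤ}
    (hn : HasOrd A q x n) (hx : UnitAt A x) : n = 0 :=
  hn.unique hq hA (HasOrd.of_unitAt hx)

theorem HasOrd.unitAt_of_eq_zero {x : Qbar} {n : ℤ} (hn : HasOrd A q x n) (h0 : n = 0) :
    UnitAt A x := by
  subst h0
  exact (hasOrd_zero_iff x).1 hn

theorem hasOrd_smul_iff (hq : q ≠ 0) (σ : _root_.Fermat.Agent.S55.PT.GQ) (x : Qbar) (n : ℤ) :
    HasOrd (σ • A) q x n ↔ HasOrd A q (σ⁻¹ x) n := by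
  rw [hasOrd_iff_unitAt hq, hasOrd_iff_unitAt hq, unitAt_smul_iff, map_div₀, map_zpow₀,
    map_natCast]

theorem hasOrd_inv_smul_iff (hq : q ≠ 0) (σ : _root_.Fermat.Agent.S55.PT.GQ) (x : Qbar) (n : ℤ) :
    HasOrd (σ⁻¹ • A) q x n ↔ HasOrd A q (σ x) n := by
  rw [hasOrd_smul_iff hq, inv_inv]

end Fermat.Agent.S55.K.GO3H535.H371

end
end
-- ===== PACK-END S55/K/GO3H535/H371/Ord.lean

-- ===== PACK-BEGIN S56/Br/H374/Fp.lean
section


/-!
# Row S56 — BRIDGE (B5): restriction of scalars `k → F_p`                     (helper374)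

The S55 `PT` layer computes with `F_p`-representations; the plain-function language of S56
lives over the residue field `k`.  An `F_p`-dimension only sees the additive group, so the
dictionary is organised around ADDITIVE equivariant bijections `B ≃+ A` between an
`F_p`-representation `B` and a `k`-representation `A` (`AEq p B A`):

* `finrank_eq_of_addEquiv` : `W' ≃+ W`, `W'` over `F_p`, `W` over `k` ⇒
  `dim_{F_p} W' = [k : F_p] · dim_k W`  (`fpDeg k p = [k : F_p]`);
* `AEq.H1AddEquiv`, `AEq.sha1AddEquiv`, `AEq.H0AddEquiv` and the resulting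
  `AEq.finrank_H1`, `AEq.finrank_Sha1`, `AEq.finrank_H0`, `AEq.finite_H1`;
* `resFp p A` : restriction of scalars of `A : Rep k G` to `F_p`, with `resFpAEq`.
-/

set_option autoImplicit false
set_option linter.style.haveILetI false
set_option linter.unusedSectionVars false

noncomputable section

namespace Fermat.Agent.S56.Br

open Fermat.Agent.S55.PT groupCohomology

/-! ### `F_p`-structures on `k`-modules -/

section FpStruct

variable (k : Type) [Field k] (p : ℕ) [Fact p.Prime] [CharP k p]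

/-- The `F_p`-module structure of a `k`-module. -/
@[reducible] def fpMod (W : Type*) [AddCommGroup W] [Module k W] : Module (ZMod p) W :=
  Module.compHom W (ZMod.castHom (dvd_refl p) k)

/-- The degree `[k : F_p]`. -/
def fpDeg : ℕ := @Module.finrank (ZMod p) k _ _ (fpMod k p k)

theorem finrank_fpMod (W : Type*) [AddCommGroup W] [Module k W] :
    @Module.finrank (ZMod p) W _ _ (fpMod k p W) = fpDeg k p * Module.finrank k W := by
  letI := fpMod k p k
  letI := fpMod k p W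
  haveI : IsScalarTower (ZMod p) k W := ⟨fun a r w => by
    show (ZMod.castHom (dvd_refl p) k a * r) • w = ZMod.castHom (dvd_refl p) k a • (r • w)
    rw [mul_smul]⟩
  exact (Module.finrank_mul_finrank (ZMod p) k W).symm

theorem fpDeg_pos [Finite k] : 0 < fpDeg k p := by
  letI := fpMod k p k
  haveI : Module.Finite (ZMod p) k := Module.Finite.of_finite
  exact Module.finrank_pos

variable {k}

/-- An `F_p`-dimension only sees the additive group. -/
theorem finrank_eq_of_addEquiv {W W' : Type*} [AddCommGroup W] [Module k W] [AddCommGroup W']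
    [Module (ZMod p) W'] (e : W' ≃+ W) :
    Module.finrank (ZMod p) W' = fpDeg k p * Module.finrank k W := by
  rw [← finrank_fpMod k p W]
  letI := fpMod k p W
  exact (LinearEquiv.ofBijective (e.toAddMonoidHom.toZModLinearMap p) e.bijective).finrank_eq

/-- Finiteness only sees the underlying set. -/
theorem moduleFinite_of_addEquiv [Finite k] {W W' : Type*} [AddCommGroup W] [Module k W]
    [AddCommGroup W'] [Module (ZMod p) W'] [Module.Finite (ZMod p) W'] (e : W' ≃+ W) :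
    Module.Finite k W := by
  haveI : Finite W' := Module.finite_of_finite (ZMod p)
  haveI : Finite W := Finite.of_equiv W' e.toEquiv
  exact Module.Finite.of_finite

end FpStruct

/-! ### Additive equivariant bijections -/

section AEqSec

variable {G : Type} [Group G] {k : Type} [Field k] (p : ℕ) [Fact p.Prime] [CharP k p]

/-- An additive equivariant bijection between an `F_p`-representation and a
`k`-representation. -/
structure AEq (B : Rep.{0, 0, 0} (ZMod p) G) (A : Rep.{0, 0, 0} k G) where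
  /-- the additive bijection -/
  e : B.V ≃+ A.V
  /-- equivariance -/
  he : ∀ (g : G) (b : B.V), e (B.ρ g b) = A.ρ g (e b)

namespace AEq

variable {p} {B : Rep.{0, 0, 0} (ZMod p) G} {A : Rep.{0, 0, 0} k G} (E : AEq p B A)

theorem he_symm (g : G) (a : A.V) : E.e.symm (A.ρ g a) = B.ρ g (E.e.symm a) := by
  apply E.e.injective
  rw [E.he, AddEquiv.apply_symm_apply, AddEquiv.apply_symm_apply]

/-- The same bijection, for the restrictions along `r : G' → G`. -/
def res {G' : Type} [Group G'] (r : G' →* G) : AEq p (Rep.res r B) (Rep.res r A) where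
  e := E.e
  he g b := E.he (r g) b

@[simp] theorem res_e {G' : Type} [Group G'] (r : G' →* G) (b : B.V) :
    (E.res r).e b = E.e b := rfl

/-- Post-composition with `e`. -/
def comp (f : G → B.V) : G → A.V := fun g => E.e (f g)

/-- Post-composition with `e⁻¹`. -/
def compSymm (f : G → A.V) : G → B.V := fun g => E.e.symm (f g)

@[simp] theorem comp_apply (f : G → B.V) (g : G) : E.comp f g = E.e (f g) := rfl
@[simp] theorem compSymm_apply (f : G → A.V) (g : G) : E.compSymm f g = E.e.symm (f g) := rfl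

@[simp] theorem comp_compSymm (f : G → A.V) : E.comp (E.compSymm f) = f := by
  funext g
  simp

@[simp] theorem compSymm_comp (f : G → B.V) : E.compSymm (E.comp f) = f := by
  funext g
  simp

theorem comp_add (f f' : G → B.V) : E.comp (f + f') = E.comp f + E.comp f' := by
  funext g
  simp

theorem comp_mem_cocycles₁ {f : G → B.V} (hf : f ∈ cocycles₁ B) : E.comp f ∈ cocycles₁ A := by
  rw [groupCohomology.mem_cocycles₁_iff] at hf ⊢
  intro g h
  simp only [comp_apply]
  rw [hf g h, map_add, E.he]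

theorem compSymm_mem_cocycles₁ {f : G → A.V} (hf : f ∈ cocycles₁ A) :
    E.compSymm f ∈ cocycles₁ B := by
  rw [groupCohomology.mem_cocycles₁_iff] at hf ⊢
  intro g h
  simp only [compSymm_apply]
  rw [hf g h, map_add, E.he_symm]

theorem comp_mem_B1 {f : G → B.V} (hf : f ∈ LevelSys.B1 B) : E.comp f ∈ LevelSys.B1 A := by
  obtain ⟨m, rfl⟩ := hf
  refine ⟨E.e m, ?_⟩
  funext g
  simp only [comp_apply, d₀₁_hom_apply]
  rw [map_sub, E.he]

theorem compSymm_mem_B1 {f : G → A.V} (hf : f ∈ LevelSys.B1 A) :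
    E.compSymm f ∈ LevelSys.B1 B := by
  obtain ⟨m, rfl⟩ := hf
  refine ⟨E.e.symm m, ?_⟩
  funext g
  simp only [compSymm_apply, d₀₁_hom_apply]
  rw [map_sub, E.he_symm]

theorem comp_mem_B1_iff (f : G → B.V) : E.comp f ∈ LevelSys.B1 A ↔ f ∈ LevelSys.B1 B :=
  ⟨fun h => by simpa using E.compSymm_mem_B1 h, E.comp_mem_B1⟩

variable (L : LevelSys G)

theorem comp_mem_Z1 {f : G → B.V} (hf : f ∈ L.Z1 B) : E.comp f ∈ L.Z1 A :=
  ⟨E.comp_mem_cocycles₁ hf.1, LevelSys.IsLC₁.comp hf.2 E.e⟩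

theorem compSymm_mem_Z1 {f : G → A.V} (hf : f ∈ L.Z1 A) : E.compSymm f ∈ L.Z1 B :=
  ⟨E.compSymm_mem_cocycles₁ hf.1, LevelSys.IsLC₁.comp hf.2 E.e.symm⟩

theorem comp_mem_Z1_iff (f : G → B.V) : E.comp f ∈ L.Z1 A ↔ f ∈ L.Z1 B :=
  ⟨fun h => by simpa using E.compSymm_mem_Z1 L h, E.comp_mem_Z1 L⟩

/-- The bijection on level-constant cocycles. -/
def Z1AddEquiv : ↥(L.Z1 B) ≃+ ↥(L.Z1 A) where
  toFun c := ⟨E.comp c.1, E.comp_mem_Z1 L c.2⟩
  invFun c := ⟨E.compSymm c.1, E.compSymm_mem_Z1 L c.2⟩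
  left_inv c := Subtype.ext (E.compSymm_comp c.1)
  right_inv c := Subtype.ext (E.comp_compSymm c.1)
  map_add' c c' := Subtype.ext (E.comp_add c.1 c'.1)

@[simp] theorem coe_Z1AddEquiv (c : ↥(L.Z1 B)) :
    ((E.Z1AddEquiv L c : ↥(L.Z1 A)) : G → A.V) = E.comp c.1 := rfl

/-- The bijection on `H¹`. -/
def H1AddEquiv : L.H1 B ≃+ L.H1 A :=
  letI := fpMod k p (L.H1 A)
  let ψ : ↥(L.Z1 B) →ₗ[ZMod p] L.H1 A :=
    ((L.H1π A).toAddMonoidHom.comp (E.Z1AddEquiv L).toAddMonoidHom).toZModLinearMap p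
  have hψ : ∀ c, ψ c = L.H1π A (E.Z1AddEquiv L c) := fun _ => rfl
  let φ : L.H1 B →ₗ[ZMod p] L.H1 A :=
    Submodule.liftQ ((LevelSys.B1 B).comap (L.Z1 B).subtype) ψ (by
      intro c hc
      rw [LinearMap.mem_ker, hψ, L.H1π_eq_zero_iff]
      exact E.comp_mem_B1 hc)
  have hφ : ∀ c, φ (L.H1π B c) = L.H1π A (E.Z1AddEquiv L c) := fun _ => rfl
  AddEquiv.ofBijective φ.toAddMonoidHom (by
    constructor
    · rw [injective_iff_map_eq_zero]
      intro x hx
      obtain ⟨c, rfl⟩ := L.H1π_surjective B x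
      have h1 : L.H1π A (E.Z1AddEquiv L c) = 0 := hx
      rw [L.H1π_eq_zero_iff] at h1 ⊢
      exact (E.comp_mem_B1_iff c.1).1 h1
    · intro y
      obtain ⟨c, rfl⟩ := L.H1π_surjective A y
      refine ⟨L.H1π B ((E.Z1AddEquiv L).symm c), ?_⟩
      show φ (L.H1π B ((E.Z1AddEquiv L).symm c)) = _
      rw [hφ, AddEquiv.apply_symm_apply])

@[simp] theorem H1AddEquiv_mk (c : ↥(L.Z1 B)) :
    E.H1AddEquiv L (L.H1π B c) = L.H1π A (E.Z1AddEquiv L c) := rfl

include E in
theorem finrank_H1 :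
    Module.finrank (ZMod p) (L.H1 B) = fpDeg k p * Module.finrank k (L.H1 A) :=
  finrank_eq_of_addEquiv p (E.H1AddEquiv L)

include E in
theorem finite_H1 [Finite k] [Module.Finite (ZMod p) (L.H1 B)] : Module.Finite k (L.H1 A) :=
  moduleFinite_of_addEquiv p (E.H1AddEquiv L)

/-! #### Invariants -/

/-- The bijection on invariants. -/
def H0AddEquiv : ↥(LevelSys.H0 B) ≃+ ↥(LevelSys.H0 A) where
  toFun b := ⟨E.e b.1, fun g => by rw [← E.he, b.2 g]⟩
  invFun a := ⟨E.e.symm a.1, fun g => by rw [← E.he_symm, a.2 g]⟩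
  left_inv b := Subtype.ext (E.e.symm_apply_apply b.1)
  right_inv a := Subtype.ext (E.e.apply_symm_apply a.1)
  map_add' b b' := Subtype.ext (E.e.map_add b.1 b'.1)

include E in
theorem finrank_H0 :
    Module.finrank (ZMod p) ↥(LevelSys.H0 B) = fpDeg k p * Module.finrank k ↥(LevelSys.H0 A) :=
  finrank_eq_of_addEquiv p E.H0AddEquiv

/-! #### `Ш¹` -/

section Sha

variable {ι : Type} [Fintype ι] [DecidableEq ι] {Gv : ι → Type} [∀ v, Group (Gv v)] {L}
  {Lv : ∀ v, LevelSys (Gv v)} {r : ∀ v, Gv v →* G}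
  (hr : ∀ v, IsLevelCompatible (r v) L (Lv v))

/-- The class of `c` lies in `Ш¹` iff all local restrictions are coboundaries. -/
theorem _root_.Fermat.Agent.S56.Br.H1π_mem_Sha1_iff_gen {k₀ : Type} [Field k₀]
    (M : Rep.{0, 0, 0} k₀ G) (c : ↥(L.Z1 M)) :
    L.H1π M c ∈ Sha1 hr M ↔
      ∀ v, ((c : G → M.V) ∘ r v : Gv v → M.V) ∈ LevelSys.B1 (Rep.res (r v) M) := by
  rw [LinearMap.mem_ker]
  constructor
  · intro h v
    have h1 := congrFun h v
    rw [loc1_apply, resH1_mk] at h1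
    exact ((Lv v).H1π_eq_zero_iff _ _).1 h1
  · intro h
    funext v
    rw [loc1_apply, resH1_mk]
    exact ((Lv v).H1π_eq_zero_iff _ _).2 (h v)

theorem H1AddEquiv_mem_Sha1_iff (x : L.H1 B) :
    E.H1AddEquiv L x ∈ Sha1 hr A ↔ x ∈ Sha1 hr B := by
  obtain ⟨c, rfl⟩ := L.H1π_surjective B x
  rw [H1AddEquiv_mk, H1π_mem_Sha1_iff_gen hr A, H1π_mem_Sha1_iff_gen hr B]
  refine forall_congr' fun v => ?_
  exact (E.res (r v)).comp_mem_B1_iff ((c : G → B.V) ∘ r v)

/-- The bijection on `Ш¹`. -/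
def sha1AddEquiv : ↥(Sha1 hr B) ≃+ ↥(Sha1 hr A) where
  toFun x := ⟨E.H1AddEquiv L x.1, (E.H1AddEquiv_mem_Sha1_iff hr x.1).2 x.2⟩
  invFun y := ⟨(E.H1AddEquiv L).symm y.1, by
    rw [← E.H1AddEquiv_mem_Sha1_iff hr, AddEquiv.apply_symm_apply]
    exact y.2⟩
  left_inv x := Subtype.ext ((E.H1AddEquiv L).symm_apply_apply x.1)
  right_inv y := Subtype.ext ((E.H1AddEquiv L).apply_symm_apply y.1)
  map_add' x x' := Subtype.ext ((E.H1AddEquiv L).map_add x.1 x'.1)

include E in
theorem finrank_Sha1 :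
    Module.finrank (ZMod p) ↥(Sha1 hr B) = fpDeg k p * Module.finrank k ↥(Sha1 hr A) :=
  finrank_eq_of_addEquiv p (E.sha1AddEquiv hr)

end Sha

end AEq

/-! ### Restriction of scalars -/

/-- Restriction of scalars of a `k`-representation to `F_p`. -/
def resFp (A : Rep.{0, 0, 0} k G) : Rep.{0, 0, 0} (ZMod p) G :=
  letI := fpMod k p A.V
  Rep.of (k := ZMod p) (G := G) (X := A.V)
    { toFun := fun g => (A.ρ g).toAddMonoidHom.toZModLinearMap p
      map_one' := by
        apply LinearMap.ext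
        intro a
        show A.ρ 1 a = a
        rw [map_one, Module.End.one_apply]
      map_mul' := fun g h => by
        apply LinearMap.ext
        intro a
        show A.ρ (g * h) a = A.ρ g (A.ρ h a)
        rw [map_mul, Module.End.mul_apply] }

/-- The identity, as an additive equivariant bijection `resFp p A ≃+ A`. -/
def resFpAEq (A : Rep.{0, 0, 0} k G) : AEq p (resFp p A) A where
  e := AddEquiv.refl A.V
  he _ _ := rfl

theorem resFp_ρ_apply (A : Rep.{0, 0, 0} k G) (g : G) (a : A.V) :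
    (resFp p A).ρ g a = A.ρ g a := rfl

theorem finiteDimensional_resFp [Finite k] (A : Rep.{0, 0, 0} k G) [Module.Finite k A.V] :
    FiniteDimensional (ZMod p) (resFp p A) := by
  haveI : Finite A.V := Module.finite_of_finite k
  haveI : Finite (resFp p A).V := ‹Finite A.V›
  exact Module.Finite.of_finite

end AEqSec

end Fermat.Agent.S56.Br

end

end
-- ===== PACK-END S56/Br/H374/Fp.lean

-- ===== PACK-BEGIN S55/Local/H374/KummerEmb.lean
section




/-!
# S55 / layer KL, leaf KL-A2 (`LocalKummerEmbSpec`), core                    (helper374)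

`ℚ̄_qˣ` (as a representation of the Prelude's local Galois group `Gl q`) is smooth for the local
level system, `p`-divisible, and `μ_p = F_p(χ_cyc)` embeds equivariantly onto its `p`-torsion.

Everything is stated in unfolded form (only `PT` vocabulary), so that the file does not depend on
the location of the KL interface.
-/

set_option autoImplicit false
set_option linter.style.haveILetI false

noncomputable section

namespace Fermat.Agent.S55.Local.H374

open groupCohomology ExtCitation Fermat.Agent.S55.PT Fermat.Agent.S55.Bridge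

/-- `ℚ̄_qˣ` (written additively) as a representation of the Prelude's local Galois group
(the same expression as `KL.unitsA`). -/
abbrev unitsQ (q : Nat.Primes) : Rep.{0, 0, 0} ℤ (Gl q) :=
  letI : Fact (q : ℕ).Prime := ⟨q.2⟩
  (Rep.ofAlgebraAutOnUnits ℚ_[(q : ℕ)] (PadicAlgCl (q : ℕ)) :
    Rep ℤ (PadicAlgCl (q : ℕ) ≃ₐ[ℚ_[(q : ℕ)]] PadicAlgCl (q : ℕ)))

/-- **KL-A2, part 1**: `ℚ̄_qˣ` is smooth (Krasner). -/
theorem unitsQ_isSmooth (q : Nat.Primes) : (localLevels q).IsSmooth (unitsQ q) := by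
  haveI : Fact (q : ℕ).Prime := ⟨q.2⟩
  haveI : Algebra.IsAlgebraic ℚ (AlgebraicClosure ℚ) := AlgebraicClosure.isAlgebraic ℚ
  intro a
  let u : (PadicAlgCl (q : ℕ))ˣ := Additive.toMul a
  obtain ⟨b, hb⟩ := exists_global_generator (q : ℕ) (u : PadicAlgCl (q : ℕ))
  haveI : FiniteDimensional ℚ (IntermediateField.adjoin ℚ {b}) :=
    IntermediateField.adjoin.finiteDimensional (Algebra.IsIntegral.isIntegral b)
  refine ⟨_, ⟨IntermediateField.adjoin ℚ {b}, inferInstance, rfl⟩, ?_⟩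
  intro s hs
  let s' : PadicAlgCl (q : ℕ) ≃ₐ[ℚ_[(q : ℕ)]] PadicAlgCl (q : ℕ) := s
  have hsb : localGaloisToGlobal (q : ℕ) s' b = b := by
    have hs' : rl q s ∈ (IntermediateField.adjoin ℚ {b}).fixingSubgroup := hs
    exact (IntermediateField.mem_fixingSubgroup_iff _ _).1 hs' b
      (IntermediateField.subset_adjoin ℚ _ (Set.mem_singleton b))
  have hsu : s' (u : PadicAlgCl (q : ℕ)) = u := fixes_adjoin_of_fixes (q : ℕ) s' b hsb _ hb
  apply Additive.toMul.injective
  apply Units.ext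
  exact hsu

/-- **KL-A2, part 2**: `ℚ̄_qˣ` is divisible. -/
theorem unitsQ_divisible (n : ℕ) (hn : 0 < n) (q : Nat.Primes) :
    ∀ b : unitsQ q, ∃ c : unitsQ q, n • c = b := by
  haveI : Fact (q : ℕ).Prime := ⟨q.2⟩
  intro b
  let u : (PadicAlgCl (q : ℕ))ˣ := Additive.toMul b
  obtain ⟨v, hv⟩ := IsAlgClosed.exists_pow_nat_eq (u : PadicAlgCl (q : ℕ)) hn
  have hv0 : v ≠ 0 := by
    rintro rfl
    rw [zero_pow hn.ne'] at hv
    exact u.ne_zero hv.symm
  refine ⟨Additive.ofMul (Units.mk0 v hv0), ?_⟩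
  apply Additive.toMul.injective
  apply Units.ext
  show ((Units.mk0 v hv0) ^ n : (PadicAlgCl (q : ℕ))ˣ).1 = (u : PadicAlgCl (q : ℕ))
  rw [Units.val_pow_eq_pow_val, Units.val_mk0, hv]

/-- additive maps out of `ZMod n` are determined by the image of `1` -/
theorem zmod_addMonoidHom_ext {A : Type*} [AddCommGroup A] {n : ℕ} (f g : ZMod n →+ A)
    (h : f 1 = g 1) : f = g := by
  have hfg : f.comp (Int.castAddHom (ZMod n)) = g.comp (Int.castAddHom (ZMod n)) := by
    ext
    simpa using h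
  ext x
  obtain ⟨k, rfl⟩ := ZMod.intCast_surjective x
  exact DFunLike.congr_fun hfg k

variable (p : ℕ) [Fact p.Prime]

/-- **KL-A2, part 3**: `μ_p` embeds equivariantly onto the `p`-torsion of `ℚ̄_qˣ`. -/
theorem exists_kummerEmb (q : Nat.Primes) :
    ∃ ι : muLoc p q →+ unitsQ q, Function.Injective ι ∧
      (∀ (g : Gl q) (m : muLoc p q), ι ((muLoc p q).ρ g m) = (unitsQ q).ρ g (ι m)) ∧
      ∀ b : unitsQ q, p • b = 0 ↔ b ∈ Set.range ι := by
  haveI : Fact (q : ℕ).Prime := ⟨q.2⟩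
  have hp : p.Prime := Fact.out
  haveI : NeZero p := ⟨hp.ne_zero⟩
  -- a primitive `p`-th root of unity in `ℚ̄` and its image in `ℚ̄_q`
  obtain ⟨ζ₀, hζ₀⟩ := HasEnoughRootsOfUnity.exists_primitiveRoot (AlgebraicClosure ℚ) p
  have hζ : IsPrimitiveRoot (padicEmbedding (q : ℕ) ζ₀) p :=
    hζ₀.map_of_injective (padicEmbedding (q : ℕ)).toRingHom.injective
  set ζ : PadicAlgCl (q : ℕ) := padicEmbedding (q : ℕ) ζ₀ with hζdef
  have hζ0 : ζ ≠ 0 := hζ.ne_zero hp.ne_zero
  let ζu : (PadicAlgCl (q : ℕ))ˣ := Units.mk0 ζ hζ0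
  have hζu : IsPrimitiveRoot ζu p := by
    rw [← IsPrimitiveRoot.coe_units_iff]
    exact hζ
  let z : unitsQ q := Additive.ofMul ζu
  have hz : (p : ℤ) • z = 0 := by
    rw [natCast_zsmul]
    apply Additive.toMul.injective
    show ζu ^ p = 1
    exact hζu.pow_eq_one
  let ι : muLoc p q →+ unitsQ q := ZMod.lift p ⟨zmultiplesHom (unitsQ q) z, by simpa using hz⟩
  have hι_int : ∀ k : ℤ, ι ((k : ZMod p) : muLoc p q) = k • z := fun k => by
    show ZMod.lift p _ (k : ZMod p) = k • z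
    rw [ZMod.lift_coe]
    rfl
  have hι_one : ι (1 : ZMod p) = z := by
    have h := hι_int 1
    rwa [Int.cast_one, one_zsmul] at h
  -- the Galois action on `ζ`
  have hgζ : ∀ g : Gl q, (unitsQ q).ρ g z
      = ((((cycloChar p (rl q g) : (ZMod p)ˣ) : ZMod p).val : ℕ) : ℤ) • z := by
    intro g
    let g' : PadicAlgCl (q : ℕ) ≃ₐ[ℚ_[(q : ℕ)]] PadicAlgCl (q : ℕ) := g
    have hζ₀0 : ζ₀ ≠ 0 := hζ₀.ne_zero hp.ne_zero
    have hmem : Units.mk0 ζ₀ hζ₀0 ∈ rootsOfUnity p (AlgebraicClosure ℚ) := by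
      rw [mem_rootsOfUnity]
      apply Units.ext
      rw [Units.val_pow_eq_pow_val, Units.val_mk0, Units.val_one]
      exact hζ₀.pow_eq_one
    have h1 := cycloChar_spec p (localGaloisToGlobal (q : ℕ) g') hmem
    rw [Units.val_mk0] at h1
    have h2 : g' ζ = ζ ^ ((cycloChar p (localGaloisToGlobal (q : ℕ) g') : (ZMod p)ˣ) : ZMod p).val := by
      rw [hζdef, ← padicEmbedding_localGaloisToGlobal, h1, map_pow]
    rw [natCast_zsmul]
    apply Additive.toMul.injective
    apply Units.ext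
    show g' ζ = ((ζu ^ (((cycloChar p (rl q g) : (ZMod p)ˣ) : ZMod p).val) :
      (PadicAlgCl (q : ℕ))ˣ) : PadicAlgCl (q : ℕ))
    rw [Units.val_pow_eq_pow_val]
    exact h2
  refine ⟨ι, ?_, ?_, ?_⟩
  · -- injectivity
    rw [injective_iff_map_eq_zero]
    intro m hm
    obtain ⟨k, rfl⟩ := ZMod.intCast_surjective (m : ZMod p)
    rw [hι_int] at hm
    have h1 : ζu ^ k = 1 := congrArg Additive.toMul hm
    rw [hζu.zpow_eq_one_iff_dvd] at h1
    exact (ZMod.intCast_zmod_eq_zero_iff_dvd k p).2 h1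
  · -- equivariance
    intro g m
    let φ₁ : ZMod p →+ unitsQ q :=
      (ι : ZMod p →+ unitsQ q).comp ((muLoc p q).ρ g : ZMod p →ₗ[ZMod p] ZMod p).toAddMonoidHom
    let φ₂ : ZMod p →+ unitsQ q :=
      (((unitsQ q).ρ g : unitsQ q →ₗ[ℤ] unitsQ q).toAddMonoidHom).comp (ι : ZMod p →+ unitsQ q)
    have h12 : φ₁ = φ₂ := by
      apply zmod_addMonoidHom_ext
      show ι ((muLoc p q).ρ g (1 : ZMod p)) = (unitsQ q).ρ g (ι (1 : ZMod p))
      rw [hι_one, hgζ g]
      have hρ : (muLoc p q).ρ g (1 : ZMod p)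
          = ((((((cycloChar p (rl q g) : (ZMod p)ˣ) : ZMod p).val : ℕ) : ℤ) : ZMod p) :
              ZMod p) := by
        show ((cycloChar p (rl q g) : (ZMod p)ˣ) : ZMod p) • (1 : ZMod p) = _
        rw [smul_eq_mul, mul_one, Int.cast_natCast, ZMod.natCast_val, ZMod.cast_id]
      rw [hρ]
      exact hι_int _
    exact DFunLike.congr_fun h12 m
  · -- the range is the `p`-torsion
    intro b
    constructor
    · intro hb
      let u : (PadicAlgCl (q : ℕ))ˣ := Additive.toMul b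
      have hu : u ^ p = 1 := congrArg Additive.toMul hb
      have hu' : (u : PadicAlgCl (q : ℕ)) ^ p = 1 := by
        rw [← Units.val_pow_eq_pow_val, hu, Units.val_one]
      obtain ⟨i, -, hi⟩ := hζ.eq_pow_of_pow_eq_one hu'
      refine ⟨((i : ℤ) : ZMod p), ?_⟩
      rw [hι_int, natCast_zsmul]
      apply Additive.toMul.injective
      apply Units.ext
      show ((ζu ^ i : (PadicAlgCl (q : ℕ))ˣ) : PadicAlgCl (q : ℕ)) = u
      rw [Units.val_pow_eq_pow_val]
      exact hi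
    · rintro ⟨m, rfl⟩
      rw [← map_nsmul]
      have : p • (m : ZMod p) = 0 := by
        rw [nsmul_eq_mul, CharP.cast_eq_zero, zero_mul]
      rw [this, map_zero]

end Fermat.Agent.S55.Local.H374

end

end
-- ===== PACK-END S55/Local/H374/KummerEmb.lean

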