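import Mathlib
import Fermat.Agent.Pack.S56.E13L2
import Fermat.Agent.Pack.S56.E7L2
import Fermat.Agent.Pack.S56.E13L1
import Fermat.Agent.Pack.S56.E13L0
import Fermat.Agent.Pack.S56.E9L0
import Fermat.Agent.Pack.S56.E0L1
import Fermat.Agent.Pack.S56.E10L1
import Fermat.Agent.Pack.S56.E5L3
import Fermat.Agent.Pack.S56.E12L0
import Fermat.Agent.Pack.S56.E12L3
import Fermat.Agent.Pack.S56.E4L3
import Fermat.Agent.Pack.S56.E12L1
import Fermat.Agent.Pack.S56.E12L2
import Fermat.Agent.Pack.S56.E4L0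
import Fermat.Agent.Pack.S56.E11L3
import Fermat.Agent.Pack.S56.E1L0
import Fermat.Agent.Pack.S56.E2L3
import Fermat.Agent.Pack.S56.E5L2
import Fermat.Agent.Pack.S56.E8L1
import Fermat.Agent.Pack.S56.E8L0
import Fermat.Agent.Pack.S56.E1L2
import Fermat.Agent.Pack.S56.E9L2
import Fermat.Agent.Pack.S56.E11L2

-- ===== PACK-BEGIN S56/H334/RLTame.lean
section


/-!
# S56 / W-FLAT-SS, piece FL-RAM (helper334): the frozen statement `RLTame`

Proof of `FL.RLTameStatement` (verbatim from `FL/RamLemSpec.lean`): tame inertia is cyclic,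
generated by `τ₀`, with faithful tame character `μ = θ₀(τ₀)`; `Γ / Γ₀` is generated by a Frobenius
lift `φ`, and `φ τ₀ φ⁻¹ ≡ τ₀ ^ p` modulo `Γ₁`.
-/

set_option autoImplicit false
set_option linter.unusedSectionVars false
set_option linter.style.haveILetI false

open IsLocalRing

namespace Fermat.Agent.S56.H334

open Fermat.Agent.S56

section TameAbstract

variable {B : Type*} [CommRing B] [IsDomain B] [IsDiscreteValuationRing B]
variable {Γ : Type*} [Group Γ] [MulSemiringAction Γ B]
variable {π : B} (hπ : Irreducible π)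

include hπ in
/-- `θ₀` does not depend on the uniformizer. -/
theorem residue_eq_residue_cOf {σ : Γ} (hσ : σ ∈ ramGroup Γ B 0) {ϖ u : B} (hϖ : Irreducible ϖ)
    (hu : σ • ϖ = u * ϖ) : residue B u = residue B (cOf hπ σ) := by
  obtain ⟨w, hw⟩ := (IsDiscreteValuationRing.associated_of_irreducible B hπ hϖ)
  -- `ϖ = π * w`
  have h1 : σ • ϖ = (σ • (w : B)) * cOf hπ σ * π := by
    rw [← hw, smul_mul', smul_eq_mul_cOf hπ σ]; ring
  rw [hu, ← hw] at h1
  have h2 : u * (w : B) = σ • (w : B) * cOf hπ σ := by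
    have : (u * (w : B)) * π = (σ • (w : B) * cOf hπ σ) * π := by
      rw [← h1]; ring
    exact mul_right_cancel₀ hπ.ne_zero this
  have h3 := congrArg (residue B) h2
  rw [map_mul, map_mul, residue_smul_eq_of_mem hσ] at h3
  have hw0 : residue B (w : B) ≠ 0 := by
    rw [Ne, residue_eq_zero_iff, mem_maximalIdeal, mem_nonunits_iff, not_not]
    exact w.isUnit
  rw [mul_comm (residue B u)] at h3
  exact mul_left_cancel₀ hw0 h3

/-- A generator of the tame inertia group. -/
theorem exists_tame_generator (hH : InertiaResidue Γ B) [Finite Γ] :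
    ∃ τ₀ ∈ ramGroup Γ B 0, ∀ σ ∈ ramGroup Γ B 0, ∃ j : ℕ, σ * (τ₀ ^ j)⁻¹ ∈ ramGroup Γ B 1 := by
  haveI := isCyclic_inertia_quotient (Γ := Γ) (B := B) hH
  obtain ⟨g, hg⟩ := IsCyclic.exists_generator
    (α := ramGroup Γ B 0 ⧸ (ramGroup Γ B 1).subgroupOf (ramGroup Γ B 0))
  obtain ⟨t, rfl⟩ := QuotientGroup.mk_surjective g
  refine ⟨t, t.2, fun σ hσ => ?_⟩
  have h1 := hg (QuotientGroup.mk ⟨σ, hσ⟩)
  rw [← mem_powers_iff_mem_zpowers] at h1
  obtain ⟨j, hj⟩ := h1
  refine ⟨j, ?_⟩
  have h2 : ((t ^ j : ramGroup Γ B 0) : ramGroup Γ B 0 ⧸ (ramGroup Γ B 1).subgroupOf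
      (ramGroup Γ B 0)) = QuotientGroup.mk ⟨σ, hσ⟩ := hj
  rw [QuotientGroup.eq] at h2
  have h3 : ((t ^ j)⁻¹ * ⟨σ, hσ⟩ : ramGroup Γ B 0).1 ∈ ramGroup Γ B 1 := h2
  have h4 : ((t : Γ) ^ j)⁻¹ * σ ∈ ramGroup Γ B 1 := h3
  exact (ramGroup_normal 1).mem_comm h4

include hπ in
/-- `τ ^ j ∈ Γ₁ ↔ θ₀(τ) ^ j = 1`. -/
theorem pow_mem_ramGroup_one_iff (hH : InertiaResidue Γ B) {τ : Γ} (hτ : τ ∈ ramGroup Γ B 0)
    (j : ℕ) : τ ^ j ∈ ramGroup Γ B 1 ↔ residue B (cOf hπ τ) ^ j = 1 := by
  set t : ramGroup Γ B 0 := ⟨τ, hτ⟩ with ht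
  have h1 : τ ^ j = ((t ^ j : ramGroup Γ B 0) : Γ) := rfl
  rw [h1, ← theta0_eq_one_iff hπ hH, map_pow]
  constructor
  · intro h
    have h2 := congrArg Units.val h
    rwa [Units.val_pow_eq_pow_val, theta0_apply, Units.val_one] at h2
  · intro h
    apply Units.ext
    rw [Units.val_pow_eq_pow_val, theta0_apply, Units.val_one]
    exact h

include hπ in
/-- A Frobenius lift `φ` satisfies `φ τ φ⁻¹ ≡ τ ^ q` modulo `Γ₁` for `τ ∈ Γ₀`. -/
theorem frob_conj_mul_inv_mem (hH : InertiaResidue Γ B) {q : ℕ} {φ : Γ}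
    (hφ : ∀ x : B, residue B (φ • x) = residue B x ^ q) {τ : Γ} (hτ : τ ∈ ramGroup Γ B 0) :
    φ * τ * φ⁻¹ * (τ ^ q)⁻¹ ∈ ramGroup Γ B 1 := by
  have hconj : φ * τ * φ⁻¹ ∈ ramGroup Γ B 0 := (ramGroup_normal 0).conj_mem _ hτ φ
  set t : ramGroup Γ B 0 := ⟨τ, hτ⟩ with ht
  set c : ramGroup Γ B 0 := ⟨φ * τ * φ⁻¹, hconj⟩ with hc
  have h1 : φ * τ * φ⁻¹ * (τ ^ q)⁻¹ = ((c * (t ^ q)⁻¹ : ramGroup Γ B 0) : Γ) := rfl
  rw [h1, ← theta0_eq_one_iff hπ hH, map_mul, map_inv, mul_inv_eq_one, map_pow]
  apply Units.ext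
  rw [Units.val_pow_eq_pow_val, theta0_apply, theta0_apply]
  show residue B (cOf hπ (φ * τ * φ⁻¹)) = residue B (cOf hπ τ) ^ q
  rw [theta0_conj hπ φ t, ← IsLocalRing.ResidueField.residue_smul, hφ]

end TameAbstract

section Frobenius

variable (A B Γ : Type*) [CommRing A] [IsDomain A] [IsDiscreteValuationRing A]
  [CommRing B] [IsDomain B] [IsDiscreteValuationRing B] [Algebra A B] [Module.Finite A B]
  [FaithfulSMul A B] [Group Γ] [Finite Γ] [MulSemiringAction Γ B] [SMulCommClass Γ A B]
  [Algebra.IsInvariant A B Γ] [FaithfulSMul Γ B] [Finite (ResidueField A)]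

/-- Existence of a Frobenius lift. -/
theorem exists_frobenius_lift :
    ∃ φ : Γ, ∀ x : B, residue B (φ • x) = residue B x ^ Nat.card (ResidueField A) := by
  haveI := finite_residueField_of_finite A B
  haveI : Finite (B ⧸ maximalIdeal B) := ‹Finite (ResidueField B)›
  obtain ⟨φ, hφ⟩ := IsArithFrobAt.exists_of_isInvariant A Γ (maximalIdeal B)
  refine ⟨φ, fun x => ?_⟩
  have h := hφ x
  rw [← Ideal.over_def (maximalIdeal B) (maximalIdeal A)] at h
  rw [← sub_eq_zero, ← map_pow, ← map_sub, residue_eq_zero_iff]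
  exact h

/-- The automorphism of the residue field extension induced by `σ`. -/
noncomputable def residueAlgEquiv (σ : Γ) : ResidueField B ≃ₐ[ResidueField A] ResidueField B :=
  AlgEquiv.ofRingEquiv (f := MulSemiringAction.toRingEquiv Γ (ResidueField B) σ) (by
    intro a
    obtain ⟨a₀, rfl⟩ := residue_surjective a
    rw [IsLocalRing.ResidueField.algebraMap_residue]
    show σ • residue B (algebraMap A B a₀) = _
    rw [← IsLocalRing.ResidueField.residue_smul, smul_algebraMap])

theorem residueAlgEquiv_apply (σ : Γ) (y : ResidueField B) :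
    residueAlgEquiv A B Γ σ y = σ • y := rfl

/-- Every `σ` acts on the residue field as a power of the Frobenius. -/
theorem exists_smul_eq_pow (σ : Γ) :
    ∃ n : ℕ, ∀ y : ResidueField B, σ • y = y ^ (Nat.card (ResidueField A) ^ n) := by
  haveI := finite_residueField_of_finite A B
  cases nonempty_fintype (ResidueField A)
  obtain ⟨n, hn⟩ := (FiniteField.bijective_frobeniusAlgEquivOfAlgebraic_pow (ResidueField A)
    (ResidueField B)).2 (residueAlgEquiv A B Γ σ)
  refine ⟨n.1, fun y => ?_⟩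
  have h1 := DFunLike.congr_fun hn y
  rw [residueAlgEquiv_apply] at h1
  rw [← h1, AlgEquiv.coe_pow, FiniteField.coe_frobeniusAlgEquivOfAlgebraic_iterate,
    Nat.card_eq_fintype_card]

include A in
/-- `Γ / Γ₀` is generated by a Frobenius lift. -/
theorem exists_mul_inv_pow_mem_ramGroup_zero {φ : Γ}
    (hφ : ∀ x : B, residue B (φ • x) = residue B x ^ Nat.card (ResidueField A)) (σ : Γ) :
    ∃ j : ℕ, σ * (φ ^ j)⁻¹ ∈ ramGroup Γ B 0 := by
  obtain ⟨n, hn⟩ := exists_smul_eq_pow A B Γ σ
  refine ⟨n, ?_⟩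
  have hφ' : ∀ y : ResidueField B, φ • y = y ^ Nat.card (ResidueField A) := by
    intro y
    obtain ⟨x, rfl⟩ := residue_surjective y
    rw [← IsLocalRing.ResidueField.residue_smul, hφ]
  have hpow : ∀ (k : ℕ) (y : ResidueField B),
      (φ ^ k) • y = y ^ (Nat.card (ResidueField A) ^ k) := by
    intro k
    induction k with
    | zero => intro y; simp
    | succ k ih =>
      intro y
      rw [pow_succ, mul_smul, hφ', ih, ← pow_mul, pow_succ, mul_comm]
  intro x
  show (σ * (φ ^ n)⁻¹) • x - x ∈ ((maximalIdeal B) ^ (0 + 1)).toAddSubgroup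
  rw [zero_add, pow_one]
  show (σ * (φ ^ n)⁻¹) • x - x ∈ maximalIdeal B
  rw [← residue_eq_zero_iff, map_sub, sub_eq_zero, IsLocalRing.ResidueField.residue_smul,
    mul_smul, hn, ← hpow, smul_inv_smul]

end Frobenius

/-- **RL-C** (frozen `FL.RLTameStatement`). -/
theorem rlTame : FL.RLTameStatement := by
  intro d
  haveI := rc_fact_prime d
  haveI := rc_finite_residue d
  have hH := rc_inertiaResidue d
  obtain ⟨π, hπ⟩ := IsDiscreteValuationRing.exists_irreducible d.B
  obtain ⟨τ₀, hτ₀, hgen⟩ := exists_tame_generator (Γ := d.Γ) (B := d.B) hH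
  obtain ⟨φ, hφ⟩ := exists_frobenius_lift d.A d.B d.Γ
  have hφ' : ∀ x : d.B, residue d.B (φ • x) = residue d.B x ^ d.p := by
    intro x; rw [hφ x, d.hκ]
  refine ⟨τ₀, hτ₀, φ, residue d.B (cOf hπ τ₀), hgen, ?_, ?_, hφ', ?_, ?_⟩
  · intro j
    exact pow_mem_ramGroup_one_iff hπ hH hτ₀ j
  · intro ϖ hϖ u hu
    exact residue_eq_residue_cOf hπ hτ₀ hϖ hu
  · intro σ
    exact exists_mul_inv_pow_mem_ramGroup_zero d.A d.B d.Γ hφ σ
  · exact frob_conj_mul_inv_mem hπ hH hφ' hτ₀

end Fermat.Agent.S56.H334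

end
-- ===== PACK-END S56/H334/RLTame.lean

-- ===== PACK-BEGIN S56/FO/H6/CE.lean
section






/-!
# S56 / FLAT-O / leaf CE (helper6): kernel of reduction = augmentation

`(M, act, Λ)` a Hopf lattice over `ℤ_(p)`, `p` odd, `p • M = 0`, `P | p` a place of `ℚ̄`,
`I = P.inertiaSubgroupIn ℚ`.

* `ConnEtStatement` (CE): a point `x` with `v(f x - f 0) < 1` for all `f ∈ Λ` (a point of the
  kernel of reduction) lies in the subgroup generated by the `act σ y - y`, `σ ∈ I`.
* `UnrVal1Statement` (VG1): an element of `ℚ̄` fixed by `I₁ = {σ ∈ I : σ ζ = ζ}` which is a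
  non-unit has valuation `≤ v(ζ - 1)`.
* `connEt_of : UnrVal1Statement → ConnEtStatement`.

Plan and use in the FLAT-O assembly: `coord/S56-FLAT-O-CE-helper6.md` (origin/helper6).
No quotient of Hopf lattices, no Cartier duality: only CHAR-INT (`CharInt.lean`).
-/

set_option autoImplicit false
set_option linter.style.haveILetI false
set_option linter.unusedSectionVars false

noncomputable section

namespace Fermat.Agent.S56.FO.H6

open Fermat.Agent.S56
open scoped BigOperators

/-- (VG1) a non-unit of `ℚ̄` fixed by `{σ ∈ I_P : σ ζ = ζ}` has valuation `≤ v(ζ - 1)`. -/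
def UnrVal1Statement : Prop :=
  ∀ p : ℕ, p.Prime → ∀ P : ValuationSubring Qb, P.LiesOverPrime p →
    ∀ ζ : Qb, IsPrimitiveRoot ζ p → ∀ y : Qb,
      (∀ σ ∈ P.inertiaSubgroupIn ℚ, σ ζ = ζ → σ y = y) → P.valuation y < 1 →
      P.valuation y ≤ P.valuation (ζ - 1)

/-- (CE) the kernel of reduction of a Hopf lattice killed by `p` (`p` odd) is contained in the
augmentation subgroup of inertia. -/
def ConnEtStatement : Prop :=
  ∀ (p : ℕ) [Fact p.Prime], p ≠ 2 →
    ∀ (M : Type) [AddCommGroup M] [Finite M] (act : GQ → M → M)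
    (Λ : Subalgebra (H906.Zp p) (M → Qb)), H906.IsHL p act Λ → (∀ x : M, p • x = 0) →
    ∀ P : ValuationSubring Qb, P.LiesOverPrime p → ∀ x : M,
      (∀ f ∈ Λ, P.valuation (f x - f 0) < 1) →
      x ∈ AddSubgroup.closure
        {z : M | ∃ σ ∈ P.inertiaSubgroupIn ℚ, ∃ y : M, z = act σ y - y}

/-! ## Auxiliary lemmas -/

/-- Elements of `ℤ_(p)` are `P`-integral for `P | p`. -/
theorem valuation_Zl_le_one {p : ℕ} (hp : p.Prime) (P : ValuationSubring Qb)
    (hP : P.LiesOverPrime p) (r : H906.Zp p) :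
    P.valuation (algebraMap (H906.Zp p) Qb r) ≤ 1 := by
  have hden : (r : ℚ).den.Coprime p := r.2
  have hq : algebraMap (H906.Zp p) Qb r = algebraMap ℚ Qb (r : ℚ) := rfl
  have h1 : algebraMap ℚ Qb (r : ℚ) = ((r : ℚ).num : Qb) / (((r : ℚ).den : ℤ) : Qb) := by
    conv_lhs => rw [← Rat.num_div_den (r : ℚ)]
    rw [map_div₀, map_intCast, map_natCast]
    push_cast
    rfl
  rw [hq, h1, map_div₀]
  have hnd : ¬ (p : ℤ) ∣ (((r : ℚ).den : ℕ) : ℤ) := by
    intro h
    have h2 : p ∣ (r : ℚ).den := by exact_mod_cast h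
    have h3 := Nat.Coprime.eq_one_of_dvd hden.symm h2
    exact hp.one_lt.ne' h3
  rw [Fermat.Agent.S14.H894.valuation_intCast_eq_one P p hp hP _ hnd, div_one]
  exact Fermat.Agent.S14.H894.valuation_intCast_le_one P _

/-- Elements of `ℚ̄` integral over `ℤ_(p)` are `P`-integral for `P | p`. -/
theorem valuation_le_one_of_isIntegral {p : ℕ} (hp : p.Prime) (P : ValuationSubring Qb)
    (hP : P.LiesOverPrime p) {c : Qb} (hc : IsIntegral (H906.Zp p) c) :
    P.valuation c ≤ 1 := by
  obtain ⟨f, hf, hfc⟩ := hc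
  by_contra hlt
  rw [not_le] at hlt
  have hn : f.natDegree ≠ 0 := by
    intro hn
    have h1 : f = 1 := by
      have := Polynomial.eq_C_of_natDegree_eq_zero hn
      rw [this]
      have h2 : f.coeff 0 = 1 := by
        have := hf.coeff_natDegree
        rwa [hn] at this
      rw [h2, map_one]
    rw [h1, Polynomial.eval₂_one] at hfc
    exact one_ne_zero hfc
  rw [Polynomial.eval₂_eq_sum_range, Finset.sum_range_succ, hf.coeff_natDegree, map_one,
    one_mul, add_eq_zero_iff_eq_neg] at hfc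
  have h3 := congrArg P.valuation hfc
  rw [Valuation.map_neg, map_pow] at h3
  have h4 : P.valuation (∑ i ∈ Finset.range f.natDegree,
      algebraMap (H906.Zp p) Qb (f.coeff i) * c ^ i) < P.valuation c ^ f.natDegree := by
    refine P.valuation.map_sum_lt ?_ ?_
    · exact pow_ne_zero _ (ne_of_gt (lt_trans zero_lt_one hlt))
    · intro i hi
      rw [Finset.mem_range] at hi
      rw [map_mul, map_pow]
      calc P.valuation (algebraMap (H906.Zp p) Qb (f.coeff i)) * P.valuation c ^ i
          ≤ 1 * P.valuation c ^ i :=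
            mul_le_mul_of_nonneg_right (valuation_Zl_le_one hp P hP _) zero_le
        _ = P.valuation c ^ i := one_mul _
        _ < P.valuation c ^ f.natDegree := pow_lt_pow_right₀ hlt hi
  rw [h3] at h4
  exact lt_irrefl _ h4

/-- A vector outside a subspace is detected by a linear form vanishing on the subspace. -/
theorem exists_dual_of_not_mem {p : ℕ} [Fact p.Prime] {M : Type*} [AddCommGroup M]
    [Module (ZMod p) M] (Z : Submodule (ZMod p) M) {x₀ : M} (hx : x₀ ∉ Z) :
    ∃ f : M →ₗ[ZMod p] ZMod p, f x₀ ≠ 0 ∧ ∀ z ∈ Z, f z = 0 := by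
  obtain ⟨f, hf, hfZ⟩ : ∃ f : M →ₗ[ZMod p] ZMod p, f x₀ ≠ 0 ∧ Z.map f = ⊥ :=
    Submodule.exists_dual_map_eq_bot_of_notMem hx inferInstance
  refine ⟨f, hf, fun z hz => ?_⟩
  have : f z ∈ Z.map f := ⟨z, hz, rfl⟩
  rw [hfZ] at this
  exact (Submodule.mem_bot _).mp this

/-- A point outside a subgroup of a group killed by `p` is detected by an additive character
with values in `ZMod p`. -/
theorem exists_addChar_of_not_mem {p : ℕ} [Fact p.Prime] {M : Type*} [AddCommGroup M]
    (hpM : ∀ x : M, p • x = 0) (Z : AddSubgroup M) {x₀ : M} (hx : x₀ ∉ Z) :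
    ∃ ξ : M →+ ZMod p, (∀ z ∈ Z, ξ z = 0) ∧ ξ x₀ ≠ 0 := by
  letI : Module (ZMod p) M := AddCommGroup.zmodModule hpM
  obtain ⟨f, hf, hfZ⟩ := exists_dual_of_not_mem (AddSubgroup.toZModSubmodule p Z) hx
  exact ⟨f.toAddMonoidHom, fun z hz => hfZ z hz, hf⟩

/-- The multiplicative character `m ↦ ζ ^ (ξ m).val`. -/
theorem zeta_pow_val_add {p : ℕ} [Fact p.Prime] {ζ : Qb} (hζ : ζ ^ p = 1) (a b : ZMod p) :
    ζ ^ (a + b).val = ζ ^ a.val * ζ ^ b.val := by
  rw [ZMod.val_add, ← pow_add]
  exact (pow_eq_pow_mod _ hζ).symm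

/-! ## The theorem -/

/-- **(CE)** from (VG1). -/
theorem connEt_of (hV : UnrVal1Statement) : ConnEtStatement := by
  intro p _ hp2 M _ _ act Λ hΛ hpM P hP x₀ hx₀
  classical
  have hp : p.Prime := Fact.out
  haveI : NeZero p := ⟨hp.ne_zero⟩
  by_contra hx
  set Z : AddSubgroup M := AddSubgroup.closure
    {z : M | ∃ σ ∈ P.inertiaSubgroupIn ℚ, ∃ y : M, z = act σ y - y} with hZ
  -- (1) the character
  obtain ⟨ξ, hξZ, hξx⟩ := exists_addChar_of_not_mem hpM Z hx
  obtain ⟨ζ, hζ⟩ := Fermat.Agent.S56.P3.H254.exists_primitiveRoot p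
  have hζp : ζ ^ p = 1 := hζ.pow_eq_one
  set χ : M → Qb := fun m => ζ ^ (ξ m).val with hχdef
  have hχ0 : χ 0 = 1 := by
    show ζ ^ (ξ 0).val = 1
    rw [map_zero, ZMod.val_zero, pow_zero]
  have hχadd : ∀ x y : M, χ (x + y) = χ x * χ y := by
    intro x y
    show ζ ^ (ξ (x + y)).val = _
    rw [map_add]
    exact zeta_pow_val_add hζp _ _
  have hχp : ∀ m : M, χ m ^ p = 1 := by
    intro m
    show (ζ ^ (ξ m).val) ^ p = 1
    rw [← pow_mul, mul_comm, pow_mul, hζp, one_pow]
  -- `χ` is invariant under inertia translations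
  have hχact : ∀ σ ∈ P.inertiaSubgroupIn ℚ, ∀ m : M, χ (act σ m) = χ m := by
    intro σ hσ m
    have h1 : act σ m - m ∈ Z := AddSubgroup.subset_closure ⟨σ, hσ, m, rfl⟩
    have h2 : ξ (act σ m) = ξ m := by
      have := hξZ _ h1
      rw [map_sub, sub_eq_zero] at this
      exact this
    show ζ ^ (ξ (act σ m)).val = ζ ^ (ξ m).val
    rw [h2]
  -- (3) the basis and the coefficients
  obtain ⟨n, e, he, -, hliQ, hexp⟩ := Fermat.Agent.S19.H435.IsHopfLattice.exists_basis hΛ
  have hli := Fintype.linearIndependent_iff.mp hliQ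
  obtain ⟨c, hcint, hc⟩ := isIntegral_coeff_of_character hΛ e he hliQ hexp χ hχ0 hχadd
  have hχc : ∀ m : M, χ m = ∑ i, c i * e i m := by
    intro m
    rw [hc, sum_Qb_smul_apply]
  -- the inverse character
  set χ' : M → Qb := fun m => χ m ^ (p - 1) with hχ'def
  have hχ'0 : χ' 0 = 1 := by
    show χ 0 ^ (p - 1) = 1
    rw [hχ0, one_pow]
  have hχ'add : ∀ x y : M, χ' (x + y) = χ' x * χ' y := by
    intro x y
    show χ (x + y) ^ (p - 1) = χ x ^ (p - 1) * χ y ^ (p - 1)
    rw [hχadd, mul_pow]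
  obtain ⟨c', hc'int, hc'⟩ := isIntegral_coeff_of_character hΛ e he hliQ hexp χ' hχ'0 hχ'add
  have hχ'c : ∀ m : M, χ' m = ∑ i, c' i * e i m := by
    intro m
    rw [hc', sum_Qb_smul_apply]
  -- the unit function and the structure constants
  obtain ⟨u, hu⟩ := hexp 1 Λ.one_mem
  have hu1 : ∀ m : M, (1 : Qb) = ∑ k, algebraMap (H906.Zp p) Qb (u k) * e k m := by
    intro m
    have := congrFun hu m
    rw [sum_Zl_smul_apply] at this
    exact this
  choose s hs using fun i j => hexp (e i * e j) (Λ.mul_mem (he i) (he j))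
  have hs' : ∀ (i j : Fin n) (m : M),
      e i m * e j m = ∑ k, algebraMap (H906.Zp p) Qb (s i j k) * e k m := by
    intro i j m
    have := congrFun (hs i j) m
    rw [sum_Zl_smul_apply] at this
    exact this
  -- (5) twisting
  have htw : ∀ σ ∈ P.inertiaSubgroupIn ℚ, ∀ a : ℕ, σ ζ = ζ ^ a →
      ∀ m : M, ∑ i, σ (c i) * e i m = χ m ^ a := by
    intro σ hσ a ha m
    have hσi : σ⁻¹ ∈ P.inertiaSubgroupIn ℚ := Subgroup.inv_mem _ hσ
    have h1 : χ (act σ⁻¹ m) = ∑ i, c i * σ⁻¹ (e i m) := by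
      rw [hχc]
      refine Finset.sum_congr rfl fun i _ => ?_
      rw [hΛ.equivariant _ (he i) σ⁻¹ m]
    have h2 := congrArg σ h1
    rw [map_sum, hχact σ⁻¹ hσi m] at h2
    have h3 : ∀ i, σ (c i * σ⁻¹ (e i m)) = σ (c i) * e i m := by
      intro i
      rw [map_mul]
      congr 1
      exact AlgEquiv.apply_symm_apply σ (e i m)
    rw [Finset.sum_congr rfl fun i _ => h3 i] at h2
    rw [← h2]
    show σ (ζ ^ (ξ m).val) = (ζ ^ (ξ m).val) ^ a
    rw [map_pow, ha, ← pow_mul, ← pow_mul, mul_comm]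
  -- (4) an inertia element acting by `ζ ↦ ζ²`
  have h2p : Nat.Coprime 2 p := by
    rw [Nat.coprime_comm]
    exact (Nat.coprime_primes hp Nat.prime_two).mpr hp2
  obtain ⟨g, hg⟩ := Fermat.Agent.S56.P3.H254.exists_apply_eq_pow hζ (ZMod.unitOfCoprime 2 h2p)
  have hval2 : ((ZMod.unitOfCoprime 2 h2p : (ZMod p)ˣ) : ZMod p).val = 2 := by
    rw [ZMod.coe_unitOfCoprime, ZMod.val_natCast]
    refine Nat.mod_eq_of_lt ?_
    have := hp.two_le
    omega
  rw [hval2] at hg
  obtain ⟨τ, hτ, hτζ⟩ := Fermat.Agent.S56.H656.exists_inertia_apply_eq hp P hP hζ g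
  rw [hg] at hτζ
  -- valuations of the coefficients
  have hvc : ∀ i, P.valuation (c i) ≤ 1 := fun i => valuation_le_one_of_isIntegral hp P hP (hcint i)
  have hvc' : ∀ i, P.valuation (c' i) ≤ 1 :=
    fun i => valuation_le_one_of_isIntegral hp P hP (hc'int i)
  set t : Fin n → Qb := fun j => τ (c j) - c j with ht
  have hvt : ∀ j, P.valuation (t j) < 1 := fun j =>
    Fermat.Agent.A2.H708.valuation_sub_lt_one_of_mem_inertiaIn P hτ (hvc j)
  -- (6a) `c k - u k = D k`
  set D : Fin n → Qb := fun k => ∑ i, ∑ j, c' i * t j * algebraMap (H906.Zp p) Qb (s i j k)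
    with hD
  have hcu : ∀ k, c k - algebraMap (H906.Zp p) Qb (u k) = D k := by
    intro k
    have h0 : ∑ k, (c k - algebraMap (H906.Zp p) Qb (u k) - D k) • e k = 0 := by
      funext m
      rw [sum_Qb_smul_apply, Pi.zero_apply]
      simp only [sub_mul, Finset.sum_sub_distrib]
      rw [← hχc m, ← hu1 m]
      -- `χ m - 1 = χ' m * (χ m ^ 2 - χ m)`
      have h1 : χ m - 1 = χ' m * (χ m ^ 2 - χ m) := by
        show χ m - 1 = χ m ^ (p - 1) * (χ m ^ 2 - χ m)
        have hpp : χ m ^ (p - 1) * χ m = 1 := by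
          rw [← pow_succ, Nat.sub_add_cancel hp.one_le, hχp]
        calc χ m - 1 = (χ m ^ (p - 1) * χ m) * χ m - χ m ^ (p - 1) * χ m := by
              rw [hpp, one_mul]
          _ = χ m ^ (p - 1) * (χ m ^ 2 - χ m) := by ring
      have h2 : χ m ^ 2 - χ m = ∑ j, t j * e j m := by
        rw [← htw τ hτ 2 hτζ m, hχc m, ← Finset.sum_sub_distrib]
        refine Finset.sum_congr rfl fun j _ => ?_
        rw [ht]
        ring
      have h3 : ∑ k, D k * e k m = χ' m * (χ m ^ 2 - χ m) := by
        rw [h2, hχ'c m, Finset.sum_mul_sum]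
        have h4 : ∀ i j, c' i * e i m * (t j * e j m) =
            ∑ k, c' i * t j * algebraMap (H906.Zp p) Qb (s i j k) * e k m := by
          intro i j
          have : c' i * e i m * (t j * e j m) = c' i * t j * (e i m * e j m) := by ring
          rw [this, hs' i j m, Finset.mul_sum]
          refine Finset.sum_congr rfl fun k _ => ?_
          ring
        simp_rw [h4]
        rw [hD]
        simp only [Finset.sum_mul]
        rw [Finset.sum_comm]
        refine Finset.sum_congr rfl fun i _ => ?_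
        rw [Finset.sum_comm]
      rw [h3, h1, sub_self]
    exact sub_eq_zero.mp (hli _ h0 k)
  have hvD : ∀ k, P.valuation (D k) < 1 := by
    intro k
    refine P.valuation.map_sum_lt one_ne_zero fun i _ => ?_
    refine P.valuation.map_sum_lt one_ne_zero fun j _ => ?_
    rw [map_mul, map_mul]
    calc P.valuation (c' i) * P.valuation (t j) *
          P.valuation (algebraMap (H906.Zp p) Qb (s i j k))
        ≤ 1 * P.valuation (t j) * 1 := by
          gcongr
          · exact hvc' i
          · exact valuation_Zl_le_one hp P hP _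
      _ = P.valuation (t j) := by rw [one_mul, mul_one]
      _ < 1 := hvt j
  -- (6b) the coefficients are fixed by `I₁`
  have hfix : ∀ σ ∈ P.inertiaSubgroupIn ℚ, σ ζ = ζ → ∀ k, σ (D k) = D k := by
    intro σ hσ hσζ k
    have hck : σ (c k) = c k := by
      have h0 : ∑ i, (σ (c i) - c i) • e i = 0 := by
        funext m
        rw [sum_Qb_smul_apply, Pi.zero_apply]
        simp only [sub_mul, Finset.sum_sub_distrib]
        rw [htw σ hσ 1 (by rw [pow_one]; exact hσζ) m, pow_one, ← hχc m, sub_self]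
      exact sub_eq_zero.mp (hli _ h0 k)
    rw [← hcu k, map_sub, hck]
    congr 1
    exact σ.commutes ((u k : ℚ))
  -- (VG1)
  have hvD' : ∀ k, P.valuation (D k) ≤ P.valuation (ζ - 1) := fun k =>
    hV p hp P hP ζ hζ (D k) (fun σ hσ hσζ => hfix σ hσ hσζ k) (hvD k)
  -- (7) the value at `x₀`
  have hval : χ x₀ - 1 = ∑ k, D k * (e k x₀ - e k 0) := by
    have h1 : χ x₀ - 1 = ∑ k, c k * (e k x₀ - e k 0) := by
      rw [← hχ0, hχc x₀, hχc 0, ← Finset.sum_sub_distrib]
      refine Finset.sum_congr rfl fun k _ => ?_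
      ring
    have h2 : ∑ k, algebraMap (H906.Zp p) Qb (u k) * (e k x₀ - e k 0) = 0 := by
      simp only [mul_sub, Finset.sum_sub_distrib]
      rw [← hu1 x₀, ← hu1 0, sub_self]
    rw [h1, ← sub_zero (∑ k, c k * (e k x₀ - e k 0)), ← h2, ← Finset.sum_sub_distrib]
    refine Finset.sum_congr rfl fun k _ => ?_
    rw [← hcu k]
    ring
  have hπ0 : P.valuation (ζ - 1) ≠ 0 :=
    Fermat.Agent.S14.H894.valuation_zeta_sub_one_ne_zero P p hp ζ hζ
  have hlt : P.valuation (χ x₀ - 1) < P.valuation (ζ - 1) := by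
    rw [hval]
    refine P.valuation.map_sum_lt hπ0 fun k _ => ?_
    rw [map_mul]
    calc P.valuation (D k) * P.valuation (e k x₀ - e k 0)
        ≤ P.valuation (ζ - 1) * P.valuation (e k x₀ - e k 0) :=
          mul_le_mul_of_nonneg_right (hvD' k) zero_le
      _ < P.valuation (ζ - 1) * 1 :=
          mul_lt_mul_of_pos_left (hx₀ _ (he k)) (zero_lt_iff.mpr hπ0)
      _ = P.valuation (ζ - 1) := mul_one _
  -- (8) `χ x₀` is a primitive `p`-th root of unity
  have hk0 : (ξ x₀).val ≠ 0 := by
    intro h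
    exact hξx ((ZMod.val_eq_zero _).mp h)
  have hcop : (ξ x₀).val.Coprime p := by
    rw [Nat.coprime_comm, hp.coprime_iff_not_dvd]
    intro hdvd
    have h1 := Nat.le_of_dvd (Nat.pos_of_ne_zero hk0) hdvd
    exact absurd (ZMod.val_lt (ξ x₀)) (not_lt.mpr h1)
  have hprim : IsPrimitiveRoot (χ x₀) p := hζ.pow_of_coprime _ hcop
  have heq := Fermat.Agent.S14.H894.valuation_sub_one_eq_of_mem_primitiveRoots P p hp ζ hζ
    ((mem_primitiveRoots hp.pos).mpr hprim)
  rw [heq] at hlt
  exact lt_irrefl _ hlt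

end Fermat.Agent.S56.FO.H6

end
end
-- ===== PACK-END S56/FO/H6/CE.lean

-- ===== PACK-BEGIN S55/G/SI777/Final.lean
section
/-
S55, layer G, block G-SI-FINAL (helper777): assembly of the SECOND INEQUALITY
`SecondInequalitySpec` (helper421 `G/Spec.lean`) from

* `IndexBoundStatement` : the index bound `[C_S(K) : H] ≤ [L : K]` for every subgroup
  `H ⊇ n • C_S(K)` containing the classes `(0, [w ∩ K])` of the primes below the primes `w` of
  `L` of prime absolute norm (the analytic second inequality in the `S`-idèle model; helper963's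
  G-SI-BRIDGE on top of the ideal-theoretic `RayDatum.card_le_finrank`);
* helper773's Galois descent `C_S(K) ≃ C_S(L)^G` (`DescH773`);
* `T.CyclicCardSpec` (`|H²(G, A)| = [A^G : N_G A]` for cyclic `G`; on main).
-/




set_option autoImplicit false
set_option linter.unusedSectionVars false

open scoped NumberField TensorProduct Pointwise
open IsDedekindDomain CategoryTheory groupCohomology

noncomputable section

namespace Fermat.Agent.S55.G.SI777

open Fermat.Agent.S55.G Fermat.Agent.S55.G.DescH773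

/-- **Index bound (analytic second inequality in the `S`-idèle class group).**
Let `L/K` be number fields, `S ≠ ∅`, `n > 0`, and `H ≤ C_S(K)` a subgroup containing
`n • C_S(K)` and the class of `(0, [w ∩ K])` for every prime `w` of `L` outside `S` of prime
absolute norm.  Then `H` has finite index at most `[L : K]`. -/
def IndexBoundStatement : Prop :=
  ∀ (S : Finset Nat.Primes) (K L : Type) [Field K] [NumberField K] [Field L] [NumberField L]
    [Algebra K L] (n : ℕ), 0 < n → S.Nonempty →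
    ∀ H : AddSubgroup (CS S K),
      (∀ c : CS S K, n • c ∈ H) →
      (∀ w : PrimeOut S L, (Ideal.absNorm w.1.asIdeal).Prime →
        (Submodule.Quotient.mk ((0, Finsupp.single (primeOutUnder S K L w) 1) : JD S K) :
          CS S K) ∈ H) →
      H.index ≠ 0 ∧ H.index ≤ Module.finrank K L

section Adapter

variable (G L : Type) [Group G] [Finite G] [Field L] [NumberField L] [MulSemiringAction G L]
  [FaithfulSMul G L]

/-- The fixed field of a finite group acting on a number field is a number field. -/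
instance numberField_fixedPoints : NumberField (FixedPoints.subfield G L) where
  to_charZero := inferInstance
  to_finiteDimensional :=
    FiniteDimensional.of_injective
      ((algebraMap (FixedPoints.subfield G L) L).toRatAlgHom.toLinearMap)
      (algebraMap (FixedPoints.subfield G L) L).injective

end Adapter

section Main

/-- A subgroup `H ⊇ p • A` (`p` prime) of finite index at most `p` has index dividing `p`. -/
lemma index_dvd_prime {A : Type*} [AddCommGroup A] (H : AddSubgroup A) (p : ℕ) (hp : p.Prime)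
    (hpH : ∀ a : A, p • a ∈ H) (h0 : H.index ≠ 0) (hle : H.index ≤ p) : H.index ∣ p := by
  by_cases h1 : H.index = 1
  · rw [h1]
    exact one_dvd _
  · obtain ⟨q, hq, hqd⟩ := Nat.exists_prime_and_dvd h1
    have : H.FiniteIndex := ⟨h0⟩
    have : Finite (A ⧸ H) := AddSubgroup.finite_quotient_of_finiteIndex
    have := Fact.mk hq
    obtain ⟨x, hx⟩ := exists_prime_addOrderOf_dvd_card' (G := A ⧸ H) q
      (by rwa [← AddSubgroup.index_eq_card])
    have hpx : p • x = 0 := by
      obtain ⟨a, rfl⟩ := QuotientAddGroup.mk_surjective x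
      exact (QuotientAddGroup.eq_zero_iff _).2 (hpH a)
    have hqp' : q ∣ p := hx ▸ addOrderOf_dvd_of_nsmul_eq_zero hpx
    have hqp : q = p := (Nat.prime_dvd_prime_iff_eq hq hp).1 hqp'
    subst hqp
    exact (Nat.le_antisymm hle (Nat.le_of_dvd (Nat.pos_of_ne_zero h0) hqd)) ▸ dvd_rfl

/-- **G-SI (second inequality)**, from the analytic index bound in the `S`-idèle model,
helper773's Galois descent and the cyclic cohomology computation `T.CyclicCardSpec`.
(The root of unity hypothesis is not used.) -/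
theorem secondInequality_of (hB : IndexBoundStatement) (hT : T.CyclicCardSpec) :
    SecondInequalitySpec := by
  intro p hp _ S G L _ _ _ _ _ _ hpS hcard hunr _
  have hS : S.Nonempty := ⟨_, hpS⟩
  let _ : Fintype G := Fintype.ofFinite G
  have : IsCyclic G := isCyclic_of_prime_card hcard
  have hin : ∀ w : HeightOneSpectrum (𝓞 L), ¬ IsAbove S L w →
      ∀ g : G, (∀ x : 𝓞 L, g • x - x ∈ w.asIdeal) → g = 1 := by
    intro w hw g hg
    exact FaithfulSMul.eq_of_smul_eq_smul (α := L) (fun x => by rw [hunr w hw g hg x, one_smul])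
  have hur : ∀ w : PrimeOut S L, eAt (FixedPoints.subfield G L) w.1 = 1 :=
    fun w => _root_.Fermat.Agent.S55.G.SI777.eAt_eq_one_of_inertia G (FixedPoints.subfield G L) w.1 (hin w.1 w.2)
  have hfin : Module.finrank (FixedPoints.subfield G L) L = p := by
    rw [← IsGaloisGroup.card_eq_finrank G, hcard]
  have hcardF : Fintype.card G = p := by rw [← Nat.card_eq_fintype_card, hcard]
  have hpmem : ∀ c : CS S (FixedPoints.subfield G L),
      p • c ∈ normSub S G (FixedPoints.subfield G L) L :=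
    fun c => hcardF ▸ card_smul_mem_normSub S G (FixedPoints.subfield G L) L c
  obtain ⟨h0, hle⟩ := hB S (FixedPoints.subfield G L) L p hp.out.pos hS
    (normSub S G (FixedPoints.subfield G L) L) hpmem
    (fun w hw => single_mem_normSub S G (FixedPoints.subfield G L) L hur w (fun g hg =>
      stabilizer_trivial G (FixedPoints.subfield G L) w.1 (hin w.1 w.2)
        (inertiaDeg_eq_one_of_absNorm_prime (FixedPoints.subfield G L) w.1 hw) g
        (congrArg Subtype.val hg)))
  rw [hfin] at hle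
  have hdvd : (normSub S G (FixedPoints.subfield G L) L).index ∣ p :=
    index_dvd_prime _ p hp.out hpmem h0 hle
  have hH2 : Nat.card (groupCohomology (CRep S G L) 2) =
      (normSub S G (FixedPoints.subfield G L) L).index := by
    rw [(hT ℤ G (CRep S G L)).1]
    exact relIndex_norm_invariants S G (FixedPoints.subfield G L) L hS hur
  refine ⟨?_, hH2 ▸ hdvd⟩
  exact Nat.finite_of_card_ne_zero (hH2 ▸ h0)

/-- **G-SI** from the index bound alone (`T.CyclicCardSpec` is on main: helper895). -/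
theorem secondInequality_of_indexBound (hB : IndexBoundStatement) : SecondInequalitySpec :=
  secondInequality_of hB T.H895.cyclicCard

end Main

end Fermat.Agent.S55.G.SI777

end
end
-- ===== PACK-END S55/G/SI777/Final.lean

-- ===== PACK-BEGIN S55/L/Unram784/CyclicUnique.lean
section


/-!
# S55, layer L, leaf L-A2 (helper784): `UnramifiedCyclicSpec` and `UnramifiedUniqueSpec`
-/

set_option autoImplicit false
set_option linter.unusedSectionVars false

namespace Fermat.Agent.S55.L

open IsLocalRing Polynomial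

/-- **L-A2b**: an unramified extension of local fields is Galois and cyclic, generated by a
Frobenius element. -/
theorem u784_unramifiedCyclic : UnramifiedCyclicSpec := by
  intro K L _ _ _ _ hK hun
  obtain ⟨A, B, π, hA, hB, hπA, hπB⟩ := hun
  have := hK.charZero
  obtain ⟨-, hgal, -, -, φ, hφ1, hφ2⟩ := u784_master hA hB π hπA hπB
  exact ⟨hgal, φ, ⟨A, B, hA, hB, hφ1⟩, hφ2⟩

/-- **L-A2c**: inside a finite extension, two unramified subextensions of the same degree
coincide. -/
theorem u784_unramifiedUnique : UnramifiedUniqueSpec := by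
  intro K M _ _ _ _ hK E E' hE hE' hdeg
  obtain ⟨A, B, π, hA, hB, hπA, hπB⟩ := hE
  obtain ⟨A', B', π', hA', hB', hπA', hπB'⟩ := hE'
  have hAA : A' = A := u784_ringOfIntegersUnique K A' A hA' hA
  subst hAA
  have := hK.charZero
  obtain ⟨hdvrA, hcA, hfA⟩ := id hA
  obtain ⟨-, -, ⟨g, hg, hirr, hgdeg⟩, hsplit, -⟩ := u784_master (L := E) hA hB π hπA hπB
  obtain ⟨-, -, -, hsplit', -⟩ := u784_master (L := E') hA hB' π' hπA' hπB'
  have hs := hsplit g hg hirr hgdeg
  have hs' := hsplit' g hg hirr (hgdeg.trans hdeg)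
  have hirrK : Irreducible (g.map (algebraMap ↥A' K)) :=
    u784_irreducible_map_fraction g hg hirr
  have hmonK : (g.map (algebraMap ↥A' K)).Monic := hg.map _
  -- a root in `E'`
  have hdeg0 : ((g.map (algebraMap ↥A' K)).map (algebraMap K E')).degree ≠ 0 := by
    rw [Polynomial.degree_map]
    exact (Polynomial.degree_pos_of_irreducible hirrK).ne'
  obtain ⟨β', hβ'⟩ := hs'.exists_eval_eq_zero hdeg0
  rw [Polynomial.eval_map, ← Polynomial.aeval_def] at hβ'
  have hβM : aeval (β' : M) (g.map (algebraMap ↥A' K)) = 0 := by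
    have := congrArg (E'.val) hβ'
    rwa [← Polynomial.aeval_algHom_apply, map_zero] at this
  -- the root lies in `E`
  have hmemE : (β' : M) ∈ E := by
    have h1 : (β' : M) ∈ (g.map (algebraMap ↥A' K)).rootSet M :=
      Polynomial.mem_rootSet.mpr ⟨hmonK.ne_zero, hβM⟩
    rw [← hs.image_rootSet E.val] at h1
    obtain ⟨e, -, he⟩ := h1
    rw [← he]
    exact e.2
  have hmin : minpoly K (β' : M) = g.map (algebraMap ↥A' K) :=
    (minpoly.eq_of_irreducible_of_monic hirrK hβM hmonK).symm
  have hint : IsIntegral K (β' : M) := Algebra.IsIntegral.isIntegral _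
  have hfr : Module.finrank K (IntermediateField.adjoin K {(β' : M)}) = Module.finrank K E := by
    rw [IntermediateField.adjoin.finrank hint, hmin, hg.natDegree_map, hgdeg]
  have h1 : IntermediateField.adjoin K {(β' : M)} = E :=
    IntermediateField.eq_of_le_of_finrank_eq
      (IntermediateField.adjoin_simple_le_iff.mpr hmemE) hfr
  have h2 : IntermediateField.adjoin K {(β' : M)} = E' :=
    IntermediateField.eq_of_le_of_finrank_eq
      (IntermediateField.adjoin_simple_le_iff.mpr β'.2) (hfr.trans hdeg)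
  rw [← h1, h2]

end Fermat.Agent.S55.L

end
-- ===== PACK-END S55/L/Unram784/CyclicUnique.lean

-- ===== PACK-BEGIN S55/L/Unram784/Exists.lean
section



/-!
# S55, layer L, leaf L-A2 (helper784): `UnramifiedExistsSpec`

For a local field `K` with ring of integers `A` and `n > 0`, take `g : A[X]` monic whose
reduction is irreducible of degree `n`, `S = A[X]/(g)` and `L = Frac S`.
-/

set_option autoImplicit false
set_option linter.unusedSectionVars false

namespace Fermat.Agent.S55.L

open IsLocalRing Polynomial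

section Transport

variable {S L : Type} [CommRing S] [IsDomain S] [IsDiscreteValuationRing S] [Field L]
  [Algebra S L] [IsFractionRing S L]

/-- The valuation subring of `L = Frac S` attached to the discrete valuation ring `S`. -/
noncomputable def u784_valSubring (S L : Type) [CommRing S] [IsDomain S]
    [IsDiscreteValuationRing S] [Field L] [Algebra S L] [IsFractionRing S L] :
    ValuationSubring L :=
  (ValuationRing.valuation S L).valuationSubring

theorem u784_mem_valSubring (x : L) :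
    x ∈ u784_valSubring S L ↔ ∃ a : S, algebraMap S L a = x :=
  ValuationRing.mem_integer_iff S L x

/-- `S ≃ B`. -/
noncomputable def u784_equivValSubring (S L : Type) [CommRing S] [IsDomain S]
    [IsDiscreteValuationRing S] [Field L] [Algebra S L] [IsFractionRing S L] :
    S ≃+* ↥(u784_valSubring S L) :=
  RingEquiv.ofBijective
    ((algebraMap S L).codRestrict (u784_valSubring S L).toSubring
      (fun a => (u784_mem_valSubring (algebraMap S L a)).mpr ⟨a, rfl⟩))
    ⟨fun a b h => IsFractionRing.injective S L (congrArg Subtype.val h),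
      fun x => by
        obtain ⟨a, ha⟩ := (u784_mem_valSubring (x : L)).mp x.2
        exact ⟨a, Subtype.ext ha⟩⟩

@[simp]
theorem u784_equivValSubring_coe (a : S) :
    ((u784_equivValSubring S L a : u784_valSubring S L) : L) = algebraMap S L a := rfl

theorem u784_map_maximalIdeal_equiv {S T : Type} [CommRing S] [CommRing T] [IsLocalRing S]
    [IsLocalRing T] (e : S ≃+* T) : (maximalIdeal S).map e = maximalIdeal T :=
  IsLocalRing.eq_maximalIdeal
    ((Ideal.isMaximal_map_iff_of_bijective (f := e) e.bijective).mpr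
      (IsLocalRing.maximalIdeal.isMaximal S))

/-- The valuation subring attached to a complete DVR with finite residue field is a ring of
integers. -/
theorem u784_isLocalRingOfIntegers_valSubring [IsAdicComplete (maximalIdeal S) S]
    [Finite (ResidueField S)] : IsLocalRingOfIntegers (u784_valSubring S L) := by
  let e := u784_equivValSubring S L
  have hpir : IsPrincipalIdealRing ↥(u784_valSubring S L) :=
    IsPrincipalIdealRing.of_surjective e.toRingHom e.surjective
  have hmax : (maximalIdeal S).map e = maximalIdeal ↥(u784_valSubring S L) :=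
    u784_map_maximalIdeal_equiv e
  have hdvr : IsDiscreteValuationRing ↥(u784_valSubring S L) := by
    refine IsDiscreteValuationRing.mk ?_
    rw [← hmax]
    intro h
    have h2 : maximalIdeal S = ⊥ := by
      rw [eq_bot_iff]
      intro x hx
      have h3 : e x ∈ (maximalIdeal S).map e := Ideal.mem_map_of_mem _ hx
      rw [h, Ideal.mem_bot] at h3
      rw [Ideal.mem_bot]
      exact (map_eq_zero_iff e e.injective).mp h3
    exact IsDiscreteValuationRing.not_a_field S h2
  refine ⟨hdvr, ?_, ?_⟩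
  · rw [← hmax]
    exact (IsAdicComplete.congr_ringEquiv (maximalIdeal S) e).mpr inferInstance
  · exact Finite.of_equiv _ (ResidueField.mapEquiv e).toEquiv

end Transport

/-- **L-A2a**: existence of the unramified extension of each degree. -/
theorem u784_unramifiedExists : UnramifiedExistsSpec := by
  intro K _ hK n hn
  obtain ⟨A, hA⟩ := hK.exists_ringOfIntegers
  have := hK.charZero
  obtain ⟨hdvrA, hcA, hfA⟩ := id hA
  -- the polynomial
  obtain ⟨p, hp⟩ := CharP.exists (ResidueField ↥A)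
  have : Fact p.Prime := ⟨CharP.char_is_prime (ResidueField ↥A) p⟩
  have : NeZero n := ⟨hn.ne'⟩
  obtain ⟨f, hf1, hf2, hf3⟩ := u784_exists_irreducible_of_finrank (k := ResidueField ↥A)
    (l := FiniteField.Extension (ResidueField ↥A) p n)
  rw [FiniteField.finrank_extension] at hf3
  obtain ⟨g, hg, hgf, hgdeg⟩ := u784_exists_monic_lift f hf1
  have hirr : Irreducible (g.map (residue ↥A)) := hgf ▸ hf2
  have hgn : g.natDegree = n := hgdeg.trans hf3
  -- the ring `S = A[X]/(g)` and its fraction field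
  obtain ⟨hdom, hdvr, hmeq, hcomp, hfin, hcard, hloc⟩ := u784_adjoinRoot_package g hg hirr
  have hinjS : Function.Injective (algebraMap ↥A (AdjoinRoot g)) :=
    AdjoinRoot.of.injective_of_degree_ne_zero (u784_adjoinRoot_degree_ne_zero g hg hirr)
  have hinjA : Function.Injective (algebraMap ↥A (FractionRing (AdjoinRoot g))) := by
    rw [IsScalarTower.algebraMap_eq ↥A (AdjoinRoot g) (FractionRing (AdjoinRoot g))]
    exact (IsFractionRing.injective (AdjoinRoot g) (FractionRing (AdjoinRoot g))).comp hinjS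
  let _ : Algebra K (FractionRing (AdjoinRoot g)) := (IsFractionRing.lift hinjA).toAlgebra
  have hψ : ∀ x : ↥A, algebraMap K (FractionRing (AdjoinRoot g)) (algebraMap ↥A K x) =
      algebraMap ↥A (FractionRing (AdjoinRoot g)) x := fun x =>
    IsFractionRing.lift_algebraMap hinjA x
  have : IsScalarTower ↥A K (FractionRing (AdjoinRoot g)) :=
    IsScalarTower.of_algebraMap_eq (fun x => (hψ x).symm)
  have hdeg : g.natDegree =
      Module.finrank (ResidueField ↥A) (ResidueField (AdjoinRoot g)) := by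
    have h1 := Module.natCard_eq_pow_finrank (K := ResidueField ↥A)
      (V := ResidueField (AdjoinRoot g))
    rw [hcard] at h1
    exact Nat.pow_right_injective (u784_two_le_card_residue (R := ↥A)) h1
  have hroot : (g.map (algebraMap ↥A (AdjoinRoot g))).IsRoot (AdjoinRoot.root g) := by
    rw [IsRoot.def, Polynomial.eval_map]
    exact AdjoinRoot.eval₂_root g
  have hfinrank : Module.finrank K (FractionRing (AdjoinRoot g)) = n :=
    (u784_finrank_eq hmeq g hg hirr hdeg _ hroot).trans hgn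
  have hfd : FiniteDimensional K (FractionRing (AdjoinRoot g)) :=
    u784_finiteDimensional hmeq g hg hirr hdeg _ hroot
  -- the valuation subring and the uniformizer
  obtain ⟨ϖ, hϖ⟩ := IsDiscreteValuationRing.exists_irreducible ↥A
  have hϖS : Irreducible (algebraMap ↥A (AdjoinRoot g) ϖ) :=
    u784_irreducible_algebraMap hmeq ϖ hϖ
  have hB := u784_isLocalRingOfIntegers_valSubring (S := AdjoinRoot g)
    (L := FractionRing (AdjoinRoot g))
  refine ⟨FractionRing (AdjoinRoot g), inferInstance, inferInstance, hfd,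
    ⟨A, u784_valSubring (AdjoinRoot g) (FractionRing (AdjoinRoot g)), (ϖ : K), hA, hB,
      ⟨ϖ.2, hϖ⟩, ?_⟩, hfinrank⟩
  have hval : algebraMap K (FractionRing (AdjoinRoot g)) (ϖ : K) =
      algebraMap (AdjoinRoot g) (FractionRing (AdjoinRoot g))
        (algebraMap ↥A (AdjoinRoot g) ϖ) := by
    rw [← IsScalarTower.algebraMap_apply ↥A (AdjoinRoot g) (FractionRing (AdjoinRoot g)),
      ← hψ]
    rfl
  have hmem : algebraMap K (FractionRing (AdjoinRoot g)) (ϖ : K) ∈
      u784_valSubring (AdjoinRoot g) (FractionRing (AdjoinRoot g)) :=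
    (u784_mem_valSubring _).mpr ⟨_, hval.symm⟩
  refine ⟨hmem, ?_⟩
  have heq : (⟨algebraMap K (FractionRing (AdjoinRoot g)) (ϖ : K), hmem⟩ :
      u784_valSubring (AdjoinRoot g) (FractionRing (AdjoinRoot g))) =
      u784_equivValSubring (AdjoinRoot g) (FractionRing (AdjoinRoot g))
        (algebraMap ↥A (AdjoinRoot g) ϖ) := Subtype.ext hval
  rw [heq]
  exact (MulEquiv.irreducible_iff
    (u784_equivValSubring (AdjoinRoot g) (FractionRing (AdjoinRoot g)))).mpr hϖS

end Fermat.Agent.S55.L

end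
-- ===== PACK-END S55/L/Unram784/Exists.lean

-- ===== PACK-BEGIN S55/E1/H603/FinLevelLoc.lean
section
/-
S55 / engine E1 / block LIM, B-part of LIM5 (helper603): local vanishing at finite level.

For a level `F` (`L : Tow.Level S`), a class `x ∈ H²(Gal(F/ℚ), A)` and `q`:
the localisation at `q` of the inflation of `x` vanishes in the Prelude group
`continuousH2 (locQ q) _` iff the inflation of `x` to `Gal(F'_q/ℚ_q) = G_{ℚ_q} ⧸ V_q(F')`
vanishes for some finite normal `F' ⊇ F` (NO ramification condition on `F'`).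

* `NLevel` : finite normal subfields of `ℚ̄`;  `NLevel.V`, `NLevel.Dec`, `decToGal`, `locInfl₂`;
* `locRes₂S_infl₂_eq_zero_iff`, `infl₂_mem_sha₂_iff`.
-/



set_option autoImplicit false

namespace Fermat.Agent.S55.E1.H603

open groupCohomology CategoryTheory ExtCitation Fermat.Agent.S55.Tow

noncomputable section

/-- A finite normal subextension of `ℚ̄/ℚ` (normality recorded on the fixing subgroup). -/
structure NLevel where
  /-- the field -/
  F : IntermediateField ℚ Qbar
  fin : FiniteDimensional ℚ F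
  normalU : (F.fixingSubgroup).Normal

/-- Every finite subextension lies in a finite normal one. -/
theorem exists_nLevel_ge (F : IntermediateField ℚ Qbar) (hF : FiniteDimensional ℚ F) :
    ∃ N : NLevel, F ≤ N.F := by
  have hQ : IsGalois ℚ Qbar := Fermat.Agent.S55.Bridge.isGalois_Qbar
  have hnorm : Normal ℚ (IntermediateField.normalClosure ℚ F Qbar) := normalClosure.normal ℚ F Qbar
  have hfin : FiniteDimensional ℚ (IntermediateField.normalClosure ℚ F Qbar) :=
    normalClosure.is_finiteDimensional ℚ F Qbar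
  have hgal : IsGalois ℚ (IntermediateField.normalClosure ℚ F Qbar) := ⟨⟩
  refine ⟨⟨IntermediateField.normalClosure ℚ F Qbar, hfin, ?_⟩, F.le_normalClosure⟩
  exact (InfiniteGalois.normal_iff_isGalois _).2 hgal

variable {S : Finset Nat.Primes}

/-- A level is in particular a finite normal field. -/
def nLevelOf (L : Level S) : NLevel := ⟨L.F, L.unram.1, L.normalU⟩

/-- `V_q(F') = Gal(ℚ̄_q / F'_q)`, the preimage of `G_{F'}` in the local Galois group. -/
def NLevel.V (N : NLevel) (q : Nat.Primes) : Subgroup (GQp q) := N.F.fixingSubgroup.comap (locQ q)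

instance NLevel.normalV (N : NLevel) (q : Nat.Primes) : (N.V q).Normal := by
  have := N.normalU
  unfold NLevel.V
  infer_instance

/-- `Gal(F'_q/ℚ_q)` as a quotient of the local Galois group. -/
abbrev NLevel.Dec (N : NLevel) (q : Nat.Primes) : Type := GQp q ⧸ N.V q

theorem nLevelOf_V (L : Level S) (q : Nat.Primes) : (nLevelOf L).V q = L.V q := rfl

/-- `Gal(F'_q/ℚ_q) → Gal(F/ℚ)` for `F ≤ F'`. -/
def decToGal (L : Level S) (N : NLevel) (h : L.F ≤ N.F) (q : Nat.Primes) : N.Dec q →* L.Gal :=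
  QuotientGroup.map (N.V q) L.U (locQ q)
    (fun _ hs => IntermediateField.fixingSubgroup_antitone h hs)

@[simp] theorem decToGal_mk (L : Level S) (N : NLevel) (h : L.F ≤ N.F) (q : Nat.Primes)
    (g : GQp q) : decToGal L N h q (QuotientGroup.mk g) = QuotientGroup.mk (locQ q g) := rfl

/-- Every finite normal field is a level for a suitable finite set of primes containing `S`. -/
theorem exists_level_of_nLevel (S : Finset Nat.Primes) (N : NLevel) :
    ∃ S' : Finset Nat.Primes, S ⊆ S' ∧ ∃ L' : Level S', L'.F = N.F := by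
  obtain ⟨S', hS, hur⟩ := exists_isUnramifiedOutside_ge S N.F N.fin
  exact ⟨S', hS, ⟨N.F, hur, N.normalU⟩, rfl⟩

variable {K : Type} [Field K] (A : Rep.{0, 0, 0} K GQ)

/-- inflation-restriction `H²(Gal(F/ℚ), A^{U_F}) → H²(Gal(F'_q/ℚ_q), A^{U_F})`. -/
def locInfl₂ (L : Level S) (N : NLevel) (h : L.F ≤ N.F) (q : Nat.Primes) :
    H2 (coeff A L) →ₗ[K] H2 (Rep.res (decToGal L N h q) (coeff A L)) :=
  (groupCohomology.map (decToGal L N h q) (𝟙 (Rep.res (decToGal L N h q) (coeff A L))) 2).hom

/-- the same on cocycles -/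
def locInflCoc₂ (L : Level S) (N : NLevel) (h : L.F ≤ N.F) (q : Nat.Primes) :
    cocycles₂ (coeff A L) →ₗ[K] cocycles₂ (Rep.res (decToGal L N h q) (coeff A L)) :=
  (mapCocycles₂ (decToGal L N h q) (𝟙 (Rep.res (decToGal L N h q) (coeff A L)))).hom

@[simp] theorem locInflCoc₂_apply (L : Level S) (N : NLevel) (h : L.F ≤ N.F) (q : Nat.Primes)
    (c : cocycles₂ (coeff A L)) (g g' : N.Dec q) :
    locInflCoc₂ A L N h q c (g, g') = c (decToGal L N h q g, decToGal L N h q g') := rfl

theorem locInfl₂_mk (L : Level S) (N : NLevel) (h : L.F ≤ N.F) (q : Nat.Primes)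
    (c : cocycles₂ (coeff A L)) :
    locInfl₂ A L N h q ((H2π (coeff A L)).hom c) =
      (H2π (Rep.res (decToGal L N h q) (coeff A L))).hom (locInflCoc₂ A L N h q c) := by
  have hcomp := congrArg (fun φ => φ.hom c)
    (H2π_comp_map (A := coeff A L) (B := Rep.res (decToGal L N h q) (coeff A L))
      (decToGal L N h q) (𝟙 (Rep.res (decToGal L N h q) (coeff A L))))
  simp only [ModuleCat.hom_comp, LinearMap.comp_apply] at hcomp
  exact hcomp

theorem mk_mul_of_mem_V (N : NLevel) (q : Nat.Primes) (g s : GQp q) (hs : s ∈ N.V q) :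
    (QuotientGroup.mk (g * s) : N.Dec q) = QuotientGroup.mk g := by
  rw [QuotientGroup.eq]
  simpa using (N.V q).inv_mem hs

/-- **Local vanishing at finite level.** -/
theorem locRes₂S_infl₂_eq_zero_iff (L : Level S) (hA : ∀ s ∈ L.U, ∀ a : A, A.ρ s a = a)
    (q : Nat.Primes) (x : H2 (coeff A L)) :
    locRes₂S S A (locQ q) (infl₂ A L x) = 0 ↔
      ∃ N : NLevel, ∃ h : L.F ≤ N.F, locInfl₂ A L N h q x = 0 := by
  induction x using H2_induction_on with | @h c =>
  rw [infl₂_mk, Fermat.Agent.S55.Bridge.locRes₂S_mk_eq_zero_iff]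
  constructor
  · rintro ⟨y, ⟨F₁, hF₁, hy⟩, hd⟩
    have hfin : FiniteDimensional ℚ ↥(F₁ ⊔ L.F) := by
      have := L.unram.1
      exact IntermediateField.finiteDimensional_sup F₁ L.F
    obtain ⟨N, hN⟩ := exists_nLevel_ge (F₁ ⊔ L.F) hfin
    have hle : L.F ≤ N.F := le_trans le_sup_right hN
    have hle₁ : F₁ ≤ N.F := le_trans le_sup_left hN
    refine ⟨N, hle, ?_⟩
    rw [locInfl₂_mk, H2π_eq_zero_iff]
    have hwd : ∀ g g' : GQp q, (QuotientGroup.leftRel (N.V q)) g g' →
        toCoeff A L hA (y g) = toCoeff A L hA (y g') := by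
      intro g g' hgg
      apply Subtype.ext
      have hs : g⁻¹ * g' ∈ N.V q := QuotientGroup.leftRel_apply.1 hgg
      have := hy g (g⁻¹ * g') (IntermediateField.fixingSubgroup_antitone hle₁ hs)
      rw [mul_inv_cancel_left] at this
      exact this.symm
    refine ⟨fun g => Quotient.liftOn' g (fun g => toCoeff A L hA (y g)) hwd, ?_⟩
    funext ⟨g, g'⟩
    induction g using QuotientGroup.induction_on with | @H g =>
    induction g' using QuotientGroup.induction_on with | @H g' =>
    apply Subtype.ext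
    rw [d₁₂_hom_apply]
    exact hd g g'
  · rintro ⟨N, hle, hx⟩
    rw [locInfl₂_mk, H2π_eq_zero_iff] at hx
    obtain ⟨ybar, hybar⟩ := hx
    refine ⟨fun g => ((ybar (QuotientGroup.mk g) : coeff A L) : A), ⟨N.F, N.fin, ?_⟩, ?_⟩
    · intro g s hs
      have hs' : s ∈ N.V q := hs
      show ((ybar (QuotientGroup.mk (g * s)) : coeff A L) : A) = _
      rw [mk_mul_of_mem_V N q g s hs']
    · intro g g'
      have := congrFun hybar (QuotientGroup.mk g, QuotientGroup.mk g')
      rw [d₁₂_hom_apply] at this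
      have h2 := congrArg (fun z : coeff A L => (z : A)) this
      exact h2

/-- **Finite-level description of `sha₂`.** -/
theorem infl₂_mem_sha₂_iff (h2 : (2 : K) ≠ 0) (L : Level S)
    (hA : ∀ s ∈ L.U, ∀ a : A, A.ρ s a = a) (x : H2 (coeff A L)) :
    infl₂ A L x ∈ sha₂ S A ↔
      ∀ q : S, ∃ N : NLevel, ∃ h : L.F ≤ N.F, locInfl₂ A L N h q.1 x = 0 := by
  rw [Fermat.Agent.S55.Bridge.mem_sha₂_iff S h2]
  exact forall_congr' fun q => locRes₂S_infl₂_eq_zero_iff A L hA q.1 x

end

end Fermat.Agent.S55.E1.H603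

end
-- ===== PACK-END S55/E1/H603/FinLevelLoc.lean

-- ===== PACK-BEGIN S55/E1/H594/LevelUnram.lean
section
/-
S55 / engine E1 / G-ADAPTER leaf LVL (helper594), part 2.

The ramification hypothesis of layer G (`G.IsUnramOut`, `G/Spec.lean`) for a tower level:
`level_isUnramOut : G.IsUnramOut S L.Gal L.F`, deduced from the Prelude hypothesis
`L.unram : L.F.IsUnramifiedOutside S` through B10 (`Bridge/H594/Unram.lean`).
Also: `G.IsUnramOut` passes to any group acting through a homomorphism (subgroups).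
No `sorry`.
-/




set_option autoImplicit false
set_option linter.unusedSectionVars false
set_option linter.style.haveILetI false

namespace Fermat.Agent.S55.E1.H594

open Fermat.Agent.S55 Fermat.Agent.S55.Tow Fermat.Agent.S55.Bridge NumberField
open IsDedekindDomain

attribute [local instance] isAlgebraic_Qbar isGalois_Qbar

noncomputable section

/-- Every finite prime of a number field contains a rational prime. -/
theorem exists_prime_natCast_mem {K : Type} [Field K] [NumberField K]
    (w : HeightOneSpectrum (𝓞 K)) : ∃ q : Nat.Primes, ((q : ℕ) : 𝓞 K) ∈ w.asIdeal := by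
  haveI : w.asIdeal.IsMaximal := w.isMaximal
  letI : Field (𝓞 K ⧸ w.asIdeal) := Ideal.Quotient.field w.asIdeal
  haveI : Finite (𝓞 K ⧸ w.asIdeal) := Ideal.finiteQuotientOfFreeOfNeBot w.asIdeal w.ne_bot
  have hq : (ringChar (𝓞 K ⧸ w.asIdeal)).Prime :=
    CharP.char_is_prime (𝓞 K ⧸ w.asIdeal) (ringChar (𝓞 K ⧸ w.asIdeal))
  refine ⟨⟨ringChar (𝓞 K ⧸ w.asIdeal), hq⟩, ?_⟩
  rw [← Ideal.Quotient.eq_zero_iff_mem, map_natCast]
  exact CharP.cast_eq_zero _ _

/-- `G.IsUnramOut` in terms of rational primes: it suffices to control the primes of `𝓞 K`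
containing a rational prime `q ∉ S`. -/
theorem isUnramOut_of_forall_prime (S : Finset Nat.Primes) (Γ K : Type) [Group Γ] [Field K]
    [NumberField K] [MulSemiringAction Γ K]
    (h : ∀ q : Nat.Primes, q ∉ S → ∀ P : Ideal (𝓞 K), P.IsPrime → ((q : ℕ) : 𝓞 K) ∈ P →
      ∀ g : Γ, (∀ x : 𝓞 K, g • x - x ∈ P) → ∀ x : K, g • x = x) :
    G.IsUnramOut S Γ K := by
  intro w hw g hg x
  obtain ⟨q, hq⟩ := exists_prime_natCast_mem w
  exact h q (fun hqS => hw ⟨q, hqS, hq⟩) w.asIdeal w.isPrime hq g hg x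

/-- `G.IsUnramOut` passes to a group acting through a homomorphism `φ : Γ' → Γ`
(e.g. a subgroup). -/
theorem isUnramOut_of_hom (S : Finset Nat.Primes) (Γ Γ' K : Type) [Group Γ] [Group Γ'] [Field K]
    [NumberField K] [MulSemiringAction Γ K] [MulSemiringAction Γ' K] (φ : Γ' →* Γ)
    (hφ : ∀ (g : Γ') (x : K), g • x = φ g • x) (h : G.IsUnramOut S Γ K) :
    G.IsUnramOut S Γ' K := by
  intro w hw g hg x
  rw [hφ]
  refine h w hw (φ g) (fun y => ?_) x
  have : φ g • y = g • y := Subtype.ext (hφ g (y : K)).symm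
  rw [this]
  exact hg y

/-- `G.IsUnramOut` for a subgroup. -/
theorem isUnramOut_subgroup (S : Finset Nat.Primes) (Γ K : Type) [Group Γ] [Field K]
    [NumberField K] [MulSemiringAction Γ K] (H : Subgroup Γ) (h : G.IsUnramOut S Γ K) :
    G.IsUnramOut S H K :=
  isUnramOut_of_hom S Γ H K H.subtype (fun _ _ => rfl) h

section aut

variable (F : IntermediateField ℚ (AlgebraicClosure ℚ)) [FiniteDimensional ℚ F] [IsGalois ℚ F]

attribute [local instance] H594.numberField_of_finite

/-- B10 in the vocabulary of layer G, for the full Galois group `Gal(F/ℚ)`. -/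
theorem isUnramOut_aut_of_isUnramifiedOutside (S : Finset Nat.Primes)
    (h : F.IsUnramifiedOutside S) : G.IsUnramOut S (F ≃ₐ[ℚ] F) F := by
  refine isUnramOut_of_forall_prime S _ _ (fun q hq P hP hqP g hg x => ?_)
  have h1 := (H594.isUnramifiedOutside_iff_inertia_eq_bot F S).1 h q hq P hP hqP
  have h2 : g ∈ P.inertia (F ≃ₐ[ℚ] F) := hg
  rw [h1, Subgroup.mem_bot] at h2
  rw [h2, one_smul]

end aut

variable {S : Finset Nat.Primes} (L : Level S)

/-- **LVL (3)**: a tower level is unramified outside `S` in the sense of layer G. -/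
theorem level_isUnramOut : G.IsUnramOut S L.Gal L.F :=
  isUnramOut_of_hom S (L.F ≃ₐ[ℚ] L.F) L.Gal L.F (levelGalEquiv L).toMonoidHom (fun _ _ => rfl)
    (isUnramOut_aut_of_isUnramifiedOutside L.F S L.unram)

/-- The same for every subgroup of `L.Gal`. -/
theorem level_isUnramOut_subgroup (H : Subgroup L.Gal) : G.IsUnramOut S H L.F :=
  isUnramOut_subgroup S L.Gal L.F H (level_isUnramOut L)

end

end Fermat.Agent.S55.E1.H594

end
-- ===== PACK-END S55/E1/H594/LevelUnram.lean

-- ===== PACK-BEGIN S55/Bridge/PlacePrime.lean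
section


/-!
# S55 bridge, part B17: places of `ℚ̄` versus primes of `𝓞 F`

`F/ℚ` finite inside `ℚ̄`, `A` a valuation subring of `ℚ̄` over a prime number `q`.

* `placePrime F A hq hA : HeightOneSpectrum (𝓞 F)` — the prime `A ∩ 𝓞 F`
  (`= H594.primeBelowF F A`);
* `mem_iff_valuation_le_one` : for `x ∈ F`, `x ∈ A ↔ w.valuation x ≤ 1`;
* `unit_iff_valuation_eq_one` : `x ∈ A ∧ x⁻¹ ∈ A ↔ w.valuation x = 1`;
* `exists_place_eq` : every finite prime of `F` is `placePrime` of some place of `ℚ̄`.
-/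

set_option autoImplicit false
set_option linter.unusedSectionVars false

namespace Fermat.Agent.S55.Bridge

open Fermat.Agent.S54 NumberField IsDedekindDomain
open scoped Pointwise

attribute [local instance] isAlgebraic_Qbar isGalois_Qbar

section

variable (F : IntermediateField ℚ (AlgebraicClosure ℚ)) [FiniteDimensional ℚ F]

attribute [local instance] H594.numberField_of_finite

variable (A : ValuationSubring (AlgebraicClosure ℚ))

theorem primeBelowF_ne_bot {q : ℕ} (hq : q.Prime) (hA : A.LiesOverPrime q) :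
    H594.primeBelowF F A ≠ ⊥ := by
  intro h
  have h1 : (q : 𝓞 F) ∈ H594.primeBelowF F A := H594.natCast_mem_primeBelowF F A hA
  rw [h, Ideal.mem_bot] at h1
  exact hq.ne_zero (by exact_mod_cast h1)

/-- The finite prime of `F` below a place `A` of `ℚ̄` over a prime number. -/
noncomputable def placePrime {q : ℕ} (hq : q.Prime) (hA : A.LiesOverPrime q) :
    HeightOneSpectrum (𝓞 F) where
  asIdeal := H594.primeBelowF F A
  isPrime := H594.primeBelowF_isPrime F A
  ne_bot := primeBelowF_ne_bot F A hq hA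

theorem placePrime_asIdeal {q : ℕ} (hq : q.Prime) (hA : A.LiesOverPrime q) :
    (placePrime F A hq hA).asIdeal = H594.primeBelowF F A := rfl

/-- An element of `𝓞 F` outside the prime below `A` is a unit of `A`. -/
theorem valuation_eq_one_of_notMem_primeBelowF (s : 𝓞 F) (hs : s ∉ H594.primeBelowF F A) :
    A.valuation (algebraMap (𝓞 F) (AlgebraicClosure ℚ) s) = 1 := by
  have h1 : A.valuation (algebraMap (𝓞 F) (AlgebraicClosure ℚ) s) ≤ 1 :=
    (A.valuation_le_one_iff _).2 (H594.algebraMap_ringOfIntegers_mem F A s)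
  rw [H594.mem_primeBelowF, ValuationSubring.mem_nonunits_iff, not_lt] at hs
  exact le_antisymm h1 hs

/-- `x ∈ F` with `w.valuation x ≤ 1` is a quotient `a / s`, `s ∉ w`. -/
theorem exists_div_of_valuation_le_one (w : HeightOneSpectrum (𝓞 F)) (x : F)
    (hx : w.valuation F x ≤ 1) :
    ∃ (a s : 𝓞 F), s ∉ w.asIdeal ∧ x * algebraMap (𝓞 F) F s = algebraMap (𝓞 F) F a := by
  have hmem : x ∈ (w.valuation F).valuationSubring := hx
  rw [← HeightOneSpectrum.valuationSubringAtPrime_eq_valuationSubring] at hmem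
  obtain ⟨a, s, hs, rfl⟩ := hmem
  refine ⟨a, s, hs, ?_⟩
  have hs0 : algebraMap (𝓞 F) F s ≠ 0 := by
    intro h0
    have : s = 0 := (FaithfulSMul.algebraMap_injective (𝓞 F) F) (by rw [h0, map_zero])
    subst this
    exact hs (Ideal.zero_mem _)
  rw [mul_assoc, inv_mul_cancel₀ hs0, mul_one]

variable {q : ℕ} (hq : q.Prime) (hA : A.LiesOverPrime q)

/-- **B17a.** For `x ∈ F`: `x ∈ A` iff `x` is integral at the prime of `F` below `A`. -/
theorem mem_iff_valuation_le_one (x : F) :
    (x : AlgebraicClosure ℚ) ∈ A ↔ (placePrime F A hq hA).valuation F x ≤ 1 := by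
  have key : ∀ y : F, (placePrime F A hq hA).valuation F y ≤ 1 →
      A.valuation (y : AlgebraicClosure ℚ) ≤ 1 ∧
        ((placePrime F A hq hA).valuation F y < 1 → A.valuation (y : AlgebraicClosure ℚ) < 1) := by
    intro y hy
    obtain ⟨a, s, hs, hys⟩ := exists_div_of_valuation_le_one F _ y hy
    have hsv := valuation_eq_one_of_notMem_primeBelowF F A s hs
    have hys' : (y : AlgebraicClosure ℚ) * algebraMap (𝓞 F) (AlgebraicClosure ℚ) s
        = algebraMap (𝓞 F) (AlgebraicClosure ℚ) a := by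
      have := congrArg (fun t : F => (t : AlgebraicClosure ℚ)) hys
      simp only [IntermediateField.coe_mul] at this
      exact this
    have hval : A.valuation (y : AlgebraicClosure ℚ)
        = A.valuation (algebraMap (𝓞 F) (AlgebraicClosure ℚ) a) := by
      rw [← hys', map_mul, hsv, mul_one]
    refine ⟨?_, fun hlt => ?_⟩
    · rw [hval]
      exact (A.valuation_le_one_iff _).2 (H594.algebraMap_ringOfIntegers_mem F A a)
    · rw [hval, ← ValuationSubring.mem_nonunits_iff, ← H594.mem_primeBelowF]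
      -- `a ∈ w` since `w.valuation (a / s) < 1`
      have h1 : (placePrime F A hq hA).valuation F (algebraMap (𝓞 F) F a) < 1 := by
        rw [← hys, map_mul]
        have h2 : (placePrime F A hq hA).valuation F (algebraMap (𝓞 F) F s) = 1 :=
          (HeightOneSpectrum.valuation_eq_one_iff_notMem (K := F) (placePrime F A hq hA)).2 hs
        rw [h2, mul_one]
        exact hlt
      exact (HeightOneSpectrum.valuation_lt_one_iff_mem (K := F) (placePrime F A hq hA) a).1 h1
  constructor
  · intro hx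
    by_contra hgt
    rw [not_le] at hgt
    have hx0 : x ≠ 0 := by
      rintro rfl
      rw [map_zero] at hgt
      exact not_lt.2 zero_le_one hgt
    have hinv : (placePrime F A hq hA).valuation F x⁻¹ < 1 := by
      rw [map_inv₀]
      exact (inv_lt_one₀ (lt_trans zero_lt_one hgt)).2 hgt
    have h1 := (key x⁻¹ hinv.le).2 hinv
    have h2 : A.valuation (x : AlgebraicClosure ℚ) ≤ 1 := (A.valuation_le_one_iff _).2 hx
    have h3 : A.valuation ((x⁻¹ : F) : AlgebraicClosure ℚ) * A.valuation (x : AlgebraicClosure ℚ)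
        = 1 := by
      rw [← map_mul]
      have : ((x⁻¹ : F) : AlgebraicClosure ℚ) * (x : AlgebraicClosure ℚ) = 1 := by
        have := congrArg (fun t : F => (t : AlgebraicClosure ℚ)) (inv_mul_cancel₀ hx0)
        simpa using this
      rw [this, map_one]
    have h4 : A.valuation ((x⁻¹ : F) : AlgebraicClosure ℚ) * A.valuation (x : AlgebraicClosure ℚ)
        < 1 := by
      calc A.valuation ((x⁻¹ : F) : AlgebraicClosure ℚ) * A.valuation (x : AlgebraicClosure ℚ)
          ≤ A.valuation ((x⁻¹ : F) : AlgebraicClosure ℚ) * 1 := by gcongr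
        _ < 1 := by rwa [mul_one]
    rw [h3] at h4
    exact lt_irrefl _ h4
  · intro hx
    exact (A.valuation_le_one_iff _).1 (key x hx).1

/-- **B17a'.** A unit of `F` is a unit of `A` iff it has valuation `1` at the prime below. -/
theorem unit_iff_valuation_eq_one (u : Fˣ) :
    (((u : F) : AlgebraicClosure ℚ) ∈ A ∧ (((u⁻¹ : Fˣ) : F) : AlgebraicClosure ℚ) ∈ A) ↔
      (placePrime F A hq hA).valuation F (u : F) = 1 := by
  rw [mem_iff_valuation_le_one F A hq hA, mem_iff_valuation_le_one F A hq hA]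
  have hinv : (placePrime F A hq hA).valuation F ((u⁻¹ : Fˣ) : F)
      = ((placePrime F A hq hA).valuation F (u : F))⁻¹ := by
    rw [Units.val_inv_eq_inv_val, map_inv₀]
  have hne : (placePrime F A hq hA).valuation F (u : F) ≠ 0 :=
    (Valuation.ne_zero_iff _).2 u.ne_zero
  rw [hinv]
  constructor
  · rintro ⟨h1, h2⟩
    refine le_antisymm h1 ?_
    exact (inv_le_one₀ (zero_lt_iff.2 hne)).1 h2
  · intro h
    rw [h, inv_one]
    exact ⟨le_rfl, le_rfl⟩

end

section Exists

variable (F : IntermediateField ℚ (AlgebraicClosure ℚ)) [FiniteDimensional ℚ F]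

attribute [local instance] H594.numberField_of_finite

/-- Every finite prime of a number field contains a rational prime. -/
theorem exists_prime_natCast_mem_asIdeal (w : HeightOneSpectrum (𝓞 F)) :
    ∃ q : ℕ, q.Prime ∧ (q : 𝓞 F) ∈ w.asIdeal := by
  haveI : w.asIdeal.IsMaximal := w.isMaximal
  haveI : (w.asIdeal.under ℤ).IsPrime := Ideal.IsPrime.under ℤ w.asIdeal
  have hne : w.asIdeal.under ℤ ≠ ⊥ := Ideal.under_ne_bot ℤ w.ne_bot
  obtain ⟨n, hn⟩ := IsPrincipalIdealRing.principal (w.asIdeal.under ℤ)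
  have hn' : w.asIdeal.under ℤ = Ideal.span {n} := hn
  have hn0 : n ≠ 0 := by
    rintro rfl
    apply hne
    rw [hn']
    exact Ideal.span_singleton_eq_bot.2 rfl
  have hprime : Prime n := by
    rw [← Ideal.span_singleton_prime hn0, ← hn']
    infer_instance
  refine ⟨n.natAbs, Int.prime_iff_natAbs_prime.1 hprime, ?_⟩
  have hmem : (n.natAbs : ℤ) ∈ w.asIdeal.under ℤ := by
    rw [hn', Ideal.mem_span_singleton]
    exact Int.dvd_natAbs.2 (dvd_refl n)
  have := (Ideal.mem_comap).1 hmem
  simpa using this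

/-- **B17b.** Every finite prime of `F` lies below a place of `ℚ̄` over a prime number. -/
theorem exists_place_eq (w : HeightOneSpectrum (𝓞 F)) :
    ∃ (q : ℕ) (_ : q.Prime) (A : ValuationSubring (AlgebraicClosure ℚ)) (_ : A.LiesOverPrime q),
      H594.primeBelowF F A = w.asIdeal := by
  obtain ⟨q, hq, hqw⟩ := exists_prime_natCast_mem_asIdeal F w
  haveI hmax : w.asIdeal.IsMaximal := w.isMaximal
  -- a valuation subring of `ℚ̄` above `w`
  let A₀ : Subring (AlgebraicClosure ℚ) := (algebraMap (𝓞 F) (AlgebraicClosure ℚ)).range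
  let g : 𝓞 F →+* A₀ := (algebraMap (𝓞 F) (AlgebraicClosure ℚ)).rangeRestrict
  have hginj : Function.Injective g := by
    intro x y hxy
    have h1 : algebraMap (𝓞 F) (AlgebraicClosure ℚ) x =
        algebraMap (𝓞 F) (AlgebraicClosure ℚ) y :=
      congrArg (fun z : A₀ => (z : AlgebraicClosure ℚ)) hxy
    exact FaithfulSMul.algebraMap_injective (𝓞 F) (AlgebraicClosure ℚ) h1
  have hgsurj : Function.Surjective g :=
    (algebraMap (𝓞 F) (AlgebraicClosure ℚ)).rangeRestrict_surjective
  have hI : w.asIdeal.map g ≠ ⊤ := by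
    intro htop
    have h1 : (w.asIdeal.map g).comap g = w.asIdeal :=
      Ideal.comap_map_of_bijective g ⟨hginj, hgsurj⟩
    rw [htop, Ideal.comap_top] at h1
    exact hmax.ne_top h1.symm
  obtain ⟨A, -, hA⟩ := Ideal.image_subset_nonunits_valuationSubring _ hI
  have hPA : ∀ x ∈ w.asIdeal, algebraMap (𝓞 F) (AlgebraicClosure ℚ) x ∈ A.nonunits := by
    intro x hx
    exact hA ⟨g x, Ideal.mem_map_of_mem g hx, rfl⟩
  have hAq : A.LiesOverPrime q := by
    have := hPA _ hqw
    rwa [map_natCast] at this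
  refine ⟨q, hq, A, hAq, ?_⟩
  have hle : w.asIdeal ≤ H594.primeBelowF F A := fun x hx => hPA x hx
  exact (hmax.eq_of_le (H594.primeBelowF_isPrime F A).ne_top hle).symm

end Exists

end Fermat.Agent.S55.Bridge

end
-- ===== PACK-END S55/Bridge/PlacePrime.lean

-- ===== PACK-BEGIN S55/E1/H594/TensS.lean
section
/-
S55 / engine E1 / G-ADAPTER leaf TENS (helper594), part 3: the `S`-idèles.

For a tower level `L : Tow.Level S`: the `S`-idèle module of layer G,
`G.JRep L.Gal S L.F = (L.F ⊗[ℚ] ℚ_S)ˣ`, is the product of the tower modules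
`L.J q = Coind_{Dec q}^{Gal} F_qˣ`, `q ∈ S`:

* `tensEvS L q g : L.F ⊗[ℚ] ℚ_S →+* ℚ̄_q`, `x ⊗ y ↦ ι(g x) · y_q`;
* `tensEquiv L : Additive (G.AS S L.F)ˣ ≃+ ∀ q : S, (L.J q).V`, with
  `locVal ((tensEquiv L u q).1 g) = tensEvS L q g u`, equivariant for `G.jRepr`;
* `tensProj L q : G.JRep L.Gal S L.F ⟶ L.J q`, `tensIncl L q : L.J q ⟶ G.JRep L.Gal S L.F`
  in `Rep ℤ L.Gal`, presenting `J_S` as the biproduct of the `J_q`;
* compatibility with the diagonal embedding of `Fˣ` (`tensEquiv_unitsDiag`).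
No `sorry`.
-/



set_option autoImplicit false
set_option linter.unusedSectionVars false
set_option linter.style.haveILetI false

namespace Fermat.Agent.S55.E1.H594

open Fermat.Agent.S55 Fermat.Agent.S55.Tow Fermat.Agent.S55.Bridge
open Fermat.Agent.S55.Bridge.H175
open scoped TensorProduct

attribute [local instance] isAlgebraic_Qbar isGalois_Qbar

noncomputable section

/-- `q : Nat.Primes` is prime (local instance of this file). -/
local instance instFactPrimeH594' (q : Nat.Primes) : Fact (q : ℕ).Prime := ⟨q.2⟩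

variable {S : Finset Nat.Primes} (L : Level S)

/-- The ring isomorphism `L.F ⊗[ℚ] ℚ_S ≃ ∏_{q ∈ S} ℚ_q ⊗[ℚ] L.F`. -/
def asPiEquiv : G.AS S L.F ≃+* (∀ q : S, ℚ_[(q.1 : ℕ)] ⊗[ℚ] L.F) := by
  classical
  exact ((Algebra.TensorProduct.congr (AlgEquiv.refl : L.F ≃ₐ[ℚ] L.F) (G.QS.toPi S)).trans
    ((Algebra.TensorProduct.piRight ℚ ℚ L.F (fun q : S => G.Qq q.1)).trans
      (AlgEquiv.piCongrRight
        (fun q : S => Algebra.TensorProduct.comm ℚ L.F (G.Qq q.1))))).toRingEquiv

theorem asPiEquiv_tmul (x : L.F) (y : G.QS S) (q : S) :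
    asPiEquiv L (x ⊗ₜ[ℚ] y) q = (G.QS.toPi S y q) ⊗ₜ[ℚ] x := rfl

/-- Evaluation at `q ∈ S`, `g ∈ L.Gal`: the ring map `L.F ⊗[ℚ] ℚ_S → ℚ̄_q`,
`x ⊗ y ↦ y_q · ι(g x)`. -/
def tensEvS (q : S) (g : L.Gal) : G.AS S L.F →+* PadicAlgCl (q.1 : ℕ) :=
  (towerEv L q.1 g).toRingHom.comp
    ((Pi.evalRingHom (fun q : S => ℚ_[(q.1 : ℕ)] ⊗[ℚ] L.F) q).comp (asPiEquiv L).toRingHom)

theorem tensEvS_apply (q : S) (g : L.Gal) (a : G.AS S L.F) :
    tensEvS L q g a = towerEv L q.1 g (asPiEquiv L a q) := rfl

theorem tensEvS_tmul (q : S) (g : L.Gal) (x : L.F) (y : G.QS S) :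
    tensEvS L q g (x ⊗ₜ[ℚ] y) =
      algebraMap ℚ_[(q.1 : ℕ)] (PadicAlgCl (q.1 : ℕ)) (G.QS.toPi S y q) *
        padicEmbedding (q.1 : ℕ) ((g • x : L.F) : Qbar) := rfl

/-- `asPiEquiv` intertwines the action of `L.Gal` on `L.F ⊗ ℚ_S` with the componentwise
action on `∏ ℚ_q ⊗ L.F`. -/
theorem asPiEquiv_asAut (h : L.Gal) (a : G.AS S L.F) (q : S) :
    asPiEquiv L (G.asAut S L.Gal L.F h a) q = towerAct L q.1 h (asPiEquiv L a q) := by
  induction a using TensorProduct.induction_on with
  | zero =>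
    rw [map_zero, map_zero, Pi.zero_apply]
    exact (map_zero (towerAct L q.1 h).toRingHom).symm
  | add a b ha hb =>
    rw [map_add, map_add, Pi.add_apply, ha, hb, map_add, Pi.add_apply]
    exact (map_add (towerAct L q.1 h).toRingHom _ _).symm
  | tmul x y =>
    rw [G.asAut_tmul, asPiEquiv_tmul, asPiEquiv_tmul, towerAct_tmul]

theorem tensEvS_asAut (q : S) (g h : L.Gal) (a : G.AS S L.F) :
    tensEvS L q g (G.asAut S L.Gal L.F h a) = tensEvS L q (g * h) a := by
  rw [tensEvS_apply, tensEvS_apply, asPiEquiv_asAut, towerEv_towerAct]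

/-- `Additive (∏ M_i) ≃+ ∏ Additive (M_i)`. -/
def additivePiEquiv {ι : Type} (M : ι → Type) [∀ i, Monoid (M i)] :
    Additive (∀ i, M i) ≃+ (∀ i, Additive (M i)) where
  toFun f i := Additive.ofMul (f.toMul i)
  invFun f := Additive.ofMul (fun i => (f i).toMul)
  left_inv _ := rfl
  right_inv _ := rfl
  map_add' _ _ := rfl

/-- **TENS**: `(L.F ⊗[ℚ] ℚ_S)ˣ ≃ ∏_{q ∈ S} J_q(F)`. -/
def tensEquiv : Additive (G.AS S L.F)ˣ ≃+ (∀ q : S, (L.J q.1).V) :=
  ((MulEquiv.toAdditive (Units.mapEquiv (asPiEquiv L).toMulEquiv)).trans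
    ((MulEquiv.toAdditive
        (MulEquiv.piUnits (M := fun q : S => ℚ_[(q.1 : ℕ)] ⊗[ℚ] L.F))).trans
      (additivePiEquiv (fun q : S => (ℚ_[(q.1 : ℕ)] ⊗[ℚ] L.F)ˣ)))).trans
    (AddEquiv.piCongrRight (fun q : S => tensLocEquiv L q.1))

theorem locVal_tensEquiv (u : Additive (G.AS S L.F)ˣ) (q : S) (g : L.Gal) :
    locVal L q.1 ((tensEquiv L u q).1 g) =
      tensEvS L q g ((u.toMul : (G.AS S L.F)ˣ) : G.AS S L.F) := rfl

/-- Equivariance of `tensEquiv` for the layer-G action `G.jRepr` on the `S`-idèles. -/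
theorem tensEquiv_equivariant (h : L.Gal) (u : Additive (G.AS S L.F)ˣ) (q : S) :
    tensEquiv L (G.jRepr L.Gal S L.F h u) q = (L.J q.1).ρ h (tensEquiv L u q) := by
  apply J_ext
  intro g
  rw [locVal_tensEquiv, G.coe_jRepr_apply, tensEvS_asAut]
  rfl

/-- Compatibility with the diagonal embedding `Fˣ → J_S(F)`: the `q`-component of the image of
`x ∈ Fˣ` is the function `g ↦ ι(g x)`. -/
theorem tensEquiv_unitsDiag (x : Additive (L.F)ˣ) (q : S) (g : L.Gal) :
    locVal L q.1 ((tensEquiv L (G.unitsDiag S L.F x) q).1 g) =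
      padicEmbedding (q.1 : ℕ) ((g • ((x.toMul : (L.F)ˣ) : L.F) : L.F) : Qbar) := by
  rw [locVal_tensEquiv, G.coe_unitsDiag_apply, G.asDiag_apply, tensEvS_tmul]
  have h1 : G.QS.toPi S (1 : G.QS S) q = 1 := rfl
  rw [h1, map_one, one_mul]

/-! ### The same in `Rep ℤ L.Gal` -/

/-- The projection `J_S(F) → J_q(F)` as an intertwining map. -/
def tensProjMap (q : S) :
    (G.jRepr L.Gal S L.F).IntertwiningMap (Representation.coind (L.decHom q.1) (L.locUnits q.1).ρ)
    where
  toLinearMap :=
    ((Pi.evalAddMonoidHom (fun q : S => (L.J q.1).V) q).comp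
      (tensEquiv L).toAddMonoidHom).toIntLinearMap
  isIntertwining' := fun h => LinearMap.ext fun u => tensEquiv_equivariant L h u q

/-- The projection `J_S(F) → J_q(F)` in `Rep ℤ L.Gal`. -/
def tensProj (q : S) : G.JRep L.Gal S L.F ⟶ L.J q.1 := Rep.ofHom (tensProjMap L q)

theorem tensProj_apply (q : S) (u : Additive (G.AS S L.F)ˣ) :
    (tensProj L q).hom u = tensEquiv L u q := rfl

open Classical in
/-- The element of `J_S(F)` with `q`-component `f` and trivial other components. -/
def tensInclFun (q : S) (f : (L.J q.1).V) : Additive (G.AS S L.F)ˣ :=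
  (tensEquiv L).symm (Pi.single q f)

open Classical in
theorem tensEquiv_tensInclFun (q : S) (f : (L.J q.1).V) :
    tensEquiv L (tensInclFun L q f) = Pi.single q f :=
  (tensEquiv L).apply_symm_apply _

theorem tensEquiv_tensInclFun_same (q : S) (f : (L.J q.1).V) :
    tensEquiv L (tensInclFun L q f) q = f := by
  classical
  rw [tensEquiv_tensInclFun, Pi.single_eq_same]

theorem tensEquiv_tensInclFun_ne {q q' : S} (hq : q' ≠ q) (f : (L.J q.1).V) :
    tensEquiv L (tensInclFun L q f) q' = 0 := by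
  classical
  rw [tensEquiv_tensInclFun, Pi.single_eq_of_ne hq]

/-- The inclusion `J_q(F) → J_S(F)` as an intertwining map. -/
def tensInclMap (q : S) :
    (Representation.coind (L.decHom q.1) (L.locUnits q.1).ρ).IntertwiningMap
      (G.jRepr L.Gal S L.F) where
  toLinearMap := by
    classical
    exact (((tensEquiv L).symm.toAddMonoidHom).comp
      (AddMonoidHom.single (fun q : S => (L.J q.1).V) q)).toIntLinearMap
  isIntertwining' := fun h => LinearMap.ext fun f => by
    classical
    apply (tensEquiv L).injective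
    funext q'
    change tensEquiv L (tensInclFun L q ((L.J q.1).ρ h f)) q' =
      tensEquiv L (G.jRepr L.Gal S L.F h (tensInclFun L q f)) q'
    rw [tensEquiv_equivariant]
    by_cases hq : q' = q
    · subst hq
      rw [tensEquiv_tensInclFun_same, tensEquiv_tensInclFun_same]
    · rw [tensEquiv_tensInclFun_ne L hq, tensEquiv_tensInclFun_ne L hq, map_zero]

/-- The inclusion `J_q(F) → J_S(F)` in `Rep ℤ L.Gal`. -/
def tensIncl (q : S) : L.J q.1 ⟶ G.JRep L.Gal S L.F := Rep.ofHom (tensInclMap L q)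

theorem tensIncl_apply (q : S) (f : (L.J q.1).V) :
    (tensIncl L q).hom f = tensInclFun L q f := rfl

theorem tensProj_tensIncl_same (q : S) (f : (L.J q.1).V) :
    (tensProj L q).hom ((tensIncl L q).hom f) = f :=
  tensEquiv_tensInclFun_same L q f

theorem tensProj_tensIncl_ne {q q' : S} (hq : q' ≠ q) (f : (L.J q.1).V) :
    (tensProj L q').hom ((tensIncl L q).hom f) = 0 :=
  tensEquiv_tensInclFun_ne L hq f

theorem sum_tensInclFun (u : Additive (G.AS S L.F)ˣ) :
    ∑ q : S, tensInclFun L q (tensEquiv L u q) = u := by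
  classical
  apply (tensEquiv L).injective
  funext q'
  rw [map_sum, Finset.sum_apply]
  rw [Finset.sum_eq_single q']
  · exact tensEquiv_tensInclFun_same L q' _
  · intro q _ hq
    exact tensEquiv_tensInclFun_ne L (Ne.symm hq) _
  · intro h
    exact absurd (Finset.mem_univ q') h

theorem sum_tensIncl_tensProj (u : (G.JRep L.Gal S L.F).V) :
    ∑ q : S, (tensIncl L q).hom ((tensProj L q).hom u) = u :=
  sum_tensInclFun L u

/-- A family `(x_q)_{q ∈ S}`, `x_q ∈ J_q(F)`, is the family of components of a unique `S`-idèle. -/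
theorem existsUnique_idele (x : ∀ q : S, (L.J q.1).V) :
    ∃! u : Additive (G.AS S L.F)ˣ, ∀ q : S, (tensProj L q).hom u = x q :=
  ⟨(tensEquiv L).symm x, fun q => congrFun ((tensEquiv L).apply_symm_apply x) q,
    fun u hu => (tensEquiv L).injective (by
      rw [AddEquiv.apply_symm_apply]
      exact funext hu)⟩

end

end Fermat.Agent.S55.E1.H594

end
-- ===== PACK-END S55/E1/H594/TensS.lean

-- ===== PACK-BEGIN S55/G/Exist121/Trans.lean
section


/-!
# S55, layer G, block EXIST: transitivity of norms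

Author: helper121.  Let `K₁ ⊂ L` be number fields, `G` a finite group acting on `L`, `Q` a finite
group acting on `K₁`, `φ : G → Q` a surjection compatible with the actions such that `K₁` is the
fixed field of `ker φ`, and `L/K₁` unramified outside `S`.  If `N_Q C_S(K₁) ⊆ p · C_S(K₁)^Q` then
`N_G C_S(L) ⊆ p · C_S(L)^G`  (`norm_in_p_trans`).

Proof: `N_G = N_Q ∘ N_{ker φ}` and `C_S(L)^{ker φ} = C_S(K₁)` (descent, helper773's `cBase`).
-/

set_option autoImplicit false
set_option linter.unusedSectionVars false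
set_option linter.style.haveILetI false

open scoped NumberField
open IsDedekindDomain

noncomputable section

namespace Fermat.Agent.S55.G.Exist121

open Fermat.Agent.S55.G Fermat.Agent.S55.G.DescH773

section Sum

variable {G Q M : Type*} [Group G] [Fintype G] [Group Q] [Fintype Q] [AddCommMonoid M]

/-- Summation over a finite group along a surjection `φ : G → Q`:
`∑_g f(g) = ∑_q ∑_{k ∈ ker φ} f(s(q) k)` for any section `s`. -/
lemma sum_eq_sum_ker (φ : G →* Q) [Fintype φ.ker] (s : Q → G) (hs : ∀ q, φ (s q) = q)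
    (f : G → M) : ∑ g : G, f g = ∑ q : Q, ∑ k : φ.ker, f (s q * (k : G)) := by
  classical
  let e : Q × φ.ker → G := fun x => s x.1 * (x.2 : G)
  have he : Function.Bijective e := by
    constructor
    · rintro ⟨q, k⟩ ⟨q', k'⟩ h
      have h1 : s q * (k : G) = s q' * (k' : G) := h
      have h2 := congrArg φ h1
      rw [map_mul, map_mul, hs, hs, (MonoidHom.mem_ker).1 k.2, (MonoidHom.mem_ker).1 k'.2,
        mul_one, mul_one] at h2
      subst h2
      have h3 : (k : G) = (k' : G) := mul_left_cancel h1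
      exact Prod.ext rfl (Subtype.ext h3)
    · intro g
      refine ⟨(φ g, ⟨(s (φ g))⁻¹ * g, ?_⟩), ?_⟩
      · rw [MonoidHom.mem_ker, map_mul, map_inv, hs, inv_mul_cancel]
      · show s (φ g) * ((s (φ g))⁻¹ * g) = g
        rw [mul_inv_cancel_left]
  rw [← Fintype.sum_prod_type' (f := fun q (k : φ.ker) => f (s q * (k : G)))]
  exact (Fintype.sum_equiv (Equiv.ofBijective e he) _ _ (fun x => rfl)).symm

end Sum

/-- **Transitivity of norms.** -/
theorem norm_in_p_trans (S : Finset Nat.Primes) (p : ℕ) (G Q K₁ L : Type) [Group G] [Fintype G]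
    [Group Q] [Fintype Q] [Field K₁] [NumberField K₁] [Field L] [NumberField L] [Algebra K₁ L]
    [MulSemiringAction G L] [MulSemiringAction Q K₁]
    (φ : G →* Q) (hφ : Function.Surjective φ)
    (hcompat : ∀ (g : G) (x : K₁), algebraMap K₁ L (φ g • x) = g • algebraMap K₁ L x)
    [IsGaloisGroup φ.ker K₁ L] (hS : S.Nonempty) (hunr : IsUnramOut S G L)
    (h₁ : ∀ c₁ : CS S K₁, ∃ c₀ : CS S K₁, (∀ q : Q, cRepr S Q K₁ q c₀ = c₀) ∧
      ∑ q : Q, cRepr S Q K₁ q c₁ = p • c₀) :
    ∀ c : CS S L, ∃ c₀ : CS S L, (∀ g : G, cRepr S G L g c₀ = c₀) ∧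
      ∑ g : G, cRepr S G L g c = p • c₀ := by
  classical
  intro c
  letI : Fintype φ.ker := Fintype.ofFinite _
  -- the norm for `ker φ`
  set n : CS S L := ∑ k : φ.ker, cRepr S G L (k : G) c with hn
  have hninv : ∀ k : φ.ker, cRepr S φ.ker L k n = n := by
    intro k
    rw [cRepr_subgroup, hn, map_sum]
    refine Fintype.sum_equiv (Equiv.mulLeft k) _ _ (fun k' => ?_)
    show cRepr S G L (k : G) (cRepr S G L (k' : G) c) = cRepr S G L ((k * k' : φ.ker) : G) c
    rw [Subgroup.coe_mul, map_mul]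
    rfl
  have hunr' : IsUnramOut S φ.ker L := fun w hw k hk x => hunr w hw (k : G) hk x
  have he : ∀ w : PrimeOut S L, eAt K₁ w.1 = 1 :=
    eAt_eq_one_of_isUnramOut S φ.ker K₁ L hunr'
  obtain ⟨c₁, hc₁⟩ := exists_cBase_eq_of_fixed S φ.ker K₁ L hS he n hninv
  obtain ⟨c₀', hinv, hsum⟩ := h₁ c₁
  have hcb : ∀ (g : G) (x : CS S K₁),
      cRepr S G L g (cBase S K₁ L x) = cBase S K₁ L (cRepr S Q K₁ (φ g) x) :=
    fun g x => (cBase_cRepr_of_compat S Q G K₁ L (φ g) g (hcompat g) x).symm
  refine ⟨cBase S K₁ L c₀', fun g => ?_, ?_⟩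
  · rw [hcb, hinv]
  · obtain ⟨s, hs⟩ := hφ.hasRightInverse
    rw [sum_eq_sum_ker φ s hs (fun g => cRepr S G L g c)]
    have h2 : ∀ q : Q, ∑ k : φ.ker, cRepr S G L (s q * (k : G)) c =
        cBase S K₁ L (cRepr S Q K₁ q c₁) := by
      intro q
      have h3 : ∀ k : φ.ker, cRepr S G L (s q * (k : G)) c =
          cRepr S G L (s q) (cRepr S G L (k : G) c) := by
        intro k
        rw [map_mul]
        rfl
      simp only [h3]
      rw [← map_sum, ← hn, ← hc₁, hcb, hs]
    simp only [h2]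
    rw [← map_sum, hsum, map_nsmul]

end Fermat.Agent.S55.G.Exist121

end
end
-- ===== PACK-END S55/G/Exist121/Trans.lean

-- ===== PACK-BEGIN S55/H696/DevFilt.lean
section



/-!
# S55 / dévissage (helper696), part 3: the filtration of `Ind_H R`

`H ≤ G` a subgroup, `R` a representation of `G` over a field `k`.  For a subspace `N ≤ R` put

  `filt H R N = {f : G ⧸ H →₀ R | ∀ g, g⁻¹ • f (g H) ∈ N}`,

a `G`-stable subspace of `Ind_H R = (G ⧸ H →₀ R)` (diagonal action); `filtRep H R N` is the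
corresponding representation.  If `N` is `H`-stable, `ℓ` is a linear form on `R` which is
`H`-invariant on `N` and does not vanish on `N`, and `μ` is a line on which `H` acts trivially,
there is a short exact sequence

  `0 → filtRep H R (N ⊓ ker ℓ) → filtRep H R N → Ind_H μ → 0`          (`filtSES`).
-/

set_option autoImplicit false

noncomputable section

namespace Fermat.Agent.S55.H696

open groupCohomology Fermat.Agent.S55.PT

variable {G : Type} [Group G] {k : Type} [Field k]

/-! ### the induced action, pointwise -/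

lemma indAct_apply (H : Subgroup G) (M : Rep.{0, 0, 0} k G) (g : G) (f : (G ⧸ H) →₀ M)
    (x : G ⧸ H) : indAct H M g f x = M.ρ g (f (g⁻¹ • x)) := by
  have key : (Finsupp.lapply x) ∘ₗ (indAct H M g) =
      (M.ρ g) ∘ₗ (Finsupp.lapply (g⁻¹ • x) : ((G ⧸ H) →₀ M) →ₗ[k] M) := by
    apply Finsupp.lhom_ext
    intro y m
    simp only [LinearMap.comp_apply, indAct_single, Finsupp.lapply_apply]
    by_cases h : g • y = x
    · subst h
      rw [inv_smul_smul, Finsupp.single_eq_same, Finsupp.single_eq_same]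
    · have h' : ¬ y = g⁻¹ • x := fun h' => h (by rw [h', smul_inv_smul])
      have e1 : (Finsupp.single (g • y) (M.ρ g m) : (G ⧸ H) →₀ M) x = 0 := by
        classical
        rw [Finsupp.single_apply, if_neg h]
      have e2 : (Finsupp.single y m : (G ⧸ H) →₀ M) (g⁻¹ • x) = 0 := by
        classical
        rw [Finsupp.single_apply, if_neg h']
      rw [e1, e2, map_zero]
  exact LinearMap.congr_fun key f

lemma smul_mk_eq (H : Subgroup G) (g a : G) : g • (a : G ⧸ H) = ((g * a : G) : G ⧸ H) := rfl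

/-! ### the filtration -/

section Filt

variable (H : Subgroup G) (R : Rep.{0, 0, 0} k G)

/-- `{f : G ⧸ H →₀ R | ∀ g, g⁻¹ • f (g H) ∈ N}` -/
def filt (N : Submodule k R) : Submodule k ((G ⧸ H) →₀ R) where
  carrier := {f | ∀ g : G, R.ρ g⁻¹ (f (g : G ⧸ H)) ∈ N}
  add_mem' := by
    intro f f' hf hf' g
    simp only [Finsupp.coe_add, Pi.add_apply, map_add]
    exact N.add_mem (hf g) (hf' g)
  zero_mem' := by
    intro g
    simp only [Finsupp.coe_zero, Pi.zero_apply, map_zero]
    exact N.zero_mem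
  smul_mem' := by
    intro c f hf g
    simp only [Finsupp.coe_smul, Pi.smul_apply, map_smul]
    exact N.smul_mem c (hf g)

variable {H R}

lemma mem_filt {N : Submodule k R} {f : (G ⧸ H) →₀ R} :
    f ∈ filt H R N ↔ ∀ g : G, R.ρ g⁻¹ (f (g : G ⧸ H)) ∈ N := Iff.rfl

lemma filt_mono {N N' : Submodule k R} (h : N' ≤ N) : filt H R N' ≤ filt H R N :=
  fun _ hf g => h (hf g)

variable (H R)

lemma filt_le_comap (N : Submodule k R) (g : G) :
    filt H R N ≤ (filt H R N).comap (indRho H R g) := by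
  intro f hf a
  show R.ρ a⁻¹ (indAct H R g f (a : G ⧸ H)) ∈ N
  rw [indAct_apply, smul_mk_eq, ← Module.End.mul_apply, ← map_mul]
  have := hf (g⁻¹ * a)
  rwa [mul_inv_rev, inv_inv] at this

/-- the representation on `filt H R N` -/
abbrev filtRep (N : Submodule k R) : Rep.{0, 0, 0} k G :=
  Rep.of ((indRho H R).subrepresentation (filt H R N) (filt_le_comap H R N))

lemma filtRep_ρ_coe (N : Submodule k R) (g : G) (f : ↥(filt H R N)) :
    (((filtRep H R N).ρ g f : ↥(filt H R N)) : (G ⧸ H) →₀ R) =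
      indAct H R g (f : (G ⧸ H) →₀ R) := rfl

instance filtRep_bot_subsingleton : Subsingleton (filtRep H R (⊥ : Submodule k R)) := by
  refine ⟨fun a b => ?_⟩
  have h0 : ∀ f : ↥(filt H R (⊥ : Submodule k R)), (f : (G ⧸ H) →₀ R) = 0 := by
    intro f
    ext x
    induction x using QuotientGroup.induction_on with
    | H g =>
      have h1 : R.ρ g⁻¹ ((f : (G ⧸ H) →₀ R) (g : G ⧸ H)) = 0 := (Submodule.mem_bot k).1 (f.2 g)
      have h2 := congrArg (R.ρ g) h1
      rw [← Module.End.mul_apply, ← map_mul, mul_inv_cancel, map_one, map_zero] at h2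
      exact h2
  exact Subtype.ext ((h0 a).trans (h0 b).symm)

/-- a normal subgroup contained in `H` and acting trivially on `R` acts trivially on
`Ind_H R` -/
lemma indAct_eq_self_of_normal (U : Subgroup G) [U.Normal] (hUH : U ≤ H)
    (hUR : ∀ s ∈ U, ∀ r : R, R.ρ s r = r) (s : G) (hs : s ∈ U) (f : (G ⧸ H) →₀ R) :
    indAct H R s f = f := by
  ext x
  rw [indAct_apply, hUR s hs]
  congr 1
  induction x using QuotientGroup.induction_on with
  | H g =>
    rw [smul_mk_eq]
    apply QuotientGroup.eq.2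
    have h1 : g⁻¹ * s * g⁻¹⁻¹ ∈ U := ‹U.Normal›.conj_mem s hs g⁻¹
    have h2 : (s⁻¹ * g)⁻¹ * g = g⁻¹ * s * g⁻¹⁻¹ := by group
    rw [h2]
    exact hUH h1

end Filt

/-! ### the graded pieces -/

section Graded

variable (H : Subgroup G) (R μ : Rep.{0, 0, 0} k G) (ℓ : R →ₗ[k] k) (m₀ : μ)

/-- the component `r ↦ ℓ (x̃⁻¹ r) • x̃ m₀` at the coset `x` (`x̃` the chosen representative) -/
def gradAt (x : G ⧸ H) : R →ₗ[k] μ :=
  (LinearMap.toSpanSingleton k μ (μ.ρ (Quotient.out x) m₀)) ∘ₗ ℓ ∘ₗ (R.ρ (Quotient.out x)⁻¹)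

lemma gradAt_apply (x : G ⧸ H) (r : R) :
    gradAt H R μ ℓ m₀ x r = ℓ (R.ρ (Quotient.out x)⁻¹ r) • μ.ρ (Quotient.out x) m₀ := rfl

/-- the map `Ind_H R → Ind_H μ`, `f ↦ (x ↦ ℓ (x̃⁻¹ f x) • x̃ m₀)` -/
def grad : ((G ⧸ H) →₀ R) →ₗ[k] ((G ⧸ H) →₀ μ) :=
  Finsupp.lsum k (fun x : G ⧸ H => (Finsupp.lsingle x) ∘ₗ (gradAt H R μ ℓ m₀ x))

lemma grad_single (x : G ⧸ H) (r : R) :
    grad H R μ ℓ m₀ (Finsupp.single x r) = Finsupp.single x (gradAt H R μ ℓ m₀ x r) := by
  rw [grad, Finsupp.lsum_single]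
  rfl

lemma grad_apply (f : (G ⧸ H) →₀ R) (x : G ⧸ H) :
    grad H R μ ℓ m₀ f x = gradAt H R μ ℓ m₀ x (f x) := by
  have key : (Finsupp.lapply x) ∘ₗ (grad H R μ ℓ m₀) =
      (gradAt H R μ ℓ m₀ x) ∘ₗ (Finsupp.lapply x : ((G ⧸ H) →₀ R) →ₗ[k] R) := by
    apply Finsupp.lhom_ext
    intro y r
    simp only [LinearMap.comp_apply, grad_single, Finsupp.lapply_apply]
    by_cases h : y = x
    · subst h
      rw [Finsupp.single_eq_same, Finsupp.single_eq_same]
    · have e1 : (Finsupp.single y (gradAt H R μ ℓ m₀ y r) : (G ⧸ H) →₀ μ) x = 0 := by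
        classical
        rw [Finsupp.single_apply, if_neg h]
      have e2 : (Finsupp.single y r : (G ⧸ H) →₀ R) x = 0 := by
        classical
        rw [Finsupp.single_apply, if_neg h]
      rw [e1, e2, map_zero]
  exact LinearMap.congr_fun key f

variable {H R μ ℓ m₀}

/-- Independence of the representative. -/
lemma grad_apply_mk {N : Submodule k R} (hμH : ∀ h ∈ H, μ.ρ h = 1)
    (hℓ : ∀ h ∈ H, ∀ n ∈ N, ℓ (R.ρ h n) = ℓ n) {f : (G ⧸ H) →₀ R} (hf : f ∈ filt H R N)
    (g : G) :
    grad H R μ ℓ m₀ f (g : G ⧸ H) = ℓ (R.ρ g⁻¹ (f (g : G ⧸ H))) • μ.ρ g m₀ := by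
  rw [grad_apply, gradAt_apply]
  obtain ⟨h, hh⟩ := QuotientGroup.mk_out_eq_mul H g
  have hout : Quotient.out (g : G ⧸ H) = g * (h : G) := hh
  rw [hout, mul_inv_rev, map_mul, map_mul, Module.End.mul_apply, Module.End.mul_apply,
    hμH h h.2, Module.End.one_apply, hℓ _ (H.inv_mem h.2) _ (hf g)]

lemma grad_indAct {N : Submodule k R} (hμH : ∀ h ∈ H, μ.ρ h = 1)
    (hℓ : ∀ h ∈ H, ∀ n ∈ N, ℓ (R.ρ h n) = ℓ n) {f : (G ⧸ H) →₀ R} (hf : f ∈ filt H R N)
    (g : G) :
    grad H R μ ℓ m₀ (indAct H R g f) = indAct H μ g (grad H R μ ℓ m₀ f) := by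
  have hf' : indAct H R g f ∈ filt H R N := filt_le_comap H R N g hf
  ext x
  induction x using QuotientGroup.induction_on with
  | H a =>
    rw [grad_apply_mk hμH hℓ hf' a, indAct_apply, indAct_apply,
      smul_mk_eq, grad_apply_mk hμH hℓ hf (g⁻¹ * a), map_smul, ← Module.End.mul_apply,
      ← Module.End.mul_apply, ← map_mul, ← map_mul, mul_inv_rev, inv_inv, mul_inv_cancel_left]

lemma rho_ne_zero (hm₀ : m₀ ≠ 0) (g : G) : μ.ρ g m₀ ≠ 0 := by
  intro h
  apply hm₀
  have := congrArg (μ.ρ g⁻¹) h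
  rwa [← Module.End.mul_apply, ← map_mul, inv_mul_cancel, map_one, map_zero] at this

lemma grad_eq_zero_iff {N : Submodule k R} (hμH : ∀ h ∈ H, μ.ρ h = 1)
    (hℓ : ∀ h ∈ H, ∀ n ∈ N, ℓ (R.ρ h n) = ℓ n) (hm₀ : m₀ ≠ 0) {f : (G ⧸ H) →₀ R}
    (hf : f ∈ filt H R N) :
    grad H R μ ℓ m₀ f = 0 ↔ f ∈ filt H R (N ⊓ LinearMap.ker ℓ) := by
  constructor
  · intro h g
    refine ⟨hf g, ?_⟩
    have h1 := grad_apply_mk (m₀ := m₀) hμH hℓ hf g
    rw [h, Finsupp.coe_zero, Pi.zero_apply] at h1
    rcases smul_eq_zero.1 h1.symm with h2 | h2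
    · exact h2
    · exact absurd h2 (rho_ne_zero hm₀ g)
  · intro h
    ext x
    induction x using QuotientGroup.induction_on with
    | H g =>
      rw [grad_apply_mk hμH hℓ hf g, Finsupp.coe_zero, Pi.zero_apply]
      have : ℓ (R.ρ g⁻¹ (f (g : G ⧸ H))) = 0 := (h g).2
      rw [this, zero_smul]

lemma exists_grad_eq_single {N : Submodule k R} (hμ1 : Module.finrank k μ = 1)
    (hμH : ∀ h ∈ H, μ.ρ h = 1) (hNH : ∀ h ∈ H, N ≤ N.comap (R.ρ h))
    (hℓ : ∀ h ∈ H, ∀ n ∈ N, ℓ (R.ρ h n) = ℓ n) (hm₀ : m₀ ≠ 0) {n₀ : R} (hn₀ : n₀ ∈ N)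
    (hℓn₀ : ℓ n₀ ≠ 0) (g : G) (m : μ) :
    ∃ f ∈ filt H R N, grad H R μ ℓ m₀ f = Finsupp.single (g : G ⧸ H) m := by
  obtain ⟨c, hc⟩ := (finrank_eq_one_iff_of_nonzero' (μ.ρ g m₀) (rho_ne_zero hm₀ g)).1 hμ1 m
  set r : R := (c * (ℓ n₀)⁻¹) • R.ρ g n₀ with hr
  have hmem : (Finsupp.single (g : G ⧸ H) r : (G ⧸ H) →₀ R) ∈ filt H R N := by
    intro a
    by_cases h : (g : G ⧸ H) = (a : G ⧸ H)
    · rw [← h, Finsupp.single_eq_same, hr, map_smul, ← Module.End.mul_apply, ← map_mul]
      have hH : a⁻¹ * g ∈ H := by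
        have := QuotientGroup.eq.1 h.symm
        exact this
      exact N.smul_mem _ (hNH _ hH hn₀)
    · have e : (Finsupp.single (g : G ⧸ H) r : (G ⧸ H) →₀ R) (a : G ⧸ H) = 0 := by
        classical
        rw [Finsupp.single_apply, if_neg h]
      rw [e, map_zero]
      exact N.zero_mem
  refine ⟨_, hmem, ?_⟩
  have h1 := grad_apply_mk (m₀ := m₀) hμH hℓ hmem g
  rw [grad_single] at h1 ⊢
  rw [Finsupp.single_eq_same] at h1
  rw [h1, Finsupp.single_eq_same, hr, map_smul, ← Module.End.mul_apply, ← map_mul,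
    inv_mul_cancel, map_one, Module.End.one_apply, map_smul, smul_eq_mul, mul_assoc,
    inv_mul_cancel₀ hℓn₀, mul_one, hc]

variable (H R μ ℓ m₀)

/-- the short exact sequence `0 → filt (N ⊓ ker ℓ) → filt N → Ind_H μ → 0` -/
def filtSES (N : Submodule k R) (hμ1 : Module.finrank k μ = 1)
    (hμH : ∀ h ∈ H, μ.ρ h = 1) (hNH : ∀ h ∈ H, N ≤ N.comap (R.ρ h))
    (hℓ : ∀ h ∈ H, ∀ n ∈ N, ℓ (R.ρ h n) = ℓ n) (hm₀ : m₀ ≠ 0)
    (hn₀ : ∃ n₀ ∈ N, ℓ n₀ ≠ 0) :
    SES (filtRep H R (N ⊓ LinearMap.ker ℓ)) (filtRep H R N) (indRep H μ) where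
  i := Submodule.inclusion (filt_mono (inf_le_left : N ⊓ LinearMap.ker ℓ ≤ N))
  π := (grad H R μ ℓ m₀) ∘ₗ (filt H R N).subtype
  hi := fun _ _ => rfl
  hπ := fun g f => grad_indAct hμH hℓ f.2 g
  inj := Submodule.inclusion_injective _
  surj := by
    obtain ⟨n₀, hn₀N, hℓn₀⟩ := hn₀
    intro F
    induction F using Finsupp.induction_linear with
    | zero => exact ⟨0, map_zero _⟩
    | add a b ha hb =>
      obtain ⟨fa, hfa⟩ := ha
      obtain ⟨fb, hfb⟩ := hb
      exact ⟨fa + fb, by rw [map_add, hfa, hfb]⟩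
    | single x m =>
      induction x using QuotientGroup.induction_on with
      | H g =>
        obtain ⟨f, hf, hfg⟩ := exists_grad_eq_single hμ1 hμH hNH hℓ hm₀ hn₀N hℓn₀ g m
        exact ⟨⟨f, hf⟩, hfg⟩
  exact := by
    ext f
    constructor
    · rintro ⟨f', rfl⟩
      rw [LinearMap.mem_ker]
      exact (grad_eq_zero_iff hμH hℓ hm₀ (filt_mono inf_le_left f'.2)).2 f'.2
    · intro hf
      rw [LinearMap.mem_ker] at hf
      exact ⟨⟨f.1, (grad_eq_zero_iff hμH hℓ hm₀ f.2).1 hf⟩, rfl⟩

end Graded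

end Fermat.Agent.S55.H696

end

end
-- ===== PACK-END S55/H696/DevFilt.lean

-- ===== PACK-BEGIN S56/H614/UnitsCharpoly.lean
section







/-!
# S56 / W-BASE / W3-UNITS (helper614): the characteristic polynomial of a Galois element on the
`T`-units modulo `p`

`L/K` a Galois extension of number fields, `T` a finite set of primes of `K`, `τ ∈ Gal(L/K)`,
`k` any field.  With `E = 𝒪_{L,T}^×` (the `T`-units of `L`, `sUnitsSub`), `μ` the group of roots
of unity (`torsSub`):

  `charpoly (k ⊗ τ|_E) * (X - 1) = charpoly (k ⊗ τ|_μ) * permCharpoly (infinite places)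
                                        * permCharpoly (primes above T)`       (`sUnits_charpoly`)

Inputs: the landed S55 layer G blocks `Log101` (equivariant logarithmic lattice of the units) and
`OrdH707` (valuation map on the `T`-units).
-/

set_option autoImplicit false
set_option linter.unusedSectionVars false
set_option linter.style.haveILetI false

noncomputable section

namespace Fermat.Agent.S56.H614

open Fermat.Agent.S55.G NumberField IsDedekindDomain Polynomial Module

open scoped TensorProduct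

universe u v

variable (K : Type u) (L : Type v) [Field K] [Field L] [NumberField K] [NumberField L]
  [Algebra K L] [IsGalois K L] (T : Finset (HeightOneSpectrum (𝓞 K)))

/-- The action of `τ` on `Lˣ` (additively), as a `ℤ`-linear map. -/
def unitsLin (τ : L ≃ₐ[K] L) : Additive Lˣ →ₗ[ℤ] Additive Lˣ :=
  (unitsHom K L τ).toIntLinearMap

/-- The `T`-units of `L`, as a `ℤ`-submodule of `Lˣ`. -/
def sUnitsSub : Submodule ℤ (Additive Lˣ) := AddSubgroup.toIntSubmodule (sUnits K L T)

/-- The units of `𝒪_L`, as a `ℤ`-submodule of `Lˣ`. -/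
def intUnitsSub : Submodule ℤ (Additive Lˣ) := AddSubgroup.toIntSubmodule (intUnits L)

/-- The roots of unity of `L` (units killed by the logarithmic map), as a `ℤ`-submodule. -/
def torsSub : Submodule ℤ (Additive Lˣ) :=
  AddSubgroup.toIntSubmodule ((Log101.phi L).ker ⊓ intUnits L)

lemma mem_sUnitsSub (x : Additive Lˣ) : x ∈ sUnitsSub K L T ↔ x ∈ sUnits K L T := Iff.rfl

lemma mem_intUnitsSub (x : Additive Lˣ) : x ∈ intUnitsSub L ↔ x ∈ intUnits L := Iff.rfl

lemma mem_torsSub (x : Additive Lˣ) :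
    x ∈ torsSub L ↔ Log101.phi L x = 0 ∧ x ∈ intUnits L := Iff.rfl

lemma intUnits_eq : intUnits L = (OrdH707.ordHom K L T).ker ⊓ sUnits K L T :=
  (OrdH707.ker_inf_sUnits K L T).symm

lemma intUnitsSub_le_sUnitsSub : intUnitsSub L ≤ sUnitsSub K L T := by
  intro x hx
  rw [mem_intUnitsSub, intUnits_eq K L T] at hx
  exact hx.2

lemma torsSub_le_intUnitsSub : torsSub L ≤ intUnitsSub L := fun _ hx => hx.2

lemma sUnitsSub_stable (τ : L ≃ₐ[K] L) :
    sUnitsSub K L T ≤ (sUnitsSub K L T).comap (unitsLin K L τ) :=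
  fun x hx => StabH707.sUnitsStable K L T τ x hx

lemma intUnitsSub_stable (τ : L ≃ₐ[K] L) :
    intUnitsSub L ≤ (intUnitsSub L).comap (unitsLin K L τ) := by
  intro x hx
  rw [Submodule.mem_comap, mem_intUnitsSub, intUnits_eq K L (∅ : Finset _)]
  rw [mem_intUnitsSub, intUnits_eq K L (∅ : Finset _)] at hx
  refine ⟨?_, StabH707.sUnitsStable K L ∅ τ x hx.2⟩
  have h := OrdH707.ordHom_equivariant K L ∅ τ x
  have hx1 : OrdH707.ordHom K L ∅ x = 0 := hx.1
  change OrdH707.ordHom K L ∅ (unitsHom K L τ x) = 0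
  rw [h, hx1, map_zero]

lemma torsSub_stable (τ : L ≃ₐ[K] L) :
    torsSub L ≤ (torsSub L).comap (unitsLin K L τ) := by
  intro x hx
  rw [Submodule.mem_comap, mem_torsSub]
  rw [mem_torsSub] at hx
  refine ⟨?_, intUnitsSub_stable K L τ hx.2⟩
  change Log101.phi L (unitsHom K L τ x) = 0
  rw [Log101.phi_equivariant, hx.1, map_zero]

/-- `τ` on the `T`-units. -/
def sUnitsEnd (τ : L ≃ₐ[K] L) : ↥(sUnitsSub K L T) →ₗ[ℤ] ↥(sUnitsSub K L T) :=
  (unitsLin K L τ).restrict (sUnitsSub_stable K L T τ)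

/-- `τ` on the units. -/
def intUnitsEnd (τ : L ≃ₐ[K] L) : ↥(intUnitsSub L) →ₗ[ℤ] ↥(intUnitsSub L) :=
  (unitsLin K L τ).restrict (intUnitsSub_stable K L τ)

/-- `τ` on the roots of unity. -/
def torsEnd (τ : L ≃ₐ[K] L) : ↥(torsSub L) →ₗ[ℤ] ↥(torsSub L) :=
  (unitsLin K L τ).restrict (torsSub_stable K L τ)

/-! ### The logarithmic lattice -/

/-- The logarithmic lattice of the units inside `ℝ^{infinite places}`. -/
def logLattice : Submodule ℤ (InfinitePlace L → ℝ) :=
  Submodule.span ℤ (Set.range (Log101.bFam L))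

lemma bFam_linearIndependent_int : LinearIndependent ℤ (Log101.bFam L) :=
  (Log101.bFam_linearIndependent L).restrict_scalars (by
    intro a b h
    simpa using h)

/-- The `ℤ`-basis of the logarithmic lattice. -/
def logLatticeBasis : Basis (Fin (Units.rank L)) ℤ ↥(logLattice L) :=
  Basis.span (bFam_linearIndependent_int L)

lemma logLatticeBasis_coe (i : Fin (Units.rank L)) :
    ((logLatticeBasis L i : ↥(logLattice L)) : InfinitePlace L → ℝ) = Log101.bFam L i :=
  congrArg Subtype.val (Basis.span_apply (bFam_linearIndependent_int L) i)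

instance logLattice_free : Module.Free ℤ ↥(logLattice L) :=
  Module.Free.of_basis (logLatticeBasis L)

instance logLattice_finite : Module.Finite ℤ ↥(logLattice L) :=
  Module.Finite.of_basis (logLatticeBasis L)

/-- The logarithmic map as a `ℤ`-linear map. -/
def phiLin : Additive Lˣ →ₗ[ℤ] (InfinitePlace L → ℝ) := (Log101.phi L).toIntLinearMap

lemma mem_logLattice_iff (y : InfinitePlace L → ℝ) :
    y ∈ logLattice L ↔ ∃ x ∈ intUnits L, Log101.phi L x = y := by
  have h := Log101.map_phi_intUnits L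
  have : y ∈ (intUnits L).map (Log101.phi L) ↔ y ∈ logLattice L := by
    rw [h]; rfl
  rw [← this]
  rfl

lemma phiLin_mem_logLattice (x : ↥(intUnitsSub L)) : phiLin L (x : Additive Lˣ) ∈ logLattice L :=
  (mem_logLattice_iff L _).mpr ⟨x, x.2, rfl⟩

/-- The logarithmic map from the units onto the logarithmic lattice. -/
def logMap : ↥(intUnitsSub L) →ₗ[ℤ] ↥(logLattice L) :=
  ((phiLin L).domRestrict (intUnitsSub L)).codRestrict (logLattice L) (phiLin_mem_logLattice L)

lemma logMap_coe (x : ↥(intUnitsSub L)) :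
    ((logMap L x : ↥(logLattice L)) : InfinitePlace L → ℝ) = Log101.phi L (x : Additive Lˣ) := rfl

lemma logMap_surjective : Function.Surjective (logMap L) := by
  rintro ⟨y, hy⟩
  obtain ⟨x, hx, rfl⟩ := (mem_logLattice_iff L y).mp hy
  exact ⟨⟨x, hx⟩, Subtype.ext rfl⟩

lemma range_torsIncl :
    LinearMap.range (Submodule.inclusion (torsSub_le_intUnitsSub L)) =
      LinearMap.ker (logMap L) := by
  ext x
  rw [Submodule.range_inclusion, Submodule.mem_comap, LinearMap.mem_ker]
  constructor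
  · intro hx
    exact Subtype.ext hx.1
  · intro hx
    exact ⟨congrArg Subtype.val hx, x.2⟩

instance torsSub_finite : Module.Finite ℤ ↥(torsSub L) := by
  haveI : Finite ↥(torsSub L) := Log101.finite_ker_inf L
  exact Module.Finite.of_finite

instance intUnitsSub_finite : Module.Finite ℤ ↥(intUnitsSub L) :=
  finite_of_exact (Submodule.inclusion (torsSub_le_intUnitsSub L)) (logMap L)
    (logMap_surjective L) (range_torsIncl L)

/-- The permutation action of `τ` on `ℝ^{infinite places}`. -/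
def permR (τ : L ≃ₐ[K] L) : (InfinitePlace L → ℝ) →ₗ[ℝ] (InfinitePlace L → ℝ) :=
  LinearMap.funLeft ℝ ℝ (fun w : InfinitePlace L => τ⁻¹ • w)

lemma phi_unitsLin (τ : L ≃ₐ[K] L) (x : Additive Lˣ) :
    Log101.phi L (unitsLin K L τ x) = permR K L τ (Log101.phi L x) :=
  Log101.phi_equivariant K L τ x

lemma logLattice_stable (τ : L ≃ₐ[K] L) :
    logLattice L ≤ (logLattice L).comap ((permR K L τ).restrictScalars ℤ) := by
  intro y hy
  obtain ⟨x, hx, rfl⟩ := (mem_logLattice_iff L y).mp hy
  rw [Submodule.mem_comap, LinearMap.restrictScalars_apply, ← phi_unitsLin]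
  exact (mem_logLattice_iff L _).mpr ⟨_, intUnitsSub_stable K L τ hx, rfl⟩

/-- `τ` on the logarithmic lattice. -/
def logLatticeEnd (τ : L ≃ₐ[K] L) : ↥(logLattice L) →ₗ[ℤ] ↥(logLattice L) :=
  ((permR K L τ).restrictScalars ℤ).restrict (logLattice_stable K L τ)

/-- Step 2: units = roots of unity + logarithmic lattice. -/
theorem intUnits_charpoly (k : Type*) [Field k] (τ : L ≃ₐ[K] L) :
    ((intUnitsEnd K L τ).baseChange k).charpoly =
      ((torsEnd K L τ).baseChange k).charpoly * ((logLatticeEnd K L τ).baseChange k).charpoly := by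
  refine charpoly_baseChange_of_exact' k (Submodule.inclusion (torsSub_le_intUnitsSub L))
    (Submodule.inclusion_injective _) (logMap L) (logMap_surjective L) (range_torsIncl L)
    (torsEnd K L τ) (intUnitsEnd K L τ) (logLatticeEnd K L τ) ?_ ?_
  · apply LinearMap.ext
    intro x
    rfl
  · apply LinearMap.ext
    intro x
    apply Subtype.ext
    exact phi_unitsLin K L τ (x : Additive Lˣ)

/-! ### Step 3: the logarithmic lattice versus the permutation lattice of the infinite places -/

/-- The sum of the coordinates. -/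
def sumR : (InfinitePlace L → ℝ) →ₗ[ℝ] ℝ := ∑ w : InfinitePlace L, LinearMap.proj w

lemma sumR_apply (a : InfinitePlace L → ℝ) : sumR L a = ∑ w, a w := by
  simp [sumR, LinearMap.sum_apply]

lemma traceZeroR_eq_ker : traceZeroR L = LinearMap.ker (sumR L) := rfl

lemma sumR_permR (τ : L ≃ₐ[K] L) (a : InfinitePlace L → ℝ) :
    sumR L (permR K L τ a) = sumR L a := by
  rw [sumR_apply, sumR_apply]
  exact Equiv.sum_comp (MulAction.toPerm τ⁻¹ : Equiv.Perm (InfinitePlace L)) a

lemma sumR_surjective : Function.Surjective (sumR L) := by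
  classical
  intro c
  obtain ⟨w₀⟩ : Nonempty (InfinitePlace L) := inferInstance
  refine ⟨Pi.single w₀ c, ?_⟩
  rw [sumR_apply, Finset.sum_pi_single']
  simp

lemma traceZeroR_stable (τ : L ≃ₐ[K] L) :
    traceZeroR L ≤ (traceZeroR L).comap (permR K L τ) := by
  intro a ha
  rw [traceZeroR_eq_ker, LinearMap.mem_ker] at ha
  rw [Submodule.mem_comap, traceZeroR_eq_ker, LinearMap.mem_ker, sumR_permR, ha]

/-- The characteristic polynomial of `τ` on the trace-zero hyperplane. -/
theorem traceZeroR_charpoly (τ : L ≃ₐ[K] L) :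
    ((permR K L τ).restrict (traceZeroR_stable K L τ)).charpoly * (X - 1) =
      permCharpoly ℝ (fun w : InfinitePlace L => τ⁻¹ • w) := by
  have h := charpoly_of_exact (k := ℝ) (traceZeroR L).subtype (Submodule.injective_subtype _)
    (sumR L) (sumR_surjective L)
    (by rw [Submodule.range_subtype, traceZeroR_eq_ker])
    ((permR K L τ).restrict (traceZeroR_stable K L τ)) (permR K L τ) LinearMap.id
    (by apply LinearMap.ext; intro x; rfl)
    (by apply LinearMap.ext; intro x; exact sumR_permR K L τ x)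
  have h1 : (LinearMap.id : ℝ →ₗ[ℝ] ℝ).charpoly = X - 1 := by
    have := LinearMap.charpoly_one (R := ℝ) (M := ℝ)
    rw [Module.finrank_self, pow_one] at this
    exact this
  rw [h1] at h
  rw [← h]
  rfl

/-- Step 3: the characteristic polynomial of `τ` on the logarithmic lattice. -/
theorem logLattice_charpoly (τ : L ≃ₐ[K] L) :
    (logLatticeEnd K L τ).charpoly * (X - 1) =
      permCharpoly ℤ (fun w : InfinitePlace L => τ⁻¹ • w) := by
  classical
  have hfun : (fun i => (logLattice L).subtype (logLatticeBasis L i)) = Log101.bFam L :=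
    funext (logLatticeBasis_coe L)
  have h := charpoly_of_real_lattice (logLatticeBasis L) (logLattice L).subtype
    (by rw [hfun]; exact Log101.bFam_linearIndependent L)
    (logLatticeEnd K L τ) (permR K L τ) (fun x => rfl) (traceZeroR L)
    (by rw [hfun]; exact Log101.span_real_bFam L) (traceZeroR_stable K L τ)
  have h2 := traceZeroR_charpoly K L τ
  rw [h, ← permCharpoly_map ℤ (Int.castRingHom ℝ)] at h2
  apply Polynomial.map_injective (Int.castRingHom ℝ) Int.cast_injective
  rw [Polynomial.map_mul, Polynomial.map_sub, Polynomial.map_X, Polynomial.map_one]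
  exact h2

/-! ### Steps 1 and 4: the valuation lattice of the `T`-units -/

instance primesAbove_finite : Finite ↥(primesAbove K L T) :=
  (OrdH707.finite_primesAbove K L T).to_subtype

/-- The permutation `w ↦ τ⁻¹ w` of the primes of `L` above `T`. -/
def primePerm (τ : L ≃ₐ[K] L) : ↥(primesAbove K L T) → ↥(primesAbove K L T) :=
  fun w => ⟨OrdH707.smulH K L τ⁻¹ w.1, OrdH707.smulH_mem K L T τ⁻¹ w.2⟩

/-- The valuation map as a `ℤ`-linear map. -/
def ordLin : Additive Lˣ →ₗ[ℤ] (↥(primesAbove K L T) → ℤ) :=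
  (OrdH707.ordHom K L T).toIntLinearMap

lemma ordLin_unitsLin (τ : L ≃ₐ[K] L) (x : Additive Lˣ) :
    ordLin K L T (unitsLin K L τ x) =
      LinearMap.funLeft ℤ ℤ (primePerm K L T τ) (ordLin K L T x) :=
  OrdH707.ordHom_equivariant K L T τ x

/-- The valuation lattice: the image of the `T`-units in `ℤ^{primes above T}`. -/
def ordLattice : Submodule ℤ (↥(primesAbove K L T) → ℤ) :=
  (sUnitsSub K L T).map (ordLin K L T)

/-- The valuation map from the `T`-units onto the valuation lattice. -/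
def ordMap : ↥(sUnitsSub K L T) →ₗ[ℤ] ↥(ordLattice K L T) :=
  (ordLin K L T).submoduleMap (sUnitsSub K L T)

lemma ordMap_coe (x : ↥(sUnitsSub K L T)) :
    ((ordMap K L T x : ↥(ordLattice K L T)) : ↥(primesAbove K L T) → ℤ) =
      OrdH707.ordHom K L T (x : Additive Lˣ) := rfl

lemma ordMap_surjective : Function.Surjective (ordMap K L T) :=
  LinearMap.submoduleMap_surjective _ _

lemma range_intUnitsIncl :
    LinearMap.range (Submodule.inclusion (intUnitsSub_le_sUnitsSub K L T)) =
      LinearMap.ker (ordMap K L T) := by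
  ext x
  rw [Submodule.range_inclusion, Submodule.mem_comap, LinearMap.mem_ker, mem_intUnitsSub,
    intUnits_eq K L T]
  constructor
  · intro hx
    exact Subtype.ext hx.1
  · intro hx
    exact ⟨congrArg Subtype.val hx, x.2⟩

instance sUnitsSub_finite : Module.Finite ℤ ↥(sUnitsSub K L T) :=
  finite_of_exact (Submodule.inclusion (intUnitsSub_le_sUnitsSub K L T)) (ordMap K L T)
    (ordMap_surjective K L T) (range_intUnitsIncl K L T)

lemma ordLattice_stable (τ : L ≃ₐ[K] L) :
    ordLattice K L T ≤ (ordLattice K L T).comap (LinearMap.funLeft ℤ ℤ (primePerm K L T τ)) := by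
  rintro y ⟨x, hx, rfl⟩
  rw [Submodule.mem_comap, ← ordLin_unitsLin]
  exact ⟨_, sUnitsSub_stable K L T τ hx, rfl⟩

/-- `τ` on the valuation lattice. -/
def ordLatticeEnd (τ : L ≃ₐ[K] L) : ↥(ordLattice K L T) →ₗ[ℤ] ↥(ordLattice K L T) :=
  (LinearMap.funLeft ℤ ℤ (primePerm K L T τ)).restrict (ordLattice_stable K L T τ)

/-- Step 1: `T`-units = units + valuation lattice. -/
theorem sUnits_charpoly_step (k : Type*) [Field k] (τ : L ≃ₐ[K] L) :
    ((sUnitsEnd K L T τ).baseChange k).charpoly =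
      ((intUnitsEnd K L τ).baseChange k).charpoly *
        ((ordLatticeEnd K L T τ).baseChange k).charpoly := by
  refine charpoly_baseChange_of_exact' k (Submodule.inclusion (intUnitsSub_le_sUnitsSub K L T))
    (Submodule.inclusion_injective _) (ordMap K L T) (ordMap_surjective K L T)
    (range_intUnitsIncl K L T)
    (intUnitsEnd K L τ) (sUnitsEnd K L T τ) (ordLatticeEnd K L T τ) ?_ ?_
  · apply LinearMap.ext
    intro x
    rfl
  · apply LinearMap.ext
    intro x
    apply Subtype.ext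
    exact ordLin_unitsLin K L T τ (x : Additive Lˣ)

/-- Step 4: the characteristic polynomial of `τ` on the valuation lattice. -/
theorem ordLattice_charpoly (τ : L ≃ₐ[K] L) :
    (ordLatticeEnd K L T τ).charpoly = permCharpoly ℤ (primePerm K L T τ) := by
  have hidx := OrdH707.index_map_ordHom K L T
  refine charpoly_restrict_of_smul_mem (LinearMap.funLeft ℤ ℤ (primePerm K L T τ))
    (ordLattice K L T) (ordLattice_stable K L T τ)
    (((sUnits K L T).map (OrdH707.ordHom K L T)).index : ℤ) (by exact_mod_cast hidx) ?_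
  intro x
  have h := AddSubgroup.nsmul_index_mem ((sUnits K L T).map (OrdH707.ordHom K L T)) x
  rw [natCast_zsmul]
  exact h

/-- **The characteristic polynomial of a Galois element on the `T`-units modulo `p`** (and over
any field `k`): with `E` the `T`-units of `L` and `μ` the roots of unity of `L`,
`charpoly (k ⊗ τ|_E) * (X - 1) = charpoly (k ⊗ τ|_μ) * permCharpoly(infinite places)
  * permCharpoly(primes above T)`. -/
theorem sUnits_charpoly (k : Type*) [Field k] (τ : L ≃ₐ[K] L) :
    ((sUnitsEnd K L T τ).baseChange k).charpoly * (X - 1) =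
      ((torsEnd K L τ).baseChange k).charpoly *
        permCharpoly k (fun w : InfinitePlace L => τ⁻¹ • w) *
        permCharpoly k (primePerm K L T τ) := by
  rw [sUnits_charpoly_step, intUnits_charpoly, LinearMap.charpoly_baseChange
    (logLatticeEnd K L τ), LinearMap.charpoly_baseChange (ordLatticeEnd K L T τ),
    ordLattice_charpoly, permCharpoly_map, ← permCharpoly_map ℤ (algebraMap ℤ k)
      (fun w : InfinitePlace L => τ⁻¹ • w), ← logLattice_charpoly K L τ]
  rw [Polynomial.map_mul, Polynomial.map_sub, Polynomial.map_X, Polynomial.map_one]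
  ring

/-- The units version (`T = ∅` is not needed): `charpoly (k ⊗ τ|_U) * (X - 1) =
charpoly (k ⊗ τ|_μ) * permCharpoly(infinite places)`. -/
theorem intUnits_charpoly' (k : Type*) [Field k] (τ : L ≃ₐ[K] L) :
    ((intUnitsEnd K L τ).baseChange k).charpoly * (X - 1) =
      ((torsEnd K L τ).baseChange k).charpoly *
        permCharpoly k (fun w : InfinitePlace L => τ⁻¹ • w) := by
  rw [intUnits_charpoly, LinearMap.charpoly_baseChange (logLatticeEnd K L τ),
    ← permCharpoly_map ℤ (algebraMap ℤ k) (fun w : InfinitePlace L => τ⁻¹ • w),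
    ← logLattice_charpoly K L τ]
  rw [Polynomial.map_mul, Polynomial.map_sub, Polynomial.map_X, Polynomial.map_one]
  ring

end Fermat.Agent.S56.H614

end

end
-- ===== PACK-END S56/H614/UnitsCharpoly.lean

-- ===== PACK-BEGIN S55/KL/PUnboundedH707.lean
section




/-!
# S55 / layer KL, leaf KL-A3 (`LocalPUnboundedSpec`)   (helper707)

The `p`-part of the indices `[G_{ℚ_q} : V]` of the normal local levels `V ≤ V₀` is unbounded:

`localPUnbounded p q V₀ hV₀ m : ∃ V ∈ (localLevels q).levels, V.Normal ∧ V ≤ V₀ ∧ p ^ m ∣ V.index`.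

This is the statement `KL.LocalPUnboundedSpec` of helper53's `KL/Spec.lean` with
`PUnbounded (localLevels q) p V₀ (fun V => V.index)` unfolded (so that this file only depends on
files which are on main): `fun p _ q V₀ h => localPUnbounded p q V₀ h` has that type.

Proof: `V` = pull-back of `G_E`, `E` the normal closure of `F₀ · ℚ(ζ_{p^n})`, `n ≫ 0`, and
helper414's CYC-INF (`H414.exists_forall_pow_dvd_relIndex_primeLocal`: the local degree of
`ℚ(ζ_{p^n})` at `q` is divisible by `p ^ m`).
-/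

set_option autoImplicit false
set_option linter.style.haveILetI false

namespace Fermat.Agent.S55.KL.PUnboundedH707

open Fermat.Agent.S55.PT Fermat.Agent.S55.H414 ExtCitation

/-- the index of a pulled-back level is the local degree -/
theorem index_comap_fixingSubgroup {G : Type} [Group G] (r : G →* GQ)
    (F : IntermediateField ℚ (AlgebraicClosure ℚ)) :
    (F.fixingSubgroup.comap r).index = F.fixingSubgroup.relIndex r.range :=
  Subgroup.index_comap F.fixingSubgroup r

/-- General form: along ANY homomorphism `r : G → G_ℚ` for which the degrees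
`[r(G) : r(G) ∩ G_{ℚ(ζ_{p^n})}]` are `p`-adically unbounded. -/
theorem pullback_pUnbounded {G : Type} [Group G] (r : G →* GQ) (p : ℕ) [Fact p.Prime]
    (hcyc : ∀ k : ℕ, ∃ n : ℕ, p ^ k ∣ (cycloLevel (p ^ n)).fixingSubgroup.relIndex r.range)
    (V₀ : Subgroup G) (hV₀ : V₀ ∈ (pullbackLevels r).levels) (m : ℕ) :
    ∃ V : Subgroup G, V ∈ (pullbackLevels r).levels ∧ V.Normal ∧ V ≤ V₀ ∧ p ^ m ∣ V.index := by
  obtain ⟨F₀, hF₀, rfl⟩ := hV₀
  haveI := hF₀
  obtain ⟨n, hn⟩ := hcyc m
  haveI : FiniteDimensional ℚ (cycloLevel (p ^ n)) := by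
    unfold cycloLevel
    exact IntermediateField.adjoin.finiteDimensional
      ((AlgebraicClosure.isAlgebraic ℚ).isIntegral.isIntegral _)
  -- the level of `F₀ · ℚ(ζ_{p^n})`
  have hU : (F₀ ⊔ cycloLevel (p ^ n)).fixingSubgroup.comap r ∈ (pullbackLevels r).levels :=
    ⟨F₀ ⊔ cycloLevel (p ^ n), inferInstance, rfl⟩
  obtain ⟨V, hV, hVU, hVn⟩ := pullbackLevels_normal_cofinal724 r _ hU
  refine ⟨V, hV, hVn, ?_, ?_⟩
  · exact hVU.trans (Subgroup.comap_mono (IntermediateField.fixingSubgroup_antitone le_sup_left))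
  · have h1 : ((F₀ ⊔ cycloLevel (p ^ n)).fixingSubgroup.comap r).index ∣ V.index :=
      Subgroup.index_dvd_of_le hVU
    have h2 : (cycloLevel (p ^ n)).fixingSubgroup.relIndex r.range ∣
        (F₀ ⊔ cycloLevel (p ^ n)).fixingSubgroup.relIndex r.range :=
      relIndex_fixingSubgroup_dvd_of_le le_sup_right _
    rw [index_comap_fixingSubgroup] at h1
    exact hn.trans (h2.trans h1)

/-- **KL-A3** (`LocalPUnboundedSpec`, unfolded). -/
theorem localPUnbounded (p : ℕ) [Fact p.Prime] (q : Nat.Primes) (V₀ : Subgroup (Gl q))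
    (hV₀ : V₀ ∈ (localLevels q).levels) (m : ℕ) :
    ∃ V : Subgroup (Gl q), V ∈ (localLevels q).levels ∧ V.Normal ∧ V ≤ V₀ ∧ p ^ m ∣ V.index := by
  refine pullback_pUnbounded (rl q) p ?_ V₀ hV₀ m
  intro k
  obtain ⟨n₀, hn₀⟩ := exists_forall_pow_dvd_relIndex_primeLocal p q k
  exact ⟨n₀, hn₀ n₀ le_rfl⟩

end Fermat.Agent.S55.KL.PUnboundedH707

end
-- ===== PACK-END S55/KL/PUnboundedH707.lean

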