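import Mathlib
import Fermat.Agent.Pack.S56.E13L0
import Fermat.Agent.Pack.S56.E13L1
import Fermat.Agent.Pack.S56.E13L2
import Fermat.Agent.Pack.S56.E7L2
import Fermat.Agent.Pack.S56.E1L1
import Fermat.Agent.Pack.S56.E12L1
import Fermat.Agent.Pack.S56.E14L1
import Fermat.Agent.Pack.S56.E2L2
import Fermat.Agent.Pack.S56.E0L2
import Fermat.Agent.Pack.S56.E14L2
import Fermat.Agent.Pack.S56.E2L1
import Fermat.Agent.Pack.S56.E14L3
import Fermat.Agent.Pack.S56.E3L3
import Fermat.Agent.Pack.S56.E6L1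
import Fermat.Agent.Pack.S56.E4L2
import Fermat.Agent.Pack.S56.E11L2
import Fermat.Agent.Pack.S56.E9L3
import Fermat.Agent.Pack.S56.E14L0
import Fermat.Agent.Pack.S56.E12L2

-- ===== PACK-BEGIN S56/H656/FlatOCount.lean
section




/-!
# Row S56 — FLAT-O, assembly part S3 + (e) + (f) = COUNT (helper656)

`flatO_of : FlatOrdLineStatement → FlatUnitStatement → KumStatement → UnramHomStatement →
  FL.FlatOStatement`.

* `FlatOrdLineStatement` (what STRUCT S1 + S2 owes): a flat lift `ρ'` over `k[ε]` with cyclotomic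
  determinant of a `ρ̄` which is reducible on `D_P` is ordinary at `P` in the Prelude's sense
  (`GaloisRepAdic.IsOrdinaryAt`, at the place `P`): a `D_P`-stable line `L = k[ε] b₀` (`b` a basis)
  with trivial inertia action on `V/L`.
* (S3) `locFO_struct`: in the coordinates `ℓ₀ + ε ℓ₁` of a generator of `L`, the cocycle `c` is, after
  the coboundary of `corr`, upper triangular on `D_P` with unramified diagonal part.
* (e) `exists_unit_of_flat_line`: FU on the Hopf lattice of `ρ'` with `L` the line: every additive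
  function of `σ w - w` is peu ramifié on `H = {σ ∈ I_P : σ ζ = ζ}`.
* (f) COUNT: UNRHOM kills the diagonal part up to one class, KUM bounds the off-diagonal part,
  and the coboundary of the projector on the line removes one dimension when `H⁰(D_P, ad⁰) = 0`.

Nothing unproved in this file.
-/

set_option autoImplicit false

open IsLocalRing
open scoped TensorProduct

noncomputable section

namespace Fermat.Agent.S56.H656

open Fermat.Agent.S56 Fermat.Agent.S56.H716 Fermat.Agent.S19.H435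

/-- (STRUCT, steps S1 + S2 of the FLAT-O plan) a flat lift with cyclotomic determinant of a
residual representation which is reducible on `D_P` is ordinary at `P`. -/
def FlatOrdLineStatement : Prop :=
  ∀ (𝒪 : Type) [CommRing 𝒪] [IsDomain 𝒪] [IsDiscreteValuationRing 𝒪]
    [IsAdicComplete (maximalIdeal 𝒪) 𝒪] [Finite (ResidueField 𝒪)]
    (p : ℕ) (ρbar : ResidualGaloisRep (ResidueField 𝒪)) (S Smin : Finset ℕ),
    Hyp 𝒪 p ρbar S Smin → ∀ P : ValuationSubring _root_.Fermat.Agent.S56.Qb, P.LiesOverPrime p →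
      (∃ U : Submodule (ResidueField 𝒪) ρbar.V, U ≠ ⊥ ∧ U ≠ ⊤ ∧
        ∀ σ ∈ P.decompositionSubgroup ℚ, ∀ x ∈ U, ρbar.ρ σ x ∈ U) →
      ∀ (c : GQ → Module.End (ResidueField 𝒪) ρbar.V)
        (ρ' : GaloisRepAdic (DualNumber (ResidueField 𝒪))),
        IsAdCocycle ρbar c → IsLiftOf ρbar c ρ' → ρ'.DetIsCyclotomic p → ρ'.IsFlatAt p →
        ∃ L : Submodule (DualNumber (ResidueField 𝒪)) ρ'.V,
          (∃ b : Module.Basis (Fin 2) (DualNumber (ResidueField 𝒪)) ρ'.V,
            L = (DualNumber (ResidueField 𝒪)) ∙ b 0) ∧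
          (∀ σ ∈ P.decompositionSubgroup ℚ, ∀ v ∈ L, ρ'.ρ σ v ∈ L) ∧
          (∀ σ ∈ P.inertiaSubgroupIn ℚ, ∀ v : ρ'.V, ρ'.ρ σ v - v ∈ L)

/-! ## (e) peu ramifié from FU -/

section peu

variable {k : Type} [Field k]

theorem isCycExp_one_of_fix {p : ℕ} (hp : p.Prime) {ζ : _root_.Fermat.Agent.S56.Qb} (hζ : IsPrimitiveRoot ζ p) {σ : GQ}
    (hσ : σ ζ = ζ) : IsCycExp p σ 1 := by
  intro μ hμ
  haveI : NeZero p := ⟨hp.ne_zero⟩
  obtain ⟨i, -, rfl⟩ := hζ.eq_pow_of_pow_eq_one hμ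
  rw [map_pow, hσ, pow_one]

/-- In a lift with cyclotomic determinant over `k[ε]` (`p = 0`), `det ρ'(σ) = a`. -/
theorem det_eq_natCast_of_detIsCyclotomic {p : ℕ} {ρ' : GaloisRepAdic (DualNumber k)}
    (hdet : ρ'.DetIsCyclotomic p) {σ : GQ} {a : ℕ} (ha : IsCycExp p σ a) :
    LinearMap.det (ρ'.ρ σ) = (a : DualNumber k) := by
  have hbot := span_pow_one_eq_bot (k := k) hdet.1
  have := hdet.2 1 σ a (fun μ hμ => ha μ (by rwa [pow_one] at hμ))
  rw [hbot, Ideal.mem_bot, sub_eq_zero] at this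
  exact this

/-- The character of `D_P` on an ordinary line, on inertia. -/
theorem line_char_inertia {p : ℕ} {ρ' : GaloisRepAdic (DualNumber k)}
    (hdet : ρ'.DetIsCyclotomic p) {P : ValuationSubring _root_.Fermat.Agent.S56.Qb}
    {L : Submodule (DualNumber k) ρ'.V} {b : Module.Basis (Fin 2) (DualNumber k) ρ'.V}
    (hLb : L = (DualNumber k) ∙ b 0)
    (hD : ∀ σ ∈ P.decompositionSubgroup ℚ, ∀ v ∈ L, ρ'.ρ σ v ∈ L)
    (hI : ∀ σ ∈ P.inertiaSubgroupIn ℚ, ∀ v : ρ'.V, ρ'.ρ σ v - v ∈ L)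
    {σ : GQ} (hσ : σ ∈ P.inertiaSubgroupIn ℚ) {a : ℕ} (ha : IsCycExp p σ a) :
    ρ'.ρ σ (b 0) = (a : DualNumber k) • b 0 := by
  have hb0L : b 0 ∈ L := by rw [hLb]; exact Submodule.mem_span_singleton_self _
  obtain ⟨x, hx⟩ : ∃ x : DualNumber k, ρ'.ρ σ (b 0) = x • b 0 := by
    have := hD σ (mem_decomposition_of_mem_inertia hσ) (b 0) hb0L
    rw [hLb, Submodule.mem_span_singleton] at this
    obtain ⟨x, hx⟩ := this
    exact ⟨x, hx.symm⟩
  obtain ⟨t₁, ht₁⟩ : ∃ t₁ : DualNumber k, ρ'.ρ σ (b 1) - b 1 = t₁ • b 0 := by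
    have := hI σ hσ (b 1)
    rw [hLb, Submodule.mem_span_singleton] at this
    obtain ⟨t, ht⟩ := this
    exact ⟨t, ht.symm⟩
  have hb1 : ρ'.ρ σ (b 1) = b 1 + t₁ • b 0 := by
    rw [← ht₁]; abel
  have hdetx : LinearMap.det (ρ'.ρ σ) = x := by
    rw [← LinearMap.det_toMatrix b, Matrix.det_fin_two]
    simp only [LinearMap.toMatrix_apply, hx, hb1, map_smul, map_add,
      Module.Basis.repr_self, Finsupp.smul_apply, Finsupp.add_apply, smul_eq_mul]
    simp
  rw [hx, ← hdetx, det_eq_natCast_of_detIsCyclotomic hdet ha]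

theorem finite_dualNumber [Finite k] : Finite (DualNumber k) :=
  Finite.of_equiv (k × k) (Equiv.refl _)

/-- The submodule `⊥ • ⊤ = ⊥` of the Prelude's `IsFlatAt` at the zero ideal. -/
abbrev fuLevelZero (ρ' : GaloisRepAdic (DualNumber k)) : Submodule (DualNumber k) ρ'.V :=
  (⊥ : Ideal (DualNumber k)) • (⊤ : Submodule (DualNumber k) ρ'.V)

/-- **(e)** For a flat lift `ρ'` with an ordinary line at `P`, every additive function of
`ρ'(σ) w - w` is, on `H = {σ ∈ I_P : σ ζ = ζ}`, the Kummer character of a `P`-unit. -/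
theorem exists_unit_of_flat_line [Finite k] {p : ℕ} [Fact p.Prime]
    (hFU : Fermat.Agent.S56.H906.FlatUnitStatement)
    (ρ' : GaloisRepAdic (DualNumber k)) (hdet : ρ'.DetIsCyclotomic p) (hflat : ρ'.IsFlatAt p)
    (P : ValuationSubring _root_.Fermat.Agent.S56.Qb) (hP : P.LiesOverPrime p)
    {L : Submodule (DualNumber k) ρ'.V} {b : Module.Basis (Fin 2) (DualNumber k) ρ'.V}
    (hLb : L = (DualNumber k) ∙ b 0)
    (hD : ∀ σ ∈ P.decompositionSubgroup ℚ, ∀ v ∈ L, ρ'.ρ σ v ∈ L)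
    (hI : ∀ σ ∈ P.inertiaSubgroupIn ℚ, ∀ v : ρ'.V, ρ'.ρ σ v - v ∈ L)
    {ζ : _root_.Fermat.Agent.S56.Qb} (hζ : IsPrimitiveRoot ζ p) (Ξ : ρ'.V →+ ZMod p) (w : ρ'.V) :
    ∃ B : _root_.Fermat.Agent.S56.Qb, P.valuation B = 1 ∧ ∀ σ ∈ P.inertiaSubgroupIn ℚ, σ ζ = ζ →
      σ B = ζ ^ (Ξ (ρ'.ρ σ w - w)).val * B := by
  classical
  have hp : p.Prime := Fact.out
  haveI : Finite (DualNumber k) := finite_dualNumber
  haveI : Finite ρ'.V := Module.finite_of_finite (DualNumber k)
  haveI : Finite (ρ'.V ⧸ fuLevelZero ρ') :=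
    Finite.of_surjective _ (Submodule.Quotient.mk_surjective (fuLevelZero ρ'))
  -- the Hopf lattice on `M = ρ'.V / (⊥ • ⊤)`
  have hfinq : Finite (DualNumber k ⧸ (⊥ : Ideal (DualNumber k))) :=
    Finite.of_surjective _ Ideal.Quotient.mk_surjective
  have hbot : fuLevelZero ρ' = ⊥ := Submodule.bot_smul _
  have hmodel : Fermat.Agent.S19.HopfModel p (ρ'.V ⧸ fuLevelZero ρ')
      (fun σ => ρ'.levelAction ⊥ σ) := hflat.2 ⊥ hfinq
  obtain ⟨Λ, hΛ⟩ := exists_isHopfLattice_of_hopfModel hmodel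
  let q' : (ρ'.V ⧸ fuLevelZero ρ') ≃ₗ[DualNumber k] ρ'.V :=
    Submodule.quotEquivOfEqBot (fuLevelZero ρ') hbot
  have hq' : ∀ v : ρ'.V, q' (Submodule.Quotient.mk v) = v := fun v =>
    Submodule.quotEquivOfEqBot_apply_mk (fuLevelZero ρ') hbot v
  have hact : ∀ (σ : GQ) (v : ρ'.V),
      ρ'.levelAction ⊥ σ (Submodule.Quotient.mk v) = Submodule.Quotient.mk (ρ'.ρ σ v) :=
    fun σ v => rfl
  have hpk : (p : DualNumber k) = 0 := natCast_dual_eq_zero hdet.1
  have hkill : ∀ x : ρ'.V ⧸ fuLevelZero ρ', p • x = 0 := by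
    intro x
    rw [← Nat.cast_smul_eq_nsmul (DualNumber k), hpk, zero_smul]
  have hb0L : b 0 ∈ L := by rw [hLb]; exact Submodule.mem_span_singleton_self _
  -- the line in `M`
  let LM : AddSubgroup (ρ'.V ⧸ fuLevelZero ρ') := (L.map (fuLevelZero ρ').mkQ).toAddSubgroup
  have hfix : ∀ σ ∈ P.inertiaSubgroupIn ℚ, σ ζ = ζ → ∀ t ∈ LM,
      (fun σ => ρ'.levelAction ⊥ σ) σ t = t := by
    rintro σ hσ hσζ t ⟨v, hv, rfl⟩
    have hv' : v ∈ (DualNumber k) ∙ b 0 := by rw [← hLb]; exact hv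
    obtain ⟨r, rfl⟩ := Submodule.mem_span_singleton.mp hv'
    show ρ'.levelAction ⊥ σ (Submodule.Quotient.mk (r • b 0)) = Submodule.Quotient.mk (r • b 0)
    rw [hact, map_smul, line_char_inertia hdet hLb hD hI hσ (isCycExp_one_of_fix hp hζ hσζ),
      Nat.cast_one, one_smul]
  have hdiff : ∀ σ ∈ P.inertiaSubgroupIn ℚ, σ ζ = ζ → ∀ y : ρ'.V ⧸ fuLevelZero ρ',
      (fun σ => ρ'.levelAction ⊥ σ) σ y - y ∈ LM := by
    intro σ hσ _ y
    obtain ⟨v, rfl⟩ := Submodule.Quotient.mk_surjective (fuLevelZero ρ') y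
    refine ⟨ρ'.ρ σ v - v, hI σ hσ v, ?_⟩
    show (fuLevelZero ρ').mkQ (ρ'.ρ σ v - v) =
      ρ'.levelAction ⊥ σ (Submodule.Quotient.mk v) - Submodule.Quotient.mk v
    rw [hact]
    rfl
  obtain ⟨B, hB1, hB⟩ := hFU p (ρ'.V ⧸ fuLevelZero ρ') (fun σ => ρ'.levelAction ⊥ σ) Λ hΛ hkill
    P hP ζ hζ LM hfix hdiff (Ξ.comp (q' : (ρ'.V ⧸ fuLevelZero ρ') →+ ρ'.V))
    (Submodule.Quotient.mk w)
  refine ⟨B, hB1, fun σ hσ hσζ => ?_⟩
  have := hB σ hσ hσζ
  rw [this]
  congr 3

end peu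

/-! ## (S3) the structure of a flat-ordinary lift -/

section struct

variable {k : Type} [Field k] (ρbar : ResidualGaloisRep k) (p : ℕ) (P : ValuationSubring _root_.Fermat.Agent.S56.Qb)

/-- The `c`-independent part of the flat-ordinary data: `ℓ₀` spans a `D_P`-stable line on which
inertia acts by the cyclotomic character, with trivial inertia action on the quotient. -/
def IsFOLine (ℓ₀ : ρbar.V) : Prop :=
  ℓ₀ ≠ 0 ∧ ∀ σ ∈ P.decompositionSubgroup ℚ, ∃ x₀ : k, ρbar.ρ σ ℓ₀ = x₀ • ℓ₀ ∧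
    (σ ∈ P.inertiaSubgroupIn ℚ →
      (∀ a : ℕ, IsCycExp p σ a → x₀ = (a : k)) ∧ ∀ v : ρbar.V, ∃ s : k, ρbar.ρ σ v - v = s • ℓ₀)

/-- The flat-ordinary data of a cocycle `c`: `ℓ₀ + ε ℓ₁` generates a `D_P`-stable `k[ε]`-line in
the lift, with character `x₀ + ε x₁`, `x₁ = 0` on inertia. -/
def IsFOData (c : GQ → Module.End k ρbar.V) (ℓ₀ ℓ₁ : ρbar.V) : Prop :=
  ℓ₀ ≠ 0 ∧ ∀ σ ∈ P.decompositionSubgroup ℚ, ∃ x₀ x₁ : k, ρbar.ρ σ ℓ₀ = x₀ • ℓ₀ ∧
    ρbar.ρ σ ℓ₁ + c σ (ρbar.ρ σ ℓ₀) = x₀ • ℓ₁ + x₁ • ℓ₀ ∧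
    (σ ∈ P.inertiaSubgroupIn ℚ → x₁ = 0 ∧
      (∀ a : ℕ, IsCycExp p σ a → x₀ = (a : k)) ∧ ∀ v : ρbar.V, ∃ s : k, ρbar.ρ σ v - v = s • ℓ₀)

/-- Every additive function of `σ w - w` (in the lift of `c`) is peu ramifié on
`{σ ∈ I_P : σ ζ = ζ}`. -/
def IsPeuLift (c : GQ → Module.End k ρbar.V) : Prop :=
  ∀ ζ : _root_.Fermat.Agent.S56.Qb, IsPrimitiveRoot ζ p → ∀ (Ξ : (DualNumber k ⊗[k] ρbar.V) →+ ZMod p)
    (w : DualNumber k ⊗[k] ρbar.V),
    ∃ B : _root_.Fermat.Agent.S56.Qb, P.valuation B = 1 ∧ ∀ σ ∈ P.inertiaSubgroupIn ℚ, σ ζ = ζ →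
      σ B = ζ ^ (Ξ (liftEnd ρbar c σ w - w)).val * B

variable {ρbar p P}

theorem IsFOData.isFOLine {c : GQ → Module.End k ρbar.V} {ℓ₀ ℓ₁ : ρbar.V}
    (h : IsFOData ρbar p P c ℓ₀ ℓ₁) : IsFOLine ρbar p P ℓ₀ := by
  refine ⟨h.1, fun σ hσ => ?_⟩
  obtain ⟨x₀, x₁, h1, -, h3⟩ := h.2 σ hσ
  exact ⟨x₀, h1, fun hI => (h3 hI).2⟩

theorem IsFOData.smul {c : GQ → Module.End k ρbar.V} {ℓ₀ ℓ₁ : ρbar.V}
    (h : IsFOData ρbar p P c ℓ₀ ℓ₁) {r : k} (hr : r ≠ 0) :
    IsFOData ρbar p P c (r • ℓ₀) (r • ℓ₁) := by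
  refine ⟨smul_ne_zero hr h.1, fun σ hσ => ?_⟩
  obtain ⟨x₀, x₁, h1, h2, h3⟩ := h.2 σ hσ
  refine ⟨x₀, x₁, ?_, ?_, fun hI => ?_⟩
  · rw [map_smul, h1, smul_comm]
  · rw [map_smul, map_smul, map_smul, ← smul_add, h2, smul_add, smul_comm r x₀, smul_comm r x₁]
  · obtain ⟨hx1, hcyc, hv⟩ := h3 hI
    refine ⟨hx1, hcyc, fun v => ?_⟩
    obtain ⟨s, hs⟩ := hv v
    exact ⟨s * r⁻¹, by rw [hs, smul_smul, mul_assoc, inv_mul_cancel₀ hr, mul_one]⟩

/-- The flat-ordinary line is unique (`p` odd). -/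
theorem IsFOLine.unique [CharP k p] (hp : p.Prime) (hp2 : p ≠ 2) (hP : P.LiesOverPrime p)
    {ℓ₀ ℓ₀' : ρbar.V} (h : IsFOLine ρbar p P ℓ₀) (h' : IsFOLine ρbar p P ℓ₀') :
    ∃ r : k, r ≠ 0 ∧ ℓ₀' = r • ℓ₀ := by
  obtain ⟨σ, hσI, a, ha, ha1⟩ := exists_inertia_isCycExp_ne_one hp hp2 k P hP
  have hσD := mem_decomposition_of_mem_inertia hσI
  obtain ⟨x₀, -, hI⟩ := h.2 σ hσD
  obtain ⟨x₀', hx', hI'⟩ := h'.2 σ hσD
  obtain ⟨s, hs⟩ := (hI hσI).2 ℓ₀'
  rw [hx', (hI' hσI).1 a ha] at hs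
  have ha1' : (a : k) - 1 ≠ 0 := sub_ne_zero.mpr ha1
  have hs' : ((a : k) - 1) • ℓ₀' = s • ℓ₀ := by rw [sub_smul, one_smul]; exact hs
  have hℓ : ℓ₀' = (((a : k) - 1)⁻¹ * s) • ℓ₀ := by
    rw [mul_smul, ← hs', smul_smul, inv_mul_cancel₀ ha1', one_smul]
  refine ⟨((a : k) - 1)⁻¹ * s, ?_, hℓ⟩
  intro h0
  rw [h0, zero_smul] at hℓ
  exact h'.1 hℓ

/-- **(S3)** the flat-ordinary data from an ordinary line of a lift. -/
theorem locFO_struct (hp : p.Prime) (c : GQ → Module.End k ρbar.V)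
    (ρ' : GaloisRepAdic (DualNumber k))
    (hlift : IsLiftOf ρbar c ρ') (hdet : ρ'.DetIsCyclotomic p)
    {L : Submodule (DualNumber k) ρ'.V} {b : Module.Basis (Fin 2) (DualNumber k) ρ'.V}
    (hLb : L = (DualNumber k) ∙ b 0)
    (hD : ∀ σ ∈ P.decompositionSubgroup ℚ, ∀ v ∈ L, ρ'.ρ σ v ∈ L)
    (hI : ∀ σ ∈ P.inertiaSubgroupIn ℚ, ∀ v : ρ'.V, ρ'.ρ σ v - v ∈ L) :
    ∃ ℓ₀ ℓ₁ : ρbar.V, IsFOData ρbar p P c ℓ₀ ℓ₁ := by
  classical
  obtain ⟨e, he⟩ := hlift
  have hb0L : b 0 ∈ L := by rw [hLb]; exact Submodule.mem_span_singleton_self _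
  refine ⟨dPi0 (e (b 0)), dPi1 (e (b 0)), ?_, ?_⟩
  · -- `ℓ₀ ≠ 0`
    intro h0
    have hε : (DualNumber.eps : DualNumber k) • e (b 0) = 0 := by
      apply coord_ext
      · rw [dPi0_smul, h0, smul_zero, map_zero]
      · rw [dPi1_smul, h0, DualNumber.fst_eps, zero_smul, smul_zero, add_zero, map_zero]
    rw [← map_smul, LinearEquiv.map_eq_zero_iff] at hε
    have h1 := congrArg (fun f => b.repr f 0) hε
    simp only [map_smul, Module.Basis.repr_self, Finsupp.smul_apply, Finsupp.single_eq_same,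
      smul_eq_mul, mul_one, map_zero, Finsupp.zero_apply] at h1
    have h2 := congrArg TrivSqZeroExt.snd h1
    simp at h2
  · intro σ hσ
    obtain ⟨x, hx⟩ : ∃ x : DualNumber k, ρ'.ρ σ (b 0) = x • b 0 := by
      have := hD σ hσ (b 0) hb0L
      rw [hLb, Submodule.mem_span_singleton] at this
      obtain ⟨x, hx⟩ := this
      exact ⟨x, hx.symm⟩
    have hA : liftEnd ρbar c σ (e (b 0)) = x • e (b 0) := by
      rw [← he, hx, map_smul]
    refine ⟨TrivSqZeroExt.fst x, TrivSqZeroExt.snd x, ?_, ?_, fun hσI => ?_⟩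
    · have := congrArg dPi0 hA
      rw [dPi0_liftEnd, dPi0_smul] at this
      exact this
    · have := congrArg dPi1 hA
      rw [dPi1_liftEnd, dPi1_smul] at this
      exact this
    · have hxa : ∀ a : ℕ, IsCycExp p σ a → x = (a : DualNumber k) := by
        intro a ha
        have h1 := line_char_inertia hdet hLb hD hI hσI ha
        rw [hx] at h1
        have h2 := congrArg (fun f => b.repr f 0) h1
        simpa using h2
      obtain ⟨a₀, ha₀⟩ := Fermat.Agent.S56.H966.exists_isCycExp p hp.ne_zero σ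
      refine ⟨?_, fun a ha => ?_, fun v => ?_⟩
      · rw [hxa a₀ ha₀, TrivSqZeroExt.snd_natCast]
      · rw [hxa a ha, TrivSqZeroExt.fst_natCast]
      · have hv := hI σ hσI (e.symm (dIota v))
        rw [hLb, Submodule.mem_span_singleton] at hv
        obtain ⟨t, ht⟩ := hv
        have hB : liftEnd ρbar c σ (dIota v) - dIota v = t • e (b 0) := by
          have := congrArg e ht
          rw [map_smul, map_sub, he, LinearEquiv.apply_symm_apply] at this
          exact this.symm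
        refine ⟨TrivSqZeroExt.fst t, ?_⟩
        have := congrArg dPi0 hB
        rw [map_sub, dPi0_liftEnd, dPi0_smul, dPi0_dIota] at this
        exact this

/-- **(e)** in cocycle language: the lift of a flat-ordinary cocycle is peu ramifié. -/
theorem isPeuLift_of_flat [Finite k] [Fact p.Prime]
    (hFU : Fermat.Agent.S56.H906.FlatUnitStatement)
    (c : GQ → Module.End k ρbar.V) (ρ' : GaloisRepAdic (DualNumber k))
    (hlift : IsLiftOf ρbar c ρ') (hdet : ρ'.DetIsCyclotomic p) (hflat : ρ'.IsFlatAt p)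
    (hP : P.LiesOverPrime p)
    {L : Submodule (DualNumber k) ρ'.V} {b : Module.Basis (Fin 2) (DualNumber k) ρ'.V}
    (hLb : L = (DualNumber k) ∙ b 0)
    (hD : ∀ σ ∈ P.decompositionSubgroup ℚ, ∀ v ∈ L, ρ'.ρ σ v ∈ L)
    (hI : ∀ σ ∈ P.inertiaSubgroupIn ℚ, ∀ v : ρ'.V, ρ'.ρ σ v - v ∈ L) :
    IsPeuLift ρbar p P c := by
  obtain ⟨e, he⟩ := hlift
  intro ζ hζ Ξ w
  obtain ⟨B, hB1, hB⟩ := exists_unit_of_flat_line hFU ρ' hdet hflat P hP hLb hD hI hζ
    (Ξ.comp (e : ρ'.V →+ (DualNumber k ⊗[k] ρbar.V))) (e.symm w)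
  refine ⟨B, hB1, fun σ hσ hσζ => ?_⟩
  rw [hB σ hσ hσζ]
  congr 3
  show Ξ (e (ρ'.ρ σ (e.symm w) - e.symm w)) = _
  rw [map_sub, he, LinearEquiv.apply_symm_apply]

end struct

/-! ## Linear algebra: conjugation by a triangular matrix -/

section tri

variable {k : Type} [Field k] {V : Type} [AddCommGroup V] [Module k V]
  (B : Module.Basis (Fin 2) k V) (R Rinv C : Module.End k V)

theorem tri_coord1 {x₀ : k} (h1 : R (B 0) = x₀ • B 0) (v : V) :
    B.coord 1 (R v) = B.coord 1 (R (B 1)) * B.coord 1 v := by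
  conv_lhs => rw [expand B v]
  rw [map_add, map_smul, map_smul, h1, map_add, map_smul, map_smul, map_smul, coord1_self0,
    smul_eq_mul, smul_eq_mul, smul_eq_mul, mul_zero, mul_zero, zero_add, mul_comm]

theorem tri_coord1_ne_zero (hR : R * Rinv = 1) {x₀ : k} (h1 : R (B 0) = x₀ • B 0) :
    B.coord 1 (R (B 1)) ≠ 0 := by
  intro h0
  have h := tri_coord1 B R h1 (Rinv (B 1))
  rw [apply_inv_apply' R Rinv hR, coord1_self, h0, zero_mul] at h
  exact one_ne_zero h

theorem tri_coord1_inv (hR : R * Rinv = 1) {x₀ : k} (h1 : R (B 0) = x₀ • B 0) (v : V) :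
    B.coord 1 (Rinv v) = (B.coord 1 (R (B 1)))⁻¹ * B.coord 1 v := by
  have h := tri_coord1 B R h1 (Rinv v)
  rw [apply_inv_apply' R Rinv hR] at h
  rw [h, ← mul_assoc, inv_mul_cancel₀ (tri_coord1_ne_zero B R Rinv hR h1), one_mul]

theorem tri_x0_ne_zero (hR' : Rinv * R = 1) {x₀ : k} (h1 : R (B 0) = x₀ • B 0) : x₀ ≠ 0 := by
  intro h0
  have h := inv_apply_apply' R Rinv hR' (B 0)
  rw [h1, h0, zero_smul, map_zero] at h
  exact basis0_ne_zero B h.symm

theorem tri_conj_nil0 (hR : R * Rinv = 1) {x₀ : k} (h1 : R (B 0) = x₀ • B 0) :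
    R * nil0 B * Rinv = (x₀ * (B.coord 1 (R (B 1)))⁻¹) • nil0 B := by
  apply LinearMap.ext
  intro u
  rw [Module.End.mul_apply, Module.End.mul_apply, nil0_apply, map_smul, h1,
    tri_coord1_inv B R Rinv hR h1, LinearMap.smul_apply, nil0_apply, smul_smul, smul_smul]
  congr 1
  ring

theorem trace_eq_coords [Module.Finite k V] :
    LinearMap.trace k V C = B.coord 0 (C (B 0)) + B.coord 1 (C (B 1)) := by
  rw [LinearMap.trace_eq_matrix_trace k B C, Matrix.trace_fin_two]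
  simp only [LinearMap.toMatrix_apply, Module.Basis.coord_apply]

/-- A trace-zero endomorphism killing `B 0` is a multiple of `n₀`. -/
theorem eq_smul_nil0_of_trace [Module.Finite k V] (h0 : C (B 0) = 0)
    (htr : LinearMap.trace k V C = 0) : C = B.coord 0 (C (B 1)) • nil0 B := by
  have h11 : B.coord 1 (C (B 1)) = 0 := by
    rw [trace_eq_coords B C, h0, map_zero, zero_add] at htr
    exact htr
  have hB1 : C (B 1) = B.coord 0 (C (B 1)) • B 0 := by
    conv_lhs => rw [expand B (C (B 1))]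
    rw [h11, zero_smul, add_zero]
  refine eq_smul_nil0 B C h0 fun u => ⟨B.coord 1 u * B.coord 0 (C (B 1)), ?_⟩
  have hu : C u = B.coord 1 u • C (B 1) := by
    conv_lhs => rw [expand B u]
    rw [map_add, map_smul, map_smul, h0, smul_zero, zero_add]
  rw [hu]
  conv_lhs => rw [hB1]
  rw [smul_smul]

/-- The value at `B 0` of a conjugate. -/
theorem tri_conj_basis0 (hR' : Rinv * R = 1) {x₀ α : k} (h1 : R (B 0) = x₀ • B 0)
    (hC : C (B 0) = α • B 0) : (R * C * Rinv) (B 0) = α • B 0 := by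
  have hx₀ := tri_x0_ne_zero B R Rinv hR' h1
  rw [Module.End.mul_apply, Module.End.mul_apply, inv_basis0 B R Rinv hR' x₀ h1 hx₀, map_smul,
    hC, map_smul, map_smul, h1, smul_smul, smul_smul]
  congr 1
  field_simp

/-- The corrected cocycle `c + ∂(corr)` at `B 0`. -/
theorem fo_cprime_basis0 (hR' : Rinv * R = 1) {ℓ₁ : V} {x₀ x₁ : k} (h1 : R (B 0) = x₀ • B 0)
    (h2 : R ℓ₁ + C (R (B 0)) = x₀ • ℓ₁ + x₁ • B 0) :
    (C + (R * corr B ℓ₁ * Rinv - corr B ℓ₁)) (B 0) = (x₁ * x₀⁻¹) • B 0 := by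
  have hx₀ := tri_x0_ne_zero B R Rinv hR' h1
  have hCB : C (B 0) = ℓ₁ + (x₁ * x₀⁻¹) • B 0 - x₀⁻¹ • R ℓ₁ := by
    rw [h1, map_smul] at h2
    have h3 : x₀ • C (B 0) = x₀ • ℓ₁ + x₁ • B 0 - R ℓ₁ := by rw [← h2]; abel
    calc C (B 0) = x₀⁻¹ • (x₀ • C (B 0)) := by rw [smul_smul, inv_mul_cancel₀ hx₀, one_smul]
      _ = ℓ₁ + (x₁ * x₀⁻¹) • B 0 - x₀⁻¹ • R ℓ₁ := by
        rw [h3, smul_sub, smul_add, smul_smul, smul_smul, inv_mul_cancel₀ hx₀, one_smul,
          mul_comm]
  rw [LinearMap.add_apply, LinearMap.sub_apply, Module.End.mul_apply, Module.End.mul_apply,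
    inv_basis0 B R Rinv hR' x₀ h1 hx₀, corr_apply, corr_apply, coord0_self, one_smul,
    (B.coord 0).map_smul, coord0_self, smul_eq_mul, mul_one, map_smul, hCB]
  abel

theorem tri_inv_basis1 (hR' : Rinv * R = 1) {x₀ u : k} (h1 : R (B 0) = x₀ • B 0)
    (h3 : R (B 1) - B 1 = u • B 0) : Rinv (B 1) = B 1 - (u * x₀⁻¹) • B 0 := by
  have hx₀ := tri_x0_ne_zero B R Rinv hR' h1
  have hRB1 : R (B 1) = B 1 + u • B 0 := by rw [← h3]; abel
  have h := inv_apply_apply' R Rinv hR' (B 1)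
  rw [hRB1, map_add, map_smul, inv_basis0 B R Rinv hR' x₀ h1 hx₀, smul_smul] at h
  exact eq_sub_of_add_eq h

/-- The corrected cocycle at `B 1`, on inertia. -/
theorem fo_cprime_basis1 (hR' : Rinv * R = 1) {ℓ₁ : V} {x₀ u : k} (h1 : R (B 0) = x₀ • B 0)
    (h2 : R ℓ₁ + C (R (B 0)) = x₀ • ℓ₁) (h3 : R (B 1) - B 1 = u • B 0) :
    (C + (R * corr B ℓ₁ * Rinv - corr B ℓ₁)) (B 1) = C (R (B 1)) - u • ℓ₁ := by
  have hx₀ := tri_x0_ne_zero B R Rinv hR' h1
  have hRB1 : R (B 1) = B 1 + u • B 0 := by rw [← h3]; abel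
  have hCB : C (B 0) = ℓ₁ - x₀⁻¹ • R ℓ₁ := by
    rw [h1, map_smul] at h2
    have h4 : x₀ • C (B 0) = x₀ • ℓ₁ - R ℓ₁ := by rw [← h2]; abel
    calc C (B 0) = x₀⁻¹ • (x₀ • C (B 0)) := by rw [smul_smul, inv_mul_cancel₀ hx₀, one_smul]
      _ = ℓ₁ - x₀⁻¹ • R ℓ₁ := by
        rw [h4, smul_sub, smul_smul, inv_mul_cancel₀ hx₀, one_smul]
  rw [LinearMap.add_apply, LinearMap.sub_apply, Module.End.mul_apply, Module.End.mul_apply,
    tri_inv_basis1 B R Rinv hR' h1 h3, corr_apply, corr_apply, map_sub, (B.coord 0).map_smul,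
    coord0_self1, coord0_self, zero_smul, sub_zero, smul_eq_mul, mul_one, zero_sub, neg_smul,
    map_neg, map_smul, hRB1, map_add, map_smul, hCB, smul_sub, smul_smul]
  abel

/-- The coboundary of the projector at `B 1`. -/
theorem fo_conj_proj0_basis1 (hR' : Rinv * R = 1) {x₀ u : k} (h1 : R (B 0) = x₀ • B 0)
    (h3 : R (B 1) - B 1 = u • B 0) :
    (R * proj0 B * Rinv - proj0 B) (B 1) = (-u) • B 0 := by
  have hx₀ := tri_x0_ne_zero B R Rinv hR' h1
  rw [LinearMap.sub_apply, Module.End.mul_apply, Module.End.mul_apply,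
    tri_inv_basis1 B R Rinv hR' h1 h3, proj0_apply, proj0_apply, map_sub, (B.coord 0).map_smul,
    coord0_self1, coord0_self, zero_smul, sub_zero, smul_eq_mul, mul_one, zero_sub, map_smul,
    h1, smul_smul, neg_mul, mul_assoc, inv_mul_cancel₀ hx₀, mul_one]

end tri

/-! ## Peu ramifié functions -/

section peuclosure

variable {k : Type} [Field k] {p : ℕ} [Fact p.Prime] {P : ValuationSubring _root_.Fermat.Agent.S56.Qb}

theorem pow_val_add {ζ : _root_.Fermat.Agent.S56.Qb} (hζ : ζ ^ p = 1) (a b : ZMod p) :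
    ζ ^ (a + b).val = ζ ^ a.val * ζ ^ b.val := by
  rw [ZMod.val_add, ← pow_add, ← pow_eq_pow_mod _ hζ]

theorem isPeu_zero : Fermat.Agent.S56.H906.IsPeu p P (fun _ : GQ => (0 : k)) := by
  intro ζ _ ℓ
  refine ⟨1, Valuation.map_one _, fun σ _ _ => ?_⟩
  simp

theorem isPeu_add {c₁ c₂ : GQ → k} (h₁ : Fermat.Agent.S56.H906.IsPeu p P c₁)
    (h₂ : Fermat.Agent.S56.H906.IsPeu p P c₂) :
    Fermat.Agent.S56.H906.IsPeu p P (fun σ => c₁ σ + c₂ σ) := by
  intro ζ hζ ℓ
  obtain ⟨B₁, hB₁, h1⟩ := h₁ ζ hζ ℓ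
  obtain ⟨B₂, hB₂, h2⟩ := h₂ ζ hζ ℓ
  refine ⟨B₁ * B₂, by rw [Valuation.map_mul, hB₁, hB₂, one_mul], fun σ hσ hσζ => ?_⟩
  rw [map_mul, h1 σ hσ hσζ, h2 σ hσ hσζ, map_add, pow_val_add hζ.pow_eq_one]
  ring

theorem isPeu_smul {c : GQ → k} (h : Fermat.Agent.S56.H906.IsPeu p P c) (r : k) :
    Fermat.Agent.S56.H906.IsPeu p P (fun σ => r * c σ) := by
  intro ζ hζ ℓ
  obtain ⟨B, hB, h1⟩ := h ζ hζ (ℓ.comp (AddMonoidHom.mulLeft r))
  exact ⟨B, hB, fun σ hσ hσζ => h1 σ hσ hσζ⟩

theorem isPeu_congr {c₁ c₂ : GQ → k} (h : Fermat.Agent.S56.H906.IsPeu p P c₁)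
    (heq : ∀ σ ∈ P.inertiaSubgroupIn ℚ, c₂ σ = c₁ σ) :
    Fermat.Agent.S56.H906.IsPeu p P c₂ := by
  intro ζ hζ ℓ
  obtain ⟨B, hB, h1⟩ := h ζ hζ ℓ
  exact ⟨B, hB, fun σ hσ hσζ => by rw [heq σ hσ]; exact h1 σ hσ hσζ⟩

end peuclosure

/-! ## More cocycles -/

section morecoc

variable {k : Type} [Field k] {ρbar : ResidualGaloisRep k}

theorem isAdCocycle_zero' : IsAdCocycle ρbar (fun _ => (0 : Module.End k ρbar.V)) where
  trace_eq_zero _ := map_zero _
  map_mul σ τ := by simp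
  level := ⟨⊥, inferInstance, fun _ _ _ => rfl⟩

theorem isAdCocycle_smul' {c : GQ → Module.End k ρbar.V} (h : IsAdCocycle ρbar c) (r : k) :
    IsAdCocycle ρbar (fun σ => r • c σ) where
  trace_eq_zero σ := by rw [map_smul, h.trace_eq_zero, smul_zero]
  map_mul σ τ := by
    rw [h.map_mul, smul_add, mul_smul_comm, smul_mul_assoc]
  level := by
    obtain ⟨L, hL, h1⟩ := h.level
    exact ⟨L, hL, fun σ τ hτ => by rw [h1 σ τ hτ]⟩

end morecoc

/-! ## (f) the count -/

section count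

variable {k : Type} [Field k] {ρbar : ResidualGaloisRep k} {p : ℕ} {P : ValuationSubring _root_.Fermat.Agent.S56.Qb}
  (B : Module.Basis (Fin 2) k ρbar.V)

/-- The character `χ₁ χ₂⁻¹` of `D_P` on `Hom(V/L, L)`. -/
def foChar (σ : GQ) : k := B.coord 0 (ρbar.ρ σ (B 0)) * (B.coord 1 (ρbar.ρ σ (B 1)))⁻¹

variable {B}

theorem fo_rho_basis0 (hline : IsFOLine ρbar p P (B 0)) {σ : GQ}
    (hσ : σ ∈ P.decompositionSubgroup ℚ) :
    ρbar.ρ σ (B 0) = B.coord 0 (ρbar.ρ σ (B 0)) • B 0 := by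
  obtain ⟨x₀, hx, -⟩ := hline.2 σ hσ
  rw [hx, map_smul, coord0_self, smul_eq_mul, mul_one]

theorem fo_conj_nil0 (hline : IsFOLine ρbar p P (B 0)) {σ : GQ}
    (hσ : σ ∈ P.decompositionSubgroup ℚ) :
    ρbar.ρ σ * nil0 B * ρbar.ρ σ⁻¹ = foChar B σ • nil0 B :=
  tri_conj_nil0 B (ρbar.ρ σ) (ρbar.ρ σ⁻¹) (rho_mul_inv' ρbar σ) (fo_rho_basis0 hline hσ)

theorem fo_cob_smul_nil0 (hline : IsFOLine ρbar p P (B 0)) {σ : GQ}
    (hσ : σ ∈ P.decompositionSubgroup ℚ) (m : k) :
    ρbar.ρ σ * (m • nil0 B) * ρbar.ρ σ⁻¹ - m • nil0 B = ((foChar B σ - 1) * m) • nil0 B := by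
  rw [mul_smul_comm, smul_mul_assoc, fo_conj_nil0 hline hσ, smul_smul, ← sub_smul]
  congr 1
  ring

theorem foChar_isOrdChar (hline : IsFOLine ρbar p P (B 0)) :
    Fermat.Agent.S56.H906.IsOrdChar p P (foChar B) where
  map_one := by
    unfold foChar
    rw [map_one, Module.End.one_apply, Module.End.one_apply, coord0_self, coord1_self, inv_one,
      mul_one]
  map_mul σ hσ τ hτ := by
    unfold foChar
    have h1 : B.coord 0 (ρbar.ρ (σ * τ) (B 0)) =
        B.coord 0 (ρbar.ρ σ (B 0)) * B.coord 0 (ρbar.ρ τ (B 0)) := by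
      rw [map_mul, Module.End.mul_apply]
      conv_lhs => rw [fo_rho_basis0 hline hτ, map_smul, map_smul, smul_eq_mul]
      ring
    have h2 : B.coord 1 (ρbar.ρ (σ * τ) (B 1)) =
        B.coord 1 (ρbar.ρ σ (B 1)) * B.coord 1 (ρbar.ρ τ (B 1)) := by
      rw [map_mul, Module.End.mul_apply, tri_coord1 B (ρbar.ρ σ) (fo_rho_basis0 hline hσ)]
    rw [h1, h2, mul_inv]
    ring
  level := by
    obtain ⟨L, hL, h1⟩ := ρbar.factorsThroughFiniteLevel
    refine ⟨L, hL, fun σ _ τ _ hτ => ?_⟩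
    unfold foChar
    rw [map_mul, h1 τ hτ, mul_one]
  cyc σ hσ n hn := by
    obtain ⟨x₀, hx, hI⟩ := hline.2 σ (mem_decomposition_of_mem_inertia hσ)
    obtain ⟨hcyc, hv⟩ := hI hσ
    obtain ⟨s, hs⟩ := hv (B 1)
    have h1 : B.coord 0 (ρbar.ρ σ (B 0)) = (n : k) := by
      rw [hx, map_smul, coord0_self, smul_eq_mul, mul_one, hcyc n hn]
    have h2 : B.coord 1 (ρbar.ρ σ (B 1)) = 1 := by
      have : ρbar.ρ σ (B 1) = B 1 + s • B 0 := by rw [← hs]; abel
      rw [this, map_add, map_smul, coord1_self, coord1_self0, smul_eq_mul, mul_zero, add_zero]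
    unfold foChar
    rw [h1, h2, inv_one, mul_one]

variable (p P B)

/-- Normalised flat-ordinary cocycles: upper triangular on `D_P` w.r.t. the line `k B₀`, with
unramified diagonal part and peu ramifié off-diagonal part. -/
def IsNormFO (c' : GQ → Module.End k ρbar.V) : Prop :=
  IsAdCocycle ρbar c' ∧
    (∀ σ ∈ P.decompositionSubgroup ℚ, ∃ α : k, c' σ (B 0) = α • B 0) ∧
    (∀ σ ∈ P.inertiaSubgroupIn ℚ, c' σ (B 0) = 0) ∧
    Fermat.Agent.S56.H906.IsPeu p P (fun σ => B.coord 0 (c' σ (B 1)))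

variable {p P B}

theorem isNormFO_zero [Fact p.Prime] :
    IsNormFO p P B (fun _ => (0 : Module.End k ρbar.V)) :=
  ⟨isAdCocycle_zero', fun _ _ => ⟨0, by simp⟩, fun _ _ => by simp, by
    simpa using isPeu_zero (k := k) (p := p) (P := P)⟩

theorem IsNormFO.add [Fact p.Prime] {c₁ c₂ : GQ → Module.End k ρbar.V}
    (h₁ : IsNormFO p P B c₁) (h₂ : IsNormFO p P B c₂) :
    IsNormFO p P B (fun σ => c₁ σ + c₂ σ) := by
  refine ⟨IsAdCocycle.add' h₁.1 h₂.1, fun σ hσ => ?_, fun σ hσ => ?_, ?_⟩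
  · obtain ⟨α₁, hα₁⟩ := h₁.2.1 σ hσ
    obtain ⟨α₂, hα₂⟩ := h₂.2.1 σ hσ
    exact ⟨α₁ + α₂, by rw [LinearMap.add_apply, hα₁, hα₂, add_smul]⟩
  · rw [LinearMap.add_apply, h₁.2.2.1 σ hσ, h₂.2.2.1 σ hσ, add_zero]
  · have := isPeu_add h₁.2.2.2 h₂.2.2.2
    refine isPeu_congr this fun σ _ => ?_
    rw [LinearMap.add_apply, map_add]

theorem IsNormFO.smul [Fact p.Prime] {c₁ : GQ → Module.End k ρbar.V}
    (h₁ : IsNormFO p P B c₁) (r : k) : IsNormFO p P B (fun σ => r • c₁ σ) := by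
  refine ⟨isAdCocycle_smul' h₁.1 r, fun σ hσ => ?_, fun σ hσ => ?_, ?_⟩
  · obtain ⟨α₁, hα₁⟩ := h₁.2.1 σ hσ
    exact ⟨r * α₁, by rw [LinearMap.smul_apply, hα₁, smul_smul]⟩
  · rw [LinearMap.smul_apply, h₁.2.2.1 σ hσ, smul_zero]
  · have := isPeu_smul h₁.2.2.2 r
    refine isPeu_congr this fun σ _ => ?_
    rw [LinearMap.smul_apply, map_smul, smul_eq_mul]

/-- (N1) a normalised cocycle whose diagonal part vanishes at `φ` has no diagonal part. -/
theorem IsNormFO.diag_eq_zero (hline : IsFOLine ρbar p P (B 0)) {φ : GQ}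
    (hφ : ∀ h : GQ → k,
      (∀ σ ∈ P.decompositionSubgroup ℚ, ∀ τ ∈ P.decompositionSubgroup ℚ,
        h (σ * τ) = h σ + h τ) →
      Fermat.Agent.S56.H906.HasLevelOn P h → (∀ σ ∈ P.inertiaSubgroupIn ℚ, h σ = 0) →
      h φ = 0 → ∀ σ ∈ P.decompositionSubgroup ℚ, h σ = 0)
    {c' : GQ → Module.End k ρbar.V} (hc' : IsNormFO p P B c')
    (h0 : B.coord 0 (c' φ (B 0)) = 0) :
    ∀ σ ∈ P.decompositionSubgroup ℚ, c' σ (B 0) = 0 := by
  have hval : ∀ σ ∈ P.decompositionSubgroup ℚ, c' σ (B 0) = B.coord 0 (c' σ (B 0)) • B 0 := by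
    intro σ hσ
    obtain ⟨α, hα⟩ := hc'.2.1 σ hσ
    rw [hα, map_smul, coord0_self, smul_eq_mul, mul_one]
  have key := hφ (fun σ => B.coord 0 (c' σ (B 0))) ?_ ?_ ?_ h0
  · intro σ hσ
    rw [hval σ hσ, key σ hσ, zero_smul]
  · intro σ hσ τ hτ
    show B.coord 0 (c' (σ * τ) (B 0)) = _
    rw [hc'.1.map_mul, LinearMap.add_apply,
      tri_conj_basis0 B (ρbar.ρ σ) (ρbar.ρ σ⁻¹) (c' τ) (rho_inv_mul' ρbar σ)
        (fo_rho_basis0 hline hσ) (hval τ hτ),
      map_add, map_smul, coord0_self, smul_eq_mul, mul_one]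
  · obtain ⟨L, hL, h1⟩ := hc'.1.level
    exact ⟨L, hL, fun σ _ τ _ hτ => by show B.coord 0 (c' (σ * τ) (B 0)) = _; rw [h1 σ τ hτ]⟩
  · intro σ hσ
    show B.coord 0 (c' σ (B 0)) = 0
    rw [hc'.2.2.1 σ hσ, map_zero]

/-- (N2) a normalised cocycle without diagonal part is, on `D_P`, a multiple of `κ₀ n₀` up to
the coboundary of a multiple of `n₀` (KUM). -/
theorem IsNormFO.kum (hline : IsFOLine ρbar p P (B 0)) {κ₀ : GQ → k}
    (hκ₀ : ∀ c : GQ → k, Fermat.Agent.S56.H906.IsLocCocycle P (foChar B) c →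
      Fermat.Agent.S56.H906.IsPeu p P c →
      ∃ lam m : k, ∀ σ ∈ P.decompositionSubgroup ℚ, c σ = lam * κ₀ σ + (foChar B σ - 1) * m)
    {c' : GQ → Module.End k ρbar.V} (hc' : IsNormFO p P B c')
    (hz : ∀ σ ∈ P.decompositionSubgroup ℚ, c' σ (B 0) = 0) :
    ∃ lam m : k, ∀ σ ∈ P.decompositionSubgroup ℚ,
      c' σ = (lam * κ₀ σ) • nil0 B +
        (ρbar.ρ σ * (m • nil0 B) * ρbar.ρ σ⁻¹ - m • nil0 B) := by
  have hform : ∀ σ ∈ P.decompositionSubgroup ℚ, c' σ = B.coord 0 (c' σ (B 1)) • nil0 B :=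
    fun σ hσ => eq_smul_nil0_of_trace B (c' σ) (hz σ hσ) (hc'.1.trace_eq_zero σ)
  have hcoc : Fermat.Agent.S56.H906.IsLocCocycle P (foChar B)
      (fun σ => B.coord 0 (c' σ (B 1))) := by
    refine ⟨fun σ hσ τ hτ => ?_, ?_⟩
    · show B.coord 0 (c' (σ * τ) (B 1)) = _
      have e1 : c' (σ * τ) = c' σ + ρbar.ρ σ * c' τ * ρbar.ρ σ⁻¹ := hc'.1.map_mul σ τ
      have e2 : ρbar.ρ σ * c' τ * ρbar.ρ σ⁻¹ =
          (B.coord 0 (c' τ (B 1)) * foChar B σ) • nil0 B := by
        conv_lhs => rw [hform τ hτ]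
        rw [mul_smul_comm, smul_mul_assoc, fo_conj_nil0 hline hσ, smul_smul]
      have e3 : c' (σ * τ) =
          (B.coord 0 (c' σ (B 1)) + foChar B σ * B.coord 0 (c' τ (B 1))) • nil0 B := by
        rw [e1, e2, add_smul, mul_comm]
        congr 1
        exact hform σ hσ
      rw [e3, coord0_smul_nil0_basis1]
    · obtain ⟨L, hL, h1⟩ := hc'.1.level
      exact ⟨L, hL, fun σ _ τ _ hτ => by
        show B.coord 0 (c' (σ * τ) (B 1)) = _; rw [h1 σ τ hτ]⟩
  obtain ⟨lam, m, h⟩ := hκ₀ _ hcoc hc'.2.2.2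
  refine ⟨lam, m, fun σ hσ => ?_⟩
  have e := h σ hσ
  beta_reduce at e
  rw [fo_cob_smul_nil0 hline hσ, ← add_smul, ← e]
  exact hform σ hσ

end count

/-! ## Normalisations -/

section norm

variable {k : Type} [Field k] {ρbar : ResidualGaloisRep k} {p : ℕ} [Fact p.Prime]
  {P : ValuationSubring _root_.Fermat.Agent.S56.Qb} {B : Module.Basis (Fin 2) k ρbar.V}

/-- (N0) the normalisation `c + ∂(corr)` of a flat-ordinary cocycle. -/
theorem isNormFO_of_data {c : GQ → Module.End k ρbar.V} (hc : IsAdCocycle ρbar c) {ℓ₁ : ρbar.V}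
    (hdata : IsFOData ρbar p P c (B 0) ℓ₁) (hpeu : IsPeuLift ρbar p P c) :
    IsNormFO p P B (fun σ => c σ + (ρbar.ρ σ * corr B ℓ₁ * ρbar.ρ σ⁻¹ - corr B ℓ₁)) := by
  refine ⟨IsAdCocycle.add' hc (isAdCocycle_cob ρbar (corr B ℓ₁)), fun σ hσ => ?_,
    fun σ hσ => ?_, ?_⟩
  · obtain ⟨x₀, x₁, h1, h2, -⟩ := hdata.2 σ hσ
    exact ⟨x₁ * x₀⁻¹, fo_cprime_basis0 B (ρbar.ρ σ) (ρbar.ρ σ⁻¹) (c σ) (rho_inv_mul' ρbar σ) h1 h2⟩
  · obtain ⟨x₀, x₁, h1, h2, h3⟩ := hdata.2 σ (mem_decomposition_of_mem_inertia hσ)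
    have hx1 := (h3 hσ).1
    rw [fo_cprime_basis0 B (ρbar.ρ σ) (ρbar.ρ σ⁻¹) (c σ) (rho_inv_mul' ρbar σ) h1 h2, hx1,
      zero_mul, zero_smul]
  · intro ζ hζ ℓ
    let ΞV : (DualNumber k ⊗[k] ρbar.V) →ₗ[k] k :=
      (B.coord 0).comp dPi1 - (B.coord 0 ℓ₁) • (B.coord 0).comp dPi0
    obtain ⟨Bu, hBu, hB⟩ := hpeu ζ hζ (ℓ.comp (ΞV : (DualNumber k ⊗[k] ρbar.V) →+ k))
      (dIota (B 1))
    refine ⟨Bu, hBu, fun σ hσ hσζ => ?_⟩
    rw [hB σ hσ hσζ]
    congr 3
    obtain ⟨x₀, x₁, h1, h2, h3⟩ := hdata.2 σ (mem_decomposition_of_mem_inertia hσ)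
    obtain ⟨hx1, -, hv⟩ := h3 hσ
    obtain ⟨u, hu⟩ := hv (B 1)
    rw [hx1, zero_smul, add_zero] at h2
    have e1 := fo_cprime_basis1 B (ρbar.ρ σ) (ρbar.ρ σ⁻¹) (c σ) (rho_inv_mul' ρbar σ) h1 h2 hu
    show ℓ (ΞV (liftEnd ρbar c σ (dIota (B 1)) - dIota (B 1))) =
      ℓ (B.coord 0 ((c σ + (ρbar.ρ σ * corr B ℓ₁ * ρbar.ρ σ⁻¹ - corr B ℓ₁)) (B 1)))
    congr 1
    rw [e1]
    show (B.coord 0) (dPi1 (liftEnd ρbar c σ (dIota (B 1)) - dIota (B 1))) -
      (B.coord 0 ℓ₁) * (B.coord 0) (dPi0 (liftEnd ρbar c σ (dIota (B 1)) - dIota (B 1))) = _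
    have hd1 : dPi1 (liftEnd ρbar c σ (dIota (B 1)) - dIota (B 1)) = c σ (ρbar.ρ σ (B 1)) := by
      rw [map_sub, dPi1_liftEnd, dPi0_dIota, dPi1_dIota, map_zero, zero_add, sub_zero]
    have hd0 : dPi0 (liftEnd ρbar c σ (dIota (B 1)) - dIota (B 1)) = u • B 0 := by
      rw [map_sub, dPi0_liftEnd, dPi0_dIota, hu]
    rw [hd1, hd0, map_sub, map_smul, map_smul, coord0_self, smul_eq_mul, smul_eq_mul, mul_one,
      mul_comm]

/-- (N0') the coboundary of the projector on the line is normalised. -/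
theorem isNormFO_proj (hline : IsFOLine ρbar p P (B 0)) {c₀ : GQ → Module.End k ρbar.V}
    (hpeu : IsPeuLift ρbar p P c₀) :
    IsNormFO p P B (fun σ => ρbar.ρ σ * proj0 B * ρbar.ρ σ⁻¹ - proj0 B) := by
  have hz : ∀ σ ∈ P.decompositionSubgroup ℚ,
      (ρbar.ρ σ * proj0 B * ρbar.ρ σ⁻¹ - proj0 B) (B 0) = 0 := by
    intro σ hσ
    have h1 := fo_rho_basis0 hline hσ
    exact conj_proj0_basis0 B (ρbar.ρ σ) (ρbar.ρ σ⁻¹) (rho_inv_mul' ρbar σ) _ h1
      (tri_x0_ne_zero B (ρbar.ρ σ) (ρbar.ρ σ⁻¹) (rho_inv_mul' ρbar σ) h1)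
  refine ⟨isAdCocycle_cob ρbar (proj0 B), fun σ hσ => ⟨0, by rw [hz σ hσ, zero_smul]⟩,
    fun σ hσ => hz σ (mem_decomposition_of_mem_inertia hσ), ?_⟩
  intro ζ hζ ℓ
  let ΞV : (DualNumber k ⊗[k] ρbar.V) →ₗ[k] k := -((B.coord 0).comp dPi0)
  obtain ⟨Bu, hBu, hB⟩ := hpeu ζ hζ (ℓ.comp (ΞV : (DualNumber k ⊗[k] ρbar.V) →+ k))
    (dIota (B 1))
  refine ⟨Bu, hBu, fun σ hσ hσζ => ?_⟩
  rw [hB σ hσ hσζ]
  congr 3
  have hσD := mem_decomposition_of_mem_inertia hσ
  obtain ⟨x₀, hx, hI⟩ := hline.2 σ hσD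
  obtain ⟨u, hu⟩ := (hI hσ).2 (B 1)
  have e1 := fo_conj_proj0_basis1 B (ρbar.ρ σ) (ρbar.ρ σ⁻¹) (rho_inv_mul' ρbar σ) hx hu
  show ℓ (ΞV (liftEnd ρbar c₀ σ (dIota (B 1)) - dIota (B 1))) =
    ℓ (B.coord 0 ((ρbar.ρ σ * proj0 B * ρbar.ρ σ⁻¹ - proj0 B) (B 1)))
  congr 1
  rw [e1]
  show -((B.coord 0) (dPi0 (liftEnd ρbar c₀ σ (dIota (B 1)) - dIota (B 1)))) = _
  have hd0 : dPi0 (liftEnd ρbar c₀ σ (dIota (B 1)) - dIota (B 1)) = u • B 0 := by
    rw [map_sub, dPi0_liftEnd, dPi0_dIota, hu]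
  rw [hd0, map_smul, map_smul, coord0_self, smul_eq_mul, smul_eq_mul, mul_one, neg_mul,
    mul_one]

end norm

/-! ## The local bound -/

section final

variable {k : Type} [Field k]

/-- **FLAT-O over a field**, from the structure of flat-ordinary lifts, KUM and UNRHOM. -/
theorem localBoundAt_flatO [Finite k] {p : ℕ} [Fact p.Prime] [CharP k p] (hp2 : p ≠ 2)
    (hkum : Fermat.Agent.S56.H906.KumStatement)
    (hunr : Fermat.Agent.S56.H906.UnramHomStatement)
    (ρbar : ResidualGaloisRep k) (P : ValuationSubring _root_.Fermat.Agent.S56.Qb) (hP : P.LiesOverPrime p)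
    (hadm : ∀ c : GQ → Module.End k ρbar.V, IsAdCocycle ρbar c →
      (∃ ρ' : GaloisRepAdic (DualNumber k), IsLiftOf ρbar c ρ' ∧
        ρ'.DetIsCyclotomic p ∧ ρ'.IsFlatAt p) →
      (∃ ℓ₀ ℓ₁ : ρbar.V, IsFOData ρbar p P c ℓ₀ ℓ₁) ∧ IsPeuLift ρbar p P c) :
    LocalBoundAt ρbar P (fun ρ' => ρ'.DetIsCyclotomic p ∧ ρ'.IsFlatAt p) 1 := by
  classical
  have hp : p.Prime := Fact.out
  by_cases hex : ∃ (c : GQ → Module.End k ρbar.V) (ρ' : GaloisRepAdic (DualNumber k)),
      IsAdCocycle ρbar c ∧ IsLiftOf ρbar c ρ' ∧ ρ'.DetIsCyclotomic p ∧ ρ'.IsFlatAt p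
  swap
  · refine ⟨⊥, inferInstance, ?_, fun c hc h => ?_⟩
    · rw [finrank_bot]; exact Nat.zero_le _
    · obtain ⟨ρ', hl, hd, hs⟩ := h
      exact (hex ⟨c, ρ', hc, hl, hd, hs⟩).elim
  obtain ⟨c₀, ρ₀, hc₀, hl₀, hd₀, hf₀⟩ := hex
  obtain ⟨⟨ℓ₀, ℓ₁z, hdata₀⟩, hpeu₀⟩ := hadm c₀ hc₀ ⟨ρ₀, hl₀, hd₀, hf₀⟩
  obtain ⟨B, hB0⟩ := exists_basis_zero_eq ρbar.finrank_eq hdata₀.1
  have hline : IsFOLine ρbar p P (B 0) := by rw [hB0]; exact hdata₀.isFOLine
  obtain ⟨κ₀, hκ₀⟩ := hkum p hp2 k P hP (foChar B) (foChar_isOrdChar hline)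
  obtain ⟨φ, -, hφ⟩ := hunr p hp P hP
  have hφ' := hφ k
  -- every admissible cocycle has a normalisation
  have hnorm : ∀ c : GQ → Module.End k ρbar.V, IsAdCocycle ρbar c →
      (∃ ρ' : GaloisRepAdic (DualNumber k), IsLiftOf ρbar c ρ' ∧
        ρ'.DetIsCyclotomic p ∧ ρ'.IsFlatAt p) →
      ∃ M : Module.End k ρbar.V,
        IsNormFO p P B (fun σ => c σ + (ρbar.ρ σ * M * ρbar.ρ σ⁻¹ - M)) := by
    intro c hc hl
    obtain ⟨⟨ℓ₀', ℓ₁', hdata⟩, hpeu⟩ := hadm c hc hl
    obtain ⟨r, hr, hrl⟩ := IsFOLine.unique hp hp2 hP hline hdata.isFOLine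
    have h2 := hdata.smul (inv_ne_zero hr)
    have e : r⁻¹ • ℓ₀' = B 0 := by rw [hrl, smul_smul, inv_mul_cancel₀ hr, one_smul]
    rw [e] at h2
    exact ⟨corr B (r⁻¹ • ℓ₁'), isNormFO_of_data hc h2 hpeu⟩
  -- the diagonal generator
  obtain ⟨η, hη, hηspec⟩ : ∃ η : GQ → Module.End k ρbar.V, IsNormFO p P B η ∧
      ∀ c' : GQ → Module.End k ρbar.V, IsNormFO p P B c' →
        ∃ μ : k, B.coord 0 ((c' φ + (-μ) • η φ) (B 0)) = 0 := by
    by_cases h : ∃ c₁ : GQ → Module.End k ρbar.V, IsNormFO p P B c₁ ∧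
        B.coord 0 (c₁ φ (B 0)) ≠ 0
    · obtain ⟨c₁, hc₁, hne⟩ := h
      refine ⟨c₁, hc₁, fun c' _ => ⟨B.coord 0 (c' φ (B 0)) / B.coord 0 (c₁ φ (B 0)), ?_⟩⟩
      rw [LinearMap.add_apply, LinearMap.smul_apply, map_add, map_smul, smul_eq_mul, neg_mul,
        div_mul_cancel₀ _ hne, add_neg_cancel]
    · push Not at h
      refine ⟨fun _ => 0, isNormFO_zero, fun c' hc' => ⟨0, ?_⟩⟩
      rw [neg_zero, zero_smul, add_zero]
      exact h c' hc'
  -- decomposition of the normalised cocycles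
  have hdec : ∀ c' : GQ → Module.End k ρbar.V, IsNormFO p P B c' →
      ∃ μ lam m : k, ∀ σ ∈ P.decompositionSubgroup ℚ,
        c' σ = μ • η σ + (lam * κ₀ σ) • nil0 B +
          (ρbar.ρ σ * (m • nil0 B) * ρbar.ρ σ⁻¹ - m • nil0 B) := by
    intro c' hc'
    obtain ⟨μ, hμ⟩ := hηspec c' hc'
    have hc'' : IsNormFO p P B (fun σ => c' σ + (-μ) • η σ) := hc'.add (hη.smul (-μ))
    have hz := hc''.diag_eq_zero hline hφ' hμ
    obtain ⟨lam, m, h⟩ := hc''.kum hline hκ₀ hz
    refine ⟨μ, lam, m, fun σ hσ => ?_⟩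
    have e := h σ hσ
    beta_reduce at e
    have e' : c' σ = (lam * κ₀ σ) • nil0 B +
        (ρbar.ρ σ * (m • nil0 B) * ρbar.ρ σ⁻¹ - m • nil0 B) - (-μ) • η σ :=
      eq_sub_of_add_eq e
    rw [e']
    module
  by_cases hinv : adInv ρbar (P.decompositionSubgroup ℚ) = ⊥
  · -- `H⁰ = 0`: the coboundary of the projector is a relation
    have hδ : IsNormFO p P B (fun σ => ρbar.ρ σ * proj0 B * ρbar.ρ σ⁻¹ - proj0 B) :=
      isNormFO_proj hline hpeu₀
    have hzδ : ∀ σ ∈ P.decompositionSubgroup ℚ,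
        (ρbar.ρ σ * proj0 B * ρbar.ρ σ⁻¹ - proj0 B) (B 0) = 0 := by
      intro σ hσ
      obtain ⟨α, hα⟩ := hδ.2.1 σ hσ
      have h1 := fo_rho_basis0 hline hσ
      exact conj_proj0_basis0 B (ρbar.ρ σ) (ρbar.ρ σ⁻¹) (rho_inv_mul' ρbar σ) _ h1
        (tri_x0_ne_zero B (ρbar.ρ σ) (ρbar.ρ σ⁻¹) (rho_inv_mul' ρbar σ) h1)
    obtain ⟨lam_d, m_d, hd⟩ := hδ.kum hline hκ₀ hzδ
    have h2k : (2 : k) ≠ 0 := by
      intro h
      have h' : ((2 : ℕ) : k) = 0 := by exact_mod_cast h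
      have hdvd : p ∣ 2 := (CharP.cast_eq_zero_iff k p 2).mp h'
      exact hp2 ((Nat.prime_dvd_prime_iff_eq hp Nat.prime_two).mp hdvd)
    have hne : lam_d ≠ 0 := by
      intro h0
      have hmem : proj0 B - m_d • nil0 B - (2 : k)⁻¹ • (1 : Module.End k ρbar.V) ∈
          adInv ρbar (P.decompositionSubgroup ℚ) := by
        refine ⟨?_, fun σ hσ => ?_⟩
        · rw [map_sub, map_sub, map_smul, map_smul, trace_proj0, trace_nil0,
            LinearMap.trace_one, ρbar.finrank_eq]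
          simp only [smul_eq_mul, mul_zero, sub_zero, Nat.cast_ofNat]
          rw [inv_mul_cancel₀ h2k, sub_self]
        · have h := hd σ hσ
          beta_reduce at h
          rw [h0, zero_mul, zero_smul, zero_add] at h
          have h' : ρbar.ρ σ * (proj0 B - m_d • nil0 B) * ρbar.ρ σ⁻¹ =
              proj0 B - m_d • nil0 B := by
            have e1 : ρbar.ρ σ * (proj0 B - m_d • nil0 B) * ρbar.ρ σ⁻¹ -
                (proj0 B - m_d • nil0 B) =
                (ρbar.ρ σ * proj0 B * ρbar.ρ σ⁻¹ - proj0 B) -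
                  (ρbar.ρ σ * (m_d • nil0 B) * ρbar.ρ σ⁻¹ - m_d • nil0 B) := by
              rw [mul_sub, sub_mul]; abel
            rw [h, sub_self] at e1
            exact sub_eq_zero.mp e1
          rw [mul_sub, sub_mul, h', mul_smul_comm, smul_mul_assoc, mul_one,
            rho_mul_inv' ρbar σ]
      rw [hinv, Submodule.mem_bot] at hmem
      have h0' := congrArg (fun F : Module.End k ρbar.V => B.coord 0 (F (B 0))) hmem
      simp only [LinearMap.sub_apply, LinearMap.smul_apply, proj0_apply, nil0_apply,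
        Module.End.one_apply, map_sub, map_smul, coord0_self, coord1_self0, smul_eq_mul,
        mul_one, zero_smul, smul_zero, sub_zero, one_smul, LinearMap.zero_apply,
        map_zero] at h0'
      have : (2 : k)⁻¹ = 1 := (sub_eq_zero.mp h0').symm
      have h21 : (2 : k) = 1 := by
        have := congrArg (fun t => (2 : k) * t) this
        simp only [mul_inv_cancel₀ h2k, mul_one] at this
        exact this.symm
      have h10 : (1 : k) = 0 := by
        have : (2 : k) - 1 = 0 := by rw [h21, sub_self]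
        norm_num at this
      exact one_ne_zero h10
    refine ⟨Submodule.span k {η}, Module.Finite.span_of_finite k (Set.toFinite _), ?_,
      fun c hc hex' => ?_⟩
    · rw [hinv, finrank_bot, zero_add]
      exact finrank_span_single_le _
    · obtain ⟨M, hM⟩ := hnorm c hc hex'
      obtain ⟨μ, lam, m, hdec'⟩ := hdec _ hM
      obtain ⟨r, hr⟩ : ∃ r : k, r * lam_d = lam := ⟨lam * lam_d⁻¹, by
        rw [mul_assoc, inv_mul_cancel₀ hne, mul_one]⟩
      refine ⟨μ • η, Submodule.smul_mem _ _ (Submodule.subset_span (Set.mem_singleton _)),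
        r • (proj0 B - m_d • nil0 B) + m • nil0 B - M, fun σ hσ => ?_⟩
      have e1 := hdec' σ hσ
      beta_reduce at e1
      have e2 := hd σ hσ
      beta_reduce at e2
      have e1' : c σ = μ • η σ + (lam * κ₀ σ) • nil0 B +
          (ρbar.ρ σ * (m • nil0 B) * ρbar.ρ σ⁻¹ - m • nil0 B) -
            (ρbar.ρ σ * M * ρbar.ρ σ⁻¹ - M) := eq_sub_of_add_eq e1
      have e2' : ρbar.ρ σ * proj0 B * ρbar.ρ σ⁻¹ = (lam_d * κ₀ σ) • nil0 B +
          (ρbar.ρ σ * (m_d • nil0 B) * ρbar.ρ σ⁻¹ - m_d • nil0 B) + proj0 B :=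
        eq_add_of_sub_eq e2
      show c σ - (μ • η) σ = _
      rw [Pi.smul_apply, e1', ← hr]
      simp only [mul_add, add_mul, mul_sub, sub_mul, mul_smul_comm, smul_mul_assoc] at e2' ⊢
      rw [e2']
      module
  · -- `H⁰ ≠ 0`
    refine ⟨Submodule.span k {η, fun σ => κ₀ σ • nil0 B},
      Module.Finite.span_of_finite k (Set.toFinite _), ?_, fun c hc hex' => ?_⟩
    · have h1 : 1 ≤ Module.finrank k (adInv ρbar (P.decompositionSubgroup ℚ)) :=
        Submodule.one_le_finrank_iff.mpr hinv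
      have h2 := finrank_span_pair_le (k := k) η (fun σ => κ₀ σ • nil0 B)
      omega
    · obtain ⟨M, hM⟩ := hnorm c hc hex'
      obtain ⟨μ, lam, m, hdec'⟩ := hdec _ hM
      refine ⟨μ • η + lam • (fun σ => κ₀ σ • nil0 B), ?_, m • nil0 B - M, fun σ hσ => ?_⟩
      · exact Submodule.add_mem _
          (Submodule.smul_mem _ _ (Submodule.subset_span (Set.mem_insert _ _)))
          (Submodule.smul_mem _ _ (Submodule.subset_span
            (Set.mem_insert_of_mem _ (Set.mem_singleton _))))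
      · have e1 := hdec' σ hσ
        beta_reduce at e1
        have e1' : c σ = μ • η σ + (lam * κ₀ σ) • nil0 B +
            (ρbar.ρ σ * (m • nil0 B) * ρbar.ρ σ⁻¹ - m • nil0 B) -
              (ρbar.ρ σ * M * ρbar.ρ σ⁻¹ - M) := eq_sub_of_add_eq e1
        show c σ - (μ • η σ + lam • (κ₀ σ • nil0 B)) = _
        rw [e1']
        simp only [mul_sub, sub_mul, mul_smul_comm, smul_mul_assoc]
        module

end final

/-- **FLAT-O** (`FL.FlatOStatement`, the shape consumed by the proved glue `FL.locFlatP_of`) from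
the ordinary line of flat lifts (STRUCT), FU, KUM and UNRHOM. -/
theorem flatO_of (hline : FlatOrdLineStatement)
    (hFU : Fermat.Agent.S56.H906.FlatUnitStatement)
    (hkum : Fermat.Agent.S56.H906.KumStatement)
    (hunr : Fermat.Agent.S56.H906.UnramHomStatement) :
    Fermat.Agent.S56.FL.FlatOStatement := by
  intro 𝒪 _ _ _ _ _ p ρbar S Smin hyp P hP hred
  haveI : Fact p.Prime := ⟨hyp.hp⟩
  have hpk : ((p : ℕ) : ResidueField 𝒪) = 0 := by
    have h := (IsLocalRing.residue_eq_zero_iff (p : 𝒪)).mpr hyp.hp𝒪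
    rwa [map_natCast] at h
  haveI : CharP (ResidueField 𝒪) p := (CharP.charP_iff_prime_eq_zero hyp.hp).mpr hpk
  refine localBoundAt_flatO hyp.hp2 hkum hunr ρbar P hP fun c hc hl => ?_
  obtain ⟨ρ', hl', hd, hf⟩ := hl
  obtain ⟨L, ⟨b, hLb⟩, hD, hI⟩ := hline 𝒪 p ρbar S Smin hyp P hP hred c ρ' hc hl' hd hf
  exact ⟨locFO_struct hyp.hp c ρ' hl' hd hLb hD hI,
    isPeuLift_of_flat hFU c ρ' hl' hd hf hP hLb hD hI⟩

end Fermat.Agent.S56.H656

end

end
-- ===== PACK-END S56/H656/FlatOCount.lean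

-- ===== PACK-BEGIN S56/H14/InvInj.lean
section


/-!
# Row S56 — REC-Q input: the local invariant map is injective when `μ_p` is locally trivial
(helper14)

S55's interface (`PT/Spec.lean`, A6 = `TopLocIndSpec`) says that `inv_v ∘ aug_*` is bijective on
`H²(G_v, Ind_W μ)` for every normal local level `W` acting trivially on `μ`.  For `W = ⊤`
(possible exactly when `G_v` acts trivially on `μ_p`, e.g. `v ≡ 1 mod p`) the augmentation
`Ind_⊤ μ → μ` is an isomorphism, hence `inv_v` itself is bijective on `H²(G_v, μ_p)`.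

* `injective_of_bijective_comp_indAug` — abstract form (any group, level system, module);
* `inv_bijective_of_topLocInd`, `inv_injective_of_topLocInd` — the arithmetic instance.

Nothing unproved in this file.
-/

set_option autoImplicit false

noncomputable section

namespace Fermat.Agent.S56.H14

open groupCohomology Fermat.Agent.S55.PT

section Abstract

variable {k : Type} [Field k] {G : Type} [Group G] (L : LevelSys G) (N : Rep.{0, 0, 0} k G)
  (U : Subgroup G)

/-- The section `m ↦ single 1 m` of the augmentation `Ind_U N → N`. -/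
def indUnit : N →ₗ[k] ((G ⧸ U) →₀ N) := Finsupp.lsingle ((1 : G) : G ⧸ U)

lemma indAug_indUnit (m : N) : indAug U N (indUnit N U m) = m :=
  indAug_single U N _ m

/-- If `U` is the whole group, `m ↦ single 1 m` is equivariant. -/
lemma indUnit_equivariant (hU : ∀ g : G, g ∈ U) :
    IsEquivariant (A := N) (B := indRep U N) (indUnit N U) := by
  intro g m
  show (Finsupp.single ((1 : G) : G ⧸ U) (N.ρ g m) : (G ⧸ U) →₀ N) =
    (indRep U N).ρ g (Finsupp.single ((1 : G) : G ⧸ U) m : (G ⧸ U) →₀ N)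
  rw [indRep_ρ_single]
  congr 1
  show ((1 : G) : G ⧸ U) = ((g * 1 : G) : G ⧸ U)
  rw [mul_one, QuotientGroup.eq]
  exact U.mul_mem (U.inv_mem (U.one_mem)) (hU g)

/-- If `U` is the whole group and `f ∘ aug_*` is injective on `H²(Ind_U N)`, then `f` is
injective on `H²(N)`. -/
theorem injective_of_injective_comp_indAug (hU : ∀ g : G, g ∈ U) {X : Type*} [AddCommGroup X]
    [Module k X] (f : L.H2 N →ₗ[k] X)
    (h : Function.Injective (f ∘ₗ
      pushH2 (A := indRep U N) (B := N) (indAug U N) (indAug_equivariant U N) L)) :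
    Function.Injective f := by
  rw [injective_iff_map_eq_zero]
  intro z hz
  have h1 : pushH2 (A := indRep U N) (B := N) (indAug U N) (indAug_equivariant U N) L
      (pushH2 (A := N) (B := indRep U N) (indUnit N U) (indUnit_equivariant N U hU) L z) = z := by
    obtain ⟨c, rfl⟩ := L.H2π_surjective N z
    rw [pushH2_mk, pushH2_mk]
    congr 1
    apply Subtype.ext
    funext x
    simp only [coe_pushZ2, Function.comp_apply, indAug_indUnit]
  have h2 : (f ∘ₗ pushH2 (A := indRep U N) (B := N) (indAug U N) (indAug_equivariant U N) L)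
      (pushH2 (A := N) (B := indRep U N) (indUnit N U) (indUnit_equivariant N U hU) L z) = 0 := by
    rw [LinearMap.comp_apply, h1, hz]
  have h3 := (injective_iff_map_eq_zero _).1 h _ h2
  rw [← h1, h3, map_zero]

/-- If `U` is the whole group and `f ∘ aug_*` is surjective, then `f` is surjective. -/
theorem surjective_of_surjective_comp_indAug {X : Type*} [AddCommGroup X]
    [Module k X] (f : L.H2 N →ₗ[k] X)
    (h : Function.Surjective (f ∘ₗ
      pushH2 (A := indRep U N) (B := N) (indAug U N) (indAug_equivariant U N) L)) :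
    Function.Surjective f := fun x => by
  obtain ⟨y, hy⟩ := h x
  exact ⟨_, hy⟩

end Abstract

section Arith

variable {p : ℕ} [Fact p.Prime] {S : Finset Nat.Primes}

/-- The whole local Galois group is a local level. -/
lemma top_mem_localLevels (q : Nat.Primes) : (⊤ : Subgroup (Gl q)) ∈ (localLevels q).levels := by
  refine ⟨⊥, inferInstance, ?_⟩
  rw [IntermediateField.fixingSubgroup_bot, Subgroup.comap_top]

/-- **`inv_v` is bijective on `H²(G_v, μ_p)`** when `G_v` acts trivially on `μ_p`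
(from S55's A6 with `W = ⊤`). -/
theorem inv_bijective_of_topLocInd {inv : InvFamily p S} (h : TopLocIndSpec inv) (v : ↥S)
    (hμ : ∀ s : Gl v.1, (muLoc p v.1).ρ s = 1) : Function.Bijective (inv v) := by
  have hb := h v ⊤ (top_mem_localLevels v.1) inferInstance (fun s _ => hμ s)
  exact ⟨injective_of_injective_comp_indAug (localLevels v.1) (muLoc p v.1) ⊤
      (fun _ => Subgroup.mem_top _) (inv v) hb.1,
    surjective_of_surjective_comp_indAug (localLevels v.1) (muLoc p v.1) ⊤ (inv v) hb.2⟩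

theorem inv_injective_of_topLocInd {inv : InvFamily p S} (h : TopLocIndSpec inv) (v : ↥S)
    (hμ : ∀ s : Gl v.1, (muLoc p v.1).ρ s = 1) : Function.Injective (inv v) :=
  (inv_bijective_of_topLocInd h v hμ).1

end Arith

end Fermat.Agent.S56.H14

end

end
-- ===== PACK-END S56/H14/InvInj.lean

-- ===== PACK-BEGIN S55/Inv/Spec.lean
section


/-!
# S55 / layer D input `InvSpec` (A5, A5′, A6, A7): FROZEN SUB-INTERFACE (sub-architect helper3)

Blueprint: `coord/S55-INV.md` on `origin/helper3`.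

`PT.InvSpec p S` (existence of invariant maps with RECIP, TOP-loc-ind, TOP-glob-ind) is reduced
in `Inv/Top.lean` (complete) to FOUR statements, three of which do not mention invariants:

* `PT.Surj2LocSpec p S`     (A4, subtask 351, owner elsewhere);
* `LocalInvRecipSpec p S`   : non-zero functionals `inv_v` on `H²(G_v, μ_p)` with reciprocity;
* `LocDimSpec p S`          : `dim H²(G_v, Ind_W μ) ≤ 1`           (`Br(E)[p] ≅ ℤ/p`);
* `GlobCokerSpec p S`       : the global classes fill a hyperplane of `∏_v H²(G_v, Ind_U μ)`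
                              (`dim coker ≤ 1`; NO invariants, NO corestriction compatibility).

All statements are about the level-constant cochain cohomology of `PT/Levels.lean`.
-/

set_option autoImplicit false

noncomputable section

namespace Fermat.Agent.S55.Inv

open Fermat.Agent.S55.PT groupCohomology ExtCitation

variable (p : ℕ) [Fact p.Prime] (S : Finset Nat.Primes)

/-- **INV-1 (local invariants + reciprocity).**  There are NON-ZERO linear functionals
`inv_v : H²(G_v, μ_p) → F_p` (`v ∈ S`) such that `Σ_v inv_v(loc_v y) = 0` for every global class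
`y ∈ H²_S(μ_p)`.  (Any normalisation.) -/
def LocalInvRecipSpec : Prop :=
  ∃ inv : InvFamily p S, (∀ v : ↥S, inv v ≠ 0) ∧ RecipSpec inv

/-- **INV-2 (local dimension).**  For a normal local level `W` acting trivially on `μ_p`, the
space `H²(G_v, Ind_W μ_p)` is at most one-dimensional: any two classes are linearly dependent.
(Shapiro: it is `H²(E, μ_p) = Br(E)[p] ≅ ℤ/p`, `E` the fixed field of `W`.) -/
def LocDimSpec : Prop :=
  ∀ (v : ↥S) (W : Subgroup (Gl v.1)), W ∈ (localLevels v.1).levels → W.Normal →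
    (∀ s ∈ W, (muLoc p v.1).ρ s = 1) →
    ∀ x y : (localLevels v.1).H2 (indRep W (muLoc p v.1)),
      ∃ a b : ZMod p, (a ≠ 0 ∨ b ≠ 0) ∧ a • x + b • y = 0

/-- **INV-3 (global cokernel).**  For a normal global level `U` acting trivially on `μ_p`, the
image of `H²_S(Ind_U μ_p) → ∏_{v ∈ S} H²(G_v, Ind_U μ_p)` contains the kernel of some linear
functional, i.e. it has codimension `≤ 1`.
(Classically: `H²(G_S(K), μ_p) → ⊕_{w ∈ S_K} Br(K_w)[p]` has cokernel of order `≤ p`.) -/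
def GlobCokerSpec : Prop :=
  ∀ (U : Subgroup GQ), U ∈ (globalLevels S).levels → U.Normal → (∀ s ∈ U, (mu p).ρ s = 1) →
    ∃ f : ((v : ↥S) → (localLevels v.1).H2 (Rep.res (rl v.1) (indRep U (mu p)))) →ₗ[ZMod p]
        ZMod p,
      LinearMap.ker f ≤ LinearMap.range (loc2 (hrl S) (indRep U (mu p)))

end Fermat.Agent.S55.Inv

end

end
-- ===== PACK-END S55/Inv/Spec.lean

-- ===== PACK-BEGIN S55/H295/CohTriv.lean
section




/-!
# Cohomological triviality, part 5: the twin-vanishing criterion (`T4a`)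

`twinVanishing : T.TwinVanishingSpec`: if `H¹(H, A) = H²(H, A) = 0` for every subgroup `H` of the
finite group `G`, then `A` is cohomologically trivial, i.e. `Ĥⁿ(H, A) = 0` for all `n : ℤ` and all
`H ≤ G`.

More generally (`isCohTriv_of_tate_twin`), vanishing of `Ĥ^q` and `Ĥ^{q+1}` on all subgroups for
a single `q : ℤ` suffices.
-/

set_option autoImplicit false

open CategoryTheory groupCohomology Rep Limits

universe u

namespace Fermat.Agent.S55.H295

noncomputable section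

variable {k G : Type u} [CommRing k] [Group G]

/-- Tate cohomology in positive degrees is group cohomology (vanishing form). -/
lemma isZero_tate_iff_group {H : Type u} [Group H] [Fintype H] (M : Rep.{u} k H) (n : ℕ)
    [NeZero n] : IsZero (tateCohomology M (n : ℤ)) ↔ IsZero (groupCohomology M n) :=
  ((TateCohomology.isoGroupCohomology n).app M).isZero_iff

/-- Twin vanishing of Tate cohomology in degrees `q, q + 1` on all subgroups. -/
def TateTwin (A : Rep.{u} k G) (q : ℤ) : Prop :=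
  ∀ (H : Subgroup G) [Fintype H],
    IsZero (tateCohomology (res H.subtype A) q) ∧ IsZero (tateCohomology (res H.subtype A) (q + 1))

lemma TateTwin.cast {A : Rep.{u} k G} {q q' : ℤ} (h : TateTwin A q) (e : q = q') :
    TateTwin A q' := e ▸ h

lemma isZero_tate_up_iff (H : Subgroup G) [Fintype H] (A : Rep.{u} k G) (n m : ℤ)
    (h : n + 1 = m) :
    IsZero (tateCohomology (res H.subtype (H572.up A)) n) ↔
      IsZero (tateCohomology (res H.subtype A) m) := by
  subst h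
  exact (H572.tateUpIso H A n).isZero_iff

lemma isZero_tate_down_iff [Fintype G] (H : Subgroup G) [Fintype H] (A : Rep.{u} k G) (n m : ℤ)
    (h : n + 1 = m) :
    IsZero (tateCohomology (res H.subtype A) n) ↔
      IsZero (tateCohomology (res H.subtype (H572.down A)) m) := by
  subst h
  exact (H572.tateDownIso H A n).isZero_iff

lemma TateTwin.up {A : Rep.{u} k G} {q : ℤ} (h : TateTwin A (q + 1)) :
    TateTwin (H572.up A) q := fun H _ =>
  ⟨(isZero_tate_up_iff H A q (q + 1) rfl).2 (h H).1,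
    (isZero_tate_up_iff H A (q + 1) (q + 1 + 1) rfl).2 (h H).2⟩

lemma TateTwin.of_up {A : Rep.{u} k G} {q : ℤ} (h : TateTwin (H572.up A) q) :
    TateTwin A (q + 1) := fun H _ =>
  ⟨(isZero_tate_up_iff H A q (q + 1) rfl).1 (h H).1,
    (isZero_tate_up_iff H A (q + 1) (q + 1 + 1) rfl).1 (h H).2⟩

lemma TateTwin.down [Fintype G] {A : Rep.{u} k G} {q : ℤ} (h : TateTwin A q) :
    TateTwin (H572.down A) (q + 1) := fun H _ =>
  ⟨(isZero_tate_down_iff H A q (q + 1) rfl).1 (h H).1,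
    (isZero_tate_down_iff H A (q + 1) (q + 1 + 1) rfl).1 (h H).2⟩

lemma TateTwin.of_down [Fintype G] {A : Rep.{u} k G} {q : ℤ}
    (h : TateTwin (H572.down A) (q + 1)) : TateTwin A q := fun H _ =>
  ⟨(isZero_tate_down_iff H A q (q + 1) rfl).2 (h H).1,
    (isZero_tate_down_iff H A (q + 1) (q + 1 + 1) rfl).2 (h H).2⟩

section Finite

variable [Finite G]

/-- From Tate twin vanishing in degrees `d, d + 1 ≥ 1` to hom-form twin vanishing. -/
lemma TateTwin.twinVanish {A : Rep.{u} k G} (d : ℕ) [NeZero d]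
    (h : TateTwin A (d : ℤ)) : TwinVanish A d := by
  classical
  apply twinVanish_of_subgroups
  intro H
  let _ : Fintype H := Fintype.ofFinite H
  exact ⟨(isZero_tate_iff_group _ d).1 (h H).1, (isZero_tate_iff_group _ (d + 1)).1 (h H).2⟩

/-- Key step upward: Tate twin vanishing in degrees `1, 2` gives vanishing in degree `3`. -/
lemma TateTwin.three {A : Rep.{u} k G} (h : TateTwin A 1) (H : Subgroup G) [Fintype H] :
    IsZero (tateCohomology (res H.subtype A) 3) := by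
  have h1 : TwinVanish A 1 := TateTwin.twinVanish 1 h
  have h3 := isZero_H3_of_twinVanish (res H.subtype A) (h1.res H.subtype H.subtype_injective)
  exact (isZero_tate_iff_group (res H.subtype A) 3).2 h3

/-- Key step downward: Tate twin vanishing in degrees `2, 3` gives vanishing in degree `1`. -/
lemma TateTwin.one {A : Rep.{u} k G} (h : TateTwin A 2) (H : Subgroup G) [Fintype H] :
    IsZero (tateCohomology (res H.subtype A) 1) := by
  have h1 : TwinVanish A 2 := TateTwin.twinVanish 2 h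
  have h3 := isZero_H1_of_twinVanish (res H.subtype A) (h1.res H.subtype H.subtype_injective)
  exact (isZero_tate_iff_group (res H.subtype A) 1).2 h3

lemma TateTwin.succ_of_one {A : Rep.{u} k G} (h : TateTwin A 1) : TateTwin A 2 :=
  fun H _ => ⟨(h H).2, h.three H⟩

lemma TateTwin.pred_of_two {A : Rep.{u} k G} (h : TateTwin A 2) : TateTwin A 1 :=
  fun H _ => ⟨h.one H, (h H).1⟩

/-- Moving the window up by one, at an arbitrary position `1 + m`, `m ≥ 0`. -/
lemma TateTwin.succ_nat : ∀ (m : ℕ) (A : Rep.{u} k G), TateTwin A (1 + m) →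
    TateTwin A (1 + m + 1) := by
  intro m
  induction m with
  | zero =>
    intro A h
    have h' : TateTwin A 1 := h.cast (by simp)
    exact h'.succ_of_one.cast (by simp)
  | succ m ih =>
    intro A h
    have h1 : TateTwin (H572.up A) (1 + m) :=
      TateTwin.up (h.cast (by push_cast; ring))
    have h2 := (ih (H572.up A) h1).of_up
    exact h2.cast (by push_cast; ring)

end Finite

section Fintype

variable [Fintype G]

/-- Moving the window down by one, at an arbitrary position `2 - m`, `m ≥ 0`. -/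
lemma TateTwin.pred_nat : ∀ (m : ℕ) (A : Rep.{u} k G), TateTwin A (2 - m) →
    TateTwin A (2 - m - 1) := by
  intro m
  induction m with
  | zero =>
    intro A h
    have h' : TateTwin A 2 := h.cast (by simp)
    exact h'.pred_of_two.cast (by simp)
  | succ m ih =>
    intro A h
    have h1 : TateTwin (H572.down A) (2 - m) :=
      (TateTwin.down h).cast (by push_cast; ring)
    have h2 := ih (H572.down A) h1
    apply TateTwin.of_down
    exact h2.cast (by push_cast; ring)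

/-- From the window at `1` to the window at `1 + m`. -/
lemma TateTwin.add_nat (A : Rep.{u} k G) (h : TateTwin A 1) : ∀ m : ℕ, TateTwin A (1 + m) := by
  intro m
  induction m with
  | zero => exact h.cast (by simp)
  | succ m ih =>
    exact (TateTwin.succ_nat m A ih).cast (by push_cast; ring)

/-- From the window at `1` to the window at `1 - m`. -/
lemma TateTwin.sub_nat (A : Rep.{u} k G) (h : TateTwin A 1) : ∀ m : ℕ, TateTwin A (1 - m) := by
  intro m
  induction m with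
  | zero => exact h.cast (by simp)
  | succ m ih =>
    have h2 : TateTwin A (2 - (m + 1 : ℕ)) := ih.cast (by push_cast; ring)
    exact (TateTwin.pred_nat (m + 1) A h2).cast (by push_cast; ring)

/-- **Twin-vanishing criterion, Tate form at `1`.** -/
theorem isZero_tate_of_tateTwin_one (A : Rep.{u} k G) (h : TateTwin A 1)
    (H : Subgroup G) [Fintype H] (n : ℤ) :
    IsZero (tateCohomology (res H.subtype A) n) := by
  rcases le_total 1 n with hn | hn
  · obtain ⟨m, rfl⟩ : ∃ m : ℕ, n = 1 + m := ⟨(n - 1).toNat, by omega⟩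
    exact (TateTwin.add_nat A h m H).1
  · obtain ⟨m, rfl⟩ : ∃ m : ℕ, n = 1 - m := ⟨(1 - n).toNat, by omega⟩
    exact (TateTwin.sub_nat A h m H).1

end Fintype

end

end Fermat.Agent.S55.H295

end
-- ===== PACK-END S55/H295/CohTriv.lean

-- ===== PACK-BEGIN S55/G/Rec/Loc/H483/InertiaLift.lean
section



/-!
# S55 / G / REC / LOC : inertia lifting   (helper483)

`inertiaLift_of (hO : OpenSpec) : InertiaLiftSpec` — an element of the inertia subgroup of a
finite Galois level `E / K_V` is the restriction of an inertial element of `V`.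

Proof: finite-level surjectivity of inertia (`Local.H483.exists_inertial_lift`, a counting
argument) and compactness of `Gal(ℚ̄_q / K_V)` for the Krull topology.
-/

set_option autoImplicit false
set_option linter.unusedSectionVars false
set_option linter.style.haveILetI false

noncomputable section

namespace Fermat.Agent.S55.G.Rec.Loc.H483

open Fermat.Agent.S55.G.Rec Fermat.Agent.S55.G.Rec.Loc Fermat.Agent.S55.Local

section Level

variable (q : ℕ) [Fact q.Prime] (K : IntermediateField ℚ_[q] (PadicAlgCl q))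
  (M : IntermediateField K (PadicAlgCl q))

lemma isScalarTower_level : IsScalarTower ℚ_[q] M (PadicAlgCl q) :=
  IsScalarTower.of_algebraMap_eq (fun _ => rfl)

/-- integrality in a level is the norm condition -/
lemma isInt_level_iff (x : M) : IsInt ℤ_[q] ℚ_[q] M x ↔ ‖(x : PadicAlgCl q)‖ ≤ 1 := by
  haveI := isScalarTower_level q K M
  rw [← H724.isInt_algebraMap_iff724 ℤ_[q] ℚ_[q] M (PadicAlgCl q) x, ← normIntegral q]
  rfl

lemma inMax_level_iff (y : M) :
    Local.H483.InMax ℤ_[q] ℚ_[q] M y ↔ ‖(y : PadicAlgCl q)‖ < 1 := by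
  unfold Local.H483.InMax
  rw [isInt_level_iff, isInt_level_iff]
  have hinv : (((y⁻¹ : M)) : PadicAlgCl q) = (y : PadicAlgCl q)⁻¹ := rfl
  rw [hinv, norm_inv]
  by_cases hy : y = 0
  · subst hy
    simp
  · have hy' : (y : PadicAlgCl q) ≠ 0 := fun h => hy (Subtype.ext h)
    have hpos : 0 < ‖(y : PadicAlgCl q)‖ := norm_pos_iff.2 hy'
    constructor
    · rintro ⟨-, h | h⟩
      · exact absurd h hy
      · rw [not_le] at h
        exact (one_lt_inv₀ hpos).1 h
    · intro h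
      exact ⟨h.le, Or.inr (not_le.2 ((one_lt_inv₀ hpos).2 h))⟩

end Level

section Lift

variable (q : ℕ) [Fact q.Prime] (K : IntermediateField ℚ_[q] (PadicAlgCl q))
  [FiniteDimensional ℚ_[q] K]

/-- Finite-level surjectivity of inertia, for levels `E ≤ E'` inside `ℚ̄_q`. -/
theorem exists_inertial_lift_level (E E' : IntermediateField K (PadicAlgCl q))
    [FiniteDimensional K E] [IsGalois K E] [FiniteDimensional K E'] [IsGalois K E']
    (h : E ≤ E') (ι : E ≃ₐ[K] E)
    (hι : ∀ x : E, ‖(x : PadicAlgCl q)‖ ≤ 1 →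
      ‖((ι x : E) : PadicAlgCl q) - (x : PadicAlgCl q)‖ < 1) :
    ∃ σ : E' ≃ₐ[K] E',
      (∀ x : E', ‖(x : PadicAlgCl q)‖ ≤ 1 →
        ‖((σ x : E') : PadicAlgCl q) - (x : PadicAlgCl q)‖ < 1) ∧
      ∀ x : E, ((σ (IntermediateField.inclusion h x) : E') : PadicAlgCl q) =
        ((ι x : E) : PadicAlgCl q) := by
  letI : Algebra E E' := (IntermediateField.inclusion h).toAlgebra
  haveI : IsScalarTower K E E' := IsScalarTower.of_algebraMap_eq (fun _ => rfl)
  haveI : IsScalarTower ℚ_[q] E E' := IsScalarTower.of_algebraMap_eq (fun _ => rfl)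
  obtain ⟨σ, hσ, hσι⟩ := Local.H483.exists_inertial_lift ℤ_[q] ℚ_[q] K E' E ι (fun x hx => by
    rw [inMax_level_iff]
    exact hι x ((isInt_level_iff q K E x).1 hx))
  refine ⟨σ, fun x hx => ?_, fun x => ?_⟩
  · have := hσ x ((isInt_level_iff q K E' x).2 hx)
    rwa [inMax_level_iff] at this
  · exact congrArg (fun z : E' => (z : PadicAlgCl q)) (hσι x)

/-- for fixed `x`, any condition on `τ x` is open in the Krull topology -/
lemma isOpen_setOf_apply_mem (x : PadicAlgCl q) (T : Set (PadicAlgCl q)) :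
    IsOpen {τ : PadicAlgCl q ≃ₐ[K] PadicAlgCl q | τ x ∈ T} := by
  rw [isOpen_iff_forall_mem_open]
  intro τ₀ hτ₀
  refine ⟨(fun g => τ₀⁻¹ * g) ⁻¹'
    (MulAction.stabilizer (PadicAlgCl q ≃ₐ[K] PadicAlgCl q) x :
      Set (PadicAlgCl q ≃ₐ[K] PadicAlgCl q)), ?_, ?_, ?_⟩
  · intro g hg
    have h1 : (τ₀⁻¹ * g) • x = x := hg
    have h2 : g x = τ₀ x := by
      have := congrArg (fun y => τ₀ y) h1
      simpa [AlgEquiv.smul_def, AlgEquiv.mul_apply] using this
    show g x ∈ T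
    rw [h2]
    exact hτ₀
  · exact (stabilizer_isOpen_of_isIntegral x).preimage (continuous_const.mul continuous_id)
  · show τ₀⁻¹ * τ₀ ∈ MulAction.stabilizer _ x
    rw [inv_mul_cancel]
    exact Subgroup.one_mem _

lemma isClosed_setOf_apply_mem (x : PadicAlgCl q) (T : Set (PadicAlgCl q)) :
    IsClosed {τ : PadicAlgCl q ≃ₐ[K] PadicAlgCl q | τ x ∈ T} := by
  have := isOpen_setOf_apply_mem q K x Tᶜ
  rw [← isOpen_compl_iff]
  convert this using 1
  ext τ
  simp

/-- **Inertia lifting**, in terms of `Gal(ℚ̄_q / K)`. -/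
theorem exists_inertial_extension (E : IntermediateField K (PadicAlgCl q))
    [FiniteDimensional K E] [IsGalois K E] (ι : E ≃ₐ[K] E)
    (hι : ∀ x : E, ‖(x : PadicAlgCl q)‖ ≤ 1 →
      ‖((ι x : E) : PadicAlgCl q) - (x : PadicAlgCl q)‖ < 1) :
    ∃ τ : PadicAlgCl q ≃ₐ[K] PadicAlgCl q,
      (∀ x : PadicAlgCl q, ‖x‖ ≤ 1 → ‖τ x - x‖ < 1) ∧
      ∀ x : E, τ (x : PadicAlgCl q) = ((ι x : E) : PadicAlgCl q) := by
  haveI : IsGalois K (PadicAlgCl q) := inferInstance
  let S : FiniteGaloisIntermediateField K (PadicAlgCl q) →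
      Set (PadicAlgCl q ≃ₐ[K] PadicAlgCl q) := fun L =>
    {τ | (∀ x : E, τ (x : PadicAlgCl q) = ((ι x : E) : PadicAlgCl q)) ∧
      ∀ x ∈ L.toIntermediateField, ‖x‖ ≤ 1 → ‖τ x - x‖ < 1}
  have hmono : ∀ L₁ L₂ : FiniteGaloisIntermediateField K (PadicAlgCl q), L₁ ≤ L₂ →
      S L₂ ⊆ S L₁ := by
    intro L₁ L₂ hle τ hτ
    exact ⟨hτ.1, fun x hx hx1 => hτ.2 x (hle hx) hx1⟩
  have hdir : Directed (· ⊇ ·) S := by
    intro L₁ L₂
    exact ⟨L₁ ⊔ L₂, hmono _ _ le_sup_left, hmono _ _ le_sup_right⟩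
  have hclosed : ∀ L, IsClosed (S L) := by
    intro L
    have h1 : S L = (⋂ x : E, {τ : PadicAlgCl q ≃ₐ[K] PadicAlgCl q |
          τ (x : PadicAlgCl q) ∈ ({((ι x : E) : PadicAlgCl q)} : Set (PadicAlgCl q))}) ∩
        ⋂ x : PadicAlgCl q, {τ : PadicAlgCl q ≃ₐ[K] PadicAlgCl q |
          τ x ∈ {y : PadicAlgCl q | x ∈ L.toIntermediateField → ‖x‖ ≤ 1 → ‖y - x‖ < 1}} := by
      ext τ
      simp only [S, Set.mem_ofPred_eq, Set.mem_inter_iff, Set.mem_iInter, Set.mem_singleton_iff]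
    rw [h1]
    exact (isClosed_iInter fun x => isClosed_setOf_apply_mem q K _ _).inter
      (isClosed_iInter fun x => isClosed_setOf_apply_mem q K _ _)
  have hne : ∀ L, (S L).Nonempty := by
    intro L
    let E' : IntermediateField K (PadicAlgCl q) := E ⊔ L.toIntermediateField
    haveI : FiniteDimensional K E' := inferInstance
    haveI : IsGalois K E' := inferInstance
    have hle : E ≤ E' := le_sup_left
    have hle' : L.toIntermediateField ≤ E' := le_sup_right
    obtain ⟨σ, hσ, hσι⟩ := exists_inertial_lift_level q K E E' hle ι hι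
    refine ⟨σ.liftNormal (PadicAlgCl q), fun x => ?_, fun x hx hx1 => ?_⟩
    · have := σ.liftNormal_commutes (PadicAlgCl q) (IntermediateField.inclusion hle x)
      rw [← hσι x]
      exact this
    · have := σ.liftNormal_commutes (PadicAlgCl q) (⟨x, hle' hx⟩ : E')
      have h2 : σ.liftNormal (PadicAlgCl q) x = ((σ ⟨x, hle' hx⟩ : E') : PadicAlgCl q) := this
      rw [h2]
      exact hσ ⟨x, hle' hx⟩ hx1
  obtain ⟨τ, hτ⟩ := IsCompact.nonempty_iInter_of_directed_nonempty_isCompact_isClosed S hdir hne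
    (fun L => (hclosed L).isCompact) hclosed
  rw [Set.mem_iInter] at hτ
  refine ⟨τ, fun x hx => ?_, (hτ ⊥).1⟩
  exact (hτ (FiniteGaloisIntermediateField.adjoin K {x})).2 x
    (FiniteGaloisIntermediateField.subset_adjoin K {x} (Set.mem_singleton x)) hx

end Lift

/-- **LOC-INERT2** inertia lifting. -/
theorem inertiaLift_of (hO : OpenSpec) : InertiaLiftSpec := by
  intro q _ V hV E _ _ ι hι
  obtain ⟨hfin, hfix⟩ := hO q V hV
  haveI := hfin
  obtain ⟨τ, hτ1, hτ2⟩ := exists_inertial_extension q (fixedFld q V) E ι hι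
  have hmem0 : τ.restrictScalars ℚ_[q] ∈ (fixedFld q V).fixingSubgroup :=
    (IntermediateField.mem_fixingSubgroup_iff _ _).2 (fun x hx => τ.commutes ⟨x, hx⟩)
  have hmem : τ.restrictScalars ℚ_[q] ∈ V := hfix.le hmem0
  refine ⟨⟨τ.restrictScalars ℚ_[q], hmem⟩, fun x hx => hτ1 x hx, ?_⟩
  ext x
  rw [resHom_apply_coe]
  exact hτ2 x

end Fermat.Agent.S55.G.Rec.Loc.H483

end
end
-- ===== PACK-END S55/G/Rec/Loc/H483/InertiaLift.lean

-- ===== PACK-BEGIN S55/Bridge/H175/TowerDict.lean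
section






set_option autoImplicit false
set_option linter.style.haveILetI false
set_option linter.unusedSectionVars false

/-!
# B15: dictionary between the tower `Tow.Level` and concrete Galois groups / unit groups

For `L : Tow.Level S` with field `F = L.F`, and `q : Nat.Primes` with local level
`E = F_q = primeLocalLevel q F`:

* `level_isGalois`, `level_normal`, `level_finiteDimensional`;
* `galEquiv L : L.Gal ≃* Gal(F/ℚ)`, `unitsEquiv L : L.units ≃+ Fˣ` (equivariant);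
* `decEquiv L q : L.Dec q ≃* Gal(E/ℚ_q)`, `locUnitsEquiv L q : L.locUnits q ≃+ Eˣ` (equivariant);
* `galEquiv_decHom`, `decHom_injective`, `map_range_decHom` (image of the decomposition group =
  stabiliser of the prime `primeLevelPrime q F` of `𝓞 F`).
-/

open scoped NNReal Pointwise NumberField

namespace Fermat.Agent.S55.Bridge.H175

open ExtCitation Fermat.Agent.S55

variable {S : Finset Nat.Primes} (L : Tow.Level S) (q : Nat.Primes)

/-! ### The global side -/

theorem level_finiteDimensional : FiniteDimensional ℚ L.F := L.unram.1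

theorem level_isGalois : IsGalois ℚ L.F := by
  have hgal := Fermat.Agent.S54.isGalois_algebraicClosure_rat
  exact (InfiniteGalois.normal_iff_isGalois L.F).mp L.normalU

theorem level_normal : Normal ℚ L.F := (level_isGalois L).to_normal

theorem level_U_eq :
    haveI := level_normal L
    L.U = (AlgEquiv.restrictNormalHom (F := ℚ) (K₁ := AlgebraicClosure ℚ) L.F).ker := by
  exact (@IntermediateField.restrictNormalHom_ker _ _ _ _ _ L.F (level_normal L)).symm

/-- `Gal(ℚ̄/ℚ) ⧸ Gal(ℚ̄/F) ≃* Gal(F/ℚ)`. -/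
noncomputable def galEquiv : L.Gal ≃* (L.F ≃ₐ[ℚ] L.F) :=
  haveI := Fermat.Agent.S54.isGalois_algebraicClosure_rat
  haveI := level_normal L
  quotEquiv L.F L.U (level_U_eq L)

theorem galEquiv_mk_apply_coe (σ : Tow.GQ) (x : L.F) :
    ((galEquiv L (QuotientGroup.mk σ) x : L.F) : AlgebraicClosure ℚ) =
      σ (x : AlgebraicClosure ℚ) :=
  haveI := Fermat.Agent.S54.isGalois_algebraicClosure_rat
  haveI := level_normal L
  quotEquiv_mk_apply L.F L.U (level_U_eq L) σ x

/-- `(ℚ̄ˣ)^{Gal(ℚ̄/F)} ≃+ Fˣ`. -/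
noncomputable def unitsEquiv : (L.units).V ≃+ (Rep.ofAlgebraAutOnUnits ℚ L.F).V :=
  haveI := Fermat.Agent.S54.isGalois_algebraicClosure_rat
  haveI := level_normal L
  invUnitsEquiv L.F L.U (level_U_eq L)

/-- Equivariance of `unitsEquiv` along `galEquiv`. -/
theorem unitsEquiv_ρ (g : L.Gal) (x : (L.units).V) :
    unitsEquiv L ((L.units).ρ g x) =
      (Rep.ofAlgebraAutOnUnits ℚ L.F).ρ (galEquiv L g) (unitsEquiv L x) :=
  haveI := Fermat.Agent.S54.isGalois_algebraicClosure_rat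
  haveI := level_normal L
  invUnitsEquiv_ρ L.F L.U (level_U_eq L) g x

/-! ### The local side -/

theorem isGalois_padicAlgCl' :
    letI : Fact (q : ℕ).Prime := ⟨q.2⟩
    IsGalois ℚ_[(q : ℕ)] (PadicAlgCl (q : ℕ)) := by
  letI : Fact (q : ℕ).Prime := ⟨q.2⟩
  haveI := normal_padicAlgCl (q : ℕ)
  exact isGalois_iff.mpr ⟨inferInstance, inferInstance⟩

theorem normal_primeLocalLevel :
    letI : Fact (q : ℕ).Prime := ⟨q.2⟩
    Normal ℚ_[(q : ℕ)] (primeLocalLevel q L.F) := by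
  letI : Fact (q : ℕ).Prime := ⟨q.2⟩
  haveI := level_normal L
  exact normal_localLevel (q : ℕ) L.F

/-- `L.V q = Gal(ℚ̄_q/F_q)`. -/
theorem level_V_eq_fixingSubgroup :
    letI : Fact (q : ℕ).Prime := ⟨q.2⟩
    L.V q = (primeLocalLevel q L.F).fixingSubgroup :=
  comap_primeLocalToGlobal_fixingSubgroup q L.F

theorem level_V_eq :
    letI : Fact (q : ℕ).Prime := ⟨q.2⟩
    haveI := normal_primeLocalLevel L q
    L.V q = (AlgEquiv.restrictNormalHom (F := ℚ_[(q : ℕ)]) (K₁ := PadicAlgCl (q : ℕ))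
      (primeLocalLevel q L.F)).ker := by
  letI : Fact (q : ℕ).Prime := ⟨q.2⟩
  haveI := normal_primeLocalLevel L q
  exact (level_V_eq_fixingSubgroup L q).trans
    (IntermediateField.restrictNormalHom_ker (primeLocalLevel q L.F)).symm

/-- `Gal(ℚ̄_q/ℚ_q) ⧸ Gal(ℚ̄_q/F_q) ≃* Gal(F_q/ℚ_q)`. -/
noncomputable def decEquiv :
    letI : Fact (q : ℕ).Prime := ⟨q.2⟩
    L.Dec q ≃* (primeLocalLevel q L.F ≃ₐ[ℚ_[(q : ℕ)]] primeLocalLevel q L.F) :=
  letI : Fact (q : ℕ).Prime := ⟨q.2⟩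
  haveI := isGalois_padicAlgCl' q
  haveI := normal_primeLocalLevel L q
  quotEquiv (hNn := Tow.Level.normalV L q) (primeLocalLevel q L.F) (L.V q) (level_V_eq L q)

theorem decEquiv_mk_apply_coe
    (τ : letI : Fact (q : ℕ).Prime := ⟨q.2⟩
      PadicAlgCl (q : ℕ) ≃ₐ[ℚ_[(q : ℕ)]] PadicAlgCl (q : ℕ))
    (y : letI : Fact (q : ℕ).Prime := ⟨q.2⟩
      primeLocalLevel q L.F) :
    letI : Fact (q : ℕ).Prime := ⟨q.2⟩
    ((decEquiv L q (QuotientGroup.mk τ) y : primeLocalLevel q L.F) : PadicAlgCl (q : ℕ)) =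
      τ (y : PadicAlgCl (q : ℕ)) :=
  letI : Fact (q : ℕ).Prime := ⟨q.2⟩
  haveI := isGalois_padicAlgCl' q
  haveI := normal_primeLocalLevel L q
  quotEquiv_mk_apply (hNn := Tow.Level.normalV L q) (primeLocalLevel q L.F) (L.V q)
    (level_V_eq L q) τ y

/-- `(ℚ̄_qˣ)^{Gal(ℚ̄_q/F_q)} ≃+ F_qˣ`. -/
noncomputable def locUnitsEquiv :
    letI : Fact (q : ℕ).Prime := ⟨q.2⟩
    (L.locUnits q).V ≃+ (Rep.ofAlgebraAutOnUnits ℚ_[(q : ℕ)] (primeLocalLevel q L.F)).V :=
  letI : Fact (q : ℕ).Prime := ⟨q.2⟩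
  haveI := isGalois_padicAlgCl' q
  haveI := normal_primeLocalLevel L q
  invUnitsEquiv (hNn := Tow.Level.normalV L q) (primeLocalLevel q L.F) (L.V q) (level_V_eq L q)

/-- Equivariance of `locUnitsEquiv` along `decEquiv`. -/
theorem locUnitsEquiv_ρ (g : L.Dec q) (x : (L.locUnits q).V) :
    letI : Fact (q : ℕ).Prime := ⟨q.2⟩
    locUnitsEquiv L q ((L.locUnits q).ρ g x) =
      (Rep.ofAlgebraAutOnUnits ℚ_[(q : ℕ)] (primeLocalLevel q L.F)).ρ (decEquiv L q g)
        (locUnitsEquiv L q x) :=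
  letI : Fact (q : ℕ).Prime := ⟨q.2⟩
  haveI := isGalois_padicAlgCl' q
  haveI := normal_primeLocalLevel L q
  invUnitsEquiv_ρ (hNn := Tow.Level.normalV L q) (primeLocalLevel q L.F) (L.V q)
    (level_V_eq L q) g x

/-! ### Compatibility of the two sides -/

/-- `galEquiv ∘ decHom ∘ mk = primeToLevel` : the decomposition map of the tower is restriction
of automorphisms along `ι : F → F_q`. -/
theorem galEquiv_decHom_mk (τ : Tow.GQp q) :
    galEquiv L (L.decHom q (QuotientGroup.mk τ)) =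
      @primeToLevel q L.F (level_normal L) τ := rfl

/-- `ι (galEquiv (decHom g) x) = decEquiv g (ι x)` for `x ∈ F`. -/
theorem padicEmbedding_galEquiv_decHom (g : L.Dec q) (x : L.F) :
    letI : Fact (q : ℕ).Prime := ⟨q.2⟩
    padicEmbedding (q : ℕ) ((galEquiv L (L.decHom q g) x : L.F) : AlgebraicClosure ℚ) =
      ((decEquiv L q g ⟨padicEmbedding (q : ℕ) (x : AlgebraicClosure ℚ),
        padicEmbedding_mem_localLevel x.2⟩ : primeLocalLevel q L.F) : PadicAlgCl (q : ℕ)) := by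
  letI : Fact (q : ℕ).Prime := ⟨q.2⟩
  obtain ⟨τ, rfl⟩ := QuotientGroup.mk_surjective g
  have h1 := decEquiv_mk_apply_coe L q τ
    ⟨padicEmbedding (q : ℕ) (x : AlgebraicClosure ℚ), padicEmbedding_mem_localLevel x.2⟩
  have h2 := @padicEmbedding_toLevel (q : ℕ) _ L.F (level_normal L) τ x
  exact h2.trans h1.symm

/-- The decomposition map `Gal(F_q/ℚ_q) → Gal(F/ℚ)` of the tower is injective. -/
theorem decHom_injective : Function.Injective (L.decHom q) := by
  rw [injective_iff_map_eq_one]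
  intro g hg
  obtain ⟨τ, rfl⟩ := QuotientGroup.mk_surjective g
  have h1 : (QuotientGroup.mk (Tow.locQ q τ) : L.Gal) = 1 := hg
  rw [QuotientGroup.eq_one_iff] at h1
  exact (QuotientGroup.eq_one_iff τ).mpr h1

/-- **The image of the decomposition group of the tower in `Gal(F/ℚ)` is the stabiliser of the
prime `primeLevelPrime q F` of `𝓞 F`.** -/
theorem map_range_decHom :
    (L.decHom q).range.map (galEquiv L).toMonoidHom =
      MulAction.stabilizer (L.F ≃ₐ[ℚ] L.F) (primeLevelPrime q L.F) := by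
  haveI := level_normal L
  rw [← range_primeToLevel_eq_stabilizer q L.F]
  ext σ
  constructor
  · rintro ⟨_, ⟨g, rfl⟩, rfl⟩
    obtain ⟨τ, rfl⟩ := QuotientGroup.mk_surjective g
    exact ⟨τ, (galEquiv_decHom_mk L q τ).symm⟩
  · rintro ⟨τ, rfl⟩
    exact ⟨_, ⟨QuotientGroup.mk τ, rfl⟩, galEquiv_decHom_mk L q τ⟩

/-- Cardinality of the decomposition group of the tower: the local degree `[F_q : ℚ_q]`. -/
theorem card_dec :
    letI : Fact (q : ℕ).Prime := ⟨q.2⟩
    Nat.card (L.Dec q) = Module.finrank ℚ_[(q : ℕ)] (primeLocalLevel q L.F) := by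
  letI : Fact (q : ℕ).Prime := ⟨q.2⟩
  haveI := level_normal L
  haveI := level_finiteDimensional L
  haveI := finiteDimensional_localLevel (q : ℕ) L.F
  haveI := isGalois_localLevel (q : ℕ) L.F
  rw [Nat.card_congr (decEquiv L q).toEquiv]
  exact IsGalois.card_aut_eq_finrank ℚ_[(q : ℕ)] (localLevel (q : ℕ) L.F)

/-- Cardinality of the Galois group of the tower. -/
theorem card_gal : Nat.card L.Gal = Module.finrank ℚ L.F := by
  haveI := level_isGalois L
  haveI := level_finiteDimensional L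
  rw [Nat.card_congr (galEquiv L).toEquiv]
  exact IsGalois.card_aut_eq_finrank ℚ L.F

end Fermat.Agent.S55.Bridge.H175

end
-- ===== PACK-END S55/Bridge/H175/TowerDict.lean

-- ===== PACK-BEGIN S55/Bridge/SUnitDict.lean
section





/-!
# S55 bridge, part B17: the `S`-unit dictionary

For a tower level `L` the Prelude-style predicate `Tow.Level.IsSUnit` (unit at every place of `ℚ̄`
over a prime outside `S`) corresponds, under helper594's isomorphism
`E1.H594.levelUnitsIso : G.LRep L.Gal L.F ≅ L.units`, to the classical `S`-units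
`G.sUnit S L.F = ker (Fˣ → Div^S)` of layer G (`G/Defs.lean`).

* `forall_place_unit_iff_mem_sUnit` (field form), `isSUnit_levelUnitsIso_iff` (tower form).
-/

set_option autoImplicit false
set_option linter.unusedSectionVars false

namespace Fermat.Agent.S55.Bridge

open Fermat.Agent.S54 NumberField IsDedekindDomain Fermat.Agent.S55.E1.H594

attribute [local instance] isAlgebraic_Qbar isGalois_Qbar

variable {S : Finset Nat.Primes} (L : Tow.Level S)

/-- **B17c (field form).** `u ∈ Fˣ` is a unit at all places of `ℚ̄` over primes outside `S` iff it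
is an `S`-unit in the sense of layer G. -/
theorem forall_place_unit_iff_mem_sUnit (u : Additive (L.F)ˣ) :
    (∀ ℓ : Nat.Primes, ℓ ∉ S → ∀ A : ValuationSubring (AlgebraicClosure ℚ),
      A.LiesOverPrime (ℓ : ℕ) →
        (((u.toMul : (L.F)ˣ) : L.F) : AlgebraicClosure ℚ) ∈ A ∧
        ((((u.toMul)⁻¹ : (L.F)ˣ) : L.F) : AlgebraicClosure ℚ) ∈ A) ↔
      u ∈ G.sUnit S L.F := by
  rw [G.mem_sUnit_iff]
  constructor
  · intro h w
    rw [G.ordAt_eq_zero_iff]
    obtain ⟨q, hq, A, hA, hPA⟩ := exists_place_eq L.F w.1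
    have hqS : (⟨q, hq⟩ : Nat.Primes) ∉ S := by
      intro hmem
      apply w.2
      refine ⟨⟨q, hq⟩, hmem, ?_⟩
      rw [← hPA]
      exact H594.natCast_mem_primeBelowF L.F A hA
    have h1 := (unit_iff_valuation_eq_one L.F A hq hA u.toMul).1 (h ⟨q, hq⟩ hqS A hA)
    have hw : placePrime L.F A hq hA = w.1 := HeightOneSpectrum.ext hPA
    rw [hw] at h1
    exact h1
  · intro h ℓ hℓ A hA
    rw [unit_iff_valuation_eq_one L.F A ℓ.2 hA]
    have hout : ¬ G.IsAbove S L.F (placePrime L.F A ℓ.2 hA) := by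
      rintro ⟨q, hqS, hq⟩
      have hq' : ((q : ℕ) : AlgebraicClosure ℚ) ∈ A.nonunits := by
        have := (H594.mem_primeBelowF L.F A _).1 hq
        rwa [map_natCast] at this
      have hne : (ℓ : ℕ) ≠ q := by
        intro heq
        apply hℓ
        have : ℓ = q := Subtype.ext heq
        rw [this]
        exact hqS
      have hv := val_prime_eq_one (A := A) hA ℓ.2 q.2 hne
      rw [ValuationSubring.mem_nonunits_iff, hv] at hq'
      exact lt_irrefl _ hq'
    exact (G.ordAt_eq_zero_iff _ u).1 (h ⟨placePrime L.F A ℓ.2 hA, hout⟩)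

/-- **B17d (tower form).** Under `levelUnitsIso`, `Tow.Level.IsSUnit` is membership in the
`S`-units `G.sUnit S L.F` of layer G. -/
theorem isSUnit_levelUnitsIso_iff (u : Additive (L.F)ˣ) :
    L.IsSUnit ((levelUnitsIso L).hom.hom u) ↔ u ∈ G.sUnit S L.F := by
  rw [← forall_place_unit_iff_mem_sUnit]
  unfold Tow.Level.IsSUnit
  refine forall_congr' fun ℓ => forall_congr' fun _ => forall_congr' fun A =>
    forall_congr' fun _ => ?_
  have h1 : ((L.val ((levelUnitsIso L).hom.hom u) : Tow.Qbarˣ) : Tow.Qbar)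
      = (((u.toMul : (L.F)ˣ) : L.F) : AlgebraicClosure ℚ) := rfl
  have h2 : (((L.val ((levelUnitsIso L).hom.hom u))⁻¹ : Tow.Qbarˣ) : Tow.Qbar)
      = ((((u.toMul)⁻¹ : (L.F)ˣ) : L.F) : AlgebraicClosure ℚ) := by
    rw [Units.val_inv_eq_inv_val, h1, Units.val_inv_eq_inv_val]
    rfl
  rw [h1, h2]

end Fermat.Agent.S55.Bridge

end
-- ===== PACK-END S55/Bridge/SUnitDict.lean

-- ===== PACK-BEGIN S55/G/Exist121/Sat.lean
section




/-!
# S55, layer G, block EXIST: the Kummer level is Kummer-saturated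

Author: helper121.  Bridge between the intrinsic `p`-Selmer group `selmer S F p`
(`p ∣ ord_w(x)` for all primes `w` of `𝓞 F` not above `S`; `G/Defs.lean`) and the Prelude-style
condition `IsSelmerElt S p F x` (valuation subrings of `ℚ̄`) defining `kummerLevel S p F`:

* `isSelmerElt_of_mem_selmer` : `x ∈ selmer S F p → IsSelmerElt S p F x`;
* `exists_root_mem_kummerLevel` : every `x ∈ selmer S F p` has a `p`-th root in
  `kummerLevel S p F`.
-/

set_option autoImplicit false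
set_option linter.unusedSectionVars false
set_option linter.style.haveILetI false

open scoped NumberField
open IsDedekindDomain

noncomputable section

namespace Fermat.Agent.S55.G.Exist121

open Fermat.Agent.S55 Fermat.Agent.S55.G Fermat.Agent.S55.Bridge

variable (S : Finset Nat.Primes) (p : ℕ) (F : IntermediateField ℚ (AlgebraicClosure ℚ))
  [FiniteDimensional ℚ F]

attribute [local instance] H594.numberField_of_finite

/-- A place of `ℚ̄` over a prime `q ∉ S` induces a prime of `𝓞 F` not above `S`. -/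
lemma not_isAbove_placePrime {q : Nat.Primes} (hq : q ∉ S)
    (A : ValuationSubring (AlgebraicClosure ℚ)) (hA : A.LiesOverPrime (q : ℕ)) :
    ¬ IsAbove S F (placePrime F A q.2 hA) := by
  rintro ⟨q', hq'S, hq'w⟩
  have hne : q ≠ q' := fun h => hq (h ▸ hq'S)
  have hcop : Nat.Coprime (q : ℕ) (q' : ℕ) :=
    (Nat.coprime_primes q.2 q'.2).2 (fun h => hne (Subtype.ext h))
  have h1 : A.valuation ((q' : ℕ) : AlgebraicClosure ℚ) = 1 :=
    Fermat.Agent.S55.H893.val_natCast_eq_one_of_coprime hA hcop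
  have h2 : algebraMap (𝓞 F) (AlgebraicClosure ℚ) ((q' : ℕ) : 𝓞 F) ∈ A.nonunits :=
    (H594.mem_primeBelowF F A _).1 hq'w
  rw [map_natCast, ValuationSubring.mem_nonunits_iff, h1] at h2
  exact lt_irrefl _ h2

/-- **Intrinsic Selmer ⇒ Prelude Selmer.** -/
theorem isSelmerElt_of_mem_selmer (x : Additive (↥F)ˣ) (hx : x ∈ selmer S ↥F p) :
    IsSelmerElt S p F (((x.toMul : (↥F)ˣ) : ↥F) : AlgebraicClosure ℚ) := by
  refine ⟨(x.toMul : ↥F).2, ?_, fun q hq A hA => ?_⟩
  · intro h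
    have : ((x.toMul : (↥F)ˣ) : ↥F) = 0 := Subtype.ext h
    exact (Units.ne_zero _) this
  obtain ⟨d, hd⟩ := (mem_selmer_iff S ↥F p x).1 hx
  set w : HeightOneSpectrum (𝓞 F) := placePrime F A q.2 hA with hw
  have hwS : ¬ IsAbove S F w := not_isAbove_placePrime S F hq A hA
  let w' : PrimeOut S ↥F := ⟨w, hwS⟩
  set m : ℤ := d w' with hm
  have hord : ordAt w x = p * m := by
    have h1 : (p • d) w' = ordHom S ↥F x w' := DFunLike.congr_fun hd w'
    rw [ordHom_apply, Finsupp.smul_apply, nsmul_eq_mul] at h1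
    exact h1.symm
  obtain ⟨π, hπ⟩ := w.valuation_exists_uniformizer F
  have hπ0 : π ≠ 0 := by
    rintro rfl
    rw [map_zero] at hπ
    exact WithZero.exp_ne_zero hπ.symm
  -- the unit `u = x / π^(m p)`
  let πu : (↥F)ˣ := Units.mk0 π hπ0
  let u : (↥F)ˣ := x.toMul * (πu ^ m)⁻¹ ^ p
  have hval : w.valuation F (u : ↥F) = 1 := by
    have h1 : w.valuation F ((x.toMul : (↥F)ˣ) : ↥F) = WithZero.exp (-(p * m : ℤ)) := by
      rw [valuation_eq_exp_neg_ordAt, hord]
    have h2 : w.valuation F (((πu ^ m : (↥F)ˣ) : ↥F)) = WithZero.exp (-m) := by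
      rw [Units.val_zpow_eq_zpow_val, map_zpow₀]
      show (w.valuation F π) ^ m = _
      rw [hπ, ← WithZero.exp_zsmul]
      simp
    show w.valuation F (((x.toMul * (πu ^ m)⁻¹ ^ p : (↥F)ˣ) : ↥F)) = 1
    rw [Units.val_mul, Units.val_pow_eq_pow_val, Units.val_inv_eq_inv_val, map_mul, map_pow,
      map_inv₀, h1, h2, ← WithZero.exp_neg, ← WithZero.exp_nsmul, ← WithZero.exp_add]
    rw [← WithZero.exp_zero]
    congr 1
    simp only [nsmul_eq_mul, neg_neg]
    ring
  obtain ⟨h3, h4⟩ := (unit_iff_valuation_eq_one F A q.2 hA u).2 hval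
  refine ⟨((πu ^ m : (↥F)ˣ) : ↥F), ((πu ^ m : (↥F)ˣ) : ↥F).2, ?_, ?_, ?_⟩
  · intro h
    have : ((πu ^ m : (↥F)ˣ) : ↥F) = 0 := Subtype.ext h
    exact (Units.ne_zero _) this
  · have e1 : (((x.toMul : (↥F)ˣ) : ↥F) : AlgebraicClosure ℚ) /
        (((πu ^ m : (↥F)ˣ) : ↥F) : AlgebraicClosure ℚ) ^ p = ((u : ↥F) : AlgebraicClosure ℚ) := by
      show _ = (((x.toMul * (πu ^ m)⁻¹ ^ p : (↥F)ˣ) : ↥F) : AlgebraicClosure ℚ)
      rw [Units.val_mul, Units.val_pow_eq_pow_val, Units.val_inv_eq_inv_val]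
      push_cast
      rw [div_eq_mul_inv, inv_pow]
    rw [e1]
    exact h3
  · have e2 : (((πu ^ m : (↥F)ˣ) : ↥F) : AlgebraicClosure ℚ) ^ p /
        (((x.toMul : (↥F)ˣ) : ↥F) : AlgebraicClosure ℚ) =
        (((u⁻¹ : (↥F)ˣ) : ↥F) : AlgebraicClosure ℚ) := by
      show _ = ((((x.toMul * (πu ^ m)⁻¹ ^ p)⁻¹ : (↥F)ˣ) : ↥F) : AlgebraicClosure ℚ)
      rw [mul_inv, Units.val_mul, ← inv_pow, inv_inv, Units.val_pow_eq_pow_val,
        Units.val_inv_eq_inv_val]
      push_cast
      rw [div_eq_mul_inv, mul_comm]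
    rw [e2]
    exact h4

/-- **Saturation.**  Every element of the intrinsic Selmer group `selmer S F p` has a `p`-th
root in the Kummer level. -/
theorem exists_root_mem_kummerLevel (hp : p ≠ 0) (x : Additive (↥F)ˣ) (hx : x ∈ selmer S ↥F p) :
    ∃ β ∈ kummerLevel S p F,
      β ^ p = (((x.toMul : (↥F)ˣ) : ↥F) : AlgebraicClosure ℚ) := by
  obtain ⟨β, hβ⟩ := IsAlgClosed.exists_pow_nat_eq
    ((((x.toMul : (↥F)ˣ) : ↥F) : AlgebraicClosure ℚ)) (Nat.pos_of_ne_zero hp)
  refine ⟨β, mem_kummerLevel_of_pow ?_, hβ⟩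
  rw [hβ]
  exact isSelmerElt_of_mem_selmer S p F x hx

end Fermat.Agent.S55.G.Exist121

end
end
-- ===== PACK-END S55/G/Exist121/Sat.lean

-- ===== PACK-BEGIN S55/K/AR/Defs.lean
section
/-
S55 moonshot — LAYER K, block AR (ARITHMETIC CORE): definitions.        Architect: helper4.
Namespace `Fermat.Agent.S55.K.AR`.  No `sorry`.  Blueprint: `coord/S55-K-AR.md`.

Vocabulary = the tower (`Spec/Tower*.lean`, `Spec/Datum3.lean`, helper55) and the tower objects
of helper474 (`E1/Lim/Obj.lean`: `sUnits L = E(F)`, `Jtot L = ∏_{q ∈ S} J_q(F)`, `C1 D L = im(J → C)`,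
`diagTot`, `jTot`, `jC1`, `inclC1`, `trS`, `trJtot`, `trC1`, `ses`).

New here: cohomology of SUBGROUPS `H ≤ Gal(F/ℚ)` (relative extensions `F/K`, `K = F^H`) and the
inflation maps `Hⁿ(H, A(F)) → Hⁿ(H', A(F'))`, `H' = ` preimage of `H` in `Gal(F'/ℚ)`.
-/




set_option autoImplicit false

open CategoryTheory

namespace Fermat.Agent.S55.K.AR

open Fermat.Agent.S55 Fermat.Agent.S55.Tow

noncomputable section

variable {S : Finset Nat.Primes}

/-! ## Cohomology of subgroups -/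

section General

variable {Γ Γ' : Type} [Group Γ] [Group Γ']

/-- `Hⁿ(H, A)` for a subgroup `H ≤ Γ`. -/
abbrev Hn (H : Subgroup Γ) (A : Rep.{0} ℤ Γ) (n : ℕ) : ModuleCat.{0} ℤ :=
  groupCohomology (T.resSub A H) n

/-- The map `Hⁿ(H, A) → Hⁿ(H, B)` induced by `f : A ⟶ B`. -/
abbrev coe (H : Subgroup Γ) {A B : Rep.{0} ℤ Γ} (f : A ⟶ B) (n : ℕ) : Hn H A n →ₗ[ℤ] Hn H B n :=
  (T.coeffMap ((Rep.resFunctor H.subtype).map f) n).hom

/-- The restriction of `π : Γ' → Γ` to the preimage of `H`. -/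
abbrev projSub (π : Γ' →* Γ) (H : Subgroup Γ) : ↥(H.comap π) →* ↥H := π.subgroupComap H

/-- A semilinear map `t : Res_π A ⟶ A'` restricted to the preimage of `H`. -/
def semiSub (π : Γ' →* Γ) (H : Subgroup Γ) {A : Rep.{0} ℤ Γ} {A' : Rep.{0} ℤ Γ'}
    (t : Rep.res π A ⟶ A') :
    Rep.res (projSub π H) (T.resSub A H) ⟶ T.resSub A' (H.comap π) :=
  E1.Lim.semiOfAdd (projSub π H) (A := T.resSub A H) (B := T.resSub A' (H.comap π))
    { toFun := fun x => t.hom x
      map_zero' := map_zero t.hom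
      map_add' := map_add t.hom }
    (fun g x => Rep.hom_comm_apply t (g : Γ') x)

@[simp] lemma semiSub_apply (π : Γ' →* Γ) (H : Subgroup Γ) {A : Rep.{0} ℤ Γ}
    {A' : Rep.{0} ℤ Γ'} (t : Rep.res π A ⟶ A') (x : A.V) :
    (semiSub π H t).hom x = t.hom x := rfl

/-- **Inflation for subgroups**: `Hⁿ(H, A) → Hⁿ(π⁻¹ H, A')` along `π : Γ' → Γ` and a semilinear
`t : Res_π A ⟶ A'`. -/
def infSub (π : Γ' →* Γ) (H : Subgroup Γ) {A : Rep.{0} ℤ Γ} {A' : Rep.{0} ℤ Γ'}
    (t : Rep.res π A ⟶ A') (n : ℕ) : Hn H A n →ₗ[ℤ] Hn (H.comap π) A' n :=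
  (groupCohomology.map (projSub π H) (semiSub π H t) n).hom

/-- `x` is `p`-primary torsion. -/
def IsPPrim (p : ℕ) {A : Type} [AddCommGroup A] (x : A) : Prop := ∃ k : ℕ, p ^ k • x = 0

end General

/-! ## The tower -/

/-- The preimage of `H ≤ Gal(F/ℚ)` in `Gal(F'/ℚ)`:  `Gal(F'/K)` for `K = F^H`. -/
abbrev up {L L' : Level S} (h : L ≤ L') (H : Subgroup L.Gal) : Subgroup L'.Gal :=
  H.comap (Level.proj h)

/-- Inflation `Hⁿ(Gal(F/K), A(F)) → Hⁿ(Gal(F'/K), A'(F'))`. -/
abbrev infUp {L L' : Level S} (h : L ≤ L') (H : Subgroup L.Gal) {A : Rep.{0} ℤ L.Gal}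
    {A' : Rep.{0} ℤ L'.Gal} (t : Rep.res (Level.proj h) A ⟶ A') (n : ℕ) :
    Hn H A n →ₗ[ℤ] Hn (up h H) A' n :=
  infSub (Level.proj h) H t n

/-- The inclusion of the factor `J_q(F)` into `J(F) = ∏_{q ∈ S} J_q(F)`. -/
def inclJ (L : Level S) (q : S) : L.J q.1 ⟶ E1.Lim.Jtot L :=
  E1.Lim.homOfAdd
    { toFun := fun x => E1.Lim.piOf (A := fun q : S => L.J q.1)
        (Pi.single (M := fun q : S => (L.J q.1).V) q x)
      map_zero' := by
        refine E1.Lim.piRep_ext fun q' => ?_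
        show (Pi.single (M := fun q : S => (L.J q.1).V) q 0) q' = 0
        rw [Pi.single_zero]; rfl
      map_add' := fun x y => by
        refine E1.Lim.piRep_ext fun q' => ?_
        show (Pi.single (M := fun q : S => (L.J q.1).V) q (x + y)) q' =
          (Pi.single (M := fun q : S => (L.J q.1).V) q x) q' +
            (Pi.single (M := fun q : S => (L.J q.1).V) q y) q'
        rw [Pi.single_add]; rfl }
    (fun g x => by
      refine E1.Lim.piRep_ext fun q' => ?_
      show (Pi.single (M := fun q : S => (L.J q.1).V) q ((L.J q.1).ρ g x)) q' =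
        (L.J q'.1).ρ g ((Pi.single (M := fun q : S => (L.J q.1).V) q x) q')
      by_cases hq : q' = q
      · subst hq
        rw [Pi.single_eq_same, Pi.single_eq_same]
      · rw [Pi.single_eq_of_ne hq, Pi.single_eq_of_ne hq, map_zero])

lemma piTo_inclJ_same (L : Level S) (q : S) (x : (L.J q.1).V) :
    E1.Lim.piTo ((inclJ L q).hom x) q = x := by
  show (Pi.single (M := fun q : S => (L.J q.1).V) q x) q = x
  rw [Pi.single_eq_same]

lemma piTo_inclJ_of_ne (L : Level S) {q q' : S} (h : q' ≠ q) (x : (L.J q.1).V) :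
    E1.Lim.piTo ((inclJ L q).hom x) q' = 0 := by
  show (Pi.single (M := fun q : S => (L.J q.1).V) q x) q' = 0
  rw [Pi.single_eq_of_ne h]

/-- `j ∘ incl_q = j_q`. -/
lemma jTot_inclJ (D : TowerDatum S) (L : Level S) (q : S) (x : (L.J q.1).V) :
    (E1.Lim.jTot D L).hom ((inclJ L q).hom x) = (D.j L q.1).hom x := by
  classical
  rw [E1.Lim.jTot_apply, Finset.sum_eq_single q]
  · rw [piTo_inclJ_same]
  · intro q' _ hq'
    rw [piTo_inclJ_of_ne L hq', map_zero]
  · intro h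
    exact absurd (Finset.mem_univ q) h

end

end Fermat.Agent.S55.K.AR

end
-- ===== PACK-END S55/K/AR/Defs.lean

-- ===== PACK-BEGIN S55/H696/Devissage.lean
section


/-!
# S55 / dévissage for level-constant `H³` (helper696): main theorem

`devissage` : let `G` be a group with a level system `L` (normal levels cofinal, levels of finite
index), `p` a prime, `μ` a uniformly smooth one-dimensional `𝔽_p`-representation such that
`H³_lc(G, Ind_H μ) = 0` for every open subgroup `H` acting trivially on `μ`.  Then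
`H³_lc(G, R) = 0` for every finite-dimensional uniformly smooth `𝔽_p`-representation `R`.

The statement is (up to the names `IsOpenSubgroup`, `H3Van`, which are verbatim copies of
`KL.IsOpenSub`, `KL.H3Vanish`) the leaf **KL-P3** `H3DevissageSpec` of helper53's layer KL.

Proof.  `U` a normal level acting trivially on `R` and `μ`, `H` the preimage of a Sylow
`p`-subgroup of `G ⧸ U`.
* `R` is a retract (up to the unit `[G : H]`) of `Ind_H R`            (`h3Van_of_filtRep_top`);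
* `Ind_H R = filt ⊤` has a `G`-stable flag `filt N`, `N` running through an `H`-stable flag of
  `R` with trivial graded pieces, and `filt N / filt N' ≅ Ind_H μ`     (`h3Van_filtRep`);
* `H³_lc = 0` is stable under extensions                               (`h3Van_of_ses`).
-/

set_option autoImplicit false
set_option linter.style.haveILetI false

noncomputable section

namespace Fermat.Agent.S55.H696

open groupCohomology Fermat.Agent.S55.PT

variable {G : Type} [Group G] {p : ℕ} [hp : Fact p.Prime]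

/-- Induction along the flag. -/
theorem h3Van_filtRep (L : LevelSys G) (hN : L.NormalCofinal) (H U : Subgroup G) [U.Normal]
    (hU : U ∈ L.levels) (hUH : U ≤ H) (hpow : ∀ h ∈ H, ∃ n : ℕ, h ^ p ^ n ∈ U)
    (R μ : Rep.{0, 0, 0} (ZMod p) G) [FiniteDimensional (ZMod p) R]
    (hUR : ∀ s ∈ U, ∀ r : R, R.ρ s r = r)
    (hμ1 : Module.finrank (ZMod p) μ = 1) (hμH : ∀ h ∈ H, μ.ρ h = 1)
    (hInd : H3Van L (indRep H μ)) :
    ∀ (d : ℕ) (N : Submodule (ZMod p) R), (∀ h ∈ H, N ≤ N.comap (R.ρ h)) →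
      Module.finrank (ZMod p) N = d → H3Van L (filtRep H R N) := by
  intro d
  induction d using Nat.strong_induction_on with
  | _ d ih =>
    intro N hNH hd
    by_cases hbot : N = ⊥
    · subst hbot
      exact h3Van_of_subsingleton L
    · -- an invariant linear form
      let ρH : Representation (ZMod p) ↥H R := R.ρ.comp H.subtype
      have hpow' : ∀ h : ↥H, ∃ n : ℕ, ρH (h ^ p ^ n) = 1 := by
        intro h
        obtain ⟨n, hn⟩ := hpow h h.2
        refine ⟨n, ?_⟩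
        apply LinearMap.ext
        intro r
        show R.ρ ((h ^ p ^ n : ↥H) : G) r = r
        rw [Subgroup.coe_pow]
        exact hUR _ hn r
      obtain ⟨ℓ, hℓ, n₀, hn₀, hℓn₀⟩ := exists_invariant_functional ρH hpow' N hbot
        (fun h => hNH h h.2)
      have hℓ' : ∀ h ∈ H, ∀ n ∈ N, ℓ (R.ρ h n) = ℓ n := fun h hh n hn => hℓ ⟨h, hh⟩ n hn
      obtain ⟨m₀, hm₀, -⟩ := finrank_eq_one_iff'.1 hμ1
      -- the smaller subspace
      have hN'H : ∀ h ∈ H, (N ⊓ LinearMap.ker ℓ) ≤ (N ⊓ LinearMap.ker ℓ).comap (R.ρ h) := by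
        intro h hh n hn
        refine ⟨hNH h hh hn.1, ?_⟩
        show ℓ (R.ρ h n) = 0
        rw [hℓ' h hh n hn.1]
        exact hn.2
      have hlt : N ⊓ LinearMap.ker ℓ < N := by
        refine lt_of_le_of_ne inf_le_left fun h => ?_
        have : n₀ ∈ N ⊓ LinearMap.ker ℓ := by rw [h]; exact hn₀
        exact hℓn₀ this.2
      have hfr : Module.finrank (ZMod p) ↥(N ⊓ LinearMap.ker ℓ) < d := by
        rw [← hd]
        exact Submodule.finrank_lt_finrank_of_lt hlt
      have hA : H3Van L (filtRep H R (N ⊓ LinearMap.ker ℓ)) := ih _ hfr _ hN'H rfl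
      have hBs : L.IsUSmooth (filtRep H R N) :=
        ⟨U, hU, fun s hs a => Subtype.ext (indAct_eq_self_of_normal H R U hUH hUR s hs a.1)⟩
      exact h3Van_of_ses (filtSES H R μ ℓ m₀ N hμ1 hμH hNH hℓ' hm₀ ⟨n₀, hn₀, hℓn₀⟩) hN hBs
        hA hInd

/-- `R` is a retract of `Ind_H R` if `[G : H]` is prime to `p`. -/
theorem h3Van_of_filtRep_top (L : LevelSys G) (H : Subgroup G) [H.FiniteIndex]
    (hidx : ¬ p ∣ H.index) (R : Rep.{0, 0, 0} (ZMod p) G)
    (h : H3Van L (filtRep H R ⊤)) : H3Van L R := by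
  classical
  haveI : Fintype (G ⧸ H) := Fintype.ofFinite _
  let diag0 : R →ₗ[ZMod p] ((G ⧸ H) →₀ R) := ∑ x : G ⧸ H, Finsupp.lsingle x
  have hdiag0 : ∀ r : R, diag0 r = ∑ x : G ⧸ H, Finsupp.single x r := by
    intro r
    simp only [diag0, LinearMap.sum_apply, Finsupp.lsingle_apply]
  let diag : R →ₗ[ZMod p] ↥(filt H R (⊤ : Submodule (ZMod p) R)) :=
    diag0.codRestrict _ (fun _ _ => Submodule.mem_top)
  let aug : ↥(filt H R (⊤ : Submodule (ZMod p) R)) →ₗ[ZMod p] R :=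
    (indAug H R) ∘ₗ (filt H R ⊤).subtype
  have hdiag : IsEquivariant (A := R) (B := filtRep H R ⊤) diag := by
    intro g r
    apply Subtype.ext
    show diag0 (R.ρ g r) = indAct H R g (diag0 r)
    rw [hdiag0, hdiag0, map_sum]
    simp only [indAct_single]
    exact (Equiv.sum_comp (MulAction.toPerm g : Equiv.Perm (G ⧸ H))
      (fun x => (Finsupp.single x (R.ρ g r) : (G ⧸ H) →₀ R))).symm
  have haug : IsEquivariant (A := filtRep H R ⊤) (B := R) aug := by
    intro g f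
    exact indAug_equivariant H R g f.1
  have hc : ((H.index : ℕ) : ZMod p) ≠ 0 := by
    rw [Ne, ZMod.natCast_eq_zero_iff]
    exact hidx
  refine h3Van_of_retract hdiag haug hc (fun r => ?_) h
  show indAug H R (diag0 r) = _
  rw [hdiag0, map_sum]
  simp only [indAug_single, Finset.sum_const, Finset.card_univ]
  rw [← Nat.card_eq_fintype_card, ← Subgroup.index_eq_card, Nat.cast_smul_eq_nsmul]

/-- **Dévissage** (leaf KL-P3). -/
theorem devissage (G : Type) [Group G] (L : LevelSys G) (p : ℕ) [Fact p.Prime]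
    (μ : Rep.{0, 0, 0} (ZMod p) G)
    (hNC : L.NormalCofinal) (hFI : L.FiniteIndex) (hμ1 : Module.finrank (ZMod p) μ = 1)
    (hμs : L.IsUSmooth μ)
    (hInd : ∀ H : Subgroup G, IsOpenSubgroup L H → (∀ s ∈ H, μ.ρ s = 1) →
      H3Van L (indRep H μ))
    (R : Rep.{0, 0, 0} (ZMod p) G) (hR : FiniteDimensional (ZMod p) R) (hRs : L.IsUSmooth R) :
    H3Van L R := by
  classical
  obtain ⟨U₁, hU₁, h1⟩ := hμs
  obtain ⟨U₂, hU₂, h2⟩ := hRs
  obtain ⟨U, hU, hUU₁, hUU₂, hUn⟩ := exists_normal_level_le hNC hU₁ hU₂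
  haveI := hUn
  haveI : U.FiniteIndex := hFI U hU
  haveI : Finite (G ⧸ U) := Subgroup.finite_quotient_of_finiteIndex
  let P : Sylow p (G ⧸ U) := Classical.arbitrary _
  let H : Subgroup G := (P : Subgroup (G ⧸ U)).comap (QuotientGroup.mk' U)
  have hUH : U ≤ H := by
    intro s hs
    show QuotientGroup.mk' U s ∈ (P : Subgroup (G ⧸ U))
    have h1 : QuotientGroup.mk' U s = 1 := (QuotientGroup.eq_one_iff s).2 hs
    rw [h1]
    exact Subgroup.one_mem _
  have hpow : ∀ h ∈ H, ∃ n : ℕ, h ^ p ^ n ∈ U := by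
    intro h hh
    obtain ⟨n, hn⟩ := P.isPGroup' ⟨QuotientGroup.mk' U h, hh⟩
    refine ⟨n, ?_⟩
    have h3 := congrArg Subtype.val hn
    simp only [Subgroup.coe_pow, Subgroup.coe_one] at h3
    rw [← map_pow] at h3
    exact (QuotientGroup.eq_one_iff _).1 h3
  have hidx : ¬ p ∣ H.index := by
    have : H.index = (P : Subgroup (G ⧸ U)).index :=
      Subgroup.index_comap_of_surjective _ (QuotientGroup.mk'_surjective U)
    rw [this]
    exact P.not_dvd_index
  haveI : H.FiniteIndex := ⟨fun h0 => hidx (by rw [h0]; exact dvd_zero p)⟩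
  have hμH : ∀ h ∈ H, μ.ρ h = 1 := by
    intro h hh
    obtain ⟨n, hn⟩ := hpow h hh
    refine rho_eq_one_of_finrank_eq_one μ.ρ hμ1 h n ?_
    apply LinearMap.ext
    intro m
    exact h1 _ (hUU₁ hn) m
  have hIndH : H3Van L (indRep H μ) := hInd H ⟨U, hU, hUH⟩ hμH
  haveI := hR
  have htop : H3Van L (filtRep H R ⊤) :=
    h3Van_filtRep L hNC H U hU hUH hpow R μ (fun s hs r => h2 s (hUU₂ hs) r) hμ1 hμH hIndH _ ⊤
      (fun _ _ _ _ => Submodule.mem_top) rfl
  exact h3Van_of_filtRep_top L H hidx R htop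

end Fermat.Agent.S55.H696

end

end
-- ===== PACK-END S55/H696/Devissage.lean

-- ===== PACK-BEGIN S55/Mackey/Shapiro.lean
section


/-!
# S55 (helper61): Mackey–Shapiro — user-facing forms

* `shapiro_bijective` : explicit Shapiro lemma, `Hⁿ(G, Coind_S^G A) → Hⁿ(S, A)` induced by
  `S ↪ G` and evaluation at `1` is bijective;
* `twEv`, `mackey_bijective_of_bijective` : for a `G`-representation `M` and a `D`-equivariant map
  `π : M → A` such that `m ↦ (g ↦ π (g • m))` is a bijection of `M` onto `Coind_D^G A`, the map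
  `Hⁿ(H, Res_α M) → ∏ᵢ Hⁿ(Hs i, Res(κ i) A)` induced by `j i` and `m ↦ π (x i • m)` is bijective;
* `shapiro_bijective_of_bijective` : the same for `H = G`: `Hⁿ(G, M) → Hⁿ(D, A)` induced by
  `D ↪ G` and `π` is bijective.
-/

set_option autoImplicit false

open CategoryTheory CategoryTheory.Limits groupCohomology

namespace Fermat.Agent.S55.Mackey

universe u v

variable {k G : Type u} [CommRing k] [Group G]

section Shapiro

variable (S : Subgroup G)

/-- The trivial Mackey system computing `Hⁿ(G, Coind_S^G A)`. -/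
lemma isMackeySystem_shapiro :
    IsMackeySystem (ι := Unit) (MonoidHom.id G) S (fun _ => S) (fun _ => S.subtype)
      (fun _ => MonoidHom.id S) (fun _ => 1) where
  comm := fun _ h' => by simp
  inj := fun _ => Subtype.val_injective
  full := fun _ h hh => ⟨⟨h, by simpa using hh⟩, rfl⟩
  cover := fun g => ⟨(), 1, g, by simp⟩
  disj := fun _ _ _ _ _ => rfl

/-- Evaluation at `1`, an `S`-equivariant map `Coind_S^G A → A`. -/
noncomputable def shapiroEv (A : Rep.{u} k S) : Rep.res S.subtype (Rep.coind S.subtype A) ⟶ A :=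
  evAt (MonoidHom.id G) A S.subtype (MonoidHom.id S) 1 (fun h' => by simp)

@[simp]
lemma shapiroEv_hom_apply (A : Rep.{u} k S) (f : (Rep.coind S.subtype A).V) :
    (shapiroEv S A).hom f = f.1 1 := rfl

/-- **Explicit Shapiro lemma**: the map `Hⁿ(G, Coind_S^G A) → Hⁿ(S, A)` induced by the inclusion
`S ↪ G` and evaluation at `1` is bijective. -/
theorem shapiro_bijective (A : Rep.{u} k S) (n : ℕ) :
    Function.Bijective (map S.subtype (shapiroEv S A) n).hom := by
  have h := mackeyPi_bijective (k := k) (Function.injective_id) (isMackeySystem_shapiro S) n A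
  have h2 : Function.Bijective
      (fun f : (∀ _ : Unit, groupCohomology (Rep.res (MonoidHom.id S) A) n) => f ()) :=
    ⟨fun f g hfg => funext fun _ => hfg, fun y => ⟨fun _ => y, rfl⟩⟩
  exact h2.comp h

end Shapiro

section User

variable {H : Type u} [Group H]
variable {ι : Type v} {α : H →* G} {D : Subgroup G} {Hs : ι → Type u} [∀ i, Group (Hs i)]
  {j : ∀ i, Hs i →* H} {κ : ∀ i, Hs i →* D} {x : ι → G}

/-- The lift `M → Coind_D^G A`, `m ↦ (g ↦ π (g • m))`, of a `D`-equivariant map `π : M → A`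
(this is Mathlib's `Rep.resCoindToHom` with all universes equal). -/
noncomputable abbrev coindLift {D : Subgroup G} {M : Rep.{u} k G} {A : Rep.{u} k D}
    (π : Rep.res D.subtype M ⟶ A) : M ⟶ Rep.coind D.subtype A :=
  Rep.resCoindToHom.{u, u, u, u} D.subtype M A π

lemma coindLift_hom_apply {D : Subgroup G} {M : Rep.{u} k G} {A : Rep.{u} k D}
    (π : Rep.res D.subtype M ⟶ A) (m : M.V) (g : G) :
    ((coindLift π).hom m).1 g = π.hom (M.ρ g m) := rfl

/-- For `M : Rep k G` and a `D`-equivariant map `π : M → A`, the `Hs i`-equivariant map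
`m ↦ π (x i • m)` from `M` to `A`. -/
noncomputable def twEv (hsys : IsMackeySystem α D Hs j κ x) {M : Rep.{u} k G} {A : Rep.{u} k D}
    (π : Rep.res D.subtype M ⟶ A) (i : ι) :
    Rep.res (j i) (Rep.res α M) ⟶ Rep.res (κ i) A :=
  (Rep.resFunctor (j i)).map ((Rep.resFunctor α).map (coindLift π)) ≫
    evAt α A (j i) (κ i) (x i) (hsys.comm i)

lemma twEv_hom_apply (hsys : IsMackeySystem α D Hs j κ x) {M : Rep.{u} k G} {A : Rep.{u} k D}
    (π : Rep.res D.subtype M ⟶ A) (i : ι) (m : M.V) :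
    (twEv hsys π i).hom m = π.hom (M.ρ (x i) m) := rfl

/-- **Mackey decomposition, user-facing form.** If `π : M → A` is `D`-equivariant and
`m ↦ (g ↦ π (g • m))` is a bijection of `M` onto `Coind_D^G A`, then
`Hⁿ(H, Res_α M) → ∏ᵢ Hⁿ(Hs i, Res(κ i) A)`, induced by `j i` and `m ↦ π (x i • m)`, is
bijective. -/
theorem mackey_bijective_of_bijective (hα : Function.Injective α)
    (hsys : IsMackeySystem α D Hs j κ x) {M : Rep.{u} k G} {A : Rep.{u} k D}
    (π : Rep.res D.subtype M ⟶ A)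
    (hπ : Function.Bijective (coindLift π).hom) (n : ℕ) :
    Function.Bijective (fun (c : groupCohomology (Rep.res α M) n) (i : ι) =>
      (map (j i) (twEv hsys π i) n).hom c) := by
  -- the lift is an isomorphism
  have hiso : IsIso (coindLift π) := by
    have h1 : Mono (coindLift π) := (Rep.mono_iff_injective _).2 hπ.1
    have h2 : Epi (coindLift π) := (Rep.epi_iff_surjective _).2 hπ.2
    exact isIso_of_mono_of_epi _
  have hiso1 : IsIso ((Rep.resFunctor α).map (coindLift π)) := Functor.map_isIso _ _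
  have hiso2 : IsIso ((groupCohomology.functor k H n).map
      ((Rep.resFunctor α).map (coindLift π))) := Functor.map_isIso _ _
  have hbij : Function.Bijective ((groupCohomology.functor k H n).map
      ((Rep.resFunctor α).map (coindLift π))).hom :=
    ConcreteCategory.bijective_of_isIso _
  have hcomp : (fun (c : groupCohomology (Rep.res α M) n) (i : ι) =>
      (map (j i) (twEv hsys π i) n).hom c) =
      (mackeyPi hsys A n) ∘ ((groupCohomology.functor k H n).map
      ((Rep.resFunctor α).map (coindLift π))).hom := by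
    funext c i
    have h := map_comp (A := Rep.res α M) (B := indRes α A) (MonoidHom.id H) (j i)
      ((Rep.resFunctor α).map (coindLift π))
      (evAt α A (j i) (κ i) (x i) (hsys.comm i)) n
    exact congrArg (fun f => f.hom c) h
  rw [hcomp]
  exact (mackeyPi_bijective hα hsys n A).comp hbij

/-- **Shapiro, user-facing form.** If `π : M → A` is `D`-equivariant and `m ↦ (g ↦ π (g • m))` is
a bijection of `M` onto `Coind_D^G A`, then `Hⁿ(G, M) → Hⁿ(D, A)`, induced by `D ↪ G` and `π`,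
is bijective. -/
theorem shapiro_bijective_of_bijective {D : Subgroup G} {M : Rep.{u} k G} {A : Rep.{u} k D}
    (π : Rep.res D.subtype M ⟶ A)
    (hπ : Function.Bijective (coindLift π).hom) (n : ℕ) :
    Function.Bijective (map D.subtype π n).hom := by
  have h := mackey_bijective_of_bijective (k := k) Function.injective_id
    (isMackeySystem_shapiro D) π hπ n
  have h2 : Function.Bijective
      (fun f : (∀ _ : Unit, groupCohomology (Rep.res (MonoidHom.id D) A) n) => f ()) :=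
    ⟨fun f g hfg => funext fun _ => hfg, fun y => ⟨fun _ => y, rfl⟩⟩
  have h3 := h2.comp h
  have h4 : twEv (isMackeySystem_shapiro D) π () = π := by
    ext m
    change π.hom (M.ρ 1 m) = π.hom m
    rw [map_one]
    rfl
  have h5 : (map D.subtype π n).hom =
      (fun f : (∀ _ : Unit, groupCohomology (Rep.res (MonoidHom.id D) A) n) => f ()) ∘
      (fun (c : groupCohomology (Rep.res (MonoidHom.id G) M) n) (i : Unit) =>
      (map D.subtype (twEv (isMackeySystem_shapiro D) π i) n).hom c) := by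
    funext c
    change _ = (map D.subtype (twEv (isMackeySystem_shapiro D) π ()) n).hom c
    rw [h4]
  rw [h5]
  exact h3

end User

end Fermat.Agent.S55.Mackey

end
-- ===== PACK-END S55/Mackey/Shapiro.lean

-- ===== PACK-BEGIN S55/PT/FinGlobH593.lean
section



/-!
# S55 / layer K, input A1 (FIN-glob) of the duality engine D   (helper593)

`finGlob p S : FinGlobSpec p S` — for every finite-dimensional `F_p`-representation `N` of `G_ℚ`
on which some level `G_F` (`F/ℚ` finite, unramified outside `S`) acts trivially, the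
level-constant cohomology group `H¹_S(N) = (globalLevels S).H1 N` is finite-dimensional.

UNCONDITIONAL (no hypothesis `p ∈ S`): a cocycle that is level-constant for `S` is level-constant
for `S' = S ∪ {p}`, and helper901's uniform level bound (`H901.exists_level_bound`, Kummer theory +
finiteness of the Selmer group `L(S', p)`) applies to `S'`.  Hence all `S`-level-constant
cocycles factor through ONE finite quotient `G_ℚ / G_{Lmax}`, so that `Z¹_S(N)` is a finite set.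

Also exported: `finite_Z1` (the cocycle group itself is finite), `finite_H1`.
-/

set_option autoImplicit false
set_option linter.style.haveILetI false

namespace Fermat.Agent.S55.PT.H593

open groupCohomology ExtCitation IntermediateField Fermat.Agent.S55.PT

variable (p : ℕ) [Fact p.Prime] (S : Finset Nat.Primes)

/-- A uniformly smooth representation for `globalLevels S` is smooth in the Prelude's sense. -/
theorem smooth_of_isUSmooth (N : Rep.{0, 0, 0} (ZMod p) GQ)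
    (h : (globalLevels S).IsUSmooth N) :
    ∀ m : N, ∃ F : IntermediateField ℚ (AlgebraicClosure ℚ), FiniteDimensional ℚ F ∧
      ∀ s ∈ F.fixingSubgroup, N.ρ s m = m := by
  obtain ⟨U, ⟨F, hF, rfl⟩, hU⟩ := h
  exact fun m => ⟨F, hF.1, fun s hs => hU s hs m⟩

/-- A uniformly smooth representation for `globalLevels S` is unramified outside every
`S' ⊇ S`. -/
theorem unramified_of_isUSmooth (N : Rep.{0, 0, 0} (ZMod p) GQ)
    (h : (globalLevels S).IsUSmooth N) {S' : Finset Nat.Primes} (hSS' : S ⊆ S') :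
    ∀ q : Nat.Primes, q ∉ S' → ∀ A : ValuationSubring (AlgebraicClosure ℚ),
      A.LiesOverPrime (q : ℕ) → ∀ g ∈ A.inertiaSubgroupIn ℚ, N.ρ g = 1 := by
  obtain ⟨U, ⟨F, hF, rfl⟩, hU⟩ := h
  intro q hq A hA g hg
  have hgF : g ∈ F.fixingSubgroup := hF.2 q (fun hqS => hq (hSS' hqS)) A hA hg
  ext m
  exact hU g hgF m

/-- **Uniform level bound** for the level-constant cocycles of `globalLevels S`
(no hypothesis `p ∈ S`). -/
theorem exists_level_bound_Z1 (N : Rep.{0, 0, 0} (ZMod p) GQ) [FiniteDimensional (ZMod p) N]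
    (h : (globalLevels S).IsUSmooth N) :
    ∃ Lmax : IntermediateField ℚ (AlgebraicClosure ℚ), FiniteDimensional ℚ Lmax ∧
      ∀ c : ↥((globalLevels S).Z1 N), ∀ s ∈ Lmax.fixingSubgroup, (c : GQ → N) s = 0 := by
  classical
  have hSS' : S ⊆ insert (pPrime p) S := Finset.subset_insert _ _
  obtain ⟨Lmax, hfin, hb⟩ := H901.exists_level_bound (p := p) (insert (pPrime p) S)
    (H901.unramClassicalSpec _) (Finset.mem_insert_self _ _) N
    (smooth_of_isUSmooth p S N h) (unramified_of_isUSmooth p S N h hSS')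
  refine ⟨Lmax, hfin, fun c s hs => ?_⟩
  have hc1 : (c : GQ → N) ∈ cocycles₁ N := c.2.1
  have hc2 : (globalLevels S).IsLC₁ (c : GQ → N) := c.2.2
  obtain ⟨F, hF, hconst⟩ := (isLC₁_globalLevels_iff S _).1 hc2
  exact hb ⟨(c : GQ → N), hc1⟩ ⟨F, hF.mono hSS', hconst⟩ s hs

/-- `Z¹_S(N)` is a finite set. -/
theorem finite_Z1 (N : Rep.{0, 0, 0} (ZMod p) GQ) [FiniteDimensional (ZMod p) N]
    (h : (globalLevels S).IsUSmooth N) : Finite ↥((globalLevels S).Z1 N) := by
  classical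
  obtain ⟨Lmax, hfin, hb⟩ := exists_level_bound_Z1 p S N h
  haveI := hfin
  haveI := H901.finite_quotient_fixingSubgroup Lmax
  haveI : Finite N := Module.finite_of_finite (ZMod p)
  let Φ : ↥((globalLevels S).Z1 N) → (GQ ⧸ Lmax.fixingSubgroup → N) :=
    fun c q => (c : GQ → N) (Quotient.out q)
  have hconst : ∀ (c : ↥((globalLevels S).Z1 N)) (g : GQ),
      (c : GQ → N) (Quotient.out (QuotientGroup.mk g : GQ ⧸ Lmax.fixingSubgroup)) =
        (c : GQ → N) g := by
    intro c g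
    obtain ⟨t, ht⟩ := QuotientGroup.mk_out_eq_mul Lmax.fixingSubgroup g
    have hc1 : (c : GQ → N) ∈ cocycles₁ N := c.2.1
    rw [ht, (mem_cocycles₁_iff (c : GQ → N)).1 hc1 g t, hb c t t.2, map_zero, zero_add]
  refine Finite.of_injective Φ (fun c c' hcc' => ?_)
  apply Subtype.ext
  funext g
  rw [← hconst c g, ← hconst c' g]
  exact congrFun hcc' _

/-- `H¹_S(N)` is a finite set. -/
theorem finite_H1 (N : Rep.{0, 0, 0} (ZMod p) GQ) [FiniteDimensional (ZMod p) N]
    (h : (globalLevels S).IsUSmooth N) : Finite ((globalLevels S).H1 N) := by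
  haveI := finite_Z1 p S N h
  exact Finite.of_surjective _ ((globalLevels S).H1π_surjective N)

/-- **A1 (FIN-glob)**, unconditional. -/
theorem finGlob : FinGlobSpec p S := by
  intro N hfd hsm
  haveI := hfd
  haveI := finite_H1 p S N hsm
  exact Module.Finite.of_finite

end Fermat.Agent.S55.PT.H593

end
-- ===== PACK-END S55/PT/FinGlobH593.lean

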