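import Fermat.Agent.Pack.S56.E13L3
import Fermat.Agent.Pack.S56.E9L3
import Fermat.Agent.Pack.S56.E0L3
import Fermat.Agent.Pack.S56.E5L3
import Fermat.Agent.Pack.S56.E8L0
import Fermat.Agent.Pack.S56.E13L1
import Fermat.Agent.Pack.S56.E14L2
import Fermat.Agent.Pack.S56.E12L2
import Fermat.Agent.Pack.S56.E6L2
import Fermat.Agent.Pack.S56.E11L3
import Fermat.Agent.Pack.S56.E6L1
import Fermat.Agent.Pack.S56.E14L3
import Fermat.Agent.Pack.S56.E4L1
import Fermat.Agent.Pack.S56.E14L1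
import Fermat.Agent.Pack.S56.E14L0
import Fermat.Agent.Pack.S56.E1L2
import Fermat.Agent.Pack.S56.E9L2
import Fermat.Agent.Pack.S56.E0L0
import Fermat.Agent.Pack.S56.E11L1

-- ===== PACK-BEGIN S56/H66/VG1.lean
section




/-!
# S56 / FLAT-O, leaf FO-VG (helper66): valuation inputs, part 1

`A` a valuation subring of `ℚ̄` over the prime `p`, `I` its inertia group, `ζ` a primitive
`p`-th root of unity, `π = ζ - 1`, `I₁ = {σ ∈ I : σ ζ = ζ}`.

* `vg1` : an element of `ℚ̄` fixed by `I₁` has `A`-valuation in `v(π)^ℤ`;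
* `vg1_le` : a non-unit of `A` fixed by `I₁` has valuation `≤ v(π)`.
-/

set_option autoImplicit false
set_option linter.style.haveILetI false

open scoped Pointwise

namespace Fermat.Agent.S56.H66

open Polynomial Fermat.Agent.S14.H894

local notation "Qb" => AlgebraicClosure ℚ
local notation "GQ" => (AlgebraicClosure ℚ ≃ₐ[ℚ] AlgebraicClosure ℚ)

/-- The inertia field `ℚ̄^{I_A}`. -/
noncomputable def inertiaField (A : ValuationSubring Qb) : IntermediateField ℚ Qb :=
  IntermediateField.fixedField (A.inertiaSubgroupIn ℚ)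

theorem mem_inertiaField_iff (A : ValuationSubring Qb) (x : Qb) :
    x ∈ inertiaField A ↔ ∀ σ ∈ A.inertiaSubgroupIn ℚ, σ x = x :=
  IntermediateField.mem_fixedField_iff _ x

section

variable (A : ValuationSubring Qb) (p : ℕ) (hp : p.Prime) (hA : A.LiesOverPrime p)
  (ζ : Qb) (hζ : IsPrimitiveRoot ζ p)

include hp hA in
/-- (VG0) for the inertia field. -/
theorem exists_zpow_valuation_inertiaField (c : Qb) (hc : c ∈ inertiaField A) (hc0 : c ≠ 0) :
    ∃ m : ℤ, A.valuation c = A.valuation (p : Qb) ^ m :=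
  vg0 p hp A hA c hc0 ((mem_inertiaField_iff A c).mp hc)

/-- The monic polynomial of degree `p - 1` over the inertia field killing `ζ - 1`. -/
noncomputable def cycloShiftI : (inertiaField A)[X] :=
  (cyclotomic p (inertiaField A)).comp (X + C 1)

theorem cycloShiftI_monic : (cycloShiftI A p).Monic :=
  (cyclotomic.monic p _).comp_X_add_C 1

include hp in
theorem cycloShiftI_natDegree : (cycloShiftI A p).natDegree = p - 1 := by
  unfold cycloShiftI
  rw [natDegree_comp, natDegree_X_add_C, mul_one, natDegree_cyclotomic, Nat.totient_prime hp]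

include hp hζ in
theorem cycloShiftI_aeval : aeval (ζ - 1) (cycloShiftI A p) = 0 := by
  unfold cycloShiftI
  rw [aeval_comp]
  simp only [map_add, aeval_X, map_one, sub_add_cancel]
  rw [aeval_def, ← eval_map, map_cyclotomic]
  exact hζ.isRoot_cyclotomic hp.pos

/-- An element fixed by `I₁` lies in `ℚ̄^I(ζ - 1)`. -/
theorem mem_adjoinField_inertiaField (a : Qb)
    (hfix : ∀ σ ∈ A.inertiaSubgroupIn ℚ, σ ζ = ζ → σ a = a) :
    a ∈ adjoinField (inertiaField A) (ζ - 1) := by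
  haveI : Algebra.IsAlgebraic ℚ Qb := AlgebraicClosure.isAlgebraic ℚ
  haveI : IsAlgClosure ℚ Qb := ⟨inferInstance, inferInstance⟩
  haveI : Normal ℚ Qb := IsAlgClosure.normal ℚ Qb
  haveI : IsGalois ℚ Qb := isGalois_iff.mpr ⟨inferInstance, inferInstance⟩
  rw [← InfiniteGalois.fixedField_fixingSubgroup (adjoinField (inertiaField A) (ζ - 1)),
    IntermediateField.mem_fixedField_iff]
  intro σ hσ
  rw [mem_fixingSubgroup_adjoinField_iff] at hσ
  obtain ⟨hK, hπ⟩ := hσ
  have hI : σ ∈ A.inertiaSubgroupIn ℚ :=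
    Fermat.Agent.A2.IF.H9.mem_inertiaSubgroupIn_of_fixes_fixedField A σ hK
  refine hfix σ hI ?_
  have := congrArg (· + 1) hπ
  simpa using this

include hp hA hζ in
theorem cycloI_indep : ∀ k : ℕ, 0 < k → k < (cycloShiftI A p).natDegree →
    ∀ c ∈ inertiaField A, A.valuation (ζ - 1) ^ k ≠ A.valuation c := by
  intro k hk0 hk c hc heq
  rw [cycloShiftI_natDegree A p hp] at hk
  have hπ0 := valuation_zeta_sub_one_ne_zero A p hp ζ hζ
  have hπ1 := valuation_zeta_sub_one_lt_one A p hp hA ζ hζ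
  by_cases hq : c = 0
  · subst hq
    rw [map_zero] at heq
    exact pow_ne_zero k hπ0 heq
  · obtain ⟨m, hm⟩ := exists_zpow_valuation_inertiaField A p hp hA c hc hq
    rw [hm, valuation_natCast_eq_pow A p hp ζ hζ, ← zpow_natCast, ← zpow_natCast,
      ← zpow_mul] at heq
    have h1 := (zpow_right_strictAnti₀ (zero_lt_iff.mpr hπ0) hπ1).injective heq
    have h2 : ((p - 1 : ℕ) : ℤ) ∣ (k : ℤ) := ⟨m, h1⟩
    have h3 : (p - 1) ∣ k := by exact_mod_cast h2
    exact absurd (Nat.le_of_dvd hk0 h3) (not_le.mpr hk)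

include hp hA hζ in
/-- **(VG1)** An element of `ℚ̄` fixed by `I₁ = {σ ∈ I : σ ζ = ζ}` has valuation in
`v(ζ - 1)^ℤ`. -/
theorem vg1 (a : Qb) (ha : a ≠ 0)
    (hfix : ∀ σ ∈ A.inertiaSubgroupIn ℚ, σ ζ = ζ → σ a = a) :
    ∃ n : ℤ, A.valuation a = A.valuation (ζ - 1) ^ n := by
  obtain ⟨c, hc, rfl⟩ := exists_coeffs_of_mem_adjoinField (inertiaField A) (ζ - 1)
    (cycloShiftI A p) (cycloShiftI_monic A p) (cycloShiftI_aeval A p hp ζ hζ) a
    (mem_adjoinField_inertiaField A ζ a hfix)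
  have hindep := cycloI_indep A p hp hA ζ hζ
  have hdist := distinct_terms A (inertiaField A) (ζ - 1) _ hindep c hc (ζ - 1) rfl
  have hv := valuation_sum_eq_sup A.valuation _ _ hdist
  have hne : (Finset.range (cycloShiftI A p).natDegree).Nonempty := by
    rw [cycloShiftI_natDegree A p hp, Finset.nonempty_range_iff]
    have := hp.two_le
    omega
  obtain ⟨i, hi, his⟩ := Finset.exists_mem_eq_sup _ hne
    (fun i => A.valuation (c i * (ζ - 1) ^ i))
  rw [his] at hv
  rw [hv]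
  have hci : c i ≠ 0 := by
    intro h0
    rw [h0, zero_mul, map_zero] at hv
    exact ha ((map_eq_zero _).mp hv)
  obtain ⟨m, hm⟩ := exists_zpow_valuation_inertiaField A p hp hA (c i) (hc i) hci
  refine ⟨((p - 1 : ℕ) : ℤ) * m + i, ?_⟩
  have hπ0 := valuation_zeta_sub_one_ne_zero A p hp ζ hζ
  rw [map_mul, map_pow, hm, valuation_natCast_eq_pow A p hp ζ hζ,
    zpow_add₀ hπ0, zpow_mul, zpow_natCast, zpow_natCast]

end

end Fermat.Agent.S56.H66

end
-- ===== PACK-END S56/H66/VG1.lean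

-- ===== PACK-BEGIN S55/G/JCount903/Count.lean
section
/-
S55, layer G, J-GLUE (input `JHerbrandSpec` of G-FI), COUNT half (helper903).

For `L/K` Galois with group `G = Gal(L/K)`, `S` a finite set of rational primes and `R` a set of
representatives of the `G`-orbits of the places of `L` above `S` (tensor model `SPlace S L`):

  `∏_{r ∈ R} |D_r| = ∏_{v ∈ S_K} e_v f_v`     (`prod_card_decomp_eq`),

given the dictionary `PlacePrimeSpec` (places ↔ primes of `𝓞 L` above `S`, leaf G-PL1).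
-/




set_option autoImplicit false
set_option linter.unusedSectionVars false
set_option linter.style.haveILetI false
set_option maxHeartbeats 400000

open scoped NumberField TensorProduct
open IsDedekindDomain

noncomputable section

namespace Fermat.Agent.S55.G.JCount903

open Fermat.Agent.S55.G Fermat.Agent.S55.G.OrdH707 Fermat.Agent.S55.G.FIH895

variable (K L : Type) [Field K] [Field L] [NumberField K] [NumberField L] [Algebra K L]
  [IsGalois K L] (S : Finset Nat.Primes)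

/-- helper421's action on primes coincides with helper707's. -/
lemma primeSMul_eq_smulH (τ : L ≃ₐ[K] L) (w : HeightOneSpectrum (𝓞 L)) :
    primeSMul (L ≃ₐ[K] L) τ w = smulH K L τ w := by
  apply HeightOneSpectrum.ext
  rfl

/-- The prime `β r`, viewed as a prime of `L` above `S_K`. -/
def toAbove (β : SPlace S L ≃ PrimeIn S L) (r : SPlace S L) :
    ↥(primesAbove K L (primesOver S K)) :=
  ⟨(β r).1, (Set.ext_iff.mp (primesAbove_primesOver S K L) (β r).1).mpr (β r).2⟩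

lemma toAbove_coe (β : SPlace S L ≃ PrimeIn S L) (r : SPlace S L) :
    ((toAbove K L S β r : ↥(primesAbove K L (primesOver S K))) : HeightOneSpectrum (𝓞 L)) =
      (β r).1 := rfl

lemma toAbove_injective (β : SPlace S L ≃ PrimeIn S L) :
    Function.Injective (toAbove K L S β) := by
  intro r₁ r₂ h
  apply β.injective
  apply Subtype.ext
  exact congrArg (fun w : ↥(primesAbove K L (primesOver S K)) => w.1) h

lemma toAbove_surjective (β : SPlace S L ≃ PrimeIn S L) :
    Function.Surjective (toAbove K L S β) := by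
  intro w
  have hw : IsAbove S L w.1 :=
    (Set.ext_iff.mp (primesAbove_primesOver S K L) w.1).mp w.2
  refine ⟨β.symm ⟨w.1, hw⟩, ?_⟩
  apply Subtype.ext
  rw [toAbove_coe, Equiv.apply_symm_apply]

variable {K L S} in
/-- Equivariance of `toAbove`. -/
lemma toAbove_smul {β : SPlace S L ≃ PrimeIn S L}
    (hβ : ∀ (g : L ≃ₐ[K] L) (𝔪 : SPlace S L),
      (β (sPlaceSMul S (L ≃ₐ[K] L) g 𝔪)).1 = primeSMul (L ≃ₐ[K] L) g (β 𝔪).1)
    (g : L ≃ₐ[K] L) (r : SPlace S L) :
    toAbove K L S β (sPlaceSMul S (L ≃ₐ[K] L) g r) =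
      (letI := actX K L (primesOver S K); g • toAbove K L S β r) := by
  apply Subtype.ext
  rw [toAbove_coe, hβ, actX_coe, toAbove_coe, primeSMul_eq_smulH]

variable {K L S} in
lemma mem_decomp_iff_smul {β : SPlace S L ≃ PrimeIn S L}
    (hβ : ∀ (g : L ≃ₐ[K] L) (𝔪 : SPlace S L),
      (β (sPlaceSMul S (L ≃ₐ[K] L) g 𝔪)).1 = primeSMul (L ≃ₐ[K] L) g (β 𝔪).1)
    (g : L ≃ₐ[K] L) (r : SPlace S L) :
    g ∈ decomp S (L ≃ₐ[K] L) r ↔
      g ∈ (letI := actX K L (primesOver S K);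
        MulAction.stabilizer (L ≃ₐ[K] L) (toAbove K L S β r)) := by
  letI := actX K L (primesOver S K)
  rw [mem_decomp_iff, MulAction.mem_stabilizer_iff, ← toAbove_smul hβ]
  constructor
  · intro h
    rw [h]
  · intro h
    exact toAbove_injective K L S β h

variable {K L S} in
/-- `|D_r| = e_v f_v` for the prime `v` of `K` below `β r`. -/
lemma card_decomp {β : SPlace S L ≃ PrimeIn S L}
    (hβ : ∀ (g : L ≃ₐ[K] L) (𝔪 : SPlace S L),
      (β (sPlaceSMul S (L ≃ₐ[K] L) g 𝔪)).1 = primeSMul (L ≃ₐ[K] L) g (β 𝔪).1)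
    (r : SPlace S L) :
    Nat.card (decomp S (L ≃ₐ[K] L) r) =
      (below K L (primesOver S K) (toAbove K L S β r)).1.asIdeal.ramificationIdxIn (𝓞 L) *
        (below K L (primesOver S K) (toAbove K L S β r)).1.asIdeal.inertiaDegIn (𝓞 L) := by
  rw [← card_stabilizer K L (primesOver S K) (toAbove K L S β r)]
  letI := actX K L (primesOver S K)
  have h : decomp S (L ≃ₐ[K] L) r =
      MulAction.stabilizer (L ≃ₐ[K] L) (toAbove K L S β r) := by
    ext g
    exact mem_decomp_iff_smul hβ g r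
  rw [h]

/-- **COUNT.**  For a set `R` of representatives of the `Gal(L/K)`-orbits of the places of `L`
above `S`:  `∏_{r ∈ R} |D_r| = ∏_{v ∈ S_K} e_v f_v`. -/
theorem prod_card_decomp_eq (hPP : PlacePrimeSpec) (R : Finset (SPlace S L))
    (hR : ∀ 𝔪 : SPlace S L, ∃! r : SPlace S L,
      r ∈ R ∧ ∃ g : L ≃ₐ[K] L, sPlaceSMul S (L ≃ₐ[K] L) g r = 𝔪) :
    ∏ r ∈ R, Nat.card (decomp S (L ≃ₐ[K] L) r) = finDegProd K L (primesOver S K) := by
  classical
  obtain ⟨β, hβ', -⟩ := hPP S L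
  have hβ : ∀ (g : L ≃ₐ[K] L) (𝔪 : SPlace S L),
      (β (sPlaceSMul S (L ≃ₐ[K] L) g 𝔪)).1 = primeSMul (L ≃ₐ[K] L) g (β 𝔪).1 :=
    fun g 𝔪 => hβ' (L ≃ₐ[K] L) g 𝔪
  letI := actX K L (primesOver S K)
  unfold finDegProd
  refine Finset.prod_bij
    (fun r _ => (below K L (primesOver S K) (toAbove K L S β r)).1) ?_ ?_ ?_ ?_
  · intro r _
    exact (below K L (primesOver S K) (toAbove K L S β r)).2
  · intro r₁ h₁ r₂ h₂ h
    have hb : below K L (primesOver S K) (toAbove K L S β r₁) =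
        below K L (primesOver S K) (toAbove K L S β r₂) := Subtype.ext h
    obtain ⟨τ, hτ⟩ := exists_smul_eq_of_below_eq K L (primesOver S K) _ _ hb
    rw [← toAbove_smul hβ] at hτ
    have hτ' := toAbove_injective K L S β hτ
    obtain ⟨r, -, hu⟩ := hR r₂
    have e₁ : r₁ = r := hu r₁ ⟨h₁, τ, hτ'⟩
    have e₂ : r₂ = r := hu r₂ ⟨h₂, 1, (sPlaceAction S (L ≃ₐ[K] L) L).one_smul r₂⟩
    rw [e₁, e₂]
  · intro v hv
    obtain ⟨w, hw⟩ := exists_above K L (primesOver S K) ⟨v, hv⟩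
    obtain ⟨𝔪, rfl⟩ := toAbove_surjective K L S β w
    obtain ⟨r, ⟨hrR, g, hg⟩, -⟩ := hR 𝔪
    refine ⟨r, hrR, ?_⟩
    have : below K L (primesOver S K) (toAbove K L S β r) = ⟨v, hv⟩ := by
      rw [← hw, ← hg, toAbove_smul hβ, below_smul]
    rw [this]
  · intro r _
    exact card_decomp hβ r

end Fermat.Agent.S55.G.JCount903

end
end
-- ===== PACK-END S55/G/JCount903/Count.lean

-- ===== PACK-BEGIN S55/G/PL1H597/Main.lean
section
/-
S55 (Poitou–Tate), layer G, leaf G-PL1 — helper597.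

`placePrimeSpec : PlacePrimeSpec` (interface `Fermat/Agent/S55/G/Spec.lean`), UNCONDITIONAL:
the places of `L` above `S` in the tensor model (maximal ideals of `L ⊗[ℚ] ℚ_S`) are in
`G`-equivariant bijection with the primes of `𝓞 L` above `S`, compatibly with integrality.

* `primeOf 𝔪`            : the prime below `𝔪` (`Prime.lean`);
* `primeOf_sPlaceSMul`   : Galois equivariance (`Prime.lean`);
* `primeOf_injective`    : injectivity, by approximation (`Inj.lean`);
* `exists_primeOf_eq`    : surjectivity, by integrality over `ℤ_S` (`Surj.lean`).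

By-products (`Base.lean`, `Surj.lean`): `finite_SPlace : Finite (SPlace S L)`,
`instIsLocalFldLocField : L.IsLocalFld (LocField S 𝔪)` (i.e. `LocFieldSpec`, leaf G-PL0),
`intA 𝔪` (the ring of integers of `L_𝔪`), `qAt 𝔪` (the rational prime below `𝔪`),
`ofQq`, `finiteDimensional_locField`, `toLoc_mem_intA_iff`.
-/



set_option autoImplicit false

open scoped NumberField TensorProduct
open IsDedekindDomain

noncomputable section

namespace Fermat.Agent.S55.G.PL1H597

open Fermat.Agent.S55.G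

/-- The bijection between places above `S` and primes above `S`. -/
def placePrimeEquiv (S : Finset Nat.Primes) (L : Type) [Field L] [NumberField L] :
    SPlace S L ≃ PrimeIn S L :=
  Equiv.ofBijective (fun 𝔪 => (⟨primeOf 𝔪, isAbove_primeOf 𝔪⟩ : PrimeIn S L))
    ⟨fun _ _ h => primeOf_injective (congrArg Subtype.val h),
      fun w => by
        obtain ⟨𝔪, h𝔪⟩ := exists_primeOf_eq w.1 w.2
        exact ⟨𝔪, Subtype.ext h𝔪⟩⟩

@[simp] lemma placePrimeEquiv_apply (S : Finset Nat.Primes) (L : Type) [Field L] [NumberField L]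
    (𝔪 : SPlace S L) : (placePrimeEquiv S L 𝔪).1 = primeOf 𝔪 := rfl

/-- **G-PL1.** -/
theorem placePrimeSpec : PlacePrimeSpec := by
  intro S L _ _
  refine ⟨placePrimeEquiv S L, ?_, ?_⟩
  · intro G _ _ g 𝔪
    exact primeOf_sPlaceSMul G g 𝔪
  · intro 𝔪 A hA x
    exact mem_primeOf_iff_of_isLocalRingOfIntegers 𝔪 A hA x

/-- **G-PL0** (by-product). -/
theorem locFieldSpec : LocFieldSpec := by
  intro S L _ _
  exact ⟨finite_SPlace, fun 𝔪 => instIsLocalFldLocField 𝔪⟩

end Fermat.Agent.S55.G.PL1H597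

end
end
-- ===== PACK-END S55/G/PL1H597/Main.lean

-- ===== PACK-BEGIN S55/E1/SpecAlg3.lean
section
/-
S55 engine E1 — block ALG, part 3: frozen Spec statements ALG9 (edge map), ALG10 (transitions),
ALG11 (local injectivity).   Sub-architect: helper895.   Blueprint: coord/S55-E1.md §3.
Definitions: `E1/Tr/Defs.lean`.   NO sorry: specs are `def … : Prop`.
Producers prove `theorem xxx : XxxSpec`; consumers take hypotheses.

Standing data of a CHANGE OF GROUP:  `π : G' →* G`, `ν : N' ⟶ Rep.res π N` (resp. an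
isomorphism `ν : N' ≅ Rep.res π N`), `ι : Rep.res π X ⟶ X'`.  Special cases:
* `π = id`, `ν = 𝟙`: naturality in the coefficient module `X`;
* `π = D.subtype`, `ν = 𝟙`, `ι = 𝟙`: restriction to a subgroup `D ≤ G`;
* `π : Gal(F'/ℚ) ↠ Gal(F/ℚ)`: the transition maps of the tower.
-/


set_option autoImplicit false

open CategoryTheory CategoryTheory.Limits

namespace Fermat.Agent.S55.E1

open Fermat.Agent.S55.T.H719 (ihomLin)

/-! ## ALG9: the edge map -/

/-- **ALG9 (edge).** `δ' : H¹(G, 𝔹) → H²(G, Hom_ℤ(N, X))` is bijective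
(`Hom_ℤ(ℤ[G]^{(N)}, X)` is coinduced, hence acyclic). -/
def ALG9Spec : Prop :=
  ∀ (G : Type) [Group G] [Finite G] (N X : Rep.{0} ℤ G), Function.Bijective (edgeδ N X)

/-- **ALG9 (a), module form.** If `p N = 0` (`p` prime), every additive `φ : R → X` with
`φ(R) ⊆ p X` extends to an additive map `P → X`, i.e. `φ ∈ 𝔹`. -/
def ALG9aSpec : Prop :=
  ∀ (p : ℕ), p.Prime → ∀ (G : Type) [Group G] (N X : Rep.{0} ℤ G), (∀ n : N.V, p • n = 0) →
    ∀ φ : ((Rep.ihom (stdR N)).obj X).V,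
      (∀ r : (stdR N).V, ∃ x : X.V, ihomLin φ r = p • x) → φ ∈ ihomImage (stdι N) X

/-- **ALG9 (a), cocycle form.** A class in `𝔈²(X)` represented by a `1`-cocycle all of whose
values map `R` into `p X` lies in the image of `H¹(G, 𝔹)`, hence (ALG9) in the image of `e`. -/
def ALG9aCocycleSpec : Prop :=
  ∀ (p : ℕ), p.Prime → ∀ (G : Type) [Group G] (N X : Rep.{0} ℤ G), (∀ n : N.V, p • n = 0) →
    ∀ c : groupCohomology.cocycles₁ ((Rep.ihom (stdR N)).obj X),
      (∀ (g : G) (r : (stdR N).V), ∃ x : X.V, ihomLin (c g) r = p • x) →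
      ∃ b : groupCohomology (edgeB N X) 1, edgeIncl N X b = groupCohomology.H1π _ c

/-! ## ALG10: transitions -/

/-- **ALG10 (functoriality).** `tr ∘ tr = tr` for `G'' → G' → G`, on `P`, `R` (elementwise). -/
def ALG10CompSpec : Prop :=
  ∀ (G G' G'' : Type) [Group G] [Group G'] [Group G''] (π : G' →* G) (π' : G'' →* G')
    (N : Rep.{0} ℤ G) (N' : Rep.{0} ℤ G') (N'' : Rep.{0} ℤ G'')
    (ν : N' ⟶ Rep.res π N) (ν' : N'' ⟶ Rep.res π' N') (ν'' : N'' ⟶ Rep.res (π.comp π') N),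
    (∀ n : N''.V, ν''.hom n = ν.hom (ν'.hom n)) →
    (∀ x : (stdP N'').V, (trP (π.comp π') ν'').hom x = (trP π ν).hom ((trP π' ν').hom x)) ∧
    (∀ r : (stdR N'').V, (trR (π.comp π') ν'').hom r = (trR π ν).hom ((trR π' ν').hom r))

/-- **ALG10 (functoriality on `𝔈²`).** `tr ∘ tr = tr` on `𝔈²` and on `Hⁿ`. -/
def ALG10CompE2Spec : Prop :=
  ∀ (G G' G'' : Type) [Group G] [Group G'] [Group G''] (π : G' →* G) (π' : G'' →* G')
    (N : Rep.{0} ℤ G) (N' : Rep.{0} ℤ G') (N'' : Rep.{0} ℤ G'')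
    (ν : N' ⟶ Rep.res π N) (ν' : N'' ⟶ Rep.res π' N') (ν'' : N'' ⟶ Rep.res (π.comp π') N)
    (X : Rep.{0} ℤ G) (X' : Rep.{0} ℤ G') (X'' : Rep.{0} ℤ G'')
    (ι : Rep.res π X ⟶ X') (ι' : Rep.res π' X' ⟶ X'') (ι'' : Rep.res (π.comp π') X ⟶ X''),
    (∀ n : N''.V, ν''.hom n = ν.hom (ν'.hom n)) →
    (∀ x : X.V, ι''.hom x = ι'.hom (ι.hom x)) →
    (∀ y : E2 N X, trE2 (π.comp π') ν'' ι'' y = trE2 π' ν' ι' (trE2 π ν ι y)) ∧
    (∀ (n : ℕ) (z : groupCohomology X n),
      infCoeff (π.comp π') ι'' n z = infCoeff π' ι' n (infCoeff π ι n z))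

/-- **ALG10 (edge).** `tr` commutes with `δ'` and `incl_*`, hence with the edge map `e`. -/
def ALG10EdgeSpec : Prop :=
  ∀ (G G' : Type) [Group G] [Group G'] (π : G' →* G)
    (N : Rep.{0} ℤ G) (N' : Rep.{0} ℤ G') (ν : N' ⟶ Rep.res π N)
    (X : Rep.{0} ℤ G) (X' : Rep.{0} ℤ G') (ι : Rep.res π X ⟶ X')
    (b : groupCohomology (edgeB N X) 1),
    edgeδ N' X' ((groupCohomology.map π (trEdgeB π ν ι) 1).hom b) =
      (groupCohomology.map π (trIhom π ν ι) 2).hom (edgeδ N X b) ∧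
    edgeIncl N' X' ((groupCohomology.map π (trEdgeB π ν ι) 1).hom b) =
      trE2 π ν ι (edgeIncl N X b)

/-- Consequence of `ALG10EdgeSpec`: `y = e(x) ⇒ tr y = e(inf x)`. -/
theorem isEdge_tr_of (h : ALG10EdgeSpec) {G G' : Type} [Group G] [Group G'] (π : G' →* G)
    {N : Rep.{0} ℤ G} {N' : Rep.{0} ℤ G'} (ν : N' ⟶ Rep.res π N)
    {X : Rep.{0} ℤ G} {X' : Rep.{0} ℤ G'} (ι : Rep.res π X ⟶ X')
    {x : groupCohomology ((Rep.ihom N).obj X) 2} {y : E2 N X} (hxy : IsEdge x y) :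
    IsEdge ((groupCohomology.map π (trIhom π ν ι) 2).hom x) (trE2 π ν ι y) := by
  obtain ⟨b, rfl, rfl⟩ := hxy
  obtain ⟨h1, h2⟩ := h G G' π N N' ν X X' ι b
  exact ⟨_, h1, h2⟩

/-- **ALG10 (pairing).** `⟨tr f, inf x⟩ = inf_ι ⟨f, x⟩`, where `inf x = (ν⁻¹)_* (inflation x)`. -/
def ALG10PairSpec : Prop :=
  ∀ (G G' : Type) [Group G] [Group G'] (π : G' →* G)
    (N : Rep.{0} ℤ G) (N' : Rep.{0} ℤ G') (ν : N' ≅ Rep.res π N)
    (X : Rep.{0} ℤ G) (X' : Rep.{0} ℤ G') (ι : Rep.res π X ⟶ X')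
    (f : homA N X) (x : groupCohomology N 1),
    pair (trA π ν.hom ι f) ((groupCohomology.map π ν.inv 1).hom x) = infCoeff π ι 2 (pair f x)

/-! ## ALG11: local injectivity -/

/-- **ALG11 (local injectivity).** `π : G' ↠ G` with kernel `H`, `N' ≅ res_π N`,
`ι : X → X'` injective with image the `H`-invariants, `H¹(H, X') = 0` (Hilbert 90).
Then `tr : 𝔈²_G(X) → 𝔈²_{G'}(X')` is injective. -/
def ALG11Spec : Prop :=
  ∀ (G G' : Type) [Group G] [Group G'] [Finite G'] (π : G' →* G), Function.Surjective π →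
    ∀ (N : Rep.{0} ℤ G) (N' : Rep.{0} ℤ G') (ν : N' ≅ Rep.res π N)
      (X : Rep.{0} ℤ G) (X' : Rep.{0} ℤ G') (ι : Rep.res π X ⟶ X'),
      Function.Injective ι.hom →
      (∀ x' : X'.V, (∀ h ∈ π.ker, X'.ρ h x' = x') → ∃ x : X.V, ι.hom x = x') →
      IsZero (groupCohomology (T.resSub X' π.ker) 1) →
      Function.Injective (trE2 π ν.hom ι)

end Fermat.Agent.S55.E1

end
-- ===== PACK-END S55/E1/SpecAlg3.lean

-- ===== PACK-BEGIN S55/E1/H354/E2Shapiro.lean
section
/-
S55 engine E1: **E2-Shapiro** (input of LIM5(i)), helper354.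

For `φ : D →* G` injective, `R : Rep k G`, `X : Rep k D`:
`Hom_k(R, Coind_φ X) ≅ Coind_φ Hom_k(R|_D, X)` as `G`-modules (`thetaIso`), hence
`Hⁿ(G, Hom_k(R, Coind_φ X)) → Hⁿ(D, Hom_k(R|_D, X))`, `c ↦ (d ↦ ev₁ ∘ c(φ d))`, is bijective.
For `n = 1`, `R = stdR N`: `𝔈²_G(N, Coind X) → H¹(D, Hom_ℤ(R|_D, X))` is bijective.
-/




set_option autoImplicit false

open CategoryTheory CategoryTheory.Limits groupCohomology

namespace Fermat.Agent.S55.E1.H354

noncomputable section

section generic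

variable {k G D : Type} [CommRing k] [Group G] [Group D] (φ : D →* G)
variable (R : Rep.{0} k G) (X : Rep.{0} k D)

/-- Evaluation at `g`: `Coind_φ X → X` (linear). -/
def coindEval (g : G) : (Rep.coind φ X).V →ₗ[k] X.V :=
  LinearMap.proj g ∘ₗ (Representation.coindV φ X.ρ).subtype

lemma coindEval_apply (g : G) (F : (Rep.coind φ X).V) : coindEval φ X g F = F.1 g := rfl

lemma coindEval_mul (d : D) (g : G) (F : (Rep.coind φ X).V) :
    coindEval φ X (φ d * g) F = X.ρ d (coindEval φ X g F) := F.2 d g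

lemma coindEval_ρ (g γ : G) (F : (Rep.coind φ X).V) :
    coindEval φ X g ((Rep.coind φ X).ρ γ F) = coindEval φ X (g * γ) F := rfl

lemma coind_ext {F F' : (Rep.coind φ X).V} (h : ∀ g, coindEval φ X g F = coindEval φ X g F') :
    F = F' := Subtype.ext (funext h)

/-- `Θ(ψ)(g) = ev_g ∘ ψ ∘ g⁻¹ ∈ Hom_k(R, X)`. -/
def thetaFun (ψ : R.V →ₗ[k] (Rep.coind φ X).V) (g : G) : R.V →ₗ[k] X.V :=
  coindEval φ X g ∘ₗ ψ ∘ₗ R.ρ g⁻¹

lemma thetaFun_apply (ψ : R.V →ₗ[k] (Rep.coind φ X).V) (g : G) (r : R.V) :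
    thetaFun φ R X ψ g r = coindEval φ X g (ψ (R.ρ g⁻¹ r)) := rfl

lemma thetaFun_mem (ψ : R.V →ₗ[k] (Rep.coind φ X).V) :
    (fun g => thetaFun φ R X ψ g) ∈
      Representation.coindV φ ((Rep.ihom (Rep.res φ R)).obj X).ρ := by
  intro d g
  apply LinearMap.ext
  intro r
  show thetaFun φ R X ψ (φ d * g) r = X.ρ d (thetaFun φ R X ψ g (R.ρ (φ d⁻¹) r))
  rw [thetaFun_apply, thetaFun_apply, coindEval_mul, mul_inv_rev, map_mul, ← map_inv φ d]
  rfl

/-- `Θ : Hom_k(R, Coind_φ X) → Coind_φ Hom_k(R|_D, X)` as a linear map. -/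
def thetaLin : (R.V →ₗ[k] (Rep.coind φ X).V) →ₗ[k]
    (Rep.coind φ ((Rep.ihom (Rep.res φ R)).obj X)).V where
  toFun ψ := ⟨fun g => thetaFun φ R X ψ g, thetaFun_mem φ R X ψ⟩
  map_add' ψ ψ' := by
    apply Subtype.ext
    funext g
    apply LinearMap.ext
    intro r
    rfl
  map_smul' c ψ := by
    apply Subtype.ext
    funext g
    apply LinearMap.ext
    intro r
    rfl

lemma thetaLin_apply (ψ : R.V →ₗ[k] (Rep.coind φ X).V) (g : G) (r : R.V) :
    ihomLin ((thetaLin φ R X ψ).1 g) r = coindEval φ X g (ψ (R.ρ g⁻¹ r)) := rfl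

/-- `Θ` as a morphism of `G`-modules. -/
def thetaHom : (Rep.ihom R).obj (Rep.coind φ X) ⟶
    Rep.coind φ ((Rep.ihom (Rep.res φ R)).obj X) :=
  Rep.ofHom (LinearMap.intertwiningMap_of_isIntertwiningMap _ _ (thetaLin φ R X) (by
    intro γ ψ
    apply Subtype.ext
    funext g
    apply LinearMap.ext
    intro r
    show coindEval φ X g ((Rep.coind φ X).ρ γ (ihomLin ψ (R.ρ γ⁻¹ (R.ρ g⁻¹ r)))) =
      coindEval φ X (g * γ) (ihomLin ψ (R.ρ (g * γ)⁻¹ r))
    rw [coindEval_ρ, mul_inv_rev, map_mul]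
    rfl))

lemma thetaHom_hom_apply (ψ : ((Rep.ihom R).obj (Rep.coind φ X)).V) :
    (thetaHom φ R X).hom ψ = thetaLin φ R X ψ := rfl

theorem thetaHom_injective : Function.Injective (thetaHom φ R X).hom := by
  intro ψ ψ' h
  apply LinearMap.ext
  intro r
  apply coind_ext
  intro g
  have h1 : coindEval φ X g (ihomLin ψ (R.ρ g⁻¹ (R.ρ g r))) =
      coindEval φ X g (ihomLin ψ' (R.ρ g⁻¹ (R.ρ g r))) :=
    congrArg (fun F : (Rep.coind φ ((Rep.ihom (Rep.res φ R)).obj X)).V =>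
      (show R.V →ₗ[k] X.V from F.1 g) (R.ρ g r)) h
  rw [← Module.End.mul_apply, ← map_mul, inv_mul_cancel, map_one, Module.End.one_apply] at h1
  exact h1

theorem thetaHom_surjective : Function.Surjective (thetaHom φ R X).hom := by
  intro F
  have hF : ∀ (d : D) (g : G) (r : R.V),
      ihomLin (F.1 (φ d * g)) r = X.ρ d (ihomLin (F.1 g) (R.ρ (φ d⁻¹) r)) := by
    intro d g r
    have := F.2 d g
    exact congrArg (fun x : ((Rep.ihom (Rep.res φ R)).obj X).V =>
      (show R.V →ₗ[k] X.V from x) r) this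
  let ψ : R.V →ₗ[k] (Rep.coind φ X).V :=
    { toFun := fun r => ⟨fun g => ihomLin (F.1 g) (R.ρ g r), by
        intro d g
        show ihomLin (F.1 (φ d * g)) (R.ρ (φ d * g) r) = X.ρ d (ihomLin (F.1 g) (R.ρ g r))
        rw [hF, ← Module.End.mul_apply, ← map_mul, ← mul_assoc, ← map_mul, inv_mul_cancel,
          map_one, one_mul]⟩
      map_add' := by
        intro r r'
        apply Subtype.ext
        funext g
        show ihomLin (F.1 g) (R.ρ g (r + r')) = ihomLin (F.1 g) (R.ρ g r) +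
          ihomLin (F.1 g) (R.ρ g r')
        rw [map_add, map_add]
      map_smul' := by
        intro c r
        apply Subtype.ext
        funext g
        show ihomLin (F.1 g) (R.ρ g (c • r)) = c • ihomLin (F.1 g) (R.ρ g r)
        rw [map_smul, map_smul] }
  refine ⟨ψ, ?_⟩
  apply Subtype.ext
  funext g
  apply LinearMap.ext
  intro r
  show ihomLin (F.1 g) (R.ρ g (R.ρ g⁻¹ r)) = ihomLin (F.1 g) r
  rw [← Module.End.mul_apply, ← map_mul, mul_inv_cancel, map_one, Module.End.one_apply]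


instance thetaHom_isIso : IsIso (thetaHom φ R X) :=
  (ConcreteCategory.isIso_iff_bijective _).2
    ⟨thetaHom_injective φ R X, thetaHom_surjective φ R X⟩

/-- `Hom_k(R, Coind_φ X) ≅ Coind_φ Hom_k(R|_D, X)` as `G`-modules. -/
def thetaIso : (Rep.ihom R).obj (Rep.coind φ X) ≅
    Rep.coind φ ((Rep.ihom (Rep.res φ R)).obj X) :=
  asIso (thetaHom φ R X)

/-- The morphism of `D`-modules `Hom_k(R, Coind_φ X)|_D → Hom_k(R|_D, X)`, `ψ ↦ ev₁ ∘ ψ`. -/
def ihomEv : Rep.res φ ((Rep.ihom R).obj (Rep.coind φ X)) ⟶ (Rep.ihom (Rep.res φ R)).obj X :=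
  trIhom φ (𝟙 (Rep.res φ R)) (H173.ev1Hom φ X)

lemma ihomEv_hom_apply (ψ : ((Rep.ihom R).obj (Rep.coind φ X)).V) (r : R.V) :
    ihomLin ((ihomEv φ R X).hom ψ) r = coindEval φ X 1 (ihomLin ψ r) := rfl

theorem ihomEv_eq : ihomEv φ R X =
    (Rep.resFunctor φ).map (thetaHom φ R X) ≫
      H173.ev1Hom φ ((Rep.ihom (Rep.res φ R)).obj X) := by
  apply Rep.hom_ext
  apply DFunLike.ext
  intro ψ
  apply LinearMap.ext
  intro r
  show coindEval φ X 1 (ihomLin ψ r) = coindEval φ X 1 (ihomLin ψ (R.ρ 1⁻¹ r))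
  rw [inv_one, map_one, Module.End.one_apply]

/-- **Shapiro for `Hom`**: `Hⁿ(G, Hom_k(R, Coind_φ X)) → Hⁿ(D, Hom_k(R|_D, X))`,
on cocycles `c ↦ (d ↦ ev₁ ∘ c(φ d))`. -/
def ihomShapiro (n : ℕ) : groupCohomology ((Rep.ihom R).obj (Rep.coind φ X)) n ⟶
    groupCohomology ((Rep.ihom (Rep.res φ R)).obj X) n :=
  groupCohomology.map φ (ihomEv φ R X) n

theorem ihomShapiro_eq (n : ℕ) : ihomShapiro φ R X n =
    groupCohomology.map (MonoidHom.id G) (thetaHom φ R X) n ≫
      H173.shapiroHom φ ((Rep.ihom (Rep.res φ R)).obj X) n := by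
  rw [ihomShapiro, ihomEv_eq, ← groupCohomology.map_comp]
  rfl

variable {φ}

theorem ihomShapiro_bijective (hφ : Function.Injective φ) (n : ℕ) :
    Function.Bijective (ihomShapiro φ R X n).hom := by
  rw [ihomShapiro_eq]
  have h0 : IsIso ((groupCohomology.functor k G n).map (thetaHom φ R X)) := inferInstance
  have h1 : Function.Bijective ((groupCohomology.functor k G n).map (thetaHom φ R X)).hom :=
    (ConcreteCategory.isIso_iff_bijective _).1 h0
  have h2 := H173.shapiroHom_bijective hφ n ((Rep.ihom (Rep.res φ R)).obj X)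
  exact h2.comp h1

/-- Naturality: for a `G`-map `u : Y ⟶ Coind_φ X`, Shapiro after `u_*` is the map induced by
`φ` and `ψ ↦ (ev₁ ∘ u) ∘ ψ`. -/
theorem ihomShapiro_comp_map {Y : Rep.{0} k G} (u : Y ⟶ Rep.coind φ X) (n : ℕ) :
    groupCohomology.map (MonoidHom.id G) ((Rep.ihom R).map u) n ≫ ihomShapiro φ R X n =
      groupCohomology.map φ (trIhom φ (𝟙 (Rep.res φ R))
        ((Rep.resFunctor φ).map u ≫ H173.ev1Hom φ X)) n := by
  rw [ihomShapiro, ← groupCohomology.map_comp]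
  rfl

end generic

/-! ### The case of the standard presentation (`k = ℤ`) -/

section std

variable {G D : Type} [Group G] [Group D]

/-- **E2-Shapiro**: `𝔈²_G(N, Coind_φ X) → H¹(D, Hom_ℤ(R|_D, X))`, `c ↦ (d ↦ ev₁ ∘ c(φ d))`. -/
def E2sh (φ : D →* G) (N : Rep.{0} ℤ G) (X : Rep.{0} ℤ D) :
    E2 N (Rep.coind φ X) →ₗ[ℤ]
      groupCohomology ((Rep.ihom (Rep.res φ (stdR N))).obj X) 1 :=
  (ihomShapiro φ (stdR N) X 1).hom

theorem E2sh_eq (φ : D →* G) (N : Rep.{0} ℤ G) (X : Rep.{0} ℤ D) :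
    E2sh φ N X =
      (groupCohomology.map φ (trIhom φ (𝟙 (Rep.res φ (stdR N))) (H173.ev1Hom φ X)) 1).hom :=
  rfl

theorem E2sh_bijective {φ : D →* G} (hφ : Function.Injective φ) (N : Rep.{0} ℤ G)
    (X : Rep.{0} ℤ D) : Function.Bijective (E2sh φ N X) :=
  ihomShapiro_bijective (stdR N) X hφ 1

theorem E2sh_injective {φ : D →* G} (hφ : Function.Injective φ) (N : Rep.{0} ℤ G)
    (X : Rep.{0} ℤ D) : Function.Injective (E2sh φ N X) :=
  (E2sh_bijective hφ N X).1

/-- Naturality of E2-Shapiro in `u : Y ⟶ Coind_φ X`. -/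
theorem E2sh_coeffMap (φ : D →* G) (N : Rep.{0} ℤ G) {Y : Rep.{0} ℤ G} {X : Rep.{0} ℤ D}
    (u : Y ⟶ Rep.coind φ X) (y : E2 N Y) :
    E2sh φ N X ((T.coeffMap ((Rep.ihom (stdR N)).map u) 1).hom y) =
      (groupCohomology.map φ (trIhom φ (𝟙 (Rep.res φ (stdR N))) (flat φ u)) 1).hom y := by
  have h := ihomShapiro_comp_map (stdR N) X u 1 (φ := φ)
  exact congrArg (fun f => f.hom y) h

/-- `y ∈ 𝔈²_G(N, Y)` dies in `𝔈²_G(N, Coind_φ X)` iff its local image in
`H¹(D, Hom_ℤ(R|_D, X))` vanishes. -/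
theorem E2_coeffMap_eq_zero_iff {φ : D →* G} (hφ : Function.Injective φ) (N : Rep.{0} ℤ G)
    {Y : Rep.{0} ℤ G} {X : Rep.{0} ℤ D} (u : Y ⟶ Rep.coind φ X) (y : E2 N Y) :
    (T.coeffMap ((Rep.ihom (stdR N)).map u) 1).hom y = 0 ↔
      (groupCohomology.map φ (trIhom φ (𝟙 (Rep.res φ (stdR N))) (flat φ u)) 1).hom y = 0 := by
  rw [← E2sh_coeffMap]
  constructor
  · intro h
    rw [h, map_zero]
  · intro h
    exact E2sh_injective hφ N X (h.trans (map_zero _).symm)

end std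

/-- **E2-Shapiro**, Spec form. -/
def E2ShapiroSpec : Prop :=
  ∀ (G D : Type) [Group G] [Group D] (φ : D →* G), Function.Injective φ →
    ∀ (N : Rep.{0} ℤ G) (X : Rep.{0} ℤ D),
      Function.Bijective
        (groupCohomology.map φ (trIhom φ (𝟙 (Rep.res φ (stdR N))) (H173.ev1Hom φ X)) 1).hom

theorem e2Shapiro : E2ShapiroSpec := fun _ _ _ _ _ hφ N X => E2sh_bijective hφ N X

end

end Fermat.Agent.S55.E1.H354

end
-- ===== PACK-END S55/E1/H354/E2Shapiro.lean

-- ===== PACK-BEGIN S55/GAD/Defs.lean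
section
/-
S55 / G-ADAPTER (sub-architect helper955): the CONCRETE tower datum.
Target: `Tow.GlobalSpecMu S p` (`Spec/Datum2.lean`).  No `sorry`.

`C(L) := (∏_{q ∈ S} J_q(L) × Div^S(L)) / Lˣ`, with
* `J_q(L) = L.J q` the tower's coinduced module (`Spec/Tower.lean`),
* `Div^S(L) = ℤ[primes of L.F not above S]` (layer G, `G/Defs.lean`), Galois action through
  helper594's `levelAction`,
* `Lˣ = L.units` embedded by `x ↦ ((diag_q x)_q, div x)`.
`j_q` = inclusion of the `q`-th factor, `tr` = `trJ × divExt`, `γ` chosen by `Classical.choice`.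
-/





set_option autoImplicit false
set_option linter.unusedSectionVars false

open CategoryTheory

namespace Fermat.Agent.S55.GAD

open Fermat.Agent.S55 Fermat.Agent.S55.Tow Fermat.Agent.S55.E1.H594 Fermat.Agent.S55.G

noncomputable section

variable {S : Finset Nat.Primes} (L : Level S)

/-- The underlying group of `∏_{q ∈ S} J_q(L)`. -/
abbrev JSV : Type := ∀ q : S, (L.J q.1).V

/-- The representation of `Gal(L/ℚ)` on `∏_{q ∈ S} J_q(L)`. -/
def jsRepr : Representation ℤ L.Gal (JSV L) where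
  toFun g := LinearMap.pi fun q => ((L.J q.1).ρ g) ∘ₗ LinearMap.proj q
  map_one' := by
    refine LinearMap.ext fun x => funext fun q => ?_
    show (L.J q.1).ρ 1 (x q) = x q
    rw [map_one]
    rfl
  map_mul' g h := by
    refine LinearMap.ext fun x => funext fun q => ?_
    show (L.J q.1).ρ (g * h) (x q) = (L.J q.1).ρ g ((L.J q.1).ρ h (x q))
    rw [map_mul]
    rfl

@[simp] lemma jsRepr_apply (g : L.Gal) (x : JSV L) (q : S) :
    jsRepr L g x q = (L.J q.1).ρ g (x q) := rfl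

/-- The underlying group of `∏_{q ∈ S} J_q(L) × Div^S(L)`. -/
abbrev JDV : Type := JSV L × (PrimeOut S L.F →₀ ℤ)

/-- The representation of `Gal(L/ℚ)` on `∏_{q ∈ S} J_q(L) × Div^S(L)`. -/
def jdRepr : Representation ℤ L.Gal (JDV L) := (jsRepr L).prod (divRepr S L.Gal L.F)

/-- `L.units → Additive (L.F)ˣ`: the tower's `Fˣ` as the layer-G `Fˣ` (helper594's LVL). -/
def toField : L.units.V →ₗ[ℤ] Additive (L.F)ˣ := (levelUnitsIso L).inv.hom.toLinearMap

lemma toField_equivariant (g : L.Gal) (x : L.units.V) :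
    toField L (L.units.ρ g x) = lRepr L.Gal L.F g (toField L x) :=
  Rep.hom_comm_apply (levelUnitsIso L).inv g x

/-- The element of `ℚ̄` underlying `toField L y` is the element underlying `y`. -/
lemma coe_toField (y : L.units.V) :
    ((((toField L y).toMul : (L.F)ˣ) : L.F) : Qbar) = levelInvVal L y := by
  have h1 := coe_levelUnitsIso_hom_apply L (toField L y)
  have h2 : (levelUnitsIso L).hom.hom (toField L y) = y :=
    Rep.hom_inv_apply _ _ (levelUnitsIso L) y
  rw [h2] at h1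
  exact h1.symm

lemma toField_injective : Function.Injective (toField L) := by
  intro x y h
  have hx := Rep.hom_inv_apply _ _ (levelUnitsIso L) x
  have hy := Rep.hom_inv_apply _ _ (levelUnitsIso L) y
  have h' : (levelUnitsIso L).inv.hom x = (levelUnitsIso L).inv.hom y := h
  rw [← hx, ← hy, h']

/-- The divisor of `x ∈ Fˣ` (outside `S`). -/
def divT : L.units.V →ₗ[ℤ] (PrimeOut S L.F →₀ ℤ) :=
  (ordHom S L.F).toIntLinearMap ∘ₗ toField L

/-- The diagonal embedding `Fˣ → ∏_{q ∈ S} J_q(L) × Div^S(L)`. -/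
def diagT : L.units.V →ₗ[ℤ] JDV L :=
  LinearMap.prod (LinearMap.pi fun q : S => (L.diag q.1).hom.toLinearMap) (divT L)

lemma diagT_fst (x : L.units.V) (q : S) : (diagT L x).1 q = (L.diag q.1).hom x := rfl

lemma diagT_snd (x : L.units.V) : (diagT L x).2 = ordHom S L.F (toField L x) := rfl

lemma diagT_equivariant (g : L.Gal) (x : L.units.V) :
    diagT L (L.units.ρ g x) = _root_.Fermat.Agent.S55.GAD.jdRepr L g (diagT L x) := by
  refine Prod.ext (funext fun q => ?_) ?_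
  · exact Rep.hom_comm_apply (L.diag q.1) g x
  · show ordHom S L.F (toField L (L.units.ρ g x)) = divRepr S L.Gal L.F g (ordHom S L.F (toField L x))
    rw [toField_equivariant, ordHom_equivariant]

/-- The principal elements: the image of `Fˣ`. -/
def princ : Submodule ℤ (JDV L) := LinearMap.range (diagT L)

lemma princ_stable (g : L.Gal) : princ L ≤ (princ L).comap (_root_.Fermat.Agent.S55.GAD.jdRepr L g) := by
  rintro _ ⟨x, rfl⟩
  exact ⟨L.units.ρ g x, diagT_equivariant L g x⟩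

/-- **The class module** `C(L) = (∏_{q ∈ S} J_q(L) × Div^S(L)) / Lˣ`. -/
def CT : Rep.{0} ℤ L.Gal := Rep.of ((_root_.Fermat.Agent.S55.GAD.jdRepr L).quotient (princ L) (princ_stable L))

/-- The class of an element of `∏_{q ∈ S} J_q(L) × Div^S(L)` (an additive map). -/
def mkC : JDV L →+ (CT L).V := (princ L).mkQ.toAddMonoidHom

lemma mkC_surjective : Function.Surjective (mkC L) := Submodule.mkQ_surjective _

lemma mkC_eq_zero_iff (y : JDV L) : mkC L y = 0 ↔ ∃ x : L.units.V, diagT L x = y :=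
  Submodule.Quotient.mk_eq_zero (princ L)

lemma mkC_diagT (x : L.units.V) : mkC L (diagT L x) = 0 :=
  (mkC_eq_zero_iff L _).2 ⟨x, rfl⟩

lemma CT_ρ_mkC (g : L.Gal) (y : JDV L) : (CT L).ρ g (mkC L y) = mkC L (_root_.Fermat.Agent.S55.GAD.jdRepr L g y) := rfl

/-- The quotient morphism `∏_{q ∈ S} J_q(L) × Div^S(L) → C(L)` in `Rep ℤ Gal(L/ℚ)`. -/
def mkCHom : Rep.of (_root_.Fermat.Agent.S55.GAD.jdRepr L) ⟶ CT L :=
  Rep.ofHom ⟨(princ L).mkQ, fun _ => rfl⟩

/-- The inclusion of the `q`-th factor `J_q(L) → ∏_{q ∈ S} J_q(L) × Div^S(L)` (`q ∈ S`). -/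
def inclJ (q : S) : L.J q.1 ⟶ Rep.of (_root_.Fermat.Agent.S55.GAD.jdRepr L) :=
  Rep.ofHom
    { toLinearMap := LinearMap.inl ℤ (JSV L) (PrimeOut S L.F →₀ ℤ) ∘ₗ
        LinearMap.single ℤ (fun q : S => (L.J q.1).V) q
      isIntertwining' := fun g => by
        refine LinearMap.ext fun (x : (L.J q.1).V) => Prod.ext (funext fun q' => ?_) ?_
        · show (Pi.single q ((L.J q.1).ρ g x) : JSV L) q' =
            (L.J q'.1).ρ g ((Pi.single q x : JSV L) q')
          by_cases h : q' = q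
          · subst h
            have h1 : (Pi.single q' ((L.J q'.1).ρ g x) : JSV L) q' = (L.J q'.1).ρ g x :=
              Pi.single_eq_same _ _
            have h2 : (Pi.single q' x : JSV L) q' = x := Pi.single_eq_same _ _
            rw [h1, h2]
          · have h1 : (Pi.single q ((L.J q.1).ρ g x) : JSV L) q' = 0 :=
              Pi.single_eq_of_ne h _
            have h2 : (Pi.single q x : JSV L) q' = 0 := Pi.single_eq_of_ne h _
            rw [h1, h2, map_zero]
        · show (0 : PrimeOut S L.F →₀ ℤ) = divRepr S L.Gal L.F g 0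
          rw [map_zero] }

/-- `j_q : J_q(L) → C(L)`: inclusion of the `q`-th factor for `q ∈ S` (and `0` otherwise). -/
def jT (q : Nat.Primes) : L.J q ⟶ CT L :=
  if hq : q ∈ S then inclJ L ⟨q, hq⟩ ≫ mkCHom L else 0

lemma jT_apply_of_mem (q : S) (x : (L.J q.1).V) :
    (jT L q.1).hom x = mkC L (Pi.single q x, 0) := by
  have h : jT L q.1 = inclJ L q ≫ mkCHom L := dif_pos q.2
  rw [h]
  rfl

lemma sum_jT (x : JSV L) : ∑ q : S, (jT L q.1).hom (x q) = mkC L (x, 0) := by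
  classical
  simp only [jT_apply_of_mem]
  rw [← map_sum]
  congr 1
  refine Prod.ext ?_ ?_
  · rw [Prod.fst_sum]
    funext q
    rw [Finset.sum_apply]
    simp
  · rw [Prod.snd_sum]
    simp

/-! ### Transition maps -/

variable {L} {L' : Level S}

/-- The algebra structure `L.F → L'.F` for `L ≤ L'`. -/
@[reducible] def levelAlgebra (h : L ≤ L') : Algebra L.F L'.F :=
  (IntermediateField.inclusion h).toRingHom.toAlgebra

lemma levelAlgebra_apply (h : L ≤ L') (x : L.F) :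
    ((@algebraMap L.F L'.F _ _ (_root_.Fermat.Agent.S55.GAD.levelAlgebra h) x : L'.F) : Qbar) = (x : Qbar) := rfl

lemma levelAlgebra_smul (h : L ≤ L') (g : L'.Gal) (x : L.F) :
    @algebraMap L.F L'.F _ _ (_root_.Fermat.Agent.S55.GAD.levelAlgebra h) (Level.proj h g • x) =
      g • @algebraMap L.F L'.F _ _ (_root_.Fermat.Agent.S55.GAD.levelAlgebra h) x := by
  induction g using QuotientGroup.induction_on with
  | H σ =>
    apply Subtype.ext
    have h1 : (((QuotientGroup.mk σ : L.Gal) • x : L.F) : Qbar) = σ (x : Qbar) :=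
      level_mk_smul L σ x
    have h2 := level_mk_smul L' σ (@algebraMap L.F L'.F _ _ (_root_.Fermat.Agent.S55.GAD.levelAlgebra h) x)
    rw [levelAlgebra_apply] at h2
    rw [h2, levelAlgebra_apply]
    exact h1

/-- Extension of divisors along `L ≤ L'`. -/
def divTr (h : L ≤ L') : (PrimeOut S L.F →₀ ℤ) →+ (PrimeOut S L'.F →₀ ℤ) :=
  @divExt S L.F L'.F _ _ _ _ (_root_.Fermat.Agent.S55.GAD.levelAlgebra h)

lemma divTr_equivariant (h : L ≤ L') (g : L'.Gal) (d : PrimeOut S L.F →₀ ℤ) :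
    divTr h (divRepr S L.Gal L.F (Level.proj h g) d) = divRepr S L'.Gal L'.F g (divTr h d) :=
  @divExt_equivariant S L.F L'.F _ _ _ _ (_root_.Fermat.Agent.S55.GAD.levelAlgebra h) L.Gal L'.Gal _ _ _ _
    (Level.proj h) (levelAlgebra_smul h) g d

lemma toField_trUnits (h : L ≤ L') (x : L.units.V) :
    toField L' ((Level.trUnits h).hom x) = @lMap L.F L'.F _ _ (_root_.Fermat.Agent.S55.GAD.levelAlgebra h) (toField L x) := by
  apply Additive.toMul.injective
  apply Units.ext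
  apply Subtype.ext
  rw [coe_toField]
  have h1 : ((((@lMap L.F L'.F _ _ (_root_.Fermat.Agent.S55.GAD.levelAlgebra h) (toField L x)).toMul : (L'.F)ˣ) : L'.F) : Qbar)
      = ((((toField L x).toMul : (L.F)ˣ) : L.F) : Qbar) := rfl
  rw [h1, coe_toField]
  rfl

/-- The divisor maps are compatible with the transition maps. -/
lemma divTr_divT (h : L ≤ L') (x : L.units.V) :
    divTr h (divT L x) = divT L' ((Level.trUnits h).hom x) := by
  show divTr h (ordHom S L.F (toField L x)) = ordHom S L'.F (toField L' ((Level.trUnits h).hom x))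
  rw [toField_trUnits]
  exact @divExt_ordHom S L.F L'.F _ _ _ _ (_root_.Fermat.Agent.S55.GAD.levelAlgebra h) (toField L x)

/-- The diagonal maps are compatible with the transition maps. -/
lemma trJ_diag (h : L ≤ L') (q : Nat.Primes) (x : L.units.V) :
    (Level.trJ h q).hom ((L.diag q).hom x) = (L'.diag q).hom ((Level.trUnits h).hom x) := by
  apply L'.J_ext q
  intro g
  induction g using QuotientGroup.induction_on with
  | H g => rfl

/-- The transition map on `∏_{q ∈ S} J_q × Div^S`. -/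
def trJD (h : L ≤ L') : JDV L →+ JDV L' where
  toFun y := (fun q => (Level.trJ h q.1).hom (y.1 q), divTr h y.2)
  map_zero' := by
    refine Prod.ext (funext fun q => ?_) ?_
    · exact map_zero (Level.trJ h q.1).hom
    · exact map_zero (divTr h)
  map_add' y y' := by
    refine Prod.ext (funext fun q => ?_) ?_
    · exact map_add (Level.trJ h q.1).hom (y.1 q) (y'.1 q)
    · exact map_add (divTr h) y.2 y'.2

lemma trJD_diagT (h : L ≤ L') (x : L.units.V) :
    trJD h (diagT L x) = diagT L' ((Level.trUnits h).hom x) :=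
  Prod.ext (funext fun q => trJ_diag h q.1 x) (divTr_divT h x)

lemma trJD_equivariant (h : L ≤ L') (g : L'.Gal) (y : JDV L) :
    trJD h (_root_.Fermat.Agent.S55.GAD.jdRepr L (Level.proj h g) y) = _root_.Fermat.Agent.S55.GAD.jdRepr L' g (trJD h y) :=
  Prod.ext (funext fun q => Rep.hom_comm_apply (Level.trJ h q.1) g (y.1 q))
    (divTr_equivariant h g y.2)

/-- **The transition map** `C(L) → C(L')` for `L ≤ L'`. -/
def trT (h : L ≤ L') : Rep.res (Level.proj h) (CT L) ⟶ CT L' :=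
  Rep.ofHom
    { toLinearMap := (princ L).mapQ (princ L') (trJD h).toIntLinearMap (by
        rintro _ ⟨x, rfl⟩
        exact ⟨(Level.trUnits h).hom x, (trJD_diagT h x).symm⟩)
      isIntertwining' := fun g => by
        refine LinearMap.ext fun c => ?_
        obtain ⟨y, rfl⟩ := mkC_surjective L c
        exact congrArg (mkC L') (trJD_equivariant h g y) }

lemma trT_mkC (h : L ≤ L') (y : JDV L) : (trT h).hom (mkC L y) = mkC L' (trJD h y) := rfl

/-! ### The datum -/

variable (S)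

/-- The fundamental class at `p`: any `γ` making `(C(L), γ)` a class module at `p`, if one
exists (and `0` otherwise). -/
def gammaT (p : ℕ) (L : Level S) : groupCohomology (CT L) 2 :=
  open Classical in
  if h : ∃ γ : groupCohomology (CT L) 2, E1.IsClassModuleAt p (CT L) γ then h.choose else 0

lemma gammaT_spec (p : ℕ) (L : Level S)
    (h : ∃ γ : groupCohomology (CT L) 2, E1.IsClassModuleAt p (CT L) γ) :
    E1.IsClassModuleAt p (CT L) (gammaT S p L) := by
  unfold gammaT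
  rw [dif_pos h]
  exact h.choose_spec

/-- **THE CONCRETE TOWER DATUM.** -/
def datum (p : ℕ) : TowerDatum S where
  C := fun L => CT L
  γ := fun L => gammaT S p L
  j := fun L q => jT L q
  tr := fun h => trT h

@[simp] lemma datum_C (p : ℕ) (L : Level S) : (datum S p).C L = CT L := rfl
@[simp] lemma datum_j (p : ℕ) (L : Level S) (q : Nat.Primes) : (datum S p).j L q = jT L q := rfl
@[simp] lemma datum_tr (p : ℕ) {L L' : Level S} (h : L ≤ L') : (datum S p).tr h = trT h := rfl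
@[simp] lemma datum_γ (p : ℕ) (L : Level S) : (datum S p).γ L = gammaT S p L := rfl

end

end Fermat.Agent.S55.GAD

end
-- ===== PACK-END S55/GAD/Defs.lean

-- ===== PACK-BEGIN S55/T/InfDescentH244.lean
section


/-!
# Inflation along a surjection is injective on `p`-primary torsion  (helper244)

Abstract form of GD8 of `coord/S55-E1.md` (`Tow.TowerDatum.IsGood.gd8`), ready for the tower:

`π : G' ↠ G` (think `Level.proj h : Gal(F'/ℚ) → Gal(F/ℚ)`), `C : Rep k G`, `C' : Rep k G'`,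
`tr : Rep.res π C ⟶ C'` (think `D.tr h : C(F) → C(F')`), such that

* (descent) `tr` is injective and its image is the set of `ker π`-invariants of `C'`,
* `H¹(Q, C') = 0` for every `p`-subgroup `Q ≤ G'`  (first clause of `E1.IsClassModuleAt p`).

Then `groupCohomology.map π tr 2 : H²(G, C) → H²(G', C')` is injective on elements killed by a
power of `p`.  No reciprocity, no norm trick: inflation–restriction up to torsion
(`InfResTorsCoreH244`) + `cor ∘ res = index` on `H¹(ker π, C')` (Sylow subgroup of `ker π`).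

Everything is done on cochains of `G'`; no quotient group and no `quotientToInvariants` appears in
the statement.
-/

set_option autoImplicit false
set_option linter.unusedSectionVars false

namespace Fermat.Agent.S55.T.H244

open CategoryTheory groupCohomology Rep Fermat.Agent.S55.H954

section Transport

variable {k G : Type} [CommRing k] [Group G]

/-- Elementary vanishing of `H¹` on a subgroup `P ≤ N` (`N ≤ G`) from vanishing of `H¹` on the
corresponding subgroup `P.map N.subtype ≤ G`. -/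
lemma h1_subgroup_eq_zero_of_map (A : Rep.{0} k G) (N : Subgroup G) (P : Subgroup N)
    (h : ∀ z : groupCohomology (resSub A (P.map N.subtype)) 1, z = 0)
    (x : groupCohomology (resSub (resSub A N) P) 1) : x = 0 := by
  induction x using H1_induction_on with | @h f =>
  have hf : ∀ s t : P, (f : P → A) (s * t) = A.ρ ((s : N) : G) ((f : P → A) t) + (f : P → A) s :=
    fun s t => (mem_cocycles₁_iff (A := resSub (resSub A N) P) (f : P → A)).1 f.2 s t
  -- the cocycle on `Q = P.map N.subtype`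
  have hmem : ∀ q : P.map N.subtype, ∃ s : P, ((s : N) : G) = (q : G) := by
    rintro ⟨q, n, hn, rfl⟩
    exact ⟨⟨n, hn⟩, rfl⟩
  choose σ hσ using hmem
  have hσmul : ∀ q q' : P.map N.subtype, σ (q * q') = σ q * σ q' := by
    intro q q'
    apply Subtype.ext
    apply Subtype.ext
    rw [Subgroup.coe_mul, Subgroup.coe_mul, hσ, hσ, hσ, Subgroup.coe_mul]
  let f' : P.map N.subtype → A := fun q => (f : P → A) (σ q)
  have hf' : f' ∈ cocycles₁ (resSub A (P.map N.subtype)) := by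
    rw [mem_cocycles₁_iff]
    intro q q'
    show (f : P → A) (σ (q * q')) = A.ρ (q : G) ((f : P → A) (σ q')) + (f : P → A) (σ q)
    rw [hσmul, hf, hσ]
  have h0 := h (H1π _ ⟨f', hf'⟩)
  rw [H1π_eq_zero_iff] at h0
  obtain ⟨a, ha⟩ := h0
  rw [H1π_eq_zero_iff]
  refine ⟨a, ?_⟩
  funext s
  have hsQ : ((s : N) : G) ∈ P.map N.subtype := ⟨(s : N), s.2, rfl⟩
  have hs : σ ⟨((s : N) : G), hsQ⟩ = s := by
    apply Subtype.ext
    apply Subtype.ext
    exact hσ _
  have := congr_fun ha ⟨((s : N) : G), hsQ⟩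
  rw [d₀₁_hom_apply] at this ⊢
  have h2 : A.ρ ((s : N) : G) a - a = (f : P → A) (σ ⟨((s : N) : G), hsQ⟩) := this
  rw [hs] at h2
  exact h2

/-- If `H¹(Q, A) = 0` for every `p`-subgroup `Q ≤ G`, then for every finite subgroup `N ≤ G`
there is `m` prime to `p` killing `H¹(N, A)`, in the elementary form `HOneKilledBy`. -/
lemma exists_coprime_hOneKilledBy (A : Rep.{0} k G) (p : ℕ) [Fact p.Prime]
    (hH1 : ∀ Q : Subgroup G, IsPGroup p Q →
      Limits.IsZero (groupCohomology (resSub A Q) 1))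
    (N : Subgroup G) [N.Normal] [Finite N] :
    ∃ m : ℕ, m.Coprime p ∧ HOneKilledBy m A.ρ N := by
  obtain ⟨P⟩ : Nonempty (Sylow p N) := inferInstance
  have hcop : (P : Subgroup N).index.Coprime p := by
    rw [Nat.coprime_comm, Nat.Prime.coprime_iff_not_dvd (Fact.out : p.Prime)]
    exact P.not_dvd_index
  refine ⟨(P : Subgroup N).index, hcop, hOneKilledBy_of_H1 ?_⟩
  intro x
  refine hOne_nsmul_eq_zero_of_subgroup A N (P : Subgroup N) ?_ x
  intro z
  refine h1_subgroup_eq_zero_of_map A N (P : Subgroup N) ?_ z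
  intro y
  have hQ : IsPGroup p ((P : Subgroup N).map N.subtype) := P.2.map N.subtype
  exact (ModuleCat.isZero_iff_subsingleton.mp (hH1 _ hQ)).elim _ _

end Transport

section Descent

variable {k G G' : Type} [CommRing k] [Group G] [Group G']

/-- **Inflation along a surjection with descent, up to torsion (cochain form).**  If `m` kills
`H¹(ker π, C')` and `tr : C → C'` is injective with image the `ker π`-invariants, then
`inf z = 0 → m • z = 0` for `z ∈ H²(G, C)`, `inf = groupCohomology.map π tr 2`. -/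
theorem nsmul_eq_zero_of_map_eq_zero (π : G' →* G) (hπ : Function.Surjective π)
    (C : Rep.{0} k G) (C' : Rep.{0} k G') (tr : Rep.res π C ⟶ C')
    (htr_inj : Function.Injective tr.hom)
    (htr_surj : ∀ c' : C'.V, (∀ n ∈ π.ker, C'.ρ n c' = c') → ∃ c : C.V, tr.hom c = c')
    {m : ℕ} (hkill : HOneKilledBy m C'.ρ π.ker)
    (z : groupCohomology C 2) (h0 : (groupCohomology.map π tr 2).hom z = 0) : m • z = 0 := by
  induction z using H2_induction_on with | @h f =>
  have hcocf : ∀ g h j : G, (f : G × G → C) (g * h, j) + (f : G × G → C) (g, h) =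
      C.ρ g ((f : G × G → C) (h, j)) + (f : G × G → C) (g, h * j) :=
    (mem_cocycles₂_iff _).1 f.2
  have h1 : H2π C' (mapCocycles₂ π tr f) = 0 := by
    rw [← H2π_comp_map_apply π]; exact h0
  obtain ⟨(c : G' → C'), hc⟩ := (H2π_eq_zero_iff _).1 h1
  -- equivariance of `tr`
  have htr_eq : ∀ (a : G') (x : C.V), tr.hom (C.ρ (π a) x) = C'.ρ a (tr.hom x) := by
    intro a x
    exact Rep.hom_comm_apply tr a x
  set f' : G' × G' → C' := fun q => tr.hom ((f : G × G → C) (π q.1, π q.2)) with hf'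
  have hc' : f' = dOne C'.ρ c := by
    funext ⟨a, b⟩
    have := congr_fun hc (a, b)
    rw [d₁₂_hom_apply] at this
    rw [dOne_apply, this]
    rfl
  have hker : ∀ s ∈ π.ker, ∀ a : G', π (a * s) = π a := by
    intro s hs a
    rw [map_mul, MonoidHom.mem_ker.1 hs, mul_one]
  obtain ⟨c', hd, hright, hval⟩ := exists_invariant_cochain_of_inf_coboundary_nsmul C'.ρ π.ker
    hkill (f' := f')
    (fun s hs a b => by simp only [hf', hker s hs])
    (fun s hs a b => by simp only [hf', hker s hs])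
    (fun s hs a b => by
      simp only [hf']
      rw [← htr_eq, MonoidHom.mem_ker.1 hs, map_one]
      rfl) c hc'
  -- descend `c'` to a cochain of `G` with values in `C`
  have hex : ∀ g : G, ∃ x : C.V, ∀ a : G', π a = g → tr.hom x = c' a := by
    intro g
    obtain ⟨a₀, ha₀⟩ := hπ g
    obtain ⟨x, hx⟩ := htr_surj (c' a₀) (fun n hn => hval n hn a₀)
    refine ⟨x, fun a ha => ?_⟩
    have hs : a₀⁻¹ * a ∈ π.ker := by
      rw [MonoidHom.mem_ker, map_mul, map_inv, ha₀, ha, inv_mul_cancel]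
    have : a = a₀ * (a₀⁻¹ * a) := by group
    rw [hx, this, hright _ hs]
  choose c₀ hc₀ using hex
  rw [← map_nsmul, H2π_eq_zero_iff]
  refine ⟨c₀, ?_⟩
  funext ⟨g, h⟩
  obtain ⟨a, rfl⟩ := hπ g
  obtain ⟨b, rfl⟩ := hπ h
  apply htr_inj
  rw [d₁₂_hom_apply]
  have hd' := congr_fun hd (a, b)
  rw [dOne_apply] at hd'
  have e1 : tr.hom (c₀ (π b)) = c' b := hc₀ (π b) b rfl
  have e2 : tr.hom (c₀ (π a * π b)) = c' (a * b) := hc₀ (π a * π b) (a * b) (map_mul π a b)
  have e3 : tr.hom (c₀ (π a)) = c' a := hc₀ (π a) a rfl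
  rw [map_add, map_sub, htr_eq, e1, e2, e3, ← hd']
  show m • tr.hom ((f : G × G → C) (π a, π b)) = tr.hom (m • (f : G × G → C) (π a, π b))
  rw [map_nsmul]

/-- **GD8, abstract form.**  `π : G' ↠ G`, `G'` finite, `tr : C → C'` injective with image the
`ker π`-invariants, `H¹(Q, C') = 0` for all `p`-subgroups `Q ≤ G'`.  Then inflation
`groupCohomology.map π tr 2 : H²(G, C) → H²(G', C')` is injective on `p`-primary torsion. -/
theorem eq_zero_of_map_eq_zero_of_pPrimary [Finite G'] (π : G' →* G)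
    (hπ : Function.Surjective π)
    (C : Rep.{0} k G) (C' : Rep.{0} k G') (tr : Rep.res π C ⟶ C')
    (htr_inj : Function.Injective tr.hom)
    (htr_surj : ∀ c' : C'.V, (∀ n ∈ π.ker, C'.ρ n c' = c') → ∃ c : C.V, tr.hom c = c')
    (p : ℕ) (hp : p.Prime)
    (hH1 : ∀ Q : Subgroup G', IsPGroup p Q →
      Limits.IsZero (groupCohomology (resSub C' Q) 1))
    (z : groupCohomology C 2) (n : ℕ) (hz : p ^ n • z = 0)
    (h0 : (groupCohomology.map π tr 2).hom z = 0) : z = 0 := by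
  have : Fact p.Prime := ⟨hp⟩
  obtain ⟨m, hm, hkill⟩ := exists_coprime_hOneKilledBy C' p hH1 π.ker
  have h1 := nsmul_eq_zero_of_map_eq_zero π hπ C C' tr htr_inj htr_surj hkill z h0
  exact eq_zero_of_coprime_nsmul (Nat.Coprime.pow_left n hm.symm) hz h1

/-- **GD8, in the exact shape of `Tow.TowerDatum.IsGood.gd8`** (`p • z = 0`). -/
theorem eq_zero_of_map_eq_zero_of_pTorsion [Finite G'] (π : G' →* G)
    (hπ : Function.Surjective π)
    (C : Rep.{0} k G) (C' : Rep.{0} k G') (tr : Rep.res π C ⟶ C')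
    (htr_inj : Function.Injective tr.hom)
    (htr_surj : ∀ c' : C'.V, (∀ n ∈ π.ker, C'.ρ n c' = c') → ∃ c : C.V, tr.hom c = c')
    (p : ℕ) (hp : p.Prime)
    (hH1 : ∀ Q : Subgroup G', IsPGroup p Q →
      Limits.IsZero (groupCohomology (resSub C' Q) 1))
    (z : groupCohomology C 2) (hz : p • z = 0)
    (h0 : (groupCohomology.map π tr 2).hom z = 0) : z = 0 :=
  eq_zero_of_map_eq_zero_of_pPrimary π hπ C C' tr htr_inj htr_surj p hp hH1 z 1
    (by rwa [pow_one]) h0

end Descent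

end Fermat.Agent.S55.T.H244

end
-- ===== PACK-END S55/T/InfDescentH244.lean

-- ===== PACK-BEGIN S55/ColH543/Colimit.lean
section




/-!
# S55 / colimit dictionary (helper543), part 3: level-constant cochains versus finite levels

`G` a group with a level system `L : PT.LevelSys G` whose normal levels are cofinal
(`hN : L.NormalCofinal`), `A : Rep k G` ARBITRARY (no smoothness assumption: by the key remark of
`Cochain.lean` the values of a level-constant cochain with level-constant coboundary are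
automatically invariant under a normal level).

Finite levels are in Mathlib form: `KL.HL A U n = groupCohomology (A.quotientToInvariants U) n`
with the transition maps `KL.infl A h n` (`h : U' ≤ U`).

## Elementwise dictionary
* `exists_inf₁_of_mem_Z1`, `exists_inf₂_of_mem_Z2`, `exists_inf₃_of_isLC₃` : a level-constant
  cocycle is inflated from a cocycle of a normal level (below any given level);
* `inf₁_mem_B1_iff`, `inf₂_mem_B2_iff`, `inf₃_mem_B3_iff` : an inflated cocycle is the coboundary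
  of a level-constant cochain iff its class dies at some smaller normal level;
* `inf₂_comp`, … : compatibility of inflation with `KL.HLmap` (restriction to subgroups /
  local groups, change of coefficients, transition maps).

## Cochain-level predicates of layer K  ↔  finite-level predicates of layer KL
* `h3Vanish_iff`     : `H3Vanish L A ↔ KL.EffAll N A 3`,
* `h3TorsVanish_iff` : `H3TorsVanish L A n ↔ KL.EffTors N A n 3`,
* `h2Divisible_iff`  : `H2Divisible L A n ↔ KL.EffDiv N A n 2`,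
where `N = nLevels L hN hF` is the system of normal levels of `L`.
-/

set_option autoImplicit false
set_option linter.style.haveILetI false

noncomputable section

open groupCohomology CategoryTheory

namespace Fermat.Agent.S55.ColH543

open Fermat.Agent.S55.PT Fermat.Agent.S55.KL

variable {k : Type} [CommRing k] {G : Type} [Group G]

/-! ## Normal levels -/

/-- The system of normal levels of `L`, as a `KL.NLevels`. -/
def nLevels (L : LevelSys G) (hN : L.NormalCofinal) (hF : L.FiniteIndex) : NLevels G where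
  carrier := {U | U ∈ L.levels ∧ U.Normal}
  normal _ hU := hU.2
  finiteIndex _ hU := hF _ hU.1
  nonempty := by
    obtain ⟨U, hU⟩ := L.nonempty
    obtain ⟨V, hV, -, hVn⟩ := hN U hU
    exact ⟨V, hV, hVn⟩
  directed := by
    rintro U ⟨hU, -⟩ V ⟨hV, -⟩
    obtain ⟨W, hW, hle⟩ := L.directed U hU V hV
    obtain ⟨X, hX, hXW, hXn⟩ := hN W hW
    exact ⟨X, ⟨hX, hXn⟩, hXW.trans hle⟩

lemma mem_nLevels {L : LevelSys G} {hN : L.NormalCofinal} {hF : L.FiniteIndex} {U : Subgroup G} :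
    U ∈ (nLevels L hN hF).carrier ↔ U ∈ L.levels ∧ U.Normal := Iff.rfl

/-- Below two levels of `L` there is a normal level. -/
lemma exists_normal_le {L : LevelSys G} (hN : L.NormalCofinal) {U V : Subgroup G}
    (hU : U ∈ L.levels) (hV : V ∈ L.levels) :
    ∃ W ∈ L.levels, W.Normal ∧ W ≤ U ∧ W ≤ V := by
  obtain ⟨W, hW, hle⟩ := L.directed U hU V hV
  obtain ⟨X, hX, hXW, hXn⟩ := hN W hW
  exact ⟨X, hX, hXn, hXW.trans (le_inf_iff.1 hle).1, hXW.trans (le_inf_iff.1 hle).2⟩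

/-- Level-constant 3-cochains (the same predicate as `K.IsLC₃`). -/
def IsLC₃ (L : LevelSys G) {X : Type*} (f : G × G × G → X) : Prop :=
  ∃ U ∈ L.levels, ∀ g₁ g₂ g₃ s₁ s₂ s₃ : G, s₁ ∈ U → s₂ ∈ U → s₃ ∈ U →
    f (g₁ * s₁, g₂ * s₂, g₃ * s₃) = f (g₁, g₂, g₃)

lemma isLC₁_iff {L : LevelSys G} {X : Type*} (f : G → X) :
    L.IsLC₁ f ↔ ∃ U ∈ L.levels, IsRInv₁ U f := Iff.rfl

lemma isLC₂_iff {L : LevelSys G} {X : Type*} (f : G × G → X) :
    L.IsLC₂ f ↔ ∃ U ∈ L.levels, IsRInv₂ U f := Iff.rfl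

lemma isLC₃_iff {L : LevelSys G} {X : Type*} (f : G × G × G → X) :
    IsLC₃ L f ↔ ∃ U ∈ L.levels, IsRInv₃ U f := Iff.rfl

/-! ## Inflation of cocycles -/

section InfCocycles

variable (A : Rep.{0, 0, 0} k G) (U : Subgroup G) [U.Normal]

lemma inf₁_mem_cocycles₁ (c : cocycles₁ (A.quotientToInvariants U)) :
    inf₁ A U c ∈ cocycles₁ A := by
  show (d₁₂ A).hom (inf₁ A U c) = 0
  rw [d₁₂_inf₁, show (d₁₂ (A.quotientToInvariants U)).hom c = 0 from c.2, map_zero]

lemma inf₂_mem_cocycles₂ (c : cocycles₂ (A.quotientToInvariants U)) :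
    inf₂ A U c ∈ cocycles₂ A := by
  show (d₂₃ A).hom (inf₂ A U c) = 0
  rw [d₂₃_inf₂, show (d₂₃ (A.quotientToInvariants U)).hom c = 0 from c.2, map_zero]

lemma inf₃_mem_cocycles₃ (c : cocycles₃ (A.quotientToInvariants U)) :
    inf₃ A U c ∈ cocycles₃ A := by
  show d34 A (inf₃ A U c) = 0
  rw [d34_inf₃, show d34 (A.quotientToInvariants U) c = 0 from c.2, map_zero]

variable {A U}

lemma mem_cocycles₁_of_inf₁ {c : G ⧸ U → A.quotientToInvariants U}
    (h : inf₁ A U c ∈ cocycles₁ A) : c ∈ cocycles₁ (A.quotientToInvariants U) := by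
  apply inf₂_injective A U
  rw [← d₁₂_inf₁, map_zero]
  exact h

lemma mem_cocycles₂_of_inf₂ {c : (G ⧸ U) × (G ⧸ U) → A.quotientToInvariants U}
    (h : inf₂ A U c ∈ cocycles₂ A) : c ∈ cocycles₂ (A.quotientToInvariants U) := by
  apply inf₃_injective A U
  rw [← d₂₃_inf₂, map_zero]
  exact h

lemma mem_cocycles₃_of_inf₃ {c : (G ⧸ U) × (G ⧸ U) × (G ⧸ U) → A.quotientToInvariants U}
    (h : inf₃ A U c ∈ cocycles₃ A) : c ∈ cocycles₃ (A.quotientToInvariants U) := by
  apply inf₄_injective A U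
  show inf₄ A U (d34 (A.quotientToInvariants U) c) = inf₄ A U 0
  rw [← d34_inf₃, map_zero]
  exact h

end InfCocycles

/-! ## Compatibility of inflation with `KL.HLmap` -/

section Compat

variable {G' : Type} [Group G'] {A : Rep.{0, 0, 0} k G} {A' : Rep.{0, 0, 0} k G'}
  (f : G' →* G) {U : Subgroup G} [U.Normal] {U' : Subgroup G'} [U'.Normal]
  (hf : U' ≤ U.comap f) (φ : Rep.res f A ⟶ A')

/-- The group homomorphism `G' ⧸ U' → G ⧸ U` underlying `KL.HLmap f hf φ`. -/
abbrev qmap : G' ⧸ U' →* G ⧸ U := QuotientGroup.map U' U f hf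

lemma inf₁_comp (c : cocycles₁ (A.quotientToInvariants U)) :
    inf₁ A' U' ((mapCocycles₁ (qmap f hf) (invMap f hf φ)).hom c) =
      fun x => φ.hom (inf₁ A U c (f x)) := by
  funext x
  rfl

lemma inf₂_comp (c : cocycles₂ (A.quotientToInvariants U)) :
    inf₂ A' U' ((mapCocycles₂ (qmap f hf) (invMap f hf φ)).hom c) =
      fun x => φ.hom (inf₂ A U c (f x.1, f x.2)) := by
  funext ⟨x, y⟩
  rfl

lemma inf₃_comp (c : cocycles₃ (A.quotientToInvariants U)) :
    inf₃ A' U' (mapCocycles₃ (qmap f hf) (invMap f hf φ) c) =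
      fun x => φ.hom (inf₃ A U c (f x.1, f x.2.1, f x.2.2)) := by
  funext ⟨x, y, z⟩
  rfl

/-- `KL.HLmap` on explicit 1-cocycles. -/
lemma HLmap_H1π (c : cocycles₁ (A.quotientToInvariants U)) :
    (HLmap f hf φ 1).hom (H1π _ c) =
      H1π _ ((mapCocycles₁ (qmap f hf) (invMap f hf φ)).hom c) :=
  H1π_comp_map_apply (qmap f hf) (invMap f hf φ) c

/-- `KL.HLmap` on explicit 2-cocycles. -/
lemma HLmap_H2π (c : cocycles₂ (A.quotientToInvariants U)) :
    (HLmap f hf φ 2).hom (H2π _ c) =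
      H2π _ ((mapCocycles₂ (qmap f hf) (invMap f hf φ)).hom c) :=
  H2π_comp_map_apply (qmap f hf) (invMap f hf φ) c

/-- `KL.HLmap` on explicit 3-cocycles. -/
lemma HLmap_H3π (c : cocycles₃ (A.quotientToInvariants U)) :
    (HLmap f hf φ 3).hom (H3π _ c) = H3π _ (mapCocycles₃ (qmap f hf) (invMap f hf φ) c) :=
  map_H3π (qmap f hf) (invMap f hf φ) c

end Compat

/-! ## Transition maps between levels, on explicit cocycles -/

section Lev

variable (A : Rep.{0, 0, 0} k G) {U' U : Subgroup G} [U'.Normal] [U.Normal] (h : U' ≤ U)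

/-- The transition map on 1-cocycles. -/
def lev₁ : cocycles₁ (A.quotientToInvariants U) →ₗ[k] cocycles₁ (A.quotientToInvariants U') :=
  (mapCocycles₁ (qmap (MonoidHom.id G) (U := U) (U' := U') (by simpa using h))
    (invMap (MonoidHom.id G) (W := U) (W' := U') (by simpa using h) (𝟙 A))).hom

/-- The transition map on 2-cocycles. -/
def lev₂ : cocycles₂ (A.quotientToInvariants U) →ₗ[k] cocycles₂ (A.quotientToInvariants U') :=
  (mapCocycles₂ (qmap (MonoidHom.id G) (U := U) (U' := U') (by simpa using h))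
    (invMap (MonoidHom.id G) (W := U) (W' := U') (by simpa using h) (𝟙 A))).hom

/-- The transition map on 3-cocycles. -/
def lev₃ : cocycles₃ (A.quotientToInvariants U) →ₗ[k] cocycles₃ (A.quotientToInvariants U') :=
  mapCocycles₃ (qmap (MonoidHom.id G) (U := U) (U' := U') (by simpa using h))
    (invMap (MonoidHom.id G) (W := U) (W' := U') (by simpa using h) (𝟙 A))

@[simp] lemma inf₁_lev₁ (c : cocycles₁ (A.quotientToInvariants U)) :
    inf₁ A U' (lev₁ A h c) = inf₁ A U c := by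
  funext x
  rfl

@[simp] lemma inf₂_lev₂ (c : cocycles₂ (A.quotientToInvariants U)) :
    inf₂ A U' (lev₂ A h c) = inf₂ A U c := by
  funext ⟨x, y⟩
  rfl

@[simp] lemma inf₃_lev₃ (c : cocycles₃ (A.quotientToInvariants U)) :
    inf₃ A U' (lev₃ A h c) = inf₃ A U c := by
  funext ⟨x, y, z⟩
  rfl

lemma infl_H1π (c : cocycles₁ (A.quotientToInvariants U)) :
    (infl A h 1).hom (H1π _ c) = H1π _ (lev₁ A h c) :=
  HLmap_H1π _ _ _ c

lemma infl_H2π (c : cocycles₂ (A.quotientToInvariants U)) :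
    (infl A h 2).hom (H2π _ c) = H2π _ (lev₂ A h c) :=
  HLmap_H2π _ _ _ c

lemma infl_H3π (c : cocycles₃ (A.quotientToInvariants U)) :
    (infl A h 3).hom (H3π _ c) = H3π _ (lev₃ A h c) :=
  HLmap_H3π _ _ _ c

end Lev

/-! ## The elementwise dictionary -/

section Dictionary

variable {L : LevelSys G} {A : Rep.{0, 0, 0} k G}

lemma isLC₁_inf₁ {U : Subgroup G} [U.Normal] (hU : U ∈ L.levels)
    (c : G ⧸ U → A.quotientToInvariants U) : L.IsLC₁ (inf₁ A U c) :=
  ⟨U, hU, isRInv₁_inf₁ A U c⟩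

lemma isLC₂_inf₂ {U : Subgroup G} [U.Normal] (hU : U ∈ L.levels)
    (c : (G ⧸ U) × (G ⧸ U) → A.quotientToInvariants U) : L.IsLC₂ (inf₂ A U c) :=
  ⟨U, hU, isRInv₂_inf₂ A U c⟩

lemma isLC₃_inf₃ {U : Subgroup G} [U.Normal] (hU : U ∈ L.levels)
    (c : (G ⧸ U) × (G ⧸ U) × (G ⧸ U) → A.quotientToInvariants U) : IsLC₃ L (inf₃ A U c) :=
  ⟨U, hU, isRInv₃_inf₃ A U c⟩

lemma inf₁_mem_Z1 {U : Subgroup G} [U.Normal] (hU : U ∈ L.levels)
    (c : cocycles₁ (A.quotientToInvariants U)) : inf₁ A U c ∈ L.Z1 A :=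
  Submodule.mem_inf.2 ⟨inf₁_mem_cocycles₁ A U c, isLC₁_inf₁ hU c⟩

lemma inf₂_mem_Z2 {U : Subgroup G} [U.Normal] (hU : U ∈ L.levels)
    (c : cocycles₂ (A.quotientToInvariants U)) : inf₂ A U c ∈ L.Z2 A :=
  Submodule.mem_inf.2 ⟨inf₂_mem_cocycles₂ A U c, isLC₂_inf₂ hU c⟩

/-- The inflation of a coboundary is the coboundary of a level-constant cochain. -/
lemma inf₂_mem_B2_of_mem {U : Subgroup G} [U.Normal] (hU : U ∈ L.levels)
    {c : (G ⧸ U) × (G ⧸ U) → A.quotientToInvariants U}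
    (hc : c ∈ coboundaries₂ (A.quotientToInvariants U)) : inf₂ A U c ∈ L.B2 A := by
  obtain ⟨b', rfl⟩ := hc
  exact ⟨inf₁ A U b', isLC₁_inf₁ hU b', d₁₂_inf₁ A U b'⟩

lemma inf₂_mem_B2_of_H2π {U : Subgroup G} [U.Normal] (hU : U ∈ L.levels)
    {c : cocycles₂ (A.quotientToInvariants U)} (hc : H2π _ c = 0) : inf₂ A U c ∈ L.B2 A :=
  inf₂_mem_B2_of_mem hU ((H2π_eq_zero_iff c).1 hc)

/-- The inflation of a coboundary is the coboundary of a level-constant cochain. -/
lemma inf₃_mem_B3_of_mem {U : Subgroup G} [U.Normal] (hU : U ∈ L.levels)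
    {c : (G ⧸ U) × (G ⧸ U) × (G ⧸ U) → A.quotientToInvariants U}
    (hc : c ∈ coboundaries₃ (A.quotientToInvariants U)) :
    ∃ b ∈ L.C2 A, (d₂₃ A).hom b = inf₃ A U c := by
  obtain ⟨b', rfl⟩ := hc
  exact ⟨inf₂ A U b', isLC₂_inf₂ hU b', d₂₃_inf₂ A U b'⟩

lemma inf₃_mem_B3_of_H3π {U : Subgroup G} [U.Normal] (hU : U ∈ L.levels)
    {c : cocycles₃ (A.quotientToInvariants U)} (hc : H3π _ c = 0) :
    ∃ b ∈ L.C2 A, (d₂₃ A).hom b = inf₃ A U c :=
  inf₃_mem_B3_of_mem hU ((H3π_eq_zero_iff c).1 hc)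

variable (hN : L.NormalCofinal)
include hN

/-- A level-constant 1-cochain whose coboundary is right invariant under a level is inflated from
a normal level. -/
theorem exists_inf₁_of_isLC₁ {f : G → A} (hf : L.IsLC₁ f) {W : Subgroup G} (hW : W ∈ L.levels)
    (hd : IsRInv₂ W ((d₁₂ A).hom f)) {U₀ : Subgroup G} (hU₀ : U₀ ∈ L.levels) :
    ∃ (U : Subgroup G) (_ : U.Normal) (_ : U ∈ L.levels) (_ : U ≤ U₀) (_ : U ≤ W)
      (c : G ⧸ U → A.quotientToInvariants U), inf₁ A U c = f := by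
  obtain ⟨W', hW', hfW'⟩ := hf
  obtain ⟨U₁, hU₁, -, hU₁W', hU₁W⟩ := exists_normal_le hN hW' hW
  obtain ⟨U, hU, hUn, hUU₁, hUU₀⟩ := exists_normal_le hN hU₁ hU₀
  haveI := hUn
  have hr : IsRInv₁ U f := IsRInv₁.mono (hUU₁.trans hU₁W') hfW'
  have hd' : IsRInv₂ U ((d₁₂ A).hom f) := hd.mono (hUU₁.trans hU₁W)
  obtain ⟨c, hc⟩ := exists_inf₁ hr (isInv_of_isRInv₁ hr hd')
  exact ⟨U, hUn, hU, hUU₀, hUU₁.trans hU₁W, c, hc⟩

/-- A level-constant 2-cochain whose coboundary is right invariant under a level is inflated from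
a normal level. -/
theorem exists_inf₂_of_isLC₂ {f : G × G → A} (hf : L.IsLC₂ f) {W : Subgroup G}
    (hW : W ∈ L.levels) (hd : IsRInv₃ W ((d₂₃ A).hom f)) {U₀ : Subgroup G}
    (hU₀ : U₀ ∈ L.levels) :
    ∃ (U : Subgroup G) (_ : U.Normal) (_ : U ∈ L.levels) (_ : U ≤ U₀) (_ : U ≤ W)
      (c : (G ⧸ U) × (G ⧸ U) → A.quotientToInvariants U), inf₂ A U c = f := by
  obtain ⟨W', hW', hfW'⟩ := hf
  obtain ⟨U₁, hU₁, -, hU₁W', hU₁W⟩ := exists_normal_le hN hW' hW
  obtain ⟨U, hU, hUn, hUU₁, hUU₀⟩ := exists_normal_le hN hU₁ hU₀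
  haveI := hUn
  have hr : IsRInv₂ U f := IsRInv₂.mono (hUU₁.trans hU₁W') hfW'
  have hd' : IsRInv₃ U ((d₂₃ A).hom f) := hd.mono (hUU₁.trans hU₁W)
  obtain ⟨c, hc⟩ := exists_inf₂ hr (isInv_of_isRInv₂ hr hd')
  exact ⟨U, hUn, hU, hUU₀, hUU₁.trans hU₁W, c, hc⟩

/-- A level-constant 1-cocycle is inflated from a cocycle of a normal level. -/
theorem exists_inf₁_of_mem_Z1 {f : G → A} (hf : f ∈ L.Z1 A) {U₀ : Subgroup G}
    (hU₀ : U₀ ∈ L.levels) :
    ∃ (U : Subgroup G) (_ : U.Normal) (_ : U ∈ L.levels) (_ : U ≤ U₀)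
      (c : cocycles₁ (A.quotientToInvariants U)), inf₁ A U c = f := by
  obtain ⟨hcoc, hlc⟩ := Submodule.mem_inf.1 hf
  have hd : IsRInv₂ U₀ ((d₁₂ A).hom f) := by
    rw [show (d₁₂ A).hom f = 0 from hcoc]
    exact isRInv₂_zero U₀
  obtain ⟨U, hUn, hU, hUU₀, -, c, hc⟩ := exists_inf₁_of_isLC₁ hN hlc hU₀ hd hU₀
  haveI := hUn
  exact ⟨U, hUn, hU, hUU₀, ⟨c, mem_cocycles₁_of_inf₁ (hc ▸ hcoc)⟩, hc⟩

/-- A level-constant 2-cocycle is inflated from a cocycle of a normal level. -/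
theorem exists_inf₂_of_mem_Z2 {f : G × G → A} (hf : f ∈ L.Z2 A) {U₀ : Subgroup G}
    (hU₀ : U₀ ∈ L.levels) :
    ∃ (U : Subgroup G) (_ : U.Normal) (_ : U ∈ L.levels) (_ : U ≤ U₀)
      (c : cocycles₂ (A.quotientToInvariants U)), inf₂ A U c = f := by
  obtain ⟨hcoc, hlc⟩ := Submodule.mem_inf.1 hf
  have hd : IsRInv₃ U₀ ((d₂₃ A).hom f) := by
    rw [show (d₂₃ A).hom f = 0 from hcoc]
    exact isRInv₃_zero U₀
  obtain ⟨U, hUn, hU, hUU₀, -, c, hc⟩ := exists_inf₂_of_isLC₂ hN hlc hU₀ hd hU₀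
  haveI := hUn
  exact ⟨U, hUn, hU, hUU₀, ⟨c, mem_cocycles₂_of_inf₂ (hc ▸ hcoc)⟩, hc⟩

/-- A level-constant 3-cocycle is inflated from a cocycle of a normal level. -/
theorem exists_inf₃_of_isLC₃ {f : G × G × G → A} (hf : IsLC₃ L f) (hcoc : d34 A f = 0)
    {U₀ : Subgroup G} (hU₀ : U₀ ∈ L.levels) :
    ∃ (U : Subgroup G) (_ : U.Normal) (_ : U ∈ L.levels) (_ : U ≤ U₀)
      (c : cocycles₃ (A.quotientToInvariants U)), inf₃ A U c = f := by
  obtain ⟨W', hW', hfW'⟩ := hf
  obtain ⟨U, hU, hUn, hUW', hUU₀⟩ := exists_normal_le hN hW' hU₀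
  haveI := hUn
  have hr : IsRInv₃ U f := IsRInv₃.mono hUW' hfW'
  have hd : IsRInv₄ U (d34 A f) := by
    rw [hcoc]
    exact isRInv₄_zero U
  obtain ⟨c, hc⟩ := exists_inf₃ hr (isInv_of_isRInv₃ hr hd)
  exact ⟨U, hUn, hU, hUU₀, ⟨c, mem_cocycles₃_of_inf₃ (hc ▸ hcoc)⟩, hc⟩

omit hN in
/-- Inflation `H¹(G ⧸ U, A^U) → H¹_L(A)` is injective (cochain form). -/
theorem inf₁_mem_B1_iff {U : Subgroup G} [U.Normal] (c : cocycles₁ (A.quotientToInvariants U)) :
    inf₁ A U c ∈ LevelSys.B1 A ↔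
      (c : G ⧸ U → A.quotientToInvariants U) ∈ coboundaries₁ (A.quotientToInvariants U) := by
  constructor
  · rintro ⟨a, ha⟩
    have hd : IsRInv₁ U ((d₀₁ A).hom a) := by
      rw [ha]
      exact isRInv₁_inf₁ A U c
    obtain ⟨a', rfl⟩ := exists_inf₀ (isInv_of_isRInv₀ hd)
    refine ⟨a', ?_⟩
    apply inf₁_injective A U
    rw [← d₀₁_inf₀]
    exact ha
  · rintro ⟨a', ha'⟩
    refine ⟨inf₀ A U a', ?_⟩
    rw [d₀₁_inf₀, ha']

omit hN in
/-- Inflation `H¹(G ⧸ U, A^U) → H¹_L(A)` is injective (class form). -/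
theorem inf₁_mem_B1_iff_H1π {U : Subgroup G} [U.Normal]
    (c : cocycles₁ (A.quotientToInvariants U)) :
    inf₁ A U c ∈ LevelSys.B1 A ↔ H1π (A.quotientToInvariants U) c = 0 := by
  rw [inf₁_mem_B1_iff, H1π_eq_zero_iff]

/-- An inflated 2-cocycle is the coboundary of a level-constant cochain iff it becomes a
coboundary at a smaller normal level. -/
theorem inf₂_mem_B2_iff {U : Subgroup G} [U.Normal] (hU : U ∈ L.levels)
    (c : cocycles₂ (A.quotientToInvariants U)) :
    inf₂ A U c ∈ L.B2 A ↔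
      ∃ (U' : Subgroup G) (_ : U'.Normal) (_ : U' ∈ L.levels) (h : U' ≤ U),
        (lev₂ A h c : (G ⧸ U') × (G ⧸ U') → A.quotientToInvariants U') ∈
          coboundaries₂ (A.quotientToInvariants U') := by
  constructor
  · rintro ⟨b, hb, hbc⟩
    have hd : IsRInv₃ U ((d₂₃ A).hom ((d₁₂ A).hom b)) := by
      have : (d₂₃ A).hom ((d₁₂ A).hom b) = 0 := congr($(d₁₂_comp_d₂₃ A) b)
      rw [this]
      exact isRInv₃_zero U
    have hd' : IsRInv₂ U ((d₁₂ A).hom b) := by
      rw [hbc]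
      exact isRInv₂_inf₂ A U c
    obtain ⟨U', hU'n, hU', hU'U, -, b', hb'⟩ := exists_inf₁_of_isLC₁ hN hb hU hd' hU
    haveI := hU'n
    refine ⟨U', hU'n, hU', hU'U, b', ?_⟩
    apply inf₂_injective A U'
    rw [← d₁₂_inf₁, hb', inf₂_lev₂]
    exact hbc
  · rintro ⟨U', hU'n, hU', hU'U, b', hb'⟩
    haveI := hU'n
    refine ⟨inf₁ A U' b', isLC₁_inf₁ hU' b', ?_⟩
    rw [d₁₂_inf₁, hb', inf₂_lev₂]

/-- Class form of `inf₂_mem_B2_iff`. -/
theorem inf₂_mem_B2_iff_infl {U : Subgroup G} [U.Normal] (hU : U ∈ L.levels)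
    (c : cocycles₂ (A.quotientToInvariants U)) :
    inf₂ A U c ∈ L.B2 A ↔
      ∃ (U' : Subgroup G) (_ : U'.Normal) (_ : U' ∈ L.levels) (h : U' ≤ U),
        (infl A h 2).hom (H2π _ c) = 0 := by
  rw [inf₂_mem_B2_iff hN hU]
  constructor
  · rintro ⟨U', hU'n, hU', h, hc⟩
    haveI := hU'n
    exact ⟨U', hU'n, hU', h, by rw [infl_H2π]; exact (H2π_eq_zero_iff _).2 hc⟩
  · rintro ⟨U', hU'n, hU', h, hc⟩
    haveI := hU'n
    exact ⟨U', hU'n, hU', h, by rw [infl_H2π] at hc; exact (H2π_eq_zero_iff _).1 hc⟩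

/-- An inflated 3-cocycle is the coboundary of a level-constant cochain iff it becomes a
coboundary at a smaller normal level. -/
theorem inf₃_mem_B3_iff {U : Subgroup G} [U.Normal] (hU : U ∈ L.levels)
    (c : cocycles₃ (A.quotientToInvariants U)) :
    (∃ b ∈ L.C2 A, (d₂₃ A).hom b = inf₃ A U c) ↔
      ∃ (U' : Subgroup G) (_ : U'.Normal) (_ : U' ∈ L.levels) (h : U' ≤ U),
        (lev₃ A h c : (G ⧸ U') × (G ⧸ U') × (G ⧸ U') → A.quotientToInvariants U') ∈
          coboundaries₃ (A.quotientToInvariants U') := by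
  constructor
  · rintro ⟨b, hb, hbc⟩
    have hd' : IsRInv₃ U ((d₂₃ A).hom b) := by
      rw [hbc]
      exact isRInv₃_inf₃ A U c
    obtain ⟨U', hU'n, hU', hU'U, -, b', hb'⟩ := exists_inf₂_of_isLC₂ hN hb hU hd' hU
    haveI := hU'n
    refine ⟨U', hU'n, hU', hU'U, b', ?_⟩
    apply inf₃_injective A U'
    rw [← d₂₃_inf₂, hb', inf₃_lev₃]
    exact hbc
  · rintro ⟨U', hU'n, hU', hU'U, b', hb'⟩
    haveI := hU'n
    refine ⟨inf₂ A U' b', isLC₂_inf₂ hU' b', ?_⟩
    rw [d₂₃_inf₂, hb', inf₃_lev₃]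

/-- Class form of `inf₃_mem_B3_iff`. -/
theorem inf₃_mem_B3_iff_infl {U : Subgroup G} [U.Normal] (hU : U ∈ L.levels)
    (c : cocycles₃ (A.quotientToInvariants U)) :
    (∃ b ∈ L.C2 A, (d₂₃ A).hom b = inf₃ A U c) ↔
      ∃ (U' : Subgroup G) (_ : U'.Normal) (_ : U' ∈ L.levels) (h : U' ≤ U),
        (infl A h 3).hom (H3π _ c) = 0 := by
  rw [inf₃_mem_B3_iff hN hU]
  constructor
  · rintro ⟨U', hU'n, hU', h, hc⟩
    haveI := hU'n
    exact ⟨U', hU'n, hU', h, by rw [infl_H3π]; exact (H3π_eq_zero_iff _).2 hc⟩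
  · rintro ⟨U', hU'n, hU', h, hc⟩
    haveI := hU'n
    exact ⟨U', hU'n, hU', h, by rw [infl_H3π] at hc; exact (H3π_eq_zero_iff _).1 hc⟩

end Dictionary

/-! ## Cochain-level predicates (layer K) versus finite-level predicates (layer KL) -/

section Predicates

/-- `H³_L(A) = 0` (cochain form; the same predicate as `K.H3Vanish`). -/
def H3Vanish (L : LevelSys G) (A : Rep.{0, 0, 0} k G) : Prop :=
  ∀ f : G × G × G → A, IsLC₃ L f → d34 A f = 0 → ∃ b ∈ L.C2 A, (d₂₃ A).hom b = f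

/-- `H³_L(A)[n] = 0` (cochain form; the same predicate as `K.H3TorsVanish`). -/
def H3TorsVanish (L : LevelSys G) (A : Rep.{0, 0, 0} k G) (n : ℕ) : Prop :=
  ∀ f : G × G × G → A, IsLC₃ L f → d34 A f = 0 →
    (∃ b ∈ L.C2 A, (d₂₃ A).hom b = n • f) → ∃ b ∈ L.C2 A, (d₂₃ A).hom b = f

/-- `H²_L(A)` is `n`-divisible (cochain form; the same predicate as `K.H2Divisible`). -/
def H2Divisible (L : LevelSys G) (A : Rep.{0, 0, 0} k G) (n : ℕ) : Prop :=
  ∀ f ∈ L.Z2 A, ∃ f' ∈ L.Z2 A, f - n • f' ∈ L.B2 A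

/-- `H¹_L(A) = 0` (cochain form). -/
def H1Vanish (L : LevelSys G) (A : Rep.{0, 0, 0} k G) : Prop :=
  ∀ f ∈ L.Z1 A, f ∈ LevelSys.B1 A

/-- `H²_L(A) = 0` (cochain form). -/
def H2Vanish (L : LevelSys G) (A : Rep.{0, 0, 0} k G) : Prop :=
  ∀ f ∈ L.Z2 A, f ∈ L.B2 A

variable {L : LevelSys G} (hN : L.NormalCofinal) (hF : L.FiniteIndex) (A : Rep.{0, 0, 0} k G)

/-- A normal level of `L` as a level of `nLevels L hN hF`. -/
abbrev toLvl {U : Subgroup G} (hU : U ∈ L.levels) (hUn : U.Normal) : (nLevels L hN hF).Lvl :=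
  ⟨U, hU, hUn⟩

/-- **`H³_L(A) = 0` iff `colim_U H³(G ⧸ U, A^U) = 0`.** -/
theorem h3Vanish_iff : H3Vanish L A ↔ EffAll (nLevels L hN hF) A 3 := by
  constructor
  · intro H V y
    induction y using H3_induction_on with
    | h c =>
    obtain ⟨b, hb, hbc⟩ := H (inf₃ A V.W c) (isLC₃_inf₃ (A := A) (U := V.W) V.mem.1 _) (inf₃_mem_cocycles₃ A V.W c)
    obtain ⟨U', hU'n, hU', h, hc⟩ := (inf₃_mem_B3_iff_infl hN V.mem.1 c).1 ⟨b, hb, hbc⟩
    exact ⟨toLvl hN hF hU' hU'n, h, hc⟩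
  · intro H f hf hcoc
    obtain ⟨U₀, hU₀⟩ := L.nonempty
    obtain ⟨U, hUn, hU, -, c, rfl⟩ := exists_inf₃_of_isLC₃ hN hf hcoc hU₀
    haveI := hUn
    obtain ⟨V', h, hc⟩ := H (toLvl hN hF hU hUn) (H3π _ c)
    exact (inf₃_mem_B3_iff_infl hN hU c).2 ⟨V'.W, V'.mem.2, V'.mem.1, h, hc⟩

/-- **`H³_L(A)[n] = 0` iff `colim_U H³(G ⧸ U, A^U)[n] = 0`.** -/
theorem h3TorsVanish_iff (n : ℕ) : H3TorsVanish L A n ↔ EffTors (nLevels L hN hF) A n 3 := by
  constructor
  · intro H V y hy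
    induction y using H3_induction_on with
    | h c =>
    have hnc : ((n • c : cocycles₃ (A.quotientToInvariants V.W)) :
        (G ⧸ V.W) × (G ⧸ V.W) × (G ⧸ V.W) → A.quotientToInvariants V.W) ∈
        coboundaries₃ (A.quotientToInvariants V.W) := by
      rw [← H3π_eq_zero_iff, map_nsmul]
      exact hy
    obtain ⟨b', hb'⟩ := hnc
    have h1 : ∃ b ∈ L.C2 A, (d₂₃ A).hom b = n • inf₃ A V.W c := by
      refine ⟨inf₂ A V.W b', isLC₂_inf₂ V.mem.1 b', ?_⟩
      rw [d₂₃_inf₂, hb', ← map_nsmul]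
      rfl
    obtain ⟨b, hb, hbc⟩ := H (inf₃ A V.W c) (isLC₃_inf₃ (A := A) (U := V.W) V.mem.1 _) (inf₃_mem_cocycles₃ A V.W c) h1
    obtain ⟨U', hU'n, hU', h, hc⟩ := (inf₃_mem_B3_iff_infl hN V.mem.1 c).1 ⟨b, hb, hbc⟩
    exact ⟨toLvl hN hF hU' hU'n, h, hc⟩
  · intro H f hf hcoc hnf
    obtain ⟨U₀, hU₀⟩ := L.nonempty
    obtain ⟨U, hUn, hU, -, c, rfl⟩ := exists_inf₃_of_isLC₃ hN hf hcoc hU₀
    haveI := hUn
    have h1 : ∃ b ∈ L.C2 A, (d₂₃ A).hom b = inf₃ A U (n • c : cocycles₃ _) := by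
      obtain ⟨b, hb, hbc⟩ := hnf
      refine ⟨b, hb, ?_⟩
      rw [hbc, ← map_nsmul]
      rfl
    obtain ⟨U₁, hU₁n, hU₁, h₁, hc₁⟩ := (inf₃_mem_B3_iff_infl hN hU (n • c)).1 h1
    haveI := hU₁n
    rw [map_nsmul, map_nsmul] at hc₁
    obtain ⟨V', h', hc'⟩ := H (toLvl hN hF hU₁ hU₁n) ((infl A h₁ 3).hom (H3π _ c)) hc₁
    have h2 : (infl A (h'.trans h₁) 3).hom (H3π _ c) = 0 := by
      rw [← H543.infl_infl A h' h₁ 3]
      exact hc'
    exact (inf₃_mem_B3_iff_infl hN hU c).2 ⟨V'.W, V'.mem.2, V'.mem.1, h'.trans h₁, h2⟩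

/-- **`H²_L(A)` is `n`-divisible iff `colim_U H²(G ⧸ U, A^U) ⊗ ℤ/n = 0`.** -/
theorem h2Divisible_iff (n : ℕ) : H2Divisible L A n ↔ EffDiv (nLevels L hN hF) A n 2 := by
  constructor
  · intro H V x
    induction x using H2_induction_on with
    | h c =>
    obtain ⟨f', hf', hff'⟩ := H (inf₂ A V.W c) (inf₂_mem_Z2 V.mem.1 c)
    obtain ⟨U₁, hU₁n, hU₁, h₁, c', rfl⟩ := exists_inf₂_of_mem_Z2 hN hf' V.mem.1
    haveI := hU₁n
    have e : inf₂ A V.W c - n • inf₂ A U₁ c' = inf₂ A U₁ (lev₂ A h₁ c - n • c' : cocycles₂ _) := by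
      rw [← inf₂_lev₂ A h₁ c, ← map_nsmul, ← map_sub]
      rfl
    rw [e] at hff'
    obtain ⟨U', hU'n, hU', h', hc⟩ := (inf₂_mem_B2_iff_infl hN hU₁ _).1 hff'
    haveI := hU'n
    refine ⟨toLvl hN hF hU' hU'n, h'.trans h₁, (infl A h' 2).hom (H2π _ c'), ?_⟩
    rw [map_sub, map_sub, map_nsmul, map_nsmul, sub_eq_zero, ← infl_H2π A h₁ c,
      H543.infl_infl A h' h₁ 2] at hc
    exact hc
  · intro H f hf
    obtain ⟨U₀, hU₀⟩ := L.nonempty
    obtain ⟨U, hUn, hU, -, c, rfl⟩ := exists_inf₂_of_mem_Z2 hN hf hU₀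
    haveI := hUn
    obtain ⟨V', h, w, hw⟩ := H (toLvl hN hF hU hUn) (H2π _ c)
    have h' : V'.W ≤ U := h
    induction w using H2_induction_on with
    | h c' =>
    refine ⟨inf₂ A V'.W c', inf₂_mem_Z2 V'.mem.1 c', ?_⟩
    have e : inf₂ A U c - n • inf₂ A V'.W c' =
        inf₂ A V'.W (lev₂ A h' c - n • c' : cocycles₂ _) := by
      rw [← inf₂_lev₂ A h' c, ← map_nsmul, ← map_sub]
      rfl
    rw [e]
    refine inf₂_mem_B2_of_H2π V'.mem.1 ?_
    rw [map_sub, map_nsmul, ← infl_H2π, sub_eq_zero]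
    exact hw

/-- **`H²_L(A) = 0` iff `colim_U H²(G ⧸ U, A^U) = 0`.** -/
theorem h2Vanish_iff : H2Vanish L A ↔ EffAll (nLevels L hN hF) A 2 := by
  constructor
  · intro H V y
    induction y using H2_induction_on with
    | h c =>
    obtain ⟨U', hU'n, hU', h, hc⟩ :=
      (inf₂_mem_B2_iff_infl hN V.mem.1 c).1 (H _ (inf₂_mem_Z2 V.mem.1 c))
    exact ⟨toLvl hN hF hU' hU'n, h, hc⟩
  · intro H f hf
    obtain ⟨U₀, hU₀⟩ := L.nonempty
    obtain ⟨U, hUn, hU, -, c, rfl⟩ := exists_inf₂_of_mem_Z2 hN hf hU₀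
    haveI := hUn
    obtain ⟨V', h, hc⟩ := H (toLvl hN hF hU hUn) (H2π _ c)
    exact (inf₂_mem_B2_iff_infl hN hU c).2 ⟨V'.W, V'.mem.2, V'.mem.1, h, hc⟩

/-- **`H¹_L(A) = 0` iff `H¹(G ⧸ U, A^U) = 0` for all normal levels `U`** (inflation is injective
in degree `1`). -/
theorem h1Vanish_iff :
    H1Vanish L A ↔ ∀ (V : (nLevels L hN hF).Lvl) (y : HL A V.W 1), y = 0 := by
  constructor
  · intro H V y
    induction y using H1_induction_on with
    | h c => exact (inf₁_mem_B1_iff_H1π c).1 (H _ (inf₁_mem_Z1 V.mem.1 c))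
  · intro H f hf
    obtain ⟨U₀, hU₀⟩ := L.nonempty
    obtain ⟨U, hUn, hU, -, c, rfl⟩ := exists_inf₁_of_mem_Z1 hN hf hU₀
    haveI := hUn
    exact (inf₁_mem_B1_iff_H1π c).2 (H (toLvl hN hF hU hUn) (H1π _ c))

end Predicates

end Fermat.Agent.S55.ColH543

end

end
-- ===== PACK-END S55/ColH543/Colimit.lean

-- ===== PACK-BEGIN S55/K/AdapterPTH723.lean
section



/-!
# S55 / layer K → layer D adapters (helper723)

The outputs of layer K (`K/Spec.lean`, cochain form, coefficients `Bridge.muP p`, induced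
modules `K.indG`) in the exact shape of the inputs of layer D (`PT/Spec.lean`, coefficients
`PT.mu p = ofChar (cycloChar p)`, induced modules `PT.indRep`):

* `surj2Glob_of : K.SurjH2Spec p S → p ≠ 2 → pPrime p ∈ S → PT.Surj2GlobSpec p S`  (A3);
* `cap_of       : K.CapSpec p S → p ≠ 2 → pPrime p ∈ S → PT.CapSpec p S`          (A8).
-/

set_option autoImplicit false
set_option linter.unusedSectionVars false
set_option linter.style.haveILetI false

noncomputable section

namespace Fermat.Agent.S55.K.H723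

open groupCohomology Fermat.Agent.S55.PT Fermat.Agent.S55.Bridge ExtCitation

variable (p : ℕ) [Fact p.Prime] (S : Finset Nat.Primes)

/-- **A3**: the `K`-form of right exactness of `H²_S` gives the `PT`-form. -/
theorem surj2Glob_of (h : Fermat.Agent.S55.K.SurjH2Spec p S) (hp2 : p ≠ 2)
    (hpS : pPrime p ∈ S) : Fermat.Agent.S55.PT.Surj2GlobSpec p S := by
  intro P N φ hφ hP hPs hNs hsurj
  have hN : FiniteDimensional (ZMod p) N := by
    haveI := hP
    exact Module.Finite.of_surjective φ hsurj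
  exact h hp2 hpS P N hP hN hPs hNs φ hφ hsurj

/-! ### comparison of the two induced modules -/

section Compare

/-- the coefficient identification `μ = ofChar χ_p ≃ μ_p` (any linear equivalence is
equivariant, both actions being scalar multiplication by `χ_p`) -/
def coeffEquiv : (mu p : Rep.{0, 0, 0} (ZMod p) _root_.Fermat.Agent.S55.PT.GQ) ≃ₗ[ZMod p]
    (muP p : Rep.{0, 0, 0} (ZMod p) _root_.Fermat.Agent.S55.PT.GQ) :=
  muPLinearEquiv p

variable (U : Subgroup _root_.Fermat.Agent.S55.PT.GQ)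

/-- `Ind_U μ → Ind_U μ_p` (`PT` model to `K` model), coefficientwise `muPLinearEquiv`. -/
def toK : ((_root_.Fermat.Agent.S55.PT.GQ ⧸ U) →₀ (mu p : Rep.{0, 0, 0} (ZMod p) _root_.Fermat.Agent.S55.PT.GQ)) →ₗ[ZMod p]
    ((_root_.Fermat.Agent.S55.PT.GQ ⧸ U) →₀ (muP p : Rep.{0, 0, 0} (ZMod p) _root_.Fermat.Agent.S55.PT.GQ)) :=
  Finsupp.mapRange.linearMap (coeffEquiv p).toLinearMap

/-- `Ind_U μ_p → Ind_U μ` (`K` model to `PT` model). -/
def ofK : ((_root_.Fermat.Agent.S55.PT.GQ ⧸ U) →₀ (muP p : Rep.{0, 0, 0} (ZMod p) _root_.Fermat.Agent.S55.PT.GQ)) →ₗ[ZMod p]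
    ((_root_.Fermat.Agent.S55.PT.GQ ⧸ U) →₀ (mu p : Rep.{0, 0, 0} (ZMod p) _root_.Fermat.Agent.S55.PT.GQ)) :=
  Finsupp.mapRange.linearMap (coeffEquiv p).symm.toLinearMap

lemma toK_single (x : _root_.Fermat.Agent.S55.PT.GQ ⧸ U) (m : (mu p : Rep.{0, 0, 0} (ZMod p) _root_.Fermat.Agent.S55.PT.GQ)) :
    toK p U (Finsupp.single x m) = Finsupp.single x (coeffEquiv p m) := by
  rw [toK, Finsupp.mapRange.linearMap_apply, Finsupp.mapRange_single]
  rfl

lemma ofK_single (x : _root_.Fermat.Agent.S55.PT.GQ ⧸ U) (m : (muP p : Rep.{0, 0, 0} (ZMod p) _root_.Fermat.Agent.S55.PT.GQ)) :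
    ofK p U (Finsupp.single x m) = Finsupp.single x ((coeffEquiv p).symm m) := by
  rw [ofK, Finsupp.mapRange.linearMap_apply, Finsupp.mapRange_single]
  rfl

lemma ofK_toK (a : (_root_.Fermat.Agent.S55.PT.GQ ⧸ U) →₀ (mu p : Rep.{0, 0, 0} (ZMod p) _root_.Fermat.Agent.S55.PT.GQ)) :
    ofK p U (toK p U a) = a := by
  have h : (ofK p U) ∘ₗ (toK p U) = LinearMap.id := by
    apply Finsupp.lhom_ext
    intro x m
    rw [LinearMap.comp_apply, toK_single, ofK_single, LinearEquiv.symm_apply_apply]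
    rfl
  exact LinearMap.congr_fun h a

lemma mu_ρ_apply (g : _root_.Fermat.Agent.S55.PT.GQ) (m : (mu p : Rep.{0, 0, 0} (ZMod p) _root_.Fermat.Agent.S55.PT.GQ)) :
    (mu p).ρ g m = ((cycloChar p g : (ZMod p)ˣ) : ZMod p) • m := by
  show ((Representation.trivial (ZMod p) _root_.Fermat.Agent.S55.PT.GQ (ZMod p)).twist (cycloChar p)) g m = _
  simp [Representation.twist_apply_apply]

lemma muP_ρ_apply (g : _root_.Fermat.Agent.S55.PT.GQ) (m : (muP p : Rep.{0, 0, 0} (ZMod p) _root_.Fermat.Agent.S55.PT.GQ)) :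
    (muP p).ρ g m = ((cycloChar p g : (ZMod p)ˣ) : ZMod p) • m := rfl

/-- the `K`-action on `Ind_U μ_p`, as a linear map of `Finsupp`s -/
def actK (g : _root_.Fermat.Agent.S55.PT.GQ) : ((_root_.Fermat.Agent.S55.PT.GQ ⧸ U) →₀ (muP p : Rep.{0, 0, 0} (ZMod p) _root_.Fermat.Agent.S55.PT.GQ)) →ₗ[ZMod p]
    ((_root_.Fermat.Agent.S55.PT.GQ ⧸ U) →₀ (muP p : Rep.{0, 0, 0} (ZMod p) _root_.Fermat.Agent.S55.PT.GQ)) :=
  indρ (MonoidHom.id _root_.Fermat.Agent.S55.PT.GQ) U (muP p) g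

lemma actK_single (g : _root_.Fermat.Agent.S55.PT.GQ) (x : _root_.Fermat.Agent.S55.PT.GQ ⧸ U) (m : (muP p : Rep.{0, 0, 0} (ZMod p) _root_.Fermat.Agent.S55.PT.GQ)) :
    actK p U g (Finsupp.single x m) = Finsupp.single (g • x) ((muP p).ρ g m) :=
  indρ_single (MonoidHom.id _root_.Fermat.Agent.S55.PT.GQ) U (muP p) g x m

variable {U} in
/-- the `K`-level change `Ind_U μ_p → Ind_V μ_p`, as a linear map of `Finsupp`s -/
def projK {V : Subgroup _root_.Fermat.Agent.S55.PT.GQ} (h : U ≤ V) :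
    ((_root_.Fermat.Agent.S55.PT.GQ ⧸ U) →₀ (muP p : Rep.{0, 0, 0} (ZMod p) _root_.Fermat.Agent.S55.PT.GQ)) →ₗ[ZMod p]
      ((_root_.Fermat.Agent.S55.PT.GQ ⧸ V) →₀ (muP p : Rep.{0, 0, 0} (ZMod p) _root_.Fermat.Agent.S55.PT.GQ)) :=
  indProj (MonoidHom.id _root_.Fermat.Agent.S55.PT.GQ) h (muP p)

variable {U} in
lemma projK_single {V : Subgroup _root_.Fermat.Agent.S55.PT.GQ} (h : U ≤ V) (x : _root_.Fermat.Agent.S55.PT.GQ ⧸ U)
    (m : (muP p : Rep.{0, 0, 0} (ZMod p) _root_.Fermat.Agent.S55.PT.GQ)) :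
    projK p h (Finsupp.single x m) = Finsupp.single (Subgroup.quotientMapOfLE h x) m := by
  show Finsupp.lmapDomain _ _ _ (Finsupp.single x m) = _
  rw [Finsupp.lmapDomain_apply, Finsupp.mapDomain_single]
  rfl

/-- `toK` is equivariant. -/
lemma toK_equivariant :
    IsEquivariant (A := indRep U (mu p)) (B := indG U (muP p)) (toK p U) := by
  intro g
  have h : (toK p U) ∘ₗ (indAct U (mu p) g) = (actK p U g) ∘ₗ (toK p U) := by
    apply Finsupp.lhom_ext
    intro x m
    rw [LinearMap.comp_apply, LinearMap.comp_apply, indAct_single, toK_single, toK_single,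
      actK_single, mu_ρ_apply, muP_ρ_apply, map_smul]
  exact fun a => LinearMap.congr_fun h a

/-- `ofK` is equivariant. -/
lemma ofK_equivariant :
    IsEquivariant (A := indG U (muP p)) (B := indRep U (mu p)) (ofK p U) := by
  intro g
  have h : (ofK p U) ∘ₗ (actK p U g) = (indAct U (mu p) g) ∘ₗ (ofK p U) := by
    apply Finsupp.lhom_ext
    intro x m
    rw [LinearMap.comp_apply, LinearMap.comp_apply, actK_single, ofK_single, ofK_single,
      indAct_single, mu_ρ_apply, muP_ρ_apply, map_smul]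
  exact fun a => LinearMap.congr_fun h a

variable {U} in
/-- compatibility of the level change maps -/
lemma toK_indLE {V : Subgroup _root_.Fermat.Agent.S55.PT.GQ} (h : U ≤ V)
    (a : (_root_.Fermat.Agent.S55.PT.GQ ⧸ U) →₀ (mu p : Rep.{0, 0, 0} (ZMod p) _root_.Fermat.Agent.S55.PT.GQ)) :
    toK p V (indLE (mu p) h a) = projK p h (toK p U a) := by
  have hh : (toK p V) ∘ₗ (indLE (mu p) h) = (projK p h) ∘ₗ (toK p U) := by
    apply Finsupp.lhom_ext
    intro x m
    rw [LinearMap.comp_apply, LinearMap.comp_apply, indLE_single, toK_single, toK_single,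
      projK_single]
  exact LinearMap.congr_fun hh a

end Compare

/-- **A8**: the `K`-form of CAP gives the `PT`-form. -/
theorem cap_of (h : Fermat.Agent.S55.K.CapSpec p S) (hp2 : p ≠ 2)
    (hpS : pPrime p ∈ S) : Fermat.Agent.S55.PT.CapSpec p S := by
  intro V hV _ _
  obtain ⟨U, hU, hUV, hUn, hcap⟩ := h hp2 hpS V hV
  refine ⟨U, hUV, hU, hUn, fun x hx => ?_⟩
  obtain ⟨c, rfl⟩ := (globalLevels S).H2π_surjective _ x
  rw [pushH2_mk, LevelSys.H2π_eq_zero_iff, coe_pushZ2]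
  -- the cocycle in the `K` model
  have hcK : (toK p U ∘ (c : _root_.Fermat.Agent.S55.PT.GQ × _root_.Fermat.Agent.S55.PT.GQ → indRep U (mu p)) : _root_.Fermat.Agent.S55.PT.GQ × _root_.Fermat.Agent.S55.PT.GQ → indG U (muP p)) ∈
      (globalLevels S).Z2 (indG U (muP p)) :=
    push_mem_Z2 (A := indRep U (mu p)) (B := indG U (muP p)) (toK p U) (toK_equivariant p U)
      (globalLevels S) c.2
  -- it is locally a coboundary
  have hloc : ∀ q ∈ S, ((toK p U ∘ (c : _root_.Fermat.Agent.S55.PT.GQ × _root_.Fermat.Agent.S55.PT.GQ → indRep U (mu p))) ∘ Prod.map (rl q) (rl q) :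
      Gl q × Gl q → indG U (muP p)) ∈
      (localLevels q).B2 (Rep.res (rl q) (indG U (muP p))) := by
    intro q hq
    have h1 := congrFun (LinearMap.mem_ker.1 hx) ⟨q, hq⟩
    rw [loc2_apply, resH2_mk, Pi.zero_apply, LevelSys.H2π_eq_zero_iff, coe_resZ2] at h1
    exact push_mem_B2 (A := Rep.res (rl q) (indRep U (mu p)))
      (B := Rep.res (rl q) (indG U (muP p))) (toK p U)
      ((toK_equivariant p U).res (rl q)) (localLevels q) h1
  have h2 := hcap _ hcK hloc
  -- back to the `PT` model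
  have h3 := push_mem_B2 (A := indG V (muP p)) (B := indRep V (mu p)) (ofK p V)
    (ofK_equivariant p V) (globalLevels S) h2
  have h4 : (ofK p V ∘ (indProj (MonoidHom.id _root_.Fermat.Agent.S55.PT.GQ) hUV (muP p) ∘
      (toK p U ∘ (c : _root_.Fermat.Agent.S55.PT.GQ × _root_.Fermat.Agent.S55.PT.GQ → indRep U (mu p)))) : _root_.Fermat.Agent.S55.PT.GQ × _root_.Fermat.Agent.S55.PT.GQ → indRep V (mu p)) =
      indLE (mu p) hUV ∘ (c : _root_.Fermat.Agent.S55.PT.GQ × _root_.Fermat.Agent.S55.PT.GQ → indRep U (mu p)) := by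
    funext y
    exact (congrArg (ofK p V) (toK_indLE p hUV ((c : _root_.Fermat.Agent.S55.PT.GQ × _root_.Fermat.Agent.S55.PT.GQ → indRep U (mu p)) y)).symm).trans
      (ofK_toK p V _)
  exact Eq.mp (congrArg (fun f : _root_.Fermat.Agent.S55.PT.GQ × _root_.Fermat.Agent.S55.PT.GQ → indRep V (mu p) =>
    f ∈ (globalLevels S).B2 (indRep V (mu p))) h4) h3

end Fermat.Agent.S55.K.H723

end

end
-- ===== PACK-END S55/K/AdapterPTH723.lean

-- ===== PACK-BEGIN S55/K/H724/Mu.lean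
section



/-!
# S55 / layer K : the Kummer map `Ind_V μ_p → Ind_V 𝔼`   (helper724)

* `muToE_equivariant`, `indMuToE_equivariant`, `indMuToE_injective`;
* `exists_tors` : the image of `Ind_V μ_p` is the `p`-torsion of `Ind_V 𝔼`;
* `isPDiv_of_kummer` : `KummerSpec` in the form `IsPDiv`.
-/

set_option autoImplicit false

noncomputable section

namespace Fermat.Agent.S55.K.H724

open groupCohomology Fermat.Agent.S55.PT Fermat.Agent.S55.K Fermat.Agent.S55.Bridge

variable (p : ℕ) [Fact p.Prime] (S : Finset Nat.Primes)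

lemma sUnits_ρ_coe (g : _root_.Fermat.Agent.S55.PT.GQ) (x : sUnits S) :
    ((Additive.toMul (sUnitsIncl S ((sUnits S).ρ g x)) : Qbarˣ) : Qbar) =
      g ((Additive.toMul (sUnitsIncl S x) : Qbarˣ) : Qbar) := rfl

lemma sUnitsIncl_injective : Function.Injective (sUnitsIncl S) :=
  Subtype.val_injective

lemma muToE_coe (x : muP p) :
    ((Additive.toMul (sUnitsIncl S (muToE p S x)) : Qbarˣ) : Qbar) =
      ((MuP.root (p := p) x : rootsOfUnity p Qbar) : Qbarˣ) := rfl

lemma muToE_equivariant (g : _root_.Fermat.Agent.S55.PT.GQ) (a : muP p) :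
    muToE p S ((muP p).ρ g a) = (sUnits S).ρ g (muToE p S a) := by
  apply sUnitsIncl_injective
  apply Additive.toMul.injective
  apply Units.ext
  exact (muToE_coe p S _).trans ((muPRep_apply p g a).trans
    ((congrArg g (muToE_coe p S a)).symm.trans (sUnits_ρ_coe S g _).symm))

lemma indMuToE_equivariant (V : Subgroup _root_.Fermat.Agent.S55.PT.GQ) : IsAddEquivariant (indMuToE p S V) := by
  intro g a
  exact mapRange_equivariant (MonoidHom.id _root_.Fermat.Agent.S55.PT.GQ) V (muToE p S) (muToE_equivariant p S) g a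

lemma indMuToE_injective (V : Subgroup _root_.Fermat.Agent.S55.PT.GQ) : Function.Injective (indMuToE p S V) := by
  intro a b hab
  exact Finsupp.mapRange_injective (muToE p S) (map_zero _) (muToE_injective p S) hab

/-- the `p`-torsion of `𝔼` is `μ_p` -/
lemma exists_tors₀ (t : sUnits S) (ht : p • t = 0) : ∃ m : muP p, muToE p S m = t := by
  have h1 : (Additive.toMul (sUnitsIncl S t) : Qbarˣ) ^ p = 1 := by
    have h2 : sUnitsIncl S (p • t) = 0 := by rw [ht, map_zero]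
    rw [map_nsmul] at h2
    exact h2
  have h3 : (Additive.toMul (sUnitsIncl S t) : Qbarˣ) ∈ rootsOfUnity p Qbar :=
    (mem_rootsOfUnity p _).2 h1
  refine ⟨MuP.of p ⟨_, h3⟩, ?_⟩
  apply sUnitsIncl_injective
  rfl

/-- the `p`-torsion of `Ind_V 𝔼` is `Ind_V μ_p` -/
lemma exists_tors (V : Subgroup _root_.Fermat.Agent.S55.PT.GQ) :
    ∃ F : indG V (sUnits S) → indG V (muP p),
      ∀ e : indG V (sUnits S), p • e = 0 → indMuToE p S V (F e) = e := by
  classical
  have h : ∀ t : sUnits S, ∃ m : muP p, p • t = 0 → muToE p S m = t := by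
    intro t
    by_cases ht : p • t = 0
    · obtain ⟨m, hm⟩ := exists_tors₀ p S t ht
      exact ⟨m, fun _ => hm⟩
    · exact ⟨0, fun h => absurd h ht⟩
  choose tors htors using h
  let tors' : sUnits S → muP p := fun t => if t = 0 then 0 else tors t
  have htors'0 : tors' 0 = 0 := if_pos rfl
  have htors' : ∀ t : sUnits S, p • t = 0 → muToE p S (tors' t) = t := by
    intro t ht
    by_cases h0 : t = 0
    · subst h0
      rw [htors'0, map_zero]
    · simp only [tors', if_neg h0]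
      exact htors t ht
  refine ⟨fun e => ofF (MonoidHom.id _root_.Fermat.Agent.S55.PT.GQ) V (muP p)
    (Finsupp.mapRange tors' htors'0 (toF (MonoidHom.id _root_.Fermat.Agent.S55.PT.GQ) V (sUnits S) e)), fun e he => ?_⟩
  let ef : (_root_.Fermat.Agent.S55.PT.GQ ⧸ V) →₀ sUnits S := toF (MonoidHom.id _root_.Fermat.Agent.S55.PT.GQ) V (sUnits S) e
  have he' : ∀ x, p • ef x = 0 := by
    intro x
    have h0 : p • ef = 0 := he
    have : (p • ef) x = 0 := by
      rw [h0]
      rfl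
    rwa [Finsupp.smul_apply] at this
  show Finsupp.mapRange (muToE p S) (map_zero _) (Finsupp.mapRange tors' htors'0 ef) = ef
  ext x
  rw [Finsupp.mapRange_apply, Finsupp.mapRange_apply]
  exact htors' _ (he' x)

/-- `KummerSpec` says that smooth `S`-units are `p`-divisible by smooth `S`-units. -/
lemma isPDiv_of_kummer (hK : KummerSpec p S) (hpS : ExtCitation.pPrime p ∈ S) :
    IsPDiv (globalLevels S) (sUnits S) p :=
  fun a ha => hK hpS a ha

/-- normal levels are cofinal in `globalLevels S` -/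
lemma globalLevels_normalCofinal : (globalLevels S).NormalCofinal :=
  globalLevels_normal_cofinal724 S

/-- levels of `globalLevels S` have finite index -/
lemma globalLevels_finiteIndex : (globalLevels S).FiniteIndex := by
  rintro U ⟨F, hF, rfl⟩
  have := hF.1
  have := isAlgebraic_Qbar
  have := isGalois_Qbar
  refine ⟨?_⟩
  rw [← IntermediateField.finrank_eq_fixingSubgroup_index]
  exact Module.finrank_pos.ne'

end Fermat.Agent.S55.K.H724

end

end
-- ===== PACK-END S55/K/H724/Mu.lean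

-- ===== PACK-BEGIN S55/KL/AdapterPT.lean
section




/-!
# S55, layer KL: final adapter to layer D — `LocalSurjH2Spec ⇒ PT.Surj2LocSpec` (input A4)

Architect/owner: helper183.
-/

set_option autoImplicit false
set_option linter.style.haveILetI false

open CategoryTheory groupCohomology ExtCitation

namespace Fermat.Agent.S55.KL

section Krasner

variable (q : ℕ) [Fact q.Prime]

/-- Every finite extension of `ℚ_q` inside `PadicAlgCl q` is contained in a finite Galois one. -/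
lemma exists_finiteGalois_ge (E : IntermediateField ℚ_[q] (PadicAlgCl q))
    [FiniteDimensional ℚ_[q] E] :
    ∃ E' : FiniteGaloisIntermediateField ℚ_[q] (PadicAlgCl q), E ≤ E'.toIntermediateField := by
  haveI : FiniteDimensional ℚ_[q] ↥(IntermediateField.normalClosure ℚ_[q] E (PadicAlgCl q)) :=
    inferInstance
  haveI : IsGalois ℚ_[q] ↥(IntermediateField.normalClosure ℚ_[q] E (PadicAlgCl q)) :=
    ⟨⟩
  exact ⟨{ toIntermediateField := IntermediateField.normalClosure ℚ_[q] E (PadicAlgCl q) },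
    IntermediateField.le_normalClosure E⟩

/-- level-constancy for `galLevels` = level-constancy modulo `Gal(Ω/E)`, `E/ℚ_q` finite. -/
lemma isLC₂_galLevels_iff {X : Type*}
    (f : (PadicAlgCl q ≃ₐ[ℚ_[q]] PadicAlgCl q) × (PadicAlgCl q ≃ₐ[ℚ_[q]] PadicAlgCl q) → X) :
    IsLC₂ (galLevels ℚ_[q] (PadicAlgCl q)) f ↔
      ∃ E : IntermediateField ℚ_[q] (PadicAlgCl q), FiniteDimensional ℚ_[q] E ∧
        ∀ g g' s s' : PadicAlgCl q ≃ₐ[ℚ_[q]] PadicAlgCl q, s ∈ E.fixingSubgroup →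
          s' ∈ E.fixingSubgroup → f (g * s, g' * s') = f (g, g') := by
  constructor
  · rintro ⟨W, ⟨E', rfl⟩, h⟩
    exact ⟨E'.toIntermediateField, inferInstance, h⟩
  · rintro ⟨E, hE, h⟩
    haveI := hE
    obtain ⟨E', hE'⟩ := exists_finiteGalois_ge q E
    refine ⟨_, ⟨E', rfl⟩, fun g g' s s' hs hs' => h g g' s s' ?_ ?_⟩
    · exact IntermediateField.fixingSubgroup_antitone hE' hs
    · exact IntermediateField.fixingSubgroup_antitone hE' hs'

lemma isLC₁_galLevels_iff {X : Type*}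
    (f : (PadicAlgCl q ≃ₐ[ℚ_[q]] PadicAlgCl q) → X) :
    IsLC₁ (galLevels ℚ_[q] (PadicAlgCl q)) f ↔
      ∃ E : IntermediateField ℚ_[q] (PadicAlgCl q), FiniteDimensional ℚ_[q] E ∧
        ∀ g s : PadicAlgCl q ≃ₐ[ℚ_[q]] PadicAlgCl q, s ∈ E.fixingSubgroup →
          f (g * s) = f g := by
  constructor
  · rintro ⟨W, ⟨E', rfl⟩, h⟩
    exact ⟨E'.toIntermediateField, inferInstance, h⟩
  · rintro ⟨E, hE, h⟩
    haveI := hE
    obtain ⟨E', hE'⟩ := exists_finiteGalois_ge q E
    exact ⟨_, ⟨E', rfl⟩, fun g s hs => h g s (IntermediateField.fixingSubgroup_antitone hE' hs)⟩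

end Krasner

/-! ## The adapter -/

/-- PT-level-constancy on the local group = `galLevels`-level-constancy. -/
lemma pt_isLC₂_iff (q : Nat.Primes) {X : Type*} (f : PT.Gl q × PT.Gl q → X) :
    (PT.localLevels q).IsLC₂ f ↔
      letI : Fact (q : ℕ).Prime := ⟨q.2⟩
      IsLC₂ (galLevels ℚ_[(q : ℕ)] (PadicAlgCl (q : ℕ))) f := by
  letI : Fact (q : ℕ).Prime := ⟨q.2⟩
  rw [PT.isLC₂_pullbackLevels_iff]
  exact (Bridge.isLevelConstant₂_local_iff (q : ℕ) f).trans (isLC₂_galLevels_iff (q : ℕ) f).symm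

lemma pt_isLC₁_iff (q : Nat.Primes) {X : Type*} (f : PT.Gl q → X) :
    (PT.localLevels q).IsLC₁ f ↔
      letI : Fact (q : ℕ).Prime := ⟨q.2⟩
      IsLC₁ (galLevels ℚ_[(q : ℕ)] (PadicAlgCl (q : ℕ))) f := by
  letI : Fact (q : ℕ).Prime := ⟨q.2⟩
  rw [PT.isLC₁_pullbackLevels_iff]
  exact (Bridge.isLevelConstant₁_local_iff (q : ℕ) f).trans (isLC₁_galLevels_iff (q : ℕ) f).symm

/-- **General adapter** (local and global): if the level system `𝓛` of layer D and the normal
level system `N` define the same level-constant cochains, then the elementwise lifting property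
(conclusion of `SurjH2Spec`) gives right exactness of `H²` in the form consumed by layer D. -/
theorem pushH2_surjective_of_lift {Γ : Type} [Group Γ] (𝓛 : PT.LevelSys Γ) (N : NLevels Γ)
    (p : ℕ) [Fact p.Prime]
    (h1 : ∀ (X : Type) (f : Γ → X), 𝓛.IsLC₁ f ↔ IsLC₁ N f)
    (h2 : ∀ (X : Type) (f : Γ × Γ → X), 𝓛.IsLC₂ f ↔ IsLC₂ N f)
    (hlift : ∀ (P Q : Rep.{0} (ZMod p) Γ) (Φ : P ⟶ Q), Function.Surjective Φ.hom → Finite P.V →
      IsSmooth N P → ∀ c ∈ cocycles₂ Q, IsLC₂ N c →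
        ∃ c' ∈ cocycles₂ P, IsLC₂ N c' ∧ ∃ b : Γ → Q.V, IsLC₁ N b ∧
          ∀ g h : Γ, Φ.hom (c' (g, h)) = c (g, h) + (d₁₂ Q).hom b (g, h))
    (P Q : Rep.{0, 0, 0} (ZMod p) Γ) (φ : P →ₗ[ZMod p] Q) (hφ : PT.IsEquivariant φ)
    (hfd : FiniteDimensional (ZMod p) P) (hsmP : 𝓛.IsUSmooth P) (hsurj : Function.Surjective φ) :
    Function.Surjective (PT.pushH2 φ hφ 𝓛) := by
  intro y
  obtain ⟨c, rfl⟩ := 𝓛.H2π_surjective Q y
  have hc1 : (c : Γ × Γ → Q) ∈ cocycles₂ Q := c.2.1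
  have hc2 : 𝓛.IsLC₂ (c : Γ × Γ → Q) := c.2.2
  let Φ : P ⟶ Q := Rep.ofHom ⟨φ, fun g => by ext x; exact hφ g x⟩
  have hfin : Finite P.V := Module.finite_of_finite (ZMod p)
  have hsm : IsSmooth N P := by
    obtain ⟨U, hU, hUt⟩ := hsmP
    have hconst : 𝓛.IsLC₁ (fun g : Γ => P.ρ g) := by
      refine ⟨U, hU, fun g s hs => ?_⟩
      ext a
      simp [map_mul, hUt s hs a]
    obtain ⟨W, hW, hWc⟩ := (h1 _ _).1 hconst
    intro b
    refine ⟨W, hW, fun w hw => ?_⟩
    have := hWc 1 w hw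
    simp only [one_mul] at this
    have h2 := LinearMap.congr_fun this b
    exact h2.trans (LinearMap.congr_fun (map_one P.ρ) b)
  obtain ⟨c', hc'1, hc'2, b, hb, hcb⟩ :=
    hlift P Q Φ (fun x => hsurj x) hfin hsm (c : Γ × Γ → Q) hc1 ((h2 _ _).1 hc2)
  have hc'Z : c' ∈ 𝓛.Z2 P := ⟨hc'1, (h2 _ _).2 hc'2⟩
  refine ⟨𝓛.H2π P ⟨c', hc'Z⟩, ?_⟩
  rw [PT.pushH2_mk]
  have hsub : 𝓛.H2π Q (PT.pushZ2 φ hφ 𝓛 ⟨c', hc'Z⟩) - 𝓛.H2π Q c = 0 := by
    rw [← map_sub, PT.LevelSys.H2π_eq_zero_iff]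
    refine ⟨b, (h1 _ _).2 hb, ?_⟩
    funext ⟨g, g'⟩
    have h3 : φ (c' (g, g')) = (c : Γ × Γ → Q) (g, g') + (d₁₂ Q).hom b (g, g') := hcb g g'
    show (d₁₂ Q).hom b (g, g') = φ (c' (g, g')) - (c : Γ × Γ → Q) (g, g')
    rw [h3]
    abel
  exact sub_eq_zero.1 hsub

/-- The same with the abstract machine plugged in: `SurjH2Spec` + `cd_p ≤ 2`. -/
theorem pushH2_surjective_of_cd {Γ : Type} [Group Γ] (𝓛 : PT.LevelSys Γ) (N : NLevels Γ)
    (p : ℕ) [Fact p.Prime]
    (h1 : ∀ (X : Type) (f : Γ → X), 𝓛.IsLC₁ f ↔ IsLC₁ N f)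
    (h2 : ∀ (X : Type) (f : Γ × Γ → X), 𝓛.IsLC₂ f ↔ IsLC₂ N f)
    (hS : SurjH2Spec) (hcd : CdLeTwo N (ZMod p) p)
    (P Q : Rep.{0, 0, 0} (ZMod p) Γ) (φ : P →ₗ[ZMod p] Q) (hφ : PT.IsEquivariant φ)
    (hfd : FiniteDimensional (ZMod p) P) (hsmP : 𝓛.IsUSmooth P) (hsurj : Function.Surjective φ) :
    Function.Surjective (PT.pushH2 φ hφ 𝓛) :=
  pushH2_surjective_of_lift 𝓛 N p h1 h2
    (fun P Q Φ hΦ hfin hsm c hc hlc =>
      hS (ZMod p) Γ N p Fact.out hcd P Q Φ hΦ hfin
        (fun x => by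
          have h0 : (p : ZMod p) = 0 := ZMod.natCast_self p
          rw [← Nat.cast_smul_eq_nsmul (ZMod p), h0, zero_smul]) hsm c hc hlc)
    P Q φ hφ hfd hsmP hsurj

/-- **Input A4 of layer D** from the finite-level statement `LocalSurjH2Spec`. -/
theorem surj2Loc_of (p : ℕ) [Fact p.Prime] (S : Finset Nat.Primes) (h : LocalSurjH2Spec) :
    PT.Surj2LocSpec p S := by
  intro q _ P N φ hφ hfd hsmP _ hsurj
  letI : Fact (q : ℕ).Prime := ⟨q.2⟩
  exact pushH2_surjective_of_lift (PT.localLevels q)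
    (galLevels ℚ_[(q : ℕ)] (PadicAlgCl (q : ℕ))) p
    (fun X f => pt_isLC₁_iff q f) (fun X f => pt_isLC₂_iff q f)
    (fun P Q Φ hΦ hfin hsm c hc hlc => h (q : ℕ) p Fact.out P Q Φ hΦ hfin hsm c hc hlc)
    P N φ hφ hfd hsmP hsurj

/-- **Input A4 of layer D** from `SurjH2Spec` and `LocalCdSpec`. -/
theorem surj2Loc_of_cd (p : ℕ) [Fact p.Prime] (S : Finset Nat.Primes) (hS : SurjH2Spec)
    (hcd : LocalCdSpec) : PT.Surj2LocSpec p S := by
  intro q _ P N φ hφ hfd hsmP _ hsurj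
  letI : Fact (q : ℕ).Prime := ⟨q.2⟩
  exact pushH2_surjective_of_cd (PT.localLevels q)
    (galLevels ℚ_[(q : ℕ)] (PadicAlgCl (q : ℕ))) p
    (fun X f => pt_isLC₁_iff q f) (fun X f => pt_isLC₂_iff q f) hS
    (hcd (q : ℕ) p Fact.out).2 P N φ hφ hfd hsmP hsurj

end Fermat.Agent.S55.KL

end
-- ===== PACK-END S55/KL/AdapterPT.lean

-- ===== PACK-BEGIN S55/PT/SpecT.lean
section




/-!
# S55 / layer D: leaves D-I2 (effaceability), D-T2 (dévissage of the top pairings),
D-T3 (CAP for all modules), D-E (abstract engine)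

Spec pattern.  Producer: `theorem foo : FooSpec …` in a NEW file
`Fermat/Agent/S55/PT/<Leaf>H<seat>.lean`.
-/

set_option autoImplicit false

noncomputable section

namespace Fermat.Agent.S55.PT

open groupCohomology ExtCitation

/-! ## D-I2: effaceability of `H¹` of the dual (formal, from finiteness) -/

/-- **D-I2 (E2).**  If `H¹(M′)` is finite-dimensional then for every level `V` acting trivially on
`M` and `χ` there is a normal level `U ≤ V` such that `H¹(M′) → H¹((Ind_U (twTriv χ M))′)`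
(induced by the dual of the twisted augmentation) is zero.
Proof: a cocycle `c` which is right-`U`-invariant becomes the coboundary of
`F (single γU w) = χ(γ)⁻¹ c(γ)(γ w)`. -/
def EffaceSpec : Prop :=
  ∀ (k : Type) [Field k] (G : Type) [Group G] (L : LevelSys G) (_hN : L.NormalCofinal)
    (χ : G →* kˣ) (M : Rep.{0, 0, 0} k G) (_hM : L.IsUSmooth M),
    FiniteDimensional k (L.H1 (M.dualTwist χ)) →
    ∀ V ∈ L.levels, ∀ (hχ : ∀ u ∈ V, χ u = 1) (hMV : ∀ u ∈ V, M.ρ u = 1),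
      ∃ (U : Subgroup G) (hUV : U ≤ V), U ∈ L.levels ∧ U.Normal ∧
        ∀ x : L.H1 (M.dualTwist χ),
          pushH1 (A := M.dualTwist χ) (B := (indRep U (twTriv χ M)).dualTwist χ)
            (augTw χ U M).dualMap
            (dualMap_equivariant χ (A := indRep U (twTriv χ M)) (B := M) (augTw χ U M)
              (augTw_equivariant χ U M (fun u hu => hχ u (hUV hu)) (fun u hu => hMV u (hUV hu))))
            L x = 0

/-! ## D-T2: the top pairings are bijective for ALL finite-dimensional smooth modules -/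

variable (p : ℕ) [Fact p.Prime] (S : Finset Nat.Primes)

variable {p S} in
/-- local top-degree duality for all finite-dimensional smooth modules:
`H²(G_v, N) ≃ Dual (Hom_{G_v}(N, μ))` -/
def TopLocSpec (inv : InvFamily p S) : Prop :=
  ∀ (v : ↥S) (N : Rep.{0, 0, 0} (ZMod p) (Gl v.1)), FiniteDimensional (ZMod p) N →
    (localLevels v.1).IsUSmooth N →
    Function.Bijective (topPair (localLevels v.1) (cycloLoc p v.1) (inv v) N)

variable {p S} in
/-- global top-degree duality for all finite-dimensional smooth modules: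
`T³(N) ≃ Dual (Hom_G(N, μ))` -/
def TopGlobSpec (inv : InvFamily p S) (hrec : IsRecip (hrl S) (cycloChar p) inv) : Prop :=
  ∀ (N : Rep.{0, 0, 0} (ZMod p) GQ), FiniteDimensional (ZMod p) N →
    (globalLevels S).IsUSmooth N →
    Function.Bijective (topT3 (hrl S) N hrec)

/-- **D-T2a.**  Local dévissage: A4 + A6 ⇒ local top duality for all modules.
Proof: present `N` by `Q = Ind_W (twTriv χ N) ↠ N` (`W` a normal level trivial on `N`, `χ`);
`θ(Q)` bijective by coordinates (`indMap W λ`, `λ ∈ Dual N`) from A6; `θ(N)` surjective since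
`Dual (charHom Q) ↠ Dual (charHom N)`; injective by the four lemma, using `θ(ker)` surjective,
exactness at `H²(Q)` (D-F3) and A4. -/
def TopLocDevSpec : Prop :=
  LesMidSpec → LocalNormalCofinalSpec → LocalFiniteIndexSpec →
    ∀ inv : InvFamily p S, TopLocIndSpec inv → Surj2LocSpec p S → TopLocSpec inv

/-- **D-T2b.**  Global dévissage: A3 + A4 + A7 + local top duality ⇒ global top duality for all
modules.  Surjectivity of `Θ(N)` comes from ONE place (`p ∈ S`); injectivity by the four lemma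
for `T³(ker) → T³(Q) → T³(N) → 0`, `Q = Ind_U (twTriv χ N)`. -/
def TopGlobDevSpec : Prop :=
  LesMidSpec → GlobalNormalCofinalSpec → LocalNormalCofinalSpec → GlobalFiniteIndexSpec →
    pPrime p ∈ S →
    ∀ (inv : InvFamily p S) (hrec : IsRecip (hrl S) (cycloChar p) inv),
      TopLocSpec inv → TopGlobIndSpec inv → Surj2GlobSpec p S → Surj2LocSpec p S →
      TopGlobSpec inv hrec

/-! ## D-T3: CAP for all modules -/

/-- CAP for all modules: `Ш²(Ind_U (twTriv χ M)) → Ш²(M)` is zero for suitable `U`. -/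
def CapAllSpec : Prop :=
  ∀ (M : Rep.{0, 0, 0} (ZMod p) GQ), FiniteDimensional (ZMod p) M →
    ∀ V ∈ (globalLevels S).levels, ∀ (hχ : ∀ u ∈ V, cycloChar p u = 1)
      (hMV : ∀ u ∈ V, M.ρ u = 1),
      ∃ (U : Subgroup GQ) (hUV : U ≤ V), U ∈ (globalLevels S).levels ∧ U.Normal ∧
        ∀ x ∈ Sha2 (hrl S) (indRep U (twTriv (cycloChar p) M)),
          pushH2 (A := indRep U (twTriv (cycloChar p) M)) (B := M) (augTw (cycloChar p) U M)
            (augTw_equivariant (cycloChar p) U M (fun u hu => hχ u (hUV hu))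
              (fun u hu => hMV u (hUV hu)))
            (globalLevels S) x = 0

/-- **D-T3.**  A8 ⇒ CAP for all modules (coordinates `indMap U λ` + level change + `augTw`). -/
def CapDevSpec : Prop :=
  GlobalNormalCofinalSpec → CapSpec p S → CapAllSpec p S

end Fermat.Agent.S55.PT

end

end
-- ===== PACK-END S55/PT/SpecT.lean

-- ===== PACK-BEGIN S55/PT/T2aH299/Push.lean
section


/-!
# S55 / layer D, leaf D-T2a: linearity of `pushH2` in the map

`pushH2L L A B : equivHom A B →ₗ[k] (H²(A) →ₗ[k] H²(B))`, so that push-forwards commute with finite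
sums of equivariant maps.
-/

set_option autoImplicit false

noncomputable section

namespace Fermat.Agent.S55.PT.H299

open Fermat.Agent.S55.PT groupCohomology

variable {k : Type} [Field k] {G : Type} [Group G]

/-- the submodule of equivariant linear maps -/
def equivHom (A B : Rep.{0, 0, 0} k G) : Submodule k (A →ₗ[k] B) where
  carrier := {φ | IsEquivariant φ}
  add_mem' hφ hψ := isEquivariant_add hφ hψ
  zero_mem' := isEquivariant_zero
  smul_mem' c _ hφ := isEquivariant_smul c hφ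

lemma mem_equivHom {A B : Rep.{0, 0, 0} k G} (φ : A →ₗ[k] B) :
    φ ∈ equivHom A B ↔ IsEquivariant φ := Iff.rfl

variable (L : LevelSys G)

/-- `φ ↦ φ_*` as a linear map on equivariant maps -/
def pushH2L (A B : Rep.{0, 0, 0} k G) : ↥(equivHom A B) →ₗ[k] (L.H2 A →ₗ[k] L.H2 B) where
  toFun φ := pushH2 (φ : A →ₗ[k] B) φ.2 L
  map_add' φ ψ := by
    apply LinearMap.ext
    intro x
    exact pushH2_add L φ.2 ψ.2 x
  map_smul' c φ := by
    apply LinearMap.ext
    intro x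
    exact pushH2_smul L c φ.2 x

@[simp] lemma pushH2L_apply {A B : Rep.{0, 0, 0} k G} (φ : ↥(equivHom A B)) (x : L.H2 A) :
    pushH2L L A B φ x = pushH2 (φ : A →ₗ[k] B) φ.2 L x := rfl

lemma pushH2_id {A : Rep.{0, 0, 0} k G} (h : IsEquivariant (LinearMap.id : A →ₗ[k] A))
    (x : L.H2 A) : pushH2 (LinearMap.id : A →ₗ[k] A) h L x = x := by
  obtain ⟨c, rfl⟩ := L.H2π_surjective A x
  rfl

/-- push-forward along a finite sum of equivariant maps -/
lemma pushH2_sum {A B : Rep.{0, 0, 0} k G} {ι : Type} (s : Finset ι) (φ : ι → A →ₗ[k] B)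
    (hφ : ∀ i, IsEquivariant (φ i)) (h : IsEquivariant (∑ i ∈ s, φ i)) (x : L.H2 A) :
    pushH2 (∑ i ∈ s, φ i) h L x = ∑ i ∈ s, pushH2 (φ i) (hφ i) L x := by
  have h1 : (⟨∑ i ∈ s, φ i, h⟩ : ↥(equivHom A B)) = ∑ i ∈ s, ⟨φ i, hφ i⟩ := by
    apply Subtype.ext
    rw [Submodule.coe_sum]
  have h2 : pushH2 (∑ i ∈ s, φ i) h L x =
      pushH2L L A B (⟨∑ i ∈ s, φ i, h⟩ : ↥(equivHom A B)) x := rfl
  rw [h2, h1, map_sum, LinearMap.sum_apply]
  rfl

end Fermat.Agent.S55.PT.H299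

end

end
-- ===== PACK-END S55/PT/T2aH299/Push.lean

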