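import Fermat.Agent.Pack.S56.E13L1
import Fermat.Agent.Pack.S56.E13L3
import Fermat.Agent.Pack.S56.E13L0
import Fermat.Agent.Pack.S56.E9L1
import Fermat.Agent.Pack.S56.E9L2
import Fermat.Agent.Pack.S56.E10L0
import Fermat.Agent.Pack.S56.E10L1
import Fermat.Agent.Pack.S56.E5L3
import Fermat.Agent.Pack.S56.E6L2
import Fermat.Agent.Pack.S56.E14L2
import Fermat.Agent.Pack.S56.E12L2
import Fermat.Agent.Pack.S56.E11L3
import Fermat.Agent.Pack.S56.E8L3
import Fermat.Agent.Pack.S56.E8L1
import Fermat.Agent.Pack.S56.E6L1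
import Fermat.Agent.Pack.S56.E14L3
import Fermat.Agent.Pack.S56.E8L2
import Fermat.Agent.Pack.S56.E14L0
import Fermat.Agent.Pack.S56.E2L2
import Fermat.Agent.Pack.S56.E11L1
import Fermat.Agent.Pack.S56.E8L0
import Fermat.Agent.Pack.S56.E2L0
import Fermat.Agent.Pack.S56.E5L2

-- ===== PACK-BEGIN S56/RQ/Defs.lean
section


/-!
# Row S56 — REC-Q (reciprocity over the Taylor–Wiles primes): FROZEN definitions
(sub-architect helper554)

Plain-function language of layers 0–3 (`c, y : G_ℚ → End_k V`, `V = ρbar.V`).  `k(1)` is `k` with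
`σ` acting by the cyclotomic exponent (`IsCycExp p σ a`, `a` well defined mod `p`).

* `cup ρbar c y`      — the cup-product 2-cochain `(σ, τ) ↦ tr (c σ · σ(y τ))` of an ad-cocycle `c`
  and a twisted cocycle `y`, written WITHOUT the cyclotomic exponent: `σ(y τ) = y (σ τ) − y σ`.
* `IsCoc₂On p H z`    — `z : G_ℚ × G_ℚ → k` satisfies the 2-cocycle identity of `k(1)` on `H`.
* `IsLC₂On H z`       — `z` is level-constant on `H` (for some finite level).
* `IsCob₂On p H z`    — on `H`, `z = dλ` for a 1-cochain `λ : G_ℚ → k` which is level-constant on `H`.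
* `IsGlobZ p Sg z`    — `z` is a global 2-cocycle of `k(1)`, level-constant for a finite level
  unramified outside `Sg`.
* `PlainRecip k p Sg` — the reciprocity package in plain language: places `Pv v` over `v ∈ Sg` and
  `k`-linear "invariants" `inv v` on 2-cochains, killing local coboundaries, injective on local
  classes at `v ≡ 1 mod p`, with `∑_{v ∈ Sg} inv v z = 0` for global `z`.

Nothing unproved in this file.  Plan: `coord/S56-RECQ.md` on `origin/main`.
-/

set_option autoImplicit false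

open Polynomial IsLocalRing

noncomputable section

namespace Fermat.Agent.S56.RQ

open Fermat.Agent.S56 Fermat.Agent.S56.H716

section

variable {k : Type} [Field k] (ρbar : ResidualGaloisRep k)

/-- The cup product `(σ, τ) ↦ tr (c σ · σ(y τ))`, where `σ(y τ) = y (σ τ) − y σ` (cocycle relation
of the twisted cocycle `y`). -/
def cup (c y : GQ → Module.End k ρbar.V) : GQ × GQ → k :=
  fun x => LinearMap.trace k ρbar.V (c x.1 * (y (x.1 * x.2) - y x.1))

end

section

variable {k : Type} [Field k] (p : ℕ)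

/-- The 2-cocycle identity of `k(1)` on the subgroup `H`. -/
def IsCoc₂On (H : Subgroup GQ) (z : GQ × GQ → k) : Prop :=
  ∀ σ ∈ H, ∀ τ ∈ H, ∀ υ ∈ H, ∀ a : ℕ, IsCycExp p σ a →
    (a : k) * z (τ, υ) + z (σ, τ * υ) = z (σ * τ, υ) + z (σ, τ)

/-- `z` is level-constant on the subgroup `H`. -/
def IsLC₂On (H : Subgroup GQ) (z : GQ × GQ → k) : Prop :=
  ∃ L : IntermediateField ℚ Qb, FiniteDimensional ℚ L ∧
    ∀ σ ∈ H, ∀ τ ∈ H, ∀ s ∈ H, ∀ s' ∈ H, (∀ x ∈ L, s x = x) → (∀ x ∈ L, s' x = x) →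
      z (σ * s, τ * s') = z (σ, τ)

/-- On the subgroup `H`, `z` is the coboundary of a 1-cochain of `k(1)` which is level-constant
on `H`. -/
def IsCob₂On (H : Subgroup GQ) (z : GQ × GQ → k) : Prop :=
  ∃ lam : GQ → k,
    (∃ L : IntermediateField ℚ Qb, FiniteDimensional ℚ L ∧
      ∀ σ ∈ H, ∀ s ∈ H, (∀ x ∈ L, s x = x) → lam (σ * s) = lam σ) ∧
    ∀ σ ∈ H, ∀ τ ∈ H, ∀ a : ℕ, IsCycExp p σ a →
      z (σ, τ) = (a : k) * lam τ - lam (σ * τ) + lam σ

/-- `z` is a global 2-cocycle of `k(1)`, level-constant for a finite level which is unramified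
outside `Sg`. -/
def IsGlobZ (Sg : Finset ℕ) (z : GQ × GQ → k) : Prop :=
  IsCoc₂On p ⊤ z ∧
    ∃ L : IntermediateField ℚ Qb, FiniteDimensional ℚ L ∧
      (∀ q : ℕ, q.Prime → q ∉ Sg → ∀ P : ValuationSubring Qb, P.LiesOverPrime q →
        ∀ s ∈ P.inertiaSubgroupIn ℚ, ∀ x ∈ L, s x = x) ∧
      ∀ σ τ s s' : GQ, (∀ x ∈ L, s x = x) → (∀ x ∈ L, s' x = x) → z (σ * s, τ * s') = z (σ, τ)

variable (k) in
/-- The reciprocity package for `k(1)` and the finite set of primes `Sg`, in plain language. -/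
def PlainRecip (Sg : Finset ℕ) : Prop :=
  ∃ (Pv : ℕ → ValuationSubring Qb) (inv : ℕ → (GQ × GQ → k) →ₗ[k] k),
    (∀ v ∈ Sg, (Pv v).LiesOverPrime v) ∧
    (∀ v ∈ Sg, ∀ z : GQ × GQ → k,
      IsCob₂On p ((Pv v).decompositionSubgroup ℚ) z → inv v z = 0) ∧
    (∀ v ∈ Sg, p ∣ v - 1 → ∀ z : GQ × GQ → k,
      IsCoc₂On p ((Pv v).decompositionSubgroup ℚ) z →
      IsLC₂On ((Pv v).decompositionSubgroup ℚ) z → inv v z = 0 →
      IsCob₂On p ((Pv v).decompositionSubgroup ℚ) z) ∧
    (∀ z : GQ × GQ → k, IsGlobZ p Sg z → ∑ v ∈ Sg, inv v z = 0)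

end

end Fermat.Agent.S56.RQ

end

end
-- ===== PACK-END S56/RQ/Defs.lean

-- ===== PACK-BEGIN S56/H14/InvRecCore.lean
section


/-!
# Row S56 — INVREC, generic core: `H²` with coefficients in `W(χ) = W ⊗ k(χ)` (helper14)

`G` a group with a level system `L`, `k` a field, `χ : G → kˣ` a character, `W` a
finite-dimensional `k`-vector space, `twTriv χ W` the module `W` with `G` acting through `χ`.
A linear map `inv : H²(G, k(χ)) → k` extends to `H²(G, W(χ)) → W`:

* `eq_zero_of_forall_pushH2_dual` : a class `x ∈ H²(G, W(χ))` all of whose coordinates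
  `f_* x ∈ H²(G, k(χ))` (`f ∈ W^*`) vanish is zero;
* `extInv inv : H²(G, W(χ)) →ₗ[k] W`, characterised by `f (extInv inv x) = inv (f_* x)`;
* `extInv_pushH2_endo` : `extInv` commutes with every `k`-linear endomorphism `T` of `W`
  (so it is linear over any field `K ⊇ k` acting on `W`);
* `extInv_eq_zero_iff` : if `inv` is injective then `extInv inv x = 0 ↔ x = 0`.

Nothing unproved in this file; Mathlib + `S55/PT` only.
-/

set_option autoImplicit false

noncomputable section

namespace Fermat.Agent.S56.H14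

open groupCohomology Fermat.Agent.S55.PT

variable {k : Type} [Field k] {G : Type} [Group G] (L : LevelSys G) (χ : G →* kˣ)
  (W : Type) [AddCommGroup W] [Module k W]

/-- every `k`-linear map `W → W'` is equivariant for the twisted trivial actions -/
lemma twTriv_isEquivariant {W' : Type} [AddCommGroup W'] [Module k W'] (f : W →ₗ[k] W') :
    IsEquivariant (A := twTriv χ W) (B := twTriv χ W') f := by
  intro g w
  rw [twTriv_ρ_apply, twTriv_ρ_apply, map_smul]

/-- every functional on `W` is an equivariant map `W(χ) → k(χ)` -/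
lemma dual_isEquivariant (f : Module.Dual k W) :
    IsEquivariant (A := twTriv χ W) (B := ofChar χ) f :=
  twTriv_isEquivariant χ W f

variable {W}

/-- the coordinate `f_* : H²(G, W(χ)) → H²(G, k(χ))` of a functional `f` -/
def pushDual (f : Module.Dual k W) : L.H2 (twTriv χ W) →ₗ[k] L.H2 (ofChar χ) :=
  pushH2 (A := twTriv χ W) (B := ofChar χ) f (dual_isEquivariant χ W f) L

lemma pushDual_add (f f' : Module.Dual k W) (x : L.H2 (twTriv χ W)) :
    pushDual L χ (f + f') x = pushDual L χ f x + pushDual L χ f' x :=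
  pushH2_add (A := twTriv χ W) (B := ofChar χ) L (dual_isEquivariant χ W f)
    (dual_isEquivariant χ W f') x

lemma pushDual_smul (a : k) (f : Module.Dual k W) (x : L.H2 (twTriv χ W)) :
    pushDual L χ (a • f) x = a • pushDual L χ f x :=
  pushH2_smul (A := twTriv χ W) (B := ofChar χ) L a (dual_isEquivariant χ W f) x

/-- `x ↦ (f ↦ inv (f_* x))`, with values in the double dual of `W` -/
def extInvDual (inv : L.H2 (ofChar χ) →ₗ[k] k) :
    L.H2 (twTriv χ W) →ₗ[k] Module.Dual k (Module.Dual k W) where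
  toFun x :=
    { toFun := fun f => inv (pushDual L χ f x)
      map_add' := fun f f' => by rw [pushDual_add, map_add]
      map_smul' := fun a f => by rw [pushDual_smul, map_smul, RingHom.id_apply] }
  map_add' x y := by
    apply LinearMap.ext
    intro f
    simp only [LinearMap.coe_mk, AddHom.coe_mk, map_add, LinearMap.add_apply]
  map_smul' a x := by
    apply LinearMap.ext
    intro f
    simp only [LinearMap.coe_mk, AddHom.coe_mk, map_smul, RingHom.id_apply,
      LinearMap.smul_apply]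

@[simp] lemma extInvDual_apply (inv : L.H2 (ofChar χ) →ₗ[k] k) (x : L.H2 (twTriv χ W))
    (f : Module.Dual k W) : extInvDual L χ inv x f = inv (pushDual L χ f x) := rfl

variable [FiniteDimensional k W]

/-- **The extension of `inv` to coefficients in `W(χ)`.** -/
def extInv (inv : L.H2 (ofChar χ) →ₗ[k] k) : L.H2 (twTriv χ W) →ₗ[k] W :=
  (Module.evalEquiv k W).symm.toLinearMap ∘ₗ extInvDual L χ inv

/-- characterisation: `f (extInv inv x) = inv (f_* x)` -/
lemma dual_extInv (inv : L.H2 (ofChar χ) →ₗ[k] k) (x : L.H2 (twTriv χ W))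
    (f : Module.Dual k W) : f (extInv L χ inv x) = inv (pushDual L χ f x) := by
  have h : Module.evalEquiv k W (extInv L χ inv x) = extInvDual L χ inv x := by
    simp only [extInv, LinearMap.comp_apply, LinearEquiv.coe_coe, LinearEquiv.apply_symm_apply]
  have h2 := LinearMap.congr_fun h f
  rwa [Module.evalEquiv_apply, Module.Dual.eval_apply] at h2

lemma extInv_eq_of_forall_dual (inv : L.H2 (ofChar χ) →ₗ[k] k) (x : L.H2 (twTriv χ W)) (w : W)
    (h : ∀ f : Module.Dual k W, f w = inv (pushDual L χ f x)) : extInv L χ inv x = w := by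
  apply sub_eq_zero.1
  apply (Module.forall_dual_apply_eq_zero_iff k _).1
  intro f
  rw [map_sub, dual_extInv, h, sub_self]

/-- `extInv` commutes with linear endomorphisms of `W`. -/
theorem extInv_pushH2_endo (inv : L.H2 (ofChar χ) →ₗ[k] k) (T : W →ₗ[k] W)
    (x : L.H2 (twTriv χ W)) :
    extInv L χ inv (pushH2 (A := twTriv χ W) (B := twTriv χ W) T
      (twTriv_isEquivariant χ W T) L x) = T (extInv L χ inv x) := by
  apply extInv_eq_of_forall_dual
  intro f
  have h1 : f (T (extInv L χ inv x)) = (f ∘ₗ T) (extInv L χ inv x) := rfl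
  rw [h1, dual_extInv]
  congr 1
  obtain ⟨c, rfl⟩ := L.H2π_surjective _ x
  rfl

/-- A class all of whose coordinates vanish is zero. -/
theorem eq_zero_of_forall_pushDual (x : L.H2 (twTriv χ W))
    (h : ∀ f : Module.Dual k W, pushDual L χ f x = 0) : x = 0 := by
  obtain ⟨c, rfl⟩ := L.H2π_surjective _ x
  rw [LevelSys.H2π_eq_zero_iff]
  let b := Module.finBasis k W
  have hy : ∀ i, ∃ y : G → k, L.IsLC₁ y ∧
      (d₁₂ (ofChar χ)).hom y = (b.coord i) ∘ (c : G × G → W) := by
    intro i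
    have hi := h (b.coord i)
    have hi' : L.H2π (ofChar χ) (pushZ2 (A := twTriv χ W) (B := ofChar χ) (b.coord i)
        (dual_isEquivariant χ W (b.coord i)) L c) = 0 := hi
    rw [LevelSys.H2π_eq_zero_iff] at hi'
    obtain ⟨y, hy, hd⟩ := hi'
    exact ⟨y, hy, hd⟩
  choose y hyLC hyd using hy
  refine ⟨fun g => ∑ i, y i g • b i, ?_, ?_⟩
  · -- level-constant
    have : ∀ s : Finset (Fin (Module.finrank k W)),
        L.IsLC₁ (fun g => ∑ i ∈ s, y i g • b i) := by
      intro s
      induction s using Finset.induction_on with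
      | empty => simpa using L.isLC₁_const (0 : W)
      | insert a s ha ih =>
        have h1 : (fun g => ∑ i ∈ insert a s, y i g • b i)
            = (fun g => y a g • b a) + (fun g => ∑ i ∈ s, y i g • b i) := by
          funext g
          simp only [Pi.add_apply, Finset.sum_insert ha]
        rw [h1]
        exact LevelSys.IsLC₁.add (LevelSys.IsLC₁.comp (hyLC a) (fun t => t • b a)) ih
    exact this Finset.univ
  · funext ⟨g, h'⟩
    have hcoord : ∀ i, (b.coord i) (c.1 (g, h'))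
        = (χ g : k) * y i h' - y i (g * h') + y i g := by
      intro i
      have := congrFun (hyd i) (g, h')
      simp only [d₁₂_hom_apply, Function.comp_apply] at this
      rw [← this, ofChar_ρ_apply]
    have hsum : c.1 (g, h') = ∑ i, (b.coord i) (c.1 (g, h')) • b i :=
      (b.sum_repr (c.1 (g, h'))).symm
    show (d₁₂ (twTriv χ W)).hom (fun g => ∑ i, y i g • b i) (g, h') = c.1 (g, h')
    rw [hsum]
    have hρ : ∀ w : W, (twTriv χ W).ρ g w = (χ g : k) • w := twTriv_ρ_apply χ W g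
    have hd : (d₁₂ (twTriv χ W)).hom (fun g => ∑ i, y i g • b i) (g, h')
        = (twTriv χ W).ρ g (∑ i, y i h' • b i) - ∑ i, y i (g * h') • b i
          + ∑ i, y i g • b i := rfl
    rw [hd, hρ]
    simp only [hcoord, Finset.smul_sum, smul_smul, add_smul, sub_smul, Finset.sum_add_distrib,
      Finset.sum_sub_distrib]

/-- If `inv` is injective, so is its extension `extInv`. -/
theorem extInv_eq_zero_iff {inv : L.H2 (ofChar χ) →ₗ[k] k} (hinv : Function.Injective inv)
    (x : L.H2 (twTriv χ W)) : extInv L χ inv x = 0 ↔ x = 0 := by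
  constructor
  · intro h0
    apply eq_zero_of_forall_pushDual
    intro f
    apply hinv
    rw [map_zero, ← dual_extInv, h0, map_zero]
  · rintro rfl
    exact map_zero _

end Fermat.Agent.S56.H14

end

end
-- ===== PACK-END S56/H14/InvRecCore.lean

-- ===== PACK-BEGIN S55/G/Rec/KillAbovePH174.lean
section






/-!
# S55 / G / REC, leaf SC (helper174) : `KillAbovePSpec` from the remaining open leaves

`killAboveP_of` : STEP C for odd `p`, from `LocalStructureSpec` (L2), `WeakApproxSpec` (G3) and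
STEP A (`CycloSumSpec I`).  The leaves K1, K2, L3 (from L2), L4, L6 are taken from main.
The fully hypothesis-parametrised version is `killAboveP_core` (`SCH174/Main.lean`).
-/

set_option autoImplicit false

namespace Fermat.Agent.S55.G.Rec.H174

open Fermat.Agent.S55.G.Rec

/-- **STEP C** (`KillAbovePSpec`) for odd `p`. -/
theorem killAboveP_of (I : LocalInvSystem) (p : ℕ) [Fact p.Prime] (hp2 : p ≠ 2)
    (hL2 : LocalStructureSpec) (hG3 : WeakApproxSpec) (hSA : CycloSumSpec I) :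
    KillAbovePSpec I p :=
  killAboveP_core I p hp2 H496.cupLoc H496.cupAdd hL2 (H900.unramCup_of hL2 H496.cupAdd I)
    H854.cycloFrob H854.localRoot hG3 hSA

end Fermat.Agent.S55.G.Rec.H174

end
-- ===== PACK-END S55/G/Rec/KillAbovePH174.lean

-- ===== PACK-BEGIN S55/G/Rec/L2H931.lean
section


/-!
# S55 / layer G / block REC : leaf (L2) `LocalStructureSpec`  (helper931)

For an open subgroup `V ≤ G_{ℚ_q}` with fixed field `E`: the residue degree `f`, a Frobenius lift
`φ ∈ V`, a uniformizer `π` with `vdeg π = f`, and the decomposition `a = π ^ k * u` with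
`vdeg a = f * k`.

* Frobenius lift: `L2H931/Frob.lean` (profinite surjectivity of the stabiliser map);
* arithmetic of `E`: `L2H931/Arith.lean` (unit ball is a complete DVR with finite residue field,
  fundamental identity `e f = n` from helper355's `card_residue_pow_eq`).
-/

set_option autoImplicit false
set_option linter.style.haveILetI false

noncomputable section

namespace Fermat.Agent.S55.G.Rec.H931

open Fermat.Agent.S55 Fermat.Agent.S55.G.Rec

/-- **Leaf (L2)**: local structure of the fixed field of an open subgroup of `G_{ℚ_q}`. -/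
theorem localStructure : LocalStructureSpec := by
  intro q _ V hV
  have hq : q.Prime := Fact.out
  haveI : FiniteDimensional ℚ_[q] (L2_E q V) := L2_finiteDimensional hV
  obtain ⟨f, e, ϖ, hfpos, hef, hϖ0, hϖlt, hnorme, hmax, hdec, hres, hmin⟩ :=
    L2_structure (L2_E q V)
  have hfix_iff : ∀ x : PadicAlgCl q, IsFixedBy q V x ↔ x ∈ L2_E q V :=
    fun x => (L2_mem_E_iff x).symm
  -- residue degree
  have hRD : IsResidueDegree q V f := by
    refine ⟨hfpos, ?_, ?_⟩
    · intro x hx hx1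
      exact hres ⟨x, (hfix_iff x).1 hx⟩ hx1
    · intro m hm hall
      exact hmin m hm (fun x hx1 => hall x ((hfix_iff x).2 x.2) hx1)
  obtain ⟨φ, hφV, hφ⟩ := L2_exists_frob hV f hRD.2.1
  -- the uniformizer as a unit
  have hϖ0' : (ϖ : PadicAlgCl q) ≠ 0 := fun h => hϖ0 (Subtype.ext h)
  set π : (PadicAlgCl q)ˣ := Units.mk0 (ϖ : PadicAlgCl q) hϖ0' with hπ
  have hπval : (π : PadicAlgCl q) = ϖ := rfl
  have hπfix : IsFixedBy q V (π : PadicAlgCl q) := (hfix_iff _).2 ϖ.2
  have hUnif : IsUniformizer q V (π : PadicAlgCl q) := by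
    refine ⟨hπfix, hϖ0', hϖlt, ?_⟩
    intro x hx hx1
    exact hmax ⟨x, (hfix_iff x).1 hx⟩ hx1
  -- index and norms
  have hidx : V.index = e * f := by rw [L2_index hV, hef]
  have hnormπ : ‖(π : PadicAlgCl q)‖ ^ V.index = (q : ℝ) ^ (-(f : ℤ)) := by
    rw [hidx, pow_mul, hπval, hnorme, zpow_neg, zpow_natCast, inv_pow]
  have hvπ : vdeg q V π = f := by
    unfold vdeg
    rw [hnormπ, Int.log_zpow hq.one_lt, neg_neg]
  refine ⟨f, φ, π, hRD, hφV, hφ, hUnif, hvπ, ?_⟩
  intro a ha
  have ha' : IsFixedBy q V (a : PadicAlgCl q) := by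
    intro τ hτ
    have := congrArg (fun u : (PadicAlgCl q)ˣ => (u : PadicAlgCl q)) (ha τ hτ)
    exact this
  have haE : (a : PadicAlgCl q) ∈ L2_E q V := (hfix_iff _).1 ha'
  have ha0 : (⟨a, haE⟩ : L2_E q V) ≠ 0 := by
    intro h
    exact a.ne_zero (congrArg Subtype.val h)
  obtain ⟨k, u, hu1, hau⟩ := hdec ⟨a, haE⟩ ha0
  have hu0 : (u : PadicAlgCl q) ≠ 0 := by
    intro h
    rw [h, norm_zero] at hu1
    exact zero_ne_one hu1
  have hau' : (a : PadicAlgCl q) = (ϖ : PadicAlgCl q) ^ k * (u : PadicAlgCl q) := by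
    have hz : ((ϖ ^ k : L2_E q V) : PadicAlgCl q) = (ϖ : PadicAlgCl q) ^ k :=
      map_zpow₀ (L2_E q V).val ϖ k
    have := congrArg (fun z : L2_E q V => (z : PadicAlgCl q)) hau
    simp only [MulMemClass.coe_mul, hz] at this
    exact this
  have hnorma : ‖(a : PadicAlgCl q)‖ = ‖(π : PadicAlgCl q)‖ ^ k := by
    rw [hau', norm_mul, norm_zpow, hu1, mul_one, hπval]
  refine ⟨k, Units.mk0 (u : PadicAlgCl q) hu0, ?_, hu1, ?_, ?_⟩
  · intro τ hτ
    apply Units.ext
    exact (hfix_iff _).2 u.2 τ hτ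
  · apply Units.ext
    rw [Units.val_mul, Units.val_zpow_eq_zpow_val, Units.val_mk0]
    exact hau'
  · have h1 : ‖(a : PadicAlgCl q)‖ ^ V.index = (q : ℝ) ^ (-((f : ℤ) * k)) := by
      rw [hnorma, ← zpow_natCast, ← zpow_mul, mul_comm k, zpow_mul, zpow_natCast, hnormπ,
        ← zpow_mul, neg_mul]
    unfold vdeg
    rw [h1, Int.log_zpow hq.one_lt, neg_neg]

end Fermat.Agent.S55.G.Rec.H931

end
end
-- ===== PACK-END S55/G/Rec/L2H931.lean

-- ===== PACK-BEGIN S55/G/SesSpecH604.lean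
section
/-
S55, layer G (helper604): proofs of the interface statements `ClassShortExactSpec` (G-SES) and
`ClassGroupFiniteSpec` (G-CL) of helper421's `G/Spec.lean`.
-/



set_option autoImplicit false
set_option linter.unusedSectionVars false

open scoped NumberField nonZeroDivisors
open IsDedekindDomain FractionalIdeal

noncomputable section

namespace Fermat.Agent.S55.G.SesSpecH604

open Fermat.Agent.S55.G Fermat.Agent.S55.G.SesH604 Fermat.Agent.S55.G.ClsH604
  Fermat.Agent.S55.G.SeqH604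

/-- **G-SES.** -/
theorem classShortExactSpec : ClassShortExactSpec :=
  fun S G L _ _ _ _ hS => classShortComplex_shortExact S G L hS

section

variable (L : Type) [Field L] [NumberField L]

/-- an integral representative of an ideal class. -/
def classRep (C : ClassGroup (𝓞 L)) : (Ideal (𝓞 L))⁰ := (ClassGroup.mk0_surjective C).choose

lemma mk0_classRep (C : ClassGroup (𝓞 L)) : ClassGroup.mk0 (classRep L C) = C :=
  (ClassGroup.mk0_surjective C).choose_spec

lemma classRep_ne_bot (C : ClassGroup (𝓞 L)) : (classRep L C : Ideal (𝓞 L)) ≠ ⊥ :=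
  nonZeroDivisors.coe_ne_zero _

/-- the rational primes dividing the norm of one of the chosen representatives. -/
def badPrimes : Finset Nat.Primes := by
  classical
  exact Finset.subtype Nat.Prime (Finset.univ.biUnion fun C : ClassGroup (𝓞 L) =>
    (Ideal.absNorm (classRep L C : Ideal (𝓞 L))).primeFactors)

lemma mem_badPrimes_of_dvd (C : ClassGroup (𝓞 L)) (q : ℕ) (hq : q.Prime)
    (hdvd : q ∣ Ideal.absNorm (classRep L C : Ideal (𝓞 L))) :
    (⟨q, hq⟩ : Nat.Primes) ∈ badPrimes L := by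
  classical
  have hN : Ideal.absNorm (classRep L C : Ideal (𝓞 L)) ≠ 0 := by
    rw [Ne, Ideal.absNorm_eq_zero_iff]
    exact classRep_ne_bot L C
  have h : q ∈ Finset.univ.biUnion fun C : ClassGroup (𝓞 L) =>
      (Ideal.absNorm (classRep L C : Ideal (𝓞 L))).primeFactors :=
    Finset.mem_biUnion.2 ⟨C, Finset.mem_univ _, Nat.mem_primeFactors.2 ⟨hq, hdvd, hN⟩⟩
  exact Finset.mem_subtype.2 h

variable {L} in
/-- a prime ideal containing a nonzero natural number contains one of its prime factors. -/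
lemma exists_prime_dvd_of_natCast_mem (w : HeightOneSpectrum (𝓞 L)) (n : ℕ) (hn : n ≠ 0)
    (hmem : (n : 𝓞 L) ∈ w.asIdeal) : ∃ q : ℕ, q.Prime ∧ q ∣ n ∧ (q : 𝓞 L) ∈ w.asIdeal := by
  induction n using Nat.recOnMul with
  | zero => exact absurd rfl hn
  | one =>
    exfalso
    apply w.isPrime.ne_top
    rw [Ideal.eq_top_iff_one]
    simpa using hmem
  | prime p hp => exact ⟨p, hp, dvd_rfl, hmem⟩
  | mul a b iha ihb =>
    have ha : a ≠ 0 := fun h => hn (by rw [h, zero_mul])
    have hb : b ≠ 0 := fun h => hn (by rw [h, mul_zero])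
    rw [Nat.cast_mul] at hmem
    rcases w.isPrime.mem_or_mem hmem with h | h
    · obtain ⟨q, hq, hqa, hqw⟩ := iha ha h
      exact ⟨q, hq, hqa.mul_right b, hqw⟩
    · obtain ⟨q, hq, hqb, hqw⟩ := ihb hb h
      exact ⟨q, hq, hqb.mul_left a, hqw⟩

/-- a prime of `L` dividing a chosen representative lies above `badPrimes`. -/
lemma isAbove_of_classRep_le (C : ClassGroup (𝓞 L)) (w : HeightOneSpectrum (𝓞 L))
    (hle : (classRep L C : Ideal (𝓞 L)) ≤ w.asIdeal) : IsAbove (badPrimes L) L w := by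
  have hN : Ideal.absNorm (classRep L C : Ideal (𝓞 L)) ≠ 0 := by
    rw [Ne, Ideal.absNorm_eq_zero_iff]
    exact classRep_ne_bot L C
  obtain ⟨q, hq, hdvd, hqw⟩ := exists_prime_dvd_of_natCast_mem w _ hN
    (hle (Ideal.absNorm_mem _))
  exact ⟨⟨q, hq⟩, mem_badPrimes_of_dvd L C q hq hdvd, hqw⟩

variable {L} in
lemma isAbove_mono {S T : Finset Nat.Primes} (h : S ⊆ T) {w : HeightOneSpectrum (𝓞 L)}
    (hw : IsAbove S L w) : IsAbove T L w := by
  obtain ⟨q, hq, hqw⟩ := hw
  exact ⟨q, h hq, hqw⟩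

variable {L} in
/-- the multiplicity of `w` in an integral ideal not contained in `w` is zero. -/
lemma count_coeIdeal_eq_zero (w : HeightOneSpectrum (𝓞 L)) {I : Ideal (𝓞 L)} (hI : I ≠ ⊥)
    (hle : ¬ I ≤ w.asIdeal) : count L w (I : FractionalIdeal (𝓞 L)⁰ L) = 0 := by
  rw [count_coe L w hI]
  by_contra h
  have h' : (Associates.mk w.asIdeal).count (Associates.mk I).factors ≠ 0 := by
    intro h0
    exact h (by rw [h0]; rfl)
  rw [Associates.count_ne_zero_iff_dvd hI w.irreducible] at h'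
  exact hle (Ideal.dvd_iff_le.1 h')

/-- For `T ⊇ badPrimes`, the divisor map `Lˣ → Div^T(L)` is surjective (`Cl_T(L) = 1`). -/
theorem ordHom_surjective_of_badPrimes_subset (T : Finset Nat.Primes) (hT : badPrimes L ⊆ T) :
    Function.Surjective (ordHom T L) := by
  intro d
  set 𝔞 : (FractionalIdeal (𝓞 L)⁰ L)ˣ := (divIdeal T L d).toMul with h𝔞
  set C : ClassGroup (𝓞 L) := ClassGroup.mk L 𝔞 with hC
  set I : (Ideal (𝓞 L))⁰ := classRep L C⁻¹ with hI
  have hI0 : (I : Ideal (𝓞 L)) ≠ ⊥ := classRep_ne_bot L _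
  have hmk : ClassGroup.mk L (𝔞 * FractionalIdeal.mk0 L I) = 1 := by
    rw [map_mul, ClassGroup.mk_mk0, hI, mk0_classRep, ← hC, mul_inv_cancel]
  rw [ClassGroup.mk_eq_one_iff] at hmk
  obtain ⟨x, hx⟩ := hmk.principal
  have hx' : ((𝔞 * FractionalIdeal.mk0 L I : (FractionalIdeal (𝓞 L)⁰ L)ˣ) :
      FractionalIdeal (𝓞 L)⁰ L) = spanSingleton (𝓞 L)⁰ x := by
    apply Subtype.coe_injective
    simp only [val_eq_coe, hx, coe_spanSingleton]
  have hx0 : x ≠ 0 := by
    rintro rfl
    have : ((𝔞 * FractionalIdeal.mk0 L I : (FractionalIdeal (𝓞 L)⁰ L)ˣ) :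
      FractionalIdeal (𝓞 L)⁰ L) = 0 := by rw [hx']; simp
    exact Units.ne_zero _ this
  refine ⟨Additive.ofMul (Units.mk0 x hx0), ?_⟩
  ext w
  have hw : ¬ (I : Ideal (𝓞 L)) ≤ w.1.asIdeal := fun hle =>
    w.2 (isAbove_mono hT (isAbove_of_classRep_le L _ w.1 hle))
  rw [ordHom_apply, ordAt_eq_count, toMul_ofMul, Units.val_mk0, ← hx', Units.val_mul,
    count_mul L w.1 (Units.ne_zero _) (Units.ne_zero _), FractionalIdeal.coe_mk0,
    count_coeIdeal_eq_zero w.1 hI0 hw, add_zero, h𝔞, ← cnt_apply, cnt_divIdeal]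

/-- If the divisor map is surjective then `J_T(L)` maps onto `C_T(L)`. -/
theorem jImage_eq_top_of_surjective (T : Finset Nat.Primes)
    (h : Function.Surjective (ordHom T L)) : jImage T L = ⊤ := by
  rw [eq_top_iff]
  intro c _
  induction c using Submodule.Quotient.induction_on with
  | H jd =>
    obtain ⟨x, hx⟩ := h jd.2
    refine ⟨jd.1 - unitsDiag T L x, ?_⟩
    change Submodule.Quotient.mk ((jd.1 - unitsDiag T L x, 0) : JD T L) = _
    rw [eq_comm, ← sub_eq_zero, ← Submodule.Quotient.mk_sub, Submodule.Quotient.mk_eq_zero]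
    refine ⟨x, ?_⟩
    refine Prod.ext ?_ ?_
    · simp
    · simp [hx]

end

/-- **G-CL.** -/
theorem classGroupFiniteSpec : ClassGroupFiniteSpec := by
  intro S L _ _
  classical
  refine ⟨?_, S ∪ badPrimes L, Finset.subset_union_left, fun T' hT' => ?_⟩
  · have : Finite (CS S L ⧸ (jImage S L).toAddSubgroup) := finite_cl S L
    exact AddSubgroup.index_ne_zero_of_finite
  · exact jImage_eq_top_of_surjective L T'
      (ordHom_surjective_of_badPrimes_subset L T' (Finset.union_subset_right hT'))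

end Fermat.Agent.S55.G.SesSpecH604

end
end
-- ===== PACK-END S55/G/SesSpecH604.lean

-- ===== PACK-BEGIN S55/E1/H354/Alg10Bdry.lean
section
/-
S55 engine E1, block ALG: the transition maps commute with the boundary map `∂` of ALG3
("ALG10-∂", blueprint coord/S55-E1.md §3 ALG10, used by LIM1).  helper354.

Generic form: `π : G' →* G`, `a : R' ⟶ res_π R`, a morphism `(ι₁, ι₂, ι₃)` from `res_π` of a
short exact sequence `S` of `G`-modules to a short exact sequence `S'` of `G'`-modules.  Then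
`tr (∂ f'') = ∂' (ι₃ ∘ f'' ∘ a)`, where `tr = (trIhom π a ι₁)_*` on `H¹`.
Special cases: transitions of the tower, restriction to a subgroup (`π = D.subtype`, `a = 𝟙`),
naturality in the short exact sequence (`π = id`).
-/



set_option autoImplicit false

open CategoryTheory CategoryTheory.Limits groupCohomology

namespace Fermat.Agent.S55.E1.H354

noncomputable section

section generic

variable {k G G' : Type} [CommRing k] [Group G] [Group G'] (π : G' →* G)
variable {R : Rep.{0} k G} {R' : Rep.{0} k G'} (a : R' ⟶ Rep.res π R)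
variable {S : ShortComplex (Rep.{0} k G)} {S' : ShortComplex (Rep.{0} k G')}
variable (ι₁ : Rep.res π S.X₁ ⟶ S'.X₁) (ι₂ : Rep.res π S.X₂ ⟶ S'.X₂)
  (ι₃ : Rep.res π S.X₃ ⟶ S'.X₃)

/-- The transported morphism `ι₃ ∘ f'' ∘ a : R' ⟶ X₃'`. -/
def trHom (f'' : R ⟶ S.X₃) : R' ⟶ S'.X₃ := a ≫ (Rep.resFunctor π).map f'' ≫ ι₃

theorem trHom_hom_apply (f'' : R ⟶ S.X₃) (r : R'.V) :
    (trHom π a ι₃ f'').hom r = ι₃.hom (f''.hom (a.hom r)) := rfl

theorem mapCocycles₁_trIhom_apply (c : cocycles₁ ((Rep.ihom R).obj S.X₁)) (g' : G') (r : R'.V) :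
    ihomLin (mapCocycles₁ π (trIhom π a ι₁) c g') r = ι₁.hom (ihomLin (c (π g')) (a.hom r)) :=
  rfl

/-- The transported cocycle is a boundary cocycle of the transported morphism. -/
theorem IsBdryCocycle.tr (hf : ∀ x : S.X₁.V, S'.f.hom (ι₁.hom x) = ι₂.hom (S.f.hom x))
    (hg : ∀ x : S.X₂.V, S'.g.hom (ι₂.hom x) = ι₃.hom (S.g.hom x))
    {f'' : R ⟶ S.X₃} {c : cocycles₁ ((Rep.ihom R).obj S.X₁)} (hc : IsBdryCocycle R S f'' c) :
    IsBdryCocycle R' S' (trHom π a ι₃ f'') (mapCocycles₁ π (trIhom π a ι₁) c) := by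
  obtain ⟨φ, hφ, hcφ⟩ := hc
  refine ⟨ι₂.hom.toLinearMap ∘ₗ φ ∘ₗ a.hom.toLinearMap, fun r => ?_, fun g' r => ?_⟩
  · show S'.g.hom (ι₂.hom (φ (a.hom r))) = ι₃.hom (f''.hom (a.hom r))
    rw [hg, hφ]
  · rw [mapCocycles₁_trIhom_apply, hf, hcφ, map_sub]
    show _ = S'.X₂.ρ g' (ι₂.hom (φ (a.hom (R'.ρ g'⁻¹ r)))) - ι₂.hom (φ (a.hom r))
    have h1 : a.hom (R'.ρ g'⁻¹ r) = R.ρ (π g')⁻¹ (a.hom r) := by
      rw [Rep.hom_comm_apply a g'⁻¹ r]
      show R.ρ (π g'⁻¹) _ = _
      rw [map_inv]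
    have h2 : ∀ y : S.X₂.V, ι₂.hom (S.X₂.ρ (π g') y) = S'.X₂.ρ g' (ι₂.hom y) :=
      fun y => Rep.hom_comm_apply ι₂ g' y
    rw [h1, h2]

/-- **`tr` commutes with `∂`** (generic form). -/
theorem map_bdry (hS : S.ShortExact) (hS' : S'.ShortExact) [Module.Projective k R.V]
    [Module.Projective k R'.V]
    (hf : ∀ x : S.X₁.V, S'.f.hom (ι₁.hom x) = ι₂.hom (S.f.hom x))
    (hg : ∀ x : S.X₂.V, S'.g.hom (ι₂.hom x) = ι₃.hom (S.g.hom x)) (f'' : R ⟶ S.X₃) :
    (groupCohomology.map π (trIhom π a ι₁) 1).hom (bdry hS R f'') =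
      bdry hS' R' (trHom π a ι₃ f'') := by
  obtain ⟨c, hc⟩ := exists_isBdryCocycle hS f''
  rw [bdry_eq hS hc, bdry_eq hS' (hc.tr π a ι₁ ι₂ ι₃ hf hg)]
  have h := H1π_comp_map_apply π (trIhom π a ι₁) c
  exact h

end generic

section std

variable {G G' : Type} [Group G] [Group G'] (π : G' →* G)
variable {N : Rep.{0} ℤ G} {N' : Rep.{0} ℤ G'} (ν : N' ⟶ Rep.res π N)
variable {S : ShortComplex (Rep.{0} ℤ G)} {S' : ShortComplex (Rep.{0} ℤ G')}
variable (ι₁ : Rep.res π S.X₁ ⟶ S'.X₁) (ι₂ : Rep.res π S.X₂ ⟶ S'.X₂)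
  (ι₃ : Rep.res π S.X₃ ⟶ S'.X₃)

/-- **ALG10-∂**: `tr (∂ f'') = ∂' (tr f'')` for the standard presentations. -/
theorem trE2_stdBdry (hR : @Module.Projective ℤ _ (stdR N).V _ (stdR N).hV2)
    (hR' : @Module.Projective ℤ _ (stdR N').V _ (stdR N').hV2)
    (hS : S.ShortExact) (hS' : S'.ShortExact)
    (hf : ∀ x : S.X₁.V, S'.f.hom (ι₁.hom x) = ι₂.hom (S.f.hom x))
    (hg : ∀ x : S.X₂.V, S'.g.hom (ι₂.hom x) = ι₃.hom (S.g.hom x)) (f'' : homA N S.X₃) :
    trE2 π ν ι₁ (stdBdry N hR hS f'') = stdBdry N' hR' hS' (trA π ν ι₃ f'') :=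
  haveI := hR
  haveI := hR'
  map_bdry π (trR π ν) ι₁ ι₂ ι₃ hS hS' hf hg f''

end std

/-- **ALG10-∂**, Spec form. -/
def ALG10BdrySpec : Prop :=
  ∀ (G G' : Type) [Group G] [Group G'] (π : G' →* G)
    (N : Rep.{0} ℤ G) (N' : Rep.{0} ℤ G') (ν : N' ⟶ Rep.res π N)
    (hR : @Module.Projective ℤ _ (stdR N).V _ (stdR N).hV2)
    (hR' : @Module.Projective ℤ _ (stdR N').V _ (stdR N').hV2)
    (S : ShortComplex (Rep.{0} ℤ G)) (S' : ShortComplex (Rep.{0} ℤ G'))
    (hS : S.ShortExact) (hS' : S'.ShortExact)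
    (ι₁ : Rep.res π S.X₁ ⟶ S'.X₁) (ι₂ : Rep.res π S.X₂ ⟶ S'.X₂) (ι₃ : Rep.res π S.X₃ ⟶ S'.X₃),
    (∀ x : S.X₁.V, S'.f.hom (ι₁.hom x) = ι₂.hom (S.f.hom x)) →
    (∀ x : S.X₂.V, S'.g.hom (ι₂.hom x) = ι₃.hom (S.g.hom x)) →
    ∀ f'' : homA N S.X₃,
      trE2 π ν ι₁ (stdBdry N hR hS f'') = stdBdry N' hR' hS' (trA π ν ι₃ f'')

theorem alg10Bdry : ALG10BdrySpec :=
  fun _ _ _ _ π _ _ ν hR hR' _ _ hS hS' ι₁ ι₂ ι₃ hf hg f'' =>
    trE2_stdBdry π ν ι₁ ι₂ ι₃ hR hR' hS hS' hf hg f''

end

end Fermat.Agent.S55.E1.H354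

end
-- ===== PACK-END S55/E1/H354/Alg10Bdry.lean

-- ===== PACK-BEGIN S55/Cap/Spec.lean
section



/-!
# S55 / layer K, input A8 (CAP): INTERFACE   (sub-architect helper303)

Blueprint: `coord/S55-K-A8.md` (branch `origin/helper303`).  Spec pattern: every statement is a
`def … : Prop`; producers prove `theorem foo : FooSpec …` in a NEW file
`Fermat/Agent/S55/Cap/<Leaf>H<seat>.lean`; the consumer is `Cap/Main.lean`
(`capSpec_of_leaves`, PROVED).

Objects (`Cap/Mod.lean`, `Cap/IndM.lean`):  `𝔼 = SU S` (smooth `S`-units), `𝕁 = JJS S`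
(smooth `S`-idèles `∏_{q ∈ S} Coind^{sm} ℚ̄_qˣ`), `i = iEJ S : 𝔼 → 𝕁` (diagonal),
`Ind_U X = IndM U X = (G_ℚ ⧸ U →₀ X)` with the diagonal action, `IndM.map`, `IndM.le`.
The idèle class module does NOT appear in the leaves: `𝕁/𝔼` is its `p`-local stand-in.

Leaves:

| leaf | statement | classical content | input |
|---|---|---|---|
| `MuSpec`    | `μ_p ↪ 𝔼` equivariant, image `= 𝔼[p]` | roots of unity | Bridge/MuP, H654 |
| `HasMuSpec` | `μ` trivial on `U_L` ⇒ `μ_p ⊂ L.F` | Galois correspondence | Mathlib |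
| `EDivSpec`  | `𝔼` is `p`-divisible | Kummer, `p ∈ S` | `Tow.SUnitsDivSpec` (on main) |
| `J1Spec`    | `H¹(G_S, Ind_U 𝕁) = 0` (cochains) | Hilbert 90 + Shapiro | `Tow.LocalSpec` |
| `J2Spec`    | `Ш²`-classes die in `H²(G_S, Ind_U 𝕁)` (cochains) | H90 ⇒ inflation injective, Shapiro | `Tow.LocalSpec` |
| `C1Spec`    | `H¹(G_S, Ind_U (𝕁/𝔼))` has no `p`-part (cochains) | `H¹(C) = 0` + capitulation | GD1, GD4, GD5, GD7, GD11 |
| `C2Spec`    | `∀ V ∃ U`: `N_{U→V} (𝕁/𝔼)^U ⊆ p (𝕁/𝔼)^V` up to prime-to-`p` | existence theorem mod `p` | GD4–GD7, GD11, GD12 |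
-/

set_option autoImplicit false

noncomputable section

namespace Fermat.Agent.S55.Cap

open Fermat.Agent.S55.PT Fermat.Agent.S55.Tow groupCohomology ExtCitation

variable (p : ℕ) [Fact p.Prime] (S : Finset Nat.Primes)

/-! ## additions to the tower datum (tell helper55 / helper955) -/

/-- **GD11**: `C(F)/im J(F)` (the `S`-class group) is torsion. -/
def ClTorsion {S : Finset Nat.Primes} (D : TowerDatum S) : Prop :=
  ∀ (L : Level S) (c : (D.C L).V), ∃ n : ℕ, 0 < n ∧ D.IsLocalSum L (n • c)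

/-- **GD12**: Galois descent in the tower: an element of `C(F')` fixed by `Gal(F'/F)` comes from
`C(F)` (after passing to a higher level). -/
def Descent {S : Finset Nat.Primes} (D : TowerDatum S) : Prop :=
  ∀ {L L' : Level S} (h : L ≤ L') (c : (D.C L').V),
    (∀ σ ∈ Level.relGal h, (D.C L').ρ σ c = c) →
    ∃ (L'' : Level S) (h' : L' ≤ L'') (c₁ : (D.C L).V),
      (D.tr h').hom c = (D.tr (h.trans h')).hom c₁

/-- the input of layer G consumed by A8: a good tower datum with GD11 and GD12 -/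
def GlobalSpecCap : Prop :=
  ∃ D : TowerDatum S, D.IsGoodMu p ∧ ClTorsion D ∧ Descent D

/-! ## the leaves -/

/-- **MU.**  An equivariant embedding `μ_p → 𝔼` whose image is the `p`-torsion of `𝔼`. -/
def MuSpec : Prop :=
  ∃ ι₀ : ↥(mu p) →+ SU S, Function.Injective ι₀ ∧
    (∀ (g : Tow.GQ) (a : ↥(mu p)), ι₀ ((mu p).ρ g a) = g • ι₀ a) ∧
    (∀ e : SU S, p • e = 0 → ∃ a, ι₀ a = e)

/-- **HASMU.**  If `U_L` acts trivially on `μ = ofChar (cycloChar p)` then `μ_p ⊂ L.F`. -/
def HasMuSpec : Prop :=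
  ∀ L : Level S, (∀ s ∈ L.U, (mu p).ρ s = 1) → L.HasMu p

/-- **EDIV.**  `𝔼` is `p`-divisible. -/
def EDivSpec : Prop := ∀ x : SU S, ∃ y : SU S, p • y = x

/-- **J1.**  Level-constant 1-cocycles `G_ℚ → Ind_U 𝕁` are coboundaries
(`H¹(G_S(K_U), 𝕁) = ⊕_w H¹(Gal(Ω_w/K_{U,w}), Ω_wˣ) = 0`). -/
def J1Spec : Prop :=
  ∀ (L₁ : Level S) (f : Tow.GQ → IndM L₁.U (JJS S)), (globalLevels S).IsLC₁ f →
    (∀ g h, f (g * h) = f g + g • f h) → ∃ q : IndM L₁.U (JJS S), ∀ g, f g = g • q - q

/-- **J2.**  A level-constant 2-cocycle with values in `Ind_U μ` whose class is locally trivial at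
all `v ∈ S` becomes the coboundary of a level-constant 1-cochain in `Ind_U 𝕁`. -/
def J2Spec : Prop :=
  ∀ (ι₀ : ↥(mu p) →+ SU S), (∀ (g : Tow.GQ) (a : ↥(mu p)), ι₀ ((mu p).ρ g a) = g • ι₀ a) →
    ∀ (L₁ : Level S), (∀ s ∈ L₁.U, (mu p).ρ s = 1) →
    ∀ c : ↥((globalLevels S).Z2 (indRep L₁.U (mu p))),
      (globalLevels S).H2π (indRep L₁.U (mu p)) c ∈ Sha2 (hrl S) (indRep L₁.U (mu p)) →
      ∃ b : Tow.GQ → IndM L₁.U (JJS S), (globalLevels S).IsLC₁ b ∧
        ∀ g h, IndM.map L₁.U (iEJ S) (IndM.map L₁.U ι₀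
            (IndM.ofF L₁.U ((c : Tow.GQ × Tow.GQ → (Tow.GQ ⧸ L₁.U) →₀ ↥(mu p)) (g, h))))
          = g • b h - b (g * h) + b g

/-- **C1.**  `H¹(G_S(K_U), 𝕁/𝔼)` has no `p`-part, in cochain form: a level-constant 1-cochain `b`
in `Ind_U 𝕁` whose coboundary has values in `Ind_U 𝔼` is, up to a prime-to-`p` multiple and
modulo `Ind_U 𝔼`, a coboundary. -/
def C1Spec : Prop :=
  ∀ (L₁ : Level S) (b : Tow.GQ → IndM L₁.U (JJS S)), (globalLevels S).IsLC₁ b →
    (∀ g h, ∃ e : IndM L₁.U (SU S), IndM.map L₁.U (iEJ S) e = g • b h - b (g * h) + b g) →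
    ∃ (m : ℕ) (q₁ : IndM L₁.U (JJS S)), m.Coprime p ∧
      ∀ g, ∃ e : IndM L₁.U (SU S), IndM.map L₁.U (iEJ S) e = m • b g - (g • q₁ - q₁)

/-- **C2.**  Existence theorem mod `p`: for every level `L₀ ⊇ μ_p` there is a level `L₁ ≥ L₀` such
that the norm `Ind_{U₁} → Ind_{U₀}` maps `(𝕁/𝔼)`-invariants into `p · (𝕁/𝔼)`-invariants, up to a
prime-to-`p` factor. -/
def C2Spec : Prop :=
  ∀ (L₀ : Level S), L₀.HasMu p → ∃ (L₁ : Level S) (h : L₀ ≤ L₁),
    ∀ q : IndM L₁.U (JJS S),
      (∀ g : Tow.GQ, ∃ e : IndM L₁.U (SU S), IndM.map L₁.U (iEJ S) e = g • q - q) →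
      ∃ (n : ℕ) (q₂ : IndM L₀.U (JJS S)), n.Coprime p ∧
        (∀ g : Tow.GQ, ∃ e : IndM L₀.U (SU S), IndM.map L₀.U (iEJ S) e = g • q₂ - q₂) ∧
        ∃ ε : IndM L₀.U (SU S),
          IndM.map L₀.U (iEJ S) ε = n • IndM.le (Level.U_anti h) q - p • q₂

/-! ## the adapters (= the work of the leaves `J1`, `J2`, `C1`, `C2`) -/

/-- leaf **J1** -/
def J1AdapterSpec : Prop := LocalSpec p → J1Spec S

/-- leaf **J2** -/
def J2AdapterSpec : Prop := LocalSpec p → J2Spec p S

/-- leaf **C1** -/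
def C1AdapterSpec : Prop :=
  (∃ D : TowerDatum S, D.IsGoodMu p ∧ ClTorsion D) → SUnitsDivSpec S p → C1Spec p S

/-- leaf **C2** -/
def C2AdapterSpec : Prop := GlobalSpecCap p S → C2Spec p S

/-- leaf **EDIV** -/
def EDivAdapterSpec : Prop := SUnitsDivSpec S p → EDivSpec p S

end Fermat.Agent.S55.Cap

end
end
-- ===== PACK-END S55/Cap/Spec.lean

-- ===== PACK-BEGIN S55/E1/H719/Lim2.lean
section





/-!
# S55 engine E1, block LIM, leaf LIM2 (capitulation) — helper719

Blueprint `coord/S55-E1.md` §5.  Elementwise ("eventually") form, independent of the way the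
systems `T'_F`, `T_F` are packaged:

* `lim2_ker`   : `h ∈ Bc_F(C)` with `h(R) ⊆ C'(F) := im (J(F) → C(F))`  ⇒  for all large `F'`,
                 `tr h = Σ_q h_q ≫ j_q` with `h_q ∈ Bc_{F'}(J_q)`;
* `lim2_ker_A` : `f = Σ_q f_q ≫ j_q + res h ∈ A_F(C)` with values in `C'(F)`  ⇒  for all large `F'`,
                 `tr f ∈ Σ_q j_q ∘ A_{F'}(J_q)`   (eventual injectivity of `T'_F → T_F`);
* `lim2_coker` : for `f ∈ A_F(C)` there is `w ≡ 1 (p)` with `w • f = f + res h` and, for all large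
                 `F'`, `tr (w • f)` has values in `C'(F')`   (eventual surjectivity of `T'_F → T_F`).

`lim2_coker` needs that `C(F) / C'(F)` is TORSION (`TorsionModLocal`, think: `Cl_S(F)` is
finite).  This is NOT a field of the frozen `TowerDatum.IsGoodMu`; it is an explicit hypothesis.
-/

set_option autoImplicit false

open CategoryTheory CategoryTheory.Limits

namespace Fermat.Agent.S55.E1.H719

open Fermat.Agent.S55.Tow Fermat.Agent.S55.E1

noncomputable section

section Generic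

variable {k G : Type} [CommRing k] [Group G]

/-- Evaluation of a finite sum of morphisms of representations. -/
lemma sum_hom_apply {ι : Type} (s : Finset ι) {A B : Rep.{0} k G} (f : ι → (A ⟶ B)) (a : A.V) :
    (∑ i ∈ s, f i).hom a = ∑ i ∈ s, (f i).hom a := by
  rw [Rep.sum_hom, Representation.IntertwiningMap.sum_apply]

/-- The value of `Rep.freeLift` on a basis element. -/
lemma freeLift_hom_single {α : Type} (A : Rep.{0} k G) (f : α → A.V) (i : α) :
    (Rep.freeLift k G A f).hom (Finsupp.single i (MonoidAlgebra.single (1 : G) (1 : k))) =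
      f i := by
  have h := Representation.freeLift_single_single A.ρ i (1 : G) (1 : k) f
  rw [map_one, one_smul] at h
  exact h

/-- Evaluation of an `ℕ`-multiple of a morphism of representations. -/
lemma nsmul_hom_apply {A B : Rep.{0} k G} (n : ℕ) (f : A ⟶ B) (a : A.V) :
    (n • f).hom a = n • f.hom a := by
  induction n with
  | zero => rw [zero_nsmul, zero_nsmul]; rfl
  | succ m ih =>
    rw [succ_nsmul, succ_nsmul, ← ih]
    rfl

end Generic

variable {S : Finset Nat.Primes}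

/-- **GDT**: `C(F) / im (J(F) → C(F))` is a torsion group (in arithmetic: `Cl_S(F)` is finite). -/
def TorsionModLocal (D : TowerDatum S) : Prop :=
  ∀ (L : Level S) (c : (D.C L).V), ∃ n : ℕ, 0 < n ∧ D.IsLocalSum L (n • c)

section LocalSum

variable {D : TowerDatum S} {L : Level S}

lemma isLocalSum_zero : D.IsLocalSum L 0 :=
  ⟨fun _ => 0, by simp⟩

lemma isLocalSum_add {c c' : (D.C L).V} (h : D.IsLocalSum L c) (h' : D.IsLocalSum L c') :
    D.IsLocalSum L (c + c') := by
  obtain ⟨x, rfl⟩ := h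
  obtain ⟨x', rfl⟩ := h'
  exact ⟨fun q => x q + x' q, by simp only [map_add, Finset.sum_add_distrib]⟩

lemma isLocalSum_neg {c : (D.C L).V} (h : D.IsLocalSum L c) : D.IsLocalSum L (-c) := by
  obtain ⟨x, rfl⟩ := h
  exact ⟨fun q => -x q, by simp only [map_neg, Finset.sum_neg_distrib]⟩

lemma isLocalSum_nsmul (n : ℕ) {c : (D.C L).V} (h : D.IsLocalSum L c) :
    D.IsLocalSum L (n • c) := by
  induction n with
  | zero => rw [zero_nsmul]; exact isLocalSum_zero
  | succ k ih => rw [succ_nsmul]; exact isLocalSum_add ih h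

/-- `tr` maps `im J(F)` into `im J(F')` (GD7a). -/
lemma isLocalSum_tr {p : ℕ} (hD : D.IsGoodMu p) {L' : Level S} (h : L ≤ L') {c : (D.C L).V}
    (hc : D.IsLocalSum L c) : D.IsLocalSum L' ((D.tr h).hom c) := by
  obtain ⟨x, rfl⟩ := hc
  refine ⟨fun q => (Level.trJ h q.1).hom (x q), ?_⟩
  rw [map_sum]
  exact Finset.sum_congr rfl fun q _ => hD.gd7a h q.1 q.2 (x q)

/-- GD5 in "eventually" form. -/
lemma exists_level_isLocalSum {p : ℕ} (hD : D.IsGoodMu p) (c : (D.C L).V) (a : ℕ)
    (hc : D.IsLocalSum L (p ^ a • c)) :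
    ∃ L₁ : Level S, L ≤ L₁ ∧ ∀ (L' : Level S) (h : L ≤ L'), L₁ ≤ L' →
      D.IsLocalSum L' ((D.tr h).hom c) := by
  obtain ⟨L₁, h₁, hc₁⟩ := hD.gd5 L c a hc
  refine ⟨L₁, h₁, fun L' h h' => ?_⟩
  have := isLocalSum_tr hD h' hc₁
  rwa [hD.gd7b h₁ h' c] at this

/-- GD5 for a finite family, in "eventually" form. -/
lemma exists_level_forall_isLocalSum [IsDirected (Level S) (· ≤ ·)] {p : ℕ} (hD : D.IsGoodMu p)
    {ι : Type} [Finite ι] (c : ι → (D.C L).V) (a : ι → ℕ)
    (hc : ∀ i, D.IsLocalSum L (p ^ a i • c i)) :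
    ∃ L₁ : Level S, L ≤ L₁ ∧ ∀ (L' : Level S) (h : L ≤ L'), L₁ ≤ L' →
      ∀ i, D.IsLocalSum L' ((D.tr h).hom (c i)) := by
  choose Lc hLc hcap using fun i => exists_level_isLocalSum hD (c i) (a i) (hc i)
  have : Nonempty (Level S) := ⟨L⟩
  obtain ⟨M, hM⟩ := Finite.exists_le Lc
  obtain ⟨L₁, hL, hML⟩ := exists_ge_ge L M
  exact ⟨L₁, hL, fun L' h h' i => hcap i L' h (((hM i).trans hML).trans h')⟩

end LocalSum

section Ker

variable (D : TowerDatum S)

/-- The value of `tr h` on a basis element. -/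
lemma trB_stdE {L L' : Level S} (h : L ≤ L') {N : Rep.{0} ℤ L.Gal} {N' : Rep.{0} ℤ L'.Gal}
    (ν : N' ⟶ Rep.res (Level.proj h) N) (hB : homB N (D.C L)) (n' : N'.V) :
    (trB (Level.proj h) ν (D.tr h) hB).hom (stdE N' n') =
      (D.tr h).hom (hB.hom (stdE N (ν.hom n'))) := by
  rw [trB_hom_apply, trP_stdE]

/-- **LIM2 (kernel part), form for `Bc`.**  If `h ∈ Bc_F(C)` maps `R` into `im J(F)`, then for all
large `F'` the transported `tr h ∈ Bc_{F'}(C)` factors through `⊕_q J_q(F')`. -/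
theorem lim2_ker [IsDirected (Level S) (· ≤ ·)] {p : ℕ} (hD : D.IsGoodMu p) {L : Level S}
    (N : Rep.{0} ℤ L.Gal) [Finite N.V] (hpN : ∀ n : N.V, p • n = 0) (hB : homB N (D.C L))
    (hloc : ∀ r : (stdR N).V, D.IsLocalSum L ((resBA N (D.C L) hB).hom r)) :
    ∃ L₁ : Level S, L ≤ L₁ ∧ ∀ (L' : Level S) (h : L ≤ L'), L₁ ≤ L' →
      ∀ (N' : Rep.{0} ℤ L'.Gal) (ν : N' ⟶ Rep.res (Level.proj h) N),
        ∃ hJ : ∀ q : S, homB N' (L'.J q.1),
          trB (Level.proj h) ν (D.tr h) hB = ∑ q : S, hJ q ≫ D.j L' q.1 := by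
  have key : ∀ n : N.V, D.IsLocalSum L (p ^ 1 • hB.hom (stdE N n)) := by
    intro n
    have h1 := hloc ((H304.mulP p N hpN).hom (stdE N n))
    have h2 : (stdι N).hom ((H304.mulP p N hpN).hom (stdE N n)) = p • stdE N n := by
      have := congrArg (fun f : stdP N ⟶ stdP N => f.hom (stdE N n))
        (H304.mulP_comp_stdι p N hpN)
      simp only [Rep.nsmul_hom] at this
      exact this
    have h3 : (resBA N (D.C L) hB).hom ((H304.mulP p N hpN).hom (stdE N n)) =
        hB.hom ((stdι N).hom ((H304.mulP p N hpN).hom (stdE N n))) := rfl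
    rw [h3, h2, map_nsmul] at h1
    rwa [pow_one]
  obtain ⟨L₁, hL₁, hcap⟩ := exists_level_forall_isLocalSum hD
    (fun n : N.V => hB.hom (stdE N n)) (fun _ => 1) key
  refine ⟨L₁, hL₁, fun L' h h' N' ν => ?_⟩
  have hx : ∀ n' : N'.V, D.IsLocalSum L' ((D.tr h).hom (hB.hom (stdE N (ν.hom n')))) :=
    fun n' => hcap L' h h' (ν.hom n')
  choose x hx using hx
  refine ⟨fun q => Rep.freeLift ℤ L'.Gal (L'.J q.1) (fun n' => x n' q), ?_⟩
  apply Rep.free_ext
  intro n'
  have h1 : (trB (Level.proj h) ν (D.tr h) hB).hom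
      (Finsupp.single n' (MonoidAlgebra.single (1 : L'.Gal) (1 : ℤ))) =
      (D.tr h).hom (hB.hom (stdE N (ν.hom n'))) := trB_stdE D h ν hB n'
  refine h1.trans ((hx n').trans ?_)
  rw [sum_hom_apply]
  refine Finset.sum_congr rfl fun q _ => ?_
  rw [Rep.comp_apply]
  congr 1
  exact (freeLift_hom_single (L'.J q.1) (fun n' => x n' q) n').symm

/-- GD7a in morphism form. -/
lemma res_j_comp_tr {p : ℕ} (hD : D.IsGoodMu p) {L L' : Level S} (h : L ≤ L') (q : S) :
    (Rep.resFunctor (Level.proj h)).map (D.j L q.1) ≫ D.tr h = Level.trJ h q.1 ≫ D.j L' q.1 := by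
  apply repHom_ext_tr
  intro x
  exact hD.gd7a h q.1 q.2 x

/-- `tr (f_q ≫ j_q) = tr f_q ≫ j_q`. -/
lemma trA_comp_j {p : ℕ} (hD : D.IsGoodMu p) {L L' : Level S} (h : L ≤ L')
    {N : Rep.{0} ℤ L.Gal} {N' : Rep.{0} ℤ L'.Gal} (ν : N' ⟶ Rep.res (Level.proj h) N) (q : S)
    (fJ : homA N (L.J q.1)) :
    trA (Level.proj h) ν (D.tr h) (fJ ≫ D.j L q.1) =
      trA (Level.proj h) ν (Level.trJ h q.1) fJ ≫ D.j L' q.1 := by
  change trR (Level.proj h) ν ≫ (Rep.resFunctor (Level.proj h)).map (fJ ≫ D.j L q.1) ≫ D.tr h =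
    (trR (Level.proj h) ν ≫ (Rep.resFunctor (Level.proj h)).map fJ ≫ Level.trJ h q.1) ≫
      D.j L' q.1
  rw [Functor.map_comp, Category.assoc, res_j_comp_tr D hD h q]
  simp only [Category.assoc]

/-- **LIM2 (kernel part) = eventual injectivity of `T'_F → T_F`.**  If
`f = Σ_q f_q ≫ j_q + res h ∈ A_F(C)` has values in `im J(F)`, then for all large `F'`
the transported `tr f ∈ A_{F'}(C)` lies in `Σ_q j_q ∘ A_{F'}(J_q)`. -/
theorem lim2_ker_A [IsDirected (Level S) (· ≤ ·)] {p : ℕ} (hD : D.IsGoodMu p) {L : Level S}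
    (N : Rep.{0} ℤ L.Gal) [Finite N.V] (hpN : ∀ n : N.V, p • n = 0)
    (fJ : ∀ q : S, homA N (L.J q.1)) (hB : homB N (D.C L))
    (hloc : ∀ r : (stdR N).V,
      D.IsLocalSum L ((∑ q : S, fJ q ≫ D.j L q.1 + resBA N (D.C L) hB).hom r)) :
    ∃ L₁ : Level S, L ≤ L₁ ∧ ∀ (L' : Level S) (h : L ≤ L'), L₁ ≤ L' →
      ∀ (N' : Rep.{0} ℤ L'.Gal) (ν : N' ⟶ Rep.res (Level.proj h) N),
        ∃ fJ' : ∀ q : S, homA N' (L'.J q.1),
          trA (Level.proj h) ν (D.tr h) (∑ q : S, fJ q ≫ D.j L q.1 + resBA N (D.C L) hB) =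
            ∑ q : S, fJ' q ≫ D.j L' q.1 := by
  have hloc' : ∀ r : (stdR N).V, D.IsLocalSum L ((resBA N (D.C L) hB).hom r) := by
    intro r
    have h1 := hloc r
    have h2 : D.IsLocalSum L ((∑ q : S, fJ q ≫ D.j L q.1).hom r) := by
      rw [sum_hom_apply]
      exact ⟨fun q => (fJ q).hom r, Finset.sum_congr rfl fun q _ => Rep.comp_apply _ _ _⟩
    have h3 : (resBA N (D.C L) hB).hom r =
        (∑ q : S, fJ q ≫ D.j L q.1 + resBA N (D.C L) hB).hom r +
          -((∑ q : S, fJ q ≫ D.j L q.1).hom r) := by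
      rw [Rep.add_hom]
      change _ = ((∑ q : S, fJ q ≫ D.j L q.1).hom r + (resBA N (D.C L) hB).hom r) + _
      abel
    rw [h3]
    exact isLocalSum_add h1 (isLocalSum_neg h2)
  obtain ⟨L₁, hL₁, hker⟩ := lim2_ker D hD N hpN hB hloc'
  refine ⟨L₁, hL₁, fun L' h h' N' ν => ?_⟩
  obtain ⟨hJ, hhJ⟩ := hker L' h h' N' ν
  refine ⟨fun q => trA (Level.proj h) ν (Level.trJ h q.1) (fJ q) + resBA N' (L'.J q.1) (hJ q), ?_⟩
  rw [map_add, map_sum, trA_resBA, hhJ, map_sum, ← Finset.sum_add_distrib]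
  refine Finset.sum_congr rfl fun q _ => ?_
  rw [trA_comp_j D hD h ν q (fJ q), Preadditive.add_comp]
  rfl

end Ker

section Coker

variable (D : TowerDatum S)

/-- `R` is a finitely generated abelian group (ALG1). -/
lemma exists_finset_closure_stdR {G : Type} [Group G] [Finite G] (N : Rep.{0} ℤ G)
    [Finite N.V] : ∃ s : Finset (stdR N).V, AddSubgroup.closure (s : Set (stdR N).V) = ⊤ := by
  obtain ⟨-, hfin, -⟩ := H304.alg1 G N inferInstance
  have e : (stdR N).hV2 = AddCommGroup.toIntModule _ := Subsingleton.elim _ _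
  rw [e] at hfin
  exact AddGroup.fg_def.1 (Module.Finite.iff_addGroup_fg.1 hfin)

/-- **LIM2 (cokernel part) = eventual surjectivity of `T'_F → T_F`.**  Assume that
`C(F)/im J(F)` is torsion.  For `f ∈ A_F(C)` there is `w ≡ 1 (mod p)` such that
`w • f − f ∈ res Bc_F(C)` and, for all large `F'`, `tr (w • f)` has values in `im J(F')`. -/
theorem lim2_coker [IsDirected (Level S) (· ≤ ·)] {p : ℕ} (hp : p.Prime) (hD : D.IsGoodMu p)
    (hT : TorsionModLocal D) {L : Level S} (N : Rep.{0} ℤ L.Gal) [Finite N.V]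
    (hpN : ∀ n : N.V, p • n = 0) (f : homA N (D.C L)) :
    ∃ (w : ℕ) (hB : homB N (D.C L)), w • f = f + resBA N (D.C L) hB ∧
      ∃ L₁ : Level S, L ≤ L₁ ∧ ∀ (L' : Level S) (h : L ≤ L'), L₁ ≤ L' →
        ∀ (N' : Rep.{0} ℤ L'.Gal) (ν : N' ⟶ Rep.res (Level.proj h) N) (r' : (stdR N').V),
          D.IsLocalSum L' ((trA (Level.proj h) ν (D.tr h) (w • f)).hom r') := by
  classical
  obtain ⟨s, hs⟩ := exists_finset_closure_stdR N
  choose n hn0 hn using fun r : (stdR N).V => hT L (f.hom r)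
  have hn₀ : (∏ r ∈ s, n r) ≠ 0 := (Finset.prod_pos fun r _ => hn0 r).ne'
  obtain ⟨a, m, hm, hnm⟩ := Nat.exists_eq_pow_mul_and_not_dvd hn₀ p hp.ne_one
  have hcop : Nat.Coprime m p := ((Nat.Prime.coprime_iff_not_dvd hp).2 hm).symm
  obtain ⟨m', -, hm'⟩ := Nat.exists_mul_mod_eq_one_of_coprime hcop hp.one_lt
  obtain ⟨h₀, hh₀⟩ := H304.alg2 p L.Gal N (D.C L) hpN f
  have hw : m * m' = p * (m * m' / p) + 1 := by
    have := Nat.div_add_mod (m * m') p
    rw [hm'] at this
    exact this.symm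
  refine ⟨m * m', (m * m' / p) • h₀, ?_, ?_⟩
  · have h1 : resBA N (D.C L) ((m * m' / p) • h₀) = (m * m' / p) • (p • f) := by
      rw [map_nsmul]
      congr 1
    rw [h1, ← mul_nsmul', add_comm f]
    conv_lhs => rw [hw]
    rw [add_nsmul, one_nsmul, mul_comm]
  · have hfam : ∀ r : s, D.IsLocalSum L (p ^ a • (m • f.hom r.1)) := by
      intro r
      obtain ⟨d, hd⟩ := Finset.dvd_prod_of_mem n r.2
      rw [← mul_nsmul', ← hnm, hd, mul_comm, mul_nsmul']
      exact isLocalSum_nsmul d (hn r.1)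
    obtain ⟨L₁, hL₁, hcap⟩ := exists_level_forall_isLocalSum hD
      (fun r : s => m • f.hom r.1) (fun _ => a) hfam
    refine ⟨L₁, hL₁, fun L' h h' N' ν r' => ?_⟩
    have hall : ∀ y : (stdR N).V, D.IsLocalSum L' ((D.tr h).hom (m • f.hom y)) := by
      intro y
      have hy : y ∈ AddSubgroup.closure (s : Set (stdR N).V) := by rw [hs]; trivial
      induction hy using AddSubgroup.closure_induction with
      | mem x hx => exact hcap L' h h' ⟨x, hx⟩
      | zero =>
        rw [map_zero, nsmul_zero, map_zero]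
        exact isLocalSum_zero
      | add x y _ _ hx hy =>
        rw [map_add, nsmul_add, map_add]
        exact isLocalSum_add hx hy
      | neg x _ hx =>
        rw [map_neg, neg_nsmul, map_neg]
        exact isLocalSum_neg hx
    rw [trA_hom_apply, nsmul_hom_apply, mul_nsmul, map_nsmul]
    exact isLocalSum_nsmul m' (hall _)

end Coker

end

end Fermat.Agent.S55.E1.H719

end
-- ===== PACK-END S55/E1/H719/Lim2.lean

-- ===== PACK-BEGIN S55/E1/H594/LevelProj.lean
section
/-
S55 / engine E1 / G-ADAPTER leaf LVL (helper594), part 4: compatibility with `Level.proj`.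

For levels `L ≤ L'`: the inclusion `L.F → L'.F` is equivariant along
`Level.proj h : L'.Gal → L.Gal`, the fixed field of `Level.relGal h` is `L.F`, and the two
hypotheses of `G.DescentSpec` hold in exactly the required form
(`G = L'.Gal`, `N = Level.relGal h`, `G ⧸ N` acting on `L.F` through `G ⧸ N → L.Gal`).
Also: a `p`-group acting on a field fixes the `p`-th roots of unity
(`G.HasFixedRootOfUnity` for `p`-subgroups of `L.Gal` when `μ_p ⊂ L.F`).
No `sorry`.
-/



set_option autoImplicit false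
set_option linter.unusedSectionVars false
set_option linter.style.haveILetI false

namespace Fermat.Agent.S55.E1.H594

open Fermat.Agent.S55 Fermat.Agent.S55.Tow Fermat.Agent.S55.Bridge NumberField

attribute [local instance] isAlgebraic_Qbar isGalois_Qbar

noncomputable section

variable {S : Finset Nat.Primes} {L L' : Level S} (h : L ≤ L')

/-- The inclusion `L.F → L'.F` for `L ≤ L'`. -/
def levelIncl : L.F →+* L'.F where
  toFun x := ⟨(x : Qbar), h x.2⟩
  map_one' := rfl
  map_mul' _ _ := rfl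
  map_zero' := rfl
  map_add' _ _ := rfl

theorem coe_levelIncl (x : L.F) : ((levelIncl h x : L'.F) : Qbar) = (x : Qbar) := rfl

theorem levelIncl_injective : Function.Injective (levelIncl h) :=
  (levelIncl h).injective

theorem mem_range_levelIncl_iff (x : L'.F) : x ∈ (levelIncl h).range ↔ (x : Qbar) ∈ L.F := by
  constructor
  · rintro ⟨y, rfl⟩
    exact y.2
  · intro hx
    exact ⟨⟨(x : Qbar), hx⟩, rfl⟩

theorem level_proj_mk (σ : _root_.Fermat.Agent.S55.Tow.GQ) :
    Level.proj h (QuotientGroup.mk σ : L'.Gal) = (QuotientGroup.mk σ : L.Gal) := rfl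

theorem level_proj_surjective : Function.Surjective (Level.proj h) := by
  intro g
  induction g using QuotientGroup.induction_on with
  | H σ => exact ⟨QuotientGroup.mk σ, rfl⟩

/-- The inclusion is equivariant along `Level.proj h`. -/
theorem levelIncl_proj_smul (g : L'.Gal) (x : L.F) :
    levelIncl h ((Level.proj h g) • x) = g • levelIncl h x := by
  induction g using QuotientGroup.induction_on with
  | H σ =>
    apply Subtype.ext
    rw [coe_levelIncl, level_proj_mk, level_mk_smul, level_mk_smul, coe_levelIncl]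

theorem mk_mem_relGal_iff (σ : _root_.Fermat.Agent.S55.Tow.GQ) :
    (QuotientGroup.mk σ : L'.Gal) ∈ Level.relGal h ↔ σ ∈ L.U := by
  unfold Level.relGal
  rw [MonoidHom.mem_ker, level_proj_mk]
  exact QuotientGroup.eq_one_iff σ

/-- The fixed field of `Gal(F'/F) = Level.relGal h` in `F'` is `F`. -/
theorem level_relGal_fixed_iff (x : L'.F) :
    (∀ n : Level.relGal h, (n : L'.Gal) • x = x) ↔ x ∈ (levelIncl h).range := by
  rw [mem_range_levelIncl_iff]
  constructor
  · intro hx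
    refine mem_level_of_fixed L _ (fun σ hσ => ?_)
    have := hx ⟨QuotientGroup.mk σ, (mk_mem_relGal_iff h σ).2 hσ⟩
    have h2 := congrArg (fun y : L'.F => (y : Qbar)) this
    simpa only [level_mk_smul] using h2
  · intro hx n
    obtain ⟨n, hn⟩ := n
    induction n using QuotientGroup.induction_on with
    | H σ =>
      apply Subtype.ext
      rw [level_mk_smul]
      exact fixed_of_mem_level L _ hx σ ((mk_mem_relGal_iff h σ).1 hn)

instance relGal_normal : (Level.relGal h).Normal := by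
  unfold Level.relGal
  infer_instance

/-- `Gal(F'/ℚ) ⧸ Gal(F'/F) → Gal(F/ℚ)` (an isomorphism). -/
def levelQuotHom : L'.Gal ⧸ Level.relGal h →* L.Gal :=
  QuotientGroup.kerLift (Level.proj h)

theorem levelQuotHom_mk (g : L'.Gal) :
    levelQuotHom h (QuotientGroup.mk g) = Level.proj h g := rfl

theorem levelQuotHom_bijective : Function.Bijective (levelQuotHom h) :=
  ⟨QuotientGroup.kerLift_injective (Level.proj h), fun g => by
    obtain ⟨g', rfl⟩ := level_proj_surjective h g
    exact ⟨QuotientGroup.mk g', rfl⟩⟩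

/-- `Gal(F'/ℚ) ⧸ Gal(F'/F) ≃* Gal(F/ℚ)`. -/
def levelQuotEquiv : L'.Gal ⧸ Level.relGal h ≃* L.Gal :=
  MulEquiv.ofBijective (levelQuotHom h) (levelQuotHom_bijective h)

/-- The action of `Gal(F'/ℚ) ⧸ Gal(F'/F)` on `F` (a definition, not an instance). -/
@[reducible] def levelQuotAction : MulSemiringAction (L'.Gal ⧸ Level.relGal h) L.F :=
  MulSemiringAction.compHom L.F (levelQuotHom h)

/-- `F'` as an algebra over `F` (a definition, not an instance). -/
@[reducible] def levelAlgebra : Algebra L.F L'.F := (levelIncl h).toAlgebra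

/-- First hypothesis of `G.DescentSpec` for `L ≤ L'`. -/
theorem level_descent_fixed :
    letI := levelAlgebra h
    ∀ x : L'.F, (∀ n : Level.relGal h, (n : L'.Gal) • x = x) ↔
      x ∈ (algebraMap L.F L'.F).range :=
  level_relGal_fixed_iff h

/-- Second hypothesis of `G.DescentSpec` for `L ≤ L'`. -/
theorem level_descent_equivariant :
    letI := levelAlgebra h
    letI := levelQuotAction h
    ∀ (g : L'.Gal) (x : L.F),
      algebraMap L.F L'.F ((g : L'.Gal ⧸ Level.relGal h) • x) = g • algebraMap L.F L'.F x :=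
  fun g x => levelIncl_proj_smul h g x

/-- The action of the quotient on `F` is faithful. -/
theorem levelQuot_faithfulSMul :
    letI := levelQuotAction h
    FaithfulSMul (L'.Gal ⧸ Level.relGal h) L.F := by
  letI := levelQuotAction h
  refine ⟨fun hab => ?_⟩
  apply (levelQuotHom_bijective h).1
  exact (level_faithfulSMul L).eq_of_smul_eq_smul hab

/-- `F/ℚ` is unramified outside `S` for the quotient action as well. -/
theorem levelQuot_isUnramOut :
    letI := levelQuotAction h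
    G.IsUnramOut S (L'.Gal ⧸ Level.relGal h) L.F :=
  letI := levelQuotAction h
  isUnramOut_of_hom S L.Gal (L'.Gal ⧸ Level.relGal h) L.F (levelQuotHom h) (fun _ _ => rfl)
    (level_isUnramOut L)

end

section roots

/-- A finite `p`-group acting on a field by automorphisms fixes every `p`-th root of unity. -/
theorem smul_eq_of_isPGroup_of_pow_eq_one {p : ℕ} [Fact p.Prime] {Γ K : Type} [Group Γ] [Finite Γ]
    [Field K] [MulSemiringAction Γ K] (hΓ : IsPGroup p Γ) {ζ : K} (hζ : ζ ^ p = 1) (g : Γ) :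
    g • ζ = ζ := by
  classical
  by_cases h1 : ζ = 1
  · rw [h1, smul_one]
  have hp : 0 < p := (Fact.out : p.Prime).pos
  set T : Finset K := (Polynomial.nthRootsFinset p (1 : K)).erase 1 with hT
  have hsub : MulAction.orbit Γ ζ ⊆ (T : Set K) := by
    rintro _ ⟨a, rfl⟩
    simp only [hT, Finset.coe_erase, Set.mem_sdiff, Finset.mem_coe, Set.mem_singleton_iff]
    constructor
    · rw [Polynomial.mem_nthRootsFinset hp]
      change (a • ζ) ^ p = 1
      rw [← smul_pow', hζ, smul_one]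
    · intro h
      apply h1
      have := congrArg (fun y => a⁻¹ • y) h
      simpa using this
  haveI : Finite (MulAction.orbit Γ ζ) := Set.Finite.subset T.finite_toSet hsub
  obtain ⟨n, hn⟩ := hΓ.card_orbit ζ
  have hle : Nat.card (MulAction.orbit Γ ζ) ≤ T.card := by
    have := Nat.card_mono T.finite_toSet hsub
    simpa using this
  have hT1 : T.card < p := by
    have h2 : (1 : K) ∈ Polynomial.nthRootsFinset p (1 : K) := by
      rw [Polynomial.mem_nthRootsFinset hp]
      exact one_pow p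
    have h3 := Finset.card_erase_of_mem h2
    have h4 : (Polynomial.nthRootsFinset p (1 : K)).card ≤ p := by
      unfold Polynomial.nthRootsFinset
      exact (Multiset.toFinset_card_le _).trans (Polynomial.card_nthRoots p 1)
    have h5 : 0 < (Polynomial.nthRootsFinset p (1 : K)).card := Finset.card_pos.2 ⟨1, h2⟩
    rw [← hT] at h3
    omega
  have hn0 : n = 0 := by
    by_contra hne
    have : p ≤ p ^ n := Nat.le_self_pow hne p
    rw [hn] at hle
    omega
  rw [hn0, pow_zero] at hn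
  have hsingle : (MulAction.orbit Γ ζ).Subsingleton := by
    have := (Nat.card_eq_one_iff_unique.1 hn).1
    intro a ha b hb
    have := Subsingleton.elim (⟨a, ha⟩ : MulAction.orbit Γ ζ) ⟨b, hb⟩
    exact congrArg Subtype.val this
  exact hsingle (MulAction.mem_orbit ζ g) (MulAction.mem_orbit_self ζ)

/-- `G.HasFixedRootOfUnity` for a finite `p`-group acting on a field containing a primitive
`p`-th root of unity. -/
theorem hasFixedRootOfUnity_of_isPGroup {p : ℕ} [Fact p.Prime] {Γ K : Type} [Group Γ] [Finite Γ]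
    [Field K] [MulSemiringAction Γ K] (hΓ : IsPGroup p Γ) {ζ : K} (hζ : IsPrimitiveRoot ζ p) :
    G.HasFixedRootOfUnity p Γ K :=
  ⟨ζ, hζ, fun g => smul_eq_of_isPGroup_of_pow_eq_one hΓ hζ.pow_eq_one g⟩

variable {S : Finset Nat.Primes} (L : Level S)

/-- If `μ_p ⊂ F`, every `p`-subgroup of `Gal(F/ℚ)` fixes a primitive `p`-th root of unity. -/
theorem level_hasFixedRootOfUnity {p : ℕ} [Fact p.Prime] {ζ : Qbar} (hζF : ζ ∈ L.F)
    (hζ : IsPrimitiveRoot ζ p) (H : Subgroup L.Gal) (hH : IsPGroup p H) :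
    G.HasFixedRootOfUnity p H L.F := by
  haveI : Finite L.Gal := level_finite_gal L
  refine hasFixedRootOfUnity_of_isPGroup hH (ζ := (⟨ζ, hζF⟩ : L.F)) ?_
  exact IsPrimitiveRoot.of_map_of_injective (f := L.F.val) hζ Subtype.val_injective

/-- Subgroups of `Gal(F/ℚ)` act faithfully on `F`. -/
theorem level_faithfulSMul_subgroup (H : Subgroup L.Gal) : FaithfulSMul H L.F :=
  ⟨fun hab => Subtype.ext ((level_faithfulSMul L).eq_of_smul_eq_smul hab)⟩

end roots

end Fermat.Agent.S55.E1.H594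

end
-- ===== PACK-END S55/E1/H594/LevelProj.lean

-- ===== PACK-BEGIN S55/Bridge/H1FiniteSpec.lean
section



/-!
# S55: the input `H1FiniteSpec` (GD10) of the engine E1, in the exact frozen shape

`h1FiniteSpec : Tow.H1FiniteSpec S p` for `p ∈ S`, from helper901's
`H901.finiteDimensional_continuousH1S` (on main).
-/

set_option autoImplicit false

namespace Fermat.Agent.S55.Bridge

open groupCohomology ExtCitation

/-- **GD10** in the frozen shape of `Spec/Datum.lean`. -/
theorem h1FiniteSpec {p : ℕ} [Fact p.Prime] (S : Finset Nat.Primes) (hpS : pPrime p ∈ S) :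
    Tow.H1FiniteSpec S p := by
  intro N _ hL
  obtain ⟨L, hL⟩ := hL
  refine H901.finiteDimensional_continuousH1S S hpS N ?_ ?_
  · intro m
    exact ⟨L.F, L.unram.1, fun s hs => by rw [hL s hs]; rfl⟩
  · intro q hq A hA g hg
    exact hL g (L.unram.2 q hq A hA hg)

end Fermat.Agent.S55.Bridge

end
-- ===== PACK-END S55/Bridge/H1FiniteSpec.lean

-- ===== PACK-BEGIN S55/G/SIndH237/H95/Complete.lean
section
/-
S55 / layer G / G-SIND:UCT (helper95).  Part 5: the abstract theorem.

Let `R` be a commutative ring, complete for an ideal `I` with `R ⧸ I` finite, and let a finite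
group `H` act on `R` by ring automorphisms stabilising `I`, with trivial inertia at every maximal
ideal.  Then every multiplicative `1`-cocycle and every multiplicative `2`-cocycle of `H` with
values in `Rˣ` is a coboundary.
-/




set_option autoImplicit false
set_option linter.unusedSectionVars false
set_option linter.style.haveILetI false

namespace Fermat.Agent.S55.G.SIndH237.H95

open CategoryTheory groupCohomology Fermat.Agent.S55.T

attribute [local instance] unitsAct

section FiniteRing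

variable {A : Type} [CommRing A] [Finite A] {H : Type} [Group H] [Finite H]
  [MulSemiringAction H A]

lemma finite_maximal_of_finite : {m : Ideal A | m.IsMaximal}.Finite := by
  haveI : Finite (Ideal A) :=
    Finite.of_injective (fun J : Ideal A => (J : Set A)) SetLike.coe_injective
  exact Set.toFinite _

/-- `H¹(K, Aˣ) = 0` for every subgroup `K ≤ H` (finite ring, trivial inertia). -/
theorem isZero_H1_units_of_finite
    (hin : ∀ m : Ideal A, m.IsMaximal → ∀ h : H, (∀ x : A, h • x - x ∈ m) → h = 1)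
    (K : Subgroup H) :
    Limits.IsZero (groupCohomology (resSub (Rep.ofMulDistribMulAction H Aˣ) K) 1) := by
  refine isZero_of_forall_eq_zero fun x => ?_
  induction x using H1_induction_on with
  | h c =>
    rw [H1π_eq_zero_iff]
    have hc := (mem_cocycles₁_iff (c : K → _)).1 c.2
    letI := Fintype.ofFinite K
    have hf : IsMulCocycle₁ (fun k : K => (Additive.toMul (c.1 k) : Aˣ)) := fun g h => hc g h
    have hinK : ∀ m : Ideal A, m.IsMaximal → ∀ k : K, (∀ x : A, k • x - x ∈ m) → k = 1 :=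
      fun m hm k hk => Subtype.ext (hin m hm (k : H) hk)
    obtain ⟨x, hx⟩ := isMulCoboundary₁_of_trivial_inertia finite_maximal_of_finite hinK _ hf
    exact ⟨Additive.ofMul x, funext fun g => congrArg Additive.ofMul (hx g)⟩

/-- `H²(H, Aˣ) = 0` on the level of cocycles (finite ring, trivial inertia). -/
theorem isMulCoboundary₂_units_of_finite
    (hin : ∀ m : Ideal A, m.IsMaximal → ∀ h : H, (∀ x : A, h • x - x ∈ m) → h = 1)
    (c : H × H → Aˣ) (hc : IsMulCocycle₂ c) : IsMulCoboundary₂ c := by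
  have hz := isZero_H2_self_of_finite (Rep.ofMulDistribMulAction H Aˣ)
    (inferInstanceAs (Finite (Additive Aˣ))) (fun K => isZero_H1_units_of_finite hin K)
  have h0 : H2π _ (cocyclesOfIsMulCocycle₂ hc) = 0 := eq_zero_of_isZero hz _
  rw [H2π_eq_zero_iff] at h0
  exact isMulCoboundary₂_of_mem_coboundaries₂ _ h0

end FiniteRing

section Complete

variable {R : Type} [CommRing R] {H : Type} [Group H] [Finite H] [MulSemiringAction H R]
  (I : Ideal R)

lemma finite_maximal_of_finite_quotient (hJ : I ≤ Ideal.jacobson ⊥) [Finite (R ⧸ I)] :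
    {m : Ideal R | m.IsMaximal}.Finite := by
  haveI : Finite (Ideal (R ⧸ I)) :=
    Finite.of_injective (fun J : Ideal (R ⧸ I) => (J : Set (R ⧸ I))) SetLike.coe_injective
  refine Set.Finite.of_finite_image (f := fun m : Ideal R => m.map (Ideal.Quotient.mk I))
    (Set.toFinite _) ?_
  intro m₁ h₁ m₂ h₂ h
  have key : ∀ m : Ideal R, m.IsMaximal →
      (m.map (Ideal.Quotient.mk I)).comap (Ideal.Quotient.mk I) = m := by
    intro m hm
    rw [Ideal.comap_map_of_surjective _ Ideal.Quotient.mk_surjective, ← RingHom.ker_eq_comap_bot,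
      Ideal.mk_ker]
    exact sup_eq_left.2 (hJ.trans (sInf_le ⟨bot_le, hm⟩))
  rw [← key m₁ h₁, ← key m₂ h₂]
  exact congrArg _ h

lemma inertia_quot (hI : ∀ (h : H) (x : R), x ∈ I → h • x ∈ I)
    (hin : ∀ m : Ideal R, m.IsMaximal → ∀ h : H, (∀ x : R, h • x - x ∈ m) → h = 1) :
    letI := quotAct I hI
    ∀ m : Ideal (R ⧸ I), m.IsMaximal → ∀ h : H, (∀ x : R ⧸ I, h • x - x ∈ m) → h = 1 := by
  intro m hm h hx
  haveI := hm
  refine hin (m.comap (Ideal.Quotient.mk I))
    (Ideal.comap_isMaximal_of_surjective _ Ideal.Quotient.mk_surjective) h fun r => ?_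
  rw [Ideal.mem_comap, map_sub]
  exact hx (Ideal.Quotient.mk I r)

lemma mem_unitFil_one_iff (u : Rˣ) :
    u ∈ unitFil I 1 ↔ Units.map (Ideal.Quotient.mk I : R →* R ⧸ I) u = 1 := by
  rw [mem_unitFil_iff, pow_one, ← Ideal.Quotient.eq, map_one, Units.ext_iff]
  rfl

/-- **H¹**: Hilbert 90 for the units of `R`. -/
theorem isMulCoboundary₁_of_complete [IsAdicComplete I R] [Finite (R ⧸ I)]
    (hin : ∀ m : Ideal R, m.IsMaximal → ∀ h : H, (∀ x : R, h • x - x ∈ m) → h = 1)
    (c : H → Rˣ) (hc : IsMulCocycle₁ c) : IsMulCoboundary₁ c := by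
  letI := Fintype.ofFinite H
  exact isMulCoboundary₁_of_trivial_inertia
    (finite_maximal_of_finite_quotient I (IsAdicComplete.le_jacobson_bot I)) hin c hc

/-- The residual step (`j = 0`) for `2`-cocycles. -/
theorem zero_step₂ [IsAdicComplete I R] [Finite (R ⧸ I)] (hI : ∀ (h : H) (x : R), x ∈ I → h • x ∈ I)
    (hin : ∀ m : Ideal R, m.IsMaximal → ∀ h : H, (∀ x : R, h • x - x ∈ m) → h = 1)
    (c : H × H → Rˣ) (hc : IsMulCocycle₂ c) :
    ∃ x : H → Rˣ, ∀ g h, c (g, h) / (g • x h / x (g * h) * x g) ∈ unitFil I 1 := by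
  letI := quotAct I hI
  have hJ : I ≤ Ideal.jacobson ⊥ := IsAdicComplete.le_jacobson_bot I
  set π : Rˣ →* (R ⧸ I)ˣ := Units.map (Ideal.Quotient.mk I : R →* R ⧸ I) with hπ
  have hπsmul : ∀ (g : H) (u : Rˣ), π (g • u) = g • π u := fun g u => Units.ext rfl
  have hc' : IsMulCocycle₂ (fun p : H × H => π (c p)) := by
    intro g h j
    have := congrArg π (hc g h j)
    simpa only [map_mul, hπsmul] using this
  obtain ⟨y, hy⟩ := isMulCoboundary₂_units_of_finite (inertia_quot I hI hin) _ hc'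
  have hlift : ∀ g : H, ∃ u : Rˣ, π u = y g := by
    intro g
    obtain ⟨u, hu⟩ := exists_unit_lift I hJ (y g)
    exact ⟨u, Units.ext hu⟩
  choose x hx using hlift
  refine ⟨x, fun g h => ?_⟩
  rw [mem_unitFil_one_iff, ← hπ, map_div, map_mul, map_div, hπsmul, hx, hx, hx, hy g h]
  exact div_self' _

/-- **H²**: every `2`-cocycle with values in `Rˣ` is a coboundary. -/
theorem isMulCoboundary₂_of_complete [IsAdicComplete I R] [Finite (R ⧸ I)]
    (hI : ∀ (h : H) (x : R), x ∈ I → h • x ∈ I)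
    (hin : ∀ m : Ideal R, m.IsMaximal → ∀ h : H, (∀ x : R, h • x - x ∈ m) → h = 1)
    (c : H × H → Rˣ) (hc : IsMulCocycle₂ c) : IsMulCoboundary₂ c := by
  letI := Fintype.ofFinite H
  have hJ : I ≤ Ideal.jacobson ⊥ := IsAdicComplete.le_jacobson_bot I
  obtain ⟨b, hb⟩ := exists_trace_eq_one (H := H)
    (finite_maximal_of_finite_quotient I hJ) hin
  obtain ⟨x, -, hx⟩ := Fermat.Agent.S55.Local.H478.filtH2 H Rˣ (unitFil I)
    (unitFil_anti I) (fun j g u hu => smul_mem_unitFil I hI j g hu)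
    (unitFil_complete I) (unitFil_separated I)
    (fun j c hc hcj => by
      rcases Nat.eq_zero_or_pos j with rfl | hj
      · obtain ⟨x, hx⟩ := zero_step₂ I hI hin c hc
        exact ⟨x, fun g => mem_unitFil_zero I _, hx⟩
      · exact graded_step₂ I hJ hI b hb j hj c hc hcj)
    c hc (fun p => mem_unitFil_zero I _)
  exact ⟨x, hx⟩

end Complete

end Fermat.Agent.S55.G.SIndH237.H95

end
-- ===== PACK-END S55/G/SIndH237/H95/Complete.lean

-- ===== PACK-BEGIN S55/K/T3H397.lean
section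
/-
S55 moonshot — LAYER K, leaf K-T3 (helper397).

`h3IndMu_of : KummerSpec p S → H2DivESpec p S → H3TorsESpec p S → H3IndMuSpec p S`

Cochain-level proof (blueprint `coord/S55-K.md` §2, origin/helper4).
`M = Ind_V μ ⊂ E = Ind_V 𝔼`:  `c ∈ Z³_LC(M)`; `p·c = 0` ⇒ (GO2) `c = d b`, `b ∈ C²_LC(E)`;
`p·b ∈ Z²_LC(E)` ⇒ (GO1) `p·b = p·y + d a`; (KUM) `a = p·ã` with `ã`, `d ã` level-constant;
`b′ := b − y − d ã` is killed by `p`, hence comes from `C²_LC(M)`, and `d b′ = c`.
-/




set_option autoImplicit false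

noncomputable section

namespace Fermat.Agent.S55.K.H397

open groupCohomology Fermat.Agent.S55.PT Fermat.Agent.S55.Bridge Fermat.Agent.S55.K

/-! ### 1. Abstract part: a level system on a group `G` -/

section Abstract

variable {G : Type} [Group G] (L : LevelSys G)
variable {k : Type} [CommRing k] (E : Rep.{0, 0, 0} k G)

/-- `e` is fixed by some level. -/
def Sm (e : E) : Prop := ∃ U ∈ L.levels, ∀ s ∈ U, E.ρ s e = e

lemma sm_zero : Sm L E 0 := by
  obtain ⟨U, hU⟩ := L.nonempty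
  exact ⟨U, hU, fun s _ => map_zero _⟩

/-- Finitely many smooth elements are fixed by a common level. -/
lemma exists_common_level (T : Finset E) (hT : ∀ e ∈ T, Sm L E e) :
    ∃ W ∈ L.levels, ∀ e ∈ T, ∀ s ∈ W, E.ρ s e = e := by
  classical
  induction T using Finset.induction_on with
  | empty =>
    obtain ⟨U, hU⟩ := L.nonempty
    exact ⟨U, hU, by simp⟩
  | insert a T ha ih =>
    obtain ⟨W, hW, h⟩ := ih (fun e he => hT e (Finset.mem_insert_of_mem he))
    obtain ⟨U, hU, h'⟩ := hT a (Finset.mem_insert_self a T)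
    obtain ⟨W', hW', hle⟩ := L.directed U hU W hW
    refine ⟨W', hW', fun e he s hs => ?_⟩
    rcases Finset.mem_insert.1 he with rfl | he
    · exact h' s (hle hs).1
    · exact h e he s (hle hs).2

variable {L E}

/-- KEY REMARK (K-I3, degree 1): if `a` and `d a` are constant modulo a normal subgroup `U`,
then all values of `a` are `U`-invariant. -/
lemma values_invariant {U : Subgroup G} (hn : U.Normal) (a : G → E)
    (ha : ∀ g s, s ∈ U → a (g * s) = a g)
    (hda : ∀ g g' s s', s ∈ U → s' ∈ U →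
      (d₁₂ E).hom a (g * s, g' * s') = (d₁₂ E).hom a (g, g'))
    (s : G) (hs : s ∈ U) (g : G) : E.ρ s (a g) = a g := by
  have h1 := hda 1 g s 1 hs U.one_mem
  simp only [d₁₂_hom_apply, one_mul, mul_one, map_one, Module.End.one_apply] at h1
  have h2 : a (s * g) = a g := by
    have e : s * g = g * (g⁻¹ * s * g⁻¹⁻¹) := by group
    rw [e]
    exact ha g _ (hn.conj_mem s hs g⁻¹)
  have h3 : a s = a 1 := by simpa using ha 1 s hs
  rw [h2, h3] at h1
  have h4 : E.ρ s (a g) - a g = a g - a g := add_right_cancel h1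
  rw [sub_self, sub_eq_zero] at h4
  exact h4

/-- Lifting through multiplication by `p` (K-I4 for `p : E → E`). -/
lemma exists_root_cochain (hF : L.FiniteIndex) (p : ℕ)
    (hkum : ∀ x : E, Sm L E x → ∃ y : E, p • y = x ∧ Sm L E y)
    {U : Subgroup G} (hU : U ∈ L.levels) (a : G → E)
    (ha : ∀ g s, s ∈ U → a (g * s) = a g)
    (hsm : ∀ g, Sm L E (a g)) :
    ∃ a' : G → E, p • a' = a ∧ (∀ g s, s ∈ U → a' (g * s) = a' g) ∧
      ∃ W ∈ L.levels, ∀ s ∈ W, ∀ g, E.ρ s (a' g) = a' g := by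
  classical
  have hfi : U.FiniteIndex := hF U hU
  let _ : Fintype (G ⧸ U) := Subgroup.fintypeQuotientOfFiniteIndex
  choose r hr hr' using fun x : {x : E // Sm L E x} => hkum x.1 x.2
  let q : G ⧸ U → E := fun c => r ⟨a c.out, hsm _⟩
  refine ⟨fun g => q (g : G ⧸ U), ?_, ?_, ?_⟩
  · funext g
    simp only [Pi.smul_apply, q]
    rw [hr]
    obtain ⟨u, hu⟩ := QuotientGroup.mk_out_eq_mul U g
    simp only [hu]
    exact ha g u u.2
  · intro g s hs
    have e : ((g * s : G) : G ⧸ U) = (g : G ⧸ U) := by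
      rw [QuotientGroup.eq]
      simpa using U.inv_mem hs
    simp only [e]
  · obtain ⟨W, hW, h⟩ := exists_common_level L E (Finset.univ.image q) (by
      intro e he
      obtain ⟨c, -, rfl⟩ := Finset.mem_image.1 he
      exact hr' _)
    exact ⟨W, hW, fun s hs g => h _ (Finset.mem_image_of_mem _ (Finset.mem_univ _)) s hs⟩

/-- `d a` is level-constant if `a` is constant modulo a normal level and has values fixed by a
level. -/
lemma d12_isLC {U : Subgroup G} (hn : U.Normal) (hU : U ∈ L.levels) {W : Subgroup G}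
    (hW : W ∈ L.levels) (a : G → E) (ha : ∀ g s, s ∈ U → a (g * s) = a g)
    (hfix : ∀ s ∈ W, ∀ g, E.ρ s (a g) = a g) : L.IsLC₂ ((d₁₂ E).hom a) := by
  obtain ⟨W', hW', hle⟩ := L.directed U hU W hW
  refine ⟨W', hW', fun g g' s s' hs hs' => ?_⟩
  simp only [d₁₂_hom_apply]
  have e1 : a (g' * s') = a g' := ha _ _ (hle hs').1
  have e2 : a (g * s) = a g := ha _ _ (hle hs).1
  have e3 : a (g * s * (g' * s')) = a (g * g') := by
    have e : g * s * (g' * s') = g * g' * ((g'⁻¹ * s * g'⁻¹⁻¹) * s') := by group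
    rw [e]
    exact ha _ _ (U.mul_mem (hn.conj_mem s (hle hs).1 g'⁻¹) (hle hs').1)
  rw [e1, e2, e3, map_mul, Module.End.mul_apply, hfix s (hle hs).2]

end Abstract

section Main

variable {G : Type} [Group G] {L : LevelSys G}
variable {k k' : Type} [CommRing k] [CommRing k']
variable {M : Rep.{0, 0, 0} k G} {E : Rep.{0, 0, 0} k' G}

lemma d34_comp (ι : M →+ E) (heq : ∀ g m, ι (M.ρ g m) = E.ρ g (ι m)) (c : G × G × G → M) :
    d34 E (ι ∘ c) = ι ∘ d34 M c := by
  funext x
  simp only [d34, Function.comp_apply, map_add, map_sub, heq]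

lemma d23_comp (ι : M →+ E) (heq : ∀ g m, ι (M.ρ g m) = E.ρ g (ι m)) (b : G × G → M) :
    (d₂₃ E).hom (ι ∘ b) = ι ∘ (d₂₃ M).hom b := by
  funext x
  simp only [d₂₃_hom_apply, Function.comp_apply, map_add, map_sub, heq]

lemma d23_d12 (a : G → E) : (d₂₃ E).hom ((d₁₂ E).hom a) = 0 := by
  have h := LinearMap.congr_fun (congrArg ModuleCat.Hom.hom (d₁₂_comp_d₂₃ E)) a
  exact h

/-- **K-T3, abstract form.**  Let `ι : M → E` be an injective equivariant additive map whose
image is `E[p]`, and assume that the smooth part of `E` is `p`-divisible.  If `H²_L(E)` is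
`p`-divisible and `H³_L(E)[p] = 0`, then `H³_L(M) = 0`. -/
theorem h3Vanish_of (hN : L.NormalCofinal) (hF : L.FiniteIndex) (p : ℕ)
    (ι : M →+ E) (hinj : Function.Injective ι)
    (heq : ∀ g m, ι (M.ρ g m) = E.ρ g (ι m))
    (hpM : ∀ m : M, p • m = 0)
    (htors : ∀ e : E, p • e = 0 → ∃ m, ι m = e)
    (hkum : ∀ x : E, Sm L E x → ∃ y : E, p • y = x ∧ Sm L E y)
    (hdiv : H2Divisible L E p) (htv : H3TorsVanish L E p) : H3Vanish L M := by
  intro c hc hdc
  -- Step 1: `ι ∘ c = d b`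
  have hc' : IsLC₃ L (ι ∘ c) := by
    obtain ⟨U, hU, h⟩ := hc
    exact ⟨U, hU, fun g₁ g₂ g₃ s₁ s₂ s₃ h₁ h₂ h₃ => by
      simp only [Function.comp_apply, h g₁ g₂ g₃ s₁ s₂ s₃ h₁ h₂ h₃]⟩
  have hdc' : d34 E (ι ∘ c) = 0 := by
    rw [d34_comp ι heq, hdc]
    funext x
    exact map_zero ι
  have hpc : p • (ι ∘ c) = 0 := by
    funext x
    simp only [Pi.smul_apply, Function.comp_apply, Pi.zero_apply]
    rw [← map_nsmul, hpM, map_zero]
  obtain ⟨b, hb, hdb⟩ := htv (ι ∘ c) hc' hdc' ⟨0, (L.C2 E).zero_mem, by rw [map_zero, hpc]⟩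
  -- Step 2: `p b = p y + d a`
  have hpb : p • b ∈ L.Z2 E := by
    refine ⟨?_, nsmul_mem hb p⟩
    show (d₂₃ E).hom (p • b) = 0
    rw [map_nsmul, hdb, hpc]
  obtain ⟨y, hy, a, ha, hda⟩ := hdiv (p • b) hpb
  -- Step 3: `a = p a'`
  have hlc : L.IsLC₂ (p • b - p • y) := (L.C2 E).sub_mem (nsmul_mem hb p) (nsmul_mem hy.2 p)
  obtain ⟨U₁, hU₁, h₁⟩ := hlc
  obtain ⟨U₂, hU₂, h₂⟩ := ha
  obtain ⟨U₃, hU₃, hle₃⟩ := L.directed U₁ hU₁ U₂ hU₂
  obtain ⟨U, hU, hleU, hn⟩ := hN U₃ hU₃
  have haU : ∀ g s, s ∈ U → a (g * s) = a g := fun g s hs => h₂ g s (hle₃ (hleU hs)).2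
  have hdaU : ∀ g g' s s', s ∈ U → s' ∈ U →
      (d₁₂ E).hom a (g * s, g' * s') = (d₁₂ E).hom a (g, g') := by
    intro g g' s s' hs hs'
    rw [hda]
    exact h₁ g g' s s' (hle₃ (hleU hs)).1 (hle₃ (hleU hs')).1
  have hinv := values_invariant hn a haU hdaU
  obtain ⟨a', hpa', ha'U, W, hW, hfix⟩ := exists_root_cochain hF p hkum hU a haU
    (fun g => ⟨U, hU, fun s hs => hinv s hs g⟩)
  have hda' : L.IsLC₂ ((d₁₂ E).hom a') := d12_isLC hn hU hW a' ha'U hfix
  -- Step 4: `b' = b - y - d a'`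
  obtain ⟨b', hb'def⟩ : ∃ b' : G × G → E, b' = b - y - (d₁₂ E).hom a' := ⟨_, rfl⟩
  have hb'C : b' ∈ L.C2 E := by
    rw [hb'def]
    exact (L.C2 E).sub_mem ((L.C2 E).sub_mem hb hy.2) hda'
  have hpb' : p • b' = 0 := by
    rw [hb'def, smul_sub, smul_sub, ← map_nsmul, hpa', hda, sub_self]
  have hdb' : (d₂₃ E).hom b' = ι ∘ c := by
    have h1 : (d₂₃ E).hom y = 0 := hy.1
    rw [hb'def, map_sub, map_sub, hdb, h1, d23_d12, sub_zero, sub_zero]
  have hval : ∀ x, ∃ m, ι m = b' x := fun x => htors _ (by simpa using congrFun hpb' x)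
  choose b'' hb'' using hval
  have hιb : ι ∘ b'' = b' := funext hb''
  refine ⟨b'', ?_, ?_⟩
  · obtain ⟨W', hW', h⟩ := hb'C
    refine ⟨W', hW', fun g g' s s' hs hs' => hinj ?_⟩
    rw [hb'', hb'']
    exact h g g' s s' hs hs'
  · funext x
    apply hinj
    have h := congrFun (d23_comp ι heq b'') x
    rw [hιb, hdb'] at h
    exact h.symm

end Main

/-! ### 2. Induced modules -/

section Ind

variable {G : Type} [Group G] {L : LevelSys G}
variable {k : Type} [CommRing k] (A : Rep.{0, 0, 0} k G)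

lemma smul_coset_of_normal {U V : Subgroup G} (hn : U.Normal) (hle : U ≤ V) (s : G)
    (hs : s ∈ U) (c : G ⧸ V) : s • c = c := by
  induction c using QuotientGroup.induction_on with
  | H g =>
    rw [MulAction.Quotient.smul_mk, QuotientGroup.eq]
    have h : (s • g)⁻¹ * g = g⁻¹ * s⁻¹ * g⁻¹⁻¹ := by
      rw [smul_eq_mul]
      group
    rw [h]
    exact hle (hn.conj_mem _ (U.inv_mem hs) _)

lemma indρ_of_trivial (V : Subgroup G) (s : G) (h : ∀ c : G ⧸ V, s • c = c)
    (x : (G ⧸ V) →₀ A) :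
    indρ (MonoidHom.id G) V A s x = Finsupp.mapRange (A.ρ s) (map_zero _) x := by
  have e : (fun c : G ⧸ V => (MonoidHom.id G) s • c) = id := funext h
  simp only [indρ, MonoidHom.coe_mk, OneHom.coe_mk, LinearMap.coe_comp, Function.comp_apply,
    Finsupp.mapRange.linearMap_apply, Finsupp.lmapDomain_apply, e, Finsupp.mapDomain_id]

/-- The smooth part of `Ind_V A` is `p`-divisible if the smooth part of `A` is. -/
lemma kummer_ind (hN : L.NormalCofinal) (p : ℕ)
    (hkum : ∀ x : A, Sm L A x → ∃ y : A, p • y = x ∧ Sm L A y)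
    {V : Subgroup G} (hV : V ∈ L.levels) (x : indG V A) (hx : Sm L (indG V A) x) :
    ∃ y : indG V A, p • y = x ∧ Sm L (indG V A) y := by
  classical
  obtain ⟨U, hU, hx⟩ := hx
  obtain ⟨U₁, hU₁, hle₁⟩ := L.directed U hU V hV
  obtain ⟨U', hU', hle', hn⟩ := hN U₁ hU₁
  have htriv : ∀ s ∈ U', ∀ c : G ⧸ V, s • c = c := fun s hs c =>
    smul_coset_of_normal hn (fun t ht => (hle₁ (hle' ht)).2) s hs c
  obtain ⟨x', hx'⟩ : ∃ x' : (G ⧸ V) →₀ A, x' = x := ⟨x, rfl⟩
  have hcoef : ∀ c, Sm L A (x' c) := fun c => ⟨U', hU', fun s hs => by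
    have h := hx s (hle₁ (hle' hs)).1
    have h' : indρ (MonoidHom.id G) V A s x' = x' := by rw [hx']; exact h
    rw [indρ_of_trivial A V s (htriv s hs)] at h'
    have h'' := DFunLike.congr_fun h' c
    simpa using h''⟩
  choose r hr hr' using fun z : {z : A // Sm L A z} => hkum z.1 z.2
  let y : (G ⧸ V) →₀ A := Finsupp.onFinset x'.support
    (fun c => if x' c = 0 then 0 else r ⟨x' c, hcoef c⟩) (by
      intro c hc
      rw [Finsupp.mem_support_iff]
      intro h0
      exact hc (if_pos h0))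
  have hy : ∀ c, y c = if x' c = 0 then 0 else r ⟨x' c, hcoef c⟩ := fun c => rfl
  refine ⟨y, ?_, ?_⟩
  · rw [← hx']
    refine Finsupp.ext fun c => ?_
    show p • y c = x' c
    rw [hy]
    split_ifs with h0
    · rw [h0, smul_zero]
    · exact hr _
  · obtain ⟨W, hW, hfix⟩ := exists_common_level L A
      (x'.support.image (fun c => r ⟨x' c, hcoef c⟩)) (by
        intro e he
        obtain ⟨c, -, rfl⟩ := Finset.mem_image.1 he
        exact hr' _)
    obtain ⟨W', hW', hleW⟩ := L.directed U' hU' W hW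
    refine ⟨W', hW', fun s hs => ?_⟩
    show indρ (MonoidHom.id G) V A s y = y
    rw [indρ_of_trivial A V s (htriv s (hleW hs).1)]
    refine Finsupp.ext fun c => ?_
    rw [Finsupp.mapRange_apply, hy]
    split_ifs with h0
    · exact map_zero _
    · exact hfix _ (Finset.mem_image_of_mem _ (Finsupp.mem_support_iff.2 h0)) s (hleW hs).2

end Ind

/-! ### 3. The Kummer sequence `0 → μ_p → 𝔼 → 𝔼` -/

section Kummer

variable (p : ℕ) [Fact p.Prime] (S : Finset Nat.Primes) (V : Subgroup _root_.Fermat.Agent.S55.PT.GQ)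

lemma muToE_equivariant (g : _root_.Fermat.Agent.S55.PT.GQ) (m : muP p) :
    muToE p S ((muP p).ρ g m) = (sUnits S).ρ g (muToE p S m) := by
  apply Subtype.ext
  show Additive.ofMul ((MuP.root (p := p) (muPRep p g m) : rootsOfUnity p Qbar) : Qbarˣ)
    = Additive.ofMul (g • ((MuP.root (p := p) m : rootsOfUnity p Qbar) : Qbarˣ))
  congr 1
  apply Units.ext
  exact muPRep_apply p g m

lemma muToE_tors (x : sUnits S) (hx : p • x = 0) : ∃ m : muP p, muToE p S m = x := by
  obtain ⟨u, hu⟩ := x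
  have h : (Additive.toMul u) ^ p = 1 := by
    have h1 := congrArg Subtype.val hx
    exact h1
  exact ⟨MuP.of p ⟨Additive.toMul u, (mem_rootsOfUnity p _).2 h⟩, Subtype.ext rfl⟩

lemma indMuToE_injective : Function.Injective (indMuToE p S V) :=
  Finsupp.mapRange_injective (muToE p S) (map_zero _) (muToE_injective p S)

lemma indMuToE_equivariant (g : _root_.Fermat.Agent.S55.PT.GQ) (m : indG V (muP p)) :
    indMuToE p S V ((indG V (muP p)).ρ g m) = (indG V (sUnits S)).ρ g (indMuToE p S V m) := by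
  obtain ⟨m', hm'⟩ : ∃ m' : (_root_.Fermat.Agent.S55.PT.GQ ⧸ V) →₀ muP p, m' = m := ⟨m, rfl⟩
  rw [← hm']
  show Finsupp.mapRange (muToE p S) (map_zero _)
      (Finsupp.mapDomain (fun c : _root_.Fermat.Agent.S55.PT.GQ ⧸ V => g • c)
        (Finsupp.mapRange ((muP p).ρ g) (map_zero _) m'))
    = Finsupp.mapDomain (fun c : _root_.Fermat.Agent.S55.PT.GQ ⧸ V => g • c)
        (Finsupp.mapRange ((sUnits S).ρ g) (map_zero _)
          (Finsupp.mapRange (muToE p S) (map_zero _) m'))
  rw [← Finsupp.mapDomain_mapRange _ _ _ _ (map_add (muToE p S))]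
  congr 1
  refine Finsupp.ext fun c => ?_
  rw [Finsupp.mapRange_apply, Finsupp.mapRange_apply, Finsupp.mapRange_apply,
    Finsupp.mapRange_apply]
  exact muToE_equivariant p S g (m' c)

lemma indMuToE_tors (e : indG V (sUnits S)) (he : p • e = 0) :
    ∃ m, indMuToE p S V m = e := by
  classical
  obtain ⟨e', he'⟩ : ∃ e' : (_root_.Fermat.Agent.S55.PT.GQ ⧸ V) →₀ sUnits S, e' = e := ⟨e, rfl⟩
  have h : ∀ c, ∃ m : muP p, muToE p S m = e' c := fun c => muToE_tors p S _ (by
    have h1 : p • e' = 0 := by rw [he']; exact he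
    have h2 := DFunLike.congr_fun h1 c
    simpa using h2)
  choose f hf using h
  refine ⟨Finsupp.onFinset e'.support f ?_, ?_⟩
  · intro c hc
    rw [Finsupp.mem_support_iff]
    intro h0
    apply hc
    apply muToE_injective p S
    rw [hf, h0, map_zero]
  · rw [← he']
    refine Finsupp.ext fun c => ?_
    show muToE p S (f c) = e' c
    exact hf c

lemma ind_nsmul_p (m : indG V (muP p)) : p • m = 0 := by
  obtain ⟨m', hm'⟩ : ∃ m' : (_root_.Fermat.Agent.S55.PT.GQ ⧸ V) →₀ MuP p, m' = m := ⟨m, rfl⟩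
  rw [← hm']
  refine Finsupp.ext fun c => ?_
  show p • m' c = 0
  exact MuP.nsmul_p _

end Kummer

/-! ### 4. K-T3 -/

section Final

variable (p : ℕ) [Fact p.Prime] (S : Finset Nat.Primes)

/-- **Leaf K-T3.** `H³_S(Ind_V μ_p) = 0` from KUM, GO1 and GO2. -/
theorem h3IndMu_of (hK : KummerSpec p S) (h2 : H2DivESpec p S) (h3 : H3TorsESpec p S) :
    H3IndMuSpec p S := by
  intro hp2 hpS V hV
  have hN : (globalLevels S).NormalCofinal := globalLevels_normal_cofinal724 S
  have hF : (globalLevels S).FiniteIndex := H424.globalFiniteIndex S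
  exact h3Vanish_of hN hF p (indMuToE p S V) (indMuToE_injective p S V)
    (indMuToE_equivariant p S V) (ind_nsmul_p p V) (indMuToE_tors p S V)
    (kummer_ind (sUnits S) hN p (fun x hx => hK hpS x hx) hV)
    (h2 hp2 hpS V hV) (h3 hp2 hpS V hV)

end Final

end Fermat.Agent.S55.K.H397

end

end
-- ===== PACK-END S55/K/T3H397.lean

-- ===== PACK-BEGIN S55/KG/Defs.lean
section





/-!
# S55, layer KG (global Kummer hypotheses): the concrete towers          (architect: helper183)

* `towerQ S`   : the tower of all levels, `G L = Gal(F/ℚ)`;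
* `towerU U S` : the tower of a subgroup `U ≤ G_ℚ`, `G L = HU U L` = image of `U` in `Gal(F/ℚ)`
  (`= Gal(F/F ∩ K)`, `K` the fixed field of `U`);
* `resU U X`   : restriction of a system of modules over `towerQ S` to `towerU U S`;
* the systems `sysE` (`S`-units), `sysJ` (`∏_{q ∈ S} J_q`), `sysC D` (class modules of a tower
  datum), `sysC1 D` (`C' = im(J → C)`) and the morphisms `E → J → C' → C`.

No `sorry`.  Objects at finite level are those of `E1/Lim/Obj.lean` (helper474).
-/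

set_option autoImplicit false

open CategoryTheory groupCohomology

namespace Fermat.Agent.S55.KG

open Fermat.Agent.S55.Tow Fermat.Agent.S55.E1.Lim

noncomputable section

variable {S : Finset Nat.Primes}

/-! ## Towers -/

lemma proj_proj {L L' L'' : Level S} (h : L ≤ L') (h' : L' ≤ L'') (g : L''.Gal) :
    Level.proj h (Level.proj h' g) = Level.proj (h.trans h') g := by
  induction g using QuotientGroup.induction_on with
  | H g => rfl

/-- The tower of all levels: `G L = Gal(F/ℚ)`. -/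
@[reducible] def towerQ (S : Finset Nat.Primes) : GTower where
  ι := Level S
  pre := inferInstance
  G L := L.Gal
  grp _ := inferInstance
  π h := Level.proj h
  π_trans h h' g := proj_proj h h' g

/-- The image of `U ≤ G_ℚ` in `Gal(F/ℚ)`. -/
def HU (U : Subgroup GQ) (L : Level S) : Subgroup L.Gal := U.map (QuotientGroup.mk' L.U)

lemma proj_mem_HU (U : Subgroup GQ) {L L' : Level S} (h : L ≤ L') {x : L'.Gal}
    (hx : x ∈ HU U L') : Level.proj h x ∈ HU U L := by
  obtain ⟨u, hu, rfl⟩ := hx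
  exact ⟨u, hu, rfl⟩

/-- The projection `HU U L' → HU U L` for `L ≤ L'`. -/
def projU (U : Subgroup GQ) {L L' : Level S} (h : L ≤ L') : ↥(HU U L') →* ↥(HU U L) :=
  ((Level.proj h).comp (HU U L').subtype).codRestrict (HU U L) (fun x => proj_mem_HU U h x.2)

@[simp] lemma projU_coe (U : Subgroup GQ) {L L' : Level S} (h : L ≤ L') (x : ↥(HU U L')) :
    ((projU U h x : ↥(HU U L)) : L.Gal) = Level.proj h (x : L'.Gal) := rfl

/-- The tower of a subgroup `U ≤ G_ℚ`: `G L = HU U L`. -/
@[reducible] def towerU (U : Subgroup GQ) (S : Finset Nat.Primes) : GTower where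
  ι := Level S
  pre := inferInstance
  G L := ↥(HU U L)
  grp _ := inferInstance
  π h := projU U h
  π_trans h h' g := Subtype.ext (proj_proj h h' (g : _))

lemma towerQ_directed (S : Finset Nat.Primes) : (towerQ S).Directed := fun L L' =>
  ⟨Fermat.Agent.S55.E1.H603.levelSup L L', Fermat.Agent.S55.E1.H603.le_levelSup_left L L',
    Fermat.Agent.S55.E1.H603.le_levelSup_right L L'⟩

lemma towerU_directed (U : Subgroup GQ) (S : Finset Nat.Primes) : (towerU U S).Directed :=
  fun L L' =>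
  ⟨Fermat.Agent.S55.E1.H603.levelSup L L', Fermat.Agent.S55.E1.H603.le_levelSup_left L L',
    Fermat.Agent.S55.E1.H603.le_levelSup_right L L'⟩

instance towerU_finite (U : Subgroup GQ) (L : Level S) : Finite ((towerU U S).G L) :=
  inferInstanceAs (Finite ↥(HU U L))

/-! ## Restriction of systems to the tower of `U` -/

/-- Restriction of a system of modules over `towerQ S` to `towerU U S`. -/
def resU (U : Subgroup GQ) (X : (towerQ S).Mod) : (towerU U S).Mod where
  M L := Rep.res (HU U L).subtype (X.M L)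
  t {L L'} h := semiOfAdd (projU U h) (A := Rep.res (HU U L).subtype (X.M L))
    (B := Rep.res (HU U L').subtype (X.M L'))
    (AddMonoidHomClass.toAddMonoidHom (X.t h).hom)
    (fun g a => Rep.hom_comm_apply (X.t h) (g : L'.Gal) a)
  t_trans h h' x := X.t_trans h h' x

/-- Restriction of a morphism of systems. -/
def resUHom (U : Subgroup GQ) {X Y : (towerQ S).Mod} (φ : GTower.Mod.Hom X Y) :
    GTower.Mod.Hom (resU U X) (resU U Y) where
  f L := (Rep.resFunctor (HU U L).subtype).map (φ.f L)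
  comm h x := φ.comm h x

/-! ## The systems `E`, `J`, `C'`, `C` -/

/-- The `S`-units `E(F)`. -/
def sysE (S : Finset Nat.Primes) : (towerQ S).Mod where
  M L := sUnits L
  t h := trS h
  t_trans _ _ _ := rfl

/-- The semi-local units `J(F) = ∏_{q ∈ S} J_q(F)`. -/
def sysJ (S : Finset Nat.Primes) : (towerQ S).Mod where
  M L := Jtot L
  t h := trJtot h
  t_trans h h' x := by
    apply piRep_ext
    intro q
    apply Level.J_ext
    intro g
    show Level.inclLoc h' q.1 (Level.inclLoc h q.1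
        ((piTo x q).1 (Level.proj h (Level.proj h' g)))) =
      Level.inclLoc (h.trans h') q.1 ((piTo x q).1 (Level.proj (h.trans h') g))
    rw [proj_proj]
    rfl

/-- The diagonal `E → J`. -/
def homDiag (S : Finset Nat.Primes) : GTower.Mod.Hom (sysE S) (sysJ S) where
  f L := diagTot L
  comm {L L'} h x := by
    apply piRep_ext
    intro q
    apply Level.J_ext
    intro g
    induction g using QuotientGroup.induction_on with
    | H g => rfl

/-- Transitivity of the transition maps of a tower datum (GD7b). -/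
def TrTrans (D : TowerDatum S) : Prop :=
  ∀ {L L' L'' : Level S} (h : L ≤ L') (h' : L' ≤ L'') (c : (D.C L).V),
    (D.tr h').hom ((D.tr h).hom c) = (D.tr (h.trans h')).hom c

/-- The class modules `C(F)` of a tower datum. -/
def sysC (D : TowerDatum S) (h7b : TrTrans D) : (towerQ S).Mod where
  M L := D.C L
  t h := D.tr h
  t_trans h h' c := h7b h h' c

/-- `C'(F) = im(J(F) → C(F))`. -/
def sysC1 (D : TowerDatum S) (h7 : TrCompat D) (h7b : TrTrans D) : (towerQ S).Mod where
  M L := C1 D L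
  t h := trC1 h7 h
  t_trans h h' c := inclC1_injective D _ (h7b h h' ((inclC1 D _).hom c))

/-- `J → C'`. -/
def homJC1 (D : TowerDatum S) (h7 : TrCompat D) (h7b : TrTrans D) :
    GTower.Mod.Hom (sysJ S) (sysC1 D h7 h7b) where
  f L := jC1 D L
  comm h x := trC1_jC1 h7 h x

/-- `C' → C`. -/
def homIncl (D : TowerDatum S) (h7 : TrCompat D) (h7b : TrTrans D) :
    GTower.Mod.Hom (sysC1 D h7 h7b) (sysC D h7b) where
  f L := inclC1 D L
  comm h c := (inclC1_trC1 h7 h c).symm

/-- `J → C`. -/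
def homJC (D : TowerDatum S) (h7 : TrCompat D) (h7b : TrTrans D) :
    GTower.Mod.Hom (sysJ S) (sysC D h7b) :=
  (homJC1 D h7 h7b).comp (homIncl D h7 h7b)

lemma homJC_f (D : TowerDatum S) (h7 : TrCompat D) (h7b : TrTrans D) (L : Level S) :
    (homJC D h7 h7b).f L = jTot D L := rfl

lemma IsGoodMu.trCompat {D : TowerDatum S} {p : ℕ} (hD : D.IsGoodMu p) : TrCompat D :=
  fun h q hq x => hD.gd7a h q hq x

lemma IsGoodMu.trTrans {D : TowerDatum S} {p : ℕ} (hD : D.IsGoodMu p) : TrTrans D :=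
  fun h h' c => hD.gd7b h h' c

lemma IsGoodMu.kerDiag {D : TowerDatum S} {p : ℕ} (hD : D.IsGoodMu p) : KerDiag D :=
  fun L x => hD.gd4 L x

/-- `U` is open for the `S`-topology: it contains `Gal(ℚ̄/F)` for some level `F`. -/
def IsOpenS (S : Finset Nat.Primes) (U : Subgroup GQ) : Prop := ∃ L : Level S, L.U ≤ U

end

end Fermat.Agent.S55.KG

end
-- ===== PACK-END S55/KG/Defs.lean

-- ===== PACK-BEGIN S55/K/GO3H535/H371/Unram.lean
section



/-!
# S55 / layer K / GO3-CAPDIV (helper371), part 2: orders at unramified places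

`F/ℚ` finite Galois, unramified outside `S`, `A` a place of `ℚ̄` over `q ∉ S`, `w = A ∩ 𝓞 F`.
Then `q` is a uniformiser at `w`, hence for `x ∈ F` with `w.valuation x = exp (-n)` the element
`x / q ^ n` is a unit of `A`: `HasOrd A q x n`.
-/

set_option autoImplicit false
set_option linter.unusedSectionVars false
set_option linter.style.haveILetI false

noncomputable section

namespace Fermat.Agent.S55.K.GO3H535.H371

open Fermat.Agent.S55.PT Fermat.Agent.S55.Bridge Fermat.Agent.S55.K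
open NumberField IsDedekindDomain
open scoped Pointwise

attribute [local instance] isAlgebraic_Qbar isGalois_Qbar

section

variable (F : IntermediateField ℚ (AlgebraicClosure ℚ)) [FiniteDimensional ℚ F] [IsGalois ℚ F]

attribute [local instance] H594.numberField_of_finite

/-- A prime number of ramification index `1` in `𝓞 F` is a uniformiser at every prime of `𝓞 F`
containing it. -/
theorem intValuation_natCast_of_ramificationIdxIn {q : ℕ} (hq : q.Prime)
    (he : (Ideal.span {(q : ℤ)}).ramificationIdxIn (𝓞 F) = 1)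
    (w : HeightOneSpectrum (𝓞 F)) (hw : (q : 𝓞 F) ∈ w.asIdeal) :
    w.intValuation (q : 𝓞 F) = WithZero.exp (-1 : ℤ) := by
  haveI hgal : IsGaloisGroup (F ≃ₐ[ℚ] F) ℤ (𝓞 F) :=
    IsGaloisGroup.of_isFractionRing (F ≃ₐ[ℚ] F) ℤ (𝓞 F) ℚ F
  haveI hmax : (Ideal.span {(q : ℤ)}).IsMaximal :=
    PrincipalIdealRing.isMaximal_of_irreducible (Nat.prime_iff_prime_int.mp hq).irreducible
  haveI hprime : (Ideal.span {(q : ℤ)}).IsPrime := hmax.isPrime
  haveI := w.isPrime
  haveI := H594.liesOver_span_of_natCast_mem F hq w.asIdeal hw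
  have hq0 : (q : 𝓞 F) ≠ 0 := by
    exact_mod_cast hq.ne_zero
  have hmap : (Ideal.span {(q : ℤ)}).map (algebraMap ℤ (𝓞 F)) = Ideal.span {(q : 𝓞 F)} := by
    rw [Ideal.map_span, Set.image_singleton]
    simp
  have hmap0 : (Ideal.span {(q : ℤ)}).map (algebraMap ℤ (𝓞 F)) ≠ ⊥ := by
    rw [hmap, Ne, Ideal.span_singleton_eq_bot]
    exact hq0
  have h1 := Ideal.ramificationIdxIn_eq_ramificationIdx (Ideal.span {(q : ℤ)}) w.asIdeal
    (F ≃ₐ[ℚ] F)
  rw [he] at h1
  have h2 := Ideal.IsDedekindDomain.ramificationIdx_eq_normalizedFactors_count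
    (Ideal.span {(q : ℤ)}) w.asIdeal hmap0
  rw [← h1, hmap] at h2
  have hsp : (Ideal.span {(q : 𝓞 F)} : Ideal (𝓞 F)) ≠ 0 := by
    rw [Ne, Ideal.zero_eq_bot, Ideal.span_singleton_eq_bot]
    exact hq0
  rw [w.intValuation_if_neg hq0, Ideal.count_associates_factors_eq hsp w.isPrime w.ne_bot, ← h2]
  rfl

variable {S : Finset Nat.Primes}

/-- At a place `A` over `q ∉ S`, the prime `q` is a uniformiser of the level `F`. -/
theorem valuation_natCast_placePrime (hF : F.IsUnramifiedOutside S) {q : Nat.Primes}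
    (hq : q ∉ S) (A : ValuationSubring (AlgebraicClosure ℚ)) (hA : A.LiesOverPrime (q : ℕ)) :
    (placePrime F A q.2 hA).valuation F ((q : ℕ) : F) = WithZero.exp (-1 : ℤ) := by
  have he := (H594.isUnramifiedOutside_iff_ramificationIdxIn F S).1 hF q hq
  have hw : ((q : ℕ) : 𝓞 F) ∈ (placePrime F A q.2 hA).asIdeal :=
    H594.natCast_mem_primeBelowF F A hA
  have h := intValuation_natCast_of_ramificationIdxIn F q.2 he (placePrime F A q.2 hA) hw
  rw [← h, ← HeightOneSpectrum.valuation_of_algebraMap (K := F)]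
  simp

/-- **Orders at unramified places.**  If `x ∈ F` has valuation `exp (-n)` at the prime of `F`
below `A`, then `x` has order `n` at `A`. -/
theorem hasOrd_of_valuation_eq (hF : F.IsUnramifiedOutside S) {q : Nat.Primes}
    (hq : q ∉ S) (A : ValuationSubring (AlgebraicClosure ℚ)) (hA : A.LiesOverPrime (q : ℕ))
    (x : F) (n : ℤ) (hx : (placePrime F A q.2 hA).valuation F x = WithZero.exp (-n)) :
    HasOrd A (q : ℕ) (x : AlgebraicClosure ℚ) n := by
  have hq0 : ((q : ℕ) : F) ≠ 0 := by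
    exact_mod_cast q.2.ne_zero
  have hx0 : x ≠ 0 := by
    rintro rfl
    rw [map_zero] at hx
    exact WithZero.exp_ne_zero.symm hx
  have hy0 : x / ((q : ℕ) : F) ^ n ≠ 0 := div_ne_zero hx0 (zpow_ne_zero n hq0)
  have hval : (placePrime F A q.2 hA).valuation F (x / ((q : ℕ) : F) ^ n) = 1 := by
    rw [map_div₀, map_zpow₀, valuation_natCast_placePrime F hF hq A hA, hx, ← WithZero.exp_zsmul,
      smul_eq_mul, mul_neg, mul_one]
    exact div_self WithZero.exp_ne_zero
  have h := (unit_iff_valuation_eq_one F A q.2 hA (Units.mk0 _ hy0)).2 hval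
  rw [hasOrd_iff_unitAt q.2.ne_zero]
  have hcoe : (((Units.mk0 _ hy0 : Fˣ) : F) : AlgebraicClosure ℚ) =
      (x : AlgebraicClosure ℚ) / ((q : ℕ) : AlgebraicClosure ℚ) ^ n := by
    show algebraMap F (AlgebraicClosure ℚ) (x / ((q : ℕ) : F) ^ n) = _
    rw [map_div₀, map_zpow₀, map_natCast]
    rfl
  have hne : (x : AlgebraicClosure ℚ) / ((q : ℕ) : AlgebraicClosure ℚ) ^ n ≠ 0 := by
    rw [← hcoe]
    simpa using hy0
  rw [unitAt_iff_mem hne, ← hcoe]
  refine ⟨h.1, ?_⟩
  have := h.2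
  simpa using this

/-- Every nonzero element of a Galois level has an order at every place outside `S`. -/
theorem exists_hasOrd_of_mem (hF : F.IsUnramifiedOutside S) {q : Nat.Primes}
    (hq : q ∉ S) (A : ValuationSubring (AlgebraicClosure ℚ)) (hA : A.LiesOverPrime (q : ℕ))
    (x : F) (hx : x ≠ 0) : ∃ n : ℤ, HasOrd A (q : ℕ) (x : AlgebraicClosure ℚ) n := by
  have hv : (placePrime F A q.2 hA).valuation F x ≠ 0 := (Valuation.ne_zero_iff _).2 hx
  refine ⟨-WithZero.log ((placePrime F A q.2 hA).valuation F x),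
    hasOrd_of_valuation_eq F hF hq A hA x _ ?_⟩
  rw [neg_neg, WithZero.exp_log hv]

end

end Fermat.Agent.S55.K.GO3H535.H371

end
end
-- ===== PACK-END S55/K/GO3H535/H371/Unram.lean

-- ===== PACK-BEGIN S55/PT/BridgeH724.lean
section





/-!
# S55 / layer D, leaf D-B : `BridgeSpec`   (helper724)

Port of `PT/BridgeSha724.lean` to the frozen base `PT/{Levels,…,Spec}.lean` of helper835.

Global group `G_ℚ` with the levels `globalLevels S`; local groups `Gl q`, `q ∈ S`, with the
levels `localLevels q` and the Prelude maps `rl q`.  For a coefficient field `K` with `2 ≠ 0`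
(so that the archimedean place does not contribute: `Bridge/Archimedean.lean`):

* `h2GlobalEquiv : (globalLevels S).H2 M ≃ₗ[K] continuousH2S S M`;
* `sha2Equiv : Sha2 (hrl S) M ≃ₗ[K] sha₂ S M`;
* `toH1 : (globalLevels S).H1 A →ₗ[K] H1 A` (injective, range `continuousH1S S A`);
* `sha1Equiv : Sha1 (hrl S) A ≃ₗ[K] sha₁ S A`;
* `s55_of_sha2_equiv_dual_sha1` : the conclusion of S55 from
  `Sha2 M ≃ₗ Dual (Sha1 M′)` (the output of Theorem D);
* `isUSmooth_of_s55_hyps` : `M` and `M′` are uniformly smooth under the hypotheses of S55;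
* `bridge : BridgeSpec p S` : S55 from Theorem D.
-/

set_option autoImplicit false

noncomputable section

namespace Fermat.Agent.S55.PT.H724

open groupCohomology ExtCitation

variable (S : Finset Nat.Primes)

variable {K : Type} [Field K] (M : Rep.{0, 0, 0} K GQ)

/-! ### Degree 2 -/

lemma C1_globalLevels_eq : (globalLevels S).C1 M = levelCochainsS₁ S M := by
  ext f
  exact isLC₁_globalLevels_iff S f

lemma C2_globalLevels_eq : (globalLevels S).C2 M = levelCochainsS₂ S M := by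
  ext f
  exact isLC₂_globalLevels_iff S f

lemma Z2_globalLevels_eq : (globalLevels S).Z2 M = levelCocyclesS₂ S M := by
  unfold LevelSys.Z2 levelCocyclesS₂
  rw [C2_globalLevels_eq]

lemma B2_globalLevels_eq : (globalLevels S).B2 M = levelCoboundariesS₂ S M := by
  unfold LevelSys.B2 levelCoboundariesS₂
  rw [C1_globalLevels_eq]

/-- `PT`'s global `H²` is the Prelude's `continuousH2S`. -/
def h2GlobalEquiv : (globalLevels S).H2 M ≃ₗ[K] continuousH2S S M :=
  Submodule.Quotient.equiv (((globalLevels S).B2 M).comap ((globalLevels S).Z2 M).subtype)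
    ((levelCoboundariesS₂ S M).comap (levelCocyclesS₂ S M).subtype)
    (LinearEquiv.ofEq _ _ (Z2_globalLevels_eq S M)) (by
      ext x
      simp only [Submodule.mem_map, Submodule.mem_comap, Submodule.subtype_apply]
      constructor
      · rintro ⟨y, hy, rfl⟩
        rw [B2_globalLevels_eq] at hy
        exact hy
      · intro hx
        refine ⟨(LinearEquiv.ofEq _ _ (Z2_globalLevels_eq S M)).symm x, ?_,
          LinearEquiv.apply_symm_apply _ x⟩
        rw [B2_globalLevels_eq]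
        exact hx)

lemma h2GlobalEquiv_mk (z : ↥((globalLevels S).Z2 M)) :
    h2GlobalEquiv S M ((globalLevels S).H2π M z) =
      continuousH2Sπ S M (LinearEquiv.ofEq _ _ (Z2_globalLevels_eq S M) z) := rfl

/-- Membership in `Sha2` on representatives. -/
lemma H2π_mem_Sha2_iff (z : ↥((globalLevels S).Z2 M)) :
    (globalLevels S).H2π M z ∈ Sha2 (hrl S) M ↔
      ∀ q : ↥S, ∃ c : primeLocalGaloisGroup q.1 → M,
        IsLevelConstant₁ (primeLocalToGlobal q.1) c ∧
        ∀ h h' : primeLocalGaloisGroup q.1,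
          M.ρ (primeLocalToGlobal q.1 h) (c h') - c (h * h') + c h
          = (z : GQ × GQ → M) (primeLocalToGlobal q.1 h, primeLocalToGlobal q.1 h') := by
  rw [LinearMap.mem_ker]
  constructor
  · intro h q
    have hq : resH2 (hrl S q) M ((globalLevels S).H2π M z) = 0 := congrFun h q
    rw [resH2_mk, LevelSys.H2π_eq_zero_iff] at hq
    obtain ⟨c, hc, hd⟩ := hq
    refine ⟨c, (isLC₁_pullbackLevels_iff (rl q.1) c).1 hc, fun h h' => ?_⟩
    have := congrFun hd (h, h')
    rw [d₁₂_hom_apply] at this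
    exact this
  · intro h
    funext q
    show resH2 (hrl S q) M ((globalLevels S).H2π M z) = 0
    rw [resH2_mk, LevelSys.H2π_eq_zero_iff]
    obtain ⟨c, hc, hd⟩ := h q
    refine ⟨c, (isLC₁_pullbackLevels_iff (rl q.1) c).2 hc, ?_⟩
    funext ⟨h, h'⟩
    rw [d₁₂_hom_apply]
    exact hd h h'

variable (h2 : (2 : K) ≠ 0)

include h2 in
lemma map_Sha2_eq :
    (Sha2 (hrl S) M).map (h2GlobalEquiv S M : (globalLevels S).H2 M →ₗ[K] continuousH2S S M)
      = sha₂ S M := by
  ext y
  simp only [Submodule.mem_map]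
  constructor
  · rintro ⟨x, hx, rfl⟩
    obtain ⟨z, rfl⟩ := (globalLevels S).H2π_surjective M x
    rw [LinearEquiv.coe_coe, h2GlobalEquiv_mk,
      Fermat.Agent.S55.Bridge.mem_sha₂_mk_iff S h2]
    exact (H2π_mem_Sha2_iff S M z).1 hx
  · intro hy
    obtain ⟨f, rfl⟩ := Submodule.mkQ_surjective _ y
    refine ⟨(globalLevels S).H2π M
      ((LinearEquiv.ofEq _ _ (Z2_globalLevels_eq S M)).symm f), ?_, ?_⟩
    · rw [H2π_mem_Sha2_iff]
      exact (Fermat.Agent.S55.Bridge.mem_sha₂_mk_iff S h2 M f).1 hy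
    · rw [LinearEquiv.coe_coe, h2GlobalEquiv_mk, LinearEquiv.apply_symm_apply]

/-- **D-B, degree 2.** `PT.Sha2` is the Prelude's `sha₂`. -/
def sha2Equiv : ↥(Sha2 (hrl S) M) ≃ₗ[K] ↥(sha₂ S M) :=
  (h2GlobalEquiv S M).ofSubmodules _ _ (map_Sha2_eq S M h2)

/-! ### Degree 1 -/

variable (A : Rep.{0, 0, 0} K GQ)

/-- Level-constant cocycles as Mathlib cocycles. -/
def Z1ToCocycles : ↥((globalLevels S).Z1 A) →ₗ[K] ↥(cocycles₁ A) :=
  Submodule.inclusion inf_le_left

@[simp] lemma coe_Z1ToCocycles (c : ↥((globalLevels S).Z1 A)) :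
    ((Z1ToCocycles S A c : ↥(cocycles₁ A)) : GQ → A) = (c : GQ → A) := rfl

/-- The natural map from level-constant `H¹` to Mathlib's `H¹` (it is injective with range the
Prelude's `continuousH1S`). -/
def toH1 : (globalLevels S).H1 A →ₗ[K] H1 A :=
  Submodule.liftQ _ ((H1π A).hom ∘ₗ Z1ToCocycles S A) (by
    intro c hc
    rw [LinearMap.mem_ker, LinearMap.comp_apply]
    exact (H1π_eq_zero_iff _).2 hc)

lemma toH1_mk (c : ↥((globalLevels S).Z1 A)) :
    toH1 S A ((globalLevels S).H1π A c) = (H1π A).hom (Z1ToCocycles S A c) := rfl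

lemma toH1_injective : Function.Injective (toH1 S A) := by
  rw [← LinearMap.ker_eq_bot, LinearMap.ker_eq_bot']
  intro x hx
  obtain ⟨c, rfl⟩ := (globalLevels S).H1π_surjective A x
  rw [toH1_mk] at hx
  rw [LevelSys.H1π_eq_zero_iff]
  exact (H1π_eq_zero_iff _).1 hx

lemma range_toH1 : LinearMap.range (toH1 S A) = continuousH1S S A := by
  ext y
  rw [mem_continuousH1S_iff]
  constructor
  · rintro ⟨x, rfl⟩
    obtain ⟨c, rfl⟩ := (globalLevels S).H1π_surjective A x
    exact ⟨Z1ToCocycles S A c, (isLC₁_globalLevels_iff S _).1 c.2.2, rfl⟩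
  · rintro ⟨c, hc, rfl⟩
    exact ⟨(globalLevels S).H1π A ⟨(c : GQ → A), c.2, (isLC₁_globalLevels_iff S _).2 hc⟩, rfl⟩

/-- Membership in `Sha1` on representatives. -/
lemma H1π_mem_Sha1_iff (c : ↥((globalLevels S).Z1 A)) :
    (globalLevels S).H1π A c ∈ Sha1 (hrl S) A ↔
      ∀ q : ↥S, ∃ a : A, ∀ h : primeLocalGaloisGroup q.1,
        (c : GQ → A) (primeLocalToGlobal q.1 h) = A.ρ (primeLocalToGlobal q.1 h) a - a := by
  rw [LinearMap.mem_ker]
  constructor
  · intro h q
    have hq : resH1 (hrl S q) A ((globalLevels S).H1π A c) = 0 := congrFun h q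
    rw [resH1_mk, LevelSys.H1π_eq_zero_iff] at hq
    obtain ⟨a, ha⟩ := hq
    refine ⟨a, fun h => ?_⟩
    have := congrFun ha h
    rw [d₀₁_hom_apply] at this
    exact this.symm
  · intro h
    funext q
    show resH1 (hrl S q) A ((globalLevels S).H1π A c) = 0
    rw [resH1_mk, LevelSys.H1π_eq_zero_iff]
    obtain ⟨a, ha⟩ := h q
    refine ⟨a, ?_⟩
    funext h
    rw [d₀₁_hom_apply]
    exact (ha h).symm

include h2 in
lemma toH1_mem_sha₁_iff (x : (globalLevels S).H1 A) :
    toH1 S A x ∈ sha₁ S A ↔ x ∈ Sha1 (hrl S) A := by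
  obtain ⟨c, rfl⟩ := (globalLevels S).H1π_surjective A x
  rw [toH1_mk, Fermat.Agent.S55.Bridge.mem_sha₁_iff_cocycle S h2, H1π_mem_Sha1_iff]
  constructor
  · rintro ⟨c', -, hcc', hloc⟩ q
    -- `c'` and `c` differ by a coboundary
    have hsub : (H1π A).hom (c' - Z1ToCocycles S A c) = 0 := by
      rw [map_sub, hcc', sub_self]
    obtain ⟨a₀, ha₀⟩ := (H1π_eq_zero_iff _).1 hsub
    obtain ⟨a, ha⟩ := hloc q
    refine ⟨a - a₀, fun h => ?_⟩
    have h1 := congrFun ha₀ (primeLocalToGlobal q.1 h)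
    rw [d₀₁_hom_apply] at h1
    have h3 : (c' : GQ → A) (primeLocalToGlobal q.1 h) - (c : GQ → A) (primeLocalToGlobal q.1 h)
        = A.ρ (primeLocalToGlobal q.1 h) a₀ - a₀ := h1.symm
    have h4 := ha h
    rw [map_sub]
    rw [h4] at h3
    have : (c : GQ → A) (primeLocalToGlobal q.1 h) =
        (A.ρ (primeLocalToGlobal q.1 h) a - a) - (A.ρ (primeLocalToGlobal q.1 h) a₀ - a₀) := by
      rw [← h3]; abel
    rw [this]; abel
  · intro h
    exact ⟨Z1ToCocycles S A c, (isLC₁_globalLevels_iff S _).1 c.2.2, rfl, h⟩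

/-- **D-B, degree 1.** `PT.Sha1` is the Prelude's `sha₁`. -/
def sha1Equiv : ↥(Sha1 (hrl S) A) ≃ₗ[K] ↥(sha₁ S A) :=
  LinearEquiv.ofBijective
    ((toH1 S A).restrict (p := Sha1 (hrl S) A) (q := sha₁ S A)
      (fun x hx => (toH1_mem_sha₁_iff S h2 A x).2 hx))
    ⟨fun x y hxy => Subtype.ext (toH1_injective S A (congrArg Subtype.val hxy)), by
      rintro ⟨y, hy⟩
      obtain ⟨c, hc, rfl, hloc⟩ := (Fermat.Agent.S55.Bridge.mem_sha₁_iff_cocycle S h2 A y).1 hy
      let z : ↥((globalLevels S).Z1 A) :=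
        ⟨(c : GQ → A), c.2, (isLC₁_globalLevels_iff S _).2 hc⟩
      have hz : (globalLevels S).H1π A z ∈ Sha1 (hrl S) A :=
        (H1π_mem_Sha1_iff S A z).2 hloc
      exact ⟨⟨_, hz⟩, Subtype.ext rfl⟩⟩

lemma sha1Equiv_apply (x : ↥(Sha1 (hrl S) A)) :
    ((sha1Equiv S h2 A x : ↥(sha₁ S A)) : H1 A) = toH1 S A x := rfl

end Fermat.Agent.S55.PT.H724

namespace Fermat.Agent.S55.PT.H724

open groupCohomology ExtCitation

/-- **D-B, assembly.**  The conclusion of S55 follows from `Ш²(M) ≃ Dual Ш¹(M′)` for the `PT`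
groups (the output of Theorem D of layer D). -/
theorem s55_of_sha2_equiv_dual_sha1 {p : ℕ} [Fact p.Prime] (hp2 : p ≠ 2)
    (S : Finset Nat.Primes) (M : Rep.{0, 0, 0} (ZMod p) GQ)
    (e : ↥(Sha2 (hrl S) M) ≃ₗ[ZMod p]
      Module.Dual (ZMod p) ↥(Sha1 (hrl S) (M.dualTwist (cycloChar p)))) :
    ∃ B : sha₁ S (M.dualTwist (cycloChar p)) →ₗ[ZMod p] sha₂ S M →ₗ[ZMod p] ZMod p,
      (∀ y, (∀ x, B y x = 0) → y = 0) ∧ (∀ x, (∀ y, B y x = 0) → x = 0) := by
  have h2 : (2 : ZMod p) ≠ 0 := Fermat.Agent.S55.Bridge.two_ne_zero_zmod hp2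
  let e₂ := sha2Equiv S M h2
  let e₁ := sha1Equiv S h2 (M.dualTwist (cycloChar p))
  let E : ↥(sha₂ S M) ≃ₗ[ZMod p]
      Module.Dual (ZMod p) ↥(sha₁ S (M.dualTwist (cycloChar p))) :=
    e₂.symm.trans (e.trans e₁.symm.dualMap)
  obtain ⟨B, hB1, hB2⟩ := Fermat.Agent.S55.Bridge.exists_pairing_of_equiv_dual E
  exact ⟨B.flip, fun y hy => hB2 y (fun x => hy x), fun x hx => hB1 x (fun y => hx y)⟩

/-! ### Smoothness of `M` and `M′` from the hypotheses of S55 -/

/-- Under the hypotheses of S55, `M` and `M′ = M.dualTwist χ_p` are uniformly smooth for the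
levels unramified outside `S` (one common Galois level acts trivially on both). -/
theorem isUSmooth_of_s55_hyps {p : ℕ} [Fact p.Prime] (S : Finset Nat.Primes)
    (hpS : pPrime p ∈ S) (M : Rep.{0, 0, 0} (ZMod p) GQ) [FiniteDimensional (ZMod p) M]
    (hsm : ∀ m : M, ∃ F : IntermediateField ℚ (AlgebraicClosure ℚ), FiniteDimensional ℚ F ∧
      ∀ s ∈ F.fixingSubgroup, M.ρ s m = m)
    (hMur : ∀ q : Nat.Primes, q ∉ S → ∀ A : ValuationSubring (AlgebraicClosure ℚ),
      A.LiesOverPrime (q : ℕ) → ∀ g ∈ A.inertiaSubgroupIn ℚ, M.ρ g = 1) :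
    (globalLevels S).IsUSmooth M ∧ (globalLevels S).IsUSmooth (M.dualTwist (cycloChar p)) := by
  obtain ⟨L, hL, -, hM, -, hM'⟩ :=
    Fermat.Agent.S55.Bridge.exists_common_galois_level M S hpS hsm hMur
  refine ⟨⟨L.fixingSubgroup, ⟨L, hL, rfl⟩, fun s hs a => ?_⟩,
    ⟨L.fixingSubgroup, ⟨L, hL, rfl⟩, fun s hs a => ?_⟩⟩
  · rw [hM s hs]; rfl
  · rw [hM' s hs]; rfl

/-- **Leaf D-B.**  If Theorem D holds (`Ш²(M) ≃ Dual Ш¹(M′)` for every finite-dimensional
uniformly smooth `M`), then the statement of S55 holds. -/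
theorem bridge (p : ℕ) [Fact p.Prime] (S : Finset Nat.Primes) : BridgeSpec p S := by
  intro hp2 hpS hD M _ hsm hMur
  obtain ⟨h1, -⟩ := isUSmooth_of_s55_hyps S hpS M hsm hMur
  obtain ⟨e⟩ := hD M inferInstance h1
  exact s55_of_sha2_equiv_dual_sha1 hp2 S M e

end Fermat.Agent.S55.PT.H724

end

end
-- ===== PACK-END S55/PT/BridgeH724.lean

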