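import Mathlib
import Fermat.Agent.Pack.S56.E13L1
import Fermat.Agent.Pack.S56.E3L3
import Fermat.Agent.Pack.S56.E9L3
import Fermat.Agent.Pack.S56.E5L3
import Fermat.Agent.Pack.S56.E9L2
import Fermat.Agent.Pack.S56.E3L1
import Fermat.Agent.Pack.S56.E13L3
import Fermat.Agent.Pack.S56.E1L0
import Fermat.Agent.Pack.S56.E4L1
import Fermat.Agent.Pack.S56.E1L1
import Fermat.Agent.Pack.S56.E13L2
import Fermat.Agent.Pack.S56.E8L0
import Fermat.Agent.Pack.S56.E4L0
import Fermat.Agent.Pack.S56.E14L0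
import Fermat.Agent.Pack.S56.E14L3
import Fermat.Agent.Pack.S56.E14L1
import Fermat.Agent.Pack.S56.E11L1
import Fermat.Agent.Pack.S56.E2L2

-- ===== PACK-BEGIN S56/H906/LemmaA.lean
section



/-!
# S56 / FLAT-O, piece (A): rigidity of points of order `p` of a Hopf lattice (helper906)

`lemmaA : LemmaAStatement`.  Newton's forward differences for `n ↦ f (n • x)`; no completion, no
units of the convolution ring.

Reusable: `zp_mem`, `apply_mem` (values of a Hopf lattice lie in `P`), `pspan` (the `P`-span of a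
Hopf lattice), `translate` and `delta_mem` (the difference operator maps `P·Λ` into `μ·P·Λ`).
-/

set_option autoImplicit false
set_option linter.unusedSectionVars false

open Polynomial

noncomputable section

namespace Fermat.Agent.S56.H906

open Fermat.Agent.S56

section Basic

variable {p : ℕ} (P : ValuationSubring Qb)

/-- `ℤ_(p) ⊂ P` for `P` above `p`. -/
theorem zp_mem (hp : p.Prime) (hP : P.LiesOverPrime p) (r : Zp p) :
    algebraMap (Zp p) Qb r ∈ P := by
  have hr : (r : ℚ).den.Coprime p := r.2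
  have h1 : algebraMap (Zp p) Qb r = algebraMap ℚ Qb (r : ℚ) := rfl
  rw [h1]
  have h2 : (r : ℚ) = ((r : ℚ).num : ℚ) / ((r : ℚ).den : ℚ) := (Rat.num_div_den _).symm
  rw [h2, map_div₀, map_intCast, map_natCast]
  have hden : ((r : ℚ).den : Qb) ∉ P.nonunits := by
    have := Fermat.Agent.S14.H714.intCast_not_mem_nonunits P hp hP (n := ((r : ℚ).den : ℤ))
      (by
        intro hd
        have hd' : p ∣ (r : ℚ).den := by exact_mod_cast hd
        have := Nat.Coprime.eq_one_of_dvd hr.symm hd'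
        exact hp.one_lt.ne' this)
    simpa using this
  have hdenmem : (((r : ℚ).den : Qb))⁻¹ ∈ P :=
    (Fermat.Agent.S14.H714.inv_mem_of_not_mem_nonunits P hden).2
  rw [div_eq_mul_inv]
  exact mul_mem (intCast_mem P _) hdenmem

/-- An element of `ℚ̄` which is integral over `ℤ_(p)` lies in `P`. -/
theorem mem_of_isIntegral_zp (hp : p.Prime) (hP : P.LiesOverPrime p) {y : Qb}
    (hy : IsIntegral (Zp p) y) : y ∈ P := by
  obtain ⟨q, hq, hqy⟩ := hy
  -- the ring hom `ℤ_(p) → P`
  let ι : Zp p →+* P :=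
    { toFun := fun r => ⟨algebraMap (Zp p) Qb r, zp_mem P hp hP r⟩
      map_one' := Subtype.ext (map_one _)
      map_mul' := fun a b => Subtype.ext (map_mul _ a b)
      map_zero' := Subtype.ext (map_zero _)
      map_add' := fun a b => Subtype.ext (map_add _ a b) }
  have hint : IsIntegral P y := by
    refine ⟨q.map ι, hq.map ι, ?_⟩
    rw [Polynomial.eval₂_map]
    have : (algebraMap P Qb).comp ι = algebraMap (Zp p) Qb := by
      ext r; rfl
    rw [this]
    exact hqy
  obtain ⟨z, hz⟩ := (IsIntegrallyClosed.isIntegral_iff (R := P) (K := Qb)).mp hint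
  rw [← hz]
  exact z.2

end Basic

section Lattice

variable {p : ℕ} [Fact p.Prime] {M : Type} [AddCommGroup M] {act : GQ → M → M}
  {Λ : Subalgebra (Zp p) (M → Qb)} (P : ValuationSubring Qb)

/-- Values of the functions of a Hopf lattice lie in every `P` above `p`. -/
theorem apply_mem (hΛ : IsHL p act Λ) (hP : P.LiesOverPrime p) {f : M → Qb} (hf : f ∈ Λ)
    (m : M) : f m ∈ P :=
  mem_of_isIntegral_zp P (Fact.out : p.Prime) hP
    (Fermat.Agent.S19.H435.IsHopfLattice.isIntegral_apply hΛ hf m)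

/-- The `P`-span of a lattice of functions. -/
def pspan (Λ : Subalgebra (Zp p) (M → Qb)) : Submodule P (M → Qb) :=
  Submodule.span P (Λ : Set (M → Qb))

theorem subset_pspan {f : M → Qb} (hf : f ∈ Λ) : f ∈ pspan P Λ :=
  Submodule.subset_span hf

/-- Values of elements of the `P`-span lie in `P`. -/
theorem pspan_apply_mem (hΛ : IsHL p act Λ) (hP : P.LiesOverPrime p) {F : M → Qb}
    (hF : F ∈ pspan P Λ) (m : M) : F m ∈ P := by
  induction hF using Submodule.span_induction with
  | mem f hf => exact apply_mem P hΛ hP hf m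
  | zero => exact P.zero_mem
  | add F G _ _ hF hG => exact P.add_mem _ _ hF hG
  | smul a F _ hF => exact P.mul_mem _ _ a.2 hF

/-- Translation by `x`. -/
def translate (x : M) : Module.End Qb (M → Qb) := LinearMap.funLeft Qb Qb (fun y => y + x)

@[simp] theorem translate_apply (x : M) (F : M → Qb) (y : M) : translate x F y = F (y + x) := rfl

theorem translate_pow (x : M) (n : ℕ) : translate x ^ n = translate (n • x) := by
  induction n with
  | zero =>
    ext F y
    simp [translate, LinearMap.funLeft]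
  | succ n ih =>
    rw [pow_succ, ih]
    ext F y
    simp only [Module.End.mul_apply, translate_apply, succ_nsmul]
    congr 1
    abel

/-- The difference operator `F ↦ F(· + x) - F`. -/
def delta (x : M) : Module.End Qb (M → Qb) := translate x - 1

theorem delta_apply (x : M) (F : M → Qb) (y : M) : delta x F y = F (y + x) - F y := rfl

/-- If all coordinates of `x` are congruent to those of `0` modulo `μ`, then the difference
operator maps `P·Λ` into `μ·P·Λ`. -/
theorem delta_mem (hΛ : IsHL p act Λ) (x : M) (μ : Qb) (hμ : μ ≠ 0)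
    (hle : ∀ g ∈ Λ, P.valuation (g x - g 0) ≤ P.valuation μ)
    {F : M → Qb} (hF : F ∈ pspan P Λ) :
    ∃ G ∈ pspan P Λ, delta x F = μ • G := by
  induction hF using Submodule.span_induction with
  | mem f hf =>
    obtain ⟨n, a, b, ha, hb, hab⟩ := hΛ.comul_mem f hf
    have hq : ∀ k, (b k x - b k 0) / μ ∈ P := by
      intro k
      rw [← ValuationSubring.valuation_le_one_iff, map_div₀]
      exact div_le_one_of_le₀ (hle _ (hb k)) zero_le
    refine ⟨∑ k, (⟨(b k x - b k 0) / μ, hq k⟩ : P) • a k,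
      Submodule.sum_mem _ fun k _ => Submodule.smul_mem _ _ (subset_pspan P (ha k)), ?_⟩
    funext y
    rw [delta_apply]
    have h1 := hab y x
    have h2 := hab y 0
    rw [add_zero] at h2
    rw [h1]
    conv_lhs => rw [h2]
    rw [← Finset.sum_sub_distrib]
    simp only [Pi.smul_apply, Finset.sum_apply, smul_eq_mul, Finset.mul_sum]
    refine Finset.sum_congr rfl fun k _ => ?_
    show a k y * b k x - a k y * b k 0 = μ * (((b k x - b k 0) / μ) * a k y)
    field_simp
  | zero => exact ⟨0, Submodule.zero_mem _, by simp⟩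
  | add F G _ _ hF hG =>
    obtain ⟨F', hF', hF''⟩ := hF
    obtain ⟨G', hG', hG''⟩ := hG
    exact ⟨F' + G', Submodule.add_mem _ hF' hG', by rw [map_add, hF'', hG'', smul_add]⟩
  | smul a F _ hF =>
    obtain ⟨F', hF', hF''⟩ := hF
    refine ⟨a • F', Submodule.smul_mem _ _ hF', ?_⟩
    have : (a • F : M → Qb) = (a : Qb) • F := rfl
    rw [this, map_smul, hF'']
    have : (a • F' : M → Qb) = (a : Qb) • F' := rfl
    rw [this, smul_comm]

/-- Iterated differences. -/
theorem delta_pow_mem (hΛ : IsHL p act Λ) (x : M) (μ : Qb) (hμ : μ ≠ 0)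
    (hle : ∀ g ∈ Λ, P.valuation (g x - g 0) ≤ P.valuation μ) (j : ℕ)
    {F : M → Qb} (hF : F ∈ pspan P Λ) :
    ∃ G ∈ pspan P Λ, (delta x ^ j) F = μ ^ j • G := by
  induction j generalizing F with
  | zero => exact ⟨F, hF, by simp⟩
  | succ j ih =>
    obtain ⟨G, hG, hG'⟩ := delta_mem P hΛ x μ hμ hle hF
    obtain ⟨G₂, hG₂, hG₂'⟩ := ih hG
    refine ⟨G₂, hG₂, ?_⟩
    rw [pow_succ, Module.End.mul_apply, hG', map_smul, hG₂', smul_smul, ← pow_succ']

/-- The binomial expansion of `translate (p • x)` evaluated at `0`. -/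
theorem sum_choose_delta (x : M) (n : ℕ) (F : M → Qb) :
    F (n • x) = ∑ m ∈ Finset.range (n + 1), (n.choose m : Qb) * (delta x ^ m) F 0 := by
  have h1 : translate x = delta x + 1 := by rw [delta]; abel
  have h2 : translate x ^ n = ∑ m ∈ Finset.range (n + 1),
      delta x ^ m * 1 ^ (n - m) * (n.choose m : Module.End Qb (M → Qb)) := by
    rw [h1]
    exact (Commute.one_right (delta x)).add_pow n
  have h3 := congrFun (congrArg (fun T : Module.End Qb (M → Qb) => T F) h2) 0
  simp only [translate_pow, translate_apply, zero_add] at h3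
  rw [h3, LinearMap.sum_apply, Finset.sum_apply]
  refine Finset.sum_congr rfl fun m _ => ?_
  rw [one_pow, mul_one, Module.End.mul_apply]
  have : ∀ k : ℕ, ((k : Module.End Qb (M → Qb))) F = (k : Qb) • F := by
    intro k
    rw [Nat.cast_smul_eq_nsmul]
    induction k with
    | zero => simp
    | succ k ih => simp [add_smul, ih]
  rw [this, map_smul, Pi.smul_apply, smul_eq_mul]

end Lattice

/-- **(A)** rigidity of points of order `p`. -/
theorem lemmaA : LemmaAStatement := by
  intro p _ M _ _ act Λ hΛ P hP x lam hpx hlam hle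
  have hp : p.Prime := Fact.out
  by_contra hx
  set v := P.valuation with hv
  have hvp : v (p : Qb) < 1 := (ValuationSubring.mem_nonunits_iff P).mp hP
  have hlam1 : v lam < 1 := by
    by_contra hcon
    rw [not_lt] at hcon
    have : (1 : P.ValueGroup) ≤ v lam ^ (p - 1) := one_le_pow₀ hcon
    exact absurd (lt_of_le_of_lt this (lt_trans hlam hvp)) (lt_irrefl _)
  obtain ⟨f₀, hf₀, hne⟩ := hΛ.separates x 0 hx
  obtain ⟨n, e, he, -, -, hexp⟩ := Fermat.Agent.S19.H435.IsHopfLattice.exists_basis hΛ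
  -- coordinates of a general element
  have hcoord : ∀ g ∈ Λ, ∃ c : Fin n → Zp p,
      g x - g 0 = ∑ i, algebraMap (Zp p) Qb (c i) * (e i x - e i 0) := by
    intro g hg
    obtain ⟨c, hc⟩ := hexp g hg
    refine ⟨c, ?_⟩
    have h1 : ∀ y : M, g y = ∑ i, algebraMap (Zp p) Qb (c i) * e i y := by
      intro y
      rw [hc, Finset.sum_apply]
      refine Finset.sum_congr rfl fun i _ => ?_
      rw [Pi.smul_apply, Algebra.smul_def]
    rw [h1 x, h1 0, ← Finset.sum_sub_distrib]
    exact Finset.sum_congr rfl fun i _ => by ring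
  -- some coordinate difference is nonzero
  have hex : ∃ i, e i x - e i 0 ≠ 0 := by
    by_contra hcon
    push Not at hcon
    obtain ⟨c, hc⟩ := hcoord f₀ hf₀
    apply hne
    rw [← sub_eq_zero, hc]
    exact Finset.sum_eq_zero fun i _ => by rw [hcon i, mul_zero]
  obtain ⟨i₁, hi₁⟩ := hex
  obtain ⟨i₀, -, hi₀⟩ := Finset.exists_max_image Finset.univ (fun i => v (e i x - e i 0))
    ⟨i₁, Finset.mem_univ _⟩
  set μ := e i₀ x - e i₀ 0 with hμdef
  have hμ0 : μ ≠ 0 := by
    intro h0
    have h1 := hi₀ i₁ (Finset.mem_univ _)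
    rw [h0, map_zero] at h1
    exact hi₁ ((Valuation.zero_iff v).mp (le_antisymm h1 zero_le))
  have hvμ0 : v μ ≠ 0 := (Valuation.ne_zero_iff v).mpr hμ0
  have hmax : ∀ g ∈ Λ, v (g x - g 0) ≤ v μ := by
    intro g hg
    obtain ⟨c, hc⟩ := hcoord g hg
    rw [hc]
    refine Valuation.map_sum_le v fun i _ => ?_
    rw [map_mul]
    calc v (algebraMap (Zp p) Qb (c i)) * v (e i x - e i 0)
        ≤ 1 * v (e i x - e i 0) := by
          gcongr
          exact (ValuationSubring.valuation_le_one_iff P _).mpr (zp_mem P hp hP (c i))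
      _ = v (e i x - e i 0) := one_mul _
      _ ≤ v μ := hi₀ i (Finset.mem_univ _)
  have hμlam : v μ ≤ v lam := hle _ (he i₀)
  have hμ1 : v μ < 1 := lt_of_le_of_lt hμlam hlam1
  have hμp : v μ ^ (p - 1) < v (p : Qb) :=
    lt_of_le_of_lt (pow_le_pow_left₀ zero_le hμlam _) hlam
  -- Newton
  have hN := sum_choose_delta x p (e i₀)
  rw [hpx] at hN
  obtain ⟨q, hq⟩ : ∃ q, p = q + 2 := ⟨p - 2, by have := hp.two_le; omega⟩
  have hterm : ∀ m, ∃ g : Qb, g ∈ P ∧ (delta x ^ m) (e i₀) 0 = μ ^ m * g := by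
    intro m
    obtain ⟨G, hG, hG'⟩ := delta_pow_mem P hΛ x μ hμ0 hmax m (subset_pspan P (he i₀))
    exact ⟨G 0, pspan_apply_mem P hΛ hP hG 0, by rw [hG']; rfl⟩
  rw [hq, Finset.sum_range_succ', Finset.sum_range_succ'] at hN
  simp only [Nat.choose_zero_right, Nat.cast_one, pow_zero, Module.End.one_apply, one_mul,
    zero_add, Nat.choose_one_right, pow_one] at hN
  have hd1 : delta x (e i₀) 0 = μ := by rw [delta_apply, zero_add]
  rw [hd1, ← hq] at hN
  have hsum : (p : Qb) * μ = - ∑ k ∈ Finset.range (q + 1),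
      ((p.choose (k + 1 + 1) : ℕ) : Qb) * (delta x ^ (k + 1 + 1)) (e i₀) 0 := by
    have := hN
    linear_combination -this
  have hlt : v (∑ k ∈ Finset.range (q + 1),
      ((p.choose (k + 1 + 1) : ℕ) : Qb) * (delta x ^ (k + 1 + 1)) (e i₀) 0) < v ((p : Qb) * μ) := by
    have hpm0 : v ((p : Qb) * μ) ≠ 0 := by
      rw [map_mul]
      exact mul_ne_zero ((Valuation.ne_zero_iff v).mpr (by exact_mod_cast hp.ne_zero)) hvμ0
    refine Valuation.map_sum_lt v hpm0 fun k hk => ?_
    obtain ⟨g, hg, hg'⟩ := hterm (k + 1 + 1)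
    have hg1 : v g ≤ 1 := (ValuationSubring.valuation_le_one_iff P _).mpr hg
    rw [hg', map_mul, map_mul, map_pow, map_mul]
    rw [Finset.mem_range] at hk
    by_cases hkq : k = q
    · -- the last term: choose = 1
      subst hkq
      rw [← hq, Nat.choose_self, Nat.cast_one, map_one, one_mul]
      have h1 : v μ ^ p = v μ ^ (p - 1) * v μ := by
        rw [← pow_succ]; congr 1; have := hp.two_le; omega
      rw [h1]
      calc v μ ^ (p - 1) * v μ * v g ≤ v μ ^ (p - 1) * v μ * 1 := by gcongr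
        _ = v μ ^ (p - 1) * v μ := mul_one _
        _ < v (p : Qb) * v μ := by
          exact mul_lt_mul_of_pos_right hμp (zero_lt_iff.mpr hvμ0)
    · -- middle terms: `p ∣ choose`
      have hk2 : k + 1 + 1 < p := by omega
      have hdvd : p ∣ p.choose (k + 1 + 1) := hp.dvd_choose_self (by omega) hk2
      obtain ⟨t, ht⟩ := hdvd
      have hc : v ((p.choose (k + 1 + 1) : ℕ) : Qb) ≤ v (p : Qb) := by
        rw [ht, Nat.cast_mul, map_mul]
        calc v (p : Qb) * v (t : Qb) ≤ v (p : Qb) * 1 := by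
              gcongr
              exact (ValuationSubring.valuation_le_one_iff P _).mpr (natCast_mem P t)
          _ = v (p : Qb) := mul_one _
      have hμk : v μ ^ (k + 1 + 1) < v μ := by
        calc v μ ^ (k + 1 + 1) = v μ ^ (k + 1) * v μ := pow_succ _ _
          _ < 1 * v μ := by
            refine mul_lt_mul_of_pos_right ?_ (zero_lt_iff.mpr hvμ0)
            exact pow_lt_one₀ zero_le hμ1 (by omega)
          _ = v μ := one_mul _
      calc v ((p.choose (k + 1 + 1) : ℕ) : Qb) * (v μ ^ (k + 1 + 1) * v g)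
          ≤ v (p : Qb) * (v μ ^ (k + 1 + 1) * 1) := by gcongr
        _ = v (p : Qb) * v μ ^ (k + 1 + 1) := by rw [mul_one]
        _ < v (p : Qb) * v μ := by
          refine mul_lt_mul_of_pos_left hμk (zero_lt_iff.mpr ?_)
          exact (Valuation.ne_zero_iff v).mpr (by exact_mod_cast hp.ne_zero)
  rw [hsum, Valuation.map_neg] at hlt
  exact lt_irrefl _ hlt

end Fermat.Agent.S56.H906

end

end
-- ===== PACK-END S56/H906/LemmaA.lean

-- ===== PACK-BEGIN S56/H486/FlatOLoc.lean
section
/-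
S56 / FLAT-O leaves UNRHOM and TAMEFROB (helper486), verbatim targets of
`S56/H906/FlatOSpec.lean`:

* `unramHom : UnramHomStatement` — `D_P / I_P` is procyclic, generated by a Frobenius element:
  an unramified additive map `D_P → k` of finite level vanishing at a Frobenius vanishes.
* `tameFrob : TameFrobStatement` — a character `D_P → k^×` of finite level (`k` of
  characteristic `p`, `P ∣ p`) satisfies `a τ ^ p = a τ` on inertia.

Inputs (on main): `Lib/Cheb/H643/FrobAt.exists_isFrobeniusAt` (Frobenius at a given valuation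
subring of `ℚ̄`), `S56/H606/Gen.exists_frobenius_pow_mul_inertia` (generation modulo any finite
level), the tame character `A2/H708/Tame`, its Frobenius relation `S56/H794/TameFrob` and the
wild kernel `S56/H186/TameWild`.
-/






set_option autoImplicit false
set_option linter.style.haveILetI false

namespace Fermat.Agent.S56.H486

open Fermat.Agent.S56 Fermat.Agent.S56.H906

/-- The inertia group (Prelude form) is contained in the decomposition group. -/
theorem flatO_inertia_le_decomposition (P : ValuationSubring Qb) {σ : GQ}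
    (hσ : σ ∈ P.inertiaSubgroupIn ℚ) : σ ∈ P.decompositionSubgroup ℚ := by
  obtain ⟨τ, -, rfl⟩ := hσ
  exact τ.2

/-- An additive map on `D_P` vanishes at `1`. -/
theorem flatO_additive_one (P : ValuationSubring Qb) {k : Type} [Field k] (h : GQ → k)
    (hadd : ∀ σ ∈ P.decompositionSubgroup ℚ, ∀ τ ∈ P.decompositionSubgroup ℚ,
      h (σ * τ) = h σ + h τ) : h 1 = 0 := by
  have h1 := hadd 1 (Subgroup.one_mem _) 1 (Subgroup.one_mem _)
  rw [mul_one] at h1
  exact left_eq_add.mp h1

/-- An additive map on `D_P` sends powers to multiples. -/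
theorem flatO_additive_pow (P : ValuationSubring Qb) {k : Type} [Field k] (h : GQ → k)
    (hadd : ∀ σ ∈ P.decompositionSubgroup ℚ, ∀ τ ∈ P.decompositionSubgroup ℚ,
      h (σ * τ) = h σ + h τ) {φ : GQ} (hφ : φ ∈ P.decompositionSubgroup ℚ) (n : ℕ) :
    h (φ ^ n) = n • h φ := by
  induction n with
  | zero => rw [pow_zero, zero_smul]; exact flatO_additive_one P h hadd
  | succ n ih =>
    rw [pow_succ, hadd _ (pow_mem hφ n) _ hφ, ih, succ_nsmul]

/-- **FLAT-O / UNRHOM.** -/
theorem unramHom : UnramHomStatement := by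
  intro p hp P hP
  obtain ⟨φ, hφ⟩ := Fermat.Agent.Lib.Cheb.H643.exists_isFrobeniusAt p hp P hP
  have hφD : φ ∈ P.decompositionSubgroup ℚ := hφ.mem_decompositionSubgroup
  refine ⟨φ, hφD, ?_⟩
  intro k _ h hadd hlev hI hφ0 σ hσ
  obtain ⟨L, hL, hlevL⟩ := hlev
  haveI : FiniteDimensional ℚ L := hL
  obtain ⟨n, ι, hι, hσL⟩ :=
    Fermat.Agent.S56.H606.exists_frobenius_pow_mul_inertia hp hP L hφ hσ
  have hιD : ι ∈ P.decompositionSubgroup ℚ := flatO_inertia_le_decomposition P hι
  have hgD : φ ^ n * ι ∈ P.decompositionSubgroup ℚ := Subgroup.mul_mem _ (pow_mem hφD n) hιD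
  -- `τ := (φ ^ n * ι)⁻¹ * σ` lies in `D_P` and fixes `L`
  have hτD : (φ ^ n * ι)⁻¹ * σ ∈ P.decompositionSubgroup ℚ :=
    Subgroup.mul_mem _ (Subgroup.inv_mem _ hgD) hσ
  have hτL : ∀ x ∈ L, ((φ ^ n * ι)⁻¹ * σ) x = x := by
    intro x hx
    show (φ ^ n * ι)⁻¹ (σ x) = x
    rw [hσL x hx]
    show ((φ ^ n * ι)⁻¹ * (φ ^ n * ι)) x = x
    rw [inv_mul_cancel]
    rfl
  have h1 : h σ = h (φ ^ n * ι) := by
    have := hlevL (φ ^ n * ι) hgD ((φ ^ n * ι)⁻¹ * σ) hτD hτL
    rwa [mul_inv_cancel_left] at this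
  rw [h1, hadd _ (pow_mem hφD n) _ hιD, flatO_additive_pow P h hadd hφD, hφ0, hI ι hι,
    smul_zero, add_zero]

/-! ## TAMEFROB -/

/-- A character of `D_P` sends inverses to inverses. -/
theorem flatO_char_inv (P : ValuationSubring Qb) {k : Type} [Field k] (a : GQ → k)
    (ha : IsLocChar P a) {σ : GQ} (hσ : σ ∈ P.decompositionSubgroup ℚ) :
    a σ⁻¹ = (a σ)⁻¹ := by
  have h1 := ha.map_mul σ hσ σ⁻¹ (Subgroup.inv_mem _ hσ)
  rw [mul_inv_cancel, ha.map_one] at h1
  exact eq_inv_of_mul_eq_one_right h1.symm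

/-- A character of `D_P` sends powers to powers. -/
theorem flatO_char_pow (P : ValuationSubring Qb) {k : Type} [Field k] (a : GQ → k)
    (ha : IsLocChar P a) {σ : GQ} (hσ : σ ∈ P.decompositionSubgroup ℚ) (n : ℕ) :
    a (σ ^ n) = a σ ^ n := by
  induction n with
  | zero => rw [pow_zero, pow_zero, ha.map_one]
  | succ n ih => rw [pow_succ, ha.map_mul _ (pow_mem hσ n) _ hσ, ih, pow_succ]

/-- Wild inertia is killed by characters with values in characteristic `p`: an element of the
inertia group at `P ∣ p` with trivial tame character is sent to `1`. -/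
theorem flatO_char_eq_one_of_tame_trivial (p : ℕ) [Fact p.Prime] (k : Type) [Field k]
    [CharP k p] (P : ValuationSubring Qb) (hP : P.LiesOverPrime p) (a : GQ → k)
    (ha : IsLocChar P a) {γ : GQ} (hγ : γ ∈ P.inertiaSubgroupIn ℚ)
    (htame : ∀ x : Qb, x ≠ 0 → P.valuation (γ x - x) < P.valuation x) : a γ = 1 := by
  have hp : p.Prime := Fact.out
  haveI : Algebra.IsAlgebraic ℚ Qb := AlgebraicClosure.isAlgebraic ℚ
  have hγD : γ ∈ P.decompositionSubgroup ℚ := flatO_inertia_le_decomposition P hγ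
  obtain ⟨L, hL, hlev⟩ := ha.level
  haveI : FiniteDimensional ℚ L := hL
  -- the normal closure of the level
  haveI : IsGalois ℚ Qb := Fermat.Agent.S56.H794.isGalois_Qbar_h794
  let E : IntermediateField ℚ Qb := IntermediateField.normalClosure ℚ L Qb
  have hLE : L ≤ E := IntermediateField.le_normalClosure L
  haveI : Normal ℚ E := normalClosure.normal ℚ L Qb
  haveI : FiniteDimensional ℚ E := normalClosure.is_finiteDimensional ℚ L Qb
  have hres : ∀ (σ : GQ) (y : E), σ (y : Qb) = ((AlgEquiv.restrictNormalHom E σ) y : Qb) :=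
    fun σ y => (AlgEquiv.restrictNormal_commutes σ E y).symm
  have hE : ∀ y ∈ E, γ y ∈ E := fun y hy => by
    rw [hres γ ⟨y, hy⟩]
    exact Subtype.mem _
  -- a positive power of `γ` is trivial on `E`
  let g : E ≃ₐ[ℚ] E := AlgEquiv.restrictNormalHom E γ
  have hn : orderOf g ≠ 0 := (orderOf_pos g).ne'
  have hfix : ∀ y ∈ E, (γ ^ orderOf g) y = y := fun y hy => by
    rw [hres (γ ^ orderOf g) ⟨y, hy⟩, map_pow, pow_orderOf_eq_one]
    rfl
  obtain ⟨e, he⟩ := Fermat.Agent.S56.H186.exists_pow_fixes_of_tame_trivial P hγD E hE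
    (fun x _ hx => htame x hx) hp
    (fun ℓ hℓ hℓp => Fermat.Agent.S56.H794.valuation_prime_eq_one hp hP hℓ hℓp) hn hfix
  -- hence `a γ ^ (p ^ e) = 1`
  have h1 : a (γ ^ p ^ e) = 1 := by
    have := hlev 1 (Subgroup.one_mem _) (γ ^ p ^ e) (pow_mem hγD _) (fun x hx => he x (hLE hx))
    rwa [one_mul, ha.map_one] at this
  rw [flatO_char_pow P a ha hγD] at h1
  -- and `x ^ (p ^ e) = 1` forces `x = 1` in characteristic `p`
  have h2 : (a γ - 1) ^ p ^ e = 0 := by
    rw [sub_pow_char_pow, h1, one_pow, sub_self]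
  exact sub_eq_zero.mp (pow_eq_zero_iff (pow_ne_zero e hp.ne_zero) |>.mp h2)

/-- **FLAT-O / TAMEFROB.** -/
theorem tameFrob : TameFrobStatement := by
  intro p _ k _ _ _ P hP a ha τ hτ
  have hp : p.Prime := Fact.out
  haveI : Algebra.IsAlgebraic ℚ Qb := AlgebraicClosure.isAlgebraic ℚ
  obtain ⟨φ, hφ⟩ := Fermat.Agent.Lib.Cheb.H643.exists_isFrobeniusAt p hp P hP
  have hφD : φ ∈ P.decompositionSubgroup ℚ := hφ.mem_decompositionSubgroup
  have hτD : τ ∈ P.decompositionSubgroup ℚ := flatO_inertia_le_decomposition P hτ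
  have hc : φ * τ * φ⁻¹ ∈ P.inertiaSubgroupIn ℚ :=
    Fermat.Agent.S56.H794.conj_mem_inertiaIn P hφD hτ
  have hγ : φ * τ * φ⁻¹ * (τ ^ p)⁻¹ ∈ P.inertiaSubgroupIn ℚ :=
    mul_mem hc (inv_mem (pow_mem hτ p))
  -- the tame character of `γ = φ τ φ⁻¹ τ⁻ᵖ` is trivial
  have htriv : ∀ c : Qbˣ, Fermat.Agent.A2.H708.tameHom P hγ c = 1 := by
    intro c
    rw [Fermat.Agent.A2.H708.tameHom_mul P hc (inv_mem (pow_mem hτ p)),
      Fermat.Agent.A2.H708.tameHom_inv P (pow_mem hτ p),
      Fermat.Agent.S56.H794.tameHom_pow P hτ,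
      Fermat.Agent.S56.H794.tameHom_conj_frobenius P hφ hτ, mul_inv_cancel]
  have h1 : a (φ * τ * φ⁻¹ * (τ ^ p)⁻¹) = 1 :=
    flatO_char_eq_one_of_tame_trivial p k P hP a ha hγ (fun x hx =>
      (Fermat.Agent.A2.H708.tameHom_eq_one_iff P hγ (Units.mk0 x hx)).mp (htriv _))
  -- expand with multiplicativity
  have hcD : φ * τ * φ⁻¹ ∈ P.decompositionSubgroup ℚ :=
    Subgroup.mul_mem _ (Subgroup.mul_mem _ hφD hτD) (Subgroup.inv_mem _ hφD)
  rw [ha.map_mul _ hcD _ (Subgroup.inv_mem _ (pow_mem hτD p)),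
    ha.map_mul _ (Subgroup.mul_mem _ hφD hτD) _ (Subgroup.inv_mem _ hφD),
    ha.map_mul _ hφD _ hτD, flatO_char_inv P a ha hφD, flatO_char_inv P a ha (pow_mem hτD p),
    flatO_char_pow P a ha hτD] at h1
  have hφ0 : a φ ≠ 0 := by
    intro h0
    have h2 := ha.map_mul φ hφD φ⁻¹ (Subgroup.inv_mem _ hφD)
    rw [mul_inv_cancel, ha.map_one, h0, zero_mul] at h2
    exact one_ne_zero h2
  have hτ0 : a τ ^ p ≠ 0 := by
    intro h0
    rw [h0, inv_zero, mul_zero] at h1
    exact zero_ne_one h1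
  have h3 : a φ * a τ * (a φ)⁻¹ = a τ := by
    rw [mul_comm (a φ) (a τ), mul_assoc, mul_inv_cancel₀ hφ0, mul_one]
  rw [h3] at h1
  exact (eq_of_mul_inv_eq_one h1).symm

end Fermat.Agent.S56.H486

end
-- ===== PACK-END S56/H486/FlatOLoc.lean

-- ===== PACK-BEGIN S56/H656/FlatUnit.lean
section



/-!
# Row S56 — FLAT-O leaf FU (helper656): `flatUnit : H906.FlatUnitStatement`

"Unit resolvent = peu ramifié".  `M` a finite Galois module killed by `p` with a Hopf lattice `Λ`
(landed A3 vocabulary `S19/H435`), `P | p`, `H = {σ ∈ I_P : σ ζ = ζ}`, `L ≤ M` a subgroup fixed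
pointwise by `H` and containing all `σ y - y` (`σ ∈ H`).  For every additive `ξ : M → 𝔽_p` and
every `x : M` there is a `P`-unit `B` with `σ B = ζ^{ξ(σ x - x)} B` for all `σ ∈ H`.

Proof (no descent, no dual basis).  `ψ = ζ^ξ`, `T f (y) = ∑_{t ∈ L} ψ(-t) f (y + t)`.
* `T f (y + t₀) = ψ(t₀) T f (y)` for `t₀ ∈ L`; `σ (T f y) = T f (σ y)` for `f ∈ Λ`, `σ ∈ H`;
  `T f (w + y) = ∑ a_k(w) T b_k (y)` if `f(u + v) = ∑ a_k(u) b_k(v)`.
* `s := T e 0` of maximal valuation among `e ∈ Λ`; `s ≠ 0` by Dedekind independence of the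
  evaluation characters of `Λ`; `s` is fixed by `H`; `v(T f y) ≤ v(s)` for all `f ∈ Λ`, `y`.
* `s = T e (-x + x) = ∑ a_k(-x) T b_k (x)`, so some `T b_k (x)` has the valuation of `s`;
  `B := T b_k (x) / s`.

Nothing unproved in this file.
-/

set_option autoImplicit false

open Polynomial

noncomputable section

namespace Fermat.Agent.S56.H656

open Fermat.Agent.S56 Fermat.Agent.S19.H435

/-! ## Integrality -/

section val

variable (P : ValuationSubring _root_.Fermat.Agent.S56.Qb) (p : ℕ)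

/-- Elements of `ℤ_(p)` are integral at a place over `p`. -/
theorem valuation_Zl_le_one (hp : p.Prime) (hP : P.LiesOverPrime p) (r : Zl p) :
    P.valuation (algebraMap (Zl p) _root_.Fermat.Agent.S56.Qb r) ≤ 1 := by
  obtain ⟨q, hq⟩ := r
  have hq' : q.den.Coprime p := hq
  have e1 : algebraMap (Zl p) _root_.Fermat.Agent.S56.Qb ⟨q, hq⟩ = ((q.num : ℤ) : _root_.Fermat.Agent.S56.Qb) / ((q.den : ℤ) : _root_.Fermat.Agent.S56.Qb) := by
    show algebraMap ℚ _root_.Fermat.Agent.S56.Qb q = _
    rw [eq_ratCast]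
    have := Rat.cast_def (K := _root_.Fermat.Agent.S56.Qb) q
    rw [this]
    push_cast
    rfl
  have hden : P.valuation (((q.den : ℤ)) : _root_.Fermat.Agent.S56.Qb) = 1 := by
    apply Fermat.Agent.S14.H894.valuation_intCast_eq_one P p hp hP
    intro hdvd
    have h1 : p ∣ q.den := by exact_mod_cast hdvd
    have h2 : p ∣ Nat.gcd q.den p := Nat.dvd_gcd h1 dvd_rfl
    rw [Nat.Coprime] at hq'
    rw [hq'] at h2
    exact hp.one_lt.ne' (Nat.dvd_one.mp h2)
  rw [e1, map_div₀, hden, div_one]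
  exact Fermat.Agent.S14.H894.valuation_intCast_le_one P _

/-- Elements of `ℚ̄` integral over `ℤ_(p)` are integral at every place over `p`. -/
theorem valuation_le_one_of_isIntegral (hp : p.Prime) (hP : P.LiesOverPrime p) {x : _root_.Fermat.Agent.S56.Qb}
    (hx : IsIntegral (Zl p) x) : P.valuation x ≤ 1 := by
  obtain ⟨q, hqm, hqx⟩ := hx
  by_contra hvx
  rw [not_le] at hvx
  rw [hqm.as_sum, eval₂_add, eval₂_pow, eval₂_X, eval₂_finset_sum, add_eq_zero_iff_eq_neg] at hqx
  replace hqx := congr_arg P.valuation hqx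
  refine ne_of_gt ?_ hqx
  rw [Valuation.map_neg, Valuation.map_pow]
  refine Valuation.map_sum_lt' _ (zero_lt_one.trans_le (one_le_pow₀ hvx.le)) fun i hi => ?_
  rw [eval₂_mul, eval₂_pow, eval₂_C, eval₂_X, Valuation.map_mul, Valuation.map_pow,
    ← one_mul (P.valuation x ^ q.natDegree)]
  have hc : P.valuation ((algebraMap (Zl p) _root_.Fermat.Agent.S56.Qb) (q.coeff i)) ≤ 1 :=
    valuation_Zl_le_one P p hp hP _
  have hpow : P.valuation x ^ i < P.valuation x ^ q.natDegree :=
    pow_lt_pow_right₀ hvx (Finset.mem_range.1 hi)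
  have hpos : 0 < P.valuation x ^ i := pow_pos (zero_lt_one.trans hvx) i
  calc P.valuation ((algebraMap (Zl p) _root_.Fermat.Agent.S56.Qb) (q.coeff i)) * P.valuation x ^ i
      ≤ 1 * P.valuation x ^ i := by gcongr
    _ < 1 * P.valuation x ^ q.natDegree := by
        rw [one_mul, one_mul]; exact hpow

end val

/-! ## The character `ψ = ζ^ξ` -/

section psi

variable {p : ℕ} [Fact p.Prime] {M : Type} [AddCommGroup M]

/-- The `μ_p`-valued character attached to `ξ : M → 𝔽_p`. -/
def fuPsi (ζ : _root_.Fermat.Agent.S56.Qb) (ξ : M →+ ZMod p) (m : M) : _root_.Fermat.Agent.S56.Qb := ζ ^ (ξ m).val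

variable {ζ : _root_.Fermat.Agent.S56.Qb} (hζ : ζ ^ p = 1) (ξ : M →+ ZMod p)

theorem fuPsi_zero (ζ : _root_.Fermat.Agent.S56.Qb) : fuPsi ζ ξ 0 = 1 := by
  simp [fuPsi]

include hζ in
theorem fuPsi_add (m n : M) : fuPsi ζ ξ (m + n) = fuPsi ζ ξ m * fuPsi ζ ξ n := by
  unfold fuPsi
  rw [map_add, ZMod.val_add, ← pow_add, ← pow_eq_pow_mod _ hζ]

include hζ in
theorem fuPsi_neg_mul (m : M) : fuPsi ζ ξ (-m) * fuPsi ζ ξ m = 1 := by
  rw [← fuPsi_add hζ, neg_add_cancel, fuPsi_zero]

theorem fuPsi_map (ζ : _root_.Fermat.Agent.S56.Qb) (σ : GQ) (hσ : σ ζ = ζ) (m : M) : σ (fuPsi ζ ξ m) = fuPsi ζ ξ m := by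
  unfold fuPsi
  rw [map_pow, hσ]

include hζ in
theorem valuation_fuPsi (P : ValuationSubring _root_.Fermat.Agent.S56.Qb) (m : M) : P.valuation (fuPsi ζ ξ m) = 1 := by
  have hp0 : p ≠ 0 := (Fact.out : p.Prime).ne_zero
  have h1 : P.valuation ζ ^ p = 1 := by rw [← Valuation.map_pow, hζ, Valuation.map_one]
  have h2 : P.valuation ζ = 1 := by
    rcases lt_trichotomy (P.valuation ζ) 1 with h | h | h
    · exact absurd h1 (pow_lt_one₀ zero_le' h hp0).ne
    · exact h
    · exact absurd h1 (one_lt_pow₀ h hp0).ne'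
  unfold fuPsi
  rw [Valuation.map_pow, h2, one_pow]

end psi

/-! ## The twisted average -/

section tw

variable {p : ℕ} [Fact p.Prime] {M : Type} [AddCommGroup M] [Fintype M]

open Classical in
/-- The weight `ψ(-t)` on `L`, `0` outside. -/
def fuWt (ζ : _root_.Fermat.Agent.S56.Qb) (ξ : M →+ ZMod p) (L : AddSubgroup M) (t : M) : _root_.Fermat.Agent.S56.Qb :=
  if t ∈ L then fuPsi ζ ξ (-t) else 0

/-- `T f (y) = ∑_{t ∈ L} ψ(-t) f (y + t)`. -/
def fuTw (ζ : _root_.Fermat.Agent.S56.Qb) (ξ : M →+ ZMod p) (L : AddSubgroup M) (f : M → _root_.Fermat.Agent.S56.Qb) (y : M) : _root_.Fermat.Agent.S56.Qb :=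
  ∑ t : M, fuWt ζ ξ L t * f (y + t)

variable {ζ : _root_.Fermat.Agent.S56.Qb} (hζ : ζ ^ p = 1) (ξ : M →+ ZMod p) (L : AddSubgroup M)

theorem fuWt_zero (ζ : _root_.Fermat.Agent.S56.Qb) : fuWt ζ ξ L 0 = 1 := by
  unfold fuWt
  rw [if_pos L.zero_mem, neg_zero, fuPsi_zero]

include hζ in
theorem fuWt_shift {t₀ : M} (ht₀ : t₀ ∈ L) (t : M) :
    fuWt ζ ξ L (-t₀ + t) = fuPsi ζ ξ t₀ * fuWt ζ ξ L t := by
  unfold fuWt
  by_cases ht : t ∈ L
  · rw [if_pos ht, if_pos (L.add_mem (L.neg_mem ht₀) ht), ← fuPsi_add hζ]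
    congr 1
    abel
  · have : -t₀ + t ∉ L := by
      intro h
      apply ht
      have := L.add_mem ht₀ h
      rwa [add_neg_cancel_left] at this
    rw [if_neg ht, if_neg this, mul_zero]

theorem valuation_fuWt_le_one (hζ : ζ ^ p = 1) (P : ValuationSubring _root_.Fermat.Agent.S56.Qb) (t : M) :
    P.valuation (fuWt ζ ξ L t) ≤ 1 := by
  unfold fuWt
  split_ifs
  · exact (valuation_fuPsi hζ ξ P _).le
  · rw [Valuation.map_zero]; exact zero_le'

theorem fuWt_map (ζ : _root_.Fermat.Agent.S56.Qb) (σ : GQ) (hσ : σ ζ = ζ) (t : M) :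
    σ (fuWt ζ ξ L t) = fuWt ζ ξ L t := by
  unfold fuWt
  split_ifs
  · exact fuPsi_map ξ ζ σ hσ _
  · exact map_zero σ

include hζ in
/-- (T1) `T f (y + t₀) = ψ(t₀) T f (y)` for `t₀ ∈ L`. -/
theorem fuTw_add_mem (f : M → _root_.Fermat.Agent.S56.Qb) (y : M) {t₀ : M} (ht₀ : t₀ ∈ L) :
    fuTw ζ ξ L f (y + t₀) = fuPsi ζ ξ t₀ * fuTw ζ ξ L f y := by
  unfold fuTw
  rw [Finset.mul_sum]
  rw [← Equiv.sum_comp (Equiv.addLeft t₀)
    (fun t' => fuPsi ζ ξ t₀ * (fuWt ζ ξ L t' * f (y + t')))]
  refine Finset.sum_congr rfl fun t _ => ?_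
  simp only [Equiv.coe_addLeft]
  have h := fuWt_shift hζ ξ L ht₀ (t₀ + t)
  rw [neg_add_cancel_left] at h
  rw [← mul_assoc, ← h, add_assoc]

/-- (T3) `T f (w + y) = ∑ a_k(w) T b_k (y)` when `f (u + v) = ∑ a_k(u) b_k(v)`. -/
theorem fuTw_comul (ζ : _root_.Fermat.Agent.S56.Qb) {f : M → _root_.Fermat.Agent.S56.Qb} {n : ℕ} {a b : Fin n → M → _root_.Fermat.Agent.S56.Qb}
    (hab : ∀ u v : M, f (u + v) = ∑ k, a k u * b k v) (w y : M) :
    fuTw ζ ξ L f (w + y) = ∑ k, a k w * fuTw ζ ξ L (b k) y := by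
  unfold fuTw
  simp only [Finset.mul_sum]
  rw [Finset.sum_comm]
  refine Finset.sum_congr rfl fun t _ => ?_
  rw [add_assoc, hab, Finset.mul_sum]
  refine Finset.sum_congr rfl fun k _ => ?_
  ring

/-- `T` is additive and `ℤ_(p)`-homogeneous in `f`. -/
theorem fuTw_sum_smul (ζ : _root_.Fermat.Agent.S56.Qb) {n : ℕ} (c : Fin n → Zl p) (e : Fin n → M → _root_.Fermat.Agent.S56.Qb) (y : M) :
    fuTw ζ ξ L (∑ i, c i • e i) y = ∑ i, algebraMap (Zl p) _root_.Fermat.Agent.S56.Qb (c i) * fuTw ζ ξ L (e i) y := by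
  unfold fuTw
  simp only [sum_smul_apply', Finset.mul_sum]
  rw [Finset.sum_comm]
  refine Finset.sum_congr rfl fun i _ => Finset.sum_congr rfl fun t _ => ?_
  ring

end tw

/-! ## Hopf lattices -/

section lattice

variable {p : ℕ} [Fact p.Prime] {M : Type} [AddCommGroup M] [Fintype M]
  {act : GQ → M → M} {Λ : Subalgebra (Zl p) (M → _root_.Fermat.Agent.S56.Qb)}

/-- Evaluation at a point, as a character of the multiplicative monoid of `Λ`. -/
def fuEv (Λ : Subalgebra (Zl p) (M → _root_.Fermat.Agent.S56.Qb)) (t : M) : ↥Λ →* _root_.Fermat.Agent.S56.Qb where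
  toFun f := (f : M → _root_.Fermat.Agent.S56.Qb) t
  map_one' := rfl
  map_mul' _ _ := rfl

theorem fuEv_injective (hΛ : IsHopfLattice p act Λ) : Function.Injective (fuEv Λ) := by
  intro t₁ t₂ h
  by_contra hne
  obtain ⟨f, hf, hfne⟩ := hΛ.separates _ _ hne
  exact hfne (congrArg (fun φ : ↥Λ →* _root_.Fermat.Agent.S56.Qb => φ ⟨f, hf⟩) h)

/-- **Nondegeneracy**: some `f ∈ Λ` has `T f 0 ≠ 0`. -/
theorem exists_fuTw_ne_zero (hΛ : IsHopfLattice p act Λ) (ζ : _root_.Fermat.Agent.S56.Qb) (ξ : M →+ ZMod p)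
    (L : AddSubgroup M) : ∃ f ∈ Λ, fuTw ζ ξ L f 0 ≠ 0 := by
  by_contra hcon
  push_neg at hcon
  have hli : LinearIndependent _root_.Fermat.Agent.S56.Qb (fun t : M => (fuEv Λ t : ↥Λ → _root_.Fermat.Agent.S56.Qb)) :=
    (linearIndependent_monoidHom ↥Λ _root_.Fermat.Agent.S56.Qb).comp (fuEv Λ) (fuEv_injective hΛ)
  have hsum : ∑ t : M, fuWt ζ ξ L t • (fuEv Λ t : ↥Λ → _root_.Fermat.Agent.S56.Qb) = 0 := by
    funext f
    have := hcon f.1 f.2
    unfold fuTw at this
    simp only [zero_add] at this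
    simpa [Finset.sum_apply, fuEv] using this
  have h0 := (Fintype.linearIndependent_iff.mp hli) _ hsum 0
  rw [fuWt_zero] at h0
  exact one_ne_zero h0

variable (P : ValuationSubring _root_.Fermat.Agent.S56.Qb)

theorem valuation_apply_le_one (hΛ : IsHopfLattice p act Λ) (hP : P.LiesOverPrime p)
    {f : M → _root_.Fermat.Agent.S56.Qb} (hf : f ∈ Λ) (m : M) : P.valuation (f m) ≤ 1 :=
  valuation_le_one_of_isIntegral P p (Fact.out : p.Prime) hP (hΛ.isIntegral_apply hf m)

/-- There is `e ∈ Λ` with `T e 0 ≠ 0` of maximal valuation. -/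
theorem exists_fuTw_max (hΛ : IsHopfLattice p act Λ) (hP : P.LiesOverPrime p) (ζ : _root_.Fermat.Agent.S56.Qb)
    (ξ : M →+ ZMod p) (L : AddSubgroup M) :
    ∃ e ∈ Λ, fuTw ζ ξ L e 0 ≠ 0 ∧
      ∀ f ∈ Λ, P.valuation (fuTw ζ ξ L f 0) ≤ P.valuation (fuTw ζ ξ L e 0) := by
  classical
  obtain ⟨n, e, he, -, -, hexp⟩ := hΛ.exists_basis
  obtain ⟨f₀, hf₀, hne₀⟩ := exists_fuTw_ne_zero hΛ ζ ξ L
  have hbound : ∀ (g : _root_.Fermat.Agent.S56.Qb), (∀ i, P.valuation (fuTw ζ ξ L (e i) 0) ≤ P.valuation g) →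
      ∀ f ∈ Λ, P.valuation (fuTw ζ ξ L f 0) ≤ P.valuation g := by
    intro g hg f hf
    obtain ⟨c, rfl⟩ := hexp f hf
    rw [fuTw_sum_smul]
    refine Valuation.map_sum_le _ fun i _ => ?_
    rw [Valuation.map_mul]
    calc P.valuation (algebraMap (Zl p) _root_.Fermat.Agent.S56.Qb (c i)) * P.valuation (fuTw ζ ξ L (e i) 0)
        ≤ 1 * P.valuation g :=
          mul_le_mul' (valuation_Zl_le_one P p (Fact.out : p.Prime) hP _) (hg i)
      _ = P.valuation g := one_mul _
  have hn : Nonempty (Fin n) := by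
    by_contra hemp
    rw [not_nonempty_iff] at hemp
    have := hbound 0 (fun i => (hemp.false i).elim) f₀ hf₀
    rw [Valuation.map_zero, le_zero_iff, Valuation.zero_iff] at this
    exact hne₀ this
  obtain ⟨i₀, -, hi₀⟩ := Finset.exists_max_image (Finset.univ : Finset (Fin n))
    (fun i => P.valuation (fuTw ζ ξ L (e i) 0)) ⟨hn.some, Finset.mem_univ _⟩
  have hmax := hbound (fuTw ζ ξ L (e i₀) 0) (fun i => hi₀ i (Finset.mem_univ _))
  refine ⟨e i₀, he i₀, ?_, hmax⟩
  intro h0
  have := hmax f₀ hf₀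
  rw [h0, Valuation.map_zero, le_zero_iff, Valuation.zero_iff] at this
  exact hne₀ this

end lattice

/-! ## The theorem -/

/-- **FU** (unit resolvent): the frozen FLAT-O leaf `FlatUnitStatement` of
`S56/H906/FlatOSpec.lean`. -/
theorem flatUnit : Fermat.Agent.S56.H906.FlatUnitStatement := by
  intro p _ M _ _ act Λ hΛ _ P hP ζ hζ L hfix hdiff ξ x
  classical
  haveI : Fintype M := Fintype.ofFinite M
  have hΛ' : IsHopfLattice p act Λ := hΛ
  have hζp : ζ ^ p = 1 := hζ.pow_eq_one
  -- the normaliser `s`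
  obtain ⟨e, he, hs0, hmax⟩ := exists_fuTw_max P hΛ' hP ζ ξ L
  set s : _root_.Fermat.Agent.S56.Qb := fuTw ζ ξ L e 0 with hs
  have hvs0 : P.valuation s ≠ 0 := (Valuation.ne_zero_iff _).mpr hs0
  -- `v(T f y) ≤ v(s)`
  have hbound : ∀ f ∈ Λ, ∀ y : M, P.valuation (fuTw ζ ξ L f y) ≤ P.valuation s := by
    intro f hf y
    obtain ⟨n, a, b, ha, hb, hab⟩ := hΛ'.comul_mem f hf
    have h := fuTw_comul ξ L ζ hab y 0
    rw [add_zero] at h
    rw [h]
    refine Valuation.map_sum_le _ fun k _ => ?_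
    rw [Valuation.map_mul]
    calc P.valuation (a k y) * P.valuation (fuTw ζ ξ L (b k) 0)
        ≤ 1 * P.valuation s :=
          mul_le_mul' (valuation_apply_le_one P hΛ' hP (ha k) y) (hmax _ (hb k))
      _ = P.valuation s := one_mul _
  -- equivariance of `T f` under `H`
  have hequiv : ∀ f ∈ Λ, ∀ σ ∈ P.inertiaSubgroupIn ℚ, σ ζ = ζ → ∀ y : M,
      σ (fuTw ζ ξ L f y) = fuTw ζ ξ L f (act σ y) := by
    intro f hf σ hσ hσζ y
    unfold fuTw
    rw [map_sum]
    refine Finset.sum_congr rfl fun t _ => ?_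
    rw [map_mul, fuWt_map ξ L ζ σ hσζ]
    by_cases ht : t ∈ L
    · rw [← hΛ'.equivariant f hf σ, hΛ'.act_add, hfix σ hσ hσζ t ht]
    · unfold fuWt
      rw [if_neg ht, zero_mul, zero_mul]
  -- some `T b (x)` has the valuation of `s`
  obtain ⟨n, a, b, ha, hb, hab⟩ := hΛ'.comul_mem e he
  have hsx : s = ∑ k, a k (-x) * fuTw ζ ξ L (b k) x := by
    have h := fuTw_comul ξ L ζ hab (-x) x
    rw [neg_add_cancel] at h
    exact h
  obtain ⟨k, hk⟩ : ∃ k, P.valuation (fuTw ζ ξ L (b k) x) = P.valuation s := by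
    by_contra hcon
    push_neg at hcon
    have hlt : P.valuation s < P.valuation s := by
      conv_lhs => rw [hsx]
      refine Valuation.map_sum_lt _ hvs0 fun k _ => ?_
      rw [Valuation.map_mul]
      calc P.valuation (a k (-x)) * P.valuation (fuTw ζ ξ L (b k) x)
          ≤ 1 * P.valuation (fuTw ζ ξ L (b k) x) :=
            mul_le_mul' (valuation_apply_le_one P hΛ' hP (ha k) (-x)) le_rfl
        _ = P.valuation (fuTw ζ ξ L (b k) x) := one_mul _
        _ < P.valuation s := lt_of_le_of_ne (hbound _ (hb k) x) (hcon k)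
    exact lt_irrefl _ hlt
  refine ⟨fuTw ζ ξ L (b k) x / s, ?_, fun σ hσ hσζ => ?_⟩
  · rw [map_div₀, hk, div_self hvs0]
  · have hact0 : act σ 0 = 0 := hΛ'.act_zero σ
    have hσs : σ s = s := by
      rw [hs, hequiv e he σ hσ hσζ 0, hact0]
    have hmem : act σ x - x ∈ L := hdiff σ hσ hσζ x
    have hx : act σ x = x + (act σ x - x) := by abel
    rw [map_div₀, hσs, hequiv _ (hb k) σ hσ hσζ x, hx, fuTw_add_mem hζp ξ L _ x hmem]
    have : x + (act σ x - x) = act σ x := by abel
    rw [this]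
    unfold fuPsi
    rw [mul_div_assoc]

end Fermat.Agent.S56.H656

end

end
-- ===== PACK-END S56/H656/FlatUnit.lean

-- ===== PACK-BEGIN S55/H713/GoodLattice.lean
section


/-!
# Existence of a good lattice in a Galois-stable complete discrete valuation ring
-/

set_option autoImplicit false
set_option linter.unusedSectionVars false

open IsLocalRing

namespace Fermat.Agent.S55.H713

variable {F E : Type*} [Field F] [Field E] [Algebra F E] [FiniteDimensional F E] [IsGalois F E]
variable {O : ValuationSubring E}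

/-- The action of the Galois group on a stable valuation subring. -/
@[reducible] def galAction (hstab : GalStable F O) : MulSemiringAction Gal(E/F) O where
  smul g x := ⟨g x.1, hstab g x.1 x.2⟩
  one_smul _ := Subtype.ext rfl
  mul_smul _ _ _ := Subtype.ext rfl
  smul_zero g := Subtype.ext (map_zero g)
  smul_add g _ _ := Subtype.ext (map_add g _ _)
  smul_one g := Subtype.ext (map_one g)
  smul_mul g _ _ := Subtype.ext (map_mul g _ _)

lemma coe_galAction_smul (hstab : GalStable F O) (g : Gal(E/F)) (x : O) :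
    letI := galAction hstab
    ((g • x : O) : E) = g (x : E) := rfl

/-- The lattice inside `O`. -/
def latO (O : ValuationSubring E) (t : F) : AddSubgroup O :=
  (normLat O t).comap (O.subtype : O →+* E).toAddMonoidHom

lemma mem_latO {t : F} {x : O} : x ∈ latO O t ↔ (x : E) ∈ normLat O t := Iff.rfl

variable [IsDiscreteValuationRing O]

section

variable {p : F} (hp : IsParam O p) (hstab : GalStable F O)

include hp hstab in
lemma mem_lat_latO {t : F} (ht : t ≠ 0) (hθ : t • nb F E 1 ∈ O) (k : ℕ) (x : O) :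
    x ∈ lat hp.toO (latO O t) k ↔ (x : E) ∈ normLat O (p ^ k * t) := by
  constructor
  · intro hx
    obtain ⟨a, ha, rfl⟩ := mem_lat.1 hx
    have : ((hp.toO ^ k * a : O) : E) = p ^ k • (a : E) := by
      rw [Subring.coe_mul, hp.coe_toO_pow, Algebra.smul_def]
    rw [this]
    exact smul_mem_normLat_mul (hp.pow_ne_zero k) ha
  · intro hx
    have h1 : (p ^ k)⁻¹ • (x : E) ∈ normLat O t := (mem_normLat_mul (hp.pow_ne_zero k)).1 hx
    have h2 : (p ^ k)⁻¹ • (x : E) ∈ O := normLat_le hstab ht hθ h1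
    refine mem_lat.2 ⟨⟨_, h2⟩, h1, ?_⟩
    apply Subtype.ext
    rw [Subring.coe_mul, hp.coe_toO_pow]
    change algebraMap F E (p ^ k) * ((p ^ k)⁻¹ • (x : E)) = x
    rw [← Algebra.smul_def, smul_smul, mul_inv_cancel₀ (hp.pow_ne_zero k), one_smul]

end

/-- **Existence of a good lattice.** -/
theorem exists_goodLattice (hstab : GalStable F O) (σ : Gal(E/F))
    (hσ : ∀ g, g ∈ Subgroup.zpowers σ) :
    letI := galAction hstab
    ∃ (π : O) (M : AddSubgroup O), IsGoodLattice σ π M := by
  classical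
  let _ := galAction hstab
  obtain ⟨p, hp⟩ := exists_isParam (F := F) hstab
  obtain ⟨N₁, hN₁⟩ := hp.exists_pow_smul_mem (nb F E 1)
  -- a common exponent for the dual basis
  have hN₀ : ∃ N₀, ∀ g : Gal(E/F), p ^ N₀ • dnb F E g ∈ O := by
    choose k hk using fun g : Gal(E/F) => hp.exists_pow_smul_mem (dnb F E g)
    exact ⟨Finset.univ.sup k, fun g =>
      hp.smul_mem_of_le (Finset.le_sup (Finset.mem_univ g)) (hk g)⟩
  obtain ⟨N₀, hN₀⟩ := hN₀
  set m := N₀ + 2 * N₁ + 1 with hm
  have ht : p ^ m ≠ 0 := hp.pow_ne_zero m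
  have hθ : p ^ m • nb F E 1 ∈ O := hp.smul_mem_of_le (by omega) hN₁
  have hlat := mem_lat_latO hp hstab ht hθ
  -- openness in the form `p ^ (N₀ + j) • O ⊆ normLat (p ^ j)`
  have hopen : ∀ (j c : ℕ) (y : E), y ∈ O → N₀ + j ≤ c → p ^ c • y ∈ normLat O (p ^ j) := by
    intro j c y hy hc
    obtain ⟨d, rfl⟩ := Nat.exists_eq_add_of_le hc
    have e : p ^ (N₀ + j + d) • y = p ^ (N₀ + j) • (p ^ d • y) := by
      rw [smul_smul, ← pow_add]
    rw [e]
    refine smul_mem_normLat_of_mem hstab (fun g => ?_) (hp.smul_mem hy d)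
    have : p ^ (N₀ + j) / p ^ j = p ^ N₀ := by
      rw [pow_add, mul_div_assoc, div_self (hp.pow_ne_zero j), mul_one]
    rw [this]
    exact hN₀ g
  -- elements of the lattice are divisible by `p ^ (m - N₁)`
  have hdiv : ∀ x : E, x ∈ normLat O (p ^ m) →
      ∃ y ∈ O, x = p ^ (N₀ + N₁ + 1) • y := by
    intro x hx
    have e : p ^ m = p ^ (N₀ + N₁ + 1) * p ^ N₁ := by
      rw [← pow_add]; congr 1; omega
    rw [e] at hx
    have h1 := (mem_normLat_mul (hp.pow_ne_zero _)).1 hx
    refine ⟨_, normLat_le hstab (hp.pow_ne_zero N₁) hN₁ h1, ?_⟩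
    rw [smul_smul, mul_inv_cancel₀ (hp.pow_ne_zero _), one_smul]
  refine ⟨hp.toO, latO O (p ^ m), ?_⟩
  refine
    { pi_fixed := ?_
      pi_mem := hp.toO_mem_maximalIdeal
      pi_ne := hp.toO_ne_zero
      smul_mem := ?_
      pi_mul_mem := ?_
      mul_mem := ?_
      isOpen := ?_
      le_max := ?_
      ex1 := ?_
      ex2 := ?_ }
  · intro g
    apply Subtype.ext
    change g (algebraMap F E p) = algebraMap F E p
    exact g.commutes p
  · intro g a ha
    exact galois_mem_normLat g ha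
  · intro a ha
    have : ((hp.toO * a : O) : E) = p • (a : E) := by
      rw [Subring.coe_mul, Algebra.smul_def]; rfl
    rw [mem_latO, this]
    exact smul_mem_normLat hp.mem ha
  · intro a ha b hb
    obtain ⟨a', ha', hae⟩ := hdiv a ha
    obtain ⟨b', hb', hbe⟩ := hdiv b hb
    have hab : ((a * b : O) : E) ∈ normLat O (p ^ 1 * p ^ m) := by
      have e : ((a * b : O) : E) = p ^ (N₀ + (m + 1)) • (a' * b') := by
        rw [Subring.coe_mul, hae, hbe, smul_mul_smul_comm, ← pow_add]
        congr 2; omega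
      rw [e, ← pow_add, add_comm 1 m]
      exact hopen (m + 1) _ _ (O.mul_mem _ _ ha' hb') le_rfl
    obtain ⟨c, hc, hce⟩ := mem_lat.1 ((hlat 1 (a * b)).2 hab)
    exact ⟨c, hc, by rw [← hce, pow_one]⟩
  · intro k
    obtain ⟨e, he⟩ := hp.exists_pow_le
    refine ⟨e * (N₀ + (k + m)), fun x hx => ?_⟩
    obtain ⟨y, hy⟩ := he _ x hx
    rw [hlat k x, ← pow_add]
    have : (x : E) = p ^ (N₀ + (k + m)) • (y : E) := by
      rw [hy, Subring.coe_mul, hp.coe_toO_pow, Algebra.smul_def]
    rw [this]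
    exact hopen (k + m) _ _ y.2 le_rfl
  · intro a ha
    obtain ⟨a', ha', hae⟩ := hdiv a ha
    have : a = hp.toO ^ (N₀ + N₁ + 1) * ⟨a', ha'⟩ := by
      apply Subtype.ext
      rw [Subring.coe_mul, hp.coe_toO_pow, hae, Algebra.smul_def]
    rw [this]
    exact Ideal.mul_mem_right _ _
      (Ideal.pow_mem_of_mem _ hp.toO_mem_maximalIdeal _ (by omega))
  · intro a ha hsa
    have h1 : σ (a : E) - a ∈ normLat O (p * p ^ m) := by
      have := (hlat 1 _).1 hsa
      rwa [pow_one] at this
    obtain ⟨b, hb, hab⟩ := ex1_E hσ ha h1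
    have hbO : b ∈ O := normLat_le hstab ht hθ hb
    refine ⟨⟨b, hbO⟩, hb, ?_⟩
    rw [hlat 1, pow_one]
    have : ((a - ∑ g : Gal(E/F), g • (⟨b, hbO⟩ : O) : O) : E) =
        (a : E) - ∑ g : Gal(E/F), g b := by
      rw [AddSubgroupClass.coe_sub]
      congr 1
      rw [← O.subtype_apply, map_sum]
      rfl
    rw [this]
    exact hab
  · intro a ha hsa
    have h1 : ∑ g : Gal(E/F), g (a : E) ∈ normLat O (p * p ^ m) := by
      have := (hlat 1 _).1 hsa
      rw [pow_one] at this
      have e : ((∑ g : Gal(E/F), g • a : O) : E) = ∑ g : Gal(E/F), g (a : E) := by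
        rw [← O.subtype_apply, map_sum]
        rfl
      rwa [e] at this
    obtain ⟨b, hb, hab⟩ := ex2_E hσ ht ha h1
    have hbO : b ∈ O := normLat_le hstab ht hθ hb
    refine ⟨⟨b, hbO⟩, hb, ?_⟩
    rw [hlat 1, pow_one]
    exact hab

end Fermat.Agent.S55.H713

end
-- ===== PACK-END S55/H713/GoodLattice.lean

-- ===== PACK-BEGIN S55/Local/H953/T3.lean
section




/-!
# S55, layer L: (T3) the local norm index theorem `CyclicNormIndexStatement`

Proof: put the `𝔪`-adic norm on `F = Frac A` (`H953/DVRNormed.lean`: `F` becomes a locally compact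
ultrametric nontrivially normed field), extend it to `K` by the spectral norm and apply
`Fermat.Agent.S55.H953.norm_index_eq_finrank_of_proper`.
-/

set_option autoImplicit false

namespace Fermat.Agent.S55.Local.H953

open Fermat.Agent.S55.H953

/-- **(T3)** local norm index: `[Kˣ : N(Lˣ)] = [L : K]` for `L / K` cyclic. -/
theorem cyclicNormIndex : CyclicNormIndexStatement := by
  intro A F _ _ _ _ _ _ _ _ _ K _ _ _ L _ _ _ _ _ _ hcyc
  letI : NontriviallyNormedField F := dvrNontriviallyNormedField A F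
  haveI : IsUltrametricDist F := dvr_isUltrametricDist A F
  haveI : ProperSpace F := dvr_properSpace A F
  letI : NontriviallyNormedField K := spectralNorm.nontriviallyNormedField F K
  letI : NormedAlgebra F K := spectralNorm.normedAlgebra F K
  haveI : IsUltrametricDist K := IsUltrametricDist.of_normedAlgebra F
  haveI : ProperSpace K := FiniteDimensional.proper F K
  haveI := hcyc
  exact norm_index_eq_finrank_of_proper K L

end Fermat.Agent.S55.Local.H953

end
-- ===== PACK-END S55/Local/H953/T3.lean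

-- ===== PACK-BEGIN S55/T/NakPGroupH719.lean
section


/-!
# S55, layer T, leaf T6a (Nakayama) — modules over `p`-groups killed by `p` (helper719)

* `exists_fixed_ne_zero` : a nonzero module killed by `p` over a finite `p`-group has a nonzero
  fixed vector;
* `exists_iso_coind₁_of_pGroup` : if moreover `H¹(P, V) = 0` (and the invariants are a direct
  summand as `k`-module, automatic for `k = ℤ`), then `V ≅ coind₁ (V^P)`.
-/

set_option autoImplicit false
set_option linter.style.haveILetI false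

open CategoryTheory Limits groupCohomology Rep

namespace Fermat.Agent.S55.T.H719

open Fermat.Agent.S55.H572

noncomputable section

variable {k : Type} [CommRing k]

/-- **Fixed point lemma**: a nonzero module killed by `p` over a finite `p`-group has a nonzero
fixed vector. -/
theorem exists_fixed_ne_zero {P : Type} [Group P] [Finite P] {p : ℕ} [Fact p.Prime]
    (hP : IsPGroup p P) (M : Rep.{0} k P) (hpM : ∀ m : M.V, p • m = 0) (hM : Nontrivial M.V) :
    ∃ m : M.V, m ≠ 0 ∧ ∀ g : P, M.ρ g m = m := by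
  obtain ⟨m₀, hm₀⟩ := exists_ne (0 : M.V)
  let S : Set M.V := Set.range (fun g : P => M.ρ g m₀)
  haveI : Finite S := Set.finite_range _
  let M₀ : AddSubgroup M.V := AddSubgroup.closure S
  have hstable : ∀ (g : P) (m : M.V), m ∈ M₀ → M.ρ g m ∈ M₀ := by
    intro g m hm
    induction hm using AddSubgroup.closure_induction with
    | mem x hx =>
      obtain ⟨h, rfl⟩ := hx
      apply AddSubgroup.subset_closure
      refine ⟨g * h, ?_⟩
      change M.ρ (g * h) m₀ = M.ρ g (M.ρ h m₀)
      rw [map_mul]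
      rfl
    | zero => rw [map_zero]; exact M₀.zero_mem
    | add x y _ _ hx hy => rw [map_add]; exact M₀.add_mem hx hy
    | neg x _ hx => rw [map_neg]; exact M₀.neg_mem hx
  letI : MulAction P M₀ :=
    { smul := fun g m => ⟨M.ρ g m.1, hstable g m.1 m.2⟩
      one_smul := fun m => by
        apply Subtype.ext
        change M.ρ 1 m.1 = m.1
        rw [map_one]
        rfl
      mul_smul := fun g h m => by
        apply Subtype.ext
        change M.ρ (g * h) m.1 = M.ρ g (M.ρ h m.1)
        rw [map_mul]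
        rfl }
  have hsmul : ∀ (g : P) (m : M₀), ((g • m : M₀) : M.V) = M.ρ g m.1 := fun _ _ => rfl
  have hfin : Finite M₀ := by
    haveI : AddGroup.FG M₀ := AddGroup.closure_finite_fg S
    apply AddCommGroup.finite_of_fg_isAddTorsion
    intro m
    rw [isOfFinAddOrder_iff_nsmul_eq_zero]
    refine ⟨p, (Fact.out : p.Prime).pos, ?_⟩
    apply Subtype.ext
    rw [AddSubgroup.coe_nsmul]
    exact hpM _
  have hm₀mem : m₀ ∈ M₀ := by
    apply AddSubgroup.subset_closure
    refine ⟨1, ?_⟩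
    change M.ρ 1 m₀ = m₀
    rw [map_one]
    rfl
  have hpg : IsPGroup p (Multiplicative M₀) := by
    intro x
    refine ⟨1, ?_⟩
    rw [pow_one]
    change Multiplicative.ofAdd (p • Multiplicative.toAdd x) = 1
    have : p • Multiplicative.toAdd x = 0 := by
      apply Subtype.ext
      rw [AddSubgroup.coe_nsmul]
      exact hpM _
    rw [this]
    rfl
  have hcard : p ∣ Nat.card M₀ := by
    haveI : Finite (Multiplicative M₀) := hfin
    rcases hpg.card_eq_or_dvd with h1 | h1
    · exfalso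
      have h2 : Nat.card M₀ = 1 := h1
      rw [Nat.card_eq_one_iff_unique] at h2
      obtain ⟨hs, _⟩ := h2
      have := hs.elim (⟨m₀, hm₀mem⟩ : M₀) 0
      exact hm₀ (congrArg Subtype.val this)
    · exact h1
  have h0 : (0 : M₀) ∈ MulAction.fixedPoints P M₀ := by
    intro g
    apply Subtype.ext
    rw [hsmul]
    exact map_zero _
  obtain ⟨b, hb, hb0⟩ := hP.exists_fixed_point_of_prime_dvd_card_of_fixed_point M₀ hcard h0
  refine ⟨b.1, ?_, fun g => ?_⟩
  · intro h
    apply hb0
    apply Subtype.ext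
    exact h.symm
  · have := hb g
    exact congrArg Subtype.val this

/-! ## Structure of `p`-torsion modules with vanishing `H¹` over a `p`-group -/

section Structure

variable {P : Type} [Group P]

/-- The coefficient module `V^P` with trivial action. -/
abbrev invCoeff (V : Rep.{0} k P) : Rep.{0} k P := Rep.trivial k P V.ρ.invariants

/-- The comparison map `V ⟶ coind₁ (V^P)`, `v ↦ (x ↦ π (x v))`, attached to a `k`-linear
retraction `π : V → V^P`. -/
def toCoindInv (V : Rep.{0} k P) (π : V.V →ₗ[k] V.ρ.invariants) : V ⟶ coind₁ (invCoeff V) :=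
  Rep.ofHom (ρ := V.ρ) (σ := (coind₁ (invCoeff V)).ρ)
    ⟨coind₁Pi (invCoeff V) (fun x => π ∘ₗ V.ρ x), fun g => by
      apply LinearMap.ext
      intro v
      apply Subtype.ext
      funext x
      change π (V.ρ x (V.ρ g v)) = π (V.ρ (x * g) v)
      rw [map_mul]
      rfl⟩

theorem toCoindInv_hom_apply (V : Rep.{0} k P) (π : V.V →ₗ[k] V.ρ.invariants) (v : V.V)
    (x : P) : ((toCoindInv V π).hom v).1 x = π (V.ρ x v) := rfl

theorem toCoindInv_injective [Finite P] {p : ℕ} [Fact p.Prime] (hP : IsPGroup p P)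
    (V : Rep.{0} k P) (hpV : ∀ v : V.V, p • v = 0) (π : V.V →ₗ[k] V.ρ.invariants)
    (hπ : ∀ w : V.ρ.invariants, π w = w) : Function.Injective (toCoindInv V π).hom := by
  obtain ⟨φ, hφ⟩ : ∃ φ : V ⟶ coind₁ (invCoeff V), φ = toCoindInv V π := ⟨_, rfl⟩
  have hφapp : ∀ (v : V.V) (x : P), (φ.hom v).1 x = π (V.ρ x v) := by
    subst hφ
    exact toCoindInv_hom_apply V π
  rw [← hφ]
  have hex : (ShortComplex.mk (kernel.ι φ) φ (kernel.condition φ)).Exact :=
    ShortComplex.exact_of_f_is_kernel _ (kernelIsKernel _)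
  rw [rep_exact_iff] at hex
  have hinj : Function.Injective (kernel.ι φ).hom :=
    (Rep.mono_iff_injective _).1 equalizer.ι_mono
  have hsub : Subsingleton (kernel φ).V := by
    by_contra hns
    rw [not_subsingleton_iff_nontrivial] at hns
    have hpN : ∀ n : (kernel φ).V, p • n = 0 := by
      intro n
      apply hinj
      rw [map_nsmul, map_zero]
      exact hpV _
    obtain ⟨n, hn0, hnfix⟩ := exists_fixed_ne_zero hP (kernel φ) hpN hns
    have hv : ∀ g : P, V.ρ g ((kernel.ι φ).hom n) = (kernel.ι φ).hom n := by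
      intro g
      rw [← Rep.hom_comm_apply, hnfix g]
    have hφv : φ.hom ((kernel.ι φ).hom n) = 0 := by
      have := congrArg (fun f : kernel φ ⟶ coind₁ (invCoeff V) => f.hom n) (kernel.condition φ)
      exact this
    have h1 : (φ.hom ((kernel.ι φ).hom n)).1 1 = π ((kernel.ι φ).hom n) := by
      rw [hφapp, map_one]
      rfl
    have h2 : π ((kernel.ι φ).hom n) = ⟨(kernel.ι φ).hom n, hv⟩ := hπ ⟨_, hv⟩
    rw [hφv] at h1
    have h3 : (⟨(kernel.ι φ).hom n, hv⟩ : V.ρ.invariants) = 0 := by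
      rw [← h2, ← h1]
      rfl
    have h4 : (kernel.ι φ).hom n = 0 := congrArg Subtype.val h3
    apply hn0
    apply hinj
    rw [h4, map_zero]
  intro x y hxy
  have h0 : φ.hom (x - y) = 0 := by rw [map_sub, hxy, sub_self]
  obtain ⟨n, hn⟩ := hex (x - y) h0
  have : n = 0 := Subsingleton.elim _ _
  rw [this, map_zero] at hn
  exact sub_eq_zero.1 hn.symm

theorem toCoindInv_surjective [Finite P] {p : ℕ} [Fact p.Prime] (hP : IsPGroup p P)
    (V : Rep.{0} k P) (hpV : ∀ v : V.V, p • v = 0) (hH1 : H1Triv V)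
    (π : V.V →ₗ[k] V.ρ.invariants) (hπ : ∀ w : V.ρ.invariants, π w = w) :
    Function.Surjective (toCoindInv V π).hom := by
  have hinj := toCoindInv_injective hP V hpV π hπ
  obtain ⟨φ, hφ⟩ : ∃ φ : V ⟶ coind₁ (invCoeff V), φ = toCoindInv V π := ⟨_, rfl⟩
  have hφapp : ∀ (v : V.V) (x : P), (φ.hom v).1 x = π (V.ρ x v) := by
    subst hφ
    exact toCoindInv_hom_apply V π
  rw [← hφ] at hinj ⊢
  have hex : (ShortComplex.mk φ (cokernel.π φ) (cokernel.condition φ)).Exact :=
    ShortComplex.exact_of_g_is_cokernel _ (cokernelIsCokernel _)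
  rw [rep_exact_iff] at hex
  have hsurj : Function.Surjective (cokernel.π φ).hom :=
    (Rep.epi_iff_surjective _).1 coequalizer.π_epi
  have hqφ : ∀ v : V.V, (cokernel.π φ).hom (φ.hom v) = 0 := fun v =>
    congrArg (fun f : V ⟶ cokernel φ => f.hom v) (cokernel.condition φ)
  -- elements of `coind₁ (V^P)` are killed by `p`
  have hpW : ∀ f : (coind₁ (invCoeff V)).V, p • f = 0 := by
    intro f
    apply Subtype.ext
    funext x
    change p • f.1 x = 0
    apply Subtype.ext
    rw [Submodule.coe_smul_of_tower]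
    exact hpV _
  have hsub : Subsingleton (cokernel φ).V := by
    by_contra hns
    rw [not_subsingleton_iff_nontrivial] at hns
    have hpC : ∀ c : (cokernel φ).V, p • c = 0 := by
      intro c
      obtain ⟨f, rfl⟩ := hsurj c
      rw [← map_nsmul, hpW, map_zero]
    obtain ⟨c, hc0, hcfix⟩ := exists_fixed_ne_zero hP (cokernel φ) hpC hns
    obtain ⟨f, rfl⟩ := hsurj c
    have hker : ∀ g : P, (cokernel.π φ).hom ((coind₁ (invCoeff V)).ρ g f - f) = 0 := by
      intro g
      rw [map_sub, Rep.hom_comm_apply, hcfix g, sub_self]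
    have hex' : ∀ g : P, ∃ v : V.V, φ.hom v = (coind₁ (invCoeff V)).ρ g f - f :=
      fun g => hex _ (hker g)
    choose c₁ hc₁ using hex'
    have hcoc : ∀ g h : P, c₁ (g * h) = V.ρ g (c₁ h) + c₁ g := by
      intro g h
      apply hinj
      have e1 : (coind₁ (invCoeff V)).ρ (g * h) f =
          (coind₁ (invCoeff V)).ρ g ((coind₁ (invCoeff V)).ρ h f) := by
        rw [map_mul]
        rfl
      rw [hc₁ (g * h), map_add, Rep.hom_comm_apply, hc₁ h, hc₁ g, map_sub, e1]
      abel
    obtain ⟨y, hy⟩ := hH1 c₁ hcoc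
    have hfix : ∀ g : P, (coind₁ (invCoeff V)).ρ g (f - φ.hom y) = f - φ.hom y := by
      intro g
      have h1 : φ.hom (V.ρ g y - y) = (coind₁ (invCoeff V)).ρ g f - f := by
        rw [← hy, hc₁]
      rw [map_sub, Rep.hom_comm_apply] at h1
      rw [map_sub]
      rw [sub_eq_sub_iff_add_eq_add] at h1 ⊢
      rw [← h1]
      abel
    have hconst : ∀ x : P, (f - φ.hom y).1 x = (f - φ.hom y).1 1 := by
      intro x
      have h5 := congrArg (fun F : (coind₁ (invCoeff V)).V => F.1 1) (hfix x)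
      have h6 : ((coind₁ (invCoeff V)).ρ x (f - φ.hom y)).1 1 = (f - φ.hom y).1 (1 * x) :=
        coind_ρ_coe _ x _ 1
      rw [one_mul] at h6
      rw [← h6]
      exact h5
    have hw : φ.hom (((f - φ.hom y).1 1 : V.ρ.invariants) : V.V) = f - φ.hom y := by
      apply Subtype.ext
      funext x
      rw [hφapp, hconst x]
      have h3 : V.ρ x (((f - φ.hom y).1 1 : V.ρ.invariants) : V.V) =
          (((f - φ.hom y).1 1 : V.ρ.invariants) : V.V) := ((f - φ.hom y).1 1).2 x
      rw [h3]
      exact hπ _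
    have hf : f = φ.hom (y + (((f - φ.hom y).1 1 : V.ρ.invariants) : V.V)) := by
      rw [map_add, hw]
      abel
    apply hc0
    rw [hf]
    exact hqφ _
  intro f
  exact hex f (Subsingleton.elim _ _)

/-- **Structure theorem**: over a finite `p`-group `P`, a module `V` killed by `p` with
`H¹(P, V) = 0` whose invariants have a `k`-linear retraction is coinduced:
`V ≅ coind₁ (V^P)`. -/
theorem exists_iso_coind₁_of_pGroup [Finite P] {p : ℕ} [Fact p.Prime] (hP : IsPGroup p P)
    (V : Rep.{0} k P) (hpV : ∀ v : V.V, p • v = 0) (hH1 : H1Triv V)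
    (hret : ∃ π : V.V →ₗ[k] V.ρ.invariants, ∀ w : V.ρ.invariants, π w = w) :
    Nonempty (V ≅ coind₁ (invCoeff V)) := by
  obtain ⟨π, hπ⟩ := hret
  haveI : Mono (toCoindInv V π) :=
    (Rep.mono_iff_injective _).2 (toCoindInv_injective hP V hpV π hπ)
  haveI : Epi (toCoindInv V π) :=
    (Rep.epi_iff_surjective _).2 (toCoindInv_surjective hP V hpV hH1 π hπ)
  haveI : IsIso (toCoindInv V π) := isIso_of_mono_of_epi _
  exact ⟨asIso (toCoindInv V π)⟩

end Structure

end

end Fermat.Agent.S55.T.H719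

end
-- ===== PACK-END S55/T/NakPGroupH719.lean

-- ===== PACK-BEGIN S55/T/T6pH353/SylowClass.lean
section




/-!
# S55, layer T, leaf T6p (helper353): a class module at `p` restricts to a class module over
every `p`-subgroup; corestriction is injective on `H²(P, C)` for a Sylow `p`-subgroup `P`.
-/

set_option autoImplicit false

open CategoryTheory groupCohomology

namespace Fermat.Agent.S55.T.H353

open Fermat.Agent.S55.H572 Fermat.Agent.S55.E1

noncomputable section

/-! ### Elementary group theory -/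

/-- A generator of a finite group has order the cardinality of the group. -/
lemma addOrderOf_eq_card_of_forall_nsmul {M : Type} [AddCommGroup M] (g : M)
    (hgen : ∀ x : M, ∃ n : ℕ, x = n • g) : addOrderOf g = Nat.card M := by
  have htop : AddSubgroup.zmultiples g = ⊤ := by
    rw [eq_top_iff]
    intro x _
    obtain ⟨n, rfl⟩ := hgen x
    exact AddSubgroup.nsmul_mem _ (AddSubgroup.mem_zmultiples g) n
  rw [← Nat.card_zmultiples, htop, AddSubgroup.card_top]

/-! ### Transitivity of restriction -/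

section Transport

variable {k G : Type} [CommRing k] [Group G] (A : Rep.{0} k G) (P : Subgroup G) (K : Subgroup P)

/-- Transitivity of restriction, on cohomology: `Hⁿ(K, (A|_P)|_K) ≅ Hⁿ(K', A|_{K'})` where
`K' = K.map P.subtype` is `K` viewed as a subgroup of `G`. -/
def resResIso353 (n : ℕ) :
    groupCohomology (T.resSub (T.resSub A P) K) n ≅
      groupCohomology (T.resSub A (K.map P.subtype)) n :=
  groupCohomology.mapIso (K.equivMapOfInjective P.subtype P.subtype_injective)
    (LinearEquiv.refl k A.V) (fun g => by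
      ext x
      rfl) n

/-- Compatibility of `resResIso353` with the restriction maps. -/
lemma resMap_resResIso353_inv (n : ℕ) :
    T.resMap A (K.map P.subtype) n ≫ (resResIso353 A P K n).inv =
      T.resMap A P n ≫ T.resMap (T.resSub A P) K n := by
  unfold resResIso353
  rw [groupCohomology.mapIso_inv]
  refine (groupCohomology.map_comp _ _ _ _ n).symm.trans ?_
  refine Eq.trans ?_ (groupCohomology.map_comp _ _ _ _ n)
  exact groupCohomology.map_congr rfl rfl n

lemma resResIso353_inv_resMap (n : ℕ) (x : groupCohomology A n) :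
    (resResIso353 A P K n).inv.hom ((T.resMap A (K.map P.subtype) n).hom x) =
      (T.resMap (T.resSub A P) K n).hom ((T.resMap A P n).hom x) := by
  have h := congrArg (fun f => f.hom x) (resMap_resResIso353_inv A P K n)
  exact h

lemma resResIso353_hom_resMap (n : ℕ) (x : groupCohomology A n) :
    (resResIso353 A P K n).hom.hom ((T.resMap (T.resSub A P) K n).hom ((T.resMap A P n).hom x)) =
      (T.resMap A (K.map P.subtype) n).hom x := by
  rw [← resResIso353_inv_resMap]
  exact congrArg (fun f => f.hom ((T.resMap A (K.map P.subtype) n).hom x))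
    (resResIso353 A P K n).inv_hom_id

lemma card_map_subtype353 : Nat.card (K.map P.subtype) = Nat.card K :=
  (Nat.card_congr (K.equivMapOfInjective P.subtype P.subtype_injective).toEquiv).symm

end Transport

/-! ### Restriction of a class module at `p` to a `p`-subgroup -/

section ClassModule

variable {G : Type} [Group G] [Finite G]

/-- For a `p`-subgroup `P`, the class `res_P γ` has order `|P|`. -/
lemma addOrderOf_resMap_of_classModuleAt {p : ℕ} {C : Rep.{0} ℤ G} {γ : groupCohomology C 2}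
    (hC : IsClassModuleAt p C γ) (P : Subgroup G) (hP : IsPGroup p P) :
    addOrderOf ((T.resMap C P 2).hom γ) = Nat.card P := by
  obtain ⟨-, hcard, hgen⟩ := hC P hP
  rw [addOrderOf_eq_card_of_forall_nsmul _ hgen, hcard]

/-- A class module at `p` restricts to a class module (in the sense of `T.IsClassModule`) over
every `p`-subgroup. -/
theorem isClassModule_of_isPGroup {p : ℕ} {C : Rep.{0} ℤ G} {γ : groupCohomology C 2}
    (hC : IsClassModuleAt p C γ) (P : Subgroup G) (hP : IsPGroup p P) :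
    T.IsClassModule (T.resSub C P) ((T.resMap C P 2).hom γ) := by
  intro K
  have hK' : IsPGroup p (K.map P.subtype) := hP.to_le (Subgroup.map_subtype_le K)
  obtain ⟨h1, hcard, hgen⟩ := hC (K.map P.subtype) hK'
  have hord : addOrderOf ((T.resMap C (K.map P.subtype) 2).hom γ) = Nat.card K := by
    rw [addOrderOf_resMap_of_classModuleAt hC _ hK', card_map_subtype353]
  have hg : (resResIso353 C P K 2).inv.hom ((T.resMap C (K.map P.subtype) 2).hom γ) =
      (T.resMap (T.resSub C P) K 2).hom ((T.resMap C P 2).hom γ) :=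
    resResIso353_inv_resMap C P K 2 γ
  have hg' : (resResIso353 C P K 2).hom.hom
      ((T.resMap (T.resSub C P) K 2).hom ((T.resMap C P 2).hom γ)) =
      (T.resMap C (K.map P.subtype) 2).hom γ :=
    resResIso353_hom_resMap C P K 2 γ
  have hinj : Function.Injective (resResIso353 C P K 2).hom.hom := by
    intro a b hab
    have h := congrArg (resResIso353 C P K 2).inv.hom hab
    have e := fun z => congrArg (fun f => f.hom z) (resResIso353 C P K 2).hom_inv_id
    exact (e a).symm.trans (h.trans (e b))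
  refine ⟨Limits.IsZero.of_iso h1 (resResIso353 C P K 1), ?_, ?_, ?_⟩
  · intro x
    obtain ⟨n, hn⟩ := hgen ((resResIso353 C P K 2).hom.hom x)
    refine ⟨(n : ℤ), hinj ?_⟩
    rw [T.modSMul_eq_zsmul, natCast_zsmul, map_nsmul, hg']
    exact hn
  · intro c hc
    rw [T.modSMul_eq_zsmul] at hc
    have h2 : c • (T.resMap C (K.map P.subtype) 2).hom γ = 0 := by
      rw [← hg', ← map_zsmul, hc, map_zero]
    have h3 := (addOrderOf_dvd_iff_zsmul_eq_zero).2 h2
    rw [hord] at h3
    obtain ⟨d, hd⟩ := h3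
    exact ⟨d, hd⟩
  · rw [T.modSMul_eq_zsmul]
    apply hinj
    rw [map_zsmul, hg', map_zero]
    apply (addOrderOf_dvd_iff_zsmul_eq_zero).1
    rw [hord]

/-- Corestriction from a `p`-subgroup `P` of index prime to `p` is injective on `H²(P, C)` for a
class module `C` at `p`. -/
theorem cor_injective_of_classModuleAt {p : ℕ} {C : Rep.{0} ℤ G} {γ : groupCohomology C 2}
    (hC : IsClassModuleAt p C γ) (P : Subgroup G) (hP : IsPGroup p P)
    (hidx : (Nat.card P).Coprime P.index) [Fintype (G ⧸ P)]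
    (z : groupCohomology (T.resSub C P) 2) (hz : (cor P 2 C).hom z = 0) : z = 0 := by
  obtain ⟨-, -, hgen⟩ := hC P hP
  obtain ⟨n, rfl⟩ := hgen z
  have hcr : (cor P 2 C).hom ((T.resMap C P 2).hom γ) = P.index • γ := by
    have h := congrArg (fun f => f.hom γ) (resH_cor P 2 C)
    exact h
  rw [map_nsmul, hcr] at hz
  have h2 : (n * P.index) • (T.resMap C P 2).hom γ = 0 := by
    rw [mul_smul, ← map_nsmul, ← map_nsmul, hz, map_zero]
  have h3 := (addOrderOf_dvd_iff_nsmul_eq_zero).2 h2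
  rw [addOrderOf_resMap_of_classModuleAt hC P hP] at h3
  have h4 : Nat.card P ∣ n := hidx.dvd_of_dvd_mul_right h3
  apply (addOrderOf_dvd_iff_nsmul_eq_zero).1
  rw [addOrderOf_resMap_of_classModuleAt hC P hP]
  exact h4

end ClassModule

end

end Fermat.Agent.S55.T.H353

end
-- ===== PACK-END S55/T/T6pH353/SylowClass.lean

-- ===== PACK-BEGIN S55/G/FI/TransportH895.lean
section
/-
S55, layer G, leaf **G-FI** (helper895), part 2: from the Herbrand form `FirstIneqSpec`
(`K`, `L`, generator `σ` of `Gal(L/K)`) to helper421's frozen interface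
`FirstInequalityCycSpec` / `FirstInequalitySpec` (`G/Spec1b.lean`, `G/Spec.lean`):
a cyclic group `G` of odd order `n` acting faithfully on the number field `L`.

* `cRepr_congr`, `jRepr_congr`, `divRepr_congr` : the representations of `Defs.lean` only depend
  on the automorphism of `L` induced by `g`;
* `firstInequalityCycSpec_of : FirstIneqSpec → FirstInequalityCycSpec`;
* `firstInequalityCycSpec_of_J`, `firstInequalitySpec_of_J` : the same from the ONLY open input
  `JHerbrandSpec` (Herbrand indices of `J_S`: `h₀ = ∏_{v ∈ S_K} e_v f_v`, `h₁ = 1`);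
  `SUnitsHerbrandSpec` (helper595) and `ClSFiniteSpec` (helper604) are taken from main.

No `sorry`.
-/






set_option autoImplicit false
set_option linter.unusedSectionVars false
set_option linter.style.haveILetI false

open Fermat.Agent.S55.G Fermat.Agent.S55.Herbrand
open scoped NumberField TensorProduct
open IsDedekindDomain

namespace Fermat.Agent.S55.G.FIH895

/-! ## 1. The representations only depend on the induced automorphisms of `L` -/

section Congr

variable (S : Finset Nat.Primes) {G G' L : Type} [Group G] [Group G'] [Field L] [NumberField L]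
  [MulSemiringAction G L] [MulSemiringAction G' L]

lemma fieldAut_congr {g : G} {g' : G'} (h : ∀ x : L, g • x = g' • x) :
    fieldAut G L g = fieldAut G' L g' :=
  AlgEquiv.ext fun x => h x

lemma lRepr_congr {g : G} {g' : G'} (h : ∀ x : L, g • x = g' • x) :
    lRepr G L g = lRepr G' L g' := by
  refine LinearMap.ext fun x => ?_
  apply Additive.toMul.injective
  apply Units.ext
  rw [coe_lRepr_apply, coe_lRepr_apply]
  exact h _

lemma jRepr_congr {g : G} {g' : G'} (h : ∀ x : L, g • x = g' • x) :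
    jRepr G S L g = jRepr G' S L g' := by
  refine LinearMap.ext fun x => ?_
  apply Additive.toMul.injective
  apply Units.ext
  rw [coe_jRepr_apply, coe_jRepr_apply]
  unfold asAut
  simp only [MonoidHom.coe_mk, OneHom.coe_mk]
  rw [fieldAut_congr h]

lemma smul_int_congr {g : G} {g' : G'} (h : ∀ x : L, g • x = g' • x) (x : 𝓞 L) :
    g • x = g' • x := by
  apply Subtype.ext
  exact h x

lemma inv_smul_congr {g : G} {g' : G'} (h : ∀ x : L, g • x = g' • x) (x : L) :
    g⁻¹ • x = g'⁻¹ • x := by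
  rw [inv_smul_eq_iff, h, smul_inv_smul]

lemma primeSMul_congr {g : G} {g' : G'} (h : ∀ x : L, g • x = g' • x)
    (w : HeightOneSpectrum (𝓞 L)) : primeSMul G g w = primeSMul G' g' w := by
  refine HeightOneSpectrum.ext (Ideal.ext fun x => ?_)
  rw [mem_primeSMul_iff, mem_primeSMul_iff, smul_int_congr (inv_smul_congr h)]

lemma divRepr_congr {g : G} {g' : G'} (h : ∀ x : L, g • x = g' • x) :
    divRepr S G L g = divRepr S G' L g' := by
  have : primeOutMap S G L g = primeOutMap S G' L g' := by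
    funext w
    exact Subtype.ext (primeSMul_congr h w.1)
  unfold divRepr
  simp only [MonoidHom.coe_mk, OneHom.coe_mk]
  rw [this]

lemma cRepr_congr {g : G} {g' : G'} (h : ∀ x : L, g • x = g' • x) :
    cRepr S G L g = cRepr S G' L g' := by
  refine LinearMap.ext fun c => ?_
  obtain ⟨⟨j, d⟩, rfl⟩ := (principal S L).mkQ_surjective c
  change (principal S L).mkQ (jdRepr S G L g (j, d)) =
    (principal S L).mkQ (jdRepr S G' L g' (j, d))
  have : jdRepr S G L g (j, d) = jdRepr S G' L g' (j, d) := by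
    change ((jRepr G S L g j, divRepr S G L g d) : JD S L) =
      (jRepr G' S L g' j, divRepr S G' L g' d)
    rw [jRepr_congr S h, divRepr_congr S h]
  rw [this]

lemma gAct_CRep_congr {g : G} {g' : G'} (h : ∀ x : L, g • x = g' • x) :
    (gAct (CRep S G L) g : AddMonoid.End (CS S L)) = gAct (CRep S G' L) g' := by
  refine AddMonoidHom.ext fun c => ?_
  change cRepr S G L g c = cRepr S G' L g' c
  rw [cRepr_congr S h]

lemma gAct_JRep_congr {g : G} {g' : G'} (h : ∀ x : L, g • x = g' • x) :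
    (gAct (JRep G S L) g : AddMonoid.End (Additive (AS S L)ˣ)) = gAct (JRep G' S L) g' := by
  refine AddMonoidHom.ext fun c => ?_
  change jRepr G S L g c = jRepr G' S L g' c
  rw [jRepr_congr S h]

end Congr

/-! ## 2. Transport to a cyclic group acting faithfully -/

open groupCohomology in
/-- **G-FI, interface form**: the Herbrand form of the first inequality gives helper421's
`FirstInequalityCycSpec`. -/
theorem firstInequalityCycSpec_of (hFI : FirstIneqSpec) : FirstInequalityCycSpec := by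
  intro n hn S G L _ _ _ _ _ _ _ hS hcard
  classical
  letI : Fintype G := Fintype.ofFinite G
  obtain ⟨g, hg⟩ := IsCyclic.exists_generator (α := G)
  have hσ : ∀ τ : L ≃ₐ[FixedPoints.subfield G L] L,
      τ ∈ Subgroup.zpowers (FixedPoints.toAlgAutMulEquiv G L g) := by
    intro τ
    obtain ⟨t, rfl⟩ := (FixedPoints.toAlgAutMulEquiv G L).surjective τ
    obtain ⟨k, rfl⟩ := Subgroup.mem_zpowers_iff.1 (hg t)
    exact Subgroup.mem_zpowers_iff.2 ⟨k, (map_zpow (FixedPoints.toAlgAutMulEquiv G L) g k).symm⟩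
  have hcardeq : Nat.card (L ≃ₐ[FixedPoints.subfield G L] L) = Nat.card G :=
    (Nat.card_congr (FixedPoints.toAlgAutMulEquiv G L).toEquiv).symm
  have hfr : Module.finrank (FixedPoints.subfield G L) L = n := by
    rw [← IsGalois.card_aut_eq_finrank, hcardeq, hcard]
  obtain ⟨c0, c1, hc⟩ := hFI (FixedPoints.subfield G L) L (FixedPoints.toAlgAutMulEquiv G L g)
    hσ S hS
  have hact : (gAct (CRep S G L) g : AddMonoid.End (CS S L)) =
      gAct (CRep S (L ≃ₐ[FixedPoints.subfield G L] L) L) (FixedPoints.toAlgAutMulEquiv G L g) :=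
    gAct_CRep_congr S fun _ => rfl
  rw [infDegProd_eq_one_of_odd _ _ (by rw [hfr]; exact hn), mul_one, hfr] at hc
  have e0 : Nat.card (groupCohomology (CRep S G L) 2) =
      h0 (gAct (CRep S (L ≃ₐ[FixedPoints.subfield G L] L) L)
        (FixedPoints.toAlgAutMulEquiv G L g)) (Nat.card (L ≃ₐ[FixedPoints.subfield G L] L)) := by
    rw [card_H2_eq_h0 (CRep S G L) g hg, hcardeq]
    exact congrArg (fun s : AddMonoid.End (CS S L) => h0 s (Nat.card G)) hact
  have e1 : Nat.card (groupCohomology (CRep S G L) 1) =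
      h1 (gAct (CRep S (L ≃ₐ[FixedPoints.subfield G L] L) L)
        (FixedPoints.toAlgAutMulEquiv G L g)) (Nat.card (L ≃ₐ[FixedPoints.subfield G L] L)) := by
    rw [card_H1_eq_h1 (CRep S G L) g hg, hcardeq]
    exact congrArg (fun s : AddMonoid.End (CS S L) => h1 s (Nat.card G)) hact
  rw [← e0] at c0 hc
  rw [← e1] at c1 hc
  exact ⟨(Nat.card_ne_zero.1 c1).2, (Nat.card_ne_zero.1 c0).2, by rw [hc, mul_comm]⟩

/-- Finiteness of the `S`-class group (helper604, `ClsH604.ordHom_range_index_ne_zero`). -/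
theorem clSFiniteSpec : ClSFiniteSpec := fun L _ _ S =>
  ClsH604.ordHom_range_index_ne_zero S L

/-- **G-FI from its last open input** `JHerbrandSpec` (cyclic groups of odd order). -/
theorem firstInequalityCycSpec_of_J (hJ : JHerbrandSpec) : FirstInequalityCycSpec :=
  firstInequalityCycSpec_of (firstIneqSpec_of sUnitsHerbrandSpec hJ clSFiniteSpec)

/-- **G-FI from its last open input** `JHerbrandSpec` (groups of odd prime order). -/
theorem firstInequalitySpec_of_J (hJ : JHerbrandSpec) : FirstInequalitySpec :=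
  firstInequality_of_cyc (firstInequalityCycSpec_of_J hJ)

/-- **G-FI from its inputs** (cyclic groups of odd order). -/
theorem firstInequalityCycSpec_of_inputs (hJ : JHerbrandSpec) (hCl : ClSFiniteSpec) :
    FirstInequalityCycSpec :=
  firstInequalityCycSpec_of (firstIneqSpec_of sUnitsHerbrandSpec hJ hCl)

/-- **G-FI from its inputs** (groups of odd prime order). -/
theorem firstInequalitySpec_of_inputs (hJ : JHerbrandSpec) (hCl : ClSFiniteSpec) :
    FirstInequalitySpec :=
  firstInequality_of_cyc (firstInequalityCycSpec_of_inputs hJ hCl)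

end Fermat.Agent.S55.G.FIH895

end
-- ===== PACK-END S55/G/FI/TransportH895.lean

-- ===== PACK-BEGIN S14/H74/Main.lean
section


/-!
# S14/N1 (helper74): partial zeta functions of ideal classes differ by `O(1)` near `s = 1`

Main results (for an arbitrary number field `K`):
* `classZeta_sub_bounded` : `|ζ(s,C) - ζ(s,C')| ≤ B` for `1 < s ≤ 2`;
* `classL_bounded` : the `L`-series of a nontrivial character of the class group is bounded
  on `(1, 2]`.
-/

namespace Fermat.Agent.S14.H74

open NumberField NumberField.Units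

open scoped nonZeroDivisors

variable (K : Type*) [Field K] [NumberField K]

theorem tsum_top_eq (s : ℝ) :
    ∑' y : (⊤ : Ideal (𝓞 K)), FS K s (y : 𝓞 K) = ∑' x : 𝓞 K, FS K s x :=
  (Equiv.subtypeUnivEquiv (fun x : 𝓞 K ↦ (Submodule.mem_top : x ∈ (⊤ : Ideal (𝓞 K))))).tsum_eq
    (FS K s)

/-- `w ζ(s, 1)` is the smoothed sum over `𝓞 K`. -/
theorem torsionOrder_mul_classZeta_one {s : ℝ} (hs : 1 < s) :
    (torsionOrder K : ℝ) * classZeta K 1 s = ∑' x : 𝓞 K, FS K s x := by
  have hJ : ClassGroup.mk0 (1 : (Ideal (𝓞 K))⁰) = (1 : ClassGroup (𝓞 K))⁻¹ := by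
    rw [map_one, inv_one]
  have h1 := classZeta_eq hJ s
  have h2 := tsum_FS_eq (K := K) ((1 : (Ideal (𝓞 K))⁰) : Ideal (𝓞 K)) hs
  have h3 : (((1 : (Ideal (𝓞 K))⁰) : Ideal (𝓞 K))) = ⊤ := by
    rw [Submonoid.coe_one, Ideal.one_eq_top]
  have h4 : (Ideal.absNorm (((1 : (Ideal (𝓞 K))⁰) : Ideal (𝓞 K))) : ℝ) = 1 := by
    rw [h3, Ideal.absNorm_top, Nat.cast_one]
  rw [h4, Real.one_rpow, one_mul] at h1
  have key : ∀ J' : Ideal (𝓞 K), J' = ⊤ →
      ∑' y : J', FS K s (y : 𝓞 K) = ∑' x : 𝓞 K, FS K s x := by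
    rintro _ rfl
    exact tsum_top_eq K s
  rw [h1, ← h2, key _ h3]

/-- `w ζ(s, C) = N(J)^s ∑_{y ∈ J} FS s y` for `J` in the class `C⁻¹`. -/
theorem torsionOrder_mul_classZeta {C : ClassGroup (𝓞 K)} {J : (Ideal (𝓞 K))⁰}
    (hJ : ClassGroup.mk0 J = C⁻¹) {s : ℝ} (hs : 1 < s) :
    (torsionOrder K : ℝ) * classZeta K C s =
      (Ideal.absNorm (J : Ideal (𝓞 K)) : ℝ) ^ s * ∑' y : (J : Ideal (𝓞 K)), FS K s (y : 𝓞 K) := by
  rw [classZeta_eq hJ s, tsum_FS_eq (K := K) (J : Ideal (𝓞 K)) hs]
  ring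

/-- Comparison of the class `C` with the trivial class. -/
theorem exists_classZeta_sub_one_bound (C : ClassGroup (𝓞 K)) :
    ∃ B : ℝ, ∀ s : ℝ, 1 < s → s ≤ 2 → |classZeta K C s - classZeta K 1 s| ≤ B := by
  obtain ⟨J, hJ⟩ := ClassGroup.mk0_surjective C⁻¹
  obtain ⟨BJ, hBJ⟩ := exists_compare_bound (K := K) (J : Ideal (𝓞 K))
    (nonZeroDivisors.coe_ne_zero J)
  obtain ⟨Z, hZ0, hZ⟩ := classZeta_le K
  have hw : (0 : ℝ) < torsionOrder K := Nat.cast_pos.mpr (torsionOrder_pos K)
  have hN1 : (1 : ℝ) ≤ Ideal.absNorm (J : Ideal (𝓞 K)) := one_le_absNorm K J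
  set N : ℝ := ((Ideal.absNorm (J : Ideal (𝓞 K)) : ℕ) : ℝ) with hN
  set w : ℝ := ((torsionOrder K : ℕ) : ℝ) with hwdef
  refine ⟨((N - 1) * (w * Z + BJ) + BJ) / w, fun s hs1 hs2 ↦ ?_⟩
  have hs0 : 0 < s - 1 := by linarith
  have h1 := torsionOrder_mul_classZeta_one K hs1
  have h2 := torsionOrder_mul_classZeta K hJ hs1
  have hcmp := hBJ s hs1 hs2
  have hBJ0 : 0 ≤ BJ := (abs_nonneg _).trans hcmp
  set S0 : ℝ := ∑' x : 𝓞 K, FS K s x with hS0
  set SJ : ℝ := ∑' y : (J : Ideal (𝓞 K)), FS K s (y : 𝓞 K) with hSJ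
  have hSJ0 : 0 ≤ SJ := tsum_nonneg fun y ↦ FS_nonneg s _
  have hζ1 := hZ s hs1 hs2 1
  -- `N ^ s = N ^ (s - 1) * N`
  have hpow : N ^ s = N ^ (s - 1) * N := by
    rw [← Real.rpow_add_one (by linarith : N ≠ 0)]
    congr 1
    ring
  -- Bernoulli
  have hbern : N ^ (s - 1) ≤ 1 + (s - 1) * (N - 1) := by
    have := _root_.rpow_one_add_le_one_add_mul_self (s := N - 1) (by linarith) hs0.le
      (by linarith : s - 1 ≤ 1)
    rwa [add_sub_cancel] at this
  have hpow1 : 1 ≤ N ^ (s - 1) := Real.one_le_rpow hN1 hs0.le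
  -- `N * SJ ≤ w Z / (s - 1) + BJ`
  have hNSJ : N * SJ ≤ w * (Z / (s - 1)) + BJ := by
    have a1 := (abs_le.mp hcmp).1
    have a2 : w * classZeta K 1 s ≤ w * (Z / (s - 1)) := mul_le_mul_of_nonneg_left hζ1 hw.le
    linarith
  have hNSJ0 : 0 ≤ N * SJ := mul_nonneg (by linarith) hSJ0
  have key : w * (classZeta K C s - classZeta K 1 s) =
      (N ^ (s - 1) - 1) * (N * SJ) + (N * SJ - S0) := by
    rw [mul_sub, h1, h2, hpow]
    ring
  have hb1 : (N ^ (s - 1) - 1) * (N * SJ) ≤ (N - 1) * (w * Z + BJ) := by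
    calc (N ^ (s - 1) - 1) * (N * SJ) ≤ ((s - 1) * (N - 1)) * (w * (Z / (s - 1)) + BJ) :=
          mul_le_mul (by linarith) hNSJ hNSJ0 (mul_nonneg hs0.le (by linarith))
      _ = (N - 1) * (w * Z + (s - 1) * BJ) := by
          field_simp
      _ ≤ (N - 1) * (w * Z + BJ) := by
          have : (s - 1) * BJ ≤ BJ := by nlinarith
          exact mul_le_mul_of_nonneg_left (by linarith) (by linarith)
  have hb2 : 0 ≤ (N ^ (s - 1) - 1) * (N * SJ) := mul_nonneg (by linarith) hNSJ0
  have hb3 : |N * SJ - S0| ≤ BJ := by rwa [abs_sub_comm]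
  have hfin : |w * (classZeta K C s - classZeta K 1 s)| ≤ (N - 1) * (w * Z + BJ) + BJ := by
    rw [key]
    refine (abs_add_le _ _).trans ?_
    rw [abs_of_nonneg hb2]
    linarith
  rw [abs_mul, abs_of_pos hw] at hfin
  rw [le_div_iff₀ hw, mul_comm]
  exact hfin

/-- **N1**: partial zeta functions of two ideal classes differ by a bounded function
near `s = 1`. -/
theorem classZeta_sub_bounded :
    ∃ B : ℝ, ∀ s : ℝ, 1 < s → s ≤ 2 → ∀ C C' : ClassGroup (𝓞 K),
      |classZeta K C s - classZeta K C' s| ≤ B := by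
  choose B hB using exists_classZeta_sub_one_bound K
  refine ⟨2 * ∑ C : ClassGroup (𝓞 K), |B C|, fun s hs1 hs2 C C' ↦ ?_⟩
  have h1 : ∀ D : ClassGroup (𝓞 K), |classZeta K D s - classZeta K 1 s| ≤
      ∑ C : ClassGroup (𝓞 K), |B C| := fun D ↦
    ((hB D s hs1 hs2).trans (le_abs_self _)).trans
      (Finset.single_le_sum (f := fun C ↦ |B C|) (fun _ _ ↦ abs_nonneg _) (Finset.mem_univ D))
  have h2 : classZeta K C s - classZeta K C' s =
      (classZeta K C s - classZeta K 1 s) - (classZeta K C' s - classZeta K 1 s) := by ring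
  rw [h2]
  refine (abs_sub _ _).trans ?_
  linarith [h1 C, h1 C']

theorem norm_classChar (χ : ClassGroup (𝓞 K) →* ℂˣ) (C : ClassGroup (𝓞 K)) :
    ‖((χ C : ℂˣ) : ℂ)‖ = 1 := by
  have h1 : ((χ C : ℂˣ) : ℂ) ^ (Fintype.card (ClassGroup (𝓞 K))) = 1 := by
    rw [← Units.val_pow_eq_pow_val, ← map_pow, pow_card_eq_one, map_one, Units.val_one]
  exact Complex.norm_eq_one_of_pow_eq_one h1 Fintype.card_ne_zero

theorem sum_classChar_eq_zero (χ : ClassGroup (𝓞 K) →* ℂˣ) (hχ : χ ≠ 1) :
    ∑ C : ClassGroup (𝓞 K), ((χ C : ℂˣ) : ℂ) = 0 := by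
  have h := sum_hom_units_eq_zero ((Units.coeHom ℂ).comp χ) (by
    intro h
    apply hχ
    ext C
    have := DFunLike.congr_fun h C
    simpa using this)
  simpa using h

/-- The `L`-series of a class group character, as a sum over the classes. -/
theorem classL_eq_sum (χ : ClassGroup (𝓞 K) →* ℂˣ) {s : ℝ} (hs : 1 < s) :
    ∑' I : (Ideal (𝓞 K))⁰, ((χ (ClassGroup.mk0 I) : ℂˣ) : ℂ) *
      (((Ideal.absNorm (I : Ideal (𝓞 K)) : ℝ) ^ (-s) : ℝ) : ℂ) =
    ∑ C : ClassGroup (𝓞 K), ((χ C : ℂˣ) : ℂ) * ((classZeta K C s : ℝ) : ℂ) := by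
  have hsum : Summable fun I : (Ideal (𝓞 K))⁰ ↦ ((χ (ClassGroup.mk0 I) : ℂˣ) : ℂ) *
      (((Ideal.absNorm (I : Ideal (𝓞 K)) : ℝ) ^ (-s) : ℝ) : ℂ) := by
    refine Summable.of_norm_bounded (idealZeta_summable K hs) fun I ↦ ?_
    rw [norm_mul, norm_classChar, one_mul, Complex.norm_real, Real.norm_eq_abs,
      abs_of_nonneg (absNorm_rpow_nonneg K s I)]
  have h1 := hsum.hasSum.tsum_fiberwise (fun I : (Ideal (𝓞 K))⁰ ↦ ClassGroup.mk0 I)
  have h2 : ∀ C : ClassGroup (𝓞 K),
      ∑' I : ((fun I : (Ideal (𝓞 K))⁰ ↦ ClassGroup.mk0 I) ⁻¹' {C} : Set (Ideal (𝓞 K))⁰),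
        ((χ (ClassGroup.mk0 (I : (Ideal (𝓞 K))⁰)) : ℂˣ) : ℂ) *
          (((Ideal.absNorm ((I : (Ideal (𝓞 K))⁰) : Ideal (𝓞 K)) : ℝ) ^ (-s) : ℝ) : ℂ) =
      ((χ C : ℂˣ) : ℂ) * ((classZeta K C s : ℝ) : ℂ) := by
    intro C
    have e : ((classZeta K C s : ℝ) : ℂ) =
        ∑' I : ((fun I : (Ideal (𝓞 K))⁰ ↦ ClassGroup.mk0 I) ⁻¹' {C} : Set (Ideal (𝓞 K))⁰),
          (((Ideal.absNorm ((I : (Ideal (𝓞 K))⁰) : Ideal (𝓞 K)) : ℝ) ^ (-s) : ℝ) : ℂ) := by
      rw [← Complex.ofReal_tsum]
      rfl
    rw [e, ← tsum_mul_left]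
    refine tsum_congr fun I ↦ ?_
    have hI : ClassGroup.mk0 (I : (Ideal (𝓞 K))⁰) = C := I.2
    rw [hI]
  simp_rw [h2] at h1
  exact h1.unique (hasSum_fintype _)

/-- The `L`-series of a nontrivial character of the class group is bounded on `(1, 2]`. -/
theorem classL_bounded (χ : ClassGroup (𝓞 K) →* ℂˣ) (hχ : χ ≠ 1) :
    ∃ B : ℝ, ∀ s : ℝ, 1 < s → s ≤ 2 →
      ‖∑' I : (Ideal (𝓞 K))⁰, ((χ (ClassGroup.mk0 I) : ℂˣ) : ℂ) *
        (((Ideal.absNorm (I : Ideal (𝓞 K)) : ℝ) ^ (-s) : ℝ) : ℂ)‖ ≤ B := by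
  obtain ⟨B, hB⟩ := classZeta_sub_bounded K
  refine ⟨Fintype.card (ClassGroup (𝓞 K)) * B, fun s hs1 hs2 ↦ ?_⟩
  rw [classL_eq_sum K χ hs1]
  have h0 : ∑ C : ClassGroup (𝓞 K), ((χ C : ℂˣ) : ℂ) * ((classZeta K 1 s : ℝ) : ℂ) = 0 := by
    rw [← Finset.sum_mul, sum_classChar_eq_zero K χ hχ, zero_mul]
  have h1 : ∑ C : ClassGroup (𝓞 K), ((χ C : ℂˣ) : ℂ) * ((classZeta K C s : ℝ) : ℂ) =
      ∑ C : ClassGroup (𝓞 K), ((χ C : ℂˣ) : ℂ) *
        (((classZeta K C s - classZeta K 1 s : ℝ)) : ℂ) := by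
    simp_rw [Complex.ofReal_sub, mul_sub]
    rw [Finset.sum_sub_distrib, h0, sub_zero]
  rw [h1]
  refine (norm_sum_le _ _).trans ?_
  calc ∑ C : ClassGroup (𝓞 K), ‖((χ C : ℂˣ) : ℂ) *
        (((classZeta K C s - classZeta K 1 s : ℝ)) : ℂ)‖
      ≤ ∑ _C : ClassGroup (𝓞 K), B := by
        refine Finset.sum_le_sum fun C _ ↦ ?_
        rw [norm_mul, norm_classChar, one_mul, Complex.norm_real, Real.norm_eq_abs]
        exact hB s hs1 hs2 C 1
    _ = Fintype.card (ClassGroup (𝓞 K)) * B := by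
        rw [Finset.sum_const, Finset.card_univ, nsmul_eq_mul]

end Fermat.Agent.S14.H74

end
-- ===== PACK-END S14/H74/Main.lean

-- ===== PACK-BEGIN S55/L/Unram784.lean
section



/-!
# S55, layer L, leaf L-A2 (helper784): unramified extensions of local fields

Summary file.  Main results (all unconditional, Mathlib + `L/Spec*.lean` only):

* `u784_unramifiedExists : UnramifiedExistsSpec`   (L-A2a)
* `u784_unramifiedCyclic : UnramifiedCyclicSpec`   (L-A2b)
* `u784_unramifiedUnique : UnramifiedUniqueSpec`   (L-A2c)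
* `u784_ringOfIntegersUnique : RingOfIntegersUniqueSpec`   (L-A0, by-product)
-/

namespace Fermat.Agent.S55.L

/-- **L-A2**: the three specifications on unramified extensions. -/
theorem u784_unramified_all :
    UnramifiedExistsSpec ∧ UnramifiedCyclicSpec ∧ UnramifiedUniqueSpec :=
  ⟨u784_unramifiedExists, u784_unramifiedCyclic, u784_unramifiedUnique⟩

end Fermat.Agent.S55.L

end
-- ===== PACK-END S55/L/Unram784.lean

-- ===== PACK-BEGIN S55/L/UnrInv/Congr.lean
section


/-!
# S55, layer L, unramified invariants: congruences modulo the maximal ideal, powers of Frobenius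
-/

set_option autoImplicit false
set_option linter.style.haveILetI false

namespace Fermat.Agent.S55.L.UnrInv

theorem zero_mem_nonunits {F : Type*} [Field F] (C : ValuationSubring F) :
    (0 : F) ∈ C.nonunits := by
  rw [C.mem_nonunits_iff, map_zero]
  exact zero_lt_one

theorem add_mem_nonunits {F : Type*} [Field F] (C : ValuationSubring F) {a b : F}
    (ha : a ∈ C.nonunits) (hb : b ∈ C.nonunits) : a + b ∈ C.nonunits := by
  rw [C.mem_nonunits_iff] at ha hb ⊢
  exact lt_of_le_of_lt (Valuation.map_add _ _ _) (max_lt ha hb)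

theorem mul_mem_nonunits_of_mem {F : Type*} [Field F] (C : ValuationSubring F) {a s : F}
    (ha : a ∈ C.nonunits) (hs : s ∈ C) : a * s ∈ C.nonunits := by
  rw [C.mem_nonunits_iff] at ha ⊢
  have h1 : C.valuation s ≤ 1 := (C.valuation_le_one_iff s).mpr hs
  rw [map_mul]
  exact lt_of_le_of_lt (mul_le_of_le_one_right' h1) ha

theorem pow_sub_pow_mem_nonunits {F : Type*} [Field F] (C : ValuationSubring F) {a b : F}
    (ha : a ∈ C) (hb : b ∈ C) (h : a - b ∈ C.nonunits) (q : ℕ) :
    a ^ q - b ^ q ∈ C.nonunits := by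
  obtain ⟨s, hs⟩ := sub_dvd_pow_sub_pow (⟨a, ha⟩ : C) ⟨b, hb⟩ q
  have hs' : a ^ q - b ^ q = (a - b) * (s : F) := by
    have := congrArg (Subtype.val) hs
    simpa using this
  rw [hs']
  exact mul_mem_nonunits_of_mem C h s.2

variable {K E : Type} [Field K] [Field E] [Algebra K E]

namespace UnrPack

variable (P : UnrPack K E)

/-- Powers of the Frobenius. -/
theorem frob_pow (f : ℕ) : ∀ x ∈ P.B,
    (P.φ ^ f) x - x ^ (Nat.card (IsLocalRing.ResidueField P.A) ^ f) ∈ P.B.nonunits := by
  induction f with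
  | zero =>
    intro x _
    simp only [pow_zero, pow_one, AlgEquiv.one_apply, sub_self]
    exact zero_mem_nonunits P.B
  | succ f ih =>
    intro x hx
    set q := Nat.card (IsLocalRing.ResidueField P.A) with hq
    have hy : (P.φ ^ f) x ∈ P.B := (P.galB (P.φ ^ f) x).mpr hx
    have h1 : P.φ ((P.φ ^ f) x) - ((P.φ ^ f) x) ^ q ∈ P.B.nonunits := P.frob _ hy
    have h2 : ((P.φ ^ f) x) ^ q - (x ^ (q ^ f)) ^ q ∈ P.B.nonunits :=
      pow_sub_pow_mem_nonunits P.B hy (P.B.pow_mem hx _) (ih x hx) q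
    have h3 : (P.φ ^ (f + 1)) x - x ^ (q ^ (f + 1)) =
        (P.φ ((P.φ ^ f) x) - ((P.φ ^ f) x) ^ q) + (((P.φ ^ f) x) ^ q - (x ^ (q ^ f)) ^ q) := by
      rw [pow_succ' P.φ f, AlgEquiv.mul_apply, pow_succ q f, pow_mul]
      ring
    rw [h3]
    exact add_mem_nonunits P.B h1 h2

/-- An automorphism which is a `q^f`-Frobenius is the `f`-th power of the Frobenius. -/
theorem eq_frob_pow (g : E ≃ₐ[K] E) (f : ℕ)
    (hg : ∀ x ∈ P.B, g x - x ^ (Nat.card (IsLocalRing.ResidueField P.A) ^ f) ∈ P.B.nonunits) :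
    g = P.φ ^ f := by
  have key : (P.φ ^ f)⁻¹ * g = 1 := by
    apply P.inertia
    intro x hx
    have h2 : g x - (P.φ ^ f) x ∈ P.B.nonunits := by
      have := sub_mem_nonunits P.B (hg x hx) (P.frob_pow f x hx)
      simpa using this
    have h3 : (P.φ ^ f)⁻¹ (g x - (P.φ ^ f) x) ∈ P.B.nonunits :=
      (P.galNon (P.φ ^ f)⁻¹ _).mpr h2
    have h4 : (P.φ ^ f)⁻¹ (g x - (P.φ ^ f) x) = ((P.φ ^ f)⁻¹ * g) x - x := by
      rw [map_sub, AlgEquiv.mul_apply]
      congr 1
      exact (P.φ ^ f).symm_apply_apply x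
    rw [← h4]
    exact h3
  have := congrArg (fun t => (P.φ ^ f) * t) key
  simpa [← mul_assoc] using this

end UnrPack

end Fermat.Agent.S55.L.UnrInv

end
-- ===== PACK-END S55/L/UnrInv/Congr.lean

-- ===== PACK-BEGIN S55/L/Inv481/Amalgam.lean
section


/-!
# S55 / layer L / leaf L-C2 (helper481): amalgamation of finite Galois extensions

Two finite Galois extensions `M₁`, `M₂` of `K` (characteristic zero) receiving a common field
`L` embed over `L` into a third finite Galois extension `M₃` of `K`.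
-/

set_option autoImplicit false
set_option linter.style.haveILetI false

namespace Fermat.Agent.S55.L.Inv481

section CodRestrict

variable {K A M : Type} [Field K] [Field A] [Field M] [Algebra K A] [Algebra K M]

/-- restriction of the codomain of an algebra homomorphism to an intermediate field -/
noncomputable def algHomCodRestrict (j : A →ₐ[K] M) (F : IntermediateField K M)
    (h : ∀ x, j x ∈ F) : A →ₐ[K] F where
  toFun x := ⟨j x, h x⟩
  map_one' := Subtype.ext (map_one j)
  map_mul' x y := Subtype.ext (map_mul j x y)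
  map_zero' := Subtype.ext (map_zero j)
  map_add' x y := Subtype.ext (map_add j x y)
  commutes' r := Subtype.ext (j.commutes r)

@[simp] theorem algHomCodRestrict_coe (j : A →ₐ[K] M) (F : IntermediateField K M)
    (h : ∀ x, j x ∈ F) (x : A) : ((algHomCodRestrict j F h x : F) : M) = j x := rfl

theorem val_comp_algHomCodRestrict (j : A →ₐ[K] M) (F : IntermediateField K M)
    (h : ∀ x, j x ∈ F) : F.val.comp (algHomCodRestrict j F h) = j := by
  ext x; rfl

/-- if the range of `g` is contained in the range of `k`, then `g` factors through `k` -/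
theorem exists_factor {E₁ E₃ : Type} [Field E₁] [Field E₃] [Algebra K E₁] [Algebra K E₃]
    (k : E₃ →ₐ[K] M) (g : E₁ →ₐ[K] M) (h : g.fieldRange ≤ k.fieldRange) :
    ∃ c : E₁ →ₐ[K] E₃, k.comp c = g := by
  have hmem : ∀ x, g x ∈ k.range := fun x => AlgHom.mem_fieldRange.mp (h ⟨x, rfl⟩)
  refine ⟨((AlgEquiv.ofInjectiveField k).symm : k.range →ₐ[K] E₃).comp
    (g.codRestrict k.range hmem), ?_⟩
  ext x
  have h1 : ∀ z : k.range, k ((AlgEquiv.ofInjectiveField k).symm z) = (z : M) := by
    intro z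
    obtain ⟨w, hw⟩ := (AlgEquiv.ofInjectiveField k).surjective z
    rw [← hw, AlgEquiv.symm_apply_apply]
    rfl
  exact h1 _

end CodRestrict

section Amalgam

/-- **Amalgamation** of two finite Galois extensions over a common subfield. -/
theorem exists_amalgam (K L M₁ M₂ : Type) [Field K] [Field L] [Field M₁] [Field M₂]
    [Algebra K L] [Algebra K M₁] [Algebra K M₂] [CharZero K]
    [FiniteDimensional K M₁] [IsGalois K M₁] [FiniteDimensional K M₂] [IsGalois K M₂]
    (i₁ : L →ₐ[K] M₁) (i₂ : L →ₐ[K] M₂) :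
    ∃ (M₃ : Type) (_ : Field M₃) (_ : Algebra K M₃) (_ : FiniteDimensional K M₃)
      (_ : IsGalois K M₃) (j₁ : M₁ →ₐ[K] M₃) (j₂ : M₂ →ₐ[K] M₃), j₁.comp i₁ = j₂.comp i₂ := by
  let j₁ : M₁ →ₐ[K] AlgebraicClosure M₁ := IsScalarTower.toAlgHom K M₁ (AlgebraicClosure M₁)
  letI aLM₂ : Algebra L M₂ := i₂.toRingHom.toAlgebra
  letI aLΩ : Algebra L (AlgebraicClosure M₁) := (j₁.comp i₁).toRingHom.toAlgebra
  haveI : IsScalarTower K L M₂ := IsScalarTower.of_algebraMap_eq (fun x => (i₂.commutes x).symm)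
  haveI : IsScalarTower K L (AlgebraicClosure M₁) :=
    IsScalarTower.of_algebraMap_eq (fun x => ((j₁.comp i₁).commutes x).symm)
  haveI : FiniteDimensional L M₂ := FiniteDimensional.right K L M₂
  haveI : Algebra.IsAlgebraic L M₂ := Algebra.IsAlgebraic.of_finite L M₂
  let j₂L : M₂ →ₐ[L] AlgebraicClosure M₁ := IsAlgClosed.lift
  let j₂ : M₂ →ₐ[K] AlgebraicClosure M₁ := j₂L.restrictScalars K
  have hcomm : j₁.comp i₁ = j₂.comp i₂ := by
    ext x
    exact (j₂L.commutes x).symm
  haveI : FiniteDimensional K j₁.fieldRange :=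
    (AlgEquiv.ofInjectiveField j₁).toLinearEquiv.finiteDimensional
  haveI : FiniteDimensional K j₂.fieldRange :=
    (AlgEquiv.ofInjectiveField j₂).toLinearEquiv.finiteDimensional
  haveI : Normal K j₁.fieldRange := Normal.of_algEquiv (AlgEquiv.ofInjectiveField j₁)
  haveI : Normal K j₂.fieldRange := Normal.of_algEquiv (AlgEquiv.ofInjectiveField j₂)
  let M₃ : IntermediateField K (AlgebraicClosure M₁) := j₁.fieldRange ⊔ j₂.fieldRange
  haveI : FiniteDimensional K M₃ := IntermediateField.finiteDimensional_sup _ _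
  haveI : Normal K M₃ :=
    show Normal K ↥(j₁.fieldRange ⊔ j₂.fieldRange) from inferInstance
  haveI : IsGalois K M₃ := ⟨⟩
  have h₁ : ∀ x, j₁ x ∈ M₃ := fun x =>
    (le_sup_left : j₁.fieldRange ≤ M₃) ⟨x, rfl⟩
  have h₂ : ∀ x, j₂ x ∈ M₃ := fun x =>
    (le_sup_right : j₂.fieldRange ≤ M₃) ⟨x, rfl⟩
  refine ⟨M₃, inferInstance, inferInstance, inferInstance, inferInstance,
    algHomCodRestrict j₁ M₃ h₁, algHomCodRestrict j₂ M₃ h₂, ?_⟩
  ext x
  exact congrArg (fun f => f x) hcomm

end Amalgam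

end Fermat.Agent.S55.L.Inv481

end
-- ===== PACK-END S55/L/Inv481/Amalgam.lean

-- ===== PACK-BEGIN S55/E1/H295/BidualCore.lean
section
/-
S55 engine E1, block LIM, leaf LIM-BIDUAL -- part 1: generic algebra.  helper295.  Complete proofs.

* `pairingHom β hβ : A ⟶ Hom_ℤ(B, E)` for an equivariant biadditive pairing `β : A × B → E`
  of `G`-modules; `pairingHom_bijective`, `pairingHom_isIso` for a perfect pairing
  (left nondegenerate + every additive `B → E` is `β a`).
* `exists_eval_of_additive`: for a finite dimensional `𝔽_p`-vector space `M`, a line `T ≃ 𝔽_p`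
  and an injective additive `θ : T → E` onto the `p`-torsion of `E`, every additive map
  `φ : M^* → E` is `f ↦ θ (e (f m))` for a unique `m ∈ M`.
-/


set_option autoImplicit false

open CategoryTheory

namespace Fermat.Agent.S55.E1.H295

open Fermat.Agent.S55.E1.Lim

noncomputable section

attribute [local instance 10000] Rep.hV2

section Pairing

variable {G : Type} [Group G] {A B E : Rep.{0} ℤ G}

/-- The morphism `A ⟶ Hom_ℤ(B, E)`, `a ↦ β a`, attached to an equivariant biadditive pairing. -/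
def pairingHom (β : A.V →+ B.V →+ E.V)
    (hβ : ∀ (g : G) (a : A.V) (b : B.V), β (A.ρ g a) (B.ρ g b) = E.ρ g (β a b)) :
    A ⟶ (Rep.ihom B).obj E :=
  homOfAdd (B := (Rep.ihom B).obj E)
    { toFun := fun a => (linOfAdd (β a) : B.V →ₗ[ℤ] E.V)
      map_zero' := by
        apply LinearMap.ext
        intro b
        show β 0 b = 0
        rw [map_zero]
        rfl
      map_add' := fun a a' => by
        apply LinearMap.ext
        intro b
        show β (a + a') b = β a b + β a' b
        rw [map_add]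
        rfl }
    (fun g a => by
      apply LinearMap.ext
      intro b
      show β (A.ρ g a) b = E.ρ g (β a (B.ρ g⁻¹ b))
      rw [← hβ, B.ρ.self_inv_apply])

lemma pairingHom_apply (β : A.V →+ B.V →+ E.V)
    (hβ : ∀ (g : G) (a : A.V) (b : B.V), β (A.ρ g a) (B.ρ g b) = E.ρ g (β a b))
    (a : A.V) (b : B.V) :
    (show B.V →ₗ[ℤ] E.V from (pairingHom β hβ).hom a) b = β a b := rfl

theorem pairingHom_bijective (β : A.V →+ B.V →+ E.V)
    (hβ : ∀ (g : G) (a : A.V) (b : B.V), β (A.ρ g a) (B.ρ g b) = E.ρ g (β a b))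
    (hinj : ∀ a : A.V, (∀ b : B.V, β a b = 0) → a = 0)
    (hsurj : ∀ φ : B.V →+ E.V, ∃ a : A.V, ∀ b : B.V, β a b = φ b) :
    Function.Bijective (pairingHom β hβ).hom := by
  constructor
  · rw [injective_iff_map_eq_zero]
    intro a ha
    apply hinj
    intro b
    have := congrArg (fun t : B.V →ₗ[ℤ] E.V => t b) ha
    exact this
  · intro (φ : B.V →ₗ[ℤ] E.V)
    obtain ⟨a, ha⟩ := hsurj φ.toAddMonoidHom
    refine ⟨a, ?_⟩
    apply LinearMap.ext
    intro b
    exact ha b

theorem pairingHom_isIso (β : A.V →+ B.V →+ E.V)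
    (hβ : ∀ (g : G) (a : A.V) (b : B.V), β (A.ρ g a) (B.ρ g b) = E.ρ g (β a b))
    (hinj : ∀ a : A.V, (∀ b : B.V, β a b = 0) → a = 0)
    (hsurj : ∀ φ : B.V →+ E.V, ∃ a : A.V, ∀ b : B.V, β a b = φ b) :
    IsIso (pairingHom β hβ) := by
  have hb := pairingHom_bijective β hβ hinj hsurj
  haveI : Mono (pairingHom β hβ) := (Rep.mono_iff_injective _).2 hb.1
  haveI : Epi (pairingHom β hβ) := (Rep.epi_iff_surjective _).2 hb.2
  exact isIso_of_mono_of_epi _

end Pairing

section Eval

variable {p : ℕ} [Fact p.Prime]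

/-- Every additive map from the dual of a finite dimensional `𝔽_p`-vector space `M` to an
abelian group `E` whose `p`-torsion is a line `θ(T)` is `f ↦ θ (e (f m))` for some `m ∈ M`. -/
theorem exists_eval_of_additive {M T E : Type} [AddCommGroup M] [Module (ZMod p) M]
    [Module.Finite (ZMod p) M] [AddCommGroup T] [Module (ZMod p) T] (e : ZMod p ≃ₗ[ZMod p] T)
    [AddCommGroup E] (θ : T →+ E) (hθ : Function.Injective θ)
    (hθp : ∀ x : E, p • x = 0 → ∃ t : T, θ t = x)
    (φ : Module.Dual (ZMod p) M →+ E) :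
    ∃ m : M, ∀ f : Module.Dual (ZMod p) M, θ (e (f m)) = φ f := by
  have hp : ∀ f : Module.Dual (ZMod p) M, p • φ f = 0 := by
    intro f
    rw [← map_nsmul]
    have h0 : p • f = 0 := by
      rw [← Nat.cast_smul_eq_nsmul (ZMod p), ZMod.natCast_self, zero_smul]
    rw [h0, map_zero]
  choose ψ₀ hψ₀ using fun f => hθp (φ f) (hp f)
  have hadd : ∀ f f' : Module.Dual (ZMod p) M, ψ₀ (f + f') = ψ₀ f + ψ₀ f' := by
    intro f f'
    apply hθ
    rw [map_add, hψ₀, hψ₀, hψ₀, map_add]
  let ψ : Module.Dual (ZMod p) M →+ T := AddMonoidHom.mk' ψ₀ hadd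
  let χ : Module.Dual (ZMod p) (Module.Dual (ZMod p) M) :=
    e.symm.toLinearMap ∘ₗ (ψ.toZModLinearMap p)
  refine ⟨(Module.evalEquiv (ZMod p) M).symm χ, fun f => ?_⟩
  rw [Module.apply_evalEquiv_symm_apply]
  change θ (e (e.symm (ψ₀ f))) = φ f
  rw [LinearEquiv.apply_symm_apply, hψ₀]

/-- Left nondegeneracy of `(m, f) ↦ θ (e (f m))`. -/
theorem eq_zero_of_eval_eq_zero {M T E : Type} [AddCommGroup M] [Module (ZMod p) M]
    [Module.Finite (ZMod p) M] [AddCommGroup T] [Module (ZMod p) T] (e : ZMod p ≃ₗ[ZMod p] T)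
    [AddCommGroup E] (θ : T →+ E) (hθ : Function.Injective θ) (m : M)
    (h : ∀ f : Module.Dual (ZMod p) M, θ (e (f m)) = 0) : m = 0 := by
  rw [← Module.forall_dual_apply_eq_zero_iff (ZMod p) m]
  intro f
  have h1 := h f
  rw [← map_zero θ] at h1
  have h2 := hθ h1
  rwa [LinearEquiv.map_eq_zero_iff] at h2

end Eval

end

end Fermat.Agent.S55.E1.H295

end
-- ===== PACK-END S55/E1/H295/BidualCore.lean

-- ===== PACK-BEGIN S56/H419/EulerAdd.lean
section




/-!
# S56 / W-BASE / leaf ADD (helper419): additivity of the Euler characteristic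

Vocabulary of S55 route C′ (`Fermat/Agent/S55/PT`): level-constant cohomology `LevelSys.H0/H1/H2`,
short exact sequences `SES A B C`, the framework leaves `Les0Spec`, `Les1Spec`, `LesMidSpec`.

* `eulerChar L N = h⁰ − h¹ + h²` (as an integer, `finrank`).
* `eulerChar_add` : for a short exact sequence `0 → A → B → C → 0` of uniformly smooth modules with
  finite-dimensional cohomology and `H²(B) → H²(C)` onto, `χ(B) = χ(A) + χ(C)`.
* `EulerAddSpec p S`, `eulerAdd_of` : the global form for `G_ℚ`, `globalLevels S`, from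
  `FinGlobSpec` (A1), `H2FinGlobSpec`, `Surj2GlobSpec` (A3) and the framework leaves.
-/

set_option autoImplicit false

noncomputable section

namespace Fermat.Agent.S56.H419

open Fermat.Agent.S55.PT groupCohomology Module

section General

variable {k : Type} [Field k] {G : Type} [Group G]

/-- The Euler characteristic `h⁰ − h¹ + h²` of level-constant cohomology. -/
def eulerChar (L : LevelSys G) (N : Rep.{0, 0, 0} k G) : ℤ :=
  (finrank k ↥(LevelSys.H0 N) : ℤ) - finrank k (L.H1 N) + finrank k (L.H2 N)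

/-- A sub-representation of a uniformly smooth representation is uniformly smooth. -/
theorem SES.isUSmooth_left {A B C : Rep.{0, 0, 0} k G} (E : SES A B C) (L : LevelSys G)
    (hB : L.IsUSmooth B) : L.IsUSmooth A := by
  obtain ⟨U, hU, h⟩ := hB
  refine ⟨U, hU, fun s hs a => E.inj ?_⟩
  rw [E.hi s a, h s hs]

/-- A quotient of a uniformly smooth representation is uniformly smooth. -/
theorem SES.isUSmooth_right {A B C : Rep.{0, 0, 0} k G} (E : SES A B C) (L : LevelSys G)
    (hB : L.IsUSmooth B) : L.IsUSmooth C := by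
  obtain ⟨U, hU, h⟩ := hB
  refine ⟨U, hU, fun s hs c => ?_⟩
  obtain ⟨b, rfl⟩ := E.surj c
  rw [← E.hπ s b, h s hs]

/-- **ADD, general form.**  Additivity of the Euler characteristic along a short exact sequence
of uniformly smooth representations, assuming finite-dimensionality of all cohomology groups
and surjectivity of `H²(B) → H²(C)`. -/
theorem eulerChar_add (hLes0 : Les0Spec) (hLes1 : Les1Spec) (hMid : LesMidSpec)
    (L : LevelSys G) (hN : L.NormalCofinal) {A B C : Rep.{0, 0, 0} k G} (E : SES A B C)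
    (hB : L.IsUSmooth B) [FiniteDimensional k B]
    [FiniteDimensional k (L.H1 A)] [FiniteDimensional k (L.H1 B)] [FiniteDimensional k (L.H1 C)]
    [FiniteDimensional k (L.H2 A)] [FiniteDimensional k (L.H2 B)] [FiniteDimensional k (L.H2 C)]
    (hsurj : Function.Surjective (pushH2 E.π E.hπ L)) :
    eulerChar L B = eulerChar L A + eulerChar L C := by
  have hA : L.IsUSmooth A := SES.isUSmooth_left E L hB
  have hC : L.IsUSmooth C := SES.isUSmooth_right E L hB
  have : FiniteDimensional k A := FiniteDimensional.of_injective E.i E.inj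
  have : FiniteDimensional k C := FiniteDimensional.of_surjective E.π E.surj
  obtain ⟨h0a, h0b⟩ := hLes0 k G L A B C E hB
  obtain ⟨h1a, h1b⟩ := hLes1 k G L A B C E hN hB hC
  obtain ⟨hm0, hm1, hm2, hm3⟩ := hMid k G L A B C E hN hA hB
  have key := nineTerm_alternating (k := k)
    (pushH0 E.i E.hi) (pushH0 E.π E.hπ) (E.del0 L hB) (pushH1 E.i E.hi L)
    (pushH1 E.π E.hπ L) (E.del1 L hN hB hC) (pushH2 E.i E.hi L) (pushH2 E.π E.hπ L)
    hm0 hm1 h0a.symm h0b hm2 h1a.symm h1b hm3 hsurj
  unfold eulerChar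
  linarith [key]

end General

section Global

variable (p : ℕ) [Fact p.Prime] (S : Finset Nat.Primes)

/-- `H²_S(N)` is finite-dimensional for finite-dimensional uniformly smooth `N`. -/
def H2FinGlobSpec : Prop :=
  ∀ N : Rep.{0, 0, 0} (ZMod p) _root_.Fermat.Agent.S55.PT.GQ, FiniteDimensional (ZMod p) N → (globalLevels S).IsUSmooth N →
    FiniteDimensional (ZMod p) ((globalLevels S).H2 N)

/-- **ADD** (W-BASE, Tate's global Euler characteristic, step 1): the Euler characteristic
`h⁰ − h¹ + h²` of `G_{ℚ,S}` is additive on short exact sequences of finite-dimensional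
uniformly smooth `F_p`-representations. -/
def EulerAddSpec : Prop :=
  ∀ (A B C : Rep.{0, 0, 0} (ZMod p) _root_.Fermat.Agent.S55.PT.GQ) (_E : SES A B C),
    FiniteDimensional (ZMod p) B → (globalLevels S).IsUSmooth B →
    eulerChar (globalLevels S) B = eulerChar (globalLevels S) A + eulerChar (globalLevels S) C

/-- **ADD from the inputs A1, A3 of route C′** (plus finiteness of `H²` and the framework
leaves D-F1, D-F2, D-F3, D-F7a). -/
theorem eulerAdd_of (hLes0 : Les0Spec) (hLes1 : Les1Spec) (hMid : LesMidSpec)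
    (hGN : GlobalNormalCofinalSpec) (hA1 : FinGlobSpec p S) (hH2 : H2FinGlobSpec p S)
    (hA3 : Surj2GlobSpec p S) : EulerAddSpec p S := by
  intro A B C E hfB hB
  have hA : (globalLevels S).IsUSmooth A := SES.isUSmooth_left E _ hB
  have hC : (globalLevels S).IsUSmooth C := SES.isUSmooth_right E _ hB
  have : FiniteDimensional (ZMod p) B := hfB
  have hfA : FiniteDimensional (ZMod p) A := FiniteDimensional.of_injective E.i E.inj
  have hfC : FiniteDimensional (ZMod p) C := FiniteDimensional.of_surjective E.π E.surj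
  have := hA1 A hfA hA
  have := hA1 B hfB hB
  have := hA1 C hfC hC
  have := hH2 A hfA hA
  have := hH2 B hfB hB
  have := hH2 C hfC hC
  exact eulerChar_add hLes0 hLes1 hMid (globalLevels S) (hGN S) E hB
    (hA3 B C E.π E.hπ hfB hB hC E.surj)

end Global

end Fermat.Agent.S56.H419

end

end
-- ===== PACK-END S56/H419/EulerAdd.lean

-- ===== PACK-BEGIN S56/Euler/H74/ValBasic.lean
section



/-!
# S56 / W-BASE, leaf EUL-CL (helper74), part B0: elementary facts on valuation subrings of `ℚ̄`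

* `val_natCast_eq_one`   : a nonzero natural number none of whose prime factors lies under `A`
                            is a unit of `A`;
* `mem_of_no_prime`      : a valuation subring lying over no prime is everything;
* `exists_unit_away`     : every `a ∈ ℚ̄ˣ` is a unit at all places over primes not dividing some
                            `M ≠ 0`;
* `prime_unique`         : a valuation subring lies over at most one prime.
-/

set_option autoImplicit false
set_option linter.style.haveILetI false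

namespace Fermat.Agent.S56.Euler.H74

open Fermat.Agent.S55.Bridge Fermat.Agent.S54

local notation "Qb" => AlgebraicClosure ℚ
local notation "GQ" => (AlgebraicClosure ℚ ≃ₐ[ℚ] AlgebraicClosure ℚ)

variable (A : ValuationSubring Qb)

/-- A natural number is in `A`. -/
lemma val_natCast_le_one (n : ℕ) : A.valuation (n : Qb) ≤ 1 :=
  (A.valuation_le_one_iff _).mpr (natCast_mem A n)

/-- A nonzero natural number none of whose prime factors lies under `A` is a unit of `A`. -/
theorem val_natCast_eq_one (m : ℕ) (hm : m ≠ 0)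
    (h : ∀ q : ℕ, q.Prime → q ∣ m → ¬ A.LiesOverPrime q) : A.valuation (m : Qb) = 1 := by
  induction m using Nat.recOnMul with
  | zero => exact absurd rfl hm
  | one => simp
  | prime p hp =>
    have h1 := h p hp dvd_rfl
    have h2 : ¬ A.valuation (p : Qb) < 1 := fun hlt => h1 ((A.mem_nonunits_iff).2 hlt)
    exact le_antisymm (val_natCast_le_one A p) (not_lt.1 h2)
  | mul a b iha ihb =>
    have ha : a ≠ 0 := fun h0 => hm (by rw [h0, zero_mul])
    have hb : b ≠ 0 := fun h0 => hm (by rw [h0, mul_zero])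
    rw [Nat.cast_mul, map_mul,
      iha ha (fun q hq hqa => h q hq (Dvd.dvd.mul_right hqa b)),
      ihb hb (fun q hq hqb => h q hq (Dvd.dvd.mul_left hqb a)), mul_one]

/-- A valuation subring lies over at most one prime. -/
theorem prime_unique {q q' : ℕ} (hq : q.Prime) (hq' : q'.Prime) (hA : A.LiesOverPrime q)
    (hA' : A.LiesOverPrime q') : q = q' := by
  by_contra hne
  have h1 := val_prime_eq_one (A := A) hA hq hq' hne
  have h2 : A.valuation (q' : Qb) < 1 := (A.mem_nonunits_iff).1 hA'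
  rw [h1] at h2
  exact lt_irrefl _ h2

/-- If `A` lies over `q` and `q ∤ m`, `m ≠ 0`, then `m` is a unit of `A`. -/
theorem val_natCast_eq_one_of_not_dvd {q : ℕ} (hq : q.Prime) (hA : A.LiesOverPrime q)
    (m : ℕ) (hqm : ¬ q ∣ m) : A.valuation (m : Qb) = 1 := by
  have hm : m ≠ 0 := fun h0 => hqm (by rw [h0]; exact dvd_zero q)
  refine val_natCast_eq_one A m hm (fun q' hq' hq'm hA' => ?_)
  have := prime_unique A hq hq' hA hA'
  exact hqm (this ▸ hq'm)

/-- Integral multiples: every `x ∈ ℚ̄` has a nonzero natural multiple which is integral. -/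
theorem exists_nat_mul_integral (x : Qb) :
    ∃ m : ℕ, m ≠ 0 ∧ IsIntegral ℤ ((m : Qb) * x) := by
  have halg : IsAlgebraic ℚ x := (AlgebraicClosure.isAlgebraic ℚ).isAlgebraic x
  have halg' : IsAlgebraic ℤ x := (IsFractionRing.isAlgebraic_iff ℤ ℚ Qb).2 halg
  obtain ⟨y, hy, hint⟩ := halg'.exists_integral_multiple
  refine ⟨y.natAbs, Int.natAbs_ne_zero.2 hy, ?_⟩
  rcases Int.natAbs_eq y with h | h
  · have : ((y.natAbs : ℕ) : Qb) * x = y • x := by
      rw [zsmul_eq_mul]
      congr 1
      conv_rhs => rw [h]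
      simp
    rw [this]
    exact hint
  · have : ((y.natAbs : ℕ) : Qb) * x = -(y • x) := by
      rw [zsmul_eq_mul, ← neg_mul]
      congr 1
      conv_rhs => rw [h]
      simp
    rw [this]
    exact hint.neg

/-- If `m x` is integral and `m` is a unit of `A`, then `x ∈ A`. -/
theorem mem_of_mul_integral {x : Qb} {m : ℕ} (hint : IsIntegral ℤ ((m : Qb) * x))
    (hm : A.valuation (m : Qb) = 1) : x ∈ A := by
  rw [← A.valuation_le_one_iff]
  have h1 : A.valuation ((m : Qb) * x) ≤ 1 :=
    (A.valuation_le_one_iff _).2 (isIntegral_mem_valuationSubring A hint)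
  rwa [map_mul, hm, one_mul] at h1

/-- A valuation subring of `ℚ̄` lying over no prime is everything. -/
theorem mem_of_no_prime (h : ∀ q : ℕ, q.Prime → ¬ A.LiesOverPrime q) (x : Qb) : x ∈ A := by
  obtain ⟨m, hm, hint⟩ := exists_nat_mul_integral x
  exact mem_of_mul_integral A hint (val_natCast_eq_one A m hm (fun q hq _ => h q hq))

/-- Every `a ∈ ℚ̄ˣ` is a unit at all places over primes not dividing some `M ≠ 0`. -/
theorem exists_unit_away (a : Qbˣ) :
    ∃ M : ℕ, M ≠ 0 ∧ ∀ (B : ValuationSubring Qb) (q : ℕ), q.Prime → B.LiesOverPrime q →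
      ¬ q ∣ M → (a : Qb) ∈ B ∧ ((a⁻¹ : Qbˣ) : Qb) ∈ B := by
  obtain ⟨m, hm, hint⟩ := exists_nat_mul_integral (a : Qb)
  obtain ⟨m', hm', hint'⟩ := exists_nat_mul_integral ((a⁻¹ : Qbˣ) : Qb)
  refine ⟨m * m', Nat.mul_ne_zero hm hm', fun B q hq hB hqM => ⟨?_, ?_⟩⟩
  · exact mem_of_mul_integral B hint
      (val_natCast_eq_one_of_not_dvd B hq hB m (fun h => hqM (Dvd.dvd.mul_right h m')))
  · exact mem_of_mul_integral B hint'
      (val_natCast_eq_one_of_not_dvd B hq hB m' (fun h => hqM (Dvd.dvd.mul_left h m)))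

end Fermat.Agent.S56.Euler.H74

end
-- ===== PACK-END S56/Euler/H74/ValBasic.lean

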