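import Fermat.Agent.Pack.S56.E14L2
import Fermat.Agent.Pack.S56.E15L2
import Fermat.Agent.Pack.S56.E12L1
import Fermat.Agent.Pack.S56.E4L3
import Fermat.Agent.Pack.S56.E6L2
import Fermat.Agent.Pack.S56.E15L0
import Fermat.Agent.Pack.S56.E11L0
import Fermat.Agent.Pack.S56.E15L3
import Fermat.Agent.Pack.S56.E14L1
import Fermat.Agent.Pack.S56.E15L1
import Fermat.Agent.Pack.S56.E1L3
import Fermat.Agent.Pack.S56.E8L2
import Fermat.Agent.Pack.S56.E14L3
import Fermat.Agent.Pack.S56.E11L3
import Fermat.Agent.Pack.S56.E9L2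
import Fermat.Agent.Pack.S56.E5L0
import Fermat.Agent.Pack.S56.E4L2
import Fermat.Agent.Pack.S56.E9L0
import Fermat.Agent.Pack.S56.E6L1
import Fermat.Agent.Pack.S56.E14L0
import Fermat.Agent.Pack.S56.E6L3
import Fermat.Agent.Pack.S56.E11L1
import Fermat.Agent.Pack.S56.E11L2
import Fermat.Agent.Pack.S56.E4L1
import Fermat.Agent.Pack.S56.E3L3
import Fermat.Agent.Pack.S56.E13L1

-- ===== PACK-BEGIN S56/H716/GWSpec2.lean
section


/-!
# Row S56 — the wall GW-WALL, layer 3b: BASE over a bigger set (deputy helper716)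

`BASE  ⇐  BASE-BIG + COMP`       (optional route to `BaseStatement`)

Tate's Euler characteristic is easier to prove for a LARGE set `S'` of primes (class groups and
`Ш²(Ind μ)` can be killed).  `BaseBigStatement` is `BaseStatement` with `Smin` replaced by some
finite set `S' ⊇ Smin` of primes, chosen by the prover:

* `BaseBigStatement` (BASE-BIG): there are `S' ⊇ Smin`, places `Pl` over `S'`, a dual frame `D'`
  unramified outside `S'` and a finite-dimensional space `X'` representing the strict Selmer classes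
  of `(S', ∅)` (`= Ш¹_{S'}(M)`), with `dim X' + ∑_{v ∈ S'} h⁰(D_{Pl v}, M) + 1 ≤ dim D'`.
* `CompStatement` (COMP): BASE-BIG ⇒ BASE.  Proof: `D := {y ∈ D' : y unramified at S' ∖ Smin}`,
  `X :=` representatives of `Ш¹_Smin(M)`;  `r : D' → R' := ⊕_{v ∈ S'∖Smin} H¹(G_v,M')/H¹_ur`,
  `s : Ш¹_Smin(M) → R := ⊕_{v ∈ S'∖Smin} H¹_ur(G_v,M)`, `ker r = D`, `ker s = Ш¹_{S'}(M)`;
  reciprocity (`x` is trivial at `Smin`, both unramified outside `S'`) gives `r(D') ⊥ s(Ш¹_Smin)`;
  tame duality at the unramified primes `v ∈ S'∖Smin` (`R → R'^∨` injective, `dim R' ≤ ∑ h⁰`)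
  gives `dim r(D') + dim s(Ш¹_Smin) ≤ ∑_{v ∈ S'∖Smin} h⁰(G_v, M)`, whence the inequality.

Nothing unproved in this file.
-/

set_option autoImplicit false

open Polynomial IsLocalRing

noncomputable section

namespace Fermat.Agent.S56.H716

open Fermat.Agent.S56

/-- (BASE-BIG) for one residual representation: (BASE) for some finite set of primes
`S' ⊇ Smin`. -/
def BaseBig (𝒪 : Type) [CommRing 𝒪] [IsDomain 𝒪] [IsDiscreteValuationRing 𝒪]
    (p : ℕ) (ρbar : ResidualGaloisRep (ResidueField 𝒪)) (Smin : Finset ℕ) : Prop :=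
  ∃ S' : Finset ℕ, Smin ⊆ S' ∧ (∀ q ∈ S', q.Prime) ∧ Base 𝒪 p ρbar S'

/-- (BASE-BIG). -/
def BaseBigStatement : Prop :=
  ∀ (𝒪 : Type) [CommRing 𝒪] [IsDomain 𝒪] [IsDiscreteValuationRing 𝒪]
    [IsAdicComplete (maximalIdeal 𝒪) 𝒪] [Finite (ResidueField 𝒪)]
    (p : ℕ) (ρbar : ResidualGaloisRep (ResidueField 𝒪)) (S Smin : Finset ℕ),
    Hyp 𝒪 p ρbar S Smin → BaseBig 𝒪 p ρbar Smin

/-- (COMP): from a big set `S'` down to `Smin`. -/
def CompStatement : Prop :=
  ∀ (𝒪 : Type) [CommRing 𝒪] [IsDomain 𝒪] [IsDiscreteValuationRing 𝒪]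
    [IsAdicComplete (maximalIdeal 𝒪) 𝒪] [Finite (ResidueField 𝒪)]
    (p : ℕ) (ρbar : ResidualGaloisRep (ResidueField 𝒪)) (S Smin : Finset ℕ),
    Hyp 𝒪 p ρbar S Smin → BaseBig 𝒪 p ρbar Smin → Base 𝒪 p ρbar Smin

/-- (BASE) from (BASE-BIG) and (COMP). -/
theorem base_of_baseBig (hc : CompStatement) (hb : BaseBigStatement) : BaseStatement :=
  fun 𝒪 _ _ _ _ _ p ρbar S Smin hyp => hc 𝒪 p ρbar S Smin hyp (hb 𝒪 p ρbar S Smin hyp)

end Fermat.Agent.S56.H716

end

end
-- ===== PACK-END S56/H716/GWSpec2.lean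

-- ===== PACK-BEGIN S56/RQ/Spec.lean
section


/-!
# Row S56 — REC-Q (reciprocity over the Taylor–Wiles primes): FROZEN leaf statements
(sub-architect helper554)

`REC-Q  ⇐  RECIP + FRAME + LINE + NONDEG + URCUP + LOCTRIV + COBCUP + CONJ + GLOBZ`
(glue: `RQ/Glue.lean`), and `GLOBZ ⇐ INFL`, `URCUP, LOCTRIV ⇐ GEN` (inside the leaves).

`M = ad⁰ρ̄`, `M' = M(1)`; `q` a Taylor–Wiles prime, `P | q`, `D_P ⊇ I_P`, `φ` a Frobenius at `P`.
Everything is plain-function language; ONLY the leaf `RECIP` touches the S55/PT vocabulary.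

## Arithmetic input

* `PlainRecipStatement` (RECIP): the reciprocity package `PlainRecip k p Sg` for every finite
  field `k` of characteristic `p ≠ 2` and every finite set of primes `Sg ∋ p`.
  (From `S55.PT.InvSpec p Sg`: `inv v z := Σ_i e_i · inv_v [ℓ_i ∘ z ∘ (rl v × rl v)]` for an
  `F_p`-basis `e_i` of `k` with dual basis `ℓ_i`, extended linearly to all 2-cochains;
  `range (rl v) = D_{padicPlace v}` (`S55/Bridge/DecompLift`); injectivity at `v ≡ 1 mod p` is
  `TopLocIndSpec` for `W = ⊤`.)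

## Elementary leaves (Mathlib + Prelude + landed bridge lemmas)

* `GenStatement` (GEN): modulo any finite level, `D_P` is generated by `φ` and `I_P`.
* `InflStatement` (INFL): a subgroup of `G_ℚ` containing some `G_L` (`L` finite) and all inertia
  groups outside `Sg` contains `G_F` for a finite `F` unramified outside `Sg`.
* `FrameStatement` (FRAME): a uniform generator of tame inertia: `τ ∈ I_P` such that every
  ad-cocycle vanishing at `τ` vanishes on `I_P`.
* `LineStatement` (LINE): linear algebra of the regular semisimple `ρ̄(φ)`: the line `k·h`.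
* `NondegStatement` (NONDEG): `c ∪ y` a coboundary on `D_P`, `y` unramified ⇒ `tr (c τ · y φ) = 0`.
* `UrCupStatement` (URCUP): unramified ∪ unramified is a coboundary on `D_P`.
* `LocTrivTwStatement` (LOCTRIV): an unramified twisted cocycle with `y φ = φ m φ⁻¹ − m` is the
  coboundary of `m` on `D_P`.
* `CobCupStatement` (COBCUP): (coboundary) ∪ y and c ∪ (coboundary) are coboundaries.
* `ConjStatement` (CONJ): independence of the place: unramified at one `P | q` ⇒ `UnramAt`;
  coboundary on `D_P` ⇒ coboundary on `D_{P'}`.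
* `GlobZStatement` (GLOBZ): `c ∪ y` is a global 2-cocycle, level-constant for a level unramified
  outside `Smin ∪ Q`.

Nothing unproved in this file.  Plan: `coord/S56-RECQ.md` on `origin/main`.
-/

set_option autoImplicit false

open Polynomial IsLocalRing

noncomputable section

namespace Fermat.Agent.S56.RQ

open Fermat.Agent.S56 Fermat.Agent.S56.H716

/-- (RECIP): the plain reciprocity package, for every finite field of characteristic `p ≠ 2` and
every finite set of primes containing `p`. -/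
def PlainRecipStatement : Prop :=
  ∀ (k : Type) [Field k] [Finite k] (p : ℕ) [CharP k p], p.Prime → p ≠ 2 →
    ∀ Sg : Finset ℕ, p ∈ Sg → (∀ v ∈ Sg, v.Prime) → PlainRecip k p Sg

/-- (GEN): modulo any finite level, the decomposition group is generated by a Frobenius element
and the inertia group. -/
def GenStatement : Prop :=
  ∀ (q : ℕ) (P : ValuationSubring Qb) (φ : GQ), q.Prime → P.LiesOverPrime q →
    P.IsFrobeniusAt φ q →
    ∀ L : IntermediateField ℚ Qb, FiniteDimensional ℚ L →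
      ∀ σ ∈ P.decompositionSubgroup ℚ, ∃ n : ℕ, ∃ τ ∈ P.inertiaSubgroupIn ℚ,
        ∀ x ∈ L, σ x = (φ ^ n * τ) x

/-- (INFL): a subgroup containing an open subgroup and all inertia groups outside `Sg` contains
`G_F` for a finite extension `F` unramified outside `Sg`. -/
def InflStatement : Prop :=
  ∀ (Sg : Finset ℕ) (N : Subgroup GQ),
    (∃ L : IntermediateField ℚ Qb, FiniteDimensional ℚ L ∧
      ∀ s : GQ, (∀ x ∈ L, s x = x) → s ∈ N) →
    (∀ q : ℕ, q.Prime → q ∉ Sg → ∀ P : ValuationSubring Qb, P.LiesOverPrime q →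
      P.inertiaSubgroupIn ℚ ≤ N) →
    ∃ F : IntermediateField ℚ Qb, FiniteDimensional ℚ F ∧
      (∀ q : ℕ, q.Prime → q ∉ Sg → ∀ P : ValuationSubring Qb, P.LiesOverPrime q →
        ∀ s ∈ P.inertiaSubgroupIn ℚ, ∀ x ∈ F, s x = x) ∧
      ∀ s : GQ, (∀ x ∈ F, s x = x) → s ∈ N

/-- (FRAME): at a Taylor–Wiles prime there is `τ ∈ I_P` such that every ad-cocycle vanishing at
`τ` vanishes on `I_P`. -/
def FrameStatement : Prop :=
  ∀ (𝒪 : Type) [CommRing 𝒪] [IsDomain 𝒪] [IsDiscreteValuationRing 𝒪]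
    [IsAdicComplete (maximalIdeal 𝒪) 𝒪] [Finite (ResidueField 𝒪)]
    (p : ℕ) (ρbar : ResidualGaloisRep (ResidueField 𝒪)) (S Smin : Finset ℕ),
    Hyp 𝒪 p ρbar S Smin → ∀ q : ℕ, IsTWPrime ρbar p S q →
    ∀ P : ValuationSubring Qb, P.LiesOverPrime q →
      ∃ τ ∈ P.inertiaSubgroupIn ℚ, ∀ c : GQ → Module.End (ResidueField 𝒪) ρbar.V,
        IsAdCocycle ρbar c → c τ = 0 → ∀ σ ∈ P.inertiaSubgroupIn ℚ, c σ = 0

/-- (LINE): at a Taylor–Wiles prime, with `φ` a Frobenius element: there is a trace-zero `h`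
commuting with `ρ̄ φ`, `tr h² ≠ 0`, such that the values of ad-cocycles on `I_P` lie on `k·h` and
the trace-zero `x` with `tr (h x) = 0` are of the form `φ m φ⁻¹ − m`, `tr m = 0`. -/
def LineStatement : Prop :=
  ∀ (𝒪 : Type) [CommRing 𝒪] [IsDomain 𝒪] [IsDiscreteValuationRing 𝒪]
    [IsAdicComplete (maximalIdeal 𝒪) 𝒪] [Finite (ResidueField 𝒪)]
    (p : ℕ) (ρbar : ResidualGaloisRep (ResidueField 𝒪)) (S Smin : Finset ℕ),
    Hyp 𝒪 p ρbar S Smin → ∀ q : ℕ, IsTWPrime ρbar p S q →
    ∀ P : ValuationSubring Qb, P.LiesOverPrime q → ∀ φ : GQ, P.IsFrobeniusAt φ q →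
      ∃ h : Module.End (ResidueField 𝒪) ρbar.V,
        LinearMap.trace (ResidueField 𝒪) ρbar.V h = 0 ∧
        LinearMap.trace (ResidueField 𝒪) ρbar.V (h * h) ≠ 0 ∧
        ρbar.ρ φ * h = h * ρbar.ρ φ ∧
        (∀ c : GQ → Module.End (ResidueField 𝒪) ρbar.V, IsAdCocycle ρbar c →
          ∀ τ ∈ P.inertiaSubgroupIn ℚ, ∃ a : ResidueField 𝒪, c τ = a • h) ∧
        (∀ x : Module.End (ResidueField 𝒪) ρbar.V,
          LinearMap.trace (ResidueField 𝒪) ρbar.V x = 0 →
          LinearMap.trace (ResidueField 𝒪) ρbar.V (h * x) = 0 →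
          ∃ m : Module.End (ResidueField 𝒪) ρbar.V,
            LinearMap.trace (ResidueField 𝒪) ρbar.V m = 0 ∧
              x = ρbar.ρ φ * m * ρbar.ρ φ⁻¹ - m)

/-- (NONDEG): if the cup product of an ad-cocycle `c` and a twisted cocycle `y` unramified at `P`
is a coboundary on `D_P`, then `tr (c τ · y φ) = 0` for `τ ∈ I_P`, `φ` a Frobenius at `P`. -/
def NondegStatement : Prop :=
  ∀ (𝒪 : Type) [CommRing 𝒪] [IsDomain 𝒪] [IsDiscreteValuationRing 𝒪]
    [IsAdicComplete (maximalIdeal 𝒪) 𝒪] [Finite (ResidueField 𝒪)]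
    (p : ℕ) (ρbar : ResidualGaloisRep (ResidueField 𝒪)) (S Smin : Finset ℕ),
    Hyp 𝒪 p ρbar S Smin → ∀ q : ℕ, IsTWPrime ρbar p S q →
    ∀ P : ValuationSubring Qb, P.LiesOverPrime q → ∀ φ : GQ, P.IsFrobeniusAt φ q →
    ∀ τ ∈ P.inertiaSubgroupIn ℚ,
    ∀ c y : GQ → Module.End (ResidueField 𝒪) ρbar.V, IsAdCocycle ρbar c →
      IsTwCocycle ρbar p y → (∀ σ ∈ P.inertiaSubgroupIn ℚ, y σ = 0) →
      IsCob₂On p (P.decompositionSubgroup ℚ) (cup ρbar c y) →
      LinearMap.trace (ResidueField 𝒪) ρbar.V (c τ * y φ) = 0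

/-- (URCUP): at a Taylor–Wiles prime, the cup product of two cocycles unramified at `P` is a
coboundary on `D_P`. -/
def UrCupStatement : Prop :=
  ∀ (𝒪 : Type) [CommRing 𝒪] [IsDomain 𝒪] [IsDiscreteValuationRing 𝒪]
    [IsAdicComplete (maximalIdeal 𝒪) 𝒪] [Finite (ResidueField 𝒪)]
    (p : ℕ) (ρbar : ResidualGaloisRep (ResidueField 𝒪)) (S Smin : Finset ℕ),
    Hyp 𝒪 p ρbar S Smin → ∀ q : ℕ, IsTWPrime ρbar p S q →
    ∀ P : ValuationSubring Qb, P.LiesOverPrime q →
    ∀ c y : GQ → Module.End (ResidueField 𝒪) ρbar.V, IsAdCocycle ρbar c →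
      IsTwCocycle ρbar p y → (∀ σ ∈ P.inertiaSubgroupIn ℚ, c σ = 0) →
      (∀ σ ∈ P.inertiaSubgroupIn ℚ, y σ = 0) →
      IsCob₂On p (P.decompositionSubgroup ℚ) (cup ρbar c y)

/-- (LOCTRIV): at a Taylor–Wiles prime, a twisted cocycle unramified at `P` whose value at a
Frobenius element `φ` is `φ m φ⁻¹ − m` is the coboundary of `m` on `D_P`. -/
def LocTrivTwStatement : Prop :=
  ∀ (𝒪 : Type) [CommRing 𝒪] [IsDomain 𝒪] [IsDiscreteValuationRing 𝒪]
    [IsAdicComplete (maximalIdeal 𝒪) 𝒪] [Finite (ResidueField 𝒪)]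
    (p : ℕ) (ρbar : ResidualGaloisRep (ResidueField 𝒪)) (S Smin : Finset ℕ),
    Hyp 𝒪 p ρbar S Smin → ∀ q : ℕ, IsTWPrime ρbar p S q →
    ∀ P : ValuationSubring Qb, P.LiesOverPrime q → ∀ φ : GQ, P.IsFrobeniusAt φ q →
    ∀ y : GQ → Module.End (ResidueField 𝒪) ρbar.V, IsTwCocycle ρbar p y →
      (∀ σ ∈ P.inertiaSubgroupIn ℚ, y σ = 0) →
      ∀ m : Module.End (ResidueField 𝒪) ρbar.V,
        LinearMap.trace (ResidueField 𝒪) ρbar.V m = 0 →
        y φ = ρbar.ρ φ * m * ρbar.ρ φ⁻¹ - m →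
        IsTwCoboundaryOn ρbar p (P.decompositionSubgroup ℚ) y m

/-- (COBCUP): the cup product with a coboundary (on a subgroup `H`) is a coboundary on `H`. -/
def CobCupStatement : Prop :=
  ∀ (k : Type) [Field k] (p : ℕ) [CharP k p], p.Prime →
    ∀ (ρbar : ResidualGaloisRep k) (H : Subgroup GQ)
      (c y : GQ → Module.End k ρbar.V), IsAdCocycle ρbar c → IsTwCocycle ρbar p y →
      (IsAdCoboundaryOn ρbar H c → IsCob₂On p H (cup ρbar c y)) ∧
      ((∃ m, IsTwCoboundaryOn ρbar p H y m) → IsCob₂On p H (cup ρbar c y))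

/-- (CONJ): independence of the place.  (a) if `ρ̄` is unramified at `q`, an ad-cocycle vanishing
on one inertia group over `q` is unramified at `q`; (b) an ad-cocycle which is a coboundary on one
decomposition group over `v` is a coboundary on every decomposition group over `v`. -/
def ConjStatement : Prop :=
  ∀ (k : Type) [Field k] (ρbar : ResidualGaloisRep k) (v : ℕ), v.Prime →
    ∀ P P' : ValuationSubring Qb, P.LiesOverPrime v → P'.LiesOverPrime v →
    ∀ c : GQ → Module.End k ρbar.V, IsAdCocycle ρbar c →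
      (ρbar.IsUnramifiedAt v → (∀ σ ∈ P.inertiaSubgroupIn ℚ, c σ = 0) →
        ∀ σ ∈ P'.inertiaSubgroupIn ℚ, c σ = 0) ∧
      (IsAdCoboundaryOn ρbar (P.decompositionSubgroup ℚ) c →
        IsAdCoboundaryOn ρbar (P'.decompositionSubgroup ℚ) c)

/-- (GLOBZ): the cup product of a strict Selmer cocycle of `Q` and a twisted cocycle unramified
outside `Smin` is a global 2-cocycle of `k(1)`, level-constant for a finite level unramified
outside `Smin ∪ Q`. -/
def GlobZStatement : Prop :=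
  ∀ (𝒪 : Type) [CommRing 𝒪] [IsDomain 𝒪] [IsDiscreteValuationRing 𝒪]
    [IsAdicComplete (maximalIdeal 𝒪) 𝒪] [Finite (ResidueField 𝒪)]
    (p : ℕ) (ρbar : ResidualGaloisRep (ResidueField 𝒪)) (S Smin : Finset ℕ),
    Hyp 𝒪 p ρbar S Smin → ∀ Q : Finset ℕ, (∀ q ∈ Q, IsTWPrime ρbar p S q) →
    ∀ c y : GQ → Module.End (ResidueField 𝒪) ρbar.V, IsAdCocycle ρbar c →
      (∀ q : ℕ, q.Prime → q ∉ Smin ∪ Q → UnramAt ρbar c q) →
      IsTwCocycle ρbar p y → (∀ q : ℕ, q.Prime → q ∉ Smin → UnramAt ρbar y q) →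
      IsGlobZ p (Smin ∪ Q) (cup ρbar c y)

end Fermat.Agent.S56.RQ

end

end
-- ===== PACK-END S56/RQ/Spec.lean

-- ===== PACK-BEGIN S55/T/NakH837/CohTriv.lean
section





/-!
# S55, layer T, leaf T6 (helper837): consequences of cohomological triviality at the level of `G`

* `isZero_groupCohomology_of_isCohTriv` : `Hⁿ⁺¹(G, X) = 0`;
* `exists_norm_of_isCohTriv` : invariants of `X` are norms;
* `exists_normHom_of_nakayama` : (from `NakayamaSpec`) every morphism from a lattice to a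
  cohomologically trivial module is the norm of a linear map.
-/

set_option autoImplicit false
set_option linter.unusedSectionVars false

open CategoryTheory groupCohomology

namespace Fermat.Agent.S55.T.H837

open Fermat.Agent.S55.H572

noncomputable section

variable {k G : Type} [CommRing k] [Group G] [Fintype G]

/-- `Hⁿ⁺¹(G, X) = 0` for cohomologically trivial `X`. -/
theorem isZero_groupCohomology_of_isCohTriv {X : Rep.{0} k G} (hX : IsCohTriv X) (n : ℕ) :
    Limits.IsZero (groupCohomology X (n + 1)) := by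
  classical
  have h1 := hX (⊤ : Subgroup G) ((n + 1 : ℕ) : ℤ)
  rw [Fermat.Agent.S55.H295.isZero_tate_iff_group] at h1
  exact Limits.IsZero.of_iso h1 (Fermat.Agent.S55.T.H53.topIso X (n + 1)).symm

/-- Invariants of a cohomologically trivial representation are norms. -/
theorem exists_norm_of_isCohTriv {X : Rep.{0} k G} (hX : IsCohTriv X) (x : X.V)
    (hx : ∀ g : G, X.ρ g x = x) : ∃ y : X.V, ∑ g : G, X.ρ g y = x := by
  classical
  have h1 := hX (⊤ : Subgroup G) 0
  rw [isZero_tateCohomology_zero_iff] at h1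
  obtain ⟨y, hy⟩ := h1 x (fun g => hx g.1)
  refine ⟨y, ?_⟩
  rw [← hy]
  change _ = (∑ g : (⊤ : Subgroup G), (resSub X ⊤).ρ g) y
  rw [LinearMap.sum_apply]
  exact (Fintype.sum_equiv (Subgroup.topEquiv (G := G)).toEquiv _ _ fun g => rfl).symm

/-- If `Hom(R, X)` is cohomologically trivial, every morphism `R ⟶ X` is the norm of a linear
map. -/
theorem exists_normHom_of_isCohTriv_ihom {R X : Rep.{0} k G}
    (hY : IsCohTriv ((Rep.ihom R).obj X)) (f : R ⟶ X) :
    ∃ ψ : R.V →ₗ[k] X.V, f = normHom ψ := by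
  have key : ∃ ψ : R.V →ₗ[k] X.V,
      ∑ g : G, (Representation.linHom R.ρ X.ρ g) ψ = f.hom.toLinearMap :=
    exists_norm_of_isCohTriv (X := Rep.of (Representation.linHom R.ρ X.ρ)) hY
      f.hom.toLinearMap (fun g => by
        change X.ρ g ∘ₗ f.hom.toLinearMap ∘ₗ R.ρ g⁻¹ = f.hom.toLinearMap
        apply LinearMap.ext
        intro a
        change X.ρ g (f.hom (R.ρ g⁻¹ a)) = f.hom a
        rw [Rep.hom_comm_apply, ← Module.End.mul_apply, ← map_mul, mul_inv_cancel, map_one]
        rfl)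
  obtain ⟨ψ, hψ⟩ := key
  refine ⟨ψ, ?_⟩
  apply Rep.hom_ext
  apply Representation.IntertwiningMap.ext
  apply LinearMap.ext
  intro a
  change f.hom.toLinearMap a = (normHom ψ).hom a
  rw [← hψ, normHom_hom_apply, LinearMap.sum_apply]
  rfl

end

end Fermat.Agent.S55.T.H837

end
-- ===== PACK-END S55/T/NakH837/CohTriv.lean

-- ===== PACK-BEGIN S55/T/T6pH353/T6p.lean
section



/-!
# S55, layer T, leaf T6p (helper353): Tate–Nakayama AT `p`

`tateNakayamaAt_of : T.TateNakayamaSpec → E1.TateNakayamaAtSpec`.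

Proof (coord/S55-E1.md §2): let `P` be a Sylow `p`-subgroup of `G`.  `(C|_P, res γ)` is a class
module over `P` (`isClassModule_of_isPGroup`), so the frozen `T.TateNakayamaSpec` applies to `P`.

* (ker) `cor : H²(P, C) → H²(G, C)` is injective, so `f_* = 0` on `H²(P, R)`; T6 gives
  `f = N_P ψ`, hence `[G : P] • f = N_G ψ`.
* (surj) `χ_P := u • (res ∘ χ ∘ cor)`, T6 gives `f₀ ∈ Hom_P(R, C)` with `(f₀)_* = χ_P`;
  `f := N_{G/P} f₀`; by the transfer formula `f_* = cor ∘ (f₀)_* ∘ res = u [G:P]² χ`, and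
  `u [G:P]² ≡ 1 mod |P|`.
-/

set_option autoImplicit false
set_option linter.style.haveILetI false

open CategoryTheory groupCohomology

namespace Fermat.Agent.S55.T.H353

open Fermat.Agent.S55.H572 Fermat.Agent.S55.E1

noncomputable section

variable {G : Type} [Group G]

/-! ### Sums over cosets -/

/-- A sum over `G` decomposed along the left cosets of `P`. -/
lemma sum_eq_sum_out_mul [Fintype G] (P : Subgroup G) [Fintype P] [Fintype (G ⧸ P)]
    {M : Type} [AddCommMonoid M] (F : G → M) :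
    ∑ g : G, F g = ∑ q : G ⧸ P, ∑ h : P, F (q.out * (h : G)) := by
  rw [← Fintype.sum_prod_type' (f := fun (q : G ⧸ P) (h : P) => F (q.out * (h : G)))]
  symm
  refine Fintype.sum_equiv
    ⟨fun x => x.1.out * (x.2 : G), fun g => (QuotientGroup.mk g, hPart P g), ?_, ?_⟩ _ _
    (fun _ => rfl)
  · rintro ⟨q, h⟩
    simp only [mk_out_mul, hPart_out_mul]
  · intro g
    exact out_mul_hPart P g

/-- The `G`-norm of an additive map in terms of its `P`-norm. -/
lemma normAdd_eq_sum_out [Fintype G] (P : Subgroup G) [Fintype P] [Fintype (G ⧸ P)]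
    {R C : Rep.{0} ℤ G} (ψ : R.V →+ C.V) (r : R.V) :
    T.normAdd ψ r = ∑ q : G ⧸ P, C.ρ q.out
      (T.normAdd (A := T.resSub R P) (B := T.resSub C P) ψ (R.ρ q.out⁻¹ r)) := by
  unfold T.normAdd
  rw [sum_eq_sum_out_mul P]
  refine Finset.sum_congr rfl fun q _ => ?_
  rw [map_sum]
  refine Finset.sum_congr rfl fun h _ => ?_
  change C.ρ (q.out * (h : G)) (ψ (R.ρ (q.out * (h : G))⁻¹ r)) =
    C.ρ q.out (C.ρ (h : G) (ψ (R.ρ ((h⁻¹ : P) : G) (R.ρ q.out⁻¹ r))))
  rw [mul_inv_rev, map_mul, map_mul]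
  rfl

/-! ### Torsion -/

/-- A `p`-primary element of `H²(G, R)` is killed by the order of a Sylow `p`-subgroup. -/
lemma card_sylow_nsmul_eq_zero [Finite G] {p : ℕ} [Fact p.Prime] (P : Sylow p G)
    {R : Rep.{0} ℤ G} (x : groupCohomology R 2) (hx : IsPPrimary p x) :
    Nat.card (P : Subgroup G) • x = 0 := by
  obtain ⟨a, ha⟩ := hx
  have h1 : addOrderOf x ∣ p ^ a := addOrderOf_dvd_iff_nsmul_eq_zero.2 ha
  have h2 : addOrderOf x ∣ Nat.card (P : Subgroup G) * (P : Subgroup G).index := by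
    rw [Subgroup.card_mul_index]
    exact addOrderOf_dvd_iff_nsmul_eq_zero.2 (T.H572.cardTorsion ℤ G R 2 (by norm_num) x)
  have hp : Nat.Coprime p (P : Subgroup G).index :=
    (Nat.Prime.coprime_iff_not_dvd (Fact.out : p.Prime)).2 P.not_dvd_index
  have h3 : Nat.Coprime (addOrderOf x) (P : Subgroup G).index :=
    Nat.Coprime.coprime_dvd_left h1 (Nat.Coprime.pow_left a hp)
  exact addOrderOf_dvd_iff_nsmul_eq_zero.1 (h3.dvd_of_dvd_mul_right h2)

/-! ### The kernel part -/

theorem t6p_ker (hT6 : T.TateNakayamaSpec) {p : ℕ} [Fact p.Prime] [Fintype G]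
    {C : Rep.{0} ℤ G} {γ : groupCohomology C 2} (hC : IsClassModuleAt p C γ)
    (R : Rep.{0} ℤ G) (hfree : @Module.Free ℤ R.V _ _ R.hV2)
    (hfin : @Module.Finite ℤ R.V _ _ R.hV2) (f : R ⟶ C)
    (hf : ∀ x : groupCohomology R 2, IsPPrimary p x → (T.coeffMap f 2).hom x = 0) :
    ∃ (m : ℕ) (ψ : R.V →+ C.V), Nat.Coprime m p ∧ ∀ r : R.V, m • f.hom r = T.normAdd ψ r := by
  obtain ⟨P⟩ : Nonempty (Sylow p G) := inferInstance
  letI : Fintype (P : Subgroup G) := Fintype.ofFinite _
  letI : Fintype (G ⧸ (P : Subgroup G)) := Fintype.ofFinite _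
  have hPp : IsPGroup p (P : Subgroup G) := P.isPGroup'
  have hcop : (Nat.card (P : Subgroup G)).Coprime (P : Subgroup G).index := P.card_coprime_index
  have hclass := isClassModule_of_isPGroup hC P hPp
  obtain ⟨-, hker⟩ := hT6 (P : Subgroup G) (T.resSub C P) ((T.resMap C P 2).hom γ) hclass
    (T.resSub R P) hfree hfin
  obtain ⟨a, ha⟩ : ∃ a, Nat.card (P : Subgroup G) = p ^ a := IsPGroup.iff_card.1 hPp
  have hzero : ∀ y : groupCohomology (T.resSub R P) 2,
      (T.coeffMap ((Rep.resFunctor (P : Subgroup G).subtype).map f) 2).hom y = 0 := by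
    intro y
    apply cor_injective_of_classModuleAt hC P hPp hcop
    have hnat := congrArg (fun g => g.hom y) (cor_natural (P : Subgroup G) 2 f)
    refine Eq.trans hnat ?_
    apply hf
    refine ⟨a, ?_⟩
    rw [← ha]
    have hy : Nat.card (P : Subgroup G) • y = 0 :=
      T.H572.cardTorsion ℤ (P : Subgroup G) (T.resSub R P) 2 (by norm_num) y
    have := congrArg (cor (P : Subgroup G) 2 R).hom hy
    rw [map_nsmul, map_zero] at this
    exact this
  obtain ⟨ψ, hψ⟩ := (hker ((Rep.resFunctor (P : Subgroup G).subtype).map f)).1 hzero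
  refine ⟨(P : Subgroup G).index, ψ, ?_, ?_⟩
  · exact ((Nat.Prime.coprime_iff_not_dvd (Fact.out : p.Prime)).2 P.not_dvd_index).symm
  · intro r
    rw [normAdd_eq_sum_out (P : Subgroup G) ψ r]
    have h1 : ∀ q : G ⧸ (P : Subgroup G), C.ρ q.out
        (T.normAdd (A := T.resSub R P) (B := T.resSub C P) ψ (R.ρ q.out⁻¹ r)) = f.hom r := by
      intro q
      rw [← hψ]
      change C.ρ q.out (f.hom (R.ρ q.out⁻¹ r)) = f.hom r
      rw [Rep.hom_comm_apply f]
      exact @Representation.self_inv_apply ℤ G C.V _ _ _ C.hV2 C.ρ q.out (f.hom r)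
    rw [Finset.sum_congr rfl (fun q _ => h1 q), Finset.sum_const, Finset.card_univ,
      Subgroup.index_eq_card, Nat.card_eq_fintype_card]

/-! ### The surjectivity part -/

theorem t6p_surj (hT6 : T.TateNakayamaSpec) {p : ℕ} [Fact p.Prime] [Fintype G]
    {C : Rep.{0} ℤ G} {γ : groupCohomology C 2} (hC : IsClassModuleAt p C γ)
    (R : Rep.{0} ℤ G) (hfree : @Module.Free ℤ R.V _ _ R.hV2)
    (hfin : @Module.Finite ℤ R.V _ _ R.hV2)
    (χ : groupCohomology R 2 →+ groupCohomology C 2) :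
    ∃ f : R ⟶ C, ∀ x : groupCohomology R 2, IsPPrimary p x → (T.coeffMap f 2).hom x = χ x := by
  obtain ⟨P⟩ : Nonempty (Sylow p G) := inferInstance
  letI : Fintype (P : Subgroup G) := Fintype.ofFinite _
  letI : Fintype (G ⧸ (P : Subgroup G)) := Fintype.ofFinite _
  have hPp : IsPGroup p (P : Subgroup G) := P.isPGroup'
  have hcop : (Nat.card (P : Subgroup G)).Coprime (P : Subgroup G).index := P.card_coprime_index
  have hclass := isClassModule_of_isPGroup hC P hPp
  obtain ⟨hsurj, -⟩ := hT6 (P : Subgroup G) (T.resSub C P) ((T.resMap C P 2).hom γ) hclass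
    (T.resSub R P) hfree hfin
  -- Bezout
  have hcop2 : Nat.Coprime ((P : Subgroup G).index * (P : Subgroup G).index)
      (Nat.card (P : Subgroup G)) :=
    Nat.Coprime.mul_left hcop.symm hcop.symm
  obtain ⟨u, v, huv⟩ := Nat.isCoprime_iff_coprime.2 hcop2
  -- the local homomorphism
  let χP : groupCohomology (T.resSub R P) 2 →+ groupCohomology (T.resSub C P) 2 :=
    u • ((T.resMap C P 2).hom.toAddMonoidHom.comp
      (χ.comp (cor (P : Subgroup G) 2 R).hom.toAddMonoidHom))
  obtain ⟨f₀, hf₀⟩ := hsurj χP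
  refine ⟨normRel (P : Subgroup G) f₀, ?_⟩
  intro x hx
  have hPx : Nat.card (P : Subgroup G) • x = 0 := card_sylow_nsmul_eq_zero P x hx
  have ht := transfer_apply (P : Subgroup G) 2 f₀ x
  refine ht.trans ?_
  have h1 : (groupCohomology.map (MonoidHom.id (P : Subgroup G)) f₀ 2).hom
      ((resH (P : Subgroup G) R 2).hom x) = χP ((resH (P : Subgroup G) R 2).hom x) :=
    hf₀ _
  rw [h1]
  have h2 : (cor (P : Subgroup G) 2 R).hom ((resH (P : Subgroup G) R 2).hom x) =
      (P : Subgroup G).index • x := by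
    have h := congrArg (fun f => f.hom x) (resH_cor (P : Subgroup G) 2 R)
    exact h
  have h3 : (cor (P : Subgroup G) 2 C).hom ((T.resMap C P 2).hom (χ x)) =
      (P : Subgroup G).index • χ x := by
    have h := congrArg (fun f => f.hom (χ x)) (resH_cor (P : Subgroup G) 2 C)
    exact h
  have h4 : χP ((resH (P : Subgroup G) R 2).hom x) =
      u • (P : Subgroup G).index • (T.resMap C P 2).hom (χ x) := by
    change u • (T.resMap C P 2).hom (χ ((cor (P : Subgroup G) 2 R).hom
      ((resH (P : Subgroup G) R 2).hom x))) = _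
    rw [h2, map_nsmul, map_nsmul]
  rw [h4, map_zsmul, map_nsmul, h3]
  -- arithmetic
  have h5 : Nat.card (P : Subgroup G) • χ x = 0 := by
    rw [← map_nsmul, hPx, map_zero]
  have h7 : ((Nat.card (P : Subgroup G) : ℕ) : ℤ) • χ x = 0 := by
    rw [natCast_zsmul]
    exact h5
  have key : χ x = (u * (((P : Subgroup G).index * (P : Subgroup G).index : ℕ) : ℤ) +
      v * ((Nat.card (P : Subgroup G) : ℕ) : ℤ)) • χ x := by
    rw [huv, one_zsmul]
  conv_rhs => rw [key]
  rw [add_zsmul, mul_zsmul, mul_zsmul, h7, zsmul_zero, add_zero, natCast_zsmul, mul_nsmul]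

/-! ### T6p -/

/-- **T6p.**  Tate–Nakayama at `p`, from the frozen `T.TateNakayamaSpec`. -/
theorem tateNakayamaAt_of (hT6 : T.TateNakayamaSpec) : TateNakayamaAtSpec := by
  intro p hp G _ _ C γ hC R hfree hfin
  haveI : Fact p.Prime := ⟨hp⟩
  exact ⟨fun χ => t6p_surj hT6 hC R hfree hfin χ, fun f hf => t6p_ker hT6 hC R hfree hfin f hf⟩

end

end Fermat.Agent.S55.T.H353

end
-- ===== PACK-END S55/T/T6pH353/T6p.lean

-- ===== PACK-BEGIN S55/H963/Instance.lean
section



/-!
# S55 / leaf RAY-N1 (helper963): the concrete smoothing kernel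

The abstract `UnitKernel` is instantiated by the tent-smoothed summand `FS` of the landed
S14 block N1 (helper74), giving the unconditional statement
`RayDatum.exists_zeta_sub_bound'`.
-/

set_option autoImplicit false

namespace Fermat.Agent.S55.H963

open NumberField NumberField.Units NumberField.mixedEmbedding

variable (K : Type*) [Field K] [NumberField K]

theorem norm_mixedEmbedding_eq_absNorm (x : 𝓞 K) :
    mixedEmbedding.norm (mixedEmbedding K (x : K)) = (Ideal.absNorm (Ideal.span {x}) : ℝ) := by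
  rw [S14.H74.mixedEmbedding_norm_coe, Ideal.absNorm_span_singleton, Nat.cast_natAbs,
    Int.cast_abs]

theorem hasSum_FS_unit_mul (s : ℝ) {x : 𝓞 K} (hx : x ≠ 0) :
    HasSum (fun u : (𝓞 K)ˣ => S14.H74.FS K s ((u : 𝓞 K) * x))
      ((torsionOrder K : ℝ) * (Ideal.absNorm (Ideal.span {x}) : ℝ) ^ (-s)) := by
  have hN : mixedEmbedding.norm (mixedEmbedding K (x : K)) ≠ 0 := by
    rw [norm_mixedEmbedding_eq_absNorm]
    have : Ideal.absNorm (Ideal.span {x}) ≠ 0 := by
      rw [Ne, Ideal.absNorm_eq_zero_iff, Ideal.span_singleton_eq_bot]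
      exact hx
    exact_mod_cast this
  have h := (S14.H74.hasSum_rho_unit_smul (K := K) hN).mul_right
    ((Ideal.absNorm (Ideal.span {x}) : ℝ) ^ (-s))
  have e : (fun u : (𝓞 K)ˣ => S14.H74.FS K s ((u : 𝓞 K) * x)) =
      fun u : (𝓞 K)ˣ => S14.H74.rho K (u • mixedEmbedding K (x : K)) *
        (Ideal.absNorm (Ideal.span {x}) : ℝ) ^ (-s) := by
    funext u
    unfold S14.H74.FS S14.H74.fS
    rw [S14.H74.mixedEmbedding_unit_mul, norm_unit_smul, norm_mixedEmbedding_eq_absNorm]
  rw [e]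
  exact h

/-- The concrete smoothing kernel (tent partition of unity of S14/N1). -/
noncomputable def kernel74 : UnitKernel K where
  F := S14.H74.FS K
  w := (torsionOrder K : ℝ)
  w_pos := Nat.cast_pos.mpr (torsionOrder_pos K)
  nonneg := S14.H74.FS_nonneg
  map_zero := S14.H74.FS_zero
  summable := fun _ hs => S14.H74.summable_FS hs
  orbit := fun s _ _ hx => hasSum_FS_unit_mul K s hx
  shift := fun t => by
    obtain ⟨g, hg, -, hgb⟩ := S14.H74.exists_dominating (K := K) t
    exact ⟨g, hg, fun s hs1 hs2 y => hgb s hs1.le hs2 y⟩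

theorem kernel74_total (s : ℝ) : (kernel74 K).total s = ∑' x : 𝓞 K, S14.H74.FS K s x := rfl

/-- Growth of the total smoothed sum. -/
theorem kernel74_growth :
    ∃ G : ℝ, ∀ s : ℝ, 1 < s → s ≤ 2 → (s - 1) * (kernel74 K).total s ≤ G := by
  obtain ⟨Z, hZ0, hZ⟩ := S14.H74.classZeta_le K
  refine ⟨(torsionOrder K : ℝ) * Z, fun s hs1 hs2 => ?_⟩
  rw [kernel74_total, ← S14.H74.torsionOrder_mul_classZeta_one K hs1]
  have h1 := hZ s hs1 hs2 1
  have hs0 : 0 < s - 1 := by linarith
  have hw : (0 : ℝ) ≤ torsionOrder K := Nat.cast_nonneg _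
  have h2 : (s - 1) * S14.H74.classZeta K 1 s ≤ Z := by
    have := mul_le_mul_of_nonneg_left h1 hs0.le
    rwa [mul_div_cancel₀ _ hs0.ne'] at this
  calc (s - 1) * ((torsionOrder K : ℝ) * S14.H74.classZeta K 1 s)
      = (torsionOrder K : ℝ) * ((s - 1) * S14.H74.classZeta K 1 s) := by ring
    _ ≤ (torsionOrder K : ℝ) * Z := mul_le_mul_of_nonneg_left h2 hw

variable {K} {A : Type*} [CommGroup A]

namespace RayDatum

variable (D : RayDatum K A)

/-- **RAY-N1** (unconditional): the partial zeta functions of the classes `a` and `a ψ(𝔠)`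
differ by a bounded function on `(1, 2]`. -/
theorem exists_zeta_sub_bound' (𝔠 : Ideal (𝓞 K)) (h𝔠 : 𝔠 ≠ ⊥) (h𝔠m : IsCoprime 𝔠 D.m) (a : A) :
    ∃ B : ℝ, ∀ s : ℝ, 1 < s → s ≤ 2 → |D.zeta a s - D.zeta (a * D.ψ 𝔠) s| ≤ B :=
  D.exists_zeta_sub_bound (kernel74 K) (kernel74_growth K) 𝔠 h𝔠 h𝔠m a

/-- Summability of the partial zeta functions. -/
theorem summable_cls (a : A) {s : ℝ} (hs : 1 < s) :
    Summable fun I : D.cls a => (Ideal.absNorm (I : Ideal (𝓞 K)) : ℝ) ^ (-s) := by
  have h := D.summable_clsDvd (kernel74 K) ⊤ a hs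
  rw [D.clsDvd_top a] at h
  exact h

/-- Upper bound `ζ(s, a) ≤ Z / (s - 1)`. -/
theorem exists_zeta_le (a : A) : ∃ Z : ℝ, 0 ≤ Z ∧ ∀ s : ℝ, 1 < s → s ≤ 2 →
    D.zeta a s ≤ Z / (s - 1) := by
  obtain ⟨c, hc0, hc⟩ := D.exists_zeta_le_total (kernel74 K) a
  obtain ⟨G, hG⟩ := kernel74_growth K
  have hG0 : 0 ≤ G := by
    have h := hG 2 (by norm_num) le_rfl
    have h2 := (kernel74 K).total_nonneg 2
    nlinarith
  refine ⟨c * G, mul_nonneg hc0 hG0, fun s hs1 hs2 => ?_⟩
  have hs0 : 0 < s - 1 := by linarith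
  rw [le_div_iff₀ hs0]
  calc D.zeta a s * (s - 1) ≤ (c * (kernel74 K).total s) * (s - 1) :=
        mul_le_mul_of_nonneg_right (hc s hs1 hs2) hs0.le
    _ = c * ((s - 1) * (kernel74 K).total s) := by ring
    _ ≤ c * G := mul_le_mul_of_nonneg_left (hG s hs1 hs2) hc0

end RayDatum

end Fermat.Agent.S55.H963

end
-- ===== PACK-END S55/H963/Instance.lean

-- ===== PACK-BEGIN S55/E1/H298/Alg9.lean
section



/-!
# S55 engine E1, block ALG, leaf ALG9 (helper298)

The edge map `δ' : H¹(G, 𝔹) → H²(G, Hom_ℤ(N, X))` of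
`0 → Hom_ℤ(N, X) → Hom_ℤ(P, X) → 𝔹 → 0` (`P = ℤ[G]^{(N)}`) is bijective.

* `ihomFreeLEquiv` : `Hom_k(k[G]^{(α)}, X) ≃ₗ[k] (G → (α → X))`,
  `φ ↦ (x ↦ (a ↦ x • φ(x⁻¹ • e_a)))`;
* `ihomFreeIsoFunRep` : `Hom_k(k[G]^{(α)}, X) ≅ funRep k G (α → X)` (coinduced), for ANY group `G`;
* `isZero_groupCohomology_ihom_free` : `Hⁿ⁺¹(G, Hom_k(k[G]^{(α)}, X)) = 0`;
* `alg9 : ALG9Spec`.
-/

set_option autoImplicit false

open CategoryTheory CategoryTheory.Limits

namespace Fermat.Agent.S55.E1.H298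

open Fermat.Agent.S55.E1

noncomputable section

section IhomFree

variable (k G α : Type) [CommRing k] [Group G] (X : Rep.{0} k G)

/-- The basis vector `g • e_a` of `k[G]^{(α)}`. -/
def freeBasisVec (a : α) (g : G) : (Rep.free k G α).V :=
  Finsupp.single a (MonoidAlgebra.single g (1 : k))

lemma free_ρ_freeBasisVec (h : G) (a : α) (g : G) :
    (Rep.free k G α).ρ h (freeBasisVec k G α a g) = freeBasisVec k G α a (h * g) := by
  unfold freeBasisVec
  exact Representation.free_single_single h g a 1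

/-- The linear map `k[G]^{(α)} → V` with prescribed values on the basis `g • e_a`. -/
def freeDesc {V : Type} [AddCommGroup V] [Module k V] (F : α → G → V) :
    (α →₀ MonoidAlgebra k G) →ₗ[k] V :=
  Finsupp.lsum k (fun a => (Finsupp.linearCombination k (F a)) ∘ₗ
    (MonoidAlgebra.coeffLinearEquiv k).toLinearMap)

lemma freeDesc_freeBasisVec {V : Type} [AddCommGroup V] [Module k V] (F : α → G → V)
    (a : α) (g : G) : freeDesc k G α F (freeBasisVec k G α a g) = F a g := by
  simp [freeDesc, freeBasisVec]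

/-- Two linear maps on `k[G]^{(α)}` agreeing on the basis `g • e_a` are equal. -/
lemma free_lhom_ext {V : Type} [AddCommGroup V] [Module k V]
    {φ ψ : (α →₀ MonoidAlgebra k G) →ₗ[k] V}
    (h : ∀ (a : α) (g : G), φ (freeBasisVec k G α a g) = ψ (freeBasisVec k G α a g)) :
    φ = ψ := by
  apply Finsupp.lhom_ext
  intro a m
  induction m using MonoidAlgebra.induction_linear with
  | zero => simp
  | add f₁ f₂ h₁ h₂ => rw [Finsupp.single_add, map_add, map_add, h₁, h₂]
  | single g c =>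
    have e : (Finsupp.single a (MonoidAlgebra.single g c) : α →₀ MonoidAlgebra k G) =
        c • freeBasisVec k G α a g := by
      unfold freeBasisVec
      rw [Finsupp.smul_single, MonoidAlgebra.smul_single, smul_eq_mul, mul_one]
    rw [e, map_smul, map_smul, h]

/-- `Hom_k(k[G]^{(α)}, X) ≃ₗ[k] (G → (α → X))`, `φ ↦ (x ↦ (a ↦ x • φ(x⁻¹ • e_a)))`. -/
def ihomFreeLEquiv :
    ((Rep.ihom (Rep.free k G α)).obj X).V ≃ₗ[k] (G → (α → X.V)) where
  toFun φ := fun x a => X.ρ x (T.H719.ihomLin φ (freeBasisVec k G α a x⁻¹))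
  map_add' φ ψ := by
    funext x a
    change X.ρ x ((T.H719.ihomLin φ + T.H719.ihomLin ψ) (freeBasisVec k G α a x⁻¹)) = _
    rw [LinearMap.add_apply, map_add]
    rfl
  map_smul' c φ := by
    funext x a
    change X.ρ x ((c • T.H719.ihomLin φ) (freeBasisVec k G α a x⁻¹)) = _
    rw [LinearMap.smul_apply, map_smul]
    rfl
  invFun f := T.H719.ihomMk (freeDesc k G α (fun a g => X.ρ g (f g⁻¹ a)))
  left_inv φ := by
    apply free_lhom_ext
    intro a g
    change freeDesc k G α _ (freeBasisVec k G α a g) = _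
    rw [freeDesc_freeBasisVec]
    change X.ρ g (X.ρ g⁻¹ (T.H719.ihomLin φ (freeBasisVec k G α a g⁻¹⁻¹))) = _
    rw [inv_inv, ← Module.End.mul_apply, ← map_mul, mul_inv_cancel, map_one,
      Module.End.one_apply]
  right_inv f := by
    funext x a
    change X.ρ x (freeDesc k G α _ (freeBasisVec k G α a x⁻¹)) = _
    rw [freeDesc_freeBasisVec, inv_inv, ← Module.End.mul_apply, ← map_mul, mul_inv_cancel,
      map_one, Module.End.one_apply]

lemma ihomFreeLEquiv_apply (φ : ((Rep.ihom (Rep.free k G α)).obj X).V) (x : G) (a : α) :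
    ihomFreeLEquiv k G α X φ x a = X.ρ x (T.H719.ihomLin φ (freeBasisVec k G α a x⁻¹)) := rfl

lemma ihomFreeLEquiv_equivariant (g : G) (φ : ((Rep.ihom (Rep.free k G α)).obj X).V) :
    ihomFreeLEquiv k G α X (((Rep.ihom (Rep.free k G α)).obj X).ρ g φ)
      = Fermat.Agent.S55.H783.funRho k G (α → X.V) g (ihomFreeLEquiv k G α X φ) := by
  funext x a
  rw [Fermat.Agent.S55.H783.funRho_apply, ihomFreeLEquiv_apply, ihomFreeLEquiv_apply,
    T.H719.ihom_ρ_apply, free_ρ_freeBasisVec, mul_inv_rev, map_mul, Module.End.mul_apply]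

/-- `Hom_k(k[G]^{(α)}, X)` is coinduced (for any group `G`). -/
def ihomFreeIsoFunRep :
    (Rep.ihom (Rep.free k G α)).obj X ≅ Fermat.Agent.S55.H783.funRep k G (α → X.V) :=
  Rep.mkIso
    { toLinearEquiv := ihomFreeLEquiv k G α X
      isIntertwining' := fun g => by
        apply LinearMap.ext
        intro φ
        exact ihomFreeLEquiv_equivariant k G α X g φ }

/-- `Hⁿ⁺¹(G, Hom_k(k[G]^{(α)}, X)) = 0`. -/
theorem isZero_groupCohomology_ihom_free (n : ℕ) :
    IsZero (groupCohomology ((Rep.ihom (Rep.free k G α)).obj X) (n + 1)) :=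
  (Fermat.Agent.S55.H783.isZero_funRep (k := k) (G := G) (α → X.V) n).of_iso
    ((groupCohomology.functor k G (n + 1)).mapIso (ihomFreeIsoFunRep k G α X))

end IhomFree

section Alg9

/-- **ALG9.** The edge map `δ' : H¹(G, 𝔹) → H²(G, Hom_ℤ(N, X))` is bijective
(for any group `G`; finiteness is not needed). -/
theorem edgeδ_bijective {G : Type} [Group G] (N X : Rep.{0} ℤ G) :
    Function.Bijective (edgeδ N X) := by
  have h := groupCohomology.isIso_δ_of_isZero (edgeSC_shortExact N X) 1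
    (isZero_groupCohomology_ihom_free ℤ G N.V X 0)
    (isZero_groupCohomology_ihom_free ℤ G N.V X 1)
  exact (ConcreteCategory.isIso_iff_bijective _).mp h

/-- **ALG9.** -/
theorem alg9 : ALG9Spec := by
  intro G _ _ N X
  exact edgeδ_bijective N X

end Alg9

end

end Fermat.Agent.S55.E1.H298

end
-- ===== PACK-END S55/E1/H298/Alg9.lean

-- ===== PACK-BEGIN S55/E1/H423/Alg9a.lean
section



/-!
# S55, engine E1, leaf ALG9a (extension criterion) — exact frozen Spec forms

* `alg9a_add` : interface-free additive form.  `ι : R ↪ P` with `p P ⊆ ι R` (`p` prime); every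
  additive `φ : R → X` with `φ(R) ⊆ p X` is the restriction of an additive map `P → X`.
* `alg9aSpec : ALG9aSpec` : module form for the standard presentation `0 → R → P → N → 0`.
* `alg9aCocycleSpec : ALG9aCocycleSpec` : cocycle form.
-/

set_option autoImplicit false
set_option linter.style.haveILetI false

open CategoryTheory CategoryTheory.Limits

namespace Fermat.Agent.S55.E1.H423

section Additive

universe u

/-- **ALG9a, additive form.**  Let `ι : R' → P` be injective with `p P ⊆ ι R'` (`p` prime).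
Every additive `φ : R' → X` with values in `p X` extends to an additive map `P → X`. -/
theorem alg9a_add {R' : Type*} {P : Type u} {X : Type*} [AddCommGroup R'] [AddCommGroup P]
    [AddCommGroup X] (ι : R' →+ P) (hι : Function.Injective ι) (p : ℕ) [Fact p.Prime]
    (hp : ∀ x : P, ∃ r : R', ι r = p • x)
    (φ : R' →+ X) (hφ : ∀ r : R', ∃ x : X, φ r = p • x) :
    ∃ K : P →+ X, ∀ r : R', K (ι r) = φ r := by
  classical
  let R : Submodule ℤ P := LinearMap.range ι.toIntLinearMap
  have hpR : ∀ x : P, (p : ℤ) • x ∈ R := by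
    intro x
    obtain ⟨r, hr⟩ := hp x
    exact ⟨r, by rw [Nat.cast_smul_eq_nsmul]; exact hr⟩
  let e : R' ≃ₗ[ℤ] R := LinearEquiv.ofInjective ι.toIntLinearMap hι
  have he : ∀ r : R', ((e r : R) : P) = ι r := fun r => rfl
  let f : R →ₗ[ℤ] X := φ.toIntLinearMap ∘ₗ e.symm.toLinearMap
  have hf : ∀ r : R, ∃ x : X, f r = (p : ℤ) • x := by
    intro r
    obtain ⟨x, hx⟩ := hφ (e.symm r)
    exact ⟨x, by rw [Nat.cast_smul_eq_nsmul]; exact hx⟩
  obtain ⟨I, x, hgen, hdvd⟩ := exists_lift_family R p hpR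
  let xr : I → R := fun i => ⟨(p : ℤ) • x i, hpR (x i)⟩
  have hy : ∀ i : I, ∃ y : X, f (xr i) = (p : ℤ) • y := fun i => hf _
  choose y hy using hy
  have hrel : ∀ (m : I →₀ ℤ) (hm : Finsupp.linearCombination ℤ x m ∈ R),
      f ⟨_, hm⟩ = Finsupp.linearCombination ℤ y m := by
    intro m hm
    have hd := hdvd m hm
    have hl : ∀ i, (m i / (p : ℤ)) * (p : ℤ) = m i := fun i => Int.ediv_mul_cancel (hd i)
    let l : I →₀ ℤ := m.mapRange (fun n => n / (p : ℤ)) (by simp)
    have h1 : (⟨_, hm⟩ : R) = Finsupp.linearCombination ℤ xr l := by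
      apply Subtype.ext
      have e1 : ((Finsupp.linearCombination ℤ xr l : R) : P) =
          Finsupp.linearCombination ℤ (fun i => (p : ℤ) • x i) l := by
        rw [← Submodule.subtype_apply, LinearMap.map_finsupp_linearCombination]
        rfl
      rw [e1]
      show Finsupp.linearCombination ℤ x m = _
      rw [Finsupp.linearCombination_apply, Finsupp.linearCombination_apply,
        Finsupp.sum_mapRange_index (by intro i; exact zero_smul _ _)]
      refine Finsupp.sum_congr fun i _ => ?_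
      rw [smul_smul, hl]
    rw [h1, LinearMap.map_finsupp_linearCombination, Finsupp.linearCombination_apply,
      Finsupp.linearCombination_apply, Finsupp.sum_mapRange_index (by intro i; exact zero_smul _ _)]
    refine Finsupp.sum_congr fun i _ => ?_
    show (m i / (p : ℤ)) • f (xr i) = m i • y i
    rw [hy, smul_smul, hl]
  obtain ⟨k, hkR, -⟩ := exists_linearMap_extend R f x y hgen hrel
  refine ⟨k.toAddMonoidHom, fun r => ?_⟩
  have h1 := hkR (e r)
  have h0 : k (ι r) = k ((e r : R) : P) := by rw [he]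
  show k (ι r) = _
  rw [h0, h1]
  show φ (e.symm (e r)) = φ r
  rw [LinearEquiv.symm_apply_apply]

end Additive

section Spec

open Fermat.Agent.S55.E1
open Fermat.Agent.S55.T.H719 (ihomLin)

variable {G : Type} [Group G]

/-- The additive map underlying an element of `Hom_ℤ(A, X)`. -/
def ihomAdd {A X : Rep.{0} ℤ G} (φ : ((Rep.ihom A).obj X).V) : A.V →+ X.V :=
  AddMonoidHom.mk' (fun r => ihomLin φ r) (fun a b => map_add (ihomLin φ) a b)

@[simp]
theorem ihomAdd_apply {A X : Rep.{0} ℤ G} (φ : ((Rep.ihom A).obj X).V) (r : A.V) :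
    ihomAdd φ r = ihomLin φ r := rfl

/-- An additive map between the underlying groups of representations, as an element of
`Hom_ℤ(A, X)`. -/
def ihomOfAdd {A X : Rep.{0} ℤ G} (K : A.V →+ X.V) : ((Rep.ihom A).obj X).V :=
  letI : Module ℤ A.V := A.hV2
  letI : Module ℤ X.V := X.hV2
  ({ toFun := K
     map_add' := K.map_add
     map_smul' := fun n x => by simpa using map_intCast_smul K ℤ ℤ n x } : A.V →ₗ[ℤ] X.V)

theorem ihomLin_ihomOfAdd {A X : Rep.{0} ℤ G} (K : A.V →+ X.V) (r : A.V) :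
    ihomLin (ihomOfAdd K) r = K r := rfl

/-- Membership in `ihomImage` on elements. -/
theorem mem_ihomImage_of_add {A B X : Rep.{0} ℤ G} (a : A ⟶ B) (φ : ((Rep.ihom A).obj X).V)
    (K : B.V →+ X.V) (hK : ∀ r : A.V, K (a.hom r) = ihomLin φ r) : φ ∈ ihomImage a X := by
  refine ⟨ihomOfAdd K, ?_⟩
  show ihomLin ((ihomPre a X).hom (ihomOfAdd K)) = ihomLin φ
  exact DFunLike.ext _ _ fun r => hK r

/-- **ALG9 (a), module form**, exact frozen Spec form. -/
theorem alg9aSpec : ALG9aSpec := by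
  intro p hp G _ N X hpN φ hφ
  haveI : Fact p.Prime := ⟨hp⟩
  have h1 : ∀ x : (stdP N).V, ∃ r : (stdR N).V, addHom (stdι N) r = p • x := by
    intro x
    refine exists_stdι_eq N ?_
    rw [map_nsmul, hpN]
  obtain ⟨K, hK⟩ := alg9a_add (addHom (stdι N)) (stdι_injective N) p h1 (ihomAdd φ) hφ
  exact mem_ihomImage_of_add (stdι N) φ K hK

/-- **ALG9 (a), cocycle form**, exact frozen Spec form. -/
theorem alg9aCocycleSpec : ALG9aCocycleSpec := by
  intro p hp G _ N X hpN c hc
  have hmem : ∀ g : G, (c.1 g) ∈ ihomImage (stdι N) X := fun g =>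
    alg9aSpec p hp G N X hpN (c.1 g) (hc g)
  let c' : G → (edgeB N X).V := fun g => ⟨c.1 g, hmem g⟩
  have hc' : c' ∈ groupCohomology.cocycles₁ (edgeB N X) := by
    rw [groupCohomology.mem_cocycles₁_iff]
    intro g h
    apply Subtype.ext
    exact (groupCohomology.mem_cocycles₁_iff c.1).1 c.2 g h
  refine ⟨groupCohomology.H1π _ ⟨c', hc'⟩, ?_⟩
  unfold edgeIncl
  erw [groupCohomology.H1π_comp_map_apply]
  congr 1

end Spec

end Fermat.Agent.S55.E1.H423

end
-- ===== PACK-END S55/E1/H423/Alg9a.lean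

-- ===== PACK-BEGIN S55/E1/H600/ALG10Edge.lean
section
/-
S55 engine E1 — leaf ALG10E (`ALG10EdgeSpec`): the transition maps `tr` commute with the
connecting map `δ'` and with `incl_*`, hence with the edge map.   (helper600, subtask 480)
-/



set_option autoImplicit false

open CategoryTheory CategoryTheory.Limits

namespace Fermat.Agent.S55.E1.H600

noncomputable section

section Generic

variable {k G G' : Type} [CommRing k] [Group G] [Group G'] (π : G' →* G)

/-- A morphism of short complexes `S' ⟶ res_π S` (given elementwise) and `ι : res_π X ⟶ X'`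
induce a morphism of short complexes `res_π (ihomImageSC S X) ⟶ ihomImageSC S' X'`. -/
def ihomImageSCHom (S : ShortComplex (Rep.{0} k G)) (S' : ShortComplex (Rep.{0} k G'))
    (t₁ : S'.X₁ ⟶ Rep.res π S.X₁) (t₂ : S'.X₂ ⟶ Rep.res π S.X₂) (t₃ : S'.X₃ ⟶ Rep.res π S.X₃)
    (h₁₂ : ∀ x : S'.X₁.V, S.f.hom (t₁.hom x) = t₂.hom (S'.f.hom x))
    (h₂₃ : ∀ x : S'.X₂.V, S.g.hom (t₂.hom x) = t₃.hom (S'.g.hom x))
    {X : Rep.{0} k G} {X' : Rep.{0} k G'} (ι : Rep.res π X ⟶ X') :
    (ihomImageSC S X).map (Rep.resFunctor π) ⟶ ihomImageSC S' X' where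
  τ₁ := trIhom π t₃ ι
  τ₂ := trIhom π t₂ ι
  τ₃ := trImage π S.f S'.f t₁ t₂ ι h₁₂
  comm₁₂ := by
    apply Rep.hom_ext
    apply DFunLike.ext
    intro (φ : S.X₃.V →ₗ[k] X.V)
    apply LinearMap.ext
    intro x
    change ι.hom (φ (t₃.hom (S'.g.hom x))) = ι.hom (φ (S.g.hom (t₂.hom x)))
    rw [h₂₃]
  comm₂₃ := by
    apply Rep.hom_ext
    apply DFunLike.ext
    intro (ψ : S.X₂.V →ₗ[k] X.V)
    apply Subtype.ext
    apply LinearMap.ext
    intro r
    change ι.hom (ψ (t₂.hom (S'.f.hom r))) = ι.hom (ψ (S.f.hom (t₁.hom r)))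
    rw [h₁₂]

/-- `incl ∘ tr = tr ∘ incl` for the image submodules. -/
lemma trImage_incl {A B X : Rep.{0} k G} {A' B' X' : Rep.{0} k G'}
    (a : A ⟶ B) (a' : A' ⟶ B') (tA : A' ⟶ Rep.res π A) (tB : B' ⟶ Rep.res π B)
    (ι : Rep.res π X ⟶ X') (hsq : ∀ x : A'.V, a.hom (tA.hom x) = tB.hom (a'.hom x)) :
    trImage π a a' tA tB ι hsq ≫ ihomImageIncl a' X' =
      (Rep.resFunctor π).map (ihomImageIncl a X) ≫ trIhom π tA ι := by
  apply Rep.hom_ext
  apply DFunLike.ext
  intro φ
  rfl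

end Generic

variable {G G' : Type} [Group G] [Group G'] (π : G' →* G)
variable {N : Rep.{0} ℤ G} {N' : Rep.{0} ℤ G'} (ν : N' ⟶ Rep.res π N)
variable {X : Rep.{0} ℤ G} {X' : Rep.{0} ℤ G'} (ι : Rep.res π X ⟶ X')

/-- The morphism of short complexes `res_π (edgeSC N X) ⟶ edgeSC N' X'` given by the three
transition maps `φ ↦ ι ∘ φ ∘ ν`, `φ ↦ ι ∘ φ ∘ ρ`, `φ ↦ ι ∘ φ ∘ ρ|_{R'}`. -/
def edgeSCHom : (edgeSC N X).map (Rep.resFunctor π) ⟶ edgeSC N' X' :=
  ihomImageSCHom π (stdSC N) (stdSC N') (trR π ν) (trP π ν) ν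
    (fun r => trR_stdι_apply π ν r) (fun x => trP_stdε_apply π ν x) ι

/-- `tr` commutes with the connecting map `δ'`. -/
theorem edgeδ_tr (b : groupCohomology (edgeB N X) 1) :
    edgeδ N' X' ((groupCohomology.map π (trEdgeB π ν ι) 1).hom b) =
      (groupCohomology.map π (trIhom π ν ι) 2).hom (edgeδ N X b) := by
  have h := H783.δ_naturality_map π (edgeSC_shortExact N X) (edgeSC_shortExact N' X')
    (edgeSCHom π ν ι) 1 2 rfl
  have h' := congrArg (fun f => f.hom b) h
  exact h'.symm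

/-- `tr` commutes with `incl_*`. -/
theorem edgeIncl_tr (b : groupCohomology (edgeB N X) 1) :
    edgeIncl N' X' ((groupCohomology.map π (trEdgeB π ν ι) 1).hom b) =
      trE2 π ν ι (edgeIncl N X b) := by
  have h1 : groupCohomology.map π (trEdgeB π ν ι) 1 ≫
      groupCohomology.map (MonoidHom.id G') (ihomImageIncl (stdι N') X') 1 =
      groupCohomology.map (MonoidHom.id G) (ihomImageIncl (stdι N) X) 1 ≫
        groupCohomology.map π (trIhom π (trR π ν) ι) 1 := by
    rw [← groupCohomology.map_comp, ← groupCohomology.map_comp]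
    exact groupCohomology.map_congr rfl rfl 1
  have h' := congrArg (fun f => f.hom b) h1
  exact h'

theorem alg10Edge : ALG10EdgeSpec := by
  intro G G' _ _ π N N' ν X X' ι b
  exact ⟨edgeδ_tr π ν ι b, edgeIncl_tr π ν ι b⟩

end

end Fermat.Agent.S55.E1.H600

end
-- ===== PACK-END S55/E1/H600/ALG10Edge.lean

-- ===== PACK-BEGIN S55/GAD/IsoH594.lean
section
/-
S55 / G-ADAPTER leaf GAD-ISO (helper594): comparison of the class module of layer G with the
class module of the concrete tower datum (coord/S55-E1-GAD.md §3).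

For a tower level `L : Tow.Level S`:
* `psi L : Additive (G.AS S L.F)ˣ ≃ₗ[ℤ] GAD.JSV L`  (= TENS, `E1/H594/TensS.lean`), equivariant,
  `psi_unitsDiag : psi (unitsDiag y) q = (L.diag q) (levelUnitsIso y)`;
* `psiD L : G.JD S L.F ≃ₗ[ℤ] GAD.JDV L`, `psiD_diagHom`, `map_principal`;
* **`crepIso L : G.CRep S L.Gal L.F ≅ GAD.CT L`** in `Rep ℤ L.Gal`, with
  `crepIso_hom_mk : Φ [y] = mkC (psiD y)`, `crepIso_hom_jToC : Φ (j u) = mkC (psi u, 0)
  = ∑ q, jT q (psi u q)`, and `jT_eq : jT L q = tensIncl L q ≫ jToCRepHom ≫ Φ` (`q ∈ S`).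
No `sorry`.
-/



set_option autoImplicit false
set_option linter.unusedSectionVars false
set_option linter.style.haveILetI false

open CategoryTheory

namespace Fermat.Agent.S55.GAD.H594

open Fermat.Agent.S55 Fermat.Agent.S55.Tow Fermat.Agent.S55.E1.H594 Fermat.Agent.S55.G
open Fermat.Agent.S55.GAD

noncomputable section

variable {S : Finset Nat.Primes} (L : Level S)

/-- `Ψ_L : J_S(F) = (F ⊗ ℚ_S)ˣ ≃ ∏_{q ∈ S} J_q(F)` (TENS) as a `ℤ`-linear equivalence. -/
def psi : Additive (AS S L.F)ˣ ≃ₗ[ℤ] JSV L := (tensEquiv L).toIntLinearEquiv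

theorem psi_apply (u : Additive (AS S L.F)ˣ) (q : S) : psi L u q = tensEquiv L u q := rfl

theorem psi_equivariant (g : L.Gal) (u : Additive (AS S L.F)ˣ) :
    psi L (jRepr L.Gal S L.F g u) = jsRepr L g (psi L u) :=
  funext fun q => tensEquiv_equivariant L g u q

/-- The value of the tower's diagonal map, in `ℚ̄_q`. -/
theorem locVal_diag (x : L.units.V) (q : Nat.Primes) (g : L.Gal) :
    E1.H594.locVal L q (((L.diag q).hom x).1 g) =
      padicEmbedding (q : ℕ) (levelInvVal L (L.units.ρ g x)) := rfl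

theorem levelInvVal_ρ_hom (y : Additive (L.F)ˣ) (g : L.Gal) :
    levelInvVal L (L.units.ρ g ((levelUnitsIso L).hom.hom y)) =
      ((g • ((y.toMul : (L.F)ˣ) : L.F) : L.F) : Qbar) := by
  have h1 := Rep.hom_comm_apply (levelUnitsIso L).hom g y
  rw [← h1]
  exact coe_levelUnitsIso_hom_apply L _

/-- `Ψ_L` is compatible with the diagonal embeddings of `Fˣ`. -/
theorem psi_unitsDiag (y : Additive (L.F)ˣ) (q : S) :
    psi L (unitsDiag S L.F y) q = (L.diag q.1).hom ((levelUnitsIso L).hom.hom y) := by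
  apply E1.H594.J_ext
  intro g
  rw [psi_apply, tensEquiv_unitsDiag, locVal_diag, levelInvVal_ρ_hom]

/-- `Ψ_L × id : J_S(F) × Div^S(F) ≃ ∏ J_q(F) × Div^S(F)`. -/
def psiD : JD S L.F ≃ₗ[ℤ] JDV L :=
  LinearEquiv.prodCongr (psi L) (LinearEquiv.refl ℤ (PrimeOut S L.F →₀ ℤ))

theorem psiD_apply (y : JD S L.F) : psiD L y = (psi L y.1, y.2) := rfl

theorem psiD_equivariant (g : L.Gal) (y : JD S L.F) :
    psiD L (G.jdRepr S L.Gal L.F g y) = GAD.jdRepr L g (psiD L y) :=
  Prod.ext (psi_equivariant L g y.1) rfl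

theorem toField_hom (y : Additive (L.F)ˣ) : toField L ((levelUnitsIso L).hom.hom y) = y :=
  Rep.inv_hom_apply _ _ (levelUnitsIso L) y

theorem hom_toField (x : L.units.V) : (levelUnitsIso L).hom.hom (toField L x) = x :=
  Rep.hom_inv_apply _ _ (levelUnitsIso L) x

/-- `Ψ_L × id` maps the diagonal of layer G to the diagonal of the tower datum. -/
theorem psiD_diagHom (y : Additive (L.F)ˣ) :
    psiD L (diagHom S L.F y) = diagT L ((levelUnitsIso L).hom.hom y) := by
  refine Prod.ext (funext fun q => ?_) ?_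
  · exact psi_unitsDiag L y q
  · change ordHom S L.F y = ordHom S L.F (toField L ((levelUnitsIso L).hom.hom y))
    rw [toField_hom]

theorem psiD_diagHom_toField (x : L.units.V) :
    psiD L (diagHom S L.F (toField L x)) = diagT L x := by
  rw [psiD_diagHom, hom_toField]

/-- `Ψ_L × id` maps the principal idèles onto the principal elements of the tower datum. -/
theorem map_principal :
    (principal S L.F).map (psiD L : JD S L.F →ₗ[ℤ] JDV L) = princ L := by
  apply le_antisymm
  · rintro _ ⟨_, ⟨y, rfl⟩, rfl⟩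
    exact ⟨(levelUnitsIso L).hom.hom y, (psiD_diagHom L y).symm⟩
  · rintro _ ⟨x, rfl⟩
    exact ⟨diagHom S L.F (toField L x), ⟨toField L x, rfl⟩, psiD_diagHom_toField L x⟩

/-- The underlying linear equivalence of `Φ_L`. -/
def isoLin : CS S L.F ≃ₗ[ℤ] (CT L).V :=
  Submodule.Quotient.equiv (principal S L.F) (princ L) (psiD L) (_root_.Fermat.Agent.S55.GAD.H594.map_principal L)

theorem isoLin_mk (y : JD S L.F) :
    isoLin L ((principal S L.F).mkQ y) = mkC L (psiD L y) := rfl

theorem isoLin_equivariant (g : L.Gal) (c : CS S L.F) :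
    isoLin L (cRepr S L.Gal L.F g c) = (CT L).ρ g (isoLin L c) := by
  obtain ⟨y, rfl⟩ := Submodule.mkQ_surjective (principal S L.F) c
  change isoLin L ((principal S L.F).mkQ (G.jdRepr S L.Gal L.F g y)) = _
  rw [isoLin_mk, isoLin_mk, psiD_equivariant]
  rfl

/-- `Φ_L` as an equivalence of representations. -/
def isoEquiv : (cRepr S L.Gal L.F).Equiv (CT L).ρ :=
  Representation.Equiv.mk (isoLin L) (fun g => LinearMap.ext fun c => isoLin_equivariant L g c)

/-- **GAD-ISO**: `Φ_L : C_S(F) ≅ C(L)`, the class module of layer G is the class module of the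
concrete tower datum. -/
def crepIso : CRep S L.Gal L.F ≅ CT L := Rep.mkIso (isoEquiv L)

theorem crepIso_hom_apply (c : CS S L.F) : (crepIso L).hom.hom c = isoLin L c := rfl

theorem crepIso_hom_mk (y : JD S L.F) :
    (crepIso L).hom.hom ((principal S L.F).mkQ y) = mkC L (psiD L y) := rfl

theorem crepIso_hom_quot (y : JD S L.F) :
    (crepIso L).hom.hom ((quotRepHom S L.Gal L.F).hom y) = mkC L (psiD L y) := rfl

/-- `Φ ∘ (J_S → C_S) = mkC ∘ (Ψ, 0)`. -/
theorem crepIso_hom_jToC (u : Additive (AS S L.F)ˣ) :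
    (crepIso L).hom.hom ((jToCRepHom S L.Gal L.F).hom u) = mkC L (psi L u, 0) := rfl

/-- `Φ ∘ (J_S → C_S) = ∑_q j_q ∘ Ψ_q`. -/
theorem crepIso_hom_jToC_eq_sum (u : Additive (AS S L.F)ˣ) :
    (crepIso L).hom.hom ((jToCRepHom S L.Gal L.F).hom u) =
      ∑ q : S, (jT L q.1).hom (psi L u q) := by
  rw [crepIso_hom_jToC, sum_jT]

/-- `j_q = Φ ∘ (J_S → C_S) ∘ incl_q` for `q ∈ S`, elementwise. -/
theorem jT_apply_eq (q : S) (f : (L.J q.1).V) :
    (jT L q.1).hom f =
      (crepIso L).hom.hom ((jToCRepHom S L.Gal L.F).hom ((tensIncl L q).hom f)) := by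
  classical
  rw [crepIso_hom_jToC, jT_apply_of_mem]
  have h : psi L ((tensIncl L q).hom f) = Pi.single q f := tensEquiv_tensInclFun L q f
  rw [h]

/-- `j_q = incl_q ≫ (J_S → C_S) ≫ Φ` for `q ∈ S`, in `Rep ℤ L.Gal`. -/
theorem jT_eq (q : S) :
    jT L q.1 = tensIncl L q ≫ jToCRepHom S L.Gal L.F ≫ (crepIso L).hom := by
  apply Rep.hom_ext
  apply Representation.IntertwiningMap.ext
  exact LinearMap.ext fun f => jT_apply_eq L q f

end

end Fermat.Agent.S55.GAD.H594

end
-- ===== PACK-END S55/GAD/IsoH594.lean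

-- ===== PACK-BEGIN S55/K/T2H696.lean
section






/-!
# S55 / layer K, leaf K-T2 (dévissage): `h3Fin_of : H3IndMuSpec p S → H3FinSpec p S`   (helper696)

Exact Spec types of `K/Spec.lean` (helper4).  The abstract theorem is
`Fermat.Agent.S55.H696.devissage` (on main); here only the dictionary:

* `h3Vanish_iff`         : `K.H3Vanish L A ↔ H696.H3Van L A`;
* `mem_levels_of_le`     : a subgroup of `G_ℚ` containing a level of `globalLevels S` is a level;
* `isUSmooth_muP`        : `G_{ℚ(ζ_p)}` is a level (`p ∈ S`) acting trivially on `μ_p`.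

No twist step is needed: the Sylow preimage `H` used by `devissage` acts trivially on `μ_p`
automatically (a `p`-group acts trivially on a line over `𝔽_p`).
-/

set_option autoImplicit false
set_option linter.style.haveILetI false

noncomputable section

namespace Fermat.Agent.S55.K.H696

open groupCohomology Fermat.Agent.S55.PT Fermat.Agent.S55.Bridge Fermat.Agent.S55.K
open ExtCitation

attribute [local instance] isAlgebraic_Qbar isGalois_Qbar

/-- Dictionary between the two cochain-level formulations of `H³ = 0`. -/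
theorem h3Vanish_iff {G : Type} [Group G] {k : Type} [CommRing k] (L : LevelSys G)
    (A : Rep.{0, 0, 0} k G) : K.H3Vanish L A ↔ Fermat.Agent.S55.H696.H3Van L A := by
  have hcoc : ∀ f : G × G × G → A, d34 A f = 0 ↔ Fermat.Agent.S55.H696.IsCoc3 A f := by
    intro f
    constructor
    · intro h g₁ g₂ g₃ g₄
      exact congrFun h (g₁, g₂, g₃, g₄)
    · intro h
      funext ⟨g₁, g₂, g₃, g₄⟩
      exact h g₁ g₂ g₃ g₄
  constructor
  · intro h z hz hzc
    obtain ⟨b, hb, hdb⟩ := h z hz ((hcoc z).2 hzc)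
    exact ⟨b, hb, hdb⟩
  · intro h z hz hzc
    obtain ⟨b, hb, hdb⟩ := h z hz ((hcoc z).1 hzc)
    exact ⟨b, hb, hdb⟩

/-- A subgroup of `G_ℚ` containing a level is a level. -/
theorem mem_levels_of_le (S : Finset Nat.Primes) {U H : Subgroup _root_.Fermat.Agent.S55.PT.GQ}
    (hU : U ∈ (globalLevels S).levels) (hUH : U ≤ H) : H ∈ (globalLevels S).levels := by
  obtain ⟨F, hF, rfl⟩ := hU
  haveI : FiniteDimensional ℚ F := hF.1
  have hopen : IsOpen (H : Set _root_.Fermat.Agent.S55.PT.GQ) :=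
    Subgroup.isOpen_mono hUH (IntermediateField.fixingSubgroup_isOpen F)
  have hclosed : IsClosed (H : Set _root_.Fermat.Agent.S55.PT.GQ) := Subgroup.isClosed_of_isOpen H hopen
  have hfix : (IntermediateField.fixedField H).fixingSubgroup = H :=
    InfiniteGalois.fixingSubgroup_fixedField ⟨H, hclosed⟩
  refine ⟨IntermediateField.fixedField H, ⟨?_, ?_⟩, hfix.symm⟩
  · rw [← InfiniteGalois.isOpen_iff_finite, hfix]
    exact hopen
  · intro q hq A hA
    rw [hfix]
    exact (hF.2 q hq A hA).trans hUH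

/-- `μ_p` is uniformly smooth for `globalLevels S` if `p ∈ S`. -/
theorem isUSmooth_muP (p : ℕ) [Fact p.Prime] (S : Finset Nat.Primes)
    (hpS : ExtCitation.pPrime p ∈ S) : (globalLevels S).IsUSmooth (muP p) := by
  haveI : NeZero (p ^ 1) := ⟨pow_ne_zero 1 (Fact.out : p.Prime).ne_zero⟩
  refine ⟨(Fermat.Agent.S55.H414.cycloLevel (p ^ 1)).fixingSubgroup,
    ⟨_, Fermat.Agent.S55.H414.isUnramifiedOutside_cycloLevel p 1 S hpS, rfl⟩, ?_⟩
  intro s hs x
  have hζ : s (Fermat.Agent.S55.H414.zetaBar (p ^ 1)) = Fermat.Agent.S55.H414.zetaBar (p ^ 1) :=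
    (Fermat.Agent.S55.H414.mem_fixingSubgroup_cycloLevel_iff (p ^ 1) s).1 hs
  have hprim := Fermat.Agent.S55.H414.zetaBar_spec (p ^ 1)
  have h1 : cycloChar p s = 1 := by
    apply cycloChar_eq_one_of_fixes
    intro t ht
    have ht' : (t : AlgebraicClosure ℚ) ^ (p ^ 1) = 1 := by
      have := (mem_rootsOfUnity p t).1 ht
      rw [pow_one, ← Units.val_pow_eq_pow_val, this, Units.val_one]
    obtain ⟨i, -, hi⟩ := hprim.eq_pow_of_pow_eq_one ht'
    rw [← hi, map_pow, hζ]
  have h2 : ∀ y : MuP p, muPRep p s y = y := by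
    intro y
    rw [muPRep_apply_smul, h1, Units.val_one, one_smul]
  exact h2 x

/-- **K-T2** (dévissage), exact Spec types. -/
theorem h3Fin_of (p : ℕ) [Fact p.Prime] (S : Finset Nat.Primes) (h : H3IndMuSpec p S) :
    H3FinSpec p S := by
  intro hp2 hpS R hfd hRs
  rw [h3Vanish_iff]
  refine Fermat.Agent.S55.H696.devissage _root_.Fermat.Agent.S55.PT.GQ (globalLevels S) p (muP p)
    (fun U hU => globalLevels_normal_cofinal724 S U hU)
    (Fermat.Agent.S55.PT.H424.globalFiniteIndex S) (MuP.finrank_eq_one p)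
    (isUSmooth_muP p S hpS) ?_ R hfd hRs
  intro H hH _
  obtain ⟨U, hU, hUH⟩ := hH
  exact (h3Vanish_iff (globalLevels S) (indG H (muP p))).1
    (h hp2 hpS H (mem_levels_of_le S hU hUH))

end Fermat.Agent.S55.K.H696

end

end
-- ===== PACK-END S55/K/T2H696.lean

-- ===== PACK-BEGIN S55/KG/Spec.lean
section



/-!
# S55, layer KG (global Kummer hypotheses): frozen interface, concrete part
                                                                      (architect: helper183)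

GOAL of the layer (file `KG/Closed.lean`): input A3 of the duality engine,
`PT.Surj2GlobSpec p S` (`cd_p(G_S) ≤ 2`), via the closed abstract machine of layer KL:

    KL.KummerHyp (globNLevels S) (sUnitsSm S) p   ⇒   KL.CdLeTwo …   ⇒   PT.Surj2GlobSpec p S.

`KummerHyp` for the smooth `S`-units is obtained from the tower:
* dictionary (`DictEffSpec`, `DictDivSpec`, `DictMuSpec`): finite-level cohomology of
  `(U, sUnitsSm S)` = cohomology of `HU U L = Gal(F/K)` with values in `E(F)`;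
* abstract chase (`KG/Abs.lean`, `AbsKummerSpec`) applied to `E → J → C' ⊂ C` over `towerU U S`;
* semi-local leaves `JH3Spec`, `JDivSpec`;
* class-formation leaves `CH1Spec`, `CCycSpec` (from GD1), `SesSpec` (from GD4),
  capitulation (GD5, GD5b: proved in `KG/Closed.lean`);
* ONE new arithmetic input on the tower datum: `TowerDatum.HasLocalClasses`
  (local classes of order `p` survive in `H²(Gal(F/K), C(F))`), packaged in `GlobalInputSpec`.

Spec pattern: statements only, no `sorry`.  Producers: file `KG/<Leaf>H<seat>.lean`, namespace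
`Fermat.Agent.S55.KG.H<seat>`.  Blueprint: `coord/S55-KG.md` on `origin/helper183`.
-/

set_option autoImplicit false

open CategoryTheory groupCohomology

namespace Fermat.Agent.S55.KG

open Fermat.Agent.S55.Tow Fermat.Agent.S55.E1.Lim Fermat.Agent.S55.KL

noncomputable section

variable {S : Finset Nat.Primes}

/-! ## The global level system and the smooth `S`-units -/

/-- The normal `S`-levels of `G_ℚ`: the subgroups `Gal(ℚ̄/F)`, `F` a level of the tower. -/
def globNLevels (S : Finset Nat.Primes) : NLevels GQ where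
  carrier := {W | ∃ L : Level S, W = L.U}
  normal := by
    rintro W ⟨L, rfl⟩
    exact L.normalU
  finiteIndex := by
    rintro W ⟨L, rfl⟩
    have : Finite (GQ ⧸ L.U) := Level.finiteGal L
    exact Subgroup.finiteIndex_of_finite_quotient
  nonempty := ⟨_, Fermat.Agent.S55.E1.H603.levelBot, rfl⟩
  directed := by
    rintro W ⟨L, rfl⟩ W' ⟨L', rfl⟩
    refine ⟨_, ⟨Fermat.Agent.S55.E1.H603.levelSup L L', rfl⟩, le_inf ?_ ?_⟩
    · exact Level.U_anti (Fermat.Agent.S55.E1.H603.le_levelSup_left L L')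
    · exact Level.U_anti (Fermat.Agent.S55.E1.H603.le_levelSup_right L L')

/-- The level of `globNLevels S` attached to a level of the tower. -/
def globLvl (L : Level S) : (globNLevels S).Lvl := ⟨L.U, L, rfl⟩

/-- `x ∈ ℚ̄ˣ` is an `S`-unit (the condition of `Tow.Level.IsSUnit`). -/
def IsSU (S : Finset Nat.Primes) (x : unitsQbar.V) : Prop :=
  ∀ ℓ : Nat.Primes, ℓ ∉ S → ∀ A : ValuationSubring Qbar, A.LiesOverPrime (ℓ : ℕ) →
    ((Additive.toMul x : Qbarˣ) : Qbar) ∈ A ∧ (((Additive.toMul x)⁻¹ : Qbarˣ) : Qbar) ∈ A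

/-- The smooth `S`-units: the elements of `ℚ̄ˣ` fixed by some level, all of whose conjugates are
`S`-units (`= 𝒪_S(ℚ_S)ˣ`, `ℚ_S` the maximal extension unramified outside `S`). -/
def sUnitsSmAdd (S : Finset Nat.Primes) : AddSubgroup unitsQbar.V where
  carrier := {x | (∃ L : Level S, ∀ g ∈ L.U, unitsQbar.ρ g x = x) ∧
    ∀ g : GQ, IsSU S (unitsQbar.ρ g x)}
  zero_mem' := by
    refine ⟨⟨Fermat.Agent.S55.E1.H603.levelBot, fun g _ => map_zero _⟩, fun g ℓ _ A _ => ?_⟩
    rw [map_zero]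
    have h1 : ((Additive.toMul (0 : unitsQbar.V) : Qbarˣ) : Qbar) = 1 := rfl
    have h2 : (((Additive.toMul (0 : unitsQbar.V))⁻¹ : Qbarˣ) : Qbar) = 1 := by
      have : (Additive.toMul (0 : unitsQbar.V) : Qbarˣ) = 1 := rfl
      rw [this, inv_one]
      rfl
    rw [h1, h2]
    exact ⟨A.one_mem, A.one_mem⟩
  add_mem' := by
    rintro a b ⟨⟨L, hL⟩, ha⟩ ⟨⟨L', hL'⟩, hb⟩
    refine ⟨⟨Fermat.Agent.S55.E1.H603.levelSup L L', fun g hg => ?_⟩, fun g ℓ hℓ A hA => ?_⟩
    · rw [map_add,
        hL g (Level.U_anti (Fermat.Agent.S55.E1.H603.le_levelSup_left L L') hg),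
        hL' g (Level.U_anti (Fermat.Agent.S55.E1.H603.le_levelSup_right L L') hg)]
    · rw [map_add]
      obtain ⟨h1, h2⟩ := ha g ℓ hℓ A hA
      obtain ⟨h3, h4⟩ := hb g ℓ hℓ A hA
      have e1 : (Additive.toMul (unitsQbar.ρ g a + unitsQbar.ρ g b) : Qbarˣ) =
          (Additive.toMul (unitsQbar.ρ g a) : Qbarˣ) *
            (Additive.toMul (unitsQbar.ρ g b) : Qbarˣ) := rfl
      rw [e1, mul_inv, Units.val_mul, Units.val_mul]
      exact ⟨A.mul_mem _ _ h1 h3, A.mul_mem _ _ h2 h4⟩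
  neg_mem' := by
    rintro a ⟨⟨L, hL⟩, ha⟩
    refine ⟨⟨L, fun g hg => ?_⟩, fun g ℓ hℓ A hA => ?_⟩
    · rw [map_neg, hL g hg]
    · rw [map_neg]
      obtain ⟨h1, h2⟩ := ha g ℓ hℓ A hA
      have e1 : (Additive.toMul (-(unitsQbar.ρ g a)) : Qbarˣ) =
          (Additive.toMul (unitsQbar.ρ g a) : Qbarˣ)⁻¹ := rfl
      rw [e1, inv_inv]
      exact ⟨h2, h1⟩

lemma sUnitsSmAdd_stable (S : Finset Nat.Primes) (g : GQ) (x : unitsQbar.V)
    (hx : x ∈ sUnitsSmAdd S) : unitsQbar.ρ g x ∈ sUnitsSmAdd S := by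
  obtain ⟨⟨L, hL⟩, hx2⟩ := hx
  refine ⟨⟨L, fun s hs => ?_⟩, fun g' => ?_⟩
  · have h1 : g⁻¹ * s * g ∈ L.U := by
      have := L.normalU.conj_mem s hs g⁻¹
      rwa [inv_inv] at this
    have h2 := hL _ h1
    have h3 : unitsQbar.ρ s (unitsQbar.ρ g x) = unitsQbar.ρ g (unitsQbar.ρ (g⁻¹ * s * g) x) := by
      rw [← Module.End.mul_apply, ← Module.End.mul_apply, ← map_mul, ← map_mul]
      congr 2
      group
    rw [h3, h2]
  · have := hx2 (g' * g)
    rwa [map_mul] at this

/-- The smooth `S`-units as a `G_ℚ`-module. -/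
def sUnitsSm (S : Finset Nat.Primes) : Rep.{0} ℤ GQ :=
  subRep unitsQbar (sUnitsSmAdd S) (sUnitsSmAdd_stable S)

/-! ## Semi-local leaves -/

/-- **KG-J3** (semi-local Tate).  `H³(H, J(F)) = 0` for every subgroup `H ≤ Gal(F/ℚ)`.
(Mackey/Shapiro: `H³(H, J_q(F)) = ∏_{w} H³(H_w, F_wˣ)`, and `H³` of a finite Galois extension of
local fields vanishes: layer L, `L.Closed.h3`.) -/
def JH3Spec : Prop :=
  ∀ (S : Finset Nat.Primes) (L : Level S) (H : Subgroup L.Gal),
    Subsingleton (groupCohomology (Rep.res H.subtype (Jtot L)) 3)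

/-- **KG-J2** (semi-local divisibility).  For `p ∈ S` and `U` open, every class of
`H²(HU U L, J(F))` becomes divisible by `p` at a higher level.
(`H²(H, J(F)) = ∏_w H²(H_w, F_wˣ)`, each factor cyclic of order the local degree; the local
degrees at all places above `S` are `p`-unbounded in the tower: cyclotomic `ℤ_p`-extension,
`p ∈ S`; inflation multiplies invariants by the relative local degree.) -/
def JDivSpec : Prop :=
  ∀ (S : Finset Nat.Primes) (p : ℕ) (hp : p.Prime), (⟨p, hp⟩ : Nat.Primes) ∈ S →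
    ∀ U : Subgroup GQ, IsOpenS S U → (resU U (sysJ S)).EvDiv p 2

/-! ## Class-formation leaves -/

/-- **KG-C1.**  For a tower datum good above `μ_p`: the `p`-primary part of `H¹(H, C(F))` vanishes
for every subgroup `H ≤ Gal(F/ℚ)`, `F ⊇ μ_p`.
(GD1 for a Sylow `p`-subgroup `P` of `H`; restriction to `P` is injective on `p`-primary classes:
layer T `ResIndexSpec` / `CoresSpec`.) -/
def CH1Spec : Prop :=
  ∀ (S : Finset Nat.Primes) (p : ℕ) (D : TowerDatum S), p.Prime → D.IsGoodMu p →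
    ∀ (L : Level S), L.HasMu p → ∀ (H : Subgroup L.Gal)
      (c : groupCohomology (Rep.res H.subtype (D.C L)) 1) (a : ℕ), p ^ a • c = 0 → c = 0

/-- **KG-C2.**  For a tower datum good above `μ_p`: the `p`-torsion of `H²(H, C(F))` is cyclic,
for every subgroup `H ≤ Gal(F/ℚ)`, `F ⊇ μ_p`.
(GD1 for a Sylow `p`-subgroup `P` of `H`: `H²(P, C)` is cyclic; restriction is injective on
`p`-primary classes.) -/
def CCycSpec : Prop :=
  ∀ (S : Finset Nat.Primes) (p : ℕ) (D : TowerDatum S), p.Prime → D.IsGoodMu p →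
    ∀ (L : Level S), L.HasMu p → ∀ (H : Subgroup L.Gal),
      PTorsCyclic (groupCohomology (Rep.res H.subtype (D.C L)) 2) p

/-- **KG-SES.**  `0 → E(F) → J(F) → C'(F) → 0` is exact (`S ≠ ∅`, GD4). -/
def SesSpec : Prop :=
  ∀ (S : Finset Nat.Primes) (D : TowerDatum S) (h7 : TrCompat D) (h7b : TrTrans D),
    S.Nonempty → KerDiag D → GTower.Mod.IsSES (homDiag S) (homJC1 D h7 h7b)

/-- **KG-LOC** (the new arithmetic property of the tower datum).  For every open `U` and every
level there is a higher level `F'` and a class `y ∈ H²(HU U F', J(F'))` with `p y = 0` whose image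
in `H²(HU U F', C(F'))` is non-zero.
(`K` = fixed field of `U`.  For `F' ⊇ K(μ_{p^N})`, `N` large, the decomposition group in
`Gal(F'/K)` of a prime above `p` contains a subgroup `Z` of order `p`; local class of order `p` at
that place; its image in `H²(C)` is non-zero by reciprocity over `K`: REC2-TOW
`SemiLocalInv.locClass` + `KerJSpec`.) -/
def _root_.Fermat.Agent.S55.Tow.TowerDatum.HasLocalClasses (D : TowerDatum S) (p : ℕ) : Prop :=
  ∀ U : Subgroup GQ, IsOpenS S U → ∀ L : Level S,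
    ∃ (L' : Level S) (_ : L ≤ L')
      (y : groupCohomology (Rep.res (HU U L').subtype (Jtot L')) 2),
      p • y = 0 ∧
        (groupCohomology.map (MonoidHom.id ↥(HU U L'))
          ((Rep.resFunctor (HU U L').subtype).map (jTot D L')) 2).hom y ≠ 0

/-- **INPUT of layer KG from layer G**: a tower datum, good in the sense of the engine E1
(`IsGoodFin`), with local classes. -/
def GlobalInputSpec (S : Finset Nat.Primes) (p : ℕ) : Prop :=
  ∃ D : TowerDatum S, D.IsGoodFin p ∧ D.HasLocalClasses p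

/-! ## The arithmetic of the `S`-units in the tower (goal of the chase) -/

/-- **KG-TF** (goal of the tower part).  For every open `U`: `colim H³(HU U F, E(F))[p] = 0` and
`colim H²(HU U F, E(F)) ⊗ ℤ/p = 0`. -/
def TowerKummerSpec (S : Finset Nat.Primes) (p : ℕ) : Prop :=
  ∀ U : Subgroup GQ, IsOpenS S U →
    (resU U (sysE S)).EvTors p 3 ∧ (resU U (sysE S)).EvDiv p 2

/-! ## Dictionary: the tower versus the finite-level cohomology of layer KL -/

/-- **KG-DICT** (formal).  For `U` open: eventual vanishing / divisibility in the tower of `U`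
gives effaceability in the sense of layer KL for `(U, sUnitsSm S)`, in every degree.
(For a level `L` with `L.U ≤ U`: `U/(L.U ∩ U) ≅ HU U L` and `(sUnitsSm S)^{L.U} ≅ E(F)`;
such levels are cofinal; `HL ≅` cohomology of the tower, compatibly with inflation.
Model: `KL/TransportH496.lean`, `KL/LocalH123H775.lean`.) -/
def DictEffSpec : Prop :=
  ∀ (S : Finset Nat.Primes) (p n : ℕ) (U : Subgroup GQ), IsOpenS S U →
    ((resU U (sysE S)).EvTors p n →
      EffTors ((globNLevels S).restrict U) (Rep.res U.subtype (sUnitsSm S)) p n) ∧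
    ((resU U (sysE S)).EvDiv p n →
      EffDiv ((globNLevels S).restrict U) (Rep.res U.subtype (sUnitsSm S)) p n)

/-- **KG-DIV.**  The smooth `S`-units are `p`-divisible (`p ∈ S`): GD9, `Tow.SUnitsDivSpec`
(proved on main: `Bridge.sUnitsDivSpec`). -/
def DictDivSpec : Prop :=
  ∀ (S : Finset Nat.Primes) (p : ℕ), SUnitsDivSpec S p → IsDivisibleBy (sUnitsSm S) p

/-- **KG-MU.**  `μ_p ⊂` smooth `S`-units has order `p` (`μ_p` lives at some level: GD9). -/
def DictMuSpec : Prop :=
  ∀ (S : Finset Nat.Primes) (p : ℕ), p.Prime → SUnitsDivSpec S p →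
    Nat.card (tors (sUnitsSm S) p).V = p

/-- **KG-HYP** (goal of the layer): the hypotheses of the abstract Kummer machine for the smooth
`S`-units. -/
def GlobalKummerHypSpec (S : Finset Nat.Primes) (p : ℕ) : Prop :=
  KummerHyp (globNLevels S) (sUnitsSm S) p

end

end Fermat.Agent.S55.KG

end
-- ===== PACK-END S55/KG/Spec.lean

-- ===== PACK-BEGIN S55/KL/Closed.lean
section










/-!
# S55, layer KL: assembly of input A4 (`PT.Surj2LocSpec`) of the duality engine

`surj2Loc_of_leaves` : the four outstanding leaves (`KummerH3Spec`, `CdScalarsSpec`,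
`LocalH2Spec`, `LocalH3Spec`) imply `PT.Surj2LocSpec p S`.  Everything else is closed.

Architect/owner: helper183.
-/

set_option autoImplicit false

namespace Fermat.Agent.S55.KL

/-- The abstract machine, closed up to the Kummer chase: `KummerH3Spec ⇒ CdSpec`. -/
theorem cd_of_kummer (hK : KummerH3Spec) : CdSpec :=
  H593.cd_of_leaves hK H543.devSylow H783.devPGroup

/-- The local hypotheses, closed up to `H²`, `H³` of local fields. -/
theorem localKummerHyp_of_h23 (hH2 : LocalH2Spec) (hH3 : LocalH3Spec) : LocalKummerHypSpec :=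
  H593.localKummerHyp_of H587.unitsSmooth H587.unitsDiv H587.unitsTors hH2 hH3
    H215.localDegree Fermat.Agent.S55.T.H572.cardTorsion

/-- `cd_p(Gal(ℚ̄_q/ℚ_q)) ≤ 2` from the four outstanding leaves. -/
theorem localCd_of_leaves (hK : KummerH3Spec) (hSc : CdScalarsSpec) (hH2 : LocalH2Spec)
    (hH3 : LocalH3Spec) : LocalCdSpec :=
  H593.localCd_of (cd_of_kummer hK) (localKummerHyp_of_h23 hH2 hH3) hSc

/-- **Input A4 of layer D** from the four outstanding leaves. -/
theorem surj2Loc_of_leaves (hK : KummerH3Spec) (hSc : CdScalarsSpec) (hH2 : LocalH2Spec)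
    (hH3 : LocalH3Spec) (p : ℕ) [Fact p.Prime] (S : Finset Nat.Primes) :
    PT.Surj2LocSpec p S :=
  surj2Loc_of_cd p S H898.surjH2 (localCd_of_leaves hK hSc hH2 hH3)

end Fermat.Agent.S55.KL

end
-- ===== PACK-END S55/KL/Closed.lean

-- ===== PACK-BEGIN S55/PT/Glue.lean
section



/-!
# S55 / layer D: glue lemmas for the assembly (helper835)

Small compatibilities between the definitions of `PT/{Coh,Cone,Ind,Top}.lean`.
-/

set_option autoImplicit false

noncomputable section

namespace Fermat.Agent.S55.PT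

open groupCohomology

variable {k : Type} [Field k] {G : Type} [Group G]

/-! ### invariants of twisted duals -/

lemma dualTwist_fixed_iff (χ : G →* kˣ) (N : Rep.{0, 0, 0} k G) (g : G) (f : Module.Dual k N) :
    (N.dualTwist χ).ρ g f = f ↔ ∀ n : N, f (N.ρ g n) = (χ g : k) * f n := by
  have key : ∀ (n : N), (((N.ρ.dual.twist χ) g) f) n = (χ g : k) * f (N.ρ g⁻¹ n) := by
    intro n
    simp only [Representation.twist_apply_apply, Representation.dual_apply,
      LinearMap.smul_apply, Module.Dual.transpose_apply, LinearMap.comp_apply, smul_eq_mul]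
  have hinv : ∀ (n : N), N.ρ g⁻¹ (N.ρ g n) = n := by
    intro n
    rw [← Module.End.mul_apply, ← map_mul, inv_mul_cancel, map_one, Module.End.one_apply]
  have hinv' : ∀ (n : N), N.ρ g (N.ρ g⁻¹ n) = n := by
    intro n
    rw [← Module.End.mul_apply, ← map_mul, mul_inv_cancel, map_one, Module.End.one_apply]
  constructor
  · intro h n
    have h' : ((N.ρ.dual.twist χ) g) f = f := h
    have h2 : (((N.ρ.dual.twist χ) g) f) (N.ρ g n) = f (N.ρ g n) := by rw [h']
    rw [key, hinv] at h2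
    exact h2.symm
  · intro hf
    show ((N.ρ.dual.twist χ) g) f = f
    apply LinearMap.ext
    intro n
    rw [key]
    have h := hf (N.ρ g⁻¹ n)
    rw [hinv'] at h
    exact h.symm

/-- `H⁰(G', (N.dualTwist χ)|_{G'}) = charHom (χ ∘ s) (N|_{G'})` as subspaces of `Dual N` -/
lemma H0_res_dualTwist_eq (χ : G →* kˣ) (N : Rep.{0, 0, 0} k G) {G' : Type} [Group G']
    (s : G' →* G) :
    (LevelSys.H0 (Rep.res s (N.dualTwist χ)) : Submodule k (Module.Dual k N)) =
      charHom (χ.comp s) (Rep.res s N) := by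
  ext f
  constructor
  · intro hf g n
    exact (dualTwist_fixed_iff χ N (s g) f).1 (hf g) n
  · intro hf g
    exact (dualTwist_fixed_iff χ N (s g) f).2 (fun n => hf g n)

/-! ### functionals -/

section Comap

variable (χ : G →* kˣ) {A B : Rep.{0, 0, 0} k G} (φ : A →ₗ[k] B) (hφ : IsEquivariant φ)

/-- `f ↦ f ∘ φ : charHom χ B → charHom χ A` -/
def charHomComap : ↥(charHom χ B) →ₗ[k] ↥(charHom χ A) where
  toFun f := ⟨(f : Module.Dual k B) ∘ₗ φ, fun g a => by
    have hφ' : ∀ (g : G) (a : A), φ (A.ρ g a) = B.ρ g (φ a) := hφ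
    rw [LinearMap.comp_apply, LinearMap.comp_apply, hφ']
    exact f.2 g (φ a)⟩
  map_add' _ _ := rfl
  map_smul' _ _ := rfl

@[simp] lemma coe_charHomComap (f : ↥(charHom χ B)) :
    ((charHomComap χ φ hφ f : ↥(charHom χ A)) : Module.Dual k A) = (f : Module.Dual k B) ∘ₗ φ :=
  rfl

lemma pushChar_pushH2 (L : LevelSys G) (f : ↥(charHom χ B)) (x : L.H2 A) :
    pushChar L χ B f (pushH2 φ hφ L x) = pushChar L χ A (charHomComap χ φ hφ f) x := by
  obtain ⟨c, rfl⟩ := L.H2π_surjective A x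
  rfl

/-- naturality of the top pairing -/
lemma topPair_pushH2 (L : LevelSys G) (inv : L.H2 (ofChar χ) →ₗ[k] k) (f : ↥(charHom χ B))
    (x : L.H2 A) :
    topPair L χ inv B (pushH2 φ hφ L x) f = topPair L χ inv A x (charHomComap χ φ hφ f) := by
  rw [topPair_apply, topPair_apply, pushChar_pushH2]

end Comap

/-! ### the cone and push-forwards -/

section ConePush

variable {ι : Type} [Fintype ι] [DecidableEq ι] {Gv : ι → Type} [∀ v, Group (Gv v)]
variable {L : LevelSys G} {Lv : ∀ v, LevelSys (Gv v)} {r : ∀ v, Gv v →* G}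
variable (hr : ∀ v, IsLevelCompatible (r v) L (Lv v))
variable {A B : Rep.{0, 0, 0} k G} (φ : A →ₗ[k] B) (hφ : IsEquivariant φ)

lemma uH_pushHc2 (y : Hc2 L Lv r A) :
    uH B (pushHc2 (L := L) (Lv := Lv) (r := r) φ hφ y) = pushH2 φ hφ L (uH A y) := by
  obtain ⟨z, rfl⟩ := Hc2π_surjective (L := L) (Lv := Lv) (r := r) A y
  rfl

variable (χ : G →* kˣ) (inv : ∀ v, (Lv v).H2 (ofChar (χ.comp (r v))) →ₗ[k] k)

lemma topGlobFun_pushLoc2 (f : ↥(charHom χ B)) (x : (v : ι) → (Lv v).H2 (Rep.res (r v) A)) :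
    topGlobFun χ inv B (pushLoc2 φ hφ x) f = topGlobFun χ inv A x (charHomComap χ φ hφ f) := by
  rw [topGlobFun_apply, topGlobFun_apply]
  refine Finset.sum_congr rfl fun v _ => ?_
  congr 1
  rw [pushLoc2_apply]
  exact pushChar_pushH2 (χ.comp (r v)) (A := Rep.res (r v) A) (B := Rep.res (r v) B) φ
    (hφ.res (r v)) (Lv v) (charHomRes χ B (r v) f) (x v)

/-- naturality of the global top map -/
lemma topT3_pushT3 (hrec : IsRecip hr χ inv) (f : ↥(charHom χ B)) (t : T3 hr A) :
    topT3 hr B hrec (pushT3 hr φ hφ t) f = topT3 hr A hrec t (charHomComap χ φ hφ f) := by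
  obtain ⟨x, rfl⟩ := T3π_surjective hr A t
  rw [pushT3_mk, topT3_mk, topT3_mk]
  exact topGlobFun_pushLoc2 φ hφ χ inv f x

end ConePush

/-! ### trivial actions -/

section Triv

variable (χ : G →* kˣ) (U : Subgroup G) (N : Rep.{0, 0, 0} k G)

lemma indRep_ρ_eq_one [hU : U.Normal] (hN : ∀ u ∈ U, N.ρ u = 1) (u : G) (hu : u ∈ U) :
    (indRep U N).ρ u = 1 := by
  show indAct U N u = 1
  apply Finsupp.lhom_ext
  intro x n
  induction x using QuotientGroup.induction_on with
  | H a =>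
    rw [indAct_single, hN u hu, Module.End.one_apply, Module.End.one_apply]
    congr 1
    show ((u * a : G) : G ⧸ U) = (a : G ⧸ U)
    rw [QuotientGroup.eq]
    have : (u * a)⁻¹ * a = a⁻¹ * u⁻¹ * a := by group
    rw [this]
    have h := hU.conj_mem u⁻¹ (U.inv_mem hu) a⁻¹
    simpa using h

lemma twTriv_ρ_eq_one (W : Type) [AddCommGroup W] [Module k W] (u : G) (hu : χ u = 1) :
    (twTriv (G := G) χ W).ρ u = 1 := by
  apply LinearMap.ext
  intro w
  rw [twTriv_ρ_apply, hu]
  simp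

lemma dualTwist_ρ_eq_one' (u : G) (hχ : χ u = 1) (hN : N.ρ u = 1) :
    (N.dualTwist χ).ρ u = 1 := by
  apply LinearMap.ext
  intro f
  rw [Module.End.one_apply]
  rw [dualTwist_fixed_iff]
  intro n
  rw [hN, hχ]
  simp

lemma kerRep_ρ_eq_one {A B : Rep.{0, 0, 0} k G} (φ : A →ₗ[k] B) (hφ : IsEquivariant φ) (u : G)
    (hA : A.ρ u = 1) : (kerRep φ hφ).ρ u = 1 := by
  apply LinearMap.ext
  intro a
  apply Subtype.ext
  show A.ρ u (a : A) = (a : A)
  rw [hA]
  rfl

lemma isUSmooth_of_trivial (L : LevelSys G) {U : Subgroup G} (hU : U ∈ L.levels)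
    {N : Rep.{0, 0, 0} k G} (hN : ∀ u ∈ U, N.ρ u = 1) : L.IsUSmooth N :=
  ⟨U, hU, fun s hs a => by rw [hN s hs]; rfl⟩

end Triv

end Fermat.Agent.S55.PT

end

end
-- ===== PACK-END S55/PT/Glue.lean

-- ===== PACK-BEGIN S56/Br/H374/Tw.lean
section



/-!
# Row S56 — BRIDGE (B1, B3, B4), twisted part: `ad⁰ρ̄(1)`                    (helper374)

`adTw ρbar p : Rep k G_ℚ` is `adRep ρbar` twisted by the mod `p` cyclotomic character
(`cycK k p : G_ℚ →* kˣ`, the Prelude's `cycloChar p` pushed to `k`).  The plain-function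
language of layer 0 (`IsTwCocycle`, `IsTwCoboundary`, `LocTrivAt`, `IsDualFrame`, `Kills`)
is translated into the vocabulary of the S55 `PT` layer.
-/

set_option autoImplicit false
set_option linter.style.haveILetI false
set_option linter.unusedSectionVars false

noncomputable section

namespace Fermat.Agent.S56.Br

open Fermat.Agent.S56 Fermat.Agent.S56.H716 Fermat.Agent.S55.PT groupCohomology ExtCitation

/-! ### The cyclotomic character with values in `k` -/

section Cyc

variable (k : Type) [Field k] (p : ℕ) [Fact p.Prime] [CharP k p]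

/-- The mod `p` cyclotomic character with values in `kˣ`. -/
def cycK : _root_.Fermat.Agent.S56.GQ →* kˣ :=
  (Units.map ((ZMod.castHom (dvd_refl p) k : ZMod p →+* k) : ZMod p →* k)).comp (cycloChar p)

theorem cycK_coe (σ : _root_.Fermat.Agent.S56.GQ) :
    ((cycK k p σ : kˣ) : k) = ZMod.castHom (dvd_refl p) k ((cycloChar p σ : (ZMod p)ˣ) : ZMod p) :=
  rfl

variable {p}

/-- The exponent `(cycloChar p σ).val` is a cyclotomic exponent of `σ`. -/
theorem isCycExp_val (σ : _root_.Fermat.Agent.S56.GQ) : IsCycExp p σ ((cycloChar p σ : (ZMod p)ˣ) : ZMod p).val := by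
  intro μ hμ
  have hp : p.Prime := Fact.out
  by_cases h0 : μ = 0
  · subst h0
    rw [zero_pow hp.ne_zero] at hμ
    exact absurd hμ zero_ne_one
  · have hmem : Units.mk0 μ h0 ∈ rootsOfUnity p Qb := by
      rw [mem_rootsOfUnity]
      apply Units.ext
      rw [Units.val_pow_eq_pow_val, Units.val_mk0, Units.val_one]
      exact hμ
    have := Fermat.Agent.S55.Bridge.cycloChar_spec p σ hmem
    rwa [Units.val_mk0] at this

/-- Any cyclotomic exponent of `σ` reduces to `cycloChar p σ`. -/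
theorem natCast_eq_cycloChar {σ : _root_.Fermat.Agent.S56.GQ} {a : ℕ} (h : IsCycExp p σ a) :
    (a : ZMod p) = ((cycloChar p σ : (ZMod p)ˣ) : ZMod p) := by
  have hp : p.Prime := Fact.out
  haveI : NeZero p := ⟨hp.ne_zero⟩
  obtain ⟨ζ, hζ⟩ := HasEnoughRootsOfUnity.exists_primitiveRoot Qb p
  have h1 := h ζ hζ.pow_eq_one
  have h2 := isCycExp_val (p := p) σ ζ hζ.pow_eq_one
  rw [h1] at h2
  have h4 : a ≡ ((cycloChar p σ : (ZMod p)ˣ) : ZMod p).val [MOD p] := by
    have := (hζ.isOfFinOrder hp.ne_zero).pow_eq_pow_iff_modEq.1 h2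
    rwa [← hζ.eq_orderOf] at this
  have h5 := (ZMod.natCast_eq_natCast_iff a _ p).2 h4
  rw [h5, ZMod.natCast_val, ZMod.cast_id]

theorem natCast_eq_cycK {σ : _root_.Fermat.Agent.S56.GQ} {a : ℕ} (h : IsCycExp p σ a) :
    (a : k) = ((cycK k p σ : kˣ) : k) := by
  rw [cycK_coe, ← natCast_eq_cycloChar h, map_natCast]

end Cyc

/-! ### Abstract: coboundaries on conjugate subgroups -/

section Abstract

variable {G : Type} [Group G] {k : Type} [CommRing k] (A : Rep.{0, 0, 0} k G)

/-- If a cocycle is the coboundary of `m` on `D`, it is the coboundary of `g m - f g` on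
`g D g⁻¹`. -/
theorem coboundaryOn_conj {f : G → A} (hf : f ∈ cocycles₁ A) (D : Subgroup G) (g : G) (m : A)
    (hm : ∀ σ ∈ D, f σ = A.ρ σ m - m) (σ : G) (hσ : σ ∈ D) :
    f (g * σ * g⁻¹) = A.ρ (g * σ * g⁻¹) (A.ρ g m - f g) - (A.ρ g m - f g) := by
  have hc := (groupCohomology.mem_cocycles₁_iff f).1 hf
  have h1 : f 1 = 0 := cocycles₁_map_one (⟨f, hf⟩ : cocycles₁ A)
  have hinv : f g⁻¹ = - A.ρ g⁻¹ (f g) := by
    have h2 := hc g⁻¹ g
    rw [inv_mul_cancel, h1] at h2
    exact eq_neg_of_add_eq_zero_right h2.symm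
  have e1 : ∀ x : A, A.ρ g⁻¹ (A.ρ g x) = x := fun x => by
    rw [← Module.End.mul_apply, ← map_mul, inv_mul_cancel, map_one, Module.End.one_apply]
  rw [hc, hc, hm σ hσ, hinv]
  simp only [map_mul, Module.End.mul_apply, map_sub, map_neg, e1]
  abel

end Abstract

/-! ### The twisted adjoint representation -/

variable {k : Type} [Field k] (ρbar : ResidualGaloisRep k) (p : ℕ) [Fact p.Prime] [CharP k p]

/-- `ad⁰ρ̄(1)` as an object of `Rep k G_ℚ`. -/
abbrev adTw : Rep.{0, 0, 0} k _root_.Fermat.Agent.S56.GQ := (adRep ρbar).twist (cycK k p)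

/-- The underlying endomorphism of an element of `adTw`. -/
def valTw : adTw ρbar p →ₗ[k] Module.End k ρbar.V := (End0 ρbar).subtype

theorem valTw_injective : Function.Injective (valTw ρbar p) := Subtype.val_injective

theorem trace_valTw (m : adTw ρbar p) : LinearMap.trace k ρbar.V (valTw ρbar p m) = 0 :=
  mem_End0.1 (m : End0 ρbar).2

/-- An endomorphism of trace zero, as an element of `adTw`. -/
def mkTw (m : Module.End k ρbar.V) (hm : LinearMap.trace k ρbar.V m = 0) : adTw ρbar p :=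
  (⟨m, mem_End0.2 hm⟩ : End0 ρbar)

@[simp] theorem valTw_mkTw (m : Module.End k ρbar.V) (hm : LinearMap.trace k ρbar.V m = 0) :
    valTw ρbar p (mkTw ρbar p m hm) = m := rfl

theorem valTw_ρ (σ : _root_.Fermat.Agent.S56.GQ) (m : adTw ρbar p) :
    valTw ρbar p ((adTw ρbar p).ρ σ m)
      = ((cycK k p σ : kˣ) : k) • (ρbar.ρ σ * valTw ρbar p m * ρbar.ρ σ⁻¹) := rfl

theorem valTw_ρ_of_isCycExp {σ : _root_.Fermat.Agent.S56.GQ} {a : ℕ} (h : IsCycExp p σ a) (m : adTw ρbar p) :
    valTw ρbar p ((adTw ρbar p).ρ σ m) = twAd ρbar σ a (valTw ρbar p m) := by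
  rw [valTw_ρ, twAd, natCast_eq_cycK k h]

/-- Post-composition with `valTw`. -/
def toEndTw : (_root_.Fermat.Agent.S56.GQ → adTw ρbar p) →ₗ[k] (_root_.Fermat.Agent.S56.GQ → Module.End k ρbar.V) where
  toFun f σ := valTw ρbar p (f σ)
  map_add' f g := by funext σ; exact (valTw ρbar p).map_add (f σ) (g σ)
  map_smul' r f := by funext σ; exact (valTw ρbar p).map_smul r (f σ)

@[simp] theorem toEndTw_apply (f : _root_.Fermat.Agent.S56.GQ → adTw ρbar p) (σ : _root_.Fermat.Agent.S56.GQ) :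
    toEndTw ρbar p f σ = valTw ρbar p (f σ) := rfl

theorem toEndTw_injective : Function.Injective (toEndTw ρbar p) := by
  intro f g h
  funext σ
  exact valTw_injective ρbar p (congrFun h σ)

/-- A trace-zero valued function as a function to `adTw`. -/
def ofEndTw (c : _root_.Fermat.Agent.S56.GQ → Module.End k ρbar.V) (hc : ∀ σ, LinearMap.trace k ρbar.V (c σ) = 0) :
    _root_.Fermat.Agent.S56.GQ → adTw ρbar p := fun σ => mkTw ρbar p (c σ) (hc σ)

@[simp] theorem toEndTw_ofEndTw (c : _root_.Fermat.Agent.S56.GQ → Module.End k ρbar.V)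
    (hc : ∀ σ, LinearMap.trace k ρbar.V (c σ) = 0) :
    toEndTw ρbar p (ofEndTw ρbar p c hc) = c := rfl

/-! ### Cocycles -/

theorem mem_cocycles₁_tw_iff (f : _root_.Fermat.Agent.S56.GQ → adTw ρbar p) :
    f ∈ cocycles₁ (adTw ρbar p) ↔
      ∀ σ τ a, IsCycExp p σ a →
        toEndTw ρbar p f (σ * τ) = toEndTw ρbar p f σ + twAd ρbar σ a (toEndTw ρbar p f τ) := by
  rw [groupCohomology.mem_cocycles₁_iff]
  constructor
  · intro h σ τ a ha
    have := congrArg (valTw ρbar p) (h σ τ)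
    rw [map_add, valTw_ρ_of_isCycExp ρbar p ha] at this
    rw [toEndTw_apply, this, add_comm]
    rfl
  · intro h σ τ
    apply valTw_injective
    rw [map_add, valTw_ρ_of_isCycExp ρbar p (isCycExp_val σ)]
    have := h σ τ _ (isCycExp_val σ)
    rw [toEndTw_apply] at this
    rw [this, add_comm]
    rfl

theorem twCocycle_one {c : _root_.Fermat.Agent.S56.GQ → Module.End k ρbar.V}
    (h : ∀ σ τ a, IsCycExp p σ a → c (σ * τ) = c σ + twAd ρbar σ a (c τ)) : c 1 = 0 := by
  have h1 := h 1 1 1 (fun μ _ => by rw [pow_one]; rfl)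
  rw [mul_one, twAd, inv_one, map_one, one_mul, mul_one, Nat.cast_one, one_smul] at h1
  exact left_eq_add.mp h1

/-- **B1 + B4, twisted.**  Level-constant cocycles of `adTw` for the levels unramified outside
`T` are exactly the plain twisted cocycles of finite level which are unramified outside `T`. -/
theorem mem_Z1_global_tw_iff (T : Finset Nat.Primes) (f : _root_.Fermat.Agent.S56.GQ → adTw ρbar p) :
    f ∈ (globalLevels T).Z1 (adTw ρbar p) ↔
      IsTwCocycle ρbar p (toEndTw ρbar p f) ∧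
        ∀ q : Nat.Primes, q ∉ T → UnramAt ρbar (toEndTw ρbar p f) (q : ℕ) := by
  constructor
  · rintro ⟨hcoc, U, ⟨F, hF, rfl⟩, hU⟩
    have hmul := (mem_cocycles₁_tw_iff ρbar p f).1 hcoc
    refine ⟨⟨fun σ => trace_valTw ρbar p (f σ), hmul, F, hF.1, fun σ τ hτ => ?_⟩, ?_⟩
    · rw [toEndTw_apply, toEndTw_apply,
        hU σ τ ((IntermediateField.mem_fixingSubgroup_iff F τ).2 hτ)]
    · intro q hq P hP σ hσ
      have h1 : f (1 * σ) = f 1 := hU 1 σ (hF.2 q hq P hP hσ)
      rw [one_mul] at h1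
      rw [toEndTw_apply, h1, ← toEndTw_apply, twCocycle_one ρbar p hmul]
  · rintro ⟨hcoc, hur⟩
    refine ⟨(mem_cocycles₁_tw_iff ρbar p f).2 hcoc.map_mul, ?_⟩
    apply isLC₁_global_of_level
    · obtain ⟨L, hL, h⟩ := hcoc.level
      exact ⟨L, hL, fun σ τ hτ => valTw_injective ρbar p (h σ τ hτ)⟩
    · intro q hq P hP τ hτ σ
      apply valTw_injective
      have h0 : toEndTw ρbar p f τ = 0 := hur q hq P hP τ hτ
      have h1 := hcoc.map_mul σ τ _ (isCycExp_val σ)
      rw [h0, twAd, mul_zero, zero_mul, smul_zero, add_zero] at h1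
      exact h1

/-- **B1 + B4, twisted**, `Finset ℕ` form. -/
theorem mem_Z1_primesOf_tw_iff (T : Finset ℕ) (f : _root_.Fermat.Agent.S56.GQ → adTw ρbar p) :
    f ∈ (globalLevels (primesOf T)).Z1 (adTw ρbar p) ↔
      IsTwCocycle ρbar p (toEndTw ρbar p f) ∧
        ∀ q : ℕ, q.Prime → q ∉ T → UnramAt ρbar (toEndTw ρbar p f) q := by
  rw [mem_Z1_global_tw_iff, unram_outside_iff]

/-! ### Coboundaries -/

/-- Twisted coboundaries on a subgroup, in terms of `adTw`. -/
theorem isTwCoboundaryOn_iff (H : Subgroup _root_.Fermat.Agent.S56.GQ) (c : _root_.Fermat.Agent.S56.GQ → Module.End k ρbar.V) :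
    (∃ m, IsTwCoboundaryOn ρbar p H c m) ↔
      ∃ m₀ : adTw ρbar p, ∀ σ ∈ H,
        c σ = valTw ρbar p ((adTw ρbar p).ρ σ m₀) - valTw ρbar p m₀ := by
  constructor
  · rintro ⟨m, htr, hm⟩
    refine ⟨mkTw ρbar p m htr, fun σ hσ => ?_⟩
    rw [valTw_ρ_of_isCycExp ρbar p (isCycExp_val σ), valTw_mkTw]
    exact hm σ hσ _ (isCycExp_val σ)
  · rintro ⟨m₀, hm⟩
    refine ⟨valTw ρbar p m₀, trace_valTw ρbar p m₀, fun σ hσ a ha => ?_⟩
    rw [hm σ hσ, valTw_ρ_of_isCycExp ρbar p ha]

/-- **B1, twisted coboundaries.** -/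
theorem isTwCoboundary_toEndTw_iff (f : _root_.Fermat.Agent.S56.GQ → adTw ρbar p) :
    IsTwCoboundary ρbar p (toEndTw ρbar p f) ↔ f ∈ LevelSys.B1 (adTw ρbar p) := by
  unfold IsTwCoboundary
  rw [isTwCoboundaryOn_iff]
  constructor
  · rintro ⟨m₀, hm⟩
    refine ⟨m₀, ?_⟩
    funext σ
    apply valTw_injective
    have h1 := hm σ (Subgroup.mem_top σ)
    rw [toEndTw_apply] at h1
    rw [h1, ← map_sub]
    rfl
  · rintro ⟨m₀, rfl⟩
    exact ⟨m₀, fun σ _ => by
      rw [toEndTw_apply, ← map_sub]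
      rfl⟩

/-! ### B3, twisted: local triviality -/

open scoped Pointwise in
/-- **B3, twisted.**  `LocTrivAt` (a coboundary on SOME decomposition group over `v`) is the
vanishing of the restriction to the Prelude's local group `Gl v`. -/
theorem locTrivAt_iff (v : Nat.Primes) (f : _root_.Fermat.Agent.S56.GQ → adTw ρbar p)
    (hf : f ∈ cocycles₁ (adTw ρbar p)) :
    LocTrivAt ρbar p (v : ℕ) (toEndTw ρbar p f) ↔
      (f ∘ rl v : Gl v → adTw ρbar p) ∈ LevelSys.B1 (Rep.res (rl v) (adTw ρbar p)) := by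
  constructor
  · rintro ⟨P, hP, hm⟩
    obtain ⟨m₀, hm₀⟩ := (isTwCoboundaryOn_iff ρbar p _ _).1 hm
    obtain ⟨g, hg⟩ := Fermat.Agent.Lib.Cheb.H476.exists_smul_eq v.2 hP
      (primeLocalPlace_liesOver v)
    have hm₀' : ∀ σ ∈ P.decompositionSubgroup ℚ, f σ = (adTw ρbar p).ρ σ m₀ - m₀ := by
      intro σ hσ
      apply valTw_injective
      rw [map_sub]
      exact hm₀ σ hσ
    refine ⟨(adTw ρbar p).ρ g m₀ - f g, ?_⟩
    funext τ
    have hτ : rl v τ ∈ (primeLocalPlace v).decompositionSubgroup ℚ := by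
      rw [← Fermat.Agent.S55.Bridge.range_primeLocalToGlobal]
      exact ⟨τ, rfl⟩
    have hσ : g⁻¹ * rl v τ * g ∈ P.decompositionSubgroup ℚ := by
      rw [← hg] at hτ
      have h1 := Fermat.Agent.Lib.Cheb.H476.conj_mem_decomposition g⁻¹ hτ
      rw [inv_inv, inv_smul_smul] at h1
      exact h1
    have h2 := coboundaryOn_conj (adTw ρbar p) hf (P.decompositionSubgroup ℚ) g m₀ hm₀' _ hσ
    have e : g * (g⁻¹ * rl v τ * g) * g⁻¹ = rl v τ := by group
    rw [e] at h2
    rw [Function.comp_apply, h2]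
    rfl
  · rintro ⟨m₀, hm⟩
    refine ⟨primeLocalPlace v, primeLocalPlace_liesOver v, ?_⟩
    rw [isTwCoboundaryOn_iff]
    refine ⟨m₀, ?_⟩
    rw [← Fermat.Agent.S55.Bridge.range_primeLocalToGlobal]
    rintro _ ⟨τ, rfl⟩
    have h1 := congrFun hm τ
    rw [Function.comp_apply] at h1
    rw [toEndTw_apply, ← h1, ← map_sub]
    rfl

end Fermat.Agent.S56.Br

end

end
-- ===== PACK-END S56/Br/H374/Tw.lean

-- ===== PACK-BEGIN S56/Br/H374/TrForm.lean
section



/-!
# Row S56 — BRIDGE (B2): the trace form, `ad⁰ρ̄ ≅ (ad⁰ρ̄(1))′` over `F_p`          (helper374)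

`N = resFp p (adTw ρbar p)` is `ad⁰ρ̄(1)` as an `F_p`-representation and `tdual p N = N′` its
Tate dual.  For an additive `lam : k → F_p` with `lam 1 ≠ 0` the map

    `θ : ad⁰ρ̄ → N′`,  `θ x = (m ↦ lam (tr (m x)))`

is an additive equivariant bijection (`2 ≠ 0`, `k` finite):  `tdualAEq : AEq p (tdual p N) (adRep)`;
local version `tdualLocAEq`.
-/

set_option autoImplicit false
set_option linter.style.haveILetI false
set_option linter.unusedSectionVars false

noncomputable section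

namespace Fermat.Agent.S56.Br

open Fermat.Agent.S56 Fermat.Agent.S56.H716 Fermat.Agent.S55.PT groupCohomology ExtCitation

variable {k : Type} [Field k] (ρbar : ResidualGaloisRep k)

/-! ### Nondegeneracy of the trace pairing on `End⁰ V` -/

/-- The trace pairing on the trace-zero endomorphisms of a plane is nondegenerate (`2 ≠ 0`). -/
theorem eq_zero_of_trace_mul_eq_zero (h2 : (2 : k) ≠ 0) (x : Module.End k ρbar.V)
    (hx : LinearMap.trace k ρbar.V x = 0)
    (h : ∀ m : Module.End k ρbar.V, LinearMap.trace k ρbar.V m = 0 →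
      LinearMap.trace k ρbar.V (m * x) = 0) : x = 0 := by
  -- the pairing with every endomorphism vanishes
  have hall : ∀ m : Module.End k ρbar.V, LinearMap.trace k ρbar.V (m * x) = 0 := by
    intro m
    have h1 := h (val ρbar (tracelessPart ρbar m h2)) (trace_val ρbar _)
    rw [val_tracelessPart, sub_mul, map_sub, smul_mul_assoc, one_mul, map_smul, hx, smul_zero,
      sub_zero] at h1
    exact h1
  let b : Module.Basis (Fin 2) k ρbar.V := Module.finBasisOfFinrankEq k ρbar.V ρbar.finrank_eq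
  apply (LinearMap.toMatrix b b).injective
  rw [map_zero]
  apply Matrix.ext_iff_trace_mul_left.2
  intro M
  rw [Matrix.mul_zero, Matrix.trace_zero]
  have h1 := hall (Matrix.toLin b b M)
  rw [LinearMap.trace_eq_matrix_trace k b, LinearMap.toMatrix_mul, LinearMap.toMatrix_toLin] at h1
  exact h1

variable (p : ℕ) [Fact p.Prime] [CharP k p]

/-- An additive map `k → F_p` which does not kill `1`. -/
theorem exists_lam : ∃ lam : k →+ ZMod p, lam 1 ≠ 0 := by
  letI := fpMod k p k
  by_contra hcon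
  push Not at hcon
  have h1 : ∀ φ : Module.Dual (ZMod p) k, φ 1 = 0 := fun φ => hcon φ.toAddMonoidHom
  exact one_ne_zero ((Module.forall_dual_apply_eq_zero_iff (ZMod p) (1 : k)).1 h1)

/-- `ad⁰ρ̄(1)` as an `F_p`-representation. -/
abbrev adTwFp : Rep.{0, 0, 0} (ZMod p) _root_.Fermat.Agent.S56.GQ := resFp p (adTw ρbar p)

/-- The underlying endomorphism of an element of `adTwFp`. -/
def valFp : (adTwFp ρbar p).V →+ Module.End k ρbar.V :=
  (valTw ρbar p).toAddMonoidHom.comp (resFpAEq p (adTw ρbar p)).e.toAddMonoidHom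

/-- A trace-zero endomorphism as an element of `adTwFp`. -/
def mkFp (m : Module.End k ρbar.V) (hm : LinearMap.trace k ρbar.V m = 0) : (adTwFp ρbar p).V :=
  (resFpAEq p (adTw ρbar p)).e.symm (mkTw ρbar p m hm)

@[simp] theorem valFp_mkFp (m : Module.End k ρbar.V) (hm : LinearMap.trace k ρbar.V m = 0) :
    valFp ρbar p (mkFp ρbar p m hm) = m := rfl

theorem valFp_injective : Function.Injective (valFp ρbar p) := fun a b h =>
  (resFpAEq p (adTw ρbar p)).e.injective (valTw_injective ρbar p h)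

theorem trace_valFp (m : (adTwFp ρbar p).V) : LinearMap.trace k ρbar.V (valFp ρbar p m) = 0 :=
  trace_valTw ρbar p _

theorem valFp_ρ (g : _root_.Fermat.Agent.S56.GQ) (m : (adTwFp ρbar p).V) :
    valFp ρbar p ((adTwFp ρbar p).ρ g m)
      = ((cycK k p g : kˣ) : k) • (ρbar.ρ g * valFp ρbar p m * ρbar.ρ g⁻¹) := rfl

variable {p} in
/-- The functional `m ↦ lam (tr (m x))` on `ad⁰ρ̄(1)`. -/
def trFun (lam : k →+ ZMod p) (x : Module.End k ρbar.V) :
    Module.Dual (ZMod p) (adTwFp ρbar p).V :=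
  (lam.comp ((LinearMap.trace k ρbar.V).toAddMonoidHom.comp
    ((AddMonoidHom.mulRight x).comp (valFp ρbar p)))).toZModLinearMap p

variable {p} in
theorem trFun_apply (lam : k →+ ZMod p) (x : Module.End k ρbar.V) (m : (adTwFp ρbar p).V) :
    trFun ρbar lam x m = lam (LinearMap.trace k ρbar.V (valFp ρbar p m * x)) := rfl

variable {p} in
/-- The trace form `θ : ad⁰ρ̄ → (ad⁰ρ̄(1))′`. -/
def theta (lam : k →+ ZMod p) : (adRep ρbar).V →+ (tdual p (adTwFp ρbar p)).V where
  toFun x := trFun ρbar lam (val ρbar x)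
  map_zero' := by
    apply LinearMap.ext
    intro m
    rw [trFun_apply, map_zero, mul_zero, map_zero, map_zero]
    rfl
  map_add' x y := by
    apply LinearMap.ext
    intro m
    rw [LinearMap.add_apply, trFun_apply, trFun_apply, trFun_apply, map_add, mul_add, map_add,
      map_add]

variable {p} in
theorem theta_apply (lam : k →+ ZMod p) (x : (adRep ρbar).V) (m : (adTwFp ρbar p).V) :
    (theta ρbar lam x : Module.Dual (ZMod p) (adTwFp ρbar p).V) m
      = lam (LinearMap.trace k ρbar.V (valFp ρbar p m * val ρbar x)) := rfl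

variable {p} in
theorem theta_injective (h2 : (2 : k) ≠ 0) (lam : k →+ ZMod p) (hlam : lam 1 ≠ 0) :
    Function.Injective (theta ρbar lam) := by
  rw [injective_iff_map_eq_zero]
  intro x hx
  apply val_injective
  rw [map_zero]
  apply eq_zero_of_trace_mul_eq_zero ρbar h2 _ (trace_val ρbar x)
  intro m hm
  by_contra hne
  -- scale `m` so that the pairing becomes `1`
  set t := LinearMap.trace k ρbar.V (m * val ρbar x) with ht
  have h0 := congrArg (fun φ : Module.Dual (ZMod p) (adTwFp ρbar p).V =>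
    φ (mkFp ρbar p (t⁻¹ • m) (by rw [map_smul, hm, smul_zero]))) hx
  have h1 : lam (LinearMap.trace k ρbar.V ((t⁻¹ • m) * val ρbar x)) = 0 := h0
  rw [smul_mul_assoc, map_smul, smul_eq_mul, ← ht, inv_mul_cancel₀ hne] at h1
  exact hlam h1

variable {p} in
theorem theta_bijective [Finite k] (h2 : (2 : k) ≠ 0) (lam : k →+ ZMod p) (hlam : lam 1 ≠ 0) :
    Function.Bijective (theta ρbar lam) := by
  haveI : Module.Finite k (adTw ρbar p).V := inferInstanceAs (Module.Finite k ↥(End0 ρbar))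
  haveI : FiniteDimensional (ZMod p) (adTwFp ρbar p).V := finiteDimensional_resFp p _
  -- `θ` as an `F_p`-linear map `N → N′` (same underlying additive group)
  let e0 : (adTwFp ρbar p).V ≃+ (adRep ρbar).V := (resFpAEq p (adTw ρbar p)).e
  let f : (adTwFp ρbar p).V →ₗ[ZMod p] Module.Dual (ZMod p) (adTwFp ρbar p).V :=
    ((theta ρbar lam).comp e0.toAddMonoidHom).toZModLinearMap p
  have hf : Function.Injective f := fun a b hab =>
    e0.injective (theta_injective ρbar h2 lam hlam hab)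
  have hs : Function.Surjective f :=
    (LinearMap.injective_iff_surjective_of_finrank_eq_finrank
      (Subspace.dual_finrank_eq (K := ZMod p) (V := (adTwFp ρbar p).V)).symm).1 hf
  refine ⟨theta_injective ρbar h2 lam hlam, fun y => ?_⟩
  obtain ⟨a, ha⟩ := hs y
  exact ⟨e0 a, ha⟩

variable {p} in
/-- Equivariance of the trace form. -/
theorem theta_equivariant (lam : k →+ ZMod p) (g : _root_.Fermat.Agent.S56.GQ) (x : (adRep ρbar).V) :
    theta ρbar lam ((adRep ρbar).ρ g x) = (tdual p (adTwFp ρbar p)).ρ g (theta ρbar lam x) := by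
  apply LinearMap.ext
  intro m
  rw [Rep.dualTwist_ρ_apply, LinearMap.smul_apply, LinearMap.comp_apply, theta_apply,
    theta_apply, val_ρ, valFp_ρ, inv_inv, smul_mul_assoc, map_smul]
  -- the trace identity
  have h3 : LinearMap.trace k ρbar.V (ρbar.ρ g⁻¹ * valFp ρbar p m * ρbar.ρ g * val ρbar x)
      = LinearMap.trace k ρbar.V (valFp ρbar p m * (ρbar.ρ g * val ρbar x * ρbar.ρ g⁻¹)) := by
    rw [mul_assoc, mul_assoc, LinearMap.trace_mul_comm]
    simp only [mul_assoc]
  rw [h3]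
  -- the scalars cancel
  set t := LinearMap.trace k ρbar.V (valFp ρbar p m * (ρbar.ρ g * val ρbar x * ρbar.ρ g⁻¹))
  have h4 : ((cycK k p g⁻¹ : kˣ) : k) • t
      = ((((cycloChar p g)⁻¹ : (ZMod p)ˣ) : ZMod p).val : ℕ) • t := by
    rw [cycK_coe, map_inv, nsmul_eq_mul, ZMod.natCast_val, smul_eq_mul, ZMod.castHom_apply]
  rw [h4, map_nsmul, smul_eq_mul, nsmul_eq_mul, ZMod.natCast_val, ZMod.cast_id, ← mul_assoc,
    ← Units.val_mul, mul_inv_cancel, Units.val_one, one_mul]

/-- **B2.**  The trace form as an additive equivariant bijection `(ad⁰ρ̄(1))′ ≃+ ad⁰ρ̄`. -/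
def tdualAEq [Finite k] (h2 : (2 : k) ≠ 0) : AEq p (tdual p (adTwFp ρbar p)) (adRep ρbar) :=
  let lam := (exists_lam (k := k) p).choose
  have hlam : lam 1 ≠ 0 := (exists_lam (k := k) p).choose_spec
  let e := AddEquiv.ofBijective (theta ρbar lam) (theta_bijective ρbar h2 lam hlam)
  { e := e.symm
    he := fun g φ => by
      apply e.injective
      rw [AddEquiv.apply_symm_apply]
      show _ = theta ρbar lam _
      rw [theta_equivariant]
      congr 1
      exact (e.apply_symm_apply φ).symm }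

/-- **B2, local.**  The same bijection for the local Tate dual at `v`. -/
def tdualLocAEq [Finite k] (h2 : (2 : k) ≠ 0) (v : Nat.Primes) :
    AEq p ((Rep.res (rl v) (adTwFp ρbar p)).dualTwist (cycloLoc p v))
      (Rep.res (rl v) (adRep ρbar)) where
  e := (tdualAEq ρbar p h2).e
  he g φ := by
    have h1 : ((Rep.res (rl v) (adTwFp ρbar p)).dualTwist (cycloLoc p v)).ρ g φ
        = (tdual p (adTwFp ρbar p)).ρ (rl v g) φ := by
      have h0 : (Rep.res (rl v) (adTwFp ρbar p)).ρ g⁻¹ = (adTwFp ρbar p).ρ (rl v g)⁻¹ := by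
        rw [← map_inv]
        rfl
      rw [Rep.dualTwist_ρ_apply, Rep.dualTwist_ρ_apply, h0]
      rfl
    rw [h1]
    exact (tdualAEq ρbar p h2).he (rl v g) φ

end Fermat.Agent.S56.Br

end

end
-- ===== PACK-END S56/Br/H374/TrForm.lean

-- ===== PACK-BEGIN S56/Br/H374/Frames.lean
section



/-!
# Row S56 — BRIDGE: frames.  `BaseStatement` from a numerical inequality in `PT` vocabulary
(helper374)

* `exists_isDualFrame` : a dual frame `D` (plain twisted cocycles) representing ALL of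
  `H¹_T(G_ℚ, ad⁰ρ̄(1))` (`PT` level-constant cohomology), `dim D = dim H¹`;
* `exists_selmer_space` : a space `X` of plain cocycles representing `Ш¹_{Smin}(ad⁰ρ̄)`
  (`PT.Sha1`), capturing all strict Selmer cocycles of `Q = ∅`;
* `base_of_numeric` : `H716.Base` from
  `dim Ш¹_{Smin}(ad⁰) + ∑_{v ∈ Smin} dim H⁰(Gl v, ad⁰) + 1 ≤ dim H¹_{Smin}(ad⁰(1))`.
-/

set_option autoImplicit false
set_option linter.style.haveILetI false
set_option linter.unusedSectionVars false

noncomputable section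

namespace Fermat.Agent.S56.Br

open Fermat.Agent.S56 Fermat.Agent.S56.H716 Fermat.Agent.S55.PT groupCohomology ExtCitation

variable {k : Type} [Field k] (ρbar : ResidualGaloisRep k)

section Tw

variable (p : ℕ) [Fact p.Prime] [CharP k p]

/-- A dual frame representing all of `H¹_T(ad⁰ρ̄(1))`. -/
theorem exists_isDualFrame (T : Finset Nat.Primes)
    [Module.Finite k ((globalLevels T).H1 (adTw ρbar p))] :
    ∃ D : Submodule k (_root_.Fermat.Agent.S56.GQ → Module.End k ρbar.V), IsDualFrame ρbar p D ∧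
      (∀ y ∈ D, ∀ q : Nat.Primes, q ∉ T → UnramAt ρbar y (q : ℕ)) ∧
      Module.finrank k D = Module.finrank k ((globalLevels T).H1 (adTw ρbar p)) := by
  obtain ⟨s, hs⟩ := ((globalLevels T).H1π (adTw ρbar p)).exists_rightInverse_of_surjective
    (LinearMap.range_eq_top.2 ((globalLevels T).H1π_surjective (adTw ρbar p)))
  have hs' : ∀ x, (globalLevels T).H1π (adTw ρbar p) (s x) = x := fun x =>
    DFunLike.congr_fun hs x
  let φ : (globalLevels T).H1 (adTw ρbar p) →ₗ[k] (_root_.Fermat.Agent.S56.GQ → Module.End k ρbar.V) :=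
    (toEndTw ρbar p).comp (((globalLevels T).Z1 (adTw ρbar p)).subtype.comp s)
  have hφ : Function.Injective φ := by
    intro x y hxy
    have h1 : (s x : _root_.Fermat.Agent.S56.GQ → adTw ρbar p) = s y := toEndTw_injective ρbar p hxy
    have h2 : s x = s y := Subtype.ext h1
    rw [← hs' x, ← hs' y, h2]
  refine ⟨LinearMap.range φ, ⟨?_, inferInstance, ?_⟩, ?_, LinearMap.finrank_range_of_inj hφ⟩
  · rintro _ ⟨x, rfl⟩
    exact ((mem_Z1_global_tw_iff ρbar p T _).1 (s x).2).1
  · rintro _ ⟨x, rfl⟩ hcob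
    have h1 : ((s x : (globalLevels T).Z1 (adTw ρbar p)) : _root_.Fermat.Agent.S56.GQ → adTw ρbar p)
        ∈ LevelSys.B1 (adTw ρbar p) := (isTwCoboundary_toEndTw_iff ρbar p _).1 hcob
    have h2 : x = 0 := by
      rw [← hs' x]
      exact ((globalLevels T).H1π_eq_zero_iff (adTw ρbar p) (s x)).2 h1
    rw [h2, map_zero]
  · rintro _ ⟨x, rfl⟩
    exact ((mem_Z1_global_tw_iff ρbar p T _).1 (s x).2).2

end Tw

/-! ### Strict Selmer classes of `Q = ∅` -/

/-- Representatives: the class of `f` lies in `Ш¹` iff all local restrictions are coboundaries. -/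
theorem H1π_mem_Sha1_iff' (T : Finset Nat.Primes) (c : ↥((globalLevels T).Z1 (adRep ρbar))) :
    (globalLevels T).H1π (adRep ρbar) c ∈ Sha1 (hrl T) (adRep ρbar) ↔
      ∀ v : Nat.Primes, v ∈ T →
        ((c : _root_.Fermat.Agent.S56.GQ → adRep ρbar) ∘ rl v : Gl v → adRep ρbar)
          ∈ LevelSys.B1 (Rep.res (rl v) (adRep ρbar)) := by
  rw [LinearMap.mem_ker]
  constructor
  · intro h v hv
    have h1 := congrFun h ⟨v, hv⟩
    rw [loc1_apply, resH1_mk] at h1
    exact ((localLevels v).H1π_eq_zero_iff _ _).1 h1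
  · intro h
    funext v
    rw [loc1_apply, resH1_mk]
    exact ((localLevels v.1).H1π_eq_zero_iff _ _).2 (h v.1 v.2)

/-- A space `X` of plain cocycles representing `Ш¹_{Smin}(ad⁰ρ̄)`: it captures every strict
Selmer cocycle of `Q = ∅`, and `dim X = dim Ш¹`. -/
theorem exists_selmer_space (h2 : (2 : k) ≠ 0) (Smin : Finset ℕ)
    (Pl : ℕ → ValuationSubring Qb) (hPl : ∀ v ∈ Smin, (Pl v).LiesOverPrime v)
    (hS : ∀ v ∈ Smin, v.Prime)
    [Module.Finite k ↥(Sha1 (hrl (primesOf Smin)) (adRep ρbar))] :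
    ∃ X : Submodule k (_root_.Fermat.Agent.S56.GQ → Module.End k ρbar.V), Module.Finite k X ∧
      (∀ c, IsSelCocycle ρbar Pl (fun _ => ⊥) Smin ∅ c →
        ∃ t ∈ X, IsAdCoboundary ρbar (c - t)) ∧
      Module.finrank k X = Module.finrank k ↥(Sha1 (hrl (primesOf Smin)) (adRep ρbar)) := by
  set T := primesOf Smin with hT
  obtain ⟨s, hs⟩ := ((globalLevels T).H1π (adRep ρbar)).exists_rightInverse_of_surjective
    (LinearMap.range_eq_top.2 ((globalLevels T).H1π_surjective (adRep ρbar)))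
  have hs' : ∀ x, (globalLevels T).H1π (adRep ρbar) (s x) = x := fun x =>
    DFunLike.congr_fun hs x
  let φ : ↥(Sha1 (hrl T) (adRep ρbar)) →ₗ[k] (_root_.Fermat.Agent.S56.GQ → Module.End k ρbar.V) :=
    (toEnd ρbar).comp ((((globalLevels T).Z1 (adRep ρbar)).subtype.comp s).comp
      (Sha1 (hrl T) (adRep ρbar)).subtype)
  have hφ : Function.Injective φ := by
    intro x y hxy
    have h1 : (s x.1 : _root_.Fermat.Agent.S56.GQ → adRep ρbar) = s y.1 := toEnd_injective ρbar hxy
    have h3 : s x.1 = s y.1 := Subtype.ext h1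
    apply Subtype.ext
    rw [← hs' x.1, ← hs' y.1, h3]
  refine ⟨LinearMap.range φ, inferInstance, ?_, LinearMap.finrank_range_of_inj hφ⟩
  intro c hc
  -- `c = toEnd f`
  let f : _root_.Fermat.Agent.S56.GQ → adRep ρbar := ofEnd ρbar c hc.cocycle.trace_eq_zero
  have hcf : toEnd ρbar f = c := rfl
  have hsel := (isSelCocycle_bot_iff ρbar h2 Smin ∅ Pl hPl hS f).1 (hcf ▸ hc)
  rw [Finset.union_empty] at hsel
  let z : ↥((globalLevels T).Z1 (adRep ρbar)) := ⟨f, hsel.1⟩
  have hx : (globalLevels T).H1π (adRep ρbar) z ∈ Sha1 (hrl T) (adRep ρbar) :=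
    (H1π_mem_Sha1_iff' ρbar T z).2 (fun v hv => hsel.2 v (mem_primesOf.1 hv))
  refine ⟨φ ⟨_, hx⟩, ⟨_, rfl⟩, ?_⟩
  have h1 : (globalLevels T).H1π (adRep ρbar) (z - s ((globalLevels T).H1π (adRep ρbar) z)) = 0 := by
    rw [((globalLevels T).H1π (adRep ρbar)).map_sub z (s _), hs', sub_self]
  have h3 := ((globalLevels T).H1π_eq_zero_iff (adRep ρbar) _).1 h1
  have h4 := (isAdCoboundary_toEnd_iff ρbar h2 _).2 h3
  have h5 : toEnd ρbar ((z - s ((globalLevels T).H1π (adRep ρbar) z) :
      ↥((globalLevels T).Z1 (adRep ρbar))) : _root_.Fermat.Agent.S56.GQ → adRep ρbar) = c - φ ⟨_, hx⟩ := by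
    rw [Submodule.coe_sub, map_sub]
    rfl
  rw [h5] at h4
  exact h4

/-! ### `Base` from a numerical inequality -/

/-- The standard places: the Prelude's place over `v` when `v` is prime. -/
def stdPl (v : ℕ) : ValuationSubring Qb :=
  if h : v.Prime then primeLocalPlace ⟨v, h⟩ else ⊤

theorem stdPl_coe (v : Nat.Primes) : stdPl (v : ℕ) = primeLocalPlace v := by
  unfold stdPl
  rw [dif_pos v.2]
  rfl

theorem stdPl_liesOver {v : ℕ} (hv : v.Prime) : (stdPl v).LiesOverPrime v := by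
  have h1 := primeLocalPlace_liesOver ⟨v, hv⟩
  have h2 := stdPl_coe ⟨v, hv⟩
  rw [← h2] at h1
  exact h1

theorem finrank_adInv_stdPl (v : Nat.Primes) :
    Module.finrank k (adInv ρbar ((stdPl (v : ℕ)).decompositionSubgroup ℚ))
      = Module.finrank k ↥(LevelSys.H0 (Rep.res (rl v) (adRep ρbar))) := by
  rw [stdPl_coe]
  exact (adInvLocalEquiv ρbar v).finrank_eq

theorem sum_finrank_adInv_stdPl (Smin : Finset ℕ) (hS : ∀ v ∈ Smin, v.Prime) :
    ∑ v ∈ Smin, Module.finrank k (adInv ρbar ((stdPl v).decompositionSubgroup ℚ))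
      = ∑ v ∈ primesOf Smin, Module.finrank k ↥(LevelSys.H0 (Rep.res (rl v) (adRep ρbar))) := by
  rw [← Finset.sum_subtype_of_mem
    (fun v => Module.finrank k (adInv ρbar ((stdPl v).decompositionSubgroup ℚ))) hS]
  exact Finset.sum_congr rfl (fun v _ => finrank_adInv_stdPl ρbar v)

/-- **BASE from `PT` numerics.**  `H716.Base` follows from the inequality
`dim Ш¹_{Smin}(ad⁰ρ̄) + ∑_{v ∈ Smin} dim H⁰(Gl v, ad⁰ρ̄) + 1 ≤ dim H¹_{Smin}(ad⁰ρ̄(1))`
between dimensions of `PT` level-constant cohomology groups over `k`. -/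
theorem base_of_numeric (𝒪 : Type) [CommRing 𝒪] [IsDomain 𝒪] [IsDiscreteValuationRing 𝒪]
    (p : ℕ) [Fact p.Prime] [CharP (IsLocalRing.ResidueField 𝒪) p]
    (ρbar : ResidualGaloisRep (IsLocalRing.ResidueField 𝒪)) (Smin : Finset ℕ)
    (h2 : (2 : IsLocalRing.ResidueField 𝒪) ≠ 0) (hS : ∀ v ∈ Smin, v.Prime)
    [Module.Finite (IsLocalRing.ResidueField 𝒪)
      ((globalLevels (primesOf Smin)).H1 (adTw ρbar p))]
    [Module.Finite (IsLocalRing.ResidueField 𝒪) ↥(Sha1 (hrl (primesOf Smin)) (adRep ρbar))]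
    (hnum : Module.finrank (IsLocalRing.ResidueField 𝒪)
          ↥(Sha1 (hrl (primesOf Smin)) (adRep ρbar))
        + ∑ v ∈ primesOf Smin, Module.finrank (IsLocalRing.ResidueField 𝒪)
            ↥(LevelSys.H0 (Rep.res (rl v) (adRep ρbar))) + 1
        ≤ Module.finrank (IsLocalRing.ResidueField 𝒪)
            ((globalLevels (primesOf Smin)).H1 (adTw ρbar p))) :
    Base 𝒪 p ρbar Smin := by
  obtain ⟨D, hD, hDur, hDrank⟩ := exists_isDualFrame ρbar p (primesOf Smin)
  obtain ⟨X, hXfin, hX, hXrank⟩ := exists_selmer_space ρbar h2 Smin stdPl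
    (fun v hv => stdPl_liesOver (hS v hv)) hS
  refine ⟨stdPl, fun v hv => stdPl_liesOver (hS v hv), D, X, hD, ?_, hXfin, hX, ?_⟩
  · intro y hy q hq hqS
    exact hDur y hy ⟨q, hq⟩ (fun h => hqS (mem_primesOf.1 h))
  · rw [hXrank, hDrank, sum_finrank_adInv_stdPl ρbar Smin hS]
    exact hnum

end Fermat.Agent.S56.Br

end

end
-- ===== PACK-END S56/Br/H374/Frames.lean

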