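import Fermat.Agent.Pack.S56.E4L2
import Fermat.Agent.Pack.S56.E13L0
import Fermat.Agent.Pack.S56.E14L2
import Fermat.Agent.Pack.S56.E11L3
import Fermat.Agent.Pack.S56.E7L3
import Fermat.Agent.Pack.S56.E9L0
import Fermat.Agent.Pack.S56.E14L0
import Fermat.Agent.Pack.S56.E15L3
import Fermat.Agent.Pack.S56.E5L2
import Fermat.Agent.Pack.S56.E12L1
import Fermat.Agent.Pack.S56.E14L1
import Fermat.Agent.Pack.S56.E8L3
import Fermat.Agent.Pack.S56.E10L1
import Fermat.Agent.Pack.S56.E12L3
import Fermat.Agent.Pack.S56.E15L0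
import Fermat.Agent.Pack.S56.E15L2
import Fermat.Agent.Pack.S56.E3L3
import Fermat.Agent.Pack.S56.E15L1
import Fermat.Agent.Pack.S56.E12L2
import Fermat.Agent.Pack.S56.E13L1
import Fermat.Agent.Pack.S56.E9L2
import Fermat.Agent.Pack.S56.E11L0

-- ===== PACK-BEGIN S56/Assembly.lean
section








/-!
# Row S56 — ASSEMBLY of the finished pieces (row-lead helper956)

Everything of S56 except the Selmer bound is proved:

* `twPrimes : TWPrimesStatement`                      (TWP ⇐ P3 + Lib/Cheb Tier 1)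
* `tangentBoundOrd_of_selBound`, `tangentBoundFlat_of_selBound` : SELBOUND ⇒ TB (DICT proved)
* P1 = `H134.powerSeriesSurj`.

So  `S56 ⇐ H716.SelBoundOrdStatement + H716.SelBoundFlatStatement`  via `Glue.result_of_inputs`.
-/

set_option autoImplicit false

namespace Fermat.Agent.S56

/-- **(TWP)** Taylor–Wiles primes killing a dual Selmer frame exist. -/
theorem twPrimes : TWPrimesStatement :=
  H956.twPrimesOfElement P3.H306.twElement Fermat.Agent.Lib.Cheb.frobeniusDivision

/-- **(P1)** few tangent vectors ⇒ quotient of a power series ring. -/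
theorem powerSeriesSurj : PowerSeriesSurjStatement :=
  H134.powerSeriesSurj

/-- (TB-ord) from the Selmer bound. -/
theorem tangentBoundOrd_of_selBound (h : H716.SelBoundOrdStatement) :
    TangentBoundOrdStatement :=
  H716.tangentBoundOrd_of H596.dictOrd h

/-- (TB-flat) from the Selmer bound. -/
theorem tangentBoundFlat_of_selBound (h : H716.SelBoundFlatStatement) :
    TangentBoundFlatStatement :=
  H716.tangentBoundFlat_of H596.dictFlat h

end Fermat.Agent.S56

end
-- ===== PACK-END S56/Assembly.lean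

-- ===== PACK-BEGIN S56/H914/BRFlat.lean
section


/-!
# Row S56 — W-FLAT-SS, piece FL-BR (helper914), part 2: unpacking `IsFlatAt` at level `I = ⊥`

For a Galois representation `ρ'` over a FINITE local ring `A` (e.g. the dual numbers `k[ε]`, `k`
finite), the Prelude's `IsFlatAt p` gives at level `I = ⊥` a finite flat cocommutative Hopf algebra
`H` over `ℤ_(p)` whose group of `ℚ̄`-points is `ρ'.V` itself:

* `galAct p σ f` : the Galois action `f ↦ σ ∘ f` on points `H →ₐ[ℤ_(p)] ℚ̄`.
* `exists_pointModel_of_isFlatAt` : `∃ H, … ∃ e : WithConv (H →ₐ ℚ̄) ≃ ρ'.V`, additive, equivariant.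
* `PointModel` API: `e 1 = 0`, `e (f ^ n) = n • e f`, points killed by `p` when `p • V = 0`,
  `σ` fixes all points `↔ ρ'(σ) = 1`.
* `fixes_points_iff_of_isLiftOf` : for a lift `ρ'` of an ad⁰-cocycle `c` (layer-1 `IsLiftOf`):
  `σ` fixes all points of `H`  `↔  ρ̄(σ) = 1 ∧ c(σ) = 0`.
-/

set_option autoImplicit false

open Polynomial IsLocalRing
open scoped TensorProduct

noncomputable section

namespace Fermat.Agent.S56.H914

open Fermat.Agent.S56 Fermat.Agent.S56.H716

/-- `ℤ_(p)` as in the Prelude. -/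
abbrev Zp (p : ℕ) : Type := GaloisRep.ratLocalizedAt p

section Points

variable (p : ℕ) {H : Type} [CommRing H] [HopfAlgebra (Zp p) H]

/-- `σ ∈ G_ℚ` as a `ℤ_(p)`-algebra endomorphism of `ℚ̄`. -/
def galHom (σ : GQ) : Qb →ₐ[Zp p] Qb :=
  (σ : Qb →ₐ[ℚ] Qb).restrictScalars (Zp p)

@[simp] lemma galHom_apply (σ : GQ) (x : Qb) : galHom p σ x = σ x := rfl

/-- The Galois action on the points of `H`. -/
def galAct (σ : GQ) (f : WithConv (H →ₐ[Zp p] Qb)) : WithConv (H →ₐ[Zp p] Qb) :=
  WithConv.toConv ((galHom p σ).comp f.ofConv)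

@[simp] lemma galAct_apply (σ : GQ) (f : WithConv (H →ₐ[Zp p] Qb)) (h : H) :
    (galAct p σ f).ofConv h = σ (f.ofConv h) := rfl

lemma galAct_mul (σ : GQ) (f g : WithConv (H →ₐ[Zp p] Qb)) :
    galAct p σ (f * g) = galAct p σ f * galAct p σ g := by
  apply WithConv.ofConv_injective
  exact AlgHom.comp_convMul_distrib (galHom p σ) f g

lemma galAct_one_left (f : WithConv (H →ₐ[Zp p] Qb)) : galAct p 1 f = f := by
  apply WithConv.ofConv_injective
  ext h
  rfl

lemma galAct_galAct (σ τ : GQ) (f : WithConv (H →ₐ[Zp p] Qb)) :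
    galAct p σ (galAct p τ f) = galAct p (σ * τ) f := by
  apply WithConv.ofConv_injective
  ext h
  rfl

end Points

/-- The points of `H` form a model of the Galois module `V` (`= ρ'.V`): an additive, equivariant
bijection from the convolution monoid of `ℚ̄`-points of `H` onto `V`. -/
structure PointModel (p : ℕ) (H : Type) [CommRing H] [HopfAlgebra (Zp p) H]
    {A : Type} [CommRing A] {V : Type} [AddCommGroup V] [Module A V]
    (ρ : GQ →* Module.End A V) where
  e : WithConv (H →ₐ[Zp p] Qb) ≃ V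
  map_mul : ∀ f g, e (f * g) = e f + e g
  map_gal : ∀ σ f, e (galAct p σ f) = ρ σ (e f)

namespace PointModel

variable {p : ℕ} {H : Type} [CommRing H] [HopfAlgebra (Zp p) H]
  {A : Type} [CommRing A] {V : Type} [AddCommGroup V] [Module A V]
  {ρ : GQ →* Module.End A V}

lemma map_one (M : PointModel p H ρ) : M.e 1 = 0 := by
  have h := M.map_mul 1 1
  rw [mul_one] at h
  exact left_eq_add.mp h

lemma map_pow (M : PointModel p H ρ) (f : WithConv (H →ₐ[Zp p] Qb)) (n : ℕ) :
    M.e (f ^ n) = n • M.e f := by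
  induction n with
  | zero => rw [pow_zero, zero_smul, M.map_one]
  | succ n ih => rw [pow_succ, M.map_mul, ih, succ_nsmul]

/-- If `V` is killed by `n`, so is the group of points. -/
lemma pow_eq_one (M : PointModel p H ρ) {n : ℕ} (hn : ∀ v : V, n • v = 0)
    (f : WithConv (H →ₐ[Zp p] Qb)) : f ^ n = 1 := by
  apply M.e.injective
  rw [M.map_pow, hn, M.map_one]

/-- `σ` fixes all the points of `H` iff it acts trivially on `V`. -/
theorem fixes_iff (M : PointModel p H ρ) (σ : GQ) :
    (∀ (f : H →ₐ[Zp p] Qb) (h : H), σ (f h) = f h) ↔ ρ σ = 1 := by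
  constructor
  · intro hfix
    refine LinearMap.ext fun v => ?_
    obtain ⟨f, rfl⟩ := M.e.surjective v
    rw [← M.map_gal, Module.End.one_apply]
    congr 1
    apply WithConv.ofConv_injective
    ext h
    exact hfix f.ofConv h
  · intro hσ f h
    have h1 := M.map_gal σ (WithConv.toConv f)
    rw [hσ, Module.End.one_apply] at h1
    have h2 := M.e.injective h1
    have h3 := congrArg (fun g => g.ofConv h) h2
    exact h3

theorem finite_points (M : PointModel p H ρ) [Finite V] : Finite (H →ₐ[Zp p] Qb) := by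
  have : Finite (WithConv (H →ₐ[Zp p] Qb)) := Finite.of_equiv V M.e.symm
  exact Finite.of_equiv _ (WithConv.equiv _)

end PointModel

section Flat

variable {A : Type} [CommRing A] [IsLocalRing A]

/-- **Unpacking `IsFlatAt` at level `I = ⊥`** (finite coefficient ring). -/
theorem exists_pointModel_of_isFlatAt [Finite A] (ρ' : GaloisRepAdic A) (p : ℕ)
    (hflat : ρ'.IsFlatAt p) :
    ∃ (H : Type) (_ : CommRing H) (_ : HopfAlgebra (Zp p) H),
      Module.Finite (Zp p) H ∧ Module.Flat (Zp p) H ∧ Coalgebra.IsCocomm (Zp p) H ∧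
        Nonempty (PointModel p H ρ'.ρ) := by
  have hfin : Finite (A ⧸ (⊥ : Ideal A)) :=
    Finite.of_surjective (Ideal.Quotient.mk (⊥ : Ideal A)) Ideal.Quotient.mk_surjective
  obtain ⟨H, i1, i2, hfinH, hflatH, hco, e, he1, he2⟩ := hflat.2 ⊥ hfin
  refine ⟨H, i1, i2, hfinH, hflatH, hco, ⟨?_⟩⟩
  have hbot : (⊥ : Ideal A) • (⊤ : Submodule A ρ'.V) = ⊥ := Submodule.bot_smul _
  let q : (ρ'.V ⧸ ((⊥ : Ideal A) • (⊤ : Submodule A ρ'.V))) ≃ₗ[A] ρ'.V :=
    Submodule.quotEquivOfEqBot _ hbot
  have hq : ∀ (σ : GQ) (x : ρ'.V ⧸ ((⊥ : Ideal A) • (⊤ : Submodule A ρ'.V))),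
      q (ρ'.levelAction ⊥ σ x) = ρ'.ρ σ (q x) := by
    intro σ x
    obtain ⟨v, rfl⟩ := Submodule.mkQ_surjective _ x
    rfl
  refine
    { e := e.trans q.toEquiv
      map_mul := fun f g => ?_
      map_gal := fun σ f => ?_ }
  · show q (e (f * g)) = q (e f) + q (e g)
    rw [he1, map_add]
  · show q (e (galAct p σ f)) = ρ'.ρ σ (q (e f))
    rw [he2 σ f (galAct p σ f) (fun h => rfl), hq]

end Flat

section LiftFlat

variable {k : Type} [Field k] (ρbar : ResidualGaloisRep k)

/-- For a lift `ρ'` of the ad⁰-cocycle `c` with a point model `H`: `σ` fixes all points of `H`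
iff `ρ̄(σ) = 1` and `c(σ) = 0`. -/
theorem fixes_points_iff_of_isLiftOf {c : GQ → Module.End k ρbar.V}
    {ρ' : GaloisRepAdic (DualNumber k)} (hl : IsLiftOf ρbar c ρ')
    {p : ℕ} {H : Type} [CommRing H] [HopfAlgebra (Zp p) H] (M : PointModel p H ρ'.ρ) (σ : GQ) :
    (∀ (f : H →ₐ[Zp p] Qb) (h : H), σ (f h) = f h) ↔ ρbar.ρ σ = 1 ∧ c σ = 0 := by
  rw [M.fixes_iff, rho_eq_one_iff_of_isLiftOf ρbar hl]

/-- The points of a flat lift to the dual numbers over a field of characteristic `p` are killed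
by `p`. -/
theorem points_pow_eq_one {ρ' : GaloisRepAdic (DualNumber k)}
    {p : ℕ} [CharP k p] {H : Type} [CommRing H] [HopfAlgebra (Zp p) H]
    (M : PointModel p H ρ'.ρ) (f : WithConv (H →ₐ[Zp p] Qb)) : f ^ p = 1 := by
  refine M.pow_eq_one (fun v => ?_) f
  have h1 : ((p : ℕ) : DualNumber k) = 0 := by
    have : ((p : ℕ) : DualNumber k) = algebraMap k (DualNumber k) ((p : ℕ) : k) := by
      rw [map_natCast]
    rw [this, CharP.cast_eq_zero, map_zero]
  rw [← Nat.cast_smul_eq_nsmul (DualNumber k), h1, zero_smul]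

end LiftFlat

end Fermat.Agent.S56.H914

end

end
-- ===== PACK-END S56/H914/BRFlat.lean

-- ===== PACK-BEGIN S55/H713/UnitsHerbrand.lean
section



/-!
# The Herbrand quotient of the unit group of a Galois-stable complete DVR is `1`
-/

set_option autoImplicit false
set_option linter.unusedSectionVars false
set_option linter.style.haveILetI false

open IsLocalRing

namespace Fermat.Agent.S55.H713

open Fermat.Agent.S55.Herbrand

section General

variable {R : Type*} [CommRing R] {G : Type*} [Group G] [MulSemiringAction G R]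

/-- `σ - 1` on units, additively. -/
def sigmaAdd (σ : G) : Additive Rˣ →+ Additive Rˣ := MonoidHom.toAdditive (sigmaSubOne σ)

/-- the norm on units, additively. -/
noncomputable def normAdd (R G : Type*) [CommRing R] [Group G] [MulSemiringAction G R]
    [Fintype G] : Additive Rˣ →+ Additive Rˣ := MonoidHom.toAdditive (normU G)

lemma sigmaAdd_apply (σ : G) (u : Rˣ) :
    sigmaAdd σ (Additive.ofMul u) = Additive.ofMul (sigmaSubOne σ u) := rfl

lemma normAdd_apply [Fintype G] (u : Rˣ) :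
    normAdd R G (Additive.ofMul u) = Additive.ofMul (normU G u) := rfl

lemma sigmaAdd_normAdd [Fintype G] (σ : G) (b : Additive Rˣ) :
    sigmaAdd σ (normAdd R G b) = 0 := by
  change Additive.ofMul (sigmaSubOne σ (normU G b.toMul)) = 0
  rw [sigmaSubOne_normU]; rfl

lemma normAdd_sigmaAdd [Fintype G] (σ : G) (b : Additive Rˣ) :
    normAdd R G (sigmaAdd σ b) = 0 := by
  change Additive.ofMul (normU G (sigmaSubOne σ b.toMul)) = 0
  rw [normU_sigmaSubOne]; rfl

end General

section Index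

variable {O : Type*} [CommRing O] [IsDomain O] [IsLocalRing O] [IsNoetherianRing O]
  [Finite (ResidueField O)]
variable {G : Type*} [Group G] [Fintype G] [MulSemiringAction G O]
variable {σ : G} {π : O} {M : AddSubgroup O}

lemma IsGoodLattice.finiteIndex_W (h : IsGoodLattice σ π M) : (h.W 0).FiniteIndex := by
  obtain ⟨j, hj⟩ := h.isOpen 0
  haveI : Finite (O ⧸ maximalIdeal O) := ‹Finite (ResidueField O)›
  haveI : Finite (O ⧸ maximalIdeal O ^ j) :=
    Ideal.finite_quotient_pow (IsNoetherian.noetherian _) j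
  let φ : Oˣ →* (O ⧸ maximalIdeal O ^ j)ˣ :=
    Units.map ((Ideal.Quotient.mk (maximalIdeal O ^ j) : O →+* _) : O →* _)
  haveI : φ.ker.FiniteIndex := inferInstance
  apply Subgroup.finiteIndex_of_le (H := φ.ker)
  intro u hu
  rw [MonoidHom.mem_ker] at hu
  have h1 : (Ideal.Quotient.mk (maximalIdeal O ^ j)) (u : O) = 1 := by
    have := congrArg Units.val hu
    simpa [φ] using this
  rw [h.mem_W]
  apply hj
  rw [← Ideal.Quotient.eq_zero_iff_mem, map_sub, h1, map_one, sub_self]

end Index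

variable {F E : Type*} [Field F] [Field E] [Algebra F E] [FiniteDimensional F E] [IsGalois F E]
variable {O : ValuationSubring E} [IsDiscreteValuationRing O]
  [IsAdicComplete (maximalIdeal O) O] [Finite (ResidueField O)]

/-- **The Herbrand quotient of the units** of a Galois-stable complete discrete valuation ring
with finite residue field, for a cyclic Galois group, is defined and equal to `1`. -/
theorem q_units (hstab : GalStable F O) (σ : Gal(E/F)) (hσ : ∀ g, g ∈ Subgroup.zpowers σ) :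
    letI := galAction hstab
    IsDefined (sigmaAdd σ : Additive Oˣ →+ Additive Oˣ) (normAdd O Gal(E/F)) ∧
      q (sigmaAdd σ : Additive Oˣ →+ Additive Oˣ) (normAdd O Gal(E/F)) = 1 := by
  let _ := galAction hstab
  obtain ⟨π, M, h⟩ := exists_goodLattice hstab σ hσ
  haveI := h.finiteIndex_W
  haveI : (Subgroup.toAddSubgroup (h.W 0)).FiniteIndex := by
    rw [AddSubgroup.finiteIndex_iff, Subgroup.index_toAddSubgroup]
    exact Subgroup.FiniteIndex.index_ne_zero
  haveI : Finite (Additive Oˣ ⧸ Subgroup.toAddSubgroup (h.W 0)) :=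
    AddSubgroup.finite_quotient_of_finiteIndex
  refine q_eq_one_of_exact_of_finite _ _ (sigmaAdd_normAdd σ) (normAdd_sigmaAdd σ)
    (Subgroup.toAddSubgroup (h.W 0)) ?_ ?_ ?_ ?_
  · intro a ha
    exact h.sigmaSubOne_mem_W ha
  · intro a ha
    exact h.normU_mem_W ha
  · intro a ha hfa
    obtain ⟨y, hy, hya⟩ := h.exists_normU_eq a.toMul ha (by
      have : Additive.ofMul (sigmaSubOne σ a.toMul) = 0 := hfa
      exact this)
    exact ⟨Additive.ofMul y, hy, congrArg Additive.ofMul hya⟩
  · intro a ha hga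
    obtain ⟨y, hy, hya⟩ := h.exists_sigmaSubOne_eq a.toMul ha (by
      have : Additive.ofMul (normU Gal(E/F) a.toMul) = 0 := hga
      exact this)
    exact ⟨Additive.ofMul y, hy, congrArg Additive.ofMul hya⟩

end Fermat.Agent.S55.H713

end
-- ===== PACK-END S55/H713/UnitsHerbrand.lean

-- ===== PACK-BEGIN S55/T/NakayamaH719.lean
section



/-!
# S55, layer T, leaf T6a: Nakayama's theorem `Hom(lattice, coh. trivial)` is coh. trivial
(helper719)

Main result: `nakayama : NakayamaSpec` (Spec2.lean of helper53), i.e. for a finite group `G`,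
`X R : Rep ℤ G` with `X` cohomologically trivial and `R` free over `ℤ`, the `G`-module
`Hom_ℤ(R, X)` is cohomologically trivial.  (Finite generation of `R` is not used.)

The proof is Serre, *Local Fields*, IX §5–7, organised so that no projective dimension and no cup
product is needed:

1. `X` is a quotient of a torsion-free coinduced module with torsion-free cohomologically trivial
   kernel `K` (`coverSC`), and `Hom(R, coinduced)` is coinduced; so it suffices to treat `K`.
2. By Sylow reduction (`isCohTriv_of_pSubgroups`) it suffices to show `Ĥⁿ(Q, Hom(R, K)) = 0` for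
   `p`-subgroups `Q`.
3. `K/p` is killed by `p` and has `H¹(Q, K/p) = 0`, hence is coinduced over `Q`
   (`exists_iso_coind₁_of_pGroup`); so `Hom(R, K/p) = Hom(R, K)/p` has vanishing Tate cohomology
   over `Q`, multiplication by `p` is injective on `Ĥⁿ(Q, Hom(R, K))`, which is killed by `|Q|`.
-/

set_option autoImplicit false
set_option linter.style.haveILetI false

open CategoryTheory Limits groupCohomology Rep

namespace Fermat.Agent.S55.T.H719

open Fermat.Agent.S55.H572

noncomputable section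

variable {k G : Type} [CommRing k] [Group G]

/-- Hypothesis on the coefficient ring used in the `p`-group step: submodules of modules killed by
a prime `p` are direct summands.  (True for `k = ℤ`.) -/
def HasRetractions (k : Type) [CommRing k] : Prop :=
  ∀ p : ℕ, p.Prime → ∀ (V : Type) [AddCommGroup V] [Module k V] (W : Submodule k V),
    (∀ v : V, p • v = 0) → ∃ π : V →ₗ[k] W, ∀ w : W, π w = w

/-! ## Restriction commutes with `Hom_k(R, -)` -/

/-- `res (Hom_k(R, X)) ≅ Hom_k(res R, res X)` (the identity on underlying modules). -/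
def resIhomIso (Q : Subgroup G) (R X : Rep.{0} k G) :
    res Q.subtype ((Rep.ihom R).obj X) ≅
      (Rep.ihom (res Q.subtype R)).obj (res Q.subtype X) :=
  Rep.mkIso (Representation.Equiv.mk (LinearEquiv.refl k (R.V →ₗ[k] X.V)) (fun g => by
    apply LinearMap.ext
    intro φ
    apply LinearMap.ext
    intro r
    rfl))

/-! ## Multiplication by `p` -/

theorem ihom_map_nsmul_id (R K : Rep.{0} k G) (p : ℕ) :
    (Rep.ihom R).map (p • 𝟙 K) = p • 𝟙 ((Rep.ihom R).obj K) := by
  apply Rep.hom_ext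
  apply Representation.IntertwiningMap.ext
  apply LinearMap.ext
  intro φ
  apply LinearMap.ext
  intro r
  have h1 : ihomLin (((Rep.ihom R).map (p • 𝟙 K)).hom φ) r = (p • 𝟙 K : K ⟶ K).hom (ihomLin φ r) :=
    rfl
  have h2 : (p • 𝟙 ((Rep.ihom R).obj K) : (Rep.ihom R).obj K ⟶ (Rep.ihom R).obj K).hom φ =
      p • φ := nsmul_id_hom_apply _ p φ
  change ihomLin (((Rep.ihom R).map (p • 𝟙 K)).hom φ) r =
    ihomLin ((p • 𝟙 ((Rep.ihom R).obj K) : (Rep.ihom R).obj K ⟶ (Rep.ihom R).obj K).hom φ) r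
  rw [h1, h2, nsmul_id_hom_apply]
  rfl

instance tateCohomologyFunctor_additive {K : Type} [Group K] [Fintype K] (n : ℤ) :
    (tateCohomologyFunctor (R := k) (G := K) n).Additive := by
  unfold tateCohomologyFunctor
  infer_instance

theorem tate_map_nsmul_id_apply {K : Type} [Group K] [Fintype K] (A : Rep.{0} k K) (p : ℕ)
    (n : ℤ) (x : tateCohomology A n) :
    ((tateCohomologyFunctor n).map (p • 𝟙 A)).hom x = p • x := by
  rw [Functor.map_nsmul, CategoryTheory.Functor.map_id]
  rfl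

/-! ## Step A: `p`-subgroups -/

theorem res_ihomSC_pSC_f (Q : Subgroup G) (R K : Rep.{0} k G) (p : ℕ) :
    ((ihomSC R (pSC K p)).map (resFunctor Q.subtype)).f =
      p • 𝟙 (res Q.subtype ((Rep.ihom R).obj K)) := by
  change (resFunctor Q.subtype).map ((Rep.ihom R).map (p • 𝟙 K)) = _
  rw [ihom_map_nsmul_id, Functor.map_nsmul, CategoryTheory.Functor.map_id]

theorem isZero_tate_ihom_of_pGroup [Finite G] (hret : HasRetractions k) {p : ℕ} (hp : p.Prime)
    (Q : Subgroup G) (hQ : IsPGroup p Q) [Fintype Q] (R K : Rep.{0} k G)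
    (hR : Module.Projective k R.V) (hK : PTorsionFree p K.V) (hKct : IsCohTriv K) (n : ℤ) :
    IsZero (tateCohomology (res Q.subtype ((Rep.ihom R).obj K)) n) := by
  haveI : Fact p.Prime := ⟨hp⟩
  have hS := pSC_shortExact K p hK
  have hKp : IsCohTriv (pSC K p).X₃ := isCohTriv_X₃ hS hKct hKct
  have hpV : ∀ v : (res Q.subtype (pSC K p).X₃).V, p • v = 0 := pSC_X₃_nsmul K p
  have hH1 : H1Triv (res Q.subtype (pSC K p).X₃) := (isZero_tate_one_iff _).1 (hKp Q 1)
  obtain ⟨e⟩ := exists_iso_coind₁_of_pGroup hQ (res Q.subtype (pSC K p).X₃) hpV hH1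
    (hret p hp _ _ hpV)
  have hX₃ : ∀ m : ℤ,
      IsZero (tateCohomology (res Q.subtype ((Rep.ihom R).obj (pSC K p).X₃)) m) := by
    intro m
    have iso := resIhomIso Q R (pSC K p).X₃ ≪≫ (Rep.ihom (res Q.subtype R)).mapIso e ≪≫
      ihomCoind₁Iso _ _
    exact isZero_tate_of_iso iso.symm m (isZero_tateCohomology_coind_bot _ m)
  have hT := ihomSC_shortExact R hR hS
  have hTres := (Rep.shortExact_res Q.subtype).2 hT
  have hinj : ∀ (m : ℤ) (x : tateCohomology (res Q.subtype ((Rep.ihom R).obj K)) (m + 1)),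
      p • x = 0 → x = 0 := by
    intro m x hx
    have hex := TateCohomology.exact₁ hTres m
    have hmono := hex.mono_g ((hX₃ m).eq_of_src _ _)
    have hinj' : Function.Injective ((tateCohomologyFunctor (m + 1)).map
        ((ihomSC R (pSC K p)).map (resFunctor Q.subtype)).f).hom :=
      (ModuleCat.mono_iff_injective _).1 hmono
    have hmap : ∀ y : tateCohomology (res Q.subtype ((Rep.ihom R).obj K)) (m + 1),
        ((tateCohomologyFunctor (m + 1)).map
          ((ihomSC R (pSC K p)).map (resFunctor Q.subtype)).f).hom y = p • y := by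
      intro y
      rw [res_ihomSC_pSC_f]
      exact tate_map_nsmul_id_apply _ p (m + 1) y
    apply hinj'
    rw [hmap, hmap, hx, smul_zero]
  obtain ⟨m, rfl⟩ : ∃ m : ℤ, n = m + 1 := ⟨n - 1, by ring⟩
  obtain ⟨a, ha⟩ := (IsPGroup.iff_card).1 hQ
  rw [ModuleCat.isZero_iff_subsingleton]
  refine ⟨fun x y => ?_⟩
  suffices ∀ z : tateCohomology (res Q.subtype ((Rep.ihom R).obj K)) (m + 1), z = 0 by
    rw [this x, this y]
  intro z
  have hz : p ^ a • z = 0 := by
    rw [← ha]
    exact card_nsmul_tate_eq_zero _ Q (m + 1) z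
  clear ha
  induction a with
  | zero => simpa using hz
  | succ a ih =>
    apply ih
    apply hinj
    rw [← mul_nsmul', ← pow_succ']
    exact hz

/-! ## Step B: torsion-free modules -/

theorem isCohTriv_ihom_of_torsionFree [Finite G] (hret : HasRetractions k)
    (R K : Rep.{0} k G) (hR : Module.Projective k R.V)
    (hK : ∀ p : ℕ, p.Prime → PTorsionFree p K.V) (hKct : IsCohTriv K) :
    IsCohTriv ((Rep.ihom R).obj K) :=
  isCohTriv_of_pSubgroups _ fun p hp Q hQ _ n =>
    isZero_tate_ihom_of_pGroup hret hp Q hQ R K hR (hK p hp) hKct n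

/-! ## Step C: the general case -/

/-- **Nakayama's theorem** for a coefficient ring `k` which is torsion-free and over which
submodules of modules killed by a prime are direct summands. -/
theorem isCohTriv_ihom [Finite G] (hk : ∀ p : ℕ, p.Prime → PTorsionFree p k)
    (hret : HasRetractions k) (R X : Rep.{0} k G) (hR : Module.Projective k R.V)
    (hX : IsCohTriv X) : IsCohTriv ((Rep.ihom R).obj X) := by
  letI : Fintype G := Fintype.ofFinite G
  have hS := coverSC_shortExact X
  have hF : IsCohTriv (coverSC X).X₂ := isCohTriv_coind₁ _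
  have hKct : IsCohTriv (coverSC X).X₁ := isCohTriv_X₁ hS hF hX
  have hKtf : ∀ p : ℕ, p.Prime → PTorsionFree p (coverSC X).X₁.V := fun p hp =>
    pTorsionFree_coverSC_X₁ (hk p hp) X
  have hT := ihomSC_shortExact R hR hS
  have h1 : IsCohTriv (ihomSC R (coverSC X)).X₁ :=
    isCohTriv_ihom_of_torsionFree hret R _ hR hKtf hKct
  have h2 : IsCohTriv (ihomSC R (coverSC X)).X₂ := isCohTriv_ihom_coind₁ R _
  have h3 : IsCohTriv (ihomSC R (coverSC X)).X₃ := isCohTriv_X₃ hT h1 h2
  exact h3

/-! ## Step D: `k = ℤ` -/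

theorem pTorsionFree_int (p : ℕ) (hp : p.Prime) : PTorsionFree p ℤ := by
  intro x hx
  rw [nsmul_eq_mul] at hx
  rcases mul_eq_zero.1 hx with h | h
  · exact absurd (by exact_mod_cast h) hp.ne_zero
  · exact h

theorem exists_retraction_zmod (p : ℕ) [Fact p.Prime] (V : Type) [AddCommGroup V]
    [Module (ZMod p) V] (W : AddSubgroup V) : ∃ π : V →+ W, ∀ w : W, π w = w := by
  obtain ⟨C, hC⟩ := Submodule.exists_isCompl (AddSubgroup.toZModSubmodule p W)
  refine ⟨(Submodule.projectionOnto (AddSubgroup.toZModSubmodule p W) C hC).toAddMonoidHom,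
    fun w => ?_⟩
  exact Submodule.projectionOnto_apply_left hC w

theorem hasRetractions_int : HasRetractions ℤ := by
  intro p hp V _ inst W hpV
  obtain rfl : inst = AddCommGroup.toIntModule V := Subsingleton.elim _ _
  haveI : Fact p.Prime := ⟨hp⟩
  obtain ⟨π₀, hπ₀⟩ := @exists_retraction_zmod p _ V _ (AddCommGroup.zmodModule hpV)
    W.toAddSubgroup
  refine ⟨{ toFun := π₀, map_add' := map_add π₀, map_smul' := fun c v => ?_ }, fun w => ?_⟩
  · exact map_zsmul π₀ c v
  · exact hπ₀ w

/-- **T6a, Nakayama's theorem**: `Hom_ℤ(R, X)` is cohomologically trivial if `X` is and `R` is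
`ℤ`-free. -/
theorem nakayama : NakayamaSpec := by
  intro G _ _ X R hfree _ hX
  exact isCohTriv_ihom pTorsionFree_int hasRetractions_int R X
    (@Module.Projective.of_free ℤ _ R.V _ R.hV2 hfree) hX

end

end Fermat.Agent.S55.T.H719

end
-- ===== PACK-END S55/T/NakayamaH719.lean

-- ===== PACK-BEGIN S55/G/Rec/Loc/UnifH544/Local.lean
section






/-!
# S55 / G / REC / LOC, leaf LOC-UNIF (helper544), part 4: dictionary with layer L

`K = K_V` the fixed field of an open `V ≤ Gal(ℚ̄_q/ℚ_q)`, `A` its ring of integers (the unit ball),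
`E / K` a finite extension inside `ℚ̄_q`.

* `isInt_iff_norm544`: integrality over `A` is `‖x‖ ≤ 1`;
* `isUniformizer_of_norm544`, `card_residue544`, `isFrobeniusElt544`: the norm vocabulary of
  `G/Rec/Spec.lean` (`IsUniformizer`, `IsResidueDegree`, `IsFrobenius`) implies the vocabulary of
  layer L (`L.IsUniformizer`, `Nat.card (ResidueField A)`, `L.IsFrobeniusElt`);
* `isUnramifiedExt_cycLevel544`: `K(μ_r) / K` is unramified for `q ∤ r` (trivial inertia,
  `Local.H959.exists_inertia`);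
* `frobenius_generates544`: in an unramified extension the restriction of a Frobenius of `V`
  generates the Galois group.
-/

set_option autoImplicit false
set_option linter.unusedSectionVars false
set_option linter.style.haveILetI false

noncomputable section

namespace Fermat.Agent.S55.G.Rec.Loc.H544

open groupCohomology Fermat.Agent.S55 Fermat.Agent.S55.G.Rec Fermat.Agent.S55.G.Rec.Loc

variable {q : ℕ} [Fact q.Prime]

local notation "Gq" => (PadicAlgCl q ≃ₐ[ℚ_[q]] PadicAlgCl q)

section Dict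

variable {V : Subgroup (PadicAlgCl q ≃ₐ[ℚ_[q]] PadicAlgCl q)} (A : ValuationSubring (fixedFld q V))
  (hAmem : ∀ x : fixedFld q V, x ∈ A ↔ ‖(x : PadicAlgCl q)‖ ≤ 1)
  (E : IntermediateField (fixedFld q V) (PadicAlgCl q))

theorem isScalarTower_mid544 : IsScalarTower ℚ_[q] E (PadicAlgCl q) :=
  IsScalarTower.of_algebraMap_eq fun _ => rfl

include hAmem in
/-- Integrality over `A` is `‖x‖ ≤ 1`. -/
theorem isInt_iff_norm544 (x : E) :
    Local.IsInt (↥A) (fixedFld q V) E x ↔ ‖(x : PadicAlgCl q)‖ ≤ 1 := by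
  constructor
  · rintro ⟨p, hp, hpx⟩
    refine norm_le_one_of_eval₂_eq_zero544
      ((algebraMap E (PadicAlgCl q)).comp (Local.toL (↥A) (fixedFld q V) E)) ?_ p hp
      (x : PadicAlgCl q) ?_
    · intro a
      exact (hAmem (a : fixedFld q V)).1 a.2
    · have := congrArg (algebraMap E (PadicAlgCl q)) hpx
      rw [Polynomial.hom_eval₂, map_zero] at this
      exact this
  · intro hx
    haveI := isScalarTower_mid544 E
    have hinj : Function.Injective (algebraMap E (PadicAlgCl q)) :=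
      (algebraMap E (PadicAlgCl q)).injective
    have hmin : minpoly ℚ_[q] (x : PadicAlgCl q) = minpoly ℚ_[q] x :=
      minpoly.algebraMap_eq hinj x
    have hint : IsIntegral ℚ_[q] x := by
      rw [← isIntegral_algebraMap_iff hinj]
      exact Algebra.IsIntegral.isIntegral _
    have hlift : (minpoly ℚ_[q] x).map (algebraMap ℚ_[q] E) ∈
        Polynomial.lifts (Local.toL (↥A) (fixedFld q V) E) := by
      rw [Polynomial.lifts_iff_coeff_lifts]
      intro n
      rw [Polynomial.coeff_map]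
      have hc : ‖(minpoly ℚ_[q] x).coeff n‖ ≤ 1 := by
        rw [← hmin]
        exact norm_coeff_minpoly_le_one544 q hx n
      have hcA : algebraMap ℚ_[q] (fixedFld q V) ((minpoly ℚ_[q] x).coeff n) ∈ A := by
        rw [hAmem]
        have : ((algebraMap ℚ_[q] (fixedFld q V) ((minpoly ℚ_[q] x).coeff n) : fixedFld q V) :
            PadicAlgCl q) = algebraMap ℚ_[q] (PadicAlgCl q) ((minpoly ℚ_[q] x).coeff n) := rfl
        rw [this, PadicAlgCl.norm_extends]
        exact hc
      exact ⟨⟨_, hcA⟩, rfl⟩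
    obtain ⟨p, hpmap, -, hpm⟩ := Polynomial.lifts_and_natDegree_eq_and_monic hlift
      ((minpoly.monic hint).map _)
    refine ⟨p, hpm, ?_⟩
    rw [← Polynomial.eval_map, hpmap, Polynomial.eval_map_algebraMap, minpoly.aeval]

/-! ### The ring of integers of `K` -/

include hAmem in
theorem norm_coe_le_one544 (a : A) : ‖((a : fixedFld q V) : PadicAlgCl q)‖ ≤ 1 :=
  (hAmem _).1 a.2

include hAmem in
theorem mem_maximalIdeal_iff544 (a : A) :
    a ∈ IsLocalRing.maximalIdeal A ↔ ‖((a : fixedFld q V) : PadicAlgCl q)‖ < 1 :=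
  mem_maximalIdeal_iff_norm544 (algebraMap (fixedFld q V) (PadicAlgCl q)) A hAmem a

include hAmem in
theorem norm_unit_eq_one544 (u : Aˣ) : ‖(((u : A) : fixedFld q V) : PadicAlgCl q)‖ = 1 := by
  refine le_antisymm (norm_coe_le_one544 A hAmem _) ?_
  by_contra hlt
  rw [not_le] at hlt
  have h1 := (mem_maximalIdeal_iff544 A hAmem (u : A)).2 hlt
  exact (IsLocalRing.mem_maximalIdeal _).1 h1 u.isUnit

variable [IsDiscreteValuationRing A]

include hAmem in
/-- A norm-uniformizer is a uniformizer of `A`. -/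
theorem isUniformizer_of_norm544 (π : fixedFld q V) (hπ0 : π ≠ 0)
    (hπ1 : ‖(π : PadicAlgCl q)‖ < 1)
    (hmax : ∀ x : fixedFld q V, ‖(x : PadicAlgCl q)‖ < 1 →
      ‖(x : PadicAlgCl q)‖ ≤ ‖(π : PadicAlgCl q)‖) : L.IsUniformizer A π := by
  have hπA : π ∈ A := (hAmem π).2 hπ1.le
  refine ⟨hπA, ?_⟩
  obtain ⟨ϖ, hϖ⟩ := IsDiscreteValuationRing.exists_irreducible A
  have hπA0 : (⟨π, hπA⟩ : A) ≠ 0 := fun h => hπ0 (congrArg Subtype.val h)
  obtain ⟨k, u, hku⟩ := IsDiscreteValuationRing.eq_unit_mul_pow_irreducible hπA0 hϖ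
  have hnϖ : ‖((ϖ : fixedFld q V) : PadicAlgCl q)‖ < 1 :=
    (mem_maximalIdeal_iff544 A hAmem ϖ).1
      ((IsLocalRing.mem_maximalIdeal _).2 hϖ.not_isUnit)
  have hϖ0 : 0 < ‖((ϖ : fixedFld q V) : PadicAlgCl q)‖ := by
    rw [norm_pos_iff]
    intro h0
    apply hϖ.ne_zero
    apply Subtype.ext
    exact_mod_cast h0
  have hle : ‖((ϖ : fixedFld q V) : PadicAlgCl q)‖ ≤ ‖(π : PadicAlgCl q)‖ := hmax _ hnϖ
  have hnorm : ‖(π : PadicAlgCl q)‖ = ‖((ϖ : fixedFld q V) : PadicAlgCl q)‖ ^ k := by
    have h1 : (π : PadicAlgCl q) =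
        (((u : A) : fixedFld q V) : PadicAlgCl q) * ((ϖ : fixedFld q V) : PadicAlgCl q) ^ k := by
      have := congrArg (fun a : A => ((a : fixedFld q V) : PadicAlgCl q)) hku
      simpa using this
    rw [h1, norm_mul, norm_pow, norm_unit_eq_one544 A hAmem u, one_mul]
  have hk1 : k = 1 := by
    rcases Nat.lt_trichotomy k 1 with h | h | h
    · have hk0 : k = 0 := by omega
      rw [hk0, pow_zero] at hnorm
      rw [hnorm] at hπ1
      exact absurd hπ1 (lt_irrefl _)
    · exact h
    · exfalso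
      have h2 : ‖((ϖ : fixedFld q V) : PadicAlgCl q)‖ ^ k <
          ‖((ϖ : fixedFld q V) : PadicAlgCl q)‖ ^ 1 :=
        pow_lt_pow_right_of_lt_one₀ hϖ0 hnϖ h
      rw [pow_one, ← hnorm] at h2
      exact absurd hle (not_le.2 h2)
  rw [hku, hk1, pow_one]
  exact (irreducible_units_mul u).2 hϖ

variable [Finite (IsLocalRing.ResidueField A)]

include hAmem in
/-- The residue field of `A` has `q ^ f` elements, `f` the residue degree of `V`. -/
theorem card_residue544 (f : ℕ) (hf : IsResidueDegree q V f) :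
    Nat.card (IsLocalRing.ResidueField A) = q ^ f := by
  classical
  letI : Fintype (IsLocalRing.ResidueField A) := Fintype.ofFinite _
  have hq0 : ((q : ℕ) : IsLocalRing.ResidueField A) = 0 := by
    have h1 : ((q : ℕ) : A) ∈ IsLocalRing.maximalIdeal A := by
      rw [mem_maximalIdeal_iff544 A hAmem]
      have : ((((q : ℕ) : A) : fixedFld q V) : PadicAlgCl q) = (q : PadicAlgCl q) := by
        simp
      rw [this]
      exact norm_prime_lt_one544 q
    have h2 := (IsLocalRing.residue_eq_zero_iff ((q : ℕ) : A)).2 h1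
    rwa [map_natCast] at h2
  haveI : CharP (IsLocalRing.ResidueField A) q :=
    (CharP.charP_iff_prime_eq_zero (Fact.out : q.Prime)).2 hq0
  obtain ⟨n, -, hn⟩ := FiniteField.card (IsLocalRing.ResidueField A) q
  have hq1 : 1 < q := (Fact.out : q.Prime).one_lt
  obtain ⟨hf0, hf1, hf2⟩ := hf
  -- `f ≤ n`
  have h1 : f ≤ n := by
    refine hf2 n n.pos fun x hxfix hx1 => ?_
    have hxK : x ∈ fixedFld q V := (IntermediateField.mem_fixedField_iff _ _).2 hxfix
    have hxA : (⟨x, hxK⟩ : fixedFld q V) ∈ A := (hAmem _).2 hx1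
    have h3 : IsLocalRing.residue A ((⟨⟨x, hxK⟩, hxA⟩ : A) ^ q ^ (n : ℕ) - ⟨⟨x, hxK⟩, hxA⟩) = 0 := by
      rw [map_sub, map_pow, ← hn, FiniteField.pow_card, sub_self]
    have h4 := (IsLocalRing.residue_eq_zero_iff _).1 h3
    rw [mem_maximalIdeal_iff544 A hAmem] at h4
    exact h4
  -- `n ≤ f`
  have h2 : (n : ℕ) ≤ f := by
    have hroot : ∀ a : IsLocalRing.ResidueField A, a ^ q ^ f = a := by
      intro a
      obtain ⟨x, rfl⟩ := IsLocalRing.residue_surjective a
      have hxfix : IsFixedBy q V ((x : fixedFld q V) : PadicAlgCl q) :=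
        (IntermediateField.mem_fixedField_iff _ _).1 (x : fixedFld q V).2
      have h3 := hf1 _ hxfix (norm_coe_le_one544 A hAmem x)
      have h4 : x ^ q ^ f - x ∈ IsLocalRing.maximalIdeal A := by
        rw [mem_maximalIdeal_iff544 A hAmem]
        exact h3
      have h5 := (IsLocalRing.residue_eq_zero_iff _).2 h4
      rw [map_sub, map_pow, sub_eq_zero] at h5
      exact h5
    have hP0 : (Polynomial.X ^ q ^ f - Polynomial.X :
        Polynomial (IsLocalRing.ResidueField A)) ≠ 0 :=
      FiniteField.X_pow_card_pow_sub_X_ne_zero _ hf0.ne' hq1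
    have hdeg : (Polynomial.X ^ q ^ f - Polynomial.X :
        Polynomial (IsLocalRing.ResidueField A)).natDegree = q ^ f :=
      FiniteField.X_pow_card_pow_sub_X_natDegree_eq _ hf0.ne' hq1
    have hsub : (Finset.univ : Finset (IsLocalRing.ResidueField A)) ⊆
        (Polynomial.X ^ q ^ f - Polynomial.X :
          Polynomial (IsLocalRing.ResidueField A)).roots.toFinset := by
      intro a _
      rw [Multiset.mem_toFinset, Polynomial.mem_roots hP0, Polynomial.IsRoot.def]
      simp [hroot a]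
    have hcard : Fintype.card (IsLocalRing.ResidueField A) ≤ q ^ f := by
      calc Fintype.card (IsLocalRing.ResidueField A)
          = (Finset.univ : Finset (IsLocalRing.ResidueField A)).card := rfl
        _ ≤ _ := Finset.card_le_card hsub
        _ ≤ Multiset.card (Polynomial.X ^ q ^ f - Polynomial.X :
            Polynomial (IsLocalRing.ResidueField A)).roots := Multiset.toFinset_card_le _
        _ ≤ _ := Polynomial.card_roots' _
        _ = q ^ f := hdeg
    rw [hn] at hcard
    exact (Nat.pow_le_pow_iff_right hq1).1 hcard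
  rw [Nat.card_eq_fintype_card, hn, le_antisymm h2 h1]

/-! ### The ring of integers of `E` -/

variable [IsAdicComplete (IsLocalRing.maximalIdeal A) A] [FiniteDimensional (fixedFld q V) E]

/-- The ring of integers of `E`. -/
def intE544 : ValuationSubring E := L.H715.intVS (↥A) (fixedFld q V) E

theorem isLocalRingOfIntegers_intE544 : L.IsLocalRingOfIntegers (intE544 A E) :=
  L.H715.isLocalRingOfIntegers_intVS _ _ _

include hAmem in
theorem mem_intE544 (x : E) : x ∈ intE544 A E ↔ ‖(x : PadicAlgCl q)‖ ≤ 1 :=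
  (L.H715.mem_intVS_iff _ _ _ x).trans (isInt_iff_norm544 A hAmem E x)

include hAmem in
theorem mem_nonunits_intE544 (x : E) :
    x ∈ (intE544 A E).nonunits ↔ ‖(x : PadicAlgCl q)‖ < 1 :=
  mem_nonunits_iff_norm544 (algebraMap E (PadicAlgCl q)) _ (mem_intE544 A hAmem E) x

include hAmem in
/-- The restriction of a Frobenius of `V` is a Frobenius element in the sense of layer L. -/
theorem isFrobeniusElt544 [Normal (fixedFld q V) E]
    (φ : PadicAlgCl q ≃ₐ[ℚ_[q]] PadicAlgCl q) (hφ : IsFrobenius q V φ) :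
    L.IsFrobeniusElt (fixedFld q V) E (resHom q V E ⟨φ, hφ.1⟩) := by
  obtain ⟨hφV, f, hf, hfrob⟩ := id hφ
  refine ⟨A, intE544 A E, ⟨inferInstance, inferInstance, inferInstance⟩,
    isLocalRingOfIntegers_intE544 A E, fun x hx => ?_⟩
  rw [card_residue544 A hAmem f hf, mem_nonunits_intE544 A hAmem E]
  have hx1 := (mem_intE544 A hAmem E x).1 hx
  have h := hfrob (x : PadicAlgCl q) hx1
  have e : ((resHom q V E ⟨φ, hφ.1⟩ x - x ^ q ^ f : E) : PadicAlgCl q) =
      φ (x : PadicAlgCl q) - (x : PadicAlgCl q) ^ q ^ f := by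
    rw [AddSubgroupClass.coe_sub, SubmonoidClass.coe_pow, resHom_apply_coe]
  rw [e]
  exact h

include hAmem in
/-- Elements of the maximal ideal (in the sense of `Local.H959.InMax`) have norm `< 1`. -/
theorem norm_lt_one_of_inMax544 (y : E) (hy : Local.H959.InMax (↥A) (fixedFld q V) E y) :
    ‖(y : PadicAlgCl q)‖ < 1 := by
  by_contra hge
  rw [not_lt] at hge
  have hy0 : y ≠ 0 := by
    rintro rfl
    simp at hge
    linarith
  have hinv : ‖((y⁻¹ : E) : PadicAlgCl q)‖ ≤ 1 := by
    have : ((y⁻¹ : E) : PadicAlgCl q) = (y : PadicAlgCl q)⁻¹ := rfl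
    rw [this, norm_inv]
    exact inv_le_one_of_one_le₀ hge
  exact hy.2 y⁻¹ ((isInt_iff_norm544 A hAmem E _).2 hinv) (mul_inv_cancel₀ hy0)

/-! ### `K(μ_r) / K` is unramified -/

omit [FiniteDimensional (fixedFld q V) E] in
include hAmem in
/-- **`K(μ_r) / K` is unramified** for `q ∤ r`. -/
theorem isUnramifiedExt_cycLevel544 {r : ℕ} (hr : 0 < r) (hqr : ¬ q ∣ r) :
    L.IsUnramifiedExt (fixedFld q V) (cycLevel544 q V r) := by
  haveI := finiteDimensional_cycLevel544 q V r
  haveI := isGalois_cycLevel544 q V r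
  obtain ⟨J, hJ, hJcard⟩ :=
    Local.H959.exists_inertia (↥A) (fixedFld q V) (fixedFld q V) (cycLevel544 q V r)
  have hnr : ‖(r : PadicAlgCl q)‖ = 1 := H533.norm_natCast_padicAlgCl533 q hqr
  have hJbot : J = ⊥ := by
    rw [eq_bot_iff]
    intro σ hσ
    rw [Subgroup.mem_bot]
    rw [hJ] at hσ
    apply eq_one_of_fixes_roots544 q V hr σ
    intro x hx
    have hx1 : ‖(x : PadicAlgCl q)‖ ≤ 1 := by
      have h1 : ‖(x : PadicAlgCl q)‖ ^ r = 1 := by rw [← norm_pow, hx, norm_one]
      exact ((pow_eq_one_iff_of_nonneg (norm_nonneg _) hr.ne').1 h1).le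
    have hint : Local.IsInt (↥A) (fixedFld q V) (cycLevel544 q V r) x :=
      (isInt_iff_norm544 A hAmem _ x).2 hx1
    have hlt := norm_lt_one_of_inMax544 A hAmem _ _ (hσ x hint)
    have hσx : ((σ x : cycLevel544 q V r) : PadicAlgCl q) ^ r = 1 := by
      have h2 : (σ x) ^ r = 1 := by
        rw [← map_pow]
        have : x ^ r = 1 := Subtype.ext (by simpa using hx)
        rw [this, map_one]
      have := congrArg (fun y : cycLevel544 q V r => (y : PadicAlgCl q)) h2
      simpa using this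
    have e : ((σ x - x : cycLevel544 q V r) : PadicAlgCl q) =
        ((σ x : cycLevel544 q V r) : PadicAlgCl q) - (x : PadicAlgCl q) := rfl
    rw [e] at hlt
    exact Subtype.ext (H533.rootsOfUnity_eq_of_norm_sub_lt_one533 hnr hx hσx hlt)
  obtain ⟨ϖK, hK⟩ := Local.H608.existsUnif (↥A) (fixedFld q V) (fixedFld q V)
  obtain ⟨ϖE, hE⟩ := Local.H608.existsUnif (↥A) (fixedFld q V) (cycLevel544 q V r)
  have h1 := hJcard ϖK ϖE hK hE
  have hunr : Local.IsUnram (↥A) (fixedFld q V) (cycLevel544 q V r) (fixedFld q V) :=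
    (Local.H959.isUnram_iff_ramExp_eq_one hK hE h1).2 (by rw [hJbot, Subgroup.card_bot])
  exact L.H715.isUnramifiedExt_of_isUnram A _ hunr

/-! ### The Frobenius generates -/

include hAmem in
/-- In an unramified extension `E / K_V` the restriction of a Frobenius of `V` generates the
Galois group. -/
theorem frobenius_generates544 [L.IsLocalFld (fixedFld q V)]
    (hfix : (fixedFld q V).fixingSubgroup = V) [IsGalois (fixedFld q V) E]
    (hunr : L.IsUnramifiedExt (fixedFld q V) E)
    (φ : PadicAlgCl q ≃ₐ[ℚ_[q]] PadicAlgCl q) (hφ : IsFrobenius q V φ)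
    (g : E ≃ₐ[fixedFld q V] E) : g ∈ Subgroup.zpowers (resHom q V E ⟨φ, hφ.1⟩) := by
  obtain ⟨-, φ', hφ', hgen⟩ := L.u784_unramifiedCyclic (fixedFld q V) E hunr
  suffices h : φ' = resHom q V E ⟨φ, hφ.1⟩ by
    rw [← h]
    exact hgen g
  obtain ⟨A', B', hA', hB', hfr⟩ := hφ'
  have hAA' : A' = A := L.u784_ringOfIntegersUnique (fixedFld q V) A' A hA'
    ⟨inferInstance, inferInstance, inferInstance⟩
  haveI : L.IsLocalFld E := L.H715.isLocalFld_ext A E
  have hBB' : B' = intE544 A E :=
    L.u784_ringOfIntegersUnique E B' _ hB' (isLocalRingOfIntegers_intE544 A E)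
  subst hAA'
  subst hBB'
  obtain ⟨hφV, f, hf, hfrob⟩ := id hφ
  have hcard := card_residue544 A' hAmem f hf
  have hg : ∀ x ∈ intE544 A' E,
      (φ'⁻¹ * resHom q V E ⟨φ, hφ.1⟩) x - x ∈ (intE544 A' E).nonunits := by
    intro x hx
    rw [mem_nonunits_intE544 A' hAmem E]
    have hx1 := (mem_intE544 A' hAmem E x).1 hx
    have h1 : ‖((resHom q V E ⟨φ, hφ.1⟩ x - x ^ q ^ f : E) : PadicAlgCl q)‖ < 1 := by
      have e : ((resHom q V E ⟨φ, hφ.1⟩ x - x ^ q ^ f : E) : PadicAlgCl q) =
          φ (x : PadicAlgCl q) - (x : PadicAlgCl q) ^ q ^ f := by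
        rw [AddSubgroupClass.coe_sub, SubmonoidClass.coe_pow, resHom_apply_coe]
      rw [e]
      exact hfrob _ hx1
    have h2 : ‖((φ' x - x ^ q ^ f : E) : PadicAlgCl q)‖ < 1 := by
      have := hfr x hx
      rw [hcard, mem_nonunits_intE544 A' hAmem E] at this
      exact this
    have h3 : ‖((resHom q V E ⟨φ, hφ.1⟩ x - φ' x : E) : PadicAlgCl q)‖ < 1 := by
      have e : ((resHom q V E ⟨φ, hφ.1⟩ x - φ' x : E) : PadicAlgCl q) =
          ((resHom q V E ⟨φ, hφ.1⟩ x - x ^ q ^ f : E) : PadicAlgCl q) -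
            ((φ' x - x ^ q ^ f : E) : PadicAlgCl q) := by
        simp only [AddSubgroupClass.coe_sub]
        ring
      rw [e]
      exact norm_sub_lt_one544 q h1 h2
    have h4 : (φ'⁻¹ * resHom q V E ⟨φ, hφ.1⟩) x - x =
        φ'⁻¹ (resHom q V E ⟨φ, hφ.1⟩ x - φ' x) := by
      rw [map_sub, AlgEquiv.mul_apply]
      congr 1
      exact (φ'.symm_apply_apply x).symm
    rw [h4, norm_algEquiv544 q V hfix E φ'⁻¹]
    exact h3
  have h5 := L.UnrInv.unramifiedInertia775 (fixedFld q V) E hunr (intE544 A' E)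
    (isLocalRingOfIntegers_intE544 A' E) _ hg
  exact inv_mul_eq_one.1 h5

end Dict

end Fermat.Agent.S55.G.Rec.Loc.H544

end
end
-- ===== PACK-END S55/G/Rec/Loc/UnifH544/Local.lean

-- ===== PACK-BEGIN S55/G/Rec/Loc/H483/UnramLevel.lean
section


/-!
# S55 / G / REC / LOC : the unramified level inside a finite Galois level   (helper483)

`unramLevel_of (hO : OpenSpec) : UnramLevelSpec` — for `V` open and `E / K_V` a finite Galois
level, the fixed field `E₀` of the inertia subgroup of `Gal(E/K_V)` is a finite Galois level,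
unramified over `K_V` (`Local.IsUnram ℤ_[q] ℚ_[q] E₀ K_V`), and `w ∈ V` is trivial on `E₀` iff
`w = i * n` with `i` inertial and `n` trivial on `E`.
-/

set_option autoImplicit false
set_option linter.unusedSectionVars false
set_option linter.style.haveILetI false

noncomputable section

namespace Fermat.Agent.S55.G.Rec.Loc.H483

open Fermat.Agent.S55.G.Rec Fermat.Agent.S55.G.Rec.Loc Fermat.Agent.S55.Local

section

variable (q : ℕ) [Fact q.Prime] (V : Subgroup (PadicAlgCl q ≃ₐ[ℚ_[q]] PadicAlgCl q))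

/-- the restriction of an inertial element to a level is inertial on the level -/
lemma isInertialOn_resHom (E : IntermediateField (fixedFld q V) (PadicAlgCl q))
    [Normal (fixedFld q V) E] (i : ↥V)
    (hi : IsInertial q (i : PadicAlgCl q ≃ₐ[ℚ_[q]] PadicAlgCl q)) :
    IsInertialOn q V E (resHom q V E i) := by
  intro x hx
  rw [resHom_apply_coe]
  exact hi x hx

/-- `resHom q V E w = 1` iff `w` fixes `E` pointwise -/
lemma resHom_eq_one_iff (E : IntermediateField (fixedFld q V) (PadicAlgCl q))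
    [Normal (fixedFld q V) E] (w : ↥V) :
    resHom q V E w = 1 ↔
      ∀ x ∈ E, (w : PadicAlgCl q ≃ₐ[ℚ_[q]] PadicAlgCl q) x = x := by
  constructor
  · intro h x hx
    have := resHom_apply_coe q V E w ⟨x, hx⟩
    rw [h] at this
    exact this.symm
  · intro h
    ext x
    rw [resHom_apply_coe]
    exact h x x.2

end

/-- **LOC-INERT3** the unramified level. -/
theorem unramLevel_of (hO : OpenSpec) : UnramLevelSpec := by
  intro q _ V hV E _ _
  obtain ⟨hfin, hfix⟩ := hO q V hV
  haveI := hfin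
  obtain ⟨I, hInormal, hmem, hcard⟩ :=
    Local.H483.exists_inertia ℤ_[q] ℚ_[q] (fixedFld q V) E
  haveI := hInormal
  have hmem' : ∀ σ : E ≃ₐ[fixedFld q V] E, σ ∈ I ↔ IsInertialOn q V E σ := by
    intro σ
    rw [hmem]
    constructor
    · intro h x hx
      have := h x ((isInt_level_iff q (fixedFld q V) E x).2 hx)
      rwa [inMax_level_iff] at this
    · intro h x hx
      rw [inMax_level_iff]
      exact h x ((isInt_level_iff q (fixedFld q V) E x).1 hx)
  let E₀' : IntermediateField (fixedFld q V) E := IntermediateField.fixedField I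
  let E₀ : IntermediateField (fixedFld q V) (PadicAlgCl q) := IntermediateField.lift E₀'
  have hle : E₀ ≤ E := IntermediateField.lift_le E₀'
  haveI : IsGalois (fixedFld q V) E₀' := IsGalois.of_fixedField_normal_subgroup I
  haveI : IsGalois (fixedFld q V) E₀ := IsGalois.of_algEquiv (IntermediateField.liftAlgEquiv E₀')
  haveI : FiniteDimensional (fixedFld q V) E₀ :=
    Module.Finite.equiv (IntermediateField.liftAlgEquiv E₀').toLinearEquiv
  -- membership in `E₀`
  have hE₀ : ∀ x : E, (x : PadicAlgCl q) ∈ E₀ ↔ ∀ σ ∈ I, σ x = x := by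
    intro x
    rw [IntermediateField.mem_lift]
    exact IntermediateField.mem_fixedField_iff I x
  -- `σ ∈ I` iff `σ` fixes `E₀`
  have hfixI : ∀ σ : E ≃ₐ[fixedFld q V] E,
      σ ∈ I ↔ ∀ x : E, (x : PadicAlgCl q) ∈ E₀ → σ x = x := by
    intro σ
    constructor
    · intro hσ x hx
      exact (hE₀ x).1 hx σ hσ
    · intro h
      rw [← IntermediateField.fixingSubgroup_fixedField I,
        IntermediateField.mem_fixingSubgroup_iff]
      intro x hx
      exact h x ((IntermediateField.mem_lift x).2 hx)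
  refine ⟨E₀, inferInstance, inferInstance, hle, ?_, ?_⟩
  · -- unramified
    letI : Algebra E₀ E := (IntermediateField.inclusion hle).toAlgebra
    haveI : IsScalarTower (fixedFld q V) E₀ E := IsScalarTower.of_algebraMap_eq (fun _ => rfl)
    haveI : IsScalarTower ℚ_[q] E₀ E := IsScalarTower.of_algebraMap_eq (fun _ => rfl)
    have hH : ∀ σ : E ≃ₐ[fixedFld q V] E,
        σ ∈ I ↔ ∀ x : E₀, σ (algebraMap E₀ E x) = algebraMap E₀ E x := by
      intro σ
      rw [hfixI]
      constructor
      · intro h x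
        exact h (algebraMap E₀ E x) x.2
      · intro h x hx
        exact h ⟨(x : PadicAlgCl q), hx⟩
    exact ((Local.H483.tower_inertia ℤ_[q] ℚ_[q] (fixedFld q V) E E₀ I hmem hcard I hH).2).2
      le_rfl
  · -- the kernel of `V → Gal(E₀ / K_V)`
    intro w
    constructor
    · intro hw
      have hw' := (resHom_eq_one_iff q V E₀ w).1 hw
      have hιI : resHom q V E w ∈ I := by
        rw [hfixI]
        intro x hx
        apply Subtype.ext
        rw [resHom_apply_coe]
        exact hw' x hx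
      obtain ⟨i, hi, hiι⟩ := inertiaLift_of hO q V hV E (resHom q V E w) ((hmem' _).1 hιI)
      refine ⟨i, i⁻¹ * w, hi, ?_, ?_⟩
      · rw [map_mul, map_inv, hiι, inv_mul_cancel]
      · rw [mul_inv_cancel_left]
    · rintro ⟨i, n, hi, hn, rfl⟩
      rw [map_mul]
      have h1 : resHom q V E₀ n = 1 := by
        rw [resHom_eq_one_iff]
        intro x hx
        exact (resHom_eq_one_iff q V E n).1 hn x (hle hx)
      have h2 : resHom q V E₀ i = 1 := by
        rw [resHom_eq_one_iff]
        intro x hx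
        have hiI : resHom q V E i ∈ I := (hmem' _).2 (isInertialOn_resHom q V E i hi)
        have := (hfixI _).1 hiI ⟨x, hle hx⟩ hx
        have h3 := congrArg (fun z : E => (z : PadicAlgCl q)) this
        simp only [resHom_apply_coe] at h3
        exact h3
      rw [h1, h2, mul_one]

end Fermat.Agent.S55.G.Rec.Loc.H483

end
end
-- ===== PACK-END S55/G/Rec/Loc/H483/UnramLevel.lean

-- ===== PACK-BEGIN S55/Cap/HasMuH181.lean
section



/-!
# S55 / layer K, input A8 (CAP), leaf HASMU (helper181)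

`hasMu : HasMuSpec p S` — if `U_L = Gal(ℚ̄/F)` acts trivially on `μ = ofChar (cycloChar p)` then
`μ_p ⊂ F`: the cyclotomic character is trivial on `U_L`, so `U_L` fixes a primitive `p`-th root of
unity `ζ`, and `ζ ∈ F` by the Galois correspondence.
-/

set_option autoImplicit false

noncomputable section

namespace Fermat.Agent.S55.Cap.H181

open Fermat.Agent.S55.PT Fermat.Agent.S55.Tow groupCohomology ExtCitation

/-- If `σ` acts trivially on `ofChar (cycloChar p)` then `cycloChar p σ = 1`. -/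
lemma cycloChar_eq_one_of_mu_ρ (p : ℕ) [Fact p.Prime] (s : Tow.GQ) (h : (mu p).ρ s = 1) :
    cycloChar p s = 1 := by
  have h2 : (mu p).ρ s (1 : ZMod p) = (1 : ZMod p) := by
    rw [h]
    rfl
  have h3 : ((cycloChar p s : (ZMod p)ˣ) : ZMod p) * 1 = 1 := h2
  rw [mul_one] at h3
  exact Units.ext h3

/-- **A8-HASMU.** -/
theorem hasMu (p : ℕ) [Fact p.Prime] (S : Finset Nat.Primes) : HasMuSpec p S := by
  intro L hL
  have hp : p.Prime := Fact.out
  haveI : NeZero p := ⟨hp.ne_zero⟩
  obtain ⟨ζ, hζ⟩ : ∃ ζ : AlgebraicClosure ℚ, IsPrimitiveRoot ζ p :=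
    HasEnoughRootsOfUnity.exists_primitiveRoot (AlgebraicClosure ℚ) p
  refine ⟨ζ, ?_, hζ⟩
  haveI := Fermat.Agent.S55.Bridge.isAlgebraic_Qbar
  haveI := Fermat.Agent.S55.Bridge.isGalois_Qbar
  have hmem : ζ ∈ IntermediateField.fixedField L.F.fixingSubgroup := by
    rintro ⟨s, hs⟩
    show s ζ = ζ
    have hχ : cycloChar p s = 1 := cycloChar_eq_one_of_mu_ρ p s (hL s hs)
    obtain ⟨t, rfl⟩ := hζ.isUnit hp.ne_zero
    refine (Fermat.Agent.S55.Bridge.cycloChar_eq_one_iff p s).1 hχ t ?_
    rw [mem_rootsOfUnity]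
    apply Units.ext
    rw [Units.val_pow_eq_pow_val, Units.val_one]
    exact hζ.pow_eq_one
  rwa [InfiniteGalois.fixedField_fixingSubgroup L.F] at hmem

end Fermat.Agent.S55.Cap.H181

end
end
-- ===== PACK-END S55/Cap/HasMuH181.lean

-- ===== PACK-BEGIN S55/E1/H603/E2Map.lean
section
/-
S55 / engine E1 / block LIM, leaf LIM5 (helper603): coefficient functoriality of `𝔈²` and the
Shapiro comparison `ker(𝔈²_G(E) → 𝔈²_G(Coind X)) = ker(tr_φ : 𝔈²_G(E) → 𝔈²_D(X))`.

* `e2Map N f : 𝔈²(X) → 𝔈²(Y)` for `f : X ⟶ Y`;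
* `trE2_comp_e2Map` : `tr_{π, ν, f ≫ ι} = tr_{π, ν, ι} ∘ f_*`;
* `ALG12Spec` : (Shapiro on `𝔈²`) `tr_{φ, 𝟙, ev₁} : 𝔈²_G(Coind_φ X) → 𝔈²_D(X)` is injective
  for `φ : D →* G` injective, `G` finite;
* `e2Map_eq_zero_iff` : consequence for a morphism `E ⟶ Coind_φ X`.
No sorry.
-/



set_option autoImplicit false

open CategoryTheory CategoryTheory.Limits groupCohomology

namespace Fermat.Agent.S55.E1.H603

open Fermat.Agent.S55.E1
open Fermat.Agent.S55.T.H719 (ihomLin)

noncomputable section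

variable {G G' : Type} [Group G] [Group G']

/-- The formula for `groupCohomology.map` in degree one on classes of cocycles. -/
theorem map_H1π (π : G' →* G) {A : Rep.{0} ℤ G} {B : Rep.{0} ℤ G'} (φ : Rep.res π A ⟶ B)
    (c : cocycles₁ A) :
    (groupCohomology.map π φ 1).hom ((H1π A).hom c) =
      (H1π B).hom ((mapCocycles₁ π φ).hom c) :=
  H1π_comp_map_apply (A := A) (B := B) π φ c

/-- The formula for `groupCohomology.map` in degree two on classes of cocycles. -/
theorem map_H2π (π : G' →* G) {A : Rep.{0} ℤ G} {B : Rep.{0} ℤ G'} (φ : Rep.res π A ⟶ B)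
    (c : cocycles₂ A) :
    (groupCohomology.map π φ 2).hom ((H2π A).hom c) =
      (H2π B).hom ((mapCocycles₂ π φ).hom c) := by
  have hcomp := congrArg (fun ψ => ψ.hom c) (H2π_comp_map (A := A) (B := B) π φ)
  simp only [ModuleCat.hom_comp, LinearMap.comp_apply] at hcomp
  exact hcomp

/-- `f_* : 𝔈²(X) → 𝔈²(Y)` for a morphism of coefficient modules `f : X ⟶ Y`. -/
def e2Map (N : Rep.{0} ℤ G) {X Y : Rep.{0} ℤ G} (f : X ⟶ Y) : E2 N X →ₗ[ℤ] E2 N Y :=
  (groupCohomology.map (MonoidHom.id G) ((Rep.ihom (stdR N)).map f) 1).hom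

theorem e2Map_H1π (N : Rep.{0} ℤ G) {X Y : Rep.{0} ℤ G} (f : X ⟶ Y)
    (c : cocycles₁ ((Rep.ihom (stdR N)).obj X)) :
    e2Map N f ((H1π _).hom c) =
      (H1π ((Rep.ihom (stdR N)).obj Y)).hom
        ((mapCocycles₁ (MonoidHom.id G) ((Rep.ihom (stdR N)).map f)).hom c) := by
  unfold e2Map
  exact map_H1π (A := (Rep.ihom (stdR N)).obj X) (B := (Rep.ihom (stdR N)).obj Y)
    (MonoidHom.id G) ((Rep.ihom (stdR N)).map f) c

theorem trE2_H1π (π : G' →* G) {N : Rep.{0} ℤ G} {N' : Rep.{0} ℤ G'} (ν : N' ⟶ Rep.res π N)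
    {X : Rep.{0} ℤ G} {X' : Rep.{0} ℤ G'} (ι : Rep.res π X ⟶ X')
    (c : cocycles₁ ((Rep.ihom (stdR N)).obj X)) :
    trE2 π ν ι ((H1π _).hom c) =
      (H1π ((Rep.ihom (stdR N')).obj X')).hom
        ((mapCocycles₁ π (trIhom π (trR π ν) ι)).hom c) := by
  unfold trE2
  exact map_H1π (A := (Rep.ihom (stdR N)).obj X) (B := (Rep.ihom (stdR N')).obj X')
    π (trIhom π (trR π ν) ι) c

/-- `tr_{π, ν, f ≫ ι} = tr_{π, ν, ι} ∘ f_*`. -/
theorem trE2_comp_e2Map (π : G' →* G) {N : Rep.{0} ℤ G} {N' : Rep.{0} ℤ G'}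
    (ν : N' ⟶ Rep.res π N) {X Y : Rep.{0} ℤ G} {X' : Rep.{0} ℤ G'} (f : X ⟶ Y)
    (ι : Rep.res π Y ⟶ X') (y : E2 N X) :
    trE2 π ν ((Rep.resFunctor π).map f ≫ ι) y = trE2 π ν ι (e2Map N f y) := by
  induction y using H1_induction_on with | @h c =>
  rw [trE2_H1π, e2Map_H1π, trE2_H1π]
  rfl

/-- **ALG12 (Shapiro on `𝔈²`).** For `φ : D →* G` injective (`G` finite) and a `D`-module `X`,
the map `tr_{φ, 𝟙, ev₁} : 𝔈²_G(Coind_φ X) → 𝔈²_D(X)` (restriction to `D`, evaluation at `1`,
restriction to the standard presentation of `N|_D`) is injective. -/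
def ALG12Spec : Prop :=
  ∀ (G D : Type) [Group G] [Group D] [Finite G] (φ : D →* G), Function.Injective φ →
    ∀ (N : Rep.{0} ℤ G) (X : Rep.{0} ℤ D),
      Function.Injective
        (trE2 φ (𝟙 (Rep.res φ N)) (H173.ev1Hom φ X) :
          E2 N (Rep.coind φ X) → E2 (Rep.res φ N) X)

/-- Consequence of ALG12: for `d : E ⟶ Coind_φ X` with `ev₁ ∘ d = emb`, the kernel of
`d_* : 𝔈²_G(E) → 𝔈²_G(Coind_φ X)` is the kernel of `tr_{φ, 𝟙, emb} : 𝔈²_G(E) → 𝔈²_D(X)`. -/
theorem e2Map_eq_zero_iff (h12 : ALG12Spec) {D : Type} [Group D] [Finite G] (φ : D →* G)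
    (hφ : Function.Injective φ) (N E : Rep.{0} ℤ G) (X : Rep.{0} ℤ D)
    (d : E ⟶ Rep.coind φ X) (emb : Rep.res φ E ⟶ X)
    (hemb : (Rep.resFunctor φ).map d ≫ H173.ev1Hom φ X = emb) (y : E2 N E) :
    e2Map N d y = 0 ↔ trE2 φ (𝟙 (Rep.res φ N)) emb y = 0 := by
  rw [← hemb, trE2_comp_e2Map]
  constructor
  · intro h
    rw [h, map_zero]
  · intro h
    exact h12 G D φ hφ N X (by rw [h, map_zero])

end

end Fermat.Agent.S55.E1.H603

end
-- ===== PACK-END S55/E1/H603/E2Map.lean

-- ===== PACK-BEGIN S55/ColH543/Shapiro.lean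
section



/-!
# S55 / colimit dictionary (helper543), part 4: finite Shapiro for `Ind_V A` in `HL` form

`A : Rep k G`, `V ≤ G` of finite index, `ρ` the diagonal action on `Ind_V A = (G ⧸ V →₀ A)`
(`KC.H475.IsDiag`; e.g. `K.indG V A`).  For a normal subgroup `U ≤ V` of `G`:

* `shapHL : Hⁿ(G ⧸ U, (Ind_V A)^U) ⟶ Hⁿ(V ⧸ (U ∩ V), (A|_V)^{U ∩ V})` (restriction to `V` followed
  by evaluation at the trivial coset) is bijective (`shapHL_bijective`, from `KC.H475.shapiro_ind`)
  and commutes with inflation (`shapHL_infl`);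
* hence the finite-level systems of `(G, Ind_V A)` and of `(V, A|_V)` have the same colimit:
  `effAll_ind_iff`, `effTors_ind_iff`, `effDiv_ind_iff`.
-/

set_option autoImplicit false
set_option linter.style.haveILetI false

noncomputable section

open groupCohomology CategoryTheory

namespace Fermat.Agent.S55.ColH543

open Fermat.Agent.S55.PT Fermat.Agent.S55.KL Fermat.Agent.S55.KC.H475

variable {k : Type} [CommRing k] {G : Type} [Group G]

section Transport

variable (A : Rep.{0, 0, 0} k G) (V U : Subgroup G) [U.Normal]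

/-- The isomorphism `V ⧸ (U ∩ V) → image of V in G ⧸ U`, as a homomorphism. -/
def toImage : ↥V ⧸ U.subgroupOf V →* ↥(V.map (QuotientGroup.mk' U)) :=
  (H543.quotIncl V U).codRestrict (V.map (QuotientGroup.mk' U)) fun x => by
    induction x using QuotientGroup.induction_on with
    | H v => exact ⟨(v : G), v.2, rfl⟩

@[simp] lemma toImage_coe (x : ↥V ⧸ U.subgroupOf V) :
    ((toImage V U x : ↥(V.map (QuotientGroup.mk' U))) : G ⧸ U) = H543.quotIncl V U x := rfl

lemma toImage_bijective : Function.Bijective (toImage V U) := by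
  constructor
  · intro x y h
    exact H543.quotIncl_injective V U (congrArg Subtype.val h)
  · rintro ⟨_, g, hg, rfl⟩
    exact ⟨((⟨g, hg⟩ : V) : ↥V ⧸ U.subgroupOf V), rfl⟩

/-- The isomorphism `image of V in G ⧸ U ≃ V ⧸ (U ∩ V)`. -/
def imageEquiv : ↥(V.map (QuotientGroup.mk' U)) ≃* ↥V ⧸ U.subgroupOf V :=
  (MulEquiv.ofBijective (toImage V U) (toImage_bijective V U)).symm

lemma imageEquiv_toImage (x : ↥V ⧸ U.subgroupOf V) : imageEquiv V U (toImage V U x) = x :=
  (MulEquiv.ofBijective (toImage V U) (toImage_bijective V U)).symm_apply_apply x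

lemma imageEquiv_symm_apply (x : ↥V ⧸ U.subgroupOf V) :
    (imageEquiv V U).symm x = toImage V U x := rfl

/-- `A^U ≃ (A|_V)^{U ∩ V}` for `U ≤ V`. -/
def invEquiv (hUV : U ≤ V) :
    ↥(Representation.invariants (A.ρ.comp U.subtype)) ≃ₗ[k]
      ↥(Representation.invariants ((Rep.res V.subtype A).ρ.comp (U.subgroupOf V).subtype)) where
  toFun a := ⟨a.1, fun w => a.2 ⟨(w.1 : G), Subgroup.mem_subgroupOf.1 w.2⟩⟩
  invFun b := ⟨b.1, fun w => b.2 ⟨⟨w.1, hUV w.2⟩, Subgroup.mem_subgroupOf.2 w.2⟩⟩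
  left_inv _ := rfl
  right_inv _ := rfl
  map_add' _ _ := rfl
  map_smul' _ _ := rfl

/-- The transport isomorphism `Hⁿ(image of V, A^U) ≅ Hⁿ(V ⧸ (U ∩ V), (A|_V)^{U ∩ V})`. -/
def transportIso (hUV : U ≤ V) (n : ℕ) :
    groupCohomology (Rep.res (V.map (QuotientGroup.mk' U)).subtype (A.quotientToInvariants U)) n ≅
      HL (Rep.res V.subtype A) (U.subgroupOf V) n :=
  groupCohomology.mapIso (imageEquiv V U) (invEquiv A V U hUV) (fun g => by
    obtain ⟨x, rfl⟩ := (toImage_bijective V U).2 g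
    rw [imageEquiv_toImage]
    induction x using QuotientGroup.induction_on with
    | H v =>
      ext a
      rfl) n

lemma transportIso_hom_bijective (hUV : U ≤ V) (n : ℕ) :
    Function.Bijective (transportIso A V U hUV n).hom.hom :=
  ConcreteCategory.bijective_of_isIso (transportIso A V U hUV n).hom

end Transport

/-! ## The Shapiro map in `HL` form -/

section Shapiro

variable (A : Rep.{0, 0, 0} k G) (V : Subgroup G) (ρ : IndRepr A V)

/-- Evaluation at the trivial coset, `Ind_V A → A`, a morphism of representations of `V`. -/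
def evOne (hρ : IsDiag A V ρ) : Rep.res V.subtype (Rep.of ρ) ⟶ Rep.res V.subtype A :=
  Rep.ofHom ⟨Finsupp.lapply ((1 : G) : G ⧸ V), fun v => by
    refine LinearMap.ext fun b => ?_
    show (ρ (v : G) b) ((1 : G) : G ⧸ V) = A.ρ (v : G) (b ((1 : G) : G ⧸ V))
    rw [hρ.apply]
    have h : (v : G)⁻¹ • ((1 : G) : G ⧸ V) = ((1 : G) : G ⧸ V) :=
      smul_one_coset_eq_of_mem (V.inv_mem v.2)
    rw [h]⟩

@[simp] lemma evOne_hom_apply (hρ : IsDiag A V ρ) (b : (G ⧸ V) →₀ A.V) :
    (evOne A V ρ hρ).hom b = b ((1 : G) : G ⧸ V) := rfl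

/-- **The Shapiro map** `Hⁿ(G ⧸ U, (Ind_V A)^U) → Hⁿ(V ⧸ (U ∩ V), (A|_V)^{U ∩ V})`. -/
def shapHL (hρ : IsDiag A V ρ) (U : Subgroup G) [U.Normal] (n : ℕ) :
    HL (Rep.of ρ) U n ⟶ HL (Rep.res V.subtype A) (U.subgroupOf V) n :=
  HLmap V.subtype (W := U) (W' := U.subgroupOf V) le_rfl (evOne A V ρ hρ) n

/-- The Shapiro map factors through helper475's Shapiro isomorphism. -/
lemma shapHL_eq (hρ : IsDiag A V ρ) (U : Subgroup G) [U.Normal] (hUV : U ≤ V) (n : ℕ) :
    shapHL A V ρ hρ U n =
      groupCohomology.map (V.map (QuotientGroup.mk' U)).subtype (shapPi hρ U hUV) n ≫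
        (transportIso A V U hUV n).hom := by
  unfold shapHL HLmap transportIso
  rw [groupCohomology.mapIso_hom, ← groupCohomology.map_comp]
  refine groupCohomology.map_congr ?_ ?_ n
  · ext x
    rfl
  · ext b
    rfl

/-- **Finite Shapiro in `HL` form.** -/
theorem shapHL_bijective [Finite (G ⧸ V)] (hρ : IsDiag A V ρ) (U : Subgroup G) [U.Normal]
    (hUV : U ≤ V) (n : ℕ) :
    Function.Bijective (shapHL A V ρ hρ U n).hom := by
  rw [shapHL_eq A V ρ hρ U hUV n]
  exact (transportIso_hom_bijective A V U hUV n).comp (shapiro_ind hρ U hUV n)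

/-- The Shapiro map commutes with inflation. -/
lemma shapHL_infl (hρ : IsDiag A V ρ) {U' U : Subgroup G} [U'.Normal] [U.Normal] (h : U' ≤ U)
    (n : ℕ)
    (y : HL (Rep.of ρ) U n) :
    (shapHL A V ρ hρ U' n).hom ((infl (Rep.of ρ) h n).hom y) =
      (infl (Rep.res V.subtype A) (W' := U'.subgroupOf V) (W := U.subgroupOf V)
        (fun _ hx => h hx) n).hom ((shapHL A V ρ hρ U n).hom y) := by
  have e : infl (Rep.of ρ) h n ≫ shapHL A V ρ hρ U' n =
      shapHL A V ρ hρ U n ≫ infl (Rep.res V.subtype A) (W' := U'.subgroupOf V)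
        (W := U.subgroupOf V) (fun _ hx => h hx) n := by
    have e1 := H543.HLmap_comp (B := Rep.of ρ) (B' := Rep.of ρ) (B'' := Rep.res V.subtype A)
      (MonoidHom.id G) V.subtype (W := U) (W' := U') (W'' := U'.subgroupOf V)
      (by simpa using h) le_rfl (𝟙 (Rep.of ρ)) (evOne A V ρ hρ) n
    have e2 := H543.HLmap_comp (B := Rep.of ρ) (B' := Rep.res V.subtype A)
      (B'' := Rep.res V.subtype A)
      V.subtype (MonoidHom.id ↥V) (W := U) (W' := U.subgroupOf V) (W'' := U'.subgroupOf V)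
      le_rfl (fun _ hx => h hx) (evOne A V ρ hρ) (𝟙 (Rep.res V.subtype A)) n
    exact e1.trans ((H543.HLmap_congr _ _ _ _ rfl (fun b => rfl) n).trans e2.symm)
  exact congrArg (fun f => f.hom y) e

end Shapiro

/-! ## The colimits over the levels of `G` and of `V` agree -/

section Eff

variable (N : NLevels G) (A : Rep.{0, 0, 0} k G) (V : Subgroup G) (ρ : IndRepr A V)

/-- A level of `N` below a level of `N` and below a level `W.subgroupOf V` of `N.restrict V`. -/
lemma exists_lvl_le (V₀ U₁ : N.Lvl) (X : (N.restrict V).Lvl) :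
    ∃ U : N.Lvl, U.W ≤ V₀.W ∧ U.W ≤ U₁.W ∧ U.W.subgroupOf V ≤ X.W := by
  obtain ⟨W, hW, hXW⟩ := X.mem
  obtain ⟨U₂, h1, h2⟩ := N.exists_le V₀ U₁
  obtain ⟨U, h3, h4⟩ := N.exists_le U₂ ⟨W, hW⟩
  refine ⟨U, h3.trans h1, h3.trans h2, ?_⟩
  rw [hXW]
  exact fun _ hx => h4 hx

variable [Finite (G ⧸ V)] (hρ : IsDiag A V ρ) (V₀ : N.Lvl) (hV₀ : V₀.W ≤ V)
include hρ hV₀

/-- **`colim_U Hⁿ(G ⧸ U, (Ind_V A)^U) = 0` iff `colim_U Hⁿ(V ⧸ U, A^U) = 0`.** -/
theorem effAll_ind_iff (n : ℕ) :
    EffAll N (Rep.of ρ) n ↔ EffAll (N.restrict V) (Rep.res V.subtype A) n := by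
  constructor
  · intro H X y
    obtain ⟨U, hUV₀, -, hUX⟩ := exists_lvl_le N V V₀ V₀ X
    have hUV : U.W ≤ V := hUV₀.trans hV₀
    obtain ⟨x, hx⟩ := (shapHL_bijective A V ρ hρ U.W hUV n).2
      ((infl (Rep.res V.subtype A) hUX n).hom y)
    obtain ⟨U', h', hx'⟩ := H U x
    have hsub : U'.W.subgroupOf V ≤ U.W.subgroupOf V := fun _ hz => h' hz
    refine ⟨U'.restrict V, hsub.trans hUX, ?_⟩
    have e1 := shapHL_infl A V ρ hρ h' n x
    rw [hx', map_zero, hx] at e1
    exact (H543.infl_infl (Rep.res V.subtype A) hsub hUX n y).symm.trans e1.symm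
  · intro H U₁ x
    obtain ⟨U, hUV₀, hUU₁⟩ := N.exists_le V₀ U₁
    have hUV : U.W ≤ V := hUV₀.trans hV₀
    obtain ⟨X', hX', hy⟩ := H (U.restrict V)
      ((shapHL A V ρ hρ U.W n).hom ((infl (Rep.of ρ) hUU₁ n).hom x))
    obtain ⟨U', -, hU'U, hU'X⟩ := exists_lvl_le N V V₀ U X'
    refine ⟨U', hU'U.trans hUU₁, ?_⟩
    rw [← H543.infl_infl (Rep.of ρ) hU'U hUU₁ n x]
    apply (shapHL_bijective A V ρ hρ U'.W (hU'U.trans hUV) n).1
    rw [map_zero, shapHL_infl A V ρ hρ hU'U n]
    have e1 := H543.infl_infl (Rep.res V.subtype A) hU'X hX' n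
      ((shapHL A V ρ hρ U.W n).hom ((infl (Rep.of ρ) hUU₁ n).hom x))
    rw [hy, map_zero] at e1
    exact e1.symm

/-- **`colim_U Hⁿ(G ⧸ U, (Ind_V A)^U)[p] = 0` iff `colim_U Hⁿ(V ⧸ U, A^U)[p] = 0`.** -/
theorem effTors_ind_iff (p n : ℕ) :
    EffTors N (Rep.of ρ) p n ↔ EffTors (N.restrict V) (Rep.res V.subtype A) p n := by
  constructor
  · intro H X y hpy
    obtain ⟨U, hUV₀, -, hUX⟩ := exists_lvl_le N V V₀ V₀ X
    have hUV : U.W ≤ V := hUV₀.trans hV₀
    obtain ⟨x, hx⟩ := (shapHL_bijective A V ρ hρ U.W hUV n).2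
      ((infl (Rep.res V.subtype A) hUX n).hom y)
    have hpx : p • x = 0 := by
      apply (shapHL_bijective A V ρ hρ U.W hUV n).1
      rw [map_nsmul, hx, ← map_nsmul, hpy, map_zero, map_zero]
    obtain ⟨U', h', hx'⟩ := H U x hpx
    have hsub : U'.W.subgroupOf V ≤ U.W.subgroupOf V := fun _ hz => h' hz
    refine ⟨U'.restrict V, hsub.trans hUX, ?_⟩
    have e1 := shapHL_infl A V ρ hρ h' n x
    rw [hx', map_zero, hx] at e1
    exact (H543.infl_infl (Rep.res V.subtype A) hsub hUX n y).symm.trans e1.symm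
  · intro H U₁ x hpx
    obtain ⟨U, hUV₀, hUU₁⟩ := N.exists_le V₀ U₁
    have hUV : U.W ≤ V := hUV₀.trans hV₀
    have hpy : p • (shapHL A V ρ hρ U.W n).hom ((infl (Rep.of ρ) hUU₁ n).hom x) = 0 := by
      rw [← map_nsmul, ← map_nsmul, hpx, map_zero, map_zero]
    obtain ⟨X', hX', hy⟩ := H (U.restrict V)
      ((shapHL A V ρ hρ U.W n).hom ((infl (Rep.of ρ) hUU₁ n).hom x)) hpy
    obtain ⟨U', -, hU'U, hU'X⟩ := exists_lvl_le N V V₀ U X'
    refine ⟨U', hU'U.trans hUU₁, ?_⟩
    rw [← H543.infl_infl (Rep.of ρ) hU'U hUU₁ n x]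
    apply (shapHL_bijective A V ρ hρ U'.W (hU'U.trans hUV) n).1
    rw [map_zero, shapHL_infl A V ρ hρ hU'U n]
    have e1 := H543.infl_infl (Rep.res V.subtype A) hU'X hX' n
      ((shapHL A V ρ hρ U.W n).hom ((infl (Rep.of ρ) hUU₁ n).hom x))
    rw [hy, map_zero] at e1
    exact e1.symm

/-- **`colim_U Hⁿ(G ⧸ U, (Ind_V A)^U) ⊗ ℤ/p = 0` iff `colim_U Hⁿ(V ⧸ U, A^U) ⊗ ℤ/p = 0`.** -/
theorem effDiv_ind_iff (p n : ℕ) :
    EffDiv N (Rep.of ρ) p n ↔ EffDiv (N.restrict V) (Rep.res V.subtype A) p n := by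
  constructor
  · intro H X y
    obtain ⟨U, hUV₀, -, hUX⟩ := exists_lvl_le N V V₀ V₀ X
    have hUV : U.W ≤ V := hUV₀.trans hV₀
    obtain ⟨x, hx⟩ := (shapHL_bijective A V ρ hρ U.W hUV n).2
      ((infl (Rep.res V.subtype A) hUX n).hom y)
    obtain ⟨U', h', w, hw⟩ := H U x
    have hsub : U'.W.subgroupOf V ≤ U.W.subgroupOf V := fun _ hz => h' hz
    refine ⟨U'.restrict V, hsub.trans hUX, (shapHL A V ρ hρ U'.W n).hom w, ?_⟩
    have e1 := shapHL_infl A V ρ hρ h' n x
    rw [hw, map_nsmul, hx] at e1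
    exact (H543.infl_infl (Rep.res V.subtype A) hsub hUX n y).symm.trans e1.symm
  · intro H U₁ x
    obtain ⟨U, hUV₀, hUU₁⟩ := N.exists_le V₀ U₁
    have hUV : U.W ≤ V := hUV₀.trans hV₀
    obtain ⟨X', hX', w', hw'⟩ := H (U.restrict V)
      ((shapHL A V ρ hρ U.W n).hom ((infl (Rep.of ρ) hUU₁ n).hom x))
    obtain ⟨U', -, hU'U, hU'X⟩ := exists_lvl_le N V V₀ U X'
    obtain ⟨w, hw⟩ := (shapHL_bijective A V ρ hρ U'.W (hU'U.trans hUV) n).2
      ((infl (Rep.res V.subtype A) hU'X n).hom w')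
    refine ⟨U', hU'U.trans hUU₁, w, ?_⟩
    rw [← H543.infl_infl (Rep.of ρ) hU'U hUU₁ n x]
    apply (shapHL_bijective A V ρ hρ U'.W (hU'U.trans hUV) n).1
    rw [map_nsmul, hw, shapHL_infl A V ρ hρ hU'U n]
    have e1 := H543.infl_infl (Rep.res V.subtype A) hU'X hX' n
      ((shapHL A V ρ hρ U.W n).hom ((infl (Rep.of ρ) hUU₁ n).hom x))
    rw [hw', map_nsmul] at e1
    exact e1.symm

end Eff

end Fermat.Agent.S55.ColH543

end

end
-- ===== PACK-END S55/ColH543/Shapiro.lean

-- ===== PACK-BEGIN S55/K/KummerH724.lean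
section


/-!
# S55 / layer K, leaf K-KUM : `KummerSpec`   (helper724)

An `S`-unit of `ℚ̄` fixed by an `S`-level has a `p`-th root which is an `S`-unit fixed by an
`S`-level (`p ∈ S`): if `y ^ p = x` and `σ` is in the inertia group of a place `A` over `q ∉ S`,
then `σ y / y` is a `p`-th root of unity congruent to `1` mod `𝔪_A`, hence `= 1` (`q ≠ p`).
-/

set_option autoImplicit false

noncomputable section

namespace Fermat.Agent.S55.K.H724

open groupCohomology Fermat.Agent.S55.PT Fermat.Agent.S55.K Fermat.Agent.S55.Bridge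

variable (p : ℕ) [Fact p.Prime] (S : Finset Nat.Primes)

/-- a valuation subring lying over a prime `q ∉ S` is outside `S` -/
lemma outsideS_of_liesOver {q : Nat.Primes} (hq : q ∉ S) {A : ValuationSubring Qbar}
    (hA : A.LiesOverPrime (q : ℕ)) : OutsideS S A := by
  intro q' hq' hA'
  have hne : (q : ℕ) ≠ (q' : ℕ) := by
    intro h
    apply hq
    have : q = q' := Subtype.ext h
    rw [this]
    exact hq'
  have h1 := val_prime_eq_one (A := A) hA q.2 q'.2 hne
  have h2 : A.valuation ((q' : ℕ) : Qbar) < 1 := (A.mem_nonunits_iff).mp hA'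
  rw [h1] at h2
  exact lt_irrefl _ h2

/-- the valuation of an `S`-unit at a place outside `S` is `1` -/
lemma val_eq_one_of_isSUnit {x : Qbarˣ} (hx : IsSUnit S x) {A : ValuationSubring Qbar}
    (hA : OutsideS S A) : A.valuation (x : Qbar) = 1 := by
  obtain ⟨h1, h2⟩ := hx A hA
  have h3 : A.valuation (x : Qbar) ≤ 1 := (A.valuation_le_one_iff _).2 h1
  have h4 : A.valuation ((x⁻¹ : Qbarˣ) : Qbar) ≤ 1 := (A.valuation_le_one_iff _).2 h2
  rw [Units.val_inv_eq_inv_val, map_inv₀] at h4
  have hx0 : A.valuation (x : Qbar) ≠ 0 := (A.valuation).ne_zero_iff.2 x.ne_zero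
  refine le_antisymm h3 ?_
  have := (inv_le_one₀ (zero_lt_iff.2 hx0)).1 h4
  exact this

/-- an element with valuation `1` at all places outside `S` is an `S`-unit -/
lemma isSUnit_of_val_eq_one {x : Qbarˣ}
    (hx : ∀ A : ValuationSubring Qbar, OutsideS S A → A.valuation (x : Qbar) = 1) :
    IsSUnit S x := by
  intro A hA
  have h := hx A hA
  refine ⟨(A.valuation_le_one_iff _).1 h.le, (A.valuation_le_one_iff _).1 ?_⟩
  rw [Units.val_inv_eq_inv_val, map_inv₀, h, inv_one]

/-- **KUM, key step.** Inertia at `q ∉ S` fixes `p`-th roots of elements fixed by inertia which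
are units at the place (`p ∈ S`, so `q ≠ p`). -/
lemma inertia_fixes_root {q : ℕ} (hq : q.Prime) (hqp : q ≠ p)
    (A : ValuationSubring Qbar) (hA : A.LiesOverPrime q) (σ : _root_.Fermat.Agent.S55.PT.GQ)
    (hσ : σ ∈ A.inertiaSubgroupIn ℚ) (y : Qbar) (hy : A.valuation y = 1)
    (hσx : σ (y ^ p) = y ^ p) : σ y = y := by
  have hp : p.Prime := Fact.out
  by_contra hne
  have hy0 : y ≠ 0 := by
    rintro rfl
    rw [map_zero] at hy
    exact zero_ne_one hy
  have hpv := val_prime_eq_one (A := A) hA hq hp hqp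
  have ha : (σ y / y) ^ p = 1 := by
    rw [div_pow, ← map_pow, hσx, div_self (pow_ne_zero _ hy0)]
  have ha1 : σ y / y ≠ 1 := fun h => hne ((div_eq_one_iff_eq hy0).1 h)
  have h1 := val_sub_roots_eq_one (A := A) hp.ne_zero hpv ha (one_pow p) ha1
  have h2 := inertia_val_sub_lt_one A hσ y hy.le
  have h3 : σ y - y = y * (σ y / y - 1) := by
    field_simp
  rw [h3, map_mul, hy, one_mul, h1] at h2
  exact lt_irrefl _ h2

/-- **K-KUM.** -/
theorem kummer : KummerSpec p S := by
  intro hpS x hx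
  have hp : p.Prime := Fact.out
  obtain ⟨U, ⟨F, hF, rfl⟩, hfix⟩ := hx
  -- the underlying unit
  let x₀ : Qbarˣ := Additive.toMul (sUnitsIncl S x)
  have hx₀ : IsSUnit S x₀ := x.2
  -- a `p`-th root
  obtain ⟨y₀, hy₀⟩ := IsAlgClosed.exists_pow_nat_eq (x₀ : Qbar) hp.pos
  have hy₀0 : y₀ ≠ 0 := by
    rintro rfl
    rw [zero_pow hp.ne_zero] at hy₀
    exact x₀.ne_zero hy₀.symm
  let yu : Qbarˣ := Units.mk0 y₀ hy₀0
  have hyu : yu ^ p = x₀ := by
    apply Units.ext
    rw [Units.val_pow_eq_pow_val]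
    exact hy₀
  have hval : ∀ A : ValuationSubring Qbar, OutsideS S A → A.valuation (yu : Qbar) = 1 := by
    intro A hA
    have h1 := val_eq_one_of_isSUnit S hx₀ hA
    rw [← hyu, Units.val_pow_eq_pow_val, map_pow] at h1
    exact (pow_eq_one_iff.1 h1).resolve_right hp.ne_zero
  have hyS : IsSUnit S yu := isSUnit_of_val_eq_one S hval
  refine ⟨⟨Additive.ofMul yu, hyS⟩, ?_, ?_⟩
  · apply sUnitsIncl_injective
    show Additive.ofMul (yu ^ p) = Additive.ofMul x₀
    rw [hyu]
  · -- the level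
    have hfix' : ∀ s ∈ F.fixingSubgroup, s (x₀ : Qbar) = x₀ := by
      intro s hs
      have h1 := hfix s hs
      have h2 := sUnits_ρ_coe S s x
      rw [h1] at h2
      exact h2.symm
    have hYfin : FiniteDimensional ℚ (IntermediateField.adjoin ℚ {y₀}) :=
      IntermediateField.adjoin.finiteDimensional
        ((isAlgebraic_Qbar.isAlgebraic y₀).isIntegral)
    have hFfin : FiniteDimensional ℚ F := hF.1
    have hsupfin : FiniteDimensional ℚ ↥(F ⊔ IntermediateField.adjoin ℚ {y₀}) :=
      IntermediateField.finiteDimensional_sup F _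
    obtain ⟨L, hL, hLfix, -⟩ := exists_level_of_subgroup S
      (F.fixingSubgroup ⊓ MulAction.stabilizer _root_.Fermat.Agent.S55.PT.GQ y₀) (F ⊔ IntermediateField.adjoin ℚ {y₀})
      hsupfin
      (fun s hs => by
        rw [IntermediateField.fixingSubgroup_sup] at hs
        refine ⟨hs.1, ?_⟩
        show s ∈ MulAction.stabilizer _root_.Fermat.Agent.S55.PT.GQ y₀
        rw [MulAction.mem_stabilizer_iff]
        exact (IntermediateField.mem_fixingSubgroup_iff _ s).1 hs.2 y₀
          (IntermediateField.mem_adjoin_simple_self ℚ y₀))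
      (fun q hq A hA s hs => by
        have hsF : s ∈ F.fixingSubgroup := hF.2 q hq A hA hs
        refine ⟨hsF, ?_⟩
        show s ∈ MulAction.stabilizer _root_.Fermat.Agent.S55.PT.GQ y₀
        rw [MulAction.mem_stabilizer_iff]
        have hqp : (q : ℕ) ≠ p := by
          intro h
          apply hq
          have : q = ExtCitation.pPrime p := Subtype.ext h
          rw [this]
          exact hpS
        refine inertia_fixes_root p q.2 hqp A hA s hs y₀
          (hval A (outsideS_of_liesOver S hq hA)) ?_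
        rw [hy₀]
        exact hfix' s hsF)
    refine ⟨L.fixingSubgroup, ⟨L, hL, rfl⟩, fun s hs => ?_⟩
    rw [hLfix] at hs
    have hs2 : s y₀ = y₀ := MulAction.mem_stabilizer_iff.1 hs.2
    apply sUnitsIncl_injective
    apply Additive.toMul.injective
    apply Units.ext
    exact hs2

end Fermat.Agent.S55.K.H724

end

end
-- ===== PACK-END S55/K/KummerH724.lean

-- ===== PACK-BEGIN S55/E1/H354/Lim1.lean
section
/-
S55 engine E1 — block LIM, leaves LIM-SES and LIM1 (helper354).  NO sorry.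

On the tower objects of `E1/Lim/Obj.lean` (helper474):

* `diag_injective`, `diagTot_injective` : `E(F) → J(F)` is injective (`S ≠ ∅`);
* `exists_diagTot_eq` : exactness at `J(F)` from GD4 (`KerDiag`), WITHOUT the leaf `LIM-E0`
  (Galois stability of `IsSUnit`): the conjugates of the unit produced by GD4 are again produced by
  GD4, by injectivity of the diagonal;
* `ses_shortExact` : `0 → E(F) → J(F) → C'(F) → 0` is short exact  (**LIM-SES**);
* `lim1Bdry`, `lim1Equiv` : `∂ : A_F(C')/im A_F(J) ≃+ ker (𝔈²_F(E) → 𝔈²_F(J))`  (**LIM1**),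
  with the explicit cocycle formula `lim1Bdry_eq`, `lim1Bdry_eq_zero_iff`, `mem_range_lim1Bdry`;
* `stdR_projective` : the hypothesis `hR` below holds for finite `N` (from ALG1);
* `ses_tr_f`, `ses_tr_g` : the transition maps `trS`, `trJtot`, `trC1` form a morphism of short
  exact sequences along `Level.proj`;
* `trE2_lim1Bdry` : `tr (∂ f'') = ∂' (tr f'')`  (**LIM1, compatibility with the transition maps**).
-/




set_option autoImplicit false

open CategoryTheory CategoryTheory.Limits groupCohomology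

namespace Fermat.Agent.S55.E1.H354

open Fermat.Agent.S55.Tow Fermat.Agent.S55.E1.Lim

noncomputable section

attribute [local instance 10000] Rep.hV2

variable {S : Finset Nat.Primes}

/-! ## Injectivity of the diagonal -/

theorem embQbar_injective (q : Nat.Primes) : Function.Injective (embQbar q) := by
  intro x y h
  have h1 : (Units.map (padicEmbedding (q : ℕ)).toRingHom.toMonoidHom) (Additive.toMul x) =
      (Units.map (padicEmbedding (q : ℕ)).toRingHom.toMonoidHom) (Additive.toMul y) :=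
    congrArg Additive.toMul h
  have h2 : Function.Injective (Units.map (padicEmbedding (q : ℕ)).toRingHom.toMonoidHom) :=
    Units.map_injective (padicEmbedding (q : ℕ)).toRingHom.injective
  exact Additive.toMul.injective (h2 h1)

theorem embFun_injective (L : Level S) (q : Nat.Primes) : Function.Injective (L.embFun q) := by
  intro x y h
  apply L.unitsCoe_injective
  apply embQbar_injective q
  have := congrArg (L.locCoe q) h
  simpa using this

theorem diag_injective (L : Level S) (q : Nat.Primes) : Function.Injective (L.diag q).hom := by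
  intro x y h
  apply embFun_injective L q
  have h1 := congrArg (fun z => L.Jeval q z 1) h
  simp only [Level.Jeval_diag, map_one] at h1
  exact h1

theorem diagTot_injective (L : Level S) (hS : S.Nonempty) :
    Function.Injective (diagTot L).hom := by
  obtain ⟨q, hq⟩ := hS
  intro x y h
  apply sIncl_injective L
  apply diag_injective L q
  have h1 := congrArg (fun z => piTo z (⟨q, hq⟩ : S)) h
  simpa only [piTo_diagTot] using h1

/-! ## Exactness at `J(F)` -/

variable {D : TowerDatum S}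

/-- GD4 ⇒ every element of `ker (J(F) → C(F))` comes from `E(F)`. -/
theorem exists_diagTot_eq (h4 : KerDiag D) (hS : S.Nonempty) (L : Level S) (x : (Jtot L).V)
    (hx : (jTot D L).hom x = 0) : ∃ e : (sUnits L).V, (diagTot L).hom e = x := by
  obtain ⟨q₀, hq₀⟩ := hS
  have key : ∀ y : (Jtot L).V, (jTot D L).hom y = 0 →
      ∃ e : L.units.V, L.IsSUnit e ∧ ∀ q : S, piTo y q = (L.diag q.1).hom e := by
    intro y hy
    rw [jTot_apply] at hy
    exact (h4 L (fun q => piTo y q)).1 hy
  obtain ⟨e, -, he⟩ := key x hx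
  have hmem : e ∈ sUnitsAdd L := by
    intro g
    have hgx : (jTot D L).hom ((Jtot L).ρ g x) = 0 := by
      rw [Rep.hom_comm_apply, hx, map_zero]
    obtain ⟨e', he'S, he'⟩ := key _ hgx
    have h2 : piTo ((Jtot L).ρ g x) (⟨q₀, hq₀⟩ : S) =
        (L.J q₀).ρ g (piTo x (⟨q₀, hq₀⟩ : S)) := piTo_ρ g x _
    have h1 : (L.diag q₀).hom (L.units.ρ g e) = (L.diag q₀).hom e' := by
      rw [← he' ⟨q₀, hq₀⟩, h2, he ⟨q₀, hq₀⟩, Rep.hom_comm_apply]
    rw [diag_injective L q₀ h1]
    exact he'S
  refine ⟨subMk (A := L.units) (W := sUnitsAdd L) (hW := sUnitsAdd_stable L) e hmem, ?_⟩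
  apply piRep_ext
  intro q
  rw [piTo_diagTot, he q]
  rfl

/-- Concrete criterion for short exactness in `Rep k G`. -/
theorem shortExact_of_elementwise {k G : Type} [CommRing k] [Group G]
    (X : ShortComplex (Rep.{0} k G)) (h1 : Function.Injective X.f.hom)
    (h2 : ∀ x : X.X₂.V, X.g.hom x = 0 → ∃ y : X.X₁.V, X.f.hom y = x)
    (h3 : Function.Surjective X.g.hom) : X.ShortExact where
  exact := by
    rw [← ShortComplex.exact_map_iff_of_faithful X (forget₂ (Rep.{0} k G) (ModuleCat.{0} k)),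
      ShortComplex.moduleCat_exact_iff]
    exact h2
  mono_f := (Rep.mono_iff_injective _).2 h1
  epi_g := (Rep.epi_iff_surjective _).2 h3

/-- **LIM-SES**: `0 → E(F) → J(F) → C'(F) → 0` is short exact. -/
theorem ses_shortExact (h4 : KerDiag D) (hS : S.Nonempty) (L : Level S) :
    (ses h4 L).ShortExact := by
  refine shortExact_of_elementwise (ses h4 L) (diagTot_injective L hS) (fun x hx => ?_)
    (jC1_surjective D L)
  have hx' : (jC1 D L).hom x = 0 := hx
  have hx'' : (jTot D L).hom x = 0 := by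
    have := congrArg (inclC1 D L).hom hx'
    rw [map_zero] at this
    exact this
  exact exists_diagTot_eq h4 hS L x hx''

/-! ## Projectivity of `R` (from ALG1) -/

/-- For finite `G` and finite `N` the relation module `R` is `ℤ`-projective (ALG1). -/
theorem stdR_projective {G : Type} [Group G] [Finite G] (N : Rep.{0} ℤ G) (hN : Finite N.V) :
    @Module.Projective ℤ _ (stdR N).V _ (stdR N).hV2 :=
  haveI := (H304.alg1 G N hN).1
  Module.Projective.of_free

/-! ## LIM1: the boundary isomorphism `T'_F ≅ K_F` -/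

section Lim1

variable (h4 : KerDiag D) (hS : S.Nonempty) (L : Level S) (N : Rep.{0} ℤ L.Gal)
  (hR : @Module.Projective ℤ _ (stdR N).V _ (stdR N).hV2)

/-- **LIM1**: the boundary map `∂ : A_F(C') → 𝔈²_F(E)` of the sequence `E(F) → J(F) → C'(F)`. -/
def lim1Bdry : homA N (C1 D L) →+ E2 N (sUnits L) :=
  stdBdry N hR (ses_shortExact h4 hS L)

/-- Explicit formula: `∂ f''` is the class of `g ↦ diag⁻¹ ∘ (g • φ - φ)` for any additive lift
`φ : R → J(F)` of `f'' : R → C'(F)`. -/
theorem lim1Bdry_eq {f'' : homA N (C1 D L)} {c : cocycles₁ ((Rep.ihom (stdR N)).obj (sUnits L))}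
    (φ : (stdR N).V →ₗ[ℤ] (Jtot L).V) (hφ : ∀ r, (jC1 D L).hom (φ r) = f''.hom r)
    (hc : ∀ (g : L.Gal) (r : (stdR N).V),
      (diagTot L).hom (ihomLin (c g) r) = (Jtot L).ρ g (φ ((stdR N).ρ g⁻¹ r)) - φ r) :
    lim1Bdry h4 hS L N hR f'' = H1π _ c :=
  stdBdry_eq N hR (ses_shortExact h4 hS L) (S := ses h4 L) (f'' := f'') (c := c) ⟨φ, hφ, hc⟩

/-- `∂ f'' = 0` iff `f''` lifts to `A_F(J)`. -/
theorem lim1Bdry_eq_zero_iff (f'' : homA N (C1 D L)) :
    lim1Bdry h4 hS L N hR f'' = 0 ↔ ∃ f : homA N (Jtot L), f ≫ jC1 D L = f'' :=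
  stdBdry_eq_zero_iff N hR (ses_shortExact h4 hS L) f''

/-- `ker ∂ = im (A_F(J) → A_F(C'))`. -/
theorem ker_lim1Bdry :
    (lim1Bdry h4 hS L N hR).ker = (Preadditive.rightComp (stdR N) (jC1 D L)).range :=
  haveI := hR
  ker_bdry (ses_shortExact h4 hS L)

/-- `y ∈ 𝔈²_F(E)` dies in `𝔈²_F(J)` iff it is a boundary. -/
theorem E2_diagTot_eq_zero_iff (y : E2 N (sUnits L)) :
    (ihomH1Map (stdR N) (diagTot L)).hom y = 0 ↔ ∃ f'' : homA N (C1 D L),
      lim1Bdry h4 hS L N hR f'' = y :=
  E2map_eq_zero_iff N hR (ses_shortExact h4 hS L) y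

/-- `im ∂ = K_F = ker (𝔈²_F(E) → 𝔈²_F(J))`. -/
theorem range_lim1Bdry :
    (lim1Bdry h4 hS L N hR).range = (ihomH1Map (stdR N) (diagTot L)).hom.toAddMonoidHom.ker :=
  haveI := hR
  range_bdry (ses_shortExact h4 hS L)

/-- `∂` kills the maps which extend to `P`. -/
theorem lim1Bdry_resBA (h'' : homB N (C1 D L)) :
    lim1Bdry h4 hS L N hR (resBA N (C1 D L) h'') = 0 :=
  stdBdry_resBA N hR (ses_shortExact h4 hS L) h''

/-- **LIM1**: `T'_F = A_F(C') / im A_F(J) ≃+ K_F = ker (𝔈²_F(E) → 𝔈²_F(J))`. -/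
def lim1Equiv : (homA N (C1 D L) ⧸ (Preadditive.rightComp (stdR N) (jC1 D L)).range) ≃+
    (ihomH1Map (stdR N) (diagTot L)).hom.toAddMonoidHom.ker :=
  stdBdryEquiv N hR (ses_shortExact h4 hS L)

theorem lim1Equiv_mk (f'' : homA N (C1 D L)) :
    ((lim1Equiv h4 hS L N hR (QuotientAddGroup.mk f'') :
      (ihomH1Map (stdR N) (diagTot L)).hom.toAddMonoidHom.ker) : E2 N (sUnits L)) =
      lim1Bdry h4 hS L N hR f'' := rfl

end Lim1

/-! ## LIM1: compatibility with the transition maps -/

section Tr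

variable {L L' : Level S} (h : L ≤ L')

/-- The diagonal maps are compatible with the transition maps. -/
theorem trJ_diag_apply (q : Nat.Primes) (x : L.units.V) :
    (Level.trJ h q).hom ((L.diag q).hom x) = (L'.diag q).hom ((Level.trUnits h).hom x) := by
  apply L'.J_ext q
  intro g
  induction g using QuotientGroup.induction_on with
  | H g => rfl

/-- `trS`, `trJtot` commute with the diagonals. -/
theorem diagTot_trS (e : (sUnits L).V) :
    (diagTot L').hom ((trS h).hom e) = (trJtot h).hom ((diagTot L).hom e) := by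
  apply piRep_ext
  intro q
  rw [piTo_diagTot, piTo_trJtot, piTo_diagTot, sIncl_trS, trJ_diag_apply]

/-- The left square of the morphism of short exact sequences `ses L → ses L'`. -/
theorem ses_tr_f (h4 : KerDiag D) (e : (ses h4 L).X₁.V) :
    (ses h4 L').f.hom ((trS h).hom e) = (trJtot h).hom ((ses h4 L).f.hom e) :=
  diagTot_trS h e

/-- The right square of the morphism of short exact sequences `ses L → ses L'`. -/
theorem ses_tr_g (h4 : KerDiag D) (h7 : TrCompat D) (x : (ses h4 L).X₂.V) :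
    (ses h4 L').g.hom ((trJtot h).hom x) = (trC1 h7 h).hom ((ses h4 L).g.hom x) :=
  (trC1_jC1 h7 h x).symm

/-- **LIM1, compatibility with the transition maps**: `tr (∂ f'') = ∂' (tr f'')`. -/
theorem trE2_lim1Bdry (h4 : KerDiag D) (h7 : TrCompat D) (hS : S.Nonempty)
    {N : Rep.{0} ℤ L.Gal} {N' : Rep.{0} ℤ L'.Gal} (ν : N' ⟶ Rep.res (Level.proj h) N)
    (hR : @Module.Projective ℤ _ (stdR N).V _ (stdR N).hV2)
    (hR' : @Module.Projective ℤ _ (stdR N').V _ (stdR N').hV2) (f'' : homA N (C1 D L)) :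
    trE2 (Level.proj h) ν (trS h) (lim1Bdry h4 hS L N hR f'') =
      lim1Bdry h4 hS L' N' hR' (trA (Level.proj h) ν (trC1 h7 h) f'') :=
  trE2_stdBdry (Level.proj h) ν (S := ses h4 L) (S' := ses h4 L') (trS h) (trJtot h) (trC1 h7 h)
    hR hR' (ses_shortExact h4 hS L) (ses_shortExact h4 hS L') (ses_tr_f h h4) (ses_tr_g h h4 h7) f''

/-- The transition map `tr : A_F(C') → A_{F'}(C')` preserves `im A(J)`. -/
theorem trA_mem_range (h7 : TrCompat D) {N : Rep.{0} ℤ L.Gal} {N' : Rep.{0} ℤ L'.Gal}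
    (ν : N' ⟶ Rep.res (Level.proj h) N) (f'' : homA N (C1 D L))
    (hf : f'' ∈ (Preadditive.rightComp (stdR N) (jC1 D L)).range) :
    trA (Level.proj h) ν (trC1 h7 h) f'' ∈ (Preadditive.rightComp (stdR N') (jC1 D L')).range := by
  obtain ⟨f, rfl⟩ := hf
  refine ⟨trA (Level.proj h) ν (trJtot h) f, ?_⟩
  apply Rep.hom_ext
  apply DFunLike.ext
  intro r
  exact (trC1_jC1 h7 h _).symm

/-- The transition map `tr : 𝔈²_F(E) → 𝔈²_{F'}(E)` preserves `K = ker (𝔈²(E) → 𝔈²(J))`. -/
theorem trE2_mem_ker (h4 : KerDiag D) (h7 : TrCompat D) (hS : S.Nonempty)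
    {N : Rep.{0} ℤ L.Gal} {N' : Rep.{0} ℤ L'.Gal} (ν : N' ⟶ Rep.res (Level.proj h) N)
    (hR : @Module.Projective ℤ _ (stdR N).V _ (stdR N).hV2)
    (hR' : @Module.Projective ℤ _ (stdR N').V _ (stdR N').hV2) (y : E2 N (sUnits L))
    (hy : (ihomH1Map (stdR N) (diagTot L)).hom y = 0) :
    (ihomH1Map (stdR N') (diagTot L')).hom (trE2 (Level.proj h) ν (trS h) y) = 0 := by
  obtain ⟨f'', rfl⟩ := (E2_diagTot_eq_zero_iff h4 hS L N hR y).1 hy
  rw [trE2_lim1Bdry h h4 h7 hS ν hR hR']
  exact (E2_diagTot_eq_zero_iff h4 hS L' N' hR' _).2 ⟨_, rfl⟩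

end Tr

end

end Fermat.Agent.S55.E1.H354

end
-- ===== PACK-END S55/E1/H354/Lim1.lean

-- ===== PACK-BEGIN S55/PT/EffaceH773.lean
section
/-
S55 (Poitou–Tate), layer D (route C′, architect helper835), leaf D-I2 (helper773):

  `theorem efface : Fermat.Agent.S55.PT.EffaceSpec`

If `H¹(M′)` is finite-dimensional (`M′ = M.dualTwist χ`), then for every level `V` acting
trivially on `M` and `χ` there is a normal level `U ≤ V` with
`H¹(M′) → H¹((Ind_U (twTriv χ M))′)` zero.  Proof: all classes have a right-`U`-invariant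
representative `c` for `U` small (finite-dimensionality), and then
`augTw^∨ ∘ c = d F` for the functional `F (single γU w) = - χ(γ)⁻¹ c(γ)(γ w)`.
-/


set_option autoImplicit false
set_option linter.style.haveILetI false

noncomputable section

namespace Fermat.Agent.S55.PT.EffaceH773

open groupCohomology ExtCitation Fermat.Agent.S55.PT

variable {k : Type} [Field k] {G : Type} [Group G]

/-! ## 1. A common level for all classes of a finite-dimensional `H¹` -/

section Level

variable (L : LevelSys G) (A : Rep.{0, 0, 0} k G)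

/-- the level-constant cocycles which are right-invariant under `U` -/
def z1U (U : Subgroup G) : Submodule k ↥(L.Z1 A) where
  carrier := {c | ∀ g s : G, s ∈ U → (c : G → A) (g * s) = (c : G → A) g}
  add_mem' := by
    intro a b ha hb g s hs
    change (a : G → A) (g * s) + (b : G → A) (g * s) = (a : G → A) g + (b : G → A) g
    rw [ha g s hs, hb g s hs]
  zero_mem' := by
    intro g s _
    rfl
  smul_mem' := by
    intro r a ha g s hs
    change r • (a : G → A) (g * s) = r • (a : G → A) g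
    rw [ha g s hs]

lemma z1U_mono {U W : Subgroup G} (h : W ≤ U) : z1U L A U ≤ z1U L A W :=
  fun _ hc g s hs => hc g s (h hs)

lemma exists_level_le_finset {ι : Type} (s : Finset ι) (U : ι → Subgroup G)
    (hU : ∀ i ∈ s, U i ∈ L.levels) : ∃ W ∈ L.levels, ∀ i ∈ s, W ≤ U i := by
  classical
  induction s using Finset.induction_on with
  | empty =>
    obtain ⟨W, hW⟩ := L.nonempty
    exact ⟨W, hW, fun i hi => absurd hi (Finset.notMem_empty i)⟩
  | insert a s ha ih =>
    obtain ⟨W, hW, hWs⟩ := ih (fun i hi => hU i (Finset.mem_insert_of_mem hi))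
    obtain ⟨W', hW', hle⟩ := L.directed W hW (U a) (hU a (Finset.mem_insert_self a s))
    refine ⟨W', hW', fun i hi => ?_⟩
    rcases Finset.mem_insert.1 hi with rfl | hi
    · exact hle.trans inf_le_right
    · exact (hle.trans inf_le_left).trans (hWs i hi)

/-- If `H¹(A)` is finite-dimensional, there is a level `W` such that every class is represented
by a right-`W`-invariant cocycle. -/
lemma exists_level_H1 (hfin : FiniteDimensional k (L.H1 A)) :
    ∃ W ∈ L.levels, ∀ x : L.H1 A, ∃ c : ↥(L.Z1 A), L.H1π A c = x ∧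
      ∀ g s : G, s ∈ W → (c : G → A) (g * s) = (c : G → A) g := by
  classical
  obtain ⟨s, hs⟩ := (Module.finite_def.1 hfin : (⊤ : Submodule k (L.H1 A)).FG)
  have hrep : ∀ x : L.H1 A, ∃ c : ↥(L.Z1 A), L.H1π A c = x := L.H1π_surjective A
  choose rep hrep using hrep
  have hlev : ∀ x : L.H1 A, ∃ U ∈ L.levels,
      ∀ g t : G, t ∈ U → (rep x : G → A) (g * t) = (rep x : G → A) g := fun x => (rep x).2.2
  choose lev hlev hinv using hlev
  obtain ⟨W, hW, hWle⟩ := exists_level_le_finset L s lev (fun i _ => hlev i)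
  refine ⟨W, hW, ?_⟩
  have htop : (z1U L A W).map (L.H1π A) = ⊤ := by
    rw [eq_top_iff, ← hs, Submodule.span_le]
    intro x hx
    exact ⟨rep x, fun g t ht => hinv x g t (hWle x hx ht), hrep x⟩
  intro x
  have hx : x ∈ (z1U L A W).map (L.H1π A) := htop ▸ Submodule.mem_top
  obtain ⟨c, hc, rfl⟩ := hx
  exact ⟨c, rfl, hc⟩

end Level

/-! ## 2. The effacing cochain -/

section Cochain

variable (χ : G →* kˣ) (U : Subgroup G) (M : Rep.{0, 0, 0} k G)
  (c : G → Module.Dual k M)

/-- the `x`-component of the effacing functional: for `x = γU`,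
`w ↦ - χ(γ)⁻¹ c(γ)(γ w)` (junk unless `c`, `χ`, `M` are right-`U`-invariant). -/
def effX (x : G ⧸ U) : M →ₗ[k] k :=
  -((((χ (Quotient.out x))⁻¹ : kˣ) : k) • (c (Quotient.out x)) ∘ₗ M.ρ (Quotient.out x))

/-- the effacing functional `F (single γU w) = - χ(γ)⁻¹ c(γ)(γ w)` on `Ind_U M` -/
def effF : Module.Dual k ((G ⧸ U) →₀ M) :=
  Finsupp.lsum k (fun x : G ⧸ U => effX χ U M c x)

@[simp] lemma effF_single (x : G ⧸ U) (w : M) :
    effF χ U M c (Finsupp.single x w : (G ⧸ U) →₀ M) = effX χ U M c x w := by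
  rw [effF, Finsupp.lsum_single]

variable {χ U M c}

lemma effX_mk (hχ : ∀ u ∈ U, χ u = 1) (hM : ∀ u ∈ U, M.ρ u = 1)
    (hc : ∀ g s : G, s ∈ U → c (g * s) = c g) (g : G) (w : M) :
    effX χ U M c (g : G ⧸ U) w = -((((χ g)⁻¹ : kˣ) : k) * c g (M.ρ g w)) := by
  obtain ⟨u, hu⟩ := QuotientGroup.mk_out_eq_mul U g
  unfold effX
  rw [hu, hc g u u.2, map_mul, map_mul, hχ u u.2, hM u u.2, mul_one, mul_one]
  rfl

/-- **Key computation**: `d F = augTw^∨ ∘ c`. -/
lemma d_effF (hχ : ∀ u ∈ U, χ u = 1) (hM : ∀ u ∈ U, M.ρ u = 1)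
    (hc : ∀ g s : G, s ∈ U → c (g * s) = c g)
    (hcoc : (c : G → M.dualTwist χ) ∈ cocycles₁ (M.dualTwist χ)) :
    (d₀₁ ((indRep U (twTriv χ M)).dualTwist χ)).hom (effF χ U M c) =
      (augTw χ U M).dualMap ∘ c := by
  rw [mem_cocycles₁_iff] at hcoc
  funext g
  rw [d₀₁_hom_apply, Function.comp_apply]
  apply Finsupp.lhom_ext
  intro x w
  induction x using QuotientGroup.induction_on with
  | H γ =>
    have hcoc' := hcoc g (g⁻¹ * γ)
    rw [mul_inv_cancel_left] at hcoc'
    have hcoc'' : c γ (M.ρ γ w) =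
        (χ g : k) * c (g⁻¹ * γ) (M.ρ (g⁻¹ * γ) w) + c g (M.ρ γ w) := by
      have := congrArg (fun f : Module.Dual k M => f (M.ρ γ w)) hcoc'
      simp only [LinearMap.add_apply] at this
      rw [this, map_mul]
      rfl
    have h1 : ((indRep U (twTriv χ M)).ρ g⁻¹)
        (Finsupp.single (γ : G ⧸ U) w : (G ⧸ U) →₀ M) =
        (Finsupp.single (((g⁻¹ * γ : G)) : G ⧸ U) ((χ g⁻¹ : k) • w) : (G ⧸ U) →₀ M) := by
      rw [indRep_ρ_single, twTriv_ρ_apply]
      rfl
    rw [LinearMap.sub_apply, Rep.dualTwist_ρ_apply, LinearMap.smul_apply, LinearMap.comp_apply,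
      h1, effF_single, effF_single, effX_mk hχ hM hc, effX_mk hχ hM hc, LinearMap.dualMap_apply,
      augTw_single, twAct_mk χ U M hχ hM, LinearMap.smul_apply, map_smul, map_smul, map_smul,
      hcoc'']
    simp only [smul_eq_mul, map_mul, map_inv, Units.val_mul, Units.val_inv_eq_inv_val]
    have ha : (χ g : k) ≠ 0 := (χ g).ne_zero
    have hb : (χ γ : k) ≠ 0 := (χ γ).ne_zero
    field_simp
    ring

end Cochain

/-! ## 3. The leaf -/

/-- **D-I2 (E2)**: effaceability of `H¹` of the dual, from finiteness. -/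
theorem efface : EffaceSpec := by
  intro k _ G _ L hN χ M _hM hfin V hV hχ hMV
  obtain ⟨W, hW, hrep⟩ := exists_level_H1 L (M.dualTwist χ) hfin
  obtain ⟨W', hW', hle⟩ := L.directed V hV W hW
  obtain ⟨U, hU, hUW', hUn⟩ := hN W' hW'
  have hUV : U ≤ V := hUW'.trans (hle.trans inf_le_left)
  have hUW : U ≤ W := hUW'.trans (hle.trans inf_le_right)
  refine ⟨U, hUV, hU, hUn, fun x => ?_⟩
  obtain ⟨c, rfl, hc⟩ := hrep x
  rw [pushH1_mk, LevelSys.H1π_eq_zero_iff]
  refine ⟨effF χ U M c.1, ?_⟩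
  rw [coe_pushZ1]
  exact d_effF (fun u hu => hχ u (hUV hu)) (fun u hu => hMV u (hUV hu))
    (fun g s hs => hc g s (hUW hs)) c.2.1

end Fermat.Agent.S55.PT.EffaceH773

end
end
-- ===== PACK-END S55/PT/EffaceH773.lean

-- ===== PACK-BEGIN S55/PT/H837/CapDev.lean
section


/-!
# S55 / layer D, leaf D-T3: CAP for all modules (helper837)

`capDev : CapDevSpec p S`, i.e. `GlobalNormalCofinalSpec → CapSpec p S → CapAllSpec p S`.

Proof.  `twTriv χ M ≅ μ^d`: with a basis `b` of `M`, coordinates `λ_i = b.coord i` and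
`ι_i = (· • b i)`, one has
`augTw_U = Σ_i (augTw_V ∘ Ind_V ι_i) ∘ (indLE ∘ Ind_U λ_i)`
for `U ≤ V`, `V` acting trivially on `M` and on `χ`.  Each `(Ind_U λ_i)_*` maps `Ш²` to `Ш²`, and
`indLE_*` kills `Ш²(Ind_U μ)` by CAP.
-/

set_option autoImplicit false

noncomputable section

namespace Fermat.Agent.S55.PT.H837

open groupCohomology ExtCitation Fermat.Agent.S55.PT

variable {k : Type} [Field k] {G : Type} [Group G]

/-- every linear map is equivariant between twisted trivial modules -/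
lemma twTriv_isEquivariant (χ : G →* kˣ) {W W' : Type} [AddCommGroup W] [Module k W]
    [AddCommGroup W'] [Module k W'] (φ : W →ₗ[k] W') :
    IsEquivariant (A := twTriv χ W) (B := twTriv χ W') φ := by
  intro g w
  rw [twTriv_ρ_apply, twTriv_ρ_apply]
  exact map_smul φ _ w

/-- if `φ = Σ_i ψ_i ∘ θ_i` and all `(θ_i)_* x = 0` then `φ_* x = 0` -/
lemma pushH2_eq_zero_of_eq_sum_comp (L : LevelSys G) {A B C : Rep.{0, 0, 0} k G} {I : Type}
    (s : Finset I) (θ : I → (A →ₗ[k] B)) (ψ : I → (B →ₗ[k] C))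
    (hθ : ∀ i, IsEquivariant (θ i)) (hψ : ∀ i, IsEquivariant (ψ i))
    (φ : A →ₗ[k] C) (hφ : IsEquivariant φ) (h : φ = ∑ i ∈ s, ψ i ∘ₗ θ i)
    (x : L.H2 A) (hx : ∀ i ∈ s, pushH2 (θ i) (hθ i) L x = 0) :
    pushH2 φ hφ L x = 0 := by
  obtain ⟨c, rfl⟩ := L.H2π_surjective A x
  have key : pushZ2 φ hφ L c = ∑ i ∈ s, pushZ2 (ψ i) (hψ i) L (pushZ2 (θ i) (hθ i) L c) := by
    apply Subtype.ext
    rw [coe_pushZ2, Submodule.coe_sum]
    funext y
    rw [Finset.sum_apply, Function.comp_apply, h, LinearMap.sum_apply]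
    rfl
  rw [pushH2_mk, key, map_sum]
  refine Finset.sum_eq_zero fun i hi => ?_
  have h0 := hx i hi
  rw [pushH2_mk] at h0
  rw [← pushH2_mk, h0, map_zero]

section Generic

variable {ι : Type} [Fintype ι] [DecidableEq ι] {Gv : ι → Type} [∀ v, Group (Gv v)]
variable {L : LevelSys G} {Lv : ∀ v, LevelSys (Gv v)} {r : ∀ v, Gv v →* G}
variable (hr : ∀ v, IsLevelCompatible (r v) L (Lv v))

/-- the coordinate decomposition of the twisted augmentation -/
lemma augTw_eq_sum (χ : G →* kˣ) (M : Rep.{0, 0, 0} k G) {U V : Subgroup G} (hUV : U ≤ V)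
    (hχ : ∀ u ∈ V, χ u = 1) (hM : ∀ u ∈ V, M.ρ u = 1)
    {d : Type} [Fintype d] (b : Module.Basis d k M) :
    augTw χ U M = ∑ i : d,
      ((augTw χ V M) ∘ₗ (indMap V (M := ofChar χ) (N := twTriv χ M)
          (LinearMap.toSpanSingleton k M (b i)))) ∘ₗ
        ((indLE (ofChar χ) hUV) ∘ₗ (indMap U (M := twTriv χ M) (N := ofChar χ) (b.coord i))) := by
  apply Finsupp.lhom_ext
  intro x m
  induction x using QuotientGroup.induction_on with
  | H g =>
    rw [LinearMap.sum_apply, augTw_single,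
      twAct_mk χ U M (fun u hu => hχ u (hUV hu)) (fun u hu => hM u (hUV hu))]
    have hterm : ∀ i : d,
        (((augTw χ V M) ∘ₗ (indMap V (M := ofChar χ) (N := twTriv χ M)
          (LinearMap.toSpanSingleton k M (b i)))) ∘ₗ
        ((indLE (ofChar χ) hUV) ∘ₗ (indMap U (M := twTriv χ M) (N := ofChar χ) (b.coord i))))
          (Finsupp.single (g : G ⧸ U) m) =
        ((((χ g)⁻¹ : kˣ) : k) • M.ρ g) ((b.coord i m) • b i) := by
      intro i
      rw [LinearMap.comp_apply, LinearMap.comp_apply, LinearMap.comp_apply, indMap_single,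
        indLE_single, indMap_single, augTw_single]
      have h1 : Subgroup.quotientMapOfLE hUV (g : G ⧸ U) = (g : G ⧸ V) := rfl
      rw [h1, twAct_mk χ V M hχ hM]
      rfl
    rw [Finset.sum_congr rfl (fun i _ => hterm i), ← map_sum]
    congr 1
    exact (b.sum_repr m).symm

include hr in
/-- **CAP dévissage, generic form.** -/
theorem pushH2_augTw_eq_zero (χ : G →* kˣ) (M : Rep.{0, 0, 0} k G) [FiniteDimensional k M]
    {U V : Subgroup G} (hUV : U ≤ V)
    (hχ : ∀ u ∈ V, χ u = 1) (hM : ∀ u ∈ V, M.ρ u = 1)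
    (hcap : ∀ x ∈ Sha2 hr (indRep U (ofChar χ)),
      pushH2 (A := indRep U (ofChar χ)) (B := indRep V (ofChar χ)) (indLE (ofChar χ) hUV)
        (indLE_equivariant U (ofChar χ) hUV) L x = 0)
    (x : L.H2 (indRep U (twTriv χ M))) (hx : x ∈ Sha2 hr (indRep U (twTriv χ M))) :
    pushH2 (A := indRep U (twTriv χ M)) (B := M) (augTw χ U M)
      (augTw_equivariant χ U M (fun u hu => hχ u (hUV hu)) (fun u hu => hM u (hUV hu)))
      L x = 0 := by
  classical
  let b := Module.finBasis k M
  -- equivariance of the pieces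
  have hlam : ∀ i, IsEquivariant (A := indRep U (twTriv χ M)) (B := indRep U (ofChar χ))
      (indMap U (M := twTriv χ M) (N := ofChar χ) (b.coord i)) := fun i =>
    indMap_equivariant U (M := twTriv χ M) (N := ofChar χ) (b.coord i)
      (twTriv_isEquivariant χ (b.coord i))
  have hle : IsEquivariant (A := indRep U (ofChar χ)) (B := indRep V (ofChar χ))
      (indLE (ofChar χ) hUV) := indLE_equivariant U (ofChar χ) hUV
  have hθ : ∀ i, IsEquivariant (A := indRep U (twTriv χ M)) (B := indRep V (ofChar χ))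
      ((indLE (ofChar χ) hUV) ∘ₗ (indMap U (M := twTriv χ M) (N := ofChar χ) (b.coord i))) :=
    fun i => isEquivariant_comp (hlam i) hle
  have hiota : ∀ i, IsEquivariant (A := indRep V (ofChar χ)) (B := indRep V (twTriv χ M))
      (indMap V (M := ofChar χ) (N := twTriv χ M) (LinearMap.toSpanSingleton k M (b i))) :=
    fun i => indMap_equivariant V (M := ofChar χ) (N := twTriv χ M)
      (LinearMap.toSpanSingleton k M (b i))
      (twTriv_isEquivariant χ (W := k) (W' := M) (LinearMap.toSpanSingleton k M (b i)))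
  have haugV : IsEquivariant (A := indRep V (twTriv χ M)) (B := M) (augTw χ V M) :=
    augTw_equivariant χ V M hχ hM
  have hψ : ∀ i, IsEquivariant (A := indRep V (ofChar χ)) (B := M)
      ((augTw χ V M) ∘ₗ (indMap V (M := ofChar χ) (N := twTriv χ M)
          (LinearMap.toSpanSingleton k M (b i)))) :=
    fun i => isEquivariant_comp (hiota i) haugV
  refine pushH2_eq_zero_of_eq_sum_comp L (A := indRep U (twTriv χ M))
    (B := indRep V (ofChar χ)) (C := M) Finset.univ _ _ hθ hψ (augTw χ U M) _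
    (augTw_eq_sum χ M hUV hχ hM b) x (fun i _ => ?_)
  rw [pushH2_comp L (hlam i) hle (hθ i) x]
  refine hcap _ ?_
  exact (pushSha2 hr (A := indRep U (twTriv χ M)) (B := indRep U (ofChar χ))
    (indMap U (M := twTriv χ M) (N := ofChar χ) (b.coord i)) (hlam i) ⟨x, hx⟩).2

end Generic

/-- **Leaf D-T3.**  CAP for `Ind_U μ` implies CAP for all modules. -/
theorem capDev (p : ℕ) [Fact p.Prime] (S : Finset Nat.Primes) : CapDevSpec p S := by
  intro hNC hCap M hMfin V hV hχ hMV
  obtain ⟨V', hV', hV'V, hV'n⟩ := hNC S V hV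
  have hmu : ∀ s ∈ V', (mu p).ρ s = 1 := by
    intro s hs
    apply LinearMap.ext
    intro c
    rw [ofChar_ρ_apply, hχ s (hV'V hs)]
    simp
  obtain ⟨U, hUV', hU, hUn, hcap⟩ := hCap V' hV' hV'n hmu
  refine ⟨U, hUV'.trans hV'V, hU, hUn, fun x hx => ?_⟩
  have : FiniteDimensional (ZMod p) M := hMfin
  exact pushH2_augTw_eq_zero (hrl S) (cycloChar p) M hUV'
    (fun u hu => hχ u (hV'V hu)) (fun u hu => hMV u (hV'V hu)) hcap x hx

end Fermat.Agent.S55.PT.H837

end

end
-- ===== PACK-END S55/PT/H837/CapDev.lean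

-- ===== PACK-BEGIN S55/KL/H510/TopLocIndCore.lean
section


/-!
# S55 / layer KL (helper53), leaf KL-P4 (`TopLocIndOfSpec`): core, independent of the location of
the interface `KL/Spec.lean` (imports only the landed `PT` layer)

`topLocIndOf_core_h510` is the statement of `TopLocIndOfSpec` verbatim.  Adapter (one line):

  `theorem topLocIndOf : TopLocIndOfSpec := Fermat.Agent.S55.KL.H510.topLocIndOf_core_h510`

A6 (`PT.TopLocIndSpec inv`) from right exactness of `H²` (A4) and the cardinality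
`|H²(G_v, Ind_W μ)| = p`, for any family of bijective maps `inv_v`.
-/

set_option autoImplicit false
set_option linter.style.haveILetI false

noncomputable section

namespace Fermat.Agent.S55.KL.H510

open groupCohomology ExtCitation Fermat.Agent.S55.PT

/-- A normal subgroup `W` acting trivially on `M` acts trivially on `Ind_W M`. -/
theorem indRep_ρ_eq_of_normal_h510 {k : Type} [Field k] {G : Type} [Group G] (W : Subgroup G)
    [W.Normal] (M : Rep.{0, 0, 0} k G) (hW : ∀ s ∈ W, M.ρ s = 1) (s : G) (hs : s ∈ W)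
    (a : indRep W M) : (indRep W M).ρ s a = a := by
  have key : (indRep W M).ρ s = LinearMap.id := by
    apply Finsupp.lhom_ext
    intro x m
    have h1 : s • x = x := by
      induction x using QuotientGroup.induction_on with
      | H g =>
        show ((s * g : G) : G ⧸ W) = (g : G ⧸ W)
        rw [eq_comm, QuotientGroup.eq]
        have : g⁻¹ * (s * g) = g⁻¹ * s * g⁻¹⁻¹ := by simp [mul_assoc]
        rw [this]
        exact ‹W.Normal›.conj_mem s hs g⁻¹
    have h2 : M.ρ s m = m := by rw [hW s hs]; rfl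
    rw [LinearMap.id_apply]
    exact (indRep_ρ_single W M s x m).trans (by rw [h1, h2])
  rw [key]; rfl

/-- **KL-P4** (`TopLocIndOfSpec`, verbatim): A6 from right exactness and the cardinality of
`H²(G_v, Ind_W μ)`, for ANY family of bijective maps `inv_v`. -/
theorem topLocIndOf_core_h510 :
    ∀ (p : ℕ) [Fact p.Prime] (S : Finset Nat.Primes) (inv : InvFamily p S),
      (∀ v : ↥S, Function.Bijective (inv v)) →
      (∀ v : ↥S, (localLevels v.1).FiniteIndex) →
      Surj2LocSpec p S →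
      (∀ (v : ↥S) (W : Subgroup (Gl v.1)), W ∈ (localLevels v.1).levels → W.Normal →
        (∀ s ∈ W, (muLoc p v.1).ρ s = 1) →
        Nat.card ((localLevels v.1).H2 (indRep W (muLoc p v.1))) = p) →
      TopLocIndSpec inv := by
  intro p _ S inv hinv hfi hsurj hcard v W hW hWn hWtriv
  haveI := hWn
  haveI : W.FiniteIndex := hfi v W hW
  haveI : Finite (Gl v.1 ⧸ W) := Subgroup.finite_quotient_of_finiteIndex
  haveI hfdμ : FiniteDimensional (ZMod p) (muLoc p v.1) :=
    inferInstanceAs (FiniteDimensional (ZMod p) (ZMod p))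
  have hfd : FiniteDimensional (ZMod p) (indRep W (muLoc p v.1)) :=
    inferInstanceAs (Module.Finite (ZMod p) ((Gl v.1 ⧸ W) →₀ (muLoc p v.1)))
  have hsm : (localLevels v.1).IsUSmooth (indRep W (muLoc p v.1)) :=
    ⟨W, hW, fun s hs a => indRep_ρ_eq_of_normal_h510 W (muLoc p v.1) hWtriv s hs a⟩
  have hsmμ : (localLevels v.1).IsUSmooth (muLoc p v.1) :=
    ⟨W, hW, fun s hs a => by rw [hWtriv s hs]; rfl⟩
  have h1 : Function.Surjective
      (pushH2 (A := indRep W (muLoc p v.1)) (B := muLoc p v.1) (indAug W (muLoc p v.1))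
        (indAug_equivariant W (muLoc p v.1)) (localLevels v.1)) :=
    hsurj v.1 v.2 (indRep W (muLoc p v.1)) (muLoc p v.1) (indAug W (muLoc p v.1))
      (indAug_equivariant W (muLoc p v.1)) hfd hsm hsmμ (indAug_surjective W (muLoc p v.1))
  have hp : p ≠ 0 := (Fact.out : p.Prime).ne_zero
  have hcμ : Nat.card ((localLevels v.1).H2 (muLoc p v.1)) = p := by
    rw [Nat.card_eq_of_bijective _ (hinv v), Nat.card_zmod]
  have hcI : Nat.card ((localLevels v.1).H2 (indRep W (muLoc p v.1))) = p :=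
    hcard v W hW hWn hWtriv
  haveI : Finite ((localLevels v.1).H2 (indRep W (muLoc p v.1))) :=
    Nat.finite_of_card_ne_zero (by rw [hcI]; exact hp)
  have h2 : Function.Bijective
      (pushH2 (A := indRep W (muLoc p v.1)) (B := muLoc p v.1) (indAug W (muLoc p v.1))
        (indAug_equivariant W (muLoc p v.1)) (localLevels v.1)) :=
    h1.bijective_of_nat_card_le (by rw [hcI, hcμ])
  rw [LinearMap.coe_comp]
  exact (hinv v).comp h2

end Fermat.Agent.S55.KL.H510

end
end
-- ===== PACK-END S55/KL/H510/TopLocIndCore.lean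

-- ===== PACK-BEGIN S55/H587/LocalLevels.lean
section





/-!
# S55: the local level systems and `μ_p` (leaves KL-A0, KL-A5 of route C′)        (helper587)

Stated with all Spec-definitions UNFOLDED, in terms of the PT-layer vocabulary on main only
(`PT.localLevels`, `PT.muLoc`, `LevelSys.NormalCofinal/FiniteIndex/IsUSmooth`), so that the file
does not depend on the location of the KL interface file.

* `localLevels_normalCofinal`, `localNormalCofinal : PT.LocalNormalCofinalSpec` (D-F7b);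
* `localLevelsSpec` : `∀ q, (localLevels q).NormalCofinal ∧ (localLevels q).FiniteIndex`
  (this is, verbatim, the body of `LocalLevelsSpec`, KL-A0);
* `mu_isUSmooth_pullback`, `muLoc_isUSmooth`, `muLoc_finrank`;
* `localMuSpec` : `∀ p q, finrank (muLoc p q) = 1 ∧ (localLevels q).IsUSmooth (muLoc p q)`
  (verbatim the body of `LocalMuSpec`, KL-A5).
-/

set_option autoImplicit false
set_option linter.style.haveILetI false

noncomputable section

namespace Fermat.Agent.S55.H587

open groupCohomology ExtCitation Fermat.Agent.S55.PT Fermat.Agent.S55.Bridge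

/-! ## KL-A0 -/

/-- Normal levels are cofinal among the levels pulled back along any `r : G → G_ℚ`. -/
theorem pullbackLevels_normalCofinal {G : Type} [Group G] (r : G →* _root_.Fermat.Agent.S55.PT.GQ) :
    (pullbackLevels r).NormalCofinal :=
  pullbackLevels_normal_cofinal724 r

/-- Normal levels are cofinal among the local levels. -/
theorem localLevels_normalCofinal (q : Nat.Primes) : (localLevels q).NormalCofinal :=
  pullbackLevels_normalCofinal (rl q)

/-- **D-F7b.** -/
theorem localNormalCofinal : LocalNormalCofinalSpec :=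
  fun q => localLevels_normalCofinal q

/-- **KL-A0** (body of `LocalLevelsSpec`). -/
theorem localLevelsSpec :
    ∀ q : Nat.Primes, (localLevels q).NormalCofinal ∧ (localLevels q).FiniteIndex :=
  fun q => ⟨localLevels_normalCofinal q, Fermat.Agent.S55.PT.H424.localFiniteIndex q⟩

/-! ## KL-A5 -/

variable (p : ℕ) [Fact p.Prime]

/-- The field `ℚ(μ_p) ⊂ ℚ̄`. -/
def cycloField : IntermediateField ℚ (AlgebraicClosure ℚ) :=
  IntermediateField.adjoin ℚ
    (Set.range fun t : rootsOfUnity p (AlgebraicClosure ℚ) =>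
      (((t : (AlgebraicClosure ℚ)ˣ) : AlgebraicClosure ℚ)))

instance cycloField_finiteDimensional : FiniteDimensional ℚ (cycloField p) := by
  haveI : NeZero p := ⟨(Fact.out : p.Prime).ne_zero⟩
  haveI : Finite (rootsOfUnity p (AlgebraicClosure ℚ)) := inferInstance
  refine IntermediateField.finiteDimensional_adjoin (K := ℚ)
    (S := Set.range fun t : rootsOfUnity p (AlgebraicClosure ℚ) =>
      (((t : (AlgebraicClosure ℚ)ˣ) : AlgebraicClosure ℚ))) ?_
  intro x _
  haveI : Algebra.IsAlgebraic ℚ (AlgebraicClosure ℚ) := AlgebraicClosure.isAlgebraic ℚ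
  exact (Algebra.IsAlgebraic.isAlgebraic (R := ℚ) x).isIntegral

/-- An automorphism fixing `ℚ(μ_p)` has trivial cyclotomic character. -/
theorem cycloChar_eq_one_of_mem_fixingSubgroup (σ : _root_.Fermat.Agent.S55.PT.GQ)
    (hσ : σ ∈ (cycloField p).fixingSubgroup) : cycloChar p σ = 1 := by
  apply cycloChar_eq_one_of_fixes
  intro t ht
  have hmem : ((t : AlgebraicClosure ℚ)) ∈ cycloField p :=
    IntermediateField.subset_adjoin ℚ _ ⟨⟨t, ht⟩, rfl⟩
  exact hσ ⟨_, hmem⟩

/-- `μ_p`, pulled back along any `r : G → G_ℚ`, is uniformly smooth for the pulled-back levels. -/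
theorem mu_isUSmooth_pullback {G : Type} [Group G] (r : G →* _root_.Fermat.Agent.S55.PT.GQ) :
    (pullbackLevels r).IsUSmooth (Rep.res r (mu p)) := by
  refine ⟨_, ⟨cycloField p, inferInstance, rfl⟩, ?_⟩
  intro s hs a
  have h1 : cycloChar p (r s) = 1 := _root_.Fermat.Agent.S55.H587.cycloChar_eq_one_of_mem_fixingSubgroup p (r s) hs
  show ((cycloChar p (r s) : (ZMod p)ˣ) : ZMod p) • (a : ZMod p) = a
  rw [h1]
  simp

/-- `μ_p` is uniformly smooth for the local levels. -/
theorem muLoc_isUSmooth (q : Nat.Primes) : (localLevels q).IsUSmooth (muLoc p q) :=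
  mu_isUSmooth_pullback p (rl q)

/-- `μ_p` is one-dimensional. -/
theorem muLoc_finrank (q : Nat.Primes) : Module.finrank (ZMod p) (muLoc p q) = 1 :=
  Module.finrank_self (ZMod p)

/-- `μ_p` is one-dimensional (global version). -/
theorem mu_finrank : Module.finrank (ZMod p) (mu p) = 1 :=
  Module.finrank_self (ZMod p)

/-- **KL-A5** (body of `LocalMuSpec`). -/
theorem localMuSpec :
    ∀ (p : ℕ) [Fact p.Prime] (q : Nat.Primes),
      Module.finrank (ZMod p) (muLoc p q) = 1 ∧ (localLevels q).IsUSmooth (muLoc p q) :=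
  fun p _ q => ⟨muLoc_finrank p q, muLoc_isUSmooth p q⟩

end Fermat.Agent.S55.H587

end

end
-- ===== PACK-END S55/H587/LocalLevels.lean

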