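import Mathlib.GroupTheory.DoubleCoset
import Fermat.Agent.Pack.S56.E14L1
import Fermat.Agent.Pack.S56.E15L0
import Fermat.Agent.Pack.S56.E15L3
import Fermat.Agent.Pack.S56.E11L0
import Fermat.Agent.Pack.S56.E2L0
import Fermat.Agent.Pack.S56.E15L1
import Fermat.Agent.Pack.S56.E4L3
import Fermat.Agent.Pack.S56.E14L2
import Fermat.Agent.Pack.S56.E5L3
import Fermat.Agent.Pack.S56.E8L2
import Fermat.Agent.Pack.S56.E5L2
import Fermat.Agent.Pack.S56.E4L1
import Fermat.Agent.Pack.S56.E6L0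
import Fermat.Agent.Pack.S56.E14L3
import Fermat.Agent.Pack.S56.E15L2
import Fermat.Agent.Pack.S56.E6L2
import Fermat.Agent.Pack.S56.E11L3
import Fermat.Agent.Pack.S56.E14L0

-- ===== PACK-BEGIN S56/FL/CntBridgeRam.lean
section


/-!
# Row S56 — W-FLAT-SS, piece RAMCOUNT: the bridge to the abstract count, ramification fields
(helper426).  Sorry-free, Mathlib only.

The fields `F_normal, mem_F, F_zero, F_one, F_one', comm_rule, quot_formula, wild_pgroup,
frob_comm, tame_no_p, D_bound` of `H846.FLCnt.Hyp` for the data `RCDatum.cntData`, from the frozen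
ramification statements `RL*`.
-/

set_option autoImplicit false

open IsLocalRing

noncomputable section

namespace Fermat.Agent.S56.FL

namespace RCDatum

variable (d : RCDatum)

/-! ### `iQ` and membership -/

lemma iQ_bot (σ : d.Γ) : d.iQ ⊥ σ = Nat.card {n : ℕ | σ ∈ ramGroup d.B d.Γ n} := by
  unfold iQ
  have : {n : ℕ | σ ∈ d.qRam ⊥ n} = {n : ℕ | σ ∈ ramGroup d.B d.Γ n} := by
    ext n
    show σ ∈ d.qRam ⊥ n ↔ σ ∈ ramGroup d.B d.Γ n
    rw [d.qRam_bot n, SetLike.mem_coe]
  rw [this]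

/-- A downward closed set of natural numbers omitting some number is an initial segment. -/
lemma bridge_card_downset (S : Set ℕ) (hdown : ∀ n n', n ≤ n' → n' ∈ S → n ∈ S)
    (hex : ∃ n, n ∉ S) : ∀ n, n ∈ S ↔ n + 1 ≤ Nat.card S := by
  classical
  have hS : S = Set.Iio (Nat.find hex) := by
    ext n
    constructor
    · intro hn
      by_contra hlt
      exact Nat.find_spec hex (hdown _ _ (not_lt.mp hlt) hn)
    · intro hn
      by_contra hnS
      exact Nat.find_min hex hn hnS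
  intro n
  have hcard : Nat.card S = Nat.find hex := by
    conv_lhs => rw [hS]
    rw [Nat.card_eq_fintype_card]
    simp
  rw [hcard]
  conv_lhs => rw [hS]
  exact Iff.rfl

lemma mem_qRam_iff (hQ : RLQuotStatement) {N : Subgroup d.Γ} (hN : d.IsWildNormal N) (n : ℕ)
    (σ : d.Γ) : σ ∈ d.qRam N n ↔ σ ∈ N ∨ n + 1 ≤ d.iQ N σ := by
  by_cases hσ : σ ∈ N
  · simp only [hσ, true_or, iff_true]
    exact d.mem_qRam_of_mem N n hσ
  · simp only [hσ, false_or]
    obtain ⟨-, -, -, -, hsep, -⟩ := hQ d N hN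
    exact bridge_card_downset {n : ℕ | σ ∈ d.qRam N n}
      (fun n n' h hn' => d.qRam_anti N h hn') (hsep σ hσ) n

lemma qRamSub_normal (hQ : RLQuotStatement) {N : Subgroup d.Γ} (hN : d.IsWildNormal N) (n : ℕ) :
    (d.qRamSub N n).Normal := by
  obtain ⟨h1, -⟩ := hQ d N hN
  obtain ⟨F, hF, hFc⟩ := h1 n
  have : d.qRamSub N n = F := SetLike.coe_injective (by rw [hFc, coe_qRamSub])
  rw [this]
  exact hF

lemma isWildNormal_bot : d.IsWildNormal ⊥ := ⟨inferInstance, bot_le⟩

lemma ramGroup_normal (hQ : RLQuotStatement) (n : ℕ) : (ramGroup d.B d.Γ n).Normal := by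
  rw [← d.qRamSub_bot n]
  exact d.qRamSub_normal hQ d.isWildNormal_bot n

/-- The ramification filtration is eventually trivial. -/
lemma exists_ramGroup_eq_bot (hQ : RLQuotStatement) :
    ∃ n₀, ∀ n, n₀ ≤ n → ramGroup d.B d.Γ n = ⊥ := by
  classical
  obtain ⟨-, -, -, -, hsep, -⟩ := hQ d ⊥ d.isWildNormal_bot
  have hsep' : ∀ σ : d.Γ, σ ≠ 1 → ∃ n, σ ∉ ramGroup d.B d.Γ n := by
    intro σ hσ
    obtain ⟨n, hn⟩ := hsep σ (by simpa using hσ)
    exact ⟨n, fun h => hn (by rw [d.qRam_bot n]; exact h)⟩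
  choose! f hf using hsep'
  letI := Fintype.ofFinite d.Γ
  refine ⟨Finset.univ.sup f, fun n hn => ?_⟩
  rw [eq_bot_iff]
  intro σ hσ
  rw [Subgroup.mem_bot]
  by_contra h1
  exact hf σ h1 (d.ramGroup_anti ((Finset.le_sup (Finset.mem_univ σ)).trans hn) hσ)

/-! ### Double counting for Hilbert's formula -/

open Classical in
lemma card_ramGroup_sub_one [Fintype d.Γ] (n : ℕ) :
    Nat.card (ramGroup d.B d.Γ n) - 1 =
      ∑ σ : d.Γ, if σ ≠ 1 ∧ σ ∈ ramGroup d.B d.Γ n then 1 else 0 := by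
  rw [Finset.sum_boole]
  have h1 : (Finset.univ.filter fun σ : d.Γ => σ ≠ 1 ∧ σ ∈ ramGroup d.B d.Γ n) =
      (Finset.univ.filter fun σ : d.Γ => σ ∈ ramGroup d.B d.Γ n).erase 1 := by
    ext σ
    simp
  rw [h1, Finset.card_erase_of_mem (by simp [one_mem])]
  congr 1
  rw [Nat.card_eq_fintype_card, Fintype.card_subtype]

open Classical in
lemma iQ_bot_eq_sum (n₀ : ℕ)
    (hn₀ : ∀ n, n₀ ≤ n → ramGroup d.B d.Γ n = ⊥) {σ : d.Γ} (hσ : σ ≠ 1) :
    d.iQ ⊥ σ = ∑ n ∈ Finset.range n₀, if σ ∈ ramGroup d.B d.Γ n then 1 else 0 := by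
  rw [d.iQ_bot, Finset.sum_boole]
  have h1 : {n : ℕ | σ ∈ ramGroup d.B d.Γ n} =
      ((Finset.range n₀).filter fun n => σ ∈ ramGroup d.B d.Γ n : Finset ℕ) := by
    ext n
    simp only [Finset.coe_filter, Finset.mem_range, Set.mem_setOf_eq]
    constructor
    · intro h
      refine ⟨?_, h⟩
      by_contra hlt
      rw [hn₀ n (not_lt.mp hlt), Subgroup.mem_bot] at h
      exact hσ h
    · exact fun h => h.2
  rw [h1, Nat.card_eq_fintype_card]
  simp

open Classical in
lemma sum_card_ramGroup (hQ : RLQuotStatement) :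
    ∑ᶠ n : ℕ, (Nat.card (ramGroup d.B d.Γ n) - 1) =
      ∑ᶠ (σ : d.Γ) (_ : σ ∈ ramGroup d.B d.Γ 0) (_ : σ ≠ 1), d.iQ ⊥ σ := by
  letI := Fintype.ofFinite d.Γ
  obtain ⟨n₀, hn₀⟩ := d.exists_ramGroup_eq_bot hQ
  have hL : ∑ᶠ n : ℕ, (Nat.card (ramGroup d.B d.Γ n) - 1) =
      ∑ n ∈ Finset.range n₀, (Nat.card (ramGroup d.B d.Γ n) - 1) := by
    apply finsum_eq_sum_of_support_subset
    intro n hn
    rw [Function.mem_support] at hn
    rw [Finset.coe_range, Set.mem_Iio]
    by_contra hlt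
    apply hn
    rw [hn₀ n (not_lt.mp hlt), Subgroup.card_bot, Nat.sub_self]
  have hR : ∑ᶠ (σ : d.Γ) (_ : σ ∈ ramGroup d.B d.Γ 0) (_ : σ ≠ 1), d.iQ ⊥ σ =
      ∑ σ : d.Γ, ∑ n ∈ Finset.range n₀, if σ ≠ 1 ∧ σ ∈ ramGroup d.B d.Γ n then 1 else 0 := by
    rw [finsum_eq_sum_of_fintype]
    apply Finset.sum_congr rfl
    intro σ _
    rw [finsum_eq_if, finsum_eq_if]
    by_cases h1 : σ = 1
    · simp [h1]
    · simp only [ne_eq, h1, not_false_eq_true, if_true, true_and]
      by_cases h0 : σ ∈ ramGroup d.B d.Γ 0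
      · rw [if_pos h0]
        exact d.iQ_bot_eq_sum n₀ hn₀ h1
      · rw [if_neg h0]
        symm
        apply Finset.sum_eq_zero
        intro n _
        rw [if_neg]
        exact fun h => h0 (d.ramGroup_anti (Nat.zero_le n) h)
  rw [hL, hR, Finset.sum_comm]
  apply Finset.sum_congr rfl
  intro n _
  exact d.card_ramGroup_sub_one n

/-! ### The different bound -/

lemma maximalIdeal_pow_le_iff (a b : ℕ) :
    maximalIdeal d.B ^ a ≤ maximalIdeal d.B ^ b ↔ b ≤ a := by
  have hanti := Ideal.pow_right_strictAnti (maximalIdeal d.B)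
    (IsDiscreteValuationRing.not_a_field d.B) (Ideal.IsPrime.ne_top inferInstance)
  exact hanti.le_iff_ge

lemma three_le_p : 3 ≤ d.p := by
  have h2 := d.hp.two_le
  have := d.hp2
  omega

lemma bridge_D_bound (hQ : RLQuotStatement) (hH : RLHilbertStatement) (M : ℕ)
    (hcard : Nat.card (ramGroup d.B d.Γ 0) = (d.p - 1) * M) (hpM : d.p ∣ M) :
    (d.p - 1) * ∑ᶠ (σ : d.Γ) (_ : σ ∈ ramGroup d.B d.Γ 0) (_ : σ ≠ 1), d.iQ ⊥ σ
      ≤ d.p * Nat.card (ramGroup d.B d.Γ 0) := by
  obtain ⟨he', hdiff⟩ := hH d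
  have hp3 := d.three_le_p
  have hpos : 0 < Nat.card (ramGroup d.B d.Γ 0) := Nat.card_pos
  have hM : 0 < M := by
    rcases Nat.eq_zero_or_pos M with h | h
    · rw [h, mul_zero] at hcard; omega
    · exact h
  have hMp : d.p ≤ M := Nat.le_of_dvd hM hpM
  have he : d.e = (d.p - 1) * M := he'.trans hcard
  have hj1 : ¬ d.p ∣ M + 1 := by
    intro h
    have : d.p ∣ 1 := (Nat.dvd_add_right hpM).mp h
    have := Nat.le_of_dvd one_pos this
    omega
  have h2M : 2 * M ≤ (d.p - 1) * M := Nat.mul_le_mul_right M (by omega)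
  have hj2 : M + 1 < d.e := by rw [he]; omega
  have hj3 : d.e < (M + 1) * (d.p - 1) := by
    rw [he, add_mul, one_mul, mul_comm]; omega
  have hdvd := d.hD (M + 1) hj1 hj2 hj3
  rw [d.he, Nat.add_sub_cancel, ← pow_add, hdiff, Ideal.dvd_iff_le,
    d.maximalIdeal_pow_le_iff] at hdvd
  rw [← d.sum_card_ramGroup hQ, hcard]
  calc (d.p - 1) * ∑ᶠ n : ℕ, (Nat.card (ramGroup d.B d.Γ n) - 1)
      ≤ (d.p - 1) * (d.e + M) := Nat.mul_le_mul_left _ hdvd
    _ = d.p * ((d.p - 1) * M) := by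
        rw [he]
        obtain ⟨q, hq⟩ : ∃ q, d.p = q + 1 := ⟨d.p - 1, by omega⟩
        rw [hq, Nat.add_sub_cancel]
        ring

/-! ### The residue characteristic and tame inertia -/

lemma natCast_p_mem (hH : RLHilbertStatement) : (d.p : d.B) ∈ maximalIdeal d.B := by
  obtain ⟨he', -⟩ := hH d
  have hpos : 0 < Nat.card (ramGroup d.B d.Γ 0) := Nat.card_pos
  have h1 : (d.p : d.B) ∈ Ideal.span {(d.p : d.B)} := Ideal.mem_span_singleton_self _
  rw [d.he] at h1
  exact Ideal.pow_le_self (by omega) h1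

lemma charP_residue (hH : RLHilbertStatement) : CharP (ResidueField d.B) d.p := by
  rw [CharP.charP_iff_prime_eq_zero d.hp]
  have h1 : residue d.B (d.p : d.B) = 0 := (residue_eq_zero_iff _).mpr (d.natCast_p_mem hH)
  rwa [map_natCast] at h1

lemma pow_p_eq_one (hH : RLHilbertStatement) {x : ResidueField d.B} (hx : x ^ d.p = 1) :
    x = 1 := by
  haveI := d.charP_residue hH
  haveI : Fact d.p.Prime := ⟨d.hp⟩
  have h1 : (x - 1) ^ d.p = 0 := by
    rw [sub_pow_char, hx, one_pow, sub_self]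
  exact sub_eq_zero.mp (pow_eq_zero_iff (d.hp.ne_zero) |>.mp h1)

lemma bridge_tame_no_p (hQ : RLQuotStatement) (hH : RLHilbertStatement) {τ₀ φ : d.Γ}
    {μ : ResidueField d.B} (hT : d.TameData τ₀ φ μ) :
    ∀ σ ∈ ramGroup d.B d.Γ 0, σ ^ d.p ∈ ramGroup d.B d.Γ 1 → σ ∈ ramGroup d.B d.Γ 1 := by
  intro σ hσ hσp
  obtain ⟨-, hgen, hμ, -⟩ := hT
  obtain ⟨j, hj⟩ := hgen σ hσ
  haveI := d.ramGroup_normal hQ 1
  have hq : (QuotientGroup.mk σ : d.Γ ⧸ ramGroup d.B d.Γ 1) = QuotientGroup.mk (τ₀ ^ j) := by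
    rw [QuotientGroup.eq]
    have h2 : σ⁻¹ * (σ * (τ₀ ^ j)⁻¹)⁻¹ * σ⁻¹⁻¹ ∈ ramGroup d.B d.Γ 1 :=
      Subgroup.Normal.conj_mem inferInstance _ (inv_mem hj) σ⁻¹
    have h3 : σ⁻¹ * (σ * (τ₀ ^ j)⁻¹)⁻¹ * σ⁻¹⁻¹ = σ⁻¹ * τ₀ ^ j := by group
    rwa [h3] at h2
  have h4 : (QuotientGroup.mk (τ₀ ^ (j * d.p)) : d.Γ ⧸ ramGroup d.B d.Γ 1) = 1 := by
    rw [pow_mul, QuotientGroup.mk_pow, ← hq, ← QuotientGroup.mk_pow]
    exact (QuotientGroup.eq_one_iff _).mpr hσp
  have h5 : τ₀ ^ (j * d.p) ∈ ramGroup d.B d.Γ 1 := (QuotientGroup.eq_one_iff _).mp h4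
  have h6 : μ ^ j = 1 := by
    apply d.pow_p_eq_one hH
    rw [← pow_mul]
    exact (hμ _).mp h5
  have h7 : τ₀ ^ j ∈ ramGroup d.B d.Γ 1 := (hμ j).mpr h6
  have : σ = (σ * (τ₀ ^ j)⁻¹) * τ₀ ^ j := by group
  rw [this]
  exact mul_mem hj h7

end RCDatum

end Fermat.Agent.S56.FL

end

end
-- ===== PACK-END S56/FL/CntBridgeRam.lean

-- ===== PACK-BEGIN S55/Inv/Spec2.lean
section


/-!
# S55 / `InvSpec` : FROZEN SUB-INTERFACE, part 2 (sub-architect helper3)

`LocalInvRecipSpec` (INV-1 of `Inv/Spec.lean`) is reduced in `Inv/Top2.lean` (complete) to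
invariant-free statements:

* `WeakRecipSpec p S` : a global class of `H²_S(μ_p)` (over `ℚ`) with at most one non-zero local
                        component (`v ∈ S`) has no non-zero local component;
* `LocH2NeSpec p S`   : `H²(G_v, μ_p) ≠ 0` for `v ∈ S`;
* `MuLevelSpec p S`   : some normal `S`-level acts trivially on `μ_p` (`ℚ(μ_p)`, `p ∈ S`);
* `GlobCokerSpec`, `Surj2LocSpec`.

Final form:  `PT.InvSpec ⇐ Surj2LocSpec ∧ LocDimSpec ∧ GlobCokerSpec ∧ WeakRecipSpec ∧ LocH2NeSpec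
∧ MuLevelSpec`  (`Inv/Top2.lean: invSpec_of'`).  No invariant map, no corestriction, no cup
product appears in any input.
-/

set_option autoImplicit false

noncomputable section

namespace Fermat.Agent.S55.Inv

open Fermat.Agent.S55.PT groupCohomology ExtCitation

variable (p : ℕ) [Fact p.Prime] (S : Finset Nat.Primes)

/-- **INV-4 (weak reciprocity over `ℚ`).**  If a global class `y ∈ H²_S(μ_p)` is locally trivial
at all `v' ∈ S` different from `v`, then it is locally trivial at `v` as well. -/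
def WeakRecipSpec : Prop :=
  ∀ (y : (globalLevels S).H2 (mu p)) (v : ↥S),
    (∀ v' : ↥S, v' ≠ v → resH2 (hrl S v') (mu p) y = 0) → resH2 (hrl S v) (mu p) y = 0

/-- **INV-5 (local non-vanishing).**  `H²(G_v, μ_p) ≠ 0` for `v ∈ S`  (`Br(ℚ_v)[p] ≠ 0`). -/
def LocH2NeSpec : Prop :=
  ∀ v : ↥S, ∃ x : (localLevels v.1).H2 (muLoc p v.1), x ≠ 0

/-- **INV-6 (`μ_p` lives at a level).**  Some normal global level acts trivially on `μ_p`. -/
def MuLevelSpec : Prop :=
  ∃ U : Subgroup GQ, U ∈ (globalLevels S).levels ∧ U.Normal ∧ ∀ s ∈ U, (mu p).ρ s = 1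

end Fermat.Agent.S55.Inv

end

end
-- ===== PACK-END S55/Inv/Spec2.lean

-- ===== PACK-BEGIN S55/Local/H953/T3p.lean
section



/-!
# S55, layer L: (T3') `CyclicH2CardStatement`, unconditional

`|H²(Gal(L/K), Lˣ)| = [L : K]` for `L / K` cyclic: helper717's glue `cyclicH2Card_of` applied to
`cyclicNormIndex` (T3).
-/

set_option autoImplicit false

namespace Fermat.Agent.S55.Local.H953

/-- **(T3')** `|H²(Gal(L/K), Lˣ)| = [L : K]` for `L / K` cyclic. -/
theorem cyclicH2Card : CyclicH2CardStatement :=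
  Fermat.Agent.S55.Local.H717.cyclicH2Card_of cyclicNormIndex

end Fermat.Agent.S55.Local.H953

end
-- ===== PACK-END S55/Local/H953/T3p.lean

-- ===== PACK-BEGIN S55/L/UnrInv/BaseChange.lean
section


/-!
# S55, layer L, unramified invariants: base change

`K ⊆ K'`, `E ⊆ E'`, `K' ⊆ E'`, with `E/K` and `E'/K'` unramified Galois.  If the cocycle `c'` on
`Gal(E'/K')` is the base change of the cocycle `c` on `Gal(E/K)` then
`inv' [c'] = [K' : K] • inv [c]`.
-/

set_option autoImplicit false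
set_option linter.style.haveILetI false

namespace Fermat.Agent.S55.L.UnrInv

open groupCohomology

section BaseChange

variable {K K' E E' : Type} [Field K] [Field K'] [Field E] [Field E']
  [Algebra K K'] [Algebra K E] [Algebra K' E'] [Algebra E E'] [Algebra K E']
  [IsScalarTower K K' E'] [IsScalarTower K E E']

variable (K E) in
/-- The restriction homomorphism `Gal(E'/K') → Gal(E/K)`. -/
noncomputable def bcHom [Normal K E] : (E' ≃ₐ[K'] E') →* (E ≃ₐ[K] E) :=
  (AlgEquiv.restrictNormalHom E).comp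
    (MonoidHom.mk' (fun τ : E' ≃ₐ[K'] E' => τ.restrictScalars K) (fun _ _ => rfl))

theorem bcHom_apply [Normal K E] (g : E' ≃ₐ[K'] E') :
    bcHom K E g = AlgEquiv.restrictNormalHom E (g.restrictScalars K) := rfl

theorem algebraMap_bcHom [Normal K E] (g : E' ≃ₐ[K'] E') (x : E) :
    algebraMap E E' (bcHom K E g x) = g (algebraMap E E' x) :=
  AlgEquiv.restrictNormal_commutes (g.restrictScalars K) E x

variable [FiniteDimensional K K'] [FiniteDimensional K E] [FiniteDimensional K' E']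
  [IsGalois K E] [IsGalois K' E'] [IsLocalFld K] [IsLocalFld K']

/-- The Frobenius of `E'/K'` restricts to the `f`-th power of the Frobenius of `E/K`, and the
valuation of `E'` restricts to `e` times the valuation of `E`, with `e f = [K' : K]`. -/
theorem exists_ef (h1 : FiniteExtSpec) (hint : IntegersComapSpec) (hres : ResidueDegreeSpec)
    (P : UnrPack K E) (P' : UnrPack K' E') :
    ∃ e f : ℕ, e * f = Module.finrank K K' ∧ bcHom K E P'.φ = P.φ ^ f ∧
      ∀ y : E, y ≠ 0 → ordZ P'.B P'.hB.1 (algebraMap E E' y) = e * ordZ P.B P.hB.1 y := by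
  haveI : IsLocalFld E := h1 K E
  haveI : FiniteDimensional K E' := FiniteDimensional.trans K K' E'
  haveI : FiniteDimensional E E' := FiniteDimensional.right K E E'
  obtain ⟨π, hπ⟩ := exists_isUniformizer P.A P.hA.1
  obtain ⟨π', hπ'⟩ := exists_isUniformizer P'.A P'.hA.1
  obtain ⟨e, f, hef, ⟨u, hu, hu', hπu⟩, hq⟩ := hres K K' P.A P'.A π π' P.hA P'.hA hπ hπ'
  have hιB : ∀ x : E, algebraMap E E' x ∈ P'.B ↔ x ∈ P.B := hint E E' P.B P'.B P.hB P'.hB
  refine ⟨e, f, hef, ?_, ?_⟩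
  · -- Frobenius
    apply P.eq_frob_pow
    intro x hx
    rw [← algebraMap_mem_nonunits_iff hint P.B P'.B P.hB P'.hB, map_sub, map_pow,
      algebraMap_bcHom, ← hq]
    exact P'.frob _ ((hιB x).mpr hx)
  · -- valuations
    intro y hy
    have hπ0 : π ≠ 0 := uniformizer_ne_zero P.A hπ
    have hπ'0 : π' ≠ 0 := uniformizer_ne_zero P'.A hπ'
    have hu0 : u ≠ 0 := by
      rintro rfl
      rw [zero_mul] at hπu
      exact hπ0 ((map_eq_zero _).mp hπu)
    have h2 := ordZ_map' P.B P.hB.1 P'.B P'.hB.1 (algebraMap E E') (fun x hx => (hιB x).mpr hx)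
      (P.ordπ π hπ) ((map_ne_zero _).mpr hπ0) hy
    rw [h2]
    congr 1
    have h3 : algebraMap E E' (algebraMap K E π) =
        algebraMap K' E' u * (algebraMap K' E' π') ^ e := by
      rw [← IsScalarTower.algebraMap_apply K E E', IsScalarTower.algebraMap_apply K K' E', hπu,
        map_mul, map_pow]
    have h4 : ordZ P'.B P'.hB.1 (algebraMap K' E' u) = 0 := by
      rw [ordZ_eq_zero_iff P'.B P'.hB.1 ((map_ne_zero _).mpr hu0), ← map_inv₀]
      exact ⟨(P'.intAB u).mpr hu, (P'.intAB u⁻¹).mpr hu'⟩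
    rw [h3, ordZ_mul P'.B P'.hB.1 ((map_ne_zero _).mpr hu0)
      (pow_ne_zero _ ((map_ne_zero _).mpr hπ'0)), h4, ordZ_pow, P'.ordπ π' hπ']
    ring

theorem coe_eq_coe_of_sub_eq_intCast {x y : ℚ} (k : ℤ) (h : x - y = k) :
    (x : AddCircle (1 : ℚ)) = (y : AddCircle (1 : ℚ)) := by
  have hx : x = y + (k : ℚ) := by rw [← h]; ring
  rw [hx, AddCircle.coe_add]
  have : ((k : ℚ) : AddCircle (1 : ℚ)) = 0 := by
    rw [AddCircle.coe_eq_zero_iff]
    exact ⟨k, by simp⟩
  rw [this, add_zero]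

/-- **Base change** for the invariant maps of unramified extensions. -/
theorem inv_baseChange (h1 : FiniteExtSpec) (hint : IntegersComapSpec) (hres : ResidueDegreeSpec)
    (P : UnrPack K E) (P' : UnrPack K' E')
    (c : cocycles₂ (unitsRep K E)) (c' : cocycles₂ (unitsRep K' E'))
    (hbc : ∀ g h : E' ≃ₐ[K'] E', (c' : _ × _ → unitsRep K' E') (g, h) =
      Additive.ofMul (Units.map (algebraMap E E' : E →* E')
        (Additive.toMul (α := Eˣ)
          ((c : _ × _ → unitsRep K E) (bcHom K E g, bcHom K E h))))) :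
    P'.inv (cls c') = Module.finrank K K' • P.inv (cls c) := by
  obtain ⟨e, f, hef, hφ, hord⟩ := exists_ef h1 hint hres P P'
  have hn : 0 < Module.finrank K E := Module.finrank_pos
  have hn' : 0 < Module.finrank K' E' := Module.finrank_pos
  -- order
  have hpow : (P.φ ^ f) ^ Module.finrank K' E' = 1 := by
    rw [← hφ, ← map_pow, P'.frob_pow_finrank, map_one]
  obtain ⟨m, hm⟩ : ∃ m, f * Module.finrank K' E' = m * Module.finrank K E := by
    have : orderOf P.φ ∣ f * Module.finrank K' E' :=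
      orderOf_dvd_of_pow_eq_one (by rw [pow_mul]; exact hpow)
    rw [P.orderOf_frob] at this
    obtain ⟨m, hm⟩ := this
    exact ⟨m, by rw [hm, mul_comm]⟩
  -- the sum
  have hw : P'.w (cycSum P'.φ (Module.finrank K' E') (c' : _ × _ → unitsRep K' E')) =
      e * P.w (∑ i ∈ Finset.range (Module.finrank K' E'),
        (c : _ × _ → unitsRep K E) (P.φ ^ (f * i), P.φ ^ f)) := by
    unfold cycSum
    rw [map_sum, map_sum, Finset.mul_sum]
    apply Finset.sum_congr rfl
    intro i _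
    rw [hbc, map_pow, hφ, ← pow_mul, P'.w_apply, P.w_apply]
    exact hord _ (Units.ne_zero _)
  rw [P'.inv_cls, P.inv_cls, hw,
    w_sum_pow_mul c P.φ (Module.finrank K E) f (Module.finrank K' E') m P.frob_pow_finrank hm
      P.w P.w_invariant, ← AddCircle.coe_nsmul, ← hef]
  set W := P.w (cycSum P.φ (Module.finrank K E) (c : _ × _ → unitsRep K E)) with hW
  set Z := P.w ((c : _ × _ → unitsRep K E) (1, 1) -
    ∑ j ∈ Finset.range f, (c : _ × _ → unitsRep K E) (P.φ ^ j, P.φ)) with hZ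
  apply coe_eq_coe_of_sub_eq_intCast ((e : ℤ) * Z)
  have hm' : (f : ℚ) * (Module.finrank K' E' : ℚ) = (m : ℚ) * (Module.finrank K E : ℚ) := by
    exact_mod_cast hm
  have hnq : (Module.finrank K E : ℚ) ≠ 0 := by exact_mod_cast hn.ne'
  have hnq' : (Module.finrank K' E' : ℚ) ≠ 0 := by exact_mod_cast hn'.ne'
  push_cast
  rw [nsmul_eq_mul]
  push_cast
  field_simp
  linear_combination (-(e : ℚ) * (W : ℚ)) * hm'

end BaseChange

end Fermat.Agent.S55.L.UnrInv

end
-- ===== PACK-END S55/L/UnrInv/BaseChange.lean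

-- ===== PACK-BEGIN S55/L/Inv481/Datum.lean
section



/-!
# S55 / layer L / leaf L-C2 (helper481): data computing the invariant

A *datum* for `(K, L)` is a finite Galois extension `M/K` receiving `L` and an unramified
extension `E/K`.  If `infl_L x = infl_E y` in `H²(M/K)` we want `inv x := inv_E y`.  This file
proves existence of data computing every class (`exists_good`) and independence of the datum
(`unr_inv_eq`).
-/

set_option autoImplicit false
set_option linter.style.haveILetI false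

namespace Fermat.Agent.S55.L.Inv481

open groupCohomology

section FieldRange

variable {K E M : Type} [Field K] [Field E] [Field M] [Algebra K E] [Algebra K M]

/-- the isomorphism of a field onto the range of an embedding, as an intermediate field -/
noncomputable def equivFieldRange (g : E →ₐ[K] M) : E ≃ₐ[K] g.fieldRange :=
  AlgEquiv.ofBijective (algHomCodRestrict g g.fieldRange (fun x => ⟨x, rfl⟩))
    ⟨fun _ _ h => g.injective (congrArg Subtype.val h), fun ⟨_, x, hx⟩ => ⟨x, Subtype.ext hx⟩⟩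

theorem isUnramifiedExt_fieldRange (g : E →ₐ[K] M) (hu : IsUnramifiedExt K E) :
    IsUnramifiedExt K g.fieldRange :=
  isUnramifiedExt_of_algEquiv (equivFieldRange g) hu

theorem finrank_fieldRange (g : E →ₐ[K] M) :
    Module.finrank K g.fieldRange = Module.finrank K E :=
  (equivFieldRange g).toLinearEquiv.finrank_eq.symm

end FieldRange

section UnrEmb

variable (U : UnrInvFamily)

/-- the unramified invariants are compatible with embeddings of unramified extensions -/
theorem unr_inv_emb {K E₁ E₃ : Type} [Field K] [Field E₁] [Field E₃] [Algebra K E₁]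
    [Algebra K E₃] [FiniteDimensional K E₁] [FiniteDimensional K E₃] [IsGalois K E₁]
    [IsGalois K E₃] [IsLocalFld K] (hu₁ : IsUnramifiedExt K E₁) (hu₃ : IsUnramifiedExt K E₃)
    (c : E₁ →ₐ[K] E₃) (y : H2 (unitsRep K E₁)) :
    U.inv K E₃ ((embPair c).pull y) = U.inv K E₁ y := by
  letI : Algebra E₁ E₃ := c.toRingHom.toAlgebra
  haveI : IsScalarTower K E₁ E₃ :=
    IsScalarTower.of_algebraMap_eq (fun x => (c.commutes x).symm)
  obtain ⟨f, rfl⟩ := exists_cls_eq y
  have h := U.inv_baseChange K K E₁ E₃ hu₁ hu₃ f ((bcPair K K E₁ E₃).pullCocycle f)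
    ((isBaseChange_iff_isPull _ _).mpr (GalPair.isPull_pullCocycle _ _))
  rw [Module.finrank_self, one_smul, ← GalPair.pull_cls] at h
  rw [← h]
  exact congrArg _ (GalPair.pull_eq_of_ι_eq rfl _)

end UnrEmb

section LemmaW

variable (U : UnrInvFamily) (hEx : UnramifiedExistsSpec) (hCyc : UnramifiedCyclicSpec)
  (hNest : UnrNestSpec)

include hEx hCyc hNest in
/-- **Independence of the datum.** -/
theorem unr_inv_eq {K L : Type} [Field K] [Field L] [Algebra K L] [Normal K L] [IsLocalFld K]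
    {M₁ E₁ M₂ E₂ : Type} [Field M₁] [Field E₁] [Field M₂] [Field E₂]
    [Algebra K M₁] [Algebra K E₁] [Algebra K M₂] [Algebra K E₂]
    [FiniteDimensional K M₁] [IsGalois K M₁] [FiniteDimensional K E₁] [IsGalois K E₁]
    [FiniteDimensional K M₂] [IsGalois K M₂] [FiniteDimensional K E₂] [IsGalois K E₂]
    (hu₁ : IsUnramifiedExt K E₁) (hu₂ : IsUnramifiedExt K E₂)
    (a₁ : L →ₐ[K] M₁) (b₁ : E₁ →ₐ[K] M₁) (a₂ : L →ₐ[K] M₂) (b₂ : E₂ →ₐ[K] M₂)
    (x : H2 (unitsRep K L)) (y₁ : H2 (unitsRep K E₁)) (y₂ : H2 (unitsRep K E₂))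
    (h₁ : (embPair b₁).pull y₁ = (embPair a₁).pull x)
    (h₂ : (embPair b₂).pull y₂ = (embPair a₂).pull x) :
    U.inv K E₁ y₁ = U.inv K E₂ y₂ := by
  haveI : CharZero K := IsLocalFld.charZero
  -- amalgamate `M₁`, `M₂` over `L`
  obtain ⟨M₃, fM₃, aM₃, fdM₃, gM₃, j₁, j₂, hj⟩ := exists_amalgam K L M₁ M₂ a₁ a₂
  -- a big unramified extension
  have hm : 0 < Module.finrank K E₁ * Module.finrank K E₂ :=
    Nat.mul_pos Module.finrank_pos Module.finrank_pos
  obtain ⟨E₃, fE₃, aE₃, fdE₃, hu₃, hdeg₃⟩ := hEx K _ hm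
  haveI gE₃ : IsGalois K E₃ := (hCyc K E₃ hu₃).1
  -- amalgamate `M₃`, `E₃` over `K`
  obtain ⟨M₄, fM₄, aM₄, fdM₄, gM₄, k₃, k, -⟩ :=
    exists_amalgam K K M₃ E₃ (Algebra.ofId K M₃) (Algebra.ofId K E₃)
  -- the images of `E₁`, `E₂` lie in the image of `E₃`
  have hle₁ : (k₃.comp (j₁.comp b₁)).fieldRange ≤ k.fieldRange := by
    apply hNest K M₄ _ _ (isUnramifiedExt_fieldRange _ hu₁) (isUnramifiedExt_fieldRange _ hu₃)
    rw [finrank_fieldRange, finrank_fieldRange, hdeg₃]
    exact dvd_mul_right _ _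
  have hle₂ : (k₃.comp (j₂.comp b₂)).fieldRange ≤ k.fieldRange := by
    apply hNest K M₄ _ _ (isUnramifiedExt_fieldRange _ hu₂) (isUnramifiedExt_fieldRange _ hu₃)
    rw [finrank_fieldRange, finrank_fieldRange, hdeg₃]
    exact dvd_mul_left _ _
  obtain ⟨c₁, hc₁⟩ := exists_factor k _ hle₁
  obtain ⟨c₂, hc₂⟩ := exists_factor k _ hle₂
  rw [← unr_inv_emb U hu₁ hu₃ c₁ y₁, ← unr_inv_emb U hu₂ hu₃ c₂ y₂]
  congr 1
  apply embPair_pull_injective k
  have e₁ : (embPair k).pull ((embPair c₁).pull y₁) =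
      (embPair (k₃.comp j₁)).pull ((embPair a₁).pull x) := by
    rw [← embPair_pull_comp, hc₁, ← AlgHom.comp_assoc, embPair_pull_comp b₁, h₁]
  have e₂ : (embPair k).pull ((embPair c₂).pull y₂) =
      (embPair (k₃.comp j₂)).pull ((embPair a₂).pull x) := by
    rw [← embPair_pull_comp, hc₂, ← AlgHom.comp_assoc, embPair_pull_comp b₂, h₂]
  rw [e₁, e₂, ← embPair_pull_comp, ← embPair_pull_comp, AlgHom.comp_assoc, AlgHom.comp_assoc,
    hj]

end LemmaW

section DatumDef

/-- A datum for `(K, L)`: a finite Galois extension `M/K` receiving `L` and an unramified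
extension `E/K` (finite, Galois). -/
structure Datum (K L : Type) [Field K] [Field L] [Algebra K L] where
  /-- the big Galois extension -/
  M : Type
  /-- the unramified extension -/
  E : Type
  [fieldM : Field M]
  [fieldE : Field E]
  [algM : Algebra K M]
  [algE : Algebra K E]
  [fdM : FiniteDimensional K M]
  [galM : IsGalois K M]
  [fdE : FiniteDimensional K E]
  [galE : IsGalois K E]
  /-- `E/K` is unramified -/
  unr : IsUnramifiedExt K E
  /-- the embedding of `L` -/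
  jL : L →ₐ[K] M
  /-- the embedding of `E` -/
  jE : E →ₐ[K] M

attribute [instance] Datum.fieldM Datum.fieldE Datum.algM Datum.algE Datum.fdM Datum.galM
  Datum.fdE Datum.galE

variable {K L : Type} [Field K] [Field L] [Algebra K L] [Normal K L]

/-- A datum is good if every class of `H²(L/K)` becomes unramified (comes from `E`) in `M`. -/
def Datum.Good (D : Datum K L) : Prop :=
  (embPair D.jL).pull.range ≤ (embPair D.jE).pull.range

/-- the comparison map `H²(L/K) → H²(E/K)` of a good datum -/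
noncomputable def Datum.phi (D : Datum K L) (hD : D.Good) :
    H2 (unitsRep K L) →+ H2 (unitsRep K D.E) :=
  (AddMonoidHom.ofInjective (embPair_pull_injective D.jE)).symm.toAddMonoidHom.comp
    ((embPair D.jL).pull.codRestrict (embPair D.jE).pull.range (fun x => hD ⟨x, rfl⟩))

theorem Datum.phi_spec (D : Datum K L) (hD : D.Good) (x : H2 (unitsRep K L)) :
    (embPair D.jE).pull (D.phi hD x) = (embPair D.jL).pull x :=
  AddMonoidHom.apply_ofInjective_symm (embPair_pull_injective D.jE) _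

theorem Datum.phi_injective (D : Datum K L) (hD : D.Good) : Function.Injective (D.phi hD) := by
  intro x x' h
  apply embPair_pull_injective D.jL
  rw [← D.phi_spec hD x, ← D.phi_spec hD x', h]

end DatumDef

section Exists

variable (hEx : UnramifiedExistsSpec) (hCyc : UnramifiedCyclicSpec) (hH2 : H2CyclicSpec)

include hEx hCyc hH2 in
/-- **Every class becomes unramified**: good data exist. -/
theorem exists_good (K L : Type) [Field K] [Field L] [Algebra K L] [FiniteDimensional K L]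
    [IsGalois K L] [IsLocalFld K] : ∃ D : Datum K L, D.Good := by
  haveI : CharZero K := IsLocalFld.charZero
  have hn : 0 < Module.finrank K L := Module.finrank_pos
  obtain ⟨E, fE, aE, fdE, hu, hdeg⟩ := hEx K _ hn
  haveI gE : IsGalois K E := (hCyc K E hu).1
  obtain ⟨M, fM, aM, fdM, gM, jL, jE, -⟩ :=
    exists_amalgam K K L E (Algebra.ofId K L) (Algebra.ofId K E)
  refine ⟨{ M := M, E := E, unr := hu, jL := jL, jE := jE }, ?_⟩
  obtain ⟨eM⟩ := hH2 K M
  obtain ⟨eL⟩ := hH2 K L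
  obtain ⟨eE⟩ := hH2 K E
  rw [hdeg] at eE
  haveI : NeZero (Module.finrank K M) := ⟨(Module.finrank_pos (R := K) (M := M)).ne'⟩
  exact (range_eq_range_of_cyclic (Module.finrank K L) (Module.finrank K M) hn eM eL eE
    (embPair jL).pull (embPair_pull_injective jL) (embPair jE).pull
    (embPair_pull_injective jE)).le

end Exists

end Fermat.Agent.S55.L.Inv481

end
-- ===== PACK-END S55/L/Inv481/Datum.lean

-- ===== PACK-BEGIN S55/E1/H793/Alg10Comp.lean
section


/-!
# S55 / E1 : ALG10C (subtask 479) — functoriality of the transition maps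

`alg10Comp : ALG10CompSpec` and `alg10CompE2 : ALG10CompE2Spec`:
`tr ∘ tr = tr` along `G'' → G' → G` on `P`, `R`, `𝔈²` and `Hⁿ`.
-/

set_option autoImplicit false

open CategoryTheory CategoryTheory.Limits

namespace Fermat.Agent.S55.E1.H793

open Fermat.Agent.S55.E1

section

variable {G G' G'' : Type} [Group G] [Group G'] [Group G''] (π : G' →* G) (π' : G'' →* G')
variable {N : Rep.{0} ℤ G} {N' : Rep.{0} ℤ G'} {N'' : Rep.{0} ℤ G''}
variable (ν : N' ⟶ Rep.res π N) (ν' : N'' ⟶ Rep.res π' N') (ν'' : N'' ⟶ Rep.res (π.comp π') N)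

/-- The inclusion `R → P` is injective on elements. -/
lemma stdι_hom_injective {H : Type} [Group H] (M : Rep.{0} ℤ H) :
    Function.Injective (stdι M).hom :=
  (Rep.mono_iff_injective (stdι M)).1 (stdι_mono M)

/-- `tr ∘ tr = tr` on `P`, as morphisms. -/
lemma trP_comp_eq (hν : ∀ n : N''.V, ν''.hom n = ν.hom (ν'.hom n)) :
    trP (π.comp π') ν'' = trP π' ν' ≫ (Rep.resFunctor π').map (trP π ν) := by
  apply Rep.free_ext
  intro n
  have h1 := trP_stdE (π.comp π') ν'' n
  have h2 := trP_stdE π' ν' n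
  have h3 := trP_stdE π ν (ν'.hom n)
  unfold stdE at h1 h2 h3
  rw [Rep.comp_apply]
  erw [h1, h2]
  rw [hν]
  exact h3.symm

/-- `tr ∘ tr = tr` on `P`, elementwise. -/
lemma trP_comp_apply (hν : ∀ n : N''.V, ν''.hom n = ν.hom (ν'.hom n)) (x : (stdP N'').V) :
    (trP (π.comp π') ν'').hom x = (trP π ν).hom ((trP π' ν').hom x) := by
  have := congrArg (fun f => f.hom x) (trP_comp_eq π π' ν ν' ν'' hν)
  exact this

/-- `tr ∘ tr = tr` on `R`, elementwise. -/
lemma trR_comp_apply (hν : ∀ n : N''.V, ν''.hom n = ν.hom (ν'.hom n)) (r : (stdR N'').V) :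
    (trR (π.comp π') ν'').hom r = (trR π ν).hom ((trR π' ν').hom r) := by
  apply stdι_hom_injective N
  rw [trR_stdι_apply, trR_stdι_apply, trR_stdι_apply]
  exact trP_comp_apply π π' ν ν' ν'' hν _

end

/-- **ALG10 (functoriality)** on `P` and `R`. -/
theorem alg10Comp : ALG10CompSpec := by
  intro G G' G'' _ _ _ π π' N N' N'' ν ν' ν'' hν
  exact ⟨trP_comp_apply π π' ν ν' ν'' hν, trR_comp_apply π π' ν ν' ν'' hν⟩

section

variable {k G G' G'' : Type} [CommRing k] [Group G] [Group G'] [Group G'']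
variable (π : G' →* G) (π' : G'' →* G')
variable {A X : Rep.{0} k G} {A' X' : Rep.{0} k G'} {A'' X'' : Rep.{0} k G''}

/-- Composition of the coefficient maps `φ ↦ ι ∘ φ ∘ a`. -/
lemma trIhom_comp_eq (a : A' ⟶ Rep.res π A) (a' : A'' ⟶ Rep.res π' A')
    (a'' : A'' ⟶ Rep.res (π.comp π') A)
    (ι : Rep.res π X ⟶ X') (ι' : Rep.res π' X' ⟶ X'') (ι'' : Rep.res (π.comp π') X ⟶ X'')
    (ha : ∀ x : A''.V, a''.hom x = a.hom (a'.hom x))
    (hι : ∀ x : X.V, ι''.hom x = ι'.hom (ι.hom x)) :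
    trIhom (π.comp π') a'' ι'' = (Rep.resFunctor π').map (trIhom π a ι) ≫ trIhom π' a' ι' := by
  apply Rep.hom_ext
  apply DFunLike.ext
  intro φ
  have key : ∀ x : A''.V,
      (show A''.V →ₗ[k] X''.V from (trIhom (π.comp π') a'' ι'').hom φ) x =
        (show A''.V →ₗ[k] X''.V from
          ((Rep.resFunctor π').map (trIhom π a ι) ≫ trIhom π' a' ι').hom φ) x := by
    intro x
    change ι''.hom ((show A.V →ₗ[k] X.V from φ) (a''.hom x)) =
      ι'.hom (ι.hom ((show A.V →ₗ[k] X.V from φ) (a.hom (a'.hom x))))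
    rw [ha, hι]
  exact LinearMap.ext key

/-- Composition of the coefficient maps, degenerate case. -/
lemma iota_comp_eq (ι : Rep.res π X ⟶ X') (ι' : Rep.res π' X' ⟶ X'')
    (ι'' : Rep.res (π.comp π') X ⟶ X'') (hι : ∀ x : X.V, ι''.hom x = ι'.hom (ι.hom x)) :
    ι'' = (Rep.resFunctor π').map ι ≫ ι' := by
  apply Rep.hom_ext
  apply DFunLike.ext
  intro x
  exact hι x

end

/-- **ALG10 (functoriality on `𝔈²` and `Hⁿ`).** -/
theorem alg10CompE2 : ALG10CompE2Spec := by
  intro G G' G'' _ _ _ π π' N N' N'' ν ν' ν'' X X' X'' ι ι' ι'' hν hι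
  refine ⟨?_, ?_⟩
  · intro y
    have h1 : trIhom (π.comp π') (trR (π.comp π') ν'') ι'' =
        (Rep.resFunctor π').map (trIhom π (trR π ν) ι) ≫ trIhom π' (trR π' ν') ι' :=
      trIhom_comp_eq π π' (trR π ν) (trR π' ν') (trR (π.comp π') ν'') ι ι' ι''
        (trR_comp_apply π π' ν ν' ν'' hν) hι
    have h2 := groupCohomology.map_comp π π' (trIhom π (trR π ν) ι) (trIhom π' (trR π' ν') ι') 1
    unfold trE2
    rw [h1, h2]
    rfl
  · intro n z
    have h1 := iota_comp_eq π π' ι ι' ι'' hι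
    have h2 := groupCohomology.map_comp π π' ι ι' n
    unfold infCoeff
    rw [h1, h2]
    rfl

end Fermat.Agent.S55.E1.H793

end
-- ===== PACK-END S55/E1/H793/Alg10Comp.lean

-- ===== PACK-BEGIN S55/E1/H245/Alg10Pair.lean
section
/-
S55 engine E1 — leaf ALG10P (pairing formula), helper245.
`alg10Pair : ALG10PairSpec` (exact frozen type of `E1/SpecAlg3.lean`):
`⟨tr f, inf x⟩ = inf_ι ⟨f, x⟩`.

Proof: `(trR, trP, ν)` is a morphism of short exact sequences `(R', P', N') → res π (R, P, N)`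
of `G'`-modules; naturality of `δ` for coefficient morphisms (Mathlib) and under change of
group (`H783.δ_naturality_map`, on main) plus `groupCohomology.map_comp`.
-/



set_option autoImplicit false

open CategoryTheory CategoryTheory.Limits groupCohomology

namespace Fermat.Agent.S55.E1.H245

noncomputable section

variable {G G' : Type} [Group G] [Group G'] (π : G' →* G)

/-- `map π φ` followed by a coefficient map. -/
lemma map_then_coeff {A : Rep.{0} ℤ G} {B C : Rep.{0} ℤ G'} (φ : Rep.res π A ⟶ B) (ψ : B ⟶ C)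
    (n : ℕ) (z : groupCohomology A n) :
    (T.coeffMap ψ n).hom ((groupCohomology.map π φ n).hom z) =
      (groupCohomology.map π (φ ≫ ψ) n).hom z := by
  have h := groupCohomology.map_comp (k := ℤ) π (MonoidHom.id G') φ ψ n
  have h' : groupCohomology.map π (φ ≫ ψ) n =
      groupCohomology.map π φ n ≫ groupCohomology.map (MonoidHom.id G') ψ n := by
    rw [← h]
    exact groupCohomology.map_congr rfl rfl n
  rw [h']
  rfl

/-- A coefficient map followed by `map π φ`. -/
lemma coeff_then_map {A A₂ : Rep.{0} ℤ G} {B : Rep.{0} ℤ G'} (f : A ⟶ A₂)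
    (φ : Rep.res π A₂ ⟶ B) (n : ℕ) (z : groupCohomology A n) :
    (groupCohomology.map π φ n).hom ((T.coeffMap f n).hom z) =
      (groupCohomology.map π ((Rep.resFunctor π).map f ≫ φ) n).hom z := by
  have h := groupCohomology.map_comp (k := ℤ) (MonoidHom.id G) π f φ n
  have h' : groupCohomology.map π ((Rep.resFunctor π).map f ≫ φ) n =
      groupCohomology.map (MonoidHom.id G) f n ≫ groupCohomology.map π φ n := by
    rw [← h]
    exact groupCohomology.map_congr rfl rfl n
  rw [h']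
  rfl

variable {N : Rep.{0} ℤ G} {N' : Rep.{0} ℤ G'}

/-- The morphism of short complexes `(R', P', N') ⟶ res π (R, P, N)`. -/
def trSC (ν : N' ⟶ Rep.res π N) : stdSC N' ⟶ (stdSC N).map (Rep.resFunctor π) where
  τ₁ := trR π ν
  τ₂ := trP π ν
  τ₃ := ν
  comm₁₂ := trR_stdι π ν
  comm₂₃ := trP_stdε π ν

theorem stdSC_res_shortExact245 (N : Rep.{0} ℤ G) :
    ((stdSC N).map (Rep.resFunctor π)).ShortExact :=
  (Rep.shortExact_res π).2 (stdSC_shortExact N)

/-- `δ` of the restricted presentation commutes with inflation. -/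
lemma δ_res_inf (N : Rep.{0} ℤ G) (x : groupCohomology N 1) :
    (groupCohomology.δ (stdSC_res_shortExact245 π N) 1 2 rfl).hom
        ((groupCohomology.map π (𝟙 (Rep.res π N)) 1).hom x) =
      (groupCohomology.map π (𝟙 (Rep.res π (stdR N))) 2).hom (stdδ N x) := by
  have h := H783.δ_naturality_map π (stdSC_shortExact N) (stdSC_res_shortExact245 π N)
    (𝟙 ((stdSC N).map (Rep.resFunctor π))) 1 2 rfl
  have h' := congrArg (fun t => t.hom x) h
  exact h'.symm

/-- `(trR)_* ∘ δ' = δ_res ∘ ν_*`. -/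
lemma trR_δ (ν : N' ⟶ Rep.res π N) (y : groupCohomology N' 1) :
    (T.coeffMap (trR π ν) 2).hom (stdδ N' y) =
      (groupCohomology.δ (stdSC_res_shortExact245 π N) 1 2 rfl).hom
        ((T.coeffMap ν 1).hom y) := by
  have h := groupCohomology.δ_naturality (stdSC_shortExact N') (stdSC_res_shortExact245 π N)
    (trSC π ν) 1 2 rfl
  have h' := congrArg (fun t => t.hom y) h
  exact h'

/-- **ALG10 (pairing).** -/
theorem alg10Pair : ALG10PairSpec := by
  intro G G' _ _ π N N' ν X X' ι f x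
  change (T.coeffMap (trR π ν.hom ≫ (Rep.resFunctor π).map f ≫ ι) 2).hom
      (stdδ N' ((groupCohomology.map π ν.inv 1).hom x)) =
    (groupCohomology.map π ι 2).hom ((T.coeffMap f 2).hom (stdδ N x))
  rw [coeff_then_map]
  have h1 : (T.coeffMap (trR π ν.hom ≫ (Rep.resFunctor π).map f ≫ ι) 2).hom
      (stdδ N' ((groupCohomology.map π ν.inv 1).hom x)) =
      (T.coeffMap ((Rep.resFunctor π).map f ≫ ι) 2).hom
        ((T.coeffMap (trR π ν.hom) 2).hom
          (stdδ N' ((groupCohomology.map π ν.inv 1).hom x))) := by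
    have h0 := groupCohomology.map_id_comp (k := ℤ) (trR π ν.hom)
      ((Rep.resFunctor π).map f ≫ ι) 2
    exact congrArg (fun t => t.hom (stdδ N' ((groupCohomology.map π ν.inv 1).hom x))) h0
  rw [h1, trR_δ, map_then_coeff, Iso.inv_hom_id, δ_res_inf, map_then_coeff, Category.id_comp]

end

end Fermat.Agent.S55.E1.H245

end
-- ===== PACK-END S55/E1/H245/Alg10Pair.lean

-- ===== PACK-BEGIN S55/E1/H295/Bidual.lean
section
/-
S55 engine E1, block LIM, leaf LIM-BIDUAL -- part 2: the tower (global form).  helper295.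
Complete proofs.  Vocabulary: `E1/Lim/Obj.lean` (helper474): `zRep`, `lev`, `levν`, `sUnits`, `trS`;
`Bridge/MuP.lean`: `MuP`, `muPRep`, `evalMuP`; `E1/Tr/Defs.lean`: `trIhom`.

For a level `L` with `μ_p ⊂ L.F` (`L.HasMu p`) and `M : Rep 𝔽_p G_ℚ` finite dimensional with
`L.U` acting trivially, `N := M.dualTwist (cycloChar p)`:
* `muToUnits L hL : μ_p →+ Fˣ`, `muToSUnits L hL : μ_p →+ E(F)` (injective, onto the `p`-torsion,
  Galois equivariant);
* `bidualHom  : lev (zRep M) L hM ⟶ Hom_ℤ(lev (zRep N) L hN, E(F))`, `m ↦ (f ↦ ⟨m, f⟩)`,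
  `bidualHom_isIso`, `bidualIso`;
* `bidualHomU : lev (zRep M) L hM ⟶ Hom_ℤ(lev (zRep N) L hN, Fˣ)`, same with all units;
* naturality in `L`: `bidualHom_tr`, `bidualHomU_tr`.
-/




set_option autoImplicit false

open CategoryTheory

namespace Fermat.Agent.S55.E1.H295

open Fermat.Agent.S55.Tow Fermat.Agent.S55.E1.Lim ExtCitation
open Fermat.Agent.S55.Bridge (MuP muPRep muPLinearEquiv evalMuP)

noncomputable section

attribute [local instance 10000] Rep.hV2

variable {S : Finset Nat.Primes} {p : ℕ} [Fact p.Prime]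

/-! ## `μ_p → Fˣ` -/

/-- `p`-th roots of unity lie in `F` if `μ_p ⊂ F`. -/
lemma root_mem_of_hasMu (L : Level S) (hL : L.HasMu p) (t : rootsOfUnity p Qbar) :
    ((t : Qbarˣ) : Qbar) ∈ L.F := by
  obtain ⟨ζ, hζ, hprim⟩ := hL
  have hp0 : NeZero p := ⟨(Fact.out : p.Prime).ne_zero⟩
  have h1 : ((t : Qbarˣ) : Qbar) ^ p = 1 := by
    have := (mem_rootsOfUnity p (t : Qbarˣ)).1 t.2
    have h2 := congrArg Units.val this
    simpa using h2
  obtain ⟨i, -, hi⟩ := hprim.eq_pow_of_pow_eq_one h1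
  rw [← hi]
  exact pow_mem hζ i

/-- The element of `Fˣ` attached to a `p`-th root of unity. -/
def muToUnitsFun (L : Level S) (hL : L.HasMu p) (t : MuP p) : L.units.V :=
  L.unitsMk (Additive.ofMul ((t.root : Qbarˣ))) (fun g hg => by
    apply Additive.toMul.injective
    apply Units.ext
    have h1 := root_mem_of_hasMu L hL t.root
    exact (IntermediateField.mem_fixingSubgroup_iff _ g).1 hg _ h1)

/-- `θ : μ_p →+ Fˣ`. -/
def muToUnits (L : Level S) (hL : L.HasMu p) : MuP p →+ L.units.V where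
  toFun := muToUnitsFun L hL
  map_zero' := rfl
  map_add' _ _ := rfl

lemma unitsCoe_muToUnits (L : Level S) (hL : L.HasMu p) (t : MuP p) :
    L.unitsCoe (muToUnits L hL t) = Additive.ofMul ((t.root : Qbarˣ)) := rfl

lemma muToUnits_injective (L : Level S) (hL : L.HasMu p) :
    Function.Injective (muToUnits L hL) := by
  intro t t' h
  have h1 := congrArg L.unitsCoe h
  rw [unitsCoe_muToUnits, unitsCoe_muToUnits] at h1
  apply MuP.root_injective
  apply Subtype.ext
  exact Additive.ofMul.injective h1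

/-- The image of `θ` is the `p`-torsion of `Fˣ`. -/
lemma exists_muToUnits_eq (L : Level S) (hL : L.HasMu p) (x : L.units.V) (hx : p • x = 0) :
    ∃ t : MuP p, muToUnits L hL t = x := by
  have h1 : (L.val x) ^ p = 1 := by
    have h2 := congrArg L.val hx
    exact h2
  have hp0 : NeZero p := ⟨(Fact.out : p.Prime).ne_zero⟩
  refine ⟨MuP.of p ⟨L.val x, (mem_rootsOfUnity p _).2 h1⟩, ?_⟩
  apply L.unitsCoe_injective
  rfl

/-- `θ` is Galois equivariant. -/
lemma muToUnits_equivariant (L : Level S) (hL : L.HasMu p) (σ : _root_.Fermat.Agent.S55.Tow.GQ) (t : MuP p) :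
    L.units.ρ (QuotientGroup.mk σ) (muToUnits L hL t) = muToUnits L hL (muPRep p σ t) := by
  apply L.unitsCoe_injective
  rw [L.units_ρ_coe, unitsCoe_muToUnits, unitsCoe_muToUnits]
  apply Additive.toMul.injective
  apply Units.ext
  exact (Fermat.Agent.S55.Bridge.muPRep_apply p σ t).symm

/-- Roots of unity are `S`-units. -/
lemma isSUnit_muToUnits (L : Level S) (hL : L.HasMu p) (t : MuP p) :
    L.IsSUnit (muToUnits L hL t) := by
  intro ℓ _ A _
  have hx : (L.val (muToUnits L hL t)) ^ p = 1 := by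
    have := (mem_rootsOfUnity p (t.root : Qbarˣ)).1 t.root.2
    exact this
  have hn : p ≠ 0 := (Fact.out : p.Prime).ne_zero
  have h1 : A.valuation ((L.val (muToUnits L hL t) : Qbarˣ) : Qbar) ^ p = 1 := by
    rw [← map_pow, ← Units.val_pow_eq_pow_val, hx, Units.val_one, map_one]
  have h2 : A.valuation ((L.val (muToUnits L hL t) : Qbarˣ) : Qbar) = 1 :=
    (pow_eq_one_iff_of_nonneg zero_le hn).1 h1
  have h3 : A.valuation (((L.val (muToUnits L hL t))⁻¹ : Qbarˣ) : Qbar) = 1 := by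
    rw [Units.val_inv_eq_inv_val, map_inv₀, h2, inv_one]
  exact ⟨(A.valuation_le_one_iff _).1 h2.le, (A.valuation_le_one_iff _).1 h3.le⟩

lemma muToUnits_mem (L : Level S) (hL : L.HasMu p) (t : MuP p) :
    muToUnits L hL t ∈ sUnitsAdd L := by
  intro g
  induction g using QuotientGroup.induction_on with
  | H σ =>
    rw [muToUnits_equivariant]
    exact isSUnit_muToUnits L hL _

/-- `θ_S : μ_p →+ E(F)` (the `S`-units). -/
def muToSUnits (L : Level S) (hL : L.HasMu p) : MuP p →+ (sUnits L).V where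
  toFun t := subMk (muToUnits L hL t) (muToUnits_mem L hL t)
  map_zero' := rfl
  map_add' _ _ := rfl

lemma sIncl_muToSUnits (L : Level S) (hL : L.HasMu p) (t : MuP p) :
    (sIncl L).hom (muToSUnits L hL t) = muToUnits L hL t := rfl

lemma muToSUnits_injective (L : Level S) (hL : L.HasMu p) :
    Function.Injective (muToSUnits L hL) := by
  intro t t' h
  apply muToUnits_injective L hL
  rw [← sIncl_muToSUnits, ← sIncl_muToSUnits, h]

lemma exists_muToSUnits_eq (L : Level S) (hL : L.HasMu p) (x : (sUnits L).V) (hx : p • x = 0) :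
    ∃ t : MuP p, muToSUnits L hL t = x := by
  have h1 : p • (sIncl L).hom x = 0 := by
    rw [← map_nsmul, hx, map_zero]
  obtain ⟨t, ht⟩ := exists_muToUnits_eq L hL _ h1
  refine ⟨t, ?_⟩
  apply sIncl_injective L
  rw [sIncl_muToSUnits, ht]

lemma muToSUnits_equivariant (L : Level S) (hL : L.HasMu p) (σ : _root_.Fermat.Agent.S55.Tow.GQ) (t : MuP p) :
    (sUnits L).ρ (QuotientGroup.mk σ) (muToSUnits L hL t) = muToSUnits L hL (muPRep p σ t) := by
  apply sIncl_injective L
  rw [sIncl_muToSUnits, Rep.hom_comm_apply, sIncl_muToSUnits, muToUnits_equivariant]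

/-! ## The generic evaluation morphism -/

section EvalHom

variable {Γ : Type} [Group Γ] (A B E : Rep.{0} ℤ Γ) (M : Rep.{0, 0, 0} (ZMod p) _root_.Fermat.Agent.S55.Tow.GQ)
  (eA : A.V ≃+ M.V) (eB : B.V ≃+ (M.dualTwist (cycloChar p)).V) (θ : MuP p →+ E.V)

/-- The pairing `A × B → E`, `(a, b) ↦ θ ⟨a, b⟩`, for `A ≃ M`, `B ≃ M^∨(1)`. -/
def evalPairing : A.V →+ B.V →+ E.V :=
  AddMonoidHom.mk' (fun a => (θ.comp (evalMuP M (eA a)).toAddMonoidHom).comp eB.toAddMonoidHom)
    (fun a a' => by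
      apply AddMonoidHom.ext
      intro b
      show θ (evalMuP M (eA (a + a')) (eB b)) =
        θ (evalMuP M (eA a) (eB b)) + θ (evalMuP M (eA a') (eB b))
      rw [map_add, map_add, LinearMap.add_apply, map_add])

lemma evalPairing_apply (a : A.V) (b : B.V) :
    evalPairing A B E M eA eB θ a b = θ (evalMuP M (eA a) (eB b)) := rfl

/-- Compatibility of the three actions with the Galois action: every `γ ∈ Γ` acts on
`A ≃ M`, `B ≃ M^∨(1)` and on `θ(μ_p)` like some `σ ∈ G_ℚ`. -/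
def EvalCompat : Prop :=
  ∀ γ : Γ, ∃ σ : _root_.Fermat.Agent.S55.Tow.GQ, (∀ a : A.V, eA (A.ρ γ a) = M.ρ σ (eA a)) ∧
    (∀ b : B.V, eB (B.ρ γ b) = (M.dualTwist (cycloChar p)).ρ σ (eB b)) ∧
    (∀ t : MuP p, E.ρ γ (θ t) = θ (muPRep p σ t))

variable {A B E M eA eB θ}

lemma evalPairing_equivariant (hc : EvalCompat A B E M eA eB θ) (γ : Γ) (a : A.V) (b : B.V) :
    evalPairing A B E M eA eB θ (A.ρ γ a) (B.ρ γ b) =
      E.ρ γ (evalPairing A B E M eA eB θ a b) := by
  obtain ⟨σ, h1, h2, h3⟩ := hc γ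
  rw [evalPairing_apply, evalPairing_apply, h1, h2, h3,
    Fermat.Agent.S55.Bridge.evalMuP_equivariant]

/-- The morphism `A ⟶ Hom_ℤ(B, E)`, `a ↦ (b ↦ θ ⟨a, b⟩)`. -/
def evalHom (hc : EvalCompat A B E M eA eB θ) : A ⟶ (Rep.ihom B).obj E :=
  pairingHom (evalPairing A B E M eA eB θ) (evalPairing_equivariant hc)

lemma evalHom_apply (hc : EvalCompat A B E M eA eB θ) (a : A.V) (b : B.V) :
    (show B.V →ₗ[ℤ] E.V from (evalHom hc).hom a) b = θ (evalMuP M (eA a) (eB b)) := rfl

theorem evalHom_bijective [FiniteDimensional (ZMod p) M] (hc : EvalCompat A B E M eA eB θ)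
    (hθ : Function.Injective θ) (hθp : ∀ x : E.V, p • x = 0 → ∃ t : MuP p, θ t = x) :
    Function.Bijective (evalHom hc).hom := by
  apply pairingHom_bijective
  · intro a ha
    have h1 : eA a = 0 := by
      apply eq_zero_of_eval_eq_zero (muPLinearEquiv p) θ hθ (eA a)
      intro f
      have h2 := ha (eB.symm f)
      rw [evalPairing_apply, AddEquiv.apply_symm_apply] at h2
      exact h2
    exact (AddEquiv.map_eq_zero_iff eA).1 h1
  · intro φ
    obtain ⟨m, hm⟩ := exists_eval_of_additive (M := M.V) (muPLinearEquiv p) θ hθ hθp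
      (φ.comp eB.symm.toAddMonoidHom)
    refine ⟨eA.symm m, fun b => ?_⟩
    rw [evalPairing_apply, AddEquiv.apply_symm_apply]
    have h1 := hm (eB b)
    rw [AddMonoidHom.comp_apply] at h1
    have h2 : eB.symm.toAddMonoidHom (eB b) = b := AddEquiv.symm_apply_apply eB b
    rw [h2] at h1
    exact h1

theorem evalHom_isIso [FiniteDimensional (ZMod p) M] (hc : EvalCompat A B E M eA eB θ)
    (hθ : Function.Injective θ) (hθp : ∀ x : E.V, p • x = 0 → ∃ t : MuP p, θ t = x) :
    IsIso (evalHom hc) := by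
  have hb := evalHom_bijective hc hθ hθp
  haveI : Mono (evalHom hc) := (Rep.mono_iff_injective _).2 hb.1
  haveI : Epi (evalHom hc) := (Rep.epi_iff_surjective _).2 hb.2
  exact isIso_of_mono_of_epi _

end EvalHom

/-! ## The global isomorphisms -/

section Global

variable (M : Rep.{0, 0, 0} (ZMod p) _root_.Fermat.Agent.S55.Tow.GQ)

/-- `L.U` acts trivially on `N = M^∨(1)` if it acts trivially on `M` and `μ_p ⊂ F`. -/
lemma dualTwist_ρ_eq_one (L : Level S) (hL : L.HasMu p) (hM : ∀ s ∈ L.U, M.ρ s = 1) :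
    ∀ s ∈ L.U, (M.dualTwist (cycloChar p)).ρ s = 1 := by
  intro s hs
  have hχ : cycloChar p s = 1 := by
    apply Fermat.Agent.S55.Bridge.cycloChar_eq_one_of_fixes
    intro t ht
    exact (IntermediateField.mem_fixingSubgroup_iff _ s).1 hs _
      (root_mem_of_hasMu L hL ⟨t, ht⟩)
  have hs' : M.ρ s⁻¹ = 1 := hM _ (inv_mem hs)
  apply LinearMap.ext
  intro f
  rw [Rep.dualTwist_ρ_apply, hχ, hs']
  simp only [Units.val_one, one_smul]
  rfl

/-- The hypotheses for `zRep`. -/
lemma zRep_trivial {k G : Type} [CommRing k] [Group G] (A : Rep.{0} k G) (U : Subgroup G)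
    (h : ∀ s ∈ U, A.ρ s = 1) : ∀ s ∈ U, (zRep A).ρ s = 1 :=
  fun s hs => zRep_ρ_eq_one (h s hs)

variable (L : Level S) (hL : L.HasMu p) (hM : ∀ s ∈ L.U, (zRep M).ρ s = 1)
  (hN : ∀ s ∈ L.U, (zRep (M.dualTwist (cycloChar p))).ρ s = 1)

lemma evalCompat_sUnits :
    EvalCompat (lev (zRep M) L hM) (lev (zRep (M.dualTwist (cycloChar p))) L hN) (sUnits L) M
      (AddEquiv.refl _) (AddEquiv.refl _) (muToSUnits L hL) := by
  intro γ
  induction γ using QuotientGroup.induction_on with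
  | H σ =>
    exact ⟨σ, fun a => rfl, fun b => rfl, fun t => muToSUnits_equivariant L hL σ t⟩

lemma evalCompat_units :
    EvalCompat (lev (zRep M) L hM) (lev (zRep (M.dualTwist (cycloChar p))) L hN) L.units M
      (AddEquiv.refl _) (AddEquiv.refl _) (muToUnits L hL) := by
  intro γ
  induction γ using QuotientGroup.induction_on with
  | H σ =>
    exact ⟨σ, fun a => rfl, fun b => rfl, fun t => muToUnits_equivariant L hL σ t⟩

/-- **LIM-BIDUAL** (`S`-units): `M_F ⟶ Hom_ℤ(N_F, E(F))`, `m ↦ (f ↦ ⟨m, f⟩ ∈ μ_p ⊂ E(F))`. -/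
def bidualHom :
    lev (zRep M) L hM ⟶
      (Rep.ihom (lev (zRep (M.dualTwist (cycloChar p))) L hN)).obj (sUnits L) :=
  evalHom (evalCompat_sUnits M L hL hM hN)

/-- **LIM-BIDUAL** (all units): `M_F ⟶ Hom_ℤ(N_F, Fˣ)`. -/
def bidualHomU :
    lev (zRep M) L hM ⟶
      (Rep.ihom (lev (zRep (M.dualTwist (cycloChar p))) L hN)).obj L.units :=
  evalHom (evalCompat_units M L hL hM hN)

lemma bidualHom_apply (m : M.V) (f : (M.dualTwist (cycloChar p)).V) :
    (show (lev (zRep (M.dualTwist (cycloChar p))) L hN).V →ₗ[ℤ] (sUnits L).V from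
      (bidualHom M L hL hM hN).hom m) f = muToSUnits L hL (evalMuP M m f) := rfl

lemma bidualHomU_apply (m : M.V) (f : (M.dualTwist (cycloChar p)).V) :
    (show (lev (zRep (M.dualTwist (cycloChar p))) L hN).V →ₗ[ℤ] L.units.V from
      (bidualHomU M L hL hM hN).hom m) f = muToUnits L hL (evalMuP M m f) := rfl

/-- `bidualHomU = (sIncl)_* ∘ bidualHom`. -/
lemma bidualHom_sIncl :
    bidualHom M L hL hM hN ≫
      (Rep.ihom (lev (zRep (M.dualTwist (cycloChar p))) L hN)).map (sIncl L) =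
    bidualHomU M L hL hM hN := by
  apply Rep.hom_ext
  apply DFunLike.ext
  intro m
  rfl

variable [FiniteDimensional (ZMod p) M]

theorem bidualHom_bijective : Function.Bijective (bidualHom M L hL hM hN).hom :=
  evalHom_bijective _ (muToSUnits_injective L hL) (exists_muToSUnits_eq L hL)

theorem bidualHomU_bijective : Function.Bijective (bidualHomU M L hL hM hN).hom :=
  evalHom_bijective _ (muToUnits_injective L hL) (exists_muToUnits_eq L hL)

instance bidualHom_isIso : IsIso (bidualHom M L hL hM hN) :=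
  evalHom_isIso _ (muToSUnits_injective L hL) (exists_muToSUnits_eq L hL)

instance bidualHomU_isIso : IsIso (bidualHomU M L hL hM hN) :=
  evalHom_isIso _ (muToUnits_injective L hL) (exists_muToUnits_eq L hL)

/-- **LIM-BIDUAL**: `M_F ≅ Hom_ℤ(N_F, E(F))` in `Rep ℤ Gal(F/ℚ)`. -/
def bidualIso :
    lev (zRep M) L hM ≅
      (Rep.ihom (lev (zRep (M.dualTwist (cycloChar p))) L hN)).obj (sUnits L) :=
  asIso (bidualHom M L hL hM hN)

/-- **LIM-BIDUAL**: `M_F ≅ Hom_ℤ(N_F, Fˣ)` in `Rep ℤ Gal(F/ℚ)`. -/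
def bidualIsoU :
    lev (zRep M) L hM ≅
      (Rep.ihom (lev (zRep (M.dualTwist (cycloChar p))) L hN)).obj L.units :=
  asIso (bidualHomU M L hL hM hN)

end Global

/-! ## Naturality in the level -/

section Naturality

variable (M : Rep.{0, 0, 0} (ZMod p) _root_.Fermat.Agent.S55.Tow.GQ) {L L' : Level S} (h : L ≤ L') (hL : L.HasMu p)
  (hM : ∀ s ∈ L.U, (zRep M).ρ s = 1)
  (hN : ∀ s ∈ L.U, (zRep (M.dualTwist (cycloChar p))).ρ s = 1)

lemma trUnits_muToUnits (t : MuP p) :
    (Level.trUnits h).hom (muToUnits L hL t) = muToUnits L' (hL.mono h) t := rfl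

lemma trS_muToSUnits (t : MuP p) :
    (trS h).hom (muToSUnits L hL t) = muToSUnits L' (hL.mono h) t := rfl

/-- Naturality of `bidualHom` in the level (`S`-units). -/
theorem bidualHom_tr :
    (Rep.resFunctor (Level.proj h)).map (bidualHom M L hL hM hN) ≫
        trIhom (Level.proj h) (levν (zRep (M.dualTwist (cycloChar p))) h hN) (trS h) =
      Fermat.Agent.S55.Bridge.levelHom (zRep M) h hM ≫
        bidualHom M L' (hL.mono h) (triv_of_le _ h hM) (triv_of_le _ h hN) := by
  apply Rep.hom_ext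
  apply DFunLike.ext
  intro m
  rfl

/-- Naturality of `bidualHomU` in the level (all units). -/
theorem bidualHomU_tr :
    (Rep.resFunctor (Level.proj h)).map (bidualHomU M L hL hM hN) ≫
        trIhom (Level.proj h) (levν (zRep (M.dualTwist (cycloChar p))) h hN)
          (Level.trUnits h) =
      Fermat.Agent.S55.Bridge.levelHom (zRep M) h hM ≫
        bidualHomU M L' (hL.mono h) (triv_of_le _ h hM) (triv_of_le _ h hN) := by
  apply Rep.hom_ext
  apply DFunLike.ext
  intro m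
  rfl

end Naturality

end

end Fermat.Agent.S55.E1.H295

end
-- ===== PACK-END S55/E1/H295/Bidual.lean

-- ===== PACK-BEGIN S55/E1/H603/LocalEdge.lean
section
/-
S55 / engine E1 / block LIM, leaf LIM5 (helper603): the edge relation under change of group.

Pure algebra on top of `E1/SpecAlg3.lean` (ALG9, ALG9a, ALG10Edge, ALG11 are HYPOTHESES):
* `isEdge_zero_left`, `isEdge_unique`, `exists_isEdge` : `IsEdge` is a function (ALG9);
* `edge_eq_zero_of_inf_eq_zero` : if `inf x = 0` at a higher level satisfying Hilbert 90 then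
  `e(x) = 0`  (ALG10Edge + ALG11);
* `exists_cochain_of_edge_eq_zero`, `inf_eq_zero_of_divisible` : if `e(x) = 0` then `inf x = 0`
  at every higher level in which the values of a suitable `φ₀ : R → X` become `p`-divisible
  (ALG9a + ALG10Edge).
No sorry.
-/


set_option autoImplicit false

open CategoryTheory CategoryTheory.Limits groupCohomology

namespace Fermat.Agent.S55.E1.H603

open Fermat.Agent.S55.E1
open Fermat.Agent.S55.T.H719 (ihomLin)

noncomputable section

variable {G G' : Type} [Group G] [Group G']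

/-- `e(0) = 0`. -/
theorem isEdge_zero_left (h9 : ALG9Spec) [Finite G] {N X : Rep.{0} ℤ G} {y : E2 N X}
    (h : IsEdge (0 : groupCohomology ((Rep.ihom N).obj X) 2) y) : y = 0 := by
  obtain ⟨b, hb, rfl⟩ := h
  have hb0 : b = 0 := (h9 G N X).1 (by rw [hb, map_zero])
  rw [hb0, map_zero]

/-- The edge relation is total (ALG9). -/
theorem exists_isEdge (h9 : ALG9Spec) [Finite G] {N X : Rep.{0} ℤ G}
    (x : groupCohomology ((Rep.ihom N).obj X) 2) : ∃ y : E2 N X, IsEdge x y := by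
  obtain ⟨b, hb⟩ := (h9 G N X).2 x
  exact ⟨edgeIncl N X b, b, hb, rfl⟩

/-- The edge relation is functional (ALG9). -/
theorem isEdge_unique (h9 : ALG9Spec) [Finite G] {N X : Rep.{0} ℤ G}
    {x : groupCohomology ((Rep.ihom N).obj X) 2} {y y' : E2 N X}
    (h : IsEdge x y) (h' : IsEdge x y') : y = y' := by
  obtain ⟨b, hb, rfl⟩ := h
  obtain ⟨b', hb', rfl⟩ := h'
  have : b = b' := (h9 G N X).1 (hb.trans hb'.symm)
  rw [this]

/-- The edge relation is additive. -/
theorem IsEdge.add {N X : Rep.{0} ℤ G} {x x' : groupCohomology ((Rep.ihom N).obj X) 2}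
    {y y' : E2 N X} (h : IsEdge x y) (h' : IsEdge x' y') : IsEdge (x + x') (y + y') := by
  obtain ⟨b, rfl, rfl⟩ := h
  obtain ⟨b', rfl, rfl⟩ := h'
  exact ⟨b + b', map_add _ _ _, map_add _ _ _⟩

theorem IsEdge.neg {N X : Rep.{0} ℤ G} {x : groupCohomology ((Rep.ihom N).obj X) 2}
    {y : E2 N X} (h : IsEdge x y) : IsEdge (-x) (-y) := by
  obtain ⟨b, rfl, rfl⟩ := h
  exact ⟨-b, map_neg _ _, map_neg _ _⟩

theorem isEdge_zero (N X : Rep.{0} ℤ G) :
    IsEdge (0 : groupCohomology ((Rep.ihom N).obj X) 2) (0 : E2 N X) :=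
  ⟨0, map_zero _, map_zero _⟩

/-- `incl_*` on classes of cocycles. -/
theorem edgeIncl_H1π {N X : Rep.{0} ℤ G} (β : cocycles₁ (edgeB N X)) :
    edgeIncl N X ((H1π (edgeB N X)).hom β) =
      (H1π ((Rep.ihom (stdR N)).obj X)).hom
        ((mapCocycles₁ (MonoidHom.id G) (ihomImageIncl (stdι N) X)).hom β) := by
  unfold edgeIncl T.coeffMap
  exact H1π_comp_map_apply (A := edgeB N X) (B := (Rep.ihom (stdR N)).obj X)
    (MonoidHom.id G) (ihomImageIncl (stdι N) X) β

/-- **(⇐)** If `inf x = 0` at a higher level satisfying Hilbert 90, then `e(x) = 0`. -/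
theorem edge_eq_zero_of_inf_eq_zero (h9 : ALG9Spec) (h10 : ALG10EdgeSpec) (h11 : ALG11Spec)
    [Finite G'] (π : G' →* G) (hπ : Function.Surjective π)
    (N : Rep.{0} ℤ G) (N' : Rep.{0} ℤ G') (ν : N' ≅ Rep.res π N)
    (X : Rep.{0} ℤ G) (X' : Rep.{0} ℤ G') (ι : Rep.res π X ⟶ X')
    (hι : Function.Injective ι.hom)
    (hinv : ∀ x' : X'.V, (∀ h ∈ π.ker, X'.ρ h x' = x') → ∃ x : X.V, ι.hom x = x')
    (hH90 : IsZero (groupCohomology (T.resSub X' π.ker) 1))
    {x : groupCohomology ((Rep.ihom N).obj X) 2} {y : E2 N X} (hxy : IsEdge x y)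
    (hx : (groupCohomology.map π (trIhom π ν.hom ι) 2).hom x = 0) : y = 0 := by
  have h1 := isEdge_tr_of h10 π ν.hom ι hxy
  rw [hx] at h1
  have h2 : trE2 π ν.hom ι y = 0 := isEdge_zero_left h9 h1
  exact h11 G G' π hπ N N' ν X X' ι hι hinv hH90 (by rw [h2, map_zero])

/-- **(⇒), step 1.** If `e(x) = 0` then `x = δ'[β]` for a cocycle `β : G → 𝔹` which becomes
the coboundary of some `φ₀` in `Hom_ℤ(R, X)`. -/
theorem exists_cochain_of_edge_eq_zero {N X : Rep.{0} ℤ G}
    {x : groupCohomology ((Rep.ihom N).obj X) 2} (hx : IsEdge x (0 : E2 N X)) :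
    ∃ (β : cocycles₁ (edgeB N X)) (φ₀ : ((Rep.ihom (stdR N)).obj X).V),
      edgeδ N X ((H1π (edgeB N X)).hom β) = x ∧
      ∀ g : G, (ihomImageIncl (stdι N) X).hom (β g) =
        ((Rep.ihom (stdR N)).obj X).ρ g φ₀ - φ₀ := by
  obtain ⟨b, hb, hinc⟩ := hx
  obtain ⟨β, rfl⟩ := (ModuleCat.epi_iff_surjective (H1π (edgeB N X))).1 inferInstance b
  rw [edgeIncl_H1π, H1π_eq_zero_iff] at hinc
  obtain ⟨φ₀, hφ₀⟩ := hinc
  refine ⟨β, φ₀, hb, fun g => ?_⟩
  have := congrFun hφ₀ g
  rw [d₀₁_hom_apply] at this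
  exact this.symm

/-- **(⇒), step 2.** In the situation of step 1, `inf x = 0` along every change of group for
which the values of `φ₀` become `p`-divisible. -/
theorem inf_eq_zero_of_divisible (h9a : ALG9aSpec) (h10 : ALG10EdgeSpec) (p : ℕ) (hp : p.Prime)
    (π : G' →* G) (N : Rep.{0} ℤ G) (N' : Rep.{0} ℤ G') (ν : N' ⟶ Rep.res π N)
    (hN' : ∀ n : N'.V, p • n = 0)
    (X : Rep.{0} ℤ G) (X' : Rep.{0} ℤ G') (ι : Rep.res π X ⟶ X')
    (β : cocycles₁ (edgeB N X)) (φ₀ : ((Rep.ihom (stdR N)).obj X).V)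
    (hβ : ∀ g : G, (ihomImageIncl (stdι N) X).hom (β g) =
        ((Rep.ihom (stdR N)).obj X).ρ g φ₀ - φ₀)
    (hdiv : ∀ r : (stdR N).V, ∃ x' : X'.V, ι.hom (ihomLin φ₀ r) = p • x') :
    (groupCohomology.map π (trIhom π ν ι) 2).hom
      (edgeδ N X ((H1π (edgeB N X)).hom β)) = 0 := by
  -- the transported cochain lies in `𝔹'`
  have hmem : (trIhom π (trR π ν) ι).hom φ₀ ∈ ihomImage (stdι N') X' := by
    apply h9a p hp G' N' X' hN'
    intro r
    exact hdiv ((trR π ν).hom r)
  -- the class of `tr β` vanishes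
  have hzero : (groupCohomology.map π (trEdgeB π ν ι) 1).hom ((H1π (edgeB N X)).hom β) = 0 := by
    have h1 : (groupCohomology.map π (trEdgeB π ν ι) 1).hom ((H1π (edgeB N X)).hom β) =
        (H1π (edgeB N' X')).hom ((mapCocycles₁ π (trEdgeB π ν ι)).hom β) :=
      H1π_comp_map_apply (A := edgeB N X) (B := edgeB N' X') π (trEdgeB π ν ι) β
    rw [h1, H1π_eq_zero_iff]
    let b₀ : (edgeB N' X').V := ⟨(trIhom π (trR π ν) ι).hom φ₀, hmem⟩
    refine ⟨b₀, ?_⟩
    funext g'
    rw [d₀₁_hom_apply]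
    apply Subtype.ext
    have hcomm := Rep.hom_comm_apply (trIhom π (trR π ν) ι) g' φ₀
    have hβ' := congrArg (trIhom π (trR π ν) ι).hom (hβ (π g'))
    rw [map_sub] at hβ'
    change ((Rep.ihom (stdR N')).obj X').ρ g' ((trIhom π (trR π ν) ι).hom φ₀) -
      (trIhom π (trR π ν) ι).hom φ₀ =
      (trIhom π (trR π ν) ι).hom ((ihomImageIncl (stdι N) X).hom (β (π g')))
    rw [hβ', ← hcomm]
    rfl
  obtain ⟨h1, -⟩ := h10 G G' π N N' ν X X' ι ((H1π (edgeB N X)).hom β)
  rw [← h1, hzero, map_zero]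

end

end Fermat.Agent.S55.E1.H603

end
-- ===== PACK-END S55/E1/H603/LocalEdge.lean

-- ===== PACK-BEGIN S55/GAD/Spec.lean
section
/-
S55 / G-ADAPTER (sub-architect helper955): LEAF SPECS for the concrete tower datum
`GAD.datum S p` (`GAD/Defs.lean`).  Only `def XxxSpec : Prop`; no `sorry`.
Producers prove `theorem xxx : XxxSpec S p`; the assembly `GAD/Assembly.lean` proves
`globalSpecMu_of : (all leaf specs) → Tow.GlobalSpecMu S p`.
Blueprint + owners: coord/S55-E1-GAD.md (origin/helper955 and main).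
-/


set_option autoImplicit false

open CategoryTheory

namespace Fermat.Agent.S55.GAD

open Fermat.Agent.S55 Fermat.Agent.S55.Tow Fermat.Agent.S55.E1.H594 Fermat.Agent.S55.G

noncomputable section

variable (S : Finset Nat.Primes) (p : ℕ)

/-- **GAD-SU (dictionary of `S`-units).**  `x ∈ Fˣ` has trivial divisor outside `S`
(`ord_w x = 0` for all primes `w` of `𝓞_F` not above `S`, layer-G language) iff it is an `S`-unit
in the tower's sense (unit at every valuation subring of `ℚ̄` over a prime `ℓ ∉ S`). -/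
def SUnitDictSpec : Prop :=
  ∀ (L : Level S) (e : L.units.V), divT L e = 0 ↔ L.IsSUnit e

/-- **GAD-7b (transitivity of the extension of divisors)**, i.e. multiplicativity of the
ramification index in towers `L ≤ L' ≤ L''`. -/
def DivTrTransSpec : Prop :=
  ∀ {L L' L'' : Level S} (h : L ≤ L') (h' : L' ≤ L'') (d : PrimeOut S L.F →₀ ℤ),
    divTr h' (divTr h d) = divTr (h.trans h') d

/-- **GAD-CAP (capitulation).**  If `p^a • d` is the divisor (outside `S`) of some `x ∈ Fˣ`, then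
`d` becomes principal in some level `F' ≥ F`.
(helper893: `F' ∋ x^{1/p^a}` and its conjugates, `μ_{p^a}`; `p ∈ S`.) -/
def CapitulationSpec : Prop :=
  ∀ (L : Level S) (d : PrimeOut S L.F →₀ ℤ) (a : ℕ) (x : L.units.V), divT L x = p ^ a • d →
    ∃ (L' : Level S) (h : L ≤ L') (z : L'.units.V), divT L' z = divTr h d

/-- **GAD-EX (existence theorem mod `p`) = gd6** for the concrete datum. -/
def ExistenceSpec : Prop :=
  ∀ L₀ : Level S, L₀.HasMu p → ∃ L₁ : Level S, L₀ ≤ L₁ ∧
    ∀ (L : Level S) (h : L₀ ≤ L), L₁ ≤ L →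
      @E1.NormInP p L.Gal _ (Level.relGal h) (Fintype.ofFinite _) (CT L)

/-- **GAD-CM (class module at `p`) = gd1** for the concrete datum (existence of `γ`). -/
def ClassModuleSpec : Prop :=
  ∀ L : Level S, L.HasMu p →
    ∃ γ : groupCohomology (CT L) 2, E1.IsClassModuleAt p (CT L) γ

/-- **GAD-J = gd3** for the concrete datum: `(j_q)_*` is injective on the `p`-torsion of
`H²(Gal(L/ℚ), J_q(L))`, `q ∈ S`, `L ⊇ μ_p`. -/
def JInjSpec : Prop :=
  ∀ L : Level S, L.HasMu p → ∀ q : Nat.Primes, q ∈ S → ∀ y : groupCohomology (L.J q) 2,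
    p • y = 0 → (T.coeffMap (jT L q) 2).hom y = 0 → y = 0

/-- **GAD-INF = gd8** for the concrete datum: inflation
`H²(Gal(L/ℚ), C(L)) → H²(Gal(L'/ℚ), C(L'))` is injective on `p`-torsion, `L ⊇ μ_p`. -/
def InfInjSpec : Prop :=
  ∀ {L L' : Level S} (h : L ≤ L'), L.HasMu p → ∀ z : groupCohomology (CT L) 2,
    p • z = 0 → (groupCohomology.map (Level.proj h) (trT h) 2).hom z = 0 → z = 0

end

end Fermat.Agent.S55.GAD

end
-- ===== PACK-END S55/GAD/Spec.lean

-- ===== PACK-BEGIN S55/LocalSpec/H964/Clause12.lean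
section







/-!
# S55, `Tow.LocalSpec` (helper964): clauses 1 (GD2) and 2 (LH90)

For a level `F` (finite Galois over `ℚ`) and a prime `q`, the module `F_qˣ = L.locUnits q` of the
decomposition group `L.Dec q = Gal(F_q/ℚ_q)` of the tower:

* `locUnits_classData` : for every subgroup `H`, `H¹(H, F_qˣ) = 0` and `H²(H, F_qˣ) ≃+ ZMod |H|`
  (from `L.ClassModuleSpec` for `ℚ_q`, by helper175's dictionary `decEquiv`, `locUnitsEquiv`);
* `exists_isClassModuleAt` : clause 1 of `Tow.LocalSpec`;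
* `isZero_H1_ker_projDec` : clause 2 of `Tow.LocalSpec`.
-/

set_option autoImplicit false
set_option linter.style.haveILetI false

open CategoryTheory groupCohomology

namespace Fermat.Agent.S55.LocalSpec.H964

open Fermat.Agent.S55 Fermat.Agent.S55.Bridge.H175

variable {S : Finset Nat.Primes}

/-- The numerical class-module data for `F_qˣ` over the decomposition group of the tower. -/
theorem locUnits_classData (hCM : L.ClassModuleSpec) (hInst : L.PadicInstSpec)
    (Lv : Tow.Level S) (q : Nat.Primes) (H : Subgroup (Lv.Dec q)) :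
    Limits.IsZero (groupCohomology (T.resSub (Lv.locUnits q) H) 1) ∧
      Nonempty (groupCohomology (T.resSub (Lv.locUnits q) H) 2 ≃+ ZMod (Nat.card H)) := by
  letI : Fact (q : ℕ).Prime := ⟨q.2⟩
  haveI : Fermat.Agent.S55.L.IsLocalFld ℚ_[(q : ℕ)] := hInst (q : ℕ)
  haveI := level_finiteDimensional Lv
  haveI := level_normal Lv
  haveI : FiniteDimensional ℚ_[(q : ℕ)] (primeLocalLevel q Lv.F) :=
    finiteDimensional_primeLocalLevel q Lv.F
  haveI : IsGalois ℚ_[(q : ℕ)] (primeLocalLevel q Lv.F) := isGalois_primeLocalLevel q Lv.F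
  exact classData_transport (decEquiv Lv q) (Lv.locUnits q)
    (Rep.ofAlgebraAutOnUnits ℚ_[(q : ℕ)] (primeLocalLevel q Lv.F)) (locUnitsEquiv Lv q)
    (locUnitsEquiv_ρ Lv q) (fun H' => hCM ℚ_[(q : ℕ)] (primeLocalLevel q Lv.F) H') H

/-- Clause 1 of `Tow.LocalSpec` (GD2): `F_qˣ` is a class module at `p` (for every `p`). -/
theorem exists_isClassModuleAt (hCM : L.ClassModuleSpec) (hInst : L.PadicInstSpec)
    (hT : T.ClassModuleOfCyclicSpec) (p : ℕ) (Lv : Tow.Level S) (q : Nat.Primes) :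
    ∃ γ : groupCohomology (Lv.locUnits q) 2, E1.IsClassModuleAt p (Lv.locUnits q) γ := by
  obtain ⟨⟨γ, hγ⟩, -⟩ := hT (Lv.Dec q) (Lv.locUnits q)
    (fun H => (locUnits_classData hCM hInst Lv q H).1)
    (fun H => (locUnits_classData hCM hInst Lv q H).2)
  exact ⟨γ, isClassModuleAt_of_isClassModule p _ γ hγ⟩

/-- Clause 2 of `Tow.LocalSpec` (LH90): Hilbert 90 for `F'_q / F_q`. -/
theorem isZero_H1_ker_projDec (hCM : L.ClassModuleSpec) (hInst : L.PadicInstSpec)
    {Lv Lv' : Tow.Level S} (h : Lv ≤ Lv') (q : Nat.Primes) :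
    Limits.IsZero
      (groupCohomology (T.resSub (Lv'.locUnits q) (Tow.Level.projDec h q).ker) 1) :=
  (locUnits_classData hCM hInst Lv' q _).1

end Fermat.Agent.S55.LocalSpec.H964

end
-- ===== PACK-END S55/LocalSpec/H964/Clause12.lean

-- ===== PACK-BEGIN S55/G/Exist121/Tow.lean
section






/-!
# S55, layer G, block EXIST: the existence theorem mod `p` over the tower (gd6)

Author: helper121.  For a tower level `L₀ ⊇ μ_p` (`p` odd, `p ∈ S`) let `L₁ = kummerTow p L₀` be
the Kummer level `L₀(V_S(L₀)^{1/p})`; it is a tower level, `Gal(L₁/L₀)` is a `p`-group and `L₁`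
contains a `p`-th root of every element of the `p`-Selmer group of `L₀`.  Hence the finite-level
existence theorem (`ExistCoreSpec`) applies to `L₁/L₀`, and transitivity of norms
(`norm_in_p_trans`) gives, for every level `L ≥ L₁`,
`N_{Gal(L/L₀)} C_S(L) ⊆ p · C_S(L)^{Gal(L/L₀)}`:

* `existenceG_of_core : ExistCoreSpec → (gd6 for G.CRep S L.Gal L.F)`
  (= `GAD.ExistenceSpecG S p` of helper955, stated unfolded here).
-/

set_option autoImplicit false
set_option linter.unusedSectionVars false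
set_option linter.style.haveILetI false

open scoped NumberField
open IsDedekindDomain

noncomputable section

namespace Fermat.Agent.S55.G.Exist121

open Fermat.Agent.S55 Fermat.Agent.S55.Tow Fermat.Agent.S55.E1.H594 Fermat.Agent.S55.G

section Kummer

variable {S : Finset Nat.Primes} (p : ℕ)

/-- A level is stable under `G_ℚ`. -/
lemma level_map_mem (L : Level S) (σ : GQ) (x : Qbar) (hx : x ∈ L.F) : σ x ∈ L.F := by
  have h := levelRestrict_apply L σ ⟨x, hx⟩
  rw [← h]
  exact (levelRestrict L σ ⟨x, hx⟩).2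

/-- If `σ` fixes `F ⊇ μ_p` and `β ^ p ∈ F`, then `σ ^ p` fixes `β`. -/
lemma pow_apply_root (hp0 : p ≠ 0) {F : IntermediateField ℚ Qbar}
    (hμ : ∃ ζ : Qbar, ζ ∈ F ∧ IsPrimitiveRoot ζ p) (σ : GQ) (hσ : ∀ x ∈ F, σ x = x) {β : Qbar}
    (hβ : β ^ p ∈ F) : (σ ^ p) β = β := by
  by_cases hβ0 : β = 0
  · rw [hβ0, map_zero]
  haveI : NeZero p := ⟨hp0⟩
  obtain ⟨ζ, hζF, hζ⟩ := hμ
  set ξ : Qbar := σ β / β with hξ
  have hσβ : σ β = ξ * β := by rw [hξ, div_mul_cancel₀ _ hβ0]
  have hξp : ξ ^ p = 1 := by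
    rw [hξ, div_pow, ← map_pow, hσ _ hβ, div_self (pow_ne_zero p hβ0)]
  obtain ⟨i, -, hi⟩ := hζ.eq_pow_of_pow_eq_one hξp
  have hξF : ξ ∈ F := by rw [← hi]; exact pow_mem hζF i
  have hσξ : σ ξ = ξ := hσ ξ hξF
  have key : ∀ n : ℕ, (σ ^ n) β = ξ ^ n * β := by
    intro n
    induction n with
    | zero => simp
    | succ n ih =>
      rw [pow_succ', AlgEquiv.mul_apply, ih, map_mul, map_pow, hσξ, hσβ, pow_succ]
      ring
  rw [key p, hξp, one_mul]

/-- If `σ` fixes `F ⊇ μ_p`, then `σ ^ p` fixes the Kummer level of `F`. -/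
lemma pow_mem_fixingSubgroup_kummerLevel (hp0 : p ≠ 0) {F : IntermediateField ℚ Qbar}
    (hμ : ∃ ζ : Qbar, ζ ∈ F ∧ IsPrimitiveRoot ζ p) (σ : GQ) (hσ : σ ∈ F.fixingSubgroup) :
    σ ^ p ∈ (kummerLevel S p F).fixingSubgroup := by
  have hfixF : ∀ x ∈ F, σ x = x := fun x hx =>
    (IntermediateField.mem_fixingSubgroup_iff F σ).1 hσ x hx
  rw [kummerLevel, IntermediateField.fixingSubgroup_sup]
  refine ⟨Subgroup.pow_mem _ hσ p, ?_⟩
  show σ ^ p ∈ (IntermediateField.adjoin ℚ {β | IsSelmerElt S p F (β ^ p)}).fixingSubgroup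
  rw [IntermediateField.mem_fixingSubgroup_iff]
  have hle : IntermediateField.adjoin ℚ {β | IsSelmerElt S p F (β ^ p)} ≤
      IntermediateField.fixedField (Subgroup.zpowers (σ ^ p)) := by
    rw [IntermediateField.adjoin_le_iff]
    intro β hβ
    have hβ' : IsSelmerElt S p F (β ^ p) := hβ
    have hσβ : (σ ^ p) β = β := pow_apply_root p hp0 hμ σ hfixF hβ'.1
    rintro ⟨τ, hτ⟩
    obtain ⟨k, rfl⟩ := Subgroup.mem_zpowers_iff.1 hτ
    show ((σ ^ p) ^ k) • β = β
    have hstab : σ ^ p ∈ MulAction.stabilizer GQ β := MulAction.mem_stabilizer_iff.2 hσβ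
    exact MulAction.mem_stabilizer_iff.1 (Subgroup.zpow_mem _ hstab k)
  intro x hx
  exact (hle hx) ⟨σ ^ p, Subgroup.mem_zpowers _⟩

variable [hp : Fact p.Prime]

/-- **The Kummer level as a tower level.** -/
def kummerTow (hpS : (⟨p, hp.out⟩ : Nat.Primes) ∈ S) (L₀ : Level S) : Level S where
  F := kummerLevel S p L₀.F
  unram := isUnramifiedOutside_kummerLevel S p L₀.F hp.out.pos
    (fun ℓ hℓ => by
      have h1 : (ℓ : ℕ) = p := (Nat.prime_dvd_prime_iff_eq ℓ.2 hp.out).1 hℓ
      have h2 : ℓ = ⟨p, hp.out⟩ := Subtype.ext h1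
      rw [h2]
      exact hpS) L₀.unram
  normalU := normal_fixingSubgroup_kummerLevel (level_map_mem L₀)

lemma kummerTow_F (hpS : (⟨p, hp.out⟩ : Nat.Primes) ∈ S) (L₀ : Level S) :
    (kummerTow p hpS L₀).F = kummerLevel S p L₀.F := rfl

lemma le_kummerTow (hpS : (⟨p, hp.out⟩ : Nat.Primes) ∈ S) (L₀ : Level S) :
    L₀ ≤ kummerTow p hpS L₀ :=
  (le_kummerLevel : L₀.F ≤ kummerLevel S p L₀.F)

/-- `Gal(L₁/L₀)` is a `p`-group (of exponent `p`) for the Kummer level `L₁` of `L₀ ⊇ μ_p`. -/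
theorem isPGroup_relGal_kummerTow (hpS : (⟨p, hp.out⟩ : Nat.Primes) ∈ S) (L₀ : Level S)
    (hμ : L₀.HasMu p) : IsPGroup p (Level.relGal (le_kummerTow p hpS L₀)) := by
  rintro ⟨g, hg⟩
  refine ⟨1, ?_⟩
  induction g using QuotientGroup.induction_on with
  | H σ =>
    have hσ : σ ∈ L₀.U := (mk_mem_relGal_iff (le_kummerTow p hpS L₀) σ).1 hg
    have h1 : σ ^ p ∈ (kummerTow p hpS L₀).U :=
      pow_mem_fixingSubgroup_kummerLevel p hp.out.ne_zero hμ σ hσ
    apply Subtype.ext
    rw [pow_one]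
    show (QuotientGroup.mk σ : (kummerTow p hpS L₀).Gal) ^ p = 1
    rw [← QuotientGroup.mk_pow]
    exact (QuotientGroup.eq_one_iff _).2 h1

end Kummer

section Levels

variable {S : Finset Nat.Primes}

lemma level_proj_comp {L₀ L₁ L : Level S} (h₀₁ : L₀ ≤ L₁) (h₁ : L₁ ≤ L) (g : L.Gal) :
    Level.proj h₀₁ (Level.proj h₁ g) = Level.proj (h₀₁.trans h₁) g := by
  induction g using QuotientGroup.induction_on with
  | H g => rfl

/-- `Gal(F'/F)` is a Galois group for `F'/F` (for helper594's `levelAlgebra`). -/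
theorem isGaloisGroup_relGal {L L' : Level S} (h : L ≤ L') :
    @IsGaloisGroup (Level.relGal h) L.F L'.F _ _ _ (levelAlgebra h) _ := by
  letI := levelAlgebra h
  have hfix : ∀ x : L'.F, (∀ n : Level.relGal h, (n : L'.Gal) • x = x) ↔
      x ∈ (algebraMap L.F L'.F).range := level_relGal_fixed_iff h
  have hfixN : ∀ (n : Level.relGal h) (k : L.F),
      (n : L'.Gal) • algebraMap L.F L'.F k = algebraMap L.F L'.F k := fun n k =>
    ((hfix (algebraMap L.F L'.F k)).2 ⟨k, rfl⟩) n
  exact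
    { faithful := ⟨fun {a b} hab =>
        Subtype.ext (eq_of_smul_eq_smul (α := L'.F) fun x => hab x)⟩
      commutes := ⟨fun n k x => by
        change (n : L'.Gal) • (k • x) = k • ((n : L'.Gal) • x)
        rw [Algebra.smul_def, Algebra.smul_def, smul_mul', hfixN]⟩
      isInvariant := ⟨fun x hx => by
        obtain ⟨k, hk⟩ := (hfix x).1 hx
        exact ⟨k, hk⟩⟩ }

/-- The restriction `Gal(L/L₀) → Gal(L₁/L₀)` for `L₀ ≤ L₁ ≤ L`. -/
def relProj {L₀ L₁ L : Level S} (h₀₁ : L₀ ≤ L₁) (h₁ : L₁ ≤ L) :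
    Level.relGal (h₀₁.trans h₁) →* Level.relGal h₀₁ :=
  ((Level.proj h₁).comp (Level.relGal (h₀₁.trans h₁)).subtype).codRestrict (Level.relGal h₀₁)
    (fun g => by
      show Level.proj h₀₁ (Level.proj h₁ (g : L.Gal)) = 1
      rw [level_proj_comp]
      exact g.2)

lemma coe_relProj {L₀ L₁ L : Level S} (h₀₁ : L₀ ≤ L₁) (h₁ : L₁ ≤ L)
    (g : Level.relGal (h₀₁.trans h₁)) :
    ((relProj h₀₁ h₁ g : Level.relGal h₀₁) : L₁.Gal) = Level.proj h₁ (g : L.Gal) := rfl

lemma relProj_surjective {L₀ L₁ L : Level S} (h₀₁ : L₀ ≤ L₁) (h₁ : L₁ ≤ L) :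
    Function.Surjective (relProj h₀₁ h₁) := by
  rintro ⟨q, hq⟩
  obtain ⟨g, rfl⟩ := level_proj_surjective h₁ q
  refine ⟨⟨g, ?_⟩, Subtype.ext rfl⟩
  show Level.proj (h₀₁.trans h₁) g = 1
  rw [← level_proj_comp h₀₁ h₁]
  exact hq

lemma mem_relGal_of_mem_ker_relProj {L₀ L₁ L : Level S} (h₀₁ : L₀ ≤ L₁) (h₁ : L₁ ≤ L)
    (n : (relProj h₀₁ h₁).ker) : ((n : Level.relGal (h₀₁.trans h₁)) : L.Gal) ∈ Level.relGal h₁ := by
  have h := (MonoidHom.mem_ker).1 n.2
  have h2 := congrArg (fun x : Level.relGal h₀₁ => (x : L₁.Gal)) h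
  exact h2

/-- `ker (Gal(L/L₀) → Gal(L₁/L₀))` is a Galois group for `L/L₁`. -/
theorem isGaloisGroup_ker_relProj {L₀ L₁ L : Level S} (h₀₁ : L₀ ≤ L₁) (h₁ : L₁ ≤ L) :
    @IsGaloisGroup (relProj h₀₁ h₁).ker L₁.F L.F _ _ _ (levelAlgebra h₁) _ := by
  letI := levelAlgebra h₁
  have hfix : ∀ x : L.F, (∀ n : Level.relGal h₁, (n : L.Gal) • x = x) ↔
      x ∈ (algebraMap L₁.F L.F).range := level_relGal_fixed_iff h₁
  have hfixN : ∀ (n : (relProj h₀₁ h₁).ker) (k : L₁.F),
      ((n : Level.relGal (h₀₁.trans h₁)) : L.Gal) • algebraMap L₁.F L.F k =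
        algebraMap L₁.F L.F k := fun n k =>
    ((hfix (algebraMap L₁.F L.F k)).2 ⟨k, rfl⟩) ⟨_, mem_relGal_of_mem_ker_relProj h₀₁ h₁ n⟩
  exact
    { faithful := ⟨fun {a b} hab =>
        Subtype.ext (Subtype.ext (eq_of_smul_eq_smul (α := L.F) fun x => hab x))⟩
      commutes := ⟨fun n k x => by
        change ((n : Level.relGal (h₀₁.trans h₁)) : L.Gal) • (k • x) =
          k • (((n : Level.relGal (h₀₁.trans h₁)) : L.Gal) • x)
        rw [Algebra.smul_def, Algebra.smul_def, smul_mul', hfixN]⟩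
      isInvariant := ⟨fun x hx => by
        have hx' : ∀ n : Level.relGal h₁, (n : L.Gal) • x = x := by
          rintro ⟨n, hn⟩
          have hn' : n ∈ Level.relGal (h₀₁.trans h₁) := by
            show Level.proj (h₀₁.trans h₁) n = 1
            rw [← level_proj_comp h₀₁ h₁]
            have : Level.proj h₁ n = 1 := hn
            rw [this, map_one]
          have hker : (⟨n, hn'⟩ : Level.relGal (h₀₁.trans h₁)) ∈ (relProj h₀₁ h₁).ker := by
            rw [MonoidHom.mem_ker]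
            exact Subtype.ext hn
          exact hx ⟨⟨n, hn'⟩, hker⟩
        obtain ⟨k, hk⟩ := (hfix x).1 hx'
        exact ⟨k, hk⟩⟩ }

end Levels

section Main

variable {S : Finset Nat.Primes} (p : ℕ) [hp : Fact p.Prime]

/-- **One Kummer step**: `N_{Gal(L₁/L₀)} C_S(L₁) ⊆ p · C_S(L₁)^{Gal(L₁/L₀)}` for the Kummer level
`L₁` of `L₀ ⊇ μ_p`, in the language of the subgroup `Gal(L₁/L₀)` acting on `L₁`. -/
theorem kummerStep_of_core (hp2 : p ≠ 2) (hpS : (⟨p, hp.out⟩ : Nat.Primes) ∈ S)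
    (hCore : ExistCoreSpec) (L₀ : Level S) (hμ : L₀.HasMu p)
    [Fintype (Level.relGal (le_kummerTow p hpS L₀))] :
    ∀ c : CS S (kummerTow p hpS L₀).F, ∃ c₀ : CS S (kummerTow p hpS L₀).F,
      (∀ g : Level.relGal (le_kummerTow p hpS L₀),
        cRepr S (Level.relGal (le_kummerTow p hpS L₀)) (kummerTow p hpS L₀).F g c₀ = c₀) ∧
      ∑ g : Level.relGal (le_kummerTow p hpS L₀),
        cRepr S (Level.relGal (le_kummerTow p hpS L₀)) (kummerTow p hpS L₀).F g c = p • c₀ := by
  set L₁ := kummerTow p hpS L₀ with hL₁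
  have h₀₁ : L₀ ≤ L₁ := le_kummerTow p hpS L₀
  letI := levelAlgebra h₀₁
  haveI := isGaloisGroup_relGal h₀₁
  obtain ⟨ζ, hζF, hζ⟩ := hμ
  refine hCore p hp2 S (Level.relGal h₀₁) L₀.F L₁.F hpS
    (isPGroup_relGal_kummerTow p hpS L₀ ⟨ζ, hζF, hζ⟩)
    (level_isUnramOut_subgroup L₁ _) ⟨⟨ζ, hζF⟩, ?_⟩ ?_
  · exact IsPrimitiveRoot.of_map_of_injective (f := L₀.F.val) hζ Subtype.val_injective
  · intro x hx
    obtain ⟨β, hβ, hβx⟩ := exists_root_mem_kummerLevel S p L₀.F hp.out.ne_zero x hx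
    exact ⟨⟨β, hβ⟩, Subtype.ext hβx⟩

/-- **The existence theorem mod `p` over the tower** (gd6 for `G.CRep S L.Gal L.F`, i.e.
helper955's `GAD.ExistenceSpecG S p`), from the finite-level core. -/
theorem existenceG_of_core (hp2 : p ≠ 2) (hpS : (⟨p, hp.out⟩ : Nat.Primes) ∈ S)
    (hCore : ExistCoreSpec) :
    ∀ L₀ : Level S, L₀.HasMu p → ∃ L₁ : Level S, L₀ ≤ L₁ ∧
      ∀ (L : Level S) (h : L₀ ≤ L), L₁ ≤ L →
        @E1.NormInP p L.Gal _ (Level.relGal h) (Fintype.ofFinite _) (G.CRep S L.Gal L.F) := by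
  intro L₀ hμ
  refine ⟨kummerTow p hpS L₀, le_kummerTow p hpS L₀, fun L h h₁ => ?_⟩
  set L₁ := kummerTow p hpS L₀ with hL₁
  have h₀₁ : L₀ ≤ L₁ := le_kummerTow p hpS L₀
  letI : Fintype (Level.relGal h₀₁) := Fintype.ofFinite _
  letI : Fintype (Level.relGal (h₀₁.trans h₁)) := Fintype.ofFinite _
  letI := levelAlgebra h₁
  haveI := isGaloisGroup_ker_relProj h₀₁ h₁
  have hstep := kummerStep_of_core p hp2 hpS hCore L₀ hμ
  have hS : S.Nonempty := ⟨_, hpS⟩
  have hcompat : ∀ (g : Level.relGal (h₀₁.trans h₁)) (x : L₁.F),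
      algebraMap L₁.F L.F (relProj h₀₁ h₁ g • x) = g • algebraMap L₁.F L.F x :=
    fun g x => levelIncl_proj_smul h₁ (g : L.Gal) x
  have key := norm_in_p_trans S p (Level.relGal (h₀₁.trans h₁)) (Level.relGal h₀₁) L₁.F L.F
    (relProj h₀₁ h₁) (relProj_surjective h₀₁ h₁) hcompat hS (level_isUnramOut_subgroup L _) hstep
  intro c
  obtain ⟨c₀, hinv, hsum⟩ := key c
  refine ⟨c₀, fun g hg => ?_, ?_⟩
  · have h1 := hinv ⟨g, hg⟩
    rw [DescH773.cRepr_subgroup] at h1
    exact h1
  · refine Eq.trans ?_ hsum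
    exact Finset.sum_congr rfl (fun g _ => (DescH773.cRepr_subgroup S L.Gal L.F _ g c).symm)

end Main

end Fermat.Agent.S55.G.Exist121

end
end
-- ===== PACK-END S55/G/Exist121/Tow.lean

-- ===== PACK-BEGIN S55/G/SIndH237/H95/Main.lean
section
/-
S55 / layer G / G-SIND:UCT (helper95).  Part 7: `UnitsCohTrivSpec`.

Unit idèles at unramified primes are cohomologically trivial in degrees `1` and `2`:
the abstract theorem (`Complete.lean`) applied to `R = RS T L`, `I = n · RS`.
-/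



set_option autoImplicit false
set_option linter.unusedSectionVars false
set_option linter.style.haveILetI false

open scoped NumberField TensorProduct
open IsDedekindDomain CategoryTheory groupCohomology

noncomputable section

namespace Fermat.Agent.S55.G.SIndH237.H95

open Fermat.Agent.S55.G Fermat.Agent.S55.G.SIndH237 Fermat.Agent.S55.G.SIndH237.H63
  Fermat.Agent.S55.G.SIndH237.H959 Fermat.Agent.S55.T

variable (T : Finset Nat.Primes) (G L : Type) [Group G] [Field L] [NumberField L]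
  [MulSemiringAction G L]

/-! ## The Galois action on the integral model -/

/-- The action of `G` on the integral model `RS T L` (a definition, NOT a global instance). -/
@[reducible] def rsAct : MulSemiringAction G (RS T L) where
  smul g z := ⟨asAut T G L g z.1, asAut_mem_RS T G L g z.2⟩
  one_smul z := Subtype.ext (by
    change asAut T G L 1 z.1 = z.1
    rw [map_one]; rfl)
  mul_smul g h z := Subtype.ext (by
    change asAut T G L (g * h) z.1 = asAut T G L g (asAut T G L h z.1)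
    rw [map_mul]; rfl)
  smul_zero g := Subtype.ext (map_zero (asAut T G L g))
  smul_add g x y := Subtype.ext (map_add (asAut T G L g) x.1 y.1)
  smul_one g := Subtype.ext (map_one (asAut T G L g))
  smul_mul g x y := Subtype.ext (map_mul (asAut T G L g) x.1 y.1)

attribute [local instance] rsAct unitsAct

lemma coe_rsAct_smul (g : G) (z : RS T L) : ((g • z : RS T L) : AS T L) = asAut T G L g z := rfl

lemma rsAct_smul_natCast (g : G) (m : ℕ) : g • ((m : ℕ) : RS T L) = m :=
  Subtype.ext (by rw [coe_rsAct_smul, Subring.coe_natCast, map_natCast])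

lemma smul_mem_nIdeal (g : G) (x : RS T L) (hx : x ∈ nIdeal T L) : g • x ∈ nIdeal T L := by
  rw [nIdeal, Ideal.mem_span_singleton'] at hx ⊢
  obtain ⟨a, rfl⟩ := hx
  exact ⟨g • a, by rw [smul_mul', rsAct_smul_natCast]⟩

/-! ## Inertia -/

/-- The ring homomorphism `𝒪_L → RS`, `a ↦ a ⊗ 1`. -/
def intToRS : 𝓞 L →+* RS T L :=
  (((asDiag T L : L →ₐ[ℚ] AS T L) : L →+* AS T L).comp (algebraMap (𝓞 L) L)).codRestrict
    (RS T L) (fun a => tmul_one_mem_RS T L a)

lemma coe_intToRS (a : 𝓞 L) : ((intToRS T L a : RS T L) : AS T L) = (a : L) ⊗ₜ[ℚ] (1 : QS T) :=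
  rfl

lemma intToRS_smul (g : G) (a : 𝓞 L) : intToRS T L (g • a) = g • intToRS T L a :=
  Subtype.ext (by
    rw [coe_rsAct_smul, coe_intToRS, coe_intToRS, asAut_tmul]
    rfl)

lemma natCast_nT_mem_of_isMaximal (m : Ideal (RS T L)) (hm : m.IsMaximal) :
    ((nT T : ℕ) : RS T L) ∈ m := by
  have hJ : nIdeal T L ≤ Ideal.jacobson ⊥ := IsAdicComplete.le_jacobson_bot (nIdeal T L)
  exact (hJ.trans (sInf_le ⟨bot_le, hm⟩)) (Ideal.subset_span rfl)

/-- Trivial inertia at the maximal ideals of `RS`, from `IsUnramAbove`. -/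
lemma inertia_RS [FaithfulSMul G L] (hun : IsUnramAbove T G L) (m : Ideal (RS T L))
    (hm : m.IsMaximal) (g : G) (hg : ∀ x : RS T L, g • x - x ∈ m) : g = 1 := by
  haveI := hm
  set p : Ideal (𝓞 L) := m.comap (intToRS T L) with hp
  have hn : ((nT T : ℕ) : 𝓞 L) ∈ p := by
    rw [hp, Ideal.mem_comap, map_natCast]
    exact natCast_nT_mem_of_isMaximal T L m hm
  have hprime : p.IsPrime := Ideal.comap_isPrime _ _
  have hbot : p ≠ ⊥ := by
    intro h
    rw [h, Ideal.mem_bot] at hn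
    exact nT_ne_zero T (by exact_mod_cast hn)
  let w : HeightOneSpectrum (𝓞 L) := ⟨p, hprime, hbot⟩
  have hab : IsAbove T L w := by
    have h1 : ((nT T : ℕ) : 𝓞 L) = ∏ q ∈ T, (((q : ℕ) : ℕ) : 𝓞 L) := by
      rw [nT, Nat.cast_prod]
    rw [h1] at hn
    obtain ⟨q, hq, hqm⟩ := (Ideal.IsPrime.prod_mem_iff (hp := hprime)).1 hn
    exact ⟨q, hq, hqm⟩
  have htriv : ∀ x : L, g • x = x := hun w hab g fun a => by
    change g • a - a ∈ p
    rw [hp, Ideal.mem_comap, map_sub, intToRS_smul]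
    exact hg _
  exact FaithfulSMul.eq_of_smul_eq_smul (α := L) fun x => by rw [htriv x, one_smul]

/-! ## Units of the integral model versus `U_T(L)` -/

/-- An element of `U_T(L)` as a unit of the ring `RS T L`. -/
def toRU (u : (UT T L).toIntSubmodule) : (RS T L)ˣ where
  val := ⟨((Additive.toMul u.1 : (AS T L)ˣ) : AS T L), u.2.1⟩
  inv := ⟨(((Additive.toMul u.1)⁻¹ : (AS T L)ˣ) : AS T L), u.2.2⟩
  val_inv := Subtype.ext (Units.mul_inv _)
  inv_val := Subtype.ext (Units.inv_mul _)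

/-- A unit of the ring `RS T L` as an element of `U_T(L)`. -/
def ofRU (x : (RS T L)ˣ) : (UT T L).toIntSubmodule :=
  ⟨Additive.ofMul (Units.map ((RS T L).subtype : RS T L →* AS T L) x), ⟨x.1.2, x⁻¹.1.2⟩⟩

section Sub

variable (H : Subgroup G)

/-- `toRU` on the underlying module of the restricted representation. -/
def toRUH (u : (resSub (URep T G L) H).V) : (RS T L)ˣ := toRU T L u

/-- `ofRU` into the underlying module of the restricted representation. -/
def ofRUH (x : (RS T L)ˣ) : (resSub (URep T G L) H).V := ofRU T L x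

lemma toRUH_ofRUH (x : (RS T L)ˣ) : toRUH T G L H (ofRUH T G L H x) = x :=
  Units.ext (Subtype.ext rfl)

lemma toRUH_injective : Function.Injective (toRUH T G L H) := by
  intro u v h
  have h1 := congrArg (fun x : (RS T L)ˣ => ((x : RS T L) : AS T L)) h
  exact Subtype.ext (Additive.toMul.injective (Units.ext h1))

lemma toRUH_add (u v : (resSub (URep T G L) H).V) :
    toRUH T G L H (u + v) = toRUH T G L H u * toRUH T G L H v := Units.ext (Subtype.ext rfl)

lemma toRUH_neg (u : (resSub (URep T G L) H).V) :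
    toRUH T G L H (-u) = (toRUH T G L H u)⁻¹ := Units.ext (Subtype.ext rfl)

lemma toRUH_sub (u v : (resSub (URep T G L) H).V) :
    toRUH T G L H (u - v) = toRUH T G L H u / toRUH T G L H v := by
  rw [sub_eq_add_neg, toRUH_add, toRUH_neg, div_eq_mul_inv]

lemma toRUH_rho (g : H) (u : (resSub (URep T G L) H).V) :
    toRUH T G L H ((resSub (URep T G L) H).ρ g u) = g • toRUH T G L H u :=
  Units.ext (Subtype.ext rfl)

end Sub

/-! ## The theorem -/

variable [Finite G] [FaithfulSMul G L]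

lemma inertia_RS_sub (hun : IsUnramAbove T G L) (H : Subgroup G) (m : Ideal (RS T L))
    (hm : m.IsMaximal) (g : H) (hg : ∀ x : RS T L, g • x - x ∈ m) : g = 1 :=
  Subtype.ext (inertia_RS T G L hun m hm (g : G) hg)

theorem isZero_H1_URep (hun : IsUnramAbove T G L) (H : Subgroup G) :
    Limits.IsZero (groupCohomology (resSub (URep T G L) H) 1) := by
  refine isZero_of_forall_eq_zero fun x => ?_
  induction x using H1_induction_on with
  | h c =>
    rw [H1π_eq_zero_iff]
    have hc := (mem_cocycles₁_iff (c : H → _)).1 c.2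
    have hf : IsMulCocycle₁ (fun h : H => toRUH T G L H (c.1 h)) := by
      intro g h
      change toRUH T G L H (c.1 (g * h)) = g • toRUH T G L H (c.1 h) * toRUH T G L H (c.1 g)
      rw [← toRUH_rho, ← toRUH_add]
      exact congrArg (toRUH T G L H) (hc g h)
    obtain ⟨x, hx⟩ := isMulCoboundary₁_of_complete (H := H) (nIdeal T L)
      (inertia_RS_sub T G L hun H) _ hf
    refine ⟨ofRUH T G L H x, funext fun g => ?_⟩
    apply toRUH_injective T G L H
    change toRUH T G L H ((resSub (URep T G L) H).ρ g (ofRUH T G L H x) - ofRUH T G L H x) =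
      toRUH T G L H (c.1 g)
    rw [toRUH_sub, toRUH_rho, toRUH_ofRUH]
    exact hx g

theorem isZero_H2_URep (hun : IsUnramAbove T G L) (H : Subgroup G) :
    Limits.IsZero (groupCohomology (resSub (URep T G L) H) 2) := by
  refine isZero_of_forall_eq_zero fun x => ?_
  induction x using H2_induction_on with
  | h c =>
    rw [H2π_eq_zero_iff]
    have hc := (mem_cocycles₂_iff (c : H × H → _)).1 c.2
    have hf : IsMulCocycle₂ (fun p : H × H => toRUH T G L H (c.1 p)) := by
      intro g h j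
      change toRUH T G L H (c.1 (g * h, j)) * toRUH T G L H (c.1 (g, h)) =
        g • toRUH T G L H (c.1 (h, j)) * toRUH T G L H (c.1 (g, h * j))
      rw [← toRUH_rho, ← toRUH_add, ← toRUH_add]
      exact congrArg (toRUH T G L H) (hc g h j)
    obtain ⟨x, hx⟩ := isMulCoboundary₂_of_complete (H := H) (nIdeal T L)
      (fun h x hx => smul_mem_nIdeal T G L (h : G) x hx)
      (inertia_RS_sub T G L hun H) _ hf
    refine ⟨fun g => ofRUH T G L H (x g), funext fun p => ?_⟩
    obtain ⟨g, h⟩ := p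
    apply toRUH_injective T G L H
    change toRUH T G L H ((resSub (URep T G L) H).ρ g (ofRUH T G L H (x h)) -
      ofRUH T G L H (x (g * h)) + ofRUH T G L H (x g)) = toRUH T G L H (c.1 (g, h))
    rw [toRUH_add, toRUH_sub, toRUH_rho, toRUH_ofRUH, toRUH_ofRUH, toRUH_ofRUH]
    exact hx g h

/-- **SIND-UCT.** -/
theorem unitsCohTriv : UnitsCohTrivSpec := by
  intro T G L _ _ _ _ _ _ hun H
  exact ⟨isZero_H1_URep T G L hun H, isZero_H2_URep T G L hun H⟩

end Fermat.Agent.S55.G.SIndH237.H95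

end
end
-- ===== PACK-END S55/G/SIndH237/H95/Main.lean

-- ===== PACK-BEGIN S55/Mackey/Classical.lean
section



/-!
# S55 (helper61): Mackey–Shapiro — the classical Mackey system

For `α : H →* G`, `D ≤ G` and `x : G` put `twSub α D x = {h : H | x α(h) x⁻¹ ∈ D}` (the "twisted
intersection" `H ∩ x⁻¹ D x`) and `twHom α D x : twSub α D x →* D`, `h ↦ x α(h) x⁻¹`.

* `isMackeySystem_tw` : for any system `x : ι → G` of representatives of the double cosets
  `D \ G / α(H)`, the groups `twSub α D (x i)` form a Mackey system;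
* `isMackeySystem_doset` : the same for the canonical representatives `q.out`,
  `q : DoubleCoset.Quotient D α.range`;
* `mackeyTw_bijective` : `Hⁿ(H, Res_α Coind_D^G A) ≃ ∏ᵢ Hⁿ(H ∩ xᵢ⁻¹ D xᵢ, Res A)`.
-/

set_option autoImplicit false

open CategoryTheory CategoryTheory.Limits groupCohomology

namespace Fermat.Agent.S55.Mackey

universe u v

variable {k H G : Type u} [CommRing k] [Group H] [Group G]

section Tw

variable (α : H →* G) (D : Subgroup G)

/-- The twisted intersection `{h : H | x α(h) x⁻¹ ∈ D}`. -/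
def twSub (x : G) : Subgroup H := D.comap ((MulAut.conj x).toMonoidHom.comp α)

lemma mem_twSub {x : G} {h : H} : h ∈ twSub α D x ↔ x * α h * x⁻¹ ∈ D := Iff.rfl

/-- The homomorphism `twSub α D x →* D`, `h ↦ x α(h) x⁻¹`. -/
def twHom (x : G) : twSub α D x →* D where
  toFun h := ⟨x * α h * x⁻¹, h.2⟩
  map_one' := by
    apply Subtype.ext
    simp
  map_mul' a b := by
    apply Subtype.ext
    simp [mul_assoc]

@[simp]
lemma coe_twHom (x : G) (h : twSub α D x) : ((twHom α D x h : D) : G) = x * α h * x⁻¹ := rfl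

/-- Any system of representatives of `D \ G / α(H)` gives a Mackey system. -/
theorem isMackeySystem_tw {ι : Type v} (x : ι → G)
    (hcover : ∀ g : G, ∃ i, ∃ d : D, ∃ h : H, g = (d : G) * x i * α h)
    (hdisj : ∀ i i' (d : D) (h : H), x i = (d : G) * x i' * α h → i = i') :
    IsMackeySystem α D (fun i => twSub α D (x i)) (fun i => (twSub α D (x i)).subtype)
      (fun i => twHom α D (x i)) x where
  comm := fun i h' => by
    simp [coe_twHom]
  inj := fun i => Subtype.val_injective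
  full := fun i h hh => ⟨⟨h, hh⟩, rfl⟩
  cover := hcover
  disj := hdisj

/-- The canonical representatives of the double cosets `D \ G / α(H)` give a Mackey system. -/
theorem isMackeySystem_doset :
    IsMackeySystem α D
      (fun q : DoubleCoset.Quotient (D : Set G) (α.range : Set G) => twSub α D q.out)
      (fun q => (twSub α D q.out).subtype)
      (fun q => twHom α D q.out) (fun q => q.out) := by
  refine isMackeySystem_tw α D _ ?_ ?_
  · intro g
    obtain ⟨d, r, hd, hr, hq⟩ := DoubleCoset.mk_out_eq_mul D α.range g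
    obtain ⟨h, rfl⟩ := hr
    refine ⟨DoubleCoset.mk D α.range g, ⟨d⁻¹, D.inv_mem hd⟩, h⁻¹, ?_⟩
    rw [hq]
    simp [mul_assoc]
  · intro q q' d h hq
    have h1 : DoubleCoset.mk D α.range q'.out = DoubleCoset.mk D α.range q.out :=
      (DoubleCoset.eq D α.range _ _).2 ⟨d, d.2, α h, ⟨h, rfl⟩, hq⟩
    rw [DoubleCoset.out_eq', DoubleCoset.out_eq'] at h1
    exact h1.symm

end Tw

section Main

variable {α : H →* G} {D : Subgroup G}

/-- **Classical Mackey decomposition** for a system of double coset representatives. -/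
theorem mackeyTw_bijective (hα : Function.Injective α) {ι : Type v} (x : ι → G)
    (hcover : ∀ g : G, ∃ i, ∃ d : D, ∃ h : H, g = (d : G) * x i * α h)
    (hdisj : ∀ i i' (d : D) (h : H), x i = (d : G) * x i' * α h → i = i')
    (A : Rep.{u} k D) (n : ℕ) :
    Function.Bijective (mackeyPi (isMackeySystem_tw α D x hcover hdisj) A n) :=
  mackeyPi_bijective hα _ n A

/-- **Classical Mackey decomposition** for the canonical double coset representatives. -/
theorem mackeyDoset_bijective (hα : Function.Injective α) (A : Rep.{u} k D) (n : ℕ) :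
    Function.Bijective (mackeyPi (isMackeySystem_doset α D) A n) :=
  mackeyPi_bijective hα _ n A

end Main

end Fermat.Agent.S55.Mackey

end
-- ===== PACK-END S55/Mackey/Classical.lean

-- ===== PACK-BEGIN S55/K/GO3H535/H371/Smooth.lean
section



/-!
# S55 / layer K / GO3-CAPDIV (helper371), part 3: `S`-smooth elements and Kummer theory

* `isSm_iff`, `isSm_iff_galois` : `IsSm S a ↔ a ∈ F` for some (Galois) level `F`;
* `isSm_mul`, `isSm_inv`, `isSm_div`, `isSm_pow`, `isSm_zpow`, `isSm_smul`;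
* `isSm_exists_hasOrd` : an `S`-smooth element has an (integral) order at every place over
  `q ∉ S`;
* `isSm_of_pow` (generalised Kummer): if `y ^ n` is `S`-smooth, `n` a power of `p ∈ S`, and `y`
  has an integral order at every place outside `S`, then `y` is `S`-smooth.
-/

set_option autoImplicit false
set_option linter.unusedSectionVars false
set_option linter.style.haveILetI false

noncomputable section

namespace Fermat.Agent.S55.K.GO3H535.H371

open Fermat.Agent.S55.PT Fermat.Agent.S55.Bridge Fermat.Agent.S55.K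
open NumberField IsDedekindDomain IntermediateField
open scoped Pointwise

attribute [local instance] isAlgebraic_Qbar isGalois_Qbar

variable {S : Finset Nat.Primes}

theorem coe_smul_units (σ : _root_.Fermat.Agent.S55.PT.GQ) (a : Qbarˣ) : ((σ • a : Qbarˣ) : Qbar) = σ (a : Qbar) := rfl

theorem isSm_iff (a : Qbarˣ) :
    IsSm S a ↔ ∃ F : IntermediateField ℚ (AlgebraicClosure ℚ),
      F.IsUnramifiedOutside S ∧ (a : Qbar) ∈ F := by
  constructor
  · rintro ⟨U, ⟨F, hF, rfl⟩, h⟩
    refine ⟨F, hF, ?_⟩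
    rw [← InfiniteGalois.fixedField_fixingSubgroup F, IntermediateField.mem_fixedField_iff]
    intro σ hσ
    have := congrArg (fun u : Qbarˣ => (u : Qbar)) (h σ hσ)
    exact this
  · rintro ⟨F, hF, ha⟩
    refine ⟨F.fixingSubgroup, ⟨F, hF, rfl⟩, fun s hs => ?_⟩
    apply Units.ext
    rw [coe_smul_units]
    exact (IntermediateField.mem_fixingSubgroup_iff F s).1 hs _ ha

theorem isSm_iff_galois (a : Qbarˣ) :
    IsSm S a ↔ ∃ F : IntermediateField ℚ (AlgebraicClosure ℚ),
      F.IsUnramifiedOutside S ∧ IsGalois ℚ F ∧ (a : Qbar) ∈ F := by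
  rw [isSm_iff]
  constructor
  · rintro ⟨F, hF, ha⟩
    obtain ⟨L, hL, hgal, hle⟩ := exists_galois_level_ge S F hF
    exact ⟨L, hL, hgal, hle ha⟩
  · rintro ⟨F, hF, -, ha⟩
    exact ⟨F, hF, ha⟩

theorem isSm_one : IsSm S (1 : Qbarˣ) :=
  (isSm_iff 1).2 ⟨⊥, IntermediateField.isUnramifiedOutside_bot S, by simp⟩

theorem isSm_mul {a b : Qbarˣ} (ha : IsSm S a) (hb : IsSm S b) : IsSm S (a * b) := by
  obtain ⟨F, hF, haF⟩ := (isSm_iff a).1 ha
  obtain ⟨F', hF', hbF⟩ := (isSm_iff b).1 hb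
  refine (isSm_iff _).2 ⟨F ⊔ F', hF.sup hF', ?_⟩
  rw [Units.val_mul]
  exact mul_mem ((le_sup_left : F ≤ F ⊔ F') haF) ((le_sup_right : F' ≤ F ⊔ F') hbF)

theorem isSm_inv {a : Qbarˣ} (ha : IsSm S a) : IsSm S a⁻¹ := by
  obtain ⟨F, hF, haF⟩ := (isSm_iff a).1 ha
  refine (isSm_iff _).2 ⟨F, hF, ?_⟩
  rw [Units.val_inv_eq_inv_val]
  exact inv_mem haF

theorem isSm_div {a b : Qbarˣ} (ha : IsSm S a) (hb : IsSm S b) : IsSm S (a / b) := by
  rw [div_eq_mul_inv]
  exact isSm_mul ha (isSm_inv hb)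

theorem isSm_pow {a : Qbarˣ} (ha : IsSm S a) (n : ℕ) : IsSm S (a ^ n) := by
  obtain ⟨F, hF, haF⟩ := (isSm_iff a).1 ha
  refine (isSm_iff _).2 ⟨F, hF, ?_⟩
  rw [Units.val_pow_eq_pow_val]
  exact pow_mem haF n

theorem isSm_zpow {a : Qbarˣ} (ha : IsSm S a) (n : ℤ) : IsSm S (a ^ n) := by
  obtain ⟨m, rfl | rfl⟩ := Int.eq_nat_or_neg n
  · rw [zpow_natCast]
    exact isSm_pow ha m
  · rw [zpow_neg, zpow_natCast]
    exact isSm_inv (isSm_pow ha m)

theorem isSm_smul {a : Qbarˣ} (ha : IsSm S a) (σ : _root_.Fermat.Agent.S55.PT.GQ) : IsSm S (σ • a) := by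
  obtain ⟨F, hF, hgal, haF⟩ := (isSm_iff_galois a).1 ha
  refine (isSm_iff _).2 ⟨F, hF, ?_⟩
  rw [coe_smul_units]
  haveI := hF.1
  haveI := hgal
  have h := H594.restrictNormalHom_apply F σ ⟨(a : Qbar), haF⟩
  rw [← h]
  exact (AlgEquiv.restrictNormalHom F σ ⟨(a : Qbar), haF⟩).2

/-- An `S`-smooth element has an integral order at every place over a prime outside `S`. -/
theorem isSm_exists_hasOrd {a : Qbarˣ} (ha : IsSm S a) {q : Nat.Primes} (hq : q ∉ S)
    (A : ValuationSubring (AlgebraicClosure ℚ)) (hA : A.LiesOverPrime (q : ℕ)) :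
    ∃ n : ℤ, HasOrd A (q : ℕ) (a : Qbar) n := by
  obtain ⟨F, hF, hgal, haF⟩ := (isSm_iff_galois a).1 ha
  haveI := hF.1
  haveI := hgal
  have h0 : (⟨(a : Qbar), haF⟩ : F) ≠ 0 := by
    intro h
    exact a.ne_zero (congrArg (fun x : F => (x : Qbar)) h)
  exact exists_hasOrd_of_mem F hF hq A hA ⟨(a : Qbar), haF⟩ h0

/-- **Generalised Kummer lemma.**  Let `p ∈ S`, `n` a power of `p`.  If `y ^ n` is `S`-smooth and
`y` has an integral order at every place over a prime outside `S`, then `y` is `S`-smooth. -/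
theorem isSm_of_pow {p : ℕ} (hp : p.Prime) (hpS : (⟨p, hp⟩ : Nat.Primes) ∈ S) (a : ℕ)
    (y : Qbarˣ) (hy : IsSm S (y ^ (p ^ a)))
    (hord : ∀ q : Nat.Primes, q ∉ S → ∀ A : ValuationSubring (AlgebraicClosure ℚ),
      A.LiesOverPrime (q : ℕ) → ∃ m : ℤ, HasOrd A (q : ℕ) (y : Qbar) m) :
    IsSm S y := by
  obtain ⟨F, hF, hyF⟩ := (isSm_iff _).1 hy
  rw [Units.val_pow_eq_pow_val] at hyF
  haveI := hF.1
  haveI : FiniteDimensional ℚ ℚ⟮(y : Qbar)⟯ :=
    IntermediateField.adjoin.finiteDimensional (Algebra.IsIntegral.isIntegral (y : Qbar))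
  refine (isSm_iff y).2 ⟨F ⊔ ℚ⟮(y : Qbar)⟯, ⟨IntermediateField.finiteDimensional_sup F _,
    fun q hq A hA σ hσ => ?_⟩,
    (le_sup_right : ℚ⟮(y : Qbar)⟯ ≤ F ⊔ ℚ⟮(y : Qbar)⟯) (IntermediateField.mem_adjoin_simple_self ℚ _)⟩
  have hσF : σ ∈ F.fixingSubgroup := hF.2 q hq A hA hσ
  rw [IntermediateField.fixingSubgroup_sup]
  refine ⟨hσF, ?_⟩
  show σ ∈ ℚ⟮(y : Qbar)⟯.fixingSubgroup
  have hqp : (q : ℕ) ≠ p := by
    intro h
    apply hq
    have : q = ⟨p, hp⟩ := Subtype.ext h
    rw [this]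
    exact hpS
  have hpv : A.valuation (p : AlgebraicClosure ℚ) = 1 := val_prime_eq_one (A := A) hA q.2 hp hqp
  have hnv : A.valuation (((p ^ a : ℕ) : ℕ) : AlgebraicClosure ℚ) = 1 := by
    rw [Nat.cast_pow, map_pow, hpv, one_pow]
  obtain ⟨m, hm⟩ := hord q hq A hA
  have hz : UnitAt A ((y : Qbar) / ((q : ℕ) : Qbar) ^ m) := (hasOrd_iff_unitAt q.2.ne_zero _ _).1 hm
  have hσq : σ (((q : ℕ) : Qbar) ^ m) = ((q : ℕ) : Qbar) ^ m := by
    rw [map_zpow₀, map_natCast]
  have hfix : σ (((y : Qbar) / ((q : ℕ) : Qbar) ^ m) ^ (p ^ a)) =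
      ((y : Qbar) / ((q : ℕ) : Qbar) ^ m) ^ (p ^ a) := by
    rw [div_pow, map_div₀, map_pow σ (((q : ℕ) : Qbar) ^ m), hσq]
    congr 1
    exact (IntermediateField.mem_fixingSubgroup_iff F σ).1 hσF _ hyF
  have hσz : σ ((y : Qbar) / ((q : ℕ) : Qbar) ^ m) = (y : Qbar) / ((q : ℕ) : Qbar) ^ m :=
    kummer_unit_fixed_of_mem_inertia (pow_ne_zero a hp.ne_zero) hnv hσ hfix hz
  have hq0 : ((q : ℕ) : Qbar) ^ m ≠ 0 := zpow_ne_zero m (by exact_mod_cast q.2.ne_zero)
  have hσy : σ (y : Qbar) = (y : Qbar) := by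
    rw [map_div₀, hσq] at hσz
    exact (div_left_inj' hq0).1 hσz
  rw [IntermediateField.mem_fixingSubgroup_iff]
  intro x hx
  have hle : ℚ⟮(y : Qbar)⟯ ≤ IntermediateField.fixedField (Subgroup.zpowers σ) := by
    rw [IntermediateField.adjoin_simple_le_iff]
    rintro ⟨τ, hτ⟩
    obtain ⟨k, rfl⟩ := Subgroup.mem_zpowers_iff.1 hτ
    show (σ ^ k) • (y : Qbar) = (y : Qbar)
    have hstab : σ ∈ MulAction.stabilizer (AlgebraicClosure ℚ ≃ₐ[ℚ] AlgebraicClosure ℚ)
        (y : Qbar) := MulAction.mem_stabilizer_iff.2 hσy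
    exact MulAction.mem_stabilizer_iff.1 (Subgroup.zpow_mem _ hstab k)
  exact hle hx ⟨σ, Subgroup.mem_zpowers σ⟩

end Fermat.Agent.S55.K.GO3H535.H371

end
end
-- ===== PACK-END S55/K/GO3H535/H371/Smooth.lean

-- ===== PACK-BEGIN S56/H419/EulerSign.lean
section


/-!
# S56 / W-BASE / leaf ADD, part 3 (helper419): the archimedean term

For an involution `c` (complex conjugation) and `2 ≠ 0` in `k`, the functor `N ↦ N^{c = -1}` is
exact; hence `φ(N) := h⁰ − h¹ + h² + dim N^{c=-1}` is additive on short exact sequences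
(`phi_add`, `PhiAddSpec`, `phiAdd_of`).  Tate's global Euler characteristic formula for `G_{ℚ,S}`
(`p` odd) is the statement `φ ≡ 0`.
-/

set_option autoImplicit false

noncomputable section

namespace Fermat.Agent.S56.H419

open Fermat.Agent.S55.PT groupCohomology Module

section General

variable {k : Type} [Field k] {G : Type} [Group G]

/-- The `(-1)`-eigenspace of `c` on `N`. -/
def minusPart (c : G) (N : Rep.{0, 0, 0} k G) : Submodule k N :=
  LinearMap.ker (N.ρ c + LinearMap.id)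

theorem mem_minusPart {c : G} {N : Rep.{0, 0, 0} k G} {x : N} :
    x ∈ minusPart c N ↔ N.ρ c x = -x := by
  unfold minusPart
  rw [LinearMap.mem_ker, LinearMap.add_apply, LinearMap.id_apply, add_eq_zero_iff_eq_neg]

variable {A B C : Rep.{0, 0, 0} k G} (E : SES A B C) (c : G)

include E in
/-- auxiliary: membership transported along `i`. -/
theorem SES.i_mem_minusPart (a : ↥(minusPart c A)) : E.i a.1 ∈ minusPart c B := by
  rw [mem_minusPart, ← E.hi c a.1, mem_minusPart.1 a.2, map_neg]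

/-- `A^{c=-1} → B^{c=-1}`. -/
def SES.iMinus : ↥(minusPart c A) →ₗ[k] ↥(minusPart c B) :=
  (E.i ∘ₗ (minusPart c A).subtype).codRestrict (minusPart c B) (fun a => by
    rw [mem_minusPart, LinearMap.comp_apply, Submodule.subtype_apply, ← E.hi c a.1,
      mem_minusPart.1 a.2, map_neg])

/-- `B^{c=-1} → C^{c=-1}`. -/
def SES.πMinus : ↥(minusPart c B) →ₗ[k] ↥(minusPart c C) :=
  (E.π ∘ₗ (minusPart c B).subtype).codRestrict (minusPart c C) (fun b => by
    rw [mem_minusPart, LinearMap.comp_apply, Submodule.subtype_apply, ← E.hπ c b.1,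
      mem_minusPart.1 b.2, map_neg])

theorem SES.iMinus_injective : Function.Injective (SES.iMinus E c) := by
  intro x y h
  apply Subtype.ext
  apply E.inj
  exact congrArg Subtype.val h

theorem SES.range_iMinus : LinearMap.range (SES.iMinus E c) = LinearMap.ker (SES.πMinus E c) := by
  ext b
  constructor
  · rintro ⟨a, rfl⟩
    rw [LinearMap.mem_ker]
    apply Subtype.ext
    exact E.π_i a.1
  · intro hb
    rw [LinearMap.mem_ker] at hb
    have hb' : E.π b.1 = 0 := congrArg Subtype.val hb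
    have hmem : b.1 ∈ LinearMap.range E.i := by rw [E.exact]; exact hb'
    obtain ⟨a, ha⟩ := hmem
    have ha' : a ∈ minusPart c A := by
      rw [mem_minusPart]
      apply E.inj
      rw [E.hi c a, ha, mem_minusPart.1 b.2, map_neg, ha]
    exact ⟨⟨a, ha'⟩, Subtype.ext ha⟩

theorem SES.πMinus_surjective (hc : ∀ b : B, B.ρ c (B.ρ c b) = b) (h2 : (2 : k) ≠ 0) :
    Function.Surjective (SES.πMinus E c) := by
  intro x
  obtain ⟨b, hb⟩ := E.surj x.1
  have hx : C.ρ c x.1 = -x.1 := mem_minusPart.1 x.2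
  refine ⟨⟨(2 : k)⁻¹ • (b - B.ρ c b), ?_⟩, ?_⟩
  · rw [mem_minusPart, map_smul, map_sub, hc b, ← smul_neg, neg_sub]
  · apply Subtype.ext
    show E.π ((2 : k)⁻¹ • (b - B.ρ c b)) = x.1
    rw [map_smul, map_sub, E.hπ c b, hb, hx, sub_neg_eq_add, ← two_smul k x.1, smul_smul,
      inv_mul_cancel₀ h2, one_smul]

include E in
/-- Exactness of `N ↦ N^{c=-1}` in terms of dimensions. -/
theorem finrank_minusPart_add (hc : ∀ b : B, B.ρ c (B.ρ c b) = b) (h2 : (2 : k) ≠ 0)
    [FiniteDimensional k B] :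
    finrank k ↥(minusPart c B) = finrank k ↥(minusPart c A) + finrank k ↥(minusPart c C) := by
  have h1 := finrank_eq_of_exact (SES.iMinus E c) (SES.πMinus E c) (SES.range_iMinus E c)
  rw [LinearMap.finrank_range_of_inj (SES.iMinus_injective E c),
    LinearMap.range_eq_top.2 (SES.πMinus_surjective E c hc h2), finrank_top] at h1
  exact h1

/-- `φ(N) = h⁰ − h¹ + h² + dim N^{c=-1}`. -/
def phi (L : LevelSys G) (c : G) (N : Rep.{0, 0, 0} k G) : ℤ :=
  eulerChar L N + finrank k ↥(minusPart c N)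

/-- **ADD, general form, with the archimedean term.** -/
theorem phi_add (hLes0 : Les0Spec) (hLes1 : Les1Spec) (hMid : LesMidSpec)
    (L : LevelSys G) (hN : L.NormalCofinal) (E : SES A B C)
    (hB : L.IsUSmooth B) [FiniteDimensional k B]
    [FiniteDimensional k (L.H1 A)] [FiniteDimensional k (L.H1 B)] [FiniteDimensional k (L.H1 C)]
    [FiniteDimensional k (L.H2 A)] [FiniteDimensional k (L.H2 B)] [FiniteDimensional k (L.H2 C)]
    (hsurj : Function.Surjective (pushH2 E.π E.hπ L))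
    (hc : ∀ b : B, B.ρ c (B.ρ c b) = b) (h2 : (2 : k) ≠ 0) :
    phi L c B = phi L c A + phi L c C := by
  have h1 := eulerChar_add hLes0 hLes1 hMid L hN E hB hsurj
  have h3 := finrank_minusPart_add E c hc h2
  unfold phi
  rw [h1, h3]
  push_cast
  ring

end General

section Global

variable (p : ℕ) [Fact p.Prime] (S : Finset Nat.Primes)

/-- **ADD with archimedean term** (W-BASE, step 1): for an involution `c ∈ G_ℚ` (complex
conjugation) and `p` odd, `φ = h⁰ − h¹ + h² + dim (·)^{c=-1}` is additive on short exact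
sequences of finite-dimensional uniformly smooth `F_p`-representations of `G_{ℚ,S}`. -/
def PhiAddSpec : Prop :=
  p ≠ 2 → ∀ c : _root_.Fermat.Agent.S55.PT.GQ, c * c = 1 →
  ∀ (A B C : Rep.{0, 0, 0} (ZMod p) _root_.Fermat.Agent.S55.PT.GQ) (_E : SES A B C),
    FiniteDimensional (ZMod p) B → (globalLevels S).IsUSmooth B →
    phi (globalLevels S) c B = phi (globalLevels S) c A + phi (globalLevels S) c C

theorem phiAdd_of (hLes0 : Les0Spec) (hLes1 : Les1Spec) (hMid : LesMidSpec)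
    (hGN : GlobalNormalCofinalSpec) (hA1 : FinGlobSpec p S) (hH2 : H2FinGlobSpec p S)
    (hA3 : Surj2GlobSpec p S) : PhiAddSpec p S := by
  intro hp2 c hcc A B C E hfB hB
  have h1 := eulerAdd_of p S hLes0 hLes1 hMid hGN hA1 hH2 hA3 A B C E hfB hB
  have : FiniteDimensional (ZMod p) B := hfB
  have hc : ∀ b : B, B.ρ c (B.ρ c b) = b := fun b => by
    have h := congrArg (fun f => f b) (map_mul B.ρ c c)
    simp only [Module.End.mul_apply] at h
    rw [← h, hcc, map_one, Module.End.one_apply]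
  have h2 : (2 : ZMod p) ≠ 0 := by
    intro h
    have h' : ((2 : ℕ) : ZMod p) = 0 := by exact_mod_cast h
    rw [ZMod.natCast_eq_zero_iff] at h'
    have hp := (Fact.out : p.Prime)
    exact hp2 ((Nat.prime_dvd_prime_iff_eq hp Nat.prime_two).1 h')
  have h3 := finrank_minusPart_add E c hc h2
  unfold phi
  rw [h1, h3]
  push_cast
  ring

end Global

end Fermat.Agent.S56.H419

end

end
-- ===== PACK-END S56/H419/EulerSign.lean

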