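import Fermat.Agent.Pack.S56.E15L1
import Fermat.Agent.Pack.S56.E15L0
import Fermat.Agent.Pack.S56.E5L3
import Fermat.Agent.Pack.S56.E5L1
import Fermat.Agent.Pack.S56.E6L0
import Fermat.Agent.Pack.S56.E15L2
import Fermat.Agent.Pack.S56.E4L3
import Fermat.Agent.Pack.S56.E8L0
import Fermat.Agent.Pack.S56.E4L1
import Fermat.Agent.Pack.S56.E11L3
import Fermat.Agent.Pack.S56.E2L3
import Fermat.Agent.Pack.S56.E14L0
import Fermat.Agent.Pack.S56.E7L2
import Fermat.Agent.Pack.S56.E0L1
import Fermat.Agent.Pack.S56.E15L3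
import Fermat.Agent.Pack.S56.E13L3
import Fermat.Agent.Pack.S56.E9L3
import Fermat.Agent.Pack.S56.E13L1

-- ===== PACK-BEGIN S56/H66/VGArch.lean
section


/-!
# S56 / FLAT-O, leaf FO-VG (helper66): valuation inputs, part 2

* `arch` (ARCH): for `c ≠ 0` in `ℚ̄` there is `N` with `v(p)^N ≤ v(c)`;
* `vg1_le`: a non-unit of `A` fixed by `I₁` has valuation `≤ v(ζ - 1)`;
* `vg1_mem`: such an element is `(ζ - 1) · b` with `b ∈ A`;
* `vg0_mem`: a non-unit of `A` fixed by `I` is `p · b` with `b ∈ A`.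
-/

set_option autoImplicit false
set_option linter.style.haveILetI false

open scoped Pointwise

namespace Fermat.Agent.S56.H66

open Polynomial Fermat.Agent.S14.H894

local notation "Qb" => AlgebraicClosure ℚ
local notation "GQ" => (AlgebraicClosure ℚ ≃ₐ[ℚ] AlgebraicClosure ℚ)

section

variable (A : ValuationSubring Qb) (p : ℕ) (hp : p.Prime) (hA : A.LiesOverPrime p)
  (ζ : Qb) (hζ : IsPrimitiveRoot ζ p)

include hp hA in
/-- **(ARCH)** The valuation of a nonzero algebraic number is bounded below by a power of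
`v(p)`. -/
theorem arch (c : Qb) (hc : c ≠ 0) : ∃ N : ℕ, A.valuation (p : Qb) ^ N ≤ A.valuation c := by
  have halg : IsAlgebraic ℤ c⁻¹ :=
    (IsFractionRing.isAlgebraic_iff ℤ ℚ Qb).mpr
      ((AlgebraicClosure.isAlgebraic ℚ).isAlgebraic c⁻¹)
  obtain ⟨d, hd0, hd⟩ := halg.exists_integral_multiple
  have hmem : d • c⁻¹ ∈ A := Fermat.Agent.S54.isIntegral_mem_valuationSubring A hd
  have hle : A.valuation (d • c⁻¹) ≤ 1 := (A.valuation_le_one_iff _).mpr hmem
  have hdn : d.natAbs ≠ 0 := Int.natAbs_ne_zero.mpr hd0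
  obtain ⟨N, hN⟩ := exists_pow_valuation_nat A p hp hA d.natAbs hdn
  have hvd : A.valuation ((d : ℤ) : Qb) = A.valuation (p : Qb) ^ N := by
    rw [← hN]
    rcases Int.natAbs_eq d with h | h
    · conv_lhs => rw [h]
      simp
    · conv_lhs => rw [h]
      simp
  refine ⟨N, ?_⟩
  have hcv : A.valuation c ≠ 0 := (Valuation.ne_zero_iff _).mpr hc
  rw [zsmul_eq_mul, map_mul, map_inv₀, hvd] at hle
  have := (mul_inv_le_iff₀ (zero_lt_iff.mpr hcv)).mp hle
  simpa using this

include hp hA hζ in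
/-- (VG1), integral form: a non-unit of `A` fixed by `I₁` has valuation `≤ v(ζ - 1)`. -/
theorem vg1_le (a : Qb) (ha : a ∈ A.nonunits)
    (hfix : ∀ σ ∈ A.inertiaSubgroupIn ℚ, σ ζ = ζ → σ a = a) :
    A.valuation a ≤ A.valuation (ζ - 1) := by
  rcases eq_or_ne a 0 with rfl | ha0
  · simp
  obtain ⟨n, hn⟩ := vg1 A p hp hA ζ hζ a ha0 hfix
  have hπ0 := valuation_zeta_sub_one_ne_zero A p hp ζ hζ
  have hπ1 := valuation_zeta_sub_one_lt_one A p hp hA ζ hζ
  have hav : A.valuation a < 1 := (A.mem_nonunits_iff).mp ha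
  rw [hn] at hav ⊢
  have hn1 : 1 ≤ n := by
    by_contra hcon
    push Not at hcon
    have hn0 : n ≤ 0 := by omega
    have : 1 ≤ A.valuation (ζ - 1) ^ n := by
      obtain ⟨k, rfl⟩ : ∃ k : ℕ, n = -(k : ℤ) := ⟨(-n).toNat, by omega⟩
      rw [zpow_neg, zpow_natCast]
      exact (one_le_inv₀ (pow_pos (zero_lt_iff.mpr hπ0) k)).mpr (pow_le_one₀ zero_le hπ1.le)
    exact absurd hav (not_lt.mpr this)
  obtain ⟨k, rfl⟩ : ∃ k : ℕ, n = (k : ℤ) + 1 := ⟨(n - 1).toNat, by omega⟩
  rw [zpow_add_one₀ hπ0, zpow_natCast]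
  calc A.valuation (ζ - 1) ^ k * A.valuation (ζ - 1)
      ≤ 1 * A.valuation (ζ - 1) := by
        gcongr
        exact pow_le_one₀ zero_le hπ1.le
    _ = A.valuation (ζ - 1) := one_mul _

/-- `v(a) ≤ v(b)`, `b ≠ 0` ⇒ `a = b * c` with `c ∈ A`. -/
theorem exists_mul_of_valuation_le {a b : Qb} (hb : b ≠ 0)
    (h : A.valuation a ≤ A.valuation b) : ∃ c ∈ A, a = b * c := by
  refine ⟨a / b, ?_, by field_simp⟩
  rw [← A.valuation_le_one_iff, map_div₀]
  exact div_le_one_of_le₀ h zero_le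

include hp hA hζ in
/-- (VG1), divisibility form. -/
theorem vg1_mem (a : Qb) (ha : a ∈ A.nonunits)
    (hfix : ∀ σ ∈ A.inertiaSubgroupIn ℚ, σ ζ = ζ → σ a = a) :
    ∃ c ∈ A, a = (ζ - 1) * c :=
  exists_mul_of_valuation_le A (sub_ne_zero.mpr (hζ.ne_one hp.one_lt))
    (vg1_le A p hp hA ζ hζ a ha hfix)

include hp hA in
/-- (VG0), divisibility form. -/
theorem vg0_mem (a : Qb) (ha : a ∈ A.nonunits)
    (hfix : ∀ σ ∈ A.inertiaSubgroupIn ℚ, σ a = a) :
    ∃ c ∈ A, a = (p : Qb) * c :=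
  exists_mul_of_valuation_le A (by exact_mod_cast hp.ne_zero) (vg0_le p hp A hA a ha hfix)

end

end Fermat.Agent.S56.H66

end
-- ===== PACK-END S56/H66/VGArch.lean

-- ===== PACK-BEGIN S56/H14/MuTriv.lean
section




/-!
# Row S56 — REC-Q input: at a prime `q ≡ 1 mod p` the decomposition group fixes `μ_p` (helper14)

* `exists_int_sub_mem_nonunits` : `A | q`, `t ∈ ℚ̄` with `t ^ q = t` ⟹ `t ≡ n mod 𝔪_A` for some
  integer `n` (the residue class of `t` lies in the prime field);
* `cycloChar_eq_one_of_mem_decomposition` : `q ≠ p`, `p ∣ q - 1`, `σ ∈ D_A` ⟹ `cycloChar p σ = 1`;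
* `muLoc_ρ_eq_one` : `μ_p` is a trivial module for the local Galois group `Gl q`;
* `inv_bijective_of_dvd_sub_one` : S55's `inv_q` is bijective on `H²(G_q, μ_p)` for `q ≡ 1 mod p`.

Nothing unproved in this file.
-/

set_option autoImplicit false

noncomputable section

namespace Fermat.Agent.S56.H14

open groupCohomology Fermat.Agent.S55.PT ExtCitation Polynomial

section Residue

variable (A : ValuationSubring (AlgebraicClosure ℚ))

/-- The residue field at a place over `q` has characteristic `q`. -/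
lemma charP_residueField {q : ℕ} (hq : q.Prime) (hA : A.LiesOverPrime q) :
    CharP (IsLocalRing.ResidueField A) q := by
  obtain ⟨c, hc⟩ := CharP.exists (IsLocalRing.ResidueField A)
  have hq0 : ((q : ℕ) : IsLocalRing.ResidueField A) = 0 := by
    have hmem : ((q : ℕ) : AlgebraicClosure ℚ) ∈ A := by
      have := natCast_mem A q
      exact this
    have h1 : (⟨(q : AlgebraicClosure ℚ), hmem⟩ : A) ∈ IsLocalRing.maximalIdeal A := by
      rw [ValuationSubring.valuation_lt_one_iff]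
      exact (A.mem_nonunits_iff).mp hA
    have h2 : IsLocalRing.residue A ⟨(q : AlgebraicClosure ℚ), hmem⟩ = 0 :=
      (IsLocalRing.residue_eq_zero_iff _).2 h1
    have h3 : (⟨(q : AlgebraicClosure ℚ), hmem⟩ : A) = ((q : ℕ) : A) := by
      apply Subtype.ext
      simp
    rw [h3, map_natCast] at h2
    exact h2
  have hdvd : c ∣ q := (CharP.cast_eq_zero_iff (IsLocalRing.ResidueField A) c q).1 hq0
  rcases (Nat.dvd_prime hq).1 hdvd with h | h
  · subst h
    exact absurd rfl (CharP.char_ne_one (IsLocalRing.ResidueField A) 1)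
  · subst h
    exact hc

/-- If `t ^ q = t` then `t` is congruent to an integer modulo the maximal ideal of a place over
`q`. -/
theorem exists_int_sub_mem_nonunits {q : ℕ} (hq : q.Prime) (hA : A.LiesOverPrime q)
    {t : AlgebraicClosure ℚ} (htA : t ∈ A) (ht : t ^ q = t) :
    ∃ n : ℕ, t - (n : AlgebraicClosure ℚ) ∈ A.nonunits := by
  have : Fact q.Prime := ⟨hq⟩
  have := charP_residueField A hq hA
  let κ := IsLocalRing.ResidueField A
  let f : ZMod q →+* κ := ZMod.castHom (dvd_refl q) κ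
  let tb : κ := IsLocalRing.residue A ⟨t, htA⟩
  have htb : tb ^ q = tb := by
    show (IsLocalRing.residue A ⟨t, htA⟩) ^ q = IsLocalRing.residue A ⟨t, htA⟩
    rw [← map_pow]
    congr 1
    apply Subtype.ext
    simpa using ht
  -- `∏_a (X - a) = X ^ q - X` over `ZMod q`
  have hprod : (∏ a : ZMod q, (X - C a)) = (X ^ q - X : (ZMod q)[X]) := by
    have hroots := FiniteField.roots_X_pow_card_sub_X (ZMod q)
    rw [ZMod.card] at hroots
    have hmonic : (X ^ q - X : (ZMod q)[X]).Monic :=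
      monic_X_pow_sub (by rw [degree_X]; exact_mod_cast hq.one_lt)
    have hdeg : (X ^ q - X : (ZMod q)[X]).natDegree = q :=
      FiniteField.X_pow_card_sub_X_natDegree_eq (ZMod q) hq.one_lt
    have hcard : Multiset.card (X ^ q - X : (ZMod q)[X]).roots
        = (X ^ q - X : (ZMod q)[X]).natDegree := by
      rw [hroots, hdeg, Finset.card_val, Finset.card_univ, ZMod.card]
    have := prod_multiset_X_sub_C_of_monic_of_roots_card_eq hmonic hcard
    rw [hroots] at this
    rw [← this]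
    rfl
  have heval : ∏ a : ZMod q, (tb - f a) = 0 := by
    have h1 := congrArg (fun P => eval₂ f tb P) hprod
    simp only [eval₂_finsetProd, eval₂_sub, eval₂_X, eval₂_C, eval₂_X_pow] at h1
    rw [h1, htb, sub_self]
  obtain ⟨a, -, ha⟩ := Finset.prod_eq_zero_iff.1 heval
  obtain ⟨n, hn'⟩ : ∃ n : ℕ, f a = (n : κ) := by
    refine ⟨a.val, ?_⟩
    have h6 : f ((a.val : ℕ) : ZMod q) = ((a.val : ℕ) : κ) := map_natCast f a.val
    rwa [ZMod.natCast_zmod_val a] at h6
  refine ⟨n, ?_⟩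
  have hn : ((n : ℕ) : AlgebraicClosure ℚ) ∈ A := natCast_mem A n
  have h2 : IsLocalRing.residue A (⟨t, htA⟩ - ⟨((n : ℕ) : AlgebraicClosure ℚ), hn⟩) = 0 := by
    rw [map_sub]
    have h3 : (⟨((n : ℕ) : AlgebraicClosure ℚ), hn⟩ : A) = ((n : ℕ) : A) := by
      apply Subtype.ext
      simp
    rw [h3, map_natCast, ← hn']
    exact ha
  have h5 := (IsLocalRing.residue_eq_zero_iff _).1 h2
  rw [ValuationSubring.valuation_lt_one_iff] at h5
  rw [A.mem_nonunits_iff]
  exact h5

/-- The decomposition group at a place over `q ≡ 1 mod p` (`q ≠ p`) fixes the `p`-th roots of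
unity. -/
theorem cycloChar_eq_one_of_mem_decomposition (p : ℕ) [Fact p.Prime] {q : ℕ} (hq : q.Prime)
    (hqp : q ≠ p) (hdvd : p ∣ q - 1) (hA : A.LiesOverPrime q)
    (σ : AlgebraicClosure ℚ ≃ₐ[ℚ] AlgebraicClosure ℚ) (hσ : σ ∈ A.decompositionSubgroup ℚ) :
    cycloChar p σ = 1 := by
  have hp : p.Prime := Fact.out
  apply Fermat.Agent.S55.Bridge.cycloChar_eq_one_of_fixes
  intro t ht
  have htp : (t : AlgebraicClosure ℚ) ^ p = 1 := by
    have := (mem_rootsOfUnity p t).1 ht
    rw [← Units.val_pow_eq_pow_val, this, Units.val_one]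
  by_contra hne
  have hpv := Fermat.Agent.S55.Bridge.val_prime_eq_one (A := A) hA hq hp hqp
  have hσt : (σ (t : AlgebraicClosure ℚ)) ^ p = 1 := by rw [← map_pow, htp, map_one]
  have h1 := Fermat.Agent.S55.Bridge.val_sub_roots_eq_one (A := A) hp.ne_zero hpv hσt htp hne
  have hvt : A.valuation (t : AlgebraicClosure ℚ) ≤ 1 := by
    have h : (A.valuation (t : AlgebraicClosure ℚ)) ^ p = 1 := by rw [← map_pow, htp, map_one]
    exact ((pow_eq_one_iff.1 h).resolve_right hp.ne_zero).le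
  have htA : (t : AlgebraicClosure ℚ) ∈ A := (A.valuation_le_one_iff _).1 hvt
  have htq : (t : AlgebraicClosure ℚ) ^ q = t := by
    obtain ⟨m, hm⟩ := hdvd
    have h2 : q = p * m + 1 := by
      have := Nat.sub_add_cancel hq.one_le
      omega
    rw [h2, pow_succ, pow_mul, htp, one_pow, one_mul]
  obtain ⟨n, hn⟩ := exists_int_sub_mem_nonunits A hq hA htA htq
  -- `σ` preserves the maximal ideal
  have hσn : σ ((t : AlgebraicClosure ℚ) - (n : AlgebraicClosure ℚ)) ∈ A.nonunits := by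
    have hD := (Fermat.Agent.S55.Bridge.mem_decompositionSubgroup_iff A σ).1 hσ
    rw [A.mem_nonunits_iff_or] at hn ⊢
    rcases hn with h0 | hinv
    · left
      rw [h0, map_zero]
    · right
      rw [← map_inv₀, hD]
      exact hinv
  rw [map_sub, map_natCast] at hσn
  have h3 : A.valuation (σ (t : AlgebraicClosure ℚ) - (t : AlgebraicClosure ℚ)) < 1 := by
    have e : σ (t : AlgebraicClosure ℚ) - (t : AlgebraicClosure ℚ)
        = (σ (t : AlgebraicClosure ℚ) - (n : AlgebraicClosure ℚ))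
          - ((t : AlgebraicClosure ℚ) - (n : AlgebraicClosure ℚ)) := by ring
    rw [e]
    exact lt_of_le_of_lt (Valuation.map_sub _ _ _)
      (max_lt ((A.mem_nonunits_iff).1 hσn) ((A.mem_nonunits_iff).1 hn))
  rw [h1] at h3
  exact lt_irrefl _ h3

end Residue

section Arith

variable {p : ℕ} [Fact p.Prime]

/-- `μ_p` is a trivial module for the local Galois group at a prime `q ≡ 1 mod p`, `q ≠ p`. -/
theorem muLoc_ρ_eq_one (q : Nat.Primes) (hqp : (q : ℕ) ≠ p) (hdvd : p ∣ (q : ℕ) - 1)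
    (s : Gl q) : (muLoc p q).ρ s = 1 := by
  have h1 : cycloChar p (rl q s) = 1 :=
    cycloChar_eq_one_of_mem_decomposition (primeLocalPlace q) p q.2 hqp hdvd
      (Fermat.Agent.S55.BLocal.primeLocalPlace_liesOver q) _
      (Fermat.Agent.S55.BLocal.primeLocalToGlobal_mem q s)
  apply LinearMap.ext
  intro c
  show (mu p).ρ (rl q s) c = c
  show ((cycloChar p (rl q s) : (ZMod p)ˣ) : ZMod p) • c = c
  rw [h1, Units.val_one, one_smul]

/-- **S55's `inv_q` is bijective on `H²(G_q, μ_p)`** for `q ≡ 1 mod p`, `q ≠ p` (from A6). -/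
theorem inv_bijective_of_dvd_sub_one {S : Finset Nat.Primes} {inv : InvFamily p S}
    (h : TopLocIndSpec inv) (v : ↥S) (hqp : ((v : Nat.Primes) : ℕ) ≠ p)
    (hdvd : p ∣ ((v : Nat.Primes) : ℕ) - 1) : Function.Bijective (inv v) :=
  inv_bijective_of_topLocInd h v (muLoc_ρ_eq_one v.1 hqp hdvd)

end Arith

end Fermat.Agent.S56.H14

end

end
-- ===== PACK-END S56/H14/MuTriv.lean

-- ===== PACK-BEGIN S55/H295/TwinVanishing.lean
section


/-!
# `T4a`: the twin-vanishing criterion for cohomological triviality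

`twinVanishing : T.TwinVanishingSpec`.
-/

set_option autoImplicit false

open CategoryTheory groupCohomology Rep Limits

universe u

namespace Fermat.Agent.S55.H295

noncomputable section

/-- Universe-polymorphic form of the twin-vanishing criterion: if `H¹(H, A) = H²(H, A) = 0` for
all subgroups `H ≤ G` of the finite group `G`, then `Ĥⁿ(H, A) = 0` for all `n : ℤ` and all
`H ≤ G`. -/
theorem isZero_tate_of_twin {k G : Type u} [CommRing k] [Group G] [Finite G] (A : Rep.{u} k G)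
    (h : ∀ H : Subgroup G, IsZero (groupCohomology (Rep.res H.subtype A) 1) ∧
      IsZero (groupCohomology (Rep.res H.subtype A) 2))
    (H : Subgroup G) [Fintype H] (n : ℤ) :
    IsZero (tateCohomology (Rep.res H.subtype A) n) := by
  classical
  let _ : Fintype G := Fintype.ofFinite G
  apply isZero_tate_of_tateTwin_one A _ H n
  intro K _
  exact ⟨(isZero_tate_iff_group _ 1).2 (h K).1, (isZero_tate_iff_group _ 2).2 (h K).2⟩

/-- Group cohomology form: under twin vanishing, `Hⁿ(H, A) = 0` for all `n ≥ 1`, `H ≤ G`. -/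
theorem isZero_groupCohomology_of_twin {k G : Type u} [CommRing k] [Group G] [Finite G]
    (A : Rep.{u} k G)
    (h : ∀ H : Subgroup G, IsZero (groupCohomology (Rep.res H.subtype A) 1) ∧
      IsZero (groupCohomology (Rep.res H.subtype A) 2))
    (H : Subgroup G) (n : ℕ) :
    IsZero (groupCohomology (Rep.res H.subtype A) (n + 1)) := by
  classical
  let _ : Fintype H := Fintype.ofFinite H
  exact (isZero_tate_iff_group _ (n + 1)).1 (isZero_tate_of_twin A h H _)

/-- **T4a.** Twin vanishing implies cohomological triviality. -/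
theorem twinVanishing : T.TwinVanishingSpec := by
  intro k G _ _ _ A h H _ n
  exact isZero_tate_of_twin A h H n

end

end Fermat.Agent.S55.H295

end
-- ===== PACK-END S55/H295/TwinVanishing.lean

-- ===== PACK-BEGIN S55/G/JCount903/Statement.lean
section
/-
S55, layer G, J-GLUE, COUNT half (helper903): subtype form and `Prop` form of
`JCount903.prod_card_decomp_eq` (hypothesis shape `hCount` of helper604's `jHerbrand_of`).
-/


set_option autoImplicit false
set_option linter.unusedSectionVars false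

open scoped NumberField TensorProduct
open IsDedekindDomain

noncomputable section

namespace Fermat.Agent.S55.G.JCount903

open Fermat.Agent.S55.G Fermat.Agent.S55.G.OrdH707 Fermat.Agent.S55.G.FIH895

/-- **COUNT**, subtype form: `∏_{r : R} |D_r| = ∏_{v ∈ S_K} e_v f_v`. -/
theorem prod_card_decomp_eq' (K L : Type) [Field K] [Field L] [NumberField K] [NumberField L]
    [Algebra K L] [IsGalois K L] (S : Finset Nat.Primes) (hPP : PlacePrimeSpec)
    (R : Finset (SPlace S L))
    (hR : ∀ 𝔪 : SPlace S L, ∃! r : SPlace S L,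
      r ∈ R ∧ ∃ g : L ≃ₐ[K] L, sPlaceSMul S (L ≃ₐ[K] L) g r = 𝔪) :
    ∏ r : R, Nat.card (decomp S (L ≃ₐ[K] L) r.1) = finDegProd K L (primesOver S K) := by
  rw [← prod_card_decomp_eq K L S hPP R hR]
  exact Finset.prod_coe_sort R (fun r => Nat.card (decomp S (L ≃ₐ[K] L) r))

/-- The COUNT statement as a `Prop` (hypothesis shape for the J-glue). -/
def JCountStatement : Prop :=
  ∀ (K L : Type) [Field K] [Field L] [NumberField K] [NumberField L] [Algebra K L]
    [IsGalois K L] (S : Finset Nat.Primes) (R : Finset (SPlace S L)),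
    (∀ 𝔪 : SPlace S L, ∃! r : SPlace S L,
      r ∈ R ∧ ∃ g : L ≃ₐ[K] L, sPlaceSMul S (L ≃ₐ[K] L) g r = 𝔪) →
    ∏ r : R, Nat.card (decomp S (L ≃ₐ[K] L) r.1) = finDegProd K L (primesOver S K)

/-- COUNT from the places ↔ primes dictionary. -/
theorem jCount_of (hPP : PlacePrimeSpec) : JCountStatement :=
  fun K L _ _ _ _ _ _ S R hR => prod_card_decomp_eq' K L S hPP R hR

end Fermat.Agent.S55.G.JCount903

end
end
-- ===== PACK-END S55/G/JCount903/Statement.lean

-- ===== PACK-BEGIN S55/E1/H895/Alg11Core.lean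
section
/-
S55 engine E1, leaf ALG11 (helper895), part 1: the algebraic core, for a GENERIC ring `k`
(this avoids the `ℤ`-module diamond) and ABSTRACT presentations.

Setting: `π : G' ↠ G` with kernel `H`, `ν₀ : α' → α` bijective, `P = k[G]^{(α)}`,
`P' = k[G']^{(α')}`, `tP : P' → P` (`g' e_{a'} ↦ π(g') e_{ν₀ a'}`), subrepresentations
`iR : R ↪ P`, `iR' : R' ↪ P'` with `R' = tP⁻¹(R)`, `tR : R' → R` the restriction of `tP`;
`ι : X ↪ X'` semilinear with image `X'^H`; Hilbert 90 for `(H, X')` in cocycle form.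

`exists_primitive` : if `c : G → Hom_k(R, X)` satisfies `c 1 = 0` and
`ι ∘ c(π g') ∘ tR = g' φ - φ` for some `φ ∈ Hom_k(R', X')`, then `c(g) = g ψ - ψ` for some
`ψ ∈ Hom_k(R, X)`.
-/


set_option autoImplicit false
set_option linter.unusedSectionVars false
set_option linter.unusedVariables false

open CategoryTheory CategoryTheory.Limits groupCohomology

namespace Fermat.Agent.S55.E1.H895

noncomputable section

/-! ## Injectivity criterion on `H¹` -/

section LayerA

variable {k G G' : Type} [CommRing k] [Group G] [Group G'] (π : G' →* G)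
variable {M : Rep.{0} k G} {M' : Rep.{0} k G'} (Φ : Rep.res π M ⟶ M')

/-- Injectivity criterion for `H¹(G, M) → H¹(G', M')` in terms of cocycles. -/
theorem map_one_injective_of
    (h : ∀ (c : cocycles₁ M) (m' : M'.V),
      (∀ g' : G', Φ.hom (c (π g')) = M'.ρ g' m' - m') →
      ∃ m : M.V, ∀ g : G, c g = M.ρ g m - m) :
    Function.Injective (groupCohomology.map π Φ 1).hom := by
  rw [injective_iff_map_eq_zero]
  intro x hx
  induction x using H1_induction_on with | @h c =>
  rw [H1π_comp_map_apply] at hx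
  obtain ⟨m', hm'⟩ := (H1π_eq_zero_iff _).1 hx
  obtain ⟨m, hm⟩ := h c m' (fun g' => by
    have := congrFun hm' g'
    rw [coe_mapCocycles₁] at this
    exact this.symm)
  refine (H1π_eq_zero_iff _).2 ⟨m, ?_⟩
  funext g
  exact (hm g).symm

end LayerA

/-! ## The basis of a free module `k[G]^{(α)}` -/

section FreeBasis

variable {k G α V : Type} [CommRing k] [Group G] [AddCommGroup V] [Module k V]

/-- The basis element `g • e_a` of `k[G]^{(α)}`. -/
def bas (k : Type) [CommRing k] {G α : Type} [Group G] (a : α) (g : G) : (Rep.free k G α).V :=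
  Finsupp.single a (MonoidAlgebra.single g (1 : k))

/-- The `k`-linear map out of `k[G]^{(α)}` with prescribed values on the basis `g • e_a`. -/
def basLift (v : α → G → V) : (Rep.free k G α).V →ₗ[k] V :=
  Finsupp.linearCombination k (fun x : α × G => v x.1 x.2) ∘ₗ
    (Finsupp.curryLinearEquiv k).symm.toLinearMap ∘ₗ
    Finsupp.mapRange.linearMap (MonoidAlgebra.coeffLinearEquiv _).toLinearMap

lemma basLift_bas (v : α → G → V) (a : α) (g : G) : basLift v (bas k a g) = v a g := by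
  simp [basLift, bas]

lemma free_ρ_bas (g h : G) (a : α) : (Rep.free k G α).ρ g (bas k a h) = bas k a (g * h) := by
  simp [bas]

/-- Linear maps out of `k[G]^{(α)}` agree if they agree on the basis. -/
lemma linearMap_ext_bas {f₁ f₂ : (Rep.free k G α).V →ₗ[k] V}
    (h : ∀ a g, f₁ (bas k a g) = f₂ (bas k a g)) : f₁ = f₂ := by
  ext a g
  simpa [bas] using h a g

lemma freeLift_bas (A : Rep.{0} k G) (x : α → A.V) (a : α) (g : G) :
    (Rep.freeLift k G A x).hom (bas k a g) = A.ρ g (x a) := by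
  simp [bas]

end FreeBasis

/-! ## The core lemma -/

section Core

variable {k G G' α α' : Type} [CommRing k] [Group G] [Group G'] (π : G' →* G)
variable (ν₀ : α' → α)

/-- `tP : P' → P`, `g' e_{a'} ↦ π(g') e_{ν₀ a'}`. -/
def tP : Rep.free k G' α' ⟶ Rep.res π (Rep.free k G α) :=
  Rep.freeLift k G' (Rep.res π (Rep.free k G α)) (fun a' => bas k (ν₀ a') 1)

lemma tP_bas (a' : α') (g' : G') :
    (tP (k := k) π ν₀).hom (bas k a' g') = bas k (ν₀ a') (π g') := by
  unfold tP
  rw [freeLift_bas]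
  change (Rep.free k G α).ρ (π g') (bas k (ν₀ a') 1) = _
  rw [free_ρ_bas, mul_one]

variable {R X : Rep.{0} k G} {R' X' : Rep.{0} k G'}
variable (iR : R ⟶ Rep.free k G α) (iR' : R' ⟶ Rep.free k G' α')
variable (tR : R' ⟶ Rep.res π R) (ι : Rep.res π X ⟶ X')

lemma res_ρ_apply {A : Rep.{0} k G} (g' : G') (x : A.V) :
    (Rep.res π A).ρ g' x = A.ρ (π g') x := rfl

theorem exists_primitive
    (hπ : Function.Surjective π) (hν : Function.Bijective ν₀)
    (hiR : Function.Injective iR.hom) (hiR' : Function.Injective iR'.hom)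
    (hsq : ∀ r' : R'.V, iR.hom (tR.hom r') = (tP (k := k) π ν₀).hom (iR'.hom r'))
    (hpre : ∀ y' : (Rep.free k G' α').V,
      (∃ r : R.V, iR.hom r = (tP (k := k) π ν₀).hom y') → ∃ r' : R'.V, iR'.hom r' = y')
    (hι : Function.Injective ι.hom)
    (hinv : ∀ x' : X'.V, (∀ h ∈ π.ker, X'.ρ h x' = x') → ∃ x : X.V, ι.hom x = x')
    (h90 : ∀ z : π.ker → X'.V, (∀ h₁ h₂ : π.ker, z (h₁ * h₂) = X'.ρ h₁ (z h₂) + z h₁) →
      ∃ x' : X'.V, ∀ h : π.ker, z h = X'.ρ h x' - x')
    (c : G → (R.V →ₗ[k] X.V)) (hc1 : c 1 = 0) (φ : R'.V →ₗ[k] X'.V)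
    (hφ : ∀ (g' : G') (r' : R'.V),
      ι.hom (c (π g') (tR.hom r')) = X'.ρ g' (φ (R'.ρ g'⁻¹ r')) - φ r') :
    ∃ ψ : R.V →ₗ[k] X.V, ∀ (g : G) (r : R.V), c g r = X.ρ g (ψ (R.ρ g⁻¹ r)) - ψ r := by
  classical
  -- equivariance facts
  have etR : ∀ (g' : G') (r' : R'.V), tR.hom (R'.ρ g' r') = R.ρ (π g') (tR.hom r') :=
    fun g' r' => Rep.hom_comm_apply tR g' r'
  have eι : ∀ (g' : G') (x : X.V), ι.hom (X.ρ (π g') x) = X'.ρ g' (ι.hom x) :=
    fun g' x => Rep.hom_comm_apply ι g' x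
  have eiR' : ∀ (g' : G') (r' : R'.V), iR'.hom (R'.ρ g' r') =
      (Rep.free k G' α').ρ g' (iR'.hom r') := fun g' r' => Rep.hom_comm_apply iR' g' r'
  -- Step 1: `φ` is `H`-equivariant
  have s1 : ∀ h ∈ π.ker, ∀ r' : R'.V, φ (R'.ρ h r') = X'.ρ h (φ r') := by
    intro h hh r'
    have := hφ h (R'.ρ h r')
    rw [MonoidHom.mem_ker.1 hh, hc1, LinearMap.zero_apply, map_zero] at this
    have h2 : R'.ρ h⁻¹ (R'.ρ h r') = r' := by
      rw [← Module.End.mul_apply, ← map_mul, inv_mul_cancel, map_one]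
      rfl
    rw [h2] at this
    exact (sub_eq_zero.1 this.symm).symm
  -- Step 2: the elements `w h a' = (h - 1) e_{a'} ∈ R'` and the cocycles `z a'`
  have hw : ∀ (h : π.ker) (a' : α'), ∃ r' : R'.V,
      iR'.hom r' = bas k a' (h : G') - bas k a' 1 := by
    intro h a'
    refine hpre _ ⟨0, ?_⟩
    rw [map_zero, map_sub, tP_bas, tP_bas, MonoidHom.mem_ker.1 h.2, map_one, sub_self]
  choose w hw using hw
  have htRw : ∀ (h : π.ker) (a' : α'), tR.hom (w h a') = 0 := by
    intro h a'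
    apply hiR
    rw [hsq, hw, map_zero, map_sub, tP_bas, tP_bas, MonoidHom.mem_ker.1 h.2, map_one, sub_self]
  have hwmul : ∀ (h₁ h₂ : π.ker) (a' : α'),
      w (h₁ * h₂) a' = R'.ρ h₁ (w h₂ a') + w h₁ a' := by
    intro h₁ h₂ a'
    apply hiR'
    rw [map_add, eiR', hw, hw, hw, map_sub, free_ρ_bas, free_ρ_bas, mul_one]
    change bas k a' ((h₁ : G') * (h₂ : G')) - bas k a' 1 = _
    abel
  have hz : ∀ a' : α', ∃ x' : X'.V, ∀ h : π.ker, φ (w h a') = X'.ρ h x' - x' := by
    intro a'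
    refine h90 (fun h => φ (w h a')) ?_
    intro h₁ h₂
    rw [hwmul, map_add, s1 _ h₁.2]
  choose x hx using hz
  -- Step 3: correct `φ` by the `G'`-map `θ : P' → X'`, `e_{a'} ↦ x a'`
  let θ : Rep.free k G' α' ⟶ X' := Rep.freeLift k G' X' x
  have hθ : ∀ (a' : α') (g' : G'), θ.hom (bas k a' g') = X'.ρ g' (x a') :=
    fun a' g' => freeLift_bas X' x a' g'
  have eθ : ∀ (g' : G') (y : (Rep.free k G' α').V),
      θ.hom ((Rep.free k G' α').ρ g' y) = X'.ρ g' (θ.hom y) :=
    fun g' y => Rep.hom_comm_apply θ g' y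
  let φ₁ : R'.V →ₗ[k] X'.V := φ - θ.hom.toLinearMap ∘ₗ iR'.hom.toLinearMap
  have hφ₁ : ∀ r' : R'.V, φ₁ r' = φ r' - θ.hom (iR'.hom r') := fun r' => rfl
  have s3a : ∀ (h : π.ker) (a' : α'), φ₁ (w h a') = 0 := by
    intro h a'
    rw [hφ₁, hw, map_sub, hθ, hθ, map_one, hx]
    simp
  have s3b : ∀ (g' : G') (r' : R'.V),
      ι.hom (c (π g') (tR.hom r')) = X'.ρ g' (φ₁ (R'.ρ g'⁻¹ r')) - φ₁ r' := by
    intro g' r'
    rw [hφ₁, hφ₁, hφ g' r', map_sub, eiR', eθ, ← Module.End.mul_apply, ← map_mul,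
      mul_inv_cancel, map_one]
    simp
  have s3c : ∀ (g' : G') (r' : R'.V), tR.hom r' = 0 → φ₁ (R'.ρ g' r') = X'.ρ g' (φ₁ r') := by
    intro g' r' hr'
    have := s3b g' (R'.ρ g' r')
    rw [etR, hr', map_zero, map_zero, map_zero] at this
    have h2 : R'.ρ g'⁻¹ (R'.ρ g' r') = r' := by
      rw [← Module.End.mul_apply, ← map_mul, inv_mul_cancel, map_one]
      rfl
    rw [h2] at this
    exact (sub_eq_zero.1 this.symm).symm
  -- Step 4: a section of `tP` and the map `D : P' → R'`, `y ↦ y - σ (tP y)`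
  let s : G → G' := Function.surjInv hπ
  have hs : ∀ g, π (s g) = g := Function.surjInv_eq hπ
  let νi : α → α' := Function.surjInv hν.2
  have hνi : ∀ a, ν₀ (νi a) = a := Function.surjInv_eq hν.2
  have hνi' : ∀ a', νi (ν₀ a') = a' := fun a' => hν.1 (hνi (ν₀ a'))
  let σ : (Rep.free k G α).V →ₗ[k] (Rep.free k G' α').V :=
    basLift (fun a g => bas k (νi a) (s g))
  have hσ : ∀ a g, σ (bas k a g) = bas k (νi a) (s g) := fun a g => basLift_bas _ a g
  have hker : ∀ g' : G', (s (π g'))⁻¹ * g' ∈ π.ker := by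
    intro g'
    rw [MonoidHom.mem_ker, map_mul, map_inv, hs, inv_mul_cancel]
  let D : (Rep.free k G' α').V →ₗ[k] R'.V :=
    basLift (fun a' g' => R'.ρ (s (π g')) (w ⟨(s (π g'))⁻¹ * g', hker g'⟩ a'))
  have hD : ∀ a' g', D (bas k a' g') = R'.ρ (s (π g')) (w ⟨(s (π g'))⁻¹ * g', hker g'⟩ a') :=
    fun a' g' => basLift_bas _ a' g'
  have hDi : ∀ y : (Rep.free k G' α').V,
      iR'.hom (D y) = y - σ ((tP (k := k) π ν₀).hom y) := by
    intro y
    have : iR'.hom.toLinearMap ∘ₗ D =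
        LinearMap.id - σ ∘ₗ (tP (k := k) π ν₀).hom.toLinearMap := by
      apply linearMap_ext_bas
      intro a' g'
      change iR'.hom (D (bas k a' g')) = bas k a' g' - σ ((tP (k := k) π ν₀).hom (bas k a' g'))
      rw [hD, eiR', hw, map_sub, free_ρ_bas, free_ρ_bas, tP_bas, hσ, hνi', mul_one]
      change bas k a' (s (π g') * ((s (π g'))⁻¹ * g')) - _ = _
      rw [mul_inv_cancel_left]
    exact LinearMap.congr_fun this y
  have hφD : ∀ y : (Rep.free k G' α').V, φ₁ (D y) = 0 := by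
    intro y
    have : φ₁ ∘ₗ D = 0 := by
      apply linearMap_ext_bas
      intro a' g'
      change φ₁ (D (bas k a' g')) = 0
      rw [hD, s3c _ _ (htRw _ _), s3a, map_zero]
    exact LinearMap.congr_fun this y
  have hkill : ∀ r' : R'.V, tR.hom r' = 0 → φ₁ r' = 0 := by
    intro r' hr'
    have h1 : D (iR'.hom r') = r' := by
      apply hiR'
      rw [hDi, ← hsq, hr', map_zero, map_zero, sub_zero]
    rw [← h1, hφD]
  -- Step 5: a linear section `ρsec` of `tR` and `ψ' = φ₁ ∘ ρsec`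
  have htPσ : ∀ y : (Rep.free k G α).V, (tP (k := k) π ν₀).hom (σ y) = y := by
    intro y
    have : (tP (k := k) π ν₀).hom.toLinearMap ∘ₗ σ = LinearMap.id := by
      apply linearMap_ext_bas
      intro a g
      change (tP (k := k) π ν₀).hom (σ (bas k a g)) = bas k a g
      rw [hσ, tP_bas, hνi, hs]
    exact LinearMap.congr_fun this y
  have hmem : ∀ r : R.V, σ (iR.hom r) ∈ LinearMap.range iR'.hom.toLinearMap := by
    intro r
    obtain ⟨r', hr'⟩ := hpre (σ (iR.hom r)) ⟨r, (htPσ _).symm⟩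
    exact ⟨r', hr'⟩
  let e := LinearEquiv.ofInjective iR'.hom.toLinearMap hiR'
  let ρsec : R.V →ₗ[k] R'.V :=
    e.symm.toLinearMap ∘ₗ
      (σ ∘ₗ iR.hom.toLinearMap).codRestrict (LinearMap.range iR'.hom.toLinearMap) hmem
  have hρsec : ∀ r : R.V, iR'.hom (ρsec r) = σ (iR.hom r) := by
    intro r
    have := e.apply_symm_apply
      ((σ ∘ₗ iR.hom.toLinearMap).codRestrict (LinearMap.range iR'.hom.toLinearMap) hmem r)
    exact congrArg Subtype.val this
  have htRρ : ∀ r : R.V, tR.hom (ρsec r) = r := by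
    intro r
    apply hiR
    rw [hsq, hρsec, htPσ]
  let ψ' : R.V →ₗ[k] X'.V := φ₁ ∘ₗ ρsec
  have hψ' : ∀ r' : R'.V, ψ' (tR.hom r') = φ₁ r' := by
    intro r'
    have h1 : φ₁ (r' - ρsec (tR.hom r')) = 0 := by
      apply hkill
      rw [map_sub, htRρ, sub_self]
    rw [map_sub, sub_eq_zero] at h1
    exact h1.symm
  -- Step 6: the values of `ψ'` are `H`-invariant
  have s6 : ∀ (r : R.V), ∀ h ∈ π.ker, X'.ρ h (ψ' r) = ψ' r := by
    intro r h hh
    have h1 := s3b h (ρsec r)
    rw [MonoidHom.mem_ker.1 hh, hc1, LinearMap.zero_apply, map_zero] at h1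
    have h2 : φ₁ (R'.ρ h⁻¹ (ρsec r)) = ψ' r := by
      rw [← hψ', etR, htRρ, map_inv, MonoidHom.mem_ker.1 hh, inv_one, map_one]
      rfl
    rw [h2] at h1
    have h3 : φ₁ (ρsec r) = ψ' r := rfl
    rw [h3] at h1
    exact sub_eq_zero.1 h1.symm
  -- Step 7: `ψ' = ι ∘ ψ`
  have hmemι : ∀ r : R.V, ψ' r ∈ LinearMap.range ι.hom.toLinearMap := by
    intro r
    obtain ⟨x, hx⟩ := hinv (ψ' r) (s6 r)
    exact ⟨x, hx⟩
  let eι' := LinearEquiv.ofInjective ι.hom.toLinearMap hι
  let ψ : R.V →ₗ[k] X.V :=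
    eι'.symm.toLinearMap ∘ₗ ψ'.codRestrict (LinearMap.range ι.hom.toLinearMap) hmemι
  have hψ : ∀ r : R.V, ι.hom (ψ r) = ψ' r := by
    intro r
    have := eι'.apply_symm_apply (ψ'.codRestrict (LinearMap.range ι.hom.toLinearMap) hmemι r)
    exact congrArg Subtype.val this
  -- Step 8: `c = dψ`
  refine ⟨ψ, ?_⟩
  intro g r
  obtain ⟨g', rfl⟩ := hπ g
  apply hι
  have h1 := s3b g' (ρsec r)
  rw [htRρ] at h1
  rw [h1, map_sub, eι, hψ, hψ, ← hψ', ← hψ' (ρsec r), etR, htRρ, map_inv]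

end Core

end

end Fermat.Agent.S55.E1.H895

end
-- ===== PACK-END S55/E1/H895/Alg11Core.lean

-- ===== PACK-BEGIN S55/GAD/DescH901J.lean
section
/-
S55 / G-ADAPTER, leaf GAD-DESC (helper901), part 1: tower-side descent.
For levels `L ≤ L'` with `H = Level.relGal h = Gal(L'/L)`:
* `exists_inclUnits_eq` : `(L'ˣ)^H = Lˣ`;
* `exists_inclJ_eq`     : `J_q(L')^H = J_q(L)` (every `q`);
* injectivity of `inclUnits`, `inclLoc`, `inclJ`.
Sorry-free.
-/



set_option autoImplicit false
set_option linter.unusedSectionVars false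

namespace Fermat.Agent.S55.GAD.H901

open Fermat.Agent.S55 Fermat.Agent.S55.Tow Fermat.Agent.S55.E1.H594

variable {S : Finset Nat.Primes} {L L' : Level S} (h : L ≤ L')

/-! ## Units -/

theorem inclUnits_injective : Function.Injective (Level.inclUnits h) := by
  intro x y hxy
  apply L.unitsCoe_injective
  have := congrArg L'.unitsCoe hxy
  simpa only [Level.unitsCoe_inclUnits] using this

/-- `(L'ˣ)^H = Lˣ`. -/
theorem exists_inclUnits_eq (x' : L'.units.V)
    (hx : ∀ σ ∈ Level.relGal h, L'.units.ρ σ x' = x') :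
    ∃ x : L.units.V, Level.inclUnits h x = x' := by
  refine ⟨L.unitsMk (L'.unitsCoe x') (fun g hg => ?_), ?_⟩
  · have h1 := hx (QuotientGroup.mk g) ((mk_mem_relGal_iff h g).2 hg)
    have h2 := congrArg L'.unitsCoe h1
    rwa [L'.units_ρ_coe] at h2
  · apply L'.unitsCoe_injective
    rfl

/-! ## Local units and `J_q` -/

theorem inclLoc_injective (q : Nat.Primes) : Function.Injective (Level.inclLoc h q) := by
  intro x y hxy
  apply L.locCoe_injective q
  have := congrArg (L'.locCoe q) hxy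
  simpa only [Level.locCoe_inclLoc] using this

theorem inclJ_injective (q : Nat.Primes) : Function.Injective (Level.inclJ h q) := by
  intro f f' hff
  apply L.J_ext q
  intro g
  obtain ⟨g', rfl⟩ := level_proj_surjective h g
  have h1 := congrArg (fun F => L'.Jeval q F g') hff
  simp only [Level.Jeval_inclJ] at h1
  exact inclLoc_injective h q h1

variable (q : Nat.Primes) (f' : (L'.J q).V)

lemma Jeval_mul_right_of_invariant (hf : ∀ σ ∈ Level.relGal h, (L'.J q).ρ σ f' = f')
    (g' σ : L'.Gal) (hσ : σ ∈ Level.relGal h) :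
    L'.Jeval q f' (g' * σ) = L'.Jeval q f' g' := by
  rw [← L'.Jeval_ρ, hf σ hσ]

lemma Jeval_eq_of_proj_eq (hf : ∀ σ ∈ Level.relGal h, (L'.J q).ρ σ f' = f')
    (g₁ g₂ : L'.Gal) (hg : Level.proj h g₁ = Level.proj h g₂) :
    L'.Jeval q f' g₁ = L'.Jeval q f' g₂ := by
  have h1 : g₂⁻¹ * g₁ ∈ Level.relGal h := by
    unfold Level.relGal
    rw [MonoidHom.mem_ker, map_mul, map_inv, hg, inv_mul_cancel]
  have h2 := Jeval_mul_right_of_invariant h q f' hf g₂ _ h1
  rwa [mul_inv_cancel_left] at h2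

lemma proj_decHom_mk_of_mem (τ : GQp q) (hτ : τ ∈ L.V q) :
    Level.proj h (L'.decHom q (QuotientGroup.mk τ)) = 1 := by
  rw [Level.decHom_mk, Level.proj_mk]
  exact (QuotientGroup.eq_one_iff _).2 hτ

lemma locCoe_Jeval_fixed (hf : ∀ σ ∈ Level.relGal h, (L'.J q).ρ σ f' = f')
    (g' : L'.Gal) (τ : GQp q) (hτ : τ ∈ L.V q) :
    (unitsQpbar q).ρ τ (L'.locCoe q (L'.Jeval q f' g')) = L'.locCoe q (L'.Jeval q f' g') := by
  have h1 := L'.Jeval_mul q f' (QuotientGroup.mk τ) g'
  have h2 : Level.proj h (L'.decHom q (QuotientGroup.mk τ) * g') = Level.proj h g' := by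
    rw [map_mul, proj_decHom_mk_of_mem h q τ hτ, one_mul]
  rw [Jeval_eq_of_proj_eq h q f' hf _ _ h2] at h1
  have h3 := congrArg (L'.locCoe q) h1
  rw [L'.locUnits_ρ_coe] at h3
  exact h3.symm

/-- `J_q(L')^H = J_q(L)`. -/
theorem exists_inclJ_eq (hf : ∀ σ ∈ Level.relGal h, (L'.J q).ρ σ f' = f') :
    ∃ f : (L.J q).V, Level.inclJ h q f = f' := by
  classical
  let lift : L.Gal → L'.Gal := fun g => (level_proj_surjective h g).choose
  have hlift : ∀ g, Level.proj h (lift g) = g := fun g => (level_proj_surjective h g).choose_spec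
  let w : L'.Gal → (L.locUnits q).V := fun g' =>
    L.locMk q (L'.locCoe q (L'.Jeval q f' g'))
      (fun τ hτ => locCoe_Jeval_fixed h q f' hf g' τ hτ)
  have hw : ∀ g', Level.inclLoc h q (w g') = L'.Jeval q f' g' :=
    fun g' => L'.locCoe_injective q rfl
  have hw2 : ∀ g₁ g₂, Level.proj h g₁ = Level.proj h g₂ → w g₁ = w g₂ := by
    intro g₁ g₂ hg
    apply inclLoc_injective h q
    rw [hw, hw]
    exact Jeval_eq_of_proj_eq h q f' hf _ _ hg
  refine ⟨⟨fun g => w (lift g), fun d g => ?_⟩, ?_⟩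
  · induction d using QuotientGroup.induction_on with
    | H τ =>
      have e1 : w (lift (L.decHom q (QuotientGroup.mk τ) * g)) =
          w (L'.decHom q (QuotientGroup.mk τ) * lift g) := by
        refine hw2 _ _ ?_
        rw [hlift, map_mul, Level.proj_decHom, hlift]
        rfl
      show w (lift (L.decHom q (QuotientGroup.mk τ) * g)) =
        (L.locUnits q).ρ (QuotientGroup.mk τ) (w (lift g))
      rw [e1]
      apply L.locCoe_injective q
      rw [L.locUnits_ρ_coe]
      show L'.locCoe q (L'.Jeval q f' (L'.decHom q (QuotientGroup.mk τ) * lift g)) =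
        (unitsQpbar q).ρ τ (L'.locCoe q (L'.Jeval q f' (lift g)))
      rw [L'.Jeval_mul, L'.locUnits_ρ_coe]
  · apply L'.J_ext q
    intro g'
    show Level.inclLoc h q (w (lift (Level.proj h g'))) = L'.Jeval q f' g'
    rw [hw]
    exact Jeval_eq_of_proj_eq h q f' hf _ _ (hlift _)

end Fermat.Agent.S55.GAD.H901

end
-- ===== PACK-END S55/GAD/DescH901J.lean

-- ===== PACK-BEGIN S55/G/Rec/Tow/Defs.lean
section
/-
S55 / layer G / block REC / adapter TOW (subtask 379) — DEFINITIONS.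
Sub-architect: helper417.   Plan: `coord/S55-REC-TOW.md` (origin/helper417).

TOW = "reciprocity ⇒ class module at `p`": from `ReciprocitySpec` (block REC), the upper bound
G-UP, descent G-DESC, independence of `S` (G-SIND) and the local class modules, derive for the
`S`-idèle class module `C_S(F) = G.CRep S F.Gal F.F` of a Tower level `F`:
  GD1 (existence of a fundamental class at `p`), GD3 (local–global injectivity), GD8 (inflation
  is injective on `p`-torsion).
Route: memo `origin/helper293:coord/S55-REC-TOW-helper293.md` (T4–T7) = `origin/helper1: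
coord/S55-G-REC.md` §3b with the auxiliary prime `r ∉ S`.

This file: vocabulary only (Mathlib + G/Defs + Spec/Tower + helper594's level instances).
NO sorry.  Namespace `Fermat.Agent.S55.G.Rec.TOW`.
-/






set_option autoImplicit false

open CategoryTheory groupCohomology
open scoped NumberField

noncomputable section

namespace Fermat.Agent.S55.G.Rec.TOW

open Fermat.Agent.S55 Fermat.Agent.S55.Tow Fermat.Agent.S55.E1.H594
open IsDedekindDomain

/-! ## 0. Maps on `H²(H, -)` for subgroups -/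

section General

variable {Γ : Type} [Group Γ]

/-- The map induced by `f : A ⟶ B` on `H²(H, -)`, `H ≤ Γ` a subgroup. -/
abbrev h2Sub {A B : Rep.{0} ℤ Γ} (f : A ⟶ B) (H : Subgroup Γ) :
    groupCohomology (T.resSub A H) 2 →ₗ[ℤ] groupCohomology (T.resSub B H) 2 :=
  (T.coeffMap ((Rep.resFunctor H.subtype).map f) 2).hom

/-- The map induced by `f : A ⟶ B` on `H²(Γ, -)`. -/
abbrev h2Top {A B : Rep.{0} ℤ Γ} (f : A ⟶ B) :
    groupCohomology A 2 →ₗ[ℤ] groupCohomology B 2 :=
  (T.coeffMap f 2).hom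

/-- Restriction `H²(Γ, A) → H²(H, A)`. -/
abbrev res2 (A : Rep.{0} ℤ Γ) (H : Subgroup Γ) :
    groupCohomology A 2 →ₗ[ℤ] groupCohomology (T.resSub A H) 2 :=
  (T.resMap A H 2).hom

end General

/-! ## 1. The intrinsic modules and maps missing in `G/Defs.lean` -/

section Intrinsic

variable (S : Finset Nat.Primes) (Γ L : Type) [Group Γ] [Field L] [NumberField L]
  [MulSemiringAction Γ L]

/-- The diagonal embedding `Lˣ ⟶ J_S(L)` in `Rep ℤ Γ`. -/
def diagJRepHom : G.LRep Γ L ⟶ G.JRep Γ S L :=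
  Rep.ofHom ⟨(G.unitsDiag S L).toIntLinearMap,
    fun g => LinearMap.ext fun x => G.unitsDiag_equivariant Γ S L g x⟩

/-- The projection `J_S(L) × Div^S(L) ⟶ J_S(L)` in `Rep ℤ Γ`. -/
def jdFstRepHom : G.JDRep S Γ L ⟶ G.JRep Γ S L :=
  Rep.ofHom ⟨(AddMonoidHom.fst (Additive (G.AS S L)ˣ) (G.PrimeOut S L →₀ ℤ)).toIntLinearMap,
    fun _ => LinearMap.ext fun _ => rfl⟩

variable {S} in
/-- The projection `J_{S'}(L) ⟶ J_S(L)` for `S ⊆ S'` in `Rep ℤ Γ`. -/
def jResRepHom {S' : Finset Nat.Primes} (h : S ⊆ S') : G.JRep Γ S' L ⟶ G.JRep Γ S L :=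
  Rep.ofHom ⟨(G.jRes h L).toIntLinearMap,
    fun g => LinearMap.ext fun x => G.jRes_equivariant h L Γ g x⟩

lemma diagRepHom_comp_jdFst :
    G.diagRepHom S Γ L ≫ jdFstRepHom S Γ L = diagJRepHom S Γ L := rfl

lemma diagRepHom_comp_divSnd :
    G.diagRepHom S Γ L ≫ G.divSndRepHom S Γ L = G.ordRepHom S Γ L := rfl

lemma jInl_comp_jdFst : G.jInlRepHom S Γ L ≫ jdFstRepHom S Γ L = 𝟙 _ := rfl

lemma jInl_comp_divSnd : G.jInlRepHom S Γ L ≫ G.divSndRepHom S Γ L = 0 := rfl

/-- `y ∈ H²(Γ, J_S(L))` is concentrated at the prime `r`: its image in `H²(Γ, J_{S∖{r}}(L))`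
vanishes. -/
def IsAt (r : Nat.Primes) (y : groupCohomology (G.JRep Γ S L) 2) : Prop :=
  h2Top (jResRepHom Γ L (Finset.erase_subset r S)) y = 0

end Intrinsic

/-! ## 2. The modules of a Tower level (helper421's model, helper594's action) -/

section Level

variable {S : Finset Nat.Primes}

/-- `Fˣ` as a `Gal(F/ℚ)`-module. -/
abbrev lvlL (M : Level S) : Rep.{0} ℤ M.Gal := G.LRep M.Gal M.F

/-- `J_S(F) = (F ⊗ ℚ_S)ˣ`. -/
abbrev lvlJ (M : Level S) : Rep.{0} ℤ M.Gal := G.JRep M.Gal S M.F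

/-- `J_S(F) × Div^S(F)`. -/
abbrev lvlJD (M : Level S) : Rep.{0} ℤ M.Gal := G.JDRep S M.Gal M.F

/-- The `S`-idèle class module `C_S(F)`. -/
abbrev lvlC (M : Level S) : Rep.{0} ℤ M.Gal := G.CRep S M.Gal M.F

/-- The same field as a level of a larger set `S'`, with class module `C_{S'}(F)`. -/
abbrev lvlC' (S' : Finset Nat.Primes) (M : Level S) : Rep.{0} ℤ M.Gal := G.CRep S' M.Gal M.F

/-- `j : J_S(F) ⟶ C_S(F)`. -/
abbrev lvlj (M : Level S) : lvlJ M ⟶ lvlC M := G.jToCRepHom S M.Gal M.F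

/-- The subgroup `Z ≤ Gal(F/ℚ)` fixes a prime of `F` above `r`. -/
def FixesPrimeAbove (M : Level S) (r : Nat.Primes) (Z : Subgroup M.Gal) : Prop :=
  ∃ w : HeightOneSpectrum (𝓞 M.F), (((r : ℕ) : 𝓞 M.F) ∈ w.asIdeal) ∧
    ∀ z ∈ Z, G.primeSMul M.Gal z w = w

end Level

end Fermat.Agent.S55.G.Rec.TOW

end
end
-- ===== PACK-END S55/G/Rec/Tow/Defs.lean

-- ===== PACK-BEGIN S55/K/GO3H535/H371/Kappa.lean
section



/-!
# S55 / layer K / GO3-CAPDIV (helper371), part 5: the element `κ`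

`F/ℚ` a finite Galois level of `S`, `b ∈ Fˣ`, `p > 0`.  There are `h > 0` and `κ ∈ Fˣ` such that
at every place `A` of `ℚ̄` over a prime `q ∉ S`:  `ord_A(κ) = h · (ord_A(b) mod p)`.
(The divisor `∑_w (ord_w(b) mod p) w` is effective, hence of finite order `h` in the class group
of `F`.)
-/

set_option autoImplicit false
set_option linter.unusedSectionVars false
set_option linter.style.haveILetI false

noncomputable section

namespace Fermat.Agent.S55.K.GO3H535.H371

open Fermat.Agent.S55.PT Fermat.Agent.S55.Bridge Fermat.Agent.S55.K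
open NumberField IsDedekindDomain
open scoped Pointwise

attribute [local instance] isAlgebraic_Qbar isGalois_Qbar

section

variable (F : IntermediateField ℚ (AlgebraicClosure ℚ)) [FiniteDimensional ℚ F] [IsGalois ℚ F]

attribute [local instance] H594.numberField_of_finite

/-- The order of `b ∈ F` at the prime `w`. -/
def ordW (b : F) (w : HeightOneSpectrum (𝓞 F)) : ℤ := -WithZero.log (w.valuation F b)

theorem valuation_eq_exp_neg_ordW {b : F} (hb : b ≠ 0) (w : HeightOneSpectrum (𝓞 F)) :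
    w.valuation F b = WithZero.exp (-ordW F b w) := by
  have hv : w.valuation F b ≠ 0 := (Valuation.ne_zero_iff _).2 hb
  rw [ordW, neg_neg, WithZero.exp_log hv]

theorem ordW_support_finite {b : F} (hb : b ≠ 0) :
    {w : HeightOneSpectrum (𝓞 F) | ordW F b w ≠ 0}.Finite := by
  have h1 := HeightOneSpectrum.Support.finite (𝓞 F) b
  have h2 := HeightOneSpectrum.Support.finite (𝓞 F) b⁻¹
  refine (h1.union h2).subset fun w hw => ?_
  have hv : w.valuation F b ≠ 0 := (Valuation.ne_zero_iff _).2 hb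
  have hne : w.valuation F b ≠ 1 := by
    intro h1
    apply hw
    rw [ordW, h1, WithZero.log_one, neg_zero]
  rcases lt_or_gt_of_ne hne with h | h
  · right
    show 1 < w.valuation F b⁻¹
    rw [map_inv₀]
    exact (one_lt_inv₀ (zero_lt_iff.2 hv)).2 h
  · left
    exact h

variable {S : Finset Nat.Primes}

/-- **The element `κ`.** -/
theorem exists_kappa (hF : F.IsUnramifiedOutside S) (b : F) (hb : b ≠ 0) (p : ℕ) (hp : 0 < p) :
    ∃ h : ℕ, 0 < h ∧ ∃ κ : F, κ ≠ 0 ∧
      ∀ (q : Nat.Primes), q ∉ S → ∀ (A : ValuationSubring (AlgebraicClosure ℚ)),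
        A.LiesOverPrime (q : ℕ) → ∀ n : ℤ, HasOrd A (q : ℕ) (b : AlgebraicClosure ℚ) n →
          HasOrd A (q : ℕ) (κ : AlgebraicClosure ℚ) (h * (n % p)) := by
  classical
  set c : HeightOneSpectrum (𝓞 F) → ℕ := fun w => (ordW F b w % (p : ℤ)).toNat with hc
  have hp0 : (p : ℤ) ≠ 0 := by exact_mod_cast hp.ne'
  have hcs : ∀ w, w ∉ (ordW_support_finite F hb).toFinset → c w = 0 := by
    intro w hw
    rw [Set.Finite.mem_toFinset, Set.mem_ofPred_eq, not_not] at hw
    simp only [hc, hw, Int.zero_emod, Int.toNat_zero]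
  obtain ⟨h, hpos, κ, hκ0, hκ⟩ :=
    exists_elt_intValuation_eq (R := 𝓞 F) (ordW_support_finite F hb).toFinset c hcs
  have hκF : algebraMap (𝓞 F) F κ ≠ 0 := by
    intro h0
    exact hκ0 ((FaithfulSMul.algebraMap_injective (𝓞 F) F) (by rw [h0, map_zero]))
  refine ⟨h, hpos, algebraMap (𝓞 F) F κ, hκF, fun q hq A hA n hn => ?_⟩
  have h1 : HasOrd A (q : ℕ) (b : AlgebraicClosure ℚ) (ordW F b (placePrime F A q.2 hA)) :=
    hasOrd_of_valuation_eq F hF hq A hA b _ (valuation_eq_exp_neg_ordW F hb _)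
  have hn' : n = ordW F b (placePrime F A q.2 hA) := hn.unique q.2.ne_zero hA h1
  have h2 : (placePrime F A q.2 hA).valuation F (algebraMap (𝓞 F) F κ) =
      WithZero.exp (-((h : ℤ) * (n % p))) := by
    rw [HeightOneSpectrum.valuation_of_algebraMap, hκ]
    congr 2
    rw [hn']
    simp only [hc]
    rw [Nat.cast_mul, Int.toNat_of_nonneg (Int.emod_nonneg _ hp0)]
  exact hasOrd_of_valuation_eq F hF hq A hA _ _ h2

end

end Fermat.Agent.S55.K.GO3H535.H371

end
end
-- ===== PACK-END S55/K/GO3H535/H371/Kappa.lean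

-- ===== PACK-BEGIN S55/PT/H123/TopGlobA.lean
section


/-!
# S55 / layer D, leaf D-T2b (global dévissage), part A: generic lemmas   (helper123)

Generic setting: global group `G` with levels `L`, local groups `Gv v` with levels `Lv v`,
level-compatible maps `r v`, a character `χ` and a family `inv` satisfying reciprocity.

* `topGlobFun_push`, `topT3_push` : naturality of the global top map in the module;
* `topT3_surjective_of` : `Θ(N)` is surjective as soon as ONE local top pairing is;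
* `charHomPull` and left exactness of `charHom χ −`.
-/

set_option autoImplicit false
set_option linter.unusedSectionVars false

noncomputable section

namespace Fermat.Agent.S55.PT.H123

open groupCohomology Fermat.Agent.S55.PT

variable {k : Type} [Field k] {G : Type} [Group G]

/-! ### linear algebra -/

/-- Over a field, a linear map `φ` killing `ker u` factors through `u`. -/
lemma exists_factor {V W X : Type} [AddCommGroup V] [Module k V] [AddCommGroup W] [Module k W]
    [AddCommGroup X] [Module k X] (u : V →ₗ[k] W) (φ : V →ₗ[k] X)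
    (h : ∀ v, u v = 0 → φ v = 0) : ∃ δ : W →ₗ[k] X, ∀ v, δ (u v) = φ v := by
  have hle : LinearMap.ker u ≤ LinearMap.ker φ := fun v hv => h v hv
  obtain ⟨g, hg⟩ := ((LinearMap.ker u).liftQ u le_rfl).exists_leftInverse_of_injective
    (Submodule.ker_liftQ_eq_bot _ _ _ le_rfl)
  refine ⟨((LinearMap.ker u).liftQ φ hle) ∘ₗ g, fun v => ?_⟩
  have h1 : g (u v) = Submodule.Quotient.mk v := by
    have := LinearMap.congr_fun hg (Submodule.Quotient.mk v)
    simpa using this
  rw [LinearMap.comp_apply, h1]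
  rfl

/-- `exists_factor` for maps between subspaces of dual spaces (stated separately because of the
`AddCommMonoid`/`AddCommGroup` instance paths on such subspaces). -/
lemma exists_factor_sub {V V' : Type} [AddCommGroup V] [Module k V] [AddCommGroup V']
    [Module k V'] (W : Submodule k (Module.Dual k V)) (W' : Submodule k (Module.Dual k V'))
    (u : ↥W →ₗ[k] ↥W') (φ : Module.Dual k ↥W) (h : ∀ v, u v = 0 → φ v = 0) :
    ∃ δ : Module.Dual k ↥W', ∀ v, δ (u v) = φ v :=
  @exists_factor k _ ↥W ↥W' k _ _ _ _ _ _ u φ h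

/-! ### pull-back of `χ`-equivariant functionals -/

section Pull

variable (χ : G →* kˣ) {N N' : Rep.{0, 0, 0} k G} (φ : N →ₗ[k] N') (hφ : IsEquivariant φ)

/-- `f ↦ f ∘ φ` on `χ`-equivariant functionals -/
def charHomPull : ↥(charHom χ N') →ₗ[k] ↥(charHom χ N) where
  toFun f := ⟨(f : Module.Dual k N') ∘ₗ φ, fun g n => by
    have hφ' : ∀ (g : G) (a : N), φ (N.ρ g a) = N'.ρ g (φ a) := hφ
    rw [LinearMap.comp_apply, LinearMap.comp_apply, hφ' g n]
    exact f.2 g (φ n)⟩
  map_add' _ _ := rfl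
  map_smul' _ _ := rfl

@[simp] lemma coe_charHomPull (f : ↥(charHom χ N')) :
    ((charHomPull χ φ hφ f : ↥(charHom χ N)) : Module.Dual k N) =
      (f : Module.Dual k N') ∘ₗ φ := rfl

end Pull

/-- left exactness of `charHom χ −`: a `χ`-equivariant functional on `B` killing `i(A)` comes
from a `χ`-equivariant functional on `C`. -/
lemma ker_charHomPull_le {A B C : Rep.{0, 0, 0} k G} (χ : G →* kˣ) (E : SES A B C) :
    LinearMap.ker (charHomPull χ E.i E.hi) ≤ LinearMap.range (charHomPull χ E.π E.hπ) := by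
  intro f hf
  have hf0 : ∀ a : A, (f : Module.Dual k B) (E.i a) = 0 := by
    intro a
    have := congrArg (fun x : ↥(charHom χ A) => (x : Module.Dual k A) a) (LinearMap.mem_ker.1 hf)
    exact this
  have hker : LinearMap.ker E.π ≤ LinearMap.ker (f : Module.Dual k B) := by
    intro b hb
    rw [← E.exact] at hb
    obtain ⟨a, rfl⟩ := hb
    exact hf0 a
  -- `f' = f ∘ sec`
  have hfac : ∀ b : B, (f : Module.Dual k B) (E.sec (E.π b)) = (f : Module.Dual k B) b := by
    intro b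
    have h1 : E.sec (E.π b) - b ∈ LinearMap.ker E.π := by
      rw [LinearMap.mem_ker, map_sub, E.π_sec, sub_self]
    have h2 := hker h1
    rw [LinearMap.mem_ker, map_sub, sub_eq_zero] at h2
    exact h2
  have hπ' : ∀ (g : G) (b : B), E.π (B.ρ g b) = C.ρ g (E.π b) := E.hπ
  refine ⟨⟨(f : Module.Dual k B) ∘ₗ E.sec, fun g c => ?_⟩, ?_⟩
  · obtain ⟨b, rfl⟩ := E.surj c
    rw [LinearMap.comp_apply, LinearMap.comp_apply, ← hπ' g b, hfac, hfac]
    exact f.2 g b
  · apply Subtype.ext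
    apply LinearMap.ext
    intro b
    exact hfac b

section Glob

variable {ι : Type} [Fintype ι] [DecidableEq ι] {Gv : ι → Type} [∀ v, Group (Gv v)]
variable {L : LevelSys G} {Lv : ∀ v, LevelSys (Gv v)} {r : ∀ v, Gv v →* G}
variable (hr : ∀ v, IsLevelCompatible (r v) L (Lv v))
variable {χ : G →* kˣ} {inv : ∀ v, (Lv v).H2 (ofChar (χ.comp (r v))) →ₗ[k] k}

/-- naturality of `topGlobFun` in the module -/
lemma topGlobFun_push {N N' : Rep.{0, 0, 0} k G} (φ : N →ₗ[k] N') (hφ : IsEquivariant φ)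
    (x : (v : ι) → (Lv v).H2 (Rep.res (r v) N)) (f : ↥(charHom χ N')) :
    topGlobFun χ inv N' (pushLoc2 φ hφ x) f = topGlobFun χ inv N x (charHomPull χ φ hφ f) := by
  rw [topGlobFun_apply, topGlobFun_apply]
  refine Finset.sum_congr rfl fun v _ => ?_
  congr 1
  rw [pushLoc2_apply]
  obtain ⟨c, hc⟩ := (Lv v).H2π_surjective _ (x v)
  rw [← hc]
  rfl

/-- `Θ(N)` is surjective as soon as one local top pairing is surjective. -/
theorem topT3_surjective_of (hrec : IsRecip hr χ inv) (N : Rep.{0, 0, 0} k G) (v₀ : ι)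
    (hloc : Function.Surjective
      (topPair (Lv v₀) (χ.comp (r v₀)) (inv v₀) (Rep.res (r v₀) N))) :
    Function.Surjective (topT3 hr N hrec) := by
  intro φ
  have hinj : Function.Injective (charHomRes χ N (r v₀)) := by
    intro f f' h
    apply Subtype.ext
    have := congrArg (fun x : ↥(charHom (χ.comp (r v₀)) (Rep.res (r v₀) N)) =>
      (x : Module.Dual k N)) h
    exact this
  obtain ⟨ψ, hψ⟩ := exists_factor_sub (charHom χ N) (charHom (χ.comp (r v₀)) (Rep.res (r v₀) N))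
    (charHomRes χ N (r v₀)) φ (fun f hf => by
      have : f = 0 := hinj (hf.trans (map_zero _).symm)
      rw [this, map_zero])
  obtain ⟨y, hy⟩ := hloc ψ
  refine ⟨T3π hr N (Pi.single v₀ y), ?_⟩
  rw [topT3_mk]
  apply LinearMap.ext
  intro f
  rw [topGlobFun_apply, Finset.sum_eq_single v₀]
  · rw [Pi.single_eq_same, ← topPair_apply, hy, hψ]
  · intro v _ hv
    rw [Pi.single_eq_of_ne hv, map_zero, map_zero]
  · intro h
    exact absurd (Finset.mem_univ v₀) h

end Glob

end Fermat.Agent.S55.PT.H123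

end

end
-- ===== PACK-END S55/PT/H123/TopGlobA.lean

-- ===== PACK-BEGIN S55/PT/T2aH299/Dev.lean
section


/-!
# S55 / layer D, leaf D-T2a: dévissage of the top pairing (abstract form)

For `φ : Q → N` equivariant, `charPre χ φ : charHom χ N → charHom χ Q`, `f ↦ f ∘ φ`, and
`topPair N (φ_* y) = (topPair Q y) ∘ charPre`.
* `topPair_surjective_of_surjective`: `φ` onto, `topPair Q` onto ⇒ `topPair N` onto.
* `topPair_injective_of_ses`: four lemma for `0 → R → Q → N → 0`.
-/

set_option autoImplicit false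

noncomputable section

namespace Fermat.Agent.S55.PT.H299

open Fermat.Agent.S55.PT groupCohomology

variable {k : Type} [Field k] {G : Type} [Group G]

section CharPre

variable (χ : G →* kˣ) {Q N : Rep.{0, 0, 0} k G} (φ : Q →ₗ[k] N) (hφ : IsEquivariant φ)

/-- precomposition with an equivariant map: `charHom χ N → charHom χ Q` -/
def charPre : ↥(charHom χ N) →ₗ[k] ↥(charHom χ Q) where
  toFun f := ⟨(f : Module.Dual k N) ∘ₗ φ, fun g q => by
    have h1 : φ (Q.ρ g q) = N.ρ g (φ q) := hφ g q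
    rw [LinearMap.comp_apply, h1, f.2 g (φ q)]
    rfl⟩
  map_add' _ _ := rfl
  map_smul' _ _ := rfl

@[simp] lemma coe_charPre (f : ↥(charHom χ N)) :
    ((charPre χ φ hφ f : ↥(charHom χ Q)) : Module.Dual k Q) = (f : Module.Dual k N) ∘ₗ φ := rfl

lemma charPre_injective (hsurj : Function.Surjective φ) :
    Function.Injective (charPre χ φ hφ) := by
  intro f f' h
  apply Subtype.ext
  apply LinearMap.ext
  intro n
  obtain ⟨q, rfl⟩ := hsurj n
  have h2 := congrArg (fun F : ↥(charHom χ Q) => (F : Module.Dual k Q) q) h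
  exact h2

variable (L : LevelSys G)

lemma pushChar_charPre (f : ↥(charHom χ N)) (y : L.H2 Q) :
    pushChar L χ Q (charPre χ φ hφ f) y = pushChar L χ N f (pushH2 φ hφ L y) := by
  obtain ⟨c, rfl⟩ := L.H2π_surjective Q y
  rfl

variable (inv : L.H2 (ofChar χ) →ₗ[k] k)

lemma topPair_push (y : L.H2 Q) (f : ↥(charHom χ N)) :
    topPair L χ inv N (pushH2 φ hφ L y) f = topPair L χ inv Q y (charPre χ φ hφ f) := by
  rw [topPair_apply, topPair_apply, pushChar_charPre]

include hφ in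
/-- surjectivity of the top pairing passes to quotients -/
theorem topPair_surjective_of_surjective (hsurj : Function.Surjective φ)
    (hQ : Function.Surjective (topPair L χ inv Q)) :
    Function.Surjective (topPair L χ inv N) := by
  intro ψ
  obtain ⟨r, hr⟩ := LinearMap.exists_leftInverse_of_injective (K := k)
    (V := ↥(charHom χ N)) (V' := ↥(charHom χ Q)) (charPre χ φ hφ)
    (LinearMap.ker_eq_bot.2 (charPre_injective χ φ hφ hsurj))
  obtain ⟨y, hy⟩ := hQ (ψ ∘ₗ r)
  refine ⟨pushH2 φ hφ L y, ?_⟩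
  apply LinearMap.ext
  intro f
  rw [topPair_push, hy, LinearMap.comp_apply]
  have h2 := LinearMap.congr_fun hr f
  rw [LinearMap.comp_apply] at h2
  rw [h2]
  rfl

end CharPre

section Four

variable (χ : G →* kˣ) {R Q N : Rep.{0, 0, 0} k G} (E : SES R Q N)

/-- left exactness of `charHom χ -` at the middle term -/
lemma charPre_exact (g : ↥(charHom χ Q)) (hg : charPre χ E.i E.hi g = 0) :
    ∃ f : ↥(charHom χ N), charPre χ E.π E.hπ f = g := by
  have hgi : ∀ r : R, (g : Module.Dual k Q) (E.i r) = 0 := fun r => by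
    have h2 := congrArg (fun F : ↥(charHom χ R) => (F : Module.Dual k R) r) hg
    exact h2
  have hker : ∀ q : Q, E.π q = 0 → (g : Module.Dual k Q) q = 0 := by
    intro q hq
    have hq' : q ∈ LinearMap.range E.i := by
      rw [E.exact]
      exact LinearMap.mem_ker.2 hq
    obtain ⟨r, rfl⟩ := hq'
    exact hgi r
  have hfac : ∀ q : Q, (g : Module.Dual k Q) (E.sec (E.π q)) = (g : Module.Dual k Q) q := by
    intro q
    have h1 : E.π (E.sec (E.π q) - q) = 0 := by rw [map_sub, E.π_sec, sub_self]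
    have h2 := hker _ h1
    rw [map_sub, sub_eq_zero] at h2
    exact h2
  refine ⟨⟨(g : Module.Dual k Q) ∘ₗ E.sec, fun γ n => ?_⟩, ?_⟩
  · obtain ⟨q, rfl⟩ := E.surj n
    have h1 : N.ρ γ (E.π q) = E.π (Q.ρ γ q) := (E.hπ γ q).symm
    rw [h1, LinearMap.comp_apply, LinearMap.comp_apply, hfac, hfac]
    exact g.2 γ q
  · apply Subtype.ext
    apply LinearMap.ext
    intro q
    exact hfac q

variable (L : LevelSys G) (inv : L.H2 (ofChar χ) →ₗ[k] k)

lemma pushH2_π_i (z : L.H2 R) : pushH2 E.π E.hπ L (pushH2 E.i E.hi L z) = 0 := by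
  have hcomp : E.π ∘ₗ E.i = 0 := by
    apply LinearMap.ext
    intro r
    have : E.i r ∈ LinearMap.ker E.π := by
      rw [← E.exact]
      exact LinearMap.mem_range_self _ r
    exact LinearMap.mem_ker.1 this
  rw [← pushH2_comp L E.hi E.hπ (isEquivariant_comp E.hi E.hπ) z]
  rw [pushH2_congr L (isEquivariant_comp E.hi E.hπ) isEquivariant_zero hcomp z]
  obtain ⟨c, rfl⟩ := L.H2π_surjective R z
  rw [pushH2_mk]
  have : pushZ2 (0 : R →ₗ[k] N) isEquivariant_zero L c = 0 := by
    apply Subtype.ext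
    funext x
    rfl
  rw [this, map_zero]

/-- four lemma: injectivity of the top pairing for the quotient of a short exact sequence -/
theorem topPair_injective_of_ses
    (hsurjπ : Function.Surjective (pushH2 E.π E.hπ L))
    (hR : Function.Surjective (topPair L χ inv R))
    (hQ : Function.Injective (topPair L χ inv Q)) :
    Function.Injective (topPair L χ inv N) := by
  rw [injective_iff_map_eq_zero]
  intro x hx
  obtain ⟨y, rfl⟩ := hsurjπ x
  -- `Θ = topPair Q y` vanishes on `ker (charPre i)`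
  have hΘ : topPair L χ inv Q y ∈
      (LinearMap.ker (charPre χ E.i E.hi)).dualAnnihilator := by
    rw [Submodule.mem_dualAnnihilator]
    intro g hg
    obtain ⟨f, rfl⟩ := charPre_exact χ E g (LinearMap.mem_ker.1 hg)
    rw [← topPair_push, hx]
    rfl
  have hrange := LinearMap.range_dualMap_eq_dualAnnihilator_ker (K := k)
    (V₁ := ↥(charHom χ Q)) (V₂ := ↥(charHom χ R)) (charPre χ E.i E.hi)
  rw [← hrange] at hΘ
  obtain ⟨φ, hφ⟩ := hΘ
  obtain ⟨z, rfl⟩ := hR φ
  have h1 : topPair L χ inv Q (pushH2 E.i E.hi L z) = topPair L χ inv Q y := by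
    rw [← hφ]
    apply LinearMap.ext
    intro g
    rw [topPair_push]
    rfl
  rw [← hQ h1, pushH2_π_i]

end Four

end Fermat.Agent.S55.PT.H299

end

end
-- ===== PACK-END S55/PT/T2aH299/Dev.lean

-- ===== PACK-BEGIN S56/Euler/H726/Sha1Loc.lean
section







/-!
# S56 / W-BASE / Euler characteristic, leaf EUL-SHA2 (helper726): local triviality

`N : Rep (ZMod p) G_ℚ`, `c` a cocycle.

* `IsLocTriv N c v`      : `c ∘ rl v` is a coboundary of the local group at `v` (the condition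
                           defining `Ш¹`);
* `exists_cob_on_decomposition` : then `c` is a coboundary on the decomposition group of EVERY
                           valuation subring `A` of `ℚ̄` over `v`;
* `eq_zero_of_mem_decomposition` : if moreover `σ ∈ D_A` acts trivially on `N` then `c σ = 0`.
-/

set_option autoImplicit false

noncomputable section

namespace Fermat.Agent.S56.Euler.H726

open Fermat.Agent.S55.PT groupCohomology ExtCitation
open scoped Pointwise

variable {p : ℕ} [Fact p.Prime] (N : Rep.{0, 0, 0} (ZMod p) _root_.Fermat.Agent.S55.PT.GQ)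

/-- `c` is locally trivial at `v`: its restriction to the local Galois group at `v` is a
coboundary. -/
def IsLocTriv (c : _root_.Fermat.Agent.S55.PT.GQ → N) (v : Nat.Primes) : Prop :=
  ∃ n : N, ∀ g : Gl v, c (rl v g) = N.ρ (rl v g) n - n

/-- A locally trivial cocycle is a coboundary on the decomposition group of the Prelude place. -/
lemma exists_cob_on_primeLocalPlace {c : _root_.Fermat.Agent.S55.PT.GQ → N} {v : Nat.Primes} (h : IsLocTriv N c v) :
    ∃ n : N, ∀ σ ∈ (primeLocalPlace v).decompositionSubgroup ℚ, c σ = N.ρ σ n - n := by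
  obtain ⟨n, hn⟩ := h
  refine ⟨n, fun σ hσ => ?_⟩
  obtain ⟨g, rfl⟩ := Fermat.Agent.S55.BLocal.exists_primeLocalToGlobal_eq v σ hσ
  exact hn g

/-- A locally trivial cocycle is a coboundary on the decomposition group of every valuation
subring over `v`. -/
theorem exists_cob_on_decomposition {c : _root_.Fermat.Agent.S55.PT.GQ → N} (hc : c ∈ cocycles₁ N) {v : Nat.Primes}
    (h : IsLocTriv N c v) (A : ValuationSubring (AlgebraicClosure ℚ))
    (hA : A.LiesOverPrime (v : ℕ)) :
    ∃ n : N, ∀ σ ∈ A.decompositionSubgroup ℚ, c σ = N.ρ σ n - n := by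
  obtain ⟨n, hn⟩ := exists_cob_on_primeLocalPlace N h
  obtain ⟨g, hg⟩ := Fermat.Agent.Lib.Cheb.H476.exists_smul_eq v.2
    (Fermat.Agent.S55.BLocal.primeLocalPlace_liesOver v) hA
  refine ⟨N.ρ g n - c g, fun σ hσ => ?_⟩
  -- `g⁻¹ σ g ∈ D₀`
  have h1 : g⁻¹ * σ * g⁻¹⁻¹ ∈ (g⁻¹ • A).decompositionSubgroup ℚ :=
    Fermat.Agent.Lib.Cheb.H476.conj_mem_decomposition g⁻¹ hσ
  have h2 : g⁻¹ • A = primeLocalPlace v := by
    rw [← hg, inv_smul_smul]
  rw [h2, inv_inv] at h1
  have h3 := cob_conj N hc g (g⁻¹ * σ * g) n (hn _ h1)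
  have h4 : g * (g⁻¹ * σ * g) * g⁻¹ = σ := by group
  rw [h4] at h3
  exact h3

/-- A locally trivial cocycle vanishes on the elements of the decomposition groups over `v`
which act trivially on `N`. -/
theorem eq_zero_of_mem_decomposition {c : _root_.Fermat.Agent.S55.PT.GQ → N} (hc : c ∈ cocycles₁ N) {v : Nat.Primes}
    (h : IsLocTriv N c v) (A : ValuationSubring (AlgebraicClosure ℚ))
    (hA : A.LiesOverPrime (v : ℕ)) {σ : _root_.Fermat.Agent.S55.PT.GQ} (hσ : σ ∈ A.decompositionSubgroup ℚ)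
    (htriv : ∀ n : N, N.ρ σ n = n) : c σ = 0 := by
  obtain ⟨n, hn⟩ := exists_cob_on_decomposition N hc h A hA
  rw [hn σ hσ, htriv, sub_self]

/-- The inertia group is contained in the decomposition group. -/
lemma inertia_le_decomposition (A : ValuationSubring (AlgebraicClosure ℚ)) :
    A.inertiaSubgroupIn ℚ ≤ A.decompositionSubgroup ℚ := by
  rintro σ ⟨g, -, rfl⟩
  exact g.2

/-- Local triviality of a class in `Ш¹`, in plain form. -/
theorem isLocTriv_of_mem_Sha1 (T : Finset Nat.Primes) (c : ↥((globalLevels T).Z1 N))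
    (hx : (globalLevels T).H1π N c ∈ Sha1 (hrl T) N) (v : Nat.Primes) (hv : v ∈ T) :
    IsLocTriv N (c : _root_.Fermat.Agent.S55.PT.GQ → N) v := by
  have h1 : loc1 (hrl T) N ((globalLevels T).H1π N c) = 0 := hx
  have h2 : resH1 (hrl T ⟨v, hv⟩) N ((globalLevels T).H1π N c) = 0 := by
    have := congrFun h1 ⟨v, hv⟩
    simpa using this
  rw [resH1_mk, LevelSys.H1π_eq_zero_iff] at h2
  obtain ⟨n, hn⟩ := h2
  refine ⟨n, fun g => ?_⟩
  have h3 := congrFun hn g
  rw [res_d₀₁] at h3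
  simp only [coe_resZ1, Function.comp_apply, d₀₁_hom_apply] at h3
  exact h3.symm

end Fermat.Agent.S56.Euler.H726

end

end
-- ===== PACK-END S56/Euler/H726/Sha1Loc.lean

-- ===== PACK-BEGIN S56/Euler/H74/ValDescent.lean
section




/-!
# S56 / W-BASE, leaf EUL-CL (helper74), part B: descent of divisors along unramified extensions

`F ⊆ L ⊆ ℚ̄` finite over `ℚ`, both unramified outside `T`; every prime of `F` not above `T` has a
generator `π` outside `T` (class group killed).  If `a ∈ Lˣ` is such that `h a / a` is a `T`-unit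
for all `h ∈ G_F`, then `a = b · (T-unit)` with `b ∈ Fˣ`.
-/

set_option autoImplicit false
set_option linter.style.haveILetI false
set_option linter.unusedSectionVars false

open NumberField IsDedekindDomain
open scoped Pointwise

namespace Fermat.Agent.S56.Euler.H74

open Fermat.Agent.S55.Bridge Fermat.Agent.S54 Fermat.Agent.S55

local notation "Qb" => AlgebraicClosure ℚ
local notation "GQ" => (AlgebraicClosure ℚ ≃ₐ[ℚ] AlgebraicClosure ℚ)

/-! ### Units at a place -/

section unitGroup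

variable (A : ValuationSubring Qb)

lemma mem_unitGroup_iff_mem (x : Qbˣ) :
    x ∈ A.unitGroup ↔ (x : Qb) ∈ A ∧ ((x⁻¹ : Qbˣ) : Qb) ∈ A := by
  rw [ValuationSubring.mem_unitGroup_iff, ← A.valuation_le_one_iff, ← A.valuation_le_one_iff,
    Units.val_inv_eq_inv_val, map_inv₀]
  have hne : A.valuation (x : Qb) ≠ 0 := (Valuation.ne_zero_iff _).2 x.ne_zero
  constructor
  · intro h
    rw [h, inv_one]
    exact ⟨le_rfl, le_rfl⟩
  · rintro ⟨h1, h2⟩
    exact le_antisymm h1 ((inv_le_one₀ (zero_lt_iff.2 hne)).1 h2)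

/-- `S`-units are the elements which are units at all places outside `S`. -/
lemma isSUnit_iff (S : Finset Nat.Primes) (x : Qbˣ) :
    K.IsSUnit S x ↔ ∀ B : ValuationSubring Qb, K.OutsideS S B → x ∈ B.unitGroup := by
  unfold K.IsSUnit
  refine forall_congr' fun B => forall_congr' fun _ => ?_
  rw [mem_unitGroup_iff_mem]

/-- Galois conjugation of units at a place. -/
lemma smul_mem_unitGroup_smul (τ : GQ) {x : Qbˣ} (hx : x ∈ A.unitGroup) :
    τ • x ∈ (τ • A).unitGroup := by
  rw [mem_unitGroup_iff_mem] at hx ⊢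
  rw [mem_smul_valuationSubring_iff, mem_smul_valuationSubring_iff]
  have h1 : τ⁻¹ (((τ • x : Qbˣ)) : Qb) = (x : Qb) := by
    show τ⁻¹ (τ (x : Qb)) = (x : Qb)
    exact τ.symm_apply_apply _
  have h2 : τ⁻¹ ((((τ • x)⁻¹ : Qbˣ)) : Qb) = ((x⁻¹ : Qbˣ) : Qb) := by
    rw [← smul_inv']
    show τ⁻¹ (τ ((x⁻¹ : Qbˣ) : Qb)) = ((x⁻¹ : Qbˣ) : Qb)
    exact τ.symm_apply_apply _
  rw [h1, h2]
  exact hx

end unitGroup

/-! ### Uniformisers of unramified primes -/

section Unif

variable (F : IntermediateField ℚ Qb) [FiniteDimensional ℚ F]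

attribute [local instance] H594.numberField_of_finite

lemma algebraMap_ringOfIntegers_eq (x : 𝓞 F) :
    algebraMap (𝓞 F) Qb x = ((x : F) : Qb) := rfl

lemma lt_exp_neg_one {x : WithZero (Multiplicative ℤ)} (h : x < WithZero.exp (-1 : ℤ)) :
    x ≤ WithZero.exp (-2 : ℤ) := by
  rcases eq_or_ne x 0 with rfl | hx
  · exact zero_le
  · obtain ⟨k, rfl⟩ : ∃ k : ℤ, x = WithZero.exp k := ⟨WithZero.log x, (WithZero.exp_log hx).symm⟩
    rw [WithZero.exp_lt_exp] at h
    rw [WithZero.exp_le_exp]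
    omega

/-- For `x ∈ F`: `x` is a non-unit of `A` iff its valuation at the prime below `A` is `< 1`. -/
lemma valuation_lt_one_of_mem_nonunits (A : ValuationSubring Qb) {q : ℕ} (hq : q.Prime)
    (hA : A.LiesOverPrime q) (x : F) (hx : (x : Qb) ∈ A.nonunits) :
    (placePrime F A hq hA).valuation F x < 1 := by
  rcases eq_or_ne x 0 with rfl | hx0
  · simp
  have h1 : (placePrime F A hq hA).valuation F x ≤ 1 :=
    (mem_iff_valuation_le_one F A hq hA x).1 (A.nonunits_le hx)
  refine lt_of_le_of_ne h1 (fun h => ?_)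
  have h2 : (placePrime F A hq hA).valuation F x⁻¹ ≤ 1 := by
    rw [map_inv₀, h, inv_one]
  have h3 : ((x⁻¹ : F) : Qb) ∈ A := (mem_iff_valuation_le_one F A hq hA x⁻¹).2 h2
  rw [mem_nonunits_iff_inv_not_mem] at hx
  rcases hx with hx | hx
  · exact hx0 (by exact_mod_cast hx)
  · apply hx
    simpa using h3

/-- **Uniformisers.**  If the inertia group of `A | q` fixes `F` and `π ∈ 𝔭 ∖ 𝔭²`
(`𝔭 = A ∩ 𝒪_F`), then `v_A(π) = v_A(q)`. -/
theorem valuation_unif (A : ValuationSubring Qb) {q : ℕ} (hq : q.Prime)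
    (hA : A.LiesOverPrime q) (hI : A.inertiaSubgroupIn ℚ ≤ F.fixingSubgroup)
    (π : 𝓞 F) (hπ : π ∈ H594.primeBelowF F A) (hπ2 : π ∉ (H594.primeBelowF F A) ^ 2) :
    A.valuation (((π : F) : Qb)) = A.valuation (q : Qb) := by
  have hπA : ((π : F) : Qb) ∈ A.nonunits := (H594.mem_primeBelowF F A π).1 hπ
  have hfix : ∀ σ ∈ A.inertiaSubgroupIn ℚ, σ ((π : F) : Qb) = ((π : F) : Qb) := by
    intro σ hσ
    have := (IntermediateField.mem_fixingSubgroup_iff F σ).1 (hI hσ)
    exact this _ (π : F).2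
  have hle : A.valuation (((π : F) : Qb)) ≤ A.valuation (q : Qb) :=
    Fermat.Agent.S56.H66.vg0_le q hq A hA _ hπA hfix
  refine le_antisymm hle (not_lt.1 fun hlt => hπ2 ?_)
  -- `π / q` is a non-unit of `A`
  have hq0 : (q : Qb) ≠ 0 := by exact_mod_cast hq.ne_zero
  have hqF0 : (q : F) ≠ 0 := by exact_mod_cast hq.ne_zero
  have hqv0 : A.valuation (q : Qb) ≠ 0 := (Valuation.ne_zero_iff _).2 hq0
  have hy : ((((π : F) / (q : F) : F)) : Qb) ∈ A.nonunits := by
    rw [ValuationSubring.mem_nonunits_iff]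
    have : ((((π : F) / (q : F) : F)) : Qb) = ((π : F) : Qb) / (q : Qb) := by
      push_cast
      rfl
    rw [this, map_div₀]
    exact (div_lt_one₀ (zero_lt_iff.2 hqv0)).2 hlt
  have hw := valuation_lt_one_of_mem_nonunits F A hq hA _ hy
  set w := placePrime F A hq hA with hw_def
  rw [map_div₀] at hw
  have hwq0 : w.valuation F (q : F) ≠ 0 := (Valuation.ne_zero_iff _).2 hqF0
  have hw2 : w.valuation F (π : F) < w.valuation F (q : F) :=
    (div_lt_one₀ (zero_lt_iff.2 hwq0)).1 hw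
  -- pass to `intValuation`
  have e1 : w.valuation F (π : F) = w.intValuation π := w.valuation_of_algebraMap π
  have e2 : w.valuation F (q : F) = w.intValuation (q : 𝓞 F) := by
    have := w.valuation_of_algebraMap (K := F) (q : 𝓞 F)
    rw [← this]
    congr 1
  have hqmem : (q : 𝓞 F) ∈ w.asIdeal ^ 1 := by
    rw [pow_one]
    exact H594.natCast_mem_primeBelowF F A hA
  have hq1 : w.intValuation (q : 𝓞 F) ≤ WithZero.exp (-(1 : ℤ)) := by
    have := (w.intValuation_le_pow_iff_mem (q : 𝓞 F) 1).2 hqmem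
    simpa using this
  rw [e1, e2] at hw2
  have hπ1 : w.intValuation π ≤ WithZero.exp (-(2 : ℤ)) :=
    lt_exp_neg_one (lt_of_lt_of_le hw2 hq1)
  have := (w.intValuation_le_pow_iff_mem π 2).1 (by simpa using hπ1)
  exact this

end Unif

/-! ### The descent -/

section Descent

variable (F : IntermediateField ℚ Qb) [FiniteDimensional ℚ F]

attribute [local instance] H594.numberField_of_finite

/-- The unit of `ℚ̄` attached to a unit of `F`. -/
noncomputable def toQb : Fˣ →* Qbˣ := Units.map ((algebraMap F Qb : F →+* Qb) : F →* Qb)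

@[simp] lemma coe_toQb (c : Fˣ) : ((toQb F c : Qbˣ) : Qb) = ((c : F) : Qb) := rfl

lemma smul_toQb (τ : GQ) (hτ : τ ∈ F.fixingSubgroup) (c : Fˣ) : τ • toQb F c = toQb F c := by
  apply Units.ext
  show τ ((c : F) : Qb) = ((c : F) : Qb)
  exact (IntermediateField.mem_fixingSubgroup_iff F τ).1 hτ _ (c : F).2

variable {F}

/-- A place over a prime outside `T` is outside `T`. -/
lemma outsideS_of_liesOver (T : Finset Nat.Primes) (A : ValuationSubring Qb) {q : ℕ}
    (hq : q.Prime) (hA : A.LiesOverPrime q) (hqT : (⟨q, hq⟩ : Nat.Primes) ∉ T) :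
    K.OutsideS T A := by
  intro q' hq' hA'
  apply hqT
  have := prime_unique A hq q'.2 hA hA'
  have h2 : (⟨q, hq⟩ : Nat.Primes) = q' := Subtype.ext this
  rw [h2]
  exact hq'

/-- `N ∉ A ∩ 𝒪_F` when all prime factors of `N` are in `T` and `A` is over a prime outside `T`. -/
lemma natCast_notMem_primeBelowF (T : Finset Nat.Primes) (N : ℕ)
    (hNT : ∀ q : Nat.Primes, (q : ℕ) ∣ N → q ∈ T) (A : ValuationSubring Qb) {q : ℕ}
    (hq : q.Prime) (hA : A.LiesOverPrime q) (hqT : (⟨q, hq⟩ : Nat.Primes) ∉ T) :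
    (N : 𝓞 F) ∉ H594.primeBelowF F A := by
  intro h
  rw [H594.mem_primeBelowF, map_natCast, ValuationSubring.mem_nonunits_iff] at h
  have h1 : A.valuation (N : Qb) = 1 :=
    val_natCast_eq_one_of_not_dvd A hq hA N (fun hd => hqT (hNT ⟨q, hq⟩ hd))
  rw [h1] at h
  exact lt_irrefl _ h

variable (F)

/-- The local generator at a prime `𝔭` of `F`. -/
theorem exists_local_generator (T : Finset Nat.Primes) (L : IntermediateField ℚ Qb)
    (hF : F.IsUnramifiedOutside T) (hL : L.IsUnramifiedOutside T)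
    (N : ℕ) (hNT : ∀ q : Nat.Primes, (q : ℕ) ∣ N → q ∈ T)
    (hgen : ∀ 𝔭 : HeightOneSpectrum (𝓞 F), (N : 𝓞 F) ∉ 𝔭.asIdeal →
      ∃ π : 𝓞 F, π ∈ 𝔭.asIdeal ∧ π ∉ 𝔭.asIdeal ^ 2 ∧
        ∀ 𝔮 : HeightOneSpectrum (𝓞 F), 𝔮 ≠ 𝔭 → (N : 𝓞 F) ∉ 𝔮.asIdeal → π ∉ 𝔮.asIdeal)
    (a : Qbˣ) (haL : (a : Qb) ∈ L)
    (hinv : ∀ h ∈ F.fixingSubgroup, K.IsSUnit T (h • a / a))
    (𝔭 : HeightOneSpectrum (𝓞 F)) :
    ∃ c : Fˣ, ∀ (A : ValuationSubring Qb) (q : ℕ) (hq : q.Prime), A.LiesOverPrime q →
      (⟨q, hq⟩ : Nat.Primes) ∉ T →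
        (H594.primeBelowF F A = 𝔭.asIdeal → a / toQb F c ∈ A.unitGroup) ∧
        (H594.primeBelowF F A ≠ 𝔭.asIdeal → toQb F c ∈ A.unitGroup) := by
  classical
  by_cases hex : ∃ (A : ValuationSubring Qb) (q : ℕ) (hq : q.Prime), A.LiesOverPrime q ∧
      (⟨q, hq⟩ : Nat.Primes) ∉ T ∧ H594.primeBelowF F A = 𝔭.asIdeal
  swap
  · refine ⟨1, fun A q hq hA hqT => ⟨fun h => ?_, fun _ => ?_⟩⟩
    · exact absurd ⟨A, q, hq, hA, hqT, h⟩ hex
    · rw [map_one]
      exact one_mem _
  obtain ⟨A₀, q, hq, hA₀, hqT, hPA₀⟩ := hex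
  have hN𝔭 : (N : 𝓞 F) ∉ 𝔭.asIdeal := by
    rw [← hPA₀]
    exact natCast_notMem_primeBelowF T N hNT A₀ hq hA₀ hqT
  obtain ⟨π, hπ1, hπ2, hπ3⟩ := hgen 𝔭 hN𝔭
  have hIF : A₀.inertiaSubgroupIn ℚ ≤ F.fixingSubgroup := hF.2 ⟨q, hq⟩ hqT A₀ hA₀
  have hIL : A₀.inertiaSubgroupIn ℚ ≤ L.fixingSubgroup := hL.2 ⟨q, hq⟩ hqT A₀ hA₀
  -- the exponent
  have hafix : ∀ σ ∈ A₀.inertiaSubgroupIn ℚ, σ (a : Qb) = (a : Qb) := fun σ hσ =>
    (IntermediateField.mem_fixingSubgroup_iff L σ).1 (hIL hσ) _ haL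
  obtain ⟨n, hn⟩ := Fermat.Agent.S56.H66.vg0 q hq A₀ hA₀ (a : Qb) a.ne_zero hafix
  have hunif : A₀.valuation (((π : F) : Qb)) = A₀.valuation (q : Qb) :=
    valuation_unif F A₀ hq hA₀ hIF π (by rw [hPA₀]; exact hπ1) (by rw [hPA₀]; exact hπ2)
  have hπ0 : (π : F) ≠ 0 := by
    intro h0
    apply hπ2
    have : π = 0 := by exact_mod_cast h0
    rw [this]
    exact Ideal.zero_mem _
  set πF : Fˣ := Units.mk0 (π : F) hπ0 with hπF
  refine ⟨πF ^ n, fun A q' hq' hA hq'T => ⟨fun hPA => ?_, fun hPA => ?_⟩⟩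
  · -- `A` is over `𝔭`
    have hAq : A.LiesOverPrime q := by
      have h1 : (q : 𝓞 F) ∈ H594.primeBelowF F A := by
        rw [hPA, ← hPA₀]
        exact H594.natCast_mem_primeBelowF F A₀ hA₀
      have := (H594.mem_primeBelowF F A _).1 h1
      rwa [map_natCast] at this
    -- units at `A₀`
    have h0 : a / toQb F (πF ^ n) ∈ A₀.unitGroup := by
      rw [ValuationSubring.mem_unitGroup_iff, Units.val_div_eq_div_val, map_div₀, map_zpow,
        Units.val_zpow_eq_zpow_val, map_zpow₀, coe_toQb]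
      have : ((πF : F) : Qb) = ((π : F) : Qb) := rfl
      rw [this, hunif, hn]
      have hqv0 : A₀.valuation (q : Qb) ≠ 0 :=
        (Valuation.ne_zero_iff _).2 (by exact_mod_cast hq.ne_zero)
      exact div_self (zpow_ne_zero _ hqv0)
    -- conjugacy
    have hrestr : ∀ x ∈ F, x ∈ A₀ ↔ x ∈ A := by
      intro x hx
      have e1 := mem_iff_valuation_le_one F A₀ hq hA₀ ⟨x, hx⟩
      have e2 := mem_iff_valuation_le_one F A hq hAq ⟨x, hx⟩
      have e3 : placePrime F A₀ hq hA₀ = placePrime F A hq hAq :=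
        HeightOneSpectrum.ext (by rw [placePrime_asIdeal, placePrime_asIdeal, hPA₀, hPA])
      rw [e3] at e1
      exact e1.trans e2.symm
    obtain ⟨τ, hτ, hτA⟩ := exists_smul_eq_of_restrict_eq F hq hA₀ hAq hrestr
    have h1 : τ • (a / toQb F (πF ^ n)) ∈ A.unitGroup := by
      rw [← hτA]
      exact smul_mem_unitGroup_smul A₀ τ h0
    rw [smul_div', smul_toQb F τ hτ] at h1
    have hout : K.OutsideS T A := outsideS_of_liesOver T A hq' hA hq'T
    have h2 : τ • a / a ∈ A.unitGroup := (isSUnit_iff T _).1 (hinv τ hτ) A hout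
    have h3 : a / toQb F (πF ^ n) = (τ • a / toQb F (πF ^ n)) / (τ • a / a) := by
      rw [div_div_div_cancel_left]
    rw [h3]
    exact div_mem h1 h2
  · -- `A` is over another prime
    have h𝔮 : placePrime F A hq' hA ≠ 𝔭 := by
      intro h
      apply hPA
      rw [← h, placePrime_asIdeal]
    have hN𝔮 : (N : 𝓞 F) ∉ (placePrime F A hq' hA).asIdeal :=
      natCast_notMem_primeBelowF T N hNT A hq' hA hq'T
    have hπ𝔮 : π ∉ H594.primeBelowF F A := hπ3 _ h𝔮 hN𝔮
    have hv : A.valuation (algebraMap (𝓞 F) Qb π) = 1 :=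
      valuation_eq_one_of_notMem_primeBelowF F A π hπ𝔮
    have hmem : toQb F πF ∈ A.unitGroup := by
      rw [ValuationSubring.mem_unitGroup_iff]
      exact hv
    rw [map_zpow]
    exact zpow_mem hmem n

/-- **Descent.**  If `a ∈ Lˣ` has `G_F`-invariant divisor outside `T`, then `a = b · (T-unit)`
with `b ∈ Fˣ`. -/
theorem exists_descent (T : Finset Nat.Primes) (L : IntermediateField ℚ Qb)
    (hF : F.IsUnramifiedOutside T) (hL : L.IsUnramifiedOutside T)
    (N : ℕ) (hNT : ∀ q : Nat.Primes, (q : ℕ) ∣ N → q ∈ T)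
    (hgen : ∀ 𝔭 : HeightOneSpectrum (𝓞 F), (N : 𝓞 F) ∉ 𝔭.asIdeal →
      ∃ π : 𝓞 F, π ∈ 𝔭.asIdeal ∧ π ∉ 𝔭.asIdeal ^ 2 ∧
        ∀ 𝔮 : HeightOneSpectrum (𝓞 F), 𝔮 ≠ 𝔭 → (N : 𝓞 F) ∉ 𝔮.asIdeal → π ∉ 𝔮.asIdeal)
    (a : Qbˣ) (haL : (a : Qb) ∈ L)
    (hinv : ∀ h ∈ F.fixingSubgroup, K.IsSUnit T (h • a / a)) :
    ∃ b : Fˣ, K.IsSUnit T (a / toQb F b) := by
  classical
  obtain ⟨M, hM, hMunit⟩ := exists_unit_away a
  choose c hc using exists_local_generator F T L hF hL N hNT hgen a haL hinv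
  have hM0 : Ideal.span {(M : 𝓞 F)} ≠ 0 := by
    rw [Ideal.zero_eq_bot, Ne, Ideal.span_singleton_eq_bot]
    exact_mod_cast hM
  have hfin : {v : HeightOneSpectrum (𝓞 F) | v.asIdeal ∣ Ideal.span {(M : 𝓞 F)}}.Finite :=
    Ideal.finite_factors hM0
  refine ⟨∏ 𝔭 ∈ hfin.toFinset, c 𝔭, ?_⟩
  rw [isSUnit_iff]
  intro A hA
  by_cases hprime : ∃ q : ℕ, q.Prime ∧ A.LiesOverPrime q
  · obtain ⟨q, hq, hAq⟩ := hprime
    have hqT : (⟨q, hq⟩ : Nat.Primes) ∉ T := fun h => hA ⟨q, hq⟩ h hAq
    have hother : ∀ 𝔭 : HeightOneSpectrum (𝓞 F), 𝔭 ≠ placePrime F A hq hAq →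
        toQb F (c 𝔭) ∈ A.unitGroup := by
      intro 𝔭 hne
      refine ((hc 𝔭) A q hq hAq hqT).2 (fun h => hne ?_)
      exact HeightOneSpectrum.ext (by rw [placePrime_asIdeal, h])
    by_cases hB : placePrime F A hq hAq ∈ hfin.toFinset
    · rw [map_prod, ← Finset.mul_prod_erase _ _ hB, ← div_div]
      apply div_mem
      · exact ((hc (placePrime F A hq hAq)) A q hq hAq hqT).1 rfl
      · apply prod_mem
        intro 𝔭 h𝔭
        exact hother 𝔭 (Finset.ne_of_mem_erase h𝔭)
    · have hMA : ¬ q ∣ M := by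
        intro hd
        apply hB
        rw [Set.Finite.mem_toFinset]
        show (placePrime F A hq hAq).asIdeal ∣ Ideal.span {(M : 𝓞 F)}
        rw [Ideal.dvd_span_singleton]
        obtain ⟨k, rfl⟩ := hd
        rw [Nat.cast_mul]
        exact Ideal.mul_mem_right _ _ (H594.natCast_mem_primeBelowF F A hAq)
      have ha : a ∈ A.unitGroup := (mem_unitGroup_iff_mem A a).2 (hMunit A q hq hAq hMA)
      apply div_mem ha
      rw [map_prod]
      apply prod_mem
      intro 𝔭 h𝔭
      exact hother 𝔭 (fun h => hB (h ▸ h𝔭))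
  · push Not at hprime
    rw [mem_unitGroup_iff_mem]
    exact ⟨mem_of_no_prime A (fun q hq => hprime q hq) _,
      mem_of_no_prime A (fun q hq => hprime q hq) _⟩

end Descent

end Fermat.Agent.S56.Euler.H74

end
-- ===== PACK-END S56/Euler/H74/ValDescent.lean

-- ===== PACK-BEGIN S55/PT/AdaptKH835.lean
section



/-!
# S55: adapters layer K (helper4) → layer D (helper835)

* `surj2Glob_of_K : p ≠ 2 → pPrime p ∈ S → K.SurjH2Spec p S → PT.Surj2GlobSpec p S`  (input A3)
* `cap_of_K      : p ≠ 2 → pPrime p ∈ S → K.CapSpec p S → PT.CapSpec p S`            (input A8)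

The second one translates the cochain form of CAP (coefficients `indG U (muP p)`) into the
class form (coefficients `indRep U (mu p)`, `Ш²`, `pushH2 (indLE …)`), via the (non canonical)
equivariant linear isomorphism `μ = ofChar χ_p ≃ muP p`.
-/

set_option autoImplicit false

noncomputable section

namespace Fermat.Agent.S55.PT.AdK

open groupCohomology ExtCitation Fermat.Agent.S55.Bridge Fermat.Agent.S55.PT

variable (p : ℕ) [Fact p.Prime] (S : Finset Nat.Primes)

/-- **A3 adapter.** -/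
theorem surj2Glob_of_K (hp2 : p ≠ 2) (hpS : pPrime p ∈ S) (h : K.SurjH2Spec p S) :
    Surj2GlobSpec p S := by
  intro P N φ hφ hP hPs hNs hsurj
  have hN : FiniteDimensional (ZMod p) N := Module.Finite.of_surjective φ hsurj
  exact h hp2 hpS P N hP hN hPs hNs φ hφ hsurj

/-- the linear isomorphism `μ = 𝔽_p(χ_p) ≃ μ_p` (a choice of a primitive root of unity) -/
def muEquiv : (mu p) ≃ₗ[ZMod p] (muP p) := muPLinearEquiv p

lemma muEquiv_equivariant :
    IsEquivariant (A := mu p) (B := muP p) (muEquiv p : mu p →ₗ[ZMod p] muP p) := by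
  intro g a
  exact LinearMap.congr_fun ((muPRepEquivOfChar p).isIntertwining' g) a

lemma muEquiv_symm_equivariant :
    IsEquivariant (A := muP p) (B := mu p) ((muEquiv p).symm : muP p →ₗ[ZMod p] mu p) := by
  intro g a
  apply (muEquiv p).injective
  have h := muEquiv_equivariant p g ((muEquiv p).symm a)
  simp only [LinearEquiv.coe_coe, LinearEquiv.apply_symm_apply] at h ⊢
  exact h.symm

variable {p}

/-- `Ind_U μ → Ind_U μ_p` (on the underlying `Finsupp`s) -/
def indMuE (U : Subgroup _root_.Fermat.Agent.S55.PT.GQ) : ((_root_.Fermat.Agent.S55.PT.GQ ⧸ U) →₀ mu p) →ₗ[ZMod p] ((_root_.Fermat.Agent.S55.PT.GQ ⧸ U) →₀ muP p) :=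
  Finsupp.mapRange.linearMap (muEquiv p : mu p →ₗ[ZMod p] muP p)

/-- `Ind_U μ_p → Ind_U μ` (on the underlying `Finsupp`s) -/
def indMuEInv (U : Subgroup _root_.Fermat.Agent.S55.PT.GQ) : ((_root_.Fermat.Agent.S55.PT.GQ ⧸ U) →₀ muP p) →ₗ[ZMod p] ((_root_.Fermat.Agent.S55.PT.GQ ⧸ U) →₀ mu p) :=
  Finsupp.mapRange.linearMap ((muEquiv p).symm : muP p →ₗ[ZMod p] mu p)

lemma indMuE_single (U : Subgroup _root_.Fermat.Agent.S55.PT.GQ) (x : _root_.Fermat.Agent.S55.PT.GQ ⧸ U) (m : mu p) :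
    indMuE U (Finsupp.single x m) = Finsupp.single x (muEquiv p m) := by
  rw [indMuE, Finsupp.mapRange.linearMap_apply, Finsupp.mapRange_single]
  rfl

lemma indMuEInv_single (U : Subgroup _root_.Fermat.Agent.S55.PT.GQ) (x : _root_.Fermat.Agent.S55.PT.GQ ⧸ U) (m : muP p) :
    indMuEInv U (Finsupp.single x m) = Finsupp.single x ((muEquiv p).symm m) := by
  rw [indMuEInv, Finsupp.mapRange.linearMap_apply, Finsupp.mapRange_single]
  rfl

lemma indMuE_comm (U : Subgroup _root_.Fermat.Agent.S55.PT.GQ) (g : _root_.Fermat.Agent.S55.PT.GQ) :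
    (indMuE U) ∘ₗ (indRho U (mu p) g) =
      (K.indρ (MonoidHom.id _root_.Fermat.Agent.S55.PT.GQ) U (muP p) g) ∘ₗ (indMuE (p := p) U) := by
  apply Finsupp.lhom_ext
  intro x m
  rw [LinearMap.comp_apply, LinearMap.comp_apply, indMuE_single, K.indρ_single]
  have h1 : indRho U (mu p) g (Finsupp.single x m) = Finsupp.single (g • x) ((mu p).ρ g m) :=
    indRep_ρ_single U (mu p) g x m
  rw [h1, indMuE_single]
  congr 1
  exact muEquiv_equivariant p g m

lemma indMuEInv_comm (U : Subgroup _root_.Fermat.Agent.S55.PT.GQ) (g : _root_.Fermat.Agent.S55.PT.GQ) :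
    (indMuEInv U) ∘ₗ (K.indρ (MonoidHom.id _root_.Fermat.Agent.S55.PT.GQ) U (muP p) g) =
      (indRho U (mu p) g) ∘ₗ (indMuEInv (p := p) U) := by
  apply Finsupp.lhom_ext
  intro x m
  rw [LinearMap.comp_apply, LinearMap.comp_apply, indMuEInv_single, K.indρ_single,
    indMuEInv_single]
  have h1 : indRho U (mu p) g (Finsupp.single x ((muEquiv p).symm m)) =
      Finsupp.single (g • x) ((mu p).ρ g ((muEquiv p).symm m)) :=
    indRep_ρ_single U (mu p) g x _
  rw [h1]
  congr 1
  exact muEquiv_symm_equivariant p g m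

lemma indMuE_equivariant (U : Subgroup _root_.Fermat.Agent.S55.PT.GQ) :
    IsEquivariant (A := indRep U (mu p)) (B := K.indG U (muP p)) (indMuE U) :=
  fun g a => LinearMap.congr_fun (indMuE_comm U g) a

lemma indMuEInv_equivariant (U : Subgroup _root_.Fermat.Agent.S55.PT.GQ) :
    IsEquivariant (A := K.indG U (muP p)) (B := indRep U (mu p)) (indMuEInv U) :=
  fun g a => LinearMap.congr_fun (indMuEInv_comm U g) a

/-- `K.indProj` on the underlying `Finsupp`s -/
lemma indProj_single835 {U V : Subgroup _root_.Fermat.Agent.S55.PT.GQ} (h : U ≤ V) (x : _root_.Fermat.Agent.S55.PT.GQ ⧸ U) (m : muP p) :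
    K.indProj (MonoidHom.id _root_.Fermat.Agent.S55.PT.GQ) h (muP p) (Finsupp.single x m : (_root_.Fermat.Agent.S55.PT.GQ ⧸ U) →₀ muP p) =
      (Finsupp.single (Subgroup.quotientMapOfLE h x) m : (_root_.Fermat.Agent.S55.PT.GQ ⧸ V) →₀ muP p) := by
  change Finsupp.lmapDomain _ _ _ (Finsupp.single x m) = _
  rw [Finsupp.lmapDomain_apply, Finsupp.mapDomain_single]
  rfl

lemma indMuEInv_indProj_indMuE {U V : Subgroup _root_.Fermat.Agent.S55.PT.GQ} (h : U ≤ V) :
    (indMuEInv V) ∘ₗ ((show ((_root_.Fermat.Agent.S55.PT.GQ ⧸ U) →₀ muP p) →ₗ[ZMod p] ((_root_.Fermat.Agent.S55.PT.GQ ⧸ V) →₀ muP p) from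
      K.indProj (MonoidHom.id _root_.Fermat.Agent.S55.PT.GQ) h (muP p)) ∘ₗ (indMuE (p := p) U)) = indLE (mu p) h := by
  apply Finsupp.lhom_ext
  intro x m
  rw [LinearMap.comp_apply, LinearMap.comp_apply, indMuE_single, indLE_single]
  have h1 := indProj_single835 h x (muEquiv p m)
  erw [h1]
  rw [indMuEInv_single, LinearEquiv.symm_apply_apply]

variable (p)

/-- **A8 adapter.** -/
theorem cap_of_K (hp2 : p ≠ 2) (hpS : pPrime p ∈ S) (hK : K.CapSpec p S) : CapSpec p S := by
  intro V hV _ _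
  obtain ⟨U, hU, hUV, hUn, hcap⟩ := hK hp2 hpS V hV
  refine ⟨U, hUV, hU, hUn, fun x hx => ?_⟩
  obtain ⟨z, rfl⟩ := (globalLevels S).H2π_surjective _ x
  rw [pushH2_mk, LevelSys.H2π_eq_zero_iff, coe_pushZ2]
  -- the cocycle with coefficients in `Ind_U μ_p`
  have hz' : (indMuE U ∘ (z : _root_.Fermat.Agent.S55.PT.GQ × _root_.Fermat.Agent.S55.PT.GQ → indRep U (mu p))) ∈
      (globalLevels S).Z2 (K.indG U (muP p)) :=
    push_mem_Z2 (A := indRep U (mu p)) (B := K.indG U (muP p)) (indMuE U)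
      (indMuE_equivariant U) (globalLevels S) z.2
  -- local triviality
  have hloc : ∀ q ∈ S, ((indMuE U ∘ (z : _root_.Fermat.Agent.S55.PT.GQ × _root_.Fermat.Agent.S55.PT.GQ → indRep U (mu p))) ∘ Prod.map (rl q) (rl q) :
      Gl q × Gl q → K.indG U (muP p)) ∈
        (localLevels q).B2 (Rep.res (rl q) (K.indG U (muP p))) := by
    intro q hq
    have h1 : resH2 (hrl S ⟨q, hq⟩) (indRep U (mu p)) ((globalLevels S).H2π _ z) = 0 := by
      have := LinearMap.mem_ker.1 hx
      exact congrFun this ⟨q, hq⟩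
    rw [resH2_mk, LevelSys.H2π_eq_zero_iff, coe_resZ2] at h1
    exact push_mem_B2 (A := Rep.res (rl q) (indRep U (mu p)))
      (B := Rep.res (rl q) (K.indG U (muP p))) (indMuE U)
      ((indMuE_equivariant U).res (rl q)) (localLevels q) h1
  have h2 := hcap _ hz' hloc
  have h3 := push_mem_B2 (A := K.indG V (muP p)) (B := indRep V (mu p)) (indMuEInv V)
    (indMuEInv_equivariant V) (globalLevels S) h2
  convert h3 using 1
  funext y
  exact (LinearMap.congr_fun (indMuEInv_indProj_indMuE hUV) _).symm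

end Fermat.Agent.S55.PT.AdK

end

end
-- ===== PACK-END S55/PT/AdaptKH835.lean

-- ===== PACK-BEGIN S55/KC/Defs.lean
section


/-!
# S55 / layer KC (cochain-level Kummer machine; local A6/A4 and library for layer K): vocabulary          (architect: helper53)

Blueprint: `coord/S55-KC.md` (branch `origin/helper53`).

Layer KC produces the LOCAL inputs of layer D (`PT/Spec.lean`):
`FinLocSpec` (A2), `Surj2LocSpec` (A4) and, for ANY family `inv` of bijective maps, `TopLocIndSpec inv`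
(A6), from the finite-level local class field theory of layer L (class module, Hilbert 90) and the
finite-group toolkit of layer T (Shapiro, Tate `H³ = 0`).

Everything is phrased for an abstract group `G` with a level system `L : PT.LevelSys G`
(think `G = G_{ℚ_q}`, levels = open subgroups) and a `ℤ`-representation `B` of `G`
(think `B = ℚ̄_qˣ`, or `B = Ind_H ℚ̄_qˣ`), the "Kummer module".

* degree-3 level-constant cochains: `IsLC₃`, `IsCocycle₃`, `H3Vanish`  (`H³_lc(G, A) = 0`);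
* `H1Vanish` (`H¹_lc(G, A) = 0`);
* `IsKummerEmb p M B ι` : `ι : M → B` identifies the `F_p`-representation `M` with `B[p]`;
* `indR H B = (G ⧸ H →₀ B)` : induced module with diagonal action, over any commutative ring
  (`PT.indRep` is the same definition, but only over fields);
* `IsClassFormation L A` : finite-level class module property of `A` along the normal levels
  (Mathlib's `groupCohomology` of the finite quotients `G ⧸ V` acting on `A^V`);
* `IsWCF L B V₀ n` : "weak class formation below `V₀`": `H¹ = 0`, `H² ≅ ℤ/n(V)`, `H³ = 0` at the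
  normal levels `V ≤ V₀`;
* `PFrattiniFinite L p` : every open subgroup has only finitely many open subgroups of index `p`;
* `unitsA q` : `ℚ̄_qˣ` as a representation of the Prelude's local Galois group `Gl q`.
-/

set_option autoImplicit false

noncomputable section

namespace Fermat.Agent.S55.KC

open groupCohomology ExtCitation Fermat.Agent.S55.PT

variable {G : Type} [Group G] {k : Type} [CommRing k]

/-! ## 1. Open subgroups; level-constant cochains in degree 3 -/

/-- `H` contains a level ("`H` is open"). -/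
def IsOpenSub (L : LevelSys G) (H : Subgroup G) : Prop := ∃ U ∈ L.levels, U ≤ H

/-- Level-constant 3-cochains. -/
def IsLC₃ (L : LevelSys G) {X : Type*} (f : G × G × G → X) : Prop :=
  ∃ U ∈ L.levels, ∀ g₁ g₂ g₃ s₁ s₂ s₃ : G, s₁ ∈ U → s₂ ∈ U → s₃ ∈ U →
    f (g₁ * s₁, g₂ * s₂, g₃ * s₃) = f (g₁, g₂, g₃)

/-- The inhomogeneous 3-cocycle condition `d₃₄ f = 0`. -/
def IsCocycle₃ (A : Rep.{0, 0, 0} k G) (f : G × G × G → A) : Prop :=
  ∀ g h i j : G,
    A.ρ g (f (h, i, j)) - f (g * h, i, j) + f (g, h * i, j) - f (g, h, i * j) + f (g, h, i) = 0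

/-- `H¹_lc(G, A) = 0`: every level-constant 1-cocycle is a coboundary. -/
def H1Vanish (L : LevelSys G) (A : Rep.{0, 0, 0} k G) : Prop :=
  ∀ f : G → A, f ∈ cocycles₁ A → L.IsLC₁ f → ∃ a : A, (d₀₁ A).hom a = f

/-- `H³_lc(G, A) = 0`: every level-constant 3-cocycle is `d` of a level-constant 2-cochain. -/
def H3Vanish (L : LevelSys G) (A : Rep.{0, 0, 0} k G) : Prop :=
  ∀ z : G × G × G → A, IsLC₃ L z → IsCocycle₃ A z →
    ∃ b : G × G → A, L.IsLC₂ b ∧ (d₂₃ A).hom b = z

/-- `H²_lc(G, A)` is `p`-divisible (cochain form). -/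
def H2Divisible (L : LevelSys G) (p : ℕ) (A : Rep.{0, 0, 0} k G) : Prop :=
  ∀ a : G × G → A, a ∈ L.Z2 A → ∃ a' : G × G → A, a' ∈ L.Z2 A ∧ a - p • a' ∈ L.B2 A

/-! ## 2. Cochains inflated from a fixed normal subgroup `V` ("finite level `V`") -/

/-- 1-cochains inflated from `(G ⧸ V, A^V)`. -/
def IsAt₁ (V : Subgroup G) (A : Rep.{0, 0, 0} k G) (x : G → A) : Prop :=
  ∀ g s : G, s ∈ V → x (g * s) = x g ∧ A.ρ s (x g) = x g

/-- 2-cochains inflated from `(G ⧸ V, A^V)`. -/
def IsAt₂ (V : Subgroup G) (A : Rep.{0, 0, 0} k G) (f : G × G → A) : Prop :=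
  ∀ g h s t : G, s ∈ V → t ∈ V → f (g * s, h * t) = f (g, h) ∧ A.ρ s (f (g, h)) = f (g, h)

/-- 3-cochains inflated from `(G ⧸ V, A^V)`. -/
def IsAt₃ (V : Subgroup G) (A : Rep.{0, 0, 0} k G) (f : G × G × G → A) : Prop :=
  ∀ g h i s t u : G, s ∈ V → t ∈ V → u ∈ V →
    f (g * s, h * t, i * u) = f (g, h, i) ∧ A.ρ s (f (g, h, i)) = f (g, h, i)

/-- `H¹(G ⧸ V, A^V) = 0`, cochain form. -/
def H1VanishAt (V : Subgroup G) (A : Rep.{0, 0, 0} k G) : Prop :=
  ∀ f : G → A, f ∈ cocycles₁ A → IsAt₁ V A f →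
    ∃ a : A, (∀ s ∈ V, A.ρ s a = a) ∧ (d₀₁ A).hom a = f

/-- `[f] = 0` in `H²(G ⧸ V, A^V)`, cochain form. -/
def IsCobAt₂ (V : Subgroup G) (A : Rep.{0, 0, 0} k G) (f : G × G → A) : Prop :=
  ∃ x : G → A, IsAt₁ V A x ∧ (d₁₂ A).hom x = f

/-- `H³(G ⧸ V, A^V) = 0`, cochain form. -/
def H3VanishAt (V : Subgroup G) (A : Rep.{0, 0, 0} k G) : Prop :=
  ∀ z : G × G × G → A, IsAt₃ V A z → IsCocycle₃ A z →
    ∃ b : G × G → A, IsAt₂ V A b ∧ (d₂₃ A).hom b = z

/-- 2-cocycles inflated from `(G ⧸ V, A^V)`. -/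
def Z2At (V : Subgroup G) (A : Rep.{0, 0, 0} k G) : AddSubgroup (G × G → A) where
  carrier := {f | f ∈ cocycles₂ A ∧ IsAt₂ V A f}
  add_mem' := by
    rintro f f' ⟨hf, hf2⟩ ⟨hf', hf2'⟩
    refine ⟨(cocycles₂ A).add_mem hf hf', fun g h s t hs ht => ⟨?_, ?_⟩⟩
    · simp only [Pi.add_apply, (hf2 g h s t hs ht).1, (hf2' g h s t hs ht).1]
    · simp only [Pi.add_apply, map_add, (hf2 g h s t hs ht).2, (hf2' g h s t hs ht).2]
  zero_mem' := ⟨(cocycles₂ A).zero_mem, fun g h s t _ _ => ⟨rfl, by simp⟩⟩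
  neg_mem' := by
    rintro f ⟨hf, hf2⟩
    refine ⟨(cocycles₂ A).neg_mem hf, fun g h s t hs ht => ⟨?_, ?_⟩⟩
    · simp only [Pi.neg_apply, (hf2 g h s t hs ht).1]
    · simp only [Pi.neg_apply, map_neg, (hf2 g h s t hs ht).2]

/-- 2-coboundaries at level `V`: `d` of a 1-cochain inflated from `(G ⧸ V, A^V)`. -/
def B2At (V : Subgroup G) (A : Rep.{0, 0, 0} k G) : AddSubgroup (G × G → A) where
  carrier := {f | IsCobAt₂ V A f}
  add_mem' := by
    rintro f f' ⟨x, hx, rfl⟩ ⟨x', hx', rfl⟩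
    refine ⟨x + x', fun g s hs => ⟨?_, ?_⟩, map_add _ _ _⟩
    · simp only [Pi.add_apply, (hx g s hs).1, (hx' g s hs).1]
    · simp only [Pi.add_apply, map_add, (hx g s hs).2, (hx' g s hs).2]
  zero_mem' := ⟨0, fun g s _ => ⟨rfl, by simp⟩, map_zero _⟩
  neg_mem' := by
    rintro f ⟨x, hx, rfl⟩
    refine ⟨-x, fun g s hs => ⟨?_, ?_⟩, map_neg _ _⟩
    · simp only [Pi.neg_apply, (hx g s hs).1]
    · simp only [Pi.neg_apply, map_neg, (hx g s hs).2]

/-- `H²(G ⧸ V, A^V)` in cochain form: cocycles inflated from level `V` modulo coboundaries at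
level `V`. -/
abbrev H2At (V : Subgroup G) (A : Rep.{0, 0, 0} k G) : Type :=
  ↥(Z2At V A) ⧸ (B2At V A).addSubgroupOf (Z2At V A)

/-! ## 3. Kummer embeddings -/

/-- `B` is `p`-divisible. -/
def IsPDivisible (p : ℕ) (B : Type) [AddCommGroup B] : Prop := ∀ b : B, ∃ c : B, p • c = b

/-- `ι : M → B` is an injective equivariant additive map with image `B[p]`
(`M = μ_p`, `B = ℚ̄ˣ`). -/
structure IsKummerEmb (p : ℕ) [Fact p.Prime] (M : Rep.{0, 0, 0} (ZMod p) G)
    (B : Rep.{0, 0, 0} ℤ G) (ι : M →+ B) : Prop where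
  injective : Function.Injective ι
  equivariant : ∀ (g : G) (m : M), ι (M.ρ g m) = B.ρ g (ι m)
  range_eq : ∀ b : B, p • b = 0 ↔ b ∈ Set.range ι

/-! ## 4. Induced modules over an arbitrary commutative ring -/

section Ind

variable (H : Subgroup G) (B : Rep.{0, 0, 0} k G)

/-- the action of `g` on `G ⧸ H →₀ B`: `single x b ↦ single (g • x) (g • b)` -/
def indActR (g : G) : ((G ⧸ H) →₀ B) →ₗ[k] ((G ⧸ H) →₀ B) :=
  (Finsupp.lmapDomain B k (fun x : G ⧸ H => g • x)) ∘ₗ (Finsupp.mapRange.linearMap (B.ρ g))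

@[simp] lemma indActR_single (g : G) (x : G ⧸ H) (b : B) :
    indActR H B g (Finsupp.single x b) = Finsupp.single (g • x) (B.ρ g b) := by
  rw [indActR, LinearMap.comp_apply, Finsupp.mapRange.linearMap_apply, Finsupp.mapRange_single,
    Finsupp.lmapDomain_apply, Finsupp.mapDomain_single]

/-- the diagonal representation on `G ⧸ H →₀ B` -/
def indRhoR : Representation k G ((G ⧸ H) →₀ B) where
  toFun := indActR H B
  map_one' := by
    apply Finsupp.lhom_ext
    intro x m
    simp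
  map_mul' g h := by
    apply Finsupp.lhom_ext
    intro x m
    simp [mul_smul]

/-- `Ind_H B = (G ⧸ H →₀ B)` with the diagonal action (any commutative ring `k`). -/
abbrev indR : Rep.{0, 0, 0} k G := Rep.of (indRhoR H B)

lemma indR_ρ_single (g : G) (x : G ⧸ H) (b : B) :
    (indR H B).ρ g (Finsupp.single x b : (G ⧸ H) →₀ B) =
      (Finsupp.single (g • x) (B.ρ g b) : (G ⧸ H) →₀ B) :=
  indActR_single H B g x b

end Ind

/-- The additive map `Ind_H M → Ind_H B` induced by `ι : M → B`. -/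
def indEmb (p : ℕ) [Fact p.Prime] (H : Subgroup G) (M : Rep.{0, 0, 0} (ZMod p) G)
    (B : Rep.{0, 0, 0} ℤ G) (ι : M →+ B) : indRep H M →+ indR H B :=
  Finsupp.mapRange.addMonoidHom ι

/-! ## 5. Class formations at finite level (Mathlib's `groupCohomology` of `G ⧸ V`) -/

/-- `(G, L, A)` is a class formation: for every normal level `V` and every subgroup `H'` of the
finite group `G ⧸ V`:  `H¹(H', A^V) = 0` and `H²(H', A^V) ≅ ℤ/|H'|`.
(For `G = G_{ℚ_q}`, `A = ℚ̄_qˣ`: `G ⧸ V = Gal(E/ℚ_q)`, `A^V = Eˣ`; this is `L.ClassModuleSpec`.) -/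
def IsClassFormation (L : LevelSys G) (A : Rep.{0, 0, 0} ℤ G) : Prop :=
  ∀ (V : Subgroup G) [V.Normal], V ∈ L.levels → ∀ H' : Subgroup (G ⧸ V),
    Subsingleton (H1 (Rep.res H'.subtype (A.quotientToInvariants V))) ∧
      Nonempty (H2 (Rep.res H'.subtype (A.quotientToInvariants V)) ≃+ ZMod (Nat.card H'))

/-- `(G, L, B)` is a weak class formation below the level `V₀`, with orders `n`:
at every normal level `V ≤ V₀`:  `H¹(G ⧸ V, B^V) = 0`, `H²(G ⧸ V, B^V) ≅ ℤ/n(V)`, `n(V) > 0`,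
`H³(G ⧸ V, B^V) = 0`; and `H¹(V ⧸ V', B^{V'}) = 0` for normal levels `V' ≤ V ≤ V₀`
(so that inflation `H²(G ⧸ V, B^V) → H²(G ⧸ V', B^{V'})` is injective). -/
structure IsWCF (L : LevelSys G) (B : Rep.{0, 0, 0} ℤ G) (V₀ : Subgroup G)
    (n : Subgroup G → ℕ) : Prop where
  h1 : ∀ (V : Subgroup G) [V.Normal], V ∈ L.levels → V ≤ V₀ →
    Subsingleton (H1 (B.quotientToInvariants V))
  h1rel : ∀ (V' : Subgroup G) [V'.Normal] (V : Subgroup G) [V.Normal], V' ∈ L.levels →
    V ∈ L.levels → V' ≤ V → V ≤ V₀ →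
    Subsingleton (H1 (Rep.res (V.map (QuotientGroup.mk' V')).subtype
      (B.quotientToInvariants V')))
  h2 : ∀ (V : Subgroup G) [V.Normal], V ∈ L.levels → V ≤ V₀ →
    Nonempty (H2 (B.quotientToInvariants V) ≃+ ZMod (n V))
  npos : ∀ (V : Subgroup G) [V.Normal], V ∈ L.levels → V ≤ V₀ → 0 < n V
  h3 : ∀ (V : Subgroup G) [V.Normal], V ∈ L.levels → V ≤ V₀ →
    Subsingleton (groupCohomology (B.quotientToInvariants V) 3)

/-- The `p`-parts of the orders `n(V)`, `V ≤ V₀` normal level, are unbounded. -/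
def PUnbounded (L : LevelSys G) (p : ℕ) (V₀ : Subgroup G) (n : Subgroup G → ℕ) : Prop :=
  ∀ m : ℕ, ∃ V : Subgroup G, V ∈ L.levels ∧ V.Normal ∧ V ≤ V₀ ∧ p ^ m ∣ n V

/-! ## 6. Finiteness of the `p`-Frattini quotients -/

/-- For every level `U` there is a level `V ≤ U` killed by every level-constant function
`χ : G → F_p` which is additive on `U`
("`U` has only finitely many open subgroups of index `p`"). -/
def PFrattiniFinite (L : LevelSys G) (p : ℕ) : Prop :=
  ∀ U ∈ L.levels, ∃ V ∈ L.levels, V ≤ U ∧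
    ∀ χ : G → ZMod p, (∀ s t : G, s ∈ U → t ∈ U → χ (s * t) = χ s + χ t) → L.IsLC₁ χ →
      ∀ s ∈ V, χ s = 0

/-! ## 7. The arithmetic instance -/

/-- `ℚ̄_qˣ` (written additively) as a representation of the Prelude's local Galois group. -/
def unitsA (q : Nat.Primes) : Rep.{0, 0, 0} ℤ (Gl q) :=
  letI : Fact (q : ℕ).Prime := ⟨q.2⟩
  (Rep.ofAlgebraAutOnUnits ℚ_[(q : ℕ)] (PadicAlgCl (q : ℕ)) :
    Rep ℤ (PadicAlgCl (q : ℕ) ≃ₐ[ℚ_[(q : ℕ)]] PadicAlgCl (q : ℕ)))

end Fermat.Agent.S55.KC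

end

end
-- ===== PACK-END S55/KC/Defs.lean

-- ===== PACK-BEGIN S55/Inv/GO4/Defs.lean
section



/-!
# S55 / `InvSpec` / GO4 (cokernel of the localisation map): DICTIONARY, definitions
(sub-architect helper3; blueprint `coord/S55-INV-GO4.md`)

The arithmetic core of `Inv.GlobCokerSpec` is `Inv.CokerESpec p S` (`Inv/SpecK.lean`; adapter
`Inv.H99.globCoker_of_cokerE`), a statement about level-constant cochains of `G_ℚ` with values in
`Ind_U 𝔼` and of the local groups `G_q` with values in `Ind_U ℚ̄_qˣ`.  Its tower form is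
`K.AR.CokerTower S p` (helper4, `K/AR/Spec.lean`).  The DICTIONARY between the two is organised
here.  Finite-level vocabulary, on the canonical tower `Tow.Level S` with the level objects of
`E1/Lim/Obj.lean`  (`K₀ ≤ L` levels, `Q = Gal(K₀/ℚ)`):

* `dInd φ A`          : `(Q →₀ A)` with the diagonal action of `Γ` (through `φ : Γ →* Q` on `Q`);
* `indF h X`          : `(Q →₀ X)`, `X` a `Gal(L/ℚ)`-module `= Ind_{Gal(L/K₀)}^{Gal(L/ℚ)} X`;
* `semiLoc h q`       : `(Q →₀ L_qˣ)` as a module over the decomposition group `Dec_q(L)`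
                        (`= ⊕_{w | q} Ind_{Gal(L_q/K₀,q)}^{Dec_q(L)} L_qˣ`);
* `locF h q`          : `Res_{Dec_q(L)} indF h E_S(L) ⟶ semiLoc h q`   (coefficientwise `E(L) → L_qˣ`);
* `semiLocTr h h' q`  : transition `semiLoc h q → semiLoc (h.trans h') q` along `Dec_q(L') → Dec_q(L)`;
* `locH2`, `inflLoc`  : the maps induced on `H²` (Mathlib `groupCohomology` of FINITE groups);
* `locM h q τ`        : the level-constant 2-cochain of `G_q` with values in
                        `K.ind (rl q) K₀.U ℚ̄_qˣ` defined by a 2-cochain `τ` of `Dec_q(L)` with values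
                        in `semiLoc h q` (inflation along `G_q → Dec_q(L)` + `L_qˣ ⊂ ℚ̄_qˣ`).
-/

set_option autoImplicit false
set_option linter.unusedSectionVars false

noncomputable section

namespace Fermat.Agent.S55.Inv.GO4

open Fermat.Agent.S55 Fermat.Agent.S55.Tow Fermat.Agent.S55.E1.Lim groupCohomology CategoryTheory

variable {S : Finset Nat.Primes}

/-! ## 1. Finite-level induced modules -/

section Gen

variable {k : Type} [CommRing k] {Γ Q : Type} [Group Γ] [Group Q]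

/-- the diagonal action of `g ∈ Γ` on `(Q →₀ A)`, `Γ` acting on `Q` through `φ : Γ →* Q` by left
translation -/
def dAct (φ : Γ →* Q) (A : Rep.{0, 0, 0} k Γ) (g : Γ) : (Q →₀ A) →ₗ[k] (Q →₀ A) :=
  (Finsupp.lmapDomain A k (fun x : Q => φ g * x)).comp (Finsupp.mapRange.linearMap (A.ρ g))

@[simp] lemma dAct_single (φ : Γ →* Q) (A : Rep.{0, 0, 0} k Γ) (g : Γ) (x : Q) (a : A) :
    dAct φ A g (Finsupp.single x a) = Finsupp.single (φ g * x) (A.ρ g a) := by
  simp [dAct]

/-- the diagonal representation of `Γ` on `(Q →₀ A)` -/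
def dRho (φ : Γ →* Q) (A : Rep.{0, 0, 0} k Γ) : Representation k Γ (Q →₀ A) where
  toFun := dAct φ A
  map_one' := by
    ext x a : 2
    simp
  map_mul' g g' := by
    ext x a : 2
    simp [mul_assoc]

/-- `(Q →₀ A)` with the diagonal action of `Γ` (`Γ` acts on `Q` through `φ`). -/
def dInd (φ : Γ →* Q) (A : Rep.{0, 0, 0} k Γ) : Rep.{0, 0, 0} k Γ := Rep.of (dRho φ A)

lemma dInd_ρ_single (φ : Γ →* Q) (A : Rep.{0, 0, 0} k Γ) (g : Γ) (x : Q) (a : A) :
    (dInd φ A).ρ g (Finsupp.single x a : Q →₀ A) = (Finsupp.single (φ g * x) (A.ρ g a) : Q →₀ A) :=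
  dAct_single φ A g x a

/-- functoriality of `dInd` in the coefficients -/
def dIndMap (φ : Γ →* Q) {A B : Rep.{0, 0, 0} k Γ} (f : A ⟶ B) : dInd φ A ⟶ dInd φ B :=
  Rep.ofHom ⟨(Finsupp.mapRange.linearMap f.hom.toLinearMap : (Q →₀ A) →ₗ[k] (Q →₀ B)),
    fun g => by
      apply Finsupp.lhom_ext
      intro x a
      show Finsupp.mapRange.linearMap f.hom.toLinearMap (dAct φ A g (Finsupp.single x a)) =
        dAct φ B g (Finsupp.mapRange.linearMap f.hom.toLinearMap (Finsupp.single x a))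
      rw [dAct_single, Finsupp.mapRange.linearMap_apply, Finsupp.mapRange_single,
        Finsupp.mapRange.linearMap_apply, Finsupp.mapRange_single, dAct_single]
      congr 1
      exact Rep.hom_comm_apply f g a⟩

/-- transition maps of `dInd`: `π : Γ' →* Γ`, `t : Res_π A ⟶ A'`, coefficientwise `t`;
`φ'` is any homomorphism equal to `φ ∘ π`. -/
def dIndTr {Γ' : Type} [Group Γ'] (φ : Γ →* Q) (π : Γ' →* Γ) (φ' : Γ' →* Q)
    (hφ : ∀ g, φ (π g) = φ' g) {A : Rep.{0, 0, 0} k Γ}
    {A' : Rep.{0, 0, 0} k Γ'} (t : Rep.res π A ⟶ A') :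
    Rep.res π (dInd φ A) ⟶ dInd φ' A' :=
  Rep.ofHom ⟨(Finsupp.mapRange.linearMap t.hom.toLinearMap : (Q →₀ A) →ₗ[k] (Q →₀ A')),
    fun g => by
      apply Finsupp.lhom_ext
      intro x a
      show Finsupp.mapRange.linearMap t.hom.toLinearMap (dAct φ A (π g) (Finsupp.single x a)) =
        dAct φ' A' g (Finsupp.mapRange.linearMap t.hom.toLinearMap (Finsupp.single x a))
      rw [dAct_single, Finsupp.mapRange.linearMap_apply, Finsupp.mapRange_single,
        Finsupp.mapRange.linearMap_apply, Finsupp.mapRange_single, dAct_single, hφ]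
      congr 1
      exact Rep.hom_comm_apply t g a⟩

lemma dIndTr_single {Γ' : Type} [Group Γ'] (φ : Γ →* Q) (π : Γ' →* Γ) (φ' : Γ' →* Q)
    (hφ : ∀ g, φ (π g) = φ' g) {A : Rep.{0, 0, 0} k Γ}
    {A' : Rep.{0, 0, 0} k Γ'} (t : Rep.res π A ⟶ A') (x : Q) (a : A) :
    (dIndTr φ π φ' hφ t).hom (Finsupp.single x a : Q →₀ A) =
      (Finsupp.single x (t.hom a) : Q →₀ A') :=
  Finsupp.mapRange_single (hf := map_zero _)

lemma dIndTr_apply {Γ' : Type} [Group Γ'] (φ : Γ →* Q) (π : Γ' →* Γ) (φ' : Γ' →* Q)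
    (hφ : ∀ g, φ (π g) = φ' g) {A : Rep.{0, 0, 0} k Γ}
    {A' : Rep.{0, 0, 0} k Γ'} (t : Rep.res π A ⟶ A') (f : Q →₀ A) (x : Q) :
    (show Q →₀ A' from (dIndTr φ π φ' hφ t).hom f) x = t.hom (f x) := rfl

end Gen

section IndF

variable {K₀ L : Level S} (h : K₀ ≤ L)

/-- `Ind_{Gal(L/K₀)}^{Gal(L/ℚ)} X = (Gal(K₀/ℚ) →₀ X)` with the diagonal action. -/
abbrev indF (X : Rep.{0} ℤ L.Gal) : Rep.{0} ℤ L.Gal := dInd (Level.proj h) X

/-- functoriality of `indF` in the coefficients -/
abbrev indFMap {X Y : Rep.{0} ℤ L.Gal} (f : X ⟶ Y) : indF h X ⟶ indF h Y :=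
  dIndMap (Level.proj h) f

lemma proj_comp {L' : Level S} (h' : L ≤ L') :
    (Level.proj h).comp (Level.proj h') = Level.proj (h.trans h') := by
  ext g
  rfl

end IndF

/-! ## 2. The semi-local modules at finite level -/

section SemiLoc

variable {K₀ L : Level S} (h : K₀ ≤ L) (q : Nat.Primes)

/-- `Dec_q(L) → Gal(L/ℚ) → Gal(K₀/ℚ)`. -/
abbrev decTo : L.Dec q →* K₀.Gal := (Level.proj h).comp (L.decHom q)

/-- The semi-local module `(Gal(K₀/ℚ) →₀ L_qˣ)` over the decomposition group `Dec_q(L)`. -/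
abbrev semiLoc : Rep.{0} ℤ (L.Dec q) := dInd (decTo h q) (L.locUnits q)

/-- `E_S(L) → L_qˣ`, semilinear along `Dec_q(L) → Gal(L/ℚ)`. -/
def sEmb (L : Level S) (q : Nat.Primes) : Rep.res (L.decHom q) (sUnits L) ⟶ L.locUnits q :=
  semiOfAdd (L.decHom q) (A := sUnits L) (B := L.locUnits q)
    { toFun := fun e => L.embFun q ((sIncl L).hom e)
      map_zero' := by rw [map_zero, map_zero]
      map_add' := fun x y => by rw [map_add, map_add] }
    (fun d e => by
      show L.embFun q ((sIncl L).hom ((sUnits L).ρ (L.decHom q d) e)) =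
        (L.locUnits q).ρ d (L.embFun q ((sIncl L).hom e))
      rw [Rep.hom_comm_apply (sIncl L)]
      exact Rep.hom_comm_apply (L.emb q) d ((sIncl L).hom e))

@[simp] lemma sEmb_apply (L : Level S) (q : Nat.Primes) (e : (sUnits L).V) :
    (sEmb L q).hom e = L.embFun q ((sIncl L).hom e) := rfl

/-- localisation at `q`, finite level, coefficients: `Res_{Dec_q} Ind E_S(L) ⟶ (Q →₀ L_qˣ)`. -/
def locF : Rep.res (L.decHom q) (indF h (sUnits L)) ⟶ semiLoc h q :=
  dIndTr (Level.proj h) (L.decHom q) (decTo h q) (fun _ => rfl) (sEmb L q)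

lemma locF_single (x : K₀.Gal) (e : (sUnits L).V) :
    (locF h q).hom (Finsupp.single x e : K₀.Gal →₀ (sUnits L).V) =
      (Finsupp.single x (L.embFun q ((sIncl L).hom e)) : K₀.Gal →₀ (L.locUnits q).V) :=
  dIndTr_single _ _ _ _ _ x e

lemma proj_proj {L' : Level S} (h' : L ≤ L') (g : L'.Gal) :
    Level.proj h (Level.proj h' g) = Level.proj (h.trans h') g := by
  induction g using QuotientGroup.induction_on with
  | H g => rfl

lemma decTo_projDec {L' : Level S} (h' : L ≤ L') (d : L'.Dec q) :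
    decTo h q (Level.projDec h' q d) = decTo (h.trans h') q d := by
  show Level.proj h (L.decHom q (Level.projDec h' q d)) =
    Level.proj (h.trans h') (L'.decHom q d)
  rw [← Level.proj_decHom h' q d, proj_proj]

/-- transition of the semi-local modules, `L ≤ L'`. -/
def semiLocTr {L' : Level S} (h' : L ≤ L') :
    Rep.res (Level.projDec h' q) (semiLoc h q) ⟶ semiLoc (h.trans h') q :=
  dIndTr (decTo h q) (Level.projDec h' q) (decTo (h.trans h') q) (decTo_projDec h q h')
    (Level.trLoc h' q)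

/-- transition of the global induced modules, `L ≤ L'` (coefficientwise `t`). -/
def indFTr {L' : Level S} (h' : L ≤ L') {X : Rep.{0} ℤ L.Gal} {X' : Rep.{0} ℤ L'.Gal}
    (t : Rep.res (Level.proj h') X ⟶ X') :
    Rep.res (Level.proj h') (indF h X) ⟶ indF (h.trans h') X' :=
  dIndTr (Level.proj h) (Level.proj h') (Level.proj (h.trans h')) (proj_proj h h') t

/-- **localisation at `q` on `H²`, finite level**:
`H²(Gal(L/ℚ), Ind E_S(L)) → H²(Dec_q(L), (Q →₀ L_qˣ))`. -/
def locH2 : groupCohomology (indF h (sUnits L)) 2 →ₗ[ℤ] groupCohomology (semiLoc h q) 2 :=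
  (groupCohomology.map (L.decHom q) (locF h q) 2).hom

/-- **inflation on the local side**, `L ≤ L'`:
`H²(Dec_q(L), (Q →₀ L_qˣ)) → H²(Dec_q(L'), (Q →₀ L'_qˣ))`. -/
def inflLoc {L' : Level S} (h' : L ≤ L') :
    groupCohomology (semiLoc h q) 2 →ₗ[ℤ] groupCohomology (semiLoc (h.trans h') q) 2 :=
  (groupCohomology.map (Level.projDec h' q) (semiLocTr h q h') 2).hom

/-- **inflation on the global side**, `L ≤ L'`:
`H²(Gal(L/ℚ), Ind E_S(L)) → H²(Gal(L'/ℚ), Ind E_S(L'))`. -/
def inflE {L' : Level S} (h' : L ≤ L') :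
    groupCohomology (indF h (sUnits L)) 2 →ₗ[ℤ]
      groupCohomology (indF (h.trans h') (sUnits L')) 2 :=
  (groupCohomology.map (Level.proj h') (indFTr h h' (trS h')) 2).hom

/-- The level-constant local 2-cochain (values in `K.ind (rl q) K₀.U ℚ̄_qˣ`) defined by a 2-cochain
`τ` of the finite group `Dec_q(L)` with values in `semiLoc h q`. -/
def locM (τ : L.Dec q × L.Dec q → (semiLoc h q).V) :
    PT.Gl q × PT.Gl q → K.ind (PT.rl q) K₀.U (Tow.unitsQpbar q) :=
  fun x => (Finsupp.mapRange (L.locCoe q) (map_zero _)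
    (τ ((QuotientGroup.mk x.1 : L.Dec q), (QuotientGroup.mk x.2 : L.Dec q))) :
      (GQ ⧸ K₀.U) →₀ (Tow.unitsQpbar q).V)

/-- The level-constant local 1-cochain defined by a 1-cochain of `Dec_q(L)`. -/
def locM₁ (c : L.Dec q → (semiLoc h q).V) :
    PT.Gl q → K.ind (PT.rl q) K₀.U (Tow.unitsQpbar q) :=
  fun x => (Finsupp.mapRange (L.locCoe q) (map_zero _) (c (QuotientGroup.mk x : L.Dec q)) :
      (GQ ⧸ K₀.U) →₀ (Tow.unitsQpbar q).V)

end SemiLoc

end Fermat.Agent.S55.Inv.GO4

end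

end
-- ===== PACK-END S55/Inv/GO4/Defs.lean

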