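import Fermat.Agent.Pack.S56.E16L3
import Fermat.Agent.Pack.S56.E3L0
import Fermat.Agent.Pack.S56.E5L3
import Fermat.Agent.Pack.S56.E9L3
import Fermat.Agent.Pack.S56.E0L1
import Fermat.Agent.Pack.S56.E16L0
import Fermat.Agent.Pack.S56.E9L1
import Fermat.Agent.Pack.S56.E13L3
import Fermat.Agent.Pack.S56.E8L3
import Fermat.Agent.Pack.S56.E8L2
import Fermat.Agent.Pack.S56.E16L1
import Fermat.Agent.Pack.S56.E10L1
import Fermat.Agent.Pack.S56.E15L1
import Fermat.Agent.Pack.S56.E16L2
import Fermat.Agent.Pack.S56.E15L0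
import Fermat.Agent.Pack.S56.E0L3
import Fermat.Agent.Pack.S56.E15L2
import Fermat.Agent.Pack.S56.E13L1
import Fermat.Agent.Pack.S56.E8L1

-- ===== PACK-BEGIN S56/H734/KumLocal.lean
section







/-!
# S56 / FLAT-O, leaf KUM (helper734), part 2: the residue invariant of a unit Kummer class

`P | p` a valuation subring of `ℚ̄`, `I = I_P`, `ζ` a primitive `p`-th root of unity,
`H = {σ ∈ I : σ ζ = ζ}`.  For `χ : G_ℚ → ZMod p` we say `KRel P ζ χ y` (`y` in the residue field
of `P`) if there are `a ∈ P` fixed by `I` and `r` with `r ^ p = 1 + p a`,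
`σ r = ζ ^ χ(σ) r` for `σ ∈ H`, and `y = a mod 𝔪_P`.

* `KRel.zero`, `KRel.add`, `KRel.nsmul`, `KRel.sum`, `KRel.congr` : additivity;
* `KRel.unique` : `y` is determined by `χ|_H`                       (valuations in `ℚ̄^H`, `vg1`);
* `KRel.ker` : `KRel χ 0 → χ|_H = 0`, `p` odd                       (Krasner-type root lemma, `vg0`);
* `KRel.frob` : `KRel χ y → KRel (ω(φ) χ(φ⁻¹ · φ)) (y ^ p)` for a Frobenius `φ`;
* `KRel.exists_of_unit` : existence for an `ω`-twisted cocycle on `I` of finite level with a unit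
  Kummer generator on `H`                     (Hilbert 90 on `I`, `vg0`, `vg1`, Teichmüller).
-/

set_option autoImplicit false
set_option linter.style.haveILetI false

noncomputable section

namespace Fermat.Agent.S56.H734

open Fermat.Agent.S56 Fermat.Agent.S56.H786 IsLocalRing

/-! ## Residues of elements of `ℚ̄` -/

section res

variable (P : ValuationSubring Qb)

/-- The residue class of `x ∈ P` (and `0` outside `P`). -/
def resQ (x : Qb) : ResidueField P :=
  haveI := Classical.propDecidable (x ∈ P)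
  if h : x ∈ P then residue P ⟨x, h⟩ else 0

variable {P}

theorem resQ_of_mem {x : Qb} (h : x ∈ P) : resQ P x = residue P ⟨x, h⟩ := by
  unfold resQ
  exact dif_pos h

theorem resQ_add {x y : Qb} (hx : x ∈ P) (hy : y ∈ P) :
    resQ P (x + y) = resQ P x + resQ P y := by
  rw [resQ_of_mem hx, resQ_of_mem hy, resQ_of_mem (P.add_mem _ _ hx hy), ← map_add]
  rfl

theorem resQ_mul {x y : Qb} (hx : x ∈ P) (hy : y ∈ P) :
    resQ P (x * y) = resQ P x * resQ P y := by
  rw [resQ_of_mem hx, resQ_of_mem hy, resQ_of_mem (P.mul_mem _ _ hx hy), ← map_mul]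
  rfl

theorem resQ_one : resQ P 1 = 1 := by
  rw [resQ_of_mem P.one_mem]
  exact map_one (residue P)

theorem resQ_zero : resQ P 0 = 0 := by
  rw [resQ_of_mem P.zero_mem]
  exact map_zero (residue P)

theorem resQ_pow {x : Qb} (hx : x ∈ P) (n : ℕ) : resQ P (x ^ n) = resQ P x ^ n := by
  induction n with
  | zero => rw [pow_zero, pow_zero, resQ_one]
  | succ n ih => rw [pow_succ, pow_succ, resQ_mul (pow_mem hx n) hx, ih]

theorem resQ_eq_zero_iff {x : Qb} (hx : x ∈ P) : resQ P x = 0 ↔ P.valuation x < 1 := by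
  rw [resQ_of_mem hx, IsLocalRing.residue_eq_zero_iff, ValuationSubring.valuation_lt_one_iff]

theorem resQ_eq_iff {x y : Qb} (hx : x ∈ P) (hy : y ∈ P) :
    resQ P x = resQ P y ↔ P.valuation (x - y) < 1 := by
  rw [resQ_of_mem hx, resQ_of_mem hy, ← sub_eq_zero, ← map_sub,
    IsLocalRing.residue_eq_zero_iff, ValuationSubring.valuation_lt_one_iff]
  rfl

theorem resQ_natCast_self {p : ℕ} (hP : P.LiesOverPrime p) : resQ P (p : Qb) = 0 := by
  have hp : (p : Qb) ∈ P := natCast_mem P p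
  rw [resQ_eq_zero_iff hp]
  exact (P.mem_nonunits_iff).mp hP

theorem resQ_surjective (y : ResidueField P) : ∃ x ∈ P, resQ P x = y := by
  obtain ⟨x, rfl⟩ := residue_surjective y
  exact ⟨x, x.2, resQ_of_mem x.2⟩

end res

/-! ## The residue invariant -/

section kum

variable {p : ℕ} (P : ValuationSubring Qb) (ζ : Qb)

/-- `r` is a Kummer generator of `χ` on `H = {σ ∈ I_P : σ ζ = ζ}`. -/
def IsKumGen (χ : GQ → ZMod p) (r : Qb) : Prop :=
  ∀ σ ∈ P.inertiaSubgroupIn ℚ, σ ζ = ζ → σ r = zp ζ (χ σ) * r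

/-- The residue invariant: `1 + p a` (`a` an integer of the inertia field, `y = a mod 𝔪_P`)
has a `p`-th root which is a Kummer generator of `χ` on `H`. -/
def KRel (χ : GQ → ZMod p) (y : ResidueField P) : Prop :=
  ∃ a r : Qb, a ∈ P ∧ (∀ σ ∈ P.inertiaSubgroupIn ℚ, σ a = a) ∧ r ^ p = 1 + (p : Qb) * a ∧
    IsKumGen P ζ χ r ∧ resQ P a = y

variable {P ζ}

theorem val_p_lt_one (hP : P.LiesOverPrime p) : P.valuation (p : Qb) < 1 :=
  (P.mem_nonunits_iff).mp hP

theorem val_le_one {a : Qb} (ha : a ∈ P) : P.valuation a ≤ 1 :=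
  (P.valuation_le_one_iff a).mpr ha

theorem val_p_mul_lt_one (hP : P.LiesOverPrime p) {a : Qb} (ha : a ∈ P) :
    P.valuation ((p : Qb) * a) < 1 := by
  rw [map_mul]
  calc P.valuation (p : Qb) * P.valuation a ≤ P.valuation (p : Qb) * 1 :=
        mul_le_mul_right (val_le_one ha) _
    _ < 1 := by rw [mul_one]; exact val_p_lt_one hP

theorem val_one_add (hP : P.LiesOverPrime p) {a : Qb} (ha : a ∈ P) :
    P.valuation (1 + (p : Qb) * a) = 1 :=
  Valuation.map_one_add_of_lt _ (val_p_mul_lt_one hP ha)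

theorem val_eq_one_of_pow (hp0 : p ≠ 0) (hP : P.LiesOverPrime p) {a r : Qb} (ha : a ∈ P)
    (hr : r ^ p = 1 + (p : Qb) * a) : P.valuation r = 1 := by
  have h := val_one_add hP ha
  rw [← hr, map_pow] at h
  exact (pow_eq_one_iff_left hp0).mp h

theorem mem_of_val_eq_one {r : Qb} (h : P.valuation r = 1) : r ∈ P :=
  (P.valuation_le_one_iff r).mp h.le

theorem ne_zero_of_val_eq_one {r : Qb} (h : P.valuation r = 1) : r ≠ 0 := by
  rintro rfl
  rw [map_zero] at h
  exact zero_ne_one h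

theorem KRel.congr {χ χ' : GQ → ZMod p} {y : ResidueField P}
    (h : ∀ σ ∈ P.inertiaSubgroupIn ℚ, σ ζ = ζ → χ σ = χ' σ) (hk : KRel P ζ χ y) :
    KRel P ζ χ' y := by
  obtain ⟨a, r, ha, hfa, hr, hgen, hy⟩ := hk
  exact ⟨a, r, ha, hfa, hr, fun σ hσ hσζ => by rw [← h σ hσ hσζ]; exact hgen σ hσ hσζ, hy⟩

theorem KRel.zero [NeZero p] : KRel P ζ (0 : GQ → ZMod p) 0 := by
  refine ⟨0, 1, P.zero_mem, fun σ _ => map_zero σ, by rw [one_pow, mul_zero, add_zero], ?_,
    resQ_zero⟩
  intro σ _ _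
  rw [map_one, Pi.zero_apply, zp_zero, one_mul]

theorem KRel.add [NeZero p] (hζ1 : ζ ^ p = 1) (hP : P.LiesOverPrime p) {χ χ' : GQ → ZMod p}
    {y y' : ResidueField P} (h : KRel P ζ χ y) (h' : KRel P ζ χ' y') :
    KRel P ζ (χ + χ') (y + y') := by
  obtain ⟨a, r, ha, hfa, hr, hgen, hy⟩ := h
  obtain ⟨a', r', ha', hfa', hr', hgen', hy'⟩ := h'
  have hpP : (p : Qb) ∈ P := natCast_mem P p
  refine ⟨a + a' + (p : Qb) * a * a', r * r',
    P.add_mem _ _ (P.add_mem _ _ ha ha') (P.mul_mem _ _ (P.mul_mem _ _ hpP ha) ha'), ?_, ?_, ?_, ?_⟩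
  · intro σ hσ
    rw [map_add, map_add, map_mul, map_mul, map_natCast, hfa σ hσ, hfa' σ hσ]
  · rw [mul_pow, hr, hr']
    ring
  · intro σ hσ hσζ
    rw [map_mul, hgen σ hσ hσζ, hgen' σ hσ hσζ, Pi.add_apply, zp_add hζ1]
    ring
  · rw [resQ_add (P.add_mem _ _ ha ha') (P.mul_mem _ _ (P.mul_mem _ _ hpP ha) ha'),
      resQ_add ha ha', resQ_mul (P.mul_mem _ _ hpP ha) ha', resQ_mul hpP ha,
      resQ_natCast_self hP, hy, hy', zero_mul, zero_mul, add_zero]

theorem KRel.nsmul [NeZero p] (hζ1 : ζ ^ p = 1) (hP : P.LiesOverPrime p) {χ : GQ → ZMod p}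
    {y : ResidueField P} (h : KRel P ζ χ y) (n : ℕ) : KRel P ζ (n • χ) (n • y) := by
  induction n with
  | zero =>
    rw [zero_smul, zero_smul]
    exact KRel.zero
  | succ n ih =>
    rw [succ_nsmul, succ_nsmul]
    exact KRel.add hζ1 hP ih h

theorem KRel.sum [NeZero p] (hζ1 : ζ ^ p = 1) (hP : P.LiesOverPrime p) {ι : Type*}
    (s : Finset ι) (χ : ι → GQ → ZMod p) (y : ι → ResidueField P)
    (h : ∀ i ∈ s, KRel P ζ (χ i) (y i)) : KRel P ζ (∑ i ∈ s, χ i) (∑ i ∈ s, y i) := by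
  classical
  induction s using Finset.induction_on with
  | empty =>
    rw [Finset.sum_empty, Finset.sum_empty]
    exact KRel.zero
  | insert i s hi ih =>
    rw [Finset.sum_insert hi, Finset.sum_insert hi]
    exact KRel.add hζ1 hP (h i (Finset.mem_insert_self i s))
      (ih fun j hj => h j (Finset.mem_insert_of_mem hj))

/-- Binomial expansion in `P`: `(1 + u) ^ p = 1 + u ^ p + p u R` with `R ∈ P`. -/
theorem exists_binom (hp : p.Prime) {u : Qb} (hu : u ∈ P) :
    ∃ R ∈ P, (u + 1) ^ p = u ^ p + 1 + (p : Qb) * u * R := by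
  obtain ⟨R, hR⟩ := exists_add_pow_prime_eq hp (⟨u, hu⟩ : P) 1
  refine ⟨(R : Qb), R.2, ?_⟩
  have := congrArg (Subtype.val : P → Qb) hR
  simpa using this

/-- `v(π) ^ p < v(p)`, `π = ζ - 1`. -/
theorem val_pi_pow_lt (hp : p.Prime) (hP : P.LiesOverPrime p) (hζ : IsPrimitiveRoot ζ p) :
    P.valuation (ζ - 1) ^ p < P.valuation (p : Qb) := by
  have hπ0 := Fermat.Agent.S14.H894.valuation_zeta_sub_one_ne_zero P p hp ζ hζ
  have hπ1 := Fermat.Agent.S14.H894.valuation_zeta_sub_one_lt_one P p hp hP ζ hζ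
  rw [Fermat.Agent.S14.H894.valuation_natCast_eq_pow P p hp ζ hζ]
  conv_lhs => rw [← Nat.sub_add_cancel hp.one_le, pow_succ]
  calc P.valuation (ζ - 1) ^ (p - 1) * P.valuation (ζ - 1)
      < P.valuation (ζ - 1) ^ (p - 1) * 1 :=
        mul_lt_mul_of_pos_left hπ1 (pow_pos (zero_lt_iff.mpr hπ0) _)
    _ = P.valuation (ζ - 1) ^ (p - 1) := mul_one _

/-- If `w` is fixed by `H`, `w ∈ P` and `v(w ^ p - 1) < 1`, then `v(w ^ p - 1) ≤ v(π) ^ p`. -/
theorem val_pow_sub_one_le (hp : p.Prime) (hP : P.LiesOverPrime p) (hζ : IsPrimitiveRoot ζ p)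
    {w : Qb} (hwP : w ∈ P)
    (hwfix : ∀ σ ∈ P.inertiaSubgroupIn ℚ, σ ζ = ζ → σ w = w)
    (hlt : P.valuation (w ^ p - 1) < 1) :
    P.valuation (w ^ p - 1) ≤ P.valuation (ζ - 1) ^ p := by
  have hπ0 := Fermat.Agent.S14.H894.valuation_zeta_sub_one_ne_zero P p hp ζ hζ
  have hπ1 := Fermat.Agent.S14.H894.valuation_zeta_sub_one_lt_one P p hp hP ζ hζ
  have hpπ := Fermat.Agent.S14.H894.valuation_natCast_eq_pow P p hp ζ hζ
  have huP : w - 1 ∈ P := sub_mem hwP P.one_mem
  obtain ⟨R, hRP, hR⟩ := exists_binom hp huP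
  rw [sub_add_cancel] at hR
  have hpu : P.valuation ((p : Qb) * (w - 1) * R) ≤ P.valuation (p : Qb) := by
    rw [map_mul, map_mul]
    calc P.valuation (p : Qb) * P.valuation (w - 1) * P.valuation R
        ≤ P.valuation (p : Qb) * 1 * 1 :=
          mul_le_mul' (mul_le_mul_right (val_le_one huP) _) (val_le_one hRP)
      _ = P.valuation (p : Qb) := by rw [mul_one, mul_one]
  -- `v(w - 1) < 1`
  have hu_lt : P.valuation (w - 1) < 1 := by
    by_contra hcon
    rw [not_lt] at hcon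
    have h1 : (1 : P.ValueGroup) ≤ P.valuation (w - 1) ^ p := one_le_pow₀ hcon
    have h2 : (w - 1) ^ p = (w ^ p - 1) - (p : Qb) * (w - 1) * R := by rw [hR]; ring
    have h3 : P.valuation ((w - 1) ^ p) < 1 := by
      rw [h2]
      exact lt_of_le_of_lt (Valuation.map_sub _ _ _)
        (max_lt hlt (lt_of_le_of_lt hpu (val_p_lt_one hP)))
    rw [map_pow] at h3
    exact absurd h3 (not_lt.mpr h1)
  have hufix : ∀ σ ∈ P.inertiaSubgroupIn ℚ, σ ζ = ζ → σ (w - 1) = w - 1 := by
    intro σ hσ hσζ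
    rw [map_sub, map_one, hwfix σ hσ hσζ]
  have hule : P.valuation (w - 1) ≤ P.valuation (ζ - 1) :=
    Fermat.Agent.S56.H66.vg1_le P p hp hP ζ hζ (w - 1) ((P.mem_nonunits_iff).mpr hu_lt) hufix
  have h4 : w ^ p - 1 = (w - 1) ^ p + (p : Qb) * (w - 1) * R := by rw [hR]; ring
  rw [h4]
  refine le_trans (Valuation.map_add _ _ _) (max_le ?_ ?_)
  · rw [map_pow]
    exact pow_le_pow_left₀ zero_le hule p
  · rw [map_mul, map_mul, hpπ]
    conv_rhs => rw [← Nat.sub_add_cancel hp.one_le, pow_succ]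
    calc P.valuation (ζ - 1) ^ (p - 1) * P.valuation (w - 1) * P.valuation R
        ≤ P.valuation (ζ - 1) ^ (p - 1) * P.valuation (ζ - 1) * 1 :=
          mul_le_mul' (mul_le_mul_right hule _) (val_le_one hRP)
      _ = P.valuation (ζ - 1) ^ (p - 1) * P.valuation (ζ - 1) := mul_one _

/-- **Uniqueness** of the residue invariant. -/
theorem KRel.unique (hp : p.Prime) (hP : P.LiesOverPrime p) (hζ : IsPrimitiveRoot ζ p)
    {χ : GQ → ZMod p} {y y' : ResidueField P} (h : KRel P ζ χ y) (h' : KRel P ζ χ y') :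
    y = y' := by
  obtain ⟨a, r, ha, -, hr, hgen, hy⟩ := h
  obtain ⟨a', r', ha', -, hr', hgen', hy'⟩ := h'
  rw [← hy, ← hy', resQ_eq_iff ha ha']
  by_contra hcon
  rw [not_lt] at hcon
  have hv1 : P.valuation (a - a') = 1 := le_antisymm (val_le_one (sub_mem ha ha')) hcon
  have hvr := val_eq_one_of_pow hp.ne_zero hP ha hr
  have hvr' := val_eq_one_of_pow hp.ne_zero hP ha' hr'
  have hr'0 := ne_zero_of_val_eq_one hvr'
  have hvw : P.valuation (r / r') = 1 := by rw [map_div₀, hvr, hvr', div_one]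
  have hwP : r / r' ∈ P := mem_of_val_eq_one hvw
  have hζ0 : ζ ≠ 0 := hζ.ne_zero hp.ne_zero
  have hwfix : ∀ σ ∈ P.inertiaSubgroupIn ℚ, σ ζ = ζ → σ (r / r') = r / r' := by
    intro σ hσ hσζ
    rw [map_div₀, hgen σ hσ hσζ, hgen' σ hσ hσζ, mul_div_mul_left _ _ (zp_ne_zero hζ0 _)]
  have h1 : (1 + (p : Qb) * a') ≠ 0 := by rw [← hr']; exact pow_ne_zero _ hr'0
  have hwp : (r / r') ^ p - 1 = (p : Qb) * (a - a') / (1 + (p : Qb) * a') := by
    rw [div_pow, hr, hr']
    field_simp
    ring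
  have hvwp : P.valuation ((r / r') ^ p - 1) = P.valuation (p : Qb) := by
    rw [hwp, map_div₀, map_mul, hv1, mul_one, val_one_add hP ha', div_one]
  have hle := val_pow_sub_one_le hp hP hζ hwP hwfix (by rw [hvwp]; exact val_p_lt_one hP)
  rw [hvwp] at hle
  exact absurd (val_pi_pow_lt hp hP hζ) (not_lt.mpr hle)

/-- **Kernel** of the residue invariant (a Krasner-type root lemma): if `1 + p a`, `a ∈ 𝔪_P`
fixed by inertia, has a `p`-th root which is a Kummer generator of `χ` on `H`, then `χ|_H = 0`. -/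
theorem KRel.ker (hp : p.Prime) (hp2 : p ≠ 2) (hP : P.LiesOverPrime p)
    (hζ : IsPrimitiveRoot ζ p) {χ : GQ → ZMod p} (h : KRel P ζ χ 0) :
    ∀ σ ∈ P.inertiaSubgroupIn ℚ, σ ζ = ζ → χ σ = 0 := by
  haveI : NeZero p := ⟨hp.ne_zero⟩
  haveI : Algebra.IsAlgebraic ℚ Qb := AlgebraicClosure.isAlgebraic ℚ
  obtain ⟨a, r, ha, hfa, hr, hgen, hy⟩ := h
  intro σ hσ hσζ
  by_contra hχ
  have hπ0 := Fermat.Agent.S14.H894.valuation_zeta_sub_one_ne_zero P p hp ζ hζ
  have hπ1 := Fermat.Agent.S14.H894.valuation_zeta_sub_one_lt_one P p hp hP ζ hζ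
  have hpπ := Fermat.Agent.S14.H894.valuation_natCast_eq_pow P p hp ζ hζ
  have hvr := val_eq_one_of_pow hp.ne_zero hP ha hr
  have hva : P.valuation a ≤ P.valuation (p : Qb) :=
    Fermat.Agent.S56.H66.vg0_le p hp P hP a
      ((P.mem_nonunits_iff).mpr ((resQ_eq_zero_iff ha).mp hy)) hfa
  have hζ'prim : IsPrimitiveRoot (zp ζ (χ σ)) p := by
    unfold zp
    refine hζ.pow_of_coprime _ ?_
    have hne : (χ σ).val ≠ 0 := fun h0 => hχ ((ZMod.val_eq_zero _).mp h0)
    exact (Nat.coprime_of_lt_prime hne (ZMod.val_lt _) hp).symm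
  have hσD : σ ∈ P.decompositionSubgroup ℚ :=
    Fermat.Agent.A2.H708.mem_decomposition_of_mem_inertiaIn P hσ
  have hσr : σ r = zp ζ (χ σ) * r := hgen σ hσ hσζ
  have hσζ' : σ (zp ζ (χ σ)) = zp ζ (χ σ) := by
    unfold zp
    rw [map_pow, hσζ]
  have hpow : ∀ i : ℕ, (σ ^ i) r = zp ζ (χ σ) ^ i * r := by
    intro i
    induction i with
    | zero => simp
    | succ i ih =>
      rw [pow_succ', AlgEquiv.mul_apply, ih, map_mul, map_pow, hσζ', hσr]
      ring
  have hval : ∀ μ ∈ Polynomial.nthRootsFinset p (1 : Qb),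
      P.valuation (1 - μ * r) = P.valuation (1 - r) := by
    intro μ hμ
    have hμ1 : μ ^ p = 1 := (Polynomial.mem_nthRootsFinset hp.pos 1).mp hμ
    obtain ⟨i, -, rfl⟩ := hζ'prim.eq_pow_of_pow_eq_one hμ1
    rw [← hpow i]
    have h1 : (1 : Qb) - (σ ^ i) r = (σ ^ i) (1 - r) := by rw [map_sub, map_one]
    rw [h1]
    exact Fermat.Agent.A2.H708.valuation_apply_of_mem_decomposition P (pow_mem hσD i) _
  have hprod : P.valuation (1 - r ^ p) = P.valuation (1 - r) ^ p := by
    have h1 := hζ'prim.pow_sub_pow_eq_prod_sub_mul (1 : Qb) r hp.pos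
    rw [one_pow] at h1
    rw [h1, map_prod, Finset.prod_congr rfl hval, Finset.prod_const,
      hζ'prim.card_nthRootsFinset]
  have h1 : P.valuation (1 - r ^ p) ≤ P.valuation (p : Qb) * P.valuation (p : Qb) := by
    have e : (1 : Qb) - (1 + (p : Qb) * a) = -((p : Qb) * a) := by ring
    rw [hr, e, Valuation.map_neg, map_mul]
    exact mul_le_mul_right hva _
  have h2 : P.valuation (ζ - 1) ≤ P.valuation (1 - r) := by
    have e1 : σ r - r = (zp ζ (χ σ) - 1) * r := by rw [hσr]; ring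
    have e2 : σ r - r = (1 - r) - σ (1 - r) := by rw [map_sub, map_one]; ring
    have v1 : P.valuation (σ r - r) = P.valuation (ζ - 1) := by
      rw [e1, map_mul, hvr, mul_one]
      exact Fermat.Agent.S14.H894.valuation_sub_one_eq_of_mem_primitiveRoots P p hp ζ hζ
        ((mem_primitiveRoots hp.pos).mpr hζ'prim)
    rw [← v1, e2]
    refine le_trans (Valuation.map_sub _ _ _) (max_le le_rfl ?_)
    rw [Fermat.Agent.A2.H708.valuation_apply_of_mem_decomposition P hσD]
  have h3 : P.valuation (ζ - 1) ^ p ≤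
      P.valuation (ζ - 1) ^ (p - 1) * P.valuation (ζ - 1) ^ (p - 1) := by
    calc P.valuation (ζ - 1) ^ p ≤ P.valuation (1 - r) ^ p := pow_le_pow_left₀ zero_le h2 p
      _ = P.valuation (1 - r ^ p) := hprod.symm
      _ ≤ _ := by rw [← hpπ]; exact h1
  have h4 : P.valuation (ζ - 1) ^ (p - 1) * P.valuation (ζ - 1) ^ (p - 1) <
      P.valuation (ζ - 1) ^ p := by
    have h3p : 3 ≤ p := by
      have := hp.two_le
      omega
    have e : (p - 1) + (p - 1) = p + (p - 2) := by omega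
    rw [← pow_add, e, pow_add]
    calc P.valuation (ζ - 1) ^ p * P.valuation (ζ - 1) ^ (p - 2)
        < P.valuation (ζ - 1) ^ p * 1 :=
          mul_lt_mul_of_pos_left (pow_lt_one₀ zero_le hπ1 (by omega))
            (pow_pos (zero_lt_iff.mpr hπ0) _)
      _ = P.valuation (ζ - 1) ^ p := mul_one _
  exact absurd h3 (not_le.mpr h4)

theorem kum_apply_inv (φ : GQ) (z : Qb) : φ (φ⁻¹ z) = z := by
  show (φ * φ⁻¹) z = z
  rw [mul_inv_cancel]
  rfl

theorem kum_inv_apply (φ : GQ) (z : Qb) : φ⁻¹ (φ z) = z := by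
  show (φ⁻¹ * φ) z = z
  rw [inv_mul_cancel]
  rfl

/-- Conjugation by an element of the decomposition group preserves `H`. -/
theorem conj_mem_H {φ σ : GQ} (hφ : φ ∈ P.decompositionSubgroup ℚ) {n : ℕ}
    (hn : IsCycExp p φ n) (hζ1 : ζ ^ p = 1) (hσ : σ ∈ P.inertiaSubgroupIn ℚ) (hσζ : σ ζ = ζ) :
    φ⁻¹ * σ * φ ∈ P.inertiaSubgroupIn ℚ ∧ (φ⁻¹ * σ * φ) ζ = ζ := by
  constructor
  · have h := Fermat.Agent.S56.H794.conj_mem_inertiaIn P (inv_mem hφ) hσ
    rwa [inv_inv] at h
  · show φ⁻¹ (σ (φ ζ)) = ζ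
    rw [hn ζ hζ1, map_pow, hσζ, ← hn ζ hζ1, kum_inv_apply]

/-- **Frobenius twist** of the residue invariant. -/
theorem KRel.frob (hζ1 : ζ ^ p = 1) [NeZero p] {φ : GQ}
    (hφ : P.IsFrobeniusAt φ p) {n : ℕ} (hn : IsCycExp p φ n) {χ : GQ → ZMod p}
    {y : ResidueField P} (h : KRel P ζ χ y) :
    KRel P ζ (fun σ => (n : ZMod p) * χ (φ⁻¹ * σ * φ)) (y ^ p) := by
  obtain ⟨a, r, ha, hfa, hr, hgen, hy⟩ := h
  have hφD : φ ∈ P.decompositionSubgroup ℚ := hφ.mem_decompositionSubgroup
  have happ : ∀ (σ : GQ) (x : Qb), σ (φ x) = φ ((φ⁻¹ * σ * φ) x) := by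
    intro σ x
    show σ (φ x) = φ (φ⁻¹ (σ (φ x)))
    rw [kum_apply_inv]
  have hφa : φ a ∈ P := Fermat.Agent.A2.H708.apply_mem_of_mem_decomposition P hφD ha
  refine ⟨φ a, φ r, hφa, ?_, ?_, ?_, ?_⟩
  · intro σ hσ
    have h1 : φ⁻¹ * σ * φ ∈ P.inertiaSubgroupIn ℚ := by
      have h := Fermat.Agent.S56.H794.conj_mem_inertiaIn P (inv_mem hφD) hσ
      rwa [inv_inv] at h
    rw [happ, hfa _ h1]
  · rw [← map_pow, hr, map_add, map_one, map_mul, map_natCast]
  · intro σ hσ hσζ
    obtain ⟨h1, h2⟩ := conj_mem_H hφD hn hζ1 hσ hσζ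
    rw [happ, hgen _ h1 h2, map_mul, apply_zp hζ1 hn]
  · rw [← hy, ← resQ_pow ha, resQ_eq_iff hφa (pow_mem ha p)]
    exact (P.mem_nonunits_iff).mp (Fermat.Agent.Lib.Cheb.H643.IsFrobeniusAt_sub_pow_mem hφ ha)

/-- **Existence** of the residue invariant for an `ω`-twisted cocycle on `I_P` of finite level
having a unit Kummer generator on `H`. -/
theorem KRel.exists_of_unit (hp : p.Prime) (hP : P.LiesOverPrime p) (hζ : IsPrimitiveRoot ζ p)
    {χ : GQ → ZMod p}
    (hcoc : ∀ σ ∈ P.inertiaSubgroupIn ℚ, ∀ τ ∈ P.inertiaSubgroupIn ℚ, ∀ a : ℕ,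
      IsCycExp p σ a → χ (σ * τ) = χ σ + (a : ZMod p) * χ τ)
    (hlev : ∃ L : IntermediateField ℚ Qb, FiniteDimensional ℚ L ∧
      ∀ σ ∈ P.inertiaSubgroupIn ℚ, ∀ τ ∈ P.inertiaSubgroupIn ℚ,
        (∀ x ∈ L, τ x = x) → χ (σ * τ) = χ σ)
    (hB : ∃ B : Qb, P.valuation B = 1 ∧ IsKumGen P ζ χ B) :
    ∃ y, KRel P ζ χ y := by
  haveI : NeZero p := ⟨hp.ne_zero⟩
  haveI : Algebra.IsAlgebraic ℚ Qb := AlgebraicClosure.isAlgebraic ℚ
  obtain ⟨B, hvB, hBgen⟩ := hB
  obtain ⟨β, hβ0, hβ⟩ := hilbert90 hζ (P.inertiaSubgroupIn ℚ) χ hcoc hlev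
  have hπ0 := Fermat.Agent.S14.H894.valuation_zeta_sub_one_ne_zero P p hp ζ hζ
  have hπ1 := Fermat.Agent.S14.H894.valuation_zeta_sub_one_lt_one P p hp hP ζ hζ
  have hpπ := Fermat.Agent.S14.H894.valuation_natCast_eq_pow P p hp ζ hζ
  have hζ0 : ζ ≠ 0 := hζ.ne_zero hp.ne_zero
  have hζ1 : ζ ^ p = 1 := hζ.pow_eq_one
  have hp0 : (p : Qb) ≠ 0 := by exact_mod_cast hp.ne_zero
  have hvp0 : P.valuation (p : Qb) ≠ 0 := (Valuation.ne_zero_iff _).mpr hp0
  -- Step 1: the valuation of `β` is an integral power of `v(p)`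
  have hB0 : B ≠ 0 := ne_zero_of_val_eq_one hvB
  have hwfix : ∀ σ ∈ P.inertiaSubgroupIn ℚ, σ ζ = ζ → σ (β / B) = β / B := by
    intro σ hσ hσζ
    rw [map_div₀, hβ σ hσ, hBgen σ hσ hσζ, mul_div_mul_left _ _ (zp_ne_zero hζ0 _)]
  obtain ⟨n, hn⟩ := Fermat.Agent.S56.H66.vg1 P p hp hP ζ hζ (β / B) (div_ne_zero hβ0 hB0) hwfix
  rw [map_div₀, hvB, div_one] at hn
  have hβpfix : ∀ σ ∈ P.inertiaSubgroupIn ℚ, σ (β ^ p) = β ^ p := by
    intro σ hσ
    rw [map_pow, hβ σ hσ, mul_pow, zp_pow_self hζ1, one_mul]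
  obtain ⟨m, hm⟩ := Fermat.Agent.S56.H66.vg0 p hp P hP (β ^ p) (pow_ne_zero _ hβ0) hβpfix
  have hnm : n * (p : ℤ) = ((p - 1 : ℕ) : ℤ) * m := by
    apply zpow_right_injective₀ (zero_lt_iff.mpr hπ0) hπ1.ne
    show P.valuation (ζ - 1) ^ (n * (p : ℤ)) = P.valuation (ζ - 1) ^ (((p - 1 : ℕ) : ℤ) * m)
    rw [zpow_mul, ← hn, zpow_natCast, ← map_pow, hm, hpπ, zpow_mul, zpow_natCast]
  have hpm : (p : ℤ) ∣ m := by
    have h1 : (p : ℤ) ∣ ((p - 1 : ℕ) : ℤ) * m := ⟨n, by rw [← hnm]; ring⟩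
    have hcop : IsCoprime (p : ℤ) ((p - 1 : ℕ) : ℤ) := by
      rw [Nat.isCoprime_iff_coprime]
      have h2 : (p - 1).Coprime p := by
        have := hp.two_le
        exact (Nat.coprime_of_lt_prime (by omega) (by omega) hp).symm
      exact h2.symm
    exact hcop.dvd_of_dvd_mul_left h1
  obtain ⟨m', rfl⟩ := hpm
  have hvβ : P.valuation β = P.valuation (p : Qb) ^ m' := by
    have h1 : P.valuation β ^ p = (P.valuation (p : Qb) ^ m') ^ p := by
      rw [← map_pow, hm, ← zpow_natCast (P.valuation (p : Qb) ^ m') p, ← zpow_mul, mul_comm]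
    exact (pow_left_inj₀ zero_le zero_le hp.ne_zero).mp h1
  -- Step 2: a unit generator on `I` with inertia-fixed `p`-th power
  obtain ⟨r₀, hr₀⟩ : ∃ r₀ : Qb, r₀ = β / (p : Qb) ^ m' := ⟨_, rfl⟩
  have hr₀v : P.valuation r₀ = 1 := by
    rw [hr₀, map_div₀, map_zpow₀, hvβ, div_self (zpow_ne_zero _ hvp0)]
  have hr₀gen : ∀ σ ∈ P.inertiaSubgroupIn ℚ, σ r₀ = zp ζ (χ σ) * r₀ := by
    intro σ hσ
    rw [hr₀, map_div₀, hβ σ hσ, map_zpow₀, map_natCast, mul_div_assoc]
  have hr₀P : r₀ ∈ P := mem_of_val_eq_one hr₀v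
  obtain ⟨u, hu⟩ : ∃ u : Qb, u = r₀ ^ p := ⟨_, rfl⟩
  have huP : u ∈ P := by rw [hu]; exact pow_mem hr₀P p
  have hufix : ∀ σ ∈ P.inertiaSubgroupIn ℚ, σ u = u := by
    intro σ hσ
    rw [hu, map_pow, hr₀gen σ hσ, mul_pow, zp_pow_self hζ1, one_mul]
  have huv : P.valuation u = 1 := by rw [hu, map_pow, hr₀v, one_pow]
  -- Step 3: Teichmüller
  obtain ⟨φ, hφ⟩ := Fermat.Agent.Lib.Cheb.H643.exists_isFrobeniusAt p hp P hP
  obtain ⟨N, hN0, hN⟩ := Fermat.Agent.A2.H708.exists_pow_apply_eq φ u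
  obtain ⟨N', rfl⟩ : ∃ N', N = N' + 1 := ⟨N - 1, by omega⟩
  have hq2 : 2 ≤ p ^ (N' + 1) := by
    calc 2 ≤ p := hp.two_le
      _ = p ^ 1 := (pow_one p).symm
      _ ≤ p ^ (N' + 1) := Nat.pow_le_pow_right hp.pos (by omega)
  obtain ⟨s, hs⟩ : ∃ s, p ^ (N' + 1) = s + 2 := ⟨p ^ (N' + 1) - 2, by omega⟩
  have hfrob := Fermat.Agent.S56.H606.frobenius_pow_sub_pow_mem_nonunits P hφ (N' + 1) huP
  rw [hN, hs] at hfrob
  have hres : resQ P u = resQ P u ^ (s + 2) := by
    rw [← resQ_pow huP, resQ_eq_iff huP (pow_mem huP _)]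
    exact (P.mem_nonunits_iff).mp hfrob
  have hres0 : resQ P u ≠ 0 := by
    rw [Ne, resQ_eq_zero_iff huP, huv]
    exact lt_irrefl _
  have hres1 : resQ P u ^ (s + 1) = 1 := by
    have h1 : resQ P u * resQ P u ^ (s + 1) = resQ P u * 1 := by
      rw [mul_one, ← pow_succ']
      exact hres.symm
    exact mul_left_cancel₀ hres0 h1
  -- the generator
  have hrP : r₀ * u ^ (p ^ N' * s) ∈ P := P.mul_mem _ _ hr₀P (pow_mem huP _)
  have hrpow : (r₀ * u ^ (p ^ N' * s)) ^ p = (u ^ (s + 1)) ^ (s + 1) := by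
    have h1 : p ^ N' * s * p = (s + 2) * s := by
      rw [← hs, pow_succ]
      ring
    rw [mul_pow, ← hu, ← pow_mul, ← pow_mul, h1, ← pow_succ']
    congr 1
    ring
  have hrnon : (r₀ * u ^ (p ^ N' * s)) ^ p - 1 ∈ P.nonunits := by
    rw [P.mem_nonunits_iff, ← resQ_eq_iff (pow_mem hrP p) P.one_mem, hrpow,
      resQ_pow (pow_mem huP _), resQ_pow huP, hres1, one_pow, resQ_one]
  have hrfix : ∀ σ ∈ P.inertiaSubgroupIn ℚ,
      σ ((r₀ * u ^ (p ^ N' * s)) ^ p - 1) = (r₀ * u ^ (p ^ N' * s)) ^ p - 1 := by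
    intro σ hσ
    rw [hrpow, map_sub, map_one, map_pow, map_pow, hufix σ hσ]
  obtain ⟨a, haP, ha⟩ := Fermat.Agent.S56.H66.vg0_mem P p hp hP _ hrnon hrfix
  refine ⟨resQ P a, a, r₀ * u ^ (p ^ N' * s), haP, ?_, ?_, ?_, rfl⟩
  · intro σ hσ
    have h1 := hrfix σ hσ
    rw [ha, map_mul, map_natCast] at h1
    exact mul_left_cancel₀ hp0 h1
  · rw [← ha]
    ring
  · intro σ hσ _
    rw [map_mul, hr₀gen σ hσ, map_pow, hufix σ hσ, mul_assoc]

end kum

end Fermat.Agent.S56.H734

end

end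
-- ===== PACK-END S56/H734/KumLocal.lean

-- ===== PACK-BEGIN S56/RQ/GlobZH934.lean
section





/-!
# Row S56 — REC-Q, leaf GLOBZ (helper934)

`globZ : GlobZStatement`: the cup product `c ∪ y` of an ad-cocycle `c` unramified outside
`Smin ∪ Q` and a twisted cocycle `y` unramified outside `Smin` is a global 2-cocycle of `k(1)`,
level-constant for a finite level unramified outside `Smin ∪ Q`.

* `cup_isCoc₂` : the 2-cocycle identity (pure algebra).
* `levelSub`   : the subgroup `N = {s : ρ̄ s = 1, s fixes μ_p, c s = 0, y s = 0}`.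
* `cup_mul_right` : `c ∪ y` is invariant under right translation by `N × N`.
-/

set_option autoImplicit false
set_option linter.style.haveILetI false

open Polynomial IsLocalRing

noncomputable section

namespace Fermat.Agent.S56.RQ.H934

open Fermat.Agent.S56 Fermat.Agent.S56.H716 Fermat.Agent.S56.RQ

section

variable {k : Type} [Field k] (ρbar : ResidualGaloisRep k) (p : ℕ)

theorem rho_inv_mul (σ : GQ) : ρbar.ρ σ⁻¹ * ρbar.ρ σ = 1 := by
  rw [← map_mul, inv_mul_cancel, map_one]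

theorem trace_conj_mul (σ : GQ) (x y : Module.End k ρbar.V) :
    LinearMap.trace k ρbar.V
        ((ρbar.ρ σ * x * ρbar.ρ σ⁻¹) * (ρbar.ρ σ * y * ρbar.ρ σ⁻¹)) =
      LinearMap.trace k ρbar.V (x * y) := by
  have h : (ρbar.ρ σ * x * ρbar.ρ σ⁻¹) * (ρbar.ρ σ * y * ρbar.ρ σ⁻¹) =
      ρbar.ρ σ * (x * y * ρbar.ρ σ⁻¹) := by
    calc (ρbar.ρ σ * x * ρbar.ρ σ⁻¹) * (ρbar.ρ σ * y * ρbar.ρ σ⁻¹)
        = ρbar.ρ σ * x * (ρbar.ρ σ⁻¹ * ρbar.ρ σ) * y * ρbar.ρ σ⁻¹ := by
          simp only [mul_assoc]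
      _ = ρbar.ρ σ * (x * y * ρbar.ρ σ⁻¹) := by
          rw [rho_inv_mul, mul_one]
          simp only [mul_assoc]
  rw [h, LinearMap.trace_mul_comm]
  have h' : x * y * ρbar.ρ σ⁻¹ * ρbar.ρ σ = x * y := by
    rw [mul_assoc (x * y), rho_inv_mul, mul_one]
  rw [h']

theorem rho_inv_eq_one {s : GQ} (h : ρbar.ρ s = 1) : ρbar.ρ s⁻¹ = 1 := by
  have h1 := rho_inv_mul ρbar s
  rw [h, mul_one] at h1
  exact h1

variable {ρbar p}

theorem ad_one {c : GQ → Module.End k ρbar.V} (hc : IsAdCocycle ρbar c) : c 1 = 0 := by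
  have h := hc.map_mul 1 1
  rw [mul_one, map_one, inv_one, map_one, one_mul, mul_one] at h
  exact left_eq_add.mp h

theorem tw_one {y : GQ → Module.End k ρbar.V} (hy : IsTwCocycle ρbar p y) : y 1 = 0 := by
  have h := hy.map_mul 1 1 1 (Fermat.Agent.S56.H536.isCycExp_one_one p)
  unfold twAd at h
  rw [mul_one, map_one, inv_one, map_one, one_mul, mul_one, Nat.cast_one, one_smul] at h
  exact left_eq_add.mp h

theorem twAd_zero (σ : GQ) (a : ℕ) : twAd ρbar σ a 0 = 0 := by
  unfold twAd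
  rw [mul_zero, zero_mul, smul_zero]

/-- The 2-cocycle identity for the cup product. -/
theorem cup_isCoc₂ {c y : GQ → Module.End k ρbar.V} (hc : IsAdCocycle ρbar c)
    (hy : IsTwCocycle ρbar p y) : IsCoc₂On p ⊤ (cup ρbar c y) := by
  intro σ _ τ _ υ _ a ha
  have h1 : y (σ * τ * υ) - y (σ * τ) = twAd ρbar σ a (y (τ * υ) - y τ) := by
    rw [mul_assoc, hy.map_mul σ (τ * υ) a ha, hy.map_mul σ τ a ha]
    unfold twAd
    rw [mul_sub, sub_mul, smul_sub]
    abel
  have h2 : LinearMap.trace k ρbar.V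
      (ρbar.ρ σ * c τ * ρbar.ρ σ⁻¹ * twAd ρbar σ a (y (τ * υ) - y τ)) =
      (a : k) * LinearMap.trace k ρbar.V (c τ * (y (τ * υ) - y τ)) := by
    unfold twAd
    rw [mul_smul_comm, map_smul, smul_eq_mul, trace_conj_mul]
  have h3 : y (σ * (τ * υ)) - y σ = (y (σ * τ * υ) - y (σ * τ)) + (y (σ * τ) - y σ) := by
    rw [mul_assoc]
    abel
  show (a : k) * LinearMap.trace k ρbar.V (c τ * (y (τ * υ) - y τ)) +
      LinearMap.trace k ρbar.V (c σ * (y (σ * (τ * υ)) - y σ)) =
    LinearMap.trace k ρbar.V (c (σ * τ) * (y (σ * τ * υ) - y (σ * τ))) +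
      LinearMap.trace k ρbar.V (c σ * (y (σ * τ) - y σ))
  rw [hc.map_mul σ τ, h3, add_mul, mul_add, map_add, map_add, ← h2, ← h1]
  abel

/-- The subgroup `N = {s : ρ̄ s = 1, s fixes μ_p, c s = 0, y s = 0}`. -/
def levelSub {c y : GQ → Module.End k ρbar.V} (hc : IsAdCocycle ρbar c)
    (hy : IsTwCocycle ρbar p y) : Subgroup GQ where
  carrier := {s | ρbar.ρ s = 1 ∧ IsCycExp p s 1 ∧ c s = 0 ∧ y s = 0}
  one_mem' := ⟨map_one _, Fermat.Agent.S56.H536.isCycExp_one_one p, ad_one hc, tw_one hy⟩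
  mul_mem' := by
    rintro s t ⟨hs1, hs2, hs3, hs4⟩ ⟨ht1, ht2, ht3, ht4⟩
    refine ⟨by rw [map_mul, hs1, ht1, one_mul], ?_, ?_, ?_⟩
    · intro μ hμ
      have h1 := ht2 μ hμ
      rw [pow_one] at h1 ⊢
      have h2 := hs2 μ hμ
      rw [pow_one] at h2
      show s (t μ) = μ
      rw [h1, h2]
    · rw [hc.map_mul, hs3, ht3, mul_zero, zero_mul, add_zero]
    · rw [hy.map_mul s t 1 hs2, hs4, ht4, twAd_zero, add_zero]
  inv_mem' := by
    rintro s ⟨hs1, hs2, hs3, hs4⟩
    have hinv : IsCycExp p s⁻¹ 1 := by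
      intro μ hμ
      have h2 := hs2 μ hμ
      rw [pow_one] at h2 ⊢
      have h3 : s⁻¹ (s μ) = μ := s.symm_apply_apply μ
      rw [h2] at h3
      exact h3
    refine ⟨rho_inv_eq_one ρbar hs1, hinv, ?_, ?_⟩
    · have h := hc.map_mul s⁻¹ s
      rw [inv_mul_cancel, ad_one hc, hs3, mul_zero, zero_mul, add_zero] at h
      exact h.symm
    · have h := hy.map_mul s⁻¹ s 1 hinv
      rw [inv_mul_cancel, tw_one hy, hs4, twAd_zero, add_zero] at h
      exact h.symm

theorem mem_levelSub {c y : GQ → Module.End k ρbar.V} (hc : IsAdCocycle ρbar c)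
    (hy : IsTwCocycle ρbar p y) (s : GQ) :
    s ∈ levelSub hc hy ↔ ρbar.ρ s = 1 ∧ IsCycExp p s 1 ∧ c s = 0 ∧ y s = 0 :=
  Iff.rfl

/-- Right-invariance of the cup product under `N × N`. -/
theorem cup_mul_right (hp : p.Prime) {c y : GQ → Module.End k ρbar.V}
    (hc : IsAdCocycle ρbar c) (hy : IsTwCocycle ρbar p y) (σ τ s s' : GQ)
    (hs : s ∈ levelSub hc hy) (hs' : s' ∈ levelSub hc hy) :
    cup ρbar c y (σ * s, τ * s') = cup ρbar c y (σ, τ) := by
  obtain ⟨hs1, hs2, hs3, hs4⟩ := hs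
  obtain ⟨hs1', hs2', hs3', hs4'⟩ := hs'
  -- right invariance of `y`
  have hyr : ∀ g t : GQ, y t = 0 → y (g * t) = y g := by
    intro g t ht
    obtain ⟨a, ha⟩ := Fermat.Agent.S56.H536.exists_isCycExp p hp g
    rw [hy.map_mul g t a ha, ht, twAd_zero, add_zero]
  have hcr : c (σ * s) = c σ := by
    rw [hc.map_mul, hs3, mul_zero, zero_mul, add_zero]
  have hyl : y (s * τ) = y τ := by
    rw [hy.map_mul s τ 1 hs2, hs4, zero_add]
    unfold twAd
    rw [hs1, Nat.cast_one, one_smul, one_mul, rho_inv_eq_one ρbar hs1, mul_one]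
  have hy2 : y (σ * s * (τ * s')) = y (σ * τ) := by
    obtain ⟨a, ha⟩ := Fermat.Agent.S56.H536.exists_isCycExp p hp σ
    have e : σ * s * (τ * s') = σ * (s * τ) * s' := by simp only [mul_assoc]
    rw [e, hyr _ _ hs4', hy.map_mul σ (s * τ) a ha, hyl, ← hy.map_mul σ τ a ha]
  show LinearMap.trace k ρbar.V (c (σ * s) * (y (σ * s * (τ * s')) - y (σ * s))) =
    LinearMap.trace k ρbar.V (c σ * (y (σ * τ) - y σ))
  rw [hcr, hy2, hyr σ s hs4]

end

/-- **GLOBZ.** -/
theorem globZ : GlobZStatement := by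
  intro 𝒪 _ _ _ _ _ p ρbar S Smin hyp Q hQ c y hc hcur hy hyur
  classical
  refine ⟨cup_isCoc₂ hc hy, ?_⟩
  haveI : NeZero p := ⟨hyp.hp.ne_zero⟩
  obtain ⟨Lρ, hLρfin, hLρ⟩ := ρbar.factorsThroughFiniteLevel
  obtain ⟨Lc, hLcfin, hLc⟩ := hc.level
  obtain ⟨Ly, hLyfin, hLy⟩ := hy.level
  -- the big level
  let F₀ : IntermediateField ℚ Qb := Lρ ⊔ Lc ⊔ Ly ⊔ Fermat.Agent.S55.H414.cycloLevel p
  haveI : FiniteDimensional ℚ Lρ := hLρfin
  haveI : FiniteDimensional ℚ Lc := hLcfin
  haveI : FiniteDimensional ℚ Ly := hLyfin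
  haveI h1 : FiniteDimensional ℚ (Lρ ⊔ Lc : IntermediateField ℚ Qb) :=
    IntermediateField.finiteDimensional_sup Lρ Lc
  haveI h2 : FiniteDimensional ℚ (Lρ ⊔ Lc ⊔ Ly : IntermediateField ℚ Qb) :=
    IntermediateField.finiteDimensional_sup (Lρ ⊔ Lc) Ly
  have hF₀fin : FiniteDimensional ℚ F₀ :=
    IntermediateField.finiteDimensional_sup (Lρ ⊔ Lc ⊔ Ly) (Fermat.Agent.S55.H414.cycloLevel p)
  have hF₀ : F₀.fixingSubgroup ≤ levelSub hc hy := by
    intro s hs
    have hs' : ∀ x ∈ F₀, s x = x := (IntermediateField.mem_fixingSubgroup_iff F₀ s).1 hs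
    have hρle : Lρ ≤ F₀ := le_sup_left.trans (le_sup_left.trans le_sup_left)
    have hcle : Lc ≤ F₀ := le_sup_right.trans (le_sup_left.trans le_sup_left)
    have hyle : Ly ≤ F₀ := le_sup_right.trans le_sup_left
    have hzle : Fermat.Agent.S55.H414.cycloLevel p ≤ F₀ := le_sup_right
    refine ⟨hLρ s (fun x hx => hs' x (hρle hx)), ?_, ?_, ?_⟩
    · intro μ hμ
      rw [pow_one]
      exact hs' μ (hzle (Fermat.Agent.S56.H536.mem_cycloLevel_of_pow_eq_one p hμ))
    · have h := hLc 1 s (fun x hx => hs' x (hcle hx))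
      rw [one_mul, ad_one hc] at h
      exact h
    · have h := hLy 1 s (fun x hx => hs' x (hyle hx))
      rw [one_mul, tw_one hy] at h
      exact h
  have hur : ∀ q : Nat.Primes, q ∉ ((Smin ∪ Q).subtype Nat.Prime : Finset Nat.Primes) →
      ∀ A : ValuationSubring (AlgebraicClosure ℚ), A.LiesOverPrime (q : ℕ) →
        A.inertiaSubgroupIn ℚ ≤ levelSub hc hy := by
    intro q hq A hA s hs
    have hq' : (q : ℕ) ∉ Smin ∪ Q := fun h => hq (Finset.mem_subtype.2 h)
    have hqSmin : (q : ℕ) ∉ Smin := fun h => hq' (Finset.mem_union_left _ h)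
    have hqp : (q : ℕ) ≠ p := fun h => hqSmin (h ▸ hyp.hpSmin)
    have hρur : ρbar.IsUnramifiedAt (q : ℕ) := by
      by_contra hne
      exact hqSmin ((hyp.hmin q q.2 hqp).2 hne)
    exact ⟨hρur A hA s hs,
      Fermat.Agent.S56.H554.fixes_mu_of_mem_inertia q.2 hA hyp.hp (Ne.symm hqp) hs,
      hcur q q.2 hq' A hA s hs, hyur q q.2 hqSmin A hA s hs⟩
  obtain ⟨F, ⟨hFfin, hFur⟩, hFfix, -⟩ := Fermat.Agent.S55.Bridge.exists_level_of_subgroup
    ((Smin ∪ Q).subtype Nat.Prime : Finset Nat.Primes) (levelSub hc hy) F₀ hF₀fin hF₀ hur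
  refine ⟨F, hFfin, ?_, ?_⟩
  · intro q hq hqS P hP s hs x hx
    have hmem : s ∈ F.fixingSubgroup :=
      hFur ⟨q, hq⟩ (fun h => hqS (Finset.mem_subtype.1 h)) P hP hs
    exact (IntermediateField.mem_fixingSubgroup_iff F s).1 hmem x hx
  · intro σ τ s s' hs hs'
    have hsN : s ∈ levelSub hc hy := by
      rw [← hFfix]
      exact (IntermediateField.mem_fixingSubgroup_iff F s).2 hs
    have hsN' : s' ∈ levelSub hc hy := by
      rw [← hFfix]
      exact (IntermediateField.mem_fixingSubgroup_iff F s').2 hs'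
    exact cup_mul_right hyp.hp hc hy σ τ s s' hsN hsN'

end Fermat.Agent.S56.RQ.H934

end

end
-- ===== PACK-END S56/RQ/GlobZH934.lean

-- ===== PACK-BEGIN S55/H295/SplitTwin.lean
section



/-!
# The splitting module of a class module is cohomologically trivial

Let `c ∈ Z²(G, C)`.  If for a subgroup `H ≤ G`

* `H¹(H, C) = 0`, `H¹(H, k) = 0`,
* `H²(H, C)` is generated by `ρ = res_H [c]`, and `r • ρ = 0` implies `|H| ∣ r`,

then `H¹(H, C(c)) = H²(H, C(c)) = 0` (`isZero_H1_splitRep`, `isZero_H2_splitRep`).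
-/

set_option autoImplicit false
set_option linter.unusedSectionVars false

open CategoryTheory groupCohomology Rep Limits

universe u

namespace Fermat.Agent.S55.H295

open Fermat.Agent.S55.H783

noncomputable section

variable {k G : Type u} [CommRing k] [Group G] [Fintype G]
variable {C : Rep.{u} k G} (c : cocycles₂ C) (H : Subgroup G)

/-- The restricted fundamental class `res_H [c]`. -/
abbrev resClass : groupCohomology (res H.subtype C) 2 :=
  (groupCohomology.map H.subtype (𝟙 (res H.subtype C)) 2).hom (H2π C c)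

/-- The connecting homomorphism `H¹(H, I) ⟶ H²(H, C)`. -/
abbrev splitδ : groupCohomology (res H.subtype (augI k G)) 1 ⟶
    groupCohomology (res H.subtype C) 2 :=
  δ (splitSESres_shortExact c H) 1 2 rfl

lemma splitδ_surjective
    (hgen : ∀ x : groupCohomology (res H.subtype C) 2, ∃ r : k, x = r • resClass c H) :
    Function.Surjective (splitδ c H).hom := by
  intro x
  obtain ⟨r, rfl⟩ := hgen x
  refine ⟨r • H1π _ (auguH H), ?_⟩
  rw [map_smul]
  congr 1
  exact δ_split_auguH c H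

lemma splitδ_injective
    (hann : ∀ r : k, r • resClass c H = 0 → ∃ d : k, r = (Nat.card H : k) * d) :
    Function.Injective (splitδ c H).hom := by
  rw [injective_iff_map_eq_zero]
  intro y hy
  induction y using H1_induction_on with
  | h z =>
    obtain ⟨r, hr⟩ := exists_cohomologous_augu H z
    rw [hr] at hy ⊢
    rw [map_smul] at hy
    have h2 : (splitδ c H).hom (H1π _ (auguH H)) = resClass c H := δ_split_auguH c H
    rw [h2] at hy
    obtain ⟨d, rfl⟩ := hann r hy
    rw [mul_comm, mul_smul, Nat.cast_smul_eq_nsmul,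
      card_nsmul_eq_zero (res H.subtype (augI k G)) 0, smul_zero]

/-- `H¹(H, C(c)) = 0`. -/
theorem isZero_H1_splitRep
    (h1 : IsZero (groupCohomology (res H.subtype C) 1))
    (hann : ∀ r : k, r • resClass c H = 0 → ∃ d : k, r = (Nat.card H : k) * d) :
    IsZero (groupCohomology (res H.subtype (splitRep c)) 1) := by
  have hX := splitSESres_shortExact c H
  have hcomp : (mapShortComplex₃ hX (i := 1) rfl).f ≫ splitδ c H = 0 :=
    (mapShortComplex₃ hX (i := 1) rfl).zero
  have hmono : Mono (splitδ c H) :=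
    (ModuleCat.mono_iff_injective _).2 (splitδ_injective c H hann)
  have hg : (mapShortComplex₃ hX (i := 1) rfl).f = 0 :=
    @zero_of_comp_mono _ _ _ _ _ _ _ (splitδ c H) hmono hcomp
  refine (mapShortComplex₂_exact hX 1).isZero_of_both_zeros (h1.eq_zero_of_src _) ?_
  exact hg

/-- `H²(H, C(c)) = 0`. -/
theorem isZero_H2_splitRep
    (hk : IsZero (groupCohomology (res H.subtype (Rep.trivial k G k)) 1))
    (hgen : ∀ x : groupCohomology (res H.subtype C) 2, ∃ r : k, x = r • resClass c H) :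
    IsZero (groupCohomology (res H.subtype (splitRep c)) 2) := by
  have hX := splitSESres_shortExact c H
  have hcomp : splitδ c H ≫ (mapShortComplex₁ hX (i := 1) rfl).g = 0 :=
    (mapShortComplex₁ hX (i := 1) rfl).zero
  have hepi : Epi (splitδ c H) :=
    (ModuleCat.epi_iff_surjective _).2 (splitδ_surjective c H hgen)
  have hf : (mapShortComplex₁ hX (i := 1) rfl).g = 0 :=
    @zero_of_epi_comp _ _ _ _ _ _ (splitδ c H) _ hepi hcomp
  refine (mapShortComplex₂_exact hX 2).isZero_of_both_zeros ?_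
    ((isZero_H2_augI H hk).eq_zero_of_tgt _)
  exact hf

end

end Fermat.Agent.S55.H295

end
-- ===== PACK-END S55/H295/SplitTwin.lean

-- ===== PACK-BEGIN S55/T/NakH837/Chase.lean
section



/-!
# S55, layer T, leaf T6 (helper837): two-step connecting maps and their naturality

* `ddUp R : H⁰(G, up (up R)) ⟶ H²(G, R)` (surjective);
* `ddRow : H⁰(G, T) ⟶ H²(G, C)` for exact rows `C → X → I`, `I → P → T`;
* `ddUp_comp_map` : compatibility for a morphism of two-step extensions.
-/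

set_option autoImplicit false
set_option linter.unusedSectionVars false
set_option linter.style.haveILetI false

open CategoryTheory groupCohomology

namespace Fermat.Agent.S55.T.H837

open Fermat.Agent.S55.H572

noncomputable section

variable {k G : Type} [CommRing k] [Group G]

/-- `Hⁿ⁺¹(G, coind₁ A) = 0`. -/
lemma isZero_groupCohomology_coind₁ (A : Rep.{0} k G) (n : ℕ) :
    Limits.IsZero (groupCohomology (coind₁ A) (n + 1)) :=
  Limits.IsZero.of_iso (isZero_groupCohomology_succ_of_subsingleton _ n)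
    (groupCohomology.coindIso _ (n + 1))

/-- The connecting map `H⁰(G, up A) ⟶ H¹(G, A)`. -/
def δUp₀ (A : Rep.{0} k G) : groupCohomology (up A) 0 ⟶ groupCohomology A 1 :=
  δ (upSC_shortExact A) 0 1 rfl

/-- The connecting map `H¹(G, up A) ⟶ H²(G, A)`. -/
def δUp₁ (A : Rep.{0} k G) : groupCohomology (up A) 1 ⟶ groupCohomology A 2 :=
  δ (upSC_shortExact A) 1 2 rfl

instance δUp₀_epi (A : Rep.{0} k G) : Epi (δUp₀ A) :=
  epi_δ_of_isZero (upSC_shortExact A) 0 (_root_.Fermat.Agent.S55.T.H837.isZero_groupCohomology_coind₁ A 0)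

instance δUp₁_isIso (A : Rep.{0} k G) : IsIso (δUp₁ A) :=
  isIso_δ_of_isZero (upSC_shortExact A) 1 (_root_.Fermat.Agent.S55.T.H837.isZero_groupCohomology_coind₁ A 0)
    (_root_.Fermat.Agent.S55.T.H837.isZero_groupCohomology_coind₁ A 1)

/-- `H⁰(G, coind₁ A) → H⁰(G, up A) → H¹(G, A)` is a complex. -/
lemma map_upπ_comp_δUp₀ (A : Rep.{0} k G) :
    coeffMap (upπ A) 0 ≫ δUp₀ A = 0 :=
  (mapShortComplex₃ (upSC_shortExact A) (i := 0) (j := 1) rfl).zero

/-- The two-step connecting map `H⁰(G, up (up R)) ⟶ H²(G, R)`. -/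
def ddUp (R : Rep.{0} k G) : groupCohomology (up (up R)) 0 ⟶ groupCohomology R 2 :=
  δUp₀ (up R) ≫ δUp₁ R

instance ddUp_epi (R : Rep.{0} k G) : Epi (ddUp R) := by
  unfold ddUp
  infer_instance

lemma ddUp_surjective (R : Rep.{0} k G) : Function.Surjective (ddUp R).hom :=
  (ModuleCat.epi_iff_surjective _).1 inferInstance

section rows

variable {C X I P T : Rep.{0} k G} {i : C ⟶ X} {π : X ⟶ I} {j : I ⟶ P} {ε : P ⟶ T}
  {w₁ : i ≫ π = 0} {w₂ : j ≫ ε = 0}
  (hA : (ShortComplex.mk i π w₁).ShortExact) (hB : (ShortComplex.mk j ε w₂).ShortExact)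

/-- The connecting map `H¹(G, I) ⟶ H²(G, C)` of the row `C → X → I`. -/
def δRow₁ : groupCohomology I 1 ⟶ groupCohomology C 2 := δ hA 1 2 rfl

/-- The connecting map `H⁰(G, T) ⟶ H¹(G, I)` of the row `I → P → T`. -/
def δRow₀ : groupCohomology T 0 ⟶ groupCohomology I 1 := δ hB 0 1 rfl

/-- The two-step connecting map `H⁰(G, T) ⟶ H²(G, C)` of two exact rows. -/
def ddRow : groupCohomology T 0 ⟶ groupCohomology C 2 :=
  δRow₀ hB ≫ δRow₁ hA

include hA hB in
lemma ddRow_surjective (h1 : Limits.IsZero (groupCohomology P 1))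
    (h2 : Limits.IsZero (groupCohomology X 2)) : Function.Surjective (ddRow hA hB).hom := by
  haveI : Epi (δRow₀ hB) := epi_δ_of_isZero hB 0 h1
  haveI : Epi (δRow₁ hA) := epi_δ_of_isZero hA 1 h2
  haveI : Epi (ddRow hA hB) := by unfold ddRow; infer_instance
  exact (ModuleCat.epi_iff_surjective _).1 inferInstance

/-- Kernel of `ddRow`: invariants of `T` coming from invariants of `P`. -/
lemma exists_of_ddRow_eq_zero (h1 : Limits.IsZero (groupCohomology X 1))
    (t : T.ρ.invariants) (ht : (ddRow hA hB).hom ((H0Iso T).inv t) = 0) :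
    ∃ p : P.V, (∀ g : G, P.ρ g p = p) ∧ ε.hom p = t.1 := by
  haveI : Mono (δRow₁ hA) := mono_δ_of_isZero hA 1 h1
  have h3 : (δRow₀ hB).hom ((H0Iso T).inv t) = 0 := by
    apply (ModuleCat.mono_iff_injective (δRow₁ hA)).1 inferInstance
    rw [map_zero]
    exact ht
  have hex := mapShortComplex₃_exact hB (i := 0) (j := 1) rfl
  rw [ShortComplex.moduleCat_exact_iff] at hex
  obtain ⟨w, hw⟩ := hex _ h3
  refine ⟨((H0Iso P).hom w).1, fun g => ((H0Iso P).hom w).2 g, ?_⟩
  have h4 := congrArg (fun m => (m.hom w).1) (map_id_comp_H0Iso_hom ε)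
  have h5 : (H0Iso T).hom ((coeffMap ε 0).hom w) = t := by
    have : (coeffMap ε 0).hom w = (H0Iso T).inv t := hw
    rw [this]
    exact congrArg (fun m => m.hom t) (H0Iso T).inv_hom_id
  have h6 : ((H0Iso T).hom ((coeffMap ε 0).hom w)).1 = ε.hom ((H0Iso P).hom w).1 :=
    h4
  rw [← h6, h5]

/-- Naturality of the two-step connecting maps for a morphism of two-step extensions. -/
theorem ddUp_comp_map {R : Rep.{0} k G} (f : R ⟶ C) (t₂ : coind₁ R ⟶ X) (h : up R ⟶ I)
    (t₂' : coind₁ (up R) ⟶ P) (e : up (up R) ⟶ T)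
    (c1 : f ≫ i = coind₁ι R ≫ t₂) (c2 : t₂ ≫ π = upπ R ≫ h)
    (c3 : h ≫ j = coind₁ι (up R) ≫ t₂') (c4 : t₂' ≫ ε = upπ (up R) ≫ e) :
    ddUp R ≫ coeffMap f 2 = coeffMap e 0 ≫ ddRow hA hB := by
  let Φ₁ : upSC R ⟶ ShortComplex.mk i π w₁ :=
    { τ₁ := f, τ₂ := t₂, τ₃ := h, comm₁₂ := c1, comm₂₃ := c2 }
  let Φ₂ : upSC (up R) ⟶ ShortComplex.mk j ε w₂ :=
    { τ₁ := h, τ₂ := t₂', τ₃ := e, comm₁₂ := c3, comm₂₃ := c4 }
  have n1 : δUp₁ R ≫ coeffMap f 2 = coeffMap h 1 ≫ δRow₁ hA :=
    δ_naturality (upSC_shortExact R) hA Φ₁ 1 2 rfl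
  have n2 : δUp₀ (up R) ≫ coeffMap h 1 = coeffMap e 0 ≫ δRow₀ hB :=
    δ_naturality (upSC_shortExact (up R)) hB Φ₂ 0 1 rfl
  unfold ddUp ddRow
  rw [Category.assoc, n1, ← Category.assoc, n2, Category.assoc]

end rows

end

end Fermat.Agent.S55.T.H837

end
-- ===== PACK-END S55/T/NakH837/Chase.lean

-- ===== PACK-BEGIN S55/G/Rec/Loc/UnifH544.lean
section




/-!
# S55 / G / REC / LOC, leaf LOC-UNIF (helper544): `UnifSpec`

`theorem unif_of (hO : OpenSpec) : UnifSpec`, and, with `H478.openSpec`, the unconditional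
`theorem unif : UnifSpec`.

Proof.  Let `χ : V → ℤ/n` be unramified, `c = π ∪ δχ` level-constant.
1. `χ` is continuous (`exists_level_of_cupChar544`: level-constancy of `c`, `π` is not a root of
   unity).
2. `χ` is trivial on `V ∩ Gal(ℚ̄_q / K(μ_r))` for some `r` prime to `q`
   (`exists_cyclotomic_level544`: infinite Galois theory + Teichmüller representatives).
   Level `E := K(μ_r)`, finite Galois over `K = K_V`; `χ` descends to `χ_E` on `Gal(E/K)`.
3. `E / K` is unramified (`isUnramifiedExt_cycLevel544`: trivial inertia), the restriction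
   `φ_E` of the Frobenius is a Frobenius element and generates `Gal(E/K)`.
4. `f := cupChar π χ_E` inflates to `c`; with the generating character `ψ` (`ψ φ_E = 1`),
   `cupChar π ψ` is the cyclic cocycle of `(φ_E, π)`, of invariant `1 / d` (`J.inv_unramified`),
   and `[f] = (χ̃(φ) d / n) • [cupChar π ψ]` (`cc_eq_nsmul_cc544`).
-/

set_option autoImplicit false
set_option linter.unusedSectionVars false
set_option linter.style.haveILetI false

noncomputable section

namespace Fermat.Agent.S55.G.Rec.Loc.H544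

open groupCohomology Fermat.Agent.S55 Fermat.Agent.S55.G.Rec Fermat.Agent.S55.G.Rec.Loc

/-- Arithmetic in `ℚ/ℤ`. -/
theorem nsmul_inv_eq544 {s d a n : ℕ} (hd : d ≠ 0) (hn : n ≠ 0) (h : s * n = a * d) :
    s • (((d : ℚ)⁻¹ : ℚ) : AddCircle (1 : ℚ)) = (((a : ℚ) / (n : ℚ) : ℚ) : AddCircle (1 : ℚ)) := by
  rw [← AddCircle.coe_nsmul]
  congr 1
  have hd' : (d : ℚ) ≠ 0 := Nat.cast_ne_zero.2 hd
  have hn' : (n : ℚ) ≠ 0 := Nat.cast_ne_zero.2 hn
  have h' : (s : ℚ) * n = a * d := by exact_mod_cast h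
  rw [nsmul_eq_mul]
  field_simp
  linarith

/-- A fixed unit as an invariant of `L.unitsRep`. -/
def unitsInvariant544 {K M : Type} [Field K] [Field M] [Algebra K M] (u : Mˣ)
    (hu : ∀ g : M ≃ₐ[K] M, g • u = u) : (L.unitsRep K M).ρ.invariants :=
  invariantOfFixed u hu

theorem cupChar_unitsInvariant544 {K M : Type} [Field K] [Field M] [Algebra K M] {n : ℕ}
    [NeZero n] (χ : (M ≃ₐ[K] M) →* Multiplicative (ZMod n)) (u : Mˣ)
    (hu : ∀ g : M ≃ₐ[K] M, g • u = u) (g h : M ≃ₐ[K] M) :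
    (cupChar (L.unitsRep K M) χ (unitsInvariant544 u hu) :
      (M ≃ₐ[K] M) × (M ≃ₐ[K] M) → L.unitsRep K M) (g, h) =
      Additive.ofMul (u ^ carry χ g h) := rfl

/-- **LOC-UNIF.** -/
theorem unif_of (hO : OpenSpec) : UnifSpec := by
  intro q _ V _ hV n _ χ hχ φ hφ π hπ c hc J
  -- the structure of `V` and of `K = K_V`
  obtain ⟨hKfin, hKfix⟩ := hO q V hV
  haveI := hKfin
  obtain ⟨A, hA, hAmem⟩ := L.exists_ringOfIntegers_eq_unitBall63 q (fixedFld q V)
  obtain ⟨hdvr, hcomp, hfinres⟩ := id hA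
  haveI := hdvr
  haveI := hcomp
  haveI := hfinres
  obtain ⟨hπfix, hπ0, hπ1, hπmax⟩ := hπ
  -- continuity and the level
  have hcont := exists_level_of_cupChar544 q V n χ π hπ1 c hc
  obtain ⟨r, hr, hqr, hrχ⟩ := exists_cyclotomic_level544 q hO V hV n χ hχ hcont
  haveI := normal_cycLevel544 q V r
  haveI := finiteDimensional_cycLevel544 q V r
  haveI := isGalois_cycLevel544 q V r
  have hsurj := resHom_surjective544 q V hKfix (cycLevel544 q V r)
  have hker : (resHom q V (cycLevel544 q V r)).ker ≤ χ.ker := by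
    intro g hg
    rw [MonoidHom.mem_ker] at hg ⊢
    exact hrχ g fun ζ hζ => fixes_of_resHom_eq_one544 q V hr g hg ζ hζ
  have hχE_res : ∀ g, descChar544 q V (cycLevel544 q V r) χ hsurj hker
      (resHom q V (cycLevel544 q V r) g) = χ g :=
    descChar_resHom544 q V (cycLevel544 q V r) χ hsurj hker
  have hcomp' : (descChar544 q V (cycLevel544 q V r) χ hsurj hker).comp
      (resHom q V (cycLevel544 q V r)) = χ := MonoidHom.ext hχE_res
  -- the uniformizer as an element of `K` and of `E`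
  have hπK : (π : PadicAlgCl q) ∈ fixedFld q V :=
    (IntermediateField.mem_fixedField_iff _ _).2 hπfix
  have hπK0 : (⟨π, hπK⟩ : fixedFld q V) ≠ 0 := fun h => hπ0 (congrArg Subtype.val h)
  obtain ⟨πK, hπKdef⟩ : ∃ πK : (fixedFld q V)ˣ, (πK : fixedFld q V) = ⟨π, hπK⟩ :=
    ⟨Units.mk0 _ hπK0, rfl⟩
  obtain ⟨πE, hπEdef⟩ : ∃ πE : (↥(cycLevel544 q V r))ˣ, πE =
      Units.map (algebraMap (fixedFld q V) (cycLevel544 q V r) :
        fixedFld q V →* cycLevel544 q V r) πK := ⟨_, rfl⟩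
  have hπEincl : unitsIncl q V (cycLevel544 q V r) πE = π := by
    apply Units.ext
    rw [hπEdef]
    show ((algebraMap (fixedFld q V) (cycLevel544 q V r) (πK : fixedFld q V) :
      cycLevel544 q V r) : PadicAlgCl q) = π
    rw [hπKdef]
    rfl
  have hinv : ∀ g : cycLevel544 q V r ≃ₐ[fixedFld q V] cycLevel544 q V r, g • πE = πE := by
    intro g
    apply Units.ext
    rw [hπEdef]
    exact g.commutes _
  -- the cocycles
  obtain ⟨a, ha⟩ : ∃ a : (L.unitsRep (fixedFld q V) (cycLevel544 q V r)).ρ.invariants,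
      a = unitsInvariant544 πE hinv := ⟨_, rfl⟩
  refine ⟨cycLevel544 q V r, inferInstance, inferInstance,
    cupChar (L.unitsRep (fixedFld q V) (cycLevel544 q V r))
      (descChar544 q V (cycLevel544 q V r) χ hsurj hker) a, ?_, ?_⟩
  · -- inflation
    funext ⟨g, h⟩
    rw [isCupChar_apply544 hc, toLMod_nsmul544]
    show toLMod q V (π ^ carry χ g h) = Additive.ofMul (unitsIncl q V (cycLevel544 q V r)
      (Additive.toMul (cupChar (L.unitsRep (fixedFld q V) (cycLevel544 q V r))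
        (descChar544 q V (cycLevel544 q V r) χ hsurj hker) a
        (resHom q V (cycLevel544 q V r) g, resHom q V (cycLevel544 q V r) h))))
    rw [ha, cupChar_unitsInvariant544 (K := ↥(fixedFld q V)) (M := ↥(cycLevel544 q V r)),
      toMul_ofMul, map_pow, hπEincl, ← carry_comp, hcomp']
    rfl
  · -- the invariant
    have hunr : L.IsUnramifiedExt (fixedFld q V) (cycLevel544 q V r) :=
      isUnramifiedExt_cycLevel544 A hAmem hr hqr
    have hfrobE := isFrobeniusElt544 A hAmem (cycLevel544 q V r) φ hφ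
    have hgen := frobenius_generates544 A hAmem (cycLevel544 q V r) hKfix hunr φ hφ
    have hπunif : L.IsUniformizer A (πK : fixedFld q V) := by
      rw [hπKdef]
      exact isUniformizer_of_norm544 A hAmem ⟨π, hπK⟩ hπK0 hπ1 fun x hx =>
        hπmax _ ((IntermediateField.mem_fixedField_iff _ _).1 x.2) hx
    haveI : NeZero (Module.finrank (fixedFld q V) (cycLevel544 q V r)) :=
      ⟨Module.finrank_pos.ne'⟩
    obtain ⟨ψ, hψ⟩ := exists_isGenChar (resHom q V (cycLevel544 q V r) ⟨φ, hφ.1⟩) hgen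
      (IsGalois.card_aut_eq_finrank (fixedFld q V) (cycLevel544 q V r))
    -- the cyclic cocycle
    have hcyc : L.IsCyclicCocycle (resHom q V (cycLevel544 q V r) ⟨φ, hφ.1⟩) πK
        (cupChar (L.unitsRep (fixedFld q V) (cycLevel544 q V r)) ψ a) := by
      intro i j hi hj
      rw [ha, cupChar_unitsInvariant544 (K := ↥(fixedFld q V)) (M := ↥(cycLevel544 q V r)),
        carry, hψ.lift_pow_of_lt hi, hψ.lift_pow_of_lt hj]
      split_ifs with hij
      · rw [Nat.div_eq_of_lt hij, pow_zero]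
        rfl
      · have h1 : (i + j) / Module.finrank (fixedFld q V) (cycLevel544 q V r) = 1 := by
          rw [Nat.div_eq_iff (Nat.pos_of_ne_zero (NeZero.ne _))]
          omega
        rw [h1, pow_one, hπEdef]
    have h1 := J.inv_unramified (fixedFld q V) (cycLevel544 q V r) hunr A hA _ hfrobE πK hπunif
      _ hcyc
    have h2 := cc_eq_nsmul_cc544 (L.unitsRep (fixedFld q V) (cycLevel544 q V r))
      (descChar544 q V (cycLevel544 q V r) χ hsurj hker) hψ a
    have h3 : lift (descChar544 q V (cycLevel544 q V r) χ hsurj hker)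
        (resHom q V (cycLevel544 q V r) ⟨φ, hφ.1⟩) =
        (Multiplicative.toAdd (χ ⟨φ, hφ.1⟩)).val := by
      rw [lift, hχE_res]
    show J.inv (fixedFld q V) (cycLevel544 q V r)
      ((H2π (L.unitsRep (fixedFld q V) (cycLevel544 q V r))).hom _) = _
    rw [h2, map_nsmul]
    have h1' : J.inv (fixedFld q V) (cycLevel544 q V r)
        ((H2π (L.unitsRep (fixedFld q V) (cycLevel544 q V r))).hom
          (cupChar (L.unitsRep (fixedFld q V) (cycLevel544 q V r)) ψ a)) =
        (((Module.finrank (fixedFld q V) (cycLevel544 q V r) : ℚ)⁻¹ : ℚ) :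
          AddCircle (1 : ℚ)) := h1
    rw [h1']
    obtain ⟨s, hs⟩ := dvd_lift_mul544
      (descChar544 q V (cycLevel544 q V r) χ hsurj hker) hψ
    have hn0 : 0 < n := Nat.pos_of_ne_zero (NeZero.ne n)
    have hs' : lift (descChar544 q V (cycLevel544 q V r) χ hsurj hker)
        (resHom q V (cycLevel544 q V r) ⟨φ, hφ.1⟩) *
        Module.finrank (fixedFld q V) (cycLevel544 q V r) / n = s := by
      rw [hs]
      exact Nat.mul_div_cancel_left s hn0
    rw [hs']
    refine nsmul_inv_eq544 (NeZero.ne _) (NeZero.ne n) ?_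
    rw [← h3, hs, mul_comm]

/-- **LOC-UNIF**, unconditional (`OpenSpec` is `H478.openSpec`). -/
theorem unif : UnifSpec := unif_of H478.openSpec

end Fermat.Agent.S55.G.Rec.Loc.H544

end
end
-- ===== PACK-END S55/G/Rec/Loc/UnifH544.lean

-- ===== PACK-BEGIN S55/E1/H423/Lim5Core.lean
section



/-!
# S55, engine E1, block LIM: generic cores of LIM5 (ii) and (iii)

Setting: a change of group `π : G' →* G`, `ν : N' ⟶ res π N`, `ι : res π X ⟶ X'`
(`E1/Tr/Defs.lean`), `p` prime with `p N' = 0`.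

* `exists_edgeIncl_eq_trE2` (**LIM5 (iii)**): if `c` is a `1`-cocycle `G → Hom_ℤ(R, X)` such
  that all `ι (c g r)` are divisible by `p` in `X'`, then `tr [c] = incl_* b'` for some
  `b' ∈ H¹(G', 𝔹')`; hence `tr [c] = e(δ' b')` lies in the image of the edge map
  (`isEdge_trE2`).
* `map_trEdgeB_eq_zero` (**LIM5 (ii)**): if `β : G → 𝔹` is a cocycle which is the coboundary of
  `φ ∈ Hom_ℤ(R, X)` and all `ι (φ r)` are divisible by `p` in `X'`, then `tr [β] = 0` in
  `H¹(G', 𝔹')`.  `exists_primitive` produces `β`, `φ` from `incl_* b = 0`.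
* `div_of_div_on_generators` : divisibility of the values on a generating set suffices.
-/

set_option autoImplicit false
set_option linter.style.haveILetI false

open CategoryTheory CategoryTheory.Limits

namespace Fermat.Agent.S55.E1.H423

open Fermat.Agent.S55.E1
open Fermat.Agent.S55.T.H719 (ihomLin)

section Core

variable {G G' : Type} [Group G] [Group G'] (π : G' →* G)
variable {N : Rep.{0} ℤ G} {N' : Rep.{0} ℤ G'} (ν : N' ⟶ Rep.res π N)
variable {X : Rep.{0} ℤ G} {X' : Rep.{0} ℤ G'} (ι : Rep.res π X ⟶ X')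

/-- The values of `tr φ = ι ∘ φ ∘ ρ`. -/
theorem ihomLin_trIhom (φ : ((Rep.ihom (stdR N)).obj X).V) (r' : (stdR N').V) :
    ihomLin ((trIhom π (trR π ν) ι).hom φ) r' = ι.hom (ihomLin φ ((trR π ν).hom r')) := rfl

/-- **LIM5 (iii), generic core.** -/
theorem exists_edgeIncl_eq_trE2 {p : ℕ} (hp : p.Prime) (hN' : ∀ n : N'.V, p • n = 0)
    (c : groupCohomology.cocycles₁ ((Rep.ihom (stdR N)).obj X))
    (hdiv : ∀ (g : G) (r : (stdR N).V), ∃ x' : X'.V, ι.hom (ihomLin (c g) r) = p • x') :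
    ∃ b' : groupCohomology (edgeB N' X') 1,
      edgeIncl N' X' b' = trE2 π ν ι (groupCohomology.H1π _ c) := by
  let c' : groupCohomology.cocycles₁ ((Rep.ihom (stdR N')).obj X') :=
    groupCohomology.mapCocycles₁ π (trIhom π (trR π ν) ι) c
  have hc' : ∀ (g' : G') (r' : (stdR N').V), ∃ x' : X'.V, ihomLin (c' g') r' = p • x' := by
    intro g' r'
    exact hdiv (π g') ((trR π ν).hom r')
  obtain ⟨b', hb'⟩ := alg9aCocycleSpec p hp G' N' X' hN' c' hc'
  refine ⟨b', ?_⟩
  rw [hb']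
  unfold trE2
  erw [groupCohomology.H1π_comp_map_apply]

/-- **LIM5 (iii)**: after transition, the class lies in the image of the edge map. -/
theorem isEdge_trE2 {p : ℕ} (hp : p.Prime) (hN' : ∀ n : N'.V, p • n = 0)
    (c : groupCohomology.cocycles₁ ((Rep.ihom (stdR N)).obj X))
    (hdiv : ∀ (g : G) (r : (stdR N).V), ∃ x' : X'.V, ι.hom (ihomLin (c g) r) = p • x') :
    ∃ x'' : groupCohomology ((Rep.ihom N').obj X') 2,
      IsEdge x'' (trE2 π ν ι (groupCohomology.H1π _ c)) := by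
  obtain ⟨b', hb'⟩ := exists_edgeIncl_eq_trE2 π ν ι hp hN' c hdiv
  exact ⟨edgeδ N' X' b', b', rfl, hb'⟩

/-- **LIM5 (ii), generic core.**  If the cocycle `β : G → 𝔹` is the coboundary of
`φ ∈ Hom_ℤ(R, X)` and the values of `ι ∘ φ` are divisible by `p` in `X'`, then `tr [β] = 0`
in `H¹(G', 𝔹')`. -/
theorem map_trEdgeB_eq_zero {p : ℕ} (hp : p.Prime) (hN' : ∀ n : N'.V, p • n = 0)
    (β : groupCohomology.cocycles₁ (edgeB N X)) (φ : ((Rep.ihom (stdR N)).obj X).V)
    (hβ : ∀ g : G, ((β g).1 : ((Rep.ihom (stdR N)).obj X).V) =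
      ((Rep.ihom (stdR N)).obj X).ρ g φ - φ)
    (hdiv : ∀ r : (stdR N).V, ∃ x' : X'.V, ι.hom (ihomLin φ r) = p • x') :
    (groupCohomology.map π (trEdgeB π ν ι) 1).hom (groupCohomology.H1π _ β) = 0 := by
  erw [groupCohomology.H1π_comp_map_apply]
  rw [groupCohomology.H1π_eq_zero_iff]
  have hmem : (trIhom π (trR π ν) ι).hom φ ∈ ihomImage (stdι N') X' :=
    alg9aSpec p hp G' N' X' hN' _ (fun r' => hdiv _)
  refine ⟨⟨(trIhom π (trR π ν) ι).hom φ, hmem⟩, ?_⟩
  funext g'
  apply Subtype.ext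
  have h1 : (trIhom π (trR π ν) ι).hom ((β (π g')).1) =
      (trIhom π (trR π ν) ι).hom (((Rep.ihom (stdR N)).obj X).ρ (π g') φ) -
        (trIhom π (trR π ν) ι).hom φ := by
    rw [hβ, map_sub]
  have h2 : (trIhom π (trR π ν) ι).hom (((Rep.ihom (stdR N)).obj X).ρ (π g') φ) =
      ((Rep.ihom (stdR N')).obj X').ρ g' ((trIhom π (trR π ν) ι).hom φ) :=
    Rep.hom_comm_apply (trIhom π (trR π ν) ι) g' φ
  rw [h2] at h1
  exact h1.symm

end Core

section Primitive

variable {G : Type} [Group G] {N X : Rep.{0} ℤ G}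

/-- A class `b ∈ H¹(G, 𝔹)` with `incl_* b = 0` is represented by a cocycle which is the
coboundary of some `φ ∈ Hom_ℤ(R, X)`. -/
theorem exists_primitive (b : groupCohomology (edgeB N X) 1) (hb : edgeIncl N X b = 0) :
    ∃ (β : groupCohomology.cocycles₁ (edgeB N X)) (φ : ((Rep.ihom (stdR N)).obj X).V),
      groupCohomology.H1π _ β = b ∧
      ∀ g : G, ((β g).1 : ((Rep.ihom (stdR N)).obj X).V) =
        ((Rep.ihom (stdR N)).obj X).ρ g φ - φ := by
  induction b using groupCohomology.H1_induction_on with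
  | h β =>
    unfold edgeIncl at hb
    erw [groupCohomology.H1π_comp_map_apply] at hb
    rw [groupCohomology.H1π_eq_zero_iff] at hb
    obtain ⟨φ, hφ⟩ := hb
    refine ⟨β, φ, rfl, fun g => ?_⟩
    have := congrFun hφ g
    exact this.symm

end Primitive

section Wrap

variable {G : Type} [Group G] {N X : Rep.{0} ℤ G}

/-- **LIM5 (ii)**, in terms of `b ∈ H¹(G, 𝔹)`: if `incl_* b = 0` there is `φ ∈ Hom_ℤ(R, X)` such
that `tr b = 0` for every transition which makes the values of `φ` divisible by `p`. -/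
theorem exists_forall_map_trEdgeB_eq_zero {p : ℕ} (hp : p.Prime)
    (b : groupCohomology (edgeB N X) 1) (hb : edgeIncl N X b = 0) :
    ∃ φ : ((Rep.ihom (stdR N)).obj X).V,
      ∀ (G' : Type) [Group G'] (π : G' →* G) (N' : Rep.{0} ℤ G') (ν : N' ⟶ Rep.res π N)
        (X' : Rep.{0} ℤ G') (ι : Rep.res π X ⟶ X'), (∀ n : N'.V, p • n = 0) →
        (∀ r : (stdR N).V, ∃ x' : X'.V, ι.hom (ihomLin φ r) = p • x') →
        (groupCohomology.map π (trEdgeB π ν ι) 1).hom b = 0 := by
  obtain ⟨β, φ, rfl, hβ⟩ := exists_primitive b hb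
  exact ⟨φ, fun G' _ π N' ν X' ι hN' hdiv => map_trEdgeB_eq_zero π ν ι hp hN' β φ hβ hdiv⟩

/-- **LIM5 (ii)**, in terms of `x ∈ H²(G, Hom_ℤ(N, X))`: if `e(x) = 0` there is
`φ ∈ Hom_ℤ(R, X)` such that `inf x = 0` for every transition which makes the values of `φ`
divisible by `p`. -/
theorem exists_forall_inf_eq_zero (h10 : ALG10EdgeSpec) {p : ℕ} (hp : p.Prime)
    (x : groupCohomology ((Rep.ihom N).obj X) 2) (hx : IsEdge x (0 : E2 N X)) :
    ∃ φ : ((Rep.ihom (stdR N)).obj X).V,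
      ∀ (G' : Type) [Group G'] (π : G' →* G) (N' : Rep.{0} ℤ G') (ν : N' ⟶ Rep.res π N)
        (X' : Rep.{0} ℤ G') (ι : Rep.res π X ⟶ X'), (∀ n : N'.V, p • n = 0) →
        (∀ r : (stdR N).V, ∃ x' : X'.V, ι.hom (ihomLin φ r) = p • x') →
        (groupCohomology.map π (trIhom π ν ι) 2).hom x = 0 := by
  obtain ⟨b, rfl, hb⟩ := hx
  obtain ⟨φ, hφ⟩ := exists_forall_map_trEdgeB_eq_zero hp b hb
  refine ⟨φ, fun G' _ π N' ν X' ι hN' hdiv => ?_⟩
  have h1 := (h10 G G' π N N' ν X X' ι b).1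
  rw [← h1, hφ G' π N' ν X' ι hN' hdiv, map_zero]

end Wrap

section Generators

variable {G G' : Type} [Group G] [Group G'] (π : G' →* G)
variable {A X : Rep.{0} ℤ G} {X' : Rep.{0} ℤ G'} (ι : Rep.res π X ⟶ X')

/-- Divisibility of the values of `ι ∘ φ` on a generating set suffices. -/
theorem div_of_div_on_generators (p : ℕ) (φ : ((Rep.ihom A).obj X).V) (s : Set A.V)
    (hs : AddSubgroup.closure s = ⊤)
    (h : ∀ r ∈ s, ∃ x' : X'.V, ι.hom (ihomLin φ r) = p • x') :
    ∀ r : A.V, ∃ x' : X'.V, ι.hom (ihomLin φ r) = p • x' := by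
  intro r
  have hr : r ∈ AddSubgroup.closure s := by rw [hs]; exact AddSubgroup.mem_top r
  induction hr using AddSubgroup.closure_induction with
  | mem y hy => exact h y hy
  | zero => exact ⟨0, by rw [map_zero, map_zero, smul_zero]⟩
  | add y z _ _ hy hz =>
    obtain ⟨a, ha⟩ := hy
    obtain ⟨b, hb⟩ := hz
    exact ⟨a + b, by rw [map_add, map_add, ha, hb, smul_add]⟩
  | neg y _ hy =>
    obtain ⟨a, ha⟩ := hy
    exact ⟨-a, by rw [map_neg, map_neg, ha, smul_neg]⟩

/-- A finitely generated `ℤ`-module (w.r.t. the module structure of the representation) is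
generated, as an additive group, by a finite set. -/
theorem exists_finset_closure_eq_top (A : Rep.{0} ℤ G)
    (hA : @Module.Finite ℤ A.V _ _ A.hV2) :
    ∃ s : Finset A.V, AddSubgroup.closure (s : Set A.V) = ⊤ := by
  letI : Module ℤ A.V := A.hV2
  obtain ⟨s, hs⟩ := hA.fg_top
  refine ⟨s, ?_⟩
  have key : ∀ x : A.V, x ∈ Submodule.span ℤ (s : Set A.V) →
      x ∈ AddSubgroup.closure (s : Set A.V) := by
    intro x hx
    induction hx using Submodule.span_induction with
    | mem y hy => exact AddSubgroup.subset_closure hy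
    | zero => exact AddSubgroup.zero_mem _
    | add y z _ _ hy hz => exact AddSubgroup.add_mem _ hy hz
    | smul n y _ hy =>
      have h1 : @HSMul.hSMul ℤ A.V A.V (@instHSMul ℤ A.V A.hV2.toSMul) n y = n • y :=
        int_smul_eq_zsmul A.hV2 n y
      rw [h1]
      exact AddSubgroup.zsmul_mem _ hy n
  rw [eq_top_iff]
  intro x _
  exact key x (by rw [hs]; exact Submodule.mem_top)

end Generators

end Fermat.Agent.S55.E1.H423

end
-- ===== PACK-END S55/E1/H423/Lim5Core.lean

-- ===== PACK-BEGIN S55/GAD/SUnitDictH655.lean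
section



/-!
# S55 / G-ADAPTER leaf GAD-SU (helper655): the `S`-unit dictionary

`divT L e = 0 ↔ L.IsSUnit e` for the concrete tower datum of `GAD/Defs.lean`: a unit of the level
field has trivial divisor outside `S` (layer-G language: `ord_w = 0` at every prime `w` of `𝓞_F`
not above `S`) iff it is an `S`-unit in the tower's sense (unit at every valuation subring of `ℚ̄`
over a prime `ℓ ∉ S`).  This is `Bridge.isSUnit_levelUnitsIso_iff` (part B17 of the bridge)
transported along `toField = levelUnitsIso.inv`.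
-/

set_option autoImplicit false

namespace Fermat.Agent.S55.GAD.H655

open Fermat.Agent.S55 Fermat.Agent.S55.Tow Fermat.Agent.S55.E1.H594 Fermat.Agent.S55.G

variable {S : Finset Nat.Primes}

/-- `divT L e = 0` iff `toField L e` is an `S`-unit of layer G. -/
theorem divT_eq_zero_iff_mem_sUnit (L : Level S) (e : L.units.V) :
    GAD.divT L e = 0 ↔ GAD.toField L e ∈ G.sUnit S L.F := by
  rfl

/-- **GAD-SU**, pointwise form. -/
theorem divT_eq_zero_iff (L : Level S) (e : L.units.V) :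
    GAD.divT L e = 0 ↔ L.IsSUnit e := by
  rw [divT_eq_zero_iff_mem_sUnit, ← Bridge.isSUnit_levelUnitsIso_iff L (GAD.toField L e)]
  have h : (levelUnitsIso L).hom.hom (GAD.toField L e) = e :=
    Rep.hom_inv_apply _ _ (levelUnitsIso L) e
  rw [h]

/-- **GAD-SU** (`GAD/Spec.lean`): exact shape of `SUnitDictSpec S`. -/
theorem sUnitDict (S : Finset Nat.Primes) : GAD.SUnitDictSpec S :=
  fun L e => divT_eq_zero_iff L e

end Fermat.Agent.S55.GAD.H655

end
-- ===== PACK-END S55/GAD/SUnitDictH655.lean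

-- ===== PACK-BEGIN S55/GAD/SUnitH175.lean
section



/-!
# S55 / G-ADAPTER leaf GAD-SU : the dictionary of `S`-units (helper175)

`sUnitDict : GAD.SUnitDictSpec S` — for `x ∈ Fˣ` (`F` a level of the tower):
the divisor of `x` outside `S` vanishes (layer-G language: `ord_w x = 0` for all primes `w` of
`𝓞_F` not above `S`) iff `x` is an `S`-unit in the tower's sense (a unit of every valuation
subring of `ℚ̄` over a prime `ℓ ∉ S`).

General lemmas (any number field `K` inside any field `Ω`):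
* `valuation_eq_one_iff_mem_and_inv_mem` : if the prime `w` of `𝓞_K` is the contraction of the
  maximal ideal of the valuation subring `A` of `Ω`, then `w(x) = 1 ↔ x, x⁻¹ ∈ A`;
* `exists_valuationSubring_over` : every prime `w` of `𝓞_K` is such a contraction.
-/

set_option autoImplicit false
set_option linter.unusedSectionVars false

open scoped NumberField
open IsDedekindDomain

namespace Fermat.Agent.S55.GAD.H175

section General

variable {K : Type*} [Field K] [NumberField K] {Ω : Type*} [Field Ω] [Algebra K Ω]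

/-- The integers of `K` lie in every valuation subring of `Ω`. -/
theorem algebraMap_int_mem (A : ValuationSubring Ω) (b : 𝓞 K) :
    algebraMap K Ω (b : K) ∈ A := by
  have hb : IsIntegral ℤ (b : K) := NumberField.RingOfIntegers.isIntegral_coe b
  exact Fermat.Agent.S54.isIntegral_mem_valuationSubring A (hb.map (algebraMap K Ω).toIntAlgHom)

/-- Non-units of a valuation subring absorb multiplication by elements of the subring. -/
theorem nonunits_mul_mem (A : ValuationSubring Ω) {a b : Ω} (ha : a ∈ A.nonunits)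
    (hb : b ∈ A) : a * b ∈ A.nonunits := by
  rw [ValuationSubring.mem_nonunits_iff] at ha ⊢
  have hb' : A.valuation b ≤ 1 := (A.valuation_le_one_iff b).2 hb
  rw [map_mul]
  calc A.valuation a * A.valuation b ≤ A.valuation a * 1 := mul_le_mul_right hb' _
    _ = A.valuation a := mul_one _
    _ < 1 := ha

variable (A : ValuationSubring Ω) (w : HeightOneSpectrum (𝓞 K))

/-- Elements of `K` which are `w`-integral lie in `A`, if `w` is the prime below `A`. -/
theorem mem_of_valuation_le_one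
    (hw : ∀ b : 𝓞 K, b ∈ w.asIdeal ↔ algebraMap K Ω (b : K) ∈ A.nonunits) (y : K)
    (hy : w.valuation K y ≤ 1) : algebraMap K Ω y ∈ A := by
  obtain ⟨n, d, hnd⟩ := w.exists_primeCompl_mul_eq_of_integer y hy
  have hd : algebraMap K Ω ((d : 𝓞 K) : K) ∉ A.nonunits := fun h => d.2 ((hw d).2 h)
  have hdinv : (algebraMap K Ω ((d : 𝓞 K) : K))⁻¹ ∈ A := by
    by_contra h
    exact hd (A.mem_nonunits_iff_or.mpr (Or.inr h))
  have hd0 : algebraMap K Ω ((d : 𝓞 K) : K) ≠ 0 := fun h => hd (h ▸ A.nonunits.zero_mem)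
  have hnd' : algebraMap K Ω y * algebraMap K Ω ((d : 𝓞 K) : K) = algebraMap K Ω (n : K) := by
    rw [← map_mul]
    exact congrArg (algebraMap K Ω) hnd
  have : algebraMap K Ω y = algebraMap K Ω (n : K) * (algebraMap K Ω ((d : 𝓞 K) : K))⁻¹ := by
    rw [← hnd']
    field_simp
  rw [this]
  exact A.mul_mem _ _ (algebraMap_int_mem A n) hdinv

/-- Elements of `K` of positive `w`-valuation are non-units of `A`. -/
theorem mem_nonunits_of_valuation_lt_one
    (hw : ∀ b : 𝓞 K, b ∈ w.asIdeal ↔ algebraMap K Ω (b : K) ∈ A.nonunits) (y : K)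
    (hy : w.valuation K y < 1) : algebraMap K Ω y ∈ A.nonunits := by
  obtain ⟨n, d, hnd⟩ := w.exists_primeCompl_mul_eq_of_integer y hy.le
  have hd : algebraMap K Ω ((d : 𝓞 K) : K) ∉ A.nonunits := fun h => d.2 ((hw d).2 h)
  have hdinv : (algebraMap K Ω ((d : 𝓞 K) : K))⁻¹ ∈ A := by
    by_contra h
    exact hd (A.mem_nonunits_iff_or.mpr (Or.inr h))
  have hd0 : algebraMap K Ω ((d : 𝓞 K) : K) ≠ 0 := fun h => hd (h ▸ A.nonunits.zero_mem)
  have hvd : w.valuation K (algebraMap (𝓞 K) K (d : 𝓞 K)) = 1 :=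
    (HeightOneSpectrum.valuation_eq_one_iff_notMem w).2 d.2
  have hvn : w.valuation K (algebraMap (𝓞 K) K n) < 1 := by
    rw [← hnd, map_mul, hvd, mul_one]
    exact hy
  have hn : n ∈ w.asIdeal := (w.valuation_lt_one_iff_mem n).1 hvn
  have hnA : algebraMap K Ω (n : K) ∈ A.nonunits := (hw n).1 hn
  have hnd' : algebraMap K Ω y * algebraMap K Ω ((d : 𝓞 K) : K) = algebraMap K Ω (n : K) := by
    rw [← map_mul]
    exact congrArg (algebraMap K Ω) hnd
  have : algebraMap K Ω y = algebraMap K Ω (n : K) * (algebraMap K Ω ((d : 𝓞 K) : K))⁻¹ := by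
    rw [← hnd']
    field_simp
  rw [this]
  exact nonunits_mul_mem A hnA hdinv

/-- **Unit criterion.**  If `w` is the prime of `𝓞_K` below the valuation subring `A` of `Ω`, then
`x ∈ Kˣ` is a `w`-unit iff it is a unit of `A`. -/
theorem valuation_eq_one_iff_mem_and_inv_mem
    (hw : ∀ b : 𝓞 K, b ∈ w.asIdeal ↔ algebraMap K Ω (b : K) ∈ A.nonunits) {x : K}
    (hx : x ≠ 0) :
    w.valuation K x = 1 ↔ algebraMap K Ω x ∈ A ∧ (algebraMap K Ω x)⁻¹ ∈ A := by
  constructor
  · intro h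
    refine ⟨mem_of_valuation_le_one A w hw x h.le, ?_⟩
    rw [← map_inv₀]
    refine mem_of_valuation_le_one A w hw x⁻¹ ?_
    rw [map_inv₀, h, inv_one]
  · rintro ⟨h1, h2⟩
    have hx' : algebraMap K Ω x ≠ 0 := by
      rwa [Ne, map_eq_zero]
    have hv0 : w.valuation K x ≠ 0 := by
      rwa [Ne, map_eq_zero]
    rcases lt_trichotomy (w.valuation K x) 1 with hlt | heq | hgt
    · exfalso
      have := mem_nonunits_of_valuation_lt_one A w hw x hlt
      rw [A.mem_nonunits_iff_or] at this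
      rcases this with h | h
      · exact hx' h
      · exact h h2
    · exact heq
    · exfalso
      have hlt : w.valuation K x⁻¹ < 1 := by
        rw [map_inv₀]
        exact inv_lt_one_of_one_lt₀ hgt
      have := mem_nonunits_of_valuation_lt_one A w hw x⁻¹ hlt
      rw [map_inv₀, A.mem_nonunits_iff_or, inv_inv] at this
      rcases this with h | h
      · exact hx' (inv_eq_zero.1 h)
      · exact h h1

/-- Every prime of `𝓞_K` is the contraction of the maximal ideal of a valuation subring of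
`Ω`. -/
theorem exists_valuationSubring_over (Ω : Type*) [Field Ω] [Algebra K Ω]
    (w : HeightOneSpectrum (𝓞 K)) :
    ∃ A : ValuationSubring Ω,
      ∀ b : 𝓞 K, b ∈ w.asIdeal ↔ algebraMap K Ω (b : K) ∈ A.nonunits := by
  let f : 𝓞 K →+* Ω := (algebraMap K Ω).comp (algebraMap (𝓞 K) K)
  have hf : Function.Injective f :=
    (algebraMap K Ω).injective.comp NumberField.RingOfIntegers.coe_injective
  let A₀ : Subring Ω := f.range
  let I : Ideal A₀ := w.asIdeal.map f.rangeRestrict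
  have hsurj : Function.Surjective f.rangeRestrict := f.rangeRestrict_surjective
  have hmem : ∀ b : 𝓞 K, f.rangeRestrict b ∈ I → b ∈ w.asIdeal := by
    intro b hb
    obtain ⟨c, hc, hcb⟩ := (Ideal.mem_map_iff_of_surjective _ hsurj).1 hb
    have : c = b := hf (congrArg Subtype.val hcb)
    exact this ▸ hc
  have hI : I ≠ ⊤ := by
    intro h
    have h1 : f.rangeRestrict 1 ∈ I := by rw [h]; trivial
    exact w.isPrime.ne_top ((Ideal.eq_top_iff_one _).2 (hmem 1 h1))
  obtain ⟨A, hA₀, hA⟩ := Ideal.image_subset_nonunits_valuationSubring I hI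
  refine ⟨A, fun b => ⟨fun hb => ?_, fun hb => ?_⟩⟩
  · exact hA ⟨f.rangeRestrict b, Ideal.mem_map_of_mem _ hb, rfl⟩
  · -- the contraction of the maximal ideal is a proper ideal containing the maximal ideal `w`
    by_contra hbw
    have hmax : w.asIdeal.IsMaximal := w.isMaximal
    obtain ⟨r, a, ha, hac⟩ := hmax.exists_inv hbw
    have hfb : f b ∈ A.nonunits := hb
    have hfa : f a ∈ A.nonunits := hA ⟨f.rangeRestrict a, Ideal.mem_map_of_mem _ ha, rfl⟩
    have hfr : f r ∈ A := algebraMap_int_mem A r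
    have h2 : f (r * b + a) ∈ A.nonunits := by
      rw [map_add, map_mul, mul_comm]
      exact A.nonunits.add_mem (nonunits_mul_mem A hfb hfr) hfa
    rw [hac, map_one, ValuationSubring.mem_nonunits_iff, map_one] at h2
    exact lt_irrefl _ h2

/-- The ring homomorphism `𝓞_K → A`. -/
noncomputable def toValSubring (A : ValuationSubring Ω) : 𝓞 K →+* A :=
  ((algebraMap K Ω).comp (algebraMap (𝓞 K) K)).codRestrict A.toSubring
    (fun b => algebraMap_int_mem A b)

/-- The prime of `𝓞_K` below a valuation subring of `Ω`. -/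
noncomputable def primeUnder (A : ValuationSubring Ω) : Ideal (𝓞 K) :=
  (IsLocalRing.maximalIdeal A).comap (toValSubring (K := K) A)

instance primeUnder_isPrime (A : ValuationSubring Ω) : (primeUnder (K := K) A).IsPrime := by
  unfold primeUnder
  infer_instance

theorem mem_primeUnder {A : ValuationSubring Ω} {b : 𝓞 K} :
    b ∈ primeUnder (K := K) A ↔ algebraMap K Ω (b : K) ∈ A.nonunits := by
  rw [ValuationSubring.mem_nonunits_iff_exists_mem_maximalIdeal]
  constructor
  · intro h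
    exact ⟨algebraMap_int_mem A b, h⟩
  · rintro ⟨_, h⟩
    exact h

/-- The place of `K` below a valuation subring of `Ω` over a prime number. -/
noncomputable def placeUnder (A : ValuationSubring Ω) (ℓ : ℕ) (hℓ : ℓ.Prime)
    (hA : A.LiesOverPrime ℓ) : HeightOneSpectrum (𝓞 K) where
  asIdeal := primeUnder A
  isPrime := inferInstance
  ne_bot := by
    intro h
    have h1 : ((ℓ : ℕ) : 𝓞 K) ∈ primeUnder (K := K) A := by
      rw [mem_primeUnder]
      have : algebraMap K Ω (((ℓ : ℕ) : 𝓞 K) : K) = (ℓ : Ω) := by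
        rw [show (((ℓ : ℕ) : 𝓞 K) : K) = (ℓ : K) from map_natCast (algebraMap (𝓞 K) K) ℓ,
          map_natCast]
      rw [this]
      exact hA
    rw [h, Ideal.mem_bot] at h1
    exact hℓ.ne_zero (Nat.cast_eq_zero.1 h1)

theorem mem_placeUnder {A : ValuationSubring Ω} {ℓ : ℕ} {hℓ : ℓ.Prime}
    {hA : A.LiesOverPrime ℓ} {b : 𝓞 K} :
    b ∈ (placeUnder (K := K) A ℓ hℓ hA).asIdeal ↔ algebraMap K Ω (b : K) ∈ A.nonunits :=
  mem_primeUnder

/-- A rational prime in the prime below `A` is the residue characteristic of `A`. -/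
theorem eq_of_natCast_mem (A : ValuationSubring Ω) (w : HeightOneSpectrum (𝓞 K))
    (hw : ∀ b : 𝓞 K, b ∈ w.asIdeal ↔ algebraMap K Ω (b : K) ∈ A.nonunits)
    {ℓ q : ℕ} (hℓ : ℓ.Prime) (hq : q.Prime) (hA : A.LiesOverPrime ℓ)
    (hqw : (q : 𝓞 K) ∈ w.asIdeal) : q = ℓ := by
  have h1 : algebraMap K Ω (((q : ℕ) : 𝓞 K) : K) ∈ A.nonunits := (hw _).1 hqw
  have h2 : algebraMap K Ω (((q : ℕ) : 𝓞 K) : K) = ((q : ℤ) : Ω) := by
    rw [show (((q : ℕ) : 𝓞 K) : K) = (q : K) from map_natCast (algebraMap (𝓞 K) K) q,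
      map_natCast, Int.cast_natCast]
  rw [h2] at h1
  have h3 := Fermat.Agent.S54.dvd_of_intCast_mem_nonunits A ℓ hℓ hA (q : ℤ) h1
  have h4 : ℓ ∣ q := by exact_mod_cast h3
  exact ((Nat.prime_dvd_prime_iff_eq hℓ hq).1 h4).symm

end General

section Tower

open Fermat.Agent.S55 Fermat.Agent.S55.Tow Fermat.Agent.S55.E1.H594 Fermat.Agent.S55.G

variable {S : Finset Nat.Primes} (L : Level S)

/-- The element of `ℚ̄` underlying `toField L e`. -/
theorem algebraMap_toField (e : L.units.V) :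
    algebraMap L.F Qbar ((((toField L e).toMul : (L.F)ˣ) : L.F)) = ((L.val e : Qbarˣ) : Qbar) :=
  coe_toField L e

/-- `divT L e = 0` iff `e` is a unit at all primes of `𝓞_F` not above `S`. -/
theorem divT_eq_zero_iff (e : L.units.V) :
    divT L e = 0 ↔ ∀ w : PrimeOut S L.F,
      w.1.valuation L.F ((((toField L e).toMul : (L.F)ˣ) : L.F)) = 1 := by
  constructor
  · intro h w
    rw [← ordAt_eq_zero_iff]
    have := DFunLike.congr_fun h w
    exact this
  · intro h
    refine Finsupp.ext fun w => ?_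
    show ordAt w.1 (toField L e) = 0
    rw [ordAt_eq_zero_iff]
    exact h w

/-- **GAD-SU.**  The dictionary of `S`-units. -/
theorem sUnitDict (S : Finset Nat.Primes) : GAD.SUnitDictSpec S := by
  intro L e
  have hx0 : ((((toField L e).toMul : (L.F)ˣ) : L.F)) ≠ 0 := Units.ne_zero _
  rw [divT_eq_zero_iff]
  constructor
  · intro h ℓ hℓ A hA
    let w : HeightOneSpectrum (𝓞 L.F) := placeUnder (K := L.F) A ℓ ℓ.2 hA
    have hw : ∀ b : 𝓞 L.F, b ∈ w.asIdeal ↔ algebraMap L.F Qbar (b : L.F) ∈ A.nonunits :=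
      fun b => mem_placeUnder
    have hout : ¬ IsAbove S L.F w := by
      rintro ⟨q, hqS, hq⟩
      have := eq_of_natCast_mem A w hw ℓ.2 q.2 hA hq
      exact hℓ ((Subtype.ext this : q = ℓ) ▸ hqS)
    have h1 := (valuation_eq_one_iff_mem_and_inv_mem A w hw hx0).1 (h ⟨w, hout⟩)
    rw [algebraMap_toField] at h1
    refine ⟨h1.1, ?_⟩
    have : (((L.val e)⁻¹ : Qbarˣ) : Qbar) = ((L.val e : Qbarˣ) : Qbar)⁻¹ := Units.val_inv_eq_inv_val _
    rw [this]
    exact h1.2
  · intro h w
    obtain ⟨A, hw⟩ := exists_valuationSubring_over (K := L.F) Qbar w.1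
    obtain ⟨ℓ, hℓ⟩ := exists_prime_natCast_mem w.1
    have hA : A.LiesOverPrime (ℓ : ℕ) := by
      have h1 := (hw _).1 hℓ
      have h2 : algebraMap L.F Qbar ((((ℓ : ℕ) : 𝓞 L.F)) : L.F) = ((ℓ : ℕ) : Qbar) := by
        rw [show ((((ℓ : ℕ) : 𝓞 L.F)) : L.F) = ((ℓ : ℕ) : L.F) from
          map_natCast (algebraMap (𝓞 L.F) L.F) ℓ, map_natCast]
      rw [h2] at h1
      exact h1
    have hℓS : ℓ ∉ S := fun hS => w.2 ⟨ℓ, hS, hℓ⟩
    obtain ⟨h1, h2⟩ := h ℓ hℓS A hA
    rw [valuation_eq_one_iff_mem_and_inv_mem A w.1 hw hx0, algebraMap_toField]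
    refine ⟨h1, ?_⟩
    have : (((L.val e)⁻¹ : Qbarˣ) : Qbar) = ((L.val e : Qbarˣ) : Qbar)⁻¹ := Units.val_inv_eq_inv_val _
    rw [← this]
    exact h2

end Tower

end Fermat.Agent.S55.GAD.H175

end
-- ===== PACK-END S55/GAD/SUnitH175.lean

-- ===== PACK-BEGIN S55/ColH543/IndK.lean
section



/-!
# S55 / colimit dictionary (helper543), part 5: the cochain-level predicates of layer K for
# `Ind_V A = K.indG V A` in terms of the finite levels of the open subgroup `V`

`L : PT.LevelSys G` with cofinal normal levels of finite index, `V ≤ G` a subgroup containing a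
normal level, `A : Rep k G` arbitrary.  Then

* `h3Vanish_indG_iff`     : `K.H3Vanish L (Ind_V A) ↔ colim_U H³(V ⧸ U, A^U) = 0`,
* `h3TorsVanish_indG_iff` : `K.H3TorsVanish L (Ind_V A) n ↔ colim_U H³(V ⧸ U, A^U)[n] = 0`,
* `h2Divisible_indG_iff`  : `K.H2Divisible L (Ind_V A) n ↔ colim_U H²(V ⧸ U, A^U) ⊗ ℤ/n = 0`,

the colimits over the normal levels `U` of `G` (intersected with `V`), in the finite-level form
`KL.EffAll / EffTors / EffDiv ((nLevels L hN hF).restrict V) (Rep.res V.subtype A)`: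
all groups are Mathlib `groupCohomology` of the finite groups `V ⧸ (U ∩ V)` acting on `A^{U ∩ V}`.
-/

set_option autoImplicit false
set_option linter.style.haveILetI false

noncomputable section

open groupCohomology CategoryTheory

namespace Fermat.Agent.S55.ColH543

open Fermat.Agent.S55.PT Fermat.Agent.S55.KL Fermat.Agent.S55.KC.H475

variable {k : Type} [CommRing k] {G : Type} [Group G]

/-- `K.indG V A` carries the diagonal action. -/
lemma isDiag_indρ (V : Subgroup G) (A : Rep.{0, 0, 0} k G) :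
    IsDiag A V (K.indρ (MonoidHom.id G) V A) := fun g x a => by
  rw [K.indρ_single]
  rfl

/-- The cochain-level predicates of layer K are those of `Colimit.lean`. -/
lemma k_h3Vanish_iff (L : LevelSys G) (A : Rep.{0, 0, 0} k G) :
    K.H3Vanish L A ↔ H3Vanish L A := Iff.rfl

lemma k_h3TorsVanish_iff (L : LevelSys G) (A : Rep.{0, 0, 0} k G) (n : ℕ) :
    K.H3TorsVanish L A n ↔ H3TorsVanish L A n := Iff.rfl

lemma k_h2Divisible_iff (L : LevelSys G) (A : Rep.{0, 0, 0} k G) (n : ℕ) :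
    K.H2Divisible L A n ↔ H2Divisible L A n := Iff.rfl

lemma finite_quotient_of_level_le {L : LevelSys G} (hF : L.FiniteIndex) (V : Subgroup G)
    {V₀ : Subgroup G} (hV₀ : V₀ ∈ L.levels) (hV₀V : V₀ ≤ V) : Finite (G ⧸ V) := by
  haveI := hF V₀ hV₀
  haveI : V.FiniteIndex := Subgroup.finiteIndex_of_le hV₀V
  exact Subgroup.finite_quotient_of_finiteIndex

variable {L : LevelSys G} (hN : L.NormalCofinal) (hF : L.FiniteIndex) (A : Rep.{0, 0, 0} k G)
  (V : Subgroup G) {V₀ : Subgroup G} (hV₀ : V₀ ∈ L.levels) (hV₀n : V₀.Normal) (hV₀V : V₀ ≤ V)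

include hV₀ hV₀n hV₀V

/-- `H³_L(Ind_V A) = 0` iff `colim_U H³(V ⧸ U, A^U) = 0`. -/
theorem h3Vanish_indG_iff :
    K.H3Vanish L (K.indG V A) ↔
      EffAll ((nLevels L hN hF).restrict V) (Rep.res V.subtype A) 3 := by
  haveI := finite_quotient_of_level_le hF V hV₀ hV₀V
  exact (h3Vanish_iff hN hF (K.indG V A)).trans
    (effAll_ind_iff (nLevels L hN hF) A V (K.indρ (MonoidHom.id G) V A) (isDiag_indρ V A)
      (toLvl hN hF hV₀ hV₀n) hV₀V 3)

/-- `H³_L(Ind_V A)[n] = 0` iff `colim_U H³(V ⧸ U, A^U)[n] = 0`. -/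
theorem h3TorsVanish_indG_iff (n : ℕ) :
    K.H3TorsVanish L (K.indG V A) n ↔
      EffTors ((nLevels L hN hF).restrict V) (Rep.res V.subtype A) n 3 := by
  haveI := finite_quotient_of_level_le hF V hV₀ hV₀V
  exact (h3TorsVanish_iff hN hF (K.indG V A) n).trans
    (effTors_ind_iff (nLevels L hN hF) A V (K.indρ (MonoidHom.id G) V A) (isDiag_indρ V A)
      (toLvl hN hF hV₀ hV₀n) hV₀V n 3)

/-- `H²_L(Ind_V A)` is `n`-divisible iff `colim_U H²(V ⧸ U, A^U) ⊗ ℤ/n = 0`. -/
theorem h2Divisible_indG_iff (n : ℕ) :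
    K.H2Divisible L (K.indG V A) n ↔
      EffDiv ((nLevels L hN hF).restrict V) (Rep.res V.subtype A) n 2 := by
  haveI := finite_quotient_of_level_le hF V hV₀ hV₀V
  exact (h2Divisible_iff hN hF (K.indG V A) n).trans
    (effDiv_ind_iff (nLevels L hN hF) A V (K.indρ (MonoidHom.id G) V A) (isDiag_indρ V A)
      (toLvl hN hF hV₀ hV₀n) hV₀V n 2)

end Fermat.Agent.S55.ColH543

end

end
-- ===== PACK-END S55/ColH543/IndK.lean

-- ===== PACK-BEGIN S55/KG/JCoreH604.lean
section





/-!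
# S55, layer KG: the semi-local core (helper604)

Shared core of the leaves KG-J3 (`JH3Spec`) and KG-J2 (`JDivSpec`).

* `locSub φ H x = {t : D₀ | x⁻¹ φ(t) x ∈ H}` for `φ : D₀ →* G`, `H ≤ G`;
* `mackeyInj_bijective` : for `φ` injective, `Hⁿ(H, Res Coind_φ B) ≃ ∏ₓ Hⁿ(locSub φ H x, Res B)`,
  `x` running through the canonical representatives of `φ(D₀) \ G / H`
  (from helper61's Mackey–Shapiro theorem);
* `jCore` : `Hⁿ(H, J(F)) ≃ ∏_{q ∈ S} ∏ₓ Hⁿ(T_{q,x}, F_qˣ)`, `T_{q,x} ≤ Gal(F_q/ℚ_q)`;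
* `jCore_subsingleton`, `jCore_forall` : transfer of properties of the local factors.
-/

set_option autoImplicit false
set_option linter.unusedSectionVars false

open CategoryTheory groupCohomology

namespace Fermat.Agent.S55.KG.H604

open Fermat.Agent.S55 Fermat.Agent.S55.Tow Fermat.Agent.S55.E1.Lim

noncomputable section

/-! ## Abstract Mackey decomposition along an injective homomorphism -/

section Abstract

variable {k G D₀ : Type} [CommRing k] [Group G] [Group D₀]

/-- `{t : D₀ | x⁻¹ φ(t) x ∈ H}`. -/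
def locSub (φ : D₀ →* G) (H : Subgroup G) (x : G) : Subgroup D₀ :=
  H.comap ((MulAut.conj x⁻¹).toMonoidHom.comp φ)

lemma mem_locSub {φ : D₀ →* G} {H : Subgroup G} {x : G} {t : D₀} :
    t ∈ locSub φ H x ↔ x⁻¹ * φ t * x ∈ H := by
  show x⁻¹ * φ t * x⁻¹⁻¹ ∈ H ↔ _
  rw [inv_inv]

/-- `locSub φ H x → H`, `t ↦ x⁻¹ φ(t) x`. -/
def locJ (φ : D₀ →* G) (H : Subgroup G) (x : G) : ↥(locSub φ H x) →* ↥H where
  toFun t := ⟨x⁻¹ * φ t * x, mem_locSub.1 t.2⟩
  map_one' := by
    apply Subtype.ext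
    simp
  map_mul' a b := by
    apply Subtype.ext
    simp [mul_assoc]

/-- `locSub φ H x → φ(D₀)`, `t ↦ φ(t)`. -/
def locK (φ : D₀ →* G) (H : Subgroup G) (x : G) : ↥(locSub φ H x) →* ↥φ.range where
  toFun t := ⟨φ t, ⟨t, rfl⟩⟩
  map_one' := by
    apply Subtype.ext
    simp
  map_mul' a b := by
    apply Subtype.ext
    simp

/-- The index set: the double cosets `φ(D₀) \ G / H`. -/
abbrev Dc (φ : D₀ →* G) (H : Subgroup G) : Type :=
  DoubleCoset.Quotient (φ.range : Set G) ((H.subtype).range : Set G)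

instance [Finite G] (φ : D₀ →* G) (H : Subgroup G) : Finite (Dc φ H) :=
  Quotient.finite _

/-- The Mackey system of the subgroups `locSub φ H x`. -/
theorem isMackeySystem_loc (φ : D₀ →* G) (hφ : Function.Injective φ) (H : Subgroup G) :
    Mackey.IsMackeySystem H.subtype φ.range
      (fun i : Dc φ H => ↥(locSub φ H i.out))
      (fun i => locJ φ H i.out) (fun i => locK φ H i.out) (fun i => i.out) where
  comm := fun i t => by
    show i.out * (i.out⁻¹ * φ t * i.out) = φ t * i.out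
    group
  inj := fun i a b hab => by
    have h1 : i.out⁻¹ * φ a * i.out = i.out⁻¹ * φ b * i.out := congrArg Subtype.val hab
    have h2 : φ a = φ b := mul_left_cancel (mul_right_cancel h1)
    exact Subtype.ext (hφ h2)
  full := fun i h hh => by
    obtain ⟨d, hd⟩ := hh
    have hd' : i.out⁻¹ * φ d * i.out = (h : G) := by
      rw [hd]
      show i.out⁻¹ * (i.out * (h : G) * i.out⁻¹) * i.out = h
      group
    refine ⟨⟨d, mem_locSub.2 (by rw [hd']; exact h.2)⟩, Subtype.ext hd'⟩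
  cover := (Mackey.isMackeySystem_doset H.subtype φ.range).cover
  disj := (Mackey.isMackeySystem_doset H.subtype φ.range).disj

variable {φ : D₀ →* G} (hφ : Function.Injective φ)

/-- Evaluation at `1`: `Res_{φ(D₀)} Coind_φ B ⟶ B` (as a `φ(D₀)`-module). -/
def evOne (B : Rep.{0} k D₀) :
    Rep.res φ.range.subtype (Rep.coind φ B) ⟶ H173.rangeRep hφ B :=
  (Rep.resFunctor φ.range.subtype).map (H173.coindRangeIso hφ B).hom ≫
    Mackey.shapiroEv φ.range (H173.rangeRep hφ B)

lemma evOne_hom_apply (B : Rep.{0} k D₀) (f : (Rep.coind φ B).V) :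
    (evOne hφ B).hom f = f.1 1 := rfl

lemma coindLift_evOne (B : Rep.{0} k D₀) :
    Mackey.coindLift (evOne hφ B) = (H173.coindRangeIso hφ B).hom := by
  ext f g
  show (evOne hφ B).hom ((Rep.coind φ B).ρ g f) = f.1 g
  rw [evOne_hom_apply]
  show f.1 (1 * g) = f.1 g
  rw [one_mul]

lemma coindLift_evOne_bijective (B : Rep.{0} k D₀) :
    Function.Bijective (Mackey.coindLift (evOne hφ B)).hom := by
  rw [coindLift_evOne]
  exact ConcreteCategory.bijective_of_isIso _

/-- The factor of the Mackey system is `Res B`. -/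
def locFactorIso (B : Rep.{0} k D₀) (H : Subgroup G) (x : G) (n : ℕ) :
    groupCohomology (Rep.res (locK φ H x) (H173.rangeRep hφ B)) n ≅
      groupCohomology (T.resSub B (locSub φ H x)) n :=
  groupCohomology.mapIso (A := T.resSub B (locSub φ H x))
    (B := Rep.res (locK φ H x) (H173.rangeRep hφ B)) (MulEquiv.refl _)
    (LinearEquiv.refl k B.V) (fun t => by
      ext b
      show B.ρ ((MonoidHom.ofInjective hφ).symm (locK φ H x t)) b = B.ρ (t : D₀) b
      have h : (MonoidHom.ofInjective hφ).symm (locK φ H x t) = (t : D₀) := by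
        rw [MulEquiv.symm_apply_eq]
        exact Subtype.ext rfl
      rw [h]) n

/-- **Mackey decomposition along an injective homomorphism.** -/
theorem mackeyInj_bijective {φ : D₀ →* G} (hφ : Function.Injective φ) (B : Rep.{0} k D₀)
    (H : Subgroup G) (n : ℕ) :
    ∃ f : groupCohomology (Rep.res H.subtype (Rep.coind φ B)) n →+
        ∀ i : Dc φ H, groupCohomology (T.resSub B (locSub φ H i.out)) n,
      Function.Bijective f := by
  have h := Mackey.mackey_bijective_of_bijective (k := k) (α := H.subtype)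
    Subtype.val_injective (isMackeySystem_loc φ hφ H) (evOne hφ B)
    (coindLift_evOne_bijective hφ B) n
  let g : groupCohomology (Rep.res H.subtype (Rep.coind φ B)) n →+
      ∀ i : Dc φ H, groupCohomology (Rep.res (locK φ H i.out) (H173.rangeRep hφ B)) n :=
    { toFun := fun c i => (map (locJ φ H i.out)
        (Mackey.twEv (isMackeySystem_loc φ hφ H) (evOne hφ B) i) n).hom c
      map_zero' := by
        funext i
        exact map_zero _
      map_add' := fun a b => by
        funext i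
        exact map_add _ a b }
  let e : (∀ i : Dc φ H, groupCohomology (Rep.res (locK φ H i.out) (H173.rangeRep hφ B)) n) ≃+
      ∀ i : Dc φ H, groupCohomology (T.resSub B (locSub φ H i.out)) n :=
    AddEquiv.piCongrRight fun i =>
      (locFactorIso hφ B H i.out n).toLinearEquiv.toAddEquiv
  refine ⟨e.toAddMonoidHom.comp g, ?_⟩
  exact e.bijective.comp h

end Abstract

/-! ## The semi-local modules of the tower -/

variable {S : Finset Nat.Primes}

/-- The local subgroups `T_{q,x} = {t ∈ Gal(F_q/ℚ_q) | x⁻¹ t x ∈ H}`. -/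
abbrev jSub (L : Level S) (H : Subgroup L.Gal) (q : Nat.Primes) (x : L.Gal) :
    Subgroup (L.Dec q) :=
  locSub (L.decHom q) H x

/-- **KG-JCORE.**  `Hⁿ(H, J(F)) ≃ ∏_{q ∈ S} ∏ₓ Hⁿ(T_{q,x}, F_qˣ)`. -/
theorem jCore (L : Level S) (H : Subgroup L.Gal) (n : ℕ) :
    ∃ f : groupCohomology (Rep.res H.subtype (Jtot L)) n →+
        ∀ (q : S) (i : Dc (L.decHom q.1) H),
          groupCohomology (T.resSub (L.locUnits q.1) (jSub L H q.1 i.out)) n,
      Function.Bijective f := by
  have h1 := T.H635.finiteProd ℤ ↥H S (fun q : S => Rep.res H.subtype (L.J q.1))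
    (Rep.res H.subtype (Jtot L))
    (fun q => (Rep.resFunctor H.subtype).map (piProj (fun q : S => L.J q.1) q))
    ⟨fun a b hab => hab, fun y => ⟨y, rfl⟩⟩ n
  choose f hf using fun q : S =>
    mackeyInj_bijective (k := ℤ) (H173.decHom_injective_H173 L q.1) (L.locUnits q.1) H n
  let g : groupCohomology (Rep.res H.subtype (Jtot L)) n →+
      ∀ q : S, groupCohomology (Rep.res H.subtype (L.J q.1)) n :=
    { toFun := fun c q => (T.coeffMap
        ((Rep.resFunctor H.subtype).map (piProj (fun q : S => L.J q.1) q)) n).hom c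
      map_zero' := by
        funext q
        exact map_zero _
      map_add' := fun a b => by
        funext q
        exact map_add _ a b }
  let F : (∀ q : S, groupCohomology (Rep.res H.subtype (L.J q.1)) n) →+
      ∀ (q : S) (i : Dc (L.decHom q.1) H),
        groupCohomology (T.resSub (L.locUnits q.1) (jSub L H q.1 i.out)) n :=
    { toFun := fun c q => f q (c q)
      map_zero' := by
        funext q
        exact map_zero (f q)
      map_add' := fun a b => by
        funext q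
        exact map_add (f q) (a q) (b q) }
  refine ⟨F.comp g, ?_⟩
  have hF : Function.Bijective F := by
    constructor
    · intro a b hab
      funext q
      exact (hf q).1 (congrFun hab q)
    · intro y
      choose z hz using fun q => (hf q).2 (y q)
      exact ⟨z, funext hz⟩
  exact hF.comp h1

/-- Transfer of vanishing. -/
theorem jCore_subsingleton (L : Level S) (H : Subgroup L.Gal) (n : ℕ)
    (hloc : ∀ (q : S) (x : L.Gal),
      Subsingleton (groupCohomology (T.resSub (L.locUnits q.1) (jSub L H q.1 x)) n)) :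
    Subsingleton (groupCohomology (Rep.res H.subtype (Jtot L)) n) := by
  obtain ⟨f, hf⟩ := jCore L H n
  have : ∀ (q : S) (i : Dc (L.decHom q.1) H),
      Subsingleton (groupCohomology (T.resSub (L.locUnits q.1) (jSub L H q.1 i.out)) n) :=
    fun q i => hloc q i.out
  exact hf.1.subsingleton

/-- Transfer of divisibility of torsion: if in every local factor every class killed by `m` is
divisible by `p`, the same holds in `Hⁿ(H, J(F))`. -/
theorem jCore_div (L : Level S) (H : Subgroup L.Gal) (n m p : ℕ)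
    (hloc : ∀ (q : S) (x : L.Gal)
      (c : groupCohomology (T.resSub (L.locUnits q.1) (jSub L H q.1 x)) n),
      m • c = 0 → ∃ w, c = p • w)
    (y : groupCohomology (Rep.res H.subtype (Jtot L)) n) (hy : m • y = 0) :
    ∃ w : groupCohomology (Rep.res H.subtype (Jtot L)) n, y = p • w := by
  obtain ⟨f, hf⟩ := jCore L H n
  have h1 : ∀ (q : S) (i : Dc (L.decHom q.1) H), ∃ w, f y q i = p • w := by
    intro q i
    refine hloc q i.out (f y q i) ?_
    have h2 : f (m • y) q i = m • f y q i := by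
      rw [map_nsmul]
      rfl
    rw [← h2, hy, map_zero]
    rfl
  choose w hw using h1
  obtain ⟨z, hz⟩ := hf.2 w
  refine ⟨z, hf.1 ?_⟩
  rw [map_nsmul, hz]
  funext q i
  exact hw q i

end

end Fermat.Agent.S55.KG.H604

end
-- ===== PACK-END S55/KG/JCoreH604.lean

-- ===== PACK-BEGIN S55/Inv/Top.lean
section


/-!
# S55 / `InvSpec` : the top reduction (complete)

`invSpec_of : Surj2LocSpec → LocalInvRecipSpec → LocDimSpec → GlobCokerSpec → PT.InvSpec`.
-/

set_option autoImplicit false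
set_option linter.style.haveILetI false

noncomputable section

namespace Fermat.Agent.S55.Inv

open Fermat.Agent.S55.PT groupCohomology ExtCitation

/-! ### Generalities -/

/-- A functional whose kernel is contained in the kernel of a non-zero functional `T`, has the
same kernel as `T`. -/
lemma ker_eq_of_ker_le {k V : Type*} [Field k] [AddCommGroup V] [Module k V]
    (f T : V →ₗ[k] k) (hT : T ≠ 0) (h : LinearMap.ker f ≤ LinearMap.ker T) :
    LinearMap.ker T ≤ LinearMap.ker f := by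
  -- `f ≠ 0`
  have hf : f ≠ 0 := by
    rintro rfl
    apply hT
    ext x
    have : x ∈ LinearMap.ker (0 : V →ₗ[k] k) := by simp
    simpa using h this
  obtain ⟨e, he⟩ : ∃ e, f e ≠ 0 := by
    by_contra hcon
    apply hf
    ext x
    by_contra hx
    exact hcon ⟨x, hx⟩
  -- `T = c • f`
  have key : ∀ z, T z = (T e / f e) * f z := by
    intro z
    have hz : z - (f z / f e) • e ∈ LinearMap.ker f := by
      rw [LinearMap.mem_ker, map_sub, map_smul, smul_eq_mul, div_mul_cancel₀ _ he, sub_self]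
    have := h hz
    rw [LinearMap.mem_ker, map_sub, map_smul, smul_eq_mul, sub_eq_zero] at this
    rw [this]
    field_simp
  have hTe : T e ≠ 0 := by
    intro h0
    apply hT
    ext z
    rw [key z, h0]
    simp
  intro x hx
  rw [LinearMap.mem_ker] at hx ⊢
  have := key x
  rw [hx] at this
  have h2 : T e / f e ≠ 0 := div_ne_zero hTe he
  rcases mul_eq_zero.1 this.symm with h3 | h3
  · exact absurd h3 h2
  · exact h3

/-- A non-zero functional to the ground field is surjective. -/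
lemma surjective_of_ne_zero {k V : Type*} [Field k] [AddCommGroup V] [Module k V]
    (f : V →ₗ[k] k) (hf : f ≠ 0) : Function.Surjective f := by
  obtain ⟨e, he⟩ : ∃ e, f e ≠ 0 := by
    by_contra hcon
    apply hf
    ext x
    by_contra hx
    exact hcon ⟨x, hx⟩
  intro c
  refine ⟨(c / f e) • e, ?_⟩
  rw [map_smul, smul_eq_mul, div_mul_cancel₀ _ he]

/-! ### Finiteness of the induced modules -/

lemma finite_quotient_of_finiteDimensional (F : IntermediateField ℚ (AlgebraicClosure ℚ))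
    [FiniteDimensional ℚ F] : Finite (GQ ⧸ F.fixingSubgroup) := by
  haveI : Algebra.IsAlgebraic ℚ (AlgebraicClosure ℚ) := AlgebraicClosure.isAlgebraic ℚ
  haveI : IsAlgClosure ℚ (AlgebraicClosure ℚ) := ⟨inferInstance, inferInstance⟩
  haveI : Normal ℚ (AlgebraicClosure ℚ) := IsAlgClosure.normal ℚ (AlgebraicClosure ℚ)
  haveI : IsGalois ℚ (AlgebraicClosure ℚ) := isGalois_iff.mpr ⟨inferInstance, inferInstance⟩
  have h := IntermediateField.finrank_eq_fixingSubgroup_index (F := ℚ)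
    (E' := AlgebraicClosure ℚ) F
  have hpos : 0 < Module.finrank ℚ F := Module.finrank_pos
  have hidx : F.fixingSubgroup.index ≠ 0 := by rw [← h]; exact hpos.ne'
  haveI : F.fixingSubgroup.FiniteIndex := ⟨hidx⟩
  exact Subgroup.finite_quotient_of_finiteIndex

lemma finite_quotient_global (S : Finset Nat.Primes) {U : Subgroup GQ}
    (hU : U ∈ (globalLevels S).levels) : Finite (GQ ⧸ U) := by
  obtain ⟨F, hF, rfl⟩ := hU
  haveI := hF.1
  exact finite_quotient_of_finiteDimensional F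

lemma finite_quotient_local (q : Nat.Primes) {W : Subgroup (Gl q)}
    (hW : W ∈ (localLevels q).levels) : Finite (Gl q ⧸ W) := by
  obtain ⟨F, hF, rfl⟩ := hW
  have := hF
  have hfin := finite_quotient_of_finiteDimensional F
  have h1 : (F.fixingSubgroup).FiniteIndex := Subgroup.finiteIndex_of_finite_quotient
  have h2 : (F.fixingSubgroup.comap (rl q)).index ≠ 0 := by
    rw [Subgroup.index_comap]
    intro h0
    exact h1.index_ne_zero (Subgroup.index_eq_zero_of_relIndex_eq_zero h0)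
  haveI : (F.fixingSubgroup.comap (rl q)).FiniteIndex := ⟨h2⟩
  exact Subgroup.finite_quotient_of_finiteIndex

/-! ### Smoothness of the induced modules -/

section Smooth

variable {k : Type} [Field k] {G : Type} [Group G]

/-- A normal subgroup `U` acting trivially on `M` acts trivially on `Ind_U M`. -/
lemma indRep_ρ_eq_one_of_mem (U : Subgroup G) [U.Normal] (M : Rep.{0, 0, 0} k G)
    (hM : ∀ s ∈ U, M.ρ s = 1) (s : G) (hs : s ∈ U) : (indRep U M).ρ s = 1 := by
  have : indAct U M s = LinearMap.id := by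
    apply Finsupp.lhom_ext
    intro x m
    rw [indAct_single, hM s hs]
    have hx : s • x = x := by
      induction x using QuotientGroup.induction_on with
      | H g =>
        show ((s * g : G) : G ⧸ U) = (g : G ⧸ U)
        rw [QuotientGroup.eq]
        have h1 : (s * g)⁻¹ * g = g⁻¹ * s⁻¹ * g⁻¹⁻¹ := by group
        rw [h1]
        exact Subgroup.Normal.conj_mem inferInstance _ (U.inv_mem hs) _
    rw [hx]
    rfl
  exact this

end Smooth

/-! ### The reduction -/

section Main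

variable (p : ℕ) [Fact p.Prime] (S : Finset Nat.Primes)

instance finiteDimensional_mu : FiniteDimensional (ZMod p) (mu p) :=
  inferInstanceAs (FiniteDimensional (ZMod p) (ZMod p))

instance finiteDimensional_muLoc (q : Nat.Primes) : FiniteDimensional (ZMod p) (muLoc p q) :=
  inferInstanceAs (FiniteDimensional (ZMod p) (ZMod p))

lemma finiteDimensional_ind {G : Type} [Group G] (U : Subgroup G) [Finite (G ⧸ U)]
    (M : Rep.{0, 0, 0} (ZMod p) G) [FiniteDimensional (ZMod p) M] :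
    FiniteDimensional (ZMod p) (indRep U M) :=
  inferInstanceAs (FiniteDimensional (ZMod p) ((G ⧸ U) →₀ M))

/-- local surjectivity of `inv_v ∘ aug_*` on `H²(G_v, Ind_W μ)` -/
lemma surjective_inv_aug_loc (h4 : Surj2LocSpec p S) (inv : InvFamily p S)
    (hne : ∀ v : ↥S, inv v ≠ 0) (v : ↥S) (W : Subgroup (Gl v.1))
    (hW : W ∈ (localLevels v.1).levels) (hWn : W.Normal)
    (hWμ : ∀ s ∈ W, (muLoc p v.1).ρ s = 1) :
    Function.Surjective ((inv v) ∘ₗ
      pushH2 (A := indRep W (muLoc p v.1)) (B := muLoc p v.1) (indAug W (muLoc p v.1))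
        (indAug_equivariant W (muLoc p v.1)) (localLevels v.1)) := by
  haveI := finite_quotient_local v.1 hW
  haveI := hWn
  have hfd : FiniteDimensional (ZMod p) (indRep W (muLoc p v.1)) :=
    finiteDimensional_ind p W (muLoc p v.1)
  have hsm1 : (localLevels v.1).IsUSmooth (indRep W (muLoc p v.1)) :=
    ⟨W, hW, fun s hs a => by
      rw [indRep_ρ_eq_one_of_mem W (muLoc p v.1) hWμ s hs]; rfl⟩
  have hsm2 : (localLevels v.1).IsUSmooth (muLoc p v.1) :=
    ⟨W, hW, fun s hs a => by rw [hWμ s hs]; rfl⟩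
  have hs := h4 v.1 v.2 (indRep W (muLoc p v.1)) (muLoc p v.1) (indAug W (muLoc p v.1))
    (indAug_equivariant W (muLoc p v.1)) hfd hsm1 hsm2 (indAug_surjective W (muLoc p v.1))
  rw [LinearMap.coe_comp]
  exact (surjective_of_ne_zero (inv v) (hne v)).comp hs

/-- **Top reduction of `InvSpec`.** -/
theorem invSpec_of (h4 : Surj2LocSpec p S) (h1 : LocalInvRecipSpec p S)
    (h2 : LocDimSpec p S) (h3 : GlobCokerSpec p S) : InvSpec p S := by
  obtain ⟨inv, hne, hrec⟩ := h1
  refine ⟨inv, hrec, ?_, ?_⟩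
  · -- A6
    intro v W hW hWn hWμ
    have hsurj := surjective_inv_aug_loc p S h4 inv hne v W hW hWn hWμ
    refine ⟨?_, hsurj⟩
    rw [← LinearMap.ker_eq_bot, LinearMap.ker_eq_bot']
    intro x hx
    obtain ⟨y, hy⟩ := hsurj 1
    obtain ⟨a, b, hab, h⟩ := h2 v W hW hWn hWμ x y
    have h' := congrArg ((inv v) ∘ₗ
      pushH2 (A := indRep W (muLoc p v.1)) (B := muLoc p v.1) (indAug W (muLoc p v.1))
        (indAug_equivariant W (muLoc p v.1)) (localLevels v.1)) h
    rw [map_add, map_smul, map_smul, hx, hy, map_zero, smul_zero, zero_add, smul_eq_mul,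
      mul_one] at h'
    subst h'
    rw [zero_smul, add_zero] at h
    have ha : a ≠ 0 := by
      rcases hab with ha | hb
      · exact ha
      · exact absurd rfl hb
    exact (smul_eq_zero.1 h).resolve_left ha
  · -- A7
    intro U hU hUn hUμ x hx
    obtain ⟨f, hf⟩ := h3 U hU hUn hUμ
    -- range ≤ ker topIndFun
    have hrange : LinearMap.range (loc2 (hrl S) (indRep U (mu p))) ≤
        LinearMap.ker (topIndFun inv U) := by
      rintro _ ⟨y, rfl⟩
      rw [LinearMap.mem_ker]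
      have := hrec (pushH2 (A := indRep U (mu p)) (B := mu p) (indAug U (mu p))
        (indAug_equivariant U (mu p)) (globalLevels S) y)
      rw [← this]
      simp only [topIndFun, LinearMap.coe_sum, Finset.sum_apply, LinearMap.coe_comp,
        Function.comp_apply, LinearMap.proj_apply, loc2_apply]
      refine Finset.sum_congr rfl fun v _ => ?_
      rw [resH2_pushH2]
    by_cases hT : topIndFun inv U = 0
    · -- then `S` is empty or ... : show `ker f = ⊤`-type contradiction is impossible; use surjectivity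
      by_cases hS : Nonempty ↥S
      · exfalso
        obtain ⟨v⟩ := hS
        -- a class at `v` with non-zero invariant
        haveI := finite_quotient_global S hU
        haveI := hUn
        have hfd : FiniteDimensional (ZMod p) (Rep.res (rl v.1) (indRep U (mu p))) :=
          finiteDimensional_ind p U (mu p)
        obtain ⟨F, hF, rfl⟩ := hU
        have hlev : (F.fixingSubgroup.comap (rl v.1)) ∈ (localLevels v.1).levels :=
          ⟨F, hF.1, rfl⟩
        have hsm1 : (localLevels v.1).IsUSmooth (Rep.res (rl v.1) (indRep F.fixingSubgroup (mu p))) :=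
          ⟨_, hlev, fun s hs a => by
            show (indRep F.fixingSubgroup (mu p)).ρ (rl v.1 s) a = a
            rw [indRep_ρ_eq_one_of_mem F.fixingSubgroup (mu p) hUμ (rl v.1 s) hs]; rfl⟩
        have hsm2 : (localLevels v.1).IsUSmooth (muLoc p v.1) :=
          ⟨_, hlev, fun s hs a => by
            show (mu p).ρ (rl v.1 s) a = a
            rw [hUμ (rl v.1 s) hs]; rfl⟩
        have hs := h4 v.1 v.2 (Rep.res (rl v.1) (indRep F.fixingSubgroup (mu p))) (muLoc p v.1)
          (indAug F.fixingSubgroup (mu p))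
          ((indAug_equivariant F.fixingSubgroup (mu p)).res (rl v.1)) hfd hsm1 hsm2
          (indAug_surjective F.fixingSubgroup (mu p))
        obtain ⟨z, hz⟩ := surjective_of_ne_zero (inv v) (hne v) 1
        obtain ⟨w, hw⟩ := hs z
        have := LinearMap.congr_fun hT (Pi.single v w)
        simp only [topIndFun, LinearMap.coe_sum, Finset.sum_apply, LinearMap.coe_comp,
          Function.comp_apply, LinearMap.proj_apply, LinearMap.zero_apply] at this
        rw [Finset.sum_eq_single v] at this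
        · rw [Pi.single_eq_same, hw, hz] at this
          exact one_ne_zero this
        · intro v' _ hv'
          rw [Pi.single_eq_of_ne hv', map_zero, map_zero]
        · intro hv
          exact absurd (Finset.mem_univ v) hv
      · -- `S` empty: `x = 0`
        have hx0 : x = 0 := by
          funext v
          exact absurd ⟨v⟩ hS
        rw [hx0]
        exact Submodule.zero_mem _
    · have hle : LinearMap.ker f ≤ LinearMap.ker (topIndFun inv U) := hf.trans hrange
      exact hf (ker_eq_of_ker_le f (topIndFun inv U) hT hle (LinearMap.mem_ker.2 hx))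

end Main

end Fermat.Agent.S55.Inv

end

end
-- ===== PACK-END S55/Inv/Top.lean

-- ===== PACK-BEGIN S55/Inv/GO4/SUnit.lean
section


/-!
# S55 / GO4 dictionary: the `S`-unit dictionary `Tow.Level.IsSUnit ⇒ K.IsSUnit` (helper3)

`Tow.Level.IsSUnit` (`Spec/Tower2.lean`): unit at every valuation subring of `ℚ̄` over a prime
`ℓ ∉ S`.  `K.IsSUnit` (`K/Defs.lean`): unit at every valuation subring lying over no prime of `S`
(including those over no prime at all — but the only such valuation subring is `ℚ̄` itself).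

* `isSUnit_of_forall_prime` : the dictionary;
* `inclE L : E_S(L) →+ 𝔼 = K.sUnits S`, `inclE_ρ` (equivariance), `locE_inclE`.
-/

set_option autoImplicit false

noncomputable section

namespace Fermat.Agent.S55.Inv.GO4

open Fermat.Agent.S55 Fermat.Agent.S55.Tow Fermat.Agent.S55.E1.Lim Polynomial

/-- a valuation subring of `ℚ̄` over no prime number contains every natural number as a unit -/
lemma val_natCast_eq_one_of_no_prime (A : ValuationSubring K.Qbar)
    (hA : ∀ ℓ : ℕ, ℓ.Prime → ¬ A.LiesOverPrime ℓ) (n : ℕ) (hn : n ≠ 0) :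
    A.valuation ((n : ℕ) : K.Qbar) = 1 := by
  induction n using Nat.recOnMul with
  | zero => exact absurd rfl hn
  | one => simp
  | prime ℓ hℓ =>
    have h1 : A.valuation ((ℓ : ℕ) : K.Qbar) ≤ 1 :=
      (A.valuation_le_one_iff _).2 (natCast_mem A ℓ)
    have h2 : ¬ A.valuation ((ℓ : ℕ) : K.Qbar) < 1 := fun h =>
      hA ℓ hℓ ((A.mem_nonunits_iff).2 h)
    exact le_antisymm h1 (not_lt.1 h2)
  | mul a b ha hb =>
    have ha0 : a ≠ 0 := fun h => hn (by rw [h, zero_mul])
    have hb0 : b ≠ 0 := fun h => hn (by rw [h, mul_zero])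
    rw [Nat.cast_mul, map_mul, ha ha0, hb hb0, one_mul]

lemma rat_mem_of_no_prime (A : ValuationSubring K.Qbar)
    (hA : ∀ ℓ : ℕ, ℓ.Prime → ¬ A.LiesOverPrime ℓ) (r : ℚ) :
    algebraMap ℚ K.Qbar r ∈ A := by
  rw [← A.valuation_le_one_iff]
  have h1 : algebraMap ℚ K.Qbar r = ((r.num : ℤ) : K.Qbar) / ((r.den : ℕ) : K.Qbar) := by
    conv_lhs => rw [← Rat.num_div_den r]
    simp
  rw [h1, map_div₀, val_natCast_eq_one_of_no_prime A hA r.den r.den_ne_zero, div_one]
  exact (A.valuation_le_one_iff _).2 (intCast_mem A r.num)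

/-- a valuation subring of `ℚ̄` lying over no prime number is everything -/
lemma mem_of_no_prime (A : ValuationSubring K.Qbar)
    (hA : ∀ ℓ : ℕ, ℓ.Prime → ¬ A.LiesOverPrime ℓ) (x : K.Qbar) : x ∈ A := by
  haveI : Algebra.IsAlgebraic ℚ K.Qbar := AlgebraicClosure.isAlgebraic ℚ
  have hx : IsIntegral ℚ x := Algebra.IsIntegral.isIntegral x
  -- `A` is integrally closed in `ℚ̄` and contains `ℚ`
  obtain ⟨f, hfm, hfx⟩ := hx
  have hA' : IsIntegrallyClosed A := inferInstance
  have hint : IsIntegral A x := by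
    refine ⟨f.map ((algebraMap ℚ K.Qbar).codRestrict A.toSubring (rat_mem_of_no_prime A hA)),
      hfm.map _, ?_⟩
    rw [eval₂_map]
    have : (algebraMap (↥A) K.Qbar).comp
        ((algebraMap ℚ K.Qbar).codRestrict A.toSubring (rat_mem_of_no_prime A hA)) =
        algebraMap ℚ K.Qbar := by
      ext r
      rfl
    rw [this]
    exact hfx
  obtain ⟨y, hy⟩ := (IsIntegrallyClosed.isIntegral_iff (R := A) (K := K.Qbar)).1 hint
  rw [← hy]
  exact y.2

/-- **S-unit dictionary.**  An element of `ℚ̄ˣ` which is a unit at all valuation subrings over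
primes `ℓ ∉ S` (the notion of `Spec/Tower2.lean`) is an `S`-unit in the sense of `K/Defs.lean`. -/
lemma isSUnit_of_forall_prime (S : Finset Nat.Primes) (x : K.Qbarˣ)
    (hx : ∀ ℓ : Nat.Primes, ℓ ∉ S → ∀ A : ValuationSubring K.Qbar, A.LiesOverPrime (ℓ : ℕ) →
      (x : K.Qbar) ∈ A ∧ ((x⁻¹ : K.Qbarˣ) : K.Qbar) ∈ A) : K.IsSUnit S x := by
  intro A hA
  by_cases h : ∃ ℓ : ℕ, ℓ.Prime ∧ A.LiesOverPrime ℓ
  · obtain ⟨ℓ, hℓ, hAℓ⟩ := h
    exact hx ⟨ℓ, hℓ⟩ (fun hmem => hA ⟨ℓ, hℓ⟩ hmem hAℓ) A hAℓ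
  · have h' : ∀ ℓ : ℕ, ℓ.Prime → ¬ A.LiesOverPrime ℓ := fun ℓ hℓ hAℓ => h ⟨ℓ, hℓ, hAℓ⟩
    exact ⟨mem_of_no_prime A h' _, mem_of_no_prime A h' _⟩

variable {S : Finset Nat.Primes}

/-- `E_S(L) → 𝔼`: the underlying `S`-unit of `ℚ̄`. -/
def inclE (L : Level S) : (sUnits L).V →+ (K.sUnits S).V where
  toFun e := ⟨L.unitsCoe ((sIncl L).hom e),
    isSUnit_of_forall_prime S _ (isSUnit_of_mem L (sIncl_mem L e))⟩
  map_zero' := by
    apply Subtype.ext
    show L.unitsCoe ((sIncl L).hom 0) = 0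
    rw [map_zero, map_zero]
  map_add' x y := by
    apply Subtype.ext
    show L.unitsCoe ((sIncl L).hom (x + y)) =
      L.unitsCoe ((sIncl L).hom x) + L.unitsCoe ((sIncl L).hom y)
    rw [map_add, map_add]

lemma sUnitsIncl_inclE (L : Level S) (e : (sUnits L).V) :
    K.sUnitsIncl S (inclE L e) = L.unitsCoe ((sIncl L).hom e) := rfl

/-- `inclE` is equivariant along `G_ℚ → Gal(L/ℚ)`. -/
lemma inclE_ρ (L : Level S) (σ : GQ) (e : (sUnits L).V) :
    inclE L ((sUnits L).ρ (QuotientGroup.mk σ : L.Gal) e) = (K.sUnits S).ρ σ (inclE L e) := by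
  apply Subtype.ext
  show L.unitsCoe ((sIncl L).hom ((sUnits L).ρ (QuotientGroup.mk σ : L.Gal) e)) =
    unitsQbar.ρ σ (L.unitsCoe ((sIncl L).hom e))
  rw [Rep.hom_comm_apply (sIncl L)]
  rfl

/-- `inclE` is compatible with the transition maps. -/
lemma inclE_trS {L L' : Level S} (h : L ≤ L') (e : (sUnits L).V) :
    inclE L' ((trS h).hom e) = inclE L e := by
  apply Subtype.ext
  show L'.unitsCoe ((sIncl L').hom ((trS h).hom e)) = L.unitsCoe ((sIncl L).hom e)
  rw [sIncl_trS]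
  rfl

/-- localisation: `locE ∘ inclE = locCoe ∘ embFun ∘ sIncl`. -/
lemma locE_inclE (L : Level S) (q : Nat.Primes) (e : (sUnits L).V) :
    K.locE q S (inclE L e) = L.locCoe q (L.embFun q ((sIncl L).hom e)) := rfl

end Fermat.Agent.S55.Inv.GO4

end

end
-- ===== PACK-END S55/Inv/GO4/SUnit.lean

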