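import Fermat.Agent.Pack.S56.E16L1
import Fermat.Agent.Pack.S56.E14L2
import Fermat.Agent.Pack.S56.E9L1
import Fermat.Agent.Pack.S56.E16L0
import Fermat.Agent.Pack.S56.E16L2
import Fermat.Agent.Pack.S56.E6L1
import Fermat.Agent.Pack.S56.E15L2
import Fermat.Agent.Pack.S56.E16L3
import Fermat.Agent.Pack.S56.E8L3
import Fermat.Agent.Pack.S56.E15L1
import Fermat.Agent.Pack.S56.E2L0
import Fermat.Agent.Pack.S56.E11L1

-- ===== PACK-BEGIN S56/Final.lean
section



/-!
# Row S56 — FINAL reduction (row-lead helper956)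

`S56 ⇐ LocMin + LocOrdP + LocFlatP + Base + RecQ`  (the five open Props of `H716/{SBSpec,GWSpec}.lean`).
Everything else (P1, P3, TWP, DICT and all glue) is proved.

`Fermat/Agent/S56.lean` will be

    exact Fermat.Agent.S56.result_of_inputs
      (Fermat.Agent.S56.tangentBoundOrd_of_five  locMin locOrdP  base recQ)
      (Fermat.Agent.S56.tangentBoundFlat_of_five locMin locFlatP base recQ)
      Fermat.Agent.S56.powerSeriesSurj Fermat.Agent.S56.twPrimes
      p hp2 hp𝒪 ρbar habs hdet hsplit hTW S Smin hpSmin hSmin hS hmin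
-/

set_option autoImplicit false

namespace Fermat.Agent.S56

/-- (TB-ord) from the open Props. -/
theorem tangentBoundOrd_of_five (hmin : H716.LocMinStatement) (hord : H716.LocOrdPStatement)
    (hb : H716.BaseStatement) (hr : H716.RecQStatement) : TangentBoundOrdStatement :=
  H716.tangentBoundOrd_of_walls H596.dictOrd hmin hord hb hr

/-- (TB-flat) from the open Props. -/
theorem tangentBoundFlat_of_five (hmin : H716.LocMinStatement) (hflat : H716.LocFlatPStatement)
    (hb : H716.BaseStatement) (hr : H716.RecQStatement) : TangentBoundFlatStatement :=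
  H716.tangentBoundFlat_of_walls H596.dictFlat hmin hflat hb hr

end Fermat.Agent.S56

end
-- ===== PACK-END S56/Final.lean

-- ===== PACK-BEGIN S56/H914/BRPoints.lean
section



/-!
# Row S56 — W-FLAT-SS, piece FL-BR (helper914), part 4: points on the local side

`H` a commutative Hopf algebra over `ℤ_(p)`, finite as a module.

* `norm_algebraMap_Zp_le_one`, `norm_le_one_of_isIntegral_Zp` : elements of `ℚ̄_p` integral over
  `ℤ_(p)` have norm `≤ 1`.
* `norm_point_le_one` : every `ℚ̄_p`-point of `H` has integral coordinates.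
* `locGalAct p τ f` : the action `f ↦ τ ∘ f` of `Gal(ℚ̄_p/ℚ_p)` on the `ℚ̄_p`-points.
* `pointsToLocal M` : `(H →ₐ ℚ̄) ≃ (H →ₐ ℚ̄_p)`, `f ↦ ι ∘ f`, for a local model `M`; it is
  multiplicative for convolution and intertwines `galAct (Ψ τ)` with `locGalAct τ`.
* `LocalPointModel`, `PointModel.toLocal` : the local version of the point model of `BRFlat`:
  `e : WithConv (H →ₐ ℚ̄_p) ≃ V`, additive, `e (τ ∘ f) = ρ (Ψ τ) (e f)`.
-/

set_option autoImplicit false
set_option linter.style.haveILetI false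

open scoped Pointwise NNReal

noncomputable section

namespace Fermat.Agent.S56.H914

open Fermat.Agent.S56

section Integral

variable (p : ℕ) [Fact p.Prime]

lemma algebraMap_Zp_eq (a : Zp p) :
    algebraMap (Zp p) (PadicAlgCl p) a = algebraMap ℚ_[p] (PadicAlgCl p) (((a : ℚ) : ℚ_[p])) := by
  rw [IsScalarTower.algebraMap_apply (Zp p) ℚ_[p] (PadicAlgCl p)]
  have h : algebraMap (Zp p) ℚ_[p] a = ((a : ℚ) : ℚ_[p]) := by
    show algebraMap ℚ ℚ_[p] (a : ℚ) = _
    exact eq_ratCast _ _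
  rw [h]

lemma norm_algebraMap_Zp_le_one (a : Zp p) : ‖algebraMap (Zp p) (PadicAlgCl p) a‖ ≤ 1 := by
  rw [algebraMap_Zp_eq, PadicAlgCl.norm_extends]
  apply Padic.norm_rat_le_one
  intro hdvd
  have hcop : (a : ℚ).den.Coprime p := a.2
  have hp : p.Prime := Fact.out
  have h1 : p ∣ Nat.gcd (a : ℚ).den p := Nat.dvd_gcd hdvd dvd_rfl
  rw [hcop] at h1
  exact hp.one_lt.ne' (Nat.dvd_one.mp h1)

/-- The structure map `ℤ_(p) → 𝒪_{ℚ̄_p}`. -/
def zpToIntegers : Zp p →+* padicIntegers p :=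
  (algebraMap (Zp p) (PadicAlgCl p)).codRestrict (padicIntegers p).toSubring (fun a => by
    show algebraMap (Zp p) (PadicAlgCl p) a ∈ padicIntegers p
    rw [mem_padicIntegers_iff, ← NNReal.coe_le_coe]
    exact norm_algebraMap_Zp_le_one p a)

/-- An element of `ℚ̄_p` integral over `ℤ_(p)` has norm `≤ 1`. -/
theorem norm_le_one_of_isIntegral_Zp {y : PadicAlgCl p} (hy : IsIntegral (Zp p) y) : ‖y‖ ≤ 1 := by
  letI : Algebra (Zp p) (padicIntegers p) := (zpToIntegers p).toAlgebra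
  haveI : IsScalarTower (Zp p) (padicIntegers p) (PadicAlgCl p) :=
    IsScalarTower.of_algebraMap_eq (fun _ => rfl)
  have h1 : IsIntegral (padicIntegers p) y := hy.tower_top
  obtain ⟨z, hz⟩ := (IsIntegrallyClosed.isIntegral_iff (R := padicIntegers p)
    (K := PadicAlgCl p)).mp h1
  have h2 : y ∈ padicIntegers p := by
    rw [← hz]
    exact z.2
  rw [mem_padicIntegers_iff, ← NNReal.coe_le_coe] at h2
  exact h2

variable {H : Type} [CommRing H] [Algebra (Zp p) H] [Module.Finite (Zp p) H]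

/-- Points of a finite `ℤ_(p)`-algebra have integral coordinates. -/
theorem norm_point_le_one (f : H →ₐ[Zp p] PadicAlgCl p) (h : H) : ‖f h‖ ≤ 1 :=
  norm_le_one_of_isIntegral_Zp p ((IsIntegral.of_finite (Zp p) h).map f)

/-- Coordinates of points are algebraic over `ℚ`: roots of a nonzero rational polynomial. -/
theorem exists_ratPoly_of_isIntegral_Zp {y : PadicAlgCl p} (hy : IsIntegral (Zp p) y) :
    ∃ g : Polynomial ℚ, g ≠ 0 ∧ Polynomial.aeval y g = 0 := by
  obtain ⟨q, hq, hq0⟩ := hy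
  refine ⟨q.map (algebraMap (Zp p) ℚ), ?_, ?_⟩
  · exact (hq.map _).ne_zero
  · rw [Polynomial.aeval_def, Polynomial.eval₂_map, ← IsScalarTower.algebraMap_eq]
    exact hq0

end Integral

section LocalAction

variable (p : ℕ) [Fact p.Prime] {H : Type} [CommRing H] [HopfAlgebra (Zp p) H]

/-- `τ ∈ Gal(ℚ̄_p/ℚ_p)` as a `ℤ_(p)`-algebra endomorphism of `ℚ̄_p`. -/
def locGalHom (τ : GQp p) : PadicAlgCl p →ₐ[Zp p] PadicAlgCl p :=
  (τ : PadicAlgCl p →ₐ[ℚ_[p]] PadicAlgCl p).restrictScalars (Zp p)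

@[simp] lemma locGalHom_apply (τ : GQp p) (x : PadicAlgCl p) : locGalHom p τ x = τ x := rfl

/-- The action of the local Galois group on the `ℚ̄_p`-points of `H`. -/
def locGalAct (τ : GQp p) (f : WithConv (H →ₐ[Zp p] PadicAlgCl p)) :
    WithConv (H →ₐ[Zp p] PadicAlgCl p) :=
  WithConv.toConv ((locGalHom p τ).comp f.ofConv)

@[simp] lemma locGalAct_apply (τ : GQp p) (f : WithConv (H →ₐ[Zp p] PadicAlgCl p)) (h : H) :
    (locGalAct p τ f).ofConv h = τ (f.ofConv h) := rfl

lemma locGalAct_mul (τ : GQp p) (f g : WithConv (H →ₐ[Zp p] PadicAlgCl p)) :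
    locGalAct p τ (f * g) = locGalAct p τ f * locGalAct p τ g := by
  apply WithConv.ofConv_injective
  exact AlgHom.comp_convMul_distrib (locGalHom p τ) f g

lemma locGalAct_one_left (f : WithConv (H →ₐ[Zp p] PadicAlgCl p)) : locGalAct p 1 f = f := by
  apply WithConv.ofConv_injective
  ext h
  rfl

lemma locGalAct_locGalAct (σ τ : GQp p) (f : WithConv (H →ₐ[Zp p] PadicAlgCl p)) :
    locGalAct p σ (locGalAct p τ f) = locGalAct p (σ * τ) f := by
  apply WithConv.ofConv_injective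
  ext h
  rfl

end LocalAction

section Transfer

variable {p : ℕ} [Fact p.Prime] {P : ValuationSubring QbL} (M : LocalModel p P)
  {H : Type} [CommRing H] [HopfAlgebra (Zp p) H]

/-- `ι` as a `ℤ_(p)`-algebra homomorphism. -/
def LocalModel.ιZ : Qb →ₐ[Zp p] PadicAlgCl p := M.ι.restrictScalars (Zp p)

@[simp] lemma LocalModel.ιZ_apply (x : Qb) : M.ιZ x = M.ι x := rfl

/-- `f ↦ ι ∘ f` on points. -/
def pointsToLocalFun (f : WithConv (H →ₐ[Zp p] Qb)) : WithConv (H →ₐ[Zp p] PadicAlgCl p) :=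
  WithConv.toConv (M.ιZ.comp f.ofConv)

@[simp] lemma pointsToLocalFun_apply (f : WithConv (H →ₐ[Zp p] Qb)) (h : H) :
    (pointsToLocalFun M f).ofConv h = M.ι (f.ofConv h) := rfl

lemma pointsToLocalFun_mul (f g : WithConv (H →ₐ[Zp p] Qb)) :
    pointsToLocalFun M (f * g) = pointsToLocalFun M f * pointsToLocalFun M g := by
  apply WithConv.ofConv_injective
  exact AlgHom.comp_convMul_distrib M.ιZ f g

lemma pointsToLocalFun_injective :
    Function.Injective (pointsToLocalFun M (H := H)) := by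
  intro f g hfg
  apply WithConv.ofConv_injective
  ext h
  have h1 := congrArg (fun u => u.ofConv h) hfg
  exact M.ι_injective h1

lemma pointsToLocalFun_gal (τ : GQp p) (f : WithConv (H →ₐ[Zp p] Qb)) :
    pointsToLocalFun M (galAct p (M.Ψ τ) f) = locGalAct p τ (pointsToLocalFun M f) := by
  apply WithConv.ofConv_injective
  ext h
  exact M.ι_Ψ τ (f.ofConv h)

variable [Module.Finite (Zp p) H]

lemma pointsToLocalFun_surjective :
    Function.Surjective (pointsToLocalFun M (H := H)) := by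
  intro fh
  -- every coordinate lies in the range of `ι`
  have hr : ∀ h : H, fh.ofConv h ∈ M.ιZ.range := by
    intro h
    obtain ⟨g, hg, hg0⟩ := exists_ratPoly_of_isIntegral_Zp p
      ((IsIntegral.of_finite (Zp p) h).map fh.ofConv)
    obtain ⟨b, hb⟩ := M.root_mem g hg _ hg0
    exact ⟨b, hb⟩
  let e : Qb ≃ₐ[Zp p] M.ιZ.range := AlgEquiv.ofInjective M.ιZ M.ι_injective
  let f : H →ₐ[Zp p] Qb := (e.symm : M.ιZ.range →ₐ[Zp p] Qb).comp
    (fh.ofConv.codRestrict M.ιZ.range hr)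
  refine ⟨WithConv.toConv f, ?_⟩
  apply WithConv.ofConv_injective
  ext h
  show M.ιZ (e.symm (fh.ofConv.codRestrict M.ιZ.range hr h)) = fh.ofConv h
  have h1 : M.ιZ (e.symm (fh.ofConv.codRestrict M.ιZ.range hr h)) =
      ((e (e.symm (fh.ofConv.codRestrict M.ιZ.range hr h)) : M.ιZ.range) : PadicAlgCl p) := rfl
  rw [h1, AlgEquiv.apply_symm_apply]
  rfl

/-- The bijection between `ℚ̄`-points and `ℚ̄_p`-points. -/
def pointsToLocal : WithConv (H →ₐ[Zp p] Qb) ≃ WithConv (H →ₐ[Zp p] PadicAlgCl p) :=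
  Equiv.ofBijective (pointsToLocalFun M)
    ⟨pointsToLocalFun_injective M, pointsToLocalFun_surjective M⟩

@[simp] lemma pointsToLocal_apply (f : WithConv (H →ₐ[Zp p] Qb)) :
    pointsToLocal M f = pointsToLocalFun M f := rfl

end Transfer

/-- The local version of `PointModel`: the `ℚ̄_p`-points of `H` as a model of the
`Gal(ℚ̄_p/ℚ_p)`-module `V`. -/
structure LocalPointModel (p : ℕ) [Fact p.Prime] (H : Type) [CommRing H] [HopfAlgebra (Zp p) H]
    {A : Type} [CommRing A] {V : Type} [AddCommGroup V] [Module A V]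
    (ρ : GQp p →* Module.End A V) where
  e : WithConv (H →ₐ[Zp p] PadicAlgCl p) ≃ V
  map_mul : ∀ f g, e (f * g) = e f + e g
  map_gal : ∀ τ f, e (locGalAct p τ f) = ρ τ (e f)

/-- Transfer of a point model along a local model. -/
def PointModel.toLocal {p : ℕ} [Fact p.Prime] {P : ValuationSubring QbL} (M : LocalModel p P)
    {H : Type} [CommRing H] [HopfAlgebra (Zp p) H] [Module.Finite (Zp p) H]
    {A : Type} [CommRing A] {V : Type} [AddCommGroup V] [Module A V]
    {ρ : GQ →* Module.End A V} (X : PointModel p H ρ) :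
    LocalPointModel p H (ρ.comp M.Ψ) where
  e := (pointsToLocal M).symm.trans X.e
  map_mul := by
    intro f g
    obtain ⟨f', rfl⟩ := (pointsToLocal M).surjective f
    obtain ⟨g', rfl⟩ := (pointsToLocal M).surjective g
    show X.e ((pointsToLocal M).symm (pointsToLocal M f' * pointsToLocal M g')) =
      X.e ((pointsToLocal M).symm (pointsToLocal M f')) +
        X.e ((pointsToLocal M).symm (pointsToLocal M g'))
    rw [pointsToLocal_apply, pointsToLocal_apply, ← pointsToLocalFun_mul,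
      ← pointsToLocal_apply, ← pointsToLocal_apply M f', ← pointsToLocal_apply M g',
      Equiv.symm_apply_apply, Equiv.symm_apply_apply, Equiv.symm_apply_apply, X.map_mul]
  map_gal := by
    intro τ f
    obtain ⟨f', rfl⟩ := (pointsToLocal M).surjective f
    show X.e ((pointsToLocal M).symm (locGalAct p τ (pointsToLocal M f'))) =
      ρ (M.Ψ τ) (X.e ((pointsToLocal M).symm (pointsToLocal M f')))
    rw [pointsToLocal_apply, ← pointsToLocalFun_gal, ← pointsToLocal_apply,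
      ← pointsToLocal_apply M f', Equiv.symm_apply_apply, Equiv.symm_apply_apply, X.map_gal]

end Fermat.Agent.S56.H914

end

end
-- ===== PACK-END S56/H914/BRPoints.lean

-- ===== PACK-BEGIN S56/RQ/CobCupH475.lean
section


/-!
# Row S56 — REC-Q, leaf COBCUP (helper475)

`cobCup : RQ.CobCupStatement` (verbatim): the cup product `(σ, τ) ↦ tr (c σ · σ(y τ))` of an
ad-cocycle `c` and a twisted cocycle `y` is a coboundary of `k(1)` on a subgroup `H` as soon as
`c` is an ad-coboundary on `H`, or `y` is a twisted coboundary on `H`.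

* (a) `c = dm` on `H`:  `cup c y = dλ`,  `λ τ = tr (m · y τ)`;
* (b) `y = d_tw m` on `H`:  `cup c y = dλ'`,  `λ' σ = − tr (c σ · (y σ + m))`.

Pure algebra: no hypothesis on `p`, no multiplicativity of cyclotomic exponents is needed
(`y (σ τ) + m = a · σ (y τ + m)` follows from the cocycle relation and `y σ + m = a · σ m`).
-/

set_option autoImplicit false

open Polynomial IsLocalRing

noncomputable section

namespace Fermat.Agent.S56.RQ.H475

open Fermat.Agent.S56 Fermat.Agent.S56.H716 Fermat.Agent.S56.RQ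

variable {k : Type} [Field k] (ρbar : ResidualGaloisRep k)

lemma rho_mul_inv (σ : GQ) : ρbar.ρ σ * ρbar.ρ σ⁻¹ = 1 := by
  rw [← map_mul, mul_inv_cancel, map_one]

lemma rho_inv_mul (σ : GQ) : ρbar.ρ σ⁻¹ * ρbar.ρ σ = 1 := by
  rw [← map_mul, inv_mul_cancel, map_one]

/-- The trace is invariant under conjugation by `ρ̄ σ`. -/
lemma trace_conj (σ : GQ) (x : Module.End k ρbar.V) :
    LinearMap.trace k ρbar.V (ρbar.ρ σ * x * ρbar.ρ σ⁻¹) = LinearMap.trace k ρbar.V x := by
  rw [LinearMap.trace_mul_comm, ← mul_assoc, rho_inv_mul, one_mul]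

/-- `tr (σ x σ⁻¹ · σ z σ⁻¹) = tr (x z)`. -/
lemma trace_conj_mul_conj (σ : GQ) (x z : Module.End k ρbar.V) :
    LinearMap.trace k ρbar.V ((ρbar.ρ σ * x * ρbar.ρ σ⁻¹) * (ρbar.ρ σ * z * ρbar.ρ σ⁻¹)) =
      LinearMap.trace k ρbar.V (x * z) := by
  have h : (ρbar.ρ σ * x * ρbar.ρ σ⁻¹) * (ρbar.ρ σ * z * ρbar.ρ σ⁻¹) =
      ρbar.ρ σ * (x * z) * ρbar.ρ σ⁻¹ := by
    calc (ρbar.ρ σ * x * ρbar.ρ σ⁻¹) * (ρbar.ρ σ * z * ρbar.ρ σ⁻¹)
        = ρbar.ρ σ * x * (ρbar.ρ σ⁻¹ * ρbar.ρ σ) * z * ρbar.ρ σ⁻¹ := by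
          simp only [mul_assoc]
      _ = ρbar.ρ σ * (x * z) * ρbar.ρ σ⁻¹ := by
          rw [rho_inv_mul, mul_one]; simp only [mul_assoc]
  rw [h, trace_conj]

/-- The value of the cup product, in terms of a cyclotomic exponent of `σ`. -/
lemma cup_apply_of_exp {p : ℕ} {y : GQ → Module.End k ρbar.V} (hy : IsTwCocycle ρbar p y)
    (c : GQ → Module.End k ρbar.V) (σ τ : GQ) (a : ℕ) (ha : IsCycExp p σ a) :
    cup ρbar c y (σ, τ) =
      (a : k) * LinearMap.trace k ρbar.V (c σ * (ρbar.ρ σ * y τ * ρbar.ρ σ⁻¹)) := by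
  unfold cup
  simp only
  rw [hy.map_mul σ τ a ha, add_sub_cancel_left, twAd, mul_smul_comm, map_smul, smul_eq_mul]

/-- (a) cup with an ad-coboundary. -/
theorem cup_cob_left {p : ℕ} (H : Subgroup GQ) {c y : GQ → Module.End k ρbar.V}
    (hy : IsTwCocycle ρbar p y) (hc : IsAdCoboundaryOn ρbar H c) :
    IsCob₂On p H (cup ρbar c y) := by
  obtain ⟨m, hm⟩ := hc
  obtain ⟨L, hL, hlev⟩ := hy.level
  refine ⟨fun τ => LinearMap.trace k ρbar.V (m * y τ), ⟨L, hL, ?_⟩, ?_⟩
  · intro σ _ s _ hs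
    simp only
    rw [hlev σ s hs]
  · intro σ hσ τ _ a ha
    simp only
    rw [cup_apply_of_exp ρbar hy c σ τ a ha, hm σ hσ, hy.map_mul σ τ a ha, sub_mul, map_sub,
      trace_conj_mul_conj, mul_add, map_add, twAd, mul_smul_comm, map_smul, smul_eq_mul]
    ring

/-- (b) cup with a twisted coboundary. -/
theorem cup_cob_right {p : ℕ} (H : Subgroup GQ) {c y : GQ → Module.End k ρbar.V}
    (hc : IsAdCocycle ρbar c) (hy : IsTwCocycle ρbar p y)
    (hm : ∃ m, IsTwCoboundaryOn ρbar p H y m) :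
    IsCob₂On p H (cup ρbar c y) := by
  obtain ⟨m, -, hm⟩ := hm
  obtain ⟨L, hL, hlev⟩ := hy.level
  obtain ⟨L', hL', hlev'⟩ := hc.level
  have hfin : FiniteDimensional ℚ (L ⊔ L' : IntermediateField ℚ Qb) :=
    IntermediateField.finiteDimensional_sup L L'
  refine ⟨fun σ => - LinearMap.trace k ρbar.V (c σ * (y σ + m)), ⟨L ⊔ L', hfin, ?_⟩, ?_⟩
  · intro σ _ s _ hs
    simp only
    rw [hlev σ s (fun x hx => hs x ((le_sup_left : L ≤ L ⊔ L') hx)),
      hlev' σ s (fun x hx => hs x ((le_sup_right : L' ≤ L ⊔ L') hx))]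
  · intro σ hσ τ _ a ha
    simp only
    -- `y σ + m = a · σ m σ⁻¹`
    have h1 : y σ + m = (a : k) • (ρbar.ρ σ * m * ρbar.ρ σ⁻¹) := by
      rw [hm σ hσ a ha, twAd, sub_add_cancel]
    -- `y (σ τ) + m = a · σ (y τ + m) σ⁻¹`
    have h2 : y (σ * τ) + m = (a : k) • (ρbar.ρ σ * (y τ + m) * ρbar.ρ σ⁻¹) := by
      rw [hy.map_mul σ τ a ha, twAd, add_right_comm, h1, mul_add, add_mul, smul_add, add_comm]
    rw [cup_apply_of_exp ρbar hy c σ τ a ha, h2, hc.map_mul σ τ, h1]
    simp only [mul_smul_comm, map_smul, smul_eq_mul, add_mul, map_add, trace_conj_mul_conj,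
      mul_add]
    ring

/-- **COBCUP** (verbatim `RQ.CobCupStatement`). -/
theorem cobCup : CobCupStatement := by
  intro k _ p _ _ ρbar H c y hc hy
  exact ⟨fun h => cup_cob_left ρbar H hy h, fun h => cup_cob_right ρbar H hc hy h⟩

end Fermat.Agent.S56.RQ.H475

end

end
-- ===== PACK-END S56/RQ/CobCupH475.lean

-- ===== PACK-BEGIN S55/H963/RayL.lean
section


/-!
# S55 / leaf RAY-N1 (helper963): ray class `L`-series are bounded on `(1, 2]`

For a ray datum `D` with finite class group `A` on which `ψ` is surjective: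
* `exists_zeta_sub_bound_of_surj` : all partial zeta functions differ by `O(1)`;
* `exists_LSum_bound` : for a nontrivial character `χ` of `A`, the series
  `L(s, χ) = ∑_{I coprime to m} χ(ψ I) N(I)^(-s)` is bounded on `(1, 2]`.
-/

set_option autoImplicit false

namespace Fermat.Agent.S55.H963

open NumberField

variable {K : Type*} [Field K] [NumberField K] {A : Type*} [CommGroup A]

namespace RayDatum

variable (D : RayDatum K A)

/-- `ψ` is surjective on the nonzero ideals coprime to the modulus. -/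
def IsSurj : Prop :=
  ∀ a : A, ∃ 𝔠 : Ideal (𝓞 K), 𝔠 ≠ ⊥ ∧ IsCoprime 𝔠 D.m ∧ D.ψ 𝔠 = a

/-- **RAY-N1, uniform version.** -/
theorem exists_zeta_sub_bound_of_surj [Finite A] (hsurj : D.IsSurj) :
    ∃ B : ℝ, ∀ s : ℝ, 1 < s → s ≤ 2 → ∀ a a' : A, |D.zeta a s - D.zeta a' s| ≤ B := by
  classical
  have _ : Fintype A := Fintype.ofFinite A
  have key : ∀ p : A × A, ∃ B : ℝ, ∀ s : ℝ, 1 < s → s ≤ 2 →
      |D.zeta p.1 s - D.zeta p.2 s| ≤ B := by
    rintro ⟨a, a'⟩
    obtain ⟨𝔠, h𝔠, h𝔠m, h𝔠ψ⟩ := hsurj (a⁻¹ * a')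
    obtain ⟨B, hB⟩ := D.exists_zeta_sub_bound' 𝔠 h𝔠 h𝔠m a
    refine ⟨B, fun s hs1 hs2 => ?_⟩
    have := hB s hs1 hs2
    rwa [h𝔠ψ, mul_inv_cancel_left] at this
  choose B hB using key
  refine ⟨∑ p : A × A, |B p|, fun s hs1 hs2 a a' => ?_⟩
  refine ((hB (a, a') s hs1 hs2).trans (le_abs_self _)).trans ?_
  exact Finset.single_le_sum (f := fun p => |B p|) (fun p _ => abs_nonneg _)
    (Finset.mem_univ (a, a'))

/-- The nonzero ideals coprime to the modulus. -/
def all : Set (Ideal (𝓞 K)) := {I | I ≠ ⊥ ∧ IsCoprime I D.m}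

/-- The `L`-series of the character `χ ∘ ψ`, for a real argument. -/
noncomputable def LSum (χ : A →* ℂˣ) (s : ℝ) : ℂ :=
  ∑' I : D.all, ((χ (D.ψ I) : ℂˣ) : ℂ) *
    (((Ideal.absNorm (I : Ideal (𝓞 K)) : ℝ) ^ (-s) : ℝ) : ℂ)

theorem norm_char [Finite A] (χ : A →* ℂˣ) (a : A) : ‖((χ a : ℂˣ) : ℂ)‖ = 1 := by
  have _ : Fintype A := Fintype.ofFinite A
  have h1 : ((χ a : ℂˣ) : ℂ) ^ (Fintype.card A) = 1 := by
    rw [← Units.val_pow_eq_pow_val, ← map_pow, pow_card_eq_one, map_one, Units.val_one]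
  exact Complex.norm_eq_one_of_pow_eq_one h1 Fintype.card_ne_zero

theorem sum_char_eq_zero [Fintype A] (χ : A →* ℂˣ) (hχ : χ ≠ 1) :
    ∑ a : A, ((χ a : ℂˣ) : ℂ) = 0 := by
  have h := sum_hom_units_eq_zero ((Units.coeHom ℂ).comp χ) (by
    intro h
    apply hχ
    ext a
    have := DFunLike.congr_fun h a
    simpa using this)
  simpa using h

/-- The `L`-series as a combination of partial zeta functions. -/
theorem LSum_eq_sum [Fintype A] (χ : A →* ℂˣ) {s : ℝ} (hs : 1 < s) :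
    D.LSum χ s = ∑ a : A, ((χ a : ℂˣ) : ℂ) * ((D.zeta a s : ℝ) : ℂ) := by
  classical
  unfold LSum
  set f : Ideal (𝓞 K) → ℂ := fun I =>
    ((χ (D.ψ I) : ℂˣ) : ℂ) * (((Ideal.absNorm I : ℝ) ^ (-s) : ℝ) : ℂ) with hf
  have hsub : ∀ a : A, Summable fun I : D.cls a => f I := by
    intro a
    have h1 : Summable fun I : D.cls a =>
        (((Ideal.absNorm (I : Ideal (𝓞 K)) : ℝ) ^ (-s) : ℝ) : ℂ) :=
      Complex.summable_ofReal.mpr (D.summable_cls a hs)
    refine (h1.mul_left ((χ a : ℂˣ) : ℂ)).congr fun I => ?_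
    show _ = ((χ (D.ψ (I : Ideal (𝓞 K))) : ℂˣ) : ℂ) * _
    rw [I.2.2.2]
  have hval : ∀ a : A, ∑' I : D.cls a, f I = ((χ a : ℂˣ) : ℂ) * ((D.zeta a s : ℝ) : ℂ) := by
    intro a
    unfold zeta
    rw [Complex.ofReal_tsum, ← tsum_mul_left]
    congr 1
    funext I
    show ((χ (D.ψ (I : Ideal (𝓞 K))) : ℂˣ) : ℂ) * _ = _
    rw [I.2.2.2]
  have h1 : ∀ a : A, Summable ((D.cls a).indicator f) := fun a =>
    summable_subtype_iff_indicator.mp (hsub a)
  have h2 : (D.all).indicator f = fun I => ∑ a : A, (D.cls a).indicator f I := by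
    funext I
    by_cases hI : I ∈ D.all
    · rw [Set.indicator_of_mem hI, Finset.sum_eq_single (D.ψ I)]
      · rw [Set.indicator_of_mem]
        exact ⟨hI.1, hI.2, rfl⟩
      · intro a _ ha
        rw [Set.indicator_of_notMem]
        rintro ⟨-, -, h⟩
        exact ha h.symm
      · intro h
        exact absurd (Finset.mem_univ _) h
    · rw [Set.indicator_of_notMem hI]
      symm
      apply Finset.sum_eq_zero
      intro a _
      rw [Set.indicator_of_notMem]
      rintro ⟨h1, h2, -⟩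
      exact hI ⟨h1, h2⟩
  rw [tsum_subtype (D.all) f, h2, Summable.tsum_finsetSum (fun a _ => h1 a)]
  refine Finset.sum_congr rfl fun a _ => ?_
  rw [← tsum_subtype (D.cls a) f]
  exact hval a

/-- **Ray class `L`-series are bounded near `s = 1`.** -/
theorem exists_LSum_bound [Finite A] (hsurj : D.IsSurj) (χ : A →* ℂˣ) (hχ : χ ≠ 1) :
    ∃ B : ℝ, ∀ s : ℝ, 1 < s → s ≤ 2 → ‖D.LSum χ s‖ ≤ B := by
  classical
  have _ : Fintype A := Fintype.ofFinite A
  obtain ⟨B, hB⟩ := D.exists_zeta_sub_bound_of_surj hsurj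
  refine ⟨Fintype.card A * B, fun s hs1 hs2 => ?_⟩
  rw [D.LSum_eq_sum χ hs1]
  have h0 : ∑ a : A, ((χ a : ℂˣ) : ℂ) * ((D.zeta 1 s : ℝ) : ℂ) = 0 := by
    rw [← Finset.sum_mul, sum_char_eq_zero χ hχ, zero_mul]
  have h1 : ∑ a : A, ((χ a : ℂˣ) : ℂ) * ((D.zeta a s : ℝ) : ℂ) =
      ∑ a : A, ((χ a : ℂˣ) : ℂ) * (((D.zeta a s - D.zeta 1 s : ℝ)) : ℂ) := by
    rw [← sub_zero (∑ a : A, ((χ a : ℂˣ) : ℂ) * ((D.zeta a s : ℝ) : ℂ)), ← h0,
      ← Finset.sum_sub_distrib]
    refine Finset.sum_congr rfl fun a _ => ?_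
    push_cast
    ring
  rw [h1]
  refine (norm_sum_le _ _).trans ?_
  have h2 : ∀ a ∈ (Finset.univ : Finset A),
      ‖((χ a : ℂˣ) : ℂ) * (((D.zeta a s - D.zeta 1 s : ℝ)) : ℂ)‖ ≤ B := by
    intro a _
    rw [norm_mul, norm_char χ a, one_mul, Complex.norm_real, Real.norm_eq_abs]
    exact hB s hs1 hs2 a 1
  refine (Finset.sum_le_sum h2).trans ?_
  rw [Finset.sum_const, Finset.card_univ, nsmul_eq_mul]

end RayDatum

end Fermat.Agent.S55.H963

end
-- ===== PACK-END S55/H963/RayL.lean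

-- ===== PACK-BEGIN S55/L/UnrInv/Inj.lean
section



/-!
# S55, layer L, unramified invariants: injectivity
-/

set_option autoImplicit false
set_option linter.style.haveILetI false

namespace Fermat.Agent.S55.L.UnrInv

open groupCohomology

theorem natCast_div_coe_eq_zero {n k : ℕ} (hk : k < n)
    (h : ((((k : ℚ) / (n : ℚ) : ℚ)) : AddCircle (1 : ℚ)) = 0) : k = 0 := by
  rw [AddCircle.coe_eq_zero_iff] at h
  obtain ⟨z, hz⟩ := h
  have hn : (0 : ℚ) < n := by
    have : 0 < n := by omega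
    exact_mod_cast this
  have h1 : (z : ℚ) * n = k := by
    have : (z : ℚ) = (k : ℚ) / n := by simpa using hz
    rw [this]
    field_simp
  have h2 : z * (n : ℤ) = (k : ℤ) := by exact_mod_cast h1
  have h3 : z = 0 := by
    by_contra hz0
    rcases lt_or_gt_of_ne hz0 with hneg | hpos
    · have : z * (n : ℤ) < 0 := by
        have hnz : (0 : ℤ) < n := by exact_mod_cast (by omega : 0 < n)
        exact Int.mul_neg_of_neg_of_pos hneg hnz
      omega
    · have : (n : ℤ) ≤ z * (n : ℤ) := by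
        have hnz : (0 : ℤ) ≤ n := by positivity
        nlinarith
      omega
  rw [h3, zero_mul] at h2
  exact_mod_cast h2.symm

/-- An additive map from a group of order `≤ n` to `ℚ/ℤ` taking the value `1/n` is injective. -/
theorem injective_of_card_le {G : Type*} [AddCommGroup G] [Finite G] {n : ℕ} (hn : 0 < n)
    (hcard : Nat.card G ≤ n) (ψ : G →+ AddCircle (1 : ℚ)) (g : G)
    (hg : ψ g = (((n : ℚ)⁻¹ : ℚ) : AddCircle (1 : ℚ))) : Function.Injective ψ := by
  have hψ : ∀ k : ℕ, ψ (k • g) = ((((k : ℚ) / (n : ℚ) : ℚ)) : AddCircle (1 : ℚ)) := by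
    intro k
    rw [map_nsmul, hg, ← AddCircle.coe_nsmul, nsmul_eq_mul, div_eq_mul_inv]
  have hinj : Function.Injective (fun k : Fin n => (k : ℕ) • g) := by
    have key : ∀ a b : ℕ, a ≤ b → b < n → a • g = b • g → a = b := by
      intro a b hab hb h
      have h1 : ψ ((b - a) • g) = 0 := by
        have : (b - a) • g + a • g = b • g := by
          rw [← add_nsmul, Nat.sub_add_cancel hab]
        have h2 : ψ ((b - a) • g) + ψ (a • g) = ψ (b • g) := by rw [← map_add, this]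
        rw [h] at h2
        exact add_eq_right.mp h2
      rw [hψ] at h1
      have := natCast_div_coe_eq_zero (by omega : b - a < n) h1
      omega
    intro a b h
    apply Fin.ext
    rcases le_total (a : ℕ) (b : ℕ) with hab | hab
    · exact key a b hab b.2 h
    · exact (key b a hab a.2 h.symm).symm
  have hbij : Function.Bijective (fun k : Fin n => (k : ℕ) • g) := by
    apply Function.Injective.bijective_of_nat_card_le hinj
    simpa using hcard
  rw [injective_iff_map_eq_zero]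
  intro x hx
  obtain ⟨k, rfl⟩ := hbij.2 x
  simp only at hx ⊢
  rw [hψ] at hx
  rw [natCast_div_coe_eq_zero k.2 hx, zero_smul]

variable {K E : Type} [Field K] [Field E] [Algebra K E]

namespace UnrPack

variable (P : UnrPack K E)

theorem isFrobeniusElt : IsFrobeniusElt K E P.φ := ⟨P.A, P.B, P.hA, P.hB, P.frob⟩

/-- **Injectivity** of the invariant map of an unramified extension. -/
theorem inv_injective [FiniteDimensional K E] [IsGalois K E] [IsLocalFld K]
    (h0 : RingOfIntegersUniqueSpec) (h1 : FiniteExtSpec) (h2 : H2CyclicSpec) :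
    Function.Injective P.inv := by
  obtain ⟨eqv⟩ := h2 K E
  have hn : 0 < Module.finrank K E := Module.finrank_pos
  haveI : NeZero (Module.finrank K E) := ⟨hn.ne'⟩
  haveI : Finite (H2 (unitsRep K E)) := Finite.of_equiv _ eqv.symm.toEquiv
  have hcard : Nat.card (H2 (unitsRep K E)) ≤ Module.finrank K E := by
    rw [Nat.card_congr eqv.toEquiv, Nat.card_zmod]
  obtain ⟨π, hπ⟩ := exists_isUniformizer P.A P.hA.1
  have hπ0 : π ≠ 0 := uniformizer_ne_zero P.A hπ
  exact injective_of_card_le hn hcard P.inv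
    (cls (G.Rec.H541.cyclicCocycle P.φ P.gen (Units.mk0 π hπ0)))
    (P.inv_cyclic h0 h1 P.A P.hA P.φ P.isFrobeniusElt (Units.mk0 π hπ0) hπ _
      (G.Rec.H541.isCyclicCocycle_cyclicCocycle P.φ P.gen (Units.mk0 π hπ0)))

end UnrPack

end Fermat.Agent.S55.L.UnrInv

end
-- ===== PACK-END S55/L/UnrInv/Inj.lean

-- ===== PACK-BEGIN S55/L/Inv481/Main.lean
section


/-!
# S55 / layer L / leaf L-C2 (helper481): the invariant maps (`InvSpec`)

From the unramified invariant maps (`UnrInvSpec`), `H²(L/K)` cyclic of order `[L : K]`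
(`H2CyclicSpec`), existence and cyclicity of unramified extensions and two facts on unramified
subextensions (`UnrNestSpec`, `UnrBCSpec`) we construct the invariant maps of all finite Galois
extensions of local fields with all their compatibilities.
-/

set_option autoImplicit false
set_option linter.style.haveILetI false

namespace Fermat.Agent.S55.L.Inv481

open groupCohomology

section Main

variable (U : UnrInvFamily) (hEx : UnramifiedExistsSpec) (hCyc : UnramifiedCyclicSpec)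
  (hH2 : H2CyclicSpec) (hNest : UnrNestSpec) (hBC : UnrBCSpec)

/-- the chosen good datum of `(K, L)` -/
noncomputable def chosenDatum (K L : Type) [Field K] [Field L] [Algebra K L]
    [FiniteDimensional K L] [IsGalois K L] [IsLocalFld K] : {D : Datum K L // D.Good} :=
  Classical.choice (let ⟨D, hD⟩ := exists_good hEx hCyc hH2 K L; ⟨⟨D, hD⟩⟩)

/-- **The invariant map** of a finite Galois extension of local fields. -/
noncomputable def invMap (K L : Type) [Field K] [Field L] [Algebra K L]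
    [FiniteDimensional K L] [IsGalois K L] [IsLocalFld K] :
    H2 (unitsRep K L) →+ AddCircle (1 : ℚ) :=
  (U.inv K (chosenDatum hEx hCyc hH2 K L).1.E).comp
    ((chosenDatum hEx hCyc hH2 K L).1.phi (chosenDatum hEx hCyc hH2 K L).2)

include hNest in
/-- the invariant can be computed from any datum -/
theorem invMap_eq (K L : Type) [Field K] [Field L] [Algebra K L]
    [FiniteDimensional K L] [IsGalois K L] [IsLocalFld K]
    {M E : Type} [Field M] [Field E] [Algebra K M] [Algebra K E]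
    [FiniteDimensional K M] [IsGalois K M] [FiniteDimensional K E] [IsGalois K E]
    (hu : IsUnramifiedExt K E) (a : L →ₐ[K] M) (b : E →ₐ[K] M)
    (x : H2 (unitsRep K L)) (y : H2 (unitsRep K E))
    (h : (embPair b).pull y = (embPair a).pull x) :
    invMap U hEx hCyc hH2 K L x = U.inv K E y :=
  unr_inv_eq U hEx hCyc hNest (chosenDatum hEx hCyc hH2 K L).1.unr hu
    (chosenDatum hEx hCyc hH2 K L).1.jL (chosenDatum hEx hCyc hH2 K L).1.jE a b x _ y
    (Datum.phi_spec _ _ x) h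

theorem invMap_injective (K L : Type) [Field K] [Field L] [Algebra K L]
    [FiniteDimensional K L] [IsGalois K L] [IsLocalFld K] :
    Function.Injective (invMap U hEx hCyc hH2 K L) := by
  intro x x' h
  exact Datum.phi_injective _ _ (U.inv_injective K _ (chosenDatum hEx hCyc hH2 K L).1.unr h)

include hNest in
theorem invMap_inflation (K L L' : Type) [Field K] [Field L] [Field L'] [Algebra K L]
    [Algebra K L'] [Algebra L L'] [IsScalarTower K L L'] [FiniteDimensional K L]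
    [FiniteDimensional K L'] [IsGalois K L] [IsGalois K L'] [IsLocalFld K]
    (f : cocycles₂ (unitsRep K L)) (f' : cocycles₂ (unitsRep K L')) (h : IsInflation f f') :
    invMap U hEx hCyc hH2 K L' (cls f') = invMap U hEx hCyc hH2 K L (cls f) := by
  have hx' : (inflPair K L L').pull (cls f) = cls f' :=
    ((isInflation_iff_isPull f f').mp h).pull_cls
  symm
  rw [invMap_eq U hEx hCyc hH2 hNest K L (chosenDatum hEx hCyc hH2 K L').1.unr
    ((chosenDatum hEx hCyc hH2 K L').1.jL.comp (IsScalarTower.toAlgHom K L L'))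
    (chosenDatum hEx hCyc hH2 K L').1.jE (cls f)
    ((chosenDatum hEx hCyc hH2 K L').1.phi (chosenDatum hEx hCyc hH2 K L').2 (cls f')) ?_]
  · rfl
  · rw [Datum.phi_spec, embPair_pull_comp, ← inflPair_eq_embPair, hx']

include hNest in
theorem invMap_unramified (K L : Type) [Field K] [Field L] [Algebra K L]
    [FiniteDimensional K L] [IsGalois K L] [IsLocalFld K] (hu : IsUnramifiedExt K L)
    (A : ValuationSubring K) (hA : IsLocalRingOfIntegers A)
    (φ : L ≃ₐ[K] L) (hφ : IsFrobeniusElt K L φ)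
    (π : Kˣ) (hπ : IsUniformizer A (π : K))
    (f : cocycles₂ (unitsRep K L)) (hf : IsCyclicCocycle φ π f) :
    invMap U hEx hCyc hH2 K L (cls f) = (((Module.finrank K L : ℚ)⁻¹ : ℚ) : AddCircle (1 : ℚ)) := by
  rw [invMap_eq U hEx hCyc hH2 hNest K L hu (AlgHom.id K L) (AlgHom.id K L) (cls f) (cls f) rfl]
  exact U.inv_unramified K L hu A hA φ hφ π hπ f hf

include hNest hBC in
/-- restriction, computed on an arbitrary datum -/
theorem invMap_restriction_aux (K K' L : Type) [Field K] [Field K'] [Field L] [Algebra K K']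
    [Algebra K L] [Algebra K' L] [IsScalarTower K K' L] [FiniteDimensional K L]
    [FiniteDimensional K' L] [IsGalois K L] [IsGalois K' L] [IsLocalFld K] [IsLocalFld K']
    {M E : Type} [Field M] [Field E] [Algebra K M] [Algebra K E]
    [FiniteDimensional K M] [IsGalois K M] [FiniteDimensional K E] [IsGalois K E]
    (hu : IsUnramifiedExt K E) (a : L →ₐ[K] M) (b : E →ₐ[K] M)
    (x : H2 (unitsRep K L)) (y : H2 (unitsRep K E))
    (h : (embPair b).pull y = (embPair a).pull x) :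
    invMap U hEx hCyc hH2 K' L ((resPair K K' L).pull x) =
      Module.finrank K K' • U.inv K E y := by
  letI aK'M : Algebra K' M := ((a : L →+* M).comp (algebraMap K' L)).toAlgebra
  haveI tKK'M : IsScalarTower K K' M := IsScalarTower.of_algebraMap_eq (fun r => by
    change algebraMap K M r = a (algebraMap K' L (algebraMap K K' r))
    rw [← IsScalarTower.algebraMap_apply K K' L, a.commutes])
  haveI : FiniteDimensional K K' := FiniteDimensional.left K K' L
  haveI : FiniteDimensional K' M := FiniteDimensional.right K K' M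
  haveI : IsGalois K' M := IsGalois.tower_top_of_isGalois K K' M
  -- the unramified extension `E'` of `K'` inside `M`
  obtain ⟨E', hu', hsub⟩ := hBC K K' M b.fieldRange (isUnramifiedExt_fieldRange b hu)
  haveI : IsGalois K' E' := (hCyc K' E' hu').1
  -- `E'` is an `E`-algebra
  let ιE : E →+* E' :=
    { toFun := fun z => ⟨b z, hsub _ ⟨z, rfl⟩⟩
      map_one' := Subtype.ext (map_one b)
      map_mul' := fun _ _ => Subtype.ext (map_mul b _ _)
      map_zero' := Subtype.ext (map_zero b)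
      map_add' := fun _ _ => Subtype.ext (map_add b _ _) }
  letI : Algebra E E' := ιE.toAlgebra
  haveI : IsScalarTower K E E' := IsScalarTower.of_algebraMap_eq (fun r => Subtype.ext (by
    change algebraMap K M r = b (algebraMap K E r)
    rw [b.commutes]))
  let a' : L →ₐ[K'] M := { (a : L →+* M) with commutes' := fun r => rfl }
  obtain ⟨c, rfl⟩ := exists_cls_eq y
  have hbc := U.inv_baseChange K K' E E' hu hu' c ((bcPair K K' E E').pullCocycle c)
    ((isBaseChange_iff_isPull _ _).mpr (GalPair.isPull_pullCocycle _ _))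
  rw [← GalPair.pull_cls] at hbc
  rw [← hbc]
  apply invMap_eq U hEx hCyc hH2 hNest K' L hu' a' E'.val
  rw [GalPair.pull_pull (bcPair K K' E E') (embPair E'.val)
      ((embPair b).comp (resPair K K' M)) (RingHom.ext fun _ => rfl),
    GalPair.pull_pull (resPair K K' L) (embPair a')
      ((embPair a).comp (resPair K K' M)) (RingHom.ext fun _ => rfl),
    GalPair.pull_comp, GalPair.pull_comp, h]

include hNest hBC in
theorem invMap_restriction (K K' L : Type) [Field K] [Field K'] [Field L] [Algebra K K']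
    [Algebra K L] [Algebra K' L] [IsScalarTower K K' L] [FiniteDimensional K L]
    [FiniteDimensional K' L] [IsGalois K L] [IsGalois K' L] [IsLocalFld K] [IsLocalFld K']
    (f : cocycles₂ (unitsRep K L)) (f' : cocycles₂ (unitsRep K' L)) (h : IsRestriction f f') :
    invMap U hEx hCyc hH2 K' L (cls f') =
      Module.finrank K K' • invMap U hEx hCyc hH2 K L (cls f) := by
  have hx' : (resPair K K' L).pull (cls f) = cls f' :=
    ((isRestriction_iff_isPull f f').mp h).pull_cls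
  rw [← hx']
  exact invMap_restriction_aux U hEx hCyc hH2 hNest hBC K K' L
    (chosenDatum hEx hCyc hH2 K L).1.unr (chosenDatum hEx hCyc hH2 K L).1.jL
    (chosenDatum hEx hCyc hH2 K L).1.jE (cls f) _ (Datum.phi_spec _ _ (cls f))

end Main

section BaseEquiv

variable {K L K' L' : Type} [Field K] [Field L] [Algebra K L] [Field K'] [Field L']
  [Algebra K' L'] [FiniteDimensional K L] [IsGalois K L] [FiniteDimensional K' L']
  [IsGalois K' L']

/-- compatible isomorphisms `L ≃ L'`, `Gal(L/K) ≃ Gal(L'/K')` induce an isomorphism `K ≃ K'` -/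
theorem exists_baseEquiv (e : L ≃+* L') (c : (L ≃ₐ[K] L) ≃* (L' ≃ₐ[K'] L'))
    (hc : ∀ (g : L ≃ₐ[K] L) (x : L), c g (e x) = e (g x)) :
    ∃ e₀ : K ≃+* K', ∀ a, algebraMap K' L' (e₀ a) = e (algebraMap K L a) := by
  have h1 : ∀ a : K, ∃ a' : K', algebraMap K' L' a' = e (algebraMap K L a) := by
    intro a
    have hmem : e (algebraMap K L a) ∈ (⊥ : IntermediateField K' L') := by
      rw [IsGalois.mem_bot_iff_fixed]
      intro σ
      have := hc (c.symm σ) (algebraMap K L a)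
      rw [MulEquiv.apply_symm_apply, AlgEquiv.commutes] at this
      exact this
    exact IntermediateField.mem_bot.mp hmem
  have h2 : ∀ a' : K', ∃ a : K, algebraMap K L a = e.symm (algebraMap K' L' a') := by
    intro a'
    have hmem : e.symm (algebraMap K' L' a') ∈ (⊥ : IntermediateField K L) := by
      rw [IsGalois.mem_bot_iff_fixed]
      intro σ
      apply e.injective
      rw [← hc σ, e.apply_symm_apply, AlgEquiv.commutes]
    exact IntermediateField.mem_bot.mp hmem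
  choose φ hφ using h1
  choose ψ hψ using h2
  refine ⟨{ toFun := φ, invFun := ψ, left_inv := ?_, right_inv := ?_, map_mul' := ?_,
            map_add' := ?_ }, hφ⟩
  · intro a
    apply (algebraMap K L).injective
    rw [hψ, hφ, e.symm_apply_apply]
  · intro a'
    apply (algebraMap K' L').injective
    rw [hφ, hψ, e.apply_symm_apply]
  · intro a b
    apply (algebraMap K' L').injective
    rw [hφ, map_mul, map_mul, map_mul, hφ, hφ]
  · intro a b
    apply (algebraMap K' L').injective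
    rw [hφ, map_add, map_add, map_add, hφ, hφ]

end BaseEquiv

section MainTransport

variable (U : UnrInvFamily) (hEx : UnramifiedExistsSpec) (hCyc : UnramifiedCyclicSpec)
  (hH2 : H2CyclicSpec) (hNest : UnrNestSpec)

include hNest in
/-- transport, computed on an arbitrary datum -/
theorem invMap_transport_aux (K L K' L' : Type) [Field K] [Field L] [Algebra K L] [Field K']
    [Field L'] [Algebra K' L'] [FiniteDimensional K L] [FiniteDimensional K' L'] [IsGalois K L]
    [IsGalois K' L'] [IsLocalFld K] [IsLocalFld K']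
    (e : L ≃+* L') (c : (L ≃ₐ[K] L) ≃* (L' ≃ₐ[K'] L'))
    (hc : ∀ (g : L ≃ₐ[K] L) (x : L), c g (e x) = e (g x))
    {M E : Type} [Field M] [Field E] [Algebra K M] [Algebra K E]
    [FiniteDimensional K M] [IsGalois K M] [FiniteDimensional K E] [IsGalois K E]
    (hu : IsUnramifiedExt K E) (a : L →ₐ[K] M) (b : E →ₐ[K] M)
    (x : H2 (unitsRep K L)) (y : H2 (unitsRep K E))
    (h : (embPair b).pull y = (embPair a).pull x) :
    invMap U hEx hCyc hH2 K' L' ((transPair e c hc).pull x) = U.inv K E y := by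
  obtain ⟨e₀, he₀⟩ := exists_baseEquiv e c hc
  letI aM : Algebra K' M := ((algebraMap K M).comp (e₀.symm : K' →+* K)).toAlgebra
  letI aE : Algebra K' E := ((algebraMap K E).comp (e₀.symm : K' →+* K)).toAlgebra
  have hM : ∀ r, algebraMap K' M (e₀ r) = algebraMap K M r := fun r => by
    change algebraMap K M (e₀.symm (e₀ r)) = _
    rw [e₀.symm_apply_apply]
  have hE : ∀ r, algebraMap K' E (e₀ r) = algebraMap K E r := fun r => by
    change algebraMap K E (e₀.symm (e₀ r)) = _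
    rw [e₀.symm_apply_apply]
  haveI : IsGalois K' M := IsGalois.of_equiv_equiv (F := K) (E := M) (f := e₀)
    (g := RingEquiv.refl M) (by ext r; exact hM r)
  haveI : IsGalois K' E := IsGalois.of_equiv_equiv (F := K) (E := E) (f := e₀)
    (g := RingEquiv.refl E) (by ext r; exact hE r)
  haveI : FiniteDimensional K' M := Module.Finite.of_equiv_equiv e₀ (RingEquiv.refl M)
    (by ext r; exact hM r)
  haveI : FiniteDimensional K' E := Module.Finite.of_equiv_equiv e₀ (RingEquiv.refl E)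
    (by ext r; exact hE r)
  have hu' : IsUnramifiedExt K' E :=
    isUnramifiedExt_of_equiv e₀ (RingEquiv.refl E) (fun r => (hE r).symm) hu
  let a' : L' →ₐ[K'] M :=
    { (a : L →+* M).comp (e.symm : L' →+* L) with
      commutes' := fun r' => by
        obtain ⟨r, rfl⟩ := e₀.surjective r'
        change a (e.symm (algebraMap K' L' (e₀ r))) = algebraMap K' M (e₀ r)
        rw [he₀, e.symm_apply_apply, hM, a.commutes] }
  let b' : E →ₐ[K'] M :=
    { (b : E →+* M) with
      commutes' := fun r' => by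
        obtain ⟨r, rfl⟩ := e₀.surjective r'
        change b (algebraMap K' E (e₀ r)) = algebraMap K' M (e₀ r)
        rw [hE, hM, b.commutes] }
  obtain ⟨cy, rfl⟩ := exists_cls_eq y
  have ht := U.inv_transport K E K' E hu hu' (RingEquiv.refl E) (autCongrBase e₀ hE)
    (fun _ _ => rfl) cy ((basePair e₀ hE).pullCocycle cy)
    ((isTransport_iff_isPull _ _ _ _ _).mpr (GalPair.isPull_pullCocycle _ _))
  rw [← GalPair.pull_cls] at ht
  rw [← ht]
  apply invMap_eq U hEx hCyc hH2 hNest K' L' hu' a' b'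
  rw [GalPair.pull_pull (basePair e₀ hE) (embPair b')
      ((embPair b).comp (basePair e₀ hM)) (RingHom.ext fun _ => rfl),
    GalPair.pull_pull (transPair e c hc) (embPair a')
      ((embPair a).comp (basePair e₀ hM))
      (RingHom.ext fun z => congrArg a (e.symm_apply_apply z).symm),
    GalPair.pull_comp, GalPair.pull_comp, h]

include hNest in
theorem invMap_transport (K L K' L' : Type) [Field K] [Field L] [Algebra K L] [Field K']
    [Field L'] [Algebra K' L'] [FiniteDimensional K L] [FiniteDimensional K' L'] [IsGalois K L]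
    [IsGalois K' L'] [IsLocalFld K] [IsLocalFld K']
    (e : L ≃+* L') (c : (L ≃ₐ[K] L) ≃* (L' ≃ₐ[K'] L'))
    (hc : ∀ (g : L ≃ₐ[K] L) (x : L), c g (e x) = e (g x))
    (f : cocycles₂ (unitsRep K L)) (f' : cocycles₂ (unitsRep K' L'))
    (h : IsTransport e c f f') :
    invMap U hEx hCyc hH2 K' L' (cls f') = invMap U hEx hCyc hH2 K L (cls f) := by
  have hx' : (transPair e c hc).pull (cls f) = cls f' :=
    ((isTransport_iff_isPull e c hc f f').mp h).pull_cls
  rw [← hx']
  exact invMap_transport_aux U hEx hCyc hH2 hNest K L K' L' e c hc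
    (chosenDatum hEx hCyc hH2 K L).1.unr (chosenDatum hEx hCyc hH2 K L).1.jL
    (chosenDatum hEx hCyc hH2 K L).1.jE (cls f) _ (Datum.phi_spec _ _ (cls f))

end MainTransport

section Final

/-- **L-C2** (`InvSpec`): the invariant maps exist. -/
theorem inv_of' (hEx : UnramifiedExistsSpec) (hCyc : UnramifiedCyclicSpec)
    (hH2 : H2CyclicSpec) (hU : UnrInvSpec) (hNest : UnrNestSpec) (hBC : UnrBCSpec) :
    InvSpec := by
  obtain ⟨U⟩ := hU
  exact ⟨{
    inv := fun K L _ _ _ _ _ _ => invMap U hEx hCyc hH2 K L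
    inv_injective := fun K L _ _ _ _ _ _ => invMap_injective U hEx hCyc hH2 K L
    inv_inflation := fun K L L' _ _ _ _ _ _ _ _ _ _ _ _ f f' h =>
      invMap_inflation U hEx hCyc hH2 hNest K L L' f f' h
    inv_restriction := fun K K' L _ _ _ _ _ _ _ _ _ _ _ _ _ f f' h =>
      invMap_restriction U hEx hCyc hH2 hNest hBC K K' L f f' h
    inv_transport := fun K L K' L' _ _ _ _ _ _ _ _ _ _ _ _ e c hc f f' h =>
      invMap_transport U hEx hCyc hH2 hNest K L K' L' e c hc f f' h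
    inv_unramified := fun K L _ _ _ _ _ _ hu A hA φ hφ π hπ f hf =>
      invMap_unramified U hEx hCyc hH2 hNest K L hu A hA φ hφ π hπ f hf }⟩

/-- **L-C2** (`InvSpec`), with the signature announced in the interface (`FiniteExtSpec` is not
needed). -/
theorem inv_of (_hFE : FiniteExtSpec) (hEx : UnramifiedExistsSpec) (hCyc : UnramifiedCyclicSpec)
    (hH2 : H2CyclicSpec) (hU : UnrInvSpec) (hNest : UnrNestSpec) (hBC : UnrBCSpec) :
    InvSpec :=
  inv_of' hEx hCyc hH2 hU hNest hBC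

end Final

end Fermat.Agent.S55.L.Inv481

end
-- ===== PACK-END S55/L/Inv481/Main.lean

-- ===== PACK-BEGIN S55/E1/Lim/TrLemmas.lean
section
/-
S55 engine E1 — block LIM: composition / identity / naturality lemmas for the canonical
transition maps of `E1/Tr/Defs.lean` (`trP, trR, trA, trB, trE2, infCoeff`), in the POINTWISE
form needed for strict functoriality over the tower (`Level.proj (h.trans h')` is only
propositionally `(Level.proj h).comp (Level.proj h')`).   helper474.  Sorry-free.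
Uses `H793.alg10Comp`, `H793.alg10CompE2`.
-/



set_option autoImplicit false

open CategoryTheory CategoryTheory.Limits

namespace Fermat.Agent.S55.E1.Lim

open Fermat.Agent.S55.E1

noncomputable section

attribute [local instance 10000] Rep.hV2

variable {G G' G'' : Type} [Group G] [Group G'] [Group G'']

/-- Pointwise extensionality for morphisms of representations. -/
lemma repHom_ext {A B : Rep.{0} ℤ G} {f g : A ⟶ B} (h : ∀ x : A.V, f.hom x = g.hom x) :
    f = g := by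
  apply Rep.hom_ext
  apply DFunLike.ext
  exact h

section Comp

variable (π : G' →* G) (π' : G'' →* G') (π'' : G'' →* G)
variable {N : Rep.{0} ℤ G} {N' : Rep.{0} ℤ G'} {N'' : Rep.{0} ℤ G''}
variable (ν : N' ⟶ Rep.res π N) (ν' : N'' ⟶ Rep.res π' N') (ν'' : N'' ⟶ Rep.res π'' N)
variable {X : Rep.{0} ℤ G} {X' : Rep.{0} ℤ G'} {X'' : Rep.{0} ℤ G''}
variable (ι : Rep.res π X ⟶ X') (ι' : Rep.res π' X' ⟶ X'') (ι'' : Rep.res π'' X ⟶ X'')

lemma trP_comp (hπ : ∀ g, π'' g = π (π' g)) (hν : ∀ n : N''.V, ν''.hom n = ν.hom (ν'.hom n))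
    (x : (stdP N'').V) : (trP π'' ν'').hom x = (trP π ν).hom ((trP π' ν').hom x) := by
  obtain rfl : π'' = π.comp π' := MonoidHom.ext hπ
  exact H793.trP_comp_apply π π' ν ν' ν'' hν x

lemma trR_comp (hπ : ∀ g, π'' g = π (π' g)) (hν : ∀ n : N''.V, ν''.hom n = ν.hom (ν'.hom n))
    (r : (stdR N'').V) : (trR π'' ν'').hom r = (trR π ν).hom ((trR π' ν').hom r) := by
  obtain rfl : π'' = π.comp π' := MonoidHom.ext hπ
  exact H793.trR_comp_apply π π' ν ν' ν'' hν r

lemma trA_comp (hπ : ∀ g, π'' g = π (π' g)) (hν : ∀ n : N''.V, ν''.hom n = ν.hom (ν'.hom n))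
    (hι : ∀ x : X.V, ι''.hom x = ι'.hom (ι.hom x)) (f : homA N X) :
    trA π' ν' ι' (trA π ν ι f) = trA π'' ν'' ι'' f := by
  apply repHom_ext
  intro r
  rw [trA_hom_apply, trA_hom_apply, trA_hom_apply, trR_comp π π' π'' ν ν' ν'' hπ hν, hι]

lemma trB_comp (hπ : ∀ g, π'' g = π (π' g)) (hν : ∀ n : N''.V, ν''.hom n = ν.hom (ν'.hom n))
    (hι : ∀ x : X.V, ι''.hom x = ι'.hom (ι.hom x)) (f : homB N X) :
    trB π' ν' ι' (trB π ν ι f) = trB π'' ν'' ι'' f := by
  apply repHom_ext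
  intro r
  rw [trB_hom_apply, trB_hom_apply, trB_hom_apply, trP_comp π π' π'' ν ν' ν'' hπ hν, hι]

lemma trE2_comp (hπ : ∀ g, π'' g = π (π' g)) (hν : ∀ n : N''.V, ν''.hom n = ν.hom (ν'.hom n))
    (hι : ∀ x : X.V, ι''.hom x = ι'.hom (ι.hom x)) (y : E2 N X) :
    trE2 π' ν' ι' (trE2 π ν ι y) = trE2 π'' ν'' ι'' y := by
  obtain rfl : π'' = π.comp π' := MonoidHom.ext hπ
  exact ((H793.alg10CompE2 G G' G'' π π' N N' N'' ν ν' ν'' X X' X'' ι ι' ι'' hν hι).1 y).symm

lemma infCoeff_comp (hπ : ∀ g, π'' g = π (π' g))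
    (hι : ∀ x : X.V, ι''.hom x = ι'.hom (ι.hom x)) (n : ℕ) (z : groupCohomology X n) :
    infCoeff π' ι' n (infCoeff π ι n z) = infCoeff π'' ι'' n z := by
  obtain rfl : π'' = π.comp π' := MonoidHom.ext hπ
  have h := groupCohomology.map_comp (k := ℤ) π π' ι ι' n
  have h2 : ι'' = (Rep.resFunctor π').map ι ≫ ι' := repHom_ext hι
  subst h2
  show (groupCohomology.map π' ι' n).hom ((groupCohomology.map π ι n).hom z) = _
  unfold infCoeff
  rw [h]
  rfl

end Comp

/-! ### The identity transition -/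

section Id

variable {N : Rep.{0} ℤ G} {X Y : Rep.{0} ℤ G}

/-- The identity of `N` as `ν` for `π = id`. -/
def idν (N : Rep.{0} ℤ G) : N ⟶ Rep.res (MonoidHom.id G) N := 𝟙 N

/-- A morphism `X ⟶ Y` as `ι` for `π = id`. -/
def idι (f : X ⟶ Y) : Rep.res (MonoidHom.id G) X ⟶ Y := f

@[simp] lemma idν_apply (n : N.V) : (idν N).hom n = n := rfl

@[simp] lemma idι_apply (f : X ⟶ Y) (x : X.V) : (idι f).hom x = f.hom x := rfl

lemma trP_id_apply (x : (stdP N).V) : (trP (MonoidHom.id G) (idν N)).hom x = x := by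
  have h : trP (MonoidHom.id G) (idν N) = 𝟙 (stdP N) := by
    apply Rep.free_ext
    intro n
    exact trP_stdE (MonoidHom.id G) (idν N) n
  rw [h]; rfl

lemma trR_id_apply (r : (stdR N).V) : (trR (MonoidHom.id G) (idν N)).hom r = r := by
  apply H793.stdι_hom_injective N
  rw [trR_stdι_apply, trP_id_apply]

lemma trA_id (f : X ⟶ Y) (u : homA N X) : trA (MonoidHom.id G) (idν N) (idι f) u = u ≫ f := by
  apply repHom_ext
  intro r
  rw [trA_hom_apply, trR_id_apply]
  rfl

lemma trE2_id (f : X ⟶ Y) (y : E2 N X) :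
    trE2 (MonoidHom.id G) (idν N) (idι f) y = (H354.ihomH1Map (stdR N) f).hom y := by
  have h2 : groupCohomology.map (MonoidHom.id G)
      (trIhom (MonoidHom.id G) (trR (MonoidHom.id G) (idν N)) (idι f)) 1 =
      groupCohomology.map (MonoidHom.id G) ((Rep.ihom (stdR N)).map f) 1 := by
    refine groupCohomology.map_congr rfl (LinearMap.ext fun u => ?_) 1
    refine LinearMap.ext fun r => ?_
    show f.hom ((show (stdR N).V →ₗ[ℤ] X.V from u) ((trR (MonoidHom.id G) (idν N)).hom r)) =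
      f.hom ((show (stdR N).V →ₗ[ℤ] X.V from u) r)
    rw [trR_id_apply]
  show (groupCohomology.map (MonoidHom.id G)
      (trIhom (MonoidHom.id G) (trR (MonoidHom.id G) (idν N)) (idι f)) 1).hom y = _
  rw [h2]

end Id

/-! ### Naturality in the coefficients -/

section Nat

variable (π : G' →* G) {N : Rep.{0} ℤ G} {N' : Rep.{0} ℤ G'} (ν : N' ⟶ Rep.res π N)
variable {X Y : Rep.{0} ℤ G} {X' Y' : Rep.{0} ℤ G'}

lemma trA_natural (f : X ⟶ Y) (f' : X' ⟶ Y') (ιX : Rep.res π X ⟶ X') (ιY : Rep.res π Y ⟶ Y')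
    (h : ∀ x : X.V, ιY.hom (f.hom x) = f'.hom (ιX.hom x)) (u : homA N X) :
    trA π ν ιY (u ≫ f) = trA π ν ιX u ≫ f' := by
  apply repHom_ext
  intro r
  show ιY.hom (f.hom (u.hom ((trR π ν).hom r))) = f'.hom (ιX.hom (u.hom ((trR π ν).hom r)))
  rw [h]

lemma trE2_natural (f : X ⟶ Y) (f' : X' ⟶ Y') (ιX : Rep.res π X ⟶ X')
    (ιY : Rep.res π Y ⟶ Y')
    (h : ∀ x : X.V, ιY.hom (f.hom x) = f'.hom (ιX.hom x)) (y : E2 N X) :
    trE2 π ν ιY ((H354.ihomH1Map (stdR N) f).hom y) =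
      (H354.ihomH1Map (stdR N') f').hom (trE2 π ν ιX y) := by
  rw [← trE2_id, ← trE2_id]
  rw [trE2_comp (MonoidHom.id G) π π (idν N) ν ν (idι f) ιY ((Rep.resFunctor π).map f ≫ ιY)
    (fun _ => rfl) (fun _ => rfl) (fun _ => rfl) y]
  rw [trE2_comp π (MonoidHom.id G') π ν (idν N') ν ιX (idι f') ((Rep.resFunctor π).map f ≫ ιY)
    (fun _ => rfl) (fun _ => rfl) (fun x => h x) y]

end Nat

end

end Fermat.Agent.S55.E1.Lim

end
-- ===== PACK-END S55/E1/Lim/TrLemmas.lean

-- ===== PACK-BEGIN S55/E1/H895/Alg11.lean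
section
/-
S55 engine E1, leaf **ALG11 (local injectivity)** — helper895.   `theorem alg11 : ALG11Spec`.

`π : G' ↠ G` with kernel `H`, `N' ≅ res_π N`, `ι : X → X'` injective with image `X'^H`,
`H¹(H, X') = 0`  ⇒  `tr : 𝔈²_G(X) → 𝔈²_{G'}(X')` is injective.
Proof: cocycle argument of `coord/S55-E1-ALG911.md` (core: `Alg11Core.exists_primitive`).
-/



set_option autoImplicit false
set_option linter.unusedSectionVars false
set_option linter.unusedVariables false

open CategoryTheory CategoryTheory.Limits groupCohomology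

namespace Fermat.Agent.S55.E1.H895

noncomputable section

variable {G G' : Type} [Group G] [Group G']

lemma tP_eq_trP (π : G' →* G) {N : Rep.{0} ℤ G} {N' : Rep.{0} ℤ G'} (ν : N' ⟶ Rep.res π N) :
    tP (k := ℤ) π (fun n' : N'.V => ν.hom n') = trP π ν := rfl

/-- Hilbert 90 in cocycle form from the vanishing of `H¹`. -/
lemma h90_of_isZero {k : Type} [CommRing k] (X' : Rep.{0} k G') (H : Subgroup G')
    (h : IsZero (groupCohomology (Rep.res H.subtype X') 1))
    (z : H → X'.V) (hz : ∀ h₁ h₂ : H, z (h₁ * h₂) = X'.ρ h₁ (z h₂) + z h₁) :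
    ∃ x' : X'.V, ∀ h : H, z h = X'.ρ h x' - x' := by
  have hmem : z ∈ cocycles₁ (Rep.res H.subtype X') :=
    (mem_cocycles₁_iff (A := Rep.res H.subtype X') z).2 hz
  have h0 : H1π (Rep.res H.subtype X') ⟨z, hmem⟩ = 0 := by
    have := (ModuleCat.isZero_iff_subsingleton.1 h)
    exact Subsingleton.elim _ _
  obtain ⟨x', hx'⟩ := (H1π_eq_zero_iff _).1 h0
  exact ⟨x', fun h => (congrFun hx' h).symm⟩

/-- Extensionality for elements of `Hom_k(R, X)` (generic `k`). -/
lemma ihom_ext_lin {k : Type} [CommRing k] {R X : Rep.{0} k G}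
    {φ ψ : ((Rep.ihom R).obj X).V}
    (h : ∀ r : R.V, Fermat.Agent.S55.T.H719.ihomLin φ r = Fermat.Agent.S55.T.H719.ihomLin ψ r) :
    φ = ψ :=
  LinearMap.ext h

/-- `R' = ρ⁻¹(R)`: an element of `P'` whose image in `P` lies in `R` lies in `R'`
(`ν` injective). -/
lemma exists_stdι_of_trP (π : G' →* G) {N : Rep.{0} ℤ G} {N' : Rep.{0} ℤ G'}
    (ν : N' ⟶ Rep.res π N) (hν : Function.Injective ν.hom) (y' : (stdP N').V)
    (h : ∃ r : (stdR N).V, (stdι N).hom r = (trP π ν).hom y') :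
    ∃ r' : (stdR N').V, (stdι N').hom r' = y' := by
  obtain ⟨r, hr⟩ := h
  have hex := (Fermat.Agent.S55.T.H719.rep_shortExact_iff (stdSC N')).1 (stdSC_shortExact N')
  have hex0 := (Fermat.Agent.S55.T.H719.rep_shortExact_iff (stdSC N)).1 (stdSC_shortExact N)
  refine hex.2.2 y' ?_
  apply hν
  have h1 : ν.hom ((stdε N').hom y') = (stdε N).hom ((trP π ν).hom y') :=
    (trP_stdε_apply π ν y').symm
  change ν.hom ((stdε N').hom y') = ν.hom 0
  rw [h1, ← hr, map_zero]
  have h2 : stdι N ≫ stdε N = 0 := (stdSC N).zero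
  exact congrArg (fun t => t.hom r) h2

/-- **ALG11** (local injectivity). -/
theorem alg11 : ALG11Spec := by
  intro G G' _ _ _ π hπ N N' ν X X' ι hι hinv hH90
  have hνbij : Function.Bijective (fun n' : N'.V => ν.hom.hom n') := by
    constructor
    · intro a b hab
      have := congrArg (fun t => ν.inv.hom t) hab
      simpa using this
    · intro b
      exact ⟨ν.inv.hom b, by simp⟩
  unfold trE2
  apply map_one_injective_of
  intro c m' hm'
  obtain ⟨ψ, hψ⟩ := exists_primitive (k := ℤ) π (fun n' : N'.V => ν.hom.hom n')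
    (stdι N) (stdι N') (trR π ν.hom) ι hπ hνbij
    (Fermat.Agent.S55.E1.H304.stdι_injective N) (Fermat.Agent.S55.E1.H304.stdι_injective N')
    (fun r' => trR_stdι_apply π ν.hom r')
    (fun y' hy' => exists_stdι_of_trP π ν.hom hνbij.1 y' hy')
    hι hinv (h90_of_isZero X' π.ker hH90)
    (fun g => Fermat.Agent.S55.T.H719.ihomLin (c g)) (cocycles₁_map_one c)
    (Fermat.Agent.S55.T.H719.ihomLin m')
    (fun g' r' => by
      have := congrArg (fun t : ((Rep.ihom (stdR N')).obj X').V =>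
        Fermat.Agent.S55.T.H719.ihomLin t r') (hm' g')
      exact this)
  refine ⟨Fermat.Agent.S55.T.H719.ihomMk ψ, fun g => ?_⟩
  exact ihom_ext_lin (fun r => hψ g r)

end

end Fermat.Agent.S55.E1.H895

end
-- ===== PACK-END S55/E1/H895/Alg11.lean

-- ===== PACK-BEGIN S55/E1/H423/Cmp.lean
section





/-!
# S55, engine E1: comparison of presentations (CMP)

Let `φ : D →* G` be injective and `N` a `G`-module.  There are two presentations of `N|_D` by
free `ℤ[D]`-modules: the standard presentation `0 → R_D → P_D → N|_D → 0` of `Rep.res φ N`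
and the restriction to `D` of the standard presentation `0 → R → P → N → 0` of `N`.
They are compared by `trP φ 𝟙 : P_D → P|_D`, `trR φ 𝟙 : R_D → R|_D`.

Main result: for every `D`-module `X` the pull-back along `trR φ 𝟙`

  `H¹(D, Hom_ℤ(R|_D, X)) → H¹(D, Hom_ℤ(R_D, X))`

is bijective (`cmp_bijective`).  Consequences: `trE2_eq_cmp`, `trE2_eq_zero_iff` and
`E2_dies_iff_trE2` (E2-Shapiro of helper354 in terms of `trE2 φ 𝟙 (flat φ u)`, i.e. for the
STANDARD presentation of `N|_D` over `D`, as used by ALG9a, ALG10, ALG11).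
-/

set_option autoImplicit false
set_option linter.style.haveILetI false

open CategoryTheory CategoryTheory.Limits

namespace Fermat.Agent.S55.E1.H423

open Fermat.Agent.S55.E1
open Fermat.Agent.S55.T.H719 (ihomLin)

/-! ## Coset representatives -/

section Coset

variable {G D : Type} [Group G] [Group D] (φ : D →* G)

/-- A representative of the right coset `φ(D) g`; it is `1` on `φ(D)`. -/
noncomputable def cosetRep (g : G) : G :=
  ((Quotient.mk (QuotientGroup.rightRel φ.range) 1).out)⁻¹ *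
    (Quotient.mk (QuotientGroup.rightRel φ.range) g).out

private theorem out_mem (g : G) :
    (Quotient.mk (QuotientGroup.rightRel φ.range) g).out * g⁻¹ ∈ φ.range := by
  have h : (QuotientGroup.rightRel φ.range) g
      ((Quotient.mk (QuotientGroup.rightRel φ.range) g).out) :=
    Quotient.exact (Quotient.out_eq _).symm
  exact QuotientGroup.rightRel_apply.1 h

theorem cosetRep_mem (g : G) : g * (cosetRep φ g)⁻¹ ∈ φ.range := by
  have h1 := out_mem φ g
  have h2 := out_mem φ 1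
  rw [inv_one, mul_one] at h2
  have h3 : cosetRep φ g * g⁻¹ ∈ φ.range := by
    unfold cosetRep
    rw [mul_assoc]
    exact φ.range.mul_mem (φ.range.inv_mem h2) h1
  have := φ.range.inv_mem h3
  rwa [mul_inv_rev, inv_inv] at this

theorem cosetRep_mul (d : D) (g : G) : cosetRep φ (φ d * g) = cosetRep φ g := by
  unfold cosetRep
  have h : (Quotient.mk (QuotientGroup.rightRel φ.range) (φ d * g)) =
      Quotient.mk (QuotientGroup.rightRel φ.range) g := by
    apply Quotient.sound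
    apply QuotientGroup.rightRel_apply.2
    rw [mul_inv_rev, ← mul_assoc, mul_inv_cancel, one_mul]
    exact φ.range.inv_mem ⟨d, rfl⟩
  rw [h]

theorem cosetRep_range (d : D) : cosetRep φ (φ d) = 1 := by
  have := cosetRep_mul φ d 1
  rw [mul_one] at this
  rw [this]
  unfold cosetRep
  rw [inv_mul_cancel]

/-- The `D`-coordinate of `g`: `g = φ (cosetCoord g) * cosetRep g`. -/
noncomputable def cosetCoord (g : G) : D := Classical.choose (cosetRep_mem φ g)

theorem cosetCoord_spec (g : G) : φ (cosetCoord φ g) * cosetRep φ g = g := by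
  have h := Classical.choose_spec (cosetRep_mem φ g)
  unfold cosetCoord
  rw [h, inv_mul_cancel_right]

variable {φ}

theorem cosetCoord_mul (hφ : Function.Injective φ) (d : D) (g : G) :
    cosetCoord φ (φ d * g) = d * cosetCoord φ g := by
  apply hφ
  have h1 := cosetCoord_spec φ (φ d * g)
  have h2 := cosetCoord_spec φ g
  rw [cosetRep_mul] at h1
  rw [map_mul]
  have : φ (cosetCoord φ (φ d * g)) * cosetRep φ g = φ d * φ (cosetCoord φ g) * cosetRep φ g := by
    rw [h1, mul_assoc, h2]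
  exact mul_right_cancel this

theorem cosetCoord_range (hφ : Function.Injective φ) (d : D) : cosetCoord φ (φ d) = d := by
  apply hφ
  have h1 := cosetCoord_spec φ (φ d)
  rwa [cosetRep_range, mul_one] at h1

end Coset

/-! ## The retraction `pr : P → P_D` -/

section Pr

variable {G D : Type} [Group G] [Group D] (φ : D →* G) (N : Rep.{0} ℤ G)

/-- The basis element `m • g e_n` of `P = ℤ[G]^{(N)}`. -/
noncomputable def bvec (n : N.V) (g : G) (m : ℤ) : (stdP N).V :=
  (Finsupp.single n (MonoidAlgebra.single g m) : N.V →₀ MonoidAlgebra ℤ G)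

theorem stdP_ρ_bvec (h : G) (n : N.V) (g : G) (m : ℤ) :
    (stdP N).ρ h (bvec N n g m) = bvec N n (h * g) m :=
  Representation.free_single_single h g n m

theorem stdε_bvec (n : N.V) (g : G) (m : ℤ) :
    (stdε N).hom (bvec N n g m) = m • N.ρ g n := by
  have h2 : (stdε N).hom (bvec N n g m) = @HSMul.hSMul ℤ N.V N.V (@instHSMul ℤ N.V N.hV2.toSMul)
      m (N.ρ g n) := by
    letI : Module ℤ N.V := N.hV2
    exact Representation.freeLift_single_single N.ρ n g m (fun n : N.V => n)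
  rw [h2]
  exact int_smul_eq_zsmul N.hV2 m _

/-- Induction principle for `P`. -/
theorem stdP_induction {motive : (stdP N).V → Prop} (x : (stdP N).V)
    (zero : motive 0) (add : ∀ x y, motive x → motive y → motive (x + y))
    (single : ∀ (n : N.V) (g : G) (m : ℤ), motive (bvec N n g m)) : motive x :=
  H295.free_induction (motive := motive) x zero add single

/-- Two additive maps on `P` which agree on the basis are equal. -/
theorem stdP_addHom_ext {M : Type} [AddCommGroup M] {f f' : (stdP N).V →+ M}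
    (h : ∀ (n : N.V) (g : G) (m : ℤ), f (bvec N n g m) = f' (bvec N n g m)) (x : (stdP N).V) :
    f x = f' x := by
  induction x using stdP_induction with
  | zero => rw [map_zero, map_zero]
  | add x y hx hy => rw [map_add, map_add, hx, hy]
  | single n g m => exact h n g m

/-- Additive maps out of `P` from values on the basis. -/
noncomputable def stdPLift {M : Type} [AddCommGroup M] (v : N.V → G → M) : (stdP N).V →+ M :=
  H295.freeBasisLift v

theorem stdPLift_bvec {M : Type} [AddCommGroup M] (v : N.V → G → M) (n : N.V) (g : G) (m : ℤ) :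
    stdPLift N v (bvec N n g m) = m • v n g :=
  H295.freeBasisLift_single_single v n g m

theorem zsmul_bvec (n : N.V) (g : G) (m : ℤ) : m • bvec N n g 1 = bvec N n g m :=
  H295.zsmul_single_single n g m

/-- `pr : P → P_D`, `g e_n ↦ d_g e_{s_g n}` where `g = φ(d_g) s_g`. -/
noncomputable def cmpPr : (stdP N).V →+ (stdP (Rep.res φ N)).V :=
  stdPLift N (fun n g => bvec (Rep.res φ N) (N.ρ (cosetRep φ g) n) (cosetCoord φ g) 1)

theorem cmpPr_bvec (n : N.V) (g : G) (m : ℤ) :
    cmpPr φ N (bvec N n g m) =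
      bvec (Rep.res φ N) (N.ρ (cosetRep φ g) n) (cosetCoord φ g) m := by
  unfold cmpPr
  rw [stdPLift_bvec, zsmul_bvec]

theorem trP_bvec {G' : Type} [Group G'] (π : G' →* G) {N' : Rep.{0} ℤ G'}
    (ν : N' ⟶ Rep.res π N) (n' : N'.V) (d : G') (m : ℤ) :
    (trP π ν).hom (bvec N' n' d m) = bvec N (ν.hom n') (π d) m := by
  have h1 : (trP π ν).hom (bvec N' n' d m) =
      @HSMul.hSMul ℤ (stdP N).V (stdP N).V (@instHSMul ℤ (stdP N).V (stdP N).hV2.toSMul) m
        ((stdP N).ρ (π d) (stdE N (ν.hom n'))) := by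
    letI : Module ℤ (stdP N).V := (stdP N).hV2
    exact Representation.freeLift_single_single (Rep.res π (stdP N)).ρ n' d m
      (fun n' : N'.V => stdE N (ν.hom n'))
  refine h1.trans ((int_smul_eq_zsmul (stdP N).hV2 m _).trans ?_)
  have h2 : stdE N (ν.hom n') = bvec N (ν.hom n') 1 1 := rfl
  rw [h2, stdP_ρ_bvec, mul_one, zsmul_bvec]

variable {φ} in
theorem cmpPr_equivariant (hφ : Function.Injective φ) (d : D) (x : (stdP N).V) :
    cmpPr φ N ((stdP N).ρ (φ d) x) = (stdP (Rep.res φ N)).ρ d (cmpPr φ N x) := by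
  induction x using stdP_induction with
  | zero => rw [map_zero, map_zero, map_zero]
  | add x y hx hy => rw [map_add, map_add, hx, hy, map_add, map_add]
  | single n g m =>
    rw [stdP_ρ_bvec, cmpPr_bvec, cmpPr_bvec, stdP_ρ_bvec, cosetRep_mul, cosetCoord_mul hφ]

theorem stdε_cmpPr (x : (stdP N).V) :
    (stdε (Rep.res φ N)).hom (cmpPr φ N x) = (stdε N).hom x := by
  induction x using stdP_induction with
  | zero => rw [map_zero, map_zero, map_zero]
  | add x y hx hy => rw [map_add, map_add, hx, hy, map_add]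
  | single n g m =>
    rw [cmpPr_bvec, stdε_bvec, stdε_bvec]
    congr 1
    show N.ρ (φ (cosetCoord φ g)) (N.ρ (cosetRep φ g) n) = N.ρ g n
    have h : N.ρ (φ (cosetCoord φ g) * cosetRep φ g) n = N.ρ g n := by
      rw [cosetCoord_spec]
    rw [← h, map_mul]
    rfl

variable {φ} in
theorem cmpPr_trP (hφ : Function.Injective φ) (y : (stdP (Rep.res φ N)).V) :
    cmpPr φ N ((trP φ (𝟙 (Rep.res φ N))).hom y) = y := by
  induction y using stdP_induction with
  | zero => rw [map_zero, map_zero]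
  | add x y hx hy => rw [map_add, map_add, hx, hy]
  | single n d m =>
    rw [trP_bvec, cmpPr_bvec, cosetRep_range, cosetCoord_range hφ]
    have h1 : (𝟙 (Rep.res φ N) : Rep.res φ N ⟶ Rep.res φ N).hom n = n := rfl
    rw [h1, map_one]
    rfl

end Pr

/-! ## The retraction `r : R|_D → R_D` and the projection `κ : P → R` -/

section Retr

variable {G D : Type} [Group G] [Group D]

/-- Lift an additive map with values in `ker ε` through `stdι`. -/
theorem exists_addHom_lift_stdι {A : Type} [AddCommGroup A] (M : Rep.{0} ℤ G)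
    (f : A →+ (stdP M).V) (hf : ∀ a, (stdε M).hom (f a) = 0) :
    ∃ f' : A →+ (stdR M).V, ∀ a, (stdι M).hom (f' a) = f a := by
  have h : ∀ a, ∃ r : (stdR M).V, (stdι M).hom r = f a := fun a => exists_stdι_eq M (hf a)
  choose ρ hρ using h
  refine ⟨AddMonoidHom.mk' ρ (fun a b => ?_), hρ⟩
  apply stdι_injective M
  rw [map_add, hρ, hρ, hρ, map_add]

variable (φ : D →* G) (N : Rep.{0} ℤ G)

theorem cmpRetr_aux : ∃ f' : (stdR N).V →+ (stdR (Rep.res φ N)).V,
    ∀ b, (stdι (Rep.res φ N)).hom (f' b) = cmpPr φ N ((stdι N).hom b) :=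
  exists_addHom_lift_stdι (Rep.res φ N) ((cmpPr φ N).comp (addHom (stdι N)))
    (fun b => by
      show (stdε (Rep.res φ N)).hom (cmpPr φ N ((stdι N).hom b)) = 0
      rw [stdε_cmpPr, stdε_stdι_apply])

/-- The retraction `r : R|_D → R_D` (additive, `D`-equivariant). -/
noncomputable def cmpRetr : (stdR N).V →+ (stdR (Rep.res φ N)).V :=
  Classical.choose (cmpRetr_aux φ N)

theorem stdι_cmpRetr (b : (stdR N).V) :
    (stdι (Rep.res φ N)).hom (cmpRetr φ N b) = cmpPr φ N ((stdι N).hom b) :=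
  Classical.choose_spec (cmpRetr_aux φ N) b

theorem cmpKap_aux : ∃ f' : (stdP N).V →+ (stdR N).V,
    ∀ x, (stdι N).hom (f' x) = x - (trP φ (𝟙 (Rep.res φ N))).hom (cmpPr φ N x) :=
  exists_addHom_lift_stdι N
    (AddMonoidHom.id _ - (addHom (trP φ (𝟙 (Rep.res φ N)))).comp (cmpPr φ N))
    (fun x => by
      show (stdε N).hom (x - (trP φ (𝟙 (Rep.res φ N))).hom (cmpPr φ N x)) = 0
      rw [map_sub, trP_stdε_apply, stdε_cmpPr, sub_eq_zero]
      rfl)

/-- The projection `κ = 1 - τ_P ∘ pr : P → R` (additive, `D`-equivariant). -/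
noncomputable def cmpKap : (stdP N).V →+ (stdR N).V :=
  Classical.choose (cmpKap_aux φ N)

theorem stdι_cmpKap (x : (stdP N).V) :
    (stdι N).hom (cmpKap φ N x) = x - (trP φ (𝟙 (Rep.res φ N))).hom (cmpPr φ N x) :=
  Classical.choose_spec (cmpKap_aux φ N) x

variable {φ}

theorem cmpRetr_equivariant (hφ : Function.Injective φ) (d : D) (b : (stdR N).V) :
    cmpRetr φ N ((stdR N).ρ (φ d) b) = (stdR (Rep.res φ N)).ρ d (cmpRetr φ N b) := by
  apply stdι_injective (Rep.res φ N)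
  rw [stdι_cmpRetr, Rep.hom_comm_apply, cmpPr_equivariant N hφ, Rep.hom_comm_apply,
    stdι_cmpRetr]

theorem cmpRetr_trR (hφ : Function.Injective φ) (a : (stdR (Rep.res φ N)).V) :
    cmpRetr φ N ((trR φ (𝟙 (Rep.res φ N))).hom a) = a := by
  apply stdι_injective (Rep.res φ N)
  rw [stdι_cmpRetr, trR_stdι_apply, cmpPr_trP N hφ]

theorem trP_equivariant (d : D) (y : (stdP (Rep.res φ N)).V) :
    (trP φ (𝟙 (Rep.res φ N))).hom ((stdP (Rep.res φ N)).ρ d y) =
      (stdP N).ρ (φ d) ((trP φ (𝟙 (Rep.res φ N))).hom y) :=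
  Rep.hom_comm_apply (trP φ (𝟙 (Rep.res φ N))) d y

theorem trR_equivariant (d : D) (a : (stdR (Rep.res φ N)).V) :
    (trR φ (𝟙 (Rep.res φ N))).hom ((stdR (Rep.res φ N)).ρ d a) =
      (stdR N).ρ (φ d) ((trR φ (𝟙 (Rep.res φ N))).hom a) :=
  Rep.hom_comm_apply (trR φ (𝟙 (Rep.res φ N))) d a

theorem cmpKap_equivariant (hφ : Function.Injective φ) (d : D) (x : (stdP N).V) :
    cmpKap φ N ((stdP N).ρ (φ d) x) = (stdR N).ρ (φ d) (cmpKap φ N x) := by
  apply stdι_injective N
  rw [stdι_cmpKap, Rep.hom_comm_apply, stdι_cmpKap, cmpPr_equivariant N hφ, trP_equivariant,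
    map_sub]

theorem cmpKap_stdι (b : (stdR N).V) :
    cmpKap φ N ((stdι N).hom b) = b - (trR φ (𝟙 (Rep.res φ N))).hom (cmpRetr φ N b) := by
  apply stdι_injective N
  rw [stdι_cmpKap, map_sub, trR_stdι_apply, stdι_cmpRetr]

end Retr

/-! ## The cocycle computation -/

section Cocycle

variable {G D : Type} [Group G] [Group D] {φ : D →* G} (N : Rep.{0} ℤ G) (X : Rep.{0} ℤ D)

/-- `Hom_ℤ(R|_D, X)`. -/
noncomputable abbrev cmpHB (φ : D →* G) (N : Rep.{0} ℤ G) (X : Rep.{0} ℤ D) : Rep.{0} ℤ D :=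
  (Rep.ihom (Rep.res φ (stdR N))).obj X

/-- `Hom_ℤ(R_D, X)`. -/
noncomputable abbrev cmpHA (φ : D →* G) (N : Rep.{0} ℤ G) (X : Rep.{0} ℤ D) : Rep.{0} ℤ D :=
  (Rep.ihom (stdR (Rep.res φ N))).obj X

/-- The pull-back `Hom_ℤ(R|_D, X) ⟶ Hom_ℤ(R_D, X)` along `trR φ 𝟙`. -/
noncomputable abbrev cmpPre (φ : D →* G) (N : Rep.{0} ℤ G) (X : Rep.{0} ℤ D) : cmpHB φ N X ⟶ cmpHA φ N X :=
  ihomPre (trR φ (𝟙 (Rep.res φ N))) X

theorem cmpHB_ρ_apply (d : D) (f : (cmpHB φ N X).V) (b : (stdR N).V) :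
    ihomLin ((cmpHB φ N X).ρ d f) b = X.ρ d (ihomLin f ((stdR N).ρ (φ d⁻¹) b)) := rfl

theorem cmpHA_ρ_apply (d : D) (f : (cmpHA φ N X).V) (a : (stdR (Rep.res φ N)).V) :
    ihomLin ((cmpHA φ N X).ρ d f) a =
      X.ρ d (ihomLin f ((stdR (Rep.res φ N)).ρ d⁻¹ a)) := rfl

theorem cmpPre_apply (f : (cmpHB φ N X).V) (a : (stdR (Rep.res φ N)).V) :
    ihomLin ((cmpPre φ N X).hom f) a = ihomLin f ((trR φ (𝟙 (Rep.res φ N))).hom a) := rfl

/-- The primitive `θ₀ : P → X` of a cocycle vanishing on `R_D`. -/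
noncomputable def cmpTheta (c : D → (cmpHB φ N X).V) : (stdP N).V →+ X.V :=
  stdPLift N (fun n g => - ihomLin (c (cosetCoord φ g)) (cmpKap φ N (bvec N n g 1)))

theorem cmpTheta_bvec (c : D → (cmpHB φ N X).V) (n : N.V) (g : G) (m : ℤ) :
    cmpTheta N X c (bvec N n g m) =
      m • (- ihomLin (c (cosetCoord φ g)) (cmpKap φ N (bvec N n g 1))) :=
  stdPLift_bvec N _ n g m

/-- The key identity. -/
theorem cmp_key (hφ : Function.Injective φ) (c : D → (cmpHB φ N X).V)
    (hc : ∀ d₁ d₂ : D, c (d₁ * d₂) = (cmpHB φ N X).ρ d₁ (c d₂) + c d₁) (d : D)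
    (x : (stdP N).V) :
    ihomLin (c d) (cmpKap φ N x) =
      X.ρ d (cmpTheta N X c ((stdP N).ρ (φ d⁻¹) x)) - cmpTheta N X c x := by
  induction x using stdP_induction with
  | zero => simp only [map_zero, sub_zero]
  | add x y hx hy =>
    simp only [map_add, hx, hy]
    abel
  | single n g m =>
    have hk : cmpKap φ N (bvec N n (φ d⁻¹ * g) 1) =
        (stdR N).ρ (φ d⁻¹) (cmpKap φ N (bvec N n g 1)) := by
      rw [← cmpKap_equivariant N hφ, stdP_ρ_bvec]
    have hcoc : c (cosetCoord φ g) =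
        (cmpHB φ N X).ρ d (c (d⁻¹ * cosetCoord φ g)) + c d := by
      rw [← hc, mul_inv_cancel_left]
    have h1 : ihomLin (c (cosetCoord φ g)) (cmpKap φ N (bvec N n g 1)) =
        X.ρ d (ihomLin (c (d⁻¹ * cosetCoord φ g))
          ((stdR N).ρ (φ d⁻¹) (cmpKap φ N (bvec N n g 1)))) +
        ihomLin (c d) (cmpKap φ N (bvec N n g 1)) := by
      conv_lhs => rw [hcoc]
      rfl
    rw [stdP_ρ_bvec, cmpTheta_bvec, cmpTheta_bvec, cosetCoord_mul hφ, hk, ← zsmul_bvec,
      map_zsmul, map_zsmul, map_zsmul, ← smul_sub, map_neg, h1]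
    congr 1
    abel

/-- **Vanishing case**: a cocycle `D → Hom_ℤ(R|_D, X)` whose values vanish on `R_D` is a
coboundary. -/
theorem cmp_coboundary_of_vanish (hφ : Function.Injective φ) (c : D → (cmpHB φ N X).V)
    (hc : ∀ d₁ d₂ : D, c (d₁ * d₂) = (cmpHB φ N X).ρ d₁ (c d₂) + c d₁)
    (hv : ∀ (d : D) (a : (stdR (Rep.res φ N)).V),
      ihomLin (c d) ((trR φ (𝟙 (Rep.res φ N))).hom a) = 0) :
    ∃ θ : (cmpHB φ N X).V, ∀ d : D, (cmpHB φ N X).ρ d θ - θ = c d := by
  let θ : (cmpHB φ N X).V :=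
    ihomOfAdd (A := Rep.res φ (stdR N)) ((cmpTheta N X c).comp (addHom (stdι N)))
  have hθ : ∀ b : (stdR N).V, ihomLin θ b = cmpTheta N X c ((stdι N).hom b) := fun b => rfl
  refine ⟨θ, fun d => ?_⟩
  show ihomLin ((cmpHB φ N X).ρ d θ - θ) = ihomLin (c d)
  refine DFunLike.ext _ _ fun b => ?_
  have h1 : ihomLin ((cmpHB φ N X).ρ d θ - θ) b =
      X.ρ d (ihomLin θ ((stdR N).ρ (φ d⁻¹) b)) - ihomLin θ b := rfl
  rw [h1, hθ, hθ, Rep.hom_comm_apply, ← cmp_key N X hφ c hc d, cmpKap_stdι, map_sub, hv,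
    sub_zero]

end Cocycle

/-! ## The comparison theorem -/

section Main

variable {G D : Type} [Group G] [Group D] {φ : D →* G} (N : Rep.{0} ℤ G) (X : Rep.{0} ℤ D)

/-- **CMP, injectivity.** -/
theorem cmp_injective (hφ : Function.Injective φ) :
    Function.Injective (T.coeffMap (cmpPre φ N X) 1).hom := by
  rw [injective_iff_map_eq_zero]
  intro y hy
  induction y using groupCohomology.H1_induction_on with
  | h c =>
    erw [groupCohomology.H1π_comp_map_apply] at hy
    rw [groupCohomology.H1π_eq_zero_iff] at hy ⊢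
    obtain ⟨ψ, hψ⟩ := hy
    have hψ' : ∀ d : D, (cmpHA φ N X).ρ d ψ - ψ = (cmpPre φ N X).hom (c d) :=
      fun d => congrFun hψ d
    have hcoc : ∀ d₁ d₂ : D, c (d₁ * d₂) = (cmpHB φ N X).ρ d₁ (c d₂) + c d₁ :=
      (groupCohomology.mem_cocycles₁_iff c.1).1 c.2
    let Ψ : (cmpHB φ N X).V :=
      ihomOfAdd (A := Rep.res φ (stdR N)) ((ihomAdd ψ).comp (cmpRetr φ N))
    have hΨ : ∀ b : (stdR N).V, ihomLin Ψ b = ihomLin ψ (cmpRetr φ N b) := fun b => rfl
    let c' : D → (cmpHB φ N X).V := fun d => c d - ((cmpHB φ N X).ρ d Ψ - Ψ)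
    have hc' : ∀ d₁ d₂ : D, c' (d₁ * d₂) = (cmpHB φ N X).ρ d₁ (c' d₂) + c' d₁ := by
      intro d₁ d₂
      have hmul : (cmpHB φ N X).ρ (d₁ * d₂) Ψ = (cmpHB φ N X).ρ d₁ ((cmpHB φ N X).ρ d₂ Ψ) := by
        rw [map_mul]
        rfl
      show c (d₁ * d₂) - ((cmpHB φ N X).ρ (d₁ * d₂) Ψ - Ψ) =
        (cmpHB φ N X).ρ d₁ (c d₂ - ((cmpHB φ N X).ρ d₂ Ψ - Ψ)) +
          (c d₁ - ((cmpHB φ N X).ρ d₁ Ψ - Ψ))
      rw [hcoc, hmul, map_sub, map_sub]
      abel
    have hv : ∀ (d : D) (a : (stdR (Rep.res φ N)).V),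
        ihomLin (c' d) ((trR φ (𝟙 (Rep.res φ N))).hom a) = 0 := by
      intro d a
      have h1 : ihomLin (c' d) ((trR φ (𝟙 (Rep.res φ N))).hom a) =
          ihomLin (c d) ((trR φ (𝟙 (Rep.res φ N))).hom a) -
            (X.ρ d (ihomLin Ψ ((stdR N).ρ (φ d⁻¹) ((trR φ (𝟙 (Rep.res φ N))).hom a))) -
              ihomLin Ψ ((trR φ (𝟙 (Rep.res φ N))).hom a)) := rfl
      have h2 : ihomLin (c d) ((trR φ (𝟙 (Rep.res φ N))).hom a) =
          X.ρ d (ihomLin ψ ((stdR (Rep.res φ N)).ρ d⁻¹ a)) - ihomLin ψ a := by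
        have := congrArg (fun f : (cmpHA φ N X).V => ihomLin f a) (hψ' d)
        exact this.symm
      rw [h1, h2, hΨ, hΨ, ← trR_equivariant, cmpRetr_trR N hφ, cmpRetr_trR N hφ, sub_self]
    obtain ⟨θ, hθ⟩ := cmp_coboundary_of_vanish N X hφ c' hc' hv
    refine ⟨Ψ + θ, ?_⟩
    funext d
    show (cmpHB φ N X).ρ d (Ψ + θ) - (Ψ + θ) = c d
    have h3 : c d = c' d + ((cmpHB φ N X).ρ d Ψ - Ψ) := by
      show c d = c d - ((cmpHB φ N X).ρ d Ψ - Ψ) + ((cmpHB φ N X).ρ d Ψ - Ψ)
      abel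
    rw [h3, ← hθ d, map_add]
    abel

/-- **CMP, surjectivity.** -/
theorem cmp_surjective (hφ : Function.Injective φ) :
    Function.Surjective (T.coeffMap (cmpPre φ N X) 1).hom := by
  intro y
  induction y using groupCohomology.H1_induction_on with
  | h cA =>
    have hcoc : ∀ d₁ d₂ : D, cA (d₁ * d₂) = (cmpHA φ N X).ρ d₁ (cA d₂) + cA d₁ :=
      (groupCohomology.mem_cocycles₁_iff cA.1).1 cA.2
    let cB : D → (cmpHB φ N X).V := fun d =>
      ihomOfAdd (A := Rep.res φ (stdR N)) ((ihomAdd (cA d)).comp (cmpRetr φ N))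
    have hcB0 : ∀ (d : D) (b : (stdR N).V), ihomLin (cB d) b = ihomLin (cA d) (cmpRetr φ N b) :=
      fun d b => rfl
    have hcB : cB ∈ groupCohomology.cocycles₁ (cmpHB φ N X) := by
      rw [groupCohomology.mem_cocycles₁_iff]
      intro d₁ d₂
      show ihomLin (cB (d₁ * d₂)) = ihomLin ((cmpHB φ N X).ρ d₁ (cB d₂) + cB d₁)
      refine DFunLike.ext _ _ fun b => ?_
      have h1 : ihomLin ((cmpHB φ N X).ρ d₁ (cB d₂) + cB d₁) b =
          X.ρ d₁ (ihomLin (cB d₂) ((stdR N).ρ (φ d₁⁻¹) b)) + ihomLin (cB d₁) b := rfl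
      have h2 : ihomLin (cA (d₁ * d₂)) (cmpRetr φ N b) =
          X.ρ d₁ (ihomLin (cA d₂) ((stdR (Rep.res φ N)).ρ d₁⁻¹ (cmpRetr φ N b))) +
            ihomLin (cA d₁) (cmpRetr φ N b) := by
        rw [hcoc]
        rfl
      rw [h1, hcB0, hcB0, hcB0, h2, cmpRetr_equivariant N hφ]
    refine ⟨groupCohomology.H1π _ ⟨cB, hcB⟩, ?_⟩
    erw [groupCohomology.H1π_comp_map_apply]
    congr 1
    apply Subtype.ext
    funext d
    show ihomLin ((cmpPre φ N X).hom (cB d)) = ihomLin (cA d)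
    refine DFunLike.ext _ _ fun a => ?_
    rw [cmpPre_apply, hcB0, cmpRetr_trR N hφ]

/-- **CMP (comparison of presentations).**  For `φ : D →* G` injective the pull-back along
`trR φ 𝟙 : R_D → R|_D` induces a bijection
`H¹(D, Hom_ℤ(R|_D, X)) → H¹(D, Hom_ℤ(R_D, X)) = 𝔈²_D(N|_D, X)`. -/
theorem cmp_bijective (hφ : Function.Injective φ) :
    Function.Bijective (T.coeffMap (cmpPre φ N X) 1).hom :=
  ⟨cmp_injective N X hφ, cmp_surjective N X hφ⟩

end Main

/-! ## Consequences for `trE2` along an injective `φ` -/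

section Consequences

variable {G D : Type} [Group G] [Group D] {φ : D →* G} (N : Rep.{0} ℤ G)
variable {Y : Rep.{0} ℤ G} {X : Rep.{0} ℤ D}

/-- `trE2 φ 𝟙 ι` is the composite of `map φ (trIhom φ 𝟙 ι)` (restricted presentation) with the
comparison map. -/
theorem trE2_eq_cmp (ι : Rep.res φ Y ⟶ X) (y : E2 N Y) :
    trE2 φ (𝟙 (Rep.res φ N)) ι y =
      (T.coeffMap (cmpPre φ N X) 1).hom
        ((groupCohomology.map φ (trIhom φ (𝟙 (Rep.res φ (stdR N))) ι) 1).hom y) := by
  induction y using groupCohomology.H1_induction_on with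
  | h c =>
    unfold trE2
    erw [groupCohomology.H1π_comp_map_apply, groupCohomology.H1π_comp_map_apply,
      groupCohomology.H1π_comp_map_apply]
    rfl

/-- For `φ` injective: `trE2 φ 𝟙 ι y = 0` iff the image of `y` in `H¹(D, Hom_ℤ(R|_D, X))`
(restricted presentation) vanishes. -/
theorem trE2_eq_zero_iff (hφ : Function.Injective φ) (ι : Rep.res φ Y ⟶ X) (y : E2 N Y) :
    trE2 φ (𝟙 (Rep.res φ N)) ι y = 0 ↔
      (groupCohomology.map φ (trIhom φ (𝟙 (Rep.res φ (stdR N))) ι) 1).hom y = 0 := by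
  rw [trE2_eq_cmp]
  constructor
  · intro h
    exact cmp_injective N X hφ (h.trans (map_zero _).symm)
  · intro h
    rw [h, map_zero]

/-- **E2-Shapiro in terms of `trE2`.**  For `φ : D →* G` injective and `u : Y ⟶ Coind_φ X`:
`y ∈ 𝔈²_G(N, Y)` dies in `𝔈²_G(N, Coind_φ X)` iff `tr y = 0` in `𝔈²_D(N|_D, X)`, where
`tr = trE2 φ 𝟙 (flat φ u)` is the transition map along `φ` for the standard presentations. -/
theorem E2_dies_iff_trE2 (hφ : Function.Injective φ) (u : Y ⟶ Rep.coind φ X) (y : E2 N Y) :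
    (T.coeffMap ((Rep.ihom (stdR N)).map u) 1).hom y = 0 ↔
      trE2 φ (𝟙 (Rep.res φ N)) (flat φ u) y = 0 := by
  rw [H354.E2_coeffMap_eq_zero_iff hφ N u y, trE2_eq_zero_iff N hφ]

end Consequences

end Fermat.Agent.S55.E1.H423

end
-- ===== PACK-END S55/E1/H423/Cmp.lean

-- ===== PACK-BEGIN S55/GAD/DescH901.lean
section
/-
S55 / G-ADAPTER, leaf GAD-DESC (helper901): Galois descent for the concrete tower datum.

For levels `L ≤ L'` of `S ≠ ∅`, with `H = Level.relGal h = Gal(L'/L)`: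
* `trT_injective`    : the canonical transition map `trT h : C(L) → C(L')` is injective;
* `mem_range_trT_iff`: its image is exactly the `H`-invariants of `C(L')`.
(`C(L) = GAD.CT L = (∏_{q∈S} J_q(L) × Div^S(L)) / Lˣ`.)

Ingredients: Hilbert 90 for `L'/L`, `(L'ˣ)^H = Lˣ`, `J_q(L')^H = J_q(L)` (tower side,
`DescH901J.lean`), `Div^S(L')^H = divTr (Div^S(L))` (`e = 1` outside `S`; helper537's
`exists_divBC_eq_of_invariant`).  Sorry-free.
-/




set_option autoImplicit false
set_option linter.unusedSectionVars false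
set_option linter.style.haveILetI false

open scoped NumberField
open IsDedekindDomain

namespace Fermat.Agent.S55.GAD.H901

open Fermat.Agent.S55 Fermat.Agent.S55.Tow Fermat.Agent.S55.E1.H594 Fermat.Agent.S55.G

noncomputable section

variable {S : Finset Nat.Primes} {L L' : Level S} (h : L ≤ L')

/-! ## 1. `Gal(L'/L)` as a Galois group in the sense of Mathlib -/

/-- The fixed field of `Level.relGal h` is the image of `L.F` (for `GAD.levelAlgebra`). -/
theorem relGal_fixed_iff (x : L'.F) :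
    (∀ n : Level.relGal h, (n : L'.Gal) • x = x) ↔
      x ∈ (@algebraMap L.F L'.F _ _ (GAD.levelAlgebra h)).range := by
  rw [level_relGal_fixed_iff h x]
  constructor
  · rintro ⟨y, hy⟩
    exact ⟨y, hy⟩
  · rintro ⟨y, hy⟩
    exact ⟨y, hy⟩

/-- `Level.relGal h` is a Galois group of `L'.F / L.F`. -/
theorem isGaloisGroup_relGal :
    @IsGaloisGroup (Level.relGal h) L.F L'.F _ _ _ (GAD.levelAlgebra h) _ :=
  letI := GAD.levelAlgebra h
  DescH537.isGaloisGroup_of_fixed L'.Gal L'.F L.F (Level.relGal h) (relGal_fixed_iff h)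

/-- `L'/L` is unramified outside `S`: all ramification indices outside `S` are `1`. -/
theorem ramIdx_eq_one (w : PrimeOut S L'.F) :
    @GAD.ramIdx L.F L'.F _ _ (GAD.levelAlgebra h) w.1 = 1 :=
  letI := GAD.levelAlgebra h
  haveI := isGaloisGroup_relGal h
  DescH537.eIdx_eq_one_of_isUnramOut S L'.Gal L'.F L.F (Level.relGal h) (level_isUnramOut L') w

/-! ## 2. Invariant divisors -/

/-- `Div^S(L')^H = divTr (Div^S(L))`. -/
theorem exists_divTr_eq (d' : PrimeOut S L'.F →₀ ℤ)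
    (hd : ∀ σ ∈ Level.relGal h, divRepr S L'.Gal L'.F σ d' = d') :
    ∃ d : PrimeOut S L.F →₀ ℤ, divTr h d = d' := by
  letI := GAD.levelAlgebra h
  haveI := isGaloisGroup_relGal h
  have hunr : ∀ w : PrimeOut S L'.F, DescH537.eIdx L.F L'.F w.1 = 1 := fun w => ramIdx_eq_one h w
  obtain ⟨d, hd'⟩ := DescH537.exists_divBC_eq_of_invariant S (Level.relGal h) L.F L'.F hunr d'
    (fun g => hd g.1 g.2)
  exact ⟨d, hd'⟩

theorem divTr_injective : Function.Injective (divTr h) :=
  @divExt_injective S L.F L'.F _ _ _ _ (GAD.levelAlgebra h)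

/-! ## 3. Hilbert 90 for `L'.units` -/

/-- **Hilbert 90** for `L'/L` in the tower's language: every 1-cocycle `H → L'ˣ` is a
coboundary. -/
theorem hilbert90_units (c : Level.relGal h → L'.units.V)
    (hc : ∀ σ τ : Level.relGal h, c (σ * τ) = c σ + L'.units.ρ (σ : L'.Gal) (c τ)) :
    ∃ b : L'.units.V, ∀ σ : Level.relGal h, c σ = L'.units.ρ (σ : L'.Gal) b - b := by
  letI := GAD.levelAlgebra h
  haveI := isGaloisGroup_relGal h
  haveI : Finite (Level.relGal h) := inferInstance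
  obtain ⟨y, hy⟩ := DescH537.hilbert90 (Level.relGal h) L.F L'.F
    (fun σ => toField L' (c σ)) (fun σ τ => by
      show toField L' (c (σ * τ)) = toField L' (c σ) + lRepr L'.Gal L'.F (σ : L'.Gal) (toField L' (c τ))
      rw [hc, map_add, toField_equivariant])
  refine ⟨(levelUnitsIso L').hom.hom y, fun σ => ?_⟩
  apply toField_injective L'
  have hb : toField L' ((levelUnitsIso L').hom.hom y) = y :=
    Rep.inv_hom_apply _ _ (levelUnitsIso L') y
  rw [map_sub, toField_equivariant, hb]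
  exact hy σ

/-! ## 4. Injectivity of the diagonal and of the transition map -/

theorem embFun_injective (q : Nat.Primes) : Function.Injective (L.embFun q) := by
  intro x y hxy
  apply L.unitsCoe_injective
  have h1 := congrArg (L.locCoe q) hxy
  rw [Level.locCoe_embFun, Level.locCoe_embFun] at h1
  have h2 : Function.Injective (embQbar q) := by
    intro a b hab
    apply Additive.toMul.injective
    apply Units.ext
    have h3 := congrArg (fun u : (unitsQpbar q).V =>
      ((Additive.toMul u : (PadicAlgCl (q : ℕ))ˣ) : PadicAlgCl (q : ℕ))) hab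
    exact (padicEmbedding (q : ℕ)).toRingHom.injective h3
  exact h2 h1

theorem diagT_injective (hS : S.Nonempty) : Function.Injective (diagT L) := by
  obtain ⟨q, hq⟩ := hS
  intro x y hxy
  have h1 : (diagT L x).1 ⟨q, hq⟩ = (diagT L y).1 ⟨q, hq⟩ := by rw [hxy]
  rw [diagT_fst, diagT_fst] at h1
  have h2 := congrArg (fun f => L.Jeval q f 1) h1
  simp only [Level.Jeval_diag, map_one] at h2
  exact embFun_injective q h2

theorem trJD_injective : Function.Injective (trJD h) := by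
  intro y y' hyy
  refine Prod.ext (funext fun q => ?_) ?_
  · have h1 := congrFun (congrArg Prod.fst hyy) q
    exact inclJ_injective h q.1 h1
  · exact divTr_injective h (congrArg Prod.snd hyy)

/-! ## 5. The descent theorem -/

/-- Invariant elements of `∏ J_q(L') × Div^S(L')` come from `L`. -/
theorem exists_trJD_eq (y' : JDV L')
    (hy : ∀ σ ∈ Level.relGal h, _root_.Fermat.Agent.S55.GAD.jdRepr L' σ y' = y') : ∃ y : JDV L, trJD h y = y' := by
  have hJ : ∀ q : S, ∃ f : (L.J q.1).V, Level.inclJ h q.1 f = y'.1 q := by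
    intro q
    refine exists_inclJ_eq h q.1 (y'.1 q) (fun σ hσ => ?_)
    have h1 := congrArg Prod.fst (hy σ hσ)
    exact congrFun h1 q
  choose f hf using hJ
  obtain ⟨d, hd⟩ := exists_divTr_eq h y'.2 (fun σ hσ => congrArg Prod.snd (hy σ hσ))
  exact ⟨(f, d), Prod.ext (funext hf) hd⟩

/-- **GAD-DESC (a)**: the transition map `C(L) → C(L')` is injective. -/
theorem trT_injective (hS : S.Nonempty) : Function.Injective (trT h).hom := by
  rw [injective_iff_map_eq_zero]
  intro c hc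
  obtain ⟨y, rfl⟩ := mkC_surjective L c
  rw [trT_mkC, mkC_eq_zero_iff] at hc
  obtain ⟨x', hx'⟩ := hc
  have hinv : ∀ σ ∈ Level.relGal h, L'.units.ρ σ x' = x' := by
    intro σ hσ
    apply diagT_injective hS
    rw [diagT_equivariant, hx', ← trJD_equivariant]
    have h1 : Level.proj h σ = 1 := hσ
    rw [h1, map_one]
    rfl
  obtain ⟨x, rfl⟩ := exists_inclUnits_eq h x' hinv
  have h2 : trJD h y = trJD h (diagT L x) := by
    rw [trJD_diagT]
    exact hx'.symm
  rw [trJD_injective h h2]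
  exact mkC_diagT L x

/-- **GAD-DESC (b)**: the image of `C(L) → C(L')` is the group of `Gal(L'/L)`-invariants. -/
theorem mem_range_trT_iff (hS : S.Nonempty) (c' : (CT L').V) :
    c' ∈ Set.range (trT h).hom ↔ ∀ σ ∈ Level.relGal h, (CT L').ρ σ c' = c' := by
  constructor
  · rintro ⟨c, rfl⟩ σ hσ
    have h1 := Rep.hom_comm_apply (trT h) σ c
    have h2 : Level.proj h σ = 1 := hσ
    rw [← h1]
    show (trT h).hom ((CT L).ρ (Level.proj h σ) c) = _
    rw [h2, map_one]
    rfl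
  · intro hc
    obtain ⟨y', rfl⟩ := mkC_surjective L' c'
    have hex : ∀ σ : Level.relGal h, ∃ x : L'.units.V,
        diagT L' x = _root_.Fermat.Agent.S55.GAD.jdRepr L' (σ : L'.Gal) y' - y' := by
      intro σ
      have h1 := hc σ.1 σ.2
      rw [CT_ρ_mkC] at h1
      have h2 : mkC L' (_root_.Fermat.Agent.S55.GAD.jdRepr L' (σ : L'.Gal) y' - y') = 0 := by
        rw [map_sub, h1, sub_self]
      exact (mkC_eq_zero_iff L' _).1 h2
    choose c hcdef using hex
    have hcoc : ∀ σ τ : Level.relGal h, c (σ * τ) = c σ + L'.units.ρ (σ : L'.Gal) (c τ) := by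
      intro σ τ
      apply diagT_injective hS
      rw [map_add, diagT_equivariant, hcdef, hcdef, hcdef, Subgroup.coe_mul, map_mul, map_sub]
      show _root_.Fermat.Agent.S55.GAD.jdRepr L' (σ : L'.Gal) (_root_.Fermat.Agent.S55.GAD.jdRepr L' (τ : L'.Gal) y') - y' = _
      abel
    obtain ⟨b, hb⟩ := hilbert90_units h c hcoc
    have hinv : ∀ σ ∈ Level.relGal h, _root_.Fermat.Agent.S55.GAD.jdRepr L' σ (y' - diagT L' b) = y' - diagT L' b := by
      intro σ hσ
      have h1 := hcdef ⟨σ, hσ⟩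
      have h2 := hb ⟨σ, hσ⟩
      rw [h2, map_sub, diagT_equivariant] at h1
      rw [map_sub]
      have h3 : _root_.Fermat.Agent.S55.GAD.jdRepr L' σ y' - y' = _root_.Fermat.Agent.S55.GAD.jdRepr L' σ (diagT L' b) - diagT L' b := h1.symm
      have h4 : _root_.Fermat.Agent.S55.GAD.jdRepr L' σ y' - _root_.Fermat.Agent.S55.GAD.jdRepr L' σ (diagT L' b) = y' - diagT L' b := by
        rw [sub_eq_sub_iff_add_eq_add] at h3 ⊢
        rw [h3, add_comm]
      exact h4
    obtain ⟨y, hy⟩ := exists_trJD_eq h _ hinv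
    refine ⟨mkC L y, ?_⟩
    rw [trT_mkC, hy, map_sub, mkC_diagT, sub_zero]

end

end Fermat.Agent.S55.GAD.H901

end
-- ===== PACK-END S55/GAD/DescH901.lean

-- ===== PACK-BEGIN S55/K/GO3H535/H371/CapDiv.lean
section



/-!
# S55 / layer K / GO3-CAPDIV (helper371): `capDiv : CapDivSpec p S`

Capitulation of `p`-classes by Kummer theory.  `β` is `S`-smooth and for every `σ ∈ V` the
quotient `σβ/β` is a `p`-th power of an `S`-smooth element up to an `S`-unit.  Let `F ∋ β` be a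
Galois level, `c(A) := ord_A(β) mod p ∈ [0, p)` for the places `A` outside `S`; by hypothesis
`c(σ⁻¹A) = c(A)` for `σ ∈ V`.  The effective divisor `∑ c(w) w` of `F` has finite order
`h = p^a h'` (`p ∤ h'`) in the class group: there is `κ ∈ Fˣ` with `ord_A(κ) = h c(A)`.  Put
`δ := κ^(1/p^a)`, `α₂ := (β^h'/δ)^(1/p)` (both `S`-smooth by the generalised Kummer lemma,
`p ∈ S`) and `α := α₂^r β^s` with `r h' + s p = 1`.  Then `(σα/α)^p / (σβ/β) = (δ/σδ)^r`, and
`δ/σδ` is an `S`-unit since `ord_A(σδ) = h' c(σ⁻¹A) = h' c(A) = ord_A(δ)`.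
(No need for `κ ∈ K`, for ideals of `K`, or for the transitivity of Galois on primes.)
-/

set_option autoImplicit false
set_option linter.unusedSectionVars false
set_option linter.style.haveILetI false

noncomputable section

namespace Fermat.Agent.S55.K.GO3H535.H371

open Fermat.Agent.S55.PT Fermat.Agent.S55.Bridge Fermat.Agent.S55.K
open NumberField IsDedekindDomain IntermediateField
open scoped Pointwise

attribute [local instance] isAlgebraic_Qbar isGalois_Qbar

/-- The identity behind the construction, in any commutative group. -/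
theorem capDiv_identity {G : Type*} [CommGroup G] (X D Y : G) (p h' : ℕ) (r s : ℤ)
    (hY : Y ^ p = X ^ h' * D) (hrs : r * h' + s * p = 1) :
    (Y ^ r * X ^ s) ^ p / X = D ^ r := by
  have e1 : (Y ^ r * X ^ s) ^ p = (Y ^ p) ^ r * X ^ (s * p) := by
    rw [mul_pow, ← zpow_natCast (Y ^ r) p, ← zpow_mul, mul_comm r (p : ℤ), zpow_mul,
      zpow_natCast, ← zpow_natCast (X ^ s) p, ← zpow_mul]
  have e2 : (Y ^ p) ^ r = X ^ ((h' : ℤ) * r) * D ^ r := by
    rw [hY, mul_zpow, ← zpow_natCast X h', ← zpow_mul]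
  have e3 : X ^ ((h' : ℤ) * r) * D ^ r * X ^ (s * p) / X =
      D ^ r * X ^ ((h' : ℤ) * r + s * p - 1) := by
    rw [zpow_sub, zpow_add, zpow_one, div_eq_mul_inv]
    simp only [mul_assoc, mul_left_comm (D ^ r)]
  rw [e1, e2, e3, show (h' : ℤ) * r + s * p - 1 = 0 by linarith, zpow_zero, mul_one]

/-- A valuation subring of `ℚ̄` is trivial or lies over a prime number. -/
theorem unitAt_or_liesOverPrime (A : ValuationSubring Qbar) :
    (∀ x : Qbar, x ≠ 0 → UnitAt A x) ∨ ∃ q : Nat.Primes, A.LiesOverPrime (q : ℕ) := by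
  by_cases h : ∃ q : Nat.Primes, A.LiesOverPrime (q : ℕ)
  · exact Or.inr h
  left
  have h' : ∀ ℓ : ℕ, ℓ.Prime → ((ℓ : Qbar))⁻¹ ∈ A := by
    intro ℓ hℓ
    have hn : (ℓ : Qbar) ∉ A.nonunits := fun hmem => h ⟨⟨ℓ, hℓ⟩, hmem⟩
    rw [ValuationSubring.mem_nonunits_iff_or] at hn
    push Not at hn
    exact hn.2
  have hnat : ∀ n : ℕ, n ≠ 0 → ((n : Qbar))⁻¹ ∈ A := by
    intro n
    induction n using Nat.recOnMul with
    | zero => intro h0; exact absurd rfl h0
    | one => intro _; simp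
    | prime ℓ hℓ => intro _; exact h' ℓ hℓ
    | mul a b iha ihb =>
      intro hab
      rw [Nat.cast_mul, mul_inv]
      exact A.mul_mem _ _ (iha (left_ne_zero_of_mul hab)) (ihb (right_ne_zero_of_mul hab))
  have hrat : ∀ t : ℚ, (algebraMap ℚ Qbar t) ∈ A := by
    intro t
    have ht : algebraMap ℚ Qbar t = (t.num : Qbar) * ((t.den : Qbar))⁻¹ := by
      conv_lhs => rw [← Rat.num_div_den t]
      rw [map_div₀, div_eq_mul_inv]
      simp
    rw [ht]
    exact A.mul_mem _ _ (intCast_mem A _) (hnat t.den t.den_nz)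
  have hall : ∀ x : Qbar, x ∈ A := by
    intro x
    have hint : IsIntegral ℚ x := Algebra.IsIntegral.isIntegral x
    obtain ⟨P, hP, hroot⟩ := hint
    have hi : IsIntegral A x := by
      refine ⟨P.map (RingHom.codRestrict (algebraMap ℚ Qbar) A.toSubring hrat), hP.map _, ?_⟩
      rw [Polynomial.eval₂_map]
      exact hroot
    obtain ⟨y, hy⟩ := (IsIntegrallyClosed.isIntegral_iff (R := A) (K := Qbar)).mp hi
    rw [← hy]
    exact y.2
  intro x hx
  exact (unitAt_iff_mem hx).2 ⟨hall x, hall x⁻¹⟩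

variable {S : Finset Nat.Primes}

/-- To be an `S`-unit it suffices to be a unit at the places over the primes outside `S`. -/
theorem isSUnit_of_forall_liesOver (x : Qbarˣ)
    (h : ∀ q : Nat.Primes, q ∉ S → ∀ A : ValuationSubring Qbar, A.LiesOverPrime (q : ℕ) →
      UnitAt A (x : Qbar)) : IsSUnit S x := by
  rw [isSUnit_iff]
  intro A hA
  rcases unitAt_or_liesOverPrime A with htriv | ⟨q, hq⟩
  · exact htriv _ x.ne_zero
  · exact h q (fun hqS => hA q hqS hq) A hq

/-- Extraction of a `p^a`-th root of an `S`-smooth element whose orders outside `S` are divisible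
by `p^a`: the root is `S`-smooth, with the expected orders. -/
theorem exists_root {p : ℕ} (hp : p.Prime) (hpS : (⟨p, hp⟩ : Nat.Primes) ∈ S) (a : ℕ)
    (x : Qbarˣ) (hx : IsSm S x)
    (hord : ∀ q : Nat.Primes, q ∉ S → ∀ A : ValuationSubring Qbar, A.LiesOverPrime (q : ℕ) →
      ∃ m : ℤ, HasOrd A (q : ℕ) (x : Qbar) (((p ^ a : ℕ) : ℤ) * m)) :
    ∃ y : Qbarˣ, y ^ (p ^ a) = x ∧ IsSm S y ∧
      ∀ q : Nat.Primes, q ∉ S → ∀ A : ValuationSubring Qbar, A.LiesOverPrime (q : ℕ) →
        ∀ m : ℤ, HasOrd A (q : ℕ) (x : Qbar) (((p ^ a : ℕ) : ℤ) * m) →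
          HasOrd A (q : ℕ) (y : Qbar) m := by
  have hn0 : p ^ a ≠ 0 := pow_ne_zero a hp.ne_zero
  obtain ⟨z, hz⟩ := IsAlgClosed.exists_pow_nat_eq (x : Qbar) (Nat.pos_of_ne_zero hn0)
  have hz0 : z ≠ 0 := by
    rintro rfl
    rw [zero_pow hn0] at hz
    exact x.ne_zero hz.symm
  have hy : (Units.mk0 z hz0) ^ (p ^ a) = x := by
    apply Units.ext
    rw [Units.val_pow_eq_pow_val, Units.val_mk0, hz]
  have key : ∀ q : Nat.Primes, q ∉ S → ∀ A : ValuationSubring Qbar, A.LiesOverPrime (q : ℕ) →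
      ∀ m : ℤ, HasOrd A (q : ℕ) (x : Qbar) (((p ^ a : ℕ) : ℤ) * m) →
        HasOrd A (q : ℕ) z m := by
    intro q _ A _ m hm
    rw [hasOrd_iff_unitAt q.2.ne_zero] at hm ⊢
    apply unitAt_of_pow hn0
    rw [div_pow, hz, ← zpow_natCast (((q : ℕ) : Qbar) ^ m) (p ^ a), ← zpow_mul, mul_comm m]
    exact hm
  refine ⟨Units.mk0 z hz0, hy, ?_, key⟩
  refine isSm_of_pow hp hpS a (Units.mk0 z hz0) (by rw [hy]; exact hx) ?_
  intro q hq A hA
  obtain ⟨m, hm⟩ := hord q hq A hA
  exact ⟨m, key q hq A hA m hm⟩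

/-- A place over a prime outside `S` is outside `S`. -/
theorem outsideS_of_liesOver {q : Nat.Primes} (hq : q ∉ S) {A : ValuationSubring Qbar}
    (hA : A.LiesOverPrime (q : ℕ)) : OutsideS S A := by
  intro q' hq' hA'
  have hne : (q : ℕ) ≠ (q' : ℕ) := by
    intro h
    apply hq
    rw [Subtype.ext h]
    exact hq'
  have h1 : A.valuation ((q' : ℕ) : AlgebraicClosure ℚ) = 1 :=
    val_prime_eq_one (A := A) hA q.2 q'.2 hne
  have h2 : A.valuation ((q' : ℕ) : AlgebraicClosure ℚ) < 1 := (A.mem_nonunits_iff).mp hA'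
  rw [h1] at h2
  exact lt_irrefl _ h2

/-- **GO3-CAPDIV.** -/
theorem capDiv (p : ℕ) [Fact p.Prime] (S : Finset Nat.Primes) : CapDivSpec p S := by
  intro hpS V _ β hβ hw
  have hp : p.Prime := Fact.out
  have hpS' : (⟨p, hp⟩ : Nat.Primes) ∈ S := hpS
  have hp0 : (p : ℤ) ≠ 0 := by exact_mod_cast hp.ne_zero
  -- a Galois level containing `β`
  obtain ⟨F, hF, hgal, hβF⟩ := (isSm_iff_galois β).1 hβ
  haveI := hF.1
  haveI := hgal
  have hb0 : (⟨(β : Qbar), hβF⟩ : F) ≠ 0 := by
    intro h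
    exact β.ne_zero (congrArg (fun x : F => (x : Qbar)) h)
  obtain ⟨h, hpos, κ, hκ0, hκ⟩ := exists_kappa F hF ⟨(β : Qbar), hβF⟩ hb0 p hp.pos
  obtain ⟨a, h', hh', hh⟩ := Nat.exists_eq_pow_mul_and_not_dvd hpos.ne' p hp.ne_one
  have hordβ : ∀ q : Nat.Primes, q ∉ S → ∀ A : ValuationSubring Qbar, A.LiesOverPrime (q : ℕ) →
      ∃ n : ℤ, HasOrd A (q : ℕ) (β : Qbar) n := fun q hq A hA => isSm_exists_hasOrd hβ hq A hA
  -- `κ` as a unit of `ℚ̄`
  have hκQ0 : ((κ : F) : Qbar) ≠ 0 := by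
    intro h0
    exact hκ0 (Subtype.ext h0)
  have hκsm : IsSm S (Units.mk0 ((κ : F) : Qbar) hκQ0) := (isSm_iff _).2 ⟨F, hF, κ.2⟩
  have hκord : ∀ q : Nat.Primes, q ∉ S → ∀ A : ValuationSubring Qbar, A.LiesOverPrime (q : ℕ) →
      ∀ n : ℤ, HasOrd A (q : ℕ) (β : Qbar) n →
        HasOrd A (q : ℕ) ((Units.mk0 ((κ : F) : Qbar) hκQ0 : Qbarˣ) : Qbar)
          (((p ^ a : ℕ) : ℤ) * ((h' : ℤ) * (n % p))) := by
    intro q hq A hA n hn
    have := hκ q hq A hA n hn
    rw [hh, Nat.cast_mul, mul_assoc] at this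
    exact this
  -- `δ = κ^(1/p^a)`
  obtain ⟨δ, hδ, hδsm, hδord⟩ := exists_root hp hpS' a _ hκsm (fun q hq A hA => by
    obtain ⟨n, hn⟩ := hordβ q hq A hA
    exact ⟨(h' : ℤ) * (n % p), hκord q hq A hA n hn⟩)
  have hδord' : ∀ q : Nat.Primes, q ∉ S → ∀ A : ValuationSubring Qbar,
      A.LiesOverPrime (q : ℕ) → ∀ n : ℤ, HasOrd A (q : ℕ) (β : Qbar) n →
        HasOrd A (q : ℕ) (δ : Qbar) ((h' : ℤ) * (n % p)) := fun q hq A hA n hn =>
    hδord q hq A hA _ (hκord q hq A hA n hn)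
  -- `γ = β^h' / δ`, `α₂ = γ^(1/p)`
  have hγsm : IsSm S (β ^ h' / δ) := isSm_div (isSm_pow hβ h') hδsm
  have hγord : ∀ q : Nat.Primes, q ∉ S → ∀ A : ValuationSubring Qbar,
      A.LiesOverPrime (q : ℕ) → ∀ n : ℤ, HasOrd A (q : ℕ) (β : Qbar) n →
        HasOrd A (q : ℕ) ((β ^ h' / δ : Qbarˣ) : Qbar)
          (((p ^ 1 : ℕ) : ℤ) * ((h' : ℤ) * (n / p))) := by
    intro q hq A hA n hn
    have h1 := (hn.pow h').div q.2.ne_zero (hδord' q hq A hA n hn)
    rw [Units.val_div_eq_div_val, Units.val_pow_eq_pow_val]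
    have e : n * (h' : ℤ) - (h' : ℤ) * (n % p) = ((p ^ 1 : ℕ) : ℤ) * ((h' : ℤ) * (n / p)) := by
      have := Int.emod_add_mul_ediv n p
      rw [pow_one]
      linear_combination (-(h' : ℤ)) * this
    rw [← e]
    exact h1
  obtain ⟨α₂, hα₂, hα₂sm, -⟩ := exists_root hp hpS' 1 _ hγsm (fun q hq A hA => by
    obtain ⟨n, hn⟩ := hordβ q hq A hA
    exact ⟨(h' : ℤ) * (n / p), hγord q hq A hA n hn⟩)
  rw [pow_one] at hα₂
  -- Bezout
  have hcop : IsCoprime (h' : ℤ) (p : ℤ) := by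
    rw [Int.isCoprime_iff_gcd_eq_one, Int.gcd_natCast_natCast, Nat.gcd_comm]
    exact (Nat.Prime.coprime_iff_not_dvd hp).2 hh'
  obtain ⟨r, s, hrs⟩ := hcop
  refine ⟨α₂ ^ r * β ^ s, isSm_mul (isSm_zpow hα₂sm r) (isSm_zpow hβ s), fun σ hσ => ?_⟩
  -- the identity
  have hY : (σ • α₂ / α₂) ^ p = (σ • β / β) ^ h' * (δ / σ • δ) := by
    rw [div_pow, ← smul_pow', hα₂, smul_div', smul_pow', div_pow]
    rw [div_mul_div_comm, div_div_div_eq, mul_comm (σ • δ)]
  have hid : (σ • (α₂ ^ r * β ^ s) / (α₂ ^ r * β ^ s)) ^ p / (σ • β / β) = (δ / σ • δ) ^ r := by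
    rw [← capDiv_identity (σ • β / β) (δ / σ • δ) (σ • α₂ / α₂) p h' r s hY hrs]
    congr 2
    rw [smul_mul', smul_zpow', smul_zpow', div_zpow, div_zpow, mul_div_mul_comm]
  rw [hid]
  -- `δ / σδ` is an `S`-unit
  apply isSUnit_of_forall_liesOver
  intro q hq A hA
  rw [Units.val_zpow_eq_zpow_val, Units.val_div_eq_div_val, coe_smul_units]
  apply UnitAt.zpow
  obtain ⟨n, hn⟩ := hordβ q hq A hA
  have hA' : (σ⁻¹ • A).LiesOverPrime (q : ℕ) := liesOverPrime_smul A σ⁻¹ q hA
  obtain ⟨n', hn'⟩ := hordβ q hq (σ⁻¹ • A) hA'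
  have h1 : HasOrd A (q : ℕ) (δ : Qbar) ((h' : ℤ) * (n % p)) := hδord' q hq A hA n hn
  have h2 : HasOrd A (q : ℕ) (σ (δ : Qbar)) ((h' : ℤ) * (n' % p)) :=
    (hasOrd_inv_smul_iff q.2.ne_zero σ _ _).1 (hδord' q hq _ hA' n' hn')
  have hnn : n' % (p : ℤ) = n % p := by
    obtain ⟨w, hwsm, hwu⟩ := hw σ hσ
    obtain ⟨m, hm⟩ := isSm_exists_hasOrd hwsm hq A hA
    have hu : UnitAt A ((w ^ p / (σ • β / β) : Qbarˣ) : Qbar) :=
      (isSUnit_iff S _).1 hwu A (outsideS_of_liesOver hq hA)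
    have hσβ : HasOrd A (q : ℕ) (σ (β : Qbar)) n' := (hasOrd_inv_smul_iff q.2.ne_zero σ _ _).1 hn'
    rw [Units.val_div_eq_div_val, Units.val_div_eq_div_val, Units.val_pow_eq_pow_val,
      coe_smul_units] at hu
    have h3 := (hm.pow p).div q.2.ne_zero (hσβ.div q.2.ne_zero hn)
    have h4 := h3.eq_zero_of_unitAt q.2.ne_zero hA hu
    have h5 : n' = n + m * p := by linarith
    rw [h5, Int.add_mul_emod_self_right]
  rw [hnn] at h2
  have h6 := h1.div q.2.ne_zero h2
  rw [sub_self] at h6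
  exact (hasOrd_zero_iff _).1 h6

end Fermat.Agent.S55.K.GO3H535.H371

end
end
-- ===== PACK-END S55/K/GO3H535/H371/CapDiv.lean

-- ===== PACK-BEGIN S55/Inv/GO4/ShapGenH593.lean
section



/-!
# S55 / `InvSpec` / GO4-SHAP, generic part (helper593)

Finite Shapiro for the diagonal modules `dInd φ A = (Q →₀ A)` of `Inv/GO4/Defs.lean`:

* `recogInj` : Shapiro's lemma in recognition form along an INJECTIVE homomorphism `ψ : D →* G`
  (from `H173.shapiroHom_bijective`);
* `dAct_apply` : `(g • b) x = g • b (φ(g)⁻¹ x)`;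
* `ev1Q φ H hH A : Res_H (dInd φ A) ⟶ Res_H A` (coefficient at `1 ∈ Q`, `φ` trivial on `H`) and
  `ev1Q_bijective` : `Hⁿ(Γ, dInd φ A) → Hⁿ(H, A)` is bijective if `H = ker φ`, `φ` surjective,
  `Q` finite;
* `evC φ ψ B : Res_ψ (dInd φ (Coind_ψ B)) ⟶ dInd (φ ∘ ψ) B` (coefficientwise evaluation at `1 ∈ Γ`)
  and `evC_bijective` : `Hⁿ(Γ, dInd φ (Coind_ψ B)) → Hⁿ(D, dInd (φ ∘ ψ) B)` is bijective if `ψ` is
  injective and `Q` finite.
-/

set_option autoImplicit false
set_option linter.unusedSectionVars false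
set_option linter.style.haveILetI false

open CategoryTheory groupCohomology

noncomputable section

namespace Fermat.Agent.S55.Inv.GO4.H593

open Fermat.Agent.S55 Fermat.Agent.S55.Inv.GO4

section Recog

variable {k G D : Type} [CommRing k] [Group G] [Group D]

/-- **Shapiro, recognition form, along an injective homomorphism.** -/
theorem recogInj (ψ : D →* G) (hψ : Function.Injective ψ) (A : Rep.{0} k D) (B : Rep.{0} k G)
    (π : Rep.res ψ B ⟶ A)
    (hπ : ∀ f : G → A.V, (∀ (d : D) (g : G), f (ψ d * g) = A.ρ d (f g)) →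
      ∃! b : B.V, ∀ g : G, π.hom (B.ρ g b) = f g) (n : ℕ) :
    Function.Bijective (groupCohomology.map ψ π n).hom := by
  let Φ : B ⟶ Rep.coind ψ A := Rep.resCoindToHom ψ B A π
  have hΦ_apply : ∀ (b : B.V) (g : G), (Φ.hom b).1 g = π.hom (B.ρ g b) := fun b g => rfl
  have hinj : Function.Injective Φ.hom := by
    intro b b' hbb'
    obtain ⟨b₀, -, huniq⟩ := hπ (Φ.hom b).1 (fun s g => (Φ.hom b).2 s g)
    have h1 : b = b₀ := huniq b (fun g => rfl)
    have h2 : b' = b₀ := huniq b' (fun g => by rw [hbb']; rfl)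
    rw [h1, h2]
  have hsurj : Function.Surjective Φ.hom := by
    intro f
    obtain ⟨b₀, hb₀, -⟩ := hπ f.1 (fun s g => f.2 s g)
    refine ⟨b₀, ?_⟩
    apply Subtype.ext
    funext g
    exact hb₀ g
  haveI : Mono Φ := (Rep.mono_iff_injective Φ).mpr hinj
  haveI : Epi Φ := (Rep.epi_iff_surjective Φ).mpr hsurj
  haveI : IsIso Φ := isIso_of_mono_of_epi Φ
  haveI : IsIso (groupCohomology.map (MonoidHom.id G) Φ n) :=
    (inferInstance : IsIso ((groupCohomology.functor k G n).map Φ))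
  have hcomp : groupCohomology.map ψ π n =
      groupCohomology.map (MonoidHom.id G) Φ n ≫ H173.shapiroHom ψ A n := by
    have h1 := groupCohomology.map_comp (MonoidHom.id G) ψ Φ (H173.ev1Hom ψ A) n
    rw [← h1]
    apply groupCohomology.map_congr rfl
    ext b
    change π.hom b = π.hom (B.ρ 1 b)
    rw [map_one]
    rfl
  rw [hcomp]
  have hb1 : Function.Bijective (groupCohomology.map (MonoidHom.id G) Φ n).hom :=
    ConcreteCategory.bijective_of_isIso _
  have hb2 := H173.shapiroHom_bijective hψ n A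
  have : ((groupCohomology.map (MonoidHom.id G) Φ n ≫ H173.shapiroHom ψ A n).hom : _ → _) =
      (H173.shapiroHom ψ A n).hom ∘ (groupCohomology.map (MonoidHom.id G) Φ n).hom := by
    funext x; rfl
  rw [this]
  exact hb2.comp hb1

end Recog


section DInd

variable {k : Type} [CommRing k] {Γ Q : Type} [Group Γ] [Group Q]

/-- `(g • b) x = g • b (φ(g)⁻¹ x)`. -/
lemma dAct_apply (φ : Γ →* Q) (A : Rep.{0, 0, 0} k Γ) (g : Γ) (b : Q →₀ A) (x : Q) :
    dAct φ A g b x = A.ρ g (b ((φ g)⁻¹ * x)) := by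
  have hinj : Function.Injective (fun y : Q => φ g * y) := mul_right_injective _
  have hx : (fun y : Q => φ g * y) ((φ g)⁻¹ * x) = x := by
    show φ g * ((φ g)⁻¹ * x) = x
    rw [mul_inv_cancel_left]
  have h1 : dAct φ A g b =
      Finsupp.mapDomain (fun y : Q => φ g * y) (Finsupp.mapRange (A.ρ g) (map_zero _) b) := rfl
  rw [h1]
  conv_lhs => rw [← hx]
  rw [Finsupp.mapDomain_apply hinj]
  rfl

/-- the finitely supported function underlying an element of `dInd φ A` -/
def toFs (φ : Γ →* Q) (A : Rep.{0, 0, 0} k Γ) (b : (dInd φ A).V) : Q →₀ A.V := b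

/-- an element of `dInd φ A` from a finitely supported function -/
def ofFs (φ : Γ →* Q) (A : Rep.{0, 0, 0} k Γ) (b : Q →₀ A.V) : (dInd φ A).V := b

@[simp] lemma toFs_ofFs (φ : Γ →* Q) (A : Rep.{0, 0, 0} k Γ) (b : Q →₀ A.V) :
    toFs φ A (ofFs φ A b) = b := rfl

lemma toFs_injective (φ : Γ →* Q) (A : Rep.{0, 0, 0} k Γ) :
    Function.Injective (toFs φ A) := fun _ _ h => h

lemma dInd_ext {φ : Γ →* Q} {A : Rep.{0, 0, 0} k Γ} {b b' : (dInd φ A).V}
    (h : ∀ x, toFs φ A b x = toFs φ A b' x) : b = b' :=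
  Finsupp.ext h

lemma toFs_ρ (φ : Γ →* Q) (A : Rep.{0, 0, 0} k Γ) (g : Γ) (b : (dInd φ A).V) (x : Q) :
    toFs φ A ((dInd φ A).ρ g b) x = A.ρ g (toFs φ A b ((φ g)⁻¹ * x)) :=
  dAct_apply φ A g b x

lemma toFs_dIndMap (φ : Γ →* Q) {A B : Rep.{0, 0, 0} k Γ} (f : A ⟶ B) (b : (dInd φ A).V)
    (x : Q) : toFs φ B ((dIndMap φ f).hom b) x = f.hom (toFs φ A b x) := rfl

lemma toFs_dIndTr {Γ' : Type} [Group Γ'] (φ : Γ →* Q) (π : Γ' →* Γ) (φ' : Γ' →* Q)
    (hφ : ∀ g, φ (π g) = φ' g) {A : Rep.{0, 0, 0} k Γ}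
    {A' : Rep.{0, 0, 0} k Γ'} (t : Rep.res π A ⟶ A') (b : (dInd φ A).V) (x : Q) :
    toFs φ' A' ((dIndTr φ π φ' hφ t).hom b) x = t.hom (toFs φ A b x) := rfl

lemma rho_inv_self (A : Rep.{0, 0, 0} k Γ) (g : Γ) (a : A.V) : A.ρ g⁻¹ (A.ρ g a) = a := by
  rw [← Module.End.mul_apply, ← map_mul, inv_mul_cancel, map_one]
  rfl

lemma rho_self_inv (A : Rep.{0, 0, 0} k Γ) (g : Γ) (a : A.V) : A.ρ g (A.ρ g⁻¹ a) = a := by
  rw [← Module.End.mul_apply, ← map_mul, mul_inv_cancel, map_one]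
  rfl

/-! ### `α` : coefficient at `1 ∈ Q` -/

/-- coefficient at `1 ∈ Q`: `Res_H (dInd φ A) ⟶ Res_H A`, for `φ` trivial on `H`. -/
def ev1Q (φ : Γ →* Q) (H : Subgroup Γ) (hH : ∀ g ∈ H, φ g = 1) (A : Rep.{0, 0, 0} k Γ) :
    Rep.res H.subtype (dInd φ A) ⟶ Rep.res H.subtype A :=
  Rep.ofHom ⟨(Finsupp.lapply (1 : Q) : (Q →₀ A) →ₗ[k] A), fun s => by
    refine LinearMap.ext fun b => ?_
    show (dAct φ A (s : Γ) (toFs φ A b)) 1 = A.ρ (s : Γ) (toFs φ A b 1)
    rw [dAct_apply, hH s s.2, inv_one, one_mul]⟩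

lemma ev1Q_apply (φ : Γ →* Q) (H : Subgroup Γ) (hH : ∀ g ∈ H, φ g = 1) (A : Rep.{0, 0, 0} k Γ)
    (b : (dInd φ A).V) : (ev1Q φ H hH A).hom b = toFs φ A b 1 := rfl

lemma ev1Q_ρ (φ : Γ →* Q) (H : Subgroup Γ) (hH : ∀ g ∈ H, φ g = 1) (A : Rep.{0, 0, 0} k Γ)
    (b : (dInd φ A).V) (g : Γ) :
    (ev1Q φ H hH A).hom ((dInd φ A).ρ g b) = A.ρ g (toFs φ A b (φ g)⁻¹) := by
  rw [ev1Q_apply, toFs_ρ, mul_one]

lemma ev1Q_recog [Finite Q] (φ : Γ →* Q) (hφ : Function.Surjective φ) (H : Subgroup Γ)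
    (hH : ∀ g, g ∈ H ↔ φ g = 1) (A : Rep.{0, 0, 0} k Γ)
    (f : Γ → A.V) (hf : ∀ (s : H) (g : Γ), f ((s : Γ) * g) = A.ρ (s : Γ) (f g)) :
    ∃! b : (dInd φ A).V, ∀ g : Γ,
      (ev1Q φ H (fun g hg => (hH g).1 hg) A).hom ((dInd φ A).ρ g b) = f g := by
  classical
  have hσ : ∀ x : Q, φ (Function.surjInv hφ x) = x := Function.surjInv_eq hφ
  set σ : Q → Γ := Function.surjInv hφ with hσdef
  -- the key computation
  have key : ∀ (g τ : Γ), φ τ = φ g → A.ρ τ⁻¹ (f τ) = A.ρ g⁻¹ (f g) := by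
    intro g τ hτ
    have hs : τ * g⁻¹ ∈ H := by
      rw [hH, map_mul, map_inv, hτ, mul_inv_cancel]
    have h1 := hf ⟨τ * g⁻¹, hs⟩ g
    have h2 : (τ * g⁻¹) * g = τ := by rw [inv_mul_cancel_right]
    change f ((τ * g⁻¹) * g) = A.ρ (τ * g⁻¹) (f g) at h1
    rw [h2] at h1
    rw [h1, ← Module.End.mul_apply, ← map_mul, inv_mul_cancel_left]
  let b₀ : (dInd φ A).V := ofFs φ A
    (Finsupp.equivFunOnFinite.symm (fun x => A.ρ (σ x⁻¹)⁻¹ (f (σ x⁻¹))))
  have hb₀ : ∀ x, toFs φ A b₀ x = A.ρ (σ x⁻¹)⁻¹ (f (σ x⁻¹)) := fun x => rfl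
  refine ⟨b₀, ?_, ?_⟩
  · intro g
    show (ev1Q φ H (fun g hg => (hH g).1 hg) A).hom ((dInd φ A).ρ g b₀) = f g
    rw [ev1Q_ρ, hb₀, inv_inv, key g (σ (φ g)) (hσ _), rho_self_inv]
  · intro b hb
    have hb' : ∀ g, A.ρ g (toFs φ A b (φ g)⁻¹) = f g := fun g =>
      (ev1Q_ρ φ H _ A b g).symm.trans (hb g)
    apply dInd_ext
    intro x
    rw [hb₀]
    have h1 := hb' (σ x⁻¹)
    rw [hσ, inv_inv] at h1
    rw [← h1, rho_inv_self]

/-- **Shapiro for `dInd`, kernel form**: `Hⁿ(Γ, (Q →₀ A)) → Hⁿ(ker φ, A)` is bijective. -/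
theorem ev1Q_bijective [Finite Q] (φ : Γ →* Q) (hφ : Function.Surjective φ) (H : Subgroup Γ)
    (hH : ∀ g, g ∈ H ↔ φ g = 1) (A : Rep.{0, 0, 0} k Γ) (n : ℕ) :
    Function.Bijective
      (groupCohomology.map H.subtype (ev1Q φ H (fun g hg => (hH g).1 hg) A) n).hom :=
  recogInj H.subtype H.subtype_injective (Rep.res H.subtype A) (dInd φ A)
    (ev1Q φ H (fun g hg => (hH g).1 hg) A)
    (fun f hf => ev1Q_recog φ hφ H hH A f hf) n

/-! ### `β` : coefficientwise evaluation at `1 ∈ Γ` on `(Q →₀ Coind_ψ B)` -/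

variable {D : Type} [Group D]

/-- coefficientwise evaluation at `1 ∈ Γ`: `Res_ψ (dInd φ (Coind_ψ B)) ⟶ dInd (φ ∘ ψ) B`. -/
def evC (φ : Γ →* Q) (ψ : D →* Γ) (B : Rep.{0, 0, 0} k D) :
    Rep.res ψ (dInd φ (Rep.coind ψ B)) ⟶ dInd (φ.comp ψ) B :=
  dIndTr φ ψ (φ.comp ψ) (fun _ => rfl) (H173.ev1Hom ψ B)

lemma evC_apply (φ : Γ →* Q) (ψ : D →* Γ) (B : Rep.{0, 0, 0} k D)
    (b : (dInd φ (Rep.coind ψ B)).V) (x : Q) :
    toFs (φ.comp ψ) B ((evC φ ψ B).hom b) x = (toFs φ (Rep.coind ψ B) b x).1 1 := rfl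

lemma evC_ρ (φ : Γ →* Q) (ψ : D →* Γ) (B : Rep.{0, 0, 0} k D)
    (b : (dInd φ (Rep.coind ψ B)).V) (g : Γ) (x : Q) :
    toFs (φ.comp ψ) B ((evC φ ψ B).hom ((dInd φ (Rep.coind ψ B)).ρ g b)) x =
      (toFs φ (Rep.coind ψ B) b ((φ g)⁻¹ * x)).1 g := by
  rw [evC_apply, toFs_ρ]
  show (toFs φ (Rep.coind ψ B) b ((φ g)⁻¹ * x)).1 (1 * g) = _
  rw [one_mul]

lemma evC_recog [Finite Q] (φ : Γ →* Q) (ψ : D →* Γ) (B : Rep.{0, 0, 0} k D)
    (f : Γ → (dInd (φ.comp ψ) B).V)
    (hf : ∀ (d : D) (g : Γ), f (ψ d * g) = (dInd (φ.comp ψ) B).ρ d (f g)) :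
    ∃! b : (dInd φ (Rep.coind ψ B)).V, ∀ g : Γ,
      (evC φ ψ B).hom ((dInd φ (Rep.coind ψ B)).ρ g b) = f g := by
  classical
  let F : Q → (Rep.coind ψ B).V := fun y =>
    ⟨fun g => toFs (φ.comp ψ) B (f g) (φ g * y), fun d g => by
      show toFs (φ.comp ψ) B (f (ψ d * g)) (φ (ψ d * g) * y) =
        B.ρ d (toFs (φ.comp ψ) B (f g) (φ g * y))
      rw [hf d g, toFs_ρ]
      congr 2
      show (φ (ψ d))⁻¹ * (φ (ψ d * g) * y) = φ g * y
      rw [map_mul, mul_assoc, inv_mul_cancel_left]⟩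
  let b₀ : (dInd φ (Rep.coind ψ B)).V :=
    ofFs φ (Rep.coind ψ B) (Finsupp.equivFunOnFinite.symm F)
  have hb₀ : ∀ y g, (toFs φ (Rep.coind ψ B) b₀ y).1 g = toFs (φ.comp ψ) B (f g) (φ g * y) :=
    fun y g => rfl
  refine ⟨b₀, ?_, ?_⟩
  · intro g
    apply dInd_ext
    intro x
    rw [evC_ρ, hb₀, mul_inv_cancel_left]
  · intro b hb
    apply dInd_ext
    intro y
    apply Subtype.ext
    funext g
    show (toFs φ (Rep.coind ψ B) b y).1 g = (toFs φ (Rep.coind ψ B) b₀ y).1 g
    rw [hb₀, ← hb g, evC_ρ, inv_mul_cancel_left]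

/-- **Shapiro for `dInd`, coinduced form**:
`Hⁿ(Γ, (Q →₀ Coind_ψ B)) → Hⁿ(D, (Q →₀ B))` is bijective. -/
theorem evC_bijective [Finite Q] (φ : Γ →* Q) (ψ : D →* Γ) (hψ : Function.Injective ψ)
    (B : Rep.{0, 0, 0} k D) (n : ℕ) :
    Function.Bijective (groupCohomology.map ψ (evC φ ψ B) n).hom :=
  recogInj ψ hψ (dInd (φ.comp ψ) B) (dInd φ (Rep.coind ψ B)) (evC φ ψ B)
    (fun f hf => evC_recog φ ψ B f hf) n

end DInd

end Fermat.Agent.S55.Inv.GO4.H593

end

end
-- ===== PACK-END S55/Inv/GO4/ShapGenH593.lean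

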