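import Fermat.Prelude.Def_GaloisRep_ComplexConjugation
import Fermat.Agent.Pack.S56.E15L2
import Fermat.Agent.Pack.S56.E16L3
import Fermat.Agent.Pack.S56.E0L0
import Fermat.Agent.Pack.S56.E16L0
import Fermat.Agent.Pack.S56.E13L3
import Fermat.Agent.Pack.S56.E9L3
import Fermat.Agent.Pack.S56.E0L1
import Fermat.Agent.Pack.S56.E9L1
import Fermat.Agent.Pack.S56.E7L2
import Fermat.Agent.Pack.S56.E16L2
import Fermat.Agent.Pack.S56.E13L1
import Fermat.Agent.Pack.S56.E16L1
import Fermat.Agent.Pack.S56.E1L2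
import Fermat.Agent.Pack.S56.E7L1
import Fermat.Agent.Pack.S56.E5L0
import Fermat.Agent.Pack.S56.E8L3
import Fermat.Agent.Pack.S56.E8L0
import Fermat.Agent.Pack.S56.E12L2
import Fermat.Agent.Pack.S56.E5L3
import Fermat.Agent.Pack.S56.E12L3
import Fermat.Agent.Pack.S56.E8L2
import Fermat.Agent.Pack.S56.E8L1
import Fermat.Agent.Pack.S56.E5L2
import Fermat.Agent.Pack.S56.E11L0
import Fermat.Agent.Pack.S56.E15L0
import Fermat.Agent.Pack.S56.E15L1

-- ===== PACK-BEGIN S56/H14/InvRec.lean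
section




/-!
# Row S56 — leaf INVREC of REC-Q: local invariants of plain twisted 2-cocycles (helper14)

S55-facing.  Plain-function language of the row: `K` a finite field of characteristic `p`,
`z : G_ℚ × G_ℚ → K` a *twisted 2-cocycle* (values in `K(1)`, the cyclotomic character encoded
by `IsCycExp`), level-constant for a finite extension unramified outside `Σ`
(the Prelude's `IsLevelConstantS₂ Σ`).

From S55's interface `PT.InvSpec p Σ` (invariant maps on `H²(G_v, μ_p)` with reciprocity and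
`Br(E)[p] ≅ ℤ/p`) we construct `invK v z ∈ K` (`v ∈ Σ`) such that, on such `z`:

* `invK v` is additive and `K`-homogeneous;
* `invK v z = 0` if `z` is a twisted coboundary on the decomposition group `D_v` of the
  Prelude's place `primeLocalPlace v`;
* conversely, for `v ≡ 1 mod p`, `v ≠ p`: `invK v z = 0` implies that `z` is a twisted
  coboundary on `D_v`;
* reciprocity: `∑_{v ∈ Σ} invK v z = 0`.

Main statement: `invRec : InvRecStatement`.  Nothing unproved in this file.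
-/

set_option autoImplicit false

noncomputable section

namespace Fermat.Agent.S56.H14

open groupCohomology Fermat.Agent.S55.PT ExtCitation

/-! ### Plain-function definitions -/

section Defs

variable (p : ℕ) {K : Type} [Field K]

/-- `z` is a twisted 2-cocycle: a 2-cocycle with values in `K(1)`. -/
def IsTw2Cocycle (z : Fermat.Agent.S56.GQ × Fermat.Agent.S56.GQ → K) : Prop :=
  ∀ σ τ υ : Fermat.Agent.S56.GQ, ∀ a : ℕ, Fermat.Agent.S56.IsCycExp p σ a →
    (a : K) * z (τ, υ) - z (σ * τ, υ) + z (σ, τ * υ) - z (σ, τ) = 0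

/-- On the subgroup `D`, `z` is the twisted coboundary of a cochain `lam` which is level-constant
on `D`. -/
def IsTw2CoboundaryOn (D : Subgroup Fermat.Agent.S56.GQ)
    (z : Fermat.Agent.S56.GQ × Fermat.Agent.S56.GQ → K) : Prop :=
  ∃ lam : Fermat.Agent.S56.GQ → K,
    (∃ F : IntermediateField ℚ Fermat.Agent.S56.Qb, FiniteDimensional ℚ F ∧
      ∀ σ ∈ D, ∀ τ ∈ D, τ ∈ F.fixingSubgroup → lam (σ * τ) = lam σ) ∧
    ∀ σ ∈ D, ∀ τ ∈ D, ∀ a : ℕ, Fermat.Agent.S56.IsCycExp p σ a →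
      z (σ, τ) = (a : K) * lam τ - lam (σ * τ) + lam σ

/-- The 2-cocycles on which the invariants are defined. -/
def IsGood2 (S : Finset Nat.Primes) (z : Fermat.Agent.S56.GQ × Fermat.Agent.S56.GQ → K) : Prop :=
  IsTw2Cocycle p z ∧ IsLevelConstantS₂ S z

end Defs

/-- **(INVREC)** — the S55-facing leaf of REC-Q. -/
def InvRecStatement : Prop :=
  ∀ (p : ℕ) [Fact p.Prime] (S : Finset Nat.Primes) (K : Type) [Field K] [CharP K p] [Finite K],
    InvSpec p S →
    ∃ invK : ↥S → (Fermat.Agent.S56.GQ × Fermat.Agent.S56.GQ → K) → K,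
      (∀ (v : ↥S) z z', IsGood2 p S z → IsGood2 p S z' →
        invK v (z + z') = invK v z + invK v z') ∧
      (∀ (v : ↥S) (c : K) z, IsGood2 p S z → invK v (c • z) = c * invK v z) ∧
      (∀ (v : ↥S) z, IsGood2 p S z →
        IsTw2CoboundaryOn p ((primeLocalPlace v.1).decompositionSubgroup ℚ) z → invK v z = 0) ∧
      (∀ (v : ↥S) z, IsGood2 p S z → ((v.1 : Nat.Primes) : ℕ) ≠ p →
        p ∣ ((v.1 : Nat.Primes) : ℕ) - 1 → invK v z = 0 →
        IsTw2CoboundaryOn p ((primeLocalPlace v.1).decompositionSubgroup ℚ) z) ∧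
      (∀ z, IsGood2 p S z → ∑ v : ↥S, invK v z = 0)

/-! ### Cyclotomic exponents and the cyclotomic character -/

section Cyc

variable {p : ℕ} [Fact p.Prime]

/-- Every automorphism has a cyclotomic exponent on the `p`-th roots of unity
(copy of `exists_isCycExp` of `H14/CycExp.lean`, to keep the import closure small). -/
theorem exists_cycExp_invRec (σ : Fermat.Agent.S56.GQ) :
    ∃ a : ℕ, Fermat.Agent.S56.IsCycExp p σ a := by
  have hp : p.Prime := Fact.out
  have : NeZero p := ⟨hp.ne_zero⟩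
  obtain ⟨ζ, hζ⟩ := HasEnoughRootsOfUnity.exists_primitiveRoot (AlgebraicClosure ℚ) p
  have h1 : (σ ζ) ^ p = 1 := by rw [← map_pow, hζ.pow_eq_one, map_one]
  obtain ⟨a, -, ha⟩ := hζ.eq_pow_of_pow_eq_one h1
  refine ⟨a, fun μ hμ => ?_⟩
  obtain ⟨i, -, rfl⟩ := hζ.eq_pow_of_pow_eq_one hμ
  rw [map_pow, ← ha, ← pow_mul, ← pow_mul, mul_comm]

/-- A cyclotomic exponent of `σ` is a lift of `cycloChar p σ`. -/
theorem natCast_eq_cycloChar {σ : Fermat.Agent.S56.GQ} {a : ℕ}
    (h : Fermat.Agent.S56.IsCycExp p σ a) :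
    ((a : ℕ) : ZMod p) = ((cycloChar p σ : (ZMod p)ˣ) : ZMod p) := by
  have hp : p.Prime := Fact.out
  have : NeZero p := ⟨hp.ne_zero⟩
  have : NeZero ((p : ℕ) : AlgebraicClosure ℚ) := ⟨Nat.cast_ne_zero.mpr hp.ne_zero⟩
  obtain ⟨ζ, hζ⟩ := HasEnoughRootsOfUnity.exists_primitiveRoot (AlgebraicClosure ℚ) p
  have hζ0 : ζ ≠ 0 := hζ.ne_zero hp.ne_zero
  let t : (AlgebraicClosure ℚ)ˣ := Units.mk0 ζ hζ0
  have ht : t ∈ rootsOfUnity p (AlgebraicClosure ℚ) := by
    rw [mem_rootsOfUnity]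
    apply Units.ext
    simp only [t, Units.val_pow_eq_pow_val, Units.val_mk0, Units.val_one]
    exact hζ.pow_eq_one
  have h1 : σ ζ = ζ ^ ((cycloChar p σ : (ZMod p)ˣ) : ZMod p).val :=
    Fermat.Agent.S55.Bridge.cycloChar_spec p σ ht
  have h2 : σ ζ = ζ ^ a := h ζ hζ.pow_eq_one
  have h3 : ζ ^ (a % p) = ζ ^ ((cycloChar p σ : (ZMod p)ˣ) : ZMod p).val := by
    rw [← h1, h2]
    conv_rhs => rw [← Nat.div_add_mod a p, pow_add, pow_mul, hζ.pow_eq_one, one_pow, one_mul]
  have h4 : a % p = ((cycloChar p σ : (ZMod p)ˣ) : ZMod p).val :=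
    hζ.pow_inj (Nat.mod_lt _ hp.pos) (ZMod.val_lt _) h3
  have h5 : ((a : ℕ) : ZMod p) = ((a % p : ℕ) : ZMod p) := by
    rw [ZMod.natCast_eq_natCast_iff]
    exact (Nat.mod_modEq a p).symm
  rw [h5, h4, ZMod.natCast_val, ZMod.cast_id]

end Cyc

/-! ### From plain 2-cocycles to classes -/

section Arith

variable {p : ℕ} [Fact p.Prime] {S : Finset Nat.Primes}
variable {K : Type} [Field K] [Algebra (ZMod p) K]

/-- `K(1)` as a representation of `G_ℚ` over `F_p`. -/
abbrev K1 (p : ℕ) [Fact p.Prime] (K : Type) [Field K] [Algebra (ZMod p) K] :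
    Rep.{0, 0, 0} (ZMod p) _root_.Fermat.Agent.S56.GQ := twTriv (cycloChar p) K

lemma natCast_smul_eq (a : ℕ) (w : K) : ((a : ℕ) : ZMod p) • w = (a : K) * w := by
  rw [Algebra.smul_def, map_natCast]

lemma K1_ρ_apply {σ : _root_.Fermat.Agent.S56.GQ} {a : ℕ} (h : Fermat.Agent.S56.IsCycExp p σ a) (w : K) :
    (K1 p K).ρ σ w = (a : K) * w := by
  rw [twTriv_ρ_apply, ← natCast_eq_cycloChar h, natCast_smul_eq]

lemma K1_ρ_rl_apply {v : Nat.Primes} {s : Gl v} {a : ℕ}
    (h : Fermat.Agent.S56.IsCycExp p (rl v s) a) (w : K) :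
    (Rep.res (rl v) (K1 p K)).ρ s w = (a : K) * w :=
  K1_ρ_apply h w

/-- A good plain 2-cocycle is a level-constant 2-cocycle of `K(1)`. -/
lemma mem_Z2_of_isGood2 {z : _root_.Fermat.Agent.S56.GQ × _root_.Fermat.Agent.S56.GQ → K} (hz : IsGood2 p S z) :
    z ∈ (globalLevels S).Z2 (K1 p K) := by
  refine ⟨?_, (isLC₂_globalLevels_iff S z).2 hz.2⟩
  show z ∈ cocycles₂ (K1 p K)
  rw [mem_cocycles₂_def]
  intro g h j
  obtain ⟨a, ha⟩ := exists_cycExp_invRec (p := p) g
  rw [K1_ρ_apply ha]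
  exact hz.1 g h j a ha

/-- the class of a good plain 2-cocycle in `H²(G_{ℚ,S}, K(1))` -/
def cls2 {z : _root_.Fermat.Agent.S56.GQ × _root_.Fermat.Agent.S56.GQ → K} (hz : IsGood2 p S z) : (globalLevels S).H2 (K1 p K) :=
  (globalLevels S).H2π (K1 p K) ⟨z, mem_Z2_of_isGood2 hz⟩

omit [Fact p.Prime] [Algebra (ZMod p) K] in
lemma isGood2_add {z z' : _root_.Fermat.Agent.S56.GQ × _root_.Fermat.Agent.S56.GQ → K} (hz : IsGood2 p S z) (hz' : IsGood2 p S z') :
    IsGood2 p S (z + z') := by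
  refine ⟨fun σ τ υ a ha => ?_, hz.2.add hz'.2⟩
  have h1 := hz.1 σ τ υ a ha
  have h2 := hz'.1 σ τ υ a ha
  simp only [Pi.add_apply]
  linear_combination h1 + h2

omit [Fact p.Prime] [Algebra (ZMod p) K] in
lemma isGood2_smul (c : K) {z : _root_.Fermat.Agent.S56.GQ × _root_.Fermat.Agent.S56.GQ → K} (hz : IsGood2 p S z) : IsGood2 p S (c • z) := by
  refine ⟨fun σ τ υ a ha => ?_, hz.2.comp (c • ·)⟩
  have h1 := hz.1 σ τ υ a ha
  simp only [Pi.smul_apply, smul_eq_mul]
  linear_combination c * h1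

lemma cls2_add {z z' : _root_.Fermat.Agent.S56.GQ × _root_.Fermat.Agent.S56.GQ → K} (hz : IsGood2 p S z) (hz' : IsGood2 p S z') :
    cls2 (isGood2_add hz hz') = cls2 hz + cls2 hz' := by
  unfold cls2
  rw [← map_add]
  rfl

lemma cls2_smul (c : K) {z : _root_.Fermat.Agent.S56.GQ × _root_.Fermat.Agent.S56.GQ → K} (hz : IsGood2 p S z) :
    cls2 (isGood2_smul c hz) =
      pushH2 (A := K1 p K) (B := K1 p K) (LinearMap.mulLeft (ZMod p) c)
        (twTriv_isEquivariant (cycloChar p) K (LinearMap.mulLeft (ZMod p) c))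
        (globalLevels S) (cls2 hz) := by
  unfold cls2
  rw [pushH2_mk]
  congr 1

variable [FiniteDimensional (ZMod p) K]

/-- the extension of S55's `inv_v` to `H²(G_v, K(1))` -/
def extInvLoc (inv : InvFamily p S) (v : ↥S) :
    (localLevels v.1).H2 (Rep.res (rl v.1) (K1 p K)) →ₗ[ZMod p] K :=
  extInv (W := K) (localLevels v.1) ((cycloChar p).comp (rl v.1)) (inv v)

/-- the invariant at `v` of a class in `H²(G_{ℚ,S}, K(1))` -/
def invH (inv : InvFamily p S) (v : ↥S) : (globalLevels S).H2 (K1 p K) →ₗ[ZMod p] K :=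
  extInvLoc inv v ∘ₗ resH2 (hrl S v) (K1 p K)

/-- **Reciprocity** for classes with coefficients in `K(1)`. -/
theorem sum_invH_eq_zero {inv : InvFamily p S} (hrec : RecipSpec inv)
    (x : (globalLevels S).H2 (K1 p K)) : ∑ v : ↥S, invH inv v x = 0 := by
  apply (Module.forall_dual_apply_eq_zero_iff (ZMod p) _).1
  intro f
  rw [map_sum]
  have h := hrec (pushDual (W := K) (globalLevels S) (cycloChar p) f x)
  rw [← h]
  refine Finset.sum_congr rfl fun v _ => ?_
  have h1 : f (invH inv v x) =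
      inv v (pushDual (W := K) (localLevels v.1) ((cycloChar p).comp (rl v.1)) f
        (resH2 (hrl S v) (K1 p K) x)) :=
    dual_extInv (W := K) (localLevels v.1) ((cycloChar p).comp (rl v.1)) (inv v) _ f
  rw [h1]
  congr 1
  obtain ⟨c, rfl⟩ := (globalLevels S).H2π_surjective _ x
  rfl

/-- `invH` commutes with multiplication by elements of `K`. -/
theorem invH_mulLeft (inv : InvFamily p S) (v : ↥S) (c : K)
    (x : (globalLevels S).H2 (K1 p K)) :
    invH inv v (pushH2 (A := K1 p K) (B := K1 p K) (LinearMap.mulLeft (ZMod p) c)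
        (twTriv_isEquivariant (cycloChar p) K (LinearMap.mulLeft (ZMod p) c))
        (globalLevels S) x) = c * invH inv v x := by
  have h := extInv_pushH2_endo (W := K) (localLevels v.1) ((cycloChar p).comp (rl v.1)) (inv v)
    (LinearMap.mulLeft (ZMod p) c) (resH2 (hrl S v) (K1 p K) x)
  rw [LinearMap.mulLeft_apply] at h
  show extInvLoc inv v (resH2 (hrl S v) (K1 p K) _) = c * extInvLoc inv v _
  refine Eq.trans ?_ h
  show extInvLoc inv v _ = extInvLoc inv v _
  congr 1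
  obtain ⟨z, rfl⟩ := (globalLevels S).H2π_surjective _ x
  rfl

/-! ### Local coboundaries -/

omit [FiniteDimensional (ZMod p) K] in
/-- A good 2-cocycle which is a twisted coboundary on `D_v` has trivial class in
`H²(G_v, K(1))`. -/
theorem resH2_cls2_eq_zero_of_coboundaryOn (v : ↥S) {z : _root_.Fermat.Agent.S56.GQ × _root_.Fermat.Agent.S56.GQ → K} (hz : IsGood2 p S z)
    (h : IsTw2CoboundaryOn p ((primeLocalPlace v.1).decompositionSubgroup ℚ) z) :
    resH2 (hrl S v) (K1 p K) (cls2 hz) = 0 := by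
  obtain ⟨lam, ⟨F, hF, hlev⟩, hcob⟩ := h
  unfold cls2
  rw [resH2_mk, LevelSys.H2π_eq_zero_iff]
  have hmem : ∀ s : Gl v.1, rl v.1 s ∈ (primeLocalPlace v.1).decompositionSubgroup ℚ :=
    fun s => Fermat.Agent.S55.BLocal.primeLocalToGlobal_mem v.1 s
  refine ⟨fun s => lam (rl v.1 s), ?_, ?_⟩
  · refine ⟨_, ⟨F, hF, rfl⟩, fun g s hs => ?_⟩
    show lam (rl v.1 (g * s)) = lam (rl v.1 g)
    rw [map_mul]
    exact hlev _ (hmem g) _ (hmem s) hs
  · funext ⟨g, h⟩
    obtain ⟨a, ha⟩ := exists_cycExp_invRec (p := p) (rl v.1 g)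
    have h1 := hcob _ (hmem g) _ (hmem h) a ha
    have hd : (d₁₂ (Rep.res (rl v.1) (K1 p K))).hom (fun s => lam (rl v.1 s)) (g, h)
        = (Rep.res (rl v.1) (K1 p K)).ρ g (lam (rl v.1 h)) - lam (rl v.1 (g * h))
          + lam (rl v.1 g) := rfl
    rw [hd, K1_ρ_rl_apply ha, map_mul]
    exact h1.symm

omit [FiniteDimensional (ZMod p) K] in
/-- A good 2-cocycle with trivial class in `H²(G_v, K(1))` is a twisted coboundary on `D_v`. -/
theorem coboundaryOn_of_resH2_cls2_eq_zero (v : ↥S) {z : _root_.Fermat.Agent.S56.GQ × _root_.Fermat.Agent.S56.GQ → K} (hz : IsGood2 p S z)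
    (h : resH2 (hrl S v) (K1 p K) (cls2 hz) = 0) :
    IsTw2CoboundaryOn p ((primeLocalPlace v.1).decompositionSubgroup ℚ) z := by
  unfold cls2 at h
  rw [resH2_mk, LevelSys.H2π_eq_zero_iff] at h
  obtain ⟨x, ⟨U, ⟨F, hF, rfl⟩, hxU⟩, hdx⟩ := h
  classical
  -- `x` factors through the image of `rl v`
  have hker : ∀ s s' : Gl v.1, rl v.1 s = rl v.1 s' → x s = x s' := by
    intro s s' hss
    have hmem : s⁻¹ * s' ∈ (F.fixingSubgroup).comap (rl v.1) := by
      rw [Subgroup.mem_comap, map_mul, map_inv, hss, inv_mul_cancel]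
      exact Subgroup.one_mem _
    have := hxU s (s⁻¹ * s') hmem
    rw [mul_inv_cancel_left] at this
    exact this.symm
  let lam : _root_.Fermat.Agent.S56.GQ → K := fun σ => if hσ : ∃ s : Gl v.1, rl v.1 s = σ then x hσ.choose else 0
  have hlam : ∀ s : Gl v.1, lam (rl v.1 s) = x s := by
    intro s
    have hσ : ∃ s' : Gl v.1, rl v.1 s' = rl v.1 s := ⟨s, rfl⟩
    show (if hσ : ∃ s' : Gl v.1, rl v.1 s' = rl v.1 s then x hσ.choose else 0) = x s
    rw [dif_pos hσ]
    exact hker _ _ hσ.choose_spec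
  have hsurj : ∀ σ ∈ (primeLocalPlace v.1).decompositionSubgroup ℚ,
      ∃ s : Gl v.1, rl v.1 s = σ :=
    fun σ hσ => Fermat.Agent.S55.BLocal.exists_primeLocalToGlobal_eq v.1 σ hσ
  refine ⟨lam, ⟨F, hF, ?_⟩, ?_⟩
  · intro σ hσ τ hτ hτF
    obtain ⟨s, rfl⟩ := hsurj σ hσ
    obtain ⟨t, rfl⟩ := hsurj τ hτ
    rw [← map_mul, hlam, hlam]
    exact hxU s t hτF
  · intro σ hσ τ hτ a ha
    obtain ⟨s, rfl⟩ := hsurj σ hσ
    obtain ⟨t, rfl⟩ := hsurj τ hτ
    have h1 := congrFun hdx (s, t)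
    have hd : (d₁₂ (Rep.res (rl v.1) (K1 p K))).hom x (s, t)
        = (Rep.res (rl v.1) (K1 p K)).ρ s (x t) - x (s * t) + x s := rfl
    rw [hd, K1_ρ_rl_apply ha] at h1
    rw [← map_mul, hlam, hlam, hlam]
    exact h1.symm

end Arith

/-! ### The statement -/

/-- **INVREC.** -/
theorem invRec : InvRecStatement := by
  intro p _ S K _ _ _ hInv
  let _ : Algebra (ZMod p) K := ZMod.algebra K p
  have : FiniteDimensional (ZMod p) K := Module.Finite.of_finite
  obtain ⟨inv, hrec, htop, -⟩ := hInv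
  classical
  refine ⟨fun v z => if h : IsGood2 p S z then invH inv v (cls2 h) else 0, ?_, ?_, ?_, ?_, ?_⟩
  · intro v z z' hz hz'
    simp only [dif_pos hz, dif_pos hz', dif_pos (isGood2_add hz hz')]
    rw [cls2_add hz hz', map_add]
  · intro v c z hz
    simp only [dif_pos hz, dif_pos (isGood2_smul c hz)]
    rw [cls2_smul c hz, invH_mulLeft]
  · intro v z hz hcob
    simp only [dif_pos hz]
    show extInvLoc inv v (resH2 (hrl S v) (K1 p K) (cls2 hz)) = 0
    rw [resH2_cls2_eq_zero_of_coboundaryOn v hz hcob, map_zero]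
  · intro v z hz hvp hdvd h0
    simp only [dif_pos hz] at h0
    have hinj : Function.Injective (inv v) :=
      (inv_bijective_of_dvd_sub_one htop v hvp hdvd).1
    have h1 : extInv (W := K) (localLevels v.1) ((cycloChar p).comp (rl v.1)) (inv v)
        (resH2 (hrl S v) (K1 p K) (cls2 hz)) = 0 := h0
    have h2 := (extInv_eq_zero_iff (W := K) (localLevels v.1) ((cycloChar p).comp (rl v.1))
      (inv := inv v) hinj (resH2 (hrl S v) (K1 p K) (cls2 hz))).1 h1
    exact coboundaryOn_of_resH2_cls2_eq_zero v hz h2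
  · intro z hz
    simp only [dif_pos hz]
    exact sum_invH_eq_zero hrec (cls2 hz)

end Fermat.Agent.S56.H14

end

end
-- ===== PACK-END S56/H14/InvRec.lean

-- ===== PACK-BEGIN S56/RQ/LeavesH554.lean
section






/-!
# Row S56 — REC-Q: the leaves GEN, INFL, FRAME, NONDEG (helper554)

* `gen : GenStatement`     — adapter of helper606's `H606.exists_frobenius_pow_mul_inertia`;
* `infl : InflStatement`   — adapter of `S55.Bridge.exists_level_of_subgroup`;
* `frame : FrameStatement` — uniform generator of tame inertia (from `H554.exists_tame_generator`);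
* `nondeg : NondegStatement` — adapter of `H554.trace_mul_eq_zero_of_cup_coboundary`.
-/

set_option autoImplicit false
set_option linter.style.haveILetI false

open Polynomial IsLocalRing

noncomputable section

namespace Fermat.Agent.S56.RQ.H554

open Fermat.Agent.S56 Fermat.Agent.S56.H716 Fermat.Agent.S56.RQ

attribute [local instance] Fermat.Agent.S55.Bridge.isAlgebraic_Qbar
  Fermat.Agent.S55.Bridge.isGalois_Qbar

/-- **(GEN)**. -/
theorem gen : GenStatement := fun q P φ hq hP hφ L hL σ hσ => by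
  haveI := hL
  obtain ⟨n, ι, hι, h⟩ := Fermat.Agent.S56.H606.exists_frobenius_pow_mul_inertia hq hP L hφ hσ
  exact ⟨n, ι, hι, h⟩

/-- **(INFL)**. -/
theorem infl : InflStatement := by
  rintro Sg N ⟨L, hLfin, hL⟩ hur
  obtain ⟨F, hF, hfix, -⟩ := Fermat.Agent.S55.Bridge.exists_level_of_subgroup
    (Sg.subtype Nat.Prime) N L hLfin
    (fun s hs => hL s fun x hx => (IntermediateField.mem_fixingSubgroup_iff _ _).1 hs x hx)
    (fun q hq A hA => hur q.1 q.2 (fun h => hq (Finset.mem_subtype.2 h)) A hA)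
  refine ⟨F, hF.1, fun q hqP hqn P hP s hs x hx => ?_, fun s hs => ?_⟩
  · have h1 := hF.2 ⟨q, hqP⟩ (fun h => hqn (Finset.mem_subtype.1 h)) P hP hs
    exact (IntermediateField.mem_fixingSubgroup_iff _ _).1 h1 x hx
  · rw [← hfix]
    exact (IntermediateField.mem_fixingSubgroup_iff _ _).2 hs

/-- Every finite level is contained in a finite level stable under `G_ℚ`. -/
theorem exists_normal_level (L₀ : IntermediateField ℚ Qb) (hfin : FiniteDimensional ℚ L₀) :
    ∃ L : IntermediateField ℚ Qb, FiniteDimensional ℚ L ∧ L₀ ≤ L ∧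
      ∀ σ : GQ, ∀ x ∈ L, σ x ∈ L := by
  haveI := hfin
  haveI : Normal ℚ (IntermediateField.normalClosure ℚ L₀ Qb) := normalClosure.normal ℚ L₀ Qb
  refine ⟨IntermediateField.normalClosure ℚ L₀ Qb, normalClosure.is_finiteDimensional ℚ L₀ Qb,
    IntermediateField.le_normalClosure L₀, fun σ x hx => ?_⟩
  have h := AlgEquiv.restrictNormal_commutes σ (IntermediateField.normalClosure ℚ L₀ Qb) ⟨x, hx⟩
  rw [← show algebraMap (IntermediateField.normalClosure ℚ L₀ Qb) Qb ⟨x, hx⟩ = x from rfl, ← h]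
  exact SetLike.coe_mem _

section

variable (𝒪 : Type) [CommRing 𝒪] [IsDomain 𝒪] [IsDiscreteValuationRing 𝒪]
  (p : ℕ) (ρbar : ResidualGaloisRep (ResidueField 𝒪)) (S Smin : Finset ℕ)

/-- The local facts at a Taylor–Wiles prime contained in `Hyp` and `IsTWPrime`. -/
theorem tw_basic (hyp : Hyp 𝒪 p ρbar S Smin) {q : ℕ} (hTW : IsTWPrime ρbar p S q) :
    q.Prime ∧ p ≠ q ∧ p ∣ q - 1 ∧ ρbar.IsUnramifiedAt q := by
  obtain ⟨hqP, hqS, hq1, -⟩ := hTW
  have hqSmin : q ∉ Smin := fun h => hqS (hyp.hSmin h)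
  have hqp : q ≠ p := fun h => hqSmin (h ▸ hyp.hpSmin)
  refine ⟨hqP, fun h => hqp h.symm, hq1, ?_⟩
  by_contra h
  exact hqSmin ((hyp.hmin q hqP hqp).mpr h)

end

/-- **(FRAME)**: a uniform generator of tame inertia for all ad-cocycles. -/
theorem frame : FrameStatement := by
  intro 𝒪 _ _ _ _ _ p ρbar S Smin hyp q hTW P hP
  classical
  have hp := hyp.hp
  haveI : CharP (ResidueField 𝒪) p := H536.charP_residueField 𝒪 p hyp.hp hyp.hp𝒪
  obtain ⟨hq, hpq, -, hurq⟩ := tw_basic 𝒪 p ρbar S Smin hyp hTW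
  have hur : ∀ σ ∈ P.inertiaSubgroupIn ℚ, ρbar.ρ σ = 1 := hurq P hP
  by_cases hex : ∃ c₀ : GQ → Module.End (ResidueField 𝒪) ρbar.V, IsAdCocycle ρbar c₀ ∧
      ∃ τ ∈ P.inertiaSubgroupIn ℚ, c₀ τ ≠ 0
  · obtain ⟨c₀, hc₀, τ, hτ, hne⟩ := hex
    refine ⟨τ, hτ, fun c hc hcτ σ hσ => ?_⟩
    obtain ⟨L₀, hL₀fin, hc₀L⟩ := hc₀.level
    obtain ⟨L₁, hL₁fin, hcL⟩ := hc.level
    haveI := hL₀fin
    haveI := hL₁fin
    obtain ⟨L, hLfin, hle, hL⟩ := exists_normal_level (L₀ ⊔ L₁) inferInstance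
    haveI := hLfin
    have hc₀' : Fermat.Agent.S56.H554.IsCoc ρbar L c₀ :=
      ⟨hc₀.map_mul, fun σ τ hτ => hc₀L σ τ fun x hx => hτ x (hle (le_sup_left (a := L₀) hx))⟩
    have hc' : Fermat.Agent.S56.H554.IsCoc ρbar L c :=
      ⟨hc.map_mul, fun σ τ hτ => hcL σ τ fun x hx => hτ x (hle (le_sup_right (b := L₁) hx))⟩
    obtain ⟨τ₀, hτ₀, hgen⟩ := Fermat.Agent.S56.H554.exists_tame_generator hq hP L
    -- the values of a cocycle of level `L` on inertia
    have key : ∀ (c' : GQ → Module.End (ResidueField 𝒪) ρbar.V),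
        Fermat.Agent.S56.H554.IsCoc ρbar L c' → ∀ (n : ℤ) (ω : GQ),
        ω ∈ P.inertiaSubgroupIn ℚ → Fermat.Agent.S56.H554.IsWildOn P ω (L : Set Qb) →
        c' (τ₀ ^ n * ω) = n • c' τ₀ := by
      intro c' hc'' n ω hω hwild
      have h1 : ρbar.ρ (τ₀ ^ n) = 1 := hur _ (zpow_mem hτ₀ n)
      rw [hc''.add_of_rho_eq_one h1, hc''.eq_zero_of_wild hq hP hp hpq hL hur hω hwild, add_zero,
        hc''.map_zpow_of_mem_inertia hur hτ₀]
    obtain ⟨n, ω, hω, hwild, hτeq⟩ := hgen τ hτ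
    obtain ⟨n', ω', hω', hwild', hσeq⟩ := hgen σ hσ
    have h0 : c₀ τ = n • c₀ τ₀ := by rw [hτeq]; exact key c₀ hc₀' n ω hω hwild
    have h1 : c τ = n • c τ₀ := by rw [hτeq]; exact key c hc' n ω hω hwild
    have h2 : c σ = n' • c τ₀ := by rw [hσeq]; exact key c hc' n' ω' hω' hwild'
    have hn : ((n : ℤ) : ResidueField 𝒪) ≠ 0 := by
      intro h
      apply hne
      rw [h0, ← Int.cast_smul_eq_zsmul (ResidueField 𝒪), h, zero_smul]
    have h3 : c τ₀ = 0 := by
      rw [hcτ, ← Int.cast_smul_eq_zsmul (ResidueField 𝒪)] at h1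
      exact (smul_eq_zero.1 h1.symm).resolve_left hn
    rw [h2, h3, smul_zero]
  · refine ⟨1, one_mem _, fun c hc _ σ hσ => ?_⟩
    by_contra hne
    exact hex ⟨c, hc, σ, hσ, hne⟩

/-- **(NONDEG)**: the Heisenberg argument. -/
theorem nondeg : NondegStatement := by
  intro 𝒪 _ _ _ _ _ p ρbar S Smin hyp q hTW P hP φ hφ τ hτ c y hc hy hyI hcob
  have hp := hyp.hp
  haveI : CharP (ResidueField 𝒪) p := H536.charP_residueField 𝒪 p hyp.hp hyp.hp𝒪
  obtain ⟨hq, hpq, hq1, hurq⟩ := tw_basic 𝒪 p ρbar S Smin hyp hTW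
  have hur : ∀ σ ∈ P.inertiaSubgroupIn ℚ, ρbar.ρ σ = 1 := hurq P hP
  obtain ⟨lam, ⟨L₁, hL₁fin, hlamL⟩, hlam⟩ := hcob
  obtain ⟨L₀, hL₀fin, hcL⟩ := hc.level
  haveI := hL₀fin
  haveI := hL₁fin
  obtain ⟨L, hLfin, hle, hL⟩ := exists_normal_level (L₀ ⊔ L₁) inferInstance
  haveI := hLfin
  have hc' : Fermat.Agent.S56.H554.IsCoc ρbar L c :=
    ⟨hc.map_mul, fun σ τ hτ => hcL σ τ fun x hx => hτ x (hle (le_sup_left (a := L₀) hx))⟩
  refine Fermat.Agent.S56.H554.trace_mul_eq_zero_of_cup_coboundary hq hP hp hpq hq1 hL hur hc'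
    hy.map_mul hyI (lam := lam) ?_ ?_ hφ hτ
  · intro τ' hτ' hfix
    have := hlamL 1 (one_mem _) τ'
      (Fermat.Agent.A2.H708.mem_decomposition_of_mem_inertiaIn P hτ')
      fun x hx => hfix x (hle (le_sup_right (b := L₁) hx))
    rwa [one_mul] at this
  · intro σ hσ σ' hσ' a ha
    rw [← hlam σ hσ σ' hσ' a ha]
    show _ = LinearMap.trace (ResidueField 𝒪) ρbar.V (c σ * (y (σ * σ') - y σ))
    rw [hy.map_mul σ σ' a ha, add_sub_cancel_left]

end Fermat.Agent.S56.RQ.H554

end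

end
-- ===== PACK-END S56/RQ/LeavesH554.lean

-- ===== PACK-BEGIN S56/RQ/ConjH880.lean
section



/-!
# Row S56 — REC-Q leaf CONJ (helper880): independence of the place

`conjStatement : RQ.ConjStatement` (exact frozen Prop of `RQ/Spec.lean`).

(a) `ρ̄` unramified at `v`, `c = 0` on `I_P` ⟹ `c = 0` on `I_{P'}`:
    `c (g σ g⁻¹) = c g + g (c σ + σ c(g⁻¹) σ⁻¹) g⁻¹ = c g + g c(g⁻¹) g⁻¹ = c 1 = 0`.
(b) `c = d m` on `D_P` ⟹ `c = d m'` on `D_{P'}`, `P' = g P`, `m' = ρ̄ g m ρ̄ g⁻¹ − c g`.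
-/

set_option autoImplicit false

open Polynomial IsLocalRing
open scoped Pointwise

noncomputable section

namespace Fermat.Agent.S56.RQ.H880

open Fermat.Agent.S56 Fermat.Agent.S56.H716

variable {k : Type} [Field k] {ρbar : ResidualGaloisRep k}

theorem rho_mul_inv (g : GQ) : ρbar.ρ g * ρbar.ρ g⁻¹ = 1 := by
  rw [← map_mul, mul_inv_cancel, map_one]

theorem rho_inv_mul (g : GQ) : ρbar.ρ g⁻¹ * ρbar.ρ g = 1 := by
  rw [← map_mul, inv_mul_cancel, map_one]

theorem adCocycle_one {c : GQ → Module.End k ρbar.V} (hc : IsAdCocycle ρbar c) : c 1 = 0 := by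
  have h := hc.map_mul 1 1
  rw [mul_one, inv_one, map_one, one_mul, mul_one] at h
  exact left_eq_add.mp h

/-- `c g + ρ g · c(g⁻¹) · ρ g⁻¹ = 0`. -/
theorem adCocycle_add_conj_inv {c : GQ → Module.End k ρbar.V} (hc : IsAdCocycle ρbar c)
    (g : GQ) : c g + ρbar.ρ g * c g⁻¹ * ρbar.ρ g⁻¹ = 0 := by
  have h := hc.map_mul g g⁻¹
  rw [mul_inv_cancel, adCocycle_one hc] at h
  exact h.symm

/-- The cocycle at a conjugate. -/
theorem adCocycle_conj {c : GQ → Module.End k ρbar.V} (hc : IsAdCocycle ρbar c) (g σ : GQ) :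
    c (g * σ * g⁻¹) =
      c g + ρbar.ρ g * c σ * ρbar.ρ g⁻¹ +
        ρbar.ρ g * ρbar.ρ σ * c g⁻¹ * ρbar.ρ σ⁻¹ * ρbar.ρ g⁻¹ := by
  rw [mul_assoc, hc.map_mul g (σ * g⁻¹), hc.map_mul σ g⁻¹]
  noncomm_ring

/-- `conjStatement`, part (a). -/
theorem unram_of_unram {c : GQ → Module.End k ρbar.V} (hc : IsAdCocycle ρbar c) {v : ℕ}
    (hv : v.Prime) {P P' : ValuationSubring Qb} (hP : P.LiesOverPrime v)
    (hP' : P'.LiesOverPrime v) (hρ : ρbar.IsUnramifiedAt v)
    (h : ∀ σ ∈ P.inertiaSubgroupIn ℚ, c σ = 0) :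
    ∀ σ ∈ P'.inertiaSubgroupIn ℚ, c σ = 0 := by
  intro σ' hσ'
  obtain ⟨g, σ, hσ, rfl⟩ :=
    Fermat.Agent.Lib.Cheb.H476.exists_conj_of_mem_inertia hv hP hP' hσ'
  have h1 : ρbar.ρ σ = 1 := hρ P hP σ hσ
  have h2 : ρbar.ρ σ⁻¹ = 1 := by rw [map_inv_eq_one_of_one h1]
  rw [adCocycle_conj hc, h σ hσ, h1, h2, mul_zero, zero_mul, add_zero, mul_one, mul_one]
  exact adCocycle_add_conj_inv hc g
where
  map_inv_eq_one_of_one {σ : GQ} (h1 : ρbar.ρ σ = 1) : ρbar.ρ σ⁻¹ = 1 := by
    have := rho_inv_mul (ρbar := ρbar) σ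
    rwa [h1, mul_one] at this

/-- `conjStatement`, part (b). -/
theorem coboundary_of_coboundary {c : GQ → Module.End k ρbar.V} (hc : IsAdCocycle ρbar c)
    {v : ℕ} (hv : v.Prime) {P P' : ValuationSubring Qb} (hP : P.LiesOverPrime v)
    (hP' : P'.LiesOverPrime v)
    (h : IsAdCoboundaryOn ρbar (P.decompositionSubgroup ℚ) c) :
    IsAdCoboundaryOn ρbar (P'.decompositionSubgroup ℚ) c := by
  obtain ⟨m, hm⟩ := h
  obtain ⟨g, rfl⟩ := Fermat.Agent.Lib.Cheb.H476.exists_smul_eq hv hP hP'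
  refine ⟨ρbar.ρ g * m * ρbar.ρ g⁻¹ - c g, fun σ' hσ' => ?_⟩
  -- `σ := g⁻¹ σ' g ∈ D_P`
  have hσ : g⁻¹ * σ' * g ∈ P.decompositionSubgroup ℚ := by
    have h1 := Fermat.Agent.Lib.Cheb.H476.conj_mem_decomposition g⁻¹ hσ'
    have h2 : g⁻¹ • g • P = P := inv_smul_smul g P
    rw [inv_inv] at h1
    rw [h2] at h1
    exact h1
  set σ : GQ := g⁻¹ * σ' * g with hσdef
  have hσ' : σ' = g * σ * g⁻¹ := by rw [hσdef]; group
  have e1 : c g⁻¹ = -(ρbar.ρ g⁻¹ * c g * ρbar.ρ g) := by
    have := adCocycle_add_conj_inv hc g⁻¹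
    rw [inv_inv] at this
    rw [eq_neg_iff_add_eq_zero]
    exact this
  have e2 : ρbar.ρ σ' = ρbar.ρ g * ρbar.ρ σ * ρbar.ρ g⁻¹ := by
    rw [hσ', map_mul, map_mul]
  have e3 : ρbar.ρ σ'⁻¹ = ρbar.ρ g * ρbar.ρ σ⁻¹ * ρbar.ρ g⁻¹ := by
    have hinv : (g * σ * g⁻¹)⁻¹ = g * σ⁻¹ * g⁻¹ := by group
    rw [hσ', hinv, map_mul, map_mul]
  rw [e2, e3]
  rw [hσ', adCocycle_conj hc, hm σ hσ, e1]
  have r1 := rho_mul_inv (ρbar := ρbar) g
  have r2 := rho_inv_mul (ρbar := ρbar) g
  have r3 := rho_mul_inv (ρbar := ρbar) σ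
  -- normalise both sides
  have key : ∀ (A A' B B' M C : Module.End k ρbar.V), A * A' = 1 → A' * A = 1 → B * B' = 1 →
      C + A * (B * M * B' - M) * A' + A * B * (-(A' * C * A)) * B' * A' =
        A * B * A' * (A * M * A' - C) * (A * B' * A') - (A * M * A' - C) := by
    intro A A' B B' M C h1 h2 h3
    have t1 : A * B * A' * (A * M * A' - C) * (A * B' * A') =
        A * B * (A' * A) * M * (A' * A) * B' * A' - A * B * A' * C * A * B' * A' := by
      noncomm_ring
    have t2 : A * (B * M * B' - M) * A' = A * B * M * B' * A' - A * M * A' := by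
      noncomm_ring
    have t3 : A * B * (-(A' * C * A)) * B' * A' = -(A * B * A' * C * A * B' * A') := by
      noncomm_ring
    rw [t1, t2, t3, h2]
    noncomm_ring
  exact key _ _ _ _ _ _ r1 r2 r3

/-- **(CONJ)**, exact frozen statement. -/
theorem conjStatement : ConjStatement := by
  intro k _ ρbar v hv P P' hP hP' c hc
  exact ⟨fun hρ h => unram_of_unram hc hv hP hP' hρ h,
    fun h => coboundary_of_coboundary hc hv hP hP' h⟩

end Fermat.Agent.S56.RQ.H880

end
end
-- ===== PACK-END S56/RQ/ConjH880.lean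

-- ===== PACK-BEGIN S55/Inv/WrH413.lean
section



/-!
# S55 / INV-WR (subtask 489, helper413): weak reciprocity over `ℚ` from the reciprocity law

`weakRecip_of : ReciprocitySpec I p → WeakRecipSpec p S`  (any local invariant system `I`).

A class `y ∈ H²_S(μ_p)` gives the Brauer class `x = [ζ ^ c] ∈ Br(ℚ)[p]` (`gClass`).
* At a prime `q ∉ S`, `x_q = 0` (unramified cocycle with unit values: `H181.locBr_eq_zero_of_good`).
* At `v' ∈ S`, `res_{v'} y = 0` implies `x_{v'} = 0`.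
* The reciprocity law for `U = ⊤` then gives `inv_v (x_v) = 0`, hence `x_v = 0` (`inv_injective`),
  hence `res_v y = 0` by local Kummer injectivity (`exists_cob_of_locBr_eq_zero`: Hilbert 90 and
  `p`-th roots in `ℚ̄_v`).
-/

set_option autoImplicit false
set_option linter.style.haveILetI false
set_option linter.unusedSectionVars false

namespace Fermat.Agent.S55.Inv.H413

open Fermat.Agent.S55.PT Fermat.Agent.S55.G.Rec groupCohomology ExtCitation

local notation "Qb" => AlgebraicClosure ℚ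
local notation "T" => (⊤ : Subgroup GQ)

variable (p : ℕ) [Fact p.Prime] (S : Finset Nat.Primes)

/-- The Brauer class of a cocycle of `H²_S(μ_p)` is trivial at every prime outside `S`. -/
theorem locBr_eq_zero_of_not_mem (I : LocalInvSystem) (c : ↥((globalLevels S).Z2 (mu p)))
    (q : ℕ) [Fact q.Prime] (hq : (⟨q, Fact.out⟩ : Nat.Primes) ∉ S) :
    locBr q 1 T (gClass p S c) = 0 := by
  obtain ⟨U, ⟨F, hF, rfl⟩, h⟩ := c.2.2
  obtain ⟨L, hL, hgal, hle⟩ := Bridge.exists_galois_level_ge S F hF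
  haveI : Normal ℚ L := hgal.to_normal
  refine H181.locBr_eq_zero_of_good I isOpenQ_top
    ⟨gCoch p (c : GQ × GQ → ↥(mu p)), gCoch_mem p S c⟩ L ?_ q ?_ ?_ 1
  · intro g g' s s' hs hs'
    show gCoch p (c : GQ × GQ → ↥(mu p)) (g * s, g' * s') = gCoch p (c : GQ × GQ → ↥(mu p)) (g, g')
    rw [gCoch_apply, gCoch_apply]
    exact congrArg (kapT p) (h (g : GQ) (g' : GQ) (s : GQ) (s' : GQ)
      (IntermediateField.fixingSubgroup_antitone hle hs)
      (IntermediateField.fixingSubgroup_antitone hle hs'))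
  · intro g₁ h₁ g'
    exact norm_lamq p q _ g'
  · intro τ hτ
    exact localGaloisToGlobal_mem_fixingSubgroup_of_inertial q hL hq τ hτ

/-- **INV-4 (weak reciprocity over `ℚ`)** from the reciprocity law of block REC. -/
theorem weakRecip_of (I : LocalInvSystem) (hRec : ReciprocitySpec I p) : WeakRecipSpec p S := by
  intro y v hv
  obtain ⟨c, rfl⟩ := (globalLevels S).H2π_surjective (mu p) y
  haveI hvF : Fact ((v.1 : ℕ)).Prime := ⟨v.1.2⟩
  -- vanishing away from `v`
  have hother : ∀ q : Nat.Primes, q ≠ v.1 → I.invAt q 1 T (gClass p S c) = 0 := by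
    intro q hq
    apply LocalInvSystem.invAt_eq_zero
    haveI : Fact ((q : ℕ)).Prime := ⟨q.2⟩
    show locBr (q : ℕ) 1 T (gClass p S c) = 0
    by_cases hqS : q ∈ S
    · have h1 := hv ⟨q, hqS⟩ (fun h => hq (congrArg Subtype.val h))
      rw [resH2_mk, LevelSys.H2π_eq_zero_iff] at h1
      obtain ⟨x, hx, hdx⟩ := h1
      refine locBr_eq_zero_of_cob p S (q : ℕ) c x ?_ ?_
      · exact (isLC₁_pullbackLevels_iff (rl q) x).1 hx
      · intro g h
        have := congrFun hdx (g, h)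
        rw [d₁₂_hom_apply] at this
        exact this
    · exact locBr_eq_zero_of_not_mem p S I c (q : ℕ) hqS
  have key := (hRec T isOpenQ_top (gClass p S c) ⟨1, gClass_torsion p S c⟩ (fun _ => {1})
    (fun q => isDoubleCosetReps_top _)).2
  simp only [Finset.sum_singleton] at key
  rw [finsum_eq_single _ v.1 hother] at key
  have hloc : locBr (v.1 : ℕ) 1 T (gClass p S c) = 0 := by
    apply I.inv_injective (v.1 : ℕ) _ (H181.isOpenL_locSub (v.1 : ℕ) 1 isOpenQ_top)
    rw [map_zero]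
    exact key
  obtain ⟨x, hx, hdx⟩ := exists_cob_of_locBr_eq_zero p S (v.1 : ℕ) c hloc
  rw [resH2_mk, LevelSys.H2π_eq_zero_iff]
  refine ⟨x, (isLC₁_pullbackLevels_iff (rl v.1) x).2 hx, ?_⟩
  funext ⟨g, h⟩
  have e := d₁₂_hom_apply (muLoc p v.1) (x : Gl v.1 → ↥(muLoc p v.1)) (g, h)
  exact e.trans (hdx g h)

end Fermat.Agent.S55.Inv.H413

end
-- ===== PACK-END S55/Inv/WrH413.lean

-- ===== PACK-BEGIN S55/H713/LocalIndex.lean
section




/-!
# The local norm index theorem for cyclic extensions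

`E/F` a finite cyclic Galois extension, `O ⊆ E` a Galois-stable valuation subring which is a
complete discrete valuation ring with finite residue field.  Then
`[Fˣ : N_{E/F} Eˣ] = [E : F]`.
-/

set_option autoImplicit false
set_option linter.unusedSectionVars false
set_option linter.style.haveILetI false

open IsLocalRing

namespace Fermat.Agent.S55.H713

open Fermat.Agent.S55.Herbrand

variable {F E : Type*} [Field F] [Field E] [Algebra F E] [FiniteDimensional F E] [IsGalois F E]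
variable {O : ValuationSubring E} [IsDiscreteValuationRing O]

section Ord

variable (hstab : GalStable F O) {ϖ : O} (hϖ : Irreducible ϖ)

include hstab in
lemma unitsIncl_actU (g : Gal(E/F)) (u : Oˣ) :
    letI := galAction hstab
    unitsIncl O (actU g u) = actU g (unitsIncl O u) := by
  ext
  rfl

include hstab in
lemma unitsIncl_sigmaSubOne (σ : Gal(E/F)) (u : Oˣ) :
    letI := galAction hstab
    unitsIncl O (sigmaSubOne σ u) = sigmaSubOne σ (unitsIncl O u) := by
  letI := galAction hstab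
  rw [sigmaSubOne_apply, sigmaSubOne_apply, map_div, unitsIncl_actU hstab]

include hstab in
lemma unitsIncl_normU (u : Oˣ) :
    letI := galAction hstab
    unitsIncl O (normU Gal(E/F) u) = normU Gal(E/F) (unitsIncl O u) := by
  letI := galAction hstab
  rw [normU_apply, normU_apply, map_prod]
  exact Finset.prod_congr rfl (fun g _ => unitsIncl_actU hstab g u)

include hstab in
/-- The order is Galois invariant. -/
lemma ord_actU (g : Gal(E/F)) (x : Eˣ) : ord hϖ (actU g x) = ord hϖ x := by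
  letI := galAction hstab
  obtain ⟨u, hu⟩ := ord_spec hϖ x
  have hirr : Irreducible (g • ϖ) :=
    (MulEquiv.irreducible_iff (MulSemiringAction.toRingEquiv Gal(E/F) O g)).2 hϖ
  obtain ⟨w, hw⟩ := IsDiscreteValuationRing.associated_of_irreducible O hϖ hirr
  have hw' : g (ϖ : E) = (ϖ : E) * ((w : O) : E) := by
    have := congrArg Subtype.val hw
    have h2 : ((g • ϖ : O) : E) = g (ϖ : E) := rfl
    rw [← h2, ← this]
    rfl
  have hwk : ((unitsIncl O (w ^ ord hϖ x) : Eˣ) : E) = ((w : O) : E) ^ ord hϖ x := by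
    rw [map_zpow, Units.val_zpow_eq_zpow_val, coe_unitsIncl]
  apply ord_eq hϖ (u := actU g u * w ^ ord hϖ x)
  have e1 : ((actU g x : Eˣ) : E) = g (x : E) := rfl
  have e2 : (((actU g u * w ^ ord hϖ x : Oˣ) : O) : E) =
      g ((u : O) : E) * ((w : O) : E) ^ ord hϖ x := by
    rw [← coe_unitsIncl, map_mul, Units.val_mul, hwk]
    rfl
  rw [e1, e2, hu, map_mul, map_zpow₀, hw', mul_zpow]
  ring

lemma ord_prod {ι : Type*} (s : Finset ι) (f : ι → Eˣ) :
    ord hϖ (∏ i ∈ s, f i) = ∑ i ∈ s, ord hϖ (f i) := by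
  classical
  induction s using Finset.induction_on with
  | empty => simp [ord_one]
  | insert a s ha ih => rw [Finset.prod_insert ha, Finset.sum_insert ha, ord_mul, ih]

lemma ord_div (x y : Eˣ) : ord hϖ (x / y) = ord hϖ x - ord hϖ y := by
  have := ord_mul hϖ (x / y) y
  rw [div_mul_cancel] at this
  omega

include hstab in
lemma ord_sigmaSubOne (σ : Gal(E/F)) (x : Eˣ) : ord hϖ (sigmaSubOne σ x) = 0 := by
  rw [sigmaSubOne_apply, ord_div, ord_actU hstab hϖ, sub_self]

include hstab in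
lemma ord_normU (x : Eˣ) :
    ord hϖ (normU Gal(E/F) x) = (Fintype.card Gal(E/F)) • ord hϖ x := by
  rw [normU_apply, ord_prod]
  simp [ord_actU hstab hϖ, Finset.card_univ]

lemma ordHom_ker : (ordHom hϖ).ker = (MonoidHom.toAdditive (unitsIncl O)).range := by
  ext x
  rw [AddMonoidHom.mem_ker, AddMonoidHom.mem_range]
  change ord hϖ x.toMul = 0 ↔ _
  rw [ord_eq_zero_iff]
  constructor
  · rintro ⟨u, hu⟩
    exact ⟨Additive.ofMul u, congrArg Additive.ofMul hu⟩
  · rintro ⟨u, hu⟩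
    exact ⟨u.toMul, congrArg Additive.toMul hu⟩

end Ord

variable [IsAdicComplete (maximalIdeal O) O] [Finite (ResidueField O)]

/-- **The Herbrand quotient of `Eˣ`** is `[E : F]`. -/
theorem q_field_units (hstab : GalStable F O) (σ : Gal(E/F))
    (hσ : ∀ g, g ∈ Subgroup.zpowers σ) :
    IsDefined (sigmaAdd σ : Additive Eˣ →+ Additive Eˣ) (normAdd E Gal(E/F)) ∧
      q (sigmaAdd σ : Additive Eˣ →+ Additive Eˣ) (normAdd E Gal(E/F)) =
        Fintype.card Gal(E/F) := by
  letI := galAction hstab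
  obtain ⟨ϖ, hϖ⟩ := IsDiscreteValuationRing.exists_irreducible O
  obtain ⟨hdef, hq⟩ := q_units hstab σ hσ
  have hn : Fintype.card Gal(E/F) ≠ 0 := Fintype.card_ne_zero
  obtain ⟨hdefZ, hqZ⟩ := q_int (Fintype.card Gal(E/F)) hn
  have hfg : ∀ b, (sigmaAdd σ : Additive Eˣ →+ Additive Eˣ) (normAdd E Gal(E/F) b) = 0 :=
    sigmaAdd_normAdd σ
  have hgf : ∀ b, normAdd E Gal(E/F) ((sigmaAdd σ : Additive Eˣ →+ Additive Eˣ) b) = 0 :=
    normAdd_sigmaAdd σ
  have hi : Function.Injective (MonoidHom.toAdditive (unitsIncl O)) :=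
    fun a b h => unitsIncl_injective (O := O) h
  have hp : Function.Surjective (ordHom hϖ) := ordHom_surjective hϖ
  have hex := ordHom_ker hϖ
  have hif : ∀ a : Additive Oˣ, MonoidHom.toAdditive (unitsIncl O) (sigmaAdd σ a) =
      (sigmaAdd σ : Additive Eˣ →+ Additive Eˣ) (MonoidHom.toAdditive (unitsIncl O) a) :=
    fun a => congrArg Additive.ofMul (unitsIncl_sigmaSubOne hstab σ a.toMul)
  have hig : ∀ a : Additive Oˣ, MonoidHom.toAdditive (unitsIncl O) (normAdd O Gal(E/F) a) =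
      normAdd E Gal(E/F) (MonoidHom.toAdditive (unitsIncl O) a) :=
    fun a => congrArg Additive.ofMul (unitsIncl_normU hstab a.toMul)
  have hpf : ∀ b : Additive Eˣ, ordHom hϖ ((sigmaAdd σ : Additive Eˣ →+ Additive Eˣ) b) =
      (0 : ℤ →+ ℤ) (ordHom hϖ b) := fun b => ord_sigmaSubOne hstab hϖ σ b.toMul
  have hpg : ∀ b : Additive Eˣ, ordHom hϖ (normAdd E Gal(E/F) b) =
      (Fintype.card Gal(E/F) • AddMonoidHom.id ℤ) (ordHom hϖ b) :=
    fun b => ord_normU hstab hϖ b.toMul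
  refine ⟨isDefined_mid hfg hgf hi hp hex hif hig hpf hpg hdef hdefZ, ?_⟩
  rw [q_mul_of_exact hfg hgf hi hp hex hif hig hpf hpg hdef hdefZ, hq, hqZ, one_mul]


/-! ### From the Herbrand quotient to the norm index -/

omit [IsAdicComplete (maximalIdeal O) O] [Finite (ResidueField O)] [IsDiscreteValuationRing O] in
lemma fixed_of_generator {σ : Gal(E/F)} (hσ : ∀ g, g ∈ Subgroup.zpowers σ) {x : E}
    (hx : σ x = x) (g : Gal(E/F)) : g x = x := by
  obtain ⟨j, rfl⟩ := exists_pow_eq_of_generator hσ g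
  induction j with
  | zero => simp
  | succ j ih => rw [pow_succ, AlgEquiv.mul_apply, hx, ih]

/-- The inclusion `Fˣ → Eˣ`. -/
def baseIncl (F E : Type*) [Field F] [Field E] [Algebra F E] : Fˣ →* Eˣ :=
  Units.map (algebraMap F E : F →* E)

omit [FiniteDimensional F E] [IsGalois F E] in
lemma baseIncl_injective : Function.Injective (baseIncl F E) := by
  intro a b h
  have : algebraMap F E (a : F) = algebraMap F E (b : F) := congrArg Units.val h
  exact Units.ext ((algebraMap F E).injective this)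

/-- The norm on units. -/
noncomputable def normUnits (F E : Type*) [Field F] [Field E] [Algebra F E] : Eˣ →* Fˣ :=
  Units.map (Algebra.norm F : E →* F)

lemma baseIncl_normUnits (y : Eˣ) : baseIncl F E (normUnits F E y) = normU Gal(E/F) y := by
  ext
  rw [coe_normU]
  change algebraMap F E (Algebra.norm F (y : E)) = _
  rw [Algebra.norm_eq_prod_automorphisms]
  rfl

lemma ker_sigmaSubOne {σ : Gal(E/F)} (hσ : ∀ g, g ∈ Subgroup.zpowers σ) :
    (sigmaSubOne σ : Eˣ →* Eˣ).ker = (baseIncl F E).range := by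
  ext x
  rw [MonoidHom.mem_ker, MonoidHom.mem_range, sigmaSubOne_apply, div_eq_one]
  constructor
  · intro h
    have hx : σ (x : E) = x := congrArg Units.val h
    have hfix := fixed_of_generator hσ hx
    have hbot : (x : E) ∈ (⊥ : IntermediateField F E) := (IsGalois.mem_bot_iff_fixed _).2 hfix
    obtain ⟨y, hy⟩ := IntermediateField.mem_bot.1 hbot
    have hy0 : y ≠ 0 := by
      rintro rfl
      rw [map_zero] at hy
      exact x.ne_zero hy.symm
    exact ⟨Units.mk0 y hy0, Units.ext hy⟩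
  · rintro ⟨y, rfl⟩
    ext
    change σ (algebraMap F E (y : F)) = algebraMap F E (y : F)
    exact σ.commutes _

lemma range_normU : (normU Gal(E/F) : Eˣ →* Eˣ).range =
    (normUnits F E).range.map (baseIncl F E) := by
  ext x
  rw [MonoidHom.mem_range, Subgroup.mem_map]
  constructor
  · rintro ⟨y, rfl⟩
    exact ⟨normUnits F E y, ⟨y, rfl⟩, baseIncl_normUnits y⟩
  · rintro ⟨_, ⟨y, rfl⟩, rfl⟩
    exact ⟨y, (baseIncl_normUnits y).symm⟩

/-- **Local norm index theorem** (cyclic case): for a finite cyclic Galois extension `E/F` and a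
Galois-stable valuation subring `O ⊆ E` which is a complete discrete valuation ring with finite
residue field, the norm group `N_{E/F}(Eˣ)` has index `[E : F]` in `Fˣ`. -/
theorem norm_index_eq_finrank (hstab : GalStable F O) [IsCyclic Gal(E/F)] :
    (normUnits F E).range.index = Module.finrank F E := by
  obtain ⟨σ, hσ⟩ := IsCyclic.exists_generator (α := Gal(E/F))
  obtain ⟨hdef, hq⟩ := q_field_units hstab σ hσ
  -- Hilbert 90
  have h90 : hIndex (normAdd E Gal(E/F)) (sigmaAdd σ : Additive Eˣ →+ Additive Eˣ) = 1 := by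
    unfold hIndex
    rw [AddSubgroup.relIndex_eq_one]
    intro x hx
    have hx' : normU Gal(E/F) x.toMul = 1 := by
      have := AddMonoidHom.mem_ker.1 hx
      exact congrArg Additive.toMul this
    obtain ⟨y, hy⟩ := hilbert90_cyclic σ hσ x.toMul hx'
    exact ⟨Additive.ofMul y, congrArg Additive.ofMul hy⟩
  have hidx : hIndex (sigmaAdd σ : Additive Eˣ →+ Additive Eˣ) (normAdd E Gal(E/F)) =
      Fintype.card Gal(E/F) := by
    unfold q at hq
    rw [h90] at hq
    have : ((hIndex (sigmaAdd σ : Additive Eˣ →+ Additive Eˣ) (normAdd E Gal(E/F)) : ℕ) : ℚ) =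
        (Fintype.card Gal(E/F) : ℚ) := by simpa using hq
    exact_mod_cast this
  -- translate to subgroups of `Eˣ`
  have hker : (sigmaAdd σ : Additive Eˣ →+ Additive Eˣ).ker =
      Subgroup.toAddSubgroup (sigmaSubOne σ : Eˣ →* Eˣ).ker := by
    ext x
    rw [AddMonoidHom.mem_ker]
    change _ ↔ x.toMul ∈ (sigmaSubOne σ : Eˣ →* Eˣ).ker
    rw [MonoidHom.mem_ker]
    exact ⟨fun h => congrArg Additive.toMul h, fun h => congrArg Additive.ofMul h⟩
  have hrange : (normAdd E Gal(E/F)).range =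
      Subgroup.toAddSubgroup (normU Gal(E/F) : Eˣ →* Eˣ).range := by
    ext x
    rw [AddMonoidHom.mem_range]
    change _ ↔ x.toMul ∈ (normU Gal(E/F) : Eˣ →* Eˣ).range
    rw [MonoidHom.mem_range]
    constructor
    · rintro ⟨y, hy⟩; exact ⟨y.toMul, congrArg Additive.toMul hy⟩
    · rintro ⟨y, hy⟩; exact ⟨Additive.ofMul y, congrArg Additive.ofMul hy⟩
  unfold hIndex at hidx
  rw [hker, hrange, Subgroup.relIndex_toAddSubgroup, ker_sigmaSubOne hσ, range_normU,
    MonoidHom.range_eq_map (baseIncl F E),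
    Subgroup.relIndex_map_map_of_injective _ _ baseIncl_injective,
    Subgroup.relIndex_top_right] at hidx
  rw [hidx, ← Nat.card_eq_fintype_card, IsGalois.card_aut_eq_finrank]

end Fermat.Agent.S55.H713

end
-- ===== PACK-END S55/H713/LocalIndex.lean

-- ===== PACK-BEGIN S55/Local/H715/Closed.lean
section

















/-!
# S55, layer L core: the statements of `Local/Spec.lean` that are CLOSED on main

One import for consumers: every theorem below has EXACTLY the type of the frozen statement and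
is proved by a landed, sorry-free leaf.  (Integration file of the architect, helper715.)

Still open (see `coord/S55-L.md`): UR5 `ExistsUnramExtStatement`, UR6' `InertiaCardStatement`,
T4 `H2CardDvdStatement`, T5 `H2CyclicStatement`.
Obsolete (no consumer any more): UR2, UR3, CY1.
-/

set_option autoImplicit false

namespace Fermat.Agent.S55.Local.Closed

open Fermat.Agent.S55.Local

theorem filtH1 : FiltH1Statement := H478.filtH1
theorem filtH2 : FiltH2Statement := H478.filtH2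
theorem filtKerIm : FiltKerImStatement := H478.filtKerIm
theorem cycCocycleIsCocycle : CycCocycleIsCocycleStatement := H593.cycCocycle_isMulCocycle₂
theorem cycCocycleCoboundaryIff : CycCocycleCoboundaryIffStatement :=
  H535.cycCocycleCoboundaryIff
theorem cycCocycleSurj : CycCocycleSurjStatement := H535.cycCocycleSurj
theorem cycCocyclePullback : CycCocyclePullbackStatement := H593.cycCocycle_pullback
theorem addH1 : AddH1Statement := H169.addH1
theorem addH2 : AddH2Statement := H169.addH2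
theorem mulH2FiniteField : MulH2FiniteFieldStatement := H542.mulH2FiniteField
theorem intOrInv : IntOrInvStatement := H608.intOrInv
theorem existsUnif : ExistsUnifStatement := H608.existsUnif
theorem intUnitsComap : IntUnitsComapStatement := H608.intUnitsComap
theorem galoisInv : GaloisInvStatement := H608.galoisInv
theorem unitsComplete : UnitsCompleteStatement := H585.unitsComplete
theorem higherUnitsFiniteIndex : HigherUnitsFiniteIndexStatement := H585.higherUnitsFiniteIndex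
theorem ramification : RamificationStatement := H724.ramification724
theorem normUnitsInt : NormUnitsIntStatement := H608.normUnitsInt
theorem unramCyclic : UnramCyclicStatement := H312.unramCyclic
theorem unramUnitsH1 : UnramUnitsH1Statement := H415.unramUnitsH1
theorem unramNormUnits : UnramNormUnitsStatement := Fermat.Agent.S55.L.H661.unramNormUnits
theorem unramUnitsH2 : UnramUnitsH2Statement :=
  H415.unramUnitsH2_of unramCyclic cycCocycleCoboundaryIff cycCocycleSurj unramNormUnits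
theorem unramNormRange : UnramNormRangeStatement :=
  H530.unramNormRange_of unramNormUnits normUnitsInt
theorem cyclicNormIndex : CyclicNormIndexStatement := H953.cyclicNormIndex
theorem cyclicH2Card : CyclicH2CardStatement := H953.cyclicH2Card

end Fermat.Agent.S55.Local.Closed

end
-- ===== PACK-END S55/Local/H715/Closed.lean

-- ===== PACK-BEGIN S55/E1/H295/BidualLoc.lean
section
/-
S55 engine E1, block LIM, leaf LIM-BIDUAL -- part 3: the local form.  helper295.  Complete proofs.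

For a level `L` with `μ_p ⊂ L.F`, a prime `q`, `D_q = L.Dec q ↪ Gal(F/ℚ)` (`L.decHom q`):
* `muToLoc L q hL : μ_p →+ F_qˣ` (`= emb ∘ muToUnits`; injective, onto the `p`-torsion of `F_qˣ`,
  equivariant for the local Galois group);
* `bidualHomLoc : Res_{D_q} M_F ⟶ Hom_ℤ(Res_{D_q} N_F, F_qˣ)`, an isomorphism (`bidualIsoLoc`);
* compatibility with the global form: `bidualHomU_emb`;
* naturality in the level (elementwise): `bidualHomLoc_tr`.
-/


set_option autoImplicit false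

open CategoryTheory

namespace Fermat.Agent.S55.E1.H295

open Fermat.Agent.S55.Tow Fermat.Agent.S55.E1.Lim ExtCitation
open Fermat.Agent.S55.Bridge (MuP muPRep muPLinearEquiv evalMuP)

noncomputable section

attribute [local instance 10000] Rep.hV2

variable {S : Finset Nat.Primes} {p : ℕ} [Fact p.Prime]

/-! ## `μ_p → F_qˣ` -/

/-- `θ_q : μ_p →+ F_qˣ`, the composite of `μ_p → Fˣ` and the embedding `Fˣ → F_qˣ`. -/
def muToLoc (L : Level S) (q : Nat.Primes) (hL : L.HasMu p) : MuP p →+ (L.locUnits q).V :=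
  (L.embFun q).toAddMonoidHom.comp (muToUnits L hL)

lemma muToLoc_apply (L : Level S) (q : Nat.Primes) (hL : L.HasMu p) (t : MuP p) :
    muToLoc L q hL t = L.embFun q (muToUnits L hL t) := rfl

lemma embQbar_injective (q : Nat.Primes) : Function.Injective (embQbar q) := by
  intro x y h
  apply Additive.toMul.injective
  apply Units.ext
  have h1 : ((Additive.toMul (embQbar q x) : (PadicAlgCl (q : ℕ))ˣ) : PadicAlgCl (q : ℕ)) =
      ((Additive.toMul (embQbar q y) : (PadicAlgCl (q : ℕ))ˣ) : PadicAlgCl (q : ℕ)) := by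
    rw [h]
  exact (padicEmbedding (q : ℕ)).toRingHom.injective h1

lemma embFun_injective (L : Level S) (q : Nat.Primes) : Function.Injective (L.embFun q) := by
  intro x y h
  apply L.unitsCoe_injective
  apply embQbar_injective q
  rw [← L.locCoe_embFun, ← L.locCoe_embFun, h]

lemma muToLoc_injective (L : Level S) (q : Nat.Primes) (hL : L.HasMu p) :
    Function.Injective (muToLoc L q hL) :=
  (embFun_injective L q).comp (muToUnits_injective L hL)

lemma embQbar_val (q : Nat.Primes) (a : unitsQbar.V) :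
    ((Additive.toMul (embQbar q a) : (PadicAlgCl (q : ℕ))ˣ) : PadicAlgCl (q : ℕ)) =
      padicEmbedding (q : ℕ) ((Additive.toMul a : Qbarˣ) : Qbar) := rfl

/-- The image of `θ_q` is the `p`-torsion of `F_qˣ`. -/
lemma exists_muToLoc_eq (L : Level S) (q : Nat.Primes) (hL : L.HasMu p) (x : (L.locUnits q).V)
    (hx : p • x = 0) : ∃ t : MuP p, muToLoc L q hL t = x := by
  obtain ⟨ζ, hζ, hprim⟩ := id hL
  have hp0 : NeZero p := ⟨(Fact.out : p.Prime).ne_zero⟩
  have hprim' : IsPrimitiveRoot (padicEmbedding (q : ℕ) ζ) p :=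
    hprim.map_of_injective (padicEmbedding (q : ℕ)).toRingHom.injective
  have h1 : (L.locVal q x) ^ p = 1 := congrArg (L.locVal q) hx
  have h2 : ((L.locVal q x : (PadicAlgCl (q : ℕ))ˣ) : PadicAlgCl (q : ℕ)) ^ p = 1 := by
    rw [← Units.val_pow_eq_pow_val, h1, Units.val_one]
  obtain ⟨i, -, hi⟩ := hprim'.eq_pow_of_pow_eq_one h2
  let u : Qbarˣ := (hprim.isUnit hp0.ne).unit
  have hu : (u : Qbar) = ζ := rfl
  have hup : u ^ p = 1 := by
    apply Units.ext
    rw [Units.val_pow_eq_pow_val, hu, hprim.pow_eq_one, Units.val_one]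
  have hmem : u ^ i ∈ rootsOfUnity p Qbar := by
    rw [mem_rootsOfUnity, ← pow_mul, mul_comm, pow_mul, hup, one_pow]
  refine ⟨MuP.of p ⟨u ^ i, hmem⟩, ?_⟩
  apply L.locCoe_injective q
  rw [muToLoc_apply, L.locCoe_embFun, unitsCoe_muToUnits]
  apply Additive.toMul.injective
  apply Units.ext
  change padicEmbedding (q : ℕ) ((u ^ i : Qbarˣ) : Qbar) =
    ((L.locVal q x : (PadicAlgCl (q : ℕ))ˣ) : PadicAlgCl (q : ℕ))
  rw [Units.val_pow_eq_pow_val, hu, map_pow, hi]

/-- `θ_q` is equivariant for the local Galois group. -/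
lemma muToLoc_equivariant (L : Level S) (q : Nat.Primes) (hL : L.HasMu p) (τ : GQp q)
    (t : MuP p) :
    (L.locUnits q).ρ (QuotientGroup.mk τ) (muToLoc L q hL t) =
      muToLoc L q hL (muPRep p (locQ q τ) t) := by
  rw [muToLoc_apply, muToLoc_apply, ← muToUnits_equivariant]
  exact (Rep.hom_comm_apply (L.emb q) (QuotientGroup.mk τ) (muToUnits L hL t)).symm

/-! ## The local isomorphism -/

section Local

variable (M : Rep.{0, 0, 0} (ZMod p) _root_.Fermat.Agent.S55.Tow.GQ) (L : Level S) (q : Nat.Primes) (hL : L.HasMu p)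
  (hM : ∀ s ∈ L.U, (zRep M).ρ s = 1)
  (hN : ∀ s ∈ L.U, (zRep (M.dualTwist (cycloChar p))).ρ s = 1)

lemma evalCompat_loc :
    EvalCompat (Rep.res (L.decHom q) (lev (zRep M) L hM))
      (Rep.res (L.decHom q) (lev (zRep (M.dualTwist (cycloChar p))) L hN)) (L.locUnits q) M
      (AddEquiv.refl _) (AddEquiv.refl _) (muToLoc L q hL) := by
  intro γ
  induction γ using QuotientGroup.induction_on with
  | H τ =>
    exact ⟨locQ q τ, fun a => rfl, fun b => rfl, fun t => muToLoc_equivariant L q hL τ t⟩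

/-- **LIM-BIDUAL, local form**: `Res_{D_q} M_F ⟶ Hom_ℤ(Res_{D_q} N_F, F_qˣ)`,
`m ↦ (f ↦ ⟨m, f⟩ ∈ μ_p ⊂ F_qˣ)`. -/
def bidualHomLoc :
    Rep.res (L.decHom q) (lev (zRep M) L hM) ⟶
      (Rep.ihom (Rep.res (L.decHom q) (lev (zRep (M.dualTwist (cycloChar p))) L hN))).obj
        (L.locUnits q) :=
  evalHom (evalCompat_loc M L q hL hM hN)

lemma bidualHomLoc_apply (m : M.V) (f : (M.dualTwist (cycloChar p)).V) :
    (show (Rep.res (L.decHom q) (lev (zRep (M.dualTwist (cycloChar p))) L hN)).V →ₗ[ℤ]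
        (L.locUnits q).V from (bidualHomLoc M L q hL hM hN).hom m) f =
      muToLoc L q hL (evalMuP M m f) := rfl

/-- Compatibility of the local and the global form: `emb_* ∘ Res(bidualHomU) = bidualHomLoc`. -/
theorem bidualHomU_emb :
    (Rep.resFunctor (L.decHom q)).map (bidualHomU M L hL hM hN) ≫
        trIhom (L.decHom q)
          (𝟙 (Rep.res (L.decHom q) (lev (zRep (M.dualTwist (cycloChar p))) L hN))) (L.emb q) =
      bidualHomLoc M L q hL hM hN := by
  apply Rep.hom_ext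
  apply DFunLike.ext
  intro m
  rfl

variable [FiniteDimensional (ZMod p) M]

theorem bidualHomLoc_bijective : Function.Bijective (bidualHomLoc M L q hL hM hN).hom :=
  evalHom_bijective _ (muToLoc_injective L q hL) (exists_muToLoc_eq L q hL)

instance bidualHomLoc_isIso : IsIso (bidualHomLoc M L q hL hM hN) :=
  evalHom_isIso _ (muToLoc_injective L q hL) (exists_muToLoc_eq L q hL)

/-- **LIM-BIDUAL, local form**: `Res_{D_q} M_F ≅ Hom_ℤ(Res_{D_q} N_F, F_qˣ)`. -/
def bidualIsoLoc :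
    Rep.res (L.decHom q) (lev (zRep M) L hM) ≅
      (Rep.ihom (Rep.res (L.decHom q) (lev (zRep (M.dualTwist (cycloChar p))) L hN))).obj
        (L.locUnits q) :=
  asIso (bidualHomLoc M L q hL hM hN)

end Local

/-! ## Naturality of the local form in the level -/

section LocalNaturality

variable (M : Rep.{0, 0, 0} (ZMod p) _root_.Fermat.Agent.S55.Tow.GQ) {L L' : Level S} (h : L ≤ L') (q : Nat.Primes)
  (hL : L.HasMu p) (hM : ∀ s ∈ L.U, (zRep M).ρ s = 1)
  (hN : ∀ s ∈ L.U, (zRep (M.dualTwist (cycloChar p))).ρ s = 1)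

lemma trLoc_muToLoc (t : MuP p) :
    (Level.trLoc h q).hom (muToLoc L q hL t) = muToLoc L' q (hL.mono h) t := rfl

/-- The identity of `M` as a morphism `Res_{proj}(Res_{D_q} M_F) ⟶ Res_{D'_q} M_{F'}`. -/
def locLevelHom (A : Rep.{0} ℤ _root_.Fermat.Agent.S55.Tow.GQ) (hA : ∀ s ∈ L.U, A.ρ s = 1) :
    Rep.res (Level.projDec h q) (Rep.res (L.decHom q) (lev A L hA)) ⟶
      Rep.res (L'.decHom q) (lev A L' (triv_of_le A h hA)) :=
  Rep.ofHom ⟨LinearMap.id, fun g => QuotientGroup.induction_on g fun _ => rfl⟩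

/-- The identity of `N` as a morphism `Res_{D'_q} N_{F'} ⟶ Res_{proj}(Res_{D_q} N_F)`. -/
def locLevν (A : Rep.{0} ℤ _root_.Fermat.Agent.S55.Tow.GQ) (hA : ∀ s ∈ L.U, A.ρ s = 1) :
    Rep.res (L'.decHom q) (lev A L' (triv_of_le A h hA)) ⟶
      Rep.res (Level.projDec h q) (Rep.res (L.decHom q) (lev A L hA)) :=
  Rep.ofHom ⟨LinearMap.id, fun g => QuotientGroup.induction_on g fun _ => rfl⟩

@[simp] lemma locLevelHom_apply (A : Rep.{0} ℤ _root_.Fermat.Agent.S55.Tow.GQ) (hA : ∀ s ∈ L.U, A.ρ s = 1) (a : A.V) :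
    (locLevelHom h q A hA).hom a = a := rfl

@[simp] lemma locLevν_apply (A : Rep.{0} ℤ _root_.Fermat.Agent.S55.Tow.GQ) (hA : ∀ s ∈ L.U, A.ρ s = 1) (a : A.V) :
    (locLevν h q A hA).hom a = a := rfl

/-- Naturality of `bidualHomLoc` in the level. -/
theorem bidualHomLoc_tr :
    (Rep.resFunctor (Level.projDec h q)).map (bidualHomLoc M L q hL hM hN) ≫
        trIhom (Level.projDec h q) (locLevν h q (zRep (M.dualTwist (cycloChar p))) hN)
          (Level.trLoc h q) =
      locLevelHom h q (zRep M) hM ≫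
        bidualHomLoc M L' q (hL.mono h) (triv_of_le _ h hM) (triv_of_le _ h hN) := by
  apply Rep.hom_ext
  apply DFunLike.ext
  intro m
  rfl

end LocalNaturality

end

end Fermat.Agent.S55.E1.H295

end
-- ===== PACK-END S55/E1/H295/BidualLoc.lean

-- ===== PACK-BEGIN S55/GAD/CapH57.lean
section




/-!
# S55 / G-ADAPTER, leaf GAD-CAP (helper57): capitulation (`gd5`)

`capitulation (hp : p.Prime) (hpS : ⟨p, hp⟩ ∈ S) : GAD.CapitulationSpec S p`.

If `p ^ a • d = div x` (divisor outside `S`) for some `x ∈ Fˣ`, pick `β ∈ ℚ̄` with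
`β ^ (p ^ a) = x`.  At a place `A` of `ℚ̄` over `ℓ ∉ S` with prime `w = A ∩ 𝓞_F`, the element
`t = ϖ ^ (d w)` (`ϖ ∈ F` a uniformiser at `w`) satisfies `v_A(β) = v_A(t)`, so `β / t` is a unit at
`A` whose `p ^ a`-th power lies in `F`; inertia at `A` fixes `F` and hence `β / t` (Kummer), so
`F(β)` is unramified outside `S`.  Its Galois closure is a level `F' ∋ β`, and
`p ^ a • div β = div x = p ^ a • divTr d` in the torsion-free group `Div^S(F')`.
-/

set_option autoImplicit false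
set_option linter.unusedSectionVars false
set_option linter.style.haveILetI false

namespace Fermat.Agent.S55.GAD.H57

open Fermat.Agent.S55 Fermat.Agent.S55.Tow Fermat.Agent.S55.E1.H594 Fermat.Agent.S55.G
open Fermat.Agent.S55.Bridge ExtCitation IntermediateField NumberField IsDedekindDomain

attribute [local instance] isAlgebraic_Qbar isGalois_Qbar

/-- **Kummer, non-unit form.**  `F(β)` is unramified outside `S ∋ p` if `β ^ n ∈ F`, `n` is a unit
at all places outside `S`, and at every place outside `S` the valuation of `β` is attained by a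
nonzero element of `F`. -/
theorem isUnramifiedOutside_sup_adjoin_root_of_val (S : Finset Nat.Primes) {n : ℕ} (hn0 : n ≠ 0)
    (hn : ∀ q : Nat.Primes, q ∉ S → ∀ A : ValuationSubring (AlgebraicClosure ℚ),
      A.LiesOverPrime (q : ℕ) → A.valuation (n : AlgebraicClosure ℚ) = 1)
    {F : IntermediateField ℚ (AlgebraicClosure ℚ)} (hF : F.IsUnramifiedOutside S)
    {β : AlgebraicClosure ℚ} (hβ : β ^ n ∈ F)
    (hval : ∀ q : Nat.Primes, q ∉ S → ∀ A : ValuationSubring (AlgebraicClosure ℚ),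
      A.LiesOverPrime (q : ℕ) →
        ∃ t : AlgebraicClosure ℚ, t ∈ F ∧ t ≠ 0 ∧ A.valuation β = A.valuation t) :
    (F ⊔ ℚ⟮β⟯).IsUnramifiedOutside S := by
  haveI := hF.1
  haveI : FiniteDimensional ℚ ℚ⟮β⟯ :=
    IntermediateField.adjoin.finiteDimensional (Algebra.IsIntegral.isIntegral β)
  refine ⟨IntermediateField.finiteDimensional_sup F ℚ⟮β⟯, fun q hq A hA σ hσ => ?_⟩
  have hσF : σ ∈ F.fixingSubgroup := hF.2 q hq A hA hσ
  rw [IntermediateField.fixingSubgroup_sup]
  refine ⟨hσF, ?_⟩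
  show σ ∈ ℚ⟮β⟯.fixingSubgroup
  obtain ⟨t, htF, ht0, hvt⟩ := hval q hq A hA
  have hσt : σ t = t := (IntermediateField.mem_fixingSubgroup_iff F σ).1 hσF t htF
  have hvt0 : A.valuation t ≠ 0 := (Valuation.ne_zero_iff _).2 ht0
  have hγv : A.valuation (β / t) = 1 := by
    rw [map_div₀, hvt, div_self hvt0]
  have hγF : (β / t) ^ n ∈ F := by
    rw [div_pow]
    exact F.div_mem hβ (pow_mem htF n)
  have hσγ : σ (β / t) = β / t :=
    kummer_unit_fixed_of_mem_inertia hn0 (hn q hq A hA) hσ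
      ((IntermediateField.mem_fixingSubgroup_iff F σ).1 hσF _ hγF) hγv
  have hσβ : σ β = β := by
    have h1 : β = β / t * t := by field_simp
    rw [h1, map_mul, hσγ, hσt]
  rw [IntermediateField.mem_fixingSubgroup_iff]
  intro x hx
  have hle : ℚ⟮β⟯ ≤ IntermediateField.fixedField (Subgroup.zpowers σ) := by
    rw [IntermediateField.adjoin_simple_le_iff]
    rintro ⟨τ, hτ⟩
    obtain ⟨k, rfl⟩ := Subgroup.mem_zpowers_iff.1 hτ
    show (σ ^ k) • β = β
    have hstab : σ ∈ MulAction.stabilizer (AlgebraicClosure ℚ ≃ₐ[ℚ] AlgebraicClosure ℚ) β :=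
      MulAction.mem_stabilizer_iff.2 hσβ
    exact MulAction.mem_stabilizer_iff.1 (Subgroup.zpow_mem _ hstab k)
  exact hle hx ⟨σ, Subgroup.mem_zpowers σ⟩


variable {S : Finset Nat.Primes}

/-- A place of `ℚ̄` over `ℓ ∉ S` induces a prime of `F` not above `S`. -/
theorem not_isAbove_placePrime (L : Level S) (q : Nat.Primes) (hq : q ∉ S)
    (A : ValuationSubring (AlgebraicClosure ℚ)) (hA : A.LiesOverPrime (q : ℕ)) :
    ¬ G.IsAbove S L.F (placePrime L.F A q.2 hA) := by
  rintro ⟨q', hq'S, hq'⟩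
  have hq'' : ((q' : ℕ) : AlgebraicClosure ℚ) ∈ A.nonunits := by
    have := (Bridge.H594.mem_primeBelowF L.F A _).1 hq'
    rwa [map_natCast] at this
  have hne : (q : ℕ) ≠ q' := by
    intro heq
    apply hq
    have : q = q' := Subtype.ext heq
    rw [this]
    exact hq'S
  have hv := val_prime_eq_one (A := A) hA q.2 q'.2 hne
  rw [ValuationSubring.mem_nonunits_iff, hv] at hq''
  exact lt_irrefl _ hq''

/-- If `div u = n • d` outside `S` and `β ^ n = u`, then at every place `A` of `ℚ̄` outside `S` the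
valuation of `β` is attained by a nonzero element of `F`. -/
theorem exists_valuation_eq (L : Level S) (u : Additive (L.F)ˣ) (d : PrimeOut S L.F →₀ ℤ)
    (n : ℕ) (hn : n ≠ 0) (hord : ∀ w : PrimeOut S L.F, ordAt w.1 u = (n : ℤ) * d w)
    (β : AlgebraicClosure ℚ) (hβ : β ^ n = (((u.toMul : (L.F)ˣ) : L.F) : AlgebraicClosure ℚ))
    (q : Nat.Primes) (hq : q ∉ S) (A : ValuationSubring (AlgebraicClosure ℚ))
    (hA : A.LiesOverPrime (q : ℕ)) :
    ∃ t : AlgebraicClosure ℚ, t ∈ L.F ∧ t ≠ 0 ∧ A.valuation β = A.valuation t := by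
  set w : HeightOneSpectrum (𝓞 L.F) := placePrime L.F A q.2 hA with hw
  have hout : ¬ G.IsAbove S L.F w := not_isAbove_placePrime L q hq A hA
  obtain ⟨ϖ, hϖ⟩ := w.valuation_exists_uniformizer L.F
  have hϖ0 : ϖ ≠ 0 := by
    rintro rfl
    rw [map_zero] at hϖ
    exact WithZero.exp_ne_zero hϖ.symm
  -- the element `t = ϖ ^ d(w)` of `F`
  let m : ℤ := d ⟨w, hout⟩
  let tu : (L.F)ˣ := (Units.mk0 ϖ hϖ0) ^ m
  have htu : w.valuation L.F (tu : L.F) = WithZero.exp (-m) := by
    show w.valuation L.F (((Units.mk0 ϖ hϖ0) ^ m : (L.F)ˣ) : L.F) = _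
    rw [Units.val_zpow_eq_zpow_val, Units.val_mk0, map_zpow₀, hϖ, ← WithZero.exp_zsmul]
    congr 1
    simp
  -- the unit `u / t ^ n` of `F` has valuation one at `w`
  let e : (L.F)ˣ := u.toMul / tu ^ n
  have he : w.valuation L.F (e : L.F) = 1 := by
    show w.valuation L.F ((u.toMul / tu ^ n : (L.F)ˣ) : L.F) = 1
    rw [Units.val_div_eq_div_val, Units.val_pow_eq_pow_val, map_div₀, map_pow, htu,
      G.valuation_eq_exp_neg_ordAt w u, hord ⟨w, hout⟩, ← WithZero.exp_nsmul, div_eq_one_iff_eq]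
    · congr 1
      simp only [nsmul_eq_mul, m]
      ring
    · exact WithZero.exp_ne_zero
  have heA := (unit_iff_valuation_eq_one L.F A q.2 hA e).2 he
  -- hence `β / t` is a unit at `A`
  have hEq : (((e : (L.F)ˣ) : L.F) : AlgebraicClosure ℚ) = (β / ((tu : L.F) : AlgebraicClosure ℚ)) ^ n := by
    rw [div_pow, hβ]
    show (((u.toMul / tu ^ n : (L.F)ˣ) : L.F) : AlgebraicClosure ℚ) = _
    rw [Units.val_div_eq_div_val, Units.val_pow_eq_pow_val]
    push_cast
    rfl
  have hvE : A.valuation (((e : (L.F)ˣ) : L.F) : AlgebraicClosure ℚ) = 1 := by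
    have h1 : A.valuation (((e : (L.F)ˣ) : L.F) : AlgebraicClosure ℚ) ≤ 1 :=
      (A.valuation_le_one_iff _).2 heA.1
    have h2 : A.valuation ((((e⁻¹ : (L.F)ˣ) : L.F) : AlgebraicClosure ℚ)) ≤ 1 :=
      (A.valuation_le_one_iff _).2 heA.2
    have h3 : A.valuation (((e : (L.F)ˣ) : L.F) : AlgebraicClosure ℚ)
        * A.valuation ((((e⁻¹ : (L.F)ˣ) : L.F) : AlgebraicClosure ℚ)) = 1 := by
      rw [← map_mul, ← IntermediateField.coe_mul, ← Units.val_mul, mul_inv_cancel, Units.val_one,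
        IntermediateField.coe_one, map_one]
    refine le_antisymm h1 ?_
    calc (1 : A.ValueGroup)
        = A.valuation (((e : (L.F)ˣ) : L.F) : AlgebraicClosure ℚ)
          * A.valuation ((((e⁻¹ : (L.F)ˣ) : L.F) : AlgebraicClosure ℚ)) := h3.symm
      _ ≤ A.valuation (((e : (L.F)ˣ) : L.F) : AlgebraicClosure ℚ) * 1 := by gcongr
      _ = A.valuation (((e : (L.F)ˣ) : L.F) : AlgebraicClosure ℚ) := mul_one _
  have hγ : A.valuation (β / ((tu : L.F) : AlgebraicClosure ℚ)) = 1 := by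
    rw [hEq, map_pow] at hvE
    exact (pow_eq_one_iff.1 hvE).resolve_right hn
  have ht0 : ((tu : L.F) : AlgebraicClosure ℚ) ≠ 0 := by
    intro h
    exact tu.ne_zero (Subtype.ext h)
  refine ⟨((tu : L.F) : AlgebraicClosure ℚ), (tu : L.F).2, ht0, ?_⟩
  have hvt0 : A.valuation ((tu : L.F) : AlgebraicClosure ℚ) ≠ 0 := (Valuation.ne_zero_iff _).2 ht0
  rw [map_div₀, div_eq_one_iff_eq hvt0] at hγ
  exact hγ


/-- **GAD-CAP (capitulation) = gd5 for the concrete datum.** -/
theorem capitulation (S : Finset Nat.Primes) (p : ℕ) (hp : p.Prime)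
    (hpS : (⟨p, hp⟩ : Nat.Primes) ∈ S) : CapitulationSpec S p := by
  intro L d a x hx
  have hn0 : p ^ a ≠ 0 := pow_ne_zero a hp.ne_zero
  -- the divisor of `x`
  have hord : ∀ w : PrimeOut S L.F, ordAt w.1 (toField L x) = ((p ^ a : ℕ) : ℤ) * d w := by
    intro w
    have h1 := DFunLike.congr_fun hx w
    have h2 : divT L x w = ordAt w.1 (toField L x) := rfl
    rw [h2] at h1
    rw [h1, Finsupp.smul_apply]
    simp
  -- a `p ^ a`-th root of `x`
  obtain ⟨β, hβ⟩ := IsAlgClosed.exists_pow_nat_eq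
    ((((toField L x).toMul : (L.F)ˣ) : L.F) : AlgebraicClosure ℚ) (Nat.pos_of_ne_zero hn0)
  have hβ0 : β ≠ 0 := by
    rintro rfl
    rw [zero_pow hn0] at hβ
    have h0 : (((toField L x).toMul : (L.F)ˣ) : L.F) = 0 := Subtype.ext hβ.symm
    exact ((toField L x).toMul : (L.F)ˣ).ne_zero h0
  -- the Kummer level
  have hnv : ∀ q : Nat.Primes, q ∉ S → ∀ A : ValuationSubring (AlgebraicClosure ℚ),
      A.LiesOverPrime (q : ℕ) → A.valuation ((p ^ a : ℕ) : AlgebraicClosure ℚ) = 1 := by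
    intro q hq A hA
    have hqp : (q : ℕ) ≠ p := by
      intro h
      apply hq
      have : q = ⟨p, hp⟩ := Subtype.ext h
      rw [this]
      exact hpS
    rw [Nat.cast_pow, map_pow, val_prime_eq_one (A := A) hA q.2 hp hqp, one_pow]
  have hK : (L.F ⊔ ℚ⟮β⟯).IsUnramifiedOutside S :=
    isUnramifiedOutside_sup_adjoin_root_of_val S hn0 hnv L.unram
      (by rw [hβ]; exact (((toField L x).toMul : (L.F)ˣ) : L.F).2)
      (fun q hq A hA => exists_valuation_eq L (toField L x) d (p ^ a) hn0 hord β hβ q hq A hA)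
  obtain ⟨F', hF', hgal, hle⟩ := exists_galois_level_ge S _ hK
  let L' : Tow.Level S := ⟨F', hF', (InfiniteGalois.normal_iff_isGalois _).2 hgal⟩
  have h : L ≤ L' := le_sup_left.trans hle
  have hβF' : β ∈ F' :=
    hle (le_sup_right (a := L.F) (IntermediateField.mem_adjoin_simple_self ℚ β))
  have hfix : ∀ g ∈ L'.U, Tow.unitsQbar.ρ g (Additive.ofMul (Units.mk0 β hβ0))
      = Additive.ofMul (Units.mk0 β hβ0) := by
    intro g hg
    apply Additive.toMul.injective
    apply Units.ext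
    exact (IntermediateField.mem_fixingSubgroup_iff _ _).1 hg β hβF'
  let z : L'.units.V := L'.unitsMk (Additive.ofMul (Units.mk0 β hβ0)) hfix
  -- `p ^ a • z = x` in `F'ˣ`
  have hz : (p ^ a) • z = (Level.trUnits h).hom x := by
    apply L'.unitsCoe_injective
    show (p ^ a) • (Additive.ofMul (Units.mk0 β hβ0) : Additive (AlgebraicClosure ℚ)ˣ)
      = L.unitsCoe x
    apply Additive.toMul.injective
    apply Units.ext
    show ((Units.mk0 β hβ0) ^ (p ^ a) : (AlgebraicClosure ℚ)ˣ).1 = levelInvVal L x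
    rw [Units.val_pow_eq_pow_val, Units.val_mk0, hβ, coe_toField]
  refine ⟨L', h, z, ?_⟩
  have h1 : (p ^ a) • divT L' z = (p ^ a) • divTr h d := by
    rw [← map_nsmul, hz, ← divTr_divT, hx, map_nsmul]
  ext w
  have h2 := DFunLike.congr_fun h1 w
  rw [Finsupp.smul_apply, Finsupp.smul_apply, nsmul_eq_mul, nsmul_eq_mul] at h2
  exact mul_left_cancel₀ (Nat.cast_ne_zero.2 hn0) h2

end Fermat.Agent.S55.GAD.H57

end
-- ===== PACK-END S55/GAD/CapH57.lean

-- ===== PACK-BEGIN S55/GAD/DivTransH655.lean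
section


/-!
# S55 / G-ADAPTER leaf GAD-7b (helper655): transitivity of the extension of divisors

For a tower of number fields `K → L → M` the extension of divisors `divExt` (with ramification
indices, `GAD/DivExt.lean`) is transitive: `e(w|v) = e(w|u) e(u|v)`, proved with a uniformiser
at `v` and `ordAt_lMap` (no Mathlib tower lemma for `ramificationIdx'` is needed).
Consequence: `divTrTrans : GAD.DivTrTransSpec S`.
-/

set_option autoImplicit false
set_option linter.unusedSectionVars false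

open scoped NumberField
open IsDedekindDomain

namespace Fermat.Agent.S55.GAD.H655

open Fermat.Agent.S55 Fermat.Agent.S55.Tow Fermat.Agent.S55.E1.H594 Fermat.Agent.S55.G

noncomputable section

section Tower

variable (S : Finset Nat.Primes) (K L M : Type) [Field K] [NumberField K] [Field L]
  [NumberField L] [Field M] [NumberField M] [Algebra K L] [Algebra L M] [Algebra K M]
  [IsScalarTower K L M]

lemma underPrime_underPrime (w : HeightOneSpectrum (𝓞 M)) :
    GAD.underPrime K L (GAD.underPrime L M w) = GAD.underPrime K M w := by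
  refine HeightOneSpectrum.ext (Ideal.ext fun x => ?_)
  rw [GAD.mem_underPrime_iff, GAD.mem_underPrime_iff, GAD.mem_underPrime_iff]
  have h : algebraMap (𝓞 L) (𝓞 M) (algebraMap (𝓞 K) (𝓞 L) x) = algebraMap (𝓞 K) (𝓞 M) x := by
    apply Subtype.ext
    exact (IsScalarTower.algebraMap_apply K L M (x : K)).symm
  rw [h]

lemma underOut_underOut (w : PrimeOut S M) :
    GAD.underOut S K L (GAD.underOut S L M w) = GAD.underOut S K M w :=
  Subtype.ext (underPrime_underPrime K L M w.1)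

lemma lMap_lMap (x : Additive Kˣ) : lMap L M (lMap K L x) = lMap K M x := by
  apply Additive.toMul.injective
  apply Units.ext
  exact (IsScalarTower.algebraMap_apply K L M ((x.toMul : Kˣ) : K)).symm

/-- **Multiplicativity of the ramification index in towers.** -/
theorem ramIdx_tower (w : HeightOneSpectrum (𝓞 M)) :
    GAD.ramIdx K M w = GAD.ramIdx L M w * GAD.ramIdx K L (GAD.underPrime L M w) := by
  obtain ⟨ϖ, hϖ⟩ := (GAD.underPrime K M w).valuation_exists_uniformizer K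
  have hϖ0 : ϖ ≠ 0 := by
    rintro rfl
    rw [map_zero] at hϖ
    exact WithZero.exp_ne_zero hϖ.symm
  let x : Additive Kˣ := Additive.ofMul (Units.mk0 ϖ hϖ0)
  have hx : ordAt (GAD.underPrime K M w) x = 1 := by
    rw [ordAt_apply]
    change -WithZero.log ((GAD.underPrime K M w).valuation K ϖ) = 1
    rw [hϖ]
    simp
  have h1 := GAD.ordAt_lMap K M w x
  have h2 := GAD.ordAt_lMap L M w (lMap K L x)
  have h3 := GAD.ordAt_lMap K L (GAD.underPrime L M w) x
  rw [lMap_lMap, h3, underPrime_underPrime, hx, mul_one] at h2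
  rw [hx, mul_one] at h1
  have h4 : (GAD.ramIdx K M w : ℤ) =
      (GAD.ramIdx L M w : ℤ) * (GAD.ramIdx K L (GAD.underPrime L M w) : ℤ) := h1.symm.trans h2
  exact_mod_cast h4

/-- **Transitivity of the extension of divisors.** -/
theorem divExt_divExt (d : PrimeOut S K →₀ ℤ) :
    GAD.divExt S L M (GAD.divExt S K L d) = GAD.divExt S K M d := by
  ext w
  rw [GAD.divExt_apply, GAD.divExt_apply, GAD.divExt_apply, underOut_underOut, ramIdx_tower K L M]
  have : GAD.ramIdx K L (GAD.underOut S L M w).1 = GAD.ramIdx K L (GAD.underPrime L M w.1) := rfl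
  rw [this]
  push_cast
  ring

end Tower

variable {S : Finset Nat.Primes}

/-- **GAD-7b** (`GAD/Spec.lean`): exact shape of `DivTrTransSpec S`. -/
theorem divTrTrans (S : Finset Nat.Primes) : GAD.DivTrTransSpec S := by
  intro L L' L'' h h' d
  letI : Algebra L.F L'.F := GAD.levelAlgebra h
  letI : Algebra L'.F L''.F := GAD.levelAlgebra h'
  letI : Algebra L.F L''.F := GAD.levelAlgebra (h.trans h')
  haveI : IsScalarTower L.F L'.F L''.F := IsScalarTower.of_algebraMap_eq fun _ => rfl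
  exact divExt_divExt S L.F L'.F L''.F d

end

end Fermat.Agent.S55.GAD.H655

end
-- ===== PACK-END S55/GAD/DivTransH655.lean

-- ===== PACK-BEGIN S56/Euler/Big/Spec.lean
section





/-!
# Row S56 / wall BASE — BASE-BIG: FROZEN statements (sub-architect helper366)

Target (frozen by helper716, `H716/GWSpec2.lean`): `H716.BaseBigStatement`.

    BASE-BIG  ⇐  E-BIG + H2F + BRIDGE-BASE          (glue: `Euler/Big/Glue.lean`, PROVED)
    E-BIG     ⇐  AVL (done, helper314) + ADD (done, helper419) + BASE-C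

Vocabulary: S55 route C′ (`Fermat/Agent/S55/PT`): `L = globalLevels S` on `G_ℚ`, level-constant
cohomology `L.H1`, `L.H2`, `H0`; `tdual p N = N′`; `charHom χ N = Hom_G(N, μ_p) = H⁰(N′)`;
`Sha1`; `H419.phi L c N = h⁰ − h¹ + h² + dim N^{c=−1}`.

* `EulerBigSpec p` (E-BIG, Tate's global Euler characteristic for one big set): for every level
  `U` of `S₀ ∋ p` there is a finite `S ⊇ S₀` such that `φ_S(N) = 0` for EVERY finite-dimensional
  `N` on which `U` acts trivially.
* `BaseCSpec p` (BASE-C, the cyclic case): the same for the modules `Ind_V N`, `V ⊇ U`, `V/U`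
  cyclic of order prime to `p` (`V = C.comap (mk' U)`), `U` normal and trivial on `μ_p`.
* `H2FormulaSpec p S` (H2F): `h²(N) + h⁰(N′) = dim Ш¹(N′) + ∑_{v ∈ S} h⁰(G_v, N′)`
  (tail of Poitou–Tate = S55 by-products `TheoremDSpec`, `TopGlobSpec`, `TopLocSpec`).
* `BridgeBaseSpec` (BRIDGE-BASE): the dictionary between the plain-function language of
  `H716.Base` and the PT vocabulary for `N = ad⁰ρ̄(1)` as an `F_p`-representation
  (`d = [k : F_p]`): INV0, ODD, B1–B4 of `coord/S56-TB.md`.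

Nothing unproved in this file.  Plan: `coord/S56-EULER-helper366.md` (v2) on `origin/main`.
-/

set_option autoImplicit false

open Polynomial IsLocalRing

noncomputable section

namespace Fermat.Agent.S56.Euler

open Fermat.Agent.S56 Fermat.Agent.S55.PT ExtCitation Module

/-! ## PT vocabulary -/

section PTSide

variable (p : ℕ) [Fact p.Prime]

/-- (E-BIG) **Tate's global Euler characteristic formula, for one big set of primes.**
For every level `U` of `S₀ ∋ p` there is a finite set `S ⊇ S₀` such that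
`h⁰(N) − h¹_S(N) + h²_S(N) + dim N^{c=−1} = 0` for every finite-dimensional `F_p[G_ℚ]`-module `N`
on which `U` acts trivially (`c` = complex conjugation, `p` odd). -/
def EulerBigSpec : Prop :=
  p ≠ 2 → ∀ S₀ : Finset Nat.Primes, pPrime p ∈ S₀ → ∀ U ∈ (globalLevels S₀).levels,
    ∃ S : Finset Nat.Primes, S₀ ⊆ S ∧
      ∀ N : Rep.{0, 0, 0} (ZMod p) _root_.Fermat.Agent.S56.GQ, FiniteDimensional (ZMod p) N → (∀ u ∈ U, N.ρ u = 1) →
        H419.phi (globalLevels S) complexConjugation N = 0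

/-- (BASE-C) **The cyclic case of Tate's formula, for one big set of primes.**
`U` a normal level of `S₀ ∋ p` acting trivially on `μ_p`.  There is a finite set `S ⊇ S₀`
such that for every cyclic subgroup `C` of `G_ℚ/U` of order prime to `p`, with preimage `V` in
`G_ℚ`, and every finite-dimensional `N` on which `U` acts trivially:
`φ_S(Ind_V N) = 0`, where `Ind_V N = (G_ℚ ⧸ V →₀ N)` with the diagonal action. -/
def BaseCSpec : Prop :=
  p ≠ 2 → ∀ S₀ : Finset Nat.Primes, pPrime p ∈ S₀ →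
    ∀ (U : Subgroup _root_.Fermat.Agent.S56.GQ) [U.Normal], U ∈ (globalLevels S₀).levels →
      (∀ u ∈ U, cycloChar p u = 1) →
      ∃ S : Finset Nat.Primes, S₀ ⊆ S ∧
        ∀ C : Subgroup (_root_.Fermat.Agent.S56.GQ ⧸ U), IsCyclic C → ¬ p ∣ Nat.card C →
          ∀ N : Rep.{0, 0, 0} (ZMod p) _root_.Fermat.Agent.S56.GQ, FiniteDimensional (ZMod p) N →
            (∀ u ∈ U, N.ρ u = 1) →
            H419.phi (globalLevels S) complexConjugation
              (indRep (C.comap (QuotientGroup.mk' U)) N) = 0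

variable (S : Finset Nat.Primes)

/-- (H2F) **The `H²` formula** (tail of the Poitou–Tate sequence):
`h²_S(N) + h⁰(G_ℚ, N′) = dim Ш¹_S(N′) + ∑_{v ∈ S} h⁰(G_v, N′)`, with `H⁰(N′)` in the form
`charHom χ N = Hom_G(N, μ_p)`. -/
def H2FormulaSpec : Prop :=
  p ≠ 2 → pPrime p ∈ S →
    ∀ N : Rep.{0, 0, 0} (ZMod p) _root_.Fermat.Agent.S56.GQ, FiniteDimensional (ZMod p) N →
      (globalLevels S).IsUSmooth N →
      FiniteDimensional (ZMod p) ((globalLevels S).H2 N) ∧
      finrank (ZMod p) ((globalLevels S).H2 N) + finrank (ZMod p) ↥(charHom (cycloChar p) N) =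
        finrank (ZMod p) ↥(Sha1 (hrl S) (tdual p N)) +
          ∑ v : ↥S, finrank (ZMod p) ↥(charHom (cycloLoc p v.1) (Rep.res (rl v.1) N))

end PTSide

/-! ## The bridge to the plain-function language of `H716.Base` -/

/-- (BRIDGE-BASE) for one residual representation.  `N` is `ad⁰ρ̄(1)` as an `F_p`-representation
of `G_ℚ`, `d = [k : F_p]`, `S₀` is `Smin` as a set of primes, `U` a level of `S₀` acting trivially
on `N`, `Pl v` the place of `ℚ̄` over `v` given by the Prelude's local Galois group at `v`.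
For every finite `S' ⊇ S₀`:
* `h⁰(N) = 0 = h⁰(N′)` (INV0), `dim N^{c=−1} = d` (ODD);
* `h⁰(G_v, N′) = d · dim_k adInv ρ̄ D_{Pl v}` for `v ∈ S'` (B2, B3);
* there is a dual frame `D`, unramified outside `S'`, with `h¹_{S'}(N) ≤ d · dim_k D`
  (`D` = plain representatives of all classes: B1, B4);
* there is a finite-dimensional `X` representing all strict Selmer cocycles of `(S', ∅)` with
  `d · dim_k X ≤ dim Ш¹_{S'}(N′)` (B1–B4). -/
def BridgeBase (𝒪 : Type) [CommRing 𝒪] [IsDomain 𝒪] [IsDiscreteValuationRing 𝒪]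
    (p : ℕ) [Fact p.Prime] (ρbar : ResidualGaloisRep (ResidueField 𝒪)) (Smin : Finset ℕ) :
    Prop :=
  ∃ (S₀ : Finset Nat.Primes) (U : Subgroup _root_.Fermat.Agent.S56.GQ) (N : Rep.{0, 0, 0} (ZMod p) _root_.Fermat.Agent.S56.GQ)
    (Pl : ℕ → ValuationSubring Qb) (d : ℕ),
    pPrime p ∈ S₀ ∧ (∀ q ∈ Smin, ∃ h : q.Prime, (⟨q, h⟩ : Nat.Primes) ∈ S₀) ∧
    U ∈ (globalLevels S₀).levels ∧ FiniteDimensional (ZMod p) N ∧ (∀ u ∈ U, N.ρ u = 1) ∧
    (∀ v : ℕ, v.Prime → (Pl v).LiesOverPrime v) ∧ 0 < d ∧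
    finrank (ZMod p) ↥(LevelSys.H0 N) = 0 ∧
    finrank (ZMod p) ↥(charHom (cycloChar p) N) = 0 ∧
    finrank (ZMod p) ↥(H419.minusPart complexConjugation N) = d ∧
    ∀ S' : Finset Nat.Primes, S₀ ⊆ S' →
      (∀ v : ↥S', finrank (ZMod p) ↥(charHom (cycloLoc p v.1) (Rep.res (rl v.1) N)) =
        d * finrank (ResidueField 𝒪)
          ↥(H716.adInv ρbar ((Pl (v.1 : ℕ)).decompositionSubgroup ℚ))) ∧
      (∃ D : Submodule (ResidueField 𝒪) (_root_.Fermat.Agent.S56.GQ → Module.End (ResidueField 𝒪) ρbar.V),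
        IsDualFrame ρbar p D ∧
        (∀ y ∈ D, ∀ q : ℕ, q.Prime → q ∉ S'.image (fun v : Nat.Primes => (v : ℕ)) →
          H716.UnramAt ρbar y q) ∧
        finrank (ZMod p) ((globalLevels S').H1 N) ≤ d * finrank (ResidueField 𝒪) ↥D) ∧
      (∃ X : Submodule (ResidueField 𝒪) (_root_.Fermat.Agent.S56.GQ → Module.End (ResidueField 𝒪) ρbar.V),
        Module.Finite (ResidueField 𝒪) X ∧
        (∀ c, H716.IsSelCocycle ρbar Pl (fun _ => ⊥)
            (S'.image (fun v : Nat.Primes => (v : ℕ))) ∅ c →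
          ∃ t ∈ X, H716.IsAdCoboundary ρbar (c - t)) ∧
        d * finrank (ResidueField 𝒪) ↥X ≤ finrank (ZMod p) ↥(Sha1 (hrl S') (tdual p N)))

/-- (BRIDGE-BASE). -/
def BridgeBaseSpec : Prop :=
  ∀ (𝒪 : Type) [CommRing 𝒪] [IsDomain 𝒪] [IsDiscreteValuationRing 𝒪]
    [IsAdicComplete (maximalIdeal 𝒪) 𝒪] [Finite (ResidueField 𝒪)]
    (p : ℕ) [Fact p.Prime] (ρbar : ResidualGaloisRep (ResidueField 𝒪)) (S Smin : Finset ℕ),
    Hyp 𝒪 p ρbar S Smin → BridgeBase 𝒪 p ρbar Smin

end Fermat.Agent.S56.Euler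

end

end
-- ===== PACK-END S56/Euler/Big/Spec.lean

-- ===== PACK-BEGIN S55/KC/Spec.lean
section


/-!
# S55 / layer KC (cochain-level Kummer machine; local A6/A4 and library for layer K): INTERFACE          (architect: helper53)

Blueprint with proofs: `coord/S55-KC.md` (branch `origin/helper53`).  Spec pattern: every statement
is a `def … : Prop`; producers prove `theorem foo : FooSpec`, consumers take hypotheses.
The assembly `leaves ⇒ outputs` is `KC/Assembly.lean`.

## Outputs (consumed by layer D, `PT/Spec.lean`, and by layer K)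
`PT.FinLocSpec p S` (A2), `PT.Surj2LocSpec p S` (A4), `H2IndCardSpec`, `H2MuCardSpec`,
`TopLocIndOfSpec` (A6 for every family of bijective `inv_v`).

## Leaves
* block P (level-constant cochains, elementary):
  `FinLocOfFrattiniSpec`, `Surj2OfH3Spec`, `H3DevissageSpec`, `TopLocIndOfSpec`;
* block K (Kummer theory for a `p`-divisible module, level-constant cochains):
  `KummerH2Spec`, `KummerH3Spec`;
* block D (dictionary level-constant ↔ finite level, cochain form):
  `H1VanishOfAtSpec`, `H3VanishOfAtSpec`, `H2OfAtSpec`;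
* block Q (dictionary cochain form ↔ Mathlib's `groupCohomology` of `G ⧸ V`):
  `Q1Spec`, `Q2Spec`, `Q3Spec`, `QInfSpec`;
* block I (induced modules): `IndKummerSpec`, `IndWCFSpec`, `SelfWCFSpec`, `PUnboundedRelSpec`;
* block A (arithmetic of `ℚ̄_q`): `LocalLevelsSpec`, `LocalClassFormationSpec`,
  `LocalKummerEmbSpec`, `LocalPUnboundedSpec`, `LocalFrattiniSpec`, `LocalMuSpec`.
-/

set_option autoImplicit false

noncomputable section

namespace Fermat.Agent.S55.KC

open groupCohomology ExtCitation Fermat.Agent.S55.PT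

/-! ## Block P: level-constant cochains, elementary -/

/-- **KC-P1.**  Finiteness of the `p`-Frattini quotients ⇒ `H¹_lc(G, N)` is finite-dimensional.
(A level-constant 1-cocycle `c` restricted to a level `U` acting trivially on `N` is additive, so
it kills the level `V ≤ U` of `PFrattiniFinite`; hence `c` is `V`-constant.) -/
def FinLocOfFrattiniSpec : Prop :=
  ∀ (G : Type) [Group G] (L : LevelSys G) (p : ℕ) [Fact p.Prime],
    L.FiniteIndex → PFrattiniFinite L p →
    ∀ N : Rep.{0, 0, 0} (ZMod p) G, FiniteDimensional (ZMod p) N → L.IsUSmooth N →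
      FiniteDimensional (ZMod p) (L.H1 N)

/-- **KC-P2.**  `H³_lc(G, R) = 0` for all finite `R` ⇒ `H²_lc(G, −)` is right exact.
(Lift a cocycle `n` to the cochain `ñ = sec ∘ n`; `d ñ` is a 3-cocycle with values in
`R = ker φ`; write `d ñ = d r`; then `ñ − r` is a cocycle lifting `n`.) -/
def Surj2OfH3Spec : Prop :=
  ∀ (G : Type) [Group G] (L : LevelSys G) (p : ℕ) [Fact p.Prime],
    L.NormalCofinal →
    (∀ R : Rep.{0, 0, 0} (ZMod p) G, FiniteDimensional (ZMod p) R → L.IsUSmooth R →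
      H3Vanish L R) →
    ∀ (P N : Rep.{0, 0, 0} (ZMod p) G) (φ : P →ₗ[ZMod p] N) (hφ : IsEquivariant φ),
      FiniteDimensional (ZMod p) P → L.IsUSmooth P → L.IsUSmooth N →
      Function.Surjective φ → Function.Surjective (pushH2 φ hφ L)

/-- **KC-P3.**  Dévissage: `H³_lc(G, Ind_H μ) = 0` for all open `H` acting trivially on the
one-dimensional `μ` ⇒ `H³_lc(G, R) = 0` for all finite `R`.
(`H` := preimage of a Sylow `p`-subgroup of `G ⧸ U₁`; `R → Ind_H R → R` is multiplication by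
`[G : H]`; `Ind_H R` is filtered with graded pieces `≅ k[G ⧸ H] ≅ Ind_H μ`.) -/
def H3DevissageSpec : Prop :=
  ∀ (G : Type) [Group G] (L : LevelSys G) (p : ℕ) [Fact p.Prime] (μ : Rep.{0, 0, 0} (ZMod p) G),
    L.NormalCofinal → L.FiniteIndex → Module.finrank (ZMod p) μ = 1 → L.IsUSmooth μ →
    (∀ H : Subgroup G, IsOpenSub L H → (∀ s ∈ H, μ.ρ s = 1) → H3Vanish L (indRep H μ)) →
    ∀ R : Rep.{0, 0, 0} (ZMod p) G, FiniteDimensional (ZMod p) R → L.IsUSmooth R →
      H3Vanish L R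

/-- **KC-P4.**  A6 from right exactness and the cardinality of `H²(G_v, Ind_W μ)`, for ANY
family of bijective maps `inv_v`. -/
def TopLocIndOfSpec : Prop :=
  ∀ (p : ℕ) [Fact p.Prime] (S : Finset Nat.Primes) (inv : InvFamily p S),
    (∀ v : ↥S, Function.Bijective (inv v)) →
    (∀ v : ↥S, (localLevels v.1).FiniteIndex) →
    Surj2LocSpec p S →
    (∀ (v : ↥S) (W : Subgroup (Gl v.1)), W ∈ (localLevels v.1).levels → W.Normal →
      (∀ s ∈ W, (muLoc p v.1).ρ s = 1) →
      Nat.card ((localLevels v.1).H2 (indRep W (muLoc p v.1))) = p) →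
    TopLocIndSpec inv

/-! ## Block K: Kummer theory at the level of level-constant cochains -/

/-- **KC-K2.**  `H²_lc(G, M) ≅ H²_lc(G, B)[p]` (only the cardinality is recorded), if `B` is
smooth and `p`-divisible, `M ≅ B[p]` and `H¹_lc(G, B) = 0`. -/
def KummerH2Spec : Prop :=
  ∀ (G : Type) [Group G] (L : LevelSys G) (p : ℕ) [Fact p.Prime]
    (M : Rep.{0, 0, 0} (ZMod p) G) (B : Rep.{0, 0, 0} ℤ G) (ι : M →+ B),
    L.NormalCofinal → L.FiniteIndex → L.IsSmooth B → IsPDivisible p B → IsKummerEmb p M B ι →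
    H1Vanish L B →
    Nat.card (L.H2 M) = Nat.card {x : L.H2 B // p • x = 0}

/-- **KC-K3.**  `H³_lc(G, M) = 0` if `B` is smooth and `p`-divisible, `M ≅ B[p]`,
`H³_lc(G, B) = 0` and `H²_lc(G, B)` is `p`-divisible. -/
def KummerH3Spec : Prop :=
  ∀ (G : Type) [Group G] (L : LevelSys G) (p : ℕ) [Fact p.Prime]
    (M : Rep.{0, 0, 0} (ZMod p) G) (B : Rep.{0, 0, 0} ℤ G) (ι : M →+ B),
    L.NormalCofinal → L.FiniteIndex → L.IsSmooth B → IsPDivisible p B → IsKummerEmb p M B ι →
    H3Vanish L B → H2Divisible L p B →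
    H3Vanish L M

/-! ## Block D: dictionary level-constant ↔ finite level (cochain form) -/

/-- **KC-D1.**  `H¹(G ⧸ V, B^V) = 0` for all normal levels `V ≤ V₀` ⇒ `H¹_lc(G, B) = 0`. -/
def H1VanishOfAtSpec : Prop :=
  ∀ (G : Type) [Group G] (L : LevelSys G) (B : Rep.{0, 0, 0} ℤ G) (V₀ : Subgroup G),
    L.NormalCofinal → V₀ ∈ L.levels →
    (∀ V : Subgroup G, V ∈ L.levels → V.Normal → V ≤ V₀ → H1VanishAt V B) →
    H1Vanish L B

/-- **KC-D3.**  `H³(G ⧸ V, B^V) = 0` for all normal levels `V ≤ V₀` ⇒ `H³_lc(G, B) = 0`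
(`B` smooth, levels of finite index). -/
def H3VanishOfAtSpec : Prop :=
  ∀ (G : Type) [Group G] (L : LevelSys G) (B : Rep.{0, 0, 0} ℤ G) (V₀ : Subgroup G),
    L.NormalCofinal → L.FiniteIndex → L.IsSmooth B → V₀ ∈ L.levels →
    (∀ V : Subgroup G, V ∈ L.levels → V.Normal → V ≤ V₀ → H3VanishAt V B) →
    H3Vanish L B

/-- **KC-D2.**  If at every normal level `V ≤ V₀` the group `H²(G ⧸ V, B^V)` is cyclic of order
`n(V)`, inflation is injective, and the `p`-parts of the `n(V)` are unbounded, then `H²_lc(G, B)`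
is `p`-divisible and its `p`-torsion has exactly `p` elements. -/
def H2OfAtSpec : Prop :=
  ∀ (G : Type) [Group G] (L : LevelSys G) (p : ℕ) [Fact p.Prime] (B : Rep.{0, 0, 0} ℤ G)
    (V₀ : Subgroup G) (n : Subgroup G → ℕ),
    L.NormalCofinal → L.FiniteIndex → L.IsSmooth B → V₀ ∈ L.levels →
    (∀ V : Subgroup G, V ∈ L.levels → V.Normal → V ≤ V₀ →
      0 < n V ∧ Nonempty (H2At V B ≃+ ZMod (n V))) →
    (∀ V' V : Subgroup G, V' ∈ L.levels → V'.Normal → V ∈ L.levels → V.Normal → V' ≤ V →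
      V ≤ V₀ → ∀ f ∈ Z2At V B, IsCobAt₂ V' B f → IsCobAt₂ V B f) →
    PUnbounded L p V₀ n →
    H2Divisible L p B ∧ Nat.card {x : L.H2 B // p • x = 0} = p

/-! ## Block Q: dictionary cochain form ↔ Mathlib's `groupCohomology` of `G ⧸ V` -/

/-- **KC-Q1.** -/
def Q1Spec : Prop :=
  ∀ (G : Type) [Group G] (B : Rep.{0, 0, 0} ℤ G) (V : Subgroup G) [V.Normal],
    Subsingleton (H1 (B.quotientToInvariants V)) → H1VanishAt V B

/-- **KC-Q2.** -/
def Q2Spec : Prop :=
  ∀ (G : Type) [Group G] (B : Rep.{0, 0, 0} ℤ G) (V : Subgroup G) [V.Normal],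
    Nonempty (H2At V B ≃+ H2 (B.quotientToInvariants V))

/-- **KC-Q3.** -/
def Q3Spec : Prop :=
  ∀ (G : Type) [Group G] (B : Rep.{0, 0, 0} ℤ G) (V : Subgroup G) [V.Normal],
    Subsingleton (groupCohomology (B.quotientToInvariants V) 3) → H3VanishAt V B

/-- **KC-QInf.**  Injectivity of inflation `H²(G ⧸ V, B^V) → H²(G ⧸ V', B^{V'})` (cochain form)
from `H¹(V ⧸ V', B^{V'}) = 0`  (inflation–restriction in degree 2; cf. `T.InfRes2Spec`). -/
def QInfSpec : Prop :=
  ∀ (G : Type) [Group G] (B : Rep.{0, 0, 0} ℤ G) (V' : Subgroup G) [V'.Normal]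
    (V : Subgroup G) [V.Normal], V' ≤ V →
    Subsingleton (H1 (Rep.res (V.map (QuotientGroup.mk' V')).subtype
      (B.quotientToInvariants V'))) →
    ∀ f ∈ Z2At V B, IsCobAt₂ V' B f → IsCobAt₂ V B f

/-! ## Block I: induced modules -/

/-- **KC-I0.**  `Ind_H` preserves smoothness, `p`-divisibility and Kummer embeddings. -/
def IndKummerSpec : Prop :=
  ∀ (G : Type) [Group G] (L : LevelSys G) (p : ℕ) [Fact p.Prime]
    (M : Rep.{0, 0, 0} (ZMod p) G) (B : Rep.{0, 0, 0} ℤ G) (ι : M →+ B) (H : Subgroup G),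
    L.NormalCofinal → IsOpenSub L H → L.IsSmooth B → IsPDivisible p B → IsKummerEmb p M B ι →
    L.IsSmooth (indR H B) ∧ IsPDivisible p (indR H B) ∧
      IsKummerEmb p (indRep H M) (indR H B) (indEmb p H M B ι)

/-- **KC-I2.**  A class formation induces a weak class formation on `Ind_H A` with orders
`n(V) = [H : V]`  (finite Shapiro `T.ShapiroRecognitionSpec`, `T.ClassModuleOfCyclicSpec`,
`T.TateH3Spec`; `V ≤ H` normal in `G` acts trivially on `G ⧸ H`). -/
def IndWCFSpec : Prop :=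
  ∀ (G : Type) [Group G] (L : LevelSys G) (A : Rep.{0, 0, 0} ℤ G) (H V₀ : Subgroup G),
    L.FiniteIndex → IsClassFormation L A → V₀ ∈ L.levels → V₀ ≤ H →
    IsWCF L (indR H A) V₀ (fun V => V.relIndex H)

/-- **KC-I2'.**  A class formation is a weak class formation with orders `n(V) = [G : V]`. -/
def SelfWCFSpec : Prop :=
  ∀ (G : Type) [Group G] (L : LevelSys G) (A : Rep.{0, 0, 0} ℤ G) (V₀ : Subgroup G),
    L.FiniteIndex → IsClassFormation L A → V₀ ∈ L.levels →
    IsWCF L A V₀ (fun V => V.index)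

/-- **KC-I4'.**  Unboundedness of the `p`-part of `[G : V]` implies that of `[H : V]`,
`H` of finite index. -/
def PUnboundedRelSpec : Prop :=
  ∀ (G : Type) [Group G] (L : LevelSys G) (p : ℕ) [Fact p.Prime] (H V₀ : Subgroup G),
    L.FiniteIndex → V₀ ∈ L.levels → V₀ ≤ H →
    PUnbounded L p V₀ (fun V => V.index) → PUnbounded L p V₀ (fun V => V.relIndex H)

/-! ## Block A: arithmetic of `ℚ̄_q` -/

/-- **KC-A0.**  The local level systems: normal levels are cofinal, levels have finite index. -/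
def LocalLevelsSpec : Prop :=
  ∀ q : Nat.Primes, (localLevels q).NormalCofinal ∧ (localLevels q).FiniteIndex

/-- **KC-A1.**  `(G_{ℚ_q}, ℚ̄_qˣ)` is a class formation
(from `L.ClassModuleSpec`, `L.PadicExtInstSpec`, Krasner/B-layer: for a normal level `V` with
fixed field `E`, `(G ⧸ V, (ℚ̄_qˣ)^V) ≅ (Gal(E/ℚ_q), Eˣ)`). -/
def LocalClassFormationSpec : Prop :=
  ∀ q : Nat.Primes, IsClassFormation (localLevels q) (unitsA q)

/-- **KC-A2.**  `ℚ̄_qˣ` is smooth and `p`-divisible, and `μ_p` (with the action through the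
cyclotomic character, `PT.muLoc`) embeds onto its `p`-torsion. -/
def LocalKummerEmbSpec : Prop :=
  ∀ (p : ℕ) [Fact p.Prime] (q : Nat.Primes),
    (localLevels q).IsSmooth (unitsA q) ∧ IsPDivisible p (unitsA q) ∧
      ∃ ι : muLoc p q →+ unitsA q, IsKummerEmb p (muLoc p q) (unitsA q) ι

/-- **KC-A3.**  The `p`-part of `[G_{ℚ_q} : V]` is unbounded (e.g. `V = r⁻¹ G_{ℚ(ζ_{p^m})}`). -/
def LocalPUnboundedSpec : Prop :=
  ∀ (p : ℕ) [Fact p.Prime] (q : Nat.Primes) (V₀ : Subgroup (Gl q)),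
    V₀ ∈ (localLevels q).levels → PUnbounded (localLevels q) p V₀ (fun V => V.index)

/-- **KC-A4.**  Every open subgroup of `G_{ℚ_q}` has only finitely many open subgroups of
index `p`  (Kummer theory over `E(μ_p)` + finiteness of `Eˣ/(Eˣ)^p`). -/
def LocalFrattiniSpec : Prop :=
  ∀ (p : ℕ) [Fact p.Prime] (q : Nat.Primes), PFrattiniFinite (localLevels q) p

/-- **KC-A5.**  `μ = muLoc p q` is one-dimensional and uniformly smooth. -/
def LocalMuSpec : Prop :=
  ∀ (p : ℕ) [Fact p.Prime] (q : Nat.Primes),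
    Module.finrank (ZMod p) (muLoc p q) = 1 ∧ (localLevels q).IsUSmooth (muLoc p q)

/-! ## Outputs -/

/-- `|H²(G_q, Ind_W μ_p)| = p` for every open subgroup `W` acting trivially on `μ_p`. -/
def H2IndCardSpec : Prop :=
  ∀ (p : ℕ) [Fact p.Prime] (q : Nat.Primes) (W : Subgroup (Gl q)),
    IsOpenSub (localLevels q) W → (∀ s ∈ W, (muLoc p q).ρ s = 1) →
    Nat.card ((localLevels q).H2 (indRep W (muLoc p q))) = p

/-- `|H²(G_q, μ_p)| = p`. -/
def H2MuCardSpec : Prop :=
  ∀ (p : ℕ) [Fact p.Prime] (q : Nat.Primes), Nat.card ((localLevels q).H2 (muLoc p q)) = p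

/-- `H³_lc(G_q, R) = 0` for all finite `R` (`cd_p(G_{ℚ_q}) ≤ 2`). -/
def LocalH3VanishSpec : Prop :=
  ∀ (p : ℕ) [Fact p.Prime] (q : Nat.Primes) (R : Rep.{0, 0, 0} (ZMod p) (Gl q)),
    FiniteDimensional (ZMod p) R → (localLevels q).IsUSmooth R → H3Vanish (localLevels q) R

end Fermat.Agent.S55.KC

end

end
-- ===== PACK-END S55/KC/Spec.lean

-- ===== PACK-BEGIN S55/K/AR/LibH998.lean
section
/-
S55 / layer K / block AR : leaf AR-LIB — functoriality of `infSub` / `infUp`.      (helper998)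

* `map_comp_apply`, `map_id_apply` : pointwise functoriality of `groupCohomology.map`, for
  group homomorphisms and coefficient maps which compose only PROPOSITIONALLY.
* `resLE hle A n : Hⁿ(H₂, A) → Hⁿ(H₁, A)` for `H₁ ≤ H₂` (restriction); for `H₁ = H₂` it is the
  canonical isomorphism between the cohomology of equal (not defeq) subgroups.
* (i)   `coe_infSub`    : `coe ∘ infSub = infSub ∘ coe` for commuting squares of coefficients;
* (ii)  `infSub_infSub` : transitivity of inflation, through `resLE`.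
-/


set_option autoImplicit false

open CategoryTheory

namespace Fermat.Agent.S55.K.AR.H998

open Fermat.Agent.S55 Fermat.Agent.S55.Tow Fermat.Agent.S55.K.AR

noncomputable section

attribute [local instance 10000] Rep.hV2

section General

variable {Γ Γ' Γ'' : Type} [Group Γ] [Group Γ'] [Group Γ'']

/-- Pointwise extensionality for morphisms of representations. -/
lemma repHom_ext {A B : Rep.{0} ℤ Γ} {f g : A ⟶ B} (h : ∀ x : A.V, f.hom x = g.hom x) :
    f = g := by
  apply Rep.hom_ext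
  apply DFunLike.ext
  exact h

/-! ### Pointwise functoriality of `groupCohomology.map` -/

/-- `map π' ι' ∘ map π ι = map π'' ι''` if `π'' = π ∘ π'` and `ι'' = ι' ∘ ι` pointwise. -/
theorem map_comp_apply (π : Γ' →* Γ) (π' : Γ'' →* Γ') (π'' : Γ'' →* Γ)
    {X : Rep.{0} ℤ Γ} {X' : Rep.{0} ℤ Γ'} {X'' : Rep.{0} ℤ Γ''}
    (ι : Rep.res π X ⟶ X') (ι' : Rep.res π' X' ⟶ X'') (ι'' : Rep.res π'' X ⟶ X'')
    (hπ : ∀ g, π'' g = π (π' g)) (hι : ∀ x : X.V, ι''.hom x = ι'.hom (ι.hom x)) (n : ℕ)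
    (z : groupCohomology X n) :
    (groupCohomology.map π' ι' n).hom ((groupCohomology.map π ι n).hom z) =
      (groupCohomology.map π'' ι'' n).hom z := by
  obtain rfl : π'' = π.comp π' := MonoidHom.ext hπ
  have h := groupCohomology.map_comp (k := ℤ) π π' ι ι' n
  have h2 : ι'' = (Rep.resFunctor π').map ι ≫ ι' := repHom_ext hι
  subst h2
  rw [h]
  rfl

/-- `map π ι = map π₁ ι₁` if `π = π₁` and `ι = ι₁` pointwise. -/
theorem map_congr_apply (π π₁ : Γ' →* Γ) {X : Rep.{0} ℤ Γ} {X' : Rep.{0} ℤ Γ'}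
    (ι : Rep.res π X ⟶ X') (ι₁ : Rep.res π₁ X ⟶ X')
    (hπ : ∀ g, π g = π₁ g) (hι : ∀ x : X.V, ι.hom x = ι₁.hom x) (n : ℕ)
    (z : groupCohomology X n) :
    (groupCohomology.map π ι n).hom z = (groupCohomology.map π₁ ι₁ n).hom z := by
  obtain rfl : π = π₁ := MonoidHom.ext hπ
  have h2 : ι = ι₁ := repHom_ext hι
  subst h2
  rfl

/-- `map id ι = id` if `ι` is the identity pointwise. -/
theorem map_id_apply {X : Rep.{0} ℤ Γ} (π : Γ →* Γ) (ι : Rep.res π X ⟶ X)
    (hπ : ∀ g, π g = g) (hι : ∀ x : X.V, ι.hom x = x) (n : ℕ) (z : groupCohomology X n) :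
    (groupCohomology.map π ι n).hom z = z := by
  obtain rfl : π = MonoidHom.id Γ := MonoidHom.ext hπ
  have h2 : ι = 𝟙 X := repHom_ext hι
  subst h2
  rw [groupCohomology.map_id]
  rfl

/-- Two composites of `groupCohomology.map` agree if the underlying group homomorphisms and
coefficient maps agree pointwise. -/
theorem map_map_eq {G₁ G₂ G₂' G₃ : Type} [Group G₁] [Group G₂] [Group G₂'] [Group G₃]
    {A : Rep.{0} ℤ G₁} {B : Rep.{0} ℤ G₂} {B' : Rep.{0} ℤ G₂'} {C : Rep.{0} ℤ G₃}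
    (f : G₂ →* G₁) (g : G₃ →* G₂) (f' : G₂' →* G₁) (g' : G₃ →* G₂')
    (φ : Rep.res f A ⟶ B) (ψ : Rep.res g B ⟶ C)
    (φ' : Rep.res f' A ⟶ B') (ψ' : Rep.res g' B' ⟶ C)
    (hfg : ∀ x, f (g x) = f' (g' x))
    (hφψ : ∀ a : A.V, ψ.hom (φ.hom a) = ψ'.hom (φ'.hom a)) (n : ℕ)
    (x : groupCohomology A n) :
    (groupCohomology.map g ψ n).hom ((groupCohomology.map f φ n).hom x) =
      (groupCohomology.map g' ψ' n).hom ((groupCohomology.map f' φ' n).hom x) := by
  rw [map_comp_apply f g (f.comp g) φ ψ ((Rep.resFunctor g).map φ ≫ ψ) (fun _ => rfl)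
    (fun _ => rfl) n x]
  rw [map_comp_apply f' g' (f.comp g) φ' ψ' ((Rep.resFunctor g).map φ ≫ ψ) hfg hφψ n x]

/-! ### Restriction between comparable subgroups; equal subgroups -/

/-- The identity of `A` as a semilinear map along the inclusion `H₁ ≤ H₂`. -/
def idSemi {H₁ H₂ : Subgroup Γ} (hle : H₁ ≤ H₂) (A : Rep.{0} ℤ Γ) :
    Rep.res (Subgroup.inclusion hle) (T.resSub A H₂) ⟶ T.resSub A H₁ :=
  E1.Lim.semiOfAdd (Subgroup.inclusion hle) (A := T.resSub A H₂) (B := T.resSub A H₁)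
    (AddMonoidHom.id A.V) (fun _ _ => rfl)

@[simp] lemma idSemi_apply {H₁ H₂ : Subgroup Γ} (hle : H₁ ≤ H₂) (A : Rep.{0} ℤ Γ) (x : A.V) :
    (idSemi hle A).hom x = x := rfl

/-- Restriction `Hⁿ(H₂, A) → Hⁿ(H₁, A)` for `H₁ ≤ H₂`. -/
def resLE {H₁ H₂ : Subgroup Γ} (hle : H₁ ≤ H₂) (A : Rep.{0} ℤ Γ) (n : ℕ) :
    Hn H₂ A n →ₗ[ℤ] Hn H₁ A n :=
  (groupCohomology.map (Subgroup.inclusion hle) (idSemi hle A) n).hom

lemma resLE_self_apply (H : Subgroup Γ) (hle : H ≤ H) (A : Rep.{0} ℤ Γ) (n : ℕ) (x : Hn H A n) :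
    resLE hle A n x = x :=
  map_id_apply (X := T.resSub A H) (Subgroup.inclusion hle) (idSemi hle A)
    (fun _ => rfl) (fun _ => rfl) n x

lemma resLE_resLE_apply {H₁ H₂ H₃ : Subgroup Γ} (h₁₂ : H₁ ≤ H₂) (h₂₃ : H₂ ≤ H₃)
    (A : Rep.{0} ℤ Γ) (n : ℕ) (x : Hn H₃ A n) :
    resLE h₁₂ A n (resLE h₂₃ A n x) = resLE (h₁₂.trans h₂₃) A n x :=
  map_comp_apply (Subgroup.inclusion h₂₃) (Subgroup.inclusion h₁₂)
    (Subgroup.inclusion (h₁₂.trans h₂₃)) (idSemi h₂₃ A) (idSemi h₁₂ A)
    (idSemi (h₁₂.trans h₂₃) A) (fun _ => rfl) (fun _ => rfl) n x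

/-- The canonical isomorphism `Hⁿ(H₁, A) ≃ Hⁿ(H₂, A)` for EQUAL subgroups. -/
def castH {H₁ H₂ : Subgroup Γ} (e : H₁ = H₂) (A : Rep.{0} ℤ Γ) (n : ℕ) :
    Hn H₁ A n ≃ₗ[ℤ] Hn H₂ A n :=
  LinearEquiv.ofLinearMap (resLE e.ge A n) (resLE e.le A n)
    (LinearMap.ext fun x => by
      rw [LinearMap.comp_apply, resLE_resLE_apply, resLE_self_apply, LinearMap.id_apply])
    (LinearMap.ext fun x => by
      rw [LinearMap.comp_apply, resLE_resLE_apply, resLE_self_apply, LinearMap.id_apply])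

@[simp] lemma castH_apply {H₁ H₂ : Subgroup Γ} (e : H₁ = H₂) (A : Rep.{0} ℤ Γ) (n : ℕ)
    (x : Hn H₁ A n) : castH e A n x = resLE e.ge A n x := rfl

@[simp] lemma castH_symm_apply {H₁ H₂ : Subgroup Γ} (e : H₁ = H₂) (A : Rep.{0} ℤ Γ) (n : ℕ)
    (x : Hn H₂ A n) : (castH e A n).symm x = resLE e.le A n x := rfl

lemma resLE_injective_of_eq {H₁ H₂ : Subgroup Γ} (e : H₁ = H₂) (hle : H₁ ≤ H₂)
    (A : Rep.{0} ℤ Γ) (n : ℕ) : Function.Injective (resLE hle A n) :=
  (castH e A n).symm.injective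

lemma resLE_bijective_of_eq {H₁ H₂ : Subgroup Γ} (e : H₁ = H₂) (hle : H₁ ≤ H₂)
    (A : Rep.{0} ℤ Γ) (n : ℕ) : Function.Bijective (resLE hle A n) :=
  (castH e A n).symm.bijective

lemma resLE_eq_zero_iff_of_eq {H₁ H₂ : Subgroup Γ} (e : H₁ = H₂) (hle : H₁ ≤ H₂)
    (A : Rep.{0} ℤ Γ) (n : ℕ) (x : Hn H₂ A n) : resLE hle A n x = 0 ↔ x = 0 :=
  ⟨fun h => resLE_injective_of_eq e hle A n (h.trans (map_zero _).symm),
    fun h => by rw [h, map_zero]⟩

/-- `coe` commutes with restriction. -/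
lemma coe_resLE {H₁ H₂ : Subgroup Γ} (hle : H₁ ≤ H₂) {A B : Rep.{0} ℤ Γ} (f : A ⟶ B) (n : ℕ)
    (x : Hn H₂ A n) : coe H₁ f n (resLE hle A n x) = resLE hle B n (coe H₂ f n x) :=
  map_map_eq (A := T.resSub A H₂) (B := T.resSub A H₁) (B' := T.resSub B H₂)
    (C := T.resSub B H₁) (Subgroup.inclusion hle) (MonoidHom.id ↥H₁) (MonoidHom.id ↥H₂)
    (Subgroup.inclusion hle) (idSemi hle A) ((Rep.resFunctor H₁.subtype).map f)
    ((Rep.resFunctor H₂.subtype).map f) (idSemi hle B) (fun _ => rfl) (fun _ => rfl) n x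

/-! ### (i) naturality of `infSub` in the coefficients -/

/-- **AR-LIB (i)**: `coe ∘ infSub = infSub ∘ coe` for a commuting square of coefficients. -/
theorem coe_infSub (π : Γ' →* Γ) (H : Subgroup Γ) {A B : Rep.{0} ℤ Γ} {A' B' : Rep.{0} ℤ Γ'}
    (f : A ⟶ B) (f' : A' ⟶ B') (t : Rep.res π A ⟶ A') (u : Rep.res π B ⟶ B')
    (hsq : ∀ a : A.V, f'.hom (t.hom a) = u.hom (f.hom a)) (n : ℕ) (x : Hn H A n) :
    coe (H.comap π) f' n (infSub π H t n x) = infSub π H u n (coe H f n x) :=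
  map_map_eq (A := T.resSub A H) (B := T.resSub A' (H.comap π)) (B' := T.resSub B H)
    (C := T.resSub B' (H.comap π)) (projSub π H) (MonoidHom.id ↥(H.comap π))
    (MonoidHom.id ↥H) (projSub π H) (semiSub π H t) ((Rep.resFunctor (H.comap π).subtype).map f')
    ((Rep.resFunctor H.subtype).map f) (semiSub π H u) (fun _ => rfl) hsq n x

/-! ### (ii) transitivity of `infSub` -/

lemma comap_comap_le (π : Γ' →* Γ) (π' : Γ'' →* Γ') (π'' : Γ'' →* Γ)
    (hπ : ∀ g, π'' g = π (π' g)) (H : Subgroup Γ) : (H.comap π).comap π' ≤ H.comap π'' := by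
  intro g hg
  show π'' g ∈ H
  rw [hπ]
  exact hg

lemma comap_comap_eq (π : Γ' →* Γ) (π' : Γ'' →* Γ') (π'' : Γ'' →* Γ)
    (hπ : ∀ g, π'' g = π (π' g)) (H : Subgroup Γ) : (H.comap π).comap π' = H.comap π'' := by
  ext g
  show π (π' g) ∈ H ↔ π'' g ∈ H
  rw [hπ]

/-- **AR-LIB (ii)**: transitivity of inflation.  The two sides live in the cohomology of the
equal subgroups `(H.comap π).comap π'` and `H.comap π''`; they are compared by `resLE`. -/
theorem infSub_infSub (π : Γ' →* Γ) (π' : Γ'' →* Γ') (π'' : Γ'' →* Γ)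
    (hπ : ∀ g, π'' g = π (π' g)) (H : Subgroup Γ)
    {A : Rep.{0} ℤ Γ} {A' : Rep.{0} ℤ Γ'} {A'' : Rep.{0} ℤ Γ''}
    (t : Rep.res π A ⟶ A') (t' : Rep.res π' A' ⟶ A'') (t'' : Rep.res π'' A ⟶ A'')
    (ht : ∀ a : A.V, t''.hom a = t'.hom (t.hom a)) (n : ℕ) (x : Hn H A n) :
    infSub π' (H.comap π) t' n (infSub π H t n x) =
      resLE (comap_comap_le π π' π'' hπ H) A'' n (infSub π'' H t'' n x) :=
  map_map_eq (A := T.resSub A H) (B := T.resSub A' (H.comap π))
    (B' := T.resSub A'' (H.comap π'')) (C := T.resSub A'' ((H.comap π).comap π'))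
    (projSub π H) (projSub π' (H.comap π)) (projSub π'' H)
    (Subgroup.inclusion (comap_comap_le π π' π'' hπ H))
    (semiSub π H t) (semiSub π' (H.comap π) t') (semiSub π'' H t'')
    (idSemi (comap_comap_le π π' π'' hπ H) A'')
    (fun g => Subtype.ext (hπ g.1).symm) (fun a => (ht a).symm) n x

/-- Transitivity, solved for the one-step inflation. -/
theorem infSub_eq_castH (π : Γ' →* Γ) (π' : Γ'' →* Γ') (π'' : Γ'' →* Γ)
    (hπ : ∀ g, π'' g = π (π' g)) (H : Subgroup Γ)
    {A : Rep.{0} ℤ Γ} {A' : Rep.{0} ℤ Γ'} {A'' : Rep.{0} ℤ Γ''}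
    (t : Rep.res π A ⟶ A') (t' : Rep.res π' A' ⟶ A'') (t'' : Rep.res π'' A ⟶ A'')
    (ht : ∀ a : A.V, t''.hom a = t'.hom (t.hom a)) (n : ℕ) (x : Hn H A n) :
    infSub π'' H t'' n x =
      castH (comap_comap_eq π π' π'' hπ H) A'' n
        (infSub π' (H.comap π) t' n (infSub π H t n x)) := by
  rw [infSub_infSub π π' π'' hπ H t t' t'' ht n x, castH_apply, resLE_resLE_apply,
    resLE_self_apply]

/-- If the two-step inflation of `x` vanishes, so does the one-step inflation. -/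
theorem infSub_eq_zero_of_infSub_infSub (π : Γ' →* Γ) (π' : Γ'' →* Γ') (π'' : Γ'' →* Γ)
    (hπ : ∀ g, π'' g = π (π' g)) (H : Subgroup Γ)
    {A : Rep.{0} ℤ Γ} {A' : Rep.{0} ℤ Γ'} {A'' : Rep.{0} ℤ Γ''}
    (t : Rep.res π A ⟶ A') (t' : Rep.res π' A' ⟶ A'') (t'' : Rep.res π'' A ⟶ A'')
    (ht : ∀ a : A.V, t''.hom a = t'.hom (t.hom a)) (n : ℕ) (x : Hn H A n)
    (h0 : infSub π' (H.comap π) t' n (infSub π H t n x) = 0) :
    infSub π'' H t'' n x = 0 := by
  rw [infSub_eq_castH π π' π'' hπ H t t' t'' ht n x, h0, map_zero]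

end General

/-! ## The tower -/

section Tower

variable {S : Finset Nat.Primes}

lemma proj_trans (L L' L'' : Level S) (h : L ≤ L') (h' : L' ≤ L'') (g : L''.Gal) :
    Level.proj (h.trans h') g = Level.proj h (Level.proj h' g) := by
  induction g using QuotientGroup.induction_on with
  | H g => rfl

lemma proj_self (L : Level S) (h : L ≤ L) (g : L.Gal) : Level.proj h g = g := by
  induction g using QuotientGroup.induction_on with
  | H g => rfl

lemma up_up_le {L L' L'' : Level S} (h : L ≤ L') (h' : L' ≤ L'') (H : Subgroup L.Gal) :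
    up h' (up h H) ≤ up (h.trans h') H :=
  comap_comap_le (Level.proj h) (Level.proj h') (Level.proj (h.trans h'))
    (proj_trans L L' L'' h h') H

lemma up_up_eq {L L' L'' : Level S} (h : L ≤ L') (h' : L' ≤ L'') (H : Subgroup L.Gal) :
    up h' (up h H) = up (h.trans h') H :=
  comap_comap_eq (Level.proj h) (Level.proj h') (Level.proj (h.trans h'))
    (proj_trans L L' L'' h h') H

lemma up_self (L : Level S) (h : L ≤ L) (H : Subgroup L.Gal) : up h H = H := by
  ext g
  show Level.proj h g ∈ H ↔ g ∈ H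
  rw [proj_self]

/-- The index of `up h H = Gal(F'/K)` in `Gal(F'/ℚ)` is the index of `H = Gal(F/K)`. -/
lemma index_up {L L' : Level S} (h : L ≤ L') (H : Subgroup L.Gal) :
    (up h H).index = H.index := by
  refine Subgroup.index_comap_of_surjective H ?_
  intro g
  induction g using QuotientGroup.induction_on with
  | H g => exact ⟨QuotientGroup.mk g, rfl⟩

/-- **AR-LIB (i)**, tower form. -/
theorem coe_infUp {L L' : Level S} (h : L ≤ L') (H : Subgroup L.Gal)
    {A B : Rep.{0} ℤ L.Gal} {A' B' : Rep.{0} ℤ L'.Gal}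
    (f : A ⟶ B) (f' : A' ⟶ B') (t : Rep.res (Level.proj h) A ⟶ A')
    (u : Rep.res (Level.proj h) B ⟶ B')
    (hsq : ∀ a : A.V, f'.hom (t.hom a) = u.hom (f.hom a)) (n : ℕ) (x : Hn H A n) :
    coe (up h H) f' n (infUp h H t n x) = infUp h H u n (coe H f n x) :=
  coe_infSub (Level.proj h) H f f' t u hsq n x

/-- **AR-LIB (ii)**, tower form: `inf_{F'→F''} ∘ inf_{F→F'} = inf_{F→F''}` through `resLE`. -/
theorem infUp_infUp {L L' L'' : Level S} (h : L ≤ L') (h' : L' ≤ L'') (H : Subgroup L.Gal)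
    {A : Rep.{0} ℤ L.Gal} {A' : Rep.{0} ℤ L'.Gal} {A'' : Rep.{0} ℤ L''.Gal}
    (t : Rep.res (Level.proj h) A ⟶ A') (t' : Rep.res (Level.proj h') A' ⟶ A'')
    (t'' : Rep.res (Level.proj (h.trans h')) A ⟶ A'')
    (ht : ∀ a : A.V, t''.hom a = t'.hom (t.hom a)) (n : ℕ) (x : Hn H A n) :
    infUp h' (up h H) t' n (infUp h H t n x) =
      resLE (up_up_le h h' H) A'' n (infUp (h.trans h') H t'' n x) :=
  infSub_infSub (Level.proj h) (Level.proj h') (Level.proj (h.trans h'))
    (proj_trans L L' L'' h h') H t t' t'' ht n x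

/-- Transitivity solved for the one-step inflation. -/
theorem infUp_trans_eq {L L' L'' : Level S} (h : L ≤ L') (h' : L' ≤ L'') (H : Subgroup L.Gal)
    {A : Rep.{0} ℤ L.Gal} {A' : Rep.{0} ℤ L'.Gal} {A'' : Rep.{0} ℤ L''.Gal}
    (t : Rep.res (Level.proj h) A ⟶ A') (t' : Rep.res (Level.proj h') A' ⟶ A'')
    (t'' : Rep.res (Level.proj (h.trans h')) A ⟶ A'')
    (ht : ∀ a : A.V, t''.hom a = t'.hom (t.hom a)) (n : ℕ) (x : Hn H A n) :
    infUp (h.trans h') H t'' n x =
      castH (up_up_eq h h' H) A'' n (infUp h' (up h H) t' n (infUp h H t n x)) :=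
  infSub_eq_castH (Level.proj h) (Level.proj h') (Level.proj (h.trans h'))
    (proj_trans L L' L'' h h') H t t' t'' ht n x

/-- If `x` dies after two steps, it dies after the composite step. -/
theorem infUp_trans_eq_zero {L L' L'' : Level S} (h : L ≤ L') (h' : L' ≤ L'')
    (H : Subgroup L.Gal)
    {A : Rep.{0} ℤ L.Gal} {A' : Rep.{0} ℤ L'.Gal} {A'' : Rep.{0} ℤ L''.Gal}
    (t : Rep.res (Level.proj h) A ⟶ A') (t' : Rep.res (Level.proj h') A' ⟶ A'')
    (t'' : Rep.res (Level.proj (h.trans h')) A ⟶ A'')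
    (ht : ∀ a : A.V, t''.hom a = t'.hom (t.hom a)) (n : ℕ) (x : Hn H A n)
    (h0 : infUp h' (up h H) t' n (infUp h H t n x) = 0) :
    infUp (h.trans h') H t'' n x = 0 :=
  infSub_eq_zero_of_infSub_infSub (Level.proj h) (Level.proj h') (Level.proj (h.trans h'))
    (proj_trans L L' L'' h h') H t t' t'' ht n x h0

/-- If `x` dies at `F'`, it dies at every `F'' ≥ F'`. -/
theorem infUp_eq_zero_of_le {L L' L'' : Level S} (h : L ≤ L') (h' : L' ≤ L'')
    (H : Subgroup L.Gal)
    {A : Rep.{0} ℤ L.Gal} {A' : Rep.{0} ℤ L'.Gal} {A'' : Rep.{0} ℤ L''.Gal}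
    (t : Rep.res (Level.proj h) A ⟶ A') (t' : Rep.res (Level.proj h') A' ⟶ A'')
    (t'' : Rep.res (Level.proj (h.trans h')) A ⟶ A'')
    (ht : ∀ a : A.V, t''.hom a = t'.hom (t.hom a)) (n : ℕ) (x : Hn H A n)
    (h0 : infUp h H t n x = 0) :
    infUp (h.trans h') H t'' n x = 0 :=
  infUp_trans_eq_zero h h' H t t' t'' ht n x (by rw [h0, map_zero])

/-- Inflation to the same level is the identity (through `resLE`). -/
theorem infUp_self (L : Level S) (h : L ≤ L) (H : Subgroup L.Gal) {A : Rep.{0} ℤ L.Gal}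
    (t : Rep.res (Level.proj h) A ⟶ A) (ht : ∀ a : A.V, t.hom a = a) (n : ℕ) (x : Hn H A n) :
    infUp h H t n x = resLE (up_self L h H).le A n x :=
  map_congr_apply (X := T.resSub A H) (X' := T.resSub A (up h H)) (projSub (Level.proj h) H)
    (Subgroup.inclusion (up_self L h H).le) (semiSub (Level.proj h) H t)
    (idSemi (up_self L h H).le A) (fun g => Subtype.ext (proj_self L h g.1)) ht n x

/-! ### The transition maps of the tower objects compose -/

lemma trS_trans {L L' L'' : Level S} (h : L ≤ L') (h' : L' ≤ L'') (x : (E1.Lim.sUnits L).V) :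
    (E1.Lim.trS (h.trans h')).hom x = (E1.Lim.trS h').hom ((E1.Lim.trS h).hom x) := rfl

lemma trJtot_trans {L L' L'' : Level S} (h : L ≤ L') (h' : L' ≤ L'') (x : (E1.Lim.Jtot L).V) :
    (E1.Lim.trJtot (h.trans h')).hom x =
      (E1.Lim.trJtot h').hom ((E1.Lim.trJtot h).hom x) := by
  refine E1.Lim.piRep_ext fun q => ?_
  rw [E1.Lim.piTo_trJtot, E1.Lim.piTo_trJtot, E1.Lim.piTo_trJtot]
  apply L''.J_ext q.1
  intro g
  show Level.inclLoc (h.trans h') q.1
      (L.Jeval q.1 (E1.Lim.piTo x q) (Level.proj (h.trans h') g)) =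
    Level.inclLoc h' q.1 (Level.inclLoc h q.1
      (L.Jeval q.1 (E1.Lim.piTo x q) (Level.proj h (Level.proj h' g))))
  rw [proj_trans]
  rfl

variable (D : TowerDatum S)

/-- GD7b: `tr` is transitive. -/
def TrTrans : Prop :=
  ∀ {L L' L'' : Level S} (h : L ≤ L') (h' : L' ≤ L'') (c : (D.C L).V),
    (D.tr h').hom ((D.tr h).hom c) = (D.tr (h.trans h')).hom c

variable {D}

lemma tr_trans (h7b : TrTrans D) {L L' L'' : Level S} (h : L ≤ L') (h' : L' ≤ L'')
    (c : (D.C L).V) : (D.tr (h.trans h')).hom c = (D.tr h').hom ((D.tr h).hom c) :=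
  (h7b h h' c).symm

lemma trC1_trans (h7 : E1.Lim.TrCompat D) (h7b : TrTrans D) {L L' L'' : Level S} (h : L ≤ L')
    (h' : L' ≤ L'') (x : (E1.Lim.C1 D L).V) :
    (E1.Lim.trC1 h7 (h.trans h')).hom x =
      (E1.Lim.trC1 h7 h').hom ((E1.Lim.trC1 h7 h).hom x) := by
  apply E1.Lim.inclC1_injective D L''
  rw [E1.Lim.inclC1_trC1, E1.Lim.inclC1_trC1, E1.Lim.inclC1_trC1]
  exact (h7b h h' _).symm

/-! ### The squares of the tower objects commute -/

lemma diagTot_trS {L L' : Level S} (h : L ≤ L') (e : (E1.Lim.sUnits L).V) :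
    (E1.Lim.diagTot L').hom ((E1.Lim.trS h).hom e) =
      (E1.Lim.trJtot h).hom ((E1.Lim.diagTot L).hom e) := by
  refine E1.Lim.piRep_ext fun q => ?_
  rw [E1.Lim.piTo_trJtot, E1.Lim.piTo_diagTot, E1.Lim.piTo_diagTot, E1.Lim.sIncl_trS]
  apply L'.J_ext q.1
  intro g'
  have h1 : L'.units.ρ g' ((Level.trUnits h).hom ((E1.Lim.sIncl L).hom e)) =
      (Level.trUnits h).hom (L.units.ρ (Level.proj h g') ((E1.Lim.sIncl L).hom e)) :=
    (Rep.hom_comm_apply (Level.trUnits h) g' ((E1.Lim.sIncl L).hom e)).symm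
  show L'.embFun q.1 (L'.units.ρ g' ((Level.trUnits h).hom ((E1.Lim.sIncl L).hom e))) =
    Level.inclLoc h q.1 (L.embFun q.1 (L.units.ρ (Level.proj h g') ((E1.Lim.sIncl L).hom e)))
  rw [h1]
  apply L'.locCoe_injective q.1
  rfl

lemma jTot_trJtot (h7 : E1.Lim.TrCompat D) {L L' : Level S} (h : L ≤ L')
    (x : (E1.Lim.Jtot L).V) :
    (E1.Lim.jTot D L').hom ((E1.Lim.trJtot h).hom x) =
      (D.tr h).hom ((E1.Lim.jTot D L).hom x) :=
  (E1.Lim.tr_jTot h7 h x).symm

lemma jC1_trJtot (h7 : E1.Lim.TrCompat D) {L L' : Level S} (h : L ≤ L')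
    (x : (E1.Lim.Jtot L).V) :
    (E1.Lim.jC1 D L').hom ((E1.Lim.trJtot h).hom x) =
      (E1.Lim.trC1 h7 h).hom ((E1.Lim.jC1 D L).hom x) :=
  (E1.Lim.trC1_jC1 h7 h x).symm

lemma inclC1_trC1 (h7 : E1.Lim.TrCompat D) {L L' : Level S} (h : L ≤ L')
    (c : (E1.Lim.C1 D L).V) :
    (E1.Lim.inclC1 D L').hom ((E1.Lim.trC1 h7 h).hom c) =
      (D.tr h).hom ((E1.Lim.inclC1 D L).hom c) :=
  E1.Lim.inclC1_trC1 h7 h c


lemma inclJ_trJ {L L' : Level S} (h : L ≤ L') (q : S) (x : (L.J q.1).V) :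
    (inclJ L' q).hom ((Level.trJ h q.1).hom x) =
      (E1.Lim.trJtot h).hom ((inclJ L q).hom x) := by
  refine E1.Lim.piRep_ext fun q' => ?_
  rw [E1.Lim.piTo_trJtot]
  by_cases hq : q' = q
  · subst hq
    rw [piTo_inclJ_same, piTo_inclJ_same]
  · rw [piTo_inclJ_of_ne L' hq, piTo_inclJ_of_ne L hq, map_zero]

/-! ### Ready-made instances of (i) -/

section Squares

variable {L L' : Level S} (h : L ≤ L') (H : Subgroup L.Gal) (n : ℕ)

theorem coe_diagTot_infUp (x : Hn H (E1.Lim.sUnits L) n) :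
    coe (up h H) (E1.Lim.diagTot L') n (infUp h H (E1.Lim.trS h) n x) =
      infUp h H (E1.Lim.trJtot h) n (coe H (E1.Lim.diagTot L) n x) :=
  coe_infUp h H (E1.Lim.diagTot L) (E1.Lim.diagTot L') (E1.Lim.trS h) (E1.Lim.trJtot h)
    (diagTot_trS h) n x

theorem coe_jTot_infUp (h7 : E1.Lim.TrCompat D) (x : Hn H (E1.Lim.Jtot L) n) :
    coe (up h H) (E1.Lim.jTot D L') n (infUp h H (E1.Lim.trJtot h) n x) =
      infUp h H (D.tr h) n (coe H (E1.Lim.jTot D L) n x) :=
  coe_infUp h H (E1.Lim.jTot D L) (E1.Lim.jTot D L') (E1.Lim.trJtot h) (D.tr h)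
    (jTot_trJtot h7 h) n x

theorem coe_jC1_infUp (h7 : E1.Lim.TrCompat D) (x : Hn H (E1.Lim.Jtot L) n) :
    coe (up h H) (E1.Lim.jC1 D L') n (infUp h H (E1.Lim.trJtot h) n x) =
      infUp h H (E1.Lim.trC1 h7 h) n (coe H (E1.Lim.jC1 D L) n x) :=
  coe_infUp h H (E1.Lim.jC1 D L) (E1.Lim.jC1 D L') (E1.Lim.trJtot h) (E1.Lim.trC1 h7 h)
    (jC1_trJtot h7 h) n x

theorem coe_inclC1_infUp (h7 : E1.Lim.TrCompat D) (x : Hn H (E1.Lim.C1 D L) n) :
    coe (up h H) (E1.Lim.inclC1 D L') n (infUp h H (E1.Lim.trC1 h7 h) n x) =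
      infUp h H (D.tr h) n (coe H (E1.Lim.inclC1 D L) n x) :=
  coe_infUp h H (E1.Lim.inclC1 D L) (E1.Lim.inclC1 D L') (E1.Lim.trC1 h7 h) (D.tr h)
    (inclC1_trC1 h7 h) n x

theorem coe_inclJ_infUp (q : S) (x : Hn H (L.J q.1) n) :
    coe (up h H) (inclJ L' q) n (infUp h H (Level.trJ h q.1) n x) =
      infUp h H (E1.Lim.trJtot h) n (coe H (inclJ L q) n x) :=
  coe_infUp h H (inclJ L q) (inclJ L' q) (Level.trJ h q.1) (E1.Lim.trJtot h)
    (inclJ_trJ h q) n x

end Squares

/-! ### Ready-made instances of (ii) -/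

section Trans

variable {L L' L'' : Level S} (h : L ≤ L') (h' : L' ≤ L'') (H : Subgroup L.Gal) (n : ℕ)

theorem infUp_trS_trans (x : Hn H (E1.Lim.sUnits L) n) :
    infUp (h.trans h') H (E1.Lim.trS (h.trans h')) n x =
      castH (up_up_eq h h' H) (E1.Lim.sUnits L'') n
        (infUp h' (up h H) (E1.Lim.trS h') n (infUp h H (E1.Lim.trS h) n x)) :=
  infUp_trans_eq h h' H (E1.Lim.trS h) (E1.Lim.trS h') (E1.Lim.trS (h.trans h'))
    (trS_trans h h') n x

theorem infUp_trJtot_trans (x : Hn H (E1.Lim.Jtot L) n) :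
    infUp (h.trans h') H (E1.Lim.trJtot (h.trans h')) n x =
      castH (up_up_eq h h' H) (E1.Lim.Jtot L'') n
        (infUp h' (up h H) (E1.Lim.trJtot h') n (infUp h H (E1.Lim.trJtot h) n x)) :=
  infUp_trans_eq h h' H (E1.Lim.trJtot h) (E1.Lim.trJtot h') (E1.Lim.trJtot (h.trans h'))
    (trJtot_trans h h') n x

theorem infUp_tr_trans (h7b : TrTrans D) (x : Hn H (D.C L) n) :
    infUp (h.trans h') H (D.tr (h.trans h')) n x =
      castH (up_up_eq h h' H) (D.C L'') n
        (infUp h' (up h H) (D.tr h') n (infUp h H (D.tr h) n x)) :=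
  infUp_trans_eq h h' H (D.tr h) (D.tr h') (D.tr (h.trans h')) (tr_trans h7b h h') n x

theorem infUp_trC1_trans (h7 : E1.Lim.TrCompat D) (h7b : TrTrans D)
    (x : Hn H (E1.Lim.C1 D L) n) :
    infUp (h.trans h') H (E1.Lim.trC1 h7 (h.trans h')) n x =
      castH (up_up_eq h h' H) (E1.Lim.C1 D L'') n
        (infUp h' (up h H) (E1.Lim.trC1 h7 h') n (infUp h H (E1.Lim.trC1 h7 h) n x)) :=
  infUp_trans_eq h h' H (E1.Lim.trC1 h7 h) (E1.Lim.trC1 h7 h') (E1.Lim.trC1 h7 (h.trans h'))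
    (trC1_trans h7 h7b h h') n x

end Trans

/-! ### `castH` and the usual operations -/

section Cast

variable {Γ : Type} [Group Γ]

lemma castH_eq_zero_iff {H₁ H₂ : Subgroup Γ} (e : H₁ = H₂) (A : Rep.{0} ℤ Γ) (n : ℕ)
    (x : Hn H₁ A n) : castH e A n x = 0 ↔ x = 0 :=
  (castH e A n).map_eq_zero_iff

lemma castH_nsmul {H₁ H₂ : Subgroup Γ} (e : H₁ = H₂) (A : Rep.{0} ℤ Γ) (n : ℕ) (m : ℕ)
    (x : Hn H₁ A n) : castH e A n (m • x) = m • castH e A n x :=
  map_nsmul (castH e A n) m x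

/-- `coe` commutes with `castH`. -/
lemma coe_castH {H₁ H₂ : Subgroup Γ} (e : H₁ = H₂) {A B : Rep.{0} ℤ Γ} (f : A ⟶ B) (n : ℕ)
    (x : Hn H₁ A n) : coe H₂ f n (castH e A n x) = castH e B n (coe H₁ f n x) := by
  rw [castH_apply, castH_apply]
  exact coe_resLE e.ge f n x

lemma isPPrim_castH {H₁ H₂ : Subgroup Γ} (e : H₁ = H₂) (A : Rep.{0} ℤ Γ) (n : ℕ) (p : ℕ)
    (x : Hn H₁ A n) : IsPPrim p (castH e A n x) ↔ IsPPrim p x := by
  constructor
  · rintro ⟨k, hk⟩
    refine ⟨k, ?_⟩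
    rw [← castH_nsmul, castH_eq_zero_iff] at hk
    exact hk
  · rintro ⟨k, hk⟩
    exact ⟨k, by rw [← castH_nsmul, hk, map_zero]⟩

/-- Linear maps preserve `p`-primary torsion. -/
lemma IsPPrim.map {p : ℕ} {A B : Type} [AddCommGroup A] [AddCommGroup B] (f : A →+ B) {x : A}
    (hx : IsPPrim p x) : IsPPrim p (f x) := by
  obtain ⟨k, hk⟩ := hx
  exact ⟨k, by rw [← map_nsmul, hk, map_zero]⟩

end Cast

end Tower

end

end Fermat.Agent.S55.K.AR.H998

end
-- ===== PACK-END S55/K/AR/LibH998.lean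

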