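import Fermat.Prelude.Def_GroupCohomology_Selmer
import Fermat.Agent.Pack.S56.E16L0
import Fermat.Agent.Pack.S56.E16L2
import Fermat.Agent.Pack.S56.E13L1
import Fermat.Agent.Pack.S56.E16L3
import Fermat.Agent.Pack.S56.E14L2
import Fermat.Agent.Pack.S56.E1L2
import Fermat.Agent.Pack.S56.E9L1
import Fermat.Agent.Pack.S56.E7L2
import Fermat.Agent.Pack.S56.E3L3
import Fermat.Agent.Pack.S56.E11L1
import Fermat.Agent.Pack.S56.E13L3
import Fermat.Agent.Pack.S56.E11L2
import Fermat.Agent.Pack.S56.E16L1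
import Fermat.Agent.Pack.S56.E2L1
import Fermat.Agent.Pack.S56.E14L1
import Fermat.Agent.Pack.S56.E10L1
import Fermat.Agent.Pack.S56.E1L1
import Fermat.Agent.Pack.S56.E12L0
import Fermat.Agent.Pack.S56.E12L1
import Fermat.Agent.Pack.S56.E12L2
import Fermat.Agent.Pack.S56.E15L1

-- ===== PACK-BEGIN S56/H716/GWSpec3.lean
section


/-!
# Row S56 — the wall GW-WALL, layer 3c: the route through a bigger set `S'` (deputy helper716)

`GW-WALL  ⇐  BASE-BIG + REC-Q-BIG + UR-COUNT + TW-INV`      (glue: `H716/GWGlue3.lean`)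

This route needs NO comparison step (COMP) and NO tame duality at general unramified primes:
the Euler characteristic may be proved for a set `S' ⊇ Smin` chosen by the prover, and reciprocity
is used only over the Taylor–Wiles primes.

* `UrCountStatement` (UR-COUNT): `v ∉ Smin` prime (so `ρ̄` is unramified at `v`), `P ∣ v`: the
  classes on `D_P` of ad⁰-cocycles vanishing on inertia at `v` span a space of dimension
  `≤ h⁰(D_P, M)`  (`H¹_ur = M/(φ − 1)M`).
* `TWInvStatement` (TW-INV): `h⁰(D_P, M) ≥ 1` at a Taylor–Wiles prime (`ρ̄(φ) − tr/2`).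
* `RecQBigStatement` (REC-Q-BIG): like `RecQStatement`, for every finite set of primes
  `S' ⊇ Smin`; the Taylor–Wiles set `Q` may meet `S' ∖ Smin`.  Strict Selmer cocycles of `Q`:
  coboundaries on `D_{Pl v}` for `v ∈ S' ∖ Q`, unramified outside `S' ∪ Q`.  Bound:
  `dim U + dim D ≤ #Q + #(Q ∩ S')`
  (`X_q = H¹/H¹_ur` is a line for `q ∈ Q ∖ S'`, `X_q = H¹(D_q, M)` a plane for `q ∈ Q ∩ S'`).
  For `S' = Smin` this is `RecQStatement`.

Nothing unproved in this file.
-/

set_option autoImplicit false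

open Polynomial IsLocalRing

noncomputable section

namespace Fermat.Agent.S56.H716

open Fermat.Agent.S56

section

variable (𝒪 : Type) [CommRing 𝒪] [IsDomain 𝒪] [IsDiscreteValuationRing 𝒪]
  (p : ℕ) (ρbar : ResidualGaloisRep (ResidueField 𝒪)) (S Smin : Finset ℕ)

/-- (REC-Q-BIG) for one residual representation. -/
def RecQBig : Prop :=
  ∀ S' : Finset ℕ, Smin ⊆ S' → (∀ q ∈ S', q.Prime) →
    ∀ Pl : ℕ → ValuationSubring Qb, (∀ v ∈ S', (Pl v).LiesOverPrime v) →
    ∀ D : Submodule (ResidueField 𝒪) (GQ → Module.End (ResidueField 𝒪) ρbar.V),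
      IsDualFrame ρbar p D →
      (∀ y ∈ D, ∀ q : ℕ, q.Prime → q ∉ S' → UnramAt ρbar y q) →
      ∀ Q : Finset ℕ, (∀ q ∈ Q, IsTWPrime ρbar p S q) → Kills ρbar p D Q →
        ∃ U : Submodule (ResidueField 𝒪) (GQ → Module.End (ResidueField 𝒪) ρbar.V),
          Module.Finite (ResidueField 𝒪) U ∧
          Module.finrank (ResidueField 𝒪) U + Module.finrank (ResidueField 𝒪) D
            ≤ Q.card + (Q ∩ S').card ∧
          ∀ c, IsSelCocycle ρbar Pl (fun _ => ⊥) (S' \ Q) Q c →
            ∃ u ∈ U, ∃ c', IsSelCocycle ρbar Pl (fun _ => ⊥) S' ∅ c' ∧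
              IsAdCoboundary ρbar (c - u - c')

end

/-- (REC-Q-BIG): reciprocity over the Taylor–Wiles primes, relative to a big set `S'`. -/
def RecQBigStatement : Prop :=
  ∀ (𝒪 : Type) [CommRing 𝒪] [IsDomain 𝒪] [IsDiscreteValuationRing 𝒪]
    [IsAdicComplete (maximalIdeal 𝒪) 𝒪] [Finite (ResidueField 𝒪)]
    (p : ℕ) (ρbar : ResidualGaloisRep (ResidueField 𝒪)) (S Smin : Finset ℕ),
    Hyp 𝒪 p ρbar S Smin → RecQBig 𝒪 p ρbar S Smin

/-- (UR-COUNT): `dim H¹_ur(D_P, ad⁰ρ̄) ≤ h⁰(D_P, ad⁰ρ̄)` at the primes outside `Smin`. -/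
def UrCountStatement : Prop :=
  ∀ (𝒪 : Type) [CommRing 𝒪] [IsDomain 𝒪] [IsDiscreteValuationRing 𝒪]
    [IsAdicComplete (maximalIdeal 𝒪) 𝒪] [Finite (ResidueField 𝒪)]
    (p : ℕ) (ρbar : ResidualGaloisRep (ResidueField 𝒪)) (S Smin : Finset ℕ),
    Hyp 𝒪 p ρbar S Smin → ∀ v : ℕ, v.Prime → v ∉ Smin →
      ∀ P : ValuationSubring Qb, P.LiesOverPrime v →
        ∃ Λ : Submodule (ResidueField 𝒪) (GQ → Module.End (ResidueField 𝒪) ρbar.V),
          Module.Finite (ResidueField 𝒪) Λ ∧
          Module.finrank (ResidueField 𝒪) Λ ≤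
            Module.finrank (ResidueField 𝒪) (adInv ρbar (P.decompositionSubgroup ℚ)) ∧
          ∀ c, IsAdCocycle ρbar c → UnramAt ρbar c v →
            ∃ t ∈ Λ, IsAdCoboundaryOn ρbar (P.decompositionSubgroup ℚ) (c - t)

/-- (TW-INV): `h⁰(D_P, ad⁰ρ̄) ≥ 1` at a Taylor–Wiles prime. -/
def TWInvStatement : Prop :=
  ∀ (𝒪 : Type) [CommRing 𝒪] [IsDomain 𝒪] [IsDiscreteValuationRing 𝒪]
    [IsAdicComplete (maximalIdeal 𝒪) 𝒪] [Finite (ResidueField 𝒪)]
    (p : ℕ) (ρbar : ResidualGaloisRep (ResidueField 𝒪)) (S Smin : Finset ℕ),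
    Hyp 𝒪 p ρbar S Smin → ∀ q : ℕ, IsTWPrime ρbar p S q →
      ∀ P : ValuationSubring Qb, P.LiesOverPrime q →
        1 ≤ Module.finrank (ResidueField 𝒪) (adInv ρbar (P.decompositionSubgroup ℚ))

end Fermat.Agent.S56.H716

end

end
-- ===== PACK-END S56/H716/GWSpec3.lean

-- ===== PACK-BEGIN S56/FL/CntBridgeCyc.lean
section


/-!
# Row S56 — W-FLAT-SS, piece RAMCOUNT: the bridge to the abstract count, the field `cyc`
(helper426).  Sorry-free, Mathlib only.

`bridge_cyc`: the cyclicity statement for `W = Γ_{p-1}` (with `Γ_p = 1`) from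
`H846.FLCycStatement` applied to `θ_{p-1}` of `RLThetaStatement`.
-/

set_option autoImplicit false

open IsLocalRing

noncomputable section

namespace Fermat.Agent.S56.FL

namespace RCDatum

variable (d : RCDatum)

lemma finite_residue : Finite (ResidueField d.B) := by
  have h1 : Finite (ResidueField d.A) := by
    apply Nat.finite_of_card_ne_zero
    rw [d.hκ]
    exact d.hp.ne_zero
  exact IsLocalRing.ResidueField.finite_of_finite (R := d.A) (S := d.B) h1

/-- Every `g` multiplies a uniformizer by some element. -/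
lemma exists_smul_eq_mul (g : d.Γ) {ϖ : d.B} (hϖ : Irreducible ϖ) :
    ∃ u : d.B, g • ϖ = u * ϖ := by
  have h1 : ϖ ∈ maximalIdeal d.B ^ 1 := by
    rw [pow_one, hϖ.maximalIdeal_eq]
    exact Ideal.mem_span_singleton_self _
  have h2 := d.bridge_smul_mem_maxPow g 1 h1
  rw [pow_one, hϖ.maximalIdeal_eq, Ideal.mem_span_singleton'] at h2
  obtain ⟨u, hu⟩ := h2
  exact ⟨u, hu.symm⟩

lemma residue_smul_of_mem_inertia {τ : d.Γ} (hτ : τ ∈ ramGroup d.B d.Γ 0) (a : d.B) :
    residue d.B (τ • a) = residue d.B a := by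
  rw [mem_ramGroup] at hτ
  have h1 := hτ a
  rw [zero_add, pow_one] at h1
  rw [← sub_eq_zero, ← map_sub]
  exact (residue_eq_zero_iff _).mpr h1

lemma bridge_cyc (hCyc : H846.FLCycStatement) (hΘ : RLThetaStatement)
    (hH : RLHilbertStatement) (hQ : RLQuotStatement)
    {τ₀ φ : d.Γ} {μ : ResidueField d.B} (hT : d.TameData τ₀ φ μ) (m : ℕ)
    (hm : ∀ j : ℕ, (μ ^ (d.p - 1)) ^ j = 1 ↔ m ∣ j) (hmdvd : m ∣ d.p + 1) (hm2 : 2 < m)
    (hp1 : ramGroup d.B d.Γ d.p = ⊥) :
    ∃ w₀ ∈ ramGroup d.B d.Γ (d.p - 1), ∀ H : Subgroup d.Γ, w₀ ∈ H →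
      (∀ h ∈ H, τ₀ * h * τ₀⁻¹ ∈ H) → (∀ h ∈ H, φ ^ 2 * h * (φ ^ 2)⁻¹ ∈ H) →
      ramGroup d.B d.Γ (d.p - 1) ≤ H := by
  haveI : Fact d.p.Prime := ⟨d.hp⟩
  haveI := d.charP_residue hH
  haveI := d.finite_residue
  haveI := d.ramGroup_normal hQ (d.p - 1)
  have hp3 := d.three_le_p
  obtain ⟨ϖ, hϖ⟩ := IsDiscreteValuationRing.exists_irreducible d.B
  obtain ⟨θ, -, hadd, hker, hconj⟩ := hΘ d ϖ hϖ (d.p - 1) (by omega)
  obtain ⟨hτ₀, -, -, hμ, hφ, -, -⟩ := hT
  obtain ⟨uτ, huτ⟩ := d.exists_smul_eq_mul τ₀ hϖ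
  obtain ⟨uφ, huφ⟩ := d.exists_smul_eq_mul φ hϖ
  refine hCyc d.p d.Γ (ResidueField d.B) (ramGroup d.B d.Γ (d.p - 1)) τ₀ φ θ (μ ^ (d.p - 1))
    (residue d.B uφ ^ (d.p - 1)) m inferInstance hadd ?_ ?_ ?_ hm hmdvd hm2
  · intro w hw h0
    have h1 := hker w hw h0
    rw [show d.p - 1 + 1 = d.p by omega, hp1, Subgroup.mem_bot] at h1
    exact h1
  · intro w hw
    obtain ⟨a, ha⟩ := residue_surjective (θ w)
    rw [hconj w hw τ₀ uτ a huτ ha, hμ ϖ hϖ uτ huτ, d.residue_smul_of_mem_inertia hτ₀, ha]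
  · intro w hw
    obtain ⟨a, ha⟩ := residue_surjective (θ w)
    rw [hconj w hw φ uφ a huφ ha, hφ a, ha]

/-- The wild inertia group lies in the kernel of `ρ` when the image has order prime to `p`. -/
lemma wild_le_ker (hW : IsPGroup d.p (ramGroup d.B d.Γ 1)) (hd : ¬ d.p ∣ d.ρ.ker.index) :
    ramGroup d.B d.Γ 1 ≤ d.ρ.ker := by
  intro g hg
  obtain ⟨k, hk⟩ := hW ⟨g, hg⟩
  have hk' : g ^ d.p ^ k = 1 := by
    have := congrArg Subtype.val hk
    simpa using this
  have h1 : orderOf (QuotientGroup.mk g : d.Γ ⧸ d.ρ.ker) ∣ d.p ^ k := by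
    apply orderOf_dvd_of_pow_eq_one
    rw [← QuotientGroup.mk_pow, hk', QuotientGroup.mk_one]
  have h2 : orderOf (QuotientGroup.mk g : d.Γ ⧸ d.ρ.ker) ∣ d.ρ.ker.index := by
    rw [Subgroup.index_eq_card]
    exact orderOf_dvd_natCard _
  have h3 : Nat.Coprime (d.p ^ k) d.ρ.ker.index :=
    Nat.Coprime.pow_left k ((Nat.Prime.coprime_iff_not_dvd d.hp).mpr hd)
  have h4 : orderOf (QuotientGroup.mk g : d.Γ ⧸ d.ρ.ker) = 1 :=
    Nat.eq_one_of_dvd_coprimes h3 h1 h2
  rw [orderOf_eq_one_iff, QuotientGroup.eq_one_iff] at h4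
  exact h4

end RCDatum

end Fermat.Agent.S56.FL

end

end
-- ===== PACK-END S56/FL/CntBridgeCyc.lean

-- ===== PACK-BEGIN S56/H66/Unr.lean
section



/-!
# S56 / FLAT-O, leaf UNR (helper66)

`unrVal : Fermat.Agent.S56.H906.UnrValStatement` — the inertia field is unramified
(verbatim statement of `H906/FlatOSpec.lean`), from `vg0`.
-/

set_option autoImplicit false

namespace Fermat.Agent.S56.H66

/-- **(UNR)** of `H906/FlatOSpec.lean`. -/
theorem unrVal : Fermat.Agent.S56.H906.UnrValStatement :=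
  fun p hp P hP y hy hfix => vg0 p hp P hP y hy hfix

end Fermat.Agent.S56.H66

end
-- ===== PACK-END S56/H66/Unr.lean

-- ===== PACK-BEGIN S56/RQ/Glue.lean
section







/-!
# Row S56 — REC-Q: glue `REC-Q ⇐ leaves` (sub-architect helper554)

`recQ_of : RECIP → FRAME → LINE → NONDEG → URCUP → LOCTRIV → COBCUP → CONJ → GLOBZ → RecQStatement`.

Proof.  `X` = strict Selmer cocycles of `Q`, `D` the dual frame.  For `q ∈ Q` put `P = Pv q` (the
place of the reciprocity package), `φ` a Frobenius at `P`, `τ` the generator of FRAME, `h` the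
element of LINE, `a_q c := tr (h · c τ) / tr h²`, `b_q y := tr (h · y φ)`,
`J_q (c, y) := inv q (c ∪ y)`.

* `J_q (c, y) = w_q · a_q c · b_q y` with `w_q ≠ 0` (`pairing_rank_one`: `a_q c = 0 ⇒ c`
  unramified `⇒ J_q = 0` (URCUP), `b_q y = 0 ⇒ y` locally trivial `⇒ J_q = 0` (LINE, LOCTRIV,
  COBCUP), `J_q = 0 ⇒ a_q c · b_q y = 0` (injectivity of `inv q`, NONDEG)).
* reciprocity: `∑_{v ∈ Smin ∪ Q} inv v (c ∪ y) = 0`, the terms at `v ∈ Smin` vanish (CONJ, COBCUP).
* `y ↦ (w_q b_q y)_q` is injective on `D` (`Q` kills `D`), so the image of `c ↦ (a_q c)_q` has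
  dimension `≤ #Q − dim D`; `U` := lifts of a basis of the image; `a (c − u) = 0 ⇒ c − u` is
  unramified at `Q` (FRAME, CONJ).
-/

set_option autoImplicit false

open Polynomial IsLocalRing

noncomputable section

namespace Fermat.Agent.S56.RQ

open Fermat.Agent.S56 Fermat.Agent.S56.H716

/-- A bilinear form which factors through two linear forms and is non-zero wherever their product
is non-zero is a non-zero multiple of the product. -/
theorem pairing_rank_one {k V W : Type*} [Field k] [AddCommGroup V] [Module k V]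
    [AddCommGroup W] [Module k W] (J : V →ₗ[k] W →ₗ[k] k) (a : V →ₗ[k] k) (b : W →ₗ[k] k)
    (h1 : ∀ v w, a v = 0 → J v w = 0) (h2 : ∀ v w, b w = 0 → J v w = 0)
    (h3 : ∀ v w, J v w = 0 → a v * b w = 0) :
    ∃ w₀ : k, w₀ ≠ 0 ∧ ∀ v w, J v w = w₀ * (a v * b w) := by
  by_cases ha : ∃ v₀, a v₀ ≠ 0
  · by_cases hb : ∃ w₁, b w₁ ≠ 0
    · obtain ⟨v₀, hv₀⟩ := ha
      obtain ⟨w₁, hw₁⟩ := hb
      refine ⟨J v₀ w₁ * (a v₀)⁻¹ * (b w₁)⁻¹, ?_, fun v w => ?_⟩
      · have hJ : J v₀ w₁ ≠ 0 := fun h => by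
          rcases mul_eq_zero.1 (h3 v₀ w₁ h) with h' | h'
          · exact hv₀ h'
          · exact hw₁ h'
        exact mul_ne_zero (mul_ne_zero hJ (inv_ne_zero hv₀)) (inv_ne_zero hw₁)
      · have e1 : J (v - (a v * (a v₀)⁻¹) • v₀) w = 0 := h1 _ _ (by
          rw [map_sub, map_smul, smul_eq_mul, mul_assoc, inv_mul_cancel₀ hv₀, mul_one, sub_self])
        have e2 : J v₀ (w - (b w * (b w₁)⁻¹) • w₁) = 0 := h2 _ _ (by
          rw [map_sub, map_smul, smul_eq_mul, mul_assoc, inv_mul_cancel₀ hw₁, mul_one, sub_self])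
        rw [map_sub, LinearMap.sub_apply, map_smul, LinearMap.smul_apply, sub_eq_zero,
          smul_eq_mul] at e1
        rw [map_sub, map_smul, sub_eq_zero, smul_eq_mul] at e2
        rw [e1, e2]
        ring
    · refine ⟨1, one_ne_zero, fun v w => ?_⟩
      have hbw : b w = 0 := by
        by_contra h
        exact hb ⟨w, h⟩
      rw [h2 v w hbw, hbw, mul_zero, mul_zero]
  · refine ⟨1, one_ne_zero, fun v w => ?_⟩
    have hav : a v = 0 := by
      by_contra h
      exact ha ⟨v, h⟩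
    rw [h1 v w hav, hav, zero_mul, mul_zero]

section Cup

variable {k : Type} [Field k] (ρbar : ResidualGaloisRep k)

lemma cup_add_left (c c' y : GQ → Module.End k ρbar.V) :
    cup ρbar (c + c') y = cup ρbar c y + cup ρbar c' y := by
  funext x
  simp only [cup, Pi.add_apply, add_mul, map_add]

lemma cup_smul_left (r : k) (c y : GQ → Module.End k ρbar.V) :
    cup ρbar (r • c) y = r • cup ρbar c y := by
  funext x
  simp only [cup, Pi.smul_apply, smul_mul_assoc, map_smul]

lemma cup_add_right (c y y' : GQ → Module.End k ρbar.V) :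
    cup ρbar c (y + y') = cup ρbar c y + cup ρbar c y' := by
  funext x
  simp only [cup, Pi.add_apply]
  rw [← map_add, ← mul_add]
  congr 2
  abel

lemma cup_smul_right (r : k) (c y : GQ → Module.End k ρbar.V) :
    cup ρbar c (r • y) = r • cup ρbar c y := by
  funext x
  simp only [cup, Pi.smul_apply, ← smul_sub, mul_smul_comm, map_smul]

/-- The strict Selmer cocycles of `Q`, as a submodule. -/
def selSub (Pl : ℕ → ValuationSubring Qb) (Smin Q : Finset ℕ) :
    Submodule k (GQ → Module.End k ρbar.V) where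
  carrier := {c | IsSelCocycle ρbar Pl (fun _ => ⊥) Smin Q c}
  add_mem' := fun h h' => IsSelCocycle.add ρbar h h'
  zero_mem' := IsSelCocycle.zero ρbar Pl _ Smin Q
  smul_mem' := fun a _ h => IsSelCocycle.smul ρbar a h

lemma mem_selSub {Pl : ℕ → ValuationSubring Qb} {Smin Q : Finset ℕ}
    {c : GQ → Module.End k ρbar.V} :
    c ∈ selSub ρbar Pl Smin Q ↔ IsSelCocycle ρbar Pl (fun _ => ⊥) Smin Q c := Iff.rfl

/-- The pairing `(c, y) ↦ inv (c ∪ y)` as a bilinear map on submodules. -/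
def cupPairing (X D : Submodule k (GQ → Module.End k ρbar.V))
    (inv : (GQ × GQ → k) →ₗ[k] k) : ↥X →ₗ[k] ↥D →ₗ[k] k :=
  LinearMap.mk₂ k (fun c y => inv (cup ρbar (c : GQ → Module.End k ρbar.V) y))
    (fun c c' y => by
      simp only [Submodule.coe_add, cup_add_left, map_add])
    (fun r c y => by
      simp only [Submodule.coe_smul, cup_smul_left, map_smul])
    (fun c y y' => by
      simp only [Submodule.coe_add, cup_add_right, map_add])
    (fun r c y => by
      simp only [Submodule.coe_smul, cup_smul_right, map_smul])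

@[simp] lemma cupPairing_apply (X D : Submodule k (GQ → Module.End k ρbar.V))
    (inv : (GQ × GQ → k) →ₗ[k] k) (c : ↥X) (y : ↥D) :
    cupPairing ρbar X D inv c y = inv (cup ρbar (c : GQ → Module.End k ρbar.V) y) := rfl

/-- evaluation at `σ` followed by `tr (h · _)`, as a linear form on a submodule of functions -/
def trEval (X : Submodule k (GQ → Module.End k ρbar.V)) (h : Module.End k ρbar.V) (σ : GQ) :
    ↥X →ₗ[k] k where
  toFun c := LinearMap.trace k ρbar.V (h * (c : GQ → Module.End k ρbar.V) σ)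
  map_add' c c' := by
    simp only [Submodule.coe_add, Pi.add_apply, mul_add, map_add]
  map_smul' r c := by
    simp only [Submodule.coe_smul, Pi.smul_apply, mul_smul_comm, map_smul, RingHom.id_apply]

@[simp] lemma trEval_apply (X : Submodule k (GQ → Module.End k ρbar.V))
    (h : Module.End k ρbar.V) (σ : GQ) (c : ↥X) :
    trEval ρbar X h σ c = LinearMap.trace k ρbar.V (h * (c : GQ → Module.End k ρbar.V) σ) := rfl

end Cup


section Local

variable (𝒪 : Type) [CommRing 𝒪] [IsDomain 𝒪] [IsDiscreteValuationRing 𝒪]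
  [IsAdicComplete (maximalIdeal 𝒪) 𝒪] [Finite (ResidueField 𝒪)]
  (p : ℕ) (ρbar : ResidualGaloisRep (ResidueField 𝒪)) (S Smin : Finset ℕ)

/-- **Local structure of the pairing at a Taylor–Wiles prime.**  For an "invariant" `inv` at the
place `P | q` (killing coboundaries, injective on classes), the pairing `(c, y) ↦ inv (c ∪ y)` on
(strict Selmer cocycles of `Q`) × `D` is a product `a c · b y` of two linear forms such that
`a c = 0 ⇒ c` unramified at `q` and `b y = 0 ⇒ y` locally trivial at `q`. -/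
theorem exists_local_forms (hF : FrameStatement) (hL : LineStatement) (hN : NondegStatement)
    (hU : UrCupStatement) (hT : LocTrivTwStatement) (hC : CobCupStatement) (hJ : ConjStatement)
    (hG : GlobZStatement) (hyp : Hyp 𝒪 p ρbar S Smin)
    (Pl : ℕ → ValuationSubring Qb)
    (D : Submodule (ResidueField 𝒪) (GQ → Module.End (ResidueField 𝒪) ρbar.V))
    (hD : IsDualFrame ρbar p D)
    (hDur : ∀ y ∈ D, ∀ q : ℕ, q.Prime → q ∉ Smin → UnramAt ρbar y q)
    (Q : Finset ℕ) (hQ : ∀ q ∈ Q, IsTWPrime ρbar p S q) (q : ℕ) (hq : q ∈ Q)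
    (P : ValuationSubring Qb) (hP : P.LiesOverPrime q)
    (inv : (GQ × GQ → ResidueField 𝒪) →ₗ[ResidueField 𝒪] ResidueField 𝒪)
    (hcob : ∀ z : GQ × GQ → ResidueField 𝒪,
      IsCob₂On p (P.decompositionSubgroup ℚ) z → inv z = 0)
    (hinj : ∀ z : GQ × GQ → ResidueField 𝒪, IsCoc₂On p (P.decompositionSubgroup ℚ) z →
      IsLC₂On (P.decompositionSubgroup ℚ) z → inv z = 0 →
      IsCob₂On p (P.decompositionSubgroup ℚ) z) :
    ∃ (a : ↥(selSub ρbar Pl Smin Q) →ₗ[ResidueField 𝒪] ResidueField 𝒪)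
      (b : ↥D →ₗ[ResidueField 𝒪] ResidueField 𝒪),
      (∀ c : ↥(selSub ρbar Pl Smin Q), a c = 0 →
        UnramAt ρbar (c : GQ → Module.End (ResidueField 𝒪) ρbar.V) q) ∧
      (∀ y : ↥D, b y = 0 →
        LocTrivAt ρbar p q (y : GQ → Module.End (ResidueField 𝒪) ρbar.V)) ∧
      ∀ (c : ↥(selSub ρbar Pl Smin Q)) (y : ↥D),
        inv (cup ρbar (c : GQ → Module.End (ResidueField 𝒪) ρbar.V) y) = a c * b y := by
  classical
  have hp := hyp.hp
  have : CharP (ResidueField 𝒪) p := H536.charP_residueField 𝒪 p hyp.hp hyp.hp𝒪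
  have hTW := hQ q hq
  obtain ⟨hqP, hqS, -, -⟩ := hQ q hq
  have hqSmin : q ∉ Smin := fun h => hqS (hyp.hSmin h)
  have hqp : q ≠ p := fun h => hqSmin (h ▸ hyp.hpSmin)
  have hur : ρbar.IsUnramifiedAt q := by
    by_contra h
    exact hqSmin ((hyp.hmin q hqP hqp).mpr h)
  -- a Frobenius element at `P`
  obtain ⟨A, φ₀, hA, hφ₀⟩ := Fermat.Agent.S54.exists_frobenius q hqP
  obtain ⟨g, hg⟩ := Fermat.Agent.Lib.Cheb.H476.exists_smul_eq hqP hA hP
  have hφ : P.IsFrobeniusAt (g * φ₀ * g⁻¹) q := by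
    have := Fermat.Agent.Lib.Cheb.H476.isFrobeniusAt_conj g hφ₀
    rwa [hg] at this
  generalize g * φ₀ * g⁻¹ = φ at hφ
  obtain ⟨τ, hτ, hgen⟩ := hF 𝒪 p ρbar S Smin hyp q hTW P hP
  obtain ⟨h, -, hh2, -, hline, hdec⟩ := hL 𝒪 p ρbar S Smin hyp q hTW P hP φ hφ
  set X := selSub ρbar Pl Smin Q with hX
  set t : ResidueField 𝒪 := LinearMap.trace (ResidueField 𝒪) ρbar.V (h * h) with ht
  let a₀ : ↥X →ₗ[ResidueField 𝒪] ResidueField 𝒪 := t⁻¹ • trEval ρbar X h τ
  let b₀ : ↥D →ₗ[ResidueField 𝒪] ResidueField 𝒪 := trEval ρbar D h φ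
  have ha₀ : ∀ c : ↥X, a₀ c = t⁻¹ * LinearMap.trace (ResidueField 𝒪) ρbar.V
      (h * (c : GQ → Module.End (ResidueField 𝒪) ρbar.V) τ) := fun c => rfl
  have hb₀ : ∀ y : ↥D, b₀ y = LinearMap.trace (ResidueField 𝒪) ρbar.V
      (h * (y : GQ → Module.End (ResidueField 𝒪) ρbar.V) φ) := fun y => rfl
  have hcX : ∀ c : ↥X, IsSelCocycle ρbar Pl (fun _ => ⊥) Smin Q
      (c : GQ → Module.End (ResidueField 𝒪) ρbar.V) := fun c => c.2
  -- `c τ = a₀ c • h`
  have hcτ : ∀ c : ↥X, (c : GQ → Module.End (ResidueField 𝒪) ρbar.V) τ = a₀ c • h := by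
    intro c
    obtain ⟨r, hr⟩ := hline c (hcX c).cocycle τ hτ
    rw [ha₀, hr, mul_smul_comm, map_smul, smul_eq_mul, ← ht, mul_comm r t, ← mul_assoc,
      inv_mul_cancel₀ hh2, one_mul]
  have htr : ∀ (c : ↥X) (y : ↥D), LinearMap.trace (ResidueField 𝒪) ρbar.V
      ((c : GQ → Module.End (ResidueField 𝒪) ρbar.V) τ *
        (y : GQ → Module.End (ResidueField 𝒪) ρbar.V) φ) = a₀ c * b₀ y := by
    intro c y
    rw [hcτ c, smul_mul_assoc, map_smul, smul_eq_mul, hb₀]
  have hyI : ∀ y : ↥D, ∀ σ ∈ P.inertiaSubgroupIn ℚ,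
      (y : GQ → Module.End (ResidueField 𝒪) ρbar.V) σ = 0 :=
    fun y σ hσ => hDur y y.2 q hqP hqSmin P hP σ hσ
  have hyc : ∀ y : ↥D, IsTwCocycle ρbar p (y : GQ → Module.End (ResidueField 𝒪) ρbar.V) :=
    fun y => hD.isTwCocycle y y.2
  -- `a₀ c = 0 ⇒ c` vanishes on `I_P`
  have hunr : ∀ c : ↥X, a₀ c = 0 → ∀ σ ∈ P.inertiaSubgroupIn ℚ,
      (c : GQ → Module.End (ResidueField 𝒪) ρbar.V) σ = 0 := by
    intro c hc
    refine hgen c (hcX c).cocycle ?_
    rw [hcτ c, hc, zero_smul]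
  -- `b₀ y = 0 ⇒ y` is a coboundary on `D_P`
  have hloc : ∀ y : ↥D, b₀ y = 0 → ∃ m, IsTwCoboundaryOn ρbar p (P.decompositionSubgroup ℚ)
      (y : GQ → Module.End (ResidueField 𝒪) ρbar.V) m := by
    intro y hy
    obtain ⟨m, hm0, hm⟩ := hdec ((y : GQ → Module.End (ResidueField 𝒪) ρbar.V) φ)
      ((hyc y).trace_eq_zero φ) (by rw [← hb₀]; exact hy)
    exact ⟨m, hT 𝒪 p ρbar S Smin hyp q hTW P hP φ hφ y (hyc y) (hyI y) m hm0 hm⟩
  let J := cupPairing ρbar X D inv
  have h1 : ∀ (c : ↥X) (y : ↥D), a₀ c = 0 → J c y = 0 := by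
    intro c y hc
    rw [cupPairing_apply]
    exact hcob _ (hU 𝒪 p ρbar S Smin hyp q hTW P hP c y (hcX c).cocycle (hyc y)
      (hunr c hc) (hyI y))
  have h2 : ∀ (c : ↥X) (y : ↥D), b₀ y = 0 → J c y = 0 := by
    intro c y hy
    rw [cupPairing_apply]
    exact hcob _ ((hC (ResidueField 𝒪) p hp ρbar (P.decompositionSubgroup ℚ) c y
      (hcX c).cocycle (hyc y)).2 (hloc y hy))
  have h3 : ∀ (c : ↥X) (y : ↥D), J c y = 0 → a₀ c * b₀ y = 0 := by
    intro c y hJ0
    rw [cupPairing_apply] at hJ0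
    obtain ⟨hz, L, hLfin, -, hlev⟩ := hG 𝒪 p ρbar S Smin hyp Q hQ c y (hcX c).cocycle
      (hcX c).unram (hyc y) (hDur y y.2)
    have hcob' := hinj _ (fun σ _ τ' _ υ _ a' ha' => hz σ trivial τ' trivial υ trivial a' ha')
      ⟨L, hLfin, fun σ _ τ' _ s _ s' _ hs hs' => hlev σ τ' s s' hs hs'⟩ hJ0
    rw [← htr]
    exact hN 𝒪 p ρbar S Smin hyp q hTW P hP φ hφ τ hτ c y (hcX c).cocycle (hyc y) (hyI y) hcob'
  obtain ⟨w, hw, hJw⟩ := pairing_rank_one J a₀ b₀ h1 h2 h3
  refine ⟨a₀, w • b₀, fun c hc P' hP' σ hσ => ?_, fun y hy => ?_, fun c y => ?_⟩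
  · exact (hJ (ResidueField 𝒪) ρbar q hqP P P' hP hP' c (hcX c).cocycle).1 hur (hunr c hc) σ hσ
  · rw [LinearMap.smul_apply, smul_eq_mul] at hy
    have hy' : b₀ y = 0 := (mul_eq_zero.1 hy).resolve_left hw
    obtain ⟨m, hm⟩ := hloc y hy'
    exact ⟨P, hP, m, hm⟩
  · have := hJw c y
    rw [cupPairing_apply] at this
    rw [this]
    show w * (a₀ c * b₀ y) = a₀ c * (w * b₀ y)
    ring

end Local


section Global

variable (𝒪 : Type) [CommRing 𝒪] [IsDomain 𝒪] [IsDiscreteValuationRing 𝒪]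
  [IsAdicComplete (maximalIdeal 𝒪) 𝒪] [Finite (ResidueField 𝒪)]
  (p : ℕ) (ρbar : ResidualGaloisRep (ResidueField 𝒪)) (S Smin : Finset ℕ)

/-- **Glue** `REC-Q ⇐ leaves`, for one residual representation. -/
theorem recQ_of_leaves (hR : PlainRecipStatement) (hF : FrameStatement) (hL : LineStatement)
    (hN : NondegStatement) (hU : UrCupStatement) (hT : LocTrivTwStatement)
    (hC : CobCupStatement) (hJ : ConjStatement) (hG : GlobZStatement)
    (hyp : Hyp 𝒪 p ρbar S Smin) : RecQ 𝒪 p ρbar S Smin := by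
  classical
  intro Pl hPl D hD hDur Q hQ hK
  have hp := hyp.hp
  have hchar : CharP (ResidueField 𝒪) p := H536.charP_residueField 𝒪 p hyp.hp hyp.hp𝒪
  have hpSg : p ∈ Smin ∪ Q := Finset.mem_union_left _ hyp.hpSmin
  have hSgprime : ∀ v ∈ Smin ∪ Q, v.Prime := by
    intro v hv
    rcases Finset.mem_union.1 hv with h | h
    · exact hyp.hS v (hyp.hSmin h)
    · exact (hQ v h).1
  have hdisj : Disjoint Smin Q := by
    rw [Finset.disjoint_left]
    intro v hv hvQ
    exact (hQ v hvQ).2.1 (hyp.hSmin hv)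
  obtain ⟨Pv, inv, hPv, hcob, hinj, hrec⟩ :=
    hR (ResidueField 𝒪) p hp hyp.hp2 (Smin ∪ Q) hpSg hSgprime
  set X := selSub ρbar Pl Smin Q with hX
  have hcX : ∀ c : ↥X, IsSelCocycle ρbar Pl (fun _ => ⊥) Smin Q
      (c : GQ → Module.End (ResidueField 𝒪) ρbar.V) := fun c => c.2
  have hyc : ∀ y : ↥D, IsTwCocycle ρbar p (y : GQ → Module.End (ResidueField 𝒪) ρbar.V) :=
    fun y => hD.isTwCocycle y y.2
  -- the local forms
  have hloc : ∀ q ∈ Q, ∃ (a : ↥X →ₗ[ResidueField 𝒪] ResidueField 𝒪)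
      (b : ↥D →ₗ[ResidueField 𝒪] ResidueField 𝒪),
      (∀ c : ↥X, a c = 0 →
        UnramAt ρbar (c : GQ → Module.End (ResidueField 𝒪) ρbar.V) q) ∧
      (∀ y : ↥D, b y = 0 →
        LocTrivAt ρbar p q (y : GQ → Module.End (ResidueField 𝒪) ρbar.V)) ∧
      ∀ (c : ↥X) (y : ↥D),
        inv q (cup ρbar (c : GQ → Module.End (ResidueField 𝒪) ρbar.V) y) = a c * b y :=
    fun q hq => exists_local_forms 𝒪 p ρbar S Smin hF hL hN hU hT hC hJ hG hyp Pl D hD hDur Q hQ
      q hq (Pv q) (hPv q (Finset.mem_union_right _ hq)) (inv q)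
      (hcob q (Finset.mem_union_right _ hq))
      (hinj q (Finset.mem_union_right _ hq) (hQ q hq).2.2.1)
  choose! a b ha hb hab using hloc
  -- reciprocity
  have hsum : ∀ (c : ↥X) (y : ↥D), ∑ q ∈ Q, a q c * b q y = 0 := by
    intro c y
    have h1 := hrec _ (hG 𝒪 p ρbar S Smin hyp Q hQ c y (hcX c).cocycle (hcX c).unram (hyc y)
      (hDur y y.2))
    rw [Finset.sum_union hdisj] at h1
    have h2 : ∑ v ∈ Smin, inv v (cup ρbar (c : GQ → Module.End (ResidueField 𝒪) ρbar.V) y)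
        = 0 := by
      refine Finset.sum_eq_zero fun v hv => ?_
      obtain ⟨t, ht, hct⟩ := (hcX c).loc v hv
      rw [(Submodule.mem_bot _).1 ht, sub_zero] at hct
      have h3 := (hJ (ResidueField 𝒪) ρbar v (hyp.hS v (hyp.hSmin hv)) (Pl v) (Pv v) (hPl v hv)
        (hPv v (Finset.mem_union_left _ hv)) c (hcX c).cocycle).2 hct
      exact hcob v (Finset.mem_union_left _ hv) _
        ((hC (ResidueField 𝒪) p hp ρbar _ c y (hcX c).cocycle (hyc y)).1 h3)
    rw [h2, zero_add] at h1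
    rw [← h1]
    exact Finset.sum_congr rfl fun q hq => (hab q hq c y).symm
  -- linear algebra
  let A : ↥X →ₗ[ResidueField 𝒪] (↥Q → ResidueField 𝒪) := LinearMap.pi fun q => a q.1
  let lam : ↥D →ₗ[ResidueField 𝒪] Module.Dual (ResidueField 𝒪) (↥Q → ResidueField 𝒪) :=
    ∑ q : ↥Q, (b q.1).smulRight
      (LinearMap.proj q : (↥Q → ResidueField 𝒪) →ₗ[ResidueField 𝒪] ResidueField 𝒪)
  have hlam_apply : ∀ (y : ↥D) (t : ↥Q → ResidueField 𝒪), lam y t = ∑ q : ↥Q, b q.1 y * t q := by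
    intro y t
    simp only [lam, LinearMap.sum_apply, LinearMap.smulRight_apply, LinearMap.smul_apply,
      LinearMap.proj_apply, smul_eq_mul]
  have hlam : Function.Injective lam := by
    refine (injective_iff_map_eq_zero lam).2 fun y hy => ?_
    have hb0 : ∀ q ∈ Q, b q y = 0 := by
      intro q hq
      have h1 := hlam_apply y (Pi.single (⟨q, hq⟩ : ↥Q) 1)
      rw [hy, LinearMap.zero_apply, Finset.sum_eq_single (⟨q, hq⟩ : ↥Q)] at h1
      · rw [Pi.single_eq_same, mul_one] at h1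
        exact h1.symm
      · intro q' _ hne
        rw [Pi.single_eq_of_ne hne, mul_zero]
      · intro h
        exact absurd (Finset.mem_univ _) h
    have h0 := hK y y.2 fun q hq => hb q hq y (hb0 q hq)
    exact Subtype.ext h0
  have hrecA : ∀ (y : ↥D) (r : ↥(LinearMap.range A)),
      lam y ((LinearMap.range A).subtype r) = 0 := by
    rintro y ⟨_, c, rfl⟩
    rw [Submodule.subtype_apply, hlam_apply]
    have h1 := hsum c y
    rw [← Finset.sum_coe_sort] at h1
    rw [← h1]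
    exact Finset.sum_congr rfl fun q _ => mul_comm _ _
  have : FiniteDimensional (ResidueField 𝒪)
      ↥(LinearMap.ker (LinearMap.range A).subtype) := by
    rw [Submodule.ker_subtype]
    infer_instance
  have hdim := H831.comparison_abstract (LinearMap.range A).subtype lam hlam hrecA
  have hker : Module.finrank (ResidueField 𝒪)
      ↥(LinearMap.ker (LinearMap.range A).subtype) = 0 := by
    rw [Submodule.ker_subtype]
    exact finrank_bot _ _
  have hcard : Module.finrank (ResidueField 𝒪) (↥Q → ResidueField 𝒪) = Q.card := by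
    rw [Module.finrank_fintype_fun_eq_card, Fintype.card_coe]
  rw [hker, hcard, zero_add] at hdim
  -- a linear section of `A`
  obtain ⟨s, hs⟩ := A.rangeRestrict.exists_rightInverse_of_surjective
    (LinearMap.range_rangeRestrict A)
  have hAs : ∀ r : ↥(LinearMap.range A), A (s r) = r := by
    intro r
    have := congrArg (fun f => (f r : ↥Q → ResidueField 𝒪)) hs
    simpa using this
  refine ⟨LinearMap.range (X.subtype ∘ₗ s), inferInstance, ?_, fun c hc => ?_⟩
  · have h1 : Module.finrank (ResidueField 𝒪) ↥(LinearMap.range (X.subtype ∘ₗ s)) ≤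
        Module.finrank (ResidueField 𝒪) ↥(LinearMap.range A) :=
      LinearMap.finrank_range_le _
    omega
  · let c₀ : ↥X := ⟨c, hc⟩
    let u₀ : ↥X := s (A.rangeRestrict c₀)
    have hA0 : A (c₀ - u₀) = 0 := by
      rw [map_sub, hAs]
      exact sub_self _
    have ha0 : ∀ q ∈ Q, a q (c₀ - u₀) = 0 := fun q hq =>
      congrFun hA0 (⟨q, hq⟩ : ↥Q)
    have hsel := hcX (c₀ - u₀)
    refine ⟨(u₀ : GQ → Module.End (ResidueField 𝒪) ρbar.V), ⟨A.rangeRestrict c₀, rfl⟩,
      ((c₀ - u₀ : ↥X) : GQ → Module.End (ResidueField 𝒪) ρbar.V),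
      ⟨hsel.cocycle, fun q hqP hqn => ?_, hsel.loc⟩, ⟨0, fun σ => ?_⟩⟩
    · by_cases hqQ : q ∈ Q
      · exact ha q hqQ _ (ha0 q hqQ)
      · refine hsel.unram q hqP fun h => ?_
        rcases Finset.mem_union.1 h with h' | h'
        · exact hqn (Finset.mem_union_left _ h')
        · exact hqQ h'
    · simp [c₀]

end Global

/-- **(REC-Q) from the leaves.** -/
theorem recQ_of (hR : PlainRecipStatement) (hF : FrameStatement) (hL : LineStatement)
    (hN : NondegStatement) (hU : UrCupStatement) (hT : LocTrivTwStatement)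
    (hC : CobCupStatement) (hJ : ConjStatement) (hG : GlobZStatement) : RecQStatement :=
  fun 𝒪 _ _ _ _ _ p ρbar S Smin hyp =>
    recQ_of_leaves 𝒪 p ρbar S Smin hR hF hL hN hU hT hC hJ hG hyp

end Fermat.Agent.S56.RQ

end

end
-- ===== PACK-END S56/RQ/Glue.lean

-- ===== PACK-BEGIN S56/RQ/LineH454.lean
section



/-!
# Row S56 — REC-Q, leaf LINE (helper454)

Linear algebra of the regular semisimple `F = ρ̄(φ)` at a Taylor–Wiles prime:
`h := 2F − (α + β)` is trace-zero, commutes with `F`, `h² = (α − β)²`, the trace-zero centraliser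
of `F` is the line `k·h`, and the trace-zero `x` with `tr (h x) = 0` are of the form
`F m F⁻¹ − m`, `m = −(α−β)⁻² · x F h`.

* `line : LineStatement`.
-/

set_option autoImplicit false
set_option linter.style.haveILetI false

open Polynomial IsLocalRing

noncomputable section

namespace Fermat.Agent.S56.RQ.H454

open Fermat.Agent.S56 Fermat.Agent.S56.H716

section LinAlg

variable {k : Type} [Field k] {V : Type} [AddCommGroup V] [Module k V]

/-- For trace-zero endomorphisms of a plane: `AB + BA = tr(AB)`. -/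
theorem anticomm (hV : Module.finrank k V = 2) (A B : Module.End k V)
    (hA : LinearMap.trace k V A = 0) (hB : LinearMap.trace k V B = 0) :
    A * B + B * A = (LinearMap.trace k V (A * B)) • (1 : Module.End k V) := by
  haveI : Module.Finite k V := Module.finite_of_finrank_eq_succ hV
  set b : Module.Basis (Fin 2) k V := Module.finBasisOfFinrankEq k V hV
  have hA' : (LinearMap.toMatrix b b A).trace = 0 := by
    rw [← LinearMap.trace_eq_matrix_trace k b A]; exact hA
  have hB' : (LinearMap.toMatrix b b B).trace = 0 := by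
    rw [← LinearMap.trace_eq_matrix_trace k b B]; exact hB
  apply (LinearMap.toMatrix b b).injective
  rw [map_add, LinearMap.toMatrix_mul, LinearMap.toMatrix_mul, map_smul, LinearMap.toMatrix_one,
    LinearMap.trace_eq_matrix_trace k b (A * B), LinearMap.toMatrix_mul]
  generalize LinearMap.toMatrix b b A = M at hA' ⊢
  generalize LinearMap.toMatrix b b B = N at hB' ⊢
  rw [Matrix.trace_fin_two] at hA' hB'
  ext i j
  fin_cases i <;> fin_cases j <;>
    simp [Matrix.mul_apply, Fin.sum_univ_two, Matrix.trace_fin_two]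
  · linear_combination N 0 0 * hA' - M 1 1 * hB'
  · linear_combination N 0 1 * hA' + M 0 1 * hB'
  · linear_combination N 1 0 * hA' + M 1 0 * hB'
  · linear_combination N 1 1 * hA' - M 0 0 * hB'

/-- the trace from a factorisation of the characteristic polynomial -/
theorem trace_of_charpoly [Module.Finite k V] (hV : Module.finrank k V = 2)
    (F : Module.End k V) (α β : k)
    (h : LinearMap.charpoly F = (X - C α) * (X - C β)) : LinearMap.trace k V F = α + β := by
  set b : Module.Basis (Fin 2) k V := Module.finBasisOfFinrankEq k V hV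
  rw [LinearMap.trace_eq_matrix_trace k b F]
  have h1 : (LinearMap.toMatrix b b F).charpoly = (X - C α) * (X - C β) := by
    rw [LinearMap.charpoly_toMatrix]; exact h
  rw [Matrix.charpoly_fin_two] at h1
  have e : (X - C α) * (X - C β) = X ^ 2 - C (α + β) * X + C (α * β) := by
    simp only [map_add, map_mul]; ring
  rw [e] at h1
  have c1 := congrArg (fun q : k[X] => q.coeff 1) h1
  simp only [coeff_add, coeff_sub, coeff_X_pow, coeff_C_mul, coeff_X_one,
    mul_one, coeff_C] at c1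
  norm_num at c1
  linear_combination -c1

/-- Cayley–Hamilton -/
theorem sq_of_charpoly [Module.Finite k V] (F : Module.End k V) (α β : k)
    (h : LinearMap.charpoly F = (X - C α) * (X - C β)) :
    F * F = (α + β) • F - (α * β) • (1 : Module.End k V) := by
  have h1 := LinearMap.aeval_self_charpoly F
  rw [h] at h1
  simp only [map_mul, map_sub, aeval_X, aeval_C, Algebra.algebraMap_eq_smul_one] at h1
  have h2 : (F - α • (1 : Module.End k V)) * (F - β • (1 : Module.End k V)) =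
      F * F - ((α + β) • F - (α * β) • (1 : Module.End k V)) := by
    simp only [sub_mul, mul_sub, smul_mul_assoc, mul_smul_comm, mul_one, one_mul, smul_sub,
      smul_smul]
    module
  rw [h2] at h1
  exact sub_eq_zero.mp h1


/-- **The line `k·h`** of a regular semisimple endomorphism `F` of a plane (`2 ≠ 0` in `k`). -/
theorem line_core [Module.Finite k V] (hV : Module.finrank k V = 2) (h2 : (2 : k) ≠ 0)
    (F G : Module.End k V) (hFG : F * G = 1) (α β : k) (hαβ : α ≠ β)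
    (hchar : LinearMap.charpoly F = (X - C α) * (X - C β)) :
    ∃ h : Module.End k V, LinearMap.trace k V h = 0 ∧ LinearMap.trace k V (h * h) ≠ 0 ∧
      F * h = h * F ∧
      (∀ Y : Module.End k V, LinearMap.trace k V Y = 0 → F * Y = Y * F → ∃ a : k, Y = a • h) ∧
      (∀ x : Module.End k V, LinearMap.trace k V x = 0 → LinearMap.trace k V (h * x) = 0 →
        ∃ m : Module.End k V, LinearMap.trace k V m = 0 ∧ x = F * m * G - m) := by
  have hCH := sq_of_charpoly F α β hchar
  have htrF := trace_of_charpoly hV F α β hchar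
  have htr1 : LinearMap.trace k V (1 : Module.End k V) = 2 := by
    rw [LinearMap.trace_one, hV]; norm_num
  obtain ⟨h, hdef⟩ : ∃ h : Module.End k V, h = (2 : k) • F - (α + β) • (1 : Module.End k V) :=
    ⟨_, rfl⟩
  obtain ⟨D, hDdef⟩ : ∃ D : k, D = (α - β) ^ 2 := ⟨_, rfl⟩
  have hD : D ≠ 0 := by
    rw [hDdef]; exact pow_ne_zero 2 (sub_ne_zero.mpr hαβ)
  have hhh : h * h = D • (1 : Module.End k V) := by
    rw [hdef, hDdef]
    simp only [sub_mul, mul_sub, smul_mul_assoc, mul_smul_comm, mul_one, one_mul, smul_sub,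
      smul_smul, hCH]
    module
  have hFh : F * h = h * F := by
    rw [hdef]
    simp only [sub_mul, mul_sub, smul_mul_assoc, mul_smul_comm, mul_one, one_mul]
  have htrh : LinearMap.trace k V h = 0 := by
    rw [hdef, map_sub, map_smul, map_smul, htrF, htr1, smul_eq_mul, smul_eq_mul]
    ring
  -- commutators with `h`
  have hcomm : ∀ Y : Module.End k V, h * Y - Y * h = (2 : k) • (F * Y - Y * F) := by
    intro Y
    rw [hdef]
    simp only [sub_mul, mul_sub, smul_mul_assoc, mul_smul_comm, mul_one, one_mul, smul_sub]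
    module
  refine ⟨h, htrh, ?_, hFh, ?_, ?_⟩
  · rw [hhh, map_smul, htr1, smul_eq_mul]
    exact mul_ne_zero hD h2
  · intro Y hY hFY
    have h1 := anticomm hV h Y htrh hY
    have h3 : h * Y = Y * h := by
      have := hcomm Y
      rw [hFY, sub_self, smul_zero] at this
      exact sub_eq_zero.mp this
    rw [← h3] at h1
    -- `2 h Y = tr(hY)`, multiply by `h`
    have h4 : h * (h * Y + h * Y) = h * (LinearMap.trace k V (h * Y) • (1 : Module.End k V)) := by
      rw [h1]
    rw [mul_add, ← mul_assoc, hhh, smul_mul_assoc, one_mul, mul_smul_comm, mul_one] at h4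
    refine ⟨(2 * D)⁻¹ * LinearMap.trace k V (h * Y), ?_⟩
    have h5 : (2 * D) • Y = LinearMap.trace k V (h * Y) • h := by
      rw [← h4]; module
    rw [mul_smul, ← h5, smul_smul, inv_mul_cancel₀ (mul_ne_zero h2 hD), one_smul]
  · intro x hx hhx
    have h1 := anticomm hV h x htrh hx
    rw [hhx, zero_smul] at h1
    have h3 : h * x = -(x * h) := eq_neg_of_add_eq_zero_left h1
    -- `F x − x F = − x h`
    have h4 : F * x - x * F = -(x * h) := by
      have := hcomm x
      rw [h3] at this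
      have h5 : (2 : k) • (F * x - x * F) = (2 : k) • (-(x * h)) := by
        rw [← this]; module
      exact smul_right_injective _ h2 h5
    -- `tr (x F) = 0`
    have htrxF : LinearMap.trace k V (x * F) = 0 := by
      have h5 : (2 : k) • (x * F) = x * h + (α + β) • x := by
        rw [hdef]
        simp only [mul_sub, mul_smul_comm, mul_one]
        module
      have h6 := congrArg (LinearMap.trace k V) h5
      rw [map_smul, map_add, map_smul, hx, smul_zero, add_zero, LinearMap.trace_mul_comm k x h,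
        hhx, smul_eq_mul] at h6
      rcases mul_eq_zero.mp h6 with h7 | h7
      · exact absurd h7 h2
      · exact h7
    have hFhG : F * h * G = h := by
      rw [hFh, mul_assoc, hFG, mul_one]
    have hFh' : F * h = (α + β) • F - (2 * (α * β)) • (1 : Module.End k V) := by
      rw [hdef]
      simp only [mul_sub, mul_smul_comm, mul_one, hCH, smul_sub, smul_smul]
      module
    refine ⟨(-D⁻¹) • (x * F * h), ?_, ?_⟩
    · rw [map_smul, mul_assoc, hFh', mul_sub, mul_smul_comm, mul_smul_comm, mul_one, map_sub,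
        map_smul, map_smul, htrxF, hx]
      simp
    · have h5 : F * ((-D⁻¹) • (x * F * h)) * G - (-D⁻¹) • (x * F * h) =
          (-D⁻¹) • ((F * x - x * F) * h) := by
        have h6 : F * (x * F * h) * G = F * x * h := by
          calc F * (x * F * h) * G = F * x * (F * h * G) := by
                simp only [mul_assoc]
            _ = F * x * h := by rw [hFhG]
        rw [mul_smul_comm, smul_mul_assoc, h6, sub_mul, smul_sub]
      rw [h5, h4, neg_mul, mul_assoc, hhh, mul_smul_comm, mul_one, smul_neg, smul_smul, neg_mul,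
        inv_mul_cancel₀ hD]
      simp

end LinAlg

/-- a finite Galois-stable level containing a given finite level -/
theorem exists_stable_level (L : IntermediateField ℚ Qb) [FiniteDimensional ℚ L] :
    ∃ M : IntermediateField ℚ Qb, FiniteDimensional ℚ M ∧ L ≤ M ∧
      ∀ σ : GQ, ∀ x ∈ M, σ x ∈ M := by
  haveI : Algebra.IsAlgebraic ℚ Qb := AlgebraicClosure.isAlgebraic ℚ
  haveI : IsAlgClosure ℚ Qb := ⟨inferInstance, inferInstance⟩
  haveI : Normal ℚ Qb := IsAlgClosure.normal ℚ Qb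
  haveI : Normal ℚ (IntermediateField.normalClosure ℚ L Qb) := normalClosure.normal ℚ L Qb
  refine ⟨IntermediateField.normalClosure ℚ L Qb, normalClosure.is_finiteDimensional ℚ L Qb,
    IntermediateField.le_normalClosure L, fun σ x hx => ?_⟩
  have h := IntermediateField.normal_iff_forall_map_le'.mp
    (inferInstance : Normal ℚ (IntermediateField.normalClosure ℚ L Qb)) σ
  exact h ⟨x, hx, rfl⟩

/-- **LINE.** -/
theorem line : LineStatement := by
  intro 𝒪 _ _ _ _ _ p ρbar S Smin hyp q hTW P hP φ hφ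
  obtain ⟨hq, hqS, hq1, hfrob⟩ := hTW
  obtain ⟨α, β, hαβ, hchar⟩ := hfrob P hP φ hφ
  have hp := hyp.hp
  have hp0 : ((p : ℕ) : ResidueField 𝒪) = 0 := by
    have := (IsLocalRing.residue_eq_zero_iff ((p : ℕ) : 𝒪)).mpr hyp.hp𝒪
    rwa [map_natCast] at this
  haveI : CharP (ResidueField 𝒪) p := (CharP.charP_iff_prime_eq_zero hp).mpr hp0
  have h2 : (2 : ResidueField 𝒪) ≠ 0 := by
    intro h0
    have h1 : ((2 : ℕ) : ResidueField 𝒪) = 0 := by exact_mod_cast h0
    have h3 := (CharP.cast_eq_zero_iff (ResidueField 𝒪) p 2).mp h1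
    exact hyp.hp2 ((Nat.prime_dvd_prime_iff_eq hp Nat.prime_two).mp h3)
  have hpS : p ∈ S := hyp.hSmin hyp.hpSmin
  have hqp : p ≠ q := fun h => hqS (h ▸ hpS)
  have hur : ∀ σ ∈ P.inertiaSubgroupIn ℚ, ρbar.ρ σ = 1 := by
    have hqSmin : q ∉ Smin := fun h => hqS (hyp.hSmin h)
    have hunr : ρbar.IsUnramifiedAt q := by
      by_contra hne
      exact hqSmin ((hyp.hmin q hq (Ne.symm hqp)).mpr hne)
    exact hunr P hP
  obtain ⟨h, htr, htr2, hFh, hcent, himg⟩ := line_core ρbar.finrank_eq h2 (ρbar.ρ φ)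
    (ρbar.ρ φ⁻¹) (H554.rho_mul_inv φ) α β hαβ hchar
  refine ⟨h, htr, htr2, hFh, ?_, himg⟩
  intro c hc τ hτ
  obtain ⟨L, hLfin, hcoc⟩ := H554.isCoc_of_isAdCocycle hc
  haveI := hLfin
  obtain ⟨M, hMfin, hLM, hM⟩ := exists_stable_level L
  haveI := hMfin
  have hcomm := (hcoc.mono hLM).commute_frobenius hq hP hp hqp hq1 hM hur hφ hτ
  exact hcent (c τ) (hc.trace_eq_zero τ) hcomm

end Fermat.Agent.S56.RQ.H454

end

end
-- ===== PACK-END S56/RQ/LineH454.lean

-- ===== PACK-BEGIN S56/RQ/H514/LocTriv.lean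
section




/-!
# Row S56 / REC-Q, leaf LOCTRIV (helper514; subtask 653)

`locTrivTw_of : GenStatement → LocTrivTwStatement`: at a Taylor–Wiles prime `q`, a twisted
cocycle `y` unramified at `P | q` whose value at a Frobenius element `φ` is `φ m φ⁻¹ − m`
(`tr m = 0`) is the coboundary of `m` on the decomposition group `D_P`.

Proof.  `φ` and `I_P` fix `μ_p` (`H554.fixes_mu_of_isFrobeniusAt`, `fixes_mu_of_mem_inertia`);
`ρ̄` is unramified at `q`.  Let `L` be a finite level containing the levels of `y` and of `ρ̄` and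
`ℚ(μ_p)`.  By GEN every `σ ∈ D_P` agrees on `L` with some `φ ^ n * τ`, `τ ∈ I_P`.  Hence
`y σ = y (φ ^ n * τ) = y (φ ^ n) = Ad(φ ^ n) m − m = Ad(σ) m − m`, and every cyclotomic exponent
of `σ` is `1` in `k`.
-/

set_option autoImplicit false
set_option linter.style.haveILetI false

open Polynomial IsLocalRing

noncomputable section

namespace Fermat.Agent.S56.RQ.H514

open Fermat.Agent.S56 Fermat.Agent.S56.H716

section Core

variable {k : Type} [Field k] {ρbar : ResidualGaloisRep k} {p : ℕ}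

/-- uniqueness of the inverse: `ρ̄ σ = ρ̄ σ'` implies `ρ̄ σ⁻¹ = ρ̄ σ'⁻¹` -/
theorem rho_inv_eq_of_rho_eq {σ σ' : GQ} (h : ρbar.ρ σ = ρbar.ρ σ') :
    ρbar.ρ σ⁻¹ = ρbar.ρ σ'⁻¹ := by
  calc ρbar.ρ σ⁻¹ = ρbar.ρ σ⁻¹ * (ρbar.ρ σ' * ρbar.ρ σ'⁻¹) := by
        rw [H536.rho_mul_rho_inv, mul_one]
    _ = ρbar.ρ σ⁻¹ * ρbar.ρ σ * ρbar.ρ σ'⁻¹ := by rw [← h, mul_assoc]
    _ = ρbar.ρ σ'⁻¹ := by rw [H536.rho_inv_mul_rho, one_mul]

/-- Two exponents of the same element agree in a field of characteristic `p`. -/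
theorem natCast_eq_one_of_isCycExp [CharP k p] (hp : p.Prime) {σ : GQ} {a : ℕ}
    (ha : IsCycExp p σ a) (h1 : IsCycExp p σ 1) : (a : k) = 1 := by
  haveI : NeZero p := ⟨hp.ne_zero⟩
  have hζ := Fermat.Agent.S55.H414.zetaBar_spec p
  have h2 : Fermat.Agent.S55.H414.zetaBar p ^ a = Fermat.Agent.S55.H414.zetaBar p ^ 1 := by
    rw [← ha _ hζ.pow_eq_one, ← h1 _ hζ.pow_eq_one]
  rw [pow_one] at h2
  have h3 : a ≡ 1 [MOD p] := by
    rcases Nat.eq_zero_or_pos a with rfl | hapos
    · rw [pow_zero] at h2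
      have h5 : p ∣ 1 := (hζ.pow_eq_one_iff_dvd 1).1 (by rw [pow_one]; exact h2.symm)
      exact absurd (Nat.dvd_one.1 h5) hp.one_lt.ne'
    · have hζ0 : Fermat.Agent.S55.H414.zetaBar p ≠ 0 := hζ.ne_zero hp.ne_zero
      have h5 : Fermat.Agent.S55.H414.zetaBar p ^ (a - 1) = 1 := by
        have h6 : Fermat.Agent.S55.H414.zetaBar p ^ (a - 1) * Fermat.Agent.S55.H414.zetaBar p =
            1 * Fermat.Agent.S55.H414.zetaBar p := by
          rw [← pow_succ, Nat.sub_add_cancel hapos, one_mul]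
          exact h2
        exact mul_right_cancel₀ hζ0 h6
      have h7 : p ∣ a - 1 := (hζ.pow_eq_one_iff_dvd _).1 h5
      exact ((Nat.modEq_iff_dvd' hapos).2 h7).symm
  have h4 := (CharP.natCast_eq_natCast k p).2 h3
  rwa [Nat.cast_one] at h4

/-- **LOCTRIV, core.**  `D_P` is generated modulo `L` by `φ` and `I_P`, which fix `μ_p`; `ρ̄` is
trivial on `I_P`; `y` vanishes on `I_P` and `y φ = φ m φ⁻¹ − m`. -/
theorem locTriv_core [CharP k p] (hp : p.Prime) {D I : Subgroup GQ} {φ : GQ}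
    (hφ1 : IsCycExp p φ 1) (hI1 : ∀ τ ∈ I, IsCycExp p τ 1)
    (hur : ∀ τ ∈ I, ρbar.ρ τ = 1)
    (hgen : ∀ L : IntermediateField ℚ Qb, FiniteDimensional ℚ L →
      ∀ σ ∈ D, ∃ n : ℕ, ∃ τ ∈ I, ∀ x ∈ L, σ x = (φ ^ n * τ) x)
    {y : GQ → Module.End k ρbar.V} (hy : IsTwCocycle ρbar p y)
    (hyI : ∀ τ ∈ I, y τ = 0) {m : Module.End k ρbar.V}
    (hm : LinearMap.trace k ρbar.V m = 0)
    (hyφ : y φ = ρbar.ρ φ * m * ρbar.ρ φ⁻¹ - m) :
    IsTwCoboundaryOn ρbar p D y m := by
  haveI : NeZero p := ⟨hp.ne_zero⟩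
  refine ⟨hm, fun σ hσ a ha => ?_⟩
  obtain ⟨Ly, hLy, hyL⟩ := H536.cocycle_eq_of_agree hy
  obtain ⟨Lρ, hLρ, hρL⟩ := ρbar.factorsThroughFiniteLevel
  haveI := hLy
  haveI := hLρ
  haveI : FiniteDimensional ℚ ↥(Ly ⊔ Lρ) := IntermediateField.finiteDimensional_sup Ly Lρ
  haveI hLfin : FiniteDimensional ℚ ↥(Ly ⊔ Lρ ⊔ Fermat.Agent.S55.H414.cycloLevel p) :=
    IntermediateField.finiteDimensional_sup (Ly ⊔ Lρ) (Fermat.Agent.S55.H414.cycloLevel p)
  obtain ⟨n, τ, hτ, hστ⟩ := hgen _ hLfin σ hσ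
  have hLy_le : Ly ≤ Ly ⊔ Lρ ⊔ Fermat.Agent.S55.H414.cycloLevel p :=
    le_sup_left.trans le_sup_left
  have hLρ_le : Lρ ≤ Ly ⊔ Lρ ⊔ Fermat.Agent.S55.H414.cycloLevel p :=
    le_sup_right.trans le_sup_left
  have hLc_le : Fermat.Agent.S55.H414.cycloLevel p ≤
      Ly ⊔ Lρ ⊔ Fermat.Agent.S55.H414.cycloLevel p := le_sup_right
  -- `φ ^ n` fixes `μ_p`
  have hφn1 : IsCycExp p (φ ^ n) 1 := by
    intro μ hμ
    rw [pow_one]
    have := hφ1 μ hμ
    rw [pow_one] at this
    exact H536.pow_apply_eq_of_apply_eq φ this n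
  -- `σ` fixes `μ_p`
  have hσ1 : IsCycExp p σ 1 := by
    intro μ hμ
    rw [pow_one, hστ μ (hLc_le (H536.mem_cycloLevel_of_pow_eq_one p hμ))]
    show (φ ^ n) (τ μ) = μ
    have h1 := hI1 τ hτ μ hμ
    rw [pow_one] at h1
    rw [h1]
    have h2 := hφn1 μ hμ
    rwa [pow_one] at h2
  -- `y σ = y (φ ^ n)`
  have hy1 : y σ = y (φ ^ n) := by
    rw [hyL σ (φ ^ n * τ) (fun x hx => hστ x (hLy_le hx)), hy.map_mul (φ ^ n) τ 1 hφn1,
      hyI τ hτ]
    simp [twAd]
  -- `ρ̄ σ = ρ̄ (φ ^ n)`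
  have hρ1 : ρbar.ρ σ = ρbar.ρ (φ ^ n) := by
    have hg : ρbar.ρ ((φ ^ n * τ)⁻¹ * σ) = 1 := by
      apply hρL
      intro x hx
      rw [AlgEquiv.mul_apply, hστ x (hLρ_le hx)]
      exact (φ ^ n * τ).symm_apply_apply x
    have h2 : ρbar.ρ σ = ρbar.ρ (φ ^ n * τ) * ρbar.ρ ((φ ^ n * τ)⁻¹ * σ) := by
      rw [← map_mul, mul_inv_cancel_left]
    rw [h2, hg, mul_one, map_mul, hur τ hτ, mul_one]
  have hρ2 : ρbar.ρ σ⁻¹ = ρbar.ρ (φ ^ n)⁻¹ := rho_inv_eq_of_rho_eq hρ1
  rw [hy1, H536.coboundary_pow hy φ hφ1 m hyφ n]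
  unfold twAd
  rw [natCast_eq_one_of_isCycExp hp ha hσ1, one_smul, hρ1, hρ2]

end Core

/-- **LOCTRIV** from GEN. -/
theorem locTrivTw_of (hGen : GenStatement) : LocTrivTwStatement := by
  intro 𝒪 _ _ _ _ _ p ρbar S Smin hyp q hq P hP φ hφ y hy hyI m hm hyφ
  have hp := hyp.hp
  have hqP : q.Prime := hq.1
  have hpq : p ≠ q := by
    rintro rfl
    exact hq.2.1 (hyp.hSmin hyp.hpSmin)
  have hq1 : p ∣ q - 1 := hq.2.2.1
  haveI : CharP (ResidueField 𝒪) p := H536.charP_residueField 𝒪 p hp hyp.hp𝒪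
  have hur : ∀ σ ∈ P.inertiaSubgroupIn ℚ, ρbar.ρ σ = 1 := by
    have hqSmin : q ∉ Smin := fun h => hq.2.1 (hyp.hSmin h)
    have hunr : ρbar.IsUnramifiedAt q := by
      by_contra hnot
      exact hqSmin ((hyp.hmin q hqP hpq.symm).2 hnot)
    exact hunr P hP
  exact locTriv_core hp (H554.fixes_mu_of_isFrobeniusAt hqP hP hp hpq hq1 hφ)
    (fun τ hτ => H554.fixes_mu_of_mem_inertia hqP hP hp hpq hτ) hur
    (fun L hL σ hσ => hGen q P φ hqP hP hφ L hL σ hσ) hy hyI hm hyφ

end Fermat.Agent.S56.RQ.H514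

end
end
-- ===== PACK-END S56/RQ/H514/LocTriv.lean

-- ===== PACK-BEGIN S55/G/Rec/Loc/H483/Unram.lean
section


/-!
# S55 / G / REC / LOC, leaf LOC-UNR : `UnramSpec`   (helper483)

`unram_of (hO : OpenSpec) (hD : DescentSpec) (hUp : UpSpec)
    (hH2 : Local.UnramUnitsH2Statement) : UnramSpec`

A level cocycle `c` on `V` with unit values, invariant under right translation by inertial
elements and with values fixed by the inertial elements, is a level coboundary:
`c` descends to a finite Galois level `E` (DescentSpec), then to the unramified level `E₀ ≤ E`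
(`unramLevel_of`), where `H²(Gal(E₀/K), U_{E₀}) = 0` (`Local.UnramUnitsH2Statement`); the
finite-level coboundary inflates to a level coboundary (UpSpec).
-/

set_option autoImplicit false
set_option linter.unusedSectionVars false
set_option linter.style.haveILetI false

noncomputable section

namespace Fermat.Agent.S55.G.Rec.Loc.H483

open groupCohomology Fermat.Agent.S55.G.Rec Fermat.Agent.S55.G.Rec.Loc Fermat.Agent.S55.Local

section Generic

/-- descent of the multiplicative 2-cocycle condition along a surjection of groups and an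
injection of modules -/
lemma isMulCocycle₂_of_surjective {G Q M M₀ : Type*} [Group G] [Group Q] [CommGroup M]
    [CommGroup M₀] [MulDistribMulAction Q M₀] (act : G → M → M) (r : G →* Q)
    (hr : Function.Surjective r) (incl : M₀ →* M) (hincl : Function.Injective incl)
    (heq : ∀ g u, incl (r g • u) = act g (incl u)) (C : G × G → M)
    (hC : ∀ g h j, C (g * h, j) * C (g, h) = act g (C (h, j)) * C (g, h * j))
    (c₀ : Q × Q → M₀) (h : ∀ g h, incl (c₀ (r g, r h)) = C (g, h)) : IsMulCocycle₂ c₀ := by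
  intro a b d
  obtain ⟨g, rfl⟩ := hr a
  obtain ⟨h', rfl⟩ := hr b
  obtain ⟨j, rfl⟩ := hr d
  apply hincl
  rw [map_mul, map_mul, heq, ← map_mul r, ← map_mul r, h, h, h, h]
  exact hC g h' j

end Generic

section Aux

variable (q : ℕ) [Fact q.Prime] (V : Subgroup (PadicAlgCl q ≃ₐ[ℚ_[q]] PadicAlgCl q))

/-- restriction to a normal level is surjective when `V` is the fixing subgroup of `K_V` -/
lemma resHom_surjective (hfix : (fixedFld q V).fixingSubgroup = V)
    (E : IntermediateField (fixedFld q V) (PadicAlgCl q)) [Normal (fixedFld q V) E] :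
    Function.Surjective (resHom q V E) := by
  intro a
  haveI : Normal (fixedFld q V) (PadicAlgCl q) := inferInstance
  let τ : PadicAlgCl q ≃ₐ[fixedFld q V] PadicAlgCl q := a.liftNormal (PadicAlgCl q)
  have hmem0 : τ.restrictScalars ℚ_[q] ∈ (fixedFld q V).fixingSubgroup :=
    (IntermediateField.mem_fixingSubgroup_iff _ _).2 (fun x hx => τ.commutes ⟨x, hx⟩)
  refine ⟨⟨τ.restrictScalars ℚ_[q], hfix.le hmem0⟩, ?_⟩
  ext x
  rw [resHom_apply_coe]
  exact a.liftNormal_commutes (PadicAlgCl q) x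

/-- an element of `ℚ̄_q` fixed by all elements of `V` which fix `E₀` pointwise lies in `E₀` -/
lemma mem_level_of_fixed (hfix : (fixedFld q V).fixingSubgroup = V)
    (E₀ : IntermediateField (fixedFld q V) (PadicAlgCl q)) (x : PadicAlgCl q)
    (hx : ∀ w : ↥V, (∀ y ∈ E₀, (w : PadicAlgCl q ≃ₐ[ℚ_[q]] PadicAlgCl q) y = y) →
      (w : PadicAlgCl q ≃ₐ[ℚ_[q]] PadicAlgCl q) x = x) : x ∈ E₀ := by
  haveI : IsGalois (fixedFld q V) (PadicAlgCl q) := inferInstance
  rw [← InfiniteGalois.fixedField_fixingSubgroup E₀, IntermediateField.mem_fixedField_iff]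
  intro τ hτ
  have hmem0 : τ.restrictScalars ℚ_[q] ∈ (fixedFld q V).fixingSubgroup :=
    (IntermediateField.mem_fixingSubgroup_iff _ _).2 (fun x hx => τ.commutes ⟨x, hx⟩)
  exact hx ⟨τ.restrictScalars ℚ_[q], hfix.le hmem0⟩
    (fun y hy => (IntermediateField.mem_fixingSubgroup_iff _ _).1 hτ y hy)

/-- a unit of `ℚ̄_q` lying in a level, as a unit of the level -/
def unitOfMem (E₀ : IntermediateField (fixedFld q V) (PadicAlgCl q)) (u : (PadicAlgCl q)ˣ)
    (hu : (u : PadicAlgCl q) ∈ E₀) : (↥E₀)ˣ :=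
  Units.mk0 ⟨(u : PadicAlgCl q), hu⟩ (fun h => u.ne_zero (congrArg Subtype.val h))

@[simp] lemma unitsIncl_unitOfMem (E₀ : IntermediateField (fixedFld q V) (PadicAlgCl q))
    (u : (PadicAlgCl q)ˣ) (hu : (u : PadicAlgCl q) ∈ E₀) :
    _root_.Fermat.Agent.S55.G.Rec.Loc.unitsIncl q V E₀ (unitOfMem q V E₀ u hu) = u :=
  Units.ext rfl

lemma unitsIncl_injective (E₀ : IntermediateField (fixedFld q V) (PadicAlgCl q)) :
    Function.Injective (_root_.Fermat.Agent.S55.G.Rec.Loc.unitsIncl q V E₀) := by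
  intro a b h
  apply Units.ext
  apply Subtype.ext
  exact congrArg (fun u : (PadicAlgCl q)ˣ => (u : PadicAlgCl q)) h

end Aux

set_option maxHeartbeats 1600000 in
set_option synthInstance.maxHeartbeats 400000 in
/-- **LOC-UNR.** -/
theorem unram_of (hO : OpenSpec) (hD : _root_.Fermat.Agent.S55.G.Rec.Loc.DescentSpec) (hUp : UpSpec)
    (hH2 : Local.UnramUnitsH2Statement) : UnramSpec := by
  intro q _ V hV c h1 h2 h3
  obtain ⟨hfin, hfix⟩ := hO q V hV
  haveI := hfin
  obtain ⟨E, hEfin, hEgal, f, -, hinf⟩ := hD q V hV c ⊥ inferInstance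
  haveI := hEfin
  haveI := hEgal
  obtain ⟨E₀, hE₀fin, hE₀gal, hle, hunr, hker⟩ := unramLevel_of hO q V hV E
  haveI := hE₀fin
  haveI := hE₀gal
  -- the multiplicative cocycle on `V`
  let C : ↥V × ↥V → (PadicAlgCl q)ˣ := fun p => Additive.toMul ((c : ↥V × ↥V → lModOn q V) p)
  have hCE : ∀ g h : ↥V, C (g, h) =
      _root_.Fermat.Agent.S55.G.Rec.Loc.unitsIncl q V E (Additive.toMul ((f : (E ≃ₐ[fixedFld q V] E) × (E ≃ₐ[fixedFld q V] E) →
        L.unitsRep (fixedFld q V) E) (resHom q V E g, resHom q V E h))) := by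
    intro g h
    show Additive.toMul ((c : ↥V × ↥V → lModOn q V) (g, h)) = _
    rw [hinf]
    rfl
  -- the cocycle identity
  have hCcoc : ∀ g h j : ↥V, C (g * h, j) * C (g, h) =
      (g : PadicAlgCl q ≃ₐ[ℚ_[q]] PadicAlgCl q) • C (h, j) * C (g, h * j) := by
    intro g h j
    have hc := (mem_cocycles₂_iff (A := lModOn q V) (c : ↥V × ↥V → lModOn q V)).1
      ((mem_levelCocycles₂_iff _ _ _).1 c.2).1 g h j
    exact congrArg Additive.toMul hc
  -- invariance modulo the kernel of `V → Gal(E / K)`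
  have hCE' : ∀ g g' h h' : ↥V, resHom q V E g = resHom q V E g' →
      resHom q V E h = resHom q V E h' → C (g, h) = C (g', h') := by
    intro g g' h h' hg hh
    rw [hCE, hCE, hg, hh]
  -- invariance modulo the kernel of `V → Gal(E₀ / K)`
  have hC0 : ∀ g g' h h' : ↥V, resHom q V E₀ g = resHom q V E₀ g' →
      resHom q V E₀ h = resHom q V E₀ h' → C (g, h) = C (g', h') := by
    intro g g' h h' hg hh
    have hw : resHom q V E₀ (g⁻¹ * g') = 1 := by rw [map_mul, map_inv, hg, inv_mul_cancel]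
    have hw' : resHom q V E₀ (h⁻¹ * h') = 1 := by rw [map_mul, map_inv, hh, inv_mul_cancel]
    obtain ⟨i, n, hi, hn, hin⟩ := (hker _).1 hw
    obtain ⟨i', n', hi', hn', hin'⟩ := (hker _).1 hw'
    have hg' : g' = g * i * n := by rw [mul_assoc, ← hin, mul_inv_cancel_left]
    have hh' : h' = h * i' * n' := by rw [mul_assoc, ← hin', mul_inv_cancel_left]
    have e1 : C (g', h') = C (g * i, h * i') := by
      apply hCE'
      · rw [hg', map_mul, hn, mul_one]
      · rw [hh', map_mul, hn', mul_one]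
    have e2 : C (g * i, h * i') = C (g, h) := congrArg Additive.toMul (h2 g h i i' hi hi')
    rw [e1, e2]
  -- values in `E₀`
  have hval : ∀ g h : ↥V, ((C (g, h) : (PadicAlgCl q)ˣ) : PadicAlgCl q) ∈ E₀ := by
    intro g h
    apply mem_level_of_fixed q V hfix E₀
    intro w hw
    have hw1 : resHom q V E₀ w = 1 := (resHom_eq_one_iff q V E₀ w).2 hw
    obtain ⟨i, n, hi, hn, rfl⟩ := (hker _).1 hw1
    have hn' := (resHom_eq_one_iff q V E n).1 hn
    have hmemE : ((C (g, h) : (PadicAlgCl q)ˣ) : PadicAlgCl q) ∈ E := by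
      rw [hCE]
      exact Subtype.property _
    have e1 : (n : PadicAlgCl q ≃ₐ[ℚ_[q]] PadicAlgCl q) (C (g, h) : PadicAlgCl q) =
        (C (g, h) : PadicAlgCl q) := hn' _ hmemE
    have e2 : (i : PadicAlgCl q ≃ₐ[ℚ_[q]] PadicAlgCl q) (C (g, h) : PadicAlgCl q) =
        (C (g, h) : PadicAlgCl q) := by
      have := congrArg (fun z : lModOn q V => ((Additive.toMul z : (PadicAlgCl q)ˣ) :
        PadicAlgCl q)) (h3 g h i hi)
      exact this
    show (i : PadicAlgCl q ≃ₐ[ℚ_[q]] PadicAlgCl q)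
      ((n : PadicAlgCl q ≃ₐ[ℚ_[q]] PadicAlgCl q) (C (g, h) : PadicAlgCl q)) = _
    rw [e1, e2]
  -- sections
  have hsurj := resHom_surjective q V hfix E₀
  let s : (E₀ ≃ₐ[fixedFld q V] E₀) → ↥V := Function.surjInv hsurj
  have hs : ∀ a, resHom q V E₀ (s a) = a := Function.surjInv_eq hsurj
  -- the finite-level cocycle
  let c₀ : (E₀ ≃ₐ[fixedFld q V] E₀) × (E₀ ≃ₐ[fixedFld q V] E₀) → (↥E₀)ˣ :=
    fun p => unitOfMem q V E₀ (C (s p.1, s p.2)) (hval _ _)
  have hc₀ : ∀ g h : ↥V, _root_.Fermat.Agent.S55.G.Rec.Loc.unitsIncl q V E₀ (c₀ (resHom q V E₀ g, resHom q V E₀ h)) = C (g, h) := by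
    intro g h
    show _root_.Fermat.Agent.S55.G.Rec.Loc.unitsIncl q V E₀ (unitOfMem q V E₀ _ _) = _
    rw [unitsIncl_unitOfMem]
    exact hC0 _ _ _ _ (hs _) (hs _)
  have hc₀' : ∀ a b, _root_.Fermat.Agent.S55.G.Rec.Loc.unitsIncl q V E₀ (c₀ (a, b)) = C (s a, s b) := fun a b =>
    unitsIncl_unitOfMem q V E₀ _ _
  have hcoc₀ : IsMulCocycle₂ c₀ :=
    isMulCocycle₂_of_surjective
      (fun (g : ↥V) (u : (PadicAlgCl q)ˣ) => (g : PadicAlgCl q ≃ₐ[ℚ_[q]] PadicAlgCl q) • u)
      (resHom q V E₀) hsurj (_root_.Fermat.Agent.S55.G.Rec.Loc.unitsIncl q V E₀) (unitsIncl_injective q V E₀)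
      (fun g u => Units.ext (resHom_apply_coe q V E₀ g _)) C hCcoc c₀ hc₀
  -- unit values
  have hunit : ∀ p, c₀ p ∈ _root_.Fermat.Agent.S55.Local.intUnits ℤ_[q] ℚ_[q] E₀ := by
    intro p
    have hnorm : ‖((C (s p.1, s p.2) : (PadicAlgCl q)ˣ) : PadicAlgCl q)‖ = 1 := h1 _ _
    rw [mem_intUnits, isInt_level_iff, isInt_level_iff]
    constructor
    · show ‖((C (s p.1, s p.2) : (PadicAlgCl q)ˣ) : PadicAlgCl q)‖ ≤ 1
      rw [hnorm]
    · have : (((c₀ p)⁻¹ : (↥E₀)ˣ) : PadicAlgCl q) =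
          ((C (s p.1, s p.2) : (PadicAlgCl q)ˣ) : PadicAlgCl q)⁻¹ := by
        rw [Units.val_inv_eq_inv_val]
        rfl
      rw [this, norm_inv, hnorm, inv_one]
  obtain ⟨x, -, hx⟩ := hH2 ℤ_[q] ℚ_[q] (fixedFld q V) E₀ hunr c₀ hcoc₀ hunit
  have hcob : IsMulCoboundary₂ c₀ := ⟨x, hx⟩
  -- conclusion
  let f₀ : cocycles₂ (L.unitsRep (fixedFld q V) E₀) := cocyclesOfIsMulCocycle₂ hcoc₀
  have hcls : L.cls f₀ = 0 :=
    (H2π_eq_zero_iff f₀).mpr (coboundariesOfIsMulCoboundary₂ hcob).2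
  have hinf₀ : IsAbsInflation q V E₀ f₀ c := by
    funext p
    apply Additive.toMul.injective
    show C (p.1, p.2) = _root_.Fermat.Agent.S55.G.Rec.Loc.unitsIncl q V E₀ (c₀ (resHom q V E₀ p.1, resHom q V E₀ p.2))
    rw [hc₀]
  exact hUp q V hV E₀ f₀ c hinf₀ hcls

end Fermat.Agent.S55.G.Rec.Loc.H483

end
end
-- ===== PACK-END S55/G/Rec/Loc/H483/Unram.lean

-- ===== PACK-BEGIN S55/E1/H603/Lambda.lean
section
/-
S55 / engine E1 / block LIM, leaf LIM5 (helper603): the identification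
`Hom_ℤ(N, X) ≅ B` for `N = B^*(χ)` and a module `X` with `X[p] = ⟨z⟩ ≅ μ_p`.

Abstract setting: `Γ` a group, `B : Rep (ZMod p) Γ` finite dimensional, `χ : Γ →* (ZMod p)ˣ`,
* `DualModel B χ N` : `N : Rep ℤ Γ` with an equivariant additive bijection `N ≃ B.dualTwist χ`;
* `MuData χ X`     : `z ∈ X` of order `p` generating `X[p]`, with `g z = χ(g) z`;
* `lam : toInt B ⟶ Hom_ℤ(N, X)`, `m ↦ (n ↦ ⟨n, m⟩ • z)`, bijective (`lam_bijective`);
* `lam_tr` : compatibility with change of group.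
No sorry.
-/





set_option autoImplicit false
set_option linter.style.haveILetI false

open CategoryTheory groupCohomology

namespace Fermat.Agent.S55.E1.H603

open Fermat.Agent.S55.E1
open Fermat.Agent.S55.T.H719 (ihomLin ihomMk)

noncomputable section

section Generic

variable {k : Type} [CommRing k] {Γ : Type} [Group Γ] {N X A Y : Rep.{0} k Γ}

/-- An additive, `k`-homogeneous map as an element of `Hom_k(N, X)`. -/
def ihomOfAddGen (f : N.V →+ X.V) (hf : ∀ (c : k) (n : N.V), f (c • n) = c • f n) :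
    ((Rep.ihom N).obj X).V :=
  ihomMk { toFun := f, map_add' := f.map_add, map_smul' := hf }

theorem ihomOfAddGen_apply (f : N.V →+ X.V) (hf : ∀ (c : k) (n : N.V), f (c • n) = c • f n)
    (n : N.V) : ihomLin (ihomOfAddGen f hf) n = f n := rfl

theorem ihom_ext {φ ψ : ((Rep.ihom N).obj X).V} (h : ∀ n, ihomLin φ n = ihomLin ψ n) :
    φ = ψ := LinearMap.ext h

theorem ihomLin_add (φ ψ : ((Rep.ihom N).obj X).V) (n : N.V) :
    ihomLin (φ + ψ) n = ihomLin φ n + ihomLin ψ n := rfl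

theorem ihomLin_sub (φ ψ : ((Rep.ihom N).obj X).V) (n : N.V) :
    ihomLin (φ - ψ) n = ihomLin φ n - ihomLin ψ n := rfl

theorem ihomLin_zero (n : N.V) : ihomLin (0 : ((Rep.ihom N).obj X).V) n = 0 := rfl

theorem ihomLin_neg (φ : ((Rep.ihom N).obj X).V) (n : N.V) :
    ihomLin (-φ) n = -ihomLin φ n := rfl

/-- An additive, homogeneous, equivariant map as a morphism of representations. -/
def repHomOfAddGen (f : A.V →+ Y.V) (hf : ∀ (c : k) (a : A.V), f (c • a) = c • f a)
    (hcomm : ∀ (g : Γ) (a : A.V), f (A.ρ g a) = Y.ρ g (f a)) : A ⟶ Y :=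
  Rep.ofHom ⟨{ toFun := f, map_add' := f.map_add, map_smul' := hf },
    fun g => LinearMap.ext fun a => hcomm g a⟩

theorem repHomOfAddGen_apply (f : A.V →+ Y.V) (hf : ∀ (c : k) (a : A.V), f (c • a) = c • f a)
    (hcomm : ∀ (g : Γ) (a : A.V), f (A.ρ g a) = Y.ρ g (f a)) (a : A.V) :
    (repHomOfAddGen f hf hcomm).hom a = f a := rfl

end Generic

section IntHelpers

variable {Γ : Type} [Group Γ]

/-- An additive map as an element of `Hom_ℤ(N, X)`. -/
def ihomOfAdd {N X : Rep.{0} ℤ Γ} (f : N.V →+ X.V) : ((Rep.ihom N).obj X).V :=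
  ihomOfAddGen (k := ℤ) f (fun c n => by
    have h1 := int_smul_eq_zsmul N.hV2 c n
    have h2 := int_smul_eq_zsmul X.hV2 c (f n)
    exact (congrArg f h1).trans ((map_zsmul f c n).trans h2.symm))

theorem ihomOfAdd_apply {N X : Rep.{0} ℤ Γ} (f : N.V →+ X.V) (n : N.V) :
    ihomLin (ihomOfAdd f) n = f n := rfl

/-- An additive equivariant map as a morphism in `Rep ℤ Γ`. -/
def repHomOfAdd {A Y : Rep.{0} ℤ Γ} (f : A.V →+ Y.V)
    (hcomm : ∀ (g : Γ) (a : A.V), f (A.ρ g a) = Y.ρ g (f a)) : A ⟶ Y :=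
  repHomOfAddGen (k := ℤ) f (fun c n => by
    have h1 := int_smul_eq_zsmul A.hV2 c n
    have h2 := int_smul_eq_zsmul Y.hV2 c (f n)
    exact (congrArg f h1).trans ((map_zsmul f c n).trans h2.symm)) hcomm

theorem repHomOfAdd_apply {A Y : Rep.{0} ℤ Γ} (f : A.V →+ Y.V)
    (hcomm : ∀ (g : Γ) (a : A.V), f (A.ρ g a) = Y.ρ g (f a)) (a : A.V) :
    (repHomOfAdd f hcomm).hom a = f a := rfl

end IntHelpers

variable {p : ℕ} [Fact p.Prime] {Γ : Type} [Group Γ]

/-- A `μ_p`-structure on `X`: an element `z` of order `p` generating the `p`-torsion, on which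
`Γ` acts through `χ`. -/
structure MuData (χ : Γ →* (ZMod p)ˣ) (X : Rep.{0} ℤ Γ) where
  /-- the generator -/
  z : X.V
  p_nsmul : p • z = 0
  ne_zero : z ≠ 0
  tors : ∀ x : X.V, p • x = 0 → ∃ k : ℕ, x = k • z
  act : ∀ g : Γ, X.ρ g z = ((χ g : ZMod p).val) • z

namespace MuData

variable {χ : Γ →* (ZMod p)ˣ} {X : Rep.{0} ℤ Γ} (μ : MuData χ X)

/-- `a ↦ a • z`, `ZMod p →+ X`. -/
def zl : ZMod p →+ X.V :=
  ZMod.lift p ⟨zmultiplesHom X.V μ.z, by
    rw [zmultiplesHom_apply, natCast_zsmul]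
    exact μ.p_nsmul⟩

theorem zl_natCast (k : ℕ) : μ.zl (k : ZMod p) = k • μ.z := by
  have h : μ.zl ((k : ℤ) : ZMod p) = zmultiplesHom X.V μ.z (k : ℤ) := ZMod.lift_coe p _ _
  rw [zmultiplesHom_apply, natCast_zsmul] at h
  rw [← h]
  norm_cast

theorem zl_apply (a : ZMod p) : μ.zl a = a.val • μ.z := by
  haveI : NeZero p := ⟨(Fact.out : p.Prime).ne_zero⟩
  conv_lhs => rw [← ZMod.natCast_zmod_val a]
  exact μ.zl_natCast a.val

theorem zl_one : μ.zl 1 = μ.z := by
  have := μ.zl_natCast 1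
  simpa using this

theorem addOrderOf_z : addOrderOf μ.z = p :=
  addOrderOf_eq_prime μ.p_nsmul μ.ne_zero

theorem zl_injective : Function.Injective μ.zl := by
  haveI : NeZero p := ⟨(Fact.out : p.Prime).ne_zero⟩
  rw [injective_iff_map_eq_zero]
  intro a ha
  rw [zl_apply] at ha
  have hdvd : p ∣ a.val := by
    have h := addOrderOf_dvd_of_nsmul_eq_zero ha
    rwa [μ.addOrderOf_z] at h
  have hlt : a.val < p := ZMod.val_lt a
  have h0 : a.val = 0 := Nat.eq_zero_of_dvd_of_lt hdvd hlt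
  exact (ZMod.val_eq_zero a).1 h0

theorem exists_zl_eq (x : X.V) (hx : p • x = 0) : ∃ a : ZMod p, μ.zl a = x := by
  obtain ⟨k, rfl⟩ := μ.tors x hx
  exact ⟨(k : ZMod p), μ.zl_natCast k⟩

theorem ρ_zl (g : Γ) (a : ZMod p) : X.ρ g (μ.zl a) = μ.zl ((χ g : ZMod p) * a) := by
  haveI : NeZero p := ⟨(Fact.out : p.Prime).ne_zero⟩
  rw [zl_apply, map_nsmul, μ.act g, ← mul_nsmul']
  rw [← zl_natCast]
  have h : (((a.val * (χ g : ZMod p).val : ℕ)) : ZMod p) = (χ g : ZMod p) * a := by
    rw [Nat.cast_mul, ZMod.natCast_zmod_val, ZMod.natCast_zmod_val, mul_comm]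
  rw [h]

end MuData

/-- A model over `ℤ` of the Tate-twisted dual `B^*(χ)`. -/
structure DualModel (B : Rep.{0, 0, 0} (ZMod p) Γ) (χ : Γ →* (ZMod p)ˣ) (N : Rep.{0} ℤ Γ) where
  /-- the identification -/
  e : N.V ≃+ Module.Dual (ZMod p) B.V
  equivariant : ∀ (g : Γ) (n : N.V), e (N.ρ g n) = (B.dualTwist χ).ρ g (e n)

section Lam

variable {B : Rep.{0, 0, 0} (ZMod p) Γ} {χ : Γ →* (ZMod p)ˣ} {N X : Rep.{0} ℤ Γ}
  (dm : DualModel B χ N) (μ : MuData χ X)

/-- Evaluation at `m`, as an additive map on the dual. -/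
def evalAt (m : B.V) : Module.Dual (ZMod p) B.V →+ ZMod p :=
  (LinearMap.applyₗ m : Module.Dual (ZMod p) B.V →ₗ[ZMod p] ZMod p).toAddMonoidHom

@[simp] theorem evalAt_apply (m : B.V) (f : Module.Dual (ZMod p) B.V) : evalAt m f = f m := rfl

/-- `n ↦ ⟨n, m⟩ • z`, as an additive map. -/
def lamAdd (m : B.V) : N.V →+ X.V := μ.zl.comp ((evalAt m).comp dm.e.toAddMonoidHom)

theorem lamAdd_apply (m : B.V) (n : N.V) : lamAdd dm μ m n = μ.zl (dm.e n m) := rfl

theorem lamAdd_zero (n : N.V) : lamAdd dm μ 0 n = 0 := by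
  rw [lamAdd_apply, map_zero, map_zero]

theorem lamAdd_add (m m' : B.V) (n : N.V) :
    lamAdd dm μ (m + m') n = lamAdd dm μ m n + lamAdd dm μ m' n := by
  rw [lamAdd_apply, lamAdd_apply, lamAdd_apply, map_add, map_add]

theorem DualModel.e_ρ_inv_apply (g : Γ) (n : N.V) (m : B.V) :
    dm.e (N.ρ g⁻¹ n) m = ((χ g⁻¹ : (ZMod p)ˣ) : ZMod p) * dm.e n (B.ρ g m) := by
  rw [dm.equivariant, Rep.dualTwist_ρ_apply, inv_inv]
  rfl

theorem lamAdd_ρ (g : Γ) (m : B.V) (n : N.V) :
    lamAdd dm μ (B.ρ g m) n = X.ρ g (lamAdd dm μ m (N.ρ g⁻¹ n)) := by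
  rw [lamAdd_apply, lamAdd_apply, μ.ρ_zl, dm.e_ρ_inv_apply, ← mul_assoc, ← Units.val_mul,
    ← map_mul, mul_inv_cancel, map_one, Units.val_one, one_mul]

/-- The additive map underlying `lam`. -/
def lamHomAdd : (toInt B).V →+ ((Rep.ihom N).obj X).V where
  toFun m := ihomOfAdd (lamAdd dm μ m)
  map_zero' := ihom_ext fun n => lamAdd_zero dm μ n
  map_add' m m' := ihom_ext fun n => lamAdd_add dm μ m m' n

/-- `Λ : B ⟶ Hom_ℤ(N, X)`, `m ↦ (n ↦ ⟨n, m⟩ • z)`. -/
def lam : toInt B ⟶ (Rep.ihom N).obj X :=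
  repHomOfAdd (lamHomAdd dm μ) (fun g m => ihom_ext fun n => lamAdd_ρ dm μ g m n)

theorem lam_hom_apply (m : B.V) (n : N.V) :
    ihomLin ((lam dm μ).hom m) n = μ.zl (dm.e n m) := rfl

theorem lam_hom_eq (m : B.V) : (lam dm μ).hom m = ihomOfAdd (lamAdd dm μ m) := rfl

include dm in
/-- `N` is killed by `p`. -/
theorem DualModel.p_nsmul (n : N.V) : p • n = 0 := by
  apply dm.e.injective
  rw [map_nsmul, map_zero]
  have h : ((p : ZMod p)) • dm.e n = p • dm.e n := Nat.cast_smul_eq_nsmul (ZMod p) p (dm.e n)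
  rw [← h, ZMod.natCast_self, zero_smul]

theorem lam_injective : Function.Injective (lam dm μ).hom := by
  intro (m : B.V) (m' : B.V) h
  have h1 : ∀ n : N.V, dm.e n m = dm.e n m' := fun n => by
    apply μ.zl_injective
    have := congrArg (fun φ => ihomLin φ n) h
    exact this
  have h2 : ∀ f : Module.Dual (ZMod p) B.V, f (m - m') = 0 := fun f => by
    obtain ⟨n, rfl⟩ := dm.e.surjective f
    rw [map_sub, h1 n, sub_self]
  have h3 := (Module.forall_dual_apply_eq_zero_iff (ZMod p) (m - m')).1 h2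
  exact sub_eq_zero.1 h3

theorem lam_surjective [Module.Finite (ZMod p) B.V] : Function.Surjective (lam dm μ).hom := by
  intro φ
  have h1 : ∀ n : N.V, p • ihomLin φ n = 0 := fun n => by
    rw [← map_nsmul, DualModel.p_nsmul dm, map_zero]
  have hex : ∀ f : Module.Dual (ZMod p) B.V, ∃ a : ZMod p, μ.zl a = ihomLin φ (dm.e.symm f) :=
    fun f => μ.exists_zl_eq _ (h1 _)
  choose lf hlf using hex
  let lAdd : Module.Dual (ZMod p) B.V →+ ZMod p :=
    { toFun := lf
      map_zero' := by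
        apply μ.zl_injective
        rw [hlf, map_zero, map_zero, map_zero]
      map_add' := fun f f' => by
        apply μ.zl_injective
        rw [map_add, hlf, hlf, hlf, map_add, map_add] }
  let lLin : Module.Dual (ZMod p) (Module.Dual (ZMod p) B.V) := lAdd.toZModLinearMap p
  refine ⟨(Module.evalEquiv (ZMod p) B.V).symm lLin, ?_⟩
  refine ihom_ext fun n => ?_
  change μ.zl (dm.e n ((Module.evalEquiv (ZMod p) B.V).symm lLin)) = ihomLin φ n
  rw [Module.apply_evalEquiv_symm_apply]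
  change μ.zl (lf (dm.e n)) = ihomLin φ n
  rw [hlf, AddEquiv.symm_apply_apply]

theorem lam_bijective [Module.Finite (ZMod p) B.V] : Function.Bijective (lam dm μ).hom :=
  ⟨lam_injective dm μ, lam_surjective dm μ⟩

end Lam

/-! ### Bijective morphisms induce bijections on cohomology -/

section Iso

variable {k : Type} [CommRing k] {Γ : Type} [Group Γ]

/-- The linear equivalence underlying a bijective morphism. -/
def linEquivOfBijective {A Y : Rep.{0} k Γ} (f : A ⟶ Y) (hf : Function.Bijective f.hom) :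
    A.V ≃ₗ[k] Y.V :=
  LinearEquiv.ofBijective f.hom.toLinearMap hf

theorem linEquivOfBijective_apply {A Y : Rep.{0} k Γ} (f : A ⟶ Y)
    (hf : Function.Bijective f.hom) (a : A.V) : linEquivOfBijective f hf a = f.hom a := rfl

/-- The inverse of a bijective morphism. -/
def invOfBijective {A Y : Rep.{0} k Γ} (f : A ⟶ Y) (hf : Function.Bijective f.hom) : Y ⟶ A :=
  Rep.ofHom ⟨(linEquivOfBijective f hf).symm.toLinearMap, fun g => by
    refine LinearMap.ext fun y => ?_
    apply (linEquivOfBijective f hf).injective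
    change (linEquivOfBijective f hf) ((linEquivOfBijective f hf).symm (Y.ρ g y)) =
      f.hom (A.ρ g ((linEquivOfBijective f hf).symm y))
    rw [LinearEquiv.apply_symm_apply, Rep.hom_comm_apply]
    congr 1
    exact ((linEquivOfBijective f hf).apply_symm_apply y).symm⟩

theorem invOfBijective_hom_apply {A Y : Rep.{0} k Γ} (f : A ⟶ Y)
    (hf : Function.Bijective f.hom) (y : Y.V) :
    (invOfBijective f hf).hom y = (linEquivOfBijective f hf).symm y := rfl

theorem comp_invOfBijective {A Y : Rep.{0} k Γ} (f : A ⟶ Y) (hf : Function.Bijective f.hom) :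
    f ≫ invOfBijective f hf = 𝟙 A := by
  apply Rep.hom_ext
  apply DFunLike.ext
  intro a
  exact (linEquivOfBijective f hf).symm_apply_apply a

theorem invOfBijective_comp {A Y : Rep.{0} k Γ} (f : A ⟶ Y) (hf : Function.Bijective f.hom) :
    invOfBijective f hf ≫ f = 𝟙 Y := by
  apply Rep.hom_ext
  apply DFunLike.ext
  intro y
  exact (linEquivOfBijective f hf).apply_symm_apply y

theorem map_bijective_of_bijective {A Y : Rep.{0} k Γ} (f : A ⟶ Y)
    (hf : Function.Bijective f.hom) (n : ℕ) :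
    Function.Bijective (groupCohomology.map (MonoidHom.id Γ) f n).hom := by
  have e1 : groupCohomology.map (MonoidHom.id Γ) f n ≫
      groupCohomology.map (MonoidHom.id Γ) (invOfBijective f hf) n = 𝟙 _ := by
    rw [← groupCohomology.map_id_comp, comp_invOfBijective]
    exact groupCohomology.map_id (B := A) n
  have e2 : groupCohomology.map (MonoidHom.id Γ) (invOfBijective f hf) n ≫
      groupCohomology.map (MonoidHom.id Γ) f n = 𝟙 _ := by
    rw [← groupCohomology.map_id_comp, invOfBijective_comp]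
    exact groupCohomology.map_id (B := Y) n
  refine Function.bijective_iff_has_inverse.2
    ⟨(groupCohomology.map (MonoidHom.id Γ) (invOfBijective f hf) n).hom, fun x => ?_, fun y => ?_⟩
  · have := congrArg (fun φ => φ.hom x) e1
    simpa using this
  · have := congrArg (fun φ => φ.hom y) e2
    simpa using this

end Iso

/-! ### Compatibility with change of group -/

section Tr

variable {Γ Γ' : Type} [Group Γ] [Group Γ'] (π : Γ' →* Γ)
variable {B : Rep.{0, 0, 0} (ZMod p) Γ} {χ : Γ →* (ZMod p)ˣ}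
variable {N X : Rep.{0} ℤ Γ} {N' X' : Rep.{0} ℤ Γ'}
variable (dm : DualModel B χ N) (μ : MuData χ X)
variable (dm' : DualModel (Rep.res π B) (χ.comp π) N') (μ' : MuData (χ.comp π) X')
variable (ν : N' ⟶ Rep.res π N) (ι : Rep.res π X ⟶ X')

include μ μ' in
theorem ι_zl (hι : ι.hom μ.z = μ'.z) (a : ZMod p) : ι.hom (μ.zl a) = μ'.zl a := by
  rw [μ.zl_apply, μ'.zl_apply, ← hι]
  exact map_nsmul ι.hom a.val μ.z

theorem lam_tr (hν : ∀ n' : N'.V, dm.e (ν.hom n') = dm'.e n') (hι : ι.hom μ.z = μ'.z)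
    (m : B.V) : (trIhom π ν ι).hom ((lam dm μ).hom m) = (lam dm' μ').hom m := by
  refine ihom_ext fun n' => ?_
  change ι.hom (μ.zl (dm.e (ν.hom n') m)) = μ'.zl (dm'.e n' m)
  rw [ι_zl π μ μ' ι hι, hν]

end Tr

end

end Fermat.Agent.S55.E1.H603

end
-- ===== PACK-END S55/E1/H603/Lambda.lean

-- ===== PACK-BEGIN S55/GAD/Assembly.lean
section
/-
S55 / G-ADAPTER (sub-architect helper955): ASSEMBLY.
`globalSpecMu_of` : the leaf specs of `GAD/Spec.lean` imply `Tow.GlobalSpecMu S p`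
(the final target of layer G, `Spec/Datum2.lean`).  No `sorry`.
-/


set_option autoImplicit false

open CategoryTheory

namespace Fermat.Agent.S55.GAD

open Fermat.Agent.S55 Fermat.Agent.S55.Tow Fermat.Agent.S55.E1.H594 Fermat.Agent.S55.G

noncomputable section

variable {S : Finset Nat.Primes} {p : ℕ}

lemma isLocalSum_iff (L : Level S) (c : (CT L).V) :
    (datum S p).IsLocalSum L c ↔ ∃ x : JSV L, c = mkC L (x, 0) := by
  constructor
  · rintro ⟨x, hx⟩
    exact ⟨x, hx.trans (sum_jT L x)⟩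
  · rintro ⟨x, hx⟩
    exact ⟨x, hx.trans (sum_jT L x).symm⟩

/-- gd4 from the dictionary of `S`-units. -/
theorem gd4_of (hSU : SUnitDictSpec S) (L : Level S) (x : ∀ q : S, (L.J q.1).V) :
    ∑ q : S, ((datum S p).j L q.1).hom (x q) = 0 ↔
      ∃ e : L.units.V, L.IsSUnit e ∧ ∀ q : S, x q = (L.diag q.1).hom e := by
  show ∑ q : S, (jT L q.1).hom (x q) = 0 ↔ _
  rw [sum_jT, mkC_eq_zero_iff]
  constructor
  · rintro ⟨e, he⟩
    refine ⟨e, (hSU L e).1 (congrArg Prod.snd he), fun q => ?_⟩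
    exact (congrFun (congrArg Prod.fst he) q).symm
  · rintro ⟨e, he, hx⟩
    refine ⟨e, Prod.ext (funext fun q => (hx q).symm) ((hSU L e).2 he)⟩

/-- gd5 from capitulation. -/
theorem gd5_of (hCap : CapitulationSpec S p) (L : Level S) (c : ((datum S p).C L).V) (a : ℕ)
    (hc : (datum S p).IsLocalSum L (p ^ a • c)) :
    ∃ (L' : Level S) (h : L ≤ L'), (datum S p).IsLocalSum L' (((datum S p).tr h).hom c) := by
  obtain ⟨⟨x, d⟩, rfl⟩ := mkC_surjective L c
  obtain ⟨x', hx'⟩ := (isLocalSum_iff L _).1 hc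
  have h0 : mkC L (p ^ a • (x, d) - (x', 0)) = 0 := by
    rw [map_sub, map_nsmul]
    exact sub_eq_zero.2 hx'
  obtain ⟨e, he⟩ := (mkC_eq_zero_iff L _).1 h0
  have hd : divT L e = p ^ a • d := by
    have h2 : (diagT L e).2 = (p ^ a • ((x, d) : JDV L) - ((x', 0) : JDV L)).2 :=
      congrArg Prod.snd he
    have h3 : (p ^ a • ((x, d) : JDV L) - ((x', 0) : JDV L)).2 = p ^ a • d := by
      simp
    exact h2.trans h3
  obtain ⟨L', h, z, hz⟩ := hCap L d a e hd
  refine ⟨L', h, (isLocalSum_iff L' _).2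
    ⟨fun q => (Level.trJ h q.1).hom (x q) - (L'.diag q.1).hom z, ?_⟩⟩
  show (trT h).hom (mkC L (x, d)) = _
  rw [trT_mkC]
  have h1 : (trJD h (x, d) : JDV L') =
      ((fun q => (Level.trJ h q.1).hom (x q) - (L'.diag q.1).hom z, 0) : JDV L') + diagT L' z := by
    refine Prod.ext (funext fun q => ?_) ?_
    · show (Level.trJ h q.1).hom (x q) =
        ((Level.trJ h q.1).hom (x q) - (L'.diag q.1).hom z) + (L'.diag q.1).hom z
      abel
    · show divTr h d = 0 + divT L' z
      rw [zero_add, hz]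
  rw [h1, map_add, mkC_diagT, add_zero]

/-- gd7a: `tr` is compatible with `j` and `trJ`. -/
theorem gd7a (p : ℕ) {L L' : Level S} (h : L ≤ L') (q : Nat.Primes) (hq : q ∈ S)
    (x : (L.J q).V) :
    ((datum S p).tr h).hom (((datum S p).j L q).hom x) =
      ((datum S p).j L' q).hom ((Level.trJ h q).hom x) := by
  show (trT h).hom ((jT L q).hom x) = (jT L' q).hom ((Level.trJ h q).hom x)
  rw [jT_apply_of_mem L ⟨q, hq⟩, jT_apply_of_mem L' ⟨q, hq⟩, trT_mkC]
  congr 1
  refine Prod.ext (funext fun q' => ?_) (map_zero _)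
  show (Level.trJ h q'.1).hom ((Pi.single (⟨q, hq⟩ : S) x : JSV L) q') =
    (Pi.single (⟨q, hq⟩ : S) ((Level.trJ h q).hom x) : JSV L') q'
  by_cases hqq : q' = ⟨q, hq⟩
  · subst hqq
    have h1 : (Pi.single (⟨q, hq⟩ : S) x : JSV L) ⟨q, hq⟩ = x := Pi.single_eq_same _ _
    have h2 : (Pi.single (⟨q, hq⟩ : S) ((Level.trJ h q).hom x) : JSV L') ⟨q, hq⟩ =
        (Level.trJ h q).hom x := Pi.single_eq_same _ _
    rw [h1, h2]
  · have h1 : (Pi.single (⟨q, hq⟩ : S) x : JSV L) q' = 0 := Pi.single_eq_of_ne hqq _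
    have h2 : (Pi.single (⟨q, hq⟩ : S) ((Level.trJ h q).hom x) : JSV L') q' = 0 :=
      Pi.single_eq_of_ne hqq _
    rw [h1, h2, map_zero]

lemma trJ_trans {L L' L'' : Level S} (h : L ≤ L') (h' : L' ≤ L'') (q : Nat.Primes)
    (x : (L.J q).V) :
    (Level.trJ h' q).hom ((Level.trJ h q).hom x) = (Level.trJ (h.trans h') q).hom x := by
  apply L''.J_ext q
  intro g
  induction g using QuotientGroup.induction_on with
  | H g => rfl

/-- gd7b from the transitivity of the extension of divisors. -/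
theorem gd7b_of (hTr : DivTrTransSpec S) (p : ℕ) {L L' L'' : Level S} (h : L ≤ L')
    (h' : L' ≤ L'') (c : ((datum S p).C L).V) :
    ((datum S p).tr h').hom (((datum S p).tr h).hom c) = ((datum S p).tr (h.trans h')).hom c := by
  obtain ⟨⟨x, d⟩, rfl⟩ := mkC_surjective L c
  show (trT h').hom ((trT h).hom (mkC L (x, d))) = (trT (h.trans h')).hom (mkC L (x, d))
  rw [trT_mkC, trT_mkC, trT_mkC]
  congr 1
  exact Prod.ext (funext fun q => trJ_trans h h' q.1 (x q)) (hTr h h' d)

/-- **ASSEMBLY.**  The leaf specs imply the final target of layer G. -/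
theorem globalSpecMu_of (hSU : SUnitDictSpec S) (hTr : DivTrTransSpec S)
    (hCap : CapitulationSpec S p) (hEx : ExistenceSpec S p) (hCM : ClassModuleSpec S p)
    (hJ : JInjSpec S p) (hInf : InfInjSpec S p) : GlobalSpecMu S p :=
  ⟨datum S p,
    { gd1 := fun L hL => gammaT_spec S p L (hCM L hL)
      gd3 := fun L hL q hq y hy h0 => hJ L hL q hq y hy h0
      gd4 := fun L x => gd4_of hSU L x
      gd5 := fun L c a hc => gd5_of hCap L c a hc
      gd6 := fun L₀ hL₀ => hEx L₀ hL₀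
      gd7a := fun h q hq x => gd7a p h q hq x
      gd7b := fun h h' c => gd7b_of hTr p h h' c
      gd8 := fun h hL z hz h0 => hInf h hL z hz h0 }⟩

end

end Fermat.Agent.S55.GAD

end
-- ===== PACK-END S55/GAD/Assembly.lean

-- ===== PACK-BEGIN S55/GAD/H953/InfInj.lean
section
/-
S55 / G-ADAPTER, leaf GAD-INF (gd8), helper953.

ABSTRACT PART (`T7` of helper293's memo, in the exact shape of `Tow` gd8):
`π : G' →* G` surjective, `A : Rep k G'`, `B : Rep k G`, `f : Rep.res π B ⟶ A` injective with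
image the `ker π`-invariants of `A`, `P ≤ ker π` with `H¹(P, A) = 0`, `a` coprime to
`[ker π : P]`.  Then `groupCohomology.map π f 2 : H²(G, B) → H²(G', A)` is injective on the
elements killed by `a`.

Proof: `map π f 2` factors as the isomorphism `H²(G, B) ≅ H²(G' ⧸ ker π, A^{ker π})` followed by
the inflation map, and the latter is injective on `a`-torsion by helper244's `p`-local
inflation–restriction (`T.H244.infRes2_of_subgroup`).

TOWER PART: `infInj_of : ClassModuleSpec S p → DescSpec S → InfInjSpec S p`.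
-/




set_option autoImplicit false
set_option linter.unusedSectionVars false
set_option linter.style.haveILetI false

open CategoryTheory groupCohomology

namespace Fermat.Agent.S55.GAD.H953

open Fermat.Agent.S55 Fermat.Agent.S55.T

noncomputable section

section Abstract

variable {k G' G : Type} [CommRing k] [Group G'] [Group G]
variable (π : G' →* G)
variable (A : Rep.{0} k G') (B : Rep.{0} k G) (f : Rep.res π B ⟶ A)

/-- The image of `f` consists of `ker π`-invariants. -/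
lemma f_mem_invariants (b : B.V) :
    f.hom b ∈ Representation.invariants (A.ρ.comp π.ker.subtype) := by
  intro n
  have h1 := Rep.hom_comm_apply f (n : G') b
  have h2 : (Rep.res π B).ρ (n : G') b = b := by
    show B.ρ (π (n : G')) b = b
    rw [(MonoidHom.mem_ker).1 n.2, map_one]
    rfl
  rw [h2] at h1
  exact h1.symm

/-- `f`, corestricted to the invariants, as a linear equivalence `B ≃ A^{ker π}`. -/
def invEquiv (hf : Function.Injective f.hom)
    (hrange : ∀ a : A.V, (∀ n ∈ π.ker, A.ρ n a = a) → a ∈ Set.range f.hom) :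
    B.V ≃ₗ[k] (A.quotientToInvariants π.ker).V :=
  LinearEquiv.ofBijective
    (f.hom.toLinearMap.codRestrict (Representation.invariants (A.ρ.comp π.ker.subtype))
      (f_mem_invariants π A B f))
    ⟨fun x y h => hf (congrArg Subtype.val h), fun y => by
      obtain ⟨b, hb⟩ := hrange y.1 (fun n hn => y.2 ⟨n, hn⟩)
      exact ⟨b, Subtype.ext hb⟩⟩

lemma invEquiv_coe (hf : Function.Injective f.hom)
    (hrange : ∀ a : A.V, (∀ n ∈ π.ker, A.ρ n a = a) → a ∈ Set.range f.hom) (b : B.V) :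
    ((invEquiv π A B f hf hrange b : (A.quotientToInvariants π.ker).V) : A.V) = f.hom b := rfl

/-- The comparison isomorphism `Hⁿ(G, B) ≅ Hⁿ(G' ⧸ ker π, A^{ker π})`. -/
def compIso (hπ : Function.Surjective π) (hf : Function.Injective f.hom)
    (hrange : ∀ a : A.V, (∀ n ∈ π.ker, A.ρ n a = a) → a ∈ Set.range f.hom) (n : ℕ) :
    groupCohomology B n ≅ groupCohomology (A.quotientToInvariants π.ker) n :=
  groupCohomology.mapIso (QuotientGroup.quotientKerEquivOfSurjective π hπ).symm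
    (invEquiv π A B f hf hrange) (fun g => by
      obtain ⟨g', rfl⟩ := hπ g
      refine LinearMap.ext fun b => Subtype.ext ?_
      have he : (QuotientGroup.quotientKerEquivOfSurjective π hπ).symm (π g') =
          (QuotientGroup.mk g' : G' ⧸ π.ker) := by
        rw [MulEquiv.symm_apply_eq]
        rfl
      show f.hom (B.ρ (π g') b) = _
      rw [he]
      exact Rep.hom_comm_apply f g' b) n

/-- `map π f n` is the comparison isomorphism followed by inflation. -/
lemma map_eq_compIso_infMap (hπ : Function.Surjective π) (hf : Function.Injective f.hom)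
    (hrange : ∀ a : A.V, (∀ n ∈ π.ker, A.ρ n a = a) → a ∈ Set.range f.hom) (n : ℕ) :
    groupCohomology.map π f n = (compIso π A B f hπ hf hrange n).hom ≫ infMap A π.ker n := by
  unfold compIso
  rw [groupCohomology.mapIso_hom]
  rw [← groupCohomology.map_comp]
  refine groupCohomology.map_congr ?_ ?_ n
  · ext g'
    rfl
  · rfl

/-- **Abstract gd8.**  `map π f 2` is injective on the elements killed by `a`, if `a` is coprime
to the index of a subgroup `P ≤ ker π` with `H¹(P, A) = 0`. -/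
theorem map_eq_zero_imp (hπ : Function.Surjective π) (hf : Function.Injective f.hom)
    (hrange : ∀ a : A.V, (∀ n ∈ π.ker, A.ρ n a = a) → a ∈ Set.range f.hom)
    [Finite π.ker] (P : Subgroup π.ker)
    (hP : ∀ z : groupCohomology (resSub (resSub A π.ker) P) 1, z = 0)
    {a : ℕ} (ha : a.Coprime P.index)
    (z : groupCohomology B 2) (haz : a • z = 0)
    (hz : (groupCohomology.map π f 2).hom z = 0) : z = 0 := by
  have hfac := map_eq_compIso_infMap π A B f hπ hf hrange 2
  set e := compIso π A B f hπ hf hrange 2 with he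
  have hy : (infMap A π.ker 2).hom (e.hom.hom z) = 0 := by
    have : (groupCohomology.map π f 2).hom z = (infMap A π.ker 2).hom (e.hom.hom z) := by
      rw [hfac]
      rfl
    rw [← this]
    exact hz
  have hay : a • e.hom.hom z = 0 := by
    rw [← map_nsmul, haz, map_zero]
  have h0 : e.hom.hom z = 0 :=
    (H244.infRes2_of_subgroup A π.ker P hP ha).1 _ hay hy
  have hinj : Function.Injective e.hom.hom := by
    intro x y hxy
    have := congrArg e.inv.hom hxy
    simpa using this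
  exact hinj (h0.trans (map_zero _).symm)

end Abstract

section Tower

open Fermat.Agent.S55.Tow

variable (S : Finset Nat.Primes) (p : ℕ)

/-- **GAD-DESC** (refined Galois descent for the CANONICAL transition map of the concrete
datum): `trT h : C(L) → C(L')` is injective, and every `Gal(L'/L)`-invariant element of `C(L')`
is in its image. -/
def DescSpec : Prop :=
  ∀ {L L' : Level S} (h : L ≤ L'), Function.Injective (trT h).hom ∧
    ∀ c : (CT L').V, (∀ n ∈ Level.relGal h, (CT L').ρ n c = c) → c ∈ Set.range (trT h).hom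

/-- The `H¹`-vanishing half of GAD-CM (`gd1`): `H¹(H, C(L)) = 0` for every `p`-subgroup
`H ≤ Gal(L/ℚ)`, `L ⊇ μ_p`.  (Consequence of `ClassModuleSpec`; equivalently of `G.PClassUpperSpec`
transported along GAD-ISO.) -/
def H1VanishSpec : Prop :=
  ∀ L : Level S, L.HasMu p → ∀ H : Subgroup L.Gal, IsPGroup p H →
    Limits.IsZero (groupCohomology (T.resSub (CT L) H) 1)

variable {S p}

theorem h1Vanish_of_classModule (hCM : ClassModuleSpec S p) : H1VanishSpec S p := by
  intro L hL H hH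
  obtain ⟨γ, hγ⟩ := hCM L hL
  exact (hγ H hH).1

/-- **GAD-INF (gd8) from `H¹`-vanishing and descent.** -/
theorem infInj_of_h1Vanish (hp : p.Prime) (h1 : H1VanishSpec S p) (hD : DescSpec S) :
    InfInjSpec S p := by
  intro L L' h hL z hz hinf
  haveI : Fact p.Prime := ⟨hp⟩
  have hL' : L'.HasMu p := hL.mono h
  obtain ⟨hinj, hrange⟩ := hD h
  have hsurj : Function.Surjective (Level.proj h) := by
    intro g
    induction g using QuotientGroup.induction_on with
    | H σ => exact ⟨QuotientGroup.mk σ, rfl⟩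
  obtain ⟨P⟩ : Nonempty (Sylow p (Level.proj h).ker) := inferInstance
  have hPp : IsPGroup p ((P : Subgroup (Level.proj h).ker).map (Level.proj h).ker.subtype) :=
    P.isPGroup'.map _
  have hP : ∀ z : groupCohomology
      (resSub (resSub (CT L') (Level.proj h).ker) (P : Subgroup (Level.proj h).ker)) 1, z = 0 :=
    H954.eq_zero_of_iso_of_isZero
      (H954.resResIso (CT L') (Level.proj h).ker (P : Subgroup (Level.proj h).ker) 1)
      (h1 L' hL' _ hPp)
  have hcop : p.Coprime (P : Subgroup (Level.proj h).ker).index :=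
    (Nat.Prime.coprime_iff_not_dvd hp).2 P.not_dvd_index
  exact map_eq_zero_imp (Level.proj h) (CT L') (CT L) (trT h) hsurj hinj
    (fun c hc => hrange c hc) (P : Subgroup (Level.proj h).ker) hP hcop z hz hinf

/-- **GAD-INF (gd8) from GAD-CM and GAD-DESC.** -/
theorem infInj_of (hp : p.Prime) (hCM : ClassModuleSpec S p) (hD : DescSpec S) :
    InfInjSpec S p :=
  infInj_of_h1Vanish hp (h1Vanish_of_classModule hCM) hD

end Tower

end

end Fermat.Agent.S55.GAD.H953

end
-- ===== PACK-END S55/GAD/H953/InfInj.lean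

-- ===== PACK-BEGIN S55/G/Rec/Tow/Spec.lean
section
/-
S55 / layer G / block REC / adapter TOW (subtask 379) — FROZEN INTERFACE.
Sub-architect: helper417.   Plan + proofs sketches: `coord/S55-REC-TOW.md` (origin/helper417).

Everything here is a definition or a `def XxxSpec : Prop`; NO sorry.
Producers prove `theorem xxx : XxxSpec` (or `xxx_of : Hyp₁ → … → XxxSpec`) in
`Fermat/Agent/S55/G/Rec/Tow/H<seat>/*.lean`, namespace `Fermat.Agent.S55.G.Rec.TOW.H<seat>`.

TARGETS (what the G-ADAPTER, helper955, transports to his tower datum):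
  `Gd1Spec p`, `Gd3Spec p`, `Gd8Spec p`   on `lvlC F = G.CRep S F.Gal F.F`.
INPUTS:
  * `SemiLocalInv p`  : finite-level semilocal invariants `σ` with reciprocity (from block REC);
  * `UpSpec p`, `DescSpec`, `RamSpec p` : Tower forms of G-UP, G-DESC, and the auxiliary level
    `M = F·L(r,k)`;  `G.SIndepSpec`, `G.ClassShortExactSpec` (as they are);
  * pure algebra: `ExactCountSpec`, `ResTopSpec`, `ClassModuleOfSylowSpec`, `InfInjSpec`,
    `InfResLiftSpec`, `ResMapNatSpec`, `PPrimaryLiftSpec`, `H2ExactSpec`, `ResCoeffNatSpec`.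
-/



set_option autoImplicit false

open CategoryTheory groupCohomology
open scoped NumberField

noncomputable section

namespace Fermat.Agent.S55.G.Rec.TOW

open Fermat.Agent.S55 Fermat.Agent.S55.Tow Fermat.Agent.S55.E1.H594
open IsDedekindDomain

/-! ## A. Reciprocity at finite level -/

/-- **FinRec**: a system of semilocal invariants `σ_H = ∑_{v | S} inv_v : H²(H, J_S(M)) → ℚ/ℤ`
for all Tower levels `M` (of all `S`) and all subgroups `H ≤ Gal(M/ℚ)` (base field `K = M^H`, the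
sum runs over the places `v` of `K` above `S`), with the four properties used by TOW. -/
structure SemiLocalInv (p : ℕ) where
  /-- the semilocal invariant -/
  σ : ∀ {S : Finset Nat.Primes} (M : Level S) (H : Subgroup M.Gal),
    groupCohomology (T.resSub (lvlJ M) H) 2 →+ AddCircle (1 : ℚ)
  /-- RECIPROCITY: a `p`-primary class `x ∈ H²(H, Mˣ)` with trivial divisor class
  (`ord_* x = 0` in `H²(H, Div^S(M))`, i.e. `x` is locally trivial outside `S`) has
  `∑_{v | S} inv_v(x_v) = 0`. -/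
  recip : ∀ {S : Finset Nat.Primes} (M : Level S) (H : Subgroup M.Gal)
    (x : groupCohomology (T.resSub (lvlL M) H) 2), E1.IsPPrimary p x →
    h2Sub (G.ordRepHom S M.Gal M.F) H x = 0 →
    σ M H (h2Sub (diagJRepHom S M.Gal M.F) H x) = 0
  /-- RESTRICTION multiplies the semilocal invariant by the index
  (`inv ∘ res = degree · inv` and `∑_{w | v} [K'_w : K_v] = [K' : K]`). -/
  resIndex : ∀ {S : Finset Nat.Primes} (M : Level S) (H : Subgroup M.Gal)
    (y : groupCohomology (lvlJ M) 2),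
    σ M H (res2 (lvlJ M) H y) = H.index • σ M ⊤ (res2 (lvlJ M) ⊤ y)
  /-- INJECTIVITY over `ℚ` at one prime: a `p`-primary class of `H²(Gal(M/ℚ), J_S(M))`
  concentrated at `r` with invariant `0` is `0`  (Shapiro + injectivity of `inv_r`). -/
  injAt : ∀ {S : Finset Nat.Primes} (M : Level S) (r : Nat.Primes)
    (y : groupCohomology (lvlJ M) 2), E1.IsPPrimary p y → IsAt S M.Gal M.F r y →
    σ M ⊤ (res2 (lvlJ M) ⊤ y) = 0 → y = 0
  /-- LOCAL CLASSES: if the `p`-group `Z ≤ H` fixes a prime of `M` above `r ∈ S`, there is a class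
  in `H²(H, J_S(M))` killed by `|Z|` whose invariant has order exactly `|Z|`
  (local class field theory at the place below that prime: `|Z|` divides the local degree). -/
  locClass : ∀ {S : Finset Nat.Primes} (M : Level S) (r : Nat.Primes), r ∈ S →
    ∀ H Z : Subgroup M.Gal, Z ≤ H → IsPGroup p Z → FixesPrimeAbove M r Z →
    ∃ y : groupCohomology (T.resSub (lvlJ M) H) 2,
      Nat.card Z • y = 0 ∧ ∀ n : ℕ, n • σ M H y = 0 → Nat.card Z ∣ n

/-- **FinRec** as a proposition. -/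
def FinRecSpec (p : ℕ) : Prop := Nonempty (SemiLocalInv p)

/-! ## B. Tower forms of the inputs from layer G -/

/-- **UP-TOW** (Tower form of `G.PClassUpperSpec`): for a level `M ⊇ μ_p` of `S ∋ p` and every
`p`-subgroup `H ≤ Gal(M/ℚ)`: `H¹(H, C_S(M)) = 0` and `|H²(H, C_S(M))|` divides `|H|`. -/
def UpSpec (p : ℕ) : Prop :=
  ∀ (S : Finset Nat.Primes) (hp : p.Prime), p ≠ 2 → (⟨p, hp⟩ : Nat.Primes) ∈ S →
    ∀ M : Level S, M.HasMu p → ∀ H : Subgroup M.Gal, IsPGroup p H →
      Limits.IsZero (groupCohomology (T.resSub (lvlC M) H) 1) ∧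
      T.CardDvd (groupCohomology (T.resSub (lvlC M) H) 2) (Nat.card H)

/-- `ι : Res_π C ⟶ C'` identifies `C` with the invariants of `ker π` in `C'`. -/
def IsInvIncl {Γ' Γ : Type} [Group Γ'] [Group Γ] (π : Γ' →* Γ) {C : Rep.{0} ℤ Γ}
    {C' : Rep.{0} ℤ Γ'} (ι : Rep.res π C ⟶ C') : Prop :=
  Function.Injective ι.hom ∧
    ∀ c : C'.V, (∀ n ∈ π.ker, C'.ρ n c = c) → c ∈ Set.range ι.hom

/-- **DESC-TOW** (Tower form of `G.DescentSpec`): for levels `L ≤ M` of `S ≠ ∅` there is a
transition map `C_S(L) → C_S(M)`, equivariant along `Gal(M/ℚ) → Gal(L/ℚ)`, injective, whose image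
contains (hence is) the invariants of `Gal(M/L)`. -/
def DescSpec : Prop :=
  ∀ (S : Finset Nat.Primes), S.Nonempty → ∀ (L M : Level S) (h : L ≤ M),
    ∃ ι : Rep.res (Level.proj h) (lvlC L) ⟶ lvlC M, IsInvIncl (Level.proj h) ι

/-- **RAM** (auxiliary level): for a level `L` of `S`, a prime `p` and `k`, there are a prime
`r ∉ S` and a level `M ≥ L` of `S ∪ {r}` such that `Gal(M/L)` has order `p^k` and fixes a prime of
`M` above `r`.  (`r ≡ 1 mod p^k`, `M = L·L(r,k)`, `L(r,k) ⊂ ℚ(ζ_r)` of degree `p^k`: `M/L` is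
totally ramified above `r`, so `Gal(M/L)` is the inertia group of any prime above `r`.) -/
def RamSpec (p : ℕ) : Prop :=
  p.Prime → ∀ (S : Finset Nat.Primes) (L : Level S) (k : ℕ),
    ∃ (r : Nat.Primes) (_ : r ∉ S) (M : Level (insert r S))
      (h : Level.ofLE (Finset.subset_insert r S) L ≤ M),
      Nat.card (Level.relGal h) = p ^ k ∧ FixesPrimeAbove M r (Level.relGal h)

/-! ## C. Pure algebra -/

/-- **ALG-EX** (exactness by counting).  `j : X → Y`, `σ : X → T` additive, `ker j ⊆ ker σ`,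
`|Y|` divides `m` and some `σ y₀` has order exactly `m`.  Then `ker σ ⊆ ker j` and `|Y| = m`. -/
def ExactCountSpec : Prop :=
  ∀ (X Y T : Type) [AddCommGroup X] [AddCommGroup Y] [AddCommGroup T] (j : X →+ Y) (σ : X →+ T)
    (m : ℕ), 0 < m → (∀ x, j x = 0 → σ x = 0) → Finite Y → Nat.card Y ∣ m →
    (∃ y₀ : X, ∀ n : ℕ, n • σ y₀ = 0 → m ∣ n) →
    (∀ x, σ x = 0 → j x = 0) ∧ Nat.card Y = m

/-- **ALG-TOP**: restriction to the subgroup `⊤` is bijective. -/
def ResTopSpec : Prop :=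
  ∀ (Γ : Type) [Group Γ] (A : Rep.{0} ℤ Γ) (n : ℕ),
    Function.Bijective (T.resMap A (⊤ : Subgroup Γ) n).hom

/-- **ALG-CM** (class module at `p` from a Sylow subgroup).  If `H¹(H, C) = 0` and
`|H²(H, C)| ∣ |H|` for all `p`-subgroups `H`, and `res_P γ` has order (at least) `|P|` for ONE
Sylow `p`-subgroup `P`, then `(C, γ)` is a class module at `p`.  (Only `T.ResIndexSpec`.) -/
def ClassModuleOfSylowSpec : Prop :=
  ∀ (p : ℕ), p.Prime → ∀ (Γ : Type) [Group Γ] [Finite Γ] (C : Rep.{0} ℤ Γ)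
    (γ : groupCohomology C 2) (P : Subgroup Γ), IsPGroup p P → ¬ p ∣ P.index →
    (∀ H : Subgroup Γ, IsPGroup p H →
      Limits.IsZero (groupCohomology (T.resSub C H) 1) ∧
      T.CardDvd (groupCohomology (T.resSub C H) 2) (Nat.card H)) →
    (∀ n : ℕ, n • res2 C P γ = 0 → Nat.card P ∣ n) →
    E1.IsClassModuleAt p C γ

/-- **ALG-INF** (memo T7): if `C = C'^{ker π}` and `H¹(Q, C') = 0` for all `p`-subgroups
`Q ≤ ker π`, then inflation `H²(Γ, C) → H²(Γ', C')` is injective on `p`-primary classes. -/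
def InfInjSpec : Prop :=
  ∀ (p : ℕ), p.Prime → ∀ (Γ' Γ : Type) [Group Γ'] [Group Γ] [Finite Γ'] (π : Γ' →* Γ),
    Function.Surjective π →
    ∀ (C : Rep.{0} ℤ Γ) (C' : Rep.{0} ℤ Γ') (ι : Rep.res π C ⟶ C'), IsInvIncl π ι →
    (∀ Q : Subgroup Γ', Q ≤ π.ker → IsPGroup p Q →
      Limits.IsZero (groupCohomology (T.resSub C' Q) 1)) →
    ∀ z : groupCohomology C 2, E1.IsPPrimary p z →
      (groupCohomology.map π ι 2).hom z = 0 → z = 0

/-- **ALG-LIFT** (inflation–restriction + descent): if `C = C'^{ker π}` and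
`H¹(ker π, C') = 0`, every class of `H²(Γ', C')` which dies on `ker π` is inflated from
`H²(Γ, C)`. -/
def InfResLiftSpec : Prop :=
  ∀ (Γ' Γ : Type) [Group Γ'] [Group Γ] [Finite Γ'] (π : Γ' →* Γ), Function.Surjective π →
    ∀ (C : Rep.{0} ℤ Γ) (C' : Rep.{0} ℤ Γ') (ι : Rep.res π C ⟶ C'), IsInvIncl π ι →
    Limits.IsZero (groupCohomology (T.resSub C' π.ker) 1) →
    ∀ Y : groupCohomology C' 2, res2 C' π.ker Y = 0 →
      ∃ γ : groupCohomology C 2, (groupCohomology.map π ι 2).hom γ = Y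

/-- **ALG-NAT**: restriction commutes with inflation: if `res_P z = 0` then
`res_{π⁻¹ P} (inf z) = 0`. -/
def ResMapNatSpec : Prop :=
  ∀ (Γ' Γ : Type) [Group Γ'] [Group Γ] (π : Γ' →* Γ)
    (C : Rep.{0} ℤ Γ) (C' : Rep.{0} ℤ Γ') (ι : Rep.res π C ⟶ C') (P : Subgroup Γ)
    (z : groupCohomology C 2), res2 C P z = 0 →
      res2 C' (P.comap π) ((groupCohomology.map π ι 2).hom z) = 0

/-- **ALG-PP** (`p`-primary lift): in a group killed by `N > 0`, a preimage of a `p`-primary
element can be chosen `p`-primary. -/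
def PPrimaryLiftSpec : Prop :=
  ∀ (p : ℕ), p.Prime → ∀ (X Y : Type) [AddCommGroup X] [AddCommGroup Y] (f : X →+ Y) (N : ℕ),
    0 < N → (∀ x : X, N • x = 0) → ∀ x : X, E1.IsPPrimary p (f x) →
      ∃ x' : X, E1.IsPPrimary p x' ∧ f x' = f x

/-- **ALG-SES**: exactness of `H²(H, X₁) → H²(H, X₂) → H²(H, X₃)` for a short exact sequence of
`Γ`-modules, for `Γ` and for all its subgroups. -/
def H2ExactSpec : Prop :=
  ∀ (Γ : Type) [Group Γ] (X : ShortComplex (Rep.{0} ℤ Γ)), X.ShortExact →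
    (∀ z : groupCohomology X.X₂ 2, h2Top X.g z = 0 → ∃ x, h2Top X.f x = z) ∧
    (∀ (H : Subgroup Γ) (z : groupCohomology (T.resSub X.X₂ H) 2),
      h2Sub X.g H z = 0 → ∃ x, h2Sub X.f H x = z)

/-- **ALG-RCN**: restriction commutes with change of coefficients. -/
def ResCoeffNatSpec : Prop :=
  ∀ (Γ : Type) [Group Γ] (A B : Rep.{0} ℤ Γ) (f : A ⟶ B) (H : Subgroup Γ)
    (x : groupCohomology A 2), h2Sub f H (res2 A H x) = res2 B H (h2Top f x)

/-! ## D. Intermediate statements -/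

/-- **KERJ** (reciprocity in the form used below): a `p`-primary class `a ∈ H²(H, J_S(M))` which
dies in `H²(H, C_S(M))` has `σ_H(a) = 0`.
(`a = diag_* x` with `ord_* x = 0` by `G.ClassShortExactSpec` + `H2ExactSpec`; `x` can be taken
`p`-primary by `PPrimaryLiftSpec` + `T.CardTorsionSpec`; then `recip`.) -/
def KerJSpec (p : ℕ) (I : SemiLocalInv p) : Prop :=
  ∀ (S : Finset Nat.Primes), S.Nonempty → ∀ (M : Level S) (H : Subgroup M.Gal)
    (a : groupCohomology (T.resSub (lvlJ M) H) 2), E1.IsPPrimary p a →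
    h2Sub (lvlj M) H a = 0 → I.σ M H a = 0


/-- **T4'** (exactness at a totally ramified place).  `M ⊇ μ_p` a level of `S ∋ p`, `Z ≤ Gal(M/ℚ)`
a `p`-group fixing a prime of `M` above `r ∈ S`.  Then a class `a ∈ H²(Z, J_S(M))` with
`σ_Z(a) = 0` dies in `H²(Z, C_S(M))`, and `|H²(Z, C_S(M))| = |Z|`.
(From `KerJSpec`, `locClass`, `UpSpec`, `ExactCountSpec`, `T.CardTorsionSpec`.) -/
def TotExactSpec (p : ℕ) (I : SemiLocalInv p) : Prop :=
  ∀ (S : Finset Nat.Primes) (hp : p.Prime), p ≠ 2 → (⟨p, hp⟩ : Nat.Primes) ∈ S →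
    ∀ M : Level S, M.HasMu p → ∀ r : Nat.Primes, r ∈ S → ∀ Z : Subgroup M.Gal, IsPGroup p Z →
      FixesPrimeAbove M r Z →
      (∀ a : groupCohomology (T.resSub (lvlJ M) Z) 2, I.σ M Z a = 0 → h2Sub (lvlj M) Z a = 0) ∧
      Nat.card (groupCohomology (T.resSub (lvlC M) Z) 2) = Nat.card Z

/-! ## E. Targets -/

/-- **GD1-TOW**: every level `F ⊇ μ_p` of `S ∋ p` has a fundamental class at `p`. -/
def Gd1Spec (p : ℕ) : Prop :=
  ∀ (S : Finset Nat.Primes) (hp : p.Prime), p ≠ 2 → (⟨p, hp⟩ : Nat.Primes) ∈ S →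
    ∀ L : Level S, L.HasMu p →
      ∃ γ : groupCohomology (lvlC L) 2, E1.IsClassModuleAt p (lvlC L) γ

/-- **GD3-TOW**: `j_* : H²(Gal(F/ℚ), J_S(F)) → H²(Gal(F/ℚ), C_S(F))` is injective on `p`-primary
classes concentrated at one prime `q ∈ S`. -/
def Gd3Spec (p : ℕ) : Prop :=
  ∀ (S : Finset Nat.Primes) (L : Level S) (q : Nat.Primes), q ∈ S →
    ∀ y : groupCohomology (lvlJ L) 2, E1.IsPPrimary p y → IsAt S L.Gal L.F q y →
      h2Top (lvlj L) y = 0 → y = 0

/-- **GD8-TOW**: for levels `L ≤ M` of `S ∋ p`, `M ⊇ μ_p`, and ANY transition map `ι` identifying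
`C_S(L)` with `C_S(M)^{Gal(M/L)}`, the inflation `H²(Gal(L/ℚ), C_S(L)) → H²(Gal(M/ℚ), C_S(M))`
is injective on `p`-primary classes. -/
def Gd8Spec (p : ℕ) : Prop :=
  ∀ (S : Finset Nat.Primes) (hp : p.Prime), p ≠ 2 → (⟨p, hp⟩ : Nat.Primes) ∈ S →
    ∀ (L M : Level S) (h : L ≤ M), M.HasMu p →
    ∀ ι : Rep.res (Level.proj h) (lvlC L) ⟶ lvlC M, IsInvIncl (Level.proj h) ι →
    ∀ z : groupCohomology (lvlC L) 2, E1.IsPPrimary p z →
      (groupCohomology.map (Level.proj h) ι 2).hom z = 0 → z = 0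

/-! ## F. Assembly statements (deliverables of the TOW block) -/

/-- `kerJ_of` : KERJ from `recip`. -/
def KerJAssemblySpec (p : ℕ) : Prop :=
  p.Prime → ∀ I : SemiLocalInv p, G.ClassShortExactSpec → H2ExactSpec → PPrimaryLiftSpec →
    T.CardTorsionSpec → KerJSpec p I

/-- `gd3_of` : GD3 from reciprocity (memo T5). -/
def Gd3AssemblySpec (p : ℕ) : Prop :=
  ∀ I : SemiLocalInv p, KerJSpec p I → ResCoeffNatSpec → Gd3Spec p

/-- `gd8_of` : GD8 is formal (memo T7). -/
def Gd8AssemblySpec (p : ℕ) : Prop := UpSpec p → InfInjSpec → Gd8Spec p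

/-- `totExact_of` : T4'. -/
def TotExactAssemblySpec (p : ℕ) : Prop :=
  ∀ I : SemiLocalInv p, KerJSpec p I → UpSpec p → ExactCountSpec → T.CardTorsionSpec →
    TotExactSpec p I

/-- `gd1_of` : GD1 (memo T6). -/
def Gd1AssemblySpec (p : ℕ) : Prop :=
  ∀ I : SemiLocalInv p, KerJSpec p I → TotExactSpec p I → UpSpec p → DescSpec →
    G.SIndepSpec → RamSpec p → ResTopSpec → ResCoeffNatSpec → ClassModuleOfSylowSpec →
    InfResLiftSpec → ResMapNatSpec → T.ResIndexSpec → Gd1Spec p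

end Fermat.Agent.S55.G.Rec.TOW

end
end
-- ===== PACK-END S55/G/Rec/Tow/Spec.lean

-- ===== PACK-BEGIN S55/G/SIndH237/Main.lean
section
/-
S55 (Poitou–Tate), layer G, leaf G-SIND (`SIndepSpec`, independence of `S`; REC (O5)) — CLOSED.

    sIndep : SIndepSpec        (unconditional)

Assembly `sIndep_of` (helper237, `SIndH237/Assembly.lean`) applied to the four sub-leaves
* `H959.approx        : ApproxSpec`         (weak approximation, helper959),
* `H63.int63          : IntSpec`            (principal integral units, helper63),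
* `H870.prescribedOrd : PrescribedOrdSpec`  (prescribed orders, helper870),
* `H95.unitsCohTriv   : UnitsCohTrivSpec`   (unit idèles at unramified primes, helper95),
and to the twin-vanishing criterion `H295.twinVanishing` (layer T, helper295).
-/







set_option autoImplicit false

namespace Fermat.Agent.S55.G.SIndH237

open Fermat.Agent.S55.G

/-- **G-SIND** from `UnitsCohTrivSpec` and twin vanishing. -/
theorem sIndep_of_uct (hU : UnitsCohTrivSpec) (hT : T.TwinVanishingSpec) : SIndepSpec :=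
  sIndep_of H959.approx H63.int63 H870.prescribedOrd hU hT

/-- **G-SIND** (independence of `S`), unconditional. -/
theorem sIndep : SIndepSpec :=
  sIndep_of_uct H95.unitsCohTriv Fermat.Agent.S55.H295.twinVanishing

end Fermat.Agent.S55.G.SIndH237

end
-- ===== PACK-END S55/G/SIndH237/Main.lean

-- ===== PACK-BEGIN S56/H614/LinFun.lean
section




/-!
# S56 / W-BASE / EUL-RED, part 2 (helper614): `k`-linear functors on representations

PT vocabulary.  A `LinFun k G` is a `k`-linear functor from `Rep k G` (objects + equivariant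
linear maps) to `k`-modules.  Instances: `H0F`, `H1F L`, `H2F L` (level-constant cohomology of
S55/PT) and `minusF c` (`N ↦ N^{c = -1}`).

For every such functor `F`:

* `LinFun.kerEquiv` (EQUIV): if `T` is an equivariant endomorphism of `Z` with `T ^ n = 1`,
  `n ≠ 0` in `k`, then `F (ker (T - 1)) ≃ ker (F T - 1)`;
* `LinFun.piEquiv` : `F (X^J) ≃ (F X)^J`, intertwining `F (M ⊗ T)` with `M ⊗ F T`
  (`LinFun.piEquiv_matOp`);
* `LinFun.finrank_kerRep_matOp` : `dim F (ker (M ⊗ T - 1)) = dim ker (M ⊗ F T - 1)`.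
-/

set_option autoImplicit false

noncomputable section

namespace Fermat.Agent.S56.H614

open Fermat.Agent.S55.PT groupCohomology Module

variable {k : Type} [Field k] {G : Type} [Group G]

/-- A `k`-linear functor from representations to `k`-modules. -/
structure LinFun (k : Type) [Field k] (G : Type) [Group G] where
  /-- on objects -/
  obj : Rep.{0, 0, 0} k G → Type
  [acg : ∀ A, AddCommGroup (obj A)]
  [mod : ∀ A, Module k (obj A)]
  /-- on equivariant maps -/
  map : ∀ {A B : Rep.{0, 0, 0} k G} (φ : A →ₗ[k] B), IsEquivariant φ → (obj A →ₗ[k] obj B)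
  map_id : ∀ (A : Rep.{0, 0, 0} k G) (h : IsEquivariant (LinearMap.id : A →ₗ[k] A)),
    map LinearMap.id h = LinearMap.id
  map_comp : ∀ {A B C : Rep.{0, 0, 0} k G} (φ : A →ₗ[k] B) (ψ : B →ₗ[k] C)
    (hφ : IsEquivariant φ) (hψ : IsEquivariant ψ) (hψφ : IsEquivariant (ψ ∘ₗ φ)),
    map (ψ ∘ₗ φ) hψφ = map ψ hψ ∘ₗ map φ hφ
  map_add : ∀ {A B : Rep.{0, 0, 0} k G} (φ ψ : A →ₗ[k] B)
    (hφ : IsEquivariant φ) (hψ : IsEquivariant ψ) (h : IsEquivariant (φ + ψ)),
    map (φ + ψ) h = map φ hφ + map ψ hψ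
  map_smul : ∀ {A B : Rep.{0, 0, 0} k G} (a : k) (φ : A →ₗ[k] B)
    (hφ : IsEquivariant φ) (h : IsEquivariant (a • φ)),
    map (a • φ) h = a • map φ hφ

attribute [instance] LinFun.acg LinFun.mod

/-! ### equivariance bookkeeping -/

section Equivariance

variable {A B : Rep.{0, 0, 0} k G}

lemma isEquivariant_id (A : Rep.{0, 0, 0} k G) : IsEquivariant (LinearMap.id : A →ₗ[k] A) :=
  fun _ _ => rfl

lemma isEquivariant_one (A : Rep.{0, 0, 0} k G) : IsEquivariant (1 : A →ₗ[k] A) :=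
  fun _ _ => rfl

lemma isEquivariant_sub {φ ψ : A →ₗ[k] B} (hφ : IsEquivariant φ) (hψ : IsEquivariant ψ) :
    IsEquivariant (φ - ψ) := by
  intro g a
  have hφ' : ∀ (g : G) (a : A), φ (A.ρ g a) = B.ρ g (φ a) := hφ
  have hψ' : ∀ (g : G) (a : A), ψ (A.ρ g a) = B.ρ g (ψ a) := hψ
  simp only [LinearMap.sub_apply, hφ', hψ', map_sub]

lemma isEquivariant_sum {ι : Type} (s : Finset ι) (φ : ι → A →ₗ[k] B)
    (hφ : ∀ i, IsEquivariant (φ i)) : IsEquivariant (∑ i ∈ s, φ i) := by
  classical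
  induction s using Finset.induction_on with
  | empty =>
    rw [Finset.sum_empty]
    exact isEquivariant_zero
  | insert a s ha ih =>
    rw [Finset.sum_insert ha]
    exact isEquivariant_add (hφ a) ih

lemma isEquivariant_pow {T : A →ₗ[k] A} (hT : IsEquivariant T) (j : ℕ) :
    IsEquivariant (T ^ j) := by
  induction j with
  | zero =>
    rw [pow_zero]
    exact isEquivariant_one A
  | succ j ih =>
    rw [pow_succ]
    exact isEquivariant_comp hT ih

lemma isEquivariant_avgOp {T : A →ₗ[k] A} (hT : IsEquivariant T) (n : ℕ) :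
    IsEquivariant (avgOp T n) :=
  isEquivariant_smul _ (isEquivariant_sum _ _ fun j => isEquivariant_pow hT j)

end Equivariance

namespace LinFun

variable (F : LinFun k G) {A B : Rep.{0, 0, 0} k G}

lemma map_congr {φ ψ : A →ₗ[k] B} (h : φ = ψ) (hφ : IsEquivariant φ) (hψ : IsEquivariant ψ) :
    F.map φ hφ = F.map ψ hψ := by
  subst h
  rfl

lemma map_zero (h : IsEquivariant (0 : A →ₗ[k] B)) : F.map (0 : A →ₗ[k] B) h = 0 := by
  have h1 : IsEquivariant ((0 : k) • (0 : A →ₗ[k] B)) := isEquivariant_smul _ h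
  have h2 := F.map_smul (0 : k) (0 : A →ₗ[k] B) h h1
  have h3 : F.map (0 : A →ₗ[k] B) h = F.map ((0 : k) • (0 : A →ₗ[k] B)) h1 :=
    F.map_congr (zero_smul k _).symm _ _
  rw [h3, h2, zero_smul]

lemma map_one (h : IsEquivariant (1 : A →ₗ[k] A)) : F.map (1 : A →ₗ[k] A) h = 1 :=
  F.map_id A h

lemma map_mul (T T' : A →ₗ[k] A) (hT : IsEquivariant T) (hT' : IsEquivariant T')
    (h : IsEquivariant (T * T')) : F.map (T * T') h = F.map T hT * F.map T' hT' :=
  F.map_comp T' T hT' hT h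

lemma map_sub (φ ψ : A →ₗ[k] B) (hφ : IsEquivariant φ) (hψ : IsEquivariant ψ)
    (h : IsEquivariant (φ - ψ)) : F.map (φ - ψ) h = F.map φ hφ - F.map ψ hψ := by
  have h1 : IsEquivariant ((φ - ψ) + ψ) := isEquivariant_add h hψ
  have h2 := F.map_add (φ - ψ) ψ h hψ h1
  have h3 : F.map ((φ - ψ) + ψ) h1 = F.map φ hφ := F.map_congr (sub_add_cancel φ ψ) _ _
  rw [h3] at h2
  rw [h2, add_sub_cancel_right]

lemma map_sum {ι : Type} (s : Finset ι) (φ : ι → A →ₗ[k] B)
    (hφ : ∀ i, IsEquivariant (φ i)) (h : IsEquivariant (∑ i ∈ s, φ i)) :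
    F.map (∑ i ∈ s, φ i) h = ∑ i ∈ s, F.map (φ i) (hφ i) := by
  classical
  induction s using Finset.induction_on with
  | empty =>
    have : F.map (∑ i ∈ (∅ : Finset ι), φ i) h = F.map 0 isEquivariant_zero :=
      F.map_congr Finset.sum_empty _ _
    rw [this, F.map_zero, Finset.sum_empty]
  | insert a s ha ih =>
    have h1 : IsEquivariant (φ a + ∑ i ∈ s, φ i) :=
      isEquivariant_add (hφ a) (isEquivariant_sum s φ hφ)
    have : F.map (∑ i ∈ insert a s, φ i) h = F.map (φ a + ∑ i ∈ s, φ i) h1 :=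
      F.map_congr (Finset.sum_insert ha) _ _
    rw [this, F.map_add _ _ (hφ a) (isEquivariant_sum s φ hφ), ih, Finset.sum_insert ha]

lemma map_pow (T : A →ₗ[k] A) (hT : IsEquivariant T) (j : ℕ) (h : IsEquivariant (T ^ j)) :
    F.map (T ^ j) h = (F.map T hT) ^ j := by
  induction j with
  | zero =>
    have : F.map (T ^ 0) h = F.map 1 (isEquivariant_one A) := F.map_congr (pow_zero T) _ _
    rw [this, F.map_one, pow_zero]
  | succ j ih =>
    have h1 : IsEquivariant (T ^ j * T) := isEquivariant_comp hT (isEquivariant_pow hT j)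
    have : F.map (T ^ (j + 1)) h = F.map (T ^ j * T) h1 := F.map_congr (pow_succ T j) _ _
    rw [this, F.map_mul _ _ (isEquivariant_pow hT j) hT, ih, pow_succ]

lemma map_avgOp (T : A →ₗ[k] A) (hT : IsEquivariant T) (n : ℕ)
    (h : IsEquivariant (avgOp T n)) : F.map (avgOp T n) h = avgOp (F.map T hT) n := by
  unfold avgOp at h ⊢
  rw [F.map_smul _ _ (isEquivariant_sum _ _ fun j => isEquivariant_pow hT j),
    F.map_sum _ _ (fun j => isEquivariant_pow hT j)]
  congr 1
  exact Finset.sum_congr rfl fun j _ => F.map_pow T hT j _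

/-! ### EQUIV -/

section KerEquiv

variable {Z : Rep.{0, 0, 0} k G} (T : Z →ₗ[k] Z) (hT : IsEquivariant T)

/-- the retraction `Z → ker (T - 1)` given by averaging -/
def avgRetr (n : ℕ) (hTn : T ^ n = 1) : Z →ₗ[k] ↥(LinearMap.ker (T - 1)) :=
  (avgOp T n).codRestrict _ (avgOp_mem_ker T n hTn)

include hT in
lemma avgRetr_equivariant (n : ℕ) (hTn : T ^ n = 1) :
    IsEquivariant (A := Z)
      (B := kerRep (T - 1) (isEquivariant_sub hT (isEquivariant_one Z))) (avgRetr T n hTn) := by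
  intro g z
  apply Subtype.ext
  exact isEquivariant_avgOp hT n g z

lemma avgRetr_comp_kerIncl (n : ℕ) (hn : (n : k) ≠ 0) (hTn : T ^ n = 1) :
    avgRetr T n hTn ∘ₗ kerIncl (T - 1) = LinearMap.id := by
  apply LinearMap.ext
  intro x
  apply Subtype.ext
  have hx := x.2
  rw [LinearMap.mem_ker, LinearMap.sub_apply, Module.End.one_apply, sub_eq_zero] at hx
  exact avgOp_apply_of_fixed T n hn hx

lemma kerIncl_comp_avgRetr (n : ℕ) (hTn : T ^ n = 1) :
    kerIncl (T - 1) ∘ₗ avgRetr T n hTn = avgOp T n := rfl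

lemma comp_kerIncl_sub_one : T ∘ₗ kerIncl (T - 1) = kerIncl (T - 1) := by
  apply LinearMap.ext
  intro x
  have hx := x.2
  rw [LinearMap.mem_ker, LinearMap.sub_apply, Module.End.one_apply, sub_eq_zero] at hx
  exact hx

/-- `F (ker (T - 1)) → F Z` -/
def kerMap : F.obj (kerRep (T - 1) (isEquivariant_sub hT (isEquivariant_one Z))) →ₗ[k] F.obj Z :=
  F.map (A := kerRep (T - 1) (isEquivariant_sub hT (isEquivariant_one Z))) (B := Z)
    (kerIncl (T - 1)) (kerIncl_equivariant (T - 1) _)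

lemma kerMap_injective (n : ℕ) (hn : (n : k) ≠ 0) (hTn : T ^ n = 1) :
    Function.Injective (F.kerMap T hT) := by
  have hK := isEquivariant_sub hT (isEquivariant_one Z)
  have h1 : F.map (A := Z) (B := kerRep (T - 1) hK) (avgRetr T n hTn)
      (avgRetr_equivariant T hT n hTn) ∘ₗ F.kerMap T hT = LinearMap.id := by
    unfold kerMap
    rw [← F.map_comp (A := kerRep (T - 1) hK) (B := Z) (C := kerRep (T - 1) hK) _ _ _ _
      (isEquivariant_comp (A := kerRep (T - 1) hK) (B := Z) (C := kerRep (T - 1) hK)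
        (kerIncl_equivariant (T - 1) hK) (avgRetr_equivariant T hT n hTn))]
    rw [F.map_congr (A := kerRep (T - 1) hK) (B := kerRep (T - 1) hK)
      (avgRetr_comp_kerIncl T n hn hTn) _ (isEquivariant_id _), F.map_id]
  intro x y hxy
  have := congrArg (F.map (A := Z) (B := kerRep (T - 1) hK) (avgRetr T n hTn)
      (avgRetr_equivariant T hT n hTn)) hxy
  rw [← LinearMap.comp_apply, ← LinearMap.comp_apply, h1] at this
  exact this

lemma range_kerMap (n : ℕ) (hn : (n : k) ≠ 0) (hTn : T ^ n = 1) :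
    LinearMap.range (F.kerMap T hT) = LinearMap.ker (F.map T hT - 1) := by
  have hK := isEquivariant_sub hT (isEquivariant_one Z)
  apply le_antisymm
  · rintro _ ⟨x, rfl⟩
    rw [LinearMap.mem_ker, LinearMap.sub_apply, Module.End.one_apply, sub_eq_zero]
    unfold kerMap
    rw [← LinearMap.comp_apply, ← F.map_comp (A := kerRep (T - 1) hK) (B := Z) (C := Z) _ _ _ _
      (isEquivariant_comp (A := kerRep (T - 1) hK) (B := Z) (C := Z)
        (kerIncl_equivariant (T - 1) hK) hT)]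
    rw [F.map_congr (A := kerRep (T - 1) hK) (B := Z) (comp_kerIncl_sub_one T) _
      (kerIncl_equivariant (T - 1) hK)]
  · intro y hy
    rw [LinearMap.mem_ker, LinearMap.sub_apply, Module.End.one_apply, sub_eq_zero] at hy
    have hFn : (F.map T hT) ^ n = 1 := by
      rw [← F.map_pow T hT n (isEquivariant_pow hT n),
        F.map_congr hTn _ (isEquivariant_one Z), F.map_one]
    have h1 : avgOp (F.map T hT) n y = y := avgOp_apply_of_fixed _ n hn hy
    rw [← F.map_avgOp T hT n (isEquivariant_avgOp hT n)] at h1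
    have h2 : F.map (avgOp T n) (isEquivariant_avgOp hT n) =
        F.kerMap T hT ∘ₗ F.map (A := Z) (B := kerRep (T - 1) hK) (avgRetr T n hTn)
          (avgRetr_equivariant T hT n hTn) := by
      unfold kerMap
      rw [← F.map_comp (A := Z) (B := kerRep (T - 1) hK) (C := Z) _ _ _ _
        (isEquivariant_comp (A := Z) (B := kerRep (T - 1) hK) (C := Z)
          (avgRetr_equivariant T hT n hTn) (kerIncl_equivariant (T - 1) hK))]
      exact F.map_congr (kerIncl_comp_avgRetr T n hTn).symm _ _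
    rw [h2] at h1
    exact ⟨_, h1⟩

/-- **EQUIV.**  `F (ker (T - 1)) ≃ ker (F T - 1)` for `T ^ n = 1`, `n ≠ 0` in `k`. -/
def kerEquiv (n : ℕ) (hn : (n : k) ≠ 0) (hTn : T ^ n = 1) :
    F.obj (kerRep (T - 1) (isEquivariant_sub hT (isEquivariant_one Z))) ≃ₗ[k]
      ↥(LinearMap.ker (F.map T hT - 1)) :=
  (LinearEquiv.ofInjective (F.kerMap T hT) (F.kerMap_injective T hT n hn hTn)).trans
    (LinearEquiv.ofEq _ _ (F.range_kerMap T hT n hn hTn))

end KerEquiv

end LinFun

end Fermat.Agent.S56.H614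

end

end
-- ===== PACK-END S56/H614/LinFun.lean

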