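import Fermat.Agent.Pack.S56.E17L3
import Fermat.Agent.Pack.S56.E14L1
import Fermat.Agent.Pack.S56.E15L3
import Fermat.Agent.Pack.S56.E0L1
import Fermat.Agent.Pack.S56.E17L0
import Fermat.Agent.Pack.S56.E4L3
import Fermat.Agent.Pack.S56.E10L2
import Fermat.Agent.Pack.S56.E6L3
import Fermat.Agent.Pack.S56.E10L1
import Fermat.Agent.Pack.S56.E17L2
import Fermat.Agent.Pack.S56.E12L2
import Fermat.Agent.Pack.S56.E4L0
import Fermat.Agent.Pack.S56.E12L3
import Fermat.Agent.Pack.S56.E11L3
import Fermat.Agent.Pack.S56.E14L3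
import Fermat.Agent.Pack.S56.E3L3
import Fermat.Agent.Pack.S56.E2L2
import Fermat.Agent.Pack.S56.E16L2
import Fermat.Agent.Pack.S56.E11L0
import Fermat.Agent.Pack.S56.E2L0
import Fermat.Agent.Pack.S56.E5L2
import Fermat.Agent.Pack.S56.E1L2

-- ===== PACK-BEGIN S56/H716/GWSpec4.lean
section


/-!
# Row S56 — the wall GW-WALL, layer 3d: ROUTE C (deputy helper716)

`S56  ⇐  DICT + LOC-MIN + LOC-SO + LOC-FLAT + BASE-BIG + REC-Q-SUB + UR-COUNT (+ P1 + TWP)`
(glue: `H716/GWGlue4.lean`)

The frozen statement S56 for `S` follows from its body for any finite set of primes `S'' ⊇ S`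
(the Taylor–Wiles primes found outside `S''` are outside `S`).  So the whole machine is run for
`S'' := S ∪ S₀`, where `S₀ ⊇ Smin` is the big set of (BASE-BIG).  The Taylor–Wiles primes then
AVOID `S₀`, and reciprocity is needed only in the form (REC-Q) with `Smin` replaced by `S₀`:

* `RecQSubStatement` (REC-Q-SUB): under `Hyp 𝒪 p ρbar S Smin`, for every `S'` with
  `Smin ⊆ S' ⊆ S`:  `RecQ 𝒪 p ρbar S S'`  — i.e. (REC-Q) where the strict conditions are imposed
  at the places of `S'` and "unramified" means outside `S' ∪ Q`.  SAME MATHEMATICS AND SAME PROOF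
  as (REC-Q): the proof of (REC-Q) only uses that `ρ̄` is unramified outside `Smin ⊆ S'`, that
  `p ∈ S'` and that `Q ∩ S' = ∅`; the local spaces at `q ∈ Q` are lines.
  For `S' = Smin` it is `RecQStatement`.

No comparison step (COMP), no local duality for planes, no (TW-INV).

Nothing unproved in this file.
-/

set_option autoImplicit false

open Polynomial IsLocalRing

noncomputable section

namespace Fermat.Agent.S56.H716

open Fermat.Agent.S56

/-- (REC-Q-SUB): reciprocity over the Taylor–Wiles primes, relative to any set `S'` of primes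
with `Smin ⊆ S' ⊆ S`. -/
def RecQSubStatement : Prop :=
  ∀ (𝒪 : Type) [CommRing 𝒪] [IsDomain 𝒪] [IsDiscreteValuationRing 𝒪]
    [IsAdicComplete (maximalIdeal 𝒪) 𝒪] [Finite (ResidueField 𝒪)]
    (p : ℕ) (ρbar : ResidualGaloisRep (ResidueField 𝒪)) (S Smin : Finset ℕ),
    Hyp 𝒪 p ρbar S Smin → ∀ S' : Finset ℕ, Smin ⊆ S' → S' ⊆ S → RecQ 𝒪 p ρbar S S'

/-- (TB) for some finite set of primes `S'' ⊇ S`. -/
def TangentBoundSup (𝒪 : Type) [CommRing 𝒪] [IsDomain 𝒪] [IsDiscreteValuationRing 𝒪]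
    [IsAdicComplete (maximalIdeal 𝒪) 𝒪]
    (p : ℕ) (ρbar : ResidualGaloisRep (ResidueField 𝒪)) (S : Finset ℕ)
    (cond : Finset ℕ → DefCond 𝒪) : Prop :=
  ∃ S'' : Finset ℕ, S ⊆ S'' ∧ (∀ q ∈ S'', q.Prime) ∧ TangentBound 𝒪 p ρbar S'' cond

end Fermat.Agent.S56.H716

end

end
-- ===== PACK-END S56/H716/GWSpec4.lean

-- ===== PACK-BEGIN S56/H431/UrCount.lean
section
/-
S56 / GW-WALL layer 3c, leaf UR-COUNT (helper431): `dim H¹_ur(D_P, ad⁰ρ̄) ≤ h⁰(D_P, ad⁰ρ̄)`.

Immediate from helper606's LOC-MIN-B (`H606.locMinB`): a cocycle vanishing on the inertia group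
is in particular a coboundary there.
-/



set_option autoImplicit false

open Polynomial IsLocalRing

namespace Fermat.Agent.S56.H431

open Fermat.Agent.S56 Fermat.Agent.S56.H716

/-- **UR-COUNT**: the frozen leaf `H716.UrCountStatement`. -/
theorem urCount : UrCountStatement := by
  intro 𝒪 _ _ _ _ _ p ρbar S Smin _ v hv _ P hP
  obtain ⟨Λ, hfin, hrk, hΛ⟩ := H606.locMinB (ResidueField 𝒪) ρbar v hv P hP
  refine ⟨Λ, hfin, hrk, fun c hc hur => hΛ c hc ⟨0, fun σ hσ => ?_⟩⟩
  rw [hur P hP σ hσ, mul_zero, zero_mul, sub_zero]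

end Fermat.Agent.S56.H431

end
-- ===== PACK-END S56/H431/UrCount.lean

-- ===== PACK-BEGIN S56/H906/FI.lean
section




/-!
# S56 / FLAT-O, piece (FI): `(I_aug M) ∩ M^I = 0` for a flat `M` killed by `p`, `p` odd (helper906)

* `redKer P Λ` — the kernel of reduction `M⁰ = {x : f x ≡ f 0 mod 𝔪_P for all f ∈ Λ}`, an
  additive subgroup of `M`.
* `act_sub_mem_redKer` (CE', the easy half of "connected = augmentation"):
  `act σ y - y ∈ M⁰` for `σ ∈ I_P`;  `closure_le_redKer`: `I_aug M ≤ M⁰`.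
* `eq_zero_of_mem_redKer_of_fixed` (INV): an inertia-fixed point of `M⁰` of order `p` is `0`
  (`p` odd).
* `flatInertia : FlatInertiaStatement`.
-/

set_option autoImplicit false
set_option linter.unusedSectionVars false

noncomputable section

namespace Fermat.Agent.S56.H906

open Fermat.Agent.S56

section RedKer

variable {p : ℕ} [Fact p.Prime] {M : Type} [AddCommGroup M] {act : GQ → M → M}
  {Λ : Subalgebra (Zp p) (M → Qb)} (P : ValuationSubring Qb)

/-- Membership in the kernel of reduction. -/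
def InRedKer (Λ : Subalgebra (Zp p) (M → Qb)) (x : M) : Prop :=
  ∀ f ∈ Λ, P.valuation (f x - f 0) < 1

theorem inRedKer_zero : InRedKer P Λ (0 : M) := by
  intro f _
  rw [sub_self, map_zero]
  exact zero_lt_one

/-- The key congruence: if `b k y ≡ b k y'` for all `b ∈ Λ`, then `f (x + y) ≡ f (x + y')`. -/
theorem valuation_comul_sub_lt (hΛ : IsHL p act Λ) (hP : P.LiesOverPrime p) {f : M → Qb}
    (hf : f ∈ Λ) (x y y' : M) (h : ∀ g ∈ Λ, P.valuation (g y - g y') < 1) :
    P.valuation (f (x + y) - f (x + y')) < 1 := by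
  obtain ⟨n, a, b, ha, hb, hab⟩ := hΛ.comul_mem f hf
  rw [hab, hab, ← Finset.sum_sub_distrib]
  refine Valuation.map_sum_lt _ one_ne_zero fun k _ => ?_
  rw [← mul_sub, map_mul]
  have h1 : P.valuation (a k x) ≤ 1 :=
    (ValuationSubring.valuation_le_one_iff P _).mpr (apply_mem P hΛ hP (ha k) x)
  calc P.valuation (a k x) * P.valuation (b k y - b k y')
      ≤ 1 * P.valuation (b k y - b k y') := by gcongr
    _ = P.valuation (b k y - b k y') := one_mul _
    _ < 1 := h _ (hb k)

theorem inRedKer_add (hΛ : IsHL p act Λ) (hP : P.LiesOverPrime p) {x y : M}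
    (hx : InRedKer P Λ x) (hy : InRedKer P Λ y) : InRedKer P Λ (x + y) := by
  intro f hf
  have h1 := valuation_comul_sub_lt P hΛ hP hf x y 0 hy
  rw [add_zero] at h1
  have h2 := hx f hf
  have : f (x + y) - f 0 = (f (x + y) - f x) + (f x - f 0) := by ring
  rw [this]
  exact Valuation.map_add_lt _ h1 h2

theorem inRedKer_neg (hΛ : IsHL p act Λ) (hP : P.LiesOverPrime p) {x : M}
    (hx : InRedKer P Λ x) : InRedKer P Λ (-x) := by
  intro f hf
  have h1 := valuation_comul_sub_lt P hΛ hP hf (-x) 0 x (fun g hg => by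
    rw [← Valuation.map_neg, neg_sub]
    exact hx g hg)
  rw [add_zero, neg_add_cancel] at h1
  exact h1

/-- The kernel of reduction `M⁰`. -/
def redKer (hΛ : IsHL p act Λ) (hP : P.LiesOverPrime p) : AddSubgroup M where
  carrier := {x | InRedKer P Λ x}
  zero_mem' := inRedKer_zero P
  add_mem' := fun hx hy => inRedKer_add P hΛ hP hx hy
  neg_mem' := fun hx => inRedKer_neg P hΛ hP hx

theorem mem_redKer (hΛ : IsHL p act Λ) (hP : P.LiesOverPrime p) (x : M) :
    x ∈ redKer P hΛ hP ↔ ∀ f ∈ Λ, P.valuation (f x - f 0) < 1 := Iff.rfl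

/-- (CE') `σ y - y` lies in the kernel of reduction for `σ` in the inertia group. -/
theorem act_sub_mem_redKer (hΛ : IsHL p act Λ) (hP : P.LiesOverPrime p) {σ : GQ}
    (hσ : σ ∈ P.inertiaSubgroupIn ℚ) (y : M) : act σ y - y ∈ redKer P hΛ hP := by
  intro f hf
  have h1 := valuation_comul_sub_lt P hΛ hP hf (-y) (act σ y) y (fun g hg => by
    rw [hΛ.equivariant g hg σ y]
    exact (ValuationSubring.mem_nonunits_iff P).mp
      (Fermat.Agent.A2.H708.sub_mem_nonunits_of_mem_inertiaIn P hσ (apply_mem P hΛ hP hg y)))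
  rw [neg_add_cancel, neg_add_eq_sub] at h1
  exact h1

/-- `I_aug M ≤ M⁰`. -/
theorem closure_le_redKer (hΛ : IsHL p act Λ) (hP : P.LiesOverPrime p) :
    AddSubgroup.closure {z : M | ∃ σ ∈ P.inertiaSubgroupIn ℚ, ∃ y : M, z = act σ y - y} ≤
      redKer P hΛ hP := by
  rw [AddSubgroup.closure_le]
  rintro z ⟨σ, hσ, y, rfl⟩
  exact act_sub_mem_redKer P hΛ hP hσ y

/-- (INV) an inertia-fixed point of order `p` of the kernel of reduction is `0`, `p` odd. -/
theorem eq_zero_of_mem_redKer_of_fixed [Finite M] (hp2 : p ≠ 2) (hΛ : IsHL p act Λ)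
    (hP : P.LiesOverPrime p) {x : M} (hpx : p • x = 0) (hx : x ∈ redKer P hΛ hP)
    (hfix : ∀ σ ∈ P.inertiaSubgroupIn ℚ, act σ x = x) : x = 0 := by
  have hp : p.Prime := Fact.out
  have hvp : P.valuation (p : Qb) < 1 := (ValuationSubring.mem_nonunits_iff P).mp hP
  have hvp0 : P.valuation (p : Qb) ≠ 0 :=
    (Valuation.ne_zero_iff _).mpr (by exact_mod_cast hp.ne_zero)
  refine lemmaA p M act Λ hΛ P hP x (p : Qb) hpx ?_ ?_
  · -- `v(p)^(p-1) < v(p)`
    obtain ⟨q, hq⟩ : ∃ q, p - 1 = q + 1 + 1 := ⟨p - 3, by have := hp.two_le; omega⟩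
    rw [hq, pow_succ]
    calc P.valuation (p : Qb) ^ (q + 1) * P.valuation (p : Qb)
        < 1 * P.valuation (p : Qb) := by
          refine mul_lt_mul_of_pos_right ?_ (zero_lt_iff.mpr hvp0)
          exact pow_lt_one₀ zero_le hvp (by omega)
      _ = P.valuation (p : Qb) := one_mul _
  · intro f hf
    refine Fermat.Agent.S56.H66.vg0_le p hp P hP _ ((ValuationSubring.mem_nonunits_iff P).mpr
      (hx f hf)) fun σ hσ => ?_
    rw [map_sub, ← hΛ.equivariant f hf σ x, ← hΛ.equivariant f hf σ 0, hfix σ hσ,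
      Fermat.Agent.S19.H435.IsHopfLattice.act_zero hΛ σ]

end RedKer

/-- **(FI)**. -/
theorem flatInertia : FlatInertiaStatement := by
  intro p _ hp2 M _ _ act Λ hΛ hkill P hP x hfix hx
  exact eq_zero_of_mem_redKer_of_fixed P hp2 hΛ hP (hkill x)
    (closure_le_redKer P hΛ hP hx) hfix

end Fermat.Agent.S56.H906

end

end
-- ===== PACK-END S56/H906/FI.lean

-- ===== PACK-BEGIN S55/H295/SplitSpecs.lean
section





/-!
# `T5e`, `T5a`, `T5b`: splitting module, Tate's theorem, `H³` of a class module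

* `splitModule : T.SplitModuleSpec`
* `tate : T.TateSpec`
* `tateH3 : T.TateH3Spec`
-/

set_option autoImplicit false
set_option linter.unusedSectionVars false

open CategoryTheory groupCohomology Rep Limits

namespace Fermat.Agent.S55.H295

open Fermat.Agent.S55.H783 Fermat.Agent.S55.T

noncomputable section

variable {k G : Type} [CommRing k] [Group G]

/-- Cohomological triviality is invariant under isomorphism. -/
lemma IsCohTriv.of_iso [Finite G] {A B : Rep.{0} k G} (e : A ≅ B) (h : IsCohTriv A) :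
    IsCohTriv B := fun H _ n =>
  IsZero.of_iso (h H n)
    ((tateCohomologyFunctor n).mapIso ((resFunctor H.subtype).mapIso e.symm))

/-- `P = Fun(G, k)` is cohomologically trivial. -/
lemma isCohTriv_augP [Fintype G] : IsCohTriv (augP k G) :=
  IsCohTriv.of_iso (funRepIsoCoind (k := k) (G := G) k).symm (T.H572.coindCohTriv k G _)

/-- The trivial module restricted to a subgroup is the trivial module. -/
def resTrivialIso (H : Subgroup G) :
    res H.subtype (Rep.trivial k G k) ≅ Rep.trivial k H k :=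
  Rep.mkIso (ρ := (Rep.trivial k G k).ρ.comp H.subtype) (σ := (Rep.trivial k H k).ρ)
    { toLinearEquiv := LinearEquiv.refl k k
      isIntertwining' := fun _ => rfl }

section ClassModule

variable [Fintype G] {C : Rep.{0} k G} (c : cocycles₂ C)

/-- Twin vanishing of the splitting module of a class module. -/
theorem twin_splitRep (hC : IsClassModule C (H2π C c))
    (hk : ∀ H : Subgroup G, IsZero (groupCohomology (Rep.trivial k H k) 1)) (H : Subgroup G) :
    IsZero (groupCohomology (res H.subtype (splitRep c)) 1) ∧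
      IsZero (groupCohomology (res H.subtype (splitRep c)) 2) := by
  obtain ⟨h1, hgen, hann, -⟩ := hC H
  have hk' : IsZero (groupCohomology (res H.subtype (Rep.trivial k G k)) 1) :=
    IsZero.of_iso (hk H) ((groupCohomology.functor k H 1).mapIso (resTrivialIso H))
  exact ⟨isZero_H1_splitRep c H h1 hann, isZero_H2_splitRep c H hk' hgen⟩

/-- The splitting module of a class module is cohomologically trivial. -/
theorem isCohTriv_splitRep (hC : IsClassModule C (H2π C c))
    (hk : ∀ H : Subgroup G, IsZero (groupCohomology (Rep.trivial k H k) 1)) :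
    IsCohTriv (splitRep c) :=
  twinVanishing k G (splitRep c) (twin_splitRep c hC hk)

end ClassModule

/-- Every class in `H²` is represented by a 2-cocycle. -/
lemma exists_cocycle_of_H2 (C : Rep.{0} k G) (γ : groupCohomology C 2) :
    ∃ c : cocycles₂ C, H2π C c = γ := by
  induction γ using H2_induction_on with
  | h c => exact ⟨c, rfl⟩

/-- **T5e.**  The splitting module of a class module over `ℤ`. -/
theorem splitModule : SplitModuleSpec := by
  intro G _ _ C γ hC
  classical
  let _ : Fintype G := Fintype.ofFinite G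
  obtain ⟨c, rfl⟩ := exists_cocycle_of_H2 C γ
  refine ⟨splitRep c, augI ℤ G, augP ℤ G, spliti c, splitπ c, augj ℤ G, augε ℤ G,
    spliti_comp_splitπ c, augj_comp_augε ℤ G, splitSES_shortExact c, augSES_shortExact ℤ G,
    isCohTriv_splitRep c hC (fun H => T.H539.h1TrivInt H), isCohTriv_augP⟩

end

end Fermat.Agent.S55.H295

end
-- ===== PACK-END S55/H295/SplitSpecs.lean

-- ===== PACK-BEGIN S55/T/NakH837/Elements.lean
section


/-!
# S55, layer T, leaf T6 (helper837): element-level statements for the two-step connecting maps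
-/

set_option autoImplicit false
set_option linter.unusedSectionVars false
set_option linter.style.haveILetI false

open CategoryTheory groupCohomology

namespace Fermat.Agent.S55.T.H837

open Fermat.Agent.S55.H572

noncomputable section

variable {k G : Type} [CommRing k] [Group G] [Fintype G]

/-- Norms induce zero on cohomology in positive degrees. -/
theorem coeffMap_normHom_eq_zero {A B : Rep.{0} k G} (ψ : A.V →ₗ[k] B.V) (n : ℕ) :
    coeffMap (normHom ψ) (n + 1) = 0 := by
  rw [← coind₁ι_comp_normHom_ev ψ]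
  have h := map_id_comp (coind₁ι A) (normHom (ψ ∘ₗ ev₁ A)) (n + 1)
  have h0 : coeffMap (coind₁ι A) (n + 1) = 0 :=
    (_root_.Fermat.Agent.S55.T.H837.isZero_groupCohomology_coind₁ A n).eq_of_tgt _ _
  change coeffMap (coind₁ι A ≫ normHom (ψ ∘ₗ ev₁ A)) (n + 1) = 0
  have h' : coeffMap (coind₁ι A ≫ normHom (ψ ∘ₗ ev₁ A)) (n + 1) =
      coeffMap (coind₁ι A) (n + 1) ≫ coeffMap (normHom (ψ ∘ₗ ev₁ A)) (n + 1) := h
  rw [h', h0, Limits.zero_comp]

/-- The norm of an element is invariant. -/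
lemma norm_mem_invariants (A : Rep.{0} k G) (y : A.V) :
    (∑ g : G, A.ρ g y) ∈ A.ρ.invariants := by
  intro h
  rw [map_sum]
  refine Fintype.sum_equiv (Equiv.mulLeft h) _ _ fun g => ?_
  change A.ρ h (A.ρ g y) = A.ρ (h * g) y
  rw [map_mul]
  rfl

/-- The image of an invariant under a morphism, as an invariant. -/
def mapInv {A B : Rep.{0} k G} (f : A ⟶ B) (a : A.ρ.invariants) : B.ρ.invariants :=
  ⟨f.hom a.1, fun g => by rw [← Rep.hom_comm_apply, a.2 g]⟩

lemma coeffMap_zero_H0Iso_inv {A B : Rep.{0} k G} (f : A ⟶ B) (a : A.ρ.invariants) :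
    (coeffMap f 0).hom ((H0Iso A).inv a) = (H0Iso B).inv (mapInv f a) := by
  have h := congrArg (fun m => m.hom ((H0Iso A).inv a)) (map_id_comp_H0Iso_hom f)
  have h1 : (H0Iso B).hom ((coeffMap f 0).hom ((H0Iso A).inv a)) =
      ((Rep.invariantsFunctor k G).map f).hom ((H0Iso A).hom ((H0Iso A).inv a)) := h
  have h2 : (H0Iso A).hom ((H0Iso A).inv a) = a :=
    congrArg (fun m => m.hom a) (H0Iso A).inv_hom_id
  rw [h2] at h1
  have h3 : ((Rep.invariantsFunctor k G).map f).hom a = mapInv f a := rfl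
  rw [h3] at h1
  rw [← h1]
  exact (congrArg (fun m => m.hom ((coeffMap f 0).hom ((H0Iso A).inv a)))
    (H0Iso B).hom_inv_id).symm

/-- The connecting map `H⁰(G, up A) → H¹(G, A)` kills norms. -/
lemma δUp₀_norm (A : Rep.{0} k G) (y : (up A).V) :
    (δUp₀ A).hom ((H0Iso (up A)).inv ⟨∑ g : G, (up A).ρ g y, norm_mem_invariants _ y⟩) = 0 := by
  obtain ⟨z, hz⟩ := (Rep.epi_iff_surjective (upπ A)).1 inferInstance y
  have h1 : (⟨∑ g : G, (up A).ρ g y, norm_mem_invariants _ y⟩ : (up A).ρ.invariants) =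
      mapInv (upπ A) ⟨∑ g : G, (coind₁ A).ρ g z, norm_mem_invariants _ z⟩ := by
    apply Subtype.ext
    change ∑ g : G, (up A).ρ g y = (upπ A).hom (∑ g : G, (coind₁ A).ρ g z)
    rw [map_sum, ← hz]
    refine Finset.sum_congr rfl fun g _ => ?_
    exact (Rep.hom_comm_apply (upπ A) g z).symm
  rw [h1, ← coeffMap_zero_H0Iso_inv]
  exact congrArg (fun m => m.hom ((H0Iso (coind₁ A)).inv
    ⟨∑ g : G, (coind₁ A).ρ g z, norm_mem_invariants _ z⟩)) (map_upπ_comp_δUp₀ A)

/-- The two-step connecting map kills norms. -/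
lemma ddUp_norm (R : Rep.{0} k G) (y : (up (up R)).V) :
    (ddUp R).hom ((H0Iso (up (up R))).inv
      ⟨∑ g : G, (up (up R)).ρ g y, norm_mem_invariants _ y⟩) = 0 := by
  change (δUp₁ R).hom ((δUp₀ (up R)).hom _) = 0
  rw [δUp₀_norm, map_zero]

section rows

variable {C X I P T : Rep.{0} k G} {i : C ⟶ X} {π : X ⟶ I} {j : I ⟶ P} {ε : P ⟶ T}
  {w₁ : i ≫ π = 0} {w₂ : j ≫ ε = 0}
  (hA : (ShortComplex.mk i π w₁).ShortExact) (hB : (ShortComplex.mk j ε w₂).ShortExact)

/-- Element form of `ddUp_comp_map`. -/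
theorem coeffMap_ddUp {R : Rep.{0} k G} (f : R ⟶ C) (t₂ : coind₁ R ⟶ X) (h : up R ⟶ I)
    (t₂' : coind₁ (up R) ⟶ P) (e : up (up R) ⟶ T)
    (c1 : f ≫ i = coind₁ι R ≫ t₂) (c2 : t₂ ≫ π = upπ R ≫ h)
    (c3 : h ≫ j = coind₁ι (up R) ≫ t₂') (c4 : t₂' ≫ ε = upπ (up R) ≫ e)
    (r : (up (up R)).ρ.invariants) :
    (coeffMap f 2).hom ((ddUp R).hom ((H0Iso _).inv r)) =
      (ddRow hA hB).hom ((H0Iso T).inv (mapInv e r)) := by
  have h1 := congrArg (fun m => m.hom ((H0Iso (up (up R))).inv r))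
    (ddUp_comp_map hA hB f t₂ h t₂' e c1 c2 c3 c4)
  have h2 : (coeffMap f 2).hom ((ddUp R).hom ((H0Iso _).inv r)) =
      (ddRow hA hB).hom ((coeffMap e 0).hom ((H0Iso _).inv r)) := h1
  rw [h2, coeffMap_zero_H0Iso_inv]

/-- If `ddRow` kills the class of an invariant `t` and invariants of `P` are norms, then
`t` is `|G|` times an element in the image of `ε`. -/
lemma exists_card_smul_of_ddRow_eq_zero (hX1 : Limits.IsZero (groupCohomology X 1))
    (hP : IsCohTriv P) (hT : ∀ (g : G) (t : T.V), T.ρ g t = t)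
    (t : T.ρ.invariants) (ht : (ddRow hA hB).hom ((H0Iso T).inv t) = 0) :
    ∃ s : T.V, t.1 = Fintype.card G • s := by
  obtain ⟨p, hp, hpt⟩ := exists_of_ddRow_eq_zero hA hB hX1 t ht
  obtain ⟨q, hq⟩ := exists_norm_of_isCohTriv hP p hp
  refine ⟨ε.hom q, ?_⟩
  rw [← hpt, ← hq, map_sum]
  have : ∀ g : G, ε.hom (P.ρ g q) = ε.hom q := fun g => by
    rw [Rep.hom_comm_apply, hT]
  rw [Finset.sum_congr rfl fun g _ => this g]
  simp

end rows

end

end Fermat.Agent.S55.T.H837

end
-- ===== PACK-END S55/T/NakH837/Elements.lean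

-- ===== PACK-BEGIN S55/G/Rec/Loc/H483/UnramClosed.lean
section






/-!
# S55 / G / REC / LOC : LOC-UNR and the inertia toolkit with the closed inputs plugged in
(helper483)

* `inertiaLift : InertiaLiftSpec`, `unramLevel : UnramLevelSpec` (unconditional);
* `unram_of_descent : DescentSpec → UnramSpec`;
* `unram : UnramSpec` (LOC-UNR, unconditional, with `H894.descent`).
-/

set_option autoImplicit false

namespace Fermat.Agent.S55.G.Rec.Loc.H483

open Fermat.Agent.S55.G.Rec Fermat.Agent.S55.G.Rec.Loc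

/-- **LOC-INERT2**, unconditional. -/
theorem inertiaLift : InertiaLiftSpec := inertiaLift_of H478.openSpec

/-- **LOC-INERT3**, unconditional. -/
theorem unramLevel : UnramLevelSpec := unramLevel_of H478.openSpec

/-- **LOC-UNR** from LOC-DESC. -/
theorem unram_of_descent (hD : _root_.Fermat.Agent.S55.G.Rec.Loc.DescentSpec) : UnramSpec :=
  unram_of H478.openSpec hD H839.up Fermat.Agent.S55.Local.Closed.unramUnitsH2

/-- **LOC-UNR**, unconditional. -/
theorem unram : UnramSpec := unram_of_descent H894.descent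

end Fermat.Agent.S55.G.Rec.Loc.H483

end
-- ===== PACK-END S55/G/Rec/Loc/H483/UnramClosed.lean

-- ===== PACK-BEGIN S55/GAD/Gd5bH604.lean
section
/-
S55 / G-ADAPTER, leaf **GD5b** (helper604): for the concrete tower datum `GAD.datum S p`,
`C(F) / im J(F)` is torsion (it is the `S`-class group of `F`, a finite group).

* `isTorsModLocal : (datum S p).IsTorsModLocal`     (unconditional);
* `isGoodMu_of`   : the 7 leaf specs of `GAD/Spec.lean` ⇒ `(datum S p).IsGoodMu p`;
* `isGoodFin_of`, `globalSpecFin_of` : the 7 leaf specs ⇒ `Tow.GlobalSpecFin S p`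
  (the FINAL target of layer G, `Spec/Datum3.lean`).

Input: finiteness of the `S`-class group in the form `G.ClsH604.ordHom_range_index_ne_zero`
(`div(Fˣ)` has finite index in `Div^S(F)`).  No `sorry`.
-/




set_option autoImplicit false

open CategoryTheory

namespace Fermat.Agent.S55.GAD.H604

open Fermat.Agent.S55 Fermat.Agent.S55.Tow Fermat.Agent.S55.E1.H594 Fermat.Agent.S55.G
  Fermat.Agent.S55.GAD

noncomputable section

variable (S : Finset Nat.Primes) (p : ℕ)

lemma toField_surjective (L : Level S) : Function.Surjective (toField L) := by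
  intro u
  refine ⟨(levelUnitsIso L).hom.hom u, ?_⟩
  exact Rep.inv_hom_apply _ _ (levelUnitsIso L) u

/-- Every divisor outside `S` has a nonzero multiple which is principal. -/
lemma exists_nsmul_eq_divT (L : Level S) (d : PrimeOut S L.F →₀ ℤ) :
    ∃ m : ℕ, 0 < m ∧ ∃ e : L.units.V, divT L e = m • d := by
  have hm : (ordHom S L.F).range.index ≠ 0 := ClsH604.ordHom_range_index_ne_zero S L.F
  refine ⟨(ordHom S L.F).range.index, Nat.pos_of_ne_zero hm, ?_⟩
  have hmem : (ordHom S L.F).range.index • d ∈ (ordHom S L.F).range :=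
    AddSubgroup.nsmul_index_mem _ d
  obtain ⟨u, hu⟩ := hmem
  obtain ⟨e, rfl⟩ := toField_surjective S L u
  exact ⟨e, hu⟩

/-- **GD5b** for the concrete datum: every class has a nonzero multiple in the image of
`J(F) = ∏_{q ∈ S} J_q(F)`. -/
theorem isTorsModLocal : (datum S p).IsTorsModLocal := by
  intro L c
  obtain ⟨⟨x, d⟩, rfl⟩ := mkC_surjective L c
  obtain ⟨m, hm, e, he⟩ := exists_nsmul_eq_divT S L d
  refine ⟨m, hm, (isLocalSum_iff (p := p) L _).2
    ⟨fun q => m • x q - (L.diag q.1).hom e, ?_⟩⟩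
  show m • mkC L (x, d) = _
  rw [← map_nsmul]
  have h1 : (m • ((x, d) : JDV L) : JDV L) =
      ((fun q => m • x q - (L.diag q.1).hom e, 0) : JDV L) + diagT L e := by
    refine Prod.ext (funext fun q => ?_) ?_
    · show m • x q = (m • x q - (L.diag q.1).hom e) + (L.diag q.1).hom e
      abel
    · show m • d = 0 + divT L e
      rw [zero_add, he]
  rw [h1, map_add, mkC_diagT, add_zero]

variable {S p}

/-- The leaf specs of `GAD/Spec.lean` make the concrete datum good above `μ_p`. -/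
theorem isGoodMu_of (hSU : SUnitDictSpec S) (hTr : DivTrTransSpec S)
    (hCap : CapitulationSpec S p) (hEx : ExistenceSpec S p) (hCM : ClassModuleSpec S p)
    (hJ : JInjSpec S p) (hInf : InfInjSpec S p) : (datum S p).IsGoodMu p :=
  { gd1 := fun L hL => gammaT_spec S p L (hCM L hL)
    gd3 := fun L hL q hq y hy h0 => hJ L hL q hq y hy h0
    gd4 := fun L x => gd4_of hSU L x
    gd5 := fun L c a hc => gd5_of hCap L c a hc
    gd6 := fun L₀ hL₀ => hEx L₀ hL₀
    gd7a := fun h q hq x => gd7a p h q hq x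
    gd7b := fun h h' c => gd7b_of hTr p h h' c
    gd8 := fun h hL z hz h0 => hInf h hL z hz h0 }

/-- The leaf specs of `GAD/Spec.lean` make the concrete datum good in the final sense. -/
theorem isGoodFin_of (hSU : SUnitDictSpec S) (hTr : DivTrTransSpec S)
    (hCap : CapitulationSpec S p) (hEx : ExistenceSpec S p) (hCM : ClassModuleSpec S p)
    (hJ : JInjSpec S p) (hInf : InfInjSpec S p) : (datum S p).IsGoodFin p :=
  ⟨isGoodMu_of hSU hTr hCap hEx hCM hJ hInf, isTorsModLocal S p⟩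

/-- **ASSEMBLY, final form.**  The leaf specs imply `Tow.GlobalSpecFin S p`. -/
theorem globalSpecFin_of (hSU : SUnitDictSpec S) (hTr : DivTrTransSpec S)
    (hCap : CapitulationSpec S p) (hEx : ExistenceSpec S p) (hCM : ClassModuleSpec S p)
    (hJ : JInjSpec S p) (hInf : InfInjSpec S p) : GlobalSpecFin S p :=
  ⟨datum S p, isGoodFin_of hSU hTr hCap hEx hCM hJ hInf⟩

end

end Fermat.Agent.S55.GAD.H604

end
-- ===== PACK-END S55/GAD/Gd5bH604.lean

-- ===== PACK-BEGIN S55/G/Rec/Tow/H323/AlgB.lean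
section


/-!
# S55 / G / REC / TOW, leaf ALG-B (helper323, subtask 551)

Pure algebra on Mathlib's `groupCohomology`:

* `resTop : ResTopSpec` — restriction to the subgroup `⊤` is bijective;
* `resCoeffNat : ResCoeffNatSpec` — restriction commutes with change of coefficients;
* `resMapNat : ResMapNatSpec` — restriction commutes with inflation;
* `h2Exact : H2ExactSpec` — exactness of `H²(H, X₁) → H²(H, X₂) → H²(H, X₃)`.
-/

set_option autoImplicit false

open CategoryTheory groupCohomology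

noncomputable section

namespace Fermat.Agent.S55.G.Rec.TOW.H323

open Fermat.Agent.S55 Fermat.Agent.S55.G.Rec.TOW

/-! ## ALG-TOP -/

/-- Restriction to `⊤` is an isomorphism (general coefficient ring, all degrees). -/
theorem resMap_top_bijective_h323 {k Γ : Type} [CommRing k] [Group Γ] (A : Rep.{0} k Γ) (n : ℕ) :
    Function.Bijective (T.resMap A (⊤ : Subgroup Γ) n).hom := by
  let e : (⊤ : Subgroup Γ) ≃* Γ := Subgroup.topEquiv
  have he : ∀ g : (⊤ : Subgroup Γ),
      (LinearEquiv.refl k A.V).toLinearMap ∘ₗ (T.resSub A ⊤).ρ g =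
        A.ρ (e g) ∘ₗ (LinearEquiv.refl k A.V).toLinearMap := fun g => rfl
  let I := groupCohomology.mapIso (A := A) (B := T.resSub A ⊤) e (LinearEquiv.refl k A.V) he n
  have hI : T.resMap A (⊤ : Subgroup Γ) n = I.inv := rfl
  rw [hI]
  exact ConcreteCategory.bijective_of_isIso I.inv

/-- **ALG-TOP.** -/
theorem resTop : ResTopSpec := fun _ _ A n => resMap_top_bijective_h323 A n

/-! ## ALG-RCN -/

/-- Restriction commutes with change of coefficients (all degrees, morphism form). -/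
theorem resMap_coeffMap_h323 {k Γ : Type} [CommRing k] [Group Γ] {A B : Rep.{0} k Γ} (f : A ⟶ B)
    (H : Subgroup Γ) (n : ℕ) :
    T.resMap A H n ≫ T.coeffMap ((Rep.resFunctor H.subtype).map f) n =
      T.coeffMap f n ≫ T.resMap B H n := by
  rw [← groupCohomology.map_comp, ← groupCohomology.map_comp]
  exact groupCohomology.map_congr rfl (by simp) n

/-- **ALG-RCN.** -/
theorem resCoeffNat : ResCoeffNatSpec := by
  intro Γ _ A B f H x
  have h := resMap_coeffMap_h323 f H 2
  exact congrArg (fun φ => φ.hom x) h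

/-! ## ALG-NAT -/

section Nat

variable {k Γ' Γ : Type} [CommRing k] [Group Γ'] [Group Γ] (π : Γ' →* Γ)

/-- The restriction of `π` to `π⁻¹ P → P`. -/
def comapHom_h323 (P : Subgroup Γ) : ↥(P.comap π) →* ↥P where
  toFun g := ⟨π g.1, g.2⟩
  map_one' := Subtype.ext (map_one π)
  map_mul' a b := Subtype.ext (map_mul π a.1 b.1)

variable {π} in
/-- `ι : Res_π C ⟶ C'` restricted to `π⁻¹ P`. -/
def comapCoeff_h323 {C : Rep.{0} k Γ} {C' : Rep.{0} k Γ'} (ι : Rep.res π C ⟶ C')
    (P : Subgroup Γ) :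
    Rep.res (comapHom_h323 π P) (T.resSub C P) ⟶ T.resSub C' (P.comap π) :=
  Rep.ofHom ⟨ι.hom.toLinearMap, fun g => LinearMap.ext fun x => Rep.hom_comm_apply ι g.1 x⟩

/-- Restriction commutes with inflation (all degrees, morphism form). -/
theorem map_resMap_h323 {C : Rep.{0} k Γ} {C' : Rep.{0} k Γ'} (ι : Rep.res π C ⟶ C')
    (P : Subgroup Γ) (n : ℕ) :
    groupCohomology.map π ι n ≫ T.resMap C' (P.comap π) n =
      T.resMap C P n ≫ groupCohomology.map (comapHom_h323 π P) (comapCoeff_h323 ι P) n := by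
  rw [← groupCohomology.map_comp, ← groupCohomology.map_comp]
  exact groupCohomology.map_congr rfl (by ext; rfl) n

end Nat

/-- **ALG-NAT.** -/
theorem resMapNat : ResMapNatSpec := by
  intro Γ' Γ _ _ π C C' ι P z hz
  have h := map_resMap_h323 π ι P 2
  have h2 : res2 C' (P.comap π) ((groupCohomology.map π ι 2).hom z) =
      (groupCohomology.map (comapHom_h323 π P) (comapCoeff_h323 ι P) 2).hom (res2 C P z) :=
    congrArg (fun φ => φ.hom z) h
  rw [h2, hz, map_zero]

/-! ## ALG-SES -/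

/-- Exactness of `Hⁿ(Γ, X₁) → Hⁿ(Γ, X₂) → Hⁿ(Γ, X₃)`, elementwise. -/
theorem coeffMap_exact_h323 {k Γ : Type} [CommRing k] [Group Γ] (X : ShortComplex (Rep.{0} k Γ))
    (hX : X.ShortExact) (n : ℕ) (z : groupCohomology X.X₂ n)
    (hz : (T.coeffMap X.g n).hom z = 0) : ∃ x, (T.coeffMap X.f n).hom x = z := by
  have h := groupCohomology.mapShortComplex₂_exact hX n
  rw [ShortComplex.moduleCat_exact_iff] at h
  exact h z hz

/-- **ALG-SES.** -/
theorem h2Exact : H2ExactSpec := by
  intro Γ _ X hX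
  refine ⟨fun z hz => coeffMap_exact_h323 X hX 2 z hz, fun H z hz => ?_⟩
  have hX' : (X.map (Rep.resFunctor H.subtype)).ShortExact := (Rep.shortExact_res H.subtype).2 hX
  exact coeffMap_exact_h323 (X.map (Rep.resFunctor H.subtype)) hX' 2 z hz

end Fermat.Agent.S55.G.Rec.TOW.H323

end

end
-- ===== PACK-END S55/G/Rec/Tow/H323/AlgB.lean

-- ===== PACK-BEGIN S55/G/Rec/Tow/H414/Ram.lean
section






/-!
# S55 / layer G / block REC / adapter TOW : leaf RAM (`RamSpec p`)   (helper414)

For a level `L` of `S`, a prime `p` and `k`: choose a prime `r ∉ S`, `r ≡ 1 mod p^k`, and put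
`M = L · L(r, p^k)`, `L(r, n) = auxField63 r n ⊂ ℚ(ζ_r)` (helper63, `H63AuxField`).  Then `M` is a
level of `S ∪ {r}`, `Gal(M/L) ≅ Gal(L(r, p^k)/ℚ)` has order `p^k` and is the image of the inertia
group of any place of `ℚ̄` over `r`; in particular it fixes the prime of `M` below such a place.
-/

set_option autoImplicit false
set_option linter.style.haveILetI false
set_option linter.unusedSectionVars false

noncomputable section

namespace Fermat.Agent.S55.G.Rec.TOW.H414

open Fermat.Agent.S55 Fermat.Agent.S55.Tow Fermat.Agent.S55.E1.H594 Fermat.Agent.S55.G.Rec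
open Fermat.Agent.S54 Fermat.Agent.S55.Bridge Fermat.Agent.S55.Bridge.H594
open IsDedekindDomain NumberField

/-! ## The auxiliary prime -/

theorem exists_aux_prime (S : Finset Nat.Primes) (n : ℕ) (hn : n ≠ 0) :
    ∃ r : Nat.Primes, r ∉ S ∧ n ∣ (r : ℕ) - 1 := by
  obtain ⟨r, hr, hlt, hmod⟩ := Nat.exists_prime_gt_modEq_one (S.sup fun q => (q : ℕ)) hn
  refine ⟨⟨r, hr⟩, fun hmem => ?_, ?_⟩
  · have h1 : ((⟨r, hr⟩ : Nat.Primes) : ℕ) ≤ S.sup fun q => (q : ℕ) :=
      Finset.le_sup (f := fun q : Nat.Primes => (q : ℕ)) hmem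
    exact absurd hlt (not_lt.2 h1)
  · exact (Nat.modEq_iff_dvd' hr.one_lt.le).1 hmod.symm

/-! ## The auxiliary level -/

section Level

variable {S : Finset Nat.Primes} (L : Level S) (r : Nat.Primes) (n : ℕ)

/-- the instance `Fact r.Prime` of a `r : Nat.Primes` -/
local instance factPrime414 : Fact (r : ℕ).Prime := ⟨r.2⟩

/-- The level `M = L · L(r, n)` of `S ∪ {r}`. -/
def ramLevel : Level (insert r S) where
  F := L.F ⊔ auxField63 (r : ℕ) n
  unram := (L.unram.mono (Finset.subset_insert r S)).sup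
    (auxField63_isUnramifiedOutside (r : ℕ) n (insert r S) (Finset.mem_insert_self r S))
  normalU := by
    rw [IntermediateField.fixingSubgroup_sup]
    haveI := L.normalU
    haveI : ((auxField63 (r : ℕ) n).fixingSubgroup).Normal := by
      rw [fixingSubgroup_auxField63]
      infer_instance
    infer_instance

theorem le_ramLevel : Level.ofLE (Finset.subset_insert r S) L ≤ ramLevel L r n :=
  (le_sup_left : L.F ≤ L.F ⊔ auxField63 (r : ℕ) n)

theorem ramLevel_U : (ramLevel L r n).U = L.U ⊓ (auxChar63 (r : ℕ) n).ker := by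
  show (L.F ⊔ auxField63 (r : ℕ) n).fixingSubgroup = _
  rw [IntermediateField.fixingSubgroup_sup, fixingSubgroup_auxField63]
  rfl

/-- The character of `Gal(M/ℚ)` cutting out `L(r, n)`. -/
def ramChar : (ramLevel L r n).Gal →* (ZMod (r : ℕ))ˣ ⧸ powSubgroup63 (r : ℕ) n :=
  QuotientGroup.lift (ramLevel L r n).U (auxChar63 (r : ℕ) n) fun g hg => by
    rw [ramLevel_U] at hg
    exact hg.2

@[simp] theorem ramChar_mk (g : _root_.Fermat.Agent.S55.Tow.GQ) :
    ramChar L r n (QuotientGroup.mk g : (ramLevel L r n).Gal) = auxChar63 (r : ℕ) n g := rfl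

theorem mk_mem_relGal_iff (g : _root_.Fermat.Agent.S55.Tow.GQ) :
    (QuotientGroup.mk g : (ramLevel L r n).Gal) ∈ Level.relGal (le_ramLevel L r n) ↔ g ∈ L.U := by
  show (Level.proj (le_ramLevel L r n)) (QuotientGroup.mk g) = 1 ↔ _
  show (QuotientGroup.mk g : (Level.ofLE (Finset.subset_insert r S) L).Gal) = 1 ↔ _
  rw [QuotientGroup.eq_one_iff]
  rfl

/-- Inertia at `r` lies in `Gal(ℚ̄/L)`. -/
theorem inertia_le_U (hr : r ∉ S) (A : ValuationSubring Qbar) (hA : A.LiesOverPrime (r : ℕ)) :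
    A.inertiaSubgroupIn ℚ ≤ L.U :=
  L.unram.2 r hr A hA

/-- Every element of `Gal(M/L)` is the image of an element of the inertia group of `A`. -/
theorem exists_inertia_mk_eq (hr : r ∉ S) (A : ValuationSubring Qbar)
    (hA : A.LiesOverPrime (r : ℕ)) (z : (ramLevel L r n).Gal)
    (hz : z ∈ Level.relGal (le_ramLevel L r n)) :
    ∃ σ ∈ A.inertiaSubgroupIn ℚ, (QuotientGroup.mk σ : (ramLevel L r n).Gal) = z := by
  obtain ⟨g, rfl⟩ := QuotientGroup.mk_surjective z
  have hg : g ∈ L.U := (_root_.Fermat.Agent.S55.G.Rec.TOW.H414.mk_mem_relGal_iff L r n g).1 hz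
  obtain ⟨σ, hσ, h⟩ := exists_inertia_auxChar_eq63 (r : ℕ) n A hA g
  refine ⟨σ, hσ, ?_⟩
  have hmem : σ⁻¹ * g ∈ L.U ⊓ (auxChar63 (r : ℕ) n).ker :=
    Subgroup.mem_inf.2 ⟨L.U.mul_mem (L.U.inv_mem (inertia_le_U L r hr A hA hσ)) hg,
      MonoidHom.mem_ker.2 (by rw [map_mul, map_inv, h, inv_mul_cancel])⟩
  rw [← ramLevel_U] at hmem
  exact QuotientGroup.eq.2 hmem

theorem ramChar_bijective (hr : r ∉ S) :
    Function.Bijective ((ramChar L r n).comp (Level.relGal (le_ramLevel L r n)).subtype) := by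
  constructor
  · rw [injective_iff_map_eq_one]
    rintro ⟨z, hz⟩ h
    obtain ⟨g, rfl⟩ := QuotientGroup.mk_surjective z
    have hg : g ∈ L.U := (_root_.Fermat.Agent.S55.G.Rec.TOW.H414.mk_mem_relGal_iff L r n g).1 hz
    have h1 : auxChar63 (r : ℕ) n g = 1 := h
    apply Subtype.ext
    show (QuotientGroup.mk g : (ramLevel L r n).Gal) = 1
    rw [QuotientGroup.eq_one_iff, ramLevel_U]
    exact ⟨hg, h1⟩
  · intro c
    obtain ⟨g₀, rfl⟩ := auxChar63_surjective (r : ℕ) n c
    obtain ⟨A, hA⟩ := exists_valuationSubring_liesOver (r : ℕ) r.2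
    obtain ⟨σ, hσ, h⟩ := exists_inertia_auxChar_eq63 (r : ℕ) n A hA g₀
    refine ⟨⟨QuotientGroup.mk σ, (_root_.Fermat.Agent.S55.G.Rec.TOW.H414.mk_mem_relGal_iff L r n σ).2 (inertia_le_U L r hr A hA hσ)⟩, ?_⟩
    exact h

theorem card_relGal (hr : r ∉ S) (hn : n ∣ (r : ℕ) - 1) :
    Nat.card (Level.relGal (le_ramLevel L r n)) = n := by
  rw [Nat.card_congr (Equiv.ofBijective _ (ramChar_bijective L r n hr))]
  exact card_quotient_powSubgroup63 (r : ℕ) n hn

/-! ## `Gal(M/L)` fixes a prime above `r` -/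

attribute [local instance] isAlgebraic_Qbar isGalois_Qbar

theorem algebraMap_mk_smul {T : Finset Nat.Primes} (M : Level T) (σ : _root_.Fermat.Agent.S55.Tow.GQ) (x : 𝓞 M.F) :
    algebraMap (𝓞 M.F) Qbar ((QuotientGroup.mk σ : M.Gal) • x) =
      σ (algebraMap (𝓞 M.F) Qbar x) :=
  level_mk_smul M σ (algebraMap (𝓞 M.F) M.F x)

theorem smul_mem_primeBelowF_iff {T : Finset Nat.Primes} (M : Level T)
    (A : ValuationSubring Qbar) (σ : _root_.Fermat.Agent.S55.Tow.GQ) (hσ : σ ∈ A.inertiaSubgroupIn ℚ) (x : 𝓞 M.F) :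
    (QuotientGroup.mk σ : M.Gal) • x ∈ primeBelowF M.F A ↔ x ∈ primeBelowF M.F A := by
  have key : (QuotientGroup.mk σ : M.Gal) • x - x ∈ primeBelowF M.F A := by
    rw [mem_primeBelowF, map_sub, algebraMap_mk_smul]
    exact ((mem_inertiaSubgroupIn_iff A σ).mp hσ).2 _ (algebraMap_ringOfIntegers_mem M.F A x)
  constructor
  · intro h
    have := (primeBelowF M.F A).sub_mem h key
    simpa using this
  · intro h
    have := (primeBelowF M.F A).add_mem key h
    simpa using this

theorem fixesPrimeAbove_relGal (hr : r ∉ S) :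
    FixesPrimeAbove (ramLevel L r n) r (Level.relGal (le_ramLevel L r n)) := by
  obtain ⟨A, hA⟩ := exists_valuationSubring_liesOver (r : ℕ) r.2
  refine ⟨placePrime (ramLevel L r n).F A r.2 hA,
    natCast_mem_primeBelowF (ramLevel L r n).F A hA, ?_⟩
  intro z hz
  obtain ⟨σ, hσ, rfl⟩ := exists_inertia_mk_eq L r n hr A hA z hz
  apply HeightOneSpectrum.ext
  ext x
  rw [G.mem_primeSMul_iff]
  show (QuotientGroup.mk σ : (ramLevel L r n).Gal)⁻¹ • x ∈ primeBelowF (ramLevel L r n).F A ↔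
    x ∈ primeBelowF (ramLevel L r n).F A
  exact smul_mem_primeBelowF_iff (ramLevel L r n) A σ⁻¹
    ((A.inertiaSubgroupIn ℚ).inv_mem hσ) x

end Level

/-- **RAM** (`RamSpec p`): the auxiliary level. -/
theorem ramSpec (p : ℕ) : RamSpec p := by
  intro hp S L k
  obtain ⟨r, hr, hdvd⟩ := exists_aux_prime S (p ^ k) (pow_ne_zero k hp.ne_zero)
  exact ⟨r, hr, ramLevel L r (p ^ k), le_ramLevel L r (p ^ k),
    card_relGal L r (p ^ k) hr hdvd, fixesPrimeAbove_relGal L r (p ^ k) hr⟩

end Fermat.Agent.S55.G.Rec.TOW.H414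

end
end
-- ===== PACK-END S55/G/Rec/Tow/H414/Ram.lean

-- ===== PACK-BEGIN S56/H419/H0Ind.lean
section




/-!
# S56 / W-BASE / leaf EUL-H0, part 2 (helper419): `H⁰` of induced modules, with the
right-translation action

PT vocabulary (`Fermat.Agent.S55.PT`): `indRep U M = (G ⧸ U →₀ M)` with the diagonal action.
For `U` normal and `σ : G`, right translation by `σ⁻¹`,

  `indR U M σ : single (gU) m ↦ single (g σ⁻¹ U) m`,

is an equivariant automorphism of `indRep U M` (`indR_equivariant`), and `σ ↦ indR U M σ` is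
multiplicative (`indR_one`, `indR_mul`): this is the `G ⧸ U`-module structure on `Ind_U M`
"by functoriality in the coefficients".

Results (all equivalences are explicit and intertwine the right translations):

* `indH0Equiv : H⁰(G, Ind_U M) ≃ M^U`, `a ↦ a(U)`; `indR σ` becomes `M.ρ σ`
  (`indH0Equiv_indR`);
* `subInv D U M` := the `a` with `a (d • x) = a x` for `d ∈ D`; `subInvEquiv : subInv D U M ≃
  (D\G/U →₀ M)`, `indR σ` becomes `mapDomain (dcPerm D U σ)` (`subInvEquiv_indR`);
* if `M` is trivial on the image of `r : G' → G` then `H⁰(G', (Ind_U M)|_{G'}) = subInv r.range`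
  (`resH0_eq_subInv`), whence `resIndH0Equiv`;
* if `c` acts by `-1` on `M` then `(Ind_U M)^{c=-1} = subInv ⟨c⟩` (`minusPart_eq_subInv`),
  whence `minusIndEquiv`.
-/

set_option autoImplicit false
set_option linter.style.haveILetI false

noncomputable section

namespace Fermat.Agent.S56.H419

open Fermat.Agent.S55.PT groupCohomology MulAction

variable {k : Type} [Field k] {G : Type} [Group G]

/-! ### right translations on `G ⧸ U` -/

section RightTr

variable (U : Subgroup G) [U.Normal]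

/-- Right translation by `σ⁻¹` on `G ⧸ U`: `gU ↦ g σ⁻¹ U`. -/
def rightTr (σ : G) : Equiv.Perm (G ⧸ U) := Equiv.mulRight ((σ : G ⧸ U)⁻¹)

@[simp] theorem rightTr_apply (σ : G) (x : G ⧸ U) : rightTr U σ x = x * (σ : G ⧸ U)⁻¹ := rfl

@[simp] theorem rightTr_symm_apply (σ : G) (x : G ⧸ U) :
    (rightTr U σ).symm x = x * (σ : G ⧸ U) := by
  simp [rightTr]

theorem rightTr_mk (σ g : G) : rightTr U σ (g : G ⧸ U) = ((g * σ⁻¹ : G) : G ⧸ U) := rfl

theorem smul_eq_mk_mul (g : G) (x : G ⧸ U) : g • x = (g : G ⧸ U) * x := by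
  induction x using QuotientGroup.induction_on with
  | H a => rfl

theorem rightTr_smul (σ g : G) (x : G ⧸ U) : rightTr U σ (g • x) = g • rightTr U σ x := by
  simp only [rightTr_apply, smul_eq_mk_mul, mul_assoc]

theorem rightTr_one : rightTr U (1 : G) = 1 := by
  ext x
  simp

theorem rightTr_mul (σ τ : G) : rightTr U (σ * τ) = rightTr U σ * rightTr U τ := by
  ext x
  simp [mul_assoc]

end RightTr

/-! ### the right-translation action on `Ind_U M` -/

section IndR

variable (U : Subgroup G) [U.Normal] (M : Rep.{0, 0, 0} k G)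

/-- Right translation by `σ⁻¹` on `Ind_U M`. -/
def indR (σ : G) : ((G ⧸ U) →₀ M) →ₗ[k] ((G ⧸ U) →₀ M) :=
  Finsupp.lmapDomain M k (rightTr U σ)

@[simp] theorem indR_single (σ : G) (x : G ⧸ U) (m : M) :
    indR U M σ (Finsupp.single x m) = Finsupp.single (rightTr U σ x) m := by
  rw [indR, Finsupp.lmapDomain_apply, Finsupp.mapDomain_single]

theorem indR_eq_mapDomain (σ : G) (a : (G ⧸ U) →₀ M) :
    indR U M σ a = Finsupp.mapDomain (rightTr U σ) a := rfl

theorem indR_apply (σ : G) (a : (G ⧸ U) →₀ M) (x : G ⧸ U) :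
    indR U M σ a x = a (x * (σ : G ⧸ U)) := by
  rw [indR_eq_mapDomain, mapDomain_perm_apply, rightTr_symm_apply]

theorem indR_equivariant (σ : G) :
    IsEquivariant (A := indRep U M) (B := indRep U M) (indR U M σ) := by
  intro g
  have : (indR U M σ) ∘ₗ (indAct U M g) = (indAct U M g) ∘ₗ (indR U M σ) := by
    apply Finsupp.lhom_ext
    intro x m
    rw [LinearMap.comp_apply, LinearMap.comp_apply, indAct_single, indR_single, indR_single,
      indAct_single, rightTr_smul]
  exact fun a => LinearMap.congr_fun this a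

theorem indR_one : indR U M (1 : G) = LinearMap.id := by
  apply Finsupp.lhom_ext
  intro x m
  simp [rightTr_one]

theorem indR_mul (σ τ : G) : indR U M (σ * τ) = indR U M σ ∘ₗ indR U M τ := by
  apply Finsupp.lhom_ext
  intro x m
  simp [rightTr_mul]

/-- `indR` only depends on the class of `σ` modulo `U`. -/
theorem indR_congr {σ τ : G} (h : (σ : G ⧸ U) = (τ : G ⧸ U)) : indR U M σ = indR U M τ := by
  apply Finsupp.lhom_ext
  intro x m
  simp [h]

end IndR

/-! ### evaluation of the diagonal action -/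

section Eval

variable (U : Subgroup G) (M : Rep.{0, 0, 0} k G)

theorem indAct_apply (g : G) (a : (G ⧸ U) →₀ M) (x : G ⧸ U) :
    indAct U M g a (g • x) = M.ρ g (a x) := by
  rw [indAct, LinearMap.comp_apply, Finsupp.lmapDomain_apply,
    Finsupp.mapDomain_apply (MulAction.injective g), Finsupp.mapRange.linearMap_apply,
    Finsupp.mapRange_apply]

theorem indRep_ρ_apply (g : G) (a : (G ⧸ U) →₀ M) (x : G ⧸ U) :
    ((indRep U M).ρ g a : (G ⧸ U) →₀ M) (g • x) = M.ρ g (a x) :=
  indAct_apply U M g a x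

/-- `g` fixes `a` iff `a (g • x) = g (a x)` for all `x`. -/
theorem indAct_eq_self_iff (g : G) (a : (G ⧸ U) →₀ M) :
    indAct U M g a = a ↔ ∀ x : G ⧸ U, a (g • x) = M.ρ g (a x) := by
  constructor
  · intro h x
    rw [← indAct_apply U M g a x, h]
  · intro h
    ext x
    have hx : x = g • (g⁻¹ • x) := by rw [smul_inv_smul]
    rw [hx, indAct_apply, h]

/-- `g a = -a` iff `a (g • x) = -g (a x)` for all `x`. -/
theorem indAct_eq_neg_iff (g : G) (a : (G ⧸ U) →₀ M) :
    indAct U M g a = -a ↔ ∀ x : G ⧸ U, a (g • x) = -M.ρ g (a x) := by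
  constructor
  · intro h x
    have := indAct_apply U M g a x
    rw [h, Finsupp.neg_apply] at this
    rw [← this, neg_neg]
  · intro h
    ext x
    have hx : x = g • (g⁻¹ • x) := by rw [smul_inv_smul]
    rw [hx, indAct_apply, Finsupp.neg_apply, h, neg_neg]

end Eval

/-! ### global invariants: `H⁰(G, Ind_U M) = M^U` -/

section Global

variable (U : Subgroup G) (M : Rep.{0, 0, 0} k G)

/-- The `U`-invariants of `M`. -/
def invU : Submodule k M where
  carrier := {m | ∀ u ∈ U, M.ρ u m = m}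
  add_mem' := by
    intro a b ha hb u hu
    rw [map_add, ha u hu, hb u hu]
  zero_mem' := by
    intro u _
    rw [map_zero]
  smul_mem' := by
    intro c a ha u hu
    rw [map_smul, ha u hu]

variable {U M} in
theorem mem_invU {m : M} : m ∈ invU U M ↔ ∀ u ∈ U, M.ρ u m = m := Iff.rfl

/-- `M^U` is stable under `G` when `U` is normal. -/
theorem ρ_mem_invU [U.Normal] (σ : G) {m : M} (hm : m ∈ invU U M) : M.ρ σ m ∈ invU U M := by
  intro u hu
  have h1 : σ⁻¹ * u * σ ∈ U := by
    have := (inferInstance : U.Normal).conj_mem u hu σ⁻¹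
    simpa using this
  have h2 : u * σ = σ * (σ⁻¹ * u * σ) := by group
  calc M.ρ u (M.ρ σ m) = M.ρ (u * σ) m := by rw [map_mul]; rfl
    _ = M.ρ (σ * (σ⁻¹ * u * σ)) m := by rw [h2]
    _ = M.ρ σ (M.ρ (σ⁻¹ * u * σ) m) := by rw [map_mul]; rfl
    _ = M.ρ σ m := by rw [hm _ h1]

/-- The action of `σ` on `M^U` (`U` normal). -/
def invUAct [U.Normal] (σ : G) : ↥(invU U M) →ₗ[k] ↥(invU U M) :=
  (M.ρ σ).restrict fun _ hm => ρ_mem_invU U M σ hm

@[simp] theorem coe_invUAct [U.Normal] (σ : G) (m : ↥(invU U M)) :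
    (invUAct U M σ m : M) = M.ρ σ m.1 := rfl

theorem mem_H0_indRep_iff (a : (G ⧸ U) →₀ M) :
    (a : indRep U M) ∈ LevelSys.H0 (indRep U M) ↔
      ∀ (g : G) (x : G ⧸ U), a (g • x) = M.ρ g (a x) := by
  constructor
  · intro h g
    exact (indAct_eq_self_iff U M g a).1 (h g)
  · intro h g
    exact (indAct_eq_self_iff U M g a).2 (h g)

/-- the function `gU ↦ g m` attached to a `U`-invariant `m` -/
def orbitFun (m : ↥(invU U M)) : G ⧸ U → M :=
  Quotient.lift (s := QuotientGroup.leftRel U) (fun g : G => M.ρ g m.1) (by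
    intro a b hab'
    have hab : a⁻¹ * b ∈ U := QuotientGroup.leftRel_apply.mp hab'
    have hb : b = a * (a⁻¹ * b) := by group
    show M.ρ a m.1 = M.ρ b m.1
    conv_rhs => rw [hb, map_mul]
    show M.ρ a m.1 = M.ρ a (M.ρ (a⁻¹ * b) m.1)
    rw [m.2 _ hab])

@[simp] theorem orbitFun_mk (m : ↥(invU U M)) (g : G) :
    orbitFun U M m (g : G ⧸ U) = M.ρ g m.1 := rfl

theorem orbitFun_smul (m : ↥(invU U M)) (g : G) (x : G ⧸ U) :
    orbitFun U M m (g • x) = M.ρ g (orbitFun U M m x) := by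
  induction x using QuotientGroup.induction_on with
  | H a =>
    show M.ρ (g * a) m.1 = M.ρ g (M.ρ a m.1)
    rw [map_mul]; rfl

/-- **Global invariants.** `H⁰(G, Ind_U M) ≃ M^U`, `a ↦ a(U)`. -/
def indH0Equiv [U.FiniteIndex] : ↥(LevelSys.H0 (indRep U M)) ≃ₗ[k] ↥(invU U M) where
  toFun a := ⟨(a.1 : (G ⧸ U) →₀ M) ((1 : G) : G ⧸ U), by
    intro u hu
    have h := (mem_H0_indRep_iff U M a.1).1 a.2 u ((1 : G) : G ⧸ U)
    rw [← h]
    congr 1
    show ((u * 1 : G) : G ⧸ U) = ((1 : G) : G ⧸ U)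
    rw [mul_one, QuotientGroup.eq]
    simpa using hu⟩
  map_add' _ _ := rfl
  map_smul' _ _ := rfl
  invFun m := ⟨(Finsupp.equivFunOnFinite.symm (orbitFun U M m) : (G ⧸ U) →₀ M), by
    rw [mem_H0_indRep_iff]
    intro g x
    simp only [Finsupp.equivFunOnFinite_symm_apply_apply]
    exact orbitFun_smul U M m g x⟩
  left_inv a := by
    apply Subtype.ext
    apply Finsupp.ext
    intro x
    induction x using QuotientGroup.induction_on with
    | H g =>
      have h := (mem_H0_indRep_iff U M a.1).1 a.2 g ((1 : G) : G ⧸ U)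
      show (Finsupp.equivFunOnFinite.symm (orbitFun U M _) : (G ⧸ U) →₀ M) (g : G ⧸ U) = _
      rw [Finsupp.equivFunOnFinite_symm_apply_apply, orbitFun_mk]
      show M.ρ g ((a.1 : (G ⧸ U) →₀ M) ((1 : G) : G ⧸ U)) = _
      rw [← h]
      congr 1
      show ((g * 1 : G) : G ⧸ U) = (g : G ⧸ U)
      rw [mul_one]
  right_inv m := by
    apply Subtype.ext
    show (Finsupp.equivFunOnFinite.symm (orbitFun U M m) : (G ⧸ U) →₀ M) ((1 : G) : G ⧸ U) = m.1
    rw [Finsupp.equivFunOnFinite_symm_apply_apply, orbitFun_mk, map_one]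
    rfl

@[simp] theorem coe_indH0Equiv [U.FiniteIndex] (a : ↥(LevelSys.H0 (indRep U M))) :
    (indH0Equiv U M a : M) = (a.1 : (G ⧸ U) →₀ M) ((1 : G) : G ⧸ U) := rfl

/-- **Intertwining (global).** Under `H⁰(G, Ind_U M) ≃ M^U` the right translation `indR σ`
is the action of `σ` on `M^U`. -/
theorem indH0Equiv_indR [U.Normal] [U.FiniteIndex] (σ : G)
    (a : ↥(LevelSys.H0 (indRep U M))) :
    indH0Equiv U M (pushH0 (A := indRep U M) (B := indRep U M) (indR U M σ)
      (indR_equivariant U M σ) a) = invUAct U M σ (indH0Equiv U M a) := by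
  apply Subtype.ext
  rw [coe_indH0Equiv, coe_invUAct, coe_indH0Equiv]
  show indR U M σ (a.1 : (G ⧸ U) →₀ M) ((1 : G) : G ⧸ U) = _
  rw [indR_apply]
  have h := (mem_H0_indRep_iff U M a.1).1 a.2 σ ((1 : G) : G ⧸ U)
  rw [← h, smul_eq_mk_mul, QuotientGroup.mk_one, one_mul, mul_one]

end Global

/-! ### invariants under a subgroup acting trivially on the coefficients -/

section Sub

variable (D : Subgroup G) (U : Subgroup G) (M : Rep.{0, 0, 0} k G)

/-- The double cosets `D \ G / U`, as the orbits of `D` on `G ⧸ U`. -/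
abbrev DC : Type := orbitRel.Quotient D (G ⧸ U)

/-- The elements of `Ind_U M` which are constant on the `D`-orbits of `G ⧸ U`. -/
abbrev subInv : Submodule k ((G ⧸ U) →₀ M) := orbitInv k D (G ⧸ U) M

theorem mem_subInv_iff (a : (G ⧸ U) →₀ M) :
    a ∈ subInv D U M ↔ ∀ d ∈ D, ∀ x : G ⧸ U, a (d • x) = a x := by
  constructor
  · intro h d hd x
    exact h ⟨d, hd⟩ x
  · intro h d x
    exact h d.1 d.2 x

/-- `subInv D U M ≃ (D\G/U →₀ M)`. -/
def subInvEquiv [U.FiniteIndex] : ↥(subInv D U M) ≃ₗ[k] (DC D U →₀ M) :=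
  orbitInvEquiv k D (G ⧸ U) M

@[simp] theorem subInvEquiv_apply_mk [U.FiniteIndex] (a : ↥(subInv D U M)) (x : G ⧸ U) :
    subInvEquiv D U M a (Quotient.mk (orbitRel D (G ⧸ U)) x) = a.1 x :=
  orbitInvEquiv_apply_mk k D (G ⧸ U) M a x

theorem rightTr_subgroup_smul [U.Normal] (σ : G) (d : D) (x : G ⧸ U) :
    rightTr U σ (d • x) = d • rightTr U σ x :=
  rightTr_smul U σ d.1 x

/-- The permutation of `D\G/U` induced by right translation by `σ⁻¹`. -/
def dcPerm [U.Normal] (σ : G) : Equiv.Perm (DC D U) :=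
  orbitPerm (rightTr U σ) (rightTr_subgroup_smul D U σ)

@[simp] theorem dcPerm_mk [U.Normal] (σ : G) (x : G ⧸ U) :
    dcPerm D U σ (Quotient.mk (orbitRel D (G ⧸ U)) x) =
      Quotient.mk (orbitRel D (G ⧸ U)) (x * (σ : G ⧸ U)⁻¹) := rfl

@[simp] theorem dcPerm_symm_mk [U.Normal] (σ : G) (x : G ⧸ U) :
    (dcPerm D U σ).symm (Quotient.mk (orbitRel D (G ⧸ U)) x) =
      Quotient.mk (orbitRel D (G ⧸ U)) (x * (σ : G ⧸ U)) := by
  show Quotient.mk (orbitRel D (G ⧸ U)) ((rightTr U σ).symm x) = _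
  rw [rightTr_symm_apply]

theorem dcPerm_one [U.Normal] : dcPerm D U (1 : G) = 1 := by
  ext ω
  induction ω using Quotient.inductionOn with
  | h x => simp

theorem dcPerm_mul [U.Normal] (σ τ : G) : dcPerm D U (σ * τ) = dcPerm D U σ * dcPerm D U τ := by
  ext ω
  induction ω using Quotient.inductionOn with
  | h x => simp [mul_assoc]

theorem indR_mem_subInv [U.Normal] (σ : G) {a : (G ⧸ U) →₀ M} (ha : a ∈ subInv D U M) :
    indR U M σ a ∈ subInv D U M :=
  mapDomain_mem_orbitInv (rightTr U σ) (rightTr_subgroup_smul D U σ) ha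

/-- Right translation on `subInv D U M`. -/
def subInvR [U.Normal] (σ : G) : ↥(subInv D U M) →ₗ[k] ↥(subInv D U M) :=
  (indR U M σ).restrict fun _ ha => indR_mem_subInv D U M σ ha

@[simp] theorem coe_subInvR [U.Normal] (σ : G) (a : ↥(subInv D U M)) :
    (subInvR D U M σ a : (G ⧸ U) →₀ M) = indR U M σ a.1 := rfl

/-- **Intertwining (double cosets).** Under `subInv D U M ≃ (D\G/U →₀ M)` the right translation
`indR σ` is the permutation map of `dcPerm D U σ`. -/
theorem subInvEquiv_indR [U.Normal] [U.FiniteIndex] (σ : G) (a : ↥(subInv D U M)) :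
    subInvEquiv D U M (subInvR D U M σ a) =
      Finsupp.mapDomain (dcPerm D U σ) (subInvEquiv D U M a) :=
  orbitInvEquiv_mapDomain (rightTr U σ) (rightTr_subgroup_smul D U σ) a

theorem finrank_subInv [U.FiniteIndex] [Module.Finite k M] :
    Module.finrank k ↥(subInv D U M) = Nat.card (DC D U) * Module.finrank k M :=
  finrank_orbitInv

end Sub

/-! ### local invariants, trivial coefficients -/

section Local

variable {G' : Type} [Group G'] (r : G' →* G) (U : Subgroup G) (M : Rep.{0, 0, 0} k G)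

/-- If the image of `r` acts trivially on `M`, then `H⁰(G', (Ind_U M)|_{G'})` consists of the
functions constant on the orbits of `r.range`. -/
theorem resH0_eq_subInv (hM : ∀ (g : G') (m : M), M.ρ (r g) m = m) :
    (LevelSys.H0 (Rep.res r (indRep U M)) : Submodule k ((G ⧸ U) →₀ M)) =
      subInv r.range U M := by
  ext a
  rw [mem_subInv_iff]
  constructor
  · intro h d hd x
    obtain ⟨g, rfl⟩ := hd
    have h1 : indAct U M (r g) a = a := h g
    rw [(indAct_eq_self_iff U M (r g) a).1 h1 x, hM]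
  · intro h g
    show indAct U M (r g) a = a
    rw [indAct_eq_self_iff]
    intro x
    rw [h (r g) ⟨g, rfl⟩ x, hM]

/-- **Local invariants.** If the image of `r` acts trivially on `M`:
`H⁰(G', (Ind_U M)|_{G'}) ≃ (r(G')\G/U →₀ M)`. -/
def resIndH0Equiv [U.FiniteIndex] (hM : ∀ (g : G') (m : M), M.ρ (r g) m = m) :
    ↥(LevelSys.H0 (Rep.res r (indRep U M))) ≃ₗ[k] (DC r.range U →₀ M) :=
  (LinearEquiv.ofEq _ _ (resH0_eq_subInv r U M hM)).trans (subInvEquiv r.range U M)

@[simp] theorem resIndH0Equiv_apply_mk [U.FiniteIndex]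
    (hM : ∀ (g : G') (m : M), M.ρ (r g) m = m)
    (a : ↥(LevelSys.H0 (Rep.res r (indRep U M)))) (x : G ⧸ U) :
    resIndH0Equiv r U M hM a (Quotient.mk (orbitRel r.range (G ⧸ U)) x) =
      (a.1 : (G ⧸ U) →₀ M) x := by
  simp [resIndH0Equiv]

theorem indR_res_equivariant [U.Normal] (σ : G) :
    IsEquivariant (A := Rep.res r (indRep U M)) (B := Rep.res r (indRep U M)) (indR U M σ) :=
  fun g a => indR_equivariant U M σ (r g) a

/-- **Intertwining (local).** -/
theorem resIndH0Equiv_indR [U.Normal] [U.FiniteIndex]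
    (hM : ∀ (g : G') (m : M), M.ρ (r g) m = m) (σ : G)
    (a : ↥(LevelSys.H0 (Rep.res r (indRep U M)))) :
    resIndH0Equiv r U M hM
        (pushH0 (A := Rep.res r (indRep U M)) (B := Rep.res r (indRep U M)) (indR U M σ)
          (indR_res_equivariant r U M σ) a) =
      Finsupp.mapDomain (dcPerm r.range U σ) (resIndH0Equiv r U M hM a) := by
  ext ω
  induction ω using Quotient.inductionOn with
  | h x =>
    rw [resIndH0Equiv_apply_mk, mapDomain_perm_apply, dcPerm_symm_mk, resIndH0Equiv_apply_mk]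
    exact indR_apply U M σ a.1 x

end Local

/-! ### the `(-1)`-eigenspace of an element acting by `-1` on the coefficients -/

section Minus

variable (c : G) (U : Subgroup G) (M : Rep.{0, 0, 0} k G)

/-- If `c` acts by `-1` on `M`, the `(-1)`-eigenspace of `c` on `Ind_U M` consists of the
functions constant on the orbits of `⟨c⟩`. -/
theorem minusPart_eq_subInv (hc : ∀ m : M, M.ρ c m = -m) :
    (minusPart c (indRep U M) : Submodule k ((G ⧸ U) →₀ M)) =
      subInv (Subgroup.zpowers c) U M := by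
  ext a
  rw [mem_minusPart, mem_subInv_iff]
  have key : (indRep U M).ρ c a = -a ↔ ∀ x : G ⧸ U, a (c • x) = a x := by
    show indAct U M c a = -a ↔ _
    rw [indAct_eq_neg_iff]
    simp only [hc, neg_neg]
  rw [key]
  constructor
  · intro h d hd x
    obtain ⟨n, rfl⟩ := Subgroup.mem_zpowers_iff.1 hd
    have hpos : ∀ (j : ℕ) (y : G ⧸ U), a (c ^ j • y) = a y := by
      intro j
      induction j with
      | zero => intro y; simp
      | succ j ih =>
        intro y
        rw [pow_succ, mul_smul, ih, h]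
    obtain ⟨j, rfl | rfl⟩ := Int.eq_nat_or_neg n
    · rw [zpow_natCast]
      exact hpos j x
    · rw [zpow_neg, zpow_natCast]
      have := hpos j ((c ^ j)⁻¹ • x)
      rw [smul_inv_smul] at this
      exact this.symm
  · intro h x
    exact h c (Subgroup.mem_zpowers c) x

/-- **Archimedean term.** If `c` acts by `-1` on `M`:
`(Ind_U M)^{c=-1} ≃ (⟨c⟩\G/U →₀ M)`. -/
def minusIndEquiv [U.FiniteIndex] (hc : ∀ m : M, M.ρ c m = -m) :
    ↥(minusPart c (indRep U M)) ≃ₗ[k] (DC (Subgroup.zpowers c) U →₀ M) :=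
  (LinearEquiv.ofEq _ _ (minusPart_eq_subInv c U M hc)).trans
    (subInvEquiv (Subgroup.zpowers c) U M)

@[simp] theorem minusIndEquiv_apply_mk [U.FiniteIndex] (hc : ∀ m : M, M.ρ c m = -m)
    (a : ↥(minusPart c (indRep U M))) (x : G ⧸ U) :
    minusIndEquiv c U M hc a (Quotient.mk (orbitRel (Subgroup.zpowers c) (G ⧸ U)) x) =
      (a.1 : (G ⧸ U) →₀ M) x := by
  simp [minusIndEquiv]

theorem indR_mem_minusPart [U.Normal] (σ : G) {a : (G ⧸ U) →₀ M}
    (ha : (a : indRep U M) ∈ minusPart c (indRep U M)) :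
    (indR U M σ a : indRep U M) ∈ minusPart c (indRep U M) := by
  rw [mem_minusPart] at ha ⊢
  rw [← indR_equivariant U M σ c a, ha, map_neg]

/-- Right translation on the `(-1)`-eigenspace. -/
def minusR [U.Normal] (σ : G) :
    ↥(minusPart c (indRep U M)) →ₗ[k] ↥(minusPart c (indRep U M)) :=
  (indR U M σ).restrict fun _ ha => indR_mem_minusPart c U M σ ha

@[simp] theorem coe_minusR [U.Normal] (σ : G) (a : ↥(minusPart c (indRep U M))) :
    ((minusR c U M σ a).1 : (G ⧸ U) →₀ M) = indR U M σ a.1 := rfl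

/-- **Intertwining (archimedean).** -/
theorem minusIndEquiv_indR [U.Normal] [U.FiniteIndex] (hc : ∀ m : M, M.ρ c m = -m) (σ : G)
    (a : ↥(minusPart c (indRep U M))) :
    minusIndEquiv c U M hc (minusR c U M σ a) =
      Finsupp.mapDomain (dcPerm (Subgroup.zpowers c) U σ) (minusIndEquiv c U M hc a) := by
  ext ω
  induction ω using Quotient.inductionOn with
  | h x =>
    rw [minusIndEquiv_apply_mk, mapDomain_perm_apply, dcPerm_symm_mk, minusIndEquiv_apply_mk]
    exact indR_apply U M σ a.1 x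

end Minus

end Fermat.Agent.S56.H419

end

end
-- ===== PACK-END S56/H419/H0Ind.lean

-- ===== PACK-BEGIN S56/H419/H0Orbit.lean
section


/-!
# S56 / W-BASE / leaf EUL-H0, part 3 (helper419): double cosets as an orbit

Abstract dictionary.  `U ◁ G`, `π : G → Ḡ` a surjection with kernel `U`, `Ḡ` acting on `Z`,
`y₀ : Z` with `Stab(y₀) = π(D)` for a subgroup `D ≤ G`.  Then

  `dcToOrbit : D\G/U → Z`,  `D g U ↦ (π g)⁻¹ • y₀`

is injective (`dcToOrbit_injective`), its range is the orbit of `y₀` (`range_dcToOrbit`), and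
right translation by `σ⁻¹` on double cosets becomes the action of `π σ`
(`dcToOrbit_dcPerm`).  `dcOrbitEquiv` packages this as an equivalence `D\G/U ≃ orbit Ḡ y₀`.
-/

set_option autoImplicit false
set_option linter.style.haveILetI false

noncomputable section

namespace Fermat.Agent.S56.H419

open MulAction

section Orbit

variable {G : Type} [Group G] (D U : Subgroup G) [U.Normal]
  {Gb : Type*} [Group Gb] (π : G →* Gb) (hker : π.ker = U)
  {Z : Type*} [MulAction Gb Z] (y₀ : Z)

/-- `π` on `G ⧸ U`. -/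
def quotHom : G ⧸ U →* Gb := QuotientGroup.lift U π (le_of_eq hker.symm)

@[simp] theorem quotHom_mk (g : G) : quotHom U π hker (g : G ⧸ U) = π g := rfl

theorem quotHom_smul (g : G) (x : G ⧸ U) :
    quotHom U π hker (g • x) = π g * quotHom U π hker x := by
  rw [smul_eq_mk_mul, map_mul, quotHom_mk]

theorem quotHom_injective : Function.Injective (quotHom U π hker) := by
  rw [injective_iff_map_eq_one]
  intro x hx
  induction x using QuotientGroup.induction_on with
  | H g =>
    rw [quotHom_mk] at hx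
    have hg : g ∈ U := by rw [← hker]; exact hx
    exact (QuotientGroup.eq_one_iff g).2 hg

theorem quotHom_surjective (hsurj : Function.Surjective π) :
    Function.Surjective (quotHom U π hker) := by
  intro τ
  obtain ⟨g, rfl⟩ := hsurj τ
  exact ⟨(g : G ⧸ U), rfl⟩

variable (hstab : D.map π = stabilizer Gb y₀)

include hstab in
theorem dcToOrbit_aux (x y : G ⧸ U) (h : (orbitRel D (G ⧸ U)).r x y) :
    (quotHom U π hker x)⁻¹ • y₀ = (quotHom U π hker y)⁻¹ • y₀ := by
  obtain ⟨d, rfl⟩ := h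
  have hd : π d.1 ∈ stabilizer Gb y₀ := by
    rw [← hstab]
    exact Subgroup.mem_map_of_mem π d.2
  have hd' : (π d.1)⁻¹ • y₀ = y₀ := by
    rw [inv_smul_eq_iff]
    exact (mem_stabilizer_iff.1 hd).symm
  show (quotHom U π hker (d.1 • y))⁻¹ • y₀ = _
  rw [quotHom_smul, mul_inv_rev, mul_smul, hd']

/-- `D g U ↦ (π g)⁻¹ • y₀`. -/
def dcToOrbit : DC D U → Z :=
  Quotient.lift (s := orbitRel D (G ⧸ U)) (fun x : G ⧸ U => (quotHom U π hker x)⁻¹ • y₀)
    (dcToOrbit_aux D U π hker y₀ hstab)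

@[simp] theorem dcToOrbit_mk (x : G ⧸ U) :
    dcToOrbit D U π hker y₀ hstab (Quotient.mk (orbitRel D (G ⧸ U)) x) =
      (quotHom U π hker x)⁻¹ • y₀ := rfl

theorem dcToOrbit_mk_mk (g : G) :
    dcToOrbit D U π hker y₀ hstab (Quotient.mk (orbitRel D (G ⧸ U)) (g : G ⧸ U)) =
      (π g)⁻¹ • y₀ := rfl

/-- **Equivariance.** Right translation by `σ⁻¹` on `D\G/U` is the action of `π σ`. -/
theorem dcToOrbit_dcPerm (σ : G) (ω : DC D U) :
    dcToOrbit D U π hker y₀ hstab (dcPerm D U σ ω) =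
      π σ • dcToOrbit D U π hker y₀ hstab ω := by
  induction ω using Quotient.inductionOn with
  | h x =>
    rw [dcPerm_mk, dcToOrbit_mk, dcToOrbit_mk, map_mul, map_inv, quotHom_mk, mul_inv_rev, inv_inv,
      mul_smul]

theorem dcToOrbit_injective : Function.Injective (dcToOrbit D U π hker y₀ hstab) := by
  intro ω ω' h
  induction ω using Quotient.inductionOn with
  | h x =>
    induction ω' using Quotient.inductionOn with
    | h y =>
      rw [dcToOrbit_mk, dcToOrbit_mk] at h
      have h1 : (quotHom U π hker x * (quotHom U π hker y)⁻¹) • y₀ = y₀ := by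
        rw [mul_smul, ← h, smul_inv_smul]
      have h2 : quotHom U π hker x * (quotHom U π hker y)⁻¹ ∈ D.map π := by
        rw [hstab]
        exact mem_stabilizer_iff.2 h1
      obtain ⟨d, hd, hdπ⟩ := h2
      apply Quotient.sound
      refine ⟨⟨d, hd⟩, ?_⟩
      show d • y = x
      apply quotHom_injective U π hker
      rw [quotHom_smul, hdπ, inv_mul_cancel_right]

theorem dcToOrbit_mem_orbit (ω : DC D U) :
    dcToOrbit D U π hker y₀ hstab ω ∈ orbit Gb y₀ := by
  induction ω using Quotient.inductionOn with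
  | h x => exact ⟨(quotHom U π hker x)⁻¹, rfl⟩

theorem range_dcToOrbit (hsurj : Function.Surjective π) :
    Set.range (dcToOrbit D U π hker y₀ hstab) = orbit Gb y₀ := by
  ext z
  constructor
  · rintro ⟨ω, rfl⟩
    exact dcToOrbit_mem_orbit D U π hker y₀ hstab ω
  · rintro ⟨τ, rfl⟩
    obtain ⟨g, hg⟩ := hsurj τ⁻¹
    refine ⟨Quotient.mk (orbitRel D (G ⧸ U)) (g : G ⧸ U), ?_⟩
    rw [dcToOrbit_mk_mk, hg, inv_inv]

/-- **Double cosets = orbit.** -/
def dcOrbitEquiv (hsurj : Function.Surjective π) : DC D U ≃ ↥(orbit Gb y₀) :=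
  Equiv.ofBijective
    (fun ω => ⟨dcToOrbit D U π hker y₀ hstab ω, dcToOrbit_mem_orbit D U π hker y₀ hstab ω⟩)
    ⟨fun ω ω' h => dcToOrbit_injective D U π hker y₀ hstab (congrArg Subtype.val h),
      fun z => by
        have hz : z.1 ∈ Set.range (dcToOrbit D U π hker y₀ hstab) := by
          rw [range_dcToOrbit D U π hker y₀ hstab hsurj]
          exact z.2
        obtain ⟨ω, hω⟩ := hz
        exact ⟨ω, Subtype.ext hω⟩⟩

@[simp] theorem coe_dcOrbitEquiv (hsurj : Function.Surjective π) (ω : DC D U) :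
    (dcOrbitEquiv D U π hker y₀ hstab hsurj ω : Z) = dcToOrbit D U π hker y₀ hstab ω := rfl

include hker hstab in
/-- The number of double cosets is the cardinality of the orbit. -/
theorem card_DC_eq (hsurj : Function.Surjective π) :
    Nat.card (DC D U) = Nat.card ↥(orbit Gb y₀) :=
  Nat.card_congr (dcOrbitEquiv D U π hker y₀ hstab hsurj)

end Orbit

end Fermat.Agent.S56.H419

end

end
-- ===== PACK-END S56/H419/H0Orbit.lean

-- ===== PACK-BEGIN S56/H419/H0Dual.lean
section


/-!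
# S56 / W-BASE / leaf EUL-H0, part 5 (helper419): the Tate dual of an induced module

For `U` of finite index, `dualIndEquiv : (G ⧸ U →₀ M^*) ≃ₗ (G ⧸ U →₀ M)^*`,
`b ↦ (a ↦ ∑ₓ b x (a x))`, is an isomorphism of representations

  `Ind_U (M′) ≅ (Ind_U M)′`        (`′ = dualTwist χ`, any character `χ`)

(`dualIndEquiv_equivariant`) which intertwines the right translation `indR σ` on the left with
the contragredient `(indR σ⁻¹)^*` of the right translation on the right (`dualIndEquiv_indR`).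

Consequently, if `M = k(χ)` (e.g. `M = μ_p`, `χ` the cyclotomic character), `M′` is a trivial
representation and `H⁰(G', (Ind_U M)′|_{G'}) ≃ (r(G')\G/U →₀ M^*)` for every `r : G' → G`
(`resTdualIndH0Equiv`), the contragredient right translation becoming the permutation action of
`dcPerm σ` (`resTdualIndH0Equiv_indR`).
-/

set_option autoImplicit false
set_option linter.style.haveILetI false

noncomputable section

namespace Fermat.Agent.S56.H419

open Fermat.Agent.S55.PT groupCohomology MulAction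

variable {k : Type} [Field k] {G : Type} [Group G]

section Dual

variable (U : Subgroup G) (M : Rep.{0, 0, 0} k G)

/-- `(G ⧸ U →₀ M^*) ≃ (G ⧸ U →₀ M)^*`. -/
def dualIndEquiv [U.FiniteIndex] :
    ((G ⧸ U) →₀ Module.Dual k M) ≃ₗ[k] Module.Dual k ((G ⧸ U) →₀ M) :=
  (Finsupp.linearEquivFunOnFinite k (Module.Dual k M) (G ⧸ U)).trans (Finsupp.lsum k)

theorem dualIndEquiv_apply_single [U.FiniteIndex] (b : (G ⧸ U) →₀ Module.Dual k M)
    (x : G ⧸ U) (m : M) :
    dualIndEquiv U M b (Finsupp.single x m) = b x m := by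
  simp [dualIndEquiv]

theorem dualIndEquiv_single_single [U.FiniteIndex] [DecidableEq (G ⧸ U)] (x y : G ⧸ U)
    (f : Module.Dual k M) (m : M) :
    dualIndEquiv U M (Finsupp.single x f) (Finsupp.single y m) = if x = y then f m else 0 := by
  rw [dualIndEquiv_apply_single, Finsupp.single_apply]
  split_ifs <;> simp

variable (χ : G →* kˣ)

/-- `dualIndEquiv` is an isomorphism of representations `Ind_U (M′) ≅ (Ind_U M)′`. -/
theorem dualIndEquiv_equivariant [U.FiniteIndex] :
    IsEquivariant (A := indRep U (M.dualTwist χ)) (B := (indRep U M).dualTwist χ)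
      (dualIndEquiv U M : ((G ⧸ U) →₀ Module.Dual k M) →ₗ[k] Module.Dual k ((G ⧸ U) →₀ M)) := by
  classical
  intro g b
  have key : ((dualIndEquiv U M : ((G ⧸ U) →₀ Module.Dual k M) →ₗ[k] _) ∘ₗ
      (indAct U (M.dualTwist χ) g)) =
      ((((indRep U M).dualTwist χ).ρ g : Module.Dual k ((G ⧸ U) →₀ M) →ₗ[k] _) ∘ₗ
        (dualIndEquiv U M : ((G ⧸ U) →₀ Module.Dual k M) →ₗ[k] _)) := by
    apply Finsupp.lhom_ext
    intro x f
    apply Finsupp.lhom_ext
    intro y m
    rw [LinearMap.comp_apply, LinearMap.comp_apply, indAct_single]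
    show dualIndEquiv U M (Finsupp.single (g • x) ((M.dualTwist χ).ρ g f)) (Finsupp.single y m) =
      (((indRep U M).dualTwist χ).ρ g (dualIndEquiv U M (Finsupp.single x f)))
        (Finsupp.single y m)
    rw [Rep.dualTwist_ρ_apply, Rep.dualTwist_ρ_apply, LinearMap.smul_apply,
      LinearMap.comp_apply]
    have h1 : (indRep U M).ρ g⁻¹ (Finsupp.single y m : (G ⧸ U) →₀ M) =
        (Finsupp.single (g⁻¹ • y) (M.ρ g⁻¹ m) : (G ⧸ U) →₀ M) := indRep_ρ_single U M g⁻¹ y m
    rw [h1, dualIndEquiv_single_single, dualIndEquiv_single_single, LinearMap.smul_apply,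
      LinearMap.comp_apply]
    by_cases h : g • x = y
    · have h' : x = g⁻¹ • y := by rw [← h, inv_smul_smul]
      rw [if_pos h, if_pos h']
    · have h' : ¬ x = g⁻¹ • y := by
        intro hx
        apply h
        rw [hx, smul_inv_smul]
      rw [if_neg h, if_neg h', smul_zero]
  exact LinearMap.congr_fun key b

/-- **Intertwining (dual).** `dualIndEquiv` carries the right translation `indR σ` to the
contragredient `(indR σ⁻¹)^*`. -/
theorem dualIndEquiv_indR [U.Normal] [U.FiniteIndex] (σ : G)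
    (b : (G ⧸ U) →₀ Module.Dual k M) :
    dualIndEquiv U M (indR U (M.dualTwist χ) σ b) =
      (indR U M σ⁻¹).dualMap (dualIndEquiv U M b) := by
  classical
  have key : ((dualIndEquiv U M : ((G ⧸ U) →₀ Module.Dual k M) →ₗ[k] _) ∘ₗ
      (indR U (M.dualTwist χ) σ)) =
      ((indR U M σ⁻¹).dualMap ∘ₗ
        (dualIndEquiv U M : ((G ⧸ U) →₀ Module.Dual k M) →ₗ[k] _)) := by
    apply Finsupp.lhom_ext
    intro x f
    apply Finsupp.lhom_ext
    intro y m
    rw [LinearMap.comp_apply, LinearMap.comp_apply, indR_single, LinearMap.dualMap_apply,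
      indR_single]
    show dualIndEquiv U M (Finsupp.single (rightTr U σ x) f) (Finsupp.single y m) =
      dualIndEquiv U M (Finsupp.single x f) (Finsupp.single (rightTr U σ⁻¹ y) m)
    rw [dualIndEquiv_single_single, dualIndEquiv_single_single]
    have hiff : rightTr U σ x = y ↔ x = rightTr U σ⁻¹ y := by
      simp only [rightTr_apply, QuotientGroup.mk_inv, inv_inv]
      constructor
      · rintro rfl
        rw [inv_mul_cancel_right]
      · rintro rfl
        rw [mul_inv_cancel_right]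
    by_cases h : rightTr U σ x = y
    · rw [if_pos h, if_pos (hiff.1 h)]
    · rw [if_neg h, if_neg (fun h' => h (hiff.2 h'))]
  exact LinearMap.congr_fun key b

/-- The contragredient of the right translation on `(Ind_U M)′`. -/
def indRDual [U.Normal] (σ : G) :
    Module.Dual k ((G ⧸ U) →₀ M) →ₗ[k] Module.Dual k ((G ⧸ U) →₀ M) :=
  (indR U M σ⁻¹).dualMap

theorem indRDual_equivariant [U.Normal] (σ : G) :
    IsEquivariant (A := (indRep U M).dualTwist χ) (B := (indRep U M).dualTwist χ)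
      (indRDual U M σ) :=
  dualMap_equivariant χ (A := indRep U M) (B := indRep U M) (indR U M σ⁻¹)
    (indR_equivariant U M σ⁻¹)

theorem indRDual_one [U.Normal] : indRDual U M (1 : G) = LinearMap.id := by
  rw [indRDual, inv_one, indR_one]
  exact LinearMap.dualMap_id

theorem indRDual_mul [U.Normal] (σ τ : G) :
    indRDual U M (σ * τ) = indRDual U M σ ∘ₗ indRDual U M τ := by
  rw [indRDual, indRDual, indRDual, mul_inv_rev, indR_mul, LinearMap.dualMap_comp_dualMap]

end Dual

/-! ### `H⁰` of the Tate dual of `Ind_U k(χ)` -/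

section TdualH0

variable {G' : Type} [Group G'] (r : G' →* G) (U : Subgroup G) (M : Rep.{0, 0, 0} k G)
  (χ : G →* kˣ)

/-- If `G` acts on `M` through `χ`, it acts trivially on `M′ = M^* ⊗ χ`. -/
theorem dualTwist_trivial_of_char (hM : ∀ (g : G) (m : M), M.ρ g m = (χ g : k) • m) (g : G)
    (f : Module.Dual k M) : (M.dualTwist χ).ρ g f = f := by
  apply LinearMap.ext
  intro m
  rw [Rep.dualTwist_ρ_apply, LinearMap.smul_apply, LinearMap.comp_apply, hM, map_smul,
    smul_smul, map_inv, ← Units.val_mul, mul_inv_cancel, Units.val_one, one_smul]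

/-- `H⁰(G', (Ind_U M)′|_{G'}) → H⁰(G', Ind_U(M′)|_{G'})`, the inverse of `dualIndEquiv`. -/
def tdualToInd [U.FiniteIndex] :
    ↥(LevelSys.H0 (Rep.res r ((indRep U M).dualTwist χ))) ≃ₗ[k]
      ↥(LevelSys.H0 (Rep.res r (indRep U (M.dualTwist χ)))) where
  toFun a := ⟨(dualIndEquiv U M).symm a.1, by
    intro g
    apply (dualIndEquiv U M).injective
    have h1 := dualIndEquiv_equivariant U M χ (r g) ((dualIndEquiv U M).symm a.1)
    have h2 : ((indRep U M).dualTwist χ).ρ (r g) a.1 = a.1 := a.2 g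
    show dualIndEquiv U M ((indRep U (M.dualTwist χ)).ρ (r g) ((dualIndEquiv U M).symm a.1)) = _
    rw [LinearEquiv.coe_coe] at h1
    rw [h1, LinearEquiv.apply_symm_apply, h2]⟩
  map_add' a b := by
    apply Subtype.ext
    exact map_add (dualIndEquiv U M).symm a.1 b.1
  map_smul' c a := by
    apply Subtype.ext
    exact map_smul (dualIndEquiv U M).symm c a.1
  invFun b := ⟨dualIndEquiv U M b.1, by
    intro g
    have h1 := dualIndEquiv_equivariant U M χ (r g) b.1
    have h2 : (indRep U (M.dualTwist χ)).ρ (r g) b.1 = b.1 := b.2 g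
    show ((indRep U M).dualTwist χ).ρ (r g) (dualIndEquiv U M b.1) = _
    rw [LinearEquiv.coe_coe] at h1
    rw [← h1, h2]⟩
  left_inv a := by
    apply Subtype.ext
    exact (dualIndEquiv U M).apply_symm_apply a.1
  right_inv b := by
    apply Subtype.ext
    exact (dualIndEquiv U M).symm_apply_apply b.1

@[simp] theorem coe_tdualToInd [U.FiniteIndex]
    (a : ↥(LevelSys.H0 (Rep.res r ((indRep U M).dualTwist χ)))) :
    ((tdualToInd r U M χ a).1 : (G ⧸ U) →₀ Module.Dual k M) = (dualIndEquiv U M).symm a.1 := rfl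

/-- **Local invariants of the Tate dual.** If `G` acts on `M` through `χ`:
`H⁰(G', (Ind_U M)′|_{G'}) ≃ (r(G')\G/U →₀ M^*)`. -/
def resTdualIndH0Equiv [U.FiniteIndex]
    (hM : ∀ (g : G) (m : M), M.ρ g m = (χ g : k) • m) :
    ↥(LevelSys.H0 (Rep.res r ((indRep U M).dualTwist χ))) ≃ₗ[k]
      (DC r.range U →₀ Module.Dual k M) :=
  (tdualToInd r U M χ).trans
    (resIndH0Equiv r U (M.dualTwist χ) (fun g f => dualTwist_trivial_of_char M χ hM (r g) f))

theorem indRDual_res_equivariant [U.Normal] (σ : G) :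
    IsEquivariant (A := Rep.res r ((indRep U M).dualTwist χ))
      (B := Rep.res r ((indRep U M).dualTwist χ)) (indRDual U M σ) :=
  fun g a => indRDual_equivariant U M χ σ (r g) a

/-- **Intertwining (local, Tate dual).** The contragredient right translation on
`H⁰(G', (Ind_U M)′)` is the permutation action of `dcPerm σ` on `r(G')\G/U`. -/
theorem resTdualIndH0Equiv_indR [U.Normal] [U.FiniteIndex]
    (hM : ∀ (g : G) (m : M), M.ρ g m = (χ g : k) • m) (σ : G)
    (a : ↥(LevelSys.H0 (Rep.res r ((indRep U M).dualTwist χ)))) :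
    resTdualIndH0Equiv r U M χ hM
        (pushH0 (A := Rep.res r ((indRep U M).dualTwist χ))
          (B := Rep.res r ((indRep U M).dualTwist χ)) (indRDual U M σ)
          (indRDual_res_equivariant r U M χ σ) a) =
      Finsupp.mapDomain (dcPerm r.range U σ) (resTdualIndH0Equiv r U M χ hM a) := by
  have hcomm : tdualToInd r U M χ
      (pushH0 (A := Rep.res r ((indRep U M).dualTwist χ))
        (B := Rep.res r ((indRep U M).dualTwist χ)) (indRDual U M σ)
        (indRDual_res_equivariant r U M χ σ) a) =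
      pushH0 (A := Rep.res r (indRep U (M.dualTwist χ)))
        (B := Rep.res r (indRep U (M.dualTwist χ))) (indR U (M.dualTwist χ) σ)
        (indR_res_equivariant r U (M.dualTwist χ) σ) (tdualToInd r U M χ a) := by
    apply Subtype.ext
    apply (dualIndEquiv U M).injective
    rw [coe_tdualToInd, LinearEquiv.apply_symm_apply, coe_pushH0, coe_pushH0, dualIndEquiv_indR,
      coe_tdualToInd, LinearEquiv.apply_symm_apply]
    rfl
  have hM' : ∀ (g : G') (f : (M.dualTwist χ)), (M.dualTwist χ).ρ (r g) f = f :=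
    fun g f => dualTwist_trivial_of_char M χ hM (r g) f
  show resIndH0Equiv r U (M.dualTwist χ) hM' (tdualToInd r U M χ _) =
    Finsupp.mapDomain (dcPerm r.range U σ)
      (resIndH0Equiv r U (M.dualTwist χ) hM' (tdualToInd r U M χ a))
  rw [hcomm, resIndH0Equiv_indR]

end TdualH0

end Fermat.Agent.S56.H419

end

end
-- ===== PACK-END S56/H419/H0Dual.lean

-- ===== PACK-BEGIN S55/Inv/Top2.lean
section



/-!
# S55 / `InvSpec` : second reduction (complete)

`localInvRecip_of : Surj2LocSpec → GlobCokerSpec → WeakRecipSpec → LocH2NeSpec → MuLevelSpec →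
LocalInvRecipSpec`  and the final form
`invSpec_of' : Surj2LocSpec → LocDimSpec → GlobCokerSpec → WeakRecipSpec → LocH2NeSpec →
MuLevelSpec → PT.InvSpec`.

The invariant maps are DEFINED as the restrictions to the factors of an equation `f₀` of the
hyperplane `im(H²_S(μ) → ∏_v H²(G_v, μ))`.
-/

set_option autoImplicit false
set_option linter.style.haveILetI false

noncomputable section

namespace Fermat.Agent.S55.Inv

open Fermat.Agent.S55.PT groupCohomology ExtCitation

/-! ### Linear algebra -/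

/-- Image of the kernel of a functional under a surjection contains the kernel of a functional. -/
lemma exists_functional_ker_le_map {k V W : Type*} [Field k] [AddCommGroup V] [Module k V]
    [AddCommGroup W] [Module k W] (π : V →ₗ[k] W) (hπ : Function.Surjective π)
    (f : V →ₗ[k] k) :
    ∃ f₀ : W →ₗ[k] k, LinearMap.ker f₀ ≤ (LinearMap.ker f).map π := by
  by_cases h : LinearMap.ker π ≤ LinearMap.ker f
  · refine ⟨((LinearMap.ker π).liftQ f h) ∘ₗ
      (π.quotKerEquivOfSurjective hπ).symm.toLinearMap, ?_⟩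
    intro w hw
    obtain ⟨v, rfl⟩ := hπ w
    refine ⟨v, ?_, rfl⟩
    rw [LinearMap.mem_ker] at hw
    rw [SetLike.mem_coe, LinearMap.mem_ker]
    have h1 : (π.quotKerEquivOfSurjective hπ).symm (π v) = Submodule.Quotient.mk v := by
      apply (π.quotKerEquivOfSurjective hπ).injective
      rw [LinearEquiv.apply_symm_apply]
      rfl
    rw [LinearMap.comp_apply, LinearEquiv.coe_coe, h1] at hw
    exact hw
  · obtain ⟨e, he, hfe⟩ := Set.not_subset.1 h
    have hfe' : f e ≠ 0 := fun h0 => hfe (LinearMap.mem_ker.2 h0)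
    refine ⟨0, fun w _ => ?_⟩
    obtain ⟨v, rfl⟩ := hπ w
    refine ⟨v - (f v / f e) • e, ?_, ?_⟩
    · rw [SetLike.mem_coe, LinearMap.mem_ker, map_sub, map_smul, smul_eq_mul,
        div_mul_cancel₀ _ hfe', sub_self]
    · rw [map_sub, map_smul, LinearMap.mem_ker.1 he, smul_zero, sub_zero]

/-- If the kernel of a non-zero functional is contained in a proper subspace `I`, then
`I` is contained in the kernel. -/
lemma le_ker_of_ker_le_of_ne_top {k V : Type*} [Field k] [AddCommGroup V] [Module k V]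
    (f : V →ₗ[k] k) (I : Submodule k V) (h : LinearMap.ker f ≤ I) (hI : I ≠ ⊤) :
    I ≤ LinearMap.ker f := by
  intro i hi
  by_contra hfi
  rw [LinearMap.mem_ker] at hfi
  apply hI
  rw [eq_top_iff]
  intro b _
  have hb : b - (f b / f i) • i ∈ LinearMap.ker f := by
    rw [LinearMap.mem_ker, map_sub, map_smul, smul_eq_mul, div_mul_cancel₀ _ hfi, sub_self]
  have := I.add_mem (h hb) (I.smul_mem (f b / f i) hi)
  simpa using this

/-! ### The reduction -/

section Main

variable (p : ℕ) [Fact p.Prime] (S : Finset Nat.Primes)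

/-- the product of the local `H²(G_v, μ_p)` -/
abbrev LocProd : Type := (v : ↥S) → (localLevels v.1).H2 (muLoc p v.1)

/-- Step A: the global classes over `ℚ` fill a hyperplane of `∏_v H²(G_v, μ)`. -/
lemma exists_functional_mu (h4 : Surj2LocSpec p S) (hcok : GlobCokerSpec p S)
    (hmu : MuLevelSpec p S) :
    ∃ f₀ : LocProd p S →ₗ[ZMod p] ZMod p,
      LinearMap.ker f₀ ≤ LinearMap.range (loc2 (hrl S) (mu p)) := by
  obtain ⟨U, hU, hUn, hUμ⟩ := hmu
  obtain ⟨f, hf⟩ := hcok U hU hUn hUμ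
  haveI := finite_quotient_global S hU
  haveI := hUn
  -- the push-forward along the augmentation is surjective on the local products
  have hπ : Function.Surjective (pushLoc2
      (Lv := fun v : ↥S => localLevels v.1) (r := fun v : ↥S => rl v.1)
      (A := indRep U (mu p)) (B := mu p) (indAug U (mu p)) (indAug_equivariant U (mu p))) := by
    intro b
    have hv : ∀ v : ↥S, ∃ w, pushH2 (A := Rep.res (rl v.1) (indRep U (mu p)))
        (B := muLoc p v.1) (indAug U (mu p)) ((indAug_equivariant U (mu p)).res (rl v.1))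
        (localLevels v.1) w = b v := by
      intro v
      have hfd : FiniteDimensional (ZMod p) (Rep.res (rl v.1) (indRep U (mu p))) :=
        finiteDimensional_ind p U (mu p)
      obtain ⟨F, hF, rfl⟩ := hU
      have hlev : (F.fixingSubgroup.comap (rl v.1)) ∈ (localLevels v.1).levels :=
        ⟨F, hF.1, rfl⟩
      have hsm1 : (localLevels v.1).IsUSmooth
          (Rep.res (rl v.1) (indRep F.fixingSubgroup (mu p))) :=
        ⟨_, hlev, fun s hs a => by
          show (indRep F.fixingSubgroup (mu p)).ρ (rl v.1 s) a = a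
          rw [indRep_ρ_eq_one_of_mem F.fixingSubgroup (mu p) hUμ (rl v.1 s) hs]; rfl⟩
      have hsm2 : (localLevels v.1).IsUSmooth (muLoc p v.1) :=
        ⟨_, hlev, fun s hs a => by
          show (mu p).ρ (rl v.1 s) a = a
          rw [hUμ (rl v.1 s) hs]; rfl⟩
      exact h4 v.1 v.2 (Rep.res (rl v.1) (indRep F.fixingSubgroup (mu p))) (muLoc p v.1)
        (indAug F.fixingSubgroup (mu p))
        ((indAug_equivariant F.fixingSubgroup (mu p)).res (rl v.1)) hfd hsm1 hsm2
        (indAug_surjective F.fixingSubgroup (mu p)) (b v)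
    choose w hw using hv
    exact ⟨w, funext fun v => hw v⟩
  obtain ⟨f₀, hf₀⟩ := exists_functional_ker_le_map _ hπ f
  refine ⟨f₀, hf₀.trans ?_⟩
  rintro _ ⟨x, hx, rfl⟩
  obtain ⟨y, rfl⟩ := hf hx
  exact ⟨pushH2 (A := indRep U (mu p)) (B := mu p) (indAug U (mu p))
    (indAug_equivariant U (mu p)) (globalLevels S) y, loc2_pushH2 _ _ _ _⟩

/-- Step B: a class supported at one place is not global (weak reciprocity). -/
lemma eq_zero_of_single_mem_range (hwr : WeakRecipSpec p S) (v : ↥S)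
    (x : (localLevels v.1).H2 (muLoc p v.1))
    (hx : (Pi.single v x : LocProd p S) ∈ LinearMap.range (loc2 (hrl S) (mu p))) : x = 0 := by
  obtain ⟨y, hy⟩ := hx
  have h1 : ∀ v' : ↥S, resH2 (hrl S v') (mu p) y = (Pi.single v x : LocProd p S) v' := by
    intro v'
    rw [← hy]
    rfl
  have h2 := hwr y v (fun v' hv' => by rw [h1 v', Pi.single_eq_of_ne hv'])
  rw [h1 v, Pi.single_eq_same] at h2
  exact h2

/-- **Second reduction.** -/
theorem localInvRecip_of (h4 : Surj2LocSpec p S) (hcok : GlobCokerSpec p S)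
    (hwr : WeakRecipSpec p S) (hne : LocH2NeSpec p S) (hmu : MuLevelSpec p S) :
    LocalInvRecipSpec p S := by
  by_cases hS : Nonempty ↥S
  · obtain ⟨v₀⟩ := hS
    obtain ⟨f₀, hf₀⟩ := exists_functional_mu p S h4 hcok hmu
    -- the range is a proper subspace
    have hproper : LinearMap.range (loc2 (hrl S) (mu p)) ≠ ⊤ := by
      intro htop
      obtain ⟨x, hx⟩ := hne v₀
      apply hx
      apply eq_zero_of_single_mem_range p S hwr v₀ x
      rw [htop]
      exact Submodule.mem_top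
    have hle := le_ker_of_ker_le_of_ne_top f₀ _ hf₀ hproper
    refine ⟨fun v => f₀ ∘ₗ LinearMap.single (ZMod p)
      (fun v : ↥S => (localLevels v.1).H2 (muLoc p v.1)) v, ?_, ?_⟩
    · intro v h0
      obtain ⟨x, hx⟩ := hne v
      apply hx
      apply eq_zero_of_single_mem_range p S hwr v x
      apply hf₀
      rw [LinearMap.mem_ker]
      have := LinearMap.congr_fun h0 x
      simpa using this
    · intro y
      have hy : loc2 (hrl S) (mu p) y ∈ LinearMap.ker f₀ := hle ⟨y, rfl⟩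
      rw [LinearMap.mem_ker] at hy
      have hsum : (∑ v : ↥S, (Pi.single v (resH2 (hrl S v) (mu p) y) : LocProd p S)) =
          loc2 (hrl S) (mu p) y := by
        rw [Finset.univ_sum_single]
        rfl
      rw [← hy, ← hsum, map_sum]
      rfl
  · refine ⟨fun v => 0, fun v => absurd ⟨v⟩ hS, fun y => ?_⟩
    haveI : IsEmpty ↥S := not_nonempty_iff.1 hS
    exact Finset.sum_of_isEmpty _

/-- **`InvSpec` from invariant-free inputs.** -/
theorem invSpec_of' (h4 : Surj2LocSpec p S) (hdim : LocDimSpec p S) (hcok : GlobCokerSpec p S)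
    (hwr : WeakRecipSpec p S) (hne : LocH2NeSpec p S) (hmu : MuLevelSpec p S) : InvSpec p S :=
  invSpec_of p S h4 (localInvRecip_of p S h4 hcok hwr hne hmu) hdim hcok

end Main

end Fermat.Agent.S55.Inv

end

end
-- ===== PACK-END S55/Inv/Top2.lean

-- ===== PACK-BEGIN S55/KC/H2OfAtH287.lean
section



/-!
# S55 / layer KC (helper53), leaf KC-D2: `h2OfAt : H2OfAtSpec`                   (helper287)

If at every normal level `V ≤ V₀` the group `H²(G ⧸ V, B^V)` (cochain form `H2At V B`) is cyclic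
of order `n V`, inflation is injective and the `p`-parts of the `n V` are unbounded, then
`H²_lc(G, B)` is `p`-divisible and its `p`-torsion has exactly `p` elements.

Dictionary lemmas (reusable, all for a `PT.LevelSys`):
* `finite_range_of_rightInv`, `exists_level_fixing_finset`;
* `exists_isAt₁`   : a level-constant 1-cochain with values in a smooth module is inflated from
  `(G ⧸ V, B^V)` for a normal level `V` below any given level;
* `isAt₂_of_cocycle` : a 2-cocycle right-invariant under a NORMAL subgroup `V` has values in `B^V`;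
* `exists_mem_Z2At` : a level-constant 2-cocycle lies in `Z2At V B`, `V` normal level, arbitrarily
  small (no smoothness needed);
* `isCobAt₂_of_mem_B2` : a coboundary of a level-constant cochain which is inflated from level `V`
  is a coboundary at level `V` (uses injectivity of inflation);
* `psi V : H2At V B →+ L.H2 B`, `psi_injective`, `range_psi_mono`, `exists_psi_eq`.
-/

set_option autoImplicit false

noncomputable section

namespace Fermat.Agent.S55.KC.H287

open groupCohomology Fermat.Agent.S55.PT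

variable {G : Type} [Group G]

/-! ## 1. Finiteness of values, common levels -/

/-- A function on `G` which is right-invariant under a subgroup of finite index has finitely many
values. -/
lemma finite_range_of_rightInv {X : Type*} (U : Subgroup G) [U.FiniteIndex] (f : G → X)
    (hf : ∀ g s : G, s ∈ U → f (g * s) = f g) : (Set.range f).Finite := by
  have : Finite (G ⧸ U) := Subgroup.finite_quotient_of_finiteIndex
  refine (Set.finite_range (fun x : G ⧸ U => f x.out)).subset ?_
  rintro _ ⟨g, rfl⟩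
  refine ⟨(g : G ⧸ U), ?_⟩
  obtain ⟨s, hs⟩ := QuotientGroup.mk_out_eq_mul U g
  show f ((g : G ⧸ U).out) = f g
  rw [hs, hf g s s.2]

/-- Finitely many elements of a smooth module are fixed by a common level, which may be chosen
below any given level. -/
lemma exists_level_fixing_finset (L : LevelSys G) {k : Type} [CommRing k]
    (B : Rep.{0, 0, 0} k G) (hB : L.IsSmooth B) (s : Finset B) (W₀ : Subgroup G)
    (hW₀ : W₀ ∈ L.levels) :
    ∃ V ∈ L.levels, V ≤ W₀ ∧ ∀ b ∈ s, ∀ w ∈ V, B.ρ w b = b := by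
  classical
  induction s using Finset.induction_on with
  | empty => exact ⟨W₀, hW₀, le_rfl, by simp⟩
  | insert a s _ ih =>
    obtain ⟨V, hV, hVW, hfix⟩ := ih
    obtain ⟨W, hW, hWa⟩ := hB a
    obtain ⟨X, hX, hXle⟩ := L.directed V hV W hW
    refine ⟨X, hX, fun w hw => hVW (hXle hw).1, ?_⟩
    intro b hb w hw
    rcases Finset.mem_insert.1 hb with rfl | hb
    · exact hWa w (hXle hw).2
    · exact hfix b hb w (hXle hw).1

variable {k : Type} [CommRing k]

/-- **Dictionary, degree 1.**  A level-constant 1-cochain with values in a smooth module is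
inflated from `(G ⧸ V, B^V)` for some normal level `V` below any given level. -/
lemma exists_isAt₁ (L : LevelSys G) (hNC : L.NormalCofinal) (hFI : L.FiniteIndex)
    (B : Rep.{0, 0, 0} k G) (hB : L.IsSmooth B) (x : G → B) (hx : L.IsLC₁ x)
    (W₀ : Subgroup G) (hW₀ : W₀ ∈ L.levels) :
    ∃ V ∈ L.levels, V.Normal ∧ V ≤ W₀ ∧ IsAt₁ V B x := by
  classical
  obtain ⟨U, hU, hxU⟩ := hx
  have := hFI U hU
  have hfin := finite_range_of_rightInv U x hxU
  obtain ⟨W₁, hW₁, hW₁le⟩ := L.directed U hU W₀ hW₀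
  obtain ⟨V₁, hV₁, hV₁le, hfix⟩ := exists_level_fixing_finset L B hB hfin.toFinset W₁ hW₁
  obtain ⟨V, hV, hVle, hVn⟩ := hNC V₁ hV₁
  refine ⟨V, hV, hVn, fun w hw => (hW₁le (hV₁le (hVle hw))).2, fun g s hs => ⟨?_, ?_⟩⟩
  · exact hxU g s (hW₁le (hV₁le (hVle hs))).1
  · exact hfix (x g) (hfin.mem_toFinset.2 ⟨g, rfl⟩) s (hVle hs)

lemma isAt₁_mono {V V' : Subgroup G} (h : V' ≤ V) {B : Rep.{0, 0, 0} k G} {x : G → B}
    (hx : IsAt₁ V B x) : IsAt₁ V' B x :=
  fun g s hs => hx g s (h hs)

lemma isAt₂_mono {V V' : Subgroup G} (h : V' ≤ V) {B : Rep.{0, 0, 0} k G} {f : G × G → B}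
    (hf : IsAt₂ V B f) : IsAt₂ V' B f :=
  fun g g' s t hs ht => hf g g' s t (h hs) (h ht)

lemma isLC₁_of_isAt₁ {L : LevelSys G} {V : Subgroup G} (hV : V ∈ L.levels)
    {B : Rep.{0, 0, 0} k G} {x : G → B} (hx : IsAt₁ V B x) : L.IsLC₁ x :=
  ⟨V, hV, fun g s hs => (hx g s hs).1⟩

lemma isLC₂_of_isAt₂ {L : LevelSys G} {V : Subgroup G} (hV : V ∈ L.levels)
    {B : Rep.{0, 0, 0} k G} {f : G × G → B} (hf : IsAt₂ V B f) : L.IsLC₂ f :=
  ⟨V, hV, fun g g' s t hs ht => (hf g g' s t hs ht).1⟩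

/-- A 2-cocycle which is right-invariant under a NORMAL subgroup `V` has values in `B^V`. -/
lemma isAt₂_of_cocycle (B : Rep.{0, 0, 0} k G) (V : Subgroup G) (hVn : V.Normal)
    (a : G × G → B) (ha : a ∈ cocycles₂ B)
    (hinv : ∀ g h s t : G, s ∈ V → t ∈ V → a (g * s, h * t) = a (g, h)) : IsAt₂ V B a := by
  rw [mem_cocycles₂_iff] at ha
  have h1 : ∀ j : G, a (1, j) = a (1, 1) := by
    intro j
    have := ha 1 1 j
    simp only [one_mul, map_one, Module.End.one_apply] at this
    exact (add_left_cancel this).symm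
  intro g h s t hs ht
  refine ⟨hinv g h s t hs ht, ?_⟩
  have h2 := ha s g h
  have h3 : a (s * g, h) = a (g, h) := by
    have hc : g⁻¹ * s * g ∈ V := by
      have := hVn.conj_mem s hs g⁻¹
      simpa using this
    have := hinv g h (g⁻¹ * s * g) 1 hc V.one_mem
    rw [mul_one] at this
    rw [← this]
    congr 2
    group
  have h4 : ∀ j : G, a (s, j) = a (1, 1) := by
    intro j
    have := hinv 1 j s 1 hs V.one_mem
    rw [one_mul, mul_one] at this
    rw [this, h1]
  rw [h3, h4, h4] at h2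
  exact (add_right_cancel h2).symm

/-- **Dictionary, degree 2 (cocycles).**  A level-constant 2-cocycle is inflated from
`(G ⧸ V, B^V)` for some normal level `V` below any given level. -/
lemma exists_mem_Z2At (L : LevelSys G) (hNC : L.NormalCofinal) (B : Rep.{0, 0, 0} k G)
    (a : G × G → B) (ha : a ∈ L.Z2 B) (W₀ : Subgroup G) (hW₀ : W₀ ∈ L.levels) :
    ∃ V ∈ L.levels, V.Normal ∧ V ≤ W₀ ∧ a ∈ Z2At V B := by
  obtain ⟨hcoc, U, hU, haU⟩ := ha
  obtain ⟨W₁, hW₁, hW₁le⟩ := L.directed U hU W₀ hW₀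
  obtain ⟨V, hV, hVle, hVn⟩ := hNC W₁ hW₁
  refine ⟨V, hV, hVn, fun w hw => (hW₁le (hVle hw)).2, hcoc, ?_⟩
  exact isAt₂_of_cocycle B V hVn a hcoc
    (fun g h s t hs ht => haU g h s t (hW₁le (hVle hs)).1 (hW₁le (hVle ht)).1)

lemma Z2At_mono {V V' : Subgroup G} (h : V' ≤ V) (B : Rep.{0, 0, 0} k G) :
    Z2At V B ≤ Z2At V' B :=
  fun _ hf => ⟨hf.1, isAt₂_mono h hf.2⟩

lemma mem_Z2_of_mem_Z2At {L : LevelSys G} {V : Subgroup G} (hV : V ∈ L.levels)
    {B : Rep.{0, 0, 0} k G} {f : G × G → B} (hf : f ∈ Z2At V B) : f ∈ L.Z2 B :=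
  ⟨hf.1, isLC₂_of_isAt₂ hV hf.2⟩

lemma mem_B2_of_isCobAt₂ {L : LevelSys G} {V : Subgroup G} (hV : V ∈ L.levels)
    {B : Rep.{0, 0, 0} k G} {f : G × G → B} (hf : IsCobAt₂ V B f) : f ∈ L.B2 B := by
  obtain ⟨x, hx, rfl⟩ := hf
  exact ⟨x, isLC₁_of_isAt₁ hV hx, rfl⟩

/-- **Dictionary, degree 2 (coboundaries).**  If inflation is injective below `V₀`, a cocycle
inflated from the normal level `V ≤ V₀` which is `d` of a level-constant cochain is a coboundary
at level `V`. -/
lemma isCobAt₂_of_mem_B2 (L : LevelSys G) (hNC : L.NormalCofinal) (hFI : L.FiniteIndex)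
    (B : Rep.{0, 0, 0} k G) (hB : L.IsSmooth B) (V₀ : Subgroup G)
    (hinf : ∀ V' V : Subgroup G, V' ∈ L.levels → V'.Normal → V ∈ L.levels → V.Normal → V' ≤ V →
      V ≤ V₀ → ∀ f ∈ Z2At V B, IsCobAt₂ V' B f → IsCobAt₂ V B f)
    (V : Subgroup G) (hV : V ∈ L.levels) (hVn : V.Normal) (hVle : V ≤ V₀)
    (f : G × G → B) (hf : f ∈ Z2At V B) (hfB : f ∈ L.B2 B) : IsCobAt₂ V B f := by
  obtain ⟨x, hx, rfl⟩ := hfB
  obtain ⟨V', hV', hV'n, hV'le, hxV'⟩ := exists_isAt₁ L hNC hFI B hB x hx V hV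
  exact hinf V' V hV' hV'n hV hVn hV'le hVle _ hf ⟨x, hxV', rfl⟩

/-! ## 2. The maps `H2At V B → H²_lc(G, B)` -/

section psi

variable (L : LevelSys G) (B : Rep.{0, 0, 0} k G)

/-- the inclusion of the cocycles at level `V` into the level-constant cocycles -/
def toZ2 (V : Subgroup G) (hV : V ∈ L.levels) : ↥(Z2At V B) →+ ↥(L.Z2 B) where
  toFun f := ⟨f.1, mem_Z2_of_mem_Z2At hV f.2⟩
  map_zero' := rfl
  map_add' _ _ := rfl

@[simp] lemma toZ2_coe (V : Subgroup G) (hV : V ∈ L.levels) (f : ↥(Z2At V B)) :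
    ((toZ2 L B V hV f : ↥(L.Z2 B)) : G × G → B) = f.1 := rfl

/-- the class in `H²_lc(G, B)` of a cocycle at level `V` -/
def psi₀ (V : Subgroup G) (hV : V ∈ L.levels) : ↥(Z2At V B) →+ L.H2 B :=
  (L.H2π B).toAddMonoidHom.comp (toZ2 L B V hV)

lemma psi₀_apply (V : Subgroup G) (hV : V ∈ L.levels) (f : ↥(Z2At V B)) :
    psi₀ L B V hV f = L.H2π B (toZ2 L B V hV f) := rfl

lemma psi₀_eq_zero_iff (V : Subgroup G) (hV : V ∈ L.levels) (f : ↥(Z2At V B)) :
    psi₀ L B V hV f = 0 ↔ (f : G × G → B) ∈ L.B2 B := by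
  rw [psi₀_apply, L.H2π_eq_zero_iff]
  rfl

/-- inflation `H²(G ⧸ V, B^V) → H²_lc(G, B)`, cochain form -/
def psi (V : Subgroup G) (hV : V ∈ L.levels) : H2At V B →+ L.H2 B :=
  QuotientAddGroup.lift _ (psi₀ L B V hV) (by
    intro f hf
    rw [AddMonoidHom.mem_ker, psi₀_eq_zero_iff]
    exact mem_B2_of_isCobAt₂ hV (AddSubgroup.mem_addSubgroupOf.1 hf))

@[simp] lemma psi_mk (V : Subgroup G) (hV : V ∈ L.levels) (f : ↥(Z2At V B)) :
    psi L B V hV (QuotientAddGroup.mk f) = psi₀ L B V hV f := rfl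

variable {L B}

lemma psi_injective (hNC : L.NormalCofinal) (hFI : L.FiniteIndex) (hB : L.IsSmooth B)
    (V₀ : Subgroup G)
    (hinf : ∀ V' V : Subgroup G, V' ∈ L.levels → V'.Normal → V ∈ L.levels → V.Normal → V' ≤ V →
      V ≤ V₀ → ∀ f ∈ Z2At V B, IsCobAt₂ V' B f → IsCobAt₂ V B f)
    (V : Subgroup G) (hV : V ∈ L.levels) (hVn : V.Normal) (hVle : V ≤ V₀) :
    Function.Injective (psi L B V hV) := by
  rw [injective_iff_map_eq_zero]
  intro x hx
  obtain ⟨f, rfl⟩ := QuotientAddGroup.mk_surjective x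
  rw [psi_mk, psi₀_eq_zero_iff] at hx
  rw [QuotientAddGroup.eq_zero_iff, AddSubgroup.mem_addSubgroupOf]
  exact isCobAt₂_of_mem_B2 L hNC hFI B hB V₀ hinf V hV hVn hVle _ f.2 hx

lemma range_psi_mono {V V' : Subgroup G} (hV : V ∈ L.levels) (hV' : V' ∈ L.levels)
    (h : V' ≤ V) : (psi L B V hV).range ≤ (psi L B V' hV').range := by
  rintro _ ⟨x, rfl⟩
  obtain ⟨f, rfl⟩ := QuotientAddGroup.mk_surjective x
  exact ⟨QuotientAddGroup.mk ⟨f.1, Z2At_mono h B f.2⟩, rfl⟩

lemma exists_psi_eq (hNC : L.NormalCofinal) (x : L.H2 B) (W₀ : Subgroup G)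
    (hW₀ : W₀ ∈ L.levels) :
    ∃ (V : Subgroup G) (hV : V ∈ L.levels), V.Normal ∧ V ≤ W₀ ∧ x ∈ (psi L B V hV).range := by
  obtain ⟨a, rfl⟩ := L.H2π_surjective B x
  obtain ⟨V, hV, hVn, hVle, haV⟩ := exists_mem_Z2At L hNC B a.1 a.2 W₀ hW₀
  exact ⟨V, hV, hVn, hVle, QuotientAddGroup.mk ⟨a.1, haV⟩, rfl⟩

end psi

/-! ## 3. The theorem -/

/-- **KC-D2.** -/
theorem h2OfAt : H2OfAtSpec := by
  intro G _ L p _ B V₀ n hNC hFI hB hV₀ hcyc hinf hunb
  -- index type: normal levels below `V₀`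
  let I : Type := {V : Subgroup G // V ∈ L.levels ∧ V.Normal ∧ V ≤ V₀}
  let S : I → AddSubgroup (L.H2 B) := fun V => (psi L B V.1 V.2.1).range
  let N : I → ℕ := fun V => n V.1
  have hn : ∀ i : I, 0 < N i := fun V => (hcyc V.1 V.2.1 V.2.2.1 V.2.2.2).1
  have hS : ∀ i : I, Nonempty (S i ≃+ ZMod (N i)) := by
    intro V
    obtain ⟨e⟩ := (hcyc V.1 V.2.1 V.2.2.1 V.2.2.2).2
    have hinj := psi_injective hNC hFI hB V₀ hinf V.1 V.2.1 V.2.2.1 V.2.2.2
    exact ⟨(AddMonoidHom.ofInjective hinj).symm.trans e⟩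
  have hdir : ∀ i j : I, ∃ k : I, S i ≤ S k ∧ S j ≤ S k := by
    intro V V'
    obtain ⟨W₁, hW₁, hW₁le⟩ := L.directed V.1 V.2.1 V'.1 V'.2.1
    obtain ⟨W, hW, hWle, hWn⟩ := hNC W₁ hW₁
    have h1 : W ≤ V.1 := fun w hw => (hW₁le (hWle hw)).1
    have h2 : W ≤ V'.1 := fun w hw => (hW₁le (hWle hw)).2
    exact ⟨⟨W, hW, hWn, h1.trans V.2.2.2⟩, range_psi_mono V.2.1 hW h1,
      range_psi_mono V'.2.1 hW h2⟩
  have hcov : ∀ x : L.H2 B, ∃ i : I, x ∈ S i := by
    intro x
    obtain ⟨V, hV, hVn, hVle, hx⟩ := exists_psi_eq hNC x V₀ hV₀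
    exact ⟨⟨V, hV, hVn, hVle⟩, hx⟩
  have hunb' : ∀ m : ℕ, ∃ i : I, p ^ m ∣ N i := by
    intro m
    obtain ⟨V, hV, hVn, hVle, hdvd⟩ := hunb m
    exact ⟨⟨V, hV, hVn, hVle⟩, hdvd⟩
  refine ⟨?_, card_torsion_of_directed_cyclic p hn hS hdir hcov hunb'⟩
  intro a ha
  obtain ⟨y, hy⟩ := exists_nsmul_eq_of_directed_cyclic p hn hS hdir hcov hunb'
    (L.H2π B ⟨a, ha⟩)
  obtain ⟨a', rfl⟩ := L.H2π_surjective B y
  refine ⟨a'.1, a'.2, ?_⟩
  have h0 : L.H2π B (⟨a, ha⟩ - p • a') = 0 := by
    rw [map_sub, map_nsmul, hy, sub_self]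
  have h1 := (L.H2π_eq_zero_iff B _).1 h0
  simpa using h1

end Fermat.Agent.S55.KC.H287

end

end
-- ===== PACK-END S55/KC/H2OfAtH287.lean

-- ===== PACK-BEGIN S55/Inv/MuH635.lean
section



/-!
# S55 / `InvSpec`, leaf INV-MU (helper635): `ℚ(μ_p)` is a normal `S`-level (`p ∈ S`)

`muLevel : pPrime p ∈ S → MuLevelSpec p S`, with `U = ker (cycloChar p)`.
-/

set_option autoImplicit false

namespace Fermat.Agent.S55.Inv.H635

open Fermat.Agent.S55.PT Fermat.Agent.S55.Bridge groupCohomology ExtCitation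

/-- `ker (cycloChar p)` is an `S`-level when `p ∈ S`. -/
theorem ker_cycloChar_mem_levels (p : ℕ) [Fact p.Prime] (S : Finset Nat.Primes)
    (hpS : pPrime p ∈ S) : MonoidHom.ker (cycloChar p) ∈ (globalLevels S).levels := by
  obtain ⟨L, hL, hfix, -⟩ := exists_level_of_subgroup S
    (MonoidHom.ker (cycloChar p)) (cycloLevel p) (cycloLevel_finiteDimensional p)
    (fun s hs => MonoidHom.mem_ker.2 (cycloChar_eq_one_of_mem_fixingSubgroup p s hs))
    (fun q hq A hA g hg => by
      have hqp : (q : ℕ) ≠ p := by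
        intro h
        apply hq
        have : q = pPrime p := Subtype.ext h
        rw [this]
        exact hpS
      exact MonoidHom.mem_ker.2 (cycloChar_eq_one_of_mem_inertia p q.2 hqp A hA g hg))
  exact ⟨L, hL, hfix.symm⟩

/-- **INV-MU.** -/
theorem muLevel (p : ℕ) [Fact p.Prime] (S : Finset Nat.Primes) (hpS : pPrime p ∈ S) :
    MuLevelSpec p S := by
  refine ⟨MonoidHom.ker (cycloChar p), ker_cycloChar_mem_levels p S hpS,
    MonoidHom.normal_ker _, fun s hs => ?_⟩
  have h1 : cycloChar p s = 1 := MonoidHom.mem_ker.1 hs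
  apply LinearMap.ext
  intro c
  show ((Representation.trivial (ZMod p) _root_.Fermat.Agent.S55.PT.GQ (ZMod p)).twist (cycloChar p)) s c = c
  simp [Representation.twist_apply_apply, h1]

end Fermat.Agent.S55.Inv.H635

end
-- ===== PACK-END S55/Inv/MuH635.lean

-- ===== PACK-BEGIN S55/Inv/GO4/LocM.lean
section



/-!
# S55 / GO4 dictionary: the maps finite level → level-constant cochains (helper3)

* local: `coeM h q : (Q →₀ L_qˣ) →+ (Q →₀ ℚ̄_qˣ)`, `locM`, `locM₁`; equivariance, `locM ∘ d = d ∘ locM₁`,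
  level-constancy, invariance under inflation;
* global: `coeE h : (Q →₀ E_S(L)) →+ (Q →₀ 𝔼)`, `infE`, `infE₁`; the same properties; cocycles;
* comparison: `indLocE ∘ infE ε ∘ rl² = locM (locF ∘ ε ∘ decHom²)`.
-/

set_option autoImplicit false
set_option linter.unusedSectionVars false

noncomputable section

namespace Fermat.Agent.S55.Inv.GO4

open Fermat.Agent.S55 Fermat.Agent.S55.Tow Fermat.Agent.S55.E1.Lim groupCohomology
open Fermat.Agent.S55.PT

variable {S : Finset Nat.Primes} {K₀ L : Level S} (h : K₀ ≤ L) (q : Nat.Primes)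

/-! ## 1. Local side -/

/-- the modules of the local side -/
abbrev BLoc (K₀ : Level S) (q : Nat.Primes) : Rep.{0} ℤ (Gl q) :=
  K.ind (rl q) K₀.U (Tow.unitsQpbar q)

/-- coefficient map `(Q →₀ L_qˣ) → (Q →₀ ℚ̄_qˣ)` -/
def coeM : (semiLoc h q).V →+ (BLoc K₀ q).V :=
  (Finsupp.mapRange.addMonoidHom (L.locCoe q).toAddMonoidHom :
    (K₀.Gal →₀ (L.locUnits q).V) →+ ((Tow.GQ ⧸ K₀.U) →₀ (Tow.unitsQpbar q).V))

lemma coeM_single (x : K₀.Gal) (a : (L.locUnits q).V) :
    coeM h q (Finsupp.single x a : K₀.Gal →₀ (L.locUnits q).V) =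
      (Finsupp.single x (L.locCoe q a) : (Tow.GQ ⧸ K₀.U) →₀ (Tow.unitsQpbar q).V) :=
  Finsupp.mapRange_single (hf := map_zero _)

lemma locM_apply (τ : L.Dec q × L.Dec q → (semiLoc h q).V) (x : Gl q × Gl q) :
    locM h q τ x = coeM h q (τ ((QuotientGroup.mk x.1 : L.Dec q), (QuotientGroup.mk x.2 : L.Dec q))) :=
  rfl

lemma locM₁_apply (c : L.Dec q → (semiLoc h q).V) (x : Gl q) :
    locM₁ h q c x = coeM h q (c (QuotientGroup.mk x : L.Dec q)) := rfl

/-- `coeM` is equivariant along `G_q → Dec_q(L)`. -/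
lemma coeM_ρ (σ : Gl q) (v : (semiLoc h q).V) :
    coeM h q ((semiLoc h q).ρ (QuotientGroup.mk σ : L.Dec q) v) =
      (BLoc K₀ q).ρ σ (coeM h q v) := by
  have key : (coeM h q).comp
      ((semiLoc h q).ρ (QuotientGroup.mk σ : L.Dec q)).toAddMonoidHom =
      (((BLoc K₀ q).ρ σ).toAddMonoidHom).comp (coeM h q) := by
    refine Finsupp.addHom_ext fun x a => ?_
    show coeM h q ((semiLoc h q).ρ (QuotientGroup.mk σ : L.Dec q)
        (Finsupp.single x a : K₀.Gal →₀ (L.locUnits q).V)) =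
      (BLoc K₀ q).ρ σ (coeM h q (Finsupp.single x a : K₀.Gal →₀ (L.locUnits q).V))
    rw [dInd_ρ_single, coeM_single, coeM_single]
    show _ = K.indρ (rl q) K₀.U (Tow.unitsQpbar q) σ
      (Finsupp.single x (L.locCoe q a) : (Tow.GQ ⧸ K₀.U) →₀ (Tow.unitsQpbar q).V)
    rw [K.indρ_single]
    congr 1
  exact DFunLike.congr_fun key v

lemma locM_add (τ τ' : L.Dec q × L.Dec q → (semiLoc h q).V) :
    locM h q (τ + τ') = locM h q τ + locM h q τ' := by
  funext x
  show coeM h q (τ _ + τ' _) = _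
  rw [map_add]
  rfl

lemma locM_sub (τ τ' : L.Dec q × L.Dec q → (semiLoc h q).V) :
    locM h q (τ - τ') = locM h q τ - locM h q τ' := by
  funext x
  show coeM h q (τ _ - τ' _) = _
  rw [map_sub]
  rfl

lemma locM_nsmul (n : ℕ) (τ : L.Dec q × L.Dec q → (semiLoc h q).V) :
    locM h q (n • τ) = n • locM h q τ := by
  funext x
  show coeM h q (n • τ _) = _
  rw [map_nsmul]
  rfl

/-- `locM ∘ d = d ∘ locM₁`. -/
lemma locM_d (c : L.Dec q → (semiLoc h q).V) :
    locM h q ((d₁₂ (semiLoc h q)).hom c) = (d₁₂ (BLoc K₀ q)).hom (locM₁ h q c) := by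
  funext x
  rw [locM_apply, d₁₂_hom_apply, d₁₂_hom_apply, map_add, map_sub, coeM_ρ]
  rfl

lemma levelV_mem (L : Level S) (q : Nat.Primes) : L.V q ∈ (localLevels q).levels :=
  ⟨L.F, L.unram.1, rfl⟩

lemma levelU_mem (L : Level S) : L.U ∈ (globalLevels S).levels :=
  ⟨L.F, L.unram, rfl⟩

lemma mk_mul_of_mem_V (L : Level S) (q : Nat.Primes) (g s : Gl q) (hs : s ∈ L.V q) :
    (QuotientGroup.mk (g * s) : L.Dec q) = QuotientGroup.mk g := by
  rw [QuotientGroup.eq]
  simpa using (L.V q).inv_mem hs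

lemma mk_mul_of_mem_U (L : Level S) (g s : Tow.GQ) (hs : s ∈ L.U) :
    (QuotientGroup.mk (g * s) : L.Gal) = QuotientGroup.mk g := by
  rw [QuotientGroup.eq]
  simpa using (L.U).inv_mem hs

lemma locM₁_isLC (c : L.Dec q → (semiLoc h q).V) :
    locM₁ h q c ∈ (localLevels q).C1 (BLoc K₀ q) :=
  ⟨L.V q, levelV_mem L q, fun g s hs => by
    rw [locM₁_apply, locM₁_apply, mk_mul_of_mem_V L q g s hs]⟩

/-- `locM` maps coboundaries to level-constant coboundaries. -/
lemma locM_mem_B2 {τ : L.Dec q × L.Dec q → (semiLoc h q).V}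
    (hτ : τ ∈ coboundaries₂ (semiLoc h q)) :
    locM h q τ ∈ (localLevels q).B2 (BLoc K₀ q) := by
  obtain ⟨c, rfl⟩ := hτ
  exact ⟨locM₁ h q c, locM₁_isLC h q c, (locM_d h q c).symm⟩

/-- `locM` is invariant under inflation. -/
lemma locM_infl {L' : Level S} (h' : L ≤ L') (τ : L.Dec q × L.Dec q → (semiLoc h q).V) :
    locM (h.trans h') q (fun d : L'.Dec q × L'.Dec q =>
      (semiLocTr h q h').hom (τ (Level.projDec h' q d.1, Level.projDec h' q d.2))) =
    locM h q τ := by
  funext x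
  rw [locM_apply, locM_apply]
  refine Finsupp.ext fun y => ?_
  rfl

/-! ## 2. Global side -/

/-- the module of the global side -/
abbrev EGlob (K₀ : Level S) : Rep.{0} ℤ Tow.GQ := K.indG K₀.U (K.sUnits S)

/-- coefficient map `(Q →₀ E_S(L)) → (Q →₀ 𝔼)` -/
def coeE : (indF h (sUnits L)).V →+ (EGlob K₀).V :=
  (Finsupp.mapRange.addMonoidHom (inclE L) :
    (K₀.Gal →₀ (sUnits L).V) →+ ((Tow.GQ ⧸ K₀.U) →₀ (K.sUnits S).V))

lemma coeE_single (x : K₀.Gal) (e : (sUnits L).V) :
    coeE h (Finsupp.single x e : K₀.Gal →₀ (sUnits L).V) =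
      (Finsupp.single x (inclE L e) : (Tow.GQ ⧸ K₀.U) →₀ (K.sUnits S).V) :=
  Finsupp.mapRange_single (hf := map_zero _)

/-- inflation of a finite-level 2-cochain to `G_ℚ` -/
def infE (ε : L.Gal × L.Gal → (indF h (sUnits L)).V) : Tow.GQ × Tow.GQ → EGlob K₀ :=
  fun x => coeE h (ε ((QuotientGroup.mk x.1 : L.Gal), (QuotientGroup.mk x.2 : L.Gal)))

/-- inflation of a finite-level 1-cochain to `G_ℚ` -/
def infE₁ (γ : L.Gal → (indF h (sUnits L)).V) : Tow.GQ → EGlob K₀ :=
  fun x => coeE h (γ (QuotientGroup.mk x : L.Gal))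

lemma infE_apply (ε : L.Gal × L.Gal → (indF h (sUnits L)).V) (x : Tow.GQ × Tow.GQ) :
    infE h ε x = coeE h (ε ((QuotientGroup.mk x.1 : L.Gal), (QuotientGroup.mk x.2 : L.Gal))) := rfl

lemma infE₁_apply (γ : L.Gal → (indF h (sUnits L)).V) (x : Tow.GQ) :
    infE₁ h γ x = coeE h (γ (QuotientGroup.mk x : L.Gal)) := rfl

/-- `coeE` is equivariant along `G_ℚ → Gal(L/ℚ)`. -/
lemma coeE_ρ (σ : Tow.GQ) (v : (indF h (sUnits L)).V) :
    coeE h ((indF h (sUnits L)).ρ (QuotientGroup.mk σ : L.Gal) v) =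
      (EGlob K₀).ρ σ (coeE h v) := by
  have key : (coeE h).comp
      ((indF h (sUnits L)).ρ (QuotientGroup.mk σ : L.Gal)).toAddMonoidHom =
      (((EGlob K₀).ρ σ).toAddMonoidHom).comp (coeE h) := by
    refine Finsupp.addHom_ext fun x a => ?_
    show coeE h ((indF h (sUnits L)).ρ (QuotientGroup.mk σ : L.Gal)
        (Finsupp.single x a : K₀.Gal →₀ (sUnits L).V)) =
      (EGlob K₀).ρ σ (coeE h (Finsupp.single x a : K₀.Gal →₀ (sUnits L).V))
    rw [dInd_ρ_single, coeE_single, coeE_single]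
    show _ = K.indρ (MonoidHom.id Tow.GQ) K₀.U (K.sUnits S) σ
      (Finsupp.single x (inclE L a) : (Tow.GQ ⧸ K₀.U) →₀ (K.sUnits S).V)
    rw [K.indρ_single, inclE_ρ]
    congr 1
  exact DFunLike.congr_fun key v

lemma infE_nsmul (n : ℕ) (ε : L.Gal × L.Gal → (indF h (sUnits L)).V) :
    infE h (n • ε) = n • infE h ε := by
  funext x
  show coeE h (n • ε _) = _
  rw [map_nsmul]
  rfl

lemma infE_d (γ : L.Gal → (indF h (sUnits L)).V) :
    infE h ((d₁₂ (indF h (sUnits L))).hom γ) = (d₁₂ (EGlob K₀)).hom (infE₁ h γ) := by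
  funext x
  rw [infE_apply, d₁₂_hom_apply, d₁₂_hom_apply, map_add, map_sub, coeE_ρ]
  rfl

lemma infE₁_isLC (γ : L.Gal → (indF h (sUnits L)).V) :
    infE₁ h γ ∈ (globalLevels S).C1 (EGlob K₀) :=
  ⟨L.U, levelU_mem L, fun g s hs => by
    rw [infE₁_apply, infE₁_apply, mk_mul_of_mem_U L g s hs]⟩

lemma infE_isLC (ε : L.Gal × L.Gal → (indF h (sUnits L)).V) :
    infE h ε ∈ (globalLevels S).C2 (EGlob K₀) :=
  ⟨L.U, levelU_mem L, fun g g' s s' hs hs' => by
    rw [infE_apply, infE_apply]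
    show coeE h (ε (QuotientGroup.mk (g * s), QuotientGroup.mk (g' * s'))) = _
    rw [mk_mul_of_mem_U L g s hs, mk_mul_of_mem_U L g' s' hs']⟩

/-- `infE` maps cocycles to level-constant cocycles. -/
lemma infE_mem_Z2 {ε : L.Gal × L.Gal → (indF h (sUnits L)).V}
    (hε : ε ∈ cocycles₂ (indF h (sUnits L))) :
    infE h ε ∈ (globalLevels S).Z2 (EGlob K₀) := by
  refine ⟨?_, infE_isLC h ε⟩
  rw [mem_cocycles₂_iff] at hε
  show infE h ε ∈ cocycles₂ (EGlob K₀)
  rw [mem_cocycles₂_iff]
  intro g g' g''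
  have := hε (QuotientGroup.mk g) (QuotientGroup.mk g') (QuotientGroup.mk g'')
  rw [infE_apply, infE_apply, infE_apply, infE_apply, ← coeE_ρ, ← map_add, ← map_add]
  exact congrArg (coeE h) this

/-- `infE` maps coboundaries to level-constant coboundaries. -/
lemma infE_mem_B2 {ε : L.Gal × L.Gal → (indF h (sUnits L)).V}
    (hε : ε ∈ coboundaries₂ (indF h (sUnits L))) :
    infE h ε ∈ (globalLevels S).B2 (EGlob K₀) := by
  obtain ⟨γ, rfl⟩ := hε
  exact ⟨infE₁ h γ, infE₁_isLC h γ, (infE_d h γ).symm⟩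

/-! ## 3. Comparison -/

/-- localisation of `infE ε` = `locM` of the finite-level localisation of `ε`. -/
lemma indLocE_infE (ε : L.Gal × L.Gal → (indF h (sUnits L)).V) :
    (fun x : Gl q × Gl q => K.indLocE q S K₀.U (infE h ε (rl q x.1, rl q x.2))) =
      locM h q (fun d : L.Dec q × L.Dec q =>
        (locF h q).hom (ε (L.decHom q d.1, L.decHom q d.2))) := by
  funext x
  rw [locM_apply]
  refine Finsupp.ext fun y => ?_
  rfl

end Fermat.Agent.S55.Inv.GO4

end

end
-- ===== PACK-END S55/Inv/GO4/LocM.lean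

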