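import Fermat.Agent.Pack.S56.E17L1
import Fermat.Agent.Pack.S56.E14L1
import Fermat.Agent.Pack.S56.E13L0
import Fermat.Agent.Pack.S56.E15L3
import Fermat.Agent.Pack.S56.E17L3
import Fermat.Agent.Pack.S56.E9L3
import Fermat.Agent.Pack.S56.E0L1
import Fermat.Agent.Pack.S56.E16L0
import Fermat.Agent.Pack.S56.E17L2
import Fermat.Agent.Pack.S56.E13L2
import Fermat.Agent.Pack.S56.E5L2
import Fermat.Agent.Pack.S56.E5L3
import Fermat.Agent.Pack.S56.E3L3
import Fermat.Agent.Pack.S56.E7L3
import Fermat.Agent.Pack.S56.E13L1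
import Fermat.Agent.Pack.S56.E5L0
import Fermat.Agent.Pack.S56.E12L0
import Fermat.Agent.Pack.S56.E14L0
import Fermat.Agent.Pack.S56.E17L0
import Fermat.Agent.Pack.S56.E11L1
import Fermat.Agent.Pack.S56.E16L3
import Fermat.Agent.Pack.S56.E2L0
import Fermat.Agent.Pack.S56.E16L2
import Fermat.Agent.Pack.S56.E11L3

-- ===== PACK-BEGIN S56/Final3.lean
section




/-!
# Row S56 — FINAL reduction, v3 (row-lead helper956): three Props left

LOC-MIN (`H606.locMin`) and LOC-SO (`H656.locOrdP`) are proved.  Hence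

    `S56 ⇐ H716.LocFlatPStatement + H716.BaseStatement + H716.RecQStatement`.

`Fermat/Agent/S56.lean` will be

    exact Fermat.Agent.S56.result_of_inputs
      (Fermat.Agent.S56.tangentBoundOrd_of_three base recQ)
      (Fermat.Agent.S56.tangentBoundFlat_of_three locFlatP base recQ)
      Fermat.Agent.S56.powerSeriesSurj Fermat.Agent.S56.twPrimes
      p hp2 hp𝒪 ρbar habs hdet hsplit hTW S Smin hpSmin hSmin hS hmin
-/

set_option autoImplicit false

namespace Fermat.Agent.S56

/-- (TB-ord) from BASE and REC-Q. -/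
theorem tangentBoundOrd_of_three (hb : H716.BaseStatement) (hr : H716.RecQStatement) :
    TangentBoundOrdStatement :=
  tangentBoundOrd_of_five H606.locMin H656.locOrdP hb hr

/-- (TB-flat) from LOC-FLAT, BASE and REC-Q. -/
theorem tangentBoundFlat_of_three (hflat : H716.LocFlatPStatement) (hb : H716.BaseStatement)
    (hr : H716.RecQStatement) : TangentBoundFlatStatement :=
  tangentBoundFlat_of_five H606.locMin hflat hb hr

end Fermat.Agent.S56

end
-- ===== PACK-END S56/Final3.lean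

-- ===== PACK-BEGIN S56/H486/FlatTame.lean
section
/-
S56 / FLAT-O leaf FT (helper486): `flatTame : FlatTameStatement` (verbatim target of
`S56/H906/FlatOSpec.lean`).

If inertia at `P ∣ p` acts on a nonzero point `x` of a flat module `M` killed by `p` (`p` odd)
through scalars, then it acts trivially or through the cyclotomic character.

Proof (blueprint `coord/S56-FLATO-helper906.md`, (FT)).  Let `M⁰` be the kernel of reduction.
* `x ∉ M⁰`: `τ x - x ∈ M⁰` for `τ` in inertia, and `M⁰` is stable under multiples, so the scalar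
  is `1`.
* `x ∈ M⁰`: the product over the inertia orbit of `x` of `f - f 0` is inertia-fixed, hence has
  valuation in `v(p)^ℤ` (UNR), so `v(f x - f 0)^(p-1) ≤ v(p)`; by Lemma (A) equality holds for
  a coordinate `f` of maximal valuation, i.e. `v(f x - f 0) = v(ζ - 1)`; Newton's expansion gives
  `f(n x) - f 0 ≡ n (f x - f 0)` modulo `(ζ - 1)²`, and comparing with
  `τ(w (ζ - 1)) ≡ a w (ζ - 1)` modulo `(ζ - 1) 𝔪_P` gives `n ≡ a` modulo `p`.

Inputs (on main): `H906.lemmaA` (+ its difference calculus), `H66.unrVal`,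
`S14/H894/Cyclo` (`v(p) = v(ζ - 1)^(p-1)`), `A2/H708/Tame` (inertia and valuations),
`S19/H435` (Hopf lattices).
-/





set_option autoImplicit false
set_option linter.style.haveILetI false
set_option linter.unusedSectionVars false

noncomputable section

namespace Fermat.Agent.S56.H486

open Fermat.Agent.S56 Fermat.Agent.S56.H906

section FT

variable {p : ℕ} [Fact p.Prime] {M : Type} [AddCommGroup M] {act : GQ → M → M}
  {Λ : Subalgebra (Zp p) (M → Qb)} (P : ValuationSubring Qb)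

/-- The Galois action of a Hopf lattice is compatible with multiples. -/
theorem ft_act_nsmul (hΛ : IsHL p act Λ) (σ : GQ) (n : ℕ) (x : M) :
    act σ (n • x) = n • act σ x := by
  induction n with
  | zero => rw [zero_smul, zero_smul]; exact Fermat.Agent.S19.H435.IsHopfLattice.act_zero hΛ σ
  | succ n ih =>
    rw [succ_nsmul, succ_nsmul, Fermat.Agent.S19.H435.IsHopfLattice.act_add hΛ, ih]

/-- The Galois action of a Hopf lattice is an action. -/
theorem ft_act_mul (hΛ : IsHL p act Λ) (σ τ : GQ) (x : M) :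
    act (σ * τ) x = act σ (act τ x) := by
  by_contra hne
  obtain ⟨f, hf, hfne⟩ := hΛ.separates _ _ hne
  apply hfne
  rw [hΛ.equivariant f hf (σ * τ), hΛ.equivariant f hf σ, hΛ.equivariant f hf τ]
  rfl

/-- The kernel of reduction, as a predicate. -/
def ftRed (Λ : Subalgebra (Zp p) (M → Qb)) (z : M) : Prop :=
  ∀ f ∈ Λ, P.valuation (f z - f 0) < 1

/-- The kernel of reduction is stable under addition. -/
theorem ftRed_add (hΛ : IsHL p act Λ) (hP : P.LiesOverPrime p) {z w : M}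
    (hz : ftRed P Λ z) (hw : ftRed P Λ w) : ftRed P Λ (z + w) := by
  intro f hf
  obtain ⟨n, a, b, ha, hb, hab⟩ := hΛ.comul_mem f hf
  have h0 := hab 0 0
  rw [add_zero] at h0
  have h1 : f (z + w) - f 0 =
      ∑ k, ((a k z - a k 0) * b k w + a k 0 * (b k w - b k 0)) := by
    rw [hab z w, h0, ← Finset.sum_sub_distrib]
    exact Finset.sum_congr rfl fun k _ => by ring
  rw [h1]
  refine Valuation.map_sum_lt _ one_ne_zero fun k _ => ?_
  refine lt_of_le_of_lt (Valuation.map_add _ _ _) (max_lt ?_ ?_)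
  · rw [map_mul]
    have hb1 : P.valuation (b k w) ≤ 1 :=
      (P.valuation_le_one_iff _).mpr (apply_mem P hΛ hP (hb k) w)
    calc P.valuation (a k z - a k 0) * P.valuation (b k w)
        ≤ P.valuation (a k z - a k 0) * 1 := by gcongr
      _ = P.valuation (a k z - a k 0) := mul_one _
      _ < 1 := hz _ (ha k)
  · rw [map_mul]
    have ha1 : P.valuation (a k 0) ≤ 1 :=
      (P.valuation_le_one_iff _).mpr (apply_mem P hΛ hP (ha k) 0)
    calc P.valuation (a k 0) * P.valuation (b k w - b k 0)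
        ≤ 1 * P.valuation (b k w - b k 0) := by gcongr
      _ = P.valuation (b k w - b k 0) := one_mul _
      _ < 1 := hw _ (hb k)

/-- The kernel of reduction is stable under multiples. -/
theorem ftRed_nsmul (hΛ : IsHL p act Λ) (hP : P.LiesOverPrime p) {z : M}
    (hz : ftRed P Λ z) (n : ℕ) : ftRed P Λ (n • z) := by
  induction n with
  | zero =>
    intro f _
    rw [zero_smul, sub_self, map_zero]
    exact zero_lt_one
  | succ n ih =>
    rw [succ_nsmul]
    exact ftRed_add P hΛ hP ih hz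

/-- Inertia acts trivially modulo the kernel of reduction. -/
theorem ftRed_act_sub (hΛ : IsHL p act Λ) (hP : P.LiesOverPrime p) {τ : GQ}
    (hτ : τ ∈ P.inertiaSubgroupIn ℚ) (x : M) : ftRed P Λ (act τ x - x) := by
  intro f hf
  obtain ⟨n, a, b, ha, hb, hab⟩ := hΛ.comul_mem f hf
  have h0 := hab x (-x)
  rw [add_neg_cancel] at h0
  have h1 : f (act τ x - x) - f 0 = ∑ k, (τ (a k x) - a k x) * b k (-x) := by
    rw [sub_eq_add_neg (act τ x) x, hab (act τ x) (-x), h0, ← Finset.sum_sub_distrib]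
    refine Finset.sum_congr rfl fun k _ => ?_
    rw [hΛ.equivariant _ (ha k) τ x]
    ring
  rw [h1]
  refine Valuation.map_sum_lt _ one_ne_zero fun k _ => ?_
  rw [map_mul]
  have hb1 : P.valuation (b k (-x)) ≤ 1 :=
    (P.valuation_le_one_iff _).mpr (apply_mem P hΛ hP (hb k) (-x))
  have ha1 : P.valuation (τ (a k x) - a k x) < 1 :=
    (ValuationSubring.mem_nonunits_iff (A := P)).mp
      (Fermat.Agent.A2.H708.sub_mem_nonunits_of_mem_inertiaIn P hτ (apply_mem P hΛ hP (ha k) x))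
  calc P.valuation (τ (a k x) - a k x) * P.valuation (b k (-x))
      ≤ P.valuation (τ (a k x) - a k x) * 1 := by gcongr
    _ = P.valuation (τ (a k x) - a k x) := mul_one _
    _ < 1 := ha1


/-- The identity acts trivially. -/
theorem ft_act_one (hΛ : IsHL p act Λ) (x : M) : act 1 x = x := by
  by_contra hne
  obtain ⟨f, hf, hfne⟩ := hΛ.separates _ _ hne
  apply hfne
  rw [hΛ.equivariant f hf 1]
  rfl

/-- Multiples of `x` only depend on the multiplier modulo `p`. -/
theorem ft_mod_nsmul {x : M} (hpx : p • x = 0) (n : ℕ) : (n % p) • x = n • x := by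
  conv_rhs => rw [← Nat.div_add_mod n p]
  rw [add_smul, mul_comm, mul_smul, hpx, smul_zero, zero_add]

/-- **Case `x ∉ M⁰`**: inertia fixes `x`. -/
theorem ft_case_one (hΛ : IsHL p act Λ) (hP : P.LiesOverPrime p) (hM : ∀ x : M, p • x = 0)
    {x : M} (hx : ¬ ftRed P Λ x) {τ : GQ} (hτ : τ ∈ P.inertiaSubgroupIn ℚ) {n : ℕ}
    (hn : act τ x = n • x) : act τ x = x := by
  by_contra hne
  apply hx
  letI : Module (ZMod p) M := AddCommGroup.zmodModule hM
  have hz := ftRed_act_sub P hΛ hP hτ x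
  set c : ZMod p := (n : ZMod p) - 1 with hc
  have hcx : act τ x - x = c • x := by
    rw [hn, hc, sub_smul, one_smul, Nat.cast_smul_eq_nsmul]
  have hc0 : c ≠ 0 := by
    intro h0
    apply hne
    rw [h0, zero_smul, sub_eq_zero] at hcx
    exact hcx
  have hx' : x = (c⁻¹).val • (act τ x - x) := by
    rw [hcx, ← Nat.cast_smul_eq_nsmul (ZMod p), ZMod.natCast_zmod_val, smul_smul,
      inv_mul_cancel₀ hc0, one_smul]
  rw [hx']
  exact ftRed_nsmul P hΛ hP hz _

/-- **Case `x ∈ M⁰`, step 1** (orbit product + UNR): `v(f x - f 0)^(p-1) ≤ v(p)`. -/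
theorem ft_pow_le (hU : UnrValStatement) [Finite M] (hΛ : IsHL p act Λ)
    (hP : P.LiesOverPrime p) (hM : ∀ x : M, p • x = 0) {x : M} (hx0 : x ≠ 0)
    (hx : ftRed P Λ x) (hsc : ∀ τ ∈ P.inertiaSubgroupIn ℚ, ∃ n : ℕ, act τ x = n • x)
    {f : M → Qb} (hf : f ∈ Λ) :
    P.valuation (f x - f 0) ^ (p - 1) ≤ P.valuation (p : Qb) := by
  classical
  have hp : p.Prime := Fact.out
  haveI : Fintype M := Fintype.ofFinite M
  haveI : Algebra.IsAlgebraic ℚ Qb := AlgebraicClosure.isAlgebraic ℚ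
  set y := f x - f 0 with hy
  by_cases hy0 : y = 0
  · rw [hy0, map_zero, zero_pow (by have := hp.two_le; omega)]
    exact zero_le
  -- the inertia orbit of `x`
  let S : Finset M := Finset.univ.filter (fun z => ∃ τ ∈ P.inertiaSubgroupIn ℚ, act τ x = z)
  have hS : ∀ z, z ∈ S ↔ ∃ τ ∈ P.inertiaSubgroupIn ℚ, act τ x = z := by
    intro z
    simp [S]
  have hxS : x ∈ S := (hS x).2 ⟨1, one_mem _, ft_act_one hΛ x⟩
  have hact : ∀ (σ : GQ) (z : M), f (act σ z) - f 0 = σ (f z - f 0) := by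
    intro σ z
    rw [map_sub, ← hΛ.equivariant f hf σ z, ← hΛ.equivariant f hf σ 0,
      Fermat.Agent.S19.H435.IsHopfLattice.act_zero hΛ σ]
  -- valuation of each factor
  have hval : ∀ z ∈ S, P.valuation (f z - f 0) = P.valuation y := by
    intro z hz
    obtain ⟨τ, hτ, rfl⟩ := (hS z).1 hz
    rw [hact τ x]
    exact Fermat.Agent.A2.H708.valuation_apply_of_mem_decomposition P
      (Fermat.Agent.A2.H708.mem_decomposition_of_mem_inertiaIn P hτ) y
  have hNv : P.valuation (∏ z ∈ S, (f z - f 0)) = P.valuation y ^ S.card := by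
    rw [map_prod, Finset.prod_congr rfl hval, Finset.prod_const]
  have hN0 : (∏ z ∈ S, (f z - f 0)) ≠ 0 := by
    rw [← Valuation.ne_zero_iff P.valuation, hNv]
    exact pow_ne_zero _ ((Valuation.ne_zero_iff _).mpr hy0)
  -- the product is fixed by inertia
  have hNfix : ∀ σ ∈ P.inertiaSubgroupIn ℚ, σ (∏ z ∈ S, (f z - f 0)) = ∏ z ∈ S, (f z - f 0) := by
    intro σ hσ
    rw [map_prod]
    refine Finset.prod_bij' (fun z _ => act σ z) (fun z _ => act σ⁻¹ z) ?_ ?_ ?_ ?_ ?_
    · intro z hz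
      obtain ⟨τ, hτ, rfl⟩ := (hS z).1 hz
      exact (hS _).2 ⟨σ * τ, mul_mem hσ hτ, ft_act_mul hΛ σ τ x⟩
    · intro z hz
      obtain ⟨τ, hτ, rfl⟩ := (hS z).1 hz
      exact (hS _).2 ⟨σ⁻¹ * τ, mul_mem (inv_mem hσ) hτ, ft_act_mul hΛ σ⁻¹ τ x⟩
    · intro z _
      exact Fermat.Agent.S19.H435.IsHopfLattice.act_inv_act hΛ σ z
    · intro z _
      exact Fermat.Agent.S19.H435.IsHopfLattice.act_act_inv hΛ σ z
    · intro z _
      exact (hact σ z).symm
  obtain ⟨m, hm⟩ := hU p hp P hP _ hN0 hNfix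
  have hvp : P.valuation (p : Qb) < 1 := (ValuationSubring.mem_nonunits_iff (A := P)).mp hP
  have hvp0 : P.valuation (p : Qb) ≠ 0 :=
    (Valuation.ne_zero_iff _).mpr (by exact_mod_cast hp.ne_zero)
  have hy1 : P.valuation y < 1 := hx f hf
  have hcard : 0 < S.card := Finset.card_pos.mpr ⟨x, hxS⟩
  have hN1 : P.valuation (∏ z ∈ S, (f z - f 0)) < 1 := by
    rw [hNv]
    exact pow_lt_one₀ zero_le hy1 hcard.ne'
  have hm1 : 1 ≤ m := by
    by_contra hcon
    have hm0 : m ≤ 0 := by omega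
    have h1 : 1 ≤ P.valuation (p : Qb) ^ m :=
      one_le_zpow_of_nonpos₀ (zero_lt_iff.mpr hvp0) hvp.le hm0
    rw [← hm] at h1
    exact absurd h1 (not_le.mpr hN1)
  have hNp : P.valuation (∏ z ∈ S, (f z - f 0)) ≤ P.valuation (p : Qb) := by
    rw [hm]
    calc P.valuation (p : Qb) ^ m ≤ P.valuation (p : Qb) ^ (1 : ℤ) :=
          zpow_le_zpow_right_of_le_one₀ (zero_lt_iff.mpr hvp0) hvp.le hm1
      _ = P.valuation (p : Qb) := zpow_one _
  -- the orbit has at most `p - 1` elements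
  have hScard : S.card ≤ p - 1 := by
    have hsub : S ⊆ (Finset.Ico 1 p).image (fun n : ℕ => n • x) := by
      intro z hz
      obtain ⟨τ, hτ, rfl⟩ := (hS z).1 hz
      obtain ⟨n, hn⟩ := hsc τ hτ
      rw [Finset.mem_image]
      refine ⟨n % p, ?_, ?_⟩
      · rw [Finset.mem_Ico]
        refine ⟨?_, Nat.mod_lt _ hp.pos⟩
        by_contra h0
        have h0' : n % p = 0 := by omega
        have h1 : act τ x = 0 := by
          rw [hn, ← ft_mod_nsmul (hM x) n, h0', zero_smul]
        apply hx0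
        have h2 := Fermat.Agent.S19.H435.IsHopfLattice.act_inv_act hΛ τ x
        rw [h1, Fermat.Agent.S19.H435.IsHopfLattice.act_zero hΛ] at h2
        exact h2.symm
      · show (n % p) • x = act τ x
        rw [hn, ft_mod_nsmul (hM x) n]
    calc S.card ≤ ((Finset.Ico 1 p).image (fun n : ℕ => n • x)).card := Finset.card_le_card hsub
      _ ≤ (Finset.Ico 1 p).card := Finset.card_image_le
      _ = p - 1 := Nat.card_Ico 1 p
  calc P.valuation y ^ (p - 1) ≤ P.valuation y ^ S.card :=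
        pow_le_pow_of_le_one zero_le hy1.le hScard
    _ = P.valuation (∏ z ∈ S, (f z - f 0)) := hNv.symm
    _ ≤ P.valuation (p : Qb) := hNp

/-- **Step 2**: a coordinate difference of maximal valuation. -/
theorem ft_exists_max (hΛ : IsHL p act Λ) (hP : P.LiesOverPrime p) {x : M} (hx0 : x ≠ 0) :
    ∃ f ∈ Λ, f x - f 0 ≠ 0 ∧
      ∀ g ∈ Λ, P.valuation (g x - g 0) ≤ P.valuation (f x - f 0) := by
  have hp : p.Prime := Fact.out
  obtain ⟨f₀, hf₀, hne⟩ := hΛ.separates x 0 hx0
  obtain ⟨n, e, he, -, -, hexp⟩ := Fermat.Agent.S19.H435.IsHopfLattice.exists_basis hΛ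
  have hcoord : ∀ g ∈ Λ, ∃ c : Fin n → Zp p,
      g x - g 0 = ∑ i, algebraMap (Zp p) Qb (c i) * (e i x - e i 0) := by
    intro g hg
    obtain ⟨c, hc⟩ := hexp g hg
    refine ⟨c, ?_⟩
    have h1 : ∀ y : M, g y = ∑ i, algebraMap (Zp p) Qb (c i) * e i y := by
      intro y
      rw [hc, Finset.sum_apply]
      refine Finset.sum_congr rfl fun i _ => ?_
      rw [Pi.smul_apply, Algebra.smul_def]
    rw [h1 x, h1 0, ← Finset.sum_sub_distrib]
    exact Finset.sum_congr rfl fun i _ => by ring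
  have hex : ∃ i, e i x - e i 0 ≠ 0 := by
    by_contra hcon
    push Not at hcon
    obtain ⟨c, hc⟩ := hcoord f₀ hf₀
    apply hne
    rw [← sub_eq_zero, hc]
    exact Finset.sum_eq_zero fun i _ => by rw [hcon i, mul_zero]
  obtain ⟨i₁, hi₁⟩ := hex
  obtain ⟨i₀, -, hi₀⟩ := Finset.exists_max_image Finset.univ
    (fun i => P.valuation (e i x - e i 0)) ⟨i₁, Finset.mem_univ _⟩
  refine ⟨e i₀, he i₀, ?_, ?_⟩
  · intro h0
    have h1 := hi₀ i₁ (Finset.mem_univ _)
    rw [h0, map_zero] at h1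
    exact hi₁ ((Valuation.zero_iff P.valuation).mp (le_antisymm h1 zero_le))
  · intro g hg
    obtain ⟨c, hc⟩ := hcoord g hg
    rw [hc]
    refine Valuation.map_sum_le _ fun i _ => ?_
    rw [map_mul]
    calc P.valuation (algebraMap (Zp p) Qb (c i)) * P.valuation (e i x - e i 0)
        ≤ 1 * P.valuation (e i x - e i 0) := by
          gcongr
          exact (ValuationSubring.valuation_le_one_iff P _).mpr (zp_mem P hp hP (c i))
      _ = P.valuation (e i x - e i 0) := one_mul _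
      _ ≤ P.valuation (e i₀ x - e i₀ 0) := hi₀ i (Finset.mem_univ _)

/-- **Step 3** (Newton, leading term): `f (n x) - f 0 ≡ n (f x - f 0)` modulo `μ²`. -/
theorem ft_leading (hΛ : IsHL p act Λ) (hP : P.LiesOverPrime p) {x : M} {f : M → Qb}
    (hf : f ∈ Λ) (μ : Qb) (hμ : μ ≠ 0) (hμ1 : P.valuation μ ≤ 1)
    (hle : ∀ g ∈ Λ, P.valuation (g x - g 0) ≤ P.valuation μ) (n : ℕ) :
    P.valuation (f (n • x) - f 0 - (n : Qb) * (f x - f 0)) ≤ P.valuation μ ^ 2 := by
  rcases Nat.eq_zero_or_pos n with rfl | hn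
  · rw [zero_smul, sub_self, Nat.cast_zero, zero_mul, sub_self, map_zero]
    exact zero_le
  obtain ⟨q, rfl⟩ : ∃ q, n = q + 1 := ⟨n - 1, by omega⟩
  have hN := sum_choose_delta x (q + 1) f
  rw [Finset.sum_range_succ', Finset.sum_range_succ'] at hN
  simp only [Nat.choose_zero_right, Nat.cast_one, pow_zero, Module.End.one_apply, one_mul,
    zero_add, Nat.choose_one_right, pow_one] at hN
  have hd1 : delta x f 0 = f x - f 0 := by rw [delta_apply, zero_add]
  rw [hd1] at hN
  have hsum : f ((q + 1) • x) - f 0 - ((q + 1 : ℕ) : Qb) * (f x - f 0) =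
      ∑ k ∈ Finset.range q,
        (((q + 1).choose (k + 1 + 1) : ℕ) : Qb) * (delta x ^ (k + 1 + 1)) f 0 := by
    rw [hN]
    ring
  rw [hsum]
  refine Valuation.map_sum_le _ fun k _ => ?_
  obtain ⟨G, hG, hG'⟩ := delta_pow_mem P hΛ x μ hμ hle (k + 1 + 1) (subset_pspan P hf)
  have hG0 : P.valuation (G 0) ≤ 1 :=
    (P.valuation_le_one_iff _).mpr (pspan_apply_mem P hΛ hP hG 0)
  have hc1 : P.valuation ((((q + 1).choose (k + 1 + 1) : ℕ) : Qb)) ≤ 1 :=
    (P.valuation_le_one_iff _).mpr (natCast_mem P _)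
  rw [hG', Pi.smul_apply, smul_eq_mul, map_mul, map_mul, map_pow]
  calc P.valuation ((((q + 1).choose (k + 1 + 1) : ℕ) : Qb)) *
        (P.valuation μ ^ (k + 1 + 1) * P.valuation (G 0))
      ≤ 1 * (P.valuation μ ^ (k + 1 + 1) * 1) := by gcongr
    _ = P.valuation μ ^ (k + 1 + 1) := by rw [one_mul, mul_one]
    _ ≤ P.valuation μ ^ 2 := pow_le_pow_of_le_one zero_le hμ1 (by omega)


/-- **Case `x ∈ M⁰`**: inertia acts on `x` through the cyclotomic character. -/
theorem ft_case_two (hU : UnrValStatement) (hA : LemmaAStatement) [Finite M]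
    (hΛ : IsHL p act Λ) (hP : P.LiesOverPrime p) (hM : ∀ x : M, p • x = 0) {x : M}
    (hx0 : x ≠ 0) (hx : ftRed P Λ x)
    (hsc : ∀ τ ∈ P.inertiaSubgroupIn ℚ, ∃ n : ℕ, act τ x = n • x)
    {τ : GQ} (hτ : τ ∈ P.inertiaSubgroupIn ℚ) {a : ℕ} (ha : IsCycExp p τ a) :
    act τ x = a • x := by
  have hp : p.Prime := Fact.out
  haveI : Algebra.IsAlgebraic ℚ Qb := AlgebraicClosure.isAlgebraic ℚ
  obtain ⟨n, hn⟩ := hsc τ hτ
  obtain ⟨f, hf, hy0, hmax⟩ := ft_exists_max P hΛ hP hx0
  -- `v(y)^(p-1) = v(p)` for `y = f x - f 0`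
  have hle : P.valuation (f x - f 0) ^ (p - 1) ≤ P.valuation (p : Qb) :=
    ft_pow_le P hU hΛ hP hM hx0 hx hsc hf
  have hge : P.valuation (p : Qb) ≤ P.valuation (f x - f 0) ^ (p - 1) := by
    by_contra hcon
    rw [not_le] at hcon
    exact hx0 (hA p M act Λ hΛ P hP x (f x - f 0) (hM x) hcon hmax)
  have heq : P.valuation (f x - f 0) ^ (p - 1) = P.valuation (p : Qb) := le_antisymm hle hge
  -- a primitive `p`-th root of unity
  obtain ⟨ζ, hζ⟩ := HasEnoughRootsOfUnity.exists_primitiveRoot Qb p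
  have hπ : P.valuation (p : Qb) = P.valuation (ζ - 1) ^ (p - 1) :=
    Fermat.Agent.S14.H894.valuation_natCast_eq_pow P p hp ζ hζ
  have hyπ : P.valuation (f x - f 0) = P.valuation (ζ - 1) :=
    (pow_left_inj₀ zero_le zero_le (by have := hp.two_le; omega)).mp (heq.trans hπ)
  have hπ1 : P.valuation (ζ - 1) < 1 :=
    Fermat.Agent.S14.H894.valuation_zeta_sub_one_lt_one P p hp hP ζ hζ
  have hπ0 : P.valuation (ζ - 1) ≠ 0 :=
    Fermat.Agent.S14.H894.valuation_zeta_sub_one_ne_zero P p hp ζ hζ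
  have hπne : ζ - 1 ≠ 0 := (Valuation.ne_zero_iff _).mp hπ0
  have hπpos : 0 < P.valuation (ζ - 1) := zero_lt_iff.mpr hπ0
  -- `τ y = f (n x) - f 0`
  have hτy : τ (f x - f 0) = f (n • x) - f 0 := by
    rw [map_sub, ← hΛ.equivariant f hf τ x, ← hΛ.equivariant f hf τ 0,
      Fermat.Agent.S19.H435.IsHopfLattice.act_zero hΛ τ, hn]
  -- (1) `τ y ≡ n y` modulo `π²`
  have h1 : P.valuation (τ (f x - f 0) - (n : Qb) * (f x - f 0)) ≤ P.valuation (ζ - 1) ^ 2 := by
    rw [hτy, ← hyπ]
    exact ft_leading P hΛ hP hf (f x - f 0) hy0 (hx f hf).le hmax n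
  -- (2) `τ y ≡ a y` modulo `π 𝔪`
  have hwv : P.valuation ((f x - f 0) / (ζ - 1)) = 1 := by
    rw [map_div₀, hyπ, div_self hπ0]
  have hwy : f x - f 0 = (f x - f 0) / (ζ - 1) * (ζ - 1) := by
    field_simp
  have hτζ : τ (ζ - 1) = ζ ^ a - 1 := by
    rw [map_sub, map_one, ha ζ hζ.pow_eq_one]
  have h2 : P.valuation (τ (f x - f 0) - (a : Qb) * (f x - f 0)) < P.valuation (ζ - 1) := by
    have hsplit : τ (f x - f 0) - (a : Qb) * (f x - f 0) =
        (τ ((f x - f 0) / (ζ - 1)) - (f x - f 0) / (ζ - 1)) * (ζ ^ a - 1) +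
          (f x - f 0) / (ζ - 1) * ((ζ ^ a - 1) - a * (ζ - 1)) := by
      have h := congrArg τ hwy
      rw [map_mul, hτζ] at h
      rw [h]
      field_simp
      ring
    rw [hsplit]
    refine lt_of_le_of_lt (Valuation.map_add _ _ _) (max_lt ?_ ?_)
    · rw [map_mul]
      have hw1 : P.valuation (τ ((f x - f 0) / (ζ - 1)) - (f x - f 0) / (ζ - 1)) < 1 :=
        Fermat.Agent.A2.H708.valuation_sub_lt_one_of_mem_inertiaIn P hτ hwv.le
      have hz : P.valuation (ζ ^ a - 1) ≤ P.valuation (ζ - 1) :=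
        Fermat.Agent.S14.H894.valuation_pow_sub_one_le P hp.ne_zero hζ.pow_eq_one a
      calc P.valuation (τ ((f x - f 0) / (ζ - 1)) - (f x - f 0) / (ζ - 1)) *
            P.valuation (ζ ^ a - 1)
          ≤ P.valuation (τ ((f x - f 0) / (ζ - 1)) - (f x - f 0) / (ζ - 1)) *
            P.valuation (ζ - 1) := by gcongr
        _ < 1 * P.valuation (ζ - 1) := mul_lt_mul_of_pos_right hw1 hπpos
        _ = P.valuation (ζ - 1) := one_mul _
    · have hgeom : (ζ ^ a - 1) - a * (ζ - 1) =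
          (ζ - 1) * ∑ j ∈ Finset.range a, (ζ ^ j - 1) := by
        have hg := geom_sum_mul ζ a
        rw [Finset.sum_sub_distrib, Finset.sum_const, Finset.card_range, nsmul_eq_mul, mul_one,
          ← hg]
        ring
      rw [hgeom, map_mul, map_mul, hwv, one_mul]
      have hs : P.valuation (∑ j ∈ Finset.range a, (ζ ^ j - 1)) < 1 := by
        refine Valuation.map_sum_lt _ one_ne_zero fun j _ => ?_
        exact lt_of_le_of_lt
          (Fermat.Agent.S14.H894.valuation_pow_sub_one_le P hp.ne_zero hζ.pow_eq_one j) hπ1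
      calc P.valuation (ζ - 1) * P.valuation (∑ j ∈ Finset.range a, (ζ ^ j - 1))
          < P.valuation (ζ - 1) * 1 := mul_lt_mul_of_pos_left hs hπpos
        _ = P.valuation (ζ - 1) := mul_one _
  -- combine: `(n - a) y ∈ π 𝔪`
  have h3 : P.valuation (((n : Qb) - (a : Qb)) * (f x - f 0)) < P.valuation (ζ - 1) := by
    have hsub : ((n : Qb) - (a : Qb)) * (f x - f 0) =
        (τ (f x - f 0) - (a : Qb) * (f x - f 0)) -
          (τ (f x - f 0) - (n : Qb) * (f x - f 0)) := by ring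
    rw [hsub]
    refine lt_of_le_of_lt (Valuation.map_sub _ _ _) (max_lt h2 (lt_of_le_of_lt h1 ?_))
    calc P.valuation (ζ - 1) ^ 2 = P.valuation (ζ - 1) * P.valuation (ζ - 1) := sq _
      _ < 1 * P.valuation (ζ - 1) := mul_lt_mul_of_pos_right hπ1 hπpos
      _ = P.valuation (ζ - 1) := one_mul _
  rw [map_mul, hyπ] at h3
  have h4 : P.valuation ((n : Qb) - (a : Qb)) < 1 := by
    by_contra hcon
    rw [not_lt] at hcon
    have h5 : P.valuation (ζ - 1) ≤ P.valuation ((n : Qb) - a) * P.valuation (ζ - 1) := by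
      calc P.valuation (ζ - 1) = 1 * P.valuation (ζ - 1) := (one_mul _).symm
        _ ≤ P.valuation ((n : Qb) - a) * P.valuation (ζ - 1) := by gcongr
    exact absurd h3 (not_lt.mpr h5)
  -- hence `p ∣ n - a`
  have h5 : (p : ℤ) ∣ (n : ℤ) - (a : ℤ) := by
    by_contra hcon
    have h6 := Fermat.Agent.S14.H894.valuation_intCast_eq_one P p hp hP ((n : ℤ) - a) hcon
    rw [Int.cast_sub, Int.cast_natCast, Int.cast_natCast] at h6
    rw [h6] at h4
    exact lt_irrefl _ h4
  -- conclude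
  rw [hn]
  have h6 : ((n : ℤ) - (a : ℤ)) • x = 0 := by
    obtain ⟨k, hk⟩ := h5
    rw [hk, mul_comm, mul_smul, natCast_zsmul, hM x, smul_zero]
  rw [sub_smul, natCast_zsmul, natCast_zsmul, sub_eq_zero] at h6
  exact h6

end FT

/-- **FLAT-O / FT**, from (UNR) and (A). -/
theorem flatTame_of (hU : UnrValStatement) (hA : LemmaAStatement) : FlatTameStatement := by
  intro p _ _ M _ _ act Λ hΛ hM P hP x hx0 hsc
  by_cases hx : ftRed P Λ x
  · right
    intro τ hτ a ha
    exact ft_case_two P hU hA hΛ hP hM hx0 hx hsc hτ ha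
  · left
    intro τ hτ
    obtain ⟨n, hn⟩ := hsc τ hτ
    exact ft_case_one P hΛ hP hM hx hτ hn

/-- **FLAT-O / FT.** -/
theorem flatTame : FlatTameStatement :=
  flatTame_of Fermat.Agent.S56.H66.unrVal lemmaA

end Fermat.Agent.S56.H486

end

end
-- ===== PACK-END S56/H486/FlatTame.lean

-- ===== PACK-BEGIN S56/RQ/RecipH14.lean
section





/-!
# Row S56 — REC-Q leaf RECIP: the plain reciprocity package from S55's `InvSpec` (helper14)

`plainRecip_of : (∀ p S, p ≠ 2 → pPrime p ∈ S → PT.InvSpec p S) → RQ.PlainRecipStatement`.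

Construction (`k` a finite field of characteristic `p`, `Sg` a finite set of primes, `p ∈ Sg`,
`S = primesOf Sg`, `inv₀ : PT.InvFamily p S` from `InvSpec`):

* places: `natPlace v = primeLocalPlace v` (the Prelude's place; `range (rl v) = D_v`);
* `Zloc v` = the `k`-space of plain 2-cochains `z` whose restriction `z ∘ (rl v × rl v)` is a
  level-constant 2-cocycle of `k(1)` on `G_v`;
* `Jloc v : Zloc v → k`, `z ↦ extInv (inv₀ v) [z ∘ (rl v × rl v)]` (`k`-linear);
* `inv v` := any `k`-linear extension of `Jloc v` to all 2-cochains (`LinearMap.exists_extend`).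

Nothing unproved in this file.
-/

set_option autoImplicit false

noncomputable section

namespace Fermat.Agent.S56.RQ.H14

open groupCohomology Fermat.Agent.S55.PT ExtCitation Fermat.Agent.S56.H14

/-! ### Sets of primes and places -/

/-- a finite set of natural numbers, as a finite set of primes -/
def primesOf (Sg : Finset ℕ) : Finset Nat.Primes := Sg.subtype Nat.Prime

lemma mem_primesOf {Sg : Finset ℕ} {q : Nat.Primes} : q ∈ primesOf Sg ↔ (q : ℕ) ∈ Sg :=
  Finset.mem_subtype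

/-- the Prelude's place over a prime number (junk otherwise) -/
def natPlace (v : ℕ) : ValuationSubring (AlgebraicClosure ℚ) :=
  if h : v.Prime then primeLocalPlace ⟨v, h⟩ else ⊤

lemma natPlace_coe (q : Nat.Primes) : natPlace (q : ℕ) = primeLocalPlace q := by
  unfold natPlace
  rw [dif_pos q.2]
  rfl

lemma natPlace_mk {v : ℕ} (hv : v.Prime) : natPlace v = primeLocalPlace ⟨v, hv⟩ :=
  natPlace_coe ⟨v, hv⟩

lemma natPlace_liesOver {v : ℕ} (hv : v.Prime) : (natPlace v).LiesOverPrime v := by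
  rw [natPlace_mk hv]
  exact Fermat.Agent.S55.BLocal.primeLocalPlace_liesOver ⟨v, hv⟩

/-! ### Restriction of plain 2-cochains to the local Galois group -/

section Loc

variable {p : ℕ} [Fact p.Prime] {K : Type} [Field K] [Algebra (ZMod p) K]

/-- restriction of a plain 2-cochain to `G_q` -/
def resLoc (q : Nat.Primes) (z : _root_.Fermat.Agent.S56.GQ × _root_.Fermat.Agent.S56.GQ → K) : Gl q × Gl q → K :=
  z ∘ Prod.map (rl q) (rl q)

lemma rl_mem (q : Nat.Primes) (s : Gl q) :
    rl q s ∈ (natPlace (q : ℕ)).decompositionSubgroup ℚ := by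
  rw [natPlace_coe]
  exact Fermat.Agent.S55.BLocal.primeLocalToGlobal_mem q s

lemma exists_rl_eq (q : Nat.Primes) (σ : _root_.Fermat.Agent.S56.GQ)
    (hσ : σ ∈ (natPlace (q : ℕ)).decompositionSubgroup ℚ) : ∃ s : Gl q, rl q s = σ := by
  rw [natPlace_coe] at hσ
  exact Fermat.Agent.S55.BLocal.exists_primeLocalToGlobal_eq q σ hσ

/-- `K(1)` restricted to `G_q` is uniformly smooth. -/
lemma isUSmooth_K1_loc (q : Nat.Primes) :
    (localLevels q).IsUSmooth (Rep.res (rl q) (K1 p K)) := by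
  refine ⟨_, ⟨Fermat.Agent.S55.Bridge.cycloLevel p,
    Fermat.Agent.S55.Bridge.cycloLevel_finiteDimensional p, rfl⟩, fun s hs a => ?_⟩
  have h1 : cycloChar p (rl q s) = 1 :=
    Fermat.Agent.S55.Bridge.cycloChar_eq_one_of_mem_fixingSubgroup p _ hs
  show (K1 p K).ρ (rl q s) a = a
  rw [twTriv_ρ_apply, h1, Units.val_one, one_smul]

/-- multiplication by `c ∈ K` is an equivariant endomorphism of `K(1)|_{G_q}` -/
lemma mulLeft_equivariant (q : Nat.Primes) (c : K) :
    IsEquivariant (A := Rep.res (rl q) (K1 p K)) (B := Rep.res (rl q) (K1 p K))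
      (LinearMap.mulLeft (ZMod p) c) :=
  (twTriv_isEquivariant (cycloChar p) K (LinearMap.mulLeft (ZMod p) c)).res (rl q)

variable (p K) in
/-- The plain 2-cochains whose restriction to `G_q` is a level-constant 2-cocycle of `K(1)`. -/
def Zloc (q : Nat.Primes) : Submodule K (_root_.Fermat.Agent.S56.GQ × _root_.Fermat.Agent.S56.GQ → K) where
  carrier := {z | resLoc q z ∈ (localLevels q).Z2 (Rep.res (rl q) (K1 p K))}
  add_mem' := by
    intro a b ha hb
    exact Submodule.add_mem ((localLevels q).Z2 (Rep.res (rl q) (K1 p K))) ha hb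
  zero_mem' := Submodule.zero_mem ((localLevels q).Z2 (Rep.res (rl q) (K1 p K)))
  smul_mem' := by
    intro c z hz
    exact push_mem_Z2 (A := Rep.res (rl q) (K1 p K)) (B := Rep.res (rl q) (K1 p K))
      (LinearMap.mulLeft (ZMod p) c) (mulLeft_equivariant q c) (localLevels q) hz

lemma mem_Zloc {q : Nat.Primes} {z : _root_.Fermat.Agent.S56.GQ × _root_.Fermat.Agent.S56.GQ → K} :
    z ∈ Zloc p K q ↔ resLoc q z ∈ (localLevels q).Z2 (Rep.res (rl q) (K1 p K)) := Iff.rfl

/-- the class in `H²(G_q, K(1))` of an element of `Zloc q` -/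
def clsLoc (q : Nat.Primes) (z : ↥(Zloc p K q)) :
    (localLevels q).H2 (Rep.res (rl q) (K1 p K)) :=
  (localLevels q).H2π _ ⟨resLoc q z.1, z.2⟩

lemma clsLoc_add (q : Nat.Primes) (z z' : ↥(Zloc p K q)) :
    clsLoc q (z + z') = clsLoc q z + clsLoc q z' := by
  unfold clsLoc
  rw [← map_add]
  rfl

lemma clsLoc_smul (q : Nat.Primes) (c : K) (z : ↥(Zloc p K q)) :
    clsLoc q (c • z) =
      pushH2 (A := Rep.res (rl q) (K1 p K)) (B := Rep.res (rl q) (K1 p K))
        (LinearMap.mulLeft (ZMod p) c) (mulLeft_equivariant q c) (localLevels q)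
        (clsLoc q z) := by
  unfold clsLoc
  rw [pushH2_mk]
  congr 1

/-- A cochain which is a cocycle and level-constant on `D_q` lies in `Zloc q`. -/
lemma mem_Zloc_of_isCoc (q : Nat.Primes) {z : _root_.Fermat.Agent.S56.GQ × _root_.Fermat.Agent.S56.GQ → K}
    (hc : IsCoc₂On p ((natPlace (q : ℕ)).decompositionSubgroup ℚ) z)
    (hl : IsLC₂On ((natPlace (q : ℕ)).decompositionSubgroup ℚ) z) : z ∈ Zloc p K q := by
  rw [mem_Zloc]
  refine ⟨?_, ?_⟩
  · show resLoc q z ∈ cocycles₂ (Rep.res (rl q) (K1 p K))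
    rw [mem_cocycles₂_def]
    intro g h j
    obtain ⟨a, ha⟩ := exists_cycExp_invRec (p := p) (rl q g)
    rw [K1_ρ_rl_apply ha]
    have h1 := hc _ (rl_mem q g) _ (rl_mem q h) _ (rl_mem q j) a ha
    show (a : K) * z (rl q h, rl q j) - z (rl q (g * h), rl q j) + z (rl q g, rl q (h * j))
      - z (rl q g, rl q h) = 0
    rw [map_mul, map_mul]
    linear_combination h1
  · obtain ⟨L, hL, hlev⟩ := hl
    refine ⟨_, ⟨L, hL, rfl⟩, fun g g' s s' hs hs' => ?_⟩
    show z (rl q (g * s), rl q (g' * s')) = z (rl q g, rl q g')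
    rw [map_mul, map_mul]
    exact hlev _ (rl_mem q g) _ (rl_mem q g') _ (rl_mem q s) _ (rl_mem q s')
      ((IntermediateField.mem_fixingSubgroup_iff _ _).1 hs)
      ((IntermediateField.mem_fixingSubgroup_iff _ _).1 hs')

/-- The restriction to `G_q` of a local coboundary is a coboundary of a level-constant cochain. -/
lemma resLoc_mem_B2_of_isCob (q : Nat.Primes) {z : _root_.Fermat.Agent.S56.GQ × _root_.Fermat.Agent.S56.GQ → K}
    (h : IsCob₂On p ((natPlace (q : ℕ)).decompositionSubgroup ℚ) z) :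
    resLoc q z ∈ (localLevels q).B2 (Rep.res (rl q) (K1 p K)) := by
  obtain ⟨lam, ⟨L, hL, hlev⟩, hcob⟩ := h
  refine ⟨fun s => lam (rl q s), ?_, ?_⟩
  · refine ⟨_, ⟨L, hL, rfl⟩, fun g s hs => ?_⟩
    show lam (rl q (g * s)) = lam (rl q g)
    rw [map_mul]
    exact hlev _ (rl_mem q g) _ (rl_mem q s) ((IntermediateField.mem_fixingSubgroup_iff _ _).1 hs)
  · funext ⟨g, h⟩
    obtain ⟨a, ha⟩ := exists_cycExp_invRec (p := p) (rl q g)
    have h1 := hcob _ (rl_mem q g) _ (rl_mem q h) a ha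
    have hd : (d₁₂ (Rep.res (rl q) (K1 p K))).hom (fun s => lam (rl q s)) (g, h)
        = (Rep.res (rl q) (K1 p K)).ρ g (lam (rl q h)) - lam (rl q (g * h))
          + lam (rl q g) := rfl
    rw [hd, K1_ρ_rl_apply ha, map_mul]
    exact h1.symm

lemma mem_Zloc_of_isCob (q : Nat.Primes) {z : _root_.Fermat.Agent.S56.GQ × _root_.Fermat.Agent.S56.GQ → K}
    (h : IsCob₂On p ((natPlace (q : ℕ)).decompositionSubgroup ℚ) z) : z ∈ Zloc p K q :=
  LevelSys.B2_le_Z2 (localLevels q) (H723.pullbackLevels_normalCofinal (rl q))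
    (isUSmooth_K1_loc q) (resLoc_mem_B2_of_isCob q h)

lemma clsLoc_eq_zero_of_isCob (q : Nat.Primes) {z : _root_.Fermat.Agent.S56.GQ × _root_.Fermat.Agent.S56.GQ → K}
    (h : IsCob₂On p ((natPlace (q : ℕ)).decompositionSubgroup ℚ) z) :
    clsLoc q ⟨z, mem_Zloc_of_isCob q h⟩ = 0 := by
  unfold clsLoc
  rw [LevelSys.H2π_eq_zero_iff]
  exact resLoc_mem_B2_of_isCob q h

/-- A cochain of `Zloc q` with trivial class is a coboundary on `D_q`. -/
lemma isCob_of_clsLoc_eq_zero (q : Nat.Primes) (z : ↥(Zloc p K q)) (h : clsLoc q z = 0) :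
    IsCob₂On p ((natPlace (q : ℕ)).decompositionSubgroup ℚ) z.1 := by
  unfold clsLoc at h
  rw [LevelSys.H2π_eq_zero_iff] at h
  obtain ⟨x, ⟨U, ⟨F, hF, rfl⟩, hxU⟩, hdx⟩ := h
  classical
  have hker : ∀ s s' : Gl q, rl q s = rl q s' → x s = x s' := by
    intro s s' hss
    have hmem : s⁻¹ * s' ∈ (F.fixingSubgroup).comap (rl q) := by
      rw [Subgroup.mem_comap, map_mul, map_inv, hss, inv_mul_cancel]
      exact Subgroup.one_mem _
    have := hxU s (s⁻¹ * s') hmem
    rw [mul_inv_cancel_left] at this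
    exact this.symm
  let lam : _root_.Fermat.Agent.S56.GQ → K := fun σ => if hσ : ∃ s : Gl q, rl q s = σ then x hσ.choose else 0
  have hlam : ∀ s : Gl q, lam (rl q s) = x s := by
    intro s
    have hσ : ∃ s' : Gl q, rl q s' = rl q s := ⟨s, rfl⟩
    show (if hσ : ∃ s' : Gl q, rl q s' = rl q s then x hσ.choose else 0) = x s
    rw [dif_pos hσ]
    exact hker _ _ hσ.choose_spec
  refine ⟨lam, ⟨F, hF, ?_⟩, ?_⟩
  · intro σ hσ τ hτ hτF
    obtain ⟨s, rfl⟩ := exists_rl_eq q σ hσ
    obtain ⟨t, rfl⟩ := exists_rl_eq q τ hτ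
    rw [← map_mul, hlam, hlam]
    exact hxU s t ((IntermediateField.mem_fixingSubgroup_iff _ _).2 hτF)
  · intro σ hσ τ hτ a ha
    obtain ⟨s, rfl⟩ := exists_rl_eq q σ hσ
    obtain ⟨t, rfl⟩ := exists_rl_eq q τ hτ
    have h1 := congrFun hdx (s, t)
    have hd : (d₁₂ (Rep.res (rl q) (K1 p K))).hom x (s, t)
        = (Rep.res (rl q) (K1 p K)).ρ s (x t) - x (s * t) + x s := rfl
    rw [hd, K1_ρ_rl_apply ha] at h1
    rw [← map_mul, hlam, hlam, hlam]
    exact h1.symm

/-! ### The local invariant on `Zloc` -/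

variable {S : Finset Nat.Primes} [FiniteDimensional (ZMod p) K]

/-- the `K`-linear invariant on `Zloc v` -/
def Jloc (inv : InvFamily p S) (v : ↥S) : ↥(Zloc p K v.1) →ₗ[K] K where
  toFun z := extInvLoc inv v (clsLoc v.1 z)
  map_add' z z' := by rw [clsLoc_add, map_add]
  map_smul' c z := by
    rw [clsLoc_smul, RingHom.id_apply, smul_eq_mul]
    have h := extInv_pushH2_endo (W := K) (localLevels v.1) ((cycloChar p).comp (rl v.1))
      (inv v) (LinearMap.mulLeft (ZMod p) c) (clsLoc v.1 z)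
    rw [LinearMap.mulLeft_apply] at h
    exact h

lemma Jloc_apply (inv : InvFamily p S) (v : ↥S) (z : ↥(Zloc p K v.1)) :
    Jloc inv v z = extInvLoc inv v (clsLoc v.1 z) := rfl

/-- a `K`-linear extension of `Jloc` to all plain 2-cochains -/
def invExt (inv : InvFamily p S) (v : ↥S) : (_root_.Fermat.Agent.S56.GQ × _root_.Fermat.Agent.S56.GQ → K) →ₗ[K] K :=
  Classical.choose (LinearMap.exists_extend (Jloc (K := K) inv v))

lemma invExt_apply (inv : InvFamily p S) (v : ↥S) {z : _root_.Fermat.Agent.S56.GQ × _root_.Fermat.Agent.S56.GQ → K}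
    (hz : z ∈ Zloc p K v.1) : invExt inv v z = extInvLoc inv v (clsLoc v.1 ⟨z, hz⟩) := by
  have h := Classical.choose_spec (LinearMap.exists_extend (Jloc (K := K) inv v))
  have h2 := LinearMap.congr_fun h ⟨z, hz⟩
  exact h2

/-- (cob) -/
theorem invExt_eq_zero_of_isCob (inv : InvFamily p S) (v : ↥S) {z : _root_.Fermat.Agent.S56.GQ × _root_.Fermat.Agent.S56.GQ → K}
    (h : IsCob₂On p ((natPlace ((v.1 : Nat.Primes) : ℕ)).decompositionSubgroup ℚ) z) :
    invExt inv v z = 0 := by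
  rw [invExt_apply inv v (mem_Zloc_of_isCob v.1 h), clsLoc_eq_zero_of_isCob v.1 h, map_zero]

/-- (inj) -/
theorem isCob_of_invExt_eq_zero {inv : InvFamily p S} (htop : TopLocIndSpec inv) (v : ↥S)
    (hvp : ((v.1 : Nat.Primes) : ℕ) ≠ p) (hdvd : p ∣ ((v.1 : Nat.Primes) : ℕ) - 1)
    {z : _root_.Fermat.Agent.S56.GQ × _root_.Fermat.Agent.S56.GQ → K}
    (hc : IsCoc₂On p ((natPlace ((v.1 : Nat.Primes) : ℕ)).decompositionSubgroup ℚ) z)
    (hl : IsLC₂On ((natPlace ((v.1 : Nat.Primes) : ℕ)).decompositionSubgroup ℚ) z)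
    (h0 : invExt inv v z = 0) :
    IsCob₂On p ((natPlace ((v.1 : Nat.Primes) : ℕ)).decompositionSubgroup ℚ) z := by
  have hz : z ∈ Zloc p K v.1 := mem_Zloc_of_isCoc v.1 hc hl
  rw [invExt_apply inv v hz] at h0
  have hinj : Function.Injective (inv v) := (inv_bijective_of_dvd_sub_one htop v hvp hdvd).1
  have h1 : extInv (W := K) (localLevels v.1) ((cycloChar p).comp (rl v.1)) (inv v)
      (clsLoc v.1 ⟨z, hz⟩) = 0 := h0
  have h2 := (extInv_eq_zero_iff (W := K) (localLevels v.1) ((cycloChar p).comp (rl v.1))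
    (inv := inv v) hinj (clsLoc v.1 ⟨z, hz⟩)).1 h1
  exact isCob_of_clsLoc_eq_zero v.1 ⟨z, hz⟩ h2

end Loc

/-! ### Global cocycles and reciprocity -/

section Glob

variable {p : ℕ} [Fact p.Prime] {K : Type} [Field K] [Algebra (ZMod p) K]

omit [Fact p.Prime] [Algebra (ZMod p) K] in
/-- A global plain 2-cocycle (`IsGlobZ`) is good in the sense of `H14/InvRec.lean`. -/
lemma isGood2_of_isGlobZ {Sg : Finset ℕ} {z : _root_.Fermat.Agent.S56.GQ × _root_.Fermat.Agent.S56.GQ → K} (hz : IsGlobZ p Sg z) :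
    IsGood2 p (primesOf Sg) z := by
  obtain ⟨hc, L, hL, hur, hlev⟩ := hz
  refine ⟨fun σ τ υ a ha => ?_, ⟨L, ⟨hL, fun q hq A hA s hs => ?_⟩, fun g g' s s' hs hs' => ?_⟩⟩
  · have h1 := hc σ (Subgroup.mem_top _) τ (Subgroup.mem_top _) υ (Subgroup.mem_top _) a ha
    linear_combination h1
  · rw [IntermediateField.mem_fixingSubgroup_iff]
    exact hur q q.2 (fun h => hq (mem_primesOf.2 h)) A hA s hs
  · exact hlev g g' s s' ((IntermediateField.mem_fixingSubgroup_iff _ _).1 hs)
      ((IntermediateField.mem_fixingSubgroup_iff _ _).1 hs')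

variable [FiniteDimensional (ZMod p) K]

/-- (recip) in terms of `invExt`. -/
theorem sum_invExt_eq_zero {Sg : Finset ℕ} {inv : InvFamily p (primesOf Sg)}
    (hrec : RecipSpec inv) {z : _root_.Fermat.Agent.S56.GQ × _root_.Fermat.Agent.S56.GQ → K} (hz : IsGlobZ p Sg z) :
    ∑ v : ↥(primesOf Sg), invExt inv v z = 0 := by
  have hg := isGood2_of_isGlobZ hz
  rw [← sum_invH_eq_zero hrec (cls2 hg)]
  refine Finset.sum_congr rfl fun v _ => ?_
  have hmem : z ∈ Zloc p K v.1 :=
    res_mem_Z2 (hrl (primesOf Sg) v) (K1 p K) (mem_Z2_of_isGood2 hg)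
  rw [invExt_apply inv v hmem]
  rfl

end Glob

/-! ### The statement -/

/-- **RECIP**: the plain reciprocity package, from S55's `InvSpec`. -/
theorem plainRecip_of
    (hS55 : ∀ (p : ℕ) [Fact p.Prime] (S : Finset Nat.Primes), p ≠ 2 → pPrime p ∈ S →
      InvSpec p S) : PlainRecipStatement := by
  intro K _ _ p _ hp hp2 Sg hpSg hSg
  have : Fact p.Prime := ⟨hp⟩
  let _ : Algebra (ZMod p) K := ZMod.algebra K p
  have : FiniteDimensional (ZMod p) K := Module.Finite.of_finite
  have hpS : pPrime p ∈ primesOf Sg := mem_primesOf.2 hpSg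
  obtain ⟨inv, hrec, htop, -⟩ := hS55 p (primesOf Sg) hp2 hpS
  classical
  -- the index of a prime of `Sg` in `primesOf Sg`
  let idx : ∀ v : ℕ, v ∈ Sg → ↥(primesOf Sg) :=
    fun v hv => ⟨⟨v, hSg v hv⟩, mem_primesOf.2 hv⟩
  let invN : ℕ → (_root_.Fermat.Agent.S56.GQ × _root_.Fermat.Agent.S56.GQ → K) →ₗ[K] K :=
    fun v => if hv : v ∈ Sg then invExt inv (idx v hv) else 0
  have hinvN : ∀ (v : ℕ) (hv : v ∈ Sg), invN v = invExt inv (idx v hv) := by
    intro v hv
    show (if hv : v ∈ Sg then invExt inv (idx v hv) else 0) = _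
    rw [dif_pos hv]
  refine ⟨natPlace, invN, fun v hv => natPlace_liesOver (hSg v hv), ?_, ?_, ?_⟩
  · intro v hv z hz
    rw [hinvN v hv]
    exact invExt_eq_zero_of_isCob inv (idx v hv) hz
  · intro v hv hdvd z hc hl h0
    rw [hinvN v hv] at h0
    have hvp : v ≠ p := by
      rintro rfl
      have h1 : v ≤ v - 1 := Nat.le_of_dvd (Nat.sub_pos_of_lt hp.one_lt) hdvd
      have h2 := hp.pos
      omega
    exact isCob_of_invExt_eq_zero htop (idx v hv) hvp hdvd hc hl h0
  · intro z hz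
    have h1 := sum_invExt_eq_zero hrec hz
    have h2 : ∑ v ∈ Sg, invN v z = ∑ q ∈ primesOf Sg, invN (q : ℕ) z :=
      (Finset.sum_subtype_of_mem (fun v => invN v z) hSg).symm
    rw [h2, ← Finset.sum_coe_sort (primesOf Sg) (fun q => invN (q : ℕ) z), ← h1]
    refine Finset.sum_congr rfl fun w _ => ?_
    have hw : ((w.1 : Nat.Primes) : ℕ) ∈ Sg := mem_primesOf.1 w.2
    have hidx : idx _ hw = w := Subtype.ext (Subtype.ext rfl)
    rw [hinvN _ hw, hidx]

end Fermat.Agent.S56.RQ.H14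

end

end
-- ===== PACK-END S56/RQ/RecipH14.lean

-- ===== PACK-BEGIN S56/RQ/UrCupH475.lean
section






/-!
# Row S56 — REC-Q, leaf URCUP (helper475)

`urCup : UrCupStatement` (unconditional) and
`urCup_of : GenStatement → LineStatement → CobCupStatement → UrCupStatement`: at a Taylor–Wiles
prime `q`, `P | q`, the cup product of an ad-cocycle `c` and a twisted cocycle `y`, both
vanishing on the inertia group `I_P`, is a coboundary of `k(1)` on the decomposition group `D_P`.

Proof.  `φ` a Frobenius element at `P`; LINE gives `h` (trace zero, `tr h² ≠ 0`, commuting with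
`ρ̄ φ`) and `c φ = α h + (φ m φ⁻¹ − m)`.  Put `d = ∂m` and `c₁ = c − d`: `cup d y` is a coboundary
by COBCUP, and `c₁` is an ad-cocycle vanishing on `I_P` with `c₁ φ = α h`.  By GEN every
`σ ∈ D_P` agrees with some `φ ^ n * τ`, `τ ∈ I_P`, on any given finite level; hence
`c₁ σ = n α h`, `tr (h · y σ) = n tr (h · y φ)`, `ρ̄ σ` commutes with `h`, and `σ` fixes `μ_p`.
So on `D_P`: `cup c₁ y (σ, τ) = χ σ · ψ τ` with `χ = tr (h c₁) / tr h²`, `ψ = tr (h y)` both
additive and proportional, and `χ σ ψ τ = dλ`, `λ = − χ ψ / 2` (`p` odd).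
-/

set_option autoImplicit false
set_option linter.style.haveILetI false

open Polynomial IsLocalRing

noncomputable section

namespace Fermat.Agent.S56.RQ.H475

open Fermat.Agent.S56 Fermat.Agent.S56.H716 Fermat.Agent.S56.RQ

section Core

variable {k : Type} [Field k] {ρbar : ResidualGaloisRep k} {p : ℕ}

theorem adCocycle_one {c : GQ → Module.End k ρbar.V} (hc : IsAdCocycle ρbar c) : c 1 = 0 := by
  have h := hc.map_mul 1 1
  simp only [mul_one, map_one, inv_one, one_mul] at h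
  exact left_eq_add.mp h

/-- An ad-cocycle takes the same value on elements agreeing on its level. -/
theorem adCocycle_eq_of_agree {c : GQ → Module.End k ρbar.V} (hc : IsAdCocycle ρbar c) :
    ∃ L : IntermediateField ℚ Qb, FiniteDimensional ℚ L ∧
      ∀ σ τ : GQ, (∀ x ∈ L, σ x = τ x) → c σ = c τ := by
  obtain ⟨L, hL, h⟩ := hc.level
  refine ⟨L, hL, fun σ τ hστ => ?_⟩
  have h1 := h τ (τ⁻¹ * σ) (fun x hx => by
    rw [AlgEquiv.mul_apply, hστ x hx]
    exact τ.symm_apply_apply x)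
  rwa [mul_inv_cancel_left] at h1

/-- `ρ̄` takes the same value on elements agreeing on its level. -/
theorem rho_eq_of_agree (ρbar : ResidualGaloisRep k) :
    ∃ L : IntermediateField ℚ Qb, FiniteDimensional ℚ L ∧
      ∀ σ τ : GQ, (∀ x ∈ L, σ x = τ x) → ρbar.ρ σ = ρbar.ρ τ := by
  obtain ⟨L, hL, h⟩ := ρbar.factorsThroughFiniteLevel
  refine ⟨L, hL, fun σ τ hστ => ?_⟩
  have h1 : ρbar.ρ (τ⁻¹ * σ) = 1 := h (τ⁻¹ * σ) (fun x hx => by
    rw [AlgEquiv.mul_apply, hστ x hx]
    exact τ.symm_apply_apply x)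
  calc ρbar.ρ σ = ρbar.ρ (τ * (τ⁻¹ * σ)) := by rw [mul_inv_cancel_left]
    _ = ρbar.ρ τ := by rw [map_mul, h1, mul_one]

/-- If `ρ̄ σ` commutes with `h` then `σ h σ⁻¹ = h`. -/
theorem conj_eq_of_commute {σ : GQ} {h : Module.End k ρbar.V}
    (hσ : ρbar.ρ σ * h = h * ρbar.ρ σ) : ρbar.ρ σ * h * ρbar.ρ σ⁻¹ = h := by
  rw [hσ, mul_assoc, rho_mul_inv, mul_one]

/-- If `ρ̄ σ` commutes with `h` then `tr (h · σ x σ⁻¹) = tr (h · x)`. -/
theorem trace_mul_conj_of_commute {σ : GQ} {h : Module.End k ρbar.V}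
    (hσ : ρbar.ρ σ * h = h * ρbar.ρ σ) (x : Module.End k ρbar.V) :
    LinearMap.trace k ρbar.V (h * (ρbar.ρ σ * x * ρbar.ρ σ⁻¹)) =
      LinearMap.trace k ρbar.V (h * x) := by
  have h1 : h * (ρbar.ρ σ * x * ρbar.ρ σ⁻¹) = ρbar.ρ σ * (h * x) * ρbar.ρ σ⁻¹ := by
    calc h * (ρbar.ρ σ * x * ρbar.ρ σ⁻¹) = (h * ρbar.ρ σ) * x * ρbar.ρ σ⁻¹ := by
          simp only [mul_assoc]
      _ = ρbar.ρ σ * (h * x) * ρbar.ρ σ⁻¹ := by rw [← hσ]; simp only [mul_assoc]
  rw [h1, trace_conj]

theorem rho_pow_commute {φ : GQ} {h : Module.End k ρbar.V}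
    (hφ : ρbar.ρ φ * h = h * ρbar.ρ φ) (n : ℕ) :
    ρbar.ρ (φ ^ n) * h = h * ρbar.ρ (φ ^ n) := by
  rw [map_pow]
  exact ((show Commute (ρbar.ρ φ) h from hφ).pow_left n).eq

theorem isCycExp_one_pow {φ : GQ} (hφ1 : IsCycExp p φ 1) (n : ℕ) : IsCycExp p (φ ^ n) 1 := by
  intro μ hμ
  rw [pow_one]
  have := hφ1 μ hμ
  rw [pow_one] at this
  exact H536.pow_apply_eq_of_apply_eq φ this n

/-- Values of an ad-cocycle on the powers of `φ`, when `c φ` is a multiple of `h` commuting with
`ρ̄ φ`. -/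
theorem adCocycle_pow {c : GQ → Module.End k ρbar.V} (hc : IsAdCocycle ρbar c) {φ : GQ}
    {h : Module.End k ρbar.V} (hφ : ρbar.ρ φ * h = h * ρbar.ρ φ) {α : k} (hcφ : c φ = α • h)
    (n : ℕ) : c (φ ^ n) = ((n : k) * α) • h := by
  induction n with
  | zero => rw [pow_zero, adCocycle_one hc, Nat.cast_zero, zero_mul, zero_smul]
  | succ n ih =>
    rw [pow_succ, hc.map_mul, ih, hcφ, mul_smul_comm, smul_mul_assoc,
      conj_eq_of_commute (rho_pow_commute hφ n), ← add_smul, Nat.cast_succ, add_mul, one_mul]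

/-- Values of `tr (h · y)` on the powers of `φ`. -/
theorem twCocycle_trace_pow {y : GQ → Module.End k ρbar.V} (hy : IsTwCocycle ρbar p y) {φ : GQ}
    (hφ1 : IsCycExp p φ 1) {h : Module.End k ρbar.V} (hφ : ρbar.ρ φ * h = h * ρbar.ρ φ)
    (n : ℕ) : LinearMap.trace k ρbar.V (h * y (φ ^ n)) =
      (n : k) * LinearMap.trace k ρbar.V (h * y φ) := by
  induction n with
  | zero => rw [pow_zero, H536.cocycle_one hy, mul_zero, map_zero, Nat.cast_zero, zero_mul]
  | succ n ih =>
    rw [pow_succ, hy.map_mul (φ ^ n) φ 1 (isCycExp_one_pow hφ1 n), H554.twAd_one, mul_add,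
      map_add, ih, trace_mul_conj_of_commute (rho_pow_commute hφ n), Nat.cast_succ, add_mul,
      one_mul]

/-- **URCUP, core.**  `D` is generated modulo every finite level by `φ` and `I`, which fix `μ_p`;
`ρ̄` is trivial on `I`; `h` commutes with `ρ̄ φ` and `tr h² ≠ 0`; `c`, `y` vanish on `I` and
`c φ = α h`.  Then `cup c y` is a coboundary on `D`. -/
theorem urCup_core [CharP k p] (hp : p.Prime) (hp2 : p ≠ 2) {D I : Subgroup GQ} {φ : GQ}
    (hφ1 : IsCycExp p φ 1) (hI1 : ∀ τ ∈ I, IsCycExp p τ 1)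
    (hur : ∀ τ ∈ I, ρbar.ρ τ = 1)
    (hgen : ∀ L : IntermediateField ℚ Qb, FiniteDimensional ℚ L →
      ∀ σ ∈ D, ∃ n : ℕ, ∃ τ ∈ I, ∀ x ∈ L, σ x = (φ ^ n * τ) x)
    {h : Module.End k ρbar.V} (hcomm : ρbar.ρ φ * h = h * ρbar.ρ φ)
    (ht : LinearMap.trace k ρbar.V (h * h) ≠ 0)
    {c y : GQ → Module.End k ρbar.V} (hc : IsAdCocycle ρbar c) (hy : IsTwCocycle ρbar p y)
    (hcI : ∀ τ ∈ I, c τ = 0) (hyI : ∀ τ ∈ I, y τ = 0) {α : k} (hcφ : c φ = α • h) :
    IsCob₂On p D (cup ρbar c y) := by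
  haveI : NeZero p := ⟨hp.ne_zero⟩
  set t : k := LinearMap.trace k ρbar.V (h * h) with ht_def
  set ψφ : k := LinearMap.trace k ρbar.V (h * y φ) with hψφ_def
  obtain ⟨Lc, hLc, hcL⟩ := adCocycle_eq_of_agree hc
  obtain ⟨Ly, hLy, hyL⟩ := H536.cocycle_eq_of_agree hy
  obtain ⟨Lρ, hLρ, hρL⟩ := rho_eq_of_agree ρbar
  obtain ⟨Lc', hLc', hcL'⟩ := hc.level
  obtain ⟨Ly', hLy', hyL'⟩ := hy.level
  haveI := hLc
  haveI := hLy
  haveI := hLρ
  haveI := hLc'
  haveI := hLy'
  haveI : FiniteDimensional ℚ ↥(Lc ⊔ Ly) := IntermediateField.finiteDimensional_sup Lc Ly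
  haveI : FiniteDimensional ℚ ↥(Lc ⊔ Ly ⊔ Lρ) :=
    IntermediateField.finiteDimensional_sup (Lc ⊔ Ly) Lρ
  have hLfin : FiniteDimensional ℚ ↥(Lc ⊔ Ly ⊔ Lρ ⊔ Fermat.Agent.S55.H414.cycloLevel p) :=
    IntermediateField.finiteDimensional_sup (Lc ⊔ Ly ⊔ Lρ) (Fermat.Agent.S55.H414.cycloLevel p)
  have hLc_le : Lc ≤ Lc ⊔ Ly ⊔ Lρ ⊔ Fermat.Agent.S55.H414.cycloLevel p :=
    le_sup_left.trans (le_sup_left.trans le_sup_left)
  have hLy_le : Ly ≤ Lc ⊔ Ly ⊔ Lρ ⊔ Fermat.Agent.S55.H414.cycloLevel p :=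
    le_sup_right.trans (le_sup_left.trans le_sup_left)
  have hLρ_le : Lρ ≤ Lc ⊔ Ly ⊔ Lρ ⊔ Fermat.Agent.S55.H414.cycloLevel p :=
    le_sup_right.trans le_sup_left
  have hLμ_le : Fermat.Agent.S55.H414.cycloLevel p ≤
      Lc ⊔ Ly ⊔ Lρ ⊔ Fermat.Agent.S55.H414.cycloLevel p := le_sup_right
  -- the key facts on `D`
  have key : ∀ σ ∈ D, ∃ n : ℕ, c σ = ((n : k) * α) • h ∧
      LinearMap.trace k ρbar.V (h * y σ) = (n : k) * ψφ ∧
      ρbar.ρ σ * h = h * ρbar.ρ σ ∧ IsCycExp p σ 1 := by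
    intro σ hσ
    obtain ⟨n, τ, hτ, hστ⟩ := hgen _ hLfin σ hσ
    have hφn1 : IsCycExp p (φ ^ n) 1 := isCycExp_one_pow hφ1 n
    refine ⟨n, ?_, ?_, ?_, ?_⟩
    · rw [hcL σ (φ ^ n * τ) (fun x hx => hστ x (hLc_le hx)), hc.map_mul, hcI τ hτ, mul_zero,
        zero_mul, add_zero, adCocycle_pow hc hcomm hcφ n]
    · rw [hyL σ (φ ^ n * τ) (fun x hx => hστ x (hLy_le hx)), hy.map_mul (φ ^ n) τ 1 hφn1,
        hyI τ hτ]
      simp only [twAd, mul_zero, zero_mul, smul_zero, add_zero]
      exact twCocycle_trace_pow hy hφ1 hcomm n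
    · rw [hρL σ (φ ^ n * τ) (fun x hx => hστ x (hLρ_le hx)), map_mul, hur τ hτ, mul_one]
      exact rho_pow_commute hcomm n
    · intro μ hμ
      rw [pow_one, hστ μ (hLμ_le (H536.mem_cycloLevel_of_pow_eq_one p hμ))]
      show (φ ^ n) (τ μ) = μ
      have h1 := hI1 τ hτ μ hμ
      rw [pow_one] at h1
      rw [h1]
      have h2 := hφn1 μ hμ
      rwa [pow_one] at h2
  have h2ne : (2 : k) ≠ 0 := by
    intro h2
    have h3 : ((2 : ℕ) : k) = 0 := by exact_mod_cast h2
    rw [CharP.cast_eq_zero_iff k p] at h3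
    exact hp2 ((Nat.prime_dvd_prime_iff_eq hp Nat.prime_two).1 h3)
  haveI : FiniteDimensional ℚ ↥(Lc' ⊔ Ly') := IntermediateField.finiteDimensional_sup Lc' Ly'
  refine ⟨fun σ => -((2 : k)⁻¹ * (LinearMap.trace k ρbar.V (h * c σ) / t *
      LinearMap.trace k ρbar.V (h * y σ))), ⟨Lc' ⊔ Ly', inferInstance, ?_⟩, ?_⟩
  · intro σ _ s _ hs
    simp only
    rw [hcL' σ s (fun x hx => hs x ((le_sup_left : Lc' ≤ Lc' ⊔ Ly') hx)),
      hyL' σ s (fun x hx => hs x ((le_sup_right : Ly' ≤ Lc' ⊔ Ly') hx))]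
  · intro σ hσ τ hτ a ha
    obtain ⟨n, hcσ, hyσ, hσh, hσ1⟩ := key σ hσ
    obtain ⟨n', hcτ, hyτ, -, -⟩ := key τ hτ
    have ha1 : (a : k) = 1 := H514.natCast_eq_one_of_isCycExp hp ha hσ1
    -- the values at `σ * τ`
    have hcστ : c (σ * τ) = (((n : k) + n') * α) • h := by
      rw [hc.map_mul, hcσ, hcτ, mul_smul_comm, smul_mul_assoc, conj_eq_of_commute hσh,
        ← add_smul, add_mul]
    have hyστ : LinearMap.trace k ρbar.V (h * y (σ * τ)) = ((n : k) + n') * ψφ := by
      rw [hy.map_mul σ τ 1 hσ1, H554.twAd_one, mul_add, map_add, hyσ,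
        trace_mul_conj_of_commute hσh, hyτ, add_mul]
    have hcup : cup ρbar c y (σ, τ) = (n : k) * α * ((n' : k) * ψφ) := by
      rw [cup_apply_of_exp ρbar hy c σ τ 1 hσ1, Nat.cast_one, one_mul, hcσ, smul_mul_assoc,
        map_smul, smul_eq_mul, trace_mul_conj_of_commute hσh, hyτ]
    simp only
    rw [hcup, ha1, hcσ, hcτ, hcστ, hyσ, hyτ, hyστ]
    simp only [mul_smul_comm, map_smul, smul_eq_mul]
    rw [← ht_def]
    field_simp
    ring


/-- The ad-coboundary `∂m : σ ↦ σ m σ⁻¹ − m` is an ad-cocycle. -/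
theorem isAdCocycle_cob (ρbar : ResidualGaloisRep k) (m : Module.End k ρbar.V) :
    IsAdCocycle ρbar (fun σ => ρbar.ρ σ * m * ρbar.ρ σ⁻¹ - m) := by
  refine ⟨fun σ => ?_, fun σ τ => ?_, ?_⟩
  · rw [map_sub, trace_conj, sub_self]
  · rw [mul_inv_rev, map_mul, map_mul]
    simp only [mul_sub, sub_mul, mul_assoc]
    abel
  · obtain ⟨L, hL, hρL⟩ := rho_eq_of_agree ρbar
    refine ⟨L, hL, fun σ τ hτ => ?_⟩
    have h1 : ρbar.ρ (σ * τ) = ρbar.ρ σ := hρL (σ * τ) σ (fun x hx => by
      rw [AlgEquiv.mul_apply, hτ x hx])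
    rw [H514.rho_inv_eq_of_rho_eq h1, h1]

/-- The difference of two ad-cocycles is an ad-cocycle. -/
theorem isAdCocycle_sub {c d : GQ → Module.End k ρbar.V} (hc : IsAdCocycle ρbar c)
    (hd : IsAdCocycle ρbar d) : IsAdCocycle ρbar (c - d) := by
  refine ⟨fun σ => ?_, fun σ τ => ?_, ?_⟩
  · rw [Pi.sub_apply, map_sub, hc.trace_eq_zero, hd.trace_eq_zero, sub_zero]
  · simp only [Pi.sub_apply]
    rw [hc.map_mul, hd.map_mul, mul_sub, sub_mul]
    abel
  · obtain ⟨L, hL, hcL⟩ := hc.level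
    obtain ⟨L', hL', hdL⟩ := hd.level
    haveI := hL
    haveI := hL'
    refine ⟨L ⊔ L', IntermediateField.finiteDimensional_sup L L', fun σ τ hτ => ?_⟩
    simp only [Pi.sub_apply]
    rw [hcL σ τ (fun x hx => hτ x ((le_sup_left : L ≤ L ⊔ L') hx)),
      hdL σ τ (fun x hx => hτ x ((le_sup_right : L' ≤ L ⊔ L') hx))]

/-- A sum of two coboundaries of `k(1)` on `H` is a coboundary on `H`. -/
theorem isCob₂On_add {H : Subgroup GQ} {z₁ z₂ z : GQ × GQ → k} (h₁ : IsCob₂On p H z₁)
    (h₂ : IsCob₂On p H z₂) (hz : ∀ σ ∈ H, ∀ τ ∈ H, z (σ, τ) = z₁ (σ, τ) + z₂ (σ, τ)) :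
    IsCob₂On p H z := by
  obtain ⟨l₁, ⟨L₁, hL₁, hl₁⟩, hd₁⟩ := h₁
  obtain ⟨l₂, ⟨L₂, hL₂, hl₂⟩, hd₂⟩ := h₂
  haveI := hL₁
  haveI := hL₂
  refine ⟨fun σ => l₁ σ + l₂ σ,
    ⟨L₁ ⊔ L₂, IntermediateField.finiteDimensional_sup L₁ L₂, fun σ hσ s hs hfix => ?_⟩,
    fun σ hσ τ hτ a ha => ?_⟩
  · simp only
    rw [hl₁ σ hσ s hs (fun x hx => hfix x ((le_sup_left : L₁ ≤ L₁ ⊔ L₂) hx)),
      hl₂ σ hσ s hs (fun x hx => hfix x ((le_sup_right : L₂ ≤ L₁ ⊔ L₂) hx))]
  · simp only
    rw [hz σ hσ τ hτ, hd₁ σ hσ τ hτ a ha, hd₂ σ hσ τ hτ a ha]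
    ring

/-- The cup product is additive in the first variable. -/
theorem cup_sub_add (ρbar : ResidualGaloisRep k) (c d y : GQ → Module.End k ρbar.V)
    (x : GQ × GQ) : cup ρbar c y x = cup ρbar (c - d) y x + cup ρbar d y x := by
  unfold cup
  simp only [Pi.sub_apply]
  rw [sub_mul, map_sub, sub_add_cancel]

end Core

/-- **URCUP** from GEN, LINE and COBCUP. -/
theorem urCup_of (hGen : GenStatement) (hLine : LineStatement) (hCob : CobCupStatement) :
    UrCupStatement := by
  intro 𝒪 _ _ _ _ _ p ρbar S Smin hyp q hTW P hP c y hc hy hcI hyI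
  have hp := hyp.hp
  haveI : CharP (ResidueField 𝒪) p := H536.charP_residueField 𝒪 p hp hyp.hp𝒪
  have hq : q.Prime := hTW.1
  have hqSmin : q ∉ Smin := fun h => hTW.2.1 (hyp.hSmin h)
  have hqp : q ≠ p := fun h => hqSmin (h ▸ hyp.hpSmin)
  have hpq : p ≠ q := fun h => hqp h.symm
  have hq1 : p ∣ q - 1 := hTW.2.2.1
  have hurq : ρbar.IsUnramifiedAt q := by
    by_contra h
    exact hqSmin ((hyp.hmin q hq hqp).mpr h)
  have hur : ∀ σ ∈ P.inertiaSubgroupIn ℚ, ρbar.ρ σ = 1 := hurq P hP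
  obtain ⟨φ, hφ⟩ := Fermat.Agent.Lib.Cheb.H643.exists_isFrobeniusAt q hq P hP
  obtain ⟨h, hh0, hht, hcomm, -, hdec⟩ := hLine 𝒪 p ρbar S Smin hyp q hTW P hP φ hφ
  -- the decomposition `c φ = α h + (φ m φ⁻¹ − m)`
  have hx0 : LinearMap.trace (ResidueField 𝒪) ρbar.V
      (c φ - (LinearMap.trace (ResidueField 𝒪) ρbar.V (h * c φ) /
        LinearMap.trace (ResidueField 𝒪) ρbar.V (h * h)) • h) = 0 := by
    rw [map_sub, hc.trace_eq_zero, map_smul, hh0, smul_zero, sub_zero]
  have hx1 : LinearMap.trace (ResidueField 𝒪) ρbar.V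
      (h * (c φ - (LinearMap.trace (ResidueField 𝒪) ρbar.V (h * c φ) /
        LinearMap.trace (ResidueField 𝒪) ρbar.V (h * h)) • h)) = 0 := by
    rw [mul_sub, map_sub, mul_smul_comm, map_smul, smul_eq_mul, div_mul_cancel₀ _ hht, sub_self]
  obtain ⟨m, -, hm⟩ := hdec _ hx0 hx1
  have hd : IsAdCocycle ρbar (fun σ => ρbar.ρ σ * m * ρbar.ρ σ⁻¹ - m) := isAdCocycle_cob ρbar m
  have hc1 := isAdCocycle_sub hc hd
  have hc1I : ∀ τ ∈ P.inertiaSubgroupIn ℚ,
      (c - fun σ => ρbar.ρ σ * m * ρbar.ρ σ⁻¹ - m) τ = 0 := by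
    intro τ hτ
    rw [Pi.sub_apply, hcI τ hτ, hur τ hτ, hur τ⁻¹ (inv_mem hτ), one_mul, mul_one, sub_self,
      sub_zero]
  have hc1φ : (c - fun σ => ρbar.ρ σ * m * ρbar.ρ σ⁻¹ - m) φ =
      (LinearMap.trace (ResidueField 𝒪) ρbar.V (h * c φ) /
        LinearMap.trace (ResidueField 𝒪) ρbar.V (h * h)) • h := by
    rw [Pi.sub_apply, ← hm, sub_sub_cancel]
  have h1 : IsCob₂On p (P.decompositionSubgroup ℚ)
      (cup ρbar (c - fun σ => ρbar.ρ σ * m * ρbar.ρ σ⁻¹ - m) y) :=
    urCup_core hp hyp.hp2 (H554.fixes_mu_of_isFrobeniusAt hq hP hp hpq hq1 hφ)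
      (fun τ hτ => H554.fixes_mu_of_mem_inertia hq hP hp hpq hτ) hur
      (fun L hL σ hσ => hGen q P φ hq hP hφ L hL σ hσ) hcomm hht hc1 hy hc1I hyI hc1φ
  have h2 : IsCob₂On p (P.decompositionSubgroup ℚ)
      (cup ρbar (fun σ => ρbar.ρ σ * m * ρbar.ρ σ⁻¹ - m) y) :=
    (hCob (ResidueField 𝒪) p hp ρbar (P.decompositionSubgroup ℚ) _ y hd hy).1
      ⟨m, fun σ _ => rfl⟩
  exact isCob₂On_add h1 h2 (fun σ _ τ _ => cup_sub_add ρbar c _ y (σ, τ))

/-- **URCUP** from GEN and LINE (COBCUP is `cobCup`). -/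
theorem urCup_of_gen_line (hGen : GenStatement) (hLine : LineStatement) : UrCupStatement :=
  urCup_of hGen hLine cobCup

/-- **URCUP**, unconditional (GEN = `H554.gen`, LINE = `H454.line`, COBCUP = `cobCup`). -/
theorem urCup : UrCupStatement :=
  urCup_of Fermat.Agent.S56.RQ.H554.gen Fermat.Agent.S56.RQ.H454.line cobCup

end Fermat.Agent.S56.RQ.H475

end

end
-- ===== PACK-END S56/RQ/UrCupH475.lean

-- ===== PACK-BEGIN S55/Local/H713/T3.lean
section




/-!
# S55 layer L, piece T3 : the local norm index for cyclic extensions (helper713)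

`cyclicNormIndex : CyclicNormIndexStatement`, i.e. `[Kˣ : N(Lˣ)] = [L : K]` for a cyclic
extension `L / K` of local fields, in the exact shape of `Local/Spec.lean`.

Proof: the integral closure of `A` in `L` is a Galois-stable valuation subring of `L` which is a
complete discrete valuation ring with finite residue field (LF0, LF1 on main), so
`Fermat.Agent.S55.H713.norm_index_eq_finrank` applies.

Reusable: `intVS A F L : ValuationSubring L` (the ring of integers), `mem_intVS`,
`isDVR_intVS`, `isAdicComplete_intVS`, `finite_residueField_intVS`, `galStable_intVS`.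
-/

set_option autoImplicit false
set_option linter.unusedSectionVars false
set_option linter.style.haveILetI false

namespace Fermat.Agent.S55.Local.H713

open Fermat.Agent.S55.Local IsLocalRing

section

variable (A F : Type) [CommRing A] [IsDomain A] [IsDiscreteValuationRing A]
  [IsAdicComplete (IsLocalRing.maximalIdeal A) A] [Finite (IsLocalRing.ResidueField A)]
  [Field F] [CharZero F] [Algebra A F] [IsFractionRing A F]
  (L : Type) [Field L] [Algebra F L] [FiniteDimensional F L]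

/-- The ring of integers of the local field `L`, as a valuation subring. -/
noncomputable def intVS : ValuationSubring L :=
  letI : Algebra A L := (toL A F L).toAlgebra
  { (integralClosure A L).toSubring with
    mem_or_inv_mem' := fun x => H904.intOrInv A F L x }

lemma mem_intVS (x : L) : x ∈ intVS A F L ↔ IsInt A F L x := Iff.rfl

/-- The integral closure and the valuation subring are the same ring. -/
noncomputable def intVSEquiv :
    letI : Algebra A L := (toL A F L).toAlgebra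
    integralClosure A L ≃+* intVS A F L :=
  letI : Algebra A L := (toL A F L).toAlgebra
  { toFun := fun x => ⟨x.1, x.2⟩
    invFun := fun x => ⟨x.1, x.2⟩
    left_inv := fun _ => rfl
    right_inv := fun _ => rfl
    map_mul' := fun _ _ => rfl
    map_add' := fun _ _ => rfl }

lemma isDVR_intVS : IsDiscreteValuationRing (intVS A F L) := by
  letI : Algebra A L := (toL A F L).toAlgebra
  haveI : IsScalarTower A F L := IsScalarTower.of_algebraMap_eq (fun _ => rfl)
  haveI := H904.lf0_isDVR A F L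
  exact IsDiscreteValuationRing.RingEquivClass.isDiscreteValuationRing (intVSEquiv A F L)

lemma isAdicComplete_intVS :
    IsAdicComplete (maximalIdeal (intVS A F L)) (intVS A F L) := by
  letI : Algebra A L := (toL A F L).toAlgebra
  haveI : IsScalarTower A F L := IsScalarTower.of_algebraMap_eq (fun _ => rfl)
  haveI := H904.lf0_isDVR A F L
  haveI := H904.lf0_isLocalRing A F L
  haveI := H904.lf0_isAdicComplete A F L
  letI : Algebra (integralClosure A L) (intVS A F L) := (intVSEquiv A F L).toRingHom.toAlgebra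
  haveI : Module.Finite (integralClosure A L) (intVS A F L) :=
    Module.Finite.of_surjective (Algebra.linearMap (integralClosure A L) (intVS A F L))
      (intVSEquiv A F L).surjective
  haveI : IsLocalHom (algebraMap (integralClosure A L) (intVS A F L)) :=
    ⟨fun a ha => by
      have : IsUnit ((intVSEquiv A F L).symm (intVSEquiv A F L a)) :=
        IsUnit.map (intVSEquiv A F L).symm ha
      simpa using this⟩
  exact IsLocalRing.isAdicComplete_of_module_finite (𝒪 := integralClosure A L)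

lemma finite_residueField_intVS : Finite (ResidueField (intVS A F L)) := by
  letI : Algebra A L := (toL A F L).toAlgebra
  haveI : IsScalarTower A F L := IsScalarTower.of_algebraMap_eq (fun _ => rfl)
  haveI := H904.lf0_isLocalRing A F L
  haveI := H904.lf0_finite_residueField A F L
  exact Finite.of_equiv _ (IsLocalRing.ResidueField.mapEquiv (intVSEquiv A F L)).toEquiv

variable (K : Type) [Field K] [Algebra F K] [Algebra K L] [IsScalarTower F K L]

lemma galStable_intVS : Fermat.Agent.S55.H713.GalStable K (intVS A F L) := by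
  intro g x hx
  rw [mem_intVS] at hx ⊢
  refine H904.IsInt.map (g : L →+* L) (fun a => ?_) hx
  rw [toL_apply, IsScalarTower.algebraMap_apply F K L]
  exact g.commutes _

end

/-- (T3) the local norm index theorem for cyclic extensions, in the shape of `Local/Spec.lean`. -/
theorem cyclicNormIndex : CyclicNormIndexStatement := by
  intro A F _ _ _ _ _ _ _ _ _ K _ _ _ L _ _ _ _ _ _ hcyc
  haveI : FiniteDimensional F L := FiniteDimensional.trans F K L
  haveI := isDVR_intVS A F L
  haveI := isAdicComplete_intVS A F L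
  haveI := finite_residueField_intVS A F L
  haveI := hcyc
  exact Fermat.Agent.S55.H713.norm_index_eq_finrank (F := K) (E := L) (O := intVS A F L)
    (galStable_intVS A F L K)

end Fermat.Agent.S55.Local.H713

end
-- ===== PACK-END S55/Local/H713/T3.lean

-- ===== PACK-BEGIN S55/Local/H964/T5Closed.lean
section






/-!
# S55, layer L : T4 and T5 CLOSED (helper964)

`h2Cyclic : H2CyclicStatement` — for every finite Galois extension `L / K` of local fields
(finite extensions of the fraction field of a complete DVR with finite residue field, char. 0),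
`H²(Gal(L/K), Lˣ)` is cyclic of order `[L : K]`.  UNCONDITIONAL: assembled from landed leaves

* T5 glue `H964.h2Cyclic_of`,
* UR5 `H543.existsUnramExt`, UR6' `H775.inertiaCard775`,
* T4 glue `H954.h2CardDvd_of_cyclicH2Card` on T3' `Closed.cyclicH2Card`,
* `Closed.*` (helper715's integration file) for UR1, T2, LF2, LF3, A4a, A4b, A4d.
-/

set_option autoImplicit false

namespace Fermat.Agent.S55.Local.H964

open Fermat.Agent.S55.Local

/-- (T4) `|H²(Gal(L/K), Lˣ)|` divides `[L : K]`, unconditionally. -/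
theorem h2CardDvd : H2CardDvdStatement :=
  H954.h2CardDvd_of_cyclicH2Card Closed.cyclicH2Card

/-- (UR6') inertia with cardinality, unconditionally (re-export). -/
theorem inertiaCard : InertiaCardStatement := H775.inertiaCard775

/-- (UR5) existence of unramified extensions, unconditionally (re-export). -/
theorem existsUnramExt : ExistsUnramExtStatement := H543.existsUnramExt

/-- **(T5)** `H²(Gal(L/K), Lˣ)` is cyclic of order `[L : K]`, unconditionally. -/
theorem h2Cyclic : H2CyclicStatement :=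
  h2Cyclic_of existsUnramExt inertiaCard Closed.unramCyclic Closed.unramNormRange
    Closed.existsUnif Closed.intUnitsComap Closed.cycCocycleIsCocycle
    Closed.cycCocycleCoboundaryIff Closed.cycCocyclePullback h2CardDvd

end Fermat.Agent.S55.Local.H964

end
-- ===== PACK-END S55/Local/H964/T5Closed.lean

-- ===== PACK-BEGIN S55/L/UnrInv/Transport.lean
section


/-!
# S55, layer L, unramified invariants: transport along isomorphisms
-/

set_option autoImplicit false
set_option linter.style.haveILetI false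

namespace Fermat.Agent.S55.L.UnrInv

open groupCohomology

section Residue

variable {K E : Type} [Field K] [Field E] [Algebra K E]

/-- The residue field of an unramified extension of degree `n` has `q ^ n` elements. -/
theorem UnrPack.card_residue [FiniteDimensional K E] [IsLocalFld K] (hres : ResidueDegreeSpec)
    (P : UnrPack K E) :
    Nat.card (IsLocalRing.ResidueField P.B) =
      Nat.card (IsLocalRing.ResidueField P.A) ^ Module.finrank K E := by
  obtain ⟨π, hπ⟩ := exists_isUniformizer P.A P.hA.1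
  obtain ⟨π', hπ'⟩ := exists_isUniformizer P.B P.hB.1
  obtain ⟨e, f, hef, ⟨u, hu, hu', hπu⟩, hq⟩ := hres K E P.A P.B π π' P.hA P.hB hπ hπ'
  have hπ0 : π ≠ 0 := uniformizer_ne_zero P.A hπ
  have hπ'0 : π' ≠ 0 := uniformizer_ne_zero P.B hπ'
  have hu0 : u ≠ 0 := by
    rintro rfl
    rw [zero_mul] at hπu
    exact hπ0 ((map_eq_zero _).mp hπu)
  have h1 := P.ordπ π hπ
  rw [hπu, ordZ_mul P.B P.hB.1 hu0 (pow_ne_zero _ hπ'0), ordZ_pow,
    ordZ_uniformizer P.B P.hB.1 hπ', (ordZ_eq_zero_iff P.B P.hB.1 hu0).mpr ⟨hu, hu'⟩] at h1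
  have he : e = 1 := by
    have : (e : ℤ) = 1 := by linarith
    exact_mod_cast this
  rw [he, one_mul] at hef
  rw [hq, hef]

variable {E' : Type} [Field E']

/-- Isomorphic local fields have residue fields of the same cardinality. -/
theorem card_residue_of_ringEquiv (hres : ResidueDegreeSpec) [IsLocalFld E] (e : E ≃+* E')
    (B : ValuationSubring E) (B' : ValuationSubring E')
    (hB : IsLocalRingOfIntegers B) (hB' : IsLocalRingOfIntegers B') :
    Nat.card (IsLocalRing.ResidueField B') = Nat.card (IsLocalRing.ResidueField B) := by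
  letI : Algebra E E' := e.toRingHom.toAlgebra
  haveI : FiniteDimensional E E' :=
    Module.Finite.of_surjective (Algebra.linearMap E E') e.surjective
  have hrank : Module.finrank E E' = 1 := by
    have hbij : Function.Bijective (Algebra.linearMap E E') := e.bijective
    have := (LinearEquiv.ofBijective (Algebra.linearMap E E') hbij).finrank_eq
    rw [← this, Module.finrank_self]
  obtain ⟨π, hπ⟩ := exists_isUniformizer B hB.1
  obtain ⟨π', hπ'⟩ := exists_isUniformizer B' hB'.1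
  obtain ⟨e₁, f₁, hef, -, hq⟩ := hres E E' B B' π π' hB hB' hπ hπ'
  rw [hrank] at hef
  have hf : f₁ = 1 := Nat.eq_one_of_mul_eq_one_left hef
  rw [hq, hf, pow_one]

end Residue

section Transport

variable {K E K' E' : Type} [Field K] [Field E] [Algebra K E] [Field K'] [Field E']
  [Algebra K' E'] [FiniteDimensional K E] [FiniteDimensional K' E'] [IsGalois K E]
  [IsGalois K' E'] [IsLocalFld K] [IsLocalFld K']

/-- **Transport** of the invariant maps of unramified extensions along isomorphisms. -/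
theorem inv_transport (h1 : FiniteExtSpec) (hint : IntegersComapSpec) (hres : ResidueDegreeSpec)
    (P : UnrPack K E) (P' : UnrPack K' E')
    (e : E ≃+* E') (c : (E ≃ₐ[K] E) ≃* (E' ≃ₐ[K'] E'))
    (hc : ∀ (g : E ≃ₐ[K] E) (x : E), c g (e x) = e (g x))
    (f : cocycles₂ (unitsRep K E)) (f' : cocycles₂ (unitsRep K' E'))
    (hf : ∀ g h : E ≃ₐ[K] E, (f' : _ × _ → unitsRep K' E') (c g, c h) =
      Additive.ofMul (Units.map (e : E →* E')
        (Additive.toMul (α := Eˣ) ((f : _ × _ → unitsRep K E) (g, h))))) :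
    P'.inv (cls f') = P.inv (cls f) := by
  haveI : IsLocalFld E := h1 K E
  have hn : 0 < Module.finrank K E := Module.finrank_pos
  -- degrees
  have hnn : Module.finrank K' E' = Module.finrank K E := by
    rw [← IsGalois.card_aut_eq_finrank K E, ← IsGalois.card_aut_eq_finrank K' E']
    exact (Nat.card_congr c.toEquiv).symm
  -- residue fields
  have hq : Nat.card (IsLocalRing.ResidueField P'.A) = Nat.card (IsLocalRing.ResidueField P.A) := by
    have h2 := P.card_residue hres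
    have h3 := P'.card_residue hres
    rw [card_residue_of_ringEquiv hres e P.B P'.B P.hB P'.hB, h2, hnn] at h3
    exact (Nat.pow_left_injective hn.ne' h3).symm
  have hB : ∀ x : E, e x ∈ P'.B ↔ x ∈ P.B := fun x => mem_of_ringEquiv hint e P.B P'.B P.hB P'.hB
  -- Frobenius
  have hφ : c P.φ = P'.φ := by
    have := P'.eq_frob_pow (c P.φ) 1 ?_
    · rw [this, pow_one]
    · intro y hy
      obtain ⟨x, rfl⟩ := e.surjective y
      have hx : x ∈ P.B := (hB x).mp hy
      rw [hc, pow_one, hq, ← map_pow, ← map_sub]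
      exact (mem_nonunits_of_ringEquiv hint e P.B P'.B P.hB P'.hB).mpr (P.frob x hx)
  -- the sum
  have hw : P'.w (cycSum P'.φ (Module.finrank K' E') (f' : _ × _ → unitsRep K' E')) =
      P.w (cycSum P.φ (Module.finrank K E) (f : _ × _ → unitsRep K E)) := by
    unfold cycSum
    rw [hnn, map_sum, map_sum]
    apply Finset.sum_congr rfl
    intro i _
    rw [← hφ, ← map_pow, hf, P'.w_apply, P.w_apply]
    exact ordZ_equiv P.B P.hB.1 P'.B P'.hB.1 e (fun x hx => (hB x).mpr hx)
      (fun y hy => by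
        have := hB (e.symm y)
        rw [RingEquiv.apply_symm_apply] at this
        exact this.mp hy) _
  rw [P'.inv_cls, P.inv_cls, hw, hnn]

end Transport

end Fermat.Agent.S55.L.UnrInv

end
-- ===== PACK-END S55/L/UnrInv/Transport.lean

-- ===== PACK-BEGIN S55/E1/H423/Lim5Tower.lean
section




/-!
# S55, engine E1, block LIM: LIM5 (ii) and (iii) ON THE TOWER

Coefficients `X = E(F) = Lim.sUnits L` (the `S`-units of a level), transition `Lim.trS`.
Input: `Tow.SUnitsDivSpec S p` (GD9) and directedness of the levels.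

* `exists_level_div_sUnits` : finitely many elements of `E(F)` become divisible by `p` in
  `E(F')` for all `F' ≥ F₁`;
* `lim5_iii_tower` : every class of `𝔈²_F(E)` lies, after transition to any `F' ≥ F₁`, in the
  image of `incl_* : H¹(G', 𝔹') → 𝔈²_{F'}(E)`;  `lim5_iii_isEdge` : hence in the image of `e`;
* `lim5_ii_tower` : `b ∈ H¹(G, 𝔹)` with `incl_* b = 0` dies in `H¹(G', 𝔹')` for `F' ≥ F₁`;
* `lim5_ii_inf` : `IsEdge x 0 ⇒ inf x = 0` in `H²(G', Hom_ℤ(N', E(F')))` for `F' ≥ F₁`.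

The modules `N'` at higher levels are an arbitrary family `N' L' h` with
`ν : N' ⟶ Res N`, `p N' = 0` (in the engine: `c.NL`, `c.ν`).
-/

set_option autoImplicit false
set_option linter.style.haveILetI false

open CategoryTheory CategoryTheory.Limits

namespace Fermat.Agent.S55.E1.H423

open Fermat.Agent.S55.E1 Fermat.Agent.S55.Tow
open Fermat.Agent.S55.T.H719 (ihomLin)

variable {S : Finset Nat.Primes}

/-- If `x ^ p` lies in a valuation subring (`p > 0`) then so does `x`. -/
theorem mem_valuationSubring_of_pow_mem {K : Type*} [Field K] (A : ValuationSubring K) {x : K}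
    {p : ℕ} (hp : 0 < p) (hx : x ^ p ∈ A) : x ∈ A := by
  rcases A.mem_or_inv_mem x with h | h
  · exact h
  · by_cases hx0 : x = 0
    · rw [hx0]; exact A.zero_mem
    · have h1 : x = x ^ p * x⁻¹ ^ (p - 1) := by
        have h2 : x ^ p = x ^ (p - 1) * x := by
          rw [← pow_succ, Nat.sub_add_cancel hp]
        rw [h2, inv_pow, mul_comm (x ^ (p - 1)) x, mul_assoc,
          mul_inv_cancel₀ (pow_ne_zero _ hx0), mul_one]
      rw [h1]
      exact A.mul_mem _ _ hx (A.pow_mem h _)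

/-- If `p • y` is an `S`-unit (`p > 0`) then `y` is an `S`-unit. -/
theorem isSUnit_of_nsmul (L : Level S) {p : ℕ} (hp : 0 < p) {y : L.units.V}
    (hy : L.IsSUnit (p • y)) : L.IsSUnit y := by
  intro ℓ hℓ A hA
  obtain ⟨h1, h2⟩ := hy ℓ hℓ A hA
  have e1 : L.val (p • y) = (L.val y) ^ p := rfl
  rw [e1] at h1 h2
  refine ⟨mem_valuationSubring_of_pow_mem A hp ?_, mem_valuationSubring_of_pow_mem A hp ?_⟩
  · rw [← Units.val_pow_eq_pow_val]; exact h1
  · rw [← Units.val_pow_eq_pow_val, inv_pow]; exact h2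

/-- If `p • y ∈ E(F)` (`p > 0`) then `y ∈ E(F)`. -/
theorem mem_sUnitsAdd_of_nsmul (L : Level S) {p : ℕ} (hp : 0 < p) {y : L.units.V}
    (hy : p • y ∈ Lim.sUnitsAdd L) : y ∈ Lim.sUnitsAdd L := by
  intro g
  apply isSUnit_of_nsmul L hp
  have := hy g
  rwa [map_nsmul] at this

/-- Divisibility by `p` in `Fˣ` of an element of `E(F)` is divisibility in `E(F)`. -/
theorem exists_sUnits_div {L L' : Level S} (h : L ≤ L') {p : ℕ} (hp : 0 < p) (e : (Lim.sUnits L).V)
    (e' : L'.units.V) (he' : p • e' = (Level.trUnits h).hom ((Lim.sIncl L).hom e)) :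
    ∃ x' : (Lim.sUnits L').V, (Lim.trS h).hom e = p • x' := by
  have hmem : e' ∈ Lim.sUnitsAdd L' := by
    apply mem_sUnitsAdd_of_nsmul L' hp
    rw [he']
    exact Lim.trUnits_mem h _ (Lim.sIncl_mem L e)
  let x' : (Lim.sUnits L').V := Lim.subMk (hW := Lim.sUnitsAdd_stable L') e' hmem
  have hx' : (Lim.sIncl L').hom x' = e' := rfl
  refine ⟨x', ?_⟩
  apply Lim.sIncl_injective L'
  rw [Lim.sIncl_trS, map_nsmul, hx', he']

/-- Divisibility persists at higher levels. -/
theorem sUnits_div_mono {L L₁ L' : Level S} (h₁ : L ≤ L₁) (h' : L₁ ≤ L') {p : ℕ}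
    (e : (Lim.sUnits L).V) (hdiv : ∃ x₁ : (Lim.sUnits L₁).V, (Lim.trS h₁).hom e = p • x₁) :
    ∃ x' : (Lim.sUnits L').V, (Lim.trS (h₁.trans h')).hom e = p • x' := by
  obtain ⟨x₁, hx₁⟩ := hdiv
  refine ⟨(Lim.trS h').hom x₁, ?_⟩
  have h1 : (Lim.trS (h₁.trans h')).hom e = (Lim.trS h').hom ((Lim.trS h₁).hom e) := rfl
  rw [h1, hx₁, map_nsmul]

/-- **GD9 for finitely many elements of `E(F)`**, cofinal form. -/
theorem exists_level_div_sUnits [IsDirected (Level S) (· ≤ ·)] {p : ℕ} (hp : 0 < p)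
    (hdiv : SUnitsDivSpec S p) (L : Level S) (s : Finset (Lim.sUnits L).V) :
    ∃ (L₁ : Level S), L ≤ L₁ ∧ ∀ (L' : Level S) (h : L ≤ L'), L₁ ≤ L' → ∀ e ∈ s,
      ∃ x' : (Lim.sUnits L').V, (Lim.trS h).hom e = p • x' := by
  classical
  obtain ⟨L₁, h₁, hL₁⟩ := exists_level_div_finset hdiv L (s.image (fun e => (Lim.sIncl L).hom e))
    (fun x hx => by
      obtain ⟨e, -, rfl⟩ := Finset.mem_image.1 hx
      exact Lim.isSUnit_of_mem L (Lim.sIncl_mem L e))
  refine ⟨L₁, h₁, fun L' h h' e he => ?_⟩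
  obtain ⟨e₁, -, he₁⟩ := hL₁ _ (Finset.mem_image_of_mem _ he)
  exact sUnits_div_mono h₁ h' e (exists_sUnits_div h₁ hp e e₁ he₁)

section Tower

variable [IsDirected (Level S) (· ≤ ·)] {p : ℕ}

/-- **LIM5 (iii) on the tower**, cocycle form. -/
theorem lim5_iii_tower_cocycle (hp : p.Prime) (hdiv : SUnitsDivSpec S p) (L : Level S)
    (N : Rep.{0} ℤ L.Gal) (hfin : @Module.Finite ℤ (stdR N).V _ _ (stdR N).hV2)
    (c : groupCohomology.cocycles₁ ((Rep.ihom (stdR N)).obj (Lim.sUnits L))) :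
    ∃ L₁ : Level S, L ≤ L₁ ∧ ∀ (L' : Level S) (h : L ≤ L'), L₁ ≤ L' →
      ∀ (N' : Rep.{0} ℤ L'.Gal) (ν : N' ⟶ Rep.res (Level.proj h) N), (∀ n : N'.V, p • n = 0) →
        ∃ b' : groupCohomology (edgeB N' (Lim.sUnits L')) 1,
          edgeIncl N' (Lim.sUnits L') b' =
            trE2 (Level.proj h) ν (Lim.trS h) (groupCohomology.H1π _ c) := by
  classical
  obtain ⟨s, hs⟩ := exists_finset_closure_eq_top (stdR N) hfin
  haveI : Fintype L.Gal := Fintype.ofFinite _
  let vals : Finset (Lim.sUnits L).V :=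
    (Finset.univ : Finset L.Gal).biUnion (fun g => s.image (fun r => ihomLin (c g) r))
  obtain ⟨L₁, h₁, hL₁⟩ := exists_level_div_sUnits hp.pos hdiv L vals
  refine ⟨L₁, h₁, fun L' h h' N' ν hN' => ?_⟩
  refine exists_edgeIncl_eq_trE2 (Level.proj h) ν (Lim.trS h) hp hN' c (fun g => ?_)
  refine div_of_div_on_generators (Level.proj h) (Lim.trS h) p (c g) (s : Set (stdR N).V) hs
    (fun r hr => ?_)
  refine hL₁ L' h h' _ ?_
  exact Finset.mem_biUnion.2 ⟨g, Finset.mem_univ g, Finset.mem_image_of_mem _ hr⟩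

/-- **LIM5 (iii) on the tower**: every class of `𝔈²_F(E)` lies, after transition to any
`F' ≥ F₁`, in the image of `incl_* : H¹(G', 𝔹') → 𝔈²_{F'}(E)`. -/
theorem lim5_iii_tower (hp : p.Prime) (hdiv : SUnitsDivSpec S p) (L : Level S)
    (N : Rep.{0} ℤ L.Gal) (hfin : @Module.Finite ℤ (stdR N).V _ _ (stdR N).hV2)
    (y : E2 N (Lim.sUnits L)) :
    ∃ L₁ : Level S, L ≤ L₁ ∧ ∀ (L' : Level S) (h : L ≤ L'), L₁ ≤ L' →
      ∀ (N' : Rep.{0} ℤ L'.Gal) (ν : N' ⟶ Rep.res (Level.proj h) N), (∀ n : N'.V, p • n = 0) →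
        ∃ b' : groupCohomology (edgeB N' (Lim.sUnits L')) 1,
          edgeIncl N' (Lim.sUnits L') b' = trE2 (Level.proj h) ν (Lim.trS h) y := by
  induction y using groupCohomology.H1_induction_on with
  | h c => exact lim5_iii_tower_cocycle hp hdiv L N hfin c

/-- **LIM5 (iii) on the tower**, edge form: after transition to any `F' ≥ F₁` the class is
`e(x')` for some `x' ∈ H²(G', Hom_ℤ(N', E(F')))`. -/
theorem lim5_iii_isEdge (hp : p.Prime) (hdiv : SUnitsDivSpec S p) (L : Level S)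
    (N : Rep.{0} ℤ L.Gal) (hfin : @Module.Finite ℤ (stdR N).V _ _ (stdR N).hV2)
    (y : E2 N (Lim.sUnits L)) :
    ∃ L₁ : Level S, L ≤ L₁ ∧ ∀ (L' : Level S) (h : L ≤ L'), L₁ ≤ L' →
      ∀ (N' : Rep.{0} ℤ L'.Gal) (ν : N' ⟶ Rep.res (Level.proj h) N), (∀ n : N'.V, p • n = 0) →
        ∃ x' : groupCohomology ((Rep.ihom N').obj (Lim.sUnits L')) 2,
          IsEdge x' (trE2 (Level.proj h) ν (Lim.trS h) y) := by
  obtain ⟨L₁, h₁, hL₁⟩ := lim5_iii_tower hp hdiv L N hfin y
  refine ⟨L₁, h₁, fun L' h h' N' ν hN' => ?_⟩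
  obtain ⟨b', hb'⟩ := hL₁ L' h h' N' ν hN'
  exact ⟨edgeδ N' (Lim.sUnits L') b', b', rfl, hb'⟩

/-- **LIM5 (ii) on the tower**: a class `b ∈ H¹(G, 𝔹)` with `incl_* b = 0` dies in
`H¹(G', 𝔹')` for all `F' ≥ F₁`. -/
theorem lim5_ii_tower (hp : p.Prime) (hdiv : SUnitsDivSpec S p) (L : Level S)
    (N : Rep.{0} ℤ L.Gal) (hfin : @Module.Finite ℤ (stdR N).V _ _ (stdR N).hV2)
    (b : groupCohomology (edgeB N (Lim.sUnits L)) 1) (hb : edgeIncl N (Lim.sUnits L) b = 0) :
    ∃ L₁ : Level S, L ≤ L₁ ∧ ∀ (L' : Level S) (h : L ≤ L'), L₁ ≤ L' →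
      ∀ (N' : Rep.{0} ℤ L'.Gal) (ν : N' ⟶ Rep.res (Level.proj h) N), (∀ n : N'.V, p • n = 0) →
        (groupCohomology.map (Level.proj h) (trEdgeB (Level.proj h) ν (Lim.trS h)) 1).hom b =
          0 := by
  classical
  obtain ⟨s, hs⟩ := exists_finset_closure_eq_top (stdR N) hfin
  obtain ⟨φ, hφ⟩ := exists_forall_map_trEdgeB_eq_zero hp b hb
  obtain ⟨L₁, h₁, hL₁⟩ := exists_level_div_sUnits hp.pos hdiv L (s.image (fun r => ihomLin φ r))
  refine ⟨L₁, h₁, fun L' h h' N' ν hN' => ?_⟩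
  refine hφ L'.Gal (Level.proj h) N' ν (Lim.sUnits L') (Lim.trS h) hN' ?_
  refine div_of_div_on_generators (Level.proj h) (Lim.trS h) p φ (s : Set (stdR N).V) hs
    (fun r hr => ?_)
  exact hL₁ L' h h' _ (Finset.mem_image_of_mem _ hr)

/-- **LIM5 (ii) on the tower**, `H²`-form: if `e(x) = 0` then `inf x = 0` in
`H²(G', Hom_ℤ(N', E(F')))` for all `F' ≥ F₁`. -/
theorem lim5_ii_inf (h10 : ALG10EdgeSpec) (hp : p.Prime) (hdiv : SUnitsDivSpec S p)
    (L : Level S) (N : Rep.{0} ℤ L.Gal)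
    (hfin : @Module.Finite ℤ (stdR N).V _ _ (stdR N).hV2)
    (x : groupCohomology ((Rep.ihom N).obj (Lim.sUnits L)) 2)
    (hx : IsEdge x (0 : E2 N (Lim.sUnits L))) :
    ∃ L₁ : Level S, L ≤ L₁ ∧ ∀ (L' : Level S) (h : L ≤ L'), L₁ ≤ L' →
      ∀ (N' : Rep.{0} ℤ L'.Gal) (ν : N' ⟶ Rep.res (Level.proj h) N), (∀ n : N'.V, p • n = 0) →
        (groupCohomology.map (Level.proj h) (trIhom (Level.proj h) ν (Lim.trS h)) 2).hom x =
          0 := by
  obtain ⟨b, rfl, hb⟩ := hx
  obtain ⟨L₁, h₁, hL₁⟩ := lim5_ii_tower hp hdiv L N hfin b hb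
  refine ⟨L₁, h₁, fun L' h h' N' ν hN' => ?_⟩
  have h1 := (h10 L.Gal L'.Gal (Level.proj h) N N' ν (Lim.sUnits L) (Lim.sUnits L')
    (Lim.trS h) b).1
  rw [← h1, hL₁ L' h h' N' ν hN', map_zero]

end Tower

end Fermat.Agent.S55.E1.H423

end
-- ===== PACK-END S55/E1/H423/Lim5Tower.lean

-- ===== PACK-BEGIN S55/GAD/ExTransH233.lean
section
/-
S55 / G-ADAPTER, leaf GAD-EX (gd6), TRANSITIVITY STEP (helper233).

ABSTRACT PART.  `π : G' →* G` surjective with finite kernel, `A : Rep ℤ G'`, `B : Rep ℤ G`,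
`f : Rep.res π B ⟶ A` whose image contains the `ker π`-invariants of `A`, `H₁ ≤ G`,
`H = π⁻¹(H₁)`.  If `N_{H₁}(B) ⊆ p • B^{H₁}` then `N_H(A) ⊆ p • A^H`
(`N_H = f ∘ N_{H₁} ∘ f⁻¹ ∘ N_{ker π}`).  No hypothesis on the groups (not necessarily `p`-groups),
`f` need not be injective.

TOWER PART.  `existence_of_step`: the existence theorem mod `p` for the concrete tower datum
(`GAD.ExistenceSpec S p`, i.e. gd6) follows from Galois descent for the canonical transition maps
(`GAD.H953.DescSpec S`) and ONE good step `L₀ ≤ L₁` above every level `L₀ ⊇ μ_p`.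
-/


set_option autoImplicit false
set_option linter.unusedSectionVars false
set_option linter.style.haveILetI false

open CategoryTheory

namespace Fermat.Agent.S55.GAD.H233

open Fermat.Agent.S55 Fermat.Agent.S55.Tow

noncomputable section

section Abstract

variable {G' G : Type} [Group G'] [Group G]

/-- A section of a surjective homomorphism, and the induced bijection
`π⁻¹(H₁) ≃ H₁ × ker π`. -/
def fiberEquiv (π : G' →* G) (hπ : Function.Surjective π) (H₁ : Subgroup G) :
    (H₁.comap π : Subgroup G') ≃ H₁ × π.ker where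
  toFun g := (⟨π g.1, g.2⟩,
    ⟨(Function.surjInv hπ (π g.1))⁻¹ * g.1, by
      rw [MonoidHom.mem_ker, map_mul, map_inv, Function.surjInv_eq hπ, inv_mul_cancel]⟩)
  invFun x := ⟨Function.surjInv hπ x.1.1 * x.2.1, by
    rw [Subgroup.mem_comap, map_mul, Function.surjInv_eq hπ, (MonoidHom.mem_ker).1 x.2.2, mul_one]
    exact x.1.2⟩
  left_inv g := by
    apply Subtype.ext
    simp
  right_inv x := by
    obtain ⟨⟨h, hh⟩, ⟨n, hn⟩⟩ := x
    have hn' : π n = 1 := (MonoidHom.mem_ker).1 hn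
    apply Prod.ext
    · apply Subtype.ext
      simp [Function.surjInv_eq hπ, hn']
    · apply Subtype.ext
      simp [Function.surjInv_eq hπ, hn']

lemma fiberEquiv_symm_coe (π : G' →* G) (hπ : Function.Surjective π) (H₁ : Subgroup G)
    (x : H₁ × π.ker) :
    (((fiberEquiv π hπ H₁).symm x : (H₁.comap π : Subgroup G')) : G') =
      Function.surjInv hπ x.1.1 * x.2.1 := rfl

/-- **Abstract transitivity of the norm condition.** -/
theorem normInP_of_step (π : G' →* G) (hπ : Function.Surjective π)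
    (A : Rep.{0} ℤ G') (B : Rep.{0} ℤ G) (f : Rep.res π B ⟶ A)
    (hrange : ∀ a : A.V, (∀ n ∈ π.ker, A.ρ n a = a) → a ∈ Set.range f.hom)
    [Finite π.ker] (p : ℕ) (H₁ : Subgroup G) [Fintype H₁] (H : Subgroup G') [Fintype H]
    (hH : H = H₁.comap π) (h₁ : E1.NormInP p H₁ B) : E1.NormInP p H A := by
  classical
  subst hH
  letI : Fintype π.ker := Fintype.ofFinite _
  intro c
  -- the partial norm over `ker π`
  set c' : A.V := ∑ n : π.ker, A.ρ (n : G') c with hc'
  have hc'inv : ∀ n ∈ π.ker, A.ρ n c' = c' := by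
    intro n hn
    rw [hc', map_sum]
    refine Fintype.sum_equiv (Equiv.mulLeft (⟨n, hn⟩ : π.ker)) _ _ (fun m => ?_)
    show A.ρ n (A.ρ (m : G') c) = A.ρ ((⟨n, hn⟩ * m : π.ker) : G') c
    rw [Subgroup.coe_mul, map_mul]
    rfl
  obtain ⟨b, hb⟩ := hrange c' hc'inv
  obtain ⟨b₀, hb₀inv, hb₀⟩ := h₁ b
  have hcomm : ∀ (g : G') (x : B.V), f.hom (B.ρ (π g) x) = A.ρ g (f.hom x) :=
    fun g x => Rep.hom_comm_apply f g x
  refine ⟨f.hom b₀, ?_, ?_⟩
  · intro g hg
    rw [← hcomm g b₀, hb₀inv (π g) hg]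
  · have hsum : ∑ g : (H₁.comap π : Subgroup G'), A.ρ (g : G') c =
        ∑ x : H₁ × π.ker, A.ρ (Function.surjInv hπ x.1.1 * x.2.1) c := by
      refine Fintype.sum_equiv (fiberEquiv π hπ H₁) _ _ (fun g => ?_)
      have := fiberEquiv_symm_coe π hπ H₁ (fiberEquiv π hπ H₁ g)
      rw [Equiv.symm_apply_apply] at this
      rw [← this]
    rw [hsum, Fintype.sum_prod_type]
    have hinner : ∀ h : H₁, ∑ n : π.ker, A.ρ (Function.surjInv hπ h.1 * n.1) c =
        f.hom (B.ρ (h : G) b) := by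
      intro h
      have e1 : ∀ n : π.ker, A.ρ (Function.surjInv hπ h.1 * n.1) c =
          A.ρ (Function.surjInv hπ h.1) (A.ρ (n : G') c) := by
        intro n
        rw [map_mul]
        rfl
      rw [Finset.sum_congr rfl (fun n _ => e1 n), ← map_sum, ← hc', ← hb,
        ← hcomm (Function.surjInv hπ h.1) b, Function.surjInv_eq hπ]
    rw [Finset.sum_congr rfl (fun h _ => hinner h), ← map_sum, hb₀, map_nsmul]

end Abstract

section Tower

variable {S : Finset Nat.Primes} {p : ℕ}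

lemma proj_comp {L₀ L₁ L : Level S} (h₁ : L₀ ≤ L₁) (h' : L₁ ≤ L) (g : L.Gal) :
    Level.proj h₁ (Level.proj h' g) = Level.proj (h₁.trans h') g := by
  induction g using QuotientGroup.induction_on with
  | H g => rfl

lemma relGal_eq_comap {L₀ L₁ L : Level S} (h₁ : L₀ ≤ L₁) (h' : L₁ ≤ L) :
    Level.relGal (h₁.trans h') = (Level.relGal h₁).comap (Level.proj h') := by
  ext g
  show Level.proj (h₁.trans h') g = 1 ↔ Level.proj h₁ (Level.proj h' g) = 1
  rw [proj_comp]

lemma proj_surjective {L₁ L : Level S} (h' : L₁ ≤ L) : Function.Surjective (Level.proj h') := by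
  intro g
  induction g using QuotientGroup.induction_on with
  | H g => exact ⟨QuotientGroup.mk g, rfl⟩

/-- One-step form of the existence theorem mod `p` for the concrete tower datum: above every
level `L₀ ⊇ μ_p` there is ONE level `L₁` with `N_{L₁/L₀} C(L₁) ⊆ p • C(L₁)^{Gal(L₁/L₀)}`. -/
def ExistStepSpec (S : Finset Nat.Primes) (p : ℕ) : Prop :=
  ∀ L₀ : Level S, L₀.HasMu p → ∃ (L₁ : Level S) (h₁ : L₀ ≤ L₁),
    @E1.NormInP p L₁.Gal _ (Level.relGal h₁) (Fintype.ofFinite _) (CT L₁)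

/-- **GAD-EX from descent and one step.** -/
theorem existence_of_step (hD : H953.DescSpec S) (hStep : ExistStepSpec S p) :
    ExistenceSpec S p := by
  intro L₀ hL₀
  obtain ⟨L₁, h₁, hN⟩ := hStep L₀ hL₀
  refine ⟨L₁, h₁, fun L h h' => ?_⟩
  haveI : Finite (Level.proj h').ker := inferInstance
  exact @normInP_of_step L.Gal L₁.Gal _ _ (Level.proj h') (proj_surjective h') (CT L) (CT L₁)
    (trT h') (hD h').2 _ p (Level.relGal h₁) (Fintype.ofFinite _) (Level.relGal h)
    (Fintype.ofFinite _) (relGal_eq_comap h₁ h') hN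

end Tower

end

end Fermat.Agent.S55.GAD.H233

end
-- ===== PACK-END S55/GAD/ExTransH233.lean

-- ===== PACK-BEGIN S55/G/Rec/Tow/H953/AlgInf.lean
section
/-
S55 / REC2-TOW (helper417's interface), leaves ALG-INF and GD8 — helper953.

* `infInj : InfInjSpec`           (memo T7: inflation is injective on `p`-primary classes)
* `infResLift : InfResLiftSpec`   (inflation–restriction + descent: classes dying on `ker π` are
                                   inflated)
* `gd8_of : Gd8AssemblySpec p`    (GD8 is formal)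

All three are consequences of the comparison isomorphism `GAD.H953.compIso`
(`H²(Γ, C) ≅ H²(Γ' ⧸ ker π, C'^{ker π})`, `map π ι 2 = compIso ≫ infMap`) and helper244's
inflation–restriction up to torsion (`T.H244`).
-/



set_option autoImplicit false
set_option linter.unusedSectionVars false
set_option linter.style.haveILetI false

open CategoryTheory groupCohomology

namespace Fermat.Agent.S55.G.Rec.TOW.H953

open Fermat.Agent.S55 Fermat.Agent.S55.T Fermat.Agent.S55.Tow

noncomputable section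

/-- **ALG-INF**, injectivity. -/
theorem infInj : InfInjSpec := by
  intro p hp Γ' Γ _ _ _ π hπ C C' ι hι h1 z hz hinf
  haveI : Fact p.Prime := ⟨hp⟩
  obtain ⟨k, hk⟩ := hz
  obtain ⟨P⟩ : Nonempty (Sylow p π.ker) := inferInstance
  have hPp : IsPGroup p ((P : Subgroup π.ker).map π.ker.subtype) := P.isPGroup'.map _
  have hPle : (P : Subgroup π.ker).map π.ker.subtype ≤ π.ker := by
    rintro _ ⟨x, _, rfl⟩
    exact x.2
  have hP : ∀ z : groupCohomology (resSub (resSub C' π.ker) (P : Subgroup π.ker)) 1, z = 0 :=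
    H954.eq_zero_of_iso_of_isZero (H954.resResIso C' π.ker (P : Subgroup π.ker) 1)
      (h1 _ hPle hPp)
  have hcop : (p ^ k).Coprime (P : Subgroup π.ker).index :=
    Nat.Coprime.pow_left k ((Nat.Prime.coprime_iff_not_dvd hp).2 P.not_dvd_index)
  exact GAD.H953.map_eq_zero_imp π C' C ι hπ hι.1 hι.2 (P : Subgroup π.ker) hP hcop z hk hinf

/-- **ALG-LIFT**. -/
theorem infResLift : InfResLiftSpec := by
  intro Γ' Γ _ _ _ π hπ C C' ι hι h1 Y hY
  have h1' : ∀ x : groupCohomology (resSub C' π.ker) 1, 1 • x = 0 := fun x => by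
    rw [one_smul]
    exact (ModuleCat.isZero_iff_subsingleton.1 h1).elim _ _
  obtain ⟨y, hy⟩ := H244.exists_infMap_eq_nsmul_of_resMap_eq_zero C' π.ker h1' Y hY
  rw [one_smul] at hy
  have hfac := GAD.H953.map_eq_compIso_infMap π C' C ι hπ hι.1 hι.2 2
  refine ⟨(GAD.H953.compIso π C' C ι hπ hι.1 hι.2 2).inv.hom y, ?_⟩
  rw [hfac]
  show (infMap C' π.ker 2).hom ((GAD.H953.compIso π C' C ι hπ hι.1 hι.2 2).hom.hom
    ((GAD.H953.compIso π C' C ι hπ hι.1 hι.2 2).inv.hom y)) = Y
  have hid : (GAD.H953.compIso π C' C ι hπ hι.1 hι.2 2).hom.hom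
      ((GAD.H953.compIso π C' C ι hπ hι.1 hι.2 2).inv.hom y) = y := by
    simp
  rw [hid, hy]

/-- **GD8** assembly: GD8 is formal. -/
theorem gd8_of (p : ℕ) : Gd8AssemblySpec p := by
  intro hUp hInf S hp hp2 hpS L M h hM ι hι z hz hinf
  have hsurj : Function.Surjective (Level.proj h) := by
    intro g
    induction g using QuotientGroup.induction_on with
    | H σ => exact ⟨QuotientGroup.mk σ, rfl⟩
  exact hInf p hp M.Gal L.Gal (Level.proj h) hsurj (lvlC L) (lvlC M) ι hι
    (fun Q _ hQ => (hUp S hp hp2 hpS M hM Q hQ).1) z hz hinf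

/-- GD8, from `UpSpec` alone. -/
theorem gd8 (p : ℕ) (hUp : UpSpec p) : Gd8Spec p := gd8_of p hUp infInj

end

end Fermat.Agent.S55.G.Rec.TOW.H953

end
-- ===== PACK-END S55/G/Rec/Tow/H953/AlgInf.lean

-- ===== PACK-BEGIN S55/PT/H123/TopGlobC.lean
section


/-!
# S55 / layer D, leaf D-T2b (global dévissage), part C: induced modules   (helper123)

`Θ(Ind_U (twTriv χ W))` is injective for every finite-dimensional vector space `W`, given the
statement for `W = k` (input A7): coordinates `indMap U λ_i`, `indMap U ι_i` for a basis of `W`.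
-/

set_option autoImplicit false
set_option linter.unusedSectionVars false

noncomputable section

namespace Fermat.Agent.S55.PT.H123

open groupCohomology Fermat.Agent.S55.PT

variable {k : Type} [Field k] {G : Type} [Group G]

/-- every linear map is equivariant for the twisted trivial actions -/
lemma twTriv_equivariant (χ : G →* kˣ) {W W' : Type} [AddCommGroup W] [Module k W]
    [AddCommGroup W'] [Module k W'] (φ : W →ₗ[k] W') :
    IsEquivariant (A := twTriv χ W) (B := twTriv χ W') φ := by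
  intro g a
  rw [twTriv_ρ_apply, twTriv_ρ_apply, map_smul]

/-- `Σ_i ψ_i ∘ φ_i = id` on coefficients gives `Σ_i (ψ_i)_* ∘ (φ_i)_* = id` on `H²`. -/
lemma pushH2_sum_comp {G' : Type} [Group G'] (L' : LevelSys G') {A B : Rep.{0, 0, 0} k G'}
    {κ : Type} [Fintype κ] (φ : κ → (A →ₗ[k] B)) (ψ : κ → (B →ₗ[k] A))
    (hφ : ∀ i, IsEquivariant (φ i)) (hψ : ∀ i, IsEquivariant (ψ i))
    (hsum : ∀ a, ∑ i, ψ i (φ i a) = a) (x : L'.H2 A) :
    ∑ i, pushH2 (ψ i) (hψ i) L' (pushH2 (φ i) (hφ i) L' x) = x := by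
  obtain ⟨c, rfl⟩ := L'.H2π_surjective A x
  simp only [pushH2_mk]
  rw [← map_sum]
  congr 1
  apply Subtype.ext
  funext g
  rw [Submodule.coe_sum, Finset.sum_apply]
  simp only [coe_pushZ2, Function.comp_apply]
  exact hsum _

section Coord

variable (U : Subgroup G) (χ : G →* kˣ) (W : Type) [AddCommGroup W] [Module k W]
  [FiniteDimensional k W]

/-- the `i`-th coordinate `Ind_U (twTriv χ W) → Ind_U (ofChar χ)` -/
def coordMap (i : Fin (Module.finrank k W)) :
    ((G ⧸ U) →₀ (twTriv (G := G) χ W)) →ₗ[k] ((G ⧸ U) →₀ (ofChar χ : Rep.{0, 0, 0} k G)) :=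
  indMap (M := twTriv χ W) (N := ofChar χ) U ((Module.finBasis k W).coord i)

/-- the `i`-th inclusion `Ind_U (ofChar χ) → Ind_U (twTriv χ W)` -/
def inclMap (i : Fin (Module.finrank k W)) :
    ((G ⧸ U) →₀ (ofChar χ : Rep.{0, 0, 0} k G)) →ₗ[k] ((G ⧸ U) →₀ (twTriv (G := G) χ W)) :=
  indMap (M := ofChar χ) (N := twTriv χ W) U
    (LinearMap.toSpanSingleton k W (Module.finBasis k W i))

lemma coordMap_equivariant (i : Fin (Module.finrank k W)) :
    IsEquivariant (A := indRep U (twTriv χ W)) (B := indRep U (ofChar χ)) (coordMap U χ W i) :=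
  indMap_equivariant (M := twTriv χ W) (N := ofChar χ) U _
    (twTriv_equivariant χ ((Module.finBasis k W).coord i))

lemma inclMap_equivariant (i : Fin (Module.finrank k W)) :
    IsEquivariant (A := indRep U (ofChar χ)) (B := indRep U (twTriv χ W)) (inclMap U χ W i) :=
  indMap_equivariant (M := ofChar χ) (N := twTriv χ W) U _
    (twTriv_equivariant χ (LinearMap.toSpanSingleton k W (Module.finBasis k W i)))

lemma inclMap_coordMap_single (i : Fin (Module.finrank k W)) (x : G ⧸ U) (w : W) :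
    inclMap U χ W i (coordMap U χ W i (Finsupp.single x w : (G ⧸ U) →₀ (twTriv (G := G) χ W))) =
      (Finsupp.single x (((Module.finBasis k W).coord i w) • (Module.finBasis k W i)) :
        (G ⧸ U) →₀ (twTriv (G := G) χ W)) := by
  unfold inclMap coordMap
  rw [indMap_single, indMap_single]
  rfl

lemma sum_inclMap_coordMap (a : (G ⧸ U) →₀ (twTriv (G := G) χ W)) :
    ∑ i, inclMap U χ W i (coordMap U χ W i a) = a := by
  induction a using Finsupp.induction_linear with
  | zero =>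
    refine Finset.sum_eq_zero fun i _ => ?_
    rw [(coordMap U χ W i).map_zero, (inclMap U χ W i).map_zero]
  | add f g hf hg =>
    have : ∀ i, inclMap U χ W i (coordMap U χ W i (f + g)) =
        inclMap U χ W i (coordMap U χ W i f) + inclMap U χ W i (coordMap U χ W i g) := by
      intro i
      rw [(coordMap U χ W i).map_add, (inclMap U χ W i).map_add]
    rw [Finset.sum_congr rfl fun i _ => this i, Finset.sum_add_distrib, hf, hg]
  | single x w =>
    rw [Finset.sum_congr rfl fun i _ => inclMap_coordMap_single U χ W i x w]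
    have h := (Module.finBasis k W).sum_repr w
    have h2 : (Finsupp.single x (∑ i, ((Module.finBasis k W).coord i w) • (Module.finBasis k W i)) :
        (G ⧸ U) →₀ W) = Finsupp.single x w := by
      congr 1
    rw [← h2, Finsupp.single_finset_sum]

end Coord

end Fermat.Agent.S55.PT.H123

end

end
-- ===== PACK-END S55/PT/H123/TopGlobC.lean

-- ===== PACK-BEGIN S55/PT/H123/TopGlobD.lean
section


/-!
# S55 / layer D, leaf D-T2b (global dévissage), part D: the generic theorem   (helper123)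
-/

set_option autoImplicit false
set_option linter.unusedSectionVars false

noncomputable section

namespace Fermat.Agent.S55.PT.H123

open groupCohomology Fermat.Agent.S55.PT

variable {k : Type} [Field k] {G : Type} [Group G]
variable {ι : Type} [Fintype ι] [DecidableEq ι] {Gv : ι → Type} [∀ v, Group (Gv v)]
variable {L : LevelSys G} {Lv : ∀ v, LevelSys (Gv v)} {r : ∀ v, Gv v →* G}
variable (hr : ∀ v, IsLevelCompatible (r v) L (Lv v))
variable (χ : G →* kˣ) (inv : ∀ v, (Lv v).H2 (ofChar (χ.comp (r v))) →ₗ[k] k)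

/-- the augmentation of `Ind_U (ofChar χ)` as a `χ`-equivariant functional -/
def augChar (U : Subgroup G) : ↥(charHom χ (indRep U (ofChar χ))) :=
  ⟨indAug U (ofChar χ), fun g n => by
    have h := indAug_equivariant U (ofChar χ) g n
    rw [ofChar_ρ_apply] at h
    exact h⟩

/-- generic form of input A7 for the level `U` -/
def IndInj (U : Subgroup G) : Prop :=
  ∀ x : (v : ι) → (Lv v).H2 (Rep.res (r v) (indRep U (ofChar χ))),
    (∑ v : ι, inv v (pushH2 (A := Rep.res (r v) (indRep U (ofChar χ)))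
      (B := Rep.res (r v) (ofChar χ)) (indAug U (ofChar χ))
      ((indAug_equivariant U (ofChar χ)).res (r v)) (Lv v) (x v))) = 0 →
    x ∈ LinearMap.range (loc2 hr (indRep U (ofChar χ)))

variable {χ inv}

/-- `Θ(Ind_U (twTriv χ W))` is injective (in the form: kernel of `topGlobFun` is the range of
`loc2`). -/
theorem mem_range_loc2_ind (U : Subgroup G) (hInd : IndInj hr χ inv U)
    (W : Type) [AddCommGroup W] [Module k W] [FiniteDimensional k W]
    (x : (v : ι) → (Lv v).H2 (Rep.res (r v) (indRep U (twTriv χ W))))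
    (hx : topGlobFun χ inv (indRep U (twTriv χ W)) x = 0) :
    x ∈ LinearMap.range (loc2 hr (indRep U (twTriv χ W))) := by
  -- the coordinates of `x`
  have hcoord : ∀ i, pushLoc2 (r := r) (Lv := Lv) (A := indRep U (twTriv χ W))
      (B := indRep U (ofChar χ)) (coordMap U χ W i) (coordMap_equivariant U χ W i) x ∈
      LinearMap.range (loc2 hr (indRep U (ofChar χ))) := by
    intro i
    apply hInd
    have h1 := topGlobFun_push (inv := inv) (N := indRep U (twTriv χ W))
      (N' := indRep U (ofChar χ)) (coordMap U χ W i) (coordMap_equivariant U χ W i) x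
      (augChar χ U)
    rw [hx, LinearMap.zero_apply, topGlobFun_apply] at h1
    exact h1
  choose y hy using hcoord
  refine ⟨∑ i, pushH2 (A := indRep U (ofChar χ)) (B := indRep U (twTriv χ W))
    (inclMap U χ W i) (inclMap_equivariant U χ W i) L (y i), ?_⟩
  rw [map_sum]
  funext v
  rw [Finset.sum_apply]
  have h2 : ∀ i, loc2 hr (indRep U (twTriv χ W))
      (pushH2 (A := indRep U (ofChar χ)) (B := indRep U (twTriv χ W))
        (inclMap U χ W i) (inclMap_equivariant U χ W i) L (y i)) v =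
      pushH2 (A := Rep.res (r v) (indRep U (ofChar χ)))
        (B := Rep.res (r v) (indRep U (twTriv χ W)))
        (inclMap U χ W i) ((inclMap_equivariant U χ W i).res (r v)) (Lv v)
        (pushH2 (A := Rep.res (r v) (indRep U (twTriv χ W)))
          (B := Rep.res (r v) (indRep U (ofChar χ)))
          (coordMap U χ W i) ((coordMap_equivariant U χ W i).res (r v)) (Lv v) (x v)) := by
    intro i
    rw [loc2_pushH2, hy i]
    rfl
  rw [Finset.sum_congr rfl fun i _ => h2 i]
  exact pushH2_sum_comp (Lv v) (A := Rep.res (r v) (indRep U (twTriv χ W)))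
    (B := Rep.res (r v) (indRep U (ofChar χ)))
    (fun i => coordMap U χ W i) (fun i => inclMap U χ W i)
    (fun i => (coordMap_equivariant U χ W i).res (r v))
    (fun i => (inclMap_equivariant U χ W i).res (r v))
    (sum_inclMap_coordMap U χ W) (x v)

/-- `π_* ∘ i_* = 0` on `H²` -/
lemma pushH2_π_i {G' : Type} [Group G'] (L' : LevelSys G') {A B C : Rep.{0, 0, 0} k G'}
    (E : SES A B C) (z : L'.H2 A) :
    pushH2 E.π E.hπ L' (pushH2 E.i E.hi L' z) = 0 := by
  obtain ⟨c, rfl⟩ := L'.H2π_surjective A z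
  rw [pushH2_mk, pushH2_mk]
  have : pushZ2 E.π E.hπ L' (pushZ2 E.i E.hi L' c) = 0 := by
    apply Subtype.ext
    funext g
    simp only [coe_pushZ2, Function.comp_apply]
    exact E.π_i _
  rw [this, map_zero]

/-- The four lemma: injectivity of `Θ(N)` from surjectivity of `Θ(R)`, injectivity of `Θ(Q)` and
surjectivity of `∏_v H²(G_v, Q) → ∏_v H²(G_v, N)`, for a short exact sequence
`0 → R → Q → N → 0`. -/
theorem mem_range_loc2_of_ses {R Q N : Rep.{0, 0, 0} k G} (E : SES R Q N)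
    (hrec : IsRecip hr χ inv)
    (hsurjR : Function.Surjective (topT3 hr R hrec))
    (hinjQ : ∀ x : (v : ι) → (Lv v).H2 (Rep.res (r v) Q),
      topGlobFun χ inv Q x = 0 → x ∈ LinearMap.range (loc2 hr Q))
    (hπ : ∀ v, Function.Surjective (pushH2 (A := Rep.res (r v) Q) (B := Rep.res (r v) N)
      E.π (E.hπ.res (r v)) (Lv v)))
    (x : (v : ι) → (Lv v).H2 (Rep.res (r v) N)) (hx : topGlobFun χ inv N x = 0) :
    x ∈ LinearMap.range (loc2 hr N) := by
  -- 1. lift `x` to `Q`
  choose x' hx' using fun v => hπ v (x v)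
  have hxx' : pushLoc2 (r := r) (Lv := Lv) E.π E.hπ x' = x := by
    funext v
    rw [pushLoc2_apply]
    exact hx' v
  -- 2. `Θ(Q)(x')` kills the functionals vanishing on `R`
  have hkill : ∀ f : ↥(charHom χ Q), charHomPull χ E.i E.hi f = 0 →
      topGlobFun χ inv Q x' f = 0 := by
    intro f hf
    obtain ⟨f', rfl⟩ := ker_charHomPull_le χ E (LinearMap.mem_ker.2 hf)
    rw [← topGlobFun_push, hxx', hx, LinearMap.zero_apply]
  -- 3. factor through `charHom χ R`
  obtain ⟨δ, hδ⟩ := exists_factor_sub (charHom χ Q) (charHom χ R) (charHomPull χ E.i E.hi)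
    (topGlobFun χ inv Q x') hkill
  -- 4. `Θ(R)` is surjective
  obtain ⟨d', hd'⟩ := hsurjR δ
  obtain ⟨d, rfl⟩ := T3π_surjective hr R d'
  rw [topT3_mk] at hd'
  -- 5. correct `x'`
  have h5 : topGlobFun χ inv Q (x' - pushLoc2 (r := r) (Lv := Lv) E.i E.hi d) = 0 := by
    apply LinearMap.ext
    intro f
    rw [map_sub, LinearMap.sub_apply, topGlobFun_push, hd', hδ, sub_self, LinearMap.zero_apply]
  -- 6. injectivity for `Q`
  obtain ⟨y, hy⟩ := hinjQ _ h5
  -- 7. conclusion
  refine ⟨pushH2 E.π E.hπ L y, ?_⟩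
  rw [loc2_pushH2, hy, map_sub, hxx']
  have h7 : pushLoc2 (r := r) (Lv := Lv) E.π E.hπ (pushLoc2 (r := r) (Lv := Lv) E.i E.hi d) = 0 := by
    funext v
    rw [pushLoc2_apply, pushLoc2_apply]
    exact pushH2_π_i (Lv v) (E.res (r v)) (d v)
  rw [h7, sub_zero]

end Fermat.Agent.S55.PT.H123

end

end
-- ===== PACK-END S55/PT/H123/TopGlobD.lean

-- ===== PACK-BEGIN S56/Euler/Big/H2CPSpec.lean
section


/-!
# Row S56 / wall BASE — BASE-BIG: the `H²` term of CHAR-EULER, FROZEN statement (helper366)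

* `H2CPSpec p S` (H2-CP, **equivariant tail of Poitou–Tate**): for a finite-dimensional smooth
  `N` with an equivariant endomorphism `T` and `Ш²_S(N) = 0`:

    `charpoly (T | H²_S(N)) · charpoly (Tᵛ | H⁰(G_ℚ, N′)) = ∏_{q ∈ S} charpoly (Tᵛ | H⁰(G_q, N′))`,

  `N′ = tdual p N`, `Tᵛ = T.dualMap` (`f ↦ f ∘ T`).
  Proof: `0 → H²(N) → ∏_q H²(G_q, N) → T³(N) → 0` is exact (`Ш² = 0`, definition of `T³`) and
  commutes with `T_*`; `topPair` (local) and `topT3` (global) are bijective (S55 by-products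
  `TopLocSpec`, `TopGlobSpec`) and NATURAL: `topPair (T_* x) f = topPair x (f ∘ T)`
  (`pushH2_comp`); `charHom χ N = H⁰(N′)` as submodules of `Dual N` (`PT.H0_dualTwist_eq`);
  a map and its transpose have the same characteristic polynomial; the characteristic polynomial
  is multiplicative in short exact sequences (`H614.charpoly_of_exact`).

For `N = Ind_U μ_p`, `T = R_σ` (`H419.indR`): `T.dualMap = H419.indRDual U μ σ⁻¹`, and the
right-hand side / the second factor are computed by `H419.charpoly_H0_loc_tdual`,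
`H419.charpoly_H0_glob_tdual` (a permutation and its inverse have the same `permCharpoly`).

Nothing unproved in this file.
-/

set_option autoImplicit false

open Polynomial

noncomputable section

namespace Fermat.Agent.S56.Euler

open Fermat.Agent.S56 Fermat.Agent.S55.PT ExtCitation Module groupCohomology

variable (p : ℕ) [Fact p.Prime] (S : Finset Nat.Primes)

/-- (H2-CP) **the equivariant `H²` formula.** -/
def H2CPSpec : Prop :=
  p ≠ 2 → pPrime p ∈ S →
    ∀ (N : Rep.{0, 0, 0} (ZMod p) _root_.Fermat.Agent.S56.GQ) (T : N →ₗ[ZMod p] N) (hT : IsEquivariant T),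
      (globalLevels S).IsUSmooth N → Sha2 (hrl S) N = ⊥ →
      ∀ (_ : Module.Finite (ZMod p) N) (_ : Module.Finite (ZMod p) ((globalLevels S).H2 N)),
        LinearMap.charpoly (pushH2 T hT (globalLevels S)) *
            LinearMap.charpoly (pushH0 (A := tdual p N) (B := tdual p N) T.dualMap
              (dualMap_equivariant (cycloChar p) T hT)) =
          ∏ q ∈ S, LinearMap.charpoly
            (pushH0 (A := Rep.res (rl q) (tdual p N)) (B := Rep.res (rl q) (tdual p N))
              T.dualMap ((dualMap_equivariant (cycloChar p) T hT).res (rl q)))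

end Fermat.Agent.S56.Euler

end

end
-- ===== PACK-END S56/Euler/Big/H2CPSpec.lean

-- ===== PACK-BEGIN S55/KC/Assembly.lean
section


/-!
# S55 / layer KC: ASSEMBLY  leaves ⇒ outputs          (architect: helper53)

Sorry-free proof that the leaves of `KC/Spec.lean` imply the outputs of layer KC:
`PT.FinLocSpec` (A2), `PT.Surj2LocSpec` (A4), `H2IndCardSpec`, `H2MuCardSpec`, `LocalH3VanishSpec`
and `PT.TopLocIndSpec inv` (A6) for every family of bijective maps `inv`.
-/

set_option autoImplicit false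
set_option linter.style.haveILetI false

noncomputable section

namespace Fermat.Agent.S55.KC

open groupCohomology ExtCitation Fermat.Agent.S55.PT

/-- The dictionary leaves (blocks Q and D). -/
structure DictLeaves : Prop where
  q1 : Q1Spec
  q2 : Q2Spec
  q3 : Q3Spec
  qInf : QInfSpec
  d1 : H1VanishOfAtSpec
  d2 : H2OfAtSpec
  d3 : H3VanishOfAtSpec

/-- The Kummer leaves (block K). -/
structure KummerLeaves : Prop where
  k2 : KummerH2Spec
  k3 : KummerH3Spec

/-- The arithmetic leaves (block A). -/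
structure ArithLeaves : Prop where
  levels : LocalLevelsSpec
  classFormation : LocalClassFormationSpec
  kummerEmb : LocalKummerEmbSpec
  pUnbounded : LocalPUnboundedSpec
  frattini : LocalFrattiniSpec
  mu : LocalMuSpec

/-- The leaves on induced modules (block I). -/
structure IndLeaves : Prop where
  indKummer : IndKummerSpec
  indWCF : IndWCFSpec
  selfWCF : SelfWCFSpec
  pUnboundedRel : PUnboundedRelSpec

section Abstract

variable {G : Type} [Group G] (L : LevelSys G) (p : ℕ) [Fact p.Prime]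

/-- Level-constant cohomology of a weak class formation. -/
theorem lc_of_wcf (hD : DictLeaves) (B : Rep.{0, 0, 0} ℤ G) (V₀ : Subgroup G)
    (n : Subgroup G → ℕ) (hN : L.NormalCofinal) (hF : L.FiniteIndex) (hsm : L.IsSmooth B)
    (hV₀ : V₀ ∈ L.levels) (hW : IsWCF L B V₀ n) (hU : PUnbounded L p V₀ n) :
    H1Vanish L B ∧ H3Vanish L B ∧ H2Divisible L p B ∧
      Nat.card {x : L.H2 B // p • x = 0} = p := by
  have h1 : H1Vanish L B := hD.d1 G L B V₀ hN hV₀ (fun V hV hVn hle => by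
    haveI := hVn
    exact hD.q1 G B V (hW.h1 V hV hle))
  have h3 : H3Vanish L B := hD.d3 G L B V₀ hN hF hsm hV₀ (fun V hV hVn hle => by
    haveI := hVn
    exact hD.q3 G B V (hW.h3 V hV hle))
  have h2 := hD.d2 G L p B V₀ n hN hF hsm hV₀
    (fun V hV hVn hle => by
      haveI := hVn
      exact ⟨hW.npos V hV hle, ⟨(hD.q2 G B V).some.trans (hW.h2 V hV hle).some⟩⟩)
    (fun V' V hV' hV'n hV hVn hle hle0 f hf hc => by
      haveI := hV'n
      haveI := hVn
      exact hD.qInf G B V' V hle (hW.h1rel V' V hV' hV hle hle0) f hf hc)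
    hU
  exact ⟨h1, h3, h2.1, h2.2⟩

/-- The Kummer theorem: `|H²_lc(G, M)| = p` and `H³_lc(G, M) = 0` for `M = B[p]`, `B` a
`p`-divisible weak class formation with unbounded `p`-part. -/
theorem kummer_of_wcf (hD : DictLeaves) (hK : KummerLeaves) (M : Rep.{0, 0, 0} (ZMod p) G)
    (B : Rep.{0, 0, 0} ℤ G) (ι : M →+ B) (V₀ : Subgroup G) (n : Subgroup G → ℕ)
    (hN : L.NormalCofinal) (hF : L.FiniteIndex) (hsm : L.IsSmooth B) (hdiv : IsPDivisible p B)
    (hι : IsKummerEmb p M B ι) (hV₀ : V₀ ∈ L.levels) (hW : IsWCF L B V₀ n)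
    (hU : PUnbounded L p V₀ n) :
    Nat.card (L.H2 M) = p ∧ H3Vanish L M := by
  obtain ⟨h1, h3, h2d, h2c⟩ := lc_of_wcf L p hD B V₀ n hN hF hsm hV₀ hW hU
  exact ⟨(hK.k2 G L p M B ι hN hF hsm hdiv hι h1).trans h2c,
    hK.k3 G L p M B ι hN hF hsm hdiv hι h3 h2d⟩

end Abstract

section Local

variable (p : ℕ) [Fact p.Prime]

/-- `|H²(G_q, Ind_H μ)| = p` and `H³_lc(G_q, Ind_H μ) = 0` for every open subgroup `H`. -/
theorem local_ind (hD : DictLeaves) (hK : KummerLeaves) (hI : IndLeaves) (hA : ArithLeaves)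
    (q : Nat.Primes) (H : Subgroup (Gl q)) (hH : IsOpenSub (localLevels q) H) :
    Nat.card ((localLevels q).H2 (indRep H (muLoc p q))) = p ∧
      H3Vanish (localLevels q) (indRep H (muLoc p q)) := by
  obtain ⟨hN, hF⟩ := hA.levels q
  obtain ⟨U, hU, hUH⟩ := hH
  obtain ⟨V₀, hV₀, hV₀U, -⟩ := hN U hU
  have hV₀H : V₀ ≤ H := hV₀U.trans hUH
  obtain ⟨hsm, hdiv, ι, hι⟩ := hA.kummerEmb p q
  obtain ⟨hsm', hdiv', hι'⟩ := hI.indKummer (Gl q) (localLevels q) p (muLoc p q) (unitsA q) ι H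
    hN ⟨U, hU, hUH⟩ hsm hdiv hι
  have hW := hI.indWCF (Gl q) (localLevels q) (unitsA q) H V₀ hF (hA.classFormation q) hV₀ hV₀H
  have hUn := hI.pUnboundedRel (Gl q) (localLevels q) p H V₀ hF hV₀ hV₀H (hA.pUnbounded p q V₀ hV₀)
  exact kummer_of_wcf (localLevels q) p hD hK (indRep H (muLoc p q)) (indR H (unitsA q))
    (indEmb p H (muLoc p q) (unitsA q) ι) V₀ _ hN hF hsm' hdiv' hι' hV₀ hW hUn

/-- Output: `|H²(G_q, Ind_W μ_p)| = p`. -/
theorem h2IndCard (hD : DictLeaves) (hK : KummerLeaves) (hI : IndLeaves) (hA : ArithLeaves) :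
    H2IndCardSpec := fun p _ q W hW _ => (local_ind p hD hK hI hA q W hW).1

/-- Output: `|H²(G_q, μ_p)| = p`. -/
theorem h2MuCard (hD : DictLeaves) (hK : KummerLeaves) (hI : IndLeaves) (hA : ArithLeaves) :
    H2MuCardSpec := by
  intro p _ q
  obtain ⟨hN, hF⟩ := hA.levels q
  obtain ⟨V₀, hV₀⟩ := (localLevels q).nonempty
  obtain ⟨hsm, hdiv, ι, hι⟩ := hA.kummerEmb p q
  have hW := hI.selfWCF (Gl q) (localLevels q) (unitsA q) V₀ hF (hA.classFormation q) hV₀
  exact (kummer_of_wcf (localLevels q) p hD hK (muLoc p q) (unitsA q) ι V₀ _ hN hF hsm hdiv hι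
    hV₀ hW (hA.pUnbounded p q V₀ hV₀)).1

/-- Output: `cd_p(G_{ℚ_q}) ≤ 2` in the form `H³_lc(G_q, R) = 0`. -/
theorem localH3Vanish (hP3 : H3DevissageSpec) (hD : DictLeaves) (hK : KummerLeaves)
    (hI : IndLeaves) (hA : ArithLeaves) : LocalH3VanishSpec := by
  intro p _ q R hR hRsm
  obtain ⟨hN, hF⟩ := hA.levels q
  obtain ⟨hμ1, hμsm⟩ := hA.mu p q
  exact hP3 (Gl q) (localLevels q) p (muLoc p q) hN hF hμ1 hμsm
    (fun H hH _ => (local_ind p hD hK hI hA q H hH).2) R hR hRsm

/-- Output A4: `PT.Surj2LocSpec`. -/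
theorem surj2Loc (hP2 : Surj2OfH3Spec) (hP3 : H3DevissageSpec) (hD : DictLeaves)
    (hK : KummerLeaves) (hI : IndLeaves) (hA : ArithLeaves) (S : Finset Nat.Primes) :
    Surj2LocSpec p S := by
  intro q _ P N φ hφ hP hPsm hNsm hsurj
  exact hP2 (Gl q) (localLevels q) p (hA.levels q).1
    (fun R hR hRsm => localH3Vanish hP3 hD hK hI hA p q R hR hRsm) P N φ hφ hP hPsm hNsm hsurj

/-- Output A2: `PT.FinLocSpec`. -/
theorem finLoc (hP1 : FinLocOfFrattiniSpec) (hA : ArithLeaves) (S : Finset Nat.Primes) :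
    FinLocSpec p S := by
  intro q _ N hN hNsm
  exact hP1 (Gl q) (localLevels q) p (hA.levels q).2 (hA.frattini p q) N hN hNsm

/-- Output A6: `PT.TopLocIndSpec inv` for every family of bijective maps `inv`. -/
theorem topLocInd (hP2 : Surj2OfH3Spec) (hP3 : H3DevissageSpec) (hP4 : TopLocIndOfSpec)
    (hD : DictLeaves) (hK : KummerLeaves) (hI : IndLeaves) (hA : ArithLeaves)
    (S : Finset Nat.Primes) (inv : InvFamily p S) (hinv : ∀ v : ↥S, Function.Bijective (inv v)) :
    TopLocIndSpec inv :=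
  hP4 p S inv hinv (fun v => (hA.levels v.1).2) (surj2Loc p hP2 hP3 hD hK hI hA S)
    (fun v W hW _ _ => (local_ind p hD hK hI hA v.1 W ⟨W, hW, le_rfl⟩).1)

end Local

end Fermat.Agent.S55.KC

end

end
-- ===== PACK-END S55/KC/Assembly.lean

-- ===== PACK-BEGIN S55/KC/Q12H321.lean
section



/-!
# S55 / layer KC, block Q: `Q1Spec`, `Q2Spec`                               (helper321)

Thin wrappers around the Mathlib-only core `Fermat/Agent/S55/H321/QDict.lean`
(`q1_core`, `q2_core`).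
-/

set_option autoImplicit false

namespace Fermat.Agent.S55.KC.H321

open groupCohomology Fermat.Agent.S55.KC

/-- **KC-Q1.**  `H¹(G ⧸ V, B^V) = 0` (Mathlib's `groupCohomology`) ⇒ `H1VanishAt V B`. -/
theorem q1 : Q1Spec := fun _ _ B V _ h1 f hf hat =>
  Fermat.Agent.S55.H321.q1_core B V h1 f hf hat

/-- **KC-Q2.**  `H2At V B ≃+ H²(G ⧸ V, B^V)` (Mathlib's `groupCohomology`). -/
theorem q2 : Q2Spec := fun _ _ B V _ =>
  Fermat.Agent.S55.H321.q2_core B V (Z2At V B) (B2At V B) (fun _ => Iff.rfl) (fun _ => Iff.rfl)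

end Fermat.Agent.S55.KC.H321

end
-- ===== PACK-END S55/KC/Q12H321.lean

-- ===== PACK-BEGIN S55/Inv/SpecK.lean
section



/-!
# S55 / `InvSpec` : FROZEN SUB-INTERFACE, part 3 — the arithmetic cores (sub-architect helper3)

The two global leaves `GlobCokerSpec` (INV-COK) and `WeakRecipSpec` (INV-WR) are reduced to
statements in the cochain vocabulary of layer K (`K/Defs.lean`, `K/Spec.lean`):
coefficients `μ = Bridge.muP p`, `𝔼 = K.sUnits S`, `𝕃_q = Tow.unitsQpbar q`, induced modules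
`K.indG U A`, `K.ind (rl q) U A`.

* `CokerESpec p S`          (GO4): any two families of local classes of `Ind_U μ` (`q ∈ S`) have a
                            non-trivial `F_p`-combination which is the localisation of a global
                            `p`-torsion class of `Ind_U 𝔼`, the comparison taking place in
                            `H²(G_q, Ind_U 𝕃_q)`;
* `WeakRecipESpec p S`      (GO5): a global `p`-torsion class of `𝔼` over `ℚ` which is locally
                            trivial (in `𝕃_{v'}`) at all `v' ≠ v` is locally trivial at `v`;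
* `LocKummerInjSpec p S`    (LKI): `H²(G_q, μ) → H²(G_q, 𝕃_q)` is injective (Hilbert 90);
* `LocKummerInjIndSpec p S` (LKI-Ind): the same for `Ind_U μ → Ind_U 𝕃_q`.

Adapters (leaves INV-COK, INV-WR):
  `GlobCokerSpec ⇐ CokerESpec + K.KummerSpec + LocKummerInjIndSpec`,
  `WeakRecipSpec ⇐ WeakRecipESpec + LocKummerInjSpec`.
-/

set_option autoImplicit false

noncomputable section

namespace Fermat.Agent.S55.Inv

open Fermat.Agent.S55.PT Fermat.Agent.S55.K Fermat.Agent.S55.Bridge groupCohomology ExtCitation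

variable (p : ℕ) [Fact p.Prime] (S : Finset Nat.Primes)

/-- `μ_p → ℚ̄_qˣ` (through the `S`-units). -/
def muToL (q : Nat.Primes) : muP p →+ Tow.unitsQpbar q :=
  (locE q S).toAddMonoidHom.comp (muToE p S)

/-- `Ind_U μ_p → Ind_U ℚ̄_qˣ` (through `Ind_U 𝔼`). -/
def indMuToL (q : Nat.Primes) (U : Subgroup _root_.Fermat.Agent.S55.PT.GQ) :
    indG U (muP p) →+ ind (rl q) U (Tow.unitsQpbar q) :=
  (indLocE q S U).toAddMonoidHom.comp (indMuToE p S U)

/-- **LKI.**  A level-constant local 2-cocycle with values in `μ_p` which is the coboundary of a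
level-constant 1-cochain with values in `ℚ̄_qˣ` is the coboundary of a level-constant 1-cochain
with values in `μ_p`.  (Hilbert 90 + divisibility of `ℚ̄_qˣ`.) -/
def LocKummerInjSpec : Prop :=
  ∀ q ∈ S, ∀ x ∈ (localLevels q).Z2 (Rep.res (rl q) (muP p)),
    (muToL p S q ∘ x : Gl q × Gl q → Tow.unitsQpbar q) ∈
        (localLevels q).B2 (Tow.unitsQpbar q) →
      x ∈ (localLevels q).B2 (Rep.res (rl q) (muP p))

/-- **LKI-Ind.**  The same for the induced modules `Ind_U μ_p → Ind_U ℚ̄_qˣ`, `U` a normal global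
level. -/
def LocKummerInjIndSpec : Prop :=
  ∀ q ∈ S, ∀ U ∈ (globalLevels S).levels, U.Normal →
    ∀ x ∈ (localLevels q).Z2 (Rep.res (rl q) (indG U (muP p))),
      (indMuToL p S q U ∘ x : Gl q × Gl q → ind (rl q) U (Tow.unitsQpbar q)) ∈
          (localLevels q).B2 (ind (rl q) U (Tow.unitsQpbar q)) →
        x ∈ (localLevels q).B2 (Rep.res (rl q) (indG U (muP p)))

/-- **GO5 (weak reciprocity over `ℚ`, `S`-units).**  Let `e` be a level-constant 2-cocycle of
`G_ℚ` with values in the `S`-units, of `p`-torsion class.  If `e` is locally a coboundary (with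
values in `ℚ̄_{v'}ˣ`) at all `v' ∈ S` different from `v`, then it is locally a coboundary at `v`.
(Sum formula for `Br(ℚ)[p]`: the invariants outside `S` vanish since `e` is `S`-unramified with
unit values; `p` odd: no contribution at infinity.) -/
def WeakRecipESpec : Prop :=
  p ≠ 2 → pPrime p ∈ S →
  ∀ e ∈ (globalLevels S).Z2 (sUnits S), p • e ∈ (globalLevels S).B2 (sUnits S) →
    ∀ v : ↥S,
      (∀ v' : ↥S, v' ≠ v →
        (locE v'.1 S ∘ e ∘ Prod.map (rl v'.1) (rl v'.1) :
            Gl v'.1 × Gl v'.1 → Tow.unitsQpbar v'.1) ∈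
          (localLevels v'.1).B2 (Tow.unitsQpbar v'.1)) →
      (locE v.1 S ∘ e ∘ Prod.map (rl v.1) (rl v.1) :
          Gl v.1 × Gl v.1 → Tow.unitsQpbar v.1) ∈
        (localLevels v.1).B2 (Tow.unitsQpbar v.1)

/-- **GO4 (cokernel of the localisation map has order `≤ p`).**  Let `U` be a normal level
acting trivially on `μ_p` and let `x, x'` be two families of level-constant local 2-cocycles with
values in `Ind_U μ_p`.  Then there are `(a, b) ≠ (0, 0)` in `F_p` and a level-constant 2-cocycle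
`e` of `G_ℚ` with values in `Ind_U 𝔼`, of `p`-torsion class, whose localisation at every `q ∈ S`
is cohomologous in `Ind_U ℚ̄_qˣ` to `a • x_q + b • x'_q`.
(`H²(G_S(K), 𝒪_Sˣ)[p] → ⊕_{w ∣ S} Br(K_w)[p] → H²(C_S(K))[p]`, the last group of order `≤ p`.) -/
def CokerESpec : Prop :=
  p ≠ 2 → pPrime p ∈ S →
  ∀ U ∈ (globalLevels S).levels, U.Normal → (∀ s ∈ U, cycloChar p s = 1) →
    ∀ x x' : (q : ↥S) → (Gl q.1 × Gl q.1 → indG U (muP p)),
      (∀ q : ↥S, x q ∈ (localLevels q.1).Z2 (Rep.res (rl q.1) (indG U (muP p)))) →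
      (∀ q : ↥S, x' q ∈ (localLevels q.1).Z2 (Rep.res (rl q.1) (indG U (muP p)))) →
      ∃ a b : ZMod p, (a ≠ 0 ∨ b ≠ 0) ∧
        ∃ e ∈ (globalLevels S).Z2 (indG U (sUnits S)),
          p • e ∈ (globalLevels S).B2 (indG U (sUnits S)) ∧
          ∀ q : ↥S,
            ((indLocE q.1 S U ∘ e ∘ Prod.map (rl q.1) (rl q.1) :
                Gl q.1 × Gl q.1 → ind (rl q.1) U (Tow.unitsQpbar q.1)) -
              indMuToL p S q.1 U ∘ (a • x q + b • x' q)) ∈
              (localLevels q.1).B2 (ind (rl q.1) U (Tow.unitsQpbar q.1))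

end Fermat.Agent.S55.Inv

end

end
-- ===== PACK-END S55/Inv/SpecK.lean

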