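import Fermat.Agent.Pack.S56.E17L3
import Fermat.Agent.Pack.S56.E16L0
import Fermat.Agent.Pack.S56.E16L2
import Fermat.Agent.Pack.S56.E14L3
import Fermat.Agent.Pack.S56.E10L3
import Fermat.Agent.Pack.S56.E9L2
import Fermat.Agent.Pack.S56.E17L0
import Fermat.Agent.Pack.S56.E11L0
import Fermat.Agent.Pack.S56.E17L2
import Fermat.Agent.Pack.S56.E16L3
import Fermat.Agent.Pack.S56.E4L3
import Fermat.Agent.Pack.S56.E2L3

-- ===== PACK-BEGIN S56/H716/GWGlue3.lean
section


/-!
# Row S56 — the wall GW-WALL, layer 3c: glue for the route through a bigger set (deputy helper716)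

* `gwWall_of_big : BaseBigStatement → RecQBigStatement → UrCountStatement → TWInvStatement →
    GWWallStatement`
* `recQ_of_recQBig : RecQBigStatement → RecQStatement`
* `tangentBoundOrd_of_big`, `tangentBoundFlat_of_big`.
-/

set_option autoImplicit false

open Polynomial IsLocalRing

noncomputable section

namespace Fermat.Agent.S56.H716

open Fermat.Agent.S56

section

variable (𝒪 : Type) [CommRing 𝒪] [IsDomain 𝒪] [IsDiscreteValuationRing 𝒪]
  (p : ℕ) (ρbar : ResidualGaloisRep (ResidueField 𝒪)) (S Smin : Finset ℕ)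

/-- **Glue** `GW-WALL ⇐ BASE-BIG + REC-Q-BIG + UR-COUNT + TW-INV` for one representation. -/
theorem gwWall_of_baseBig_recQBig (hSmin : Smin ⊆ S)
    (hb : BaseBig 𝒪 p ρbar Smin) (hr : RecQBig 𝒪 p ρbar S Smin)
    (hur : ∀ v : ℕ, v.Prime → v ∉ Smin → ∀ P : ValuationSubring Qb, P.LiesOverPrime v →
      ∃ Λ : Submodule (ResidueField 𝒪) (GQ → Module.End (ResidueField 𝒪) ρbar.V),
        Module.Finite (ResidueField 𝒪) Λ ∧
        Module.finrank (ResidueField 𝒪) Λ ≤
          Module.finrank (ResidueField 𝒪) (adInv ρbar (P.decompositionSubgroup ℚ)) ∧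
        ∀ c, IsAdCocycle ρbar c → UnramAt ρbar c v →
          ∃ t ∈ Λ, IsAdCoboundaryOn ρbar (P.decompositionSubgroup ℚ) (c - t))
    (htw : ∀ q : ℕ, IsTWPrime ρbar p S q → ∀ P : ValuationSubring Qb, P.LiesOverPrime q →
      1 ≤ Module.finrank (ResidueField 𝒪) (adInv ρbar (P.decompositionSubgroup ℚ))) :
    GWWall 𝒪 p ρbar S Smin := by
  classical
  obtain ⟨S', hSS', hS'prime, Pl, hPl, D, X, hD, hDur, hXfin, hX, hdim⟩ := hb
  refine ⟨Pl, fun v hv => hPl v (hSS' hv), fun Λ δ hΛ => ⟨D, hD, fun Q hQ hK => ?_⟩⟩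
  obtain ⟨U, hUfin, hUdim, hU⟩ := hr S' hSS' hS'prime Pl hPl D hD hDur Q hQ hK
  have hQS : ∀ q ∈ Q, q ∉ Smin := fun q hq h => (hQ q hq).2.1 (hSmin h)
  -- the local spaces on `S' \ Q`
  let Λ' : ℕ → Submodule (ResidueField 𝒪) (GQ → Module.End (ResidueField 𝒪) ρbar.V) :=
    fun v => if h : v ∈ Smin then Λ v else
      if h' : v ∈ S' then (hur v (hS'prime v h') h (Pl v) (hPl v h')).choose else ⊥
  have hΛ'1 : ∀ v, v ∈ Smin → Λ' v = Λ v := fun v h => dif_pos h
  have hΛ'2 : ∀ v (h : v ∉ Smin) (h' : v ∈ S'),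
      Λ' v = (hur v (hS'prime v h') h (Pl v) (hPl v h')).choose := fun v h h' => by
    simp only [Λ', dif_neg h, dif_pos h']
  let h0 : ℕ → ℕ := fun v =>
    Module.finrank (ResidueField 𝒪) (adInv ρbar ((Pl v).decompositionSubgroup ℚ))
  let dd : ℕ → ℕ := fun v => if v ∈ Smin then δ v else 0
  have hfin' : ∀ v ∈ S' \ Q, Module.Finite (ResidueField 𝒪) (Λ' v) := by
    intro v hv
    by_cases h : v ∈ Smin
    · rw [hΛ'1 v h]
      exact (hΛ.1 v h).1
    · have hvS' : v ∈ S' := (Finset.mem_sdiff.1 hv).1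
      rw [hΛ'2 v h hvS']
      exact (hur v (hS'prime v hvS') h (Pl v) (hPl v hvS')).choose_spec.1
  have hbound' : ∀ v ∈ S' \ Q, Module.finrank (ResidueField 𝒪) (Λ' v) ≤ h0 v + dd v := by
    intro v hv
    by_cases h : v ∈ Smin
    · rw [hΛ'1 v h]
      simpa [dd, h0, h] using (hΛ.1 v h).2
    · have hvS' : v ∈ S' := (Finset.mem_sdiff.1 hv).1
      rw [hΛ'2 v h hvS']
      simpa [dd, h0, h] using
        (hur v (hS'prime v hvS') h (Pl v) (hPl v hvS')).choose_spec.2.1
  have hsel' : ∀ c, IsSelCocycle ρbar Pl Λ Smin Q c → IsSelCocycle ρbar Pl Λ' (S' \ Q) Q c := by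
    intro c hc
    refine ⟨hc.cocycle, fun q hq hqn => hc.unram q hq fun hq' => hqn ?_, fun v hv => ?_⟩
    · rcases Finset.mem_union.1 hq' with h | h
      · exact Finset.mem_union_left _ (Finset.mem_sdiff.2 ⟨hSS' h, fun hQ' => hQS q hQ' h⟩)
      · exact Finset.mem_union_right _ h
    · obtain ⟨hvS', hvQ⟩ := Finset.mem_sdiff.1 hv
      by_cases h : v ∈ Smin
      · rw [hΛ'1 v h]
        exact hc.loc v h
      · rw [hΛ'2 v h hvS']
        refine (hur v (hS'prime v hvS') h (Pl v) (hPl v hvS')).choose_spec.2.2 c hc.cocycle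
          (hc.unram v (hS'prime v hvS') fun hv' => ?_)
        rcases Finset.mem_union.1 hv' with h1 | h1
        · exact h h1
        · exact hvQ h1
  obtain ⟨W, hWfin, hWdim, hW⟩ := exists_local_lift ρbar Pl Λ' (S' \ Q) Q hfin'
  have := hXfin
  have := hUfin
  have := hWfin
  refine ⟨W ⊔ U ⊔ X, inferInstance, ?_, fun c hc => ?_⟩
  · have h1 : Module.finrank (ResidueField 𝒪) ↥(W ⊔ U ⊔ X) ≤
        Module.finrank (ResidueField 𝒪) W + Module.finrank (ResidueField 𝒪) U +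
          Module.finrank (ResidueField 𝒪) X :=
      (Submodule.finrank_add_le_finrank_add_finrank (W ⊔ U) X).trans
        (Nat.add_le_add_right (Submodule.finrank_add_le_finrank_add_finrank W U) _)
    have h2 : ∑ v ∈ S' \ Q, Module.finrank (ResidueField 𝒪) (Λ' v) ≤
        ∑ v ∈ S' \ Q, h0 v + ∑ v ∈ S' \ Q, dd v := by
      rw [← Finset.sum_add_distrib]
      exact Finset.sum_le_sum hbound'
    have hsub : Smin ⊆ S' \ Q := fun v hv =>
      Finset.mem_sdiff.2 ⟨hSS' hv, fun hQ' => hQS v hQ' hv⟩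
    have h3 : ∑ v ∈ S' \ Q, dd v = ∑ v ∈ Smin, δ v := by
      rw [← Finset.sum_subset hsub (f := dd) fun v _ hv => by simp [dd, hv]]
      exact Finset.sum_congr rfl fun v hv => by simp [dd, hv]
    have h4 : ∑ v ∈ S' \ Q, h0 v + ∑ v ∈ S' ∩ Q, h0 v = ∑ v ∈ S', h0 v := by
      rw [← Finset.sum_sdiff (Finset.inter_subset_left : S' ∩ Q ⊆ S'),
        Finset.sdiff_inter_self_left]
    have h5 : (S' ∩ Q).card ≤ ∑ v ∈ S' ∩ Q, h0 v := by
      rw [Finset.card_eq_sum_ones]
      exact Finset.sum_le_sum fun v hv =>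
        htw v (hQ v (Finset.mem_inter.1 hv).2) (Pl v) (hPl v (Finset.mem_inter.1 hv).1)
    have h6 : (Q ∩ S').card = (S' ∩ Q).card := by rw [Finset.inter_comm]
    have h7 := hΛ.2
    have hdim' : Module.finrank (ResidueField 𝒪) X + ∑ v ∈ S', h0 v + 1 ≤
        Module.finrank (ResidueField 𝒪) D := hdim
    omega
  · obtain ⟨w, hw, hcw⟩ := hW c (hsel' c hc)
    obtain ⟨u, hu, c', hc', hcob⟩ := hU (c - w) hcw
    obtain ⟨x, hx, hcob'⟩ := hX c' hc'
    refine ⟨w + u + x, Submodule.add_mem _ (Submodule.add_mem _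
      (Submodule.mem_sup_left (Submodule.mem_sup_left hw))
      (Submodule.mem_sup_left (Submodule.mem_sup_right hu)))
      (Submodule.mem_sup_right hx), ?_⟩
    have := hcob.add ρbar hcob'
    rwa [show c - w - u - c' + (c' - x) = c - (w + u + x) by abel] at this

/-- `REC-Q-BIG ⇒ REC-Q` (take `S' = Smin`). -/
theorem recQ_of_recQBig_aux (hSmin : Smin ⊆ S) (hS : ∀ q ∈ S, q.Prime)
    (hr : RecQBig 𝒪 p ρbar S Smin) : RecQ 𝒪 p ρbar S Smin := by
  classical
  intro Pl hPl D hD hDur Q hQ hK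
  have hQS : ∀ q ∈ Q, q ∉ Smin := fun q hq h => (hQ q hq).2.1 (hSmin h)
  obtain ⟨U, hUfin, hUdim, hU⟩ :=
    hr Smin (Finset.Subset.refl _) (fun q hq => hS q (hSmin hq)) Pl hPl D hD hDur Q hQ hK
  have h1 : Q ∩ Smin = ∅ := by
    rw [Finset.eq_empty_iff_forall_notMem]
    intro q hq
    exact hQS q (Finset.mem_inter.1 hq).1 (Finset.mem_inter.1 hq).2
  have h2 : Smin \ Q = Smin := by
    rw [Finset.sdiff_eq_self_iff_disjoint, Finset.disjoint_left]
    exact fun q hq hQ' => hQS q hQ' hq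
  rw [h1, Finset.card_empty, add_zero] at hUdim
  rw [h2] at hU
  exact ⟨U, hUfin, hUdim, hU⟩

end

/-- (GW-WALL) through a bigger set `S'`. -/
theorem gwWall_of_big (hb : BaseBigStatement) (hr : RecQBigStatement) (hur : UrCountStatement)
    (htw : TWInvStatement) : GWWallStatement :=
  fun 𝒪 _ _ _ _ _ p ρbar S Smin hyp =>
    gwWall_of_baseBig_recQBig 𝒪 p ρbar S Smin hyp.hSmin (hb 𝒪 p ρbar S Smin hyp)
      (hr 𝒪 p ρbar S Smin hyp) (hur 𝒪 p ρbar S Smin hyp) (htw 𝒪 p ρbar S Smin hyp)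

/-- `REC-Q-BIG ⇒ REC-Q`. -/
theorem recQ_of_recQBig (hr : RecQBigStatement) : RecQStatement :=
  fun 𝒪 _ _ _ _ _ p ρbar S Smin hyp =>
    recQ_of_recQBig_aux 𝒪 p ρbar S Smin hyp.hSmin hyp.hS (hr 𝒪 p ρbar S Smin hyp)

/-- (TB-ord) of layer 0 through a bigger set `S'`. -/
theorem tangentBoundOrd_of_big (hdict : DictOrdStatement) (hmin : LocMinStatement)
    (hord : LocOrdPStatement) (hb : BaseBigStatement) (hr : RecQBigStatement)
    (hur : UrCountStatement) (htw : TWInvStatement) : TangentBoundOrdStatement :=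
  tangentBoundOrd_of_leaves hdict hmin hord (gwWall_of_big hb hr hur htw)

/-- (TB-flat) of layer 0 through a bigger set `S'`. -/
theorem tangentBoundFlat_of_big (hdict : DictFlatStatement) (hmin : LocMinStatement)
    (hflat : LocFlatPStatement) (hb : BaseBigStatement) (hr : RecQBigStatement)
    (hur : UrCountStatement) (htw : TWInvStatement) : TangentBoundFlatStatement :=
  tangentBoundFlat_of_leaves hdict hmin hflat (gwWall_of_big hb hr hur htw)

end Fermat.Agent.S56.H716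

end

end
-- ===== PACK-END S56/H716/GWGlue3.lean

-- ===== PACK-BEGIN S56/FL/CntBridge.lean
section


/-!
# Row S56 — W-FLAT-SS, piece RAMCOUNT: the bridge to the abstract count (helper426)

Sorry-free, Mathlib only.

    rcDep_of_cnt : H846.FLCntStatement → H846.FLCycStatement → RLWildStatement → RLCommStatement →
      RLTameStatement → RLThetaStatement → RLQuotStatement → RLQuotFormulaStatement →
      RLHilbertStatement → RLCycStatement → RCShapeStatement → RCDepStatement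

and hence (with `RCTameStatement`, `ramCount_of_dep`) `RamCountStatement`.
-/

set_option autoImplicit false

open IsLocalRing

noncomputable section

namespace Fermat.Agent.S56.FL

namespace RCDatum

variable (d : RCDatum)

lemma rho_inv_eq_one {w : d.Γ} (hw : d.ρ w = 1) : d.ρ w⁻¹ = 1 := by
  have h := d.rho_inv_mul w
  rwa [hw, mul_one] at h

lemma c₁_one : d.c₁ 1 = 0 := by
  have h := d.hc₁ 1 1
  simp only [mul_one, map_one, inv_one, one_mul] at h
  exact left_eq_add.mp h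

lemma c₂_one : d.c₂ 1 = 0 := by
  have h := d.hc₂ 1 1
  simp only [mul_one, map_one, inv_one, one_mul] at h
  exact left_eq_add.mp h

/-- A cocycle is conjugation-equivariant on the kernel of `ρ`. -/
lemma bridge_coc_conj (c : d.Γ → Module.End d.k d.V)
    (hc : ∀ σ τ, c (σ * τ) = c σ + d.ρ σ * c τ * d.ρ σ⁻¹) (hc1 : c 1 = 0)
    (g w : d.Γ) (hw : d.ρ w = 1) :
    c (g * w * g⁻¹) = d.ρ g * c w * d.ρ g⁻¹ := by
  have hw' : d.ρ w⁻¹ = 1 := d.rho_inv_eq_one hw
  have h1 : c (g * w * g⁻¹) = c g + d.ρ g * (c w + c g⁻¹) * d.ρ g⁻¹ := by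
    rw [mul_assoc, hc g (w * g⁻¹), hc w g⁻¹, hw, hw', one_mul, mul_one]
  have h2 : c g + d.ρ g * c g⁻¹ * d.ρ g⁻¹ = 0 := by
    rw [← hc g g⁻¹, mul_inv_cancel, hc1]
  rw [h1, mul_add, add_mul, ← add_assoc, add_comm (c g), add_assoc, h2, add_zero]

lemma bridge_coc_mul (c : d.Γ → Module.End d.k d.V)
    (hc : ∀ σ τ, c (σ * τ) = c σ + d.ρ σ * c τ * d.ρ σ⁻¹)
    (w w' : d.Γ) (hw : d.ρ w = 1) : c (w * w') = c w + c w' := by
  have hw' : d.ρ w⁻¹ = 1 := d.rho_inv_eq_one hw
  rw [hc, hw, hw', one_mul, mul_one]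

end RCDatum

open RCDatum in
/-- **The bridge**: the abstract count, the ramification lemmas and the shape of `ρ` give the
linear dependence of the two cocycles on `ker ρ`. -/
theorem rcDep_of_cnt (hCnt : H846.FLCntStatement) (hCyc : H846.FLCycStatement)
    (hW : RLWildStatement) (hC : RLCommStatement) (hT : RLTameStatement)
    (hΘ : RLThetaStatement) (hQ : RLQuotStatement) (hQF : RLQuotFormulaStatement)
    (hH : RLHilbertStatement) (hCy : RLCycStatement) (hS : RCShapeStatement) :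
    RCDepStatement := by
  intro d hd
  obtain ⟨τ₀, φ, μ, hT'⟩ := exists_tameData hT d
  have hWd := hW d
  obtain ⟨ℓ₁, ℓp, ℓm, ψ₀, a, b, m, hinj, ht1, htp, htm, hf1, hfp, hfm, hmdvd, hmodd, hτpow,
    hψpow, hcard⟩ := hS d hd hWd τ₀ φ μ hT' (hCy d hWd (hH d).1 τ₀ φ μ hT')
  haveI : Fact d.p.Prime := ⟨d.hp⟩
  have hp3 := d.three_le_p
  have hwild_le := d.wild_le_ker hWd hd
  have hN : ∀ N : Subgroup d.Γ, N.Normal → N ≤ d.qRamSub ⊥ 1 → d.IsWildNormal N := by
    intro N h1 h2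
    rw [d.qRamSub_bot] at h2
    exact ⟨h1, h2⟩
  have hyp : H846.FLCnt.Hyp d.p (d.cntData τ₀ φ m ψ₀ a b ℓ₁ ℓp ℓm) :=
    { p_odd := d.hp2
      charP := d.hchar
      W_normal := MonoidHom.normal_ker d.ρ
      W_index := hd
      ρ_W := by
        intro w hw
        have hw1 : d.ρ w = 1 := MonoidHom.mem_ker.mp hw
        have hw2 : d.ρ w⁻¹ = 1 := d.rho_inv_eq_one hw1
        apply LinearMap.ext
        intro z
        apply Subtype.ext
        show d.ρ w * z.1 * d.ρ w⁻¹ = z.1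
        rw [hw1, hw2, one_mul, mul_one]
      c₁_mul := by
        intro w hw w' _
        apply Subtype.ext
        exact d.bridge_coc_mul d.c₁ d.hc₁ w w' (MonoidHom.mem_ker.mp hw)
      c₂_mul := by
        intro w hw w' _
        apply Subtype.ext
        exact d.bridge_coc_mul d.c₂ d.hc₂ w w' (MonoidHom.mem_ker.mp hw)
      c₁_conj := by
        intro g w hw
        apply Subtype.ext
        exact d.bridge_coc_conj d.c₁ d.hc₁ d.c₁_one g w (MonoidHom.mem_ker.mp hw)
      c₂_conj := by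
        intro g w hw
        apply Subtype.ext
        exact d.bridge_coc_conj d.c₂ d.hc₂ d.c₂_one g w (MonoidHom.mem_ker.mp hw)
      c_inj := by
        intro w hw h1 h2
        exact d.hfaith w (MonoidHom.mem_ker.mp hw) (congrArg Subtype.val h1)
          (congrArg Subtype.val h2)
      coord_inj := by
        intro z h1 h2 h3
        apply Subtype.ext
        exact hinj z.1 (LinearMap.mem_ker.mp z.2) h1 h2 h3
      tame_ℓ₁ := fun z => ht1 z.1
      tame_ℓp := fun z => htp z.1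
      tame_ℓm := fun z => htm z.1
      frob_ℓ₁ := fun z => hf1 z.1 (LinearMap.mem_ker.mp z.2)
      frob_ℓp := fun z => hfp z.1
      frob_ℓm := fun z => hfm z.1
      m_dvd := hmdvd
      m_odd := hmodd
      τ₀_mem := by
        show τ₀ ∈ d.qRamSub ⊥ 0
        rw [d.qRamSub_bot]
        exact hT'.1
      τ₀_pow := fun j => by
        show τ₀ ^ j ∈ d.ρ.ker ↔ _
        rw [MonoidHom.mem_ker]
        exact hτpow j
      ψ₀_pow := hψpow
      card_inertia := by
        show Nat.card (d.qRamSub ⊥ 0) = (d.p - 1) * m *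
          Nat.card (d.ρ.ker ⊓ d.qRamSub ⊥ 0 : Subgroup d.Γ)
        rw [d.qRamSub_bot]
        exact hcard
      wild_pgroup := by
        show IsPGroup d.p (d.qRamSub ⊥ 1)
        rw [d.qRamSub_bot]
        exact hWd
      tame_no_p := by
        show ∀ σ ∈ d.qRamSub ⊥ 0, σ ^ d.p ∈ d.qRamSub ⊥ 1 → σ ∈ d.qRamSub ⊥ 1
        rw [d.qRamSub_bot, d.qRamSub_bot]
        exact d.bridge_tame_no_p hQ hH hT'
      frob_comm := by
        intro w _
        show φ * w * φ⁻¹ * w⁻¹ ∈ d.qRamSub ⊥ 0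
        rw [d.qRamSub_bot]
        exact hC d φ w
      F_normal := fun N h1 _ h3 n => d.qRamSub_normal hQ (hN N h1 h3) n
      mem_F := fun N h1 _ h3 n σ => d.mem_qRam_iff hQ (hN N h1 h3) n σ
      F_zero := by
        intro N h1 _ h3 σ hσ
        obtain ⟨-, h, -⟩ := hQ d N (hN N h1 h3)
        change σ ∈ d.qRamSub ⊥ 0 at hσ
        rw [d.qRamSub_bot] at hσ
        exact h σ hσ
      F_one := by
        intro N h1 _ h3 σ hσ
        obtain ⟨-, -, h, -⟩ := hQ d N (hN N h1 h3)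
        change σ ∈ d.qRamSub ⊥ 1 at hσ
        rw [d.qRamSub_bot] at hσ
        exact h σ hσ
      F_one' := by
        intro N h1 _ h3 σ hσ
        obtain ⟨-, -, -, h, -⟩ := hQ d N (hN N h1 h3)
        obtain ⟨hσ1, hσ0⟩ := Subgroup.mem_inf.mp hσ
        change σ ∈ d.qRamSub ⊥ 0 at hσ0
        show σ ∈ d.qRamSub ⊥ 1
        rw [d.qRamSub_bot] at hσ0 ⊢
        exact h σ hσ0 hσ1
      comm_rule := by
        intro N h1 _ h3 n hn σ hσ hσ' τ hτ
        obtain ⟨-, -, -, -, -, h⟩ := hQ d N (hN N h1 h3)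
        change τ ∈ d.qRamSub ⊥ 0 at hτ
        rw [d.qRamSub_bot] at hτ
        exact h n hn σ hσ hσ' τ hτ
      quot_formula := by
        intro N h1 _ h3 σ hσ
        have h := hQF d N (hN N h1 h3) σ hσ
        show ∑ᶠ (w : d.Γ) (_ : w ∈ N), d.iQ ⊥ (σ * w) = Nat.card N * d.iQ N σ
        simp only [d.iQ_bot]
        exact h
      D_bound := by
        intro hne
        show (d.p - 1) * ∑ᶠ (σ : d.Γ) (_ : σ ∈ d.qRamSub ⊥ 0) (_ : σ ≠ 1), d.iQ ⊥ σ
          ≤ d.p * Nat.card (d.qRamSub ⊥ 0)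
        have hne' : ramGroup d.B d.Γ 1 ≠ ⊥ := by
          rw [← d.qRamSub_bot]; exact hne
        rw [d.qRamSub_bot]
        refine d.bridge_D_bound hQ hH (m * Nat.card (d.ρ.ker ⊓ ramGroup d.B d.Γ 0 : Subgroup d.Γ))
          (by rw [hcard, mul_assoc]) ?_
        apply Dvd.dvd.mul_left
        have h1 : ramGroup d.B d.Γ 1 ≤ d.ρ.ker ⊓ ramGroup d.B d.Γ 0 :=
          le_inf hwild_le (d.ramGroup_anti (Nat.zero_le 1))
        have h2 : Nat.card (ramGroup d.B d.Γ 1) ∣
            Nat.card (d.ρ.ker ⊓ ramGroup d.B d.Γ 0 : Subgroup d.Γ) :=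
          Subgroup.card_dvd_of_le h1
        refine Dvd.dvd.trans ?_ h2
        obtain ⟨k, hk⟩ := IsPGroup.iff_card.mp hWd
        rcases Nat.eq_zero_or_pos k with h0 | h0
        · exfalso
          rw [h0, pow_zero] at hk
          exact hne' ((Subgroup.card_eq_one).mp hk)
        · rw [hk]
          exact dvd_pow_self _ (by omega)
      cyc := by
        intro hm2 hWeq hFp
        change m ≠ 2 at hm2
        change d.ρ.ker = d.qRamSub ⊥ (d.p - 1) at hWeq
        change d.qRamSub ⊥ d.p = ⊥ at hFp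
        rw [d.qRamSub_bot] at hWeq hFp
        show ∃ w₀ ∈ d.ρ.ker, ∀ H : Subgroup d.Γ, w₀ ∈ H → (∀ h ∈ H, τ₀ * h * τ₀⁻¹ ∈ H) →
          (∀ h ∈ H, φ ^ 2 * h * (φ ^ 2)⁻¹ ∈ H) → d.ρ.ker ≤ H
        rw [hWeq]
        -- `W = Γ₁`
        have hW1 : d.ρ.ker = ramGroup d.B d.Γ 1 :=
          le_antisymm (hWeq.le.trans (d.ramGroup_anti (by omega))) hwild_le
        -- `m > 2`
        have hm0 : m ≠ 0 := by
          rintro rfl
          rw [zero_dvd_iff] at hmdvd
          omega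
        have hm1 : m ≠ 1 := by
          rintro rfl
          rw [Nat.div_one] at hmodd
          have hpodd : Odd d.p := d.hp.odd_of_ne_two d.hp2
          have : Even (d.p + 1) := hpodd.add_one
          exact (Nat.not_odd_iff_even.mpr this) hmodd
        have hm3 : 2 < m := by omega
        refine d.bridge_cyc hCyc hΘ hH hQ hT' m ?_ hmdvd hm3 hFp
        intro j
        rw [← pow_mul, ← hT'.2.2.1, ← hW1, MonoidHom.mem_ker, hτpow]
        exact Nat.mul_dvd_mul_iff_left (by omega) }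
  obtain ⟨a₁, a₂, ha, hdep⟩ := hCnt d.p d.Γ d.k d.Z0 (d.cntData τ₀ φ m ψ₀ a b ℓ₁ ℓp ℓm) hyp
  refine ⟨a₁, a₂, ha, fun σ hσ => ?_⟩
  have h := hdep σ (MonoidHom.mem_ker.mpr hσ)
  exact congrArg Subtype.val h

/-- The ramification count from the abstract count, the ramification lemmas and the supersingular
structure. -/
theorem ramCount_of_cnt (hTame : RCTameStatement)
    (hCnt : H846.FLCntStatement) (hCyc : H846.FLCycStatement)
    (hW : RLWildStatement) (hC : RLCommStatement) (hT : RLTameStatement)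
    (hΘ : RLThetaStatement) (hQ : RLQuotStatement) (hQF : RLQuotFormulaStatement)
    (hH : RLHilbertStatement) (hCy : RLCycStatement) (hS : RCShapeStatement) :
    RamCountStatement :=
  ramCount_of_dep hTame (rcDep_of_cnt hCnt hCyc hW hC hT hΘ hQ hQF hH hCy hS)

end Fermat.Agent.S56.FL

end

end
-- ===== PACK-END S56/FL/CntBridge.lean

-- ===== PACK-BEGIN S55/GAD/TransH594.lean
section
/-
S55 / G-ADAPTER, leaf GAD-TR (helper594): the targets of the block REC2-TOW
(`G/Rec/Tow/Spec.lean`: `Gd1Spec`, `Gd3Spec`) imply the leaf specs GAD-CM and GAD-J of the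
concrete tower datum (`GAD/Spec.lean`), along the comparison isomorphism
`crepIso L : G.CRep S L.Gal L.F ≅ GAD.CT L` (`GAD/IsoH594.lean`).

* `asPiEquivF S F : F ⊗ ℚ_S ≃+* ∏_{q ∈ S} ℚ_q ⊗ F` (any field `F`), `asPiEquivF_asRes`;
* `jRes_tensInclFun` : the `q`-component `J_q(F) → J_S(F)` dies in `J_{S ∖ {q}}(F)`;
* `isAt_tensIncl` : classes coming from `H²(J_q(F))` are concentrated at `q` (`TOW.IsAt`);
* **`classModule_of_gd1 : TOW.Gd1Spec p → GAD.ClassModuleSpec S p`**  (`p` odd prime, `p ∈ S`);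
* **`jInj_of_gd3 : TOW.Gd3Spec p → GAD.JInjSpec S p`**.
Complete proofs.
-/




set_option autoImplicit false
set_option linter.unusedSectionVars false
set_option linter.style.haveILetI false

open CategoryTheory

namespace Fermat.Agent.S55.GAD.H594

open Fermat.Agent.S55 Fermat.Agent.S55.Tow Fermat.Agent.S55.E1.H594 Fermat.Agent.S55.G
open Fermat.Agent.S55.GAD
open scoped TensorProduct

noncomputable section

/-! ### 1. Components of `S`-adèles, for any field -/

section Generic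

variable (S : Finset Nat.Primes) (F : Type) [Field F] [CharZero F]

/-- The ring isomorphism `F ⊗[ℚ] ℚ_S ≃ ∏_{q ∈ S} ℚ_q ⊗[ℚ] F`, for any field `F`. -/
def asPiEquivF : G.AS S F ≃+* (∀ q : S, G.Qq q.1 ⊗[ℚ] F) := by
  classical
  exact ((Algebra.TensorProduct.congr (AlgEquiv.refl : F ≃ₐ[ℚ] F) (G.QS.toPi S)).trans
    ((Algebra.TensorProduct.piRight ℚ ℚ F (fun q : S => G.Qq q.1)).trans
      (AlgEquiv.piCongrRight
        (fun q : S => Algebra.TensorProduct.comm ℚ F (G.Qq q.1))))).toRingEquiv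

theorem asPiEquivF_tmul (x : F) (y : G.QS S) (q : S) :
    asPiEquivF S F (x ⊗ₜ[ℚ] y) q = (G.QS.toPi S y q) ⊗ₜ[ℚ] x := rfl

variable {S} in
/-- The components of the projection `𝔸_S(F) → 𝔸_{S'}(F)`, `S' ⊆ S`. -/
theorem asPiEquivF_asRes {S' : Finset Nat.Primes} (h : S' ⊆ S) (a : G.AS S F) (q : S') :
    asPiEquivF S' F (G.asRes h F a) q = asPiEquivF S F a ⟨q.1, h q.2⟩ := by
  induction a using TensorProduct.induction_on with
  | zero => rw [map_zero, map_zero, map_zero]; rfl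
  | add a b ha hb =>
    rw [map_add, map_add, map_add, Pi.add_apply, Pi.add_apply, ha, hb]
  | tmul x y =>
    rw [G.asRes_tmul, asPiEquivF_tmul, asPiEquivF_tmul]
    rfl

end Generic

variable {S : Finset Nat.Primes} (L : Level S)

theorem asPiEquivF_eq : asPiEquivF S L.F = asPiEquiv L := rfl

/-- If the `q`-component (in the tower module `J_q(F)`) of an `S`-idèle is trivial, so is its
component in `(ℚ_q ⊗ F)ˣ`. -/
theorem asPiEquiv_eq_one_of_tensEquiv (u : Additive (AS S L.F)ˣ) (q : S)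
    (h : tensEquiv L u q = 0) :
    asPiEquiv L ((u.toMul : (AS S L.F)ˣ) : AS S L.F) q = 1 := by
  have h1 : tensLocEquiv L q.1
      (Additive.ofMul (MulEquiv.piUnits (M := fun q : S => G.Qq q.1 ⊗[ℚ] L.F)
        (Units.mapEquiv (asPiEquiv L).toMulEquiv u.toMul) q)) = 0 := h
  have h2 := (AddEquiv.map_eq_zero_iff (tensLocEquiv L q.1)).1 h1
  have h3 : MulEquiv.piUnits (M := fun q : S => G.Qq q.1 ⊗[ℚ] L.F)
        (Units.mapEquiv (asPiEquiv L).toMulEquiv u.toMul) q = 1 := h2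
  exact congrArg Units.val h3

/-- The `q`-component `J_q(F) → J_S(F)` dies in `J_{S ∖ {q}}(F)`. -/
theorem jRes_tensInclFun (q : S) (f : (L.J q.1).V) :
    G.jRes (Finset.erase_subset q.1 S) L.F (tensInclFun L q f) = 0 := by
  apply Additive.toMul.injective
  apply Units.ext
  change G.asRes (Finset.erase_subset q.1 S) L.F
    (((tensInclFun L q f).toMul : (AS S L.F)ˣ) : AS S L.F) = 1
  apply (asPiEquivF (S.erase q.1) L.F).injective
  rw [map_one]
  funext q'
  rw [asPiEquivF_asRes]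
  have hne : (⟨q'.1, Finset.erase_subset q.1 S q'.2⟩ : S) ≠ q := fun hq =>
    (Finset.mem_erase.1 q'.2).1 (congrArg Subtype.val hq)
  exact asPiEquiv_eq_one_of_tensEquiv L _ _ (tensEquiv_tensInclFun_ne L hne f)

/-- The same in `Rep ℤ L.Gal`. -/
theorem tensIncl_comp_jRes (q : S) :
    tensIncl L q ≫ G.Rec.TOW.jResRepHom L.Gal L.F (Finset.erase_subset q.1 S) = 0 := by
  apply Rep.hom_ext
  apply Representation.IntertwiningMap.ext
  exact LinearMap.ext fun f => jRes_tensInclFun L q f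

theorem tensIncl_comp_tensProj (q : S) : tensIncl L q ≫ tensProj L q = 𝟙 (L.J q.1) := by
  apply Rep.hom_ext
  apply Representation.IntertwiningMap.ext
  exact LinearMap.ext fun f => tensProj_tensIncl_same L q f

/-! ### 2. Functoriality of `H²` -/

section Coh

variable {Γ : Type} [Group Γ]

theorem h2_comp {A B C : Rep.{0} ℤ Γ} (f : A ⟶ B) (g : B ⟶ C) (x : groupCohomology A 2) :
    (T.coeffMap (f ≫ g) 2).hom x = (T.coeffMap g 2).hom ((T.coeffMap f 2).hom x) := by
  have h : T.coeffMap (f ≫ g) 2 = T.coeffMap f 2 ≫ T.coeffMap g 2 :=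
    groupCohomology.map_id_comp f g 2
  rw [h]
  rfl

theorem h2_id (A : Rep.{0} ℤ Γ) (x : groupCohomology A 2) : (T.coeffMap (𝟙 A) 2).hom x = x := by
  have h : T.coeffMap (𝟙 A) 2 = 𝟙 _ := groupCohomology.map_id (B := A) (n := 2)
  rw [h]
  rfl

theorem h2_zero (A B : Rep.{0} ℤ Γ) (x : groupCohomology A 2) :
    (T.coeffMap (0 : A ⟶ B) 2).hom x = 0 := by
  change ((groupCohomology.functor ℤ Γ 2).map (0 : A ⟶ B)).hom x = 0
  rw [CategoryTheory.Functor.map_zero]
  rfl

theorem h2_iso_injective {C C' : Rep.{0} ℤ Γ} (e : C ≅ C') :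
    Function.Injective (T.coeffMap e.hom 2).hom := by
  intro x y hxy
  have h := congrArg (T.coeffMap e.inv 2).hom hxy
  rwa [← h2_comp, ← h2_comp, Iso.hom_inv_id, h2_id, h2_id] at h

end Coh

/-- Classes coming from `H²(Gal, J_q(F))` are concentrated at `q`. -/
theorem isAt_tensIncl (q : S) (y : groupCohomology (L.J q.1) 2) :
    G.Rec.TOW.IsAt S L.Gal L.F q.1 ((T.coeffMap (tensIncl L q) 2).hom y) := by
  change (T.coeffMap (G.Rec.TOW.jResRepHom L.Gal L.F (Finset.erase_subset q.1 S)) 2).hom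
    ((T.coeffMap (tensIncl L q) 2).hom y) = 0
  rw [← h2_comp, tensIncl_comp_jRes, h2_zero]

/-! ### 3. The transports -/

section Iso

variable {Γ : Type} [Group Γ]

/-- Restriction to a subgroup commutes with change of coefficients. -/
theorem resMap_coeffMap_apply594 {C C' : Rep.{0} ℤ Γ} (f : C ⟶ C') (H : Subgroup Γ) (n : ℕ)
    (x : groupCohomology C n) :
    (T.resMap C' H n).hom ((T.coeffMap f n).hom x) =
      (T.coeffMap ((Rep.resFunctor H.subtype).map f) n).hom ((T.resMap C H n).hom x) := by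
  have h : T.coeffMap f n ≫ T.resMap C' H n =
      T.resMap C H n ≫ T.coeffMap ((Rep.resFunctor H.subtype).map f) n := by
    rw [← groupCohomology.map_comp, ← groupCohomology.map_comp]
    exact groupCohomology.map_congr rfl rfl n
  exact congrArg (fun φ => φ.hom x) h

/-- The isomorphism on the cohomology of a subgroup induced by an isomorphism of modules. -/
def subCohIso594 {C C' : Rep.{0} ℤ Γ} (e : C ≅ C') (H : Subgroup Γ) (n : ℕ) :
    groupCohomology (T.resSub C H) n ≅ groupCohomology (T.resSub C' H) n :=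
  (groupCohomology.functor ℤ H n).mapIso ((Rep.resFunctor H.subtype).mapIso e)

/-- Class modules at `p` are transported along isomorphisms. -/
theorem isClassModuleAt_iso594 [Finite Γ] (p : ℕ) {C C' : Rep.{0} ℤ Γ} (e : C ≅ C')
    (γ : groupCohomology C 2) (hγ : E1.IsClassModuleAt p C γ) :
    E1.IsClassModuleAt p C' ((T.coeffMap e.hom 2).hom γ) := by
  intro H hH
  obtain ⟨h1, h2, h3⟩ := hγ H hH
  refine ⟨Limits.IsZero.of_iso h1 (subCohIso594 e H 1).symm, ?_, ?_⟩
  · rw [← h2]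
    exact Nat.card_congr (subCohIso594 e H 2).symm.toLinearEquiv.toEquiv
  · intro x'
    obtain ⟨n, hn⟩ := h3 ((subCohIso594 e H 2).inv.hom x')
    refine ⟨n, ?_⟩
    have hx : x' = (subCohIso594 e H 2).hom.hom ((subCohIso594 e H 2).inv.hom x') := by
      rw [← ModuleCat.comp_apply, Iso.inv_hom_id]
      rfl
    rw [hx, hn, map_nsmul, resMap_coeffMap_apply594]
    rfl

end Iso

variable (S) (p : ℕ)

/-- **GAD-CM from GD1-TOW.** -/
theorem classModule_of_gd1 (hp : p.Prime) (hp2 : p ≠ 2) (hpS : (⟨p, hp⟩ : Nat.Primes) ∈ S)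
    (h : G.Rec.TOW.Gd1Spec p) : GAD.ClassModuleSpec S p := by
  intro L hμ
  obtain ⟨γ, hγ⟩ := h S hp hp2 hpS L hμ
  exact ⟨_, isClassModuleAt_iso594 p (crepIso L) γ hγ⟩

/-- **GAD-J from GD3-TOW.** -/
theorem jInj_of_gd3 (h : G.Rec.TOW.Gd3Spec p) : GAD.JInjSpec S p := by
  intro L _ q hq y hy hy0
  have h1 : E1.IsPPrimary p ((T.coeffMap (tensIncl L ⟨q, hq⟩) 2).hom y) :=
    ⟨1, by rw [pow_one, ← map_nsmul, hy, map_zero]⟩
  have h2 := isAt_tensIncl L ⟨q, hq⟩ y
  have h3 : (T.coeffMap (G.Rec.TOW.lvlj L) 2).hom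
      ((T.coeffMap (tensIncl L ⟨q, hq⟩) 2).hom y) = 0 := by
    apply h2_iso_injective (crepIso L)
    rw [map_zero, ← h2_comp, ← h2_comp]
    have h4 : jT L q = tensIncl L ⟨q, hq⟩ ≫ G.Rec.TOW.lvlj L ≫ (crepIso L).hom :=
      jT_eq L ⟨q, hq⟩
    rw [← h4]
    exact hy0
  have h5 := h S L q hq _ h1 h2 h3
  have h6 : y = (T.coeffMap (tensProj L ⟨q, hq⟩) 2).hom
      ((T.coeffMap (tensIncl L ⟨q, hq⟩) 2).hom y) := by
    rw [← h2_comp, tensIncl_comp_tensProj, h2_id]
  rw [h6, h5, map_zero]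

end

end Fermat.Agent.S55.GAD.H594

end
-- ===== PACK-END S55/GAD/TransH594.lean

-- ===== PACK-BEGIN S55/G/CM/Spec.lean
section
/-
S55 / layer G / block CM (sub-architect helper893) — FROZEN INTERFACE.

**G-CM = `G.PClassModuleSpec`** (the UNIVERSAL class-module property for `p`-groups, consumed by
G-EXIST through `Exist121.recip_of : PClassModuleSpec → RecipSpec`), derived from

  * `TOW.Gd1Spec p`        (fundamental class at `p` on every Tower level, block REC2-TOW),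
  * `G.PClassUpperSpec`    (upper bound, ON MAIN: `G.AllH604.pClassUpper`),
  * `G.DescentSpec`        (ON MAIN: `G.AllH604.descent`),
  * `G.SIndepSpec`         (independence of `S`).

Route.  Let the `p`-group `G` act faithfully on the number field `L` (any number field, NOT
necessarily Galois over `ℚ`).  Embed `L` in `ℚ̄`, let `M` be the Galois closure, a Tower level of
`S' = S ∪ {ramified primes of M}`; `Γ' = Gal(M / L^G) ≤ Gal(M/ℚ)`, `π : Γ' ↠ G` (restriction),
`ker π = Gal(M/L)`.  `Gd1` gives a class module at `p` on `(Gal(M/ℚ), C_{S'}(M))`, hence on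
`(Γ', C_{S'}(M))` (SUBCM).  Descent: `C_{S'}(L) = C_{S'}(M)^{ker π}` (DESCI).  The `p`-local
inflation–restriction sequence (main `T/InfResTorsH244`) then produces a class of order `|G|` in
`H²(G, C_{S'}(L))` (ORD), and independence of `S` moves it to `H²(G, C_S(L))` (SINDT).
With the upper bound, `H²(H, C_S(L)) ≅ ℤ/|H|` for every subgroup `H ≤ G`.

Everything here is a `def XxxSpec : Prop`; NO sorry.  Producers prove `theorem xxx : XxxSpec`
(or `xxx_of : Hyp → XxxSpec`) in `Fermat/Agent/S55/G/CM/H<seat>/*.lean`, namespace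
`Fermat.Agent.S55.G.CM.H<seat>`.  Assembly: `G/CM/Assembly.lean` (helper893).
-/


set_option autoImplicit false

open CategoryTheory groupCohomology
open scoped NumberField

noncomputable section

namespace Fermat.Agent.S55.G.CM

open Fermat.Agent.S55 Fermat.Agent.S55.Tow Fermat.Agent.S55.E1.H594 Fermat.Agent.S55.G
open Fermat.Agent.S55.G.Rec

/-- **G-CM:TOP** (the core): for a `p`-group `G` acting faithfully on `L`, unramified outside
`S ∋ p`, `μ_p ⊂ L^G`, `H²(G, C_S(L))` contains a class of order (at least) `|G|`. -/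
def TopOrderSpec : Prop :=
  ∀ (p : ℕ) [hp : Fact p.Prime], p ≠ 2 →
  ∀ (S : Finset Nat.Primes) (G L : Type) [Group G] [Finite G] [Field L] [NumberField L]
    [MulSemiringAction G L] [FaithfulSMul G L],
    (⟨p, hp.out⟩ : Nat.Primes) ∈ S → IsPGroup p G → IsUnramOut S G L →
    HasFixedRootOfUnity p G L →
    ∃ y : groupCohomology (CRep S G L) 2, ∀ n : ℕ, n • y = 0 → Nat.card G ∣ n

/-- **G-CM:GCL** (Galois-closure level).  For a finite group `G` acting faithfully on a number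
field `L` there are a finite set `S' ⊇ S`, a Tower level `M` of `S'`, a subgroup
`Γ' ≤ Gal(M/ℚ)`, a surjection `π : Γ' ↠ G` and an embedding `φ : L → M`, equivariant along `π`,
whose image is the fixed field of `ker π`.
(`M` = normal closure of an embedding of `L` in `ℚ̄`; `S'` = `S` + the primes ramified in `M`;
`Γ'` = image of `Gal(ℚ̄ / L^G)`; `π` = restriction to `L`, through `G ≃ Aut(L / L^G)`.) -/
def ClosureLevelSpec : Prop :=
  ∀ (S : Finset Nat.Primes) (G L : Type) [Group G] [Finite G] [Field L] [NumberField L]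
    [MulSemiringAction G L] [FaithfulSMul G L],
    ∃ (S' : Finset Nat.Primes) (_ : S ⊆ S') (M : Level S') (Γ' : Subgroup M.Gal)
      (π : ↥Γ' →* G) (φ : L →+* M.F),
      Function.Surjective π ∧
      (∀ (g : ↥Γ') (x : L), φ (π g • x) = g • φ x) ∧
      (∀ y : M.F, (∀ n : ↥Γ', π n = 1 → n • y = y) → y ∈ Set.range φ)

/-- **G-CM:SUBCM** (pure algebra): a class module at `p` restricts to a class module at `p` on
every subgroup. -/
def SubClassModuleSpec : Prop :=
  ∀ (p : ℕ) (Γ : Type) [Group Γ] [Finite Γ] (C : Rep.{0} ℤ Γ) (γ : groupCohomology C 2),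
    E1.IsClassModuleAt p C γ → ∀ Γ' : Subgroup Γ,
      E1.IsClassModuleAt p (T.resSub C Γ') (TOW.res2 C Γ' γ)

/-- **G-CM:ORD** (pure algebra, `p`-local inflation–restriction): let `π : Γ' ↠ Γ` with `Γ` a
`p`-group, `C = C'^{ker π}` (`TOW.IsInvIncl π ι`) and `(C', γ)` a class module at `p`.  Then
`H²(Γ, C)` contains a class of order (at least) `|Γ|`.
(`t = [Γ' : P']`, `P'` Sylow; `Y = |ker π|_p • t • γ` is `p`-primary of order `|Γ|` and dies on
`ker π`; `H¹(ker π, C')` is killed by `[ker π : Sylow]`, prime to `p`; main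
`T.H244.exists_infMap_eq_of_resMap_eq_zero_of_coprime` ⇒ `Y = inf y`.) -/
def QuotOrderSpec : Prop :=
  ∀ (p : ℕ), p.Prime → ∀ (Γ' Γ : Type) [Group Γ'] [Group Γ] [Finite Γ'] (π : Γ' →* Γ),
    Function.Surjective π → IsPGroup p Γ →
    ∀ (C : Rep.{0} ℤ Γ) (C' : Rep.{0} ℤ Γ') (ι : Rep.res π C ⟶ C'), TOW.IsInvIncl π ι →
    ∀ γ : groupCohomology C' 2, E1.IsClassModuleAt p C' γ →
      ∃ y : groupCohomology C 2, ∀ n : ℕ, n • y = 0 → Nat.card Γ ∣ n

/-- **G-CM:DESCI** (descent as an inclusion of invariants; from `G.DescentSpec`): for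
`π : Γ' ↠ G`, `Γ'` acting faithfully on `M`, unramified outside `S ≠ ∅`, and an embedding
`φ : L → M`, equivariant along `π`, with image the fixed field of `ker π`: there is
`ι : Res_π C_S(L) ⟶ C_S(M)` identifying `C_S(L)` with the `ker π`-invariants of `C_S(M)`. -/
def DescInclSpec : Prop :=
  ∀ (S : Finset Nat.Primes) (Γ' G M L : Type) [Group Γ'] [Finite Γ'] [Group G]
    [Field M] [NumberField M] [Field L] [NumberField L]
    [MulSemiringAction Γ' M] [FaithfulSMul Γ' M] [MulSemiringAction G L]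
    (π : Γ' →* G) (φ : L →+* M),
    Function.Surjective π → S.Nonempty → IsUnramOut S Γ' M →
    (∀ (g : Γ') (x : L), φ (π g • x) = g • φ x) →
    (∀ y : M, (∀ n : Γ', π n = 1 → n • y = y) → y ∈ Set.range φ) →
    ∃ ι : Rep.res π (CRep S G L) ⟶ CRep S Γ' M, TOW.IsInvIncl π ι

/-- **G-CM:SINDT** (independence of `S` on `H²(G, -)`; from `G.SIndepSpec` at `H = ⊤`): every
class of `H²(G, C_{S'}(L))` has an image in `H²(G, C_S(L))` of the same order. -/
def SIndTopSpec : Prop :=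
  ∀ (S S' : Finset Nat.Primes), S ⊆ S' → ∀ (G L : Type) [Group G] [Finite G] [Field L]
    [NumberField L] [MulSemiringAction G L] [FaithfulSMul G L],
    S.Nonempty → IsUnramOut S G L →
    ∀ y' : groupCohomology (CRep S' G L) 2,
      ∃ y : groupCohomology (CRep S G L) 2, ∀ n : ℕ, n • y = 0 → n • y' = 0

/-- The five leaf statements, with the shapes of their producers. -/
def DescInclAssemblySpec : Prop := G.DescentSpec → DescInclSpec

/-- `sindTop_of`. -/
def SIndTopAssemblySpec : Prop := G.SIndepSpec → SIndTopSpec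

end Fermat.Agent.S55.G.CM

end
end
-- ===== PACK-END S55/G/CM/Spec.lean

-- ===== PACK-BEGIN S55/G/Rec/Tow/H781/Gd1.lean
section



/-!
# S55 / REC2-TOW, leaf GD1 (subtask 557, helper781): the assembly `gd1_of : Gd1AssemblySpec p`

Memo T6 of helper293 / `coord/S55-REC-TOW.md` §2 (GD1), steps 1–7:
an auxiliary prime `r ∉ S`, the level `M = F·L(r,k)` totally ramified above `r` with
`Gal(M/F)` of order `p^k = |P|` (`P` a Sylow `p`-subgroup of `Gal(F/ℚ)`), a local class `b` at `r`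
of order `p^k`, `Y = j_* b`; `res_{Gal(M/F)} Y = 0` by reciprocity (T4'), so `Y = inf γ₀`;
`γ = π_* γ₀` (independence of `S`) has `res_P γ` of order `p^k`.
-/

set_option autoImplicit false
set_option linter.style.haveILetI false

open CategoryTheory groupCohomology
open scoped NumberField

noncomputable section

namespace Fermat.Agent.S55.G.Rec.TOW.H781

open Fermat.Agent.S55 Fermat.Agent.S55.Tow Fermat.Agent.S55.E1.H594
open Fermat.Agent.S55.G.Rec.TOW
open IsDedekindDomain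

variable {S : Finset Nat.Primes}

/-- The projection `Gal(F'/ℚ) → Gal(F/ℚ)` is surjective. -/
theorem proj_surjective {L L' : Level S} (h : L ≤ L') : Function.Surjective (Level.proj h) := by
  intro g
  induction g using QuotientGroup.induction_on with
  | H g => exact ⟨QuotientGroup.mk g, rfl⟩

/-- `[Gal(F'/ℚ) : Gal(F'/F)] = |Gal(F/ℚ)|`. -/
theorem index_relGal {L L' : Level S} (h : L ≤ L') :
    (Level.relGal h).index = Nat.card L.Gal := by
  unfold Level.relGal
  rw [Subgroup.index_ker, MonoidHom.range_eq_top.2 (proj_surjective h)]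
  exact Nat.card_congr (Subgroup.topEquiv).toEquiv

theorem gd1_of (p : ℕ) : Gd1AssemblySpec p := by
  intro I hKer hTot hUp hDesc hSInd hRam hResTop hRCN hCM hLift hRMN hResIdx S hp hp2 hpS L hMu
  haveI : Fact p.Prime := ⟨hp⟩
  -- a Sylow `p`-subgroup of `Gal(F/ℚ)`
  obtain ⟨P⟩ : Nonempty (Sylow p L.Gal) := inferInstance
  have hPp : IsPGroup p (P : Subgroup L.Gal) := P.isPGroup'
  obtain ⟨k, hk⟩ := hPp.exists_card_eq
  have hPidx : ¬ p ∣ (P : Subgroup L.Gal).index := P.not_dvd_index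
  -- Step 1: the auxiliary level
  obtain ⟨r, hrS, M, h, hZcard, hZfix⟩ := hRam hp S L k
  have hSS' : S ⊆ insert r S := Finset.subset_insert r S
  have hpS' : (⟨p, hp⟩ : Nat.Primes) ∈ insert r S := hSS' hpS
  have hrS' : r ∈ insert r S := Finset.mem_insert_self r S
  have hS'ne : (insert r S).Nonempty := ⟨r, hrS'⟩
  have hMuM : M.HasMu p := by
    obtain ⟨ζ, hζ, hprim⟩ := hMu
    exact ⟨ζ, h hζ, hprim⟩
  have hZp : IsPGroup p (Level.relGal h) := IsPGroup.of_card hZcard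
  -- Step 2: the local class at `r`
  obtain ⟨y, hy0, hyord⟩ := I.locClass M r hrS' ⊤ (Level.relGal h) le_top hZp hZfix
  obtain ⟨b, rfl⟩ := (hResTop M.Gal (lvlJ M) 2).2 y
  rw [hZcard] at hy0 hyord
  have hb0 : (p ^ k) • b = 0 := by
    apply (hResTop M.Gal (lvlJ M) 2).1
    rw [map_nsmul, map_zero]
    exact hy0
  -- Step 3: `res_{Z'} Y = 0`
  have hdvd : p ^ k ∣ Nat.card L.Gal := hk ▸ Subgroup.card_subgroup_dvd_card (P : Subgroup L.Gal)
  have hσZ : I.σ M (Level.relGal h) (res2 (lvlJ M) (Level.relGal h) b) = 0 := by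
    rw [I.resIndex, index_relGal h]
    obtain ⟨c, hc⟩ := hdvd
    have hL : Nat.card (Level.ofLE hSS' L).Gal = Nat.card L.Gal := rfl
    have h0 : (p ^ k) • I.σ M ⊤ (res2 (lvlJ M) ⊤ b) = 0 := by
      rw [← map_nsmul]
      exact (congrArg (I.σ M ⊤) hy0).trans (map_zero _)
    rw [hL, hc, mul_comm, mul_smul, h0, smul_zero]
  have hresY : res2 (lvlC M) (Level.relGal h) (h2Top (lvlj M) b) = 0 := by
    rw [← hRCN]
    exact (hTot (insert r S) hp hp2 hpS' M hMuM r hrS' (Level.relGal h) hZp hZfix).1 _ hσZ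
  -- Step 4: `Y = inf γ₀`
  have hH1 : Limits.IsZero (groupCohomology (T.resSub (lvlC M) (Level.proj h).ker) 1) :=
    (hUp (insert r S) hp hp2 hpS' M hMuM (Level.relGal h) hZp).1
  obtain ⟨ι, hι⟩ := hDesc (insert r S) hS'ne (Level.ofLE hSS' L) M h
  obtain ⟨γ₀, hγ₀⟩ := hLift M.Gal (Level.ofLE hSS' L).Gal (Level.proj h) (proj_surjective h)
    (lvlC (Level.ofLE hSS' L)) (lvlC M) ι hι hH1 (h2Top (lvlj M) b) hresY
  -- Step 5: independence of `S`
  obtain ⟨Φ, π, -, -, -, -, -, -, hπ⟩ := hSInd S (insert r S) hSS' L.Gal L.F ⟨_, hpS⟩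
    (level_isUnramOut L)
  refine ⟨h2Top π γ₀, ?_⟩
  -- Step 7: class module from the Sylow subgroup
  apply hCM p hp L.Gal (lvlC L) (h2Top π γ₀) P hPp hPidx
    (fun H hH => hUp S hp hp2 hpS L hMu H hH)
  -- Step 6: `res_P γ` has order `p^k`
  intro n hn
  have h1 : h2Sub π (P : Subgroup L.Gal) (res2 (lvlC' (insert r S) L) (P : Subgroup L.Gal) γ₀) =
      res2 (lvlC L) (P : Subgroup L.Gal) (h2Top π γ₀) := hRCN L.Gal _ _ π (P : Subgroup L.Gal) γ₀
  have h2 : n • res2 (lvlC' (insert r S) L) (P : Subgroup L.Gal) γ₀ = 0 := by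
    apply (hπ (P : Subgroup L.Gal) 2 (by norm_num)).1
    rw [map_nsmul, map_zero]
    exact (congrArg (fun z => n • z) h1).trans hn
  have h3 : res2 (lvlC (Level.ofLE hSS' L)) (P : Subgroup L.Gal) (n • γ₀) = 0 := by
    rw [map_nsmul]
    exact h2
  have h4 := hRMN M.Gal (Level.ofLE hSS' L).Gal (Level.proj h) (lvlC (Level.ofLE hSS' L))
    (lvlC M) ι (P : Subgroup L.Gal) (n • γ₀) h3
  rw [map_nsmul, hγ₀] at h4
  have h5 := hResIdx ℤ M.Gal (lvlC M) (Subgroup.comap (Level.proj h) (P : Subgroup L.Gal)) 2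
    (by norm_num) _ h4
  have hidxP : (Subgroup.comap (Level.proj h) (P : Subgroup L.Gal)).index =
      (P : Subgroup L.Gal).index :=
    Subgroup.index_comap_of_surjective (G := (Level.ofLE hSS' L).Gal) (P : Subgroup L.Gal)
      (proj_surjective h)
  rw [hidxP] at h5
  have h6 : h2Top (lvlj M) (((P : Subgroup L.Gal).index * n) • b) = 0 := by
    rw [map_nsmul, mul_smul]
    exact h5
  have h7 : I.σ M ⊤ (res2 (lvlJ M) ⊤ (((P : Subgroup L.Gal).index * n) • b)) = 0 := by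
    apply hKer (insert r S) hS'ne M ⊤ _ ⟨k, ?_⟩
    · rw [hRCN, h6, map_zero]
    · rw [← map_nsmul, smul_comm, hb0, smul_zero, map_zero]
  have h8 : p ^ k ∣ (P : Subgroup L.Gal).index * n := by
    apply hyord
    rw [← map_nsmul, ← map_nsmul]
    exact h7
  rw [hk]
  exact (Nat.Coprime.pow_left k
    ((Nat.Prime.coprime_iff_not_dvd hp).2 hPidx)).dvd_of_dvd_mul_left h8

end Fermat.Agent.S55.G.Rec.TOW.H781

end
end
-- ===== PACK-END S55/G/Rec/Tow/H781/Gd1.lean

-- ===== PACK-BEGIN S55/G/Rec/Tow/H139/UpTow.lean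
section
/-
S55 / layer G / block REC / adapter TOW, leaf UP-TOW (subtask 554)              (helper139)

`up_of : G.PClassUpperSpec → UpSpec p` — the Tower form of G-UP: for a level `M ⊇ μ_p` of `S ∋ p`
and a `p`-subgroup `H ≤ Gal(M/ℚ)` apply `G.PClassUpperSpec` to the group `↥H` acting on `M.F`
(at the subgroup `⊤`), and transport along the dictionary
`T.resSub (G.CRep S M.Gal M.F) H  =  G.CRep S ↥H M.F`  (same module, same action).
Complete proofs, standard axioms only.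
-/


set_option autoImplicit false
set_option linter.style.haveILetI false

open CategoryTheory groupCohomology
open scoped NumberField

noncomputable section

namespace Fermat.Agent.S55.G.Rec.TOW.H139

open Fermat.Agent.S55 Fermat.Agent.S55.Tow Fermat.Agent.S55.E1.H594

/-- `Hⁿ(⊤, A|⊤) ≅ Hⁿ(Γ, A)`. -/
def topIso139 {k Γ : Type} [CommRing k] [Group Γ] (A : Rep.{0} k Γ) (n : ℕ) :
    groupCohomology (T.resSub A (⊤ : Subgroup Γ)) n ≅ groupCohomology A n :=
  groupCohomology.mapIso (A := A) (B := T.resSub A (⊤ : Subgroup Γ))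
    (Subgroup.topEquiv : (⊤ : Subgroup Γ) ≃* Γ) (LinearEquiv.refl k A.V) (fun _ => rfl) n

section Dict

variable (S : Finset Nat.Primes) (Γ L : Type) [Group Γ] [Field L] [NumberField L]
  [MulSemiringAction Γ L] (H : Subgroup Γ)

/-- The dictionary on representations: the class module of the subgroup `H` (acting on `L` by
restriction) is the restriction of the class module of `Γ`. -/
theorem cRepr_subgroup (h : H) : G.cRepr S H L h = G.cRepr S Γ L (h : Γ) := rfl

/-- `Hⁿ(H, C_S(L)) ≅ Hⁿ(H, Res_H C_S(L))`. -/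
def crepSubIso (n : ℕ) :
    groupCohomology (G.CRep S H L) n ≅ groupCohomology (T.resSub (G.CRep S Γ L) H) n :=
  groupCohomology.mapIso (A := T.resSub (G.CRep S Γ L) H) (B := G.CRep S H L)
    (MulEquiv.refl H) (LinearEquiv.refl ℤ (G.CS S L)) (fun _ => rfl) n

end Dict

/-- Transport of `T.CardDvd` along an isomorphism. -/
theorem cardDvd_of_iso {X Y : ModuleCat.{0} ℤ} (e : X ≅ Y) {m : ℕ} (h : T.CardDvd X m) :
    T.CardDvd Y m := by
  obtain ⟨hfin, hdvd⟩ := h
  have e' : X ≃ Y := e.toLinearEquiv.toEquiv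
  haveI := hfin
  exact ⟨Finite.of_equiv X e', by rwa [← Nat.card_congr e']⟩

/-- **UP-TOW.** -/
theorem up_of (p : ℕ) (hUP : G.PClassUpperSpec) : UpSpec p := by
  intro S hp hp2 hpS M hMu H hH
  haveI : Fact p.Prime := ⟨hp⟩
  haveI : Finite M.Gal := level_finite_gal M
  haveI : FaithfulSMul H M.F := level_faithfulSMul_subgroup M H
  obtain ⟨ζ, hζF, hζ⟩ := hMu
  have h := hUP p hp2 S H M.F hpS hH (level_isUnramOut_subgroup M H)
    (level_hasFixedRootOfUnity M hζF hζ H hH) ⊤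
  refine ⟨Limits.IsZero.of_iso h.1
      ((crepSubIso S M.Gal M.F H 1).symm ≪≫ (topIso139 (G.CRep S H M.F) 1).symm), ?_⟩
  have h2 := cardDvd_of_iso
    ((topIso139 (G.CRep S H M.F) 2) ≪≫ (crepSubIso S M.Gal M.F H 2)) h.2
  rwa [Subgroup.card_top] at h2

end Fermat.Agent.S55.G.Rec.TOW.H139

end

end
-- ===== PACK-END S55/G/Rec/Tow/H139/UpTow.lean

-- ===== PACK-BEGIN S55/G/Rec/Tow/H934/DescTow.lean
section
/-
S55 / layer G / block REC / adapter TOW, leaf DESC-TOW (subtask 555)            (helper934)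

`desc_of : G.DescentSpec → DescSpec` and `desc : DescSpec` — the Tower form of G-DESC: for levels
`L ≤ M` of `S ≠ ∅` apply `G.DescentSpec` to `Gal(M/ℚ)` acting on `M.F`, the normal subgroup
`Gal(M/L) = Level.relGal h` and the quotient acting on `L.F` through
`Gal(M/ℚ) ⧸ Gal(M/L) → Gal(L/ℚ)` (helper594's `LevelProj`).
Complete proofs, standard axioms only.
-/



set_option autoImplicit false
set_option linter.style.haveILetI false

open CategoryTheory groupCohomology
open scoped NumberField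

noncomputable section

namespace Fermat.Agent.S55.G.Rec.TOW.H934

open Fermat.Agent.S55 Fermat.Agent.S55.Tow Fermat.Agent.S55.E1.H594

/-- **DESC-TOW** from `G.DescentSpec`. -/
theorem desc_of (hD : G.DescentSpec) : DescSpec := by
  intro S hS L M h
  haveI : Finite M.Gal := level_finite_gal M
  letI : Algebra L.F M.F := levelAlgebra h
  letI : MulSemiringAction (M.Gal ⧸ Level.relGal h) L.F := levelQuotAction h
  obtain ⟨ι, hinj, hequiv, hinv, -⟩ := hD S M.Gal M.F L.F (Level.relGal h) hS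
    (level_isUnramOut M) (level_descent_fixed h) (level_descent_equivariant h)
  refine ⟨Rep.ofHom ⟨ι.toIntLinearMap, fun g => LinearMap.ext fun c => ?_⟩, hinj, ?_⟩
  · exact hequiv g c
  · intro c hc
    exact (hinv c).1 (fun n => hc n n.2)

/-- **DESC-TOW**, unconditionally. -/
theorem desc : DescSpec := desc_of G.DescH773.descentSpec

end Fermat.Agent.S55.G.Rec.TOW.H934

end
end
-- ===== PACK-END S55/G/Rec/Tow/H934/DescTow.lean

-- ===== PACK-BEGIN S55/G/Rec/Tow/H724/Unram.lean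
section
/-
S55 / layer G / block REC / adapter TOW, leaf FR-REC, unramified half (helper724).

`invAt_eq_zero_of_ord` : for a Tower level `M` of `S`, a subgroup `H ≤ Gal(M/ℚ)`, a prime
`q ∉ S` and ANY place of `K = M^H` above `q` (given by `g ∈ G_ℚ`), the local invariant of the
inflation of a finite-level class `x ∈ H²(H, Mˣ)` with trivial divisor class
(`ord_* x = 0` in `H²(H, Div^S M)`) vanishes.

Proof: `ord ∘ x = dβ`; let `w` be the prime of `M` induced by `ι_q ∘ g⁻¹`, `ϖ ∈ Mˣ` a uniformizer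
at `w` and `b(h) = ϖ ^ β(h)(w)`.  The cocycle `x' = x - db` is cohomologous to `x` and has
`w`-unit values on `D_w × H`.  Its inflation, localised at `(q, g)`, is a unit-valued cocycle which
is constant modulo inertia (inertia at `q ∉ S` acts trivially on `M`): `I.inv_unram`.

This file is independent of the definition of `σ` (FR-DEF): it only uses `Rec/Defs`, `Rec/Spec`
and the Tower vocabulary.
-/





set_option autoImplicit false
set_option linter.unusedSectionVars false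
set_option linter.style.haveILetI false

open CategoryTheory groupCohomology
open scoped NumberField

noncomputable section

namespace Fermat.Agent.S55.G.Rec.TOW.H724

open Fermat.Agent.S55 Fermat.Agent.S55.Tow Fermat.Agent.S55.E1.H594 Fermat.Agent.S55.G.Rec
open IsDedekindDomain

/-! ## A. Inertia -/

section Inertia

variable (q : ℕ) [Fact q.Prime]

lemma mem_nonunits_padicIntegers_iff {y : PadicAlgCl q} :
    y ∈ (padicIntegers q).nonunits ↔ ‖y‖ < 1 := by
  rw [ValuationSubring.mem_nonunits_iff_or]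
  by_cases hy : y = 0
  · subst hy
    simp
  · have hpos : 0 < ‖y‖ := norm_pos_iff.2 hy
    have hmem : y⁻¹ ∈ padicIntegers q ↔ ‖y⁻¹‖ ≤ 1 := by
      rw [mem_padicIntegers_iff]
      exact Iff.rfl
    rw [hmem, norm_inv]
    constructor
    · rintro (h | h)
      · exact absurd h hy
      · by_contra hlt
        exact h (inv_le_one_of_one_le₀ (not_lt.1 hlt))
    · intro h
      right
      intro h'
      have := (inv_le_one₀ hpos).1 h'
      exact absurd h (not_lt.2 this)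

lemma norm_natCast_self_lt_one : ‖((q : ℕ) : PadicAlgCl q)‖ < 1 := by
  have h2 : ‖padicEmbedding q ((q : ℕ) : Qbar)‖ = (q : ℝ)⁻¹ :=
    Fermat.Agent.S55.H175.norm_padicEmbedding_natCast_self q
  rw [map_natCast] at h2
  rw [h2]
  exact inv_lt_one_of_one_lt₀ (by exact_mod_cast (Fact.out : q.Prime).one_lt)

lemma liesOver_padicIntegers : (padicIntegers q).LiesOverPrime q := by
  show ((q : ℕ) : PadicAlgCl q) ∈ (padicIntegers q).nonunits
  rw [mem_nonunits_padicIntegers_iff]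
  exact norm_natCast_self_lt_one q

lemma mem_nonunits_padicPlace_iff {x : Qbar} :
    x ∈ (padicPlace q).nonunits ↔ ‖padicEmbedding q x‖ < 1 := by
  rw [← mem_nonunits_padicIntegers_iff]
  rw [ValuationSubring.mem_nonunits_iff_or, ValuationSubring.mem_nonunits_iff_or]
  have h1 : padicEmbedding q x = 0 ↔ x = 0 := map_eq_zero_iff _ (padicEmbedding q).injective
  have h2 : x⁻¹ ∈ padicPlace q ↔ (padicEmbedding q x)⁻¹ ∈ padicIntegers q := by
    rw [← map_inv₀]
    exact Iff.rfl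
  rw [h1, h2]

lemma liesOver_padicPlace : (padicPlace q).LiesOverPrime q := by
  show ((q : ℕ) : Qbar) ∈ (padicPlace q).nonunits
  rw [mem_nonunits_padicPlace_iff, map_natCast]
  exact norm_natCast_self_lt_one q

/-- An inertial element of `G_{ℚ_q}` (norm form) maps into the inertia group of `padicPlace q`. -/
lemma loc_mem_inertia {τ : PadicAlgCl q ≃ₐ[ℚ_[q]] PadicAlgCl q} (hτ : IsInertial q τ) :
    localGaloisToGlobal q τ ∈ (padicPlace q).inertiaSubgroupIn ℚ := by
  refine Bridge.mem_inertia_of_forall_integral (padicPlace q) (Fact.out : q.Prime)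
    (liesOver_padicPlace q)
    (localGaloisToGlobal_mem_decompositionSubgroup q τ) (fun b hb => ?_)
  rw [mem_nonunits_padicPlace_iff, map_sub, padicEmbedding_localGaloisToGlobal]
  exact hτ _ (H181.norm_padicEmbedding_le_one q hb)

variable {S : Finset Nat.Primes} (M : Level S)

/-- Inertia at `q ∉ S` acts trivially on a level of `S`. -/
lemma conj_loc_mem_U (hq : (⟨q, Fact.out⟩ : Nat.Primes) ∉ S) (g : GQ)
    {τ : PadicAlgCl q ≃ₐ[ℚ_[q]] PadicAlgCl q} (hτ : IsInertial q τ) :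
    g * localGaloisToGlobal q τ * g⁻¹ ∈ M.U := by
  have h1 : localGaloisToGlobal q τ ∈ M.U :=
    M.unram.2 ⟨q, Fact.out⟩ hq (padicPlace q) (liesOver_padicPlace q)
      (loc_mem_inertia q hτ)
  exact M.normalU.conj_mem _ h1 g

end Inertia

/-! ## B. The prime of `M` induced by `ι_q ∘ g⁻¹` -/

section Place

variable (q : ℕ) [Fact q.Prime] (g : GQ) {S : Finset Nat.Primes} (M : Level S)

/-- The embedding `M → ℚ̄_q`, `y ↦ ι_q (g⁻¹ y)`. -/
def embG : M.F →+* PadicAlgCl q :=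
  ((padicEmbedding q : Qbar →ₐ[ℚ] PadicAlgCl q) : Qbar →+* PadicAlgCl q).comp
    ((((g⁻¹ : GQ) : Qbar ≃ₐ[ℚ] Qbar) : Qbar →+* Qbar).comp (algebraMap M.F Qbar))

lemma embG_apply (y : M.F) : embG q g M y = padicEmbedding q ((g⁻¹ : GQ) (y : Qbar)) := rfl

lemma embG_smul (τ : PadicAlgCl q ≃ₐ[ℚ_[q]] PadicAlgCl q) (y : M.F) :
    embG q g M ((QuotientGroup.mk (g * localGaloisToGlobal q τ * g⁻¹) : M.Gal) • y) =
      τ (embG q g M y) := by
  rw [embG_apply, level_mk_smul, embG_apply, ← padicEmbedding_localGaloisToGlobal]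
  congr 1
  simp [AlgEquiv.mul_apply]

lemma norm_algEquiv (τ : PadicAlgCl q ≃ₐ[ℚ_[q]] PadicAlgCl q) (y : PadicAlgCl q) :
    ‖τ y‖ = ‖y‖ := by
  have h := nnnorm_padicAlgCl_algEquiv q τ y
  exact congrArg NNReal.toReal h

/-- The prime of `𝓞_M` induced by `ι_q ∘ g⁻¹`. -/
def placeW : HeightOneSpectrum (𝓞 M.F) :=
  letI : Algebra M.F (PadicAlgCl q) := (embG q g M).toAlgebra
  GAD.H175.placeUnder (K := M.F) (padicIntegers q) q Fact.out (liesOver_padicIntegers q)

lemma mem_placeW_iff (b : 𝓞 M.F) :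
    b ∈ (placeW q g M).asIdeal ↔ ‖embG q g M (b : M.F)‖ < 1 := by
  letI : Algebra M.F (PadicAlgCl q) := (embG q g M).toAlgebra
  rw [← mem_nonunits_padicIntegers_iff]
  exact GAD.H175.mem_placeUnder

lemma valuation_placeW_eq_one {y : M.F} (hy : y ≠ 0)
    (h : (placeW q g M).valuation M.F y = 1) : ‖embG q g M y‖ = 1 := by
  letI : Algebra M.F (PadicAlgCl q) := (embG q g M).toAlgebra
  have hw : ∀ b : 𝓞 M.F, b ∈ (placeW q g M).asIdeal ↔
      algebraMap M.F (PadicAlgCl q) (b : M.F) ∈ (padicIntegers q).nonunits :=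
    fun b => GAD.H175.mem_placeUnder
  obtain ⟨h1, h2⟩ :=
    (GAD.H175.valuation_eq_one_iff_mem_and_inv_mem (padicIntegers q) (placeW q g M) hw hy).1 h
  have h1' : ‖embG q g M y‖ ≤ 1 := h1
  have h2' : ‖(embG q g M y)⁻¹‖ ≤ 1 := h2
  rw [norm_inv] at h2'
  have hpos : 0 < ‖embG q g M y‖ :=
    norm_pos_iff.2 ((map_ne_zero_iff _ (embG q g M).injective).2 hy)
  exact le_antisymm h1' ((inv_le_one₀ hpos).1 h2')

lemma not_isAbove_placeW (hq : (⟨q, Fact.out⟩ : Nat.Primes) ∉ S) :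
    ¬ G.IsAbove S M.F (placeW q g M) := by
  letI : Algebra M.F (PadicAlgCl q) := (embG q g M).toAlgebra
  rintro ⟨ℓ, hℓS, hℓ⟩
  have hw : ∀ b : 𝓞 M.F, b ∈ (placeW q g M).asIdeal ↔
      algebraMap M.F (PadicAlgCl q) (b : M.F) ∈ (padicIntegers q).nonunits :=
    fun b => GAD.H175.mem_placeUnder
  have := GAD.H175.eq_of_natCast_mem (padicIntegers q) (placeW q g M) hw (Fact.out : q.Prime) ℓ.2
    (liesOver_padicIntegers q) hℓ
  apply hq
  have h3 : ℓ = ⟨q, Fact.out⟩ := Subtype.ext this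
  rw [← h3]
  exact hℓS

/-- The prime `placeW`, as a prime outside `S`. -/
def placeOut (hq : (⟨q, Fact.out⟩ : Nat.Primes) ∉ S) : G.PrimeOut S M.F :=
  ⟨placeW q g M, not_isAbove_placeW q g M hq⟩

/-- The elements `g · loc(τ) · g⁻¹` fix the prime `placeW`. -/
lemma primeSMul_placeW (τ : PadicAlgCl q ≃ₐ[ℚ_[q]] PadicAlgCl q) :
    G.primeSMul M.Gal (QuotientGroup.mk (g * localGaloisToGlobal q τ * g⁻¹) : M.Gal)
      (placeW q g M) = placeW q g M := by
  apply HeightOneSpectrum.ext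
  ext b
  rw [G.mem_primeSMul_iff, mem_placeW_iff, mem_placeW_iff]
  have hinv : ((QuotientGroup.mk (g * localGaloisToGlobal q τ * g⁻¹) : M.Gal))⁻¹ =
      QuotientGroup.mk (g * localGaloisToGlobal q τ⁻¹ * g⁻¹) := by
    rw [← QuotientGroup.mk_inv, map_inv, mul_inv_rev, mul_inv_rev, inv_inv, mul_assoc]
  have hcoe : (((QuotientGroup.mk (g * localGaloisToGlobal q τ * g⁻¹) : M.Gal)⁻¹ • b : 𝓞 M.F) :
      M.F) = (QuotientGroup.mk (g * localGaloisToGlobal q τ * g⁻¹) : M.Gal)⁻¹ • (b : M.F) := rfl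
  rw [hcoe, hinv, embG_smul, norm_algEquiv]

end Place

/-! ## C. Inflation of finite-level cochains -/

section Infl

variable {S : Finset Nat.Primes} (M : Level S) (H : Subgroup M.Gal)

/-- The preimage of `H ≤ Gal(M/ℚ)` in `G_ℚ`: the absolute Galois group of `K = M^H`. -/
abbrev UH : Subgroup GQ := H.comap (QuotientGroup.mk' M.U)

/-- The projection `U_H → H`. -/
def toH : ↥(UH M H) →* ↥H := (QuotientGroup.mk' M.U).subgroupComap H

@[simp] lemma toH_coe (s : ↥(UH M H)) :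
    ((toH M H s : ↥H) : M.Gal) = QuotientGroup.mk (s : GQ) := rfl

lemma toH_eq_one {s : ↥(UH M H)} (hs : (s : GQ) ∈ M.U) : toH M H s = 1 := by
  apply Subtype.ext
  rw [toH_coe]
  exact (QuotientGroup.eq_one_iff _).2 hs

lemma toH_surjective : Function.Surjective (toH M H) := by
  rintro ⟨h, hh⟩
  obtain ⟨s, rfl⟩ := QuotientGroup.mk_surjective h
  exact ⟨⟨s, hh⟩, rfl⟩

lemma isOpenQ_UH : IsOpenQ (UH M H) :=
  ⟨M.F, level_finiteDimensional M, fun σ hσ => by
    have h1 : (QuotientGroup.mk σ : M.Gal) = 1 :=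
      (QuotientGroup.eq_one_iff σ).2 (show σ ∈ M.U from hσ)
    show (QuotientGroup.mk σ : M.Gal) ∈ H
    rw [h1]
    exact H.one_mem⟩

/-- The inclusion `Mˣ → ℚ̄ˣ` (additively), as a `ℤ`-linear map of the underlying modules. -/
def incl : (T.resSub (lvlL M) H) →ₗ[ℤ] gModOn (UH M H) :=
  (MonoidHom.toAdditive
    (Units.map ((algebraMap M.F Qbar : M.F →+* Qbar) : M.F →* Qbar))).toIntLinearMap

lemma incl_coe (a : T.resSub (lvlL M) H) :
    ((Additive.toMul (incl M H a) : Qbarˣ) : Qbar) =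
      (((Additive.toMul (show Additive (M.F)ˣ from a) : (M.F)ˣ) : M.F) : Qbar) := rfl

lemma incl_equivariant (s : ↥(UH M H)) (a : T.resSub (lvlL M) H) :
    incl M H ((T.resSub (lvlL M) H).ρ (toH M H s) a) = (gModOn (UH M H)).ρ s (incl M H a) := by
  apply Additive.toMul.injective
  apply Units.ext
  exact level_mk_smul M (s : GQ) _

/-- Inflation of `1`-cochains. -/
abbrev inflC₁ : (↥H → T.resSub (lvlL M) H) →ₗ[ℤ] (↥(UH M H) → gModOn (UH M H)) :=
  cochainsPullPush₁ (toH M H) (incl M H)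

/-- Inflation of `2`-cochains. -/
abbrev inflC₂ : (↥H × ↥H → T.resSub (lvlL M) H) →ₗ[ℤ]
    (↥(UH M H) × ↥(UH M H) → gModOn (UH M H)) :=
  cochainsPullPush₂ (toH M H) (incl M H)

lemma inflC₂_mul_right (x : ↥H × ↥H → T.resSub (lvlL M) H) (a a' s s' : ↥(UH M H))
    (hs : (s : GQ) ∈ M.U) (hs' : (s' : GQ) ∈ M.U) :
    inflC₂ M H x (a * s, a' * s') = inflC₂ M H x (a, a') := by
  show incl M H (x (toH M H (a * s), toH M H (a' * s'))) = incl M H (x (toH M H a, toH M H a'))
  rw [map_mul, map_mul, toH_eq_one M H hs, toH_eq_one M H hs', mul_one, mul_one]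

lemma isLevelConstant₂_inflC₂ (x : ↥H × ↥H → T.resSub (lvlL M) H) :
    IsLevelConstant₂ (UH M H).subtype (inflC₂ M H x) :=
  ⟨M.F, level_finiteDimensional M, fun a a' s s' hs hs' => inflC₂_mul_right M H x a a' s s' hs hs'⟩

lemma isLevelConstant₁_inflC₁ (b : ↥H → T.resSub (lvlL M) H) :
    IsLevelConstant₁ (UH M H).subtype (inflC₁ M H b) :=
  ⟨M.F, level_finiteDimensional M, fun a s hs => by
    show incl M H (b (toH M H (a * s))) = incl M H (b (toH M H a))
    rw [map_mul, toH_eq_one M H hs, mul_one]⟩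

lemma inflC₂_mem_levelCocycles₂ {x : ↥H × ↥H → T.resSub (lvlL M) H}
    (hx : x ∈ cocycles₂ (T.resSub (lvlL M) H)) :
    inflC₂ M H x ∈ levelCocycles₂ (UH M H).subtype (gModOn (UH M H)) :=
  ⟨cochainsPullPush₂_mem_cocycles₂ (toH M H) (incl M H) (incl_equivariant M H) hx,
    isLevelConstant₂_inflC₂ M H x⟩

lemma inflC₂_d₁₂ (b : ↥H → T.resSub (lvlL M) H) :
    inflC₂ M H ((d₁₂ (T.resSub (lvlL M) H)).hom b) =
      (d₁₂ (gModOn (UH M H))).hom (inflC₁ M H b) :=
  cochainsPullPush₂_d₁₂ (toH M H) (incl M H) (incl_equivariant M H) b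

/-- The canonical inflation on cocycles. -/
def inflZ₂ : ↥(cocycles₂ (T.resSub (lvlL M) H)) →ₗ[ℤ]
    ↥(levelCocycles₂ (UH M H).subtype (gModOn (UH M H))) :=
  (inflC₂ M H).restrict fun _ hx => inflC₂_mem_levelCocycles₂ M H hx

@[simp] lemma inflZ₂_coe (x : ↥(cocycles₂ (T.resSub (lvlL M) H))) :
    (inflZ₂ M H x : ↥(UH M H) × ↥(UH M H) → gModOn (UH M H)) = inflC₂ M H x := rfl

end Infl

/-! ## D. The unramified vanishing -/

section Main

variable {S : Finset Nat.Primes} (M : Level S) (H : Subgroup M.Gal)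

lemma exists_cochain_of_ord_eq_zero (x : ↥(cocycles₂ (T.resSub (lvlL M) H)))
    (hx : h2Sub (G.ordRepHom S M.Gal M.F) H (H2π _ x) = 0) :
    ∃ β : ↥H → (G.PrimeOut S M.F →₀ ℤ), ∀ h₁ h₂ : ↥H,
      G.ordHom S M.F ((x : ↥H × ↥H → T.resSub (lvlL M) H) (h₁, h₂)) =
        G.divRepr S M.Gal M.F (h₁ : M.Gal) (β h₂) - β (h₁ * h₂) + β h₁ := by
  have h1 := ConcreteCategory.congr_hom (H2π_comp_map (MonoidHom.id ↥H)
    ((Rep.resFunctor H.subtype).map (G.ordRepHom S M.Gal M.F))) x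
  have h2 : H2π _ (mapCocycles₂ (MonoidHom.id ↥H)
    ((Rep.resFunctor H.subtype).map (G.ordRepHom S M.Gal M.F)) x) = 0 := by
    rw [← hx]
    exact h1.symm
  rw [H2π_eq_zero_iff] at h2
  obtain ⟨β, hβ⟩ := h2
  refine ⟨β, fun h₁ h₂ => ?_⟩
  have h3 := congrFun hβ (h₁, h₂)
  rw [d₁₂_hom_apply] at h3
  exact h3.symm


lemma exists_ordAt_eq_one (w : HeightOneSpectrum (𝓞 M.F)) :
    ∃ ϖ : Additive (M.F)ˣ, G.ordAt w ϖ = 1 := by
  obtain ⟨π, hπ⟩ := w.valuation_exists_uniformizer M.F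
  have hπ0 : π ≠ 0 := by
    rintro rfl
    rw [map_zero] at hπ
    exact WithZero.exp_ne_zero hπ.symm
  refine ⟨Additive.ofMul (Units.mk0 π hπ0), ?_⟩
  rw [G.ordAt_apply]
  show - WithZero.log (w.valuation M.F π) = 1
  rw [hπ, WithZero.log_exp, neg_neg]

lemma ordAt_sub_d₁₂ (x : ↥H × ↥H → T.resSub (lvlL M) H) (β : ↥H → (G.PrimeOut S M.F →₀ ℤ))
    (hβ : ∀ h₁ h₂ : ↥H, G.ordHom S M.F (x (h₁, h₂)) =
        G.divRepr S M.Gal M.F (h₁ : M.Gal) (β h₂) - β (h₁ * h₂) + β h₁)
    (w : G.PrimeOut S M.F) (b₀ : ↥H → T.resSub (lvlL M) H)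
    (hb : ∀ h : ↥H, G.ordAt w.1 (b₀ h) = β h w)
    (h₁ h₂ : ↥H) (hfix : G.primeSMul M.Gal (h₁ : M.Gal) w.1 = w.1) :
    G.ordAt w.1 ((x - (d₁₂ (T.resSub (lvlL M) H)).hom b₀) (h₁, h₂)) = 0 := by
  have hfix' : G.primeOutMap S M.Gal M.F (h₁ : M.Gal) w = w := Subtype.ext hfix
  have e0 : G.divRepr S M.Gal M.F (h₁ : M.Gal) (β h₂) w = β h₂ w := by
    have h := G.divRepr_apply_apply S M.Gal M.F (h₁ : M.Gal) (β h₂) w
    rw [hfix'] at h
    exact h
  have e1 : G.ordAt w.1 (x (h₁, h₂)) = β h₂ w - β (h₁ * h₂) w + β h₁ w := by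
    have h := DFunLike.congr_fun (hβ h₁ h₂) w
    refine h.trans ?_
    rw [Finsupp.add_apply, Finsupp.sub_apply, e0]
  have e2 : G.ordAt w.1 ((T.resSub (lvlL M) H).ρ h₁ (b₀ h₂)) = β h₂ w := by
    have h := G.ordAt_primeSMul M.Gal (h₁ : M.Gal) w.1 (b₀ h₂)
    rw [hfix] at h
    exact h.trans (hb h₂)
  have e3 : (x - (d₁₂ (T.resSub (lvlL M) H)).hom b₀) (h₁, h₂) =
      x (h₁, h₂) - ((T.resSub (lvlL M) H).ρ h₁ (b₀ h₂) - b₀ (h₁ * h₂) + b₀ h₁) := by
    rw [Pi.sub_apply, d₁₂_hom_apply]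
  rw [e3]
  have e4 := map_sub (G.ordAt w.1) (x (h₁, h₂))
    ((T.resSub (lvlL M) H).ρ h₁ (b₀ h₂) - b₀ (h₁ * h₂) + b₀ h₁)
  have e5 := map_add (G.ordAt w.1) ((T.resSub (lvlL M) H).ρ h₁ (b₀ h₂) - b₀ (h₁ * h₂)) (b₀ h₁)
  have e6 := map_sub (G.ordAt w.1) ((T.resSub (lvlL M) H).ρ h₁ (b₀ h₂)) (b₀ (h₁ * h₂))
  have e7 := hb (h₁ * h₂)
  have e8 := hb h₁
  refine e4.trans ?_
  rw [e5, e6]
  exact (congrArg₂ (fun a b : ℤ => a - b) e1 (congrArg₂ (fun a b : ℤ => a + b)
    (congrArg₂ (fun a b : ℤ => a - b) e2 e7) e8)).trans (sub_self _)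

/-- Modifying a finite-level cocycle by a coboundary does not change the class of its
inflation. -/
lemma exists_inflC₂_sub_d₁₂ (x : ↥(cocycles₂ (T.resSub (lvlL M) H)))
    (b₀ : ↥H → T.resSub (lvlL M) H)
    (c : ↥(levelCocycles₂ (UH M H).subtype (gModOn (UH M H))))
    (hc : (c : ↥(UH M H) × ↥(UH M H) → gModOn (UH M H)) = inflC₂ M H x) :
    ∃ c' : ↥(levelCocycles₂ (UH M H).subtype (gModOn (UH M H))),
      (c' : ↥(UH M H) × ↥(UH M H) → gModOn (UH M H)) =
        inflC₂ M H ((x : ↥H × ↥H → T.resSub (lvlL M) H) - (d₁₂ (T.resSub (lvlL M) H)).hom b₀) ∧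
      continuousH2π (UH M H).subtype (gModOn (UH M H)) c =
        continuousH2π (UH M H).subtype (gModOn (UH M H)) c' := by
  have hx' : (x : ↥H × ↥H → T.resSub (lvlL M) H) - (d₁₂ (T.resSub (lvlL M) H)).hom b₀ ∈
      cocycles₂ (T.resSub (lvlL M) H) :=
    Submodule.sub_mem _ x.2 (coboundaries₂_le_cocycles₂ _ ⟨b₀, rfl⟩)
  refine ⟨⟨_, inflC₂_mem_levelCocycles₂ M H hx'⟩, rfl, ?_⟩
  rw [← sub_eq_zero, ← map_sub, continuousH2π_eq_zero_iff]
  refine (mem_levelCoboundaries₂_iff _ _ _).2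
    ⟨inflC₁ M H b₀, isLevelConstant₁_inflC₁ M H b₀, ?_⟩
  have key : inflC₂ M H ((x : ↥H × ↥H → T.resSub (lvlL M) H) -
      (d₁₂ (T.resSub (lvlL M) H)).hom b₀) =
      (c : ↥(UH M H) × ↥(UH M H) → gModOn (UH M H)) -
        (d₁₂ (gModOn (UH M H))).hom (inflC₁ M H b₀) := by
    rw [hc, ← inflC₂_d₁₂]
    exact map_sub (inflC₂ M H) _ _
  show _ = (c : ↥(UH M H) × ↥(UH M H) → gModOn (UH M H)) -
    inflC₂ M H ((x : ↥H × ↥H → T.resSub (lvlL M) H) - (d₁₂ (T.resSub (lvlL M) H)).hom b₀)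
  rw [key, sub_sub_cancel]

variable (q : ℕ) [Fact q.Prime] (g : GQ)

set_option maxHeartbeats 400000 in
theorem inv_locBr_eq_zero_of_ord (I : LocalInvSystem) (hq : (⟨q, Fact.out⟩ : Nat.Primes) ∉ S)
    (x : ↥(cocycles₂ (T.resSub (lvlL M) H)))
    (hx : h2Sub (G.ordRepHom S M.Gal M.F) H (H2π _ x) = 0)
    (c : ↥(levelCocycles₂ (UH M H).subtype (gModOn (UH M H))))
    (hc : (c : ↥(UH M H) × ↥(UH M H) → gModOn (UH M H)) = inflC₂ M H x) :
    I.inv q (locSub q g (UH M H)) (locBr q g (UH M H) (continuousH2π _ _ c)) = 0 := by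
  obtain ⟨β, hβ⟩ := exists_cochain_of_ord_eq_zero M H x hx
  obtain ⟨ϖ, hϖ⟩ := exists_ordAt_eq_one M (placeW q g M)
  obtain ⟨b₀, hb₀⟩ : ∃ b₀ : ↥H → T.resSub (lvlL M) H,
      ∀ h : ↥H, G.ordAt (placeOut q g M hq).1 (b₀ h) = β h (placeOut q g M hq) :=
    ⟨fun h => ((β h (placeOut q g M hq) : ℤ) • (ϖ : T.resSub (lvlL M) H)), fun h => by
      have := map_zsmul (G.ordAt (placeW q g M)) (β h (placeOut q g M hq)) ϖ
      refine this.trans ?_
      rw [hϖ, smul_eq_mul, mul_one]⟩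
  obtain ⟨c', hc', hcc'⟩ := exists_inflC₂_sub_d₁₂ M H x b₀ c hc
  rw [hcc', locBr_mk]
  have hV := H181.isOpenL_locSub q g (isOpenQ_UH M H)
  have hord := fun h₁ h₂ hfix => ordAt_sub_d₁₂ M H x β hβ (placeOut q g M hq) b₀ hb₀ h₁ h₂ hfix
  obtain ⟨x', hx'⟩ : ∃ x' : ↥H × ↥H → T.resSub (lvlL M) H,
      x' = (x : ↥H × ↥H → T.resSub (lvlL M) H) - (d₁₂ (T.resSub (lvlL M) H)).hom b₀ := ⟨_, rfl⟩
  rw [← hx'] at hc' hord
  have hval : ∀ τ₁ τ₂ : ↥(locSub q g (UH M H)),
      (locCocycles₂ q g (UH M H) c' : ↥(locSub q g (UH M H)) × ↥(locSub q g (UH M H)) →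
        lModOn q (locSub q g (UH M H))) (τ₁, τ₂) =
      locPush q g (UH M H) (incl M H
        (x' (toH M H (locHom q g (UH M H) τ₁), toH M H (locHom q g (UH M H) τ₂)))) := by
    intro τ₁ τ₂
    show locPush q g (UH M H) ((c' : ↥(UH M H) × ↥(UH M H) → gModOn (UH M H))
      (locHom q g (UH M H) τ₁, locHom q g (UH M H) τ₂)) = _
    rw [hc']
    rfl
  apply I.inv_unram q _ hV
  · intro τ₁ τ₂
    rw [hval]
    apply valuation_placeW_eq_one q g M (Units.ne_zero _)
    exact (G.ordAt_eq_zero_iff _ _).1 (hord _ _ (primeSMul_placeW q g M τ₁))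
  · intro τ₁ τ₂ i j hi hj
    rw [hval, hval]
    have e1 : locHom q g (UH M H) (τ₁ * i) =
        locHom q g (UH M H) τ₁ * locHom q g (UH M H) i := map_mul _ _ _
    have e2 : locHom q g (UH M H) (τ₂ * j) =
        locHom q g (UH M H) τ₂ * locHom q g (UH M H) j := map_mul _ _ _
    rw [e1, e2]
    exact congrArg _ (inflC₂_mul_right M H x' _ _ _ _ (conj_loc_mem_U q M hq g hi)
      (conj_loc_mem_U q M hq g hj))
  · intro τ₁ τ₂ i hi
    rw [hval]
    refine (locPush_equivariant q g (UH M H) i _).symm.trans (congrArg _ ?_)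
    refine (incl_equivariant M H _ _).symm.trans (congrArg _ ?_)
    rw [toH_eq_one M H (conj_loc_mem_U q M hq g hi)]
    exact congrFun (congrArg DFunLike.coe (map_one (T.resSub (lvlL M) H).ρ)) _


/-- **FR-REC-UNR** (cocycle form).  For `q ∉ S`, the local invariant at any place above `q` of the
inflation of a finite-level cocycle `x` with `ord_* [x] = 0` vanishes. -/
theorem invAt_eq_zero_of_ord (I : LocalInvSystem) (q : Nat.Primes) (hq : q ∉ S) (g : GQ)
    (x : ↥(cocycles₂ (T.resSub (lvlL M) H)))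
    (hx : h2Sub (G.ordRepHom S M.Gal M.F) H (H2π _ x) = 0)
    (c : ↥(levelCocycles₂ (UH M H).subtype (gModOn (UH M H))))
    (hc : (c : ↥(UH M H) × ↥(UH M H) → gModOn (UH M H)) = inflC₂ M H x) :
    I.invAt q g (UH M H) (continuousH2π _ _ c) = 0 :=
  haveI : Fact (q : ℕ).Prime := ⟨q.2⟩
  inv_locBr_eq_zero_of_ord M H (q : ℕ) g I hq x hx c hc

/-- **FR-REC-UNR** for the canonical inflation `inflZ₂`. -/
theorem invAt_inflZ₂_eq_zero (I : LocalInvSystem) (q : Nat.Primes) (hq : q ∉ S) (g : GQ)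
    (x : ↥(cocycles₂ (T.resSub (lvlL M) H)))
    (hx : h2Sub (G.ordRepHom S M.Gal M.F) H (H2π _ x) = 0) :
    I.invAt q g (UH M H) (continuousH2π _ _ (inflZ₂ M H x)) = 0 :=
  invAt_eq_zero_of_ord M H I q hq g x hx (inflZ₂ M H x) rfl

end Main

end Fermat.Agent.S55.G.Rec.TOW.H724

end
end
-- ===== PACK-END S55/G/Rec/Tow/H724/Unram.lean

-- ===== PACK-BEGIN S56/Euler/Big/Glue.lean
section


/-!
# Row S56 / wall BASE — BASE-BIG: the PROVED glue (sub-architect helper366)

    theorem baseBig_of : (∀ p, EulerBigSpec p) → (∀ p S, H2FormulaSpec p S) → BridgeBaseSpec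
                          → H716.BaseBigStatement

Pure arithmetic: with `N = ad⁰ρ̄(1)` over `F_p`, `d = [k : F_p]`, and `S'` the big set of (E-BIG),

  `d·dim X + ∑_v d·h⁰(D_v, M) + d ≤ dimШ¹(N′) + ∑_v h⁰(G_v, N′) + d = h²(N) + d = h¹(N) ≤ d·dim D`.
-/

set_option autoImplicit false

open Polynomial IsLocalRing

noncomputable section

namespace Fermat.Agent.S56.Euler

open Fermat.Agent.S56 Fermat.Agent.S55.PT ExtCitation Module

/-- A level of `S₀` is a level of every bigger set. -/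
lemma mem_levels_of_subset {S₀ S : Finset Nat.Primes} (h : S₀ ⊆ S) {U : Subgroup _root_.Fermat.Agent.S56.GQ}
    (hU : U ∈ (globalLevels S₀).levels) : U ∈ (globalLevels S).levels := by
  obtain ⟨F, hF, rfl⟩ := hU
  exact ⟨F, hF.mono h, rfl⟩

/-- **BASE-BIG from E-BIG, H2F and BRIDGE-BASE.** -/
theorem baseBig_of (hE : ∀ (p : ℕ) [Fact p.Prime], EulerBigSpec p)
    (hH2 : ∀ (p : ℕ) [Fact p.Prime] (S : Finset Nat.Primes), H2FormulaSpec p S)
    (hB : BridgeBaseSpec) : H716.BaseBigStatement := by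
  intro 𝒪 _ _ _ _ _ p ρbar S Smin hyp
  have : Fact p.Prime := ⟨hyp.hp⟩
  obtain ⟨S₀, U, N, Pl, d, hpS₀, hSmin, hU, hfd, hUN, hPl, hd, h0, hch, hminus, hS'⟩ :=
    hB 𝒪 p ρbar S Smin hyp
  obtain ⟨S', hS₀S', hphi⟩ := hE p hyp.hp2 S₀ hpS₀ U hU
  have hphiN := hphi N hfd hUN
  obtain ⟨hchv, ⟨D, hD, hDunr, hDle⟩, ⟨X, hXfin, hXrep, hXle⟩⟩ := hS' S' hS₀S'
  have hUS' : U ∈ (globalLevels S').levels := mem_levels_of_subset hS₀S' hU
  have hsm : (globalLevels S').IsUSmooth N :=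
    ⟨U, hUS', fun s hs a => by rw [hUN s hs]; rfl⟩
  obtain ⟨-, hh2⟩ := hH2 p S' hyp.hp2 (hS₀S' hpS₀) N hfd hsm
  -- the set of primes as a `Finset ℕ`
  refine ⟨S'.image (fun v : Nat.Primes => (v : ℕ)), ?_, ?_, Pl, ?_, D, X, hD, hDunr, hXfin,
    hXrep, ?_⟩
  · intro q hq
    obtain ⟨h, hq'⟩ := hSmin q hq
    exact Finset.mem_image.2 ⟨⟨q, h⟩, hS₀S' hq', rfl⟩
  · intro q hq
    obtain ⟨v, -, rfl⟩ := Finset.mem_image.1 hq
    exact v.2
  · intro v hv
    obtain ⟨w, -, rfl⟩ := Finset.mem_image.1 hv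
    exact hPl _ w.2
  · -- the numerical inequality
    have hsum : ∑ v ∈ S'.image (fun v : Nat.Primes => (v : ℕ)),
        finrank (ResidueField 𝒪) ↥(H716.adInv ρbar ((Pl v).decompositionSubgroup ℚ)) =
        ∑ v : ↥S', finrank (ResidueField 𝒪)
          ↥(H716.adInv ρbar ((Pl (v.1 : ℕ)).decompositionSubgroup ℚ)) := by
      have hinj : ∀ a ∈ S', ∀ b ∈ S', (fun v : Nat.Primes => (v : ℕ)) a =
          (fun v : Nat.Primes => (v : ℕ)) b → a = b := fun a _ b _ h => Subtype.ext h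
      rw [Finset.sum_image hinj]
      exact (Finset.sum_coe_sort S' (fun v : Nat.Primes => finrank (ResidueField 𝒪)
        ↥(H716.adInv ρbar ((Pl (v : ℕ)).decompositionSubgroup ℚ)))).symm
    rw [hsum]
    have hsumd : ∑ v : ↥S', finrank (ZMod p)
        ↥(charHom (cycloLoc p v.1) (Rep.res (rl v.1) N)) =
        d * ∑ v : ↥S', finrank (ResidueField 𝒪)
          ↥(H716.adInv ρbar ((Pl (v.1 : ℕ)).decompositionSubgroup ℚ)) := by
      rw [Finset.mul_sum]
      exact Finset.sum_congr rfl fun v _ => hchv v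
    rw [hsumd, hch, add_zero] at hh2
    unfold H419.phi H419.eulerChar at hphiN
    rw [h0, hminus] at hphiN
    have h1 : (finrank (ZMod p) ((globalLevels S').H1 N) : ℤ) =
        finrank (ZMod p) ((globalLevels S').H2 N) + d := by
      push_cast at hphiN ⊢
      linarith
    have h1' : finrank (ZMod p) ((globalLevels S').H1 N) =
        finrank (ZMod p) ((globalLevels S').H2 N) + d := by exact_mod_cast h1
    have key : d * (finrank (ResidueField 𝒪) ↥X +
        ∑ v : ↥S', finrank (ResidueField 𝒪)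
          ↥(H716.adInv ρbar ((Pl (v.1 : ℕ)).decompositionSubgroup ℚ)) + 1) ≤
        d * finrank (ResidueField 𝒪) ↥D := by
      calc d * (finrank (ResidueField 𝒪) ↥X +
            ∑ v : ↥S', finrank (ResidueField 𝒪)
              ↥(H716.adInv ρbar ((Pl (v.1 : ℕ)).decompositionSubgroup ℚ)) + 1)
          = d * finrank (ResidueField 𝒪) ↥X +
            d * ∑ v : ↥S', finrank (ResidueField 𝒪)
              ↥(H716.adInv ρbar ((Pl (v.1 : ℕ)).decompositionSubgroup ℚ)) + d := by ring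
        _ ≤ finrank (ZMod p) ↥(Sha1 (hrl S') (tdual p N)) +
            d * ∑ v : ↥S', finrank (ResidueField 𝒪)
              ↥(H716.adInv ρbar ((Pl (v.1 : ℕ)).decompositionSubgroup ℚ)) + d := by
            gcongr
        _ = finrank (ZMod p) ((globalLevels S').H1 N) := by rw [h1', hh2]
        _ ≤ d * finrank (ResidueField 𝒪) ↥D := hDle
    exact Nat.le_of_mul_le_mul_left key hd

end Fermat.Agent.S56.Euler

end

end
-- ===== PACK-END S56/Euler/Big/Glue.lean

-- ===== PACK-BEGIN S55/PT/Assembly.lean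
section


/-!
# S55 / layer D: the generic assembly (helper835)

`sha2_equiv_dual_sha1_generic`: for a short exact sequence `0 → R → P → M → 0` of uniformly
smooth modules over a group with levels and finitely many local groups, such that

* `H²(P) → H²(M)` is surjective,
* `H¹(M′) → H¹(P′)` is zero (E2),
* `Ш²(P) → Ш²(M)` is zero (CAP),
* `Θ(R)` is bijective, `Θ(P)` injective (global top maps),
* `θ_v(R|_v)` is surjective, `θ_v(P|_v)` injective (local top maps),
* `H¹(M′)` is finite-dimensional,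

we have `Ш²(M) ≃ Dual (Ш¹(M′))`.  The framework leaves are hypotheses (Spec pattern).
-/

set_option autoImplicit false

noncomputable section

namespace Fermat.Agent.S55.PT

open groupCohomology Module Fermat.Agent.S55.H244

variable {k : Type} [Field k] {G : Type} [Group G]
variable {ι : Type} [Fintype ι] [DecidableEq ι] {Gv : ι → Type} [∀ v, Group (Gv v)]
variable {L : LevelSys G} {Lv : ∀ v, LevelSys (Gv v)} {r : ∀ v, Gv v →* G}

section Transport

variable (χ : G →* kˣ) (N : Rep.{0, 0, 0} k G)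

/-- `charHom χ N ≃ H⁰(N.dualTwist χ)` (identity on functionals) -/
def eH0 : ↥(charHom χ N) ≃ₗ[k] ↥(LevelSys.H0 (N.dualTwist χ)) :=
  LinearEquiv.ofEq (charHom χ N)
    (LevelSys.H0 (N.dualTwist χ) : Submodule k (Module.Dual k N)) (H0_dualTwist_eq χ N).symm

@[simp] lemma coe_eH0 (f : ↥(charHom χ N)) :
    ((eH0 χ N f : ↥(LevelSys.H0 (N.dualTwist χ))) : Module.Dual k N) = f := rfl

@[simp] lemma coe_eH0_symm (f : ↥(LevelSys.H0 (N.dualTwist χ))) :
    (((eH0 χ N).symm f : ↥(charHom χ N)) : Module.Dual k N) = f := rfl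

variable {G' : Type} [Group G'] (s : G' →* G)

/-- `charHom (χ ∘ s) (N|_{G'}) ≃ H⁰(G', (N.dualTwist χ)|_{G'})` (identity on functionals) -/
def eH0res : ↥(charHom (χ.comp s) (Rep.res s N)) ≃ₗ[k]
    ↥(LevelSys.H0 (Rep.res s (N.dualTwist χ))) :=
  LinearEquiv.ofEq (charHom (χ.comp s) (Rep.res s N))
    (LevelSys.H0 (Rep.res s (N.dualTwist χ)) : Submodule k (Module.Dual k N))
    (H0_res_dualTwist_eq χ N s).symm

@[simp] lemma coe_eH0res (f : ↥(charHom (χ.comp s) (Rep.res s N))) :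
    ((eH0res χ N s f : ↥(LevelSys.H0 (Rep.res s (N.dualTwist χ)))) : Module.Dual k N) = f := rfl

@[simp] lemma coe_eH0res_symm (f : ↥(LevelSys.H0 (Rep.res s (N.dualTwist χ)))) :
    (((eH0res χ N s).symm f : ↥(charHom (χ.comp s) (Rep.res s N))) : Module.Dual k N) = f := rfl

end Transport

section DualLes

variable (χ : G →* kˣ) {R P M : Rep.{0, 0, 0} k G} (E : SES R P M)

/-- the connecting map of the dual sequence, on `charHom χ R` -/
def delC (L : LevelSys G) (hP' : L.IsUSmooth (P.dualTwist χ)) :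
    ↥(charHom χ R) →ₗ[k] L.H1 (M.dualTwist χ) :=
  (E.dual χ).del0 L hP' ∘ₗ (eH0 χ R).toLinearMap

lemma delC_surjective (hLes0 : Les0Spec) (L : LevelSys G) (hP' : L.IsUSmooth (P.dualTwist χ))
    (heff : ∀ x : L.H1 (M.dualTwist χ), pushH1 (E.dual χ).i (E.dual χ).hi L x = 0) :
    Function.Surjective (delC χ E L hP') := by
  have h := (hLes0 k G L _ _ _ (E.dual χ) hP').2
  intro x
  have hx : x ∈ LinearMap.range ((E.dual χ).del0 L hP') := by
    rw [h, LinearMap.mem_ker]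
    exact heff x
  obtain ⟨f, rfl⟩ := hx
  exact ⟨(eH0 χ R).symm f, by simp [delC]⟩

lemma ker_delC (hLes0 : Les0Spec) (L : LevelSys G) (hP' : L.IsUSmooth (P.dualTwist χ)) :
    LinearMap.ker (delC χ E L hP') = LinearMap.range (charHomComap χ E.i E.hi) := by
  have h := (hLes0 k G L _ _ _ (E.dual χ) hP').1
  ext f
  constructor
  · intro hf
    have hf' : eH0 χ R f ∈ LinearMap.ker ((E.dual χ).del0 L hP') := hf
    rw [h] at hf'
    obtain ⟨g, hg⟩ := hf'
    refine ⟨(eH0 χ P).symm g, ?_⟩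
    apply Subtype.ext
    have := congrArg (fun y : ↥(LevelSys.H0 (R.dualTwist χ)) => (y : Module.Dual k R)) hg
    exact this
  · rintro ⟨g, rfl⟩
    show eH0 χ R (charHomComap χ E.i E.hi g) ∈ LinearMap.ker ((E.dual χ).del0 L hP')
    rw [h]
    exact ⟨eH0 χ P g, rfl⟩

end DualLes

section LocalData

variable (χ : G →* kˣ) {R P M : Rep.{0, 0, 0} k G} (E : SES R P M)
variable {G' : Type} [Group G'] (s : G' →* G) (L' : LevelSys G')
variable (inv' : L'.H2 (ofChar (χ.comp s)) →ₗ[k] k)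

/-- the local connecting map of the restricted dual sequence, on `charHom (χ ∘ s) (R|_{G'})` -/
def delCres (hP's : L'.IsUSmooth (Rep.res s (P.dualTwist χ))) :
    ↥(charHom (χ.comp s) (Rep.res s R)) →ₗ[k] L'.H1 (Rep.res s (M.dualTwist χ)) :=
  ((E.dual χ).res s).del0 L' hP's ∘ₗ (eH0res χ R s).toLinearMap

lemma ker_delCres (hLes0 : Les0Spec) (hP's : L'.IsUSmooth (Rep.res s (P.dualTwist χ))) :
    LinearMap.ker (delCres χ E s L' hP's) =
      LinearMap.range (charHomComap (χ.comp s) (A := Rep.res s R) (B := Rep.res s P) E.i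
        (E.hi.res s)) := by
  have h := (hLes0 k G' L' _ _ _ ((E.dual χ).res s) hP's).1
  ext f
  constructor
  · intro hf
    have hf' : eH0res χ R s f ∈ LinearMap.ker (((E.dual χ).res s).del0 L' hP's) := hf
    rw [h] at hf'
    obtain ⟨g, hg⟩ := hf'
    refine ⟨(eH0res χ P s).symm g, ?_⟩
    apply Subtype.ext
    have := congrArg
      (fun y : ↥(LevelSys.H0 (Rep.res s (R.dualTwist χ))) => (y : Module.Dual k R)) hg
    exact this
  · rintro ⟨g, rfl⟩
    show eH0res χ R s (charHomComap (χ.comp s) (A := Rep.res s R) (B := Rep.res s P) E.i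
      (E.hi.res s) g) ∈ LinearMap.ker (((E.dual χ).res s).del0 L' hP's)
    rw [h]
    exact ⟨eH0res χ P s g, rfl⟩

/-- the top-degree local data of helper244's engine -/
def localTop (hLes0 : Les0Spec) (hLes1 : Les1Spec) (hN' : L'.NormalCofinal)
    (hPs : L'.IsUSmooth (Rep.res s P)) (hMs : L'.IsUSmooth (Rep.res s M))
    (hP's : L'.IsUSmooth (Rep.res s (P.dualTwist χ)))
    (hsurjR : Function.Surjective (topPair L' (χ.comp s) inv' (Rep.res s R)))
    (hinjP : Function.Injective (topPair L' (χ.comp s) inv' (Rep.res s P))) :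
    LocalTop k (L'.H1 (Rep.res s M)) (L'.H2 (Rep.res s R)) (L'.H2 (Rep.res s P))
      ↥(charHom (χ.comp s) (Rep.res s R)) ↥(charHom (χ.comp s) (Rep.res s P))
      (L'.H1 (Rep.res s (M.dualTwist χ))) where
  dv := (E.res s).del1 L' hN' hPs hMs
  tv := pushH2 (A := Rep.res s R) (B := Rep.res s P) E.i (E.hi.res s) L'
  r0 := charHomComap (χ.comp s) (A := Rep.res s R) (B := Rep.res s P) E.i (E.hi.res s)
  del := delCres χ E s L' hP's
  ThR := topPair L' (χ.comp s) inv' (Rep.res s R)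
  ThP := topPair L' (χ.comp s) inv' (Rep.res s P)
  dv_range := (hLes1 k G' L' _ _ _ (E.res s) hN' hPs hMs).2
  del_ker := ker_delCres χ E s L' hLes0 hP's
  ThR_surj := hsurjR
  ThP_inj := hinjP
  nat := fun z g => topPair_pushH2 (χ.comp s) (A := Rep.res s R) (B := Rep.res s P) E.i
    (E.hi.res s) L' inv' g z

end LocalData

section Main

variable (hr : ∀ v, IsLevelCompatible (r v) L (Lv v))
variable (χ : G →* kˣ) (inv : ∀ v, (Lv v).H2 (ofChar (χ.comp (r v))) →ₗ[k] k)

/-- **Generic assembly of the duality engine.** -/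
theorem sha2_equiv_dual_sha1_generic
    (hLes0 : Les0Spec) (hLes1 : Les1Spec) (hCone : ConeSpec) (hConeLes : ConeLesSpec)
    (hDel0Res : Del0ResSpec) (hEngine : EngineSpec)
    (hN : L.NormalCofinal) (hNv : ∀ v, (Lv v).NormalCofinal)
    (hrec : IsRecip hr χ inv)
    {R P M : Rep.{0, 0, 0} k G} (E : SES R P M)
    (hR : L.IsUSmooth R) (hP : L.IsUSmooth P) (hM : L.IsUSmooth M)
    (hP' : L.IsUSmooth (P.dualTwist χ))
    (hfin : FiniteDimensional k (L.H1 (M.dualTwist χ)))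
    (hsurj : Function.Surjective (pushH2 E.π E.hπ L))
    (heff : ∀ x : L.H1 (M.dualTwist χ), pushH1 (E.dual χ).i (E.dual χ).hi L x = 0)
    (hcap : ∀ x ∈ Sha2 hr P, pushH2 E.π E.hπ L x = 0)
    (hTopR : Function.Bijective (topT3 hr R hrec))
    (hTopP : Function.Injective (topT3 hr P hrec))
    (hTopRv : ∀ v, Function.Surjective
      (topPair (Lv v) (χ.comp (r v)) (inv v) (Rep.res (r v) R)))
    (hTopPv : ∀ v, Function.Injective
      (topPair (Lv v) (χ.comp (r v)) (inv v) (Rep.res (r v) P))) :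
    Nonempty (↥(Sha2 hr M) ≃ₗ[k] Module.Dual k ↥(Sha1 hr (M.dualTwist χ))) := by
  classical
  haveI := hfin
  -- cone sequences
  obtain ⟨hju, hu2⟩ := hCone k G ι Gv L Lv r hr hN M hM
  obtain ⟨-, hu2P⟩ := hCone k G ι Gv L Lv r hr hN P hP
  -- cone connecting map
  obtain ⟨dT, hdTker, hdTrange, hdTj⟩ :=
    hConeLes k G ι Gv L Lv r hr hN hNv R P M E hR hP hM hsurj
  -- local data
  let D : ∀ v, LocalTop k ((Lv v).H1 (Rep.res (r v) M)) ((Lv v).H2 (Rep.res (r v) R))
      ((Lv v).H2 (Rep.res (r v) P)) ↥(charHom (χ.comp (r v)) (Rep.res (r v) R))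
      ↥(charHom (χ.comp (r v)) (Rep.res (r v) P)) ((Lv v).H1 (Rep.res (r v) (M.dualTwist χ))) :=
    fun v => localTop χ E (r v) (Lv v) (inv v) hLes0 hLes1 (hNv v) (hP.res (hr v))
      (hM.res (hr v)) (hP'.res (hr v)) (hTopRv v) (hTopPv v)
  refine hEngine k ι (Hc2 L Lv r M) (L.H2 M) ((v : ι) → (Lv v).H2 (Rep.res (r v) M))
    (L.H1 (M.dualTwist χ)) (T3 hr R) (T3 hr P) ↥(charHom χ R) ↥(charHom χ P)
    (fun v => (Lv v).H1 (Rep.res (r v) M)) (fun v => (Lv v).H2 (Rep.res (r v) R))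
    (fun v => (Lv v).H2 (Rep.res (r v) P))
    (fun v => ↥(charHom (χ.comp (r v)) (Rep.res (r v) R)))
    (fun v => ↥(charHom (χ.comp (r v)) (Rep.res (r v) P)))
    (fun v => (Lv v).H1 (Rep.res (r v) (M.dualTwist χ)))
    (jH (L := L) (Lv := Lv) (r := r) M) (uH (L := L) (Lv := Lv) (r := r) M) (loc2 hr M)
    (loc1 hr (M.dualTwist χ)) hju hu2
    dT (pushT3 hr E.i E.hi) hdTrange
    (charHomComap χ E.i E.hi) (delC χ E L hP')
    (delC_surjective χ E hLes0 L hP' heff) (ker_delC χ E hLes0 L hP')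
    (topT3 hr R hrec) (topT3 hr P hrec) hTopR hTopP
    (fun t g => topT3_pushT3 hr E.i E.hi χ inv hrec g t)
    ?_ D (fun v => charHomRes χ R (r v)) ?_ (-1) (by simp) ?_
  · -- CAP
    intro x hx
    have hx' : x ∈ LinearMap.range (pushHc2 (L := L) (Lv := Lv) (r := r) E.π E.hπ) := by
      rw [← hdTker]; exact hx
    obtain ⟨y, rfl⟩ := hx'
    rw [uH_pushHc2]
    apply hcap
    show uH P y ∈ LinearMap.ker (loc2 hr P)
    rw [← hu2P]
    exact ⟨y, rfl⟩
  · -- local/global compatibility of δ⁰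
    intro v f
    show ((E.dual χ).res (r v)).del0 (Lv v) (hP'.res (hr v)) (eH0res χ R (r v)
        (charHomRes χ R (r v) f)) =
      resH1 (hr v) (M.dualTwist χ) ((E.dual χ).del0 L hP' (eH0 χ R f))
    rw [hDel0Res k G (Gv v) L (Lv v) (r v) (hr v) _ _ _ (E.dual χ) hP' (eH0 χ R f)]
    rfl
  · -- the formula
    intro b f
    rw [hdTj b, map_neg, LinearMap.neg_apply, topT3_mk, topGlobFun_apply, neg_one_mul]
    rfl

end Main

end Fermat.Agent.S55.PT

end

end
-- ===== PACK-END S55/PT/Assembly.lean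

-- ===== PACK-BEGIN S55/PT/Master.lean
section


/-!
# S55 / layer D: Theorem D from the leaves and the inputs (helper835)

`theoremD_of_leaves`: all framework leaves + the arithmetic inputs (in their "for all modules"
form `TopLocSpec`, `TopGlobSpec`, `CapAllSpec`) ⇒ `TheoremDSpec p S`.
`theoremD_of_inputs`: the same from the inputs A1, A3, A4, A5–A7, A8 of `PT/Spec.lean` and the
dévissage leaves.
-/

set_option autoImplicit false

noncomputable section

namespace Fermat.Agent.S55.PT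

open groupCohomology ExtCitation Module

variable (p : ℕ) [Fact p.Prime] (S : Finset Nat.Primes)

/-- **D-F8.** There is an `S`-level on which the cyclotomic character is trivial
(`ℚ(μ_p)` is unramified outside `S ∋ p`). -/
def CycloLevelSpec : Prop :=
  pPrime p ∈ S → ∃ V ∈ (globalLevels S).levels, ∀ u ∈ V, cycloChar p u = 1

variable {p S}

/-- Theorem D from the leaves and the inputs in "for all modules" form. -/
theorem theoremD_of_leaves
    (hLes0 : Les0Spec) (hLes1 : Les1Spec) (hCone : ConeSpec) (hConeLes : ConeLesSpec)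
    (hDel0Res : Del0ResSpec) (hEngine : EngineSpec)
    (hGN : GlobalNormalCofinalSpec) (hLN : LocalNormalCofinalSpec)
    (hGF : GlobalFiniteIndexSpec) (hEff : EffaceSpec)
    (hCyc : ∃ V ∈ (globalLevels S).levels, ∀ u ∈ V, cycloChar p u = 1)
    (hFin : FinGlobSpec p S) (hSurjG : Surj2GlobSpec p S)
    (inv : InvFamily p S) (hrec : IsRecip (hrl S) (cycloChar p) inv)
    (hTopL : TopLocSpec inv) (hTopG : TopGlobSpec inv hrec)
    (hCap : CapAllSpec p S) : TheoremDSpec p S := by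
  classical
  intro M hMfd hMsm
  haveI := hMfd
  -- a level `V` acting trivially on `M` and on `μ`
  obtain ⟨V₁, hV₁, hV₁M⟩ := hMsm
  obtain ⟨V₂, hV₂, hV₂χ⟩ := hCyc
  obtain ⟨V, hV, hVle⟩ := (globalLevels S).directed V₁ hV₁ V₂ hV₂
  have hχV : ∀ u ∈ V, cycloChar p u = 1 := fun u hu => hV₂χ u (hVle hu).2
  have hMV : ∀ u ∈ V, M.ρ u = 1 := fun u hu =>
    LinearMap.ext fun a => hV₁M u (hVle hu).1 a
  -- the dual module
  have hM'triv : ∀ u ∈ V, (tdual p M).ρ u = 1 := fun u hu =>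
    dualTwist_ρ_eq_one' (cycloChar p) M u (hχV u hu) (hMV u hu)
  have hM'sm : (globalLevels S).IsUSmooth (tdual p M) := isUSmooth_of_trivial _ hV hM'triv
  have hfin : FiniteDimensional (ZMod p) ((globalLevels S).H1 (tdual p M)) :=
    hFin (tdual p M) inferInstance hM'sm
  -- CAP level, then effaceability level
  obtain ⟨U₂, hU₂V, hU₂, hU₂n, hcap₂⟩ := hCap M hMfd V hV hχV hMV
  have hχU₂ : ∀ u ∈ U₂, cycloChar p u = 1 := fun u hu => hχV u (hU₂V hu)
  have hMU₂ : ∀ u ∈ U₂, M.ρ u = 1 := fun u hu => hMV u (hU₂V hu)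
  obtain ⟨U, hUU₂, hU, hUn, heff⟩ :=
    hEff (ZMod p) GQ (globalLevels S) (hGN S) (cycloChar p) M ⟨V₁, hV₁, hV₁M⟩ hfin U₂ hU₂
      hχU₂ hMU₂
  have hχU : ∀ u ∈ U, cycloChar p u = 1 := fun u hu => hχU₂ u (hUU₂ hu)
  have hMU : ∀ u ∈ U, M.ρ u = 1 := fun u hu => hMU₂ u (hUU₂ hu)
  haveI : U.Normal := hUn
  haveI : U.FiniteIndex := hGF S U hU
  -- the presentation
  let E := twSES (cycloChar p) U M hχU hMU
  have hPtriv : ∀ u ∈ U, (indRep U (twTriv (cycloChar p) M)).ρ u = 1 := fun u hu =>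
    indRep_ρ_eq_one U (twTriv (cycloChar p) M)
      (fun u hu => twTriv_ρ_eq_one (cycloChar p) M u (hχU u hu)) u hu
  have hPsm : (globalLevels S).IsUSmooth (indRep U (twTriv (cycloChar p) M)) :=
    isUSmooth_of_trivial _ hU hPtriv
  have hRsm : (globalLevels S).IsUSmooth
      (kerRep (A := indRep U (twTriv (cycloChar p) M)) (B := M) (augTw (cycloChar p) U M)
        (augTw_equivariant (cycloChar p) U M hχU hMU)) :=
    isUSmooth_of_trivial _ hU fun u hu => kerRep_ρ_eq_one _ _ u (hPtriv u hu)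
  have hMsm' : (globalLevels S).IsUSmooth M := ⟨V₁, hV₁, hV₁M⟩
  have hP'sm : (globalLevels S).IsUSmooth
      ((indRep U (twTriv (cycloChar p) M)).dualTwist (cycloChar p)) :=
    isUSmooth_of_trivial _ hU fun u hu =>
      dualTwist_ρ_eq_one' (cycloChar p) _ u (hχU u hu) (hPtriv u hu)
  -- CAP for `U`
  have hcap : ∀ x ∈ Sha2 (hrl S) (indRep U (twTriv (cycloChar p) M)),
      pushH2 E.π E.hπ (globalLevels S) x = 0 := by
    intro x hx
    have hcomp : (augTw (cycloChar p) U₂ M) ∘ₗ (indLE (twTriv (cycloChar p) M) hUU₂) =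
        augTw (cycloChar p) U M :=
      LinearMap.ext fun a => augTw_indLE (cycloChar p) U M hUU₂ hχU₂ hMU₂ a
    have hle := indLE_equivariant U (twTriv (cycloChar p) M) hUU₂
    have haug₂ := augTw_equivariant (cycloChar p) U₂ M hχU₂ hMU₂
    have h1 : pushH2 E.π E.hπ (globalLevels S) x =
        pushH2 (A := indRep U (twTriv (cycloChar p) M)) (B := M)
          ((augTw (cycloChar p) U₂ M) ∘ₗ (indLE (twTriv (cycloChar p) M) hUU₂))
          (isEquivariant_comp (A := indRep U (twTriv (cycloChar p) M))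
            (B := indRep U₂ (twTriv (cycloChar p) M)) (C := M) hle haug₂)
          (globalLevels S) x :=
      pushH2_congr (A := indRep U (twTriv (cycloChar p) M)) (B := M) (globalLevels S) _ _
        hcomp.symm x
    rw [h1, pushH2_comp (A := indRep U (twTriv (cycloChar p) M))
      (B := indRep U₂ (twTriv (cycloChar p) M)) (C := M) (globalLevels S) hle haug₂]
    exact hcap₂ _ (pushSha2 (hrl S) (A := indRep U (twTriv (cycloChar p) M))
      (B := indRep U₂ (twTriv (cycloChar p) M)) _ hle ⟨x, hx⟩).2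
  -- apply the generic assembly
  exact sha2_equiv_dual_sha1_generic (hrl S) (cycloChar p) inv hLes0 hLes1 hCone hConeLes
    hDel0Res hEngine (hGN S) (fun v => hLN v.1) hrec E hRsm hPsm hMsm' hP'sm hfin
    (hSurjG _ _ E.π E.hπ inferInstance hPsm hMsm' E.surj)
    heff hcap
    (hTopG _ inferInstance hRsm) (hTopG _ inferInstance hPsm).1
    (fun v => (hTopL v _ inferInstance (hRsm.res (hrl S v))).2)
    (fun v => (hTopL v _ inferInstance (hPsm.res (hrl S v))).1)

/-- **Theorem D from the inputs** A1, A3, A4, A5–A7, A8 of `PT/Spec.lean` and all leaves of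
layer D.  (A2 `FinLocSpec` is not needed.) -/
theorem theoremD_of_inputs
    (hLes0 : Les0Spec) (hLes1 : Les1Spec) (hMid : LesMidSpec) (hCone : ConeSpec)
    (hConeLes : ConeLesSpec) (hDel0Res : Del0ResSpec) (hEngine : EngineSpec)
    (hGN : GlobalNormalCofinalSpec) (hLN : LocalNormalCofinalSpec)
    (hGF : GlobalFiniteIndexSpec) (hLF : LocalFiniteIndexSpec) (hEff : EffaceSpec)
    (hCyc : CycloLevelSpec p S)
    (hTL : TopLocDevSpec p S) (hTG : TopGlobDevSpec p S) (hCD : CapDevSpec p S)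
    (hpS : pPrime p ∈ S)
    (hFin : FinGlobSpec p S) (hSurjG : Surj2GlobSpec p S) (hSurjL : Surj2LocSpec p S)
    (hInv : InvSpec p S) (hCap : CapSpec p S) : TheoremDSpec p S := by
  obtain ⟨inv, hrec, hTLI, hTGI⟩ := hInv
  have hrec' : IsRecip (hrl S) (cycloChar p) inv := hrec
  have hTopL : TopLocSpec inv := hTL hMid hLN hLF inv hTLI hSurjL
  have hTopG : TopGlobSpec inv hrec' := hTG hMid hGN hLN hGF hpS inv hrec' hTopL hTGI hSurjG hSurjL
  exact theoremD_of_leaves hLes0 hLes1 hCone hConeLes hDel0Res hEngine hGN hLN hGF hEff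
    (hCyc hpS) hFin hSurjG inv hrec' hTopL hTopG (hCD hGN hCap)

end Fermat.Agent.S55.PT

end

end
-- ===== PACK-END S55/PT/Master.lean

-- ===== PACK-BEGIN S56/Euler/H726/Sha1Main.lean
section


/-!
# S56 / W-BASE / Euler characteristic, leaf EUL-SHA2 (helper726): `Ш¹` vanishes for large `S′`

`N` a finite-dimensional `F_p`-representation of `G_ℚ`, trivial on `U = G_F`, `F/ℚ` finite
unramified outside `S`, and `U`-ACYCLIC: every cocycle `G_ℚ → N` vanishing on `U` is a coboundary.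

**Theorem** (`exists_sha1_eq_bot`).  There is a finite `S′ ⊇ S` such that `Ш¹_T(N) = 0` for every
finite `T ⊇ S′`.

Proof.  A class of `Ш¹_T(N)` is represented by a cocycle `c` which is a coboundary on every
decomposition group over `T`, hence (as `U` acts trivially on `N`) vanishes on `D_A ∩ U` for all
`A` over `T`; in particular it vanishes on all inertia groups outside `S`, so that `c` is an
`S`-level cocycle (`mem_Z1_of_locTriv`).  By the uniform level bound (helper901/helper593) all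
`S`-level cocycles vanish on `G_E` for one finite `E ⊇ F`.  Choose for every coset `x` of `G_E` a
prime `ℓ_x ∉ S` and a Frobenius `τ_x` over `ℓ_x` with `τ_x ^ j = x` on `E` (Frobenius division,
`Lib.Cheb` Tier 1) and put `S′ = S ∪ {ℓ_x}`.  Then for `σ ∈ U`, `x = σ G_E`:
`c σ = c (τ_x ^ j) = 0` because `τ_x ^ j ∈ D ∩ U`.  So `c` vanishes on `U` and is a coboundary.
-/

set_option autoImplicit false
set_option linter.style.haveILetI false

noncomputable section

namespace Fermat.Agent.S56.Euler.H726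

open Fermat.Agent.S55.PT groupCohomology ExtCitation
open scoped Pointwise

variable (p : ℕ) [Fact p.Prime] (S : Finset Nat.Primes) (N : Rep.{0, 0, 0} (ZMod p) _root_.Fermat.Agent.S55.PT.GQ)

/-- A `T`-level cocycle which is locally trivial at all `v ∈ T`, with values in a module which
is trivial on an `S`-level `G_F`, is an `S`-level cocycle. -/
theorem mem_Z1_of_locTriv {T : Finset Nat.Primes}
    (F : IntermediateField ℚ (AlgebraicClosure ℚ)) (hF : F.IsUnramifiedOutside S)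
    (htriv : ∀ s ∈ F.fixingSubgroup, ∀ n : N, N.ρ s n = n)
    (c : _root_.Fermat.Agent.S55.PT.GQ → N) (hc : c ∈ (globalLevels T).Z1 N) (hloc : ∀ v ∈ T, IsLocTriv N c v) :
    c ∈ (globalLevels S).Z1 N := by
  obtain ⟨hc1, W, ⟨FT, hFT, rfl⟩, hW⟩ := hc
  have hWz : FT.fixingSubgroup ≤ zeroSub N c hc1 := fun s hs => by
    show c s = 0
    have := hW 1 s hs
    rw [one_mul, coc_one N hc1] at this
    exact this
  have hin : ∀ q : Nat.Primes, q ∉ S → ∀ A : ValuationSubring (AlgebraicClosure ℚ),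
      A.LiesOverPrime (q : ℕ) → A.inertiaSubgroupIn ℚ ≤ zeroSub N c hc1 := by
    intro q hq A hA s hs
    by_cases hqT : q ∈ T
    · exact eq_zero_of_mem_decomposition N hc1 (hloc q hqT) A hA
        (inertia_le_decomposition A hs) (htriv s (hF.2 q hq A hA hs))
    · exact hWz (hFT.2 q hqT A hA hs)
  obtain ⟨L, hL, hLfix, -⟩ := Fermat.Agent.S55.Bridge.exists_level_of_subgroup S
    (zeroSub N c hc1) FT hFT.1 hWz hin
  refine ⟨hc1, L.fixingSubgroup, ⟨L, hL, rfl⟩, fun g s hs => ?_⟩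
  rw [hLfix] at hs
  exact coc_mul_right_of_zero N hc1 g s hs

/-- **EUL-SHA2, general form.**  `Ш¹_T(N) = 0` for all `T ⊇ S′`, for `U`-acyclic `N`. -/
theorem exists_sha1_eq_bot [FiniteDimensional (ZMod p) N]
    (F : IntermediateField ℚ (AlgebraicClosure ℚ)) (hF : F.IsUnramifiedOutside S)
    (htriv : ∀ s ∈ F.fixingSubgroup, ∀ n : N, N.ρ s n = n)
    (hacyc : ∀ c : _root_.Fermat.Agent.S55.PT.GQ → N, c ∈ cocycles₁ N → (∀ u ∈ F.fixingSubgroup, c u = 0) →
      c ∈ LevelSys.B1 N) :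
    ∃ S' : Finset Nat.Primes, S ⊆ S' ∧
      ∀ T : Finset Nat.Primes, S' ⊆ T → Sha1 (hrl T) N = ⊥ := by
  classical
  have hUS : (globalLevels S).IsUSmooth N := ⟨F.fixingSubgroup, ⟨F, hF, rfl⟩, htriv⟩
  obtain ⟨Lmax, hLfin, hL⟩ := Fermat.Agent.S55.PT.H593.exists_level_bound_Z1 p S N hUS
  haveI := hLfin
  haveI := hF.1
  haveI hEfin : FiniteDimensional ℚ ↥(Lmax ⊔ F) := IntermediateField.finiteDimensional_sup Lmax F
  haveI : Finite (_root_.Fermat.Agent.S55.PT.GQ ⧸ (Lmax ⊔ F).fixingSubgroup) :=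
    Fermat.Agent.S55.H901.finite_quotient_fixingSubgroup (Lmax ⊔ F)
  have hfrob := fun x : _root_.Fermat.Agent.S55.PT.GQ ⧸ (Lmax ⊔ F).fixingSubgroup =>
    Fermat.Agent.Lib.Cheb.frobeniusDivision (Lmax ⊔ F) hEfin (Quotient.out x)
      (S.image (fun q : Nat.Primes => (q : ℕ)))
  choose ℓ A τ k j hℓ hℓS hA hτ hI hk hj using hfrob
  letI := Fintype.ofFinite (_root_.Fermat.Agent.S55.PT.GQ ⧸ (Lmax ⊔ F).fixingSubgroup)
  refine ⟨S ∪ Finset.univ.image (fun x => (⟨ℓ x, hℓ x⟩ : Nat.Primes)),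
    Finset.subset_union_left, fun T hT => ?_⟩
  rw [eq_bot_iff]
  intro x hx
  obtain ⟨c, rfl⟩ := (globalLevels T).H1π_surjective N x
  rw [Submodule.mem_bot, LevelSys.H1π_eq_zero_iff]
  have hloc : ∀ v ∈ T, IsLocTriv N (c : _root_.Fermat.Agent.S55.PT.GQ → N) v :=
    fun v hv => isLocTriv_of_mem_Sha1 N T c hx v hv
  have hcS : (c : _root_.Fermat.Agent.S55.PT.GQ → N) ∈ (globalLevels S).Z1 N :=
    mem_Z1_of_locTriv p S N F hF htriv c c.2 hloc
  have hc1 : (c : _root_.Fermat.Agent.S55.PT.GQ → N) ∈ cocycles₁ N := c.2.1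
  have hE : ∀ s ∈ (Lmax ⊔ F).fixingSubgroup, (c : _root_.Fermat.Agent.S55.PT.GQ → N) s = 0 := fun s hs =>
    hL ⟨c, hcS⟩ s (IntermediateField.fixingSubgroup_antitone le_sup_left hs)
  apply hacyc _ hc1
  intro σ hσ
  obtain ⟨x, hx⟩ : ∃ x : _root_.Fermat.Agent.S55.PT.GQ ⧸ (Lmax ⊔ F).fixingSubgroup, x = (σ : _root_.Fermat.Agent.S55.PT.GQ ⧸ (Lmax ⊔ F).fixingSubgroup) :=
    ⟨_, rfl⟩
  have h1 : (Quotient.out x)⁻¹ * σ ∈ (Lmax ⊔ F).fixingSubgroup :=
    QuotientGroup.eq.1 ((QuotientGroup.out_eq' x).trans hx)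
  have h2 : ((τ x) ^ (j x))⁻¹ * Quotient.out x ∈ (Lmax ⊔ F).fixingSubgroup := by
    rw [IntermediateField.mem_fixingSubgroup_iff]
    intro y hy
    have := hj x y hy
    show ((τ x) ^ (j x))⁻¹ (Quotient.out x y) = y
    rw [← this]
    exact Fermat.Agent.Lib.Cheb.H476.inv_apply_apply _ y
  have h3 : ((τ x) ^ (j x))⁻¹ * σ ∈ (Lmax ⊔ F).fixingSubgroup := by
    have := (Lmax ⊔ F).fixingSubgroup.mul_mem h2 h1
    have e : ((τ x) ^ (j x))⁻¹ * Quotient.out x * ((Quotient.out x)⁻¹ * σ) =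
        ((τ x) ^ (j x))⁻¹ * σ := by group
    rwa [e] at this
  have h4 : σ = (τ x) ^ (j x) * (((τ x) ^ (j x))⁻¹ * σ) := by group
  rw [h4, coc_mul_right_of_zero N hc1 _ _ (hE _ h3)]
  have hτD : (τ x) ^ (j x) ∈ (A x).decompositionSubgroup ℚ :=
    Subgroup.pow_mem _ (hτ x).mem_decompositionSubgroup _
  have hτU : (τ x) ^ (j x) ∈ F.fixingSubgroup := by
    have e : (τ x) ^ (j x) = σ * (((τ x) ^ (j x))⁻¹ * σ)⁻¹ := by group
    rw [e]
    exact F.fixingSubgroup.mul_mem hσ (F.fixingSubgroup.inv_mem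
      (IntermediateField.fixingSubgroup_antitone le_sup_right h3))
  have hℓT : (⟨ℓ x, hℓ x⟩ : Nat.Primes) ∈ T :=
    hT (Finset.mem_union_right _ (Finset.mem_image_of_mem _ (Finset.mem_univ x)))
  exact eq_zero_of_mem_decomposition N hc1 (hloc _ hℓT) (A x) (hA x) hτD (htriv _ hτU)

end Fermat.Agent.S56.Euler.H726

end

end
-- ===== PACK-END S56/Euler/H726/Sha1Main.lean

-- ===== PACK-BEGIN S55/KC/KummerH2H53.lean
section


/-!
# S55 / layer KC, leaf KC-K2: `KummerH2Spec`          (helper53)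

`|H²_lc(G, M)| = |H²_lc(G, B)[p]|` for a smooth `p`-divisible `B` with `H¹_lc(G, B) = 0` and a
Kummer embedding `ι : M → B` (`M ≅ B[p]`).  Cochain-level Kummer argument.

Reusable lemmas (any commutative ring `k`): `exists_level_fixing_finset`, `finite_range_of_isLC₁`,
`exists_level_fixing_values`, `d₁₂_isLC₂_of_smooth`, `d₀₁_isLC₁_of_smooth`.
-/

set_option autoImplicit false
set_option linter.style.haveILetI false

noncomputable section

namespace Fermat.Agent.S55.KC.H53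

open groupCohomology ExtCitation Fermat.Agent.S55.PT

variable {G : Type} [Group G] (L : LevelSys G)

section Smooth

variable {k : Type} [CommRing k] {B : Rep.{0, 0, 0} k G}

/-- A finite set of vectors of a smooth representation is fixed by a common level. -/
lemma exists_level_fixing_finset (hsm : L.IsSmooth B) (T : Finset B) :
    ∃ W ∈ L.levels, ∀ t ∈ T, ∀ s ∈ W, B.ρ s t = t := by
  classical
  induction T using Finset.induction_on with
  | empty =>
    obtain ⟨U, hU⟩ := L.nonempty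
    exact ⟨U, hU, by simp⟩
  | insert a T _ ih =>
    obtain ⟨W, hW, h⟩ := ih
    obtain ⟨U, hU, hUa⟩ := hsm a
    obtain ⟨V, hV, hle⟩ := L.directed U hU W hW
    refine ⟨V, hV, fun t ht s hs => ?_⟩
    rcases Finset.mem_insert.1 ht with rfl | ht
    · exact hUa s (hle hs).1
    · exact h t ht s (hle hs).2

/-- A level-constant function has finite range (levels have finite index). -/
lemma finite_range_of_isLC₁ (hF : L.FiniteIndex) {X : Type*} {x : G → X} (hx : L.IsLC₁ x) :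
    (Set.range x).Finite := by
  obtain ⟨U, hU, h⟩ := hx
  haveI := hF U hU
  have hsub : Set.range x ⊆ Set.range (fun q : G ⧸ U => x q.out) := by
    rintro _ ⟨g, rfl⟩
    refine ⟨(g : G ⧸ U), ?_⟩
    obtain ⟨s, hs⟩ := QuotientGroup.mk_out_eq_mul U g
    show x (Quotient.out (g : G ⧸ U)) = x g
    rw [hs]
    exact h g s s.2
  exact (Set.finite_range _).subset hsub

/-- The values of a level-constant cochain with values in a smooth representation are fixed by a
common level. -/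
lemma exists_level_fixing_values (hF : L.FiniteIndex) (hsm : L.IsSmooth B) {x : G → B}
    (hx : L.IsLC₁ x) : ∃ W ∈ L.levels, ∀ g : G, ∀ s ∈ W, B.ρ s (x g) = x g := by
  obtain ⟨W, hW, h⟩ := exists_level_fixing_finset L hsm (finite_range_of_isLC₁ L hF hx).toFinset
  exact ⟨W, hW, fun g s hs => h (x g) (by simp) s hs⟩

/-- `d` of a level-constant 1-cochain with values in a smooth representation is level-constant. -/
lemma d₁₂_isLC₂_of_smooth (hN : L.NormalCofinal) (hF : L.FiniteIndex) (hsm : L.IsSmooth B)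
    {x : G → B} (hx : L.IsLC₁ x) : L.IsLC₂ ((d₁₂ B).hom x) := by
  obtain ⟨W, hW, hfix⟩ := exists_level_fixing_values L hF hsm hx
  obtain ⟨V, hV, hxV⟩ := hx
  obtain ⟨W', hW', hle⟩ := L.directed W hW V hV
  obtain ⟨N, hNl, hNW, hNn⟩ := hN W' hW'
  refine ⟨N, hNl, fun g g' s s' hs hs' => ?_⟩
  have hconj : g'⁻¹ * s * g' ∈ N := by
    have := hNn.conj_mem s hs g'⁻¹
    simpa using this
  have hmem : g'⁻¹ * s * g' * s' ∈ V := (hle (hNW (N.mul_mem hconj hs'))).2
  have e1 : g * s * (g' * s') = g * g' * (g'⁻¹ * s * g' * s') := by group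
  simp only [d₁₂_hom_apply]
  rw [e1, hxV (g * g') _ hmem, hxV g' s' (hle (hNW hs')).2, hxV g s (hle (hNW hs)).2, map_mul,
    Module.End.mul_apply, hfix g' s (hle (hNW hs)).1]

/-- `d₀₁ a` is level-constant if `B` is smooth. -/
lemma d₀₁_isLC₁_of_smooth (hsm : L.IsSmooth B) (a : B) : L.IsLC₁ ((d₀₁ B).hom a) := by
  obtain ⟨U, hU, h⟩ := hsm a
  refine ⟨U, hU, fun g s hs => ?_⟩
  simp only [d₀₁_hom_apply, map_mul, Module.End.mul_apply, h s hs]

lemma IsLC₁.sub' {X : Type*} [Sub X] {f f' : G → X} (hf : L.IsLC₁ f) (hf' : L.IsLC₁ f') :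
    L.IsLC₁ (f - f') := by
  obtain ⟨U, hU, h⟩ := hf
  obtain ⟨V, hV, h'⟩ := hf'
  obtain ⟨W, hW, hle⟩ := L.directed U hU V hV
  refine ⟨W, hW, fun g s hs => ?_⟩
  simp only [Pi.sub_apply]
  rw [h g s (hle hs).1, h' g s (hle hs).2]

lemma IsLC₂.sub' {X : Type*} [Sub X] {f f' : G × G → X} (hf : L.IsLC₂ f) (hf' : L.IsLC₂ f') :
    L.IsLC₂ (f - f') := by
  obtain ⟨U, hU, h⟩ := hf
  obtain ⟨V, hV, h'⟩ := hf'
  obtain ⟨W, hW, hle⟩ := L.directed U hU V hV
  refine ⟨W, hW, fun g g' s s' hs hs' => ?_⟩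
  simp only [Pi.sub_apply]
  rw [h g g' s s' (hle hs).1 (hle hs').1, h' g g' s s' (hle hs).2 (hle hs').2]

end Smooth

section Kummer

variable {p : ℕ} [Fact p.Prime] {M : Rep.{0, 0, 0} (ZMod p) G} {B : Rep.{0, 0, 0} ℤ G}
  {ι : M →+ B}

lemma ι_d₀₁ (hι : IsKummerEmb p M B ι) (m : M) :
    (d₀₁ B).hom (ι m) = ι ∘ (d₀₁ M).hom m := by
  funext g
  simp only [d₀₁_hom_apply, Function.comp_apply, map_sub, hι.equivariant]

lemma ι_d₁₂ (hι : IsKummerEmb p M B ι) (x : G → M) :
    (d₁₂ B).hom (ι ∘ x) = ι ∘ (d₁₂ M).hom x := by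
  funext ⟨g, h⟩
  simp only [d₁₂_hom_apply, Function.comp_apply, map_add, map_sub, hι.equivariant]

lemma ι_mem_cocycles₂_iff (hι : IsKummerEmb p M B ι) (c : G × G → M) :
    ι ∘ c ∈ cocycles₂ B ↔ c ∈ cocycles₂ M := by
  rw [mem_cocycles₂_def, mem_cocycles₂_def]
  refine forall_congr' fun g => forall_congr' fun h => forall_congr' fun j => ?_
  simp only [Function.comp_apply, ← hι.equivariant, ← map_sub, ← map_add]
  exact ⟨fun h0 => hι.injective (by rw [h0, map_zero]), fun h0 => by rw [h0, map_zero]⟩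

lemma isLC₁_of_ι (hι : IsKummerEmb p M B ι) {x : G → M} (hx : L.IsLC₁ (ι ∘ x)) : L.IsLC₁ x := by
  obtain ⟨U, hU, h⟩ := hx
  exact ⟨U, hU, fun g s hs => hι.injective (h g s hs)⟩

lemma isLC₂_of_ι (hι : IsKummerEmb p M B ι) {x : G × G → M} (hx : L.IsLC₂ (ι ∘ x)) :
    L.IsLC₂ x := by
  obtain ⟨U, hU, h⟩ := hx
  exact ⟨U, hU, fun g g' s s' hs hs' => hι.injective (h g g' s s' hs hs')⟩

lemma p_nsmul_ι (m : M) : p • ι m = 0 := by
  rw [← map_nsmul, ZModModule.char_nsmul_eq_zero p m, map_zero]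

/-- a function killed by `p` factors through `ι` -/
lemma exists_lift_of_p_nsmul_eq_zero (hι : IsKummerEmb p M B ι) {X : Type*} (f : X → B)
    (hf : ∀ x, p • f x = 0) : ∃ f' : X → M, ι ∘ f' = f := by
  choose f' hf' using fun x => (hι.range_eq (f x)).1 (hf x)
  exact ⟨f', funext hf'⟩

/-- `ι ∘ c ∈ Z²_lc(B)` for `c ∈ Z²_lc(M)`. -/
lemma ι_mem_Z2 (hι : IsKummerEmb p M B ι) {c : G × G → M} (hc : c ∈ L.Z2 M) :
    ι ∘ c ∈ L.Z2 B :=
  ⟨(ι_mem_cocycles₂_iff hι c).2 hc.1, LevelSys.IsLC₂.comp hc.2 ι⟩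

/-- `ι ∘ c ∈ B²_lc(B)` for `c ∈ B²_lc(M)`. -/
lemma ι_mem_B2 (hι : IsKummerEmb p M B ι) {c : G × G → M} (hc : c ∈ L.B2 M) :
    ι ∘ c ∈ L.B2 B := by
  obtain ⟨x, hx, rfl⟩ := hc
  exact ⟨ι ∘ x, LevelSys.IsLC₁.comp hx ι, ι_d₁₂ hι x⟩

/-- (K-b) injectivity. -/
lemma mem_B2_of_ι_mem_B2 (hsm : L.IsSmooth B) (hdiv : IsPDivisible p B)
    (hι : IsKummerEmb p M B ι) (h1 : H1Vanish L B) {c : G × G → M} (hc : ι ∘ c ∈ L.B2 B) :
    c ∈ L.B2 M := by
  obtain ⟨b, hb, hbc⟩ := hc
  -- `p • b` is a level-constant 1-cocycle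
  have hpb_coc : p • b ∈ cocycles₁ B := by
    show (d₁₂ B).hom (p • b) = 0
    rw [map_nsmul, hbc]
    funext x
    simp only [Pi.smul_apply, Function.comp_apply]
    exact p_nsmul_ι (c x)
  have hpb_lc : L.IsLC₁ (p • b) := LevelSys.IsLC₁.comp hb (p • ·)
  obtain ⟨a₀, ha₀⟩ := h1 (p • b) hpb_coc hpb_lc
  obtain ⟨a₁, ha₁⟩ := hdiv a₀
  -- `b' = b - d a₁` is killed by `p`
  have hb' : ∀ g, p • (b - (d₀₁ B).hom a₁) g = 0 := by
    intro g
    have h2 : (d₀₁ B).hom a₀ g = (p • b) g := congrFun ha₀ g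
    rw [← ha₁, map_nsmul] at h2
    simp only [Pi.sub_apply, smul_sub]
    rw [sub_eq_zero]
    simpa using h2.symm
  obtain ⟨b'', hb''⟩ := exists_lift_of_p_nsmul_eq_zero hι _ hb'
  have hb''lc : L.IsLC₁ b'' := by
    apply isLC₁_of_ι L hι
    rw [hb'']
    exact IsLC₁.sub' L hb (d₀₁_isLC₁_of_smooth L hsm a₁)
  refine ⟨b'', hb''lc, ?_⟩
  show (d₁₂ M).hom b'' = c
  have : ι ∘ (d₁₂ M).hom b'' = ι ∘ c := by
    rw [← ι_d₁₂ hι, hb'', map_sub, hbc]
    have hdd : (d₁₂ B).hom ((d₀₁ B).hom a₁) = 0 := d₀₁_comp_d₁₂_apply B a₁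
    rw [hdd, sub_zero]
  funext x
  exact hι.injective (congrFun this x)

/-- (K-a) surjectivity onto the `p`-torsion. -/
lemma exists_of_p_nsmul_mem_B2 (hN : L.NormalCofinal) (hF : L.FiniteIndex) (hsm : L.IsSmooth B)
    (hdiv : IsPDivisible p B) (hι : IsKummerEmb p M B ι) {a : G × G → B} (ha : a ∈ L.Z2 B)
    (hpa : p • a ∈ L.B2 B) : ∃ m : G × G → M, m ∈ L.Z2 M ∧ ι ∘ m - a ∈ L.B2 B := by
  obtain ⟨b, hb, hba⟩ := hpa
  choose root hroot using hdiv
  set b₁ : G → B := root ∘ b with hb₁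
  have hb₁lc : L.IsLC₁ b₁ := LevelSys.IsLC₁.comp hb root
  have hpb₁ : p • b₁ = b := by
    funext g
    simp only [Pi.smul_apply, hb₁, Function.comp_apply, hroot]
  have hdlc : L.IsLC₂ ((d₁₂ B).hom b₁) := d₁₂_isLC₂_of_smooth L hN hF hsm hb₁lc
  have hkill : ∀ x, p • (a - (d₁₂ B).hom b₁) x = 0 := by
    intro x
    have h1 : (p • (a - (d₁₂ B).hom b₁)) = 0 := by
      rw [smul_sub, ← map_nsmul, hpb₁]
      exact sub_eq_zero.2 hba.symm
    have := congrFun h1 x
    simpa using this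
  obtain ⟨m, hm⟩ := exists_lift_of_p_nsmul_eq_zero hι _ hkill
  refine ⟨m, ⟨?_, ?_⟩, ?_⟩
  · refine (ι_mem_cocycles₂_iff hι m).1 ?_
    rw [hm]
    exact (cocycles₂ B).sub_mem ha.1 (d₁₂_apply_mem_cocycles₂ b₁)
  · apply isLC₂_of_ι L hι
    rw [hm]
    exact IsLC₂.sub' L ha.2 hdlc
  · rw [hm]
    have : a - (d₁₂ B).hom b₁ - a = (d₁₂ B).hom (-b₁) := by
      rw [map_neg]; abel
    rw [this]
    exact ⟨-b₁, (L.C1 B).neg_mem hb₁lc, rfl⟩

/-- **KC-K2.** -/
theorem kummerH2 : KummerH2Spec := by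
  intro G _ L p _ M B ι hN hF hsm hdiv hι h1
  classical
  -- representatives
  have hsurjM := L.H2π_surjective M
  choose rep hrep using hsurjM
  -- the map on classes
  have hker : ∀ c : ↥(L.Z2 M), p • L.H2π B ⟨ι ∘ c.1, ι_mem_Z2 L hι c.2⟩ = 0 := by
    intro c
    rw [← map_nsmul, LevelSys.H2π_eq_zero_iff]
    have : ((p • (⟨ι ∘ c.1, ι_mem_Z2 L hι c.2⟩ : ↥(L.Z2 B)) : ↥(L.Z2 B)) : G × G → B) = 0 := by
      funext x
      show p • ι (c.1 x) = 0
      exact p_nsmul_ι (c.1 x)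
    rw [this]
    exact (L.B2 B).zero_mem
  let Φ : L.H2 M → {x : L.H2 B // p • x = 0} := fun x =>
    ⟨L.H2π B ⟨ι ∘ (rep x).1, ι_mem_Z2 L hι (rep x).2⟩, hker (rep x)⟩
  have key : ∀ c c' : ↥(L.Z2 M),
      L.H2π B ⟨ι ∘ c.1, ι_mem_Z2 L hι c.2⟩ = L.H2π B ⟨ι ∘ c'.1, ι_mem_Z2 L hι c'.2⟩ ↔
        L.H2π M c = L.H2π M c' := by
    intro c c'
    rw [← sub_eq_zero, ← map_sub, LevelSys.H2π_eq_zero_iff, ← sub_eq_zero (a := L.H2π M c),
      ← map_sub, LevelSys.H2π_eq_zero_iff]
    have e : ((⟨ι ∘ c.1, ι_mem_Z2 L hι c.2⟩ - ⟨ι ∘ c'.1, ι_mem_Z2 L hι c'.2⟩ : ↥(L.Z2 B)) :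
        G × G → B) = ι ∘ ((c - c' : ↥(L.Z2 M)) : G × G → M) := by
      funext x
      show ι (c.1 x) - ι (c'.1 x) = ι (c.1 x - c'.1 x)
      rw [map_sub]
    rw [e]
    exact ⟨mem_B2_of_ι_mem_B2 L hsm hdiv hι h1, ι_mem_B2 L hι⟩
  have hΦ : Function.Bijective Φ := by
    constructor
    · intro x y hxy
      have h2 := (key (rep x) (rep y)).1 (congrArg Subtype.val hxy)
      rw [hrep, hrep] at h2
      exact h2
    · rintro ⟨y, hy⟩
      obtain ⟨a, rfl⟩ := L.H2π_surjective B y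
      have hpa : p • (a : G × G → B) ∈ L.B2 B := by
        rw [← map_nsmul, LevelSys.H2π_eq_zero_iff] at hy
        exact hy
      obtain ⟨m, hm, hma⟩ := exists_of_p_nsmul_mem_B2 L hN hF hsm hdiv hι a.2 hpa
      refine ⟨L.H2π M ⟨m, hm⟩, Subtype.ext ?_⟩
      show L.H2π B ⟨ι ∘ (rep (L.H2π M ⟨m, hm⟩)).1, _⟩ = L.H2π B a
      rw [(key (rep (L.H2π M ⟨m, hm⟩)) ⟨m, hm⟩).2 (hrep _), ← sub_eq_zero, ← map_sub,
        LevelSys.H2π_eq_zero_iff]
      exact hma
  exact Nat.card_congr (Equiv.ofBijective Φ hΦ)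

end Kummer

end Fermat.Agent.S55.KC.H53

end

end
-- ===== PACK-END S55/KC/KummerH2H53.lean

-- ===== PACK-BEGIN S55/KC/FinLocH539.lean
section



/-!
# S55 / layer KC, leaf KC-P1: `FinLocOfFrattiniSpec`

Wrapper around `KL/FinLocCoreH539.lean` (which imports only `PT/Levels.lean`).
-/

set_option autoImplicit false
set_option linter.style.haveILetI false

namespace Fermat.Agent.S55.KC.H539

open groupCohomology Fermat.Agent.S55.PT

/-- **KC-P1.** -/
theorem finLocOfFrattini : FinLocOfFrattiniSpec := by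
  intro G _ L p _ hFI hFr N hfd hN
  haveI := hfd
  exact KL.H539.finiteDimensional_H1_of_frattini L hFI hFr N hN

end Fermat.Agent.S55.KC.H539

end
-- ===== PACK-END S55/KC/FinLocH539.lean

-- ===== PACK-BEGIN S55/KC/QInfH73.lean
section



/-!
# S55, layer KC (architect helper53), leaf KC-QInf (subtask 447)              (helper73)

`qInf : QInfSpec` — injectivity of inflation `H²(G ⧸ V, B^V) → H²(G ⧸ V', B^{V'})` in cochain
form from `H¹(V ⧸ V', B^{V'}) = 0`.  The proof is the Mathlib-only core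
`Fermat.Agent.S55.KL.H73.qInf_core` (direct cochain computation).
-/

set_option autoImplicit false

open CategoryTheory groupCohomology

namespace Fermat.Agent.S55.KC.H73

/-- **KC-QInf.** -/
theorem qInf : QInfSpec := by
  intro G _ B V' _ V _ hle h1 f hf hcob
  obtain ⟨x, hx, hdx⟩ := hcob
  obtain ⟨y, hy, hdy⟩ := Fermat.Agent.S55.KL.H73.qInf_core B V' V hle h1 f hf.2 x hx hdx
  exact ⟨y, hy, hdy⟩

end Fermat.Agent.S55.KC.H73

end
-- ===== PACK-END S55/KC/QInfH73.lean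

-- ===== PACK-BEGIN S55/Inv/LocalOfCard.lean
section



/-!
# S55 / `InvSpec` : the local leaves INV-DIM and INV-NE from the cardinalities of layer KC

`KC.H2IndCardSpec` (`|H²(G_q, Ind_W μ_p)| = p`) gives `LocDimSpec`;
`KC.H2MuCardSpec` (`|H²(G_q, μ_p)| = p`) gives `LocH2NeSpec`.
-/

set_option autoImplicit false

noncomputable section

namespace Fermat.Agent.S55.Inv

open Fermat.Agent.S55.PT groupCohomology ExtCitation

/-- In an `F_p`-vector space with exactly `p` elements any two vectors are linearly dependent. -/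
theorem dependent_of_card_eq {p : ℕ} [Fact p.Prime] {V : Type*} [AddCommGroup V]
    [Module (ZMod p) V] (hV : Nat.card V = p) (x y : V) :
    ∃ a b : ZMod p, (a ≠ 0 ∨ b ≠ 0) ∧ a • x + b • y = 0 := by
  by_cases hx : x = 0
  · exact ⟨1, 0, Or.inl one_ne_zero, by simp [hx]⟩
  · have hp : 0 < p := (Fact.out : p.Prime).pos
    have : Finite V := Nat.finite_of_card_ne_zero (by omega)
    have hinj : Function.Injective (fun a : ZMod p => a • x) := by
      intro a b hab
      have h0 : (a - b) • x = 0 := by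
        rw [sub_smul]
        exact sub_eq_zero.2 hab
      rcases smul_eq_zero.1 h0 with h | h
      · exact sub_eq_zero.1 h
      · exact absurd h hx
    have hcard : Nat.card (ZMod p) = Nat.card V := by
      rw [hV, Nat.card_zmod]
    have hbij : Function.Bijective (fun a : ZMod p => a • x) :=
      (Nat.bijective_iff_injective_and_card _).2 ⟨hinj, hcard⟩
    obtain ⟨c, hc⟩ := hbij.2 y
    refine ⟨-c, 1, Or.inr one_ne_zero, ?_⟩
    have hc' : c • x = y := hc
    rw [neg_smul, one_smul, hc']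
    exact neg_add_cancel y

/-- A module with exactly `p ≥ 2` elements has a non-zero element. -/
theorem exists_ne_zero_of_card_eq {p : ℕ} [Fact p.Prime] {V : Type*} [AddCommGroup V]
    (hV : Nat.card V = p) : ∃ x : V, x ≠ 0 := by
  have hp : 1 < p := (Fact.out : p.Prime).one_lt
  have : Finite V := Nat.finite_of_card_ne_zero (by omega)
  have : Nontrivial V := by
    rw [← Finite.one_lt_card_iff_nontrivial, hV]
    exact hp
  exact exists_ne 0

variable (p : ℕ) [Fact p.Prime] (S : Finset Nat.Primes)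

/-- **INV-DIM** from `KC.H2IndCardSpec`. -/
theorem locDim_of_card (h : KC.H2IndCardSpec) : LocDimSpec p S := by
  intro v W hW _ hμ x y
  exact dependent_of_card_eq (h p v.1 W ⟨W, hW, le_rfl⟩ hμ) x y

/-- **INV-NE** from `KC.H2MuCardSpec`. -/
theorem locH2Ne_of_card (h : KC.H2MuCardSpec) : LocH2NeSpec p S := by
  intro v
  exact exists_ne_zero_of_card_eq (h p v.1)

end Fermat.Agent.S55.Inv

end

end
-- ===== PACK-END S55/Inv/LocalOfCard.lean

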