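import Fermat.Agent.Pack.S56.E9L1
import Fermat.Agent.Pack.S56.E17L1
import Fermat.Agent.Pack.S56.E0L0
import Fermat.Agent.Pack.S56.E13L1
import Fermat.Agent.Pack.S56.E1L1
import Fermat.Agent.Pack.S56.E17L0
import Fermat.Agent.Pack.S56.E14L1
import Fermat.Agent.Pack.S56.E16L0
import Fermat.Agent.Pack.S56.E16L2
import Fermat.Agent.Pack.S56.E15L2
import Fermat.Agent.Pack.S56.E17L3
import Fermat.Agent.Pack.S56.E11L0
import Fermat.Agent.Pack.S56.E11L3
import Fermat.Agent.Pack.S56.E9L2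
import Fermat.Agent.Pack.S56.E14L2
import Fermat.Agent.Pack.S56.E16L3
import Fermat.Agent.Pack.S56.E15L1
import Fermat.Agent.Pack.S56.E5L2
import Fermat.Agent.Pack.S56.E2L1
import Fermat.Agent.Pack.S56.E11L1
import Fermat.Agent.Pack.S56.E1L2
import Fermat.Agent.Pack.S56.E17L2
import Fermat.Agent.Pack.S56.E13L3
import Fermat.Agent.Pack.S56.E16L1
import Fermat.Agent.Pack.S56.E7L2
import Fermat.Agent.Pack.S56.E14L3

-- ===== PACK-BEGIN S56/H914/IntDefs.lean
section




/-!
# Row S56 — W-FLAT-SS, leaf INT (helper914), part 1: the objects `N`, `A`, `B`, `Γ`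

* `intKer hc₁ hc₂ P : Subgroup D_P` — `N = {σ ∈ D_P | ρ̄ σ = 1, c₁ σ = 0, c₂ σ = 0}`, normal.
* `intA P : Subring ℚ̄` — `A = P ∩ ℚ̄^{D_P}`;  `intB ρbar c₁ c₂ P : Subring ℚ̄` — `B = levelSet`.
* `intAct` — the action of `D_P` on `B` by ring automorphisms, `intActQ` its descent to `Γ = D_P ⧸ N`.
* `finite_intΓ` — `Γ` is finite (`k` finite).
-/

set_option autoImplicit false
set_option linter.style.haveILetI false

open Polynomial IsLocalRing

noncomputable section

namespace Fermat.Agent.S56.H914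

open Fermat.Agent.S56 Fermat.Agent.S56.H716 Fermat.Agent.S56.FL

section Defs

variable {k : Type} [Field k] {ρbar : ResidualGaloisRep k}
  {c₁ c₂ : GQ → Module.End k ρbar.V} (P : ValuationSubring Qb)

/-- `N = {σ ∈ D_P | ρ̄ σ = 1, c₁ σ = 0, c₂ σ = 0}` as a subgroup of `D_P`. -/
def intKer (hc₁ : IsAdCocycle ρbar c₁) (hc₂ : IsAdCocycle ρbar c₂) :
    Subgroup (P.decompositionSubgroup ℚ) where
  carrier := {σ | ρbar.ρ (σ : GQ) = 1 ∧ c₁ (σ : GQ) = 0 ∧ c₂ (σ : GQ) = 0}
  mul_mem' := by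
    rintro σ τ ⟨h1, h2, h3⟩ ⟨h1', h2', h3'⟩
    refine ⟨?_, ?_, ?_⟩
    · show ρbar.ρ ((σ : GQ) * (τ : GQ)) = 1
      rw [map_mul, h1, h1', one_mul]
    · show c₁ ((σ : GQ) * (τ : GQ)) = 0
      rw [adCocycle_mul_of_ker hc₁ h1, h2, h2', add_zero]
    · show c₂ ((σ : GQ) * (τ : GQ)) = 0
      rw [adCocycle_mul_of_ker hc₂ h1, h3, h3', add_zero]
  one_mem' := ⟨map_one _, adCocycle_one hc₁, adCocycle_one hc₂⟩
  inv_mem' := by
    rintro σ ⟨h1, h2, h3⟩
    refine ⟨?_, ?_, ?_⟩
    · show ρbar.ρ ((σ : GQ)⁻¹) = 1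
      exact rho_inv_eq_one ρbar h1
    · show c₁ ((σ : GQ)⁻¹) = 0
      rw [adCocycle_inv_of_ker hc₁ h1, h2, neg_zero]
    · show c₂ ((σ : GQ)⁻¹) = 0
      rw [adCocycle_inv_of_ker hc₂ h1, h3, neg_zero]

lemma mem_intKer {hc₁ : IsAdCocycle ρbar c₁} {hc₂ : IsAdCocycle ρbar c₂}
    {σ : P.decompositionSubgroup ℚ} :
    σ ∈ intKer P hc₁ hc₂ ↔ ρbar.ρ (σ : GQ) = 1 ∧ c₁ (σ : GQ) = 0 ∧ c₂ (σ : GQ) = 0 := Iff.rfl

instance intKer_normal (hc₁ : IsAdCocycle ρbar c₁) (hc₂ : IsAdCocycle ρbar c₂) :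
    (intKer P hc₁ hc₂).Normal := by
  refine ⟨fun σ hσ g => ?_⟩
  obtain ⟨h1, h2, h3⟩ := hσ
  refine ⟨?_, ?_, ?_⟩
  · show ρbar.ρ ((g : GQ) * (σ : GQ) * (g : GQ)⁻¹) = 1
    rw [map_mul, map_mul, h1, mul_one, rho_mul_inv]
  · show c₁ ((g : GQ) * (σ : GQ) * (g : GQ)⁻¹) = 0
    rw [adCocycle_conj_of_ker hc₁ h1, h2, mul_zero, zero_mul]
  · show c₂ ((g : GQ) * (σ : GQ) * (g : GQ)⁻¹) = 0
    rw [adCocycle_conj_of_ker hc₂ h1, h3, mul_zero, zero_mul]

/-- `A = P ∩ ℚ̄^{D_P}`. -/
def intA : Subring Qb where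
  carrier := {x | x ∈ P ∧ ∀ σ ∈ P.decompositionSubgroup ℚ, σ x = x}
  mul_mem' := by
    rintro x y ⟨hx, hx'⟩ ⟨hy, hy'⟩
    exact ⟨P.mul_mem _ _ hx hy, fun σ hσ => by rw [map_mul, hx' σ hσ, hy' σ hσ]⟩
  one_mem' := ⟨P.one_mem, fun σ _ => map_one σ⟩
  add_mem' := by
    rintro x y ⟨hx, hx'⟩ ⟨hy, hy'⟩
    exact ⟨P.add_mem _ _ hx hy, fun σ hσ => by rw [map_add, hx' σ hσ, hy' σ hσ]⟩
  zero_mem' := ⟨P.zero_mem, fun σ _ => map_zero σ⟩
  neg_mem' := by
    rintro x ⟨hx, hx'⟩
    exact ⟨P.neg_mem _ hx, fun σ hσ => by rw [map_neg, hx' σ hσ]⟩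

lemma mem_intA {x : Qb} :
    x ∈ intA P ↔ x ∈ P ∧ ∀ σ ∈ P.decompositionSubgroup ℚ, σ x = x := Iff.rfl

variable (ρbar c₁ c₂)

/-- `B = P ∩ ℚ̄^N` (carrier `= levelSet ρbar c₁ c₂ P`). -/
def intB : Subring Qb where
  carrier := levelSet ρbar c₁ c₂ P
  mul_mem' := by
    rintro x y ⟨hx, hx'⟩ ⟨hy, hy'⟩
    exact ⟨P.mul_mem _ _ hx hy, fun σ hσ h1 h2 h3 => by
      rw [map_mul, hx' σ hσ h1 h2 h3, hy' σ hσ h1 h2 h3]⟩
  one_mem' := ⟨P.one_mem, fun σ _ _ _ _ => map_one σ⟩
  add_mem' := by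
    rintro x y ⟨hx, hx'⟩ ⟨hy, hy'⟩
    exact ⟨P.add_mem _ _ hx hy, fun σ hσ h1 h2 h3 => by
      rw [map_add, hx' σ hσ h1 h2 h3, hy' σ hσ h1 h2 h3]⟩
  zero_mem' := ⟨P.zero_mem, fun σ _ _ _ _ => map_zero σ⟩
  neg_mem' := by
    rintro x ⟨hx, hx'⟩
    exact ⟨P.neg_mem _ hx, fun σ hσ h1 h2 h3 => by rw [map_neg, hx' σ hσ h1 h2 h3]⟩

variable {ρbar c₁ c₂}

lemma mem_intB {x : Qb} :
    x ∈ intB ρbar c₁ c₂ P ↔ x ∈ P ∧ ∀ σ ∈ P.decompositionSubgroup ℚ,
      ρbar.ρ σ = 1 → c₁ σ = 0 → c₂ σ = 0 → σ x = x := Iff.rfl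

lemma coe_intB : ((intB ρbar c₁ c₂ P : Subring Qb) : Set Qb) = levelSet ρbar c₁ c₂ P := rfl

lemma intA_le_intB : intA P ≤ intB ρbar c₁ c₂ P := by
  rintro x ⟨hx, hx'⟩
  exact ⟨hx, fun σ hσ _ _ _ => hx' σ hσ⟩

/-- `D_P` preserves `P`. -/
lemma apply_mem_P {σ : GQ} (hσ : σ ∈ P.decompositionSubgroup ℚ) {x : Qb} (hx : x ∈ P) :
    σ x ∈ P :=
  ((Fermat.Agent.S55.Bridge.mem_decompositionSubgroup_iff P σ).mp hσ x).mpr hx

lemma inv_apply_self (σ : GQ) (x : Qb) : σ⁻¹ (σ x) = x := by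
  show (σ⁻¹ * σ) x = x
  rw [inv_mul_cancel]
  rfl

lemma apply_inv_self (σ : GQ) (x : Qb) : σ (σ⁻¹ x) = x := by
  show (σ * σ⁻¹) x = x
  rw [mul_inv_cancel]
  rfl

/-- `D_P` preserves `B`. -/
lemma apply_mem_intB (hc₁ : IsAdCocycle ρbar c₁) (hc₂ : IsAdCocycle ρbar c₂)
    {σ : GQ} (hσ : σ ∈ P.decompositionSubgroup ℚ) {x : Qb} (hx : x ∈ intB ρbar c₁ c₂ P) :
    σ x ∈ intB ρbar c₁ c₂ P := by
  obtain ⟨hxP, hx'⟩ := hx
  refine ⟨apply_mem_P P hσ hxP, fun τ hτ h1 h2 h3 => ?_⟩
  -- `σ⁻¹ τ σ` satisfies the conditions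
  have hmem : σ⁻¹ * τ * σ ∈ P.decompositionSubgroup ℚ :=
    Subgroup.mul_mem _ (Subgroup.mul_mem _ (Subgroup.inv_mem _ hσ) hτ) hσ
  have e1 : ρbar.ρ (σ⁻¹ * τ * σ) = 1 := by
    rw [map_mul, map_mul, h1, mul_one, rho_inv_mul]
  have hconj : ∀ {c : GQ → Module.End k ρbar.V}, IsAdCocycle ρbar c → c τ = 0 →
      c (σ⁻¹ * τ * σ) = 0 := by
    intro c hc h0
    have := adCocycle_conj_of_ker hc h1 σ⁻¹
    rw [inv_inv] at this
    rw [this, h0, mul_zero, zero_mul]
  have h4 := hx' _ hmem e1 (hconj hc₁ h2) (hconj hc₂ h3)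
  have h5 : (σ⁻¹ * τ * σ) x = σ⁻¹ (τ (σ x)) := rfl
  rw [h5] at h4
  have h6 := congrArg σ h4
  rw [apply_inv_self] at h6
  exact h6

variable (hc₁ : IsAdCocycle ρbar c₁) (hc₂ : IsAdCocycle ρbar c₂)

/-- The ring automorphism of `B` induced by `σ ∈ D_P`. -/
def intAut (σ : P.decompositionSubgroup ℚ) : RingAut (intB ρbar c₁ c₂ P) where
  toFun b := ⟨(σ : GQ) b, apply_mem_intB P hc₁ hc₂ σ.2 b.2⟩
  invFun b := ⟨(σ : GQ)⁻¹ b, apply_mem_intB P hc₁ hc₂ (Subgroup.inv_mem _ σ.2) b.2⟩
  left_inv b := Subtype.ext (inv_apply_self _ _)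
  right_inv b := Subtype.ext (apply_inv_self _ _)
  map_mul' a b := Subtype.ext (map_mul (σ : GQ) _ _)
  map_add' a b := Subtype.ext (map_add (σ : GQ) _ _)

/-- The action of `D_P` on `B`, as a homomorphism to `RingAut B`. -/
def intAct : (P.decompositionSubgroup ℚ) →* RingAut (intB ρbar c₁ c₂ P) where
  toFun := intAut P hc₁ hc₂
  map_one' := by
    ext b
    rfl
  map_mul' σ τ := by
    ext b
    rfl

@[simp] lemma intAct_apply (σ : P.decompositionSubgroup ℚ) (b : intB ρbar c₁ c₂ P) :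
    ((intAct P hc₁ hc₂ σ b : intB ρbar c₁ c₂ P) : Qb) = (σ : GQ) (b : Qb) := rfl

lemma intKer_le_ker : intKer P hc₁ hc₂ ≤ (intAct P hc₁ hc₂).ker := by
  rintro σ ⟨h1, h2, h3⟩
  rw [MonoidHom.mem_ker]
  ext b
  exact b.2.2 _ σ.2 h1 h2 h3

/-- `Γ = D_P ⧸ N`. -/
abbrev intΓ : Type := (P.decompositionSubgroup ℚ) ⧸ intKer P hc₁ hc₂

/-- The action of `Γ` on `B`, as a homomorphism. -/
def intActQ : intΓ P hc₁ hc₂ →* RingAut (intB ρbar c₁ c₂ P) :=
  QuotientGroup.lift (intKer P hc₁ hc₂) (intAct P hc₁ hc₂) (intKer_le_ker P hc₁ hc₂)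

@[simp] lemma intActQ_mk (σ : P.decompositionSubgroup ℚ) :
    intActQ P hc₁ hc₂ (QuotientGroup.mk' _ σ) = intAct P hc₁ hc₂ σ := rfl

/-- `Γ` is finite when `k` is. -/
theorem finite_intΓ [Finite k] : Finite (intΓ P hc₁ hc₂) := by
  classical
  haveI : Finite ρbar.V := Module.finite_of_finite k
  haveI : Finite (Module.End k ρbar.V) := Finite.of_injective (fun f => (f : ρbar.V → ρbar.V))
    DFunLike.coe_injective
  let f : (P.decompositionSubgroup ℚ) →
      Module.End k ρbar.V × Module.End k ρbar.V × Module.End k ρbar.V :=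
    fun σ => (ρbar.ρ (σ : GQ), c₁ (σ : GQ), c₂ (σ : GQ))
  have hf : ∀ σ τ, f σ = f τ →
      (QuotientGroup.mk' (intKer P hc₁ hc₂) σ) = QuotientGroup.mk' (intKer P hc₁ hc₂) τ := by
    intro σ τ h
    have h1 : ρbar.ρ (σ : GQ) = ρbar.ρ (τ : GQ) := congrArg Prod.fst h
    have h2 : c₁ (σ : GQ) = c₁ (τ : GQ) := congrArg (fun x => x.2.1) h
    have h3 : c₂ (σ : GQ) = c₂ (τ : GQ) := congrArg (fun x => x.2.2) h
    rw [QuotientGroup.mk'_eq_mk']
    refine ⟨σ⁻¹ * τ, ?_, by group⟩
    have e1 : ρbar.ρ ((σ : GQ)⁻¹ * (τ : GQ)) = 1 := by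
      rw [map_mul, ← h1, rho_inv_mul]
    have hc : ∀ {c : GQ → Module.End k ρbar.V}, IsAdCocycle ρbar c →
        c (σ : GQ) = c (τ : GQ) → c ((σ : GQ)⁻¹ * (τ : GQ)) = 0 := by
      intro c hc h0
      have h4 := hc.map_mul (σ : GQ) ((σ : GQ)⁻¹ * (τ : GQ))
      rw [mul_inv_cancel_left, h0] at h4
      have h5 : ρbar.ρ (σ : GQ) * c ((σ : GQ)⁻¹ * (τ : GQ)) * ρbar.ρ (σ : GQ)⁻¹ = 0 :=
        (left_eq_add.mp h4)
      have h6 := congrArg (fun m => ρbar.ρ (σ : GQ)⁻¹ * m * ρbar.ρ (σ : GQ)) h5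
      simp only [mul_zero, zero_mul] at h6
      rw [← mul_assoc, ← mul_assoc, rho_inv_mul, one_mul, mul_assoc, rho_inv_mul, mul_one] at h6
      exact h6
    exact ⟨e1, hc hc₁ h2, hc hc₂ h3⟩
  let g : Set.range f → intΓ P hc₁ hc₂ := fun y =>
    QuotientGroup.mk' (intKer P hc₁ hc₂) y.2.choose
  refine Finite.of_surjective g ?_
  intro γ
  obtain ⟨σ, rfl⟩ := QuotientGroup.mk'_surjective (intKer P hc₁ hc₂) γ
  refine ⟨⟨f σ, σ, rfl⟩, ?_⟩
  exact hf _ _ (Set.mem_range_self σ : f σ ∈ Set.range f).choose_spec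

end Defs

end Fermat.Agent.S56.H914

end

end
-- ===== PACK-END S56/H914/IntDefs.lean

-- ===== PACK-BEGIN S56/H734/KumMain.lean
section




/-!
# S56 / FLAT-O, leaf KUM (helper734): `kum : H906.KumStatement`

`P | p`, `p` odd, `a : D_P → kˣ` a character of finite level which is the mod-`p` cyclotomic
character on inertia.  The peu ramifié classes in `H¹(D_P, k(a))` span at most one dimension.

Proof.  `H = {σ ∈ I_P : σ ζ = ζ}`.
* restriction to `H` is injective on classes (`coboundary_of_vanish`);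
* for a peu ramifié cocycle `c` and an `𝔽_p`-basis `ℓ_i` of `k^∨`, the Kummer class of `ℓ_i ∘ c|_H`
  is the class of a unit `1 + p a_i` of the inertia field; `Y(c) = (a_i mod 𝔪_P)_i` is well
  defined, additive, and `Y(c) = 0` iff `c` is a coboundary (`KumLocal.lean`);
* `Y(c)` is a fixed point of a `p`-semilinear endomorphism of `κ_P ^ f`, `f = [k : 𝔽_p]`
  (Frobenius twist), and there are at most `p ^ f = |k|` such fixed points (`KumCount.lean`).
-/

set_option autoImplicit false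
set_option linter.style.haveILetI false

noncomputable section

namespace Fermat.Agent.S56.H734

open Fermat.Agent.S56 Fermat.Agent.S56.H786 Fermat.Agent.S56.H906 IsLocalRing

/-! ## A basis of `k` over `𝔽_p`, in additive vocabulary -/

theorem exists_zmod_basis (p : ℕ) [Fact p.Prime] (k : Type) [Field k] [Finite k] [CharP k p] :
    ∃ (f : ℕ) (b : Fin f → k) (ℓ : Fin f → (k →+ ZMod p)),
      (∀ y : k, ∑ i, (ℓ i y).val • b i = y) ∧ Nat.card k = p ^ f := by
  letI : Algebra (ZMod p) k := ZMod.algebra k p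
  haveI : Module.Finite (ZMod p) k := Module.Finite.of_finite
  let B := Module.finBasis (ZMod p) k
  refine ⟨Module.finrank (ZMod p) k, B, fun i => (B.coord i).toAddMonoidHom, ?_, ?_⟩
  · intro y
    conv_rhs => rw [← B.sum_repr y]
    refine Finset.sum_congr rfl fun i _ => ?_
    show ((B.coord i) y).val • B i = (B.repr y) i • B i
    rw [B.coord_apply, ← Nat.cast_smul_eq_nsmul (ZMod p), ZMod.natCast_zmod_val]
  · rw [Module.natCard_eq_pow_finrank (K := ZMod p) (V := k), Nat.card_zmod]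

/-- Additive maps to `ZMod p` commute with multiplication by natural numbers. -/
theorem map_natCast_mul {p : ℕ} {k : Type} [Field k] (ℓ : k →+ ZMod p) (n : ℕ) (y : k) :
    ℓ ((n : k) * y) = (n : ZMod p) * ℓ y := by
  rw [← nsmul_eq_mul, map_nsmul, nsmul_eq_mul]

/-! ## Cocycles -/

section cocycle

variable {p : ℕ} {P : ValuationSubring Qb} {k : Type} [Field k] {a c : GQ → k}

theorem locChar_inv (ha : IsLocChar P a) {g : GQ} (hg : g ∈ P.decompositionSubgroup ℚ) :
    a g ≠ 0 ∧ a g⁻¹ = (a g)⁻¹ := by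
  have h1 : a g * a g⁻¹ = 1 := by
    rw [← ha.map_mul g hg g⁻¹ (inv_mem hg), mul_inv_cancel, ha.map_one]
  have h0 : a g ≠ 0 := left_ne_zero_of_mul_eq_one h1
  exact ⟨h0, eq_inv_of_mul_eq_one_right h1⟩

theorem locCocycle_one (hc : IsLocCocycle P a c) (ha : IsLocChar P a) : c 1 = 0 := by
  have h := hc.map_mul 1 (one_mem _) 1 (one_mem _)
  rw [mul_one, ha.map_one, one_mul] at h
  exact left_eq_add.mp h

theorem locCocycle_inv (hc : IsLocCocycle P a c) (ha : IsLocChar P a) {g : GQ}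
    (hg : g ∈ P.decompositionSubgroup ℚ) : c g⁻¹ = -((a g)⁻¹ * c g) := by
  have h := hc.map_mul g⁻¹ (inv_mem hg) g hg
  rw [inv_mul_cancel, locCocycle_one hc ha, (locChar_inv ha hg).2] at h
  exact eq_neg_of_add_eq_zero_left h.symm

/-- `c (g⁻¹ σ g) = a(g)⁻¹ c(σ)` when `a σ = 1`. -/
theorem locCocycle_conj (hc : IsLocCocycle P a c) (ha : IsLocChar P a) {g σ : GQ}
    (hg : g ∈ P.decompositionSubgroup ℚ) (hσ : σ ∈ P.decompositionSubgroup ℚ) (h1 : a σ = 1) :
    c (g⁻¹ * σ * g) = (a g)⁻¹ * c σ := by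
  rw [mul_assoc, hc.map_mul g⁻¹ (inv_mem hg) (σ * g) (mul_mem hσ hg), hc.map_mul σ hσ g hg,
    locCocycle_inv hc ha hg, (locChar_inv ha hg).2, h1]
  ring

theorem locCocycle_smul (hc : IsLocCocycle P a c) (x : k) :
    IsLocCocycle P a (fun σ => x * c σ) := by
  refine ⟨fun σ hσ τ hτ => ?_, ?_⟩
  · show x * c (σ * τ) = x * c σ + a σ * (x * c τ)
    rw [hc.map_mul σ hσ τ hτ]
    ring
  · obtain ⟨L, hL, h⟩ := hc.level
    exact ⟨L, hL, fun σ hσ τ hτ hfix => by
      show x * c (σ * τ) = x * c σ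
      rw [h σ hσ τ hτ hfix]⟩

theorem locCocycle_sub {c' : GQ → k} (hc : IsLocCocycle P a c) (hc' : IsLocCocycle P a c') :
    IsLocCocycle P a (fun σ => c σ - c' σ) := by
  refine ⟨fun σ hσ τ hτ => ?_, ?_⟩
  · show c (σ * τ) - c' (σ * τ) = c σ - c' σ + a σ * (c τ - c' τ)
    rw [hc.map_mul σ hσ τ hτ, hc'.map_mul σ hσ τ hτ]
    ring
  · obtain ⟨L, hL, h⟩ := hc.level
    obtain ⟨L', hL', h'⟩ := hc'.level
    haveI := hL
    haveI := hL'
    refine ⟨L ⊔ L', inferInstance, fun σ hσ τ hτ hfix => ?_⟩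
    show c (σ * τ) - c' (σ * τ) = c σ - c' σ
    rw [h σ hσ τ hτ fun x hx => hfix x ((le_sup_left : L ≤ L ⊔ L') hx),
      h' σ hσ τ hτ fun x hx => hfix x ((le_sup_right : L' ≤ L ⊔ L') hx)]

theorem isPeu_smul (hc : IsPeu p P c) (x : k) : IsPeu p P (fun σ => x * c σ) := by
  intro ζ hζ ℓ
  exact hc ζ hζ (ℓ.comp (AddMonoidHom.mulLeft x))

end cocycle

/-! ## Restriction to `H` is injective on classes -/

section restrict

variable {p : ℕ} {P : ValuationSubring Qb} {k : Type} [Field k] {a c : GQ → k}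

/-- Elements fixing `ζ` have cyclotomic exponent `1`. -/
theorem isCycExp_one_of_fix [NeZero p] {ζ : Qb} (hζ : IsPrimitiveRoot ζ p) {σ : GQ}
    (h : σ ζ = ζ) : IsCycExp p σ 1 := by
  intro μ hμ
  obtain ⟨i, -, rfl⟩ := hζ.eq_pow_of_pow_eq_one hμ
  rw [map_pow, h, pow_one]

theorem ordChar_eq_one [NeZero p] (ha : IsOrdChar p P a) {ζ : Qb} (hζ : IsPrimitiveRoot ζ p)
    {σ : GQ} (hσ : σ ∈ P.inertiaSubgroupIn ℚ) (h : σ ζ = ζ) : a σ = 1 := by
  rw [ha.cyc σ hσ 1 (isCycExp_one_of_fix hζ h), Nat.cast_one]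

/-- Inertia at `p` moves `ζ_p`, `p` odd. -/
theorem exists_inertia_move (hp : p.Prime) (hp2 : p ≠ 2) (hP : P.LiesOverPrime p) {ζ : Qb}
    (hζ : IsPrimitiveRoot ζ p) : ∃ t ∈ P.inertiaSubgroupIn ℚ, t ζ ≠ ζ := by
  by_contra hcon
  push Not at hcon
  have hfix : ∀ σ ∈ P.inertiaSubgroupIn ℚ, σ (ζ - 1) = ζ - 1 := fun σ hσ => by
    rw [map_sub, map_one, hcon σ hσ]
  have hπ0 := Fermat.Agent.S14.H894.valuation_zeta_sub_one_ne_zero P p hp ζ hζ
  have hπ1 := Fermat.Agent.S14.H894.valuation_zeta_sub_one_lt_one P p hp hP ζ hζ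
  have hpπ := Fermat.Agent.S14.H894.valuation_natCast_eq_pow P p hp ζ hζ
  have hle := Fermat.Agent.S56.H66.vg0_le p hp P hP (ζ - 1) ((P.mem_nonunits_iff).mpr hπ1) hfix
  rw [hpπ] at hle
  have h3p : 3 ≤ p := by
    have := hp.two_le
    omega
  have hlt : P.valuation (ζ - 1) ^ (p - 1) < P.valuation (ζ - 1) := by
    have e : p - 1 = 1 + (p - 2) := by omega
    rw [e, pow_add, pow_one]
    calc P.valuation (ζ - 1) * P.valuation (ζ - 1) ^ (p - 2)
        < P.valuation (ζ - 1) * 1 :=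
          mul_lt_mul_of_pos_left (pow_lt_one₀ zero_le hπ1 (by omega)) (zero_lt_iff.mpr hπ0)
      _ = P.valuation (ζ - 1) := mul_one _
  exact absurd hle (not_le.mpr hlt)

/-- A cocycle on `D_P` vanishing on `H` is a coboundary. -/
theorem coboundary_of_vanish [CharP k p] (hp : p.Prime) (hp2 : p ≠ 2) (hP : P.LiesOverPrime p)
    {ζ : Qb} (hζ : IsPrimitiveRoot ζ p) (ha : IsOrdChar p P a) (hc : IsLocCocycle P a c)
    (hvan : ∀ σ ∈ P.inertiaSubgroupIn ℚ, σ ζ = ζ → c σ = 0) :
    ∃ m : k, ∀ σ ∈ P.decompositionSubgroup ℚ, c σ = (a σ - 1) * m := by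
  haveI : NeZero p := ⟨hp.ne_zero⟩
  obtain ⟨t, ht, htζ⟩ := exists_inertia_move hp hp2 hP hζ
  obtain ⟨n, hn⟩ := Fermat.Agent.S56.H786.exists_isCycExp hζ t
  have hat : a t = (n : k) := ha.cyc t ht n hn
  have hat1 : a t ≠ 1 := by
    intro h1
    apply htζ
    rw [hat] at h1
    have h2 : ((n : ℕ) : k) = ((1 : ℕ) : k) := by rw [h1, Nat.cast_one]
    have h3 : n ≡ 1 [MOD p] := (CharP.natCast_eq_natCast k p).mp h2
    have hfin : IsOfFinOrder ζ :=
      isOfFinOrder_iff_pow_eq_one.mpr ⟨p, hp.pos, hζ.pow_eq_one⟩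
    have h4 : ζ ^ n = ζ ^ 1 := by
      rw [hfin.pow_eq_pow_iff_modEq, ← hζ.eq_orderOf]
      exact h3
    rw [hn ζ hζ.pow_eq_one, h4, pow_one]
  have htD : t ∈ P.decompositionSubgroup ℚ :=
    Fermat.Agent.A2.H708.mem_decomposition_of_mem_inertiaIn P ht
  have hne : a t - 1 ≠ 0 := sub_ne_zero.mpr hat1
  refine ⟨c t / (a t - 1), fun σ hσ => ?_⟩
  have hd : ∀ σ ∈ P.decompositionSubgroup ℚ, ∀ τ ∈ P.decompositionSubgroup ℚ,
      c (σ * τ) - (a (σ * τ) - 1) * (c t / (a t - 1)) =
        (c σ - (a σ - 1) * (c t / (a t - 1))) +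
          a σ * (c τ - (a τ - 1) * (c t / (a t - 1))) := by
    intro σ hσ τ hτ
    rw [hc.map_mul σ hσ τ hτ, ha.map_mul σ hσ τ hτ]
    ring
  have hdt : c t - (a t - 1) * (c t / (a t - 1)) = 0 := by
    rw [mul_div_cancel₀ _ hne, sub_self]
  have hhI : t⁻¹ * (σ * t * σ⁻¹) ∈ P.inertiaSubgroupIn ℚ :=
    mul_mem (inv_mem ht) (Fermat.Agent.S56.H794.conj_mem_inertiaIn P hσ ht)
  have hhζ : (t⁻¹ * (σ * t * σ⁻¹)) ζ = ζ := by
    show t⁻¹ (σ (t (σ⁻¹ ζ))) = ζ
    have hμ : (σ⁻¹ ζ) ^ p = 1 := by rw [← map_pow, hζ.pow_eq_one, map_one]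
    rw [hn _ hμ, map_pow, kum_apply_inv, ← hn ζ hζ.pow_eq_one, kum_inv_apply]
  have hhD := Fermat.Agent.A2.H708.mem_decomposition_of_mem_inertiaIn P hhI
  have hah : a (t⁻¹ * (σ * t * σ⁻¹)) = 1 := ordChar_eq_one ha hζ hhI hhζ
  have hch : c (t⁻¹ * (σ * t * σ⁻¹)) = 0 := hvan _ hhI hhζ
  have hgrp : σ * t = t * ((t⁻¹ * (σ * t * σ⁻¹)) * σ) := by group
  have e1 := hd σ hσ t htD
  have e2 := hd t htD ((t⁻¹ * (σ * t * σ⁻¹)) * σ) (mul_mem hhD hσ)
  have e3 := hd (t⁻¹ * (σ * t * σ⁻¹)) hhD σ hσ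
  rw [← hgrp] at e2
  rw [hdt] at e1 e2
  rw [hch, hah] at e3
  have key : (c σ - (a σ - 1) * (c t / (a t - 1))) * (a t - 1) = 0 := by
    linear_combination e1 - e2 - a t * e3
  rcases mul_eq_zero.mp key with h | h
  · exact sub_eq_zero.mp h
  · exact absurd h hne

end restrict

/-! ## The semilinear map -/

section frobT

variable (κ : Type*) [Field κ] (p : ℕ) [Fact p.Prime] [CharP κ p] {f : ℕ}

/-- `x ↦ ((∑ j, M i j • x j) ^ p)_i`. -/
def frobT (M : Fin f → Fin f → ℕ) : (Fin f → κ) →+ (Fin f → κ) :=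
  AddMonoidHom.mk' (fun x i => (∑ j, M i j • x j) ^ p) (by
    intro x y
    funext i
    simp only [Pi.add_apply, smul_add, Finset.sum_add_distrib]
    exact add_pow_char _ _ p)

variable {κ p}

theorem frobT_apply (M : Fin f → Fin f → ℕ) (x : Fin f → κ) (i : Fin f) :
    frobT κ p M x i = (∑ j, M i j • x j) ^ p := rfl

theorem frobT_smul (M : Fin f → Fin f → ℕ) (c : κ) (x : Fin f → κ) :
    frobT κ p M (c • x) = c ^ p • frobT κ p M x := by
  funext i
  simp only [frobT_apply, Pi.smul_apply, smul_eq_mul]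
  rw [← mul_pow]
  congr 1
  rw [Finset.mul_sum]
  refine Finset.sum_congr rfl fun j _ => ?_
  rw [nsmul_eq_mul, nsmul_eq_mul]
  ring

end frobT

/-! ## The invariant of a peu ramifié cocycle -/

section main

variable {p : ℕ} {P : ValuationSubring Qb} {k : Type} [Field k] {a c : GQ → k}

theorem charP_residue (hp : p.Prime) (hP : P.LiesOverPrime p) : CharP (ResidueField P) p := by
  rw [CharP.charP_iff_prime_eq_zero hp]
  have h := resQ_natCast_self hP
  rw [resQ_of_mem (natCast_mem P p)] at h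
  have e : (⟨(p : Qb), natCast_mem P p⟩ : P) = ((p : ℕ) : P) := rfl
  rw [e, map_natCast] at h
  exact h

theorem isCycExp_natCast_ne_zero [CharP k p] (hp : p.Prime) {ζ : Qb} (hζ : IsPrimitiveRoot ζ p)
    {σ : GQ} {n : ℕ} (hn : IsCycExp p σ n) : (n : k) ≠ 0 := by
  intro h0
  have hdvd : p ∣ n := (CharP.cast_eq_zero_iff k p n).mp h0
  have h1 : σ ζ = 1 := by
    rw [hn ζ hζ.pow_eq_one]
    obtain ⟨m, rfl⟩ := hdvd
    rw [pow_mul, hζ.pow_eq_one, one_pow]
  have h2 : ζ = 1 := σ.injective (by rw [h1, map_one])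
  exact hζ.ne_one hp.one_lt h2

/-- The components of a cocycle are `ω`-twisted cocycles of finite level on inertia. -/
theorem comp_cocycle (ha : IsOrdChar p P a) (hc : IsLocCocycle P a c) (ℓ : k →+ ZMod p) :
    (∀ σ ∈ P.inertiaSubgroupIn ℚ, ∀ τ ∈ P.inertiaSubgroupIn ℚ, ∀ n : ℕ, IsCycExp p σ n →
      ℓ (c (σ * τ)) = ℓ (c σ) + (n : ZMod p) * ℓ (c τ)) ∧
    (∃ L : IntermediateField ℚ Qb, FiniteDimensional ℚ L ∧
      ∀ σ ∈ P.inertiaSubgroupIn ℚ, ∀ τ ∈ P.inertiaSubgroupIn ℚ,
        (∀ x ∈ L, τ x = x) → ℓ (c (σ * τ)) = ℓ (c σ)) := by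
  have hID : ∀ σ ∈ P.inertiaSubgroupIn ℚ, σ ∈ P.decompositionSubgroup ℚ := fun σ hσ =>
    Fermat.Agent.A2.H708.mem_decomposition_of_mem_inertiaIn P hσ
  constructor
  · intro σ hσ τ hτ n hn
    rw [hc.map_mul σ (hID σ hσ) τ (hID τ hτ), ha.cyc σ hσ n hn, map_add, map_natCast_mul]
  · obtain ⟨L, hL, h⟩ := hc.level
    exact ⟨L, hL, fun σ hσ τ hτ hfix => by rw [h σ (hID σ hσ) τ (hID τ hτ) hfix]⟩

theorem exists_KRel (hp : p.Prime) (hP : P.LiesOverPrime p) {ζ : Qb} (hζ : IsPrimitiveRoot ζ p)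
    (ha : IsOrdChar p P a) (hc : IsLocCocycle P a c) (hpeu : IsPeu p P c) (ℓ : k →+ ZMod p) :
    ∃ y, KRel P ζ (fun σ => ℓ (c σ)) y := by
  obtain ⟨h1, h2⟩ := comp_cocycle ha hc ℓ
  exact KRel.exists_of_unit hp hP hζ h1 h2 (hpeu ζ hζ ℓ)

/-- The invariant (a choice). -/
def Yv (P : ValuationSubring Qb) (ζ : Qb) {f : ℕ} (ℓ : Fin f → (k →+ ZMod p)) (c : GQ → k)
    (i : Fin f) : ResidueField P :=
  Classical.epsilon fun y => KRel P ζ (fun σ => ℓ i (c σ)) y

theorem Yv_spec {ζ : Qb} {f : ℕ} {ℓ : Fin f → (k →+ ZMod p)} {i : Fin f}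
    (h : ∃ y, KRel P ζ (fun σ => ℓ i (c σ)) y) :
    KRel P ζ (fun σ => ℓ i (c σ)) (Yv P ζ ℓ c i) :=
  Classical.epsilon_spec h

/-- Two cocycles with the same invariant differ by a coboundary. -/
theorem coboundary_of_KRel_eq [CharP k p] (hp : p.Prime) (hp2 : p ≠ 2) (hP : P.LiesOverPrime p)
    {ζ : Qb} (hζ : IsPrimitiveRoot ζ p) (ha : IsOrdChar p P a) {c' : GQ → k}
    (hc : IsLocCocycle P a c) (hc' : IsLocCocycle P a c') {f : ℕ} {b : Fin f → k}
    {ℓ : Fin f → (k →+ ZMod p)} (hb : ∀ y : k, ∑ i, (ℓ i y).val • b i = y)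
    {Y : Fin f → ResidueField P} (h : ∀ i, KRel P ζ (fun σ => ℓ i (c σ)) (Y i))
    (h' : ∀ i, KRel P ζ (fun σ => ℓ i (c' σ)) (Y i)) :
    ∃ m : k, ∀ σ ∈ P.decompositionSubgroup ℚ, c σ - c' σ = (a σ - 1) * m := by
  haveI : NeZero p := ⟨hp.ne_zero⟩
  haveI : CharP (ResidueField P) p := charP_residue hp hP
  have hζ1 : ζ ^ p = 1 := hζ.pow_eq_one
  apply coboundary_of_vanish hp hp2 hP hζ ha (locCocycle_sub hc hc')
  intro σ hσ hσζ
  have hi : ∀ i, ℓ i (c σ - c' σ) = 0 := by
    intro i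
    have h1 := KRel.add hζ1 hP (h i) (KRel.nsmul hζ1 hP (h' i) (p - 1))
    have h2 : Y i + (p - 1) • Y i = 0 := by
      rw [← succ_nsmul', Nat.sub_add_cancel hp.one_le, nsmul_eq_mul, CharP.cast_eq_zero,
        zero_mul]
    rw [h2] at h1
    have h3 := KRel.ker hp hp2 hP hζ h1 σ hσ hσζ
    simp only [Pi.add_apply, Pi.smul_apply] at h3
    have h4 : (p - 1) • ℓ i (c' σ) = -ℓ i (c' σ) := by
      have h5 : (p - 1) • ℓ i (c' σ) + ℓ i (c' σ) = 0 := by
        rw [← succ_nsmul, Nat.sub_add_cancel hp.one_le, nsmul_eq_mul, CharP.cast_eq_zero,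
          zero_mul]
      exact eq_neg_of_add_eq_zero_left h5
    rw [h4] at h3
    rw [map_sub, sub_eq_add_neg]
    exact h3
  show c σ - c' σ = 0
  rw [← hb (c σ - c' σ)]
  exact Finset.sum_eq_zero fun i _ => by rw [hi i, ZMod.val_zero, zero_smul]

/-- The invariant is a fixed point of the Frobenius twist. -/
theorem fixed_of_KRel [Fact p.Prime] [CharP k p] [CharP (ResidueField P) p]
    (hP : P.LiesOverPrime p) {ζ : Qb}
    (hζ : IsPrimitiveRoot ζ p) (ha : IsOrdChar p P a) (hc : IsLocCocycle P a c) {φ : GQ}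
    (hφ : P.IsFrobeniusAt φ p) {n : ℕ} (hn : IsCycExp p φ n) {f : ℕ} {b : Fin f → k}
    {ℓ : Fin f → (k →+ ZMod p)} (hb : ∀ y : k, ∑ i, (ℓ i y).val • b i = y)
    {Y : Fin f → ResidueField P} (h : ∀ i, KRel P ζ (fun σ => ℓ i (c σ)) (Y i)) :
    frobT (ResidueField P) p (fun i j => (ℓ i (a φ * (n : k)⁻¹ * b j)).val) Y = Y := by
  have hp : p.Prime := Fact.out
  haveI : NeZero p := ⟨hp.ne_zero⟩
  have hζ1 : ζ ^ p = 1 := hζ.pow_eq_one
  have hφD : φ ∈ P.decompositionSubgroup ℚ := hφ.mem_decompositionSubgroup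
  funext i
  rw [frobT_apply]
  have hsum := KRel.sum hζ1 hP Finset.univ
    (fun j => (ℓ i (a φ * (n : k)⁻¹ * b j)).val • (fun σ => ℓ j (c σ)))
    (fun j => (ℓ i (a φ * (n : k)⁻¹ * b j)).val • Y j)
    (fun j _ => KRel.nsmul hζ1 hP (h j) _)
  have hcongr1 : KRel P ζ (fun σ => ℓ i (a φ * (n : k)⁻¹ * c σ))
      (∑ j, (ℓ i (a φ * (n : k)⁻¹ * b j)).val • Y j) := by
    refine KRel.congr (fun σ _ _ => ?_) hsum
    rw [Finset.sum_apply]
    simp only [Pi.smul_apply]
    conv_rhs => rw [← hb (c σ), Finset.mul_sum, map_sum]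
    refine Finset.sum_congr rfl fun j _ => ?_
    rw [mul_smul_comm, map_nsmul, nsmul_eq_mul, nsmul_eq_mul, ZMod.natCast_zmod_val,
      ZMod.natCast_zmod_val, mul_comm]
  have hfrob := KRel.frob hζ1 hφ hn hcongr1
  have hcongr2 : KRel P ζ (fun σ => ℓ i (c σ))
      ((∑ j, (ℓ i (a φ * (n : k)⁻¹ * b j)).val • Y j) ^ p) := by
    refine KRel.congr (fun σ hσ hσζ => ?_) hfrob
    show (n : ZMod p) * ℓ i (a φ * (n : k)⁻¹ * c (φ⁻¹ * σ * φ)) = ℓ i (c σ)
    rw [locCocycle_conj hc ha.toIsLocChar hφD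
      (Fermat.Agent.A2.H708.mem_decomposition_of_mem_inertiaIn P hσ)
      (ordChar_eq_one ha hζ hσ hσζ), ← map_natCast_mul]
    congr 1
    have hn0 : (n : k) ≠ 0 := isCycExp_natCast_ne_zero hp hζ hn
    have ha0 : a φ ≠ 0 := (locChar_inv ha.toIsLocChar hφD).1
    field_simp
  exact KRel.unique hp hP hζ hcongr2 (h i)

end main

/-! ## The theorem -/

/-- **(KUM)** of `H906/FlatOSpec.lean`: the peu ramifié classes in `H¹(D_P, k(a))`, `a|_{I_P}`
cyclotomic, span at most one dimension. -/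
theorem kum : Fermat.Agent.S56.H906.KumStatement := by
  intro p hpF hp2 k _ _ _ P hP a ha
  have hp : p.Prime := hpF.out
  haveI : NeZero p := ⟨hp.ne_zero⟩
  haveI : NeZero (p : ℚ) := ⟨by exact_mod_cast hp.ne_zero⟩
  obtain ⟨ζ, hζ⟩ := HasEnoughRootsOfUnity.exists_primitiveRoot Qb p
  obtain ⟨φ, hφ⟩ := Fermat.Agent.Lib.Cheb.H643.exists_isFrobeniusAt p hp P hP
  obtain ⟨n, hn⟩ := Fermat.Agent.S56.H786.exists_isCycExp hζ φ
  obtain ⟨f, b, ℓ, hb, hcard⟩ := exists_zmod_basis p k
  haveI : CharP (ResidueField P) p := charP_residue hp hP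
  obtain ⟨hfin, hcardS⟩ := card_fixed_le hp.one_lt
    (frobT (ResidueField P) p (fun i j => (ℓ i (a φ * (n : k)⁻¹ * b j)).val))
    (frobT_smul _)
  haveI := hfin
  rw [Module.finrank_fin_fun] at hcardS
  have hY : ∀ c, IsLocCocycle P a c → IsPeu p P c →
      ∀ i, KRel P ζ (fun σ => ℓ i (c σ)) (Yv P ζ ℓ c i) :=
    fun c hc hpeu i => Yv_spec (exists_KRel hp hP hζ ha hc hpeu (ℓ i))
  have hfix : ∀ c, IsLocCocycle P a c → IsPeu p P c →
      frobT (ResidueField P) p (fun i j => (ℓ i (a φ * (n : k)⁻¹ * b j)).val) (Yv P ζ ℓ c) =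
        Yv P ζ ℓ c :=
    fun c hc hpeu => fixed_of_KRel hP hζ ha hc hφ hn hb (hY c hc hpeu)
  have hK : ∀ c c', IsLocCocycle P a c → IsPeu p P c → IsLocCocycle P a c' → IsPeu p P c' →
      Yv P ζ ℓ c = Yv P ζ ℓ c' →
      ∃ m : k, ∀ σ ∈ P.decompositionSubgroup ℚ, c σ - c' σ = (a σ - 1) * m := by
    intro c c' hc hpeu hc' hpeu' heq
    refine coboundary_of_KRel_eq hp hp2 hP hζ ha hc hc' hb (hY c hc hpeu) (fun i => ?_)
    rw [heq]
    exact hY c' hc' hpeu' i
  by_cases hex : ∃ c₁, IsLocCocycle P a c₁ ∧ IsPeu p P c₁ ∧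
      ¬ ∃ m : k, ∀ σ ∈ P.decompositionSubgroup ℚ, c₁ σ = (a σ - 1) * m
  · obtain ⟨c₁, hc₁, hpeu₁, hnc⟩ := hex
    refine ⟨c₁, fun c hc hpeu => ?_⟩
    let g : k → {x : Fin f → ResidueField P //
        frobT (ResidueField P) p (fun i j => (ℓ i (a φ * (n : k)⁻¹ * b j)).val) x = x} :=
      fun x => ⟨Yv P ζ ℓ (fun σ => x * c₁ σ),
        hfix _ (locCocycle_smul hc₁ x) (isPeu_smul hpeu₁ x)⟩
    have hginj : Function.Injective g := by
      intro x x' hxx
      by_contra hne
      have heq : Yv P ζ ℓ (fun σ => x * c₁ σ) = Yv P ζ ℓ (fun σ => x' * c₁ σ) :=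
        congrArg Subtype.val hxx
      obtain ⟨m, hm⟩ := hK _ _ (locCocycle_smul hc₁ x) (isPeu_smul hpeu₁ x)
        (locCocycle_smul hc₁ x') (isPeu_smul hpeu₁ x') heq
      apply hnc
      have hxx' : x - x' ≠ 0 := sub_ne_zero.mpr hne
      refine ⟨m / (x - x'), fun σ hσ => ?_⟩
      have h1 : x * c₁ σ - x' * c₁ σ = (a σ - 1) * m := hm σ hσ
      field_simp
      linear_combination h1
    have hbij := hginj.bijective_of_nat_card_le (by rw [hcard]; exact hcardS)
    obtain ⟨x, hx⟩ := hbij.2 ⟨Yv P ζ ℓ c, hfix c hc hpeu⟩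
    have heq : Yv P ζ ℓ (fun σ => x * c₁ σ) = Yv P ζ ℓ c := congrArg Subtype.val hx
    obtain ⟨m, hm⟩ := hK c _ hc hpeu (locCocycle_smul hc₁ x) (isPeu_smul hpeu₁ x) heq.symm
    refine ⟨x, m, fun σ hσ => ?_⟩
    have h1 : c σ - x * c₁ σ = (a σ - 1) * m := hm σ hσ
    linear_combination h1
  · refine ⟨fun _ => 0, fun c hc hpeu => ?_⟩
    by_contra hcon
    apply hex
    refine ⟨c, hc, hpeu, fun ⟨m, hm⟩ => hcon ⟨0, m, fun σ hσ => ?_⟩⟩
    rw [hm σ hσ]
    ring

end Fermat.Agent.S56.H734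

end

end
-- ===== PACK-END S56/H734/KumMain.lean

-- ===== PACK-BEGIN S55/H963/SecondIneqRay.lean
section



/-!
# S55 (helper963): the second inequality for ray data, unconditional

Combines the analytic second inequality of helper357 (`card_le_finrank_of_bounded`, which
assumes the boundedness of the ray class `L`-series) with RAY-N1 (`exists_LSum_bound`).

`RayDatum.card_le_finrank` : let `L / K` be an extension of number fields, `D` a ray datum of
`K` with finite class group `A` such that `ψ` is surjective and `ψ 𝔭 = 1` for every prime `𝔭`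
of `K` coprime to the modulus lying under a prime of `L` of prime absolute norm.
Then `#A ≤ [L : K]`.
-/

set_option autoImplicit false

namespace Fermat.Agent.S55.H963

open NumberField IsDedekindDomain

open scoped nonZeroDivisors

variable {K : Type*} [Field K] [NumberField K] {A : Type*} [CommGroup A]

namespace RayDatum

variable (D : RayDatum K A)

theorem psi_top : D.ψ ⊤ = 1 := by
  have h := D.map_principal 1 (by simp)
  rwa [Ideal.span_singleton_one] at h

open Classical in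
/-- The completely multiplicative function `I ↦ χ(ψ I)` (zero on ideals not coprime to the
modulus). -/
noncomputable def charHom (χ : A →* ℂˣ) : (Ideal (𝓞 K))⁰ →* ℂ where
  toFun I := if IsCoprime (I : Ideal (𝓞 K)) D.m then ((χ (D.ψ I) : ℂˣ) : ℂ) else 0
  map_one' := by
    have h1 : IsCoprime (((1 : (Ideal (𝓞 K))⁰) : Ideal (𝓞 K))) D.m := by
      rw [Submonoid.coe_one]
      exact isCoprime_one_left
    rw [if_pos h1, Submonoid.coe_one, Ideal.one_eq_top, D.psi_top, map_one, Units.val_one]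
  map_mul' I J := by
    by_cases hI : IsCoprime (I : Ideal (𝓞 K)) D.m
    · by_cases hJ : IsCoprime (J : Ideal (𝓞 K)) D.m
      · have hIJ : IsCoprime (((I * J : (Ideal (𝓞 K))⁰)) : Ideal (𝓞 K)) D.m := by
          rw [Submonoid.coe_mul]
          exact hI.mul_left hJ
        rw [if_pos hIJ, if_pos hI, if_pos hJ, Submonoid.coe_mul, D.map_mul _ _ hI hJ,
          _root_.map_mul, Units.val_mul]
      · have hIJ : ¬ IsCoprime (((I * J : (Ideal (𝓞 K))⁰)) : Ideal (𝓞 K)) D.m := by
          rw [Submonoid.coe_mul]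
          exact fun h => hJ h.of_mul_left_right
        rw [if_neg hIJ, if_neg hJ, mul_zero]
    · have hIJ : ¬ IsCoprime (((I * J : (Ideal (𝓞 K))⁰)) : Ideal (𝓞 K)) D.m := by
        rw [Submonoid.coe_mul]
        exact fun h => hI h.of_mul_left_left
      rw [if_neg hIJ, if_neg hI, zero_mul]

theorem charHom_of_coprime (χ : A →* ℂˣ) {I : (Ideal (𝓞 K))⁰}
    (hI : IsCoprime (I : Ideal (𝓞 K)) D.m) :
    D.charHom χ I = ((χ (D.ψ I) : ℂˣ) : ℂ) := by
  classical
  show (if IsCoprime (I : Ideal (𝓞 K)) D.m then ((χ (D.ψ I) : ℂˣ) : ℂ) else 0) = _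
  rw [if_pos hI]

theorem charHom_of_not_coprime (χ : A →* ℂˣ) {I : (Ideal (𝓞 K))⁰}
    (hI : ¬ IsCoprime (I : Ideal (𝓞 K)) D.m) : D.charHom χ I = 0 := by
  classical
  show (if IsCoprime (I : Ideal (𝓞 K)) D.m then ((χ (D.ψ I) : ℂˣ) : ℂ) else 0) = _
  rw [if_neg hI]

theorem norm_charHom_le [Finite A] (χ : A →* ℂˣ) (I : (Ideal (𝓞 K))⁰) :
    ‖D.charHom χ I‖ ≤ 1 := by
  by_cases hI : IsCoprime (I : Ideal (𝓞 K)) D.m
  · rw [D.charHom_of_coprime χ hI, norm_char χ]
  · rw [D.charHom_of_not_coprime χ hI, norm_zero]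
    exact zero_le_one

/-- The primes dividing the modulus. -/
def badSet : Set (HeightOneSpectrum (𝓞 K)) := {v | ¬ IsCoprime v.asIdeal D.m}

theorem badSet_finite : D.badSet.Finite := by
  refine (Ideal.finite_factors D.m_ne_bot).subset fun v hv => ?_
  rw [Set.mem_setOf_eq, Ideal.dvd_iff_le]
  by_contra hle
  apply hv
  rw [Ideal.isCoprime_iff_sup_eq]
  have hmax : v.asIdeal.IsMaximal := v.isMaximal
  by_contra htop
  have h1 : v.asIdeal ⊔ D.m = v.asIdeal := by
    by_contra hne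
    exact htop (hmax.1.2 _ (lt_of_le_of_ne le_sup_left (Ne.symm hne)))
  exact hle (by rw [← h1]; exact le_sup_right)

/-- The `L`-series of helper357 coincides with `LSum`. -/
theorem Lray_charHom (χ : A →* ℂˣ) (s : ℝ) :
    G.H357.Lray (D.charHom χ) s = D.LSum χ s := by
  unfold G.H357.Lray LSum
  let g : D.all → (Ideal (𝓞 K))⁰ := fun I => ⟨I.1, mem_nonZeroDivisors_of_ne_zero I.2.1⟩
  have hg : Function.Injective g := by
    intro I J h
    have h' : (I : Ideal (𝓞 K)) = (J : Ideal (𝓞 K)) :=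
      congrArg (fun z : (Ideal (𝓞 K))⁰ => (z : Ideal (𝓞 K))) h
    exact Subtype.ext h'
  have hsupp : Function.support (fun I : (Ideal (𝓞 K))⁰ => G.H357.tw (D.charHom χ) s I) ⊆
      Set.range g := by
    intro I hI
    rw [Function.mem_support, G.H357.tw_apply] at hI
    have hc : IsCoprime (I : Ideal (𝓞 K)) D.m := by
      by_contra hc
      rw [D.charHom_of_not_coprime χ hc, zero_mul] at hI
      exact hI rfl
    exact ⟨⟨I.1, nonZeroDivisors.coe_ne_zero I, hc⟩, Subtype.ext rfl⟩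
  rw [← hg.tsum_eq hsupp]
  congr 1
  funext I
  rw [G.H357.tw_apply, D.charHom_of_coprime χ (I := g I) I.2.2]
  rfl

variable {L : Type*} [Field L] [NumberField L] [Algebra K L]

/-- **The second inequality for ray data** (universal norm index inequality, analytic proof). -/
theorem card_le_finrank [Finite A] (hsurj : D.IsSurj)
    (hsplit : ∀ w : HeightOneSpectrum (𝓞 L), (Ideal.absNorm w.asIdeal).Prime →
      IsCoprime (w.asIdeal.under (𝓞 K)) D.m → D.ψ (w.asIdeal.under (𝓞 K)) = 1) :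
    Nat.card A ≤ Module.finrank K L := by
  refine G.H357.card_le_finrank_of_bounded (K := K) (L := L) (fun χ => D.charHom χ)
    (fun χ I => D.norm_charHom_le χ I) (fun v => D.ψ v.asIdeal) D.badSet D.badSet_finite
    ?_ ?_ ?_ ?_
  · intro χ v hv
    have hc : IsCoprime v.asIdeal D.m := not_not.mp hv
    exact D.charHom_of_coprime χ (I := Fermat.Agent.S14.H163.toI0 v) hc
  · intro χ v hv
    exact D.charHom_of_not_coprime χ (I := Fermat.Agent.S14.H163.toI0 v) hv
  · intro χ hχ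
    obtain ⟨B, hB⟩ := D.exists_LSum_bound hsurj χ hχ
    exact ⟨B, fun s hs1 hs2 => by rw [D.Lray_charHom χ s]; exact hB s hs1 hs2⟩
  · intro w hw hwB
    exact hsplit w hw (not_not.mp hwB)

end RayDatum

end Fermat.Agent.S55.H963

end
-- ===== PACK-END S55/H963/SecondIneqRay.lean

-- ===== PACK-BEGIN S55/E1/H895/Alg911Final.lean
section








/-!
# S55, engine E1, block ALG9–ALG11: CLOSED (consolidation file, helper895)

All frozen Specs of `E1/SpecAlg3.lean` are theorems.  One import, one namespace for consumers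
(LIM1–LIM5):

* `alg9        : ALG9Spec`          (helper298)  edge connecting map bijective
* `alg9a       : ALG9aSpec`         (helper423)  extension criterion
* `alg9aCocycle: ALG9aCocycleSpec`  (helper423)
* `alg10Comp   : ALG10CompSpec`     (helper793)  `tr ∘ tr = tr` on `A`
* `alg10CompE2 : ALG10CompE2Spec`   (helper793)  `tr ∘ tr = tr` on `𝔈²`
* `alg10Edge   : ALG10EdgeSpec`     (helper600)  `tr` commutes with the edge map
* `alg10Pair   : ALG10PairSpec`     (helper245)  pairing formula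
* `alg10Bdry   : H354.ALG10BdrySpec`(helper354)  `tr` commutes with the ALG3 boundary
* `alg11       : ALG11Spec`         (helper895)  local injectivity
* `isEdge_tr   `                    edges are transported to edges (from `alg10Edge`)
-/

namespace Fermat.Agent.S55.E1.H895.Final

open Fermat.Agent.S55.E1

theorem alg9 : ALG9Spec := H298.alg9
theorem alg9a : ALG9aSpec := H423.alg9aSpec
theorem alg9aCocycle : ALG9aCocycleSpec := H423.alg9aCocycleSpec
theorem alg10Comp : ALG10CompSpec := H793.alg10Comp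
theorem alg10CompE2 : ALG10CompE2Spec := H793.alg10CompE2
theorem alg10Edge : ALG10EdgeSpec := H600.alg10Edge
theorem alg10Pair : ALG10PairSpec := H245.alg10Pair
theorem alg10Bdry : H354.ALG10BdrySpec := H354.alg10Bdry
theorem alg11 : ALG11Spec := H895.alg11

end Fermat.Agent.S55.E1.H895.Final

end
-- ===== PACK-END S55/E1/H895/Alg911Final.lean

-- ===== PACK-BEGIN S55/G/Rec/Tow/H417/AlgA.lean
section
/-
S55 / REC2-TOW, leaf ALG-A (helper417): `exactCount : ExactCountSpec`,
`pPrimaryLift : PPrimaryLiftSpec`.  Elementary, Mathlib only.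
-/


set_option autoImplicit false

namespace Fermat.Agent.S55.G.Rec.TOW.H417

open Fermat.Agent.S55

/-- **ALG-EX**: exactness by counting. -/
theorem exactCount : ExactCountSpec := by
  intro X Y T _ _ _ j σ m hm hker hfin hdvd ⟨y₀, hy₀⟩
  classical
  have := hfin
  let _ : Fintype Y := Fintype.ofFinite Y
  -- the map `t ↦ j (t • y₀)` on `Fin m` is injective
  let f : Fin m → Y := fun t => j ((t : ℕ) • y₀)
  have key : ∀ a b : ℕ, a ≤ b → b < m → j (a • y₀) = j (b • y₀) → a = b := by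
    intro a b hab hb h
    have h1 : j ((b - a) • y₀) = 0 := by
      have : (b - a) • y₀ = b • y₀ - a • y₀ := by
        rw [eq_sub_iff_add_eq, ← add_smul, Nat.sub_add_cancel hab]
      rw [this, map_sub, h, sub_self]
    have h2 : (b - a) • σ y₀ = 0 := by
      rw [← map_nsmul]
      exact hker _ h1
    have h3 : m ∣ b - a := hy₀ _ h2
    have h4 : b - a = 0 := Nat.eq_zero_of_dvd_of_lt h3 (lt_of_le_of_lt (Nat.sub_le b a) hb)
    omega
  have hf : Function.Injective f := by
    intro s t hst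
    apply Fin.ext
    rcases le_total (s : ℕ) (t : ℕ) with h | h
    · exact key _ _ h t.2 hst
    · exact (key _ _ h s.2 hst.symm).symm
  have hcard_le : m ≤ Nat.card Y := by
    have := Fintype.card_le_of_injective f hf
    rwa [Fintype.card_fin, ← Nat.card_eq_fintype_card] at this
  have hcard : Nat.card Y = m := le_antisymm (Nat.le_of_dvd hm hdvd) hcard_le
  have hbij : Function.Bijective f := by
    rw [Fintype.bijective_iff_injective_and_card]
    refine ⟨hf, ?_⟩
    rw [Fintype.card_fin, ← Nat.card_eq_fintype_card, hcard]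
  refine ⟨?_, hcard⟩
  intro x hx
  obtain ⟨t, ht⟩ := hbij.2 (j x)
  have h1 : j (x - (t : ℕ) • y₀) = 0 := by
    rw [map_sub]
    change j x - f t = 0
    rw [ht, sub_self]
  have h2 : σ (x - (t : ℕ) • y₀) = 0 := hker _ h1
  have h3 : (t : ℕ) • σ y₀ = 0 := by
    rw [map_sub, hx, zero_sub, neg_eq_zero, map_nsmul] at h2
    exact h2
  have h4 : (t : ℕ) = 0 := Nat.eq_zero_of_dvd_of_lt (hy₀ _ h3) t.2
  rw [← ht]
  change j ((t : ℕ) • y₀) = 0
  rw [h4, zero_smul, map_zero]

/-- **ALG-PP**: `p`-primary lifts. -/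
theorem pPrimaryLift : PPrimaryLiftSpec := by
  intro p hp X Y _ _ f N hN hkill x ⟨b, hb⟩
  -- `N = p ^ a * N'` with `p ∤ N'`
  obtain ⟨a, N', hN', hNeq⟩ := Nat.exists_eq_pow_mul_and_not_dvd hN.ne' p hp.ne_one
  have hcop : Nat.Coprime (p ^ (a + b)) N' :=
    Nat.Coprime.pow_left _ ((Nat.Prime.coprime_iff_not_dvd hp).2 hN')
  obtain ⟨e, he1, he0⟩ := Nat.chineseRemainder hcop 1 0
  refine ⟨e • x, ⟨a + b, ?_⟩, ?_⟩
  · -- `p ^ (a+b) • e • x = 0`
    have h0 : N' ∣ e := (Nat.modEq_zero_iff_dvd).1 he0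
    obtain ⟨u, hu⟩ := h0
    have : p ^ (a + b) * e = N * (p ^ b * u) := by
      rw [hu, hNeq, pow_add]; ring
    rw [smul_smul, this, mul_comm, mul_smul, hkill, smul_zero]
  · -- `f (e • x) = f x`
    rw [map_nsmul]
    have h1 : (p ^ (a + b) : ℤ) ∣ (e : ℤ) - 1 := by
      have := (Nat.modEq_iff_dvd.1 he1.symm)
      simpa using this
    obtain ⟨u, hu⟩ := h1
    have h2 : ((p ^ (a + b) : ℕ) : ℤ) • f x = 0 := by
      rw [natCast_zsmul, pow_add, mul_smul, hb, smul_zero]
    have h3 : (e : ℤ) = 1 + (p ^ (a + b) : ℤ) * u := by linarith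
    have h4 : ((e : ℤ)) • f x = f x := by
      rw [h3, add_smul, one_smul, mul_comm, mul_smul]
      have : ((p : ℤ) ^ (a + b)) • f x = 0 := by
        have := h2
        push_cast at this
        exact this
      rw [this, smul_zero, add_zero]
    rw [← natCast_zsmul]
    exact h4

end Fermat.Agent.S55.G.Rec.TOW.H417

end
-- ===== PACK-END S55/G/Rec/Tow/H417/AlgA.lean

-- ===== PACK-BEGIN S55/G/Rec/Tow/H417/Basic.lean
section
/-
S55 / REC2-TOW (helper417): functoriality lemmas for `h2Top`, `h2Sub` and `p`-primary elements.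
-/


set_option autoImplicit false

open CategoryTheory groupCohomology

namespace Fermat.Agent.S55.G.Rec.TOW.H417

open Fermat.Agent.S55

variable {Γ : Type} [Group Γ]

lemma h2Top_comp {A B C : Rep.{0} ℤ Γ} (f : A ⟶ B) (g : B ⟶ C) (x : groupCohomology A 2) :
    h2Top (f ≫ g) x = h2Top g (h2Top f x) := by
  change (T.coeffMap (f ≫ g) 2).hom x = (T.coeffMap g 2).hom ((T.coeffMap f 2).hom x)
  have h : T.coeffMap (f ≫ g) 2 = T.coeffMap f 2 ≫ T.coeffMap g 2 :=
    groupCohomology.map_id_comp f g 2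
  rw [h]
  rfl

lemma h2Top_id (A : Rep.{0} ℤ Γ) (x : groupCohomology A 2) : h2Top (𝟙 A) x = x := by
  change (T.coeffMap (𝟙 A) 2).hom x = x
  have h : T.coeffMap (𝟙 A) 2 = 𝟙 _ := groupCohomology.map_id (B := A) (n := 2)
  rw [h]
  rfl

lemma h2Top_zero (A B : Rep.{0} ℤ Γ) (x : groupCohomology A 2) :
    h2Top (0 : A ⟶ B) x = 0 := by
  change ((groupCohomology.functor ℤ Γ 2).map (0 : A ⟶ B)).hom x = 0
  rw [CategoryTheory.Functor.map_zero]
  rfl

lemma h2Sub_comp {A B C : Rep.{0} ℤ Γ} (f : A ⟶ B) (g : B ⟶ C) (H : Subgroup Γ)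
    (x : groupCohomology (T.resSub A H) 2) :
    h2Sub (f ≫ g) H x = h2Sub g H (h2Sub f H x) := by
  change h2Top ((Rep.resFunctor H.subtype).map (f ≫ g)) x = _
  rw [CategoryTheory.Functor.map_comp, h2Top_comp]

lemma h2Sub_id (A : Rep.{0} ℤ Γ) (H : Subgroup Γ) (x : groupCohomology (T.resSub A H) 2) :
    h2Sub (𝟙 A) H x = x := by
  change h2Top ((Rep.resFunctor H.subtype).map (𝟙 A)) x = _
  rw [CategoryTheory.Functor.map_id]
  exact h2Top_id _ x

lemma h2Sub_zero (A B : Rep.{0} ℤ Γ) (H : Subgroup Γ) (x : groupCohomology (T.resSub A H) 2) :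
    h2Sub (0 : A ⟶ B) H x = 0 := by
  change h2Top ((Rep.resFunctor H.subtype).map (0 : A ⟶ B)) x = _
  have : (Rep.resFunctor H.subtype).map (0 : A ⟶ B) = 0 := rfl
  rw [this]
  exact h2Top_zero _ _ x

lemma isPPrimary_map {p : ℕ} {X Y : Type} [AddCommGroup X] [AddCommGroup Y] (f : X →+ Y) {x : X}
    (hx : E1.IsPPrimary p x) : E1.IsPPrimary p (f x) := by
  obtain ⟨k, hk⟩ := hx
  exact ⟨k, by rw [← map_nsmul, hk, map_zero]⟩

lemma isPPrimary_nsmul {p : ℕ} {X : Type} [AddCommGroup X] {x : X} (n : ℕ)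
    (hx : E1.IsPPrimary p x) : E1.IsPPrimary p (n • x) := by
  obtain ⟨k, hk⟩ := hx
  exact ⟨k, by rw [smul_comm, hk, smul_zero]⟩

lemma isPPrimary_of_card_pow {p : ℕ} {X : Type} [AddCommGroup X] {x : X} (k : ℕ)
    (hx : p ^ k • x = 0) : E1.IsPPrimary p x := ⟨k, hx⟩

end Fermat.Agent.S55.G.Rec.TOW.H417

end
-- ===== PACK-END S55/G/Rec/Tow/H417/Basic.lean

-- ===== PACK-BEGIN S55/G/Rec/Tow/H371/ClassModuleOfSylow.lean
section



/-!
# S55 / layer G / block REC / adapter TOW, leaf ALG-CM (helper371): `ClassModuleOfSylowSpec`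

If `H¹(H, C) = 0` and `|H²(H, C)| ∣ |H|` for all `p`-subgroups `H ≤ Γ`, and `res_P γ` has order
at least `|P|` for ONE `p`-subgroup `P` of index prime to `p`, then `(C, γ)` is a class module
at `p`.

Proof.  Let `H` be a `p`-subgroup and `n • res_H γ = 0`.  Then `[Γ : H] n γ = 0`
(`T.ResIndexSpec`), hence `[Γ : H] n • res_P γ = 0` and `|P| ∣ [Γ : H] n`.  Multiplying by `|H|`
and using `|H| [Γ : H] = |Γ| = |P| [Γ : P]` gives `|H| ∣ [Γ : P] n`, so `|H| ∣ n` (`|H|` is a
power of `p`, `p ∤ [Γ : P]`).  So `res_H γ` has order `≥ |H| ≥ |H²(H, C)|`: it generates.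
-/

set_option autoImplicit false

open CategoryTheory groupCohomology

noncomputable section

namespace Fermat.Agent.S55.G.Rec.TOW.H371

open Fermat.Agent.S55

/-- In a finite abelian group whose order divides `m`, an element whose order is a multiple of
`m` generates, and the group has order `m`. -/
theorem card_eq_and_generates {M : Type} [AddCommGroup M] [Finite M] (m : ℕ) (g : M)
    (hcard : Nat.card M ∣ m) (hg : ∀ n : ℕ, n • g = 0 → m ∣ n) :
    Nat.card M = m ∧ ∀ x : M, ∃ n : ℕ, x = n • g := by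
  have h1 : addOrderOf g ∣ Nat.card M := addOrderOf_dvd_natCard g
  have h2 : m ∣ addOrderOf g := hg _ (addOrderOf_nsmul_eq_zero g)
  have h3 : Nat.card M = m := Nat.dvd_antisymm hcard (h2.trans h1)
  have h4 : addOrderOf g = Nat.card M := Nat.dvd_antisymm h1 (h3 ▸ h2)
  refine ⟨h3, fun x => ?_⟩
  have htop : AddSubgroup.zmultiples g = ⊤ := by
    apply AddSubgroup.eq_top_of_card_eq
    rw [Nat.card_zmultiples, h4]
  have hx : x ∈ AddSubgroup.zmultiples g := htop ▸ AddSubgroup.mem_top x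
  rw [← mem_multiples_iff_mem_zmultiples] at hx
  obtain ⟨n, hn⟩ := hx
  exact ⟨n, hn.symm⟩

/-- **ALG-CM.** -/
theorem classModuleOfSylow : ClassModuleOfSylowSpec := by
  intro p hp Γ _ _ C γ P hP hidx hup hord H hH
  haveI : Fact p.Prime := ⟨hp⟩
  obtain ⟨h1, hfin, hcard⟩ := hup H hH
  refine ⟨h1, ?_⟩
  haveI : Finite (groupCohomology (T.resSub C H) 2) := hfin
  -- the order of `res_H γ` is a multiple of `|H|`
  have key : ∀ n : ℕ, n • res2 C H γ = 0 → Nat.card H ∣ n := by
    intro n hn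
    have e1 : (T.resMap C H 2).hom (n • γ) = 0 := by
      rw [map_nsmul]
      exact hn
    have e2 : H.index • (n • γ) = 0 := T.H572.resIndex ℤ Γ C H 2 (by norm_num) (n • γ) e1
    have e3 : (H.index * n) • res2 C P γ = 0 := by
      rw [← map_nsmul, mul_smul, e2, map_zero]
    have e4 : Nat.card P ∣ H.index * n := hord _ e3
    have e5 : Nat.card H * Nat.card P ∣ Nat.card P * (P.index * n) := by
      have : Nat.card P * (P.index * n) = Nat.card H * (H.index * n) := by
        rw [← mul_assoc, ← mul_assoc, Subgroup.card_mul_index, Subgroup.card_mul_index]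
      rw [this]
      exact Nat.mul_dvd_mul_left _ e4
    have hPpos : 0 < Nat.card P := Nat.card_pos
    have e6 : Nat.card H ∣ P.index * n := by
      rw [mul_comm (Nat.card H)] at e5
      exact (Nat.mul_dvd_mul_iff_left hPpos).1 e5
    obtain ⟨a, ha⟩ := hH.exists_card_eq
    have hcop : Nat.Coprime (Nat.card H) P.index := by
      rw [ha]
      exact Nat.Coprime.pow_left _ ((Nat.Prime.coprime_iff_not_dvd hp).2 hidx)
    exact hcop.dvd_of_dvd_mul_left e6
  exact card_eq_and_generates (Nat.card H) (res2 C H γ) hcard key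

end Fermat.Agent.S55.G.Rec.TOW.H371

end
end
-- ===== PACK-END S55/G/Rec/Tow/H371/ClassModuleOfSylow.lean

-- ===== PACK-BEGIN S55/ColH543/GlobalK.lean
section





/-!
# S55 / colimit dictionary (helper543), part 6: the inputs GO1, GO2 and the reduction
# `H3IndMuSpec` of layer K in FINITE-LEVEL form

`gN S` = the normal levels `G_F` (`F/ℚ` finite Galois, unramified outside `S`) of `G_ℚ`.
For a level `V = G_K`:  `(gN S).restrict V` = the levels `G_F ∩ V` of `V`, and
`KL.HL (Rep.res V.subtype A) (U.subgroupOf V) n = Hⁿ(V ⧸ (U ∩ V), A^{U ∩ V})` is Mathlib group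
cohomology of the finite group `Gal(F/K)` (for `F ⊇ K`) with coefficients in `A^{G_F}`.

* `h2DivE_iff`  : `K.H2DivESpec p S`  ↔ `colim_F H²(Gal(F/K), 𝔼^{G_F}) ⊗ ℤ/p = 0` for all `K`;
* `h3TorsE_iff` : `K.H3TorsESpec p S` ↔ `colim_F H³(Gal(F/K), 𝔼^{G_F})[p] = 0` for all `K`;
* `h3IndMu_iff` : `K.H3IndMuSpec p S` ↔ `colim_F H³(Gal(F/K), μ_p^{G_F}) = 0` for all `K`.
-/

set_option autoImplicit false
set_option linter.style.haveILetI false

noncomputable section

open groupCohomology CategoryTheory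

namespace Fermat.Agent.S55.ColH543

open Fermat.Agent.S55.PT Fermat.Agent.S55.KL Fermat.Agent.S55.Bridge

lemma globalLevels_normalCofinal (S : Finset Nat.Primes) : (globalLevels S).NormalCofinal :=
  globalLevels_normal_cofinal724 S

lemma globalLevels_finiteIndex (S : Finset Nat.Primes) : (globalLevels S).FiniteIndex :=
  Fermat.Agent.S55.PT.H424.globalFiniteIndex S

lemma localLevels_normalCofinal (q : Nat.Primes) : (localLevels q).NormalCofinal :=
  pullbackLevels_normal_cofinal724 (rl q)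

lemma localLevels_finiteIndex (q : Nat.Primes) : (localLevels q).FiniteIndex :=
  Fermat.Agent.S55.PT.H424.pullbackLevels_finiteIndex (rl q)

/-- The normal levels of `G_ℚ` (for `S`). -/
def gN (S : Finset Nat.Primes) : NLevels _root_.Fermat.Agent.S55.PT.GQ :=
  nLevels (globalLevels S) (globalLevels_normalCofinal S) (globalLevels_finiteIndex S)

/-- The normal levels of the local group at `q`. -/
def lN (q : Nat.Primes) : NLevels (Gl q) :=
  nLevels (localLevels q) (localLevels_normalCofinal q) (localLevels_finiteIndex q)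

variable (p : ℕ) [Fact p.Prime] (S : Finset Nat.Primes)

/-- **GO1 in finite-level form.** -/
theorem h2DivE_iff :
    K.H2DivESpec p S ↔
      (p ≠ 2 → ExtCitation.pPrime p ∈ S → ∀ V ∈ (globalLevels S).levels,
        EffDiv ((gN S).restrict V) (Rep.res V.subtype (K.sUnits S)) p 2) := by
  constructor
  · intro H hp hpS V hV
    obtain ⟨V₀, hV₀, hV₀V, hV₀n⟩ := globalLevels_normalCofinal S V hV
    exact (h2Divisible_indG_iff (globalLevels_normalCofinal S) (globalLevels_finiteIndex S)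
      (K.sUnits S) V hV₀ hV₀n hV₀V p).1 (H hp hpS V hV)
  · intro H hp hpS V hV
    obtain ⟨V₀, hV₀, hV₀V, hV₀n⟩ := globalLevels_normalCofinal S V hV
    exact (h2Divisible_indG_iff (globalLevels_normalCofinal S) (globalLevels_finiteIndex S)
      (K.sUnits S) V hV₀ hV₀n hV₀V p).2 (H hp hpS V hV)

/-- **GO2 in finite-level form.** -/
theorem h3TorsE_iff :
    K.H3TorsESpec p S ↔
      (p ≠ 2 → ExtCitation.pPrime p ∈ S → ∀ V ∈ (globalLevels S).levels,
        EffTors ((gN S).restrict V) (Rep.res V.subtype (K.sUnits S)) p 3) := by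
  constructor
  · intro H hp hpS V hV
    obtain ⟨V₀, hV₀, hV₀V, hV₀n⟩ := globalLevels_normalCofinal S V hV
    exact (h3TorsVanish_indG_iff (globalLevels_normalCofinal S) (globalLevels_finiteIndex S)
      (K.sUnits S) V hV₀ hV₀n hV₀V p).1 (H hp hpS V hV)
  · intro H hp hpS V hV
    obtain ⟨V₀, hV₀, hV₀V, hV₀n⟩ := globalLevels_normalCofinal S V hV
    exact (h3TorsVanish_indG_iff (globalLevels_normalCofinal S) (globalLevels_finiteIndex S)
      (K.sUnits S) V hV₀ hV₀n hV₀V p).2 (H hp hpS V hV)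

/-- **`H³_S(Ind_V μ_p) = 0` in finite-level form.** -/
theorem h3IndMu_iff :
    K.H3IndMuSpec p S ↔
      (p ≠ 2 → ExtCitation.pPrime p ∈ S → ∀ V ∈ (globalLevels S).levels,
        EffAll ((gN S).restrict V) (Rep.res V.subtype (muP p)) 3) := by
  constructor
  · intro H hp hpS V hV
    obtain ⟨V₀, hV₀, hV₀V, hV₀n⟩ := globalLevels_normalCofinal S V hV
    exact (h3Vanish_indG_iff (globalLevels_normalCofinal S) (globalLevels_finiteIndex S)
      (muP p) V hV₀ hV₀n hV₀V).1 (H hp hpS V hV)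
  · intro H hp hpS V hV
    obtain ⟨V₀, hV₀, hV₀V, hV₀n⟩ := globalLevels_normalCofinal S V hV
    exact (h3Vanish_indG_iff (globalLevels_normalCofinal S) (globalLevels_finiteIndex S)
      (muP p) V hV₀ hV₀n hV₀V).2 (H hp hpS V hV)

/-- **`H³_S(R) = 0` for finite `R` in finite-level form** (`cd_p(G_S) ≤ 2`). -/
theorem h3Fin_iff :
    K.H3FinSpec p S ↔
      (p ≠ 2 → ExtCitation.pPrime p ∈ S → ∀ R : Rep.{0, 0, 0} (ZMod p) _root_.Fermat.Agent.S55.PT.GQ,
        FiniteDimensional (ZMod p) R → (globalLevels S).IsUSmooth R → EffAll (gN S) R 3) := by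
  constructor
  · intro H hp hpS R hR hs
    exact (h3Vanish_iff (globalLevels_normalCofinal S) (globalLevels_finiteIndex S) R).1
      (H hp hpS R hR hs)
  · intro H hp hpS R hR hs
    exact (h3Vanish_iff (globalLevels_normalCofinal S) (globalLevels_finiteIndex S) R).2
      (H hp hpS R hR hs)

end Fermat.Agent.S55.ColH543

end

end
-- ===== PACK-END S55/ColH543/GlobalK.lean

-- ===== PACK-BEGIN S56/H614/LinFunPi.lean
section


/-!
# S56 / W-BASE / EUL-RED, part 3 (helper614): finite powers `X^J` and the operators `M ⊗ T`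

* `piRep J X`: the representation on `J → X` (pointwise action);
* `matOp_equivariant`: `M ⊗ T` is equivariant on `X^J` if `T` is on `X`;
* `LinFun.piEquiv : F (X^J) ≃ (F X)^J`, `LinFun.piEquiv_matOp`;
* `LinFun.finrank_kerRep_matOp`:
  `dim F (ker (M ⊗ T - 1)) = dim ker (M ⊗ F T - 1)` if `M ^ n = 1`, `T ^ n = 1`, `n ≠ 0` in `k`.
-/

set_option autoImplicit false
set_option linter.unusedSectionVars false

noncomputable section

namespace Fermat.Agent.S56.H614

open Fermat.Agent.S55.PT groupCohomology Module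

variable {k : Type} [Field k] {G : Type} [Group G]

/-! ### conjugation invariance of `dim ker (S - 1)` -/

theorem finrank_ker_sub_one_conj {V W : Type} [AddCommGroup V] [Module k V] [AddCommGroup W]
    [Module k W] (e : V ≃ₗ[k] W) (S : V →ₗ[k] V) (S' : W →ₗ[k] W)
    (h : ∀ x, e (S x) = S' (e x)) :
    finrank k ↥(LinearMap.ker (S - 1)) = finrank k ↥(LinearMap.ker (S' - 1)) := by
  have hmap : (LinearMap.ker (S - 1)).map (e : V →ₗ[k] W) = LinearMap.ker (S' - 1) := by
    ext w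
    constructor
    · rintro ⟨x, hx, rfl⟩
      rw [SetLike.mem_coe, LinearMap.mem_ker, LinearMap.sub_apply, Module.End.one_apply,
        sub_eq_zero] at hx
      rw [LinearMap.mem_ker, LinearMap.sub_apply, Module.End.one_apply, sub_eq_zero]
      show S' (e x) = e x
      rw [← h, hx]
    · intro hw
      rw [LinearMap.mem_ker, LinearMap.sub_apply, Module.End.one_apply, sub_eq_zero] at hw
      refine ⟨e.symm w, ?_, e.apply_symm_apply w⟩
      rw [SetLike.mem_coe, LinearMap.mem_ker, LinearMap.sub_apply, Module.End.one_apply,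
        sub_eq_zero]
      apply e.injective
      rw [h, e.apply_symm_apply, hw]
  rw [← hmap]
  exact (LinearEquiv.finrank_eq (e.submoduleMap (LinearMap.ker (S - 1))))

/-! ### the representation on `J → X` -/

section Pi

variable (J : Type) (X : Rep.{0, 0, 0} k G)

/-- pointwise action on `J → X` -/
def piRho : Representation k G (J → X) where
  toFun g := (X.ρ g).compLeft J
  map_one' := by
    apply LinearMap.ext
    intro z
    funext j
    simp
  map_mul' g h := by
    apply LinearMap.ext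
    intro z
    funext j
    simp

/-- `X^J` -/
abbrev piRep : Rep.{0, 0, 0} k G := Rep.of (piRho J X)

lemma piRep_ρ_apply (g : G) (z : J → X) (j : J) :
    ((piRep J X).ρ g z : J → X) j = X.ρ g (z j) := rfl

lemma proj_equivariant (j : J) :
    IsEquivariant (A := piRep J X) (B := X) (LinearMap.proj j : (J → X) →ₗ[k] X) :=
  fun _ _ => rfl

variable [DecidableEq J]

lemma single_equivariant (j : J) :
    IsEquivariant (A := X) (B := piRep J X) (LinearMap.single k (fun _ : J => (X : Type)) j) := by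
  intro g x
  funext i
  show (Pi.single j (X.ρ g x) : J → X) i = X.ρ g ((Pi.single j x : J → X) i)
  by_cases hij : i = j
  · subst hij
    simp
  · simp [Pi.single_eq_of_ne hij]

variable [Fintype J]

variable {X} in
lemma matOp_equivariant (M : Matrix J J k) {T : X →ₗ[k] X} (hT : IsEquivariant T) :
    IsEquivariant (A := piRep J X) (B := piRep J X) (matOp M T) := by
  intro g z
  have hT' : ∀ (g : G) (a : X), T (X.ρ g a) = X.ρ g (T a) := hT
  funext i
  rw [matOp_apply]
  show _ = X.ρ g (matOp M T z i)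
  rw [matOp_apply, map_sum]
  refine Finset.sum_congr rfl fun j _ => ?_
  rw [map_smul, ← hT']
  rfl

end Pi

namespace LinFun

variable (F : LinFun k G) (J : Type) [Fintype J] [DecidableEq J] (X : Rep.{0, 0, 0} k G)

/-- `F (X^J) → (F X)^J` -/
def piTo : F.obj (piRep J X) →ₗ[k] (J → F.obj X) :=
  LinearMap.pi fun j => F.map (A := piRep J X) (B := X) (LinearMap.proj j) (proj_equivariant J X j)

/-- `(F X)^J → F (X^J)` -/
def piFrom : (J → F.obj X) →ₗ[k] F.obj (piRep J X) :=
  ∑ j, (F.map (A := X) (B := piRep J X) (LinearMap.single k (fun _ : J => (X : Type)) j)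
    (single_equivariant J X j)) ∘ₗ (LinearMap.proj j)

lemma piTo_apply (z : F.obj (piRep J X)) (j : J) :
    F.piTo J X z j =
      F.map (A := piRep J X) (B := X) (LinearMap.proj j) (proj_equivariant J X j) z := rfl

lemma piFrom_apply (h : J → F.obj X) :
    F.piFrom J X h = ∑ j, F.map (A := X) (B := piRep J X)
      (LinearMap.single k (fun _ : J => (X : Type)) j) (single_equivariant J X j) (h j) := by
  simp [piFrom, LinearMap.sum_apply]

lemma proj_comp_single (i j : J) :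
    (LinearMap.proj i : (J → X) →ₗ[k] X) ∘ₗ (LinearMap.single k (fun _ : J => (X : Type)) j) =
      if i = j then LinearMap.id else 0 := by
  apply LinearMap.ext
  intro x
  by_cases hij : i = j
  · subst hij
    simp
  · rw [if_neg hij]
    simp [Pi.single_eq_of_ne hij]

lemma sum_single_comp_proj :
    ∑ j, (LinearMap.single k (fun _ : J => (X : Type)) j) ∘ₗ
      (LinearMap.proj j : (J → X) →ₗ[k] X) = LinearMap.id := by
  apply LinearMap.ext
  intro z
  funext i
  simp only [LinearMap.sum_apply, LinearMap.comp_apply, LinearMap.proj_apply,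
    LinearMap.single_apply, LinearMap.id_apply, Finset.sum_apply]
  rw [Finset.sum_eq_single i]
  · simp
  · intro j _ hji
    exact Pi.single_eq_of_ne (Ne.symm hji) _
  · intro h
    exact absurd (Finset.mem_univ i) h

lemma piTo_piFrom (h : J → F.obj X) : F.piTo J X (F.piFrom J X h) = h := by
  funext i
  rw [piTo_apply, piFrom_apply, _root_.map_sum]
  rw [Finset.sum_eq_single i]
  · rw [← LinearMap.comp_apply, ← F.map_comp (A := X) (B := piRep J X) (C := X) _ _ _ _
      (isEquivariant_comp (A := X) (B := piRep J X) (C := X) (single_equivariant J X i)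
        (proj_equivariant J X i))]
    have : (LinearMap.proj i : (J → X) →ₗ[k] X) ∘ₗ
        (LinearMap.single k (fun _ : J => (X : Type)) i) = LinearMap.id := by
      rw [proj_comp_single, if_pos rfl]
    rw [F.map_congr (A := X) (B := X) this _ (isEquivariant_id X), F.map_id]
    rfl
  · intro j _ hji
    rw [← LinearMap.comp_apply, ← F.map_comp (A := X) (B := piRep J X) (C := X) _ _ _ _
      (isEquivariant_comp (A := X) (B := piRep J X) (C := X) (single_equivariant J X j)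
        (proj_equivariant J X i))]
    have : (LinearMap.proj i : (J → X) →ₗ[k] X) ∘ₗ
        (LinearMap.single k (fun _ : J => (X : Type)) j) = 0 := by
      rw [proj_comp_single, if_neg (Ne.symm hji)]
    rw [F.map_congr (A := X) (B := X) this _ isEquivariant_zero, F.map_zero]
    rfl
  · intro h
    exact absurd (Finset.mem_univ i) h

lemma piFrom_piTo (z : F.obj (piRep J X)) : F.piFrom J X (F.piTo J X z) = z := by
  rw [piFrom_apply]
  have h1 : ∀ j : J, F.map (A := X) (B := piRep J X)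
      (LinearMap.single k (fun _ : J => (X : Type)) j) (single_equivariant J X j)
        (F.piTo J X z j) =
      F.map (A := piRep J X) (B := piRep J X)
        ((LinearMap.single k (fun _ : J => (X : Type)) j) ∘ₗ
          (LinearMap.proj j : (J → X) →ₗ[k] X))
        (isEquivariant_comp (A := piRep J X) (B := X) (C := piRep J X) (proj_equivariant J X j)
          (single_equivariant J X j)) z := by
    intro j
    rw [F.map_comp (A := piRep J X) (B := X) (C := piRep J X) _ _ (proj_equivariant J X j)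
      (single_equivariant J X j)]
    rfl
  rw [Finset.sum_congr rfl fun j _ => h1 j, ← LinearMap.sum_apply,
    ← F.map_sum (A := piRep J X) (B := piRep J X) Finset.univ
      (fun j => (LinearMap.single k (fun _ : J => (X : Type)) j) ∘ₗ
          (LinearMap.proj j : (J → X) →ₗ[k] X))
      (fun j => isEquivariant_comp (A := piRep J X) (B := X) (C := piRep J X)
        (proj_equivariant J X j) (single_equivariant J X j))
      (isEquivariant_sum (A := piRep J X) (B := piRep J X) _ _ fun j =>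
        isEquivariant_comp (A := piRep J X) (B := X) (C := piRep J X)
          (proj_equivariant J X j) (single_equivariant J X j))]
  rw [F.map_congr (A := piRep J X) (B := piRep J X) (sum_single_comp_proj J X) _
    (isEquivariant_id _), F.map_id]
  rfl

/-- `F (X^J) ≃ (F X)^J` -/
def piEquiv : F.obj (piRep J X) ≃ₗ[k] (J → F.obj X) :=
  { F.piTo J X with
    invFun := F.piFrom J X
    left_inv := F.piFrom_piTo J X
    right_inv := F.piTo_piFrom J X }

lemma piEquiv_apply (z : F.obj (piRep J X)) (j : J) :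
    F.piEquiv J X z j =
      F.map (A := piRep J X) (B := X) (LinearMap.proj j) (proj_equivariant J X j) z := rfl

variable {X}

lemma proj_comp_matOp (M : Matrix J J k) (T : X →ₗ[k] X) (i : J) :
    (LinearMap.proj i : (J → X) →ₗ[k] X) ∘ₗ matOp M T =
      ∑ j, (M i j) • (T ∘ₗ (LinearMap.proj j : (J → X) →ₗ[k] X)) := by
  apply LinearMap.ext
  intro z
  simp [matOp_apply, LinearMap.sum_apply]

/-- `F (M ⊗ T)` corresponds to `M ⊗ F T`. -/
lemma piEquiv_matOp (M : Matrix J J k) (T : X →ₗ[k] X) (hT : IsEquivariant T)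
    (z : F.obj (piRep J X)) :
    F.piEquiv J X (F.map (A := piRep J X) (B := piRep J X) (matOp M T)
      (matOp_equivariant J M hT) z) = matOp M (F.map T hT) (F.piEquiv J X z) := by
  funext i
  rw [piEquiv_apply, matOp_apply, ← LinearMap.comp_apply,
    ← F.map_comp (A := piRep J X) (B := piRep J X) (C := X) _ _ _ _
      (isEquivariant_comp (A := piRep J X) (B := piRep J X) (C := X)
        (matOp_equivariant J M hT) (proj_equivariant J X i))]
  have hj : ∀ j : J, IsEquivariant (A := piRep J X) (B := X)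
      ((M i j) • (T ∘ₗ (LinearMap.proj j : (J → X) →ₗ[k] X))) := fun j =>
    isEquivariant_smul _ (isEquivariant_comp (A := piRep J X) (B := X) (C := X)
      (proj_equivariant J X j) hT)
  rw [F.map_congr (A := piRep J X) (B := X) (proj_comp_matOp J M T i) _
    (isEquivariant_sum (A := piRep J X) (B := X) _ _ hj),
    F.map_sum (A := piRep J X) (B := X) _ _ hj, LinearMap.sum_apply]
  refine Finset.sum_congr rfl fun j _ => ?_
  rw [F.map_smul (A := piRep J X) (B := X) _ _
    (isEquivariant_comp (A := piRep J X) (B := X) (C := X) (proj_equivariant J X j) hT),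
    F.map_comp (A := piRep J X) (B := X) (C := X) _ _ (proj_equivariant J X j) hT]
  rfl

/-- **EQUIV for `M ⊗ T`.** -/
theorem finrank_kerRep_matOp (M : Matrix J J k) (T : X →ₗ[k] X) (hT : IsEquivariant T)
    (n : ℕ) (hn : (n : k) ≠ 0) (hM : M ^ n = 1) (hTn : T ^ n = 1) :
    finrank k (F.obj (kerRep (A := piRep J X) (B := piRep J X) (matOp M T - 1)
      (isEquivariant_sub (matOp_equivariant J M hT) (isEquivariant_one _)))) =
      finrank k ↥(LinearMap.ker (matOp M (F.map T hT) - 1)) := by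
  have h1 := (F.kerEquiv (Z := piRep J X) (matOp M T) (matOp_equivariant J M hT) n hn
    (matOp_pow_eq_one M T n hM hTn)).finrank_eq
  rw [h1]
  exact finrank_ker_sub_one_conj (F.piEquiv J X) _ _ (F.piEquiv_matOp J M T hT)

end LinFun

end Fermat.Agent.S56.H614

end

end
-- ===== PACK-END S56/H614/LinFunPi.lean

-- ===== PACK-BEGIN S55/PT/T2aH299/Base.lean
section


/-!
# S55 / layer D, leaf D-T2a: the base case `Q = Ind_W (twTriv χ N₀)`

If `inv ∘ aug_* : H²(Ind_W μ) → k` is bijective (`μ = ofChar χ`), then the top pairing of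
`Ind_W (twTriv χ N₀)` is bijective for every finite-dimensional vector space `N₀`
(coordinates with respect to a basis of `N₀`).
-/

set_option autoImplicit false
set_option linter.unusedSectionVars false
set_option linter.unusedSimpArgs false

noncomputable section

namespace Fermat.Agent.S55.PT.H299

open Fermat.Agent.S55.PT groupCohomology

variable {k : Type} [Field k] {G : Type} [Group G]

section Coord

variable (χ : G →* kˣ) (W : Subgroup G)

/-- every linear map is equivariant between twisted trivial modules -/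
lemma twTriv_equivariant {N₀ N₁ : Type} [AddCommGroup N₀] [Module k N₀] [AddCommGroup N₁]
    [Module k N₁] (φ : N₀ →ₗ[k] N₁) :
    IsEquivariant (A := twTriv χ N₀) (B := twTriv χ N₁) φ := by
  intro g a
  rw [twTriv_ρ_apply, twTriv_ρ_apply, map_smul]

/-- `Ind_W` of a linear map between twisted trivial modules -/
def indTw {N₀ N₁ : Type} [AddCommGroup N₀] [Module k N₀] [AddCommGroup N₁] [Module k N₁]
    (φ : N₀ →ₗ[k] N₁) : ((G ⧸ W) →₀ N₀) →ₗ[k] ((G ⧸ W) →₀ N₁) :=
  indMap W (M := twTriv χ N₀) (N := twTriv χ N₁) φ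

lemma indTw_single {N₀ N₁ : Type} [AddCommGroup N₀] [Module k N₀] [AddCommGroup N₁]
    [Module k N₁] (φ : N₀ →ₗ[k] N₁) (x : G ⧸ W) (n : N₀) :
    indTw χ W φ (Finsupp.single x n) = Finsupp.single x (φ n) :=
  indMap_single W (M := twTriv χ N₀) (N := twTriv χ N₁) φ x n

lemma indTw_equivariant {N₀ N₁ : Type} [AddCommGroup N₀] [Module k N₀] [AddCommGroup N₁]
    [Module k N₁] (φ : N₀ →ₗ[k] N₁) :
    IsEquivariant (A := indRep W (twTriv χ N₀)) (B := indRep W (twTriv χ N₁)) (indTw χ W φ) :=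
  indMap_equivariant W (M := twTriv χ N₀) (N := twTriv χ N₁) φ (twTriv_equivariant χ φ)

end Coord

section Basis

variable (χ : G →* kˣ) (W : Subgroup G) {N₀ : Type} [AddCommGroup N₀] [Module k N₀]
  {ι : Type} [Fintype ι] [DecidableEq ι] (b : Module.Basis ι k N₀)

/-- the `i`-th coordinate `Ind_W (twTriv χ N₀) → Ind_W μ` -/
def coordP (i : ι) : ((G ⧸ W) →₀ N₀) →ₗ[k] ((G ⧸ W) →₀ k) :=
  indTw χ W (b.coord i)

/-- the `i`-th inclusion `Ind_W μ → Ind_W (twTriv χ N₀)` -/
def coordQ (i : ι) : ((G ⧸ W) →₀ k) →ₗ[k] ((G ⧸ W) →₀ N₀) :=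
  indTw χ W (LinearMap.toSpanSingleton k N₀ (b i))

lemma coordP_equivariant (i : ι) :
    IsEquivariant (A := indRep W (twTriv χ N₀)) (B := indRep W (ofChar χ)) (coordP χ W b i) :=
  indTw_equivariant χ W (b.coord i)

lemma coordQ_equivariant (i : ι) :
    IsEquivariant (A := indRep W (ofChar χ)) (B := indRep W (twTriv χ N₀)) (coordQ χ W b i) :=
  indTw_equivariant χ W (LinearMap.toSpanSingleton k N₀ (b i))

lemma sum_coordQ_coordP :
    ∑ i : ι, (coordQ χ W b i) ∘ₗ (coordP χ W b i) = LinearMap.id := by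
  apply Finsupp.lhom_ext
  intro x n
  rw [LinearMap.sum_apply]
  simp only [LinearMap.comp_apply, coordP, coordQ, indTw_single, LinearMap.id_apply,
    LinearMap.toSpanSingleton_apply, Module.Basis.coord_apply]
  rw [← Finsupp.single_finsetSum, b.sum_repr]

lemma coordP_coordQ (i j : ι) :
    (coordP χ W b j) ∘ₗ (coordQ χ W b i) = if i = j then LinearMap.id else 0 := by
  apply Finsupp.lhom_ext
  intro x c
  simp only [LinearMap.comp_apply, coordP, coordQ, indTw_single,
    LinearMap.toSpanSingleton_apply, Module.Basis.coord_apply, map_smul, Module.Basis.repr_self,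
    Finsupp.smul_apply, Finsupp.single_apply, smul_eq_mul]
  by_cases h : i = j
  · simp [h]
  · simp [h]

/-- `charHom χ (Ind_W μ)` is spanned by the augmentation -/
lemma charHom_ind_eq (h : ↥(charHom χ (indRep W (ofChar χ)))) (m : (G ⧸ W) →₀ k) :
    (h : Module.Dual k ((G ⧸ W) →₀ k)) m =
      (h : Module.Dual k ((G ⧸ W) →₀ k)) (Finsupp.single ((1 : G) : G ⧸ W) (1 : k)) *
        indAug W (ofChar χ) m := by
  have key : (h : Module.Dual k ((G ⧸ W) →₀ k)) =
      ((h : Module.Dual k ((G ⧸ W) →₀ k)) (Finsupp.single ((1 : G) : G ⧸ W) (1 : k))) •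
        (indAug W (ofChar χ) : ((G ⧸ W) →₀ k) →ₗ[k] k) := by
    apply Finsupp.lhom_ext
    intro x c
    induction x using QuotientGroup.induction_on with
    | H g =>
      have h1 := h.2 g (Finsupp.single ((1 : G) : G ⧸ W) (((χ g)⁻¹ : kˣ) : k))
      have h2 : (indRep W (ofChar χ)).ρ g
          (Finsupp.single ((1 : G) : G ⧸ W) (((χ g)⁻¹ : kˣ) : k) : (G ⧸ W) →₀ k) =
          (Finsupp.single ((g : G) : G ⧸ W) (1 : k) : (G ⧸ W) →₀ k) := by
        rw [indRep_ρ_single, ofChar_ρ_apply]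
        congr 1
        · show ((g * 1 : G) : G ⧸ W) = _
          rw [mul_one]
        · rw [← Units.val_mul, mul_inv_cancel, Units.val_one]
      rw [h2] at h1
      have e1 : (Finsupp.single ((g : G) : G ⧸ W) c : (G ⧸ W) →₀ k) =
          c • (Finsupp.single ((g : G) : G ⧸ W) (1 : k) : (G ⧸ W) →₀ k) := by
        rw [Finsupp.smul_single, smul_eq_mul, mul_one]
      have e2 : (Finsupp.single ((1 : G) : G ⧸ W) (((χ g)⁻¹ : kˣ) : k) : (G ⧸ W) →₀ k) =
          (((χ g)⁻¹ : kˣ) : k) • (Finsupp.single ((1 : G) : G ⧸ W) (1 : k) : (G ⧸ W) →₀ k) := by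
        rw [Finsupp.smul_single, smul_eq_mul, mul_one]
      rw [e2, map_smul, smul_eq_mul, ← mul_assoc, ← Units.val_mul, mul_inv_cancel,
        Units.val_one, one_mul] at h1
      rw [LinearMap.smul_apply, indAug_single, e1, map_smul, h1, smul_eq_mul, smul_eq_mul,
        mul_comm]
  conv_lhs => rw [key]
  rw [LinearMap.smul_apply, smul_eq_mul]

/-- the functional `aug ∘ coordP j ∈ charHom χ (Ind_W (twTriv χ N₀))` -/
def coordF (j : ι) : ↥(charHom χ (indRep W (twTriv χ N₀))) :=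
  ⟨(indAug W (ofChar χ)) ∘ₗ (coordP χ W b j), fun g q => by
    have h1 : coordP χ W b j ((indRep W (twTriv χ N₀)).ρ g q) =
        (indRep W (ofChar χ)).ρ g (coordP χ W b j q) := coordP_equivariant χ W b j g q
    have h2 : indAug W (ofChar χ) ((indRep W (ofChar χ)).ρ g (coordP χ W b j q)) =
        (ofChar χ).ρ g (indAug W (ofChar χ) (coordP χ W b j q)) :=
      indAug_equivariant W (ofChar χ) g (coordP χ W b j q)
    rw [LinearMap.comp_apply, h1, h2, ofChar_ρ_apply]
    rfl⟩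

lemma coe_coordF (j : ι) :
    ((coordF χ W b j : ↥(charHom χ (indRep W (twTriv χ N₀)))) :
      Module.Dual k ((G ⧸ W) →₀ N₀)) = (indAug W (ofChar χ)) ∘ₗ (coordP χ W b j) := rfl

/-- every `f ∈ charHom χ (Ind_W (twTriv χ N₀))` is a combination of the `coordF j` -/
lemma charHom_eq_sum_coordF (f : ↥(charHom χ (indRep W (twTriv χ N₀)))) :
    f = ∑ j : ι, ((f : Module.Dual k ((G ⧸ W) →₀ N₀))
      (coordQ χ W b j (Finsupp.single ((1 : G) : G ⧸ W) (1 : k)))) • coordF χ W b j := by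
  apply Subtype.ext
  apply LinearMap.ext
  intro q
  rw [Submodule.coe_sum, LinearMap.sum_apply]
  have h1 : q = ∑ j : ι, coordQ χ W b j (coordP χ W b j q) := by
    have := LinearMap.congr_fun (sum_coordQ_coordP χ W b) q
    rw [LinearMap.sum_apply] at this
    simpa using this.symm
  conv_lhs => rw [h1]
  rw [map_sum]
  refine Finset.sum_congr rfl fun j _ => ?_
  have h2 := charHom_ind_eq χ W
    (charPre χ (coordQ χ W b j) (coordQ_equivariant χ W b j) f) (coordP χ W b j q)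
  rw [Submodule.coe_smul, LinearMap.smul_apply, coe_coordF, LinearMap.comp_apply, smul_eq_mul]
  exact h2

end Basis

section BaseCase

variable (L : LevelSys G) (χ : G →* kˣ) (inv : L.H2 (ofChar χ) →ₗ[k] k) (W : Subgroup G)
  {N₀ : Type} [AddCommGroup N₀] [Module k N₀]
  {ι : Type} [Fintype ι] [DecidableEq ι] (b : Module.Basis ι k N₀)

/-- `(coordP j)_*` -/
def pushP (j : ι) : L.H2 (indRep W (twTriv χ N₀)) →ₗ[k] L.H2 (indRep W (ofChar χ)) :=
  pushH2 (A := indRep W (twTriv χ N₀)) (B := indRep W (ofChar χ)) (coordP χ W b j)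
    (coordP_equivariant χ W b j) L

/-- `(coordQ i)_*` -/
def pushQ (i : ι) : L.H2 (indRep W (ofChar χ)) →ₗ[k] L.H2 (indRep W (twTriv χ N₀)) :=
  pushH2 (A := indRep W (ofChar χ)) (B := indRep W (twTriv χ N₀)) (coordQ χ W b i)
    (coordQ_equivariant χ W b i) L

/-- `aug_*` -/
def pushAug : L.H2 (indRep W (ofChar χ)) →ₗ[k] L.H2 (ofChar χ) :=
  pushH2 (A := indRep W (ofChar χ)) (B := ofChar χ) (indAug W (ofChar χ))
    (indAug_equivariant W (ofChar χ)) L

lemma pushChar_coordF (j : ι) (x : L.H2 (indRep W (twTriv χ N₀))) :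
    pushChar L χ (indRep W (twTriv χ N₀)) (coordF χ W b j) x =
      pushAug L χ W (pushP L χ W b j x) :=
  pushH2_comp (A := indRep W (twTriv χ N₀)) (B := indRep W (ofChar χ)) (C := ofChar χ) L
    (coordP_equivariant χ W b j) (indAug_equivariant W (ofChar χ))
    (charHom_equivariant χ (indRep W (twTriv χ N₀)) (coordF χ W b j).2) x

lemma eq_sum_coord (x : L.H2 (indRep W (twTriv χ N₀))) :
    x = ∑ i : ι, pushQ L χ W b i (pushP L χ W b i x) := by
  have hid : IsEquivariant (A := indRep W (twTriv χ N₀)) (B := indRep W (twTriv χ N₀))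
      (LinearMap.id : ((G ⧸ W) →₀ N₀) →ₗ[k] ((G ⧸ W) →₀ N₀)) := fun _ _ => rfl
  have hsum : IsEquivariant (A := indRep W (twTriv χ N₀)) (B := indRep W (twTriv χ N₀))
      (∑ i : ι, (coordQ χ W b i) ∘ₗ (coordP χ W b i)) := by
    rw [sum_coordQ_coordP]
    exact hid
  have h1 : pushH2 (A := indRep W (twTriv χ N₀)) (B := indRep W (twTriv χ N₀))
      (∑ i : ι, (coordQ χ W b i) ∘ₗ (coordP χ W b i)) hsum L x = x := by
    rw [pushH2_congr (A := indRep W (twTriv χ N₀)) (B := indRep W (twTriv χ N₀)) L hsum hid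
      (sum_coordQ_coordP χ W b) x]
    exact pushH2_id L hid x
  conv_lhs => rw [← h1]
  rw [pushH2_sum (A := indRep W (twTriv χ N₀)) (B := indRep W (twTriv χ N₀)) L Finset.univ
    (fun i => (coordQ χ W b i) ∘ₗ (coordP χ W b i))
    (fun i => isEquivariant_comp (A := indRep W (twTriv χ N₀)) (B := indRep W (ofChar χ))
      (C := indRep W (twTriv χ N₀)) (coordP_equivariant χ W b i) (coordQ_equivariant χ W b i))]
  refine Finset.sum_congr rfl fun i _ => ?_
  exact pushH2_comp (A := indRep W (twTriv χ N₀)) (B := indRep W (ofChar χ))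
    (C := indRep W (twTriv χ N₀)) L (coordP_equivariant χ W b i) (coordQ_equivariant χ W b i) _ x

lemma pushP_pushQ (i j : ι) (y : L.H2 (indRep W (ofChar χ))) :
    pushP L χ W b j (pushQ L χ W b i y) = if i = j then y else 0 := by
  have hcomp := isEquivariant_comp (A := indRep W (ofChar χ)) (B := indRep W (twTriv χ N₀))
    (C := indRep W (ofChar χ)) (coordQ_equivariant χ W b i) (coordP_equivariant χ W b j)
  have h0 : pushP L χ W b j (pushQ L χ W b i y) =
      pushH2 (A := indRep W (ofChar χ)) (B := indRep W (ofChar χ))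
        ((coordP χ W b j) ∘ₗ (coordQ χ W b i)) hcomp L y :=
    (pushH2_comp (A := indRep W (ofChar χ)) (B := indRep W (twTriv χ N₀))
      (C := indRep W (ofChar χ)) L (coordQ_equivariant χ W b i) (coordP_equivariant χ W b j)
      hcomp y).symm
  rw [h0]
  by_cases h : i = j
  · have hid : IsEquivariant (A := indRep W (ofChar χ)) (B := indRep W (ofChar χ))
        (LinearMap.id : ((G ⧸ W) →₀ k) →ₗ[k] ((G ⧸ W) →₀ k)) := fun _ _ => rfl
    have e : (coordP χ W b j) ∘ₗ (coordQ χ W b i) = LinearMap.id := by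
      rw [coordP_coordQ, if_pos h]
    rw [if_pos h, pushH2_congr (A := indRep W (ofChar χ)) (B := indRep W (ofChar χ)) L hcomp hid
      e y]
    exact pushH2_id L hid y
  · have e : (coordP χ W b j) ∘ₗ (coordQ χ W b i) = 0 := by
      rw [coordP_coordQ, if_neg h]
    rw [if_neg h, pushH2_congr (A := indRep W (ofChar χ)) (B := indRep W (ofChar χ)) L hcomp
      isEquivariant_zero e y]
    obtain ⟨c, rfl⟩ := L.H2π_surjective _ y
    rw [pushH2_mk]
    have : pushZ2 (A := indRep W (ofChar χ)) (B := indRep W (ofChar χ))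
        (0 : ((G ⧸ W) →₀ k) →ₗ[k] ((G ⧸ W) →₀ k)) isEquivariant_zero L c = 0 := by
      apply Subtype.ext
      funext x
      rfl
    rw [this, map_zero]

variable (hA6 : Function.Bijective (inv ∘ₗ pushAug L χ W))

include hA6 b in
/-- base case, injectivity (with a chosen basis) -/
theorem topPair_ind_injective_aux :
    Function.Injective (topPair L χ inv (indRep W (twTriv χ N₀))) := by
  rw [injective_iff_map_eq_zero]
  intro x hx
  have hz : ∀ j : ι, pushP L χ W b j x = 0 := by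
    intro j
    apply hA6.1
    rw [map_zero, LinearMap.comp_apply, ← pushChar_coordF, ← topPair_apply, hx]
    rfl
  rw [eq_sum_coord L χ W b x]
  refine Finset.sum_eq_zero fun i _ => ?_
  rw [hz i, map_zero]

include hA6 b in
/-- base case, surjectivity (with a chosen basis) -/
theorem topPair_ind_surjective_aux :
    Function.Surjective (topPair L χ inv (indRep W (twTriv χ N₀))) := by
  intro ψ
  choose y hy using fun j : ι => hA6.2 (ψ (coordF χ W b j))
  refine ⟨∑ i : ι, pushQ L χ W b i (y i), ?_⟩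
  have hj : ∀ j : ι, topPair L χ inv (indRep W (twTriv χ N₀))
      (∑ i : ι, pushQ L χ W b i (y i)) (coordF χ W b j) = ψ (coordF χ W b j) := by
    intro j
    rw [topPair_apply, pushChar_coordF, map_sum]
    simp only [pushP_pushQ]
    rw [Finset.sum_ite_eq' Finset.univ j y, if_pos (Finset.mem_univ j)]
    exact hy j
  apply LinearMap.ext
  intro f
  obtain ⟨c, hc⟩ : ∃ c : ι → k, f = ∑ j : ι, c j • coordF χ W b j :=
    ⟨_, charHom_eq_sum_coordF χ W b f⟩
  subst hc
  generalize topPair L χ inv (indRep W (twTriv χ N₀))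
    (∑ i : ι, pushQ L χ W b i (y i)) = Θ at hj ⊢
  rw [map_sum Θ, map_sum ψ]
  refine Finset.sum_congr rfl fun j _ => ?_
  rw [map_smul Θ, map_smul ψ, hj j]

omit [Fintype ι] [DecidableEq ι] in
include hA6 in
/-- **Base case.**  If `inv ∘ aug_* : H²(Ind_W μ) → k` is bijective then the top pairing of
`Ind_W (twTriv χ N₀)` is bijective for every finite-dimensional `N₀`. -/
theorem topPair_ind_bijective [FiniteDimensional k N₀] :
    Function.Bijective (topPair L χ inv (indRep W (twTriv χ N₀))) := by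
  classical
  exact ⟨topPair_ind_injective_aux L χ inv W (Module.finBasis k N₀) hA6,
    topPair_ind_surjective_aux L χ inv W (Module.finBasis k N₀) hA6⟩

end BaseCase

end Fermat.Agent.S55.PT.H299

end

end
-- ===== PACK-END S55/PT/T2aH299/Base.lean

-- ===== PACK-BEGIN S55/PT/T2aH299/Main.lean
section




/-!
# S55 / layer D, leaf D-T2a: `TopLocDevSpec`

`theorem topLocDev : TopLocDevSpec p S` — local top-degree duality for all finite-dimensional
smooth modules from A4 (right exactness of `H²`) and A6 (the induced case `Ind_W μ`).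

Abstract form (`topPair_bijective`): any level system `L` on a group `G` with normal cofinal
levels of finite index, a character `χ` trivial on some level, `inv : H²(ofChar χ) → k`.
Proof: present `N` by `Q = Ind_W (twTriv χ N) ↠ N` (twisted augmentation); `topPair Q` is
bijective by coordinates (`Base.lean`); `topPair N` is onto because `charHom N ↪ charHom Q`
(`topPair_surjective_of_surjective`); it is injective by the four lemma
(`topPair_injective_of_ses`), using A4 and the surjectivity for `ker (Q → N)`.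
(Exactness at `H²(Q)`, i.e. `LesMidSpec`, is not needed because `topPair Q` is injective.)
-/

set_option autoImplicit false
set_option linter.unusedSectionVars false
set_option linter.style.haveILetI false

noncomputable section

namespace Fermat.Agent.S55.PT.H299

open Fermat.Agent.S55.PT groupCohomology ExtCitation

section Abstract

variable {k : Type} [Field k] {G : Type} [Group G] (L : LevelSys G) (χ : G →* kˣ)

/-- a normal level acts trivially on `Ind_W (twTriv χ N₀)` if `χ` is trivial on it -/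
lemma indTw_ρ_eq_of_mem (W : Subgroup G) [W.Normal] (hχ : ∀ u ∈ W, χ u = 1)
    {N₀ : Type} [AddCommGroup N₀] [Module k N₀] (s : G) (hs : s ∈ W)
    (a : (G ⧸ W) →₀ N₀) : (indRep W (twTriv χ N₀)).ρ s a = a := by
  have key : (indRep W (twTriv χ N₀)).ρ s = LinearMap.id := by
    apply Finsupp.lhom_ext
    intro x n
    induction x using QuotientGroup.induction_on with
    | H g =>
      rw [indRep_ρ_single, twTriv_ρ_apply, hχ s hs, Units.val_one, one_smul, LinearMap.id_apply]
      congr 1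
      show ((s * g : G) : G ⧸ W) = (g : G ⧸ W)
      rw [QuotientGroup.eq]
      have h1 : g⁻¹ * s⁻¹ * g ∈ W := by
        have := (inferInstance : W.Normal).conj_mem s⁻¹ (W.inv_mem hs) g⁻¹
        simpa using this
      simpa [mul_assoc] using h1
  rw [key]
  rfl

lemma exists_good_level (hNC : L.NormalCofinal) (hχ : ∃ V ∈ L.levels, ∀ u ∈ V, χ u = 1)
    (N : Rep.{0, 0, 0} k G) (hN : L.IsUSmooth N) :
    ∃ W ∈ L.levels, W.Normal ∧ (∀ u ∈ W, χ u = 1) ∧ (∀ u ∈ W, N.ρ u = 1) := by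
  obtain ⟨V₁, hV₁, h1⟩ := hχ
  obtain ⟨V₂, hV₂, h2⟩ := hN
  obtain ⟨V₃, hV₃, hle⟩ := L.directed V₁ hV₁ V₂ hV₂
  obtain ⟨W, hW, hWle, hWn⟩ := hNC V₃ hV₃
  refine ⟨W, hW, hWn, fun u hu => h1 u (hle (hWle hu)).1, fun u hu => ?_⟩
  apply LinearMap.ext
  intro a
  exact h2 u (hle (hWle hu)).2 a

variable (inv : L.H2 (ofChar χ) →ₗ[k] k)

/-- the hypotheses A6 (induced case) in abstract form -/
def IndCase : Prop :=
  ∀ W ∈ L.levels, W.Normal → (∀ s ∈ W, χ s = 1) →
    Function.Bijective (inv ∘ₗ pushAug L χ W)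

/-- the hypothesis A4 (right exactness of `H²`) in abstract form -/
def RightExact : Prop :=
  ∀ (P N : Rep.{0, 0, 0} k G) (φ : P →ₗ[k] N) (hφ : IsEquivariant φ),
    FiniteDimensional k P → L.IsUSmooth P → L.IsUSmooth N →
    Function.Surjective φ → Function.Surjective (pushH2 φ hφ L)

variable {L χ inv}

/-- the top pairing is surjective for every finite-dimensional smooth module -/
theorem topPair_surjective (hNC : L.NormalCofinal)
    (hχ : ∃ V ∈ L.levels, ∀ u ∈ V, χ u = 1) (hA6 : IndCase L χ inv)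
    (N : Rep.{0, 0, 0} k G) [FiniteDimensional k N] (hN : L.IsUSmooth N) :
    Function.Surjective (topPair L χ inv N) := by
  obtain ⟨W, hW, hWn, hWχ, hWN⟩ := exists_good_level L χ hNC hχ N hN
  haveI := hWn
  exact topPair_surjective_of_surjective χ (Q := indRep W (twTriv χ N)) (N := N)
    (augTw χ W N) (augTw_equivariant χ W N hWχ hWN) L inv (augTw_surjective χ W N hWχ hWN)
    (topPair_ind_bijective L χ inv W (hA6 W hW hWn hWχ)).2

/-- **D-T2a, abstract form.**  The top pairing is bijective for every finite-dimensional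
smooth module. -/
theorem topPair_bijective (hNC : L.NormalCofinal) (hFI : L.FiniteIndex)
    (hχ : ∃ V ∈ L.levels, ∀ u ∈ V, χ u = 1) (hA6 : IndCase L χ inv) (hA4 : RightExact (k := k) L)
    (N : Rep.{0, 0, 0} k G) [FiniteDimensional k N] (hN : L.IsUSmooth N) :
    Function.Bijective (topPair L χ inv N) := by
  refine ⟨?_, topPair_surjective hNC hχ hA6 N hN⟩
  obtain ⟨W, hW, hWn, hWχ, hWN⟩ := exists_good_level L χ hNC hχ N hN
  haveI := hWn
  haveI : W.FiniteIndex := hFI W hW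
  haveI : Finite (G ⧸ W) := Subgroup.finite_quotient_of_finiteIndex
  have hQfd : FiniteDimensional k (indRep W (twTriv χ N)) :=
    (inferInstance : Module.Finite k ((G ⧸ W) →₀ N))
  have hQsm : L.IsUSmooth (indRep W (twTriv χ N)) :=
    ⟨W, hW, fun s hs a => indTw_ρ_eq_of_mem χ W hWχ s hs a⟩
  let E := twSES χ W N hWχ hWN
  have hRfd : FiniteDimensional k
      (kerRep (A := indRep W (twTriv χ N)) (B := N) (augTw χ W N)
        (augTw_equivariant χ W N hWχ hWN)) :=
    (inferInstance : Module.Finite k ↥(LinearMap.ker (augTw χ W N)))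
  have hRsm : L.IsUSmooth (kerRep (A := indRep W (twTriv χ N)) (B := N) (augTw χ W N)
      (augTw_equivariant χ W N hWχ hWN)) :=
    ⟨W, hW, fun s hs a => Subtype.ext (indTw_ρ_eq_of_mem χ W hWχ s hs (a : (G ⧸ W) →₀ N))⟩
  exact topPair_injective_of_ses χ E L inv
    (hA4 _ _ E.π E.hπ hQfd hQsm hN E.surj)
    (topPair_surjective hNC hχ hA6 _ hRsm)
    (topPair_ind_bijective L χ inv W (hA6 W hW hWn hWχ)).1

end Abstract

section Concrete

variable (p : ℕ) [Fact p.Prime] (S : Finset Nat.Primes)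

/-- the local cyclotomic character is trivial on a local level -/
lemma exists_level_cycloLoc (q : Nat.Primes) :
    ∃ V ∈ (localLevels q).levels, ∀ u ∈ V, cycloLoc p q u = 1 := by
  refine ⟨(Bridge.cycloLevel p).fixingSubgroup.comap (rl q),
    ⟨Bridge.cycloLevel p, Bridge.cycloLevel_finiteDimensional p, rfl⟩, fun u hu => ?_⟩
  exact Bridge.cycloChar_eq_one_of_mem_fixingSubgroup p (rl q u) hu

/-- **D-T2a.**  Local dévissage: A4 + A6 ⇒ local top duality for all finite-dimensional smooth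
modules. -/
theorem topLocDev : TopLocDevSpec p S := by
  intro _ hNC hFI inv hA6 hA4 v N hNfd hNsm
  haveI := hNfd
  refine topPair_bijective (L := localLevels v.1) (χ := cycloLoc p v.1) (inv := inv v)
    (hNC v.1) (hFI v.1) (exists_level_cycloLoc p v.1) ?_ ?_ N hNsm
  · intro W hW hWn hWχ
    refine hA6 v W hW hWn (fun s hs => ?_)
    apply LinearMap.ext
    intro c
    have h1 : (muLoc p v.1).ρ s c = ((cycloLoc p v.1 s : (ZMod p)ˣ) : ZMod p) * c :=
      ofChar_ρ_apply (cycloLoc p v.1) s c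
    rw [h1, hWχ s hs, Units.val_one, one_mul]
    rfl
  · intro P N φ hφ hP hPsm hNsm hsurj
    exact hA4 v.1 v.2 P N φ hφ hP hPsm hNsm hsurj

end Concrete

end Fermat.Agent.S55.PT.H299

end

end
-- ===== PACK-END S55/PT/T2aH299/Main.lean

-- ===== PACK-BEGIN S56/Euler/H74/Cl.lean
section





/-!
# S56 / W-BASE, leaf EUL-CL (helper74): killing `H¹_T(Ind_U 𝔼_T) = Cl_T(F)`

For every `S`-level `U = G_F` there is a finite `S' ⊇ S` such that for ALL finite `T ⊇ S'`

    `H¹_T(G_ℚ, Ind_U 𝔼_T) = 0`     (`𝔼_T = K.sUnits T`, the `T`-units of `ℚ̄`),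

in cochain form: every `T`-level-constant 1-cocycle `G_ℚ → Ind_U 𝔼_T` is a coboundary
(`cl`).  In particular `H¹_T(Ind_U 𝔼_T)[p] = 0` for every `p` (`cl_tors`).

Proof: Shapiro (`ShapiroH1`), Hilbert 90 at finite level (`G.Rec.HP.exists_hilbert90_level`),
descent of the divisor of the Hilbert-90 element to `F` (`ValDescent`: the extension is
unramified outside `T`, the class group of `F` is generated by primes above `S'`: `ClassKill`).

Nothing unproved in this file.
-/

set_option autoImplicit false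
set_option linter.style.haveILetI false
set_option linter.unusedSectionVars false

open NumberField IsDedekindDomain
open scoped Pointwise

noncomputable section

namespace Fermat.Agent.S56.Euler.H74

open groupCohomology Fermat.Agent.S55 Fermat.Agent.S55.PT Fermat.Agent.S55.Bridge

local notation "Qb" => AlgebraicClosure ℚ

attribute [local instance] isAlgebraic_Qbar isGalois_Qbar

/-! ### The unit underlying an element of `𝔼_T` -/

section unitOf

variable (T : Finset Nat.Primes)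

/-- The unit of `ℚ̄` underlying an element of `𝔼_T`. -/
def unitOf (x : K.sUnits T) : Qbˣ := Additive.toMul (K.sUnitsIncl T x)

lemma unitOf_isSUnit (x : K.sUnits T) : K.IsSUnit T (unitOf T x) := x.2

lemma unitOf_injective : Function.Injective (unitOf T) := fun _ _ h =>
  Subtype.val_injective (Additive.toMul.injective h)

lemma unitOf_ρ (g : _root_.Fermat.Agent.S55.PT.GQ) (x : K.sUnits T) : unitOf T ((K.sUnits T).ρ g x) = g • unitOf T x := rfl

lemma unitOf_add (x y : K.sUnits T) : unitOf T (x + y) = unitOf T x * unitOf T y := rfl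

lemma unitOf_sub (x y : K.sUnits T) : unitOf T (x - y) = unitOf T x / unitOf T y := rfl

/-- An element of `𝔼_T` from a `T`-unit. -/
def ofUnit (u : Qbˣ) (hu : K.IsSUnit T u) : K.sUnits T := ⟨Additive.ofMul u, hu⟩

lemma unitOf_ofUnit (u : Qbˣ) (hu : K.IsSUnit T u) : unitOf T (ofUnit T u hu) = u := rfl

end unitOf

/-- `G_F` has finite index. -/
lemma finiteIndex_fixingSubgroup (F : IntermediateField ℚ Qb) [FiniteDimensional ℚ F] :
    F.fixingSubgroup.FiniteIndex := by
  haveI : Finite (_root_.Fermat.Agent.S55.PT.GQ ⧸ F.fixingSubgroup) :=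
    Subgroup.quotient_finite_of_isOpen F.fixingSubgroup F.fixingSubgroup_isOpen
  exact Subgroup.finiteIndex_of_finite_quotient

section

variable (F : IntermediateField ℚ Qb) [FiniteDimensional ℚ F]

attribute [local instance] H594.numberField_of_finite

/-- **Part C.**  A `T`-level-constant 1-cocycle `G_F → 𝔼_T` is a coboundary, if the class group
of `F` is killed by `T`. -/
theorem exists_coboundary_on (T : Finset Nat.Primes) (hF : F.IsUnramifiedOutside T)
    (N : ℕ) (hNT : ∀ q : Nat.Primes, (q : ℕ) ∣ N → q ∈ T)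
    (hgen : ∀ 𝔭 : HeightOneSpectrum (𝓞 F), (N : 𝓞 F) ∉ 𝔭.asIdeal →
      ∃ π : 𝓞 F, π ∈ 𝔭.asIdeal ∧ π ∉ 𝔭.asIdeal ^ 2 ∧
        ∀ 𝔮 : HeightOneSpectrum (𝓞 F), 𝔮 ≠ 𝔭 → (N : 𝓞 F) ∉ 𝔮.asIdeal → π ∉ 𝔮.asIdeal)
    (c : _root_.Fermat.Agent.S55.PT.GQ → K.sUnits T)
    (hcoc : ∀ h ∈ F.fixingSubgroup, ∀ h' ∈ F.fixingSubgroup,
      c (h * h') = (K.sUnits T).ρ h (c h') + c h)
    (hlc : ∃ W ∈ (globalLevels T).levels, ∀ h : _root_.Fermat.Agent.S55.PT.GQ, ∀ s ∈ W, c (h * s) = c h) :
    ∃ e : K.sUnits T, ∀ h ∈ F.fixingSubgroup, c h = (K.sUnits T).ρ h e - e := by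
  classical
  obtain ⟨W, ⟨L₀, hL₀, rfl⟩, hW⟩ := hlc
  -- a Galois level below `F` and `L₀`
  obtain ⟨L, hL, hLgal, hle⟩ := exists_galois_level_ge T (F ⊔ L₀) (hF.sup hL₀)
  haveI : FiniteDimensional ℚ L := hL.1
  haveI : IsGalois ℚ L := hLgal
  have hLnorm : @Normal ℚ L _ _ (IntermediateField.algebra' L) := by
    have e : (IntermediateField.algebra' L : Algebra ℚ L) = DivisionRing.toRatAlgebra :=
      Subsingleton.elim _ _
    rw [e]
    exact IsGalois.to_normal
  have hLF : L.fixingSubgroup ≤ F.fixingSubgroup :=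
    IntermediateField.fixingSubgroup_antitone (le_sup_left.trans hle)
  have hLL₀ : L.fixingSubgroup ≤ L₀.fixingSubgroup :=
    IntermediateField.fixingSubgroup_antitone (le_sup_right.trans hle)
  -- Hilbert 90
  let β : ↥F.fixingSubgroup → Qbˣ := fun h => unitOf T (c h)
  have hβcoc : ∀ n n' : ↥F.fixingSubgroup, β (n * n') = (n : _root_.Fermat.Agent.S55.PT.GQ) • β n' * β n := by
    intro n n'
    show unitOf T (c ((n : _root_.Fermat.Agent.S55.PT.GQ) * (n' : _root_.Fermat.Agent.S55.PT.GQ))) = _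
    rw [hcoc n n.2 n' n'.2, unitOf_add, unitOf_ρ]
  have hβconst : ∀ n s : ↥F.fixingSubgroup, (s : _root_.Fermat.Agent.S55.PT.GQ) ∈ L.fixingSubgroup → β (n * s) = β n := by
    intro n s hs
    show unitOf T (c ((n : _root_.Fermat.Agent.S55.PT.GQ) * (s : _root_.Fermat.Agent.S55.PT.GQ))) = unitOf T (c n)
    rw [hW n s (hLL₀ hs)]
  obtain ⟨a, ha⟩ := @G.Rec.HP.exists_hilbert90_level ℚ Qb _ _ _ _ F.fixingSubgroup L _ hLnorm
    hLF β hβcoc hβconst
  -- `a ∈ L`
  have hβ1 : β 1 = 1 := by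
    rw [ha 1]
    simp
  have haL : (a : Qb) ∈ L := by
    apply mem_of_fixed_by_fixingSubgroup
    intro s hs
    have h1 := hβconst 1 ⟨s, hLF hs⟩ hs
    rw [one_mul, hβ1, ha ⟨s, hLF hs⟩] at h1
    have h2 : s • a = a := div_eq_one.1 h1
    exact congrArg Units.val h2
  -- invariance of the divisor
  have hinv : ∀ h ∈ F.fixingSubgroup, K.IsSUnit T (h • a / a) := by
    intro h hh
    rw [← ha ⟨h, hh⟩]
    exact unitOf_isSUnit T _
  obtain ⟨b, hb⟩ := exists_descent F T L hF hL N hNT hgen a haL hinv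
  refine ⟨ofUnit T (a / toQb F b) hb, fun h hh => ?_⟩
  apply unitOf_injective
  rw [unitOf_sub, unitOf_ρ, unitOf_ofUnit, smul_div', smul_toQb F h hh, div_div_div_cancel_right]
  exact ha ⟨h, hh⟩

end

/-- The primes dividing `N`, as a finite set of `Nat.Primes`. -/
def primesOf (N : ℕ) : Finset Nat.Primes :=
  N.primeFactors.subtype Nat.Prime

lemma mem_primesOf {N : ℕ} (hN : N ≠ 0) (q : Nat.Primes) (hq : (q : ℕ) ∣ N) :
    q ∈ primesOf N := by
  have hmem : (q : ℕ) ∈ N.primeFactors := Nat.mem_primeFactors.2 ⟨q.2, hq, hN⟩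
  exact Finset.mem_subtype.2 hmem

/-- **EUL-CL.**  For every `S`-level `U` there is a finite `S' ⊇ S` such that for all `T ⊇ S'`
every `T`-level-constant 1-cocycle with values in `Ind_U 𝔼_T` is a coboundary:
`H¹_T(Ind_U 𝔼_T) = Cl_T(K_U) = 0`. -/
theorem cl (S : Finset Nat.Primes) (U : Subgroup _root_.Fermat.Agent.S55.PT.GQ) (hU : U ∈ (globalLevels S).levels) :
    ∃ S' : Finset Nat.Primes, S ⊆ S' ∧ ∀ T : Finset Nat.Primes, S' ⊆ T →
      ∀ z ∈ (globalLevels T).Z1 (K.indG U (K.sUnits T)),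
        z ∈ LevelSys.B1 (K.indG U (K.sUnits T)) := by
  classical
  obtain ⟨F, hF, rfl⟩ := hU
  haveI : FiniteDimensional ℚ F := hF.1
  haveI : NumberField F := H594.numberField_of_finite F
  obtain ⟨N, hN, hgen⟩ := exists_prime_generators F
  refine ⟨S ∪ primesOf N, Finset.subset_union_left, fun T hT z hz => ?_⟩
  have hFT : F.IsUnramifiedOutside T := hF.mono (Finset.subset_union_left.trans hT)
  have hNT : ∀ q : Nat.Primes, (q : ℕ) ∣ N → q ∈ T := fun q hq =>
    hT (Finset.mem_union_right _ (mem_primesOf hN q hq))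
  haveI : F.fixingSubgroup.FiniteIndex := finiteIndex_fixingSubgroup F
  obtain ⟨hzc, hzl⟩ := (Submodule.mem_inf.1 hz)
  have hzc' := (mem_cocycles₁_iff z).1 hzc
  -- the component at the trivial coset
  let c : _root_.Fermat.Agent.S55.PT.GQ → K.sUnits T := fun h =>
    coef F.fixingSubgroup (K.sUnits T) (z h) ((1 : _root_.Fermat.Agent.S55.PT.GQ) : _root_.Fermat.Agent.S55.PT.GQ ⧸ F.fixingSubgroup)
  have hcoc : ∀ h ∈ F.fixingSubgroup, ∀ h' ∈ F.fixingSubgroup,
      c (h * h') = (K.sUnits T).ρ h (c h') + c h := by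
    intro h hh h' _
    show coef _ _ (z (h * h')) _ = _
    rw [hzc' h h', coef_add, coef_ρ]
    have : h⁻¹ • ((1 : _root_.Fermat.Agent.S55.PT.GQ) : _root_.Fermat.Agent.S55.PT.GQ ⧸ F.fixingSubgroup) = ((1 : _root_.Fermat.Agent.S55.PT.GQ) : _root_.Fermat.Agent.S55.PT.GQ ⧸ F.fixingSubgroup) := by
      rw [MulAction.Quotient.smul_mk, smul_eq_mul, mul_one, ← one_mul h⁻¹]
      exact QuotientGroup.mk_mul_of_mem 1 (inv_mem hh)
    rw [this]
  have hlc : ∃ W ∈ (globalLevels T).levels, ∀ h : _root_.Fermat.Agent.S55.PT.GQ, ∀ s ∈ W, c (h * s) = c h := by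
    obtain ⟨W, hW, hconst⟩ := hzl
    exact ⟨W, hW, fun h s hs => by show coef _ _ (z (h * s)) _ = coef _ _ (z h) _; rw [hconst h s hs]⟩
  obtain ⟨e, he⟩ := exists_coboundary_on F T hFT N hNT hgen c hcoc hlc
  exact mem_B1_indG_of_component F.fixingSubgroup (K.sUnits T) z hzc e he

/-- **EUL-CL, `p`-torsion form**: `H¹_T(Ind_U 𝔼_T)[p] = 0` for `T ⊇ S'`. -/
theorem cl_tors (S : Finset Nat.Primes) (U : Subgroup _root_.Fermat.Agent.S55.PT.GQ) (hU : U ∈ (globalLevels S).levels) :
    ∃ S' : Finset Nat.Primes, S ⊆ S' ∧ ∀ T : Finset Nat.Primes, S' ⊆ T → ∀ p : ℕ,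
      ∀ z ∈ (globalLevels T).Z1 (K.indG U (K.sUnits T)),
        p • z ∈ LevelSys.B1 (K.indG U (K.sUnits T)) →
          z ∈ LevelSys.B1 (K.indG U (K.sUnits T)) := by
  obtain ⟨S', hS, h⟩ := cl S U hU
  exact ⟨S', hS, fun T hT _ z hz _ => h T hT z hz⟩

end Fermat.Agent.S56.Euler.H74

end

end
-- ===== PACK-END S56/Euler/H74/Cl.lean

-- ===== PACK-BEGIN S55/KC/H13OfAtH287.lean
section


/-!
# S55 / layer KC (helper53), leaves KC-D1 and KC-D3                              (helper287)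

* `h1VanishOfAt : H1VanishOfAtSpec` — `H¹(G ⧸ V, B^V) = 0` at the normal levels `V ≤ V₀`
  ⇒ `H¹_lc(G, B) = 0`;
* `h3VanishOfAt : H3VanishOfAtSpec` — `H³(G ⧸ V, B^V) = 0` at the normal levels `V ≤ V₀`
  ⇒ `H³_lc(G, B) = 0`.

Key point: a COCYCLE which is right-invariant under a NORMAL subgroup `V` automatically has
values in `B^V` (`isAt₁_of_cocycle`, `isAt₃_of_cocycle`), so neither smoothness nor finiteness of
the index is used.
-/

set_option autoImplicit false

noncomputable section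

namespace Fermat.Agent.S55.KC.H287

open groupCohomology Fermat.Agent.S55.PT

variable {G : Type} [Group G] {k : Type} [CommRing k]

/-- A 1-cocycle which is right-invariant under a NORMAL subgroup `V` has values in `B^V`. -/
lemma isAt₁_of_cocycle (B : Rep.{0, 0, 0} k G) (V : Subgroup G) (hVn : V.Normal)
    (f : G → B) (hf : f ∈ cocycles₁ B) (hinv : ∀ g s : G, s ∈ V → f (g * s) = f g) :
    IsAt₁ V B f := by
  rw [mem_cocycles₁_iff] at hf
  have h1 : f 1 = 0 := by
    have := hf 1 1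
    simp only [one_mul, map_one, Module.End.one_apply] at this
    have h : f 1 + 0 = f 1 + f 1 := by rw [add_zero]; exact this
    exact (add_left_cancel h).symm
  intro g s hs
  refine ⟨hinv g s hs, ?_⟩
  have h2 := hf s g
  have h3 : f (s * g) = f g := by
    have hc : g⁻¹ * s * g ∈ V := by
      have := hVn.conj_mem s hs g⁻¹
      simpa using this
    have := hinv g (g⁻¹ * s * g) hc
    rw [← this]
    congr 1
    group
  have h4 : f s = 0 := by
    have := hinv 1 s hs
    rw [one_mul] at this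
    rw [this, h1]
  rw [h3, h4] at h2
  rw [add_zero] at h2
  exact h2.symm

/-- A 3-cocycle which is right-invariant under a NORMAL subgroup `V` has values in `B^V`. -/
lemma isAt₃_of_cocycle (B : Rep.{0, 0, 0} k G) (V : Subgroup G) (hVn : V.Normal)
    (z : G × G × G → B) (hz : IsCocycle₃ B z)
    (hinv : ∀ g h i s t u : G, s ∈ V → t ∈ V → u ∈ V →
      z (g * s, h * t, i * u) = z (g, h, i)) : IsAt₃ V B z := by
  intro g h i s t u hs ht hu
  refine ⟨hinv g h i s t u hs ht hu, ?_⟩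
  have h1 := hz 1 g h i
  simp only [one_mul, map_one, Module.End.one_apply] at h1
  have h2 := hz s g h i
  have h3 : z (s * g, h, i) = z (g, h, i) := by
    have hc : g⁻¹ * s * g ∈ V := by
      have := hVn.conj_mem s hs g⁻¹
      simpa using this
    have := hinv g h i (g⁻¹ * s * g) 1 1 hc V.one_mem V.one_mem
    rw [mul_one, mul_one] at this
    rw [← this]
    congr 2
    group
  have h4 : ∀ x y : G, z (s, x, y) = z (1, x, y) := by
    intro x y
    have := hinv 1 x y s 1 1 hs V.one_mem V.one_mem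
    rw [one_mul, mul_one, mul_one] at this
    exact this
  rw [h3, h4, h4, h4] at h2
  have h5 : B.ρ s (z (g, h, i)) - z (g, h, i) = 0 := by
    have h6 : B.ρ s (z (g, h, i)) - z (g, h, i) =
        (B.ρ s (z (g, h, i)) - z (g, h, i) + z (1, g * h, i) - z (1, g, h * i) + z (1, g, h)) -
        (z (g, h, i) - z (g, h, i) + z (1, g * h, i) - z (1, g, h * i) + z (1, g, h)) := by
      abel
    rw [h6, h2, h1, sub_zero]
  exact sub_eq_zero.1 h5

/-- **KC-D1.** -/
theorem h1VanishOfAt : H1VanishOfAtSpec := by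
  intro G _ L B V₀ hNC hV₀ hAt f hf hfL
  obtain ⟨U, hU, hfU⟩ := hfL
  obtain ⟨W₁, hW₁, hW₁le⟩ := L.directed U hU V₀ hV₀
  obtain ⟨V, hV, hVle, hVn⟩ := hNC W₁ hW₁
  have hVV₀ : V ≤ V₀ := fun w hw => (hW₁le (hVle hw)).2
  have hVU : V ≤ U := fun w hw => (hW₁le (hVle hw)).1
  obtain ⟨a, -, ha⟩ := hAt V hV hVn hVV₀ f hf
    (isAt₁_of_cocycle B V hVn f hf (fun g s hs => hfU g s (hVU hs)))
  exact ⟨a, ha⟩

/-- **KC-D3.** -/
theorem h3VanishOfAt : H3VanishOfAtSpec := by
  intro G _ L B V₀ hNC _ _ hV₀ hAt z hzL hz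
  obtain ⟨U, hU, hzU⟩ := hzL
  obtain ⟨W₁, hW₁, hW₁le⟩ := L.directed U hU V₀ hV₀
  obtain ⟨V, hV, hVle, hVn⟩ := hNC W₁ hW₁
  have hVV₀ : V ≤ V₀ := fun w hw => (hW₁le (hVle hw)).2
  have hVU : V ≤ U := fun w hw => (hW₁le (hVle hw)).1
  obtain ⟨b, hb, hbz⟩ := hAt V hV hVn hVV₀ z
    (isAt₃_of_cocycle B V hVn z hz
      (fun g h i s t u hs ht hu => hzU g h i s t u (hVU hs) (hVU ht) (hVU hu))) hz
  exact ⟨b, ⟨V, hV, fun g g' s s' hs hs' => (hb g g' s s' hs hs').1⟩, hbz⟩

end Fermat.Agent.S55.KC.H287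

end

end
-- ===== PACK-END S55/KC/H13OfAtH287.lean

-- ===== PACK-BEGIN S55/KC/H510/Leaves.lean
section





/-!
# S55 / layer KC (helper53): leaves P2, P4, K3 in the exact shape of `KC/Spec.lean` (helper510)

Adapters to the cores `KL/H510/{Surj2Core,TopLocIndCore,KummerH3Core}.lean`.
-/

set_option autoImplicit false

namespace Fermat.Agent.S55.KC.H510

open Fermat.Agent.S55.PT Fermat.Agent.S55.KC

/-- **KC-P2.** -/
theorem surj2OfH3 : Surj2OfH3Spec := fun G _ L p _ hNC hH3 =>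
  Fermat.Agent.S55.KL.H510.surj2OfH3_core_h510 G L p hNC hH3

/-- **KC-P4.** -/
theorem topLocIndOf : TopLocIndOfSpec :=
  Fermat.Agent.S55.KL.H510.topLocIndOf_core_h510

/-- **KC-K3.** -/
theorem kummerH3 : KummerH3Spec := fun G _ L p _ M B ι hNC hFI hsm hdiv hK hH3 hH2 =>
  Fermat.Agent.S55.KL.H510.kummerH3_core_h510 G L p M B ι hNC hFI hsm hdiv
    hK.injective hK.equivariant hK.range_eq hH3 hH2

end Fermat.Agent.S55.KC.H510

end
-- ===== PACK-END S55/KC/H510/Leaves.lean

-- ===== PACK-BEGIN S55/KC/IndH323.lean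
section


/-!
# S55 / layer KC, block I: leaves KC-I0 (`IndKummerSpec`) and KC-I4' (`PUnboundedRelSpec`)

Owner: helper323 (subtask 448).

* `indKummer : IndKummerSpec` — `Ind_H = (G ⧸ H →₀ -)` preserves smoothness (for open `H`, normal
  levels cofinal), `p`-divisibility and Kummer embeddings.
* `pUnboundedRel : PUnboundedRelSpec` — if the `p`-parts of `[G : V]` are unbounded, so are those
  of `[H : V]`, for `H ≥ V₀` (automatically of finite index).

Reusable lemmas: `smul_coset_eq_h323`, `isSmooth_indR_h323` (any commutative ring `k`),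
`isPDivisible_finsupp_h323`, `isKummerEmb_ind_h323`.
-/

set_option autoImplicit false

noncomputable section

namespace Fermat.Agent.S55.KC.H323

open groupCohomology ExtCitation Fermat.Agent.S55.PT Fermat.Agent.S55.KC

variable {G : Type} [Group G]

/-! ## Smoothness -/

/-- A normal subgroup `V ≤ H` acts trivially on `G ⧸ H`. -/
lemma smul_coset_eq_h323 {H V : Subgroup G} [hV : V.Normal] (hVH : V ≤ H) {s : G} (hs : s ∈ V)
    (x : G ⧸ H) : s • x = x := by
  induction x using QuotientGroup.induction_on with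
  | H g =>
    rw [MulAction.Quotient.smul_mk, QuotientGroup.eq]
    apply hVH
    have h1 : (s • g)⁻¹ * g = g⁻¹ * s⁻¹ * g⁻¹⁻¹ := by
      rw [smul_eq_mul, mul_inv_rev, inv_inv]
    rw [h1]
    exact hV.conj_mem _ (V.inv_mem hs) _

/-- `Ind_H B` is smooth if `B` is, `H` is open and normal levels are cofinal
(cochain form, on `indActR`; any commutative ring `k`). -/
lemma exists_level_indActR_eq_h323 (L : LevelSys G) (hNC : L.NormalCofinal) {H : Subgroup G}
    (hH : IsOpenSub L H) {k : Type} [CommRing k] (B : Rep.{0, 0, 0} k G) (hB : L.IsSmooth B)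
    (a : (G ⧸ H) →₀ B) : ∃ U ∈ L.levels, ∀ s ∈ U, indActR H B s a = a := by
  obtain ⟨U₀, hU₀, hU₀H⟩ := hH
  obtain ⟨V, hV, hVU₀, hVn⟩ := hNC U₀ hU₀
  induction a using Finsupp.induction_linear with
  | zero => exact ⟨V, hV, fun s _ => map_zero _⟩
  | add a b ha hb =>
    obtain ⟨U₁, hU₁, h₁⟩ := ha
    obtain ⟨U₂, hU₂, h₂⟩ := hb
    obtain ⟨W, hW, hWle⟩ := L.directed U₁ hU₁ U₂ hU₂
    exact ⟨W, hW, fun s hs => by rw [map_add, h₁ s (hWle hs).1, h₂ s (hWle hs).2]⟩
  | single x b =>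
    obtain ⟨U₁, hU₁, h₁⟩ := hB b
    obtain ⟨W, hW, hWle⟩ := L.directed V hV U₁ hU₁
    refine ⟨W, hW, fun s hs => ?_⟩
    rw [indActR_single, h₁ s (hWle hs).2,
      smul_coset_eq_h323 (hVU₀.trans hU₀H) (hWle hs).1]

/-- `Ind_H B` is smooth if `B` is, `H` is open and normal levels are cofinal. -/
theorem isSmooth_indR_h323 (L : LevelSys G) (hNC : L.NormalCofinal) {H : Subgroup G}
    (hH : IsOpenSub L H) {k : Type} [CommRing k] (B : Rep.{0, 0, 0} k G) (hB : L.IsSmooth B) :
    L.IsSmooth (indR H B) :=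
  fun a => exists_level_indActR_eq_h323 L hNC hH B hB a

/-! ## `p`-divisibility -/

/-- Finitely supported functions with values in a `p`-divisible group form a `p`-divisible
group. -/
lemma isPDivisible_finsupp_h323 (p : ℕ) {X B : Type} [AddCommGroup B] (hB : IsPDivisible p B) :
    IsPDivisible p (X →₀ B) := by
  intro b
  induction b using Finsupp.induction_linear with
  | zero => exact ⟨0, smul_zero _⟩
  | add a b ha hb =>
    obtain ⟨c₁, h₁⟩ := ha
    obtain ⟨c₂, h₂⟩ := hb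
    exact ⟨c₁ + c₂, by rw [smul_add, h₁, h₂]⟩
  | single x b =>
    obtain ⟨c, hc⟩ := hB b
    exact ⟨Finsupp.single x c, by rw [Finsupp.smul_single, hc]⟩

/-! ## Kummer embeddings -/

/-- `Ind_H` of a Kummer embedding is a Kummer embedding. -/
theorem isKummerEmb_ind_h323 (p : ℕ) [Fact p.Prime] (M : Rep.{0, 0, 0} (ZMod p) G)
    (B : Rep.{0, 0, 0} ℤ G) (ι : M →+ B) (H : Subgroup G) (hK : IsKummerEmb p M B ι) :
    IsKummerEmb p (indRep H M) (indR H B) (indEmb p H M B ι) where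
  injective := Finsupp.mapRange_injective ι (map_zero ι) hK.injective
  equivariant := by
    intro g m
    change Finsupp.mapRange.addMonoidHom ι (indAct H M g m) =
      indActR H B g (Finsupp.mapRange.addMonoidHom ι m)
    induction m using Finsupp.induction_linear with
    | zero => simp
    | add a b ha hb => rw [map_add, map_add, map_add, map_add, ha, hb]
    | single x m =>
      rw [indAct_single, Finsupp.mapRange.addMonoidHom_apply, Finsupp.mapRange_single,
        Finsupp.mapRange.addMonoidHom_apply, Finsupp.mapRange_single, indActR_single,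
        hK.equivariant]
  range_eq := by
    intro b
    change p • (b : (G ⧸ H) →₀ B) = 0 ↔ b ∈ Set.range (Finsupp.mapRange.addMonoidHom ι)
    constructor
    · intro hb
      classical
      have hmem : ∀ y : B, p • y = 0 → ∃ m : M, ι m = y := fun y hy =>
        (hK.range_eq y).1 hy
      let f : B → M := fun y => if h : ∃ m : M, ι m = y then h.choose else 0
      have hf0 : f 0 = 0 := by
        have h : ∃ m : M, ι m = 0 := ⟨0, map_zero ι⟩
        have h2 : ι (f 0) = ι 0 := by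
          simp only [f, dif_pos h, map_zero]
          exact h.choose_spec
        exact hK.injective h2
      have hfy : ∀ y : B, p • y = 0 → ι (f y) = y := by
        intro y hy
        have h := hmem y hy
        simp only [f, dif_pos h]
        exact h.choose_spec
      refine ⟨Finsupp.mapRange f hf0 b, ?_⟩
      ext x
      rw [Finsupp.mapRange.addMonoidHom_apply, Finsupp.mapRange_apply, Finsupp.mapRange_apply]
      apply hfy
      have := DFunLike.congr_fun hb x
      simpa using this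
    · rintro ⟨m, rfl⟩
      ext x
      rw [Finsupp.smul_apply, Finsupp.mapRange.addMonoidHom_apply, Finsupp.mapRange_apply,
        Finsupp.zero_apply]
      exact (hK.range_eq _).2 ⟨m x, rfl⟩

/-! ## KC-I0 -/

/-- **KC-I0.**  `Ind_H` preserves smoothness, `p`-divisibility and Kummer embeddings. -/
theorem indKummer : IndKummerSpec := by
  intro G _ L p _ M B ι H hNC hH hsm hdiv hK
  exact ⟨isSmooth_indR_h323 L hNC hH B hsm, isPDivisible_finsupp_h323 p hdiv,
    isKummerEmb_ind_h323 p M B ι H hK⟩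

/-! ## KC-I4' -/

/-- **KC-I4'.**  Unboundedness of the `p`-part of `[G : V]` implies that of `[H : V]`. -/
theorem pUnboundedRel : PUnboundedRelSpec := by
  intro G _ L p hp H V₀ hFI hV₀ hV₀H hunb m
  have hV₀fi : V₀.FiniteIndex := hFI V₀ hV₀
  have hHne : H.index ≠ 0 := (Subgroup.finiteIndex_of_le hV₀H).index_ne_zero
  obtain ⟨V, hV, hVn, hVV₀, hdvd⟩ := hunb (m + padicValNat p H.index)
  refine ⟨V, hV, hVn, hVV₀, ?_⟩
  have hVfi : V.FiniteIndex := hFI V hV
  have hmul : V.relIndex H * H.index = V.index := Subgroup.relIndex_mul_index (hVV₀.trans hV₀H)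
  have hrel : V.relIndex H ≠ 0 := by
    intro h
    apply hVfi.index_ne_zero
    rw [← hmul, h, zero_mul]
  rw [padicValNat_dvd_iff_le hrel]
  have h1 : m + padicValNat p H.index ≤ padicValNat p V.index :=
    (padicValNat_dvd_iff_le hVfi.index_ne_zero).1 hdvd
  rw [← hmul, padicValNat.mul hrel hHne] at h1
  omega

end Fermat.Agent.S55.KC.H323

end

end
-- ===== PACK-END S55/KC/IndH323.lean

-- ===== PACK-BEGIN S55/KC/PUnboundedH707.lean
section



/-!
# S55 / layer KC, leaf KC-A3 (was KL:A3): `LocalPUnboundedSpec`   (helper707)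

Exact Spec type, from `KL/PUnboundedH707.lean` (helper414's CYC-INF + normal cofinality).
-/

set_option autoImplicit false

namespace Fermat.Agent.S55.KC.PUnboundedH707

/-- **KC-A3.**  The `p`-part of `[G_{ℚ_q} : V]` is unbounded along the normal local levels. -/
theorem localPUnboundedSpec : Fermat.Agent.S55.KC.LocalPUnboundedSpec :=
  fun p _ q V₀ h => Fermat.Agent.S55.KL.PUnboundedH707.localPUnbounded p q V₀ h

end Fermat.Agent.S55.KC.PUnboundedH707

end
-- ===== PACK-END S55/KC/PUnboundedH707.lean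

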