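import Fermat.Agent.Pack.S56.E5L3
import Fermat.Agent.Pack.S56.E18L1
import Fermat.Agent.Pack.S56.E7L3
import Fermat.Agent.Pack.S56.E0L0
import Fermat.Agent.Pack.S56.E4L1
import Fermat.Agent.Pack.S56.E4L3
import Fermat.Agent.Pack.S56.E10L1
import Fermat.Agent.Pack.S56.E2L1
import Fermat.Agent.Pack.S56.E4L2
import Fermat.Agent.Pack.S56.E11L2
import Fermat.Agent.Pack.S56.E18L2
import Fermat.Agent.Pack.S56.E6L1
import Fermat.Agent.Pack.S56.E17L3
import Fermat.Agent.Pack.S56.E3L2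
import Fermat.Agent.Pack.S56.E2L3
import Fermat.Agent.Pack.S56.E18L3
import Fermat.Agent.Pack.S56.E14L0
import Fermat.Agent.Pack.S56.E15L2
import Fermat.Agent.Pack.S56.E15L0
import Fermat.Agent.Pack.S56.E16L1
import Fermat.Agent.Pack.S56.E13L3
import Fermat.Agent.Pack.S56.E16L0
import Fermat.Agent.Pack.S56.E17L2
import Fermat.Agent.Pack.S56.E13L0
import Fermat.Agent.Pack.S56.E6L2
import Fermat.Agent.Pack.S56.E5L2

-- ===== PACK-BEGIN S55/G/PL0H713.lean
section



/-!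
# S55 layer G, leaf G-PL0 : the local fields `L_𝔪` (helper713)

`locField : LocFieldSpec` (unconditional): for a number field `L` and a finite set `S` of rational
primes, `L ⊗[ℚ] ℚ_S` has finitely many maximal ideals and each residue field
`LocField S 𝔪 = (L ⊗ ℚ_S) ⧸ 𝔪` is a local field in the sense of layer `L`.

Reusable API (all for `𝔪 : SPlace S L`):
* `primeOf S L 𝔪 : S` : the rational prime below `𝔪`;
* `ofQq S L 𝔪 : Qq (primeOf S L 𝔪).1 →+* LocField S 𝔪`, with `ofQS_eq`: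
  `LocField.ofQS S 𝔪 y = ofQq S L 𝔪 (QS.toPi S y (primeOf S L 𝔪))`;
* `algQq S L 𝔪 : Algebra (Qq q) (LocField S 𝔪)` (a `def`, NOT an instance), `finite_locField`;
* `intRing S L 𝔪 : ValuationSubring (LocField S 𝔪)` : the ring of integers,
  `isLocalRingOfIntegers_intRing`.
-/

set_option autoImplicit false
set_option linter.unusedSectionVars false
set_option linter.style.haveILetI false

open scoped NumberField TensorProduct
open IsLocalRing

namespace Fermat.Agent.S55.G.PL0H713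

open Fermat.Agent.S55.G

variable (S : Finset Nat.Primes) (L : Type) [Field L] [NumberField L]

/-! ## Finiteness of the set of places -/

lemma isArtinianRing_QS : IsArtinianRing (QS S) :=
  inferInstanceAs (IsArtinianRing (∀ q : S, Qq q.1))

lemma isArtinianRing_AS : IsArtinianRing (AS S L) := by
  haveI := isArtinianRing_QS S
  haveI : Module.Finite (QS S) (QS S ⊗[ℚ] L) := inferInstance
  haveI : IsArtinianRing (QS S ⊗[ℚ] L) := IsArtinianRing.of_finite (QS S) _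
  exact (Algebra.TensorProduct.comm ℚ L (QS S)).symm.toRingEquiv.isArtinianRing

lemma finite_sPlace : Finite (SPlace S L) := by
  haveI := isArtinianRing_AS S L
  infer_instance

/-! ## The rational prime below a place -/

/-- The element of `ℚ_S` with `q`-component `x` and all other components `0`. -/
noncomputable def single (q : S) (x : Qq q.1) : QS S :=
  (QS.toPi S).symm (by classical exact Pi.single (M := fun q : S => Qq q.1) q x)

lemma single_apply_same (q : S) (x : Qq q.1) : QS.toPi S (single S q x) q = x := by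
  classical
  exact Pi.single_eq_same (M := fun q : S => Qq q.1) q x

lemma single_apply_ne (q q' : S) (h : q' ≠ q) (x : Qq q.1) : QS.toPi S (single S q x) q' = 0 := by
  classical
  exact Pi.single_eq_of_ne (M := fun q : S => Qq q.1) h x

lemma QS_ext {y z : QS S} (h : ∀ q : S, QS.toPi S y q = QS.toPi S z q) : y = z :=
  funext h

lemma single_zero (q : S) : single S q 0 = 0 := by
  refine QS_ext S fun q' => ?_
  by_cases h : q' = q
  · subst h; rw [single_apply_same]; rfl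
  · rw [single_apply_ne S q q' h]; rfl

lemma single_add (q : S) (x y : Qq q.1) : single S q (x + y) = single S q x + single S q y := by
  refine QS_ext S fun q' => ?_
  rw [map_add, Pi.add_apply]
  by_cases h : q' = q
  · subst h; rw [single_apply_same, single_apply_same, single_apply_same]
  · rw [single_apply_ne S q q' h, single_apply_ne S q q' h, single_apply_ne S q q' h, add_zero]

lemma single_mul (q : S) (x y : Qq q.1) : single S q (x * y) = single S q x * single S q y := by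
  refine QS_ext S fun q' => ?_
  rw [map_mul, Pi.mul_apply]
  by_cases h : q' = q
  · subst h; rw [single_apply_same, single_apply_same, single_apply_same]
  · rw [single_apply_ne S q q' h, single_apply_ne S q q' h, zero_mul]

lemma mul_single_one (q : S) (y : QS S) :
    y * single S q 1 = single S q (QS.toPi S y q) := by
  refine QS_ext S fun q' => ?_
  rw [map_mul, Pi.mul_apply]
  by_cases h : q' = q
  · subst h; rw [single_apply_same, single_apply_same, mul_one]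
  · rw [single_apply_ne S q q' h, single_apply_ne S q q' h, mul_zero]

lemma sum_single_one : ∑ q : S, single S q 1 = 1 := by
  classical
  refine QS_ext S fun q' => ?_
  rw [map_sum, Finset.sum_apply, Finset.sum_eq_single q']
  · rw [single_apply_same]; rfl
  · intro q _ h
    exact single_apply_ne S q q' h.symm 1
  · intro h
    exact absurd (Finset.mem_univ q') h

variable {L}

lemma ofQS_single_one (𝔪 : SPlace S L) (q : S) :
    LocField.ofQS S 𝔪 (single S q 1) = 0 ∨ LocField.ofQS S 𝔪 (single S q 1) = 1 := by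
  have h : LocField.ofQS S 𝔪 (single S q 1) * LocField.ofQS S 𝔪 (single S q 1) =
      LocField.ofQS S 𝔪 (single S q 1) := by
    rw [← map_mul, ← single_mul, mul_one]
  rcases eq_or_ne (LocField.ofQS S 𝔪 (single S q 1)) 0 with h0 | h0
  · exact Or.inl h0
  · exact Or.inr (mul_left_cancel₀ h0 (by rw [h, mul_one]))

lemma exists_prime (𝔪 : SPlace S L) : ∃ q : S, LocField.ofQS S 𝔪 (single S q 1) = 1 := by
  by_contra hne
  have h0 : ∀ q : S, LocField.ofQS S 𝔪 (single S q 1) = 0 := fun q =>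
    (ofQS_single_one S 𝔪 q).resolve_right (fun h => hne ⟨q, h⟩)
  have h1 : LocField.ofQS S 𝔪 1 = 0 := by
    rw [← sum_single_one S, map_sum]
    exact Finset.sum_eq_zero fun q _ => h0 q
  rw [map_one] at h1
  exact one_ne_zero h1

variable (L)

/-- The rational prime `q ∈ S` below the place `𝔪`. -/
noncomputable def primeOf (𝔪 : SPlace S L) : S := (exists_prime S 𝔪).choose

lemma ofQS_single_primeOf (𝔪 : SPlace S L) :
    LocField.ofQS S 𝔪 (single S (primeOf S L 𝔪) 1) = 1 := (exists_prime S 𝔪).choose_spec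

/-- The embedding `ℚ_q → L_𝔪`, `q` the prime below `𝔪`. -/
noncomputable def ofQq (𝔪 : SPlace S L) : Qq (primeOf S L 𝔪).1 →+* LocField S 𝔪 where
  toFun x := LocField.ofQS S 𝔪 (single S (primeOf S L 𝔪) x)
  map_one' := ofQS_single_primeOf S L 𝔪
  map_mul' x y := by rw [single_mul, map_mul]
  map_zero' := by rw [single_zero, map_zero]
  map_add' x y := by rw [single_add, map_add]

lemma ofQq_apply (𝔪 : SPlace S L) (x : Qq (primeOf S L 𝔪).1) :
    ofQq S L 𝔪 x = LocField.ofQS S 𝔪 (single S (primeOf S L 𝔪) x) := rfl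

/-- The `ℚ_S`-algebra structure of `L_𝔪` factors through `ℚ_q`. -/
lemma ofQS_eq (𝔪 : SPlace S L) (y : QS S) :
    LocField.ofQS S 𝔪 y = ofQq S L 𝔪 (QS.toPi S y (primeOf S L 𝔪)) := by
  rw [ofQq_apply, ← mul_single_one, map_mul, ofQS_single_primeOf, mul_one]

/-- The `ℚ_q`-algebra structure on `L_𝔪` (NOT a global instance). -/
@[reducible] noncomputable def algQq (𝔪 : SPlace S L) :
    Algebra (Qq (primeOf S L 𝔪).1) (LocField S 𝔪) :=
  (ofQq S L 𝔪).toAlgebra

lemma mk_tmul (𝔪 : SPlace S L) (l : L) (y : QS S) :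
    LocField.mk S 𝔪 (l ⊗ₜ[ℚ] y) = toLoc S 𝔪 l * LocField.ofQS S 𝔪 y := by
  have : (l ⊗ₜ[ℚ] y : AS S L) = asDiag S L l * asIncl S L y := by
    rw [asDiag_apply]
    change _ = (l ⊗ₜ[ℚ] (1 : QS S)) * ((1 : L) ⊗ₜ[ℚ] y)
    rw [Algebra.TensorProduct.tmul_mul_tmul, mul_one, one_mul]
  rw [this, map_mul]
  rfl

lemma toLoc_algebraMap (𝔪 : SPlace S L) (c : ℚ) :
    toLoc S 𝔪 (algebraMap ℚ L c) = ofQq S L 𝔪 (algebraMap ℚ _ c) := by
  have h : (toLoc S 𝔪).comp (algebraMap ℚ L) = (ofQq S L 𝔪).comp (algebraMap ℚ _) :=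
    Subsingleton.elim _ _
  exact congrArg (fun f => f c) h

lemma finite_locField (𝔪 : SPlace S L) :
    letI := algQq S L 𝔪
    Module.Finite (Qq (primeOf S L 𝔪).1) (LocField S 𝔪) := by
  letI := algQq S L 𝔪
  classical
  let b := Module.finBasis ℚ L
  refine ⟨⟨Finset.univ.image (fun i => toLoc S 𝔪 (b i)), ?_⟩⟩
  rw [eq_top_iff]
  rintro x -
  have hb : ∀ i, toLoc S 𝔪 (b i) ∈ Submodule.span (Qq (primeOf S L 𝔪).1)
      ((Finset.univ.image (fun i => toLoc S 𝔪 (b i)) : Finset (LocField S 𝔪)) :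
        Set (LocField S 𝔪)) := fun i =>
    Submodule.subset_span (Finset.mem_coe.2 (Finset.mem_image_of_mem _ (Finset.mem_univ i)))
  have hL : ∀ l : L, toLoc S 𝔪 l ∈ Submodule.span (Qq (primeOf S L 𝔪).1)
      ((Finset.univ.image (fun i => toLoc S 𝔪 (b i)) : Finset (LocField S 𝔪)) :
        Set (LocField S 𝔪)) := by
    intro l
    rw [← b.sum_repr l, map_sum]
    refine Submodule.sum_mem _ fun i _ => ?_
    rw [Algebra.smul_def, map_mul, toLoc_algebraMap]
    exact Submodule.smul_mem _ _ (hb i)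
  obtain ⟨a, rfl⟩ := LocField.mk_surjective S 𝔪 x
  induction a using TensorProduct.induction_on with
  | zero => rw [map_zero]; exact Submodule.zero_mem _
  | tmul l y =>
    rw [mk_tmul, ofQS_eq, mul_comm]
    exact Submodule.smul_mem _ _ (hL l)
  | add a b ha hb => rw [map_add]; exact Submodule.add_mem _ ha hb

lemma charZero_locField (𝔪 : SPlace S L) : CharZero (LocField S 𝔪) :=
  charZero_of_injective_ringHom (ofQq S L 𝔪).injective

/-! ## The ring of integers -/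

/-- A finite extension of `ℚ_q` is a local field in the sense of layer `L`; its ring of integers
is `Local.H713.intVS ℤ_[q] ℚ_[q] E`. -/
lemma isLocalRingOfIntegers_intVS (q : ℕ) [Fact q.Prime] (E : Type) [Field E] [Algebra ℚ_[q] E]
    [FiniteDimensional ℚ_[q] E] :
    Fermat.Agent.S55.L.IsLocalRingOfIntegers
      (Fermat.Agent.S55.Local.H713.intVS ℤ_[q] ℚ_[q] E) :=
  ⟨Fermat.Agent.S55.Local.H713.isDVR_intVS ℤ_[q] ℚ_[q] E,
    Fermat.Agent.S55.Local.H713.isAdicComplete_intVS ℤ_[q] ℚ_[q] E,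
    Fermat.Agent.S55.Local.H713.finite_residueField_intVS ℤ_[q] ℚ_[q] E⟩

lemma isLocalFld_of_finite_padic (q : ℕ) [Fact q.Prime] (E : Type) [Field E] [Algebra ℚ_[q] E]
    [FiniteDimensional ℚ_[q] E] : Fermat.Agent.S55.L.IsLocalFld E :=
  ⟨charZero_of_injective_algebraMap (algebraMap ℚ_[q] E).injective,
    ⟨_, isLocalRingOfIntegers_intVS q E⟩⟩

/-- The ring of integers of `L_𝔪`. -/
noncomputable def intRing (𝔪 : SPlace S L) : ValuationSubring (LocField S 𝔪) :=
  haveI : Fact (Nat.Prime ((primeOf S L 𝔪).1 : ℕ)) := ⟨(primeOf S L 𝔪).1.2⟩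
  @Fermat.Agent.S55.Local.H713.intVS ℤ_[((primeOf S L 𝔪).1 : ℕ)] ℚ_[((primeOf S L 𝔪).1 : ℕ)]
    _ _ _ _ _ _ _ _ _ (LocField S 𝔪) _ (algQq S L 𝔪) (finite_locField S L 𝔪)

lemma isLocalRingOfIntegers_intRing (𝔪 : SPlace S L) :
    Fermat.Agent.S55.L.IsLocalRingOfIntegers (intRing S L 𝔪) := by
  unfold intRing
  exact @isLocalRingOfIntegers_intVS ((primeOf S L 𝔪).1 : ℕ) ⟨(primeOf S L 𝔪).1.2⟩
    (LocField S 𝔪) _ (algQq S L 𝔪) (finite_locField S L 𝔪)

lemma isLocalFld_locField (𝔪 : SPlace S L) : Fermat.Agent.S55.L.IsLocalFld (LocField S 𝔪) :=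
  ⟨charZero_locField S L 𝔪, ⟨intRing S L 𝔪, isLocalRingOfIntegers_intRing S L 𝔪⟩⟩

/-- **G-PL0.** -/
theorem locField : LocFieldSpec := fun S L _ _ =>
  ⟨finite_sPlace S L, fun 𝔪 => isLocalFld_locField S L 𝔪⟩

end Fermat.Agent.S55.G.PL0H713

end
-- ===== PACK-END S55/G/PL0H713.lean

-- ===== PACK-BEGIN S55/G/Rec/HP/LocEmb.lean
section





/-!
# S55 / REC / HP : the intrinsic places `𝔪 ∈ SPlace S F` as embedded places `(q, g)`

For a finite normal `F/ℚ` inside `ℚ̄` and a place `𝔪` of `F` above `S` (a maximal ideal of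
`F ⊗ ℚ_S`), we choose an embedding `φ : F_𝔪 → ℚ̄_q` over `ℚ_q` and `g ∈ G_ℚ` with
`φ ∘ toLoc = ι_q ∘ g⁻¹` on `F` (`PlaceEmb`).  Then, for an open `U ⊇ G_F`:

* `ρ τ := (g · loc τ · g⁻¹)|_F` maps `V = locSub q g U` ONTO the decomposition group
  `decomp S (lvlGal U F) 𝔪`, compatibly with the actions on `F_𝔪` and `ℚ̄_q` (via `φ`);
* the elements of `ℚ̄_q` fixed by `ker ρ` lie in `φ(F_𝔪)`.
-/

set_option autoImplicit false
set_option linter.unusedSectionVars false
set_option linter.style.haveILetI false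

noncomputable section

namespace Fermat.Agent.S55.G.Rec.HP

open groupCohomology Fermat.Agent.S55.Bridge.H175 Fermat.Agent.S55.G

local notation "Qb" => AlgebraicClosure ℚ
local notation "GQ" => (AlgebraicClosure ℚ ≃ₐ[ℚ] AlgebraicClosure ℚ)

/-- An embedded model of the place `𝔪` of `F`: `φ : F_𝔪 ↪ ℚ̄_q` over `ℚ_q` and `g ∈ G_ℚ` such
that `φ ∘ toLoc = ι_q ∘ g⁻¹` on `F`. -/
structure PlaceEmb (S : Finset Nat.Primes) (F : IntermediateField ℚ Qb)
    (𝔪 : SPlace S ↥F) (q : ℕ) [Fact q.Prime] where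
  /-- the conjugating element -/
  g : GQ
  /-- the embedding of the local field -/
  φ : LocField S 𝔪 →+* PadicAlgCl q
  /-- the structure map -/
  ι₀ : ℚ_[q] →+* LocField S 𝔪
  φ_toLoc : ∀ x : F, φ (toLoc S 𝔪 x) = padicEmbedding q (g⁻¹ (x : Qb))
  φ_ι₀ : ∀ z : ℚ_[q], φ (ι₀ z) = algebraMap ℚ_[q] (PadicAlgCl q) z
  ofQS_mem : ∀ y : QS S, ∃ z : ℚ_[q], LocField.ofQS S 𝔪 y = ι₀ z
  ι₀_mem : ∀ z : ℚ_[q], ∃ y : QS S, ι₀ z = LocField.ofQS S 𝔪 y

section Exists

variable (S : Finset Nat.Primes) (F : IntermediateField ℚ Qb) [FiniteDimensional ℚ F]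
  (𝔪 : SPlace S ↥F)

lemma normal_Qb : Normal ℚ Qb := by
  have : Algebra.IsAlgebraic ℚ Qb := AlgebraicClosure.isAlgebraic ℚ
  have : IsAlgClosure ℚ Qb := ⟨inferInstance, inferInstance⟩
  exact IsAlgClosure.normal ℚ Qb

/-- Every ring homomorphism `F → ℚ̄_q` is `ι_q ∘ g⁻¹` for some `g ∈ G_ℚ`. -/
lemma exists_conj_of_ringHom (q : ℕ) [Fact q.Prime] (j : ↥F →+* PadicAlgCl q) :
    ∃ g : GQ, ∀ x : F, j x = padicEmbedding q (g⁻¹ (x : Qb)) := by
  have hnorm : Normal ℚ Qb := normal_Qb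
  let jA : ↥F →ₐ[ℚ] PadicAlgCl q := j.toRatAlgHom
  have hjA : ∀ x, jA x = j x := fun _ => rfl
  have hinj : Function.Injective (padicEmbedding q) := (padicEmbedding q).injective
  have hrange : ∀ x : F, jA x ∈ (padicEmbedding q).range := by
    intro x
    have hx : IsIntegral ℚ x := Algebra.IsIntegral.isIntegral x
    obtain ⟨b', hb'⟩ := Fermat.Agent.S55.Bridge.mem_range_padicEmbedding_of_root q
      (minpoly ℚ x) (minpoly.ne_zero hx) (jA x) (by
        rw [Polynomial.aeval_algHom_apply, minpoly.aeval, map_zero])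
    exact ⟨b', hb'⟩
  let e := AlgEquiv.ofInjective (padicEmbedding q) hinj
  let j' : ↥F →ₐ[ℚ] Qb := (e.symm : _ →ₐ[ℚ] Qb).comp (jA.codRestrict _ hrange)
  have hj' : ∀ x : F, padicEmbedding q (j' x) = j x := by
    intro x
    have h1 : (e (j' x) : PadicAlgCl q) = jA x := by
      change (e (e.symm (jA.codRestrict _ hrange x)) : PadicAlgCl q) = _
      rw [AlgEquiv.apply_symm_apply]
      rfl
    exact h1
  let G₀ : GQ := AlgEquiv.ofBijective (j'.liftNormal Qb) (AlgHom.normal_bijective ℚ Qb Qb _)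
  have hG₀ : ∀ x : F, G₀ (x : Qb) = j' x := by
    intro x
    exact j'.liftNormal_commutes Qb x
  refine ⟨G₀⁻¹, fun x => ?_⟩
  rw [inv_inv, hG₀, hj']

/-- Existence of an embedded model of every place. -/
theorem exists_placeEmb :
    ∃ (q : ℕ) (_ : Fact q.Prime), Nonempty (PlaceEmb S F 𝔪 q) := by
  have hq : Fact (Nat.Prime ((PL0H713.primeOf S ↥F 𝔪).1 : ℕ)) := ⟨(PL0H713.primeOf S ↥F 𝔪).1.2⟩
  refine ⟨((PL0H713.primeOf S ↥F 𝔪).1 : ℕ), hq, ?_⟩
  let alg : Algebra ℚ_[((PL0H713.primeOf S ↥F 𝔪).1 : ℕ)] (LocField S 𝔪) :=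
    PL0H713.algQq S ↥F 𝔪
  have hfin : Module.Finite ℚ_[((PL0H713.primeOf S ↥F 𝔪).1 : ℕ)] (LocField S 𝔪) :=
    PL0H713.finite_locField S ↥F 𝔪
  have halg : Algebra.IsAlgebraic ℚ_[((PL0H713.primeOf S ↥F 𝔪).1 : ℕ)] (LocField S 𝔪) :=
    Algebra.IsAlgebraic.of_finite _ _
  let φ₀ : LocField S 𝔪 →ₐ[ℚ_[((PL0H713.primeOf S ↥F 𝔪).1 : ℕ)]]
      PadicAlgCl ((PL0H713.primeOf S ↥F 𝔪).1 : ℕ) := IsAlgClosed.lift
  obtain ⟨g, hg⟩ := exists_conj_of_ringHom F ((PL0H713.primeOf S ↥F 𝔪).1 : ℕ)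
    ((φ₀ : LocField S 𝔪 →+* _).comp (toLoc S 𝔪))
  exact ⟨{
    g := g
    φ := φ₀
    ι₀ := PL0H713.ofQq S ↥F 𝔪
    φ_toLoc := fun x => hg x
    φ_ι₀ := fun z => φ₀.commutes z
    ofQS_mem := fun y => ⟨_, PL0H713.ofQS_eq S ↥F 𝔪 y⟩
    ι₀_mem := fun z => ⟨_, PL0H713.ofQq_apply S ↥F 𝔪 z⟩ }⟩

end Exists

section Claims

variable {S : Finset Nat.Primes} {F : IntermediateField ℚ Qb} [FiniteDimensional ℚ F]
  [Normal ℚ F] {𝔪 : SPlace S ↥F} {q : ℕ} [Fact q.Prime] (P : PlaceEmb S F 𝔪 q)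
  (U : Subgroup GQ)

/-- `ρ τ = (g · loc τ · g⁻¹)|_F`. -/
def PlaceEmb.rho : ↥(locSub q P.g U) →* ↥(lvlGal U F) := (lvlHom U F).comp (locHom q P.g U)

lemma PlaceEmb.rho_smul_coe (τ : ↥(locSub q P.g U)) (x : F) :
    ((P.rho U τ • x : F) : Qb) = P.g (localGaloisToGlobal q τ (P.g⁻¹ (x : Qb))) := by
  change ((lvlHom U F (locHom q P.g U τ) • x : F) : Qb) = _
  rw [lvlHom_smul_coe, locHom_coe]
  rfl

lemma PlaceEmb.φ_injective : Function.Injective P.φ := P.φ.injective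

lemma PlaceEmb.φ_toLoc_rho (τ : ↥(locSub q P.g U)) (x : F) :
    P.φ (toLoc S 𝔪 (P.rho U τ • x)) =
      (τ : PadicAlgCl q ≃ₐ[ℚ_[q]] PadicAlgCl q) (P.φ (toLoc S 𝔪 x)) := by
  rw [P.φ_toLoc, P.φ_toLoc, P.rho_smul_coe, ← padicEmbedding_localGaloisToGlobal]
  congr 1
  exact AlgEquiv.symm_apply_apply P.g _

lemma PlaceEmb.φ_ofQS_fixed (τ : PadicAlgCl q ≃ₐ[ℚ_[q]] PadicAlgCl q) (y : QS S) :
    τ (P.φ (LocField.ofQS S 𝔪 y)) = P.φ (LocField.ofQS S 𝔪 y) := by
  obtain ⟨z, hz⟩ := P.ofQS_mem y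
  rw [hz, P.φ_ι₀, τ.commutes]

lemma PlaceEmb.φ_mk_asAut (τ : ↥(locSub q P.g U)) (a : AS S ↥F) :
    P.φ (LocField.mk S 𝔪 (asAut S ↥(lvlGal U F) ↥F (P.rho U τ) a)) =
      (τ : PadicAlgCl q ≃ₐ[ℚ_[q]] PadicAlgCl q) (P.φ (LocField.mk S 𝔪 a)) := by
  induction a using TensorProduct.induction_on with
  | zero => simp
  | tmul x y =>
    rw [asAut_tmul, PL0H713.mk_tmul, PL0H713.mk_tmul, map_mul, map_mul, map_mul,
      P.φ_toLoc_rho, P.φ_ofQS_fixed]
  | add a b ha hb => simp only [map_add, ha, hb]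

lemma PlaceEmb.rho_mem_decomp (τ : ↥(locSub q P.g U)) :
    P.rho U τ ∈ decomp S ↥(lvlGal U F) 𝔪 := by
  rw [mem_decomp_iff]
  refine MaximalSpectrum.ext (Ideal.ext fun a => ?_)
  rw [mem_sPlaceSMul_iff, ← LocField.mk_eq_zero_iff, ← LocField.mk_eq_zero_iff,
    ← map_eq_zero_iff P.φ P.φ_injective, ← map_eq_zero_iff P.φ P.φ_injective,
    ← map_inv, P.φ_mk_asAut]
  exact map_eq_zero_iff _ (AlgEquiv.injective _)

/-- `ρ` with values in the decomposition group. -/
def PlaceEmb.rhoD : ↥(locSub q P.g U) →* ↥(decomp S ↥(lvlGal U F) 𝔪) :=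
  (P.rho U).codRestrict _ (P.rho_mem_decomp U)

@[simp] lemma PlaceEmb.rhoD_coe (τ : ↥(locSub q P.g U)) :
    ((P.rhoD U τ : ↥(decomp S ↥(lvlGal U F) 𝔪)) : ↥(lvlGal U F)) = P.rho U τ := rfl

/-- `φ` intertwines the action of `ρ τ` on `F_𝔪` with the action of `τ` on `ℚ̄_q`. -/
lemma PlaceEmb.φ_locAut (τ : ↥(locSub q P.g U)) (y : LocField S 𝔪) :
    P.φ (locAut S ↥(lvlGal U F) 𝔪 (P.rhoD U τ) y) =
      (τ : PadicAlgCl q ≃ₐ[ℚ_[q]] PadicAlgCl q) (P.φ y) := by
  obtain ⟨a, rfl⟩ := LocField.mk_surjective S 𝔪 y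
  rw [locAut_mk]
  exact P.φ_mk_asAut U τ a

variable {U} in
/-- Elements of `Gal(ℚ̄_q / F_q)` lie in `V` and in the kernel of `ρ`. -/
lemma PlaceEmb.rhoD_of_fixing (hFU : F.fixingSubgroup ≤ U)
    (τ : PadicAlgCl q ≃ₐ[ℚ_[q]] PadicAlgCl q) (hτ : τ ∈ (localLevel q F).fixingSubgroup) :
    ∃ h : τ ∈ locSub q P.g U, P.rhoD U ⟨τ, h⟩ = 1 := by
  have h1 : localGaloisToGlobal q τ ∈ F.fixingSubgroup :=
    (mem_fixingSubgroup_localLevel_iff q F τ).1 hτ
  have h2 : ∀ x : F, P.g (localGaloisToGlobal q τ (P.g⁻¹ (x : Qb))) = (x : Qb) := by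
    intro x
    have hx : P.g⁻¹ (x : Qb) ∈ F := apply_mem_of_normal F _ x.2
    rw [(IntermediateField.mem_fixingSubgroup_iff F _).1 h1 _ hx]
    exact AlgEquiv.apply_symm_apply P.g _
  have h3 : P.g * localGaloisToGlobal q τ * P.g⁻¹ ∈ F.fixingSubgroup := by
    rw [IntermediateField.mem_fixingSubgroup_iff]
    intro x hx
    exact h2 ⟨x, hx⟩
  refine ⟨hFU h3, ?_⟩
  apply Subtype.ext
  apply Subtype.ext
  apply AlgEquiv.ext
  intro x
  apply Subtype.ext
  change ((P.rho U ⟨τ, hFU h3⟩ • x : F) : Qb) = _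
  rw [P.rho_smul_coe]
  exact h2 x

lemma isGalois_padicAlgCl473 (q : ℕ) [Fact q.Prime] : IsGalois ℚ_[q] (PadicAlgCl q) := by
  have := normal_padicAlgCl q
  exact isGalois_iff.mpr ⟨inferInstance, inferInstance⟩

/-- `F_q = ℚ_q · ι(F) ⊆ φ(F_𝔪)`. -/
lemma PlaceEmb.localLevel_le_range (a : PadicAlgCl q) (ha : a ∈ localLevel q F) :
    a ∈ Set.range P.φ := by
  let E : IntermediateField ℚ_[q] (PadicAlgCl q) :=
    P.φ.fieldRange.toIntermediateField (fun z => ⟨P.ι₀ z, P.φ_ι₀ z⟩)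
  have hE : ∀ b, b ∈ E ↔ b ∈ Set.range P.φ := fun b => Iff.rfl
  have hle : localLevel q F ≤ E := by
    unfold localLevel
    rw [IntermediateField.adjoin_le_iff]
    rintro _ ⟨x, hx, rfl⟩
    have hgx : P.g x ∈ F := apply_mem_of_normal F _ hx
    refine (hE _).2 ⟨toLoc S 𝔪 ⟨P.g x, hgx⟩, ?_⟩
    rw [P.φ_toLoc]
    congr 1
    exact AlgEquiv.symm_apply_apply P.g x
  exact (hE a).1 (hle ha)

variable {U} in
/-- The elements of `ℚ̄_q` fixed by `ker ρ` lie in `φ(F_𝔪)`. -/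
lemma PlaceEmb.mem_range_φ_of_fixed (hFU : F.fixingSubgroup ≤ U) (a : PadicAlgCl q)
    (h : ∀ τ : ↥(locSub q P.g U), P.rhoD U τ = 1 →
      (τ : PadicAlgCl q ≃ₐ[ℚ_[q]] PadicAlgCl q) a = a) :
    a ∈ Set.range P.φ := by
  have := isGalois_padicAlgCl473 q
  apply P.localLevel_le_range
  rw [← InfiniteGalois.fixedField_fixingSubgroup (localLevel q F)]
  rintro ⟨τ, hτ⟩
  obtain ⟨hV, h1⟩ := P.rhoD_of_fixing hFU τ hτ
  exact h ⟨τ, hV⟩ h1

variable {U} in
/-- `ρ : V → decomp 𝔪` is surjective. -/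
lemma PlaceEmb.rhoD_surjective (hFU : F.fixingSubgroup ≤ U) :
    Function.Surjective (P.rhoD U) := by
  intro σ
  obtain ⟨u, hu⟩ := lvlHom_surjective U F (σ : ↥(lvlGal U F))
  have hnorm := normal_padicAlgCl q
  letI a1 : Algebra ℚ_[q] (LocField S 𝔪) := P.ι₀.toAlgebra
  letI a2 : Algebra (LocField S 𝔪) (PadicAlgCl q) := P.φ.toAlgebra
  haveI : IsScalarTower ℚ_[q] (LocField S 𝔪) (PadicAlgCl q) :=
    IsScalarTower.of_algebraMap_eq (fun z => (P.φ_ι₀ z).symm)
  let ψ : LocField S 𝔪 →ₐ[ℚ_[q]] PadicAlgCl q :=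
    { toRingHom := P.φ.comp ((locAut S ↥(lvlGal U F) 𝔪 σ : LocField S 𝔪 ≃+* LocField S 𝔪) :
        LocField S 𝔪 →+* LocField S 𝔪)
      commutes' := by
        intro z
        change P.φ (locAut S ↥(lvlGal U F) 𝔪 σ (P.ι₀ z)) = _
        obtain ⟨y, hy⟩ := P.ι₀_mem z
        have h1 : locAut S ↥(lvlGal U F) 𝔪 σ (LocField.ofQS S 𝔪 y) = LocField.ofQS S 𝔪 y := by
          change locAut S ↥(lvlGal U F) 𝔪 σ (LocField.mk S 𝔪 (asIncl S ↥F y)) = _
          rw [locAut_mk, asAut_asIncl]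
          rfl
        rw [hy, h1, ← hy, P.φ_ι₀] }
  let τ : PadicAlgCl q ≃ₐ[ℚ_[q]] PadicAlgCl q :=
    AlgEquiv.ofBijective (ψ.liftNormal (PadicAlgCl q))
      (AlgHom.normal_bijective ℚ_[q] (PadicAlgCl q) (PadicAlgCl q) _)
  have hτ : ∀ y : LocField S 𝔪, τ (P.φ y) = P.φ (locAut S ↥(lvlGal U F) 𝔪 σ y) := by
    intro y
    exact ψ.liftNormal_commutes (PadicAlgCl q) y
  -- the action of `g · loc τ · g⁻¹` on `F`
  have h2 : ∀ x : F, P.g (localGaloisToGlobal q τ (P.g⁻¹ (x : Qb))) =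
      (((σ : ↥(lvlGal U F)) • x : F) : Qb) := by
    intro x
    have e1 : padicEmbedding q (localGaloisToGlobal q τ (P.g⁻¹ (x : Qb))) =
        padicEmbedding q (P.g⁻¹ ((((σ : ↥(lvlGal U F)) • x : F)) : Qb)) := by
      rw [padicEmbedding_localGaloisToGlobal, ← P.φ_toLoc, hτ, locAut_toLoc, P.φ_toLoc]
    have e2 := (padicEmbedding q).injective e1
    rw [e2]
    exact AlgEquiv.apply_symm_apply P.g _
  have h3 : ∀ x : F, (P.g * localGaloisToGlobal q τ * P.g⁻¹) (x : Qb) = (u : GQ) (x : Qb) := by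
    intro x
    rw [← lvlHom_smul_coe, hu]
    exact h2 x
  have hV : τ ∈ locSub q P.g U := by
    rw [mem_locSub]
    have hfix : P.g * localGaloisToGlobal q τ * P.g⁻¹ * (u : GQ)⁻¹ ∈ F.fixingSubgroup := by
      rw [IntermediateField.mem_fixingSubgroup_iff]
      intro x hx
      have hx' : (u : GQ)⁻¹ x ∈ F := apply_mem_of_normal F _ hx
      change (P.g * localGaloisToGlobal q τ * P.g⁻¹) ((u : GQ)⁻¹ x) = x
      rw [h3 ⟨_, hx'⟩]
      exact AlgEquiv.apply_symm_apply (u : GQ) x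
    have := U.mul_mem (hFU hfix) u.2
    rwa [inv_mul_cancel_right] at this
  refine ⟨⟨τ, hV⟩, ?_⟩
  apply Subtype.ext
  apply Subtype.ext
  apply AlgEquiv.ext
  intro x
  apply Subtype.ext
  change ((P.rho U ⟨τ, hV⟩ • x : F) : Qb) = _
  rw [P.rho_smul_coe]
  exact h2 x

end Claims

end Fermat.Agent.S55.G.Rec.HP

end
end
-- ===== PACK-END S55/G/Rec/HP/LocEmb.lean

-- ===== PACK-BEGIN S55/G/H953/H1J.lean
section




/-!
# S55, layer G, leaf G-H1J (helper953): `H¹(G, J_S(L)) = 0`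

* `locAut_injective` : the decomposition group of a place acts faithfully on the local field.
* `isZero_H1_locRep` : Hilbert 90 for `L_𝔪ˣ` as a module over the decomposition group.
* `exists_orbitReps` : a finite set of representatives of the `G`-orbits of places above `S`.
* `h1J_of : ShapiroJSpec → H1JSpec`.
-/

set_option autoImplicit false
set_option linter.style.haveILetI false

open scoped NumberField TensorProduct
open IsDedekindDomain CategoryTheory groupCohomology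

noncomputable section

namespace Fermat.Agent.S55.G.H953

open Fermat.Agent.S55.G

variable (S : Finset Nat.Primes) (G L : Type) [Group G] [Field L] [NumberField L]
  [MulSemiringAction G L]

variable {L} in
/-- `L → L_𝔪` is injective. -/
lemma toLoc_injective (𝔪 : SPlace S L) : Function.Injective (toLoc S 𝔪) :=
  (toLoc S 𝔪).injective

variable {L} in
/-- The decomposition group acts faithfully on the local field. -/
lemma locAut_injective [FaithfulSMul G L] (𝔪 : SPlace S L) :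
    Function.Injective (locAut S G 𝔪) := by
  intro g h hgh
  apply Subtype.ext
  apply FaithfulSMul.eq_of_smul_eq_smul (α := L)
  intro x
  apply toLoc_injective S 𝔪
  rw [← locAut_toLoc, ← locAut_toLoc, hgh]

variable {L} in
/-- Hilbert 90 at a place: `H¹(D_𝔪, L_𝔪ˣ) = 0`. -/
theorem isZero_H1_locRep [Finite G] [FaithfulSMul G L] (𝔪 : SPlace S L) :
    Limits.IsZero (groupCohomology (LocRep S G 𝔪) 1) :=
  isZero_H1_unitsRepr (locAut S G 𝔪) (locAut_injective S G 𝔪)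

/-- A finite set of representatives of the `G`-orbits of the places above `S`. -/
theorem exists_orbitReps [Finite (SPlace S L)] :
    ∃ R : Finset (SPlace S L),
      ∀ 𝔪 : SPlace S L, ∃! r : SPlace S L, r ∈ R ∧ ∃ g : G, sPlaceSMul S G g r = 𝔪 := by
  classical
  letI : MulAction G (SPlace S L) := sPlaceAction S G L
  have : Fintype (SPlace S L) := Fintype.ofFinite _
  have : Fintype (MulAction.orbitRel.Quotient G (SPlace S L)) := Fintype.ofFinite _
  refine ⟨Finset.univ.image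
    (fun o : MulAction.orbitRel.Quotient G (SPlace S L) => o.out), fun 𝔪 => ?_⟩
  have hout : ∀ 𝔫 : SPlace S L,
      (Quotient.mk'' 𝔫 : MulAction.orbitRel.Quotient G (SPlace S L)).out ∈
        MulAction.orbit G 𝔫 := fun 𝔫 =>
    (MulAction.orbitRel_apply).1 (Quotient.exact' (Quotient.out_eq' (Quotient.mk'' 𝔫)))
  refine ⟨(Quotient.mk'' 𝔪 : MulAction.orbitRel.Quotient G (SPlace S L)).out,
    ⟨Finset.mem_image.2 ⟨_, Finset.mem_univ _, rfl⟩, ?_⟩, ?_⟩
  · obtain ⟨g, hg⟩ := hout 𝔪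
    refine ⟨g⁻¹, ?_⟩
    have h1 : g • 𝔪 = (Quotient.mk'' 𝔪 : MulAction.orbitRel.Quotient G (SPlace S L)).out := hg
    have h2 : g⁻¹ • (g • 𝔪) = 𝔪 := inv_smul_smul g 𝔪
    rw [h1] at h2
    exact h2
  · rintro r ⟨hr, g, hg⟩
    obtain ⟨o, -, rfl⟩ := Finset.mem_image.1 hr
    have h1 : (Quotient.mk'' o.out : MulAction.orbitRel.Quotient G (SPlace S L)) =
        Quotient.mk'' 𝔪 := by
      apply Quotient.sound'
      refine (MulAction.orbitRel_apply).2 ?_
      refine ⟨g⁻¹, ?_⟩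
      have h2 : g • o.out = 𝔪 := hg
      show g⁻¹ • 𝔪 = o.out
      rw [← h2, inv_smul_smul]
    rw [Quotient.out_eq'] at h1
    rw [h1]

/-- **G-H1J** from **G-LOC**: `H¹(G, J_S(L)) = 0`. -/
theorem h1J_of (hLoc : ShapiroJSpec) : H1JSpec := by
  intro S G L _ _ _ _ _ _
  haveI : Finite (SPlace S L) := (PL0H713.locField S L).1
  obtain ⟨R, hR⟩ := exists_orbitReps S G L
  have hbij := hLoc S G L R hR 1
  rw [ModuleCat.isZero_iff_subsingleton]
  refine ⟨fun a b => hbij.1 ?_⟩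
  funext r
  haveI : Subsingleton (groupCohomology (LocRep S G r.1) 1) :=
    ModuleCat.isZero_iff_subsingleton.1 (isZero_H1_locRep S G r.1)
  exact Subsingleton.elim _ _

end Fermat.Agent.S55.G.H953

end
end
-- ===== PACK-END S55/G/H953/H1J.lean

-- ===== PACK-BEGIN S55/G/LocH897/Trans.lean
section




/-!
# S55 / layer G (helper897): the Galois group acts transitively on the places above `q`

If the finite group `Γ` acts on the number field `L` with fixed field `ℚ`, then two places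
`𝔪, 𝔫` of `L` above `S` (maximal ideals of `L ⊗ ℚ_S`) over the same rational prime are conjugate
under `Γ` (`exists_sPlaceSMul_eq`), and conversely conjugate places lie over the same prime
(`primeOf_sPlaceSMul`).
-/

set_option autoImplicit false
set_option linter.style.haveILetI false

open scoped TensorProduct

namespace Fermat.Agent.S55.G.LocH897

open Fermat.Agent.S55 Fermat.Agent.S55.G Fermat.Agent.S55.G.PL0H713

variable (S : Finset Nat.Primes) (Γ L : Type) [Group Γ] [Field L] [NumberField L]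
  [MulSemiringAction Γ L]

/-- The image of `y : ℚ_S` in `L_𝔪` only depends on its component at the prime below `𝔪`. -/
lemma mk_one_tmul (𝔪 : SPlace S L) (y : QS S) :
    LocField.mk S 𝔪 ((1 : L) ⊗ₜ[ℚ] y) = ofQq S L 𝔪 (QS.toPi S y (primeOf S L 𝔪)) := by
  rw [mk_tmul, map_one, one_mul, ofQS_eq]

/-- **Transitivity.**  Places over the same rational prime are Galois-conjugate. -/
theorem exists_sPlaceSMul_eq [Finite Γ]
    (hfix : ∀ x : L, (∀ g : Γ, g • x = x) → ∃ c : ℚ, algebraMap ℚ L c = x)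
    (𝔪 𝔫 : SPlace S L) (h : primeOf S L 𝔪 = primeOf S L 𝔫) :
    ∃ g : Γ, sPlaceSMul S Γ g 𝔪 = 𝔫 := by
  classical
  by_contra hne0
  have hne : ∀ g : Γ, sPlaceSMul S Γ g 𝔪 ≠ 𝔫 := fun g hg => hne0 ⟨g, hg⟩
  haveI : Fintype Γ := Fintype.ofFinite Γ
  haveI := isReduced_AS S L
  haveI := _root_.Fermat.Agent.S55.G.LocH897.isArtinianRing_AS S L
  -- an element `x ∈ 𝔫` with `x ≡ 1` modulo every other maximal ideal
  obtain ⟨x, hx⟩ := exists_forall_sub_mem_maximal (R := AS S L)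
    (fun 𝔫' _ => if 𝔫' = 𝔫.asIdeal then 0 else 1)
  have hx𝔫 : x ∈ 𝔫.asIdeal := by
    have := hx 𝔫.asIdeal 𝔫.isMaximal
    rwa [if_pos rfl, sub_zero] at this
  have hx𝔪 : ∀ g : Γ, asRingAut Γ S L g x - 1 ∈ 𝔪.asIdeal := by
    intro g
    have h1 := hx (sPlaceSMul S Γ g⁻¹ 𝔪).asIdeal (sPlaceSMul S Γ g⁻¹ 𝔪).isMaximal
    rw [if_neg (fun hh => hne g⁻¹ (MaximalSpectrum.ext hh))] at h1
    rw [mem_sPlaceSMul_iff', inv_inv, map_sub, map_one] at h1
    exact h1
  -- its norm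
  set N : AS S L := ∏ g : Γ, asRingAut Γ S L g x with hN
  have hN𝔫 : N ∈ 𝔫.asIdeal := by
    refine Ideal.mem_of_dvd _ (Finset.dvd_prod_of_mem _ (Finset.mem_univ (1 : Γ))) ?_
    rw [map_one]
    exact hx𝔫
  have hN𝔪 : LocField.mk S 𝔪 N = 1 := by
    rw [hN, map_prod]
    refine Finset.prod_eq_one fun g _ => ?_
    have := (LocField.mk_eq_zero_iff S 𝔪 _).2 (hx𝔪 g)
    rw [map_sub, map_one, sub_eq_zero] at this
    exact this
  have hNinv : ∀ g : Γ, (asAut S Γ L g).toLinearMap N = N := by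
    intro g
    show asRingAut Γ S L g N = N
    rw [hN, map_prod]
    refine Fintype.prod_bijective (fun h => g * h) (Group.mulLeft_bijective g) _ _ fun h => ?_
    rw [map_mul, RingAut.mul_apply]
  obtain ⟨y, hy⟩ := exists_tmul_of_invariant Γ L (QS S) hfix
    (fun g => (asAut S Γ L g).toLinearMap) (fun g a b => asAut_tmul S Γ L g a b) N hNinv
  have h0 : QS.toPi S y (primeOf S L 𝔫) = 0 := by
    have h1 := (LocField.mk_eq_zero_iff S 𝔫 N).2 hN𝔫
    rw [hy, mk_one_tmul] at h1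
    exact (map_eq_zero_iff _ (ofQq S L 𝔫).injective).1 h1
  have h1 : QS.toPi S y (primeOf S L 𝔪) = 1 := by
    have h2 := hN𝔪
    rw [hy, mk_one_tmul] at h2
    exact (ofQq S L 𝔪).injective (h2.trans (map_one _).symm)
  rw [h] at h1
  rw [h0] at h1
  exact zero_ne_one h1

/-- Conjugate places lie over the same rational prime. -/
theorem primeOf_sPlaceSMul (g : Γ) (𝔪 : SPlace S L) :
    primeOf S L (sPlaceSMul S Γ g 𝔪) = primeOf S L 𝔪 := by
  by_contra hne
  set q := primeOf S L 𝔪 with hq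
  set e : AS S L := (1 : L) ⊗ₜ[ℚ] (single S q 1) with he
  have h1 : LocField.mk S 𝔪 e = 1 := by
    rw [he, mk_one_tmul, single_apply_same, map_one]
  have hmem : e - 1 ∈ (sPlaceSMul S Γ g 𝔪).asIdeal := by
    rw [mem_sPlaceSMul_iff']
    have hinv : asRingAut Γ S L g⁻¹ e = e := by
      rw [he, asRingAut_apply, asAut_tmul, smul_one]
    rw [map_sub, map_one, hinv]
    have := sub_eq_zero.2 h1
    rw [← map_one (LocField.mk S 𝔪), ← map_sub] at this
    exact (LocField.mk_eq_zero_iff S 𝔪 _).1 this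
  have h2 : LocField.mk S (sPlaceSMul S Γ g 𝔪) e = 1 := by
    have := (LocField.mk_eq_zero_iff S (sPlaceSMul S Γ g 𝔪) _).2 hmem
    rw [map_sub, map_one, sub_eq_zero] at this
    exact this
  rw [he, mk_one_tmul, single_apply_ne S q _ hne, map_zero] at h2
  exact zero_ne_one h2

end Fermat.Agent.S55.G.LocH897

end
-- ===== PACK-END S55/G/LocH897/Trans.lean

-- ===== PACK-BEGIN S55/G/Exist/IdxH901Local.lean
section
/-
S55, layer G, block EXIST, leaf EX-IDX (helper901) — part 2: the index `[J_S(K) : p J_S(K)]`.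
Sorry-free.

For a number field `K ∋ μ_p` and a finite set `S` of rational primes:
* `index_J_eq_prod` : `[J_S : n J_S] = ∏_𝔪 [L_𝔪ˣ : (L_𝔪ˣ)ⁿ]` (product over the places above `S`);
* `index_locField` : `[L_𝔪ˣ : (L_𝔪ˣ)ᵖ] = p · (p · c ^ [L_𝔪 : ℚ_q])`, `c = p` if `q = p`, else `1`;
* `sum_locDeg_le` : `∑_{𝔪 | q} [L_𝔪 : ℚ_q] ≤ [K : ℚ]`;
* `index_J_le` : `[J_S : p J_S] ≤ p ^ (2 · #places + [K : ℚ])`, and it is non-zero.
-/





set_option autoImplicit false
set_option linter.unusedSectionVars false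
set_option linter.style.haveILetI false
set_option backward.isDefEq.respectTransparency false

open scoped NumberField TensorProduct
open IsLocalRing

namespace Fermat.Agent.S55.G.Exist.H901

open Fermat.Agent.S55.G Fermat.Agent.S55.G.PL0H713

variable (S : Finset Nat.Primes) (K : Type) [Field K] [NumberField K]

/-! ## 1. The index of `J_S` as a product over the places -/

/-- `[J_S : n J_S] = ∏_𝔪 [L_𝔪ˣ : (L_𝔪ˣ)ⁿ]`. -/
theorem index_J_eq_prod [Fintype (SPlace S K)] (n : ℕ) :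
    (nsmulAddMonoidHom (α := Additive (AS S K)ˣ) n).range.index =
      ∏ 𝔪 : SPlace S K, (powMonoidHom n : (LocField S 𝔪)ˣ →* (LocField S 𝔪)ˣ).range.index := by
  haveI := PL0H713.isArtinianRing_AS S K
  haveI := LocH897.isReduced_AS S K
  rw [index_range_nsmul_additive,
    index_range_pow_units_congr (IsArtinianRing.equivPi (AS S K)).toRingEquiv n]
  exact index_range_pow_units_pi (R := fun 𝔪 : SPlace S K => LocField S 𝔪) n

/-! ## 2. The local index -/

/-- `|ℤ_q / (p)| = p` if `q = p`, and `1` otherwise. -/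
theorem card_padicInt_quot (q p : ℕ) [hq : Fact q.Prime] [hp : Fact p.Prime] :
    Nat.card (ℤ_[q] ⧸ Ideal.span {(p : ℤ_[q])}) = if q = p then p else 1 := by
  split_ifs with h
  · subst h
    rw [← PadicInt.maximalIdeal_eq_span_p]
    exact (Nat.card_congr (PadicInt.residueField (p := q)).toEquiv).trans (Nat.card_zmod q)
  · apply H424.card_quot_span_of_isUnit
    rw [PadicInt.isUnit_iff, PadicInt.norm_natCast_eq_one_iff]
    exact (Nat.coprime_primes hq.out hp.out).2 h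

/-- The local degree `[L_𝔪 : ℚ_q]`, `q` the prime below `𝔪`. -/
noncomputable def locDeg (𝔪 : SPlace S K) : ℕ :=
  @Module.finrank (Qq (primeOf S K 𝔪).1) (LocField S 𝔪) _ _ (algQq S K 𝔪).toModule

/-- **Local power index** at a place `𝔪` above `S`, for `K ∋ μ_p`. -/
theorem index_locField (p : ℕ) [hp : Fact p.Prime] {ζ : K} (hζ : IsPrimitiveRoot ζ p)
    (𝔪 : SPlace S K) :
    (powMonoidHom p : (LocField S 𝔪)ˣ →* (LocField S 𝔪)ˣ).range.index =
      p * (p * (if ((primeOf S K 𝔪).1 : ℕ) = p then p else 1) ^ locDeg S K 𝔪) := by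
  letI := algQq S K 𝔪
  haveI : Module.Finite (Qq (primeOf S K 𝔪).1) (LocField S 𝔪) := finite_locField S K 𝔪
  haveI : Fact (Nat.Prime ((primeOf S K 𝔪).1 : ℕ)) := ⟨(primeOf S K 𝔪).1.2⟩
  haveI : NeZero p := ⟨hp.out.ne_zero⟩
  have h := H424.localField_index_range_pow ℤ_[((primeOf S K 𝔪).1 : ℕ)]
    ℚ_[((primeOf S K 𝔪).1 : ℕ)] (LocField S 𝔪) p hp.out.ne_zero
  have hζ' : IsPrimitiveRoot (toLoc S 𝔪 ζ) p := hζ.map_of_injective (toLoc S 𝔪).injective
  rw [h, card_padicInt_quot, hζ'.card_rootsOfUnity]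
  rfl

/-! ## 3. The sum of the local degrees above a prime -/

/-- The embedding `ℚ_q → L_𝔪` for a place `𝔪` above `q`. -/
noncomputable def ofQqAt (q : S) (𝔪 : SPlace S K) (h : primeOf S K 𝔪 = q) :
    Qq q.1 →+* LocField S 𝔪 where
  toFun x := LocField.ofQS S 𝔪 (single S q x)
  map_one' := by subst h; exact ofQS_single_primeOf S K 𝔪
  map_mul' x y := by rw [single_mul, map_mul]
  map_zero' := by rw [single_zero, map_zero]
  map_add' x y := by rw [single_add, map_add]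

lemma ofQqAt_apply (q : S) (𝔪 : SPlace S K) (h : primeOf S K 𝔪 = q) (x : Qq q.1) :
    ofQqAt S K q 𝔪 h x = LocField.ofQS S 𝔪 (single S q x) := rfl

lemma finrank_ofQqAt (q : S) (𝔪 : SPlace S K) (h : primeOf S K 𝔪 = q) :
    @Module.finrank (Qq q.1) (LocField S 𝔪) _ _ (ofQqAt S K q 𝔪 h).toAlgebra.toModule =
      locDeg S K 𝔪 := by
  subst h
  rfl

lemma finite_ofQqAt (q : S) (𝔪 : SPlace S K) (h : primeOf S K 𝔪 = q) :
    @Module.Finite (Qq q.1) (LocField S 𝔪) _ _ (ofQqAt S K q 𝔪 h).toAlgebra.toModule := by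
  subst h
  exact finite_locField S K 𝔪

lemma ofQS_eq_ofQqAt (q : S) (𝔪 : SPlace S K) (h : primeOf S K 𝔪 = q) (y : QS S) :
    LocField.ofQS S 𝔪 y = ofQqAt S K q 𝔪 h (QS.toPi S y q) := by
  subst h
  exact ofQS_eq S K 𝔪 y

lemma toLoc_algebraMap_ofQqAt (q : S) (𝔪 : SPlace S K) (h : primeOf S K 𝔪 = q) (c : ℚ) :
    toLoc S 𝔪 (algebraMap ℚ K c) = ofQqAt S K q 𝔪 h (algebraMap ℚ (Qq q.1) c) := by
  subst h
  exact toLoc_algebraMap S K 𝔪 c

/-- Every element of `K ⊗ ℚ_S` is, at all places above `q` simultaneously, a `ℚ_q`-linear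
combination of the images of a `ℚ`-basis of `K`. -/
lemma exists_coeff (q : S) {ι : Type*} [Fintype ι] (b : Module.Basis ι ℚ K) (a : AS S K) :
    ∃ c : ι → Qq q.1, ∀ (𝔪 : SPlace S K) (h : primeOf S K 𝔪 = q),
      LocField.mk S 𝔪 a = ∑ i, ofQqAt S K q 𝔪 h (c i) * toLoc S 𝔪 (b i) := by
  induction a using TensorProduct.induction_on with
  | zero =>
    refine ⟨fun _ => 0, fun 𝔪 h => ?_⟩
    simp
  | tmul l y =>
    refine ⟨fun i => algebraMap ℚ (Qq q.1) (b.repr l i) * QS.toPi S y q, fun 𝔪 h => ?_⟩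
    rw [mk_tmul, ofQS_eq_ofQqAt S K q 𝔪 h]
    conv_lhs => rw [← b.sum_repr l]
    rw [map_sum, Finset.sum_mul]
    refine Finset.sum_congr rfl fun i _ => ?_
    rw [Algebra.smul_def, map_mul, toLoc_algebraMap_ofQqAt S K q 𝔪 h, map_mul]
    ring
  | add a₁ a₂ h₁ h₂ =>
    obtain ⟨c₁, hc₁⟩ := h₁
    obtain ⟨c₂, hc₂⟩ := h₂
    refine ⟨fun i => c₁ i + c₂ i, fun 𝔪 h => ?_⟩
    rw [map_add, hc₁ 𝔪 h, hc₂ 𝔪 h, ← Finset.sum_add_distrib]
    refine Finset.sum_congr rfl fun i _ => ?_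
    rw [map_add, add_mul]

/-- Chinese remainder theorem in `K ⊗ ℚ_S`: prescribe the images at the places. -/
lemma exists_mk_eq [Fintype (SPlace S K)] (w : ∀ 𝔪 : SPlace S K, LocField S 𝔪) :
    ∃ a : AS S K, ∀ 𝔪 : SPlace S K, LocField.mk S 𝔪 a = w 𝔪 := by
  haveI := PL0H713.isArtinianRing_AS S K
  haveI := LocH897.isReduced_AS S K
  obtain ⟨a, ha⟩ := (IsArtinianRing.equivPi (AS S K)).surjective w
  exact ⟨a, fun 𝔪 => congrFun ha 𝔪⟩

/-- `∑_{𝔪 | q} [L_𝔪 : ℚ_q] ≤ [K : ℚ]`. -/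
theorem sum_locDeg_le [Fintype (SPlace S K)] (q : S)
    [DecidablePred fun 𝔪 : SPlace S K => primeOf S K 𝔪 = q] :
    ∑ 𝔪 ∈ Finset.univ.filter (fun 𝔪 : SPlace S K => primeOf S K 𝔪 = q), locDeg S K 𝔪 ≤
      Module.finrank ℚ K := by
  classical
  let T := {𝔪 : SPlace S K // primeOf S K 𝔪 = q}
  letI alg : ∀ 𝔪 : T, Algebra (Qq q.1) (LocField S 𝔪.1) :=
    fun 𝔪 => (ofQqAt S K q 𝔪.1 𝔪.2).toAlgebra
  haveI fin : ∀ 𝔪 : T, Module.Finite (Qq q.1) (LocField S 𝔪.1) :=
    fun 𝔪 => finite_ofQqAt S K q 𝔪.1 𝔪.2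
  let b := Module.finBasis ℚ K
  let f : (Fin (Module.finrank ℚ K) → Qq q.1) →ₗ[Qq q.1] (∀ 𝔪 : T, LocField S 𝔪.1) :=
    LinearMap.pi fun 𝔪 => Fintype.linearCombination (Qq q.1) (fun i => toLoc S 𝔪.1 (b i))
  have hf : Function.Surjective f := by
    intro v
    obtain ⟨a, ha⟩ := exists_mk_eq S K
      (fun 𝔪 => if h : primeOf S K 𝔪 = q then v ⟨𝔪, h⟩ else 0)
    obtain ⟨c, hc⟩ := exists_coeff S K q b a
    refine ⟨c, funext fun 𝔪 => ?_⟩
    have h1 := ha 𝔪.1
    rw [dif_pos 𝔪.2] at h1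
    rw [← h1, hc 𝔪.1 𝔪.2]
    change ∑ i, c i • toLoc S 𝔪.1 (b i) = _
    refine Finset.sum_congr rfl fun i _ => ?_
    rw [Algebra.smul_def]
    rfl
  have h1 := LinearMap.finrank_le_finrank_of_surjective hf
  rw [Module.finrank_fintype_fun_eq_card, Fintype.card_fin, Module.finrank_pi_fintype] at h1
  have h2 : ∑ 𝔪 : T, Module.finrank (Qq q.1) (LocField S 𝔪.1) = ∑ 𝔪 : T, locDeg S K 𝔪.1 :=
    Finset.sum_congr rfl fun 𝔪 _ => finrank_ofQqAt S K q 𝔪.1 𝔪.2
  rw [h2] at h1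
  rw [Finset.sum_subtype (Finset.univ.filter (fun 𝔪 : SPlace S K => primeOf S K 𝔪 = q))
    (p := fun 𝔪 : SPlace S K => primeOf S K 𝔪 = q) (fun x => by simp)]
  exact h1

/-! ## 4. The bound for `[J_S : p J_S]` -/

/-- `[J_S : p J_S] = p ^ (2 · #places) · p ^ (∑_{𝔪 | p} [L_𝔪 : ℚ_p])`. -/
theorem index_J_eq [Fintype (SPlace S K)] (p : ℕ) [hp : Fact p.Prime] {ζ : K}
    (hζ : IsPrimitiveRoot ζ p) (hpS : (⟨p, hp.out⟩ : Nat.Primes) ∈ S)
    [DecidablePred fun 𝔪 : SPlace S K => primeOf S K 𝔪 = ⟨⟨p, hp.out⟩, hpS⟩] :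
    (nsmulAddMonoidHom (α := Additive (AS S K)ˣ) p).range.index =
      p ^ (2 * Fintype.card (SPlace S K)) *
        p ^ (∑ 𝔪 ∈ Finset.univ.filter
          (fun 𝔪 : SPlace S K => primeOf S K 𝔪 = ⟨⟨p, hp.out⟩, hpS⟩), locDeg S K 𝔪) := by
  classical
  rw [index_J_eq_prod S K p]
  simp_rw [index_locField S K p hζ]
  rw [Finset.prod_mul_distrib, Finset.prod_mul_distrib, Finset.prod_const,
    Finset.card_univ, ← mul_assoc, ← pow_add, ← two_mul]
  congr 1
  rw [Finset.sum_filter, ← Finset.prod_pow_eq_pow_sum]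
  refine Finset.prod_congr rfl fun 𝔪 _ => ?_
  have hiff : ((primeOf S K 𝔪).1 : ℕ) = p ↔ primeOf S K 𝔪 = ⟨⟨p, hp.out⟩, hpS⟩ := by
    constructor
    · intro h
      exact Subtype.ext (Subtype.ext h)
    · intro h
      rw [h]
  by_cases h : primeOf S K 𝔪 = ⟨⟨p, hp.out⟩, hpS⟩
  · rw [if_pos (hiff.2 h), if_pos h]
  · rw [if_neg (fun h' => h (hiff.1 h')), if_neg h, one_pow, pow_zero]

/-- **Upper bound** `[J_S : p J_S] ≤ p ^ (2 · #places + [K : ℚ])`, and the index is non-zero. -/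
theorem index_J_le [Fintype (SPlace S K)] (p : ℕ) [hp : Fact p.Prime] {ζ : K}
    (hζ : IsPrimitiveRoot ζ p) (hpS : (⟨p, hp.out⟩ : Nat.Primes) ∈ S) :
    (nsmulAddMonoidHom (α := Additive (AS S K)ˣ) p).range.index ≠ 0 ∧
    (nsmulAddMonoidHom (α := Additive (AS S K)ˣ) p).range.index ≤
      p ^ (2 * Fintype.card (SPlace S K) + Module.finrank ℚ K) := by
  classical
  rw [index_J_eq S K p hζ hpS]
  refine ⟨mul_ne_zero (pow_ne_zero _ hp.out.ne_zero) (pow_ne_zero _ hp.out.ne_zero), ?_⟩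
  rw [← pow_add]
  exact Nat.pow_le_pow_right hp.out.pos
    (Nat.add_le_add_left (sum_locDeg_le S K ⟨⟨p, hp.out⟩, hpS⟩) _)

end Fermat.Agent.S55.G.Exist.H901

end
-- ===== PACK-END S55/G/Exist/IdxH901Local.lean

-- ===== PACK-BEGIN S55/G/CM/H514/SubCM.lean
section



/-!
# S55 / layer G / block CM, leaf **SUBCM** (helper514; subtask 610)

`subClassModuleSpec : G.CM.SubClassModuleSpec` — hand-in at the exact frozen type of
`Fermat/Agent/S55/G/CM/Spec.lean`.
-/

set_option autoImplicit false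

namespace Fermat.Agent.S55.G.CM.H514

/-- **G-CM:SUBCM**: a class module at `p` restricts to a class module at `p` on every
subgroup. -/
theorem subClassModuleSpec : Fermat.Agent.S55.G.CM.SubClassModuleSpec :=
  fun p _ _ _ C γ h Γ' => subClassModule C p γ h Γ'

end Fermat.Agent.S55.G.CM.H514

end
-- ===== PACK-END S55/G/CM/H514/SubCM.lean

-- ===== PACK-BEGIN S55/G/Rec/Tow/FR/Defs.lean
section
/-
S55 / layer G / block REC / adapter TOW / leaf FR (subtask 558) — DEFINITIONS.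
Sub-architect of FR: helper353.   Plan: `coord/S55-REC-TOW-FR.md`.

FR = construction of the finite-level semilocal invariants `TOW.SemiLocalInv p` from the
reciprocity law `Rec.ReciprocitySpec I p` on Prelude cochains.

This file (NO sorry):
* `LocDatum A q V` / `GlobDatum A U` : abstract "pull–push" data from a finite-level module
  `A : Rep ℤ Γ` to the Prelude Brauer groups `lBr q V` / `gBr U`, with the induced maps
  `LocDatum.map : H²(Γ, A) → lBr q V`, `GlobDatum.map : H²(Γ, A) → gBr U`;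
* for a Tower level `M`, `H ≤ M.Gal` and ANY finite set `W` of primes: `UH M H` (preimage of `H`
  in `G_ℚ`), `piH`, `evAlg M W q hq g : M.F ⊗ ℚ_W → ℚ̄_q` (`x ⊗ y ↦ ι_q(g⁻¹ x) · y_q`),
  `placeOf M W q hq g` (its kernel, a place of `M` above `q`), `cDatum`, `cH2`
  (`c_{q,g} : H²(H, J_W(M)) → lBr q (locSub q g (UH M H))`), `inflDatum`, `inflL`
  (`H²(H, Mˣ) → gBr (UH M H)`);
* `reps U q` : chosen representatives of `U \ G_ℚ / D_q`;
* `sigma I M H = ∑_{q ∈ S} ∑_{g ∈ reps (UH M H) q} I.inv ∘ c_{q,g}`.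
-/






set_option autoImplicit false
set_option linter.unusedSectionVars false
set_option linter.style.haveILetI false

open CategoryTheory groupCohomology
open scoped TensorProduct

noncomputable section

namespace Fermat.Agent.S55.G.Rec.TOW.FR

open Fermat.Agent.S55 Fermat.Agent.S55.Tow Fermat.Agent.S55.E1.H594 Fermat.Agent.S55.G.Rec

local notation "Qb" => AlgebraicClosure ℚ
local notation "GQ" => (AlgebraicClosure ℚ ≃ₐ[ℚ] AlgebraicClosure ℚ)

/-! ## 1. Abstract pull–push into the Prelude Brauer groups -/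

section Abstract

/-- Descend an additive map on 2-cocycles that kills coboundaries to `H2` (additive version of
`Bridge.H2desc`; generic in the coefficient ring, no `Module ℤ` diamond). -/
def H2descAdd {k G : Type} [CommRing k] [Group G] (A : Rep.{0} k G) {X : Type*} [AddCommGroup X]
    (g : cocycles₂ A →+ X)
    (hg : ∀ c : cocycles₂ A, (c : G × G → A) ∈ coboundaries₂ A → g c = 0) : H2 A →+ X :=
  (QuotientAddGroup.lift (H2π A).hom.toAddMonoidHom.ker g (by
      intro c hc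
      rw [AddMonoidHom.mem_ker] at hc ⊢
      exact hg c ((H2π_eq_zero_iff c).1 hc))).comp
    (QuotientAddGroup.quotientKerEquivOfSurjective (H2π A).hom.toAddMonoidHom
      (Bridge.H2π_surjective A)).symm.toAddMonoidHom

@[simp] theorem H2descAdd_H2π {k G : Type} [CommRing k] [Group G] (A : Rep.{0} k G) {X : Type*}
    [AddCommGroup X] (g : cocycles₂ A →+ X)
    (hg : ∀ c : cocycles₂ A, (c : G × G → A) ∈ coboundaries₂ A → g c = 0) (c : cocycles₂ A) :
    H2descAdd A g hg ((H2π A).hom c) = g c := by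
  unfold H2descAdd
  rw [AddMonoidHom.comp_apply]
  have h : (QuotientAddGroup.quotientKerEquivOfSurjective (H2π A).hom.toAddMonoidHom
      (Bridge.H2π_surjective A)).symm ((H2π A).hom c) = QuotientAddGroup.mk c := by
    rw [AddEquiv.symm_apply_eq]
    rfl
  rw [AddEquiv.coe_toAddMonoidHom, h]
  rfl

/-- An additive map between the underlying groups of two representations over `ℤ` is `ℤ`-linear
for the module structures carried by the representations. -/
def linOfAdd {G₁ G₂ : Type} [Group G₁] [Group G₂] {A : Rep.{0} ℤ G₁} {B : Rep.{0} ℤ G₂}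
    (ψ : A.V →+ B.V) : @LinearMap ℤ ℤ _ _ (RingHom.id ℤ) A.V B.V _ _ A.hV2 B.hV2 :=
  letI := A.hV2
  letI := B.hV2
  { toFun := ψ
    map_add' := ψ.map_add
    map_smul' := fun c x => by
      rw [RingHom.id_apply]
      exact ((congrArg ψ (int_smul_eq_zsmul A.hV2 c x)).trans (map_zsmul ψ c x)).trans
        (int_smul_eq_zsmul B.hV2 c (ψ x)).symm }

@[simp] lemma linOfAdd_apply {G₁ G₂ : Type} [Group G₁] [Group G₂] {A : Rep.{0} ℤ G₁}
    {B : Rep.{0} ℤ G₂} (ψ : A.V →+ B.V) (x : A.V) : linOfAdd ψ x = ψ x := rfl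

variable {Γ : Type} [Group Γ] (A : Rep.{0} ℤ Γ)

/-- A **local datum**: a homomorphism `h : V → Γ` from an (open) subgroup `V ≤ G_{ℚ_q}` to the
finite-level group, trivial on a level, and an equivariant additive map `φ : A → ℚ̄_qˣ`. -/
structure LocDatum (q : ℕ) [Fact q.Prime]
    (V : Subgroup (PadicAlgCl q ≃ₐ[ℚ_[q]] PadicAlgCl q)) where
  /-- the group homomorphism -/
  h : ↥V →* Γ
  /-- the coefficient map -/
  φ : A.V →+ (lModOn q V).V
  equivariant : ∀ (τ : ↥V) (a : A.V), φ (A.ρ (h τ) a) = (lModOn q V).ρ τ (φ a)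
  level : ∃ F : IntermediateField ℚ Qb, FiniteDimensional ℚ F ∧
    ∀ τ : ↥V, lHom q V τ ∈ F.fixingSubgroup → h τ = 1

/-- A **global datum**: a homomorphism `h : U → Γ` from an (open) subgroup `U ≤ G_ℚ`, trivial on
a level, and an equivariant additive map `φ : A → ℚ̄ˣ`. -/
structure GlobDatum (U : Subgroup GQ) where
  /-- the group homomorphism -/
  h : ↥U →* Γ
  /-- the coefficient map -/
  φ : A.V →+ (gModOn U).V
  equivariant : ∀ (u : ↥U) (a : A.V), φ (A.ρ (h u) a) = (gModOn U).ρ u (φ a)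
  level : ∃ F : IntermediateField ℚ Qb, FiniteDimensional ℚ F ∧
    ∀ u : ↥U, (u : GQ) ∈ F.fixingSubgroup → h u = 1

variable {A}

namespace LocDatum

variable {q : ℕ} [Fact q.Prime] {V : Subgroup (PadicAlgCl q ≃ₐ[ℚ_[q]] PadicAlgCl q)}
  (d : LocDatum A q V)

/-- The pull–push of a 2-cochain: `(τ, τ') ↦ φ (x (h τ, h τ'))`. -/
def push₂ (x : Γ × Γ → A.V) : ↥V × ↥V → (lModOn q V).V := fun p => d.φ (x (d.h p.1, d.h p.2))

/-- The pull–push of a 1-cochain: `τ ↦ φ (x (h τ))`. -/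
def push₁ (x : Γ → A.V) : ↥V → (lModOn q V).V := fun τ => d.φ (x (d.h τ))

lemma push₂_eq (x : Γ × Γ → A.V) :
    d.push₂ x = cochainsPullPush₂ d.h (linOfAdd d.φ) x := rfl

lemma push₁_eq (x : Γ → A.V) :
    d.push₁ x = cochainsPullPush₁ d.h (linOfAdd d.φ) x := rfl

lemma isLevelConstant₂ (x : Γ × Γ → A.V) : IsLevelConstant₂ (lHom q V) (d.push₂ x) := by
  obtain ⟨F, hF, h⟩ := d.level
  refine ⟨F, hF, fun g g' s s' hs hs' => ?_⟩
  simp only [push₂, map_mul, h s hs, h s' hs', mul_one]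

lemma isLevelConstant₁ (x : Γ → A.V) : IsLevelConstant₁ (lHom q V) (d.push₁ x) := by
  obtain ⟨F, hF, h⟩ := d.level
  refine ⟨F, hF, fun g s hs => ?_⟩
  simp only [push₁, map_mul, h s hs, mul_one]

lemma push₂_mem_levelCocycles₂ (c : cocycles₂ A) :
    d.push₂ c ∈ levelCocycles₂ (lHom q V) (lModOn q V) :=
  ⟨cochainsPullPush₂_mem_cocycles₂ d.h (linOfAdd d.φ) d.equivariant c.2, d.isLevelConstant₂ _⟩

lemma push₂_d₁₂ (y : Γ → A.V) :
    d.push₂ ((d₁₂ A).hom y) = (d₁₂ (lModOn q V)).hom (d.push₁ y) :=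
  cochainsPullPush₂_d₁₂ d.h (linOfAdd d.φ) d.equivariant y

/-- The map on cocycles. -/
def cocycles : cocycles₂ A →+ ↥(levelCocycles₂ (lHom q V) (lModOn q V)) where
  toFun c := ⟨d.push₂ c, d.push₂_mem_levelCocycles₂ c⟩
  map_zero' := Subtype.ext (funext fun _ => map_zero d.φ)
  map_add' _ _ := Subtype.ext (funext fun _ => map_add d.φ _ _)

@[simp] lemma coe_cocycles (c : cocycles₂ A) :
    (d.cocycles c : ↥V × ↥V → lModOn q V) = d.push₂ c := rfl

lemma cocycles_apply (c : cocycles₂ A) (τ τ' : ↥V) :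
    (d.cocycles c : ↥V × ↥V → lModOn q V) (τ, τ') = d.φ (c (d.h τ, d.h τ')) := rfl

/-- **The map `H²(Γ, A) → lBr q V` of a local datum.** -/
def map : H2 A →+ lBr q V :=
  H2descAdd A ((continuousH2π (lHom q V) (lModOn q V)).toAddMonoidHom.comp d.cocycles) (by
    intro c hc
    rw [AddMonoidHom.comp_apply]
    show continuousH2π (lHom q V) (lModOn q V) (d.cocycles c) = 0
    rw [continuousH2π_eq_zero_iff, mem_levelCoboundaries₂_iff]
    obtain ⟨y, hy⟩ := hc
    refine ⟨d.push₁ y, d.isLevelConstant₁ y, ?_⟩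
    rw [coe_cocycles, ← hy]
    exact (d.push₂_d₁₂ y).symm)

@[simp] lemma map_H2π (c : cocycles₂ A) :
    d.map ((H2π A).hom c) = continuousH2π (lHom q V) (lModOn q V) (d.cocycles c) :=
  H2descAdd_H2π _ _ _ c

/-- Two local data with the same `h` and `φ` induce the same map. -/
lemma map_congr {d d' : LocDatum A q V} (hh : d.h = d'.h) (hφ : d.φ = d'.φ) : d.map = d'.map := by
  cases d; cases d'; cases hh; cases hφ; rfl

/-- Composition of a local datum with a morphism of pairs `(f, ψ) : (Γ, A) → (Γ', A')`. -/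
def comp {Γ' : Type} [Group Γ'] {A' : Rep.{0} ℤ Γ'} (d : LocDatum A' q V) (f : Γ' →* Γ)
    (ψ : Rep.res f A ⟶ A') : LocDatum A q V where
  h := f.comp d.h
  φ := d.φ.comp (AddMonoidHom.mk' (fun a : A.V => (ψ.hom a : A'.V)) (fun a b => map_add ψ.hom a b))
  equivariant τ a := by
    have h1 : ψ.hom (A.ρ (f (d.h τ)) a) = A'.ρ (d.h τ) (ψ.hom a) :=
      Rep.hom_comm_apply ψ (d.h τ) a
    show d.φ (ψ.hom (A.ρ (f (d.h τ)) a)) = _
    rw [h1]
    exact d.equivariant τ (ψ.hom a)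
  level := by
    obtain ⟨F, hF, h⟩ := d.level
    exact ⟨F, hF, fun τ hτ => by rw [MonoidHom.comp_apply, h τ hτ, map_one]⟩

theorem map_comp {Γ' : Type} [Group Γ'] {A' : Rep.{0} ℤ Γ'} (d : LocDatum A' q V) (f : Γ' →* Γ)
    (ψ : Rep.res f A ⟶ A') (x : H2 A) :
    (d.comp f ψ).map x = d.map ((groupCohomology.map f ψ 2).hom x) := by
  obtain ⟨c, rfl⟩ := Bridge.H2π_surjective A x
  have h := congrArg (fun φ => φ.hom c) (H2π_comp_map (A := A) (B := A') f ψ)
  simp only [ModuleCat.hom_comp, LinearMap.comp_apply] at h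
  rw [h, map_H2π, map_H2π]
  rfl

/-- Restriction of a local datum to a smaller subgroup. -/
def restrict {V' : Subgroup (PadicAlgCl q ≃ₐ[ℚ_[q]] PadicAlgCl q)} (hV : V' ≤ V) :
    LocDatum A q V' where
  h := d.h.comp (Subgroup.inclusion hV)
  φ := d.φ
  equivariant τ a := d.equivariant (Subgroup.inclusion hV τ) a
  level := by
    obtain ⟨F, hF, h⟩ := d.level
    exact ⟨F, hF, fun τ hτ => h (Subgroup.inclusion hV τ) hτ⟩

theorem map_restrict {V' : Subgroup (PadicAlgCl q ≃ₐ[ℚ_[q]] PadicAlgCl q)} (hV : V' ≤ V)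
    (x : H2 A) : (d.restrict hV).map x = lRes q hV (d.map x) := by
  obtain ⟨c, rfl⟩ := Bridge.H2π_surjective A x
  rw [map_H2π, map_H2π]
  rfl

end LocDatum

namespace GlobDatum

variable {U : Subgroup GQ} (d : GlobDatum A U)

/-- The pull–push of a 2-cochain. -/
def push₂ (x : Γ × Γ → A.V) : ↥U × ↥U → (gModOn U).V := fun p => d.φ (x (d.h p.1, d.h p.2))

/-- The pull–push of a 1-cochain. -/
def push₁ (x : Γ → A.V) : ↥U → (gModOn U).V := fun u => d.φ (x (d.h u))

lemma isLevelConstant₂ (x : Γ × Γ → A.V) : IsLevelConstant₂ U.subtype (d.push₂ x) := by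
  obtain ⟨F, hF, h⟩ := d.level
  refine ⟨F, hF, fun g g' s s' hs hs' => ?_⟩
  simp only [push₂, map_mul, h s hs, h s' hs', mul_one]

lemma isLevelConstant₁ (x : Γ → A.V) : IsLevelConstant₁ U.subtype (d.push₁ x) := by
  obtain ⟨F, hF, h⟩ := d.level
  refine ⟨F, hF, fun g s hs => ?_⟩
  simp only [push₁, map_mul, h s hs, mul_one]

lemma push₂_mem_levelCocycles₂ (c : cocycles₂ A) :
    d.push₂ c ∈ levelCocycles₂ U.subtype (gModOn U) :=
  ⟨cochainsPullPush₂_mem_cocycles₂ d.h (linOfAdd d.φ) d.equivariant c.2, d.isLevelConstant₂ _⟩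

lemma push₂_d₁₂ (y : Γ → A.V) :
    d.push₂ ((d₁₂ A).hom y) = (d₁₂ (gModOn U)).hom (d.push₁ y) :=
  cochainsPullPush₂_d₁₂ d.h (linOfAdd d.φ) d.equivariant y

/-- The map on cocycles. -/
def cocycles : cocycles₂ A →+ ↥(levelCocycles₂ U.subtype (gModOn U)) where
  toFun c := ⟨d.push₂ c, d.push₂_mem_levelCocycles₂ c⟩
  map_zero' := Subtype.ext (funext fun _ => map_zero d.φ)
  map_add' _ _ := Subtype.ext (funext fun _ => map_add d.φ _ _)

@[simp] lemma coe_cocycles (c : cocycles₂ A) :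
    (d.cocycles c : ↥U × ↥U → gModOn U) = d.push₂ c := rfl

lemma cocycles_apply (c : cocycles₂ A) (u u' : ↥U) :
    (d.cocycles c : ↥U × ↥U → gModOn U) (u, u') = d.φ (c (d.h u, d.h u')) := rfl

/-- **The map `H²(Γ, A) → gBr U` of a global datum.** -/
def map : H2 A →+ gBr U :=
  H2descAdd A ((continuousH2π U.subtype (gModOn U)).toAddMonoidHom.comp d.cocycles) (by
    intro c hc
    rw [AddMonoidHom.comp_apply]
    show continuousH2π U.subtype (gModOn U) (d.cocycles c) = 0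
    rw [continuousH2π_eq_zero_iff, mem_levelCoboundaries₂_iff]
    obtain ⟨y, hy⟩ := hc
    refine ⟨d.push₁ y, d.isLevelConstant₁ y, ?_⟩
    rw [coe_cocycles, ← hy]
    exact (d.push₂_d₁₂ y).symm)

@[simp] lemma map_H2π (c : cocycles₂ A) :
    d.map ((H2π A).hom c) = continuousH2π U.subtype (gModOn U) (d.cocycles c) :=
  H2descAdd_H2π _ _ _ c

/-- Localisation of a global datum at the place `(q, g)`. -/
def loc (q : ℕ) [Fact q.Prime] (g : GQ) : LocDatum A q (locSub q g U) where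
  h := d.h.comp (locHom q g U)
  φ := (locPush q g U).toAddMonoidHom.comp d.φ
  equivariant τ a := by
    show locPush q g U (d.φ (A.ρ (d.h (locHom q g U τ)) a)) = _
    rw [d.equivariant, locPush_equivariant]
    rfl
  level := by
    obtain ⟨F, hF, h⟩ := d.level
    refine ⟨F.map (g⁻¹ : GQ).toAlgHom, finiteDimensional_map_inv F g, fun τ hτ => ?_⟩
    rw [MonoidHom.comp_apply]
    exact h _ ((mem_fixingSubgroup_map_inv F g _).1 hτ)

/-- Localisation commutes with the maps of the data: `locBr ∘ d.map = (d.loc q g).map`. -/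
theorem locBr_map (q : ℕ) [Fact q.Prime] (g : GQ) (x : H2 A) :
    locBr q g U (d.map x) = (d.loc q g).map x := by
  obtain ⟨c, rfl⟩ := Bridge.H2π_surjective A x
  rw [map_H2π, LocDatum.map_H2π, locBr_mk]
  rfl

end GlobDatum

end Abstract

/-! ## 2. The data of a Tower level `M` and a subgroup `H ≤ Gal(M/ℚ)` -/

section Level

variable {S : Finset Nat.Primes} (M : Level S) (H : Subgroup M.Gal)

/-- The preimage of `H ≤ Gal(M/ℚ)` in `G_ℚ`: the absolute Galois group of `K = M^H`. -/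
def UH : Subgroup GQ := H.comap (QuotientGroup.mk' M.U)

lemma mem_UH {u : GQ} : u ∈ UH M H ↔ (QuotientGroup.mk u : M.Gal) ∈ H := Iff.rfl

lemma U_le_UH : M.U ≤ UH M H := fun u hu => by
  rw [mem_UH, (QuotientGroup.eq_one_iff u).2 hu]
  exact H.one_mem

lemma isOpenQ_UH : IsOpenQ (UH M H) :=
  ⟨M.F, level_finiteDimensional M, U_le_UH M H⟩

/-- The projection `U_H → H`. -/
def piH : ↥(UH M H) →* ↥H :=
  ((QuotientGroup.mk' M.U).comp (UH M H).subtype).codRestrict H (fun u => u.2)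

@[simp] lemma coe_piH (u : ↥(UH M H)) : ((piH M H u : ↥H) : M.Gal) = QuotientGroup.mk (u : GQ) :=
  rfl

lemma piH_surjective : Function.Surjective (piH M H) := by
  rintro ⟨γ, hγ⟩
  obtain ⟨u, rfl⟩ := QuotientGroup.mk_surjective γ
  exact ⟨⟨u, hγ⟩, rfl⟩

lemma piH_eq_one_of_mem {u : ↥(UH M H)} (hu : (u : GQ) ∈ M.F.fixingSubgroup) :
    piH M H u = 1 :=
  Subtype.ext ((QuotientGroup.eq_one_iff (u : GQ)).2 hu)

/-! ### The global datum: inflation `H²(H, Mˣ) → gBr (UH M H)` -/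

/-- The inclusion `Mˣ → ℚ̄ˣ`, additively. -/
def unitsIncl : Additive (M.F)ˣ →+ Additive Qbˣ :=
  MonoidHom.toAdditive (Units.map (M.F.val : M.F →* Qb))

lemma unitsIncl_coe (x : Additive (M.F)ˣ) :
    ((Additive.toMul (unitsIncl M x) : Qbˣ) : Qb) = ((Additive.toMul x : (M.F)ˣ) : M.F) := rfl

/-- The global datum of `(M, H)` with coefficients `Mˣ`. -/
def inflDatum : GlobDatum (T.resSub (lvlL M) H) (UH M H) where
  h := piH M H
  φ := unitsIncl M
  equivariant u a := by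
    apply Additive.toMul.injective
    apply Units.ext
    exact level_mk_smul M (u : GQ) ((Additive.toMul a : (M.F)ˣ) : M.F)
  level := ⟨M.F, level_finiteDimensional M, fun _ hu => piH_eq_one_of_mem M H hu⟩

/-- **Inflation** `H²(H, Mˣ) → gBr (UH M H) = Br(M^H)`. -/
def inflL : H2 (T.resSub (lvlL M) H) →+ gBr (UH M H) := (inflDatum M H).map

/-! ### The evaluation maps `M ⊗ ℚ_W → ℚ̄_q`

`W` is an ARBITRARY finite set of primes (the idèles `J_W(M) = (M ⊗ ℚ_W)ˣ` make sense for every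
`W`; for the semilocal invariant `W = S`, for `IsAt` also `W = S.erase r`). -/

variable (W : Finset Nat.Primes) (q : ℕ) [hq : Fact q.Prime]
  (hqW : (⟨q, hq.out⟩ : Nat.Primes) ∈ W)

/-- `M → ℚ̄_q`, `x ↦ ι_q (g⁻¹ x)`. -/
def evF (g : GQ) : M.F →ₐ[ℚ] PadicAlgCl q :=
  ((padicEmbedding q).toRingHom.comp
    (((g⁻¹ : GQ) : Qb →+* Qb).comp M.F.val.toRingHom)).toRatAlgHom

lemma evF_apply (g : GQ) (x : M.F) : evF M q g x = padicEmbedding q (g⁻¹ (x : Qb)) := rfl

/-- `ℚ_T → ℚ_q → ℚ̄_q`. -/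
def evQS : G.QS W →ₐ[ℚ] PadicAlgCl q :=
  ((algebraMap ℚ_[q] (PadicAlgCl q)).comp
    (G.QS.proj W ⟨⟨q, hq.out⟩, hqW⟩).toRingHom).toRatAlgHom

lemma evQS_apply (y : G.QS W) :
    evQS W q hqW y = algebraMap ℚ_[q] (PadicAlgCl q) (y ⟨⟨q, hq.out⟩, hqW⟩) := rfl

/-- **The evaluation** `ev_{q,g} : M ⊗ ℚ_T → ℚ̄_q`, `x ⊗ y ↦ ι_q (g⁻¹ x) · y_q`. -/
def evAlg (g : GQ) : G.AS W M.F →ₐ[ℚ] PadicAlgCl q :=
  Algebra.TensorProduct.lift (evF M q g) (evQS W q hqW) (fun _ _ => Commute.all _ _)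

@[simp] lemma evAlg_tmul (g : GQ) (x : M.F) (y : G.QS W) :
    evAlg M W q hqW g (x ⊗ₜ[ℚ] y) =
      padicEmbedding q (g⁻¹ (x : Qb)) * algebraMap ℚ_[q] (PadicAlgCl q) (y ⟨⟨q, hq.out⟩, hqW⟩) :=
  by simp [evAlg, evF_apply, evQS_apply]

lemma evAlg_asDiag (g : GQ) (x : M.F) :
    evAlg M W q hqW g (G.asDiag W M.F x) = padicEmbedding q (g⁻¹ (x : Qb)) := by
  show evAlg M W q hqW g (x ⊗ₜ[ℚ] 1) = _
  have h1 : (1 : G.QS W) ⟨⟨q, hq.out⟩, hqW⟩ = 1 := rfl
  rw [evAlg_tmul, h1, map_one, mul_one]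

lemma evAlg_asIncl (g : GQ) (y : G.QS W) :
    evAlg M W q hqW g (G.asIncl W M.F y) =
      algebraMap ℚ_[q] (PadicAlgCl q) (y ⟨⟨q, hq.out⟩, hqW⟩) := by
  show evAlg M W q hqW g (1 ⊗ₜ[ℚ] y) = _
  simp

/-- Equivariance of the evaluation: for `τ ∈ G_{ℚ_q}`,
`ev_{q,g} ((g · loc τ · g⁻¹) • a) = τ (ev_{q,g} a)`. -/
theorem evAlg_equivariant (g : GQ) (τ : PadicAlgCl q ≃ₐ[ℚ_[q]] PadicAlgCl q) (a : G.AS W M.F) :
    evAlg M W q hqW g (G.asAut W M.Gal M.F
        (QuotientGroup.mk (g * localGaloisToGlobal q τ * g⁻¹) : M.Gal) a) =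
      τ (evAlg M W q hqW g a) := by
  induction a using TensorProduct.induction_on with
  | zero => simp
  | add a b ha hb => simp only [map_add, ha, hb]
  | tmul x y =>
    have h1 : G.asAut W M.Gal M.F
        (QuotientGroup.mk (g * localGaloisToGlobal q τ * g⁻¹) : M.Gal) (x ⊗ₜ[ℚ] y) =
        (((QuotientGroup.mk (g * localGaloisToGlobal q τ * g⁻¹) : M.Gal) • x) ⊗ₜ[ℚ] y) := rfl
    rw [h1, evAlg_tmul, evAlg_tmul, map_mul, level_mk_smul, AlgEquiv.commutes]
    congr 1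
    rw [← padicEmbedding_localGaloisToGlobal]
    congr 1
    simp [AlgEquiv.mul_apply]

/-- Change of representative on the left: `ev_{q, u g} = ev_{q, g} ∘ (ū⁻¹ • ·)`. -/
theorem evAlg_mul_left (u g : GQ) (a : G.AS W M.F) :
    evAlg M W q hqW (u * g) a =
      evAlg M W q hqW g (G.asAut W M.Gal M.F (QuotientGroup.mk u⁻¹ : M.Gal) a) := by
  induction a using TensorProduct.induction_on with
  | zero => simp
  | add a b ha hb => simp only [map_add, ha, hb]
  | tmul x y =>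
    have h1 : G.asAut W M.Gal M.F (QuotientGroup.mk u⁻¹ : M.Gal) (x ⊗ₜ[ℚ] y) =
        (((QuotientGroup.mk u⁻¹ : M.Gal) • x) ⊗ₜ[ℚ] y) := rfl
    rw [h1, evAlg_tmul, evAlg_tmul, level_mk_smul]
    congr 2

/-- Compatibility with the projections `ℚ_{W'} → ℚ_W`, `W ⊆ W'`. -/
theorem evAlg_asRes {W' : Finset Nat.Primes} (hW : W ⊆ W') (g : GQ) (a : G.AS W' M.F) :
    evAlg M W q hqW g (G.asRes hW M.F a) = evAlg M W' q (hW hqW) g a := by
  induction a using TensorProduct.induction_on with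
  | zero => simp
  | add a b ha hb => simp only [map_add, ha, hb]
  | tmul x y => rw [G.asRes_tmul, evAlg_tmul, evAlg_tmul]; rfl

/-- `ev_{q,g}` on units, additively. -/
def evU (g : GQ) : Additive (G.AS W M.F)ˣ →+ Additive (PadicAlgCl q)ˣ :=
  MonoidHom.toAdditive (Units.map (evAlg M W q hqW g : G.AS W M.F →* PadicAlgCl q))

lemma evU_coe (g : GQ) (a : Additive (G.AS W M.F)ˣ) :
    ((Additive.toMul (evU M W q hqW g a) : (PadicAlgCl q)ˣ) : PadicAlgCl q) =
      evAlg M W q hqW g ((Additive.toMul a : (G.AS W M.F)ˣ) : G.AS W M.F) := rfl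

/-- **The place of `M` above `q ∈ W` induced by `ι_q ∘ g⁻¹`**: the kernel of `ev_{q,g}`. -/
def placeOf (g : GQ) : G.SPlace W M.F where
  asIdeal := RingHom.ker (evAlg M W q hqW g)
  isMaximal := by
    haveI := G.PL0H713.isArtinianRing_AS W M.F
    haveI : (RingHom.ker (evAlg M W q hqW g)).IsPrime := RingHom.ker_isPrime _
    exact IsArtinianRing.isMaximal_of_isPrime _

lemma mem_placeOf (g : GQ) (a : G.AS W M.F) :
    a ∈ (placeOf M W q hqW g).asIdeal ↔ evAlg M W q hqW g a = 0 := RingHom.mem_ker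

/-- **The local datum `c_{q,g}`** of `(M, H)` at the place of `M^H` induced by `ι_q ∘ g⁻¹`,
with coefficients `J_T(M)`. -/
def cDatum (g : GQ) : LocDatum (T.resSub (G.JRep M.Gal W M.F) H) q (locSub q g (UH M H)) where
  h := (piH M H).comp (locHom q g (UH M H))
  φ := evU M W q hqW g
  equivariant τ a := by
    apply Additive.toMul.injective
    apply Units.ext
    exact evAlg_equivariant M W q hqW g (τ : PadicAlgCl q ≃ₐ[ℚ_[q]] PadicAlgCl q) _
  level := by
    refine ⟨M.F.map (g⁻¹ : GQ).toAlgHom,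
      haveI := level_finiteDimensional M
      finiteDimensional_map_inv M.F g, fun τ hτ => ?_⟩
    rw [MonoidHom.comp_apply]
    exact piH_eq_one_of_mem M H ((mem_fixingSubgroup_map_inv M.F g _).1 hτ)

/-- **The localisation map** `c_{q,g} : H²(H, J_T(M)) → lBr q (locSub q g (UH M H))`. -/
def cH2 (g : GQ) :
    H2 (T.resSub (G.JRep M.Gal W M.F) H) →+ lBr q (locSub q g (UH M H)) :=
  (cDatum M H W q hqW g).map

end Level

/-! ## 3. Representatives of the places and the semilocal invariant -/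

/-- Chosen representatives of the double cosets `U \ G_ℚ / D_q` (the places of `ℚ̄^U` above `q`);
`∅` if `U` has infinitely many double cosets. -/
def reps (U : Subgroup GQ) (q : ℕ) [Fact q.Prime] : Finset GQ :=
  open Classical in
  if h : ∃ R : Finset GQ, IsDoubleCosetReps U (localGaloisToGlobal q).range R then h.choose else ∅

lemma reps_spec {U : Subgroup GQ} (hU : IsOpenQ U) (q : ℕ) [Fact q.Prime] :
    IsDoubleCosetReps U (localGaloisToGlobal q).range (reps U q) := by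
  have h := H174.exists_placeReps hU q
  unfold reps
  rw [dif_pos h]
  exact h.choose_spec

/-- The contribution of the prime `q ∈ S` to the semilocal invariant. -/
def sigmaAt (I : LocalInvSystem) {S : Finset Nat.Primes} (M : Level S) (H : Subgroup M.Gal)
    (q : S) : H2 (T.resSub (lvlJ M) H) →+ AddCircle (1 : ℚ) :=
  haveI : Fact ((q.1 : ℕ).Prime) := ⟨q.1.2⟩
  ∑ g ∈ reps (UH M H) (q.1 : ℕ),
    (I.inv (q.1 : ℕ) (locSub (q.1 : ℕ) g (UH M H))).comp (cH2 M H S (q.1 : ℕ) q.2 g)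

/-- **The semilocal invariant** `σ_H = ∑_{v | S} inv_v : H²(H, J_S(M)) → ℚ/ℤ`
(sum over the places `v` of `M^H` above `S`). -/
def sigma (I : LocalInvSystem) {S : Finset Nat.Primes} (M : Level S) (H : Subgroup M.Gal) :
    H2 (T.resSub (lvlJ M) H) →+ AddCircle (1 : ℚ) :=
  ∑ q : S, sigmaAt I M H q

lemma sigma_apply (I : LocalInvSystem) {S : Finset Nat.Primes} (M : Level S)
    (H : Subgroup M.Gal) (y : H2 (T.resSub (lvlJ M) H)) :
    sigma I M H y = ∑ q : S, sigmaAt I M H q y := by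
  simp [sigma]

lemma sigmaAt_apply (I : LocalInvSystem) {S : Finset Nat.Primes} (M : Level S)
    (H : Subgroup M.Gal) (q : S) (y : H2 (T.resSub (lvlJ M) H)) :
    sigmaAt I M H q y =
      haveI : Fact ((q.1 : ℕ).Prime) := ⟨q.1.2⟩
      ∑ g ∈ reps (UH M H) (q.1 : ℕ),
        I.inv (q.1 : ℕ) (locSub (q.1 : ℕ) g (UH M H)) (cH2 M H S (q.1 : ℕ) q.2 g y) := by
  simp [sigmaAt]

end Fermat.Agent.S55.G.Rec.TOW.FR

end
end
-- ===== PACK-END S55/G/Rec/Tow/FR/Defs.lean

-- ===== PACK-BEGIN S55/G/PL1H173/PrimeAt.lean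
section


/-!
# S55 layer G, leaf G-PL1 (helper173): the prime of `𝓞 L` below a place of `L ⊗ ℚ_S`

`primeAt S L 𝔪` is the contraction to `𝓞 L` of the maximal ideal of the ring of integers
`PL0H713.intRing S L 𝔪` of the local field `L_𝔪`.
-/

set_option autoImplicit false
set_option linter.unusedSectionVars false
set_option linter.style.haveILetI false

open scoped NumberField TensorProduct
open IsDedekindDomain

namespace Fermat.Agent.S55.G.PL1H173

open Fermat.Agent.S55.G Fermat.Agent.S55.G.PL0H713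

variable (S : Finset Nat.Primes) (L : Type) [Field L] [NumberField L]

/-- The structure map `ℤ_q → L_𝔪`. -/
noncomputable def ofZq (𝔪 : SPlace S L) :
    @PadicInt ((primeOf S L 𝔪).1 : ℕ) ⟨(primeOf S L 𝔪).1.2⟩ →+* LocField S 𝔪 :=
  haveI : Fact (Nat.Prime ((primeOf S L 𝔪).1 : ℕ)) := ⟨(primeOf S L 𝔪).1.2⟩
  (ofQq S L 𝔪).comp (algebraMap ℤ_[((primeOf S L 𝔪).1 : ℕ)] ℚ_[((primeOf S L 𝔪).1 : ℕ)])

/-- Membership in the ring of integers of `L_𝔪`: integrality over `ℤ_q`. -/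
lemma mem_intRing_iff (𝔪 : SPlace S L) (y : LocField S 𝔪) :
    y ∈ intRing S L 𝔪 ↔ (ofZq S L 𝔪).IsIntegralElem y := Iff.rfl

lemma ofZq_mem_intRing (𝔪 : SPlace S L)
    (u : @PadicInt ((primeOf S L 𝔪).1 : ℕ) ⟨(primeOf S L 𝔪).1.2⟩) :
    ofZq S L 𝔪 u ∈ intRing S L 𝔪 :=
  RingHom.isIntegralElem_map _

/-- Integers of `L` are integral in `L_𝔪`. -/
lemma toLoc_mem_intRing (𝔪 : SPlace S L) (x : 𝓞 L) : toLoc S 𝔪 (x : L) ∈ intRing S L 𝔪 := by
  haveI : Fact (Nat.Prime ((primeOf S L 𝔪).1 : ℕ)) := ⟨(primeOf S L 𝔪).1.2⟩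
  obtain ⟨P, hP, hx⟩ := x.2
  change (ofZq S L 𝔪).IsIntegralElem _
  refine ⟨P.map (Int.castRingHom ℤ_[((primeOf S L 𝔪).1 : ℕ)]), hP.map _, ?_⟩
  rw [Polynomial.eval₂_map]
  have h1 : (ofZq S L 𝔪).comp (Int.castRingHom ℤ_[((primeOf S L 𝔪).1 : ℕ)]) =
      (toLoc S 𝔪).comp (algebraMap ℤ L) := RingHom.ext_int _ _
  rw [h1, ← Polynomial.hom_eval₂]
  exact (congrArg (toLoc S 𝔪) hx).trans (map_zero _)

/-- If `ofQq z` is integral then `z` is a `q`-adic integer. -/
lemma norm_le_one_of_ofQq_mem (𝔪 : SPlace S L) (z : Qq (primeOf S L 𝔪).1)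
    (hz : ofQq S L 𝔪 z ∈ intRing S L 𝔪) : ‖z‖ ≤ 1 := by
  haveI : Fact (Nat.Prime ((primeOf S L 𝔪).1 : ℕ)) := ⟨(primeOf S L 𝔪).1.2⟩
  obtain ⟨p, hp, hz⟩ := (mem_intRing_iff S L 𝔪 _).1 hz
  have h2 : Polynomial.eval₂ (algebraMap ℤ_[((primeOf S L 𝔪).1 : ℕ)]
      ℚ_[((primeOf S L 𝔪).1 : ℕ)]) z p = 0 := by
    apply (ofQq S L 𝔪).injective
    rw [Polynomial.hom_eval₂, map_zero]
    exact hz
  have h3 : IsIntegral ℤ_[((primeOf S L 𝔪).1 : ℕ)] z := ⟨p, hp, h2⟩
  obtain ⟨u, rfl⟩ := IsIntegrallyClosed.isIntegral_iff.1 h3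
  exact u.2

lemma ofQq_natCast (𝔪 : SPlace S L) (n : ℕ) : ofQq S L 𝔪 (n : Qq (primeOf S L 𝔪).1) = n :=
  map_natCast _ n

/-- The residue characteristic is not a unit of the ring of integers. -/
lemma natCast_primeOf_mem_nonunits (𝔪 : SPlace S L) :
    (((primeOf S L 𝔪).1 : ℕ) : LocField S 𝔪) ∈ (intRing S L 𝔪).nonunits := by
  haveI : Fact (Nat.Prime ((primeOf S L 𝔪).1 : ℕ)) := ⟨(primeOf S L 𝔪).1.2⟩
  rw [ValuationSubring.mem_nonunits_iff_or]
  right
  intro h
  have h1 : ofQq S L 𝔪 ((((primeOf S L 𝔪).1 : ℕ) : Qq (primeOf S L 𝔪).1)⁻¹) ∈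
      intRing S L 𝔪 := by
    rw [map_inv₀, ofQq_natCast]
    exact h
  have h2 := norm_le_one_of_ofQq_mem S L 𝔪 _ h1
  rw [norm_inv, Padic.norm_p] at h2
  have h3 : (1 : ℝ) < (((primeOf S L 𝔪).1 : ℕ) : ℝ) := by
    exact_mod_cast (primeOf S L 𝔪).1.2.one_lt
  rw [inv_inv] at h2
  linarith

/-- The ring homomorphism `𝓞 L → 𝒪_{L_𝔪}`. -/
noncomputable def toInt (𝔪 : SPlace S L) : 𝓞 L →+* (intRing S L 𝔪) :=
  ((toLoc S 𝔪).comp (algebraMap (𝓞 L) L)).codRestrict (intRing S L 𝔪).toSubring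
    (fun x => toLoc_mem_intRing S L 𝔪 x)

@[simp] lemma coe_toInt (𝔪 : SPlace S L) (x : 𝓞 L) :
    ((toInt S L 𝔪 x : intRing S L 𝔪) : LocField S 𝔪) = toLoc S 𝔪 (x : L) := rfl

/-- The prime of `𝓞 L` below the place `𝔪`. -/
noncomputable def primeAt (𝔪 : SPlace S L) : HeightOneSpectrum (𝓞 L) where
  asIdeal := Ideal.comap (toInt S L 𝔪) (IsLocalRing.maximalIdeal (intRing S L 𝔪))
  isPrime := Ideal.comap_isPrime _ _
  ne_bot := by
    intro h
    have hq : (((primeOf S L 𝔪).1 : ℕ) : 𝓞 L) ∈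
        Ideal.comap (toInt S L 𝔪) (IsLocalRing.maximalIdeal (intRing S L 𝔪)) := by
      rw [Ideal.mem_comap, ← ValuationSubring.coe_mem_nonunits_iff, coe_toInt]
      have := natCast_primeOf_mem_nonunits S L 𝔪
      simpa using this
    rw [h, Ideal.mem_bot] at hq
    have : ((primeOf S L 𝔪).1 : ℕ) = 0 := by exact_mod_cast hq
    exact (primeOf S L 𝔪).1.2.ne_zero this

lemma mem_primeAt_iff (𝔪 : SPlace S L) (x : 𝓞 L) :
    x ∈ (primeAt S L 𝔪).asIdeal ↔ toLoc S 𝔪 (x : L) ∈ (intRing S L 𝔪).nonunits := by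
  change toInt S L 𝔪 x ∈ IsLocalRing.maximalIdeal (intRing S L 𝔪) ↔ _
  rw [← ValuationSubring.coe_mem_nonunits_iff, coe_toInt]

lemma natCast_primeOf_mem_primeAt (𝔪 : SPlace S L) :
    (((primeOf S L 𝔪).1 : ℕ) : 𝓞 L) ∈ (primeAt S L 𝔪).asIdeal := by
  rw [mem_primeAt_iff]
  have := natCast_primeOf_mem_nonunits S L 𝔪
  simpa using this

lemma isAbove_primeAt (𝔪 : SPlace S L) : IsAbove S L (primeAt S L 𝔪) :=
  ⟨(primeOf S L 𝔪).1, (primeOf S L 𝔪).2, natCast_primeOf_mem_primeAt S L 𝔪⟩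

/-- A prime ideal of `𝓞 L` contains at most one rational prime. -/
lemma prime_unique_of_mem (w : HeightOneSpectrum (𝓞 L)) {q q' : ℕ} (hq : q.Prime)
    (hq' : q'.Prime) (h : (q : 𝓞 L) ∈ w.asIdeal) (h' : (q' : 𝓞 L) ∈ w.asIdeal) : q = q' := by
  by_contra hne
  have hcop : Nat.Coprime q q' := (Nat.coprime_primes hq hq').2 hne
  have h1 : ((q : ℤ) * Nat.gcdA q q' + (q' : ℤ) * Nat.gcdB q q' : ℤ) = 1 := by
    have := Nat.gcd_eq_gcd_ab q q'
    rw [hcop] at this
    exact_mod_cast this.symm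
  have h2 : ((1 : ℤ) : 𝓞 L) ∈ w.asIdeal := by
    rw [← h1]
    push_cast
    exact w.asIdeal.add_mem (w.asIdeal.mul_mem_right _ h) (w.asIdeal.mul_mem_right _ h')
  rw [Int.cast_one] at h2
  exact w.isPrime.ne_top ((Ideal.eq_top_iff_one _).2 h2)

lemma primeOf_eq_of_mem_primeAt (𝔪 : SPlace S L) (q : S)
    (h : ((q.1 : ℕ) : 𝓞 L) ∈ (primeAt S L 𝔪).asIdeal) : q = primeOf S L 𝔪 := by
  apply Subtype.ext
  apply Subtype.ext
  exact prime_unique_of_mem L (primeAt S L 𝔪) q.1.2 (primeOf S L 𝔪).1.2 h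
    (natCast_primeOf_mem_primeAt S L 𝔪)

end Fermat.Agent.S55.G.PL1H173

end
-- ===== PACK-END S55/G/PL1H173/PrimeAt.lean

-- ===== PACK-BEGIN S56/H614/LinFunInst.lean
section


/-!
# S56 / W-BASE / EUL-RED, part 4 (helper614): the four functors and the Euler characteristic
of `ker (M ⊗ T - 1)`

* `H0F`, `H1F L`, `H2F L`, `minusF c : LinFun k G`;
* `phi_kerRep_matOp`: for an equivariant `T` on `X` with `T ^ n = 1`, a matrix `M` with
  `M ^ n = 1`, `n ≠ 0` in `k`:
  `φ (ker (M ⊗ T - 1) ⊆ X^J) = d(H⁰ T) − d(H¹ T) + d(H² T) + d(T | X^{c=-1})`, where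
  `d(S) = dim ker (M ⊗ S - 1)`.
-/

set_option autoImplicit false
set_option linter.unusedSectionVars false

noncomputable section

namespace Fermat.Agent.S56.H614

open Fermat.Agent.S55.PT Fermat.Agent.S56.H419 groupCohomology Module

variable {k : Type} [Field k] {G : Type} [Group G]

/-- `H⁰` as a linear functor. -/
def H0F : LinFun k G where
  obj A := ↥(LevelSys.H0 A)
  map φ hφ := pushH0 φ hφ
  map_id _ _ := by
    apply LinearMap.ext
    intro x
    rfl
  map_comp _ _ _ _ _ := by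
    apply LinearMap.ext
    intro x
    rfl
  map_add _ _ _ _ _ := by
    apply LinearMap.ext
    intro x
    rfl
  map_smul _ _ _ _ := by
    apply LinearMap.ext
    intro x
    rfl

/-- `H¹_L` as a linear functor. -/
def H1F (L : LevelSys G) : LinFun k G where
  obj A := L.H1 A
  map φ hφ := pushH1 φ hφ L
  map_id A _ := by
    apply LinearMap.ext
    intro x
    obtain ⟨c, rfl⟩ := L.H1π_surjective A x
    rfl
  map_comp {A _ _} _ _ _ _ _ := by
    apply LinearMap.ext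
    intro x
    obtain ⟨c, rfl⟩ := L.H1π_surjective A x
    rfl
  map_add {A B} φ ψ hφ hψ h := by
    apply LinearMap.ext
    intro x
    obtain ⟨c, rfl⟩ := L.H1π_surjective A x
    rw [LinearMap.add_apply, pushH1_mk, pushH1_mk, pushH1_mk, ← map_add]
    rfl
  map_smul {A B} a φ hφ h := by
    apply LinearMap.ext
    intro x
    obtain ⟨c, rfl⟩ := L.H1π_surjective A x
    rw [LinearMap.smul_apply, pushH1_mk, pushH1_mk, ← map_smul]
    rfl

/-- `H²_L` as a linear functor. -/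
def H2F (L : LevelSys G) : LinFun k G where
  obj A := L.H2 A
  map φ hφ := pushH2 φ hφ L
  map_id A _ := by
    apply LinearMap.ext
    intro x
    obtain ⟨c, rfl⟩ := L.H2π_surjective A x
    rfl
  map_comp {A _ _} _ _ _ _ _ := by
    apply LinearMap.ext
    intro x
    obtain ⟨c, rfl⟩ := L.H2π_surjective A x
    rfl
  map_add {A B} φ ψ hφ hψ h := by
    apply LinearMap.ext
    intro x
    obtain ⟨c, rfl⟩ := L.H2π_surjective A x
    rw [LinearMap.add_apply, pushH2_mk, pushH2_mk, pushH2_mk, ← map_add]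
    rfl
  map_smul {A B} a φ hφ h := by
    apply LinearMap.ext
    intro x
    obtain ⟨c, rfl⟩ := L.H2π_surjective A x
    rw [LinearMap.smul_apply, pushH2_mk, pushH2_mk, ← map_smul]
    rfl

/-- an equivariant map preserves the `(-1)`-eigenspaces of `c` -/
lemma map_mem_minusPart (c : G) {A B : Rep.{0, 0, 0} k G} (φ : A →ₗ[k] B)
    (hφ : IsEquivariant φ) (a : A) (ha : a ∈ minusPart c A) : φ a ∈ minusPart c B := by
  rw [mem_minusPart] at ha ⊢
  rw [← hφ c a, ha, map_neg]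

/-- the map induced on the `(-1)`-eigenspaces of `c` -/
def minusMap (c : G) {A B : Rep.{0, 0, 0} k G} (φ : A →ₗ[k] B) (hφ : IsEquivariant φ) :
    ↥(minusPart c A) →ₗ[k] ↥(minusPart c B) :=
  φ.restrict (map_mem_minusPart c φ hφ)

@[simp] lemma coe_minusMap (c : G) {A B : Rep.{0, 0, 0} k G} (φ : A →ₗ[k] B)
    (hφ : IsEquivariant φ) (a : ↥(minusPart c A)) : (minusMap c φ hφ a : B) = φ a := rfl

/-- `N ↦ N^{c = -1}` as a linear functor. -/
def minusF (c : G) : LinFun k G where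
  obj A := ↥(minusPart c A)
  map φ hφ := minusMap c φ hφ
  map_id _ _ := by
    apply LinearMap.ext
    intro x
    rfl
  map_comp _ _ _ _ _ := by
    apply LinearMap.ext
    intro x
    rfl
  map_add _ _ _ _ _ := by
    apply LinearMap.ext
    intro x
    rfl
  map_smul _ _ _ _ := by
    apply LinearMap.ext
    intro x
    rfl

/-- `d_M(S) = dim ker (M ⊗ S - 1)` -/
def dimFix {J : Type} [Fintype J] [DecidableEq J] (M : Matrix J J k) {V : Type}
    [AddCommGroup V] [Module k V] (S : V →ₗ[k] V) : ℕ :=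
  finrank k ↥(LinearMap.ker (matOp M S - 1))

/-- **The Euler characteristic (with archimedean term) of `ker (M ⊗ T - 1)`.** -/
theorem phi_kerRep_matOp (L : LevelSys G) (c : G) {J : Type} [Fintype J] [DecidableEq J]
    {X : Rep.{0, 0, 0} k G} (M : Matrix J J k) (T : X →ₗ[k] X) (hT : IsEquivariant T)
    (n : ℕ) (hn : (n : k) ≠ 0) (hM : M ^ n = 1) (hTn : T ^ n = 1) :
    phi L c (kerRep (A := piRep J X) (B := piRep J X) (matOp M T - 1)
      (isEquivariant_sub (matOp_equivariant J M hT) (isEquivariant_one _))) =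
      (dimFix M (pushH0 T hT) : ℤ) - dimFix M (pushH1 T hT L) + dimFix M (pushH2 T hT L)
        + dimFix M (minusMap c T hT) := by
  have h0 := (H0F (k := k) (G := G)).finrank_kerRep_matOp J M T hT n hn hM hTn
  have h1 := (H1F (k := k) L).finrank_kerRep_matOp J M T hT n hn hM hTn
  have h2 := (H2F (k := k) L).finrank_kerRep_matOp J M T hT n hn hM hTn
  have h3 := (minusF (k := k) c).finrank_kerRep_matOp J M T hT n hn hM hTn
  unfold phi eulerChar dimFix
  have e0 : finrank k ↥(LevelSys.H0 (kerRep (A := piRep J X) (B := piRep J X) (matOp M T - 1)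
      (isEquivariant_sub (matOp_equivariant J M hT) (isEquivariant_one _)))) =
      finrank k ↥(LinearMap.ker (matOp M (pushH0 T hT) - 1)) := h0
  have e1 : finrank k (L.H1 (kerRep (A := piRep J X) (B := piRep J X) (matOp M T - 1)
      (isEquivariant_sub (matOp_equivariant J M hT) (isEquivariant_one _)))) =
      finrank k ↥(LinearMap.ker (matOp M (pushH1 T hT L) - 1)) := h1
  have e2 : finrank k (L.H2 (kerRep (A := piRep J X) (B := piRep J X) (matOp M T - 1)
      (isEquivariant_sub (matOp_equivariant J M hT) (isEquivariant_one _)))) =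
      finrank k ↥(LinearMap.ker (matOp M (pushH2 T hT L) - 1)) := h2
  have e3 : finrank k ↥(minusPart c (kerRep (A := piRep J X) (B := piRep J X) (matOp M T - 1)
      (isEquivariant_sub (matOp_equivariant J M hT) (isEquivariant_one _)))) =
      finrank k ↥(LinearMap.ker (matOp M (minusMap c T hT) - 1)) := h3
  rw [e0, e1, e2, e3]

end Fermat.Agent.S56.H614

end

end
-- ===== PACK-END S56/H614/LinFunInst.lean

-- ===== PACK-BEGIN S55/PT/Final.lean
section









/-!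
# S55 / layer D: final wiring (helper835)

All formal leaves of layer D are proved; S55 is reduced to the arithmetic inputs
`Surj2GlobSpec` (A3), `Surj2LocSpec` (A4), `InvSpec` (A5–A7), `CapSpec` (A8)
and the two dévissage leaves `TopLocDevSpec`, `TopGlobDevSpec`.
-/

set_option autoImplicit false

noncomputable section

namespace Fermat.Agent.S55.PT

open groupCohomology ExtCitation Fermat.Agent.S55.Bridge

/-- **D-F8.** `ℚ(μ_p)` gives an `S`-level on which the cyclotomic character is trivial. -/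
theorem cycloLevelSpec (p : ℕ) [Fact p.Prime] (S : Finset Nat.Primes) : CycloLevelSpec p S := by
  intro hpS
  obtain ⟨L, hL, hfix, -⟩ := exists_level_of_subgroup S (MonoidHom.ker (cycloChar p))
    (cycloLevel p) (cycloLevel_finiteDimensional p)
    (fun s hs => MonoidHom.mem_ker.2 (cycloChar_eq_one_of_mem_fixingSubgroup p s hs))
    (fun q hq A hA g hg => by
      have hqp : (q : ℕ) ≠ p := by
        intro h
        apply hq
        have : q = pPrime p := Subtype.ext h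
        rw [this]
        exact hpS
      exact MonoidHom.mem_ker.2 (cycloChar_eq_one_of_mem_inertia p q.2 hqp A hA g hg))
  refine ⟨L.fixingSubgroup, ⟨L, hL, rfl⟩, fun u hu => ?_⟩
  rw [hfix] at hu
  exact MonoidHom.mem_ker.1 hu

/-- **Theorem D, reduced to the arithmetic inputs** A3, A4, A5–A7, A8 (and the two dévissage
leaves D-T2a, D-T2b).  Everything else of layer D is proved. -/
theorem theoremD_of_arith (p : ℕ) [Fact p.Prime] (S : Finset Nat.Primes) (hpS : pPrime p ∈ S)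
    (hTL : TopLocDevSpec p S) (hTG : TopGlobDevSpec p S)
    (hSurjG : Surj2GlobSpec p S) (hSurjL : Surj2LocSpec p S)
    (hInv : InvSpec p S) (hCap : CapSpec p S) : TheoremDSpec p S :=
  theoremD_of_inputs H113.les0Spec H113.les1Spec H113.lesMidSpec H113.coneSpec
    H113.coneLesSpec H113.del0ResSpec H476.engine H724.globalNormalCofinal
    H724.localNormalCofinal H724.globalFiniteIndex H724.localFiniteIndex EffaceH773.efface
    (cycloLevelSpec p S) hTL hTG (H837.capDev p S) hpS (H593.finGlob p S) hSurjG hSurjL hInv hCap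

/-- **S55, reduced to the arithmetic inputs** A3, A4, A5–A7, A8 (and D-T2a, D-T2b). -/
theorem s55_of_arith {p : ℕ} [Fact p.Prime] (hp2 : p ≠ 2) (S : Finset Nat.Primes)
    (hpS : pPrime p ∈ S)
    (hTL : TopLocDevSpec p S) (hTG : TopGlobDevSpec p S)
    (hSurjG : Surj2GlobSpec p S) (hSurjL : Surj2LocSpec p S)
    (hInv : InvSpec p S) (hCap : CapSpec p S)
    (M : Rep (ZMod p) (AlgebraicClosure ℚ ≃ₐ[ℚ] AlgebraicClosure ℚ))
    [FiniteDimensional (ZMod p) M]
    (hsm : ∀ m : M, ∃ F : IntermediateField ℚ (AlgebraicClosure ℚ), FiniteDimensional ℚ F ∧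
      ∀ s ∈ F.fixingSubgroup, M.ρ s m = m)
    (hMur : ∀ q : Nat.Primes, q ∉ S → ∀ A : ValuationSubring (AlgebraicClosure ℚ),
      A.LiesOverPrime (q : ℕ) → ∀ g ∈ A.inertiaSubgroupIn ℚ, M.ρ g = 1) :
    ∃ B : sha₁ S (M.dualTwist (cycloChar p)) →ₗ[ZMod p] sha₂ S M →ₗ[ZMod p] ZMod p,
      (∀ y, (∀ x, B y x = 0) → y = 0) ∧ (∀ x, (∀ y, B y x = 0) → x = 0) :=
  H724.bridge p S hp2 hpS (theoremD_of_arith p S hpS hTL hTG hSurjG hSurjL hInv hCap) M hsm hMur

end Fermat.Agent.S55.PT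

end

end
-- ===== PACK-END S55/PT/Final.lean

-- ===== PACK-BEGIN S56/Euler/H726/Sha2.lean
section



/-!
# S56 / W-BASE / Euler characteristic, leaf EUL-SHA2 (helper726): final forms

`U` a normal `S`-level of `G_ℚ` acting trivially on `μ_p`, `M` a finite-dimensional
`F_p`-representation of `G_ℚ` on which `U` acts trivially (e.g. `M = μ_p`).

* `exists_sha1_tdual_ind_eq_bot` (UNCONDITIONAL): there is a finite `S′ ⊇ S` with
  `Ш¹_T((Ind_U M)′) = 0` for every finite `T ⊇ S′`;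
* `exists_sha2_ind_eq_bot`: hence `Ш²_T(Ind_U M) = 0` for every `T ⊇ S′`, given Theorem D
  (= frozen S55 in PT vocabulary, `PT.TheoremDSpec p T`) for the sets `T ⊇ S`;
* `exists_sha2_indMu_eq_bot`: the case `M = μ_p` (EUL-SHA2 of `coord/S56-EULER-helper366.md`).
-/

set_option autoImplicit false
set_option linter.style.haveILetI false

noncomputable section

namespace Fermat.Agent.S56.Euler.H726

open Fermat.Agent.S55.PT groupCohomology ExtCitation
open scoped Pointwise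

variable (p : ℕ) [Fact p.Prime] (S : Finset Nat.Primes)

/-- the cyclotomic character is trivial on a subgroup acting trivially on `μ_p` -/
lemma cycloChar_eq_one_of_mu {s : _root_.Fermat.Agent.S55.PT.GQ} (h : (mu p).ρ s = 1) : ((cycloChar p s : (ZMod p)ˣ) : ZMod p) = 1 := by
  have h1 : (mu p).ρ s (1 : ZMod p) = (1 : ZMod p) := by rw [h]; rfl
  rw [ofChar_ρ_apply, mul_one] at h1
  exact h1

/-- a normal subgroup acting trivially on `M` and on `μ_p` acts trivially on `(Ind_U M)′` -/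
lemma tdual_ind_trivial (U : Subgroup _root_.Fermat.Agent.S55.PT.GQ) (hUn : U.Normal) (M : Rep.{0, 0, 0} (ZMod p) _root_.Fermat.Agent.S55.PT.GQ)
    (hM : ∀ s ∈ U, M.ρ s = 1) (hχ : ∀ s ∈ U, (mu p).ρ s = 1) (s : _root_.Fermat.Agent.S55.PT.GQ) (hs : s ∈ U)
    (n : tdual p (indRep U M)) : (tdual p (indRep U M)).ρ s n = n := by
  rw [Rep.dualTwist_ρ_apply, cycloChar_eq_one_of_mu p (hχ s hs), one_smul]
  have hact : (indRep U M).ρ s⁻¹ = LinearMap.id := by
    apply Finsupp.lhom_ext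
    intro x m
    have h1 : (indRep U M).ρ s⁻¹ (Finsupp.single x m : (_root_.Fermat.Agent.S55.PT.GQ ⧸ U) →₀ M) =
        (Finsupp.single (s⁻¹ • x) (M.ρ s⁻¹ m) : (_root_.Fermat.Agent.S55.PT.GQ ⧸ U) →₀ M) := indRep_ρ_single U M s⁻¹ x m
    have h2 : s⁻¹ • x = x := by
      obtain ⟨g, rfl⟩ := QuotientGroup.mk_surjective x
      show ((s⁻¹ * g : _root_.Fermat.Agent.S55.PT.GQ) : _root_.Fermat.Agent.S55.PT.GQ ⧸ U) = (g : _root_.Fermat.Agent.S55.PT.GQ ⧸ U)
      rw [QuotientGroup.eq]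
      have : (s⁻¹ * g)⁻¹ * g = g⁻¹ * s * g := by group
      rw [this]
      have := hUn.conj_mem s hs g⁻¹
      rwa [inv_inv] at this
    have h3 : M.ρ s⁻¹ m = m := by rw [hM s⁻¹ (U.inv_mem hs)]; rfl
    rw [h1, h2, h3]
    rfl
  rw [hact]
  rfl

/-- **EUL-SHA2, `Ш¹` form** (unconditional). -/
theorem exists_sha1_tdual_ind_eq_bot (U : Subgroup _root_.Fermat.Agent.S55.PT.GQ) (hU : U ∈ (globalLevels S).levels)
    (hUn : U.Normal) (M : Rep.{0, 0, 0} (ZMod p) _root_.Fermat.Agent.S55.PT.GQ) [FiniteDimensional (ZMod p) M]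
    (hM : ∀ s ∈ U, M.ρ s = 1) (hχ : ∀ s ∈ U, (mu p).ρ s = 1) :
    ∃ S' : Finset Nat.Primes, S ⊆ S' ∧
      ∀ T : Finset Nat.Primes, S' ⊆ T → Sha1 (hrl T) (tdual p (indRep U M)) = ⊥ := by
  obtain ⟨F, hF, rfl⟩ := hU
  haveI := hF.1
  haveI : Finite (_root_.Fermat.Agent.S55.PT.GQ ⧸ F.fixingSubgroup) :=
    Fermat.Agent.S55.H901.finite_quotient_fixingSubgroup F
  haveI : FiniteDimensional (ZMod p) ((_root_.Fermat.Agent.S55.PT.GQ ⧸ F.fixingSubgroup) →₀ M) := inferInstance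
  haveI : FiniteDimensional (ZMod p) (tdual p (indRep F.fixingSubgroup M)) :=
    inferInstanceAs (FiniteDimensional (ZMod p)
      (Module.Dual (ZMod p) ((_root_.Fermat.Agent.S55.PT.GQ ⧸ F.fixingSubgroup) →₀ M)))
  exact exists_sha1_eq_bot p S (tdual p (indRep F.fixingSubgroup M)) F hF
    (tdual_ind_trivial p F.fixingSubgroup hUn M hM hχ)
    (fun c hc hcU => mem_B1_dualTwist_ind F.fixingSubgroup M (cycloChar p) c hc hcU)

/-- **EUL-SHA2, `Ш²` form**: from Theorem D for the sets `T ⊇ S`. -/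
theorem exists_sha2_ind_eq_bot (hD : ∀ T : Finset Nat.Primes, S ⊆ T → TheoremDSpec p T)
    (U : Subgroup _root_.Fermat.Agent.S55.PT.GQ) (hU : U ∈ (globalLevels S).levels)
    (hUn : U.Normal) (M : Rep.{0, 0, 0} (ZMod p) _root_.Fermat.Agent.S55.PT.GQ) [FiniteDimensional (ZMod p) M]
    (hM : ∀ s ∈ U, M.ρ s = 1) (hχ : ∀ s ∈ U, (mu p).ρ s = 1) :
    ∃ S' : Finset Nat.Primes, S ⊆ S' ∧
      ∀ T : Finset Nat.Primes, S' ⊆ T → Sha2 (hrl T) (indRep U M) = ⊥ := by
  obtain ⟨S', hSS', h⟩ := exists_sha1_tdual_ind_eq_bot p S U hU hUn M hM hχ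
  refine ⟨S', hSS', fun T hT => ?_⟩
  obtain ⟨F, hF, rfl⟩ := hU
  haveI := hF.1
  haveI : Finite (_root_.Fermat.Agent.S55.PT.GQ ⧸ F.fixingSubgroup) :=
    Fermat.Agent.S55.H901.finite_quotient_fixingSubgroup F
  have hfd : FiniteDimensional (ZMod p) (indRep F.fixingSubgroup M) :=
    inferInstanceAs (FiniteDimensional (ZMod p) ((_root_.Fermat.Agent.S55.PT.GQ ⧸ F.fixingSubgroup) →₀ M))
  have hsm : (globalLevels T).IsUSmooth (indRep F.fixingSubgroup M) := by
    refine ⟨F.fixingSubgroup, ⟨F, hF.mono (hSS'.trans hT), rfl⟩, fun s hs a => ?_⟩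
    have hact : (indRep F.fixingSubgroup M).ρ s = LinearMap.id := by
      apply Finsupp.lhom_ext
      intro x m
      have h1 : (indRep F.fixingSubgroup M).ρ s
          (Finsupp.single x m : (_root_.Fermat.Agent.S55.PT.GQ ⧸ F.fixingSubgroup) →₀ M) =
          (Finsupp.single (s • x) (M.ρ s m) : (_root_.Fermat.Agent.S55.PT.GQ ⧸ F.fixingSubgroup) →₀ M) :=
        indRep_ρ_single F.fixingSubgroup M s x m
      have h2 : s • x = x := by
        obtain ⟨g, rfl⟩ := QuotientGroup.mk_surjective x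
        show ((s * g : _root_.Fermat.Agent.S55.PT.GQ) : _root_.Fermat.Agent.S55.PT.GQ ⧸ F.fixingSubgroup) = (g : _root_.Fermat.Agent.S55.PT.GQ ⧸ F.fixingSubgroup)
        rw [QuotientGroup.eq]
        have : (s * g)⁻¹ * g = g⁻¹ * s⁻¹ * g := by group
        rw [this]
        have := hUn.conj_mem s⁻¹ (F.fixingSubgroup.inv_mem hs) g⁻¹
        rwa [inv_inv] at this
      have h3 : M.ρ s m = m := by rw [hM s hs]; rfl
      rw [h1, h2, h3]
      rfl
    rw [hact]
    rfl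
  obtain ⟨e⟩ := hD T (hSS'.trans hT) (indRep F.fixingSubgroup M) hfd hsm
  rw [eq_bot_iff]
  intro x hx
  have h0 : e ⟨x, hx⟩ = 0 := by
    apply LinearMap.ext
    intro y
    have hy : y = 0 := by
      have : (y : (globalLevels T).H1 (tdual p (indRep F.fixingSubgroup M))) ∈
          (⊥ : Submodule (ZMod p) _) := by
        rw [← h T hT]
        exact y.2
      exact Subtype.ext ((Submodule.mem_bot _).1 this)
    rw [hy, map_zero, map_zero]
  have h1 : (⟨x, hx⟩ : ↥(Sha2 (hrl T) (indRep F.fixingSubgroup M))) = 0 :=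
    e.injective (by rw [h0, map_zero])
  exact (Submodule.mem_bot _).2 (congrArg Subtype.val h1)

/-- **EUL-SHA2** for `Ind_U μ_p`. -/
theorem exists_sha2_indMu_eq_bot (hD : ∀ T : Finset Nat.Primes, S ⊆ T → TheoremDSpec p T)
    (U : Subgroup _root_.Fermat.Agent.S55.PT.GQ) (hU : U ∈ (globalLevels S).levels)
    (hUn : U.Normal) (hχ : ∀ s ∈ U, (mu p).ρ s = 1) :
    ∃ S' : Finset Nat.Primes, S ⊆ S' ∧
      ∀ T : Finset Nat.Primes, S' ⊆ T → Sha2 (hrl T) (indRep U (mu p)) = ⊥ :=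
  exists_sha2_ind_eq_bot p S hD U hU hUn (mu p) hχ hχ

end Fermat.Agent.S56.Euler.H726

end

end
-- ===== PACK-END S56/Euler/H726/Sha2.lean

-- ===== PACK-BEGIN S56/Br/H374/BridgeBase.lean
section








/-!
# Row S56 / wall BASE — BRIDGE-BASE: `Euler.BridgeBaseSpec`                     (helper374)

    theorem bridgeBase : Euler.BridgeBaseSpec

The dictionary between the plain-function language of `H716.Base` and the S55 `PT` vocabulary
for `N = ad⁰ρ̄(1)` as an `F_p`-representation (`adTwFp ρbar p`), `d = [k : F_p]`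
(`fpDeg k p`), `S₀ = Smin`, `Pl = stdPl`:

* INV0 (`H666.Inv0`), ODD (`H596.Odd`);
* B1, B3, B4 (`Br/H374/{Ad,Tw,Frames}`), B2 (`Br/H374/TrForm`), B5 (`Br/H374/Fp`);
* finiteness of `H¹_S` (`S55.PT.H593.finGlob`).
-/

set_option autoImplicit false
set_option linter.style.haveILetI false
set_option linter.unusedSectionVars false

noncomputable section

namespace Fermat.Agent.S56.Br

open Fermat.Agent.S56 Fermat.Agent.S56.H716 Fermat.Agent.S55.PT groupCohomology ExtCitation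

section General

variable {k : Type} [Field k] (ρbar : ResidualGaloisRep k) (p : ℕ) [Fact p.Prime] [CharP k p]

instance instFiniteAdTw : Module.Finite k (adTw ρbar p).V :=
  inferInstanceAs (Module.Finite k ↥(End0 ρbar))

instance instFiniteAdRep : Module.Finite k (adRep ρbar).V :=
  inferInstanceAs (Module.Finite k ↥(End0 ρbar))

/-! ### The level -/

/-- Elements acting trivially on `V` and on `μ_p` act trivially on `ad⁰ρ̄(1)`. -/
theorem adTwFp_ρ_eq_one {u : _root_.Fermat.Agent.S56.GQ} (h1 : ρbar.ρ u = 1) (h2 : cycloChar p u = 1) :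
    (adTwFp ρbar p).ρ u = 1 := by
  apply LinearMap.ext
  intro m
  apply valFp_injective
  have h3 : ρbar.ρ u⁻¹ = 1 := by
    have h := rho_inv_mul ρbar u
    rwa [h1, mul_one] at h
  rw [valFp_ρ, cycK_coe, h1, h2, h3, Units.val_one, map_one, one_smul, one_mul, mul_one]
  rfl

/-- A level of `T ∋ p` acting trivially on `V` and on `μ_p`, if `ρ̄` is unramified outside
`T`. -/
theorem exists_level_rho (T : Finset Nat.Primes) (hpT : pPrime p ∈ T)
    (hur : ∀ q : Nat.Primes, q ∉ T → ρbar.IsUnramifiedAt (q : ℕ)) :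
    ∃ U ∈ (globalLevels T).levels, (∀ u ∈ U, ρbar.ρ u = 1) ∧ ∀ u ∈ U, cycloChar p u = 1 := by
  obtain ⟨L, hLfin, hL⟩ := ρbar.factorsThroughFiniteLevel
  haveI := hLfin
  haveI := Fermat.Agent.S55.Bridge.cycloLevel_finiteDimensional p
  have hsupfin : FiniteDimensional ℚ ↥(L ⊔ Fermat.Agent.S55.Bridge.cycloLevel p) :=
    IntermediateField.finiteDimensional_sup L (Fermat.Agent.S55.Bridge.cycloLevel p)
  obtain ⟨F, hF, hfix, -⟩ := Fermat.Agent.S55.Bridge.exists_level_of_subgroup T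
    (MonoidHom.ker ρbar.ρ ⊓ MonoidHom.ker (cycloChar p))
    (L ⊔ Fermat.Agent.S55.Bridge.cycloLevel p) hsupfin
    (fun s hs => by
      rw [IntermediateField.fixingSubgroup_sup] at hs
      exact ⟨MonoidHom.mem_ker.2 (hL s (fun x hx =>
          (IntermediateField.mem_fixingSubgroup_iff L s).1 hs.1 x hx)),
        MonoidHom.mem_ker.2
          (Fermat.Agent.S55.Bridge.cycloChar_eq_one_of_mem_fixingSubgroup p s hs.2)⟩)
    (fun q hq A hA g hg => by
      have hqp : (q : ℕ) ≠ p := by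
        intro h
        apply hq
        have : q = pPrime p := Subtype.ext h
        rw [this]
        exact hpT
      exact ⟨MonoidHom.mem_ker.2 (hur q hq A hA g hg),
        MonoidHom.mem_ker.2
          (Fermat.Agent.S55.Bridge.cycloChar_eq_one_of_mem_inertia p q.2 hqp A hA g hg)⟩)
  refine ⟨F.fixingSubgroup, ⟨F, hF, rfl⟩, fun u hu => ?_, fun u hu => ?_⟩
  · rw [hfix] at hu
    exact MonoidHom.mem_ker.1 hu.1
  · rw [hfix] at hu
    exact MonoidHom.mem_ker.1 hu.2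

variable {ρbar p} in
theorem isUSmooth_adTwFp {T : Finset Nat.Primes} {U : Subgroup _root_.Fermat.Agent.S56.GQ}
    (hU : U ∈ (globalLevels T).levels) (hρ : ∀ u ∈ U, ρbar.ρ u = 1)
    (hχ : ∀ u ∈ U, cycloChar p u = 1) : (globalLevels T).IsUSmooth (adTwFp ρbar p) :=
  ⟨U, hU, fun s hs a => by rw [adTwFp_ρ_eq_one ρbar p (hρ s hs) (hχ s hs)]; rfl⟩

variable {ρbar p} in
theorem isUSmooth_tdual_adTwFp {T : Finset Nat.Primes} {U : Subgroup _root_.Fermat.Agent.S56.GQ}
    (hU : U ∈ (globalLevels T).levels) (hρ : ∀ u ∈ U, ρbar.ρ u = 1)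
    (hχ : ∀ u ∈ U, cycloChar p u = 1) :
    (globalLevels T).IsUSmooth (tdual p (adTwFp ρbar p)) :=
  ⟨U, hU, fun s hs a => by
    rw [Fermat.Agent.S55.Bridge.dualTwist_ρ_eq_one (adTwFp ρbar p) (cycloChar p) s
      (adTwFp_ρ_eq_one ρbar p (hρ s hs) (hχ s hs)) (hχ s hs)]
    rfl⟩

/-! ### INV0 -/

/-- `H⁰(G_ℚ, ad⁰ρ̄(1)) = 0` in `PT` vocabulary. -/
theorem finrank_H0_adTwFp
    (hinv : ∀ m : Module.End k ρbar.V, LinearMap.trace k ρbar.V m = 0 →
      (∀ (σ : _root_.Fermat.Agent.S56.GQ) (a : ℕ), IsCycExp p σ a → (a : k) • (ρbar.ρ σ * m * ρbar.ρ σ⁻¹) = m) →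
      m = 0) :
    Module.finrank (ZMod p) ↥(LevelSys.H0 (adTwFp ρbar p)) = 0 := by
  rw [(resFpAEq p (adTw ρbar p)).finrank_H0]
  have hsub : Subsingleton ↥(LevelSys.H0 (adTw ρbar p)) := by
    refine ⟨fun x y => ?_⟩
    have key : ∀ z : ↥(LevelSys.H0 (adTw ρbar p)), z = 0 := by
      intro z
      apply Subtype.ext
      apply valTw_injective
      rw [Submodule.coe_zero, map_zero]
      apply hinv _ (trace_valTw ρbar p z.1)
      intro σ a ha
      have h1 := congrArg (valTw ρbar p) (z.2 σ)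
      rw [valTw_ρ] at h1
      rw [natCast_eq_cycK k ha]
      exact h1
    rw [key x, key y]
  rw [Module.finrank_zero_of_subsingleton, mul_zero]

/-- `H⁰(G_ℚ, ad⁰ρ̄) = 0`, i.e. `Hom_G(ad⁰ρ̄(1), μ_p) = 0`, in `PT` vocabulary. -/
theorem finrank_charHom_adTwFp [Finite k] (h2 : (2 : k) ≠ 0) (hinv : adInv ρbar ⊤ = ⊥) :
    Module.finrank (ZMod p) ↥(charHom (cycloChar p) (adTwFp ρbar p)) = 0 := by
  have h1 : Module.finrank (ZMod p) ↥(charHom (cycloChar p) (adTwFp ρbar p))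
      = Module.finrank (ZMod p) ↥(LevelSys.H0 (tdual p (adTwFp ρbar p))) :=
    congrArg (fun X : Submodule (ZMod p) (Module.Dual (ZMod p) (adTwFp ρbar p).V) =>
      Module.finrank (ZMod p) ↥X) (H0_dualTwist_eq (cycloChar p) (adTwFp ρbar p)).symm
  rw [h1, (tdualAEq ρbar p h2).finrank_H0]
  have hsub : Subsingleton ↥(LevelSys.H0 (adRep ρbar)) := by
    refine ⟨fun x y => ?_⟩
    have key : ∀ z : ↥(LevelSys.H0 (adRep ρbar)), z = 0 := by
      intro z
      apply Subtype.ext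
      apply val_injective
      rw [Submodule.coe_zero, map_zero]
      have hz : val ρbar z.1 ∈ adInv ρbar ⊤ :=
        (mem_adInv_iff ρbar ⊤ _).2 ⟨z.1, rfl, fun σ _ => z.2 σ⟩
      rw [hinv] at hz
      exact (Submodule.mem_bot k).1 hz
    rw [key x, key y]
  rw [Module.finrank_zero_of_subsingleton, mul_zero]

/-! ### ODD -/

/-- The `(-1)`-eigenspace of an odd involution `c` on `ad⁰ρ̄(1)` has `F_p`-dimension
`[k : F_p]`. -/
theorem finrank_minusPart_adTwFp (c : _root_.Fermat.Agent.S56.GQ) (hc : ((cycK k p c : kˣ) : k) = -1)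
    (hcc : ρbar.ρ c * ρbar.ρ c = 1) (htr : LinearMap.trace k ρbar.V (ρbar.ρ c) = 0)
    (hcomm : ∀ m : Module.End k ρbar.V, LinearMap.trace k ρbar.V m = 0 →
      ρbar.ρ c * m = m * ρbar.ρ c → ∃ r : k, m = r • ρbar.ρ c) :
    Module.finrank (ZMod p) ↥(Fermat.Agent.S56.H419.minusPart c (adTwFp ρbar p))
      = fpDeg k p := by
  have hne : ρbar.ρ c ≠ 0 := by
    intro h0
    rw [h0, mul_zero] at hcc
    haveI : Nontrivial ρbar.V := Module.nontrivial_of_finrank_pos (R := k) (by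
      rw [ρbar.finrank_eq]; norm_num)
    exact zero_ne_one hcc
  have hinv : ρbar.ρ c⁻¹ = ρbar.ρ c := by
    have h := rho_inv_mul ρbar c
    calc ρbar.ρ c⁻¹ = ρbar.ρ c⁻¹ * (ρbar.ρ c * ρbar.ρ c) := by rw [hcc, mul_one]
      _ = ρbar.ρ c := by rw [← mul_assoc, h, one_mul]
  -- membership in the minus part
  have hmem : ∀ x : (adTwFp ρbar p).V,
      x ∈ Fermat.Agent.S56.H419.minusPart c (adTwFp ρbar p) ↔
        ρbar.ρ c * valFp ρbar p x = valFp ρbar p x * ρbar.ρ c := by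
    intro x
    rw [Fermat.Agent.S56.H419.mem_minusPart]
    constructor
    · intro h
      have h1 := congrArg (valFp ρbar p) h
      rw [valFp_ρ, hc, map_neg, neg_smul, one_smul, neg_inj, hinv] at h1
      calc ρbar.ρ c * valFp ρbar p x
          = ρbar.ρ c * valFp ρbar p x * (ρbar.ρ c * ρbar.ρ c) := by rw [hcc, mul_one]
        _ = (ρbar.ρ c * valFp ρbar p x * ρbar.ρ c) * ρbar.ρ c := by rw [mul_assoc _ _ (ρbar.ρ c)]
        _ = valFp ρbar p x * ρbar.ρ c := by rw [h1]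
    · intro h
      apply valFp_injective
      rw [valFp_ρ, hc, map_neg, neg_smul, one_smul, neg_inj, hinv, h, mul_assoc, hcc, mul_one]
  -- the additive bijection onto the line `k · ρ̄(c)`
  let f : ↥(Fermat.Agent.S56.H419.minusPart c (adTwFp ρbar p)) →+
      ↥(Submodule.span k {ρbar.ρ c}) :=
    { toFun := fun x => ⟨valFp ρbar p x.1, by
        obtain ⟨r, hr⟩ := hcomm _ (trace_valFp ρbar p x.1) ((hmem x.1).1 x.2)
        rw [hr]
        exact Submodule.smul_mem _ _ (Submodule.mem_span_singleton_self _)⟩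
      map_zero' := Subtype.ext (map_zero (valFp ρbar p))
      map_add' := fun x y => Subtype.ext (map_add (valFp ρbar p) x.1 y.1) }
  have hf : Function.Bijective f := by
    constructor
    · intro x y hxy
      have h1 : valFp ρbar p x.1 = valFp ρbar p y.1 :=
        congrArg (fun z : ↥(Submodule.span k {ρbar.ρ c}) => (z : Module.End k ρbar.V)) hxy
      exact Subtype.ext (valFp_injective ρbar p h1)
    · rintro ⟨y, hy⟩
      obtain ⟨r, rfl⟩ := Submodule.mem_span_singleton.1 hy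
      have hytr : LinearMap.trace k ρbar.V (r • ρbar.ρ c) = 0 := by
        rw [map_smul, htr, smul_zero]
      refine ⟨⟨mkFp ρbar p (r • ρbar.ρ c) hytr, (hmem _).2 ?_⟩, Subtype.ext rfl⟩
      rw [valFp_mkFp, mul_smul_comm, smul_mul_assoc]
  rw [finrank_eq_of_addEquiv (k := k) p (AddEquiv.ofBijective f hf),
    finrank_span_singleton hne, mul_one]

/-! ### Local invariants -/

/-- `Hom_{G_v}(ad⁰ρ̄(1), μ_p) = H⁰(G_v, ad⁰ρ̄)`. -/
theorem finrank_charHom_loc [Finite k] (h2 : (2 : k) ≠ 0) (v : Nat.Primes) :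
    Module.finrank (ZMod p) ↥(charHom (cycloLoc p v) (Rep.res (rl v) (adTwFp ρbar p)))
      = fpDeg k p *
        Module.finrank k ↥(adInv ρbar ((stdPl (v : ℕ)).decompositionSubgroup ℚ)) := by
  have h1 : Module.finrank (ZMod p) ↥(charHom (cycloLoc p v) (Rep.res (rl v) (adTwFp ρbar p)))
      = Module.finrank (ZMod p)
          ↥(LevelSys.H0 ((Rep.res (rl v) (adTwFp ρbar p)).dualTwist (cycloLoc p v))) :=
    congrArg (fun X : Submodule (ZMod p) (Module.Dual (ZMod p) (adTwFp ρbar p).V) =>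
      Module.finrank (ZMod p) ↥X)
      (H0_dualTwist_eq (cycloLoc p v) (Rep.res (rl v) (adTwFp ρbar p))).symm
  rw [h1, (tdualLocAEq ρbar p h2 v).finrank_H0, finrank_adInv_stdPl]

/-! ### Frames -/

theorem image_coe_primesOf (T : Finset Nat.Primes) :
    primesOf (T.image (fun v : Nat.Primes => (v : ℕ))) = T := by
  ext q
  rw [mem_primesOf, Finset.mem_image]
  constructor
  · rintro ⟨w, hw, hwq⟩
    have : w = q := Subtype.ext hwq
    rwa [← this]
  · intro hq
    exact ⟨q, hq, rfl⟩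

/-- The dual frame of all classes, with its `F_p`-dimension. -/
theorem exists_frame_Fp [Finite k] (T : Finset Nat.Primes)
    (hsm : (globalLevels T).IsUSmooth (adTwFp ρbar p)) :
    ∃ D : Submodule k (_root_.Fermat.Agent.S56.GQ → Module.End k ρbar.V), IsDualFrame ρbar p D ∧
      (∀ y ∈ D, ∀ q : ℕ, q.Prime → q ∉ T.image (fun v : Nat.Primes => (v : ℕ)) →
        UnramAt ρbar y q) ∧
      Module.finrank (ZMod p) ((globalLevels T).H1 (adTwFp ρbar p))
        ≤ fpDeg k p * Module.finrank k ↥D := by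
  haveI : FiniteDimensional (ZMod p) (adTwFp ρbar p) := finiteDimensional_resFp p _
  haveI : Module.Finite (ZMod p) ((globalLevels T).H1 (adTwFp ρbar p)) :=
    Fermat.Agent.S55.PT.H593.finGlob p T (adTwFp ρbar p) inferInstance hsm
  haveI : Module.Finite k ((globalLevels T).H1 (adTw ρbar p)) :=
    (resFpAEq p (adTw ρbar p)).finite_H1 (globalLevels T)
  obtain ⟨D, hD, hDur, hDrank⟩ := exists_isDualFrame ρbar p T
  refine ⟨D, hD, fun y hy q hq hqT => ?_, ?_⟩
  · exact hDur y hy ⟨q, hq⟩ (fun h => hqT (Finset.mem_image.2 ⟨⟨q, hq⟩, h, rfl⟩))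
  · rw [hDrank, (resFpAEq p (adTw ρbar p)).finrank_H1 (globalLevels T)]

/-- `exists_selmer_space`, for a set of primes given as a `Finset Nat.Primes`. -/
theorem exists_selmer_space_primes (h2 : (2 : k) ≠ 0) (Smin : Finset ℕ)
    (hS : ∀ v ∈ Smin, v.Prime) (T : Finset Nat.Primes) (hT : primesOf Smin = T)
    [Module.Finite k ↥(Sha1 (hrl T) (adRep ρbar))] :
    ∃ X : Submodule k (_root_.Fermat.Agent.S56.GQ → Module.End k ρbar.V), Module.Finite k X ∧
      (∀ c, IsSelCocycle ρbar stdPl (fun _ => ⊥) Smin ∅ c →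
        ∃ t ∈ X, IsAdCoboundary ρbar (c - t)) ∧
      Module.finrank k X = Module.finrank k ↥(Sha1 (hrl T) (adRep ρbar)) := by
  subst hT
  exact exists_selmer_space ρbar h2 Smin stdPl (fun v hv => stdPl_liesOver (hS v hv)) hS

/-- Representatives of `Ш¹_T(ad⁰ρ̄)`, with the `F_p`-dimension of `Ш¹_T((ad⁰ρ̄(1))′)`. -/
theorem exists_selmer_Fp [Finite k] (h2 : (2 : k) ≠ 0) (T : Finset Nat.Primes)
    (hsm' : (globalLevels T).IsUSmooth (tdual p (adTwFp ρbar p))) :
    ∃ X : Submodule k (_root_.Fermat.Agent.S56.GQ → Module.End k ρbar.V), Module.Finite k X ∧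
      (∀ c, IsSelCocycle ρbar stdPl (fun _ => ⊥)
          (T.image (fun v : Nat.Primes => (v : ℕ))) ∅ c →
        ∃ t ∈ X, IsAdCoboundary ρbar (c - t)) ∧
      fpDeg k p * Module.finrank k ↥X
        ≤ Module.finrank (ZMod p) ↥(Sha1 (hrl T) (tdual p (adTwFp ρbar p))) := by
  haveI : FiniteDimensional (ZMod p) (adTwFp ρbar p) := finiteDimensional_resFp p _
  haveI : FiniteDimensional (ZMod p) (tdual p (adTwFp ρbar p)) :=
    inferInstanceAs (FiniteDimensional (ZMod p) (Module.Dual (ZMod p) (adTwFp ρbar p).V))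
  haveI : Module.Finite (ZMod p) ((globalLevels T).H1 (tdual p (adTwFp ρbar p))) :=
    Fermat.Agent.S55.PT.H593.finGlob p T (tdual p (adTwFp ρbar p)) inferInstance hsm'
  haveI : Module.Finite k ((globalLevels T).H1 (adRep ρbar)) :=
    (tdualAEq ρbar p h2).finite_H1 (globalLevels T)
  obtain ⟨X, hXfin, hX, hXrank⟩ := exists_selmer_space_primes ρbar h2
    (T.image (fun v : Nat.Primes => (v : ℕ)))
    (fun v hv => by
      obtain ⟨w, -, rfl⟩ := Finset.mem_image.1 hv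
      exact w.2) T (image_coe_primesOf T)
  refine ⟨X, hXfin, hX, ?_⟩
  rw [hXrank, (tdualAEq ρbar p h2).finrank_Sha1 (hrl T)]

end General

/-! ### BRIDGE-BASE -/

/-- **BRIDGE-BASE** (`Euler/Big/Spec.lean`, frozen by helper366): the dictionary between the
plain-function language of `H716.Base` and the `PT` vocabulary for `N = ad⁰ρ̄(1)` over `F_p`. -/
theorem bridgeBase : Fermat.Agent.S56.Euler.BridgeBaseSpec := by
  intro 𝒪 _ _ _ _ _ p _ ρbar S Smin hyp
  haveI : CharP (IsLocalRing.ResidueField 𝒪) p :=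
    (CharP.charP_iff_prime_eq_zero hyp.hp).2 (Fermat.Agent.S56.H596.natCast_p_eq_zero hyp)
  have h2 : (2 : IsLocalRing.ResidueField 𝒪) ≠ 0 := Fermat.Agent.S56.H596.two_ne_zero_of_hyp hyp
  have hpS₀ : pPrime p ∈ primesOf Smin := mem_primesOf.2 hyp.hpSmin
  have hur : ∀ q : Nat.Primes, q ∉ primesOf Smin → ρbar.IsUnramifiedAt (q : ℕ) := by
    intro q hq
    have hqS : (q : ℕ) ∉ Smin := fun h => hq (mem_primesOf.2 h)
    have hqp : (q : ℕ) ≠ p := fun h => hqS (h ▸ hyp.hpSmin)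
    by_contra hcon
    exact hqS ((hyp.hmin q q.2 hqp).2 hcon)
  obtain ⟨U, hU, hρ, hχ⟩ := exists_level_rho ρbar p (primesOf Smin) hpS₀ hur
  refine ⟨primesOf Smin, U, adTwFp ρbar p, stdPl, fpDeg (IsLocalRing.ResidueField 𝒪) p, hpS₀,
    ?_, hU, finiteDimensional_resFp p _, ?_, fun v hv => stdPl_liesOver hv,
    fpDeg_pos (IsLocalRing.ResidueField 𝒪) p, ?_, ?_, ?_, ?_⟩
  · intro q hq
    exact ⟨hyp.hS q (hyp.hSmin hq), mem_primesOf.2 hq⟩
  · intro u hu
    exact adTwFp_ρ_eq_one ρbar p (hρ u hu) (hχ u hu)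
  · exact finrank_H0_adTwFp ρbar p
      (fun m htr hinv => Fermat.Agent.S56.H666.inv0_twisted hyp m htr hinv)
  · exact finrank_charHom_adTwFp ρbar p h2 (Fermat.Agent.S56.H666.adInv_top_eq_bot hyp)
  · apply finrank_minusPart_adTwFp ρbar p complexConjugation
    · rw [← natCast_eq_cycK (IsLocalRing.ResidueField 𝒪)
        (Fermat.Agent.S56.H596.isCycExp_complexConjugation p hyp.hp.ne_zero),
        Nat.cast_sub hyp.hp.one_le, CharP.cast_eq_zero, Nat.cast_one, zero_sub]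
    · exact Fermat.Agent.S56.H596.rho_complexConjugation_sq ρbar
    · exact Fermat.Agent.S56.H596.trace_rho_complexConjugation hyp
    · intro m htr hcomm
      exact ⟨_, Fermat.Agent.S56.H596.eq_smul_of_commute_complexConjugation hyp m htr hcomm⟩
  · intro S' hS'
    have hU' : U ∈ (globalLevels S').levels := by
      obtain ⟨F, hF, rfl⟩ := hU
      exact ⟨F, hF.mono hS', rfl⟩
    exact ⟨fun v => finrank_charHom_loc ρbar p h2 v.1,
      exists_frame_Fp ρbar p S' (isUSmooth_adTwFp hU' hρ hχ),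
      exists_selmer_Fp ρbar p h2 S' (isUSmooth_tdual_adTwFp hU' hρ hχ)⟩

end Fermat.Agent.S56.Br

end

end
-- ===== PACK-END S56/Br/H374/BridgeBase.lean

-- ===== PACK-BEGIN S55/KC/KummerH3H53.lean
section


/-!
# S55 / layer KC, leaf KC-K3: `KummerH3Spec`          (helper53)

`H³_lc(G, M) = 0` for `M ≅ B[p]`, `B` smooth and `p`-divisible with `H³_lc(G, B) = 0` and
`H²_lc(G, B)` `p`-divisible.  Cochain-level Kummer argument.
-/

set_option autoImplicit false
set_option linter.style.haveILetI false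

noncomputable section

namespace Fermat.Agent.S55.KC.H53

open groupCohomology ExtCitation Fermat.Agent.S55.PT

variable {G : Type} [Group G] (L : LevelSys G)

lemma IsLC₃.comp' {X Y : Type*} {f : G × G × G → X} (hf : IsLC₃ L f) (φ : X → Y) :
    IsLC₃ L (φ ∘ f) := by
  obtain ⟨U, hU, h⟩ := hf
  exact ⟨U, hU, fun g₁ g₂ g₃ s₁ s₂ s₃ h₁ h₂ h₃ => by
    simp only [Function.comp_apply, h g₁ g₂ g₃ s₁ s₂ s₃ h₁ h₂ h₃]⟩

section Kummer

variable {p : ℕ} [Fact p.Prime] {M : Rep.{0, 0, 0} (ZMod p) G} {B : Rep.{0, 0, 0} ℤ G}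
  {ι : M →+ B}

lemma ι_d₂₃ (hι : IsKummerEmb p M B ι) (x : G × G → M) :
    (d₂₃ B).hom (ι ∘ x) = ι ∘ (d₂₃ M).hom x := by
  funext ⟨g, h, j⟩
  simp only [d₂₃_hom_apply, Function.comp_apply, map_add, map_sub, hι.equivariant]

lemma ι_isCocycle₃ (hι : IsKummerEmb p M B ι) {z : G × G × G → M} (hz : IsCocycle₃ M z) :
    IsCocycle₃ B (ι ∘ z) := by
  intro g h i j
  have := congrArg ι (hz g h i j)
  simpa only [Function.comp_apply, map_add, map_sub, hι.equivariant, map_zero] using this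

/-- **KC-K3.** -/
theorem kummerH3 : KummerH3Spec := by
  intro G _ L p _ M B ι hN hF hsm hdiv hι h3 h2 z hzlc hzc
  obtain ⟨b, hblc, hbz⟩ := h3 (ι ∘ z) (IsLC₃.comp' L hzlc ι) (ι_isCocycle₃ hι hzc)
  -- `p • b` is a level-constant 2-cocycle
  have hpb : p • b ∈ L.Z2 B := by
    refine ⟨?_, LevelSys.IsLC₂.comp hblc (p • ·)⟩
    show (d₂₃ B).hom (p • b) = 0
    rw [map_nsmul, hbz]
    funext x
    simp only [Pi.smul_apply, Function.comp_apply]
    exact p_nsmul_ι (z x)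
  obtain ⟨a', ha', hcob⟩ := h2 (p • b) hpb
  obtain ⟨c, hc, hcd⟩ := hcob
  choose root hroot using hdiv
  set c₁ : G → B := root ∘ c with hc₁
  have hc₁lc : L.IsLC₁ c₁ := LevelSys.IsLC₁.comp hc root
  have hpc₁ : p • c₁ = c := by
    funext g
    simp only [Pi.smul_apply, hc₁, Function.comp_apply, hroot]
  have hdlc : L.IsLC₂ ((d₁₂ B).hom c₁) := d₁₂_isLC₂_of_smooth L hN hF hsm hc₁lc
  have hkill : ∀ x, p • (b - a' - (d₁₂ B).hom c₁) x = 0 := by
    intro x
    have h1 : (p • (b - a' - (d₁₂ B).hom c₁)) = 0 := by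
      rw [smul_sub, smul_sub, ← map_nsmul, hpc₁, hcd]
      exact sub_self _
    have := congrFun h1 x
    simpa using this
  obtain ⟨r, hr⟩ := exists_lift_of_p_nsmul_eq_zero hι _ hkill
  refine ⟨r, ?_, ?_⟩
  · apply isLC₂_of_ι L hι
    rw [hr]
    exact IsLC₂.sub' L (IsLC₂.sub' L hblc ha'.2) hdlc
  · have : ι ∘ (d₂₃ M).hom r = ι ∘ z := by
      rw [← ι_d₂₃ hι, hr, map_sub, map_sub, hbz]
      have h1 : (d₂₃ B).hom a' = 0 := ha'.1
      have h2 : (d₂₃ B).hom ((d₁₂ B).hom c₁) = 0 := d₁₂_comp_d₂₃_apply B c₁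
      rw [h1, h2, sub_zero, sub_zero]
    funext x
    exact hι.injective (congrFun this x)

end Kummer

end Fermat.Agent.S55.KC.H53

end

end
-- ===== PACK-END S55/KC/KummerH3H53.lean

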