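import Fermat.Agent.Pack.S56.E18L1
import Fermat.Agent.Pack.S56.E11L0
import Fermat.Agent.Pack.S56.E11L2
import Fermat.Agent.Pack.S56.E7L3
import Fermat.Agent.Pack.S56.E7L0
import Fermat.Agent.Pack.S56.E18L0
import Fermat.Agent.Pack.S56.E10L2
import Fermat.Agent.Pack.S56.E18L3
import Fermat.Agent.Pack.S56.E8L3
import Fermat.Agent.Pack.S56.E17L0
import Fermat.Agent.Pack.S56.E8L2
import Fermat.Agent.Pack.S56.E16L2
import Fermat.Agent.Pack.S56.E11L3
import Fermat.Agent.Pack.S56.E6L2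
import Fermat.Agent.Pack.S56.E15L0
import Fermat.Agent.Pack.S56.E4L2
import Fermat.Agent.Pack.S56.E15L2
import Fermat.Agent.Pack.S56.E16L0
import Fermat.Agent.Pack.S56.E14L0
import Fermat.Agent.Pack.S56.E15L1
import Fermat.Agent.Pack.S56.E16L1
import Fermat.Agent.Pack.S56.E11L1
import Fermat.Agent.Pack.S56.E15L3
import Fermat.Agent.Pack.S56.E13L1
import Fermat.Agent.Pack.S56.E5L0
import Fermat.Agent.Pack.S56.E14L2
import Fermat.Agent.Pack.S56.E0L1

-- ===== PACK-BEGIN S55/Local/H713/T3Cor.lean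
section




/-!
# S55 layer L : consequences of the cyclic norm index theorem (helper713)

* `cyclicH2Card : CyclicH2CardStatement` (T3'), via helper717's glue `cyclicH2Card_of`;
* `normIndexCyclicSpec : L.NormIndexCyclicSpec` (L-B2') and
  `h2CardCyclicSpec : L.H2CardCyclicSpec` (L-B2), via helper54's adapters.

All unconditional.
-/

set_option autoImplicit false

namespace Fermat.Agent.S55.Local.H713

/-- (T3') `|H²(Gal(L/K), Lˣ)| = [L : K]` for `L / K` cyclic. -/
theorem cyclicH2Card : Fermat.Agent.S55.Local.CyclicH2CardStatement :=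
  Fermat.Agent.S55.Local.H717.cyclicH2Card_of cyclicNormIndex

/-- (L-B2') the cyclic norm index in the outer (`IsLocalFld`) shape. -/
theorem normIndexCyclicSpec : Fermat.Agent.S55.L.NormIndexCyclicSpec :=
  Fermat.Agent.S55.L.normIndexCyclic_of_local cyclicNormIndex

/-- (L-B2) the cyclic `H²` count in the outer (`IsLocalFld`) shape. -/
theorem h2CardCyclicSpec : Fermat.Agent.S55.L.H2CardCyclicSpec :=
  Fermat.Agent.S55.L.h2CardCyclic_of_local cyclicH2Card

end Fermat.Agent.S55.Local.H713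

end
-- ===== PACK-END S55/Local/H713/T3Cor.lean

-- ===== PACK-BEGIN S55/G/Rec/H413/L5Cyclo.lean
section





/-!
# S55 / G / REC, leaf L5 (helper413), part 2: the local cyclotomic field `ℚ_ℓ(μ_{ℓ^(n+1)})`

* `normIndex_cyclotomic` : the norm index of `ℚ_ℓ(ζ_{ℓ^(n+1)})/ℚ_ℓ` is the degree (instance of the
  local norm index theorem for cyclic extensions, `Local.H713.normIndexCyclicSpec`).
* `normRange_cyclotomic_eq` : `N(Fˣ) = ker (wildChar)`, UNCONDITIONAL (`ℓ` odd).
-/

set_option autoImplicit false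
set_option linter.style.haveILetI false

namespace Fermat.Agent.S55.G.Rec.H413

open Polynomial

variable (ℓ : ℕ) [hℓ : Fact ℓ.Prime]

section Abstract

/-- `Gal(ℚ_ℓ(ζ_{ℓ^(n+1)})/ℚ_ℓ)` is cyclic (`ℓ` odd). -/
theorem isCyclic_gal_cyclotomic (n : ℕ) (F : Type) [Field F] [Algebra ℚ_[ℓ] F]
    [IsCyclotomicExtension {ℓ ^ (n + 1)} ℚ_[ℓ] F] (hℓ2 : ℓ ≠ 2) : IsCyclic (F ≃ₐ[ℚ_[ℓ]] F) := by
  have : NeZero (ℓ ^ (n + 1)) := ⟨(pow_pos hℓ.out.pos _).ne'⟩
  have e := IsCyclotomicExtension.autEquivPow F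
    (Fermat.Agent.S55.H413.irreducible_cyclotomic_padic ℓ n)
  have : IsCyclic (ZMod (ℓ ^ (n + 1)))ˣ := ZMod.isCyclic_units_of_prime_pow ℓ hℓ.out hℓ2 (n + 1)
  exact isCyclic_of_surjective e.symm e.symm.surjective

/-- The norm index of `ℚ_ℓ(ζ_{ℓ^(n+1)})/ℚ_ℓ` equals the degree. -/
theorem normIndex_cyclotomic (n : ℕ) (F : Type) [Field F] [Algebra ℚ_[ℓ] F]
    [IsCyclotomicExtension {ℓ ^ (n + 1)} ℚ_[ℓ] F] (hℓ2 : ℓ ≠ 2) :
    (Fermat.Agent.S55.H413.normRange ℓ F).index = Module.finrank ℚ_[ℓ] F := by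
  have : NeZero (ℓ ^ (n + 1)) := ⟨(pow_pos hℓ.out.pos _).ne'⟩
  haveI : Fermat.Agent.S55.L.IsLocalFld ℚ_[ℓ] := Fermat.Agent.S55.L.padicInst63 ℓ
  haveI : FiniteDimensional ℚ_[ℓ] F :=
    IsCyclotomicExtension.finiteDimensional {ℓ ^ (n + 1)} ℚ_[ℓ] F
  haveI : IsGalois ℚ_[ℓ] F := IsCyclotomicExtension.isGalois {ℓ ^ (n + 1)} ℚ_[ℓ] F
  haveI : IsCyclic (F ≃ₐ[ℚ_[ℓ]] F) := isCyclic_gal_cyclotomic ℓ n F hℓ2
  exact Fermat.Agent.S55.Local.H713.normIndexCyclicSpec ℚ_[ℓ] F

/-- **Norm group of the local cyclotomic field**, unconditional. -/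
theorem normRange_cyclotomic_eq (n : ℕ) (F : Type) [Field F] [Algebra ℚ_[ℓ] F]
    [IsCyclotomicExtension {ℓ ^ (n + 1)} ℚ_[ℓ] F] (hℓ2 : ℓ ≠ 2) :
    Fermat.Agent.S55.H413.normRange ℓ F = (Fermat.Agent.S55.H413.wildChar ℓ (n + 1)).ker :=
  Fermat.Agent.S55.H413.normRange_eq_ker_wildChar ℓ n F hℓ2 (normIndex_cyclotomic ℓ n F hℓ2)

end Abstract

end Fermat.Agent.S55.G.Rec.H413

end
-- ===== PACK-END S55/G/Rec/H413/L5Cyclo.lean

-- ===== PACK-BEGIN S55/H295/TateSpecs.lean
section


/-!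
# `T5a`, `T5b`: Tate's theorem and `H³` of a class module

* `tate : T.TateSpec` — for a class module `(C, γ)` (and `H¹(H, k) = 0` for all `H ≤ G`):
  `Ĥⁿ(H, k) ≅ Ĥⁿ⁺²(H, C)` for all `n : ℤ`, `H ≤ G`;
* `tateH3 : T.TateH3Spec` — `H³(H, C) = 0` for a class module over `ℤ`;
* `tate_iso_explicit` — the isomorphism is the composite of the two connecting homomorphisms of
  `0 → I → P → k → 0` and `0 → C → C(c) → I → 0`.
-/

set_option autoImplicit false
set_option linter.unusedSectionVars false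

open CategoryTheory groupCohomology Rep Limits

namespace Fermat.Agent.S55.H295

open Fermat.Agent.S55.H783 Fermat.Agent.S55.T

noncomputable section

variable {k G : Type} [CommRing k] [Group G] [Fintype G]

/-- The first shifting isomorphism `Ĥⁿ(H, k) ≅ Ĥⁿ⁺¹(H, I)`. -/
def tateAugIso (H : Subgroup G) [Fintype H] (n : ℤ) :
    tateCohomology (res H.subtype (Rep.trivial k G k)) n ≅
      tateCohomology (res H.subtype (augI k G)) (n + 1) :=
  @asIso _ _ _ _ (TateCohomology.δ (augSESres_shortExact (k := k) H) n)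
    (ShortComplex.SnakeInput.isIso_δ _ (isCohTriv_augP (k := k) (G := G) H n)
      (isCohTriv_augP (k := k) (G := G) H (n + 1)))

/-- The second shifting isomorphism `Ĥⁿ(H, I) ≅ Ĥⁿ⁺¹(H, C)` for a class module `(C, [c])`. -/
def tateSplitIso {C : Rep.{0} k G} (c : cocycles₂ C) (hC : IsClassModule C (H2π C c))
    (hk : ∀ H : Subgroup G, IsZero (groupCohomology (Rep.trivial k H k) 1))
    (H : Subgroup G) [Fintype H] (n : ℤ) :
    tateCohomology (res H.subtype (augI k G)) n ≅
      tateCohomology (res H.subtype C) (n + 1) :=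
  @asIso _ _ _ _ (TateCohomology.δ (splitSESres_shortExact c H) n)
    (ShortComplex.SnakeInput.isIso_δ _ (isCohTriv_splitRep c hC hk H n)
      (isCohTriv_splitRep c hC hk H (n + 1)))

/-- Tate's isomorphism `Ĥⁿ(H, k) ≅ Ĥⁿ⁺²(H, C)` for a class module `(C, [c])`. -/
def tateIso {C : Rep.{0} k G} (c : cocycles₂ C) (hC : IsClassModule C (H2π C c))
    (hk : ∀ H : Subgroup G, IsZero (groupCohomology (Rep.trivial k H k) 1))
    (H : Subgroup G) [Fintype H] (n : ℤ) :
    tateCohomology (Rep.trivial k H k) n ≅ tateCohomology (res H.subtype C) (n + 2) :=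
  (tateCohomologyFunctor n).mapIso (resTrivialIso H).symm ≪≫ tateAugIso H n ≪≫
    tateSplitIso c hC hk H (n + 1) ≪≫
    eqToIso (by rw [show n + 1 + 1 = n + 2 by ring])

omit [Fintype G] in
/-- **T5a.**  Tate's theorem. -/
theorem tate : TateSpec := by
  intro k G _ _ _ C γ hk hC H _ n
  classical
  let _ : Fintype G := Fintype.ofFinite G
  obtain ⟨c, rfl⟩ := exists_cocycle_of_H2 C γ
  exact ⟨tateIso c hC hk H n⟩

omit [Fintype G] in
/-- **T5b.**  `H³` of a class module over `ℤ` vanishes. -/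
theorem tateH3 : TateH3Spec := by
  intro G _ _ C γ hC H
  classical
  let _ : Fintype H := Fintype.ofFinite H
  obtain ⟨e⟩ := tate ℤ G C γ (fun K => T.H539.h1TrivInt K) hC H 1
  have h1 : IsZero (tateCohomology (Rep.trivial ℤ H ℤ) 1) :=
    (isZero_tate_iff_group (Rep.trivial ℤ H ℤ) 1).2 (T.H539.h1TrivInt H)
  have h3 : IsZero (tateCohomology (resSub C H) (1 + 2)) := IsZero.of_iso h1 e.symm
  exact (isZero_tate_iff_group (resSub C H) 3).1 h3

end

end Fermat.Agent.S55.H295

end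
-- ===== PACK-END S55/H295/TateSpecs.lean

-- ===== PACK-BEGIN S55/T/NakH837/LatDual.lean
section


/-!
# S55, layer T, leaf T6 (helper837): elementary lattice duality in degree `0`

For a lattice `L` over a PID `k` in which `n = |G|` is nonzero:
* `exists_hom_of_dvd_norm` : a linear functional `μ` on `L^G` with `μ (N y) ∈ n k` for all `y` is
  the restriction of a `G`-invariant functional `e` on `L`;
* `exists_normHom_of_dvd_invariants` : a `G`-invariant functional `e` on `L` with `e (L^G) ⊆ n k`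
  is the norm of a linear functional.
-/

set_option autoImplicit false
set_option linter.unusedSectionVars false
set_option linter.style.haveILetI false

open CategoryTheory groupCohomology

namespace Fermat.Agent.S55.T.H837

open Fermat.Agent.S55.H572

noncomputable section

variable {k G : Type} [CommRing k] [IsDomain k] [Group G] [Fintype G]

/-- The norm as a linear map into the invariants. -/
def normInv (L : Rep.{0} k G) : L.V →ₗ[k] L.ρ.invariants :=
  (L.ρ.norm).codRestrict L.ρ.invariants fun y => by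
    have := norm_mem_invariants L y
    simpa [Representation.norm, LinearMap.sum_apply] using this

lemma normInv_coe (L : Rep.{0} k G) (y : L.V) : ((normInv L y : L.ρ.invariants) : L.V) =
    ∑ g : G, L.ρ g y := by
  simp [normInv, Representation.norm, LinearMap.sum_apply]

lemma normInv_ρ (L : Rep.{0} k G) (g : G) (y : L.V) : normInv L (L.ρ g y) = normInv L y := by
  apply Subtype.ext
  rw [normInv_coe, normInv_coe]
  refine Fintype.sum_equiv (Equiv.mulRight g) _ _ fun h => ?_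
  change L.ρ h (L.ρ g y) = L.ρ (h * g) y
  rw [map_mul]
  rfl

lemma normInv_invariant (L : Rep.{0} k G) (r : L.ρ.invariants) :
    normInv L r.1 = (Fintype.card G : k) • r := by
  apply Subtype.ext
  rw [normInv_coe, Finset.sum_congr rfl fun g _ => r.2 g]
  simp [Nat.cast_smul_eq_nsmul]

/-- **Lattice duality, surjectivity.**  A functional on `L^G` whose values on norms are divisible
by `n = |G|` is the restriction of an invariant functional on `L`. -/
theorem exists_hom_of_dvd_norm (hn : (Fintype.card G : k) ≠ 0) (L : Rep.{0} k G)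
    (μ : L.ρ.invariants →ₗ[k] k)
    (hμ : ∀ y : L.V, ∃ c : k, μ (normInv L y) = (Fintype.card G : k) * c) :
    ∃ e : L ⟶ Rep.trivial k G k, ∀ r : L.ρ.invariants, e.hom r.1 = μ r := by
  choose c hc using hμ
  have hadd : ∀ a b, c (a + b) = c a + c b := fun a b => by
    apply mul_left_cancel₀ hn
    rw [← hc, mul_add, ← hc, ← hc, map_add, map_add]
  have hsmul : ∀ (t : k) (a : L.V), c (t • a) = t * c a := fun t a => by
    apply mul_left_cancel₀ hn
    rw [← hc, map_smul, map_smul, hc, smul_eq_mul]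
    ring
  let e₀ : L.V →ₗ[k] k :=
    { toFun := c
      map_add' := hadd
      map_smul' := fun t a => by rw [hsmul]; rfl }
  have hequiv : ∀ (g : G) (y : L.V), c (L.ρ g y) = c y := fun g y => by
    apply mul_left_cancel₀ hn
    rw [← hc, ← hc, normInv_ρ]
  refine ⟨Rep.ofHom (ρ := L.ρ) (σ := (Rep.trivial k G k).ρ) ⟨e₀, fun g => ?_⟩, fun r => ?_⟩
  · apply LinearMap.ext
    intro y
    exact hequiv g y
  · change c r.1 = μ r
    apply mul_left_cancel₀ hn
    rw [← hc, normInv_invariant, map_smul, smul_eq_mul]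

/-- The invariants of a lattice over a PID form a direct summand. -/
theorem exists_retraction_invariants [IsPrincipalIdealRing k] (L : Rep.{0} k G)
    [Module.Free k L.V] [Module.Finite k L.V] :
    ∃ ρ₀ : L.V →ₗ[k] L.ρ.invariants, ∀ r : L.ρ.invariants, ρ₀ r.1 = r := by
  haveI : Module.IsTorsionFree k (L.V ⧸ L.ρ.invariants) :=
    { isSMulRegular := fun t ht => by
        have ht0 : t ≠ 0 := ht.ne_zero
        intro q₁ q₂ hq
        have hq' : t • (q₁ - q₂) = 0 := by
          rw [smul_sub]; exact sub_eq_zero.2 hq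
        obtain ⟨y, hy⟩ := Submodule.Quotient.mk_surjective L.ρ.invariants (q₁ - q₂)
        rw [← hy, ← Submodule.Quotient.mk_smul, Submodule.Quotient.mk_eq_zero] at hq'
        have hy0 : y ∈ L.ρ.invariants := by
          intro g
          apply smul_right_injective (M := L.V) ht0
          change t • L.ρ g y = t • y
          rw [← map_smul]
          exact hq' g
        have : q₁ - q₂ = 0 := by
          rw [← hy]
          exact (Submodule.Quotient.mk_eq_zero _).2 hy0
        exact sub_eq_zero.1 this }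
  haveI : Module.Free k (L.V ⧸ L.ρ.invariants) := Module.free_of_finite_type_torsion_free'
  obtain ⟨s, hs⟩ := Module.projective_lifting_property (L.ρ.invariants.mkQ) LinearMap.id
    (Submodule.mkQ_surjective _)
  let d : L.V →ₗ[k] L.V := LinearMap.id - s ∘ₗ L.ρ.invariants.mkQ
  have hmem : ∀ y : L.V, d y ∈ L.ρ.invariants := by
    intro y
    rw [← Submodule.Quotient.mk_eq_zero]
    change L.ρ.invariants.mkQ (y - s (L.ρ.invariants.mkQ y)) = 0
    rw [map_sub]
    have := congrArg (fun m => m (L.ρ.invariants.mkQ y)) hs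
    change L.ρ.invariants.mkQ (s (L.ρ.invariants.mkQ y)) = L.ρ.invariants.mkQ y at this
    rw [this, sub_self]
  refine ⟨d.codRestrict L.ρ.invariants hmem, fun r => ?_⟩
  apply Subtype.ext
  change r.1 - s (L.ρ.invariants.mkQ r.1) = r.1
  have : L.ρ.invariants.mkQ r.1 = 0 := (Submodule.Quotient.mk_eq_zero _).2 r.2
  rw [this, map_zero, sub_zero]

/-- **Lattice duality, injectivity.**  An invariant functional on a lattice `L` whose values on
`L^G` are divisible by `n = |G|` is the norm of a linear functional. -/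
theorem exists_normHom_of_dvd_invariants [IsPrincipalIdealRing k]
    (hn : (Fintype.card G : k) ≠ 0) (L : Rep.{0} k G)
    [Module.Free k L.V] [Module.Finite k L.V] (e : L ⟶ Rep.trivial k G k)
    (he : ∀ r : L.ρ.invariants, ∃ c : k, e.hom r.1 = (Fintype.card G : k) * c) :
    ∃ ψ : L.V →ₗ[k] k, e = normHom (B := Rep.trivial k G k) ψ := by
  choose c hc using he
  have hadd : ∀ a b, c (a + b) = c a + c b := fun a b => by
    apply mul_left_cancel₀ hn
    rw [← hc, mul_add, ← hc, ← hc]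
    exact map_add e.hom a.1 b.1
  have hsmul : ∀ (t : k) (a : L.ρ.invariants), c (t • a) = t * c a := fun t a => by
    apply mul_left_cancel₀ hn
    rw [← hc]
    have : e.hom (t • a).1 = t • e.hom a.1 := map_smul e.hom t a.1
    rw [this, hc, smul_eq_mul]
    ring
  let e'' : L.ρ.invariants →ₗ[k] k :=
    { toFun := c
      map_add' := hadd
      map_smul' := fun t a => by rw [hsmul]; rfl }
  obtain ⟨ρ₀, hρ₀⟩ := exists_retraction_invariants L
  refine ⟨e'' ∘ₗ ρ₀, ?_⟩
  apply Rep.hom_ext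
  apply Representation.IntertwiningMap.ext
  apply LinearMap.ext
  intro y
  change e.hom y = (normHom (B := Rep.trivial k G k) (e'' ∘ₗ ρ₀)).hom y
  rw [normHom_hom_apply]
  have h1 : ∀ g : G, (Rep.trivial k G k).ρ g ((e'' ∘ₗ ρ₀) (L.ρ g⁻¹ y)) =
      (e'' ∘ₗ ρ₀) (L.ρ g⁻¹ y) := fun g => rfl
  rw [Finset.sum_congr rfl fun g _ => h1 g, ← map_sum]
  have h2 : ∑ g : G, L.ρ g⁻¹ y = (normInv L y).1 := by
    rw [normInv_coe]
    exact Fintype.sum_equiv (Equiv.inv G) _ _ fun g => rfl
  rw [h2]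
  change e.hom y = c (ρ₀ (normInv L y).1)
  rw [hρ₀]
  apply mul_left_cancel₀ hn
  rw [← hc, normInv_coe, map_sum]
  have h3 : ∀ g : G, e.hom (L.ρ g y) = e.hom y := fun g => by
    rw [Rep.hom_comm_apply]
    rfl
  rw [Finset.sum_congr rfl fun g _ => h3 g]
  simp

end

end Fermat.Agent.S55.T.H837

end
-- ===== PACK-END S55/T/NakH837/LatDual.lean

-- ===== PACK-BEGIN S55/T/NakH837/Main.lean
section


/-!
# S55, layer T, leaf T6 (helper837): Tate–Nakayama for lattices, generic coefficient ring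

Let `k` be a PID in which `n = |G|` is nonzero, and let

  `0 → C → X → I → 0`,   `0 → I → P → k → 0`

be exact rows of `G`-representations with `X`, `P` cohomologically trivial.  For a lattice `R`:

* `exists_hom_coeffMap_eq` : every `k`-linear map `H²(G, R) → H²(G, C)` is induced by a morphism
  `R ⟶ C`;
* `exists_normHom_of_coeffMap_eq_zero` : if `Hom(R, X)` and `Hom(up R, P)` are cohomologically
  trivial (Nakayama), a morphism `R ⟶ C` inducing zero on `H²` is the norm of a linear map.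
-/

set_option autoImplicit false
set_option linter.unusedSectionVars false
set_option linter.style.haveILetI false

open CategoryTheory groupCohomology

namespace Fermat.Agent.S55.T.H837

open Fermat.Agent.S55.H572

noncomputable section

variable {k G : Type} [CommRing k] [IsDomain k] [IsPrincipalIdealRing k] [Group G] [Fintype G]

variable {C X I P : Rep.{0} k G} {i : C ⟶ X} {π : X ⟶ I} {j : I ⟶ P}
  {ε : P ⟶ Rep.trivial k G k} {w₁ : i ≫ π = 0} {w₂ : j ≫ ε = 0}
  (hA : (ShortComplex.mk i π w₁).ShortExact) (hB : (ShortComplex.mk j ε w₂).ShortExact)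

/-- Elements of `k` as invariants of the trivial representation. -/
def trivInv : k →ₗ[k] (Rep.trivial k G k).ρ.invariants :=
  LinearMap.codRestrict _ LinearMap.id fun _ _ => rfl

lemma trivInv_surjective : Function.Surjective (trivInv (k := k) (G := G)) :=
  fun t => ⟨t.1, Subtype.ext rfl⟩

/-- The map `k → H²(G, C)` given by the two rows. -/
def rowMap : k →ₗ[k] groupCohomology C 2 :=
  (ddRow hA hB).hom ∘ₗ (H0Iso (Rep.trivial k G k)).inv.hom ∘ₗ trivInv

include hA hB in
lemma rowMap_surjective (hX : IsCohTriv X) (hP : IsCohTriv P) :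
    Function.Surjective (rowMap hA hB) := by
  have h1 := ddRow_surjective hA hB (isZero_groupCohomology_of_isCohTriv hP 0)
    (isZero_groupCohomology_of_isCohTriv hX 1)
  have h2 : Function.Surjective (H0Iso (Rep.trivial k G k)).inv.hom := fun x =>
    ⟨(H0Iso (Rep.trivial k G k)).hom.hom x,
      congrArg (fun m => m.hom x) (H0Iso (Rep.trivial k G k)).hom_inv_id⟩
  exact h1.comp (h2.comp trivInv_surjective)

include hA hB in
lemma dvd_of_rowMap_eq_zero (hX : IsCohTriv X) (hP : IsCohTriv P) (t : k)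
    (ht : rowMap hA hB t = 0) : ∃ c : k, t = (Fintype.card G : k) * c := by
  obtain ⟨s, hs⟩ := exists_card_smul_of_ddRow_eq_zero hA hB
    (isZero_groupCohomology_of_isCohTriv hX 0) hP (fun _ _ => rfl) (trivInv t) ht
  refine ⟨s, ?_⟩
  have : t = Fintype.card G • s := hs
  rw [this, nsmul_eq_mul]

/-- The class of an invariant of `up (up R)` in `H²(G, R)`. -/
def upMap (R : Rep.{0} k G) : (up (up R)).ρ.invariants →ₗ[k] groupCohomology R 2 :=
  (ddUp R).hom ∘ₗ (H0Iso (up (up R))).inv.hom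

lemma upMap_surjective (R : Rep.{0} k G) : Function.Surjective (_root_.Fermat.Agent.S55.T.H837.upMap R) := by
  have h2 : Function.Surjective (H0Iso (up (up R))).inv.hom := fun x =>
    ⟨(H0Iso (up (up R))).hom.hom x, congrArg (fun m => m.hom x) (H0Iso (up (up R))).hom_inv_id⟩
  exact (ddUp_surjective R).comp h2

lemma upMap_normInv (R : Rep.{0} k G) (y : (up (up R)).V) :
    _root_.Fermat.Agent.S55.T.H837.upMap R (normInv (up (up R)) y) = 0 := by
  have h : normInv (up (up R)) y =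
      ⟨∑ g : G, (up (up R)).ρ g y, norm_mem_invariants _ y⟩ :=
    Subtype.ext (normInv_coe _ y)
  rw [h]
  exact ddUp_norm R y

include hA hB in
/-- **Tate–Nakayama, surjectivity.** -/
theorem exists_hom_coeffMap_eq (hn : (Fintype.card G : k) ≠ 0)
    (hX : IsCohTriv X) (hP : IsCohTriv P)
    (R : Rep.{0} k G) [Module.Free k R.V] [Module.Finite k R.V]
    (φ : groupCohomology R 2 →ₗ[k] groupCohomology C 2) :
    ∃ f : R ⟶ C, ∀ x, (coeffMap f 2).hom x = φ x := by
  haveI : Module.Free k (up R).V := free_up R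
  haveI : Module.Finite k (up R).V := finite_up R
  haveI : Module.Free k (up (up R)).V := free_up (up R)
  haveI : Module.Finite k (up (up R)).V := finite_up (up R)
  haveI : Module.Free k (up (up R)).ρ.invariants := free_invariants (up (up R))
  obtain ⟨μ, hμ⟩ := Module.projective_lifting_property (rowMap hA hB) (φ ∘ₗ _root_.Fermat.Agent.S55.T.H837.upMap R)
    (rowMap_surjective hA hB hX hP)
  have hμ' : ∀ r, rowMap hA hB (μ r) = φ (_root_.Fermat.Agent.S55.T.H837.upMap R r) := fun r =>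
    congrArg (fun m => m r) hμ
  have hdvd : ∀ y : (up (up R)).V,
      ∃ c : k, μ (normInv (up (up R)) y) = (Fintype.card G : k) * c := fun y => by
    apply dvd_of_rowMap_eq_zero hA hB hX hP
    rw [hμ', upMap_normInv, map_zero]
  obtain ⟨e, he⟩ := exists_hom_of_dvd_norm hn (up (up R)) μ hdvd
  haveI : Mono j := hB.mono_f
  haveI : Mono i := hA.mono_f
  have hεs : Function.Surjective ε.hom := (Rep.epi_iff_surjective ε).1 hB.epi_g
  have hπs : Function.Surjective π.hom := (Rep.epi_iff_surjective π).1 hA.epi_g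
  obtain ⟨t₂', c4⟩ := exists_lift_coind₁ ε hεs (upπ (up R) ≫ e)
  have z1 : (coind₁ι (up R) ≫ t₂') ≫ ε = 0 := by
    rw [Category.assoc, c4, ← Category.assoc]
    have : coind₁ι (up R) ≫ upπ (up R) = 0 := (upSC (up R)).zero
    rw [this, Limits.zero_comp]
  let h : up R ⟶ I := hB.exact.lift (coind₁ι (up R) ≫ t₂') z1
  have c3 : h ≫ j = coind₁ι (up R) ≫ t₂' := hB.exact.lift_f _ z1
  obtain ⟨t₂, c2⟩ := exists_lift_coind₁ π hπs (upπ R ≫ h)
  have z2 : (coind₁ι R ≫ t₂) ≫ π = 0 := by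
    rw [Category.assoc, c2, ← Category.assoc]
    have : coind₁ι R ≫ upπ R = 0 := (upSC R).zero
    rw [this, Limits.zero_comp]
  let f : R ⟶ C := hA.exact.lift (coind₁ι R ≫ t₂) z2
  have c1 : f ≫ i = coind₁ι R ≫ t₂ := hA.exact.lift_f _ z2
  refine ⟨f, fun x => ?_⟩
  obtain ⟨r, rfl⟩ := upMap_surjective R x
  have key := coeffMap_ddUp hA hB f t₂ h t₂' e c1 c2 c3 c4 r
  have h5 : mapInv e r = trivInv (μ r) := Subtype.ext (he r)
  rw [h5] at key
  change (coeffMap f 2).hom ((ddUp R).hom ((H0Iso _).inv r)) = φ (_root_.Fermat.Agent.S55.T.H837.upMap R r)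
  rw [key, ← hμ']
  rfl

include hA hB in
/-- **Tate–Nakayama, kernel.** -/
theorem exists_normHom_of_coeffMap_eq_zero (hn : (Fintype.card G : k) ≠ 0)
    (hX : IsCohTriv X) (hP : IsCohTriv P)
    (R : Rep.{0} k G) [Module.Free k R.V] [Module.Finite k R.V]
    (hNX : IsCohTriv ((Rep.ihom R).obj X)) (hNP : IsCohTriv ((Rep.ihom (up R)).obj P))
    (f : R ⟶ C) (hf : ∀ x, (coeffMap f 2).hom x = 0) :
    ∃ ψ : R.V →ₗ[k] C.V, f = normHom ψ := by
  haveI : Module.Free k (up R).V := free_up R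
  haveI : Module.Finite k (up R).V := finite_up R
  haveI : Module.Free k (up (up R)).V := free_up (up R)
  haveI : Module.Finite k (up (up R)).V := finite_up (up R)
  haveI : Mono j := hB.mono_f
  haveI : Mono i := hA.mono_f
  haveI : Epi (upSC R).g := upπ_epi R
  haveI : Epi (upSC (up R)).g := upπ_epi (up R)
  have hεs : Function.Surjective ε.hom := (Rep.epi_iff_surjective ε).1 hB.epi_g
  have hπs : Function.Surjective π.hom := (Rep.epi_iff_surjective π).1 hA.epi_g
  have zR : coind₁ι R ≫ upπ R = 0 := (upSC R).zero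
  have zR' : coind₁ι (up R) ≫ upπ (up R) = 0 := (upSC (up R)).zero
  -- first square
  obtain ⟨ψ₁, h1⟩ := exists_normHom_of_isCohTriv_ihom hNX (f ≫ i)
  let t₂ : coind₁ R ⟶ X := normHom (ψ₁ ∘ₗ ev₁ R)
  have c1 : f ≫ i = coind₁ι R ≫ t₂ := by
    rw [coind₁ι_comp_normHom_ev, h1]
  have z1 : (upSC R).f ≫ (t₂ ≫ π) = 0 := by
    change coind₁ι R ≫ (t₂ ≫ π) = 0
    rw [← Category.assoc, ← c1, Category.assoc, w₁, Limits.comp_zero]
  let h : up R ⟶ I := (upSC_shortExact R).exact.desc (t₂ ≫ π) z1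
  have c2 : t₂ ≫ π = upπ R ≫ h := ((upSC_shortExact R).exact.g_desc _ z1).symm
  -- second square
  obtain ⟨ψ₂, h2⟩ := exists_normHom_of_isCohTriv_ihom hNP (h ≫ j)
  let t₂' : coind₁ (up R) ⟶ P := normHom (ψ₂ ∘ₗ ev₁ (up R))
  have c3 : h ≫ j = coind₁ι (up R) ≫ t₂' := by
    rw [coind₁ι_comp_normHom_ev, h2]
  have z2 : (upSC (up R)).f ≫ (t₂' ≫ ε) = 0 := by
    change coind₁ι (up R) ≫ (t₂' ≫ ε) = 0
    rw [← Category.assoc, ← c3, Category.assoc, w₂, Limits.comp_zero]
  let e : up (up R) ⟶ Rep.trivial k G k := (upSC_shortExact (up R)).exact.desc (t₂' ≫ ε) z2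
  have c4 : t₂' ≫ ε = upπ (up R) ≫ e := ((upSC_shortExact (up R)).exact.g_desc _ z2).symm
  -- `e` takes values divisible by `n` on invariants
  have hdvd : ∀ r : (up (up R)).ρ.invariants,
      ∃ c : k, e.hom r.1 = (Fintype.card G : k) * c := fun r => by
    have key := coeffMap_ddUp hA hB f t₂ h t₂' e c1 c2 c3 c4 r
    rw [hf] at key
    exact dvd_of_rowMap_eq_zero hA hB hX hP (e.hom r.1) key.symm
  obtain ⟨ψ₃, h3⟩ := exists_normHom_of_dvd_invariants hn (up (up R)) e hdvd
  -- lift `e` to `P`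
  obtain ⟨p₀, hp₀⟩ := hεs (1 : k)
  let e' : up (up R) ⟶ P := normHom (ψ₃.smulRight p₀)
  have he' : e' ≫ ε = e := by
    rw [h3, normHom_comp]
    congr 1
    apply LinearMap.ext
    intro y
    change ε.hom (ψ₃ y • p₀) = ψ₃ y
    rw [map_smul, hp₀, smul_eq_mul, mul_one]
  -- `h` extends to `coind₁ (up R)`
  have z3 : (t₂' - upπ (up R) ≫ e') ≫ ε = 0 := by
    rw [Preadditive.sub_comp, Category.assoc, he', c4, sub_self]
  let kk : coind₁ (up R) ⟶ I := hB.exact.lift (t₂' - upπ (up R) ≫ e') z3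
  have hkk : kk ≫ j = t₂' - upπ (up R) ≫ e' := hB.exact.lift_f _ z3
  have hkk' : coind₁ι (up R) ≫ kk = h := by
    rw [← cancel_mono j, Category.assoc, hkk, Preadditive.comp_sub, ← Category.assoc, zR',
      Limits.zero_comp, sub_zero, c3]
  obtain ⟨kt, hkt⟩ := exists_lift_coind₁ π hπs kk
  -- `f` extends to `coind₁ R`
  have z4 : (t₂ - upπ R ≫ coind₁ι (up R) ≫ kt) ≫ π = 0 := by
    rw [Preadditive.sub_comp, Category.assoc, Category.assoc, hkt, hkk', c2, sub_self]
  let m : coind₁ R ⟶ C := hA.exact.lift (t₂ - upπ R ≫ coind₁ι (up R) ≫ kt) z4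
  have hm : m ≫ i = t₂ - upπ R ≫ coind₁ι (up R) ≫ kt := hA.exact.lift_f _ z4
  have hm' : coind₁ι R ≫ m = f := by
    rw [← cancel_mono i, Category.assoc, hm, Preadditive.comp_sub, ← Category.assoc, zR,
      Limits.zero_comp, sub_zero, c1]
  obtain ⟨ψ', hψ'⟩ := hom_coind₁_eq_normHom m
  refine ⟨ψ' ∘ₗ (coind₁ι R).hom.toLinearMap, ?_⟩
  rw [← hm', hψ', comp_normHom]

end

end Fermat.Agent.S55.T.H837

end
-- ===== PACK-END S55/T/NakH837/Main.lean

-- ===== PACK-BEGIN S55/L/UnrInv/Main.lean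
section



/-!
# S55, layer L: the invariant maps of unramified extensions (`UnrInvSpec`)

`unrInv_of : RingOfIntegersUniqueSpec → FiniteExtSpec → UnramifiedCyclicSpec → H2CyclicSpec →
  IntegersComapSpec → UnramifiedInertiaSpec → ResidueDegreeSpec → Inv481.UnrInvSpec`.

Definition: for `E/K` unramified with Frobenius `φ`, `n = [E : K]`, and a 2-cocycle `c`,
`inv [c] = ord_E (∏_{i<n} c (φ^i, φ)) / n  mod ℤ`.
-/

set_option autoImplicit false
set_option linter.style.haveILetI false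

namespace Fermat.Agent.S55.L.UnrInv

open groupCohomology

section

variable (h0 : RingOfIntegersUniqueSpec) (h1 : FiniteExtSpec) (hcyc : UnramifiedCyclicSpec)
  (hint : IntegersComapSpec) (hin : UnramifiedInertiaSpec)

/-- the chosen package of an unramified extension -/
noncomputable def chosenPack (K E : Type) [Field K] [Field E] [Algebra K E]
    [FiniteDimensional K E] [IsLocalFld K] (hu : IsUnramifiedExt K E) : UnrPack K E :=
  Classical.choice (exists_unrPack h0 h1 hcyc hint hin hu)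

open Classical in
/-- The invariant map of an unramified extension (zero if the extension is not unramified). -/
noncomputable def unrInvMap (K E : Type) [Field K] [Field E] [Algebra K E]
    [FiniteDimensional K E] [IsGalois K E] [IsLocalFld K] :
    H2 (unitsRep K E) →+ AddCircle (1 : ℚ) :=
  if hu : IsUnramifiedExt K E then (chosenPack h0 h1 hcyc hint hin K E hu).inv else 0

theorem unrInvMap_eq (K E : Type) [Field K] [Field E] [Algebra K E]
    [FiniteDimensional K E] [IsGalois K E] [IsLocalFld K] (hu : IsUnramifiedExt K E) :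
    unrInvMap h0 h1 hcyc hint hin K E = (chosenPack h0 h1 hcyc hint hin K E hu).inv := by
  unfold unrInvMap
  rw [dif_pos hu]

end

/-- **L-NR+BC** the invariant maps of unramified extensions, with base change, transport and
normalisation. -/
theorem unrInv_of (h0 : RingOfIntegersUniqueSpec) (h1 : FiniteExtSpec)
    (hcyc : UnramifiedCyclicSpec) (h2 : H2CyclicSpec) (hint : IntegersComapSpec)
    (hin : UnramifiedInertiaSpec) (hres : ResidueDegreeSpec) : Inv481.UnrInvSpec :=
  ⟨{ inv := fun K E _ _ _ _ _ _ => unrInvMap h0 h1 hcyc hint hin K E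
     inv_injective := by
      intro K E _ _ _ _ _ _ hu
      rw [unrInvMap_eq h0 h1 hcyc hint hin K E hu]
      exact (chosenPack h0 h1 hcyc hint hin K E hu).inv_injective h0 h1 h2
     inv_baseChange := by
      intro K K' E E' _ _ _ _ _ _ _ _ _ _ _ _ _ _ _ _ _ _ hu hu' c c' hbc
      rw [unrInvMap_eq h0 h1 hcyc hint hin K E hu, unrInvMap_eq h0 h1 hcyc hint hin K' E' hu']
      exact inv_baseChange h1 hint hres _ _ c c' hbc
     inv_transport := by
      intro K E K' E' _ _ _ _ _ _ _ _ _ _ _ _ hu hu' e c hc f f' hf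
      rw [unrInvMap_eq h0 h1 hcyc hint hin K E hu, unrInvMap_eq h0 h1 hcyc hint hin K' E' hu']
      exact inv_transport h1 hint hres _ _ e c hc f f' hf
     inv_unramified := by
      intro K E _ _ _ _ _ _ hu A hA φ hφ π hπ f hf
      rw [unrInvMap_eq h0 h1 hcyc hint hin K E hu]
      exact (chosenPack h0 h1 hcyc hint hin K E hu).inv_cyclic h0 h1 A hA φ hφ π hπ f hf }⟩

end Fermat.Agent.S55.L.UnrInv

end
-- ===== PACK-END S55/L/UnrInv/Main.lean

-- ===== PACK-BEGIN S55/E1/H603/LocalTower.lean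
section
/-
S55 / engine E1 / block LIM, leaf LIM5(i), LOCAL TOWER (helper603).

For a level `F`, a prime `q`, `D = Gal(F_q/ℚ_q)`, a finite `D`-module `N` killed by `p`,
`x ∈ H²(D, Hom_ℤ(N, F_qˣ))` and `y = e(x) ∈ 𝔈²_D(F_qˣ)`:

  `y = 0  ↔  x dies in H²(Gal(F'_q/ℚ_q), Hom_ℤ(N, F'_qˣ))` for some finite Galois `F' ⊇ F`
  (a level for some `S'' ⊇ S`).

* `locInf h q N` : the local inflation map;
* `exists_level_locDiv` : uniform local divisibility (from `Tow.LocalSpec`, LDIV);
* `edge_eq_zero_of_locInf_eq_zero` (LH90 + ALG9/10Edge/11), `exists_locInf_eq_zero` (LDIV + ALG1/9a/10E),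
  `edge_eq_zero_iff_exists_locInf`.
All ALG inputs are theorems on main (`E1/H895/Alg911Final.lean`, `E1/H304/Alg1.lean`); the only
hypothesis is `Tow.LocalSpec p`.  No sorry.
-/






set_option autoImplicit false

open CategoryTheory CategoryTheory.Limits groupCohomology

namespace Fermat.Agent.S55.E1.H603

open Fermat.Agent.S55.E1 Fermat.Agent.S55.Tow
open Fermat.Agent.S55.T.H719 (ihomLin)

noncomputable section

variable {S : Finset Nat.Primes}

/-! ### Elementary facts on the local tower -/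

theorem projDec_surjective {L L' : Level S} (h : L ≤ L') (q : Nat.Primes) :
    Function.Surjective (Level.projDec h q) := by
  intro d
  induction d using QuotientGroup.induction_on with
  | H g => exact ⟨QuotientGroup.mk g, rfl⟩

theorem trLoc_injective {L L' : Level S} (h : L ≤ L') (q : Nat.Primes) :
    Function.Injective (Level.trLoc h q).hom := by
  intro x y hxy
  apply L.locCoe_injective q
  have := congrArg (L'.locCoe q) hxy
  exact this

theorem locCoe_trLoc {L L' : Level S} (h : L ≤ L') (q : Nat.Primes) (x : (L.locUnits q).V) :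
    L'.locCoe q ((Level.trLoc h q).hom x) = L.locCoe q x := rfl

theorem exists_trLoc_eq_of_invariant {L L' : Level S} (h : L ≤ L') (q : Nat.Primes)
    (x' : (L'.locUnits q).V)
    (hx' : ∀ d ∈ (Level.projDec h q).ker, (L'.locUnits q).ρ d x' = x') :
    ∃ x : (L.locUnits q).V, (Level.trLoc h q).hom x = x' := by
  have hfix : ∀ g ∈ L.V q, (unitsQpbar q).ρ g (L'.locCoe q x') = L'.locCoe q x' := by
    intro g hg
    have hker : (QuotientGroup.mk g : L'.Dec q) ∈ (Level.projDec h q).ker := by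
      rw [MonoidHom.mem_ker, Level.projDec_mk]
      exact (QuotientGroup.eq_one_iff g).2 hg
    have := congrArg (L'.locCoe q) (hx' _ hker)
    rw [Level.locUnits_ρ_coe] at this
    exact this
  refine ⟨L.locMk q (L'.locCoe q x') hfix, ?_⟩
  apply L'.locCoe_injective q
  rfl

/-! ### The local inflation map -/

/-- Local inflation `H²(Gal(F_q/ℚ_q), Hom_ℤ(N, F_qˣ)) → H²(Gal(F'_q/ℚ_q), Hom_ℤ(N, F'_qˣ))`. -/
def locInf {L L' : Level S} (h : L ≤ L') (q : Nat.Primes) (N : Rep.{0} ℤ (L.Dec q)) :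
    groupCohomology ((Rep.ihom N).obj (L.locUnits q)) 2 →ₗ[ℤ]
      groupCohomology ((Rep.ihom (Rep.res (Level.projDec h q) N)).obj (L'.locUnits q)) 2 :=
  (groupCohomology.map (Level.projDec h q)
    (trIhom (Level.projDec h q) (𝟙 (Rep.res (Level.projDec h q) N)) (Level.trLoc h q)) 2).hom

/-- **(⇐)** If `x` dies at a higher local level then `e(x) = 0` (LH90, ALG9, ALG10Edge, ALG11). -/
theorem edge_eq_zero_of_locInf_eq_zero {p : ℕ} (hLoc : LocalSpec p) {L L' : Level S} (h : L ≤ L')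
    (q : Nat.Primes) (N : Rep.{0} ℤ (L.Dec q))
    {x : groupCohomology ((Rep.ihom N).obj (L.locUnits q)) 2} {y : E2 N (L.locUnits q)}
    (hxy : IsEdge x y) (hx : locInf h q N x = 0) : y = 0 :=
  edge_eq_zero_of_inf_eq_zero H895.Final.alg9 H895.Final.alg10Edge H895.Final.alg11
    (Level.projDec h q) (projDec_surjective h q) N (Rep.res (Level.projDec h q) N) (Iso.refl _)
    (L.locUnits q) (L'.locUnits q) (Level.trLoc h q) (trLoc_injective h q)
    (exists_trLoc_eq_of_invariant h q) (hLoc.2.1 S L L' h q) hxy hx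

/-! ### Uniform local divisibility -/

theorem trLoc_trLoc_ofLE {S' S'' : Finset Nat.Primes} (hS : S ⊆ S') (hS' : S' ⊆ S'')
    (L : Level S) (L₁ : Level S') (L₂ : Level S'') (h₁ : Level.ofLE hS L ≤ L₁)
    (h₂ : Level.ofLE hS' L₁ ≤ L₂) (h : Level.ofLE (hS.trans hS') L ≤ L₂) (q : Nat.Primes)
    (t : (L.locUnits q).V) :
    (Level.trLoc h₂ q).hom ((Level.trLoc h₁ q).hom t) = (Level.trLoc h q).hom t := by
  apply L₂.locCoe_injective q
  rfl

/-- **Uniform LDIV.** Finitely many elements of `F_qˣ` become `p`-th powers in `F'_qˣ` for a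
suitable finite Galois `F' ⊇ F`. -/
theorem exists_level_locDiv {p : ℕ} (hLoc : LocalSpec p) (L : Level S) (q : Nat.Primes)
    (s : Finset (L.locUnits q).V) :
    ∃ (S' : Finset Nat.Primes) (hS : S ⊆ S') (L' : Level S') (h : Level.ofLE hS L ≤ L'),
      ∀ t ∈ s, ∃ y : (L'.locUnits q).V, p • y = (Level.trLoc h q).hom t := by
  classical
  induction s using Finset.induction_on with
  | empty =>
    exact ⟨S, Finset.Subset.refl S, L, le_refl L.F, fun t ht => absurd ht (Finset.notMem_empty t)⟩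
  | insert t₀ s₀ _ ih =>
    obtain ⟨S₁, hS₁, L₁, h₁, hdiv₁⟩ := ih
    obtain ⟨S₂, hS₂, L₂, h₂, y₀, hy₀⟩ := hLoc.2.2 S₁ L₁ q ((Level.trLoc h₁ q).hom t₀)
    have hF : L.F ≤ L₂.F := le_trans (show L.F ≤ L₁.F from h₁) (show L₁.F ≤ L₂.F from h₂)
    have h : Level.ofLE (hS₁.trans hS₂) L ≤ L₂ := hF
    refine ⟨S₂, hS₁.trans hS₂, L₂, h, fun t ht => ?_⟩
    rcases Finset.mem_insert.1 ht with rfl | ht
    · refine ⟨y₀, ?_⟩
      rw [hy₀]
      exact trLoc_trLoc_ofLE hS₁ hS₂ L L₁ L₂ h₁ h₂ h q t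
    · obtain ⟨y₁, hy₁⟩ := hdiv₁ t ht
      refine ⟨(Level.trLoc h₂ q).hom y₁, ?_⟩
      rw [← trLoc_trLoc_ofLE hS₁ hS₂ L L₁ L₂ h₁ h₂ h q t, ← hy₁]
      exact (map_nsmul (Level.trLoc h₂ q).hom p y₁).symm

/-- **(⇒)** If `e(x) = 0` then `x` dies at a higher local level (LDIV, ALG1, ALG9a, ALG10Edge). -/
theorem exists_locInf_eq_zero {p : ℕ} (hp : p.Prime) (hLoc : LocalSpec p) (L : Level S)
    (q : Nat.Primes) (N : Rep.{0} ℤ (L.Dec q)) (hNfin : Finite N.V) (hN : ∀ n : N.V, p • n = 0)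
    {x : groupCohomology ((Rep.ihom N).obj (L.locUnits q)) 2}
    (hx : IsEdge x (0 : E2 N (L.locUnits q))) :
    ∃ (S' : Finset Nat.Primes) (hS : S ⊆ S') (L' : Level S') (h : Level.ofLE hS L ≤ L'),
      locInf (L := Level.ofLE hS L) h q N x = 0 := by
  classical
  obtain ⟨φ, hφ⟩ := H423.exists_forall_inf_eq_zero H895.Final.alg10Edge hp x hx
  have hfin := (H304.alg1 (L.Dec q) N hNfin).2.1
  obtain ⟨s, hs⟩ := H423.exists_finset_closure_eq_top (stdR N) hfin
  obtain ⟨S', hS, L', h, hdiv⟩ :=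
    exists_level_locDiv hLoc L q (s.image (fun r => ihomLin φ r))
  refine ⟨S', hS, L', h, ?_⟩
  refine hφ (L'.Dec q) (Level.projDec h q) (Rep.res (Level.projDec h q) N) (𝟙 _)
    (L'.locUnits q) (Level.trLoc h q) hN ?_
  refine H423.div_of_div_on_generators (Level.projDec h q) (Level.trLoc h q) p φ
    (s : Set (stdR N).V) hs (fun r hr => ?_)
  obtain ⟨y, hy⟩ := hdiv (ihomLin φ r) (Finset.mem_image_of_mem _ hr)
  exact ⟨y, hy.symm⟩

/-- **LIM5(i), local tower.** For `y = e(x)`: `y = 0` iff `x` dies at a higher local level. -/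
theorem edge_eq_zero_iff_exists_locInf {p : ℕ} (hp : p.Prime) (hLoc : LocalSpec p) (L : Level S)
    (q : Nat.Primes) (N : Rep.{0} ℤ (L.Dec q)) (hNfin : Finite N.V) (hN : ∀ n : N.V, p • n = 0)
    {x : groupCohomology ((Rep.ihom N).obj (L.locUnits q)) 2} {y : E2 N (L.locUnits q)}
    (hxy : IsEdge x y) :
    y = 0 ↔ ∃ (S' : Finset Nat.Primes) (hS : S ⊆ S') (L' : Level S')
      (h : Level.ofLE hS L ≤ L'), locInf (L := Level.ofLE hS L) h q N x = 0 := by
  constructor
  · rintro rfl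
    exact exists_locInf_eq_zero hp hLoc L q N hNfin hN hxy
  · rintro ⟨S', hS, L', h, hx⟩
    exact edge_eq_zero_of_locInf_eq_zero hLoc (L := Level.ofLE hS L) h q N hxy hx

end

end Fermat.Agent.S55.E1.H603

end
-- ===== PACK-END S55/E1/H603/LocalTower.lean

-- ===== PACK-BEGIN S55/LocalSpec/H964/Main.lean
section







/-!
# S55 : `Tow.LocalSpec p` — the TARGET OF LAYER L for the engine E1 — PROVED (helper964)

* `localSpec_of` : `Tow.LocalSpec p` from `L.ClassModuleSpec`, `L.PadicInstSpec`,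
  `T.ClassModuleOfCyclicSpec` (`p ≠ 0`).
* `localSpec` : `Tow.LocalSpec p` for every `p ≠ 0`, UNCONDITIONALLY, from landed leaves:
  the local core `Local.H964.h2Cyclic` (T5) with `L.classModule_of_local'`, `L.padicInst63`,
  `T.H53.classModuleOfCyclic`, helper175's dictionary and the B-layer (Krasner, finite
  ramification).
* re-exports `h2CyclicSpec : L.H2CyclicSpec`, `classModuleSpec : L.ClassModuleSpec`.
-/

set_option autoImplicit false

namespace Fermat.Agent.S55.LocalSpec.H964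

open Fermat.Agent.S55

/-- `Tow.LocalSpec p` from the class-module property of local fields. -/
theorem localSpec_of (hCM : L.ClassModuleSpec) (hInst : L.PadicInstSpec)
    (hT : T.ClassModuleOfCyclicSpec) (p : ℕ) (hp : p ≠ 0) : Tow.LocalSpec p :=
  ⟨fun _ Lv q => exists_isClassModuleAt hCM hInst hT p Lv q,
    fun _ _ _ h q => isZero_H1_ker_projDec hCM hInst h q,
    fun S' Lv q x => exists_root_in_tower p hp S' Lv q x⟩

/-- **L-C1** `H²(Gal(L/K), Lˣ) ≃+ ZMod [L : K]` for local fields, unconditionally. -/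
theorem h2CyclicSpec : L.H2CyclicSpec := L.h2Cyclic_of_local Local.H964.h2Cyclic

/-- **L-CM** the class module property of local fields, unconditionally. -/
theorem classModuleSpec : L.ClassModuleSpec := L.classModule_of_local' Local.H964.h2Cyclic

/-- **TARGET OF LAYER L**: `Tow.LocalSpec p` holds for every `p ≠ 0`, unconditionally. -/
theorem localSpec (p : ℕ) (hp : p ≠ 0) : Tow.LocalSpec p :=
  localSpec_of classModuleSpec L.padicInst63 T.H53.classModuleOfCyclic p hp

end Fermat.Agent.S55.LocalSpec.H964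

end
-- ===== PACK-END S55/LocalSpec/H964/Main.lean

-- ===== PACK-BEGIN S55/K/AR/Spec.lean
section
/-
S55 moonshot — LAYER K, block AR (ARITHMETIC CORE): FROZEN INTERFACE.      Architect: helper4.
Namespace `Fermat.Agent.S55.K.AR`.  No `sorry`.  Blueprint with proofs: `coord/S55-K-AR.md`.

PURPOSE.  Derive the arithmetic inputs of route C′ that are still open,
  A3  `PT.Surj2GlobSpec`            (via GO1/GO2 for levels of index prime to `p`),
  A5′ `Inv.WeakRecipSpec`, A7 `Inv.GlobCokerSpec`   (helper3, `Inv/Spec*.lean`),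
from the SAME input as engine E1:  `Tow.GlobalSpecFin S p` + `Tow.LocalSpec p` (+ GD9).
(A8 is organised separately by helper303 in `Cap/`.)

Everything is stated at FINITE LEVEL in the tower: `L : Level S` (`F = L.F`), `H ≤ L.Gal`
(`= Gal(F/K)`, `K = F^H`), modules `E(F) = sUnits L`, `J(F) = Jtot L`, `C'(F) = C1 D L`, `C(F) = D.C L`
(helper474, `E1/Lim/Obj.lean`), groups `Hn H A n = Hⁿ(H, A)`, maps `coe H f n` (coefficients) and
`infUp h H t n` (inflation to `up h H = Gal(F'/K)`).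

Spec pattern: every interface is `def Xxx : Prop`; producers prove `theorem xxx … : Xxx …` in
`Fermat/Agent/S55/K/AR/<Leaf>H<seat>.lean`, namespace `Fermat.Agent.S55.K.AR.H<seat>`.
-/




set_option autoImplicit false

open CategoryTheory

namespace Fermat.Agent.S55.K.AR

open Fermat.Agent.S55 Fermat.Agent.S55.Tow Fermat.Agent.S55.E1.Lim

noncomputable section

/-! ## 0. Context -/

/-- `p` is an odd prime in `S`. -/
def Adm (S : Finset Nat.Primes) (p : ℕ) : Prop :=
  ∃ hp : p.Prime, p ≠ 2 ∧ (⟨p, hp⟩ : Nat.Primes) ∈ S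

/-- A tower datum which is good above `μ_p` with torsion class groups (the target of layer G),
for an odd prime `p ∈ S`. -/
structure Ctx (S : Finset Nat.Primes) (p : ℕ) where
  /-- the datum -/
  D : TowerDatum S
  /-- GD1, GD3–GD8, GD5b -/
  good : D.IsGoodFin p
  /-- `p` is an odd prime in `S` -/
  adm : Adm S p

namespace Ctx

variable {S : Finset Nat.Primes} {p : ℕ} (c : _root_.Fermat.Agent.S55.K.AR.Ctx S p)

/-- GD4 in the form of `E1/Lim/Obj.lean`. -/
theorem h4 : KerDiag c.D := c.good.good.gd4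

/-- GD7a in the form of `E1/Lim/Obj.lean`. -/
theorem h7 : TrCompat c.D := fun h q hq x => c.good.good.gd7a h q hq x

end Ctx

variable (S : Finset Nat.Primes) (p : ℕ)

/-! ## 1. TARGETS (datum-free tower statements) -/

/-- **E3** (`colim H³(Gal(F/K), E(F))[p] = 0`, `[K : ℚ]` prime to `p`). -/
def E3Tower : Prop :=
  ∀ (L : Level S) (H : Subgroup L.Gal), Nat.Coprime H.index p →
    ∀ y : Hn H (E1.Lim.sUnits L) 3, p • y = 0 →
      ∃ (L' : Level S) (h : L ≤ L'), infUp h H (trS h) 3 y = 0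

/-- **E2** (`colim H²(Gal(F/K), E(F)) ⊗ ℤ/p = 0`, `[K : ℚ]` prime to `p`). -/
def E2Tower : Prop :=
  ∀ (L : Level S) (H : Subgroup L.Gal), Nat.Coprime H.index p →
    ∀ x : Hn H (E1.Lim.sUnits L) 2,
      ∃ (L' : Level S) (h : L ≤ L') (w : Hn (up h H) (E1.Lim.sUnits L') 2),
        infUp h H (trS h) 2 x = p • w

/-- **HASSE** (`colim ker(H²(Gal(F/K), E(F)) → H²(Gal(F/K), J(F)))(p) = 0`, all `K`). -/
def HasseTower : Prop :=
  ∀ (L : Level S) (H : Subgroup L.Gal) (x : Hn H (E1.Lim.sUnits L) 2), IsPPrim p x →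
    coe H (diagTot L) 2 x = 0 →
      ∃ (L' : Level S) (h : L ≤ L'), infUp h H (trS h) 2 x = 0

/-- **COKER** (GO4): of two classes in `H²(Gal(F/K), J(F))[p]` a non-trivial combination comes,
at a higher level, from `H²(Gal(F'/K), E(F'))[p]`. -/
def CokerTower : Prop :=
  ∀ (L : Level S) (H : Subgroup L.Gal) (x₁ x₂ : Hn H (Jtot L) 2), p • x₁ = 0 → p • x₂ = 0 →
    ∃ a b : ℕ, (¬ p ∣ a ∨ ¬ p ∣ b) ∧
      ∃ (L' : Level S) (h : L ≤ L') (y : Hn (up h H) (E1.Lim.sUnits L') 2), p • y = 0 ∧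
        coe (up h H) (diagTot L') 2 y = infUp h H (trJtot h) 2 (a • x₁ + b • x₂)

/-- **WEAK RECIPROCITY over `ℚ`** (GO5): a class of `H²(Gal(F/ℚ), E(F))[p]` which is trivial in
`H²(Gal(F/ℚ), J_q(F))` for all `q ∈ S` but one is trivial there as well. -/
def WeakRecipTower : Prop :=
  ∀ (L : Level S), L.HasMu p → ∀ x : groupCohomology (E1.Lim.sUnits L) 2, p • x = 0 →
    ∀ q₀ ∈ S, (∀ q ∈ S, q ≠ q₀ → (T.coeffMap (sIncl L ≫ L.diag q) 2).hom x = 0) →
      (T.coeffMap (sIncl L ≫ L.diag q₀) 2).hom x = 0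

/-! ## 2. DICTIONARY tower → finite levels of `G_ℚ` (`KL` form, helper543 `ColH543`) -/

/-- **DICT-E3.** -/
def DictE3Spec : Prop :=
  E3Tower S p → ∀ V ∈ (PT.globalLevels S).levels, Nat.Coprime V.index p →
    KL.EffTors ((ColH543.gN S).restrict V) (Rep.res V.subtype (K.sUnits S)) p 3

/-- **DICT-E2.** -/
def DictE2Spec : Prop :=
  E2Tower S p → ∀ V ∈ (PT.globalLevels S).levels, Nat.Coprime V.index p →
    KL.EffDiv ((ColH543.gN S).restrict V) (Rep.res V.subtype (K.sUnits S)) p 2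

/-- GO1 + GO2 for the levels of index prime to `p`, finite-level form. -/
def GO12Coprime : Prop :=
  ∀ V ∈ (PT.globalLevels S).levels, Nat.Coprime V.index p →
    KL.EffTors ((ColH543.gN S).restrict V) (Rep.res V.subtype (K.sUnits S)) p 3 ∧
    KL.EffDiv ((ColH543.gN S).restrict V) (Rep.res V.subtype (K.sUnits S)) p 2

/-! ## 3. LEAVES about the tower (arithmetic) -/

section Leaves

variable {S p} (c : _root_.Fermat.Agent.S55.K.AR.Ctx S p)

/-- **SES.** `0 → E(F) → J(F) → C'(F) → 0` is short exact. -/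
def SesExact : Prop := ∀ L : Level S, (ses c.h4 L).ShortExact

/-- **CAP1** (capitulation in `H¹`): a `p`-primary class of `H¹(H, C'(F))` dying in
`H¹(H, C(F))` dies in `H¹(H', C'(F'))` for some `F' ≥ F`. -/
def CapH1 : Prop :=
  ∀ (L : Level S) (H : Subgroup L.Gal) (s : Hn H (C1 c.D L) 1), IsPPrim p s →
    coe H (inclC1 c.D L) 1 s = 0 →
      ∃ (L' : Level S) (h : L ≤ L'), infUp h H (trC1 c.h7 h) 1 s = 0

/-- **CAP2** (capitulation in `H²`). -/
def CapH2 : Prop :=
  ∀ (L : Level S) (H : Subgroup L.Gal) (s : Hn H (C1 c.D L) 2), IsPPrim p s →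
    coe H (inclC1 c.D L) 2 s = 0 →
      ∃ (L' : Level S) (h : L ≤ L'), infUp h H (trC1 c.h7 h) 2 s = 0

/-- **C-H1**: `H¹(H, C(F))(p) = 0` for `F ⊇ μ_p`. -/
def H1CVanish : Prop :=
  ∀ (L : Level S), L.HasMu p → ∀ (H : Subgroup L.Gal) (y : Hn H (c.D.C L) 1),
    IsPPrim p y → y = 0

/-- **C-H2**: `H²(H, C(F))(p)` is cyclic for `F ⊇ μ_p`. -/
def H2CCyclic : Prop :=
  ∀ (L : Level S), L.HasMu p → ∀ (H : Subgroup L.Gal),
    ∃ g : Hn H (c.D.C L) 2, IsPPrim p g ∧
      ∀ y : Hn H (c.D.C L) 2, IsPPrim p y → ∃ n : ℕ, y = n • g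

/-- **KAPPA** (GD3 + Shapiro + local class module): if `p^b` divides the local degree at `q`,
there is `v ∈ H²(Gal(F/ℚ), J_q(F))` with `p^b v = 0` whose image in `H²(Gal(F/ℚ), C(F))` has order
exactly `p^b`. -/
def Kappa : Prop :=
  ∀ (L : Level S), L.HasMu p → ∀ q ∈ S, ∀ b : ℕ, p ^ b ∣ Nat.card (L.Dec q) →
    ∃ v : groupCohomology (L.J q) 2, p ^ b • v = 0 ∧
      ∀ n : ℕ, n • (T.coeffMap (c.D.j L q) 2).hom v = 0 → p ^ b ∣ n

/-- **(c)**: `H²(J) → H²(C)` is surjective on `p`-primary parts in the limit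
(`[K : ℚ]` prime to `p`). -/
def SurjJC : Prop :=
  ∀ (L : Level S), L.HasMu p → ∀ (H : Subgroup L.Gal), Nat.Coprime H.index p →
    ∀ x : Hn H (c.D.C L) 2, IsPPrim p x →
      ∃ (L' : Level S) (h : L ≤ L') (y : Hn (up h H) (Jtot L') 2),
        infUp h H (c.D.tr h) 2 x = coe (up h H) (jTot c.D L') 2 y

/-- **(d)**: the `p`-primary kernel of `H²(J) → H²(C)` is `p`-divisible in the limit
(`[K : ℚ]` prime to `p`). -/
def KerDiv : Prop :=
  ∀ (L : Level S), L.HasMu p → ∀ (H : Subgroup L.Gal), Nat.Coprime H.index p →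
    ∀ x : Hn H (Jtot L) 2, IsPPrim p x → coe H (jTot c.D L) 2 x = 0 →
      ∃ (L' : Level S) (h : L ≤ L') (y : Hn (up h H) (Jtot L') 2),
        p • y = infUp h H (trJtot h) 2 x ∧ coe (up h H) (jTot c.D L') 2 y = 0

end Leaves

/-! ## 4. LEAVES about the tower (local and elementary) -/

/-- **J-H3**: `H³(H, J(F))(p) = 0` (local Tate + Mackey–Shapiro). -/
def H3JVanish : Prop :=
  ∀ (L : Level S) (H : Subgroup L.Gal) (y : Hn H (Jtot L) 3), IsPPrim p y → y = 0

/-- **J-DIV**: if `[K : ℚ] ≤ p^c` and `p^{b+1+c}` divides all local degrees of `F` (`q ∈ S`),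
every class of `H²(Gal(F/K), J(F))` killed by `p^b` is divisible by `p`.
(`H²(H, J_q(F)) = ∏_{w | q} H²(Gal(F_w/K_w), F_wˣ)`, the `p`-part of each factor is cyclic of order
the `p`-part of `[F_w : K_w] = [F_w : ℚ_q] / [K_w : ℚ_q]`, and `[K_w : ℚ_q] ≤ [K : ℚ]`.) -/
def J2Div : Prop :=
  ∀ (L : Level S) (H : Subgroup L.Gal) (b c : ℕ), H.index ≤ p ^ c →
    (∀ q ∈ S, p ^ (b + 1 + c) ∣ Nat.card (L.Dec q)) →
    ∀ y : Hn H (Jtot L) 2, p ^ b • y = 0 → ∃ z : Hn H (Jtot L) 2, p • z = y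

/-- **DEG**: the `p`-parts of the local degrees are unbounded in the tower (`p ∈ S`:
cyclotomic `ℤ_p`-extension). -/
def DecUnbounded : Prop :=
  ∀ (L : Level S) (m : ℕ), ∃ L' : Level S, L ≤ L' ∧ ∀ q ∈ S, p ^ m ∣ Nat.card (L'.Dec q)

/-- **MU**: some level contains `μ_p`, and the levels are directed. -/
def MuDirected : Prop :=
  (∃ L₀ : Level S, L₀.HasMu p) ∧ ∀ L L' : Level S, ∃ L'' : Level S, L ≤ L'' ∧ L' ≤ L''

/-! ## 5. THE LEAVES, with their hypotheses (= exact types of the deliverables) -/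

/-- leaf **AR-SES** -/
def SesLeaf : Prop := ∀ c : _root_.Fermat.Agent.S55.K.AR.Ctx S p, SesExact c
/-- leaf **AR-CAP1** (GD5, GD5b, GD7a, GD7b; explicit 1-cocycles) -/
def CapH1Leaf : Prop := ∀ c : _root_.Fermat.Agent.S55.K.AR.Ctx S p, CapH1 c
/-- leaf **AR-CAP2** (GD5, GD5b, GD7a, GD7b; explicit 2-cocycles) -/
def CapH2Leaf : Prop := ∀ c : _root_.Fermat.Agent.S55.K.AR.Ctx S p, CapH2 c
/-- leaf **AR-C1** (GD1 + `T.ResIndexSpec`) -/
def H1CLeaf : Prop := ∀ c : _root_.Fermat.Agent.S55.K.AR.Ctx S p, H1CVanish c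
/-- leaf **AR-C2** (GD1 + `T.ResIndexSpec`) -/
def H2CLeaf : Prop := ∀ c : _root_.Fermat.Agent.S55.K.AR.Ctx S p, H2CCyclic c
/-- leaf **AR-KAPPA** (GD3 + Shapiro for `Gal(F/ℚ)` + local class module) -/
def KappaLeaf : Prop := ∀ c : _root_.Fermat.Agent.S55.K.AR.Ctx S p, LocalSpec p → Kappa c
/-- leaf **AR-J3** -/
def H3JLeaf : Prop := p.Prime → LocalSpec p → H3JVanish S p
/-- leaf **AR-JDIV** -/
def J2DivLeaf : Prop := p.Prime → LocalSpec p → J2Div S p
/-- leaf **AR-DEG** -/
def DecLeaf : Prop := Adm S p → DecUnbounded S p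
/-- leaf **AR-MU** -/
def MuDirLeaf : Prop := Adm S p → MuDirected S p
/-- leaf **AR-c** -/
def SurjJCLeaf : Prop :=
  ∀ c : _root_.Fermat.Agent.S55.K.AR.Ctx S p, H2CCyclic c → Kappa c → DecUnbounded S p → SurjJC c
/-- leaf **AR-d** -/
def KerDivLeaf : Prop :=
  ∀ c : _root_.Fermat.Agent.S55.K.AR.Ctx S p, H2CCyclic c → Kappa c → DecUnbounded S p → J2Div S p → KerDiv c
/-- leaf **AR-HASSE** -/
def HasseLeaf : Prop :=
  ∀ c : _root_.Fermat.Agent.S55.K.AR.Ctx S p, SesExact c → H1CVanish c → CapH1 c → MuDirected S p → HasseTower S p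
/-- leaf **AR-E3** -/
def E3Leaf : Prop :=
  ∀ c : _root_.Fermat.Agent.S55.K.AR.Ctx S p, SesExact c → H3JVanish S p → SurjJC c → CapH2 c → MuDirected S p →
    E3Tower S p
/-- leaf **AR-E2** -/
def E2Leaf : Prop :=
  ∀ c : _root_.Fermat.Agent.S55.K.AR.Ctx S p, SesExact c → KerDiv c → CapH2 c → HasseTower S p → MuDirected S p →
    E2Tower S p
/-- leaf **AR-COKER** -/
def CokerLeaf : Prop :=
  ∀ c : _root_.Fermat.Agent.S55.K.AR.Ctx S p, SesExact c → H2CCyclic c → CapH2 c → HasseTower S p → MuDirected S p →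
    CokerTower S p
/-- leaf **AR-WR** (GD3 + GD4) -/
def WeakRecipLeaf : Prop := _root_.Fermat.Agent.S55.K.AR.Ctx S p → WeakRecipTower S p

end

end Fermat.Agent.S55.K.AR

end
-- ===== PACK-END S55/K/AR/Spec.lean

-- ===== PACK-BEGIN S55/K/AR/A3Glue.lean
section
/-
S55 moonshot — LAYER K, block AR: GLUE for input A3 of layer D.            helper4.
No `sorry`.

`surj2Glob_of_go12 : K.KummerSpec p S → GO12Coprime S p → p ≠ 2 → pPrime p ∈ S → PT.Surj2GlobSpec p S`.

A3 (`H²(G_S, -)` is right exact on finite modules) needs GO1 + GO2 (`H²(G_S(K), 𝒪_Sˣ)` is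
`p`-divisible, `H³(G_S(K), 𝒪_Sˣ)[p] = 0`) ONLY for the fields `K` of degree prime to `p`:
the dévissage of helper696 uses the induced modules `Ind_H μ` only for the preimage `H` of a
Sylow `p`-subgroup.  This is what makes the arithmetic core (`K/AR/Spec.lean`) work with the
reciprocity law over `ℚ` alone (GD3).

Chain:  GO12Coprime  ⇒ (helper543 `ColH543`, helper397 K-T3)  `H³_S(Ind_H μ) = 0`, `p ∤ [G:H]`
        ⇒ (`devissage_coprime`, after helper696)               `K.H3FinSpec`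
        ⇒ (helper635 K-T1)                                     `K.SurjH2Spec`
        ⇒ (helper723 adapter)                                  `PT.Surj2GlobSpec`.
-/






set_option autoImplicit false
set_option linter.style.haveILetI false

noncomputable section

namespace Fermat.Agent.S55.K.AR

open groupCohomology Fermat.Agent.S55.PT Fermat.Agent.S55.Bridge ExtCitation

/-- **Dévissage, coprime form** (proof of helper696's `H696.devissage`, which only uses the
preimage `H` of a Sylow `p`-subgroup): it suffices to know `H³_lc(G, Ind_H μ) = 0` for the open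
subgroups `H` of index prime to `p` acting trivially on `μ`. -/
theorem devissage_coprime (G : Type) [Group G] (L : LevelSys G) (p : ℕ) [Fact p.Prime]
    (μ : Rep.{0, 0, 0} (ZMod p) G)
    (hNC : L.NormalCofinal) (hFI : L.FiniteIndex) (hμ1 : Module.finrank (ZMod p) μ = 1)
    (hμs : L.IsUSmooth μ)
    (hInd : ∀ H : Subgroup G, Fermat.Agent.S55.H696.IsOpenSubgroup L H → ¬ p ∣ H.index →
      (∀ s ∈ H, μ.ρ s = 1) → Fermat.Agent.S55.H696.H3Van L (indRep H μ))
    (R : Rep.{0, 0, 0} (ZMod p) G) (hR : FiniteDimensional (ZMod p) R) (hRs : L.IsUSmooth R) :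
    Fermat.Agent.S55.H696.H3Van L R := by
  classical
  obtain ⟨U₁, hU₁, h1⟩ := hμs
  obtain ⟨U₂, hU₂, h2⟩ := hRs
  obtain ⟨U, hU, hUU₁, hUU₂, hUn⟩ := Fermat.Agent.S55.H696.exists_normal_level_le hNC hU₁ hU₂
  haveI := hUn
  haveI : U.FiniteIndex := hFI U hU
  haveI : Finite (G ⧸ U) := Subgroup.finite_quotient_of_finiteIndex
  let P : Sylow p (G ⧸ U) := Classical.arbitrary _
  let H : Subgroup G := (P : Subgroup (G ⧸ U)).comap (QuotientGroup.mk' U)
  have hUH : U ≤ H := by
    intro s hs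
    show QuotientGroup.mk' U s ∈ (P : Subgroup (G ⧸ U))
    have h1 : QuotientGroup.mk' U s = 1 := (QuotientGroup.eq_one_iff s).2 hs
    rw [h1]
    exact Subgroup.one_mem _
  have hpow : ∀ h ∈ H, ∃ n : ℕ, h ^ p ^ n ∈ U := by
    intro h hh
    obtain ⟨n, hn⟩ := P.isPGroup' ⟨QuotientGroup.mk' U h, hh⟩
    refine ⟨n, ?_⟩
    have h3 := congrArg Subtype.val hn
    simp only [Subgroup.coe_pow, Subgroup.coe_one] at h3
    rw [← map_pow] at h3
    exact (QuotientGroup.eq_one_iff _).1 h3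
  have hidx : ¬ p ∣ H.index := by
    have : H.index = (P : Subgroup (G ⧸ U)).index :=
      Subgroup.index_comap_of_surjective _ (QuotientGroup.mk'_surjective U)
    rw [this]
    exact P.not_dvd_index
  haveI : H.FiniteIndex := ⟨fun h0 => hidx (by rw [h0]; exact dvd_zero p)⟩
  have hμH : ∀ h ∈ H, μ.ρ h = 1 := by
    intro h hh
    obtain ⟨n, hn⟩ := hpow h hh
    refine Fermat.Agent.S55.H696.rho_eq_one_of_finrank_eq_one μ.ρ hμ1 h n ?_
    apply LinearMap.ext
    intro m
    exact h1 _ (hUU₁ hn) m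
  have hIndH : Fermat.Agent.S55.H696.H3Van L (indRep H μ) := hInd H ⟨U, hU, hUH⟩ hidx hμH
  haveI := hR
  have htop : Fermat.Agent.S55.H696.H3Van L (Fermat.Agent.S55.H696.filtRep H R ⊤) :=
    Fermat.Agent.S55.H696.h3Van_filtRep L hNC H U hU hUH hpow R μ
      (fun s hs r => h2 s (hUU₂ hs) r) hμ1 hμH hIndH _ ⊤
      (fun _ _ _ _ => Submodule.mem_top) rfl
  exact Fermat.Agent.S55.H696.h3Van_of_filtRep_top L H hidx R htop

variable (p : ℕ) [Fact p.Prime] (S : Finset Nat.Primes)

/-- `H³_S(Ind_V μ_p) = 0` for the levels `V` of index prime to `p`, from KUM and GO1 + GO2 for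
these levels. -/
theorem h3IndMu_coprime (hK : KummerSpec p S) (h12 : GO12Coprime S p)
    (hpS : pPrime p ∈ S) (V : Subgroup PT.GQ) (hV : V ∈ (globalLevels S).levels)
    (hidx : ¬ p ∣ V.index) : H3Vanish (globalLevels S) (indG V (muP p)) := by
  have hN : (globalLevels S).NormalCofinal := ColH543.globalLevels_normalCofinal S
  have hF : (globalLevels S).FiniteIndex := ColH543.globalLevels_finiteIndex S
  obtain ⟨V₀, hV₀, hV₀V, hV₀n⟩ := hN V hV
  have hcop : Nat.Coprime V.index p :=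
    ((Nat.Prime.coprime_iff_not_dvd (Fact.out : p.Prime)).2 hidx).symm
  obtain ⟨h3, h2⟩ := h12 V hV hcop
  exact Fermat.Agent.S55.K.H397.h3Vanish_of hN hF p (indMuToE p S V)
    (Fermat.Agent.S55.K.H397.indMuToE_injective p S V)
    (Fermat.Agent.S55.K.H397.indMuToE_equivariant p S V)
    (Fermat.Agent.S55.K.H397.ind_nsmul_p p V)
    (Fermat.Agent.S55.K.H397.indMuToE_tors p S V)
    (Fermat.Agent.S55.K.H397.kummer_ind (sUnits S) hN p (fun x hx => hK hpS x hx) hV)
    ((ColH543.h2Divisible_indG_iff hN hF (K.sUnits S) V hV₀ hV₀n hV₀V p).2 h2)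
    ((ColH543.h3TorsVanish_indG_iff hN hF (K.sUnits S) V hV₀ hV₀n hV₀V p).2 h3)

/-- `cd_p(G_S) ≤ 2` in the form `K.H3FinSpec`, from KUM and GO1 + GO2 for the levels of index
prime to `p`. -/
theorem h3Fin_of_go12 (hK : KummerSpec p S) (h12 : GO12Coprime S p) : H3FinSpec p S := by
  intro _ hpS R hfd hRs
  rw [Fermat.Agent.S55.K.H696.h3Vanish_iff]
  refine devissage_coprime PT.GQ (globalLevels S) p (muP p)
    (ColH543.globalLevels_normalCofinal S) (ColH543.globalLevels_finiteIndex S)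
    (MuP.finrank_eq_one p) (Fermat.Agent.S55.K.H696.isUSmooth_muP p S hpS) ?_ R hfd hRs
  intro H hH hidx _
  obtain ⟨U, hU, hUH⟩ := hH
  exact (Fermat.Agent.S55.K.H696.h3Vanish_iff (globalLevels S) (indG H (muP p))).1
    (h3IndMu_coprime p S hK h12 hpS H (Fermat.Agent.S55.K.H696.mem_levels_of_le S hU hUH) hidx)

/-- **Input A3 of layer D** from KUM and GO1 + GO2 for the levels of index prime to `p`. -/
theorem surj2Glob_of_go12 (hK : KummerSpec p S) (h12 : GO12Coprime S p) (hp2 : p ≠ 2)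
    (hpS : pPrime p ∈ S) : Fermat.Agent.S55.PT.Surj2GlobSpec p S :=
  Fermat.Agent.S55.K.H723.surj2Glob_of p S
    (Fermat.Agent.S55.K.H635.surjH2_of p S (h3Fin_of_go12 p S hK h12)) hp2 hpS

omit [Fact p.Prime] in
/-- GO1 + GO2 (coprime levels) from the tower statements E3, E2 and the dictionary. -/
theorem go12_of_tower (hD3 : DictE3Spec S p) (hD2 : DictE2Spec S p) (h3 : E3Tower S p)
    (h2 : E2Tower S p) : GO12Coprime S p :=
  fun V hV hcop => ⟨hD3 h3 V hV hcop, hD2 h2 V hV hcop⟩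

end Fermat.Agent.S55.K.AR

end

end
-- ===== PACK-END S55/K/AR/A3Glue.lean

-- ===== PACK-BEGIN S55/K/AR/SesH635.lean
section



/-!
# S55 / layer K / block AR, leaf AR-SES (helper635)

`sesLeaf : SesLeaf S p` — adapter to the landed `E1.H354.ses_shortExact`
(`0 → E(F) → J(F) → C'(F) → 0` is short exact; `S ≠ ∅` because `p ∈ S`).
-/

set_option autoImplicit false

namespace Fermat.Agent.S55.K.AR.H635

open Fermat.Agent.S55 Fermat.Agent.S55.Tow Fermat.Agent.S55.E1.Lim

/-- `S` is non-empty in an admissible context. -/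
theorem nonempty_of_adm {S : Finset Nat.Primes} {p : ℕ} (h : Adm S p) : S.Nonempty := by
  obtain ⟨hp, -, hmem⟩ := h
  exact ⟨_, hmem⟩

/-- **AR-SES.** -/
theorem sesLeaf (S : Finset Nat.Primes) (p : ℕ) : SesLeaf S p := fun c L =>
  E1.H354.ses_shortExact c.h4 (nonempty_of_adm c.adm) L

end Fermat.Agent.S55.K.AR.H635

end
-- ===== PACK-END S55/K/AR/SesH635.lean

-- ===== PACK-BEGIN S55/K/AR/CapH837.lean
section



/-!
# S55, layer K, block AR: leaves AR-CAP1 and AR-CAP2 (helper837, subtask 631)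

Capitulation on cohomology in the tower: a `p`-primary class of `Hⁿ(H, C'(F))` (`n = 1, 2`) which
dies in `Hⁿ(H, C(F))` dies in `Hⁿ(H', C'(F'))` for some level `F' ≥ F`
(`C' = im (J → C)`, `H' = ` preimage of `H` in `Gal(F'/ℚ)`).

* `nsmul_map_H1π_eq_zero`, `nsmul_map_H2π_eq_zero` : the abstract one-step lemmas (Mathlib only);
* `exists_clear` : finitely many elements of `C(F)` are moved into `C'(F')` by `m · tr`, `p ∤ m`
  (GD5, GD5b, GD7a, GD7b, directedness of the levels);
* `capH1 : CapH1Leaf S p`, `capH2 : CapH2Leaf S p`.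
-/

set_option autoImplicit false
set_option linter.style.haveILetI false

open CategoryTheory groupCohomology

noncomputable section

namespace Fermat.Agent.S55.K.AR.H837

open Fermat.Agent.S55 Fermat.Agent.S55.Tow Fermat.Agent.S55.E1.Lim Fermat.Agent.S55.K.AR

/-! ## Abstract one-step lemmas -/

section Abstract

variable {Γ Γ' : Type} [Group Γ] [Group Γ'] (π : Γ' →* Γ)
  {C₁ C : Rep.{0} ℤ Γ} {C₁' C' : Rep.{0} ℤ Γ'} (incl : C₁ ⟶ C) (incl' : C₁' ⟶ C')
  (t₁ : Rep.res π C₁ ⟶ C₁') (t : Rep.res π C ⟶ C')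

/-- a class killed by `m` prime to `p` and by `p ^ a` vanishes -/
theorem eq_zero_of_nsmul_of_pow {A : Type*} [AddCommGroup A] {p m a : ℕ} (hp : p.Prime)
    (hm : ¬ p ∣ m) {y : A} (h1 : m • y = 0) (h2 : p ^ a • y = 0) : y = 0 := by
  have hcop : Nat.Coprime m (p ^ a) :=
    Nat.Coprime.pow_right a ((Nat.Prime.coprime_iff_not_dvd hp).mpr hm).symm
  have hd1 : addOrderOf y ∣ m := addOrderOf_dvd_of_nsmul_eq_zero h1
  have hd2 : addOrderOf y ∣ p ^ a := addOrderOf_dvd_of_nsmul_eq_zero h2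
  have hd : addOrderOf y ∣ 1 := by
    have := Nat.dvd_gcd hd1 hd2
    rwa [hcop.gcd_eq_one] at this
  exact AddMonoid.addOrderOf_eq_one_iff.mp (Nat.dvd_one.mp hd)

/-- **Degree 1.**  If the `1`-cocycle `ζ` with values in `C₁` becomes the coboundary of `b ∈ C`,
and `t (m • b)` lies in `C₁'`, then `m • inf [ζ] = 0` in `H¹(Γ', C₁')`. -/
theorem nsmul_map_H1π_eq_zero (hinj : Function.Injective incl'.hom)
    (hcomm : ∀ x : C₁.V, incl'.hom (t₁.hom x) = t.hom (incl.hom x))
    (ζ : cocycles₁ C₁) (b : C.V) (hb : ∀ g : Γ, C.ρ g b - b = incl.hom (ζ g))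
    (m : ℕ) (b' : C₁'.V) (hb' : incl'.hom b' = t.hom (m • b)) :
    m • (groupCohomology.map π t₁ 1).hom ((H1π C₁).hom ζ) = 0 := by
  have h2 : (groupCohomology.map π t₁ 1).hom ((H1π C₁).hom ζ) =
      (H1π C₁').hom (mapCocycles₁ π t₁ ζ) :=
    congr($(H1π_comp_map (A := C₁) (B := C₁') π t₁) ζ)
  rw [h2, ← map_nsmul, H1π_eq_zero_iff]
  refine ⟨b', ?_⟩
  funext g
  apply hinj
  show incl'.hom (C₁'.ρ g b' - b') = incl'.hom (m • t₁.hom (ζ (π g)))
  have hR : incl'.hom (m • t₁.hom (ζ (π g))) = m • (C'.ρ g (t.hom b) - t.hom b) := by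
    rw [map_nsmul, hcomm, ← hb, map_sub]
    congr 2
    exact Rep.hom_comm_apply t g b
  have hL : incl'.hom (C₁'.ρ g b' - b') = m • (C'.ρ g (t.hom b) - t.hom b) := by
    rw [map_sub, Rep.hom_comm_apply incl' g b', hb', map_nsmul, map_nsmul, smul_sub]
  rw [hL, hR]

/-- **Degree 2.**  If the `2`-cocycle `ζ` with values in `C₁` becomes the coboundary of
`b : Γ → C`, and all `t (m • b g)` lie in `C₁'`, then `m • inf [ζ] = 0` in `H²(Γ', C₁')`. -/
theorem nsmul_map_H2π_eq_zero (hinj : Function.Injective incl'.hom)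
    (hcomm : ∀ x : C₁.V, incl'.hom (t₁.hom x) = t.hom (incl.hom x))
    (ζ : cocycles₂ C₁) (b : Γ → C.V)
    (hb : ∀ g k : Γ, C.ρ g (b k) - b (g * k) + b g = incl.hom (ζ (g, k)))
    (m : ℕ) (b' : Γ → C₁'.V) (hb' : ∀ g, incl'.hom (b' g) = t.hom (m • b g)) :
    m • (groupCohomology.map π t₁ 2).hom ((H2π C₁).hom ζ) = 0 := by
  have h2 : (groupCohomology.map π t₁ 2).hom ((H2π C₁).hom ζ) =
      (H2π C₁').hom (mapCocycles₂ π t₁ ζ) :=
    congr($(H2π_comp_map (A := C₁) (B := C₁') π t₁) ζ)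
  rw [h2, ← map_nsmul, H2π_eq_zero_iff]
  refine ⟨fun γ => b' (π γ), ?_⟩
  funext ⟨γ, δ⟩
  apply hinj
  show incl'.hom (C₁'.ρ γ (b' (π δ)) - b' (π (γ * δ)) + b' (π γ)) =
    incl'.hom (m • t₁.hom (ζ (π γ, π δ)))
  have hR : incl'.hom (m • t₁.hom (ζ (π γ, π δ))) =
      m • (C'.ρ γ (t.hom (b (π δ))) - t.hom (b (π γ * π δ)) + t.hom (b (π γ))) := by
    rw [map_nsmul, hcomm, ← hb, map_add, map_sub]
    congr 3
    exact Rep.hom_comm_apply t γ (b (π δ))
  have hL : incl'.hom (C₁'.ρ γ (b' (π δ)) - b' (π (γ * δ)) + b' (π γ)) =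
      m • (C'.ρ γ (t.hom (b (π δ))) - t.hom (b (π γ * π δ)) + t.hom (b (π γ))) := by
    rw [map_add, map_sub, Rep.hom_comm_apply incl' γ (b' (π δ)), hb', hb', hb', map_mul,
      map_nsmul, map_nsmul, map_nsmul, map_nsmul, smul_add, smul_sub]
  rw [hL, hR]

end Abstract

/-! ## Clearing lemma in the tower -/

section Tower

variable {S : Finset Nat.Primes} {p : ℕ}

lemma isLocalSum_nsmul' {D : TowerDatum S} {L : Level S} (n : ℕ) {x : (D.C L).V}
    (hx : D.IsLocalSum L x) : D.IsLocalSum L (n • x) := by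
  rw [← mem_C1Add] at hx ⊢
  exact (C1Add D L).nsmul_mem hx n

lemma isLocalSum_tr' {D : TowerDatum S} (h7 : TrCompat D) {L L' : Level S} (h : L ≤ L')
    {x : (D.C L).V} (hx : D.IsLocalSum L x) : D.IsLocalSum L' ((D.tr h).hom x) := by
  rw [← mem_C1Add] at hx ⊢
  exact tr_mem_C1Add h7 h x hx

/-- **Clearing lemma.**  Finitely many elements of `C(F)` are moved into `C'(F') = im J(F')`,
`F' ≥ F`, by `m · tr`, with `m` prime to `p`. -/
theorem exists_clear (c : _root_.Fermat.Agent.S55.K.AR.Ctx S p) (hp : p.Prime) (L : Level S) {ι : Type} (b : ι → (c.D.C L).V)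
    (s : Finset ι) :
    ∃ (m : ℕ) (L' : Level S) (h : L ≤ L'), ¬ p ∣ m ∧
      ∀ x ∈ s, c.D.IsLocalSum L' ((c.D.tr h).hom (m • b x)) := by
  classical
  induction s using Finset.induction_on with
  | empty =>
    exact ⟨1, L, le_refl L, fun h => hp.one_lt.ne' (Nat.dvd_one.mp h), fun x hx => by simp at hx⟩
  | insert x s hxs ih =>
    obtain ⟨m₁, L₁, h₁, hm₁, hs⟩ := ih
    obtain ⟨m, hm0, hm⟩ := c.good.gd5b L (b x)
    obtain ⟨e, m₂, hm₂, rfl⟩ := Nat.exists_eq_pow_mul_and_not_dvd hm0.ne' p hp.ne_one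
    have hx2 : c.D.IsLocalSum L (p ^ e • (m₂ • b x)) := by
      rw [← mul_smul]
      exact hm
    obtain ⟨L₂, h₂, hL₂⟩ := c.good.good.gd5 L (m₂ • b x) e hx2
    obtain ⟨L₃, hk₁, hk₂⟩ := exists_ge_ge L₁ L₂
    refine ⟨m₁ * m₂, L₃, h₁.trans hk₁, ?_, ?_⟩
    · intro hdvd
      rcases (Nat.Prime.dvd_mul hp).mp hdvd with h | h
      · exact hm₁ h
      · exact hm₂ h
    · intro y hy
      rcases Finset.mem_insert.mp hy with rfl | hy
      · have h3 := isLocalSum_tr' c.h7 hk₂ hL₂
        rw [c.good.good.gd7b h₂ hk₂] at h3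
        have h4 := isLocalSum_nsmul' m₁ h3
        rw [← map_nsmul, ← mul_smul] at h4
        exact h4
      · have h3 := isLocalSum_tr' c.h7 hk₁ (hs y hy)
        rw [c.good.good.gd7b h₁ hk₁] at h3
        have h4 := isLocalSum_nsmul' m₂ h3
        rw [← map_nsmul, ← mul_smul, mul_comm] at h4
        exact h4

/-- Lifting an element of `im J(F')` to `C'(F')`. -/
lemma exists_C1_of_isLocalSum {D : TowerDatum S} {L : Level S} {x : (D.C L).V}
    (hx : D.IsLocalSum L x) : ∃ y : (C1 D L).V, (inclC1 D L).hom y = x :=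
  ⟨subMk x ((mem_C1Add D L x).2 hx), rfl⟩

/-- **AR-CAP1.** -/
theorem capH1 (S : Finset Nat.Primes) (p : ℕ) : CapH1Leaf S p := by
  intro c L H s hs hs0
  obtain ⟨hp, -, -⟩ := c.adm
  obtain ⟨a, hsa⟩ := hs
  induction s using H1_induction_on with
  | h ζ =>
    have h1 : coe H (inclC1 c.D L) 1 ((H1π (T.resSub (C1 c.D L) H)).hom ζ) =
        (H1π (T.resSub (c.D.C L) H)).hom
          (mapCocycles₁ (MonoidHom.id H) ((Rep.resFunctor H.subtype).map (inclC1 c.D L)) ζ) :=
      congr($(H1π_comp_map (A := T.resSub (C1 c.D L) H) (B := T.resSub (c.D.C L) H)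
        (MonoidHom.id H) ((Rep.resFunctor H.subtype).map (inclC1 c.D L))) ζ)
    rw [h1, H1π_eq_zero_iff] at hs0
    obtain ⟨b, hb⟩ := hs0
    have hb' : ∀ g : H, (T.resSub (c.D.C L) H).ρ g b - b =
        ((Rep.resFunctor H.subtype).map (inclC1 c.D L)).hom (ζ g) := fun g => congrFun hb g
    obtain ⟨m, L', h, hm, hmem⟩ := exists_clear c hp L (fun _ : Unit => b) {()}
    obtain ⟨b₁, hb₁⟩ := exists_C1_of_isLocalSum (hmem () (Finset.mem_singleton_self _))
    refine ⟨L', h, ?_⟩
    have hpa : p ^ a • infUp h H (trC1 c.h7 h) 1 ((H1π (T.resSub (C1 c.D L) H)).hom ζ) = 0 := by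
      rw [← map_nsmul, hsa, map_zero]
    refine eq_zero_of_nsmul_of_pow hp hm ?_ hpa
    exact nsmul_map_H1π_eq_zero (projSub (Level.proj h) H)
      ((Rep.resFunctor H.subtype).map (inclC1 c.D L))
      ((Rep.resFunctor (up h H).subtype).map (inclC1 c.D L'))
      (semiSub (Level.proj h) H (trC1 c.h7 h)) (semiSub (Level.proj h) H (c.D.tr h))
      (inclC1_injective c.D L') (fun x => inclC1_trC1 c.h7 h x) ζ b hb' m b₁ hb₁

/-- **AR-CAP2.** -/
theorem capH2 (S : Finset Nat.Primes) (p : ℕ) : CapH2Leaf S p := by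
  intro c L H s hs hs0
  obtain ⟨hp, -, -⟩ := c.adm
  obtain ⟨a, hsa⟩ := hs
  induction s using H2_induction_on with
  | h ζ =>
    have h1 : coe H (inclC1 c.D L) 2 ((H2π (T.resSub (C1 c.D L) H)).hom ζ) =
        (H2π (T.resSub (c.D.C L) H)).hom
          (mapCocycles₂ (MonoidHom.id H) ((Rep.resFunctor H.subtype).map (inclC1 c.D L)) ζ) :=
      congr($(H2π_comp_map (A := T.resSub (C1 c.D L) H) (B := T.resSub (c.D.C L) H)
        (MonoidHom.id H) ((Rep.resFunctor H.subtype).map (inclC1 c.D L))) ζ)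
    rw [h1, H2π_eq_zero_iff] at hs0
    obtain ⟨b, hb⟩ := hs0
    have hb' : ∀ g k : H, (T.resSub (c.D.C L) H).ρ g (b k) - b (g * k) + b g =
        ((Rep.resFunctor H.subtype).map (inclC1 c.D L)).hom (ζ (g, k)) :=
      fun g k => congrFun hb (g, k)
    letI : Fintype H := Fintype.ofFinite H
    obtain ⟨m, L', h, hm, hmem⟩ := exists_clear c hp L b Finset.univ
    choose b₁ hb₁ using fun g => exists_C1_of_isLocalSum (hmem g (Finset.mem_univ g))
    refine ⟨L', h, ?_⟩
    have hpa : p ^ a • infUp h H (trC1 c.h7 h) 2 ((H2π (T.resSub (C1 c.D L) H)).hom ζ) = 0 := by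
      rw [← map_nsmul, hsa, map_zero]
    refine eq_zero_of_nsmul_of_pow hp hm ?_ hpa
    exact nsmul_map_H2π_eq_zero (projSub (Level.proj h) H)
      ((Rep.resFunctor H.subtype).map (inclC1 c.D L))
      ((Rep.resFunctor (up h H).subtype).map (inclC1 c.D L'))
      (semiSub (Level.proj h) H (trC1 c.h7 h)) (semiSub (Level.proj h) H (c.D.tr h))
      (inclC1_injective c.D L') (fun x => inclC1_trC1 c.h7 h x) ζ b hb' m b₁ hb₁

end Tower

end Fermat.Agent.S55.K.AR.H837

end

end
-- ===== PACK-END S55/K/AR/CapH837.lean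

-- ===== PACK-BEGIN S55/K/AR/C12H748.lean
section
/-
S55 moonshot — LAYER K, block AR, leaves **AR-C1** and **AR-C2** (subtask 632).      helper748.

`h1CLeaf : H1CLeaf S p`   — `H¹(H, C(F))(p) = 0` for `F ⊇ μ_p`, every `H ≤ Gal(F/ℚ)`;
`h2CLeaf : H2CLeaf S p`   — `H²(H, C(F))(p)` is cyclic (generated by the `p`-primary component of
                            `res_H γ`).

Proof (blueprint `coord/S55-K-AR.md` §2): Sylow `P ≤ H`, GD1 for the `p`-subgroup
`P.map H.subtype ≤ Gal(F/ℚ)`, transitivity of restriction (`T.H353.resResIso353`),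
`T.H572.resIndex` (`res_P y = 0 ⇒ [H : P] y = 0`) and `T.H572.cardTorsion`.
-/




set_option autoImplicit false

open CategoryTheory

namespace Fermat.Agent.S55.K.AR.H748

open Fermat.Agent.S55 Fermat.Agent.S55.Tow Fermat.Agent.S55.E1.Lim Fermat.Agent.S55.K.AR

noncomputable section

/-! ## Abstract group theory -/

section Abstract

/-- Bezout in `ℕ`: for coprime `m`, `q` with `0 < m`, `0 < q` there are `u`, `v` with
`u * m = 1 + v * q`. -/
lemma exists_bezout_nat {m q : ℕ} (hm : 0 < m) (hq : 0 < q) (hc : Nat.Coprime m q) :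
    ∃ u v : ℕ, u * m = 1 + v * q := by
  by_cases h1 : q = 1
  · refine ⟨1, m - 1, ?_⟩
    rw [h1]; omega
  · have hq1 : 1 < q := by omega
    obtain ⟨u, -, hu⟩ := Nat.exists_mul_mod_eq_one_of_coprime hc hq1
    refine ⟨u, m * u / q, ?_⟩
    have h := Nat.div_add_mod (m * u) q
    rw [hu] at h
    rw [mul_comm u m, mul_comm (m * u / q) q]
    omega

variable {Y Z : Type} [AddCommGroup Y] [AddCommGroup Z]

/-- If `m • y = 0` and `p ^ k • y = 0` with `m` prime to `p`, then `y = 0`. -/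
lemma eq_zero_of_coprime_nsmul {p m k : ℕ} (hm : Nat.Coprime m p) (y : Y)
    (h1 : m • y = 0) (h2 : p ^ k • y = 0) : y = 0 := by
  have d1 : addOrderOf y ∣ m := addOrderOf_dvd_of_nsmul_eq_zero h1
  have d2 : addOrderOf y ∣ p ^ k := addOrderOf_dvd_of_nsmul_eq_zero h2
  have hc : Nat.Coprime m (p ^ k) := Nat.Coprime.pow_right k hm
  have h3 : addOrderOf y = 1 := Nat.eq_one_of_dvd_coprimes hc d1 d2
  exact AddMonoid.addOrderOf_eq_one_iff.1 h3

/-- **AR-C1, abstract form.** -/
lemma c1_abstract {p m : ℕ} (hm : Nat.Coprime m p) (res : Y → Z)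
    (hres : ∀ y : Y, res y = 0 → m • y = 0) (hZ : ∀ z : Z, z = 0)
    (y : Y) (hy : ∃ k : ℕ, p ^ k • y = 0) : y = 0 := by
  obtain ⟨k, hk⟩ := hy
  exact eq_zero_of_coprime_nsmul hm y (hres y (hZ _)) hk

/-- **AR-C2, abstract form.**  `N = p^a * m` kills `Y`, `m > 0` is prime to `p > 0`,
`res y = 0` implies `m • y = 0`, and `Z` is generated by `res r`: then the `p`-primary part of
`Y` is generated by the `p`-primary component of `r`. -/
lemma c2_abstract {p a m : ℕ} (hp : 0 < p) (hm0 : 0 < m) (hm : Nat.Coprime m p) (res : Y →+ Z)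
    (hres : ∀ y : Y, res y = 0 → m • y = 0) (r : Y)
    (hgen : ∀ z : Z, ∃ n : ℕ, z = n • res r)
    (hN : ∀ y : Y, (p ^ a * m) • y = 0) :
    ∃ g : Y, (∃ k : ℕ, p ^ k • g = 0) ∧
      ∀ y : Y, (∃ k : ℕ, p ^ k • y = 0) → ∃ n : ℕ, y = n • g := by
  have hc : Nat.Coprime m (p ^ a) := Nat.Coprime.pow_right a hm
  obtain ⟨u, v, huv⟩ := exists_bezout_nat hm0 (pow_pos hp a) hc
  refine ⟨(u * m) • r, ⟨a, ?_⟩, ?_⟩
  · rw [← mul_smul]
    have : p ^ a * (u * m) = u * (p ^ a * m) := by ring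
    rw [this, mul_smul, hN, smul_zero]
  · rintro y ⟨k, hk⟩
    obtain ⟨n, hn⟩ := hgen (res y)
    have h0 : res (y - n • r) = 0 := by
      rw [map_sub, map_nsmul, hn, sub_self]
    have h1 : m • y = (m * n) • r := by
      have h2 := hres _ h0
      rw [smul_sub, sub_eq_zero] at h2
      rw [h2, mul_smul]
    -- `p ^ a • y = 0`
    have h3 : p ^ a • y = 0 := by
      have d1 : addOrderOf y ∣ p ^ a * m := addOrderOf_dvd_of_nsmul_eq_zero (hN y)
      have d2 : addOrderOf y ∣ p ^ k := addOrderOf_dvd_of_nsmul_eq_zero hk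
      have hck : Nat.Coprime (addOrderOf y) m :=
        Nat.Coprime.coprime_dvd_left d2 (Nat.Coprime.pow_left k hm.symm)
      have d3 : addOrderOf y ∣ p ^ a := hck.dvd_of_dvd_mul_right d1
      exact addOrderOf_dvd_iff_nsmul_eq_zero.1 d3
    refine ⟨n, ?_⟩
    have h4 : (u * m) • y = y := by
      rw [huv, add_smul, one_smul, mul_smul, h3, smul_zero, add_zero]
    calc y = (u * m) • y := h4.symm
      _ = u • (m • y) := by rw [mul_smul]
      _ = u • ((m * n) • r) := by rw [h1]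
      _ = n • ((u * m) • r) := by
          rw [← mul_smul, ← mul_smul]
          congr 1
          ring

end Abstract

/-! ## The leaves -/

section Leaves

variable {S : Finset Nat.Primes} {p : ℕ}

/-- Injectivity of the transport isomorphism. -/
lemma resResIso_hom_injective {k G : Type} [CommRing k] [Group G] (A : Rep.{0} k G)
    (P : Subgroup G) (K : Subgroup P) (n : ℕ) :
    Function.Injective (T.H353.resResIso353 A P K n).hom.hom := by
  intro a b hab
  have h := congrArg (T.H353.resResIso353 A P K n).inv.hom hab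
  have e := fun z => congrArg (fun f => f.hom z) (T.H353.resResIso353 A P K n).hom_inv_id
  exact (e a).symm.trans (h.trans (e b))

/-- **AR-C1.** -/
theorem h1CLeaf : H1CLeaf S p := by
  intro c L hμ H y hy
  obtain ⟨hp, -, -⟩ := c.adm
  have : Fact p.Prime := ⟨hp⟩
  have hC := c.good.good.gd1 L hμ
  obtain ⟨P⟩ : Nonempty (Sylow p H) := inferInstance
  have hP' : IsPGroup p ((P : Subgroup H).map H.subtype) :=
    IsPGroup.map P.isPGroup' H.subtype
  obtain ⟨h1, -, -⟩ := hC _ hP'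
  have hzero : Limits.IsZero (groupCohomology (T.resSub (T.resSub (c.D.C L) H) (P : Subgroup H)) 1) :=
    Limits.IsZero.of_iso h1 (T.H353.resResIso353 (c.D.C L) H (P : Subgroup H) 1)
  have hsub := ModuleCat.isZero_iff_subsingleton.mp hzero
  have hidx : Nat.Coprime (P : Subgroup H).index p := by
    have := P.not_dvd_index
    exact (Nat.Coprime.symm ((Nat.Prime.coprime_iff_not_dvd hp).2 this))
  refine c1_abstract (p := p) (m := (P : Subgroup H).index) hidx
    (fun y => (T.resMap (T.resSub (c.D.C L) H) (P : Subgroup H) 1).hom y) ?_ ?_ y hy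
  · intro y hy0
    exact T.H572.resIndex ℤ H (T.resSub (c.D.C L) H) (P : Subgroup H) 1 Nat.one_pos y hy0
  · intro z
    exact hsub.elim _ _

/-- **AR-C2.** -/
theorem h2CLeaf : H2CLeaf S p := by
  intro c L hμ H
  obtain ⟨hp, -, -⟩ := c.adm
  have : Fact p.Prime := ⟨hp⟩
  have hC := c.good.good.gd1 L hμ
  obtain ⟨P⟩ : Nonempty (Sylow p H) := inferInstance
  have hP' : IsPGroup p ((P : Subgroup H).map H.subtype) :=
    IsPGroup.map P.isPGroup' H.subtype
  obtain ⟨-, -, hgen⟩ := hC _ hP'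
  have hidx : Nat.Coprime (P : Subgroup H).index p := by
    have := P.not_dvd_index
    exact (Nat.Coprime.symm ((Nat.Prime.coprime_iff_not_dvd hp).2 this))
  have hidx0 : 0 < (P : Subgroup H).index := Nat.pos_of_ne_zero (Subgroup.index_ne_zero_of_finite)
  -- `|H| = p ^ a * [H : P]`
  obtain ⟨a, ha⟩ := IsPGroup.iff_card.1 P.isPGroup'
  have hcard : Nat.card H = p ^ a * (P : Subgroup H).index := by
    rw [← ha]
    exact ((P : Subgroup H).card_mul_index).symm
  set r : Hn H (c.D.C L) 2 := (T.resMap (c.D.C L) H 2).hom (c.D.γ L) with hr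
  refine c2_abstract (p := p) (a := a) (m := (P : Subgroup H).index) hp.pos hidx0 hidx
    ((T.resMap (T.resSub (c.D.C L) H) (P : Subgroup H) 2).hom.toAddMonoidHom) ?_ r ?_ ?_
  · intro y hy0
    exact T.H572.resIndex ℤ H (T.resSub (c.D.C L) H) (P : Subgroup H) 2 (by norm_num) y hy0
  · intro z
    obtain ⟨n, hn⟩ := hgen ((T.H353.resResIso353 (c.D.C L) H (P : Subgroup H) 2).hom.hom z)
    refine ⟨n, resResIso_hom_injective (c.D.C L) H (P : Subgroup H) 2 ?_⟩
    rw [hn, map_nsmul]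
    congr 1
    exact (T.H353.resResIso353_hom_resMap (c.D.C L) H (P : Subgroup H) 2 (c.D.γ L)).symm
  · intro y
    rw [← hcard]
    exact T.H572.cardTorsion ℤ H (T.resSub (c.D.C L) H) 2 (by norm_num) y

end Leaves

end

end Fermat.Agent.S55.K.AR.H748

end
-- ===== PACK-END S55/K/AR/C12H748.lean

-- ===== PACK-BEGIN S55/K/AR/KappaH501.lean
section
/-
S55 moonshot — LAYER K, block AR, leaf **AR-KAPPA** (subtask 633).      Owner: helper501.
Namespace `Fermat.Agent.S55.K.AR.H501`.  No `sorry`.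

`kappaLeaf : KappaLeaf S p` (exact type of `K/AR/Spec.lean`):
if `p ^ b` divides the local degree `|Gal(F_q/ℚ_q)|`, there is `v ∈ H²(Gal(F/ℚ), J_q(F))` with
`p ^ b • v = 0` whose image in `H²(Gal(F/ℚ), C(F))` has order exactly `p ^ b`.

Proof.  (1) `exists_exact_order`: in a class module at `p` for a finite group `G`, the class
`(|G| / p ^ b) • γ` has order exactly `p ^ b` (restrict to a Sylow `p`-subgroup `P`: `H²(P, A)` is
cyclic of order `|P|`, generated by `res γ`; `|G|` kills `H²(G, A)`).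
(2) Shapiro (`H173.shapiroJ_bijective`) transports it to `H²(Gal(F/ℚ), J_q(F))`.
(3) GD3 (`j_q` injective on `p`-torsion of `H²`) keeps the order.
-/




set_option autoImplicit false

open CategoryTheory

namespace Fermat.Agent.S55.K.AR.H501

open Fermat.Agent.S55 Fermat.Agent.S55.Tow

noncomputable section

/-! ## 1. Elementary: elements of exact `p`-power order -/

/-- In an additive group: if `p ^ b • v = 0` and `p ^ (b - 1) • v ≠ 0` (for `b ≥ 1`), the order of
`v` is a multiple of `p ^ b`. -/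
theorem pow_dvd_of_nsmul_eq_zero {M : Type} [AddCommGroup M] {p : ℕ} (hp : p.Prime) (b : ℕ)
    (v : M) (hv : p ^ b • v = 0) (hne : 0 < b → p ^ (b - 1) • v ≠ 0) (n : ℕ) (hn : n • v = 0) :
    p ^ b ∣ n := by
  rcases Nat.eq_zero_or_pos b with hb | hb
  · subst hb
    simp
  have h1 : addOrderOf v ∣ p ^ b := addOrderOf_dvd_of_nsmul_eq_zero hv
  obtain ⟨e, he, heq⟩ := (Nat.dvd_prime_pow hp).mp h1
  have h2 : addOrderOf v ∣ n := addOrderOf_dvd_of_nsmul_eq_zero hn
  rcases Nat.lt_or_ge e b with hlt | hge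
  · exfalso
    apply hne hb
    have h3 : addOrderOf v ∣ p ^ (b - 1) := by
      rw [heq]
      exact pow_dvd_pow p (by omega)
    exact addOrderOf_dvd_iff_nsmul_eq_zero.mp h3
  · have : e = b := le_antisymm he hge
    rw [← this, ← heq]
    exact h2

variable {G : Type} [Group G] [Finite G]

/-- **Class modules at `p` contain classes of every admissible exact `p`-power order.** -/
theorem exists_exact_order {p : ℕ} (hp : p.Prime) (A : Rep.{0} ℤ G)
    (γ : groupCohomology A 2) (hγ : E1.IsClassModuleAt p A γ) (b : ℕ)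
    (hb : p ^ b ∣ Nat.card G) :
    ∃ v : groupCohomology A 2, p ^ b • v = 0 ∧ ∀ n : ℕ, n • v = 0 → p ^ b ∣ n := by
  classical
  have : Fact p.Prime := ⟨hp⟩
  have hG : Nat.card G ≠ 0 := Nat.card_pos.ne'
  set a := (Nat.card G).factorization p with ha
  have hba : b ≤ a := (hp.pow_dvd_iff_le_factorization hG).mp hb
  set m := Nat.card G / p ^ a with hm
  have hcard : p ^ a * m = Nat.card G := Nat.ordProj_mul_ordCompl_eq_self (Nat.card G) p
  have hcop : Nat.Coprime p m := Nat.coprime_ordCompl hp hG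
  -- a Sylow subgroup
  let P : Sylow p G := default
  have hPcard : Nat.card (P : Subgroup G) = p ^ a := P.card_eq_multiplicity
  obtain ⟨-, hH2card, hgen⟩ := hγ (P : Subgroup G) P.isPGroup'
  set ρ := (T.resMap A (P : Subgroup G) 2).hom γ with hρ
  -- `ρ` has order exactly `p ^ a`
  have hfin : Finite (groupCohomology (T.resSub A (P : Subgroup G)) 2) := by
    apply Nat.finite_of_card_ne_zero
    rw [hH2card, hPcard]
    exact pow_ne_zero _ hp.ne_zero
  have htop : AddSubgroup.zmultiples ρ = ⊤ := by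
    rw [eq_top_iff]
    intro x _
    obtain ⟨n, hn⟩ := hgen x
    rw [hn]
    exact AddSubgroup.nsmul_mem _ (AddSubgroup.mem_zmultiples ρ) n
  have hord : addOrderOf ρ = p ^ a := by
    rw [← Nat.card_zmultiples, htop, ← hPcard, ← hH2card]
    exact Nat.card_congr (Equiv.Set.univ _)
  -- the class
  have hkill : Nat.card G • γ = 0 := T.H572.cardTorsion ℤ G A 2 (by norm_num) γ
  refine ⟨(m * p ^ (a - b)) • γ, ?_, ?_⟩
  · rw [← mul_nsmul']
    have : p ^ b * (m * p ^ (a - b)) = Nat.card G := by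
      rw [mul_comm, mul_assoc, ← pow_add, Nat.sub_add_cancel hba, mul_comm, hcard]
    rw [this, hkill]
  · intro n hn
    have h1 : (n * (m * p ^ (a - b))) • ρ = 0 := by
      have := congrArg (T.resMap A (P : Subgroup G) 2).hom hn
      rw [map_nsmul, map_nsmul, map_zero, ← mul_nsmul'] at this
      exact this
    have h2 : p ^ a ∣ n * (m * p ^ (a - b)) := by
      rw [← hord]
      exact addOrderOf_dvd_of_nsmul_eq_zero h1
    have h3 : p ^ b * p ^ (a - b) ∣ (n * m) * p ^ (a - b) := by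
      rw [← pow_add, Nat.add_sub_cancel' hba, mul_assoc]
      exact h2
    have h4 : p ^ b ∣ n * m :=
      Nat.dvd_of_mul_dvd_mul_right (pow_pos hp.pos _) h3
    exact (Nat.Coprime.pow_left b hcop).dvd_of_dvd_mul_right h4

/-! ## 2. The leaf -/

variable {S : Finset Nat.Primes} {p : ℕ}

/-- **AR-KAPPA.** -/
theorem kappa (c : Ctx S p) (hloc : LocalSpec p) : Kappa c := by
  intro L hμ q hq b hb
  obtain ⟨hp, -, -⟩ := c.adm
  obtain ⟨γ, hγ⟩ := hloc.1 S L q
  obtain ⟨v₀, hv₀, hv₀'⟩ := exists_exact_order hp (L.locUnits q) γ hγ b hb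
  obtain ⟨v, hv⟩ := (H173.shapiroJ_bijective L q 2).2 v₀
  have hinj := (H173.shapiroJ_bijective L q 2).1
  have hsmul : ∀ k : ℕ, k • v = 0 ↔ k • v₀ = 0 := by
    intro k
    constructor
    · intro h
      rw [← hv, ← map_nsmul, h, map_zero]
    · intro h
      apply hinj
      rw [map_nsmul, hv, h, map_zero]
  have hpv : p ^ b • v = 0 := (hsmul _).mpr hv₀
  refine ⟨v, hpv, ?_⟩
  set w := (T.coeffMap (c.D.j L q) 2).hom v with hw
  have hpw : p ^ b • w = 0 := by
    rw [hw, ← map_nsmul, hpv, map_zero]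
  refine pow_dvd_of_nsmul_eq_zero hp b w hpw ?_
  intro hbpos hzero
  -- `p ^ (b-1) • v` is `p`-torsion and dies in `H²(C)`: it vanishes by GD3
  have h1 : p • (p ^ (b - 1) • v) = 0 := by
    rw [← mul_nsmul', mul_comm, ← pow_succ, Nat.sub_add_cancel hbpos]
    exact hpv
  have h2 : (T.coeffMap (c.D.j L q) 2).hom (p ^ (b - 1) • v) = 0 := by
    rw [map_nsmul]
    exact hzero
  have h3 : p ^ (b - 1) • v = 0 := c.good.good.gd3 L hμ q hq _ h1 h2
  have h4 : p ^ b ∣ p ^ (b - 1) := hv₀' _ ((hsmul _).mp h3)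
  have h5 : b ≤ b - 1 := (Nat.pow_dvd_pow_iff_le_right hp.one_lt).mp h4
  omega

/-- **Leaf AR-KAPPA** in the exact form of `K/AR/Spec.lean`. -/
theorem kappaLeaf (S : Finset Nat.Primes) (p : ℕ) : KappaLeaf S p :=
  fun c hloc => kappa c hloc

end

end Fermat.Agent.S55.K.AR.H501

end
-- ===== PACK-END S55/K/AR/KappaH501.lean

-- ===== PACK-BEGIN S55/KG/JH3H604.lean
section





/-!
# S55, layer KG, leaf KG-J3 (helper604): `H³(H, J(F)) = 0`

`jH3 : JH3Spec`.  Route: the semi-local core `jCore` (Mackey–Shapiro decomposition of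
`Hⁿ(H, J(F))` into the groups `Hⁿ(T, F_qˣ)`, `T ≤ Gal(F_q/ℚ_q)`), the class-module property of
`F_qˣ` (helper964's `locUnits_classData` + `T.H53.classModuleOfCyclic`) and Tate's theorem
`H³ = 0` for class modules (`H295.tateH3`).
-/

set_option autoImplicit false

open CategoryTheory groupCohomology

namespace Fermat.Agent.S55.KG.H604

open Fermat.Agent.S55 Fermat.Agent.S55.Tow Fermat.Agent.S55.E1.Lim

variable {S : Finset Nat.Primes}

/-- The numerical class-module data of `F_qˣ`, for every subgroup of `Gal(F_q/ℚ_q)`. -/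
theorem locUnits_data (Lv : Level S) (q : Nat.Primes) (H : Subgroup (Lv.Dec q)) :
    Limits.IsZero (groupCohomology (T.resSub (Lv.locUnits q) H) 1) ∧
      Nonempty (groupCohomology (T.resSub (Lv.locUnits q) H) 2 ≃+ ZMod (Nat.card H)) :=
  LocalSpec.H964.locUnits_classData LocalSpec.H964.classModuleSpec L.padicInst63 Lv q H

/-- `F_qˣ` is a class module for `Gal(F_q/ℚ_q)`. -/
theorem locUnits_isClassModule (Lv : Level S) (q : Nat.Primes) :
    ∃ γ : groupCohomology (Lv.locUnits q) 2, T.IsClassModule (Lv.locUnits q) γ :=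
  (T.H53.classModuleOfCyclic (Lv.Dec q) (Lv.locUnits q)
    (fun H => (locUnits_data Lv q H).1) (fun H => (locUnits_data Lv q H).2)).1

/-- `H³(T, F_qˣ) = 0` for every subgroup `T ≤ Gal(F_q/ℚ_q)`. -/
theorem locUnits_h3 (Lv : Level S) (q : Nat.Primes) (H : Subgroup (Lv.Dec q)) :
    Subsingleton (groupCohomology (T.resSub (Lv.locUnits q) H) 3) := by
  obtain ⟨γ, hγ⟩ := locUnits_isClassModule Lv q
  exact ModuleCat.subsingleton_of_isZero
    (Fermat.Agent.S55.H295.tateH3 (Lv.Dec q) (Lv.locUnits q) γ hγ H)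

/-- **KG-J3.** -/
theorem jH3 : JH3Spec := fun _ Lv H =>
  jCore_subsingleton Lv H 3 (fun q _ => locUnits_h3 Lv q.1 _)

end Fermat.Agent.S55.KG.H604

end
-- ===== PACK-END S55/KG/JH3H604.lean

-- ===== PACK-BEGIN S55/K/AR/DegMuH181.lean
section





/-!
# S55 / layer K, block AR, leaves AR-DEG and AR-MU (helper181)

* `decLeaf : DecLeaf S p` — the `p`-parts of the local degrees `|Gal(F_q/ℚ_q)|`, `q ∈ S`, are
  unbounded in the tower of `S`-levels (`p ∈ S`): adjoin `ζ_{p^J}` for `J` large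
  (helper824's `exists_pow_dvd_finrank_adjoin`, helper414's `cycloLevel`).
* `muDirLeaf : MuDirLeaf S p` — `ℚ(ζ_p)` is a level containing `μ_p`, and levels are directed
  (helper603's `levelSup`).
-/

set_option autoImplicit false
set_option linter.style.haveILetI false

noncomputable section

namespace Fermat.Agent.S55.K.AR.H181

open Fermat.Agent.S55 Fermat.Agent.S55.Tow ExtCitation

variable (S : Finset Nat.Primes) (p : ℕ) [Fact p.Prime]

instance neZero_prime_pow (j : ℕ) : NeZero (p ^ j) := ⟨pow_ne_zero j (Fact.out : p.Prime).ne_zero⟩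

/-- The level `ℚ(ζ_{p^j})` of `S ∋ p`. -/
def cycLevel (hpS : pPrime p ∈ S) (j : ℕ) : Level S :=
  E1.H603.levelOfGalois (H414.cycloLevel (p ^ j))
    (H414.isUnramifiedOutside_cycloLevel p j S hpS) inferInstance

lemma cycLevel_F (hpS : pPrime p ∈ S) (j : ℕ) :
    (cycLevel S p hpS j).F = H414.cycloLevel (p ^ j) := rfl

/-- `ℚ(ζ_{p^i}) ⊆ ℚ(ζ_{p^j})` for `i ≤ j`. -/
lemma cycloLevel_mono {i j : ℕ} (hij : i ≤ j) :
    H414.cycloLevel (p ^ i) ≤ H414.cycloLevel (p ^ j) := by
  haveI : Algebra.IsIntegral ℚ (AlgebraicClosure ℚ) :=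
    (AlgebraicClosure.isAlgebraic ℚ).isIntegral
  exact KL.H824.adjoin_primitiveRoot_mono ℚ (Fact.out : p.Prime)
    (ζ := fun j => H414.zetaBar (p ^ j)) (fun j => H414.zetaBar_spec (p ^ j)) hij

/-- For every prime `q` some `ℚ(ζ_{p^j})` has local degree at `q` divisible by `p^m`. -/
lemma exists_pow_dvd_index (q : Nat.Primes) (m : ℕ) :
    ∃ j : ℕ, p ^ m ∣ ((H414.cycloLevel (p ^ j)).fixingSubgroup.comap (locQ q)).index := by
  letI : Fact (q : ℕ).Prime := ⟨q.2⟩
  have hp : p.Prime := Fact.out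
  have hζ : ∀ j, IsPrimitiveRoot (padicEmbedding (q : ℕ) (H414.zetaBar (p ^ j))) (p ^ j) :=
    fun j => (H414.zetaBar_spec (p ^ j)).map_of_injective (padicEmbedding (q : ℕ)).injective
  have hpK : ((p : ℕ) : PadicAlgCl (q : ℕ)) ≠ 0 := Nat.cast_ne_zero.2 hp.ne_zero
  obtain ⟨j, hj⟩ := KL.H824.exists_pow_dvd_finrank_adjoin ℚ_[(q : ℕ)] hp hpK
    (fun j => padicEmbedding (q : ℕ) (H414.zetaBar (p ^ j))) hζ m
  refine ⟨j, ?_⟩
  have hidx : ((IntermediateField.adjoin ℚ {H414.zetaBar (p ^ j)}).fixingSubgroup.comap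
      (locQ q)).index = Module.finrank ℚ_[(q : ℕ)]
        (IntermediateField.adjoin ℚ_[(q : ℕ)] {padicEmbedding (q : ℕ) (H414.zetaBar (p ^ j))}) :=
    KL.H824.index_comap_fixingSubgroup_adjoin (q : ℕ) (H414.zetaBar (p ^ j))
  show p ^ m ∣ ((IntermediateField.adjoin ℚ {H414.zetaBar (p ^ j)}).fixingSubgroup.comap
      (locQ q)).index
  rw [hidx]
  exact hj

omit [Fact p.Prime] in
/-- **AR-DEG.** -/
theorem decLeaf : DecLeaf S p := by
  rintro ⟨hp, -, hpS⟩ L m
  haveI : Fact p.Prime := ⟨hp⟩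
  have hpS' : pPrime p ∈ S := hpS
  choose j hj using fun q : Nat.Primes => exists_pow_dvd_index p q m
  refine ⟨E1.H603.levelSup L (cycLevel S p hpS' (S.sup j)), E1.H603.le_levelSup_left _ _,
    fun q hq => ?_⟩
  have hle : (E1.H603.levelSup L (cycLevel S p hpS' (S.sup j))).V q ≤
      (H414.cycloLevel (p ^ j q)).fixingSubgroup.comap (locQ q) := by
    apply Subgroup.comap_mono
    apply IntermediateField.fixingSubgroup_antitone
    exact (cycloLevel_mono p (Finset.le_sup hq)).trans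
      (le_sup_right : H414.cycloLevel (p ^ S.sup j) ≤ L.F ⊔ H414.cycloLevel (p ^ S.sup j))
  have h1 := Subgroup.index_dvd_of_le hle
  rw [← Subgroup.index_eq_card]
  exact (hj q).trans h1

omit [Fact p.Prime] in
/-- **AR-MU.** -/
theorem muDirLeaf : MuDirLeaf S p := by
  rintro ⟨hp, -, hpS⟩
  haveI : Fact p.Prime := ⟨hp⟩
  have hpS' : pPrime p ∈ S := hpS
  refine ⟨⟨cycLevel S p hpS' 1, H414.zetaBar (p ^ 1), H414.zetaBar_mem_cycloLevel (p ^ 1), ?_⟩,
    fun L L' => ⟨E1.H603.levelSup L L', E1.H603.le_levelSup_left _ _,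
      E1.H603.le_levelSup_right _ _⟩⟩
  have h := H414.zetaBar_spec (p ^ 1)
  exact Eq.mp (congrArg (IsPrimitiveRoot (H414.zetaBar (p ^ 1))) (pow_one p)) h

end Fermat.Agent.S55.K.AR.H181

end
end
-- ===== PACK-END S55/K/AR/DegMuH181.lean

-- ===== PACK-BEGIN S55/K/AR/SurjKerH939.lean
section
/-
S55 moonshot — LAYER K, block AR, leaves **AR-c** (`SurjJCLeaf`) and **AR-d** (`KerDivLeaf`).
helper939.  Blueprint: `coord/S55-K-AR.md` §2.

`surjJC : SurjJCLeaf S p`, `kerDiv : KerDivLeaf S p`.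
-/



set_option autoImplicit false

open CategoryTheory

namespace Fermat.Agent.S55.K.AR.H939

open Fermat.Agent.S55 Fermat.Agent.S55.Tow Fermat.Agent.S55.E1.Lim

noncomputable section

attribute [local instance 10000] Rep.hV2

/-! ## Cyclic bookkeeping -/

/-- An integer multiple of a torsion element is a natural multiple. -/
lemma exists_nsmul_of_zsmul {A : Type*} [AddCommGroup A] (r : A) (N : ℕ) (hN : 0 < N)
    (h : N • r = 0) (t : ℤ) : ∃ t' : ℕ, t • r = t' • r := by
  refine ⟨(t % N).toNat, ?_⟩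
  have hN' : (N : ℤ) ≠ 0 := by exact_mod_cast hN.ne'
  have h1 : ((t % N).toNat : ℤ) = t % N := Int.toNat_of_nonneg (Int.emod_nonneg _ hN')
  rw [← natCast_zsmul, h1]
  have h2 : t = t % N + (t / N) * N := by
    have := Int.emod_add_mul_ediv t N
    linarith [mul_comm (t / N) (N : ℤ)]
  conv_lhs => rw [h2]
  rw [add_zsmul, mul_smul, natCast_zsmul, h, zsmul_zero, add_zero]

/-- In the cyclic group generated by a torsion element `g`: if `r = m • g` has order divisible by
`P` and `y = n • g` is killed by `P`, then `y` is a multiple of `r`. -/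
lemma cyclic_span {A : Type*} [AddCommGroup A] (P : ℕ) (hP : 0 < P) (g : A) (M : ℕ)
    (hM : 0 < M) (hg : M • g = 0) (m n : ℕ)
    (hr : ∀ N : ℕ, N • (m • g) = 0 → P ∣ N) (hy : P • (n • g) = 0) :
    ∃ t : ℕ, n • g = t • (m • g) := by
  set o := addOrderOf g with ho
  have hoM : o ∣ M := addOrderOf_dvd_of_nsmul_eq_zero hg
  have ho0 : 0 < o := Nat.pos_of_dvd_of_pos hoM hM
  have hog : o • g = 0 := addOrderOf_nsmul_eq_zero g
  set d := Nat.gcd m o with hd
  have hdo : d ∣ o := Nat.gcd_dvd_right m o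
  have hdm : d ∣ m := Nat.gcd_dvd_left m o
  obtain ⟨N, hN⟩ := hdo
  obtain ⟨m', hm'⟩ := hdm
  have h1 : N • (m • g) = 0 := by
    rw [← mul_smul]
    have : N * m = m' * o := by
      rw [hm', hN]; ring
    rw [this, mul_smul, hog, smul_zero]
  obtain ⟨N', hN'⟩ := hr N h1
  have h2 : o ∣ P * n := by
    apply addOrderOf_dvd_of_nsmul_eq_zero
    rw [mul_smul]
    exact hy
  have h3 : d ∣ n := by
    have h4 : P * (N' * d) ∣ P * n := by
      have : P * (N' * d) = o := by rw [hN, hN']; ring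
      rw [this]; exact h2
    have h5 : N' * d ∣ n := Nat.dvd_of_mul_dvd_mul_left hP h4
    exact Dvd.dvd.trans (Dvd.intro_left N' rfl) h5
  obtain ⟨n', hn'⟩ := h3
  have hbez : (d : ℤ) = Nat.gcdA m o * m + Nat.gcdB m o * o := by
    rw [Nat.gcd_eq_gcd_ab m o]; ring
  have h6 : d • g = (Nat.gcdA m o) • (m • g) := by
    rw [← natCast_zsmul, hbez, add_zsmul, mul_smul, mul_smul, natCast_zsmul, natCast_zsmul, hog,
      smul_zero, add_zero]
  have hMr : M • (m • g) = 0 := by
    rw [smul_comm, hg, smul_zero]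
  obtain ⟨t, ht⟩ := exists_nsmul_of_zsmul (m • g) M hM hMr ((n' : ℤ) * Nat.gcdA m o)
  refine ⟨t, ?_⟩
  rw [← ht, hn', mul_comm d n', mul_smul, h6, mul_smul, natCast_zsmul]

/-! ## Restriction, coefficient maps, inflation -/

section General

variable {Γ Γ' : Type} [Group Γ] [Group Γ']

/-- Restriction `Hⁿ(Γ, A) → Hⁿ(H, A)`. -/
abbrev resH (H : Subgroup Γ) (A : Rep.{0} ℤ Γ) (n : ℕ) : groupCohomology A n →ₗ[ℤ] Hn H A n :=
  (T.resMap A H n).hom

/-- Restriction commutes with coefficient maps. -/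
lemma coe_resH (H : Subgroup Γ) {A B : Rep.{0} ℤ Γ} (f : A ⟶ B) (n : ℕ)
    (x : groupCohomology A n) :
    coe H f n (resH H A n x) = resH H B n ((T.coeffMap f n).hom x) := by
  have h := (groupCohomology.resNatTrans (k := ℤ) H.subtype n).naturality f
  have h' := congrArg (fun φ => φ.hom x) h
  exact h'.symm

/-- `coe` is functorial. -/
lemma coe_comp (H : Subgroup Γ) {A B C : Rep.{0} ℤ Γ} (f : A ⟶ B) (g : B ⟶ C) (n : ℕ)
    (x : Hn H A n) : coe H (f ≫ g) n x = coe H g n (coe H f n x) := by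
  have h : T.coeffMap ((Rep.resFunctor H.subtype).map (f ≫ g)) n =
      T.coeffMap ((Rep.resFunctor H.subtype).map f) n ≫
        T.coeffMap ((Rep.resFunctor H.subtype).map g) n := by
    rw [Functor.map_comp]
    exact groupCohomology.map_id_comp _ _ n
  exact congrArg (fun φ => φ.hom x) h

/-- Inflation commutes with coefficient maps (for commuting squares of coefficients). -/
lemma coe_infSub (π : Γ' →* Γ) (H : Subgroup Γ) {A B : Rep.{0} ℤ Γ} {A' B' : Rep.{0} ℤ Γ'}
    (f : A ⟶ B) (f' : A' ⟶ B') (t : Rep.res π A ⟶ A') (s : Rep.res π B ⟶ B')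
    (hsq : ∀ a : A.V, f'.hom (t.hom a) = s.hom (f.hom a)) (n : ℕ) (x : Hn H A n) :
    coe (H.comap π) f' n (infSub π H t n x) = infSub π H s n (coe H f n x) := by
  have h1 : groupCohomology.map (projSub π H) (semiSub π H t) n ≫
      T.coeffMap ((Rep.resFunctor (H.comap π).subtype).map f') n =
      groupCohomology.map ((projSub π H).comp (MonoidHom.id _))
        ((Rep.resFunctor (MonoidHom.id _)).map (semiSub π H t) ≫
          (Rep.resFunctor (H.comap π).subtype).map f') n :=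
    (groupCohomology.map_comp _ _ _ _ n).symm
  have h2 : T.coeffMap ((Rep.resFunctor H.subtype).map f) n ≫
      groupCohomology.map (projSub π H) (semiSub π H s) n =
      groupCohomology.map ((MonoidHom.id _).comp (projSub π H))
        ((Rep.resFunctor (projSub π H)).map ((Rep.resFunctor H.subtype).map f) ≫
          semiSub π H s) n :=
    (groupCohomology.map_comp _ _ _ _ n).symm
  have h3 : groupCohomology.map ((projSub π H).comp (MonoidHom.id _))
        ((Rep.resFunctor (MonoidHom.id _)).map (semiSub π H t) ≫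
          (Rep.resFunctor (H.comap π).subtype).map f') n =
      groupCohomology.map ((MonoidHom.id _).comp (projSub π H))
        ((Rep.resFunctor (projSub π H)).map ((Rep.resFunctor H.subtype).map f) ≫
          semiSub π H s) n := by
    refine groupCohomology.map_congr rfl ?_ n
    refine LinearMap.ext fun a => ?_
    exact hsq a
  have h := congrArg (fun φ => φ.hom x) (h1.trans (h3.trans h2.symm))
  exact h

/-- The order of the restriction of a class to a subgroup of index prime to `P`. -/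
lemma order_resH [Finite Γ] (H : Subgroup Γ) (A : Rep.{0} ℤ Γ) (P : ℕ)
    (hcop : Nat.Coprime H.index P) (κ : groupCohomology A 2)
    (hκ : ∀ n : ℕ, n • κ = 0 → P ∣ n) :
    ∀ n : ℕ, n • resH H A 2 κ = 0 → P ∣ n := by
  intro n hn
  have h1 : (T.resMap A H 2).hom (n • κ) = 0 := by
    have : resH H A 2 (n • κ) = n • resH H A 2 κ := map_nsmul _ _ _
    exact this.trans hn
  have h2 := T.H572.resIndex ℤ Γ A H 2 (by norm_num) (n • κ) h1
  rw [← mul_smul] at h2
  exact Nat.Coprime.dvd_of_dvd_mul_left hcop.symm (hκ _ h2)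

end General

/-! ## The tower -/

section Tower

variable {S : Finset Nat.Primes} {p : ℕ}

lemma proj_surjective {L L' : Level S} (h : L ≤ L') : Function.Surjective (Level.proj h) := by
  intro g
  induction g using QuotientGroup.induction_on with
  | H a => exact ⟨QuotientGroup.mk a, rfl⟩

lemma index_up {L L' : Level S} (h : L ≤ L') (H : Subgroup L.Gal) :
    (up h H).index = H.index :=
  Subgroup.index_comap_of_surjective H (proj_surjective h)

lemma inclJ_jTot (D : TowerDatum S) (L : Level S) (q : S) :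
    inclJ L q ≫ jTot D L = D.j L q.1 := by
  apply Rep.hom_ext
  apply DFunLike.ext
  intro x
  exact jTot_inclJ D L q x

/-- `jTot_* (inclJ_* (res v)) = res (j_* v)`. -/
lemma coe_jTot_inclJ_res (D : TowerDatum S) (L : Level S) (q : S) (H : Subgroup L.Gal)
    (v : groupCohomology (L.J q.1) 2) :
    coe H (jTot D L) 2 (coe H (inclJ L q) 2 (resH H (L.J q.1) 2 v)) =
      resH H (D.C L) 2 ((T.coeffMap (D.j L q.1) 2).hom v) := by
  rw [← coe_comp, inclJ_jTot, coe_resH]

/-- Common core of (c) and (d): a class of `H²(H', C(F'))` killed by `p^b` is `jTot_*` of a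
class of `H²(H', J(F'))` killed by `p^b`, as soon as `p^b` divides the local degree at `p`. -/
lemma exists_lift (c : _root_.Fermat.Agent.S55.K.AR.Ctx S p) (hcyc : H2CCyclic c) (hkap : Kappa c) (L : Level S)
    (hmu : L.HasMu p) (H : Subgroup L.Gal) (hcop : Nat.Coprime H.index p) (b : ℕ)
    (hdeg : ∀ q ∈ S, p ^ b ∣ Nat.card (L.Dec q)) (x : Hn H (c.D.C L) 2) (hx : p ^ b • x = 0) :
    ∃ y : Hn H (Jtot L) 2, p ^ b • y = 0 ∧ coe H (jTot c.D L) 2 y = x := by
  obtain ⟨hp, -, hpS⟩ := c.adm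
  obtain ⟨v, hv, hv'⟩ := hkap L hmu ⟨p, hp⟩ hpS b (hdeg _ hpS)
  have hPpos : 0 < p ^ b := pow_pos hp.pos b
  have hcop' : Nat.Coprime H.index (p ^ b) := Nat.Coprime.pow_right b hcop
  have hr := order_resH H (c.D.C L) (p ^ b) hcop' _ hv'
  obtain ⟨g, ⟨M, hM⟩, hgen⟩ := hcyc L hmu H
  have hrp : p ^ b • resH H (c.D.C L) 2 ((T.coeffMap (c.D.j L ⟨p, hp⟩) 2).hom v) = 0 := by
    rw [← map_nsmul, ← map_nsmul, hv, map_zero, map_zero]
  obtain ⟨m, hm⟩ := hgen _ ⟨b, hrp⟩
  obtain ⟨n, hn⟩ := hgen x ⟨b, hx⟩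
  obtain ⟨t, ht⟩ := cyclic_span (p ^ b) hPpos g (p ^ M) (pow_pos hp.pos M) hM m n
    (by rw [← hm]; exact hr) (by rw [← hn]; exact hx)
  refine ⟨coe H (inclJ L ⟨⟨p, hp⟩, hpS⟩) 2 (t • resH H (L.J ⟨p, hp⟩) 2 v), ?_, ?_⟩
  · rw [← map_nsmul, smul_comm, ← map_nsmul, hv, map_zero, smul_zero, map_zero]
  · rw [map_nsmul, map_nsmul, coe_jTot_inclJ_res c.D L ⟨⟨p, hp⟩, hpS⟩ H v, hn, ht, hm]

/-- Leaf **AR-c**. -/
theorem surjJC : SurjJCLeaf S p := by
  intro c hcyc hkap hdec L hmu H hcop x hx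
  obtain ⟨b, hb⟩ := hx
  obtain ⟨L', hLL', hdeg⟩ := hdec L b
  have hmu' : L'.HasMu p := hmu.mono hLL'
  have hcop' : Nat.Coprime (up hLL' H).index p := by rw [index_up]; exact hcop
  have hxinf : p ^ b • infUp hLL' H (c.D.tr hLL') 2 x = 0 := by
    rw [← map_nsmul, hb, map_zero]
  obtain ⟨y, -, hy⟩ := exists_lift c hcyc hkap L' hmu' (up hLL' H) hcop' b hdeg _ hxinf
  exact ⟨L', hLL', y, hy.symm⟩

/-- Leaf **AR-d**. -/
theorem kerDiv : KerDivLeaf S p := by
  intro c hcyc hkap hdec hdiv L hmu H hcop x hx hxj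
  obtain ⟨hp, -, hpS⟩ := c.adm
  obtain ⟨b, hb⟩ := hx
  -- `[G : H] ≤ p ^ c'`
  obtain ⟨c', hc'⟩ : ∃ c' : ℕ, H.index ≤ p ^ c' :=
    ⟨H.index, (Nat.lt_pow_self hp.one_lt).le⟩
  obtain ⟨L', hLL', hdeg⟩ := hdec L (b + 1 + c')
  have hmu' : L'.HasMu p := hmu.mono hLL'
  have hidx : (up hLL' H).index = H.index := index_up hLL' H
  have hcop' : Nat.Coprime (up hLL' H).index p := by rw [hidx]; exact hcop
  have hxinf : p ^ b • infUp hLL' H (trJtot hLL') 2 x = 0 := by
    rw [← map_nsmul, hb, map_zero]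
  obtain ⟨z, hz⟩ := hdiv L' (up hLL' H) b c' (by rw [hidx]; exact hc') hdeg _ hxinf
  -- `jTot_* z` is killed by `p`
  have hsq : ∀ a : (Jtot L).V,
      (jTot c.D L').hom ((trJtot hLL').hom a) = (c.D.tr hLL').hom ((jTot c.D L).hom a) :=
    fun a => (tr_jTot c.h7 hLL' a).symm
  have hjz : p ^ 1 • coe (up hLL' H) (jTot c.D L') 2 z = 0 := by
    rw [pow_one, ← map_nsmul, hz]
    have := coe_infSub (Level.proj hLL') H (jTot c.D L) (jTot c.D L') (trJtot hLL')
      (c.D.tr hLL') hsq 2 x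
    rw [this, hxj, map_zero]
  have hdeg1 : ∀ q ∈ S, p ^ 1 ∣ Nat.card (L'.Dec q) := fun q hq =>
    Dvd.dvd.trans (pow_dvd_pow p (by omega)) (hdeg q hq)
  obtain ⟨w, hw, hwj⟩ := exists_lift c hcyc hkap L' hmu' (up hLL' H) hcop' 1 hdeg1 _ hjz
  rw [pow_one] at hw
  refine ⟨L', hLL', z - w, ?_, ?_⟩
  · rw [smul_sub, hw, sub_zero, hz]
  · rw [map_sub, hwj, sub_self]

end Tower

end

end Fermat.Agent.S55.K.AR.H939

end
-- ===== PACK-END S55/K/AR/SurjKerH939.lean

-- ===== PACK-BEGIN S56/H419/H0Places.lean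
section




/-!
# S56 / W-BASE / leaf EUL-H0, part 4 (helper419): double cosets = places of the level field

`F/ℚ` a finite Galois level inside `ℚ̄`, `U = G_F = F.fixingSubgroup`, `resF : G_ℚ → Gal(F/ℚ)`.

* finite primes: `D_q = range (primeLocalToGlobal q)`;
  `primeOfDC q F : D_q\G_ℚ/U → Ideal (𝓞 F)`, `D_q g U ↦ (g|_F)⁻¹ • 𝔓₀`
  (`𝔓₀ = primeLevelPrime q F`, the prime below the Prelude's place `primeLocalPlace q`)
  is injective with range the set of primes of `𝓞 F` containing `q`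
  (`primeOfDC_injective`, `range_primeOfDC`), and right translation by `σ⁻¹` becomes the action
  of `σ|_F` on ideals (`primeOfDC_dcPerm`);
* infinite places: `⟨c⟩ = zpowers complexConjugation`;
  `placeOfDC F : ⟨c⟩\G_ℚ/U → InfinitePlace F` is bijective (`placeOfDC_bijective`) and
  equivariant (`placeOfDC_dcPerm`).
-/

set_option autoImplicit false
set_option linter.style.haveILetI false
set_option linter.unusedSectionVars false

noncomputable section

open scoped Pointwise NumberField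

namespace Fermat.Agent.S56.H419

open Fermat.Agent.S55.PT Fermat.Agent.S55.Bridge.H175 ExtCitation MulAction NumberField

attribute [local instance] Fermat.Agent.S55.Bridge.isAlgebraic_Qbar
  Fermat.Agent.S55.Bridge.isGalois_Qbar

section Res

variable (F : IntermediateField ℚ (AlgebraicClosure ℚ)) [Normal ℚ F]

/-- Restriction `G_ℚ → Gal(F/ℚ)`. -/
def resF : _root_.Fermat.Agent.S55.PT.GQ →* (F ≃ₐ[ℚ] F) :=
  AlgEquiv.restrictNormalHom (F := ℚ) (K₁ := AlgebraicClosure ℚ) F

theorem resF_apply_coe (σ : _root_.Fermat.Agent.S55.PT.GQ) (x : F) :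
    ((resF F σ x : F) : AlgebraicClosure ℚ) = σ (x : AlgebraicClosure ℚ) :=
  AlgEquiv.restrictNormal_commutes σ F x

theorem resF_surjective : Function.Surjective (resF F) :=
  AlgEquiv.restrictNormalHom_surjective (F := ℚ) (K₁ := F) (AlgebraicClosure ℚ)

theorem ker_resF : (resF F).ker = F.fixingSubgroup := by
  ext σ
  rw [MonoidHom.mem_ker, IntermediateField.mem_fixingSubgroup_iff]
  constructor
  · intro h x hx
    have := resF_apply_coe F σ ⟨x, hx⟩
    rw [h] at this
    exact this.symm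
  · intro h
    apply AlgEquiv.ext
    intro x
    apply Subtype.ext
    rw [resF_apply_coe]
    exact h x.1 x.2

instance fixingSubgroup_normal_of_normal : F.fixingSubgroup.Normal := by
  rw [← ker_resF F]
  infer_instance

instance fixingSubgroup_finiteIndex_of_finite [FiniteDimensional ℚ F] :
    F.fixingSubgroup.FiniteIndex := by
  rw [← ker_resF F]
  haveI : Finite (F ≃ₐ[ℚ] F) := inferInstance
  haveI : Finite ↥(resF F).range := inferInstance
  exact Subgroup.finiteIndex_ker (resF F)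

end Res

/-! ### finite primes -/

section Finite

variable (q : Nat.Primes) (F : IntermediateField ℚ (AlgebraicClosure ℚ)) [Normal ℚ F]

/-- The decomposition group `D_q ≤ G_ℚ` of the Prelude: the image of `primeLocalToGlobal q`. -/
abbrev Dq : Subgroup _root_.Fermat.Agent.S55.PT.GQ := (primeLocalToGlobal q).range

theorem map_Dq : (Dq q).map (resF F) = stabilizer (F ≃ₐ[ℚ] F) (primeLevelPrime q F) := by
  rw [Dq, MonoidHom.map_range]
  exact range_primeToLevel_eq_stabilizer q F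

/-- `D_q g U ↦ (g|_F)⁻¹ • 𝔓₀`. -/
def primeOfDC : DC (Dq q) F.fixingSubgroup → Ideal (𝓞 F) :=
  dcToOrbit (Dq q) F.fixingSubgroup (resF F) (ker_resF F) (primeLevelPrime q F) (map_Dq q F)

theorem primeOfDC_mk (g : _root_.Fermat.Agent.S55.PT.GQ) :
    primeOfDC q F (Quotient.mk (orbitRel (Dq q) (_root_.Fermat.Agent.S55.PT.GQ ⧸ F.fixingSubgroup))
      (g : _root_.Fermat.Agent.S55.PT.GQ ⧸ F.fixingSubgroup)) = (resF F g)⁻¹ • primeLevelPrime q F := rfl

/-- **Equivariance (finite primes).** -/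
theorem primeOfDC_dcPerm (σ : _root_.Fermat.Agent.S55.PT.GQ) (ω : DC (Dq q) F.fixingSubgroup) :
    primeOfDC q F (dcPerm (Dq q) F.fixingSubgroup σ ω) = resF F σ • primeOfDC q F ω :=
  dcToOrbit_dcPerm (Dq q) F.fixingSubgroup (resF F) (ker_resF F) (primeLevelPrime q F)
    (map_Dq q F) σ ω

theorem primeOfDC_injective : Function.Injective (primeOfDC q F) :=
  dcToOrbit_injective (Dq q) F.fixingSubgroup (resF F) (ker_resF F) (primeLevelPrime q F)
    (map_Dq q F)

theorem smul_natCast_ringOfIntegers (τ : F ≃ₐ[ℚ] F) (n : ℕ) : τ • (n : 𝓞 F) = (n : 𝓞 F) := by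
  apply RingOfIntegers.ext
  change τ ((n : 𝓞 F) : F) = ((n : 𝓞 F) : F)
  simp

theorem under_eq_span_of_natCast_mem {P : Ideal (𝓞 F)} (hP : P.IsPrime)
    (hq : ((q : ℕ) : 𝓞 F) ∈ P) : P.under ℤ = Ideal.span {((q : ℕ) : ℤ)} := by
  have hqp : Prime ((q : ℕ) : ℤ) := Nat.prime_iff_prime_int.1 q.2
  have hmax : (Ideal.span {((q : ℕ) : ℤ)}).IsMaximal :=
    PrincipalIdealRing.isMaximal_of_irreducible hqp.irreducible
  have hle : Ideal.span {((q : ℕ) : ℤ)} ≤ P.under ℤ := by
    rw [Ideal.span_singleton_le_iff_mem, Ideal.mem_comap]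
    simpa using hq
  have hne : P.under ℤ ≠ ⊤ := (Ideal.IsPrime.under ℤ P).ne_top
  exact (hmax.eq_of_le hne hle).symm

variable [FiniteDimensional ℚ F]

/-- The orbit of `𝔓₀` is the set of all primes of `𝓞 F` containing `q`. -/
theorem orbit_primeLevelPrime :
    orbit (F ≃ₐ[ℚ] F) (primeLevelPrime q F) =
      {P : Ideal (𝓞 F) | P.IsPrime ∧ ((q : ℕ) : 𝓞 F) ∈ P} := by
  haveI : NumberField F := ⟨⟩
  haveI : IsGalois ℚ F := ⟨⟩
  have h0 : (primeLevelPrime q F).IsPrime := primeLevelPrime_isPrime q F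
  ext P
  constructor
  · rintro ⟨τ, rfl⟩
    refine ⟨inferInstance, ?_⟩
    show ((q : ℕ) : 𝓞 F) ∈ τ • primeLevelPrime q F
    rw [← smul_natCast_ringOfIntegers F τ q]
    exact Ideal.smul_mem_pointwise_smul τ _ _ (natCast_mem_primeLevelPrime q F)
  · rintro ⟨hP, hq⟩
    have h1 := under_eq_span_of_natCast_mem q F h0 (natCast_mem_primeLevelPrime q F)
    have h2 := under_eq_span_of_natCast_mem q F hP hq
    obtain ⟨τ, hτ⟩ := Algebra.IsInvariant.exists_smul_of_under_eq ℤ (𝓞 F) (F ≃ₐ[ℚ] F)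
      (primeLevelPrime q F) P (h1.trans h2.symm)
    exact ⟨τ, hτ.symm⟩

/-- **Finite primes.** The range of `primeOfDC` is the set of primes of `𝓞 F` above `q`. -/
theorem range_primeOfDC :
    Set.range (primeOfDC q F) = {P : Ideal (𝓞 F) | P.IsPrime ∧ ((q : ℕ) : 𝓞 F) ∈ P} := by
  rw [← orbit_primeLevelPrime q F]
  exact range_dcToOrbit (Dq q) F.fixingSubgroup (resF F) (ker_resF F) (primeLevelPrime q F)
    (map_Dq q F) (resF_surjective F)

/-- `D_q\G_ℚ/G_F ≃ {primes of 𝓞 F above q}`. -/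
def primeDCEquiv :
    DC (Dq q) F.fixingSubgroup ≃ {P : Ideal (𝓞 F) // P.IsPrime ∧ ((q : ℕ) : 𝓞 F) ∈ P} :=
  Equiv.ofBijective
    (fun ω => ⟨primeOfDC q F ω, by
      have : primeOfDC q F ω ∈ Set.range (primeOfDC q F) := ⟨ω, rfl⟩
      rw [range_primeOfDC] at this
      exact this⟩)
    ⟨fun ω ω' h => primeOfDC_injective q F (congrArg Subtype.val h), fun P => by
      have hP : P.1 ∈ Set.range (primeOfDC q F) := by
        rw [range_primeOfDC]
        exact P.2
      obtain ⟨ω, hω⟩ := hP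
      exact ⟨ω, Subtype.ext hω⟩⟩

@[simp] theorem coe_primeDCEquiv (ω : DC (Dq q) F.fixingSubgroup) :
    (primeDCEquiv q F ω : Ideal (𝓞 F)) = primeOfDC q F ω := rfl

end Finite

/-! ### infinite places -/

section Infinite

variable (F : IntermediateField ℚ (AlgebraicClosure ℚ)) [Normal ℚ F]

/-- The base embedding `F ⊂ ℚ̄ → ℂ`. -/
def baseEmb : F →+* ℂ :=
  (complexEmbedding : AlgebraicClosure ℚ →+* ℂ).comp (algebraMap F (AlgebraicClosure ℚ))

theorem baseEmb_apply (x : F) : baseEmb F x = complexEmbedding (x : AlgebraicClosure ℚ) := rfl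

/-- The base infinite place of `F`. -/
def basePlace : InfinitePlace F := InfinitePlace.mk (baseEmb F)

/-- The decomposition group at infinity. -/
abbrev Dinf : Subgroup _root_.Fermat.Agent.S55.PT.GQ := Subgroup.zpowers complexConjugation

theorem isConj_baseEmb : ComplexEmbedding.IsConj (baseEmb F) (resF F complexConjugation) := by
  apply RingHom.ext
  intro x
  show (starRingEnd ℂ) (baseEmb F x) = baseEmb F (resF F complexConjugation x)
  rw [baseEmb_apply, baseEmb_apply, resF_apply_coe, complexEmbedding_complexConjugation]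

theorem resF_cc_mul_self :
    resF F complexConjugation * resF F complexConjugation = 1 := by
  rw [← map_mul, complexConjugation_mul_self, map_one]

theorem map_Dinf : Dinf.map (resF F) = stabilizer (F ≃ₐ[ℚ] F) (basePlace F) := by
  rw [Dinf, MonoidHom.map_zpowers]
  ext τ
  rw [basePlace, InfinitePlace.mem_stabilizer_mk_iff]
  constructor
  · intro h
    obtain ⟨n, rfl⟩ := Subgroup.mem_zpowers_iff.1 h
    rcases Int.even_or_odd n with ⟨m, rfl⟩ | ⟨m, rfl⟩
    · left
      rw [← two_mul, zpow_mul, zpow_two, resF_cc_mul_self, one_zpow]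
    · right
      rw [zpow_add, zpow_mul, zpow_two, resF_cc_mul_self, one_zpow, one_mul, zpow_one]
      exact isConj_baseEmb F
  · rintro (rfl | h)
    · exact one_mem _
    · rw [ComplexEmbedding.IsConj.ext h (isConj_baseEmb F)]
      exact Subgroup.mem_zpowers _

/-- `⟨c⟩ g U ↦ (g|_F)⁻¹ • w₀`. -/
def placeOfDC : DC Dinf F.fixingSubgroup → InfinitePlace F :=
  dcToOrbit Dinf F.fixingSubgroup (resF F) (ker_resF F) (basePlace F) (map_Dinf F)

theorem placeOfDC_mk (g : _root_.Fermat.Agent.S55.PT.GQ) :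
    placeOfDC F (Quotient.mk (orbitRel Dinf (_root_.Fermat.Agent.S55.PT.GQ ⧸ F.fixingSubgroup))
      (g : _root_.Fermat.Agent.S55.PT.GQ ⧸ F.fixingSubgroup)) = (resF F g)⁻¹ • basePlace F := rfl

/-- **Equivariance (infinite places).** -/
theorem placeOfDC_dcPerm (σ : _root_.Fermat.Agent.S55.PT.GQ) (ω : DC Dinf F.fixingSubgroup) :
    placeOfDC F (dcPerm Dinf F.fixingSubgroup σ ω) = resF F σ • placeOfDC F ω :=
  dcToOrbit_dcPerm Dinf F.fixingSubgroup (resF F) (ker_resF F) (basePlace F) (map_Dinf F) σ ω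

theorem placeOfDC_injective : Function.Injective (placeOfDC F) :=
  dcToOrbit_injective Dinf F.fixingSubgroup (resF F) (ker_resF F) (basePlace F) (map_Dinf F)

variable [FiniteDimensional ℚ F]

theorem orbit_basePlace : orbit (F ≃ₐ[ℚ] F) (basePlace F) = Set.univ := by
  haveI : IsGalois ℚ F := ⟨⟩
  ext w
  simp only [Set.mem_univ, iff_true]
  obtain ⟨τ, hτ⟩ := InfinitePlace.exists_smul_eq_of_comap_eq (k := ℚ) (w := basePlace F) (w' := w)
    (Subsingleton.elim _ _)
  exact ⟨τ, hτ⟩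

theorem placeOfDC_surjective : Function.Surjective (placeOfDC F) := by
  intro w
  have h : w ∈ Set.range (placeOfDC F) := by
    rw [placeOfDC, range_dcToOrbit Dinf F.fixingSubgroup (resF F) (ker_resF F) (basePlace F)
      (map_Dinf F) (resF_surjective F), orbit_basePlace]
    exact Set.mem_univ w
  exact h

/-- **Infinite places.** `⟨c⟩\G_ℚ/G_F ≃ InfinitePlace F`. -/
theorem placeOfDC_bijective : Function.Bijective (placeOfDC F) :=
  ⟨placeOfDC_injective F, placeOfDC_surjective F⟩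

/-- `⟨c⟩\G_ℚ/G_F ≃ InfinitePlace F`. -/
def placeDCEquiv : DC Dinf F.fixingSubgroup ≃ InfinitePlace F :=
  Equiv.ofBijective (placeOfDC F) (placeOfDC_bijective F)

@[simp] theorem placeDCEquiv_apply (ω : DC Dinf F.fixingSubgroup) :
    placeDCEquiv F ω = placeOfDC F ω := rfl

end Infinite

end Fermat.Agent.S56.H419

end

end
-- ===== PACK-END S56/H419/H0Places.lean

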