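import Fermat.Agent.Pack.S56.E16L0
import Fermat.Agent.Pack.S56.E18L0
import Fermat.Agent.Pack.S56.E17L3
import Fermat.Agent.Pack.S56.E17L0
import Fermat.Agent.Pack.S56.E18L1
import Fermat.Agent.Pack.S56.E12L0
import Fermat.Agent.Pack.S56.E2L2
import Fermat.Agent.Pack.S56.E18L3
import Fermat.Agent.Pack.S56.E18L2
import Fermat.Agent.Pack.S56.E8L1
import Fermat.Agent.Pack.S56.E15L2
import Fermat.Agent.Pack.S56.E11L0
import Fermat.Agent.Pack.S56.E4L0
import Fermat.Agent.Pack.S56.E15L0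
import Fermat.Agent.Pack.S56.E11L3
import Fermat.Agent.Pack.S56.E13L2
import Fermat.Agent.Pack.S56.E0L0

-- ===== PACK-BEGIN S56/RQ/SpecSub.lean
section



/-!
# Row S56 — REC-Q-SUB (route C of helper716): statements (sub-architect helper554)

Target of route C: `H716.RecQSubStatement` (= REC-Q with `Smin` replaced by any `S'`,
`Smin ⊆ S' ⊆ S`).  SAME leaves as `RQ/Spec.lean`, except

* `GlobZSubStatement` (GLOBZ-SUB) replaces `GlobZStatement`: the same statement with `S'` instead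
  of `Smin` (`c` unramified outside `S' ∪ Q`, `y` unramified outside `S'`); same proof.
* `PlainRecipGStatement` (RECIP-G) replaces `PlainRecipStatement`: the invariants are only
  needed on GLOBAL 2-cocycles (`IsGlobZ p Sg z`), because the glue applies them to `c ∪ y` with
  `c`, `y` global.  This is exactly helper14's `H14.invRec` (on main), so
  `RECIP-G ⇐ S55.PT.InvSpec` by a short adapter (`RQ/RecipH554.lean`).

`recQSub_of : RECIP-G → FRAME → LINE → NONDEG → URCUP → LOCTRIV → COBCUP → CONJ → GLOBZ-SUB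
    → H716.RecQSubStatement`   (`RQ/GlueSub.lean`).
-/

set_option autoImplicit false

open Polynomial IsLocalRing

noncomputable section

namespace Fermat.Agent.S56.RQ

open Fermat.Agent.S56 Fermat.Agent.S56.H716

/-- The reciprocity package for `k(1)` and the finite set of primes `Sg`, on GLOBAL 2-cocycles
only. -/
def PlainRecipG (k : Type) [Field k] (p : ℕ) (Sg : Finset ℕ) : Prop :=
  ∃ (Pv : ℕ → ValuationSubring Qb) (inv : ℕ → (GQ × GQ → k) → k),
    (∀ v ∈ Sg, (Pv v).LiesOverPrime v) ∧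
    (∀ v ∈ Sg, ∀ z z' : GQ × GQ → k, IsGlobZ p Sg z → IsGlobZ p Sg z' →
      inv v (z + z') = inv v z + inv v z') ∧
    (∀ v ∈ Sg, ∀ (r : k) (z : GQ × GQ → k), IsGlobZ p Sg z → inv v (r • z) = r * inv v z) ∧
    (∀ v ∈ Sg, ∀ z : GQ × GQ → k, IsGlobZ p Sg z →
      IsCob₂On p ((Pv v).decompositionSubgroup ℚ) z → inv v z = 0) ∧
    (∀ v ∈ Sg, v ≠ p → p ∣ v - 1 → ∀ z : GQ × GQ → k, IsGlobZ p Sg z → inv v z = 0 →
      IsCob₂On p ((Pv v).decompositionSubgroup ℚ) z) ∧
    (∀ z : GQ × GQ → k, IsGlobZ p Sg z → ∑ v ∈ Sg, inv v z = 0)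

/-- (RECIP-G): the plain reciprocity package on global 2-cocycles, for every finite field of
characteristic `p ≠ 2` and every finite set of primes containing `p`. -/
def PlainRecipGStatement : Prop :=
  ∀ (k : Type) [Field k] [Finite k] (p : ℕ) [CharP k p], p.Prime → p ≠ 2 →
    ∀ Sg : Finset ℕ, p ∈ Sg → (∀ v ∈ Sg, v.Prime) → PlainRecipG k p Sg

/-- (GLOBZ-SUB): for `Smin ⊆ S' ⊆ S`, the cup product of an ad-cocycle unramified outside
`S' ∪ Q` and a twisted cocycle unramified outside `S'` is a global 2-cocycle of `k(1)`,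
level-constant for a finite level unramified outside `S' ∪ Q`. -/
def GlobZSubStatement : Prop :=
  ∀ (𝒪 : Type) [CommRing 𝒪] [IsDomain 𝒪] [IsDiscreteValuationRing 𝒪]
    [IsAdicComplete (maximalIdeal 𝒪) 𝒪] [Finite (ResidueField 𝒪)]
    (p : ℕ) (ρbar : ResidualGaloisRep (ResidueField 𝒪)) (S Smin : Finset ℕ),
    Hyp 𝒪 p ρbar S Smin → ∀ S' : Finset ℕ, Smin ⊆ S' → S' ⊆ S →
    ∀ Q : Finset ℕ, (∀ q ∈ Q, IsTWPrime ρbar p S q) →
    ∀ c y : GQ → Module.End (ResidueField 𝒪) ρbar.V, IsAdCocycle ρbar c →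
      (∀ q : ℕ, q.Prime → q ∉ S' ∪ Q → UnramAt ρbar c q) →
      IsTwCocycle ρbar p y → (∀ q : ℕ, q.Prime → q ∉ S' → UnramAt ρbar y q) →
      IsGlobZ p (S' ∪ Q) (cup ρbar c y)

/-- GLOBZ is the case `S' = Smin` of GLOBZ-SUB. -/
theorem globZ_of_sub (h : GlobZSubStatement) : GlobZStatement :=
  fun 𝒪 _ _ _ _ _ p ρbar S Smin hyp Q hQ c y hc hcur hy hyur =>
    h 𝒪 p ρbar S Smin hyp Smin (Finset.Subset.refl _) hyp.hSmin Q hQ c y hc hcur hy hyur

end Fermat.Agent.S56.RQ

end

end
-- ===== PACK-END S56/RQ/SpecSub.lean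

-- ===== PACK-BEGIN S56/RQ/GlueSub.lean
section



/-!
# Row S56 — REC-Q-SUB: glue `REC-Q-SUB ⇐ leaves` (sub-architect helper554)

`recQSub_of : RECIP-G → FRAME → LINE → NONDEG → URCUP → LOCTRIV → COBCUP → CONJ → GLOBZ-SUB
    → H716.RecQSubStatement`.

Same proof as `RQ/Glue.lean` (`recQ_of`), with `Smin` replaced by `S'` (`Smin ⊆ S' ⊆ S`) and with
invariants which are only defined (additive, homogeneous, …) on GLOBAL 2-cocycles.
-/

set_option autoImplicit false

open Polynomial IsLocalRing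

noncomputable section

namespace Fermat.Agent.S56.RQ

open Fermat.Agent.S56 Fermat.Agent.S56.H716

section Local

variable (𝒪 : Type) [CommRing 𝒪] [IsDomain 𝒪] [IsDiscreteValuationRing 𝒪]
  [IsAdicComplete (maximalIdeal 𝒪) 𝒪] [Finite (ResidueField 𝒪)]
  (p : ℕ) (ρbar : ResidualGaloisRep (ResidueField 𝒪)) (S Smin : Finset ℕ)

/-- **Local structure of the pairing at a Taylor–Wiles prime** (version for `S'`, invariants on
global 2-cocycles). -/
theorem exists_local_forms_sub (hF : FrameStatement) (hL : LineStatement)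
    (hN : NondegStatement) (hU : UrCupStatement) (hT : LocTrivTwStatement)
    (hC : CobCupStatement) (hJ : ConjStatement) (hG : GlobZSubStatement)
    (hyp : Hyp 𝒪 p ρbar S Smin) (S' : Finset ℕ) (hSS' : Smin ⊆ S') (hS'S : S' ⊆ S)
    (Pl : ℕ → ValuationSubring Qb)
    (D : Submodule (ResidueField 𝒪) (GQ → Module.End (ResidueField 𝒪) ρbar.V))
    (hD : IsDualFrame ρbar p D)
    (hDur : ∀ y ∈ D, ∀ q : ℕ, q.Prime → q ∉ S' → UnramAt ρbar y q)
    (Q : Finset ℕ) (hQ : ∀ q ∈ Q, IsTWPrime ρbar p S q) (q : ℕ) (hq : q ∈ Q)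
    (P : ValuationSubring Qb) (hP : P.LiesOverPrime q)
    (inv : (GQ × GQ → ResidueField 𝒪) → ResidueField 𝒪)
    (hadd : ∀ z z' : GQ × GQ → ResidueField 𝒪, IsGlobZ p (S' ∪ Q) z → IsGlobZ p (S' ∪ Q) z' →
      inv (z + z') = inv z + inv z')
    (hsmul : ∀ (r : ResidueField 𝒪) (z : GQ × GQ → ResidueField 𝒪), IsGlobZ p (S' ∪ Q) z →
      inv (r • z) = r * inv z)
    (hcob : ∀ z : GQ × GQ → ResidueField 𝒪, IsGlobZ p (S' ∪ Q) z →
      IsCob₂On p (P.decompositionSubgroup ℚ) z → inv z = 0)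
    (hinj : ∀ z : GQ × GQ → ResidueField 𝒪, IsGlobZ p (S' ∪ Q) z → inv z = 0 →
      IsCob₂On p (P.decompositionSubgroup ℚ) z) :
    ∃ (a : ↥(selSub ρbar Pl S' Q) →ₗ[ResidueField 𝒪] ResidueField 𝒪)
      (b : ↥D →ₗ[ResidueField 𝒪] ResidueField 𝒪),
      (∀ c : ↥(selSub ρbar Pl S' Q), a c = 0 →
        UnramAt ρbar (c : GQ → Module.End (ResidueField 𝒪) ρbar.V) q) ∧
      (∀ y : ↥D, b y = 0 →
        LocTrivAt ρbar p q (y : GQ → Module.End (ResidueField 𝒪) ρbar.V)) ∧
      ∀ (c : ↥(selSub ρbar Pl S' Q)) (y : ↥D),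
        inv (cup ρbar (c : GQ → Module.End (ResidueField 𝒪) ρbar.V) y) = a c * b y := by
  classical
  have hp := hyp.hp
  have : CharP (ResidueField 𝒪) p := H536.charP_residueField 𝒪 p hyp.hp hyp.hp𝒪
  have hTW := hQ q hq
  obtain ⟨hqP, hqS, -, -⟩ := hQ q hq
  have hqS' : q ∉ S' := fun h => hqS (hS'S h)
  have hqSmin : q ∉ Smin := fun h => hqS' (hSS' h)
  have hqp : q ≠ p := fun h => hqSmin (h ▸ hyp.hpSmin)
  have hur : ρbar.IsUnramifiedAt q := by
    by_contra h
    exact hqSmin ((hyp.hmin q hqP hqp).mpr h)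
  -- a Frobenius element at `P`
  obtain ⟨A, φ₀, hA, hφ₀⟩ := Fermat.Agent.S54.exists_frobenius q hqP
  obtain ⟨g, hg⟩ := Fermat.Agent.Lib.Cheb.H476.exists_smul_eq hqP hA hP
  have hφ : P.IsFrobeniusAt (g * φ₀ * g⁻¹) q := by
    have := Fermat.Agent.Lib.Cheb.H476.isFrobeniusAt_conj g hφ₀
    rwa [hg] at this
  generalize g * φ₀ * g⁻¹ = φ at hφ
  obtain ⟨τ, hτ, hgen⟩ := hF 𝒪 p ρbar S Smin hyp q hTW P hP
  obtain ⟨h, -, hh2, -, hline, hdec⟩ := hL 𝒪 p ρbar S Smin hyp q hTW P hP φ hφ
  set X := selSub ρbar Pl S' Q with hX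
  set t : ResidueField 𝒪 := LinearMap.trace (ResidueField 𝒪) ρbar.V (h * h) with ht
  let a₀ : ↥X →ₗ[ResidueField 𝒪] ResidueField 𝒪 := t⁻¹ • trEval ρbar X h τ
  let b₀ : ↥D →ₗ[ResidueField 𝒪] ResidueField 𝒪 := trEval ρbar D h φ
  have ha₀ : ∀ c : ↥X, a₀ c = t⁻¹ * LinearMap.trace (ResidueField 𝒪) ρbar.V
      (h * (c : GQ → Module.End (ResidueField 𝒪) ρbar.V) τ) := fun c => rfl
  have hb₀ : ∀ y : ↥D, b₀ y = LinearMap.trace (ResidueField 𝒪) ρbar.V
      (h * (y : GQ → Module.End (ResidueField 𝒪) ρbar.V) φ) := fun y => rfl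
  have hcX : ∀ c : ↥X, IsSelCocycle ρbar Pl (fun _ => ⊥) S' Q
      (c : GQ → Module.End (ResidueField 𝒪) ρbar.V) := fun c => c.2
  have hcτ : ∀ c : ↥X, (c : GQ → Module.End (ResidueField 𝒪) ρbar.V) τ = a₀ c • h := by
    intro c
    obtain ⟨r, hr⟩ := hline c (hcX c).cocycle τ hτ
    rw [ha₀, hr, mul_smul_comm, map_smul, smul_eq_mul, ← ht, mul_comm r t, ← mul_assoc,
      inv_mul_cancel₀ hh2, one_mul]
  have htr : ∀ (c : ↥X) (y : ↥D), LinearMap.trace (ResidueField 𝒪) ρbar.V
      ((c : GQ → Module.End (ResidueField 𝒪) ρbar.V) τ *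
        (y : GQ → Module.End (ResidueField 𝒪) ρbar.V) φ) = a₀ c * b₀ y := by
    intro c y
    rw [hcτ c, smul_mul_assoc, map_smul, smul_eq_mul, hb₀]
  have hyI : ∀ y : ↥D, ∀ σ ∈ P.inertiaSubgroupIn ℚ,
      (y : GQ → Module.End (ResidueField 𝒪) ρbar.V) σ = 0 :=
    fun y σ hσ => hDur y y.2 q hqP hqS' P hP σ hσ
  have hyc : ∀ y : ↥D, IsTwCocycle ρbar p (y : GQ → Module.End (ResidueField 𝒪) ρbar.V) :=
    fun y => hD.isTwCocycle y y.2
  have hZ : ∀ (c : ↥X) (y : ↥D), IsGlobZ p (S' ∪ Q)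
      (cup ρbar (c : GQ → Module.End (ResidueField 𝒪) ρbar.V) y) := fun c y =>
    hG 𝒪 p ρbar S Smin hyp S' hSS' hS'S Q hQ c y (hcX c).cocycle (hcX c).unram (hyc y)
      (hDur y y.2)
  have hunr : ∀ c : ↥X, a₀ c = 0 → ∀ σ ∈ P.inertiaSubgroupIn ℚ,
      (c : GQ → Module.End (ResidueField 𝒪) ρbar.V) σ = 0 := by
    intro c hc
    refine hgen c (hcX c).cocycle ?_
    rw [hcτ c, hc, zero_smul]
  have hloc : ∀ y : ↥D, b₀ y = 0 → ∃ m, IsTwCoboundaryOn ρbar p (P.decompositionSubgroup ℚ)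
      (y : GQ → Module.End (ResidueField 𝒪) ρbar.V) m := by
    intro y hy
    obtain ⟨m, hm0, hm⟩ := hdec ((y : GQ → Module.End (ResidueField 𝒪) ρbar.V) φ)
      ((hyc y).trace_eq_zero φ) (by rw [← hb₀]; exact hy)
    exact ⟨m, hT 𝒪 p ρbar S Smin hyp q hTW P hP φ hφ y (hyc y) (hyI y) m hm0 hm⟩
  let J : ↥X →ₗ[ResidueField 𝒪] ↥D →ₗ[ResidueField 𝒪] ResidueField 𝒪 :=
    LinearMap.mk₂ (ResidueField 𝒪)
      (fun c y => inv (cup ρbar (c : GQ → Module.End (ResidueField 𝒪) ρbar.V) y))
      (fun c c' y => by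
        simp only [Submodule.coe_add, cup_add_left]
        exact hadd _ _ (hZ c y) (hZ c' y))
      (fun r c y => by
        simp only [Submodule.coe_smul, cup_smul_left, smul_eq_mul]
        exact hsmul r _ (hZ c y))
      (fun c y y' => by
        simp only [Submodule.coe_add, cup_add_right]
        exact hadd _ _ (hZ c y) (hZ c y'))
      (fun r c y => by
        simp only [Submodule.coe_smul, cup_smul_right, smul_eq_mul]
        exact hsmul r _ (hZ c y))
  have hJapply : ∀ (c : ↥X) (y : ↥D),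
      J c y = inv (cup ρbar (c : GQ → Module.End (ResidueField 𝒪) ρbar.V) y) := fun _ _ => rfl
  have h1 : ∀ (c : ↥X) (y : ↥D), a₀ c = 0 → J c y = 0 := by
    intro c y hc
    rw [hJapply]
    exact hcob _ (hZ c y) (hU 𝒪 p ρbar S Smin hyp q hTW P hP c y (hcX c).cocycle (hyc y)
      (hunr c hc) (hyI y))
  have h2 : ∀ (c : ↥X) (y : ↥D), b₀ y = 0 → J c y = 0 := by
    intro c y hy
    rw [hJapply]
    exact hcob _ (hZ c y) ((hC (ResidueField 𝒪) p hp ρbar (P.decompositionSubgroup ℚ) c y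
      (hcX c).cocycle (hyc y)).2 (hloc y hy))
  have h3 : ∀ (c : ↥X) (y : ↥D), J c y = 0 → a₀ c * b₀ y = 0 := by
    intro c y hJ0
    rw [hJapply] at hJ0
    have hcob' := hinj _ (hZ c y) hJ0
    rw [← htr]
    exact hN 𝒪 p ρbar S Smin hyp q hTW P hP φ hφ τ hτ c y (hcX c).cocycle (hyc y) (hyI y) hcob'
  obtain ⟨w, hw, hJw⟩ := pairing_rank_one J a₀ b₀ h1 h2 h3
  refine ⟨a₀, w • b₀, fun c hc P' hP' σ hσ => ?_, fun y hy => ?_, fun c y => ?_⟩
  · exact (hJ (ResidueField 𝒪) ρbar q hqP P P' hP hP' c (hcX c).cocycle).1 hur (hunr c hc) σ hσ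
  · rw [LinearMap.smul_apply, smul_eq_mul] at hy
    have hy' : b₀ y = 0 := (mul_eq_zero.1 hy).resolve_left hw
    obtain ⟨m, hm⟩ := hloc y hy'
    exact ⟨P, hP, m, hm⟩
  · have := hJw c y
    rw [hJapply] at this
    rw [this]
    show w * (a₀ c * b₀ y) = a₀ c * (w * b₀ y)
    ring

end Local

section Global

variable (𝒪 : Type) [CommRing 𝒪] [IsDomain 𝒪] [IsDiscreteValuationRing 𝒪]
  [IsAdicComplete (maximalIdeal 𝒪) 𝒪] [Finite (ResidueField 𝒪)]
  (p : ℕ) (ρbar : ResidualGaloisRep (ResidueField 𝒪)) (S Smin : Finset ℕ)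

/-- **Glue** `REC-Q(S, S') ⇐ leaves`, for one residual representation and `Smin ⊆ S' ⊆ S`. -/
theorem recQSub_of_leaves (hR : PlainRecipGStatement) (hF : FrameStatement)
    (hL : LineStatement) (hN : NondegStatement) (hU : UrCupStatement)
    (hT : LocTrivTwStatement) (hC : CobCupStatement) (hJ : ConjStatement)
    (hG : GlobZSubStatement) (hyp : Hyp 𝒪 p ρbar S Smin) (S' : Finset ℕ) (hSS' : Smin ⊆ S')
    (hS'S : S' ⊆ S) : RecQ 𝒪 p ρbar S S' := by
  classical
  intro Pl hPl D hD hDur Q hQ hK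
  have hp := hyp.hp
  have hchar : CharP (ResidueField 𝒪) p := H536.charP_residueField 𝒪 p hyp.hp hyp.hp𝒪
  have hpSg : p ∈ S' ∪ Q := Finset.mem_union_left _ (hSS' hyp.hpSmin)
  have hSgprime : ∀ v ∈ S' ∪ Q, v.Prime := by
    intro v hv
    rcases Finset.mem_union.1 hv with h | h
    · exact hyp.hS v (hS'S h)
    · exact (hQ v h).1
  have hdisj : Disjoint S' Q := by
    rw [Finset.disjoint_left]
    intro v hv hvQ
    exact (hQ v hvQ).2.1 (hS'S hv)
  obtain ⟨Pv, inv, hPv, hadd, hsmul, hcob, hinj, hrec⟩ :=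
    hR (ResidueField 𝒪) p hp hyp.hp2 (S' ∪ Q) hpSg hSgprime
  set X := selSub ρbar Pl S' Q with hX
  have hcX : ∀ c : ↥X, IsSelCocycle ρbar Pl (fun _ => ⊥) S' Q
      (c : GQ → Module.End (ResidueField 𝒪) ρbar.V) := fun c => c.2
  have hyc : ∀ y : ↥D, IsTwCocycle ρbar p (y : GQ → Module.End (ResidueField 𝒪) ρbar.V) :=
    fun y => hD.isTwCocycle y y.2
  have hZ : ∀ (c : ↥X) (y : ↥D), IsGlobZ p (S' ∪ Q)
      (cup ρbar (c : GQ → Module.End (ResidueField 𝒪) ρbar.V) y) := fun c y =>
    hG 𝒪 p ρbar S Smin hyp S' hSS' hS'S Q hQ c y (hcX c).cocycle (hcX c).unram (hyc y)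
      (hDur y y.2)
  have hqp : ∀ q ∈ Q, q ≠ p := fun q hq h =>
    (hQ q hq).2.1 (hS'S (hSS' (h ▸ hyp.hpSmin)))
  -- the local forms
  have hloc : ∀ q ∈ Q, ∃ (a : ↥X →ₗ[ResidueField 𝒪] ResidueField 𝒪)
      (b : ↥D →ₗ[ResidueField 𝒪] ResidueField 𝒪),
      (∀ c : ↥X, a c = 0 →
        UnramAt ρbar (c : GQ → Module.End (ResidueField 𝒪) ρbar.V) q) ∧
      (∀ y : ↥D, b y = 0 →
        LocTrivAt ρbar p q (y : GQ → Module.End (ResidueField 𝒪) ρbar.V)) ∧
      ∀ (c : ↥X) (y : ↥D),
        inv q (cup ρbar (c : GQ → Module.End (ResidueField 𝒪) ρbar.V) y) = a c * b y :=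
    fun q hq => exists_local_forms_sub 𝒪 p ρbar S Smin hF hL hN hU hT hC hJ hG hyp S' hSS' hS'S
      Pl D hD hDur Q hQ q hq (Pv q) (hPv q (Finset.mem_union_right _ hq)) (inv q)
      (hadd q (Finset.mem_union_right _ hq)) (hsmul q (Finset.mem_union_right _ hq))
      (hcob q (Finset.mem_union_right _ hq))
      (hinj q (Finset.mem_union_right _ hq) (hqp q hq) (hQ q hq).2.2.1)
  choose! a b ha hb hab using hloc
  -- reciprocity
  have hsum : ∀ (c : ↥X) (y : ↥D), ∑ q ∈ Q, a q c * b q y = 0 := by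
    intro c y
    have h1 := hrec _ (hZ c y)
    rw [Finset.sum_union hdisj] at h1
    have h2 : ∑ v ∈ S', inv v (cup ρbar (c : GQ → Module.End (ResidueField 𝒪) ρbar.V) y)
        = 0 := by
      refine Finset.sum_eq_zero fun v hv => ?_
      obtain ⟨t, ht, hct⟩ := (hcX c).loc v hv
      rw [(Submodule.mem_bot _).1 ht, sub_zero] at hct
      have h3 := (hJ (ResidueField 𝒪) ρbar v (hyp.hS v (hS'S hv)) (Pl v) (Pv v) (hPl v hv)
        (hPv v (Finset.mem_union_left _ hv)) c (hcX c).cocycle).2 hct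
      exact hcob v (Finset.mem_union_left _ hv) _ (hZ c y)
        ((hC (ResidueField 𝒪) p hp ρbar _ c y (hcX c).cocycle (hyc y)).1 h3)
    rw [h2, zero_add] at h1
    rw [← h1]
    exact Finset.sum_congr rfl fun q hq => (hab q hq c y).symm
  -- linear algebra
  let A : ↥X →ₗ[ResidueField 𝒪] (↥Q → ResidueField 𝒪) := LinearMap.pi fun q => a q.1
  let lam : ↥D →ₗ[ResidueField 𝒪] Module.Dual (ResidueField 𝒪) (↥Q → ResidueField 𝒪) :=
    ∑ q : ↥Q, (b q.1).smulRight
      (LinearMap.proj q : (↥Q → ResidueField 𝒪) →ₗ[ResidueField 𝒪] ResidueField 𝒪)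
  have hlam_apply : ∀ (y : ↥D) (t : ↥Q → ResidueField 𝒪), lam y t = ∑ q : ↥Q, b q.1 y * t q := by
    intro y t
    simp only [lam, LinearMap.sum_apply, LinearMap.smulRight_apply, LinearMap.smul_apply,
      LinearMap.proj_apply, smul_eq_mul]
  have hlam : Function.Injective lam := by
    refine (injective_iff_map_eq_zero lam).2 fun y hy => ?_
    have hb0 : ∀ q ∈ Q, b q y = 0 := by
      intro q hq
      have h1 := hlam_apply y (Pi.single (⟨q, hq⟩ : ↥Q) 1)
      rw [hy, LinearMap.zero_apply, Finset.sum_eq_single (⟨q, hq⟩ : ↥Q)] at h1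
      · rw [Pi.single_eq_same, mul_one] at h1
        exact h1.symm
      · intro q' _ hne
        rw [Pi.single_eq_of_ne hne, mul_zero]
      · intro h
        exact absurd (Finset.mem_univ _) h
    have h0 := hK y y.2 fun q hq => hb q hq y (hb0 q hq)
    exact Subtype.ext h0
  have hrecA : ∀ (y : ↥D) (r : ↥(LinearMap.range A)),
      lam y ((LinearMap.range A).subtype r) = 0 := by
    rintro y ⟨_, c, rfl⟩
    rw [Submodule.subtype_apply, hlam_apply]
    have h1 := hsum c y
    rw [← Finset.sum_coe_sort] at h1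
    rw [← h1]
    exact Finset.sum_congr rfl fun q _ => mul_comm _ _
  have : FiniteDimensional (ResidueField 𝒪)
      ↥(LinearMap.ker (LinearMap.range A).subtype) := by
    rw [Submodule.ker_subtype]
    infer_instance
  have hdim := H831.comparison_abstract (LinearMap.range A).subtype lam hlam hrecA
  have hker : Module.finrank (ResidueField 𝒪)
      ↥(LinearMap.ker (LinearMap.range A).subtype) = 0 := by
    rw [Submodule.ker_subtype]
    exact finrank_bot _ _
  have hcard : Module.finrank (ResidueField 𝒪) (↥Q → ResidueField 𝒪) = Q.card := by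
    rw [Module.finrank_fintype_fun_eq_card, Fintype.card_coe]
  rw [hker, hcard, zero_add] at hdim
  -- a linear section of `A`
  obtain ⟨s, hs⟩ := A.rangeRestrict.exists_rightInverse_of_surjective
    (LinearMap.range_rangeRestrict A)
  have hAs : ∀ r : ↥(LinearMap.range A), A (s r) = r := by
    intro r
    have := congrArg (fun f => (f r : ↥Q → ResidueField 𝒪)) hs
    simpa using this
  refine ⟨LinearMap.range (X.subtype ∘ₗ s), inferInstance, ?_, fun c hc => ?_⟩
  · have h1 : Module.finrank (ResidueField 𝒪) ↥(LinearMap.range (X.subtype ∘ₗ s)) ≤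
        Module.finrank (ResidueField 𝒪) ↥(LinearMap.range A) :=
      LinearMap.finrank_range_le _
    omega
  · let c₀ : ↥X := ⟨c, hc⟩
    let u₀ : ↥X := s (A.rangeRestrict c₀)
    have hA0 : A (c₀ - u₀) = 0 := by
      rw [map_sub, hAs]
      exact sub_self _
    have ha0 : ∀ q ∈ Q, a q (c₀ - u₀) = 0 := fun q hq =>
      congrFun hA0 (⟨q, hq⟩ : ↥Q)
    have hsel := hcX (c₀ - u₀)
    refine ⟨(u₀ : GQ → Module.End (ResidueField 𝒪) ρbar.V), ⟨A.rangeRestrict c₀, rfl⟩,
      ((c₀ - u₀ : ↥X) : GQ → Module.End (ResidueField 𝒪) ρbar.V),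
      ⟨hsel.cocycle, fun q hqP hqn => ?_, hsel.loc⟩, ⟨0, fun σ => ?_⟩⟩
    · by_cases hqQ : q ∈ Q
      · exact ha q hqQ _ (ha0 q hqQ)
      · refine hsel.unram q hqP fun h => ?_
        rcases Finset.mem_union.1 h with h' | h'
        · exact hqn (Finset.mem_union_left _ h')
        · exact hqQ h'
    · simp [c₀]

end Global

/-- **(REC-Q-SUB) from the leaves** (route C). -/
theorem recQSub_of (hR : PlainRecipGStatement) (hF : FrameStatement) (hL : LineStatement)
    (hN : NondegStatement) (hU : UrCupStatement) (hT : LocTrivTwStatement)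
    (hC : CobCupStatement) (hJ : ConjStatement) (hG : GlobZSubStatement) :
    H716.RecQSubStatement :=
  fun 𝒪 _ _ _ _ _ p ρbar S Smin hyp S' hSS' hS'S =>
    recQSub_of_leaves 𝒪 p ρbar S Smin hR hF hL hN hU hT hC hJ hG hyp S' hSS' hS'S

end Fermat.Agent.S56.RQ

end

end
-- ===== PACK-END S56/RQ/GlueSub.lean

-- ===== PACK-BEGIN S56/RQ/GlobZSub.lean
section



/-!
# Row S56 — REC-Q-SUB leaf GLOBZ-SUB (helper554, variant of helper934's `H934.globZ`)

`globZSub : GlobZSubStatement`: for `Smin ⊆ S' ⊆ S`, `c` an ad-cocycle unramified outside `S' ∪ Q`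
and `y` a twisted cocycle unramified outside `S'`, the cup product `c ∪ y` is a global 2-cocycle of
`k(1)`, level-constant for a finite level unramified outside `S' ∪ Q`.

Same proof as `H934.globZ` (level of `N = {s : ρ̄ s = 1, s fixes μ_p, c s = 0, y s = 0}`).
-/

set_option autoImplicit false

open Polynomial IsLocalRing

noncomputable section

namespace Fermat.Agent.S56.RQ.H554

open Fermat.Agent.S56 Fermat.Agent.S56.H716 Fermat.Agent.S56.RQ Fermat.Agent.S56.RQ.H934

/-- **GLOBZ-SUB.** -/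
theorem globZSub : GlobZSubStatement := by
  intro 𝒪 _ _ _ _ _ p ρbar S Smin hyp S' hSS' _ Q hQ c y hc hcur hy hyur
  classical
  refine ⟨cup_isCoc₂ hc hy, ?_⟩
  haveI : NeZero p := ⟨hyp.hp.ne_zero⟩
  obtain ⟨Lρ, hLρfin, hLρ⟩ := ρbar.factorsThroughFiniteLevel
  obtain ⟨Lc, hLcfin, hLc⟩ := hc.level
  obtain ⟨Ly, hLyfin, hLy⟩ := hy.level
  -- the big level
  let F₀ : IntermediateField ℚ Qb := Lρ ⊔ Lc ⊔ Ly ⊔ Fermat.Agent.S55.H414.cycloLevel p
  haveI : FiniteDimensional ℚ Lρ := hLρfin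
  haveI : FiniteDimensional ℚ Lc := hLcfin
  haveI : FiniteDimensional ℚ Ly := hLyfin
  haveI h1 : FiniteDimensional ℚ (Lρ ⊔ Lc : IntermediateField ℚ Qb) :=
    IntermediateField.finiteDimensional_sup Lρ Lc
  haveI h2 : FiniteDimensional ℚ (Lρ ⊔ Lc ⊔ Ly : IntermediateField ℚ Qb) :=
    IntermediateField.finiteDimensional_sup (Lρ ⊔ Lc) Ly
  have hF₀fin : FiniteDimensional ℚ F₀ :=
    IntermediateField.finiteDimensional_sup (Lρ ⊔ Lc ⊔ Ly) (Fermat.Agent.S55.H414.cycloLevel p)
  have hF₀ : F₀.fixingSubgroup ≤ levelSub hc hy := by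
    intro s hs
    have hs' : ∀ x ∈ F₀, s x = x := (IntermediateField.mem_fixingSubgroup_iff F₀ s).1 hs
    have hρle : Lρ ≤ F₀ := le_sup_left.trans (le_sup_left.trans le_sup_left)
    have hcle : Lc ≤ F₀ := le_sup_right.trans (le_sup_left.trans le_sup_left)
    have hyle : Ly ≤ F₀ := le_sup_right.trans le_sup_left
    have hzle : Fermat.Agent.S55.H414.cycloLevel p ≤ F₀ := le_sup_right
    refine ⟨hLρ s (fun x hx => hs' x (hρle hx)), ?_, ?_, ?_⟩
    · intro μ hμ
      rw [pow_one]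
      exact hs' μ (hzle (Fermat.Agent.S56.H536.mem_cycloLevel_of_pow_eq_one p hμ))
    · have h := hLc 1 s (fun x hx => hs' x (hcle hx))
      rw [one_mul, ad_one hc] at h
      exact h
    · have h := hLy 1 s (fun x hx => hs' x (hyle hx))
      rw [one_mul, tw_one hy] at h
      exact h
  have hur : ∀ q : Nat.Primes, q ∉ ((S' ∪ Q).subtype Nat.Prime : Finset Nat.Primes) →
      ∀ A : ValuationSubring (AlgebraicClosure ℚ), A.LiesOverPrime (q : ℕ) →
        A.inertiaSubgroupIn ℚ ≤ levelSub hc hy := by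
    intro q hq A hA s hs
    have hq' : (q : ℕ) ∉ S' ∪ Q := fun h => hq (Finset.mem_subtype.2 h)
    have hqS' : (q : ℕ) ∉ S' := fun h => hq' (Finset.mem_union_left _ h)
    have hqSmin : (q : ℕ) ∉ Smin := fun h => hqS' (hSS' h)
    have hqp : (q : ℕ) ≠ p := fun h => hqSmin (h ▸ hyp.hpSmin)
    have hρur : ρbar.IsUnramifiedAt (q : ℕ) := by
      by_contra hne
      exact hqSmin ((hyp.hmin q q.2 hqp).2 hne)
    exact ⟨hρur A hA s hs,
      Fermat.Agent.S56.H554.fixes_mu_of_mem_inertia q.2 hA hyp.hp (Ne.symm hqp) hs,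
      hcur q q.2 hq' A hA s hs, hyur q q.2 hqS' A hA s hs⟩
  obtain ⟨F, ⟨hFfin, hFur⟩, hFfix, -⟩ := Fermat.Agent.S55.Bridge.exists_level_of_subgroup
    ((S' ∪ Q).subtype Nat.Prime : Finset Nat.Primes) (levelSub hc hy) F₀ hF₀fin hF₀ hur
  refine ⟨F, hFfin, ?_, ?_⟩
  · intro q hq hqS P hP s hs x hx
    have hmem : s ∈ F.fixingSubgroup :=
      hFur ⟨q, hq⟩ (fun h => hqS (Finset.mem_subtype.1 h)) P hP hs
    exact (IntermediateField.mem_fixingSubgroup_iff F s).1 hmem x hx
  · intro σ τ s s' hs hs'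
    have hsN : s ∈ levelSub hc hy := by
      rw [← hFfix]
      exact (IntermediateField.mem_fixingSubgroup_iff F s).2 hs
    have hsN' : s' ∈ levelSub hc hy := by
      rw [← hFfix]
      exact (IntermediateField.mem_fixingSubgroup_iff F s').2 hs'
    exact cup_mul_right hyp.hp hc hy σ τ s s' hsN hsN'

end Fermat.Agent.S56.RQ.H554

end

end
-- ===== PACK-END S56/RQ/GlobZSub.lean

-- ===== PACK-BEGIN S56/RQ/RecipWeak.lean
section


/-!
# Row S56 — REC-Q leaf RECIP from the WEAK invariant package (helper554, on helper14's bridge)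

S56 only needs, from the S55 side, a family of invariant maps `inv v : H²(G_v, μ_p) → F_p` with

* (RECIP) `Σ_v inv_v (loc_v y) = 0` for global classes `y` (`PT.RecipSpec`), and
* (INJ) `inv v` injective for the places `v ≡ 1 mod p` (`v ≠ p`).

`WeakInvInput` asks (INJ) at all places (helper904's `weakInv`, note #7879);
`WeakInvInput₁` only at `v ≠ p`, `p ∣ v − 1`.  `PT.InvSpec` implies `WeakInvInput₁`
(`weakInvInput₁_of_invSpec`), and

`plainRecip_of_weak₁ : WeakInvInput₁ → PlainRecipStatement`,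
`plainRecip_of_weak : WeakInvInput → PlainRecipStatement`.

Same construction as `H14.plainRecip_of` (`RQ/RecipH14.lean`).
-/

set_option autoImplicit false

noncomputable section

namespace Fermat.Agent.S56.RQ.H554

open groupCohomology Fermat.Agent.S55.PT ExtCitation Fermat.Agent.S56.H14
  Fermat.Agent.S56 Fermat.Agent.S56.RQ Fermat.Agent.S56.RQ.H14

/-- The weak invariant package, injectivity only at the places `v ≠ p`, `v ≡ 1 mod p`. -/
def WeakInvInput₁ : Prop :=
  ∀ (p : ℕ) [Fact p.Prime] (S : Finset Nat.Primes), p ≠ 2 → pPrime p ∈ S →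
    ∃ inv : InvFamily p S, RecipSpec inv ∧
      ∀ v : ↥S, ((v.1 : Nat.Primes) : ℕ) ≠ p → p ∣ ((v.1 : Nat.Primes) : ℕ) - 1 →
        Function.Injective (inv v)

/-- The weak invariant package, injectivity at all places of `S`. -/
def WeakInvInput : Prop :=
  ∀ (p : ℕ) [Fact p.Prime] (S : Finset Nat.Primes), p ≠ 2 → pPrime p ∈ S →
    ∃ inv : InvFamily p S, RecipSpec inv ∧ ∀ v : ↥S, Function.Injective (inv v)

theorem weakInvInput₁_of_weakInvInput (h : WeakInvInput) : WeakInvInput₁ := by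
  intro p _ S hp2 hpS
  obtain ⟨inv, hrec, hinj⟩ := h p S hp2 hpS
  exact ⟨inv, hrec, fun v _ _ => hinj v⟩

theorem weakInvInput₁_of_invSpec
    (hS55 : ∀ (p : ℕ) [Fact p.Prime] (S : Finset Nat.Primes), p ≠ 2 → pPrime p ∈ S →
      InvSpec p S) : WeakInvInput₁ := by
  intro p _ S hp2 hpS
  obtain ⟨inv, hrec, htop, -⟩ := hS55 p S hp2 hpS
  exact ⟨inv, hrec, fun v hvp hdvd => (inv_bijective_of_dvd_sub_one htop v hvp hdvd).1⟩

section

variable {p : ℕ} [Fact p.Prime] {K : Type} [Field K] [Algebra (ZMod p) K]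
  {S : Finset Nat.Primes} [FiniteDimensional (ZMod p) K]

/-- (inj), from the injectivity of `inv v`. -/
theorem isCob_of_invExt_eq_zero_of_injective {inv : InvFamily p S} (v : ↥S)
    (hinj : Function.Injective (inv v)) {z : _root_.Fermat.Agent.S56.GQ × _root_.Fermat.Agent.S56.GQ → K}
    (hc : IsCoc₂On p ((natPlace ((v.1 : Nat.Primes) : ℕ)).decompositionSubgroup ℚ) z)
    (hl : IsLC₂On ((natPlace ((v.1 : Nat.Primes) : ℕ)).decompositionSubgroup ℚ) z)
    (h0 : invExt inv v z = 0) :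
    IsCob₂On p ((natPlace ((v.1 : Nat.Primes) : ℕ)).decompositionSubgroup ℚ) z := by
  have hz : z ∈ Zloc p K v.1 := mem_Zloc_of_isCoc v.1 hc hl
  rw [invExt_apply inv v hz] at h0
  have h1 : extInv (W := K) (localLevels v.1) ((cycloChar p).comp (rl v.1)) (inv v)
      (clsLoc v.1 ⟨z, hz⟩) = 0 := h0
  have h2 := (extInv_eq_zero_iff (W := K) (localLevels v.1) ((cycloChar p).comp (rl v.1))
    (inv := inv v) hinj (clsLoc v.1 ⟨z, hz⟩)).1 h1
  exact isCob_of_clsLoc_eq_zero v.1 ⟨z, hz⟩ h2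

end

/-- **RECIP** from the weak invariant package (injectivity at `v ≡ 1 mod p`, `v ≠ p`). -/
theorem plainRecip_of_weak₁ (hW : WeakInvInput₁) : PlainRecipStatement := by
  intro K _ _ p _ hp hp2 Sg hpSg hSg
  have : Fact p.Prime := ⟨hp⟩
  let _ : Algebra (ZMod p) K := ZMod.algebra K p
  have : FiniteDimensional (ZMod p) K := Module.Finite.of_finite
  have hpS : pPrime p ∈ primesOf Sg := mem_primesOf.2 hpSg
  obtain ⟨inv, hrec, hinj⟩ := hW p (primesOf Sg) hp2 hpS
  classical
  -- the index of a prime of `Sg` in `primesOf Sg`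
  let idx : ∀ v : ℕ, v ∈ Sg → ↥(primesOf Sg) :=
    fun v hv => ⟨⟨v, hSg v hv⟩, mem_primesOf.2 hv⟩
  let invN : ℕ → (_root_.Fermat.Agent.S56.GQ × _root_.Fermat.Agent.S56.GQ → K) →ₗ[K] K :=
    fun v => if hv : v ∈ Sg then invExt inv (idx v hv) else 0
  have hinvN : ∀ (v : ℕ) (hv : v ∈ Sg), invN v = invExt inv (idx v hv) := by
    intro v hv
    show (if hv : v ∈ Sg then invExt inv (idx v hv) else 0) = _
    rw [dif_pos hv]
  refine ⟨natPlace, invN, fun v hv => natPlace_liesOver (hSg v hv), ?_, ?_, ?_⟩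
  · intro v hv z hz
    rw [hinvN v hv]
    exact invExt_eq_zero_of_isCob inv (idx v hv) hz
  · intro v hv hdvd z hc hl h0
    rw [hinvN v hv] at h0
    have hvp : v ≠ p := by
      rintro rfl
      have h1 : v ≤ v - 1 := Nat.le_of_dvd (Nat.sub_pos_of_lt hp.one_lt) hdvd
      have h2 := hp.pos
      omega
    exact isCob_of_invExt_eq_zero_of_injective (idx v hv) (hinj (idx v hv) hvp hdvd) hc hl h0
  · intro z hz
    have h1 := sum_invExt_eq_zero hrec hz
    have h2 : ∑ v ∈ Sg, invN v z = ∑ q ∈ primesOf Sg, invN (q : ℕ) z :=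
      (Finset.sum_subtype_of_mem (fun v => invN v z) hSg).symm
    rw [h2, ← Finset.sum_coe_sort (primesOf Sg) (fun q => invN (q : ℕ) z), ← h1]
    refine Finset.sum_congr rfl fun w _ => ?_
    have hw : ((w.1 : Nat.Primes) : ℕ) ∈ Sg := mem_primesOf.1 w.2
    have hidx : idx _ hw = w := Subtype.ext (Subtype.ext rfl)
    rw [hinvN _ hw, hidx]

/-- **RECIP** from the weak invariant package (injectivity at all places). -/
theorem plainRecip_of_weak (hW : WeakInvInput) : PlainRecipStatement :=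
  plainRecip_of_weak₁ (weakInvInput₁_of_weakInvInput hW)

end Fermat.Agent.S56.RQ.H554

end

end
-- ===== PACK-END S56/RQ/RecipWeak.lean

-- ===== PACK-BEGIN S55/H963/BrDatum.lean
section




/-!
# S55 / G-SI bridge (helper963): the ray datum attached to a subgroup of `C_S(K)`

For a subgroup `H ≤ C_S(K)` (helper421's model) containing the `n`-th powers, the map
`I ↦ class of (1, div^S I)` is a ray datum of modulus `(∏_{q ∈ S} q) ^ (2 n + 2)` with values in
`C_S(K) / H`, and it is surjective.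
-/

set_option autoImplicit false
set_option linter.style.haveILetI false
set_option linter.unusedSectionVars false
set_option linter.unusedVariables false

open scoped NumberField TensorProduct nonZeroDivisors

open IsDedekindDomain

noncomputable section

namespace Fermat.Agent.S55.H963

/-- Push-forward of a ray datum along a group homomorphism. -/
def RayDatum.map {K : Type*} [Field K] [NumberField K] {A A' : Type*} [CommGroup A]
    [CommGroup A'] (D : RayDatum K A) (f : A →* A') : RayDatum K A' where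
  m := D.m
  m_ne_bot := D.m_ne_bot
  ψ I := f (D.ψ I)
  map_mul I J hI hJ := by rw [D.map_mul I J hI hJ, _root_.map_mul]
  map_principal x hx := by rw [D.map_principal x hx, map_one]

theorem RayDatum.map_isSurj {K : Type*} [Field K] [NumberField K] {A A' : Type*} [CommGroup A]
    [CommGroup A'] (D : RayDatum K A) (f : A →* A') (hf : Function.Surjective f)
    (h : D.IsSurj) : (D.map f).IsSurj := by
  intro a'
  obtain ⟨a, rfl⟩ := hf a'
  obtain ⟨𝔠, h0, hc, hψ⟩ := h a
  exact ⟨𝔠, h0, hc, by show f (D.ψ 𝔠) = f a; rw [hψ]⟩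

namespace Br

open Fermat.Agent.S55.G

variable (S : Finset Nat.Primes) (K : Type) [Field K] [NumberField K]

/-- The modulus `(∏_{q ∈ S} q) ^ (2 n + 2)`. -/
def modulus (n : ℕ) : Ideal (𝓞 K) := Ideal.span {((PS S : ℕ) : 𝓞 K) ^ (2 * n + 2)}

theorem modulus_ne_bot (n : ℕ) : modulus S K n ≠ ⊥ := by
  unfold modulus
  rw [Ne, Ideal.span_singleton_eq_bot]
  exact pow_ne_zero _ (by exact_mod_cast (PS_pos S).ne')

theorem PS_mem_of_mem {I : Ideal (𝓞 K)} {q : Nat.Primes} (hq : q ∈ S)
    (h : ((q : ℕ) : 𝓞 K) ∈ I) : ((PS S : ℕ) : 𝓞 K) ∈ I := by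
  rw [PS_eq_mul hq, Nat.cast_mul]
  exact I.mul_mem_right _ h

theorem exists_mem_of_PS_mem {I : Ideal (𝓞 K)} (hI : I.IsPrime)
    (h : ((PS S : ℕ) : 𝓞 K) ∈ I) : ∃ q ∈ S, ((q : ℕ) : 𝓞 K) ∈ I := by
  unfold PS at h
  rw [Nat.cast_prod] at h
  haveI := hI
  exact Ideal.IsPrime.prod_mem_iff.mp h

theorem modulus_le_of_mem {I : Ideal (𝓞 K)} {q : Nat.Primes} (hq : q ∈ S)
    (h : ((q : ℕ) : 𝓞 K) ∈ I) (n : ℕ) : modulus S K n ≤ I := by
  unfold modulus
  rw [Ideal.span_singleton_le_iff_mem]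
  exact I.pow_mem_of_mem (PS_mem_of_mem S K hq h) _ (by omega)

/-- A prime coprime to the modulus is not above `S`. -/
theorem not_isAbove_of_isCoprime (v : HeightOneSpectrum (𝓞 K)) (n : ℕ)
    (h : IsCoprime v.asIdeal (modulus S K n)) : ¬ IsAbove S K v := by
  rintro ⟨q, hq, hqv⟩
  have hle := modulus_le_of_mem S K hq hqv n
  rw [Ideal.isCoprime_iff_sup_eq, sup_eq_left.mpr hle] at h
  exact v.isPrime.ne_top h

/-- A prime not above `S` is coprime to the modulus. -/
theorem isCoprime_of_not_isAbove (v : PrimeOut S K) (n : ℕ) :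
    IsCoprime v.1.asIdeal (modulus S K n) := by
  rw [Ideal.isCoprime_iff_sup_eq]
  by_contra htop
  have hmax : v.1.asIdeal.IsMaximal := v.1.isMaximal
  have h1 : v.1.asIdeal ⊔ modulus S K n = v.1.asIdeal := by
    by_contra hne
    exact htop (hmax.1.2 _ (lt_of_le_of_ne le_sup_left (Ne.symm hne)))
  have hle : modulus S K n ≤ v.1.asIdeal := by rw [← h1]; exact le_sup_right
  have hP : ((PS S : ℕ) : 𝓞 K) ^ (2 * n + 2) ∈ v.1.asIdeal :=
    hle (Ideal.subset_span (Set.mem_singleton _))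
  have hP' := v.1.isPrime.mem_of_pow_mem _ hP
  obtain ⟨q, hq, hqv⟩ := exists_mem_of_PS_mem S K v.1.isPrime hP'
  exact v.2 ⟨q, hq, hqv⟩

theorem modulus_ne_top (hS : S.Nonempty) (n : ℕ) : modulus S K n ≠ ⊤ := by
  intro htop
  obtain ⟨q, hq⟩ := hS
  have hu : IsUnit (((PS S : ℕ) : 𝓞 K) ^ (2 * n + 2)) := by
    unfold modulus at htop
    exact Ideal.span_singleton_eq_top.mp htop
  have hu' : IsUnit ((PS S : ℕ) : 𝓞 K) := (isUnit_pow_iff (by omega)).mp hu
  have hn := hu'.map (Algebra.norm ℤ)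
  have hnorm : Algebra.norm ℤ (((PS S : ℕ) : 𝓞 K)) =
      ((PS S : ℕ) : ℤ) ^ Fintype.card (Module.Free.ChooseBasisIndex ℤ (𝓞 K)) := by
    have := Algebra.norm_algebraMap_of_basis (NumberField.RingOfIntegers.basis K)
      ((PS S : ℕ) : ℤ)
    rwa [algebraMap_int_eq, eq_intCast, Int.cast_natCast] at this
  rw [hnorm] at hn
  have hcard : Fintype.card (Module.Free.ChooseBasisIndex ℤ (𝓞 K)) ≠ 0 := by
    have : Nonempty (Module.Free.ChooseBasisIndex ℤ (𝓞 K)) :=
      (NumberField.RingOfIntegers.basis K).index_nonempty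
    exact Fintype.card_ne_zero
  have hP1 := (isUnit_pow_iff hcard).mp hn
  have hP2 : (PS S : ℕ) = 1 := by
    have := Int.isUnit_iff.mp hP1
    rcases this with h | h
    · exact_mod_cast h
    · have : (0 : ℤ) ≤ ((PS S : ℕ) : ℤ) := Int.natCast_nonneg _
      omega
  have hq1 : (q : ℕ) ∣ 1 := by rw [← hP2]; exact dvd_PS hq
  exact q.2.one_lt.ne' (Nat.dvd_one.mp hq1)

variable {S K}

/-- The class map `J_S(K) × Div^S(K) → C_S(K) / H`. -/
def cl (H : AddSubgroup (CS S K)) : JD S K →+ CS S K ⧸ H :=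
  (QuotientAddGroup.mk' H).comp ((principal S K).mkQ.toAddMonoidHom)

theorem cl_surjective (H : AddSubgroup (CS S K)) : Function.Surjective (_root_.Fermat.Agent.S55.H963.Br.cl H) := by
  intro a
  obtain ⟨c, rfl⟩ := QuotientAddGroup.mk_surjective a
  obtain ⟨y, rfl⟩ := Submodule.Quotient.mk_surjective _ c
  exact ⟨y, rfl⟩

theorem cl_diag (H : AddSubgroup (CS S K)) (x : Additive Kˣ) : _root_.Fermat.Agent.S55.H963.Br.cl H (diagHom S K x) = 0 := by
  have h : (principal S K).mkQ (diagHom S K x) = 0 := by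
    rw [Submodule.mkQ_apply, Submodule.Quotient.mk_eq_zero]
    exact ⟨x, rfl⟩
  show QuotientAddGroup.mk' H ((principal S K).mkQ (diagHom S K x)) = 0
  rw [h, map_zero]

theorem nsmul_cl {n : ℕ} (H : AddSubgroup (CS S K)) (hpow : ∀ c : CS S K, n • c ∈ H)
    (a : CS S K ⧸ H) : n • a = 0 := by
  obtain ⟨c, rfl⟩ := QuotientAddGroup.mk_surjective a
  rw [← QuotientAddGroup.mk_nsmul]
  exact (QuotientAddGroup.eq_zero_iff _).mpr (hpow c)

/-- Units of `K ⊗ ℚ_S` congruent to `1` modulo `P ^ (2n+2)` are trivial in `C_S(K) / H`. -/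
theorem cl_unit_eq_zero {n : ℕ} (hn : 0 < n) (H : AddSubgroup (CS S K))
    (hpow : ∀ c : CS S K, n • c ∈ H) (u : (AS S K)ˣ) (r : RS S K)
    (hu : (u : AS S K) = 1 + ((PS S : ℕ) : AS S K) ^ (2 * n + 2) * phi S K r) :
    _root_.Fermat.Agent.S55.H963.Br.cl H (Additive.ofMul u, 0) = 0 := by
  obtain ⟨y, hy⟩ := exists_pow_eq_AS S K hn r
  rw [← hu] at hy
  have hyu : IsUnit y := (isUnit_pow_iff hn.ne').mp (hy ▸ u.isUnit)
  obtain ⟨yu, rfl⟩ := hyu
  have h1 : yu ^ n = u := Units.ext (by rw [Units.val_pow_eq_pow_val, hy])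
  have h2 : ((Additive.ofMul u, 0) : JD S K) = n • ((Additive.ofMul yu, 0) : JD S K) := by
    refine Prod.ext ?_ ?_
    · show Additive.ofMul u = n • Additive.ofMul yu
      rw [← h1]; rfl
    · show (0 : PrimeOut S K →₀ ℤ) = n • 0
      rw [smul_zero]
  rw [h2, map_nsmul]
  exact nsmul_cl H hpow _

variable (S K)

/-- The class map on ideals. -/
def psi (H : AddSubgroup (CS S K)) (I : Ideal (𝓞 K)) : Multiplicative (CS S K ⧸ H) :=
  open Classical in
  if I = ⊥ then 1 else Multiplicative.ofAdd (_root_.Fermat.Agent.S55.H963.Br.cl H (0, divS S K I))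

variable {S K}

theorem psi_of_ne_bot (H : AddSubgroup (CS S K)) {I : Ideal (𝓞 K)} (hI : I ≠ ⊥) :
    psi S K H I = Multiplicative.ofAdd (_root_.Fermat.Agent.S55.H963.Br.cl H (0, divS S K I)) := by
  unfold psi
  rw [if_neg hI]

theorem psi_bot (H : AddSubgroup (CS S K)) : psi S K H ⊥ = 1 := by
  unfold psi
  rw [if_pos rfl]

theorem ne_bot_of_isCoprime (hS : S.Nonempty) (n : ℕ) {I : Ideal (𝓞 K)}
    (hI : IsCoprime I (modulus S K n)) : I ≠ ⊥ := by
  rintro rfl
  rw [Ideal.isCoprime_iff_sup_eq, bot_sup_eq] at hI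
  exact modulus_ne_top S K hS n hI

theorem cl_add_snd (H : AddSubgroup (CS S K)) (d d' : PrimeOut S K →₀ ℤ) :
    _root_.Fermat.Agent.S55.H963.Br.cl H (0, d + d') = _root_.Fermat.Agent.S55.H963.Br.cl H (0, d) + _root_.Fermat.Agent.S55.H963.Br.cl H (0, d') := by
  rw [← map_add]
  congr 1
  exact Prod.ext (by simp) rfl

/-- The ray datum attached to `H`. -/
def datum (hS : S.Nonempty) {n : ℕ} (hn : 0 < n) (H : AddSubgroup (CS S K))
    (hpow : ∀ c : CS S K, n • c ∈ H) : RayDatum K (Multiplicative (CS S K ⧸ H)) where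
  m := modulus S K n
  m_ne_bot := modulus_ne_bot S K n
  ψ := psi S K H
  map_mul I J hI hJ := by
    have hI0 := ne_bot_of_isCoprime hS n hI
    have hJ0 := ne_bot_of_isCoprime hS n hJ
    have hIJ0 : I * J ≠ ⊥ := by
      rw [Ne, Ideal.mul_eq_bot]
      exact fun h => h.elim hI0 hJ0
    rw [psi_of_ne_bot H hI0, psi_of_ne_bot H hJ0, psi_of_ne_bot H hIJ0, divS_mul S K hI0 hJ0,
      cl_add_snd, ofAdd_add]
  map_principal x hx := by
    by_cases hx0 : x = 0
    · rw [hx0, Ideal.span_singleton_eq_bot.mpr rfl]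
      exact psi_bot H
    have hxK : (x : K) ≠ 0 := by
      intro h
      apply hx0
      exact_mod_cast h
    have hI : (Ideal.span {x} : Ideal (𝓞 K)) ≠ ⊥ := by
      rw [Ne, Ideal.span_singleton_eq_bot]; exact hx0
    rw [psi_of_ne_bot H hI, divS_span S K x hxK]
    -- `x = 1 + P ^ N z`
    obtain ⟨z, hz⟩ := Ideal.mem_span_singleton'.mp hx
    have hxz : x = 1 + ((PS S : ℕ) : 𝓞 K) ^ (2 * n + 2) * z := by
      have : x = 1 + (x - 1) := by ring
      rw [this, ← hz]; ring
    set xu : Kˣ := Units.mk0 (x : K) hxK with hxu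
    set u : (AS S K)ˣ := Units.map ((asDiag S K : K →ₐ[ℚ] AS S K) : K →* AS S K) xu with hu
    have hucoe : (u : AS S K) = 1 + ((PS S : ℕ) : AS S K) ^ (2 * n + 2) *
        phi S K ((1 : ZS S) ⊗ₜ[ℤ] z) := by
      have h1 : (u : AS S K) = asDiag S K (x : K) := rfl
      rw [h1, phi_tmul, AS.natCast_pow_tmul, asDiag_apply]
      have h2 : (x : K) = 1 + ((PS S : ℕ) : K) ^ (2 * n + 2) * (z : K) := by
        have := congrArg (algebraMap (𝓞 K) K) hxz
        simpa using this
      have h3 : zsToQs S 1 = 1 := map_one _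
      rw [h3, mul_one]
      have h4 : ((z : K)) ⊗ₜ[ℚ] (((PS S : ℕ) : QS S) ^ (2 * n + 2)) =
          ((((PS S : ℕ) : K) ^ (2 * n + 2) * (z : K))) ⊗ₜ[ℚ] (1 : QS S) := by
        have e1 : (((PS S : ℕ) : QS S) ^ (2 * n + 2)) =
            (((PS S : ℕ) : ℚ) ^ (2 * n + 2)) • (1 : QS S) := by
          rw [Algebra.smul_def, mul_one]; simp
        have e2 : (((PS S : ℕ) : K) ^ (2 * n + 2) * (z : K)) =
            (((PS S : ℕ) : ℚ) ^ (2 * n + 2)) • (z : K) := by
          rw [Algebra.smul_def]; simp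
        rw [e1, e2, TensorProduct.smul_tmul]
      rw [h4, h2, TensorProduct.add_tmul]
      rfl
    have hcl := cl_unit_eq_zero hn H hpow u _ hucoe
    have hdiag := cl_diag H (Additive.ofMul xu)
    have hsplit : ((0, ordHom S K (Additive.ofMul xu)) : JD S K) =
        diagHom S K (Additive.ofMul xu) - (Additive.ofMul u, 0) := by
      refine Prod.ext ?_ ?_
      · show (0 : Additive (AS S K)ˣ) = unitsDiag S K (Additive.ofMul xu) - Additive.ofMul u
        have : unitsDiag S K (Additive.ofMul xu) = Additive.ofMul u := rfl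
        rw [this, sub_self]
      · show ordHom S K (Additive.ofMul xu) = ordHom S K (Additive.ofMul xu) - 0
        rw [sub_zero]
    rw [hsplit, map_sub, hcl, hdiag, sub_zero]
    rfl

end Br

end Fermat.Agent.S55.H963

end
end
-- ===== PACK-END S55/H963/BrDatum.lean

-- ===== PACK-BEGIN S55/H963/BrMain.lean
section


/-!
# S55 / G-SI bridge (helper963): the second inequality in helper421's `C_S` model

`Br.card_quotient_le` : let `K ⊆ L` be number fields, `S ≠ ∅` a finite set of primes, `n > 0`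
and `H ≤ C_S(K)` (helper421's `CS S K = (J_S(K) × Div^S(K)) / Kˣ`) a subgroup such that
* `n • C_S(K) ⊆ H`;
* for every prime `w` of `L` of prime absolute norm whose restriction `v` to `K` is not above
  `S`, the class of `(1, [v])` lies in `H`.
Then `C_S(K) / H` is finite of order `≤ [L : K]`.

Application (second inequality): `H` = classes whose base change to `L` is a norm.
-/

set_option autoImplicit false
set_option maxHeartbeats 400000
set_option linter.style.haveILetI false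
set_option linter.unusedSectionVars false
set_option linter.unusedVariables false

open scoped NumberField TensorProduct nonZeroDivisors

open IsDedekindDomain

noncomputable section

namespace Fermat.Agent.S55.H963.Br

open Fermat.Agent.S55.G

variable {S : Finset Nat.Primes} {K : Type} [Field K] [NumberField K]

theorem nontrivial_QS (hS : S.Nonempty) : Nontrivial (QS S) := by
  obtain ⟨q, hq⟩ := hS
  refine ⟨⟨0, 1, fun h => ?_⟩⟩
  have := congrFun h ⟨q, hq⟩
  exact zero_ne_one this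

theorem asDiag_injective (hS : S.Nonempty) : Function.Injective (asDiag S K) := by
  haveI := nontrivial_QS hS
  exact Algebra.TensorProduct.includeLeft_injective (algebraMap ℚ (QS S)).injective

/-- Every `S`-idèle is a principal idèle times a unit congruent to `1` modulo `P ^ (2n+2)`. -/
theorem exists_unit_approx (hS : S.Nonempty) (n : ℕ) (j : (AS S K)ˣ) :
    ∃ (x : Kˣ) (u : (AS S K)ˣ) (r : RS S K),
      (u : AS S K) = 1 + ((PS S : ℕ) : AS S K) ^ (2 * n + 2) * phi S K r ∧
      Units.map ((asDiag S K : K →ₐ[ℚ] AS S K) : K →* AS S K) x = j * u := by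
  obtain ⟨e, r₁, h₁⟩ := exists_denom_AS S K ((j⁻¹ : (AS S K)ˣ) : AS S K)
  obtain ⟨x, r₂, h₂⟩ := exists_approx_AS S K (j : AS S K) (2 * n + 2 + e)
  set P : AS S K := ((PS S : ℕ) : AS S K) with hP
  have hu0 : ((j⁻¹ : (AS S K)ˣ) : AS S K) * asDiag S K x =
      1 + P ^ (2 * n + 2) * phi S K (-(r₁ * r₂)) := by
    have hx : asDiag S K x = (j : AS S K) - P ^ (2 * n + 2 + e) * phi S K r₂ := by
      rw [← h₂]; ring
    rw [hx, mul_sub, Units.inv_mul, map_neg, map_mul, ← h₁]
    ring
  have hunit : IsUnit (1 + P ^ (2 * n + 2) * phi S K (-(r₁ * r₂))) := by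
    have := isUnit_one_add_AS S K (((PS S : ℕ) : RS S K) ^ (2 * n + 1) * (-(r₁ * r₂)))
    rw [map_mul, map_pow, map_natCast, ← mul_assoc, ← pow_succ'] at this
    exact this
  obtain ⟨u, hu⟩ := hunit
  have hxunit : IsUnit (asDiag S K x) := by
    have : asDiag S K x = (j : AS S K) * (u : AS S K) := by
      rw [hu, ← hu0, ← mul_assoc, Units.mul_inv, one_mul]
    rw [this]
    exact (j * u).isUnit
  have hx0 : x ≠ 0 := by
    rintro rfl
    rw [map_zero] at hxunit
    have h01 : (0 : AS S K) = 1 := by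
      obtain ⟨z, hz⟩ := hxunit
      have := z.mul_inv
      rw [hz, zero_mul] at this
      exact this
    have : asDiag S K (0 : K) = asDiag S K 1 := by rw [map_zero, map_one]; exact h01
    exact zero_ne_one (asDiag_injective hS this)
  refine ⟨Units.mk0 x hx0, u, -(r₁ * r₂), hu, ?_⟩
  apply Units.ext
  show asDiag S K x = (j : AS S K) * (u : AS S K)
  rw [hu, ← hu0, ← mul_assoc, Units.mul_inv, one_mul]

theorem cl_zero_zero (H : AddSubgroup (CS S K)) : _root_.Fermat.Agent.S55.H963.Br.cl H ((0, 0) : JD S K) = 0 := by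
  have : ((0, 0) : JD S K) = 0 := Prod.ext rfl rfl
  rw [this, map_zero]

/-- The classes of the integral ideals prime to the modulus, as a submonoid of `C_S(K) / H`. -/
def repMonoid (n : ℕ) (H : AddSubgroup (CS S K)) : AddSubmonoid (CS S K ⧸ H) where
  carrier := {a | ∃ 𝔠 : Ideal (𝓞 K), 𝔠 ≠ ⊥ ∧ IsCoprime 𝔠 (modulus S K n) ∧
    _root_.Fermat.Agent.S55.H963.Br.cl H (0, divS S K 𝔠) = a}
  zero_mem' := ⟨⊤, top_ne_bot, Ideal.isCoprime_iff_sup_eq.mpr (top_sup_eq _), by
    rw [divS_top]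
    exact cl_zero_zero H⟩
  add_mem' := by
    rintro a b ⟨𝔠, h0, hc, rfl⟩ ⟨𝔠', h0', hc', rfl⟩
    refine ⟨𝔠 * 𝔠', ?_, hc.mul_left hc', ?_⟩
    · rw [Ne, Ideal.mul_eq_bot]
      exact fun h => h.elim h0 h0'
    · rw [divS_mul S K h0 h0', cl_add_snd]

/-- The classes of the integral ideals prime to the modulus, as a subgroup of `C_S(K) / H`. -/
def repSet {n : ℕ} (hn : 0 < n) (H : AddSubgroup (CS S K))
    (hpow : ∀ c : CS S K, n • c ∈ H) : AddSubgroup (CS S K ⧸ H) :=
  subgroupOfTorsion (repMonoid n H) hn (nsmul_cl H hpow)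

theorem mem_repSet {n : ℕ} (hn : 0 < n) (H : AddSubgroup (CS S K))
    (hpow : ∀ c : CS S K, n • c ∈ H) (a : CS S K ⧸ H) :
    a ∈ repSet hn H hpow ↔ ∃ 𝔠 : Ideal (𝓞 K), 𝔠 ≠ ⊥ ∧ IsCoprime 𝔠 (modulus S K n) ∧
        _root_.Fermat.Agent.S55.H963.Br.cl H (0, divS S K 𝔠) = a := Iff.rfl

theorem cl_div_mem_repSet {n : ℕ} (hn : 0 < n) (H : AddSubgroup (CS S K))
    (hpow : ∀ c : CS S K, n • c ∈ H) (d : PrimeOut S K →₀ ℤ) :
    _root_.Fermat.Agent.S55.H963.Br.cl H (0, d) ∈ repSet hn H hpow := by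
  induction d using Finsupp.induction_linear with
  | zero =>
    rw [cl_zero_zero]
    exact (repSet hn H hpow).zero_mem
  | add d d' hd hd' =>
    rw [cl_add_snd]
    exact (repSet hn H hpow).add_mem hd hd'
  | single v k =>
    have h1 : ((0, Finsupp.single v k) : JD S K) = k • ((0, Finsupp.single v 1) : JD S K) := by
      refine Prod.ext ?_ ?_
      · show (0 : Additive (AS S K)ˣ) = k • 0
        rw [smul_zero]
      · show Finsupp.single v k = k • Finsupp.single v 1
        rw [Finsupp.smul_single, smul_eq_mul, mul_one]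
    rw [h1, map_zsmul]
    refine (repSet hn H hpow).zsmul_mem ?_ k
    exact (mem_repSet hn H hpow _).mpr
      ⟨v.1.asIdeal, v.1.ne_bot, isCoprime_of_not_isAbove S K v n, by rw [divS_prime]⟩

theorem datum_isSurj (hS : S.Nonempty) {n : ℕ} (hn : 0 < n) (H : AddSubgroup (CS S K))
    (hpow : ∀ c : CS S K, n • c ∈ H) : (datum hS hn H hpow).IsSurj := by
  intro a
  obtain ⟨⟨j', d⟩, hjd⟩ := _root_.Fermat.Agent.S55.H963.Br.cl_surjective H (Multiplicative.toAdd a)
  obtain ⟨x, u, r, hu, hxu⟩ := exists_unit_approx hS n (Additive.toMul j')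
  have hsplit : ((j', d) : JD S K) =
      diagHom S K (Additive.ofMul x) - (Additive.ofMul u, 0) +
        (0, d - ordHom S K (Additive.ofMul x)) := by
    refine Prod.ext ?_ ?_
    · show j' = unitsDiag S K (Additive.ofMul x) - Additive.ofMul u + 0
      have h1 : unitsDiag S K (Additive.ofMul x) = Additive.ofMul (Additive.toMul j' * u) := by
        rw [← hxu]; rfl
      rw [h1, add_zero, ofMul_mul, ofMul_toMul, add_sub_cancel_right]
    · show d = ordHom S K (Additive.ofMul x) - 0 + (d - ordHom S K (Additive.ofMul x))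
      abel
  have hcl : _root_.Fermat.Agent.S55.H963.Br.cl H (j', d) = _root_.Fermat.Agent.S55.H963.Br.cl H (0, d - ordHom S K (Additive.ofMul x)) := by
    rw [hsplit, map_add, map_sub, cl_diag, cl_unit_eq_zero hn H hpow u r hu, sub_zero, zero_add]
  have hmem := cl_div_mem_repSet hn H hpow (d - ordHom S K (Additive.ofMul x))
  rw [← hcl, hjd] at hmem
  obtain ⟨𝔠, h0, hc, h𝔠⟩ := (mem_repSet hn H hpow _).mp hmem
  refine ⟨𝔠, h0, hc, ?_⟩
  show psi S K H 𝔠 = a
  rw [psi_of_ne_bot H h0, h𝔠, ofAdd_toAdd]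

variable {L : Type*} [Field L] [NumberField L] [Algebra K L]

/-- **G-SI core: the second inequality in the `C_S` model.** -/
theorem card_quotient_le (hS : S.Nonempty) {n : ℕ} (hn : 0 < n) (H : AddSubgroup (CS S K))
    (hpow : ∀ c : CS S K, n • c ∈ H)
    (hsplit : ∀ w : HeightOneSpectrum (𝓞 L), (Ideal.absNorm w.asIdeal).Prime →
      ∀ hw : ¬ IsAbove S K (HeightOneSpectrum.under (𝓞 K) w),
        (Submodule.Quotient.mk
          ((0, Finsupp.single (α := PrimeOut S K) ⟨HeightOneSpectrum.under (𝓞 K) w, hw⟩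
            (1 : ℤ)) : JD S K) : CS S K) ∈ H) :
    Finite (CS S K ⧸ H) ∧ Nat.card (CS S K ⧸ H) ≤ Module.finrank K L := by
  refine finite_and_card_le_of_quotients hn (nsmul_cl H hpow) _ fun B hB => ?_
  let f : Multiplicative (CS S K ⧸ H) →* Multiplicative ((CS S K ⧸ H) ⧸ B) :=
    AddMonoidHom.toMultiplicative (QuotientAddGroup.mk' B)
  have hf : Function.Surjective f := fun a => by
    obtain ⟨b, hb⟩ := QuotientAddGroup.mk'_surjective B (Multiplicative.toAdd a)
    exact ⟨Multiplicative.ofAdd b, by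
      show Multiplicative.ofAdd (QuotientAddGroup.mk' B b) = a
      rw [hb, ofAdd_toAdd]⟩
  let D := (datum hS hn H hpow).map f
  haveI : Finite (Multiplicative ((CS S K ⧸ H) ⧸ B)) := hB
  have hD := D.card_le_finrank (L := L)
    ((datum hS hn H hpow).map_isSurj f hf (datum_isSurj hS hn H hpow)) (by
      intro w hw hc
      have hw' : ¬ IsAbove S K (HeightOneSpectrum.under (𝓞 K) w) :=
        not_isAbove_of_isCoprime S K _ n hc
      have h1 := hsplit w hw hw'
      have h2 : _root_.Fermat.Agent.S55.H963.Br.cl H ((0, Finsupp.single (α := PrimeOut S K)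
          ⟨HeightOneSpectrum.under (𝓞 K) w, hw'⟩ (1 : ℤ)) : JD S K) = 0 :=
        (QuotientAddGroup.eq_zero_iff _).mpr h1
      show f (psi S K H (w.asIdeal.under (𝓞 K))) = 1
      have h3 : psi S K H (w.asIdeal.under (𝓞 K)) = 1 := by
        have h0 : (w.asIdeal.under (𝓞 K)) ≠ ⊥ := (HeightOneSpectrum.under (𝓞 K) w).ne_bot
        rw [psi_of_ne_bot H h0]
        have h5 : divS S K (w.asIdeal.under (𝓞 K)) = Finsupp.single (α := PrimeOut S K)
            ⟨HeightOneSpectrum.under (𝓞 K) w, hw'⟩ (1 : ℤ) :=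
          divS_prime S K (⟨HeightOneSpectrum.under (𝓞 K) w, hw'⟩ : PrimeOut S K)
        have h6 : _root_.Fermat.Agent.S55.H963.Br.cl H ((0, divS S K (w.asIdeal.under (𝓞 K))) : JD S K) = 0 := by
          rw [h5]; exact h2
        rw [h6]
        rfl
      rw [h3, map_one])
  have hcard : Nat.card (Multiplicative ((CS S K ⧸ H) ⧸ B)) = Nat.card ((CS S K ⧸ H) ⧸ B) :=
    Nat.card_congr Multiplicative.toAdd
  rw [← hcard]
  exact hD

end Fermat.Agent.S55.H963.Br

end
end
-- ===== PACK-END S55/H963/BrMain.lean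

-- ===== PACK-BEGIN S55/G/CM/H893/Closure.lean
section
/-
S55 / layer G / block CM, leaf GCL (helper893): the Galois-closure level.

`closureLevel : ClosureLevelSpec`: for a finite group `G` acting faithfully on a number field `L`
there are `S' ⊇ S`, a Tower level `M` of `S'`, a subgroup `Γ' ≤ Gal(M/ℚ)`, a surjection
`π : Γ' ↠ G` and an embedding `φ : L → M`, equivariant along `π`, with image the fixed field of
`ker π`.

Construction: `ψ : L → ℚ̄` any embedding, `M ⊇ ψ(L)` finite Galois over `ℚ`, unramified outside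
`S' ⊇ S` (`Bridge.exists_galois_ge_isUnramifiedOutside`);
`Γ' := {q ∈ Gal(M/ℚ) | ∃ g ∈ G, ∀ x, q • φ x = φ (g • x)}`, `π q :=` this (unique) `g`.
-/



set_option autoImplicit false
set_option linter.unusedSectionVars false
set_option linter.style.haveILetI false

open CategoryTheory
open scoped NumberField

noncomputable section

namespace Fermat.Agent.S55.G.CM.H893

open Fermat.Agent.S55 Fermat.Agent.S55.Tow Fermat.Agent.S55.E1.H594 Fermat.Agent.S55.G
open Fermat.Agent.S55.Bridge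

attribute [local instance] isAlgebraic_Qbar isGalois_Qbar

section Ext

variable (G L : Type) [Group G] [Field L] [NumberField L] [MulSemiringAction G L]

/-- Every element of `G` is induced, through an embedding `ψ : L → ℚ̄`, by an automorphism of
`ℚ̄`. -/
theorem exists_aut_extending (ψ : L →ₐ[ℚ] Qbar) (g : G) :
    ∃ σ : _root_.Fermat.Agent.S55.Tow.GQ, ∀ x : L, σ (ψ x) = ψ (g • x) := by
  let e : L ≃ₐ[ℚ] ψ.fieldRange := AlgEquiv.ofInjectiveField ψ
  let χ : ψ.fieldRange ≃ₐ[ℚ] ψ.fieldRange := (e.symm.trans (fieldAut G L g)).trans e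
  refine ⟨χ.liftNormal Qbar, fun x => ?_⟩
  have h1 := AlgEquiv.liftNormal_commutes χ Qbar (e x)
  have h2 : algebraMap ψ.fieldRange Qbar (e x) = ψ x := rfl
  have h3 : χ (e x) = e (g • x) := by
    show e (fieldAut G L g (e.symm (e x))) = e (g • x)
    rw [AlgEquiv.symm_apply_apply, fieldAut_apply]
  rw [h2, h3] at h1
  exact h1

end Ext

section Main

variable (S : Finset Nat.Primes) (G L : Type) [Group G] [Finite G] [Field L] [NumberField L]
  [MulSemiringAction G L] [FaithfulSMul G L]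

variable {S' : Finset Nat.Primes} (M : Level S') (φ : L →+* M.F)

/-- The subgroup of `Gal(M/ℚ)` of the elements acting on `φ(L)` through `G`. -/
def gammaSub : Subgroup M.Gal where
  carrier := {q | ∃ g : G, ∀ x : L, q • φ x = φ (g • x)}
  one_mem' := ⟨1, fun x => by rw [one_smul, one_smul]⟩
  mul_mem' := by
    rintro a b ⟨g, hg⟩ ⟨h, hh⟩
    exact ⟨g * h, fun x => by rw [mul_smul, hh, hg, mul_smul]⟩
  inv_mem' := by
    rintro a ⟨g, hg⟩
    refine ⟨g⁻¹, fun x => ?_⟩
    have := hg (g⁻¹ • x)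
    rw [smul_inv_smul] at this
    rw [← this, inv_smul_smul]

variable {G L M φ} in
theorem eq_of_forall_smul {g h : G} (hgh : ∀ x : L, φ (g • x) = φ (h • x)) : g = h :=
  FaithfulSMul.eq_of_smul_eq_smul (α := L) fun x => φ.injective (hgh x)

/-- The element of `G` through which `q ∈ Γ'` acts. -/
def piFun (q : gammaSub G L M φ) : G := q.2.choose

theorem piFun_spec (q : gammaSub G L M φ) (x : L) :
    (q : M.Gal) • φ x = φ (piFun G L M φ q • x) := q.2.choose_spec x

theorem piFun_eq (q : gammaSub G L M φ) (g : G) (h : ∀ x : L, (q : M.Gal) • φ x = φ (g • x)) :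
    piFun G L M φ q = g :=
  eq_of_forall_smul fun x => by rw [← piFun_spec, h]

/-- The homomorphism `π : Γ' → G`. -/
def piHom : gammaSub G L M φ →* G where
  toFun := piFun G L M φ
  map_one' := piFun_eq G L M φ 1 1 fun x => by
    rw [one_smul]; exact one_smul M.Gal (φ x)
  map_mul' a b := piFun_eq G L M φ (a * b) _ fun x => by
    rw [mul_smul, ← piFun_spec, ← piFun_spec]
    exact mul_smul (a : M.Gal) (b : M.Gal) (φ x)

theorem piHom_spec (q : gammaSub G L M φ) (x : L) :
    φ (piHom G L M φ q • x) = q • φ x := (piFun_spec G L M φ q x).symm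

end Main

section Core

variable (G L : Type) [Group G] [Finite G] [Field L] [NumberField L]
  [MulSemiringAction G L] [FaithfulSMul G L]
variable {S' : Finset Nat.Primes} (M : Level S') (ψ : L →ₐ[ℚ] Qbar) (hle : ∀ x : L, ψ x ∈ M.F)

/-- The embedding `L → M.F` induced by `ψ`. -/
def phiHom : L →+* M.F where
  toFun := fun x => ⟨ψ x, hle x⟩
  map_one' := Subtype.ext (map_one ψ)
  map_mul' := fun x y => Subtype.ext (map_mul ψ x y)
  map_zero' := Subtype.ext (map_zero ψ)
  map_add' := fun x y => Subtype.ext (map_add ψ x y)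

theorem coe_phiHom (x : L) : ((phiHom L M ψ hle x : M.F) : Qbar) = ψ x := rfl

theorem mk_smul_phiHom (σ : _root_.Fermat.Agent.S55.Tow.GQ) (x : L) :
    (((QuotientGroup.mk σ : M.Gal) • phiHom L M ψ hle x : M.F) : Qbar) = σ (ψ x) :=
  level_mk_smul M σ (phiHom L M ψ hle x)

theorem mk_mem_gammaSub (σ : _root_.Fermat.Agent.S55.Tow.GQ) (g : G) (hσ : ∀ x : L, σ (ψ x) = ψ (g • x)) :
    (QuotientGroup.mk σ : M.Gal) ∈ gammaSub G L M (phiHom L M ψ hle) :=
  ⟨g, fun x => Subtype.ext (by rw [mk_smul_phiHom, coe_phiHom, hσ])⟩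

theorem piHom_mk (σ : _root_.Fermat.Agent.S55.Tow.GQ) (g : G) (hσ : ∀ x : L, σ (ψ x) = ψ (g • x)) :
    piHom G L M (phiHom L M ψ hle) ⟨_, mk_mem_gammaSub G L M ψ hle σ g hσ⟩ = g :=
  piFun_eq G L M _ _ g fun x => Subtype.ext (by
    show (((QuotientGroup.mk σ : M.Gal) • phiHom L M ψ hle x : M.F) : Qbar) = _
    rw [mk_smul_phiHom, coe_phiHom, hσ])

theorem piHom_surjective : Function.Surjective (piHom G L M (phiHom L M ψ hle)) := by
  intro g
  obtain ⟨σ, hσ⟩ := exists_aut_extending G L ψ g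
  exact ⟨⟨_, mk_mem_gammaSub G L M ψ hle σ g hσ⟩, piHom_mk G L M ψ hle σ g hσ⟩

theorem mem_range_phiHom (y : M.F)
    (hy : ∀ n : gammaSub G L M (phiHom L M ψ hle),
      piHom G L M (phiHom L M ψ hle) n = 1 → n • y = y) :
    y ∈ Set.range (phiHom L M ψ hle) := by
  have hyF : (y : Qbar) ∈ ψ.fieldRange := by
    rw [← InfiniteGalois.fixedField_fixingSubgroup ψ.fieldRange,
      IntermediateField.mem_fixedField_iff]
    intro σ hσ
    have hσ' : ∀ x : L, σ (ψ x) = ψ ((1 : G) • x) := fun x => by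
      rw [one_smul]
      exact (IntermediateField.mem_fixingSubgroup_iff ψ.fieldRange σ).1 hσ _ ⟨x, rfl⟩
    have h1 := hy ⟨_, mk_mem_gammaSub G L M ψ hle σ 1 hσ'⟩ (piHom_mk G L M ψ hle σ 1 hσ')
    have h2 := congrArg (fun t : M.F => (t : Qbar)) h1
    have h3 : (((QuotientGroup.mk σ : M.Gal) • y : M.F) : Qbar) = σ (y : Qbar) :=
      level_mk_smul M σ y
    exact h3.symm.trans h2
  obtain ⟨x, hx⟩ := hyF
  exact ⟨x, Subtype.ext hx⟩

end Core

/-- **G-CM:GCL.** -/
theorem closureLevel : ClosureLevelSpec := by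
  intro S G L _ _ _ _ _ _
  -- an embedding of `L` in `ℚ̄`
  haveI : Algebra.IsAlgebraic ℚ L := Algebra.IsAlgebraic.of_finite ℚ L
  let ψ : L →ₐ[ℚ] Qbar := IsAlgClosed.lift
  have hF₀ : FiniteDimensional ℚ ψ.fieldRange :=
    (AlgEquiv.ofInjectiveField ψ).toLinearEquiv.finiteDimensional
  obtain ⟨S', M₀, hSS', hunr, hgal, hle⟩ :=
    exists_galois_ge_isUnramifiedOutside S ψ.fieldRange hF₀
  obtain ⟨M, hM⟩ : ∃ M : Level S', M.F = M₀ :=
    ⟨⟨M₀, hunr, (InfiniteGalois.normal_iff_isGalois M₀).2 hgal⟩, rfl⟩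
  have hle' : ∀ x : L, ψ x ∈ M.F := fun x => hM ▸ hle ⟨x, rfl⟩
  exact ⟨S', hSS', M, gammaSub G L M (phiHom L M ψ hle'), piHom G L M (phiHom L M ψ hle'),
    phiHom L M ψ hle', piHom_surjective G L M ψ hle', piHom_spec G L M _,
    mem_range_phiHom G L M ψ hle'⟩

end Fermat.Agent.S55.G.CM.H893

end
end
-- ===== PACK-END S55/G/CM/H893/Closure.lean

-- ===== PACK-BEGIN S55/G/CM/H587/DescIncl.lean
section


/-!
# S55 / layer G / block CM, leaf G-CM:DESCI                                    (helper587)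

`descIncl_of : G.DescentSpec → DescInclSpec` (exact shape `DescInclAssemblySpec` of
`G/CM/Spec.lean`): descent for `π : Γ' ↠ G` and an embedding `φ : L → M`, equivariant along `π`,
with image the fixed field of `ker π`, as an inclusion of `ker π`-invariants
`ι : Res_π C_S(L) ⟶ C_S(M)`.

Proof: apply `G.DescentSpec` to `(Γ', M)`, the normal subgroup `ker π`, the field `L` with
`Algebra L M := φ.toAlgebra` and the action of `Γ' ⧸ ker π` on `L` through
`QuotientGroup.kerLift π`; the representation of `Γ' ⧸ ker π` on `C_S(L)` is then definitionally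
the pull-back of the representation of `G` (`cRepr_compHom`).
-/

set_option autoImplicit false
set_option linter.style.haveILetI false

open CategoryTheory groupCohomology
open scoped NumberField

noncomputable section

namespace Fermat.Agent.S55.G.CM.H587

open Fermat.Agent.S55 Fermat.Agent.S55.G Fermat.Agent.S55.G.Rec

/-- The representation on `C_S(L)` of a group acting on `L` through a homomorphism `f : H → G` is
the pull-back along `f` of the representation of `G`. -/
theorem cRepr_compHom (S : Finset Nat.Primes) (H G L : Type) [Group H] [Group G] [Field L]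
    [NumberField L] [MulSemiringAction G L] (f : H →* G) (h : H) :
    letI : MulSemiringAction H L := MulSemiringAction.compHom L f
    cRepr S H L h = cRepr S G L (f h) := rfl

/-- **G-CM:DESCI.** -/
theorem descIncl_of (hD : G.DescentSpec) : DescInclSpec := by
  intro S Γ' G M L _ _ _ _ _ _ _ _ _ _ π φ hπ hS hunr hequiv hfix
  letI : Algebra L M := φ.toAlgebra
  letI : MulSemiringAction (Γ' ⧸ π.ker) L :=
    MulSemiringAction.compHom L (QuotientGroup.kerLift π)
  have h1 : ∀ x : M, (∀ n : π.ker, (n : Γ') • x = x) ↔ x ∈ (algebraMap L M).range := by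
    intro x
    constructor
    · intro h
      obtain ⟨y, hy⟩ := hfix x (fun n hn => h ⟨n, MonoidHom.mem_ker.2 hn⟩)
      exact ⟨y, hy⟩
    · rintro ⟨y, rfl⟩ n
      have hn : π (n : Γ') = 1 := MonoidHom.mem_ker.1 n.2
      have := hequiv (n : Γ') y
      rw [hn, one_smul] at this
      exact this.symm
  have h2 : ∀ (g : Γ') (x : L),
      algebraMap L M ((g : Γ' ⧸ π.ker) • x) = g • algebraMap L M x := by
    intro g x
    exact hequiv g x
  obtain ⟨ι, hinj, heq, hinv, -⟩ := hD S Γ' M L π.ker hS hunr h1 h2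
  have hcomm : ∀ (g : Γ') (c : CS S L), ι (cRepr S G L (π g) c) = cRepr S Γ' M g (ι c) :=
    fun g c => heq g c
  refine ⟨Rep.ofHom ⟨ι.toIntLinearMap, fun g => ?_⟩, ?_, ?_⟩
  · ext c
    exact hcomm g c
  · exact hinj
  · intro c hc
    exact (hinv c).1 (fun n => hc (n : Γ') n.2)

/-- The same, in the shape `DescInclAssemblySpec`. -/
theorem descInclAssembly : DescInclAssemblySpec := descIncl_of

end Fermat.Agent.S55.G.CM.H587

end
end
-- ===== PACK-END S55/G/CM/H587/DescIncl.lean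

-- ===== PACK-BEGIN S55/G/Rec/Tow/H417/KerJ.lean
section
/-
S55 / REC2-TOW (helper417): `kerJ_of : KerJAssemblySpec p`  — reciprocity in the form
"a `p`-primary class of `H²(H, J_S(M))` dying in `H²(H, C_S(M))` has semilocal invariant `0`".
-/


set_option autoImplicit false

open CategoryTheory groupCohomology

namespace Fermat.Agent.S55.G.Rec.TOW.H417

open Fermat.Agent.S55 Fermat.Agent.S55.Tow Fermat.Agent.S55.E1.H594

/-- **KERJ**. -/
theorem kerJ_of (p : ℕ) : KerJAssemblySpec p := by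
  intro hp I hSES hEx hPP hCT S hS M H a ha hja
  have hX : (G.classShortComplex S M.Gal M.F).ShortExact := hSES S M.Gal M.F hS
  obtain ⟨-, hExH⟩ := hEx M.Gal (G.classShortComplex S M.Gal M.F) hX
  -- `z := inl_* a` dies in `H²(H, C)`
  have hz0 : h2Sub (G.quotRepHom S M.Gal M.F) H (h2Sub (G.jInlRepHom S M.Gal M.F) H a) = 0 := by
    rw [← h2Sub_comp]
    exact hja
  obtain ⟨x, hx⟩ := hExH H _ hz0
  -- a `p`-primary lift
  have hkill : ∀ x : groupCohomology (T.resSub (lvlL M) H) 2, Nat.card H • x = 0 :=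
    fun x => hCT ℤ H (T.resSub (lvlL M) H) 2 (by norm_num) x
  have hzp : E1.IsPPrimary p
      ((h2Sub (G.diagRepHom S M.Gal M.F) H).toAddMonoidHom x) := by
    change E1.IsPPrimary p (h2Sub (G.diagRepHom S M.Gal M.F) H x)
    have hx' : h2Sub (G.diagRepHom S M.Gal M.F) H x =
        h2Sub (G.jInlRepHom S M.Gal M.F) H a := hx
    rw [hx']
    exact isPPrimary_map (h2Sub (G.jInlRepHom S M.Gal M.F) H).toAddMonoidHom ha
  obtain ⟨x', hx'p, hx'⟩ := hPP p hp _ _ (h2Sub (G.diagRepHom S M.Gal M.F) H).toAddMonoidHom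
    (Nat.card H) Nat.card_pos hkill x hzp
  have hx'' : h2Sub (G.diagRepHom S M.Gal M.F) H x' =
      h2Sub (G.jInlRepHom S M.Gal M.F) H a := hx'.trans hx
  -- the divisor class of `x'` vanishes
  have hord : h2Sub (G.ordRepHom S M.Gal M.F) H x' = 0 := by
    rw [← diagRepHom_comp_divSnd, h2Sub_comp, hx'', ← h2Sub_comp, jInl_comp_divSnd]
    exact h2Sub_zero _ _ H a
  -- the idèle class of `x'` is `a`
  have hdiag : h2Sub (diagJRepHom S M.Gal M.F) H x' = a := by
    rw [← diagRepHom_comp_jdFst, h2Sub_comp, hx'', ← h2Sub_comp, jInl_comp_jdFst]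
    exact h2Sub_id _ H a
  have := I.recip M H x' hx'p hord
  rwa [hdiag] at this

end Fermat.Agent.S55.G.Rec.TOW.H417

end
-- ===== PACK-END S55/G/Rec/Tow/H417/KerJ.lean

-- ===== PACK-BEGIN S55/G/Rec/Tow/H417/TotExact.lean
section
/-
S55 / REC2-TOW (helper417): `totExact_of : TotExactAssemblySpec p`  (memo T4': exactness at a
totally ramified place, by counting).
-/


set_option autoImplicit false

open CategoryTheory groupCohomology

namespace Fermat.Agent.S55.G.Rec.TOW.H417

open Fermat.Agent.S55 Fermat.Agent.S55.Tow Fermat.Agent.S55.E1.H594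

/-- In a finite `p`-group every class of `H²` is `p`-primary. -/
lemma isPPrimary_of_isPGroup (hCT : T.CardTorsionSpec) {p : ℕ} (hp : p.Prime) {Γ : Type} [Group Γ]
    [Finite Γ] (A : Rep.{0} ℤ Γ) (Z : Subgroup Γ) (hZ : IsPGroup p Z)
    (a : groupCohomology (T.resSub A Z) 2) : E1.IsPPrimary p a := by
  haveI : Fact p.Prime := ⟨hp⟩
  obtain ⟨n, hn⟩ := hZ.exists_card_eq
  refine ⟨n, ?_⟩
  rw [← hn]
  exact hCT ℤ Z (T.resSub A Z) 2 (by norm_num) a

/-- **T4'**. -/
theorem totExact_of (p : ℕ) : TotExactAssemblySpec p := by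
  intro I hK hUP hEC hCT S hp hp2 hpS M hMu r hr Z hZ hfix
  have hSne : S.Nonempty := ⟨_, hpS⟩
  obtain ⟨-, hfin, hdvd⟩ := hUP S hp hp2 hpS M hMu Z hZ
  obtain ⟨y₀, -, hy₀⟩ := I.locClass M r hr Z Z le_rfl hZ hfix
  exact hEC _ _ _ (h2Sub (lvlj M) Z).toAddMonoidHom (I.σ M Z) (Nat.card Z) Nat.card_pos
    (fun a ha => hK S hSne M Z a (isPPrimary_of_isPGroup hCT hp _ Z hZ a) ha)
    hfin hdvd ⟨y₀, hy₀⟩

end Fermat.Agent.S55.G.Rec.TOW.H417

end
-- ===== PACK-END S55/G/Rec/Tow/H417/TotExact.lean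

-- ===== PACK-BEGIN S55/G/Rec/Tow/H417/Gd3.lean
section
/-
S55 / REC2-TOW (helper417): `gd3_of : Gd3AssemblySpec p`  (memo T5: local–global injectivity
from reciprocity over `ℚ`).
-/


set_option autoImplicit false

open CategoryTheory groupCohomology

namespace Fermat.Agent.S55.G.Rec.TOW.H417

open Fermat.Agent.S55 Fermat.Agent.S55.Tow Fermat.Agent.S55.E1.H594

/-- **GD3**. -/
theorem gd3_of (p : ℕ) : Gd3AssemblySpec p := by
  intro I hK hN S L q hq y hy hat hj
  have hSne : S.Nonempty := ⟨q, hq⟩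
  have h1 : h2Sub (lvlj L) ⊤ (res2 (lvlJ L) ⊤ y) = 0 := by
    rw [hN L.Gal (lvlJ L) (lvlC L) (lvlj L) ⊤ y, hj, map_zero]
  have h2 : I.σ L ⊤ (res2 (lvlJ L) ⊤ y) = 0 :=
    hK S hSne L ⊤ _ (isPPrimary_map (res2 (lvlJ L) ⊤).toAddMonoidHom hy) h1
  exact I.injAt L q y hy hat h2

end Fermat.Agent.S55.G.Rec.TOW.H417

end
-- ===== PACK-END S55/G/Rec/Tow/H417/Gd3.lean

-- ===== PACK-BEGIN S55/G/Rec/Tow/H417/Closed.lean
section
/-
S55 / REC2-TOW (helper417, sub-architect): CLOSED FORMS of the TOW block — the targets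
`Gd1Spec`, `Gd3Spec`, `Gd8Spec` from the arithmetic inputs only, all pure-algebra leaves and
assemblies being discharged by the landed proofs
(H323 ALG-B, H371 ALG-CM, H953 ALG-INF, H781 gd1_of, H139 up_of, H417 ALG-A/KERJ/T4'/GD3).

  `kerJ      : p.Prime → ∀ I : SemiLocalInv p, KerJSpec p I`
  `totExact  : p.Prime → ∀ I : SemiLocalInv p, G.PClassUpperSpec → TotExactSpec p I`
  `gd3       : p.Prime → SemiLocalInv p → Gd3Spec p`
  `gd8       : G.PClassUpperSpec → Gd8Spec p`
  `gd1       : p.Prime → SemiLocalInv p → G.PClassUpperSpec → DescSpec → G.SIndepSpec →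
                 RamSpec p → Gd1Spec p`
-/












set_option autoImplicit false

namespace Fermat.Agent.S55.G.Rec.TOW.H417

open Fermat.Agent.S55

/-- KERJ, closed. -/
theorem kerJ {p : ℕ} (hp : p.Prime) (I : SemiLocalInv p) : KerJSpec p I :=
  kerJ_of p hp I G.SesSpecH604.classShortExactSpec H323.h2Exact pPrimaryLift T.H572.cardTorsion

/-- T4', closed (modulo G-UP). -/
theorem totExact {p : ℕ} (hp : p.Prime) (I : SemiLocalInv p) (hUP : G.PClassUpperSpec) :
    TotExactSpec p I :=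
  totExact_of p I (kerJ hp I) (H139.up_of p hUP) exactCount T.H572.cardTorsion

/-- **GD3** from the semilocal invariants. -/
theorem gd3 {p : ℕ} (hp : p.Prime) (I : SemiLocalInv p) : Gd3Spec p :=
  gd3_of p I (kerJ hp I) H323.resCoeffNat

/-- **GD8** from G-UP. -/
theorem gd8 {p : ℕ} (hUP : G.PClassUpperSpec) : Gd8Spec p :=
  H953.gd8 p (H139.up_of p hUP)

/-- **GD1** from the semilocal invariants, G-UP, descent, independence of `S` and the auxiliary
level. -/
theorem gd1 {p : ℕ} (hp : p.Prime) (I : SemiLocalInv p) (hUP : G.PClassUpperSpec)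
    (hDesc : DescSpec) (hSInd : G.SIndepSpec) (hRam : RamSpec p) : Gd1Spec p :=
  H781.gd1_of p I (kerJ hp I) (totExact hp I hUP) (H139.up_of p hUP) hDesc hSInd hRam
    H323.resTop H323.resCoeffNat H371.classModuleOfSylow H953.infResLift H323.resMapNat
    T.H572.resIndex

end Fermat.Agent.S55.G.Rec.TOW.H417

end
-- ===== PACK-END S55/G/Rec/Tow/H417/Closed.lean

-- ===== PACK-BEGIN S56/H419/H0Charpoly.lean
section



/-!
# S56 / W-BASE / leaf EUL-H0, part 6 (helper419): characteristic polynomials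

`permCharpoly k σ` (helper614, `S56/H614/Lattice.lean`) is the characteristic polynomial of
`a ↦ a ∘ σ` on `X → k`.  Mathlib-only lemmas:

* `charpoly_eq_of_intertwine` : conjugate endomorphisms have the same characteristic polynomial;
* `permCharpoly_congr_equiv` : invariance under equivariant bijections;
* `charpoly_lmapDomain` : `charpoly (mapDomain π | X →₀ M) = permCharpoly k π⁻¹` for `dim M = 1`;
* `permCharpoly_sum`, `permCharpoly_of_fibration` : multiplicativity on disjoint unions.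

Then the characteristic polynomials of the right translations on the `H⁰`'s of `H0Ind`/`H0Dual`
(`charpoly_resIndH0`, `charpoly_resTdualIndH0`, `charpoly_minusR`, `charpoly_indH0`).
-/

set_option autoImplicit false
set_option linter.style.haveILetI false
set_option linter.unusedSectionVars false

noncomputable section

namespace Fermat.Agent.S56.H419

open Fermat.Agent.S55.PT Fermat.Agent.S56.H614 groupCohomology MulAction Polynomial Module

/-! ### general lemmas -/

section General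

variable {R : Type*} [CommRing R] {M₁ M₂ : Type*} [AddCommGroup M₁] [Module R M₁]
  [AddCommGroup M₂] [Module R M₂]

/-- Conjugate endomorphisms have the same characteristic polynomial. -/
theorem charpoly_eq_of_intertwine [Module.Finite R M₁] [Module.Free R M₁]
    [Module.Finite R M₂] [Module.Free R M₂]
    (e : M₁ ≃ₗ[R] M₂) (f : M₁ →ₗ[R] M₁) (g : M₂ →ₗ[R] M₂) (h : ∀ x, e (f x) = g (e x)) :
    f.charpoly = g.charpoly := by
  have hg : g = e.conj f := by
    apply LinearMap.ext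
    intro y
    rw [LinearEquiv.conj_apply, LinearMap.comp_apply, LinearMap.comp_apply,
      LinearEquiv.coe_coe, LinearEquiv.coe_coe, h, LinearEquiv.apply_symm_apply]
  rw [hg, LinearEquiv.charpoly_conj]

end General

section Perm

variable (k : Type*) [Field k] {X Y : Type*} [Finite X] [Finite Y]

/-- `permCharpoly` is invariant under equivariant bijections. -/
theorem permCharpoly_congr_equiv (e : X ≃ Y) (σ : X → X) (τ : Y → Y)
    (h : ∀ x, e (σ x) = τ (e x)) : permCharpoly k σ = permCharpoly k τ := by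
  unfold permCharpoly
  symm
  refine charpoly_eq_of_intertwine (LinearEquiv.funCongrLeft k k e) _ _ ?_
  intro a
  funext x
  simp only [LinearEquiv.funCongrLeft_apply, LinearMap.funLeft_apply, h]

/-- `permCharpoly` of equal maps. -/
theorem permCharpoly_congr {σ τ : X → X} (h : ∀ x, σ x = τ x) :
    permCharpoly k σ = permCharpoly k τ := by
  have : σ = τ := funext h
  rw [this]

/-- The characteristic polynomial of `mapDomain π` on `X →₀ k`. -/
theorem charpoly_lmapDomain_self (π : Equiv.Perm X) :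
    (Finsupp.lmapDomain k k π).charpoly = permCharpoly k π.symm := by
  unfold permCharpoly
  refine charpoly_eq_of_intertwine (Finsupp.linearEquivFunOnFinite k k X) _ _ ?_
  intro a
  funext x
  simp only [Finsupp.linearEquivFunOnFinite_apply, LinearMap.funLeft_apply,
    Finsupp.lmapDomain_apply]
  exact mapDomain_perm_apply π a x

/-- The characteristic polynomial of `mapDomain π` on `X →₀ M`, `dim M = 1`. -/
theorem charpoly_lmapDomain {M : Type*} [AddCommGroup M] [Module k M] [Module.Finite k M]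
    (hM : Module.finrank k M = 1) (π : Equiv.Perm X) :
    (Finsupp.lmapDomain M k π).charpoly = permCharpoly k π.symm := by
  have e : M ≃ₗ[k] k := LinearEquiv.ofFinrankEq M k (by rw [hM, Module.finrank_self])
  rw [← charpoly_lmapDomain_self]
  refine charpoly_eq_of_intertwine (Finsupp.mapRange.linearEquiv e) _ _ ?_
  intro a
  ext x
  simp only [Finsupp.mapRange.linearEquiv_apply, Finsupp.lmapDomain_apply,
    Finsupp.mapRange_apply]
  rw [mapDomain_perm_apply, mapDomain_perm_apply, Finsupp.mapRange_apply]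

/-- `permCharpoly` on a disjoint union. -/
theorem permCharpoly_sum (σ : X → X) (τ : Y → Y) :
    permCharpoly k (Sum.map σ τ) = permCharpoly k σ * permCharpoly k τ := by
  unfold permCharpoly
  rw [← LinearMap.charpoly_prodMap]
  refine charpoly_eq_of_intertwine (LinearEquiv.sumArrowLequivProdArrow X Y k k) _ _ ?_
  intro a
  rfl

/-- `permCharpoly` on the empty set. -/
theorem permCharpoly_of_isEmpty [IsEmpty X] (σ : X → X) : permCharpoly k σ = 1 := by
  unfold permCharpoly
  haveI : Subsingleton (X → k) := inferInstance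
  have hm : (LinearMap.funLeft k k σ).charpoly.Monic := LinearMap.charpoly_monic _
  rw [← Polynomial.Monic.natDegree_eq_zero hm, LinearMap.charpoly_natDegree]
  exact Module.finrank_zero_of_subsingleton

end Perm

/-! ### characteristic polynomials of right translations on `H⁰` -/

section H0

variable {k : Type} [Field k] {G : Type} [Group G]

variable (U : Subgroup G) [U.Normal] [U.FiniteIndex] (M : Rep.{0, 0, 0} k G) [Module.Finite k M]

/-- **Global `H⁰`.** The characteristic polynomial of the right translation on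
`H⁰(G, Ind_U M)` is that of `σ` on `M^U`. -/
theorem charpoly_indH0 (σ : G) :
    (pushH0 (A := indRep U M) (B := indRep U M) (indR U M σ)
      (indR_equivariant U M σ)).charpoly = (invUAct U M σ).charpoly :=
  charpoly_eq_of_intertwine (indH0Equiv U M) _ _ (indH0Equiv_indR U M σ)

variable {G' : Type} [Group G'] (r : G' →* G)

/-- **Local `H⁰`, trivial coefficients of dimension 1.** -/
theorem charpoly_resIndH0 (hM : ∀ (g : G') (m : M), M.ρ (r g) m = m)
    (hM1 : Module.finrank k M = 1) (σ : G) :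
    (pushH0 (A := Rep.res r (indRep U M)) (B := Rep.res r (indRep U M)) (indR U M σ)
      (indR_res_equivariant r U M σ)).charpoly =
      permCharpoly k (dcPerm r.range U σ).symm := by
  rw [← charpoly_lmapDomain k hM1 (dcPerm r.range U σ)]
  exact charpoly_eq_of_intertwine (resIndH0Equiv r U M hM) _ _ (resIndH0Equiv_indR r U M hM σ)

/-- **Local `H⁰` of the Tate dual of `Ind_U k(χ)`.** -/
theorem charpoly_resTdualIndH0 (χ : G →* kˣ)
    (hM : ∀ (g : G) (m : M), M.ρ g m = (χ g : k) • m)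
    (hM1 : Module.finrank k M = 1) (σ : G) :
    (pushH0 (A := Rep.res r ((indRep U M).dualTwist χ))
      (B := Rep.res r ((indRep U M).dualTwist χ)) (indRDual U M σ)
      (indRDual_res_equivariant r U M χ σ)).charpoly =
      permCharpoly k (dcPerm r.range U σ).symm := by
  have hD : Module.finrank k (Module.Dual k M) = 1 := by
    rw [Subspace.dual_finrank_eq, hM1]
  rw [← charpoly_lmapDomain k hD (dcPerm r.range U σ)]
  exact charpoly_eq_of_intertwine (resTdualIndH0Equiv r U M χ hM) _ _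
    (resTdualIndH0Equiv_indR r U M χ hM σ)

/-- **Archimedean term.** -/
theorem charpoly_minusR (c : G) (hc : ∀ m : M, M.ρ c m = -m)
    (hM1 : Module.finrank k M = 1) (σ : G) :
    (minusR c U M σ).charpoly = permCharpoly k (dcPerm (Subgroup.zpowers c) U σ).symm := by
  rw [← charpoly_lmapDomain k hM1 (dcPerm (Subgroup.zpowers c) U σ)]
  exact charpoly_eq_of_intertwine (minusIndEquiv c U M hc) _ _ (minusIndEquiv_indR c U M hc σ)

end H0

end Fermat.Agent.S56.H419

end

end
-- ===== PACK-END S56/H419/H0Charpoly.lean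

-- ===== PACK-BEGIN S55/Inv/CokAbsH99.lean
section
/-
S55 (Poitou–Tate), route C′, input `InvSpec`, leaf INV-COK (helper99), part 1: the ABSTRACT adapter.

Setting: a global group `G` with level system `L`, finitely many local groups `Gv v` with level
systems `Lv v` and level-compatible maps `r v : Gv v → G`; an `F_p`-representation `M` of `G`
with a Kummer embedding `κ : M → E` into a smooth `p`-divisible `ℤ`-representation `E` of `G`
(think `M = Ind_U μ_p`, `E = Ind_U` (`S`-units of `ℚ̄`); only `LCDivisible` is needed, which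
follows from `K.KummerSpec`: `lcDivisible_of_kummer`); for every `v` a smooth `p`-divisible
`ℤ`-representation `B v` of `Gv v` with `H¹_lc(Gv v, B v) = 0` (think `B v = Ind_U ℚ̄_vˣ`) and an
equivariant map `lam v : E → B v` such that `lam v ∘ κ` is a Kummer embedding of `M|_{Gv v}`.

`exists_functional_of_twoFamily`:  if the cokernel of
`H²_lc(G, E)[p] → ∏_v H²_lc(Gv v, B v)[p]` has at most `p` elements — in the cochain form
`TwoFamily` ("any two families of `p`-torsion local classes are linearly dependent modulo the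
global `p`-torsion classes") — then the image of
`loc2 : H²_lc(G, M) → ∏_v H²_lc(Gv v, M)` contains the kernel of a linear functional.

This is exactly the conclusion of `Inv.GlobCokerSpec` for `M = Ind_U μ_p`.
No arithmetic; only `KC.H53` (Kummer theory at the level of level-constant cochains).
-/


set_option autoImplicit false
set_option linter.style.haveILetI false
set_option linter.unusedSectionVars false

noncomputable section

namespace Fermat.Agent.S55.Inv.H99

open groupCohomology ExtCitation Fermat.Agent.S55.PT Fermat.Agent.S55.KC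

/-! ## 1. Linear algebra: pairwise dependence modulo `W` ⇒ `W` contains a hyperplane -/

/-- If any two vectors of `V` are linearly dependent modulo the subspace `W`, then `W` contains
the kernel of a linear functional. -/
theorem exists_functional_of_pairwise {k V : Type*} [Field k] [AddCommGroup V] [Module k V]
    (W : Submodule k V)
    (h : ∀ x x' : V, ∃ a b : k, (a ≠ 0 ∨ b ≠ 0) ∧ a • x + b • x' ∈ W) :
    ∃ f : V →ₗ[k] k, LinearMap.ker f ≤ W := by
  by_cases hW : ∀ x : V, x ∈ W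
  · exact ⟨0, fun x _ => hW x⟩
  · obtain ⟨x₀, hx₀⟩ := not_forall.1 hW
    have hq₀ : W.mkQ x₀ ≠ 0 := by
      intro h0
      exact hx₀ ((Submodule.Quotient.mk_eq_zero W).1 h0)
    obtain ⟨φ, hφ⟩ : ∃ φ : Module.Dual k (V ⧸ W), φ (W.mkQ x₀) ≠ 0 := by
      by_contra hcon
      refine hq₀ ((Module.forall_dual_apply_eq_zero_iff k _).1 fun φ => ?_)
      by_contra hφ
      exact hcon ⟨φ, hφ⟩
    refine ⟨φ ∘ₗ W.mkQ, fun x hx => ?_⟩
    have hfx : φ (W.mkQ x) = 0 := hx
    obtain ⟨a, b, hab, hmem⟩ := h x₀ x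
    have h1 : a • W.mkQ x₀ + b • W.mkQ x = 0 := by
      rw [← map_smul, ← map_smul, ← map_add]
      exact (Submodule.Quotient.mk_eq_zero W).2 hmem
    have h2 : a * φ (W.mkQ x₀) = 0 := by
      have := congrArg φ h1
      rw [map_add, map_smul, map_smul, hfx, smul_zero, add_zero, map_zero, smul_eq_mul] at this
      exact this
    have ha : a = 0 := (mul_eq_zero.1 h2).resolve_right hφ
    have hb : b ≠ 0 := hab.resolve_left (fun h => h ha)
    rw [ha, zero_smul, zero_add] at hmem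
    have := W.smul_mem b⁻¹ hmem
    rwa [smul_smul, inv_mul_cancel₀ hb, one_smul] at this

/-! ## 2. Divisibility of level-constant cochains -/

section LCDiv

variable {G : Type} [Group G] (L : LevelSys G)

/-- `x` is fixed by some level. -/
def IsSmoothElt {k : Type} [CommRing k] (E : Rep.{0, 0, 0} k G) (x : E) : Prop :=
  ∃ U ∈ L.levels, ∀ s ∈ U, E.ρ s x = x

/-- The level-constant 1-cochains of `E` with level-constant coboundary are `p`-divisible
(as such). -/
def LCDivisible (p : ℕ) (E : Rep.{0, 0, 0} ℤ G) : Prop :=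
  ∀ b : G → E, L.IsLC₁ b → L.IsLC₂ ((d₁₂ E).hom b) →
    ∃ b₁ : G → E, L.IsLC₁ b₁ ∧ L.IsLC₂ ((d₁₂ E).hom b₁) ∧ p • b₁ = b

variable {L}

/-- Finitely many smooth elements are fixed by a common level. -/
lemma exists_level_fixing_of_finite {k : Type} [CommRing k] {E : Rep.{0, 0, 0} k G}
    {T : Set E} (hT : T.Finite) (hsm : ∀ t ∈ T, IsSmoothElt L E t) :
    ∃ W ∈ L.levels, ∀ t ∈ T, ∀ s ∈ W, E.ρ s t = t := by
  classical
  induction T, hT using Set.Finite.induction_on with
  | empty =>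
    obtain ⟨U, hU⟩ := L.nonempty
    exact ⟨U, hU, by simp⟩
  | @insert a T _ _ ih =>
    obtain ⟨W, hW, h⟩ := ih (fun t ht => hsm t (Set.mem_insert_of_mem a ht))
    obtain ⟨U, hU, hUa⟩ := hsm a (Set.mem_insert a T)
    obtain ⟨V, hV, hle⟩ := L.directed U hU W hW
    refine ⟨V, hV, fun t ht s hs => ?_⟩
    rcases ht with rfl | ht
    · exact hUa s (hle hs).1
    · exact h t ht s (hle hs).2

/-- **Key remark.**  If `b` is constant modulo the normal subgroup `N` and `d b` is constant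
modulo `N`, then all values of `b` are `N`-invariant. -/
lemma values_fixed_of_const {k : Type} [CommRing k] {E : Rep.{0, 0, 0} k G} {N : Subgroup G}
    (hN : N.Normal) {b : G → E} (hb : ∀ g s : G, s ∈ N → b (g * s) = b g)
    (hdb : ∀ g g' s s' : G, s ∈ N → s' ∈ N →
      (d₁₂ E).hom b (g * s, g' * s') = (d₁₂ E).hom b (g, g'))
    (h : G) (s : G) (hs : s ∈ N) : E.ρ s (b h) = b h := by
  have h1 := hdb 1 h s 1 hs N.one_mem
  simp only [d₁₂_hom_apply, one_mul, mul_one, map_one, Module.End.one_apply] at h1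
  have h2 : b (s * h) = b h := by
    have : s * h = h * (h⁻¹ * s * h) := by group
    rw [this]
    refine hb h _ ?_
    have := hN.conj_mem s hs h⁻¹
    simpa using this
  have h3 : b s = b 1 := by
    have := hb 1 s hs
    rwa [one_mul] at this
  rw [h2, h3] at h1
  -- h1 : ρ s (b h) - b h + b 1 = b h - b h + b 1
  have h4 : E.ρ s (b h) - b h = 0 := by
    have := congrArg (fun t => t - b 1) h1
    simpa using this
  exact sub_eq_zero.1 h4

/-- `d` of a level-constant 1-cochain with smooth values is level-constant. -/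
lemma d₁₂_isLC₂_of_values_smooth (hN : L.NormalCofinal) (hF : L.FiniteIndex)
    {k : Type} [CommRing k] {E : Rep.{0, 0, 0} k G} {x : G → E} (hx : L.IsLC₁ x)
    (hsm : ∀ g, IsSmoothElt L E (x g)) : L.IsLC₂ ((d₁₂ E).hom x) := by
  obtain ⟨W, hW, hfix⟩ := exists_level_fixing_of_finite (H53.finite_range_of_isLC₁ L hF hx)
    (by rintro _ ⟨g, rfl⟩; exact hsm g)
  obtain ⟨V, hV, hxV⟩ := hx
  obtain ⟨W', hW', hle⟩ := L.directed W hW V hV
  obtain ⟨N, hNl, hNW, hNn⟩ := hN W' hW'
  refine ⟨N, hNl, fun g g' s s' hs hs' => ?_⟩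
  have hconj : g'⁻¹ * s * g' ∈ N := by
    have := hNn.conj_mem s hs g'⁻¹
    simpa using this
  have hmem : g'⁻¹ * s * g' * s' ∈ V := (hle (hNW (N.mul_mem hconj hs'))).2
  have e1 : g * s * (g' * s') = g * g' * (g'⁻¹ * s * g' * s') := by group
  simp only [d₁₂_hom_apply]
  rw [e1, hxV (g * g') _ hmem, hxV g' s' (hle (hNW hs')).2, hxV g s (hle (hNW hs)).2, map_mul,
    Module.End.mul_apply, hfix (x g') ⟨g', rfl⟩ s (hle (hNW hs)).1]

/-- Kummer-type divisibility (smooth elements have smooth `p`-th roots) implies `LCDivisible`. -/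
theorem lcDivisible_of_kummer (hN : L.NormalCofinal) (hF : L.FiniteIndex) (p : ℕ)
    (E : Rep.{0, 0, 0} ℤ G)
    (hK : ∀ x : E, IsSmoothElt L E x → ∃ y : E, p • y = x ∧ IsSmoothElt L E y) :
    LCDivisible L p E := by
  classical
  intro b hb hdb
  -- a common normal level
  obtain ⟨U₁, hU₁, h₁⟩ := hb
  obtain ⟨U₂, hU₂, h₂⟩ := hdb
  obtain ⟨W, hW, hle⟩ := L.directed U₁ hU₁ U₂ hU₂
  obtain ⟨N, hNl, hNW, hNn⟩ := hN W hW
  have hval : ∀ g, IsSmoothElt L E (b g) := fun g =>
    ⟨N, hNl, fun s hs => values_fixed_of_const hNn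
      (fun g s hs => h₁ g s (hle (hNW hs)).1)
      (fun g g' s s' hs hs' => h₂ g g' s s' (hle (hNW hs)).2 (hle (hNW hs')).2) g s hs⟩
  let root : E → E := fun x => if hx : IsSmoothElt L E x then (hK x hx).choose else 0
  have hroot : ∀ x, IsSmoothElt L E x → p • root x = x ∧ IsSmoothElt L E (root x) := by
    intro x hx
    simp only [root, dif_pos hx]
    exact (hK x hx).choose_spec
  have hb₁ : L.IsLC₁ (root ∘ b) := LevelSys.IsLC₁.comp ⟨U₁, hU₁, h₁⟩ root
  refine ⟨root ∘ b, hb₁, ?_, ?_⟩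
  · exact d₁₂_isLC₂_of_values_smooth hN hF hb₁ (fun g => (hroot _ (hval g)).2)
  · funext g
    exact (hroot _ (hval g)).1

/-- A smooth `p`-divisible representation is `LCDivisible`. -/
theorem lcDivisible_of_smooth (hN : L.NormalCofinal) (hF : L.FiniteIndex) (p : ℕ)
    (E : Rep.{0, 0, 0} ℤ G) (hsm : L.IsSmooth E) (hdiv : IsPDivisible p E) :
    LCDivisible L p E :=
  lcDivisible_of_kummer hN hF p E fun x _ => by
    obtain ⟨y, hy⟩ := hdiv x
    exact ⟨y, hy, hsm y⟩

variable {p : ℕ} [Fact p.Prime] {M : Rep.{0, 0, 0} (ZMod p) G} {E : Rep.{0, 0, 0} ℤ G}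
  {κ : M →+ E}

/-- Surjectivity of `H²_lc(M) → H²_lc(E)[p]` for an `LCDivisible` module `E`. -/
lemma exists_Z2_of_lcDivisible (hE : LCDivisible L p E) (hκ : IsKummerEmb p M E κ)
    {a : G × G → E} (ha : a ∈ L.Z2 E) (hpa : p • a ∈ L.B2 E) :
    ∃ m : G × G → M, m ∈ L.Z2 M ∧ κ ∘ m - a ∈ L.B2 E := by
  obtain ⟨b, hb, hba⟩ := hpa
  have hdb : L.IsLC₂ ((d₁₂ E).hom b) := by
    rw [hba]
    exact LevelSys.IsLC₂.comp ha.2 (p • ·)
  obtain ⟨b₁, hb₁lc, hdlc, hpb₁⟩ := hE b hb hdb
  have hkill : ∀ x, p • (a - (d₁₂ E).hom b₁) x = 0 := by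
    intro x
    have h1 : (p • (a - (d₁₂ E).hom b₁)) = 0 := by
      rw [smul_sub, ← map_nsmul, hpb₁]
      exact sub_eq_zero.2 hba.symm
    have := congrFun h1 x
    simpa using this
  obtain ⟨m, hm⟩ := H53.exists_lift_of_p_nsmul_eq_zero hκ _ hkill
  refine ⟨m, ⟨?_, ?_⟩, ?_⟩
  · refine (H53.ι_mem_cocycles₂_iff hκ m).1 ?_
    rw [hm]
    exact (cocycles₂ E).sub_mem ha.1 (d₁₂_apply_mem_cocycles₂ b₁)
  · apply H53.isLC₂_of_ι L hκ
    rw [hm]
    exact H53.IsLC₂.sub' L ha.2 hdlc
  · rw [hm]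
    have : a - (d₁₂ E).hom b₁ - a = (d₁₂ E).hom (-b₁) := by
      rw [map_neg]; abel
    rw [this]
    exact ⟨-b₁, (L.C1 E).neg_mem hb₁lc, rfl⟩

end LCDiv

/-! ## 3. The abstract adapter -/

section Abstract

variable {G : Type} [Group G] {ι : Type} [Fintype ι] [DecidableEq ι]
  {Gv : ι → Type} [∀ v, Group (Gv v)]
  {L : LevelSys G} {Lv : ∀ v, LevelSys (Gv v)} {r : ∀ v, Gv v →* G}
  (hr : ∀ v, IsLevelCompatible (r v) L (Lv v))
  (p : ℕ) [Fact p.Prime]
  (M : Rep.{0, 0, 0} (ZMod p) G) (E : Rep.{0, 0, 0} ℤ G) (κ : M →+ E)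
  (B : ∀ v, Rep.{0, 0, 0} ℤ (Gv v)) (lam : ∀ v, E →+ B v)

/-- **GO4, abstract two-family cochain form.**  The cokernel of
`H²_lc(G, E)[p] → ∏_v H²_lc(Gv v, B v)[p]` has at most `p` elements: for any two families
`X, X'` of level-constant local 2-cocycles whose classes are killed by `p` there are integers
`(a, b) ≢ (0, 0)` mod `p` and a level-constant global 2-cocycle `y` whose class is killed by `p`
such that `a X_v + b X'_v` is cohomologous to the localisation of `y` for all `v`. -/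
def TwoFamily (L : LevelSys G) (Lv : ∀ v, LevelSys (Gv v)) (r : ∀ v, Gv v →* G) (p : ℕ)
    (E : Rep.{0, 0, 0} ℤ G) (B : ∀ v, Rep.{0, 0, 0} ℤ (Gv v)) (lam : ∀ v, E →+ B v) : Prop :=
  ∀ X X' : ∀ v, Gv v × Gv v → B v,
    (∀ v, X v ∈ (Lv v).Z2 (B v) ∧ p • X v ∈ (Lv v).B2 (B v)) →
    (∀ v, X' v ∈ (Lv v).Z2 (B v) ∧ p • X' v ∈ (Lv v).B2 (B v)) →
    ∃ a b : ℤ, ¬ ((p : ℤ) ∣ a ∧ (p : ℤ) ∣ b) ∧
      ∃ y : G × G → E, y ∈ L.Z2 E ∧ p • y ∈ L.B2 E ∧
        ∀ v, a • X v + b • X' v - (fun x : Gv v × Gv v => lam v (y (r v x.1, r v x.2))) ∈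
          (Lv v).B2 (B v)

variable {p M E κ B lam}

include hr in
/-- Localisation of a global level-constant coboundary is a local level-constant coboundary. -/
lemma loc_mem_B2 (hlam : ∀ v (g : Gv v) (e : E), lam v (E.ρ (r v g) e) = (B v).ρ g (lam v e))
    (v : ι) {z : G × G → E} (hz : z ∈ L.B2 E) :
    (fun x : Gv v × Gv v => lam v (z (r v x.1, r v x.2))) ∈ (Lv v).B2 (B v) := by
  obtain ⟨e, he, rfl⟩ := hz
  refine ⟨fun g => lam v (e (r v g)), ?_, ?_⟩
  · have h1 : (Lv v).IsLC₁ (e ∘ r v) := IsLC₁.res (hr v) he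
    exact LevelSys.IsLC₁.comp h1 (lam v)
  · funext ⟨g, h⟩
    simp only [d₁₂_hom_apply, map_add, map_sub, hlam, map_mul]

/-- **INV-COK, abstract form.** -/
theorem exists_functional_of_twoFamily
    (hEdiv : LCDivisible L p E) (hκ : IsKummerEmb p M E κ)
    (hlam : ∀ v (g : Gv v) (e : E), lam v (E.ρ (r v g) e) = (B v).ρ g (lam v e))
    (hBsm : ∀ v, (Lv v).IsSmooth (B v)) (hBdiv : ∀ v, IsPDivisible p (B v))
    (hBκ : ∀ v, IsKummerEmb p (Rep.res (r v) M) (B v) ((lam v).comp κ))
    (hB1 : ∀ v, H1Vanish (Lv v) (B v))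
    (hGO4 : TwoFamily L Lv r p E B lam) :
    ∃ f : ((v : ι) → (Lv v).H2 (Rep.res (r v) M)) →ₗ[ZMod p] ZMod p,
      LinearMap.ker f ≤ LinearMap.range (loc2 hr M) := by
  refine exists_functional_of_pairwise _ fun x x' => ?_
  -- cocycle representatives
  choose c hc using fun v => (Lv v).H2π_surjective (Rep.res (r v) M) (x v)
  choose c' hc' using fun v => (Lv v).H2π_surjective (Rep.res (r v) M) (x' v)
  -- push to `B v`
  have hX : ∀ v, (((lam v).comp κ) ∘ (c v : Gv v × Gv v → Rep.res (r v) M)) ∈ (Lv v).Z2 (B v) ∧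
      p • (((lam v).comp κ) ∘ (c v : Gv v × Gv v → Rep.res (r v) M)) ∈ (Lv v).B2 (B v) := by
    intro v
    refine ⟨H53.ι_mem_Z2 (Lv v) (hBκ v) (c v).2, ?_⟩
    have : p • (((lam v).comp κ) ∘ (c v : Gv v × Gv v → Rep.res (r v) M)) = 0 := by
      funext y
      exact H53.p_nsmul_ι (ι := (lam v).comp κ) ((c v : Gv v × Gv v → Rep.res (r v) M) y)
    rw [this]
    exact ((Lv v).B2 (B v)).zero_mem
  have hX' : ∀ v, (((lam v).comp κ) ∘ (c' v : Gv v × Gv v → Rep.res (r v) M)) ∈ (Lv v).Z2 (B v) ∧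
      p • (((lam v).comp κ) ∘ (c' v : Gv v × Gv v → Rep.res (r v) M)) ∈ (Lv v).B2 (B v) := by
    intro v
    refine ⟨H53.ι_mem_Z2 (Lv v) (hBκ v) (c' v).2, ?_⟩
    have : p • (((lam v).comp κ) ∘ (c' v : Gv v × Gv v → Rep.res (r v) M)) = 0 := by
      funext y
      exact H53.p_nsmul_ι (ι := (lam v).comp κ) ((c' v : Gv v × Gv v → Rep.res (r v) M) y)
    rw [this]
    exact ((Lv v).B2 (B v)).zero_mem
  obtain ⟨a, b, hab, y, hy, hpy, hloc⟩ := hGO4 _ _ hX hX'
  -- global Kummer surjectivity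
  obtain ⟨m, hm, hmy⟩ := exists_Z2_of_lcDivisible hEdiv hκ hy hpy
  refine ⟨(a : ZMod p), (b : ZMod p), ?_, ?_⟩
  · by_contra hcon
    rw [not_or, not_not, not_not] at hcon
    exact hab ⟨(ZMod.intCast_zmod_eq_zero_iff_dvd a p).1 hcon.1,
      (ZMod.intCast_zmod_eq_zero_iff_dvd b p).1 hcon.2⟩
  · refine ⟨L.H2π M ⟨m, hm⟩, ?_⟩
    funext v
    rw [loc2_apply, resH2_mk, Pi.add_apply, Pi.smul_apply, Pi.smul_apply, ← hc v, ← hc' v,
      ← map_smul, ← map_smul, ← map_add, ← sub_eq_zero, ← map_sub, LevelSys.H2π_eq_zero_iff]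
    -- local Kummer injectivity
    refine H53.mem_B2_of_ι_mem_B2 (Lv v) (hBsm v) (hBdiv v) (hBκ v) (hB1 v) ?_
    have key : ((lam v).comp κ) ∘ ((resZ2 (hr v) M ⟨m, hm⟩ -
        ((a : ZMod p) • c v + (b : ZMod p) • c' v) : ↥((Lv v).Z2 (Rep.res (r v) M))) :
          Gv v × Gv v → Rep.res (r v) M) =
        (fun x : Gv v × Gv v => lam v ((κ ∘ m - y) (r v x.1, r v x.2))) -
          (a • (((lam v).comp κ) ∘ (c v : Gv v × Gv v → Rep.res (r v) M)) +
            b • (((lam v).comp κ) ∘ (c' v : Gv v × Gv v → Rep.res (r v) M)) -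
            (fun x : Gv v × Gv v => lam v (y (r v x.1, r v x.2)))) := by
      funext z
      have e1 : ∀ (n : ℤ) (t : Rep.res (r v) M),
          ((lam v).comp κ) ((n : ZMod p) • t) = n • ((lam v).comp κ) t := by
        intro n t
        rw [Int.cast_smul_eq_zsmul, map_zsmul]
      show ((lam v).comp κ) (m (r v z.1, r v z.2) -
          ((a : ZMod p) • (c v : Gv v × Gv v → Rep.res (r v) M) z +
            (b : ZMod p) • (c' v : Gv v × Gv v → Rep.res (r v) M) z)) = _
      rw [map_sub, map_add, e1, e1]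
      simp only [Pi.sub_apply, Pi.add_apply, Pi.smul_apply, Function.comp_apply, map_sub,
        AddMonoidHom.comp_apply]
      abel
    rw [key]
    exact ((Lv v).B2 (B v)).sub_mem (loc_mem_B2 hr hlam v hmy) (hloc v)

end Abstract

end Fermat.Agent.S55.Inv.H99

end

end
-- ===== PACK-END S55/Inv/CokAbsH99.lean

-- ===== PACK-BEGIN S55/Inv/CokH99.lean
section
/-
S55 (Poitou–Tate), route C′, input `InvSpec`, leaf INV-COK (helper99), part 2: the adapter

    globCoker_of : p ≠ 2 → pPrime p ∈ S → K.KummerSpec p S → SemiLocalH90Spec S → GO4Spec p S →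
      Inv.GlobCokerSpec p S

* `GO4Spec p S`        : the arithmetic input (layer K / G), in cochain form, with the modules of
                         `K/Defs.lean`: `Ind_U 𝔼 = K.indG U (K.sUnits S)`,
                         `Ind_U ℚ̄_qˣ = K.ind (rl q) U (Tow.unitsQpbar q)`, `K.indLocE`.
* `SemiLocalH90Spec S` : `H¹_lc(G_q, Ind_U ℚ̄_qˣ) = 0`.
* KUM = `K.KummerSpec p S`.

Proved here, unconditionally:
* `isKummerEmb_kappa0`  : `μ_p = F_p(χ_p) → 𝔼` is a Kummer embedding (`𝔼[p] = μ_p`);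
* `lcDivisible_ind_sUnits` (from KUM): level-constant cochains of `Ind_U 𝔼` with level-constant
  coboundary are `p`-divisible;
* `isPDivisible_unitsQpbar`, `isSmooth_unitsQpbar` (Krasner, `Bridge/Krasner`),
  `isKummerEmb_locMu` (`μ_p → ℚ̄_qˣ` is a Kummer embedding), `locE_equivariant`;
* `isKummerEmb_ind_res`, `isSmooth_ind_res`, `indLocE_equivariant`: the same for `Ind_U`.
-/







set_option autoImplicit false
set_option linter.style.haveILetI false
set_option linter.unusedSectionVars false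
noncomputable section
namespace Fermat.Agent.S55.Inv.H99

open groupCohomology ExtCitation Fermat.Agent.S55.PT Fermat.Agent.S55.KC Fermat.Agent.S55.Bridge

variable (p : ℕ) [Fact p.Prime] (S : Finset Nat.Primes)

/-! ## 1. The global Kummer embedding `μ_p → 𝔼` -/

/-- `κ₀ : μ_p = F_p(χ_p) → 𝔼`. -/
def kappa0 : (mu p) →+ (K.sUnits S) :=
  (K.muToE p S).comp (AddMonoidHomClass.toAddMonoidHom (muPLinearEquiv p))

lemma kappa0_apply (m : mu p) : kappa0 p S m = K.muToE p S (muPLinearEquiv p m) := rfl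

lemma coe_muToE (x : muP p) :
    ((Additive.toMul (K.sUnitsIncl S (K.muToE p S x)) : K.Qbarˣ) : K.Qbar) =
      (((MuP.root (p := p) x : rootsOfUnity p (AlgebraicClosure ℚ)) : (AlgebraicClosure ℚ)ˣ) :
        AlgebraicClosure ℚ) := rfl

lemma sUnits_ext {a b : K.sUnits S}
    (h : ((Additive.toMul (K.sUnitsIncl S a) : K.Qbarˣ) : K.Qbar) =
      ((Additive.toMul (K.sUnitsIncl S b) : K.Qbarˣ) : K.Qbar)) : a = b := by
  apply Subtype.ext
  apply Additive.toMul.injective
  exact Units.ext h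

lemma coe_sUnits_ρ (g : _root_.Fermat.Agent.S55.PT.GQ) (a : K.sUnits S) :
    ((Additive.toMul (K.sUnitsIncl S ((K.sUnits S).ρ g a)) : K.Qbarˣ) : K.Qbar) =
      g ((Additive.toMul (K.sUnitsIncl S a) : K.Qbarˣ) : K.Qbar) := rfl

lemma coe_sUnits_nsmul (n : ℕ) (a : K.sUnits S) :
    ((Additive.toMul (K.sUnitsIncl S (n • a)) : K.Qbarˣ) : K.Qbar) =
      ((Additive.toMul (K.sUnitsIncl S a) : K.Qbarˣ) : K.Qbar) ^ n := rfl

lemma coe_sUnits_zero :
    ((Additive.toMul (K.sUnitsIncl S (0 : K.sUnits S)) : K.Qbarˣ) : K.Qbar) = 1 := rfl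

/-- `κ₀` is a Kummer embedding. -/
theorem isKummerEmb_kappa0 : IsKummerEmb p (mu p) (K.sUnits S) (kappa0 p S) where
  injective := (K.muToE_injective p S).comp (muPLinearEquiv p).injective
  equivariant := by
    intro g m
    apply sUnits_ext
    have h1 : muPLinearEquiv p ((mu p).ρ g m) = muPRep p g (muPLinearEquiv p m) :=
      LinearMap.congr_fun ((muPRepEquivOfChar p).isIntertwining' g) m
    show (((MuP.root (p := p) (muPLinearEquiv p ((mu p).ρ g m)) :
        rootsOfUnity p (AlgebraicClosure ℚ)) : (AlgebraicClosure ℚ)ˣ) : AlgebraicClosure ℚ) =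
      g (((MuP.root (p := p) (muPLinearEquiv p m) :
        rootsOfUnity p (AlgebraicClosure ℚ)) : (AlgebraicClosure ℚ)ˣ) : AlgebraicClosure ℚ)
    rw [h1]
    exact muPRep_apply p g _
  range_eq := by
    intro b
    constructor
    · intro hb
      have h1 : ((Additive.toMul (K.sUnitsIncl S b) : K.Qbarˣ)) ^ p = 1 := by
        have := congrArg (fun t : K.sUnits S => (Additive.toMul (K.sUnitsIncl S t) : K.Qbarˣ)) hb
        exact this
      let t : rootsOfUnity p (AlgebraicClosure ℚ) :=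
        ⟨Additive.toMul (K.sUnitsIncl S b), (mem_rootsOfUnity p _).2 h1⟩
      refine ⟨(muPLinearEquiv p).symm (MuP.of p t), ?_⟩
      apply sUnits_ext
      show (((MuP.root (p := p) (muPLinearEquiv p ((muPLinearEquiv p).symm (MuP.of p t))) :
        rootsOfUnity p (AlgebraicClosure ℚ)) : (AlgebraicClosure ℚ)ˣ) : AlgebraicClosure ℚ) = _
      rw [LinearEquiv.apply_symm_apply]
      rfl
    · rintro ⟨m, rfl⟩
      exact H53.p_nsmul_ι (ι := kappa0 p S) m

/-! ## 2. Smooth elements of induced modules; `LCDivisible` for `Ind_U 𝔼` -/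

section IndSmooth

variable {G : Type} [Group G] {L : LevelSys G} {k : Type} [CommRing k]

/-- An element acting trivially on `G ⧸ U` acts on `Ind_U B` through the coefficients. -/
lemma indActR_eq_mapRange {U : Subgroup G} (B : Rep.{0, 0, 0} k G) {s : G}
    (hs : ∀ c : G ⧸ U, s • c = c) (a : (G ⧸ U) →₀ B) :
    indActR U B s a = Finsupp.mapRange.linearMap (B.ρ s) a := by
  have h : (fun c : G ⧸ U => s • c) = id := funext hs
  rw [indActR, h, LinearMap.comp_apply, Finsupp.lmapDomain_apply, Finsupp.mapDomain_id]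

/-- For an open subgroup `U`, an element of `Ind_U B` is smooth iff all its values are. -/
lemma isSmoothElt_indR_iff (hN : L.NormalCofinal) {U : Subgroup G} (hU : IsOpenSub L U)
    (B : Rep.{0, 0, 0} k G) (a : (G ⧸ U) →₀ B) :
    IsSmoothElt L (indR U B) a ↔ ∀ c, IsSmoothElt L B (a c) := by
  obtain ⟨U₀, hU₀, hU₀U⟩ := hU
  constructor
  · rintro ⟨W, hW, hfix⟩ c
    obtain ⟨W', hW', hle⟩ := L.directed W hW U₀ hU₀
    obtain ⟨N, hNl, hNW, hNn⟩ := hN W' hW'
    refine ⟨N, hNl, fun s hs => ?_⟩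
    have h1 : indActR U B s a = a := hfix s (hle (hNW hs)).1
    haveI := hNn
    rw [indActR_eq_mapRange B
      (fun c => H323.smul_coset_eq_h323 (fun t ht => hU₀U (hle (hNW ht)).2) hs c) a] at h1
    have := DFunLike.congr_fun h1 c
    simpa using this
  · intro hval
    classical
    have hfin : (Set.range a).Finite := by
      refine (a.support.finite_toSet.image a |>.union (Set.finite_singleton 0)).subset ?_
      rintro _ ⟨c, rfl⟩
      by_cases hc : a c = 0
      · exact Or.inr hc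
      · exact Or.inl ⟨c, Finsupp.mem_support_iff.2 hc, rfl⟩
    obtain ⟨W, hW, hfix⟩ := exists_level_fixing_of_finite (L := L) hfin
      (by rintro _ ⟨c, rfl⟩; exact hval c)
    obtain ⟨W', hW', hle⟩ := L.directed W hW U₀ hU₀
    obtain ⟨N, hNl, hNW, hNn⟩ := hN W' hW'
    refine ⟨N, hNl, fun s hs => ?_⟩
    haveI := hNn
    show indActR U B s a = a
    rw [indActR_eq_mapRange B
      (fun c => H323.smul_coset_eq_h323 (fun t ht => hU₀U (hle (hNW ht)).2) hs c) a]
    ext c
    simp only [Finsupp.mapRange.linearMap_apply, Finsupp.mapRange_apply]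
    exact hfix (a c) ⟨c, rfl⟩ s (hle (hNW hs)).1

/-- Kummer-type divisibility passes to induced modules. -/
lemma kummer_indR (hN : L.NormalCofinal) {U : Subgroup G} (hU : IsOpenSub L U) (p : ℕ)
    (B : Rep.{0, 0, 0} ℤ G)
    (hK : ∀ x : B, IsSmoothElt L B x → ∃ y : B, p • y = x ∧ IsSmoothElt L B y)
    (a : indR U B) (ha : IsSmoothElt L (indR U B) a) :
    ∃ y : indR U B, p • y = a ∧ IsSmoothElt L (indR U B) y := by
  classical
  have hval := (isSmoothElt_indR_iff hN hU B a).1 ha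
  let root : B → B := fun x =>
    if hx0 : x = 0 then 0 else if hx : IsSmoothElt L B x then (hK x hx).choose else 0
  have hroot0 : root 0 = 0 := by simp [root]
  have hroot : ∀ x, IsSmoothElt L B x → p • root x = x ∧ IsSmoothElt L B (root x) := by
    intro x hx
    by_cases hx0 : x = 0
    · subst hx0
      rw [hroot0]
      exact ⟨smul_zero _, hx⟩
    · simp only [root, dif_neg hx0, dif_pos hx]
      exact (hK x hx).choose_spec
  refine ⟨Finsupp.mapRange root hroot0 (a : (G ⧸ U) →₀ B), ?_, ?_⟩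
  · show p • Finsupp.mapRange root hroot0 (a : (G ⧸ U) →₀ B) = a
    ext c
    simp only [Finsupp.smul_apply, Finsupp.mapRange_apply]
    exact (hroot _ (hval c)).1
  · refine (isSmoothElt_indR_iff hN hU B _).2 fun c => ?_
    show IsSmoothElt L B (Finsupp.mapRange root hroot0 (a : (G ⧸ U) →₀ B) c)
    rw [Finsupp.mapRange_apply]
    exact (hroot _ (hval c)).2

end IndSmooth

/-- `Ind_U 𝔼` is `LCDivisible` (from KUM). -/
theorem lcDivisible_ind_sUnits (hpS : pPrime p ∈ S) (hKUM : K.KummerSpec p S)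
    (U : Subgroup _root_.Fermat.Agent.S55.PT.GQ) (hU : U ∈ (globalLevels S).levels) :
    LCDivisible (globalLevels S) p (K.indG U (K.sUnits S)) :=
  lcDivisible_of_kummer (H723.globalLevels_normalCofinal S) (H723.globalLevels_finiteIndex S) p _
    (kummer_indR (H723.globalLevels_normalCofinal S) ⟨U, hU, le_rfl⟩ p (K.sUnits S) (hKUM hpS))

/-! ## 3. The local modules `Ind_U ℚ̄_qˣ` -/

section Local

variable (q : Nat.Primes)

/-- `ℚ̄_qˣ` is `p`-divisible. -/
lemma isPDivisible_unitsQpbar : IsPDivisible p (Tow.unitsQpbar q) := by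
  letI : Fact (q : ℕ).Prime := ⟨q.2⟩
  intro b
  let u : (PadicAlgCl (q : ℕ))ˣ := Additive.toMul b
  obtain ⟨z, hz⟩ := IsAlgClosed.exists_pow_nat_eq (u : PadicAlgCl (q : ℕ))
    (Fact.out : p.Prime).pos
  have hz0 : z ≠ 0 := by
    rintro rfl
    rw [zero_pow (Fact.out : p.Prime).ne_zero] at hz
    exact u.ne_zero hz.symm
  refine ⟨Additive.ofMul (Units.mk0 z hz0), ?_⟩
  apply Additive.toMul.injective
  apply Units.ext
  exact hz

/-- `ℚ̄_qˣ` is smooth for the local level system (Krasner). -/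
lemma isSmooth_unitsQpbar : (localLevels q).IsSmooth (Tow.unitsQpbar q) := by
  letI : Fact (q : ℕ).Prime := ⟨q.2⟩
  intro b
  let u : (PadicAlgCl (q : ℕ))ˣ := Additive.toMul b
  obtain ⟨c, hc⟩ := exists_global_generator (q : ℕ) (u : PadicAlgCl (q : ℕ))
  haveI : Algebra.IsAlgebraic ℚ (AlgebraicClosure ℚ) := AlgebraicClosure.isAlgebraic ℚ
  haveI : FiniteDimensional ℚ (IntermediateField.adjoin ℚ {c}) :=
    IntermediateField.adjoin.finiteDimensional (Algebra.IsIntegral.isIntegral c)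
  refine ⟨_, ⟨IntermediateField.adjoin ℚ {c}, inferInstance, rfl⟩, fun s hs => ?_⟩
  have hs' : rl q s ∈ (IntermediateField.adjoin ℚ {c}).fixingSubgroup := hs
  have hsc : rl q s c = c := by
    have := (IntermediateField.mem_fixingSubgroup_iff _ _).1 hs' c
      (IntermediateField.mem_adjoin_simple_self ℚ c)
    exact this
  let τ : PadicAlgCl (q : ℕ) ≃ₐ[ℚ_[(q : ℕ)]] PadicAlgCl (q : ℕ) := s
  have h1 : τ (u : PadicAlgCl (q : ℕ)) = u := fixes_adjoin_of_fixes (q : ℕ) τ c hsc _ hc
  apply Additive.toMul.injective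
  apply Units.ext
  exact h1

variable {q}

/-- `𝔼 → ℚ̄_qˣ` is equivariant along `G_{ℚ_q} → G_ℚ`. -/
lemma locE_equivariant (g : Gl q) (e : K.sUnits S) :
    K.locE q S ((K.sUnits S).ρ (rl q g) e) = (Tow.unitsQpbar q).ρ g (K.locE q S e) := by
  letI : Fact (q : ℕ).Prime := ⟨q.2⟩
  apply Additive.toMul.injective
  apply Units.ext
  exact padicEmbedding_localGaloisToGlobal (q : ℕ) g _

lemma locE_injective : Function.Injective (K.locE q S) := by
  letI : Fact (q : ℕ).Prime := ⟨q.2⟩
  intro a b hab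
  apply sUnits_ext
  have h1 := congrArg (fun t : Tow.unitsQpbar q =>
    ((Additive.toMul t : (PadicAlgCl (q : ℕ))ˣ) : PadicAlgCl (q : ℕ))) hab
  exact (padicEmbedding (q : ℕ)).toRingHom.injective h1

variable (q)

/-- `μ_p → ℚ̄_qˣ`. -/
def locMu : (mu p) →+ (Tow.unitsQpbar q) :=
  (K.locE q S).toAddMonoidHom.comp (kappa0 p S)

/-- `μ_p → ℚ̄_qˣ` is a Kummer embedding of `μ_p|_{G_q}`. -/
theorem isKummerEmb_locMu :
    IsKummerEmb p (Rep.res (rl q) (mu p)) (Tow.unitsQpbar q) (locMu p S q) where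
  injective := (locE_injective S).comp (isKummerEmb_kappa0 p S).injective
  equivariant := by
    intro g m
    show K.locE q S (kappa0 p S ((mu p).ρ (rl q g) m)) = _
    rw [(isKummerEmb_kappa0 p S).equivariant, locE_equivariant]
    rfl
  range_eq := by
    letI : Fact (q : ℕ).Prime := ⟨q.2⟩
    haveI : NeZero p := ⟨(Fact.out : p.Prime).ne_zero⟩
    intro b
    constructor
    · intro hb
      obtain ⟨ζ, hζ⟩ := HasEnoughRootsOfUnity.exists_primitiveRoot (AlgebraicClosure ℚ) p
      have hζ' : IsPrimitiveRoot (padicEmbedding (q : ℕ) ζ) p :=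
        hζ.map_of_injective (padicEmbedding (q : ℕ)).toRingHom.injective
      let u : (PadicAlgCl (q : ℕ))ˣ := Additive.toMul b
      have hu : (u : PadicAlgCl (q : ℕ)) ^ p = 1 := by
        have := congrArg (fun t : Tow.unitsQpbar q =>
          ((Additive.toMul t : (PadicAlgCl (q : ℕ))ˣ) : PadicAlgCl (q : ℕ))) hb
        exact this
      obtain ⟨i, -, hi⟩ := hζ'.eq_pow_of_pow_eq_one hu
      have hζ0 : ζ ≠ 0 := hζ.ne_zero (Fact.out : p.Prime).ne_zero
      let w : K.Qbarˣ := (Units.mk0 ζ hζ0) ^ i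
      have hw : w ^ p = 1 := by
        apply Units.ext
        simp only [w, Units.val_pow_eq_pow_val, Units.val_mk0, Units.val_one]
        rw [← pow_mul, mul_comm, pow_mul, hζ.pow_eq_one, one_pow]
      let e : K.sUnits S := ⟨Additive.ofMul w,
        K.isSUnit_of_pow_eq_one S (Fact.out : p.Prime).ne_zero hw⟩
      have he : p • e = 0 := by
        apply sUnits_ext
        show ((w : K.Qbarˣ) : K.Qbar) ^ p = 1
        rw [← Units.val_pow_eq_pow_val, hw, Units.val_one]
      obtain ⟨m, hm⟩ := ((isKummerEmb_kappa0 p S).range_eq e).1 he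
      refine ⟨m, ?_⟩
      show K.locE q S (kappa0 p S m) = b
      rw [hm]
      apply Additive.toMul.injective
      apply Units.ext
      show padicEmbedding (q : ℕ) ((w : K.Qbarˣ) : K.Qbar) = (u : PadicAlgCl (q : ℕ))
      simp only [w, Units.val_pow_eq_pow_val, Units.val_mk0, map_pow]
      exact hi
    · rintro ⟨m, rfl⟩
      exact H53.p_nsmul_ι (ι := locMu p S q) m

end Local

/-! ## 4. Induced modules along `φ : H → G` -/

section IndRes

variable {G H : Type} [Group G] [Group H] (φ : H →* G) (U : Subgroup G)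

/-- Finitely supported functions: the `p`-torsion is the image of `mapRange ι`. -/
lemma mapRange_range_eq {p : ℕ} {X M B : Type} [AddCommGroup M] [AddCommGroup B] (ι : M →+ B)
    (hinj : Function.Injective ι) (hr : ∀ y : B, p • y = 0 ↔ y ∈ Set.range ι) (b : X →₀ B) :
    p • b = 0 ↔ b ∈ Set.range (Finsupp.mapRange.addMonoidHom ι : (X →₀ M) →+ (X →₀ B)) := by
  constructor
  · intro hb
    classical
    have hmem : ∀ y : B, p • y = 0 → ∃ m : M, ι m = y := fun y hy => (hr y).1 hy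
    let f : B → M := fun y => if h : ∃ m : M, ι m = y then h.choose else 0
    have hf0 : f 0 = 0 := by
      have h : ∃ m : M, ι m = 0 := ⟨0, map_zero ι⟩
      have h2 : ι (f 0) = ι 0 := by
        simp only [f, dif_pos h, map_zero]
        exact h.choose_spec
      exact hinj h2
    have hfy : ∀ y : B, p • y = 0 → ι (f y) = y := by
      intro y hy
      have h := hmem y hy
      simp only [f, dif_pos h]
      exact h.choose_spec
    refine ⟨Finsupp.mapRange f hf0 b, ?_⟩
    ext x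
    rw [Finsupp.mapRange.addMonoidHom_apply, Finsupp.mapRange_apply, Finsupp.mapRange_apply]
    apply hfy
    have := DFunLike.congr_fun hb x
    simpa using this
  · rintro ⟨m, rfl⟩
    ext x
    rw [Finsupp.smul_apply, Finsupp.mapRange.addMonoidHom_apply, Finsupp.mapRange_apply,
      Finsupp.zero_apply]
    exact (hr _).2 ⟨m x, rfl⟩

/-- `Ind_U` (along `φ`) of a Kummer embedding is a Kummer embedding. -/
theorem isKummerEmb_ind_res {p : ℕ} [Fact p.Prime] (M : Rep.{0, 0, 0} (ZMod p) G)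
    (B : Rep.{0, 0, 0} ℤ H) (ι : M →+ B) (hK : IsKummerEmb p (Rep.res φ M) B ι) :
    IsKummerEmb p (Rep.res φ (indRep U M)) (K.ind φ U B)
      (Finsupp.mapRange.addMonoidHom ι : ((G ⧸ U) →₀ M) →+ ((G ⧸ U) →₀ B)) where
  injective := Finsupp.mapRange_injective ι (map_zero ι) hK.injective
  equivariant := by
    intro g m
    change Finsupp.mapRange.addMonoidHom ι (indAct U M (φ g) m) =
      K.indρ φ U B g (Finsupp.mapRange.addMonoidHom ι m)
    induction m using Finsupp.induction_linear with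
    | zero => simp
    | add a b ha hb => rw [map_add, map_add, map_add, map_add, ha, hb]
    | single x m =>
      rw [indAct_single, Finsupp.mapRange.addMonoidHom_apply, Finsupp.mapRange_single,
        Finsupp.mapRange.addMonoidHom_apply, Finsupp.mapRange_single, K.indρ_single]
      congr 1
      exact hK.equivariant g m
  range_eq := fun b => mapRange_range_eq (X := G ⧸ U) ι hK.injective hK.range_eq b

/-- `Ind_U B` (along `φ`) is smooth if `B` is, `U` is normal and `φ⁻¹ U` is open. -/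
theorem isSmooth_ind_res (L' : LevelSys H) [hUn : U.Normal]
    (hU : ∃ N₀ ∈ L'.levels, N₀ ≤ U.comap φ) {k : Type} [CommRing k]
    (B : Rep.{0, 0, 0} k H) (hB : L'.IsSmooth B) : L'.IsSmooth (K.ind φ U B) := by
  obtain ⟨N₀, hN₀, hN₀U⟩ := hU
  intro a
  change ∃ W ∈ L'.levels, ∀ s ∈ W, K.indρ φ U B s a = a
  induction a using Finsupp.induction_linear with
  | zero => exact ⟨N₀, hN₀, fun s _ => map_zero _⟩
  | add a b ha hb =>
    obtain ⟨U₁, hU₁, h₁⟩ := ha
    obtain ⟨U₂, hU₂, h₂⟩ := hb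
    obtain ⟨W, hW, hWle⟩ := L'.directed U₁ hU₁ U₂ hU₂
    exact ⟨W, hW, fun s hs => by rw [map_add, h₁ s (hWle hs).1, h₂ s (hWle hs).2]⟩
  | single x b =>
    obtain ⟨U₁, hU₁, h₁⟩ := hB b
    obtain ⟨W, hW, hWle⟩ := L'.directed N₀ hN₀ U₁ hU₁
    refine ⟨W, hW, fun s hs => ?_⟩
    rw [K.indρ_single, h₁ s (hWle hs).2,
      H323.smul_coset_eq_h323 (le_refl U) (hN₀U (hWle hs).1)]

end IndRes

/-! ## 5. GO4 and the main theorem -/

/-- **GO4** (arithmetic input of layer K, cochain form, conventions of `K/Spec.lean`).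
For a normal level `U` acting trivially on `μ_p` (`K = ℚ̄^U ⊇ ℚ(μ_p)`), the cokernel of
`H²(G_S(K), 𝒪_Sˣ)[p] → ∏_{q ∈ S} H²(G_q, Ind_U ℚ̄_qˣ)[p] = ⊕_{w ∣ S} Br(K_w)[p]`
has at most `p` elements: any two families of local classes killed by `p` are linearly
dependent (over `F_p`) modulo the global classes killed by `p`.
(Classically: the image is the kernel of the sum of the local invariants.) -/
def GO4Spec : Prop :=
  p ≠ 2 → pPrime p ∈ S →
  ∀ U : Subgroup _root_.Fermat.Agent.S55.PT.GQ, U ∈ (globalLevels S).levels → U.Normal → (∀ s ∈ U, (mu p).ρ s = 1) →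
    TwoFamily (ι := ↥S) (globalLevels S) (fun v => localLevels v.1) (fun v => rl v.1) p
      (K.indG U (K.sUnits S)) (fun v => K.ind (rl v.1) U (Tow.unitsQpbar v.1))
      (fun v => (K.indLocE v.1 S U).toAddMonoidHom)

/-- **Semi-local Hilbert 90.**  `H¹_lc(G_q, Ind_U ℚ̄_qˣ) = 0` for a normal global level `U`
(`= ⊕_{w ∣ q} H¹(K_w, ℚ̄_qˣ)`, `K = ℚ̄^U`). -/
def SemiLocalH90Spec : Prop :=
  ∀ (v : ↥S) (U : Subgroup _root_.Fermat.Agent.S55.PT.GQ), U ∈ (globalLevels S).levels → U.Normal →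
    H1Vanish (localLevels v.1) (K.ind (rl v.1) U (Tow.unitsQpbar v.1))

lemma indLocE_equivariant (q : Nat.Primes) (U : Subgroup _root_.Fermat.Agent.S55.PT.GQ) (g : Gl q)
    (e : K.indG U (K.sUnits S)) :
    K.indLocE q S U ((K.indG U (K.sUnits S)).ρ (rl q g) e) =
      (K.ind (rl q) U (Tow.unitsQpbar q)).ρ g (K.indLocE q S U e) := by
  change Finsupp.mapRange.linearMap (K.locE q S)
      (K.indρ (MonoidHom.id _root_.Fermat.Agent.S55.PT.GQ) U (K.sUnits S) (rl q g) e) =
    K.indρ (rl q) U (Tow.unitsQpbar q) g (Finsupp.mapRange.linearMap (K.locE q S) e)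
  induction e using Finsupp.induction_linear with
  | zero => simp
  | add a b ha hb => rw [map_add, map_add, map_add, map_add, ha, hb]
  | single x m =>
    rw [K.indρ_single, Finsupp.mapRange.linearMap_apply, Finsupp.mapRange_single,
      Finsupp.mapRange.linearMap_apply, Finsupp.mapRange_single, K.indρ_single,
      locE_equivariant]
    rfl

lemma indLocE_comp_indEmb (q : Nat.Primes) (U : Subgroup _root_.Fermat.Agent.S55.PT.GQ) :
    ((K.indLocE q S U).toAddMonoidHom.comp (indEmb p U (mu p) (K.sUnits S) (kappa0 p S)) :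
      ((_root_.Fermat.Agent.S55.PT.GQ ⧸ U) →₀ (mu p)) →+ ((_root_.Fermat.Agent.S55.PT.GQ ⧸ U) →₀ (Tow.unitsQpbar q))) =
      Finsupp.mapRange.addMonoidHom (locMu p S q) := by
  apply AddMonoidHom.ext
  intro m
  change Finsupp.mapRange (K.locE q S) (map_zero _)
      (Finsupp.mapRange (kappa0 p S) (map_zero _) m) =
    Finsupp.mapRange (locMu p S q) (map_zero _) m
  ext c
  simp only [Finsupp.mapRange_apply]
  rfl

/-- **INV-COK.**  `GlobCokerSpec` from KUM, GO4 and semi-local Hilbert 90. -/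
theorem globCoker_of (hp2 : p ≠ 2) (hpS : pPrime p ∈ S) (hKUM : K.KummerSpec p S)
    (hH90 : SemiLocalH90Spec S) (hGO4 : GO4Spec p S) : GlobCokerSpec p S := by
  intro U hU hUn hUμ
  haveI := hUn
  refine exists_functional_of_twoFamily (hrl S) (p := p) (M := indRep U (mu p))
    (E := K.indG U (K.sUnits S))
    (κ := indEmb p U (mu p) (K.sUnits S) (kappa0 p S))
    (B := fun v => K.ind (rl v.1) U (Tow.unitsQpbar v.1))
    (lam := fun v => (K.indLocE v.1 S U).toAddMonoidHom)
    (lcDivisible_ind_sUnits p S hpS hKUM U hU)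
    (H323.isKummerEmb_ind_h323 p _ _ _ U (isKummerEmb_kappa0 p S))
    (fun v g e => indLocE_equivariant S v.1 U g e)
    (fun v => isSmooth_ind_res (rl v.1) U (localLevels v.1) (hrl S v U hU) _
      (isSmooth_unitsQpbar v.1))
    (fun v => H323.isPDivisible_finsupp_h323 p (isPDivisible_unitsQpbar p v.1))
    (fun v => ?_) (fun v => hH90 v U hU hUn) (hGO4 hp2 hpS U hU hUn hUμ)
  have h := isKummerEmb_ind_res (rl v.1) U (mu p) (Tow.unitsQpbar v.1) (locMu p S v.1)
    (isKummerEmb_locMu p S v.1)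
  rw [← indLocE_comp_indEmb] at h
  exact h

end Fermat.Agent.S55.Inv.H99

end
end
-- ===== PACK-END S55/Inv/CokH99.lean

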