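import Fermat.Agent.Pack.S56.E18L0
import Fermat.Agent.Pack.S56.E18L2
import Fermat.Agent.Pack.S56.E4L2
import Fermat.Agent.Pack.S56.E18L1
import Fermat.Agent.Pack.S56.E18L3
import Fermat.Agent.Pack.S56.E14L3
import Fermat.Agent.Pack.S56.E16L3
import Fermat.Agent.Pack.S56.E13L1
import Fermat.Agent.Pack.S56.E15L3
import Fermat.Agent.Pack.S56.E15L1
import Fermat.Agent.Pack.S56.E5L0
import Fermat.Agent.Pack.S56.E9L3

-- ===== PACK-BEGIN S56/H716/GWGlue4.lean
section




/-!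
# Row S56 — layer 3d: glue of ROUTE C (deputy helper716)

* `hyp_mono`            : `Hyp 𝒪 p ρbar S Smin → S ⊆ S'' → Hyp 𝒪 p ρbar S'' Smin`
* `gwWall_of_base_sub`  : `Base(S') + RecQ(S, S') + UR-COUNT ⇒ GW-WALL(S, Smin)` for `Smin ⊆ S' ⊆ S`
* `recQ_of_recQSub`     : `RecQSubStatement → RecQStatement`
* `tangentBoundSup_of`  : (TB) for `S ∪ S₀` from the leaves
* `result_of_leaves`    : the frozen statement S56 from the leaves of route C.
-/

set_option autoImplicit false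

open Polynomial IsLocalRing

noncomputable section

namespace Fermat.Agent.S56.H716

open Fermat.Agent.S56

section

variable (𝒪 : Type) [CommRing 𝒪] [IsDomain 𝒪] [IsDiscreteValuationRing 𝒪]
  (p : ℕ) (ρbar : ResidualGaloisRep (ResidueField 𝒪)) (S Smin : Finset ℕ)

/-- The standing hypotheses pass to a bigger set of primes `S''`. -/
theorem hyp_mono {S'' : Finset ℕ} (h : Hyp 𝒪 p ρbar S Smin) (hS : S ⊆ S'')
    (hprime : ∀ q ∈ S'', q.Prime) : Hyp 𝒪 p ρbar S'' Smin :=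
  ⟨h.hp, h.hp2, h.hp𝒪, h.habs, h.hdet, h.hsplit, h.hTW, h.hpSmin, h.hSmin.trans hS, hprime,
    h.hmin⟩

/-- **Glue** `GW-WALL(S, Smin) ⇐ BASE(S') + REC-Q(S, S') + UR-COUNT` for `Smin ⊆ S' ⊆ S`. -/
theorem gwWall_of_base_sub (S' : Finset ℕ) (hSS' : Smin ⊆ S') (hS'S : S' ⊆ S)
    (hS'prime : ∀ q ∈ S', q.Prime)
    (hb : Base 𝒪 p ρbar S') (hr : RecQ 𝒪 p ρbar S S')
    (hur : ∀ v : ℕ, v.Prime → v ∉ Smin → ∀ P : ValuationSubring Qb, P.LiesOverPrime v →
      ∃ Λ : Submodule (ResidueField 𝒪) (GQ → Module.End (ResidueField 𝒪) ρbar.V),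
        Module.Finite (ResidueField 𝒪) Λ ∧
        Module.finrank (ResidueField 𝒪) Λ ≤
          Module.finrank (ResidueField 𝒪) (adInv ρbar (P.decompositionSubgroup ℚ)) ∧
        ∀ c, IsAdCocycle ρbar c → UnramAt ρbar c v →
          ∃ t ∈ Λ, IsAdCoboundaryOn ρbar (P.decompositionSubgroup ℚ) (c - t)) :
    GWWall 𝒪 p ρbar S Smin := by
  classical
  obtain ⟨Pl, hPl, D, X, hD, hDur, hXfin, hX, hdim⟩ := hb
  refine ⟨Pl, fun v hv => hPl v (hSS' hv), fun Λ δ hΛ => ⟨D, hD, fun Q hQ hK => ?_⟩⟩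
  obtain ⟨U, hUfin, hUdim, hU⟩ := hr Pl hPl D hD hDur Q hQ hK
  have hQS : ∀ q ∈ Q, q ∉ S' := fun q hq h => (hQ q hq).2.1 (hS'S h)
  -- the local spaces on `S'`
  let Λ' : ℕ → Submodule (ResidueField 𝒪) (GQ → Module.End (ResidueField 𝒪) ρbar.V) :=
    fun v => if h : v ∈ Smin then Λ v else
      if h' : v ∈ S' then (hur v (hS'prime v h') h (Pl v) (hPl v h')).choose else ⊥
  have hΛ'1 : ∀ v, v ∈ Smin → Λ' v = Λ v := fun v h => dif_pos h
  have hΛ'2 : ∀ v (h : v ∉ Smin) (h' : v ∈ S'),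
      Λ' v = (hur v (hS'prime v h') h (Pl v) (hPl v h')).choose := fun v h h' => by
    simp only [Λ', dif_neg h, dif_pos h']
  let h0 : ℕ → ℕ := fun v =>
    Module.finrank (ResidueField 𝒪) (adInv ρbar ((Pl v).decompositionSubgroup ℚ))
  let dd : ℕ → ℕ := fun v => if v ∈ Smin then δ v else 0
  have hfin' : ∀ v ∈ S', Module.Finite (ResidueField 𝒪) (Λ' v) := by
    intro v hvS'
    by_cases h : v ∈ Smin
    · rw [hΛ'1 v h]
      exact (hΛ.1 v h).1
    · rw [hΛ'2 v h hvS']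
      exact (hur v (hS'prime v hvS') h (Pl v) (hPl v hvS')).choose_spec.1
  have hbound' : ∀ v ∈ S', Module.finrank (ResidueField 𝒪) (Λ' v) ≤ h0 v + dd v := by
    intro v hvS'
    by_cases h : v ∈ Smin
    · rw [hΛ'1 v h]
      simpa [dd, h0, h] using (hΛ.1 v h).2
    · rw [hΛ'2 v h hvS']
      simpa [dd, h0, h] using
        (hur v (hS'prime v hvS') h (Pl v) (hPl v hvS')).choose_spec.2.1
  have hsel' : ∀ c, IsSelCocycle ρbar Pl Λ Smin Q c → IsSelCocycle ρbar Pl Λ' S' Q c := by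
    intro c hc
    refine ⟨hc.cocycle, fun q hq hqn => hc.unram q hq fun hq' => hqn ?_, fun v hvS' => ?_⟩
    · rcases Finset.mem_union.1 hq' with h | h
      · exact Finset.mem_union_left _ (hSS' h)
      · exact Finset.mem_union_right _ h
    · by_cases h : v ∈ Smin
      · rw [hΛ'1 v h]
        exact hc.loc v h
      · rw [hΛ'2 v h hvS']
        refine (hur v (hS'prime v hvS') h (Pl v) (hPl v hvS')).choose_spec.2.2 c hc.cocycle
          (hc.unram v (hS'prime v hvS') fun hv' => ?_)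
        rcases Finset.mem_union.1 hv' with h1 | h1
        · exact h h1
        · exact hQS v h1 hvS'
  obtain ⟨W, hWfin, hWdim, hW⟩ := exists_local_lift ρbar Pl Λ' S' Q hfin'
  have := hXfin
  have := hUfin
  have := hWfin
  refine ⟨W ⊔ U ⊔ X, inferInstance, ?_, fun c hc => ?_⟩
  · have h1 : Module.finrank (ResidueField 𝒪) ↥(W ⊔ U ⊔ X) ≤
        Module.finrank (ResidueField 𝒪) W + Module.finrank (ResidueField 𝒪) U +
          Module.finrank (ResidueField 𝒪) X :=
      (Submodule.finrank_add_le_finrank_add_finrank (W ⊔ U) X).trans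
        (Nat.add_le_add_right (Submodule.finrank_add_le_finrank_add_finrank W U) _)
    have h2 : ∑ v ∈ S', Module.finrank (ResidueField 𝒪) (Λ' v) ≤
        ∑ v ∈ S', h0 v + ∑ v ∈ S', dd v := by
      rw [← Finset.sum_add_distrib]
      exact Finset.sum_le_sum hbound'
    have h3 : ∑ v ∈ S', dd v = ∑ v ∈ Smin, δ v := by
      rw [← Finset.sum_subset hSS' (f := dd) fun v _ hv => by simp [dd, hv]]
      exact Finset.sum_congr rfl fun v hv => by simp [dd, hv]
    have h7 := hΛ.2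
    have hdim' : Module.finrank (ResidueField 𝒪) X + ∑ v ∈ S', h0 v + 1 ≤
        Module.finrank (ResidueField 𝒪) D := hdim
    omega
  · obtain ⟨w, hw, hcw⟩ := hW c (hsel' c hc)
    obtain ⟨u, hu, c', hc', hcob⟩ := hU (c - w) hcw
    obtain ⟨x, hx, hcob'⟩ := hX c' hc'
    refine ⟨w + u + x, Submodule.add_mem _ (Submodule.add_mem _
      (Submodule.mem_sup_left (Submodule.mem_sup_left hw))
      (Submodule.mem_sup_left (Submodule.mem_sup_right hu)))
      (Submodule.mem_sup_right hx), ?_⟩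
    have := hcob.add ρbar hcob'
    rwa [show c - w - u - c' + (c' - x) = c - (w + u + x) by abel] at this

end

/-- `REC-Q-SUB ⇒ REC-Q` (take `S' = Smin`). -/
theorem recQ_of_recQSub (hr : RecQSubStatement) : RecQStatement :=
  fun 𝒪 _ _ _ _ _ p ρbar S Smin hyp =>
    hr 𝒪 p ρbar S Smin hyp Smin (Finset.Subset.refl _) hyp.hSmin

section

variable (𝒪 : Type) [CommRing 𝒪] [IsDomain 𝒪] [IsDiscreteValuationRing 𝒪]
  [IsAdicComplete (maximalIdeal 𝒪) 𝒪] [Finite (ResidueField 𝒪)]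
  (p : ℕ) (ρbar : ResidualGaloisRep (ResidueField 𝒪)) (S Smin : Finset ℕ)

/-- (GW-WALL) for `S ∪ S₀`, `S₀` the big set of (BASE-BIG). -/
theorem exists_gwWall_sup (hb : BaseBigStatement) (hr : RecQSubStatement)
    (hur : UrCountStatement) (hyp : Hyp 𝒪 p ρbar S Smin) :
    ∃ S'' : Finset ℕ, S ⊆ S'' ∧ (∀ q ∈ S'', q.Prime) ∧ GWWall 𝒪 p ρbar S'' Smin := by
  classical
  obtain ⟨S₀, hS₀, hS₀prime, hbase⟩ := hb 𝒪 p ρbar S Smin hyp
  have hprime : ∀ q ∈ S ∪ S₀, q.Prime := fun q hq => by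
    rcases Finset.mem_union.1 hq with h | h
    · exact hyp.hS q h
    · exact hS₀prime q h
  have hyp'' : Hyp 𝒪 p ρbar (S ∪ S₀) Smin :=
    hyp_mono 𝒪 p ρbar S Smin hyp Finset.subset_union_left hprime
  exact ⟨S ∪ S₀, Finset.subset_union_left, hprime,
    gwWall_of_base_sub 𝒪 p ρbar (S ∪ S₀) Smin S₀ hS₀ Finset.subset_union_right hS₀prime hbase
      (hr 𝒪 p ρbar (S ∪ S₀) Smin hyp'' S₀ hS₀ Finset.subset_union_right)
      (hur 𝒪 p ρbar (S ∪ S₀) Smin hyp'')⟩

/-- (TB-ord) for some `S'' ⊇ S` from the leaves of route C. -/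
theorem tangentBoundSupOrd_of (hdict : DictOrdStatement) (hmin : LocMinStatement)
    (hord : LocOrdPStatement) (hb : BaseBigStatement) (hr : RecQSubStatement)
    (hur : UrCountStatement) (hyp : Hyp 𝒪 p ρbar S Smin) :
    TangentBoundSup 𝒪 p ρbar S (ordCond 𝒪 p Smin) := by
  obtain ⟨S'', hSS'', hprime, hw⟩ := exists_gwWall_sup 𝒪 p ρbar S Smin hb hr hur hyp
  have hyp'' : Hyp 𝒪 p ρbar S'' Smin := hyp_mono 𝒪 p ρbar S Smin hyp hSS'' hprime
  exact ⟨S'', hSS'', hprime,
    tangentBound_of_dict_selBound 𝒪 p ρbar S'' (ordCond 𝒪 p Smin) (hdict 𝒪 p ρbar S'' Smin hyp'')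
      (selBound_of_loc_gwWall 𝒪 p ρbar S'' Smin (ordCond 𝒪 p Smin)
        (locOrd_of hmin hord 𝒪 p ρbar S'' Smin hyp'') hw)⟩

/-- (TB-flat) for some `S'' ⊇ S` from the leaves of route C. -/
theorem tangentBoundSupFlat_of (hdict : DictFlatStatement) (hmin : LocMinStatement)
    (hflat : LocFlatPStatement) (hb : BaseBigStatement) (hr : RecQSubStatement)
    (hur : UrCountStatement) (hyp : Hyp 𝒪 p ρbar S Smin) :
    TangentBoundSup 𝒪 p ρbar S (flatCond 𝒪 p Smin) := by
  obtain ⟨S'', hSS'', hprime, hw⟩ := exists_gwWall_sup 𝒪 p ρbar S Smin hb hr hur hyp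
  have hyp'' : Hyp 𝒪 p ρbar S'' Smin := hyp_mono 𝒪 p ρbar S Smin hyp hSS'' hprime
  exact ⟨S'', hSS'', hprime,
    tangentBound_of_dict_selBound 𝒪 p ρbar S'' (flatCond 𝒪 p Smin)
      (hdict 𝒪 p ρbar S'' Smin hyp'')
      (selBound_of_loc_gwWall 𝒪 p ρbar S'' Smin (flatCond 𝒪 p Smin)
        (locFlat_of hmin hflat 𝒪 p ρbar S'' Smin hyp'') hw)⟩

/-- One half of S56 from (TB) for some `S'' ⊇ S`. -/
theorem half_of_sup (hP1 : PowerSeriesSurjStatement) (hTWP : TWPrimesStatement)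
    (hyp : Hyp 𝒪 p ρbar S Smin) (cond : Finset ℕ → DefCond 𝒪)
    (hTB : TangentBoundSup 𝒪 p ρbar S cond) :
    ∃ r : ℕ, ∀ n : ℕ, ∃ qv : Fin r → ℕ, Function.Injective qv ∧
      (∀ i, (qv i).Prime ∧ qv i ∉ S ∧ p ^ (n + 1) ∣ qv i - 1) ∧
      (∀ i, ∀ P : ValuationSubring (AlgebraicClosure ℚ), P.LiesOverPrime (qv i) →
        ∀ φ : AlgebraicClosure ℚ ≃ₐ[ℚ] AlgebraicClosure ℚ, P.IsFrobeniusAt φ (qv i) →
          ∃ α β : ResidueField 𝒪, α ≠ β ∧
            LinearMap.charpoly (ρbar.ρ φ) = (X - C α) * (X - C β)) ∧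
      ∀ DQ : GaloisRep.DeformationRingData 𝒪 ρbar (cond (Finset.univ.image qv)),
        ∃ γ : MvPowerSeries (Fin r) 𝒪 →ₐ[𝒪] DQ.R, Function.Surjective γ := by
  obtain ⟨S'', hSS'', hprime, hTB''⟩ := hTB
  obtain ⟨r, hr⟩ := half_of_inputs hP1 hTWP p ρbar S'' Smin
    (hyp_mono 𝒪 p ρbar S Smin hyp hSS'' hprime) cond hTB''
  refine ⟨r, fun n => ?_⟩
  obtain ⟨qv, hinj, hq, hfrob, hDQ⟩ := hr n
  exact ⟨qv, hinj, fun i => ⟨(hq i).1, fun h => (hq i).2.1 (hSS'' h), (hq i).2.2⟩, hfrob, hDQ⟩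

end

/-- **S56 from the leaves of route C.** -/
theorem result_of_leaves (hdo : DictOrdStatement) (hdf : DictFlatStatement)
    (hmin : LocMinStatement) (hord : LocOrdPStatement) (hflat : LocFlatPStatement)
    (hb : BaseBigStatement) (hr : RecQSubStatement) (hur : UrCountStatement)
    (hP1 : PowerSeriesSurjStatement) (hTWP : TWPrimesStatement)
    {𝒪 : Type} [CommRing 𝒪] [IsDomain 𝒪] [IsDiscreteValuationRing 𝒪]
    [IsAdicComplete (maximalIdeal 𝒪) 𝒪] [Finite (ResidueField 𝒪)]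
    (p : ℕ) [Fact p.Prime] (hp2 : p ≠ 2) (hp𝒪 : (p : 𝒪) ∈ maximalIdeal 𝒪)
    (ρbar : ResidualGaloisRep (ResidueField 𝒪))
    (habs : ρbar.IsAbsolutelyIrreducible)
    (hdet : (GaloisRepAdic.ofResidualGaloisRep ρbar).DetIsCyclotomic p)
    (hsplit : ∀ σ : AlgebraicClosure ℚ ≃ₐ[ℚ] AlgebraicClosure ℚ,
      ∃ α β : ResidueField 𝒪, LinearMap.charpoly (ρbar.ρ σ) = (X - C α) * (X - C β))
    (hTW : ∀ (K : Type) [Field K] [Algebra (ResidueField 𝒪) K]
      (G : Subgroup (AlgebraicClosure ℚ ≃ₐ[ℚ] AlgebraicClosure ℚ)), G.index = 2 →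
      ∀ V : Submodule K (ρbar.baseChange K).V,
        (∀ σ ∈ G, ∀ x ∈ V, (ρbar.baseChange K).ρ σ x ∈ V) → V = ⊥ ∨ V = ⊤)
    (S Smin : Finset ℕ) (hpSmin : p ∈ Smin) (hSmin : Smin ⊆ S) (hS : ∀ q ∈ S, q.Prime)
    (hmin' : ∀ q : ℕ, q.Prime → q ≠ p → (q ∈ Smin ↔ ¬ ρbar.IsUnramifiedAt q)) :
    (∃ r : ℕ, ∀ n : ℕ, ∃ qv : Fin r → ℕ, Function.Injective qv ∧
      (∀ i, (qv i).Prime ∧ qv i ∉ S ∧ p ^ (n + 1) ∣ qv i - 1) ∧
      (∀ i, ∀ P : ValuationSubring (AlgebraicClosure ℚ), P.LiesOverPrime (qv i) →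
        ∀ φ : AlgebraicClosure ℚ ≃ₐ[ℚ] AlgebraicClosure ℚ, P.IsFrobeniusAt φ (qv i) →
          ∃ α β : ResidueField 𝒪, α ≠ β ∧ LinearMap.charpoly (ρbar.ρ φ) = (X - C α) * (X - C β)) ∧
      ∀ DQ : GaloisRep.DeformationRingData 𝒪 ρbar (fun _A _ _ _ ρ =>
          GaloisRep.strictOrdinaryCondition 𝒪 p (Smin ∪ Finset.univ.image qv) ρ ∧
            ∀ q ∈ Smin, q.Prime → q ≠ p → ρ.IsUnipotentOnInertiaAt q),
        ∃ γ : MvPowerSeries (Fin r) 𝒪 →ₐ[𝒪] DQ.R, Function.Surjective γ) ∧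
    (∃ r : ℕ, ∀ n : ℕ, ∃ qv : Fin r → ℕ, Function.Injective qv ∧
      (∀ i, (qv i).Prime ∧ qv i ∉ S ∧ p ^ (n + 1) ∣ qv i - 1) ∧
      (∀ i, ∀ P : ValuationSubring (AlgebraicClosure ℚ), P.LiesOverPrime (qv i) →
        ∀ φ : AlgebraicClosure ℚ ≃ₐ[ℚ] AlgebraicClosure ℚ, P.IsFrobeniusAt φ (qv i) →
          ∃ α β : ResidueField 𝒪, α ≠ β ∧ LinearMap.charpoly (ρbar.ρ φ) = (X - C α) * (X - C β)) ∧
      ∀ DQ : GaloisRep.DeformationRingData 𝒪 ρbar (fun _A _ _ _ ρ =>
          GaloisRep.flatCondition 𝒪 p (Smin ∪ Finset.univ.image qv) ρ ∧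
            ∀ q ∈ Smin, q.Prime → q ≠ p → ρ.IsUnipotentOnInertiaAt q),
        ∃ γ : MvPowerSeries (Fin r) 𝒪 →ₐ[𝒪] DQ.R, Function.Surjective γ) := by
  have H : Hyp 𝒪 p ρbar S Smin :=
    ⟨Fact.out, hp2, hp𝒪, habs, hdet, hsplit, hTW, hpSmin, hSmin, hS, hmin'⟩
  exact ⟨half_of_sup 𝒪 p ρbar S Smin hP1 hTWP H (ordCond 𝒪 p Smin)
      (tangentBoundSupOrd_of 𝒪 p ρbar S Smin hdo hmin hord hb hr hur H),
    half_of_sup 𝒪 p ρbar S Smin hP1 hTWP H (flatCond 𝒪 p Smin)
      (tangentBoundSupFlat_of 𝒪 p ρbar S Smin hdf hmin hflat hb hr hur H)⟩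

end Fermat.Agent.S56.H716

end

end
-- ===== PACK-END S56/H716/GWGlue4.lean

-- ===== PACK-BEGIN S56/FinalC.lean
section




/-!
# Row S56 — FINAL reduction, route C (row-lead helper956): three Props left

Route C of the deputy (`H716/GWGlue4.lean`, `H716.result_of_leaves`) with every landed leaf
plugged in (DICT `H596`, LOC-MIN `H606`, LOC-SO `H656`, UR-COUNT `H431`, P1, TWP):

    `S56 ⇐ H716.LocFlatPStatement + H716.BaseBigStatement + H716.RecQSubStatement`.

`Fermat/Agent/S56.lean` will be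

    exact Fermat.Agent.S56.result_of_wallsC locFlatP baseBig recQSub
      p hp2 hp𝒪 ρbar habs hdet hsplit hTW S Smin hpSmin hSmin hS hmin
-/

set_option autoImplicit false

open Polynomial IsLocalRing

namespace Fermat.Agent.S56

/-- **S56 from the three remaining walls (route C).** -/
theorem result_of_wallsC (hflat : H716.LocFlatPStatement) (hb : H716.BaseBigStatement)
    (hr : H716.RecQSubStatement)
    {𝒪 : Type} [CommRing 𝒪] [IsDomain 𝒪] [IsDiscreteValuationRing 𝒪]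
    [IsAdicComplete (maximalIdeal 𝒪) 𝒪] [Finite (ResidueField 𝒪)]
    (p : ℕ) [Fact p.Prime] (hp2 : p ≠ 2) (hp𝒪 : (p : 𝒪) ∈ maximalIdeal 𝒪)
    (ρbar : ResidualGaloisRep (ResidueField 𝒪))
    (habs : ρbar.IsAbsolutelyIrreducible)
    (hdet : (GaloisRepAdic.ofResidualGaloisRep ρbar).DetIsCyclotomic p)
    (hsplit : ∀ σ : AlgebraicClosure ℚ ≃ₐ[ℚ] AlgebraicClosure ℚ,
      ∃ α β : ResidueField 𝒪, LinearMap.charpoly (ρbar.ρ σ) = (X - C α) * (X - C β))
    (hTW : ∀ (K : Type) [Field K] [Algebra (ResidueField 𝒪) K]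
      (G : Subgroup (AlgebraicClosure ℚ ≃ₐ[ℚ] AlgebraicClosure ℚ)), G.index = 2 →
      ∀ V : Submodule K (ρbar.baseChange K).V,
        (∀ σ ∈ G, ∀ x ∈ V, (ρbar.baseChange K).ρ σ x ∈ V) → V = ⊥ ∨ V = ⊤)
    (S Smin : Finset ℕ) (hpSmin : p ∈ Smin) (hSmin : Smin ⊆ S) (hS : ∀ q ∈ S, q.Prime)
    (hmin' : ∀ q : ℕ, q.Prime → q ≠ p → (q ∈ Smin ↔ ¬ ρbar.IsUnramifiedAt q)) :
    (∃ r : ℕ, ∀ n : ℕ, ∃ qv : Fin r → ℕ, Function.Injective qv ∧
      (∀ i, (qv i).Prime ∧ qv i ∉ S ∧ p ^ (n + 1) ∣ qv i - 1) ∧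
      (∀ i, ∀ P : ValuationSubring (AlgebraicClosure ℚ), P.LiesOverPrime (qv i) →
        ∀ φ : AlgebraicClosure ℚ ≃ₐ[ℚ] AlgebraicClosure ℚ, P.IsFrobeniusAt φ (qv i) →
          ∃ α β : ResidueField 𝒪, α ≠ β ∧ LinearMap.charpoly (ρbar.ρ φ) = (X - C α) * (X - C β)) ∧
      ∀ DQ : GaloisRep.DeformationRingData 𝒪 ρbar (fun _A _ _ _ ρ =>
          GaloisRep.strictOrdinaryCondition 𝒪 p (Smin ∪ Finset.univ.image qv) ρ ∧
            ∀ q ∈ Smin, q.Prime → q ≠ p → ρ.IsUnipotentOnInertiaAt q),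
        ∃ γ : MvPowerSeries (Fin r) 𝒪 →ₐ[𝒪] DQ.R, Function.Surjective γ) ∧
    (∃ r : ℕ, ∀ n : ℕ, ∃ qv : Fin r → ℕ, Function.Injective qv ∧
      (∀ i, (qv i).Prime ∧ qv i ∉ S ∧ p ^ (n + 1) ∣ qv i - 1) ∧
      (∀ i, ∀ P : ValuationSubring (AlgebraicClosure ℚ), P.LiesOverPrime (qv i) →
        ∀ φ : AlgebraicClosure ℚ ≃ₐ[ℚ] AlgebraicClosure ℚ, P.IsFrobeniusAt φ (qv i) →
          ∃ α β : ResidueField 𝒪, α ≠ β ∧ LinearMap.charpoly (ρbar.ρ φ) = (X - C α) * (X - C β)) ∧
      ∀ DQ : GaloisRep.DeformationRingData 𝒪 ρbar (fun _A _ _ _ ρ =>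
          GaloisRep.flatCondition 𝒪 p (Smin ∪ Finset.univ.image qv) ρ ∧
            ∀ q ∈ Smin, q.Prime → q ≠ p → ρ.IsUnipotentOnInertiaAt q),
        ∃ γ : MvPowerSeries (Fin r) 𝒪 →ₐ[𝒪] DQ.R, Function.Surjective γ) :=
  H716.result_of_leaves H596.dictOrd H596.dictFlat H606.locMin H656.locOrdP hflat hb hr
    H431.urCount powerSeriesSurj twPrimes p hp2 hp𝒪 ρbar habs hdet hsplit hTW S Smin hpSmin hSmin
    hS hmin'

end Fermat.Agent.S56

end
-- ===== PACK-END S56/FinalC.lean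

-- ===== PACK-BEGIN S56/H914/IntDVR.lean
section


/-!
# Row S56 — W-FLAT-SS, leaf INT (helper914), part 2: `A` and `B` are discrete valuation rings

`M : LocalModel p P`, `ν x = ‖M.ι x‖`.

* `valData_intA` : `ValData ν (intA P) p`  ⇒  `A` is a DVR with `𝔪_A = (p)`.
* `card_residueField_intA` : `#κ_A = p`.
* `exists_valData_intB` : `∃ ϖ, ValData ν (intB …) ϖ`  ⇒  `B` is a DVR, `(p) = 𝔪_B ^ e`.
-/

set_option autoImplicit false
set_option linter.style.haveILetI false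

open Polynomial IsLocalRing

noncomputable section

namespace Fermat.Agent.S56.H914

open Fermat.Agent.S56 Fermat.Agent.S56.H716 Fermat.Agent.S56.FL

section Nu

variable {p : ℕ} [Fact p.Prime] {P : ValuationSubring Qb} (M : LocalModel p P)

/-- The `p`-adic absolute value on `ℚ̄` attached to the local model. -/
def LocalModel.ν (x : Qb) : ℝ := ‖M.ι x‖

lemma LocalModel.ν_zero : M.ν 0 = 0 := by
  rw [LocalModel.ν, map_zero, norm_zero]

lemma LocalModel.ν_one : M.ν 1 = 1 := by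
  rw [LocalModel.ν, map_one, norm_one]

lemma LocalModel.ν_mul (x y : Qb) : M.ν (x * y) = M.ν x * M.ν y := by
  rw [LocalModel.ν, map_mul, norm_mul]
  rfl

lemma LocalModel.ν_pow (x : Qb) (n : ℕ) : M.ν (x ^ n) = M.ν x ^ n := by
  rw [LocalModel.ν, map_pow, norm_pow]
  rfl

lemma LocalModel.ν_inv (x : Qb) : M.ν x⁻¹ = (M.ν x)⁻¹ := by
  rw [LocalModel.ν, map_inv₀, norm_inv]
  rfl

lemma LocalModel.ν_div (x y : Qb) : M.ν (x / y) = M.ν x / M.ν y := by
  rw [LocalModel.ν, map_div₀, norm_div]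
  rfl

lemma LocalModel.ν_nonneg (x : Qb) : 0 ≤ M.ν x := norm_nonneg _

lemma LocalModel.ν_pos {x : Qb} (hx : x ≠ 0) : 0 < M.ν x := by
  rw [LocalModel.ν, norm_pos_iff]
  exact (map_ne_zero_iff _ M.ι_injective).mpr hx

lemma LocalModel.mem_iff_ν (x : Qb) : x ∈ P ↔ M.ν x ≤ 1 := M.mem_iff x

lemma LocalModel.ν_apply {σ : GQ} (hσ : σ ∈ P.decompositionSubgroup ℚ) (x : Qb) :
    M.ν (σ x) = M.ν x := by
  obtain ⟨τ, rfl⟩ := M.exists_Ψ_eq hσ
  rw [LocalModel.ν, M.ι_Ψ, LocalModel.norm_τ]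
  rfl

lemma LocalModel.ν_natCast_self : M.ν (p : Qb) = (p : ℝ)⁻¹ := by
  rw [LocalModel.ν, map_natCast]
  have h : ((p : ℕ) : PadicAlgCl p) = algebraMap ℚ_[p] (PadicAlgCl p) (p : ℚ_[p]) := by
    rw [map_natCast]
  rw [h, PadicAlgCl.norm_extends, Padic.norm_p]

lemma LocalModel.p_inv_pos : (0 : ℝ) < (p : ℝ)⁻¹ := by
  have hp : (p : ℕ).Prime := Fact.out
  have : (0 : ℝ) < p := by exact_mod_cast hp.pos
  positivity

lemma LocalModel.p_inv_lt_one : ((p : ℝ)⁻¹) < 1 := by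
  have hp : (p : ℕ).Prime := Fact.out
  have : (1 : ℝ) < p := by exact_mod_cast hp.one_lt
  exact inv_lt_one_of_one_lt₀ this

/-- An algebraic number fixed by `D_P` is `p`-adically rational. -/
lemma LocalModel.ι_mem_range_of_fixed {x : Qb}
    (hx : ∀ σ ∈ P.decompositionSubgroup ℚ, σ x = x) :
    ∃ a : ℚ_[p], M.ι x = algebraMap ℚ_[p] (PadicAlgCl p) a := by
  haveI := Fermat.Agent.S55.BLocal.isGalois_padicAlgCl p
  have hfix : M.ι x ∈ IntermediateField.fixedField
      (⊤ : Subgroup (PadicAlgCl p ≃ₐ[ℚ_[p]] PadicAlgCl p)) := by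
    rintro ⟨τ, -⟩
    show τ (M.ι x) = M.ι x
    rw [← M.ι_Ψ, hx _ (M.Ψ_mem τ)]
  rw [InfiniteGalois.fixedField_bot, IntermediateField.mem_bot] at hfix
  obtain ⟨a, ha⟩ := hfix
  exact ⟨a, ha.symm⟩

/-- The value of a nonzero `D_P`-fixed integral element is `p⁻ⁿ`. -/
lemma LocalModel.ν_eq_pow_of_fixed {x : Qb} (hx0 : x ≠ 0) (hxP : x ∈ P)
    (hx : ∀ σ ∈ P.decompositionSubgroup ℚ, σ x = x) :
    ∃ n : ℕ, M.ν x = ((p : ℝ)⁻¹) ^ n := by
  obtain ⟨a, ha⟩ := M.ι_mem_range_of_fixed hx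
  have ha0 : a ≠ 0 := by
    rintro rfl
    rw [map_zero] at ha
    exact hx0 (M.ι_injective (by rw [ha, map_zero]))
  have hν : M.ν x = ‖a‖ := by
    rw [LocalModel.ν, ha, PadicAlgCl.norm_extends]
  have hle : ‖a‖ ≤ 1 := by
    rw [← hν]
    exact (M.mem_iff_ν x).mp hxP
  have hval : 0 ≤ a.valuation := (Padic.norm_le_one_iff_val_nonneg a).mp hle
  refine ⟨a.valuation.toNat, ?_⟩
  rw [hν, Padic.norm_eq_zpow_neg_valuation ha0, inv_pow, ← zpow_natCast, Int.toNat_of_nonneg hval,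
    zpow_neg]

end Nu

section DVRA

variable {p : ℕ} [Fact p.Prime] {P : ValuationSubring Qb}

lemma natCast_mem_intA (n : ℕ) : (n : Qb) ∈ intA P := natCast_mem (intA P) n

lemma p_ne_zero_Qb : (p : Qb) ≠ 0 := by
  have hp : (p : ℕ).Prime := Fact.out
  exact_mod_cast hp.ne_zero

/-- The valuation data of `A = P ∩ ℚ̄^{D_P}`, uniformizer `p`. -/
theorem valData_intA (M : LocalModel p P) : ValData M.ν (intA P) (p : Qb) where
  map_zero := M.ν_zero
  map_mul := M.ν_mul
  pos := fun x hx => M.ν_pos hx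
  le_one := fun x hx => (M.mem_iff_ν x).mp hx.1
  inv_mem := by
    rintro x ⟨hxP, hx⟩ h1
    refine ⟨(M.mem_iff_ν _).mpr ?_, fun σ hσ => ?_⟩
    · rw [M.ν_inv, h1, inv_one]
    · rw [map_inv₀, hx σ hσ]
  ϖ_mem := natCast_mem_intA p
  ϖ_ne := p_ne_zero_Qb
  ϖ_lt := by
    rw [M.ν_natCast_self]
    exact LocalModel.p_inv_lt_one
  factor := by
    rintro x ⟨hxP, hx⟩ hx0
    obtain ⟨n, hn⟩ := M.ν_eq_pow_of_fixed hx0 hxP hx
    have hpn : (p : Qb) ^ n ≠ 0 := pow_ne_zero _ p_ne_zero_Qb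
    have hu1 : M.ν (x / (p : Qb) ^ n) = 1 := by
      rw [M.ν_div, M.ν_pow, M.ν_natCast_self, hn]
      exact div_self (pow_pos LocalModel.p_inv_pos n).ne'
    refine ⟨n, x / (p : Qb) ^ n, ⟨(M.mem_iff_ν _).mpr hu1.le, fun σ hσ => ?_⟩, hu1, ?_⟩
    · rw [map_div₀, hx σ hσ, map_pow, map_natCast]
    · field_simp

/-- `A` is a discrete valuation ring. -/
theorem isDiscreteValuationRing_intA (M : LocalModel p P) :
    IsDiscreteValuationRing (intA P) :=
  (valData_intA M).isDiscreteValuationRing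

/-- `𝔪_A = (p)`. -/
theorem maximalIdeal_intA (M : LocalModel p P) :
    haveI := isDiscreteValuationRing_intA M
    maximalIdeal (intA P) = Ideal.span {((p : ℕ) : intA P)} := by
  haveI := isDiscreteValuationRing_intA M
  have h := (valData_intA M).maximalIdeal_eq
  rw [h]
  rfl

/-- `#κ_A = p`. -/
theorem card_residueField_intA (M : LocalModel p P) :
    haveI := isDiscreteValuationRing_intA M
    Nat.card (ResidueField (intA P)) = p := by
  haveI := isDiscreteValuationRing_intA M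
  have hp : (p : ℕ).Prime := Fact.out
  let f : Fin p → ResidueField (intA P) := fun i => residue (intA P) ((i : ℕ) : intA P)
  have hmem : ∀ x : intA P, x ∈ maximalIdeal (intA P) ↔ M.ν (x : Qb) < 1 :=
    (valData_intA M).mem_maximalIdeal_iff
  have hνint : ∀ n : ℤ, M.ν (n : Qb) < 1 ↔ (p : ℤ) ∣ n := by
    intro n
    have h1 : M.ν (n : Qb) = ‖(n : ℚ_[p])‖ := by
      rw [LocalModel.ν, map_intCast]
      have h : ((n : ℤ) : PadicAlgCl p) = algebraMap ℚ_[p] (PadicAlgCl p) (n : ℚ_[p]) := by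
        rw [map_intCast]
      rw [h, PadicAlgCl.norm_extends]
    rw [h1]
    have h2 : ‖(n : ℚ_[p])‖ = ‖(n : ℤ_[p])‖ := by
      rw [PadicInt.norm_def]
      simp
    rw [h2, PadicInt.norm_int_lt_one_iff_dvd]
  have hinj : Function.Injective f := by
    intro i j hij
    have h1 : residue (intA P) (((i : ℕ) : intA P) - ((j : ℕ) : intA P)) = 0 := by
      rw [map_sub]
      exact sub_eq_zero.mpr hij
    rw [residue_eq_zero_iff, hmem] at h1
    have h2 : ((((i : ℕ) : intA P) - ((j : ℕ) : intA P) : intA P) : Qb) =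
        (((i : ℕ) : ℤ) - ((j : ℕ) : ℤ) : ℤ) := by
      push_cast
      rfl
    rw [h2, hνint] at h1
    have h3 : ((i : ℕ) : ℤ) ≡ ((j : ℕ) : ℤ) [ZMOD p] := (Int.modEq_iff_dvd.mpr (by
      have := dvd_neg.mpr h1
      rwa [neg_sub] at this)).symm
    have h4 : (i : ℕ) ≡ (j : ℕ) [MOD p] := Int.natCast_modEq_iff.mp h3
    apply Fin.ext
    rw [Nat.ModEq, Nat.mod_eq_of_lt i.2, Nat.mod_eq_of_lt j.2] at h4
    exact h4
  have hsurj : Function.Surjective f := by
    intro y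
    obtain ⟨x, rfl⟩ := residue_surjective y
    obtain ⟨a, ha⟩ := M.ι_mem_range_of_fixed x.2.2
    have hle : ‖a‖ ≤ 1 := by
      have := (M.mem_iff_ν _).mp x.2.1
      rwa [LocalModel.ν, ha, PadicAlgCl.norm_extends] at this
    set z : ℤ_[p] := ⟨a, hle⟩ with hz
    obtain ⟨n, hn, hxn⟩ := PadicInt.exists_mem_range (p := p) (x := z)
    refine ⟨⟨n, hn⟩, ?_⟩
    show residue (intA P) ((n : ℕ) : intA P) = residue (intA P) x
    rw [← sub_eq_zero, ← map_sub, residue_eq_zero_iff, hmem]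
    rw [IsLocalRing.mem_maximalIdeal, PadicInt.mem_nonunits] at hxn
    have h1 : M.ν ((((n : ℕ) : intA P) - x : intA P) : Qb) = ‖z - (n : ℤ_[p])‖ := by
      have h2 : ((((n : ℕ) : intA P) - x : intA P) : Qb) = (n : Qb) - (x : Qb) := by
        push_cast
        rfl
      rw [h2, LocalModel.ν, map_sub, map_natCast, ha]
      have h3 : ((n : ℕ) : PadicAlgCl p) = algebraMap ℚ_[p] (PadicAlgCl p) (n : ℚ_[p]) := by
        rw [map_natCast]
      rw [h3, ← map_sub, PadicAlgCl.norm_extends, ← norm_neg, neg_sub, PadicInt.norm_def]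
      rw [PadicInt.coe_sub, PadicInt.coe_natCast]
    rw [h1]
    exact hxn
  rw [← Nat.card_eq_of_bijective f ⟨hinj, hsurj⟩, Nat.card_eq_fintype_card, Fintype.card_fin]

end DVRA

end Fermat.Agent.S56.H914

end

end
-- ===== PACK-END S56/H914/IntDVR.lean

-- ===== PACK-BEGIN S56/H914/IntDVRB.lean
section


/-!
# Row S56 — W-FLAT-SS, leaf INT (helper914), part 3: `B = levelSet` is a discrete valuation ring

* `ν_pow_card_eq` : for `x ∈ B`, `x ≠ 0`: `ν(x) ^ #Γ = p⁻ᵐ` (norm to `A`).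
* `exists_valData_intB` : `∃ ϖ e, ValData ν B ϖ ∧ ν p = ν ϖ ^ e`.
-/

set_option autoImplicit false
set_option linter.style.haveILetI false

open Polynomial IsLocalRing

noncomputable section

namespace Fermat.Agent.S56.H914

open Fermat.Agent.S56 Fermat.Agent.S56.H716 Fermat.Agent.S56.FL

section DVRB

variable {k : Type} [Field k] {ρbar : ResidualGaloisRep k}
  {c₁ c₂ : GQ → Module.End k ρbar.V} {p : ℕ} [Fact p.Prime] {P : ValuationSubring Qb}

lemma ν_intAct (M : LocalModel p P) (hc₁ : IsAdCocycle ρbar c₁) (hc₂ : IsAdCocycle ρbar c₂)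
    (γ : intΓ P hc₁ hc₂) (x : intB ρbar c₁ c₂ P) :
    M.ν ((intActQ P hc₁ hc₂ γ x : intB ρbar c₁ c₂ P) : Qb) = M.ν (x : Qb) := by
  obtain ⟨σ, rfl⟩ := QuotientGroup.mk'_surjective (intKer P hc₁ hc₂) γ
  rw [intActQ_mk, intAct_apply]
  exact M.ν_apply σ.2 _

/-- Norm to `A`: the value of a nonzero element of `B`, raised to the power `#Γ`, is a power of
`p⁻¹`. -/
theorem ν_pow_card_eq [Finite k] (M : LocalModel p P) (hc₁ : IsAdCocycle ρbar c₁)
    (hc₂ : IsAdCocycle ρbar c₂) {x : Qb} (hx : x ∈ intB ρbar c₁ c₂ P) (hx0 : x ≠ 0) :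
    ∃ m : ℕ, M.ν x ^ Nat.card (intΓ P hc₁ hc₂) = ((p : ℝ)⁻¹) ^ m := by
  classical
  haveI := finite_intΓ P hc₁ hc₂
  letI : Fintype (intΓ P hc₁ hc₂) := Fintype.ofFinite _
  set xb : intB ρbar c₁ c₂ P := ⟨x, hx⟩ with hxb
  set y : intB ρbar c₁ c₂ P := ∏ γ : intΓ P hc₁ hc₂, intActQ P hc₁ hc₂ γ xb with hy
  -- the value of `y`
  have hνy : M.ν (y : Qb) = M.ν x ^ Nat.card (intΓ P hc₁ hc₂) := by
    have h1 : ((y : intB ρbar c₁ c₂ P) : Qb) =
        ∏ γ : intΓ P hc₁ hc₂, ((intActQ P hc₁ hc₂ γ xb : intB ρbar c₁ c₂ P) : Qb) := by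
      rw [hy]
      exact map_prod (intB ρbar c₁ c₂ P).subtype _ _
    rw [LocalModel.ν, h1, map_prod, norm_prod]
    have h2 : ∀ γ ∈ (Finset.univ : Finset (intΓ P hc₁ hc₂)),
        ‖M.ι ((intActQ P hc₁ hc₂ γ xb : intB ρbar c₁ c₂ P) : Qb)‖ = M.ν x := fun γ _ =>
      ν_intAct M hc₁ hc₂ γ xb
    rw [Finset.prod_congr rfl h2, Finset.prod_const, Finset.card_univ, Nat.card_eq_fintype_card]
  have hy0 : (y : Qb) ≠ 0 := by
    intro h0
    rw [h0, M.ν_zero] at hνy
    exact (pow_pos (M.ν_pos hx0) _).ne hνy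
  -- `y` is fixed by `D_P`
  have hfix : ∀ σ ∈ P.decompositionSubgroup ℚ, σ (y : Qb) = (y : Qb) := by
    intro σ hσ
    have h1 : σ (y : Qb) = ((intAct P hc₁ hc₂ ⟨σ, hσ⟩ y : intB ρbar c₁ c₂ P) : Qb) := rfl
    rw [h1]
    congr 1
    rw [hy, map_prod]
    have h2 : ∀ γ : intΓ P hc₁ hc₂, intAct P hc₁ hc₂ ⟨σ, hσ⟩ (intActQ P hc₁ hc₂ γ xb) =
        intActQ P hc₁ hc₂ (QuotientGroup.mk' _ ⟨σ, hσ⟩ * γ) xb := by
      intro γ
      rw [map_mul, intActQ_mk]
      rfl
    rw [Finset.prod_congr rfl (fun γ _ => h2 γ)]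
    exact Equiv.prod_comp (Equiv.mulLeft (QuotientGroup.mk' (intKer P hc₁ hc₂) ⟨σ, hσ⟩))
      (fun γ => intActQ P hc₁ hc₂ γ xb)
  obtain ⟨n, hn⟩ := M.ν_eq_pow_of_fixed hy0 y.2.1 hfix
  exact ⟨n, by rw [← hνy, hn]⟩

lemma natCast_mem_intB (n : ℕ) : (n : Qb) ∈ intB ρbar c₁ c₂ P := natCast_mem (intB ρbar c₁ c₂ P) n

/-- Division inside `B`: if `x, y ∈ B`, `y ≠ 0` and `ν (x / y) ≤ 1` then `x / y ∈ B`. -/
lemma div_mem_intB (M : LocalModel p P) {x y : Qb} (hx : x ∈ intB ρbar c₁ c₂ P)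
    (hy : y ∈ intB ρbar c₁ c₂ P) (h : M.ν (x / y) ≤ 1) : x / y ∈ intB ρbar c₁ c₂ P := by
  refine ⟨(M.mem_iff_ν _).mpr h, fun σ hσ h1 h2 h3 => ?_⟩
  rw [map_div₀, hx.2 σ hσ h1 h2 h3, hy.2 σ hσ h1 h2 h3]

/-- The valuation data of `B`. -/
theorem exists_valData_intB [Finite k] (M : LocalModel p P) (hc₁ : IsAdCocycle ρbar c₁)
    (hc₂ : IsAdCocycle ρbar c₂) :
    ∃ (ϖ : Qb) (e : ℕ), ValData M.ν (intB ρbar c₁ c₂ P) ϖ ∧ M.ν (p : Qb) = M.ν ϖ ^ e := by
  classical
  haveI := finite_intΓ P hc₁ hc₂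
  set d : ℕ := Nat.card (intΓ P hc₁ hc₂) with hd
  have hd0 : 0 < d := Nat.card_pos
  set r : ℝ := (p : ℝ)⁻¹ with hr
  have hr0 : 0 < r := LocalModel.p_inv_pos
  have hr1 : r < 1 := LocalModel.p_inv_lt_one
  -- the set of positive exponents
  let T : ℕ → Prop := fun m => 0 < m ∧ ∃ x ∈ intB ρbar c₁ c₂ P, x ≠ 0 ∧ M.ν x ^ d = r ^ m
  have hT : ∃ m, T m :=
    ⟨d, hd0, (p : Qb), natCast_mem_intB p, p_ne_zero_Qb, by rw [M.ν_natCast_self]⟩
  set g : ℕ := Nat.find hT with hg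
  obtain ⟨hg0, ϖ, hϖB, hϖ0, hϖg⟩ := Nat.find_spec hT
  have hmin : ∀ m, T m → g ≤ m := fun m hm => Nat.find_min' hT hm
  have hϖlt : M.ν ϖ < 1 := by
    by_contra hcon
    rw [not_lt] at hcon
    have h1 : 1 ≤ M.ν ϖ ^ d := one_le_pow₀ hcon
    rw [hϖg] at h1
    exact absurd h1 (not_le.mpr (pow_lt_one₀ hr0.le hr1 hg0.ne'))
  -- the key factorisation
  have hfac : ∀ x ∈ intB ρbar c₁ c₂ P, x ≠ 0 →
      ∃ n : ℕ, ∃ u ∈ intB ρbar c₁ c₂ P, M.ν u = 1 ∧ x = ϖ ^ n * u := by
    intro x hx hx0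
    obtain ⟨m, hm⟩ := ν_pow_card_eq M hc₁ hc₂ hx hx0
    have hϖn : ∀ n : ℕ, ϖ ^ n ≠ 0 := fun n => pow_ne_zero n hϖ0
    set q := m / g with hq
    set s := m % g with hs
    have hmqs : m = g * q + s := (Nat.div_add_mod m g).symm
    have hm' : M.ν x ^ d = r ^ m := hm
    have hϖg' : M.ν ϖ ^ d = r ^ g := hϖg
    have hu : M.ν (x / ϖ ^ q) ^ d = r ^ s := by
      have hne : (M.ν ϖ ^ q) ^ d ≠ 0 := (pow_pos (pow_pos (M.ν_pos hϖ0) q) d).ne'
      have h1 : M.ν (x / ϖ ^ q) ^ d * r ^ (g * q) = r ^ s * r ^ (g * q) := by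
        have h2 : r ^ (g * q) = (M.ν ϖ ^ q) ^ d := by
          rw [pow_mul, ← hϖg', ← pow_mul, ← pow_mul, mul_comm]
        rw [M.ν_div, div_pow, M.ν_pow, h2, div_mul_cancel₀ _ hne, ← h2, hm', ← pow_add,
          add_comm, ← hmqs]
      exact mul_right_cancel₀ (pow_pos hr0 _).ne' h1
    have hule : M.ν (x / ϖ ^ q) ≤ 1 := by
      by_contra hcon
      rw [not_le] at hcon
      have h1 : 1 < M.ν (x / ϖ ^ q) ^ d := one_lt_pow₀ hcon hd0.ne'
      rw [hu] at h1
      exact absurd h1 (not_lt.mpr (pow_le_one₀ hr0.le hr1.le))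
    have huB : x / ϖ ^ q ∈ intB ρbar c₁ c₂ P :=
      div_mem_intB M hx (pow_mem hϖB q) hule
    have hu0 : x / ϖ ^ q ≠ 0 := div_ne_zero hx0 (hϖn q)
    have hs0 : s = 0 := by
      by_contra hne
      have hsT : T s := ⟨Nat.pos_of_ne_zero hne, x / ϖ ^ q, huB, hu0, hu⟩
      have := hmin s hsT
      have hlt : s < g := Nat.mod_lt m hg0
      omega
    refine ⟨q, x / ϖ ^ q, huB, ?_, ?_⟩
    · rw [hs0, pow_zero] at hu
      have hnn := M.ν_nonneg (x / ϖ ^ q)
      exact (pow_eq_one_iff_of_nonneg hnn hd0.ne').mp hu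
    · field_simp
  have hV : ValData M.ν (intB ρbar c₁ c₂ P) ϖ :=
    { map_zero := M.ν_zero
      map_mul := M.ν_mul
      pos := fun x hx => M.ν_pos hx
      le_one := fun x hx => (M.mem_iff_ν x).mp hx.1
      inv_mem := by
        intro x hx h1
        have h2 : x⁻¹ = 1 / x := by rw [one_div]
        rw [h2]
        refine div_mem_intB M (one_mem _) hx ?_
        rw [M.ν_div, M.ν_one, h1, div_one]
      ϖ_mem := hϖB
      ϖ_ne := hϖ0
      ϖ_lt := hϖlt
      factor := hfac }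
  obtain ⟨e, u, -, hu1, hpu⟩ := hfac (p : Qb) (natCast_mem_intB p) p_ne_zero_Qb
  refine ⟨ϖ, e, hV, ?_⟩
  rw [hpu, M.ν_mul, M.ν_pow, hu1, mul_one]

end DVRB

end Fermat.Agent.S56.H914

end

end
-- ===== PACK-END S56/H914/IntDVRB.lean

-- ===== PACK-BEGIN S56/FO/H6/CEMain.lean
section





/-!
# S56 / FLAT-O / leaf CE, unconditional form (helper6)

* `unrVal1 : UnrVal1Statement` (VG1), from the landed `Fermat.Agent.S56.H66.vg1_le` (helper66).
* `connEt : ConnEtStatement` (CE): kernel of reduction `⊆` inertia augmentation.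
* `redKer_eq_closure`: for `p` odd and `p • M = 0`, the kernel of reduction `H906.redKer` of a
  Hopf lattice IS the subgroup generated by the `act σ y - y`, `σ ∈ I_P`
  (`⊇` is `H906.closure_le_redKer` of helper906).
* `inf_closure_le`: for a `G_ℚ`-stable subgroup `E ≤ M`,
  `I_aug M ∩ E ≤ I_aug E` — the step of the FLAT-O assembly which needs CE
  (kills the lower-left class; see `coord/S56-FLAT-O-CE-helper6.md`, §3, S2).
-/

set_option autoImplicit false
set_option linter.style.haveILetI false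
set_option linter.unusedSectionVars false

noncomputable section

namespace Fermat.Agent.S56.FO.H6

open Fermat.Agent.S56

/-- (VG1), from helper66's landed `vg1_le`. -/
theorem unrVal1 : UnrVal1Statement := fun p hp P hP ζ hζ y hfix hy =>
  Fermat.Agent.S56.H66.vg1_le P p hp hP ζ hζ y ((P.mem_nonunits_iff).mpr hy) hfix

/-- **(CE)**, unconditional. -/
theorem connEt : ConnEtStatement := connEt_of unrVal1

/-- The kernel of reduction of a Hopf lattice killed by `p` (`p` odd) is the augmentation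
subgroup of inertia. -/
theorem redKer_eq_closure {p : ℕ} [Fact p.Prime] (hp2 : p ≠ 2) {M : Type} [AddCommGroup M]
    [Finite M] {act : GQ → M → M} {Λ : Subalgebra (H906.Zp p) (M → Qb)}
    (hΛ : H906.IsHL p act Λ) (hpM : ∀ x : M, p • x = 0) (P : ValuationSubring Qb)
    (hP : P.LiesOverPrime p) :
    H906.redKer P hΛ hP =
      AddSubgroup.closure {z : M | ∃ σ ∈ P.inertiaSubgroupIn ℚ, ∃ y : M, z = act σ y - y} := by
  refine le_antisymm ?_ (H906.closure_le_redKer P hΛ hP)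
  intro x hx
  exact connEt p hp2 M act Λ hΛ hpM P hP x ((H906.mem_redKer P hΛ hP x).mp hx)

/-- **Relative CE.**  For a `G_ℚ`-stable subgroup `E ≤ M` of a Hopf lattice killed by `p`
(`p` odd): a point of `E` in the inertia augmentation of `M` lies in the inertia augmentation
of `E`.  (`I_aug M ∩ E = I_aug E`.) -/
theorem mem_closure_of_mem_closure {p : ℕ} [Fact p.Prime] (hp2 : p ≠ 2) {M : Type}
    [AddCommGroup M] [Finite M] {act : GQ → M → M} {Λ : Subalgebra (H906.Zp p) (M → Qb)}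
    (hΛ : H906.IsHL p act Λ) (hpM : ∀ x : M, p • x = 0) (P : ValuationSubring Qb)
    (hP : P.LiesOverPrime p) (E : AddSubgroup M) (hE : ∀ (σ : GQ), ∀ x ∈ E, act σ x ∈ E)
    {x : M} (hxE : x ∈ E)
    (hx : x ∈ AddSubgroup.closure
      {z : M | ∃ σ ∈ P.inertiaSubgroupIn ℚ, ∃ y : M, z = act σ y - y}) :
    x ∈ AddSubgroup.closure
      {z : M | ∃ σ ∈ P.inertiaSubgroupIn ℚ, ∃ y ∈ E, z = act σ y - y} := by
  -- the pullback lattice on `E`
  set actE : GQ → E → E := fun σ y => ⟨act σ y, hE σ y y.2⟩ with hactE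
  have hΛE := Fermat.Agent.S19.H435.IsHopfLattice.pullback hΛ E.subtype
    Subtype.val_injective actE (fun σ y => rfl)
  have hpE : ∀ y : E, p • y = 0 := fun y => Subtype.ext (by
    rw [AddSubgroup.coe_nsmul, hpM]
    rfl)
  have hred : ∀ f ∈ Λ.map (Fermat.Agent.S19.H435.precompAlgHom p E.subtype),
      P.valuation (f ⟨x, hxE⟩ - f 0) < 1 := by
    rintro _ ⟨f, hf, rfl⟩
    exact H906.closure_le_redKer P hΛ hP hx f hf
  have h1 := connEt p hp2 E actE _ hΛE hpE P hP ⟨x, hxE⟩ hred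
  -- push forward to `M`
  have h2 : ∀ y : E, y ∈ AddSubgroup.closure
      {z : E | ∃ σ ∈ P.inertiaSubgroupIn ℚ, ∃ y : E, z = actE σ y - y} →
      (y : M) ∈ AddSubgroup.closure
        {z : M | ∃ σ ∈ P.inertiaSubgroupIn ℚ, ∃ y ∈ E, z = act σ y - y} := by
    intro y hy
    induction hy using AddSubgroup.closure_induction with
    | mem z hz =>
      obtain ⟨σ, hσ, w, rfl⟩ := hz
      exact AddSubgroup.subset_closure ⟨σ, hσ, w, w.2, rfl⟩
    | zero => exact AddSubgroup.zero_mem _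
    | add a b _ _ ha hb => exact AddSubgroup.add_mem _ ha hb
    | neg a _ ha => exact AddSubgroup.neg_mem _ ha
  exact h2 ⟨x, hxE⟩ h1

end Fermat.Agent.S56.FO.H6

end
end
-- ===== PACK-END S56/FO/H6/CEMain.lean

-- ===== PACK-BEGIN S56/FO/H6/Struct.lean
section




/-!
# S56 / FLAT-O / STRUCT (helper6): the ordinary line of a flat lift, reducible case

`k` finite of characteristic `p` odd, `ρ̄` with cyclotomic determinant and a `D_P`-stable line,
`ρ'` a lift of `ρ̄` to `k[ε]` (`H716.IsLiftOf ρbar c ρ'`) which is FLAT at `p`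
(Prelude `IsFlatAt`).  Then (`flatOrdLine`) `ρ'` is ORDINARY at `P` in the Prelude's sense:
there is a basis `b` of `ρ'.V` over `k[ε]` such that the line `L = k[ε] ∙ b 0` is `D_P`-stable and
the inertia group `I_P` acts trivially on `ρ'.V / L`.   (`L` is the inertia augmentation.)

Steps (doc `coord/S56-FLAT-O-CE-helper6.md` §3):
* Part A: Hopf lattices on `X = k[ε] ⊗ V` (action `liftEnd`) and on `V` (pullback along `v ↦ ε ⊗ v`).
* Part B (S1): the inertia augmentation of `V` is a line      [FI + FT + TAMEFROB + det].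
* Part C (S2): the inertia augmentation of `X` is `k[ε] ∙ n₀`, `n₀ ∉ εX`     [relative CE].
* Part D: the basis.
-/

set_option autoImplicit false
set_option linter.style.haveILetI false
set_option linter.unusedSectionVars false

open scoped TensorProduct

noncomputable section

namespace Fermat.Agent.S56.FO.H6

open Fermat.Agent.S56 Fermat.Agent.S56.H716 Fermat.Agent.S56.H656

/-! ## The inertia augmentation -/

/-- The subgroup generated by the `act σ y - y`, `σ ∈ I_P`. -/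
def augGroup (P : ValuationSubring Qb) {X : Type*} [AddCommGroup X] (act : GQ → X → X) :
    AddSubgroup X :=
  AddSubgroup.closure {z : X | ∃ σ ∈ P.inertiaSubgroupIn ℚ, ∃ y : X, z = act σ y - y}

theorem sub_mem_augGroup (P : ValuationSubring Qb) {X : Type*} [AddCommGroup X]
    (act : GQ → X → X) {σ : GQ} (hσ : σ ∈ P.inertiaSubgroupIn ℚ) (y : X) :
    act σ y - y ∈ augGroup P act :=
  AddSubgroup.subset_closure ⟨σ, hσ, y, rfl⟩

section linear

variable {R : Type*} [Ring R] {X : Type*} [AddCommGroup X] [Module R X]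
  (P : ValuationSubring Qb) (T : GQ →* Module.End R X)

/-- The augmentation is stable under the scalars commuting with the action. -/
theorem smul_mem_augGroup (a : R) {x : X} (hx : x ∈ augGroup P (fun σ y => T σ y)) :
    a • x ∈ augGroup P (fun σ y => T σ y) := by
  induction hx using AddSubgroup.closure_induction with
  | mem z hz =>
    obtain ⟨σ, hσ, y, rfl⟩ := hz
    have : a • (T σ y - y) = T σ (a • y) - a • y := by rw [smul_sub, map_smul]
    rw [this]
    exact sub_mem_augGroup P _ hσ _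
  | zero => rw [smul_zero]; exact AddSubgroup.zero_mem _
  | add x y _ _ hx hy => rw [smul_add]; exact AddSubgroup.add_mem _ hx hy
  | neg x _ hx => rw [smul_neg]; exact AddSubgroup.neg_mem _ hx

/-- The augmentation is stable under the decomposition group. -/
theorem map_mem_augGroup {g : GQ} (hg : g ∈ P.decompositionSubgroup ℚ) {x : X}
    (hx : x ∈ augGroup P (fun σ y => T σ y)) : T g x ∈ augGroup P (fun σ y => T σ y) := by
  induction hx using AddSubgroup.closure_induction with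
  | mem z hz =>
    obtain ⟨σ, hσ, y, rfl⟩ := hz
    have hconj : g * σ * g⁻¹ ∈ P.inertiaSubgroupIn ℚ := by
      obtain ⟨σ', hσ', rfl⟩ := hσ
      have hn : (P.inertiaSubgroup ℚ).Normal := MonoidHom.normal_ker _
      have h := hn.conj_mem σ' hσ' ⟨g, hg⟩
      exact Subgroup.mem_map_of_mem (P.decompositionSubgroup ℚ).subtype h
    have : T g (T σ y - y) = T (g * σ * g⁻¹) (T g y) - T g y := by
      rw [map_sub]
      congr 1
      rw [← Module.End.mul_apply, ← Module.End.mul_apply, ← map_mul, ← map_mul]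
      congr 2
      group
    rw [this]
    exact sub_mem_augGroup P _ hconj _
  | zero => rw [map_zero]; exact AddSubgroup.zero_mem _
  | add x y _ _ hx hy => rw [map_add]; exact AddSubgroup.add_mem _ hx hy
  | neg x _ hx => rw [map_neg]; exact AddSubgroup.neg_mem _ hx

/-- The augmentation as a submodule. -/
def augSub : Submodule R X where
  carrier := augGroup P (fun σ y => T σ y)
  add_mem' := fun ha hb => AddSubgroup.add_mem _ ha hb
  zero_mem' := AddSubgroup.zero_mem _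
  smul_mem' := fun a _ hx => smul_mem_augGroup P T a hx

theorem mem_augSub {x : X} : x ∈ augSub P T ↔ x ∈ augGroup P (fun σ y => T σ y) := Iff.rfl

end linear

/-! ## Small lemmas -/

/-- An element of a field of characteristic `p` fixed by Frobenius is a natural number. -/
theorem exists_natCast_of_pow_eq_self {k : Type*} [Field k] (p : ℕ) [Fact p.Prime] [CharP k p]
    {x : k} (h : x ^ p = x) : ∃ n : ℕ, x = (n : k) := by
  rw [← Subfield.mem_bot_iff_pow_eq_self k p] at h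
  obtain ⟨z, hz⟩ := (mem_bot_iff_intCast p k).mp h
  refine ⟨((z : ZMod p)).val, ?_⟩
  rw [← hz]
  have h1 : ((ZMod.castHom (dvd_refl p) k) (z : ZMod p)) = (z : k) := map_intCast _ z
  rw [← h1, ZMod.castHom_apply, ZMod.natCast_val]

/-- In a `2`-dimensional space, a subspace which is neither `⊥` nor `⊤` is a line. -/
theorem exists_eq_smul_of_ne_bot_of_ne_top {k : Type*} [Field k] {V : Type*} [AddCommGroup V]
    [Module k V] (h2 : Module.finrank k V = 2) (U : Submodule k V) (h0 : U ≠ ⊥) (h1 : U ≠ ⊤) :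
    ∃ l₀ : V, l₀ ≠ 0 ∧ l₀ ∈ U ∧ ∀ z ∈ U, ∃ t : k, z = t • l₀ := by
  haveI : Module.Finite k V := Module.finite_of_finrank_eq_succ h2
  have hle : Module.finrank k U ≤ 2 := h2 ▸ Submodule.finrank_le U
  have hne0 : Module.finrank k U ≠ 0 := fun h => h0 (Submodule.finrank_eq_zero.mp h)
  have hne2 : Module.finrank k U ≠ 2 := fun h =>
    h1 (Submodule.eq_top_of_finrank_eq (h.trans h2.symm))
  have hone : Module.finrank k U = 1 := by omega
  obtain ⟨v, hv0, hv⟩ := finrank_eq_one_iff'.mp hone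
  refine ⟨v, fun h => hv0 (Subtype.ext h), v.2, fun z hz => ?_⟩
  obtain ⟨t, ht⟩ := hv ⟨z, hz⟩
  exact ⟨t, (congrArg Subtype.val ht).symm⟩

/-! ## Part A: the Hopf lattices -/

section lattices

variable {k : Type} [Field k] (ρbar : ResidualGaloisRep k) (c : GQ → Module.End k ρbar.V)

/-- `v ↦ ε • (1 ⊗ v)`, the inclusion of `V` as `ε X`. -/
def epsIota : ρbar.V →+ (DualNumber k ⊗[k] ρbar.V) where
  toFun v := (DualNumber.eps : DualNumber k) • dIota (k := k) v
  map_zero' := by rw [map_zero, smul_zero]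
  map_add' x y := by rw [map_add, smul_add]

theorem epsIota_apply (v : ρbar.V) :
    epsIota ρbar v = (DualNumber.eps : DualNumber k) • dIota (k := k) v := rfl

theorem dPi0_epsIota (v : ρbar.V) : dPi0 (epsIota ρbar v) = 0 := by
  rw [epsIota_apply, dPi0_smul, DualNumber.fst_eps, zero_smul]

theorem dPi1_epsIota (v : ρbar.V) : dPi1 (epsIota ρbar v) = v := by
  rw [epsIota_apply, dPi1_smul, DualNumber.fst_eps, DualNumber.snd_eps, zero_smul, zero_add,
    one_smul, dPi0_dIota]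

theorem epsIota_injective : Function.Injective (epsIota ρbar) := by
  intro x y h
  have := congrArg (dPi1 (k := k)) h
  rwa [dPi1_epsIota, dPi1_epsIota] at this

/-- `ε • x = ε ⊗ (x mod ε)`. -/
theorem eps_smul_eq (x : DualNumber k ⊗[k] ρbar.V) :
    (DualNumber.eps : DualNumber k) • x = epsIota ρbar (dPi0 x) := by
  apply coord_ext
  · rw [dPi0_smul, DualNumber.fst_eps, zero_smul, dPi0_epsIota]
  · rw [dPi1_smul, DualNumber.fst_eps, DualNumber.snd_eps, zero_smul, zero_add, one_smul,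
      dPi1_epsIota]

/-- An element with trivial reduction is in `ε X`. -/
theorem eq_epsIota_of_dPi0_eq_zero {x : DualNumber k ⊗[k] ρbar.V} (h : dPi0 x = 0) :
    x = epsIota ρbar (dPi1 x) := by
  apply coord_ext
  · rw [h, dPi0_epsIota]
  · rw [dPi1_epsIota]

theorem liftEnd_epsIota (σ : GQ) (v : ρbar.V) :
    liftEnd ρbar c σ (epsIota ρbar v) = epsIota ρbar (ρbar.ρ σ v) := by
  apply coord_ext
  · rw [dPi0_liftEnd, dPi0_epsIota, dPi0_epsIota, map_zero]
  · rw [dPi1_liftEnd, dPi1_epsIota, dPi0_epsIota, dPi1_epsIota, map_zero, map_zero, add_zero]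

/-- `liftEnd` as a monoid homomorphism, when it is conjugate to a representation. -/
theorem liftEnd_mul_of_isLiftOf {ρ' : GaloisRepAdic (DualNumber k)} (hl : IsLiftOf ρbar c ρ')
    (σ τ : GQ) : liftEnd ρbar c (σ * τ) = liftEnd ρbar c σ * liftEnd ρbar c τ := by
  obtain ⟨e, he⟩ := hl
  apply LinearMap.ext
  intro x
  obtain ⟨v, rfl⟩ := e.surjective x
  rw [Module.End.mul_apply, ← he, ← he, ← he, map_mul, Module.End.mul_apply]

theorem liftEnd_one_of_isLiftOf {ρ' : GaloisRepAdic (DualNumber k)} (hl : IsLiftOf ρbar c ρ') :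
    liftEnd ρbar c 1 = 1 := by
  obtain ⟨e, he⟩ := hl
  apply LinearMap.ext
  intro x
  obtain ⟨v, rfl⟩ := e.surjective x
  rw [← he, map_one, Module.End.one_apply, Module.End.one_apply]

/-- `σ ↦ liftEnd ρbar c σ` as a representation. -/
def liftHom {ρ' : GaloisRepAdic (DualNumber k)} (hl : IsLiftOf ρbar c ρ') :
    GQ →* Module.End (DualNumber k) (DualNumber k ⊗[k] ρbar.V) where
  toFun σ := liftEnd ρbar c σ
  map_one' := liftEnd_one_of_isLiftOf ρbar c hl
  map_mul' := liftEnd_mul_of_isLiftOf ρbar c hl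

@[simp] theorem liftHom_apply {ρ' : GaloisRepAdic (DualNumber k)} (hl : IsLiftOf ρbar c ρ')
    (σ : GQ) : liftHom ρbar c hl σ = liftEnd ρbar c σ := rfl

variable [Finite k]

instance finite_dualNumber : Finite (DualNumber k) :=
  inferInstanceAs (Finite (k × k))

/-- A flat lift gives a Hopf lattice on `k[ε] ⊗ V` for the action `liftEnd`. -/
theorem exists_lattice_lift {p : ℕ} {ρ' : GaloisRepAdic (DualNumber k)}
    (hl : IsLiftOf ρbar c ρ') (hflat : ρ'.IsFlatAt p) :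
    ∃ Λ : Subalgebra (H906.Zp p) ((DualNumber k ⊗[k] ρbar.V) → Qb),
      H906.IsHL p (fun σ x => liftEnd ρbar c σ x) Λ := by
  obtain ⟨-, hI⟩ := hflat
  have hmodel : Fermat.Agent.S19.HopfModel p
      (ρ'.V ⧸ ((⊥ : Ideal (DualNumber k)) • (⊤ : Submodule (DualNumber k) ρ'.V)))
      (fun σ x => ρ'.levelAction ⊥ σ x) :=
    hI ⊥ (Finite.of_surjective (Ideal.Quotient.mk (⊥ : Ideal (DualNumber k)))
      Ideal.Quotient.mk_surjective)
  obtain ⟨Λ₀, hΛ₀⟩ := Fermat.Agent.S19.H435.exists_isHopfLattice_of_hopfModel hmodel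
  obtain ⟨e, he⟩ := hl
  set Q := ((⊥ : Ideal (DualNumber k)) • (⊤ : Submodule (DualNumber k) ρ'.V)) with hQ
  have hQbot : Q = ⊥ := by rw [hQ, Submodule.bot_smul]
  let ι : (DualNumber k ⊗[k] ρbar.V) →+ (ρ'.V ⧸ Q) :=
    (Q.mkQ.toAddMonoidHom).comp (e.symm.toLinearMap.toAddMonoidHom)
  have hι : Function.Injective ι := by
    intro x y h
    have h1 : Q.mkQ (e.symm x) = Q.mkQ (e.symm y) := h
    rw [← sub_eq_zero, ← map_sub, Submodule.mkQ_apply, Submodule.Quotient.mk_eq_zero, hQbot,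
      Submodule.mem_bot, sub_eq_zero] at h1
    exact e.symm.injective h1
  have hcompat : ∀ (σ : GQ) (x : DualNumber k ⊗[k] ρbar.V),
      ι (liftEnd ρbar c σ x) = ρ'.levelAction ⊥ σ (ι x) := by
    intro σ x
    show Q.mkQ (e.symm (liftEnd ρbar c σ x)) = ρ'.levelAction ⊥ σ (Q.mkQ (e.symm x))
    have h1 : e.symm (liftEnd ρbar c σ x) = ρ'.ρ σ (e.symm x) := by
      apply e.injective
      rw [he, e.apply_symm_apply, e.apply_symm_apply]
    rw [h1]
    rfl
  exact ⟨_, Fermat.Agent.S19.H435.IsHopfLattice.pullback hΛ₀ ι hι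
    (fun σ x => liftEnd ρbar c σ x) hcompat⟩

/-- A flat lift gives a Hopf lattice on `V` (embedded as `ε X`), compatible with the one on
`k[ε] ⊗ V`. -/
theorem lattice_residual {p : ℕ} {Λ : Subalgebra (H906.Zp p) ((DualNumber k ⊗[k] ρbar.V) → Qb)}
    (hΛ : H906.IsHL p (fun σ x => liftEnd ρbar c σ x) Λ) :
    H906.IsHL p (fun σ v => ρbar.ρ σ v)
      (Λ.map (Fermat.Agent.S19.H435.precompAlgHom p (epsIota ρbar))) :=
  Fermat.Agent.S19.H435.IsHopfLattice.pullback hΛ (epsIota ρbar) (epsIota_injective ρbar)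
    (fun σ v => ρbar.ρ σ v) (fun σ v => (liftEnd_epsIota ρbar c σ v).symm)

end lattices

/-! ## Part B (S1): the inertia augmentation of `V` is a line -/

section S1

/-- An endomorphism of a plane with an eigenvector `w` of eigenvalue `a = det ≠ 0` is trivial
modulo `w`. -/
theorem exists_sub_eq_smul_of_det {k : Type*} [Field k] {V : Type*} [AddCommGroup V]
    [Module k V] (h2 : Module.finrank k V = 2) (f : Module.End k V) {w : V} (hw : w ≠ 0)
    {a : k} (ha : a ≠ 0) (hfw : f w = a • w) (hdet : LinearMap.det f = a) (v : V) :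
    ∃ t : k, f v - v = t • w := by
  classical
  haveI : Module.Finite k V := Module.finite_of_finrank_eq_succ h2
  obtain ⟨v₁, hv₁⟩ : ∃ v₁ : V, v₁ ∉ Submodule.span k {w} := by
    by_contra hcon
    push Not at hcon
    have htop : Submodule.span k {w} = ⊤ := eq_top_iff.mpr fun x _ => hcon x
    have h1 := finrank_span_singleton (K := k) hw
    rw [htop, finrank_top, h2] at h1
    omega
  have hli : LinearIndependent k ![w, v₁] := by
    rw [LinearIndependent.pair_iff]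
    intro s t hst
    have ht : t = 0 := by
      by_contra ht
      apply hv₁
      rw [Submodule.mem_span_singleton]
      refine ⟨-(t⁻¹ * s), ?_⟩
      have h3 : t • v₁ = -(s • w) := eq_neg_of_add_eq_zero_right hst
      calc (-(t⁻¹ * s)) • w = t⁻¹ • (-(s • w)) := by rw [neg_smul, mul_smul, smul_neg]
        _ = t⁻¹ • (t • v₁) := by rw [h3]
        _ = v₁ := by rw [smul_smul, inv_mul_cancel₀ ht, one_smul]
    rw [ht, zero_smul, add_zero] at hst
    exact ⟨(smul_eq_zero.mp hst).resolve_right hw, ht⟩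
  set B : Module.Basis (Fin 2) k V :=
    basisOfLinearIndependentOfCardEqFinrank hli (by rw [h2, Fintype.card_fin]) with hB
  have hB0 : B 0 = w := by
    rw [hB, coe_basisOfLinearIndependentOfCardEqFinrank]
    rfl
  have hB1 : B 1 = v₁ := by
    rw [hB, coe_basisOfLinearIndependentOfCardEqFinrank]
    rfl
  set M := LinearMap.toMatrix B B f with hM
  have hM00 : M 0 0 = a := by
    rw [hM, LinearMap.toMatrix_apply, hB0, hfw, map_smul, ← hB0, B.repr_self]
    simp
  have hM10 : M 1 0 = 0 := by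
    rw [hM, LinearMap.toMatrix_apply, hB0, hfw, map_smul, ← hB0, B.repr_self]
    simp
  have hdetM : M.det = a := by rw [hM, LinearMap.det_toMatrix, hdet]
  rw [Matrix.det_fin_two, hM00, hM10, mul_zero, sub_zero] at hdetM
  have hM11 : M 1 1 = 1 := by
    have := mul_left_cancel₀ ha (hdetM.trans (mul_one a).symm)
    exact this
  have hf1 : f v₁ = M 0 1 • w + v₁ := by
    have h3 := B.sum_repr (f v₁)
    rw [Fin.sum_univ_two] at h3
    have h4 : B.repr (f v₁) 0 = M 0 1 := by rw [hM, LinearMap.toMatrix_apply, hB1]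
    have h5 : B.repr (f v₁) 1 = M 1 1 := by rw [hM, LinearMap.toMatrix_apply, hB1]
    rw [h4, h5, hM11, one_smul, hB0, hB1] at h3
    exact h3.symm
  have hv := B.sum_repr v
  rw [Fin.sum_univ_two, hB0, hB1] at hv
  refine ⟨B.repr v 0 * (a - 1) + B.repr v 1 * M 0 1, ?_⟩
  conv_lhs => rw [← hv]
  rw [map_add, map_smul, map_smul, hfw, hf1]
  simp only [smul_add, smul_smul, add_smul, mul_sub, sub_smul, mul_one]
  abel

variable {k : Type} [Field k] [Finite k] {p : ℕ} [Fact p.Prime] [CharP k p]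
  (ρbar : ResidualGaloisRep k)

theorem nsmul_eq_zero_of_charP (v : ρbar.V) : p • v = 0 := by
  rw [← Nat.cast_smul_eq_nsmul k, CharP.cast_eq_zero, zero_smul]

/-- **(S1)** If `V` is flat, has cyclotomic determinant and a `D_P`-stable line, then the
inertia augmentation of `V` is a line. -/
theorem exists_aug_line (hp2 : p ≠ 2)
    {Λ : Subalgebra (H906.Zp p) (ρbar.V → Qb)} (hΛ : H906.IsHL p (fun σ v => ρbar.ρ σ v) Λ)
    (hdet : ∀ (σ : GQ) (a : ℕ), IsCycExp p σ a → LinearMap.det (ρbar.ρ σ) = (a : k))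
    (P : ValuationSubring Qb) (hP : P.LiesOverPrime p)
    (hred : ∃ U : Submodule k ρbar.V, U ≠ ⊥ ∧ U ≠ ⊤ ∧
      ∀ σ ∈ P.decompositionSubgroup ℚ, ∀ x ∈ U, ρbar.ρ σ x ∈ U) :
    ∃ l₀ : ρbar.V, l₀ ≠ 0 ∧ l₀ ∈ augGroup P (fun σ v => ρbar.ρ σ v) ∧
      ∀ z ∈ augGroup P (fun σ v => ρbar.ρ σ v), ∃ t : k, z = t • l₀ := by
  classical
  have hp : p.Prime := Fact.out
  have hkill : ∀ v : ρbar.V, p • v = 0 := nsmul_eq_zero_of_charP ρbar
  haveI : Finite ρbar.V := Module.finite_of_finite k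
  refine exists_eq_smul_of_ne_bot_of_ne_top ρbar.finrank_eq (augSub P ρbar.ρ) ?_ ?_
  · -- not `⊥`
    intro hbot
    obtain ⟨σ₀, hσ₀, a, ha, hane⟩ := exists_inertia_isCycExp_ne_one hp hp2 k P hP
    have h1 : ρbar.ρ σ₀ = 1 := by
      apply LinearMap.ext
      intro v
      have : ρbar.ρ σ₀ v - v ∈ augSub P ρbar.ρ := sub_mem_augGroup P _ hσ₀ v
      rw [hbot, Submodule.mem_bot, sub_eq_zero] at this
      rw [this, Module.End.one_apply]
    have h2 := hdet σ₀ a ha
    rw [h1, map_one] at h2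
    exact hane h2.symm
  · -- not `⊤`
    intro htop
    obtain ⟨U, hU0, hU1, hUD⟩ := hred
    obtain ⟨w, hw0, hwU, hwgen⟩ := exists_eq_smul_of_ne_bot_of_ne_top ρbar.finrank_eq U hU0 hU1
    have hchar : ∀ σ ∈ P.decompositionSubgroup ℚ, ∃ t : k, ρbar.ρ σ w = t • w :=
      fun σ hσ => hwgen _ (hUD σ hσ w hwU)
    obtain ⟨φ, hφ⟩ : ∃ φ : ρbar.V →ₗ[k] k, φ w = 1 := by
      obtain ⟨f, hf, -⟩ : ∃ f : ρbar.V →ₗ[k] k, f w ≠ 0 ∧
          (⊥ : Submodule k ρbar.V).map f = ⊥ :=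
        Submodule.exists_dual_map_eq_bot_of_notMem (p := (⊥ : Submodule k ρbar.V))
          (by rwa [Submodule.mem_bot]) inferInstance
      exact ⟨(f w)⁻¹ • f, by rw [LinearMap.smul_apply, smul_eq_mul, inv_mul_cancel₀ hf]⟩
    set a : GQ → k := fun σ => φ (ρbar.ρ σ w) with ha
    have haD : ∀ σ ∈ P.decompositionSubgroup ℚ, ρbar.ρ σ w = a σ • w := by
      intro σ hσ
      obtain ⟨t, ht⟩ := hchar σ hσ
      have : a σ = t := by
        show φ (ρbar.ρ σ w) = t
        rw [ht, map_smul, hφ, smul_eq_mul, mul_one]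
      rw [this, ht]
    have hloc : H906.IsLocChar P a := by
      refine ⟨?_, ?_, ?_⟩
      · show φ (ρbar.ρ 1 w) = 1
        rw [map_one, Module.End.one_apply, hφ]
      · intro σ hσ τ hτ
        show φ (ρbar.ρ (σ * τ) w) = a σ * a τ
        rw [map_mul, Module.End.mul_apply, haD τ hτ, map_smul, haD σ hσ, smul_smul, map_smul, hφ,
          smul_eq_mul, mul_one, mul_comm]
      · obtain ⟨L, hL, hLρ⟩ := ρbar.factorsThroughFiniteLevel
        refine ⟨L, hL, fun σ _ τ _ hτL => ?_⟩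
        show φ (ρbar.ρ (σ * τ) w) = φ (ρbar.ρ σ w)
        rw [map_mul, hLρ τ hτL, mul_one]
    have htame := H486.tameFrob p k P hP a hloc
    have hsc : ∀ τ ∈ P.inertiaSubgroupIn ℚ, ∃ n : ℕ, ρbar.ρ τ w = n • w := by
      intro τ hτ
      obtain ⟨n, hn⟩ := exists_natCast_of_pow_eq_self p (htame τ hτ)
      refine ⟨n, ?_⟩
      rw [haD τ (mem_decomposition_of_mem_inertia hτ), hn, Nat.cast_smul_eq_nsmul]
    rcases H486.flatTame p hp2 ρbar.V (fun σ v => ρbar.ρ σ v) Λ hΛ hkill P hP w hw0 hsc with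
      hA | hB
    · -- trivial character: contradiction with (FI)
      apply hw0
      refine H906.flatInertia p hp2 ρbar.V (fun σ v => ρbar.ρ σ v) Λ hΛ hkill P hP w hA ?_
      have : w ∈ augSub P ρbar.ρ := by rw [htop]; exact Submodule.mem_top
      exact this
    · -- cyclotomic character: the augmentation is contained in `U`
      have hsub : augSub P ρbar.ρ ≤ U := by
        intro z hz
        rw [mem_augSub] at hz
        induction hz using AddSubgroup.closure_induction with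
        | mem z hz =>
          obtain ⟨τ, hτ, v, rfl⟩ := hz
          obtain ⟨n, hn⟩ := Fermat.Agent.S56.H966.exists_isCycExp p hp.ne_zero τ
          have hn0 : (n : k) ≠ 0 := isCycExp_cast_ne_zero hp hn
          have hτw : ρbar.ρ τ w = (n : k) • w := by
            have := hB τ hτ n hn
            rw [Nat.cast_smul_eq_nsmul]
            exact this
          obtain ⟨t, ht⟩ := exists_sub_eq_smul_of_det ρbar.finrank_eq (ρbar.ρ τ) hw0 hn0 hτw
            (hdet τ n hn) v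
          show ρbar.ρ τ v - v ∈ U
          rw [ht]
          exact U.smul_mem t hwU
        | zero => exact U.zero_mem
        | add x y _ _ hx hy => exact U.add_mem hx hy
        | neg x _ hx => exact U.neg_mem hx
      exact hU1 (eq_top_iff.mpr (htop ▸ hsub))

end S1

/-! ## Part C (S2): the inertia augmentation of `k[ε] ⊗ V` -/

section S2

variable {k : Type} [Field k] [Finite k] {p : ℕ} [Fact p.Prime] [CharP k p]
  (ρbar : ResidualGaloisRep k) (c : GQ → Module.End k ρbar.V)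

theorem nsmul_tensor_eq_zero (x : DualNumber k ⊗[k] ρbar.V) : p • x = 0 := by
  rw [← Nat.cast_smul_eq_nsmul k, CharP.cast_eq_zero, zero_smul]

/-- **(S2)** the inertia augmentation of a flat lift is generated over `k[ε]` by one element
`n₀` with nonzero reduction; it is stable under `D_P`. -/
theorem exists_aug_generator (hp2 : p ≠ 2) {ρ' : GaloisRepAdic (DualNumber k)}
    (hl : IsLiftOf ρbar c ρ')
    {Λ : Subalgebra (H906.Zp p) ((DualNumber k ⊗[k] ρbar.V) → Qb)}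
    (hΛ : H906.IsHL p (fun σ x => liftEnd ρbar c σ x) Λ)
    (hdet : ∀ (σ : GQ) (a : ℕ), IsCycExp p σ a → LinearMap.det (ρbar.ρ σ) = (a : k))
    (P : ValuationSubring Qb) (hP : P.LiesOverPrime p)
    (hred : ∃ U : Submodule k ρbar.V, U ≠ ⊥ ∧ U ≠ ⊤ ∧
      ∀ σ ∈ P.decompositionSubgroup ℚ, ∀ x ∈ U, ρbar.ρ σ x ∈ U) :
    ∃ n₀ : DualNumber k ⊗[k] ρbar.V, dPi0 n₀ ≠ 0 ∧
      (∀ σ ∈ P.inertiaSubgroupIn ℚ, ∀ y : DualNumber k ⊗[k] ρbar.V,
        ∃ a : DualNumber k, liftEnd ρbar c σ y - y = a • n₀) ∧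
      (∀ σ ∈ P.decompositionSubgroup ℚ, ∃ a : DualNumber k, liftEnd ρbar c σ n₀ = a • n₀) := by
  classical
  have hp : p.Prime := Fact.out
  haveI : Finite (DualNumber k ⊗[k] ρbar.V) := Module.finite_of_finite (DualNumber k)
  set T := liftHom ρbar c hl with hT
  set N := augGroup P (fun σ x => liftEnd ρbar c σ x) with hN
  set ZV := augGroup P (fun σ v => ρbar.ρ σ v) with hZV
  obtain ⟨l₀, hl0, hl₀Z, hZgen⟩ :=
    exists_aug_line ρbar hp2 (lattice_residual ρbar c hΛ) hdet P hP hred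
  -- (N2)
  have hN2 : ∀ n ∈ N, dPi0 n ∈ ZV := by
    intro n hn
    induction hn using AddSubgroup.closure_induction with
    | mem z hz =>
      obtain ⟨σ, hσ, y, rfl⟩ := hz
      rw [map_sub, dPi0_liftEnd]
      exact sub_mem_augGroup P _ hσ _
    | zero => rw [map_zero]; exact AddSubgroup.zero_mem _
    | add x y _ _ hx hy => rw [map_add]; exact AddSubgroup.add_mem _ hx hy
    | neg x _ hx => rw [map_neg]; exact AddSubgroup.neg_mem _ hx
  -- (N3)
  have hN3 : ∀ z ∈ ZV, ∃ n ∈ N, dPi0 n = z := by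
    intro z hz
    induction hz using AddSubgroup.closure_induction with
    | mem z hz =>
      obtain ⟨σ, hσ, v, rfl⟩ := hz
      refine ⟨liftEnd ρbar c σ (dIota v) - dIota v, sub_mem_augGroup P _ hσ _, ?_⟩
      rw [map_sub, dPi0_liftEnd, dPi0_dIota]
    | zero => exact ⟨0, AddSubgroup.zero_mem _, map_zero _⟩
    | add x y _ _ hx hy =>
      obtain ⟨n₁, h₁, rfl⟩ := hx
      obtain ⟨n₂, h₂, rfl⟩ := hy
      exact ⟨n₁ + n₂, AddSubgroup.add_mem _ h₁ h₂, map_add _ _ _⟩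
    | neg x _ hx =>
      obtain ⟨n₁, h₁, rfl⟩ := hx
      exact ⟨-n₁, AddSubgroup.neg_mem _ h₁, map_neg _ _⟩
  -- (N4)
  have hN4 : ∀ n ∈ N, dPi0 n = 0 → ∃ z ∈ ZV, n = epsIota ρbar z := by
    intro n hn h0
    have hnE : n ∈ (epsIota ρbar).range := ⟨dPi1 n, (eq_epsIota_of_dPi0_eq_zero ρbar h0).symm⟩
    have hE : ∀ (σ : GQ), ∀ x ∈ (epsIota ρbar).range,
        (fun σ x => liftEnd ρbar c σ x) σ x ∈ (epsIota ρbar).range := by
      rintro σ _ ⟨v, rfl⟩
      exact ⟨ρbar.ρ σ v, (liftEnd_epsIota ρbar c σ v).symm⟩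
    have h1 := mem_closure_of_mem_closure hp2 hΛ (nsmul_tensor_eq_zero ρbar) P hP
      (epsIota ρbar).range hE hnE hn
    have key : ∀ x ∈ AddSubgroup.closure
        {z : DualNumber k ⊗[k] ρbar.V | ∃ σ ∈ P.inertiaSubgroupIn ℚ,
          ∃ y ∈ (epsIota ρbar).range, z = (fun σ x => liftEnd ρbar c σ x) σ y - y},
        ∃ z ∈ ZV, x = epsIota ρbar z := by
      intro x hx
      induction hx using AddSubgroup.closure_induction with
      | mem z hz =>
        obtain ⟨σ, hσ, y, ⟨v, rfl⟩, rfl⟩ := hz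
        refine ⟨ρbar.ρ σ v - v, sub_mem_augGroup P _ hσ _, ?_⟩
        show liftEnd ρbar c σ (epsIota ρbar v) - epsIota ρbar v = _
        rw [liftEnd_epsIota, map_sub]
      | zero => exact ⟨0, AddSubgroup.zero_mem _, (map_zero _).symm⟩
      | add x y _ _ hx hy =>
        obtain ⟨z₁, h₁, rfl⟩ := hx
        obtain ⟨z₂, h₂, rfl⟩ := hy
        exact ⟨z₁ + z₂, AddSubgroup.add_mem _ h₁ h₂, (map_add _ _ _).symm⟩
      | neg x _ hx =>
        obtain ⟨z₁, h₁, rfl⟩ := hx
        exact ⟨-z₁, AddSubgroup.neg_mem _ h₁, (map_neg _ _).symm⟩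
    exact key n h1
  -- the generator
  obtain ⟨n₀, hn₀N, hn₀⟩ := hN3 l₀ hl₀Z
  have hNsmul : ∀ (a : DualNumber k) (n : DualNumber k ⊗[k] ρbar.V), n ∈ N → a • n ∈ N :=
    fun a n hn => smul_mem_augGroup P T a hn
  have hgen : ∀ n ∈ N, ∃ a : DualNumber k, n = a • n₀ := by
    intro n hn
    obtain ⟨t, ht⟩ := hZgen _ (hN2 n hn)
    have hn' : n - (TrivSqZeroExt.inl t : DualNumber k) • n₀ ∈ N :=
      AddSubgroup.sub_mem _ hn (hNsmul _ _ hn₀N)
    have h0 : dPi0 (n - (TrivSqZeroExt.inl t : DualNumber k) • n₀) = 0 := by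
      rw [map_sub, dPi0_smul, TrivSqZeroExt.fst_inl, hn₀, ht, sub_self]
    obtain ⟨z, hz, hzn⟩ := hN4 _ hn' h0
    obtain ⟨s, hs⟩ := hZgen z hz
    refine ⟨TrivSqZeroExt.inl t + TrivSqZeroExt.inl s * DualNumber.eps, ?_⟩
    have h2 : epsIota ρbar z =
        ((TrivSqZeroExt.inl s : DualNumber k) * DualNumber.eps) • n₀ := by
      apply coord_ext
      · rw [dPi0_epsIota, dPi0_smul, TrivSqZeroExt.fst_mul, DualNumber.fst_eps, mul_zero,
          zero_smul]
      · rw [dPi1_epsIota, dPi1_smul, TrivSqZeroExt.fst_mul, DualNumber.fst_eps, mul_zero,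
          zero_smul, zero_add, hn₀, hs]
        congr 1
        simp
    rw [add_smul, ← h2, ← hzn]
    abel
  refine ⟨n₀, by rw [hn₀]; exact hl0, ?_, ?_⟩
  · intro σ hσ y
    exact hgen _ (sub_mem_augGroup P _ hσ y)
  · intro σ hσ
    exact hgen _ (map_mem_augGroup P T hσ hn₀N)

end S2

/-! ## Part D: the basis and the statement -/

section final

variable {k : Type} [Field k]

/-- An element of `k[ε] ⊗ V` with nonzero reduction is the first vector of a basis. -/
theorem exists_basis_of_dPi0_ne_zero (ρbar : ResidualGaloisRep k)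
    (n₀ : DualNumber k ⊗[k] ρbar.V) (h : dPi0 n₀ ≠ 0) :
    ∃ b : Module.Basis (Fin 2) (DualNumber k) (DualNumber k ⊗[k] ρbar.V), b 0 = n₀ := by
  classical
  have h2 := ρbar.finrank_eq
  set l₀ := dPi0 n₀ with hl₀
  set w₀ := dPi1 n₀ with hw₀
  obtain ⟨v₁, hv₁⟩ : ∃ v₁ : ρbar.V, v₁ ∉ Submodule.span k {l₀} := by
    by_contra hcon
    push Not at hcon
    have htop : Submodule.span k {l₀} = ⊤ := eq_top_iff.mpr fun x _ => hcon x
    have h1 := finrank_span_singleton (K := k) h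
    rw [htop, finrank_top, h2] at h1
    omega
  have hli : LinearIndependent k ![l₀, v₁] := by
    rw [LinearIndependent.pair_iff]
    intro s t hst
    have ht : t = 0 := by
      by_contra ht
      apply hv₁
      rw [Submodule.mem_span_singleton]
      refine ⟨-(t⁻¹ * s), ?_⟩
      have h3 : t • v₁ = -(s • l₀) := eq_neg_of_add_eq_zero_right hst
      calc (-(t⁻¹ * s)) • l₀ = t⁻¹ • (-(s • l₀)) := by rw [neg_smul, mul_smul, smul_neg]
        _ = t⁻¹ • (t • v₁) := by rw [h3]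
        _ = v₁ := by rw [smul_smul, inv_mul_cancel₀ ht, one_smul]
    rw [ht, zero_smul, add_zero] at hst
    exact ⟨(smul_eq_zero.mp hst).resolve_right h, ht⟩
  set B : Module.Basis (Fin 2) k ρbar.V :=
    basisOfLinearIndependentOfCardEqFinrank hli (by rw [h2, Fintype.card_fin]) with hB
  have hB0 : B 0 = l₀ := by
    rw [hB, coe_basisOfLinearIndependentOfCardEqFinrank]
    rfl
  set BX := Algebra.TensorProduct.basis (DualNumber k) B with hBX
  set g : ρbar.V →ₗ[k] ρbar.V := B.constr k ![w₀, 0] with hg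
  have hg0 : g (B 0) = w₀ := by
    rw [hg, B.constr_basis]
    rfl
  set G : Module.End (DualNumber k) (DualNumber k ⊗[k] ρbar.V) :=
    (DualNumber.eps : DualNumber k) • g.baseChange (DualNumber k) with hG
  have hGG : ∀ x, G (G x) = 0 := by
    intro x
    rw [hG]
    simp only [LinearMap.smul_apply, map_smul]
    rw [smul_smul, DualNumber.eps_mul_eps, zero_smul]
  have h12 : (LinearMap.id + G).comp (LinearMap.id - G) = LinearMap.id := by
    apply LinearMap.ext
    intro x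
    simp only [LinearMap.comp_apply, LinearMap.add_apply, LinearMap.sub_apply,
      LinearMap.id_apply, map_sub, hGG]
    abel
  have h21 : (LinearMap.id - G).comp (LinearMap.id + G) = LinearMap.id := by
    apply LinearMap.ext
    intro x
    simp only [LinearMap.comp_apply, LinearMap.add_apply, LinearMap.sub_apply,
      LinearMap.id_apply, map_add, hGG]
    abel
  set E : (DualNumber k ⊗[k] ρbar.V) ≃ₗ[DualNumber k] (DualNumber k ⊗[k] ρbar.V) :=
    LinearEquiv.ofLinear (LinearMap.id + G) (LinearMap.id - G) h12 h21 with hE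
  refine ⟨BX.map E, ?_⟩
  rw [Module.Basis.map_apply, hBX, Algebra.TensorProduct.basis_apply, hB0]
  have hEapp : ∀ x, E x = x + G x := fun x => rfl
  rw [hEapp, hG, LinearMap.smul_apply, LinearMap.baseChange_tmul, ← hB0, hg0]
  rw [hB0]
  exact (eq_coord n₀).symm

variable [Finite k] {p : ℕ} [Fact p.Prime] [CharP k p]

/-- **FLAT-O, STRUCT.**  A flat lift to `k[ε]` of a `ρ̄` with cyclotomic determinant and a
`D_P`-stable line is ordinary at `P` (Prelude shape `IsOrdinaryAt`, at the place `P`):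
`L = k[ε] ∙ b 0` is the inertia augmentation. -/
theorem flatOrdLine (hp2 : p ≠ 2) (ρbar : ResidualGaloisRep k)
    (hdet : ∀ (σ : GQ) (a : ℕ), IsCycExp p σ a → LinearMap.det (ρbar.ρ σ) = (a : k))
    (P : ValuationSubring Qb) (hP : P.LiesOverPrime p)
    (hred : ∃ U : Submodule k ρbar.V, U ≠ ⊥ ∧ U ≠ ⊤ ∧
      ∀ σ ∈ P.decompositionSubgroup ℚ, ∀ x ∈ U, ρbar.ρ σ x ∈ U)
    (c : GQ → Module.End k ρbar.V) (ρ' : GaloisRepAdic (DualNumber k))
    (hl : IsLiftOf ρbar c ρ') (hflat : ρ'.IsFlatAt p) :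
    ∃ L : Submodule (DualNumber k) ρ'.V,
      (∃ b : Module.Basis (Fin 2) (DualNumber k) ρ'.V, L = (DualNumber k) ∙ b 0) ∧
      (∀ σ ∈ P.decompositionSubgroup ℚ, ∀ v ∈ L, ρ'.ρ σ v ∈ L) ∧
      (∀ σ ∈ P.inertiaSubgroupIn ℚ, ∀ v : ρ'.V, ρ'.ρ σ v - v ∈ L) := by
  obtain ⟨Λ, hΛ⟩ := exists_lattice_lift ρbar c hl hflat
  obtain ⟨n₀, hn₀, hI, hD⟩ := exists_aug_generator ρbar c hp2 hl hΛ hdet P hP hred
  obtain ⟨b, hb⟩ := exists_basis_of_dPi0_ne_zero ρbar n₀ hn₀
  obtain ⟨e, he⟩ := hl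
  have hsymm : ∀ (σ : GQ) (x : DualNumber k ⊗[k] ρbar.V),
      ρ'.ρ σ (e.symm x) = e.symm (liftEnd ρbar c σ x) := by
    intro σ x
    apply e.injective
    rw [he, e.apply_symm_apply, e.apply_symm_apply]
  refine ⟨(DualNumber k) ∙ (e.symm n₀), ⟨b.map e.symm, ?_⟩, ?_, ?_⟩
  · rw [Module.Basis.map_apply, hb]
  · intro σ hσ v hv
    obtain ⟨a, rfl⟩ := Submodule.mem_span_singleton.mp hv
    obtain ⟨a', ha'⟩ := hD σ hσ
    rw [map_smul, hsymm, ha', map_smul]
    exact Submodule.smul_mem _ _ (Submodule.smul_mem _ _ (Submodule.mem_span_singleton_self _))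
  · intro σ hσ v
    obtain ⟨a, ha⟩ := hI σ hσ (e v)
    have : ρ'.ρ σ v - v = a • e.symm n₀ := by
      apply e.injective
      rw [map_sub, he, ha, map_smul, e.apply_symm_apply]
    rw [this]
    exact Submodule.smul_mem _ _ (Submodule.mem_span_singleton_self _)

end final

end Fermat.Agent.S56.FO.H6

end
end
-- ===== PACK-END S56/FO/H6/Struct.lean

-- ===== PACK-BEGIN S55/G/CM/Assembly.lean
section
/-
S55 / layer G / block CM (sub-architect helper893) — ASSEMBLY.

* `topOrder_of`     : the leaves of `G/CM/Spec.lean` + `TOW.Gd1Spec` ⇒ `TopOrderSpec`;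
* `pClassModule_of` : `G.PClassUpperSpec` + `TopOrderSpec` ⇒ `G.PClassModuleSpec`.
NO sorry.
-/


set_option autoImplicit false
set_option linter.unusedSectionVars false
set_option linter.style.haveILetI false

open CategoryTheory groupCohomology
open scoped NumberField

noncomputable section

namespace Fermat.Agent.S55.G.CM

open Fermat.Agent.S55 Fermat.Agent.S55.Tow Fermat.Agent.S55.E1.H594 Fermat.Agent.S55.G
open Fermat.Agent.S55.G.Rec

/-- A finite abelian group of order dividing `m` with an element of order at least `m` is cyclic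
of order `m`. -/
theorem nonempty_addEquiv_zmod_of_order {A : Type} [AddCommGroup A] [Finite A] {m : ℕ}
    (hm : Nat.card A ∣ m) (y : A) (hy : ∀ n : ℕ, n • y = 0 → m ∣ n) :
    Nonempty (A ≃+ ZMod m) := by
  have h1 : m ∣ addOrderOf y := hy _ (addOrderOf_nsmul_eq_zero y)
  have h2 : addOrderOf y ∣ Nat.card A := addOrderOf_dvd_natCard y
  have h3 : addOrderOf y = Nat.card A :=
    Nat.dvd_antisymm h2 (hm.trans h1)
  have h4 : Nat.card A = m := Nat.dvd_antisymm hm (h1.trans h2)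
  have hc : IsAddCyclic A := isAddCyclic_of_addOrderOf_eq_card y h3
  exact ⟨(h4 ▸ (zmodAddCyclicAddEquiv hc)).symm⟩

/-- **G-CM:TOP** from the leaves. -/
theorem topOrder_of (hGd1 : ∀ p : ℕ, TOW.Gd1Spec p) (hGCL : ClosureLevelSpec)
    (hSub : SubClassModuleSpec) (hOrd : QuotOrderSpec) (hDesc : DescInclSpec)
    (hSInd : SIndTopSpec) : TopOrderSpec := by
  intro p hp hp2 S G L _ _ _ _ _ _ hpS hG hunr hζ
  obtain ⟨S', hSS', M, Γ', π, φ, hπ, hequiv, hfix⟩ := hGCL S G L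
  have hpS' : (⟨p, hp.out⟩ : Nat.Primes) ∈ S' := hSS' hpS
  -- `μ_p ⊂ M`
  have hMu : M.HasMu p := by
    obtain ⟨ζ, hζ, -⟩ := hζ
    refine ⟨((φ ζ : M.F) : Qbar), (φ ζ).2, ?_⟩
    have h1 : IsPrimitiveRoot (φ ζ) p := hζ.map_of_injective φ.injective
    exact h1.map_of_injective (f := M.F.val) Subtype.val_injective
  -- the class module at `p` on `Gal(M/ℚ)` and on `Γ'`
  obtain ⟨γ, hγ⟩ := hGd1 p S' hp.out hp2 hpS' M hMu
  have hγ' := hSub p M.Gal (TOW.lvlC M) γ hγ Γ'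
  -- descent
  haveI : FaithfulSMul ↥Γ' M.F := level_faithfulSMul_subgroup M Γ'
  obtain ⟨ι, hι⟩ := hDesc S' ↥Γ' G M.F L π φ hπ ⟨_, hpS'⟩ (level_isUnramOut_subgroup M Γ')
    hequiv hfix
  -- the class of order `|G|` in `H²(G, C_{S'}(L))`
  obtain ⟨y', hy'⟩ := hOrd p hp.out ↥Γ' G π hπ hG (CRep S' G L) (CRep S' ↥Γ' M.F) ι hι
    (TOW.res2 (TOW.lvlC M) Γ' γ) hγ'
  -- independence of `S`
  obtain ⟨y, hy⟩ := hSInd S S' hSS' G L ⟨_, hpS⟩ hunr y'
  exact ⟨y, fun n hn => hy' n (hy n hn)⟩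

/-- **G-CM** (`G.PClassModuleSpec`) from the upper bound and `TopOrderSpec`. -/
theorem pClassModule_of (hUp : PClassUpperSpec) (hTop : TopOrderSpec) : PClassModuleSpec := by
  intro p hp hp2 S G L _ _ _ _ _ _ hpS hG hunr hζ H
  obtain ⟨h1, hfin, hdvd⟩ := hUp p hp2 S G L hpS hG hunr hζ H
  refine ⟨h1, ?_⟩
  have hunrH : IsUnramOut S H L := fun w hw g hg x => hunr w hw (g : G) hg x
  have hζH : HasFixedRootOfUnity p H L := by
    obtain ⟨ζ, h1, h2⟩ := hζ
    exact ⟨ζ, h1, fun g => h2 (g : G)⟩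
  obtain ⟨y, hy⟩ := hTop p hp2 S H L hpS (hG.to_subgroup H) hunrH hζH
  haveI := hfin
  exact nonempty_addEquiv_zmod_of_order (A := groupCohomology (T.resSub (CRep S G L) H) 2)
    hdvd y hy

/-- **G-CM**, full assembly. -/
theorem pClassModule_of_leaves (hUp : PClassUpperSpec) (hGd1 : ∀ p : ℕ, TOW.Gd1Spec p)
    (hGCL : ClosureLevelSpec) (hSub : SubClassModuleSpec) (hOrd : QuotOrderSpec)
    (hDesc : DescInclSpec) (hSInd : SIndTopSpec) : PClassModuleSpec :=
  pClassModule_of hUp (topOrder_of hGd1 hGCL hSub hOrd hDesc hSInd)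

end Fermat.Agent.S55.G.CM

end
end
-- ===== PACK-END S55/G/CM/Assembly.lean

-- ===== PACK-BEGIN S55/G/CM/H644/Ord.lean
section



/-!
# S55 / G-CM:ORD — `QuotOrderSpec`  (helper644)

`π : Γ' ↠ Γ`, `Γ` a `p`-group, `C = C'^{ker π}` (via `ι`), `(C', γ)` a class module at `p`.
Then `H²(Γ, C)` contains a class of order (at least) `|Γ|`.

Proof.  `N = ker π`, `P'` a Sylow `p`-subgroup of `Γ'`, `t = [Γ' : P']`, `Y = (|N| t) • γ`.
`res_N Y = 0` (`|N|` kills `H²(N, -)`); `m` prime to `p` kills `H¹(N, C')`; the cochain form of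
inflation–restriction up to torsion (helper244) gives a cocycle of `Γ` with values in `C` whose
inflation is `m • Y`.  Orders are read off on `P'`, where `res γ` has order exactly `|P'|`.
-/

set_option autoImplicit false
set_option linter.unusedSectionVars false

namespace Fermat.Agent.S55.G.CM.H644

open CategoryTheory groupCohomology Rep
open Fermat.Agent.S55 Fermat.Agent.S55.T Fermat.Agent.S55.T.H244 Fermat.Agent.S55.H954

section Descend

variable {k G G' : Type} [CommRing k] [Group G] [Group G']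

set_option backward.defeqAttrib.useBackward true in
set_option backward.isDefEq.respectTransparency false in
/-- **Inflation along a surjection with descent, exactness up to torsion (cochain form).**
If `m` kills `H¹(ker π, C')`, `tr : C → C'` is injective with image the `ker π`-invariants and
`res_{ker π} x = 0`, then `m • x` is inflated from `H²(G, C)`. -/
theorem exists_map_eq_nsmul_of_resMap_eq_zero (π : G' →* G) (hπ : Function.Surjective π)
    (C : Rep.{0} k G) (C' : Rep.{0} k G') (tr : Rep.res π C ⟶ C')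
    (htr_inj : Function.Injective tr.hom)
    (htr_surj : ∀ c' : C'.V, (∀ n ∈ π.ker, C'.ρ n c' = c') → ∃ c : C.V, tr.hom c = c')
    {m : ℕ} (hkill : HOneKilledBy m C'.ρ π.ker)
    (x : groupCohomology C' 2) (hx : (resMap C' π.ker 2).hom x = 0) :
    ∃ z : groupCohomology C 2, (groupCohomology.map π tr 2).hom z = m • x := by
  induction x using H2_induction_on with | @h x =>
  have hx' : H2π (res π.ker.subtype C')
      (mapCocycles₂ π.ker.subtype (𝟙 (res π.ker.subtype C')) x) = 0 := by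
    rw [← H2π_comp_map_apply π.ker.subtype]; exact hx
  obtain ⟨(φ : π.ker → C'), hφ⟩ := (H2π_eq_zero_iff _).1 hx'
  have hcoc : IsTwoCocycle C'.ρ x := (mem_cocycles₂_iff _).1 x.2
  have hφ' : ∀ s t : π.ker, x ((s : G'), (t : G')) = C'.ρ s (φ t) - φ (s * t) + φ s := by
    intro s t
    have := congr_fun hφ (s, t)
    rw [d₁₂_hom_apply] at this
    exact this.symm
  obtain ⟨c, f', hff', hf'coc, i2, i1, i3⟩ :=
    exists_inflated_of_res_coboundary_nsmul C'.ρ π.ker hkill hcoc φ hφ'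
  -- equivariance of `tr`
  have htr_eq : ∀ (a : G') (v : C.V), tr.hom (C.ρ (π a) v) = C'.ρ a (tr.hom v) := by
    intro a v
    exact Rep.hom_comm_apply tr a v
  -- descend `f'` to a cochain of `G` with values in `C`
  have hex : ∀ q : G × G, ∃ v : C.V, ∀ a b : G', π a = q.1 → π b = q.2 →
      tr.hom v = f' (a, b) := by
    rintro ⟨g, h⟩
    obtain ⟨a₀, ha₀⟩ := hπ g
    obtain ⟨b₀, hb₀⟩ := hπ h
    obtain ⟨v, hv⟩ := htr_surj (f' (a₀, b₀)) (fun n hn => i3 n hn a₀ b₀)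
    refine ⟨v, fun a b ha hb => ?_⟩
    have hs : a₀⁻¹ * a ∈ π.ker := by
      rw [MonoidHom.mem_ker, map_mul, map_inv, ha₀, ha]; exact inv_mul_cancel g
    have hs' : b₀⁻¹ * b ∈ π.ker := by
      rw [MonoidHom.mem_ker, map_mul, map_inv, hb₀, hb]; exact inv_mul_cancel h
    have e1 : a = a₀ * (a₀⁻¹ * a) := by group
    have e2 : b = b₀ * (b₀⁻¹ * b) := by group
    rw [hv, e1, e2, i1 _ hs, i2 _ hs']
  choose fbar hfbar using hex
  have hfb : ∀ a b : G', tr.hom (fbar (π a, π b)) = f' (a, b) :=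
    fun a b => hfbar (π a, π b) a b rfl rfl
  have hfbar_mem : fbar ∈ cocycles₂ C := by
    rw [mem_cocycles₂_iff]
    intro g h j
    obtain ⟨a, rfl⟩ := hπ g
    obtain ⟨b, rfl⟩ := hπ h
    obtain ⟨d, rfl⟩ := hπ j
    apply htr_inj
    have e := hf'coc a b d
    rw [map_add, map_add, htr_eq, ← map_mul, ← map_mul, hfb, hfb, hfb, hfb]
    exact e
  refine ⟨H2π _ ⟨fbar, hfbar_mem⟩, ?_⟩
  rw [← map_nsmul]
  erw [H2π_comp_map_apply π]
  rw [H2π_eq_iff]
  refine ⟨-c, ?_⟩
  funext ⟨g, j⟩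
  have := congr_fun hff' (g, j)
  rw [d₁₂_hom_apply]
  change _ = tr.hom (fbar (π g, π j)) - (m • x) (g, j)
  have hmx : (m • x) (g, j) = (m • (x : G' × G' → C')) (g, j) := rfl
  rw [hmx, this, hfb]
  simp only [Pi.add_apply, dOne_apply, Pi.neg_apply, map_neg]
  abel

end Descend

/-- Arithmetic: `a = p^α`, `|P| ∣ n m K t`, `a K = |P| t`, `m, t` prime to `p`  ⟹  `a ∣ n`. -/
lemma dvd_of_card_arith {p a cP K t m n : ℕ} (ha : ∃ α, a = p ^ α)
    (hcP : 0 < cP) (hKa : a * K = cP * t) (hm : m.Coprime p) (ht : t.Coprime p)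
    (h : cP ∣ n * m * (K * t)) : a ∣ n := by
  obtain ⟨α, rfl⟩ := ha
  have h1 : cP * p ^ α ∣ cP * (n * (m * t * t)) := by
    have := mul_dvd_mul_right h (p ^ α)
    have e : n * m * (K * t) * p ^ α = cP * (n * (m * t * t)) := by
      calc n * m * (K * t) * p ^ α = n * m * t * (p ^ α * K) := by ring
        _ = n * m * t * (cP * t) := by rw [hKa]
        _ = cP * (n * (m * t * t)) := by ring
    rwa [e] at this
  have h2 : p ^ α ∣ n * (m * t * t) := Nat.dvd_of_mul_dvd_mul_left hcP h1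
  have hcop : (p ^ α).Coprime (m * t * t) := by
    apply Nat.Coprime.pow_left
    exact Nat.Coprime.mul_right (Nat.Coprime.mul_right hm.symm ht.symm) ht.symm
  exact hcop.dvd_of_dvd_mul_right h2

/-- **G-CM:ORD.** -/
theorem quotOrder : QuotOrderSpec := by
  intro p hp Γ' Γ _ _ _ π hπ hΓ C C' ι hι γ hγ
  have : Fact p.Prime := ⟨hp⟩
  have : Finite Γ := Finite.of_surjective π hπ
  obtain ⟨P⟩ : Nonempty (Sylow p Γ') := inferInstance
  set t := (P : Subgroup Γ').index with ht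
  have htcop : t.Coprime p := by
    rw [Nat.coprime_comm, Nat.Prime.coprime_iff_not_dvd hp]
    exact P.not_dvd_index
  obtain ⟨-, hcardP, hgenP⟩ := hγ (P : Subgroup Γ') P.2
  have hH1 : ∀ Q : Subgroup Γ', IsPGroup p Q →
      Limits.IsZero (groupCohomology (resSub C' Q) 1) := fun Q hQ => (hγ Q hQ).1
  obtain ⟨m, hm, hkill⟩ := exists_coprime_hOneKilledBy C' p hH1 π.ker
  set K := Nat.card π.ker with hK
  set Y : groupCohomology C' 2 := (K * t) • γ with hY
  have hresY : (resMap C' π.ker 2).hom Y = 0 := by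
    rw [hY, map_nsmul, mul_nsmul']
    exact H572.cardTorsion ℤ π.ker (resSub C' π.ker) 2 (by norm_num) _
  obtain ⟨z, hz⟩ := exists_map_eq_nsmul_of_resMap_eq_zero π hπ C C' ι hι.1
    (fun c' hc' => hι.2 c' hc') hkill Y hresY
  refine ⟨z, fun n hn => ?_⟩
  have h1 : n • m • Y = 0 := by rw [← hz, ← map_nsmul, hn, map_zero]
  have h2 : (n * m * (K * t)) • (resMap C' (P : Subgroup Γ') 2).hom γ = 0 := by
    have := congrArg (resMap C' (P : Subgroup Γ') 2).hom h1
    rw [map_nsmul, map_nsmul, hY, map_nsmul, map_zero] at this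
    rw [mul_nsmul', mul_nsmul']
    exact this
  have hord : addOrderOf ((resMap C' (P : Subgroup Γ') 2).hom γ) = Nat.card (P : Subgroup Γ') := by
    rw [← hcardP]
    apply addOrderOf_eq_card_of_forall_mem_zmultiples
    intro x
    obtain ⟨k, hk⟩ := hgenP x
    rw [hk]
    exact AddSubgroup.nsmul_mem_zmultiples _ k
  have h3 : Nat.card (P : Subgroup Γ') ∣ n * m * (K * t) := by
    rw [← hord]; exact addOrderOf_dvd_of_nsmul_eq_zero h2
  have hcard1 : Nat.card (P : Subgroup Γ') * t = Nat.card Γ' := Subgroup.card_mul_index _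
  have hcard2 : Nat.card Γ' = Nat.card Γ * K := by
    rw [Subgroup.card_eq_card_quotient_mul_card_subgroup π.ker]
    congr 1
    exact Nat.card_congr (QuotientGroup.quotientKerEquivOfSurjective π hπ).toEquiv
  exact dvd_of_card_arith (IsPGroup.exists_card_eq hΓ) Nat.card_pos
    (by rw [← hcard2, hcard1]) hm htcop h3

end Fermat.Agent.S55.G.CM.H644

end
-- ===== PACK-END S55/G/CM/H644/Ord.lean

-- ===== PACK-BEGIN S55/G/CM/H139/SIndTop.lean
section
/-
S55 / layer G / block CM, leaf G-CM:SINDT (subtask 612)                         (helper139)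

`sindTop_of : G.SIndepSpec → SIndTopSpec` — independence of `S` on `H²(G, -)`:
`y := π_* y'` for the morphism `π : C_{S'}(L) ⟶ C_S(L)` of `G.SIndepSpec`; `π_*` is injective on
`H²(G, -)` because it is bijective on `H²(⊤, -)` and restriction to `⊤` is bijective and natural
(`TOW.H323.resMap_top_bijective_h323`, `TOW.H323.resCoeffNat`).
Complete proofs, standard axioms only.
-/



set_option autoImplicit false

open CategoryTheory groupCohomology
open scoped NumberField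

noncomputable section

namespace Fermat.Agent.S55.G.CM.H139

open Fermat.Agent.S55 Fermat.Agent.S55.G Fermat.Agent.S55.G.Rec

/-- Pure algebra: if `f_*` is bijective on `H²(⊤, -)`, then `f_*` is injective on `H²(Γ, -)`. -/
theorem h2Top_injective_of_top {Γ : Type} [Group Γ] {A B : Rep.{0} ℤ Γ} (f : A ⟶ B)
    (hf : Function.Bijective
      (T.coeffMap ((Rep.resFunctor (⊤ : Subgroup Γ).subtype).map f) 2).hom) :
    Function.Injective (TOW.h2Top f) := by
  rw [injective_iff_map_eq_zero]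
  intro x hx
  have hnat := TOW.H323.resCoeffNat Γ A B f ⊤ x
  rw [hx, map_zero] at hnat
  have h1 : TOW.res2 A ⊤ x = 0 := by
    apply hf.1
    rw [map_zero]
    exact hnat
  have h2 := (TOW.H323.resMap_top_bijective_h323 A 2).1
  apply h2
  rw [map_zero]
  exact h1

/-- **G-CM:SINDT.** -/
theorem sindTop_of (hS : G.SIndepSpec) : SIndTopSpec := by
  intro S S' hSS' Γ L _ _ _ _ _ _ hne hunr y'
  obtain ⟨Φ, π, -, -, -, -, -, -, hbij⟩ := hS S S' hSS' Γ L hne hunr
  have hinj := h2Top_injective_of_top π (hbij ⊤ 2 (by norm_num))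
  refine ⟨TOW.h2Top π y', fun n hn => ?_⟩
  apply hinj
  rw [map_nsmul, hn, map_zero]

/-- The assembly form of the Spec file. -/
theorem sindTopAssembly : SIndTopAssemblySpec := sindTop_of

end Fermat.Agent.S55.G.CM.H139

end

end
-- ===== PACK-END S55/G/CM/H139/SIndTop.lean

-- ===== PACK-BEGIN S55/PT/H123/TopGlobE.lean
section


/-!
# S55 / layer D, leaf D-T2b (global dévissage), part E: generic main theorem   (helper123)

`topT3_bijective_of` : in the generic setting, `Θ(N) : T³(N) → Dual (charHom χ N)` is bijective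
for every finite-dimensional uniformly smooth `N`, given

* normal levels are cofinal and of finite index, `χ` is trivial on some level,
* ONE local top pairing is surjective on all finite-dimensional smooth modules,
* A7 (`IndInj`) for all normal levels on which `χ` is trivial,
* local right exactness of `H²`.
-/

set_option autoImplicit false
set_option linter.unusedSectionVars false

noncomputable section

namespace Fermat.Agent.S55.PT.H123

open groupCohomology Fermat.Agent.S55.PT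

variable {k : Type} [Field k] {G : Type} [Group G]

/-! ### smoothness and finiteness of induced modules -/

section IndSmooth

variable (U : Subgroup G) (χ : G →* kˣ)

lemma smul_mk_eq_of_mem_normal [U.Normal] {s : G} (hs : s ∈ U) (x : G ⧸ U) : s • x = x := by
  induction x using QuotientGroup.induction_on with
  | H g =>
    show ((s * g : G) : G ⧸ U) = (g : G ⧸ U)
    rw [QuotientGroup.eq]
    have h1 : (s * g)⁻¹ * g = g⁻¹ * s⁻¹ * g := by group
    rw [h1]
    have := (inferInstance : U.Normal).conj_mem s⁻¹ (U.inv_mem hs) g⁻¹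
    simpa using this

lemma indRep_twTriv_ρ_eq [U.Normal] (hχ : ∀ u ∈ U, χ u = 1) (W : Type) [AddCommGroup W]
    [Module k W] {s : G} (hs : s ∈ U) (a : indRep U (twTriv χ W)) :
    (indRep U (twTriv χ W)).ρ s a = a := by
  have h : indAct U (twTriv χ W) s = LinearMap.id := by
    apply Finsupp.lhom_ext
    intro x w
    rw [indAct_single, smul_mk_eq_of_mem_normal U hs x, twTriv_ρ_apply, hχ s hs, Units.val_one,
      one_smul, LinearMap.id_apply]
  exact LinearMap.congr_fun h a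

lemma indRep_twTriv_isUSmooth (L : LevelSys G) [U.Normal] (hU : U ∈ L.levels)
    (hχ : ∀ u ∈ U, χ u = 1) (W : Type) [AddCommGroup W] [Module k W] :
    L.IsUSmooth (indRep U (twTriv χ W)) :=
  ⟨U, hU, fun _ hs a => indRep_twTriv_ρ_eq U χ hχ W hs a⟩

lemma kerRep_isUSmooth (L : LevelSys G) {A B : Rep.{0, 0, 0} k G} (φ : A →ₗ[k] B)
    (hφ : IsEquivariant φ) (hA : L.IsUSmooth A) : L.IsUSmooth (kerRep φ hφ) := by
  obtain ⟨V, hV, h⟩ := hA
  refine ⟨V, hV, fun s hs a => ?_⟩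
  apply Subtype.ext
  exact h s hs a.1

end IndSmooth

section Main

variable {ι : Type} [Fintype ι] [DecidableEq ι] {Gv : ι → Type} [∀ v, Group (Gv v)]
variable {L : LevelSys G} {Lv : ∀ v, LevelSys (Gv v)} {r : ∀ v, Gv v →* G}
variable (hr : ∀ v, IsLevelCompatible (r v) L (Lv v))
variable {χ : G →* kˣ} {inv : ∀ v, (Lv v).H2 (ofChar (χ.comp (r v))) →ₗ[k] k}

/-- **Global dévissage, generic form.** -/
theorem topT3_bijective_of (hN : L.NormalCofinal) (hFI : L.FiniteIndex)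
    (hrec : IsRecip hr χ inv)
    (hχ : ∃ U ∈ L.levels, ∀ u ∈ U, χ u = 1)
    (v₀ : ι)
    (hloc : ∀ N' : Rep.{0, 0, 0} k (Gv v₀), FiniteDimensional k N' → (Lv v₀).IsUSmooth N' →
      Function.Surjective (topPair (Lv v₀) (χ.comp (r v₀)) (inv v₀) N'))
    (hInd : ∀ U ∈ L.levels, U.Normal → (∀ s ∈ U, χ s = 1) → IndInj hr χ inv U)
    (hS2l : ∀ (v : ι) (P N' : Rep.{0, 0, 0} k (Gv v)) (φ : P →ₗ[k] N') (hφ : IsEquivariant φ),
      FiniteDimensional k P → (Lv v).IsUSmooth P → (Lv v).IsUSmooth N' →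
      Function.Surjective φ → Function.Surjective (pushH2 φ hφ (Lv v)))
    (N : Rep.{0, 0, 0} k G) (hfd : FiniteDimensional k N) (hsm : L.IsUSmooth N) :
    Function.Bijective (topT3 hr N hrec) := by
  -- a normal level `U` acting trivially on `N` and `χ`
  obtain ⟨U₁, hU₁, hNU₁⟩ := hsm
  obtain ⟨U₂, hU₂, hχU₂⟩ := hχ
  obtain ⟨U₃, hU₃, hle₃⟩ := L.directed U₁ hU₁ U₂ hU₂
  obtain ⟨U, hU, hUle, hUn⟩ := hN U₃ hU₃
  haveI : U.Normal := hUn
  have hχU : ∀ u ∈ U, χ u = 1 := fun u hu => hχU₂ u (hle₃ (hUle hu)).2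
  have hNU : ∀ u ∈ U, N.ρ u = 1 := fun u hu =>
    LinearMap.ext fun a => hNU₁ u (hle₃ (hUle hu)).1 a
  have hsmN : L.IsUSmooth N := ⟨U₁, hU₁, hNU₁⟩
  haveI : U.FiniteIndex := hFI U hU
  haveI : Finite (G ⧸ U) := Subgroup.finite_quotient_of_finiteIndex
  -- the presentation
  let E := twSES χ U N hχU hNU
  have hfdQ : FiniteDimensional k (indRep U (twTriv χ N)) :=
    (inferInstance : FiniteDimensional k ((G ⧸ U) →₀ N))
  have hsmQ : L.IsUSmooth (indRep U (twTriv χ N)) := indRep_twTriv_isUSmooth U χ L hU hχU N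
  have hfdR : FiniteDimensional k (kerRep (A := indRep U (twTriv χ N)) (B := N) (augTw χ U N)
      (augTw_equivariant χ U N hχU hNU)) :=
    (inferInstance : FiniteDimensional k ↥(LinearMap.ker (augTw χ U N)))
  have hsmR : L.IsUSmooth (kerRep (A := indRep U (twTriv χ N)) (B := N) (augTw χ U N)
      (augTw_equivariant χ U N hχU hNU)) :=
    kerRep_isUSmooth L _ _ hsmQ
  constructor
  · -- injectivity
    rw [injective_iff_map_eq_zero]
    intro y hy
    obtain ⟨x, rfl⟩ := T3π_surjective hr N y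
    rw [topT3_mk] at hy
    rw [T3π_eq_zero_iff]
    refine mem_range_loc2_of_ses hr E hrec ?_ ?_ ?_ x hy
    · exact topT3_surjective_of hr hrec _ v₀ (hloc _ hfdR (hsmR.res (hr v₀)))
    · exact mem_range_loc2_ind hr U (hInd U hU hUn hχU) N
    · intro v
      exact hS2l v _ _ _ _ hfdQ (hsmQ.res (hr v)) (hsmN.res (hr v))
        (augTw_surjective χ U N hχU hNU)
  · -- surjectivity
    exact topT3_surjective_of hr hrec N v₀ (hloc _ hfd (hsmN.res (hr v₀)))

end Main

end Fermat.Agent.S55.PT.H123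

end

end
-- ===== PACK-END S55/PT/H123/TopGlobE.lean

-- ===== PACK-BEGIN S55/PT/CycloLevelH723.lean
section



/-!
# S55 / layer D, leaf D-F8 (helper723): `ℚ(μ_p)` is an `S`-level trivialising the cyclotomic
character when `p ∈ S`.
-/

set_option autoImplicit false
set_option linter.style.haveILetI false

noncomputable section

namespace Fermat.Agent.S55.PT.H723

open ExtCitation Fermat.Agent.S55.PT

/-- **D-F8** -/
theorem cycloLevelSpec (p : ℕ) [Fact p.Prime] (S : Finset Nat.Primes) : CycloLevelSpec p S := by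
  intro hpS
  haveI : NeZero p := ⟨(Fact.out : p.Prime).ne_zero⟩
  haveI : NeZero (p ^ 1) := ⟨pow_ne_zero 1 (Fact.out : p.Prime).ne_zero⟩
  refine ⟨(Fermat.Agent.S55.H414.cycloLevel (p ^ 1)).fixingSubgroup,
    ⟨_, Fermat.Agent.S55.H414.isUnramifiedOutside_cycloLevel p 1 S hpS, rfl⟩, ?_⟩
  intro u hu
  apply Fermat.Agent.S55.Bridge.cycloChar_eq_one_of_fixes
  intro t ht
  have hz := Fermat.Agent.S55.H414.zetaBar_spec (p ^ 1)
  have htp : (t : AlgebraicClosure ℚ) ^ (p ^ 1) = 1 := by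
    rw [pow_one]
    have h1 : t ^ p = 1 := (mem_rootsOfUnity p t).1 ht
    have h2 := congrArg (fun x : (AlgebraicClosure ℚ)ˣ => (x : AlgebraicClosure ℚ)) h1
    simpa using h2
  obtain ⟨i, -, hi⟩ := hz.eq_pow_of_pow_eq_one htp
  have hfix : u (Fermat.Agent.S55.H414.zetaBar (p ^ 1)) = Fermat.Agent.S55.H414.zetaBar (p ^ 1) :=
    (Fermat.Agent.S55.H414.mem_fixingSubgroup_cycloLevel_iff _ u).1 hu
  rw [← hi, map_pow, hfix]

end Fermat.Agent.S55.PT.H723

end

end
-- ===== PACK-END S55/PT/CycloLevelH723.lean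

-- ===== PACK-BEGIN S55/Inv/GO4/H978/Abs.lean
section


/-!
# S55 / `InvSpec` / GO4-LD (helper978): abstract part

* `mem_of_nsmul_eq_zero_of_cyclic` : in a finite cyclic group, a subgroup whose order is
  divisible by `p` contains every element killed by `p`;
* transport of cochain properties (`IsAt₁`, `IsAt₂`, `Z2At`, `IsCobAt₂`, `L.Z2`, `L.B2`) along
  equivariant additive maps (any coefficient ring);
* `exists_mem_Z2At_of_torsion` : in a weak class formation, a level-constant 2-cocycle whose class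
  is killed by `p` is cohomologous to a cocycle inflated from any normal level `V₁` whose order
  `n V₁` is divisible by `p`, and `p` times the latter is a coboundary at level `V₁`.
-/

set_option autoImplicit false

noncomputable section

namespace Fermat.Agent.S55.Inv.GO4.H978

open groupCohomology Fermat.Agent.S55.PT Fermat.Agent.S55.KC Fermat.Agent.S55.KC.H287

/-! ## 1. Cyclic groups -/

/-- In a finite cyclic group `S₂`, a subgroup `S₁` whose order is divisible by `p` contains every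
element killed by `p`. -/
theorem mem_of_nsmul_eq_zero_of_cyclic {X : Type*} [AddCommGroup X] (p : ℕ) [Fact p.Prime]
    {S₁ S₂ : AddSubgroup X} {n₁ n₂ : ℕ} (hn₁ : 0 < n₁) (hn₂ : 0 < n₂)
    (e₁ : S₁ ≃+ ZMod n₁) (e₂ : S₂ ≃+ ZMod n₂) (hle : S₁ ≤ S₂) (hpn : p ∣ n₁)
    {x : X} (hx : x ∈ S₂) (hpx : p • x = 0) : x ∈ S₁ := by
  have hp : p.Prime := Fact.out
  obtain ⟨N', hN'⟩ := hpn
  have hN'pos : 0 < N' := by
    rcases Nat.eq_zero_or_pos N' with h | h
    · rw [h, mul_zero] at hN'; omega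
    · exact h
  have : NeZero n₁ := ⟨hn₁.ne'⟩
  set c₁ : ZMod n₁ := ((N' : ℕ) : ZMod n₁) with hc₁
  have hc₁0 : c₁ ≠ 0 := by
    intro h
    have h1 : n₁ ∣ N' := (ZMod.natCast_eq_zero_iff _ _).1 h
    have h2 := Nat.le_of_dvd hN'pos h1
    have h3 : N' < n₁ := by
      rw [hN']
      have := hp.one_lt
      nlinarith
    omega
  have hc₁p : p • c₁ = 0 := by
    rw [hc₁, nsmul_eq_mul, ← Nat.cast_mul, ← hN', ZMod.natCast_self]
  set g : X := (e₁.symm c₁ : X) with hg
  have hgp : p • g = 0 := by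
    have h1 : p • e₁.symm c₁ = 0 := by
      rw [← map_nsmul, hc₁p, map_zero]
    simpa using congrArg (fun z : S₁ => (z : X)) h1
  have hg0 : g ≠ 0 := by
    intro h
    have h1 : e₁.symm c₁ = 0 := Subtype.ext (by rw [AddSubgroup.coe_zero]; exact h)
    have h2 : c₁ = 0 := by
      have := congrArg e₁ h1
      simpa using this
    exact hc₁0 h2
  have hgord : addOrderOf g = p := addOrderOf_eq_prime hgp hg0
  have hgmem : g ∈ S₁ := (e₁.symm c₁).2
  have hord : addOrderOf (e₂ ⟨g, hle hgmem⟩) = p := by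
    have h1 : addOrderOf (⟨g, hle hgmem⟩ : S₂) = p := by
      rw [← hgord]
      exact (addOrderOf_injective S₂.subtype Subtype.coe_injective ⟨g, hle hgmem⟩).symm
    rw [← h1]
    exact addOrderOf_injective (e₂ : S₂ →+ ZMod n₂) e₂.injective _
  have hcx : p • e₂ ⟨x, hx⟩ = 0 := by
    rw [← map_nsmul]
    have : p • (⟨x, hx⟩ : S₂) = 0 := Subtype.ext (by simpa using hpx)
    rw [this, map_zero]
  obtain ⟨t, ht⟩ := AddSubgroup.mem_zmultiples_iff.1
    (zmod_mem_zmultiples_of_nsmul_eq_zero hn₂ p _ _ hord hcx)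
  have h2 : t • (⟨g, hle hgmem⟩ : S₂) = ⟨x, hx⟩ := by
    apply e₂.injective
    rw [map_zsmul, ht]
  have h3 : t • g = x := by
    simpa using congrArg (fun z : S₂ => (z : X)) h2
  rw [← h3]
  exact S₁.zsmul_mem hgmem t

/-! ## 2. Transport along equivariant additive maps -/

section Transport

variable {G : Type} [Group G] {k : Type} [CommRing k] {M N : Rep.{0, 0, 0} k G}

/-- equivariance of an additive map between representations -/
def IsEquiv (φ : M →+ N) : Prop := ∀ (g : G) (m : M), φ (M.ρ g m) = N.ρ g (φ m)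

variable {φ : M →+ N}

lemma isAt₁_comp (hφ : IsEquiv φ) {V : Subgroup G} {x : G → M} (hx : IsAt₁ V M x) :
    IsAt₁ V N (φ ∘ x) := fun g s hs =>
  ⟨by simp only [Function.comp_apply, (hx g s hs).1],
    by simp only [Function.comp_apply]; rw [← hφ, (hx g s hs).2]⟩

lemma isAt₂_comp (hφ : IsEquiv φ) {V : Subgroup G} {f : G × G → M} (hf : IsAt₂ V M f) :
    IsAt₂ V N (φ ∘ f) := fun g h s t hs ht =>
  ⟨by simp only [Function.comp_apply, (hf g h s t hs ht).1],
    by simp only [Function.comp_apply]; rw [← hφ, (hf g h s t hs ht).2]⟩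

lemma d₁₂_comp (hφ : IsEquiv φ) (x : G → M) :
    (d₁₂ N).hom (φ ∘ x) = φ ∘ (d₁₂ M).hom x := by
  funext ⟨g, h⟩
  simp only [d₁₂_hom_apply, Function.comp_apply, map_add, map_sub]
  rw [hφ g (x h)]

lemma mem_cocycles₂_comp (hφ : IsEquiv φ) {f : G × G → M} (hf : f ∈ cocycles₂ M) :
    φ ∘ f ∈ cocycles₂ N := by
  rw [mem_cocycles₂_iff] at hf ⊢
  intro g h j
  simp only [Function.comp_apply]
  rw [← map_add, hf g h j, map_add, hφ]

lemma mem_Z2At_comp (hφ : IsEquiv φ) {V : Subgroup G} {f : G × G → M} (hf : f ∈ Z2At V M) :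
    φ ∘ f ∈ Z2At V N :=
  ⟨mem_cocycles₂_comp hφ hf.1, isAt₂_comp hφ hf.2⟩

lemma isCobAt₂_comp (hφ : IsEquiv φ) {V : Subgroup G} {f : G × G → M}
    (hf : IsCobAt₂ V M f) : IsCobAt₂ V N (φ ∘ f) := by
  obtain ⟨x, hx, rfl⟩ := hf
  exact ⟨φ ∘ x, isAt₁_comp hφ hx, d₁₂_comp hφ x⟩

lemma mem_B2_comp (hφ : IsEquiv φ) (L : LevelSys G) {f : G × G → M} (hf : f ∈ L.B2 M) :
    φ ∘ f ∈ L.B2 N := by
  obtain ⟨x, hx, rfl⟩ := hf
  exact ⟨φ ∘ x, LevelSys.IsLC₁.comp hx φ, d₁₂_comp hφ x⟩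

lemma mem_Z2_comp (hφ : IsEquiv φ) (L : LevelSys G) {f : G × G → M} (hf : f ∈ L.Z2 M) :
    φ ∘ f ∈ L.Z2 N :=
  ⟨mem_cocycles₂_comp hφ hf.1, LevelSys.IsLC₂.comp hf.2 φ⟩

end Transport

/-! ## 3. Torsion classes in a weak class formation -/

section WCF

variable {G : Type} [Group G]

/-- In a weak class formation below `V₀` (cochain form: `H2At V B ≃ ZMod (n V)` and injectivity of
inflation), a level-constant 2-cocycle `Y` whose class is killed by `p` is cohomologous to a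
cocycle `Y'` inflated from any given normal level `V₁ ≤ V₀` with `p ∣ n V₁`; moreover `p • Y'` is
a coboundary at level `V₁`. -/
theorem exists_mem_Z2At_of_torsion (L : LevelSys G) (p : ℕ) [Fact p.Prime]
    (B : Rep.{0, 0, 0} ℤ G) (V₀ : Subgroup G) (n : Subgroup G → ℕ)
    (hNC : L.NormalCofinal) (hFI : L.FiniteIndex) (hB : L.IsSmooth B)
    (hcyc : ∀ V : Subgroup G, V ∈ L.levels → V.Normal → V ≤ V₀ →
      0 < n V ∧ Nonempty (H2At V B ≃+ ZMod (n V)))
    (hinf : ∀ V' V : Subgroup G, V' ∈ L.levels → V'.Normal → V ∈ L.levels → V.Normal → V' ≤ V →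
      V ≤ V₀ → ∀ f ∈ Z2At V B, IsCobAt₂ V' B f → IsCobAt₂ V B f)
    (V₁ : Subgroup G) (hV₁ : V₁ ∈ L.levels) (hV₁n : V₁.Normal) (hV₁le : V₁ ≤ V₀)
    (hpn : p ∣ n V₁)
    (Y : G × G → B) (hY : Y ∈ L.Z2 B) (hpY : p • Y ∈ L.B2 B) :
    ∃ Y' : G × G → B, Y' ∈ Z2At V₁ B ∧ Y - Y' ∈ L.B2 B ∧ IsCobAt₂ V₁ B (p • Y') := by
  set x : L.H2 B := L.H2π B ⟨Y, hY⟩ with hx
  have hpx : p • x = 0 := by
    rw [hx, ← map_nsmul, L.H2π_eq_zero_iff]
    exact hpY
  obtain ⟨VF, hVF, hVFn, hVFle, hxF⟩ := exists_psi_eq (L := L) (B := B) hNC x V₁ hV₁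
  have hVF0 : VF ≤ V₀ := hVFle.trans hV₁le
  obtain ⟨hn₂, ⟨e₂'⟩⟩ := hcyc VF hVF hVFn hVF0
  obtain ⟨hn₁, ⟨e₁'⟩⟩ := hcyc V₁ hV₁ hV₁n hV₁le
  have hinj₂ := psi_injective hNC hFI hB V₀ hinf VF hVF hVFn hVF0
  have hinj₁ := psi_injective hNC hFI hB V₀ hinf V₁ hV₁ hV₁n hV₁le
  have e₂ : (psi L B VF hVF).range ≃+ ZMod (n VF) :=
    (AddMonoidHom.ofInjective hinj₂).symm.trans e₂'
  have e₁ : (psi L B V₁ hV₁).range ≃+ ZMod (n V₁) :=
    (AddMonoidHom.ofInjective hinj₁).symm.trans e₁'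
  have hmem : x ∈ (psi L B V₁ hV₁).range :=
    mem_of_nsmul_eq_zero_of_cyclic p hn₁ hn₂ e₁ e₂ (range_psi_mono hV₁ hVF hVFle) hpn hxF hpx
  obtain ⟨y, hy⟩ := hmem
  obtain ⟨Y', rfl⟩ := QuotientAddGroup.mk_surjective y
  rw [psi_mk, psi₀_apply] at hy
  have hYY' : Y - Y'.1 ∈ L.B2 B := by
    have h0 : L.H2π B (⟨Y, hY⟩ - toZ2 L B V₁ hV₁ Y') = 0 := by
      rw [map_sub, hy, ← hx, sub_self]
    exact (L.H2π_eq_zero_iff B _).1 h0
  refine ⟨Y'.1, Y'.2, hYY', ?_⟩
  have hpY'Z : p • Y'.1 ∈ Z2At V₁ B := (Z2At V₁ B).nsmul_mem Y'.2 p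
  have hpY'B : p • Y'.1 ∈ L.B2 B := by
    have h1 : p • (Y - Y'.1) ∈ L.B2 B := (L.B2 B).smul_of_tower_mem p hYY'
    have h2 : p • Y'.1 = p • Y - p • (Y - Y'.1) := by
      rw [smul_sub]; abel
    rw [h2]
    exact (L.B2 B).sub_mem hpY h1
  exact isCobAt₂_of_mem_B2 L hNC hFI B hB V₀ hinf V₁ hV₁ hV₁n hV₁le _ hpY'Z hpY'B

end WCF

end Fermat.Agent.S55.Inv.GO4.H978

end

end
-- ===== PACK-END S55/Inv/GO4/H978/Abs.lean

-- ===== PACK-BEGIN S55/Inv/GO4/H978/Orbit.lean
section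



/-!
# S55 / `InvSpec` / GO4-LD (helper978): orbit decomposition of `K.ind φ U A`

`φ : H →* G`, `U ≤ G` normal of finite index, `W = φ⁻¹ U`.  The `H`-set `G ⧸ U` is a finite
disjoint union of orbits, each isomorphic to `H ⧸ W`; hence

  `K.ind φ U A  =  ⊕_{orbits} KC.indR W A`   (equivariantly).

* `orbMap φ U x : H ⧸ W → G ⧸ U`, `h W ↦ φ h • x` (injective, equivariant);
* `orbE φ U A x : indR W A →+ ind φ U A` (push-forward), `orbP φ U A x` (pull-back), equivariant;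
* `sum_orbE_orbP` : `∑_{orbits} orbE (orbP b) = b`;
* `exists_sum_of_single` : a statement of the form "every `p`-torsion level-constant class is
  represented at level `V₁`" passes from `indR W A` to `ind φ U A`.
-/

set_option autoImplicit false
set_option linter.style.haveILetI false
set_option linter.unusedSectionVars false

noncomputable section

namespace Fermat.Agent.S55.Inv.GO4.H978

open groupCohomology Fermat.Agent.S55 Fermat.Agent.S55.PT Fermat.Agent.S55.KC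

variable {G H : Type} [Group G] [Group H] (φ : H →* G) (U : Subgroup G) [hU : U.Normal]

/-- a normal subgroup acts trivially on its quotient -/
lemma smul_quot_eq_of_mem {u : G} (hu : u ∈ U) (x : G ⧸ U) : u • x = x := by
  induction x using QuotientGroup.induction_on with
  | H g =>
    show ((u * g : G) : G ⧸ U) = (g : G ⧸ U)
    rw [QuotientGroup.eq]
    have h1 : g⁻¹ * u⁻¹ * g⁻¹⁻¹ ∈ U := hU.conj_mem _ (U.inv_mem hu) g⁻¹
    have h2 : (u * g)⁻¹ * g = g⁻¹ * u⁻¹ * g⁻¹⁻¹ := by group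
    rw [h2]
    exact h1

/-- the stabiliser of every point of `G ⧸ U` is `U` -/
lemma mem_of_smul_quot_eq {u : G} (x : G ⧸ U) (h : u • x = x) : u ∈ U := by
  induction x using QuotientGroup.induction_on with
  | H g =>
    have h' : ((u * g : G) : G ⧸ U) = (g : G ⧸ U) := h
    rw [QuotientGroup.eq] at h'
    have h1 : g * ((u * g)⁻¹ * g) * g⁻¹ ∈ U := hU.conj_mem _ h' g
    have h2 : g * ((u * g)⁻¹ * g) * g⁻¹ = u⁻¹ := by group
    rw [h2] at h1
    simpa using U.inv_mem h1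

/-- the orbit map `H ⧸ φ⁻¹U → G ⧸ U`, `h ↦ φ h • x` -/
def orbMap (x : G ⧸ U) : H ⧸ U.comap φ → G ⧸ U :=
  Quotient.lift (fun h : H => φ h • x) (by
    intro a b hab
    have hab' : a⁻¹ * b ∈ U.comap φ := QuotientGroup.leftRel_apply.1 hab
    have h1 : φ (a⁻¹ * b) • x = x := smul_quot_eq_of_mem U (Subgroup.mem_comap.1 hab') x
    show φ a • x = φ b • x
    have h2 : φ b = φ a * φ (a⁻¹ * b) := by
      rw [← map_mul]; congr 1; group
    rw [h2, mul_smul, h1])

@[simp] lemma orbMap_mk (x : G ⧸ U) (h : H) :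
    orbMap φ U x (h : H ⧸ U.comap φ) = φ h • x := rfl

lemma orbMap_smul (x : G ⧸ U) (h : H) (c : H ⧸ U.comap φ) :
    orbMap φ U x (h • c) = φ h • orbMap φ U x c := by
  induction c using QuotientGroup.induction_on with
  | H h' =>
    show φ (h * h') • x = φ h • (φ h' • x)
    rw [map_mul, mul_smul]

lemma orbMap_injective (x : G ⧸ U) : Function.Injective (orbMap φ U x) := by
  intro c c' hcc
  induction c using QuotientGroup.induction_on with
  | H a =>
    induction c' using QuotientGroup.induction_on with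
    | H b =>
      have h0 : φ a • x = φ b • x := hcc
      have h1 : φ (a⁻¹ * b) • x = x := by
        rw [map_mul, mul_smul, ← h0, ← mul_smul, map_inv, inv_mul_cancel, one_smul]
      have h2 : φ (a⁻¹ * b) ∈ U := mem_of_smul_quot_eq U x h1
      exact QuotientGroup.eq.2 (Subgroup.mem_comap.2 h2)

/-- the orbit relation on `G ⧸ U` -/
def orbSetoid : Setoid (G ⧸ U) where
  r x y := ∃ h : H, φ h • x = y
  iseqv :=
    { refl := fun x => ⟨1, by rw [map_one, one_smul]⟩
      symm := by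
        rintro x y ⟨h, rfl⟩
        exact ⟨h⁻¹, by rw [map_inv, inv_smul_smul]⟩
      trans := by
        rintro x y z ⟨h, rfl⟩ ⟨h', rfl⟩
        exact ⟨h' * h, by rw [map_mul, mul_smul]⟩ }

/-- the set of orbits -/
abbrev Orb : Type := Quotient (orbSetoid φ U)

/-- the chosen representative of an orbit -/
def orbRep (i : Orb φ U) : G ⧸ U := Quotient.out i

lemma exists_orbMap_eq (y : G ⧸ U) :
    ∃ c : H ⧸ U.comap φ, orbMap φ U (orbRep φ U (Quotient.mk (orbSetoid φ U) y)) c = y := by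
  have h : (orbSetoid φ U).r (orbRep φ U (Quotient.mk (orbSetoid φ U) y)) y :=
    Quotient.exact (Quotient.out_eq (Quotient.mk (orbSetoid φ U) y))
  obtain ⟨h, hh⟩ := h
  exact ⟨(h : H ⧸ U.comap φ), hh⟩

lemma orb_eq_of_orbMap_eq {i : Orb φ U} {c : H ⧸ U.comap φ} {y : G ⧸ U}
    (h : orbMap φ U (orbRep φ U i) c = y) : Quotient.mk (orbSetoid φ U) y = i := by
  induction c using QuotientGroup.induction_on with
  | H a =>
    have h1 : (orbSetoid φ U).r (orbRep φ U i) y := ⟨a, h⟩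
    have h2 : Quotient.mk (orbSetoid φ U) (orbRep φ U i) = Quotient.mk (orbSetoid φ U) y :=
      Quotient.sound h1
    rw [← h2]
    exact Quotient.out_eq i

variable (A : Rep.{0, 0, 0} ℤ H)

/-! ### raw `Finsupp` computations -/

section Raw

variable {φ U}
variable (X₀ : Type) [AddCommGroup X₀] (r : H → X₀ →+ X₀)

/-- the diagonal action on `(G ⧸ U →₀ X₀)`, raw form -/
def actG (h : H) (b : (G ⧸ U) →₀ X₀) : (G ⧸ U) →₀ X₀ :=
  Finsupp.mapDomain (fun x : G ⧸ U => φ h • x) (Finsupp.mapRange (r h) (map_zero _) b)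

/-- the diagonal action on `(H ⧸ W →₀ X₀)`, raw form -/
def actH (W : Subgroup H) (h : H) (b : (H ⧸ W) →₀ X₀) : (H ⧸ W) →₀ X₀ :=
  Finsupp.mapDomain (fun x : H ⧸ W => h • x) (Finsupp.mapRange (r h) (map_zero _) b)

omit hU in
lemma actG_apply (h : H) (b : (G ⧸ U) →₀ X₀) (y : G ⧸ U) :
    actG (φ := φ) (U := U) X₀ r h b (φ h • y) = r h (b y) := by
  unfold actG
  rw [Finsupp.mapDomain_apply (MulAction.injective (φ h)), Finsupp.mapRange_apply]

lemma actH_apply (W : Subgroup H) (h : H) (b : (H ⧸ W) →₀ X₀) (c : H ⧸ W) :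
    actH X₀ r W h b (h • c) = r h (b c) := by
  unfold actH
  rw [Finsupp.mapDomain_apply (MulAction.injective h), Finsupp.mapRange_apply]

omit hU in
lemma actG_single (h : H) (x : G ⧸ U) (a : X₀) :
    actG (φ := φ) (U := U) X₀ r h (Finsupp.single x a) = Finsupp.single (φ h • x) (r h a) := by
  unfold actG
  rw [Finsupp.mapRange_single, Finsupp.mapDomain_single]

lemma actH_single (W : Subgroup H) (h : H) (c : H ⧸ W) (a : X₀) :
    actH X₀ r W h (Finsupp.single c a) = Finsupp.single (h • c) (r h a) := by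
  unfold actH
  rw [Finsupp.mapRange_single, Finsupp.mapDomain_single]

variable (φ U)

/-- push-forward along the orbit map of `x`, raw form -/
def eR (x : G ⧸ U) : ((H ⧸ U.comap φ) →₀ X₀) →+ ((G ⧸ U) →₀ X₀) :=
  Finsupp.mapDomain.addMonoidHom (orbMap φ U x)

/-- pull-back along the orbit map of `x`, raw form -/
def pR (x : G ⧸ U) : ((G ⧸ U) →₀ X₀) →+ ((H ⧸ U.comap φ) →₀ X₀) :=
  Finsupp.comapDomain.addMonoidHom (orbMap_injective φ U x)

lemma eR_single (x : G ⧸ U) (c : H ⧸ U.comap φ) (a : X₀) :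
    eR φ U X₀ x (Finsupp.single c a) = Finsupp.single (orbMap φ U x c) a :=
  Finsupp.mapDomain_single

lemma pR_apply (x : G ⧸ U) (b : (G ⧸ U) →₀ X₀) (c : H ⧸ U.comap φ) :
    pR φ U X₀ x b c = b (orbMap φ U x c) := rfl

lemma eR_act (x : G ⧸ U) (h : H) (m : (H ⧸ U.comap φ) →₀ X₀) :
    eR φ U X₀ x (actH X₀ r (U.comap φ) h m) = actG (φ := φ) (U := U) X₀ r h (eR φ U X₀ x m) := by
  induction m using Finsupp.induction_linear with
  | zero =>
    have h1 : actH X₀ r (U.comap φ) h 0 = 0 := by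
      unfold actH; rw [Finsupp.mapRange_zero, Finsupp.mapDomain_zero]
    have h2 : actG (φ := φ) (U := U) X₀ r h 0 = 0 := by
      unfold actG; rw [Finsupp.mapRange_zero, Finsupp.mapDomain_zero]
    rw [h1, map_zero, h2]
  | add a b ha hb =>
    have h1 : actH X₀ r (U.comap φ) h (a + b) =
        actH X₀ r (U.comap φ) h a + actH X₀ r (U.comap φ) h b := by
      unfold actH; rw [Finsupp.mapRange_add (fun x y => map_add (r h) x y), Finsupp.mapDomain_add]
    have h2 : ∀ a b : (G ⧸ U) →₀ X₀, actG (φ := φ) (U := U) X₀ r h (a + b) =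
        actG (φ := φ) (U := U) X₀ r h a + actG (φ := φ) (U := U) X₀ r h b := by
      intro a b
      unfold actG; rw [Finsupp.mapRange_add (fun x y => map_add (r h) x y), Finsupp.mapDomain_add]
    rw [h1, map_add, map_add, h2, ha, hb]
  | single c a =>
    rw [actH_single, eR_single, eR_single, actG_single, orbMap_smul]

lemma pR_act (x : G ⧸ U) (h : H) (b : (G ⧸ U) →₀ X₀) :
    pR φ U X₀ x (actG (φ := φ) (U := U) X₀ r h b) = actH X₀ r (U.comap φ) h (pR φ U X₀ x b) := by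
  refine Finsupp.ext fun c => ?_
  have hc : c = h • (h⁻¹ • c) := (smul_inv_smul h c).symm
  rw [pR_apply]
  conv_lhs => rw [hc, orbMap_smul]
  rw [actG_apply]
  conv_rhs => rw [hc]
  rw [actH_apply, pR_apply]

lemma pR_single_of_ne (i : Orb φ U) (y : G ⧸ U) (a : X₀)
    (hne : Quotient.mk (orbSetoid φ U) y ≠ i) :
    pR φ U X₀ (orbRep φ U i) (Finsupp.single y a) = 0 := by
  classical
  refine Finsupp.ext fun c => ?_
  rw [pR_apply, Finsupp.single_apply, if_neg]
  · rfl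
  · intro h
    exact hne (orb_eq_of_orbMap_eq φ U h.symm)

lemma eR_pR_single (y : G ⧸ U) (a : X₀) :
    eR φ U X₀ (orbRep φ U (Quotient.mk (orbSetoid φ U) y))
      (pR φ U X₀ (orbRep φ U (Quotient.mk (orbSetoid φ U) y)) (Finsupp.single y a)) =
        Finsupp.single y a := by
  classical
  obtain ⟨c, hc⟩ := exists_orbMap_eq φ U y
  have h1 : pR φ U X₀ (orbRep φ U (Quotient.mk (orbSetoid φ U) y)) (Finsupp.single y a) =
      Finsupp.single c a := by
    refine Finsupp.ext fun c' => ?_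
    rw [pR_apply, Finsupp.single_apply, Finsupp.single_apply]
    by_cases hcc : c = c'
    · rw [if_pos hcc, if_pos (by rw [← hcc, hc])]
    · rw [if_neg hcc, if_neg]
      intro h
      exact hcc (orbMap_injective φ U _ (hc.trans h))
  rw [h1, eR_single, hc]

/-- **orbit decomposition**, raw form -/
theorem sum_eR_pR [Fintype (Orb φ U)] (b : (G ⧸ U) →₀ X₀) :
    ∑ i : Orb φ U, eR φ U X₀ (orbRep φ U i) (pR φ U X₀ (orbRep φ U i) b) = b := by
  classical
  have key : (∑ i : Orb φ U, (eR φ U X₀ (orbRep φ U i)).comp (pR φ U X₀ (orbRep φ U i))) =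
      AddMonoidHom.id ((G ⧸ U) →₀ X₀) := by
    refine Finsupp.addHom_ext fun y a => ?_
    rw [AddMonoidHom.finsetSum_apply,
      Finset.sum_eq_single (Quotient.mk (orbSetoid φ U) y)]
    · exact eR_pR_single φ U X₀ y a
    · intro i _ hi
      show eR φ U X₀ (orbRep φ U i) (pR φ U X₀ (orbRep φ U i) (Finsupp.single y a)) = 0
      rw [pR_single_of_ne φ U X₀ i y a (Ne.symm hi), map_zero]
    · intro h
      exact absurd (Finset.mem_univ _) h
  have := DFunLike.congr_fun key b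
  rw [AddMonoidHom.finsetSum_apply] at this
  exact this

end Raw

/-! ### push-forward and pull-back along the orbit maps -/

/-- push-forward along the orbit map of `x` -/
def orbE (x : G ⧸ U) : indR (U.comap φ) A →+ K.ind φ U A :=
  eR φ U A.V x

/-- pull-back along the orbit map of `x` -/
def orbP (x : G ⧸ U) : K.ind φ U A →+ indR (U.comap φ) A :=
  pR φ U A.V x

lemma ind_ρ_single (h : H) (x : G ⧸ U) (a : A) :
    (K.ind φ U A).ρ h (Finsupp.single x a : (G ⧸ U) →₀ A) =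
      (Finsupp.single (φ h • x) (A.ρ h a) : (G ⧸ U) →₀ A) :=
  K.indρ_single φ U A h x a

lemma ind_ρ_eq_actG (h : H) (b : K.ind φ U A) :
    (K.ind φ U A).ρ h b =
      actG (φ := φ) (U := U) A.V (fun h => (A.ρ h).toAddMonoidHom) h b := rfl

lemma isEquiv_orbE (x : G ⧸ U) : IsEquiv (orbE φ U A x) :=
  fun h m => eR_act φ U A.V (fun h => (A.ρ h).toAddMonoidHom) x h m

lemma isEquiv_orbP (x : G ⧸ U) : IsEquiv (orbP φ U A x) :=
  fun h b => pR_act φ U A.V (fun h => (A.ρ h).toAddMonoidHom) x h b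

variable [Finite (G ⧸ U)]

instance : Finite (Orb φ U) := Quotient.finite _

/-- **orbit decomposition**: `b = ∑_{orbits} orbE (orbP b)`. -/
theorem sum_orbE_orbP [Fintype (Orb φ U)] (b : K.ind φ U A) :
    ∑ i : Orb φ U, orbE φ U A (orbRep φ U i) (orbP φ U A (orbRep φ U i) b) = b :=
  sum_eR_pR φ U A.V b

/-! ### passing from one orbit to the whole induced module -/

/-- If every level-constant 2-cocycle of `indR W A` with class killed by `p` is represented at
level `V₁` (with `p` times the representative a coboundary at level `V₁`), the same holds for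
`K.ind φ U A`. -/
theorem exists_sum_of_single (L : LevelSys H) (p : ℕ) (V₁ : Subgroup H)
    (hsingle : ∀ Y : H × H → indR (U.comap φ) A, Y ∈ L.Z2 (indR (U.comap φ) A) →
      p • Y ∈ L.B2 (indR (U.comap φ) A) →
      ∃ Y' : H × H → indR (U.comap φ) A, Y' ∈ Z2At V₁ (indR (U.comap φ) A) ∧
        Y - Y' ∈ L.B2 (indR (U.comap φ) A) ∧ IsCobAt₂ V₁ (indR (U.comap φ) A) (p • Y'))
    (X : H × H → K.ind φ U A) (hX : X ∈ L.Z2 (K.ind φ U A))
    (hpX : p • X ∈ L.B2 (K.ind φ U A)) :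
    ∃ X' : H × H → K.ind φ U A, X' ∈ Z2At V₁ (K.ind φ U A) ∧
      X - X' ∈ L.B2 (K.ind φ U A) ∧ IsCobAt₂ V₁ (K.ind φ U A) (p • X') := by
  classical
  letI : Fintype (Orb φ U) := Fintype.ofFinite _
  have hY : ∀ i : Orb φ U, ∃ Y' : H × H → indR (U.comap φ) A,
      Y' ∈ Z2At V₁ (indR (U.comap φ) A) ∧
      (orbP φ U A (orbRep φ U i)) ∘ X - Y' ∈ L.B2 (indR (U.comap φ) A) ∧
      IsCobAt₂ V₁ (indR (U.comap φ) A) (p • Y') := by
    intro i
    refine hsingle _ (mem_Z2_comp (isEquiv_orbP φ U A _) L hX) ?_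
    have h1 : p • ((orbP φ U A (orbRep φ U i)) ∘ X) = (orbP φ U A (orbRep φ U i)) ∘ (p • X) := by
      funext z
      simp only [Pi.smul_apply, Function.comp_apply, map_nsmul]
    rw [h1]
    exact mem_B2_comp (isEquiv_orbP φ U A _) L hpX
  choose Y' hY'Z hY'B hY'C using hY
  refine ⟨∑ i : Orb φ U, (orbE φ U A (orbRep φ U i)) ∘ (Y' i), ?_, ?_, ?_⟩
  · exact (Z2At V₁ (K.ind φ U A)).sum_mem
      (fun i _ => mem_Z2At_comp (isEquiv_orbE φ U A _) (hY'Z i))
  · have h1 : X = ∑ i : Orb φ U,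
        (orbE φ U A (orbRep φ U i)) ∘ ((orbP φ U A (orbRep φ U i)) ∘ X) := by
      funext z
      rw [Finset.sum_apply]
      exact (sum_orbE_orbP φ U A (X z)).symm
    have h2 : X - ∑ i : Orb φ U, (orbE φ U A (orbRep φ U i)) ∘ (Y' i) =
        ∑ i : Orb φ U, (orbE φ U A (orbRep φ U i)) ∘
          ((orbP φ U A (orbRep φ U i)) ∘ X - Y' i) := by
      conv_lhs => rw [h1]
      rw [← Finset.sum_sub_distrib]
      refine Finset.sum_congr rfl fun i _ => ?_
      funext z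
      simp only [Pi.sub_apply, Function.comp_apply, map_sub]
    rw [h2]
    exact (L.B2 (K.ind φ U A)).sum_mem
      (fun i _ => mem_B2_comp (isEquiv_orbE φ U A _) L (hY'B i))
  · have h3 : p • ∑ i : Orb φ U, (orbE φ U A (orbRep φ U i)) ∘ (Y' i) =
        ∑ i : Orb φ U, (orbE φ U A (orbRep φ U i)) ∘ (p • Y' i) := by
      rw [Finset.smul_sum]
      refine Finset.sum_congr rfl fun i _ => ?_
      funext z
      simp only [Pi.smul_apply, Function.comp_apply, map_nsmul]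
    rw [h3]
    exact (B2At V₁ (K.ind φ U A)).sum_mem
      (fun i _ => isCobAt₂_comp (isEquiv_orbE φ U A _) (hY'C i))

end Fermat.Agent.S55.Inv.GO4.H978

end

end
-- ===== PACK-END S55/Inv/GO4/H978/Orbit.lean

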