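import Fermat.Agent.Pack.S56.E19L3
import Fermat.Agent.Pack.S56.E15L0
import Fermat.Agent.Pack.S56.E15L3
import Fermat.Agent.Pack.S56.E18L3
import Fermat.Agent.Pack.S56.E19L1
import Fermat.Agent.Pack.S56.E10L3
import Fermat.Agent.Pack.S56.E17L1
import Fermat.Agent.Pack.S56.E6L0
import Fermat.Agent.Pack.S56.E15L2
import Fermat.Agent.Pack.S56.E16L0
import Fermat.Agent.Pack.S56.E19L2
import Fermat.Agent.Pack.S56.E14L3
import Fermat.Agent.Pack.S56.E2L3
import Fermat.Agent.Pack.S56.E16L1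
import Fermat.Agent.Pack.S56.E18L1
import Fermat.Agent.Pack.S56.E16L3
import Fermat.Agent.Pack.S56.E17L2
import Fermat.Agent.Pack.S56.E8L1
import Fermat.Agent.Pack.S56.E18L0

-- ===== PACK-BEGIN S56/FO/H6/FlatO.lean
section






/-!
# Row S56 — FLAT-O closed (helper6)

* `flatOrdLineStatement : H656.FlatOrdLineStatement` (STRUCT, verbatim, from `flatOrdLine`);
* `flatO : FL.FlatOStatement` from COUNT (`H656.flatO_of`), FU (`H656.flatUnit`),
  KUM (`H734.kum`) and UNRHOM (`H486.unramHom`).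

Nothing unproved in this file.
-/

set_option autoImplicit false

open IsLocalRing

noncomputable section

namespace Fermat.Agent.S56.FO.H6

open Fermat.Agent.S56 Fermat.Agent.S56.H716

/-- **STRUCT**, in the frozen form consumed by COUNT. -/
theorem flatOrdLineStatement : Fermat.Agent.S56.H656.FlatOrdLineStatement := by
  intro 𝒪 _ _ _ _ _ p ρbar S Smin hyp P hP hred c ρ' _ hl _ hf
  haveI : Fact p.Prime := ⟨hyp.hp⟩
  have hpk : ((p : ℕ) : ResidueField 𝒪) = 0 := by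
    have h := (IsLocalRing.residue_eq_zero_iff (p : 𝒪)).mpr hyp.hp𝒪
    rwa [map_natCast] at h
  haveI : CharP (ResidueField 𝒪) p := (CharP.charP_iff_prime_eq_zero hyp.hp).mpr hpk
  exact flatOrdLine hyp.hp2 ρbar
    (fun _ _ h => Fermat.Agent.S56.FL.det_eq_natCast_of_isCycExp hyp.hdet h)
    P hP hred c ρ' hl hf

/-- **FLAT-O**: the reducible (ordinary) case of LOC-FLAT. -/
theorem flatO : Fermat.Agent.S56.FL.FlatOStatement :=
  Fermat.Agent.S56.H656.flatO_of flatOrdLineStatement Fermat.Agent.S56.H656.flatUnit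
    Fermat.Agent.S56.H734.kum Fermat.Agent.S56.H486.unramHom

end Fermat.Agent.S56.FO.H6

end

end
-- ===== PACK-END S56/FO/H6/FlatO.lean

-- ===== PACK-BEGIN S55/G/Rec/H413/L5Field.lean
section



/-!
# S55 / G / REC, leaf L5 (helper413), part 3: `ℚ_ℓ(ζ)` inside `PadicAlgCl ℓ`

`ζ` a primitive `ℓ^(n+1)`-th root of unity in `Ω = PadicAlgCl ℓ`, `F = ℚ_ℓ(ζ) ⊆ Ω`,
`N = Gal(Ω/F)`, `c = hζ.autToPow ℚ_ℓ : Gal(Ω/ℚ_ℓ) → (ℤ/ℓ^(n+1))ˣ` the cyclotomic character.

* `ker_autToPow_eq` : `ker c = N`;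
* `relNorm_fixing_eq_norm` : `relNorm N b = N_{F/ℚ_ℓ}(b)` for `b ∈ Fˣ`;
* `mem_map_of_pow_card_eq_one` : in a finite cyclic group, `u ^ |B| = 1 → u ∈ B`.
-/

set_option autoImplicit false
set_option linter.style.haveILetI false

namespace Fermat.Agent.S55.G.Rec.H413

open Polynomial

/-- In a finite cyclic group, an element killed by the order of a subgroup lies in it. -/
theorem mem_of_pow_card_eq_one {A : Type*} [CommGroup A] [Finite A] [IsCyclic A]
    (B : Subgroup A) (u : A) (hu : u ^ Nat.card B = 1) : u ∈ B := by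
  classical
  letI : Fintype A := Fintype.ofFinite A
  have hpos : 0 < Nat.card B := Nat.card_pos
  have hle := IsCyclic.card_pow_eq_one_le (α := A) hpos
  set S : Finset A := Finset.univ.filter (fun a : A => a ^ Nat.card B = 1) with hS
  have hBS : (Finset.univ.filter (fun a : A => a ∈ B)) ⊆ S := by
    intro a ha
    rw [Finset.mem_filter] at ha
    rw [hS, Finset.mem_filter]
    refine ⟨Finset.mem_univ _, ?_⟩
    have := pow_card_eq_one' (G := B) (x := ⟨a, ha.2⟩)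
    exact congrArg Subtype.val this
  have hcardB : (Finset.univ.filter (fun a : A => a ∈ B)).card = Nat.card B := by
    rw [Nat.card_eq_fintype_card, Fintype.card_subtype]
  have heq : Finset.univ.filter (fun a : A => a ∈ B) = S :=
    Finset.eq_of_subset_of_card_le hBS (by rw [hcardB]; exact hle)
  have huS : u ∈ S := by
    rw [hS, Finset.mem_filter]
    exact ⟨Finset.mem_univ _, hu⟩
  rw [← heq, Finset.mem_filter] at huS
  exact huS.2

variable (ℓ : ℕ) [hℓ : Fact ℓ.Prime]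

local notation "Ω" => PadicAlgCl ℓ
local notation "Gq" => (PadicAlgCl ℓ ≃ₐ[ℚ_[ℓ]] PadicAlgCl ℓ)

/-- A primitive `ℓ^(n+1)`-th root of unity exists in `PadicAlgCl ℓ`. -/
theorem exists_primitiveRoot_padicAlgCl (n : ℕ) : ∃ ζ : Ω, IsPrimitiveRoot ζ (ℓ ^ (n + 1)) := by
  have : NeZero (ℓ ^ (n + 1)) := ⟨(pow_pos hℓ.out.pos _).ne'⟩
  exact ⟨_, IsCyclotomicExtension.zeta_spec (ℓ ^ (n + 1)) Ω Ω⟩

/-- The field `ℚ_ℓ(ζ) ⊆ Ω`. -/
noncomputable abbrev cycF (ζ : PadicAlgCl ℓ) : IntermediateField ℚ_[ℓ] (PadicAlgCl ℓ) :=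
  IntermediateField.adjoin ℚ_[ℓ] {ζ}

section Fixed

variable {n : ℕ} {ζ : PadicAlgCl ℓ} (hζ : IsPrimitiveRoot ζ (ℓ ^ (n + 1)))

include hζ in
theorem isCyclotomicExtension_cycF :
    IsCyclotomicExtension {ℓ ^ (n + 1)} ℚ_[ℓ] (cycF ℓ ζ) := by
  have : NeZero (ℓ ^ (n + 1)) := ⟨(pow_pos hℓ.out.pos _).ne'⟩
  exact hζ.intermediateField_adjoin_isCyclotomicExtension ℚ_[ℓ]

theorem mem_fixingSubgroup_cycF_iff (ζ : PadicAlgCl ℓ) (τ : Gq) :
    τ ∈ (cycF ℓ ζ).fixingSubgroup ↔ τ ζ = ζ := by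
  constructor
  · intro h
    exact (IntermediateField.mem_fixingSubgroup_iff _ _).1 h ζ
      (IntermediateField.mem_adjoin_simple_self ℚ_[ℓ] ζ)
  · intro h
    rw [IntermediateField.mem_fixingSubgroup_iff]
    have hle : cycF ℓ ζ ≤ IntermediateField.fixedField (MulAction.stabilizer Gq ζ) := by
      rw [IntermediateField.adjoin_le_iff]
      rintro x rfl
      rw [SetLike.mem_coe, IntermediateField.mem_fixedField_iff]
      intro σ hσ
      exact hσ
    intro x hx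
    have := hle hx
    rw [IntermediateField.mem_fixedField_iff] at this
    exact this τ h

include hζ in
/-- The hypothesis of L5 on `W` says `Gal(Ω/ℚ_ℓ(ζ)) ≤ W`. -/
theorem fixingSubgroup_cycF_le {W : Subgroup Gq}
    (hW : ∀ τ : Gq, (∀ ξ : PadicAlgCl ℓ, ξ ^ (ℓ ^ (n + 1)) = 1 → τ ξ = ξ) → τ ∈ W) :
    (cycF ℓ ζ).fixingSubgroup ≤ W := by
  have : NeZero (ℓ ^ (n + 1)) := ⟨(pow_pos hℓ.out.pos _).ne'⟩
  intro τ hτ
  rw [mem_fixingSubgroup_cycF_iff] at hτ
  refine hW τ (fun ξ hξ => ?_)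
  obtain ⟨i, -, rfl⟩ := hζ.eq_pow_of_pow_eq_one hξ
  rw [map_pow, hτ]

include hζ in
/-- `τ ξ = ξ ^ (c τ)` for every `ℓ^(n+1)`-th root of unity `ξ`. -/
theorem autToPow_spec_all (τ : Gq) (ξ : PadicAlgCl ℓ) (hξ : ξ ^ (ℓ ^ (n + 1)) = 1) :
    haveI : NeZero (ℓ ^ (n + 1)) := ⟨(pow_pos hℓ.out.pos _).ne'⟩
    τ ξ = ξ ^ ((hζ.autToPow ℚ_[ℓ] τ : (ZMod (ℓ ^ (n + 1)))ˣ) : ZMod (ℓ ^ (n + 1))).val := by
  have : NeZero (ℓ ^ (n + 1)) := ⟨(pow_pos hℓ.out.pos _).ne'⟩
  obtain ⟨i, -, rfl⟩ := hζ.eq_pow_of_pow_eq_one hξ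
  rw [map_pow, ← hζ.autToPow_spec ℚ_[ℓ] τ, ← pow_mul, ← pow_mul, mul_comm]

include hζ in
/-- The kernel of the cyclotomic character is `Gal(Ω/ℚ_ℓ(ζ))`. -/
theorem ker_autToPow_eq :
    haveI : NeZero (ℓ ^ (n + 1)) := ⟨(pow_pos hℓ.out.pos _).ne'⟩
    (hζ.autToPow ℚ_[ℓ] : Gq →* (ZMod (ℓ ^ (n + 1)))ˣ).ker = (cycF ℓ ζ).fixingSubgroup := by
  have : NeZero (ℓ ^ (n + 1)) := ⟨(pow_pos hℓ.out.pos _).ne'⟩
  have h1lt : 1 < ℓ ^ (n + 1) := Nat.one_lt_pow (Nat.succ_ne_zero n) hℓ.out.one_lt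
  haveI : Fact (1 < ℓ ^ (n + 1)) := ⟨h1lt⟩
  ext τ
  rw [MonoidHom.mem_ker, mem_fixingSubgroup_cycF_iff]
  constructor
  · intro h
    have := hζ.autToPow_spec ℚ_[ℓ] τ
    rw [h, Units.val_one, ZMod.val_one, pow_one] at this
    exact this.symm
  · intro h
    have h2 := hζ.autToPow_spec ℚ_[ℓ] τ
    rw [h] at h2
    have h3 : ((hζ.autToPow ℚ_[ℓ] τ : (ZMod (ℓ ^ (n + 1)))ˣ) : ZMod (ℓ ^ (n + 1))).val = 1 := by
      apply hζ.pow_inj (ZMod.val_lt _) h1lt
      rw [h2, pow_one]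
    apply Units.ext
    rw [Units.val_one]
    apply ZMod.val_injective
    rw [h3, ZMod.val_one]

end Fixed

section Norm

variable {ℓ}

/-- For a finite normal `F ⊆ Ω` and `b ∈ Fˣ`: `relNorm Gal(Ω/F) b = N_{F/ℚ_ℓ}(b)`. -/
theorem relNorm_fixing_eq_norm (F : IntermediateField ℚ_[ℓ] (PadicAlgCl ℓ)) [Normal ℚ_[ℓ] F]
    [FiniteDimensional ℚ_[ℓ] F] (b : (PadicAlgCl ℓ)ˣ) (hb : (b : PadicAlgCl ℓ) ∈ F) :
    ((relNorm F.fixingSubgroup b : (PadicAlgCl ℓ)ˣ) : PadicAlgCl ℓ) =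
      algebraMap ℚ_[ℓ] (PadicAlgCl ℓ) (Algebra.norm ℚ_[ℓ] (⟨b, hb⟩ : F)) := by
  classical
  haveI := RelNormH707.isGalois_local ℓ
  haveI : IsGalois ℚ_[ℓ] F := ⟨⟩
  haveI : F.fixingSubgroup.FiniteIndex := by
    refine ⟨?_⟩
    rw [← IntermediateField.finrank_eq_fixingSubgroup_index]
    exact Module.finrank_pos.ne'
  have hsurj : Function.Surjective
      (AlgEquiv.restrictNormalHom F : Gq → (F ≃ₐ[ℚ_[ℓ]] F)) :=
    AlgEquiv.restrictNormalHom_surjective (F := ℚ_[ℓ]) (K₁ := F) (PadicAlgCl ℓ)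
  have hker : ∀ g : Gq, AlgEquiv.restrictNormalHom F g = 1 ↔ g ∈ F.fixingSubgroup := by
    intro g
    rw [← IntermediateField.restrictNormalHom_ker, MonoidHom.mem_ker]
  set r : (F ≃ₐ[ℚ_[ℓ]] F) → Gq := Function.surjInv hsurj with hr
  have hrσ : ∀ σ, AlgEquiv.restrictNormalHom F (r σ) = σ := Function.surjInv_eq hsurj
  have hfix : RelNormH707.FixedBy F.fixingSubgroup b := by
    intro τ hτ
    apply Units.ext
    exact (IntermediateField.mem_fixingSubgroup_iff _ _).1 hτ _ hb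
  have hbij : Function.Bijective fun σ : F ≃ₐ[ℚ_[ℓ]] F => ((r σ : Gq) : Gq ⧸ F.fixingSubgroup) := by
    constructor
    · intro σ σ' h
      have h1 : (r σ)⁻¹ * r σ' ∈ F.fixingSubgroup := QuotientGroup.eq.mp h
      rw [← hker, map_mul, map_inv, hrσ, hrσ, inv_mul_eq_one] at h1
      exact h1
    · intro x
      induction x using QuotientGroup.induction_on with
      | H g =>
        refine ⟨AlgEquiv.restrictNormalHom F g, ?_⟩
        apply QuotientGroup.eq.mpr
        rw [← hker, map_mul, map_inv, hrσ, inv_mul_cancel]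
  rw [RelNormH707.relNorm_eq_prod_of_bijective hfix r hbij, Units.coe_prod,
    IsScalarTower.algebraMap_apply ℚ_[ℓ] F (PadicAlgCl ℓ), Algebra.norm_eq_prod_automorphisms,
    map_prod]
  refine Finset.prod_congr rfl (fun σ _ => ?_)
  have := AlgEquiv.restrictNormalHom_apply F (r σ) ⟨b, hb⟩
  rw [hrσ] at this
  exact this.symm

end Norm

end Fermat.Agent.S55.G.Rec.H413

end
-- ===== PACK-END S55/G/Rec/H413/L5Field.lean

-- ===== PACK-BEGIN S55/G/Rec/L5H413.lean
section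


/-!
# S55 / G / REC, leaf L5 = `LocalCycloNormSpec` (helper413) — INDEX-COUNT route

`localCycloNorm : LocalCycloNormSpec`, unconditional.

Proof.  `F = ℚ_ℓ(ζ)`, `ζ` a primitive `ℓ^e`-th root of unity in `Ω = PadicAlgCl ℓ`, `N = Gal(Ω/F) ≤ W`,
`r = [W : N]`.  For `b` fixed by `W`: `y := relNorm W b ∈ ℚ_ℓ` and `y ^ r = relNorm N b = N_{F/ℚ_ℓ}(b)`.
The norm group of `F/ℚ_ℓ` is `ℓ^ℤ × (1 + ℓ^e ℤ_ℓ)` (explicit norms + the local norm index theorem
for cyclic extensions, `H413.normRange_cyclotomic_eq`), so the unit part `u` of `y` satisfies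
`u ^ r ≡ 1 mod ℓ^e`.  The image `c(W)` of `W` under the cyclotomic character is a subgroup of order
`r` of the CYCLIC group `(ℤ/ℓ^e)ˣ`, hence `c(W) = {x | x ^ r = 1} ∋ u mod ℓ^e`.
-/

set_option autoImplicit false
set_option linter.style.haveILetI false

namespace Fermat.Agent.S55.G.Rec.H413

open Fermat.Agent.S55.H413

/-- The norm estimate: `‖y - ℓ^k · t‖ ≤ ‖ℓ‖^(k + m)` where `k = v(y)` and `t` is the canonical
lift of the residue mod `ℓ^m` of the unit part of `y`. -/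
theorem norm_sub_unitResidue_le (ℓ : ℕ) [hℓ : Fact ℓ.Prime] (m : ℕ) (y : ℚ_[ℓ]ˣ) :
    ‖(y : ℚ_[ℓ]) - (ℓ : ℚ_[ℓ]) ^ ((y : ℚ_[ℓ]).valuation) *
        (((unitResidue ℓ m y : (ZMod (ℓ ^ m))ˣ) : ZMod (ℓ ^ m)).val : ℚ_[ℓ])‖
      ≤ ‖(ℓ : ℚ_[ℓ])‖ ^ ((y : ℚ_[ℓ]).valuation + m) := by
  have : NeZero (ℓ ^ m) := ⟨(pow_pos hℓ.out.pos _).ne'⟩
  set u : ℤ_[ℓ] := ((unitPart ℓ y : ℤ_[ℓ]ˣ) : ℤ_[ℓ]) with hu
  set t : ℕ := ((unitResidue ℓ m y : (ZMod (ℓ ^ m))ˣ) : ZMod (ℓ ^ m)).val with ht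
  have h1 : PadicInt.toZModPow m (u - (t : ℤ_[ℓ])) = 0 := by
    rw [map_sub, map_natCast, ht, ZMod.natCast_zmod_val, coe_unitResidue, sub_self]
  have h2 : u - (t : ℤ_[ℓ]) ∈ (Ideal.span {(ℓ : ℤ_[ℓ]) ^ m} : Ideal ℤ_[ℓ]) := by
    rw [← PadicInt.ker_toZModPow]
    exact h1
  have h3 : ‖u - (t : ℤ_[ℓ])‖ ≤ (ℓ : ℝ) ^ (-m : ℤ) :=
    (PadicInt.norm_le_pow_iff_mem_span_pow _ _).2 h2
  have hy' := eq_unitPart_mul ℓ y
  rw [← hu] at hy'
  have h4 : (y : ℚ_[ℓ]) - (ℓ : ℚ_[ℓ]) ^ ((y : ℚ_[ℓ]).valuation) * (t : ℚ_[ℓ]) =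
      (ℓ : ℚ_[ℓ]) ^ ((y : ℚ_[ℓ]).valuation) * ((u - (t : ℤ_[ℓ]) : ℤ_[ℓ]) : ℚ_[ℓ]) := by
    rw [PadicInt.coe_sub, PadicInt.coe_natCast]
    linear_combination hy'
  have hℓn : ‖(ℓ : ℚ_[ℓ])‖ ≠ 0 := by
    rw [Padic.norm_p]
    exact inv_ne_zero (by exact_mod_cast hℓ.out.ne_zero)
  rw [h4, norm_mul, zpow_add₀ hℓn, norm_zpow]
  refine mul_le_mul_of_nonneg_left ?_ (by positivity)
  rw [PadicInt.padic_norm_e_of_padicInt, Padic.norm_p, zpow_natCast, inv_pow, ← zpow_natCast,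
    ← zpow_neg]
  exact h3

/-- **Leaf L5** of the REC block (norm route): norms from the subfields of `ℚ_ℓ(μ_{ℓ^e})`. -/
theorem localCycloNorm : LocalCycloNormSpec := by
  intro ℓ hℓ hℓ2 e he W hW b hb
  obtain ⟨n, rfl⟩ : ∃ n, e = n + 1 := ⟨e - 1, by omega⟩
  have hne : NeZero (ℓ ^ (n + 1)) := ⟨(pow_pos hℓ.out.pos _).ne'⟩
  obtain ⟨ζ, hζ⟩ := exists_primitiveRoot_padicAlgCl ℓ n
  haveI hcyc : IsCyclotomicExtension {ℓ ^ (n + 1)} ℚ_[ℓ] (cycF ℓ ζ) :=
    isCyclotomicExtension_cycF ℓ hζ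
  haveI : FiniteDimensional ℚ_[ℓ] (cycF ℓ ζ) :=
    IsCyclotomicExtension.finiteDimensional {ℓ ^ (n + 1)} ℚ_[ℓ] (cycF ℓ ζ)
  haveI : IsGalois ℚ_[ℓ] (cycF ℓ ζ) :=
    IsCyclotomicExtension.isGalois {ℓ ^ (n + 1)} ℚ_[ℓ] (cycF ℓ ζ)
  haveI := RelNormH707.isGalois_local ℓ
  have hNW : (cycF ℓ ζ).fixingSubgroup ≤ W := fixingSubgroup_cycF_le ℓ hζ hW
  haveI : (cycF ℓ ζ).fixingSubgroup.FiniteIndex := by
    refine ⟨?_⟩
    rw [← IntermediateField.finrank_eq_fixingSubgroup_index]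
    exact Module.finrank_pos.ne'
  haveI : W.FiniteIndex := Subgroup.finiteIndex_of_le hNW
  -- `b ∈ F`
  have hbF : (b : PadicAlgCl ℓ) ∈ cycF ℓ ζ := by
    rw [← InfiniteGalois.fixedField_fixingSubgroup (cycF ℓ ζ), IntermediateField.mem_fixedField_iff]
    intro τ hτ
    exact congrArg Units.val (hb τ (hNW hτ))
  -- the norm `y`
  obtain ⟨y, hy0, hy⟩ := RelNormH707.relNorm_rational_local ℓ hb
  set r := (cycF ℓ ζ).fixingSubgroup.relIndex W with hr
  have hpow := relNorm_pow_relIndex hNW b hb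
  have hnorm := relNorm_fixing_eq_norm (cycF ℓ ζ) b hbF
  have hyr : y ^ r = Algebra.norm ℚ_[ℓ] (⟨b, hbF⟩ : cycF ℓ ζ) := by
    apply (algebraMap ℚ_[ℓ] (PadicAlgCl ℓ)).injective
    rw [map_pow, ← hy, ← hnorm, hpow, Units.val_pow_eq_pow_val]
  have hb0 : (⟨b, hbF⟩ : cycF ℓ ζ) ≠ 0 := by
    intro h
    exact b.ne_zero (congrArg Subtype.val h)
  have hmem : (Units.mk0 y hy0) ^ r ∈ normRange ℓ (cycF ℓ ζ) := by
    refine ⟨Units.mk0 _ hb0, ?_⟩
    apply Units.ext
    rw [Units.coe_map, Units.val_pow_eq_pow_val, Units.val_mk0, Units.val_mk0]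
    exact hyr.symm
  rw [normRange_cyclotomic_eq ℓ n (cycF ℓ ζ) hℓ2, MonoidHom.mem_ker, map_pow, wildChar_apply,
    inv_pow, inv_eq_one] at hmem
  -- the cyclotomic character
  have hrcard : r = Nat.card (W.map (hζ.autToPow ℚ_[ℓ])) := by
    rw [hr, ← ker_autToPow_eq ℓ hζ, Subgroup.relIndex_ker]
  haveI : IsCyclic (ZMod (ℓ ^ (n + 1)))ˣ :=
    ZMod.isCyclic_units_of_prime_pow ℓ hℓ.out hℓ2 (n + 1)
  have hu : unitResidue ℓ (n + 1) (Units.mk0 y hy0) ∈ W.map (hζ.autToPow ℚ_[ℓ]) :=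
    mem_of_pow_card_eq_one _ _ (by rw [← hrcard]; exact hmem)
  obtain ⟨τ, hτW, hτ⟩ := hu
  refine ⟨y.valuation, 1,
    ((unitResidue ℓ (n + 1) (Units.mk0 y hy0) : (ZMod (ℓ ^ (n + 1)))ˣ) : ZMod (ℓ ^ (n + 1))).val,
    τ, hτW, ?_, ?_⟩
  · intro ξ hξ
    rw [autToPow_spec_all ℓ hζ τ ξ hξ, hτ]
  · have key := norm_sub_unitResidue_le ℓ (n + 1) (Units.mk0 y hy0)
    rw [Units.val_mk0] at key
    have e1 : ((relNorm W b : (PadicAlgCl ℓ)ˣ) : PadicAlgCl ℓ) -
        (((1 : ℤˣ) : ℤ) : PadicAlgCl ℓ) * (ℓ : PadicAlgCl ℓ) ^ y.valuation *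
          ((((unitResidue ℓ (n + 1) (Units.mk0 y hy0) : (ZMod (ℓ ^ (n + 1)))ˣ) :
            ZMod (ℓ ^ (n + 1))).val : ℕ) : PadicAlgCl ℓ) =
        algebraMap ℚ_[ℓ] (PadicAlgCl ℓ) (y - (ℓ : ℚ_[ℓ]) ^ y.valuation *
          ((((unitResidue ℓ (n + 1) (Units.mk0 y hy0) : (ZMod (ℓ ^ (n + 1)))ˣ) :
            ZMod (ℓ ^ (n + 1))).val : ℕ) : ℚ_[ℓ])) := by
      rw [hy, map_sub, map_mul, map_zpow₀, map_natCast, map_natCast]
      simp
    have e2 : (ℓ : PadicAlgCl ℓ) = algebraMap ℚ_[ℓ] (PadicAlgCl ℓ) (ℓ : ℚ_[ℓ]) := by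
      rw [map_natCast]
    rw [e1, e2]
    have hn1 : ∀ x : ℚ_[ℓ], ‖algebraMap ℚ_[ℓ] (PadicAlgCl ℓ) x‖ = ‖x‖ :=
      fun x => PadicAlgCl.norm_extends ℓ x
    rw [hn1, hn1]
    exact_mod_cast key

end Fermat.Agent.S55.G.Rec.H413

end
-- ===== PACK-END S55/G/Rec/L5H413.lean

-- ===== PACK-BEGIN S55/KG/JDivCoreH604.lean
section


/-!
# S55, layer KG: semi-local divisibility, finite-level core (helper604)

* `zmod_torsion_div` : in a group `≃+ ZMod t` with `p^K ∣ t`, every class killed by `m`,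
  `p^K ∤ m`, is divisible by `p`;
* `card_locSub` : `|D₀| = |locSub φ H x| · c` with `0 < c ≤ [G : H]`;
* `pow_dvd_of_mul` : `p^(K+c) ∣ b·i`, `0 < i ≤ p^c` ⇒ `p^K ∣ b`;
* `jDivCore` : if `p^(K+c)` divides all local degrees `|Gal(F_q/ℚ_q)|`, `q ∈ S`, `[G : H] ≤ p^c`
  and `p^K ∤ m`, then every class of `H²(H, J(F))` killed by `m` is divisible by `p`.
-/

set_option autoImplicit false

open CategoryTheory groupCohomology

namespace Fermat.Agent.S55.KG.H604

open Fermat.Agent.S55 Fermat.Agent.S55.Tow Fermat.Agent.S55.E1.Lim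

/-- In a cyclic group of order `t`, `p^K ∣ t`, every class killed by `m` with `p^K ∤ m` is
divisible by `p`. -/
theorem zmod_torsion_div {A : Type} [AddCommGroup A] (t m p K : ℕ) (hp : p.Prime)
    (hK : p ^ K ∣ t) (hm : ¬ p ^ K ∣ m) (e : A ≃+ ZMod t) (c : A) (hc : m • c = 0) :
    ∃ w : A, c = p • w := by
  obtain ⟨a, ha⟩ := ZMod.intCast_surjective (e c)
  have h1 : ((m * a : ℤ) : ZMod t) = 0 := by
    have h2 : e (m • c) = 0 := by rw [hc, map_zero]
    rw [map_nsmul, ← ha] at h2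
    rw [Int.cast_mul, Int.cast_natCast]
    rwa [nsmul_eq_mul] at h2
  have h3 : (t : ℤ) ∣ m * a := (ZMod.intCast_zmod_eq_zero_iff_dvd _ _).1 h1
  have h4 : p ^ K ∣ m * a.natAbs := by
    have h5 : ((p ^ K : ℕ) : ℤ) ∣ m * a := (Int.natCast_dvd_natCast.2 hK).trans h3
    have h6 := Int.natAbs_dvd_natAbs.2 h5
    rwa [Int.natAbs_mul, Int.natAbs_natCast, Int.natAbs_natCast] at h6
  have h7 : p ∣ a.natAbs := by
    by_contra hna
    have hcop : Nat.Coprime (p ^ K) a.natAbs :=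
      Nat.Coprime.pow_left K ((Nat.Prime.coprime_iff_not_dvd hp).2 hna)
    exact hm (hcop.dvd_of_dvd_mul_right h4)
  have h8 : (p : ℤ) ∣ a := Int.natCast_dvd.2 h7
  obtain ⟨a', rfl⟩ := h8
  refine ⟨e.symm ((a' : ℤ) : ZMod t), ?_⟩
  apply e.injective
  rw [map_nsmul, AddEquiv.apply_symm_apply, ← ha, nsmul_eq_mul, Int.cast_mul, Int.cast_natCast]

/-- `p^(K+c) ∣ b·i`, `0 < i ≤ p^c` ⇒ `p^K ∣ b`. -/
theorem pow_dvd_of_mul (p K c b i : ℕ) (hp : p.Prime) (hi : i ≠ 0) (hic : i ≤ p ^ c)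
    (h : p ^ (K + c) ∣ b * i) : p ^ K ∣ b := by
  have : Fact p.Prime := ⟨hp⟩
  rcases eq_or_ne b 0 with rfl | hb
  · exact dvd_zero _
  have h1 : K + c ≤ padicValNat p (b * i) :=
    (padicValNat_dvd_iff_le (Nat.mul_ne_zero hb hi)).1 h
  rw [padicValNat.mul hb hi] at h1
  have h2 : padicValNat p i ≤ c := by
    have h3 : p ^ padicValNat p i ≤ p ^ c :=
      (Nat.le_of_dvd (Nat.pos_of_ne_zero hi) pow_padicValNat_dvd).trans hic
    exact (Nat.pow_le_pow_iff_right hp.one_lt).1 h3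
  exact (padicValNat_dvd_iff_le hb).2 (by omega)

section Abstract

variable {G D₀ : Type} [Group G] [Group D₀]

/-- `|D₀| = |locSub φ H x| · c` with `0 < c ≤ [G : H]`. -/
theorem card_locSub [Finite G] (φ : D₀ →* G) (H : Subgroup G) (x : G) :
    ∃ c : ℕ, c ≠ 0 ∧ c ≤ H.index ∧ Nat.card D₀ = Nat.card ↥(locSub φ H x) * c := by
  have hH : H.index ≠ 0 := Subgroup.index_ne_zero_of_finite
  have h1 : (locSub φ H x).index = H.relIndex ((MulAut.conj x⁻¹).toMonoidHom.comp φ).range :=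
    Subgroup.index_comap H _
  have h2 : H.relIndex ((MulAut.conj x⁻¹).toMonoidHom.comp φ).range ≤ H.index := by
    have h3 := Subgroup.relIndex_le_of_le_right (H := H)
      (le_top : ((MulAut.conj x⁻¹).toMonoidHom.comp φ).range ≤ ⊤)
      (by rw [Subgroup.relIndex_top_right]; exact hH)
    rwa [Subgroup.relIndex_top_right] at h3
  have h4 : H.relIndex ((MulAut.conj x⁻¹).toMonoidHom.comp φ).range ≠ 0 := by
    unfold Subgroup.relIndex
    exact Subgroup.index_ne_zero_of_finite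
  refine ⟨(locSub φ H x).index, by rw [h1]; exact h4, by rw [h1]; exact h2, ?_⟩
  exact (Subgroup.card_mul_index _).symm

end Abstract

variable {S : Finset Nat.Primes}

/-- **Semi-local divisibility at finite level.** -/
theorem jDivCore (L : Level S) (H : Subgroup L.Gal) (p : ℕ) (hp : p.Prime) (m K c : ℕ)
    (hm : ¬ p ^ K ∣ m) (hH : H.index ≤ p ^ c)
    (hdec : ∀ q ∈ S, p ^ (K + c) ∣ Nat.card (L.Dec q))
    (y : groupCohomology (Rep.res H.subtype (Jtot L)) 2) (hy : m • y = 0) :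
    ∃ w : groupCohomology (Rep.res H.subtype (Jtot L)) 2, y = p • w := by
  refine jCore_div L H 2 m p (fun q x z hz => ?_) y hy
  obtain ⟨i, hi0, hiH, hcard⟩ := card_locSub (L.decHom q.1) H x
  have h1 : p ^ K ∣ Nat.card ↥(jSub L H q.1 x) := by
    refine pow_dvd_of_mul p K c _ i hp hi0 (hiH.trans hH) ?_
    rw [← hcard]
    exact hdec q.1 q.2
  obtain ⟨e⟩ := (locUnits_data L q.1 (jSub L H q.1 x)).2
  exact zmod_torsion_div _ m p K hp h1 hm e z hz

end Fermat.Agent.S55.KG.H604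

end
-- ===== PACK-END S55/KG/JDivCoreH604.lean

-- ===== PACK-BEGIN S55/K/AR/JH604.lean
section



/-!
# S55, layer K, block AR, leaves AR-J3 and AR-JDIV (helper604)

* `h3JLeaf : H3JLeaf S p`   — `H³(H, J(F)) = 0` (even without the `p`-primary restriction);
* `j2DivLeaf : J2DivLeaf S p` — semi-local divisibility at finite level.

Both are UNCONDITIONAL (the hypothesis `LocalSpec p` of the leaf is not used): they follow from
the semi-local core `KG.H604.jCore` (Mackey–Shapiro), helper964's local class-module data and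
Tate's theorem.
-/

set_option autoImplicit false

open CategoryTheory groupCohomology

namespace Fermat.Agent.S55.K.AR.H604

open Fermat.Agent.S55 Fermat.Agent.S55.Tow Fermat.Agent.S55.E1.Lim

variable (S : Finset Nat.Primes) (p : ℕ)

/-- `H³(H, J(F)) = 0`. -/
theorem h3JVanish : H3JVanish S p := fun L H y _ =>
  @Subsingleton.elim _ (KG.H604.jH3 S L H) y 0

/-- **AR-J3.** -/
theorem h3JLeaf : H3JLeaf S p := fun _ _ => h3JVanish S p

/-- Semi-local divisibility at finite level. -/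
theorem j2Div (hp : p.Prime) : J2Div S p := by
  intro L H b c hH hdec y hy
  have hK : ¬ p ^ (b + 1) ∣ p ^ b := fun h =>
    absurd (Nat.le_of_dvd (pow_pos hp.pos b) h)
      (not_le.2 (Nat.pow_lt_pow_right hp.one_lt (Nat.lt_succ_self b)))
  obtain ⟨w, hw⟩ := KG.H604.jDivCore L H p hp (p ^ b) (b + 1) c hK hH hdec y hy
  exact ⟨w, hw.symm⟩

/-- **AR-JDIV.** -/
theorem j2DivLeaf : J2DivLeaf S p := fun hp _ => j2Div S p hp

end Fermat.Agent.S55.K.AR.H604

end
-- ===== PACK-END S55/K/AR/JH604.lean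

-- ===== PACK-BEGIN S55/K/AR/DictH587.lean
section
/-
S55 moonshot — LAYER K, block AR, leaf **AR-DICT** (helper587).
`dictE3 : DictE3Spec S p`, `dictE2 : DictE2Spec S p`  (`K/AR/Spec.lean` §2).

Dictionary tower → finite levels of `G_ℚ`.  For a level `L` of the tower (`F = L.F`, `U_F = L.U`),
a subgroup `H ≤ Gal(F/ℚ)` and its full preimage `V ≤ G_ℚ` (`IsPre L H V`):
* `quotEquiv : V ⧸ (U_F ∩ V) ≃* H`,  `dictEquiv : 𝔼^{U_F ∩ V} ≃ E(F)` (the two notions of `S`-unit
  agree: `isSUnit_level_iff`, via helper371),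
* `dictIso : KL.HL (Res_V 𝔼) (U_F ∩ V) n ≅ Hn H (E(F)) n` (Mathlib `groupCohomology.mapIso`),
* `dict_infl` : `dictIso⁻¹` intertwines `infUp h H (trS h) n` with `KL.infl`.
A level `W ∩ V` of `(gN S).restrict V` contains some `U_F ∩ V` with `U_F ≤ V` (`exists_level_le`).
-/




set_option autoImplicit false

open CategoryTheory

namespace Fermat.Agent.S55.K.AR.H587

open Fermat.Agent.S55 Fermat.Agent.S55.Tow Fermat.Agent.S55.E1.Lim

noncomputable section

variable {S : Finset Nat.Primes}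

/-- The two notions of `S`-unit agree. -/
lemma isSUnit_level_iff (L : Level S) (x : L.units.V) :
    L.IsSUnit x ↔ K.IsSUnit S (L.val x) := by
  constructor
  · intro h
    apply K.GO3H535.H371.isSUnit_of_forall_liesOver
    intro q hq A hA
    exact (K.GO3H535.H371.unitAt_iff_mem (L.val x).ne_zero).2 (by
      have := h q hq A hA
      rwa [Units.val_inv_eq_inv_val] at this)
  · intro h ℓ hℓ A hA
    exact h A (K.GO3H535.H371.outsideS_of_liesOver hℓ hA)

section Grp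

variable (L : Level S) (H : Subgroup L.Gal) (V : Subgroup GQ)

/-- `V` is the full preimage of `H ≤ Gal(F/ℚ)` in `G_ℚ`. -/
def IsPre : Prop := ∀ g : GQ, g ∈ V ↔ (QuotientGroup.mk g : L.Gal) ∈ H

variable {L H V}

lemma IsPre.le (hV : IsPre L H V) : L.U ≤ V := fun g hg =>
  (hV g).2 (by rw [(QuotientGroup.eq_one_iff g).2 hg]; exact H.one_mem)

/-- `V → H`, `v ↦ v mod U_F`. -/
def toH (hV : IsPre L H V) : ↥V →* ↥H where
  toFun v := ⟨QuotientGroup.mk v.1, (hV v.1).1 v.2⟩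
  map_one' := rfl
  map_mul' _ _ := rfl

lemma toH_surjective (hV : IsPre L H V) : Function.Surjective (toH hV) := by
  rintro ⟨h, hh⟩
  obtain ⟨g, rfl⟩ := QuotientGroup.mk_surjective h
  exact ⟨⟨g, (hV g).2 hh⟩, rfl⟩

lemma toH_ker (hV : IsPre L H V) : (toH hV).ker = L.U.subgroupOf V := by
  ext v
  rw [MonoidHom.mem_ker, Subgroup.mem_subgroupOf]
  constructor
  · intro h
    have := congrArg Subtype.val h
    exact (QuotientGroup.eq_one_iff v.1).1 this
  · intro h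
    exact Subtype.ext ((QuotientGroup.eq_one_iff v.1).2 h)

/-- `V ⧸ (U_F ∩ V) ≃ H`. -/
def quotEquiv (hV : IsPre L H V) : (↥V ⧸ L.U.subgroupOf V) ≃* ↥H :=
  (QuotientGroup.quotientMulEquivOfEq (toH_ker hV).symm).trans
    (QuotientGroup.quotientKerEquivOfSurjective (toH hV) (toH_surjective hV))

@[simp] lemma quotEquiv_mk (hV : IsPre L H V) (v : ↥V) :
    quotEquiv hV (QuotientGroup.mk v) = toH hV v := rfl

lemma isPre_up {L' : Level S} (h : L ≤ L') (hV : IsPre L H V) : IsPre L' (up h H) V :=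
  fun g => hV g

lemma isPre_map (hle : L.U ≤ V) : IsPre L (V.map (QuotientGroup.mk' L.U)) V := by
  intro g
  constructor
  · intro hg
    exact ⟨g, hg, rfl⟩
  · rintro ⟨g', hg', he⟩
    have h1 : g'⁻¹ * g ∈ L.U := QuotientGroup.eq.1 he
    have h2 : g = g' * (g'⁻¹ * g) := by group
    rw [h2]
    exact V.mul_mem hg' (hle h1)

lemma index_eq (hV : IsPre L H V) : H.index = V.index := by
  have h1 : V = H.comap (QuotientGroup.mk' L.U) := by
    ext g
    exact hV g
  rw [h1]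
  exact (Subgroup.index_comap_of_surjective H (QuotientGroup.mk'_surjective L.U)).symm

end Grp

section Mod

attribute [local instance 10000] Rep.hV2

/-- The module `𝔼^{U_F ∩ V}` of `V ⧸ (U_F ∩ V)`. -/
abbrev BV (V : Subgroup GQ) (L : Level S) : Rep.{0} ℤ (↥V ⧸ L.U.subgroupOf V) :=
  (Rep.res V.subtype (K.sUnits S)).quotientToInvariants (L.U.subgroupOf V)

variable {L : Level S} {H : Subgroup L.Gal} {V : Subgroup GQ}

/-- The underlying element of `ℚ̄ˣ`. -/
def bCoe (b : (BV V L).V) : unitsQbar.V := (b.1.1 : Additive _root_.Fermat.Agent.S55.K.Qbarˣ)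

lemma bCoe_injective : Function.Injective (bCoe : (BV V L).V → unitsQbar.V) := by
  intro b b' h
  exact Subtype.ext (Subtype.ext h)

lemma bCoe_isSUnit (b : (BV V L).V) : K.IsSUnit S (Additive.toMul (bCoe b)) := b.1.2

lemma bCoe_fixed (b : (BV V L).V) (g : GQ) (hgV : g ∈ V) (hg : g ∈ L.U) :
    unitsQbar.ρ g (bCoe b) = bCoe b := by
  have := b.2 ⟨⟨g, hgV⟩, Subgroup.mem_subgroupOf.2 hg⟩
  exact congrArg Subtype.val this

lemma bCoe_ρ (b : (BV V L).V) (v : ↥V) :
    bCoe ((BV V L).ρ (QuotientGroup.mk v) b) = unitsQbar.ρ v.1 (bCoe b) := rfl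

/-- The underlying element of `ℚ̄ˣ`. -/
def aCoe (a : (E1.Lim.sUnits L).V) : unitsQbar.V := L.unitsCoe (subVal a)

lemma aCoe_injective : Function.Injective (aCoe : (E1.Lim.sUnits L).V → unitsQbar.V) := by
  intro a a' h
  exact subVal_injective (L.unitsCoe_injective h)

lemma aCoe_ρ (a : (E1.Lim.sUnits L).V) (g : GQ) :
    aCoe ((E1.Lim.sUnits L).ρ (QuotientGroup.mk g) a) = unitsQbar.ρ g (aCoe a) := rfl

lemma aCoe_fixed (a : (E1.Lim.sUnits L).V) (g : GQ) (hg : g ∈ L.U) :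
    unitsQbar.ρ g (aCoe a) = aCoe a := L.unitsCoe_fixed (subVal a) g hg

lemma aCoe_isSUnit (a : (E1.Lim.sUnits L).V) : K.IsSUnit S (Additive.toMul (aCoe a)) :=
  (isSUnit_level_iff L (subVal a)).1 (isSUnit_of_mem L (subVal_mem a))


/-- `𝔼^{U_F ∩ V} → E(F)` on elements. -/
def fwdFun (hle : L.U ≤ V) (b : (BV V L).V) : (E1.Lim.sUnits L).V :=
  subMk (A := L.units) (W := sUnitsAdd L) (hW := sUnitsAdd_stable L)
    (L.unitsMk (bCoe b) (fun g hg => bCoe_fixed b g (hle hg) hg)) (by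
    intro g
    induction g using QuotientGroup.induction_on with
    | H σ =>
      rw [isSUnit_level_iff]
      exact K.IsSUnit.smul (bCoe_isSUnit b) σ)

lemma aCoe_fwdFun (hle : L.U ≤ V) (b : (BV V L).V) : aCoe (fwdFun hle b) = bCoe b := rfl

/-- `E(F) → 𝔼^{U_F ∩ V}` on elements. -/
def bwdFun (V : Subgroup GQ) (a : (E1.Lim.sUnits L).V) : (BV V L).V :=
  ⟨⟨aCoe a, aCoe_isSUnit a⟩, fun w =>
    Subtype.ext (aCoe_fixed a w.1.1 (Subgroup.mem_subgroupOf.1 w.2))⟩

lemma bCoe_bwdFun (a : (E1.Lim.sUnits L).V) : bCoe (bwdFun V a) = aCoe a := rfl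

/-- `𝔼^{U_F ∩ V} ≃ E(F)`. -/
def dictEquiv (hV : IsPre L H V) : (BV V L).V ≃ₗ[ℤ] (T.resSub (E1.Lim.sUnits L) H).V where
  toFun b := fwdFun hV.le b
  invFun a := bwdFun V a
  map_add' _ _ := rfl
  map_smul' _ _ := rfl
  left_inv _ := rfl
  right_inv _ := rfl

lemma bCoe_dictEquiv_symm (hV : IsPre L H V) (a : (T.resSub (E1.Lim.sUnits L) H).V) :
    bCoe ((dictEquiv hV).symm a) = aCoe a := rfl

lemma dictEquiv_equivariant (hV : IsPre L H V) (g : ↥V ⧸ L.U.subgroupOf V) :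
    (dictEquiv hV).toLinearMap ∘ₗ (BV V L).ρ g =
      (T.resSub (E1.Lim.sUnits L) H).ρ (quotEquiv hV g) ∘ₗ (dictEquiv hV).toLinearMap := by
  induction g using QuotientGroup.induction_on with
  | H v =>
    refine LinearMap.ext fun b => ?_
    rfl

/-- **The dictionary**: `Hⁿ(V ⧸ (U_F ∩ V), 𝔼^{U_F ∩ V}) ≅ Hⁿ(H, E(F))`. -/
def dictIso (hV : IsPre L H V) (n : ℕ) :
    KL.HL (Rep.res V.subtype (K.sUnits S)) (L.U.subgroupOf V) n ≅ Hn H (E1.Lim.sUnits L) n :=
  groupCohomology.mapIso (quotEquiv hV) (dictEquiv hV) (dictEquiv_equivariant hV) n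


lemma subgroupOf_anti {L L' : Level S} (h : L ≤ L') (V : Subgroup GQ) :
    L'.U.subgroupOf V ≤ L.U.subgroupOf V := fun _ hv =>
  Subgroup.mem_subgroupOf.2 (Level.U_anti h (Subgroup.mem_subgroupOf.1 hv))

/-- The inverse of the dictionary on coefficients, as a semilinear morphism. -/
def dictInvHom (hV : IsPre L H V) :
    Rep.res (quotEquiv hV).toMonoidHom (T.resSub (E1.Lim.sUnits L) H) ⟶ BV V L :=
  semiOfAdd (quotEquiv hV).toMonoidHom (A := T.resSub (E1.Lim.sUnits L) H) (B := BV V L)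
    { toFun := fun a => bwdFun V a
      map_zero' := rfl
      map_add' := fun _ _ => rfl }
    (fun g a => by
      induction g using QuotientGroup.induction_on with
      | H v => rfl)

lemma dictIso_inv (hV : IsPre L H V) (n : ℕ) :
    (dictIso hV n).inv = groupCohomology.map (quotEquiv hV).toMonoidHom (dictInvHom hV) n := rfl

/-- The dictionary is compatible with inflation. -/
theorem dict_infl {L' : Level S} (h : L ≤ L') (hV : IsPre L H V) (n : ℕ) :
    (dictIso hV n).inv ≫ KL.infl (Rep.res V.subtype (K.sUnits S)) (subgroupOf_anti h V) n =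
      groupCohomology.map (projSub (Level.proj h) H) (semiSub (Level.proj h) H (trS h)) n ≫
        (dictIso (isPre_up h hV) n).inv := by
  rw [dictIso_inv, dictIso_inv]
  unfold KL.infl KL.HLmap
  rw [← groupCohomology.map_comp, ← groupCohomology.map_comp]
  apply groupCohomology.map_congr
  · ext g
    rfl
  · ext a
    rfl


lemma dict_infl_apply {L' : Level S} (h : L ≤ L') (hV : IsPre L H V) (n : ℕ)
    (x : Hn H (E1.Lim.sUnits L) n) :
    (KL.infl (Rep.res V.subtype (K.sUnits S)) (subgroupOf_anti h V) n).hom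
        ((dictIso hV n).inv.hom x) =
      (dictIso (isPre_up h hV) n).inv.hom (infUp h H (trS h) n x) :=
  congrArg (fun f => f.hom x) (dict_infl h hV n)

lemma dictIso_inv_hom (hV : IsPre L H V) (n : ℕ)
    (y : KL.HL (Rep.res V.subtype (K.sUnits S)) (L.U.subgroupOf V) n) :
    (dictIso hV n).inv.hom ((dictIso hV n).hom.hom y) = y :=
  congrArg (fun f => f.hom y) (dictIso hV n).hom_inv_id

lemma dictIso_hom_inv (hV : IsPre L H V) (n : ℕ) (x : Hn H (E1.Lim.sUnits L) n) :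
    (dictIso hV n).hom.hom ((dictIso hV n).inv.hom x) = x :=
  congrArg (fun f => f.hom x) (dictIso hV n).inv_hom_id

end Mod


/-! ## The levels -/

/-- A normal level of `G_ℚ` is `U_F` for a level `F` of the tower. -/
lemma exists_level {W : Subgroup GQ} (hW : W ∈ (ColH543.gN S).carrier) :
    ∃ L : Level S, L.U = W := by
  obtain ⟨⟨F, hF, rfl⟩, hn⟩ := hW
  exact ⟨⟨F, hF, hn⟩, rfl⟩

/-- `U_F` is a normal level of `G_ℚ`. -/
lemma level_mem (L : Level S) : L.U ∈ (ColH543.gN S).carrier :=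
  ⟨⟨L.F, L.unram, rfl⟩, L.normalU⟩

/-- The level of `V` cut out by a level of the tower. -/
def lvlOf (V : Subgroup GQ) (L : Level S) : ((ColH543.gN S).restrict V).Lvl :=
  ⟨L.U.subgroupOf V, L.U, level_mem L, rfl⟩

/-- Below a level of `(gN S).restrict V` there is a level `U_F ∩ V` with `U_F ≤ V`. -/
lemma exists_level_le {V : Subgroup GQ} (hV : V ∈ (PT.globalLevels S).levels)
    (V₁ : ((ColH543.gN S).restrict V).Lvl) :
    ∃ L : Level S, L.U ≤ V ∧ L.U.subgroupOf V ≤ V₁.W := by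
  obtain ⟨X, W, hW, rfl⟩ := V₁
  obtain ⟨V₀, hV₀, hV₀V, hV₀n⟩ := ColH543.globalLevels_normalCofinal S V hV
  obtain ⟨W₁, hW₁, hle⟩ := (ColH543.gN S).directed W hW V₀ ⟨hV₀, hV₀n⟩
  obtain ⟨L, rfl⟩ := exists_level hW₁
  refine ⟨L, (le_inf_iff.1 hle).2.trans hV₀V, fun v hv => ?_⟩
  exact Subgroup.mem_subgroupOf.2 ((le_inf_iff.1 hle).1 (Subgroup.mem_subgroupOf.1 hv))

/-! ## The deliverables -/

/-- **AR-DICT, degree 3.** -/
theorem dictE3 (S : Finset Nat.Primes) (p : ℕ) : DictE3Spec S p := by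
  intro hE3 V hV hcop V₁ y hy
  obtain ⟨L, hLV, hle⟩ := exists_level_le hV V₁
  have hpre : IsPre L (V.map (QuotientGroup.mk' L.U)) V := isPre_map hLV
  obtain ⟨L', h, hinf⟩ := hE3 L (V.map (QuotientGroup.mk' L.U))
    (by rw [index_eq hpre]; exact hcop)
    ((dictIso hpre 3).hom.hom ((KL.infl _ hle 3).hom y))
    (by rw [← map_nsmul, ← map_nsmul, hy, map_zero, map_zero])
  refine ⟨lvlOf V L', (subgroupOf_anti h V).trans hle, ?_⟩
  have h1 := dict_infl_apply h hpre 3 ((dictIso hpre 3).hom.hom ((KL.infl _ hle 3).hom y))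
  rw [dictIso_inv_hom, hinf, map_zero] at h1
  exact (KL.H784.infl_infl_apply _ hle (subgroupOf_anti h V) 3 y).symm.trans h1

/-- **AR-DICT, degree 2.** -/
theorem dictE2 (S : Finset Nat.Primes) (p : ℕ) : DictE2Spec S p := by
  intro hE2 V hV hcop V₁ x
  obtain ⟨L, hLV, hle⟩ := exists_level_le hV V₁
  have hpre : IsPre L (V.map (QuotientGroup.mk' L.U)) V := isPre_map hLV
  obtain ⟨L', h, w, hw⟩ := hE2 L (V.map (QuotientGroup.mk' L.U))
    (by rw [index_eq hpre]; exact hcop)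
    ((dictIso hpre 2).hom.hom ((KL.infl _ hle 2).hom x))
  refine ⟨lvlOf V L', (subgroupOf_anti h V).trans hle,
    (dictIso (isPre_up h hpre) 2).inv.hom w, ?_⟩
  have h1 := dict_infl_apply h hpre 2 ((dictIso hpre 2).hom.hom ((KL.infl _ hle 2).hom x))
  rw [dictIso_inv_hom, hw, map_nsmul] at h1
  exact (KL.H784.infl_infl_apply _ hle (subgroupOf_anti h V) 2 x).symm.trans h1

end

end Fermat.Agent.S55.K.AR.H587

end
-- ===== PACK-END S55/K/AR/DictH587.lean

-- ===== PACK-BEGIN S55/PT/ConverseH595.lean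
section





/-!
# S55 / layer D : the CONVERSE bridge  `frozen S55 ⇒ Theorem D`   (helper595)

`PT.TheoremDSpec p S` (`Ш²(M) ≃ Dual Ш¹(M′)` in the `PT` vocabulary) is the form of Poitou–Tate
duality consumed by row S56 (`S56/Euler/Big/H2FH29.lean`, `S56/Euler/H726/Sha2.lean`).
Layer D produces it from the four arithmetic inputs A3, A4, A5–A7, A8 (`theoremD_of_four`).

This file produces it from the FROZEN STATEMENT of S55 itself (any proof of it, e.g. the one of
engine E1), so that the consumers of Theorem D do not depend on input A8 (`CapSpec`):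

* `S55At p S`              : the frozen statement of S55 at `(p, S)`, as a `Prop`;
* `theoremD_of_s55At`      : `p ≠ 2 → pPrime p ∈ S → S55At p S → TheoremDSpec p S`;
* `nonempty_equiv_dual_of_pairing` : a two-sided non-degenerate pairing `W × V → K` with `W`
  finite-dimensional gives `V ≃ₗ Dual W` (linear algebra).
-/

set_option autoImplicit false

noncomputable section

namespace Fermat.Agent.S55.PT.H595

open groupCohomology ExtCitation Module

/-! ### Linear algebra -/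

section LinAlg

variable {K V W : Type*} [Field K] [AddCommGroup V] [Module K V] [AddCommGroup W] [Module K W]

/-- A pairing `B : W → V → K` which is non-degenerate on both sides, with `W` finite-dimensional,
induces an isomorphism `V ≃ₗ Dual W`, `x ↦ B(·, x)`. -/
theorem nonempty_equiv_dual_of_pairing [FiniteDimensional K W] (B : W →ₗ[K] V →ₗ[K] K)
    (h1 : ∀ y, (∀ x, B y x = 0) → y = 0) (h2 : ∀ x, (∀ y, B y x = 0) → x = 0) :
    Nonempty (V ≃ₗ[K] Module.Dual K W) := by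
  have hΦ : Function.Injective B.flip := by
    rw [injective_iff_map_eq_zero]
    intro x hx
    exact h2 x (fun y => by simpa using LinearMap.congr_fun hx y)
  have hΨ : Function.Injective B := by
    rw [injective_iff_map_eq_zero]
    intro y hy
    exact h1 y (fun x => by simpa using LinearMap.congr_fun hy x)
  have : FiniteDimensional K V := FiniteDimensional.of_injective B.flip hΦ
  have e1 : finrank K V ≤ finrank K W := by
    have := LinearMap.finrank_le_finrank_of_injective hΦ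
    rwa [Subspace.dual_finrank_eq] at this
  have e2 : finrank K W ≤ finrank K V := by
    have := LinearMap.finrank_le_finrank_of_injective hΨ
    rwa [Subspace.dual_finrank_eq] at this
  have e3 : finrank K V = finrank K (Module.Dual K W) := by
    rw [Subspace.dual_finrank_eq]
    exact le_antisymm e1 e2
  exact ⟨LinearEquiv.ofBijective B.flip
    ⟨hΦ, (LinearMap.injective_iff_surjective_of_finrank_eq_finrank e3).1 hΦ⟩⟩

end LinAlg

/-! ### The converse bridge -/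

variable (p : ℕ) [Fact p.Prime] (S : Finset Nat.Primes)

/-- The frozen statement of S55 at `(p, S)`: conclusion for every `M` satisfying the hypotheses. -/
def S55At : Prop :=
  ∀ (M : Rep (ZMod p) (AlgebraicClosure ℚ ≃ₐ[ℚ] AlgebraicClosure ℚ))
    [FiniteDimensional (ZMod p) M],
    (∀ m : M, ∃ F : IntermediateField ℚ (AlgebraicClosure ℚ), FiniteDimensional ℚ F ∧
      ∀ s ∈ F.fixingSubgroup, M.ρ s m = m) →
    (∀ q : Nat.Primes, q ∉ S → ∀ A : ValuationSubring (AlgebraicClosure ℚ),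
      A.LiesOverPrime (q : ℕ) → ∀ g ∈ A.inertiaSubgroupIn ℚ, M.ρ g = 1) →
    ∃ B : sha₁ S (M.dualTwist (cycloChar p)) →ₗ[ZMod p] sha₂ S M →ₗ[ZMod p] ZMod p,
      (∀ y, (∀ x, B y x = 0) → y = 0) ∧ (∀ x, (∀ y, B y x = 0) → x = 0)

/-- A uniformly smooth `M` satisfies the two hypotheses of the frozen statement. -/
theorem s55_hyps_of_isUSmooth (M : Rep.{0, 0, 0} (ZMod p) GQ)
    (hM : (globalLevels S).IsUSmooth M) :
    (∀ m : M, ∃ F : IntermediateField ℚ (AlgebraicClosure ℚ), FiniteDimensional ℚ F ∧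
      ∀ s ∈ F.fixingSubgroup, M.ρ s m = m) ∧
    (∀ q : Nat.Primes, q ∉ S → ∀ A : ValuationSubring (AlgebraicClosure ℚ),
      A.LiesOverPrime (q : ℕ) → ∀ g ∈ A.inertiaSubgroupIn ℚ, M.ρ g = 1) := by
  obtain ⟨U, ⟨F, hF, rfl⟩, hU⟩ := hM
  refine ⟨fun m => ⟨F, hF.1, fun s hs => hU s hs m⟩, fun q hq A hA g hg => ?_⟩
  refine LinearMap.ext fun a => ?_
  exact hU g (hF.2 q hq A hA hg) a

/-- The Tate dual of a uniformly smooth module is uniformly smooth (`p ∈ S`). -/
theorem isUSmooth_tdual (hpS : pPrime p ∈ S) (M : Rep.{0, 0, 0} (ZMod p) GQ)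
    (hM : (globalLevels S).IsUSmooth M) : (globalLevels S).IsUSmooth (tdual p M) := by
  obtain ⟨V₁, hV₁, hV₁N⟩ := hM
  obtain ⟨V₂, hV₂, hV₂χ⟩ := H723.cycloLevelSpec p S hpS
  obtain ⟨V, hV, hVle⟩ := (globalLevels S).directed V₁ hV₁ V₂ hV₂
  have hχV : ∀ u ∈ V, cycloChar p u = 1 := fun u hu => hV₂χ u (hVle hu).2
  have hNV : ∀ u ∈ V, M.ρ u = 1 := fun u hu =>
    LinearMap.ext fun a => hV₁N u (hVle hu).1 a
  exact isUSmooth_of_trivial _ hV
    (fun u hu => dualTwist_ρ_eq_one' (cycloChar p) M u (hχV u hu) (hNV u hu))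

/-- **Converse bridge.**  Theorem D of layer D follows from the frozen statement of S55
(and the unconditional finiteness A1 of `H¹_S`). -/
theorem theoremD_of_s55At (hp2 : p ≠ 2) (hpS : pPrime p ∈ S) (h : S55At p S) :
    TheoremDSpec p S := by
  intro M hfd hsm
  have := hfd
  have h2 : (2 : ZMod p) ≠ 0 := Fermat.Agent.S55.Bridge.two_ne_zero_zmod hp2
  obtain ⟨hyp1, hyp2⟩ := s55_hyps_of_isUSmooth p S M hsm
  obtain ⟨B, hB1, hB2⟩ := h M hyp1 hyp2
  -- finiteness of `Ш¹(M′)`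
  have hsm' : (globalLevels S).IsUSmooth (tdual p M) := isUSmooth_tdual p S hpS M hsm
  have hH1 : FiniteDimensional (ZMod p) ((globalLevels S).H1 (tdual p M)) :=
    H593.finGlob p S (tdual p M) inferInstance hsm'
  have hSha1 : FiniteDimensional (ZMod p) ↥(Sha1 (hrl S) (tdual p M)) :=
    FiniteDimensional.finiteDimensional_submodule _
  let e₁ := H724.sha1Equiv S h2 (tdual p M)
  let e₂ := H724.sha2Equiv S M h2
  have : FiniteDimensional (ZMod p) ↥(sha₁ S (M.dualTwist (cycloChar p))) :=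
    LinearEquiv.finiteDimensional e₁
  obtain ⟨E⟩ := nonempty_equiv_dual_of_pairing B hB1 hB2
  exact ⟨e₂.trans (E.trans e₁.dualMap)⟩

/-- The frozen statement of S55 (all `p`, `S`, `M`), as a `Prop`: the type of
`Fermat.Agent.S55.result`. -/
def S55Frozen : Prop :=
  ∀ {p : ℕ} [Fact p.Prime] (_hp2 : p ≠ 2) (S : Finset Nat.Primes) (_hpS : pPrime p ∈ S)
    (M : Rep (ZMod p) (AlgebraicClosure ℚ ≃ₐ[ℚ] AlgebraicClosure ℚ))
    [FiniteDimensional (ZMod p) M]
    (_hsm : ∀ m : M, ∃ F : IntermediateField ℚ (AlgebraicClosure ℚ), FiniteDimensional ℚ F ∧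
      ∀ s ∈ F.fixingSubgroup, M.ρ s m = m)
    (_hMur : ∀ q : Nat.Primes, q ∉ S → ∀ A : ValuationSubring (AlgebraicClosure ℚ),
      A.LiesOverPrime (q : ℕ) → ∀ g ∈ A.inertiaSubgroupIn ℚ, M.ρ g = 1),
    ∃ B : sha₁ S (M.dualTwist (cycloChar p)) →ₗ[ZMod p] sha₂ S M →ₗ[ZMod p] ZMod p,
      (∀ y, (∀ x, B y x = 0) → y = 0) ∧ (∀ x, (∀ y, B y x = 0) → x = 0)

theorem s55At_of_frozen (h : S55Frozen) (hp2 : p ≠ 2) (hpS : pPrime p ∈ S) : S55At p S :=
  fun M _ hsm hMur => h hp2 S hpS M hsm hMur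

/-- **Theorem D for every `(p, S)` from the frozen statement of S55.**
Use: `theoremD_of_frozen @Fermat.Agent.S55.result p S hp2 hpS`. -/
theorem theoremD_of_frozen (h : S55Frozen) (hp2 : p ≠ 2) (hpS : pPrime p ∈ S) :
    TheoremDSpec p S :=
  theoremD_of_s55At p S hp2 hpS (s55At_of_frozen p S h hp2 hpS)

end Fermat.Agent.S55.PT.H595

end

end
-- ===== PACK-END S55/PT/ConverseH595.lean

-- ===== PACK-BEGIN S56/H419/H0Fiber.lean
section


/-!
# S56 / W-BASE / leaf EUL-H0, part 7 (helper419): `permCharpoly` of a disjoint union of fibres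

Mathlib-only (+ `permCharpoly` of `S56/H614/Lattice.lean`).
`A : I → X → Prop` pairwise disjoint predicates with finite fibres, `σ : X → X` preserving each
`A i`.  For a finite set `s` of indices,

  `permCharpoly k (σ | {x // ∃ i ∈ s, A i x}) = ∏ i ∈ s, permCharpoly k (σ | {x // A i x})`
(`permCharpoly_union`).
-/

set_option autoImplicit false
set_option linter.style.haveILetI false
set_option linter.unusedSectionVars false

noncomputable section

namespace Fermat.Agent.S56.H419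

open Fermat.Agent.S56.H614 Polynomial

section Fiber

variable (k : Type*) [Field k] {X : Type*} {I : Type*} (A : I → X → Prop)
  (σ : X → X) (hσ : ∀ i x, A i x → A i (σ x))

/-- The restriction of `σ` to the fibre `{x // A i x}`. -/
def fiberMap (i : I) : {x // A i x} → {x // A i x} := fun x => ⟨σ x.1, hσ i x.1 x.2⟩

/-- The restriction of `σ` to the union `{x // ∃ i ∈ s, A i x}`. -/
def unionMap (s : Finset I) : {x // ∃ i ∈ s, A i x} → {x // ∃ i ∈ s, A i x} :=
  fun x => ⟨σ x.1, by obtain ⟨i, hi, h⟩ := x.2; exact ⟨i, hi, hσ i x.1 h⟩⟩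

@[simp] theorem coe_fiberMap (i : I) (x : {x // A i x}) : (fiberMap A σ hσ i x).1 = σ x.1 := rfl

@[simp] theorem coe_unionMap (s : Finset I) (x : {x // ∃ i ∈ s, A i x}) :
    (unionMap A σ hσ s x).1 = σ x.1 := rfl

variable (hA : ∀ i j x, A i x → A j x → i = j)

include hA in
theorem not_fiber_of_mem_union {i : I} {s : Finset I} (hi : i ∉ s)
    (y : {x // ∃ j ∈ s, A j x}) : ¬ A i y.1 := by
  intro hy
  obtain ⟨j, hj, hjy⟩ := y.2
  have := hA i j y.1 hy hjy
  exact hi (this ▸ hj)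

theorem mem_union_of_not_fiber [DecidableEq I] {i : I} {s : Finset I}
    (x : {x // ∃ j ∈ insert i s, A j x}) (hx : ¬ A i x.1) : ∃ j ∈ s, A j x.1 := by
  obtain ⟨j, hj, hjx⟩ := x.2
  rcases Finset.mem_insert.1 hj with rfl | hj'
  · exact absurd hjx hx
  · exact ⟨j, hj', hjx⟩

open Classical in
/-- `X_{insert i s} → X_i ⊕ X_s`. -/
def insertToSum [DecidableEq I] (i : I) (s : Finset I) :
    {x // ∃ j ∈ insert i s, A j x} → ({x // A i x} ⊕ {x // ∃ j ∈ s, A j x}) :=
  fun x => if h : A i x.1 then Sum.inl ⟨x.1, h⟩ else Sum.inr ⟨x.1, mem_union_of_not_fiber A x h⟩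

theorem insertToSum_of_pos [DecidableEq I] (i : I) (s : Finset I)
    (x : {x // ∃ j ∈ insert i s, A j x}) (h : A i x.1) :
    insertToSum A i s x = Sum.inl ⟨x.1, h⟩ := by
  unfold insertToSum
  rw [dif_pos h]

theorem insertToSum_of_neg [DecidableEq I] (i : I) (s : Finset I)
    (x : {x // ∃ j ∈ insert i s, A j x}) (h : ¬ A i x.1) :
    insertToSum A i s x = Sum.inr ⟨x.1, mem_union_of_not_fiber A x h⟩ := by
  unfold insertToSum
  rw [dif_neg h]

/-- `X_i ⊕ X_s → X_{insert i s}`. -/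
def sumToInsert [DecidableEq I] (i : I) (s : Finset I) :
    ({x // A i x} ⊕ {x // ∃ j ∈ s, A j x}) → {x // ∃ j ∈ insert i s, A j x}
  | Sum.inl y => ⟨y.1, i, Finset.mem_insert_self i s, y.2⟩
  | Sum.inr y => ⟨y.1, by
      obtain ⟨j, hj, hjy⟩ := y.2
      exact ⟨j, Finset.mem_insert_of_mem hj, hjy⟩⟩

include hA in
/-- `X_{insert i s} ≃ X_i ⊕ X_s` for `i ∉ s`. -/
theorem exists_insert_equiv [DecidableEq I] (i : I) (s : Finset I) (hi : i ∉ s) :
    ∃ e : {x // ∃ j ∈ insert i s, A j x} ≃ ({x // A i x} ⊕ {x // ∃ j ∈ s, A j x}),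
      ∀ x, e (unionMap A σ hσ (insert i s) x) =
        Sum.map (fiberMap A σ hσ i) (unionMap A σ hσ s) (e x) := by
  refine ⟨⟨insertToSum A i s, sumToInsert A i s, ?_, ?_⟩, ?_⟩
  · intro x
    by_cases h : A i x.1
    · rw [insertToSum_of_pos A i s x h]
      rfl
    · rw [insertToSum_of_neg A i s x h]
      rfl
  · intro y
    rcases y with y | y
    · exact insertToSum_of_pos A i s _ y.2
    · exact insertToSum_of_neg A i s _ (not_fiber_of_mem_union A hA hi y)
  · intro x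
    show insertToSum A i s (unionMap A σ hσ (insert i s) x) =
      Sum.map (fiberMap A σ hσ i) (unionMap A σ hσ s) (insertToSum A i s x)
    by_cases h : A i x.1
    · have h' : A i (unionMap A σ hσ (insert i s) x).1 := hσ i x.1 h
      rw [insertToSum_of_pos A i s _ h', insertToSum_of_pos A i s x h]
      rfl
    · have h' : ¬ A i (unionMap A σ hσ (insert i s) x).1 := by
        intro hc
        obtain ⟨j, hj, hjx⟩ := mem_union_of_not_fiber A x h
        have hjσ : A j (σ x.1) := hσ j x.1 hjx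
        have := hA i j (σ x.1) hc hjσ
        exact hi (this ▸ hj)
      rw [insertToSum_of_neg A i s _ h', insertToSum_of_neg A i s x h]
      rfl

include hA in
/-- The union of finitely many finite fibres is finite. -/
theorem finite_union [∀ i, Finite {x // A i x}] (s : Finset I) :
    Finite {x // ∃ i ∈ s, A i x} := by
  classical
  induction s using Finset.induction_on with
  | empty =>
    haveI : IsEmpty {x // ∃ i ∈ (∅ : Finset I), A i x} := ⟨fun x => by
      obtain ⟨i, hi, _⟩ := x.2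
      exact absurd hi (Finset.notMem_empty i)⟩
    infer_instance
  | insert i s hi ih =>
    haveI := ih
    obtain ⟨e, -⟩ := exists_insert_equiv A (id : X → X) (fun _ _ h => h) hA i s hi
    exact Finite.of_equiv _ e.symm

include hA in
theorem permCharpoly_union_aux [DecidableEq I] [∀ i, Finite {x // A i x}] (s : Finset I) :
    ∀ hfin : Finite {x // ∃ i ∈ s, A i x},
      @permCharpoly k _ _ hfin (unionMap A σ hσ s) =
        ∏ i ∈ s, permCharpoly k (fiberMap A σ hσ i) := by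
  classical
  induction s using Finset.induction_on with
  | empty =>
    intro hfin
    haveI : IsEmpty {x // ∃ i ∈ (∅ : Finset I), A i x} := ⟨fun x => by
      obtain ⟨i, hi, _⟩ := x.2
      exact absurd hi (Finset.notMem_empty i)⟩
    rw [Finset.prod_empty]
    exact permCharpoly_of_isEmpty k _
  | insert i s hi ih =>
    intro hfin
    haveI : Finite {x // ∃ j ∈ s, A j x} := finite_union A hA s
    obtain ⟨e, he⟩ := exists_insert_equiv A σ hσ hA i s hi
    rw [Finset.prod_insert hi, ← ih inferInstance, ← permCharpoly_sum]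
    exact permCharpoly_congr_equiv k e _ _ he

include hA in
/-- **`permCharpoly` of a disjoint union of fibres.** -/
theorem permCharpoly_union [DecidableEq I] [∀ i, Finite {x // A i x}] (s : Finset I)
    [hfin : Finite {x // ∃ i ∈ s, A i x}] :
    permCharpoly k (unionMap A σ hσ s) = ∏ i ∈ s, permCharpoly k (fiberMap A σ hσ i) :=
  permCharpoly_union_aux k A σ hσ hA s hfin

end Fiber

end Fermat.Agent.S56.H419

end

end
-- ===== PACK-END S56/H419/H0Fiber.lean

-- ===== PACK-BEGIN S56/H419/H0CharpolyPlaces.lean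
section



/-!
# S56 / W-BASE / leaf EUL-H0, part 8 (helper419): the characteristic polynomials of the
right translations in terms of places of the level field

`F/ℚ` a finite Galois level, `U = G_F`, `σ ∈ G_ℚ`, `τ = σ|_F = resF F σ`.

* `permCharpoly_dcPerm_Dq` : `permCharpoly k (dcPerm D_q U σ)⁻¹ =
  permCharpoly k (τ⁻¹ | primes of 𝓞 F above q)`;
* `permCharpoly_dcPerm_Dinf` : `permCharpoly k (dcPerm ⟨c⟩ U σ)⁻¹ =
  permCharpoly k (τ⁻¹ | InfinitePlace F)`;
* `prod_permCharpoly_primesOver` : the product over `q ∈ S` is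
  `permCharpoly k (τ⁻¹ | primes of 𝓞 F above S)`.
-/

set_option autoImplicit false
set_option linter.style.haveILetI false
set_option linter.unusedSectionVars false

noncomputable section

open scoped Pointwise NumberField

namespace Fermat.Agent.S56.H419

open Fermat.Agent.S55.PT Fermat.Agent.S56.H614 ExtCitation MulAction NumberField Polynomial

section Primes

variable (F : IntermediateField ℚ (AlgebraicClosure ℚ))

/-- `P` is a prime of `𝓞 F` above the rational prime `q`. -/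
def IsPrimeOver (q : Nat.Primes) (P : Ideal (𝓞 F)) : Prop :=
  P.IsPrime ∧ ((q : ℕ) : 𝓞 F) ∈ P

variable {F}

theorem smul_natCast_ringOfIntegers' (τ : F ≃ₐ[ℚ] F) (n : ℕ) : τ • (n : 𝓞 F) = (n : 𝓞 F) := by
  apply RingOfIntegers.ext
  change τ ((n : 𝓞 F) : F) = ((n : 𝓞 F) : F)
  simp

theorem IsPrimeOver.smul (τ : F ≃ₐ[ℚ] F) {q : Nat.Primes} {P : Ideal (𝓞 F)}
    (h : IsPrimeOver F q P) : IsPrimeOver F q (τ • P) := by
  haveI := h.1
  refine ⟨inferInstance, ?_⟩
  rw [← smul_natCast_ringOfIntegers' τ q]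
  exact Ideal.smul_mem_pointwise_smul τ _ _ h.2

/-- A prime of `𝓞 F` lies above at most one rational prime. -/
theorem IsPrimeOver.unique {q q' : Nat.Primes} {P : Ideal (𝓞 F)}
    (h : IsPrimeOver F q P) (h' : IsPrimeOver F q' P) : q = q' := by
  by_contra hne
  have hcop : Nat.Coprime (q : ℕ) (q' : ℕ) := by
    rw [Nat.coprime_primes q.2 q'.2]
    intro hc
    exact hne (Subtype.ext hc)
  have h1 : ((Nat.gcdA q q' : ℤ) : 𝓞 F) * ((q : ℕ) : 𝓞 F) +
      ((Nat.gcdB q q' : ℤ) : 𝓞 F) * ((q' : ℕ) : 𝓞 F) = 1 := by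
    have hb := Nat.gcd_eq_gcd_ab q q'
    rw [hcop] at hb
    have : ((1 : ℕ) : ℤ) = (q : ℕ) * Nat.gcdA q q' + (q' : ℕ) * Nat.gcdB q q' := hb
    have h2 := congrArg (fun z : ℤ => (z : 𝓞 F)) this
    simp only [Nat.cast_one, Int.cast_one, Int.cast_add, Int.cast_mul, Int.cast_natCast] at h2
    rw [h2]
    ring
  have hmem : (1 : 𝓞 F) ∈ P := by
    rw [← h1]
    exact P.add_mem (P.mul_mem_left _ h.2) (P.mul_mem_left _ h'.2)
  exact h.1.ne_top ((Ideal.eq_top_iff_one P).2 hmem)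

variable (F) [Normal ℚ F] [FiniteDimensional ℚ F]

/-- `D_q\G_ℚ/G_F ≃ {primes of 𝓞 F above q}` (restatement of `primeDCEquiv`). -/
def primeOverEquiv (q : Nat.Primes) :
    DC (Dq q) F.fixingSubgroup ≃ {P : Ideal (𝓞 F) // IsPrimeOver F q P} :=
  primeDCEquiv q F

@[simp] theorem coe_primeOverEquiv (q : Nat.Primes) (ω : DC (Dq q) F.fixingSubgroup) :
    (primeOverEquiv F q ω : Ideal (𝓞 F)) = primeOfDC q F ω := rfl

instance finite_primeOver (q : Nat.Primes) : Finite {P : Ideal (𝓞 F) // IsPrimeOver F q P} :=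
  Finite.of_equiv _ (primeOverEquiv F q)

variable (k : Type*) [Field k]

/-- The permutation `P ↦ τ • P` of all ideals, restricted to the primes above `q`. -/
abbrev primeOverMap (τ : F ≃ₐ[ℚ] F) (q : Nat.Primes) :
    {P : Ideal (𝓞 F) // IsPrimeOver F q P} → {P : Ideal (𝓞 F) // IsPrimeOver F q P} :=
  fiberMap (IsPrimeOver F) (fun P => τ • P) (fun _ _ h => h.smul τ) q

/-- **Finite primes.** -/
theorem permCharpoly_dcPerm_Dq (q : Nat.Primes) (σ : _root_.Fermat.Agent.S55.PT.GQ) :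
    permCharpoly k (dcPerm (Dq q) F.fixingSubgroup σ).symm =
      permCharpoly k (primeOverMap F (resF F σ)⁻¹ q) := by
  refine permCharpoly_congr_equiv k (primeOverEquiv F q) _ _ ?_
  intro ω
  apply Subtype.ext
  have h : (dcPerm (Dq q) F.fixingSubgroup σ).symm ω = dcPerm (Dq q) F.fixingSubgroup σ⁻¹ ω := by
    rw [Equiv.symm_apply_eq, ← Equiv.Perm.mul_apply, ← dcPerm_mul, mul_inv_cancel, dcPerm_one]
    rfl
  rw [h, coe_primeOverEquiv, primeOfDC_dcPerm, map_inv]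
  rfl

/-- **Product over `S`.** -/
theorem prod_permCharpoly_primesOver (S : Finset Nat.Primes) (τ : F ≃ₐ[ℚ] F)
    [Finite {P : Ideal (𝓞 F) // ∃ q ∈ S, IsPrimeOver F q P}] :
    ∏ q ∈ S, permCharpoly k (primeOverMap F τ q) =
      permCharpoly k (unionMap (IsPrimeOver F) (fun P => τ • P) (fun _ _ h => h.smul τ) S) := by
  classical
  exact (permCharpoly_union k (IsPrimeOver F) (fun P => τ • P) (fun _ _ h => h.smul τ)
    (fun _ _ _ h h' => h.unique h') S).symm

instance finite_primesOverS (S : Finset Nat.Primes) :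
    Finite {P : Ideal (𝓞 F) // ∃ q ∈ S, IsPrimeOver F q P} :=
  finite_union (IsPrimeOver F) (fun _ _ _ h h' => h.unique h') S

end Primes

section Infinite

variable (F : IntermediateField ℚ (AlgebraicClosure ℚ)) [Normal ℚ F] [FiniteDimensional ℚ F]
  (k : Type*) [Field k]

instance finite_infinitePlace : Finite (InfinitePlace F) :=
  Finite.of_equiv _ (placeDCEquiv F)

/-- **Infinite places.** -/
theorem permCharpoly_dcPerm_Dinf (σ : _root_.Fermat.Agent.S55.PT.GQ) :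
    permCharpoly k (dcPerm Dinf F.fixingSubgroup σ).symm =
      permCharpoly k (fun w : InfinitePlace F => (resF F σ)⁻¹ • w) := by
  refine permCharpoly_congr_equiv k (placeDCEquiv F) _ _ ?_
  intro ω
  have h : (dcPerm Dinf F.fixingSubgroup σ).symm ω = dcPerm Dinf F.fixingSubgroup σ⁻¹ ω := by
    rw [Equiv.symm_apply_eq, ← Equiv.Perm.mul_apply, ← dcPerm_mul, mul_inv_cancel, dcPerm_one]
    rfl
  rw [h, placeDCEquiv_apply, placeOfDC_dcPerm, map_inv]
  rfl

end Infinite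

end Fermat.Agent.S56.H419

end

end
-- ===== PACK-END S56/H419/H0CharpolyPlaces.lean

-- ===== PACK-BEGIN S56/H419/H0PrimesT.lean
section



/-!
# S56 / W-BASE / leaf EUL-H0, part 9 (helper419): adapter to the HERB vocabulary

The unit theorem mod `p` (`H614.sUnits_charpoly`, `Euler.H896.herbCharpoly`) is stated for a
Galois extension `L/K` of number fields and a finite set `T` of primes of `K`
(`T : Finset (HeightOneSpectrum (𝓞 K))`), with the `Gal(L/K)`-set
`primesAbove K L T` (`S55/G/SpecUnits.lean`) and the permutation `H614.primePerm K L T τ`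
(`w ↦ τ⁻¹ w`).  Here `K = ℚ`, `L = F` a finite Galois level and `T = primesT S` for a finite set
`S` of rational primes:

* `ratPrime q : HeightOneSpectrum (𝓞 ℚ)`, `primesT S = S.image ratPrime`;
* `mem_primesAbove_primesT_iff` : `w ∈ primesAbove ℚ F (primesT S) ↔ ∃ q ∈ S, q ∈ w`;
* `permCharpoly_primePerm` : `permCharpoly k (primePerm ℚ F (primesT S) τ) =
  ∏ q ∈ S, permCharpoly k (τ⁻¹ | primes of 𝓞 F above q)`.
-/

set_option autoImplicit false
set_option linter.style.haveILetI false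
set_option linter.unusedSectionVars false

noncomputable section

open scoped Pointwise NumberField

namespace Fermat.Agent.S56.H419

open Fermat.Agent.S55.PT Fermat.Agent.S55.G Fermat.Agent.S56.H614 ExtCitation MulAction
  NumberField Polynomial IsDedekindDomain

/-! ### rational primes as primes of `𝓞 ℚ` -/

theorem natCast_ringOfIntegers_rat_ne_zero (q : Nat.Primes) : ((q : ℕ) : 𝓞 ℚ) ≠ 0 := by
  intro h
  have := congrArg (fun x : 𝓞 ℚ => (x : ℚ)) h
  simp only [map_natCast, map_zero] at this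
  exact q.2.ne_zero (by exact_mod_cast this)

theorem prime_natCast_ringOfIntegers_rat (q : Nat.Primes) : Prime ((q : ℕ) : 𝓞 ℚ) := by
  have h1 : Prime ((q : ℕ) : ℤ) := Nat.prime_iff_prime_int.1 q.2
  have h2 : Rat.ringOfIntegersEquiv ((q : ℕ) : 𝓞 ℚ) = ((q : ℕ) : ℤ) := map_natCast _ _
  rw [← h2] at h1
  exact (MulEquiv.prime_iff Rat.ringOfIntegersEquiv.toMulEquiv).1 h1

/-- The prime `(q)` of `𝓞 ℚ`. -/
def ratPrime (q : Nat.Primes) : HeightOneSpectrum (𝓞 ℚ) where
  asIdeal := Ideal.span {((q : ℕ) : 𝓞 ℚ)}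
  isPrime := (Ideal.span_singleton_prime (natCast_ringOfIntegers_rat_ne_zero q)).2
    (prime_natCast_ringOfIntegers_rat q)
  ne_bot := by
    rw [Ne, Ideal.span_singleton_eq_bot]
    exact natCast_ringOfIntegers_rat_ne_zero q

@[simp] theorem ratPrime_asIdeal (q : Nat.Primes) :
    (ratPrime q).asIdeal = Ideal.span {((q : ℕ) : 𝓞 ℚ)} := rfl

open Classical in
/-- The finite set of primes of `𝓞 ℚ` attached to a finite set of rational primes. -/
def primesT (S : Finset Nat.Primes) : Finset (HeightOneSpectrum (𝓞 ℚ)) := S.image ratPrime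

theorem mem_primesT {S : Finset Nat.Primes} {v : HeightOneSpectrum (𝓞 ℚ)} :
    v ∈ primesT S ↔ ∃ q ∈ S, ratPrime q = v := by
  classical
  unfold primesT
  rw [Finset.mem_image]

section Level

variable (F : IntermediateField ℚ (AlgebraicClosure ℚ)) [NumberField F]

/-- `w` lies over `(q)` iff `q ∈ w`. -/
theorem under_eq_ratPrime_iff (q : Nat.Primes) (w : HeightOneSpectrum (𝓞 F)) :
    w.asIdeal.under (𝓞 ℚ) = (ratPrime q).asIdeal ↔ ((q : ℕ) : 𝓞 F) ∈ w.asIdeal := by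
  constructor
  · intro h
    have h1 : ((q : ℕ) : 𝓞 ℚ) ∈ w.asIdeal.under (𝓞 ℚ) := by
      rw [h, ratPrime_asIdeal]
      exact Ideal.mem_span_singleton_self _
    rw [Ideal.under_def, Ideal.mem_comap, map_natCast] at h1
    exact h1
  · intro h
    have hle : (ratPrime q).asIdeal ≤ w.asIdeal.under (𝓞 ℚ) := by
      rw [ratPrime_asIdeal, Ideal.span_singleton_le_iff_mem, Ideal.under_def, Ideal.mem_comap,
        map_natCast]
      exact h
    have hne : w.asIdeal.under (𝓞 ℚ) ≠ ⊤ := (Ideal.IsPrime.under (𝓞 ℚ) w.asIdeal).ne_top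
    exact ((ratPrime q).isMaximal.eq_of_le hne hle).symm

theorem mem_primesAbove_primesT_iff (S : Finset Nat.Primes) (w : HeightOneSpectrum (𝓞 F)) :
    w ∈ primesAbove ℚ F (primesT S) ↔ ∃ q ∈ S, ((q : ℕ) : 𝓞 F) ∈ w.asIdeal := by
  constructor
  · rintro ⟨v, hv, hw⟩
    obtain ⟨q, hq, rfl⟩ := mem_primesT.1 hv
    exact ⟨q, hq, (under_eq_ratPrime_iff F q w).1 hw⟩
  · rintro ⟨q, hq, hw⟩
    exact ⟨ratPrime q, mem_primesT.2 ⟨q, hq, rfl⟩, (under_eq_ratPrime_iff F q w).2 hw⟩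

theorem natCast_ringOfIntegers_ne_zero (q : Nat.Primes) : ((q : ℕ) : 𝓞 F) ≠ 0 := by
  intro h
  have := congrArg (fun x : 𝓞 F => (x : F)) h
  simp only [map_natCast, map_zero] at this
  exact q.2.ne_zero (by exact_mod_cast this)

/-- `{primes of 𝓞 F above S} ≃ primesAbove ℚ F (primesT S)`. -/
def primesTEquiv (S : Finset Nat.Primes) :
    {P : Ideal (𝓞 F) // ∃ q ∈ S, IsPrimeOver F q P} ≃ ↥(primesAbove ℚ F (primesT S)) where
  toFun P := ⟨⟨P.1, by obtain ⟨q, _, h⟩ := P.2; exact h.1, by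
      obtain ⟨q, _, h⟩ := P.2
      intro hbot
      have := h.2
      rw [hbot, Ideal.mem_bot] at this
      exact natCast_ringOfIntegers_ne_zero F q this⟩,
    (mem_primesAbove_primesT_iff F S _).2 (by
      obtain ⟨q, hq, h⟩ := P.2
      exact ⟨q, hq, h.2⟩)⟩
  invFun w := ⟨w.1.asIdeal, by
    obtain ⟨q, hq, h⟩ := (mem_primesAbove_primesT_iff F S w.1).1 w.2
    exact ⟨q, hq, w.1.isPrime, h⟩⟩
  left_inv P := rfl
  right_inv w := rfl

@[simp] theorem primesTEquiv_asIdeal (S : Finset Nat.Primes)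
    (P : {P : Ideal (𝓞 F) // ∃ q ∈ S, IsPrimeOver F q P}) :
    (primesTEquiv F S P).1.asIdeal = P.1 := rfl

variable [IsGalois ℚ F] (k : Type*) [Field k]

/-- **Adapter.** `permCharpoly` of `H614.primePerm` on the primes above `primesT S` is the
`permCharpoly` of `τ⁻¹` on the primes of `𝓞 F` above `S`. -/
theorem permCharpoly_primePerm_eq_union (S : Finset Nat.Primes) (τ : F ≃ₐ[ℚ] F)
    [Finite {P : Ideal (𝓞 F) // ∃ q ∈ S, IsPrimeOver F q P}] :
    permCharpoly k (primePerm ℚ F (primesT S) τ) =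
      permCharpoly k (unionMap (IsPrimeOver F) (fun P => τ⁻¹ • P)
        (fun _ _ h => h.smul τ⁻¹) S) := by
  symm
  refine permCharpoly_congr_equiv k (primesTEquiv F S) _ _ ?_
  intro P
  apply Subtype.ext
  apply HeightOneSpectrum.ext
  rfl

end Level

section Final

variable (F : IntermediateField ℚ (AlgebraicClosure ℚ)) [NumberField F] [IsGalois ℚ F]
  [FiniteDimensional ℚ F] (k : Type*) [Field k]

/-- **Product formula in HERB vocabulary.**
`permCharpoly k (primePerm ℚ F (primesT S) τ) = ∏_{q ∈ S} permCharpoly k (τ⁻¹ | primes above q)`. -/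
theorem permCharpoly_primePerm (S : Finset Nat.Primes) (τ : F ≃ₐ[ℚ] F) :
    permCharpoly k (primePerm ℚ F (primesT S) τ) =
      ∏ q ∈ S, permCharpoly k (primeOverMap F τ⁻¹ q) := by
  rw [permCharpoly_primePerm_eq_union F k S τ, prod_permCharpoly_primesOver F k S τ⁻¹]

/-- **Finite primes, HERB vocabulary.**
`∏_{q ∈ S} permCharpoly k (dcPerm D_q U σ)⁻¹ = permCharpoly k (primePerm ℚ F (primesT S) σ|_F)`. -/
theorem prod_permCharpoly_dcPerm_Dq (S : Finset Nat.Primes) (σ : _root_.Fermat.Agent.S55.PT.GQ) :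
    ∏ q ∈ S, permCharpoly k (dcPerm (Dq q) F.fixingSubgroup σ).symm =
      permCharpoly k (primePerm ℚ F (primesT S) (resF F σ)) := by
  rw [permCharpoly_primePerm F k S (resF F σ)]
  exact Finset.prod_congr rfl (fun q _ => permCharpoly_dcPerm_Dq F k q σ)

end Final

end Fermat.Agent.S56.H419

end

end
-- ===== PACK-END S56/H419/H0PrimesT.lean

-- ===== PACK-BEGIN S55/Inv/H90H99.lean
section
/-
S55 (Poitou–Tate), route C′, input `InvSpec`, leaf INV-COK (helper99), part 3: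
semi-local Hilbert 90, unconditionally, and

    globCoker_of' : p ≠ 2 → pPrime p ∈ S → K.KummerSpec p S → GO4Spec p S → Inv.GlobCokerSpec p S,
    globCoker_of_GO4 : p ≠ 2 → pPrime p ∈ S → GO4Spec p S → Inv.GlobCokerSpec p S
    (KUM = `K.H724.kummer`, on main).

* `h1Vanish_ind_of_stab` : Shapiro in degree 1, cochain form (any `φ : H → G`, `U ≤ G` of finite
  index, `B : Rep ℤ H`): if the level-constant 1-cocycles of the stabilisers are coboundaries,
  then `H¹_lc(H, Ind_U B) = 0`.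
* `hilbert90_open` : Hilbert 90 for the open subgroups of `G_{ℚ_q}` acting on `ℚ̄_qˣ`
  (Poincaré series, `G/Rec/K5H379`, with the number field cut out by a level as monoid).
* `semiLocalH90 : SemiLocalH90Spec S`.
-/




set_option autoImplicit false
set_option linter.style.haveILetI false
set_option linter.unusedSectionVars false
noncomputable section
namespace Fermat.Agent.S55.Inv.H99

open groupCohomology ExtCitation Fermat.Agent.S55.PT Fermat.Agent.S55.KC Fermat.Agent.S55.Bridge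

/-! ## 1. Shapiro in degree 1 (cochain form) -/

section Shapiro1

variable {G H : Type} [Group G] [Group H] (φ : H →* G) (U : Subgroup G)
  (B : Rep.{0, 0, 0} ℤ H)

/-- The stabiliser in `H` of a coset `x ∈ G ⧸ U` (`H` acts through `φ`). -/
def stab (x : G ⧸ U) : Subgroup H := (MulAction.stabilizer G x).comap φ

lemma mem_stab_iff (x : G ⧸ U) (s : H) : s ∈ stab φ U x ↔ φ s • x = x := Iff.rfl

/-- Evaluation of the action on `Ind_U B`. -/
lemma indρ_apply (g : H) (a : (G ⧸ U) →₀ B) (y : G ⧸ U) :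
    (K.indρ φ U B g a) y = B.ρ g (a ((φ g)⁻¹ • y)) := by
  have h1 : K.indρ φ U B g a =
      Finsupp.mapDomain (fun x : G ⧸ U => φ g • x) (Finsupp.mapRange (B.ρ g) (map_zero _) a) :=
    rfl
  have h2 : y = (fun x : G ⧸ U => φ g • x) ((φ g)⁻¹ • y) := by
    simp
  rw [h1]
  conv_lhs => rw [h2]
  rw [Finsupp.mapDomain_apply (MulAction.injective (φ g)), Finsupp.mapRange_apply]

/-- **Shapiro in degree 1, cochain form.**  If for every coset `x` the level-constant 1-cocycles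
of the stabiliser of `x` with values in `B` are coboundaries, then `H¹_lc(H, Ind_U B) = 0`. -/
theorem h1Vanish_ind_of_stab (L' : LevelSys H) [Finite (G ⧸ U)]
    (hstab : ∀ (x : G ⧸ U) (ψ : H → B),
      (∀ s ∈ stab φ U x, ∀ t ∈ stab φ U x, ψ (s * t) = B.ρ s (ψ t) + ψ s) →
      L'.IsLC₁ ψ →
      ∃ a₀ : B, ∀ s ∈ stab φ U x, B.ρ s a₀ - a₀ = ψ s) :
    H1Vanish L' (K.ind φ U B) := by
  classical
  intro f hf hflc
  let F : H → ((G ⧸ U) →₀ B) := f
  have hcoc : ∀ g h : H, F (g * h) = K.indρ φ U B g (F h) + F g := fun g h =>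
    (mem_cocycles₁_iff f).1 hf g h
  have hcocy : ∀ (g h : H) (y : G ⧸ U), F (g * h) y = B.ρ g (F h ((φ g)⁻¹ • y)) + F g y := by
    intro g h y
    rw [hcoc, Finsupp.add_apply, indρ_apply]
  -- the components are cocycles on the stabilisers
  have hψ : ∀ x : G ⧸ U, ∃ a₀ : B, ∀ s ∈ stab φ U x, B.ρ s a₀ - a₀ = F s x := by
    intro x
    refine hstab x (fun s => F s x) ?_ ?_
    · intro s hs t _
      show F (s * t) x = B.ρ s (F t x) + F s x
      rw [hcocy]
      have h1 : (φ s)⁻¹ • x = x := by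
        have h2 : φ s • x = x := hs
        rw [inv_smul_eq_iff, h2]
      rw [h1]
    · obtain ⟨W, hW, h⟩ := hflc
      refine ⟨W, hW, fun g s hs => ?_⟩
      show F (g * s) x = F g x
      have : F (g * s) = F g := h g s hs
      rw [this]
  choose a₀ ha₀ using hψ
  -- orbit representatives
  let P : G ⧸ U → G ⧸ U → Prop := fun y y' => ∃ h : H, φ h • y' = y
  have hPne : ∀ y, ∃ y', P y y' := fun y => ⟨y, 1, by simp⟩
  haveI : Nonempty (G ⧸ U) := ⟨((1 : G) : G ⧸ U)⟩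
  let rep : G ⧸ U → G ⧸ U := fun y => Classical.epsilon (P y)
  have hrep : ∀ y, P y (rep y) := fun y => Classical.epsilon_spec (hPne y)
  have hP_eq : ∀ (h : H) (y : G ⧸ U), P (φ h • y) = P y := by
    intro h y
    funext y'
    apply propext
    constructor
    · rintro ⟨h', hh'⟩
      refine ⟨h⁻¹ * h', ?_⟩
      rw [map_mul, mul_smul, hh', map_inv, inv_smul_smul]
    · rintro ⟨h', hh'⟩
      refine ⟨h * h', ?_⟩
      rw [map_mul, mul_smul, hh']
  have hrep_eq : ∀ (h : H) (y : G ⧸ U), rep (φ h • y) = rep y := by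
    intro h y
    show Classical.epsilon (P (φ h • y)) = Classical.epsilon (P y)
    rw [hP_eq]
  choose gy hgy using hrep
  -- the primitive
  let a : G ⧸ U → B := fun y => B.ρ (gy y) (a₀ (rep y)) - F (gy y) y
  let a' : (G ⧸ U) →₀ B := Finsupp.equivFunOnFinite.symm a
  have ha' : ∀ y, a' y = a y := fun y => rfl
  refine ⟨a', ?_⟩
  funext h
  change K.indρ φ U B h a' - a' = F h
  ext y
  rw [Finsupp.sub_apply, indρ_apply, ha', ha']
  -- notation
  set y' : G ⧸ U := (φ h)⁻¹ • y with hy'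
  have hyy' : y' = φ h⁻¹ • y := by rw [hy', map_inv]
  have hrep' : rep y' = rep y := by rw [hyy', hrep_eq]
  set g' : H := gy y' with hg'
  have hg'y : φ g' • rep y = y' := by
    have := hgy y'
    rwa [hrep'] at this
  set s : H := (gy y)⁻¹ * h * g' with hs
  have hsmem : s ∈ stab φ U (rep y) := by
    show φ s • rep y = rep y
    rw [hs, map_mul, map_mul, mul_smul, mul_smul, hg'y, hy', smul_inv_smul, map_inv,
      inv_smul_eq_iff, hgy y]
  have hmul : h * g' = gy y * s := by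
    rw [hs]; group
  -- (1)
  have e1 : F (h * g') y = B.ρ h (F g' y') + F h y := hcocy h g' y
  -- (2)
  have e2 : F (h * g') y = B.ρ (gy y) (F s (rep y)) + F (gy y) y := by
    rw [hmul, hcocy]
    have : (φ (gy y))⁻¹ • y = rep y := by
      rw [inv_smul_eq_iff, hgy y]
    rw [this]
  -- (3)
  have e3 : B.ρ s (a₀ (rep y)) - a₀ (rep y) = F s (rep y) := ha₀ (rep y) s hsmem
  -- (4)
  have e4a : ∀ (g₁ g₂ : H) (v : B), B.ρ (g₁ * g₂) v = B.ρ g₁ (B.ρ g₂ v) := fun g₁ g₂ v => by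
    rw [map_mul]; rfl
  have e4 : B.ρ h (B.ρ g' (a₀ (rep y))) = B.ρ (gy y) (B.ρ s (a₀ (rep y))) := by
    rw [← e4a, ← e4a, hmul]
  show B.ρ h (a y') - a y = F h y
  simp only [a]
  rw [hrep', map_sub, e4]
  have e5 : B.ρ s (a₀ (rep y)) = a₀ (rep y) + F s (rep y) := by
    rw [← e3]; abel
  rw [e5, map_add]
  have e6 : B.ρ h (F g' y') = B.ρ (gy y) (F s (rep y)) + F (gy y) y - F h y := by
    rw [← e2, e1]; abel
  rw [e6]
  abel

end Shapiro1

/-! ## 2. Hilbert 90 for the open subgroups of `G_{ℚ_q}` -/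

section H90

variable (q : Nat.Primes)

/-- **Hilbert 90 for open subgroups of `G_{ℚ_q}`** (cochain form).  A level-constant function
`ψ : G_q → ℚ̄_qˣ` which is a 1-cocycle on the open subgroup `H'` is a coboundary on `H'`.
(Poincaré series: `G/Rec/K5H379`.) -/
theorem hilbert90_open (H' : Subgroup (Gl q))
    (hopen : ∃ W ∈ (localLevels q).levels, W ≤ H') (ψ : Gl q → Tow.unitsQpbar q)
    (hψ : ∀ s ∈ H', ∀ t ∈ H', ψ (s * t) = (Tow.unitsQpbar q).ρ s (ψ t) + ψ s)
    (hlc : (localLevels q).IsLC₁ ψ) :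
    ∃ a₀ : Tow.unitsQpbar q, ∀ s ∈ H', (Tow.unitsQpbar q).ρ s a₀ - a₀ = ψ s := by
  letI : Fact (q : ℕ).Prime := ⟨q.2⟩
  -- a common level
  obtain ⟨W₁, hW₁, hW₁H⟩ := hopen
  obtain ⟨W₀, hW₀, hψW₀⟩ := hlc
  obtain ⟨W, hW, hWle⟩ := (localLevels q).directed W₀ hW₀ W₁ hW₁
  obtain ⟨F, hF, rfl⟩ := hW
  haveI : (F.fixingSubgroup.comap (rl q)).FiniteIndex :=
    H723.pullbackLevels_finiteIndex (rl q) _ ⟨F, hF, rfl⟩
  -- the action of `H'` on `ℚ̄_q`
  let toAut : Gl q →* (PadicAlgCl (q : ℕ) ≃ₐ[ℚ_[(q : ℕ)]] PadicAlgCl (q : ℕ)) := MonoidHom.id _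
  letI : MulSemiringAction (↥H') (PadicAlgCl (q : ℕ)) :=
    MulSemiringAction.compHom (PadicAlgCl (q : ℕ)) (toAut.comp H'.subtype)
  have hsmul : ∀ (g : ↥H') (z : PadicAlgCl (q : ℕ)), g • z = toAut (g : Gl q) z := fun _ _ => rfl
  have hemb : ∀ (g : Gl q) (z : AlgebraicClosure ℚ),
      toAut g (padicEmbedding (q : ℕ) z) = padicEmbedding (q : ℕ) (rl q g z) := fun g z =>
    (padicEmbedding_localGaloisToGlobal (q : ℕ) g z).symm
  -- the monoid `F` and its image
  let ι : ↥F →* PadicAlgCl (q : ℕ) :=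
    ((padicEmbedding (q : ℕ)).toRingHom.comp (algebraMap ↥F (AlgebraicClosure ℚ)) :
      ↥F →+* PadicAlgCl (q : ℕ)).toMonoidHom
  have hι : ∀ z : ↥F, ι z = padicEmbedding (q : ℕ) (z : AlgebraicClosure ℚ) := fun _ => rfl
  let N : Subgroup ↥H' := (F.fixingSubgroup.comap (rl q)).subgroupOf H'
  have hfix : ∀ s ∈ N, ∀ z, s • ι z = ι z := by
    intro s hs z
    have hs' : rl q (s : Gl q) ∈ F.fixingSubgroup := hs
    rw [hsmul, hι, hemb]
    congr 1
    exact (IntermediateField.mem_fixingSubgroup_iff _ _).1 hs' z z.2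
  have hN : ∀ g : ↥H', (∀ z, g • ι z = ι z) → g ∈ N := by
    intro g hg
    show rl q (g : Gl q) ∈ F.fixingSubgroup
    rw [IntermediateField.mem_fixingSubgroup_iff]
    intro z hz
    have := hg ⟨z, hz⟩
    rw [hsmul, hι, hemb] at this
    exact (padicEmbedding (q : ℕ)).toRingHom.injective this
  -- the cocycle
  let φ' : ↥H' → PadicAlgCl (q : ℕ) := fun g =>
    ((Additive.toMul (ψ (g : Gl q)) : (PadicAlgCl (q : ℕ))ˣ) : PadicAlgCl (q : ℕ))
  have hφ0 : ∀ g, φ' g ≠ 0 := fun g => Units.ne_zero _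
  have hφ : ∀ g h, φ' (g * h) = φ' g * g • φ' h := by
    intro g h
    have h1 := hψ g g.2 h h.2
    have h2 := congrArg (fun t : Tow.unitsQpbar q =>
      ((Additive.toMul t : (PadicAlgCl (q : ℕ))ˣ) : PadicAlgCl (q : ℕ))) h1
    show ((Additive.toMul (ψ ((g : Gl q) * (h : Gl q))) : (PadicAlgCl (q : ℕ))ˣ) :
      PadicAlgCl (q : ℕ)) = _
    rw [mul_comm]
    exact h2
  have hlev : ∀ g, ∀ s ∈ N, φ' (g * s) = φ' g := by
    intro g s hs
    show ((Additive.toMul (ψ ((g : Gl q) * (s : Gl q))) : (PadicAlgCl (q : ℕ))ˣ) :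
      PadicAlgCl (q : ℕ)) = _
    rw [hψW₀ g s (hWle hs).1]
  obtain ⟨c, hc, hcφ⟩ := G.Rec.K5H379.exists_mul_smul_eq ι N hfix hN φ' hφ0 hφ hlev
  refine ⟨Additive.ofMul (Units.mk0 c⁻¹ (inv_ne_zero hc)), fun s hs => ?_⟩
  apply Additive.toMul.injective
  apply Units.ext
  have h3 := hcφ ⟨s, hs⟩
  -- `φ' s * s c = c`
  show toAut s c⁻¹ / c⁻¹ = φ' ⟨s, hs⟩
  have h4 : φ' ⟨s, hs⟩ * toAut s c = c := h3
  have hsc : toAut s c ≠ 0 := by
    intro h0
    rw [h0, mul_zero] at h4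
    exact hc h4.symm
  have h5 : (toAut s c)⁻¹ * c = φ' ⟨s, hs⟩ := by
    rw [inv_mul_eq_iff_eq_mul₀ hsc, mul_comm]
    exact h4.symm
  rw [map_inv₀, div_inv_eq_mul]
  exact h5

end H90

/-! ## 3. Semi-local Hilbert 90 and INV-COK -/

variable (p : ℕ) [Fact p.Prime] (S : Finset Nat.Primes)

/-- **Semi-local Hilbert 90**: `H¹_lc(G_q, Ind_U ℚ̄_qˣ) = 0`. -/
theorem semiLocalH90 : SemiLocalH90Spec S := by
  intro v U hU hUn
  haveI := hUn
  haveI : U.FiniteIndex := H723.globalLevels_finiteIndex S U hU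
  refine h1Vanish_ind_of_stab (rl v.1) U (Tow.unitsQpbar v.1) (localLevels v.1)
    (fun x ψ hψ hlc => ?_)
  refine hilbert90_open v.1 (stab (rl v.1) U x) ?_ ψ hψ hlc
  obtain ⟨W, hW, hWU⟩ := hrl S v U hU
  exact ⟨W, hW, fun s hs => H323.smul_coset_eq_h323 (le_refl U) (hWU hs) x⟩

/-- **INV-COK.**  `GlobCokerSpec` from KUM and GO4. -/
theorem globCoker_of' (hp2 : p ≠ 2) (hpS : pPrime p ∈ S) (hKUM : K.KummerSpec p S)
    (hGO4 : GO4Spec p S) : GlobCokerSpec p S :=
  globCoker_of p S hp2 hpS hKUM (semiLocalH90 S) hGO4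

/-- **INV-COK, final form.**  `GlobCokerSpec` from GO4 alone (KUM: `K.H724.kummer`). -/
theorem globCoker_of_GO4 (hp2 : p ≠ 2) (hpS : pPrime p ∈ S) (hGO4 : GO4Spec p S) :
    GlobCokerSpec p S :=
  globCoker_of' p S hp2 hpS (K.H724.kummer p S) hGO4

end Fermat.Agent.S55.Inv.H99

end
end
-- ===== PACK-END S55/Inv/H90H99.lean

-- ===== PACK-BEGIN S55/Inv/CokEH99.lean
section
/-
S55 (Poitou–Tate), route C′, input `InvSpec`, leaf INV-COK (helper99), part 4: the adapters for the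
FROZEN interface `Inv/SpecK.lean` (sub-architect helper3).

Proved here, unconditionally:
* `isKummerEmb_muToL`     : `μ_p = muP p → ℚ̄_qˣ` is a Kummer embedding of `muP p |_{G_q}`;
* `h1Vanish_unitsQpbar`   : Hilbert 90, `H¹_lc(G_q, ℚ̄_qˣ) = 0`;
* `locKummerInj`          : `Inv.LocKummerInjSpec p S`      (LKI);
* `isKummerEmb_indMuToL`  : `Ind_U μ_p → Ind_U ℚ̄_qˣ` is a Kummer embedding;
* `locKummerInjInd`       : `Inv.LocKummerInjIndSpec p S`   (LKI-Ind).

Adapters: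
* `go4_of_cokerE`         : `Inv.CokerESpec p S → GO4Spec p S`;
* `globCoker_of_cokerE`   : `p ≠ 2 → pPrime p ∈ S → Inv.CokerESpec p S → Inv.GlobCokerSpec p S`
                            (leaf INV-COK: only the arithmetic core GO4 = `CokerESpec` remains).
-/



set_option autoImplicit false
set_option linter.style.haveILetI false
set_option linter.unusedSectionVars false
noncomputable section
namespace Fermat.Agent.S55.Inv.H99

open groupCohomology ExtCitation Fermat.Agent.S55.PT Fermat.Agent.S55.KC Fermat.Agent.S55.Bridge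

variable (p : ℕ) [Fact p.Prime] (S : Finset Nat.Primes)

/-! ## 1. `μ_p = muP p` versus `μ_p = F_p(χ_p) = mu p` -/

example (U : Subgroup _root_.Fermat.Agent.S55.PT.GQ) : indRep U (muP p) = K.indG U (muP p) := rfl

/-- the identification `F_p(χ_p) ≃ μ_p` is equivariant -/
lemma muPLinearEquiv_equivariant (g : _root_.Fermat.Agent.S55.PT.GQ) (m : mu p) :
    muPLinearEquiv p ((mu p).ρ g m) = (muP p).ρ g (muPLinearEquiv p m) :=
  LinearMap.congr_fun ((muPRepEquivOfChar p).isIntertwining' g) m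

lemma locMu_eq (q : Nat.Primes) (m : mu p) :
    locMu p S q m = muToL p S q (muPLinearEquiv p m) := rfl

lemma muToL_eq (q : Nat.Primes) (a : MuP p) :
    muToL p S q a = locMu p S q ((muPLinearEquiv p).symm a) := by
  rw [locMu_eq, LinearEquiv.apply_symm_apply]

lemma muToL_injective' (q : Nat.Primes) (a b : MuP p)
    (hab : muToL p S q a = muToL p S q b) : a = b := by
  rw [muToL_eq, muToL_eq] at hab
  exact (muPLinearEquiv p).symm.injective ((isKummerEmb_locMu p S q).injective hab)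

lemma muToL_equivariant' (q : Nat.Primes) (g : Gl q) (m : MuP p) :
    muToL p S q (muPRep p (rl q g) m) = (Tow.unitsQpbar q).ρ g (muToL p S q m) := by
  have h := (isKummerEmb_locMu p S q).equivariant g ((muPLinearEquiv p).symm m)
  rw [← muToL_eq] at h
  rw [← h, locMu_eq]
  congr 1
  have h2 := muPLinearEquiv_equivariant p (rl q g) ((muPLinearEquiv p).symm m)
  rw [LinearEquiv.apply_symm_apply] at h2
  exact h2.symm

lemma muToL_range' (q : Nat.Primes) (b : Tow.unitsQpbar q) :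
    p • b = 0 ↔ ∃ m : MuP p, muToL p S q m = b := by
  rw [(isKummerEmb_locMu p S q).range_eq b]
  constructor
  · rintro ⟨m, rfl⟩
    exact ⟨muPLinearEquiv p m, rfl⟩
  · rintro ⟨m, rfl⟩
    exact ⟨(muPLinearEquiv p).symm m, (muToL_eq p S q m).symm⟩

/-- `μ_p → ℚ̄_qˣ` is a Kummer embedding of `muP p |_{G_q}`. -/
theorem isKummerEmb_muToL (q : Nat.Primes) :
    IsKummerEmb p (Rep.res (rl q) (muP p)) (Tow.unitsQpbar q) (muToL p S q) where
  injective := fun a b hab => muToL_injective' p S q a b hab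
  equivariant := fun g m => muToL_equivariant' p S q g m
  range_eq := fun b => muToL_range' p S q b


/-! ## 2. LKI: local Kummer injectivity -/

/-- Hilbert 90: `H¹_lc(G_q, ℚ̄_qˣ) = 0`. -/
theorem h1Vanish_unitsQpbar (q : Nat.Primes) : H1Vanish (localLevels q) (Tow.unitsQpbar q) := by
  intro f hf hlc
  obtain ⟨W, hW, hWf⟩ := hlc
  obtain ⟨a₀, ha₀⟩ := hilbert90_open q ⊤ ⟨W, hW, le_top⟩ f
    (fun s _ t _ => (mem_cocycles₁_iff f).1 hf s t) ⟨W, hW, hWf⟩
  refine ⟨a₀, ?_⟩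
  funext s
  rw [d₀₁_hom_apply]
  exact ha₀ s (Subgroup.mem_top s)

/-- **LKI.** -/
theorem locKummerInj : LocKummerInjSpec p S := by
  intro q _ x _ hx
  exact H53.mem_B2_of_ι_mem_B2 (localLevels q) (isSmooth_unitsQpbar q)
    (isPDivisible_unitsQpbar p q) (isKummerEmb_muToL p S q) (h1Vanish_unitsQpbar q) hx


/-! ## 3. LKI-Ind -/

lemma indMuToL_eq (q : Nat.Primes) (U : Subgroup _root_.Fermat.Agent.S55.PT.GQ) :
    (indMuToL p S q U : ((_root_.Fermat.Agent.S55.PT.GQ ⧸ U) →₀ MuP p) →+ ((_root_.Fermat.Agent.S55.PT.GQ ⧸ U) →₀ (Tow.unitsQpbar q))) =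
      Finsupp.mapRange.addMonoidHom (muToL p S q) := by
  apply AddMonoidHom.ext
  intro m
  change Finsupp.mapRange (K.locE q S) (map_zero _)
      (Finsupp.mapRange (K.muToE p S) (map_zero _) m) =
    Finsupp.mapRange (muToL p S q) (map_zero _) m
  ext c
  simp only [Finsupp.mapRange_apply]
  rfl

/-- `Ind_U μ_p → Ind_U ℚ̄_qˣ` is a Kummer embedding. -/
theorem isKummerEmb_indMuToL (q : Nat.Primes) (U : Subgroup _root_.Fermat.Agent.S55.PT.GQ) [U.Normal] :
    IsKummerEmb p (Rep.res (rl q) (K.indG U (muP p))) (K.ind (rl q) U (Tow.unitsQpbar q))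
      (indMuToL p S q U) := by
  have h := isKummerEmb_ind_res (rl q) U (muP p) (Tow.unitsQpbar q) (muToL p S q)
    (isKummerEmb_muToL p S q)
  rw [← indMuToL_eq] at h
  exact h

/-- **LKI-Ind.** -/
theorem locKummerInjInd : LocKummerInjIndSpec p S := by
  intro q hq U hU hUn x _ hx
  haveI := hUn
  exact H53.mem_B2_of_ι_mem_B2 (localLevels q)
    (isSmooth_ind_res (rl q) U (localLevels q) (hrl S ⟨q, hq⟩ U hU) _ (isSmooth_unitsQpbar q))
    (H323.isPDivisible_finsupp_h323 p (isPDivisible_unitsQpbar p q))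
    (isKummerEmb_indMuToL p S q U) (semiLocalH90 S ⟨q, hq⟩ U hU hUn) hx


/-! ## 4. `GO4Spec ⇐ CokerESpec` and INV-COK -/

lemma cycloChar_eq_one_of_mu (s : _root_.Fermat.Agent.S55.PT.GQ) (h : (mu p).ρ s = 1) : cycloChar p s = 1 := by
  have h1 : (mu p).ρ s (1 : ZMod p) = (1 : ZMod p) := by
    rw [h]; rfl
  have h2 : (mu p).ρ s (1 : ZMod p) = ((cycloChar p s : (ZMod p)ˣ) : ZMod p) • (1 : ZMod p) := rfl
  rw [h2, smul_eq_mul, mul_one] at h1
  exact Units.ext h1

lemma zmod_smul_eq_val_nsmul {M : Type*} [AddCommGroup M] [Module (ZMod p) M] (a : ZMod p)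
    (m : M) : a • m = a.val • m := by
  haveI : NeZero p := ⟨(Fact.out : p.Prime).ne_zero⟩
  conv_lhs => rw [← ZMod.natCast_zmod_val a]
  exact Nat.cast_smul_eq_nsmul (ZMod p) a.val m

lemma zmod_eq_zero_of_dvd_val (a : ZMod p) (h : (p : ℤ) ∣ (a.val : ℤ)) : a = 0 := by
  haveI : NeZero p := ⟨(Fact.out : p.Prime).ne_zero⟩
  have h1 : p ∣ a.val := Int.natCast_dvd_natCast.1 h
  have h2 : a.val = 0 := Nat.eq_zero_of_dvd_of_lt h1 (ZMod.val_lt a)
  exact (ZMod.val_eq_zero a).1 h2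

/-- The frozen arithmetic core `CokerESpec` (helper3, `Inv/SpecK.lean`) implies `GO4Spec`. -/
theorem go4_of_cokerE (h : CokerESpec p S) : GO4Spec p S := by
  intro hp2 hpS U hU hUn hUμ X X' hX hX'
  haveI := hUn
  have hcyc : ∀ s ∈ U, cycloChar p s = 1 := fun s hs => cycloChar_eq_one_of_mu p s (hUμ s hs)
  have hsm : ∀ v : ↥S, (localLevels v.1).IsSmooth (K.ind (rl v.1) U (Tow.unitsQpbar v.1)) :=
    fun v => isSmooth_ind_res (rl v.1) U (localLevels v.1) (hrl S v U hU) _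
      (isSmooth_unitsQpbar v.1)
  have hdiv : ∀ v : ↥S, IsPDivisible p (K.ind (rl v.1) U (Tow.unitsQpbar v.1)) :=
    fun v => H323.isPDivisible_finsupp_h323 p (isPDivisible_unitsQpbar p v.1)
  have hex : ∀ v : ↥S, ∃ m : Gl v.1 × Gl v.1 → K.indG U (muP p),
      m ∈ (localLevels v.1).Z2 (Rep.res (rl v.1) (K.indG U (muP p))) ∧
      (indMuToL p S v.1 U ∘ m - X v : Gl v.1 × Gl v.1 → K.ind (rl v.1) U (Tow.unitsQpbar v.1)) ∈
        (localLevels v.1).B2 (K.ind (rl v.1) U (Tow.unitsQpbar v.1)) := fun v =>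
    H53.exists_of_p_nsmul_mem_B2 (localLevels v.1) (H723.localNormalCofinal v.1)
      (H723.localFiniteIndex v.1) (hsm v) (hdiv v) (isKummerEmb_indMuToL p S v.1 U)
      (hX v).1 (hX v).2
  have hex' : ∀ v : ↥S, ∃ m : Gl v.1 × Gl v.1 → K.indG U (muP p),
      m ∈ (localLevels v.1).Z2 (Rep.res (rl v.1) (K.indG U (muP p))) ∧
      (indMuToL p S v.1 U ∘ m - X' v : Gl v.1 × Gl v.1 → K.ind (rl v.1) U (Tow.unitsQpbar v.1)) ∈
        (localLevels v.1).B2 (K.ind (rl v.1) U (Tow.unitsQpbar v.1)) := fun v =>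
    H53.exists_of_p_nsmul_mem_B2 (localLevels v.1) (H723.localNormalCofinal v.1)
      (H723.localFiniteIndex v.1) (hsm v) (hdiv v) (isKummerEmb_indMuToL p S v.1 U)
      (hX' v).1 (hX' v).2
  choose x hx hxX using hex
  choose x' hx' hxX' using hex'
  obtain ⟨a, b, hab, e, he, hpe, hloc⟩ := h hp2 hpS U hU hUn hcyc x x' hx hx'
  refine ⟨(a.val : ℤ), (b.val : ℤ), ?_, e, he, hpe, fun v => ?_⟩
  · rintro ⟨ha, hb⟩
    rcases hab with hab | hab
    · exact hab (zmod_eq_zero_of_dvd_val p a ha)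
    · exact hab (zmod_eq_zero_of_dvd_val p b hb)
  · have key : ((a.val : ℤ) • X v + (b.val : ℤ) • X' v -
        (fun y : Gl v.1 × Gl v.1 => (K.indLocE v.1 S U).toAddMonoidHom (e (rl v.1 y.1, rl v.1 y.2)))) =
        - ((a.val : ℤ) • (indMuToL p S v.1 U ∘ x v - X v)) -
          (b.val : ℤ) • (indMuToL p S v.1 U ∘ x' v - X' v) -
          ((K.indLocE v.1 S U ∘ e ∘ Prod.map (rl v.1) (rl v.1) :
                Gl v.1 × Gl v.1 → K.ind (rl v.1) U (Tow.unitsQpbar v.1)) -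
              indMuToL p S v.1 U ∘ (a • x v + b • x' v)) := by
      funext y
      simp only [Pi.sub_apply, Pi.add_apply, Pi.smul_apply, Pi.neg_apply, Function.comp_apply,
        map_add, zmod_smul_eq_val_nsmul, map_nsmul, natCast_zsmul, smul_sub]
      have hE : (K.indLocE v.1 S U).toAddMonoidHom (e (rl v.1 y.1, rl v.1 y.2)) =
          (K.indLocE v.1 S U) (e (Prod.map (rl v.1) (rl v.1) y)) := rfl
      rw [hE]
      abel
    rw [key]
    refine Submodule.sub_mem _ (Submodule.sub_mem _ (Submodule.neg_mem _ ?_) ?_) (hloc v)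
    · exact Submodule.smul_mem _ _ (hxX v)
    · exact Submodule.smul_mem _ _ (hxX' v)


/-- **INV-COK, frozen-interface form.**  `GlobCokerSpec` from the arithmetic core `CokerESpec`
alone (KUM, Hilbert 90, semi-local Hilbert 90, Krasner: all discharged). -/
theorem globCoker_of_cokerE (hp2 : p ≠ 2) (hpS : pPrime p ∈ S) (h : CokerESpec p S) :
    GlobCokerSpec p S :=
  globCoker_of_GO4 p S hp2 hpS (go4_of_cokerE p S h)

end Fermat.Agent.S55.Inv.H99

end
end
-- ===== PACK-END S55/Inv/CokEH99.lean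

-- ===== PACK-BEGIN S55/Inv/GO4/Spec.lean
section




/-!
# S55 / `InvSpec` / GO4: the DICTIONARY `K.AR.CokerTower → Inv.CokerESpec`, FROZEN INTERFACE
(sub-architect helper3; blueprint with proofs: `coord/S55-INV-GO4.md`)

    K.AR.CokerTower S p  ──(GO4-SHAP)──▶  FLCokerSpec p S ─┐
                                                            ├─(GO4-ASM, helper3)─▶ Inv.CokerESpec p S
    K.AR.DecUnbounded S p ──(GO4-LD)──▶  LocDescSpec p S  ─┘
                                                  (then `Inv.H99.globCoker_of_cokerE` ⇒ INV-COK)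

* `FLCokerSpec p S` (finite level, INDUCED form; finite groups and Mathlib `groupCohomology` only):
  for levels `K₀ ≤ L` and two families `t, t'` of `p`-torsion classes in
  `H²(Dec_q(L), (Gal(K₀/ℚ) →₀ L_qˣ))`, `q ∈ S`, there are `(a, b) ≢ (0, 0) mod p`, `L' ≥ L` and a
  `p`-torsion class `e ∈ H²(Gal(L'/ℚ), (Gal(K₀/ℚ) →₀ E_S(L')))` whose localisation at every `q`
  is the inflation of `a t_q + b t'_q`.
* `LocDescSpec p S` (local descent to the `S`-tower): every level-constant 2-cocycle of `G_q` with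
  values in `Ind_{K₀.U} ℚ̄_qˣ` whose class is killed by `p` is cohomologous to `locM τ` for a
  2-cocycle `τ` of some `Dec_q(L)`, `L ≥ K₀` an `S`-LEVEL, with values in `(Gal(K₀/ℚ) →₀ L_qˣ)`,
  of class killed by `p`.  (The local level system consists of ALL number fields; the point is
  that the `p`-torsion of `Br` of a local field is split by the `S`-ramified extensions, since
  `p ∈ S`: their local degrees have unbounded `p`-part.)

Leaves (producers prove `theorem … : XxxLeaf p S` in `Fermat/Agent/S55/Inv/GO4/<Leaf>H<seat>.lean`,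
namespace `Fermat.Agent.S55.Inv.GO4.H<seat>`):
  `ShapLeaf`   (GO4-SHAP)  finite Shapiro (`T.All.shapiroRecognition`) + functoriality;
  `LocDescLeaf` (GO4-LD)   KC layer (`KC.IsWCF` for `indR W ℚ̄_qˣ`, `QInf`) + orbit decomposition.
-/

set_option autoImplicit false

noncomputable section

namespace Fermat.Agent.S55.Inv.GO4

open Fermat.Agent.S55 Fermat.Agent.S55.Tow Fermat.Agent.S55.E1.Lim groupCohomology
open Fermat.Agent.S55.PT

variable (p : ℕ) (S : Finset Nat.Primes)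

/-- **GO4, finite level, induced form.** -/
def FLCokerSpec : Prop :=
  ∀ (K₀ L : Level S) (h : K₀ ≤ L) (t t' : ∀ q : S, groupCohomology (semiLoc h q.1) 2),
    (∀ q : S, p • t q = 0) → (∀ q : S, p • t' q = 0) →
    ∃ a b : ℕ, (¬ p ∣ a ∨ ¬ p ∣ b) ∧
      ∃ (L' : Level S) (h' : L ≤ L') (e : groupCohomology (indF (h.trans h') (sUnits L')) 2),
        p • e = 0 ∧
        ∀ q : S, locH2 (h.trans h') q.1 e = inflLoc h q.1 h' (a • t q + b • t' q)

/-- **Local descent to the `S`-tower.** -/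
def LocDescSpec : Prop :=
  ∀ (K₀ : Level S) (q : S)
    (X : Gl q.1 × Gl q.1 → K.ind (rl q.1) K₀.U (Tow.unitsQpbar q.1)),
    X ∈ (localLevels q.1).Z2 (K.ind (rl q.1) K₀.U (Tow.unitsQpbar q.1)) →
    p • X ∈ (localLevels q.1).B2 (K.ind (rl q.1) K₀.U (Tow.unitsQpbar q.1)) →
    ∃ (L : Level S) (h : K₀ ≤ L) (τ : L.Dec q.1 × L.Dec q.1 → (semiLoc h q.1).V),
      τ ∈ cocycles₂ (semiLoc h q.1) ∧ p • τ ∈ coboundaries₂ (semiLoc h q.1) ∧
      X - locM h q.1 τ ∈ (localLevels q.1).B2 (K.ind (rl q.1) K₀.U (Tow.unitsQpbar q.1))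

/-- leaf **GO4-SHAP**: tower form (subgroups, `J = ∏ Coind`) ⇒ induced form. -/
def ShapLeaf : Prop := K.AR.CokerTower S p → FLCokerSpec p S

/-- leaf **GO4-LD**: local descent, from the unboundedness of the local `p`-degrees in the
`S`-tower (`K.AR.DecUnbounded`, leaf AR-DEG) and the closed local theory (layers KC, L). -/
def LocDescLeaf : Prop := p.Prime → K.AR.DecUnbounded S p → LocDescSpec p S

/-- **GO4-ASM** (helper3, `Inv/GO4/Asm.lean`): the assembly, exact type. -/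
def AsmSpec : Prop :=
  ∀ [Fact p.Prime], FLCokerSpec p S → LocDescSpec p S → Inv.CokerESpec p S

end Fermat.Agent.S55.Inv.GO4

end

end
-- ===== PACK-END S55/Inv/GO4/Spec.lean

-- ===== PACK-BEGIN S55/Inv/GO4/ShapH593.lean
section





/-!
# S55 / `InvSpec` / GO4-SHAP : `shapLeaf : ShapLeaf p S`  (helper593)

`K.AR.CokerTower S p → FLCokerSpec p S`  (finite Shapiro, `coord/S55-INV-GO4.md` §2).

For levels `K₀ ≤ L` (`h`), `Q = Gal(K₀/ℚ)`, `H = Gal(L/K₀) = ker (proj h)`: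

* `alpha h H hH X n : Hⁿ(Gal(L/ℚ), (Q →₀ X)) → Hⁿ(H, X)` (restriction + coefficient at `1 ∈ Q`),
  bijective (`alpha_bijective`), natural in `X` (`alpha_coe`) and in the level (`alpha_infl`);
* `beta h q n : Hⁿ(Gal(L/ℚ), (Q →₀ J_q(L))) → Hⁿ(Dec_q(L), (Q →₀ L_qˣ))` (restriction along
  `decHom` + coefficientwise evaluation at `1`), bijective (`beta_bijective`), compatible with the
  localisation (`beta_diag`) and the inflations (`beta_infl`).
-/

set_option autoImplicit false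
set_option linter.unusedSectionVars false
set_option linter.style.haveILetI false

open CategoryTheory groupCohomology

noncomputable section

namespace Fermat.Agent.S55.Inv.GO4.H593

open Fermat.Agent.S55 Fermat.Agent.S55.Tow Fermat.Agent.S55.E1.Lim Fermat.Agent.S55.Inv.GO4
open Fermat.Agent.S55.K.AR

attribute [local instance 10000] Rep.hV2

variable {S : Finset Nat.Primes}

section Tower

variable {K₀ L : Level S} (h : K₀ ≤ L)

lemma proj_surjective : Function.Surjective (Level.proj h) := by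
  intro g
  induction g using QuotientGroup.induction_on with
  | H g => exact ⟨QuotientGroup.mk g, rfl⟩

/-- `H` is the kernel of `Gal(L/ℚ) → Gal(K₀/ℚ)`. -/
def IsKer (H : Subgroup L.Gal) : Prop := ∀ g, g ∈ H ↔ Level.proj h g = 1

lemma isKer_relGal : IsKer h (Level.relGal h) := fun _ => MonoidHom.mem_ker

lemma isKer_up {L' : Level S} (h' : L ≤ L') {H : Subgroup L.Gal} (hH : IsKer h H) :
    IsKer (h.trans h') (up h' H) := fun g => by
  rw [← proj_proj h h' g, ← hH]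
  exact Subgroup.mem_comap

/-! ### `α` -/

/-- coefficient at `1 ∈ Gal(K₀/ℚ)` -/
def alphaC (H : Subgroup L.Gal) (hH : IsKer h H) (X : Rep.{0} ℤ L.Gal) :
    Rep.res H.subtype (indF h X) ⟶ T.resSub X H :=
  ev1Q (Level.proj h) H (fun g hg => (hH g).1 hg) X

/-- `α_X : Hⁿ(Gal(L/ℚ), (Q →₀ X)) → Hⁿ(H, X)`. -/
def alpha (H : Subgroup L.Gal) (hH : IsKer h H) (X : Rep.{0} ℤ L.Gal) (n : ℕ) :
    groupCohomology (indF h X) n →ₗ[ℤ] Hn H X n :=
  (groupCohomology.map H.subtype (alphaC h H hH X) n).hom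

theorem alpha_bijective (H : Subgroup L.Gal) (hH : IsKer h H) (X : Rep.{0} ℤ L.Gal) (n : ℕ) :
    Function.Bijective (alpha h H hH X n) :=
  ev1Q_bijective (Level.proj h) (proj_surjective h) H hH X n

/-- `α` is natural in the coefficients. -/
theorem alpha_coe (H : Subgroup L.Gal) (hH : IsKer h H) {X Y : Rep.{0} ℤ L.Gal} (f : X ⟶ Y)
    (n : ℕ) (x : groupCohomology (indF h X) n) :
    alpha h H hH Y n ((T.coeffMap (indFMap h f) n).hom x) = coe H f n (alpha h H hH X n x) :=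
  H998.map_map_eq (A := indF h X) (B := indF h Y) (B' := T.resSub X H) (C := T.resSub Y H)
    (MonoidHom.id L.Gal) H.subtype H.subtype (MonoidHom.id ↥H)
    (indFMap h f) (alphaC h H hH Y) (alphaC h H hH X) ((Rep.resFunctor H.subtype).map f)
    (fun _ => rfl) (fun _ => rfl) n x

/-- `α` commutes with inflation. -/
theorem alpha_infl {L' : Level S} (h' : L ≤ L') (H : Subgroup L.Gal) (hH : IsKer h H)
    {X : Rep.{0} ℤ L.Gal} {X' : Rep.{0} ℤ L'.Gal} (t : Rep.res (Level.proj h') X ⟶ X')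
    (n : ℕ) (x : groupCohomology (indF h X) n) :
    alpha (h.trans h') (up h' H) (isKer_up h h' hH) X' n
        ((groupCohomology.map (Level.proj h') (indFTr h h' t) n).hom x) =
      infUp h' H t n (alpha h H hH X n x) :=
  H998.map_map_eq (A := indF h X) (B := indF (h.trans h') X') (B' := T.resSub X H)
    (C := T.resSub X' (up h' H))
    (Level.proj h') (up h' H).subtype H.subtype (projSub (Level.proj h') H)
    (indFTr h h' t) (alphaC (h.trans h') (up h' H) (isKer_up h h' hH) X') (alphaC h H hH X)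
    (semiSub (Level.proj h') H t)
    (fun _ => rfl) (fun _ => rfl) n x

/-! ### `β` -/

/-- coefficientwise evaluation at `1 ∈ Gal(L/ℚ)` -/
def betaC (q : Nat.Primes) : Rep.res (L.decHom q) (indF h (L.J q)) ⟶ semiLoc h q :=
  evC (Level.proj h) (L.decHom q) (L.locUnits q)

/-- `β_q : Hⁿ(Gal(L/ℚ), (Q →₀ J_q(L))) → Hⁿ(Dec_q(L), (Q →₀ L_qˣ))`. -/
def beta (q : Nat.Primes) (n : ℕ) :
    groupCohomology (indF h (L.J q)) n →ₗ[ℤ] groupCohomology (semiLoc h q) n :=
  (groupCohomology.map (L.decHom q) (betaC h q) n).hom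

theorem beta_bijective (q : Nat.Primes) (n : ℕ) : Function.Bijective (beta h q n) :=
  evC_bijective (Level.proj h) (L.decHom q) (L.decHom_injective q) (L.locUnits q) n

/-- `β ∘ (Ind (diag_q ∘ incl))_* = loc_q`. -/
theorem beta_diag (q : Nat.Primes) (e : groupCohomology (indF h (sUnits L)) 2) :
    beta h q 2 ((T.coeffMap (indFMap h (sIncl L ≫ L.diag q)) 2).hom e) = locH2 h q e :=
  H998.map_comp_apply (X := indF h (sUnits L)) (X' := indF h (L.J q)) (X'' := semiLoc h q)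
    (MonoidHom.id L.Gal) (L.decHom q) (L.decHom q)
    (indFMap h (sIncl L ≫ L.diag q)) (betaC h q) (locF h q) (fun _ => rfl)
    (fun x => by
      apply dInd_ext
      intro y
      show L.embFun q ((sIncl L).hom (toFs _ _ x y)) =
        L.embFun q (L.units.ρ 1 ((sIncl L).hom (toFs _ _ x y)))
      rw [map_one]
      rfl) 2 e

/-- `β` commutes with inflation. -/
theorem beta_infl {L' : Level S} (h' : L ≤ L') (q : Nat.Primes)
    (z : groupCohomology (indF h (L.J q)) 2) :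
    beta (h.trans h') q 2
        ((groupCohomology.map (Level.proj h') (indFTr h h' (Level.trJ h' q)) 2).hom z) =
      inflLoc h q h' (beta h q 2 z) :=
  H998.map_map_eq (A := indF h (L.J q)) (B := indF (h.trans h') (L'.J q))
    (B' := semiLoc h q) (C := semiLoc (h.trans h') q)
    (Level.proj h') (L'.decHom q) (L.decHom q) (Level.projDec h' q)
    (indFTr h h' (Level.trJ h' q)) (betaC (h.trans h') q) (betaC h q) (semiLocTr h q h')
    (fun d => Level.proj_decHom h' q d)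
    (fun a => by
      apply dInd_ext
      intro y
      show Level.inclLoc h' q (L.Jeval q (toFs _ _ a y) (Level.proj h' 1)) =
        Level.inclLoc h' q (L.Jeval q (toFs _ _ a y) 1)
      rw [map_one]) 2 z

end Tower


/-! ### The product `J = ∏_q J_q` -/

section Prod

variable {L : Level S} (H : Subgroup L.Gal)

/-- the projection `J(L) ⟶ J_q(L)` -/
def pj (L : Level S) (q : S) : Jtot L ⟶ L.J q.1 := piProj (fun q : S => L.J q.1) q

lemma pj_apply (L : Level S) (q : S) (x : (Jtot L).V) : (pj L q).hom x = piTo x q := rfl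

/-- `H²(H, J(L)) → ∏_q H²(H, J_q(L))` is bijective. -/
theorem prod_bijective (n : ℕ) :
    Function.Bijective (fun (x : Hn H (Jtot L) n) (q : S) => coe H (pj L q) n x) :=
  T.H635.finiteProd ℤ ↥H S (fun q : S => T.resSub (L.J q.1) H) (T.resSub (Jtot L) H)
    (fun q => (Rep.resFunctor H.subtype).map (pj L q))
    Function.bijective_id n

/-- `coe` is functorial. -/
theorem coe_comp_apply {A B C : Rep.{0} ℤ L.Gal} (f : A ⟶ B) (g : B ⟶ C) (n : ℕ)
    (x : Hn H A n) : coe H g n (coe H f n x) = coe H (f ≫ g) n x :=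
  H998.map_comp_apply (X := T.resSub A H) (X' := T.resSub B H) (X'' := T.resSub C H)
    (MonoidHom.id ↥H) (MonoidHom.id ↥H) (MonoidHom.id ↥H)
    ((Rep.resFunctor H.subtype).map f) ((Rep.resFunctor H.subtype).map g)
    ((Rep.resFunctor H.subtype).map (f ≫ g)) (fun _ => rfl) (fun _ => rfl) n x

end Prod

/-! ### The leaf -/

/-- **GO4-SHAP.** -/
theorem shapLeaf (p : ℕ) (S : Finset Nat.Primes) : ShapLeaf p S := by
  intro hCT K₀ L h t t' ht ht'
  have hH : IsKer h (Level.relGal h) := isKer_relGal h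
  -- preimages under `β`
  have hβ := fun q : S => beta_bijective h q.1 2
  choose u hu using fun q : S => (hβ q).2 (t q)
  choose u' hu' using fun q : S => (hβ q).2 (t' q)
  have hpu : ∀ q : S, p • u q = 0 := fun q =>
    (hβ q).1 (by rw [map_nsmul, hu, ht, map_zero])
  have hpu' : ∀ q : S, p • u' q = 0 := fun q =>
    (hβ q).1 (by rw [map_nsmul, hu', ht', map_zero])
  -- the classes `x_q`, `x'_q` and their products
  have hprod := prod_bijective (Level.relGal h) 2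
  obtain ⟨x, hx⟩ := hprod.2 (fun q : S => alpha h _ hH (L.J q.1) 2 (u q))
  obtain ⟨x', hx'⟩ := hprod.2 (fun q : S => alpha h _ hH (L.J q.1) 2 (u' q))
  have hxq : ∀ q : S, coe (Level.relGal h) (pj L q) 2 x =
      alpha h _ hH (L.J q.1) 2 (u q) := fun q => congrFun hx q
  have hxq' : ∀ q : S, coe (Level.relGal h) (pj L q) 2 x' =
      alpha h _ hH (L.J q.1) 2 (u' q) := fun q => congrFun hx' q
  have hpx : p • x = 0 := by
    apply hprod.1
    funext q
    show coe (Level.relGal h) (pj L q) 2 (p • x) =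
      coe (Level.relGal h) (pj L q) 2 0
    rw [map_nsmul, hxq, ← map_nsmul, hpu, map_zero, map_zero]
  have hpx' : p • x' = 0 := by
    apply hprod.1
    funext q
    show coe (Level.relGal h) (pj L q) 2 (p • x') =
      coe (Level.relGal h) (pj L q) 2 0
    rw [map_nsmul, hxq', ← map_nsmul, hpu', map_zero, map_zero]
  -- the tower statement
  obtain ⟨a, b, hab, L', h', y, hy, hyx⟩ := hCT L (Level.relGal h) x x' hpx hpx'
  have hH' : IsKer (h.trans h') (up h' (Level.relGal h)) := isKer_up h h' hH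
  have hα' := alpha_bijective (h.trans h') _ hH' (sUnits L') 2
  obtain ⟨e, he⟩ := hα'.2 y
  refine ⟨a, b, hab, L', h', e, hα'.1 (by rw [map_nsmul, he, hy, map_zero]), fun q => ?_⟩
  have hαJ := alpha_bijective (h.trans h') _ hH' (L'.J q.1) 2
  have h1 : (T.coeffMap (indFMap (h.trans h') (sIncl L' ≫ L'.diag q.1)) 2).hom e =
      (groupCohomology.map (Level.proj h') (indFTr h h' (Level.trJ h' q.1)) 2).hom
        (a • u q + b • u' q) := by
    apply hαJ.1
    rw [alpha_coe, he, alpha_infl h h' _ hH]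
    have h2 : coe (up h' (Level.relGal h)) (sIncl L' ≫ L'.diag q.1) 2 y =
        coe (up h' (Level.relGal h)) (pj L' q) 2
          (coe (up h' (Level.relGal h)) (diagTot L') 2 y) :=
      (coe_comp_apply (up h' (Level.relGal h)) (diagTot L')
        (pj L' q) 2 y).symm
    rw [h2, hyx, H998.coe_infUp h' (Level.relGal h) (pj L q)
      (pj L' q) (trJtot h') (Level.trJ h' q.1) (fun _ => rfl) 2]
    congr 1
    rw [map_add, map_nsmul, map_nsmul, map_add, map_nsmul, map_nsmul, hxq, hxq']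
  rw [← beta_diag, h1, beta_infl, map_add, map_nsmul, map_nsmul, hu, hu']

end Fermat.Agent.S55.Inv.GO4.H593

end

end
-- ===== PACK-END S55/Inv/GO4/ShapH593.lean

-- ===== PACK-BEGIN S55/Inv/GO4/Asm.lean
section




/-!
# S55 / GO4 dictionary: the ASSEMBLY (helper3)

`go4_of : FLCokerSpec p S → LocDescSpec p S → Inv.H99.GO4Spec p S`, hence
`globCoker_of_fl : p ≠ 2 → pPrime p ∈ S → FLCokerSpec p S → LocDescSpec p S → Inv.GlobCokerSpec p S`
and, with the two leaves,
`globCoker_of_tower : … → ShapLeaf p S → LocDescLeaf p S → K.AR.CokerTower S p →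
   K.AR.DecUnbounded S p → Inv.GlobCokerSpec p S`.
-/

set_option autoImplicit false
set_option maxHeartbeats 400000
set_option linter.unusedSectionVars false

noncomputable section

namespace Fermat.Agent.S55.Inv.GO4

open Fermat.Agent.S55 Fermat.Agent.S55.Tow Fermat.Agent.S55.E1.Lim groupCohomology
open Fermat.Agent.S55.PT CategoryTheory

variable {S : Finset Nat.Primes}

/-! ## 1. The levels are directed -/

/-- the compositum of two levels -/
def lSup (L L' : Level S) : Level S where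
  F := L.F ⊔ L'.F
  unram := L.unram.sup L'.unram
  normalU := by
    rw [IntermediateField.fixingSubgroup_sup]
    haveI := L.normalU
    haveI := L'.normalU
    exact Subgroup.normal_inf_normal _ _

lemma le_lSup_left (L L' : Level S) : L ≤ lSup L L' :=
  show L.F ≤ L.F ⊔ L'.F from le_sup_left

lemma le_lSup_right (L L' : Level S) : L' ≤ lSup L L' :=
  show L'.F ≤ L.F ⊔ L'.F from le_sup_right

lemma exists_level_ge {ι : Type} [Finite ι] (f : ι → Level S) (L₀ : Level S) :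
    ∃ L : Level S, L₀ ≤ L ∧ ∀ i, f i ≤ L := by
  haveI : Nonempty (Level S) := ⟨L₀⟩
  haveI : IsDirectedOrder (Level S) :=
    ⟨fun a a' => ⟨lSup a a', le_lSup_left a a', le_lSup_right a a'⟩⟩
  obtain ⟨M, hM⟩ := Finite.exists_le f
  exact ⟨lSup L₀ M, le_lSup_left L₀ M, fun i => (hM i).trans (le_lSup_right L₀ M)⟩

/-! ## 2. Classes and cocycles -/

section Coh

variable {G H : Type} [Group G] [Group H] {A : Rep.{0} ℤ H} {B : Rep.{0} ℤ G}
  (f : G →* H) (φ : Rep.res f A ⟶ B)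

lemma map_H2π (x : cocycles₂ A) :
    (groupCohomology.map f φ 2).hom (H2π A x) = H2π B (mapCocycles₂ f φ x) :=
  H2π_comp_map_apply f φ x

lemma mapCocycles₂_fun (x : cocycles₂ A) :
    (⇑(mapCocycles₂ f φ x) : G × G → B) = fun g => φ.hom (x (f g.1, f g.2)) := rfl

lemma exists_H2π (e : groupCohomology A 2) : ∃ ε : cocycles₂ A, H2π A ε = e :=
  H2_induction_on (C := fun e => ∃ ε : cocycles₂ A, H2π A ε = e) e (fun ε => ⟨ε, rfl⟩)

lemma nsmul_mem_coboundaries₂_of (n : ℕ) (x : cocycles₂ A) (h : n • H2π A x = 0) :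
    n • (⇑x : H × H → A) ∈ coboundaries₂ A := by
  rw [← map_nsmul] at h
  exact (H2π_eq_zero_iff (n • x)).1 h

lemma nsmul_H2π_eq_zero (n : ℕ) (x : cocycles₂ A)
    (h : n • (⇑x : H × H → A) ∈ coboundaries₂ A) : n • H2π A x = 0 := by
  rw [← map_nsmul]
  exact (H2π_eq_zero_iff (n • x)).2 h

end Coh

/-! ## 3. The assembly -/

lemma comb_eq {M : Type} [AddCommGroup M] (a b : ℕ) (x x' y t t' : M) :
    (a : ℤ) • x + (b : ℤ) • x' - y =
      (a : ℤ) • (x - t) + (b : ℤ) • (x' - t') - (y - (a • t + b • t')) := by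
  rw [smul_sub, smul_sub, natCast_zsmul t a, natCast_zsmul t' b]
  abel

theorem go4_core (p : ℕ) (S : Finset Nat.Primes)
    (hFL : FLCokerSpec p S) (hLD : LocDescSpec p S) (K₀ : Level S)
    (X X' : ∀ v : ↥S, Gl v.1 × Gl v.1 → BLoc K₀ v.1)
    (hX : ∀ v : ↥S, X v ∈ (localLevels v.1).Z2 (BLoc K₀ v.1) ∧
      p • X v ∈ (localLevels v.1).B2 (BLoc K₀ v.1))
    (hX' : ∀ v : ↥S, X' v ∈ (localLevels v.1).Z2 (BLoc K₀ v.1) ∧
      p • X' v ∈ (localLevels v.1).B2 (BLoc K₀ v.1)) :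
    ∃ a b : ℤ, ¬ ((p : ℤ) ∣ a ∧ (p : ℤ) ∣ b) ∧
      ∃ y : Tow.GQ × Tow.GQ → EGlob K₀, y ∈ (globalLevels S).Z2 (EGlob K₀) ∧
        p • y ∈ (globalLevels S).B2 (EGlob K₀) ∧
        ∀ v : ↥S, (a • X v + b • X' v -
          (fun x : Gl v.1 × Gl v.1 => (K.indLocE v.1 S K₀.U).toAddMonoidHom
            (y (rl v.1 x.1, rl v.1 x.2)))) ∈ (localLevels v.1).B2 (BLoc K₀ v.1) := by
  -- local descent
  choose L₁ h₁ τ₁ hc₁ hp₁ hX₁ using fun v : ↥S => hLD K₀ v (X v) (hX v).1 (hX v).2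
  choose L₂ h₂ τ₂ hc₂ hp₂ hX₂ using fun v : ↥S => hLD K₀ v (X' v) (hX' v).1 (hX' v).2
  obtain ⟨L, hK, hL⟩ := exists_level_ge (fun i : ↥S ⊕ ↥S => Sum.elim L₁ L₂ i) K₀
  have hL₁ : ∀ v, L₁ v ≤ L := fun v => hL (Sum.inl v)
  have hL₂ : ∀ v, L₂ v ≤ L := fun v => hL (Sum.inr v)
  -- the cocycles inflated to `L`
  let c₁ : ∀ v : ↥S, cocycles₂ (semiLoc hK v.1) := fun v =>
    mapCocycles₂ (Level.projDec (hL₁ v) v.1) (semiLocTr (h₁ v) v.1 (hL₁ v)) ⟨τ₁ v, hc₁ v⟩
  let c₂ : ∀ v : ↥S, cocycles₂ (semiLoc hK v.1) := fun v =>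
    mapCocycles₂ (Level.projDec (hL₂ v) v.1) (semiLocTr (h₂ v) v.1 (hL₂ v)) ⟨τ₂ v, hc₂ v⟩
  have hc₁t : ∀ v : ↥S, p • H2π (semiLoc hK v.1) (c₁ v) = 0 := fun v => by
    have h0 : p • H2π (semiLoc (h₁ v) v.1) ⟨τ₁ v, hc₁ v⟩ = 0 :=
      nsmul_H2π_eq_zero p ⟨τ₁ v, hc₁ v⟩ (hp₁ v)
    have h1 := map_H2π (Level.projDec (hL₁ v) v.1) (semiLocTr (h₁ v) v.1 (hL₁ v))
      ⟨τ₁ v, hc₁ v⟩
    show p • H2π (semiLoc ((h₁ v).trans (hL₁ v)) v.1)
      (mapCocycles₂ (Level.projDec (hL₁ v) v.1) (semiLocTr (h₁ v) v.1 (hL₁ v))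
        ⟨τ₁ v, hc₁ v⟩) = 0
    rw [← h1, ← map_nsmul, h0, map_zero]
  have hc₂t : ∀ v : ↥S, p • H2π (semiLoc hK v.1) (c₂ v) = 0 := fun v => by
    have h0 : p • H2π (semiLoc (h₂ v) v.1) ⟨τ₂ v, hc₂ v⟩ = 0 :=
      nsmul_H2π_eq_zero p ⟨τ₂ v, hc₂ v⟩ (hp₂ v)
    have h1 := map_H2π (Level.projDec (hL₂ v) v.1) (semiLocTr (h₂ v) v.1 (hL₂ v))
      ⟨τ₂ v, hc₂ v⟩
    show p • H2π (semiLoc ((h₂ v).trans (hL₂ v)) v.1)
      (mapCocycles₂ (Level.projDec (hL₂ v) v.1) (semiLocTr (h₂ v) v.1 (hL₂ v))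
        ⟨τ₂ v, hc₂ v⟩) = 0
    rw [← h1, ← map_nsmul, h0, map_zero]
  -- the finite-level statement
  obtain ⟨a, b, hab, L', h', e, hpe, hloc⟩ :=
    hFL K₀ L hK (fun v => H2π (semiLoc hK v.1) (c₁ v)) (fun v => H2π (semiLoc hK v.1) (c₂ v))
      hc₁t hc₂t
  obtain ⟨ε, rfl⟩ := exists_H2π e
  have hεp : p • (⇑ε : L'.Gal × L'.Gal → (indF (hK.trans h') (sUnits L')).V) ∈
      coboundaries₂ (indF (hK.trans h') (sUnits L')) := nsmul_mem_coboundaries₂_of p ε hpe
  have hyZ : infE (hK.trans h') ⇑ε ∈ (globalLevels S).Z2 (EGlob K₀) :=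
    infE_mem_Z2 (hK.trans h') ε.2
  have hyB : p • infE (hK.trans h') ⇑ε ∈ (globalLevels S).B2 (EGlob K₀) := by
    rw [← infE_nsmul]
    exact infE_mem_B2 (hK.trans h') hεp
  have hab' : ¬ ((p : ℤ) ∣ (a : ℤ) ∧ (p : ℤ) ∣ (b : ℤ)) := by
    rintro ⟨ha, hb⟩
    rcases hab with h | h
    · exact h (Int.natCast_dvd_natCast.1 ha)
    · exact h (Int.natCast_dvd_natCast.1 hb)
  have hyloc : ∀ v : ↥S, (a : ℤ) • X v + (b : ℤ) • X' v -
      (fun x : Gl v.1 × Gl v.1 => (K.indLocE v.1 S K₀.U).toAddMonoidHom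
        (infE (hK.trans h') ⇑ε (rl v.1 x.1, rl v.1 x.2))) ∈
      (localLevels v.1).B2 (BLoc K₀ v.1) := by
    intro v
    -- localisation at `v`
    have e1 : (fun x : Gl v.1 × Gl v.1 => (K.indLocE v.1 S K₀.U).toAddMonoidHom
        (infE (hK.trans h') ⇑ε (rl v.1 x.1, rl v.1 x.2))) =
        locM (hK.trans h') v.1 (fun d : L'.Dec v.1 × L'.Dec v.1 =>
          (locF (hK.trans h') v.1).hom (ε (L'.decHom v.1 d.1, L'.decHom v.1 d.2))) :=
      indLocE_infE (hK.trans h') v.1 ⇑ε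
    have e2 : H2π (semiLoc (hK.trans h') v.1)
          (mapCocycles₂ (L'.decHom v.1) (locF (hK.trans h') v.1) ε) =
        H2π (semiLoc (hK.trans h') v.1)
          (mapCocycles₂ (Level.projDec h' v.1) (semiLocTr hK v.1 h')
            (a • c₁ v + b • c₂ v)) := by
      rw [← map_H2π, ← map_H2π, map_add, map_nsmul, map_nsmul]
      exact hloc v
    have e3 := locM_mem_B2 (hK.trans h') v.1 ((H2π_eq_iff _ _).1 e2)
    rw [locM_sub, mapCocycles₂_fun, mapCocycles₂_fun] at e3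
    have s2 : (⇑(a • c₁ v + b • c₂ v) : L.Dec v.1 × L.Dec v.1 → (semiLoc hK v.1).V) =
        a • ⇑(c₁ v) + b • ⇑(c₂ v) := rfl
    have s3 : locM hK v.1 ⇑(c₁ v) = locM (h₁ v) v.1 (τ₁ v) := by
      have := mapCocycles₂_fun (Level.projDec (hL₁ v) v.1) (semiLocTr (h₁ v) v.1 (hL₁ v))
        ⟨τ₁ v, hc₁ v⟩
      show locM hK v.1 ⇑(mapCocycles₂ (Level.projDec (hL₁ v) v.1)
        (semiLocTr (h₁ v) v.1 (hL₁ v)) ⟨τ₁ v, hc₁ v⟩) = _
      rw [this]
      exact locM_infl (h₁ v) v.1 (hL₁ v) (τ₁ v)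
    have s4 : locM hK v.1 ⇑(c₂ v) = locM (h₂ v) v.1 (τ₂ v) := by
      have := mapCocycles₂_fun (Level.projDec (hL₂ v) v.1) (semiLocTr (h₂ v) v.1 (hL₂ v))
        ⟨τ₂ v, hc₂ v⟩
      show locM hK v.1 ⇑(mapCocycles₂ (Level.projDec (hL₂ v) v.1)
        (semiLocTr (h₂ v) v.1 (hL₂ v)) ⟨τ₂ v, hc₂ v⟩) = _
      rw [this]
      exact locM_infl (h₂ v) v.1 (hL₂ v) (τ₂ v)
    rw [locM_infl hK v.1 h' ⇑(a • c₁ v + b • c₂ v), s2, locM_add, locM_nsmul, locM_nsmul, s3, s4,
      ← e1] at e3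
    -- combine
    have f1 := ((localLevels v.1).B2 (BLoc K₀ v.1)).smul_mem (a : ℤ) (hX₁ v)
    have f2 := ((localLevels v.1).B2 (BLoc K₀ v.1)).smul_mem (b : ℤ) (hX₂ v)
    have f3 := ((localLevels v.1).B2 (BLoc K₀ v.1)).sub_mem
      (((localLevels v.1).B2 (BLoc K₀ v.1)).add_mem f1 f2) e3
    rw [comb_eq a b (X v) (X' v) _ (locM (h₁ v) v.1 (τ₁ v)) (locM (h₂ v) v.1 (τ₂ v))]
    exact f3
  have hy : ∃ y : Tow.GQ × Tow.GQ → EGlob K₀, y = infE (hK.trans h') ⇑ε := ⟨_, rfl⟩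
  obtain ⟨y, hy⟩ := hy
  rw [← hy] at hyZ hyB hyloc
  exact ⟨(a : ℤ), (b : ℤ), hab', y, hyZ, hyB, hyloc⟩

/-- **GO4 from the finite-level statements.** -/
theorem go4_of (p : ℕ) [Fact p.Prime] (S : Finset Nat.Primes)
    (hFL : FLCokerSpec p S) (hLD : LocDescSpec p S) : Inv.H99.GO4Spec p S := by
  intro _hp2 _hpS U hU hUn _hμ X X' hX hX'
  obtain ⟨F, hF, rfl⟩ := hU
  exact go4_core p S hFL hLD ⟨F, hF, hUn⟩ X X' hX hX'

/-- **INV-COK from the finite-level statements.** -/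
theorem globCoker_of_fl (p : ℕ) [Fact p.Prime] (S : Finset Nat.Primes) (hp2 : p ≠ 2)
    (hpS : ExtCitation.pPrime p ∈ S) (hFL : FLCokerSpec p S) (hLD : LocDescSpec p S) :
    Inv.GlobCokerSpec p S :=
  Inv.H99.globCoker_of_GO4 p S hp2 hpS (go4_of p S hFL hLD)

/-- **INV-COK from the tower** (modulo the two leaves GO4-SHAP, GO4-LD). -/
theorem globCoker_of_tower (p : ℕ) [Fact p.Prime] (S : Finset Nat.Primes) (hp2 : p ≠ 2)
    (hpS : ExtCitation.pPrime p ∈ S) (hShap : ShapLeaf p S) (hLDL : LocDescLeaf p S)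
    (hCok : K.AR.CokerTower S p) (hDeg : K.AR.DecUnbounded S p) :
    Inv.GlobCokerSpec p S :=
  globCoker_of_fl p S hp2 hpS (hShap hCok) (hLDL (Fact.out : p.Prime) hDeg)

end Fermat.Agent.S55.Inv.GO4

end

end
-- ===== PACK-END S55/Inv/GO4/Asm.lean

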