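import Fermat.Agent.Pack.S56.E19L2
import Fermat.Agent.Pack.S56.E17L2
import Fermat.Agent.Pack.S56.E17L3
import Fermat.Agent.Pack.S56.E17L1
import Fermat.Agent.Pack.S56.E18L1
import Fermat.Agent.Pack.S56.E19L0
import Fermat.Agent.Pack.S56.E1L2
import Fermat.Agent.Pack.S56.E1L3
import Fermat.Agent.Pack.S56.E7L3
import Fermat.Agent.Pack.S56.E10L0
import Fermat.Agent.Pack.S56.E13L0
import Fermat.Agent.Pack.S56.E5L3
import Fermat.Agent.Pack.S56.E7L2
import Fermat.Agent.Pack.S56.E13L3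
import Fermat.Agent.Pack.S56.E11L3
import Fermat.Agent.Pack.S56.E6L1
import Fermat.Agent.Pack.S56.E15L0
import Fermat.Agent.Pack.S56.E6L0
import Fermat.Agent.Pack.S56.E4L0
import Fermat.Agent.Pack.S56.E19L1
import Fermat.Agent.Pack.S56.E16L1
import Fermat.Agent.Pack.S56.E19L3
import Fermat.Agent.Pack.S56.E5L2
import Fermat.Agent.Pack.S56.E18L3

-- ===== PACK-BEGIN S56/RQ/SubTop.lean
section


/-!
# Row S56 — REC-Q-SUB: adapters on top of `RQ/GlueSub.lean` (helper554)

* `plainRecipG_of_plainRecip : PlainRecipStatement → PlainRecipGStatement` (RECIP ⇒ RECIP-G; RECIP is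
  `RQ/RecipH14.lean`, `H14.plainRecip_of`, from S55's `InvSpec`);
* `recQSub_of' : RECIP → FRAME → LINE → NONDEG → URCUP → LOCTRIV → COBCUP → CONJ → GLOBZ-SUB →
  H716.RecQSubStatement`.
-/

set_option autoImplicit false

open Polynomial IsLocalRing

noncomputable section

namespace Fermat.Agent.S56.RQ

open Fermat.Agent.S56 Fermat.Agent.S56.H716

/-- RECIP (linear invariants on all 2-cochains) implies RECIP-G (invariants on global
2-cocycles). -/
theorem plainRecipG_of_plainRecip (h : PlainRecipStatement) : PlainRecipGStatement := by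
  intro k _ _ p _ hp hp2 Sg hpSg hSg
  obtain ⟨Pv, inv, hPv, hcob, hinj, hrec⟩ := h k p hp hp2 Sg hpSg hSg
  refine ⟨Pv, fun v z => inv v z, hPv, ?_, ?_, ?_, ?_, hrec⟩
  · intro v _ z z' _ _
    exact map_add _ _ _
  · intro v _ r z _
    simp only [map_smul, smul_eq_mul]
  · intro v hv z _ hz
    exact hcob v hv z hz
  · intro v hv _ hdvd z hz h0
    obtain ⟨hc, L, hL, -, hlev⟩ := hz
    exact hinj v hv hdvd z
      (fun σ _ τ _ υ _ a ha =>
        hc σ (Subgroup.mem_top _) τ (Subgroup.mem_top _) υ (Subgroup.mem_top _) a ha)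
      ⟨L, hL, fun σ _ τ _ s _ s' _ hs hs' => hlev σ τ s s' hs hs'⟩ h0

/-- **REC-Q-SUB from the leaves**, with RECIP in the form of `RQ/Spec.lean`. -/
theorem recQSub_of' (hR : PlainRecipStatement) (hF : FrameStatement) (hL : LineStatement)
    (hN : NondegStatement) (hU : UrCupStatement) (hT : LocTrivTwStatement)
    (hC : CobCupStatement) (hJ : ConjStatement) (hG : GlobZSubStatement) :
    H716.RecQSubStatement :=
  recQSub_of (plainRecipG_of_plainRecip hR) hF hL hN hU hT hC hJ hG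

end Fermat.Agent.S56.RQ

end

end
-- ===== PACK-END S56/RQ/SubTop.lean

-- ===== PACK-BEGIN S56/RQ/Final.lean
section










/-!
# Row S56 — REC-Q-SUB: assembly of the RQ route (helper554)

All leaves of `RQ/Spec.lean` + `RQ/SpecSub.lean` which are on main are plugged into
`recQSub_of'`:

| leaf | proof |
|---|---|
| RECIP | `H554.plainRecip_of_weak₁` (helper14's bridge), from `WeakInvInput₁` (S55) |
| FRAME, NONDEG, GEN | `H554.frame`, `H554.nondeg`, `H554.gen` |
| LINE | `H454.line` (also `H275.line`) |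
| LOCTRIV | `H514.locTrivTw_of` |
| COBCUP | `H475.cobCup` |
| CONJ | `H880.conjStatement` |
| GLOBZ-SUB | `H554.globZSub` (variant of `H934.globZ`) |
| URCUP | `H475.urCup` |

Result: `recQSub : WeakInvInput₁ → H716.RecQSubStatement` — REC-Q-SUB is CLOSED modulo the weak
invariant package of S55 (`∃ inv : PT.InvFamily p S, PT.RecipSpec inv ∧ inv v injective for
`v ≡ 1 mod p`, `v ≠ p`); `recQSub_of_invSpec` from `PT.InvSpec`, `recQSub_of_weakInv` from
helper904's shape (injectivity at all places).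
-/

set_option autoImplicit false

noncomputable section

namespace Fermat.Agent.S56.RQ

open Fermat.Agent.S56 Fermat.Agent.S56.H716

/-- **REC-Q-SUB**, from the weak invariant package of S55 and URCUP. -/
theorem recQSub_of_urCup (hW : H554.WeakInvInput₁) (hU : UrCupStatement) :
    H716.RecQSubStatement :=
  recQSub_of' (H554.plainRecip_of_weak₁ hW) H554.frame H454.line H554.nondeg hU
    (H514.locTrivTw_of H554.gen) H475.cobCup H880.conjStatement H554.globZSub

/-- **REC-Q** (the case `S' = Smin`), from the weak invariant package of S55 and URCUP. -/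
theorem recQ_of_urCup (hW : H554.WeakInvInput₁) (hU : UrCupStatement) :
    H716.RecQStatement :=
  recQ_of (H554.plainRecip_of_weak₁ hW) H554.frame H454.line H554.nondeg hU
    (H514.locTrivTw_of H554.gen) H475.cobCup H880.conjStatement (globZ_of_sub H554.globZSub)

/-- **REC-Q-SUB**, from the weak invariant package of S55 (all elementary leaves plugged in). -/
theorem recQSub (hW : H554.WeakInvInput₁) : H716.RecQSubStatement :=
  recQSub_of_urCup hW H475.urCup

/-- **REC-Q**, from the weak invariant package of S55. -/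
theorem recQ (hW : H554.WeakInvInput₁) : H716.RecQStatement :=
  recQ_of_urCup hW H475.urCup

/-- **REC-Q-SUB**, from the weak invariant package with injectivity at all places. -/
theorem recQSub_of_weakInv (hW : H554.WeakInvInput) : H716.RecQSubStatement :=
  recQSub (H554.weakInvInput₁_of_weakInvInput hW)

/-- **REC-Q-SUB**, from S55's `InvSpec`. -/
theorem recQSub_of_invSpec
    (hS55 : ∀ (p : ℕ) [Fact p.Prime] (S : Finset Nat.Primes), p ≠ 2 →
      ExtCitation.pPrime p ∈ S → Fermat.Agent.S55.PT.InvSpec p S) : H716.RecQSubStatement :=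
  recQSub (H554.weakInvInput₁_of_invSpec hS55)

end Fermat.Agent.S56.RQ

end

end
-- ===== PACK-END S56/RQ/Final.lean

-- ===== PACK-BEGIN S55/G/Rec/HP/LocalGlue.lean
section




/-!
# S55 / REC / HP : leaf HP-LG, `localGlue : LocalGlueSpec`

If the absolute localisations `locBr q g U [c]` of a level class vanish at all places `(q, g)`,
then the intrinsic localisations `locMapL S (lvlGal U F) 𝔪 2 [f]` of the finite-level class
vanish at all places `𝔪 ∈ SPlace S F`.
-/

set_option autoImplicit false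
set_option linter.unusedSectionVars false
set_option linter.style.haveILetI false

noncomputable section

namespace Fermat.Agent.S55.G.Rec.HP

open groupCohomology CategoryTheory Fermat.Agent.S55.Bridge.H175 Fermat.Agent.S55.G

local notation "Qb" => AlgebraicClosure ℚ
local notation "GQ" => (AlgebraicClosure ℚ ≃ₐ[ℚ] AlgebraicClosure ℚ)

section

variable {S : Finset Nat.Primes} {F : IntermediateField ℚ Qb} [FiniteDimensional ℚ F]
  [Normal ℚ F] {𝔪 : SPlace S ↥F} {q : ℕ} [Fact q.Prime] (P : PlaceEmb S F 𝔪 q)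
  (U : Subgroup GQ)

/-- The coefficient map `F_𝔪ˣ → ℚ̄_qˣ` induced by `φ`, additively. -/
def PlaceEmb.φU : Additive (LocField S 𝔪)ˣ →+ Additive (PadicAlgCl q)ˣ :=
  MonoidHom.toAdditive (Units.map (P.φ : LocField S 𝔪 →* PadicAlgCl q))

lemma PlaceEmb.φU_coe (y : Additive (LocField S 𝔪)ˣ) :
    (((P.φU y).toMul : (PadicAlgCl q)ˣ) : PadicAlgCl q) = P.φ ((y.toMul : (LocField S 𝔪)ˣ)) :=
  rfl

lemma PlaceEmb.φU_injective : Function.Injective P.φU := by
  intro y y' h
  apply Additive.toMul.injective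
  apply Units.ext
  apply P.φ_injective
  have := congrArg (fun z : Additive (PadicAlgCl q)ˣ => ((z.toMul : (PadicAlgCl q)ˣ) :
    PadicAlgCl q)) h
  exact this

/-- Equivariance of `φU`. -/
lemma PlaceEmb.φU_equivariant (τ : ↥(locSub q P.g U)) (y : Additive (LocField S 𝔪)ˣ) :
    P.φU ((LocRep S ↥(lvlGal U F) 𝔪).ρ (P.rhoD U τ) y) =
      (lModOn q (locSub q P.g U)).ρ τ (P.φU y) := by
  apply Additive.toMul.injective
  apply Units.ext
  change P.φ (locAut S ↥(lvlGal U F) 𝔪 (P.rhoD U τ) ((y.toMul : (LocField S 𝔪)ˣ))) =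
    (τ : PadicAlgCl q ≃ₐ[ℚ_[q]] PadicAlgCl q) (P.φ ((y.toMul : (LocField S 𝔪)ˣ)))
  exact P.φ_locAut U τ _

variable {U} in
lemma PlaceEmb.φU_range (hFU : F.fixingSubgroup ≤ U) (a : Additive (PadicAlgCl q)ˣ)
    (h : ∀ τ : ↥(locSub q P.g U), P.rhoD U τ = 1 →
      (lModOn q (locSub q P.g U)).ρ τ a = a) :
    ∃ y, P.φU y = a := by
  have h' : ∀ τ : ↥(locSub q P.g U), P.rhoD U τ = 1 →
      (τ : PadicAlgCl q ≃ₐ[ℚ_[q]] PadicAlgCl q) ((a.toMul : (PadicAlgCl q)ˣ) : PadicAlgCl q) =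
        ((a.toMul : (PadicAlgCl q)ˣ) : PadicAlgCl q) := by
    intro τ hτ
    have := congrArg (fun z : Additive (PadicAlgCl q)ˣ => ((z.toMul : (PadicAlgCl q)ˣ) :
      PadicAlgCl q)) (h τ hτ)
    exact this
  obtain ⟨y₀, hy₀⟩ := P.mem_range_φ_of_fixed hFU _ h'
  have hy₀0 : y₀ ≠ 0 := by
    rintro rfl
    rw [map_zero] at hy₀
    exact Units.ne_zero (a.toMul) hy₀.symm
  refine ⟨Additive.ofMul (Units.mk0 y₀ hy₀0), ?_⟩
  apply Additive.toMul.injective
  apply Units.ext
  exact hy₀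

/-- The pullback formula: the absolute localisation of an inflated cocycle is the `(ρ, φ)`-
inflation of the intrinsic localisation. -/
lemma PlaceEmb.locCochain₂_infl (f : ↥(lvlGal U F) × ↥(lvlGal U F) → Additive (↥F)ˣ)
    (τ τ' : ↥(locSub q P.g U)) :
    locCochain₂ q P.g U (gInflCochain₂ U F f) (τ, τ') =
      P.φU (lToLoc S 𝔪 (f (P.rho U τ, P.rho U τ'))) := by
  apply Additive.toMul.injective
  apply Units.ext
  change padicEmbedding q (P.g⁻¹ ((((f (lvlHom U F (locHom q P.g U τ),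
    lvlHom U F (locHom q P.g U τ'))).toMul : (↥F)ˣ) : F) : Qb)) = _
  rw [← P.φ_toLoc]
  rfl

end

/-- **HP-LG.** -/
theorem localGlue : LocalGlueSpec := by
  intro U F _ _ hFU f c hinf hloc S 𝔪
  obtain ⟨q, hq, ⟨P⟩⟩ := exists_placeEmb S F 𝔪
  -- the intrinsic local cocycle
  set Γ := ↥(lvlGal U F) with hΓ
  set floc : cocycles₂ (LocRep S Γ 𝔪) :=
    (mapCocycles₂ (decomp S Γ 𝔪).subtype (lToLocRepHom S Γ 𝔪)).hom f with hfloc
  have hfloc_apply : ∀ d d' : ↥(decomp S Γ 𝔪),
      (floc : ↥(decomp S Γ 𝔪) × ↥(decomp S Γ 𝔪) → _) (d, d') =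
        lToLoc S 𝔪 ((f : Γ × Γ → Additive (↥F)ˣ) ((d : Γ), (d' : Γ))) := by
    intro d d'
    rfl
  have hgoal : (locMapL S Γ 𝔪 2).hom ((H2π (LRep Γ ↥F)).hom f) = (H2π (LocRep S Γ 𝔪)).hom floc :=
    congr($(H2π_comp_map (decomp S Γ 𝔪).subtype (lToLocRepHom S Γ 𝔪)) f)
  rw [hgoal, H2π_eq_zero_iff]
  -- the absolute local coboundary
  have h0 := hloc q P.g
  rw [locBr_mk, continuousH2π_eq_zero_iff, mem_levelCoboundaries₂_iff] at h0
  obtain ⟨b, hblev, hb⟩ := h0
  have hb' : ∀ τ τ' : ↥(locSub q P.g U),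
      (lModOn q (locSub q P.g U)).ρ τ (b τ') - b (τ * τ') + b τ =
        P.φU ((floc : ↥(decomp S Γ 𝔪) × ↥(decomp S Γ 𝔪) → _) (P.rhoD U τ, P.rhoD U τ')) := by
    intro τ τ'
    have h1 := congrFun hb (τ, τ')
    rw [d₁₂_hom_apply, coe_locCocycles₂, hinf] at h1
    rw [h1, P.locCochain₂_infl U, hfloc_apply]
    rfl
  -- Hilbert 90 on `ker ρ`
  set e : (lModOn q (locSub q P.g U)).V :=
    P.φU ((floc : ↥(decomp S Γ 𝔪) × ↥(decomp S Γ 𝔪) → _) (1, 1)) with he
  have hH90 : ∃ a : (lModOn q (locSub q P.g U)).V, ∀ n : ↥(locSub q P.g U), P.rhoD U n = 1 →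
      b n - e = (lModOn q (locSub q P.g U)).ρ n a - a := by
    obtain ⟨Fb, hFbfin, hFb⟩ := hblev
    have hnQ : Normal ℚ Qb := normal_Qb
    have hgal := isGalois_padicAlgCl473 q
    let F₁ : IntermediateField ℚ Qb := IntermediateField.normalClosure ℚ ↥(F ⊔ Fb) Qb
    have hle : F ⊔ Fb ≤ F₁ := IntermediateField.le_normalClosure _
    have hF₁fin : FiniteDimensional ℚ F₁ := normalClosure.is_finiteDimensional ..
    have hF₁norm : Normal ℚ F₁ := normalClosure.normal ..
    let E' : IntermediateField ℚ_[q] (PadicAlgCl q) := localLevel q F₁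
    have hE'fin : FiniteDimensional ℚ_[q] E' := finiteDimensional_localLevel q F₁
    have hE'norm : Normal ℚ_[q] E' := normal_localLevel q F₁
    let V₀ : Subgroup (PadicAlgCl q ≃ₐ[ℚ_[q]] PadicAlgCl q) :=
      ((P.rhoD U).ker).map (locSub q P.g U).subtype
    have hE' : E'.fixingSubgroup ≤ V₀ := by
      intro τ hτ
      have h1 : τ ∈ (localLevel q F).fixingSubgroup :=
        IntermediateField.fixingSubgroup_antitone
          (localLevel_mono (le_sup_left.trans hle)) hτ
      obtain ⟨hV, h2⟩ := P.rhoD_of_fixing hFU τ h1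
      exact ⟨⟨τ, hV⟩, h2, rfl⟩
    have hV₀mem : ∀ n : ↥V₀, (n : PadicAlgCl q ≃ₐ[ℚ_[q]] PadicAlgCl q) ∈ locSub q P.g U := by
      intro n
      obtain ⟨x, -, hx⟩ := n.2
      rw [← hx]
      exact x.2
    have hV₀ker : ∀ n : ↥V₀, P.rhoD U ⟨n, hV₀mem n⟩ = 1 := by
      intro n
      obtain ⟨x, hxk, hx⟩ := n.2
      have : x = ⟨n, hV₀mem n⟩ := Subtype.ext hx
      rw [← this]
      exact hxk
    have hne : ∀ n : ↥V₀, (lModOn q (locSub q P.g U)).ρ ⟨n, hV₀mem n⟩ e = e := by
      intro n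
      rw [he, ← P.φU_equivariant U, hV₀ker n, map_one]
      rfl
    let β : ↥V₀ → (PadicAlgCl q)ˣ := fun n =>
      Additive.toMul ((b ⟨n, hV₀mem n⟩ - e : (lModOn q (locSub q P.g U)).V) :
        Additive (PadicAlgCl q)ˣ)
    have hcoc : ∀ n n' : ↥V₀, β (n * n') =
        (n : PadicAlgCl q ≃ₐ[ℚ_[q]] PadicAlgCl q) • β n' * β n := by
      intro n n'
      have h1 := hb' ⟨n, hV₀mem n⟩ ⟨n', hV₀mem n'⟩
      rw [hV₀ker n, hV₀ker n', ← he] at h1
      apply Additive.ofMul.injective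
      change b (⟨n, hV₀mem n⟩ * ⟨n', hV₀mem n'⟩) - e =
        (lModOn q (locSub q P.g U)).ρ ⟨n, hV₀mem n⟩ (b ⟨n', hV₀mem n'⟩ - e) +
          (b ⟨n, hV₀mem n⟩ - e)
      rw [map_sub, hne n]
      have h2 : b (⟨n, hV₀mem n⟩ * ⟨n', hV₀mem n'⟩) =
          (lModOn q (locSub q P.g U)).ρ ⟨n, hV₀mem n⟩ (b ⟨n', hV₀mem n'⟩) +
            b ⟨n, hV₀mem n⟩ - e := by
        rw [← h1]; abel
      rw [h2]; abel
    have hconst : ∀ n s : ↥V₀,
        (s : PadicAlgCl q ≃ₐ[ℚ_[q]] PadicAlgCl q) ∈ E'.fixingSubgroup → β (n * s) = β n := by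
      intro n s hs
      have h1 : localGaloisToGlobal q (s : PadicAlgCl q ≃ₐ[ℚ_[q]] PadicAlgCl q) ∈
          Fb.fixingSubgroup :=
        IntermediateField.fixingSubgroup_antitone (le_sup_right.trans hle)
          ((mem_fixingSubgroup_localLevel_iff q F₁ _).1 hs)
      have h2 := hFb ⟨n, hV₀mem n⟩ ⟨s, hV₀mem s⟩ h1
      change Additive.toMul ((b (⟨n, hV₀mem n⟩ * ⟨s, hV₀mem s⟩) - e :
        (lModOn q (locSub q P.g U)).V) : Additive (PadicAlgCl q)ˣ) = _
      rw [h2]
      rfl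
    obtain ⟨a, ha⟩ := exists_hilbert90_level V₀ E' hE' β hcoc hconst
    refine ⟨(Additive.ofMul a : Additive (PadicAlgCl q)ˣ), fun n hn => ?_⟩
    have hnV₀ : (n : PadicAlgCl q ≃ₐ[ℚ_[q]] PadicAlgCl q) ∈ V₀ := ⟨n, hn, rfl⟩
    have h3 := ha ⟨n, hnV₀⟩
    apply Additive.toMul.injective
    exact h3
  obtain ⟨a, ha⟩ := hH90
  exact mem_coboundaries₂_of_infl (lModOn q (locSub q P.g U)) (LocRep S Γ 𝔪) (P.rhoD U)
    (P.rhoD_surjective hFU) P.φU P.φU_injective (P.φU_equivariant U) (P.φU_range hFU)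
    floc floc.2 b hb' a ha

end Fermat.Agent.S55.G.Rec.HP

end
end
-- ===== PACK-END S55/G/Rec/HP/LocalGlue.lean

-- ===== PACK-BEGIN S55/G/Rec/HP/FinPH795.lean
section




/-!
# S55 / G / REC / HP : leaf HP-FINp (subtask 483)                             (helper795)

    theorem Fermat.Agent.S55.G.Rec.HP.H795.hasseFinP_of (p : ℕ) [Fact p.Prime] (hp2 : p ≠ 2) :
        G.PClassUpperSpec → G.ClassShortExactSpec → G.ShapiroJSpec → HasseFinPSpec p

Route (blueprint `coord/S55-REC-HP.md` §A of helper473):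
1. `hasFixedRoot_of_isPGroup` : a `p`-group of automorphisms fixes `ζ_p`;
2. `exists_S_unram`, `exists_S_units` : for `S` large the action is unramified outside `S`
   (NO faithfulness needed) and finitely many given elements of `Lˣ` are `S`-units
   (primes dividing absolute norms; no discriminants);
3. `H¹(Γ, C_S) = 0` + the long exact sequence: `H²(Γ, Lˣ) → H²(Γ, J_S × Div^S)` is injective;
4. the image of `[c]` is `inl_* [unitsDiag ∘ c]`, which vanishes by Shapiro injectivity since its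
   localisations are the localisations of `[c]`.
-/


set_option autoImplicit false
set_option linter.style.haveILetI false
set_option linter.unusedSectionVars false

open scoped NumberField
open IsDedekindDomain CategoryTheory groupCohomology

noncomputable section

namespace Fermat.Agent.S55.G.Rec.HP.H795

open Fermat.Agent.S55 Fermat.Agent.S55.G


/-- A `p`-group of automorphisms fixes the `p`-th roots of unity. -/
theorem hasFixedRoot_of_isPGroup (p : ℕ) [hp : Fact p.Prime] (Γ L : Type) [Group Γ] [Field L]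
    [CharZero L] [MulSemiringAction Γ L] (hΓ : IsPGroup p Γ) {ζ : L}
    (hζ : IsPrimitiveRoot ζ p) : HasFixedRootOfUnity p Γ L := by
  refine ⟨ζ, hζ, fun g => ?_⟩
  haveI : NeZero p := ⟨hp.out.ne_zero⟩
  set φ : Γ →* (ZMod p)ˣ := (hζ.autToPow ℚ).comp (fieldAut Γ L) with hφ
  have h1 : φ g = 1 := by
    obtain ⟨k, hk⟩ := hΓ g
    have ho1 : orderOf (φ g) ∣ p ^ k :=
      orderOf_dvd_of_pow_eq_one (by rw [← map_pow, hk, map_one])
    have ho2 : orderOf (φ g) ∣ p - 1 := by
      have h := orderOf_dvd_card (x := φ g)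
      rwa [ZMod.card_units_eq_totient, Nat.totient_prime hp.out] at h
    have hcop : Nat.Coprime (p ^ k) (p - 1) := by
      apply Nat.Coprime.pow_left
      rw [hp.out.coprime_iff_not_dvd]
      have h2p : 2 ≤ p := hp.out.two_le
      exact Nat.not_dvd_of_pos_of_lt (by omega) (by omega)
    have : orderOf (φ g) = 1 := Nat.eq_one_of_dvd_coprimes hcop ho1 ho2
    exact orderOf_eq_one_iff.1 this
  have h2 := hζ.autToPow_spec ℚ (fieldAut Γ L g)
  have h3 : hζ.autToPow ℚ (fieldAut Γ L g) = 1 := h1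
  rw [h3] at h2
  have h4 : ((1 : (ZMod p)ˣ) : ZMod p).val = 1 := by
    rw [Units.val_one]
    haveI : Fact (1 < p) := ⟨hp.out.one_lt⟩
    exact ZMod.val_one p
  rw [h4, pow_one] at h2
  rw [← fieldAut_apply]
  exact h2.symm


/-! ## Choice of the finite set `S` -/

section ChooseS

variable (L : Type) [Field L] [NumberField L]

/-- The rational primes dividing the absolute norm of `a`. -/
def primesOf (a : 𝓞 L) : Finset Nat.Primes :=
  ((Ideal.absNorm (Ideal.span {a})).primeFactors.subtype Nat.Prime : Finset {q : ℕ // q.Prime})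

variable {L}

lemma mem_primesOf {a : 𝓞 L} {q : Nat.Primes} :
    q ∈ primesOf L a ↔ (q : ℕ) ∈ (Ideal.absNorm (Ideal.span {a})).primeFactors :=
  Finset.mem_subtype

/-- A natural number `n ≠ 0` lying in a prime ideal has a prime factor lying in it. -/
lemma exists_prime_factor_mem (w : HeightOneSpectrum (𝓞 L)) :
    ∀ n : ℕ, n ≠ 0 → ((n : ℕ) : 𝓞 L) ∈ w.asIdeal →
      ∃ q : ℕ, q.Prime ∧ q ∣ n ∧ ((q : ℕ) : 𝓞 L) ∈ w.asIdeal := by
  intro n
  induction n using Nat.strong_induction_on with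
  | _ n ih =>
    intro hn hmem
    have hn1 : n ≠ 1 := by
      rintro rfl
      apply w.isPrime.ne_top
      rw [Ideal.eq_top_iff_one]
      simpa using hmem
    have hq := Nat.minFac_prime hn1
    obtain ⟨m, hm⟩ := Nat.minFac_dvd n
    have hm0 : m ≠ 0 := by
      rintro rfl
      apply hn
      rw [hm, mul_zero]
    have hmem' : ((n.minFac : ℕ) : 𝓞 L) * ((m : ℕ) : 𝓞 L) ∈ w.asIdeal := by
      have : ((n : ℕ) : 𝓞 L) = ((n.minFac : ℕ) : 𝓞 L) * ((m : ℕ) : 𝓞 L) := by
        conv_lhs => rw [hm]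
        push_cast
        rfl
      rwa [this] at hmem
    rcases w.isPrime.mem_or_mem hmem' with h | h
    · exact ⟨n.minFac, hq, Nat.minFac_dvd n, h⟩
    · have hlt : m < n := by
        have h2 : 2 ≤ n.minFac := hq.two_le
        have hmpos : 0 < m := Nat.pos_of_ne_zero hm0
        calc m = 1 * m := (one_mul m).symm
          _ < n.minFac * m := Nat.mul_lt_mul_of_pos_right (by omega) hmpos
          _ = n := hm.symm
      obtain ⟨q, hq', hqm, hqw⟩ := ih m hlt hm0 h
      exact ⟨q, hq', hqm.trans (Dvd.intro_left _ hm.symm), hqw⟩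

/-- If `a ≠ 0` lies in the prime `w`, then `w` lies above a prime of `primesOf a`. -/
lemma isAbove_of_mem {a : 𝓞 L} (ha : a ≠ 0) (w : HeightOneSpectrum (𝓞 L))
    (haw : a ∈ w.asIdeal) {S : Finset Nat.Primes} (hS : primesOf L a ⊆ S) : IsAbove S L w := by
  have hn0 : Ideal.absNorm (Ideal.span {a}) ≠ 0 := by
    rw [Ne, Ideal.absNorm_eq_zero_iff, Ideal.span_singleton_eq_bot]
    exact ha
  have hmem : ((Ideal.absNorm (Ideal.span {a}) : ℕ) : 𝓞 L) ∈ w.asIdeal := by
    have h1 := Ideal.absNorm_mem (Ideal.span {a})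
    have h2 : Ideal.span {a} ≤ w.asIdeal := (Ideal.span_singleton_le_iff_mem _).2 haw
    exact h2 h1
  obtain ⟨q, hq, hqn, hqw⟩ := exists_prime_factor_mem w _ hn0 hmem
  refine ⟨⟨q, hq⟩, hS (mem_primesOf.2 ?_), hqw⟩
  exact Nat.mem_primeFactors.2 ⟨hq, hqn, hn0⟩

lemma exists_num_den (x : L) (hx : x ≠ 0) :
    ∃ a b : 𝓞 L, a ≠ 0 ∧ b ≠ 0 ∧ x = (a : L) / (b : L) := by
  obtain ⟨a, b, hb, rfl⟩ := IsFractionRing.div_surjective (A := 𝓞 L) x
  have hb0 : b ≠ 0 := nonZeroDivisors.ne_zero hb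
  refine ⟨a, b, ?_, hb0, rfl⟩
  rintro rfl
  apply hx
  simp

lemma intValuation_eq_one_of_not_mem (w : HeightOneSpectrum (𝓞 L)) {a : 𝓞 L}
    (ha : a ∉ w.asIdeal) : w.intValuation a = 1 := by
  apply le_antisymm (w.intValuation_le_one a)
  by_contra h
  rw [not_le] at h
  exact ha ((w.intValuation_lt_one_iff_mem a).1 h)

lemma valuation_div_eq_one (w : HeightOneSpectrum (𝓞 L)) {a b : 𝓞 L}
    (ha : a ∉ w.asIdeal) (hb : b ∉ w.asIdeal) :
    w.valuation L ((a : L) / (b : L)) = 1 := by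
  have h1 : w.valuation L (a : L) = 1 := by
    have := w.valuation_of_algebraMap (K := L) a
    rw [intValuation_eq_one_of_not_mem w ha] at this
    exact this
  have h2 : w.valuation L (b : L) = 1 := by
    have := w.valuation_of_algebraMap (K := L) b
    rw [intValuation_eq_one_of_not_mem w hb] at this
    exact this
  rw [map_div₀, h1, h2, div_one]

/-- Every element of `Lˣ` is an `S`-unit for `S` large. -/
theorem exists_S_units (x : Additive Lˣ) :
    ∃ S₀ : Finset Nat.Primes, ∀ S : Finset Nat.Primes, S₀ ⊆ S → ordHom S L x = 0 := by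
  classical
  obtain ⟨a, b, ha, hb, hab⟩ := exists_num_den ((x.toMul : Lˣ) : L) (Units.ne_zero _)
  refine ⟨primesOf L a ∪ primesOf L b, fun S hS => ?_⟩
  ext w
  rw [ordHom_apply, Finsupp.zero_apply, ordAt_eq_zero_iff, hab]
  apply valuation_div_eq_one
  · intro h
    exact w.2 (isAbove_of_mem ha w.1 h (Finset.union_subset_left hS))
  · intro h
    exact w.2 (isAbove_of_mem hb w.1 h (Finset.union_subset_right hS))

/-- The action is unramified outside `S` for `S` large. -/
theorem exists_S_unram (Γ : Type) [Group Γ] [Finite Γ] [MulSemiringAction Γ L] :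
    ∃ S₀ : Finset Nat.Primes, ∀ S : Finset Nat.Primes, S₀ ⊆ S → IsUnramOut S Γ L := by
  classical
  haveI : Fintype Γ := Fintype.ofFinite Γ
  let el : Γ → 𝓞 L := fun g =>
    if h : ∃ a : 𝓞 L, g • a ≠ a then g • h.choose - h.choose else 1
  have hel : ∀ g, el g ≠ 0 := by
    intro g
    by_cases h : ∃ a : 𝓞 L, g • a ≠ a
    · simp only [el, dif_pos h]
      exact sub_ne_zero.2 h.choose_spec
    · simp only [el, dif_neg h]
      exact one_ne_zero
  refine ⟨Finset.univ.biUnion fun g => primesOf L (el g), fun S hS w hw g hg x => ?_⟩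
  by_cases h : ∃ a : 𝓞 L, g • a ≠ a
  · exfalso
    apply hw
    have h1 : el g ∈ w.asIdeal := by
      simp only [el, dif_pos h]
      exact hg _
    refine isAbove_of_mem (hel g) w h1 ?_
    exact (Finset.subset_biUnion_of_mem (fun g => primesOf L (el g)) (Finset.mem_univ g)).trans hS
  · simp only [ne_eq, not_exists, not_not] at h
    obtain ⟨a, b, hb, rfl⟩ := IsFractionRing.div_surjective (A := 𝓞 L) x
    have h1 : g • (algebraMap (𝓞 L) L a / algebraMap (𝓞 L) L b) =
        algebraMap (𝓞 L) L (g • a) / algebraMap (𝓞 L) L (g • b) := by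
      rw [smul_div₀']
      rfl
    rw [h1, h a, h b]

end ChooseS


/-! ## The cohomological argument -/

section Main

open KL.H795

/-- Vanishing of `H¹` can be tested after restriction to the top subgroup. -/
lemma isZero_H1_of_top {k Γ : Type} [CommRing k] [Group Γ] (A : Rep.{0} k Γ)
    (h : Limits.IsZero (groupCohomology (T.resSub A (⊤ : Subgroup Γ)) 1)) :
    Limits.IsZero (groupCohomology A 1) := by
  refine Limits.IsZero.of_iso h (groupCohomology.mapIso (A := T.resSub A (⊤ : Subgroup Γ)) (B := A)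
    (Subgroup.topEquiv : (⊤ : Subgroup Γ) ≃* Γ).symm (LinearEquiv.refl k A.V)
    (fun g => by
      show (LinearEquiv.refl k A.V : A.V →ₗ[k] A.V) ∘ₗ A.ρ g =
        (T.resSub A ⊤).ρ (Subgroup.topEquiv.symm g) ∘ₗ (LinearEquiv.refl k A.V : A.V →ₗ[k] A.V)
      ext x; rfl) 1)

/-- **HP-FINp.**  The Hasse principle at finite level for `p`-groups, from the class module
upper bound (`H¹(Γ, C_S) = 0`), the exactness of `0 → Lˣ → J_S × Div^S → C_S → 0` and Shapiro's
lemma for `J_S`. -/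
theorem hasseFinP_of (p : ℕ) [hp : Fact p.Prime] (hp2 : p ≠ 2) (hUp : PClassUpperSpec)
    (hSES : ClassShortExactSpec) (hSh : ShapiroJSpec) : HasseFinPSpec p := by
  intro Γ L _ _ _ _ _ _ hΓ hζ' x hloc
  obtain ⟨ζ, hζ⟩ := hζ'
  classical
  haveI : Fintype Γ := Fintype.ofFinite Γ
  induction x using groupCohomology_induction_on with
  | h c =>
    -- the finite set `S`
    obtain ⟨S₁, hS₁⟩ := exists_S_unram (L := L) Γ
    have hex : ∀ v : Fin 2 → Γ, ∃ S₀ : Finset Nat.Primes, ∀ S : Finset Nat.Primes, S₀ ⊆ S →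
        ordHom S L ((iCocycles (LRep Γ L) 2).hom c v) = 0 := fun v => exists_S_units _
    choose S₂ hS₂ using hex
    set S : Finset Nat.Primes := ({⟨p, hp.out⟩} ∪ S₁) ∪ Finset.univ.biUnion S₂ with hSdef
    have hpS : (⟨p, hp.out⟩ : Nat.Primes) ∈ S := by
      rw [hSdef]
      exact Finset.mem_union_left _ (Finset.mem_union_left _ (Finset.mem_singleton_self _))
    have hunr : IsUnramOut S Γ L := hS₁ S (by
      rw [hSdef]
      exact Finset.subset_union_right.trans Finset.subset_union_left)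
    have hord : ∀ v : Fin 2 → Γ, ordHom S L ((iCocycles (LRep Γ L) 2).hom c v) = 0 := fun v =>
      hS₂ v S (by
        rw [hSdef]
        exact (Finset.subset_biUnion_of_mem S₂ (Finset.mem_univ v)).trans
          Finset.subset_union_right)
    have hroot : HasFixedRootOfUnity p Γ L := hasFixedRoot_of_isPGroup p Γ L hΓ hζ
    -- `H¹(Γ, C_S) = 0`
    have hH1 : Limits.IsZero (groupCohomology (CRep S Γ L) 1) :=
      isZero_H1_of_top _ (hUp p hp2 S Γ L hpS hΓ hunr hroot ⊤).1
    -- `H²(Γ, Lˣ) → H²(Γ, J_S × Div^S)` is injective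
    have hX := hSES S Γ L ⟨_, hpS⟩
    have hmono : Mono (groupCohomology.map (A := LRep Γ L) (B := JDRep S Γ L)
        (MonoidHom.id Γ) (diagRepHom S Γ L) 2) := by
      have hex := mapShortComplex₁_exact hX (i := 1) (j := 2) rfl
      have h0 : (mapShortComplex₁ hX (i := 1) (j := 2) rfl).f = 0 := hH1.eq_of_src _ _
      exact hex.mono_g h0
    have hinj := (ModuleCat.mono_iff_injective _).1 hmono
    apply hinj
    rw [map_zero]
    -- the class of `unitsDiag ∘ c` in `H²(Γ, J_S)` vanishes by Shapiro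
    have hdu : (inhomogeneousCochains.d (JRep Γ S L) 2).hom
        (fun v => unitsDiag S L ((iCocycles (LRep Γ L) 2).hom c v)) = 0 := by
      have h0 := d_comp_eq (LRep Γ L) (JRep Γ S L) (unitsDiag S L)
        (unitsDiag_equivariant Γ S L) 2 ((iCocycles (LRep Γ L) 2).hom c)
      rw [d_iCocycles] at h0
      refine h0.trans ?_
      funext v
      exact map_zero _
    have hu0 : (π (JRep Γ S L) 2).hom (cocyclesMk _ hdu) = 0 := by
      haveI : Finite (SPlace S L) := (PL0H713.locField S L).1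
      obtain ⟨R, hR⟩ := H953.exists_orbitReps S Γ L
      apply (hSh S Γ L R hR 2).1
      funext r
      show (locMapJ S Γ r.1 2).hom _ = (locMapJ S Γ r.1 2).hom 0
      rw [map_zero]
      have h1 := hloc S r.1
      unfold locMapL at h1
      unfold locMapJ
      rw [map_π_eq_zero_iff] at h1 ⊢
      refine (congrArg (IsCobdry (LocRep S Γ r.1) 2) ?_).mpr h1
      funext x
      have h3 := congrFun (iCocycles_mk _ hdu) (fun i => (decomp S Γ r.1).subtype (x i))
      exact congrArg (jToLocRepHom S Γ r.1).hom h3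
    have h2 : (groupCohomology.map (A := JRep Γ S L) (B := JDRep S Γ L)
        (MonoidHom.id Γ) (jInlRepHom S Γ L) 2).hom
        ((π (JRep Γ S L) 2).hom (cocyclesMk _ hdu)) = 0 := by
      rw [hu0, map_zero]
    rw [map_π_eq_zero_iff] at h2 ⊢
    refine (congrArg (IsCobdry (JDRep S Γ L) 2) ?_).mpr h2
    funext x
    have h3 := congrFun (iCocycles_mk _ hdu) (fun i => (MonoidHom.id Γ) (x i))
    refine Eq.trans ?_ (congrArg (jInlRepHom S Γ L).hom h3).symm
    exact Prod.ext rfl (hord _)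

end Main

end Fermat.Agent.S55.G.Rec.HP.H795


end
end
-- ===== PACK-END S55/G/Rec/HP/FinPH795.lean

-- ===== PACK-BEGIN S55/G/Rec/HP/Main.lean
section






/-!
# S55 / layer G / block REC / adapter HP : MAIN THEOREM  (subtask 378, REC2-HP)

`hassePrinciple : G.PClassUpperSpec → G.ClassShortExactSpec → G.ShapiroJSpec →
    HassePrincipleSpec p`   (`p` an odd prime).

Leaves: `localGlue` (helper473), `H126.globalDescent`, `H126.globalUp` (helper126),
`H795.hasseFinP_of` (helper795; second proof `H599.hasseFinP_of`), `H841.hasseFin_of`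
(helper841), assembly `hassePrinciple_of` (helper473).
-/

set_option autoImplicit false

namespace Fermat.Agent.S55.G.Rec.HP

/-- **HP**: the Hasse principle for the `p`-primary part of the Brauer group of every number
field inside `ℚ̄` (Prelude cochains), from the class module upper bound of layer G. -/
theorem hassePrinciple (p : ℕ) [Fact p.Prime] (hp2 : p ≠ 2) (hUP : G.PClassUpperSpec)
    (hSES : G.ClassShortExactSpec) (hLOC : G.ShapiroJSpec) : HassePrincipleSpec p :=
  hassePrinciple_of p (H841.hasseFin_of p (H795.hasseFinP_of p hp2 hUP hSES hLOC))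
    H126.globalDescent H126.globalUp localGlue

end Fermat.Agent.S55.G.Rec.HP

end
-- ===== PACK-END S55/G/Rec/HP/Main.lean

-- ===== PACK-BEGIN S55/G/JGlueH604.lean
section
/-
S55, layer G, leaf **J-GLUE** (helper604): the Herbrand indices of the `S`-idèles,
`JHerbrandSpec` of `G/FI/FirstIneqH895.lean` (the last open input of the first inequality G-FI).

* `card_H2_unitsRepr` : a finite cyclic group `D` acting faithfully on a finite extension `E` of
  `ℚ_q` by field automorphisms fixing `ℚ_q`: `|H²(D, Eˣ)| = |D|` (from the local cyclic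
  theorem `L.H2CardCyclicSpec`, applied to `E` over the fixed field of `D`);
* `card_H2_locRep` : `|H²(D_𝔪, L_𝔪ˣ)| = |D_𝔪|` for the decomposition group of a place above `S`;
* `card_H2_JRep` : `|H²(G, J_S(L))| = ∏_{r ∈ R} |D_r|` for orbit representatives `R` (Shapiro);
* `JCountSpec`, `jHerbrand_of : ShapiroJSpec → H2CardCyclicSpec → JCountSpec → JHerbrandSpec`.

No `sorry`.
-/







set_option autoImplicit false
set_option linter.unusedSectionVars false
set_option linter.style.haveILetI false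

open scoped NumberField TensorProduct
open IsDedekindDomain CategoryTheory groupCohomology
open Fermat.Agent.S55.G Fermat.Agent.S55.Herbrand

noncomputable section

namespace Fermat.Agent.S55.G.JGlueH604

/-! ## 1. The abstract local statement -/

section Abstract

variable {D E : Type} [Group D] [Finite D] [Field E]

/-- A finite cyclic group `D` acting faithfully (via `φ`) on a finite extension `E` of `ℚ_q`,
fixing `ℚ_q`: `|H²(D, Eˣ)| = |D|`. -/
theorem card_H2_unitsRepr (hL : Fermat.Agent.S55.L.H2CardCyclicSpec) [IsCyclic D]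
    (φ : D →* (E ≃+* E)) (hφ : Function.Injective φ)
    (q : ℕ) [Fact q.Prime] (ι : ℚ_[q] →+* E)
    (hfin : letI := ι.toAlgebra; Module.Finite ℚ_[q] E)
    (hι : ∀ (d : D) (x : ℚ_[q]), φ d (ι x) = ι x) :
    Nat.card (groupCohomology (Rep.of (unitsRepr D φ)) 2) = Nat.card D := by
  classical
  letI : Fintype D := Fintype.ofFinite D
  letI : MulSemiringAction D E := MulSemiringAction.compHom E φ
  have hsmul : ∀ (d : D) (x : E), d • x = φ d x := fun _ _ => rfl
  haveI : FaithfulSMul D E := ⟨fun {d₁ d₂} h => hφ (RingEquiv.ext fun x => by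
    rw [← hsmul, ← hsmul]; exact h x)⟩
  let F : Subfield E := FixedPoints.subfield D E
  let ιF : ℚ_[q] →+* F := ι.codRestrict F (fun x d => by rw [hsmul]; exact hι d x)
  letI : Algebra ℚ_[q] E := ι.toAlgebra
  letI : Algebra ℚ_[q] F := ιF.toAlgebra
  haveI : IsScalarTower ℚ_[q] F E := IsScalarTower.of_algebraMap_eq (fun _ => rfl)
  haveI : Module.Finite ℚ_[q] E := hfin
  haveI : FiniteDimensional ℚ_[q] F := FiniteDimensional.left ℚ_[q] F E
  haveI : Fermat.Agent.S55.L.IsLocalFld F := PL0H713.isLocalFld_of_finite_padic q F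
  let ψ : D ≃* (E ≃ₐ[F] E) := FixedPoints.toAlgAutMulEquiv D E
  haveI : IsCyclic (E ≃ₐ[F] E) := isCyclic_of_surjective ψ ψ.surjective
  obtain ⟨-, hcard⟩ := hL F E
  obtain ⟨g, hg⟩ := IsCyclic.exists_generator (α := D)
  have hψg : ∀ τ : E ≃ₐ[F] E, τ ∈ Subgroup.zpowers (ψ g) := by
    intro τ
    obtain ⟨t, rfl⟩ := ψ.surjective τ
    obtain ⟨k, rfl⟩ := Subgroup.mem_zpowers_iff.1 (hg t)
    exact Subgroup.mem_zpowers_iff.2 ⟨k, (map_zpow ψ g k).symm⟩
  have hcardeq : Nat.card (E ≃ₐ[F] E) = Nat.card D := (Nat.card_congr ψ.toEquiv).symm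
  have hact : (gAct (Rep.of (unitsRepr D φ)) g : AddMonoid.End (Additive Eˣ)) =
      gAct (Fermat.Agent.S55.L.unitsRep F E) (ψ g) := by
    refine AddMonoidHom.ext fun x => ?_
    apply Additive.toMul.injective
    apply Units.ext
    rfl
  have e1 := card_H2_eq_h0 (Rep.of (unitsRepr D φ)) g hg
  have e2 := card_H2_eq_h0 (Fermat.Agent.S55.L.unitsRep F E) (ψ g) hψg
  rw [e1]
  have e3 : h0 (gAct (Rep.of (unitsRepr D φ)) g) (Nat.card D) =
      h0 (gAct (Fermat.Agent.S55.L.unitsRep F E) (ψ g)) (Nat.card (E ≃ₐ[F] E)) := by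
    rw [hcardeq]
    exact congrArg (fun s : AddMonoid.End (Additive Eˣ) => h0 s (Nat.card D)) hact
  rw [e3, ← e2]
  have e4 : Nat.card (groupCohomology (Fermat.Agent.S55.L.unitsRep F E) 2) =
      Module.finrank F E := hcard
  rw [e4, ← IsGalois.card_aut_eq_finrank, hcardeq]

end Abstract

/-! ## 2. The decomposition group of a place above `S` -/

section Loc

variable (S : Finset Nat.Primes) (G L : Type) [Group G] [Finite G] [Field L] [NumberField L]
  [MulSemiringAction G L] [FaithfulSMul G L]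

variable {L} in
/-- The decomposition group fixes the image of `ℚ_q` in `L_𝔪`. -/
lemma locAut_ofQq (𝔪 : SPlace S L) (d : decomp S G 𝔪) (x : Qq (PL0H713.primeOf S L 𝔪).1) :
    locAut S G 𝔪 d (PL0H713.ofQq S L 𝔪 x) = PL0H713.ofQq S L 𝔪 x := by
  rw [PL0H713.ofQq_apply]
  change locAut S G 𝔪 d (LocField.mk S 𝔪 (asIncl S L _)) = LocField.mk S 𝔪 (asIncl S L _)
  rw [locAut_mk, asAut_asIncl]

variable {L} in
/-- `|H²(D_𝔪, L_𝔪ˣ)| = |D_𝔪|` for a cyclic group `G`. -/
theorem card_H2_locRep (hL : Fermat.Agent.S55.L.H2CardCyclicSpec) [IsCyclic G]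
    (𝔪 : SPlace S L) :
    Nat.card (groupCohomology (LocRep S G 𝔪) 2) = Nat.card (decomp S G 𝔪) := by
  haveI : Fact (Nat.Prime ((PL0H713.primeOf S L 𝔪).1 : ℕ)) := ⟨(PL0H713.primeOf S L 𝔪).1.2⟩
  exact card_H2_unitsRepr hL (locAut S G 𝔪) (H953.locAut_injective S G 𝔪)
    ((PL0H713.primeOf S L 𝔪).1 : ℕ) (PL0H713.ofQq S L 𝔪) (PL0H713.finite_locField S L 𝔪)
    (locAut_ofQq S G 𝔪)

/-- `|H²(G, J_S(L))| = ∏_{r ∈ R} |D_r|` for a set `R` of representatives of the `G`-orbits of
places above `S` (`G` cyclic). -/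
theorem card_H2_JRep (hSh : ShapiroJSpec) (hL : Fermat.Agent.S55.L.H2CardCyclicSpec) [IsCyclic G]
    (R : Finset (SPlace S L))
    (hR : ∀ 𝔪 : SPlace S L, ∃! r : SPlace S L, r ∈ R ∧ ∃ g : G, sPlaceSMul S G g r = 𝔪) :
    Nat.card (groupCohomology (JRep G S L) 2) = ∏ r : R, Nat.card (decomp S G r.1) := by
  have hbij := hSh S G L R hR 2
  rw [Nat.card_congr (Equiv.ofBijective _ hbij), Nat.card_pi]
  exact Finset.prod_congr rfl fun r _ => card_H2_locRep S G hL r.1

end Loc

/-! ## 3. The Herbrand indices of `J_S(L)` -/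

/-- **(J-COUNT)** for `G = Gal(L/K)` and any set `R` of representatives of the `G`-orbits of
places of `L` above `S`: `∏_{r ∈ R} |D_r| = ∏_{v ∈ S_K} e_v f_v`. -/
def JCountSpec : Prop :=
  ∀ (K L : Type) [Field K] [Field L] [NumberField K] [NumberField L] [Algebra K L]
    [IsGalois K L] (S : Finset Nat.Primes) (R : Finset (SPlace S L)),
    (∀ 𝔪 : SPlace S L, ∃! r : SPlace S L,
      r ∈ R ∧ ∃ g : L ≃ₐ[K] L, sPlaceSMul S (L ≃ₐ[K] L) g r = 𝔪) →
    ∏ r : R, Nat.card (decomp S (L ≃ₐ[K] L) r.1) = finDegProd K L (FIH895.primesOver S K)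

/-- **J-GLUE.**  The Herbrand indices of the `S`-idèles of a cyclic extension:
`h₀(J_S(L)) = ∏_{v ∈ S_K} e_v f_v`, `h₁(J_S(L)) = 1`. -/
theorem jHerbrand_of (hSh : ShapiroJSpec) (hL : Fermat.Agent.S55.L.H2CardCyclicSpec)
    (hC : JCountSpec) : FIH895.JHerbrandSpec := by
  intro K L _ _ _ _ _ _ σ hσ S
  classical
  letI : Fintype (L ≃ₐ[K] L) := Fintype.ofFinite _
  haveI : IsCyclic (L ≃ₐ[K] L) := ⟨σ, hσ⟩
  haveI : Finite (SPlace S L) := PL0H713.finite_sPlace S L
  obtain ⟨R, hR⟩ := H953.exists_orbitReps S (L ≃ₐ[K] L) L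
  constructor
  · rw [← card_H2_eq_h0 (JRep (L ≃ₐ[K] L) S L) σ hσ,
      card_H2_JRep S (L ≃ₐ[K] L) L hSh hL R hR, hC K L S R hR]
  · rw [← card_H1_eq_h1 (JRep (L ≃ₐ[K] L) S L) σ hσ]
    haveI : Subsingleton (groupCohomology (JRep (L ≃ₐ[K] L) S L) 1) :=
      ModuleCat.isZero_iff_subsingleton.1 (H1JH604.h1JSpec S (L ≃ₐ[K] L) L)
    exact Nat.card_eq_one_iff_unique.2 ⟨inferInstance, ⟨0⟩⟩

end Fermat.Agent.S55.G.JGlueH604

end
end
-- ===== PACK-END S55/G/JGlueH604.lean

-- ===== PACK-BEGIN S55/G/LocH897/TowEv.lean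
section






/-!
# S55 / G-ADAPTER, J-bridge (helper897), part 1: the evaluation maps `F ⊗ ℚ_S → ℚ̄_q`

For a tower level `L : Tow.Level S` with field `F = L.F` and `q ∈ S`:
* `evQ L q : AS S L.F →ₐ[ℚ] PadicAlgCl q`, `x ⊗ y ↦ ι_q(x) · y_q`;
* `evQ_equivariant` : `evQ (mk (loc τ) • r) = τ (evQ r)` for `τ ∈ Gal(ℚ̄_q/ℚ_q)`;
* `range_evQ` : the range of `evQ` is the local level `F_q = primeLocalLevel q F`.
-/

set_option autoImplicit false
set_option linter.style.haveILetI false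
set_option linter.unusedSectionVars false

open scoped TensorProduct

namespace Fermat.Agent.S55.G.LocH897

open Fermat.Agent.S55 Fermat.Agent.S55.Tow Fermat.Agent.S55.Bridge.H175 Fermat.Agent.S55.E1.H594
open Fermat.Agent.S55.G

noncomputable section

variable {S : Finset Nat.Primes} (L : Level S)

/-- `ℚ̄_q` for `q : Nat.Primes`. -/
abbrev Om (q : Nat.Primes) : Type := PadicAlgCl (q : ℕ)

theorem isScalarTower_Om (q : Nat.Primes) : IsScalarTower ℚ (Qq q) (Om q) :=
  IsScalarTower.of_algebraMap_eq' (Subsingleton.elim _ _)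

/-- `ι_q : F → ℚ̄_q`. -/
def embF (q : Nat.Primes) : L.F →ₐ[ℚ] Om q := (padicEmbedding (q : ℕ)).comp L.F.val

lemma embF_apply (q : Nat.Primes) (x : L.F) : embF L q x = padicEmbedding (q : ℕ) (x : Qbar) := rfl

/-- `ℚ_S → ℚ_q → ℚ̄_q`. -/
def projOm (q : S) : QS S →ₐ[ℚ] Om q.1 :=
  haveI := isScalarTower_Om q.1
  (IsScalarTower.toAlgHom ℚ (Qq q.1) (Om q.1)).comp (QS.proj S q)

lemma projOm_apply (q : S) (y : QS S) :
    projOm q y = algebraMap (Qq q.1) (Om q.1) (QS.toPi S y q) := rfl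

/-- The evaluation `F ⊗ ℚ_S → ℚ̄_q`, `x ⊗ y ↦ ι_q(x) · y_q`. -/
def evQ (q : S) : AS S L.F →ₐ[ℚ] Om q.1 :=
  Algebra.TensorProduct.lift (embF L q.1) (projOm q) (fun _ _ => Commute.all _ _)

@[simp] lemma evQ_tmul (q : S) (x : L.F) (y : QS S) :
    evQ L q (x ⊗ₜ[ℚ] y) = padicEmbedding (q.1 : ℕ) (x : Qbar) *
      algebraMap (Qq q.1) (Om q.1) (QS.toPi S y q) := by
  simp [evQ, embF_apply, projOm_apply]

/-- An element of the Prelude local Galois group as an automorphism of `ℚ̄_q`. -/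
def toAut (q : Nat.Primes) (τ : GQp q) : Om q ≃ₐ[Qq q] Om q := τ

lemma toAut_mul (q : Nat.Primes) (τ τ' : GQp q) (ω : Om q) :
    toAut q (τ * τ') ω = toAut q τ (toAut q τ' ω) := rfl

lemma padicEmbedding_locQ (q : Nat.Primes) (τ : GQp q) (x : Qbar) :
    padicEmbedding (q : ℕ) (locQ q τ x) = toAut q τ (padicEmbedding (q : ℕ) x) :=
  padicEmbedding_localGaloisToGlobal (q : ℕ) τ x

/-- The composite `Gal(ℚ̄_q/ℚ_q) → G_ℚ → Gal(F/ℚ)`. -/
def locGal (q : Nat.Primes) : GQp q →* L.Gal := (QuotientGroup.mk' L.U).comp (locQ q)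

lemma locGal_apply (q : Nat.Primes) (τ : GQp q) :
    locGal L q τ = (QuotientGroup.mk (locQ q τ) : L.Gal) := rfl

lemma locGal_eq_decHom (q : Nat.Primes) (τ : GQp q) :
    locGal L q τ = L.decHom q (QuotientGroup.mk τ) := rfl

/-- Equivariance of the evaluation map. -/
theorem evQ_equivariant (q : S) (τ : GQp q.1) (r : AS S L.F) :
    evQ L q (asRingAut L.Gal S L.F (locGal L q.1 τ) r) = toAut q.1 τ (evQ L q r) := by
  induction r using TensorProduct.induction_on with
  | zero => simp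
  | tmul x y =>
    rw [asRingAut_apply, asAut_tmul, evQ_tmul, evQ_tmul, map_mul, AlgEquiv.commutes,
      locGal_apply, level_mk_smul, padicEmbedding_locQ]
  | add a b ha hb => simp only [map_add, ha, hb]

/-! ### The range of the evaluation map is the local level -/

open PL0H713 in
lemma evQ_one_tmul_single (q : S) (y : Qq q.1) :
    evQ L q ((1 : L.F) ⊗ₜ[ℚ] single S q y) = algebraMap (Qq q.1) (Om q.1) y := by
  rw [evQ_tmul, single_apply_same]
  simp

lemma evQ_tmul_one (q : S) (x : L.F) :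
    evQ L q (x ⊗ₜ[ℚ] (1 : QS S)) = padicEmbedding (q.1 : ℕ) (x : Qbar) := by
  rw [evQ_tmul, map_one (QS.toPi S), Pi.one_apply, map_one, mul_one]

/-- The range of `evQ` as a `ℚ_q`-subalgebra of `ℚ̄_q`. -/
def evRange (q : S) : Subalgebra (Qq q.1) (Om q.1) where
  carrier := Set.range (evQ L q)
  mul_mem' := by rintro _ _ ⟨a, rfl⟩ ⟨b, rfl⟩; exact ⟨a * b, map_mul _ _ _⟩
  add_mem' := by rintro _ _ ⟨a, rfl⟩ ⟨b, rfl⟩; exact ⟨a + b, map_add _ _ _⟩
  one_mem' := ⟨1, map_one _⟩
  zero_mem' := ⟨0, map_zero _⟩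
  algebraMap_mem' := fun y => ⟨_, evQ_one_tmul_single L q y⟩

lemma mem_evRange (q : S) (ω : Om q.1) : ω ∈ evRange L q ↔ ∃ r, evQ L q r = ω := Iff.rfl

/-- `evQ` takes values in the local level `F_q`. -/
theorem evQ_mem_primeLocalLevel (q : S) (r : AS S L.F) :
    evQ L q r ∈ primeLocalLevel q.1 L.F := by
  induction r using TensorProduct.induction_on with
  | zero => rw [map_zero]; exact zero_mem _
  | tmul x y =>
    rw [evQ_tmul]
    exact mul_mem (padicEmbedding_mem_localLevel x.2)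
      (IntermediateField.algebraMap_mem _ _)
  | add a b ha hb => rw [map_add]; exact add_mem ha hb

/-- Every element of the local level `F_q` is a value of `evQ`. -/
theorem exists_evQ_eq (q : S) (ω : Om q.1) (hω : ω ∈ primeLocalLevel q.1 L.F) :
    ∃ r, evQ L q r = ω := by
  have h1 : (primeLocalLevel q.1 L.F).toSubalgebra =
      Algebra.adjoin (Qq q.1) ((padicEmbedding (q.1 : ℕ)) '' (L.F : Set Qbar)) :=
    IntermediateField.adjoin_toSubalgebra _
  have h2 : Algebra.adjoin (Qq q.1) ((padicEmbedding (q.1 : ℕ)) '' (L.F : Set Qbar)) ≤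
      evRange L q := by
    refine Algebra.adjoin_le ?_
    rintro _ ⟨x, hx, rfl⟩
    exact ⟨_, evQ_tmul_one L q ⟨x, hx⟩⟩
  have h3 : ω ∈ (primeLocalLevel q.1 L.F).toSubalgebra := hω
  rw [h1] at h3
  exact h2 h3

end

end Fermat.Agent.S55.G.LocH897

end
-- ===== PACK-END S55/G/LocH897/TowEv.lean

-- ===== PACK-BEGIN S55/G/LocH897/TowDec.lean
section


/-!
# S55 / G-ADAPTER, J-bridge (helper897), part 2: the decomposition group of `ker evQ`

An element `s ∈ Gal(F/ℚ)` stabilising the kernel of `evQ : F ⊗ ℚ_S → ℚ̄_q` is the restriction of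
an element of the local Galois group `Gal(ℚ̄_q/ℚ_q)` (`exists_locGal_eq`).
-/

set_option autoImplicit false
set_option linter.style.haveILetI false
set_option linter.unusedSectionVars false

open scoped TensorProduct

namespace Fermat.Agent.S55.G.LocH897

open Fermat.Agent.S55 Fermat.Agent.S55.Tow Fermat.Agent.S55.Bridge.H175 Fermat.Agent.S55.E1.H594
open Fermat.Agent.S55.G

noncomputable section

variable {S : Finset Nat.Primes} (L : Level S) (q : S)

/-- `evQ` with values in the local level `F_q`. -/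
def evE : AS S L.F →+* primeLocalLevel q.1 L.F :=
  (evQ L q).toRingHom.codRestrict (primeLocalLevel q.1 L.F) (evQ_mem_primeLocalLevel L q)

lemma coe_evE (r : AS S L.F) : ((evE L q r : primeLocalLevel q.1 L.F) : Om q.1) = evQ L q r := rfl

lemma evE_surjective : Function.Surjective (evE L q) := by
  rintro ⟨ω, hω⟩
  obtain ⟨r, hr⟩ := exists_evQ_eq L q ω hω
  exact ⟨r, Subtype.ext hr⟩

lemma evE_eq_zero_iff (r : AS S L.F) : evE L q r = 0 ↔ evQ L q r = 0 := by
  rw [← coe_evE, ← ZeroMemClass.coe_eq_zero]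

section Stab

variable (s : L.Gal)
  (hs : ∀ x, evQ L q (asRingAut L.Gal S L.F s x) = 0 ↔ evQ L q x = 0)

/-- The ring endomorphism of `F_q` induced by `s` (which stabilises `ker evQ`). -/
def sbarRing : primeLocalLevel q.1 L.F →+* primeLocalLevel q.1 L.F :=
  (evE L q).liftOfSurjective (evE_surjective L q)
    ⟨(evE L q).comp ((asRingAut L.Gal S L.F s : AS S L.F ≃+* AS S L.F) : AS S L.F →+* AS S L.F),
      fun x hx => by
        rw [RingHom.mem_ker] at hx ⊢
        rw [RingHom.comp_apply, evE_eq_zero_iff]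
        exact (hs x).2 ((evE_eq_zero_iff L q x).1 hx)⟩

lemma sbarRing_evE (r : AS S L.F) :
    sbarRing L q s hs (evE L q r) = evE L q (asRingAut L.Gal S L.F s r) :=
  RingHom.liftOfSurjective_comp_apply _ (evE_surjective L q) _ r

open PL0H713 in
/-- The `ℚ_q`-algebra endomorphism of `F_q` induced by `s`. -/
def sbarAlg : primeLocalLevel q.1 L.F →ₐ[Qq q.1] primeLocalLevel q.1 L.F :=
  { sbarRing L q s hs with
    commutes' := fun y => by
      have h1 : algebraMap (Qq q.1) (primeLocalLevel q.1 L.F) y =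
          evE L q ((1 : L.F) ⊗ₜ[ℚ] single S q y) :=
        Subtype.ext (evQ_one_tmul_single L q y).symm
      show sbarRing L q s hs _ = _
      rw [h1, sbarRing_evE, asRingAut_apply, asAut_tmul, smul_one] }

lemma sbarAlg_evE (r : AS S L.F) :
    sbarAlg L q s hs (evE L q r) = evE L q (asRingAut L.Gal S L.F s r) :=
  sbarRing_evE L q s hs r

/-- The automorphism of `F_q` over `ℚ_q` induced by `s`. -/
def sbarEquiv : primeLocalLevel q.1 L.F ≃ₐ[Qq q.1] primeLocalLevel q.1 L.F :=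
  haveI := Bridge.H175.level_normal L
  haveI := Bridge.H175.level_finiteDimensional L
  haveI := finiteDimensional_primeLocalLevel q.1 L.F
  AlgEquiv.ofBijective (sbarAlg L q s hs) (Algebra.IsAlgebraic.algHom_bijective _)

lemma sbarEquiv_evE (r : AS S L.F) :
    sbarEquiv L q s hs (evE L q r) = evE L q (asRingAut L.Gal S L.F s r) :=
  sbarRing_evE L q s hs r

/-- **Decomposition groups.**  An element of `Gal(F/ℚ)` stabilising `ker evQ` comes from the
local Galois group. -/
theorem exists_locGal_eq (s : L.Gal)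
    (hs : ∀ x, evQ L q (asRingAut L.Gal S L.F s x) = 0 ↔ evQ L q x = 0) :
    ∃ τ : GQp q.1, locGal L q.1 τ = s := by
  obtain ⟨τ, hτ⟩ := QuotientGroup.mk_surjective ((decEquiv L q.1).symm (sbarEquiv L q s hs))
  refine ⟨τ, ?_⟩
  have hτ' : decEquiv L q.1 (QuotientGroup.mk τ) = sbarEquiv L q s hs := by
    rw [hτ, MulEquiv.apply_symm_apply]
  haveI := E1.H594.level_faithfulSMul L
  apply FaithfulSMul.eq_of_smul_eq_smul (α := L.F)
  intro x
  apply Subtype.ext
  apply (padicEmbedding (q.1 : ℕ)).toRingHom.injective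
  show padicEmbedding (q.1 : ℕ) ((locGal L q.1 τ • x : L.F) : Qbar) =
    padicEmbedding (q.1 : ℕ) ((s • x : L.F) : Qbar)
  have h1 : padicEmbedding (q.1 : ℕ) ((locGal L q.1 τ • x : L.F) : Qbar) =
      toAut q.1 τ (padicEmbedding (q.1 : ℕ) (x : Qbar)) := by
    rw [locGal_apply, level_mk_smul, padicEmbedding_locQ]
  have h2 := decEquiv_mk_apply_coe L q.1 τ (evE L q (x ⊗ₜ[ℚ] (1 : QS S)))
  rw [hτ', sbarEquiv_evE, coe_evE, coe_evE, asRingAut_apply, asAut_tmul, evQ_tmul_one,
    evQ_tmul_one] at h2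
  rw [h1]
  exact h2.symm

end Stab

end

end Fermat.Agent.S55.G.LocH897

end
-- ===== PACK-END S55/G/LocH897/TowDec.lean

-- ===== PACK-BEGIN S55/G/Rec/Tow/H894/LocLink.lean
section


/-!
# S55 / REC2-TOW / FR-INJ (helper894), part 3: the local link for `J_S`, abstract group

Generalisation of helper473's `HP.localGlue` (`HP/LocalGlue.lean`) in two directions:

* the finite group is an ABSTRACT `Γ` acting on the level field `F` (e.g. `M.Gal = G_ℚ ⧸ U_M` of a
  Tower level, or a subgroup of it), linked to a subgroup `V ≤ G_{ℚ_q}` by a homomorphism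
  `ρ : V →* Γ` with `ρ τ = (g · loc τ · g⁻¹)|_F` (`LocLink`);
* the coefficients are `J_S(F) = (F ⊗ ℚ_S)ˣ` instead of `Fˣ`.

`locMapJ_eq_zero_of_link` : if the cochain `(τ, τ') ↦ φ (mk (yc (ρ τ, ρ τ')))` on `V` with values
in `ℚ̄_qˣ` is a level coboundary, then the intrinsic localisation `locMapJ S Γ 𝔪 2 [yc]`
vanishes.
-/

set_option autoImplicit false
set_option linter.unusedSectionVars false
set_option linter.style.haveILetI false

noncomputable section

namespace Fermat.Agent.S55.G.Rec.TOW.H894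

open groupCohomology CategoryTheory Fermat.Agent.S55.Bridge.H175 Fermat.Agent.S55.G
open Fermat.Agent.S55.G.Rec Fermat.Agent.S55.G.Rec.HP

local notation "Qb" => AlgebraicClosure ℚ
local notation "GQ" => (AlgebraicClosure ℚ ≃ₐ[ℚ] AlgebraicClosure ℚ)

/-- A link between a subgroup `V` of the local Galois group and an abstract group `Γ` acting on
the level field `F`, relative to an embedded place `P = (φ, g)`:
`ρ τ` acts on `F` as `g · loc τ · g⁻¹`, and every `τ` such that `g · loc τ · g⁻¹` acts on `F` as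
an element `d` of `Γ` lies in `V` with `ρ τ = d`. -/
structure LocLink {S : Finset Nat.Primes} {F : IntermediateField ℚ Qb}
    {𝔪 : SPlace S ↥F} {q : ℕ} [Fact q.Prime] (P : PlaceEmb S F 𝔪 q)
    (Γ : Type) [Group Γ] [MulSemiringAction Γ ↥F]
    (V : Subgroup (PadicAlgCl q ≃ₐ[ℚ_[q]] PadicAlgCl q)) where
  /-- the homomorphism `τ ↦ (g · loc τ · g⁻¹)|_F` -/
  ρ : ↥V →* Γ
  smul_coe : ∀ (τ : ↥V) (x : F),
    ((ρ τ • x : F) : Qb) = P.g (localGaloisToGlobal q τ (P.g⁻¹ (x : Qb)))
  full : ∀ (τ : PadicAlgCl q ≃ₐ[ℚ_[q]] PadicAlgCl q) (d : Γ),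
    (∀ x : F, P.g (localGaloisToGlobal q τ (P.g⁻¹ (x : Qb))) = ((d • x : F) : Qb)) →
      ∃ hτ : τ ∈ V, ρ ⟨τ, hτ⟩ = d

section Claims

variable {S : Finset Nat.Primes} {F : IntermediateField ℚ Qb} [FiniteDimensional ℚ F]
  [Normal ℚ F] {𝔪 : SPlace S ↥F} {q : ℕ} [Fact q.Prime] {P : PlaceEmb S F 𝔪 q}
  {Γ : Type} [Group Γ] [MulSemiringAction Γ ↥F]
  {V : Subgroup (PadicAlgCl q ≃ₐ[ℚ_[q]] PadicAlgCl q)} (K : LocLink P Γ V)

lemma LocLink.φ_toLoc_rho (τ : ↥V) (x : F) :
    P.φ (toLoc S 𝔪 (K.ρ τ • x)) =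
      (τ : PadicAlgCl q ≃ₐ[ℚ_[q]] PadicAlgCl q) (P.φ (toLoc S 𝔪 x)) := by
  rw [P.φ_toLoc, P.φ_toLoc, K.smul_coe, ← padicEmbedding_localGaloisToGlobal]
  congr 1
  exact AlgEquiv.symm_apply_apply P.g _

lemma LocLink.φ_mk_asAut (τ : ↥V) (a : AS S ↥F) :
    P.φ (LocField.mk S 𝔪 (asAut S Γ ↥F (K.ρ τ) a)) =
      (τ : PadicAlgCl q ≃ₐ[ℚ_[q]] PadicAlgCl q) (P.φ (LocField.mk S 𝔪 a)) := by
  induction a using TensorProduct.induction_on with
  | zero => simp
  | tmul x y =>
    rw [asAut_tmul, PL0H713.mk_tmul, PL0H713.mk_tmul, map_mul, map_mul, map_mul,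
      K.φ_toLoc_rho, P.φ_ofQS_fixed]
  | add a b ha hb => simp only [map_add, ha, hb]

lemma LocLink.rho_mem_decomp (τ : ↥V) : K.ρ τ ∈ decomp S Γ 𝔪 := by
  rw [mem_decomp_iff]
  refine MaximalSpectrum.ext (Ideal.ext fun a => ?_)
  rw [mem_sPlaceSMul_iff, ← LocField.mk_eq_zero_iff, ← LocField.mk_eq_zero_iff,
    ← map_eq_zero_iff P.φ P.φ_injective, ← map_eq_zero_iff P.φ P.φ_injective,
    ← map_inv, K.φ_mk_asAut]
  exact map_eq_zero_iff _ (AlgEquiv.injective _)

/-- `ρ` with values in the decomposition group. -/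
def LocLink.rhoD : ↥V →* ↥(decomp S Γ 𝔪) :=
  K.ρ.codRestrict _ K.rho_mem_decomp

@[simp] lemma LocLink.rhoD_coe (τ : ↥V) : ((K.rhoD τ : ↥(decomp S Γ 𝔪)) : Γ) = K.ρ τ := rfl

/-- `φ` intertwines the action of `ρ τ` on `F_𝔪` with the action of `τ` on `ℚ̄_q`. -/
lemma LocLink.φ_locAut (τ : ↥V) (y : LocField S 𝔪) :
    P.φ (locAut S Γ 𝔪 (K.rhoD τ) y) =
      (τ : PadicAlgCl q ≃ₐ[ℚ_[q]] PadicAlgCl q) (P.φ y) := by
  obtain ⟨a, rfl⟩ := LocField.mk_surjective S 𝔪 y
  rw [locAut_mk]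
  exact K.φ_mk_asAut τ a

/-- Elements of `Gal(ℚ̄_q / F_q)` lie in `V` and in the kernel of `ρ`. -/
lemma LocLink.rhoD_of_fixing
    (τ : PadicAlgCl q ≃ₐ[ℚ_[q]] PadicAlgCl q) (hτ : τ ∈ (localLevel q F).fixingSubgroup) :
    ∃ h : τ ∈ V, K.rhoD ⟨τ, h⟩ = 1 := by
  have h1 : localGaloisToGlobal q τ ∈ F.fixingSubgroup :=
    (mem_fixingSubgroup_localLevel_iff q F τ).1 hτ
  have h2 : ∀ x : F, P.g (localGaloisToGlobal q τ (P.g⁻¹ (x : Qb))) = (((1 : Γ) • x : F) : Qb) := by
    intro x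
    have hx : P.g⁻¹ (x : Qb) ∈ F := apply_mem_of_normal F _ x.2
    rw [(IntermediateField.mem_fixingSubgroup_iff F _).1 h1 _ hx, one_smul]
    exact AlgEquiv.apply_symm_apply P.g _
  obtain ⟨hV, h3⟩ := K.full τ 1 h2
  exact ⟨hV, Subtype.ext h3⟩

/-- The elements of `ℚ̄_q` fixed by `ker ρ` lie in `φ(F_𝔪)`. -/
lemma LocLink.mem_range_φ_of_fixed (a : PadicAlgCl q)
    (h : ∀ τ : ↥V, K.rhoD τ = 1 → (τ : PadicAlgCl q ≃ₐ[ℚ_[q]] PadicAlgCl q) a = a) :
    a ∈ Set.range P.φ := by
  have := isGalois_padicAlgCl473 q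
  apply P.localLevel_le_range
  rw [← InfiniteGalois.fixedField_fixingSubgroup (localLevel q F)]
  rintro ⟨τ, hτ⟩
  obtain ⟨hV, h1⟩ := K.rhoD_of_fixing τ hτ
  exact h ⟨τ, hV⟩ h1

/-- `ρ : V → decomp 𝔪` is surjective. -/
lemma LocLink.rhoD_surjective : Function.Surjective K.rhoD := by
  intro σ
  have hnorm := normal_padicAlgCl q
  letI a1 : Algebra ℚ_[q] (LocField S 𝔪) := P.ι₀.toAlgebra
  letI a2 : Algebra (LocField S 𝔪) (PadicAlgCl q) := P.φ.toAlgebra
  haveI : IsScalarTower ℚ_[q] (LocField S 𝔪) (PadicAlgCl q) :=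
    IsScalarTower.of_algebraMap_eq (fun z => (P.φ_ι₀ z).symm)
  let ψ : LocField S 𝔪 →ₐ[ℚ_[q]] PadicAlgCl q :=
    { toRingHom := P.φ.comp ((locAut S Γ 𝔪 σ : LocField S 𝔪 ≃+* LocField S 𝔪) :
        LocField S 𝔪 →+* LocField S 𝔪)
      commutes' := by
        intro z
        change P.φ (locAut S Γ 𝔪 σ (P.ι₀ z)) = _
        obtain ⟨y, hy⟩ := P.ι₀_mem z
        have h1 : locAut S Γ 𝔪 σ (LocField.ofQS S 𝔪 y) = LocField.ofQS S 𝔪 y := by
          change locAut S Γ 𝔪 σ (LocField.mk S 𝔪 (asIncl S ↥F y)) = _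
          rw [locAut_mk, asAut_asIncl]
          rfl
        rw [hy, h1, ← hy, P.φ_ι₀] }
  let τ : PadicAlgCl q ≃ₐ[ℚ_[q]] PadicAlgCl q :=
    AlgEquiv.ofBijective (ψ.liftNormal (PadicAlgCl q))
      (AlgHom.normal_bijective ℚ_[q] (PadicAlgCl q) (PadicAlgCl q) _)
  have hτ : ∀ y : LocField S 𝔪, τ (P.φ y) = P.φ (locAut S Γ 𝔪 σ y) := by
    intro y
    exact ψ.liftNormal_commutes (PadicAlgCl q) y
  -- the action of `g · loc τ · g⁻¹` on `F`
  have h2 : ∀ x : F, P.g (localGaloisToGlobal q τ (P.g⁻¹ (x : Qb))) =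
      (((σ : Γ) • x : F) : Qb) := by
    intro x
    have e1 : padicEmbedding q (localGaloisToGlobal q τ (P.g⁻¹ (x : Qb))) =
        padicEmbedding q (P.g⁻¹ ((((σ : Γ) • x : F)) : Qb)) := by
      rw [padicEmbedding_localGaloisToGlobal, ← P.φ_toLoc, hτ, locAut_toLoc, P.φ_toLoc]
    have e2 := (padicEmbedding q).injective e1
    rw [e2]
    exact AlgEquiv.apply_symm_apply P.g _
  obtain ⟨hV, h3⟩ := K.full τ (σ : Γ) h2
  exact ⟨⟨τ, hV⟩, Subtype.ext h3⟩

/-- Equivariance of `φU`. -/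
lemma LocLink.φU_equivariant (τ : ↥V) (y : Additive (LocField S 𝔪)ˣ) :
    P.φU ((LocRep S Γ 𝔪).ρ (K.rhoD τ) y) = (lModOn q V).ρ τ (P.φU y) := by
  apply Additive.toMul.injective
  apply Units.ext
  change P.φ (locAut S Γ 𝔪 (K.rhoD τ) ((y.toMul : (LocField S 𝔪)ˣ))) =
    (τ : PadicAlgCl q ≃ₐ[ℚ_[q]] PadicAlgCl q) (P.φ ((y.toMul : (LocField S 𝔪)ˣ)))
  exact K.φ_locAut τ _

lemma LocLink.φU_range (a : Additive (PadicAlgCl q)ˣ)
    (h : ∀ τ : ↥V, K.rhoD τ = 1 → (lModOn q V).ρ τ a = a) :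
    ∃ y, P.φU y = a := by
  have h' : ∀ τ : ↥V, K.rhoD τ = 1 →
      (τ : PadicAlgCl q ≃ₐ[ℚ_[q]] PadicAlgCl q) ((a.toMul : (PadicAlgCl q)ˣ) : PadicAlgCl q) =
        ((a.toMul : (PadicAlgCl q)ˣ) : PadicAlgCl q) := by
    intro τ hτ
    have := congrArg (fun z : Additive (PadicAlgCl q)ˣ => ((z.toMul : (PadicAlgCl q)ˣ) :
      PadicAlgCl q)) (h τ hτ)
    exact this
  obtain ⟨y₀, hy₀⟩ := K.mem_range_φ_of_fixed _ h'
  have hy₀0 : y₀ ≠ 0 := by
    rintro rfl
    rw [map_zero] at hy₀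
    exact Units.ne_zero (a.toMul) hy₀.symm
  refine ⟨Additive.ofMul (Units.mk0 y₀ hy₀0), ?_⟩
  apply Additive.toMul.injective
  apply Units.ext
  exact hy₀

/-- The cochain on `V` with values in `ℚ̄_qˣ` attached to a 2-cochain of `Γ` with values in
`J_S(F)`: `(τ, τ') ↦ φ (mk (yc (ρ τ, ρ τ')))`. -/
def LocLink.evCochain (yc : Γ × Γ → Additive (AS S ↥F)ˣ) : ↥V × ↥V → lModOn q V :=
  fun p => P.φU (jToLoc S 𝔪 (yc (K.ρ p.1, K.ρ p.2)))

/-- **Local link for `J_S`.**  If the cochain `(τ, τ') ↦ φ (mk (yc (ρ τ, ρ τ')))` is a level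
coboundary on `V`, the intrinsic localisation of `[yc]` at `𝔪` vanishes. -/
theorem LocLink.locMapJ_eq_zero (yc : cocycles₂ (JRep Γ S ↥F))
    (hcob : K.evCochain (yc : Γ × Γ → Additive (AS S ↥F)ˣ) ∈
      levelCoboundaries₂ (lHom q V) (lModOn q V)) :
    (locMapJ S Γ 𝔪 2).hom ((H2π (JRep Γ S ↥F)).hom yc) = 0 := by
  -- the intrinsic local cocycle
  set floc : cocycles₂ (LocRep S Γ 𝔪) :=
    (mapCocycles₂ (decomp S Γ 𝔪).subtype (jToLocRepHom S Γ 𝔪)).hom yc with hfloc
  have hfloc_apply : ∀ d d' : ↥(decomp S Γ 𝔪),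
      (floc : ↥(decomp S Γ 𝔪) × ↥(decomp S Γ 𝔪) → _) (d, d') =
        jToLoc S 𝔪 ((yc : Γ × Γ → Additive (AS S ↥F)ˣ) ((d : Γ), (d' : Γ))) := by
    intro d d'
    rfl
  have hgoal : (locMapJ S Γ 𝔪 2).hom ((H2π (JRep Γ S ↥F)).hom yc) =
      (H2π (LocRep S Γ 𝔪)).hom floc :=
    congr($(H2π_comp_map (decomp S Γ 𝔪).subtype (jToLocRepHom S Γ 𝔪)) yc)
  rw [hgoal, H2π_eq_zero_iff]
  -- the absolute local coboundary
  rw [mem_levelCoboundaries₂_iff] at hcob
  obtain ⟨b, hblev, hb⟩ := hcob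
  have hb' : ∀ τ τ' : ↥V,
      (lModOn q V).ρ τ (b τ') - b (τ * τ') + b τ =
        P.φU ((floc : ↥(decomp S Γ 𝔪) × ↥(decomp S Γ 𝔪) → _) (K.rhoD τ, K.rhoD τ')) := by
    intro τ τ'
    have h1 := congrFun hb (τ, τ')
    rw [d₁₂_hom_apply] at h1
    rw [h1, hfloc_apply]
    rfl
  -- Hilbert 90 on `ker ρ`
  set e : (lModOn q V).V :=
    P.φU ((floc : ↥(decomp S Γ 𝔪) × ↥(decomp S Γ 𝔪) → _) (1, 1)) with he
  have hH90 : ∃ a : (lModOn q V).V, ∀ n : ↥V, K.rhoD n = 1 →
      b n - e = (lModOn q V).ρ n a - a := by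
    obtain ⟨Fb, hFbfin, hFb⟩ := hblev
    have hnQ : Normal ℚ Qb := normal_Qb
    have hgal := isGalois_padicAlgCl473 q
    let F₁ : IntermediateField ℚ Qb := IntermediateField.normalClosure ℚ ↥(F ⊔ Fb) Qb
    have hle : F ⊔ Fb ≤ F₁ := IntermediateField.le_normalClosure _
    have hF₁fin : FiniteDimensional ℚ F₁ := normalClosure.is_finiteDimensional ..
    have hF₁norm : Normal ℚ F₁ := normalClosure.normal ..
    let E' : IntermediateField ℚ_[q] (PadicAlgCl q) := localLevel q F₁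
    have hE'fin : FiniteDimensional ℚ_[q] E' := finiteDimensional_localLevel q F₁
    have hE'norm : Normal ℚ_[q] E' := normal_localLevel q F₁
    let V₀ : Subgroup (PadicAlgCl q ≃ₐ[ℚ_[q]] PadicAlgCl q) :=
      (K.rhoD.ker).map V.subtype
    have hE' : E'.fixingSubgroup ≤ V₀ := by
      intro τ hτ
      have h1 : τ ∈ (localLevel q F).fixingSubgroup :=
        IntermediateField.fixingSubgroup_antitone
          (localLevel_mono (le_sup_left.trans hle)) hτ
      obtain ⟨hV, h2⟩ := K.rhoD_of_fixing τ h1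
      exact ⟨⟨τ, hV⟩, h2, rfl⟩
    have hV₀mem : ∀ n : ↥V₀, (n : PadicAlgCl q ≃ₐ[ℚ_[q]] PadicAlgCl q) ∈ V := by
      intro n
      obtain ⟨x, -, hx⟩ := n.2
      rw [← hx]
      exact x.2
    have hV₀ker : ∀ n : ↥V₀, K.rhoD ⟨n, hV₀mem n⟩ = 1 := by
      intro n
      obtain ⟨x, hxk, hx⟩ := n.2
      have : x = ⟨n, hV₀mem n⟩ := Subtype.ext hx
      rw [← this]
      exact hxk
    have hne : ∀ n : ↥V₀, (lModOn q V).ρ ⟨n, hV₀mem n⟩ e = e := by
      intro n
      rw [he, ← K.φU_equivariant, hV₀ker n, map_one]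
      rfl
    let β : ↥V₀ → (PadicAlgCl q)ˣ := fun n =>
      Additive.toMul ((b ⟨n, hV₀mem n⟩ - e : (lModOn q V).V) :
        Additive (PadicAlgCl q)ˣ)
    have hcoc : ∀ n n' : ↥V₀, β (n * n') =
        (n : PadicAlgCl q ≃ₐ[ℚ_[q]] PadicAlgCl q) • β n' * β n := by
      intro n n'
      have h1 := hb' ⟨n, hV₀mem n⟩ ⟨n', hV₀mem n'⟩
      rw [hV₀ker n, hV₀ker n', ← he] at h1
      apply Additive.ofMul.injective
      change b (⟨n, hV₀mem n⟩ * ⟨n', hV₀mem n'⟩) - e =
        (lModOn q V).ρ ⟨n, hV₀mem n⟩ (b ⟨n', hV₀mem n'⟩ - e) +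
          (b ⟨n, hV₀mem n⟩ - e)
      rw [map_sub, hne n]
      have h2 : b (⟨n, hV₀mem n⟩ * ⟨n', hV₀mem n'⟩) =
          (lModOn q V).ρ ⟨n, hV₀mem n⟩ (b ⟨n', hV₀mem n'⟩) +
            b ⟨n, hV₀mem n⟩ - e := by
        rw [← h1]; abel
      rw [h2]; abel
    have hconst : ∀ n s : ↥V₀,
        (s : PadicAlgCl q ≃ₐ[ℚ_[q]] PadicAlgCl q) ∈ E'.fixingSubgroup → β (n * s) = β n := by
      intro n s hs
      have h1 : localGaloisToGlobal q (s : PadicAlgCl q ≃ₐ[ℚ_[q]] PadicAlgCl q) ∈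
          Fb.fixingSubgroup :=
        IntermediateField.fixingSubgroup_antitone (le_sup_right.trans hle)
          ((mem_fixingSubgroup_localLevel_iff q F₁ _).1 hs)
      have h2 := hFb ⟨n, hV₀mem n⟩ ⟨s, hV₀mem s⟩ h1
      change Additive.toMul ((b (⟨n, hV₀mem n⟩ * ⟨s, hV₀mem s⟩) - e :
        (lModOn q V).V) : Additive (PadicAlgCl q)ˣ) = _
      rw [h2]
      rfl
    obtain ⟨a, ha⟩ := exists_hilbert90_level V₀ E' hE' β hcoc hconst
    refine ⟨(Additive.ofMul a : Additive (PadicAlgCl q)ˣ), fun n hn => ?_⟩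
    have hnV₀ : (n : PadicAlgCl q ≃ₐ[ℚ_[q]] PadicAlgCl q) ∈ V₀ := ⟨n, hn, rfl⟩
    have h3 := ha ⟨n, hnV₀⟩
    apply Additive.toMul.injective
    exact h3
  obtain ⟨a, ha⟩ := hH90
  exact mem_coboundaries₂_of_infl (lModOn q V) (LocRep S Γ 𝔪) K.rhoD
    K.rhoD_surjective P.φU P.φU_injective K.φU_equivariant K.φU_range
    floc floc.2 b hb' a ha

/-- `ρ` is trivial on the elements whose global image fixes the level `F`. -/
lemma LocLink.rhoD_eq_one_of_lHom (τ : ↥V) (hτ : lHom q V τ ∈ F.fixingSubgroup) :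
    K.rhoD τ = 1 := by
  obtain ⟨_, h⟩ := K.rhoD_of_fixing (τ : PadicAlgCl q ≃ₐ[ℚ_[q]] PadicAlgCl q)
    ((mem_fixingSubgroup_localLevel_iff q F _).2 hτ)
  exact h

/-- **Local link for `J_S`, converse** (inflation of a coboundary).  If the intrinsic localisation
of `[yc]` at `𝔪` vanishes, the cochain `(τ, τ') ↦ φ (mk (yc (ρ τ, ρ τ')))` is a level
coboundary on `V`. -/
theorem LocLink.evCochain_mem_levelCoboundaries₂ (yc : cocycles₂ (JRep Γ S ↥F))
    (h0 : (locMapJ S Γ 𝔪 2).hom ((H2π (JRep Γ S ↥F)).hom yc) = 0) :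
    K.evCochain (yc : Γ × Γ → Additive (AS S ↥F)ˣ) ∈
      levelCoboundaries₂ (lHom q V) (lModOn q V) := by
  have hgoal : (locMapJ S Γ 𝔪 2).hom ((H2π (JRep Γ S ↥F)).hom yc) =
      (H2π (LocRep S Γ 𝔪)).hom
        ((mapCocycles₂ (decomp S Γ 𝔪).subtype (jToLocRepHom S Γ 𝔪)).hom yc) :=
    congr($(H2π_comp_map (decomp S Γ 𝔪).subtype (jToLocRepHom S Γ 𝔪)) yc)
  rw [hgoal, H2π_eq_zero_iff] at h0
  obtain ⟨b₀, hb₀⟩ := h0
  obtain ⟨b, hb⟩ : ∃ b : ↥(decomp S Γ 𝔪) → Additive (LocField S 𝔪)ˣ,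
      ∀ d d' : ↥(decomp S Γ 𝔪), locRepr S Γ 𝔪 d (b d') - b (d * d') + b d =
        jToLoc S 𝔪 ((yc : Γ × Γ → Additive (AS S ↥F)ˣ) ((d : Γ), (d' : Γ))) := by
    refine ⟨b₀, fun d d' => ?_⟩
    have h2 := congrFun hb₀ (d, d')
    rw [d₁₂_hom_apply] at h2
    exact h2
  rw [mem_levelCoboundaries₂_iff]
  set β : ↥V → (lModOn q V).V := fun τ => P.φU (b (K.rhoD τ)) with hβ
  refine ⟨β, ⟨F, inferInstance, fun τ s hs => ?_⟩, ?_⟩
  · simp only [hβ, map_mul, K.rhoD_eq_one_of_lHom s hs, mul_one]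
  · funext p
    obtain ⟨τ, τ'⟩ := p
    rw [d₁₂_hom_apply]
    have e1 : (lModOn q V).ρ τ (β τ') =
        (P.φU (locRepr S Γ 𝔪 (K.rhoD τ) (b (K.rhoD τ'))) : (lModOn q V).V) :=
      (K.φU_equivariant τ _).symm
    have e2 : β (τ * τ') = (P.φU (b (K.rhoD τ * K.rhoD τ')) : (lModOn q V).V) := by
      simp only [hβ, map_mul]
    have e3 : P.φU (locRepr S Γ 𝔪 (K.rhoD τ) (b (K.rhoD τ'))) -
        P.φU (b (K.rhoD τ * K.rhoD τ')) + P.φU (b (K.rhoD τ)) =
        P.φU (locRepr S Γ 𝔪 (K.rhoD τ) (b (K.rhoD τ')) - b (K.rhoD τ * K.rhoD τ') +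
          b (K.rhoD τ)) := by
      rw [map_add, map_sub]
    change (lModOn q V).ρ τ (β τ') - β (τ * τ') + β τ = _
    rw [e1, e2]
    exact e3.trans (congrArg P.φU (hb (K.rhoD τ) (K.rhoD τ')))

end Claims

end Fermat.Agent.S55.G.Rec.TOW.H894

end
end
-- ===== PACK-END S55/G/Rec/Tow/H894/LocLink.lean

-- ===== PACK-BEGIN S55/G/PL1H173/Coord.lean
section


/-!
# S55 layer G, leaf G-PL1 (helper173): coordinates on `L ⊗ ℚ_S` and `S`-integrality

* `co S L i : L ⊗ ℚ_S → ℚ_S`, the coordinates with respect to the integral basis of `L`;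
* `IsSInt S y`: `y ∈ ℚ_S` is integral at every `q ∈ S`;
* `valuation_le_one_of_isSInt_co`: if all coordinates of `x ⊗ 1` (`x ∈ L`) are `S`-integral,
  then `x` is integral at every prime of `L` above `S`.
-/

set_option autoImplicit false
set_option linter.unusedSectionVars false
set_option linter.style.haveILetI false

open scoped NumberField TensorProduct
open IsDedekindDomain

namespace Fermat.Agent.S55.G.PL1H173

open Fermat.Agent.S55.G Fermat.Agent.S55.G.PL0H713

variable (S : Finset Nat.Primes) (L : Type) [Field L] [NumberField L]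

/-! ### Rational numbers -/

/-- A natural number lies in a prime of `𝓞 L` above `q` iff it is divisible by `q`. -/
lemma natCast_mem_iff (w : HeightOneSpectrum (𝓞 L)) {q : ℕ} (hq : q.Prime)
    (h : (q : 𝓞 L) ∈ w.asIdeal) (n : ℕ) : (n : 𝓞 L) ∈ w.asIdeal ↔ q ∣ n := by
  constructor
  · intro hn
    by_contra hdvd
    have hcop : Nat.Coprime q n := (Nat.Prime.coprime_iff_not_dvd hq).2 hdvd
    have h1 : ((q : ℤ) * Nat.gcdA q n + (n : ℤ) * Nat.gcdB q n : ℤ) = 1 := by
      have := Nat.gcd_eq_gcd_ab q n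
      rw [hcop] at this
      exact_mod_cast this.symm
    have h2 : ((1 : ℤ) : 𝓞 L) ∈ w.asIdeal := by
      rw [← h1]
      push_cast
      exact w.asIdeal.add_mem (w.asIdeal.mul_mem_right _ h) (w.asIdeal.mul_mem_right _ hn)
    rw [Int.cast_one] at h2
    exact w.isPrime.ne_top ((Ideal.eq_top_iff_one _).2 h2)
  · rintro ⟨m, rfl⟩
    push_cast
    exact w.asIdeal.mul_mem_right _ h

/-- A rational number which is a `q`-adic integer has denominator prime to `q`. -/
lemma not_dvd_den_of_norm_le_one (q : ℕ) [Fact q.Prime] (r : ℚ) (hr : ‖(r : ℚ_[q])‖ ≤ 1) :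
    ¬ q ∣ r.den := by
  intro hdvd
  have hnum : ¬ (q : ℤ) ∣ r.num := by
    intro h
    have h1 : q ∣ r.num.natAbs := Int.natCast_dvd.1 h
    have h2 := Nat.dvd_gcd h1 hdvd
    rw [r.reduced] at h2
    exact (Fact.out : q.Prime).one_lt.ne' (Nat.dvd_one.1 h2)
  have h3 : ‖(r.num : ℚ_[q])‖ = 1 := by
    have hle := Padic.norm_int_le_one (p := q) r.num
    have hnlt : ¬ ‖(r.num : ℚ_[q])‖ < 1 := fun h => hnum (Padic.norm_intCast_lt_one_iff.1 h)
    exact le_antisymm hle (not_lt.1 hnlt)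
  have h4 : ‖((r.den : ℤ) : ℚ_[q])‖ < 1 :=
    Padic.norm_intCast_lt_one_iff.2 (Int.natCast_dvd_natCast.2 hdvd)
  have hden0 : ((r.den : ℤ) : ℚ_[q]) ≠ 0 := by
    have := r.den_pos
    exact_mod_cast this.ne'
  have h5 : (r : ℚ_[q]) * ((r.den : ℤ) : ℚ_[q]) = (r.num : ℚ_[q]) := by
    have := Rat.mul_den_eq_num r
    exact_mod_cast congrArg (fun t : ℚ => (t : ℚ_[q])) this
  have h6 := congrArg norm h5
  rw [norm_mul, h3] at h6
  have h7 : ‖(r : ℚ_[q])‖ * ‖((r.den : ℤ) : ℚ_[q])‖ < 1 := by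
    calc ‖(r : ℚ_[q])‖ * ‖((r.den : ℤ) : ℚ_[q])‖ ≤ 1 * ‖((r.den : ℤ) : ℚ_[q])‖ :=
          mul_le_mul_of_nonneg_right hr (norm_nonneg _)
      _ < 1 := by rw [one_mul]; exact h4
  rw [h6] at h7
  exact lt_irrefl _ h7

/-- A rational number which is a `q`-adic integer is integral at every prime of `L` above `q`. -/
lemma valuation_rat_le_one (w : HeightOneSpectrum (𝓞 L)) {q : ℕ} (hq : q.Prime)
    (h : (q : 𝓞 L) ∈ w.asIdeal) (r : ℚ)
    (hr : ‖(r : @Padic q ⟨hq⟩)‖ ≤ 1) : w.valuation L (algebraMap ℚ L r) ≤ 1 := by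
  haveI : Fact q.Prime := ⟨hq⟩
  have hden := not_dvd_den_of_norm_le_one q r hr
  have h1 : (r.den : 𝓞 L) ∉ w.asIdeal := fun hmem => hden ((natCast_mem_iff L w hq h _).1 hmem)
  have h2 : w.valuation L (algebraMap (𝓞 L) L (r.den : 𝓞 L)) = 1 :=
    (HeightOneSpectrum.valuation_eq_one_iff_notMem (K := L) w).2 h1
  have h3 : w.valuation L (algebraMap (𝓞 L) L (r.num : 𝓞 L)) ≤ 1 :=
    HeightOneSpectrum.valuation_le_one w _
  have h4 : algebraMap ℚ L r * algebraMap (𝓞 L) L (r.den : 𝓞 L) =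
      algebraMap (𝓞 L) L (r.num : 𝓞 L) := by
    have := Rat.mul_den_eq_num r
    have h5 := congrArg (algebraMap ℚ L) this
    rw [map_mul] at h5
    simpa using h5
  have h6 := congrArg (w.valuation L) h4
  rw [map_mul, h2, mul_one] at h6
  rw [h6]
  exact h3

/-! ### `S`-integers of `ℚ_S` -/

/-- `y ∈ ℚ_S` is integral at every `q ∈ S`. -/
def IsSInt (y : QS S) : Prop := ∀ q : S, ‖QS.toPi S y q‖ ≤ 1

variable {S} in
lemma IsSInt.add {y z : QS S} (hy : IsSInt S y) (hz : IsSInt S z) : IsSInt S (y + z) := by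
  intro q
  haveI : Fact (Nat.Prime (q.1 : ℕ)) := ⟨q.1.2⟩
  have h : QS.toPi S (y + z) q = QS.toPi S y q + QS.toPi S z q := rfl
  rw [h]
  exact (Padic.nonarchimedean _ _).trans (max_le (hy q) (hz q))

variable {S} in
lemma IsSInt.mul {y z : QS S} (hy : IsSInt S y) (hz : IsSInt S z) : IsSInt S (y * z) := by
  intro q
  haveI : Fact (Nat.Prime (q.1 : ℕ)) := ⟨q.1.2⟩
  have h : QS.toPi S (y * z) q = QS.toPi S y q * QS.toPi S z q := rfl
  rw [h, norm_mul]
  exact mul_le_one₀ (hy q) (norm_nonneg _) (hz q)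

lemma isSInt_zero : IsSInt S 0 := by
  intro q
  haveI : Fact (Nat.Prime (q.1 : ℕ)) := ⟨q.1.2⟩
  have h : QS.toPi S (0 : QS S) q = 0 := rfl
  rw [h, norm_zero]
  exact zero_le_one

lemma isSInt_intCast (n : ℤ) : IsSInt S (algebraMap ℚ (QS S) (n : ℚ)) := by
  intro q
  haveI : Fact (Nat.Prime (q.1 : ℕ)) := ⟨q.1.2⟩
  have h : QS.toPi S (algebraMap ℚ (QS S) (n : ℚ)) q = ((n : ℚ) : ℚ_[(q.1 : ℕ)]) := by
    have := (QS.proj S q).commutes (n : ℚ)
    rw [QS.proj_apply] at this
    rw [this, eq_ratCast]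
  rw [h]
  have := Padic.norm_int_le_one (p := (q.1 : ℕ)) n
  simpa using this

lemma isSInt_sum {ι : Type*} (s : Finset ι) (f : ι → QS S) (h : ∀ i ∈ s, IsSInt S (f i)) :
    IsSInt S (∑ i ∈ s, f i) := by
  classical
  induction s using Finset.induction_on with
  | empty => simpa using isSInt_zero S
  | insert a s ha ih =>
    rw [Finset.sum_insert ha]
    exact (h a (Finset.mem_insert_self a s)).add
      (ih (fun i hi => h i (Finset.mem_insert_of_mem hi)))

/-! ### Coordinates -/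

/-- The index set of the integral basis. -/
abbrev Idx : Type := Module.Free.ChooseBasisIndex ℤ (𝓞 L)

/-- The coordinates on `L ⊗ ℚ_S` with respect to the integral basis of `L`. -/
noncomputable def co (i : Idx L) : AS S L →ₗ[ℚ] QS S :=
  (TensorProduct.lid ℚ (QS S)).toLinearMap ∘ₗ
    (LinearMap.rTensor (QS S) ((NumberField.integralBasis L).coord i))

@[simp] lemma co_tmul (i : Idx L) (l : L) (y : QS S) :
    co S L i (l ⊗ₜ[ℚ] y) = ((NumberField.integralBasis L).repr l i) • y := by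
  simp [co]

lemma co_mul_asIncl (i : Idx L) (c : AS S L) (y : QS S) :
    co S L i (c * asIncl S L y) = co S L i c * y := by
  induction c using TensorProduct.induction_on with
  | zero => simp
  | tmul l z =>
    have h : (l ⊗ₜ[ℚ] z : AS S L) * asIncl S L y = l ⊗ₜ[ℚ] (z * y) := by
      change (l ⊗ₜ[ℚ] z : AS S L) * ((1 : L) ⊗ₜ[ℚ] y) = _
      rw [Algebra.TensorProduct.tmul_mul_tmul, mul_one]
    rw [h, co_tmul, co_tmul, smul_mul_assoc]
  | add a b ha hb => rw [add_mul, map_add, map_add, ha, hb, add_mul]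

lemma co_asDiag (i : Idx L) (x : L) :
    co S L i (asDiag S L x) = algebraMap ℚ (QS S) ((NumberField.integralBasis L).repr x i) := by
  rw [asDiag_apply, co_tmul, Algebra.smul_def, mul_one]

/-- If all coordinates of `x ⊗ 1` are `S`-integral, then `x` is integral at every prime of `L`
above `S`. -/
theorem valuation_le_one_of_isSInt_co (w : HeightOneSpectrum (𝓞 L)) (hw : IsAbove S L w) (x : L)
    (hx : ∀ i, IsSInt S (co S L i (asDiag S L x))) : w.valuation L x ≤ 1 := by
  obtain ⟨q, hqS, hq⟩ := hw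
  have hrepr := (NumberField.integralBasis L).sum_repr x
  rw [← hrepr]
  apply Valuation.map_sum_le
  intro i _
  rw [Algebra.smul_def, map_mul]
  have h1 : w.valuation L (algebraMap ℚ L ((NumberField.integralBasis L).repr x i)) ≤ 1 := by
    apply valuation_rat_le_one L w q.2 hq
    have h2 := hx i ⟨q, hqS⟩
    rw [co_asDiag] at h2
    have h3 : QS.toPi S (algebraMap ℚ (QS S) ((NumberField.integralBasis L).repr x i))
        ⟨q, hqS⟩ = (((NumberField.integralBasis L).repr x i : ℚ) : @Padic (q : ℕ) ⟨q.2⟩) := by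
      have := (QS.proj S ⟨q, hqS⟩).commutes ((NumberField.integralBasis L).repr x i)
      rw [QS.proj_apply] at this
      rw [this, eq_ratCast]
    rw [h3] at h2
    exact h2
  have h4 : w.valuation L (NumberField.integralBasis L i) ≤ 1 := by
    rw [NumberField.integralBasis_apply]
    exact HeightOneSpectrum.valuation_le_one w _
  exact mul_le_one' h1 h4

end Fermat.Agent.S55.G.PL1H173

end
-- ===== PACK-END S55/G/PL1H173/Coord.lean

-- ===== PACK-BEGIN S55/G/PL1H173/Lattice.lean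
section


/-!
# S55 layer G, leaf G-PL1 (helper173): integrality over `ℤ_S` in `L ⊗ ℚ_S`

* `ZS S = ∏_{q ∈ S} ℤ_q`, `zsIncl : ZS S →+* L ⊗ ℚ_S`;
* `exists_bound`: every element of `L ⊗ ℚ_S` has `S`-integral coordinates after multiplication
  by a non-zero natural number;
* `isIntegralElem_of_forall_mem_intRing`: an element which is integral at every place is
  integral over `ℤ_S`;
* `exists_bound_pow`: the powers of an element which is integral over `ℤ_S` have bounded
  denominators.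
-/

set_option autoImplicit false
set_option linter.unusedSectionVars false
set_option linter.style.haveILetI false

open scoped NumberField TensorProduct
open IsDedekindDomain

namespace Fermat.Agent.S55.G.PL1H173

open Fermat.Agent.S55.G Fermat.Agent.S55.G.PL0H713

variable (S : Finset Nat.Primes) (L : Type) [Field L] [NumberField L]

/-- `ℤ_S = ∏_{q ∈ S} ℤ_q`. -/
abbrev ZS : Type := ∀ q : S, @PadicInt (q.1 : ℕ) ⟨q.1.2⟩

/-- The inclusion `ℤ_S → ℚ_S`. -/
noncomputable def zsToQS : ZS S →+* QS S :=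
  ((QS.toPi S).symm : (∀ q : S, Qq q.1) →+* QS S).comp
    (RingHom.pi fun q : S =>
      (@PadicInt.Coe.ringHom (q.1 : ℕ) ⟨q.1.2⟩).comp
        (Pi.evalRingHom (fun q : S => @PadicInt (q.1 : ℕ) ⟨q.1.2⟩) q))

lemma toPi_zsToQS (u : ZS S) (q : S) :
    QS.toPi S (zsToQS S u) q = ((u q : @PadicInt (q.1 : ℕ) ⟨q.1.2⟩) : Qq q.1) := rfl

lemma isSInt_zsToQS (u : ZS S) : IsSInt S (zsToQS S u) := by
  intro q
  rw [toPi_zsToQS]
  exact (u q).2

/-- The structure map `ℤ_S → L ⊗ ℚ_S`. -/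
noncomputable def zsIncl : ZS S →+* AS S L :=
  ((asIncl S L : QS S →ₐ[ℚ] AS S L) : QS S →+* AS S L).comp (zsToQS S)

lemma zsIncl_apply (u : ZS S) : zsIncl S L u = asIncl S L (zsToQS S u) := rfl

lemma mk_comp_zsIncl (𝔪 : SPlace S L) :
    (LocField.mk S 𝔪).comp (zsIncl S L) =
      (ofZq S L 𝔪).comp
        (Pi.evalRingHom (fun q : S => @PadicInt (q.1 : ℕ) ⟨q.1.2⟩) (primeOf S L 𝔪)) := by
  refine RingHom.ext fun u => ?_
  change LocField.ofQS S 𝔪 (zsToQS S u) = _
  rw [ofQS_eq, toPi_zsToQS]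
  rfl

/-! ### Bounded denominators -/

lemma toPi_nsmul (D : ℕ) (y : QS S) (q : S) :
    QS.toPi S (D • y) q = (D : Qq q.1) * QS.toPi S y q := by
  rw [map_nsmul, Pi.smul_apply, nsmul_eq_mul]

lemma IsSInt.nsmul {y : QS S} (hy : IsSInt S y) (D : ℕ) : IsSInt S (D • y) := by
  intro q
  haveI : Fact (Nat.Prime (q.1 : ℕ)) := ⟨q.1.2⟩
  rw [toPi_nsmul, norm_mul]
  have h1 : ‖((D : ℕ) : ℚ_[(q.1 : ℕ)])‖ ≤ 1 := by
    have := Padic.norm_int_le_one (p := (q.1 : ℕ)) (D : ℤ)
    simpa using this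
  exact mul_le_one₀ h1 (norm_nonneg _) (hy q)

/-- Clearing the denominators of an element of `ℚ_S` at a finite set of primes. -/
lemma exists_nsmul_norm_le_one (y : QS S) (T : Finset S) :
    ∃ D : ℕ, D ≠ 0 ∧ ∀ q ∈ T, ‖QS.toPi S (D • y) q‖ ≤ 1 := by
  classical
  induction T using Finset.induction_on with
  | empty => exact ⟨1, one_ne_zero, fun q hq => absurd hq (Finset.notMem_empty q)⟩
  | insert q₀ T hq₀ ih =>
    obtain ⟨D, hD0, hD⟩ := ih
    haveI : Fact (Nat.Prime (q₀.1 : ℕ)) := ⟨q₀.1.2⟩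
    have h1 : (1 : ℝ) < ((q₀.1 : ℕ) : ℝ) := by exact_mod_cast q₀.1.2.one_lt
    obtain ⟨e, he⟩ := pow_unbounded_of_one_lt ‖QS.toPi S y q₀‖ h1
    refine ⟨D * (q₀.1 : ℕ) ^ e, mul_ne_zero hD0 (pow_ne_zero _ q₀.1.2.ne_zero), ?_⟩
    intro q hq
    haveI : Fact (Nat.Prime (q.1 : ℕ)) := ⟨q.1.2⟩
    rcases Finset.mem_insert.1 hq with rfl | hqT
    · rw [toPi_nsmul, norm_mul]
      have h2 : ‖((D * (q.1 : ℕ) ^ e : ℕ) : ℚ_[(q.1 : ℕ)])‖ ≤ ((q.1 : ℕ) : ℝ) ^ (-(e : ℤ)) := by
        push_cast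
        rw [norm_mul, Padic.norm_p_pow]
        have h3 : ‖((D : ℕ) : ℚ_[(q.1 : ℕ)])‖ ≤ 1 := by
          have := Padic.norm_int_le_one (p := (q.1 : ℕ)) (D : ℤ)
          simpa using this
        calc ‖((D : ℕ) : ℚ_[(q.1 : ℕ)])‖ * ((q.1 : ℕ) : ℝ) ^ (-(e : ℤ))
            ≤ 1 * ((q.1 : ℕ) : ℝ) ^ (-(e : ℤ)) :=
              mul_le_mul_of_nonneg_right h3 (zpow_nonneg (by positivity) _)
          _ = _ := one_mul _
      have hpos : (0 : ℝ) < ((q.1 : ℕ) : ℝ) ^ e := pow_pos (by linarith) _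
      calc ‖((D * (q.1 : ℕ) ^ e : ℕ) : ℚ_[(q.1 : ℕ)])‖ * ‖QS.toPi S y q‖
          ≤ ((q.1 : ℕ) : ℝ) ^ (-(e : ℤ)) * ((q.1 : ℕ) : ℝ) ^ e :=
            mul_le_mul h2 he.le (norm_nonneg _) (zpow_nonneg (by positivity) _)
        _ = 1 := by
          rw [zpow_neg, zpow_natCast, inv_mul_cancel₀ hpos.ne']
    · have h4 := hD q hqT
      rw [mul_comm, mul_smul, toPi_nsmul, norm_mul]
      have h5 : ‖(((q₀.1 : ℕ) ^ e : ℕ) : ℚ_[(q.1 : ℕ)])‖ ≤ 1 := by
        have := Padic.norm_int_le_one (p := (q.1 : ℕ)) (((q₀.1 : ℕ) ^ e : ℕ) : ℤ)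
        simpa using this
      exact mul_le_one₀ h5 (norm_nonneg _) h4

lemma exists_nsmul_isSInt (y : QS S) : ∃ D : ℕ, D ≠ 0 ∧ IsSInt S (D • y) := by
  obtain ⟨D, hD0, hD⟩ := exists_nsmul_norm_le_one S y Finset.univ
  exact ⟨D, hD0, fun q => hD q (Finset.mem_univ q)⟩

/-- Clearing the denominators of a finite family in `ℚ_S`. -/
lemma exists_nsmul_isSInt_finset {ι : Type*} (s : Finset ι) (f : ι → QS S) :
    ∃ D : ℕ, D ≠ 0 ∧ ∀ i ∈ s, IsSInt S (D • f i) := by
  classical
  induction s using Finset.induction_on with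
  | empty => exact ⟨1, one_ne_zero, fun i hi => absurd hi (Finset.notMem_empty i)⟩
  | insert a s ha ih =>
    obtain ⟨D, hD0, hD⟩ := ih
    obtain ⟨D', hD'0, hD'⟩ := exists_nsmul_isSInt S (f a)
    refine ⟨D * D', mul_ne_zero hD0 hD'0, ?_⟩
    intro i hi
    rcases Finset.mem_insert.1 hi with rfl | his
    · rw [mul_smul]
      exact hD'.nsmul S D
    · rw [mul_comm, mul_smul]
      exact (hD i his).nsmul S D'

/-- `c` has `S`-integral coordinates after multiplication by `D`. -/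
def Bdd (D : ℕ) (c : AS S L) : Prop := ∀ i, IsSInt S (co S L i (D • c))

lemma exists_bound (c : AS S L) : ∃ D : ℕ, D ≠ 0 ∧ Bdd S L D c := by
  obtain ⟨D, hD0, hD⟩ := exists_nsmul_isSInt_finset S Finset.univ (fun i => co S L i c)
  refine ⟨D, hD0, fun i => ?_⟩
  rw [map_nsmul]
  exact hD i (Finset.mem_univ i)

lemma Bdd.mul_left {D : ℕ} {c : AS S L} (h : Bdd S L D c) (D' : ℕ) : Bdd S L (D' * D) c := by
  intro i
  rw [mul_smul, map_nsmul]
  exact (h i).nsmul S D'

/-! ### Integrality over `ℤ_S` -/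

/-- An element of `L ⊗ ℚ_S` which is integral at every place is integral over `ℤ_S`. -/
theorem isIntegralElem_of_forall_mem_intRing (β : AS S L)
    (h : ∀ 𝔪 : SPlace S L, LocField.mk S 𝔪 β ∈ intRing S L 𝔪) :
    (zsIncl S L).IsIntegralElem β := by
  classical
  haveI : Finite (SPlace S L) := finite_sPlace S L
  letI : Fintype (SPlace S L) := Fintype.ofFinite _
  haveI := isArtinianRing_AS S L
  -- local polynomials
  have hloc : ∀ 𝔪 : SPlace S L, ∃ P : Polynomial (ZS S), P.Monic ∧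
      Polynomial.eval₂ (zsIncl S L) β P ∈ 𝔪.asIdeal := by
    intro 𝔪
    haveI : Fact (Nat.Prime ((primeOf S L 𝔪).1 : ℕ)) := ⟨(primeOf S L 𝔪).1.2⟩
    obtain ⟨p, hp, hpz⟩ := (mem_intRing_iff S L 𝔪 _).1 (h 𝔪)
    have hsurj : Function.Surjective
        (Pi.evalRingHom (fun q : S => @PadicInt (q.1 : ℕ) ⟨q.1.2⟩) (primeOf S L 𝔪)) :=
      Function.surjective_eval _
    obtain ⟨P, hPmap, -, hPmonic⟩ :=
      Polynomial.lifts_and_degree_eq_and_monic (Polynomial.mem_lifts_of_surjective hsurj p) hp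
    refine ⟨P, hPmonic, ?_⟩
    rw [← LocField.mk_eq_zero_iff, Polynomial.hom_eval₂, mk_comp_zsIncl, ← Polynomial.eval₂_map,
      hPmap]
    exact hpz
  choose P hPmonic hPmem using hloc
  -- the product lies in the Jacobson radical
  have hjac : Polynomial.eval₂ (zsIncl S L) β (∏ 𝔪, P 𝔪) ∈ Ideal.jacobson (⊥ : Ideal (AS S L)) := by
    rw [Ideal.jacobson, Ideal.mem_sInf]
    rintro J ⟨-, hJ⟩
    let 𝔪₀ : SPlace S L := ⟨J, hJ⟩
    have h1 : LocField.mk S 𝔪₀ (Polynomial.eval₂ (zsIncl S L) β (∏ 𝔪, P 𝔪)) = 0 := by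
      rw [Polynomial.eval₂_finsetProd, map_prod]
      exact Finset.prod_eq_zero (Finset.mem_univ 𝔪₀)
        ((LocField.mk_eq_zero_iff S 𝔪₀ _).2 (hPmem 𝔪₀))
    exact (LocField.mk_eq_zero_iff S 𝔪₀ _).1 h1
  obtain ⟨k, hk⟩ := IsArtinianRing.isNilpotent_jacobson_bot (R := AS S L)
  refine ⟨(∏ 𝔪, P 𝔪) ^ k, (Polynomial.monic_prod_of_monic _ _ (fun 𝔪 _ => hPmonic 𝔪)).pow k, ?_⟩
  rw [Polynomial.eval₂_pow]
  have h2 := Ideal.pow_mem_pow hjac k
  rw [hk] at h2
  exact h2

/-- The powers of an element which is integral over `ℤ_S` have bounded denominators. -/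
theorem exists_bound_pow (β : AS S L) (hβ : (zsIncl S L).IsIntegralElem β) :
    ∃ D : ℕ, D ≠ 0 ∧ ∀ j : ℕ, Bdd S L D (β ^ j) := by
  classical
  letI : Algebra (ZS S) (AS S L) := (zsIncl S L).toAlgebra
  have hint : IsIntegral (ZS S) β := hβ
  obtain ⟨t, ht⟩ := hint.fg_adjoin_singleton
  choose Dfun hD0 hD using exists_bound S L
  -- the lattice of elements bounded by `D`
  let D : ℕ := ∏ g ∈ t, Dfun g
  have hD0' : D ≠ 0 := Finset.prod_ne_zero_iff.2 (fun g _ => hD0 g)
  let Lat : Submodule (ZS S) (AS S L) :=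
    { carrier := {c | Bdd S L D c}
      add_mem' := fun {a b} ha hb i => by
        rw [smul_add, map_add]
        exact (ha i).add (hb i)
      zero_mem' := fun i => by
        rw [smul_zero, map_zero]
        exact isSInt_zero S
      smul_mem' := fun u c hc i => by
        have h1 : (D • (u • c) : AS S L) = (D • c) * asIncl S L (zsToQS S u) := by
          change (D • (zsIncl S L u * c) : AS S L) = _
          rw [zsIncl_apply, mul_comm, smul_mul_assoc]
        rw [h1, co_mul_asIncl]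
        exact (hc i).mul (isSInt_zsToQS S u) }
  have hsub : ∀ g ∈ t, g ∈ Lat := by
    intro g hg
    have h1 : D = (∏ g' ∈ t.erase g, Dfun g') * Dfun g := by
      rw [mul_comm]
      exact (Finset.mul_prod_erase t Dfun hg).symm
    change Bdd S L D g
    rw [h1]
    exact (hD g).mul_left S L _
  have hle : Submodule.span (ZS S) (t : Set (AS S L)) ≤ Lat := Submodule.span_le.2 hsub
  refine ⟨D, hD0', fun j => ?_⟩
  have h2 : β ^ j ∈ (Algebra.adjoin (ZS S) {β}).toSubmodule :=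
    Subalgebra.pow_mem _ (Algebra.self_mem_adjoin_singleton _ β) j
  rw [← ht] at h2
  exact hle h2

end Fermat.Agent.S55.G.PL1H173

end
-- ===== PACK-END S55/G/PL1H173/Lattice.lean

-- ===== PACK-BEGIN S55/K/AR/Assembly.lean
section
/-
S55 moonshot — LAYER K, block AR: ASSEMBLY of the arithmetic core.          helper4.
No `sorry`.

`towers_of_leaves`   : the leaves of `K/AR/Spec.lean` ⇒ E3, E2, HASSE, COKER, WEAK RECIPROCITY;
`surj2Glob_of_leaves`: the leaves + `Tow.GlobalSpecFin S p` + `Tow.LocalSpec p` ⇒ input A3 of layer D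
                       (`PT.Surj2GlobSpec p S`).
-/



set_option autoImplicit false

noncomputable section

namespace Fermat.Agent.S55.K.AR

open Fermat.Agent.S55 Fermat.Agent.S55.Tow ExtCitation

/-- All the leaves of the arithmetic core. -/
structure Leaves (S : Finset Nat.Primes) (p : ℕ) : Prop where
  ses : SesLeaf S p
  cap1 : CapH1Leaf S p
  cap2 : CapH2Leaf S p
  h1C : H1CLeaf S p
  h2C : H2CLeaf S p
  kappa : KappaLeaf S p
  h3J : H3JLeaf S p
  j2Div : J2DivLeaf S p
  dec : DecLeaf S p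
  muDir : MuDirLeaf S p
  surjJC : SurjJCLeaf S p
  kerDiv : KerDivLeaf S p
  hasse : HasseLeaf S p
  e3 : E3Leaf S p
  e2 : E2Leaf S p
  coker : CokerLeaf S p
  weakRecip : WeakRecipLeaf S p

variable {S : Finset Nat.Primes} {p : ℕ}

/-- The tower statements from the leaves. -/
theorem towers_of_leaves (ℓ : Leaves S p) (c : Ctx S p) (hL : LocalSpec p) :
    E3Tower S p ∧ E2Tower S p ∧ HasseTower S p ∧ CokerTower S p ∧ WeakRecipTower S p := by
  obtain ⟨hp, -, -⟩ := c.adm
  have hses := ℓ.ses c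
  have hmu := ℓ.muDir c.adm
  have hdec := ℓ.dec c.adm
  have hcyc := ℓ.h2C c
  have hkap := ℓ.kappa c hL
  have hcap2 := ℓ.cap2 c
  have hhasse : HasseTower S p := ℓ.hasse c hses (ℓ.h1C c) (ℓ.cap1 c) hmu
  have hsurj := ℓ.surjJC c hcyc hkap hdec
  have hker := ℓ.kerDiv c hcyc hkap hdec (ℓ.j2Div hp hL)
  exact ⟨ℓ.e3 c hses (ℓ.h3J hp hL) hsurj hcap2 hmu, ℓ.e2 c hses hker hcap2 hhasse hmu,
    hhasse, ℓ.coker c hses hcyc hcap2 hhasse hmu, ℓ.weakRecip c⟩

/-- **Input A3 of layer D from the arithmetic core.** -/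
theorem surj2Glob_of_leaves (p : ℕ) [Fact p.Prime] (S : Finset Nat.Primes) (ℓ : Leaves S p)
    (hD3 : DictE3Spec S p) (hD2 : DictE2Spec S p)
    (hG : GlobalSpecFin S p) (hL : LocalSpec p) (hp2 : p ≠ 2) (hpS : pPrime p ∈ S) :
    Fermat.Agent.S55.PT.Surj2GlobSpec p S := by
  obtain ⟨D, hD⟩ := hG
  have c : Ctx S p := ⟨D, hD, ⟨(Fact.out : p.Prime), hp2, hpS⟩⟩
  obtain ⟨h3, h2, -⟩ := towers_of_leaves ℓ c hL
  exact surj2Glob_of_go12 p S (Fermat.Agent.S55.K.H724.kummer p S)
    (go12_of_tower p S hD3 hD2 h3 h2) hp2 hpS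

end Fermat.Agent.S55.K.AR

end

end
-- ===== PACK-END S55/K/AR/Assembly.lean

-- ===== PACK-BEGIN S55/PT/TopGlobDevH123.lean
section



/-!
# S55 / layer D, leaf D-T2b: `TopGlobDevSpec`   (helper123)

`topGlobDev : TopGlobDevSpec p S` — global top-degree duality `T³(N) ≃ Dual (Hom_G(N, μ))` for all
finite-dimensional smooth `N`, from local top duality (only its surjectivity at the place `p`),
A7 (`TopGlobIndSpec`) and local right exactness of `H²` (A4).

The hypotheses `LesMidSpec`, `LocalNormalCofinalSpec`, `Surj2GlobSpec` of the Spec are NOT used: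
the four lemma only needs `T³(Q) ↠ T³(N)`, `Θ(R)` onto, `Θ(Q)` into and left exactness of
`Hom_G(−, μ)`.

The generic statement is `H123.topT3_bijective_of` (`PT/H123/TopGlobE.lean`).
-/

set_option autoImplicit false

noncomputable section

namespace Fermat.Agent.S55.PT.H123

open groupCohomology ExtCitation Fermat.Agent.S55.PT Fermat.Agent.S55.Bridge

attribute [local instance] isAlgebraic_Qbar isGalois_Qbar

/-- `χ_p` is trivial on some level of `globalLevels S` when `p ∈ S`. -/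
lemma exists_level_cycloChar_eq_one (p : ℕ) [Fact p.Prime] (S : Finset Nat.Primes)
    (hpS : pPrime p ∈ S) :
    ∃ U ∈ (globalLevels S).levels, ∀ u ∈ U, cycloChar p u = 1 := by
  haveI : (MonoidHom.ker (cycloChar p)).Normal := MonoidHom.normal_ker _
  obtain ⟨F, hF, -, hfix, -⟩ := exists_galois_level_of_subgroup S (MonoidHom.ker (cycloChar p))
    (cycloLevel p) (cycloLevel_finiteDimensional p)
    (fun s hs => MonoidHom.mem_ker.2 (cycloChar_eq_one_of_mem_fixingSubgroup p s hs))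
    (fun q hq A hA g hg => by
      have hqp : (q : ℕ) ≠ p := by
        intro h
        apply hq
        have : q = pPrime p := Subtype.ext h
        rw [this]
        exact hpS
      exact MonoidHom.mem_ker.2 (cycloChar_eq_one_of_mem_inertia p q.2 hqp A hA g hg))
  refine ⟨F.fixingSubgroup, ⟨F, hF, rfl⟩, fun u hu => ?_⟩
  rw [hfix] at hu
  exact MonoidHom.mem_ker.1 hu

variable (p : ℕ) [Fact p.Prime] (S : Finset Nat.Primes)

/-- **D-T2b.** -/
theorem topGlobDev : TopGlobDevSpec p S := by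
  intro _ hGN _ hGF hpS inv hrec hloc hInd _ hS2l N hfd hsm
  refine topT3_bijective_of (hrl S) (hGN S) (hGF S) hrec
    (exists_level_cycloChar_eq_one p S hpS) ⟨pPrime p, hpS⟩
    (fun N' h1 h2 => (hloc ⟨pPrime p, hpS⟩ N' h1 h2).2) ?_
    (fun v P N' φ hφ h1 h2 h3 h4 => hS2l v.1 v.2 P N' φ hφ h1 h2 h3 h4) N hfd hsm
  intro U hU hUn hχU x hx
  refine hInd U hU hUn (fun s hs => ?_) x ?_
  · apply LinearMap.ext
    intro c
    rw [ofChar_ρ_apply, hχU s hs, Units.val_one, one_mul]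
    rfl
  · simp only [topIndFun, LinearMap.sum_apply, LinearMap.comp_apply, LinearMap.proj_apply]
    exact hx

end Fermat.Agent.S55.PT.H123

end

end
-- ===== PACK-END S55/PT/TopGlobDevH123.lean

-- ===== PACK-BEGIN S55/PT/Final2.lean
section




/-!
# S55 / layer D: final wiring, version 2 (helper835)

ALL formal leaves of layer D are now proved (D-T2a by helper299, D-T2b by helper123).
S55 is reduced to exactly the four arithmetic inputs

* `Surj2GlobSpec p S` (A3: `H²(G_S, -)` right exact),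
* `Surj2LocSpec p S`  (A4: `H²(G_q, -)` right exact),
* `InvSpec p S`       (A5–A7: invariant maps, reciprocity, top duality on induced `μ`),
* `CapSpec p S`       (A8: `Ш²(Ind_U μ) → Ш²(Ind_V μ)` eventually zero).
-/

set_option autoImplicit false

noncomputable section

namespace Fermat.Agent.S55.PT

open groupCohomology ExtCitation Fermat.Agent.S55.Bridge

/-- **Theorem D from the four arithmetic inputs** A3, A4, A5–A7, A8. -/
theorem theoremD_of_four (p : ℕ) [Fact p.Prime] (S : Finset Nat.Primes) (hpS : pPrime p ∈ S)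
    (hSurjG : Surj2GlobSpec p S) (hSurjL : Surj2LocSpec p S)
    (hInv : InvSpec p S) (hCap : CapSpec p S) : TheoremDSpec p S :=
  theoremD_of_arith p S hpS (H299.topLocDev p S) (H123.topGlobDev p S) hSurjG hSurjL hInv hCap

/-- **S55 from the four arithmetic inputs** A3, A4, A5–A7, A8. -/
theorem s55_of_four {p : ℕ} [Fact p.Prime] (hp2 : p ≠ 2) (S : Finset Nat.Primes)
    (hpS : pPrime p ∈ S)
    (hSurjG : Surj2GlobSpec p S) (hSurjL : Surj2LocSpec p S)
    (hInv : InvSpec p S) (hCap : CapSpec p S)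
    (M : Rep (ZMod p) (AlgebraicClosure ℚ ≃ₐ[ℚ] AlgebraicClosure ℚ))
    [FiniteDimensional (ZMod p) M]
    (hsm : ∀ m : M, ∃ F : IntermediateField ℚ (AlgebraicClosure ℚ), FiniteDimensional ℚ F ∧
      ∀ s ∈ F.fixingSubgroup, M.ρ s m = m)
    (hMur : ∀ q : Nat.Primes, q ∉ S → ∀ A : ValuationSubring (AlgebraicClosure ℚ),
      A.LiesOverPrime (q : ℕ) → ∀ g ∈ A.inertiaSubgroupIn ℚ, M.ρ g = 1) :
    ∃ B : sha₁ S (M.dualTwist (cycloChar p)) →ₗ[ZMod p] sha₂ S M →ₗ[ZMod p] ZMod p,
      (∀ y, (∀ x, B y x = 0) → y = 0) ∧ (∀ x, (∀ y, B y x = 0) → x = 0) :=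
  s55_of_arith hp2 S hpS (H299.topLocDev p S) (H123.topGlobDev p S) hSurjG hSurjL hInv hCap M hsm hMur

end Fermat.Agent.S55.PT

end

end
-- ===== PACK-END S55/PT/Final2.lean

-- ===== PACK-BEGIN S56/Euler/Big/H2FH29.lean
section



/-!
# Row S56 / BASE-BIG — leaf H2F (helper29): the `H²` formula

`h2Formula_of : FinGlob → TheoremD → TopLoc → TopGlob → H2FormulaSpec p S` and
`h2Formula_of_four : Surj2Glob → Surj2Loc → Inv → Cap → H2FormulaSpec p S`.

Pure rank–nullity on the tail of the Poitou–Tate sequence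
`0 → Ш²(N) → H²(N) → ∏_v H²(G_v, N) → T³(N) → 0` with
`Ш²(N) ≃ Dual Ш¹(N′)` (Theorem D), `H²(G_v, N) ≃ Dual (charHom_v N)` (TOP-loc),
`T³(N) ≃ Dual (charHom N)` (TOP-glob).
-/

set_option autoImplicit false

noncomputable section

namespace Fermat.Agent.S56.Euler.H29

open Fermat.Agent.S56 Fermat.Agent.S55.PT ExtCitation Module

/-! ### Mathlib-only linear algebra -/

section LinAlg

variable {K : Type*} [Field K]

/-- A bijective linear map onto the dual of a finite-dimensional space: the source is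
finite-dimensional of the same dimension. -/
theorem finite_and_finrank_of_bijective_dual {V W : Type*} [AddCommGroup V] [Module K V]
    [AddCommGroup W] [Module K W] [FiniteDimensional K W]
    (f : V →ₗ[K] Module.Dual K W) (hf : Function.Bijective f) :
    FiniteDimensional K V ∧ finrank K V = finrank K W := by
  let e : V ≃ₗ[K] Module.Dual K W := LinearEquiv.ofBijective f hf
  refine ⟨Module.Finite.equiv e.symm, ?_⟩
  rw [e.finrank_eq, Subspace.dual_finrank_eq]

/-- A linear equivalence with the dual of a finite-dimensional space. -/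
theorem finite_and_finrank_of_equiv_dual {V W : Type*} [AddCommGroup V] [Module K V]
    [AddCommGroup W] [Module K W] [FiniteDimensional K W]
    (e : V ≃ₗ[K] Module.Dual K W) :
    FiniteDimensional K V ∧ finrank K V = finrank K W := by
  refine ⟨Module.Finite.equiv e.symm, ?_⟩
  rw [e.finrank_eq, Subspace.dual_finrank_eq]

/-- Rank–nullity without assuming the source finite-dimensional: kernel and target are. -/
theorem finite_and_finrank_of_ker_of_target {V W : Type*} [AddCommGroup V] [Module K V]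
    [AddCommGroup W] [Module K W] [FiniteDimensional K W]
    (f : V →ₗ[K] W) [hk : FiniteDimensional K (LinearMap.ker f)] :
    FiniteDimensional K V ∧
      finrank K V = finrank K (LinearMap.ker f) + finrank K (LinearMap.range f) := by
  have hq : Module.Finite K (V ⧸ LinearMap.ker f) :=
    Module.Finite.equiv (LinearMap.quotKerEquivRange f).symm
  have hV : FiniteDimensional K V := Module.Finite.of_submodule_quotient (LinearMap.ker f)
  refine ⟨hV, ?_⟩
  have := LinearMap.finrank_range_add_finrank_ker f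
  omega

/-- Dimension of the cokernel, in the form "surjection with prescribed kernel". -/
theorem finrank_add_of_surjective_of_ker {V T : Type*} [AddCommGroup V] [Module K V]
    [AddCommGroup T] [Module K T] [FiniteDimensional K V]
    (π : V →ₗ[K] T) (hπ : Function.Surjective π) (R : Submodule K V)
    (hker : LinearMap.ker π = R) :
    finrank K R + finrank K T = finrank K V := by
  subst hker
  have h1 := LinearMap.finrank_range_add_finrank_ker π
  rw [LinearMap.range_eq_top.2 hπ, finrank_top] at h1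
  omega

end LinAlg

/-! ### the `H²` formula -/

variable (p : ℕ) [Fact p.Prime] (S : Finset Nat.Primes)

/-- **Leaf H2F.**  The `H²` formula from Theorem D and the two top-degree dualities. -/
theorem h2Formula_of (hFin : FinGlobSpec p S) (hD : TheoremDSpec p S) (inv : InvFamily p S)
    (hrec : IsRecip (hrl S) (cycloChar p) inv) (hTL : TopLocSpec inv)
    (hTG : TopGlobSpec inv hrec) : H2FormulaSpec p S := by
  classical
  intro _hp2 hpS N hNfd hNsm
  have := hNfd
  -- smoothness of the Tate dual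
  obtain ⟨V₁, hV₁, hV₁N⟩ := hNsm
  obtain ⟨V₂, hV₂, hV₂χ⟩ := cycloLevelSpec p S hpS
  obtain ⟨V, hV, hVle⟩ := (globalLevels S).directed V₁ hV₁ V₂ hV₂
  have hχV : ∀ u ∈ V, cycloChar p u = 1 := fun u hu => hV₂χ u (hVle hu).2
  have hNV : ∀ u ∈ V, N.ρ u = 1 := fun u hu =>
    LinearMap.ext fun a => hV₁N u (hVle hu).1 a
  have hN'triv : ∀ u ∈ V, (tdual p N).ρ u = 1 := fun u hu =>
    dualTwist_ρ_eq_one' (cycloChar p) N u (hχV u hu) (hNV u hu)
  have hN'sm : (globalLevels S).IsUSmooth (tdual p N) := isUSmooth_of_trivial _ hV hN'triv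
  have hNsm' : (globalLevels S).IsUSmooth N := ⟨V₁, hV₁, hV₁N⟩
  -- `Ш¹(N′)` is finite-dimensional
  have hH1 : FiniteDimensional (ZMod p) ((globalLevels S).H1 (tdual p N)) :=
    hFin (tdual p N) inferInstance hN'sm
  have hSha1 : FiniteDimensional (ZMod p) ↥(Sha1 (hrl S) (tdual p N)) :=
    FiniteDimensional.finiteDimensional_submodule _
  -- Theorem D
  obtain ⟨eD⟩ := hD N hNfd hNsm'
  obtain ⟨hSha2fd, hSha2⟩ := finite_and_finrank_of_equiv_dual eD
  -- local top dualities
  have hloc : ∀ v : ↥S,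
      FiniteDimensional (ZMod p) ((localLevels v.1).H2 (Rep.res (rl v.1) N)) ∧
      finrank (ZMod p) ((localLevels v.1).H2 (Rep.res (rl v.1) N)) =
        finrank (ZMod p) ↥(charHom (cycloLoc p v.1) (Rep.res (rl v.1) N)) := fun v =>
    finite_and_finrank_of_bijective_dual _
      (hTL v (Rep.res (rl v.1) N) inferInstance (hNsm'.res (hrl S v)))
  have hlocfd : ∀ v : ↥S,
      FiniteDimensional (ZMod p) ((localLevels v.1).H2 (Rep.res (rl v.1) N)) :=
    fun v => (hloc v).1
  have hprod : finrank (ZMod p) ((v : ↥S) → (localLevels v.1).H2 (Rep.res (rl v.1) N)) =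
      ∑ v : ↥S, finrank (ZMod p) ↥(charHom (cycloLoc p v.1) (Rep.res (rl v.1) N)) := by
    rw [Module.finrank_pi_fintype]
    exact Finset.sum_congr rfl fun v _ => (hloc v).2
  -- global top duality
  have hTGN : Function.Bijective (topT3 (hrl S) N hrec) := hTG N hNfd hNsm'
  obtain ⟨_, hT3⟩ := @finite_and_finrank_of_bijective_dual (ZMod p) _ (T3 (hrl S) N)
    ↥(charHom (cycloChar p) N) _ _ _ _ _ (topT3 (hrl S) N hrec) hTGN
  -- rank–nullity for `loc2`
  have : FiniteDimensional (ZMod p) ↥(LinearMap.ker (loc2 (hrl S) N)) := hSha2fd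
  obtain ⟨hH2fd, hH2⟩ := finite_and_finrank_of_ker_of_target (loc2 (hrl S) N)
  have hcok := finrank_add_of_surjective_of_ker (T3π (hrl S) N) (T3π_surjective (hrl S) N)
    (LinearMap.range (loc2 (hrl S) N)) (ker_T3π (hrl S) N)
  refine ⟨hH2fd, ?_⟩
  have hSha2' : finrank (ZMod p) ↥(LinearMap.ker (loc2 (hrl S) N)) =
      finrank (ZMod p) ↥(Sha1 (hrl S) (tdual p N)) := hSha2
  rw [← hprod, ← hcok, hH2, hSha2', ← hT3]
  omega

/-- **Leaf H2F, from the four arithmetic inputs** A3, A4, A5–A7, A8 of S55. -/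
theorem h2Formula_of_four (hSurjG : Surj2GlobSpec p S) (hSurjL : Surj2LocSpec p S)
    (hInv : InvSpec p S) (hCap : CapSpec p S) : H2FormulaSpec p S := by
  intro hp2 hpS
  have hD : TheoremDSpec p S := theoremD_of_four p S hpS hSurjG hSurjL hInv hCap
  obtain ⟨inv, hrec, hTLI, hTGI⟩ := hInv
  have hrec' : IsRecip (hrl S) (cycloChar p) inv := hrec
  have hTopL : TopLocSpec inv :=
    H299.topLocDev p S H113.lesMidSpec H724.localNormalCofinal H724.localFiniteIndex inv hTLI
      hSurjL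
  have hTopG : TopGlobSpec inv hrec' :=
    H123.topGlobDev p S H113.lesMidSpec H724.globalNormalCofinal H724.localNormalCofinal
      H724.globalFiniteIndex hpS inv hrec' hTopL hTGI hSurjG hSurjL
  exact h2Formula_of p S (H593.finGlob p S) hD inv hrec' hTopL hTopG hp2 hpS

end Fermat.Agent.S56.Euler.H29

end

end
-- ===== PACK-END S56/Euler/Big/H2FH29.lean

-- ===== PACK-BEGIN S56/Euler/Big/H2CPH765.lean
section




/-!
# Row S56 / BASE-BIG — leaf H2-CP (helper765): the equivariant `H²` formula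

`h2cp_of : TopLoc → TopGlob → H2CPSpec p S` and
`h2cp_of_four : Surj2Glob → Surj2Loc → Inv → Cap → H2CPSpec p S`.

The tail `0 → H²(N) → ∏_v H²(G_v, N) → T³(N) → 0` of the Poitou–Tate sequence is exact when
`Ш²(N) = 0`, and it commutes with `T_*`.  The top pairings `topPair` (local) and `topT3` (global)
are bijective and natural (`topPair_pushH2`, `topT3_pushT3`), so `T_*` on `H²(G_v, N)`
(resp. `T³(N)`) is the transpose of `f ↦ f ∘ T` on `charHom_v N = H⁰(G_v, N′)`
(resp. `charHom N = H⁰(N′)`).  A map and its transpose have the same characteristic polynomial,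
and the characteristic polynomial is multiplicative in exact sequences and in finite products.
-/

set_option autoImplicit false

noncomputable section

namespace Fermat.Agent.S56.Euler.H765

open Polynomial Module

/-! ### Mathlib-only linear algebra -/

section LinAlg

variable {K : Type*} [Field K]

/-- The characteristic polynomial of the transpose. -/
theorem charpoly_dualMap765 {V : Type*} [AddCommGroup V] [Module K V] [FiniteDimensional K V]
    (f : V →ₗ[K] V) : f.dualMap.charpoly = f.charpoly := by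
  classical
  let b := Module.finBasis K V
  have h : LinearMap.toMatrix b.dualBasis b.dualBasis f.dualMap =
      (LinearMap.toMatrix b b f).transpose :=
    LinearMap.toMatrix_transpose (B₁ := b) (B₂ := b) f
  rw [← LinearMap.charpoly_toMatrix f b, ← LinearMap.charpoly_toMatrix f.dualMap b.dualBasis, h,
    Matrix.charpoly_transpose]

/-- Transport of characteristic polynomials along a perfect "pairing" `θ : X ≃ Dual C`
with `θ (fX x) c = θ x (fC c)`. -/
theorem charpoly_eq_of_bijective_dual765 {X C : Type*} [AddCommGroup X] [Module K X]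
    [AddCommGroup C] [Module K C] [FiniteDimensional K C] [Module.Finite K X]
    (θ : X →ₗ[K] Module.Dual K C) (hθ : Function.Bijective θ)
    (fX : X →ₗ[K] X) (fC : C →ₗ[K] C) (h : ∀ x c, θ (fX x) c = θ x (fC c)) :
    fX.charpoly = fC.charpoly := by
  let e : X ≃ₗ[K] Module.Dual K C := LinearEquiv.ofBijective θ hθ
  have hconj : e.conj fX = fC.dualMap := by
    apply LinearMap.ext
    intro y
    obtain ⟨x, rfl⟩ := e.surjective y
    rw [LinearEquiv.conj_apply_apply, LinearEquiv.symm_apply_apply]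
    apply LinearMap.ext
    intro c
    exact h x c
  rw [← LinearEquiv.charpoly_conj e fX, hconj, charpoly_dualMap765]

/-- Transport of characteristic polynomials along a linear equivalence. -/
theorem charpoly_eq_of_equiv765 {V W : Type*} [AddCommGroup V] [Module K V]
    [AddCommGroup W] [Module K W] [Module.Finite K V] [Module.Finite K W]
    (e : V ≃ₗ[K] W) (f : V →ₗ[K] V) (g : W →ₗ[K] W) (h : ∀ x, e (f x) = g (e x)) :
    f.charpoly = g.charpoly := by
  have hconj : e.conj f = g := by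
    apply LinearMap.ext
    intro y
    obtain ⟨x, rfl⟩ := e.surjective y
    rw [LinearEquiv.conj_apply_apply, LinearEquiv.symm_apply_apply]
    exact h x
  rw [← LinearEquiv.charpoly_conj e f, hconj]

end LinAlg


section Pi

variable {K : Type*} [Field K]

/-- The characteristic polynomial of a product map is the product of the characteristic
polynomials (dependent, finite index type). -/
theorem charpoly_pi765_aux : ∀ (n : ℕ) {ι : Type} [Fintype ι] [DecidableEq ι]
    (M : ι → Type) [∀ v, AddCommGroup (M v)] [∀ v, Module K (M v)]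
    [∀ v, Module.Finite K (M v)] (f : ∀ v, M v →ₗ[K] M v), Fintype.card ι = n →
    (LinearMap.pi fun v => f v ∘ₗ LinearMap.proj v : (∀ v, M v) →ₗ[K] (∀ v, M v)).charpoly =
      ∏ v, (f v).charpoly := by
  intro n
  induction n with
  | zero =>
    intro ι _ _ M _ _ _ f hcard
    have : IsEmpty ι := Fintype.card_eq_zero_iff.1 hcard
    have h0 : (LinearMap.pi fun v => f v ∘ₗ LinearMap.proj v : (∀ v, M v) →ₗ[K] (∀ v, M v)) = 0 :=
      Subsingleton.elim _ _
    rw [h0, LinearMap.charpoly_zero, Module.finrank_zero_of_subsingleton, pow_zero,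
      Finset.univ_eq_empty, Finset.prod_empty]
  | succ n ih =>
    intro ι _ _ M _ _ _ f hcard
    have hne : Nonempty ι := Fintype.card_pos_iff.1 (by omega)
    obtain ⟨v₀⟩ := hne
    let ι' := {v : ι // v ≠ v₀}
    have hcard' : Fintype.card ι' = n := by
      have := Fintype.card_subtype_compl (fun v : ι => v = v₀)
      simp only [Fintype.card_subtype_eq] at this
      show Fintype.card {v : ι // ¬ v = v₀} = n
      omega
    let i : M v₀ →ₗ[K] (∀ v, M v) := LinearMap.single K M v₀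
    let g : (∀ v, M v) →ₗ[K] (∀ v : ι', M v.1) := LinearMap.pi fun v => LinearMap.proj v.1
    have hi : Function.Injective i := Pi.single_injective v₀
    have hg : Function.Surjective g := by
      intro y
      refine ⟨fun v => if h : v = v₀ then 0 else y ⟨v, h⟩, ?_⟩
      funext v
      show (if h : (v : ι) = v₀ then (0 : M v.1) else y ⟨v.1, h⟩) = y v
      rw [dif_neg v.2]
    have hex : LinearMap.range i = LinearMap.ker g := by
      ext x
      constructor
      · rintro ⟨y, rfl⟩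
        rw [LinearMap.mem_ker]
        funext v
        show (Pi.single v₀ y : ∀ v, M v) v.1 = 0
        exact Pi.single_eq_of_ne v.2 y
      · intro hx
        rw [LinearMap.mem_ker] at hx
        refine ⟨x v₀, ?_⟩
        funext v
        show (Pi.single v₀ (x v₀) : ∀ v, M v) v = x v
        by_cases h : v = v₀
        · subst h
          rw [Pi.single_eq_same]
        · rw [Pi.single_eq_of_ne h]
          exact (congrFun hx ⟨v, h⟩).symm
    have h1 : i ∘ₗ f v₀ =
        (LinearMap.pi fun v => f v ∘ₗ LinearMap.proj v : (∀ v, M v) →ₗ[K] (∀ v, M v)) ∘ₗ i := by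
      apply LinearMap.ext
      intro y
      funext v
      show (Pi.single v₀ (f v₀ y) : ∀ v, M v) v = f v ((Pi.single v₀ y : ∀ v, M v) v)
      by_cases h : v = v₀
      · subst h
        rw [Pi.single_eq_same, Pi.single_eq_same]
      · rw [Pi.single_eq_of_ne h, Pi.single_eq_of_ne h, map_zero]
    have h2 : g ∘ₗ
        (LinearMap.pi fun v => f v ∘ₗ LinearMap.proj v : (∀ v, M v) →ₗ[K] (∀ v, M v)) =
        (LinearMap.pi fun v : ι' => f v.1 ∘ₗ LinearMap.proj v :
          (∀ v : ι', M v.1) →ₗ[K] (∀ v : ι', M v.1)) ∘ₗ g := rfl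
    rw [Fermat.Agent.S56.H614.charpoly_of_exact i hi g hg hex (f v₀) _ _ h1 h2,
      ih (fun v : ι' => M v.1) (fun v : ι' => f v.1) hcard',
      Fintype.prod_eq_mul_prod_subtype_ne (fun v => (f v).charpoly) v₀]

theorem charpoly_pi765 {ι : Type} [Fintype ι] [DecidableEq ι]
    (M : ι → Type) [∀ v, AddCommGroup (M v)] [∀ v, Module K (M v)]
    [∀ v, Module.Finite K (M v)] (f : ∀ v, M v →ₗ[K] M v) :
    (LinearMap.pi fun v => f v ∘ₗ LinearMap.proj v : (∀ v, M v) →ₗ[K] (∀ v, M v)).charpoly =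
      ∏ v, (f v).charpoly :=
  charpoly_pi765_aux _ M f rfl

end Pi


/-! ### the equivariant `H²` formula -/

section Main

open Fermat.Agent.S56 Fermat.Agent.S55.PT ExtCitation groupCohomology

variable (p : ℕ) [Fact p.Prime] (S : Finset Nat.Primes)

/-- **Leaf H2-CP.**  The equivariant `H²` formula from the two top-degree dualities. -/
theorem h2cp_of (inv : InvFamily p S) (hrec : IsRecip (hrl S) (cycloChar p) inv)
    (hTL : TopLocSpec inv) (hTG : TopGlobSpec inv hrec) : H2CPSpec p S := by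
  classical
  intro _hp2 _hpS N T hT hNsm hSha hNfd hH2fd
  -- the local top pairings
  have hlocB : ∀ v : ↥S, Function.Bijective
      (topPair (localLevels v.1) (cycloLoc p v.1) (inv v) (Rep.res (rl v.1) N)) :=
    fun v => hTL v (Rep.res (rl v.1) N) hNfd (hNsm.res (hrl S v))
  have hlocfd : ∀ v : ↥S,
      Module.Finite (ZMod p) ((localLevels v.1).H2 (Rep.res (rl v.1) N)) := fun v =>
    Module.Finite.equiv (LinearEquiv.ofBijective _ (hlocB v)).symm
  have hT3fd : Module.Finite (ZMod p) (T3 (hrl S) N) :=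
    Module.Finite.of_surjective (T3π (hrl S) N) (T3π_surjective (hrl S) N)
  -- the exact sequence `0 → H² → ∏ H²_v → T³ → 0`
  have hinj : Function.Injective (loc2 (hrl S) N) := by
    rw [← LinearMap.ker_eq_bot]
    exact hSha
  have h1 : loc2 (hrl S) N ∘ₗ pushH2 T hT (globalLevels S) =
      pushLoc2 (Lv := fun v : ↥S => localLevels v.1) (r := fun v : ↥S => rl v.1) T hT ∘ₗ
        loc2 (hrl S) N := by
    apply LinearMap.ext
    intro x
    exact loc2_pushH2 (hrl S) T hT x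
  have h2 : T3π (hrl S) N ∘ₗ
      pushLoc2 (Lv := fun v : ↥S => localLevels v.1) (r := fun v : ↥S => rl v.1) T hT =
      pushT3 (hrl S) T hT ∘ₗ T3π (hrl S) N := rfl
  have hY := Fermat.Agent.S56.H614.charpoly_of_exact (loc2 (hrl S) N) hinj (T3π (hrl S) N)
    (T3π_surjective (hrl S) N) (ker_T3π (hrl S) N).symm (pushH2 T hT (globalLevels S))
    (pushLoc2 (Lv := fun v : ↥S => localLevels v.1) (r := fun v : ↥S => rl v.1) T hT)
    (pushT3 (hrl S) T hT) h1 h2
  -- the product
  have hpi : (pushLoc2 (Lv := fun v : ↥S => localLevels v.1) (r := fun v : ↥S => rl v.1)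
      T hT).charpoly =
      ∏ v : ↥S, (pushH2 (A := Rep.res (rl v.1) N) (B := Rep.res (rl v.1) N) T
        (hT.res (rl v.1)) (localLevels v.1)).charpoly :=
    charpoly_pi765 (fun v : ↥S => (localLevels v.1).H2 (Rep.res (rl v.1) N))
      (fun v : ↥S => pushH2 (A := Rep.res (rl v.1) N) (B := Rep.res (rl v.1) N) T
        (hT.res (rl v.1)) (localLevels v.1))
  -- local duality
  have hloc : ∀ v : ↥S,
      (pushH2 (A := Rep.res (rl v.1) N) (B := Rep.res (rl v.1) N) T
        (hT.res (rl v.1)) (localLevels v.1)).charpoly =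
      (pushH0 (A := Rep.res (rl v.1) (tdual p N)) (B := Rep.res (rl v.1) (tdual p N))
        T.dualMap ((dualMap_equivariant (cycloChar p) T hT).res (rl v.1))).charpoly := by
    intro v
    rw [charpoly_eq_of_bijective_dual765
      (topPair (localLevels v.1) (cycloLoc p v.1) (inv v) (Rep.res (rl v.1) N)) (hlocB v)
      (pushH2 (A := Rep.res (rl v.1) N) (B := Rep.res (rl v.1) N) T
        (hT.res (rl v.1)) (localLevels v.1))
      (charHomComap (cycloLoc p v.1) (A := Rep.res (rl v.1) N) (B := Rep.res (rl v.1) N) T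
        (hT.res (rl v.1)))
      (fun x c => topPair_pushH2 (cycloLoc p v.1) (A := Rep.res (rl v.1) N)
        (B := Rep.res (rl v.1) N) T (hT.res (rl v.1)) (localLevels v.1) (inv v) c x)]
    exact charpoly_eq_of_equiv765 (eH0res (cycloChar p) N (rl v.1)) _ _
      (fun f => Subtype.ext rfl)
  -- global duality
  have hglob : (pushT3 (hrl S) T hT).charpoly =
      (pushH0 (A := tdual p N) (B := tdual p N) T.dualMap
        (dualMap_equivariant (cycloChar p) T hT)).charpoly := by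
    rw [charpoly_eq_of_bijective_dual765 (topT3 (hrl S) N hrec) (hTG N hNfd hNsm)
      (pushT3 (hrl S) T hT) (charHomComap (cycloChar p) (A := N) (B := N) T hT)
      (fun t f => topT3_pushT3 (hrl S) T hT (cycloChar p) inv hrec f t)]
    exact charpoly_eq_of_equiv765 (eH0 (cycloChar p) N) _ _ (fun f => Subtype.ext rfl)
  have hprod := Finset.prod_coe_sort S (fun q : Nat.Primes =>
    (pushH0 (A := Rep.res (rl q) (tdual p N)) (B := Rep.res (rl q) (tdual p N))
      T.dualMap ((dualMap_equivariant (cycloChar p) T hT).res (rl q))).charpoly)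
  rw [← hglob, ← hY, hpi, ← hprod]
  exact Finset.prod_congr rfl fun v _ => hloc v

/-- **Leaf H2-CP, from the four arithmetic inputs** A3, A4, A5–A7, A8 of S55. -/
theorem h2cp_of_four (hSurjG : Surj2GlobSpec p S) (hSurjL : Surj2LocSpec p S)
    (hInv : InvSpec p S) (_hCap : CapSpec p S) : H2CPSpec p S := by
  intro hp2 hpS
  obtain ⟨inv, hrec, hTLI, hTGI⟩ := hInv
  have hrec' : IsRecip (hrl S) (cycloChar p) inv := hrec
  have hTopL : TopLocSpec inv :=
    H299.topLocDev p S H113.lesMidSpec H724.localNormalCofinal H724.localFiniteIndex inv hTLI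
      hSurjL
  have hTopG : TopGlobSpec inv hrec' :=
    H123.topGlobDev p S H113.lesMidSpec H724.globalNormalCofinal H724.localNormalCofinal
      H724.globalFiniteIndex hpS inv hrec' hTopL hTGI hSurjG hSurjL
  exact h2cp_of p S inv hrec' hTopL hTopG hp2 hpS

end Main

end Fermat.Agent.S56.Euler.H765

end

end
-- ===== PACK-END S56/Euler/Big/H2CPH765.lean

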