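import Fermat.Agent.Pack.S56.E19L2
import Fermat.Agent.Pack.S56.E14L3
import Fermat.Agent.Pack.S56.E19L0
import Fermat.Agent.Pack.S56.E4L2
import Fermat.Agent.Pack.S56.E18L2
import Fermat.Agent.Pack.S56.E11L1
import Fermat.Agent.Pack.S56.E9L1
import Fermat.Agent.Pack.S56.E9L2
import Fermat.Agent.Pack.S56.E19L1
import Fermat.Agent.Pack.S56.E6L3
import Fermat.Agent.Pack.S56.E18L3
import Fermat.Agent.Pack.S56.E11L0
import Fermat.Agent.Pack.S56.E4L3
import Fermat.Agent.Pack.S56.E6L0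
import Fermat.Agent.Pack.S56.E11L3
import Fermat.Agent.Pack.S56.E7L3
import Fermat.Agent.Pack.S56.E14L0
import Fermat.Agent.Pack.S56.E19L3
import Fermat.Agent.Pack.S56.E0L1
import Fermat.Agent.Pack.S56.E16L3

-- ===== PACK-BEGIN S55/H963/BrIndexBound.lean
section



/-!
# S55 / layer G: the SECOND INEQUALITY `G.SecondInequalitySpec`, unconditional

* `Br.indexBound : G.SI777.IndexBoundStatement` — helper777's index bound statement, from
  `Br.card_quotient_le` (analytic second inequality in the `S`-idèle model, helper963);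
* `Br.secondInequality : G.SecondInequalitySpec` — via helper777's assembly
  `SI777.secondInequality_of_indexBound` (Galois descent helper773, `CyclicCardSpec` helper895).
-/

set_option autoImplicit false
set_option maxHeartbeats 400000
set_option linter.unusedSectionVars false
set_option linter.unusedVariables false

open scoped NumberField TensorProduct

open IsDedekindDomain

noncomputable section

namespace Fermat.Agent.S55.H963.Br

open Fermat.Agent.S55.G

/-- **The index bound** (analytic second inequality in the `S`-idèle class group). -/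
theorem indexBound : G.SI777.IndexBoundStatement := by
  intro S K L _ _ _ _ _ n hn hS H hpow hsplit
  have h := card_quotient_le (L := L) hS hn H hpow (fun w hw hwS => by
    have hwL : ¬ IsAbove S L w := fun h =>
      hwS ((DescH773.isAbove_primeUnder_iff S K w).2 h)
    exact hsplit ⟨w, hwL⟩ hw)
  obtain ⟨hfin, hcard⟩ := h
  have hidx : H.index = Nat.card (CS S K ⧸ H) := rfl
  refine ⟨?_, by rw [hidx]; exact hcard⟩
  rw [hidx]
  exact Nat.card_pos.ne'

/-- **G-SI: the second inequality**, unconditional. -/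
theorem secondInequality : G.SecondInequalitySpec :=
  G.SI777.secondInequality_of_indexBound indexBound

end Fermat.Agent.S55.H963.Br

end
end
-- ===== PACK-END S55/H963/BrIndexBound.lean

-- ===== PACK-BEGIN S55/G/Rec/Tow/FR/Spec.lean
section
/-
S55 / layer G / block REC / adapter TOW / leaf FR (subtask 558) — LEAF INTERFACE.
Sub-architect of FR: helper353.   Plan: `coord/S55-REC-TOW-FR.md`.

Target (file `FR/Assembly.lean`, helper353):
  `finRec_of (I : LocalInvSystem) : ReciprocitySpec I p → OutsideSpec I → ConjSpec I → CountSpec →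
      LocInjSpec → OrbitRepsSpec → LocExistSpec → PrimePlaceSpec → G.ShapiroJSpec → FinRecSpec p`
with `σ := FR.sigma I` (file `FR/Defs.lean`).

Everything here is a `def XxxSpec : Prop`; NO sorry.  Producers prove `theorem xxx : XxxSpec` in
`Fermat/Agent/S55/G/Rec/Tow/FR/<Leaf>H<seat>.lean`, namespace
`Fermat.Agent.S55.G.Rec.TOW.FR.H<seat>`.  Never edit `Defs.lean` / `Spec.lean`.
-/



set_option autoImplicit false
set_option linter.unusedSectionVars false
set_option linter.style.haveILetI false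

open CategoryTheory groupCohomology
open scoped NumberField

noncomputable section

namespace Fermat.Agent.S55.G.Rec.TOW.FR

open Fermat.Agent.S55 Fermat.Agent.S55.Tow Fermat.Agent.S55.E1.H594 Fermat.Agent.S55.G.Rec
open IsDedekindDomain

local notation "Qb" => AlgebraicClosure ℚ
local notation "GQ" => (AlgebraicClosure ℚ ≃ₐ[ℚ] AlgebraicClosure ℚ)

/-- **FR-OUT** (vanishing outside `S`).  `M` a level of `S`, `x ∈ H²(H, Mˣ)` with trivial divisor
class (`ord_* x = 0` in `H²(H, Div^S(M))`).  Then the local invariant of the inflated class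
`inflL x ∈ Br(M^H)` vanishes at every place `(q, g)` with `q ∉ S`.
(Proof: `ord ∘ f = dφ`, `φ : H → Div^S(M)`; at the prime `w` of `M` induced by `ι_q ∘ g⁻¹` and on the
decomposition group, `ψ := φ_w` satisfies `ord_w f(a,b) = ψ a + ψ b − ψ (ab)`; `q` is a uniformizer
of `M_w` (`M` is unramified at `q ∉ S`), fixed by everything; the localised cocycle times the level
coboundary `d (τ ↦ q^{−ψ(h τ)})` has unit values, is inflated from `Gal(M_w/K_v)`, which is a
quotient of `V` by a subgroup containing the inertial elements; `I.inv_unram`.) -/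
def OutsideSpec (I : LocalInvSystem) : Prop :=
  ∀ {S : Finset Nat.Primes} (M : Level S) (H : Subgroup M.Gal)
    (x : H2 (T.resSub (lvlL M) H)),
    h2Sub (G.ordRepHom S M.Gal M.F) H x = 0 →
    ∀ q : Nat.Primes, q ∉ S → ∀ g : GQ, I.invAt q g (UH M H) (inflL M H x) = 0

/-- **FR-CONJ** (independence of the representative over `ℚ`).  For classes of the FULL group
(`H = ⊤`, so `UH M ⊤ = G_ℚ` and every `locSub q g (UH M ⊤)` is the whole local group) the local
invariant of `c_{q,g} z` does not depend on `g`.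
(Proof: `g' = u g`; `ev_{q,ug} = ev_{q,g} ∘ ū⁻¹` (`evAlg_mul_left`) and
`h_{ug} τ = ū (h_g τ) ū⁻¹`, so the cochain of `c_{q,ug} z` is the push of the inner conjugate of
the cocycle, which differs from the cocycle by the coboundary of an explicit homotopy
(`Rec.H124.innerConj_eq124`, generic); the two subgroups are equal as sets: compare through
`lRes` + `I.inv_res` with `relIndex = 1`.) -/
def ConjSpec (I : LocalInvSystem) : Prop :=
  ∀ {S : Finset Nat.Primes} (M : Level S) (W : Finset Nat.Primes) (q : ℕ) [hq : Fact q.Prime]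
    (hqW : (⟨q, hq.out⟩ : Nat.Primes) ∈ W) (g g' : GQ)
    (z : H2 (T.resSub (G.JRep M.Gal W M.F) ⊤)),
    I.inv q (locSub q g (UH M ⊤)) (cH2 M ⊤ W q hqW g z) =
      I.inv q (locSub q g' (UH M ⊤)) (cH2 M ⊤ W q hqW g' z)

/-- **FR-COUNT** (`∑_{v | q} [K_v : ℚ_q] = [K : ℚ]`, `K = M^H`).
(Proof: `Rec.H934.orbSigma_bijective` + `Subgroup.index_comap_of_surjective`;
`locSub q g (UH M ⊤) = ⊤`.) -/
def CountSpec : Prop :=
  ∀ {S : Finset Nat.Primes} (M : Level S) (H : Subgroup M.Gal) (q : ℕ) [Fact q.Prime],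
    ∑ g ∈ reps (UH M H) q, (locSub q g (UH M H)).relIndex (locSub q g (UH M ⊤)) = H.index

/-- **FR-A** (local inflation is injective).  The localisation `c_{q,g}` on `H²(H, J_W(M))`
vanishes on a class iff the intrinsic localisation `locMapJ` at the place `placeOf q g` does:
`c_{q,g} = Λ ∘ locMapJ 𝔪`, `Λ : H²(D_𝔪, M_𝔪ˣ) → lBr q V` the inflation along `V ↠ D_𝔪`, injective by
Hilbert 90.  (Model: `G/Rec/HP/{LocEmb,LocalGlue,LocH90,InflInj}.lean`, helper473, which does
the same for the groups `lvlGal U F` and coefficients `Mˣ`.) -/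
def LocInjSpec : Prop :=
  ∀ {S : Finset Nat.Primes} (M : Level S) (H : Subgroup M.Gal) (W : Finset Nat.Primes)
    (q : ℕ) [hq : Fact q.Prime] (hqW : (⟨q, hq.out⟩ : Nat.Primes) ∈ W) (g : GQ)
    (z : H2 (T.resSub (G.JRep M.Gal W M.F) H)),
    cH2 M H W q hqW g z = 0 ↔ (G.locMapJ W ↥H (placeOf M W q hqW g) 2).hom z = 0

/-- **FR-B** (places = double cosets).  Every place `𝔪` of `M` above `W` is `H`-conjugate to
`placeOf q g` for a UNIQUE pair `(q, g)`, `q ∈ W`, `g ∈ reps (UH M H) q`.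
(Proof: (i) `placeOf q (u g d) = ū • placeOf q g` for `u ∈ UH M H`, `d ∈ D_q`; (ii) every place is
some `placeOf q g` (`HP.exists_placeEmb`, helper473 / `HP.PlaceEmbSpec`); (iii) `placeOf q g =
placeOf q' g'` ⇒ `q = q'` and `g' ∈ M.U · g · D_q`: two embeddings of `M_𝔪` into `ℚ̄_q` over `ℚ_q`
differ by an element of `Gal(ℚ̄_q/ℚ_q)`.) -/
def OrbitRepsSpec : Prop :=
  ∀ {S : Finset Nat.Primes} (M : Level S) (H : Subgroup M.Gal) (W : Finset Nat.Primes)
    (𝔪 : G.SPlace W M.F),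
    ∃! x : (q : W) × {g : GQ //
        haveI : Fact ((q.1 : ℕ).Prime) := ⟨q.1.2⟩
        g ∈ reps (UH M H) (q.1 : ℕ)},
      haveI : Fact ((x.1.1 : ℕ).Prime) := ⟨x.1.1.2⟩
      ∃ h : ↥H, G.sPlaceSMul W ↥H h (placeOf M W (x.1.1 : ℕ) x.1.2 x.2.1) = 𝔪

/-- **FR-C** (local classes; intrinsic model of layer G, no Tower).  For a finite group `Γ` acting
faithfully on a number field `L` and a place `𝔪` above `W`, the group `H²(D_𝔪, L_𝔪ˣ)` contains an
element of exact order `n` for every divisor `n` of `|D_𝔪|`.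
(Proof: `D_𝔪` acts faithfully on `L_𝔪` (`G.H953.locAut_injective`), `L_𝔪 / L_𝔪^{D_𝔪}` is Galois with
group `D_𝔪`, the base is a finite extension of `ℚ_q`, hence a local field
(`PL0H713.isLocalFld_of_finite_padic`); `L.H2CyclicSpec` / `L.ClassModuleSpec` (closed on main:
`L.AllClosed`) give `H² ≅ ℤ/|D_𝔪|`.  Cf. `G/JGlueClosedH604.lean` for the cyclic case.) -/
def LocExistSpec : Prop :=
  ∀ (W : Finset Nat.Primes) (Γ L : Type) [Group Γ] [Finite Γ] [Field L] [NumberField L]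
    [MulSemiringAction Γ L] [FaithfulSMul Γ L] (𝔪 : G.SPlace W L) (n : ℕ),
    n ∣ Nat.card (G.decomp W Γ 𝔪) →
    ∃ u : groupCohomology (G.LocRep W Γ 𝔪) 2, n • u = 0 ∧ ∀ k : ℕ, k • u = 0 → n ∣ k

/-- **FR-D** (primes to places).  A subgroup fixing a prime of `𝒪_M` above `r ∈ S` fixes a place
of `M ⊗ ℚ_S`.  (From `G.PlacePrimeSpec`, closed on main.) -/
def PrimePlaceSpec : Prop :=
  ∀ {S : Finset Nat.Primes} (M : Level S) (r : Nat.Primes), r ∈ S → ∀ Z : Subgroup M.Gal,
    FixesPrimeAbove M r Z →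
    ∃ 𝔪 : G.SPlace S M.F, ∀ z ∈ Z, G.sPlaceSMul S M.Gal z 𝔪 = 𝔪

end Fermat.Agent.S55.G.Rec.TOW.FR

end
end
-- ===== PACK-END S55/G/Rec/Tow/FR/Spec.lean

-- ===== PACK-BEGIN S55/G/Rec/Tow/FR/OutsideH724.lean
section
/-
S55 / layer G / block REC / adapter TOW / leaf FR-OUT (helper724).

`outside I : FR.OutsideSpec I` — vanishing of the local invariants outside `S` of the inflation of
a finite-level class with trivial divisor class; adapter from the cocycle form
`TOW.H724.invAt_eq_zero_of_ord` (`Tow/H724/Unram.lean`) to the FR vocabulary (`FR/Defs.lean`).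
-/



set_option autoImplicit false

open CategoryTheory groupCohomology

noncomputable section

namespace Fermat.Agent.S55.G.Rec.TOW.FR.H724

open Fermat.Agent.S55 Fermat.Agent.S55.Tow Fermat.Agent.S55.E1.H594 Fermat.Agent.S55.G.Rec

/-- **FR-OUT.** -/
theorem outside (I : LocalInvSystem) : OutsideSpec I := by
  intro S M H x hx q hq g
  obtain ⟨c₀, rfl⟩ := Bridge.H2π_surjective _ x
  have h := TOW.H724.invAt_eq_zero_of_ord M H I q hq g c₀ hx ((inflDatum M H).cocycles c₀) rfl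
  have e : inflL M H ((H2π (T.resSub (lvlL M) H)).hom c₀) =
      continuousH2π (UH M H).subtype (gModOn (UH M H)) ((inflDatum M H).cocycles c₀) :=
    GlobDatum.map_H2π (inflDatum M H) c₀
  rw [e]
  exact h

end Fermat.Agent.S55.G.Rec.TOW.FR.H724

end
end
-- ===== PACK-END S55/G/Rec/Tow/FR/OutsideH724.lean

-- ===== PACK-BEGIN S55/G/Rec/Tow/FR/ConjH414.lean
section



/-!
# S55 / layer G / block REC / adapter TOW / FR : leaf FR-CONJ (`ConjSpec I`)   (helper414)

For classes of the full group (`H = ⊤`) the local invariant of `c_{q,g} z` does not depend on `g`.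

Proof.  Write `g' = u g`.  Then `h_{ug} τ = ū (h_g τ) ū⁻¹` and `ev_{q,ug} = ev_{q,g} ∘ ū⁻¹`
(`evAlg_mul_left`), so the cochain of `c_{q,ug} z` is the push along the datum at `g` of the inner
conjugate of the cocycle, which is cohomologous to the cocycle (`Rec.H124.innerConj_eq124`).  The
two local groups are equal as sets; compare through `lRes` and `I.inv_res` with `relIndex = 1`.
-/

set_option autoImplicit false
set_option linter.unusedSectionVars false
set_option linter.style.haveILetI false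

open CategoryTheory groupCohomology
open scoped NumberField

noncomputable section

namespace Fermat.Agent.S55.G.Rec.TOW.FR.H414

open Fermat.Agent.S55 Fermat.Agent.S55.Tow Fermat.Agent.S55.E1.H594 Fermat.Agent.S55.G.Rec
open Fermat.Agent.S55.G.Rec.TOW Fermat.Agent.S55.G.Rec.TOW.FR
open IsDedekindDomain

local notation "Qb" => AlgebraicClosure ℚ
local notation "GQ" => (AlgebraicClosure ℚ ≃ₐ[ℚ] AlgebraicClosure ℚ)

/-! ## Abstract: a local datum whose cochains are pushes of inner conjugates -/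

section Abstract

variable {Γ : Type} [Group Γ] {A : Rep.{0} ℤ Γ} {q : ℕ} [Fact q.Prime]
  {V : Subgroup (PadicAlgCl q ≃ₐ[ℚ_[q]] PadicAlgCl q)}

theorem push₂_add (d : LocDatum A q V) (x y : Γ × Γ → A.V) :
    d.push₂ (x + y) = d.push₂ x + d.push₂ y :=
  funext fun _ => map_add d.φ _ _

/-- If the cochains of `d'` are the pushes along `d` of the inner conjugates by `u`, then `d'` and
`d` induce the same map on `H²`. -/
theorem map_eq_of_conj (d d' : LocDatum A q V) (u : Γ)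
    (h : ∀ c : Γ × Γ → A.V, d'.push₂ c = d.push₂ (H124.innerConj124 A c u)) (z : H2 A) :
    d'.map z = d.map z := by
  obtain ⟨c, rfl⟩ := Bridge.H2π_surjective A z
  rw [LocDatum.map_H2π, LocDatum.map_H2π, ← sub_eq_zero, ← map_sub,
    continuousH2π_eq_zero_iff, mem_levelCoboundaries₂_iff]
  refine ⟨d.push₁ (H124.innerHomotopy124 A (c : Γ × Γ → A.V) u), d.isLevelConstant₁ _, ?_⟩
  rw [← d.push₂_d₁₂]
  have hconj := H124.innerConj_eq124 A (c : Γ × Γ → A.V) c.2 u
  have h1 : ((d'.cocycles c - d.cocycles c : ↥(levelCocycles₂ (lHom q V) (lModOn q V))) :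
      ↥V × ↥V → (lModOn q V).V) = d'.push₂ c - d.push₂ c := rfl
  rw [h1, h, hconj, push₂_add, add_sub_cancel_left]

end Abstract

section

variable {S : Finset Nat.Primes} (M : Level S) (W : Finset Nat.Primes) (q : ℕ)
  [hq : Fact q.Prime] (hqW : (⟨q, hq.out⟩ : Nat.Primes) ∈ W)

/-- Every element of the local Galois group lies in the local group of the full group. -/
theorem mem_locSub_top (g : GQ) (τ : PadicAlgCl q ≃ₐ[ℚ_[q]] PadicAlgCl q) :
    τ ∈ locSub q g (UH M ⊤) := by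
  rw [mem_locSub, mem_UH]
  exact Subgroup.mem_top _

theorem locSub_top_le (g g' : GQ) : locSub q g' (UH M ⊤) ≤ locSub q g (UH M ⊤) :=
  fun τ _ => mem_locSub_top M q g τ

theorem isOpenL_locSub_top (g : GQ) : IsOpenL q (locSub q g (UH M ⊤)) :=
  ⟨⊥, inferInstance, fun τ _ => mem_locSub_top M q g τ⟩

theorem relIndex_locSub_top (g g' : GQ) :
    (locSub q g' (UH M ⊤)).relIndex (locSub q g (UH M ⊤)) = 1 :=
  Subgroup.relIndex_eq_one.2 (locSub_top_le M q g' g)

/-- the class of `u` in `Gal(M/ℚ)`, as an element of the full subgroup -/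
def topMk (u : GQ) : ↥(⊤ : Subgroup M.Gal) := ⟨QuotientGroup.mk u, Subgroup.mem_top _⟩

/-- The key cochain identity: the cochain of `c_{q,ug}` is the push along the datum at `g`
(restricted) of the inner conjugate. -/
theorem push₂_mul_left (u g : GQ)
    (c : ↥(⊤ : Subgroup M.Gal) × ↥(⊤ : Subgroup M.Gal) → (T.resSub (G.JRep M.Gal W M.F) ⊤).V) :
    (cDatum M ⊤ W q hqW (u * g)).push₂ c =
      ((cDatum M ⊤ W q hqW g).restrict (locSub_top_le M q g (u * g))).push₂
        (H124.innerConj124 (T.resSub (G.JRep M.Gal W M.F) ⊤) c (topMk M u)) := by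
  funext ⟨τ₁, τ₂⟩
  have hh : ∀ τ : ↥(locSub q (u * g) (UH M ⊤)),
      (cDatum M ⊤ W q hqW (u * g)).h τ =
        topMk M u * ((cDatum M ⊤ W q hqW g).restrict (locSub_top_le M q g (u * g))).h τ *
          (topMk M u)⁻¹ := by
    intro τ
    apply Subtype.ext
    show (QuotientGroup.mk (u * g * localGaloisToGlobal q τ * (u * g)⁻¹) : M.Gal) =
      (QuotientGroup.mk u : M.Gal) *
        (QuotientGroup.mk (g * localGaloisToGlobal q τ * g⁻¹) : M.Gal) *
        (QuotientGroup.mk u : M.Gal)⁻¹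
    rw [← QuotientGroup.mk_inv, ← QuotientGroup.mk_mul, ← QuotientGroup.mk_mul]
    have e : u * g * localGaloisToGlobal q τ * (u * g)⁻¹ =
        u * (g * localGaloisToGlobal q τ * g⁻¹) * u⁻¹ := by group
    rw [e]
  have hφ : ∀ a : (T.resSub (G.JRep M.Gal W M.F) ⊤).V,
      (cDatum M ⊤ W q hqW (u * g)).φ a =
        ((cDatum M ⊤ W q hqW g).restrict (locSub_top_le M q g (u * g))).φ
          ((T.resSub (G.JRep M.Gal W M.F) ⊤).ρ (topMk M u)⁻¹ a) := by
    intro a
    apply Additive.toMul.injective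
    apply Units.ext
    exact evAlg_mul_left M W q hqW u g _
  show (cDatum M ⊤ W q hqW (u * g)).φ
      (c ((cDatum M ⊤ W q hqW (u * g)).h τ₁, (cDatum M ⊤ W q hqW (u * g)).h τ₂)) = _
  rw [hφ, hh τ₁, hh τ₂]
  rfl

/-- The class of `c_{q,ug} z` is the restriction of the class of `c_{q,g} z`. -/
theorem cH2_mul_left (u g : GQ) (z : H2 (T.resSub (G.JRep M.Gal W M.F) ⊤)) :
    cH2 M ⊤ W q hqW (u * g) z =
      lRes q (locSub_top_le M q g (u * g)) (cH2 M ⊤ W q hqW g z) := by
  unfold cH2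
  rw [← LocDatum.map_restrict]
  exact map_eq_of_conj _ _ (topMk M u) (push₂_mul_left M W q hqW u g) z

end

/-- **FR-CONJ**: for classes of the full group the local invariant of `c_{q,g} z` does not depend
on `g`. -/
theorem conj (I : LocalInvSystem) : ConjSpec I := by
  intro S M W q hq hqW g g' z
  have key : ∀ u g₀ : GQ,
      I.inv q (locSub q (u * g₀) (UH M ⊤)) (cH2 M ⊤ W q hqW (u * g₀) z) =
        I.inv q (locSub q g₀ (UH M ⊤)) (cH2 M ⊤ W q hqW g₀ z) := by
    intro u g₀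
    rw [cH2_mul_left, I.inv_res q _ _ _ (isOpenL_locSub_top M q (u * g₀)),
      relIndex_locSub_top, one_smul]
  have h1 := key (g * g'⁻¹) g'
  have e : g * g'⁻¹ * g' = g := by group
  rw [e] at h1
  exact h1

end Fermat.Agent.S55.G.Rec.TOW.FR.H414

end
end
-- ===== PACK-END S55/G/Rec/Tow/FR/ConjH414.lean

-- ===== PACK-BEGIN S55/G/Rec/Tow/FR/CountH73.lean
section



/-!
# S55 / REC2-TOW / FR, leaf FR-COUNT (helper73): `count : CountSpec`

`∑_{v | q} [K_v : ℚ_q] = [K : ℚ]` for `K = M^H`: orbit counting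
(`Rec.H934.orbSigma_bijective`) + `Subgroup.index_comap_of_surjective`.
-/

set_option autoImplicit false

open CategoryTheory

noncomputable section

namespace Fermat.Agent.S55.G.Rec.TOW.FR.H73

open Fermat.Agent.S55 Fermat.Agent.S55.Tow Fermat.Agent.S55.G.Rec Fermat.Agent.S55.G.Rec.TOW.FR

local notation "GQ" => (AlgebraicClosure ℚ ≃ₐ[ℚ] AlgebraicClosure ℚ)

/-- Orbit counting: the sum of the local indices over double coset representatives is the
global index. -/
theorem sum_index_locSub (q : ℕ) [Fact q.Prime] {U : Subgroup GQ} (hU : IsOpenQ U)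
    (R : Finset GQ) (hR : IsDoubleCosetReps U (localGaloisToGlobal q).range R) :
    ∑ g ∈ R, (locSub q g U).index = U.index := by
  classical
  haveI : ∀ r : GQ, Finite ((PadicAlgCl q ≃ₐ[ℚ_[q]] PadicAlgCl q) ⧸ locSub q r U) :=
    fun r => H934.finite_quotient_locSub q hU r
  have h1 : Nat.card (Σ r : ↥R, (PadicAlgCl q ≃ₐ[ℚ_[q]] PadicAlgCl q) ⧸ locSub q (r : GQ) U) =
      Nat.card (GQ ⧸ U) :=
    Nat.card_congr (Equiv.ofBijective _ (H934.orbSigma_bijective q U R hR))
  rw [Subgroup.index, ← h1, Nat.card_sigma]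
  rw [← Finset.sum_coe_sort R (fun g => (locSub q g U).index)]
  rfl

/-- **FR-COUNT.** -/
theorem count : CountSpec := by
  intro S M H q _
  have htop : UH M (⊤ : Subgroup M.Gal) = ⊤ := by
    ext u
    simp [mem_UH]
  have h1 : ∀ g : GQ, (locSub q g (UH M H)).relIndex (locSub q g (UH M ⊤)) =
      (locSub q g (UH M H)).index := by
    intro g
    have : locSub q g (UH M (⊤ : Subgroup M.Gal)) = ⊤ := by
      rw [htop]
      rfl
    rw [this, Subgroup.relIndex_top_right]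
  simp only [h1]
  rw [sum_index_locSub q (isOpenQ_UH M H) _ (reps_spec (isOpenQ_UH M H) q)]
  exact Subgroup.index_comap_of_surjective H (QuotientGroup.mk'_surjective M.U)

end Fermat.Agent.S55.G.Rec.TOW.FR.H73

end
end
-- ===== PACK-END S55/G/Rec/Tow/FR/CountH73.lean

-- ===== PACK-BEGIN S55/G/Rec/Tow/FR/AsmLocH481.lean
section
/-
S55 / layer G / block REC / adapter TOW / leaf FR — ASSEMBLY of `locClass` (helper481).

`locClass_of I p : PrimePlaceSpec → OrbitRepsSpec → LocExistSpec → LocInjSpec → G.ShapiroJSpec →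
  <the field `locClass` of `TOW.SemiLocalInv p` for `σ = FR.sigma I`>`.
No `sorry`.
-/



set_option autoImplicit false
set_option linter.unusedSectionVars false
set_option linter.style.haveILetI false

open CategoryTheory groupCohomology
open scoped NumberField

noncomputable section

namespace Fermat.Agent.S55.G.Rec.TOW.FR.H481

open Fermat.Agent.S55 Fermat.Agent.S55.Tow Fermat.Agent.S55.E1.H594 Fermat.Agent.S55.G.Rec
open Fermat.Agent.S55.G.Rec.TOW Fermat.Agent.S55.G.Rec.TOW.FR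
open IsDedekindDomain

local notation "Qb" => AlgebraicClosure ℚ
local notation "GQ" => (AlgebraicClosure ℚ ≃ₐ[ℚ] AlgebraicClosure ℚ)

variable {S : Finset Nat.Primes} (M : Level S) (H : Subgroup M.Gal)

/-- The index type of the places of `M^H` above `W`: pairs `(q, g)`, `q ∈ W`, `g ∈ reps`. -/
abbrev Pair (W : Finset Nat.Primes) : Type :=
  (q : W) × {g : GQ //
    haveI : Fact ((q.1 : ℕ).Prime) := ⟨q.1.2⟩
    g ∈ reps (UH M H) (q.1 : ℕ)}

/-- The place attached to a pair. -/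
def pairPlace (W : Finset Nat.Primes) (x : Pair M H W) : G.SPlace W M.F :=
  haveI : Fact ((x.1.1 : ℕ).Prime) := ⟨x.1.1.2⟩
  placeOf M W (x.1.1 : ℕ) x.1.2 x.2.1

instance (W : Finset Nat.Primes) : Finite (Pair M H W) := by
  unfold Pair
  infer_instance

section Reps

variable (W : Finset Nat.Primes)

lemma sPlaceSMul_one (𝔪 : G.SPlace W M.F) : G.sPlaceSMul W ↥H 1 𝔪 = 𝔪 :=
  (G.sPlaceAction W ↥H M.F).one_smul 𝔪

/-- Different pairs give different places (from the uniqueness in `OrbitRepsSpec`). -/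
lemma pairPlace_injective (hOR : OrbitRepsSpec) : Function.Injective (pairPlace M H W) := by
  intro x x' hxx
  obtain ⟨x₀, -, huniq⟩ := hOR M H W (pairPlace M H W x)
  have h1 : x = x₀ := huniq x ⟨1, sPlaceSMul_one M H W _⟩
  have h2 : x' = x₀ := huniq x' ⟨1, by rw [sPlaceSMul_one]; exact hxx.symm⟩
  exact h1.trans h2.symm

/-- The chosen representatives of the `H`-orbits of places above `W`. -/
def repPlaces : Finset (G.SPlace W M.F) := (Set.finite_range (pairPlace M H W)).toFinset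

lemma mem_repPlaces {𝔪 : G.SPlace W M.F} :
    𝔪 ∈ repPlaces M H W ↔ ∃ x : Pair M H W, pairPlace M H W x = 𝔪 := by
  unfold repPlaces
  rw [Set.Finite.mem_toFinset]
  rfl

lemma pairPlace_mem (x : Pair M H W) : pairPlace M H W x ∈ repPlaces M H W :=
  (mem_repPlaces M H W).2 ⟨x, rfl⟩

/-- `repPlaces` is a system of representatives of the `H`-orbits. -/
lemma repPlaces_spec (hOR : OrbitRepsSpec) (𝔪 : G.SPlace W M.F) :
    ∃! r : G.SPlace W M.F, r ∈ repPlaces M H W ∧ ∃ g : ↥H, G.sPlaceSMul W ↥H g r = 𝔪 := by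
  obtain ⟨x, ⟨h, hx⟩, huniq⟩ := hOR M H W 𝔪
  refine ⟨pairPlace M H W x, ⟨pairPlace_mem M H W x, h, hx⟩, ?_⟩
  rintro r ⟨hr, g, hg⟩
  obtain ⟨x', rfl⟩ := (mem_repPlaces M H W).1 hr
  rw [huniq x' ⟨g, hg⟩]

end Reps

section Spread

variable {W : Finset Nat.Primes} {Γ L : Type} [Group Γ] [Field L] [NumberField L]
  [MulSemiringAction Γ L]

open Classical in
/-- The family of local classes which is `u` at `𝔪₁` and `0` elsewhere. -/
def spread (𝔪₁ : G.SPlace W L) (u : groupCohomology (G.LocRep W Γ 𝔪₁) 2) (𝔪 : G.SPlace W L) :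
    groupCohomology (G.LocRep W Γ 𝔪) 2 :=
  if h : 𝔪₁ = 𝔪 then h ▸ u else 0

lemma spread_self (𝔪₁ : G.SPlace W L) (u : groupCohomology (G.LocRep W Γ 𝔪₁) 2) :
    spread 𝔪₁ u 𝔪₁ = u := by
  unfold spread
  rw [dif_pos rfl]

lemma spread_of_ne (𝔪₁ : G.SPlace W L) (u : groupCohomology (G.LocRep W Γ 𝔪₁) 2)
    {𝔪 : G.SPlace W L} (h : 𝔪₁ ≠ 𝔪) : spread 𝔪₁ u 𝔪 = 0 := by
  unfold spread
  rw [dif_neg h]

lemma nsmul_spread (n : ℕ) (𝔪₁ : G.SPlace W L) (u : groupCohomology (G.LocRep W Γ 𝔪₁) 2)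
    (𝔪 : G.SPlace W L) : n • spread 𝔪₁ u 𝔪 = spread 𝔪₁ (n • u) 𝔪 := by
  by_cases h : 𝔪₁ = 𝔪
  · subst h
    rw [spread_self, spread_self]
  · rw [spread_of_ne _ _ h, spread_of_ne _ _ h, smul_zero]

end Spread

section Main

variable (I : LocalInvSystem)

/-- The invariant at the pair `x`. -/
def invPair (x : Pair M H S) (y : H2 (T.resSub (lvlJ M) H)) : AddCircle (1 : ℚ) :=
  haveI : Fact ((x.1.1 : ℕ).Prime) := ⟨x.1.1.2⟩
  I.inv (x.1.1 : ℕ) (locSub (x.1.1 : ℕ) x.2.1 (UH M H)) (cH2 M H S (x.1.1 : ℕ) x.1.2 x.2.1 y)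

/-- `σ` as a sum over the pairs. -/
lemma sigma_eq_sum_pairs (y : H2 (T.resSub (lvlJ M) H)) :
    sigma I M H y = ∑ᶠ x : Pair M H S, invPair M H I x y := by
  rw [finsum_eq_sum_of_fintype, sigma_apply]
  have h1 : ∀ q : S, sigmaAt I M H q y =
      haveI : Fact ((q.1 : ℕ).Prime) := ⟨q.1.2⟩
      ∑ g : {g : GQ // g ∈ reps (UH M H) (q.1 : ℕ)}, invPair M H I ⟨q, g⟩ y := by
    intro q
    haveI : Fact ((q.1 : ℕ).Prime) := ⟨q.1.2⟩
    rw [sigmaAt_apply]
    exact (Finset.sum_coe_sort (reps (UH M H) (q.1 : ℕ)) (fun g =>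
      I.inv (q.1 : ℕ) (locSub (q.1 : ℕ) g (UH M H)) (cH2 M H S (q.1 : ℕ) q.2 g y))).symm
  rw [Finset.sum_congr rfl (fun q _ => h1 q)]
  exact (Fintype.sum_sigma (fun x : Pair M H S => invPair M H I x y)).symm

lemma spread_zero {W : Finset Nat.Primes} {Γ L : Type} [Group Γ] [Field L] [NumberField L]
    [MulSemiringAction Γ L] (𝔪₁ 𝔪 : G.SPlace W L) :
    spread (Γ := Γ) 𝔪₁ (0 : groupCohomology (G.LocRep W Γ 𝔪₁) 2) 𝔪 = 0 := by
  by_cases h : 𝔪₁ = 𝔪
  · subst h
    rw [spread_self]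
  · rw [spread_of_ne _ _ h]

/-- A subgroup `Z ≤ H` fixing a place `H`-conjugate to `𝔪₁` has order dividing `|D_{𝔪₁}(H)|`. -/
lemma card_dvd_card_decomp (Z : Subgroup M.Gal) (hZH : Z ≤ H) (𝔪₀ 𝔪₁ : G.SPlace S M.F)
    (h𝔪₀ : ∀ z ∈ Z, G.sPlaceSMul S M.Gal z 𝔪₀ = 𝔪₀) (h : ↥H)
    (hh : G.sPlaceSMul S ↥H h 𝔪₁ = 𝔪₀) :
    Nat.card Z ∣ Nat.card (G.decomp S ↥H 𝔪₁) := by
  letI act := G.sPlaceAction S ↥H M.F
  have hx₀' : h • 𝔪₁ = 𝔪₀ := hh
  have hz : ∀ z : ↥Z, (⟨z.1, hZH z.2⟩ : ↥H) • 𝔪₀ = 𝔪₀ := fun z => h𝔪₀ z.1 z.2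
  have hmem : ∀ z : ↥Z, (MulAut.conj h⁻¹).toMonoidHom (Subgroup.inclusion hZH z) ∈
      G.decomp S ↥H 𝔪₁ := by
    intro z
    rw [G.mem_decomp_iff]
    show ((MulAut.conj h⁻¹) (Subgroup.inclusion hZH z)) • 𝔪₁ = 𝔪₁
    rw [MulAut.conj_apply, inv_inv, mul_smul, mul_smul, hx₀']
    have : (Subgroup.inclusion hZH z) • 𝔪₀ = 𝔪₀ := hz z
    rw [this, ← hx₀', inv_smul_smul]
  let φ : ↥Z →* ↥(G.decomp S ↥H 𝔪₁) :=
    ((MulAut.conj h⁻¹).toMonoidHom.comp (Subgroup.inclusion hZH)).codRestrict _ hmem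
  have hφ : Function.Injective φ := by
    intro a b hab
    have h1 := congrArg Subtype.val hab
    have h2 : (MulAut.conj h⁻¹) (Subgroup.inclusion hZH a) =
        (MulAut.conj h⁻¹) (Subgroup.inclusion hZH b) := h1
    exact Subgroup.inclusion_injective hZH ((MulAut.conj h⁻¹).injective h2)
  exact Subgroup.card_dvd_of_injective φ hφ

/-- The invariant at a pair vanishes as soon as the intrinsic localisation does. -/
lemma invPair_eq_zero (hLI : LocInjSpec) (x : Pair M H S) (y : H2 (T.resSub (lvlJ M) H))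
    (hy : (G.locMapJ S ↥H (pairPlace M H S x) 2).hom y = 0) : invPair M H I x y = 0 := by
  haveI : Fact ((x.1.1 : ℕ).Prime) := ⟨x.1.1.2⟩
  have h := (hLI M H S (x.1.1 : ℕ) x.1.2 x.2.1 y).2 hy
  exact (congrArg (I.inv (x.1.1 : ℕ) (locSub (x.1.1 : ℕ) x.2.1 (UH M H))) h).trans
    (AddMonoidHom.map_zero _)

/-- Conversely, if the invariant at a pair vanishes then so does the intrinsic localisation. -/
lemma locMapJ_eq_zero_of_invPair (hLI : LocInjSpec) (x : Pair M H S)
    (y : H2 (T.resSub (lvlJ M) H)) (hy : invPair M H I x y = 0) :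
    (G.locMapJ S ↥H (pairPlace M H S x) 2).hom y = 0 := by
  haveI : Fact ((x.1.1 : ℕ).Prime) := ⟨x.1.1.2⟩
  refine (hLI M H S (x.1.1 : ℕ) x.1.2 x.2.1 y).1 ?_
  refine I.inv_injective (x.1.1 : ℕ) _
    (H181.isOpenL_locSub (x.1.1 : ℕ) x.2.1 (isOpenQ_UH M H)) ?_
  exact hy.trans (AddMonoidHom.map_zero _).symm

lemma invPair_nsmul (n : ℕ) (x : Pair M H S) (y : H2 (T.resSub (lvlJ M) H)) :
    invPair M H I x (n • y) = n • invPair M H I x y := by
  haveI : Fact ((x.1.1 : ℕ).Prime) := ⟨x.1.1.2⟩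
  have h1 : cH2 M H S (x.1.1 : ℕ) x.1.2 x.2.1 (n • y) =
      n • cH2 M H S (x.1.1 : ℕ) x.1.2 x.2.1 y := AddMonoidHom.map_nsmul _ _ _
  exact (congrArg (I.inv (x.1.1 : ℕ) (locSub (x.1.1 : ℕ) x.2.1 (UH M H))) h1).trans
    (AddMonoidHom.map_nsmul _ _ _)

/-- Shapiro (surjectivity): a class with prescribed localisation at one pair and trivial
localisations at the others. -/
lemma exists_class_of_spread (hOR : OrbitRepsSpec) (hSh : G.ShapiroJSpec) (x₀ : Pair M H S)
    (u : groupCohomology (G.LocRep S ↥H (pairPlace M H S x₀)) 2) :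
    ∃ y : H2 (T.resSub (lvlJ M) H), ∀ x : Pair M H S,
      (G.locMapJ S ↥H (pairPlace M H S x) 2).hom y =
        spread (pairPlace M H S x₀) u (pairPlace M H S x) := by
  have hbij := hSh S ↥H M.F (repPlaces M H S) (repPlaces_spec M H S hOR) 2
  obtain ⟨y, hy⟩ := hbij.2 (fun r => spread (pairPlace M H S x₀) u r.1)
  exact ⟨y, fun x => congrFun hy ⟨pairPlace M H S x, pairPlace_mem M H S x⟩⟩

/-- Shapiro (injectivity): a class all of whose localisations vanish is zero. -/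
lemma eq_zero_of_forall_locMapJ (hOR : OrbitRepsSpec) (hSh : G.ShapiroJSpec)
    (y : H2 (T.resSub (lvlJ M) H))
    (hy : ∀ x : Pair M H S, (G.locMapJ S ↥H (pairPlace M H S x) 2).hom y = 0) : y = 0 := by
  have hbij := hSh S ↥H M.F (repPlaces M H S) (repPlaces_spec M H S hOR) 2
  apply hbij.1
  funext r
  obtain ⟨x, hx⟩ := (mem_repPlaces M H S).1 r.2
  show (G.locMapJ S ↥H r.1 2).hom y = (G.locMapJ S ↥H r.1 2).hom 0
  rw [map_zero, ← hx]
  exact hy x

lemma locMapJ_nsmul (n : ℕ) (𝔪 : G.SPlace S M.F) (y : H2 (T.resSub (lvlJ M) H)) :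
    (G.locMapJ S ↥H 𝔪 2).hom (n • y) = n • (G.locMapJ S ↥H 𝔪 2).hom y :=
  map_nsmul (G.locMapJ S ↥H 𝔪 2).hom n y

/-- **Assembly of `locClass`**: the field `locClass` of `SemiLocalInv p` for `σ = sigma I`,
from the leaves FR-D, FR-B, FR-C, FR-A and Shapiro's lemma for `J_S`. -/
theorem locClass_of (p : ℕ) (hPP : PrimePlaceSpec) (hOR : OrbitRepsSpec) (hLE : LocExistSpec)
    (hLI : LocInjSpec) (hSh : G.ShapiroJSpec) :
    ∀ {S : Finset Nat.Primes} (M : Level S) (r : Nat.Primes), r ∈ S →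
    ∀ H Z : Subgroup M.Gal, Z ≤ H → IsPGroup p Z → FixesPrimeAbove M r Z →
    ∃ y : groupCohomology (T.resSub (lvlJ M) H) 2,
      Nat.card Z • y = 0 ∧ ∀ n : ℕ, n • sigma I M H y = 0 → Nat.card Z ∣ n := by
  intro S M r hr H Z hZH _ hfix
  obtain ⟨𝔪₀, h𝔪₀⟩ := hPP M r hr Z hfix
  obtain ⟨x₀, ⟨h, hx₀⟩, -⟩ := hOR M H S 𝔪₀
  have hdvd : Nat.card Z ∣ Nat.card (G.decomp S ↥H (pairPlace M H S x₀)) :=
    card_dvd_card_decomp M H Z hZH 𝔪₀ (pairPlace M H S x₀) h𝔪₀ h hx₀
  haveI : FaithfulSMul ↥H M.F := level_faithfulSMul_subgroup M H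
  obtain ⟨u, hu0, huord⟩ := hLE S ↥H M.F (pairPlace M H S x₀) (Nat.card Z) hdvd
  obtain ⟨y, hy'⟩ := exists_class_of_spread M H hOR hSh x₀ u
  refine ⟨y, ?_, ?_⟩
  · apply eq_zero_of_forall_locMapJ M H hOR hSh
    intro x
    rw [locMapJ_nsmul, hy' x, nsmul_spread, hu0, spread_zero]
  · intro n hn
    apply huord
    have hsum : sigma I M H y = invPair M H I x₀ y := by
      rw [sigma_eq_sum_pairs]
      apply finsum_eq_single
      intro x hx
      apply invPair_eq_zero M H I hLI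
      rw [hy' x]
      exact spread_of_ne _ _ (fun hh => hx (pairPlace_injective M H S hOR hh).symm)
    rw [hsum, ← invPair_nsmul] at hn
    have h2 := locMapJ_eq_zero_of_invPair M H I hLI x₀ (n • y) hn
    rw [locMapJ_nsmul, hy' x₀, spread_self] at h2
    exact h2

end Main

end Fermat.Agent.S55.G.Rec.TOW.FR.H481

end
end
-- ===== PACK-END S55/G/Rec/Tow/FR/AsmLocH481.lean

-- ===== PACK-BEGIN S55/G/Rec/Tow/FR/OrbitRepsH841.lean
section
/-
S55 / layer G / block REC / adapter TOW / leaf FR-B (subtask 659, helper841).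

`orbitReps : FR.OrbitRepsSpec` : every place `𝔪` of `M` above `W` is `H`-conjugate to
`placeOf q g` for a UNIQUE pair `(q, g)`, `q ∈ W`, `g ∈ reps (UH M H) q`.

Steps:
* `exists_algEquiv_comp_eq` (Mathlib only): two ring homomorphisms into a normal extension `E/K`
  with the same maximal kernel differ by an element of `Gal(E/K)`;
* `placeOf_mul_left`, `placeOf_mul_loc` : `placeOf (u g) = ū • placeOf g`, `placeOf (g d) = placeOf g`
  for `d ∈ D_q`;
* `primeOf_placeOf` : `placeOf q g` lies above `q`;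
* `exists_of_placeOf_eq` : `placeOf q a = placeOf q b ⇒ b ∈ M.U · a · D_q`.
-/



set_option autoImplicit false
set_option linter.unusedSectionVars false
set_option linter.style.haveILetI false

open CategoryTheory groupCohomology
open scoped NumberField TensorProduct

noncomputable section

namespace Fermat.Agent.S55.G.Rec.TOW.FR.H841

open Fermat.Agent.S55 Fermat.Agent.S55.Tow Fermat.Agent.S55.E1.H594 Fermat.Agent.S55.G.Rec
open Fermat.Agent.S55.G.Rec.TOW.FR Fermat.Agent.S55.G.PL0H713 Fermat.Agent.S55.G.LocH897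
open IsDedekindDomain

local notation "Qb" => AlgebraicClosure ℚ
local notation "GQ" => (AlgebraicClosure ℚ ≃ₐ[ℚ] AlgebraicClosure ℚ)

/-! ## 1. A general extension lemma (Mathlib only) -/

/-- Two ring homomorphisms `f g : A → E` into a normal extension `E/K` with `ker f` maximal and
contained in `ker g`, both restricting to the structure map on suitable lifts of `K`, differ by
an element of `Gal(E/K)`. -/
theorem exists_algEquiv_comp_eq {K E A : Type*} [Field K] [Field E] [Algebra K E] [Normal K E]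
    [CommRing A] (f g : A →+* E) (hmax : (RingHom.ker f).IsMaximal)
    (hker : ∀ r, f r = 0 → g r = 0)
    (hK : ∀ y : K, ∃ r : A, f r = algebraMap K E y ∧ g r = algebraMap K E y) :
    ∃ τ : E ≃ₐ[K] E, ∀ r, τ (f r) = g r := by
  classical
  letI : Field (A ⧸ RingHom.ker f) := Ideal.Quotient.field _
  let fb : (A ⧸ RingHom.ker f) →+* E := Ideal.Quotient.lift _ f (fun r hr => hr)
  let gb : (A ⧸ RingHom.ker f) →+* E := Ideal.Quotient.lift _ g (fun r hr => hker r hr)
  have hfb : ∀ r, fb (Ideal.Quotient.mk _ r) = f r := fun r => Ideal.Quotient.lift_mk _ _ _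
  have hgb : ∀ r, gb (Ideal.Quotient.mk _ r) = g r := fun r => Ideal.Quotient.lift_mk _ _ _
  have hinj : Function.Injective fb := fb.injective
  have hmem : ∀ y : K, algebraMap K E y ∈ fb.range := by
    intro y
    obtain ⟨r, hr, -⟩ := hK y
    exact ⟨Ideal.Quotient.mk _ r, (hfb r).trans hr⟩
  let e : (A ⧸ RingHom.ker f) ≃+* fb.range := RingEquiv.ofBijective fb.rangeRestrict
    ⟨fun x y h => hinj (congrArg Subtype.val h), fb.rangeRestrict_surjective⟩
  let j : K →+* (A ⧸ RingHom.ker f) :=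
    (e.symm : fb.range →+* (A ⧸ RingHom.ker f)).comp ((algebraMap K E).codRestrict fb.range hmem)
  have hj : ∀ y, fb (j y) = algebraMap K E y := by
    intro y
    have h1 : e (j y) = (algebraMap K E).codRestrict fb.range hmem y := by
      show e (e.symm _) = _
      rw [RingEquiv.apply_symm_apply]
    exact congrArg Subtype.val h1
  have hgj : ∀ y, gb (j y) = algebraMap K E y := by
    intro y
    obtain ⟨r, hr, hr'⟩ := hK y
    have h1 : j y = Ideal.Quotient.mk _ r := hinj ((hj y).trans ((hfb r).trans hr).symm)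
    rw [h1, hgb, hr']
  letI algK : Algebra K (A ⧸ RingHom.ker f) := j.toAlgebra
  letI algE : Algebra (A ⧸ RingHom.ker f) E := fb.toAlgebra
  haveI : IsScalarTower K (A ⧸ RingHom.ker f) E :=
    IsScalarTower.of_algebraMap_eq (fun y => (hj y).symm)
  let ϕ : (A ⧸ RingHom.ker f) →ₐ[K] E := { gb with commutes' := fun y => hgj y }
  let τ₀ : E →ₐ[K] E := ϕ.liftNormal E
  refine ⟨AlgEquiv.ofBijective τ₀ (AlgHom.normal_bijective K E E τ₀), fun r => ?_⟩
  have h := ϕ.liftNormal_commutes E (Ideal.Quotient.mk _ r)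
  have h1 : algebraMap (A ⧸ RingHom.ker f) E (Ideal.Quotient.mk _ r) = f r := hfb r
  have h2 : ϕ (Ideal.Quotient.mk _ r) = g r := hgb r
  rw [h1, h2] at h
  exact h

/-! ## 2. The places `placeOf q g` -/

section Place

variable {S : Finset Nat.Primes} (M : Level S) (W : Finset Nat.Primes) (q : ℕ)
  [hq : Fact q.Prime] (hqW : (⟨q, hq.out⟩ : Nat.Primes) ∈ W)

/-- `placeOf q (u g) = ū • placeOf q g`. -/
theorem placeOf_mul_left (u g : GQ) :
    placeOf M W q hqW (u * g) =
      G.sPlaceSMul W M.Gal (QuotientGroup.mk u : M.Gal) (placeOf M W q hqW g) := by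
  refine MaximalSpectrum.ext (Ideal.ext fun a => ?_)
  rw [G.mem_sPlaceSMul_iff, mem_placeOf, mem_placeOf, evAlg_mul_left]
  rfl

/-- `ev_{q, g d} = τ⁻¹ ∘ ev_{q, g}` for `d = loc τ`. -/
theorem evAlg_mul_loc (g : GQ) (τ : PadicAlgCl q ≃ₐ[ℚ_[q]] PadicAlgCl q) (a : G.AS W M.F) :
    evAlg M W q hqW (g * localGaloisToGlobal q τ) a = τ⁻¹ (evAlg M W q hqW g a) := by
  have h1 : g * localGaloisToGlobal q τ = (g * localGaloisToGlobal q τ * g⁻¹) * g := by group
  have h2 : (g * localGaloisToGlobal q τ * g⁻¹)⁻¹ = g * localGaloisToGlobal q τ⁻¹ * g⁻¹ := by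
    rw [map_inv]; group
  rw [h1, evAlg_mul_left, h2, evAlg_equivariant]

/-- `placeOf q (g d) = placeOf q g` for `d ∈ D_q`. -/
theorem placeOf_mul_loc (g : GQ) (τ : PadicAlgCl q ≃ₐ[ℚ_[q]] PadicAlgCl q) :
    placeOf M W q hqW (g * localGaloisToGlobal q τ) = placeOf M W q hqW g := by
  refine MaximalSpectrum.ext (Ideal.ext fun a => ?_)
  rw [mem_placeOf, mem_placeOf, evAlg_mul_loc]
  exact (map_eq_zero_iff _ (τ⁻¹ : PadicAlgCl q ≃ₐ[ℚ_[q]] PadicAlgCl q).injective)

/-- `placeOf q g` lies above `q`. -/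
theorem primeOf_placeOf (g : GQ) :
    primeOf W M.F (placeOf M W q hqW g) = ⟨⟨q, hq.out⟩, hqW⟩ := by
  by_contra hne
  have h1 := ofQS_single_primeOf W M.F (placeOf M W q hqW g)
  have h2 : (G.asIncl W M.F (single W (primeOf W M.F (placeOf M W q hqW g)) 1) : G.AS W M.F) ∈
      (placeOf M W q hqW g).asIdeal := by
    rw [mem_placeOf, evAlg_asIncl]
    have h3 := single_apply_ne W (primeOf W M.F (placeOf M W q hqW g)) ⟨⟨q, hq.out⟩, hqW⟩
      (fun h => hne h.symm) 1
    have h4 : (single W (primeOf W M.F (placeOf M W q hqW g)) 1 : G.QS W) ⟨⟨q, hq.out⟩, hqW⟩ = 0 :=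
      h3
    rw [h4, map_zero]
  have h5 : G.LocField.ofQS W (placeOf M W q hqW g)
      (single W (primeOf W M.F (placeOf M W q hqW g)) 1) = 0 :=
    (G.LocField.mk_eq_zero_iff W _ _).2 h2
  rw [h5] at h1
  exact zero_ne_one h1

/-- **Key lemma.**  `placeOf q a = placeOf q b ⇒ b ∈ M.U · a · D_q`. -/
theorem exists_of_placeOf_eq (a b : GQ) (h : placeOf M W q hqW a = placeOf M W q hqW b) :
    ∃ m ∈ M.U, ∃ d ∈ (localGaloisToGlobal q).range, b = m * a * d := by
  haveI : Normal ℚ_[q] (PadicAlgCl q) := IsAlgClosure.normal ℚ_[q] (PadicAlgCl q)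
  have hmax : (RingHom.ker (evAlg M W q hqW a : G.AS W M.F →+* PadicAlgCl q)).IsMaximal :=
    (placeOf M W q hqW a).isMaximal
  have hker : ∀ r, (evAlg M W q hqW a : G.AS W M.F →+* PadicAlgCl q) r = 0 →
      (evAlg M W q hqW b : G.AS W M.F →+* PadicAlgCl q) r = 0 := by
    intro r hr
    have h1 : r ∈ (placeOf M W q hqW a).asIdeal := (mem_placeOf M W q hqW a r).2 hr
    rw [h] at h1
    exact (mem_placeOf M W q hqW b r).1 h1
  have hK : ∀ y : ℚ_[q], ∃ r : G.AS W M.F,
      (evAlg M W q hqW a : G.AS W M.F →+* PadicAlgCl q) r = algebraMap ℚ_[q] (PadicAlgCl q) y ∧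
      (evAlg M W q hqW b : G.AS W M.F →+* PadicAlgCl q) r = algebraMap ℚ_[q] (PadicAlgCl q) y := by
    intro y
    have hy : (single W ⟨⟨q, hq.out⟩, hqW⟩ y : G.QS W) ⟨⟨q, hq.out⟩, hqW⟩ = y :=
      single_apply_same W ⟨⟨q, hq.out⟩, hqW⟩ y
    refine ⟨G.asIncl W M.F (single W ⟨⟨q, hq.out⟩, hqW⟩ y), ?_, ?_⟩
    · show evAlg M W q hqW a _ = _
      rw [evAlg_asIncl, hy]
    · show evAlg M W q hqW b _ = _
      rw [evAlg_asIncl, hy]
  obtain ⟨τ, hτ⟩ := exists_algEquiv_comp_eq (K := ℚ_[q])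
    (evAlg M W q hqW a : G.AS W M.F →+* PadicAlgCl q)
    (evAlg M W q hqW b : G.AS W M.F →+* PadicAlgCl q) hmax hker hK
  -- `b * loc τ * a⁻¹` fixes `M.F`
  have hfix : b * localGaloisToGlobal q τ * a⁻¹ ∈ M.U := by
    show _ ∈ M.F.fixingSubgroup
    rw [IntermediateField.mem_fixingSubgroup_iff]
    intro x hx
    have h1 := hτ (G.asDiag W M.F ⟨x, hx⟩)
    have h2 : (evAlg M W q hqW a : G.AS W M.F →+* PadicAlgCl q) (G.asDiag W M.F ⟨x, hx⟩) =
        padicEmbedding q (a⁻¹ x) := evAlg_asDiag M W q hqW a ⟨x, hx⟩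
    have h3 : (evAlg M W q hqW b : G.AS W M.F →+* PadicAlgCl q) (G.asDiag W M.F ⟨x, hx⟩) =
        padicEmbedding q (b⁻¹ x) := evAlg_asDiag M W q hqW b ⟨x, hx⟩
    rw [h2, h3, ← padicEmbedding_localGaloisToGlobal] at h1
    have h4 : localGaloisToGlobal q τ (a⁻¹ x) = b⁻¹ x := (padicEmbedding q).injective h1
    show (b * localGaloisToGlobal q τ * a⁻¹) x = x
    rw [AlgEquiv.mul_apply, AlgEquiv.mul_apply, h4]
    exact AlgEquiv.apply_symm_apply b x
  refine ⟨b * localGaloisToGlobal q τ * a⁻¹, hfix, localGaloisToGlobal q τ⁻¹, ⟨τ⁻¹, rfl⟩, ?_⟩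
  rw [map_inv]
  group

end Place

/-! ## 3. The leaf -/

/-- The action of `H` on places is the restriction of the action of `M.Gal`. -/
theorem sPlaceSMul_subgroup {S : Finset Nat.Primes} (M : Level S) (H : Subgroup M.Gal)
    (W : Finset Nat.Primes) (h : ↥H) (𝔪 : G.SPlace W M.F) :
    G.sPlaceSMul W ↥H h 𝔪 = G.sPlaceSMul W M.Gal (h : M.Gal) 𝔪 := by
  refine MaximalSpectrum.ext (Ideal.ext fun a => ?_)
  rw [G.mem_sPlaceSMul_iff, G.mem_sPlaceSMul_iff]
  have : G.asAut W ↥H M.F h⁻¹ a = G.asAut W M.Gal M.F (h : M.Gal)⁻¹ a := by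
    induction a using TensorProduct.induction_on with
    | zero => simp
    | add a b ha hb => simp only [map_add, ha, hb]
    | tmul x y => rw [G.asAut_tmul, G.asAut_tmul]; rfl
  rw [this]

/-- **FR-B.** -/
theorem orbitReps : OrbitRepsSpec := by
  intro S M H W 𝔪
  classical
  -- the prime below `𝔪`
  set q₀ : W := primeOf W M.F 𝔪 with hq₀
  haveI hqf : Fact ((q₀.1 : ℕ).Prime) := ⟨q₀.1.2⟩
  have hq₀W : (⟨(q₀.1 : ℕ), hqf.out⟩ : Nat.Primes) ∈ W := q₀.2
  have hq₀eq : (⟨⟨(q₀.1 : ℕ), hqf.out⟩, hq₀W⟩ : W) = q₀ := rfl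
  have hfixQ : ∀ x : M.F, (∀ g : M.Gal, g • x = x) → ∃ c : ℚ, algebraMap ℚ M.F c = x :=
    fun x hx => (level_isGaloisGroup M).isInvariant.isInvariant x hx
  -- existence
  have hP1 : primeOf W M.F (placeOf M W (q₀.1 : ℕ) hq₀W 1) = primeOf W M.F 𝔪 :=
    primeOf_placeOf M W (q₀.1 : ℕ) hq₀W 1
  obtain ⟨γ, hγ⟩ := exists_sPlaceSMul_eq W M.Gal M.F hfixQ (placeOf M W (q₀.1 : ℕ) hq₀W 1) 𝔪 hP1
  obtain ⟨u, rfl⟩ := QuotientGroup.mk_surjective γ
  have hu : placeOf M W (q₀.1 : ℕ) hq₀W u = 𝔪 := by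
    rw [← hγ, ← placeOf_mul_left, mul_one]
  have hR := reps_spec (isOpenQ_UH M H) (q₀.1 : ℕ)
  obtain ⟨r, ⟨hrR, v, hv, d, ⟨τ, rfl⟩, hvrd⟩, -⟩ := hR u
  have hr𝔪 : G.sPlaceSMul W M.Gal (QuotientGroup.mk v : M.Gal) (placeOf M W (q₀.1 : ℕ) hq₀W r) =
      𝔪 := by
    rw [← placeOf_mul_left, ← placeOf_mul_loc M W (q₀.1 : ℕ) hq₀W (v * r) τ, ← hvrd, hu]
  refine ⟨⟨q₀, ⟨r, hrR⟩⟩, ⟨⟨QuotientGroup.mk v, hv⟩, ?_⟩, ?_⟩
  · show G.sPlaceSMul W ↥H ⟨QuotientGroup.mk v, hv⟩ (placeOf M W (q₀.1 : ℕ) hq₀W r) = 𝔪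
    rw [sPlaceSMul_subgroup]
    exact hr𝔪
  -- uniqueness
  rintro ⟨q', ⟨r', hr'R⟩⟩ ⟨h', hh'⟩
  haveI hqf' : Fact ((q'.1 : ℕ).Prime) := ⟨q'.1.2⟩
  have hh'' : G.sPlaceSMul W ↥H h' (placeOf M W (q'.1 : ℕ) q'.2 r') = 𝔪 := hh'
  have hq' : q' = q₀ := by
    have h1 := primeOf_sPlaceSMul W ↥H M.F h' (placeOf M W (q'.1 : ℕ) q'.2 r')
    rw [hh''] at h1
    have h2 := primeOf_placeOf M W (q'.1 : ℕ) q'.2 r'
    exact (h1.trans h2).symm
  subst hq'
  have hrr' : r' = r := by
    obtain ⟨v', hv'⟩ := QuotientGroup.mk_surjective (h' : M.Gal)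
    have hv'U : v' ∈ UH M H := by
      rw [mem_UH, hv']
      exact h'.2
    have h2 : placeOf M W (q₀.1 : ℕ) hq₀W (v' * r') = 𝔪 := by
      rw [placeOf_mul_left, hv', ← sPlaceSMul_subgroup]
      exact hh''
    have h3 : placeOf M W (q₀.1 : ℕ) hq₀W (v * r) = 𝔪 := by
      rw [placeOf_mul_left]
      exact hr𝔪
    obtain ⟨m, hm, d', hd', hmd⟩ :=
      exists_of_placeOf_eq M W (q₀.1 : ℕ) hq₀W (v * r) (v' * r') (h3.trans h2.symm)
    -- `r' = (v'⁻¹ m v) r d'`
    have h4 : r' = (v'⁻¹ * m * v) * r * d' := by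
      have : v'⁻¹ * (v' * r') = v'⁻¹ * (m * (v * r) * d') := by rw [hmd]
      rw [inv_mul_cancel_left] at this
      rw [this]
      group
    have h5 : v'⁻¹ * m * v ∈ UH M H :=
      (UH M H).mul_mem ((UH M H).mul_mem ((UH M H).inv_mem hv'U) (U_le_UH M H hm)) hv
    obtain ⟨r₀, -, huniq⟩ := hR r'
    have e1 : r' = r₀ :=
      huniq r' ⟨hr'R, 1, (UH M H).one_mem, 1, Subgroup.one_mem _, by group⟩
    have e2 : r = r₀ := huniq r ⟨hrR, _, h5, d', hd', h4⟩
    rw [e1, e2]
  subst hrr'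
  rfl

end Fermat.Agent.S55.G.Rec.TOW.FR.H841

end
end
-- ===== PACK-END S55/G/Rec/Tow/FR/OrbitRepsH841.lean

-- ===== PACK-BEGIN S55/K/AR/HasseH181.lean
section
/-
S55 moonshot — LAYER K, block AR, leaf **AR-HASSE** (`HasseLeaf`).        helper181.
Namespace `Fermat.Agent.S55.K.AR.H181`.  Blueprint: `coord/S55-K-AR.md` §2, row AR-HASSE.

`hasseLeaf S p : HasseLeaf S p` — a `p`-primary class of `H²(Gal(F/K), E(F))` which dies in
`H²(Gal(F/K), J(F))` dies in `H²(Gal(F'/K), E(F'))` for some `F' ≥ F`.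

Reusable (generic, part of AR-LIB):
* `infSub_comp`, `infSub_eq_zero_of_comp` : transitivity of `infSub` (no casts: the composite is
  stated for an arbitrary `π''` with `π ∘ π' = π''` pointwise);
* `infUp_trans_eq_zero` : the tower form;
* `exists_delta_eq` : exactness of `H¹(H, X₃) → H²(H, X₁) → H²(H, X₂)` for a short exact sequence
  of `Γ`-modules and a subgroup `H ≤ Γ`, with a `p`-primary preimage (`exists_delta_eq_pprim`);
* `delta_infSub` : `δ ∘ inf = inf ∘ δ` for a morphism of short exact sequences;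
* `coe_infSub'` : `coe ∘ inf = inf ∘ coe`;  `isPPrim_map`.
-/





set_option autoImplicit false

open CategoryTheory groupCohomology

namespace Fermat.Agent.S55.K.AR.H181

open Fermat.Agent.S55 Fermat.Agent.S55.Tow Fermat.Agent.S55.E1.Lim

noncomputable section

/-! ## 1. Generic lemmas -/

section General

variable {Γ Γ' Γ'' : Type} [Group Γ] [Group Γ'] [Group Γ'']

/-- Additive maps preserve `p`-primary elements. -/
lemma isPPrim_map {p : ℕ} {A B : Type} [AddCommGroup A] [AddCommGroup B] (f : A →+ B) {x : A}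
    (hx : IsPPrim p x) : IsPPrim p (f x) := by
  obtain ⟨k, hk⟩ := hx
  exact ⟨k, by rw [← map_nsmul, hk, map_zero]⟩

/-- Coefficient change commutes with inflation, for a commuting square of coefficients. -/
theorem coe_infSub' (π : Γ' →* Γ) (H : Subgroup Γ) {A B : Rep.{0} ℤ Γ} {A' B' : Rep.{0} ℤ Γ'}
    (f : A ⟶ B) (f' : A' ⟶ B') (t : Rep.res π A ⟶ A') (s : Rep.res π B ⟶ B')
    (hsq : ∀ a : A.V, f'.hom (t.hom a) = s.hom (f.hom a)) (n : ℕ) (x : Hn H A n) :
    coe (H.comap π) f' n (infSub π H t n x) = infSub π H s n (coe H f n x) := by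
  have h : groupCohomology.map (projSub π H) (semiSub π H t) n ≫
        T.coeffMap ((Rep.resFunctor (H.comap π).subtype).map f') n =
      T.coeffMap ((Rep.resFunctor H.subtype).map f) n ≫
        groupCohomology.map (projSub π H) (semiSub π H s) n := by
    rw [← groupCohomology.map_comp, ← groupCohomology.map_comp]
    refine groupCohomology.map_congr rfl ?_ n
    apply DFunLike.ext
    intro a
    exact hsq a
  exact congrArg (fun φ => φ.hom x) h

/-- **Transitivity of inflation**, composite form. -/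
theorem infSub_comp (π : Γ' →* Γ) (π' : Γ'' →* Γ') (H : Subgroup Γ) {A : Rep.{0} ℤ Γ}
    {A' : Rep.{0} ℤ Γ'} {A'' : Rep.{0} ℤ Γ''} (t : Rep.res π A ⟶ A') (t' : Rep.res π' A' ⟶ A'')
    (t'' : Rep.res (π.comp π') A ⟶ A'') (ht : ∀ a : A.V, t'.hom (t.hom a) = t''.hom a) (n : ℕ)
    (x : Hn H A n) :
    infSub (π.comp π') H t'' n x = infSub π' (H.comap π) t' n (infSub π H t n x) := by
  have h : groupCohomology.map (projSub (π.comp π') H) (semiSub (π.comp π') H t'') n =
      groupCohomology.map (projSub π H) (semiSub π H t) n ≫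
        groupCohomology.map (projSub π' (H.comap π)) (semiSub π' (H.comap π) t') n := by
    rw [← groupCohomology.map_comp]
    refine groupCohomology.map_congr rfl ?_ n
    apply DFunLike.ext
    intro a
    exact (ht a).symm
  exact congrArg (fun φ => φ.hom x) h

/-- **Transitivity of inflation**: if `inf' (inf x) = 0` then `inf'' x = 0`, where `inf''` is the
inflation along any `π''` which agrees pointwise with `π ∘ π'`. -/
theorem infSub_eq_zero_of_comp (π : Γ' →* Γ) (π' : Γ'' →* Γ') (π'' : Γ'' →* Γ)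
    (hπ : ∀ g, π (π' g) = π'' g) (H : Subgroup Γ) {A : Rep.{0} ℤ Γ}
    {A' : Rep.{0} ℤ Γ'} {A'' : Rep.{0} ℤ Γ''} (t : Rep.res π A ⟶ A') (t' : Rep.res π' A' ⟶ A'')
    (t'' : Rep.res π'' A ⟶ A'') (ht : ∀ a : A.V, t'.hom (t.hom a) = t''.hom a) (n : ℕ)
    (x : Hn H A n) (h0 : infSub π' (H.comap π) t' n (infSub π H t n x) = 0) :
    infSub π'' H t'' n x = 0 := by
  obtain rfl : π'' = π.comp π' := MonoidHom.ext fun g => (hπ g).symm
  rw [infSub_comp π π' H t t' t'' ht n x]
  exact h0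

/-- Exactness of `H¹(H, X₃) → H²(H, X₁) → H²(H, X₂)`. -/
theorem exists_delta_eq (H : Subgroup Γ) (X : ShortComplex (Rep.{0} ℤ Γ)) (hX : X.ShortExact)
    (x : Hn H X.X₁ 2) (hx : coe H X.f 2 x = 0) :
    ∃ s : Hn H X.X₃ 1,
      (δ ((Rep.shortExact_res H.subtype).2 hX) 1 2 rfl).hom s = x := by
  have hex := mapShortComplex₁_exact ((Rep.shortExact_res H.subtype).2 hX) (i := 1) (j := 2) rfl
  exact (ShortComplex.moduleCat_exact_iff _).1 hex x hx

/-- Exactness of `H¹(H, X₃) → H²(H, X₁) → H²(H, X₂)`, with a `p`-primary preimage. -/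
theorem exists_delta_eq_pprim [Finite Γ] {p : ℕ} (hp : p.Prime) (H : Subgroup Γ)
    (X : ShortComplex (Rep.{0} ℤ Γ)) (hX : X.ShortExact)
    (x : Hn H X.X₁ 2) (hxp : IsPPrim p x) (hx : coe H X.f 2 x = 0) :
    ∃ s : Hn H X.X₃ 1, IsPPrim p s ∧
      (δ ((Rep.shortExact_res H.subtype).2 hX) 1 2 rfl).hom s = x := by
  obtain ⟨s₀, hs₀⟩ := exists_delta_eq H X hX x hx
  have hkill : ∀ s : Hn H X.X₃ 1, Nat.card H • s = 0 :=
    fun s => T.H572.cardTorsion ℤ H (T.resSub X.X₃ H) 1 (by norm_num) s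
  have hpp : E1.IsPPrimary p
      ((δ ((Rep.shortExact_res H.subtype).2 hX) 1 2 rfl).hom.toAddMonoidHom s₀) := by
    show E1.IsPPrimary p ((δ ((Rep.shortExact_res H.subtype).2 hX) 1 2 rfl).hom s₀)
    rw [hs₀]
    exact hxp
  obtain ⟨s, hs, hs'⟩ := G.Rec.TOW.H417.pPrimaryLift p hp _ _
    (δ ((Rep.shortExact_res H.subtype).2 hX) 1 2 rfl).hom.toAddMonoidHom (Nat.card H)
    Nat.card_pos hkill s₀ hpp
  exact ⟨s, hs, hs'.trans hs₀⟩

/-- `δ ∘ inf = inf ∘ δ` for a morphism of short exact sequences along `π`. -/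
theorem delta_infSub (π : Γ' →* Γ) (H : Subgroup Γ) (X : ShortComplex (Rep.{0} ℤ Γ))
    (hX : X.ShortExact) (Y : ShortComplex (Rep.{0} ℤ Γ')) (hY : Y.ShortExact)
    (t₁ : Rep.res π X.X₁ ⟶ Y.X₁) (t₂ : Rep.res π X.X₂ ⟶ Y.X₂) (t₃ : Rep.res π X.X₃ ⟶ Y.X₃)
    (h₁₂ : ∀ a : X.X₁.V, t₂.hom (X.f.hom a) = Y.f.hom (t₁.hom a))
    (h₂₃ : ∀ a : X.X₂.V, t₃.hom (X.g.hom a) = Y.g.hom (t₂.hom a))
    (s : Hn H X.X₃ 1) :
    infSub π H t₁ 2 ((δ ((Rep.shortExact_res H.subtype).2 hX) 1 2 rfl).hom s) =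
      (δ ((Rep.shortExact_res (H.comap π).subtype).2 hY) 1 2 rfl).hom (infSub π H t₃ 1 s) := by
  have h := KL.H304.deltaNat ℤ ↥(H.comap π) ↥H (projSub π H)
    (X.map (Rep.resFunctor H.subtype)) ((Rep.shortExact_res H.subtype).2 hX)
    (Y.map (Rep.resFunctor (H.comap π).subtype)) ((Rep.shortExact_res (H.comap π).subtype).2 hY)
    (semiSub π H t₁) (semiSub π H t₂) (semiSub π H t₃)
    (by
      apply Rep.hom_ext
      apply DFunLike.ext
      intro a
      exact h₁₂ a)
    (by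
      apply Rep.hom_ext
      apply DFunLike.ext
      intro a
      exact h₂₃ a)
    1 2 rfl
  exact congrArg (fun φ => φ.hom s) h

end General

/-! ## 2. The tower -/

variable {S : Finset Nat.Primes} {p : ℕ}

lemma proj_proj {L L' L'' : Level S} (h : L ≤ L') (h' : L' ≤ L'') (g : L''.Gal) :
    Level.proj h (Level.proj h' g) = Level.proj (h.trans h') g := by
  induction g using QuotientGroup.induction_on with
  | H g => rfl

/-- Transitivity of `infUp` in the form used in the WLOG reductions: a class dying after two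
inflations dies after the composite inflation. -/
theorem infUp_trans_eq_zero {L L' L'' : Level S} (h : L ≤ L') (h' : L' ≤ L'')
    (H : Subgroup L.Gal) {A : Rep.{0} ℤ L.Gal} {A' : Rep.{0} ℤ L'.Gal} {A'' : Rep.{0} ℤ L''.Gal}
    (t : Rep.res (Level.proj h) A ⟶ A') (t' : Rep.res (Level.proj h') A' ⟶ A'')
    (t'' : Rep.res (Level.proj (h.trans h')) A ⟶ A'')
    (ht : ∀ a : A.V, t'.hom (t.hom a) = t''.hom a) (n : ℕ) (x : Hn H A n)
    (h0 : infUp h' (up h H) t' n (infUp h H t n x) = 0) :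
    infUp (h.trans h') H t'' n x = 0 :=
  infSub_eq_zero_of_comp (Level.proj h) (Level.proj h') (Level.proj (h.trans h'))
    (proj_proj h h') H t t' t'' ht n x h0

lemma trS_trS {L L' L'' : Level S} (h : L ≤ L') (h' : L' ≤ L'') (e : (E1.Lim.sUnits L).V) :
    (trS h').hom ((trS h).hom e) = (trS (h.trans h')).hom e := rfl

lemma trJ_diag' {L L' : Level S} (h : L ≤ L') (q : Nat.Primes) (x : L.units.V) :
    (Level.trJ h q).hom ((L.diag q).hom x) = (L'.diag q).hom ((Level.trUnits h).hom x) := by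
  apply L'.J_ext q
  intro g'
  have h1 : L'.units.ρ g' ((Level.trUnits h).hom x) =
      (Level.trUnits h).hom (L.units.ρ (Level.proj h g') x) :=
    (Rep.hom_comm_apply (Level.trUnits h) g' x).symm
  show Level.inclLoc h q (L.embFun q (L.units.ρ (Level.proj h g') x)) =
    L'.embFun q (L'.units.ρ g' ((Level.trUnits h).hom x))
  rw [h1]
  apply L'.locCoe_injective q
  rfl

lemma trJtot_diagTot' {L L' : Level S} (h : L ≤ L') (e : (E1.Lim.sUnits L).V) :
    (trJtot h).hom ((diagTot L).hom e) = (diagTot L').hom ((trS h).hom e) := by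
  apply piRep_ext
  intro q
  exact trJ_diag' h q.1 ((sIncl L).hom e)

/-- **HASSE at a level containing `μ_p`.** -/
theorem hasse_of_hasMu (c : _root_.Fermat.Agent.S55.K.AR.Ctx S p) (hses : SesExact c) (hC1 : H1CVanish c) (hcap : CapH1 c)
    (L : Level S) (hMu : L.HasMu p) (H : Subgroup L.Gal) (x : Hn H (E1.Lim.sUnits L) 2)
    (hxp : IsPPrim p x) (hx : coe H (diagTot L) 2 x = 0) :
    ∃ (L' : Level S) (h : L ≤ L'), infUp h H (trS h) 2 x = 0 := by
  obtain ⟨hp, -, -⟩ := c.adm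
  obtain ⟨s, hsp, hs⟩ := exists_delta_eq_pprim hp H (ses c.h4 L) (hses L) x hxp hx
  have hs0 : coe H (inclC1 c.D L) 1 s = 0 :=
    hC1 L hMu H _ (isPPrim_map (coe H (inclC1 c.D L) 1).toAddMonoidHom hsp)
  obtain ⟨L', h, hinf⟩ := hcap L H s hsp hs0
  refine ⟨L', h, ?_⟩
  have hnat := delta_infSub (Level.proj h) H (ses c.h4 L) (hses L) (ses c.h4 L') (hses L')
    (trS h) (trJtot h) (trC1 c.h7 h) (fun a => trJtot_diagTot' h a)
    (fun a => trC1_jC1 c.h7 h a) s
  rw [hs] at hnat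
  refine hnat.trans ?_
  have h0 : infSub (Level.proj h) H (trC1 c.h7 h) 1 s = 0 := hinf
  exact (congrArg _ h0).trans (map_zero _)

/-- Leaf **AR-HASSE**. -/
theorem hasseLeaf (S : Finset Nat.Primes) (p : ℕ) : HasseLeaf S p := by
  intro c hses hC1 hcap hmu L H x hxp hx
  obtain ⟨⟨L₀, hL₀⟩, hdir⟩ := hmu
  obtain ⟨L₁, h₁, h₀₁⟩ := hdir L L₀
  have hMu₁ : L₁.HasMu p := Level.HasMu.mono h₀₁ hL₀
  have hxp₁ : IsPPrim p (infUp h₁ H (trS h₁) 2 x) :=
    isPPrim_map (infUp h₁ H (trS h₁) 2).toAddMonoidHom hxp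
  have hx₁ : coe (up h₁ H) (diagTot L₁) 2 (infUp h₁ H (trS h₁) 2 x) = 0 := by
    have := coe_infSub' (Level.proj h₁) H (diagTot L) (diagTot L₁) (trS h₁) (trJtot h₁)
      (fun a => (trJtot_diagTot' h₁ a).symm) 2 x
    rw [hx, map_zero] at this
    exact this
  obtain ⟨L₂, h₂, h0⟩ := hasse_of_hasMu c hses hC1 hcap L₁ hMu₁ (up h₁ H) _ hxp₁ hx₁
  exact ⟨L₂, h₁.trans h₂, infUp_trans_eq_zero h₁ h₂ H (trS h₁) (trS h₂) (trS (h₁.trans h₂))
    (trS_trS h₁ h₂) 2 x h0⟩

end

end Fermat.Agent.S55.K.AR.H181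

end
-- ===== PACK-END S55/K/AR/HasseH181.lean

-- ===== PACK-BEGIN S55/K/AR/E3H206.lean
section





/-!
# S55, layer K, block AR, leaf AR-E3 (subtask 638; helper206)

`e3Leaf : E3Leaf S p`:  `colim H³(Gal(F/K), E(F))[p] = 0` from the short exact sequences
`E → J → C'`, `H³(H, J)(p) = 0`, the surjectivity (c) `SurjJC`, capitulation `CapH2` and
`MuDirected`.

General tools (reusable for AR-E2 / AR-HASSE / AR-COKER), all for arbitrary groups:
* `infSub_coe`      : `infSub ∘ coe = coe ∘ infSub` for a commuting square of coefficients;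
* `infSub_trans_zero`: transitivity of `infSub` in the form "dies after two steps ⇒ dies after
  the composite step" (no casts);
* `sesSub`, `dSub`  : the long exact sequence of a short exact sequence restricted to `H`;
* `infSub_dSub`     : naturality of the connecting homomorphism under `infSub`;
* `exists_pproj`    : the `p`-primary projector of a group killed by `N`.
-/

set_option autoImplicit false

open CategoryTheory groupCohomology

namespace Fermat.Agent.S55.K.AR.H206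

open Fermat.Agent.S55 Fermat.Agent.S55.Tow Fermat.Agent.S55.E1.Lim Fermat.Agent.S55.K.AR

noncomputable section

/-! ## `p`-primary bookkeeping -/

section PPrim

variable {p : ℕ}

lemma isPPrim_zero {A : Type} [AddCommGroup A] : IsPPrim p (0 : A) := ⟨0, by simp⟩

lemma IsPPrim.map {A B : Type} [AddCommGroup A] [AddCommGroup B] (f : A →+ B) {x : A}
    (hx : IsPPrim p x) : IsPPrim p (f x) := by
  obtain ⟨k, hk⟩ := hx
  exact ⟨k, by rw [← map_nsmul, hk, map_zero]⟩

lemma IsPPrim.sub {A : Type} [AddCommGroup A] {x y : A} (hx : IsPPrim p x) (hy : IsPPrim p y) :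
    IsPPrim p (x - y) := by
  obtain ⟨k, hk⟩ := hx
  obtain ⟨l, hl⟩ := hy
  refine ⟨k + l, ?_⟩
  have h1 : p ^ (k + l) • x = 0 := by rw [pow_add, mul_comm, mul_smul, hk, smul_zero]
  have h2 : p ^ (k + l) • y = 0 := by rw [pow_add, mul_smul, hl, smul_zero]
  rw [smul_sub, h1, h2, sub_zero]

lemma isPPrim_of_nsmul {A : Type} [AddCommGroup A] {x : A} (hx : p • x = 0) : IsPPrim p x :=
  ⟨1, by rw [pow_one]; exact hx⟩

/-- The `p`-primary projector of the groups killed by `N`: a natural number `e` such that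
`e • x` is `p`-primary for all `x`, and `e • x = x` for `p`-primary `x`. -/
lemma exists_pproj (hp : p.Prime) (N : ℕ) (hN : 0 < N) :
    ∃ e : ℕ, ∀ (X : Type) [AddCommGroup X], (∀ x : X, N • x = 0) →
      (∀ x : X, IsPPrim p (e • x)) ∧ (∀ x : X, IsPPrim p x → e • x = x) := by
  obtain ⟨a, N', hN', hNeq⟩ := Nat.exists_eq_pow_mul_and_not_dvd hN.ne' p hp.ne_one
  have hcop : Nat.Coprime (p ^ a) N' :=
    Nat.Coprime.pow_left _ ((Nat.Prime.coprime_iff_not_dvd hp).2 hN')
  obtain ⟨e, he1, he0⟩ := Nat.chineseRemainder hcop 1 0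
  refine ⟨e, fun X _ hX => ⟨fun x => ⟨a, ?_⟩, fun x hx => ?_⟩⟩
  · obtain ⟨u, hu⟩ := (Nat.modEq_zero_iff_dvd).1 he0
    have : p ^ a * e = N * u := by rw [hu, hNeq]; ring
    rw [← mul_smul, this, mul_comm, mul_smul, hX, smul_zero]
  · -- `p ^ a • x = 0`
    obtain ⟨k, hk⟩ := hx
    have h1 : (Nat.gcd (p ^ k) N) • x = 0 := by
      have := Nat.gcd_eq_gcd_ab (p ^ k) N
      have h2 : ((Nat.gcd (p ^ k) N : ℕ) : ℤ) • x = 0 := by
        rw [this, add_smul, mul_comm, mul_smul, mul_comm, mul_smul]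
        rw [natCast_zsmul, natCast_zsmul, hk, hX, smul_zero, smul_zero, add_zero]
      rwa [natCast_zsmul] at h2
    have h3 : Nat.gcd (p ^ k) N ∣ p ^ a := by
      rw [hNeq]
      have h4 : Nat.Coprime (p ^ k) N' :=
        Nat.Coprime.pow_left _ ((Nat.Prime.coprime_iff_not_dvd hp).2 hN')
      rw [Nat.Coprime.gcd_mul_right_cancel_right _ h4.symm]
      exact Nat.gcd_dvd_right _ _
    have h5 : p ^ a • x = 0 := by
      obtain ⟨v, hv⟩ := h3
      rw [hv, mul_comm, mul_smul, h1, smul_zero]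
    -- `e ≡ 1 mod p ^ a`
    have h6 : (e : ℤ) ≡ 1 [ZMOD (p ^ a : ℕ)] := by
      have := (Int.natCast_modEq_iff).2 he1
      simpa using this
    obtain ⟨w, hw⟩ := (Int.modEq_iff_dvd.1 h6.symm)
    have h7 : (e : ℤ) • x = x := by
      have : (e : ℤ) = 1 + ((p ^ a : ℕ) : ℤ) * w := by linarith
      rw [this, add_smul, one_smul, mul_comm, mul_smul, natCast_zsmul, h5, smul_zero, add_zero]
    rwa [natCast_zsmul] at h7

end PPrim

/-! ## Functoriality of `groupCohomology.map` -/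

section MapLemmas

variable {k : Type} [CommRing k]

/-- Composition of `groupCohomology.map`s, triangle form, elementwise. -/
lemma map_tri_apply {G H K : Type} [Group G] [Group H] [Group K]
    {A : Rep.{0} k K} {B : Rep.{0} k H} {C : Rep.{0} k G} (f : H →* K) (g : G →* H)
    (e : G →* K) (φ : Rep.res f A ⟶ B) (ψ : Rep.res g B ⟶ C) (χ : Rep.res e A ⟶ C)
    (hfg : f.comp g = e) (h : ∀ a : A.V, ψ.hom (φ.hom a) = χ.hom a) (n : ℕ)
    (x : groupCohomology A n) :
    (groupCohomology.map g ψ n).hom ((groupCohomology.map f φ n).hom x) =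
      (groupCohomology.map e χ n).hom x := by
  have h1 : groupCohomology.map f φ n ≫ groupCohomology.map g ψ n =
      groupCohomology.map e χ n := by
    rw [← groupCohomology.map_comp]
    exact groupCohomology.map_congr hfg (LinearMap.ext h) n
  rw [← h1]
  rfl

/-- Composition of `groupCohomology.map`s, square form, elementwise. -/
lemma map_sq_apply {G H₁ H₂ K : Type} [Group G] [Group H₁] [Group H₂] [Group K]
    {A : Rep.{0} k K} {B₁ : Rep.{0} k H₁} {B₂ : Rep.{0} k H₂} {C : Rep.{0} k G}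
    (f₁ : H₁ →* K) (g₁ : G →* H₁) (f₂ : H₂ →* K) (g₂ : G →* H₂)
    (φ₁ : Rep.res f₁ A ⟶ B₁) (ψ₁ : Rep.res g₁ B₁ ⟶ C)
    (φ₂ : Rep.res f₂ A ⟶ B₂) (ψ₂ : Rep.res g₂ B₂ ⟶ C)
    (hfg : f₁.comp g₁ = f₂.comp g₂)
    (h : ∀ a : A.V, ψ₁.hom (φ₁.hom a) = ψ₂.hom (φ₂.hom a)) (n : ℕ)
    (x : groupCohomology A n) :
    (groupCohomology.map g₁ ψ₁ n).hom ((groupCohomology.map f₁ φ₁ n).hom x) =
      (groupCohomology.map g₂ ψ₂ n).hom ((groupCohomology.map f₂ φ₂ n).hom x) := by
  have h1 : groupCohomology.map f₁ φ₁ n ≫ groupCohomology.map g₁ ψ₁ n =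
      groupCohomology.map f₂ φ₂ n ≫ groupCohomology.map g₂ ψ₂ n := by
    rw [← groupCohomology.map_comp, ← groupCohomology.map_comp]
    exact groupCohomology.map_congr hfg (LinearMap.ext h) n
  exact congrArg (fun F => F.hom x) h1

end MapLemmas

/-! ## Cohomology of subgroups: functoriality of `infSub` -/

section General

variable {Γ Γ' Γ'' : Type} [Group Γ] [Group Γ'] [Group Γ'']

/-- `coe` of a composite. -/
lemma coe_comp (H : Subgroup Γ) {A B C : Rep.{0} ℤ Γ} (f : A ⟶ B) (g : B ⟶ C) (n : ℕ)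
    (x : Hn H A n) : coe H (f ≫ g) n x = coe H g n (coe H f n x) := by
  have h1 : T.coeffMap ((Rep.resFunctor H.subtype).map (f ≫ g)) n =
      T.coeffMap ((Rep.resFunctor H.subtype).map f) n ≫
        T.coeffMap ((Rep.resFunctor H.subtype).map g) n := by
    rw [Functor.map_comp]
    exact groupCohomology.map_id_comp _ _ n
  exact congrArg (fun F => F.hom x) h1

/-- `infSub ∘ coe = coe ∘ infSub` for a commuting square of coefficients. -/
lemma infSub_coe (π : Γ' →* Γ) (H : Subgroup Γ) {A B : Rep.{0} ℤ Γ} {A' B' : Rep.{0} ℤ Γ'}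
    (f : A ⟶ B) (f' : A' ⟶ B') (t : Rep.res π A ⟶ A') (s : Rep.res π B ⟶ B')
    (hsq : ∀ a : A.V, s.hom (f.hom a) = f'.hom (t.hom a)) (n : ℕ) (x : Hn H A n) :
    infSub π H s n (coe H f n x) = coe (H.comap π) f' n (infSub π H t n x) := by
  have h1 : T.coeffMap ((Rep.resFunctor H.subtype).map f) n ≫
      groupCohomology.map (projSub π H) (semiSub π H s) n =
      groupCohomology.map (projSub π H) (semiSub π H t) n ≫
        T.coeffMap ((Rep.resFunctor (H.comap π).subtype).map f') n := by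
    rw [← groupCohomology.map_comp, ← groupCohomology.map_comp]
    exact groupCohomology.map_congr rfl (DFunLike.ext _ _ hsq) n
  exact congrArg (fun F => F.hom x) h1

/-- Transitivity of `infSub`, in the form: a class which dies after two inflation steps dies
after the composite step. -/
lemma infSub_trans_zero (π : Γ' →* Γ) (π' : Γ'' →* Γ') (π'' : Γ'' →* Γ)
    (hπ : ∀ g, π (π' g) = π'' g) (H : Subgroup Γ)
    {A : Rep.{0} ℤ Γ} {A' : Rep.{0} ℤ Γ'} {A'' : Rep.{0} ℤ Γ''}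
    (t : Rep.res π A ⟶ A') (t' : Rep.res π' A' ⟶ A'') (t'' : Rep.res π'' A ⟶ A'')
    (ht : ∀ a : A.V, t'.hom (t.hom a) = t''.hom a) (n : ℕ) (y : Hn H A n)
    (h0 : infSub π' (H.comap π) t' n (infSub π H t n y) = 0) : infSub π'' H t'' n y = 0 := by
  have hK : H.comap π'' ≤ (H.comap π).comap π' := by
    intro g hg
    show π (π' g) ∈ H
    rw [hπ g]; exact hg
  let ι : ↥(H.comap π'') →* ↥((H.comap π).comap π') := Subgroup.inclusion hK
  let idm : Rep.res ι (T.resSub A'' ((H.comap π).comap π')) ⟶ T.resSub A'' (H.comap π'') :=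
    E1.Lim.semiOfAdd ι (A := T.resSub A'' ((H.comap π).comap π'))
      (B := T.resSub A'' (H.comap π'')) (AddMonoidHom.id A''.V) (fun _ _ => rfl)
  let ψ' : Rep.res ((projSub π' (H.comap π)).comp ι) (T.resSub A' (H.comap π)) ⟶
      T.resSub A'' (H.comap π'') :=
    E1.Lim.semiOfAdd ((projSub π' (H.comap π)).comp ι) (A := T.resSub A' (H.comap π))
      (B := T.resSub A'' (H.comap π''))
      { toFun := fun x => t'.hom x
        map_zero' := map_zero t'.hom
        map_add' := map_add t'.hom }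
      (fun g x => Rep.hom_comm_apply t' (g : Γ'') x)
  have h1 : (groupCohomology.map ι idm n).hom
      (infSub π' (H.comap π) t' n (infSub π H t n y)) =
      (groupCohomology.map ((projSub π' (H.comap π)).comp ι) ψ' n).hom (infSub π H t n y) :=
    map_tri_apply (projSub π' (H.comap π)) ι _ (semiSub π' (H.comap π) t') idm ψ' rfl
      (fun _ => rfl) n _
  have h2 : (groupCohomology.map ((projSub π' (H.comap π)).comp ι) ψ' n).hom
      (infSub π H t n y) = infSub π'' H t'' n y :=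
    map_tri_apply (projSub π H) ((projSub π' (H.comap π)).comp ι) (projSub π'' H)
      (semiSub π H t) ψ' (semiSub π'' H t'')
      (MonoidHom.ext fun g => Subtype.ext (hπ g)) ht n y
  rw [← h2, ← h1, h0, map_zero]

/-! ### The long exact sequence of a short exact sequence restricted to a subgroup -/

/-- A short complex of `Γ`-modules restricted to `H`. -/
abbrev sesSub (X : ShortComplex (Rep.{0} ℤ Γ)) (H : Subgroup Γ) : ShortComplex (Rep.{0} ℤ H) :=
  X.map (Rep.resFunctor H.subtype)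

lemma sesSub_shortExact {X : ShortComplex (Rep.{0} ℤ Γ)} (hX : X.ShortExact) (H : Subgroup Γ) :
    (sesSub X H).ShortExact :=
  (Rep.shortExact_res H.subtype).2 hX

/-- The connecting homomorphism `Hᵃ(H, X₃) → Hᵇ(H, X₁)`. -/
def dSub {X : ShortComplex (Rep.{0} ℤ Γ)} (hX : X.ShortExact) (H : Subgroup Γ) (a b : ℕ)
    (hab : a + 1 = b) : Hn H X.X₃ a →ₗ[ℤ] Hn H X.X₁ b :=
  (δ (sesSub_shortExact hX H) a b hab).hom

/-- Exactness at `Hᵇ(H, X₁)`. -/
lemma exists_dSub_eq {X : ShortComplex (Rep.{0} ℤ Γ)} (hX : X.ShortExact) (H : Subgroup Γ)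
    (a b : ℕ) (hab : a + 1 = b) (y : Hn H X.X₁ b) (hy : coe H X.f b y = 0) :
    ∃ c : Hn H X.X₃ a, dSub hX H a b hab c = y := by
  have hex := mapShortComplex₁_exact (sesSub_shortExact hX H) hab
  rw [ShortComplex.moduleCat_exact_iff_ker_sub_range] at hex
  obtain ⟨z, hz⟩ := hex hy
  exact ⟨z, hz⟩

/-- Exactness at `Hᵃ(H, X₃)`. -/
lemma exists_coe_g_eq {X : ShortComplex (Rep.{0} ℤ Γ)} (hX : X.ShortExact) (H : Subgroup Γ)
    (a b : ℕ) (hab : a + 1 = b) (c : Hn H X.X₃ a) (hc : dSub hX H a b hab c = 0) :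
    ∃ x : Hn H X.X₂ a, coe H X.g a x = c := by
  have hex := mapShortComplex₃_exact (sesSub_shortExact hX H) hab
  rw [ShortComplex.moduleCat_exact_iff_ker_sub_range] at hex
  obtain ⟨z, hz⟩ := hex hc
  exact ⟨z, hz⟩

/-- Exactness at `Hᵃ(H, X₂)`. -/
lemma exists_coe_f_eq {X : ShortComplex (Rep.{0} ℤ Γ)} (hX : X.ShortExact) (H : Subgroup Γ)
    (a : ℕ) (x : Hn H X.X₂ a) (hx : coe H X.g a x = 0) :
    ∃ w : Hn H X.X₁ a, coe H X.f a w = x := by
  have hex := mapShortComplex₂_exact (sesSub_shortExact hX H) a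
  rw [ShortComplex.moduleCat_exact_iff_ker_sub_range] at hex
  obtain ⟨z, hz⟩ := hex hx
  exact ⟨z, hz⟩

/-- `δ ∘ g_* = 0`. -/
lemma dSub_coe_g {X : ShortComplex (Rep.{0} ℤ Γ)} (hX : X.ShortExact) (H : Subgroup Γ)
    (a b : ℕ) (hab : a + 1 = b) (w : Hn H X.X₂ a) :
    dSub hX H a b hab (coe H X.g a w) = 0 := by
  have h := (mapShortComplex₃ (sesSub_shortExact hX H) hab).zero
  exact congrArg (fun F => F.hom w) h

/-- `f_* ∘ δ = 0`. -/
lemma coe_f_dSub {X : ShortComplex (Rep.{0} ℤ Γ)} (hX : X.ShortExact) (H : Subgroup Γ)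
    (a b : ℕ) (hab : a + 1 = b) (c : Hn H X.X₃ a) :
    coe H X.f b (dSub hX H a b hab c) = 0 := by
  have h := (mapShortComplex₁ (sesSub_shortExact hX H) hab).zero
  exact congrArg (fun F => F.hom c) h

/-- Naturality of the connecting homomorphism under `infSub`. -/
lemma infSub_dSub (π : Γ' →* Γ) (H : Subgroup Γ) {X : ShortComplex (Rep.{0} ℤ Γ)}
    {Y : ShortComplex (Rep.{0} ℤ Γ')} (hX : X.ShortExact) (hY : Y.ShortExact)
    (t₁ : Rep.res π X.X₁ ⟶ Y.X₁) (t₂ : Rep.res π X.X₂ ⟶ Y.X₂) (t₃ : Rep.res π X.X₃ ⟶ Y.X₃)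
    (h₁₂ : ∀ a : X.X₁.V, t₂.hom (X.f.hom a) = Y.f.hom (t₁.hom a))
    (h₂₃ : ∀ a : X.X₂.V, t₃.hom (X.g.hom a) = Y.g.hom (t₂.hom a))
    (a b : ℕ) (hab : a + 1 = b) (c : Hn H X.X₃ a) :
    infSub π H t₁ b (dSub hX H a b hab c) =
      dSub hY (H.comap π) a b hab (infSub π H t₃ a c) := by
  let Φ : (sesSub X H).map (Rep.resFunctor (projSub π H)) ⟶ sesSub Y (H.comap π) :=
    { τ₁ := semiSub π H t₁
      τ₂ := semiSub π H t₂
      τ₃ := semiSub π H t₃
      comm₁₂ := by
        apply Rep.hom_ext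
        apply DFunLike.ext
        intro e
        exact (h₁₂ e).symm
      comm₂₃ := by
        apply Rep.hom_ext
        apply DFunLike.ext
        intro x
        exact (h₂₃ x).symm }
  have key := Fermat.Agent.S55.H783.δ_naturality_map (projSub π H) (sesSub_shortExact hX H)
    (sesSub_shortExact hY (H.comap π)) Φ a b hab
  exact congrArg (fun F => F.hom c) key

end General

/-! ## The tower -/

section Tower

variable {S : Finset Nat.Primes}

lemma proj_proj {L L' L'' : Level S} (h : L ≤ L') (h' : L' ≤ L'') (g : L''.Gal) :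
    Level.proj h (Level.proj h' g) = Level.proj (h.trans h') g := by
  induction g using QuotientGroup.induction_on with
  | H g => rfl

lemma proj_surjective {L L' : Level S} (h : L ≤ L') : Function.Surjective (Level.proj h) := by
  intro g
  induction g using QuotientGroup.induction_on with
  | H g => exact ⟨QuotientGroup.mk g, rfl⟩

lemma index_up {L L' : Level S} (h : L ≤ L') (H : Subgroup L.Gal) :
    (up h H).index = H.index :=
  Subgroup.index_comap_of_surjective H (proj_surjective h)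

/-- Transitivity of `infUp` for the `S`-units, in the form "dies after two steps ⇒ dies". -/
lemma infUp_trS_trans_zero {L L' L'' : Level S} (h : L ≤ L') (h' : L' ≤ L'')
    (H : Subgroup L.Gal) (n : ℕ) (y : Hn H (E1.Lim.sUnits L) n)
    (h0 : infUp h' (up h H) (trS h') n (infUp h H (trS h) n y) = 0) :
    infUp (h.trans h') H (trS (h.trans h')) n y = 0 :=
  infSub_trans_zero (Level.proj h) (Level.proj h') (Level.proj (h.trans h'))
    (proj_proj h h') H (trS h) (trS h') (trS (h.trans h')) (fun _ => rfl) n y h0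

/-- `J(F) → J(F')` is compatible with the diagonal. -/
lemma trJtot_diagTot' {L L' : Level S} (h : L ≤ L') (e : (E1.Lim.sUnits L).V) :
    (trJtot h).hom ((diagTot L).hom e) = (diagTot L').hom ((trS h).hom e) := by
  apply piRep_ext
  intro q
  show (Level.trJ h q.1).hom ((L.diag q.1).hom ((sIncl L).hom e)) =
    (L'.diag q.1).hom ((Level.trUnits h).hom ((sIncl L).hom e))
  apply L'.J_ext q.1
  intro g'
  have h1 : L'.units.ρ g' ((Level.trUnits h).hom ((sIncl L).hom e)) =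
      (Level.trUnits h).hom (L.units.ρ (Level.proj h g') ((sIncl L).hom e)) :=
    (Rep.hom_comm_apply (Level.trUnits h) g' ((sIncl L).hom e)).symm
  show Level.inclLoc h q.1 (L.embFun q.1 (L.units.ρ (Level.proj h g') ((sIncl L).hom e))) =
    L'.embFun q.1 (L'.units.ρ g' ((Level.trUnits h).hom ((sIncl L).hom e)))
  rw [h1]
  apply L'.locCoe_injective q.1
  rfl

variable {p : ℕ}

/-- The core of AR-E3, at a level containing `μ_p`. -/
theorem e3_core (c : _root_.Fermat.Agent.S55.K.AR.Ctx S p) (hp : p.Prime) (hses : SesExact c) (hJ3 : H3JVanish S p)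
    (hsurj : SurjJC c) (hcap : CapH2 c) (L : Level S) (hμ : L.HasMu p) (H : Subgroup L.Gal)
    (hcop : Nat.Coprime H.index p) (y : Hn H (E1.Lim.sUnits L) 3) (hy : p • y = 0) :
    ∃ (L' : Level S) (h : L ≤ L'), infUp h H (trS h) 3 y = 0 := by
  -- 1. `y` dies in `H³(H, J)`
  have hyJ : coe H (diagTot L) 3 y = 0 :=
    hJ3 L H _ (isPPrim_of_nsmul (by rw [← map_nsmul, hy, map_zero]))
  -- 2. `y = δ c₀`
  obtain ⟨c₀, hc₀⟩ := exists_dSub_eq (hses L) H 2 3 rfl y hyJ
  -- 3. `p`-primary part of `c₀`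
  obtain ⟨e, he⟩ := exists_pproj hp (Nat.card H) Nat.card_pos
  have hc₁ : IsPPrim p (e • c₀) :=
    (he (Hn H (C1 c.D L) 2) (fun x => Fermat.Agent.S55.H783.card_nsmul_eq_zero _ 1 x)).1 c₀
  have hδc₁ : dSub (hses L) H 2 3 rfl (e • c₀) = y := by
    rw [map_nsmul, hc₀]
    exact (he (Hn H (E1.Lim.sUnits L) 3)
      (fun x => Fermat.Agent.S55.H783.card_nsmul_eq_zero _ 2 x)).2 y (isPPrim_of_nsmul hy)
  -- 4. surjectivity (c)
  have hx₀ : IsPPrim p (coe H (inclC1 c.D L) 2 (e • c₀)) :=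
    IsPPrim.map (coe H (inclC1 c.D L) 2).toAddMonoidHom hc₁
  obtain ⟨L', h, x, hx⟩ := hsurj L hμ H hcop _ hx₀
  -- 5. `p`-primary part of `x`
  obtain ⟨e', he'⟩ := exists_pproj hp (Nat.card (up h H)) Nat.card_pos
  have hx' : IsPPrim p (e' • x) :=
    (he' (Hn (up h H) (Jtot L') 2)
      (fun x => Fermat.Agent.S55.H783.card_nsmul_eq_zero _ 1 x)).1 x
  have hjx' : coe (up h H) (jTot c.D L') 2 (e' • x) =
      infUp h H (c.D.tr h) 2 (coe H (inclC1 c.D L) 2 (e • c₀)) := by
    rw [map_nsmul, ← hx]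
    exact (he' (Hn (up h H) (c.D.C L') 2)
      (fun x => Fermat.Agent.S55.H783.card_nsmul_eq_zero _ 1 x)).2 _
      (IsPPrim.map (infUp h H (c.D.tr h) 2).toAddMonoidHom hx₀)
  -- 6. the difference `e₁`
  have he₁pp : IsPPrim p (infUp h H (trC1 c.h7 h) 2 (e • c₀) -
      coe (up h H) (jC1 c.D L') 2 (e' • x)) :=
    IsPPrim.sub (IsPPrim.map (infUp h H (trC1 c.h7 h) 2).toAddMonoidHom hc₁)
      (IsPPrim.map (coe (up h H) (jC1 c.D L') 2).toAddMonoidHom hx')
  have he₁0 : coe (up h H) (inclC1 c.D L') 2 (infUp h H (trC1 c.h7 h) 2 (e • c₀) -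
      coe (up h H) (jC1 c.D L') 2 (e' • x)) = 0 := by
    rw [map_sub, ← coe_comp, jC1_inclC1, hjx',
      ← infSub_coe (Level.proj h) H (inclC1 c.D L) (inclC1 c.D L') (trC1 c.h7 h) (c.D.tr h)
        (fun a => (inclC1_trC1 c.h7 h a).symm) 2 (e • c₀), sub_self]
  -- 7. capitulation
  obtain ⟨L'', h', hcap0⟩ := hcap L' (up h H) _ he₁pp he₁0
  -- 8. conclusion
  refine ⟨L'', h.trans h', infUp_trS_trans_zero h h' H 3 y ?_⟩
  have a1 : infUp h H (trS h) 3 (dSub (hses L) H 2 3 rfl (e • c₀)) =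
      dSub (hses L') (up h H) 2 3 rfl (infUp h H (trC1 c.h7 h) 2 (e • c₀)) :=
    infSub_dSub (Level.proj h) H (hses L) (hses L') (trS h) (trJtot h) (trC1 c.h7 h)
      (trJtot_diagTot' h) (trC1_jC1 c.h7 h) 2 3 rfl (e • c₀)
  have a2 : dSub (hses L') (up h H) 2 3 rfl (coe (up h H) (jC1 c.D L') 2 (e' • x)) = 0 :=
    dSub_coe_g (hses L') (up h H) 2 3 rfl (e' • x)
  have a3 := (dSub (hses L') (up h H) 2 3 rfl).map_sub
    (infUp h H (trC1 c.h7 h) 2 (e • c₀)) (coe (up h H) (jC1 c.D L') 2 (e' • x))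
  rw [a2, sub_zero] at a3
  have h8 : infUp h H (trS h) 3 y =
      dSub (hses L') (up h H) 2 3 rfl (infUp h H (trC1 c.h7 h) 2 (e • c₀) -
        coe (up h H) (jC1 c.D L') 2 (e' • x)) :=
    (congrArg (infUp h H (trS h) 3) hδc₁.symm).trans (a1.trans a3.symm)
  have a4 := infSub_dSub (Level.proj h') (up h H) (hses L') (hses L'') (trS h') (trJtot h')
    (trC1 c.h7 h') (trJtot_diagTot' h') (trC1_jC1 c.h7 h') 2 3 rfl
    (infUp h H (trC1 c.h7 h) 2 (e • c₀) - coe (up h H) (jC1 c.D L') 2 (e' • x))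
  exact (congrArg (infUp h' (up h H) (trS h') 3) h8).trans
    (a4.trans ((congrArg (dSub (hses L'') (up h' (up h H)) 2 3 rfl) hcap0).trans (map_zero _)))

/-- **AR-E3.** -/
theorem e3Leaf (S : Finset Nat.Primes) (p : ℕ) : E3Leaf S p := by
  intro c hses hJ3 hsurj hcap hmu L H hcop y hy
  obtain ⟨hp, -, -⟩ := c.adm
  obtain ⟨⟨L₀, hL₀⟩, hdir⟩ := hmu
  obtain ⟨L₁, h₁, h₀₁⟩ := hdir L L₀
  have hμ : L₁.HasMu p := hL₀.mono h₀₁
  obtain ⟨L₂, h₂, hz⟩ := e3_core c hp hses hJ3 hsurj hcap L₁ hμ (up h₁ H)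
    (by rw [index_up]; exact hcop) (infUp h₁ H (trS h₁) 3 y) (by rw [← map_nsmul, hy, map_zero])
  exact ⟨L₂, h₁.trans h₂, infUp_trS_trans_zero h₁ h₂ H 3 y hz⟩

end Tower

end

end Fermat.Agent.S55.K.AR.H206

end
-- ===== PACK-END S55/K/AR/E3H206.lean

-- ===== PACK-BEGIN S55/K/AR/E2H79.lean
section
/-
S55 / layer K / block AR, leaf **AR-E2** (helper79): `e2Leaf : E2Leaf S p`.
Blueprint: `coord/S55-K-AR.md` §2.  Namespace `Fermat.Agent.S55.K.AR.H79`.
-/


set_option autoImplicit false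

open CategoryTheory

namespace Fermat.Agent.S55.K.AR.H79

open Fermat.Agent.S55 Fermat.Agent.S55.Tow Fermat.Agent.S55.E1.Lim Fermat.Agent.S55.K.AR

noncomputable section

attribute [local instance 10000] Rep.hV2

/-! ## Functoriality of `coe` and `infSub` -/

section General

variable {Γ Γ' : Type} [Group Γ] [Group Γ']

lemma coe_comp (H : Subgroup Γ) {A B C : Rep.{0} ℤ Γ} (f : A ⟶ B) (g : B ⟶ C) (n : ℕ)
    (x : Hn H A n) : coe H (f ≫ g) n x = coe H g n (coe H f n x) := by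
  have := groupCohomology.map_id_comp ((Rep.resFunctor H.subtype).map f)
    ((Rep.resFunctor H.subtype).map g) n
  rw [← Functor.map_comp] at this
  exact congrArg (fun m => m.hom x) this

lemma coe_zero (H : Subgroup Γ) {A B : Rep.{0} ℤ Γ} (n : ℕ) (x : Hn H A n) :
    coe H (0 : A ⟶ B) n x = 0 := by
  have h : T.coeffMap ((Rep.resFunctor H.subtype).map (0 : A ⟶ B)) n = 0 := by
    rw [Functor.map_zero]
    show HomologicalComplex.homologyMap (groupCohomology.cochainsMap _ 0) n = 0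
    rw [groupCohomology.cochainsMap_zero, HomologicalComplex.homologyMap_zero]
  exact congrArg (fun m => m.hom x) h

/-- Inflation commutes with maps of coefficients. -/
lemma infSub_coe (π : Γ' →* Γ) (H : Subgroup Γ) {A B : Rep.{0} ℤ Γ} {A' B' : Rep.{0} ℤ Γ'}
    (f : A ⟶ B) (f' : A' ⟶ B') (t : Rep.res π A ⟶ A') (s : Rep.res π B ⟶ B')
    (hc : ∀ a : A.V, s.hom (f.hom a) = f'.hom (t.hom a)) (n : ℕ) (x : Hn H A n) :
    infSub π H s n (coe H f n x) = coe (H.comap π) f' n (infSub π H t n x) := by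
  have h1 := groupCohomology.map_comp (A := T.resSub A H) (B := T.resSub B H)
    (C := T.resSub B' (H.comap π)) (MonoidHom.id H) (projSub π H)
    ((Rep.resFunctor H.subtype).map f) (semiSub π H s) n
  have h2 := groupCohomology.map_comp (A := T.resSub A H) (B := T.resSub A' (H.comap π))
    (C := T.resSub B' (H.comap π)) (projSub π H) (MonoidHom.id (H.comap π))
    (semiSub π H t) ((Rep.resFunctor (H.comap π).subtype).map f') n
  have h3 : groupCohomology.map (A := T.resSub A H) (B := T.resSub B' (H.comap π))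
      ((MonoidHom.id H).comp (projSub π H))
      ((Rep.resFunctor (projSub π H)).map ((Rep.resFunctor H.subtype).map f) ≫ semiSub π H s) n =
      groupCohomology.map (A := T.resSub A H) (B := T.resSub B' (H.comap π))
      ((projSub π H).comp (MonoidHom.id (H.comap π)))
      ((Rep.resFunctor (MonoidHom.id (H.comap π))).map (semiSub π H t) ≫
        (Rep.resFunctor (H.comap π).subtype).map f') n := by
    refine groupCohomology.map_congr rfl (LinearMap.ext fun a => ?_) n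
    exact hc a
  rw [h1, h2] at h3
  exact congrArg (fun m => m.hom x) h3

/-- The identity of `A` as a semilinear map between its restrictions to `K ≤ K'`. -/
def inclSemi {K K' : Subgroup Γ} (hK : K ≤ K') (A : Rep.{0} ℤ Γ) :
    Rep.res (Subgroup.inclusion hK) (T.resSub A K') ⟶ T.resSub A K :=
  E1.Lim.semiOfAdd (Subgroup.inclusion hK) (A := T.resSub A K') (B := T.resSub A K)
    (AddMonoidHom.id A.V) (fun _ _ => rfl)

/-- Transitivity of inflation, through the comparison map between the two descriptions of the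
preimage of `H`. -/
lemma exists_comparison {Γ'' : Type} [Group Γ''] (π : Γ' →* Γ) (π' : Γ'' →* Γ') (π'' : Γ'' →* Γ)
    (hπ : ∀ g, π'' g = π (π' g)) (H : Subgroup Γ) {A : Rep.{0} ℤ Γ} {A' : Rep.{0} ℤ Γ'}
    {A'' : Rep.{0} ℤ Γ''} (t : Rep.res π A ⟶ A') (t' : Rep.res π' A' ⟶ A'')
    (t'' : Rep.res π'' A ⟶ A'') (ht : ∀ a : A.V, t''.hom a = t'.hom (t.hom a)) (n : ℕ) :
    ∃ κ : Hn ((H.comap π).comap π') A'' n →ₗ[ℤ] Hn (H.comap π'') A'' n,
      ∀ x : Hn H A n, κ (infSub π' (H.comap π) t' n (infSub π H t n x)) = infSub π'' H t'' n x := by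
  have hle : H.comap π'' ≤ (H.comap π).comap π' := by
    intro g hg
    show π (π' g) ∈ H
    rw [← hπ]
    exact hg
  refine ⟨(groupCohomology.map (A := T.resSub A'' ((H.comap π).comap π'))
    (B := T.resSub A'' (H.comap π'')) (Subgroup.inclusion hle) (inclSemi hle A'') n).hom,
    fun x => ?_⟩
  have h1 := groupCohomology.map_comp (A := T.resSub A H) (B := T.resSub A' (H.comap π))
    (C := T.resSub A'' ((H.comap π).comap π')) (projSub π H) (projSub π' (H.comap π))
    (semiSub π H t) (semiSub π' (H.comap π) t') n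
  have h2 := groupCohomology.map_comp (A := T.resSub A H)
    (B := T.resSub A'' ((H.comap π).comap π')) (C := T.resSub A'' (H.comap π''))
    ((projSub π H).comp (projSub π' (H.comap π))) (Subgroup.inclusion hle)
    ((Rep.resFunctor (projSub π' (H.comap π))).map (semiSub π H t) ≫ semiSub π' (H.comap π) t')
    (inclSemi hle A'') n
  have h3 : groupCohomology.map (A := T.resSub A H) (B := T.resSub A'' (H.comap π''))
      (((projSub π H).comp (projSub π' (H.comap π))).comp (Subgroup.inclusion hle))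
      ((Rep.resFunctor (Subgroup.inclusion hle)).map
        ((Rep.resFunctor (projSub π' (H.comap π))).map (semiSub π H t) ≫
          semiSub π' (H.comap π) t') ≫ inclSemi hle A'') n =
      groupCohomology.map (A := T.resSub A H) (B := T.resSub A'' (H.comap π''))
        (projSub π'' H) (semiSub π'' H t'') n := by
    have hfg : ((projSub π H).comp (projSub π' (H.comap π))).comp (Subgroup.inclusion hle) =
        projSub π'' H := by
      refine MonoidHom.ext fun g => Subtype.ext ?_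
      exact (hπ g).symm
    refine groupCohomology.map_congr hfg ?_ n
    refine LinearMap.ext fun a => ?_
    exact (ht a).symm
  have h4 := (congrArg (fun m => m ≫ groupCohomology.map (A := T.resSub A'' ((H.comap π).comap π'))
    (B := T.resSub A'' (H.comap π'')) (Subgroup.inclusion hle) (inclSemi hle A'') n) h1).symm.trans
      (h2.symm.trans h3)
  exact congrArg (fun m => m.hom x) h4

/-- Exactness of `Hⁿ(H, X₁) → Hⁿ(H, X₂) → Hⁿ(H, X₃)`. -/
lemma exists_of_coe_eq_zero {X : ShortComplex (Rep.{0} ℤ Γ)} (hX : X.ShortExact)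
    (H : Subgroup Γ) (n : ℕ) (y : Hn H X.X₂ n) (hy : coe H X.g n y = 0) :
    ∃ w : Hn H X.X₁ n, coe H X.f n w = y := by
  have hX' : (X.map (Rep.resFunctor H.subtype)).ShortExact := (Rep.shortExact_res H.subtype).2 hX
  have hex := groupCohomology.mapShortComplex₂_exact hX' n
  rw [ShortComplex.moduleCat_exact_iff] at hex
  exact hex y hy

end General

/-! ## Elementary arithmetic -/

section Arith

variable {A : Type} [AddCommGroup A]

lemma nsmul_eq_of_modEq {k n m : ℕ} (h : n ≡ m [MOD k]) {y : A} (hy : k • y = 0) :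
    n • y = m • y := by
  have key : ∀ n : ℕ, n • y = (n % k) • y := by
    intro n
    conv_lhs => rw [← Nat.div_add_mod n k]
    rw [add_nsmul, mul_nsmul, hy, smul_zero, zero_add]
  rw [key n, key m, h]

lemma nsmul_eq_zero_of_dvd {N n : ℕ} (h : N ∣ n) {y : A} (hy : N • y = 0) : n • y = 0 := by
  obtain ⟨u, rfl⟩ := h
  rw [mul_nsmul, hy, smul_zero]

/-- The idempotent of the `p`-primary part modulo `N`. -/
lemma exists_pprim_mul (p : ℕ) (hp : p.Prime) (N : ℕ) (hN : 0 < N) (b : ℕ) :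
    ∃ e a : ℕ, e ≡ 1 [MOD p ^ b] ∧ N ∣ p ^ a * e := by
  obtain ⟨a, N', hN', hNeq⟩ := Nat.exists_eq_pow_mul_and_not_dvd hN.ne' p hp.ne_one
  have hcop : Nat.Coprime (p ^ b) N' :=
    Nat.Coprime.pow_left _ ((Nat.Prime.coprime_iff_not_dvd hp).2 hN')
  obtain ⟨e, he1, he0⟩ := Nat.chineseRemainder hcop 1 0
  refine ⟨e, a, he1, ?_⟩
  rw [hNeq]
  exact Nat.mul_dvd_mul_left _ ((Nat.modEq_zero_iff_dvd).1 he0)

end Arith

/-! ## The tower -/

section Tower

variable {S : Finset Nat.Primes}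

lemma proj_trans_apply {L L' L'' : Level S} (h : L ≤ L') (h' : L' ≤ L'') (g : L''.Gal) :
    Level.proj (h.trans h') g = Level.proj h (Level.proj h' g) := by
  induction g using QuotientGroup.induction_on with
  | H g => rfl

lemma proj_surjective {L L' : Level S} (h : L ≤ L') : Function.Surjective (Level.proj h) := by
  intro g
  induction g using QuotientGroup.induction_on with
  | H g => exact ⟨QuotientGroup.mk g, rfl⟩

lemma index_up {L L' : Level S} (h : L ≤ L') (H : Subgroup L.Gal) : (up h H).index = H.index :=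
  Subgroup.index_comap_of_surjective H (proj_surjective h)

lemma trS_trans {L L' L'' : Level S} (h : L ≤ L') (h' : L' ≤ L'') (e : (E1.Lim.sUnits L).V) :
    (trS (h.trans h')).hom e = (trS h').hom ((trS h).hom e) := rfl

lemma trJ_diag {L L' : Level S} (h : L ≤ L') (q : Nat.Primes) (x : L.units.V) :
    (Level.trJ h q).hom ((L.diag q).hom x) = (L'.diag q).hom ((Level.trUnits h).hom x) := by
  apply L'.J_ext q
  intro g'
  have h1 : L'.units.ρ g' ((Level.trUnits h).hom x) =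
      (Level.trUnits h).hom (L.units.ρ (Level.proj h g') x) :=
    (Rep.hom_comm_apply (Level.trUnits h) g' x).symm
  show Level.inclLoc h q (L.embFun q (L.units.ρ (Level.proj h g') x)) =
    L'.embFun q (L'.units.ρ g' ((Level.trUnits h).hom x))
  rw [h1]
  apply L'.locCoe_injective q
  rfl

lemma trJtot_diagTot {L L' : Level S} (h : L ≤ L') (e : (E1.Lim.sUnits L).V) :
    (trJtot h).hom ((diagTot L).hom e) = (diagTot L').hom ((trS h).hom e) := by
  apply piRep_ext
  intro q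
  exact _root_.Fermat.Agent.S55.K.AR.H79.trJ_diag h q.1 ((sIncl L).hom e)

/-- The class `x` becomes divisible by `p` at a higher level. -/
def Div (p : ℕ) (L : Level S) (H : Subgroup L.Gal) (x : Hn H (E1.Lim.sUnits L) 2) : Prop :=
  ∃ (L' : Level S) (h : L ≤ L') (w : Hn (up h H) (E1.Lim.sUnits L') 2), infUp h H (trS h) 2 x = p • w

lemma Div.descend {p : ℕ} {L L' : Level S} (h : L ≤ L') (H : Subgroup L.Gal)
    (x : Hn H (E1.Lim.sUnits L) 2) (hx : Div p L' (up h H) (infUp h H (trS h) 2 x)) : Div p L H x := by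
  obtain ⟨L'', h', w, hw⟩ := hx
  obtain ⟨κ, hκ⟩ := exists_comparison (Level.proj h) (Level.proj h') (Level.proj (h.trans h'))
    (_root_.Fermat.Agent.S55.K.AR.H79.proj_trans_apply h h') H (trS h) (trS h') (trS (h.trans h')) (trS_trans h h') 2
  refine ⟨L'', h.trans h', κ w, ?_⟩
  have := hκ x
  rw [← map_nsmul, ← hw]
  exact this.symm

variable {p : ℕ} (c : _root_.Fermat.Agent.S55.K.AR.Ctx S p)

lemma diagTot_jTot_eq_zero (L : Level S) : diagTot L ≫ jTot c.D L = 0 := by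
  rw [← jC1_inclC1, ← Category.assoc, diagTot_jC1 c.h4, Limits.zero_comp]

lemma card_smul_eq_zero {L : Level S} (H : Subgroup L.Gal) (A : Rep.{0} ℤ L.Gal)
    (z : Hn H A 2) : Nat.card H • z = 0 :=
  T.H572.cardTorsion ℤ H (T.resSub A H) 2 (by norm_num) z

/-- The core of the argument: `p`-primary classes at a level containing `μ_p`. -/
lemma div_of_pprim (hp : p.Prime) (hses : SesExact c) (hker : KerDiv c) (hcap : CapH2 c)
    (hhasse : HasseTower S p) (L : Level S) (hμ : L.HasMu p) (H : Subgroup L.Gal)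
    (hcop : Nat.Coprime H.index p) (x : Hn H (E1.Lim.sUnits L) 2) (hx : IsPPrim p x) : Div p L H x := by
  obtain ⟨b, hb⟩ := hx
  -- the image in `J`
  have hxJ : IsPPrim p (coe H (diagTot L) 2 x) := ⟨b, by rw [← map_nsmul, hb, map_zero]⟩
  have hxJ0 : coe H (jTot c.D L) 2 (coe H (diagTot L) 2 x) = 0 := by
    rw [← coe_comp, diagTot_jTot_eq_zero, coe_zero]
  obtain ⟨L₂, h₂, y, hy, hy0⟩ := hker L hμ H hcop _ hxJ hxJ0
  have hyp : p ^ (b + 1) • y = 0 := by
    rw [pow_succ, mul_nsmul', hy, ← map_nsmul, ← map_nsmul, hb, map_zero, map_zero]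
  -- capitulation
  have hs0 : coe (up h₂ H) (inclC1 c.D L₂) 2 (coe (up h₂ H) (jC1 c.D L₂) 2 y) = 0 := by
    rw [← coe_comp, jC1_inclC1]
    exact hy0
  have hsp : IsPPrim p (coe (up h₂ H) (jC1 c.D L₂) 2 y) :=
    ⟨b + 1, by rw [← map_nsmul, hyp, map_zero]⟩
  obtain ⟨L₃, h₃, hcap3⟩ := hcap L₂ (up h₂ H) _ hsp hs0
  have hy3 : coe (up h₃ (up h₂ H)) (jC1 c.D L₃) 2 (infUp h₃ (up h₂ H) (trJtot h₃) 2 y) = 0 := by
    rw [← infSub_coe (Level.proj h₃) (up h₂ H) (jC1 c.D L₂) (jC1 c.D L₃) (trJtot h₃)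
      (trC1 c.h7 h₃) (fun a => trC1_jC1 c.h7 h₃ a) 2 y]
    exact hcap3
  obtain ⟨w₀, hw₀⟩ : ∃ w₀ : Hn (up h₃ (up h₂ H)) (E1.Lim.sUnits L₃) 2,
      coe (up h₃ (up h₂ H)) (diagTot L₃) 2 w₀ = infUp h₃ (up h₂ H) (trJtot h₃) 2 y :=
    exists_of_coe_eq_zero (X := ses c.h4 L₃) (hses L₃) (up h₃ (up h₂ H)) 2 _ hy3
  -- a `p`-primary lift
  have hy3p : p ^ (b + 1) • infUp h₃ (up h₂ H) (trJtot h₃) 2 y = 0 := by
    rw [← map_nsmul, hyp, map_zero]
  obtain ⟨e, a, he1, hdvd⟩ := exists_pprim_mul p hp (Nat.card (up h₃ (up h₂ H))) Nat.card_pos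
    (b + 1)
  have hw₁p : p ^ a • e • w₀ = 0 := by
    rw [← mul_nsmul']
    exact nsmul_eq_zero_of_dvd hdvd (card_smul_eq_zero _ _ w₀)
  have hw₁ : coe (up h₃ (up h₂ H)) (diagTot L₃) 2 (e • w₀) =
      infUp h₃ (up h₂ H) (trJtot h₃) 2 y := by
    rw [map_nsmul, hw₀, nsmul_eq_of_modEq he1 hy3p, one_nsmul]
  -- Hasse
  have hx3 : coe (up h₃ (up h₂ H)) (diagTot L₃) 2
      (infUp h₃ (up h₂ H) (trS h₃) 2 (infUp h₂ H (trS h₂) 2 x)) =
      p • infUp h₃ (up h₂ H) (trJtot h₃) 2 y := by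
    rw [← infSub_coe (Level.proj h₃) (up h₂ H) (diagTot L₂) (diagTot L₃) (trS h₃) (trJtot h₃)
      (fun a => _root_.Fermat.Agent.S55.K.AR.H79.trJtot_diagTot h₃ a) 2,
      ← infSub_coe (Level.proj h₂) H (diagTot L) (diagTot L₂) (trS h₂) (trJtot h₂)
      (fun a => _root_.Fermat.Agent.S55.K.AR.H79.trJtot_diagTot h₂ a) 2, ← map_nsmul, hy]
  have hx3p : p ^ b • infUp h₃ (up h₂ H) (trS h₃) 2 (infUp h₂ H (trS h₂) 2 x) = 0 := by
    rw [← map_nsmul, ← map_nsmul, hb, map_zero, map_zero]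
  have he0p : IsPPrim p (p • e • w₀ - infUp h₃ (up h₂ H) (trS h₃) 2 (infUp h₂ H (trS h₂) 2 x)) := by
    refine ⟨a + b, ?_⟩
    rw [smul_sub, pow_add]
    have h1 : (p ^ a * p ^ b) • p • e • w₀ = 0 := by
      rw [mul_nsmul, smul_comm (p ^ a) p, hw₁p, smul_zero, smul_zero]
    have h2 : (p ^ a * p ^ b) •
        infUp h₃ (up h₂ H) (trS h₃) 2 (infUp h₂ H (trS h₂) 2 x) = 0 := by
      rw [mul_nsmul', hx3p, smul_zero]
    rw [h1, h2, sub_zero]
  have he00 : coe (up h₃ (up h₂ H)) (diagTot L₃) 2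
      (p • e • w₀ - infUp h₃ (up h₂ H) (trS h₃) 2 (infUp h₂ H (trS h₂) 2 x)) = 0 := by
    rw [map_sub, map_nsmul, hw₁, hx3, sub_self]
  obtain ⟨L₄, h₄, hh⟩ := hhasse L₃ (up h₃ (up h₂ H)) _ he0p he00
  rw [map_sub, map_nsmul, sub_eq_zero] at hh
  refine Div.descend h₂ H x (Div.descend h₃ (up h₂ H) _ ⟨L₄, h₄, _, hh.symm⟩)

/-- All classes at a level containing `μ_p`. -/
lemma div_of_hasMu (hp : p.Prime) (hses : SesExact c) (hker : KerDiv c) (hcap : CapH2 c)
    (hhasse : HasseTower S p) (L : Level S) (hμ : L.HasMu p) (H : Subgroup L.Gal)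
    (hcop : Nat.Coprime H.index p) (x : Hn H (E1.Lim.sUnits L) 2) : Div p L H x := by
  obtain ⟨e, a, he1, hdvd⟩ := exists_pprim_mul p hp (Nat.card H) Nat.card_pos 1
  have hex : IsPPrim p (e • x) := ⟨a, by
    rw [← mul_nsmul']
    exact nsmul_eq_zero_of_dvd hdvd (card_smul_eq_zero _ _ x)⟩
  obtain ⟨L', h, w, hw⟩ := div_of_pprim c hp hses hker hcap hhasse L hμ H hcop _ hex
  rw [pow_one] at he1
  obtain ⟨q, he⟩ : ∃ q : ℕ, e = p * q + 1 := by
    have h1 := Nat.div_add_mod e p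
    have h2 : e % p = 1 := by
      rw [he1]
      exact Nat.mod_eq_of_lt hp.one_lt
    exact ⟨e / p, by omega⟩
  refine ⟨L', h, w - q • infUp h H (trS h) 2 x, ?_⟩
  rw [map_nsmul, he] at hw
  rw [smul_sub, ← hw, add_nsmul, one_nsmul, mul_nsmul', add_sub_cancel_left]

/-- **AR-E2**. -/
theorem e2Leaf (S : Finset Nat.Primes) (p : ℕ) : E2Leaf S p := by
  intro c hses hker hcap hhasse hmu L H hcop x
  obtain ⟨hp, -, -⟩ := c.adm
  obtain ⟨⟨L₀, hL₀⟩, hdir⟩ := hmu
  obtain ⟨L₁, h₁, h₀₁⟩ := hdir L L₀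
  refine Div.descend h₁ H x (div_of_hasMu c hp hses hker hcap hhasse L₁ (hL₀.mono h₀₁) (up h₁ H)
    ?_ _)
  rw [index_up]
  exact hcop

end Tower

end

end Fermat.Agent.S55.K.AR.H79

end
-- ===== PACK-END S55/K/AR/E2H79.lean

-- ===== PACK-BEGIN S55/K/AR/CokerH635.lean
section


/-!
# S55 / layer K / block AR, leaf AR-COKER (helper635)

`cokerLeaf : CokerLeaf S p`  (GO4 in the tower): of two classes of `H²(Gal(F/K), J(F))[p]` a
non-trivial combination comes, at a higher level, from `H²(Gal(F'/K), E(F'))[p]`.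

Chase (blueprint `coord/S55-K-AR.md` §2), on top of the library of `E2H79.lean` (helper79):
`c_i := jTot_* x_i ∈ H²(H, C)[p]`; C2 ⇒ `a c₁ + b c₂ = 0`, `(a, b) ≢ 0 mod p`; `z := a x₁ + b x₂`;
`jC1_* z` dies in `H²(C)` ⇒ CAP2 ⇒ `inf z = diag_* w`, `w` `p`-primary; `diag_* (p w) = 0` ⇒
HASSE ⇒ `p · inf w = 0`.
-/

set_option autoImplicit false

open CategoryTheory

namespace Fermat.Agent.S55.K.AR.H635

open Fermat.Agent.S55 Fermat.Agent.S55.Tow Fermat.Agent.S55.E1.Lim Fermat.Agent.S55.K.AR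

noncomputable section

attribute [local instance 10000] Rep.hV2

/-! ## The comparison (restriction) map for `K ≤ K'` -/

section General

variable {Γ Γ' : Type} [Group Γ] [Group Γ']

/-- Restriction `Hⁿ(K', A) → Hⁿ(K, A)` for `K ≤ K'`. -/
def kap {K K' : Subgroup Γ} (hK : K ≤ K') (A : Rep.{0} ℤ Γ) (n : ℕ) :
    Hn K' A n →ₗ[ℤ] Hn K A n :=
  (groupCohomology.map (A := T.resSub A K') (B := T.resSub A K) (Subgroup.inclusion hK)
    (H79.inclSemi hK A) n).hom

/-- `kap` is natural in the coefficients. -/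
lemma kap_coe {K K' : Subgroup Γ} (hK : K ≤ K') {A B : Rep.{0} ℤ Γ} (f : A ⟶ B) (n : ℕ)
    (x : Hn K' A n) : kap hK B n (coe K' f n x) = coe K f n (kap hK A n x) := by
  have h1 := groupCohomology.map_comp (A := T.resSub A K') (B := T.resSub B K')
    (C := T.resSub B K) (MonoidHom.id K') (Subgroup.inclusion hK)
    ((Rep.resFunctor K'.subtype).map f) (H79.inclSemi hK B) n
  have h2 := groupCohomology.map_comp (A := T.resSub A K') (B := T.resSub A K)
    (C := T.resSub B K) (Subgroup.inclusion hK) (MonoidHom.id K)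
    (H79.inclSemi hK A) ((Rep.resFunctor K.subtype).map f) n
  have h3 : groupCohomology.map (A := T.resSub A K') (B := T.resSub B K)
      ((MonoidHom.id K').comp (Subgroup.inclusion hK))
      ((Rep.resFunctor (Subgroup.inclusion hK)).map ((Rep.resFunctor K'.subtype).map f) ≫
        H79.inclSemi hK B) n =
      groupCohomology.map (A := T.resSub A K') (B := T.resSub B K)
      ((Subgroup.inclusion hK).comp (MonoidHom.id K))
      ((Rep.resFunctor (MonoidHom.id K)).map (H79.inclSemi hK A) ≫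
        (Rep.resFunctor K.subtype).map f) n := by
    refine groupCohomology.map_congr rfl (LinearMap.ext fun a => ?_) n
    rfl
  rw [h1, h2] at h3
  exact congrArg (fun m => m.hom x) h3

/-- Transitivity of inflation through `kap`. -/
lemma kap_infSub {Γ'' : Type} [Group Γ''] (π : Γ' →* Γ) (π' : Γ'' →* Γ') (π'' : Γ'' →* Γ)
    (hπ : ∀ g, π'' g = π (π' g)) (H : Subgroup Γ) {A : Rep.{0} ℤ Γ} {A' : Rep.{0} ℤ Γ'}
    {A'' : Rep.{0} ℤ Γ''} (t : Rep.res π A ⟶ A') (t' : Rep.res π' A' ⟶ A'')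
    (t'' : Rep.res π'' A ⟶ A'') (ht : ∀ a : A.V, t''.hom a = t'.hom (t.hom a)) (n : ℕ)
    (hle : H.comap π'' ≤ (H.comap π).comap π') (x : Hn H A n) :
    kap hle A'' n (infSub π' (H.comap π) t' n (infSub π H t n x)) = infSub π'' H t'' n x := by
  have h1 := groupCohomology.map_comp (A := T.resSub A H) (B := T.resSub A' (H.comap π))
    (C := T.resSub A'' ((H.comap π).comap π')) (projSub π H) (projSub π' (H.comap π))
    (semiSub π H t) (semiSub π' (H.comap π) t') n
  have h2 := groupCohomology.map_comp (A := T.resSub A H)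
    (B := T.resSub A'' ((H.comap π).comap π')) (C := T.resSub A'' (H.comap π''))
    ((projSub π H).comp (projSub π' (H.comap π))) (Subgroup.inclusion hle)
    ((Rep.resFunctor (projSub π' (H.comap π))).map (semiSub π H t) ≫ semiSub π' (H.comap π) t')
    (H79.inclSemi hle A'') n
  have h3 : groupCohomology.map (A := T.resSub A H) (B := T.resSub A'' (H.comap π''))
      (((projSub π H).comp (projSub π' (H.comap π))).comp (Subgroup.inclusion hle))
      ((Rep.resFunctor (Subgroup.inclusion hle)).map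
        ((Rep.resFunctor (projSub π' (H.comap π))).map (semiSub π H t) ≫
          semiSub π' (H.comap π) t') ≫ H79.inclSemi hle A'') n =
      groupCohomology.map (A := T.resSub A H) (B := T.resSub A'' (H.comap π''))
        (projSub π'' H) (semiSub π'' H t'') n := by
    have hfg : ((projSub π H).comp (projSub π' (H.comap π))).comp (Subgroup.inclusion hle) =
        projSub π'' H := by
      refine MonoidHom.ext fun g => Subtype.ext ?_
      exact (hπ g).symm
    refine groupCohomology.map_congr hfg ?_ n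
    refine LinearMap.ext fun a => ?_
    exact (ht a).symm
  have h4 := (congrArg (fun m => m ≫ groupCohomology.map (A := T.resSub A'' ((H.comap π).comap π'))
    (B := T.resSub A'' (H.comap π'')) (Subgroup.inclusion hle) (H79.inclSemi hle A'') n) h1).symm.trans
      (h2.symm.trans h3)
  exact congrArg (fun m => m.hom x) h4

end General

/-! ## Cyclic bookkeeping -/

section Arith

variable {A : Type} [AddCommGroup A]

/-- Two `p`-torsion multiples of a `p`-primary element are dependent modulo `p`. -/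
lemma exists_dependent (p : ℕ) (hp : p.Prime) (g c₁ c₂ : A) (hg : ∃ k : ℕ, p ^ k • g = 0)
    (h₁ : ∃ n : ℕ, c₁ = n • g) (h₂ : ∃ n : ℕ, c₂ = n • g) (hc₁ : p • c₁ = 0)
    (hc₂ : p • c₂ = 0) :
    ∃ a b : ℕ, (¬ p ∣ a ∨ ¬ p ∣ b) ∧ a • c₁ + b • c₂ = 0 := by
  by_cases h0 : c₁ = 0
  · exact ⟨1, 0, Or.inl (fun h => hp.one_lt.ne' (Nat.dvd_one.1 h)), by simp [h0]⟩
  obtain ⟨k, hk⟩ := hg
  obtain ⟨n₁, rfl⟩ := h₁
  obtain ⟨n₂, rfl⟩ := h₂
  -- the order of `g`
  obtain ⟨j, -, hj⟩ := (Nat.dvd_prime_pow hp).1 (addOrderOf_dvd_of_nsmul_eq_zero hk)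
  have hjpos : j ≠ 0 := by
    rintro rfl
    rw [pow_zero, AddMonoid.addOrderOf_eq_one_iff] at hj
    apply h0
    rw [hj, smul_zero]
  obtain ⟨i, rfl⟩ : ∃ i, j = i + 1 := ⟨j - 1, by omega⟩
  have hdiv : ∀ n : ℕ, p • n • g = 0 → p ^ i ∣ n := by
    intro n hn
    rw [← mul_nsmul'] at hn
    have h1 : p ^ (i + 1) ∣ p * n := by
      rw [← hj]
      exact addOrderOf_dvd_of_nsmul_eq_zero hn
    rw [pow_succ, mul_comm] at h1
    exact Nat.dvd_of_mul_dvd_mul_left hp.pos h1
  obtain ⟨m₁, rfl⟩ := hdiv n₁ hc₁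
  obtain ⟨m₂, rfl⟩ := hdiv n₂ hc₂
  have hm₁ : ¬ p ∣ m₁ := by
    rintro ⟨u, rfl⟩
    apply h0
    have h2 : p ^ i * (p * u) = u * p ^ (i + 1) := by ring
    rw [h2, mul_nsmul', ← hj, addOrderOf_nsmul_eq_zero, smul_zero]
  refine ⟨m₂, (p - 1) * m₁, Or.inr ?_, ?_⟩
  · intro h
    rcases (Nat.Prime.dvd_mul hp).1 h with h3 | h3
    · have := Nat.le_of_dvd (Nat.sub_pos_of_lt hp.one_lt) h3
      have := hp.one_lt
      omega
    · exact hm₁ h3
  · rw [← mul_nsmul', ← mul_nsmul', ← add_nsmul]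
    have h4 : m₂ * (p ^ i * m₁) + (p - 1) * m₁ * (p ^ i * m₂) = (m₁ * m₂) * p ^ (i + 1) := by
      have hp1 : p - 1 + 1 = p := Nat.sub_add_cancel hp.one_lt.le
      calc m₂ * (p ^ i * m₁) + (p - 1) * m₁ * (p ^ i * m₂)
          = (m₁ * m₂) * (p ^ i * (p - 1 + 1)) := by ring
        _ = (m₁ * m₂) * p ^ (i + 1) := by rw [hp1, pow_succ]
    rw [h4, mul_nsmul', ← hj, addOrderOf_nsmul_eq_zero, smul_zero]

end Arith

/-! ## The tower -/

section Tower

variable {S : Finset Nat.Primes}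

lemma trJ_trans {L L' L'' : Level S} (h : L ≤ L') (h' : L' ≤ L'') (q : Nat.Primes)
    (f : (L.J q).V) :
    (Level.trJ (h.trans h') q).hom f = (Level.trJ h' q).hom ((Level.trJ h q).hom f) := by
  apply L''.J_ext q
  intro g
  show Level.inclLoc (h.trans h') q (L.Jeval q f (Level.proj (h.trans h') g)) =
    Level.inclLoc h' q (Level.inclLoc h q (L.Jeval q f (Level.proj h (Level.proj h' g))))
  rw [H79.proj_trans_apply]
  apply L''.locCoe_injective q
  rfl

lemma trJtot_trans {L L' L'' : Level S} (h : L ≤ L') (h' : L' ≤ L'') (x : (Jtot L).V) :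
    (trJtot (h.trans h')).hom x = (trJtot h').hom ((trJtot h).hom x) := by
  apply piRep_ext
  intro q
  exact trJ_trans h h' q.1 (piTo x q)

/-- The class `z ∈ H²(H, J(F))` comes, at a higher level, from `H²(E)[p]`. -/
def Cok (p : ℕ) (L : Level S) (H : Subgroup L.Gal) (z : Hn H (Jtot L) 2) : Prop :=
  ∃ (L' : Level S) (h : L ≤ L') (y : Hn (up h H) (E1.Lim.sUnits L') 2), p • y = 0 ∧
    coe (up h H) (diagTot L') 2 y = infUp h H (trJtot h) 2 z

lemma Cok.descend {p : ℕ} {L L' : Level S} (h : L ≤ L') (H : Subgroup L.Gal)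
    (z : Hn H (Jtot L) 2) (hz : Cok p L' (up h H) (infUp h H (trJtot h) 2 z)) : Cok p L H z := by
  obtain ⟨L'', h', y, hy, hyz⟩ := hz
  have hle : H.comap (Level.proj (h.trans h')) ≤ (H.comap (Level.proj h)).comap (Level.proj h') := by
    intro g hg
    show Level.proj h (Level.proj h' g) ∈ H
    rw [← H79.proj_trans_apply]
    exact hg
  refine ⟨L'', h.trans h', kap hle (E1.Lim.sUnits L'') 2 y, ?_, ?_⟩
  · rw [← map_nsmul, hy, map_zero]
  · have h1 := kap_coe hle (diagTot L'') 2 y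
    have h2 := kap_infSub (Level.proj h) (Level.proj h') (Level.proj (h.trans h'))
      (H79.proj_trans_apply h h') H (trJtot h) (trJtot h') (trJtot (h.trans h'))
      (trJtot_trans h h') 2 hle z
    rw [← h1, hyz]
    exact h2

variable {p : ℕ} (c : _root_.Fermat.Agent.S55.K.AR.Ctx S p)

/-- The core of the argument, at a level containing `μ_p`. -/
lemma coker_of_hasMu (hp : p.Prime) (hses : SesExact c) (hcyc : H2CCyclic c) (hcap : CapH2 c)
    (hhasse : HasseTower S p) (L : Level S) (hμ : L.HasMu p) (H : Subgroup L.Gal)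
    (x₁ x₂ : Hn H (Jtot L) 2) (hx₁ : p • x₁ = 0) (hx₂ : p • x₂ = 0) :
    ∃ a b : ℕ, (¬ p ∣ a ∨ ¬ p ∣ b) ∧ Cok p L H (a • x₁ + b • x₂) := by
  -- the images in `H²(C)` are dependent
  obtain ⟨g, hg, hgen⟩ := hcyc L hμ H
  have hc₁ : p • coe H (jTot c.D L) 2 x₁ = 0 := by rw [← map_nsmul, hx₁, map_zero]
  have hc₂ : p • coe H (jTot c.D L) 2 x₂ = 0 := by rw [← map_nsmul, hx₂, map_zero]
  obtain ⟨a, b, hab, hdep⟩ := exists_dependent p hp g _ _ hg
    (hgen _ ⟨1, by rw [pow_one]; exact hc₁⟩) (hgen _ ⟨1, by rw [pow_one]; exact hc₂⟩) hc₁ hc₂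
  refine ⟨a, b, hab, ?_⟩
  -- `z := a x₁ + b x₂`
  obtain ⟨z, hzdef⟩ : ∃ z, z = a • x₁ + b • x₂ := ⟨_, rfl⟩
  rw [← hzdef]
  have hz : p • z = 0 := by
    rw [hzdef, smul_add, smul_comm p a, smul_comm p b, hx₁, hx₂, smul_zero, smul_zero, add_zero]
  have hz0 : coe H (jTot c.D L) 2 z = 0 := by
    rw [hzdef, map_add, map_nsmul, map_nsmul]
    exact hdep
  -- capitulation
  have hs0 : coe H (inclC1 c.D L) 2 (coe H (jC1 c.D L) 2 z) = 0 := by
    rw [← H79.coe_comp, jC1_inclC1]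
    exact hz0
  have hsp : IsPPrim p (coe H (jC1 c.D L) 2 z) :=
    ⟨1, by rw [pow_one, ← map_nsmul, hz, map_zero]⟩
  obtain ⟨L₂, h₂, hcap2⟩ := hcap L H _ hsp hs0
  have hz2 : coe (up h₂ H) (jC1 c.D L₂) 2 (infUp h₂ H (trJtot h₂) 2 z) = 0 := by
    rw [← H79.infSub_coe (Level.proj h₂) H (jC1 c.D L) (jC1 c.D L₂) (trJtot h₂)
      (trC1 c.h7 h₂) (fun a => trC1_jC1 c.h7 h₂ a) 2 z]
    exact hcap2
  obtain ⟨w₀, hw₀⟩ : ∃ w₀ : Hn (up h₂ H) (E1.Lim.sUnits L₂) 2,
      coe (up h₂ H) (diagTot L₂) 2 w₀ = infUp h₂ H (trJtot h₂) 2 z :=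
    H79.exists_of_coe_eq_zero (X := ses c.h4 L₂) (hses L₂) (up h₂ H) 2 _ hz2
  -- a `p`-primary lift
  have hz2p : p ^ 1 • infUp h₂ H (trJtot h₂) 2 z = 0 := by
    rw [pow_one, ← map_nsmul, hz, map_zero]
  obtain ⟨e, k, he1, hdvd⟩ := H79.exists_pprim_mul p hp (Nat.card (up h₂ H)) Nat.card_pos 1
  have hw₁p : p ^ k • e • w₀ = 0 := by
    rw [← mul_nsmul']
    exact H79.nsmul_eq_zero_of_dvd hdvd (H79.card_smul_eq_zero _ _ w₀)
  have hw₁ : coe (up h₂ H) (diagTot L₂) 2 (e • w₀) = infUp h₂ H (trJtot h₂) 2 z := by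
    rw [map_nsmul, hw₀, H79.nsmul_eq_of_modEq he1 hz2p, one_nsmul]
  -- Hasse for `p • w₁`
  have hpw : IsPPrim p (p • e • w₀) := ⟨k, by rw [smul_comm, hw₁p, smul_zero]⟩
  have hpw0 : coe (up h₂ H) (diagTot L₂) 2 (p • e • w₀) = 0 := by
    rw [map_nsmul, hw₁, ← map_nsmul, hz, map_zero]
  obtain ⟨L₃, h₃, hh⟩ := hhasse L₂ (up h₂ H) _ hpw hpw0
  refine Cok.descend h₂ H z ⟨L₃, h₃, infUp h₃ (up h₂ H) (trS h₃) 2 (e • w₀), ?_, ?_⟩
  · rw [← map_nsmul]
    exact hh
  · rw [← H79.infSub_coe (Level.proj h₃) (up h₂ H) (diagTot L₂) (diagTot L₃) (trS h₃)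
      (trJtot h₃) (fun a => H79.trJtot_diagTot h₃ a) 2, hw₁]

/-- **AR-COKER**. -/
theorem cokerLeaf (S : Finset Nat.Primes) (p : ℕ) : CokerLeaf S p := by
  intro c hses hcyc hcap hhasse hmu L H x₁ x₂ hx₁ hx₂
  obtain ⟨hp, -, -⟩ := c.adm
  obtain ⟨⟨L₀, hL₀⟩, hdir⟩ := hmu
  obtain ⟨L₁, h₁, h₀₁⟩ := hdir L L₀
  obtain ⟨a, b, hab, hcok⟩ := coker_of_hasMu c hp hses hcyc hcap hhasse L₁ (hL₀.mono h₀₁)
    (up h₁ H) (infUp h₁ H (trJtot h₁) 2 x₁) (infUp h₁ H (trJtot h₁) 2 x₂)
    (by rw [← map_nsmul, hx₁, map_zero]) (by rw [← map_nsmul, hx₂, map_zero])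
  refine ⟨a, b, hab, ?_⟩
  have h2 : Cok p L H (a • x₁ + b • x₂) := by
    apply Cok.descend h₁ H
    rw [map_add, map_nsmul, map_nsmul]
    exact hcok
  exact h2

end Tower

end

end Fermat.Agent.S55.K.AR.H635

end
-- ===== PACK-END S55/K/AR/CokerH635.lean

-- ===== PACK-BEGIN S55/K/DevH593.lean
section






/-!
# S55 / layer K, leaf K-T2: dévissage `H3IndMuSpec ⇒ H3FinSpec`   (helper593)

`h3Fin_of : H3IndMuSpec p S → H3FinSpec p S`:
if `H³_S(Ind_V μ_p) = 0` for every level `V` then `H³_S(R) = 0` for every finite-dimensional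
`𝔽_p[G_ℚ]`-module `R` fixed by an `S`-level.

This is the instance `G = G_ℚ`, `𝓛 = globalLevels S`, `μ = muP p` of the abstract dévissage
`H593.Dev.H3V_of_ind_triv` (`H593/Dev/Main.lean`, Mathlib only).  The adapter consists of:
`K.H3Vanish ↔ Dev.H3V` (unfolding), `K.indG = Dev.dInd` (definitionally), open subgroups of
`G_ℚ` containing an `S`-level are `S`-levels (`Bridge.exists_level_of_subgroup`), and `muP p` is
fixed by the level `ℚ(μ_p)` (`p ∈ S`).
-/

set_option autoImplicit false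
set_option linter.style.haveILetI false

noncomputable section

namespace Fermat.Agent.S55.K.H593

open groupCohomology Fermat.Agent.S55.PT Fermat.Agent.S55.Bridge Fermat.Agent.S55.K
open Fermat.Agent.S55.H593

variable {G : Type} [Group G]

/-- `K.H3Vanish` is `Dev.H3V` (same cochain-level statement). -/
theorem h3Vanish_iff_H3V {k : Type} [CommRing k] (L : LevelSys G) (A : Rep.{0, 0, 0} k G) :
    H3Vanish L A ↔ Dev.H3V L.levels A := by
  constructor
  · intro h z hz hcoc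
    have hd : d34 A z = 0 := by
      funext x
      obtain ⟨g, h', i, j⟩ := x
      exact hcoc g h' i j
    obtain ⟨b, hb, hdb⟩ := h z hz hd
    exact ⟨b, hb, hdb⟩
  · intro h f hf hd
    have hcoc : Dev.IsCoc3 A f := fun g h' i j => congrFun hd (g, h', i, j)
    obtain ⟨b, hb, hdb⟩ := h f hf hcoc
    exact ⟨b, hb, hdb⟩

/-- `K.indG` is `Dev.dInd`. -/
theorem indG_eq_dInd {k : Type} [CommRing k] (V : Subgroup G) (A : Rep.{0, 0, 0} k G) :
    indG V A = Dev.dInd V A := rfl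

variable (p : ℕ) [Fact p.Prime] (S : Finset Nat.Primes)

/-- A subgroup of `G_ℚ` containing an `S`-level is an `S`-level. -/
theorem mem_levels_of_le {U H : Subgroup _root_.Fermat.Agent.S55.PT.GQ} (hU : U ∈ (globalLevels S).levels) (hUH : U ≤ H) :
    H ∈ (globalLevels S).levels := by
  obtain ⟨F, hF, rfl⟩ := hU
  obtain ⟨L, hL, hfix, -⟩ := exists_level_of_subgroup S H F hF.1 hUH
    (fun q hq A hA => (hF.2 q hq A hA).trans hUH)
  exact ⟨L, hL, hfix.symm⟩

/-- `μ_p` is fixed by an `S`-level if `p ∈ S`. -/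
theorem muP_uSmooth (hpS : ExtCitation.pPrime p ∈ S) :
    Dev.USmooth (globalLevels S).levels (muP p) := by
  obtain ⟨V, hV, hfix⟩ := PT.H723.cycloLevelSpec p S hpS
  have key : ∀ s ∈ V, ∀ a : MuP p, muPRep p s a = a := fun s hs a => by
    rw [muPRep_apply_smul, hfix s hs, Units.val_one, one_smul]
  exact ⟨V, hV, fun s hs a => key s hs a⟩

/-- **K-T2.**  Dévissage: `H³_S(Ind_V μ_p) = 0` for all levels `V` ⇒ `H³_S(R) = 0` for all
finite `R`. -/
theorem h3Fin_of (h : H3IndMuSpec p S) : H3FinSpec p S := by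
  intro hp2 hpS R hRfd hRsm
  haveI := hRfd
  rw [h3Vanish_iff_H3V]
  refine Dev.H3V_of_ind (𝓛 := (globalLevels S).levels) (globalLevels S).directed
    (PT.H724.globalNormalCofinal S) (PT.H724.globalFiniteIndex S) (muP p) (MuP.natCard p)
    (muP_uSmooth p S hpS) ?_ R hRsm
  rintro H ⟨U, hU, hUH⟩
  rw [← indG_eq_dInd, ← h3Vanish_iff_H3V]
  exact h hp2 hpS H (mem_levels_of_le S hU hUH)

end Fermat.Agent.S55.K.H593

end

end
-- ===== PACK-END S55/K/DevH593.lean

-- ===== PACK-BEGIN S55/Inv/GO4/H978/Descent.lean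
section



/-!
# S55 / `InvSpec` / GO4-LD, step LD-c (helper978): descent to the finite quotient, PROOF

`descent : DescentStatement`.
-/

set_option autoImplicit false

noncomputable section

namespace Fermat.Agent.S55.Inv.GO4.H978

open Fermat.Agent.S55 Fermat.Agent.S55.Tow Fermat.Agent.S55.PT groupCohomology
open Fermat.Agent.S55.KC

/-- **LD-c** (descent to `Dec_q(L)`), exact statement: a 2-cocycle `X'` of `G_q` with values in
`K.ind (rl q) K₀.U ℚ̄_qˣ` which is inflated from the normal level `L.V q` is `locM h q τ` for a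
2-cocycle `τ` of `Dec_q(L)` with values in `semiLoc h q`; if `p • X'` is a coboundary at level
`L.V q`, then `p • τ` is a coboundary. -/
def DescentStatement : Prop :=
  ∀ (S : Finset Nat.Primes) (K₀ L : Level S) (h : K₀ ≤ L) (q : Nat.Primes) (p : ℕ)
    (X' : Gl q × Gl q → K.ind (rl q) K₀.U (Tow.unitsQpbar q)),
    X' ∈ KC.Z2At (L.V q) (K.ind (rl q) K₀.U (Tow.unitsQpbar q)) →
    KC.IsCobAt₂ (L.V q) (K.ind (rl q) K₀.U (Tow.unitsQpbar q)) (p • X') →
    ∃ τ : L.Dec q × L.Dec q → (semiLoc h q).V,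
      τ ∈ cocycles₂ (semiLoc h q) ∧ p • τ ∈ coboundaries₂ (semiLoc h q) ∧ locM h q τ = X'

variable {S : Finset Nat.Primes}

section Proj

variable (L : Level S) (q : Nat.Primes)

open Classical in
/-- a retraction `ℚ̄_qˣ → L_qˣ` of the inclusion (zero outside the invariants) -/
def locProj (a : (unitsQpbar q).V) : (L.locUnits q).V :=
  if ha : ∀ g ∈ L.V q, (unitsQpbar q).ρ g a = a then L.locMk q a ha else 0

lemma locProj_zero : locProj L q 0 = 0 := by
  unfold locProj
  split_ifs with h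
  · apply L.locCoe_injective q
    rw [Level.locCoe_mk, map_zero]
  · rfl

lemma locCoe_locProj {a : (unitsQpbar q).V} (ha : ∀ g ∈ L.V q, (unitsQpbar q).ρ g a = a) :
    L.locCoe q (locProj L q a) = a := by
  unfold locProj
  rw [dif_pos ha, Level.locCoe_mk]

end Proj

section Main

variable {K₀ L : Level S} (h : K₀ ≤ L) (q : Nat.Primes)

/-- `Λ = mapRange locCoe : (Q →₀ L_qˣ) → (Q →₀ ℚ̄_qˣ)`, raw form -/
def lamR : (K₀.Gal →₀ (L.locUnits q).V) →+ ((Tow.GQ ⧸ K₀.U) →₀ (Tow.unitsQpbar q).V) :=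
  Finsupp.mapRange.addMonoidHom (L.locCoe q).toAddMonoidHom

lemma lamR_apply (t : K₀.Gal →₀ (L.locUnits q).V) (x : K₀.Gal) :
    lamR (K₀ := K₀) q t x = L.locCoe q (t x) := rfl

lemma lamR_single (x : K₀.Gal) (a : (L.locUnits q).V) :
    lamR (K₀ := K₀) q (Finsupp.single x a) = Finsupp.single x (L.locCoe q a) :=
  Finsupp.mapRange_single (hf := map_zero _)

lemma lamR_injective : Function.Injective (lamR (K₀ := K₀) (L := L) q) := by
  intro t t' htt
  refine Finsupp.ext fun x => ?_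
  apply L.locCoe_injective q
  have := DFunLike.congr_fun htt x
  exact this

lemma lamR_mapRange_locProj (b : (Tow.GQ ⧸ K₀.U) →₀ (Tow.unitsQpbar q).V)
    (hb : ∀ x, ∀ s ∈ L.V q, (unitsQpbar q).ρ s (b x) = b x) :
    lamR (K₀ := K₀) q (Finsupp.mapRange (locProj L q) (locProj_zero L q) b) = b := by
  refine Finsupp.ext fun x => ?_
  rw [lamR_apply, Finsupp.mapRange_apply]
  exact locCoe_locProj L q (hb x)

/-- `Λ`, typed -/
def lam : (semiLoc h q).V →+ K.ind (rl q) K₀.U (Tow.unitsQpbar q) := lamR q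

lemma lam_injective : Function.Injective (lam h q) := lamR_injective q

lemma locM_eq_lam (τ : L.Dec q × L.Dec q → (semiLoc h q).V) (σ σ' : Gl q) :
    locM h q τ (σ, σ') = lam h q (τ ((QuotientGroup.mk σ : L.Dec q),
      (QuotientGroup.mk σ' : L.Dec q))) := rfl

/-- the action of `Dec_q(L)` on `semiLoc`, on `single` -/
lemma semiLoc_ρ_single (σ : Gl q) (x : K₀.Gal) (a : (L.locUnits q).V) :
    (semiLoc h q).ρ (QuotientGroup.mk σ : L.Dec q)
      (Finsupp.single x a : K₀.Gal →₀ (L.locUnits q).V) =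
      (Finsupp.single (rl q σ • x)
        ((L.locUnits q).ρ (QuotientGroup.mk σ : L.Dec q) a) : K₀.Gal →₀ (L.locUnits q).V) := by
  have h1 := dInd_ρ_single (decTo h q) (L.locUnits q) (QuotientGroup.mk σ : L.Dec q) x a
  rw [h1]
  induction x using QuotientGroup.induction_on with
  | H g => rfl

/-- compatibility of `Λ` with the actions -/
lemma lam_ρ (σ : Gl q) (t : (semiLoc h q).V) :
    lam h q ((semiLoc h q).ρ (QuotientGroup.mk σ : L.Dec q) t) =
      (K.ind (rl q) K₀.U (Tow.unitsQpbar q)).ρ σ (lam h q t) := by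
  have key : (lam h q).comp ((semiLoc h q).ρ (QuotientGroup.mk σ : L.Dec q)).toAddMonoidHom =
      (((K.ind (rl q) K₀.U (Tow.unitsQpbar q)).ρ σ).toAddMonoidHom).comp (lam h q) := by
    refine Finsupp.addHom_ext fun x a => ?_
    show lamR q ((semiLoc h q).ρ (QuotientGroup.mk σ : L.Dec q)
        (Finsupp.single x a : K₀.Gal →₀ (L.locUnits q).V)) =
      (K.ind (rl q) K₀.U (Tow.unitsQpbar q)).ρ σ
        (lamR q (Finsupp.single x a : K₀.Gal →₀ (L.locUnits q).V))
    rw [semiLoc_ρ_single, lamR_single, lamR_single, ind_ρ_single]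
    rfl
  exact DFunLike.congr_fun key t

include h in
/-- `V = L.V q` acts trivially on `GQ ⧸ K₀.U` -/
lemma rl_smul_eq_of_mem {s : Gl q} (hs : s ∈ L.V q) (x : Tow.GQ ⧸ K₀.U) : rl q s • x = x :=
  smul_quot_eq_of_mem K₀.U (Level.U_anti h (Subgroup.mem_comap.1 hs)) x

include h in
/-- an element of `B` fixed by `V` has coefficients in the invariants -/
lemma coeff_fixed {b : (Tow.GQ ⧸ K₀.U) →₀ (Tow.unitsQpbar q).V}
    (hb : ∀ s ∈ L.V q, (K.ind (rl q) K₀.U (Tow.unitsQpbar q)).ρ s b = b) (x : Tow.GQ ⧸ K₀.U) :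
    ∀ s ∈ L.V q, (unitsQpbar q).ρ s (b x) = b x := by
  intro s hs
  have h1 := actG_apply (φ := rl q) (U := K₀.U) (Tow.unitsQpbar q).V
    (fun h => ((Tow.unitsQpbar q).ρ h).toAddMonoidHom) s b x
  rw [rl_smul_eq_of_mem h q hs x] at h1
  have h2 : actG (φ := rl q) (U := K₀.U) (Tow.unitsQpbar q).V
      (fun h => ((Tow.unitsQpbar q).ρ h).toAddMonoidHom) s b = b := hb s hs
  rw [h2] at h1
  exact h1.symm

/-- the lift of a `V`-fixed element of `B` -/
def lift (b : K.ind (rl q) K₀.U (Tow.unitsQpbar q)) : (semiLoc h q).V :=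
  (Finsupp.mapRange (locProj L q) (locProj_zero L q)
    (b : (Tow.GQ ⧸ K₀.U) →₀ (Tow.unitsQpbar q).V) : K₀.Gal →₀ (L.locUnits q).V)

lemma lam_lift {b : K.ind (rl q) K₀.U (Tow.unitsQpbar q)}
    (hb : ∀ s ∈ L.V q, (K.ind (rl q) K₀.U (Tow.unitsQpbar q)).ρ s b = b) :
    lam h q (lift h q b) = b :=
  lamR_mapRange_locProj q b (fun x => coeff_fixed h q hb x)

end Main

/-- **LD-c.** -/
theorem descent : DescentStatement := by
  intro S K₀ L h q p X' hX' hpX'
  obtain ⟨hcoc, hat⟩ := hX'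
  obtain ⟨y, hy, hdy⟩ := hpX'
  -- representatives
  have hout : ∀ σ : Gl q, ∃ s ∈ L.V q,
      (QuotientGroup.mk σ : L.Dec q).out = σ * s := by
    intro σ
    obtain ⟨s, hs⟩ := QuotientGroup.mk_out_eq_mul (L.V q) σ
    exact ⟨s.1, s.2, hs⟩
  have hXout : ∀ σ σ' : Gl q, X' ((QuotientGroup.mk σ : L.Dec q).out,
      (QuotientGroup.mk σ' : L.Dec q).out) = X' (σ, σ') := by
    intro σ σ'
    obtain ⟨s, hs, e⟩ := hout σ
    obtain ⟨s', hs', e'⟩ := hout σ'
    rw [e, e']
    exact (hat σ σ' s s' hs hs').1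
  have hyout : ∀ σ : Gl q, y ((QuotientGroup.mk σ : L.Dec q).out) = y σ := by
    intro σ
    obtain ⟨s, hs, e⟩ := hout σ
    rw [e]
    exact (hy σ s hs).1
  -- the descended cochains
  let τ : L.Dec q × L.Dec q → (semiLoc h q).V := fun d => lift h q (X' (d.1.out, d.2.out))
  let c : L.Dec q → (semiLoc h q).V := fun d => lift h q (y d.out)
  have hτ : ∀ σ σ' : Gl q, lam h q (τ ((QuotientGroup.mk σ : L.Dec q),
      (QuotientGroup.mk σ' : L.Dec q))) = X' (σ, σ') := by
    intro σ σ'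
    show lam h q (lift h q (X' (_, _))) = _
    rw [lam_lift h q (fun s hs => (hat _ _ s s hs hs).2)]
    exact hXout σ σ'
  have hc : ∀ σ : Gl q, lam h q (c (QuotientGroup.mk σ : L.Dec q)) = y σ := by
    intro σ
    show lam h q (lift h q (y _)) = _
    rw [lam_lift h q (fun s hs => (hy _ s hs).2)]
    exact hyout σ
  refine ⟨τ, ?_, ?_, ?_⟩
  · rw [mem_cocycles₂_iff]
    rw [mem_cocycles₂_iff] at hcoc
    intro g g' g''
    induction g using QuotientGroup.induction_on with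
    | H σ =>
      induction g' using QuotientGroup.induction_on with
      | H σ' =>
        induction g'' using QuotientGroup.induction_on with
        | H σ'' =>
          apply lam_injective h q
          rw [map_add, map_add, lam_ρ, hτ, hτ]
          have e1 : ((QuotientGroup.mk σ : L.Dec q) * (QuotientGroup.mk σ' : L.Dec q)) =
              (QuotientGroup.mk (σ * σ') : L.Dec q) := rfl
          have e2 : ((QuotientGroup.mk σ' : L.Dec q) * (QuotientGroup.mk σ'' : L.Dec q)) =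
              (QuotientGroup.mk (σ' * σ'') : L.Dec q) := rfl
          rw [e1, e2, hτ, hτ]
          exact hcoc σ σ' σ''
  · refine ⟨c, ?_⟩
    funext ⟨g, g'⟩
    induction g using QuotientGroup.induction_on with
    | H σ =>
      induction g' using QuotientGroup.induction_on with
      | H σ' =>
        apply lam_injective h q
        rw [d₁₂_hom_apply]
        simp only [Pi.smul_apply]
        rw [map_add, map_sub, lam_ρ, map_nsmul, hτ, hc, hc]
        have e1 : ((QuotientGroup.mk σ : L.Dec q) * (QuotientGroup.mk σ' : L.Dec q)) =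
            (QuotientGroup.mk (σ * σ') : L.Dec q) := rfl
        rw [e1, hc]
        have := congrFun hdy (σ, σ')
        rw [d₁₂_hom_apply] at this
        simpa using this
  · funext ⟨σ, σ'⟩
    rw [locM_eq_lam, hτ]

end Fermat.Agent.S55.Inv.GO4.H978

end

end
-- ===== PACK-END S55/Inv/GO4/H978/Descent.lean

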