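import Fermat.Agent.Pack.S56.E19L3
import Fermat.Agent.Pack.S56.E0L0
import Fermat.Agent.Pack.S56.E11L3
import Fermat.Agent.Pack.S56.E11L2
import Fermat.Agent.Pack.S56.E13L2
import Fermat.Agent.Pack.S56.E19L1
import Fermat.Agent.Pack.S56.E16L1
import Fermat.Agent.Pack.S56.E18L0
import Fermat.Agent.Pack.S56.E16L0
import Fermat.Agent.Pack.S56.E19L0
import Fermat.Agent.Pack.S56.E12L3
import Fermat.Agent.Pack.S56.E2L3
import Fermat.Agent.Pack.S56.E8L1
import Fermat.Agent.Pack.S56.E4L3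
import Fermat.Agent.Pack.S56.E17L2
import Fermat.Agent.Pack.S56.E9L0
import Fermat.Agent.Pack.S56.E15L2
import Fermat.Agent.Pack.S56.E15L0

-- ===== PACK-BEGIN S56/H914/IntMain.lean
section



/-!
# Row S56 — W-FLAT-SS, leaf INT (helper914): `intStatement : FL.IntStatement`

The concrete model `A = P ∩ ℚ̄^{D_P}`, `B = levelSet = P ∩ ℚ̄^N`, `Γ = D_P ⧸ N`.

* `mem_intKer_of_fixes` : (flatness) an element of `G_ℚ` fixing `levelSet` pointwise lies in `N`
  (the coordinates of the points of the two finite flat models lie in `levelSet`).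
* `apply_primitiveRoot_of_rho_eq_one` : `ρ̄ σ = 1 ⇒ σ ζ_p = ζ_p` (determinant condition).
* `intStatement` : the frozen `FL.IntStatement`.
-/

set_option autoImplicit false
set_option linter.style.haveILetI false

open Polynomial IsLocalRing

noncomputable section

namespace Fermat.Agent.S56.H914

open Fermat.Agent.S56 Fermat.Agent.S56.H716 Fermat.Agent.S56.FL

section Points

variable {k : Type} [Field k] {ρbar : ResidualGaloisRep k} {p : ℕ} [Fact p.Prime]
  {P : ValuationSubring Qb}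

/-- Values of points of a finite `ℤ_(p)`-algebra lie in `P`. -/
lemma point_mem_P (M : LocalModel p P) {H : Type} [CommRing H] [HopfAlgebra (Zp p) H]
    [Module.Finite (Zp p) H] (f : H →ₐ[Zp p] Qb) (h : H) : f h ∈ P :=
  (M.mem_iff _).mpr (norm_point_le_one p (M.ιZ.comp f) h)

/-- (Flatness.)  An element of `G_ℚ` fixing `levelSet` pointwise satisfies `ρ̄ σ = 1`, `c₁ σ = 0`,
`c₂ σ = 0`. -/
theorem mem_intKer_of_fixes [Finite k] (M : LocalModel p P)
    {c₁ c₂ : GQ → Module.End k ρbar.V}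
    {ρ₁ ρ₂ : GaloisRepAdic (DualNumber k)} (hl₁ : IsLiftOf ρbar c₁ ρ₁) (hl₂ : IsLiftOf ρbar c₂ ρ₂)
    (hf₁ : ρ₁.IsFlatAt p) (hf₂ : ρ₂.IsFlatAt p) (σ : GQ)
    (hσ : ∀ b ∈ levelSet ρbar c₁ c₂ P, σ b = b) :
    ρbar.ρ σ = 1 ∧ c₁ σ = 0 ∧ c₂ σ = 0 := by
  haveI : Finite (DualNumber k) := inferInstanceAs (Finite (k × k))
  obtain ⟨H₁, i1, i2, hfin1, -, -, ⟨X₁⟩⟩ := exists_pointModel_of_isFlatAt ρ₁ p hf₁
  obtain ⟨H₂, j1, j2, hfin2, -, -, ⟨X₂⟩⟩ := exists_pointModel_of_isFlatAt ρ₂ p hf₂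
  have h1 := (fixes_points_iff_of_isLiftOf ρbar hl₁ X₁ σ).mp (fun f h =>
    hσ _ ⟨point_mem_P M f h, fun τ _ e1 e2 _ =>
      (fixes_points_iff_of_isLiftOf ρbar hl₁ X₁ τ).mpr ⟨e1, e2⟩ f h⟩)
  have h2 := (fixes_points_iff_of_isLiftOf ρbar hl₂ X₂ σ).mp (fun f h =>
    hσ _ ⟨point_mem_P M f h, fun τ _ e1 _ e3 =>
      (fixes_points_iff_of_isLiftOf ρbar hl₂ X₂ τ).mpr ⟨e1, e3⟩ f h⟩)
  exact ⟨h1.1, h1.2, h2.2⟩

end Points

section Zeta

variable (p : ℕ) [Fact p.Prime]

lemma exists_primitiveRoot_Qb : ∃ ζ₀ : Qb, IsPrimitiveRoot ζ₀ p := by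
  haveI : NeZero ((p : ℕ) : Qb) := ⟨p_ne_zero_Qb⟩
  exact HasEnoughRootsOfUnity.exists_primitiveRoot Qb p

variable {p}

lemma isCycExp_of_apply_eq {ζ₀ : Qb} (hζ : IsPrimitiveRoot ζ₀ p) {σ : GQ} {a : ℕ}
    (h : σ ζ₀ = ζ₀ ^ a) : IsCycExp p σ a := by
  haveI : NeZero p := ⟨(Fact.out : p.Prime).ne_zero⟩
  intro μ hμ
  obtain ⟨j, -, rfl⟩ := hζ.eq_pow_of_pow_eq_one hμ
  rw [map_pow, h, ← pow_mul, ← pow_mul, mul_comm]

lemma exists_cycExp {ζ₀ : Qb} (hζ : IsPrimitiveRoot ζ₀ p) (σ : GQ) : ∃ a : ℕ, σ ζ₀ = ζ₀ ^ a := by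
  haveI : NeZero p := ⟨(Fact.out : p.Prime).ne_zero⟩
  have h : (σ ζ₀) ^ p = 1 := by rw [← map_pow, hζ.pow_eq_one, map_one]
  obtain ⟨a, -, ha⟩ := hζ.eq_pow_of_pow_eq_one h
  exact ⟨a, ha.symm⟩

/-- `ρ̄ σ = 1 ⇒ σ ζ_p = ζ_p`, by the determinant condition. -/
lemma apply_primitiveRoot_of_rho_eq_one {k : Type} [Field k] [CharP k p]
    {ρbar : ResidualGaloisRep k}
    (hdet : ∀ (σ : GQ) (a : ℕ), IsCycExp p σ a → LinearMap.det (ρbar.ρ σ) = (a : k))
    {ζ₀ : Qb} (hζ : IsPrimitiveRoot ζ₀ p) {σ : GQ} (h1 : ρbar.ρ σ = 1) : σ ζ₀ = ζ₀ := by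
  obtain ⟨a, ha⟩ := exists_cycExp hζ σ
  have hc := hdet σ a (isCycExp_of_apply_eq hζ ha)
  rw [h1, map_one] at hc
  have h2 : ((a : ℕ) : k) = ((1 : ℕ) : k) := by
    rw [Nat.cast_one]
    exact hc.symm
  rw [CharP.natCast_eq_natCast k p] at h2
  rw [ha]
  have h3 : ζ₀ ^ a = ζ₀ ^ 1 := pow_eq_pow_of_modEq h2 hζ.pow_eq_one
  rw [h3, pow_one]

lemma primitiveRoot_mem_P {P : ValuationSubring Qb} (M : LocalModel p P) {ζ₀ : Qb}
    (hζ : IsPrimitiveRoot ζ₀ p) : ζ₀ ∈ P := by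
  rw [M.mem_iff_ν]
  have h : M.ν ζ₀ ^ p = 1 := by rw [← M.ν_pow, hζ.pow_eq_one, M.ν_one]
  have hp : p ≠ 0 := (Fact.out : p.Prime).ne_zero
  exact ((pow_eq_one_iff_of_nonneg (M.ν_nonneg ζ₀) hp).mp h).le

end Zeta

section Main

/-- **INT**: the frozen `FL.IntStatement`. -/
theorem intStatement : Fermat.Agent.S56.FL.IntStatement := by
  intro k _ _ p _ hp2 hchar ρbar hdet P hP c₁ c₂ hc₁ hc₂ ρ₁ ρ₂ hl₁ hl₂ hf₁ hf₂
  haveI := hchar
  obtain ⟨M⟩ := exists_localModel p hP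
  obtain ⟨ϖ, e, hV, hpe⟩ := exists_valData_intB M hc₁ hc₂
  obtain ⟨ζ₀, hζ₀⟩ := exists_primitiveRoot_Qb p
  haveI dvrA : IsDiscreteValuationRing (intA P) := isDiscreteValuationRing_intA M
  haveI dvrB : IsDiscreteValuationRing (intB ρbar c₁ c₂ P) := hV.isDiscreteValuationRing
  letI algAB : Algebra (intA P) (intB ρbar c₁ c₂ P) :=
    (Subring.inclusion (intA_le_intB P)).toAlgebra
  haveI finΓ : Finite (intΓ P hc₁ hc₂) := finite_intΓ P hc₁ hc₂
  letI actΓ : MulSemiringAction (intΓ P hc₁ hc₂) (intB ρbar c₁ c₂ P) :=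
    MulSemiringAction.compHom _ (intActQ P hc₁ hc₂)
  -- the action, concretely
  have hact : ∀ (σ : P.decompositionSubgroup ℚ) (b : intB ρbar c₁ c₂ P),
      (((QuotientGroup.mk' (intKer P hc₁ hc₂) σ) • b : intB ρbar c₁ c₂ P) : Qb) =
        (σ : GQ) (b : Qb) := fun σ b => rfl
  haveI faithAB : FaithfulSMul (intA P) (intB ρbar c₁ c₂ P) := by
    rw [faithfulSMul_iff_algebraMap_injective]
    exact Subring.inclusion_injective (intA_le_intB P)
  haveI commΓ : SMulCommClass (intΓ P hc₁ hc₂) (intA P) (intB ρbar c₁ c₂ P) := by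
    refine ⟨fun γ a b => ?_⟩
    obtain ⟨σ, rfl⟩ := QuotientGroup.mk'_surjective (intKer P hc₁ hc₂) γ
    apply Subtype.ext
    rw [hact]
    show (σ : GQ) ((a : Qb) * (b : Qb)) = (a : Qb) * (σ : GQ) (b : Qb)
    rw [map_mul, a.2.2 σ σ.2]
  haveI invΓ : Algebra.IsInvariant (intA P) (intB ρbar c₁ c₂ P) (intΓ P hc₁ hc₂) := by
    refine ⟨fun b hb => ?_⟩
    refine ⟨⟨(b : Qb), b.2.1, fun σ hσ => ?_⟩, Subtype.ext rfl⟩
    have h := congrArg Subtype.val (hb (QuotientGroup.mk' (intKer P hc₁ hc₂) ⟨σ, hσ⟩))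
    exact h
  have hker : ∀ σ : P.decompositionSubgroup ℚ,
      (∀ b : intB ρbar c₁ c₂ P, (σ : GQ) (b : Qb) = (b : Qb)) → σ ∈ intKer P hc₁ hc₂ := by
    intro σ hσ
    exact mem_intKer_of_fixes M hl₁ hl₂ hf₁ hf₂ (σ : GQ) (fun b hb => hσ ⟨b, hb⟩)
  haveI faithΓ : FaithfulSMul (intΓ P hc₁ hc₂) (intB ρbar c₁ c₂ P) := by
    refine ⟨fun {γ₁ γ₂} h => ?_⟩
    obtain ⟨σ₁, rfl⟩ := QuotientGroup.mk'_surjective (intKer P hc₁ hc₂) γ₁
    obtain ⟨σ₂, rfl⟩ := QuotientGroup.mk'_surjective (intKer P hc₁ hc₂) γ₂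
    rw [QuotientGroup.mk'_apply, QuotientGroup.mk'_apply, QuotientGroup.eq]
    apply hker
    intro b
    have h1 := congrArg Subtype.val (h b)
    rw [hact, hact] at h1
    show (σ₁ : GQ)⁻¹ ((σ₂ : GQ) (b : Qb)) = (b : Qb)
    rw [← h1, inv_apply_self]
  haveI galΓ : IsGaloisGroup (intΓ P hc₁ hc₂) (intA P) (intB ρbar c₁ c₂ P) :=
    ⟨faithΓ, commΓ, invΓ⟩
  haveI finAB : Module.Finite (intA P) (intB ρbar c₁ c₂ P) :=
    moduleFinite_of_isGaloisGroup (intΓ P hc₁ hc₂) (intA P) (intB ρbar c₁ c₂ P)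
  -- the root of unity
  have hζB : ζ₀ ∈ intB ρbar c₁ c₂ P :=
    ⟨primitiveRoot_mem_P M hζ₀, fun σ _ h1 _ _ => apply_primitiveRoot_of_rho_eq_one hdet hζ₀ h1⟩
  refine ⟨intA P, intB ρbar c₁ c₂ P, inferInstance, inferInstance, dvrA, inferInstance,
    inferInstance, dvrB, inferInstance, algAB, finAB, faithAB, intΓ P hc₁ hc₂, inferInstance,
    finΓ, actΓ, commΓ, invΓ, faithΓ, QuotientGroup.mk' (intKer P hc₁ hc₂), ⟨ζ₀, hζB⟩, e,
    (intB ρbar c₁ c₂ P).subtype, ?_, ?_, ?_, ?_, ?_, ?_, ?_, ?_, ?_, ?_⟩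
  · exact QuotientGroup.mk'_surjective _
  · intro σ
    rw [QuotientGroup.mk'_apply, QuotientGroup.eq_one_iff]
    exact mem_intKer P
  · exact maximalIdeal_intA M
  · exact card_residueField_intA M
  · exact IsPrimitiveRoot.of_map_of_injective (f := (intB ρbar c₁ c₂ P).subtype)
      hζ₀ (Subring.subtype_injective _)
  · intro σ a h
    have h1 := congrArg Subtype.val h
    rw [hact] at h1
    exact isCycExp_of_apply_eq hζ₀ h1
  · exact hV.span_eq_maximalIdeal_pow (natCast_mem_intB p) hpe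
  · exact Subring.subtype_injective _
  · ext x
    constructor
    · rintro ⟨b, rfl⟩
      exact b.2
    · intro hx
      exact ⟨⟨x, hx⟩, rfl⟩
  · intro σ b
    rfl

end Main

example : Fermat.Agent.S56.FL.IntStatement := intStatement

end Fermat.Agent.S56.H914

end

end
-- ===== PACK-END S56/H914/IntMain.lean

-- ===== PACK-BEGIN S56/FL/LMMain.lean
section






/-!
# Row S56 — wall W-FLAT-SS — `LocalModelStatement` CLOSED  (architect helper434)

    localModel : FL.LocalModelStatement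
      = localModel_of  intStatement            -- INT    (helper914, `H914/IntMain.lean`)
                       struct                  -- STRUCT (helper287 + helper176, `H287/StructMain.lean`)
                       (root_of rationality)   -- ROOT   (helper116 + helper254 + helper434)

Sorry-free; nothing but the three standard axioms.
-/

set_option autoImplicit false

namespace Fermat.Agent.S56.FL

/-- **ROOT**, unconditional. -/
theorem rootStatement : RootStatement :=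
  Fermat.Agent.S56.H116.Root.root_of Fermat.Agent.S56.H434.rationality

/-- **`LocalModelStatement`**, unconditional: the local model at `p` of a pair of flat
dual-number lifts, with Fontaine's bound on the different. -/
theorem localModel : LocalModelStatement :=
  localModel_of Fermat.Agent.S56.H914.intStatement Fermat.Agent.S56.H287.struct rootStatement

end Fermat.Agent.S56.FL

end
-- ===== PACK-END S56/FL/LMMain.lean

-- ===== PACK-BEGIN S55/T/NakH837.lean
section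


/-!
# S55, layer T, leaf T6 (helper837): `TateNakayamaSpec`

`tateNakayama_of : SplitModuleSpec → NakayamaSpec → TateNakayamaSpec`.

The proof uses no cup products: it is a diagram chase with two-step extensions
(`R → coind₁ R → up R → coind₁ (up R) → up (up R)` against `C → X → I → P → ℤ`), naturality of
the connecting homomorphisms, the norm trick for weakly projective modules, and the elementary
lattice duality in degree `0` (proved in `NakH837/LatDual.lean`, so `LatticeDualitySpec` is not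
needed as an input).
-/

set_option autoImplicit false
set_option linter.unusedSectionVars false
set_option linter.style.haveILetI false

open CategoryTheory groupCohomology

namespace Fermat.Agent.S55.T.H837

open Fermat.Agent.S55.H572

noncomputable section

/-- A morphism given pointwise by the norm formula is a norm. -/
lemma eq_normHom_of_apply {k G : Type} [CommRing k] [Group G] [Fintype G] {A B : Rep.{0} k G}
    (f : A ⟶ B) (ψ : A.V →ₗ[k] B.V)
    (h : ∀ a : A.V, f.hom a = ∑ g : G, B.ρ g (ψ (A.ρ g⁻¹ a))) : f = normHom ψ := by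
  apply Rep.hom_ext
  apply Representation.IntertwiningMap.ext
  apply LinearMap.ext
  intro a
  change f.hom a = (normHom ψ).hom a
  rw [h a, normHom_hom_apply]

/-- An additive map between `ℤ`-modules (with arbitrary module instances) is linear. -/
def linOfAdd {M N : Type} [AddCommGroup M] [AddCommGroup N] (iM : Module ℤ M) (iN : Module ℤ N)
    (ψ : M →+ N) : @LinearMap ℤ ℤ _ _ (RingHom.id ℤ) M N _ _ iM iN :=
  @LinearMap.mk ℤ ℤ _ _ (RingHom.id ℤ) M N _ _ iM iN ⟨ψ, ψ.map_add⟩ (fun c x => by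
    have h1 : @HSMul.hSMul ℤ M M (@instHSMul ℤ M iM.toSMul) c x = c • x :=
      int_smul_eq_zsmul iM c x
    have h2 : @HSMul.hSMul ℤ N N (@instHSMul ℤ N iN.toSMul) c (ψ x) = c • ψ x :=
      int_smul_eq_zsmul iN c (ψ x)
    change ψ (@HSMul.hSMul ℤ M M (@instHSMul ℤ M iM.toSMul) c x) =
      @HSMul.hSMul ℤ N N (@instHSMul ℤ N iN.toSMul) c (ψ x)
    rw [h1, h2, map_zsmul])

lemma linOfAdd_apply {M N : Type} [AddCommGroup M] [AddCommGroup N] (iM : Module ℤ M)
    (iN : Module ℤ N) (ψ : M →+ N) (x : M) :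
    (linOfAdd iM iN ψ : @LinearMap ℤ ℤ _ _ (RingHom.id ℤ) M N _ _ iM iN) x = ψ x := rfl

/-- **T6.**  Tate–Nakayama for lattices, from the splitting module and Nakayama's theorem. -/
theorem tateNakayama_of (hS : SplitModuleSpec) (hN : NakayamaSpec) : TateNakayamaSpec := by
  intro G _ _ C γ hC R hfree hfin
  obtain ⟨X, I, P, i, π, j, ε, w₁, w₂, hA, hB, hX, hP⟩ := hS G C γ hC
  haveI : @Module.Free ℤ R.V _ _ R.hV2 := hfree
  haveI : @Module.Finite ℤ R.V _ _ R.hV2 := hfin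
  have hn : ((Fintype.card G : ℕ) : ℤ) ≠ 0 := by
    exact_mod_cast Fintype.card_ne_zero
  refine ⟨fun φ => ?_, fun f => ⟨fun hf => ?_, fun hψ => ?_⟩⟩
  · obtain ⟨f, hf⟩ := exists_hom_coeffMap_eq hA hB hn hX hP R (linOfAdd _ _ φ)
    exact ⟨f, fun x => hf x⟩
  · have hNX := hN G X R hfree hfin hX
    have hNP := hN G P (up R) (free_up R) (finite_up R) hP
    obtain ⟨ψ, hψ⟩ := exists_normHom_of_coeffMap_eq_zero hA hB hn hX hP R hNX hNP f hf
    refine ⟨ψ.toAddMonoidHom, fun r => ?_⟩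
    rw [hψ, normHom_hom_apply]
    rfl
  · obtain ⟨ψ, hψ⟩ := hψ
    have hf : f = normHom (linOfAdd R.hV2 C.hV2 ψ) :=
      eq_normHom_of_apply f (linOfAdd R.hV2 C.hV2 ψ) (fun r => hψ r)
    intro x
    rw [hf, coeffMap_normHom_eq_zero]
    rfl

end

end Fermat.Agent.S55.T.H837

end
-- ===== PACK-END S55/T/NakH837.lean

-- ===== PACK-BEGIN S55/T/T6ClosedH719.lean
section





/-!
# S55, layer T: T6 closed unconditionally (helper719)

Assembly of landed pieces:

* `H295.splitModule : SplitModuleSpec` (helper295),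
* `H719.nakayama : NakayamaSpec` (helper719),
* `H837.tateNakayama_of : SplitModuleSpec → NakayamaSpec → TateNakayamaSpec` (helper837),
* `H353.tateNakayamaAt_of : TateNakayamaSpec → E1.TateNakayamaAtSpec` (helper353).

Hence `tateNakayama : TateNakayamaSpec` (T6) and `tateNakayamaAt : E1.TateNakayamaAtSpec` (T6p)
hold unconditionally.
-/

set_option autoImplicit false

namespace Fermat.Agent.S55.T.H719

/-- **T6 (Tate–Nakayama for lattices)**, unconditional. -/
theorem tateNakayama : TateNakayamaSpec :=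
  H837.tateNakayama_of Fermat.Agent.S55.H295.splitModule nakayama

/-- **T6p (Tate–Nakayama at `p`)**, unconditional. -/
theorem tateNakayamaAt : Fermat.Agent.S55.E1.TateNakayamaAtSpec :=
  H353.tateNakayamaAt_of tateNakayama

end Fermat.Agent.S55.T.H719

end
-- ===== PACK-END S55/T/T6ClosedH719.lean

-- ===== PACK-BEGIN S55/G/Exist/IdxH901.lean
section
/-
S55, layer G, block EXIST (= GD6 of engine E1), leaf EX-IDX (helper901) — main statement.
Sorry-free.

`powIndexCompare_of_card_le` : for a number field `K ∋ μ_p` and `p ∈ S`, if the number of places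
of `K` above `S` (maximal ideals of `K ⊗ ℚ_S`) is at most the number of primes of `𝒪_K` above `S`,
then `J_S(K)/p` and `E_S(K)/p` are finite and `[J_S : p J_S] ≤ [E_S : p E_S]²`.
`powIndexCompare_of` : the same from `PlacePrimeSpec` (leaf G-PL1); this is EXACTLY the body of
helper233's `G.Exist.PowIndexCompareSpec` (`pMul p A = (nsmulAddMonoidHom p).range`).

In fact `[J_S : p J_S] = p ^ (2t' + n_p)` (`index_J_eq`; `t'` places, `n_p ≤ [K:ℚ]` the sum of the
local degrees above `p`) and `[E_S : p E_S] = p ^ (#∞ + t)` (helper604), and `[K:ℚ] ≤ 2·#∞`.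
-/



set_option autoImplicit false
set_option linter.unusedSectionVars false
set_option linter.style.haveILetI false

open scoped NumberField TensorProduct

namespace Fermat.Agent.S55.G.Exist.H901

open Fermat.Agent.S55.G NumberField

variable (S : Finset Nat.Primes) (K : Type) [Field K] [NumberField K]

/-- `[K : ℚ] ≤ 2 · #{infinite places}`. -/
theorem finrank_le_two_mul_card_infinitePlace :
    Module.finrank ℚ K ≤ 2 * Fintype.card (InfinitePlace K) := by
  have h1 := InfinitePlace.card_add_two_mul_card_eq_rank K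
  have h2 := InfinitePlace.card_eq_nrRealPlaces_add_nrComplexPlaces K
  omega

/-- **EX-IDX**, from the inequality `#places ≤ #primes` above `S`. -/
theorem powIndexCompare_of_card_le (p : ℕ) [hp : Fact p.Prime]
    (hpS : (⟨p, hp.out⟩ : Nat.Primes) ∈ S) (hζ : ∃ ζ : K, IsPrimitiveRoot ζ p)
    (hcard : Nat.card (SPlace S K) ≤ Nat.card (PrimeIn S K)) :
    (AddMonoidHom.range (nsmulAddMonoidHom (α := Additive (AS S K)ˣ) p)).index ≠ 0 ∧
    (AddMonoidHom.range (nsmulAddMonoidHom (α := sUnit S K) p)).index ≠ 0 ∧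
    (AddMonoidHom.range (nsmulAddMonoidHom (α := Additive (AS S K)ˣ) p)).index ≤
      (AddMonoidHom.range (nsmulAddMonoidHom (α := sUnit S K) p)).index ^ 2 := by
  obtain ⟨ζ, hζ⟩ := hζ
  haveI := PL0H713.finite_sPlace S K
  letI := Fintype.ofFinite (SPlace S K)
  obtain ⟨hJ0, hJ⟩ := index_J_le S K p hζ hpS
  have hE := SesH604.index_range_nsmul_sUnit_of_primitiveRoot S K p hp.out.ne_zero hζ
  refine ⟨hJ0, ?_, ?_⟩
  · rw [hE]
    exact pow_ne_zero _ hp.out.ne_zero
  · rw [hE, ← pow_mul]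
    refine hJ.trans (Nat.pow_le_pow_right hp.out.pos ?_)
    have h1 := finrank_le_two_mul_card_infinitePlace K
    rw [Nat.card_eq_fintype_card] at hcard
    omega

/-- **EX-IDX** (`PowIndexCompareSpec` of block G-EXIST), from G-PL1. -/
theorem powIndexCompare_of (hPP : PlacePrimeSpec) :
    ∀ (p : ℕ) [hp : Fact p.Prime], p ≠ 2 →
    ∀ (S : Finset Nat.Primes) (K : Type) [Field K] [NumberField K],
      (⟨p, hp.out⟩ : Nat.Primes) ∈ S → (∃ ζ : K, IsPrimitiveRoot ζ p) →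
      (AddMonoidHom.range (nsmulAddMonoidHom (α := Additive (AS S K)ˣ) p)).index ≠ 0 ∧
      (AddMonoidHom.range (nsmulAddMonoidHom (α := sUnit S K) p)).index ≠ 0 ∧
      (AddMonoidHom.range (nsmulAddMonoidHom (α := Additive (AS S K)ˣ) p)).index ≤
        (AddMonoidHom.range (nsmulAddMonoidHom (α := sUnit S K) p)).index ^ 2 := by
  intro p hp _ S K _ _ hpS hζ
  obtain ⟨β, -⟩ := hPP S K
  exact powIndexCompare_of_card_le S K p hpS hζ (Nat.card_congr β).le

end Fermat.Agent.S55.G.Exist.H901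

end
-- ===== PACK-END S55/G/Exist/IdxH901.lean

-- ===== PACK-BEGIN S55/G/Exist/IdxH901Eq.lean
section
/-
S55, layer G, block EXIST, leaf EX-IDX / EX-POW (helper901) — part 3: the exact value.
Sorry-free.

* `sum_locDeg_eq` : `∑_{𝔪 | q} [L_𝔪 : ℚ_q] = [K : ℚ]`;
* `index_J_eq_pow` : `[J_S(K) : p J_S(K)] = p ^ (2 · #places + [K : ℚ])` for `K ∋ μ_p`, `p ∈ S`;
* `isTotallyComplex_of_primitiveRoot`, `two_mul_card_infinitePlace` : `K ∋ μ_p`, `p` odd ⇒
  `2 · #∞ = [K : ℚ]`;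
* `powIndex_eq_of_card_eq` : `[J_S : p J_S] = [E_S : p E_S]²` if `#places = #primes` above `S`.
-/


set_option autoImplicit false
set_option linter.unusedSectionVars false
set_option linter.style.haveILetI false
set_option backward.isDefEq.respectTransparency false

open scoped NumberField TensorProduct
open IsLocalRing

namespace Fermat.Agent.S55.G.Exist.H901

open Fermat.Agent.S55.G Fermat.Agent.S55.G.PL0H713 NumberField

variable (S : Finset Nat.Primes) (K : Type) [Field K] [NumberField K]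

/-! ## 1. The sum of the local degrees -/

/-- The `ℚ`-linear functional `k ⊗ y ↦ (j-th coordinate of k) • y_q` on `K ⊗ ℚ_S`. -/
noncomputable def coordQq {ι : Type*} (b : Module.Basis ι ℚ K) (q : S) (j : ι) :
    AS S K →ₗ[ℚ] Qq q.1 :=
  (TensorProduct.lid ℚ (Qq q.1)).toLinearMap ∘ₗ
    TensorProduct.map (b.coord j) (QS.proj S q).toLinearMap

lemma coordQq_tmul {ι : Type*} (b : Module.Basis ι ℚ K) (q : S) (j : ι) (k : K) (y : QS S) :
    coordQq S K b q j (k ⊗ₜ[ℚ] y) = b.coord j k • QS.toPi S y q := rfl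

lemma mk_tmul_single (q : S) (𝔪 : SPlace S K) (k : K) (x : Qq q.1) :
    LocField.mk S 𝔪 (k ⊗ₜ[ℚ] single S q x) =
      if h : primeOf S K 𝔪 = q then ofQqAt S K q 𝔪 h x * toLoc S 𝔪 k else 0 := by
  rw [mk_tmul]
  split_ifs with h
  · rw [mul_comm]; rfl
  · rw [ofQS_eq, single_apply_ne S q _ h, map_zero, mul_zero]

/-- An element of `K ⊗ ℚ_S` vanishing at all places is zero. -/
lemma eq_zero_of_mk_eq_zero (a : AS S K) (h : ∀ 𝔪 : SPlace S K, LocField.mk S 𝔪 a = 0) :
    a = 0 := by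
  haveI := PL0H713.isArtinianRing_AS S K
  haveI := LocH897.isReduced_AS S K
  apply (IsArtinianRing.equivPi (AS S K)).injective
  rw [map_zero]
  exact funext h

/-- `∑_{𝔪 | q} [L_𝔪 : ℚ_q] = [K : ℚ]`. -/
theorem sum_locDeg_eq [Fintype (SPlace S K)] (q : S)
    [DecidablePred fun 𝔪 : SPlace S K => primeOf S K 𝔪 = q] :
    ∑ 𝔪 ∈ Finset.univ.filter (fun 𝔪 : SPlace S K => primeOf S K 𝔪 = q), locDeg S K 𝔪 =
      Module.finrank ℚ K := by
  classical
  let T := {𝔪 : SPlace S K // primeOf S K 𝔪 = q}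
  letI alg : ∀ 𝔪 : T, Algebra (Qq q.1) (LocField S 𝔪.1) :=
    fun 𝔪 => (ofQqAt S K q 𝔪.1 𝔪.2).toAlgebra
  haveI fin : ∀ 𝔪 : T, Module.Finite (Qq q.1) (LocField S 𝔪.1) :=
    fun 𝔪 => finite_ofQqAt S K q 𝔪.1 𝔪.2
  let b := Module.finBasis ℚ K
  let f : (Fin (Module.finrank ℚ K) → Qq q.1) →ₗ[Qq q.1] (∀ 𝔪 : T, LocField S 𝔪.1) :=
    LinearMap.pi fun 𝔪 => Fintype.linearCombination (Qq q.1) (fun i => toLoc S 𝔪.1 (b i))
  have hfc : ∀ (c : Fin (Module.finrank ℚ K) → Qq q.1) (𝔪 : T),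
      f c 𝔪 = ∑ i, ofQqAt S K q 𝔪.1 𝔪.2 (c i) * toLoc S 𝔪.1 (b i) := by
    intro c 𝔪
    change ∑ i, c i • toLoc S 𝔪.1 (b i) = _
    refine Finset.sum_congr rfl fun i _ => ?_
    rw [Algebra.smul_def]
    rfl
  have hsurj : Function.Surjective f := by
    intro v
    obtain ⟨a, ha⟩ := exists_mk_eq S K
      (fun 𝔪 => if h : primeOf S K 𝔪 = q then v ⟨𝔪, h⟩ else 0)
    obtain ⟨c, hc⟩ := exists_coeff S K q b a
    refine ⟨c, funext fun 𝔪 => ?_⟩
    have h1 := ha 𝔪.1
    rw [dif_pos 𝔪.2] at h1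
    rw [← h1, hc 𝔪.1 𝔪.2, hfc]
  have hinj : Function.Injective f := by
    rw [injective_iff_map_eq_zero]
    intro c hc
    have ha : (∑ i, (b i) ⊗ₜ[ℚ] single S q (c i) : AS S K) = 0 := by
      refine eq_zero_of_mk_eq_zero S K _ fun 𝔪 => ?_
      rw [map_sum]
      by_cases h : primeOf S K 𝔪 = q
      · have h2 := congrFun hc ⟨𝔪, h⟩
        rw [hfc] at h2
        rw [← show (0 : ∀ 𝔪 : T, LocField S 𝔪.1) ⟨𝔪, h⟩ = (0 : LocField S 𝔪) from rfl, ← h2]
        refine Finset.sum_congr rfl fun i _ => ?_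
        rw [mk_tmul_single, dif_pos h]
      · refine Finset.sum_eq_zero fun i _ => ?_
        rw [mk_tmul_single, dif_neg h]
    funext j
    have h3 := congrArg (coordQq S K b q j) ha
    rw [map_sum, map_zero, Finset.sum_eq_single j] at h3
    · rw [coordQq_tmul, single_apply_same, Module.Basis.coord_apply, Module.Basis.repr_self,
        Finsupp.single_eq_same, one_smul] at h3
      exact h3
    · intro i _ hij
      rw [coordQq_tmul, Module.Basis.coord_apply, Module.Basis.repr_self,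
        Finsupp.single_eq_of_ne hij.symm, zero_smul]
    · intro h
      exact absurd (Finset.mem_univ j) h
  have h1 := (LinearEquiv.ofBijective f ⟨hinj, hsurj⟩).finrank_eq
  rw [Module.finrank_fintype_fun_eq_card, Fintype.card_fin, Module.finrank_pi_fintype] at h1
  have h2 : ∑ 𝔪 : T, Module.finrank (Qq q.1) (LocField S 𝔪.1) = ∑ 𝔪 : T, locDeg S K 𝔪.1 :=
    Finset.sum_congr rfl fun 𝔪 _ => finrank_ofQqAt S K q 𝔪.1 𝔪.2
  rw [h2] at h1
  rw [Finset.sum_subtype (Finset.univ.filter (fun 𝔪 : SPlace S K => primeOf S K 𝔪 = q))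
    (p := fun 𝔪 : SPlace S K => primeOf S K 𝔪 = q) (fun x => by simp)]
  exact h1.symm

/-- `[J_S : p J_S] = p ^ (2 · #places + [K : ℚ])`. -/
theorem index_J_eq_pow [Fintype (SPlace S K)] (p : ℕ) [hp : Fact p.Prime] {ζ : K}
    (hζ : IsPrimitiveRoot ζ p) (hpS : (⟨p, hp.out⟩ : Nat.Primes) ∈ S) :
    (nsmulAddMonoidHom (α := Additive (AS S K)ˣ) p).range.index =
      p ^ (2 * Fintype.card (SPlace S K) + Module.finrank ℚ K) := by
  classical
  rw [index_J_eq S K p hζ hpS, sum_locDeg_eq, ← pow_add]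

/-! ## 2. `K ∋ μ_p`, `p` odd, is totally complex -/

theorem isTotallyComplex_of_primitiveRoot (p : ℕ) [hp : Fact p.Prime] (hp2 : p ≠ 2) {ζ : K}
    (hζ : IsPrimitiveRoot ζ p) : IsTotallyComplex K := by
  refine ⟨fun w => ?_⟩
  rw [← InfinitePlace.not_isReal_iff_isComplex]
  intro hw
  obtain ⟨φ, hφ, -⟩ := hw
  have h1 : (hφ.embedding ζ) ^ p = 1 := by
    rw [← map_pow, hζ.pow_eq_one, map_one]
  have hodd : Odd p := hp.out.odd_of_ne_two hp2
  have h2 : hφ.embedding ζ = 1 := by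
    rcases pow_eq_one_iff_cases.1 h1 with h | h | ⟨-, h⟩
    · exact absurd h hp.out.ne_zero
    · exact h
    · exact absurd h (Nat.not_even_iff_odd.2 hodd)
  have h3 : ζ = 1 := hφ.embedding.injective (by rw [h2, map_one])
  exact hp.out.one_lt.ne' (hζ.unique (h3 ▸ IsPrimitiveRoot.one))

theorem two_mul_card_infinitePlace (p : ℕ) [hp : Fact p.Prime] (hp2 : p ≠ 2) {ζ : K}
    (hζ : IsPrimitiveRoot ζ p) :
    2 * Fintype.card (InfinitePlace K) = Module.finrank ℚ K := by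
  have h1 := InfinitePlace.card_add_two_mul_card_eq_rank K
  have h2 := InfinitePlace.card_eq_nrRealPlaces_add_nrComplexPlaces K
  have h3 : InfinitePlace.nrRealPlaces K = 0 :=
    nrRealPlaces_eq_zero_iff.2 (isTotallyComplex_of_primitiveRoot K p hp2 hζ)
  omega

/-! ## 3. The exact comparison -/

/-- **EX-POW**: `[J_S : p J_S] = [E_S : p E_S]²`, from `#places = #primes` above `S`. -/
theorem powIndex_eq_of_card_eq (p : ℕ) [hp : Fact p.Prime] (hp2 : p ≠ 2)
    (hpS : (⟨p, hp.out⟩ : Nat.Primes) ∈ S) (hζ : ∃ ζ : K, IsPrimitiveRoot ζ p)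
    (hcard : Nat.card (SPlace S K) = Nat.card (PrimeIn S K)) :
    (AddMonoidHom.range (nsmulAddMonoidHom (α := Additive (AS S K)ˣ) p)).index =
      (AddMonoidHom.range (nsmulAddMonoidHom (α := sUnit S K) p)).index ^ 2 := by
  obtain ⟨ζ, hζ⟩ := hζ
  haveI := PL0H713.finite_sPlace S K
  letI := Fintype.ofFinite (SPlace S K)
  rw [index_J_eq_pow S K p hζ hpS,
    SesH604.index_range_nsmul_sUnit_of_primitiveRoot S K p hp.out.ne_zero hζ, ← pow_mul]
  congr 1
  have h1 := two_mul_card_infinitePlace K p hp2 hζ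
  rw [Nat.card_eq_fintype_card] at hcard
  omega

/-- **EX-POW** from G-PL1. -/
theorem powIndex_eq_of (hPP : PlacePrimeSpec) (p : ℕ) [hp : Fact p.Prime] (hp2 : p ≠ 2)
    (hpS : (⟨p, hp.out⟩ : Nat.Primes) ∈ S) (hζ : ∃ ζ : K, IsPrimitiveRoot ζ p) :
    (AddMonoidHom.range (nsmulAddMonoidHom (α := Additive (AS S K)ˣ) p)).index =
      (AddMonoidHom.range (nsmulAddMonoidHom (α := sUnit S K) p)).index ^ 2 := by
  obtain ⟨β, -⟩ := hPP S K
  exact powIndex_eq_of_card_eq S K p hp2 hpS hζ (Nat.card_congr β)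

end Fermat.Agent.S55.G.Exist.H901

end
-- ===== PACK-END S55/G/Exist/IdxH901Eq.lean

-- ===== PACK-BEGIN S55/G/PL1H173/Dense.lean
section



/-!
# S55 layer G, leaf G-PL1 (helper173): density of `L` in `L_𝔪` and the valuation dictionary

* `locVal S L 𝔪` : the normalised valuation of the local field `L_𝔪`;
* `exists_approx₂` : simultaneous approximation of an element of `L ⊗ ℚ_S` by an element of `L`
  at two places above the same rational prime;
* `locVal_toLoc` : `locVal 𝔪 (toLoc 𝔪 x) = (primeAt 𝔪).valuation L x` (PL1-VAL).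
-/

set_option autoImplicit false
set_option linter.unusedSectionVars false
set_option linter.style.haveILetI false

open scoped NumberField TensorProduct
open IsDedekindDomain WithZero

namespace Fermat.Agent.S55.G.PL1H173

open Fermat.Agent.S55.G Fermat.Agent.S55.G.PL0H713

variable (S : Finset Nat.Primes) (L : Type) [Field L] [NumberField L]

/-- The normalised valuation of the local field `L_𝔪`. -/
noncomputable def locVal (𝔪 : SPlace S L) : Valuation (LocField S 𝔪) ℤᵐ⁰ :=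
  haveI := (isLocalRingOfIntegers_intRing S L 𝔪).1
  dvrVal (intRing S L 𝔪)

lemma locVal_le_one_iff (𝔪 : SPlace S L) (y : LocField S 𝔪) :
    locVal S L 𝔪 y ≤ 1 ↔ y ∈ intRing S L 𝔪 :=
  haveI := (isLocalRingOfIntegers_intRing S L 𝔪).1
  dvrVal_le_one_iff (intRing S L 𝔪) y

lemma locVal_lt_one_iff (𝔪 : SPlace S L) (y : LocField S 𝔪) :
    locVal S L 𝔪 y < 1 ↔ y ∈ (intRing S L 𝔪).nonunits :=
  haveI := (isLocalRingOfIntegers_intRing S L 𝔪).1
  dvrVal_lt_one_iff (intRing S L 𝔪) y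

lemma exists_locVal_eq_exp_neg_one (𝔪 : SPlace S L) :
    ∃ π : LocField S 𝔪, locVal S L 𝔪 π = exp (-1 : ℤ) :=
  haveI := (isLocalRingOfIntegers_intRing S L 𝔪).1
  exists_dvrVal_eq_exp_neg_one (intRing S L 𝔪)

/-- In `ℤᵐ⁰`, `x < 1` iff `x ≤ exp (-1)`. -/
lemma lt_one_iff_le_exp_neg_one (x : ℤᵐ⁰) : x < 1 ↔ x ≤ exp (-1 : ℤ) := by
  have h := lt_mul_exp_iff_le (x := x) (y := exp (-1 : ℤ)) exp_ne_zero
  rw [← exp_add] at h
  simpa using h

lemma locVal_toLoc_le_one (𝔪 : SPlace S L) (x : 𝓞 L) : locVal S L 𝔪 (toLoc S 𝔪 (x : L)) ≤ 1 :=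
  (locVal_le_one_iff S L 𝔪 _).2 (toLoc_mem_intRing S L 𝔪 x)

lemma locVal_toLoc_lt_one_iff (𝔪 : SPlace S L) (x : 𝓞 L) :
    locVal S L 𝔪 (toLoc S 𝔪 (x : L)) < 1 ↔ x ∈ (primeAt S L 𝔪).asIdeal := by
  rw [locVal_lt_one_iff, mem_primeAt_iff]

lemma locVal_natCast_primeOf (𝔪 : SPlace S L) :
    locVal S L 𝔪 (((primeOf S L 𝔪).1 : ℕ) : LocField S 𝔪) ≤ exp (-1 : ℤ) := by
  rw [← lt_one_iff_le_exp_neg_one, locVal_lt_one_iff]
  exact natCast_primeOf_mem_nonunits S L 𝔪

/-- `ofQq` of a `q`-adically small element is small. -/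
lemma locVal_ofQq_le (𝔪 : SPlace S L) (z : Qq (primeOf S L 𝔪).1) (k : ℕ)
    (hz : ‖z‖ ≤ (((primeOf S L 𝔪).1 : ℕ) : ℝ) ^ (-(k : ℤ))) :
    locVal S L 𝔪 (ofQq S L 𝔪 z) ≤ exp (-(k : ℤ)) := by
  haveI : Fact (Nat.Prime ((primeOf S L 𝔪).1 : ℕ)) := ⟨(primeOf S L 𝔪).1.2⟩
  have hz1 : ‖z‖ ≤ 1 := by
    refine hz.trans ?_
    apply zpow_le_one_of_nonpos₀
    · exact_mod_cast (primeOf S L 𝔪).1.2.one_lt.le
    · simp
  have hmem := (PadicInt.norm_le_pow_iff_mem_span_pow (⟨z, hz1⟩ : ℤ_[((primeOf S L 𝔪).1 : ℕ)]) k).1 hz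
  obtain ⟨u, hu⟩ := Ideal.mem_span_singleton'.1 hmem
  have hz2 : z = (u : ℚ_[((primeOf S L 𝔪).1 : ℕ)]) * (((primeOf S L 𝔪).1 : ℕ) : ℚ_[((primeOf S L 𝔪).1 : ℕ)]) ^ k := by
    have := congrArg (fun t : ℤ_[((primeOf S L 𝔪).1 : ℕ)] => (t : ℚ_[((primeOf S L 𝔪).1 : ℕ)])) hu
    simpa using this.symm
  rw [hz2, map_mul, map_pow, ofQq_natCast, map_mul, map_pow]
  have h1 : locVal S L 𝔪 (ofQq S L 𝔪 (u : ℚ_[((primeOf S L 𝔪).1 : ℕ)])) ≤ 1 :=
    (locVal_le_one_iff S L 𝔪 _).2 (ofZq_mem_intRing S L 𝔪 u)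
  have h2 : locVal S L 𝔪 (((primeOf S L 𝔪).1 : ℕ) : LocField S 𝔪) ^ k ≤ exp (-(k : ℤ)) := by
    have := pow_le_pow_left₀ zero_le (locVal_natCast_primeOf S L 𝔪) k
    refine this.trans (le_of_eq ?_)
    rw [← exp_nsmul]
    simp
  calc _ ≤ 1 * exp (-(k : ℤ)) := mul_le_mul' h1 h2
    _ = _ := one_mul _

/-- Rational approximation in `ℚ_q`. -/
lemma exists_rat_close (q : S) (y : QS S) (k : ℕ) :
    ∃ r : ℚ, ‖QS.toPi S y q - (algebraMap ℚ (Qq q.1) r)‖ ≤ ((q.1 : ℕ) : ℝ) ^ (-(k : ℤ)) := by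
  haveI : Fact (Nat.Prime (q.1 : ℕ)) := ⟨q.1.2⟩
  have hpos : (0 : ℝ) < ((q.1 : ℕ) : ℝ) ^ (-(k : ℤ)) :=
    zpow_pos (by exact_mod_cast q.1.2.pos) _
  obtain ⟨r, hr⟩ := Padic.rat_dense (q.1 : ℕ) (QS.toPi S y q) hpos
  refine ⟨r, ?_⟩
  rw [eq_ratCast]
  exact hr.le

/-- Closeness in `ℚ_q` implies closeness in `L_𝔪`. -/
lemma locVal_ofQS_sub_le (𝔪 : SPlace S L) (q : S) (hq : primeOf S L 𝔪 = q) (y : QS S) (r : ℚ)
    (k : ℕ)
    (hr : ‖QS.toPi S y q - (algebraMap ℚ (Qq q.1) r)‖ ≤ ((q.1 : ℕ) : ℝ) ^ (-(k : ℤ))) :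
    locVal S L 𝔪 (LocField.ofQS S 𝔪 y - toLoc S 𝔪 (algebraMap ℚ L r)) ≤ exp (-(k : ℤ)) := by
  subst hq
  rw [ofQS_eq, toLoc_algebraMap, ← map_sub]
  exact locVal_ofQq_le S L 𝔪 _ k hr

lemma toLoc_injective (𝔪 : SPlace S L) : Function.Injective (toLoc S 𝔪) :=
  (toLoc S 𝔪).injective

/-- **Simultaneous approximation** of an element of `L ⊗ ℚ_S` by elements of `L` at two places
above the same rational prime. -/
theorem exists_approx₂ (𝔪 𝔪' : SPlace S L) (h : primeOf S L 𝔪' = primeOf S L 𝔪) (a : AS S L) :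
    ∀ (γ γ' : ℤᵐ⁰), γ ≠ 0 → γ' ≠ 0 →
    ∃ x : L, locVal S L 𝔪 (LocField.mk S 𝔪 a - toLoc S 𝔪 x) < γ ∧
      locVal S L 𝔪' (LocField.mk S 𝔪' a - toLoc S 𝔪' x) < γ' := by
  induction a using TensorProduct.induction_on with
  | zero =>
    intro γ γ' hγ hγ'
    refine ⟨0, ?_, ?_⟩
    · simpa using zero_lt_iff.2 hγ
    · simpa using zero_lt_iff.2 hγ'
  | tmul l y =>
    intro γ γ' hγ hγ'
    rcases eq_or_ne l 0 with rfl | hl
    · refine ⟨0, ?_, ?_⟩
      · simpa using zero_lt_iff.2 hγ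
      · simpa using zero_lt_iff.2 hγ'
    have hc : locVal S L 𝔪 (toLoc S 𝔪 l) ≠ 0 :=
      (Valuation.ne_zero_iff _).2 (fun h0 => hl (toLoc_injective S L 𝔪 (h0.trans (map_zero _).symm)))
    have hc' : locVal S L 𝔪' (toLoc S 𝔪' l) ≠ 0 :=
      (Valuation.ne_zero_iff _).2 (fun h0 => hl (toLoc_injective S L 𝔪' (h0.trans (map_zero _).symm)))
    obtain ⟨k, hk, hk'⟩ := exists_exp_neg_natCast_lt_and_lt
      (x := γ * (locVal S L 𝔪 (toLoc S 𝔪 l))⁻¹) (y := γ' * (locVal S L 𝔪' (toLoc S 𝔪' l))⁻¹)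
      (mul_ne_zero hγ (inv_ne_zero hc)) (mul_ne_zero hγ' (inv_ne_zero hc'))
    obtain ⟨r, hr⟩ := exists_rat_close S (primeOf S L 𝔪) y k
    have h1 := locVal_ofQS_sub_le S L 𝔪 (primeOf S L 𝔪) rfl y r k hr
    have h2 := locVal_ofQS_sub_le S L 𝔪' (primeOf S L 𝔪) h y r k hr
    refine ⟨l * algebraMap ℚ L r, ?_, ?_⟩
    · rw [mk_tmul, map_mul, ← mul_sub, map_mul]
      calc locVal S L 𝔪 (toLoc S 𝔪 l) *
            locVal S L 𝔪 (LocField.ofQS S 𝔪 y - toLoc S 𝔪 (algebraMap ℚ L r))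
          ≤ locVal S L 𝔪 (toLoc S 𝔪 l) * exp (-(k : ℤ)) := mul_le_mul' le_rfl h1
        _ < locVal S L 𝔪 (toLoc S 𝔪 l) * (γ * (locVal S L 𝔪 (toLoc S 𝔪 l))⁻¹) :=
            mul_lt_mul_of_pos_left hk (zero_lt_iff.2 hc)
        _ = γ := by rw [mul_comm γ, ← mul_assoc, mul_inv_cancel₀ hc, one_mul]
    · rw [mk_tmul, map_mul, ← mul_sub, map_mul]
      calc locVal S L 𝔪' (toLoc S 𝔪' l) *
            locVal S L 𝔪' (LocField.ofQS S 𝔪' y - toLoc S 𝔪' (algebraMap ℚ L r))
          ≤ locVal S L 𝔪' (toLoc S 𝔪' l) * exp (-(k : ℤ)) := mul_le_mul' le_rfl h2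
        _ < locVal S L 𝔪' (toLoc S 𝔪' l) * (γ' * (locVal S L 𝔪' (toLoc S 𝔪' l))⁻¹) :=
            mul_lt_mul_of_pos_left hk' (zero_lt_iff.2 hc')
        _ = γ' := by rw [mul_comm γ', ← mul_assoc, mul_inv_cancel₀ hc', one_mul]
  | add a b ha hb =>
    intro γ γ' hγ hγ'
    obtain ⟨x₁, h1, h1'⟩ := ha γ γ' hγ hγ'
    obtain ⟨x₂, h2, h2'⟩ := hb γ γ' hγ hγ'
    refine ⟨x₁ + x₂, ?_, ?_⟩
    · have : LocField.mk S 𝔪 (a + b) - toLoc S 𝔪 (x₁ + x₂) =
          (LocField.mk S 𝔪 a - toLoc S 𝔪 x₁) + (LocField.mk S 𝔪 b - toLoc S 𝔪 x₂) := by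
        rw [map_add, map_add]; ring
      rw [this]
      exact Valuation.map_add_lt _ h1 h2
    · have : LocField.mk S 𝔪' (a + b) - toLoc S 𝔪' (x₁ + x₂) =
          (LocField.mk S 𝔪' a - toLoc S 𝔪' x₁) + (LocField.mk S 𝔪' b - toLoc S 𝔪' x₂) := by
        rw [map_add, map_add]; ring
      rw [this]
      exact Valuation.map_add_lt _ h1' h2'

/-- Approximation at one place. -/
theorem exists_approx (𝔪 : SPlace S L) (a : AS S L) (γ : ℤᵐ⁰) (hγ : γ ≠ 0) :
    ∃ x : L, locVal S L 𝔪 (LocField.mk S 𝔪 a - toLoc S 𝔪 x) < γ := by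
  obtain ⟨x, hx, -⟩ := exists_approx₂ S L 𝔪 𝔪 rfl a γ γ hγ hγ
  exact ⟨x, hx⟩

/-! ### The valuation dictionary -/

/-- The pull-back of the local valuation to `L`. -/
noncomputable def pullVal (𝔪 : SPlace S L) : Valuation L ℤᵐ⁰ :=
  (locVal S L 𝔪).comap (toLoc S 𝔪)

lemma pullVal_apply (𝔪 : SPlace S L) (x : L) :
    pullVal S L 𝔪 x = locVal S L 𝔪 (toLoc S 𝔪 x) := rfl

lemma pullVal_int_le_one (𝔪 : SPlace S L) (d : 𝓞 L) : pullVal S L 𝔪 (d : L) ≤ 1 :=
  locVal_toLoc_le_one S L 𝔪 d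

lemma pullVal_int_lt_one_iff (𝔪 : SPlace S L) (d : 𝓞 L) :
    pullVal S L 𝔪 (d : L) < 1 ↔ d ∈ (primeAt S L 𝔪).asIdeal :=
  locVal_toLoc_lt_one_iff S L 𝔪 d

lemma pullVal_int_eq_one (𝔪 : SPlace S L) (d : 𝓞 L) (hd : d ∉ (primeAt S L 𝔪).asIdeal) :
    pullVal S L 𝔪 (d : L) = 1 :=
  le_antisymm (pullVal_int_le_one S L 𝔪 d)
    (not_lt.1 (fun h => hd ((pullVal_int_lt_one_iff S L 𝔪 d).1 h)))

/-- The pulled back valuation is equivalent to the adic valuation of `primeAt 𝔪`. -/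
theorem pullVal_isEquiv (𝔪 : SPlace S L) :
    (pullVal S L 𝔪).IsEquiv ((primeAt S L 𝔪).valuation L) := by
  rw [Valuation.isEquiv_iff_val_le_one]
  intro z
  constructor
  · intro hV
    by_contra hv
    rw [not_le] at hv
    have hz0 : z ≠ 0 := by
      rintro rfl
      simp at hv
    have hv' : (primeAt S L 𝔪).valuation L z⁻¹ < 1 := by
      rw [map_inv₀]
      exact inv_lt_one_of_one_lt₀ hv
    obtain ⟨n, d, hnd⟩ :=
      HeightOneSpectrum.exists_primeCompl_mul_eq_of_integer (primeAt S L 𝔪) z⁻¹ hv'.le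
    have hd1 : (primeAt S L 𝔪).valuation L (algebraMap (𝓞 L) L d) = 1 :=
      (HeightOneSpectrum.valuation_eq_one_iff_notMem (K := L) (primeAt S L 𝔪)).2 d.2
    have hn : n ∈ (primeAt S L 𝔪).asIdeal := by
      have hn1 : (primeAt S L 𝔪).valuation L (algebraMap (𝓞 L) L n) < 1 := by
        rw [← hnd, map_mul, hd1, mul_one]
        exact hv'
      exact (HeightOneSpectrum.valuation_lt_one_iff_mem (K := L) (primeAt S L 𝔪) n).1 hn1
    have hVn : pullVal S L 𝔪 (algebraMap (𝓞 L) L n) < 1 :=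
      (pullVal_int_lt_one_iff S L 𝔪 n).2 hn
    have hVd : pullVal S L 𝔪 (algebraMap (𝓞 L) L d) = 1 := pullVal_int_eq_one S L 𝔪 d d.2
    rw [← hnd, map_mul, hVd, mul_one, map_inv₀] at hVn
    have hVz : pullVal S L 𝔪 z ≠ 0 := (Valuation.ne_zero_iff _).2 hz0
    have : 1 < pullVal S L 𝔪 z := by
      by_contra hcon
      rw [not_lt] at hcon
      have := (one_le_inv₀ (zero_lt_iff.2 hVz)).2 hcon
      exact absurd hVn (not_lt.2 this)
    exact absurd hV (not_le.2 this)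
  · intro hv
    obtain ⟨n, d, hnd⟩ :=
      HeightOneSpectrum.exists_primeCompl_mul_eq_of_integer (primeAt S L 𝔪) z hv
    have hVd : pullVal S L 𝔪 (algebraMap (𝓞 L) L d) = 1 := pullVal_int_eq_one S L 𝔪 d d.2
    have hVn : pullVal S L 𝔪 (algebraMap (𝓞 L) L n) ≤ 1 := pullVal_int_le_one S L 𝔪 n
    rw [← hnd, map_mul, hVd, mul_one] at hVn
    exact hVn

/-- `L` contains an element which is a uniformiser of `L_𝔪`. -/
lemma exists_pullVal_eq_exp_neg_one (𝔪 : SPlace S L) :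
    ∃ x : L, pullVal S L 𝔪 x = exp (-1 : ℤ) := by
  obtain ⟨π, hπ⟩ := exists_locVal_eq_exp_neg_one S L 𝔪
  obtain ⟨a, rfl⟩ := LocField.mk_surjective S 𝔪 π
  obtain ⟨x, hx⟩ := exists_approx S L 𝔪 a (exp (-1 : ℤ)) exp_ne_zero
  refine ⟨x, ?_⟩
  rw [pullVal_apply]
  have h1 : toLoc S 𝔪 x = LocField.mk S 𝔪 a - (LocField.mk S 𝔪 a - toLoc S 𝔪 x) := by ring
  rw [h1, Valuation.map_sub_eq_of_lt_left _ (by rw [hπ]; exact hx), hπ]

/-- **PL1-VAL.**  The normalised valuation of `L_𝔪` restricts on `L` to the normalised adic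
valuation of the prime `primeAt 𝔪` (no ramification index appears). -/
theorem locVal_toLoc (𝔪 : SPlace S L) (x : L) :
    locVal S L 𝔪 (toLoc S 𝔪 x) = (primeAt S L 𝔪).valuation L x := by
  have h := valuation_eq_of_isEquiv (pullVal S L 𝔪) ((primeAt S L 𝔪).valuation L)
    (pullVal_isEquiv S L 𝔪) (exists_pullVal_eq_exp_neg_one S L 𝔪)
    ((primeAt S L 𝔪).valuation_exists_uniformizer L)
  exact congrArg (fun V : Valuation L ℤᵐ⁰ => V x) h

end Fermat.Agent.S55.G.PL1H173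

end
-- ===== PACK-END S55/G/PL1H173/Dense.lean

-- ===== PACK-BEGIN S55/G/PL1H173/Inj.lean
section


/-!
# S55 layer G, leaf G-PL1 (helper173): `primeAt` is injective

Two places of `L ⊗ ℚ_S` inducing the same prime of `𝓞 L` are equal.
-/

set_option autoImplicit false
set_option linter.unusedSectionVars false
set_option linter.style.haveILetI false

open scoped NumberField TensorProduct
open IsDedekindDomain WithZero

namespace Fermat.Agent.S55.G.PL1H173

open Fermat.Agent.S55.G Fermat.Agent.S55.G.PL0H713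

variable (S : Finset Nat.Primes) (L : Type) [Field L] [NumberField L]

lemma primeOf_eq_of_primeAt_eq (𝔪 𝔪' : SPlace S L) (h : primeAt S L 𝔪 = primeAt S L 𝔪') :
    primeOf S L 𝔪' = primeOf S L 𝔪 := by
  apply primeOf_eq_of_mem_primeAt
  rw [h]
  exact natCast_primeOf_mem_primeAt S L 𝔪'

lemma asIdeal_le_of_primeAt_eq (𝔪 𝔪' : SPlace S L) (h : primeAt S L 𝔪 = primeAt S L 𝔪') :
    𝔪.asIdeal ≤ 𝔪'.asIdeal := by
  intro a ha
  by_contra hne
  have h0 : LocField.mk S 𝔪 a = 0 := (LocField.mk_eq_zero_iff S 𝔪 a).2 ha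
  have hγ : locVal S L 𝔪' (LocField.mk S 𝔪' a) ≠ 0 :=
    (Valuation.ne_zero_iff _).2 (fun h1 => hne ((LocField.mk_eq_zero_iff S 𝔪' a).1 h1))
  obtain ⟨x, hx, hx'⟩ := exists_approx₂ S L 𝔪 𝔪' (primeOf_eq_of_primeAt_eq S L 𝔪 𝔪' h) a
    _ _ hγ hγ
  rw [h0, zero_sub, Valuation.map_neg, locVal_toLoc, h, ← locVal_toLoc] at hx
  have h2 : LocField.mk S 𝔪' a = (LocField.mk S 𝔪' a - toLoc S 𝔪' x) + toLoc S 𝔪' x := by ring
  have h3 := Valuation.map_add_lt _ hx' hx
  rw [← h2] at h3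
  exact lt_irrefl _ h3

/-- **Injectivity** of `𝔪 ↦ primeAt 𝔪`. -/
theorem primeAt_injective : Function.Injective (primeAt S L) := by
  intro 𝔪 𝔪' h
  apply MaximalSpectrum.ext
  haveI := 𝔪.isMaximal
  exact Ideal.IsMaximal.eq_of_le 𝔪.isMaximal 𝔪'.isMaximal.ne_top
    (asIdeal_le_of_primeAt_eq S L 𝔪 𝔪' h)

end Fermat.Agent.S55.G.PL1H173

end
-- ===== PACK-END S55/G/PL1H173/Inj.lean

-- ===== PACK-BEGIN S55/K/AR/WeakRecipH635.lean
section



/-!
# S55 / layer K / block AR, leaf AR-WR (helper635)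

`weakRecipLeaf : WeakRecipLeaf S p` — weak reciprocity over `ℚ` in the tower:
`∑_q (j_q)_* (diag_q)_* x = (jTot ∘ diagTot)_* x = 0` (GD4); if all terms but `q₀` vanish then
`(j_{q₀})_* ((diag_{q₀})_* x) = 0`, and GD3 (injectivity of `(j_q)_*` on `p`-torsion) applies.
-/

set_option autoImplicit false

open CategoryTheory

namespace Fermat.Agent.S55.K.AR.H635

open Fermat.Agent.S55 Fermat.Agent.S55.Tow Fermat.Agent.S55.E1.Lim

/-- `∑_q j_q ∘ diag_q ∘ incl = 0` on the `S`-units (GD4). -/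
theorem sum_diag_j_eq_zero {S : Finset Nat.Primes} {p : ℕ} (c : _root_.Fermat.Agent.S55.K.AR.Ctx S p) (L : Level S) :
    (∑ q : S, (sIncl L ≫ L.diag q.1) ≫ c.D.j L q.1) = 0 := by
  apply Rep.hom_ext
  apply DFunLike.ext
  intro e
  have h1 := diagTot_jTot c.h4 L e
  rw [jTot_apply] at h1
  have h2 : ((∑ q : S, (sIncl L ≫ L.diag q.1) ≫ c.D.j L q.1 : E1.Lim.sUnits L ⟶ c.D.C L)).hom e =
      ∑ q : S, (c.D.j L q.1).hom (piTo ((diagTot L).hom e) q) := by
    have h3 : ∀ (s : Finset S),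
        ((∑ q ∈ s, (sIncl L ≫ L.diag q.1) ≫ c.D.j L q.1 : E1.Lim.sUnits L ⟶ c.D.C L)).hom e =
          ∑ q ∈ s, (c.D.j L q.1).hom (piTo ((diagTot L).hom e) q) := by
      intro s
      classical
      induction s using Finset.induction_on with
      | empty => rfl
      | insert a s ha ih =>
        rw [Finset.sum_insert ha, Finset.sum_insert ha, ← ih]
        rfl
    exact h3 Finset.univ
  rw [h2, h1]
  rfl

/-- **AR-WR.** -/
theorem weakRecipLeaf (S : Finset Nat.Primes) (p : ℕ) : WeakRecipLeaf S p := by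
  intro c L hMu x hx q₀ hq₀ hother
  classical
  refine c.good.good.gd3 L hMu q₀ hq₀ _ ?_ ?_
  · rw [← map_nsmul, hx, map_zero]
  · have hsum := T.H635.coeffMap_sum_apply (Finset.univ : Finset S)
      (fun q : S => (sIncl L ≫ L.diag q.1) ≫ c.D.j L q.1) 2 x
    rw [sum_diag_j_eq_zero c L, T.H635.coeffMap_zero_apply] at hsum
    rw [Finset.sum_eq_single (⟨q₀, hq₀⟩ : S)] at hsum
    · rw [T.H635.coeffMap_comp_apply]
      exact hsum.symm
    · intro q _ hq
      rw [← T.H635.coeffMap_comp_apply, hother q.1 q.2 (fun h => hq (Subtype.ext h)), map_zero]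
    · intro h
      exact absurd (Finset.mem_univ _) h

end Fermat.Agent.S55.K.AR.H635

end
-- ===== PACK-END S55/K/AR/WeakRecipH635.lean

-- ===== PACK-BEGIN S56/H614/RedSpec.lean
section




/-!
# S56 / W-BASE / EUL-RED (helper614): FROZEN statements

Tate's global Euler characteristic formula `φ := h⁰ − h¹ + h² + dim (·)^{c=-1} ≡ 0` is reduced,
by modular Artin induction (`Euler.ind`, `Euler.key`, both on main), to ONE arithmetic input:

* `CharpolyId L c X T` — the **equivariant Euler–Poincaré identity**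
  `charpoly (T | H¹ X) = charpoly (T | H⁰ X) * charpoly (T | H² X) * charpoly (T | X^{c=-1})`
  for `X = Ind_U μ` and `T = indR U μ σ` (right translation), `σ` of order prime to `p` mod `U`.

Statements:

* `LemmaAStatement` (pure algebra, projection formula): `k[Γ/B] ⊗ W ≅ ker (M ⊗ R_σ − 1)` inside
  `(Ind_U μ)^J`, `B = ⟨σ⟩ ≤ Γ = G/U`, `M` = matrix of `χ(σ)⁻¹ • σ` on `W`;
* `RedStatement`: `CharpolyId` for all `σ` + additivity of `φ` ⇒ `φ N = 0` for all `N` trivial
  on `U`.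

Proved in `Fermat/Agent/S56/H614/`: EQUIV (`LinFun.kerEquiv`), `phi_kerRep_matOp`.
-/

set_option autoImplicit false

open Polynomial

noncomputable section

namespace Fermat.Agent.S56.H614

open Fermat.Agent.S55.PT Fermat.Agent.S56.H419 Fermat.Agent.S56.Euler groupCohomology Module

variable {k : Type} [Field k] {G : Type} [Group G]

/-- Inflation of a representation of `G ⧸ U` to `G`. -/
def inflRep (U : Subgroup G) [U.Normal] (W : FDRepData k (G ⧸ U)) : Rep.{0, 0, 0} k G :=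
  Rep.of (W.ρ.comp (QuotientGroup.mk' U))

lemma inflRep_ρ_apply (U : Subgroup G) [U.Normal] (W : FDRepData k (G ⧸ U)) (g : G) (w : W.V) :
    (inflRep U W).ρ g w = W.ρ (g : G ⧸ U) w := rfl

/-- **The equivariant Euler–Poincaré identity** for an equivariant endomorphism `T` of `X`:
`charpoly (H¹ T) = charpoly (H⁰ T) * charpoly (H² T) * charpoly (T | X^{c=-1})`. -/
def CharpolyId (L : LevelSys G) (c : G) (X : Rep.{0, 0, 0} k G) (T : X →ₗ[k] X)
    (hT : IsEquivariant T) : Prop :=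
  ∀ (_ : Module.Finite k X) (_ : Module.Finite k (L.H1 X)) (_ : Module.Finite k (L.H2 X)),
    LinearMap.charpoly (pushH1 T hT L) =
      LinearMap.charpoly (pushH0 T hT) * LinearMap.charpoly (pushH2 T hT L) *
        LinearMap.charpoly (minusMap c T hT)

/-- **Lemma A (projection formula).**  `Γ = G ⧸ U`, `σ : G`, `B = ⟨σ̄⟩ ≤ Γ`, `W` a representation
of `Γ`, `χ` a character of `G` trivial on `U`, `b` a basis of `W`, `M` the matrix of
`χ(σ)⁻¹ • σ̄` on `W`: there is a `G`-equivariant linear equivalence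
`(Γ ⧸ B →₀ W) ≃ ker (M ⊗ R_σ − 1) ⊆ (Ind_U χ)^J`
(explicitly `a ↦ (j ↦ x ↦ b.coord j (χ(x) • x⁻¹ • a (x B)))`). -/
def LemmaAStatement : Prop :=
  ∀ (k : Type) [Field k] (G : Type) [Group G] (U : Subgroup G) [U.Normal] [U.FiniteIndex]
    (χ : G →* kˣ), (∀ u ∈ U, χ u = 1) →
    ∀ (σ : G) (W : FDRepData k (G ⧸ U)) (J : Type) [Fintype J] [DecidableEq J]
      (b : Basis J k W.V),
      ∃ e : (((G ⧸ U) ⧸ Subgroup.zpowers (σ : G ⧸ U)) →₀ W.V) ≃ₗ[k]
          ↥(LinearMap.ker (matOp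
            (LinearMap.toMatrix b b ((((χ σ)⁻¹ : kˣ) : k) • W.ρ (σ : G ⧸ U)))
            (indR U (ofChar χ) σ) - 1)),
        ∀ (g : G) (a : ((G ⧸ U) ⧸ Subgroup.zpowers (σ : G ⧸ U)) →₀ W.V),
          ((e ((permData (Subgroup.zpowers (σ : G ⧸ U)) W).ρ (g : G ⧸ U) a) :
              ↥(LinearMap.ker (matOp
                (LinearMap.toMatrix b b ((((χ σ)⁻¹ : kˣ) : k) • W.ρ (σ : G ⧸ U)))
                (indR U (ofChar χ) σ) - 1))) : J → ((G ⧸ U) →₀ k)) =
            (piRep J (indRep U (ofChar χ))).ρ g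
              ((e a : ↥(LinearMap.ker (matOp
                (LinearMap.toMatrix b b ((((χ σ)⁻¹ : kˣ) : k) • W.ρ (σ : G ⧸ U)))
                (indR U (ofChar χ) σ) - 1))) : J → ((G ⧸ U) →₀ k))

/-- **RED.**  Modular Artin induction reduces the vanishing of `φ = χ + dim (·)^{c=-1}` on all
finite-dimensional representations trivial on `U` to the equivariant Euler–Poincaré identity for
`(Ind_U χ, R_σ)`, `σ` of order prime to `p` modulo `U`. -/
def RedStatement : Prop :=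
  ∀ (p : ℕ) [Fact p.Prime] (G : Type) [Group G] (L : LevelSys G) (c : G)
    (U : Subgroup G) [U.Normal] [U.FiniteIndex] (χ : G →* (ZMod p)ˣ), (∀ u ∈ U, χ u = 1) →
    Module.Finite (ZMod p) (L.H1 (indRep U (ofChar χ))) →
    Module.Finite (ZMod p) (L.H2 (indRep U (ofChar χ))) →
    (∀ (A B C : Rep.{0, 0, 0} (ZMod p) G) (_ : SES A B C), FiniteDimensional (ZMod p) B →
      (∀ u ∈ U, ∀ b : B, B.ρ u b = b) → phi L c B = phi L c A + phi L c C) →
    (∀ σ : G, ¬ p ∣ orderOf (σ : G ⧸ U) →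
      CharpolyId L c (indRep U (ofChar χ)) (indR U (ofChar χ) σ)
        (indR_equivariant U (ofChar χ) σ)) →
    ∀ N : Rep.{0, 0, 0} (ZMod p) G, FiniteDimensional (ZMod p) N →
      (∀ u ∈ U, ∀ n : N, N.ρ u n = n) → phi L c N = 0

end Fermat.Agent.S56.H614

end

end
-- ===== PACK-END S56/H614/RedSpec.lean

-- ===== PACK-BEGIN S56/Euler/Big/Red.lean
section




/-!
# Row S56 / wall BASE — BASE-BIG: E-BIG from RED (helper614) and CHAR-EULER-BIG (helper366)

    theorem eulerBig_of_red : H614.RedStatement → (∀ S ∋ p, PhiAddSpec p S) →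
        (∀ S ∋ p, H2FinGlobSpec p S) → CharEulerBigSpec p → EulerBigSpec p          -- PROVED

* `CharEulerBigSpec p` (CHAR-EULER-BIG, THE arithmetic target): for every normal level `U` of
  `S₀ ∋ p` on which the cyclotomic character is trivial there is a finite `S ⊇ S₀` such that the
  equivariant Euler–Poincaré identity `H614.CharpolyId` holds over `globalLevels S` for
  `X = Ind_U μ_p` and every right translation `R_σ = H419.indR U μ σ`, `σ` of order prime to `p`
  modulo `U`:   `charpoly (R_σ | H¹) = charpoly (R_σ | H⁰) · charpoly (R_σ | H²) · charpoly (R_σ | X^{c=−1})`.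
-/

set_option autoImplicit false

open Polynomial

noncomputable section

namespace Fermat.Agent.S56.Euler

open Fermat.Agent.S56 Fermat.Agent.S55.PT ExtCitation Module groupCohomology

variable (p : ℕ) [Fact p.Prime]

/-- (CHAR-EULER-BIG) **the equivariant Euler–Poincaré identity for `Ind_U μ_p`, for one big set
of primes.** -/
def CharEulerBigSpec : Prop :=
  p ≠ 2 → ∀ S₀ : Finset Nat.Primes, pPrime p ∈ S₀ →
    ∀ (U : Subgroup _root_.Fermat.Agent.S56.GQ) [U.Normal], U ∈ (globalLevels S₀).levels →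
      (∀ u ∈ U, cycloChar p u = 1) →
      ∃ S : Finset Nat.Primes, S₀ ⊆ S ∧
        ∀ σ : _root_.Fermat.Agent.S56.GQ, ¬ p ∣ orderOf (σ : _root_.Fermat.Agent.S56.GQ ⧸ U) →
          H614.CharpolyId (globalLevels S) complexConjugation
            (indRep U (ofChar (cycloChar p))) (H419.indR U (ofChar (cycloChar p)) σ)
            (H419.indR_equivariant U (ofChar (cycloChar p)) σ)

variable {p}

/-- A level of `S₀` is a level of every bigger set. -/
lemma mem_levels_mono {S₀ S : Finset Nat.Primes} (h : S₀ ⊆ S) {U : Subgroup _root_.Fermat.Agent.S56.GQ}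
    (hU : U ∈ (globalLevels S₀).levels) : U ∈ (globalLevels S).levels := by
  obtain ⟨F, hF, rfl⟩ := hU
  exact ⟨F, hF.mono h, rfl⟩

/-- Below every level of `S₀ ∋ p` there is a normal level on which the cyclotomic character is
trivial. -/
lemma exists_normal_cyclo_level {S₀ : Finset Nat.Primes} (hpS₀ : pPrime p ∈ S₀)
    {U : Subgroup _root_.Fermat.Agent.S56.GQ} (hU : U ∈ (globalLevels S₀).levels) :
    ∃ U' : Subgroup _root_.Fermat.Agent.S56.GQ, U' ≤ U ∧ U' ∈ (globalLevels S₀).levels ∧ U'.Normal ∧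
      ∀ u ∈ U', cycloChar p u = 1 := by
  obtain ⟨V, hV, hVχ⟩ := cycloLevelSpec p S₀ hpS₀
  obtain ⟨W, hW, hWle⟩ := (globalLevels S₀).directed U hU V hV
  obtain ⟨U', hU', hU'W, hU'n⟩ := H724.globalNormalCofinal S₀ W hW
  exact ⟨U', fun u hu => (hWle (hU'W hu)).1, hU', hU'n,
    fun u hu => hVχ u (hWle (hU'W hu)).2⟩

/-- **E-BIG from RED and CHAR-EULER-BIG.** -/
theorem eulerBig_of_red (hRed : H614.RedStatement)
    (hAdd : ∀ S : Finset Nat.Primes, pPrime p ∈ S → H419.PhiAddSpec p S)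
    (hH2 : ∀ S : Finset Nat.Primes, pPrime p ∈ S → H419.H2FinGlobSpec p S)
    (hCE : CharEulerBigSpec p) : EulerBigSpec p := by
  intro hp2 S₀ hpS₀ U hU
  obtain ⟨U', hU'U, hU', hU'n, hχ⟩ := exists_normal_cyclo_level hpS₀ hU
  have : U'.Normal := hU'n
  obtain ⟨S, hS, hce⟩ := hCE hp2 S₀ hpS₀ U' hU' hχ
  have hpS : pPrime p ∈ S := hS hpS₀
  have hU'S : U' ∈ (globalLevels S).levels := mem_levels_mono hS hU'
  have : U'.FiniteIndex := H724.globalFiniteIndex S U' hU'S
  refine ⟨S, hS, fun N hfd hUN => ?_⟩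
  -- the induced module
  have hμtriv : ∀ u ∈ U', (ofChar (cycloChar p) : Rep.{0, 0, 0} (ZMod p) _root_.Fermat.Agent.S56.GQ).ρ u = 1 := by
    intro u hu
    apply LinearMap.ext
    intro x
    rw [ofChar_ρ_apply, hχ u hu]
    simp
  have hXtriv : ∀ u ∈ U', (indRep U' (ofChar (cycloChar p))).ρ u = 1 :=
    fun u hu => indRep_ρ_eq_one U' (ofChar (cycloChar p)) hμtriv u hu
  have hXsm : (globalLevels S).IsUSmooth (indRep U' (ofChar (cycloChar p))) :=
    isUSmooth_of_trivial _ hU'S hXtriv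
  have : Finite (_root_.Fermat.Agent.S56.GQ ⧸ U') := Subgroup.finite_quotient_of_finiteIndex
  have hXfd : FiniteDimensional (ZMod p) (indRep U' (ofChar (cycloChar p))) := by
    show Module.Finite (ZMod p) ((_root_.Fermat.Agent.S56.GQ ⧸ U') →₀ (ofChar (cycloChar p) : Rep.{0, 0, 0} (ZMod p) _root_.Fermat.Agent.S56.GQ))
    have : Module.Finite (ZMod p) (ofChar (cycloChar p) : Rep.{0, 0, 0} (ZMod p) _root_.Fermat.Agent.S56.GQ) := by
      show Module.Finite (ZMod p) (ZMod p)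
      infer_instance
    infer_instance
  refine hRed p _root_.Fermat.Agent.S56.GQ (globalLevels S) complexConjugation U' (cycloChar p) hχ
    (H593.finGlob p S _ hXfd hXsm) (hH2 S hpS _ hXfd hXsm) ?_ hce N hfd ?_
  · intro A B C E hB hBtriv
    exact hAdd S hpS hp2 complexConjugation complexConjugation_mul_self A B C E hB
      ⟨U', hU'S, hBtriv⟩
  · intro u hu n
    rw [hUN u (hU'U hu)]
    rfl

end Fermat.Agent.S56.Euler

end

end
-- ===== PACK-END S56/Euler/Big/Red.lean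

-- ===== PACK-BEGIN S56/H614/Red1.lean
section



/-!
# S56 / W-BASE / EUL-RED, part 5 (helper614): proof of `RedStatement` from `LemmaAStatement`

Pieces:
* `LinFun.finrank_eq_of_iso`, `phi_eq_of_iso`: isomorphism invariance;
* `LinFun.indRRep`: the representation of `G ⧸ U` on `F (Ind_U M₀)` by right translations;
* `dimFixInv M σ`: the additive invariant `A ↦ dim ker (M ⊗ σ − 1 | A^J)` (`dimFixInv_additive`);
* `phi_kerRep_eq_zero`: `CharpolyId` for all `p`-regular elements + `Euler.key` ⇒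
  `φ (ker (M ⊗ R_σ − 1)) = 0`;
* `red_of : LemmaAStatement → RedStatement` (via `Euler.ind`).
-/

set_option autoImplicit false
set_option linter.unusedSectionVars false

open Polynomial

noncomputable section

namespace Fermat.Agent.S56.H614

open Fermat.Agent.S55.PT Fermat.Agent.S56.H419 Fermat.Agent.S56.Euler groupCohomology Module

variable {k : Type} [Field k] {G : Type} [Group G]

/-! ### isomorphism invariance -/

namespace LinFun

variable (F : LinFun k G) {A B : Rep.{0, 0, 0} k G}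

lemma symm_equivariant (e : A ≃ₗ[k] B) (he : IsEquivariant (e : A →ₗ[k] B)) :
    IsEquivariant (e.symm : B →ₗ[k] A) := by
  intro g b
  have he' : ∀ (g : G) (a : A), e (A.ρ g a) = B.ρ g (e a) := he
  apply e.injective
  show e (e.symm (B.ρ g b)) = e (A.ρ g (e.symm b))
  rw [e.apply_symm_apply, he', e.apply_symm_apply]

/-- functors preserve isomorphisms -/
def isoEquiv (e : A ≃ₗ[k] B) (he : IsEquivariant (e : A →ₗ[k] B)) : F.obj A ≃ₗ[k] F.obj B :=
  LinearEquiv.ofLinearMap (F.map (e : A →ₗ[k] B) he)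
    (F.map (e.symm : B →ₗ[k] A) (symm_equivariant e he))
    (by
      rw [← F.map_comp _ _ _ _ (isEquivariant_comp (symm_equivariant e he) he),
        F.map_congr (e.comp_symm) _ (isEquivariant_id B), F.map_id])
    (by
      rw [← F.map_comp _ _ _ _ (isEquivariant_comp he (symm_equivariant e he)),
        F.map_congr (e.symm_comp) _ (isEquivariant_id A), F.map_id])

lemma finrank_eq_of_iso (e : A ≃ₗ[k] B) (he : IsEquivariant (e : A →ₗ[k] B)) :
    finrank k (F.obj A) = finrank k (F.obj B) :=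
  (F.isoEquiv e he).finrank_eq

end LinFun

/-- `φ` is invariant under isomorphisms. -/
theorem phi_eq_of_iso (L : LevelSys G) (c : G) {A B : Rep.{0, 0, 0} k G} (e : A ≃ₗ[k] B)
    (he : IsEquivariant (e : A →ₗ[k] B)) : phi L c A = phi L c B := by
  have e0 : finrank k ↥(LevelSys.H0 A) = finrank k ↥(LevelSys.H0 B) :=
    (H0F (k := k) (G := G)).finrank_eq_of_iso e he
  have e1 : finrank k (L.H1 A) = finrank k (L.H1 B) :=
    (H1F (k := k) L).finrank_eq_of_iso e he
  have e2 : finrank k (L.H2 A) = finrank k (L.H2 B) :=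
    (H2F (k := k) L).finrank_eq_of_iso e he
  have e3 : finrank k ↥(minusPart c A) = finrank k ↥(minusPart c B) :=
    (minusF (k := k) c).finrank_eq_of_iso e he
  unfold phi eulerChar
  rw [e0, e1, e2, e3]

/-! ### the right-translation representation of `G ⧸ U` on `F (Ind_U M₀)` -/

namespace LinFun

variable (F : LinFun k G) (U : Subgroup G) [U.Normal] (M₀ : Rep.{0, 0, 0} k G)

/-- `σ ↦ F (R_σ)` -/
def indRHom : G →* (F.obj (indRep U M₀) →ₗ[k] F.obj (indRep U M₀)) where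
  toFun σ := F.map (A := indRep U M₀) (B := indRep U M₀) (indR U M₀ σ)
    (indR_equivariant U M₀ σ)
  map_one' := by
    rw [F.map_congr (A := indRep U M₀) (B := indRep U M₀) (indR_one U M₀) _
      (isEquivariant_id _), F.map_id]
    rfl
  map_mul' σ τ := by
    rw [F.map_congr (A := indRep U M₀) (B := indRep U M₀) (indR_mul U M₀ σ τ) _
      (isEquivariant_comp (A := indRep U M₀) (B := indRep U M₀) (C := indRep U M₀)
        (indR_equivariant U M₀ τ) (indR_equivariant U M₀ σ)),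
      F.map_comp (A := indRep U M₀) (B := indRep U M₀) (C := indRep U M₀) _ _
        (indR_equivariant U M₀ τ) (indR_equivariant U M₀ σ)]
    rfl

lemma indRHom_apply (σ : G) :
    F.indRHom U M₀ σ = F.map (A := indRep U M₀) (B := indRep U M₀) (indR U M₀ σ)
      (indR_equivariant U M₀ σ) := rfl

lemma le_ker_indRHom : U ≤ (F.indRHom U M₀).ker := by
  intro u hu
  rw [MonoidHom.mem_ker, indRHom_apply]
  have h1 : indR U M₀ u = indR U M₀ 1 :=
    indR_congr U M₀ (by rw [(QuotientGroup.eq_one_iff u).2 hu]; rfl)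
  rw [F.map_congr (A := indRep U M₀) (B := indRep U M₀) (h1.trans (indR_one U M₀)) _
    (isEquivariant_id _), F.map_id]
  rfl

/-- the representation of `G ⧸ U` on `F (Ind_U M₀)` by right translations -/
def indRRep : Representation k (G ⧸ U) (F.obj (indRep U M₀)) :=
  QuotientGroup.lift U (F.indRHom U M₀) (F.le_ker_indRHom U M₀)

lemma indRRep_mk (σ : G) :
    F.indRRep U M₀ (σ : G ⧸ U) = F.map (A := indRep U M₀) (B := indRep U M₀) (indR U M₀ σ)
      (indR_equivariant U M₀ σ) := rfl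

/-- `F (Ind_U M₀)` as a bundled finite-dimensional representation of `G ⧸ U` -/
def indRData (hfin : Module.Finite k (F.obj (indRep U M₀))) : FDRepData k (G ⧸ U) where
  V := F.obj (indRep U M₀)
  fin := hfin
  ρ := F.indRRep U M₀

end LinFun

/-! ### the additive invariant `A ↦ dim ker (M ⊗ σ − 1 | A^J)` -/

section DimFixInv

variable {Γ : Type} [Group Γ] {J : Type} [Fintype J] [DecidableEq J]

/-- `A ↦ dim ker (M ⊗ A.ρ σ − 1)` -/
def dimFixInv (M : Matrix J J k) (σ : Γ) : RepInv k Γ := fun A => (dimFix M (A.ρ σ) : ℤ)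

lemma compLeft_injective {V W : Type} [AddCommGroup V] [Module k V] [AddCommGroup W]
    [Module k W] (i : V →ₗ[k] W) (hi : Function.Injective i) :
    Function.Injective (i.compLeft J) := by
  intro x y hxy
  funext j
  exact hi (congrFun hxy j)

lemma compLeft_surjective {V W : Type} [AddCommGroup V] [Module k V] [AddCommGroup W]
    [Module k W] (q : V →ₗ[k] W) (hq : Function.Surjective q) :
    Function.Surjective (q.compLeft J) := by
  intro y
  choose x hx using fun j => hq (y j)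
  exact ⟨x, funext hx⟩

lemma compLeft_exact {V₁ V₂ V₃ : Type} [AddCommGroup V₁] [Module k V₁] [AddCommGroup V₂]
    [Module k V₂] [AddCommGroup V₃] [Module k V₃] (i : V₁ →ₗ[k] V₂) (q : V₂ →ₗ[k] V₃)
    (h : LinearMap.range i = LinearMap.ker q) :
    LinearMap.range (i.compLeft J) = LinearMap.ker (q.compLeft J) := by
  ext y
  constructor
  · rintro ⟨x, rfl⟩
    rw [LinearMap.mem_ker]
    funext j
    have : i (x j) ∈ LinearMap.ker q := by rw [← h]; exact ⟨x j, rfl⟩
    exact this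
  · intro hy
    rw [LinearMap.mem_ker] at hy
    have hj : ∀ j, y j ∈ LinearMap.range i := by
      intro j
      rw [h, LinearMap.mem_ker]
      exact congrFun hy j
    choose x hx using hj
    exact ⟨x, funext hx⟩

theorem dimFixInv_additive (M : Matrix J J k) (σ : Γ) (n : ℕ) (hn : (n : k) ≠ 0)
    (hM : M ^ n = 1) (hσ : σ ^ n = 1) : IsAdditiveInv (dimFixInv (k := k) M σ) := by
  intro A B C i q hE
  have hB : (matOp M (B.ρ σ)) ^ n = 1 := by
    apply matOp_pow_eq_one M _ n hM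
    rw [← map_pow, hσ, map_one]
  have key := finrank_ker_sub_one_of_exact (k := k) (i.compLeft J) (q.compLeft J)
    (compLeft_injective i hE.inj) (compLeft_surjective q hE.surj) (compLeft_exact i q hE.exact)
    (matOp M (A.ρ σ)) (matOp M (B.ρ σ)) (matOp M (C.ρ σ))
    (fun x => matOp_natural M (A.ρ σ) (B.ρ σ) i (fun a => hE.equivar_i σ a) x)
    (fun x => matOp_natural M (B.ρ σ) (C.ρ σ) q (fun a => hE.equivar_q σ a) x)
    n hn hB
  unfold dimFixInv dimFix
  rw [key]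
  push_cast
  ring

end DimFixInv

/-! ### `CharpolyId` + `Euler.key` ⇒ `φ (ker (M ⊗ R_σ − 1)) = 0` -/

section Key

variable (U : Subgroup G) [U.Normal] (M₀ : Rep.{0, 0, 0} k G)

lemma indR_pow (σ : G) (n : ℕ) : (indR U M₀ σ) ^ n = indR U M₀ (σ ^ n) := by
  induction n with
  | zero =>
    rw [pow_zero, pow_zero, indR_one]
    rfl
  | succ n ih =>
    rw [pow_succ, pow_succ, indR_mul, ih]
    rfl

lemma indR_pow_eq_one (σ : G) (n : ℕ) (hσ : (σ : G ⧸ U) ^ n = 1) :
    (indR U M₀ σ) ^ n = 1 := by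
  rw [indR_pow]
  have h1 : indR U M₀ (σ ^ n) = indR U M₀ 1 := indR_congr U M₀ (by
    rw [QuotientGroup.mk_pow, hσ]
    rfl)
  rw [h1, indR_one]
  rfl

end Key


end Fermat.Agent.S56.H614

end

end
-- ===== PACK-END S56/H614/Red1.lean

-- ===== PACK-BEGIN S56/H614/Red2.lean
section


/-!
# S56 / W-BASE / EUL-RED, part 6 (helper614): `CharpolyId` + `Euler.key` ⇒
`φ (ker (M ⊗ R_σ − 1)) = 0`
-/

set_option autoImplicit false
set_option linter.unusedSectionVars false

open Polynomial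

noncomputable section

namespace Fermat.Agent.S56.H614

open Fermat.Agent.S55.PT Fermat.Agent.S56.H419 Fermat.Agent.S56.Euler groupCohomology Module

variable {k : Type} [Field k] {G : Type} [Group G]



section Main

variable (p : ℕ) [Fact p.Prime] {G : Type} [Group G] (L : LevelSys G) (c : G)
  (U : Subgroup G) [U.Normal] [U.FiniteIndex] (M₀ : Rep.{0, 0, 0} (ZMod p) G)

/-- the four `G ⧸ U`-modules `H⁰, H¹, H², (·)^{c=-1}` of `Ind_U M₀` -/
def fourData (h0 : Module.Finite (ZMod p) ↥(LevelSys.H0 (indRep U M₀)))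
    (h1 : Module.Finite (ZMod p) (L.H1 (indRep U M₀)))
    (h2 : Module.Finite (ZMod p) (L.H2 (indRep U M₀)))
    (h3 : Module.Finite (ZMod p) ↥(minusPart c (indRep U M₀))) :
    Fin 4 → FDRepData (ZMod p) (G ⧸ U) :=
  ![(H0F (k := ZMod p) (G := G)).indRData U M₀ h0, (H1F (k := ZMod p) L).indRData U M₀ h1,
    (H2F (k := ZMod p) L).indRData U M₀ h2, (minusF (k := ZMod p) c).indRData U M₀ h3]

variable {p L c U M₀}

lemma charpoly_fourData (h0 : Module.Finite (ZMod p) ↥(LevelSys.H0 (indRep U M₀)))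
    (h1 : Module.Finite (ZMod p) (L.H1 (indRep U M₀)))
    (h2 : Module.Finite (ZMod p) (L.H2 (indRep U M₀)))
    (h3 : Module.Finite (ZMod p) ↥(minusPart c (indRep U M₀)))
    (hX : Module.Finite (ZMod p) (indRep U M₀)) (τ : G)
    (hid : CharpolyId L c (indRep U M₀) (indR U M₀ τ) (indR_equivariant U M₀ τ)) :
    ∏ i, LinearMap.charpoly ((fourData p L c U M₀ h0 h1 h2 h3 i).ρ (τ : G ⧸ U)) ^
        ((![0, 1, 0, 0] : Fin 4 → ℕ) i) =
      ∏ i, LinearMap.charpoly ((fourData p L c U M₀ h0 h1 h2 h3 i).ρ (τ : G ⧸ U)) ^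
        ((![1, 0, 1, 1] : Fin 4 → ℕ) i) := by
  have hid' := hid hX h1 h2
  rw [Fin.prod_univ_four, Fin.prod_univ_four]
  have e0 : LinearMap.charpoly ((fourData p L c U M₀ h0 h1 h2 h3 0).ρ (τ : G ⧸ U)) =
      LinearMap.charpoly (pushH0 (A := indRep U M₀) (B := indRep U M₀) (indR U M₀ τ)
        (indR_equivariant U M₀ τ)) := rfl
  have e1 : LinearMap.charpoly ((fourData p L c U M₀ h0 h1 h2 h3 1).ρ (τ : G ⧸ U)) =
      LinearMap.charpoly (pushH1 (A := indRep U M₀) (B := indRep U M₀) (indR U M₀ τ)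
        (indR_equivariant U M₀ τ) L) := rfl
  have e2 : LinearMap.charpoly ((fourData p L c U M₀ h0 h1 h2 h3 2).ρ (τ : G ⧸ U)) =
      LinearMap.charpoly (pushH2 (A := indRep U M₀) (B := indRep U M₀) (indR U M₀ τ)
        (indR_equivariant U M₀ τ) L) := rfl
  have e3 : LinearMap.charpoly ((fourData p L c U M₀ h0 h1 h2 h3 3).ρ (τ : G ⧸ U)) =
      LinearMap.charpoly (minusMap (A := indRep U M₀) (B := indRep U M₀) c (indR U M₀ τ)
        (indR_equivariant U M₀ τ)) := rfl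
  rw [e0, e1, e2, e3]
  have n0 : (![0, 1, 0, 0] : Fin 4 → ℕ) 0 = 0 := rfl
  have n1 : (![0, 1, 0, 0] : Fin 4 → ℕ) 1 = 1 := rfl
  have n2 : (![0, 1, 0, 0] : Fin 4 → ℕ) 2 = 0 := rfl
  have n3 : (![0, 1, 0, 0] : Fin 4 → ℕ) 3 = 0 := rfl
  have m0 : (![1, 0, 1, 1] : Fin 4 → ℕ) 0 = 1 := rfl
  have m1 : (![1, 0, 1, 1] : Fin 4 → ℕ) 1 = 0 := rfl
  have m2 : (![1, 0, 1, 1] : Fin 4 → ℕ) 2 = 1 := rfl
  have m3 : (![1, 0, 1, 1] : Fin 4 → ℕ) 3 = 1 := rfl
  rw [n0, n1, n2, n3, m0, m1, m2, m3]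
  simp only [pow_zero, pow_one, one_mul, mul_one]
  exact hid'

/-- **`CharpolyId` for all `p`-regular elements ⇒ `φ (ker (M ⊗ R_σ − 1)) = 0`.** -/
theorem phi_kerRep_eq_zero [Module.Finite (ZMod p) M₀]
    (h1 : Module.Finite (ZMod p) (L.H1 (indRep U M₀)))
    (h2 : Module.Finite (ZMod p) (L.H2 (indRep U M₀)))
    (hId : ∀ σ : G, ¬ p ∣ orderOf (σ : G ⧸ U) →
      CharpolyId L c (indRep U M₀) (indR U M₀ σ) (indR_equivariant U M₀ σ))
    {J : Type} [Fintype J] [DecidableEq J] (M : Matrix J J (ZMod p)) (σ : G) (n : ℕ)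
    (hn : ¬ p ∣ n) (hM : M ^ n = 1) (hσ : (σ : G ⧸ U) ^ n = 1) :
    phi L c (kerRep (A := piRep J (indRep U M₀)) (B := piRep J (indRep U M₀))
      (matOp M (indR U M₀ σ) - 1)
      (isEquivariant_sub (A := piRep J (indRep U M₀)) (B := piRep J (indRep U M₀))
        (matOp_equivariant J M (indR_equivariant U M₀ σ)) (isEquivariant_one _))) = 0 := by
  classical
  have hn' : ((n : ℕ) : ZMod p) ≠ 0 := by
    rw [Ne, ZMod.natCast_eq_zero_iff]
    exact hn
  have : Finite (G ⧸ U) := Subgroup.finite_quotient_of_finiteIndex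
  have : Fintype (G ⧸ U) := Fintype.ofFinite _
  have hX : Module.Finite (ZMod p) (indRep U M₀) :=
    inferInstanceAs (Module.Finite (ZMod p) ((G ⧸ U) →₀ M₀))
  have h0 : Module.Finite (ZMod p) ↥(LevelSys.H0 (indRep U M₀)) := inferInstance
  have h3 : Module.Finite (ZMod p) ↥(minusPart c (indRep U M₀)) := inferInstance
  have hkey := key p (G ⧸ U) (Fin 4) (fourData p L c U M₀ h0 h1 h2 h3) ![0, 1, 0, 0]
    ![1, 0, 1, 1]
    (fun g hg => by
      obtain ⟨τ, rfl⟩ := QuotientGroup.mk_surjective g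
      exact charpoly_fourData h0 h1 h2 h3 hX τ (hId τ hg))
    (dimFixInv (k := ZMod p) M (σ : G ⧸ U)) (dimFixInv_additive M _ n hn' hM hσ)
  rw [Fin.sum_univ_four, Fin.sum_univ_four] at hkey
  have n0 : (![0, 1, 0, 0] : Fin 4 → ℕ) 0 = 0 := rfl
  have n1 : (![0, 1, 0, 0] : Fin 4 → ℕ) 1 = 1 := rfl
  have n2 : (![0, 1, 0, 0] : Fin 4 → ℕ) 2 = 0 := rfl
  have n3 : (![0, 1, 0, 0] : Fin 4 → ℕ) 3 = 0 := rfl
  have m0 : (![1, 0, 1, 1] : Fin 4 → ℕ) 0 = 1 := rfl
  have m1 : (![1, 0, 1, 1] : Fin 4 → ℕ) 1 = 0 := rfl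
  have m2 : (![1, 0, 1, 1] : Fin 4 → ℕ) 2 = 1 := rfl
  have m3 : (![1, 0, 1, 1] : Fin 4 → ℕ) 3 = 1 := rfl
  rw [n0, n1, n2, n3, m0, m1, m2, m3] at hkey
  have e0 : dimFixInv (k := ZMod p) M (σ : G ⧸ U) (fourData p L c U M₀ h0 h1 h2 h3 0) =
      (dimFix M (pushH0 (A := indRep U M₀) (B := indRep U M₀) (indR U M₀ σ)
        (indR_equivariant U M₀ σ)) : ℤ) := rfl
  have e1 : dimFixInv (k := ZMod p) M (σ : G ⧸ U) (fourData p L c U M₀ h0 h1 h2 h3 1) =
      (dimFix M (pushH1 (A := indRep U M₀) (B := indRep U M₀) (indR U M₀ σ)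
        (indR_equivariant U M₀ σ) L) : ℤ) := rfl
  have e2 : dimFixInv (k := ZMod p) M (σ : G ⧸ U) (fourData p L c U M₀ h0 h1 h2 h3 2) =
      (dimFix M (pushH2 (A := indRep U M₀) (B := indRep U M₀) (indR U M₀ σ)
        (indR_equivariant U M₀ σ) L) : ℤ) := rfl
  have e3 : dimFixInv (k := ZMod p) M (σ : G ⧸ U) (fourData p L c U M₀ h0 h1 h2 h3 3) =
      (dimFix M (minusMap (A := indRep U M₀) (B := indRep U M₀) c (indR U M₀ σ)
        (indR_equivariant U M₀ σ)) : ℤ) := rfl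
  rw [e0, e1, e2, e3] at hkey
  have hphi := phi_kerRep_matOp (X := indRep U M₀) L c M (indR U M₀ σ)
    (indR_equivariant U M₀ σ) n hn' hM (indR_pow_eq_one U M₀ σ n hσ)
  rw [hphi]
  push_cast at hkey
  linarith

end Main

end Fermat.Agent.S56.H614

end

end
-- ===== PACK-END S56/H614/Red2.lean

-- ===== PACK-BEGIN S56/H314/LemmaA.lean
section


/-!
# S56 / W-BASE / EUL-RED: Lemma A (projection formula), helper314

`theorem lemmaA : H614.LemmaAStatement` (VERBATIM, frozen in `H614/RedSpec.lean`).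

`Γ = G ⧸ U`, `B = ⟨σ̄⟩`.  The map `a ↦ (j ↦ x ↦ b.coord j (χ(x) • x⁻¹ • a (x B)))` is a
`G`-equivariant linear equivalence `(Γ ⧸ B →₀ W) ≃ ker (M ⊗ R_σ − 1) ⊆ (Ind_U χ)^J`, where `M` is
the matrix of `χ(σ)⁻¹ • σ̄` on `W`.  In terms of `Z(x) = ∑ j, z j x • b j` the kernel condition
reads `χ(σ)⁻¹ • σ̄ • Z(x σ̄) = Z(x)`, i.e. `x ↦ χ(x)⁻¹ • x • Z(x)` is right `B`-invariant.
-/

set_option autoImplicit false
set_option linter.unusedSectionVars false

noncomputable section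

namespace Fermat.Agent.S56.H314

open Fermat.Agent.S55.PT Fermat.Agent.S56.H419 Fermat.Agent.S56.Euler Fermat.Agent.S56.H614 Module
  groupCohomology

section LemmaA

variable {k : Type} [Field k] {G : Type} [Group G] (U : Subgroup G) [U.Normal] [U.FiniteIndex]
  (χ : G →* kˣ) (hχ : ∀ u ∈ U, χ u = 1) (σ : G) (W : FDRepData k (G ⧸ U))
  {J : Type} [Fintype J] [DecidableEq J] (b : Basis J k W.V)

/-- the character of `G ⧸ U` induced by `χ`. -/
def laChar : (G ⧸ U) →* kˣ := QuotientGroup.lift U χ (fun u hu => hχ u hu)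

lemma laChar_mk (g : G) : laChar U χ hχ (g : G ⧸ U) = χ g := rfl

/-- the function `x ↦ χ(x) • x⁻¹ • a (x B)`. -/
def laFun (a : ((G ⧸ U) ⧸ Subgroup.zpowers (σ : G ⧸ U)) →₀ W.V) (x : G ⧸ U) : W.V :=
  ((laChar U χ hχ x : kˣ) : k) • W.ρ x⁻¹ (a (x : (G ⧸ U) ⧸ Subgroup.zpowers (σ : G ⧸ U)))

/-- the forward map of Lemma A. -/
def laFwd : (((G ⧸ U) ⧸ Subgroup.zpowers (σ : G ⧸ U)) →₀ W.V) →ₗ[k] (J → ((G ⧸ U) →₀ k)) where
  toFun a := fun j => Finsupp.equivFunOnFinite.symm (fun x => b.coord j (laFun U χ hχ σ W a x))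
  map_add' a a' := by
    funext j
    ext x
    simp [laFun]
  map_smul' c a := by
    funext j
    ext x
    simp [laFun]
    ring

lemma laFwd_apply (a : ((G ⧸ U) ⧸ Subgroup.zpowers (σ : G ⧸ U)) →₀ W.V) (j : J) (x : G ⧸ U) :
    laFwd U χ hχ σ W b a j x = b.coord j (laFun U χ hχ σ W a x) := rfl

/-- the twisted operator `A = χ(σ)⁻¹ • σ̄` on `W`. -/
def laOp : W.V →ₗ[k] W.V := (((χ σ)⁻¹ : kˣ) : k) • W.ρ (σ : G ⧸ U)

lemma mk_mul_sigma (x : G ⧸ U) :
    ((x * (σ : G ⧸ U) : G ⧸ U) : (G ⧸ U) ⧸ Subgroup.zpowers (σ : G ⧸ U)) =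
      (x : (G ⧸ U) ⧸ Subgroup.zpowers (σ : G ⧸ U)) := by
  rw [QuotientGroup.eq]
  simp

lemma laOp_laFun (a : ((G ⧸ U) ⧸ Subgroup.zpowers (σ : G ⧸ U)) →₀ W.V) (x : G ⧸ U) :
    laOp U χ σ W (laFun U χ hχ σ W a (x * (σ : G ⧸ U))) = laFun U χ hχ σ W a x := by
  unfold laOp laFun
  rw [mk_mul_sigma, map_mul, laChar_mk, LinearMap.smul_apply, map_smul, smul_smul, mul_inv_rev,
    map_mul, ← LinearMap.comp_apply, ← Module.End.mul_eq_comp, ← mul_assoc, ← map_mul,
    mul_inv_cancel, map_one, one_mul]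
  congr 1
  rw [mul_comm, ← Units.val_mul, mul_assoc, mul_inv_cancel, mul_one]

/-- the kernel condition in coordinates. -/
lemma mem_ker_matOp_iff (z : J → ((G ⧸ U) →₀ k)) :
    z ∈ LinearMap.ker (matOp
            (LinearMap.toMatrix b b ((((χ σ)⁻¹ : kˣ) : k) • W.ρ (σ : G ⧸ U)))
            (indR U (ofChar χ) σ) - 1) ↔
      ∀ x : G ⧸ U, laOp U χ σ W (b.equivFun.symm (fun j => z j (x * (σ : G ⧸ U)))) =
        b.equivFun.symm (fun j => z j x) := by
  have key : ∀ (x : G ⧸ U) (i : J),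
      b.equivFun (laOp U χ σ W (b.equivFun.symm (fun j => z j (x * (σ : G ⧸ U))))) i =
        (matOp (LinearMap.toMatrix b b ((((χ σ)⁻¹ : kˣ) : k) • W.ρ (σ : G ⧸ U)))
            (indR U (ofChar χ) σ) z i : (G ⧸ U) →₀ k) x := by
    intro x i
    rw [matOp_apply, Finsupp.finsetSum_apply, Basis.equivFun_apply,
      ← LinearMap.toMatrix_mulVec_repr b b]
    rw [Matrix.mulVec, dotProduct]
    refine Finset.sum_congr rfl fun j _ => ?_
    rw [Finsupp.smul_apply, indR_apply, ← Basis.equivFun_apply, LinearEquiv.apply_symm_apply]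
    rfl
  rw [LinearMap.mem_ker, LinearMap.sub_apply, Module.End.one_apply, sub_eq_zero]
  constructor
  · intro h x
    apply b.equivFun.injective
    funext i
    rw [key, h, LinearEquiv.apply_symm_apply]
  · intro h
    funext i
    ext x
    rw [← key, h, LinearEquiv.apply_symm_apply]

lemma equivFun_symm_laFwd (a : ((G ⧸ U) ⧸ Subgroup.zpowers (σ : G ⧸ U)) →₀ W.V) (x : G ⧸ U) :
    b.equivFun.symm (fun j => laFwd U χ hχ σ W b a j x) = laFun U χ hχ σ W a x := by
  apply b.equivFun.injective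
  rw [LinearEquiv.apply_symm_apply]
  funext j
  rw [laFwd_apply, Basis.equivFun_apply]
  rfl

lemma laFwd_mem_ker (a : ((G ⧸ U) ⧸ Subgroup.zpowers (σ : G ⧸ U)) →₀ W.V) :
    laFwd U χ hχ σ W b a ∈ LinearMap.ker (matOp
            (LinearMap.toMatrix b b ((((χ σ)⁻¹ : kˣ) : k) • W.ρ (σ : G ⧸ U)))
            (indR U (ofChar χ) σ) - 1) := by
  rw [mem_ker_matOp_iff]
  intro x
  rw [equivFun_symm_laFwd, equivFun_symm_laFwd, laOp_laFun]

lemma laFwd_injective : Function.Injective (laFwd U χ hχ σ W b) := by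
  rw [← LinearMap.ker_eq_bot, LinearMap.ker_eq_bot']
  intro a ha
  ext y
  induction y using QuotientGroup.induction_on with
  | H x =>
    have h1 : laFun U χ hχ σ W a x = 0 := by
      rw [← equivFun_symm_laFwd U χ hχ σ W b a x, ha]
      simp
    unfold laFun at h1
    rw [smul_eq_zero] at h1
    rcases h1 with h1 | h1
    · exact absurd h1 (Units.ne_zero _)
    · have h2 := congrArg (W.ρ x) h1
      rw [← LinearMap.comp_apply, ← Module.End.mul_eq_comp, ← map_mul, mul_inv_cancel, map_one,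
        Module.End.one_apply, map_zero] at h2
      rw [h2]
      rfl

/-- the function `x ↦ χ(x)⁻¹ • x • Z(x)` attached to `z`. -/
def laBack (z : J → ((G ⧸ U) →₀ k)) (x : G ⧸ U) : W.V :=
  (((laChar U χ hχ x)⁻¹ : kˣ) : k) • W.ρ x (b.equivFun.symm (fun j => z j x))

lemma laBack_mul_sigma (z : J → ((G ⧸ U) →₀ k))
    (hz : ∀ x : G ⧸ U, laOp U χ σ W (b.equivFun.symm (fun j => z j (x * (σ : G ⧸ U)))) =
        b.equivFun.symm (fun j => z j x)) (x : G ⧸ U) :
    laBack U χ hχ W b z (x * (σ : G ⧸ U)) = laBack U χ hχ W b z x := by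
  unfold laBack
  rw [← hz x]
  unfold laOp
  have h1 : W.ρ (x * (σ : G ⧸ U)) = W.ρ x * W.ρ (σ : G ⧸ U) := map_mul _ _ _
  have h2 : laChar U χ hχ (x * (σ : G ⧸ U)) = laChar U χ hχ x * χ σ := by
    rw [map_mul, laChar_mk]
  rw [h1, h2, Module.End.mul_apply, LinearMap.smul_apply, map_smul, smul_smul, mul_inv_rev,
    Units.val_mul, mul_comm]

lemma laBack_mul_zpow (z : J → ((G ⧸ U) →₀ k))
    (hz : ∀ x : G ⧸ U, laOp U χ σ W (b.equivFun.symm (fun j => z j (x * (σ : G ⧸ U)))) =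
        b.equivFun.symm (fun j => z j x)) (n : ℤ) (x : G ⧸ U) :
    laBack U χ hχ W b z (x * (σ : G ⧸ U) ^ n) = laBack U χ hχ W b z x := by
  induction n using Int.induction_on generalizing x with
  | zero => simp
  | succ n ih =>
    rw [zpow_add_one, ← mul_assoc, laBack_mul_sigma U χ hχ σ W b z hz, ih]
  | pred n ih =>
    rw [← laBack_mul_sigma U χ hχ σ W b z hz (x * (σ : G ⧸ U) ^ (-(n : ℤ) - 1)), mul_assoc,
      ← zpow_add_one, sub_add_cancel, ih]

lemma laBack_out (z : J → ((G ⧸ U) →₀ k))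
    (hz : ∀ x : G ⧸ U, laOp U χ σ W (b.equivFun.symm (fun j => z j (x * (σ : G ⧸ U)))) =
        b.equivFun.symm (fun j => z j x)) (x : G ⧸ U) :
    laBack U χ hχ W b z (x : (G ⧸ U) ⧸ Subgroup.zpowers (σ : G ⧸ U)).out =
      laBack U χ hχ W b z x := by
  obtain ⟨⟨h, hh⟩, hx⟩ := QuotientGroup.mk_out_eq_mul (Subgroup.zpowers (σ : G ⧸ U)) x
  obtain ⟨n, rfl⟩ := Subgroup.mem_zpowers_iff.1 hh
  rw [hx]
  exact laBack_mul_zpow U χ hχ σ W b z hz n x

lemma laFwd_surjective (z : J → ((G ⧸ U) →₀ k))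
    (hz : z ∈ LinearMap.ker (matOp
            (LinearMap.toMatrix b b ((((χ σ)⁻¹ : kˣ) : k) • W.ρ (σ : G ⧸ U)))
            (indR U (ofChar χ) σ) - 1)) :
    ∃ a, laFwd U χ hχ σ W b a = z := by
  rw [mem_ker_matOp_iff] at hz
  refine ⟨Finsupp.equivFunOnFinite.symm (fun y => laBack U χ hχ W b z y.out), ?_⟩
  funext j
  ext x
  rw [laFwd_apply]
  unfold laFun
  have h0 : (Finsupp.equivFunOnFinite.symm
      (fun y : (G ⧸ U) ⧸ Subgroup.zpowers (σ : G ⧸ U) => laBack U χ hχ W b z y.out))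
      (x : (G ⧸ U) ⧸ Subgroup.zpowers (σ : G ⧸ U)) =
      laBack U χ hχ W b z (x : (G ⧸ U) ⧸ Subgroup.zpowers (σ : G ⧸ U)).out := rfl
  rw [h0, laBack_out U χ hχ σ W b z hz x]
  unfold laBack
  have hw : ∀ w : W.V, ((laChar U χ hχ x : kˣ) : k) •
      W.ρ x⁻¹ ((((laChar U χ hχ x)⁻¹ : kˣ) : k) • W.ρ x w) = w := by
    intro w
    rw [map_smul, smul_smul, ← Units.val_mul, mul_inv_cancel, Units.val_one, one_smul,
      ← Module.End.mul_apply, ← map_mul, inv_mul_cancel, map_one, Module.End.one_apply]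
  rw [hw]
  show b.equivFun (b.equivFun.symm fun j => z j x) j = z j x
  rw [LinearEquiv.apply_symm_apply]

/-- the equivalence of Lemma A. -/
def laEquiv : (((G ⧸ U) ⧸ Subgroup.zpowers (σ : G ⧸ U)) →₀ W.V) ≃ₗ[k]
          ↥(LinearMap.ker (matOp
            (LinearMap.toMatrix b b ((((χ σ)⁻¹ : kˣ) : k) • W.ρ (σ : G ⧸ U)))
            (indR U (ofChar χ) σ) - 1)) :=
  LinearEquiv.ofBijective
    (LinearMap.codRestrict _ (laFwd U χ hχ σ W b) (laFwd_mem_ker U χ hχ σ W b))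
    ⟨fun a a' h => laFwd_injective U χ hχ σ W b (congrArg Subtype.val h),
      fun z => by
        obtain ⟨a, ha⟩ := laFwd_surjective U χ hχ σ W b z.1 z.2
        exact ⟨a, Subtype.ext ha⟩⟩

lemma laEquiv_coe (a : ((G ⧸ U) ⧸ Subgroup.zpowers (σ : G ⧸ U)) →₀ W.V) :
    ((laEquiv U χ hχ σ W b a : ↥(LinearMap.ker (matOp
            (LinearMap.toMatrix b b ((((χ σ)⁻¹ : kˣ) : k) • W.ρ (σ : G ⧸ U)))
            (indR U (ofChar χ) σ) - 1))) : J → ((G ⧸ U) →₀ k)) = laFwd U χ hχ σ W b a := rfl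

lemma diagRho_eval {Γ X N : Type} [Group Γ] [MulAction Γ X] [AddCommGroup N] [Module k N]
    (ρ : Representation k Γ N) (g : Γ) (a : X →₀ N) (y : X) :
    diagRho X ρ g a y = ρ g (a (g⁻¹ • y)) := by
  rw [diagRho_apply, permTensor, LinearMap.comp_apply, Finsupp.lmapDomain_apply,
    Finsupp.mapRange.linearMap_apply]
  conv_lhs => rw [← smul_inv_smul g y]
  rw [Finsupp.mapDomain_apply (MulAction.injective g), Finsupp.mapRange_apply]

lemma indRep_eval (M : Rep.{0, 0, 0} k G) (g : G) (a : (G ⧸ U) →₀ M) (x : G ⧸ U) :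
    ((indRep U M).ρ g a : (G ⧸ U) →₀ M) x = M.ρ g (a (g⁻¹ • x)) := by
  conv_lhs => rw [← smul_inv_smul g x]
  exact indRep_ρ_apply U M g a (g⁻¹ • x)

lemma laFwd_equivariant (g : G) (a : ((G ⧸ U) ⧸ Subgroup.zpowers (σ : G ⧸ U)) →₀ W.V) :
    laFwd U χ hχ σ W b
        (diagRho ((G ⧸ U) ⧸ Subgroup.zpowers (σ : G ⧸ U)) W.ρ (g : G ⧸ U) a) =
      (piRep J (indRep U (ofChar χ))).ρ g (laFwd U χ hχ σ W b a) := by
  funext j
  ext x
  rw [piRep_ρ_apply, indRep_eval, ofChar_ρ_apply, laFwd_apply, laFwd_apply]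
  unfold laFun
  rw [diagRho_eval, smul_eq_mk_mul U g⁻¹ x]
  have h1 : ((g : G ⧸ U))⁻¹ • (x : (G ⧸ U) ⧸ Subgroup.zpowers (σ : G ⧸ U)) =
      ((((g⁻¹ : G) : G ⧸ U) * x : G ⧸ U) : (G ⧸ U) ⧸ Subgroup.zpowers (σ : G ⧸ U)) := rfl
  have h2 : ∀ w : W.V, W.ρ x⁻¹ (W.ρ (g : G ⧸ U) w) = W.ρ (((g⁻¹ : G) : G ⧸ U) * x)⁻¹ w := by
    intro w
    rw [← Module.End.mul_apply, ← map_mul]
    congr 2
    rw [mul_inv_rev, QuotientGroup.mk_inv, inv_inv]
  have h3 : ((χ g : kˣ) : k) * ((laChar U χ hχ (((g⁻¹ : G) : G ⧸ U) * x) : kˣ) : k) =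
      ((laChar U χ hχ x : kˣ) : k) := by
    rw [map_mul, laChar_mk, map_inv, Units.val_mul, ← mul_assoc, ← Units.val_mul, mul_inv_cancel,
      Units.val_one, one_mul]
  rw [h1, h2, LinearMap.map_smul, LinearMap.map_smul, smul_eq_mul, smul_eq_mul, ← mul_assoc, h3]

theorem lemmaA : LemmaAStatement := by
  intro k _ G _ U _ _ χ hχ σ W J _ _ b
  exact ⟨laEquiv U χ hχ σ W b, fun g a => laFwd_equivariant U χ hχ σ W b g a⟩

end LemmaA

end Fermat.Agent.S56.H314

end

end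
-- ===== PACK-END S56/H314/LemmaA.lean

-- ===== PACK-BEGIN S55/K/FinH541.lean
section
/-
S55 moonshot — LAYER K, leaf K-FIN (helper541).

`finE_of : KummerSpec p S → FinESpec p S`

Route (no Dirichlet unit theorem, no class group): Kummer theory + finiteness of `Z¹_S(Ind_V μ_p)`
(`PT.H593.finite_Z1`, unconditional on main).  `M = Ind_V μ ⊂ E = Ind_V 𝔼`, `ι = indMuToE`.

* Part 2 (`H¹_S(E)[p]` finite): `z ∈ Z¹_LC(E)`, `p z = d e` ⇒ `e` is smooth ⇒ (KUM) `e = p ẽ` ⇒
  `z - d ẽ` is killed by `p`, hence `= ι ∘ c` with `c ∈ Z¹_LC(M)`;  `T := {ι ∘ c}`.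
* Part 1 (`E^Γ / p` finite): `e ∈ E^Γ` ⇒ (KUM) `e = p ỹ` ⇒ `d ỹ = ι ∘ c`, `c ∈ Z¹_LC(M)`; two
  invariants with the same `c` differ by `p ·` (an invariant);  `T := {p ỹ_c}`.
-/




set_option autoImplicit false
set_option linter.style.haveILetI false

noncomputable section

namespace Fermat.Agent.S55.K.H541

open groupCohomology Fermat.Agent.S55.PT Fermat.Agent.S55.Bridge Fermat.Agent.S55.K

/-! ### 1. Abstract part -/

section Abstract

variable {G : Type} [Group G] {L : LevelSys G}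
variable {k k' : Type} [CommRing k] [CommRing k']
variable {M : Rep.{0, 0, 0} k G} {E : Rep.{0, 0, 0} k' G}

/-- `d e` is level-constant if `e` is fixed by a level. -/
lemma d01_isLC (e : E) (he : H397.Sm L E e) : L.IsLC₁ ((d₀₁ E).hom e) := by
  obtain ⟨W, hW, h⟩ := he
  refine ⟨W, hW, fun g s hs => ?_⟩
  simp only [d₀₁_hom_apply]
  rw [map_mul, Module.End.mul_apply, h s hs]

/-- `d e` is a cocycle. -/
lemma d01_mem_cocycles₁ (e : E) : (d₀₁ E).hom e ∈ cocycles₁ E := by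
  rw [mem_cocycles₁_iff]
  intro g h
  simp only [d₀₁_hom_apply, map_mul, Module.End.mul_apply, map_sub]
  abel

/-- A level-constant cocycle of `E` killed by `p` comes from a level-constant cocycle of `M`. -/
lemma exists_lift_Z1 (p : ℕ) (ι : M →+ E) (hinj : Function.Injective ι)
    (heq : ∀ g m, ι (M.ρ g m) = E.ρ g (ι m))
    (htors : ∀ e : E, p • e = 0 → ∃ m, ι m = e)
    (κ : G → E) (hκ : κ ∈ cocycles₁ E) (hlc : L.IsLC₁ κ) (hp : ∀ g, p • κ g = 0) :
    ∃ c : ↥(L.Z1 M), ∀ g, ι ((c : G → M) g) = κ g := by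
  choose m hm using fun g => htors (κ g) (hp g)
  have hcoc : m ∈ cocycles₁ M := by
    rw [mem_cocycles₁_iff]
    intro g h
    apply hinj
    rw [map_add, heq, hm, hm, hm]
    exact (mem_cocycles₁_iff κ).1 hκ g h
  have hmlc : L.IsLC₁ m := by
    obtain ⟨U, hU, h⟩ := hlc
    refine ⟨U, hU, fun g s hs => ?_⟩
    apply hinj
    rw [hm, hm, h g s hs]
  exact ⟨⟨m, hcoc, hmlc⟩, hm⟩

/-- **Abstract K-FIN.** -/
theorem finE_abstract (p : ℕ) (ι : M →+ E) (hinj : Function.Injective ι)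
    (heq : ∀ g m, ι (M.ρ g m) = E.ρ g (ι m))
    (htors : ∀ e : E, p • e = 0 → ∃ m, ι m = e)
    (hkum : ∀ x : E, H397.Sm L E x → ∃ y : E, p • y = x ∧ H397.Sm L E y)
    (hfin : Finite ↥(L.Z1 M)) :
    (∃ T : Finset E, ∀ e : E, (∀ g : G, E.ρ g e = e) →
        ∃ e' : E, (∀ g : G, E.ρ g e' = e') ∧ e - p • e' ∈ T) ∧
    (∃ T : Finset (G → E), ∀ z ∈ L.Z1 E, p • z ∈ LevelSys.B1 E →
        ∃ t ∈ T, z - t ∈ LevelSys.B1 E) := by
  classical
  haveI := hfin
  letI : Fintype ↥(L.Z1 M) := Fintype.ofFinite _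
  constructor
  · -- Part 1
    let P : ↥(L.Z1 M) → Prop := fun c => ∃ y : E, ∀ g, ι ((c : G → M) g) = E.ρ g y - y
    let Y : ↥(L.Z1 M) → E := fun c => if h : P c then Classical.choose h else 0
    have hY : ∀ c, P c → ∀ g, ι ((c : G → M) g) = E.ρ g (Y c) - Y c := by
      intro c hc
      have : Y c = Classical.choose hc := dif_pos hc
      rw [this]
      exact Classical.choose_spec hc
    refine ⟨Finset.univ.image (fun c => p • Y c), fun e he => ?_⟩
    obtain ⟨U, hU⟩ := L.nonempty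
    obtain ⟨y, hy, hysm⟩ := hkum e ⟨U, hU, fun s _ => he s⟩
    obtain ⟨c, hc⟩ := exists_lift_Z1 (L := L) p ι hinj heq htors ((d₀₁ E).hom y)
      (d01_mem_cocycles₁ y) (d01_isLC y hysm) (fun g => by
        simp only [d₀₁_hom_apply]
        rw [smul_sub, ← map_nsmul, hy, he g, sub_self])
    have hPc : P c := ⟨y, fun g => by rw [hc g, d₀₁_hom_apply]⟩
    refine ⟨y - Y c, fun g => ?_, ?_⟩
    · have h1 := hY c hPc g
      have h2 := hc g
      rw [d₀₁_hom_apply] at h2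
      have h3 : E.ρ g y - y = E.ρ g (Y c) - Y c := by rw [← h2, h1]
      rw [map_sub]
      have h4 : E.ρ g y - E.ρ g (Y c) - (y - Y c) = 0 := by
        have : E.ρ g y - E.ρ g (Y c) - (y - Y c) = (E.ρ g y - y) - (E.ρ g (Y c) - Y c) := by abel
        rw [this, h3, sub_self]
      exact sub_eq_zero.1 h4
    · have h5 : e - p • (y - Y c) = p • Y c := by
        rw [smul_sub, hy]
        abel
      rw [h5]
      exact Finset.mem_image_of_mem _ (Finset.mem_univ c)
  · -- Part 2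
    refine ⟨Finset.univ.image (fun c : ↥(L.Z1 M) => (fun g => ι ((c : G → M) g))),
      fun z hz hpz => ?_⟩
    obtain ⟨e, he⟩ := hpz
    have hzc : z ∈ cocycles₁ E := hz.1
    have hzlc : L.IsLC₁ z := hz.2
    have hz1 : z 1 = 0 := by
      have h := (mem_cocycles₁_iff z).1 hzc 1 1
      simpa using h
    have hesm : H397.Sm L E e := by
      obtain ⟨U, hU, h⟩ := hzlc
      refine ⟨U, hU, fun s hs => ?_⟩
      have h1 : z s = 0 := by
        have := h 1 s hs
        rwa [one_mul, hz1] at this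
      have h2 := congrFun he s
      rw [d₀₁_hom_apply, Pi.smul_apply, h1, smul_zero] at h2
      exact sub_eq_zero.1 h2
    obtain ⟨y, hy, hysm⟩ := hkum e hesm
    have hκc : z - (d₀₁ E).hom y ∈ cocycles₁ E :=
      Submodule.sub_mem _ hzc (d01_mem_cocycles₁ y)
    have hκlc : L.IsLC₁ (z - (d₀₁ E).hom y) :=
      (L.C1 E).sub_mem hzlc (d01_isLC y hysm)
    obtain ⟨c, hc⟩ := exists_lift_Z1 (L := L) p ι hinj heq htors (z - (d₀₁ E).hom y) hκc hκlc
      (fun g => by
        have h2 := congrFun he g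
        rw [d₀₁_hom_apply, Pi.smul_apply] at h2
        simp only [Pi.sub_apply, d₀₁_hom_apply]
        rw [smul_sub, ← h2, smul_sub, ← map_nsmul, hy, sub_self])
    refine ⟨fun g => ι ((c : G → M) g), Finset.mem_image_of_mem _ (Finset.mem_univ c), ?_⟩
    refine ⟨y, ?_⟩
    funext g
    rw [Pi.sub_apply, hc g, Pi.sub_apply]
    abel

end Abstract

/-! ### 2. The instance `M = Ind_V μ_p`, `E = Ind_V 𝔼` -/

section Final

variable (p : ℕ) [Fact p.Prime] (S : Finset Nat.Primes)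

/-- `Ind_V μ_p` is finite-dimensional for a level `V`. -/
lemma finiteDimensional_indMu {V : Subgroup PT.GQ} (hV : V ∈ (globalLevels S).levels) :
    FiniteDimensional (ZMod p) (indG V (muP p)) := by
  haveI : V.FiniteIndex := H424.globalFiniteIndex S V hV
  haveI : Finite (PT.GQ ⧸ V) := Subgroup.finite_quotient_of_finiteIndex
  haveI : Module.Finite (ZMod p) (MuP p) := Module.Finite.of_finite
  show Module.Finite (ZMod p) ((PT.GQ ⧸ V) →₀ MuP p)
  infer_instance

/-- `Ind_V μ_p` is fixed by an `S`-level if `p ∈ S`. -/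
lemma isUSmooth_indMu (hpS : ExtCitation.pPrime p ∈ S) {V : Subgroup PT.GQ}
    (hV : V ∈ (globalLevels S).levels) : (globalLevels S).IsUSmooth (indG V (muP p)) := by
  obtain ⟨W, hW, hfix⟩ := PT.H723.cycloLevelSpec p S hpS
  obtain ⟨U₁, hU₁, hle₁⟩ := (globalLevels S).directed W hW V hV
  obtain ⟨U, hU, hle, hn⟩ := globalLevels_normal_cofinal724 S U₁ hU₁
  refine ⟨U, hU, fun s hs a => ?_⟩
  have htriv : ∀ c : PT.GQ ⧸ V, s • c = c :=
    H397.smul_coset_of_normal hn (fun t ht => (hle₁ (hle ht)).2) s hs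
  have key : ∀ b : MuP p, muPRep p s b = b := fun b => by
    rw [muPRep_apply_smul, hfix s (hle₁ (hle hs)).1, Units.val_one, one_smul]
  obtain ⟨a', ha'⟩ : ∃ a' : (PT.GQ ⧸ V) →₀ MuP p, a' = a := ⟨a, rfl⟩
  show indρ (MonoidHom.id PT.GQ) V (muP p) s a = a
  rw [H397.indρ_of_trivial (muP p) V s htriv, ← ha']
  refine Finsupp.ext fun c => ?_
  rw [Finsupp.mapRange_apply]
  exact key (a' c)

/-- **Leaf K-FIN.** `𝒪_{K_V,S}ˣ/p` and `Cl_S(K_V)[p]` are finite (cochain form), from KUM. -/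
theorem finE_of (hK : KummerSpec p S) : FinESpec p S := by
  intro hpS V hV
  have hN : (globalLevels S).NormalCofinal := globalLevels_normal_cofinal724 S
  haveI := finiteDimensional_indMu p S hV
  have hfin : Finite ↥((globalLevels S).Z1 (indG V (muP p))) :=
    PT.H593.finite_Z1 p S (indG V (muP p)) (isUSmooth_indMu p S hpS hV)
  obtain ⟨⟨T₁, h₁⟩, ⟨T₂, h₂⟩⟩ := finE_abstract (L := globalLevels S) p (indMuToE p S V)
    (H397.indMuToE_injective p S V) (H397.indMuToE_equivariant p S V)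
    (H397.indMuToE_tors p S V)
    (H397.kummer_ind (sUnits S) hN p (fun x hx => hK hpS x hx) hV) hfin
  refine ⟨⟨T₁, fun e he => ?_⟩, ⟨T₂, fun z hz hpz => ?_⟩⟩
  · obtain ⟨e', he', hmem⟩ := h₁ e he
    exact ⟨e', he', Submodule.subset_span hmem⟩
  · obtain ⟨t, ht, hzt⟩ := h₂ z hz hpz
    exact ⟨t, Submodule.subset_span ht, hzt⟩

end Final

end Fermat.Agent.S55.K.H541

end
end
-- ===== PACK-END S55/K/FinH541.lean

-- ===== PACK-BEGIN S56/Euler/H184/KumAbs.lean
section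
/-
S56 / W-BASE / Euler characteristic, leaf EUL-KUM (helper184), part 1: the ABSTRACT Kummer model.

`L` a level system on a group `G`; `M` a representation over a field `k`, `E` a representation
over a commutative ring `k'` (think `M = Ind_U μ_p`, `E = Ind_U 𝔼`), `ι : M →+ E` an injective
equivariant additive map whose image is the `p`-torsion of `E`, `p • M = 0`, and the smooth part
of `E` is `p`-divisible (KUM).  Then the connecting map of `0 → M → E → E`

  `kumDelta : E^G →+ H¹_L(M)`,   `e ↦ [c]`,  `ι ∘ c = d y`,  `p • y = e`, `y` smooth,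

* is well defined and additive (`kumDelta_eq`),
* has kernel `p • E^G` (`kumDelta_eq_zero_iff`),
* is onto as soon as `H¹_L(E)[p] = 0` in cochain form (`kumDelta_surjective`),
* is natural for every pair of equivariant endomorphisms `(R_M, R_E)` compatible with `ι`
  (`kumDelta_natural`).
-/


set_option autoImplicit false
set_option linter.unusedSectionVars false
set_option linter.style.haveILetI false

noncomputable section

namespace Fermat.Agent.S56.Euler.H184

open groupCohomology Fermat.Agent.S55.PT Fermat.Agent.S55.K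

section Abstract

variable {G : Type} [Group G] (L : LevelSys G)
variable {k k' : Type} [Field k] [CommRing k']
variable {M : Rep.{0, 0, 0} k G} {E : Rep.{0, 0, 0} k' G}
variable (p : ℕ) (ι : M →+ E)

/-- The hypotheses of the abstract Kummer sequence `0 → M → E → E` (multiplication by `p`),
on the smooth parts. -/
structure IsKummerSeq : Prop where
  inj : Function.Injective ι
  equi : ∀ g m, ι (M.ρ g m) = E.ρ g (ι m)
  tors : ∀ e : E, p • e = 0 → ∃ m, ι m = e
  kum : ∀ x : E, H397.Sm L E x → ∃ y : E, p • y = x ∧ H397.Sm L E y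
  killed : ∀ m : M, p • m = 0

variable {L p ι}

/-- An invariant is smooth. -/
lemma sm_of_invariant (e : E) (he : ∀ g : G, E.ρ g e = e) : H397.Sm L E e := by
  obtain ⟨U, hU⟩ := L.nonempty
  exact ⟨U, hU, fun s _ => he s⟩

lemma nsmul_d₀₁ (y : E) (g : G) : p • ((d₀₁ E).hom y g) = (d₀₁ E).hom (p • y) g := by
  simp only [d₀₁_hom_apply]
  rw [smul_sub, ← map_nsmul]

/-- Existence of a Kummer cocycle of an invariant. -/
lemma IsKummerSeq.exists_cocycle (h : IsKummerSeq L p ι) (e : E) (he : ∀ g : G, E.ρ g e = e) :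
    ∃ (y : E) (c : ↥(L.Z1 M)), p • y = e ∧ H397.Sm L E y ∧
      ∀ g, ι ((c : G → M) g) = (d₀₁ E).hom y g := by
  obtain ⟨y, hy, hysm⟩ := h.kum e (sm_of_invariant e he)
  obtain ⟨c, hc⟩ := H541.exists_lift_Z1 (L := L) p ι h.inj h.equi h.tors ((d₀₁ E).hom y)
    (H541.d01_mem_cocycles₁ y) (H541.d01_isLC y hysm) (fun g => by
      rw [nsmul_d₀₁, hy, d₀₁_hom_apply, he g, sub_self])
  exact ⟨y, c, hy, hysm, hc⟩

/-- Two Kummer cocycles of the same invariant are cohomologous. -/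
lemma IsKummerSeq.cocycle_unique (h : IsKummerSeq L p ι) {y y' : E} {c c' : ↥(L.Z1 M)}
    (hy : p • y = p • y') (hc : ∀ g, ι ((c : G → M) g) = (d₀₁ E).hom y g)
    (hc' : ∀ g, ι ((c' : G → M) g) = (d₀₁ E).hom y' g) :
    L.H1π M c = L.H1π M c' := by
  obtain ⟨m, hm⟩ := h.tors (y - y') (by rw [smul_sub, hy, sub_self])
  have hsub : L.H1π M (c - c') = 0 := by
    rw [LevelSys.H1π_eq_zero_iff]
    refine ⟨m, ?_⟩
    funext g
    apply h.inj
    have h1 : ((c - c' : ↥(L.Z1 M)) : G → M) g = (c : G → M) g - (c' : G → M) g := rfl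
    rw [h1, map_sub, hc g, hc' g, d₀₁_hom_apply, map_sub, h.equi, hm]
    simp only [d₀₁_hom_apply, map_sub]
    abel
  rw [map_sub, sub_eq_zero] at hsub
  exact hsub

variable (L p ι)

/-- The Kummer class of an invariant (junk value `0` outside the hypotheses). -/
def kumClass (h : IsKummerSeq L p ι) (e : ↥(LevelSys.H0 E)) : L.H1 M :=
  L.H1π M (Classical.choose (Classical.choose_spec (h.exists_cocycle e.1 e.2)))

variable {L p ι}

/-- Characterisation of the Kummer class. -/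
theorem kumClass_eq (h : IsKummerSeq L p ι) (e : ↥(LevelSys.H0 E)) (y : E) (c : ↥(L.Z1 M))
    (hy : p • y = e.1) (hc : ∀ g, ι ((c : G → M) g) = (d₀₁ E).hom y g) :
    kumClass L p ι h e = L.H1π M c := by
  have hs := Classical.choose_spec (Classical.choose_spec (h.exists_cocycle e.1 e.2))
  exact h.cocycle_unique (hs.1.trans hy.symm) hs.2.2 hc

variable (L p ι)

/-- **The Kummer map** `E^G →+ H¹_L(M)`. -/
def kumDelta (h : IsKummerSeq L p ι) : ↥(LevelSys.H0 E) →+ L.H1 M where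
  toFun := kumClass L p ι h
  map_zero' := by
    have h0 : ∀ g, ι (((0 : ↥(L.Z1 M)) : G → M) g) = (d₀₁ E).hom (0 : E) g := by
      intro g
      simp
    rw [kumClass_eq h 0 0 0 (by simp) h0, map_zero]
  map_add' := by
    intro e e'
    obtain ⟨y, c, hy, -, hc⟩ := h.exists_cocycle e.1 e.2
    obtain ⟨y', c', hy', -, hc'⟩ := h.exists_cocycle e'.1 e'.2
    rw [kumClass_eq h e y c hy hc, kumClass_eq h e' y' c' hy' hc',
      kumClass_eq h (e + e') (y + y') (c + c') (by rw [smul_add, hy, hy']; rfl) (by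
        intro g
        have h1 : ((c + c' : ↥(L.Z1 M)) : G → M) g = (c : G → M) g + (c' : G → M) g := rfl
        rw [h1, map_add, hc g, hc' g]
        simp only [d₀₁_hom_apply, map_add]
        abel), map_add]

variable {L p ι}

theorem kumDelta_eq (h : IsKummerSeq L p ι) (e : ↥(LevelSys.H0 E)) (y : E) (c : ↥(L.Z1 M))
    (hy : p • y = e.1) (hc : ∀ g, ι ((c : G → M) g) = (d₀₁ E).hom y g) :
    kumDelta L p ι h e = L.H1π M c :=
  kumClass_eq h e y c hy hc

/-- **Kernel of the Kummer map**: `p • E^G`. -/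
theorem kumDelta_eq_zero_iff (h : IsKummerSeq L p ι) (e : ↥(LevelSys.H0 E)) :
    kumDelta L p ι h e = 0 ↔ ∃ e' : ↥(LevelSys.H0 E), e = p • e' := by
  constructor
  · intro h0
    obtain ⟨y, c, hy, -, hc⟩ := h.exists_cocycle e.1 e.2
    rw [kumDelta_eq h e y c hy hc, LevelSys.H1π_eq_zero_iff] at h0
    obtain ⟨m, hm⟩ := h0
    have hinv : ∀ g : G, E.ρ g (y - ι m) = y - ι m := by
      intro g
      have h1 := hc g
      rw [← hm] at h1
      simp only [d₀₁_hom_apply] at h1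
      rw [map_sub, h.equi] at h1
      rw [map_sub]
      have h2 : E.ρ g y - E.ρ g (ι m) - (y - ι m) = (E.ρ g y - y) - (E.ρ g (ι m) - ι m) := by
        abel
      exact sub_eq_zero.1 (by rw [h2, h1, sub_self])
    refine ⟨⟨y - ι m, hinv⟩, Subtype.ext ?_⟩
    show e.1 = p • (y - ι m)
    rw [smul_sub, hy, ← map_nsmul, h.killed m, map_zero, sub_zero]
  · rintro ⟨e', rfl⟩
    have h0 : ∀ g, ι (((0 : ↥(L.Z1 M)) : G → M) g) = (d₀₁ E).hom e'.1 g := by
      intro g
      simp only [d₀₁_hom_apply]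
      rw [e'.2 g, sub_self]
      simp
    rw [kumDelta_eq h (p • e') e'.1 0 rfl h0, map_zero]

/-- **Image of the Kummer map**: the classes which die in `H¹_L(E)`. -/
theorem mem_range_kumDelta_iff (h : IsKummerSeq L p ι) (c : ↥(L.Z1 M)) :
    L.H1π M c ∈ Set.range (kumDelta L p ι h) ↔
      (fun g => ι ((c : G → M) g)) ∈ LevelSys.B1 E := by
  constructor
  · rintro ⟨e, he⟩
    obtain ⟨y, c', hy, -, hc'⟩ := h.exists_cocycle e.1 e.2
    rw [kumDelta_eq h e y c' hy hc'] at he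
    have hsub : L.H1π M (c' - c) = 0 := by rw [map_sub, he, sub_self]
    rw [LevelSys.H1π_eq_zero_iff] at hsub
    obtain ⟨m, hm⟩ := hsub
    refine ⟨y - ι m, ?_⟩
    funext g
    have h1 := congrFun hm g
    have h2 : ((c' - c : ↥(L.Z1 M)) : G → M) g = (c' : G → M) g - (c : G → M) g := rfl
    rw [h2] at h1
    have h3 : (c : G → M) g = (c' : G → M) g - (d₀₁ M).hom m g := by rw [h1]; abel
    show (d₀₁ E).hom (y - ι m) g = ι ((c : G → M) g)
    have h4 : ι ((c : G → M) g) = ι ((c' : G → M) g) - ι ((d₀₁ M).hom m g) := by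
      rw [h3, map_sub]
    rw [h4, hc' g]
    simp only [d₀₁_hom_apply, map_sub, h.equi]
    abel
  · rintro ⟨y, hy⟩
    have hyc : ∀ g, ι ((c : G → M) g) = (d₀₁ E).hom y g := fun g => (congrFun hy g).symm
    have hinv : ∀ g : G, E.ρ g (p • y) = p • y := by
      intro g
      have h1 : (d₀₁ E).hom (p • y) g = 0 := by
        rw [← nsmul_d₀₁, ← hyc g, ← map_nsmul, h.killed, map_zero]
      simp only [d₀₁_hom_apply] at h1
      exact sub_eq_zero.1 h1
    exact ⟨⟨p • y, hinv⟩, kumDelta_eq h ⟨p • y, hinv⟩ y c rfl hyc⟩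

/-- **Surjectivity of the Kummer map** when `H¹_L(E)` has no `p`-torsion (cochain form). -/
theorem kumDelta_surjective (h : IsKummerSeq L p ι)
    (hcl : ∀ z ∈ L.Z1 E, p • z ∈ LevelSys.B1 E → z ∈ LevelSys.B1 E) :
    Function.Surjective (kumDelta L p ι h) := by
  intro x
  obtain ⟨c, rfl⟩ := L.H1π_surjective M x
  refine (mem_range_kumDelta_iff h c).2 (hcl _ ?_ ?_)
  · refine ⟨?_, ?_⟩
    · refine (mem_cocycles₁_iff (fun g => ι ((c : G → M) g))).2 fun g g' => ?_
      have h1 := (mem_cocycles₁_iff (c : G → M)).1 c.2.1 g g'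
      show ι ((c : G → M) (g * g')) = E.ρ g (ι ((c : G → M) g')) + ι ((c : G → M) g)
      rw [h1, map_add, h.equi]
    · exact LevelSys.IsLC₁.comp c.2.2 ι
  · refine ⟨0, ?_⟩
    funext g
    show (d₀₁ E).hom 0 g = p • ι ((c : G → M) g)
    rw [← map_nsmul, h.killed, map_zero, map_zero]
    rfl

/-- **Naturality of the Kummer map** for a compatible pair of equivariant endomorphisms. -/
theorem kumDelta_natural (h : IsKummerSeq L p ι) (RM : M →ₗ[k] M) (hRM : IsEquivariant RM)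
    (RE : E →+ E) (hRE : ∀ g e, RE (E.ρ g e) = E.ρ g (RE e)) (hcomp : ∀ m, ι (RM m) = RE (ι m))
    (e e' : ↥(LevelSys.H0 E)) (he : e'.1 = RE e.1) :
    kumDelta L p ι h e' = pushH1 RM hRM L (kumDelta L p ι h e) := by
  obtain ⟨y, c, hy, -, hc⟩ := h.exists_cocycle e.1 e.2
  rw [kumDelta_eq h e y c hy hc, pushH1_mk]
  refine kumDelta_eq h e' (RE y) _ (by rw [← map_nsmul, hy, he]) ?_
  intro g
  rw [coe_pushZ1, Function.comp_apply, hcomp, hc g]
  simp only [d₀₁_hom_apply, map_sub, hRE]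

end Abstract

end Fermat.Agent.S56.Euler.H184

end

end
-- ===== PACK-END S56/Euler/H184/KumAbs.lean

-- ===== PACK-BEGIN S56/Euler/H184/KumInd.lean
section
/-
S56 / W-BASE / Euler characteristic, leaf EUL-KUM (helper184), part 2: induced modules.

For `U` normal of finite index in `G` and a representation `A` over a commutative ring:
* `fixU U A` : the `U`-fixed vectors, with the action `fixUAct U A σ` of `σ : G`;
* `rTr U A σ` : right translation by `σ⁻¹` on `K.indG U A = (G ⧸ U →₀ A)` (the same formula as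
  helper419's `indR`, for arbitrary coefficient rings), equivariant;
* `toInv U A : A^U ≃ (Ind_U A)^G` (`toInv_bijective`), `a ↦ (gU ↦ g a)`, which turns the action
  of `σ` into the right translation (`rTr_toInv`).
-/



set_option autoImplicit false
set_option linter.unusedSectionVars false
set_option linter.style.haveILetI false

noncomputable section

namespace Fermat.Agent.S56.Euler.H184

open groupCohomology Fermat.Agent.S55.PT Fermat.Agent.S55.K

section Ind

variable {G : Type} [Group G] {k' : Type} [CommRing k'] (U : Subgroup G)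
  (A : Rep.{0, 0, 0} k' G)

/-- The `U`-fixed vectors of `A`. -/
def fixU : Submodule k' A where
  carrier := {a | ∀ u ∈ U, A.ρ u a = a}
  add_mem' := by
    intro a b ha hb u hu
    rw [map_add, ha u hu, hb u hu]
  zero_mem' := by
    intro u _
    rw [map_zero]
  smul_mem' := by
    intro c a ha u hu
    rw [map_smul, ha u hu]

variable {U A} in
theorem mem_fixU {a : A} : a ∈ fixU U A ↔ ∀ u ∈ U, A.ρ u a = a := Iff.rfl

/-- `A^U` is stable under `G` when `U` is normal. -/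
theorem ρ_mem_fixU [U.Normal] (σ : G) {a : A} (ha : a ∈ fixU U A) : A.ρ σ a ∈ fixU U A := by
  intro u hu
  have h1 : σ⁻¹ * u * σ ∈ U := by
    have := (inferInstance : U.Normal).conj_mem u hu σ⁻¹
    simpa using this
  have h2 : u * σ = σ * (σ⁻¹ * u * σ) := by group
  calc A.ρ u (A.ρ σ a) = A.ρ (u * σ) a := by rw [map_mul]; rfl
    _ = A.ρ (σ * (σ⁻¹ * u * σ)) a := by rw [h2]
    _ = A.ρ σ (A.ρ (σ⁻¹ * u * σ) a) := by rw [map_mul]; rfl
    _ = A.ρ σ a := by rw [ha _ h1]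

/-- The action of `σ` on `A^U` (`U` normal). -/
def fixUAct [U.Normal] (σ : G) : ↥(fixU U A) →ₗ[k'] ↥(fixU U A) :=
  (A.ρ σ).restrict fun _ hm => ρ_mem_fixU U A σ hm

@[simp] theorem coe_fixUAct [U.Normal] (σ : G) (a : ↥(fixU U A)) :
    (fixUAct U A σ a : A) = A.ρ σ a.1 := rfl

/-- Evaluation of the diagonal action on `Ind_U A`. -/
theorem indρ_apply_smul (g : G) (f : (G ⧸ U) →₀ A) (x : G ⧸ U) :
    (indρ (MonoidHom.id G) U A g f) (g • x) = A.ρ g (f x) := by
  show ((Finsupp.lmapDomain A k' (fun x : G ⧸ U => g • x)).comp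
    (Finsupp.mapRange.linearMap (A.ρ g))) f (g • x) = _
  rw [LinearMap.comp_apply, Finsupp.lmapDomain_apply,
    Finsupp.mapDomain_apply (MulAction.injective g), Finsupp.mapRange.linearMap_apply,
    Finsupp.mapRange_apply]

/-- `g` fixes `f` iff `f (g • x) = g (f x)` for all `x`. -/
theorem indρ_eq_self_iff (g : G) (f : (G ⧸ U) →₀ A) :
    indρ (MonoidHom.id G) U A g f = f ↔ ∀ x : G ⧸ U, f (g • x) = A.ρ g (f x) := by
  constructor
  · intro h x
    rw [← indρ_apply_smul U A g f x, h]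
  · intro h
    ext x
    have hx : x = g • (g⁻¹ • x) := by rw [smul_inv_smul]
    rw [hx, indρ_apply_smul, h]

theorem mem_H0_indG_iff (f : (G ⧸ U) →₀ A) :
    (f : indG U A) ∈ LevelSys.H0 (indG U A) ↔
      ∀ (g : G) (x : G ⧸ U), f (g • x) = A.ρ g (f x) := by
  constructor
  · intro h g
    exact (indρ_eq_self_iff U A g f).1 (h g)
  · intro h g
    exact (indρ_eq_self_iff U A g f).2 (h g)

/-- the function `gU ↦ g a` attached to a `U`-fixed vector `a` -/
def orbFun (a : ↥(fixU U A)) : G ⧸ U → A :=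
  Quotient.lift (s := QuotientGroup.leftRel U) (fun g : G => A.ρ g a.1) (by
    intro x y hxy'
    have hxy : x⁻¹ * y ∈ U := QuotientGroup.leftRel_apply.mp hxy'
    have hy : y = x * (x⁻¹ * y) := by group
    show A.ρ x a.1 = A.ρ y a.1
    conv_rhs => rw [hy, map_mul]
    show A.ρ x a.1 = A.ρ x (A.ρ (x⁻¹ * y) a.1)
    rw [a.2 _ hxy])

@[simp] theorem orbFun_mk (a : ↥(fixU U A)) (g : G) :
    orbFun U A a (g : G ⧸ U) = A.ρ g a.1 := rfl

theorem orbFun_smul (a : ↥(fixU U A)) (g : G) (x : G ⧸ U) :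
    orbFun U A a (g • x) = A.ρ g (orbFun U A a x) := by
  induction x using QuotientGroup.induction_on with
  | H b =>
    show A.ρ (g * b) a.1 = A.ρ g (A.ρ b a.1)
    rw [map_mul]; rfl

/-- The element `∑_{gU} gU ⊗ g a` of `Ind_U A` attached to a `U`-fixed vector. -/
def toIndFun [U.FiniteIndex] (a : ↥(fixU U A)) : (G ⧸ U) →₀ A :=
  Finsupp.equivFunOnFinite.symm (orbFun U A a)

theorem toIndFun_apply [U.FiniteIndex] (a : ↥(fixU U A)) (x : G ⧸ U) :
    toIndFun U A a x = orbFun U A a x := rfl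

theorem toIndFun_mem [U.FiniteIndex] (a : ↥(fixU U A)) :
    (toIndFun U A a : indG U A) ∈ LevelSys.H0 (indG U A) := by
  rw [mem_H0_indG_iff]
  intro g x
  rw [toIndFun_apply, toIndFun_apply]
  exact orbFun_smul U A a g x

/-- **Shapiro in degree 0**: `A^U → (Ind_U A)^G`. -/
def toInv [U.FiniteIndex] : ↥(fixU U A) →+ ↥(LevelSys.H0 (indG U A)) where
  toFun a := ⟨toIndFun U A a, toIndFun_mem U A a⟩
  map_zero' := by
    apply Subtype.ext
    apply Finsupp.ext
    intro x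
    induction x using QuotientGroup.induction_on with
    | H g =>
      show A.ρ g (0 : A) = 0
      rw [map_zero]
  map_add' a b := by
    apply Subtype.ext
    apply Finsupp.ext
    intro x
    induction x using QuotientGroup.induction_on with
    | H g =>
      show A.ρ g (a.1 + b.1) = A.ρ g a.1 + A.ρ g b.1
      rw [map_add]

/-- The underlying finitely supported function of an invariant of `Ind_U A`. -/
def fsOf (f : ↥(LevelSys.H0 (indG U A))) : (G ⧸ U) →₀ A := f.1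

theorem fsOf_injective : Function.Injective (fsOf U A) := fun _ _ h => Subtype.ext h

theorem fsOf_smul (f : ↥(LevelSys.H0 (indG U A))) (g : G) (x : G ⧸ U) :
    fsOf U A f (g • x) = A.ρ g (fsOf U A f x) :=
  (mem_H0_indG_iff U A f.1).1 f.2 g x

theorem fsOf_toInv [U.FiniteIndex] (a : ↥(fixU U A)) :
    fsOf U A (toInv U A a) = toIndFun U A a := rfl

theorem toInv_apply_mk [U.FiniteIndex] (a : ↥(fixU U A)) (g : G) :
    fsOf U A (toInv U A a) (g : G ⧸ U) = A.ρ g a.1 := rfl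

theorem toInv_apply_one [U.FiniteIndex] (a : ↥(fixU U A)) :
    fsOf U A (toInv U A a) ((1 : G) : G ⧸ U) = a.1 := by
  rw [toInv_apply_mk, map_one]
  rfl

theorem toInv_injective [U.FiniteIndex] : Function.Injective (toInv U A) := by
  intro a b h
  apply Subtype.ext
  rw [← toInv_apply_one U A a, ← toInv_apply_one U A b, h]

theorem toInv_surjective [U.FiniteIndex] : Function.Surjective (toInv U A) := by
  intro f
  have hf := fsOf_smul U A f
  have h1 : fsOf U A f ((1 : G) : G ⧸ U) ∈ fixU U A := by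
    intro u hu
    rw [← hf u ((1 : G) : G ⧸ U)]
    congr 1
    show ((u * 1 : G) : G ⧸ U) = ((1 : G) : G ⧸ U)
    rw [mul_one, QuotientGroup.eq]
    simpa using hu
  refine ⟨⟨_, h1⟩, ?_⟩
  apply fsOf_injective
  apply Finsupp.ext
  intro x
  induction x using QuotientGroup.induction_on with
  | H g =>
    rw [toInv_apply_mk]
    show A.ρ g (fsOf U A f ((1 : G) : G ⧸ U)) = _
    rw [← hf g ((1 : G) : G ⧸ U)]
    congr 1
    show ((g * 1 : G) : G ⧸ U) = (g : G ⧸ U)
    rw [mul_one]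

theorem toInv_nsmul [U.FiniteIndex] (n : ℕ) (a : ↥(fixU U A)) :
    toInv U A (n • a) = n • toInv U A a := map_nsmul _ _ _

/-! ### right translations -/

/-- Right translation by `σ⁻¹` on `Ind_U A`: `single (gU) a ↦ single (g σ⁻¹ U) a`. -/
def rTr [U.Normal] (σ : G) : ((G ⧸ U) →₀ A) →ₗ[k'] ((G ⧸ U) →₀ A) :=
  Finsupp.lmapDomain A k' (Fermat.Agent.S56.H419.rightTr U σ)

@[simp] theorem rTr_single [U.Normal] (σ : G) (x : G ⧸ U) (a : A) :
    rTr U A σ (Finsupp.single x a) =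
      Finsupp.single (Fermat.Agent.S56.H419.rightTr U σ x) a := by
  rw [rTr, Finsupp.lmapDomain_apply, Finsupp.mapDomain_single]

theorem rTr_apply [U.Normal] (σ : G) (f : (G ⧸ U) →₀ A) (x : G ⧸ U) :
    rTr U A σ f x = f (x * (σ : G ⧸ U)) := by
  show Finsupp.mapDomain (Fermat.Agent.S56.H419.rightTr U σ) f x = _
  have h := Finsupp.mapDomain_apply (Fermat.Agent.S56.H419.rightTr U σ).injective f
    (x * (σ : G ⧸ U))
  rw [← h]
  congr 1
  simp

/-- Right translations commute with the diagonal action. -/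
theorem rTr_equivariant [U.Normal] (σ g : G) (f : (G ⧸ U) →₀ A) :
    rTr U A σ (indρ (MonoidHom.id G) U A g f) = indρ (MonoidHom.id G) U A g (rTr U A σ f) := by
  have h : (rTr U A σ) ∘ₗ (indρ (MonoidHom.id G) U A g) =
      (indρ (MonoidHom.id G) U A g) ∘ₗ (rTr U A σ) := by
    apply Finsupp.lhom_ext
    intro x a
    rw [LinearMap.comp_apply, LinearMap.comp_apply, indρ_single, rTr_single, rTr_single,
      indρ_single]
    congr 1
    exact Fermat.Agent.S56.H419.rightTr_smul U σ g x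
  exact LinearMap.congr_fun h f

/-- **Intertwining**: under `A^U ≃ (Ind_U A)^G` the action of `σ` is the right translation. -/
theorem rTr_toInv [U.Normal] [U.FiniteIndex] (σ : G) (a : ↥(fixU U A)) :
    rTr U A σ (fsOf U A (toInv U A a)) = fsOf U A (toInv U A (fixUAct U A σ a)) := by
  apply Finsupp.ext
  intro x
  induction x using QuotientGroup.induction_on with
  | H g =>
    rw [rTr_apply, toInv_apply_mk]
    show fsOf U A (toInv U A a) ((g * σ : G) : G ⧸ U) = A.ρ g (A.ρ σ a.1)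
    rw [toInv_apply_mk, map_mul]
    rfl

/-- Right translations commute with coefficient maps. -/
theorem rTr_mapRange [U.Normal] {k'' : Type} [CommRing k''] (B : Rep.{0, 0, 0} k'' G)
    (φ : A →+ B) (σ : G) (f : (G ⧸ U) →₀ A) :
    Finsupp.mapRange.addMonoidHom φ (rTr U A σ f) =
      rTr U B σ (Finsupp.mapRange.addMonoidHom φ f) := by
  induction f using Finsupp.induction_linear with
  | zero => simp
  | add v w hv hw => simp only [map_add, hv, hw]
  | single x a =>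
    rw [rTr_single, Finsupp.mapRange.addMonoidHom_apply, Finsupp.mapRange_single,
      Finsupp.mapRange.addMonoidHom_apply, Finsupp.mapRange_single, rTr_single]

end Ind

end Fermat.Agent.S56.Euler.H184

end

end
-- ===== PACK-END S56/Euler/H184/KumInd.lean

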