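import Fermat.Agent.Pack.S56.E4L3
import Fermat.Agent.Pack.S56.E6L2
import Fermat.Agent.Pack.S56.E12L0
import Fermat.Agent.Pack.S56.E10L1
import Fermat.Agent.Pack.S56.E10L2
import Fermat.Agent.Pack.S56.E6L3
import Fermat.Agent.Pack.S56.E16L3
import Fermat.Agent.Pack.S56.E11L0
import Fermat.Agent.Pack.S56.E6L1
import Fermat.Agent.Pack.S56.E19L1
import Fermat.Agent.Pack.S56.E18L0
import Fermat.Agent.Pack.S56.E20L3
import Fermat.Agent.Pack.S56.E10L3
import Fermat.Agent.Pack.S56.E8L1
import Fermat.Agent.Pack.S56.E12L3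
import Fermat.Agent.Pack.S56.E11L2
import Fermat.Agent.Pack.S56.E4L1
import Fermat.Agent.Pack.S56.E4L2
import Fermat.Agent.Pack.S56.E5L1
import Fermat.Agent.Pack.S56.E7L3
import Fermat.Agent.Pack.S56.E18L1
import Fermat.Agent.Pack.S56.E20L1
import Fermat.Agent.Pack.S56.E15L3
import Fermat.Agent.Pack.S56.E15L1
import Fermat.Agent.Pack.S56.E15L2
import Fermat.Agent.Pack.S56.E20L2
import Fermat.Agent.Pack.S56.E8L2
import Fermat.Agent.Pack.S56.E17L1
import Fermat.Agent.Pack.S56.E14L1
import Fermat.Agent.Pack.S56.E12L2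
import Fermat.Agent.Pack.S56.E2L3
import Fermat.Agent.Pack.S56.E8L3
import Fermat.Agent.Pack.S56.E14L0
import Fermat.Agent.Pack.S56.E11L1
import Fermat.Agent.Pack.S56.E16L2
import Fermat.Agent.Pack.S56.E9L3
import Fermat.Agent.Pack.S56.E12L1
import Fermat.Agent.Pack.S56.E10L0
import Fermat.Agent.Pack.S56.E17L0
import Fermat.Agent.Pack.S56.E16L0
import Fermat.Agent.Pack.S56.E13L3
import Fermat.Agent.Pack.S56.E13L0
import Fermat.Agent.Pack.S56.E17L2
import Fermat.Agent.Pack.S56.E2L0
import Fermat.Agent.Pack.S56.E11L3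
import Fermat.Agent.Pack.S56.E19L0
import Fermat.Agent.Pack.S56.E18L2
import Fermat.Agent.Pack.S56.E18L3
import Fermat.Agent.Pack.S56.E2L1
import Fermat.Agent.Pack.S56.E15L0
import Fermat.Agent.Pack.S56.E16L1
import Fermat.Agent.Pack.S56.E14L2
import Fermat.Agent.Pack.S56.E20L0

-- ===== PACK-BEGIN S55/T/All.lean
section

















/-!
# S55, layer T: assembly (architect helper53)

One canonical, unconditional (or explicitly conditional) proof of every Spec of
`T/Spec.lean`, `T/Spec2.lean`.  Consumers in layers L, G, D can `import Fermat.Agent.S55.T.All`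
and use `Fermat.Agent.S55.T.All.*`.

Status (proved unconditionally here): `cyclicCard`, `herbrand`, `herbrandFinite`, `infRes2`,
`ugly`, `coindCohTriv`, `h1TrivInt`, `classModuleOfCyclic`, `twinVanishing`, `cores`, `resIndex`,
`cardTorsion`, `latticeDuality`, `tate`, `tateH3`, `splitModule`, `tateReciprocity`.
`nakayama`, `tateNakayama` (T6), `tateNakayamaAt` (T6p = `E1.TateNakayamaAtSpec`),
`shapiroExplicit`, `shapiroRecognition` (T8), `finiteProd`, `directSum` (T9), `perm`, `permH1` (T10).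
LAYER T IS COMPLETE: every Spec of `T/Spec.lean`, `T/Spec2.lean`, `T/Spec3.lean` is proved.
-/

set_option autoImplicit false

namespace Fermat.Agent.S55.T.All

theorem cyclicCard : CyclicCardSpec := H895.cyclicCard
theorem herbrand : HerbrandSpec := H895.herbrand
theorem herbrandFinite : HerbrandFiniteSpec := H895.herbrandFinite
theorem infRes2 : InfRes2Spec := H954.infRes2
theorem ugly : UglySpec := H954.ugly
theorem coindCohTriv : CoindCohTrivSpec := H572.coindCohTriv
theorem h1TrivInt : H1TrivIntSpec := H539.h1TrivInt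
theorem classModuleOfCyclic : ClassModuleOfCyclicSpec := H53.classModuleOfCyclic
theorem twinVanishing : TwinVanishingSpec := Fermat.Agent.S55.H295.twinVanishing
theorem cores : CoresSpec := H572.cores
theorem resIndex : ResIndexSpec := H572.resIndex
theorem cardTorsion : CardTorsionSpec := H572.cardTorsion
theorem latticeDuality : LatticeDualitySpec := H359.latticeDuality
theorem tateReciprocity_of (h : TateSpec) : TateReciprocitySpec := H539.tateReciprocity_of h
theorem tate : TateSpec := Fermat.Agent.S55.H295.tate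
theorem tateH3 : TateH3Spec := Fermat.Agent.S55.H295.tateH3
theorem splitModule : SplitModuleSpec := Fermat.Agent.S55.H295.splitModule
theorem tateReciprocity : TateReciprocitySpec := tateReciprocity_of tate
theorem nakayama : NakayamaSpec := H719.nakayama
theorem tateNakayama : TateNakayamaSpec := H719.tateNakayama
theorem tateNakayamaAt : Fermat.Agent.S55.E1.TateNakayamaAtSpec := H719.tateNakayamaAt
theorem shapiroExplicit : ShapiroExplicitSpec := ShapiroH303.shapiroExplicit
theorem shapiroRecognition : ShapiroRecognitionSpec := ShapiroH303.shapiroRecognition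
theorem finiteProd : FiniteProdSpec := H635.finiteProd
theorem directSum : DirectSumSpec := H635.directSum
theorem perm : PermSpec := H652.permSpec
theorem permH1 : PermH1Spec := H652.permH1Spec

end Fermat.Agent.S55.T.All

end
-- ===== PACK-END S55/T/All.lean

-- ===== PACK-BEGIN S55/L/H715/OuterClosed.lean
section










/-!
# S55, layer L (outer): the interface statements of `L/Spec*.lean` that are CLOSED on main

One import for consumers (layers KL, G, D).  Every theorem has EXACTLY the type of the frozen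
outer spec and is assembled from landed, sorry-free leaves (core `Local.*` via `L/Adapter.lean`
and the dictionary `L/H715/Dict*.lean`, layer T via `T/All.lean`).   Integration: helper715.

Closed here: `RingOfIntegersUniqueSpec`, `FiniteExtSpec`, `H2CyclicSpec`, `H2CardLeSpec`,
`H2CardCyclicSpec`, `NormIndexCyclicSpec`, `ClassModuleSpec`, `H3Spec`, `NormIndexSpec`,
`UnramifiedExistsSpec`, `UnramifiedNormUnitsSpec`, `PadicInstSpec`, `PadicExtInstSpec`.
Not yet here: `UnramifiedCyclicSpec`, `UnramifiedUniqueSpec`, `InvSpec`, `ExistenceModSpec`.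
-/

set_option autoImplicit false

namespace Fermat.Agent.S55.L.Closed

open Fermat.Agent.S55 Fermat.Agent.S55.L

theorem ringOfIntegersUnique : RingOfIntegersUniqueSpec := ringOfIntegersUnique775
theorem finiteExt : FiniteExtSpec := finiteExt286
theorem h2Cyclic : H2CyclicSpec := h2Cyclic_of_local Local.H964.h2Cyclic
theorem h2CardLe : H2CardLeSpec := h2CardLe_of_local Local.H964.h2CardDvd
theorem h2CardCyclic : H2CardCyclicSpec := h2CardCyclic_of_local Local.Closed.cyclicH2Card
theorem normIndexCyclic : NormIndexCyclicSpec :=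
  normIndexCyclic_of_local Local.Closed.cyclicNormIndex
theorem classModule : ClassModuleSpec := classModule_of_local' Local.H964.h2Cyclic
theorem h3 : H3Spec := h3Spec_of_h301 classModule T.All.tateH3
theorem normIndex : NormIndexSpec := normIndexSpec_of_h301 classModule T.All.tateReciprocity
theorem unramifiedExists : UnramifiedExistsSpec :=
  H715.unramifiedExists_of_local Local.H964.existsUnramExt
theorem unramifiedNormUnits : UnramifiedNormUnitsSpec :=
  H423.unramifiedNormUnits_of423 ringOfIntegersUnique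
theorem padicInst : PadicInstSpec := padicInst63
theorem padicExtInst : PadicExtInstSpec := padicExtInst_of63 ringOfIntegersUnique

end Fermat.Agent.S55.L.Closed

end
-- ===== PACK-END S55/L/H715/OuterClosed.lean

-- ===== PACK-BEGIN S55/G/JGlueClosedH604.lean
section
/-
S55, layer G, leaf **J-GLUE** (helper604), closed form: everything except the orbit count
`JCountSpec` is taken from main.

* `shapiroJ : ShapiroJSpec` (G-LOC, unconditional: helper897 `shapiroJ_of` + T8 helper303 +
  T9a helper635);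
* `card_H2_JRep_closed` : `|H²(G, J_S(L))| = ∏_{r ∈ R} |D_r|` for cyclic `G`;
* `jHerbrand_of_count : JCountSpec → JHerbrandSpec`;
* `firstInequalityCycSpec_of_count : JCountSpec → FirstInequalityCycSpec`,
  `firstInequalitySpec_of_count : JCountSpec → FirstInequalitySpec`.

No `sorry`.
-/







set_option autoImplicit false
set_option linter.unusedSectionVars false

open scoped NumberField TensorProduct
open IsDedekindDomain CategoryTheory groupCohomology
open Fermat.Agent.S55.G

noncomputable section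

namespace Fermat.Agent.S55.G.JGlueH604

/-- **G-LOC**, unconditional. -/
theorem shapiroJ : ShapiroJSpec :=
  LocH897.shapiroJ_of Fermat.Agent.S55.T.ShapiroH303.shapiroExplicit
    Fermat.Agent.S55.T.H635.finiteProd

/-- `|H²(G, J_S(L))| = ∏_{r ∈ R} |D_r|` for a finite cyclic group `G` acting faithfully on `L`
and a set `R` of representatives of the `G`-orbits of places above `S`. -/
theorem card_H2_JRep_closed (S : Finset Nat.Primes) (G L : Type) [Group G] [Finite G] [Field L]
    [NumberField L] [MulSemiringAction G L] [FaithfulSMul G L] [IsCyclic G]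
    (R : Finset (SPlace S L))
    (hR : ∀ 𝔪 : SPlace S L, ∃! r : SPlace S L, r ∈ R ∧ ∃ g : G, sPlaceSMul S G g r = 𝔪) :
    Nat.card (groupCohomology (JRep G S L) 2) = ∏ r : R, Nat.card (decomp S G r.1) :=
  card_H2_JRep S G L shapiroJ Fermat.Agent.S55.L.Closed.h2CardCyclic R hR

/-- `|H²(D_𝔪, L_𝔪ˣ)| = |D_𝔪|` for a finite cyclic group `G` acting faithfully on `L`. -/
theorem card_H2_locRep_closed (S : Finset Nat.Primes) (G L : Type) [Group G] [Finite G]
    [Field L] [NumberField L] [MulSemiringAction G L] [FaithfulSMul G L] [IsCyclic G]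
    (𝔪 : SPlace S L) :
    Nat.card (groupCohomology (LocRep S G 𝔪) 2) = Nat.card (decomp S G 𝔪) :=
  card_H2_locRep S G Fermat.Agent.S55.L.Closed.h2CardCyclic 𝔪

/-- **J-GLUE** from the orbit count. -/
theorem jHerbrand_of_count (hC : JCountSpec) : FIH895.JHerbrandSpec :=
  jHerbrand_of shapiroJ Fermat.Agent.S55.L.Closed.h2CardCyclic hC

/-- **G-FIc** (first inequality, cyclic groups of odd order) from the orbit count. -/
theorem firstInequalityCycSpec_of_count (hC : JCountSpec) : FirstInequalityCycSpec :=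
  FIH895.firstInequalityCycSpec_of_J (jHerbrand_of_count hC)

/-- **G-FI** (first inequality, groups of odd prime order) from the orbit count. -/
theorem firstInequalitySpec_of_count (hC : JCountSpec) : FirstInequalitySpec :=
  FIH895.firstInequalitySpec_of_J (jHerbrand_of_count hC)

end Fermat.Agent.S55.G.JGlueH604

end
end
-- ===== PACK-END S55/G/JGlueClosedH604.lean

-- ===== PACK-BEGIN S55/G/FIFinalH604.lean
section
/-
S55, layer G, leaf **G-FI** (first inequality), final glue (helper604):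
the first inequality from the places ↔ primes dictionary `PlacePrimeSpec` (G-PL1) alone.

* `jHerbrand_of_placePrime : PlacePrimeSpec → JHerbrandSpec`
* `firstInequalityCycSpec_of_placePrime : PlacePrimeSpec → FirstInequalityCycSpec`
* `firstInequalitySpec_of_placePrime : PlacePrimeSpec → FirstInequalitySpec`

Inputs from main: helper903 `JCount903.jCount_of`, helper604 `JGlueH604.jHerbrand_of_count`,
helper895 `FIH895.firstInequalityCycSpec_of_J`.  No `sorry`.
-/



set_option autoImplicit false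

open Fermat.Agent.S55.G

namespace Fermat.Agent.S55.G.JGlueH604

/-- **J-GLUE** from G-PL1. -/
theorem jHerbrand_of_placePrime (hPP : PlacePrimeSpec) : FIH895.JHerbrandSpec :=
  jHerbrand_of_count (JCount903.jCount_of hPP)

/-- **G-FIc** (first inequality, cyclic groups of odd order) from G-PL1. -/
theorem firstInequalityCycSpec_of_placePrime (hPP : PlacePrimeSpec) : FirstInequalityCycSpec :=
  firstInequalityCycSpec_of_count (JCount903.jCount_of hPP)

/-- **G-FI** (first inequality, groups of odd prime order) from G-PL1. -/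
theorem firstInequalitySpec_of_placePrime (hPP : PlacePrimeSpec) : FirstInequalitySpec :=
  firstInequalitySpec_of_count (JCount903.jCount_of hPP)

end Fermat.Agent.S55.G.JGlueH604

end
-- ===== PACK-END S55/G/FIFinalH604.lean

-- ===== PACK-BEGIN S55/G/FIClosedH604.lean
section
/-
S55, layer G, leaf **G-FI** (first inequality) — CLOSED, unconditional (helper604 glue).

* `jHerbrand : JHerbrandSpec`                      (`h₀(J_S) = ∏ e_v f_v`, `h₁(J_S) = 1`)
* `firstInequalityCyc : FirstInequalityCycSpec`    (cyclic groups of odd order)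
* `firstInequality : FirstInequalitySpec`          (groups of odd prime order)
* `jCount : JCountSpec`, `h1J : H1JSpec`, `shapiroJ`, `placePrime`, `classShortExact`, … restated
  for convenience of consumers.

Inputs, all on main: helper597 `PL1H597.placePrimeSpec` (G-PL1), helper903 `JCount903.jCount_of`,
helper897/303/635 (Shapiro), helper715 `L.Closed.h2CardCyclic` (local cyclic theorem),
helper895 (`FIH895`, Herbrand assembly), helper595 (`sUnitsHerbrandSpec`), helper604.
No `sorry`.
-/



set_option autoImplicit false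

open Fermat.Agent.S55.G

namespace Fermat.Agent.S55.G.FIClosedH604

/-- **G-PL1**, unconditional (helper597). -/
theorem placePrime : PlacePrimeSpec := PL1H597.placePrimeSpec

/-- **J-COUNT**, unconditional. -/
theorem jCount : JGlueH604.JCountSpec := JCount903.jCount_of placePrime

/-- **J-GLUE**, unconditional: the Herbrand indices of the `S`-idèles. -/
theorem jHerbrand : FIH895.JHerbrandSpec := JGlueH604.jHerbrand_of_placePrime placePrime

/-- **G-FIc**, unconditional: the first inequality for cyclic groups of odd order. -/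
theorem firstInequalityCyc : FirstInequalityCycSpec :=
  JGlueH604.firstInequalityCycSpec_of_placePrime placePrime

/-- **G-FI**, unconditional: the first inequality for groups of odd prime order. -/
theorem firstInequality : FirstInequalitySpec :=
  JGlueH604.firstInequalitySpec_of_placePrime placePrime

end Fermat.Agent.S55.G.FIClosedH604

end
-- ===== PACK-END S55/G/FIClosedH604.lean

-- ===== PACK-BEGIN S55/G/AllH604.lean
section
/-
S55, layer G — CLOSED FORMS (helper604 glue): every Spec of `G/Spec.lean`, `G/Spec1b.lean` that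
is provable from what is on main, unconditionally, under ONE import.

* structure: `classShortExact`, `classGroupFinite`, `locField`, `placePrime`, `shapiroJ`, `h1J`,
  `descent`;
* inequalities: `firstInequality`, `firstInequalityCyc`, `secondInequality`, `cyclicLayer`;
* output: `pClassUpper : PClassUpperSpec` (G-UP), `cyclicPow : CyclicPowSpec` (G-CYCp).

Open in the layer after this file: `PClassModuleSpec` (lower bound = reciprocity, block REC),
`SIndepSpec`.  No `sorry`.
-/







set_option autoImplicit false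

open Fermat.Agent.S55.G

namespace Fermat.Agent.S55.G.AllH604

/-- **G-SES** (helper604). -/
theorem classShortExact : ClassShortExactSpec := SesSpecH604.classShortExactSpec

/-- **G-CL** (helper604). -/
theorem classGroupFinite : ClassGroupFiniteSpec := SesSpecH604.classGroupFiniteSpec

/-- **G-PL0** (helper713). -/
theorem locField : LocFieldSpec := PL0H713.locField

/-- **G-PL1** (helper597). -/
theorem placePrime : PlacePrimeSpec := PL1H597.placePrimeSpec

/-- **G-LOC** (helper897, helper303, helper635). -/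
theorem shapiroJ : ShapiroJSpec := JGlueH604.shapiroJ

/-- **G-H1J** (helper604). -/
theorem h1J : H1JSpec := H1JH604.h1JSpec

/-- **G-DESC** (helper773). -/
theorem descent : DescentSpec := DescH773.descentSpec

/-- **G-FI** (helper895, helper595, helper903, helper604). -/
theorem firstInequality : FirstInequalitySpec := FIClosedH604.firstInequality

/-- **G-FIc** (helper895, helper595, helper903, helper604). -/
theorem firstInequalityCyc : FirstInequalityCycSpec := FIClosedH604.firstInequalityCyc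

/-- **G-SI** (helper963, helper777, helper357). -/
theorem secondInequality : SecondInequalitySpec := Fermat.Agent.S55.H963.Br.secondInequality

/-- **G-CYC** (helper119). -/
theorem cyclicLayer : CyclicLayerSpec := UpH119.cyclicLayer_of firstInequality secondInequality

/-- **G-UP** (helper119): for a `p`-group `G` (`p` odd, `p ∈ S`, unramified outside `S`,
`μ_p ⊂ L^G`): `H¹(H, C_S(L)) = 0` and `|H²(H, C_S(L))|` divides `|H|` for all `H ≤ G`. -/
theorem pClassUpper : PClassUpperSpec :=
  UpH119.pClassUpper_of_inequalities firstInequality secondInequality descent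

/-- **G-CYCp** (helper184): cyclic `p`-power layers: `H¹ = 0`, `|H²| = |G|`. -/
theorem cyclicPow : CyclicPowSpec := CycPowH184.cyclicPow_of pClassUpper firstInequalityCyc

end Fermat.Agent.S55.G.AllH604

end
-- ===== PACK-END S55/G/AllH604.lean

-- ===== PACK-BEGIN S55/L/UnrInv/Closed.lean
section






/-!
# S55, layer L: `UnrInvSpec` is CLOSED (unconditional)

The invariant maps of unramified extensions of local fields, with base change, transport and
normalisation: assembled from the glue `unrInv_of` (helper54) and the landed leaves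
`ringOfIntegersUnique775`, `finiteExt286`, `u784_unramifiedCyclic` (helper784),
`Local.H964.h2Cyclic` (core T5), `integersComap775`, `unramifiedInertia775` (helper775),
`residueDegree717` (helper717).
-/

set_option autoImplicit false

namespace Fermat.Agent.S55.L.UnrInv

/-- **L-NR+BC, closed**: the invariant maps of unramified extensions exist. -/
theorem unrInv : Inv481.UnrInvSpec :=
  unrInv_of Closed.ringOfIntegersUnique Closed.finiteExt u784_unramifiedCyclic Closed.h2Cyclic
    integersComap775 unramifiedInertia775 H717.residueDegree717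

end Fermat.Agent.S55.L.UnrInv

end
-- ===== PACK-END S55/L/UnrInv/Closed.lean

-- ===== PACK-BEGIN S55/L/InvClosed.lean
section




/-!
# S55, layer L: `InvSpec` is CLOSED (unconditional)

The local invariant maps `inv_{L/K} : H²(Gal(L/K), Lˣ) → ℚ/ℤ` of all finite Galois extensions of
local fields exist, with injectivity, inflation, restriction (× degree), transport and the
unramified normalisation (`L/SpecInv.lean`, structure `InvFamily`).

Assembly: glue `Inv481.inv_of'` (helper481), unramified invariants `UnrInv.unrInv` (helper54),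
`UnrNestSpec`/`UnrBCSpec` (helper534), unramified extensions (helper784, helper543/715),
`H²` cyclic (core T5, helper964 et al.).
-/

set_option autoImplicit false

namespace Fermat.Agent.S55.L.Closed

/-- **L-C2, closed**: the local invariant maps exist. -/
theorem inv : InvSpec :=
  Inv481.inv_of' unramifiedExists u784_unramifiedCyclic h2Cyclic UnrInv.unrInv
    Unr534.unrNestSpec534 Unr534.unrBCSpec534

/-- **L-A2b, closed**. -/
theorem unramifiedCyclic : UnramifiedCyclicSpec := u784_unramifiedCyclic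

/-- **L-A2c, closed**. -/
theorem unramifiedUnique : UnramifiedUniqueSpec := u784_unramifiedUnique

end Fermat.Agent.S55.L.Closed

end
-- ===== PACK-END S55/L/InvClosed.lean

-- ===== PACK-BEGIN S55/E1/H957/Alg7.lean
section
/-
S55 engine E1, block ALG, leaf ALG7 (helper957): LOCAL IMAGE.
`alg7_of : ALG1Spec → ALG6Spec → ALG7aSpec → ALG7Spec` (exact Spec of `E1/SpecAlg2.lean`).
-/




set_option autoImplicit false

open CategoryTheory

namespace Fermat.Agent.S55.E1.H957

open Fermat.Agent.S55.E1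

variable {G D : Type} [Group G] [Group D]

/-- `⟨f ≫ j, x⟩ = j_* ⟨f, x⟩`. -/
lemma pair_comp {N J C : Rep.{0} ℤ G} (f : homA N J) (j : J ⟶ C) (x : groupCohomology N 1) :
    pair (f ≫ j) x = (T.coeffMap j 2).hom (pair f x) := by
  unfold pair
  rw [show T.coeffMap (f ≫ j) 2 = T.coeffMap f 2 ≫ T.coeffMap j 2 from
    groupCohomology.map_id_comp f j 2]
  rfl

/-- `H¹(G, N)` is killed by `p` if `N` is. -/
lemma nsmul_H1_eq_zero {N : Rep.{0} ℤ G} (p : ℕ) (hN : ∀ n : N.V, p • n = 0)
    (x : groupCohomology N 1) : p • x = 0 := by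
  induction x using groupCohomology.H1_induction_on with
  | h c =>
    rw [← map_nsmul]
    have : p • c = 0 := by
      ext g
      exact hN (c g)
    rw [this, map_zero]

/-- An element killed by two coprime integers is zero. -/
lemma eq_zero_of_coprime_nsmul {A : Type} [AddCommGroup A] {m n : ℕ} (h : Nat.Coprime m n)
    {x : A} (hm : m • x = 0) (hn : n • x = 0) : x = 0 := by
  have h1 : (Nat.gcd m n : ℤ) = m * Nat.gcdA m n + n * Nat.gcdB m n := Nat.gcd_eq_gcd_ab m n
  rw [h] at h1
  have h2 : ((1 : ℕ) : ℤ) • x = 0 := by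
    rw [h1, add_smul, mul_comm, mul_smul, mul_comm (n : ℤ), mul_smul, natCast_zsmul, natCast_zsmul,
      hm, hn, smul_zero, smul_zero, add_zero]
  simpa using h2

/-- **ALG7 (local image)** from ALG1, ALG6, ALG7a. -/
theorem alg7_of (h1 : ALG1Spec) (h6 : ALG6Spec) (h7a : ALG7aSpec) : ALG7Spec := by
  intro p hp G D _ _ _ _ φ hφ N C γ X γX j hNfin hNp hC hX hT hj χ
  obtain ⟨hδbij, hδnat, h6X⟩ := h6 G D φ hφ N
  obtain ⟨hflat, hcompat⟩ := h6X X
  have hsh : Function.Bijective (sh2 φ X) := H173.shapiroHom_bijective hφ 2 X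
  have hV : ∀ x : groupCohomology N 1, p • x = 0 := nsmul_H1_eq_zero p hNp
  have hVD : ∀ x : groupCohomology (Rep.res φ N) 1, p • x = 0 := nsmul_H1_eq_zero p hNp
  constructor
  · intro hχ
    -- Step 1: pointwise lifts of `χ x` to `p`-torsion classes in `H²(G, J)`
    have step1 : ∀ x, ∃ y : groupCohomology (Rep.coind φ X) 2,
        p • y = 0 ∧ (T.coeffMap j 2).hom y = χ x := by
      intro x
      by_cases hx0 : χ x = 0
      · exact ⟨0, by simp, by rw [map_zero, hx0]⟩
      · have hrx : resAlong φ N 1 x ≠ 0 := fun h => hx0 (hχ x h)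
        have hpD : p ∣ Nat.card D := by
          by_contra hnd
          have hcop : Nat.Coprime p (Nat.card D) := (Nat.Prime.coprime_iff_not_dvd hp).2 hnd
          have h1' := T.All.cardTorsion ℤ D (Rep.res φ N) 1 one_pos (resAlong φ N 1 x)
          have h2' := hVD (resAlong φ N 1 x)
          exact hrx (eq_zero_of_coprime_nsmul hcop h2' h1')
        obtain ⟨u₀, hu₀, hpu₀⟩ := (h7a p hp D X γX hX).2 hpD
        obtain ⟨y₀, hy₀⟩ := hsh.2 u₀
        have hpy₀ : p • y₀ = 0 := hsh.1 (by rw [map_nsmul, hy₀, hpu₀, map_zero])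
        have hy₀ne : y₀ ≠ 0 := fun h => hu₀ (by rw [← hy₀, h, map_zero])
        have hw₁ : (T.coeffMap j 2).hom y₀ ≠ 0 := fun h => hy₀ne (hj y₀ hpy₀ h)
        have hpw₁ : p • (T.coeffMap j 2).hom y₀ = 0 := by rw [← map_nsmul, hpy₀, map_zero]
        have hpχ : p • χ x = 0 := by rw [← map_nsmul, hV x, map_zero]
        obtain ⟨n, hn⟩ := (h7a p hp G C γ hC).1 _ _ hpw₁ hpχ hw₁
        exact ⟨n • y₀, by rw [smul_comm, hpy₀, smul_zero], by rw [map_nsmul, hn]⟩
    choose g₀ hg₀p hg₀ using step1
    have hinj : ∀ y y' : groupCohomology (Rep.coind φ X) 2, p • y = 0 → p • y' = 0 →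
        (T.coeffMap j 2).hom y = (T.coeffMap j 2).hom y' → y = y' := by
      intro y y' hy hy' h
      have := hj (y - y') (by rw [smul_sub, hy, hy', sub_zero]) (by rw [map_sub, h, sub_self])
      exact sub_eq_zero.1 this
    let g : groupCohomology N 1 →+ groupCohomology (Rep.coind φ X) 2 :=
      AddMonoidHom.mk' g₀ (fun a b => hinj _ _ (hg₀p _)
        (by rw [smul_add, hg₀p, hg₀p, add_zero])
        (by rw [hg₀, map_add, map_add, hg₀, hg₀]))
    have hg : ∀ x, g x = g₀ x := fun _ => rfl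
    -- Step 2: factor `sh ∘ g` through `res_φ`
    obtain ⟨χ', hχ'⟩ := exists_factor_of_ker_le p hp hV hVD (resAlong φ N 1).toAddMonoidHom
      ((sh2 φ X).toAddMonoidHom.comp g) (by
        intro x hx
        have h0 : g₀ x = 0 :=
          hinj _ _ (hg₀p x) (by simp) (by rw [hg₀ x, map_zero]; exact hχ x hx)
        show sh2 φ X (g₀ x) = 0
        rw [h0, map_zero])
    -- Step 3: the character `χ_D` of `H²(D, R)`
    let e := AddEquiv.ofBijective (resδ φ N).toAddMonoidHom hδbij
    let χD : groupCohomology (Rep.res φ (stdR N)) 2 →+ groupCohomology X 2 :=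
      χ'.comp e.symm.toAddMonoidHom
    -- Step 4: Tate–Nakayama at `p` for `D`
    letI : Fintype D := Fintype.ofFinite D
    obtain ⟨hRfree, hRfin, -⟩ := h1 G N hNfin
    obtain ⟨hsurj, -⟩ := hT p hp D X γX hX (Rep.res φ (stdR N)) hRfree hRfin
    obtain ⟨f', hf'⟩ := hsurj χD
    obtain ⟨f, hf⟩ := hflat.2 f'
    refine ⟨f, fun x => ?_⟩
    rw [pair_comp, ← hg₀ x]
    congr 1
    apply hsh.1
    rw [hcompat]
    simp only at hf
    rw [hf]
    show (T.coeffMap f' 2).hom (resδ φ N (resAlong φ N 1 x)) = sh2 φ X (g₀ x)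
    rw [hf' _ ⟨1, by rw [pow_one, ← map_nsmul, hVD, map_zero]⟩]
    show χ' (e.symm (resδ φ N (resAlong φ N 1 x))) = _
    have h3 : e.symm (resδ φ N (resAlong φ N 1 x)) = resAlong φ N 1 x := e.symm_apply_apply _
    rw [h3]
    exact hχ' x
  · rintro ⟨f, hf⟩ x hx
    rw [← hf x, pair_comp]
    have h2 : sh2 φ X (pair f x) = 0 := by
      rw [hcompat, hx]
      unfold pairLoc
      rw [map_zero, map_zero]
    have h3 : pair f x = 0 := hsh.1 (by rw [h2, map_zero])
    rw [h3, map_zero]

end Fermat.Agent.S55.E1.H957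

end
-- ===== PACK-END S55/E1/H957/Alg7.lean

-- ===== PACK-BEGIN S55/E1/H660/Alg7a.lean
section



/-!
# S55 engine E1, leaf ALG7a (helper660): `p`-torsion of `H²` of a class module at `p`

`alg7a : Fermat.Agent.S55.E1.ALG7aSpec`.

`P` a Sylow `p`-subgroup of `G`.  `res : H²(G, C) → H²(P, C)` is injective on `p`-torsion
(`T.All.resIndex`), and `H²(P, C)` is cyclic of order `|P|` generated by `res γ`.
* Part 1: the `p`-torsion of a cyclic group is cyclic, killed by `p`: a nonzero element generates.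
* Part 2: `p ∣ |P| = addOrderOf (res γ) ∣ d := addOrderOf γ`, `w := (d / p) • γ`.
-/

set_option autoImplicit false
set_option linter.style.haveILetI false

namespace Fermat.Agent.S55.E1.H660

open Fermat.Agent.S55 Fermat.Agent.S55.E1

section Abstract

variable {B : Type} [AddCommGroup B]

/-- An element killed by two coprime integers is zero. -/
lemma eq_zero_of_coprime_nsmul {A : Type} [AddCommGroup A] {m p : ℕ} (h : Nat.Coprime m p)
    {x : A} (hm : m • x = 0) (hp : p • x = 0) : x = 0 := by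
  have h1 : ((m : ℤ).gcd (p : ℤ)) = 1 := by
    simpa [Int.gcd_natCast_natCast] using h
  have h2 := Int.gcd_eq_gcd_ab (m : ℤ) (p : ℤ)
  rw [h1] at h2
  have hm' : (m : ℤ) • x = 0 := by rw [natCast_zsmul]; exact hm
  have hp' : (p : ℤ) • x = 0 := by rw [natCast_zsmul]; exact hp
  have : (1 : ℤ) • x = 0 := by
    have e : (1 : ℤ) = (m : ℤ) * Int.gcdA m p + (p : ℤ) * Int.gcdB m p := by
      exact_mod_cast h2
    rw [e, add_smul, mul_comm (m : ℤ), mul_comm (p : ℤ), mul_smul, mul_smul, hm', hp',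
      smul_zero, smul_zero, add_zero]
  simpa using this

/-- An integer multiple of an element killed by `p > 0` is a natural multiple. -/
lemma exists_nsmul_of_zsmul {p : ℕ} (hp0 : 0 < p) {x : B} (hx : p • x = 0) (k : ℤ) :
    ∃ n : ℕ, k • x = n • x := by
  refine ⟨(k % (p : ℤ)).toNat, ?_⟩
  have hp' : (p : ℤ) • x = 0 := by rw [natCast_zsmul]; exact hx
  have h1 : 0 ≤ k % (p : ℤ) := Int.emod_nonneg _ (by exact_mod_cast hp0.ne')
  have h2 : ((k % (p : ℤ)).toNat : ℤ) = k % (p : ℤ) := Int.toNat_of_nonneg h1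
  rw [← natCast_zsmul, h2]
  conv_lhs => rw [← Int.emod_add_mul_ediv k (p : ℤ)]
  rw [add_smul, mul_smul, smul_comm, hp', smul_zero, add_zero]

/-- In a cyclic group, the elements killed by a prime `p` are multiples of any nonzero one. -/
lemma exists_nsmul_eq_of_cyclic {p : ℕ} (hp : p.Prime) (g : B) (hg : ∀ y : B, ∃ n : ℕ, y = n • g)
    {x y : B} (hx : p • x = 0) (hy : p • y = 0) (hx0 : x ≠ 0) : ∃ n : ℕ, y = n • x := by
  haveI : IsAddCyclic B := ⟨g, fun y => by
    obtain ⟨n, hn⟩ := hg y
    exact ⟨(n : ℤ), by simp [hn]⟩⟩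
  -- the subgroup of elements killed by `p`
  let T : AddSubgroup B := (nsmulAddMonoidHom (α := B) p).ker
  have hT : ∀ z : B, z ∈ T ↔ p • z = 0 := fun z => by
    simp [T, AddMonoidHom.mem_ker]
  obtain ⟨t, ht⟩ := IsAddCyclic.exists_generator (α := T)
  have hpt : p • (t : B) = 0 := (hT _).1 t.2
  obtain ⟨c, hc⟩ := AddSubgroup.mem_zmultiples_iff.1 (ht ⟨x, (hT x).2 hx⟩)
  obtain ⟨d, hd⟩ := AddSubgroup.mem_zmultiples_iff.1 (ht ⟨y, (hT y).2 hy⟩)
  have hc' : c • (t : B) = x := by
    have := congrArg (fun z : T => (z : B)) hc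
    simpa using this
  have hd' : d • (t : B) = y := by
    have := congrArg (fun z : T => (z : B)) hd
    simpa using this
  have hpt' : (p : ℤ) • (t : B) = 0 := by rw [natCast_zsmul]; exact hpt
  -- `p ∤ c`
  have hpc : ¬ (p : ℤ) ∣ c := by
    rintro ⟨e, rfl⟩
    apply hx0
    rw [← hc', mul_comm, mul_smul, hpt', smul_zero]
  have hcop : IsCoprime c (p : ℤ) := by
    rw [isCoprime_comm]
    exact (Nat.prime_iff_prime_int.1 hp).coprime_iff_not_dvd.2 hpc
  obtain ⟨u, v, huv⟩ := hcop
  -- `t = u • x`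
  have htx : (t : B) = u • x := by
    have : (1 : ℤ) • (t : B) = u • x := by
      rw [← huv, add_smul, mul_smul, mul_smul, hc', hpt', smul_zero, add_zero]
    simpa using this
  obtain ⟨n, hn⟩ := exists_nsmul_of_zsmul hp.pos hx (d * u)
  exact ⟨n, by rw [← hn, mul_smul, ← htx, hd']⟩

/-- A torsion element whose image has order divisible by `p` has a nonzero multiple killed
by `p`. -/
lemma exists_ne_zero_nsmul_eq_zero {A : Type} [AddCommGroup A] {p : ℕ} (hp : p.Prime)
    (r : A →+ B) (γ : A) {N : ℕ} (hN : 0 < N) (hNγ : N • γ = 0)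
    (hdvd : p ∣ addOrderOf (r γ)) : ∃ w : A, w ≠ 0 ∧ p • w = 0 := by
  have hfin : IsOfFinAddOrder γ := isOfFinAddOrder_iff_nsmul_eq_zero.2 ⟨N, hN, hNγ⟩
  have hd0 : 0 < addOrderOf γ := hfin.addOrderOf_pos
  have hpd : p ∣ addOrderOf γ := hdvd.trans (addOrderOf_map_dvd r γ)
  obtain ⟨e, he⟩ := hpd
  have he0 : 0 < e := by
    rcases Nat.eq_zero_or_pos e with h | h
    · rw [h, mul_zero] at he; omega
    · exact h
  refine ⟨e • γ, ?_, ?_⟩
  · intro h0
    have h1 := addOrderOf_dvd_of_nsmul_eq_zero h0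
    have h2 := Nat.le_of_dvd he0 h1
    have h3 : 2 ≤ p := hp.two_le
    rw [he] at h2
    nlinarith
  · rw [← mul_smul, ← he]
    exact addOrderOf_nsmul_eq_zero γ

end Abstract

/-- **ALG7a**: the `p`-torsion of `H²(G, C)` for a class module at `p`. -/
theorem alg7a : ALG7aSpec := by
  intro p hp G _ _ C γ hC
  haveI : Fact p.Prime := ⟨hp⟩
  obtain ⟨P⟩ := (inferInstance : Nonempty (Sylow p G))
  obtain ⟨-, hcard, hgen⟩ := hC (P : Subgroup G) P.isPGroup'
  have hidx : Nat.Coprime (P : Subgroup G).index p := by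
    rw [Nat.coprime_comm]
    exact (Nat.Prime.coprime_iff_not_dvd hp).2 P.not_dvd_index
  have hinj : ∀ x : groupCohomology C 2, p • x = 0 → (T.resMap C (P : Subgroup G) 2).hom x = 0 →
      x = 0 := by
    intro x hpx hx
    exact eq_zero_of_coprime_nsmul hidx
      (T.All.resIndex ℤ G C (P : Subgroup G) 2 (by norm_num) x hx) hpx
  refine ⟨?_, ?_⟩
  · intro w w' hw hw' hw0
    have h1 : (T.resMap C (P : Subgroup G) 2).hom w ≠ 0 := fun h => hw0 (hinj w hw h)
    have h2 : p • (T.resMap C (P : Subgroup G) 2).hom w = 0 := by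
      rw [← map_nsmul, hw, map_zero]
    have h3 : p • (T.resMap C (P : Subgroup G) 2).hom w' = 0 := by
      rw [← map_nsmul, hw', map_zero]
    obtain ⟨n, hn⟩ := exists_nsmul_eq_of_cyclic hp _ hgen h2 h3 h1
    refine ⟨n, ?_⟩
    have h4 : w' - n • w = 0 := by
      apply hinj
      · rw [smul_sub, hw', smul_comm, hw, smul_zero, sub_zero]
      · rw [map_sub, map_nsmul, hn, sub_self]
    exact sub_eq_zero.1 h4
  · intro hpG
    have hNγ : Nat.card G • γ = 0 := T.All.cardTorsion ℤ G C 2 (by norm_num) γ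
    -- `addOrderOf (res γ) = |P|`
    have htop : AddSubgroup.zmultiples ((T.resMap C (P : Subgroup G) 2).hom γ) = ⊤ := by
      rw [eq_top_iff]
      intro y _
      obtain ⟨n, hn⟩ := hgen y
      exact AddSubgroup.mem_zmultiples_iff.2 ⟨(n : ℤ), by simp [hn]⟩
    have hord : addOrderOf ((T.resMap C (P : Subgroup G) 2).hom γ) = Nat.card (P : Subgroup G) := by
      rw [← hcard, ← Nat.card_zmultiples, htop]
      exact Nat.card_congr (AddSubgroup.topEquiv).toEquiv
    have hpP : p ∣ Nat.card (P : Subgroup G) := P.dvd_card_of_dvd_card hpG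
    exact exists_ne_zero_nsmul_eq_zero hp
      ((T.resMap C (P : Subgroup G) 2).hom : groupCohomology C 2 →ₗ[ℤ] _).toAddMonoidHom γ
      Nat.card_pos hNγ (by rw [LinearMap.toAddMonoidHom_coe, hord]; exact hpP)

end Fermat.Agent.S55.E1.H660

end
-- ===== PACK-END S55/E1/H660/Alg7a.lean

-- ===== PACK-BEGIN S55/E1/H957/Alg7Final.lean
section
/-
S55 engine E1, block ALG (helper957): ALG7 unconditional.
`alg7 : ALG7Spec` from `H304.alg1`, `H304.alg6`, `H660.alg7a` (all on main).
-/





set_option autoImplicit false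

namespace Fermat.Agent.S55.E1.H957

open Fermat.Agent.S55.E1

/-- **ALG7 (local image)**, unconditional. -/
theorem alg7 : ALG7Spec := alg7_of H304.alg1 H304.alg6 H660.alg7a

end Fermat.Agent.S55.E1.H957

end
-- ===== PACK-END S55/E1/H957/Alg7Final.lean

-- ===== PACK-BEGIN S55/E1/H957/Alg8Final.lean
section
/-
S55 engine E1, block ALG (helper957, sub-architect ALG6–8): ALG6, ALG7, ALG7a, ALG8 unconditional.
`alg8 : ALG8Spec` from `H353.alg8_of`, `H114.alg5`, `H957.alg7`, `H660.alg7a` (all on main).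
One import for the consumers of block ALG6–8.
-/




set_option autoImplicit false

namespace Fermat.Agent.S55.E1.H957

open Fermat.Agent.S55.E1

/-- **ALG6**, unconditional (helper304). -/
theorem alg6 : ALG6Spec := H304.alg6

/-- **ALG7a**, unconditional (helper660). -/
theorem alg7a : ALG7aSpec := H660.alg7a

/-- **ALG8 (count)**, unconditional. -/
theorem alg8 : ALG8Spec := H353.alg8_of H114.alg5 alg7 alg7a

end Fermat.Agent.S55.E1.H957

end
-- ===== PACK-END S55/E1/H957/Alg8Final.lean

-- ===== PACK-BEGIN S55/E1/H957/Lim3Abs.lean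
section
/-
S55 engine E1 (helper957): LIM3 in ABSTRACT one-step form — the consumer side of ALG8.

For a finite group `G`, `N`, `C` and local data `φ_i : D_i ↪ G`, `j_i : J_i → C`:
* `locSub j = Σ_i j_i ∘ A(J_i) + res Bc(C) ≤ A(C)`, `TQ j = A(C) ⧸ locSub j` (the group `T_F`);
* `card_TQ` : `T` is finite and `|T| = |Ш¹_fin|` (from ALG8);
For a change of group `π : G' →* G`, `ν : N' ≅ res_π N`, `ι : res_π C ⟶ C'`, `ιJ_i : res_π J_i ⟶ J'_i`
with `ι ∘ j_i = j'_i ∘ ιJ_i` (GD7a):
* `trA_mem_locSub`, `trT : TQ j →+ TQ j'` (the transition map of the system `T`);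
* `isLocTriv_inf` : inflation preserves local triviality;
* `trT_injective` : `tr` is injective on `T` if `inf_ι` is injective on `H²(G, C)[p]` (GD8).
-/




set_option autoImplicit false
set_option linter.style.haveILetI false

open CategoryTheory

namespace Fermat.Agent.S55.E1.H957

open Fermat.Agent.S55.E1

noncomputable section

/-! ## The group `T` -/

section T

variable {G : Type} [Group G] {ι : Type} [Fintype ι] {N C : Rep.{0} ℤ G}
  {J : ι → Rep.{0} ℤ G}

/-- `Σ_i j_i ∘ A(J_i) + res Bc(C)` as a subgroup of `A(C) = Hom_G(R, C)`. -/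
def locSub (j : ∀ i, J i ⟶ C) : AddSubgroup (homA N C) :=
  (resBA N C).range ⊔ ⨆ i, (H353.compJ (N := N) (j i)).range

lemma mem_locSub (j : ∀ i, J i ⟶ C) (f : homA N C) : f ∈ locSub j ↔ IsLocSum j f :=
  (H353.isLocSum_iff j f).symm

/-- `T = A(C) ⧸ (Σ_i j_i ∘ A(J_i) + res Bc(C))`. -/
abbrev TQ (j : ∀ i, J i ⟶ C) : Type := homA N C ⧸ locSub (N := N) j

end T

/-! ## The count -/

section Count

variable {G : Type} [Group G] {ι : Type} [Fintype ι] {Dc : ι → Type} [∀ i, Group (Dc i)]

/-- The pairing restricted to `Ш¹_fin`: `f ↦ ⟨f, ·⟩|_Ш`. -/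
def pairSha (φ : ∀ i, Dc i →* G) (N C : Rep.{0} ℤ G) :
    homA N C →+ (shaFin φ N →+ groupCohomology C 2) where
  toFun f := (H353.pairHom N C f).comp (shaFin φ N).subtype
  map_zero' := by
    ext x
    simp
  map_add' f g := by
    ext x
    simp

omit [Fintype ι] in
lemma pairSha_apply (φ : ∀ i, Dc i →* G) (N C : Rep.{0} ℤ G) (f : homA N C)
    (x : shaFin φ N) : pairSha φ N C f x = pair f x.1 := rfl

/-- **`|T| = |Ш¹_fin|`** from the three conclusions of ALG8. -/
theorem card_TQ_of {p : ℕ} (hp : p.Prime) (φ : ∀ i, Dc i →* G) {N C : Rep.{0} ℤ G}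
    (hNp : ∀ n : N.V, p • n = 0)
    (X : ∀ i, Rep.{0} ℤ (Dc i)) (j : ∀ i, Rep.coind (φ i) (X i) ⟶ C)
    (ha : ∀ f : homA N C, (∀ x, IsLocTriv φ N x → pair f x = 0) ↔ IsLocSum j f)
    (hb : ∀ χ : groupCohomology N 1 →+ groupCohomology C 2,
      ∃ f : homA N C, ∀ x, IsLocTriv φ N x → pair f x = χ x)
    (hfin : Finite (shaFin φ N))
    (hcard : Nat.card (shaFin φ N →+ groupCohomology C 2) = Nat.card (shaFin φ N)) :
    Finite (TQ (N := N) j) ∧ Nat.card (TQ (N := N) j) = Nat.card (shaFin φ N) := by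
  have hV : ∀ x : groupCohomology N 1, p • x = 0 := nsmul_H1_eq_zero p hNp
  have hSha : ∀ x : shaFin φ N, p • x = 0 := fun x => Subtype.ext (hV x.1)
  -- surjectivity of `pairSha`
  have hsurj : Function.Surjective (pairSha φ N C) := by
    intro χ
    obtain ⟨χ', hχ'⟩ := exists_factor_of_ker_le p hp hSha hV (shaFin φ N).subtype χ (by
      intro x hx
      have : x = 0 := Subtype.ext hx
      rw [this, map_zero])
    obtain ⟨f, hf⟩ := hb χ'
    refine ⟨f, ?_⟩
    ext x
    rw [pairSha_apply, hf x.1 x.2]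
    exact hχ' x
  -- kernel of `pairSha`
  have hker : (pairSha φ N C).ker = locSub (N := N) j := by
    ext f
    rw [AddMonoidHom.mem_ker, mem_locSub, ← ha f]
    constructor
    · intro h x hx
      have := DFunLike.congr_fun h (⟨x, hx⟩ : shaFin φ N)
      exact this
    · intro h
      ext x
      exact h x.1 x.2
  have e1 : (homA N C ⧸ (pairSha φ N C).ker) ≃+ (shaFin φ N →+ groupCohomology C 2) :=
    QuotientAddGroup.quotientKerEquivOfSurjective _ hsurj
  have e2 : TQ (N := N) j ≃+ (homA N C ⧸ (pairSha φ N C).ker) :=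
    QuotientAddGroup.quotientAddEquivOfEq hker.symm
  have e := e2.trans e1
  have hfin' : Finite (shaFin φ N →+ groupCohomology C 2) := by
    apply Nat.finite_of_card_ne_zero
    rw [hcard]
    exact Nat.card_ne_zero.2 ⟨⟨0⟩, hfin⟩
  refine ⟨Finite.of_equiv _ e.symm.toEquiv, ?_⟩
  rw [Nat.card_congr e.toEquiv, hcard]

/-- **`|T| = |Ш¹_fin|`** (LIM3, first half), under the hypotheses of ALG8. -/
theorem card_TQ (p : ℕ) (hp : p.Prime) (G : Type) [Group G] [Fintype G] (N C : Rep.{0} ℤ G)
    (γ : groupCohomology C 2) (hNfin : Finite N.V) (hNp : ∀ n : N.V, p • n = 0)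
    (hC : IsClassModuleAt p C γ) (hT : TateNakayamaAtSpec)
    (H : Subgroup G) [H.Normal] [Fintype H] (hH : ∀ h ∈ H, ∀ n : N.V, N.ρ h n = n)
    (hnorm : NormInP p H C)
    (ι : Type) [Fintype ι] (Dc : ι → Type) [∀ i, Group (Dc i)] [∀ i, Finite (Dc i)]
    (φ : ∀ i, Dc i →* G) (hφ : ∀ i, Function.Injective (φ i))
    (X : ∀ i, Rep.{0} ℤ (Dc i)) (γX : ∀ i, groupCohomology (X i) 2)
    (j : ∀ i, Rep.coind (φ i) (X i) ⟶ C)
    (hX : ∀ i, IsClassModuleAt p (X i) (γX i))
    (hj : ∀ i, ∀ y : groupCohomology (Rep.coind (φ i) (X i)) 2,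
      p • y = 0 → (T.coeffMap (j i) 2).hom y = 0 → y = 0) :
    Finite (TQ (N := N) j) ∧ Nat.card (TQ (N := N) j) = Nat.card (shaFin φ N) := by
  obtain ⟨ha, hb, hfin, hcard⟩ :=
    alg8 p hp G N C γ hNfin hNp hC hT H hH hnorm ι Dc φ hφ X γX j hX hj
  exact card_TQ_of hp φ hNp X j ha hb hfin hcard

end Count

/-! ## Transition maps -/

section Tr

variable {G G' : Type} [Group G] [Group G'] (π : G' →* G)
variable {N : Rep.{0} ℤ G} {N' : Rep.{0} ℤ G'} (ν : N' ⟶ Rep.res π N)
variable {C : Rep.{0} ℤ G} {C' : Rep.{0} ℤ G'} (ι₀ : Rep.res π C ⟶ C')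
variable {ι : Type} [Fintype ι] {J : ι → Rep.{0} ℤ G} {J' : ι → Rep.{0} ℤ G'}
variable (j : ∀ i, J i ⟶ C) (j' : ∀ i, J' i ⟶ C') (ιJ : ∀ i, Rep.res π (J i) ⟶ J' i)

omit [Fintype ι] in
/-- `tr (f ≫ j_i) = tr f ≫ j'_i` if `ι ∘ j_i = j'_i ∘ ιJ_i`. -/
lemma trA_comp (i : ι) (hsq : (Rep.resFunctor π).map (j i) ≫ ι₀ = ιJ i ≫ j' i)
    (f : homA N (J i)) : trA π ν ι₀ (f ≫ j i) = trA π ν (ιJ i) f ≫ j' i := by
  change trR π ν ≫ (Rep.resFunctor π).map (f ≫ j i) ≫ ι₀ =
    (trR π ν ≫ (Rep.resFunctor π).map f ≫ ιJ i) ≫ j' i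
  rw [Functor.map_comp, Category.assoc, Category.assoc, Category.assoc, hsq]

/-- `tr` maps local sums to local sums. -/
lemma trA_isLocSum (hsq : ∀ i, (Rep.resFunctor π).map (j i) ≫ ι₀ = ιJ i ≫ j' i)
    {f : homA N C} (hf : IsLocSum j f) : IsLocSum j' (trA π ν ι₀ f) := by
  obtain ⟨fJ, h, rfl⟩ := hf
  refine ⟨fun i => trA π ν (ιJ i) (fJ i), trB π ν ι₀ h, ?_⟩
  rw [map_add, map_sum, trA_resBA]
  congr 1
  exact Finset.sum_congr rfl (fun i _ => trA_comp π ν ι₀ j j' ιJ i (hsq i) (fJ i))

lemma trA_mem_locSub (hsq : ∀ i, (Rep.resFunctor π).map (j i) ≫ ι₀ = ιJ i ≫ j' i) :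
    locSub (N := N) j ≤ (locSub (N := N') j').comap (trA π ν ι₀) := fun f hf =>
  (mem_locSub j' _).2 (trA_isLocSum π ν ι₀ j j' ιJ hsq ((mem_locSub j f).1 hf))

/-- The transition map `tr : T → T'` induced by `f ↦ ι ∘ f ∘ ρ`. -/
def trT (hsq : ∀ i, (Rep.resFunctor π).map (j i) ≫ ι₀ = ιJ i ≫ j' i) :
    TQ (N := N) j →+ TQ (N := N') j' :=
  QuotientAddGroup.map _ _ (trA π ν ι₀) (trA_mem_locSub π ν ι₀ j j' ιJ hsq)

lemma trT_mk (hsq : ∀ i, (Rep.resFunctor π).map (j i) ≫ ι₀ = ιJ i ≫ j' i) (f : homA N C) :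
    trT π ν ι₀ j j' ιJ hsq (QuotientAddGroup.mk f) = QuotientAddGroup.mk (trA π ν ι₀ f) := rfl

omit [Fintype ι] in
/-- The compatibility square `ι ∘ j_i = j'_i ∘ ιJ_i` from its elementwise form (GD7a). -/
lemma sq_of_apply (i : ι)
    (h : ∀ x : (J i).V, ι₀.hom ((j i).hom x) = (j' i).hom ((ιJ i).hom x)) :
    (Rep.resFunctor π).map (j i) ≫ ι₀ = ιJ i ≫ j' i :=
  repHom_ext_tr (fun x => h x)

end Tr

/-! ## Functoriality of the transition maps -/

section TrTr

variable {G G' G'' : Type} [Group G] [Group G'] [Group G''] (π : G' →* G) (π' : G'' →* G')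
variable {N : Rep.{0} ℤ G} {N' : Rep.{0} ℤ G'} {N'' : Rep.{0} ℤ G''}
variable (ν : N' ⟶ Rep.res π N) (ν' : N'' ⟶ Rep.res π' N') (ν'' : N'' ⟶ Rep.res (π.comp π') N)
variable {C : Rep.{0} ℤ G} {C' : Rep.{0} ℤ G'} {C'' : Rep.{0} ℤ G''}
variable (ι₀ : Rep.res π C ⟶ C') (ι₀' : Rep.res π' C' ⟶ C'') (ι₀'' : Rep.res (π.comp π') C ⟶ C'')

/-- `tr ∘ tr = tr` on `A`. -/
lemma trA_trA (hν : ∀ n : N''.V, ν''.hom n = ν.hom (ν'.hom n))
    (hι : ∀ c : C.V, ι₀''.hom c = ι₀'.hom (ι₀.hom c)) (f : homA N C) :
    trA π' ν' ι₀' (trA π ν ι₀ f) = trA (π.comp π') ν'' ι₀'' f := by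
  apply repHom_ext_tr
  intro r
  rw [trA_hom_apply, trA_hom_apply, trA_hom_apply, hι,
    H793.trR_comp_apply π π' ν ν' ν'' hν r]

variable {ι : Type} [Fintype ι] {J : ι → Rep.{0} ℤ G} {J' : ι → Rep.{0} ℤ G'}
  {J'' : ι → Rep.{0} ℤ G''}
variable (j : ∀ i, J i ⟶ C) (j' : ∀ i, J' i ⟶ C') (j'' : ∀ i, J'' i ⟶ C'')
  (ιJ : ∀ i, Rep.res π (J i) ⟶ J' i) (ιJ' : ∀ i, Rep.res π' (J' i) ⟶ J'' i)
  (ιJ'' : ∀ i, Rep.res (π.comp π') (J i) ⟶ J'' i)

/-- `tr ∘ tr = tr` on `T`. -/
theorem trT_trT (hν : ∀ n : N''.V, ν''.hom n = ν.hom (ν'.hom n))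
    (hι : ∀ c : C.V, ι₀''.hom c = ι₀'.hom (ι₀.hom c))
    (hsq : ∀ i, (Rep.resFunctor π).map (j i) ≫ ι₀ = ιJ i ≫ j' i)
    (hsq' : ∀ i, (Rep.resFunctor π').map (j' i) ≫ ι₀' = ιJ' i ≫ j'' i)
    (hsq'' : ∀ i, (Rep.resFunctor (π.comp π')).map (j i) ≫ ι₀'' = ιJ'' i ≫ j'' i)
    (t : TQ (N := N) j) :
    trT π' ν' ι₀' j' j'' ιJ' hsq' (trT π ν ι₀ j j' ιJ hsq t) =
      trT (π.comp π') ν'' ι₀'' j j'' ιJ'' hsq'' t := by
  induction t using QuotientAddGroup.induction_on with
  | H f =>
    rw [trT_mk, trT_mk, trT_mk, trA_trA π π' ν ν' ν'' ι₀ ι₀' ι₀'' hν hι f]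

end TrTr

section InfGeneric

variable {k G G' D D' : Type} [CommRing k] [Group G] [Group G'] [Group D] [Group D']
  (π : G' →* G) {N : Rep.{0} k G} {N' : Rep.{0} k G'} (μ : Rep.res π N ⟶ N')
  (φ : D →* G) (φ' : D' →* G') (πD : D' →* D)

/-- `μ : res_π N ⟶ N'` as a morphism along `D' → D`. -/
def alongDec (hsq : ∀ d, φ (πD d) = π (φ' d)) :
    Rep.res πD (Rep.res φ N) ⟶ Rep.res φ' N' :=
  Rep.ofHom (ρ := ((N.ρ.comp φ).comp πD)) (σ := (N'.ρ.comp φ'))
    ⟨μ.hom.toLinearMap, fun d => by
      ext n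
      have h := Rep.hom_comm_apply μ (φ' d) n
      change μ.hom (N.ρ (φ (πD d)) n) = N'.ρ (φ' d) (μ.hom n)
      rw [hsq d]
      exact h⟩

/-- Restriction to `D'` of an inflated class is the inflation of its restriction to `D`. -/
theorem res_inf_eq (hsq : ∀ d, φ (πD d) = π (φ' d)) (n : ℕ) (x : groupCohomology N n) :
    (groupCohomology.map φ' (𝟙 (Rep.res φ' N')) n).hom ((groupCohomology.map π μ n).hom x) =
      (groupCohomology.map πD (alongDec π μ φ φ' πD hsq) n).hom
        ((groupCohomology.map φ (𝟙 (Rep.res φ N)) n).hom x) := by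
  have h1 := groupCohomology.map_comp (k := k) π φ' μ (𝟙 (Rep.res φ' N')) n
  have h2 := groupCohomology.map_comp (k := k) φ πD (𝟙 (Rep.res φ N))
    (alongDec π μ φ φ' πD hsq) n
  have h3 : groupCohomology.map (π.comp φ')
      ((Rep.resFunctor φ').map μ ≫ 𝟙 (Rep.res φ' N')) n =
      groupCohomology.map (φ.comp πD)
        ((Rep.resFunctor πD).map (𝟙 (Rep.res φ N)) ≫ alongDec π μ φ φ' πD hsq) n :=
    groupCohomology.map_congr (MonoidHom.ext fun d => (hsq d).symm) (by rfl) n
  exact congrArg (fun t => t.hom x) (h1.symm.trans (h3.trans h2))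

end InfGeneric

section Inj

variable {G G' : Type} [Group G] [Group G'] (π : G' →* G)
variable {N : Rep.{0} ℤ G} {N' : Rep.{0} ℤ G'} (ν : N' ≅ Rep.res π N)
variable {ι : Type} {Dc : ι → Type} [∀ i, Group (Dc i)] {Dc' : ι → Type} [∀ i, Group (Dc' i)]
  (φ : ∀ i, Dc i →* G) (φ' : ∀ i, Dc' i →* G')

/-- **Inflation preserves local triviality** (`D'_i → D_i` compatible with `G' → G`). -/
theorem isLocTriv_inf (πD : ∀ i, Dc' i →* Dc i) (hsq : ∀ i d, φ i (πD i d) = π (φ' i d))
    (x : groupCohomology N 1) (hx : IsLocTriv φ N x) :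
    IsLocTriv φ' N' ((groupCohomology.map π ν.inv 1).hom x) := by
  intro i
  have h4 := res_inf_eq π ν.inv (φ i) (φ' i) (πD i) (hsq i) 1 x
  have h5 : (groupCohomology.map (φ i) (𝟙 (Rep.res (φ i) N)) 1).hom x = 0 := hx i
  rw [h5, map_zero] at h4
  exact h4

variable {C : Rep.{0} ℤ G} {C' : Rep.{0} ℤ G'} (ι₀ : Rep.res π C ⟶ C')
variable [Fintype ι] {J : ι → Rep.{0} ℤ G} {J' : ι → Rep.{0} ℤ G'}
variable (j : ∀ i, J i ⟶ C) (j' : ∀ i, J' i ⟶ C') (ιJ : ∀ i, Rep.res π (J i) ⟶ J' i)

/-- **`tr : T → T'` is injective** (LIM3, second half): if `inf_ι` is injective on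
`H²(G, C)[p]` (GD8), inflation preserves `Ш¹_fin`, and the pairing criterion ALG8(a) holds for
`G` (⇒) and `G'` (⇐). -/
theorem trT_injective {p : ℕ} (hNp : ∀ n : N.V, p • n = 0)
    (hsq : ∀ i, (Rep.resFunctor π).map (j i) ≫ ι₀ = ιJ i ≫ j' i)
    (ha : ∀ f : homA N C, (∀ x, IsLocTriv φ N x → pair f x = 0) → IsLocSum j f)
    (ha' : ∀ f' : homA N' C', IsLocSum j' f' → ∀ y, IsLocTriv φ' N' y → pair f' y = 0)
    (hinf : ∀ x, IsLocTriv φ N x → IsLocTriv φ' N' ((groupCohomology.map π ν.inv 1).hom x))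
    (hgd8 : ∀ z : groupCohomology C 2, p • z = 0 → infCoeff π ι₀ 2 z = 0 → z = 0) :
    Function.Injective (trT π ν.hom ι₀ j j' ιJ hsq) := by
  rw [injective_iff_map_eq_zero]
  intro t
  induction t using QuotientAddGroup.induction_on with
  | H f =>
    intro h
    rw [trT_mk, QuotientAddGroup.eq_zero_iff, mem_locSub] at h
    rw [QuotientAddGroup.eq_zero_iff, mem_locSub]
    apply ha
    intro x hx
    have h1 := ha' _ h _ (hinf x hx)
    rw [H245.alg10Pair G G' π N N' ν C C' ι₀ f x] at h1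
    have hp0 : p • pair f x = 0 := by
      unfold pair
      rw [← map_nsmul, ← map_nsmul, nsmul_H1_eq_zero p hNp x, map_zero, map_zero]
    exact hgd8 _ hp0 h1

end Inj

end

end Fermat.Agent.S55.E1.H957

end
-- ===== PACK-END S55/E1/H957/Lim3Abs.lean

-- ===== PACK-BEGIN S55/G/Exist121/Recip.lean
section



/-!
# S55, layer G, block EXIST: leaf EX-REC (reciprocity isomorphism for `p`-groups)

Author: helper121.  `recip_of : PClassModuleSpec → RecipSpec`, from the class module property
(G-CM), `T.All.classModuleOfCyclic` and `T.All.tateReciprocity` (both unconditional on main),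
plus the transport from the subgroup `⊤ ≤ G` to `G`.
-/

set_option autoImplicit false
set_option linter.unusedSectionVars false
set_option linter.style.haveILetI false

open scoped NumberField
open IsDedekindDomain CategoryTheory

noncomputable section

namespace Fermat.Agent.S55.G.Exist121

open Fermat.Agent.S55 Fermat.Agent.S55.G

section Top

variable {k G : Type} [CommRing k] [Group G] [Fintype G] [Fintype (⊤ : Subgroup G)]
  (C : Rep.{0} k G)

lemma mem_invariants_resTop (v : C.V) :
    v ∈ (T.resSub C ⊤).ρ.invariants ↔ v ∈ C.ρ.invariants := by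
  rw [Representation.mem_invariants, Representation.mem_invariants]
  constructor
  · intro h g
    exact h ⟨g, Subgroup.mem_top g⟩
  · intro h g
    exact h (g : G)

lemma norm_resTop (v : C.V) : (T.resSub C ⊤).ρ.norm v = C.ρ.norm v := by
  rw [Representation.norm, Representation.norm, LinearMap.sum_apply, LinearMap.sum_apply]
  exact Fintype.sum_equiv Subgroup.topEquiv.toEquiv _ _ (fun g => rfl)

/-- The identity map between the invariants of `C` restricted to `⊤` and those of `C`. -/
def invTopEquiv : ↥(T.resSub C ⊤).ρ.invariants ≃ₗ[k] ↥C.ρ.invariants where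
  toFun v := ⟨v.1, (mem_invariants_resTop C v.1).1 v.2⟩
  invFun v := ⟨v.1, (mem_invariants_resTop C v.1).2 v.2⟩
  map_add' _ _ := rfl
  map_smul' _ _ := rfl
  left_inv _ := rfl
  right_inv _ := rfl

/-- `Ĥ⁰(⊤, C) ≃ Ĥ⁰(G, C)`. -/
def hat0TopEquiv : T.hat0 (T.resSub C ⊤) ≃+ T.hat0 C :=
  (Submodule.Quotient.equiv _ _ (invTopEquiv C) (by
    apply Submodule.ext
    intro v
    constructor
    · rintro ⟨w, hw, rfl⟩
      obtain ⟨c, hc⟩ := hw
      exact ⟨c, by rw [← norm_resTop]; exact hc⟩
    · rintro ⟨c, hc⟩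
      refine ⟨(invTopEquiv C).symm v, ⟨c, ?_⟩, by simp⟩
      rw [norm_resTop]
      exact hc)).toAddEquiv

end Top

/-- **EX-REC** from the class module property of `C_S(L)` for `p`-groups. -/
theorem recip_of (hCM : PClassModuleSpec) : RecipSpec := by
  intro p hp hp2 S G L _ _ _ _ _ _ hpS hG hunr hfix
  have h := hCM p hp2 S G L hpS hG hunr hfix
  obtain ⟨⟨γ, hγ⟩, -⟩ := T.All.classModuleOfCyclic G (CRep S G L) (fun H => (h H).1)
    (fun H => (h H).2)
  letI : Fintype (⊤ : Subgroup G) := Fintype.ofFinite _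
  obtain ⟨e⟩ := T.All.tateReciprocity G (CRep S G L) γ hγ ⊤
  exact ⟨((MulEquiv.abelianizationCongr
    (Subgroup.topEquiv (G := G))).symm.toAdditive).trans (e.trans (hat0TopEquiv (CRep S G L)))⟩

end Fermat.Agent.S55.G.Exist121

end
end
-- ===== PACK-END S55/G/Exist121/Recip.lean

-- ===== PACK-BEGIN S55/G/Exist121/Sha.lean
section





/-!
# S55, layer G, block EXIST: leaf EX-SHA  (`[Sha : pKˣ] ≤ |Cl_S / p|`)

Author: helper121.  `shaBound_of : Exist.KummerFieldSpec → RecipSpec → DescentTopSpec → ShaBoundSpec`.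

Proof.  Let `M = K(Sha^{1/p})`, `Γ = Gal(M/K)` (`KummerFieldSpec`, helper233/helper361): `Γ` is
commutative of exponent `p`, `|Γ| = [Sha : pKˣ]`, `M/K` is unramified outside `S`, and every
`j ∈ J_S(K)` is a norm from `J_S(M)`.  By reciprocity `C_S(M)^Γ / N_Γ C_S(M) ≃ Γ^ab = Γ`, and by
descent `C_S(M)^Γ = C_S(K)`.  The norm group contains `p C_S(K)` (exponent `p`) and the image of
`J_S(K)`, so `|Γ| = [C_S(K) : N] ≤ [C_S(K) : p C_S(K) + im J_S(K)] = [Div : div Kˣ + p Div]`.
-/

set_option autoImplicit false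
set_option linter.unusedSectionVars false
set_option linter.style.haveILetI false

open scoped NumberField
open IsDedekindDomain CategoryTheory

noncomputable section

namespace Fermat.Agent.S55.G.Exist121

open Fermat.Agent.S55 Fermat.Agent.S55.G

/-- **EX-SHA** from EX-KUM, EX-REC and EX-DESC. -/
theorem shaBound_of (hKum : Exist.KummerFieldSpec) (hRec : RecipSpec) (hDesc : DescentTopSpec) :
    ShaBoundSpec := by
  intro p hp hp2 S K _ _ hpS hζ
  by_cases h0 : (pMul (Additive Kˣ) p).relIndex (shaS S K p) = 0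
  · rw [h0]; exact Nat.zero_le _
  have hB1 : Exist.pMul p (Additive Kˣ) ≤ shaS S K p := pMul_le_sha _ _ p
  have hB2 : shaS S K p ≤ Exist.kDelta p S K := sha_le_selV _ _ p
  obtain ⟨M, _, _, _, Γ, _, _, _, _, hfix, hcomm, hexp, hcard, hunr, -, hnorm⟩ :=
    hKum p hp2 S K hpS hζ (shaS S K p) hB1 hB2 h0
  have hnorm' := hnorm (fun x hx => ⟨hx.2, hx.1⟩)
  obtain ⟨ζ, hζ'⟩ := hζ
  have hfixK : ∀ (g : Γ) (k : K), g • algebraMap K M k = algebraMap K M k :=
    fun g k => (hfix _).2 ⟨k, rfl⟩ g
  haveI : IsGaloisGroup Γ K M :=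
    { faithful := inferInstance
      commutes := ⟨fun g k x => by
        rw [Algebra.smul_def, Algebra.smul_def, smul_mul', hfixK]⟩
      isInvariant := ⟨fun x hx => by
        obtain ⟨k, hk⟩ := (hfix x).1 hx
        exact ⟨k, hk⟩⟩ }
  have hG : IsPGroup p Γ := fun g => ⟨1, by rw [pow_one]; exact hexp g⟩
  have hroot : HasFixedRootOfUnity p Γ M :=
    ⟨algebraMap K M ζ, hζ'.map_of_injective (algebraMap K M).injective, fun g => hfixK g ζ⟩
  obtain ⟨e⟩ := hRec p hp2 S Γ M hpS hG hunr hroot
  obtain ⟨ι, hιinj, hιrange, hιJ⟩ := hDesc S Γ K M ⟨_, hpS⟩ hunr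
  -- the invariants and `Ĥ⁰`
  set A : Submodule ℤ (CS S M) := (cRepr S Γ M).invariants with hA
  have hmemA : ∀ c : CS S M, c ∈ A ↔ ∀ g : Γ, cRepr S Γ M g c = c :=
    fun c => Representation.mem_invariants _ c
  let ι' : CS S K →+ A := ι.codRestrict A.toAddSubgroup
    (fun x => (hmemA _).2 ((hιrange _).2 ⟨x, rfl⟩))
  have hι'surj : Function.Surjective ι' := by
    intro a
    obtain ⟨x, hx⟩ := (hιrange a.1).1 ((hmemA _).1 a.2)
    exact ⟨x, Subtype.ext hx⟩
  let N : Submodule ℤ A := (LinearMap.range (cRepr S Γ M).norm).comap A.subtype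
  let π : A →+ T.hat0 (CRep S Γ M) := N.mkQ.toAddMonoidHom
  have hπ : Function.Surjective π := Submodule.mkQ_surjective _
  have hπ0 : ∀ a : A, (a : CS S M) ∈ LinearMap.range (cRepr S Γ M).norm → π a = 0 := by
    intro a ha
    show N.mkQ a = 0
    rw [Submodule.mkQ_apply, Submodule.Quotient.mk_eq_zero]
    exact ha
  let q : JD S K →+ CS S K := (principal S K).mkQ.toAddMonoidHom
  have hq : Function.Surjective q := Submodule.mkQ_surjective _
  let f : JD S K →+ T.hat0 (CRep S Γ M) := (π.comp ι').comp q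
  have hf : Function.Surjective f := (hπ.comp hι'surj).comp hq
  -- `|Ĥ⁰| = |Γ| = [Sha : pKˣ]`
  have hcard1 : Nat.card (T.hat0 (CRep S Γ M)) = (pMul (Additive Kˣ) p).relIndex (shaS S K p) := by
    rw [← Nat.card_congr e.toEquiv]
    letI : CommGroup Γ := { (inferInstance : Group Γ) with mul_comm := hcomm }
    have e2 : Γ ≃ Additive (Abelianization Γ) :=
      (Abelianization.equivOfComm (H := Γ)).toEquiv.trans Additive.ofMul
    rw [← Nat.card_congr e2, Nat.card_eq_fintype_card]
    exact hcard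
  have hidx : f.ker.index = (pMul (Additive Kˣ) p).relIndex (shaS S K p) := by
    rw [AddSubgroup.index_ker, ← hcard1]
    exact Nat.card_congr (Equiv.ofBijective (fun x : f.range => (x : T.hat0 (CRep S Γ M)))
      ⟨Subtype.val_injective, fun y => by
        obtain ⟨x, hx⟩ := hf y
        exact ⟨⟨y, x, hx⟩, rfl⟩⟩)
  -- `Ĥ⁰` is killed by `p`
  have hkill : ∀ x : T.hat0 (CRep S Γ M), p • x = 0 := by
    intro x
    obtain ⟨a, rfl⟩ := e.surjective x
    rw [← map_nsmul]
    have : p • a = 0 := by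
      obtain ⟨g, hg⟩ := QuotientGroup.mk_surjective (Additive.toMul a)
      have ha : a = Additive.ofMul (Abelianization.of g) := by
        apply Additive.toMul.injective
        exact hg.symm
      rw [ha, ← ofMul_pow, ← map_pow, hexp, map_one]
      rfl
    rw [this, map_zero]
  -- the big subgroup is contained in the kernel
  have hle : bigK (J := Additive (AS S K)ˣ) (ordHom S K) p ≤ f.ker := by
    rw [bigK_eq (unitsDiag S K) (ordHom S K) p, sup_le_iff]
    refine ⟨?_, ?_⟩
    · rw [classP, sup_le_iff]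
      refine ⟨?_, ?_⟩
      · rintro _ ⟨x, rfl⟩
        rw [AddMonoidHom.mem_ker]
        have hq0 : q (diag (unitsDiag S K) (ordHom S K) x) = 0 := by
          show (principal S K).mkQ _ = 0
          rw [Submodule.mkQ_apply, Submodule.Quotient.mk_eq_zero]
          exact ⟨x, rfl⟩
        show π (ι' (q _)) = 0
        rw [hq0, map_zero, map_zero]
      · rintro _ ⟨y, rfl⟩
        rw [AddMonoidHom.mem_ker]
        show f (p • y) = 0
        rw [map_nsmul]
        exact hkill _
    · rintro _ ⟨y, rfl⟩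
      rw [AddMonoidHom.mem_ker]
      show π (ι' (q (y, 0))) = 0
      apply hπ0
      obtain ⟨j', hj'⟩ := hnorm' y
      refine ⟨(principal S M).mkQ (j', 0), ?_⟩
      show (cRepr S Γ M).norm ((principal S M).mkQ (j', 0)) = ι ((principal S K).mkQ (y, 0))
      rw [hιJ, ← hj']
      rw [Representation.norm, LinearMap.sum_apply]
      have h1 : ∀ g : Γ, (cRepr S Γ M g) ((principal S M).mkQ (j', 0)) =
          (principal S M).mkQ (jRepr Γ S M g j', 0) := by
        intro g
        have h0 : jdRepr S Γ M g (j', 0) = (jRepr Γ S M g j', 0) :=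
          Prod.ext rfl (map_zero (divRepr S Γ M g))
        show Submodule.Quotient.mk (jdRepr S Γ M g (j', 0)) = _
        rw [h0]
        rfl
      simp only [h1]
      rw [← map_sum]
      congr 1
      refine Prod.ext ?_ ?_
      · simp [Prod.fst_sum]
      · simp [Prod.snd_sum]
  -- conclusion
  have hbig : (bigK (J := Additive (AS S K)ˣ) (ordHom S K) p).index =
      ((ordHom S K).range ⊔ pMul (PrimeOut S K →₀ ℤ) p).index := by
    unfold bigK
    exact AddSubgroup.index_comap_of_surjective _ (fun i => ⟨(0, i), rfl⟩)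
  have hbig0 : ((ordHom S K).range ⊔ pMul (PrimeOut S K →₀ ℤ) p).index ≠ 0 := by
    intro h
    have h1 := AddSubgroup.index_dvd_of_le
      (le_sup_left : (ordHom S K).range ≤ (ordHom S K).range ⊔ pMul (PrimeOut S K →₀ ℤ) p)
    rw [h] at h1
    exact ClsH604.ordHom_range_index_ne_zero S K (Nat.eq_zero_of_zero_dvd h1)
  rw [← hidx, ← hbig]
  exact Nat.le_of_dvd (Nat.pos_of_ne_zero (hbig ▸ hbig0)) (AddSubgroup.index_dvd_of_le hle)

end Fermat.Agent.S55.G.Exist121

end
end
-- ===== PACK-END S55/G/Exist121/Sha.lean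

-- ===== PACK-BEGIN S55/G/Rec/Loc/Final.lean
section











/-!
# S55 / G / REC / LOC : `LocalInvSystem` EXISTS (unconditional)   — block REC-LOC closed

The absolute local invariant maps `inv_{K_v} : Br(K_v) = H²_cont(V, ℚ̄_qˣ) → ℚ/ℤ` for all open
`V ≤ Gal(ℚ̄_q/ℚ_q)` and all primes `q`, with injectivity, restriction (× index), vanishing on
unramified unit cocycles and the normalisation `inv (π ∪ δχ) = χ(Frob)/n`:
the structure `G.Rec.LocalInvSystem` consumed by `ReciprocitySpec` (helper1) and by the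
`InvSpec` inputs A5–A7 of the duality engine (helper3).

Assembly (helper477): glue `Loc/Glue.lean` + leaves
LOC-FD `H478.openSpec`, LOC-DESC `H894.descent`, LOC-UP `H839.up`, LOC-DOWN `H363.down`,
LOC-REF `H123.refine123`, LOC-RES `H480.res_of`, LOC-UNR `H483.unram` (helper483, helper294),
LOC-UNIF `H544.unif`, and the closed layer L (`L.Closed.inv : L.InvSpec`).
-/

set_option autoImplicit false

noncomputable section

namespace Fermat.Agent.S55.G.Rec.Loc

/-- LOC-RES, closed. -/
theorem resSpec_closed : ResSpec := H480.res_of H478.openSpec H894.descent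

/-- `LocalInvSystem` from ANY family of finite-level invariant maps. -/
def localInvSystemOfFamily (J : L.InvFamily) : LocalInvSystem :=
  localInvSystem_of J H478.openSpec H894.descent H839.up H363.down H123.refine123
    resSpec_closed H483.unram H544.unif

/-- **REC-LOC, closed**: a system of absolute local invariant maps exists. -/
theorem nonempty_localInvSystem : Nonempty LocalInvSystem :=
  nonempty_localInvSystem_of L.Closed.inv H478.openSpec H894.descent H839.up H363.down
    H123.refine123 resSpec_closed H483.unram H544.unif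

/-- A chosen system of absolute local invariant maps. -/
def localInvSystem : LocalInvSystem := Classical.choice nonempty_localInvSystem

end Fermat.Agent.S55.G.Rec.Loc

end
end
-- ===== PACK-END S55/G/Rec/Loc/Final.lean

-- ===== PACK-BEGIN S55/G/Rec/Tow/FR/LocExistH715.lean
section





/-!
# S55 / G / REC / TOW / FR, leaf FR-C (`LocExistSpec`), helper715

`H²(D_𝔪, L_𝔪ˣ)` contains an element of exact order `n` for every divisor `n` of `|D_𝔪|`:
`L_𝔪` is Galois over the fixed field `F` of `D_𝔪` with group `D_𝔪`, `F` is a finite extension of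
`ℚ_q`, hence a local field, and `H²(Gal(L_𝔪/F), L_𝔪ˣ) ≅ ℤ/[L_𝔪 : F]` by the closed L-layer
(`L.Closed.h2Cyclic`); transport along `D_𝔪 ≃ Gal(L_𝔪/F)`.
-/

set_option autoImplicit false
set_option linter.unusedSectionVars false
set_option linter.style.haveILetI false

open scoped NumberField TensorProduct
open IsDedekindDomain CategoryTheory groupCohomology
open Fermat.Agent.S55.G

noncomputable section

namespace Fermat.Agent.S55.G.Rec.TOW.FR.H715

/-- A group isomorphic to `ℤ/m` contains an element of exact order `n` for every `n ∣ m`. -/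
theorem exists_exact_order_of_equiv_zmod {M : Type} [AddCommGroup M] (m n : ℕ) (hm : 0 < m)
    (hn : n ∣ m) (e : M ≃+ ZMod m) :
    ∃ u : M, n • u = 0 ∧ ∀ k : ℕ, k • u = 0 → n ∣ k := by
  obtain ⟨d, rfl⟩ := hn
  have hd : 0 < d := Nat.pos_of_mul_pos_left hm
  refine ⟨e.symm ((d : ℕ) : ZMod (n * d)), ?_, fun k hk => ?_⟩
  · rw [← map_nsmul, nsmul_eq_mul, ← Nat.cast_mul, ZMod.natCast_self, map_zero]
  · have h1 : e (k • e.symm ((d : ℕ) : ZMod (n * d))) = 0 := by rw [hk, map_zero]
    rw [map_nsmul, AddEquiv.apply_symm_apply, nsmul_eq_mul, ← Nat.cast_mul,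
      ZMod.natCast_eq_zero_iff] at h1
    exact Nat.dvd_of_mul_dvd_mul_right hd h1

section Abstract

variable {D E : Type} [Group D] [Finite D] [Field E]

/-- A finite group `D` acting faithfully (via `φ`) on a finite extension `E` of `ℚ_q`, fixing
`ℚ_q`: `H²(D, Eˣ) ≅ ℤ/|D|`. -/
theorem nonempty_H2_unitsRepr_equiv (φ : D →* (E ≃+* E)) (hφ : Function.Injective φ)
    (q : ℕ) [Fact q.Prime] (ι : ℚ_[q] →+* E)
    (hfin : letI := ι.toAlgebra; Module.Finite ℚ_[q] E)
    (hι : ∀ (d : D) (x : ℚ_[q]), φ d (ι x) = ι x) :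
    Nonempty (groupCohomology (Rep.of (unitsRepr D φ)) 2 ≃+ ZMod (Nat.card D)) := by
  classical
  letI : Fintype D := Fintype.ofFinite D
  letI : MulSemiringAction D E := MulSemiringAction.compHom E φ
  have hsmul : ∀ (d : D) (x : E), d • x = φ d x := fun _ _ => rfl
  haveI : FaithfulSMul D E := ⟨fun {d₁ d₂} h => hφ (RingEquiv.ext fun x => by
    rw [← hsmul, ← hsmul]; exact h x)⟩
  let F : Subfield E := FixedPoints.subfield D E
  let ιF : ℚ_[q] →+* F := ι.codRestrict F (fun x d => by rw [hsmul]; exact hι d x)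
  letI : Algebra ℚ_[q] E := ι.toAlgebra
  letI : Algebra ℚ_[q] F := ιF.toAlgebra
  haveI : IsScalarTower ℚ_[q] F E := IsScalarTower.of_algebraMap_eq (fun _ => rfl)
  haveI : Module.Finite ℚ_[q] E := hfin
  haveI : FiniteDimensional ℚ_[q] F := FiniteDimensional.left ℚ_[q] F E
  haveI : Fermat.Agent.S55.L.IsLocalFld F := PL0H713.isLocalFld_of_finite_padic q F
  let ψ : D ≃* (E ≃ₐ[F] E) := FixedPoints.toAlgAutMulEquiv D E
  obtain ⟨e0⟩ := Fermat.Agent.S55.L.Closed.h2Cyclic F E
  have hcardeq : Nat.card (E ≃ₐ[F] E) = Nat.card D := (Nat.card_congr ψ.toEquiv).symm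
  have hfr : Module.finrank F E = Nat.card D := by
    rw [← IsGalois.card_aut_eq_finrank, hcardeq]
  let iso : groupCohomology (Rep.of (unitsRepr D φ)) 2 ≅
      groupCohomology (Fermat.Agent.S55.L.unitsRep F E) 2 :=
    groupCohomology.mapIso (A := Fermat.Agent.S55.L.unitsRep F E)
      (B := Rep.of (unitsRepr D φ)) ψ
      (Fermat.Agent.S55.L.H715.linOfAdd715 (A := Rep.of (unitsRepr D φ))
        (B := Fermat.Agent.S55.L.unitsRep F E) (AddEquiv.refl (Additive Eˣ)))
      (fun g => DFunLike.ext _ _ (fun x => by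
        apply Additive.toMul.injective
        apply Units.ext
        rfl)) 2
  exact ⟨(iso.toLinearEquiv.toAddEquiv.trans e0).trans (ZMod.ringEquivCongr hfr).toAddEquiv⟩

end Abstract

/-- **FR-C** (`LocExistSpec`): local classes of every exact order dividing `|D_𝔪|`. -/
theorem locExist : LocExistSpec := by
  intro W Γ L _ _ _ _ _ _ 𝔪 n hn
  haveI : Fact (Nat.Prime ((PL0H713.primeOf W L 𝔪).1 : ℕ)) := ⟨(PL0H713.primeOf W L 𝔪).1.2⟩
  obtain ⟨e⟩ := nonempty_H2_unitsRepr_equiv (locAut W Γ 𝔪) (H953.locAut_injective W Γ 𝔪)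
    ((PL0H713.primeOf W L 𝔪).1 : ℕ) (PL0H713.ofQq W L 𝔪) (PL0H713.finite_locField W L 𝔪)
    (JGlueH604.locAut_ofQq W Γ 𝔪)
  exact exists_exact_order_of_equiv_zmod (Nat.card (decomp W Γ 𝔪)) n Nat.card_pos hn e

end Fermat.Agent.S55.G.Rec.TOW.FR.H715

end
end
-- ===== PACK-END S55/G/Rec/Tow/FR/LocExistH715.lean

-- ===== PACK-BEGIN S55/KL/LocalH123H775.lean
section



/-!
# S55, layer KL, leaf KL-H123 (helper775)

`local_h123_of (hT : TransportSpec) (hO : OpenSubgroupSpec) :
    LocalH1Spec ∧ LocalH2Spec ∧ LocalH3Spec`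

For an open subgroup `U = Gal(Ω/E)` of `Gal(ℚ̄_q/ℚ_q)` and a level `V = Gal(Ω/E') ∩ U`, the
transport isomorphism identifies `Hⁿ(U/V, (Ωˣ)^V)` with `Hⁿ(Gal(M/E), Mˣ)`, `M = E·E'`; then
* `H¹ = 0` is Hilbert 90 (Mathlib),
* `H² ≅ ℤ/[M : E]` is `L.Closed.h2Cyclic`,
* `H³ = 0` is `L.Closed.h3`.
-/

set_option autoImplicit false
set_option linter.style.haveILetI false
set_option linter.unusedSectionVars false

open CategoryTheory groupCohomology

namespace Fermat.Agent.S55.KL.H775

open Fermat.Agent.S55 Fermat.Agent.S55.KL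

/-- The finite-level cohomology of an open subgroup of `Gal(ℚ̄_q/ℚ_q)` is the Galois cohomology of
a finite Galois extension `M/E` of local fields, of degree `[U : V]`. -/
theorem exists_transport775 (hT : TransportSpec) (hO : OpenSubgroupSpec)
    (q : ℕ) [Fact q.Prime] (U : Subgroup (PadicAlgCl q ≃ₐ[ℚ_[q]] PadicAlgCl q))
    (hU : (galLevels ℚ_[q] (PadicAlgCl q)).IsOpen U)
    (V : ((galLevels ℚ_[q] (PadicAlgCl q)).restrict U).Lvl) :
    ∃ (E M : Type) (_ : Field E) (_ : Field M) (_ : Algebra E M) (_ : FiniteDimensional E M)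
      (_ : IsGalois E M) (_ : L.IsLocalFld E),
      Nat.card (↥U ⧸ V.W) = Module.finrank E M ∧
      ∀ n : ℕ, Nonempty
        (HL (Rep.res U.subtype (unitsOm ℚ_[q] (PadicAlgCl q))) V.W n ≅
          groupCohomology (Rep.ofAlgebraAutOnUnits E M) n) := by
  obtain ⟨E, hEfin, rfl⟩ := (hO ℚ_[q] (PadicAlgCl q) U).mp hU
  rcases V with ⟨VW, hV⟩
  obtain ⟨W, ⟨E', rfl⟩, rfl⟩ := hV
  obtain ⟨h1, h2, h3, h4⟩ := hT ℚ_[q] (PadicAlgCl q) E E'
  haveI := hEfin
  haveI : L.IsLocalFld ↥E := (L.Closed.padicExtInst q E hEfin).1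
  exact ⟨↥E, ↥(compositumOver E E'.toIntermediateField), inferInstance, inferInstance,
    inferInstance, h1, h2, inferInstance, h3, h4⟩

/-- **KL-H123.** -/
theorem local_h123_of (hT : TransportSpec) (hO : OpenSubgroupSpec) :
    LocalH1Spec ∧ LocalH2Spec ∧ LocalH3Spec := by
  refine ⟨?_, ?_, ?_⟩
  · intro q _ U hU V
    obtain ⟨E, M, _, _, _, hfin, hgal, hloc, -, hiso⟩ := exists_transport775 hT hO q U hU V
    obtain ⟨e⟩ := hiso 1
    haveI := hfin
    haveI : Subsingleton (groupCohomology (Rep.ofAlgebraAutOnUnits E M) 1) :=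
      (inferInstance : Subsingleton (H1 (Rep.ofAlgebraAutOnUnits E M)))
    exact e.toLinearEquiv.toEquiv.subsingleton
  · intro q _ U hU V
    obtain ⟨E, M, _, _, _, hfin, hgal, hloc, hcard, hiso⟩ := exists_transport775 hT hO q U hU V
    obtain ⟨e⟩ := hiso 2
    haveI := hfin
    haveI := hgal
    haveI := hloc
    obtain ⟨f⟩ := L.Closed.h2Cyclic E M
    rw [hcard]
    exact ⟨e.toLinearEquiv.toAddEquiv.trans f⟩
  · intro q _ U hU V
    obtain ⟨E, M, _, _, _, hfin, hgal, hloc, -, hiso⟩ := exists_transport775 hT hO q U hU V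
    obtain ⟨e⟩ := hiso 3
    haveI := hfin
    haveI := hgal
    haveI := hloc
    haveI : Subsingleton (groupCohomology (Rep.ofAlgebraAutOnUnits E M) 3) := L.Closed.h3 E M
    exact e.toLinearEquiv.toEquiv.subsingleton

end Fermat.Agent.S55.KL.H775

end
-- ===== PACK-END S55/KL/LocalH123H775.lean

-- ===== PACK-BEGIN S55/KL/ClosedA4.lean
section






/-!
# S55, layer KL: input A4 (`PT.Surj2LocSpec`) of the duality engine, CLOSED

`surj2Loc : PT.Surj2LocSpec p S`, unconditionally, together with the closed forms of the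
local facts used on the way (`localH1`, `localH2`, `localH3`, `cd`, `localCd`,
`localKummerHyp`, `localSurjH2`).

Architect/owner: helper183.
-/

set_option autoImplicit false

namespace Fermat.Agent.S55.KL.A4

open Fermat.Agent.S55.KL

/-- Hilbert 90, `H²` cyclic of order the degree, `H³ = 0` for the levels of `Gal(ℚ̄_q/E)`. -/
theorem localH123 : LocalH1Spec ∧ LocalH2Spec ∧ LocalH3Spec :=
  H775.local_h123_of H496.transport H587.openSubgroup

theorem localH1 : LocalH1Spec := localH123.1

theorem localH2 : LocalH2Spec := localH123.2.1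

theorem localH3 : LocalH3Spec := localH123.2.2

/-- The abstract Kummer/dévissage machine: `KummerHyp ⇒ cd ≤ 2`. -/
theorem cd : CdSpec := cd_of_kummer H289.kummerH3

/-- The local hypotheses of the machine. -/
theorem localKummerHyp : LocalKummerHypSpec := localKummerHyp_of_h23 localH2 localH3

/-- `cd_p(Gal(ℚ̄_q/ℚ_q)) ≤ 2`. -/
theorem localCd : LocalCdSpec :=
  localCd_of_leaves H289.kummerH3 H795.cdScalars localH2 localH3

/-- **Input A4 of layer D**: `H²` of the local Galois groups is right exact on the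
`F_p`-representations. -/
theorem surj2Loc (p : ℕ) [Fact p.Prime] (S : Finset Nat.Primes) : PT.Surj2LocSpec p S :=
  surj2Loc_of_leaves H289.kummerH3 H795.cdScalars localH2 localH3 p S

end Fermat.Agent.S55.KL.A4

end
-- ===== PACK-END S55/KL/ClosedA4.lean

-- ===== PACK-BEGIN S55/PT/Final3.lean
section








/-!
# S55 / route C′: final wiring, version 3 (helper835)

A4 (local `cd_p ≤ 2`) is closed (layer KL, helper183).  The formal parts of layer K
(K-T1 helper635, K-T2 helper593, K-T3 helper397) and the reduction of `InvSpec` (helper3) are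
wired.  S55 is reduced to the ARITHMETIC FRONTIER of route C′:

* `K.KummerSpec p S`      (KUM: smooth `S`-units are `p`-divisible)           — proved (helper724)
* `K.H2DivESpec p S`      (GO1: `H²(G_S(K), 𝒪_Sˣ)` is `p`-divisible)
* `K.H3TorsESpec p S`     (GO2: `H³(G_S(K), 𝒪_Sˣ)[p] = 0`)
* `K.CapSpec p S`         (A8 cochain form; `⇐ KUM + GO3 HasseESpec + GO6 NormCapSpec`, K-T4)
* `Inv.LocDimSpec p S`    (`dim H²(G_v, Ind_W μ) ≤ 1`)                         — local
* `Inv.LocH2NeSpec p S`   (`H²(G_v, μ) ≠ 0`)                                   — local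
* `Inv.GlobCokerSpec p S` (GO4: global classes fill a hyperplane)
* `Inv.WeakRecipSpec p S` (GO5: weak reciprocity over `ℚ`)
* `Inv.MuLevelSpec p S`   (`ℚ(μ_p)` is an `S`-level)                           — proved (helper635)
-/

set_option autoImplicit false

noncomputable section

namespace Fermat.Agent.S55.PT

open groupCohomology ExtCitation Fermat.Agent.S55.Bridge

/-- **A3 from KUM + GO1 + GO2** (all formal steps of layer K wired). -/
theorem surj2Glob_of_GO {p : ℕ} [Fact p.Prime] (hp2 : p ≠ 2) (S : Finset Nat.Primes)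
    (hpS : pPrime p ∈ S) (hKum : K.KummerSpec p S) (hGO1 : K.H2DivESpec p S)
    (hGO2 : K.H3TorsESpec p S) : Surj2GlobSpec p S :=
  AdK.surj2Glob_of_K p S hp2 hpS
    (K.H635.surjH2_of p S (K.H593.h3Fin_of p S (K.H397.h3IndMu_of p S hKum hGO1 hGO2)))

/-- **S55 from the arithmetic frontier of route C′.** -/
theorem s55_of_frontier {p : ℕ} [Fact p.Prime] (hp2 : p ≠ 2) (S : Finset Nat.Primes)
    (hpS : pPrime p ∈ S)
    (hKum : K.KummerSpec p S) (hGO1 : K.H2DivESpec p S) (hGO2 : K.H3TorsESpec p S)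
    (hCap : K.CapSpec p S)
    (hDim : Inv.LocDimSpec p S) (hNe : Inv.LocH2NeSpec p S)
    (hCok : Inv.GlobCokerSpec p S) (hWR : Inv.WeakRecipSpec p S) (hMu : Inv.MuLevelSpec p S)
    (M : Rep (ZMod p) (AlgebraicClosure ℚ ≃ₐ[ℚ] AlgebraicClosure ℚ))
    [FiniteDimensional (ZMod p) M]
    (hsm : ∀ m : M, ∃ F : IntermediateField ℚ (AlgebraicClosure ℚ), FiniteDimensional ℚ F ∧
      ∀ s ∈ F.fixingSubgroup, M.ρ s m = m)
    (hMur : ∀ q : Nat.Primes, q ∉ S → ∀ A : ValuationSubring (AlgebraicClosure ℚ),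
      A.LiesOverPrime (q : ℕ) → ∀ g ∈ A.inertiaSubgroupIn ℚ, M.ρ g = 1) :
    ∃ B : sha₁ S (M.dualTwist (cycloChar p)) →ₗ[ZMod p] sha₂ S M →ₗ[ZMod p] ZMod p,
      (∀ y, (∀ x, B y x = 0) → y = 0) ∧ (∀ x, (∀ y, B y x = 0) → x = 0) :=
  s55_of_four hp2 S hpS (surj2Glob_of_GO hp2 S hpS hKum hGO1 hGO2) (KL.A4.surj2Loc p S)
    (Inv.invSpec_of' p S (KL.A4.surj2Loc p S) hDim hCok hWR hNe hMu)
    (AdK.cap_of_K p S hp2 hpS hCap) M hsm hMur

end Fermat.Agent.S55.PT

end

end
-- ===== PACK-END S55/PT/Final3.lean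

-- ===== PACK-BEGIN S55/KC/CFAtH475.lean
section



/-!
# S55 / layer KC, leaf KC-I2 (helper475): class formation ⇒ weak class formation on `Ind_H A`

`CFAt A V` is the class formation property at one normal subgroup `V` of finite index
(`H¹(H', A^V) = 0`, `H²(H', A^V) ≅ ℤ/|H'|` for all `H' ≤ G ⧸ V`).  Consequences:

* `CFAt.h3` : `H³(H', A^V) = 0` (T5d + Tate's theorem `T.TateH3Spec`);
* `self_h1`, `self_h2`, `self_h3` : the groups `Hⁱ(G ⧸ V, A^V)`;
* `ind_h1`, `ind_h2`, `ind_h3` : the groups `Hⁱ(G ⧸ V, (Ind_H A)^V)` for `V ≤ H` (finite Shapiro);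
* `ind_h1rel` : `H¹(V ⧸ V', (Ind_H A)^{V'}) = 0` for `V' ≤ V ≤ H`.
-/

set_option autoImplicit false

open CategoryTheory groupCohomology

namespace Fermat.Agent.S55.KC.H475

open Fermat.Agent.S55.T

noncomputable section

lemma card_map_mk {G : Type} [Group G] (H V : Subgroup G) [V.Normal] :
    Nat.card (H.map (QuotientGroup.mk' V)) = V.relIndex H := by
  have h1 : ((QuotientGroup.mk' V).comp H.subtype).range = H.map (QuotientGroup.mk' V) := by
    rw [MonoidHom.range_comp, Subgroup.range_subtype]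
  have h2 : ((QuotientGroup.mk' V).comp H.subtype).ker = V.subgroupOf H := by
    rw [← MonoidHom.comap_ker, QuotientGroup.ker_mk']
    rfl
  rw [← h1, ← Subgroup.index_ker, h2]
  rfl

variable {G : Type} [Group G] (A : Rep.{0} ℤ G)

/-- The class formation property at one normal subgroup `V`. -/
def CFAt (V : Subgroup G) [V.Normal] : Prop :=
  ∀ H' : Subgroup (G ⧸ V),
    Subsingleton (H1 (Rep.res H'.subtype (A.quotientToInvariants V))) ∧
      Nonempty (H2 (Rep.res H'.subtype (A.quotientToInvariants V)) ≃+ ZMod (Nat.card H'))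

variable {A}

theorem CFAt.h3 {V : Subgroup G} [V.Normal] [Finite (G ⧸ V)] (hcf : CFAt A V)
    (H' : Subgroup (G ⧸ V)) :
    Subsingleton (groupCohomology (Rep.res H'.subtype (A.quotientToInvariants V)) 3) := by
  obtain ⟨⟨γ, hγ⟩, -⟩ := All.classModuleOfCyclic (G ⧸ V) (A.quotientToInvariants V)
    (fun K => by
      have := (hcf K).1
      exact ModuleCat.isZero_of_subsingleton _)
    (fun K => (hcf K).2)
  exact ModuleCat.subsingleton_of_isZero (All.tateH3 (G ⧸ V) (A.quotientToInvariants V) γ hγ H')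

/-! ### `H = G` -/

section self

variable {V : Subgroup G} [V.Normal] (hcf : CFAt A V)

include hcf

theorem self_h1 : Subsingleton (H1 (A.quotientToInvariants V)) := by
  have := (hcf ⊤).1
  exact (H53.topIso (A.quotientToInvariants V) 1).symm.toLinearEquiv.toEquiv.subsingleton

theorem self_h3 [Finite (G ⧸ V)] : Subsingleton (groupCohomology (A.quotientToInvariants V) 3) := by
  have := hcf.h3 ⊤
  exact (H53.topIso (A.quotientToInvariants V) 3).symm.toLinearEquiv.toEquiv.subsingleton

theorem self_h2 : Nonempty (H2 (A.quotientToInvariants V) ≃+ ZMod V.index) := by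
  obtain ⟨e⟩ := (hcf ⊤).2
  have hcard : Nat.card (⊤ : Subgroup (G ⧸ V)) = V.index := by
    rw [Subgroup.card_top, Subgroup.index_eq_card]
  exact ⟨((H53.topIso (A.quotientToInvariants V) 2).symm.toLinearEquiv.toAddEquiv.trans e).trans
    (ZMod.ringEquivCongr hcard).toAddEquiv⟩

end self

/-! ### general `H` -/

section ind

variable {H : Subgroup G} {ρ : IndRepr A H} [Finite (G ⧸ H)]
  (hρ : IsDiag A H ρ) {V : Subgroup G} [V.Normal] (hVH : V ≤ H)
  (hcf : CFAt A V)

include hρ hVH hcf

theorem ind_h1 : Subsingleton (H1 (indQ A ρ V)) := by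
  have := (hcf (H.map (QuotientGroup.mk' V))).1
  exact (shapiro_ind hρ V hVH 1).1.subsingleton

theorem ind_h3 [Finite (G ⧸ V)] : Subsingleton (groupCohomology (indQ A ρ V) 3) := by
  have := hcf.h3 (H.map (QuotientGroup.mk' V))
  exact (shapiro_ind hρ V hVH 3).1.subsingleton

theorem ind_h2 : Nonempty (H2 (indQ A ρ V) ≃+ ZMod (V.relIndex H)) := by
  obtain ⟨e⟩ := (hcf (H.map (QuotientGroup.mk' V))).2
  exact ⟨((shapiroEquiv hρ V hVH 2).trans e).trans
    (ZMod.ringEquivCongr (card_map_mk H V)).toAddEquiv⟩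

end ind

/-- `H¹(V ⧸ V', (Ind_H A)^{V'}) = 0` for normal subgroups `V' ≤ V ≤ H`. -/
theorem ind_h1rel {H : Subgroup G} {ρ : IndRepr A H} [Finite (G ⧸ H)]
    (hρ : IsDiag A H ρ) {V' : Subgroup G} [V'.Normal] {V : Subgroup G} [V.Normal]
    (hV'V : V' ≤ V) (hVH : V ≤ H) (hcf : CFAt A V') :
    Subsingleton (H1 (Rep.res (V.map (QuotientGroup.mk' V')).subtype (indQ A ρ V'))) :=
  subsingleton_res_ind hρ V' (hV'V.trans hVH) (V.map (QuotientGroup.mk' V'))
    (fun _ x hg => smul_coset_eq V hVH (mem_of_mk_mem_map V' hV'V hg) x) 1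
    (hcf (V.map (QuotientGroup.mk' V'))).1

end

end Fermat.Agent.S55.KC.H475

end
-- ===== PACK-END S55/KC/CFAtH475.lean

-- ===== PACK-BEGIN S55/KC/IndWCFH475.lean
section



/-!
# S55 / layer KC, leaves KC-I2 and KC-I2' (helper475)

* `indWCF : IndWCFSpec` — a class formation induces a weak class formation on `Ind_H A`, with
  orders `[H : V]`;
* `selfWCF : SelfWCFSpec` — a class formation is a weak class formation, with orders `[G : V]`.

Both are unconditional (they use the landed `T`-layer: finite Shapiro in recognition form,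
`T.All.classModuleOfCyclic`, `T.All.tateH3`, `T.H415.finiteProd`).
-/

set_option autoImplicit false

open CategoryTheory groupCohomology

namespace Fermat.Agent.S55.KC.H475

open Fermat.Agent.S55.PT

lemma isDiag_indRhoR {G : Type} [Group G] (H : Subgroup G) (A : Rep.{0, 0, 0} ℤ G) :
    IsDiag A H (indRhoR H A) :=
  fun g x a => indActR_single H A g x a

lemma cfAt_of {G : Type} [Group G] {L : LevelSys G} {A : Rep.{0, 0, 0} ℤ G}
    (hcf : IsClassFormation L A) (V : Subgroup G) [V.Normal] (hV : V ∈ L.levels) : CFAt A V :=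
  fun H' => hcf V hV H'

/-- **KC-I2'.** -/
theorem selfWCF : SelfWCFSpec := by
  intro G _ L A V₀ hfin hcf _
  refine ⟨?_, ?_, ?_, ?_, ?_⟩
  · intro V _ hV _
    exact self_h1 (cfAt_of hcf V hV)
  · intro V' _ V _ hV' _ _ _
    exact (hcf V' hV' _).1
  · intro V _ hV _
    exact self_h2 (cfAt_of hcf V hV)
  · intro V _ hV _
    have := hfin V hV
    exact Nat.pos_of_ne_zero Subgroup.FiniteIndex.index_ne_zero
  · intro V _ hV _
    have := hfin V hV
    exact self_h3 (cfAt_of hcf V hV)

/-- **KC-I2.** -/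
theorem indWCF : IndWCFSpec := by
  intro G _ L A H V₀ hfin hcf hV₀ hV₀H
  have hfin₀ : V₀.FiniteIndex := hfin V₀ hV₀
  have hHfin : H.FiniteIndex := Subgroup.finiteIndex_of_le hV₀H
  have : Finite (G ⧸ H) := inferInstance
  refine ⟨?_, ?_, ?_, ?_, ?_⟩
  · intro V _ hV hVV₀
    exact ind_h1 (isDiag_indRhoR H A) (hVV₀.trans hV₀H) (cfAt_of hcf V hV)
  · intro V' _ V _ hV' _ hV'V hVV₀
    exact ind_h1rel (isDiag_indRhoR H A) hV'V (hVV₀.trans hV₀H) (cfAt_of hcf V' hV')
  · intro V _ hV hVV₀
    exact ind_h2 (isDiag_indRhoR H A) (hVV₀.trans hV₀H) (cfAt_of hcf V hV)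
  · intro V _ hV hVV₀
    have := hfin V hV
    have h1 : V.relIndex H ∣ V.index := Subgroup.relIndex_dvd_index_of_le (hVV₀.trans hV₀H)
    exact Nat.pos_of_ne_zero (fun h0 => Subgroup.FiniteIndex.index_ne_zero (H := V)
      (by rw [h0] at h1; exact Nat.eq_zero_of_zero_dvd h1))
  · intro V _ hV hVV₀
    have := hfin V hV
    exact ind_h3 (isDiag_indRhoR H A) (hVV₀.trans hV₀H) (cfAt_of hcf V hV)

end Fermat.Agent.S55.KC.H475

end
-- ===== PACK-END S55/KC/IndWCFH475.lean

-- ===== PACK-BEGIN S55/KC/ClassFormH323.lean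
section






/-!
# S55 / layer KC, leaf KC-A1: `LocalClassFormationSpec`          (helper323, subtask 451)

`(G_{ℚ_q}, ℚ̄_qˣ)` is a class formation for the level system `localLevels q`.

Route.  A normal level `V = r⁻¹(G_F)` (`F/ℚ` finite) is `Gal(ℚ̄_q/E)` with `E = ℚ_q(ι β)`,
`F = ℚ(β)`, and `E/ℚ_q` is finite Galois; so `V` is a level of `KL.galLevels`.  For
`H' ≤ G ⧸ V` with preimage `U`, layer KL (`KL.H775.local_h123_of`, on main, unconditional) gives
`H¹(U/V, (Ωˣ)^V) = 0` and `H²(U/V, (Ωˣ)^V) ≅ ℤ/[U : V]`; the formal dictionary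
`resQuotIso_h323` translates to `H'`.
-/

set_option autoImplicit false
set_option linter.style.haveILetI false
set_option linter.unusedSectionVars false

noncomputable section

namespace Fermat.Agent.S55.KC.H323

open groupCohomology CategoryTheory ExtCitation Fermat.Agent.S55 Fermat.Agent.S55.PT

/-! ## Field theory: fixing a simple extension -/

/-- `τ` fixes `K(a)` pointwise iff `τ a = a`. -/
lemma mem_fixingSubgroup_adjoin_h323 {K Ω : Type} [Field K] [Field Ω] [Algebra K Ω] (a : Ω)
    (τ : Ω ≃ₐ[K] Ω) :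
    τ ∈ (IntermediateField.adjoin K {a}).fixingSubgroup ↔ τ a = a := by
  constructor
  · intro h
    exact (IntermediateField.mem_fixingSubgroup_iff _ _).1 h a
      (IntermediateField.subset_adjoin K _ (Set.mem_singleton a))
  · intro h
    rw [IntermediateField.mem_fixingSubgroup_iff]
    intro y hy
    have hle : IntermediateField.adjoin K {a} ≤
        IntermediateField.fixedField (Subgroup.zpowers τ) := by
      rw [IntermediateField.adjoin_le_iff]
      rintro z hz
      rw [Set.mem_singleton_iff] at hz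
      subst hz
      rintro ⟨σ, hσ⟩
      obtain ⟨n, rfl⟩ := Subgroup.mem_zpowers_iff.1 hσ
      show (τ ^ n) z = z
      have hfix : τ ∈ MulAction.stabilizer (Ω ≃ₐ[K] Ω) z := h
      exact (Subgroup.zpow_mem _ hfix n : _)
    exact hle hy ⟨τ, Subgroup.mem_zpowers τ⟩

/-- A finite-dimensional intermediate field is generated by one element. -/
lemma exists_eq_adjoin_h323 {K Ω : Type} [Field K] [Field Ω] [Algebra K Ω] [CharZero K]
    (F : IntermediateField K Ω) [FiniteDimensional K F] :
    ∃ b : Ω, F = IntermediateField.adjoin K {b} := by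
  obtain ⟨β, hβ⟩ := Field.exists_primitive_element K F
  refine ⟨(β : Ω), ?_⟩
  have h1 : IntermediateField.lift (IntermediateField.adjoin K {β}) =
      IntermediateField.adjoin K {(β : Ω)} := by
    rw [IntermediateField.lift_adjoin, Set.image_singleton]
  rw [← h1, hβ, IntermediateField.lift_top]

/-! ## Local levels are Galois levels -/

section Levels

variable (q : ℕ) [Fact q.Prime]

/-- A pulled-back level `r⁻¹(G_F)` of `Gal(ℚ̄_q/ℚ_q)` is `Gal(ℚ̄_q/E)` for a finite extension
`E/ℚ_q`. -/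
lemma exists_fixingSubgroup_eq_h323 (F : IntermediateField ℚ (AlgebraicClosure ℚ))
    [FiniteDimensional ℚ F] :
    ∃ E : IntermediateField ℚ_[q] (PadicAlgCl q), FiniteDimensional ℚ_[q] E ∧
      F.fixingSubgroup.comap (localGaloisToGlobal q) = E.fixingSubgroup := by
  obtain ⟨b, rfl⟩ := exists_eq_adjoin_h323 F
  refine ⟨IntermediateField.adjoin ℚ_[q] {padicEmbedding q b},
    IntermediateField.adjoin.finiteDimensional (Algebra.IsIntegral.isIntegral _), ?_⟩
  ext τ
  rw [Subgroup.mem_comap, mem_fixingSubgroup_adjoin_h323, mem_fixingSubgroup_adjoin_h323,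
    ← padicEmbedding_localGaloisToGlobal]
  exact ⟨fun h => congrArg _ h, fun h => (padicEmbedding q).injective h⟩

/-- A NORMAL pulled-back level is a level of `KL.galLevels`. -/
lemma mem_galLevels_h323 (V : Subgroup (PadicAlgCl q ≃ₐ[ℚ_[q]] PadicAlgCl q)) (hn : V.Normal)
    (hV : ∃ F : IntermediateField ℚ (AlgebraicClosure ℚ),
      FiniteDimensional ℚ F ∧ V = F.fixingSubgroup.comap (localGaloisToGlobal q)) :
    V ∈ (KL.galLevels ℚ_[q] (PadicAlgCl q)).carrier := by
  obtain ⟨F, hF, rfl⟩ := hV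
  haveI := hF
  obtain ⟨E, hE, hEq⟩ := exists_fixingSubgroup_eq_h323 q F
  haveI := hE
  rw [hEq] at hn ⊢
  haveI : IsGalois ℚ_[q] E := (InfiniteGalois.normal_iff_isGalois E).1 hn
  exact ⟨⟨E⟩, rfl⟩

end Levels

/-! ## The class formation property for `Gal(ℚ̄_q/ℚ_q)` -/

section Main

variable (q : ℕ) [Fact q.Prime]

/-- KC-A1 for `Ω = PadicAlgCl q`, stated on the `AlgEquiv` group. -/
theorem classFormation_aux_h323
    (V : Subgroup (PadicAlgCl q ≃ₐ[ℚ_[q]] PadicAlgCl q)) [hn : V.Normal]
    (hV : ∃ F : IntermediateField ℚ (AlgebraicClosure ℚ),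
      FiniteDimensional ℚ F ∧ V = F.fixingSubgroup.comap (localGaloisToGlobal q))
    (H' : Subgroup ((PadicAlgCl q ≃ₐ[ℚ_[q]] PadicAlgCl q) ⧸ V)) :
    Subsingleton (H1 (Rep.res H'.subtype
        ((KL.unitsOm ℚ_[q] (PadicAlgCl q)).quotientToInvariants V))) ∧
      Nonempty (H2 (Rep.res H'.subtype
        ((KL.unitsOm ℚ_[q] (PadicAlgCl q)).quotientToInvariants V)) ≃+ ZMod (Nat.card H')) := by
  obtain ⟨h1, h2, -⟩ := KL.H775.local_h123_of KL.H496.transport KL.H587.openSubgroup
  have hmem : V ∈ (KL.galLevels ℚ_[q] (PadicAlgCl q)).carrier := mem_galLevels_h323 q V hn hV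
  have hopen : (KL.galLevels ℚ_[q] (PadicAlgCl q)).IsOpen (preimg_h323 V H') :=
    ⟨V, hmem, le_preimg_h323 V H'⟩
  let lvl : ((KL.galLevels ℚ_[q] (PadicAlgCl q)).restrict (preimg_h323 V H')).Lvl :=
    ⟨V.subgroupOf (preimg_h323 V H'), ⟨V, hmem, rfl⟩⟩
  have e1 := resQuotIso_h323 (KL.unitsOm ℚ_[q] (PadicAlgCl q)) V H' 1
  have e2 := resQuotIso_h323 (KL.unitsOm ℚ_[q] (PadicAlgCl q)) V H' 2
  refine ⟨?_, ?_⟩
  · haveI : Subsingleton (groupCohomology
        (srcRep_h323 (KL.unitsOm ℚ_[q] (PadicAlgCl q)) V H') 1) := h1 q (preimg_h323 V H') hopen lvl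
    exact e1.symm.toLinearEquiv.toEquiv.subsingleton
  · obtain ⟨f⟩ := h2 q (preimg_h323 V H') hopen lvl
    have hcard : Nat.card (↥(preimg_h323 V H') ⧸ lvl.W) = Nat.card ↥H' := card_quot_h323 V H'
    rw [hcard] at f
    exact ⟨e2.symm.toLinearEquiv.toAddEquiv.trans f⟩

end Main

/-- **KC-A1.**  `(G_{ℚ_q}, ℚ̄_qˣ)` is a class formation. -/
theorem localClassFormation : LocalClassFormationSpec := by
  intro q
  letI : Fact (q : ℕ).Prime := ⟨q.2⟩
  intro V hn hV H'
  exact @classFormation_aux_h323 (q : ℕ) _ V hn hV H'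

end Fermat.Agent.S55.KC.H323

end

end
-- ===== PACK-END S55/KC/ClassFormH323.lean

-- ===== PACK-BEGIN S55/KC/All.lean
section


















/-!
# S55 / layer KC: index of proved leaves          (architect: helper53, append-only)

One canonical proof of every leaf of `KC/Spec.lean` that is available on main.

Proved: KC-P1 `finLocOfFrattini`, KC-P2 `surj2OfH3`, KC-P4 `topLocIndOf`, KC-K2 `kummerH2`,
KC-K3 `kummerH3`, KC-D1 `h1VanishOfAt`, KC-D2 `h2OfAt`, KC-D3 `h3VanishOfAt`, KC-QInf `qInf`,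
KC-I0 `indKummer`, KC-I4' `pUnboundedRel`, KC-A0 `localLevels`, KC-A3 `localPUnbounded`,
KC-A4 `localFrattini`.
KC-P3 `h3Devissage`, KC-Q1 `q1`, KC-Q2 `q2`, KC-Q3 `q3`, KC-I2 `indWCF`, KC-I2' `selfWCF`,
KC-A5 `localMu`; bundles `dictLeaves`, `kummerLeaves`, `indLeaves`.
KC-A2 `localKummerEmb`.
KC-A1 `localClassFormation` (helper323).  **LAYER KC IS COMPLETE**: unconditional outputs
`h2IndCard`, `h2MuCard`, `localH3Vanish`, `surj2Loc`, `topLocInd` at the end of this file.
Conditional outputs: `h2IndCard_of`, `h2MuCard_of`, `localH3Vanish_of`, `surj2Loc_of`, `topLocInd_of`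
(hypotheses: `LocalClassFormationSpec`, `LocalKummerEmbSpec`), and `h2IndCard_of'`, `h2MuCard_of'`,
`topLocInd_of'` (hypothesis: `LocalClassFormationSpec` only).
-/

set_option autoImplicit false

namespace Fermat.Agent.S55.KC.All

open Fermat.Agent.S55.PT

/-- KC-A0 (helper424, `PT/FrattiniH424.lean`). -/
theorem localLevels : LocalLevelsSpec := fun q =>
  ⟨H424.localLevels_normalCofinal q, H424.localLevels_finiteIndex q⟩

/-- KC-A4 (helper424, `PT/FrattiniH424.lean`). -/
theorem localFrattini : LocalFrattiniSpec := fun p _ q => H424.localLevels_pFrattini p q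

/-- KC-K2 (helper53; also helper918). -/
theorem kummerH2 : KummerH2Spec := H53.kummerH2

/-- KC-K3 (helper53; also helper918, helper510). -/
theorem kummerH3 : KummerH3Spec := H53.kummerH3

/-- Block K is complete. -/
theorem kummerLeaves : KummerLeaves := ⟨kummerH2, kummerH3⟩

/-- KC-P1 (helper539). -/
theorem finLocOfFrattini : FinLocOfFrattiniSpec := H539.finLocOfFrattini

/-- KC-P2 (helper510; also helper998). -/
theorem surj2OfH3 : Surj2OfH3Spec := H510.surj2OfH3

/-- KC-P4 (helper510). -/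
theorem topLocIndOf : TopLocIndOfSpec := H510.topLocIndOf

/-- KC-D1 (helper287; also helper357). -/
theorem h1VanishOfAt : H1VanishOfAtSpec := H287.h1VanishOfAt

/-- KC-D3 (helper287; also helper357). -/
theorem h3VanishOfAt : H3VanishOfAtSpec := H287.h3VanishOfAt

/-- KC-D2 (helper287). -/
theorem h2OfAt : H2OfAtSpec := H287.h2OfAt

/-- KC-QInf (helper73). -/
theorem qInf : QInfSpec := H73.qInf

/-- KC-I0 (helper323). -/
theorem indKummer : IndKummerSpec := H323.indKummer

/-- KC-I4' (helper323). -/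
theorem pUnboundedRel : PUnboundedRelSpec := H323.pUnboundedRel

/-- KC-A3 (helper707). -/
theorem localPUnbounded : LocalPUnboundedSpec := PUnboundedH707.localPUnboundedSpec

/-- Output A2 (`PT.FinLocSpec`), unconditional. -/
theorem finLoc (p : ℕ) [Fact p.Prime] (S : Finset Nat.Primes) : FinLocSpec p S := by
  intro q _ N hN hNsm
  exact finLocOfFrattini (Gl q) (PT.localLevels q) p (All.localLevels q).2 (localFrattini p q) N
    hN hNsm

/-- KC-Q1 (helper321). -/
theorem q1 : Q1Spec := H321.q1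

/-- KC-Q2 (helper321). -/
theorem q2 : Q2Spec := H321.q2

/-- KC-Q3 (helper919, `H919/Q3Core.lean`). -/
theorem q3 : Q3Spec := fun _ _ B V _ h z hz hc =>
  Fermat.Agent.S55.H919.h3VanishAt_of_subsingleton_h919 B V h z hz hc

/-- KC-P3 (helper696, `H696/Devissage.lean`). -/
theorem h3Devissage : H3DevissageSpec := fun G _ L p _ μ a b c d e R f g =>
  Fermat.Agent.S55.H696.devissage G L p μ a b c d e R f g

/-- KC-I2 (helper475). -/
theorem indWCF : IndWCFSpec := H475.indWCF

/-- KC-I2' (helper475). -/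
theorem selfWCF : SelfWCFSpec := H475.selfWCF

/-- KC-A5 (helper587, `H587/LocalLevels.lean`). -/
theorem localMu : LocalMuSpec := fun p _ q =>
  ⟨Fermat.Agent.S55.H587.muLoc_finrank p q, Fermat.Agent.S55.H587.muLoc_isUSmooth p q⟩

/-- Blocks Q and D are complete. -/
theorem dictLeaves : DictLeaves := ⟨q1, q2, q3, qInf, h1VanishOfAt, h2OfAt, h3VanishOfAt⟩

/-- Block I is complete. -/
theorem indLeaves : IndLeaves := ⟨indKummer, indWCF, selfWCF, pUnboundedRel⟩

/-- The arithmetic block, given the two open leaves KC-A1 and KC-A2. -/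
theorem arithLeaves_of (hCF : LocalClassFormationSpec) (hKE : LocalKummerEmbSpec) :
    ArithLeaves := ⟨All.localLevels, hCF, hKE, localPUnbounded, localFrattini, localMu⟩

/-- `|H²(G_q, Ind_W μ_p)| = p`, given KC-A1 and KC-A2. -/
theorem h2IndCard_of (hCF : LocalClassFormationSpec) (hKE : LocalKummerEmbSpec) :
    H2IndCardSpec := h2IndCard dictLeaves kummerLeaves indLeaves (arithLeaves_of hCF hKE)

/-- `|H²(G_q, μ_p)| = p`, given KC-A1 and KC-A2. -/
theorem h2MuCard_of (hCF : LocalClassFormationSpec) (hKE : LocalKummerEmbSpec) :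
    H2MuCardSpec := h2MuCard dictLeaves kummerLeaves indLeaves (arithLeaves_of hCF hKE)

/-- `H³_lc(G_q, R) = 0` for finite `R`, given KC-A1 and KC-A2. -/
theorem localH3Vanish_of (hCF : LocalClassFormationSpec) (hKE : LocalKummerEmbSpec) :
    LocalH3VanishSpec :=
  localH3Vanish h3Devissage dictLeaves kummerLeaves indLeaves (arithLeaves_of hCF hKE)

/-- A4 (`PT.Surj2LocSpec`), given KC-A1 and KC-A2  (unconditional proof: `KL.A4.surj2Loc`,
helper183). -/
theorem surj2Loc_of (hCF : LocalClassFormationSpec) (hKE : LocalKummerEmbSpec)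
    (p : ℕ) [Fact p.Prime] (S : Finset Nat.Primes) : Surj2LocSpec p S :=
  surj2Loc p surj2OfH3 h3Devissage dictLeaves kummerLeaves indLeaves (arithLeaves_of hCF hKE) S

/-- A6 (`PT.TopLocIndSpec inv`) for every family of bijective maps `inv`, given KC-A1, KC-A2. -/
theorem topLocInd_of (hCF : LocalClassFormationSpec) (hKE : LocalKummerEmbSpec)
    (p : ℕ) [Fact p.Prime] (S : Finset Nat.Primes) (inv : InvFamily p S)
    (hinv : ∀ v : ↥S, Function.Bijective (inv v)) : TopLocIndSpec inv :=
  topLocInd p surj2OfH3 h3Devissage topLocIndOf dictLeaves kummerLeaves indLeaves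
    (arithLeaves_of hCF hKE) S inv hinv

/-- KC-A2 (helper374, `Local/H374/KummerEmb.lean`). -/
theorem localKummerEmb : LocalKummerEmbSpec := by
  intro p _ q
  refine ⟨Fermat.Agent.S55.Local.H374.unitsQ_isSmooth q,
    Fermat.Agent.S55.Local.H374.unitsQ_divisible p (Fact.out : p.Prime).pos q, ?_⟩
  obtain ⟨ι, h1, h2, h3⟩ := Fermat.Agent.S55.Local.H374.exists_kummerEmb p q
  exact ⟨ι, ⟨h1, h2, h3⟩⟩

/-- `|H²(G_q, Ind_W μ_p)| = p`, given KC-A1 only. -/
theorem h2IndCard_of' (hCF : LocalClassFormationSpec) : H2IndCardSpec :=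
  h2IndCard_of hCF localKummerEmb

/-- `|H²(G_q, μ_p)| = p`, given KC-A1 only. -/
theorem h2MuCard_of' (hCF : LocalClassFormationSpec) : H2MuCardSpec :=
  h2MuCard_of hCF localKummerEmb

/-- A6 (`PT.TopLocIndSpec inv`) for every family of bijective maps `inv`, given KC-A1 only. -/
theorem topLocInd_of' (hCF : LocalClassFormationSpec)
    (p : ℕ) [Fact p.Prime] (S : Finset Nat.Primes) (inv : InvFamily p S)
    (hinv : ∀ v : ↥S, Function.Bijective (inv v)) : TopLocIndSpec inv :=
  topLocInd_of hCF localKummerEmb p S inv hinv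

/-- KC-A1 (helper323, `KC/ClassFormH323.lean`). -/
theorem localClassFormation : LocalClassFormationSpec := H323.localClassFormation

/-- Block A is complete. -/
theorem arithLeaves : ArithLeaves := arithLeaves_of localClassFormation localKummerEmb

/-- **KC output**: `|H²(G_q, Ind_W μ_p)| = p`, unconditionally. -/
theorem h2IndCardClosed : H2IndCardSpec := h2IndCard_of' localClassFormation

/-- **KC output**: `|H²(G_q, μ_p)| = p`, unconditionally. -/
theorem h2MuCardClosed : H2MuCardSpec := h2MuCard_of' localClassFormation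

/-- **KC output**: `H³_lc(G_q, R) = 0` for finite `R`, unconditionally. -/
theorem localH3VanishClosed : LocalH3VanishSpec :=
  localH3Vanish_of localClassFormation localKummerEmb

/-- **KC output** A4 (`PT.Surj2LocSpec`), unconditionally (second proof; first: `KL.A4.surj2Loc`,
helper183). -/
theorem surj2LocClosed (p : ℕ) [Fact p.Prime] (S : Finset Nat.Primes) : Surj2LocSpec p S :=
  surj2Loc_of localClassFormation localKummerEmb p S

/-- **KC output** A6 (`PT.TopLocIndSpec inv`) for every family of bijective maps `inv`,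
unconditionally. -/
theorem topLocIndClosed (p : ℕ) [Fact p.Prime] (S : Finset Nat.Primes) (inv : InvFamily p S)
    (hinv : ∀ v : ↥S, Function.Bijective (inv v)) : TopLocIndSpec inv :=
  topLocInd_of' localClassFormation p S inv hinv

end Fermat.Agent.S55.KC.All

end
-- ===== PACK-END S55/KC/All.lean

-- ===== PACK-BEGIN S55/Inv/GO4/H978/LocDesc.lean
section










/-!
# S55 / `InvSpec` / GO4-LD (helper978): `locDesc : LocDescLeaf p S`

Local descent of `p`-torsion level-constant classes of `H²(G_q, Ind_{K₀.U} ℚ̄_qˣ)` to the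
`S`-tower, from the unboundedness of the local `p`-degrees (`K.AR.DecUnbounded`).

Steps (blueprint `coord/S55-INV-GO4.md` §2):
* `exists_level_dvd`  : an `S`-level `L ≥ K₀` with `p ∣ [K₀.V q : L.V q]`;
* `Abs.exists_mem_Z2At_of_torsion` for `indR W ℚ̄_qˣ` (weak class formation, KC layer);
* `Orbit.exists_sum_of_single` : orbit decomposition of `K.ind (rl q) K₀.U ℚ̄_qˣ`;
* `Descent.descent` : descent to the finite quotient `Dec_q(L)`.
-/

set_option autoImplicit false
set_option linter.style.haveILetI false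

noncomputable section

namespace Fermat.Agent.S55.Inv.GO4.H978

open Fermat.Agent.S55 Fermat.Agent.S55.Tow Fermat.Agent.S55.PT groupCohomology
open Fermat.Agent.S55.KC

variable {S : Finset Nat.Primes}

/-- **Step A.**  From `DecUnbounded`: an `S`-level `L ≥ K₀` with `p ∣ [K₀.V q : L.V q]`. -/
theorem exists_level_dvd (p : ℕ) (hp : p.Prime) (hDec : K.AR.DecUnbounded S p)
    (K₀ : Level S) (q : S) :
    ∃ (L : Level S) (_ : K₀ ≤ L), p ∣ (L.V q.1).relIndex (K₀.V q.1) := by
  set m : ℕ := Nat.card (K₀.Dec q.1) with hm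
  have hmpos : 0 < m := Nat.card_pos
  obtain ⟨L, hKL, hdvd⟩ := hDec K₀ m
  refine ⟨L, hKL, ?_⟩
  have h1 : p ^ m ∣ Nat.card (L.Dec q.1) := hdvd q.1 q.2
  have h2 : (L.V q.1).relIndex (K₀.V q.1) * (K₀.V q.1).index = (L.V q.1).index :=
    Subgroup.relIndex_mul_index (Level.V_anti hKL q.1)
  have h3 : Nat.card (L.Dec q.1) = (L.V q.1).index := rfl
  have h4 : m = (K₀.V q.1).index := rfl
  rw [h3, ← h2, ← h4] at h1
  by_contra hnd
  have hcop : Nat.Coprime (p ^ m) ((L.V q.1).relIndex (K₀.V q.1)) :=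
    Nat.Coprime.pow_left m ((Nat.Prime.coprime_iff_not_dvd hp).2 hnd)
  have h5 : p ^ m ∣ m := hcop.dvd_of_dvd_mul_left h1
  have h6 := Nat.le_of_dvd hmpos h5
  have h7 := Nat.lt_pow_self hp.one_lt (n := m)
  omega

/-- **GO4-LD.** -/
theorem locDesc (p : ℕ) (S : Finset Nat.Primes) : LocDescLeaf p S := by
  intro hp hDec K₀ q X hX hpX
  haveI : Fact p.Prime := ⟨hp⟩
  obtain ⟨L, hKL, hpn⟩ := exists_level_dvd p hp hDec K₀ q
  -- the local level system
  have hNC : (localLevels q.1).NormalCofinal := H424.localLevels_normalCofinal q.1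
  have hFI : (localLevels q.1).FiniteIndex := H424.localLevels_finiteIndex q.1
  have hW : K₀.U.comap (rl q.1) ∈ (localLevels q.1).levels := ⟨K₀.F, K₀.unram.1, rfl⟩
  have hV₁ : L.V q.1 ∈ (localLevels q.1).levels := ⟨L.F, L.unram.1, rfl⟩
  have hV₁n : (L.V q.1).Normal := inferInstance
  have hV₁le : L.V q.1 ≤ K₀.U.comap (rl q.1) := Level.V_anti hKL q.1
  -- the weak class formation `indR W ℚ̄_qˣ`
  have hCF : IsClassFormation (localLevels q.1) (Tow.unitsQpbar q.1) :=
    H323.localClassFormation q.1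
  have hWCF : IsWCF (localLevels q.1) (indR (K₀.U.comap (rl q.1)) (Tow.unitsQpbar q.1))
      (K₀.U.comap (rl q.1)) (fun V => V.relIndex (K₀.U.comap (rl q.1))) :=
    H475.indWCF (Gl q.1) (localLevels q.1) (Tow.unitsQpbar q.1) _ _ hFI hCF hW le_rfl
  have hsmA : (localLevels q.1).IsSmooth (Tow.unitsQpbar q.1) :=
    Fermat.Agent.S55.Local.H374.unitsQ_isSmooth q.1
  have hsm : (localLevels q.1).IsSmooth (indR (K₀.U.comap (rl q.1)) (Tow.unitsQpbar q.1)) :=
    H323.isSmooth_indR_h323 (localLevels q.1) hNC ⟨_, hW, le_rfl⟩ (Tow.unitsQpbar q.1) hsmA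
  have hsingle := fun Y hY hpY =>
    exists_mem_Z2At_of_torsion (localLevels q.1) p
      (indR (K₀.U.comap (rl q.1)) (Tow.unitsQpbar q.1)) (K₀.U.comap (rl q.1))
      (fun V => V.relIndex (K₀.U.comap (rl q.1))) hNC hFI hsm
      (fun V hV hVn hle => by
        haveI := hVn
        exact ⟨hWCF.npos V hV hle, ⟨(H321.q2 (Gl q.1) _ V).some.trans (hWCF.h2 V hV hle).some⟩⟩)
      (fun V' V hV' hV'n hV hVn hle hle0 f hf hc => by
        haveI := hV'n
        haveI := hVn
        exact H73.qInf (Gl q.1) _ V' V hle (hWCF.h1rel V' V hV' hV hle hle0) f hf hc)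
      (L.V q.1) hV₁ hV₁n hV₁le hpn Y hY hpY
  obtain ⟨X', hX'Z, hXX', hX'C⟩ :=
    exists_sum_of_single (rl q.1) K₀.U (Tow.unitsQpbar q.1) (localLevels q.1) p (L.V q.1)
      hsingle X hX hpX
  obtain ⟨τ, hτ, hpτ, hloc⟩ := descent S K₀ L hKL q.1 p X' hX'Z hX'C
  exact ⟨L, hKL, τ, hτ, hpτ, by rw [hloc]; exact hXX'⟩

end Fermat.Agent.S55.Inv.GO4.H978

end

end
-- ===== PACK-END S55/Inv/GO4/H978/LocDesc.lean

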