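import Fermat.Agent.Pack.S56.E20L1
import Fermat.Agent.Pack.S56.E15L2
import Fermat.Agent.Pack.S56.E15L1
import Fermat.Agent.Pack.S56.E4L3
import Fermat.Agent.Pack.S56.E20L2
import Fermat.Agent.Pack.S56.E19L1
import Fermat.Agent.Pack.S56.E20L0
import Fermat.Agent.Pack.S56.E20L3

-- ===== PACK-BEGIN S55/G/LocH897/TowOrb.lean
section


/-!
# S55 / G-ADAPTER, J-bridge (helper897), part 3: places of a tower level

For a tower level `L` and `q ∈ S`: `placeQ L q` is the place of `F = L.F` above `q` cut out by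
the Prelude embedding `ℚ̄ → ℚ̄_q` (the kernel of `evQ`).  Every place of `F` above `S` is
conjugate under `Gal(F/ℚ)` to exactly one `placeQ L q` (`evQ_cover`, `evQ_disj`).
-/

set_option autoImplicit false
set_option linter.style.haveILetI false
set_option linter.unusedSectionVars false

open scoped TensorProduct

namespace Fermat.Agent.S55.G.LocH897

open Fermat.Agent.S55 Fermat.Agent.S55.Tow Fermat.Agent.S55.Bridge.H175 Fermat.Agent.S55.E1.H594
open Fermat.Agent.S55.G Fermat.Agent.S55.G.PL0H713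

noncomputable section

variable {S : Finset Nat.Primes} (L : Level S) (q : S)

/-- The place of `F` above `q` given by the Prelude embedding `ι_q : ℚ̄ → ℚ̄_q`. -/
def placeQ : SPlace S L.F where
  asIdeal := RingHom.ker (evQ L q)
  isMaximal := by
    haveI := _root_.Fermat.Agent.S55.G.LocH897.isArtinianRing_AS S L.F
    haveI : (RingHom.ker (evQ L q)).IsPrime := RingHom.ker_isPrime (evQ L q)
    exact IsArtinianRing.isMaximal_of_isPrime _

lemma mem_placeQ (x : AS S L.F) : x ∈ (placeQ L q).asIdeal ↔ evQ L q x = 0 := RingHom.mem_ker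

/-- The place `placeQ L q` lies over `q`. -/
theorem primeOf_placeQ : primeOf S L.F (placeQ L q) = q := by
  by_contra hne
  have h1 : LocField.mk S (placeQ L q) ((1 : L.F) ⊗ₜ[ℚ] single S q 1) = 0 := by
    rw [mk_one_tmul, single_apply_ne S q _ hne, map_zero]
  rw [LocField.mk_eq_zero_iff, mem_placeQ, evQ_one_tmul_single, map_one] at h1
  exact one_ne_zero h1

lemma level_hfix (x : L.F) (hx : ∀ g : L.Gal, g • x = x) : ∃ c : ℚ, algebraMap ℚ L.F c = x :=
  (level_isGaloisGroup L).isInvariant.isInvariant x hx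

/-- Every place above `S` is conjugate to some `placeQ L q`. -/
theorem evQ_cover (𝔫 : Ideal (AS S L.F)) (h𝔫 : 𝔫.IsMaximal) :
    ∃ (q : S) (g : L.Gal), ∀ x, x ∈ 𝔫 ↔ evQ L q (asRingAut L.Gal S L.F g x) = 0 := by
  set 𝔫' : SPlace S L.F := ⟨𝔫, h𝔫⟩ with h𝔫'
  obtain ⟨g, hg⟩ := exists_sPlaceSMul_eq S L.Gal L.F (level_hfix L)
    (placeQ L (primeOf S L.F 𝔫')) 𝔫' (primeOf_placeQ L _)
  refine ⟨primeOf S L.F 𝔫', g⁻¹, fun x => ?_⟩
  rw [← mem_placeQ, ← mem_sPlaceSMul_iff', hg]

/-- The places `placeQ L q`, `q ∈ S`, are pairwise non-conjugate. -/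
theorem evQ_disj (i j : S) (g : L.Gal)
    (h : ∀ x, evQ L j x = 0 ↔ evQ L i (asRingAut L.Gal S L.F g x) = 0) : i = j := by
  have h1 : sPlaceSMul S L.Gal g⁻¹ (placeQ L i) = placeQ L j := by
    refine MaximalSpectrum.ext (Ideal.ext fun x => ?_)
    rw [mem_sPlaceSMul_iff', inv_inv, mem_placeQ, mem_placeQ, h]
  have h2 := primeOf_sPlaceSMul S L.Gal L.F g⁻¹ (placeQ L i)
  rw [h1, primeOf_placeQ, primeOf_placeQ] at h2
  exact h2.symm

end

end Fermat.Agent.S55.G.LocH897

end
-- ===== PACK-END S55/G/LocH897/TowOrb.lean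

-- ===== PACK-BEGIN S55/G/LocH897/TowJ.lean
section


/-!
# S55 / G-ADAPTER, J-bridge (helper897), part 4: `J_S(F) ≅ ∏_{q ∈ S} J_q(F)`

For a tower level `L : Tow.Level S` (field `F = L.F`, group `L.Gal`):
* `jTow L q : G.JRep L.Gal S L.F ⟶ L.J q` : the morphism `(F ⊗ ℚ_S)ˣ → Coind_{D_q} F_qˣ`,
  `b ↦ (g ↦ evQ (g • b))`, of `Rep ℤ L.Gal`;
* `jTow_bijective` : `b ↦ (jTow L q b)_{q ∈ S}` is bijective.
-/

set_option autoImplicit false
set_option linter.style.haveILetI false
set_option linter.unusedSectionVars false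

open scoped TensorProduct
open CategoryTheory

namespace Fermat.Agent.S55.G.LocH897

open Fermat.Agent.S55 Fermat.Agent.S55.Tow Fermat.Agent.S55.Bridge.H175 Fermat.Agent.S55.E1.H594
open Fermat.Agent.S55.G Fermat.Agent.S55.G.PL0H713

noncomputable section

/-- The element of `ℚ̄_q` underlying a vector of `unitsQpbar q`. -/
def oval (q : Nat.Primes) (x : (unitsQpbar q).V) : Om q :=
  ((Additive.toMul (show Additive (Om q)ˣ from x) : (Om q)ˣ) : Om q)

lemma oval_injective (q : Nat.Primes) : Function.Injective (oval q) := by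
  intro x y h
  have h1 : (Additive.toMul (show Additive (Om q)ˣ from x) : (Om q)ˣ) =
      Additive.toMul (show Additive (Om q)ˣ from y) := Units.ext h
  exact Additive.toMul.injective h1

lemma oval_ne_zero (q : Nat.Primes) (x : (unitsQpbar q).V) : oval q x ≠ 0 :=
  (Additive.toMul (show Additive (Om q)ˣ from x) : (Om q)ˣ).ne_zero

lemma oval_ρ (q : Nat.Primes) (τ : GQp q) (x : (unitsQpbar q).V) :
    oval q ((unitsQpbar q).ρ τ x) = toAut q τ (oval q x) := rfl

variable {S : Finset Nat.Primes} (L : Level S) (q : S)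

/-- `evQ` on units, additively. -/
def evUnits : Additive (AS S L.F)ˣ →ₗ[ℤ] (unitsQpbar q.1).V :=
  (Units.map ((evQ L q : AS S L.F →+* Om q.1) : AS S L.F →* Om q.1)).toAdditive.toIntLinearMap

lemma oval_evUnits (b : Additive (AS S L.F)ˣ) :
    oval q.1 (evUnits L q b) = evQ L q ((b.toMul : (AS S L.F)ˣ) : AS S L.F) := rfl

lemma locGal_eq_one_of_mem (τ : GQp q.1) (hτ : τ ∈ L.V q.1) : locGal L q.1 τ = 1 := by
  rw [locGal_apply]
  exact (QuotientGroup.eq_one_iff _).2 hτ

lemma evUnits_fixed (b : Additive (AS S L.F)ˣ) (τ : GQp q.1) (hτ : τ ∈ L.V q.1) :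
    (unitsQpbar q.1).ρ τ (evUnits L q b) = evUnits L q b := by
  apply oval_injective
  rw [oval_ρ, oval_evUnits, ← evQ_equivariant, locGal_eq_one_of_mem L q τ hτ, map_one]
  rfl

/-- The value at `g` of the image of `b ∈ J_S(F)` in `J_q(F) = Coind F_qˣ`. -/
def jTowFun (b : Additive (AS S L.F)ˣ) (g : L.Gal) : (L.locUnits q.1).V :=
  L.locMk q.1 (evUnits L q (jRepr L.Gal S L.F g b)) (fun τ hτ => evUnits_fixed L q _ τ hτ)

lemma oval_jTowFun (b : Additive (AS S L.F)ˣ) (g : L.Gal) :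
    oval q.1 (L.locCoe q.1 (jTowFun L q b g)) =
      evQ L q (asRingAut L.Gal S L.F g ((b.toMul : (AS S L.F)ˣ) : AS S L.F)) := rfl

lemma locCoe_oval_injective {x y : (L.locUnits q.1).V}
    (h : oval q.1 (L.locCoe q.1 x) = oval q.1 (L.locCoe q.1 y)) : x = y :=
  L.locCoe_injective q.1 (oval_injective q.1 h)

lemma jTowFun_mul (b : Additive (AS S L.F)ˣ) (d : L.Dec q.1) (g : L.Gal) :
    jTowFun L q b (L.decHom q.1 d * g) = (L.locUnits q.1).ρ d (jTowFun L q b g) := by
  obtain ⟨τ, rfl⟩ := QuotientGroup.mk_surjective d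
  apply locCoe_oval_injective
  rw [oval_jTowFun, L.locUnits_ρ_coe, oval_ρ, oval_jTowFun, ← evQ_equivariant, map_mul,
    RingAut.mul_apply]
  rfl

lemma jTowFun_add (b b' : Additive (AS S L.F)ˣ) (g : L.Gal) :
    jTowFun L q (b + b') g = jTowFun L q b g + jTowFun L q b' g := by
  apply L.locCoe_injective q.1
  show evUnits L q (jRepr L.Gal S L.F g (b + b')) =
    evUnits L q (jRepr L.Gal S L.F g b) + evUnits L q (jRepr L.Gal S L.F g b')
  rw [map_add, map_add]

lemma jTowFun_smul (c : ℤ) (b : Additive (AS S L.F)ˣ) (g : L.Gal) :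
    jTowFun L q (c • b) g = c • jTowFun L q b g := by
  apply L.locCoe_injective q.1
  show evUnits L q (jRepr L.Gal S L.F g (c • b)) = c • evUnits L q (jRepr L.Gal S L.F g b)
  rw [map_smul, map_smul]

/-- The map `J_S(F) → J_q(F)`, `ℤ`-linear. -/
def jTowLin : Additive (AS S L.F)ˣ →ₗ[ℤ] (L.J q.1).V where
  toFun b := ⟨fun g => jTowFun L q b g, fun d g => jTowFun_mul L q b d g⟩
  map_add' b b' := Subtype.ext (funext fun g => jTowFun_add L q b b' g)
  map_smul' c b := Subtype.ext (funext fun g => jTowFun_smul L q c b g)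

lemma Jeval_jTowLin (b : Additive (AS S L.F)ˣ) (g : L.Gal) :
    L.Jeval q.1 (jTowLin L q b) g = jTowFun L q b g := rfl

/-- **The J-bridge morphism** `J_S(F) = (F ⊗ ℚ_S)ˣ ⟶ J_q(F) = Coind_{D_q} F_qˣ`. -/
def jTow : JRep L.Gal S L.F ⟶ L.J q.1 :=
  Rep.ofHom
    { toLinearMap := jTowLin L q
      isIntertwining' := fun h => by
        refine LinearMap.ext fun b => ?_
        apply L.J_ext q.1
        intro g
        show jTowFun L q (jRepr L.Gal S L.F h b) g = jTowFun L q b (g * h)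
        apply L.locCoe_injective q.1
        show evUnits L q (jRepr L.Gal S L.F g (jRepr L.Gal S L.F h b)) =
          evUnits L q (jRepr L.Gal S L.F (g * h) b)
        rw [map_mul]
        rfl }

lemma jTow_hom_apply (b : Additive (AS S L.F)ˣ) : (jTow L q).hom b = jTowLin L q b := rfl

/-! ### Bijectivity -/

/-- The value of an element of `F_qˣ` (a `Gal(ℚ̄_q/F_q)`-invariant unit of `ℚ̄_q`) is a value
of `evQ`. -/
lemma exists_evQ_eq_oval (x : (L.locUnits q.1).V) :
    ∃ r, evQ L q r = oval q.1 (L.locCoe q.1 x) := by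
  haveI := isGalois_padicAlgCl' q.1
  haveI := normal_primeLocalLevel L q.1
  have hx : L.locCoe q.1 x ∈ Representation.invariants
      ((unitsQpbar q.1).ρ.comp (L.V q.1).subtype) := x.2
  obtain ⟨a, ha⟩ := (mem_invariants_units_iff (k := Qq q.1) (K' := Om q.1)
    (hNn := Tow.Level.normalV L q.1)
    (primeLocalLevel q.1 L.F) (L.V q.1) (level_V_eq L q.1) (L.locCoe q.1 x)).1 hx
  obtain ⟨r, hr⟩ := exists_evQ_eq L q (a : Om q.1) a.2
  exact ⟨r, hr.trans ha⟩

/-- **The J-bridge.**  Every family `(F_q)_{q ∈ S}`, `F_q ∈ J_q(F) = Coind_{D_q} F_qˣ`, is the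
image of a unique `S`-idèle `b ∈ J_S(F) = (F ⊗ ℚ_S)ˣ`. -/
theorem jTow_existsUnique (F : ∀ q : S, (L.J q.1).V) :
    ∃! b : Additive (AS S L.F)ˣ, ∀ q : S, jTowLin L q b = F q := by
  haveI := isReduced_AS S L.F
  haveI := _root_.Fermat.Agent.S55.G.LocH897.isArtinianRing_AS S L.F
  obtain ⟨b, hb, hbu⟩ := existsUnique_ev_units (asRingAut L.Gal S L.F) (ι := S)
    (Ω := fun q => Om q.1) (fun q => (evQ L q : AS S L.F →+* Om q.1))
    (T := fun q => GQp q.1) (fun q => locGal L q.1) (fun q τ ω => toAut q.1 τ ω)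
    (fun q τ r => evQ_equivariant L q τ r)
    (fun q s hs => exists_locGal_eq L q s hs)
    (evQ_cover L) (evQ_disj L)
    (fun q g => oval q.1 (L.locCoe q.1 (L.Jeval q.1 (F q) g)))
    (fun q g => exists_evQ_eq_oval L q _)
    (fun q τ g => by
      rw [locGal_eq_decHom, L.Jeval_mul, L.locUnits_ρ_coe, oval_ρ])
    (fun q g => oval_ne_zero _ _)
  refine ⟨Additive.ofMul b, fun q => ?_, fun c hc => ?_⟩
  · apply L.J_ext q.1
    intro g
    apply locCoe_oval_injective
    rw [Jeval_jTowLin, oval_jTowFun]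
    exact hb q g
  · apply Additive.toMul.injective
    refine hbu (Additive.toMul c) fun q g => ?_
    have := congrArg (fun f => oval q.1 (L.locCoe q.1 (L.Jeval q.1 f g))) (hc q)
    exact this

/-- **The J-bridge**: `b ↦ (jTow L q b)_{q ∈ S}` is a bijection
`J_S(F) → ∏_{q ∈ S} J_q(F)`. -/
theorem jTow_bijective :
    Function.Bijective (fun (b : (JRep L.Gal S L.F).V) (q : S) => (jTow L q).hom b) := by
  constructor
  · intro b b' h
    obtain ⟨c, -, hcu⟩ := jTow_existsUnique L (fun q => jTowLin L q b')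
    rw [hcu b' (fun _ => rfl)]
    exact hcu b (fun q => congrFun h q)
  · intro F
    obtain ⟨b, hb, -⟩ := jTow_existsUnique L F
    exact ⟨b, funext hb⟩

end

end Fermat.Agent.S55.G.LocH897

end
-- ===== PACK-END S55/G/LocH897/TowJ.lean

-- ===== PACK-BEGIN S55/G/LocH897/TowJInv.lean
section


/-!
# S55 / G-ADAPTER, J-bridge (helper897), part 5: the inverse maps `J_q(F) → J_S(F)`

* `jEquiv L : J_S(F) ≃ₗ[ℤ] ∏_{q ∈ S} J_q(F)`;
* `jTowInv L q : L.J q ⟶ G.JRep L.Gal S L.F` (in `Rep ℤ L.Gal`), the inclusion of the `q`-component;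
* `jTow_jTowInv_same`, `jTow_jTowInv_ne`, `sum_jTowInv_jTow`.
-/

set_option autoImplicit false
set_option linter.style.haveILetI false
set_option linter.unusedSectionVars false

open scoped TensorProduct
open CategoryTheory

namespace Fermat.Agent.S55.G.LocH897

open Fermat.Agent.S55 Fermat.Agent.S55.Tow Fermat.Agent.S55.Bridge.H175 Fermat.Agent.S55.E1.H594
open Fermat.Agent.S55.G Fermat.Agent.S55.G.PL0H713

noncomputable section

variable {S : Finset Nat.Primes} (L : Level S)

/-- `b ↦ (jTow L q b)_{q ∈ S}` as a linear map. -/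
def jAll : Additive (AS S L.F)ˣ →ₗ[ℤ] (∀ q : S, (L.J q.1).V) :=
  LinearMap.pi (fun q => jTowLin L q)

lemma jAll_apply (b : Additive (AS S L.F)ˣ) (q : S) : jAll L b q = jTowLin L q b := rfl

lemma jAll_bijective : Function.Bijective (jAll L) := jTow_bijective L

/-- **The J-bridge** as a linear equivalence `J_S(F) ≃ ∏_{q ∈ S} J_q(F)`. -/
def jEquiv : Additive (AS S L.F)ˣ ≃ₗ[ℤ] (∀ q : S, (L.J q.1).V) :=
  LinearEquiv.ofBijective (jAll L) (jAll_bijective L)

lemma jEquiv_apply (b : Additive (AS S L.F)ˣ) (q : S) : jEquiv L b q = jTowLin L q b := rfl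

lemma jAll_ρ (h : L.Gal) (b : Additive (AS S L.F)ˣ) (q : S) :
    jAll L (jRepr L.Gal S L.F h b) q = (L.J q.1).ρ h (jAll L b q) :=
  Rep.hom_comm_apply (jTow L q) h b

section Inv

variable (q : S)

open Classical in
/-- The inclusion of the `q`-component `J_q(F) → J_S(F)`, `ℤ`-linear. -/
def jInvLin : (L.J q.1).V →ₗ[ℤ] Additive (AS S L.F)ˣ :=
  (jEquiv L).symm.toLinearMap ∘ₗ LinearMap.single ℤ (fun q : S => (L.J q.1).V) q

open Classical in
lemma jAll_jInvLin (x : (L.J q.1).V) :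
    jAll L (jInvLin L q x) = Pi.single (M := fun q : S => (L.J q.1).V) q x :=
  (jEquiv L).apply_symm_apply _

lemma jTowLin_jInvLin_same (x : (L.J q.1).V) : jTowLin L q (jInvLin L q x) = x := by
  classical
  have := congrFun (jAll_jInvLin L q x) q
  rw [Pi.single_eq_same] at this
  exact this

lemma jTowLin_jInvLin_ne {q' : S} (h : q' ≠ q) (x : (L.J q.1).V) :
    jTowLin L q' (jInvLin L q x) = 0 := by
  classical
  have := congrFun (jAll_jInvLin L q x) q'
  rw [Pi.single_eq_of_ne h] at this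
  exact this

lemma jInvLin_ρ (h : L.Gal) (x : (L.J q.1).V) :
    jInvLin L q ((L.J q.1).ρ h x) = jRepr L.Gal S L.F h (jInvLin L q x) := by
  classical
  apply (jAll_bijective L).1
  funext q'
  rw [jAll_ρ, jAll_jInvLin, jAll_jInvLin]
  by_cases hq : q' = q
  · subst hq
    rw [Pi.single_eq_same, Pi.single_eq_same]
  · rw [Pi.single_eq_of_ne hq, Pi.single_eq_of_ne hq, map_zero]

/-- **The inclusion of the `q`-component** `J_q(F) ⟶ J_S(F)` in `Rep ℤ L.Gal`. -/
def jTowInv : L.J q.1 ⟶ JRep L.Gal S L.F :=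
  Rep.ofHom
    { toLinearMap := jInvLin L q
      isIntertwining' := fun h => LinearMap.ext fun x => jInvLin_ρ L q h x }

lemma jTowInv_hom_apply (x : (L.J q.1).V) : (jTowInv L q).hom x = jInvLin L q x := rfl

theorem jTow_jTowInv_same (x : (L.J q.1).V) :
    (jTow L q).hom ((jTowInv L q).hom x) = x := jTowLin_jInvLin_same L q x

theorem jTow_jTowInv_ne {q' : S} (h : q' ≠ q) (x : (L.J q.1).V) :
    (jTow L q').hom ((jTowInv L q).hom x) = 0 := jTowLin_jInvLin_ne L q h x

end Inv

/-- Every `S`-idèle is the sum of its components. -/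
theorem sum_jTowInv_jTow (b : (JRep L.Gal S L.F).V) :
    ∑ q : S, (jTowInv L q).hom ((jTow L q).hom b) = b := by
  classical
  apply (jAll_bijective L).1
  funext q'
  show jAll L (∑ q : S, jInvLin L q (jTowLin L q b)) q' = jAll L b q'
  rw [map_sum, Finset.sum_apply]
  rw [Finset.sum_eq_single q']
  · rw [jAll_jInvLin, Pi.single_eq_same]
    rfl
  · intro q _ hq
    rw [jAll_jInvLin, Pi.single_eq_of_ne (Ne.symm hq)]
  · intro h
    exact absurd (Finset.mem_univ q') h

/-- A family of local components is recovered from its sum. -/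
theorem jTow_sum_jTowInv (x : ∀ q : S, (L.J q.1).V) (q' : S) :
    (jTow L q').hom (∑ q : S, (jTowInv L q).hom (x q)) = x q' := by
  classical
  rw [map_sum, Finset.sum_eq_single q']
  · exact jTow_jTowInv_same L q' (x q')
  · intro q _ hq
    exact jTow_jTowInv_ne L q (Ne.symm hq) (x q)
  · intro h
    exact absurd (Finset.mem_univ q') h

end

end Fermat.Agent.S55.G.LocH897

end
-- ===== PACK-END S55/G/LocH897/TowJInv.lean

-- ===== PACK-BEGIN S55/G/LocH897/TowJCompat.lean
section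



/-!
# S55 / G-ADAPTER, J-bridge (helper897), part 6: compatibilities

* `jTow_unitsDiag` : the bridge `J_S(F) → J_q(F)` sends the diagonal image of `u ∈ Fˣ`
  (`G.unitsDiag`) to the tower diagonal `Level.diag q` of `u` (via `levelUnitsIso`);
* `jTow_jMap` : for `F ≤ F'` the bridge intertwines the base change `G.jMap` with `Level.trJ`.
-/

set_option autoImplicit false
set_option linter.style.haveILetI false
set_option linter.unusedSectionVars false

open scoped TensorProduct
open CategoryTheory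

namespace Fermat.Agent.S55.G.LocH897

open Fermat.Agent.S55 Fermat.Agent.S55.Tow Fermat.Agent.S55.Bridge.H175 Fermat.Agent.S55.E1.H594
open Fermat.Agent.S55.G Fermat.Agent.S55.G.PL0H713

noncomputable section

variable {S : Finset Nat.Primes}

/-- The element of `ℚ̄` underlying a vector of `unitsQbar`. -/
def gval (x : unitsQbar.V) : Qbar :=
  ((Additive.toMul (show Additive Qbarˣ from x) : Qbarˣ) : Qbar)

lemma oval_embQbar (q : Nat.Primes) (x : unitsQbar.V) :
    oval q (embQbar q x) = padicEmbedding (q : ℕ) (gval x) := rfl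

lemma gval_ρ (σ : GQ) (x : unitsQbar.V) : gval (unitsQbar.ρ σ x) = σ (gval x) := rfl

section Diag

variable (L : Level S) (q : S)

lemma gval_levelUnits (u : Additive (L.F)ˣ) :
    gval (L.unitsCoe ((levelUnitsIso L).hom.hom u)) = (((u.toMul : (L.F)ˣ) : L.F) : Qbar) := rfl

/-- The bridge is compatible with the diagonal embeddings of `Fˣ`. -/
theorem jTow_unitsDiag (u : Additive (L.F)ˣ) :
    (jTow L q).hom (unitsDiag S L.F u) = (L.diag q.1).hom ((levelUnitsIso L).hom.hom u) := by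
  apply L.J_ext q.1
  intro g
  apply locCoe_oval_injective
  obtain ⟨σ, rfl⟩ := QuotientGroup.mk_surjective g
  rw [jTow_hom_apply, Jeval_jTowLin, oval_jTowFun, L.Jeval_diag, L.locCoe_embFun, oval_embQbar,
    L.units_ρ_coe, gval_ρ, gval_levelUnits]
  have h1 : (((unitsDiag S L.F u).toMul : (AS S L.F)ˣ) : AS S L.F) =
      asDiag S L.F ((u.toMul : (L.F)ˣ) : L.F) := rfl
  rw [h1, asRingAut_apply, asAut_asDiag, asDiag_apply, evQ_tmul_one, level_mk_smul]

end Diag

section Trans

variable {L L' : Level S} (h : L ≤ L') (q : S)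

/-- `evQ` is compatible with the base change `F ⊗ ℚ_S → F' ⊗ ℚ_S` and the Galois actions. -/
lemma evQ_asMap (g : L'.Gal) (r : AS S L.F) :
    letI := levelAlgebra h
    evQ L' q (asRingAut L'.Gal S L'.F g (asMap S L.F L'.F r)) =
      evQ L q (asRingAut L.Gal S L.F (Level.proj h g) r) := by
  letI := levelAlgebra h
  induction r using TensorProduct.induction_on with
  | zero => simp
  | tmul x y =>
    rw [asMap_tmul, asRingAut_apply, asAut_tmul, asRingAut_apply, asAut_tmul, evQ_tmul, evQ_tmul]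
    have h1 : g • (algebraMap L.F L'.F x) = levelIncl h ((Level.proj h g) • x) :=
      (levelIncl_proj_smul h g x).symm
    rw [h1, coe_levelIncl]
  | add a b ha hb => simp only [map_add, ha, hb]

/-- The bridge intertwines the base change `J_S(F) → J_S(F')` with `Level.trJ`. -/
theorem jTow_jMap (b : Additive (AS S L.F)ˣ) :
    letI := levelAlgebra h
    (jTow L' q).hom (jMap S L.F L'.F b) = (Level.trJ h q.1).hom ((jTow L q).hom b) := by
  letI := levelAlgebra h
  apply L'.J_ext q.1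
  intro g
  apply locCoe_oval_injective
  rw [jTow_hom_apply, Jeval_jTowLin, oval_jTowFun, coe_jMap_apply, evQ_asMap h q g]
  rfl

end Trans

section Cat

variable (L : Level S)

/-- `jTowInv q ≫ jTow q = 𝟙`. -/
theorem jTowInv_comp_jTow (q : S) : jTowInv L q ≫ jTow L q = 𝟙 (L.J q.1) := by
  ext x
  exact jTow_jTowInv_same L q x

/-- `jTowInv q ≫ jTow q' = 0` for `q' ≠ q`. -/
theorem jTowInv_comp_jTow_of_ne {q q' : S} (h : q' ≠ q) : jTowInv L q ≫ jTow L q' = 0 := by
  ext x
  exact jTow_jTowInv_ne L q h x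

/-- The decomposition group of the place `placeQ L q` (in the sense of `G/DefsLocal.lean`) is the
image of the tower decomposition group `L.Dec q`. -/
theorem decomp_placeQ (q : S) :
    _root_.Fermat.Agent.S55.G.decomp S L.Gal (placeQ L q) = (L.decHom q.1).range := by
  ext s
  rw [mem_Gdecomp_iff]
  constructor
  · intro hs
    obtain ⟨τ, hτ⟩ := exists_locGal_eq L q s (fun x => by
      rw [← mem_placeQ, ← mem_placeQ]
      exact hs x)
    exact ⟨QuotientGroup.mk τ, hτ⟩
  · rintro ⟨d, rfl⟩ x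
    obtain ⟨τ, rfl⟩ := QuotientGroup.mk_surjective d
    rw [mem_placeQ, mem_placeQ, ← locGal_eq_decHom, evQ_equivariant]
    exact map_eq_zero_iff _ (toAut q.1 τ).injective

end Cat

end

end Fermat.Agent.S55.G.LocH897

end
-- ===== PACK-END S55/G/LocH897/TowJCompat.lean

-- ===== PACK-BEGIN S55/GAD/Iso.lean
section
/-
S55 / G-ADAPTER (helper955): **GAD-ISO** — the comparison isomorphism
`isoC L : G.CRep S L.Gal L.F ≅ GAD.CT L` between the layer-G `S`-idèle class module
`(J_S(F) × Div^S(F)) / Fˣ`, `J_S(F) = (F ⊗ ℚ_S)ˣ`, and the class module of the concrete tower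
datum `(∏_{q ∈ S} J_q(F) × Div^S(F)) / Fˣ`, `J_q(F) = Coind_{D_q} F_qˣ`.
Built on helper897's J-bridge (`G/LocH897/TowJ*.lean`).
-/




set_option autoImplicit false
set_option linter.unusedSectionVars false

open CategoryTheory

namespace Fermat.Agent.S55.GAD

open Fermat.Agent.S55 Fermat.Agent.S55.Tow Fermat.Agent.S55.G Fermat.Agent.S55.G.LocH897
open scoped Fermat.Agent.S55.E1.H594

noncomputable section

variable {S : Finset Nat.Primes} (L : Level S)

/-! ### The isomorphism on `J × Div` -/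

/-- `J_S(F) × Div^S(F) ≃ ∏_{q ∈ S} J_q(F) × Div^S(F)`. -/
def jdLinEquiv : G.JD S L.F ≃ₗ[ℤ] JDV L :=
  LinearEquiv.prodCongr (jEquiv L) (LinearEquiv.refl ℤ (PrimeOut S L.F →₀ ℤ))

lemma jdLinEquiv_fst (y : G.JD S L.F) (q : S) : (jdLinEquiv L y).1 q = (jTow L q).hom y.1 := rfl

lemma jdLinEquiv_snd (y : G.JD S L.F) : (jdLinEquiv L y).2 = y.2 := rfl

lemma jdLinEquiv_equivariant (g : L.Gal) (y : G.JD S L.F) :
    jdLinEquiv L (G.jdRepr S L.Gal L.F g y) = _root_.Fermat.Agent.S55.GAD.jdRepr L g (jdLinEquiv L y) :=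
  Prod.ext (funext fun q => jAll_ρ L g y.1 q) rfl

lemma toField_levelUnitsIso (u : Additive (L.F)ˣ) :
    toField L ((E1.H594.levelUnitsIso L).hom.hom u) = u :=
  Rep.inv_hom_apply _ _ (E1.H594.levelUnitsIso L) u

lemma levelUnitsIso_toField (x : L.units.V) :
    (E1.H594.levelUnitsIso L).hom.hom (toField L x) = x :=
  Rep.hom_inv_apply _ _ (E1.H594.levelUnitsIso L) x

/-- The comparison is compatible with the diagonal embeddings of `Fˣ`. -/
lemma jdLinEquiv_diagHom (u : Additive (L.F)ˣ) :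
    jdLinEquiv L (G.diagHom S L.F u) = diagT L ((E1.H594.levelUnitsIso L).hom.hom u) := by
  refine Prod.ext (funext fun q => ?_) ?_
  · exact jTow_unitsDiag L q u
  · show ordHom S L.F u = ordHom S L.F (toField L ((E1.H594.levelUnitsIso L).hom.hom u))
    rw [toField_levelUnitsIso]

lemma jdLinEquiv_diagT (x : L.units.V) :
    jdLinEquiv L (G.diagHom S L.F (toField L x)) = diagT L x := by
  rw [jdLinEquiv_diagHom, levelUnitsIso_toField]

lemma map_principal :
    (G.principal S L.F).map (jdLinEquiv L : G.JD S L.F →ₗ[ℤ] JDV L) = princ L := by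
  apply le_antisymm
  · rintro _ ⟨_, ⟨u, rfl⟩, rfl⟩
    exact ⟨_, (jdLinEquiv_diagHom L u).symm⟩
  · rintro _ ⟨x, rfl⟩
    exact ⟨_, ⟨toField L x, rfl⟩, jdLinEquiv_diagT L x⟩

/-! ### The isomorphism on class modules -/

/-- `C_S(F) ≃ C(L)` on underlying groups. -/
def cLinEquiv : G.CS S L.F ≃ₗ[ℤ] (CT L).V :=
  Submodule.Quotient.equiv (G.principal S L.F) (princ L) (jdLinEquiv L) (map_principal L)

lemma cLinEquiv_mk (y : G.JD S L.F) :
    cLinEquiv L (Submodule.Quotient.mk y) = mkC L (jdLinEquiv L y) := rfl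

lemma cLinEquiv_equivariant (g : L.Gal) (c : G.CS S L.F) :
    cLinEquiv L (G.cRepr S L.Gal L.F g c) = (CT L).ρ g (cLinEquiv L c) := by
  obtain ⟨y, rfl⟩ := Submodule.Quotient.mk_surjective _ c
  exact congrArg (mkC L) (jdLinEquiv_equivariant L g y)

/-- **GAD-ISO.**  The comparison isomorphism `C_S(F) ≅ C(L)` in `Rep ℤ Gal(F/ℚ)`. -/
def isoC : G.CRep S L.Gal L.F ≅ CT L :=
  Rep.mkIso (Representation.Equiv.mk (cLinEquiv L)
    (fun g => LinearMap.ext fun c => cLinEquiv_equivariant L g c))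

lemma isoC_hom_apply (c : G.CS S L.F) : (isoC L).hom.hom c = cLinEquiv L c := rfl

lemma isoC_hom_mk (y : G.JD S L.F) :
    (isoC L).hom.hom (Submodule.Quotient.mk y) = mkC L (jdLinEquiv L y) := rfl

lemma isoC_inv_mkC (y : G.JD S L.F) :
    (isoC L).inv.hom (mkC L (jdLinEquiv L y)) = Submodule.Quotient.mk y := by
  rw [← isoC_hom_mk]
  exact Rep.inv_hom_apply _ _ (isoC L) _

/-- The comparison isomorphism on `J × Div`, in `Rep ℤ Gal(F/ℚ)`. -/
def isoJD : G.JDRep S L.Gal L.F ≅ Rep.of (_root_.Fermat.Agent.S55.GAD.jdRepr L) :=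
  Rep.mkIso (Representation.Equiv.mk (jdLinEquiv L)
    (fun g => LinearMap.ext fun y => jdLinEquiv_equivariant L g y))

lemma isoJD_hom_apply (y : G.JD S L.F) : (isoJD L).hom.hom y = jdLinEquiv L y := rfl

/-- The comparison isomorphisms commute with the quotient maps. -/
lemma quotRepHom_isoC :
    G.quotRepHom S L.Gal L.F ≫ (isoC L).hom = (isoJD L).hom ≫ mkCHom L := by
  ext y
  rfl

/-! ### Compatibility with the maps `j_q` -/

/-- The class of an `S`-idèle `b` corresponds to `∑_q j_q (b_q)`. -/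
lemma isoC_jToC (b : (G.JRep L.Gal S L.F).V) :
    (isoC L).hom.hom ((G.jToCRepHom S L.Gal L.F).hom b) =
      ∑ q : S, (jT L q.1).hom ((jTow L q).hom b) := by
  rw [sum_jT]
  rfl

/-- `j_q` of the concrete datum is the inclusion of the `q`-component of `J_S(F)` followed by
`J_S(F) → C_S(F) ≅ C(L)`. -/
lemma jTowInv_jToC_isoC (q : S) :
    jTowInv L q ≫ G.jToCRepHom S L.Gal L.F ≫ (isoC L).hom = jT L q.1 := by
  ext x
  show (isoC L).hom.hom ((G.jToCRepHom S L.Gal L.F).hom ((jTowInv L q).hom x)) = (jT L q.1).hom x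
  rw [isoC_jToC]
  classical
  rw [Finset.sum_eq_single q]
  · rw [jTow_jTowInv_same]
  · intro q' _ hq'
    rw [jTow_jTowInv_ne L q hq', map_zero]
  · intro hq
    exact absurd (Finset.mem_univ q) hq

lemma jT_comp_isoC_inv (q : S) :
    jT L q.1 ≫ (isoC L).inv = jTowInv L q ≫ G.jToCRepHom S L.Gal L.F := by
  rw [← jTowInv_jToC_isoC, Category.assoc, Category.assoc, Iso.hom_inv_id, Category.comp_id]

/-! ### Compatibility with the transition maps -/

section Transition

variable {L} {L' : Level S} (h : L ≤ L')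

/-- The two `Algebra L.F L'.F` structures in use (helper594's and `GAD`'s) coincide. -/
lemma levelAlgebra_eq_h594 : GAD.levelAlgebra h = E1.H594.levelAlgebra h := rfl

/-- `GAD.divTr` is helper773's base change of divisors `G.DescH773.divBase`. -/
lemma divTr_eq_divBase (d : PrimeOut S L.F →₀ ℤ) :
    divTr h d = @DescH773.divBase S L.F L'.F _ _ _ _ (E1.H594.levelAlgebra h) d := by
  ext w
  rfl

/-- `G.jMap` is helper773's `jBase`. -/
lemma jMap_eq_jBase (b : Additive (AS S L.F)ˣ) :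
    @G.jMap S L.F L'.F _ _ _ _ (E1.H594.levelAlgebra h) b =
      @DescH773.jBase S L.F L'.F _ _ _ _ (E1.H594.levelAlgebra h) b := rfl

lemma jdLinEquiv_jdBase (y : G.JD S L.F) :
    jdLinEquiv L' (@DescH773.jdBase S L.F L'.F _ _ _ _ (E1.H594.levelAlgebra h) y) =
      trJD h (jdLinEquiv L y) := by
  refine Prod.ext (funext fun q => ?_) ?_
  · exact jTow_jMap h q y.1
  · exact (divTr_eq_divBase h y.2).symm

/-- **The comparison isomorphisms intertwine** helper773's base change `C_S(F) → C_S(F')`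
(`G.DescH773.cBase`) **with the transition map** `trT h` of the concrete datum. -/
theorem isoC_cBase (c : G.CS S L.F) :
    (isoC L').hom.hom (@DescH773.cBase S L.F L'.F _ _ _ _ (E1.H594.levelAlgebra h) c) =
      (trT h).hom ((isoC L).hom.hom c) := by
  obtain ⟨y, rfl⟩ := Submodule.Quotient.mk_surjective _ c
  exact congrArg (mkC L') (jdLinEquiv_jdBase h y)

/-- The base change `C_S(F) → C_S(F')` as a morphism `Res (C_S(F)) ⟶ C_S(F')` of
`Rep ℤ Gal(F'/ℚ)`, by transport of `trT h`. -/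
def cTrG : Rep.res (Level.proj h) (G.CRep S L.Gal L.F) ⟶ G.CRep S L'.Gal L'.F :=
  (Rep.resFunctor (Level.proj h)).map (isoC L).hom ≫ trT h ≫ (isoC L').inv

lemma cTrG_apply (c : G.CS S L.F) :
    (cTrG h).hom c = @DescH773.cBase S L.F L'.F _ _ _ _ (E1.H594.levelAlgebra h) c := by
  show (isoC L').inv.hom ((trT h).hom ((isoC L).hom.hom c)) = _
  rw [← isoC_cBase]
  exact Rep.inv_hom_apply _ _ (isoC L') _

lemma cTrG_comp_isoC :
    cTrG h ≫ (isoC L').hom = (Rep.resFunctor (Level.proj h)).map (isoC L).hom ≫ trT h := by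
  rw [cTrG, Category.assoc, Category.assoc, Iso.inv_hom_id, Category.comp_id]

end Transition

end

end Fermat.Agent.S55.GAD

end
-- ===== PACK-END S55/GAD/Iso.lean

-- ===== PACK-BEGIN S55/G/Rec/Tow/FR/AsmInjH481.lean
section
/-
S55 / layer G / block REC / adapter TOW / leaf FR — ASSEMBLY of `injAt` (helper481).

* `cH2_jRes` (FR-E) : for `W ⊆ W'`, `c^{W'}_{q,g} = c^{W}_{q,g} ∘ (jRes)_*`  (`q ∈ W`);
* `injAt_of I p : OrbitRepsSpec → LocInjSpec → G.ShapiroJSpec → ResTopSpec → ResCoeffNatSpec →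
    <the field `injAt` of `TOW.SemiLocalInv p` for `σ = FR.sigma I`>`.
No `sorry`.
-/


set_option autoImplicit false
set_option linter.unusedSectionVars false
set_option linter.style.haveILetI false

open CategoryTheory groupCohomology
open scoped NumberField

noncomputable section

namespace Fermat.Agent.S55.G.Rec.TOW.FR.H481

open Fermat.Agent.S55 Fermat.Agent.S55.Tow Fermat.Agent.S55.E1.H594 Fermat.Agent.S55.G.Rec
open Fermat.Agent.S55.G.Rec.TOW Fermat.Agent.S55.G.Rec.TOW.FR
open IsDedekindDomain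

local notation "Qb" => AlgebraicClosure ℚ
local notation "GQ" => (AlgebraicClosure ℚ ≃ₐ[ℚ] AlgebraicClosure ℚ)

variable {S : Finset Nat.Primes} (M : Level S) (H : Subgroup M.Gal)

/-- **FR-E**: the localisation at `(q, g)` factors through `J_W` for every `W ∋ q`. -/
theorem cH2_jRes {W W' : Finset Nat.Primes} (hW : W ⊆ W') (q : ℕ) [hq : Fact q.Prime]
    (hqW : (⟨q, hq.out⟩ : Nat.Primes) ∈ W) (g : GQ)
    (z : H2 (T.resSub (G.JRep M.Gal W' M.F) H)) :
    cH2 M H W' q (hW hqW) g z =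
      cH2 M H W q hqW g (h2Sub (jResRepHom M.Gal M.F hW) H z) := by
  have h1 := LocDatum.map_comp (A := T.resSub (G.JRep M.Gal W' M.F) H) (cDatum M H W q hqW g)
    (MonoidHom.id ↥H) ((Rep.resFunctor H.subtype).map (jResRepHom M.Gal M.F hW)) z
  refine Eq.trans ?_ h1
  refine congrFun (congrArg DFunLike.coe (LocDatum.map_congr ?_ ?_)) z
  · rfl
  · apply AddMonoidHom.ext
    intro a
    apply Additive.toMul.injective
    apply Units.ext
    exact (evAlg_asRes M W q hqW hW g _).symm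

/-- Over `ℚ` (`H = ⊤`) there is at most one pair above each prime. -/
lemma pair_top_eq (x x' : Pair M (⊤ : Subgroup M.Gal) S) (h : x.1 = x'.1) : x = x' := by
  obtain ⟨q, ⟨g, hg⟩⟩ := x
  obtain ⟨q', ⟨g', hg'⟩⟩ := x'
  have hq : q = q' := h
  subst hq
  haveI : Fact ((q.1 : ℕ).Prime) := ⟨q.1.2⟩
  have hspec := reps_spec (isOpenQ_UH M ⊤) (q.1 : ℕ)
  obtain ⟨r₀, -, huniq⟩ := hspec g'
  have h1 : g = r₀ := huniq g ⟨hg, g' * g⁻¹, Subgroup.mem_top _, 1, Subgroup.one_mem _, by group⟩
  have h2 : g' = r₀ := huniq g' ⟨hg', 1, Subgroup.one_mem _, 1, Subgroup.one_mem _, by group⟩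
  have h3 : g = g' := h1.trans h2.symm
  subst h3
  rfl

/-- **Assembly of `injAt`**: the field `injAt` of `SemiLocalInv p` for `σ = sigma I`. -/
theorem injAt_of (I : LocalInvSystem) (p : ℕ) (hOR : OrbitRepsSpec) (hLI : LocInjSpec)
    (hSh : G.ShapiroJSpec) (hTop : ResTopSpec) (hRCN : ResCoeffNatSpec) :
    ∀ {S : Finset Nat.Primes} (M : Level S) (r : Nat.Primes)
      (y : groupCohomology (lvlJ M) 2), E1.IsPPrimary p y → IsAt S M.Gal M.F r y →
      sigma I M ⊤ (res2 (lvlJ M) ⊤ y) = 0 → y = 0 := by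
  intro S M r y _ hat hσ
  -- the components away from `r` vanish
  have ha : ∀ x : Pair M (⊤ : Subgroup M.Gal) S, x.1.1 ≠ r →
      invPair M ⊤ I x (res2 (lvlJ M) ⊤ y) = 0 := by
    intro x hx
    haveI : Fact ((x.1.1 : ℕ).Prime) := ⟨x.1.1.2⟩
    have hq' : x.1.1 ∈ S.erase r := Finset.mem_erase.2 ⟨hx, x.1.2⟩
    have h1 := cH2_jRes M ⊤ (Finset.erase_subset r S) (x.1.1 : ℕ) hq' x.2.1
      (res2 (lvlJ M) ⊤ y)
    have h2 : h2Sub (jResRepHom M.Gal M.F (Finset.erase_subset r S)) ⊤ (res2 (lvlJ M) ⊤ y) = 0 :=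
      (hRCN M.Gal _ _ (jResRepHom M.Gal M.F (Finset.erase_subset r S)) ⊤ y).trans
        ((congrArg _ hat).trans (map_zero _))
    have h3 : cH2 M ⊤ S (x.1.1 : ℕ) x.1.2 x.2.1 (res2 (lvlJ M) ⊤ y) = 0 :=
      h1.trans ((congrArg _ h2).trans (AddMonoidHom.map_zero _))
    exact (congrArg (I.inv (x.1.1 : ℕ) (locSub (x.1.1 : ℕ) x.2.1 (UH M ⊤))) h3).trans
      (AddMonoidHom.map_zero _)
  -- hence all components vanish
  have hc : ∀ x : Pair M (⊤ : Subgroup M.Gal) S, invPair M ⊤ I x (res2 (lvlJ M) ⊤ y) = 0 := by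
    intro x
    by_cases hx : x.1.1 = r
    · have hs : sigma I M ⊤ (res2 (lvlJ M) ⊤ y) = invPair M ⊤ I x (res2 (lvlJ M) ⊤ y) := by
        rw [sigma_eq_sum_pairs]
        apply finsum_eq_single
        intro x' hx'
        apply ha
        intro hx'r
        exact hx' (pair_top_eq M x' x (Subtype.ext (hx'r.trans hx.symm)))
      rw [← hs]
      exact hσ
    · exact ha x hx
  have hy' : res2 (lvlJ M) ⊤ y = 0 :=
    eq_zero_of_forall_locMapJ M ⊤ hOR hSh _
      (fun x => locMapJ_eq_zero_of_invPair M ⊤ I hLI x _ (hc x))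
  exact (hTop M.Gal (lvlJ M) 2).1 (hy'.trans (map_zero _).symm)

end Fermat.Agent.S55.G.Rec.TOW.FR.H481

end
end
-- ===== PACK-END S55/G/Rec/Tow/FR/AsmInjH481.lean

-- ===== PACK-BEGIN S55/K/AR/ClosedH4.lean
section
/-
S55 moonshot — LAYER K, block AR: CLOSURE of the arithmetic core.          helper4 (architect).
No `sorry`.

All the leaves of `K/AR/Spec.lean` are on main (owners: helper635 SES, COKER, WR; helper837 CAP;
helper748 C1, C2; helper501 KAPPA; helper604/helper577 J3, JDIV; helper181 DEG, MU, HASSE;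
helper939 (c), (d); helper206 E3; helper79 E2; helper587 DICT).  This file plugs them into
`K/AR/Assembly.lean`:

* `leaves`    : the structure `Leaves S p`;
* `towers`    : E3, E2, HASSE, COKER, WEAK RECIPROCITY in the tower, from `Tow.GlobalSpecFin S p`;
* `go12`      : GO1 + GO2 for the levels of index prime to `p`;
* `surj2Glob` : **input A3 of layer D** (`PT.Surj2GlobSpec p S`) from `Tow.GlobalSpecFin S p`
                ALONE (`Tow.LocalSpec p` is closed on main, helper964).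
-/
















set_option autoImplicit false

noncomputable section

namespace Fermat.Agent.S55.K.AR.H4

open Fermat.Agent.S55 Fermat.Agent.S55.Tow Fermat.Agent.S55.K.AR ExtCitation

variable {S : Finset Nat.Primes} {p : ℕ}

/-- **All the leaves of the arithmetic core.** -/
theorem leaves (S : Finset Nat.Primes) (p : ℕ) [Fact p.Prime] : Leaves S p where
  ses := H635.sesLeaf S p
  cap1 := H837.capH1 S p
  cap2 := H837.capH2 S p
  h1C := H748.h1CLeaf
  h2C := H748.h2CLeaf
  kappa := H501.kappaLeaf S p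
  h3J := H604.h3JLeaf S p
  j2Div := H604.j2DivLeaf S p
  dec := H181.decLeaf S p
  muDir := H181.muDirLeaf S p
  surjJC := H939.surjJC
  kerDiv := H939.kerDiv
  hasse := H181.hasseLeaf S p
  e3 := H206.e3Leaf S p
  e2 := H79.e2Leaf S p
  coker := H635.cokerLeaf S p
  weakRecip := H635.weakRecipLeaf S p

/-- `Tow.LocalSpec p`, closed (helper964). -/
theorem localSpec (p : ℕ) [Fact p.Prime] : LocalSpec p :=
  Fermat.Agent.S55.LocalSpec.H964.localSpec p (Fact.out : p.Prime).ne_zero

/-- The context of the arithmetic core from the target of layer G. -/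
def ctxOf [Fact p.Prime] (D : TowerDatum S) (hD : D.IsGoodFin p) (hp2 : p ≠ 2)
    (hpS : pPrime p ∈ S) : Ctx S p :=
  ⟨D, hD, ⟨(Fact.out : p.Prime), hp2, hpS⟩⟩

/-- **The tower statements** E3, E2, HASSE (GO3), COKER (GO4), WEAK RECIPROCITY (GO5), from the
target of layer G. -/
theorem towers [Fact p.Prime] (hG : GlobalSpecFin S p) (hp2 : p ≠ 2) (hpS : pPrime p ∈ S) :
    E3Tower S p ∧ E2Tower S p ∧ HasseTower S p ∧ CokerTower S p ∧ WeakRecipTower S p := by
  obtain ⟨D, hD⟩ := hG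
  exact towers_of_leaves (leaves S p) (ctxOf D hD hp2 hpS) (localSpec p)

/-- **GO3 in the tower** (Hasse principle for the `p`-primary part of `H²(E)`). -/
theorem hasseTower [Fact p.Prime] (hG : GlobalSpecFin S p) (hp2 : p ≠ 2) (hpS : pPrime p ∈ S) :
    HasseTower S p := (towers hG hp2 hpS).2.2.1

/-- **GO4 in the tower.** -/
theorem cokerTower [Fact p.Prime] (hG : GlobalSpecFin S p) (hp2 : p ≠ 2) (hpS : pPrime p ∈ S) :
    CokerTower S p := (towers hG hp2 hpS).2.2.2.1

/-- **GO5 in the tower.** -/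
theorem weakRecipTower [Fact p.Prime] (hG : GlobalSpecFin S p) (hp2 : p ≠ 2)
    (hpS : pPrime p ∈ S) : WeakRecipTower S p := (towers hG hp2 hpS).2.2.2.2

/-- **GO1 + GO2** for the levels of index prime to `p`. -/
theorem go12 [Fact p.Prime] (hG : GlobalSpecFin S p) (hp2 : p ≠ 2) (hpS : pPrime p ∈ S) :
    GO12Coprime S p :=
  go12_of_tower p S (H587.dictE3 S p) (H587.dictE2 S p) (towers hG hp2 hpS).1
    (towers hG hp2 hpS).2.1

/-- **INPUT A3 OF LAYER D** (`H²_S` is right exact: `cd_p(G_S) ≤ 2`) from the target of layer G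
alone. -/
theorem surj2Glob (p : ℕ) [Fact p.Prime] (S : Finset Nat.Primes) (hG : GlobalSpecFin S p)
    (hp2 : p ≠ 2) (hpS : pPrime p ∈ S) : Fermat.Agent.S55.PT.Surj2GlobSpec p S :=
  surj2Glob_of_leaves p S (leaves S p) (H587.dictE3 S p) (H587.dictE2 S p) hG (localSpec p)
    hp2 hpS

end Fermat.Agent.S55.K.AR.H4

end

end
-- ===== PACK-END S55/K/AR/ClosedH4.lean

-- ===== PACK-BEGIN S56/Euler/Big/H2FS55H595.lean
section



/-!
# Row S56 / BASE-BIG — leaf H2F without input A8   (helper595)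

`h2Formula_of_s55 : S55Frozen → Surj2Glob → Surj2Loc → Inv → H2FormulaSpec p S`:
the `H²` formula from the FROZEN STATEMENT of S55 (type of `Fermat.Agent.S55.result`) and the
inputs A3, A4, A5–A7 — input A8 (`CapSpec`) is NOT needed: Theorem D comes from
`S55.PT.H595.theoremD_of_frozen` (converse bridge).

Also `theoremD_all_of_s55` : Theorem D for all `T ⊇ S`, the hypothesis of
`Euler.H726.exists_sha2_ind_eq_bot`.
-/

set_option autoImplicit false

noncomputable section

namespace Fermat.Agent.S56.Euler.H595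

open Fermat.Agent.S56 Fermat.Agent.S55.PT ExtCitation Module

variable (p : ℕ) [Fact p.Prime] (S : Finset Nat.Primes)

/-- **Leaf H2F from S55 + A3 + A4 + A5–A7** (no A8). -/
theorem h2Formula_of_s55 (hS55 : Fermat.Agent.S55.PT.H595.S55Frozen)
    (hSurjG : Surj2GlobSpec p S) (hSurjL : Surj2LocSpec p S) (hInv : InvSpec p S) :
    H2FormulaSpec p S := by
  intro hp2 hpS
  have hD : TheoremDSpec p S := Fermat.Agent.S55.PT.H595.theoremD_of_frozen p S hS55 hp2 hpS
  obtain ⟨inv, hrec, hTLI, hTGI⟩ := hInv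
  have hrec' : IsRecip (hrl S) (cycloChar p) inv := hrec
  have hTopL : TopLocSpec inv :=
    H299.topLocDev p S H113.lesMidSpec H724.localNormalCofinal H724.localFiniteIndex inv hTLI
      hSurjL
  have hTopG : TopGlobSpec inv hrec' :=
    H123.topGlobDev p S H113.lesMidSpec H724.globalNormalCofinal H724.localNormalCofinal
      H724.globalFiniteIndex hpS inv hrec' hTopL hTGI hSurjG hSurjL
  exact H29.h2Formula_of p S (H593.finGlob p S) hD inv hrec' hTopL hTopG hp2 hpS

/-- Theorem D for all sets `T ⊇ S` (`p ∈ S`), from the frozen statement of S55. -/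
theorem theoremD_all_of_s55 (hS55 : Fermat.Agent.S55.PT.H595.S55Frozen) (hp2 : p ≠ 2)
    (hpS : pPrime p ∈ S) : ∀ T : Finset Nat.Primes, S ⊆ T → TheoremDSpec p T :=
  fun T hT => Fermat.Agent.S55.PT.H595.theoremD_of_frozen p T hS55 hp2 (hT hpS)

end Fermat.Agent.S56.Euler.H595

end

end
-- ===== PACK-END S56/Euler/Big/H2FS55H595.lean

-- ===== PACK-BEGIN S56/H614/Red.lean
section


/-!
# S56 / W-BASE / EUL-RED, part 7 (helper614): `red_of : LemmaAStatement → RedStatement`

Modular Artin induction (`Euler.ind`) applied to `W ↦ φ (inflation of W)`; the value on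
`k[Γ/B] ⊗ W` is computed by Lemma A, EQUIV (`phi_kerRep_matOp`) and `Euler.key`
(`phi_kerRep_eq_zero`).
-/

set_option autoImplicit false
set_option linter.unusedSectionVars false

open Polynomial

noncomputable section

namespace Fermat.Agent.S56.H614

open Fermat.Agent.S55.PT Fermat.Agent.S56.H419 Fermat.Agent.S56.Euler groupCohomology Module

section

variable {k : Type} [Field k] {G : Type} [Group G] (U : Subgroup G) [U.Normal]

/-- the matrix of `χ(σ)⁻¹ • σ̄` has order dividing `n` if `σ̄ ^ n = 1` -/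
lemma toMatrix_twist_pow (χ : G →* kˣ) (hχ : ∀ u ∈ U, χ u = 1) (σ : G)
    (W : FDRepData k (G ⧸ U)) {J : Type} [Fintype J] [DecidableEq J] (b : Basis J k W.V)
    (n : ℕ) (hσ : (σ : G ⧸ U) ^ n = 1) :
    (LinearMap.toMatrix b b ((((χ σ)⁻¹ : kˣ) : k) • W.ρ (σ : G ⧸ U))) ^ n = 1 := by
  have h1 : σ ^ n ∈ U := by
    rw [← QuotientGroup.eq_one_iff, QuotientGroup.mk_pow, hσ]
  have h2 : (((χ σ)⁻¹ : kˣ) : k) ^ n = 1 := by
    rw [← Units.val_pow_eq_pow_val, inv_pow, ← map_pow, hχ _ h1]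
    simp
  have h3 : ((((χ σ)⁻¹ : kˣ) : k) • W.ρ (σ : G ⧸ U)) ^ n = 1 := by
    rw [_root_.smul_pow, ← map_pow, hσ, map_one, h2, one_smul]
  have h4 := LinearMap.toMatrix_pow b ((((χ σ)⁻¹ : kˣ) : k) • W.ρ (σ : G ⧸ U)) n
  rw [h3] at h4
  rw [h4]
  exact LinearMap.toMatrix_one b

/-- inflation of a short exact sequence -/
def inflSES {A B C : FDRepData k (G ⧸ U)} (i : A.V →ₗ[k] B.V) (q : B.V →ₗ[k] C.V)
    (hE : IsShortExact A B C i q) : SES (inflRep U A) (inflRep U B) (inflRep U C) where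
  i := i
  π := q
  hi := fun g a => hE.equivar_i (g : G ⧸ U) a
  hπ := fun g b => hE.equivar_q (g : G ⧸ U) b
  inj := hE.inj
  surj := hE.surj
  exact := hE.exact

lemma inflRep_trivial (W : FDRepData k (G ⧸ U)) (u : G) (hu : u ∈ U) (w : inflRep U W) :
    (inflRep U W).ρ u w = w := by
  show W.ρ (u : G ⧸ U) w = w
  rw [(QuotientGroup.eq_one_iff u).2 hu, map_one]
  rfl

/-- deflation of a representation trivial on `U` -/
def deflData (N : Rep.{0, 0, 0} k G) [Module.Finite k N] (hN : ∀ u ∈ U, ∀ n : N, N.ρ u n = n) :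
    FDRepData k (G ⧸ U) where
  V := N
  ρ := QuotientGroup.lift U N.ρ (fun u hu => by
    rw [MonoidHom.mem_ker]
    apply LinearMap.ext
    intro n
    exact hN u hu n)

end

/-- **RED from Lemma A.** -/
theorem red_of (hA : LemmaAStatement) : RedStatement := by
  intro p _ G _ L c U _ _ χ hχ h1 h2 hadd hId N hNfin hN
  classical
  have : Finite (G ⧸ U) := Subgroup.finite_quotient_of_finiteIndex
  -- the invariant
  let f : RepInv (ZMod p) (G ⧸ U) := fun W => phi L c (inflRep U W)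
  have hf : IsAdditiveInv f := by
    intro A B C i q hE
    exact hadd _ _ _ (inflSES U i q hE) B.fin (fun u hu b => inflRep_trivial U B u hu b)
  -- vanishing on induced modules
  have hind : ∀ B : Subgroup (G ⧸ U), IsCyclic B → ¬ p ∣ Nat.card B →
      ∀ W : FDRepData (ZMod p) (G ⧸ U), f (permData B W) = 0 := by
    intro B hB hpB W
    obtain ⟨g, rfl⟩ := (Subgroup.isCyclic_iff_exists_zpowers_eq_top B).1 hB
    obtain ⟨σ, rfl⟩ := QuotientGroup.mk_surjective g
    rw [Nat.card_zpowers] at hpB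
    obtain ⟨e, he⟩ := hA (ZMod p) G U χ hχ σ W (Fin (finrank (ZMod p) W.V))
      (Module.finBasis (ZMod p) W.V)
    have hzero := phi_kerRep_eq_zero (p := p) (L := L) (c := c) (U := U) (M₀ := ofChar χ)
      h1 h2 hId
      (LinearMap.toMatrix (Module.finBasis (ZMod p) W.V) (Module.finBasis (ZMod p) W.V)
        ((((χ σ)⁻¹ : (ZMod p)ˣ) : ZMod p) • W.ρ (σ : G ⧸ U))) σ (orderOf (σ : G ⧸ U)) hpB
      (toMatrix_twist_pow U χ hχ σ W _ _ (pow_orderOf_eq_one _)) (pow_orderOf_eq_one _)
    show phi L c (inflRep U (permData (Subgroup.zpowers (σ : G ⧸ U)) W)) = 0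
    rw [← hzero]
    exact phi_eq_of_iso L c
      (A := inflRep U (permData (Subgroup.zpowers (σ : G ⧸ U)) W)) e
      (fun g a => Subtype.ext (he g a))
  have hall := ind p (G ⧸ U) f hf hind
  -- conclusion
  have : Module.Finite (ZMod p) N := hNfin
  have h3 := hall (deflData U N hN)
  show phi L c N = 0
  rw [← h3]
  exact phi_eq_of_iso L c (A := N) (B := inflRep U (deflData U N hN)) (LinearEquiv.refl _ _)
    (fun g a => rfl)

end Fermat.Agent.S56.H614

end

end
-- ===== PACK-END S56/H614/Red.lean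

-- ===== PACK-BEGIN S55/Inv/GO4/AsmE.lean
section



/-!
# S55 / GO4 dictionary: the assembly in the exact type `AsmSpec` (helper3)

`asm p S : AsmSpec p S`, i.e. `FLCokerSpec p S → LocDescSpec p S → Inv.CokerESpec p S`
(the `μ_p`-valued form of `Inv/SpecK.lean`, consumed by `PT/Final*.lean`), from `go4_core`.
-/

set_option autoImplicit false
set_option maxHeartbeats 400000
set_option linter.unusedSectionVars false

noncomputable section

namespace Fermat.Agent.S55.Inv.GO4

open Fermat.Agent.S55 Fermat.Agent.S55.Tow Fermat.Agent.S55.E1.Lim groupCohomology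
open Fermat.Agent.S55.PT Fermat.Agent.S55.Bridge ExtCitation

variable (p : ℕ) [Fact p.Prime] (S : Finset Nat.Primes)

/-- `indMuToL ∘ x` is a level-constant cocycle with values in `Ind_U ℚ̄_qˣ`, killed by `p`. -/
lemma indMuToL_comp_mem (q : Nat.Primes) (U : Subgroup PT.GQ) [U.Normal]
    (x : Gl q × Gl q → K.indG U (muP p))
    (hx : x ∈ (localLevels q).Z2 (Rep.res (rl q) (K.indG U (muP p)))) :
    (indMuToL p S q U ∘ x : Gl q × Gl q → K.ind (rl q) U (Tow.unitsQpbar q)) ∈
        (localLevels q).Z2 (K.ind (rl q) U (Tow.unitsQpbar q)) ∧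
      p • (indMuToL p S q U ∘ x : Gl q × Gl q → K.ind (rl q) U (Tow.unitsQpbar q)) ∈
        (localLevels q).B2 (K.ind (rl q) U (Tow.unitsQpbar q)) := by
  have hι := (Inv.H99.isKummerEmb_indMuToL p S q U).equivariant
  refine ⟨⟨?_, LevelSys.IsLC₂.comp hx.2 _⟩, ?_⟩
  · have h1 := (mem_cocycles₂_iff _).1 hx.1
    show (indMuToL p S q U ∘ x : Gl q × Gl q → K.ind (rl q) U (Tow.unitsQpbar q)) ∈
      cocycles₂ (K.ind (rl q) U (Tow.unitsQpbar q))
    rw [mem_cocycles₂_iff]
    intro g h j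
    have h2 := congrArg (indMuToL p S q U) (h1 g h j)
    rw [map_add, map_add, hι] at h2
    exact h2
  · have h0 : p • (indMuToL p S q U ∘ x : Gl q × Gl q → K.ind (rl q) U (Tow.unitsQpbar q)) = 0 := by
      funext z
      show p • indMuToL p S q U (x z) = 0
      rw [← map_nsmul]
      have : p • x z = 0 := by
        rw [← Nat.cast_smul_eq_nsmul (ZMod p), ZMod.natCast_self, zero_smul]
      rw [this, map_zero]
    rw [h0]
    exact Submodule.zero_mem _

/-- the body of `Inv.CokerESpec`, for `U = K₀.U` -/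
theorem asm_core (hFL : FLCokerSpec p S) (hLD : LocDescSpec p S) (K₀ : Level S)
    (x x' : (q : ↥S) → (Gl q.1 × Gl q.1 → K.indG K₀.U (muP p)))
    (hx : ∀ q : ↥S, x q ∈ (localLevels q.1).Z2 (Rep.res (rl q.1) (K.indG K₀.U (muP p))))
    (hx' : ∀ q : ↥S, x' q ∈ (localLevels q.1).Z2 (Rep.res (rl q.1) (K.indG K₀.U (muP p)))) :
    ∃ a b : ZMod p, (a ≠ 0 ∨ b ≠ 0) ∧
      ∃ e ∈ (globalLevels S).Z2 (K.indG K₀.U (K.sUnits S)),
        p • e ∈ (globalLevels S).B2 (K.indG K₀.U (K.sUnits S)) ∧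
        ∀ q : ↥S,
          ((K.indLocE q.1 S K₀.U ∘ e ∘ Prod.map (rl q.1) (rl q.1) :
              Gl q.1 × Gl q.1 → K.ind (rl q.1) K₀.U (Tow.unitsQpbar q.1)) -
            indMuToL p S q.1 K₀.U ∘ (a • x q + b • x' q)) ∈
            (localLevels q.1).B2 (K.ind (rl q.1) K₀.U (Tow.unitsQpbar q.1)) := by
  obtain ⟨a, b, hab, y, hyZ, hyB, hyloc⟩ := go4_core p S hFL hLD K₀
    (fun q => indMuToL p S q.1 K₀.U ∘ x q)
    (fun q => indMuToL p S q.1 K₀.U ∘ x' q)
    (fun q => indMuToL_comp_mem p S q.1 K₀.U (x q) (hx q))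
    (fun q => indMuToL_comp_mem p S q.1 K₀.U (x' q) (hx' q))
  refine ⟨(a : ZMod p), (b : ZMod p), ?_, y, hyZ, hyB, fun q => ?_⟩
  · by_contra hcon
    rw [not_or, not_not, not_not] at hcon
    exact hab ⟨(ZMod.intCast_zmod_eq_zero_iff_dvd a p).1 hcon.1,
      (ZMod.intCast_zmod_eq_zero_iff_dvd b p).1 hcon.2⟩
  · have h1 := Submodule.neg_mem _ (hyloc q)
    have h2 : ((K.indLocE q.1 S K₀.U ∘ y ∘ Prod.map (rl q.1) (rl q.1) :
              Gl q.1 × Gl q.1 → K.ind (rl q.1) K₀.U (Tow.unitsQpbar q.1)) -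
            indMuToL p S q.1 K₀.U ∘ ((a : ZMod p) • x q + (b : ZMod p) • x' q)) =
        -(a • (indMuToL p S q.1 K₀.U ∘ x q) + b • (indMuToL p S q.1 K₀.U ∘ x' q) -
          fun z : Gl q.1 × Gl q.1 =>
            (K.indLocE q.1 S K₀.U).toAddMonoidHom (y (rl q.1 z.1, rl q.1 z.2))) := by
      funext z
      simp only [Pi.sub_apply, Pi.neg_apply, Pi.add_apply, Pi.smul_apply, Function.comp_apply,
        neg_sub, map_add, Int.cast_smul_eq_zsmul, map_zsmul]
      rfl
    rw [h2]
    exact h1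

/-- **GO4-ASM, exact type.** -/
theorem asm : AsmSpec p S := by
  intro _ hFL hLD _hp2 _hpS U hU hUn _hcyc x x' hx hx'
  obtain ⟨F, hF, rfl⟩ := hU
  exact asm_core p S hFL hLD ⟨F, hF, hUn⟩ x x' hx hx'

end Fermat.Agent.S55.Inv.GO4

end

end
-- ===== PACK-END S55/Inv/GO4/AsmE.lean

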