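import Fermat.Agent.Pack.S56.E18L2
import Fermat.Agent.Pack.S56.E9L0
import Fermat.Agent.Pack.S56.E20L3
import Fermat.Agent.Pack.S56.E13L2
import Fermat.Agent.Pack.S56.E7L0
import Fermat.Agent.Pack.S56.E0L1
import Fermat.Agent.Pack.S56.E14L2
import Fermat.Agent.Pack.S56.E14L3
import Fermat.Agent.Pack.S56.E13L0
import Fermat.Agent.Pack.S56.E14L0
import Fermat.Agent.Pack.S56.E20L0
import Fermat.Agent.Pack.S56.E9L1
import Fermat.Agent.Pack.S56.E13L3
import Fermat.Agent.Pack.S56.E15L2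
import Fermat.Agent.Pack.S56.E10L2
import Fermat.Agent.Pack.S56.E10L0
import Fermat.Agent.Pack.S56.E10L1
import Fermat.Agent.Pack.S56.E9L2
import Fermat.Agent.Pack.S56.E14L1
import Fermat.Agent.Pack.S56.E19L1
import Fermat.Agent.Pack.S56.E11L0
import Fermat.Agent.Pack.S56.E9L3
import Fermat.Agent.Pack.S56.E20L2
import Fermat.Agent.Pack.S56.E20L1
import Fermat.Agent.Pack.S56.E4L1

-- ===== PACK-BEGIN S56/FL/Assemble.lean
section














/-!
# Row S56 — wall LOC-FLAT, supersingular half: assembly (helper426)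

`flatSS_of_hilbert`: `FlatSSStatement` from `RLHilbert`; everything else is plugged in from `main`
(`FL.localModel` of `FL/LMMain.lean`, `H846.flCnt`, `H769.flCyc`, `H194.rlCyc`, `H194.rcTame_of`,
`H334.rl*`, `H102.RLQF.rlQuotFormula`, `H384.rcShape`, the glue `flatSS_of`, `ramCount_of_cnt`).
The unconditional statement is `FL.flatSSMain` in `FL/FlatSSMain.lean`.
-/

set_option autoImplicit false

namespace Fermat.Agent.S56.FL

/-- `RamCountStatement` from `RLHilbert`. -/
theorem ramCount_of_hilbert (rlHilbert : RLHilbertStatement) : RamCountStatement :=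
  ramCount_of_cnt (H194.rcTame_of H334.rlWild H334.rlTame) H846.flCnt H769.flCyc H334.rlWild
    H334.rlComm H334.rlTame H334.rlTheta H334.rlQuot H102.RLQF.rlQuotFormula rlHilbert
    H194.rlCyc H384.rcShape

/-- `FlatSSStatement` from `RLHilbert`. -/
theorem flatSS_of_hilbert (rlHilbert : RLHilbertStatement) : FlatSSStatement :=
  flatSS_of localModel (ramCount_of_hilbert rlHilbert)

end Fermat.Agent.S56.FL

end
-- ===== PACK-END S56/FL/Assemble.lean

-- ===== PACK-BEGIN S56/FL/FlatSSMain.lean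
section



/-!
# Row S56 — wall LOC-FLAT, supersingular half: CLOSED (sub-architect helper426)

    flatSSMain : FL.FlatSSStatement
    locFlatP_of_flatO : FL.FlatOStatement → H716.LocFlatPStatement

`FlatSSStatement`: when `ρ̄|_{D_P}` is irreducible, any two flat tangent cocycles are linearly
dependent modulo coboundaries on `D_P`.  Sorry-free; nothing but the three standard axioms.

Leaves: `FL.localModel` (helper434; INT helper914, STRUCT helper287/176, ROOT helper116/254/434),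
`H846.flCnt` (abstract count), `H769.flCyc`, `H194.rlCyc`, `H194.rcTame_of`, `H334.rlWild/rlComm/
rlTame/rlTheta/rlQuot`, `H102.RLQF.rlQuotFormula`, `H102.RLH.rlHilbert`, `H384.rcShape`,
`H384`/`FL.rcInfl`; glue `FL.flatSS_of`, `FL.ramCount_of_cnt`, `FL.locFlatP_of` (helper426).
-/

set_option autoImplicit false

namespace Fermat.Agent.S56.FL

/-- **`RamCountStatement`**, unconditional. -/
theorem ramCountMain : RamCountStatement :=
  ramCount_of_hilbert H102.RLH.rlHilbert

/-- **`FlatSSStatement`**, unconditional. -/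
theorem flatSSMain : FlatSSStatement :=
  flatSS_of_hilbert H102.RLH.rlHilbert

/-- The wall LOC-FLAT from its ordinary half. -/
theorem locFlatP_of_flatO (hO : FlatOStatement) : H716.LocFlatPStatement :=
  locFlatP_of flatSSMain hO

end Fermat.Agent.S56.FL

end
-- ===== PACK-END S56/FL/FlatSSMain.lean

-- ===== PACK-BEGIN S56/FL/LocFlatPMain.lean
section



/-!
# Row S56 — wall LOC-FLAT: CLOSED (sub-architect helper426)

    locFlatPMain : H716.LocFlatPStatement

= `FL.locFlatP_of FL.flatSSMain FO.H6.flatO`: the flat tangent bound at `p` (`P | p`), i.e.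
`dim H¹_f(D_P, ad⁰ ρ̄) ≤ 1 + dim H⁰(D_P, ad⁰ ρ̄)` in the plain-function form of `H716/TBSpec.lean`.

* supersingular half `FL.flatSSMain : FlatSSStatement` (`FL/FlatSSMain.lean`; helper426 with
  helper434, 914, 287, 176, 116, 254, 846, 769, 194, 334, 102, 384, 134, 374, 618, 966);
* ordinary half `FO.H6.flatO : FL.FlatOStatement` (`FO/H6/FlatO.lean`; helper6 with helper906,
  656, 734, 486, 66, 664, 246).

Sorry-free; nothing but the three standard axioms.
-/

set_option autoImplicit false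

namespace Fermat.Agent.S56.FL

/-- **LOC-FLAT**, unconditional. -/
theorem locFlatPMain : H716.LocFlatPStatement :=
  locFlatP_of flatSSMain Fermat.Agent.S56.FO.H6.flatO

end Fermat.Agent.S56.FL

end
-- ===== PACK-END S56/FL/LocFlatPMain.lean

-- ===== PACK-BEGIN S55/G/Rec/Reciprocity.lean
section















/-!
# S55 / layer G / block REC : THE RECIPROCITY LAW  (assembly, helper1)

All 19 leaves of the norm route (`Rec/Spec2.lean`) are proved on main; this file assembles them.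

* `cycloSum I : CycloSumSpec I`                                  (STEP A, unconditional)
* `killAboveP I p (hp : p ≠ 2) : KillAbovePSpec I p`             (STEP C, unconditional)
* `trivAboveP I p hp (HP : HassePrincipleSpec p) : TrivAbovePSpec I p`   (STEP B)
* **`reciprocity I p hp (HP : HassePrincipleSpec p) : ReciprocitySpec I p`** :
  for every local invariant system `I`, every odd prime `p` and every number field
  `K = ℚ̄^U`: `∑_v inv_v (x_v) = 0` for all `x ∈ Br(K)` of `p`-power order.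

The only remaining inputs are the adapters `HassePrincipleSpec p` (from the inequalities,
`Rec/HP/`) and the existence of a `LocalInvSystem` (from local class field theory, `Rec/Loc/`).
-/

set_option autoImplicit false

namespace Fermat.Agent.S55.G.Rec

/-- (L3) the unramified formula, unconditional. -/
theorem unramCup (I : LocalInvSystem) : UnramCupSpec I :=
  H900.unramCup_of H931.localStructure H496.cupAdd I

/-- **STEP A**: the cyclotomic sum formula. -/
theorem cycloSum (I : LocalInvSystem) : CycloSumSpec I :=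
  H511.cycloSum_of H496.cupLoc H844.localNorm H931.localStructure H854.cycloFrob
    H413.localCycloNorm H934.orbitNorm
    (H124.productFormula_of H934.orbitNorm VdegH707.vdegSpec) H181.supportFinite I (unramCup I)

/-- **STEP C**: killing the components above `p`. -/
theorem killAboveP (I : LocalInvSystem) (p : ℕ) [Fact p.Prime] (hp : p ≠ 2) :
    KillAbovePSpec I p :=
  H174.killAboveP_of I p hp H931.localStructure H742.weakApprox (cycloSum I)

/-- **STEP B**: classes trivial above `p`, from the Hasse principle. -/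
theorem trivAboveP (I : LocalInvSystem) (p : ℕ) [Fact p.Prime] (hp : p ≠ 2)
    (HP : HassePrincipleSpec p) : TrivAbovePSpec I p :=
  H415.trivAboveP_of I p hp HP Glob.cyclicSplit H181.supportFinite H496.locRes (cycloSum I)

/-- **THE RECIPROCITY LAW** (`p`-primary part, `p` odd), from the Hasse principle. -/
theorem reciprocity (I : LocalInvSystem) (p : ℕ) [Fact p.Prime] (hp : p ≠ 2)
    (HP : HassePrincipleSpec p) : ReciprocitySpec I p :=
  reciprocity_of I p (trivAboveP I p hp HP) (killAboveP I p hp) H181.supportFinite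

end Fermat.Agent.S55.G.Rec

end
-- ===== PACK-END S55/G/Rec/Reciprocity.lean

-- ===== PACK-BEGIN S55/E1/Inputs.lean
section
/-
S55 engine E1 — the arithmetic inputs, integration file.  Chief architect: helper55.  NO sorry.

Of the five inputs of `InputsSpecFin` (E1/Main3.lean) four are PROVED on main:
* T6p  `T.H719.tateNakayamaAt`          (helper719 + 837 + 353 + 295),
* L    `LocalSpec.H964.localSpec`       (helper964 + layer L),
* GD9  `Bridge.sUnitsDivSpec`           (helper655),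
* GD10 `Bridge.h1FiniteSpec`            (helper655 + helper901).
The only remaining input is `GlobalInputSpec` (= `Tow.GlobalSpecFin S p` for all odd `p ∈ S`),
the target of layer G (G-ADAPTER).

`S55_of_engine_global : EngineSpecFin → GlobalInputSpec → <frozen statement S55>`.
So `Fermat/Agent/S55.lean` will be
  `E1.S55_of_engine_global engineSpecFin globalInput hp2 S hpS M hsm hMur`.
-/






set_option autoImplicit false

open CategoryTheory Module groupCohomology ExtCitation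

namespace Fermat.Agent.S55.E1

open Fermat.Agent.S55.Tow

/-- **The only open arithmetic input**: a good tower datum (final form) for all odd `p ∈ S`. -/
def GlobalInputSpec : Prop :=
  ∀ (p : ℕ) [Fact p.Prime], p ≠ 2 → ∀ (S : Finset Nat.Primes), pPrime p ∈ S → GlobalSpecFin S p

/-- All arithmetic inputs of the engine from the global one. -/
theorem inputsSpecFin_of (hG : GlobalInputSpec) : InputsSpecFin :=
  ⟨Fermat.Agent.S55.T.H719.tateNakayamaAt, fun p _ hp2 S hpS =>
    ⟨hG p hp2 S hpS,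
      Fermat.Agent.S55.LocalSpec.H964.localSpec p (Nat.Prime.ne_zero Fact.out),
      Fermat.Agent.S55.Bridge.sUnitsDivSpec (S := S) (p := p) hpS,
      Fermat.Agent.S55.Bridge.h1FiniteSpec S hpS⟩⟩

/-- S55 from the engine and the global input. -/
theorem S55_of_engine_global (hE : EngineSpecFin) (hG : GlobalInputSpec)
    {p : ℕ} [Fact p.Prime] (hp2 : p ≠ 2) (S : Finset Nat.Primes) (hpS : pPrime p ∈ S)
    (M : Rep (ZMod p) (AlgebraicClosure ℚ ≃ₐ[ℚ] AlgebraicClosure ℚ))
    [FiniteDimensional (ZMod p) M]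
    (hsm : ∀ m : M, ∃ F : IntermediateField ℚ (AlgebraicClosure ℚ), FiniteDimensional ℚ F ∧
      ∀ s ∈ F.fixingSubgroup, M.ρ s m = m)
    (hMur : ∀ q : Nat.Primes, q ∉ S → ∀ A : ValuationSubring (AlgebraicClosure ℚ),
      A.LiesOverPrime (q : ℕ) → ∀ g ∈ A.inertiaSubgroupIn ℚ, M.ρ g = 1) :
    ∃ B : sha₁ S (M.dualTwist (cycloChar p)) →ₗ[ZMod p] sha₂ S M →ₗ[ZMod p] ZMod p,
      (∀ y, (∀ x, B y x = 0) → y = 0) ∧ (∀ x, (∀ y, B y x = 0) → x = 0) :=
  S55_of_specsFin hE (inputsSpecFin_of hG) hp2 S hpS M hsm hMur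

end Fermat.Agent.S55.E1

end
-- ===== PACK-END S55/E1/Inputs.lean

-- ===== PACK-BEGIN S55/G/Exist/IdxH901Pow121.lean
section
/-
S55, layer G, block EXIST, leaf EX-POW (helper901): helper121's `Exist121.PowIndexSpec`
(exact type) from G-PL1.  Sorry-free.
-/



set_option autoImplicit false
set_option linter.unusedSectionVars false

open scoped NumberField TensorProduct

namespace Fermat.Agent.S55.G.Exist.H901

open Fermat.Agent.S55.G

variable (S : Finset Nat.Primes) (K : Type) [Field K] [NumberField K]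

/-- `[ker ord : p · ker ord]` (helper121's form) is `[E_S : p E_S]` (helper233's form). -/
theorem relIndex_pKer_eq (p : ℕ) :
    (Exist121.pKer (ordHom S K) p).relIndex (ordHom S K).ker =
      (AddMonoidHom.range (nsmulAddMonoidHom (α := sUnit S K) p)).index := by
  let e : sUnit S K ≃+ (ordHom S K).ker :=
    { toFun := fun x => ⟨x.1, x.2⟩
      invFun := fun x => ⟨x.1, x.2⟩
      left_inv := fun _ => rfl
      right_inv := fun _ => rfl
      map_add' := fun _ _ => rfl }
  have h : (AddMonoidHom.range (nsmulAddMonoidHom (α := sUnit S K) p)).map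
      (e : sUnit S K →+ (ordHom S K).ker) =
        (Exist121.pKer (ordHom S K) p).addSubgroupOf (ordHom S K).ker := by
    ext y
    rw [AddSubgroup.mem_map, AddSubgroup.mem_addSubgroupOf]
    constructor
    · rintro ⟨_, ⟨x, rfl⟩, rfl⟩
      exact ⟨x.1, x.2, rfl⟩
    · rintro ⟨x, hx, hxy⟩
      exact ⟨p • (⟨x, hx⟩ : sUnit S K), ⟨⟨x, hx⟩, rfl⟩, Subtype.ext hxy⟩
  rw [AddSubgroup.relIndex, ← h, AddSubgroup.index_map_equiv]

/-- **EX-POW** (`Exist121.PowIndexSpec`, exact type) from G-PL1. -/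
theorem powIndexSpec_of (hPP : PlacePrimeSpec) : Exist121.PowIndexSpec := by
  intro p hp hp2 S K _ _ hpS hζ
  rw [relIndex_pKer_eq]
  exact powIndex_eq_of S K hPP p hp2 hpS hζ

end Fermat.Agent.S55.G.Exist.H901

end
-- ===== PACK-END S55/G/Exist/IdxH901Pow121.lean

-- ===== PACK-BEGIN S55/G/Rec/Tow/FR/RecipH724.lean
section
/-
S55 / layer G / block REC / adapter TOW / leaf FR, assembly piece `recip` (helper724).

* `cH2_diag` (REC1) : `c_{q,g} (diag_* x) = locBr q g (inflL x)` for `x ∈ H²(H, Mˣ)`;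
* `recip_of` : `ReciprocitySpec I p → OutsideSpec I →` the field `recip` of `TOW.SemiLocalInv p`
  for `σ = FR.sigma I`.
-/


set_option autoImplicit false
set_option linter.style.haveILetI false

open CategoryTheory groupCohomology

noncomputable section

namespace Fermat.Agent.S55.G.Rec.TOW.FR.H724

open Fermat.Agent.S55 Fermat.Agent.S55.Tow Fermat.Agent.S55.E1.H594 Fermat.Agent.S55.G.Rec

variable {S : Finset Nat.Primes} (M : Level S) (H : Subgroup M.Gal)

/-- **REC1**: the localisation of the diagonal image of `x ∈ H²(H, Mˣ)` is the localisation of the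
inflation of `x`. -/
theorem cH2_diag (q : ℕ) [hq : Fact q.Prime] (hqS : (⟨q, hq.out⟩ : Nat.Primes) ∈ S) (g : GQ)
    (x : groupCohomology (T.resSub (lvlL M) H) 2) :
    cH2 M H S q hqS g (h2Sub (diagJRepHom S M.Gal M.F) H x) =
      locBr q g (UH M H) (inflL M H x) := by
  have h1 := LocDatum.map_comp (A := T.resSub (lvlL M) H) (cDatum M H S q hqS g)
    (MonoidHom.id ↥H) ((Rep.resFunctor H.subtype).map (diagJRepHom S M.Gal M.F)) x
  have h2 := GlobDatum.locBr_map (inflDatum M H) q g x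
  refine h1.symm.trans (Eq.trans ?_ h2.symm)
  refine congrFun (congrArg DFunLike.coe (LocDatum.map_congr ?_ ?_)) x
  · rfl
  · apply AddMonoidHom.ext
    intro a
    apply Additive.toMul.injective
    apply Units.ext
    exact evAlg_asDiag M S q hqS g _


/-- The inflation of a `p`-primary class is `p`-primary. -/
lemma inflL_pPrimary (p : ℕ) (x : groupCohomology (T.resSub (lvlL M) H) 2)
    (hx : E1.IsPPrimary p x) : ∃ k : ℕ, p ^ k • inflL M H x = 0 := by
  obtain ⟨k, hk⟩ := hx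
  refine ⟨k, ?_⟩
  have := map_nsmul (inflL M H) (p ^ k) x
  rw [← this, hk, map_zero]

/-- **recip** for `σ = FR.sigma I`: reciprocity at finite level. -/
theorem recip_of' (I : LocalInvSystem) (p : ℕ) (hR : ReciprocitySpec I p) (hO : OutsideSpec I)
    (x : groupCohomology (T.resSub (lvlL M) H) 2) (hx : E1.IsPPrimary p x)
    (hord : h2Sub (G.ordRepHom S M.Gal M.F) H x = 0) :
    sigma I M H (h2Sub (diagJRepHom S M.Gal M.F) H x) = 0 := by
  -- the global reciprocity law for the inflated class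
  obtain ⟨-, hsum⟩ := hR (UH M H) (isOpenQ_UH M H) (inflL M H x) (inflL_pPrimary M H p x hx)
    (fun q => haveI : Fact (q : ℕ).Prime := ⟨q.2⟩; reps (UH M H) (q : ℕ))
    (fun q => haveI : Fact (q : ℕ).Prime := ⟨q.2⟩; reps_spec (isOpenQ_UH M H) (q : ℕ))
  -- only the primes of `S` contribute
  have hsupp : (Function.support fun q : Nat.Primes =>
      ∑ r ∈ (haveI : Fact (q : ℕ).Prime := ⟨q.2⟩; reps (UH M H) (q : ℕ)),
        I.invAt q r (UH M H) (inflL M H x)) ⊆ ↑S := by
    intro q hq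
    by_contra hqS
    apply hq
    exact Finset.sum_eq_zero fun r _ => hO M H x hord q hqS r
  rw [finsum_eq_sum_of_support_subset _ hsupp] at hsum
  rw [sigma_apply, ← hsum, ← Finset.sum_coe_sort S]
  refine Finset.sum_congr rfl fun q _ => ?_
  rw [sigmaAt_apply]
  refine Finset.sum_congr rfl fun g _ => ?_
  haveI : Fact ((q.1 : ℕ).Prime) := ⟨q.1.2⟩
  exact congrArg (I.inv (q.1 : ℕ) (locSub (q.1 : ℕ) g (UH M H)))
    (cH2_diag M H (q.1 : ℕ) q.2 g x)

/-- **recip** for `σ = FR.sigma I`, with FR-OUT plugged in. -/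
theorem recip_of (I : LocalInvSystem) (p : ℕ) (hR : ReciprocitySpec I p)
    {S : Finset Nat.Primes} (M : Level S) (H : Subgroup M.Gal)
    (x : groupCohomology (T.resSub (lvlL M) H) 2) (hx : E1.IsPPrimary p x)
    (hord : h2Sub (G.ordRepHom S M.Gal M.F) H x = 0) :
    sigma I M H (h2Sub (diagJRepHom S M.Gal M.F) H x) = 0 :=
  recip_of' M H I p hR (outside I) x hx hord

end Fermat.Agent.S55.G.Rec.TOW.FR.H724

end
end
-- ===== PACK-END S55/G/Rec/Tow/FR/RecipH724.lean

-- ===== PACK-BEGIN S55/G/Rec/Tow/FR/ResIndexH724.lean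
section
/-
S55 / layer G / block REC / adapter TOW / leaf FR, assembly piece `resIndex` (helper724).

* `cH2_res` (RES1) : `c^H_{q,g} (res_H y) = lRes (c^⊤_{q,g} (res_⊤ y))`, for any `W`;
* `resIndex_of I : ConjSpec I → CountSpec →` the field `resIndex` of `TOW.SemiLocalInv p`
  for `σ = FR.sigma I`  (`I.inv_res` + FR-CONJ + FR-COUNT).
-/


set_option autoImplicit false
set_option linter.style.haveILetI false

open CategoryTheory groupCohomology

noncomputable section

namespace Fermat.Agent.S55.G.Rec.TOW.FR.H724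

open Fermat.Agent.S55 Fermat.Agent.S55.Tow Fermat.Agent.S55.E1.H594 Fermat.Agent.S55.G.Rec

variable {S : Finset Nat.Primes} (M : Level S) (H : Subgroup M.Gal)

lemma locSub_mono (q : ℕ) [Fact q.Prime] (g : GQ) {U U' : Subgroup GQ} (h : U' ≤ U) :
    locSub q g U' ≤ locSub q g U := fun _ hτ => h hτ

lemma UH_le_top : UH M H ≤ UH M ⊤ := fun _ _ => Subgroup.mem_top _

/-- **RES1**: localisation commutes with restriction. -/
theorem cH2_res (W : Finset Nat.Primes) (q : ℕ) [hq : Fact q.Prime]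
    (hqW : (⟨q, hq.out⟩ : Nat.Primes) ∈ W) (g : GQ)
    (y : groupCohomology (G.JRep M.Gal W M.F) 2) :
    cH2 M H W q hqW g (res2 (G.JRep M.Gal W M.F) H y) =
      lRes q (locSub_mono q g (UH_le_top M H))
        (cH2 M ⊤ W q hqW g (res2 (G.JRep M.Gal W M.F) ⊤ y)) := by
  have h1 := LocDatum.map_comp (A := G.JRep M.Gal W M.F) (cDatum M H W q hqW g)
    H.subtype (𝟙 (T.resSub (G.JRep M.Gal W M.F) H)) y
  have h2 := LocDatum.map_comp (A := G.JRep M.Gal W M.F) (cDatum M ⊤ W q hqW g)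
    (⊤ : Subgroup M.Gal).subtype (𝟙 (T.resSub (G.JRep M.Gal W M.F) ⊤)) y
  have h3 := LocDatum.map_restrict
    ((cDatum M ⊤ W q hqW g).comp (⊤ : Subgroup M.Gal).subtype
      (𝟙 (T.resSub (G.JRep M.Gal W M.F) ⊤)))
    (locSub_mono q g (UH_le_top M H)) y
  refine h1.symm.trans (Eq.trans ?_ (h3.trans (congrArg _ h2)))
  refine congrFun (congrArg DFunLike.coe (LocDatum.map_congr ?_ ?_)) y
  · rfl
  · rfl


/-- The local invariant of the restriction, in terms of the invariant over `ℚ` at `g = 1`. -/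
lemma inv_cH2_res (I : LocalInvSystem) (hC : ConjSpec I) (q : ℕ) [hq : Fact q.Prime]
    (hqS : (⟨q, hq.out⟩ : Nat.Primes) ∈ S) (g : GQ) (y : groupCohomology (lvlJ M) 2) :
    I.inv q (locSub q g (UH M H)) (cH2 M H S q hqS g (res2 (lvlJ M) H y)) =
      (locSub q g (UH M H)).relIndex (locSub q g (UH M ⊤)) •
        I.inv q (locSub q 1 (UH M ⊤)) (cH2 M ⊤ S q hqS 1 (res2 (lvlJ M) ⊤ y)) := by
  have e1 := congrArg (I.inv q (locSub q g (UH M H))) (cH2_res M H S q hqS g y)
  have e2 := I.inv_res q _ _ (locSub_mono q g (UH_le_top M H))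
    (H181.isOpenL_locSub q g (isOpenQ_UH M H)) (cH2 M ⊤ S q hqS g (res2 (lvlJ M) ⊤ y))
  have e3 := hC M S q hqS g 1 (res2 (lvlJ M) ⊤ y)
  exact e1.trans (e2.trans (congrArg _ e3))

/-- The invariant over `ℚ` at the place `(q, 1)`. -/
def invTop (I : LocalInvSystem) (q : S) (z : H2 (T.resSub (lvlJ M) ⊤)) : AddCircle (1 : ℚ) :=
  haveI : Fact ((q.1 : ℕ).Prime) := ⟨q.1.2⟩
  I.inv (q.1 : ℕ) (locSub (q.1 : ℕ) 1 (UH M ⊤)) (cH2 M ⊤ S (q.1 : ℕ) q.2 1 z)

/-- The contribution of `q ∈ S` to `σ_H (res_H y)`. -/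
lemma sigmaAt_res (I : LocalInvSystem) (hC : ConjSpec I) (hN : CountSpec) (q : S)
    (y : groupCohomology (lvlJ M) 2) :
    sigmaAt I M H q (res2 (lvlJ M) H y) = H.index • invTop M I q (res2 (lvlJ M) ⊤ y) := by
  haveI : Fact ((q.1 : ℕ).Prime) := ⟨q.1.2⟩
  have e1 := sigmaAt_apply I M H q (res2 (lvlJ M) H y)
  have e2 : ∑ g ∈ reps (UH M H) (q.1 : ℕ),
      I.inv (q.1 : ℕ) (locSub (q.1 : ℕ) g (UH M H))
        (cH2 M H S (q.1 : ℕ) q.2 g (res2 (lvlJ M) H y)) =
      ∑ g ∈ reps (UH M H) (q.1 : ℕ),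
        (locSub (q.1 : ℕ) g (UH M H)).relIndex (locSub (q.1 : ℕ) g (UH M ⊤)) •
          invTop M I q (res2 (lvlJ M) ⊤ y) :=
    Finset.sum_congr rfl fun g _ => inv_cH2_res M H I hC (q.1 : ℕ) q.2 g y
  have e3 := (Finset.sum_smul (s := reps (UH M H) (q.1 : ℕ))
    (f := fun g => (locSub (q.1 : ℕ) g (UH M H)).relIndex (locSub (q.1 : ℕ) g (UH M ⊤)))
    (x := invTop M I q (res2 (lvlJ M) ⊤ y))).symm
  have e4 := hN M H (q.1 : ℕ)
  exact e1.trans (e2.trans (e3.trans (congrArg (· • _) e4)))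

lemma sigmaAt_top (I : LocalInvSystem) (hC : ConjSpec I) (hN : CountSpec) (q : S)
    (y : groupCohomology (lvlJ M) 2) :
    sigmaAt I M ⊤ q (res2 (lvlJ M) ⊤ y) = invTop M I q (res2 (lvlJ M) ⊤ y) := by
  have e := sigmaAt_res M ⊤ I hC hN q y
  have h1 : (⊤ : Subgroup M.Gal).index = 1 := Subgroup.index_top
  refine e.trans ?_
  rw [h1]
  exact one_nsmul _

/-- **resIndex** for `σ = FR.sigma I`: restriction multiplies the semilocal invariant by the
index. -/
theorem resIndex_of (I : LocalInvSystem) (hC : ConjSpec I) (hN : CountSpec)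
    (y : groupCohomology (lvlJ M) 2) :
    sigma I M H (res2 (lvlJ M) H y) = H.index • sigma I M ⊤ (res2 (lvlJ M) ⊤ y) := by
  have e1 := sigma_apply I M H (res2 (lvlJ M) H y)
  have e2 := sigma_apply I M ⊤ (res2 (lvlJ M) ⊤ y)
  have e3 : ∑ q : S, sigmaAt I M H q (res2 (lvlJ M) H y) =
      ∑ q : S, H.index • invTop M I q (res2 (lvlJ M) ⊤ y) :=
    Finset.sum_congr rfl fun q _ => sigmaAt_res M H I hC hN q y
  have e4 : ∑ q : S, sigmaAt I M ⊤ q (res2 (lvlJ M) ⊤ y) =
      ∑ q : S, invTop M I q (res2 (lvlJ M) ⊤ y) :=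
    Finset.sum_congr rfl fun q _ => sigmaAt_top M I hC hN q y
  have e5 := Finset.smul_sum (s := (Finset.univ : Finset S))
    (f := fun q : S => invTop M I q (res2 (lvlJ M) ⊤ y)) (r := H.index)
  exact e1.trans (e3.trans (e5.symm.trans (congrArg (H.index • ·) (e2.trans e4).symm)))

end Fermat.Agent.S55.G.Rec.TOW.FR.H724

end
end
-- ===== PACK-END S55/G/Rec/Tow/FR/ResIndexH724.lean

-- ===== PACK-BEGIN S55/G/Rec/Tow/FR/AssemblyH724.lean
section
/-
S55 / layer G / block REC / adapter TOW / leaf FR — ASSEMBLY (helper724).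

`SemiLocalInv p` for `σ := FR.sigma I` from
* `recip`    : `FR.H724.recip_of`    (ReciprocitySpec + FR-OUT + REC1)          — closed here;
* `resIndex` : `FR.H724.resIndex_of` (RES1 + `I.inv_res` + FR-CONJ + FR-COUNT)  — closed here;
* `injAt`, `locClass` : taken as hypotheses `InjAtField I p`, `LocClassField I p`, which are
  VERBATIM the corresponding fields of `TOW.SemiLocalInv p` with `σ := FR.sigma I`.

`finRec_of_fields I p : ReciprocitySpec I p → InjAtField I p → LocClassField I p → FinRecSpec p`.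
-/




set_option autoImplicit false

open CategoryTheory groupCohomology

noncomputable section

namespace Fermat.Agent.S55.G.Rec.TOW.FR.H724

open Fermat.Agent.S55 Fermat.Agent.S55.Tow Fermat.Agent.S55.E1.H594 Fermat.Agent.S55.G.Rec

/-- The field `injAt` of `TOW.SemiLocalInv p` for `σ := FR.sigma I`. -/
def InjAtField (I : LocalInvSystem) (p : ℕ) : Prop :=
  ∀ {S : Finset Nat.Primes} (M : Level S) (r : Nat.Primes)
    (y : groupCohomology (lvlJ M) 2), E1.IsPPrimary p y → IsAt S M.Gal M.F r y →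
    sigma I M ⊤ (res2 (lvlJ M) ⊤ y) = 0 → y = 0

/-- The field `locClass` of `TOW.SemiLocalInv p` for `σ := FR.sigma I`. -/
def LocClassField (I : LocalInvSystem) (p : ℕ) : Prop :=
  ∀ {S : Finset Nat.Primes} (M : Level S) (r : Nat.Primes), r ∈ S →
    ∀ H Z : Subgroup M.Gal, Z ≤ H → IsPGroup p Z → FixesPrimeAbove M r Z →
    ∃ y : groupCohomology (T.resSub (lvlJ M) H) 2,
      Nat.card Z • y = 0 ∧ ∀ n : ℕ, n • sigma I M H y = 0 → Nat.card Z ∣ n

/-- **resIndex**, closed (FR-CONJ `H414.conj`, FR-COUNT `H73.count`). -/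
theorem resIndex (I : LocalInvSystem) {S : Finset Nat.Primes} (M : Level S) (H : Subgroup M.Gal)
    (y : groupCohomology (lvlJ M) 2) :
    sigma I M H (res2 (lvlJ M) H y) = H.index • sigma I M ⊤ (res2 (lvlJ M) ⊤ y) :=
  resIndex_of M H I (FR.H414.conj I) FR.H73.count y

/-- The semilocal invariant system `σ := FR.sigma I`. -/
def semiLocalInv_of (I : LocalInvSystem) (p : ℕ) (hR : ReciprocitySpec I p)
    (hInj : InjAtField I p) (hLoc : LocClassField I p) : SemiLocalInv p where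
  σ M H := sigma I M H
  recip M H x hx hord := recip_of I p hR M H x hx hord
  resIndex M H y := resIndex I M H y
  injAt M r y hy hat h0 := hInj M r y hy hat h0
  locClass M r hr H Z hZH hZ hfix := hLoc M r hr H Z hZH hZ hfix

/-- **FR assembly**: `FinRecSpec p` from reciprocity and the two fields `injAt`, `locClass`. -/
theorem finRec_of_fields (I : LocalInvSystem) (p : ℕ) (hR : ReciprocitySpec I p)
    (hInj : InjAtField I p) (hLoc : LocClassField I p) : FinRecSpec p :=
  ⟨semiLocalInv_of I p hR hInj hLoc⟩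

end Fermat.Agent.S55.G.Rec.TOW.FR.H724

end
end
-- ===== PACK-END S55/G/Rec/Tow/FR/AssemblyH724.lean

-- ===== PACK-BEGIN S55/G/Rec/Tow/H894/Ev.lean
section


/-!
# S55 / REC2-TOW / FR-INJ (helper894), part 4: the evaluation `ev_{q,g}` and its place

For a finite extension `F/ℚ` inside `ℚ̄`, a prime `q ∈ S` and `g ∈ G_ℚ`:

* `evHom F q hqS g : F ⊗ ℚ_S →+* ℚ̄_q`, `x ⊗ y ↦ ι_q (g⁻¹ x) · y_q`; `eq_evHom_of_tmul` (uniqueness);
* `evPlace F q hqS g : SPlace S F`, its kernel; `evEmb F q hqS g : HP.PlaceEmb S F (evPlace …) q`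
  with `φ (mk a) = evHom a` and conjugating element `g`;
* `primeOf_evPlace` : the rational prime below `evPlace` is `q`;
* `exists_smul_evPlace_eq` : every place above `q` is `Γ`-conjugate to `evPlace F q hqS g₀`
  (`Γ` any group acting on `F` through which every element of `G_ℚ` acts).
-/

set_option autoImplicit false
set_option linter.unusedSectionVars false
set_option linter.style.haveILetI false

open scoped TensorProduct

noncomputable section

namespace Fermat.Agent.S55.G.Rec.TOW.H894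

open groupCohomology CategoryTheory Fermat.Agent.S55.Bridge.H175 Fermat.Agent.S55.G
open Fermat.Agent.S55.G.Rec Fermat.Agent.S55.G.Rec.HP

local notation "Qb" => AlgebraicClosure ℚ
local notation "GQ" => (AlgebraicClosure ℚ ≃ₐ[ℚ] AlgebraicClosure ℚ)

section Ev

variable {S : Finset Nat.Primes} (F : IntermediateField ℚ Qb) [FiniteDimensional ℚ F]
  (q : ℕ) [hq : Fact q.Prime] (hqS : (⟨q, hq.out⟩ : Nat.Primes) ∈ S) (g : GQ)

/-- The `q`-th coordinate `ℚ_S → ℚ_q`. -/
def evQ : QS S →+* ℚ_[q] :=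
  ((QS.proj S ⟨⟨q, hq.out⟩, hqS⟩ : QS S →ₐ[ℚ] Qq ⟨q, hq.out⟩) : QS S →+* Qq ⟨q, hq.out⟩)

lemma evQ_apply (y : QS S) : evQ q hqS y = QS.toPi S y ⟨⟨q, hq.out⟩, hqS⟩ := rfl

/-- The embedding `F → ℚ̄_q`, `x ↦ ι_q (g⁻¹ x)`. -/
def evF : ↥F →+* PadicAlgCl q :=
  ((padicEmbedding q : Qb →ₐ[ℚ] PadicAlgCl q) : Qb →+* PadicAlgCl q).comp
    (((g⁻¹ : GQ) : Qb →+* Qb).comp (algebraMap ↥F Qb))

lemma evF_apply (x : F) : evF F q g x = padicEmbedding q (g⁻¹ (x : Qb)) := rfl

/-- **The evaluation** `ev_{q,g} : F ⊗ ℚ_S → ℚ̄_q`, `x ⊗ y ↦ ι_q (g⁻¹ x) · y_q`. -/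
def evHom : AS S ↥F →+* PadicAlgCl q :=
  ((Algebra.TensorProduct.lift (evF F q g).toRatAlgHom
    ((algebraMap ℚ_[q] (PadicAlgCl q)).comp (evQ q hqS)).toRatAlgHom
    (fun _ _ => Commute.all _ _) : AS S ↥F →ₐ[ℚ] PadicAlgCl q) : AS S ↥F →+* PadicAlgCl q)

lemma evHom_tmul (x : F) (y : QS S) :
    evHom F q hqS g (x ⊗ₜ[ℚ] y) =
      padicEmbedding q (g⁻¹ (x : Qb)) *
        algebraMap ℚ_[q] (PadicAlgCl q) (QS.toPi S y ⟨⟨q, hq.out⟩, hqS⟩) :=
  Algebra.TensorProduct.lift_tmul (evF F q g).toRatAlgHom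
    ((algebraMap ℚ_[q] (PadicAlgCl q)).comp (evQ q hqS)).toRatAlgHom
    (fun _ _ => Commute.all _ _) x y

/-- Uniqueness: a ring homomorphism with the `tmul` formula of `ev_{q,g}` is `evHom`. -/
lemma eq_evHom_of_tmul (ev : AS S ↥F →+* PadicAlgCl q)
    (h : ∀ (x : F) (y : QS S), ev (x ⊗ₜ[ℚ] y) =
      padicEmbedding q (g⁻¹ (x : Qb)) *
        algebraMap ℚ_[q] (PadicAlgCl q) (QS.toPi S y ⟨⟨q, hq.out⟩, hqS⟩)) :
    ev = evHom F q hqS g := by
  refine RingHom.ext fun a => ?_
  induction a using TensorProduct.induction_on with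
  | zero => rw [map_zero, map_zero]
  | tmul x y => rw [h, evHom_tmul]
  | add a b ha hb => rw [map_add, map_add, ha, hb]

lemma evHom_asDiag (x : F) :
    evHom F q hqS g (asDiag S ↥F x) = padicEmbedding q (g⁻¹ (x : Qb)) := by
  rw [asDiag_apply, evHom_tmul]
  have : QS.toPi S (1 : QS S) ⟨⟨q, hq.out⟩, hqS⟩ = 1 := rfl
  rw [this, map_one, mul_one]

lemma evHom_asIncl (y : QS S) :
    evHom F q hqS g (asIncl S ↥F y) =
      algebraMap ℚ_[q] (PadicAlgCl q) (QS.toPi S y ⟨⟨q, hq.out⟩, hqS⟩) := by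
  change evHom F q hqS g ((1 : F) ⊗ₜ[ℚ] y) = _
  rw [evHom_tmul]
  have : ((1 : F) : Qb) = 1 := rfl
  rw [this, map_one, map_one, one_mul]

/-- **The place of `ev_{q,g}`**: the kernel of `evHom`. -/
def evPlace : SPlace S ↥F where
  asIdeal := RingHom.ker (evHom F q hqS g)
  isMaximal := by
    haveI := PL0H713.isArtinianRing_AS S ↥F
    haveI : (RingHom.ker (evHom F q hqS g)).IsPrime := RingHom.ker_isPrime _
    exact IsArtinianRing.isMaximal_of_isPrime _

lemma mem_evPlace_iff (a : AS S ↥F) :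
    a ∈ (evPlace F q hqS g).asIdeal ↔ evHom F q hqS g a = 0 := Iff.rfl

/-- The embedding `F_𝔪 → ℚ̄_q` of the local field at `𝔪 = evPlace`. -/
def evPhi : LocField S (evPlace F q hqS g) →+* PadicAlgCl q :=
  RingHom.kerLift (evHom F q hqS g)

lemma evPhi_mk (a : AS S ↥F) :
    evPhi F q hqS g (LocField.mk S (evPlace F q hqS g) a) = evHom F q hqS g a := rfl

lemma evPhi_injective : Function.Injective (evPhi F q hqS g) :=
  RingHom.kerLift_injective _

lemma evPhi_ofQS (y : QS S) :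
    evPhi F q hqS g (LocField.ofQS S (evPlace F q hqS g) y) =
      algebraMap ℚ_[q] (PadicAlgCl q) (QS.toPi S y ⟨⟨q, hq.out⟩, hqS⟩) :=
  evHom_asIncl F q hqS g y

lemma evPhi_toLoc (x : F) :
    evPhi F q hqS g (toLoc S (evPlace F q hqS g) x) = padicEmbedding q (g⁻¹ (x : Qb)) :=
  evHom_asDiag F q hqS g x

lemma ofQS_single_one_evPlace :
    LocField.ofQS S (evPlace F q hqS g) (PL0H713.single S ⟨⟨q, hq.out⟩, hqS⟩ 1) = 1 := by
  apply evPhi_injective F q hqS g
  rw [evPhi_ofQS, PL0H713.single_apply_same, map_one, map_one]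

/-- The structure map `ℚ_q → F_𝔪` at `𝔪 = evPlace`. -/
def evIota : ℚ_[q] →+* LocField S (evPlace F q hqS g) where
  toFun z := LocField.ofQS S (evPlace F q hqS g) (PL0H713.single S ⟨⟨q, hq.out⟩, hqS⟩ z)
  map_one' := ofQS_single_one_evPlace F q hqS g
  map_mul' x y := by rw [PL0H713.single_mul, map_mul]
  map_zero' := by rw [PL0H713.single_zero, map_zero]
  map_add' x y := by rw [PL0H713.single_add, map_add]

lemma evPhi_evIota (z : ℚ_[q]) :
    evPhi F q hqS g (evIota F q hqS g z) = algebraMap ℚ_[q] (PadicAlgCl q) z := by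
  change evPhi F q hqS g (LocField.ofQS S (evPlace F q hqS g) _) = _
  rw [evPhi_ofQS, PL0H713.single_apply_same]

/-- **The embedded model of `evPlace`**, with conjugating element `g` and `φ ∘ mk = evHom`. -/
def evEmb : PlaceEmb S F (evPlace F q hqS g) q where
  g := g
  φ := evPhi F q hqS g
  ι₀ := evIota F q hqS g
  φ_toLoc := evPhi_toLoc F q hqS g
  φ_ι₀ := evPhi_evIota F q hqS g
  ofQS_mem y := ⟨QS.toPi S y ⟨⟨q, hq.out⟩, hqS⟩, by
    apply evPhi_injective F q hqS g
    rw [evPhi_evIota, evPhi_ofQS]⟩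
  ι₀_mem z := ⟨PL0H713.single S ⟨⟨q, hq.out⟩, hqS⟩ z, rfl⟩

@[simp] lemma evEmb_g : (evEmb F q hqS g).g = g := rfl

lemma evEmb_φ_mk (a : AS S ↥F) :
    (evEmb F q hqS g).φ (LocField.mk S (evPlace F q hqS g) a) = evHom F q hqS g a := rfl

end Ev

section PrimeOf

variable {S : Finset Nat.Primes} {L : Type} [Field L] [NumberField L]

/-- The prime below a place is characterised by `ofQS (single q 1) = 1`. -/
lemma primeOf_eq_of_single (𝔪 : SPlace S L) (q : S)
    (h : LocField.ofQS S 𝔪 (PL0H713.single S q 1) = 1) : PL0H713.primeOf S L 𝔪 = q := by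
  by_contra hne
  have h1 := PL0H713.ofQS_single_primeOf S L 𝔪
  have h2 : PL0H713.single S (PL0H713.primeOf S L 𝔪) (1 : Qq (PL0H713.primeOf S L 𝔪).1) *
      PL0H713.single S q 1 = 0 := by
    rw [PL0H713.mul_single_one, PL0H713.single_apply_ne S _ q (Ne.symm hne), PL0H713.single_zero]
  have h3 := congrArg (LocField.ofQS S 𝔪) h2
  rw [map_mul, h1, h, map_zero, mul_one] at h3
  exact one_ne_zero h3

end PrimeOf

section Trans

variable {S : Finset Nat.Primes} (F : IntermediateField ℚ Qb) [FiniteDimensional ℚ F]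
  [Normal ℚ F]

lemma primeOf_evPlace (q : ℕ) [hq : Fact q.Prime] (hqS : (⟨q, hq.out⟩ : Nat.Primes) ∈ S)
    (g : GQ) :
    PL0H713.primeOf S ↥F (evPlace F q hqS g) = ⟨⟨q, hq.out⟩, hqS⟩ :=
  primeOf_eq_of_single _ _ (ofQS_single_one_evPlace F q hqS g)

variable (Γ : Type) [Group Γ] [MulSemiringAction Γ ↥F]

/-- Change of the conjugating element: `ev_{q,g'} = ev_{q,g} ∘ (γ ⊗ 1)` if `γ ∈ Γ` acts on `F` as
`g g'⁻¹`. -/
lemma evHom_asAut (q : ℕ) [hq : Fact q.Prime] (hqS : (⟨q, hq.out⟩ : Nat.Primes) ∈ S)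
    (g g' : GQ) (γ : Γ) (hγ : ∀ x : F, ((γ • x : F) : Qb) = g ((g'⁻¹ : GQ) (x : Qb)))
    (a : AS S ↥F) :
    evHom F q hqS g (asAut S Γ ↥F γ a) = evHom F q hqS g' a := by
  induction a using TensorProduct.induction_on with
  | zero => rw [map_zero, map_zero, map_zero]
  | tmul x y =>
    rw [asAut_tmul, evHom_tmul, evHom_tmul, hγ]
    congr 2
    exact AlgEquiv.symm_apply_apply g _
  | add a b ha hb => rw [map_add, map_add, map_add, ha, hb]

/-- The places `evPlace … g` and `evPlace … g'` are conjugate. -/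
lemma smul_evPlace (q : ℕ) [hq : Fact q.Prime] (hqS : (⟨q, hq.out⟩ : Nat.Primes) ∈ S)
    (g g' : GQ) (γ : Γ) (hγ : ∀ x : F, ((γ • x : F) : Qb) = g ((g'⁻¹ : GQ) (x : Qb))) :
    sPlaceSMul S Γ γ⁻¹ (evPlace F q hqS g) = evPlace F q hqS g' := by
  refine MaximalSpectrum.ext (Ideal.ext fun a => ?_)
  rw [mem_sPlaceSMul_iff, inv_inv, mem_evPlace_iff, mem_evPlace_iff,
    evHom_asAut F Γ q hqS g g' γ hγ]

/-- Every place above `q` is of the form `evPlace … g'`. -/
lemma exists_eq_evPlace (q : ℕ) [hq : Fact q.Prime] (hqS : (⟨q, hq.out⟩ : Nat.Primes) ∈ S)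
    (𝔪 : SPlace S ↥F) (h𝔪 : (((PL0H713.primeOf S ↥F 𝔪).1 : Nat.Primes) : ℕ) = q) :
    ∃ g' : GQ, 𝔪 = evPlace F q hqS g' := by
  subst h𝔪
  let alg : Algebra ℚ_[((PL0H713.primeOf S ↥F 𝔪).1 : ℕ)] (LocField S 𝔪) :=
    PL0H713.algQq S ↥F 𝔪
  have hfin : Module.Finite ℚ_[((PL0H713.primeOf S ↥F 𝔪).1 : ℕ)] (LocField S 𝔪) :=
    PL0H713.finite_locField S ↥F 𝔪
  have halg : Algebra.IsAlgebraic ℚ_[((PL0H713.primeOf S ↥F 𝔪).1 : ℕ)] (LocField S 𝔪) :=
    Algebra.IsAlgebraic.of_finite _ _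
  let φ₀ : LocField S 𝔪 →ₐ[ℚ_[((PL0H713.primeOf S ↥F 𝔪).1 : ℕ)]]
      PadicAlgCl ((PL0H713.primeOf S ↥F 𝔪).1 : ℕ) := IsAlgClosed.lift
  obtain ⟨g', hg'⟩ := exists_conj_of_ringHom F ((PL0H713.primeOf S ↥F 𝔪).1 : ℕ)
    ((φ₀ : LocField S 𝔪 →+* _).comp (toLoc S 𝔪))
  refine ⟨g', ?_⟩
  have hev : (φ₀ : LocField S 𝔪 →+* _).comp (LocField.mk S 𝔪) =
      evHom F ((PL0H713.primeOf S ↥F 𝔪).1 : ℕ) hqS g' := by
    apply eq_evHom_of_tmul
    intro x y
    change φ₀ (LocField.mk S 𝔪 (x ⊗ₜ[ℚ] y)) = _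
    rw [PL0H713.mk_tmul, map_mul, PL0H713.ofQS_eq]
    congr 1
    · exact hg' x
    · exact φ₀.commutes _
  refine MaximalSpectrum.ext (Ideal.ext fun a => ?_)
  rw [mem_evPlace_iff, ← hev, ← LocField.mk_eq_zero_iff]
  change _ ↔ φ₀ (LocField.mk S 𝔪 a) = 0
  rw [map_eq_zero_iff φ₀ φ₀.injective]

/-- **Transitivity.**  If every element of `G_ℚ` acts on `F` through `Γ`, then every place above
`q` is `Γ`-conjugate to `evPlace F q hqS g₀`. -/
theorem exists_smul_evPlace_eq (hΓ : ∀ σ : GQ, ∃ γ : Γ, ∀ x : F, ((γ • x : F) : Qb) = σ (x : Qb))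
    (q : ℕ) [hq : Fact q.Prime] (hqS : (⟨q, hq.out⟩ : Nat.Primes) ∈ S) (g₀ : GQ)
    (𝔪 : SPlace S ↥F) (h𝔪 : (PL0H713.primeOf S ↥F 𝔪).1 = ⟨q, hq.out⟩) :
    ∃ γ : Γ, sPlaceSMul S Γ γ (evPlace F q hqS g₀) = 𝔪 := by
  obtain ⟨g', rfl⟩ := exists_eq_evPlace F q hqS 𝔪 (congrArg (fun r : Nat.Primes => (r : ℕ)) h𝔪)
  obtain ⟨γ, hγ⟩ := hΓ (g₀ * g'⁻¹)
  exact ⟨γ⁻¹, smul_evPlace F Γ q hqS g₀ g' γ hγ⟩

end Trans

end Fermat.Agent.S55.G.Rec.TOW.H894

end
end
-- ===== PACK-END S55/G/Rec/Tow/H894/Ev.lean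

-- ===== PACK-BEGIN S55/G/Rec/Tow/FR/LocInjH894.lean
section



/-!
# S55 / REC2-TOW / FR, leaf FR-A : `locInj : LocInjSpec`  (helper894)

`c_{q,g} z = 0 ↔ locMapJ (placeOf q g) z = 0` for `z ∈ H²(H, J_W(M))`.

* `placeOf M W q hqW g` is the place `H894.evPlace M.F q hqW g` (`placeOf_eq_evPlace`), which has
  the embedded model `H894.evEmb` with `φ ∘ mk = ev_{q,g}` (`exists_placeEmb`);
* `towLink` : the `H894.LocLink` between `V = locSub q g (UH M H)` and the group `H`
  (`ρ = piH ∘ locHom`);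
* the two directions are `H894.LocLink.locMapJ_eq_zero` (Hilbert 90 + inflation is injective,
  port of helper473's `HP.localGlue`) and `H894.LocLink.evCochain_mem_levelCoboundaries₂`.
-/

set_option autoImplicit false
set_option linter.unusedSectionVars false
set_option linter.style.haveILetI false

open CategoryTheory groupCohomology
open scoped TensorProduct

noncomputable section

namespace Fermat.Agent.S55.G.Rec.TOW.FR.H894

open Fermat.Agent.S55 Fermat.Agent.S55.Tow Fermat.Agent.S55.E1.H594 Fermat.Agent.S55.G.Rec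
open Fermat.Agent.S55.G

local notation "Qb" => AlgebraicClosure ℚ
local notation "GQ" => (AlgebraicClosure ℚ ≃ₐ[ℚ] AlgebraicClosure ℚ)

section

variable {S : Finset Nat.Primes} (M : Level S) (H : Subgroup M.Gal) (W : Finset Nat.Primes)
  (q : ℕ) [hq : Fact q.Prime] (hqW : (⟨q, hq.out⟩ : Nat.Primes) ∈ W) (g : GQ)

lemma evAlg_eq_evHom :
    ((evAlg M W q hqW g : G.AS W M.F →ₐ[ℚ] PadicAlgCl q) : G.AS W M.F →+* PadicAlgCl q) =
      TOW.H894.evHom M.F q hqW g :=
  TOW.H894.eq_evHom_of_tmul M.F q hqW g _ (fun x y => evAlg_tmul M W q hqW g x y)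

lemma evAlg_apply_eq_evHom (a : G.AS W M.F) :
    evAlg M W q hqW g a = TOW.H894.evHom M.F q hqW g a :=
  congrArg (fun f : G.AS W M.F →+* PadicAlgCl q => f a) (evAlg_eq_evHom M W q hqW g)

lemma placeOf_eq_evPlace : placeOf M W q hqW g = TOW.H894.evPlace M.F q hqW g := by
  refine MaximalSpectrum.ext (Ideal.ext fun a => ?_)
  rw [mem_placeOf, TOW.H894.mem_evPlace_iff, evAlg_apply_eq_evHom]

/-- The embedded model of the place `placeOf M W q hqW g`. -/
lemma exists_placeEmb :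
    ∃ P : HP.PlaceEmb W M.F (placeOf M W q hqW g) q, P.g = g ∧
      ∀ a : G.AS W M.F,
        P.φ (LocField.mk W (placeOf M W q hqW g) a) = evAlg M W q hqW g a := by
  rw [placeOf_eq_evPlace]
  exact ⟨TOW.H894.evEmb M.F q hqW g, rfl, fun a => (evAlg_apply_eq_evHom M W q hqW g a).symm⟩

variable {M W q g} in
/-- The link between `V = locSub q g (UH M H)` and the group `H`. -/
def towLink {𝔪 : SPlace W M.F} (P : HP.PlaceEmb W M.F 𝔪 q) (hPg : P.g = g) :
    TOW.H894.LocLink P ↥H (locSub q g (UH M H)) where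
  ρ := (piH M H).comp (locHom q g (UH M H))
  smul_coe τ x := by
    rw [hPg]
    exact level_mk_smul M (g * localGaloisToGlobal q τ * g⁻¹) x
  full τ d hd := by
    rw [hPg] at hd
    have h1 : (QuotientGroup.mk (g * localGaloisToGlobal q τ * g⁻¹) : M.Gal) = (d : M.Gal) := by
      apply (level_faithfulSMul M).eq_of_smul_eq_smul
      intro x
      apply Subtype.ext
      rw [level_mk_smul]
      exact hd x
    have hmem : τ ∈ locSub q g (UH M H) := by
      rw [mem_locSub, mem_UH, h1]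
      exact d.2
    exact ⟨hmem, Subtype.ext h1⟩

end

/-- **FR-A.**  The localisation `c_{q,g}` vanishes on a class iff the intrinsic localisation at
the place `placeOf q g` does. -/
theorem locInj : LocInjSpec := by
  intro S M H W q hq hqW g z
  obtain ⟨P, hPg, hPφ⟩ := exists_placeEmb M W q hqW g
  obtain ⟨yc, rfl⟩ := Bridge.H2π_surjective _ z
  have hpush : (towLink H P hPg).evCochain
      (yc : ↥H × ↥H → Additive (G.AS W M.F)ˣ) = (cDatum M H W q hqW g).push₂ yc := by
    funext p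
    apply Additive.toMul.injective
    apply Units.ext
    exact hPφ _
  rw [cH2, LocDatum.map_H2π, continuousH2π_eq_zero_iff, LocDatum.coe_cocycles, ← hpush]
  constructor
  · intro h
    exact (towLink H P hPg).locMapJ_eq_zero yc h
  · intro h
    exact (towLink H P hPg).evCochain_mem_levelCoboundaries₂ yc h

end Fermat.Agent.S55.G.Rec.TOW.FR.H894

end
end
-- ===== PACK-END S55/G/Rec/Tow/FR/LocInjH894.lean

-- ===== PACK-BEGIN S55/G/PL1H173/Surj.lean
section



/-!
# S55 layer G, leaf G-PL1 (helper173): every prime above `S` comes from a place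

`exists_place_of_isAbove`: for every prime `w` of `𝓞 L` above `S` there is a place `𝔪` of
`L ⊗ ℚ_S` with `primeAt 𝔪 = w`.
-/

set_option autoImplicit false
set_option linter.unusedSectionVars false
set_option linter.style.haveILetI false

open scoped NumberField TensorProduct
open IsDedekindDomain WithZero

namespace Fermat.Agent.S55.G.PL1H173

open Fermat.Agent.S55.G Fermat.Agent.S55.G.PL0H713

variable (S : Finset Nat.Primes) (L : Type) [Field L] [NumberField L]

/-- Prime avoidance: if no place induces `w`, some non-zero element of `w` is a unit at every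
place. -/
lemma exists_mem_notMem_primeAt (w : HeightOneSpectrum (𝓞 L)) (hw : IsAbove S L w)
    (hne : ∀ 𝔪 : SPlace S L, primeAt S L 𝔪 ≠ w) :
    ∃ a : 𝓞 L, a ≠ 0 ∧ a ∈ w.asIdeal ∧ ∀ 𝔪 : SPlace S L, a ∉ (primeAt S L 𝔪).asIdeal := by
  classical
  haveI : Finite (SPlace S L) := finite_sPlace S L
  letI : Fintype (SPlace S L) := Fintype.ofFinite _
  let s : Finset (HeightOneSpectrum (𝓞 L)) := Finset.univ.image (primeAt S L)
  have hav := Ideal.subset_union_prime (s := s) (f := fun v => v.asIdeal) w w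
    (fun i _ _ _ => i.isPrime) (I := w.asIdeal)
  have hnot : ¬ ((w.asIdeal : Set (𝓞 L)) ⊆ ⋃ i ∈ (↑s : Set (HeightOneSpectrum (𝓞 L))),
      (i.asIdeal : Set (𝓞 L))) := by
    intro hsub
    obtain ⟨i, his, hle⟩ := hav.1 hsub
    obtain ⟨𝔪, -, rfl⟩ := Finset.mem_image.1 his
    have heq : w.asIdeal = (primeAt S L 𝔪).asIdeal :=
      Ideal.IsMaximal.eq_of_le w.isMaximal (primeAt S L 𝔪).isPrime.ne_top hle
    exact hne 𝔪 (HeightOneSpectrum.ext heq.symm)
  obtain ⟨a, haw, hau⟩ := Set.not_subset.1 hnot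
  have ha : ∀ 𝔪 : SPlace S L, a ∉ (primeAt S L 𝔪).asIdeal := by
    intro 𝔪 hmem
    apply hau
    simp only [Set.mem_iUnion]
    exact ⟨primeAt S L 𝔪, Finset.mem_coe.2 (Finset.mem_image_of_mem _ (Finset.mem_univ 𝔪)), hmem⟩
  by_cases ha0 : a = 0
  · obtain ⟨q, -, hq⟩ := hw
    refine ⟨((q : ℕ) : 𝓞 L), ?_, hq, ?_⟩
    · exact_mod_cast q.2.ne_zero
    · intro 𝔪
      exact absurd (ha0 ▸ (primeAt S L 𝔪).asIdeal.zero_mem) (ha 𝔪)
  · exact ⟨a, ha0, haw, ha⟩

/-- **Surjectivity** of `𝔪 ↦ primeAt 𝔪` onto the primes above `S`. -/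
theorem exists_place_of_isAbove (w : HeightOneSpectrum (𝓞 L)) (hw : IsAbove S L w) :
    ∃ 𝔪 : SPlace S L, primeAt S L 𝔪 = w := by
  by_contra hcon
  obtain ⟨a, ha0, haw, ha⟩ := exists_mem_notMem_primeAt S L w hw (fun 𝔪 h => hcon ⟨𝔪, h⟩)
  have haL : (a : L) ≠ 0 := by
    intro h
    exact ha0 (by exact_mod_cast h)
  -- `a⁻¹ ⊗ 1` is integral at every place
  have hint : ∀ 𝔪 : SPlace S L, LocField.mk S 𝔪 (asDiag S L (a : L)⁻¹) ∈ intRing S L 𝔪 := by
    intro 𝔪
    rw [← locVal_le_one_iff]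
    change locVal S L 𝔪 (toLoc S 𝔪 (a : L)⁻¹) ≤ 1
    rw [map_inv₀, map_inv₀]
    have h1 : locVal S L 𝔪 (toLoc S 𝔪 (a : L)) = 1 := pullVal_int_eq_one S L 𝔪 a (ha 𝔪)
    rw [h1, inv_one]
  obtain ⟨D, hD0, hD⟩ := exists_bound_pow S L _
    (isIntegralElem_of_forall_mem_intRing S L _ hint)
  -- hence `D * a⁻ʲ` is integral at `w` for all `j`
  have hval : ∀ j : ℕ, w.valuation L ((D : L) * ((a : L)⁻¹) ^ j) ≤ 1 := by
    intro j
    apply valuation_le_one_of_isSInt_co S L w hw
    intro i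
    have h1 : asDiag S L ((D : L) * ((a : L)⁻¹) ^ j) = D • (asDiag S L (a : L)⁻¹) ^ j := by
      rw [map_mul, map_pow, map_natCast, nsmul_eq_mul]
    rw [h1]
    exact hD j i
  -- contradiction
  have hva : w.valuation L (a : L) ≤ exp (-1 : ℤ) := by
    rw [← lt_one_iff_le_exp_neg_one]
    exact (HeightOneSpectrum.valuation_lt_one_iff_mem (K := L) w a).2 haw
  have hva0 : w.valuation L (a : L) ≠ 0 := (Valuation.ne_zero_iff _).2 haL
  have hDL : (D : L) ≠ 0 := by exact_mod_cast hD0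
  have hvD0 : w.valuation L (D : L) ≠ 0 := (Valuation.ne_zero_iff _).2 hDL
  obtain ⟨k, hk⟩ := exists_exp_neg_natCast_lt hvD0
  have h2 := hval k
  rw [map_mul, map_pow, map_inv₀] at h2
  have h3 : w.valuation L (D : L) ≤ (w.valuation L (a : L)) ^ k := by
    have hpos : 0 < (w.valuation L (a : L)) ^ k := pow_pos (zero_lt_iff.2 hva0) k
    rw [inv_pow] at h2
    calc w.valuation L (D : L)
        = w.valuation L (D : L) * ((w.valuation L (a : L)) ^ k)⁻¹ * (w.valuation L (a : L)) ^ k := by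
          rw [mul_assoc, inv_mul_cancel₀ hpos.ne', mul_one]
      _ ≤ 1 * (w.valuation L (a : L)) ^ k := mul_le_mul' h2 le_rfl
      _ = _ := one_mul _
  have h4 : (w.valuation L (a : L)) ^ k ≤ exp (-(k : ℤ)) := by
    have := pow_le_pow_left₀ zero_le hva k
    refine this.trans (le_of_eq ?_)
    rw [← exp_nsmul]
    simp
  exact absurd (h3.trans h4) (not_le.2 hk)

end Fermat.Agent.S55.G.PL1H173

end
-- ===== PACK-END S55/G/PL1H173/Surj.lean

-- ===== PACK-BEGIN S55/G/PL1H173/Main.lean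
section



/-!
# S55 layer G, leaf G-PL1 (helper173): places above `S` = primes above `S`

* `primeAt_sPlaceSMul` : Galois equivariance of `𝔪 ↦ primeAt 𝔪`;
* `placePrimeEquiv S L : SPlace S L ≃ PrimeIn S L`;
* `placePrime : PlacePrimeSpec`   (**G-PL1**, unconditional).
-/

set_option autoImplicit false
set_option linter.unusedSectionVars false
set_option linter.style.haveILetI false

open scoped NumberField TensorProduct
open IsDedekindDomain WithZero

namespace Fermat.Agent.S55.G.PL1H173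

open Fermat.Agent.S55.G Fermat.Agent.S55.G.PL0H713

variable (S : Finset Nat.Primes) (L : Type) [Field L] [NumberField L]

/-! ### Intrinsic description of the ring of integers -/

/-- Integrality over `ℤ_S` in `L_𝔪` is membership in the ring of integers. -/
lemma mem_intRing_iff_zs (𝔪 : SPlace S L) (y : LocField S 𝔪) :
    y ∈ intRing S L 𝔪 ↔ ((LocField.mk S 𝔪).comp (zsIncl S L)).IsIntegralElem y := by
  haveI : Fact (Nat.Prime ((primeOf S L 𝔪).1 : ℕ)) := ⟨(primeOf S L 𝔪).1.2⟩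
  rw [mem_intRing_iff, mk_comp_zsIncl]
  constructor
  · rintro ⟨p, hp, hpz⟩
    have hsurj : Function.Surjective
        (Pi.evalRingHom (fun q : S => @PadicInt (q.1 : ℕ) ⟨q.1.2⟩) (primeOf S L 𝔪)) :=
      Function.surjective_eval _
    obtain ⟨P, hPmap, -, hPmonic⟩ :=
      Polynomial.lifts_and_degree_eq_and_monic (Polynomial.mem_lifts_of_surjective hsurj p) hp
    refine ⟨P, hPmonic, ?_⟩
    rw [← Polynomial.eval₂_map, hPmap]
    exact hpz
  · rintro ⟨P, hP, hPz⟩
    refine ⟨P.map (Pi.evalRingHom (fun q : S => @PadicInt (q.1 : ℕ) ⟨q.1.2⟩) (primeOf S L 𝔪)),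
      hP.map _, ?_⟩
    rw [Polynomial.eval₂_map]
    exact hPz

/-! ### Equivariance -/

section Equivariance

variable (G : Type) [Group G] [MulSemiringAction G L]

/-- Transfer of integrality along `g ⊗ 1`. -/
lemma locVal_toLoc_smul_le_one (𝔪₁ 𝔪₂ : SPlace S L) (g : G)
    (h : 𝔪₁.asIdeal ≤ Ideal.comap (asRingAut G S L g : AS S L →+* AS S L) 𝔪₂.asIdeal) (x : L)
    (hx : locVal S L 𝔪₁ (toLoc S 𝔪₁ x) ≤ 1) : locVal S L 𝔪₂ (toLoc S 𝔪₂ (g • x)) ≤ 1 := by
  rw [locVal_le_one_iff, mem_intRing_iff_zs] at hx ⊢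
  obtain ⟨P, hP, hPz⟩ := hx
  refine ⟨P, hP, ?_⟩
  let σ : LocField S 𝔪₁ →+* LocField S 𝔪₂ :=
    Ideal.quotientMap 𝔪₂.asIdeal (asRingAut G S L g : AS S L →+* AS S L) h
  have h1 : σ.comp ((LocField.mk S 𝔪₁).comp (zsIncl S L)) =
      (LocField.mk S 𝔪₂).comp (zsIncl S L) := by
    refine RingHom.ext fun u => ?_
    change Ideal.Quotient.mk _ (asRingAut G S L g (asIncl S L (zsToQS S u))) = _
    rw [asRingAut_apply, asAut_asIncl]
    rfl
  have h2 : σ (toLoc S 𝔪₁ x) = toLoc S 𝔪₂ (g • x) := by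
    change Ideal.Quotient.mk _ (asRingAut G S L g (asDiag S L x)) = _
    rw [asRingAut_apply, asAut_asDiag]
    rfl
  rw [← h1, ← h2, ← Polynomial.hom_eval₂, hPz, map_zero]

lemma le_comap_sPlaceSMul (𝔪 : SPlace S L) (g : G) :
    𝔪.asIdeal ≤ Ideal.comap (asRingAut G S L g : AS S L →+* AS S L)
      (sPlaceSMul S G g 𝔪).asIdeal := by
  intro a ha
  rw [Ideal.mem_comap]
  exact Ideal.mem_map_of_mem _ ha

lemma sPlaceSMul_le_comap (𝔪 : SPlace S L) (g : G) :
    (sPlaceSMul S G g 𝔪).asIdeal ≤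
      Ideal.comap (asRingAut G S L g⁻¹ : AS S L →+* AS S L) 𝔪.asIdeal := by
  intro a ha
  rw [Ideal.mem_comap]
  exact (mem_sPlaceSMul_iff S G g 𝔪 a).1 ha

/-- **Equivariance** of `𝔪 ↦ primeAt 𝔪`. -/
theorem primeAt_sPlaceSMul (g : G) (𝔪 : SPlace S L) :
    primeAt S L (sPlaceSMul S G g 𝔪) = primeSMul G g (primeAt S L 𝔪) := by
  symm
  apply HeightOneSpectrum.ext
  refine Ideal.IsMaximal.eq_of_le (primeSMul G g (primeAt S L 𝔪)).isMaximal
    (primeAt S L (sPlaceSMul S G g 𝔪)).isPrime.ne_top ?_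
  intro y hy
  rw [mem_primeSMul_iff] at hy
  rw [← locVal_toLoc_lt_one_iff] at hy ⊢
  by_contra hcon
  have h1 : locVal S L (sPlaceSMul S G g 𝔪) (toLoc S (sPlaceSMul S G g 𝔪) (y : L)) = 1 :=
    le_antisymm (locVal_toLoc_le_one S L _ y) (not_lt.1 hcon)
  have h2 : locVal S L (sPlaceSMul S G g 𝔪) (toLoc S (sPlaceSMul S G g 𝔪) (y : L)⁻¹) ≤ 1 := by
    rw [map_inv₀, map_inv₀, h1, inv_one]
  have h3 := locVal_toLoc_smul_le_one S L G (sPlaceSMul S G g 𝔪) 𝔪 g⁻¹
    (sPlaceSMul_le_comap S L G 𝔪 g) _ h2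
  have h4 : g⁻¹ • (y : L)⁻¹ = (((g⁻¹ • y : 𝓞 L) : L))⁻¹ :=
    map_inv₀ (MulSemiringAction.toRingHom G L g⁻¹) (y : L)
  rw [h4, map_inv₀, map_inv₀] at h3
  have hy0 : locVal S L 𝔪 (toLoc S 𝔪 ((g⁻¹ • y : 𝓞 L) : L)) ≠ 0 := by
    intro h0
    rw [h0, inv_zero] at h3
    rw [h0] at hy
    -- `g⁻¹ • y = 0`, so `y = 0`, contradicting `h1`
    have h5 : toLoc S 𝔪 ((g⁻¹ • y : 𝓞 L) : L) = 0 := (Valuation.zero_iff _).1 h0
    have h6 : ((g⁻¹ • y : 𝓞 L) : L) = 0 := (toLoc S 𝔪).injective (h5.trans (map_zero _).symm)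
    have h7 : (g⁻¹ • y : 𝓞 L) = 0 := by exact_mod_cast h6
    have h8 : y = 0 := by
      have := congrArg (fun t => g • t) h7
      simpa using this
    rw [h8] at h1
    simp at h1
  have h5 := (inv_le_one₀ (zero_lt_iff.2 hy0)).1 h3
  exact absurd hy (not_lt.2 h5)

end Equivariance

/-! ### The bijection and the frozen interface -/

/-- The bijection between the places of `L ⊗ ℚ_S` and the primes of `𝓞 L` above `S`. -/
noncomputable def placePrimeEquiv : SPlace S L ≃ PrimeIn S L :=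
  Equiv.ofBijective (fun 𝔪 => (⟨primeAt S L 𝔪, isAbove_primeAt S L 𝔪⟩ : PrimeIn S L))
    ⟨fun 𝔪 𝔪' h => primeAt_injective S L (congrArg Subtype.val h),
      fun w => by
        obtain ⟨𝔪, h𝔪⟩ := exists_place_of_isAbove S L w.1 w.2
        exact ⟨𝔪, Subtype.ext h𝔪⟩⟩

@[simp] lemma placePrimeEquiv_apply (𝔪 : SPlace S L) :
    (placePrimeEquiv S L 𝔪).1 = primeAt S L 𝔪 := rfl

/-- Any ring of integers of `L_𝔪` is `intRing`. -/
lemma eq_intRing (𝔪 : SPlace S L) (A : ValuationSubring (LocField S 𝔪))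
    (hA : Fermat.Agent.S55.L.IsLocalRingOfIntegers A) : A = intRing S L 𝔪 := by
  haveI := isLocalFld_locField S L 𝔪
  exact Fermat.Agent.S55.L.ringOfIntegersUnique775 (LocField S 𝔪) A (intRing S L 𝔪) hA
    (isLocalRingOfIntegers_intRing S L 𝔪)

/-- **G-PL1.**  The places above `S` are the primes above `S`. -/
theorem placePrime : PlacePrimeSpec := by
  intro S L _ _
  refine ⟨placePrimeEquiv S L, ?_, ?_⟩
  · intro G _ _ g 𝔪
    exact primeAt_sPlaceSMul S L G g 𝔪
  · intro 𝔪 A hA x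
    rw [eq_intRing S L 𝔪 A hA]
    exact mem_primeAt_iff S L 𝔪 x

end Fermat.Agent.S55.G.PL1H173

end
-- ===== PACK-END S55/G/PL1H173/Main.lean

-- ===== PACK-BEGIN S55/G/Rec/Tow/FR/PrimePlaceH233.lean
section
/-
S55 / layer G / block REC / adapter TOW / leaf FR-D (subtask 661), helper233.

`primePlace : FR.PrimePlaceSpec` (exact type of `FR/Spec.lean`), unconditional:
a subgroup `Z ≤ Gal(M/ℚ)` fixing a prime of `𝒪_M` above `r ∈ S` fixes a place of `M ⊗ ℚ_S`.
From the equivariant bijection `SPlace S M ≃ PrimeIn S M` (`G.PlacePrimeSpec`, helper173).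
-/



set_option autoImplicit false
set_option linter.unusedSectionVars false
set_option linter.style.haveILetI false

open scoped NumberField
open IsDedekindDomain

noncomputable section

namespace Fermat.Agent.S55.G.Rec.TOW.FR.H233

open Fermat.Agent.S55 Fermat.Agent.S55.Tow Fermat.Agent.S55.E1.H594 Fermat.Agent.S55.G.Rec

/-- **FR-D** from `G.PlacePrimeSpec`. -/
theorem primePlace_of (hPP : G.PlacePrimeSpec) : PrimePlaceSpec := by
  intro S M r hr Z hZ
  obtain ⟨w, hw, hfix⟩ := hZ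
  obtain ⟨β, hβ, -⟩ := hPP S M.F
  have hwS : G.IsAbove S M.F w := ⟨r, hr, hw⟩
  let w' : G.PrimeIn S M.F := ⟨w, hwS⟩
  have hw' : (β (β.symm w')).1 = w := by rw [Equiv.apply_symm_apply]
  refine ⟨β.symm w', fun z hz => ?_⟩
  apply β.injective
  apply Subtype.ext
  rw [hβ M.Gal z (β.symm w'), hw']
  exact hfix z hz

/-- **FR-D**, unconditional. -/
theorem primePlace : PrimePlaceSpec := primePlace_of G.PL1H173.placePrime

end Fermat.Agent.S55.G.Rec.TOW.FR.H233

end
end
-- ===== PACK-END S55/G/Rec/Tow/FR/PrimePlaceH233.lean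

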