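import Fermat.Agent.Pack.S56.E14L0
import Fermat.Agent.Pack.S56.E17L1
import Fermat.Agent.Pack.S56.E2L2
import Fermat.Agent.Pack.S56.E21L0
import Fermat.Agent.Pack.S56.E2L1
import Fermat.Agent.Pack.S56.E12L1
import Fermat.Agent.Pack.S56.E14L1
import Fermat.Agent.Pack.S56.E5L2
import Fermat.Agent.Pack.S56.E16L1
import Fermat.Agent.Pack.S56.E11L1
import Fermat.Agent.Pack.S56.E8L3
import Fermat.Agent.Pack.S56.E15L2
import Fermat.Agent.Pack.S56.E12L2
import Fermat.Agent.Pack.S56.E17L2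
import Fermat.Agent.Pack.S56.E18L3
import Fermat.Agent.Pack.S56.E17L3
import Fermat.Agent.Pack.S56.E16L2
import Fermat.Agent.Pack.S56.E19L1
import Fermat.Agent.Pack.S56.E14L3
import Fermat.Agent.Pack.S56.E18L1

-- ===== PACK-BEGIN S55/E1/Lim/Sys.lean
section
/-
S55 engine E1 — block LIM: THE FOUR SYSTEMS over the tower (definitions, sorry-free).
Sub-architect E1-LIM: helper474.  Blueprint: coord/S55-E1.md §4, coord/S55-E1-LIM.md.
Namespace `Fermat.Agent.S55.E1.Lim`.

For a context `c : Ctx S p` (tower datum `D`, module `M`, `N = M^∨(1)`, base level trivialising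
`M` and `N`) and levels `L ≥ c.base`:
* `c.NL L = toInt (coeff N L)`, `c.ML L = toInt (coeff M L)` (helper603's conventions),
  `c.ν h : N_{L'} ⟶ Res N_L`;
* `c.sysT`  : `T_F  = A_F(C) / (Σ_q j_q A_F(J_q) + res Bc_F(C))`   (= `H957.TQ`, `H957.trT`);
* `c.sysT1` : `T'_F = A_F(C') / im A_F(J)`;
* `c.sysK`  : `K_F  = ker (𝔈²_F(E) → 𝔈²_F(J))`;
* `c.sysSh` : `Ш²_F = {x ∈ H²(G_F, M) | infl x ∈ sha₂ S M}`, with `c.shι : Ш²_F → sha₂ S M`
  and `c.sh_isColim`.
-/







set_option autoImplicit false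

open CategoryTheory CategoryTheory.Limits groupCohomology ExtCitation

namespace Fermat.Agent.S55.E1.Lim

open Fermat.Agent.S55.Tow Fermat.Agent.S55.E1

noncomputable section

/-! ## Coefficient modules at finite level -/

section Coeff

variable {S : Finset Nat.Primes} {K : Type} [Field K] (A : Rep.{0, 0, 0} K GQ)

/-- `A^{U_F}` as a `ℤ[Gal(F/ℚ)]`-module. -/
abbrev cf (L : Level S) : Rep.{0} ℤ L.Gal := H603.toInt (H603.coeff A L)

/-- The inclusion `A^{U_F} ⊆ A^{U_{F'}}`, as a morphism `Res (cf A L) ⟶ cf A L'`. -/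
def cfμ {L L' : Level S} (h : L ≤ L') : Rep.res (Level.proj h) (cf A L) ⟶ cf A L' :=
  H603.toIntHom (Level.proj h) (H603.transHom A h)

/-- The underlying element of `A`. -/
def cfVal {L : Level S} (a : (cf A L).V) : A.V := (a : H603.coeff A L).1

lemma cfVal_injective {L : Level S} : Function.Injective (cfVal A (L := L)) :=
  Subtype.val_injective

/-- Constructor of elements of `cf A L` when `U_F` acts trivially. -/
def cfMk {L : Level S} (hL : ∀ s ∈ L.U, ∀ a : A, A.ρ s a = a) (a : A.V) : (cf A L).V :=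
  H603.toCoeff A L hL a

@[simp] lemma cfVal_cfMk {L : Level S} (hL : ∀ s ∈ L.U, ∀ a : A, A.ρ s a = a) (a : A.V) :
    cfVal A (cfMk A hL a) = a := rfl

@[simp] lemma cfVal_cfμ {L L' : Level S} (h : L ≤ L') (a : (cf A L).V) :
    cfVal A ((cfμ A h).hom a) = cfVal A a := rfl

lemma cfVal_ρ {L : Level S} (g : GQ) (a : (cf A L).V) :
    cfVal A ((cf A L).ρ (QuotientGroup.mk g) a) = A.ρ g (cfVal A a) := rfl

/-- The identity of `A` as a morphism `cf A L' ⟶ Res (cf A L)` (`F` trivialising `A`). -/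
def cfν {L L' : Level S} (h : L ≤ L') (hL : ∀ s ∈ L.U, ∀ a : A, A.ρ s a = a) :
    cf A L' ⟶ Rep.res (Level.proj h) (cf A L) :=
  Rep.ofHom ⟨(AddMonoidHom.mk' (fun a' : (cf A L').V => cfMk A hL (cfVal A a'))
      (fun _ _ => rfl)).toIntLinearMap, fun g => by
    induction g using QuotientGroup.induction_on with
    | H g => exact LinearMap.ext fun a' => rfl⟩

@[simp] lemma cfVal_cfν {L L' : Level S} (h : L ≤ L') (hL : ∀ s ∈ L.U, ∀ a : A, A.ρ s a = a)
    (a' : (cf A L').V) : cfVal A ((cfν A h hL).hom a') = cfVal A a' := rfl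

/-- `cfν` and `cfμ` are inverse isomorphisms. -/
def cfIso {L L' : Level S} (h : L ≤ L') (hL : ∀ s ∈ L.U, ∀ a : A, A.ρ s a = a) :
    cf A L' ≅ Rep.res (Level.proj h) (cf A L) where
  hom := cfν A h hL
  inv := cfμ A h
  hom_inv_id := by
    apply Rep.hom_ext
    apply DFunLike.ext
    intro x
    exact cfVal_injective A rfl
  inv_hom_id := by
    apply Rep.hom_ext
    apply DFunLike.ext
    intro x
    exact cfVal_injective A rfl

end Coeff

/-! ## Compatibility of the diagonal with the transition maps -/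

section Diag

variable {S : Finset Nat.Primes}

lemma proj_trans_apply {L L' L'' : Level S} (h : L ≤ L') (h' : L' ≤ L'') (g : L''.Gal) :
    Level.proj (h.trans h') g = Level.proj h (Level.proj h' g) := by
  induction g using QuotientGroup.induction_on with
  | H g => rfl

lemma trJ_diag {L L' : Level S} (h : L ≤ L') (q : Nat.Primes) (x : L.units.V) :
    (Level.trJ h q).hom ((L.diag q).hom x) = (L'.diag q).hom ((Level.trUnits h).hom x) := by
  apply L'.J_ext q
  intro g'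
  have h1 : L'.units.ρ g' ((Level.trUnits h).hom x) =
      (Level.trUnits h).hom (L.units.ρ (Level.proj h g') x) :=
    (Rep.hom_comm_apply (Level.trUnits h) g' x).symm
  show Level.inclLoc h q (L.embFun q (L.units.ρ (Level.proj h g') x)) =
    L'.embFun q (L'.units.ρ g' ((Level.trUnits h).hom x))
  rw [h1]
  apply L'.locCoe_injective q
  rfl

lemma trJtot_diagTot {L L' : Level S} (h : L ≤ L') (e : (sUnits L).V) :
    (trJtot h).hom ((diagTot L).hom e) = (diagTot L').hom ((trS h).hom e) := by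
  apply piRep_ext
  intro q
  exact trJ_diag h q.1 ((sIncl L).hom e)

end Diag

/-! ## The context -/

/-- The data needed to define the systems of the engine. -/
structure Ctx (S : Finset Nat.Primes) (p : ℕ) [Fact p.Prime] where
  /-- the tower datum -/
  D : TowerDatum S
  /-- the module `M = N'` (whose `Ш²` is computed) -/
  M : Rep.{0, 0, 0} (ZMod p) GQ
  /-- the base level -/
  base : Level S
  /-- GD7a -/
  h7 : TrCompat D
  /-- GD7b -/
  h7b : ∀ {L L' L'' : Level S} (h : L ≤ L') (h' : L' ≤ L'') (c : (D.C L).V),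
    (D.tr h').hom ((D.tr h).hom c) = (D.tr (h.trans h')).hom c
  /-- GD4 -/
  h4 : KerDiag D
  /-- the base level trivialises `M` -/
  hM : ∀ s ∈ base.U, ∀ m : M, M.ρ s m = m
  /-- the base level trivialises `N = M^∨(1)` -/
  hN : ∀ s ∈ base.U, ∀ n : M.dualTwist (cycloChar p), (M.dualTwist (cycloChar p)).ρ s n = n

namespace Ctx

variable {S : Finset Nat.Primes} {p : ℕ} [Fact p.Prime] (c : Ctx S p)

/-- `N = M^∨(1)`. -/
abbrev N : Rep.{0, 0, 0} (ZMod p) GQ := c.M.dualTwist (cycloChar p)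

/-- The index set: levels above the base level. -/
def Idx : Type := {L : Level S // c.base ≤ L}

instance : Preorder c.Idx := Subtype.preorder _

instance : Nonempty c.Idx := ⟨⟨c.base, le_rfl⟩⟩

instance : IsDirected c.Idx (· ≤ ·) :=
  ⟨fun L L' => by
    obtain ⟨L'', h1, h2⟩ := exists_ge_ge L.1 L'.1
    exact ⟨⟨L'', L.2.trans h1⟩, h1, h2⟩⟩

lemma hN_at (L : c.Idx) : ∀ s ∈ L.1.U, ∀ n : c.N, c.N.ρ s n = n :=
  fun s hs n => c.hN s (Level.U_anti L.2 hs) n

lemma hM_at (L : c.Idx) : ∀ s ∈ L.1.U, ∀ m : c.M, c.M.ρ s m = m :=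
  fun s hs m => c.hM s (Level.U_anti L.2 hs) m

/-- `N` at level `L`, as a `ℤ[Gal(F/ℚ)]`-module. -/
abbrev NL (L : c.Idx) : Rep.{0} ℤ L.1.Gal := cf c.N L.1

/-- `M` at level `L`, as a `ℤ[Gal(F/ℚ)]`-module. -/
abbrev ML (L : c.Idx) : Rep.{0} ℤ L.1.Gal := cf c.M L.1

/-- The projection `Gal(F'/ℚ) → Gal(F/ℚ)`. -/
abbrev π {L L' : c.Idx} (h : L ≤ L') : L'.1.Gal →* L.1.Gal := Level.proj (S := S) h

/-- `ν : N_{L'} ⟶ Res N_L` (the identity of `N`). -/
def ν {L L' : c.Idx} (h : L ≤ L') : c.NL L' ⟶ Rep.res (c.π h) (c.NL L) :=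
  cfν c.N (S := S) h (c.hN_at L)

/-- `ν` as an isomorphism. -/
def νIso {L L' : c.Idx} (h : L ≤ L') : c.NL L' ≅ Rep.res (c.π h) (c.NL L) :=
  cfIso c.N (S := S) h (c.hN_at L)

lemma π_trans {L L' L'' : c.Idx} (h : L ≤ L') (h' : L' ≤ L'') (g : L''.1.Gal) :
    c.π (h.trans h') g = c.π h (c.π h' g) := proj_trans_apply _ _ g

lemma ν_trans {L L' L'' : c.Idx} (h : L ≤ L') (h' : L' ≤ L'') (n : (c.NL L'').V) :
    (c.ν (h.trans h')).hom n = (c.ν h).hom ((c.ν h').hom n) := rfl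

/-- The family `j_q : J_q(F) ⟶ C(F)`, `q ∈ S`. -/
abbrev jS (L : c.Idx) (q : S) : L.1.J q.1 ⟶ c.D.C L.1 := c.D.j L.1 q.1

lemma sq {L L' : c.Idx} (h : L ≤ L') (q : S) :
    (Rep.resFunctor (c.π h)).map (c.jS L q) ≫ c.D.tr h = Level.trJ h q.1 ≫ c.jS L' q :=
  H957.sq_of_apply (c.π h) (c.D.tr h) (c.jS L) (c.jS L') (fun q => Level.trJ h q.1) q
    (fun x => c.h7 h q.1 q.2 x)

/-! ### The system `T` -/

/-- `T_F = A_F(C) / (Σ_q j_q A_F(J_q) + res Bc_F(C))`. -/
abbrev TObj (L : c.Idx) : Type := H957.TQ (N := c.NL L) (c.jS L)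

/-- The transition maps of `T`. -/
def trT {L L' : c.Idx} (h : L ≤ L') : c.TObj L →+ c.TObj L' :=
  H957.trT (c.π h) (c.ν h) (c.D.tr h) (c.jS L) (c.jS L') (fun q => Level.trJ h q.1) (c.sq h)

lemma trT_mk {L L' : c.Idx} (h : L ≤ L') (f : homA (c.NL L) (c.D.C L.1)) :
    c.trT h (QuotientAddGroup.mk f) = QuotientAddGroup.mk (trA (c.π h) (c.ν h) (c.D.tr h) f) :=
  rfl

/-- The system `T`. -/
def sysT : AddSys c.Idx where
  obj := c.TObj
  grp := fun _ => inferInstance
  tr := fun h => c.trT h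
  tr_tr := fun {L L' L''} h h' t => by
    induction t using QuotientAddGroup.induction_on with
    | H f =>
      rw [trT_mk, trT_mk, trT_mk]
      congr 1
      exact trA_comp (c.π h) (c.π h') (c.π (h.trans h')) (c.ν h) (c.ν h') (c.ν (h.trans h'))
        (c.D.tr h) (c.D.tr h') (c.D.tr (h.trans h')) (c.π_trans h h') (c.ν_trans h h')
        (fun x => (c.h7b h h' x).symm) f

/-! ### The system `T'` -/

/-- `im (A_F(J) → A_F(C'))`. -/
abbrev T1Sub (L : c.Idx) : AddSubgroup (homA (c.NL L) (C1 c.D L.1)) :=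
  (Preadditive.rightComp (stdR (c.NL L)) (jC1 c.D L.1)).range

/-- `T'_F = A_F(C') / im A_F(J)`. -/
abbrev T1Obj (L : c.Idx) : Type := homA (c.NL L) (C1 c.D L.1) ⧸ c.T1Sub L

lemma trA_mem_T1Sub {L L' : c.Idx} (h : L ≤ L') :
    c.T1Sub L ≤ (c.T1Sub L').comap (trA (c.π h) (c.ν h) (trC1 c.h7 h)) := by
  rintro _ ⟨u, rfl⟩
  refine ⟨trA (c.π h) (c.ν h) (trJtot h) u, ?_⟩
  exact (trA_natural (c.π h) (c.ν h) (jC1 c.D L.1) (jC1 c.D L'.1) (trJtot h) (trC1 c.h7 h)
    (fun x => trC1_jC1 c.h7 h x) u).symm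

/-- The transition maps of `T'`. -/
def trT1 {L L' : c.Idx} (h : L ≤ L') : c.T1Obj L →+ c.T1Obj L' :=
  QuotientAddGroup.map _ _ (trA (c.π h) (c.ν h) (trC1 c.h7 h)) (c.trA_mem_T1Sub h)

lemma trT1_mk {L L' : c.Idx} (h : L ≤ L') (f : homA (c.NL L) (C1 c.D L.1)) :
    c.trT1 h (QuotientAddGroup.mk f) =
      QuotientAddGroup.mk (trA (c.π h) (c.ν h) (trC1 c.h7 h) f) := rfl

lemma trC1_trans {L L' L'' : c.Idx} (h : L ≤ L') (h' : L' ≤ L'') (x : (C1 c.D L.1).V) :
    (trC1 c.h7 (h.trans h')).hom x = (trC1 c.h7 h').hom ((trC1 c.h7 h).hom x) := by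
  apply inclC1_injective c.D L''.1
  rw [inclC1_trC1, inclC1_trC1, inclC1_trC1]
  exact (c.h7b h h' _).symm

/-- The system `T'`. -/
def sysT1 : AddSys c.Idx where
  obj := c.T1Obj
  grp := fun _ => inferInstance
  tr := fun h => c.trT1 h
  tr_tr := fun {L L' L''} h h' t => by
    induction t using QuotientAddGroup.induction_on with
    | H f =>
      rw [trT1_mk, trT1_mk, trT1_mk]
      congr 1
      exact trA_comp (c.π h) (c.π h') (c.π (h.trans h')) (c.ν h) (c.ν h') (c.ν (h.trans h'))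
        (trC1 c.h7 h) (trC1 c.h7 h') (trC1 c.h7 (h.trans h')) (c.π_trans h h') (c.ν_trans h h')
        (c.trC1_trans h h') f

/-! ### The system `K` -/

/-- `K_F = ker (𝔈²_F(E) → 𝔈²_F(J))`. -/
abbrev KSub (L : c.Idx) : AddSubgroup (E2 (c.NL L) (sUnits L.1)) :=
  (H354.ihomH1Map (stdR (c.NL L)) (diagTot L.1)).hom.toAddMonoidHom.ker

/-- `K_F` as a type. -/
abbrev KObj (L : c.Idx) : Type := c.KSub L

lemma trE2_mem_KSub {L L' : c.Idx} (h : L ≤ L') (y : E2 (c.NL L) (sUnits L.1))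
    (hy : y ∈ c.KSub L) : trE2 (c.π h) (c.ν h) (trS h) y ∈ c.KSub L' := by
  have h1 := trE2_natural (c.π h) (c.ν h) (diagTot L.1) (diagTot L'.1) (trS h) (trJtot h)
    (fun e => trJtot_diagTot h e) y
  show (H354.ihomH1Map (stdR (c.NL L')) (diagTot L'.1)).hom (trE2 (c.π h) (c.ν h) (trS h) y) = 0
  rw [← h1]
  have h2 : (H354.ihomH1Map (stdR (c.NL L)) (diagTot L.1)).hom y = 0 := hy
  rw [h2, map_zero]

/-- The transition maps of `K`. -/
def trK {L L' : c.Idx} (h : L ≤ L') : c.KObj L →+ c.KObj L' where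
  toFun y := ⟨trE2 (c.π h) (c.ν h) (trS h) y.1, c.trE2_mem_KSub h y.1 y.2⟩
  map_zero' := Subtype.ext (map_zero _)
  map_add' := fun x y => Subtype.ext (map_add _ _ _)

lemma trK_val {L L' : c.Idx} (h : L ≤ L') (y : c.KObj L) :
    (c.trK h y).1 = trE2 (c.π h) (c.ν h) (trS h) y.1 := rfl

lemma trS_trans {L L' L'' : c.Idx} (h : L ≤ L') (h' : L' ≤ L'') (x : (sUnits L.1).V) :
    (trS (h.trans h')).hom x = (trS h').hom ((trS h).hom x) := rfl

/-- The system `K`. -/
def sysK : AddSys c.Idx where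
  obj := c.KObj
  grp := fun _ => inferInstance
  tr := fun h => c.trK h
  tr_tr := fun {L L' L''} h h' y => by
    apply Subtype.ext
    rw [trK_val, trK_val, trK_val]
    exact trE2_comp (c.π h) (c.π h') (c.π (h.trans h')) (c.ν h) (c.ν h') (c.ν (h.trans h'))
      (trS h) (trS h') (trS (h.trans h')) (c.π_trans h h') (c.ν_trans h h')
      (c.trS_trans h h') y.1

/-! ### The system `Ш²` and its colimit -/

/-- `Ш²_F = {x ∈ H²(Gal(F/ℚ), M) | infl x ∈ sha₂ S M}` (coefficients over `𝔽_p`). -/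
abbrev ShSub (L : c.Idx) : Submodule (ZMod p) (H2 (H603.coeff c.M L.1)) :=
  (sha₂ S c.M).comap (H603.infl₂ c.M L.1)

/-- `Ш²_F` as a type. -/
abbrev ShObj (L : c.Idx) : Type := c.ShSub L

lemma tr₂_mem_ShSub {L L' : c.Idx} (h : L ≤ L') (x : H2 (H603.coeff c.M L.1))
    (hx : x ∈ c.ShSub L) : H603.tr₂ c.M (S := S) h x ∈ c.ShSub L' := by
  show H603.infl₂ c.M L'.1 (H603.tr₂ c.M (S := S) h x) ∈ sha₂ S c.M
  rw [H603.infl₂_tr₂]
  exact hx

/-- The transition maps of `Ш²`. -/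
def trSh {L L' : c.Idx} (h : L ≤ L') : c.ShObj L →+ c.ShObj L' where
  toFun x := ⟨H603.tr₂ c.M (S := S) h x.1, c.tr₂_mem_ShSub h x.1 x.2⟩
  map_zero' := Subtype.ext (map_zero _)
  map_add' := fun x y => Subtype.ext (map_add _ _ _)

lemma trSh_val {L L' : c.Idx} (h : L ≤ L') (x : c.ShObj L) :
    (c.trSh h x).1 = H603.tr₂ c.M (S := S) h x.1 := rfl

/-- The system `Ш²`. -/
def sysSh : AddSys c.Idx where
  obj := c.ShObj
  grp := fun _ => inferInstance
  tr := fun h => c.trSh h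
  tr_tr := fun {L L' L''} h h' x => by
    apply Subtype.ext
    rw [trSh_val, trSh_val, trSh_val]
    exact H603.tr₂_tr₂ c.M (S := S) h h' x.1

/-- The map `Ш²_F → sha₂ S M`. -/
def shι (L : c.Idx) : c.sysSh.obj L →+ sha₂ S c.M where
  toFun x := ⟨H603.infl₂ c.M L.1 x.1, x.2⟩
  map_zero' := Subtype.ext (map_zero _)
  map_add' := fun x y => Subtype.ext (map_add _ _ _)

lemma shι_val (L : c.Idx) (x : c.sysSh.obj L) : (c.shι L x).1 = H603.infl₂ c.M L.1 x.1 := rfl

/-- **`sha₂ S M` is the colimit of the `Ш²_F`** (helper603's `exists_infl₂_eq`,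
`exists_tr₂_eq_zero`, `infl₂_tr₂`). -/
theorem sh_isColim : AddSys.IsColim c.sysSh (sha₂ S c.M) c.shι where
  compat := fun {L L'} h x => Subtype.ext (H603.infl₂_tr₂ c.M (S := S) h x.1)
  surj := fun y => by
    obtain ⟨L, hL, x, hx⟩ := H603.exists_infl₂_eq c.M c.base c.hM y.1
    refine ⟨⟨L, hL⟩, ⟨x, ?_⟩, Subtype.ext hx⟩
    show H603.infl₂ c.M L x ∈ sha₂ S c.M
    rw [hx]
    exact y.2
  sep := fun L x hx => by
    have h0 : H603.infl₂ c.M L.1 x.1 = 0 := congrArg Subtype.val hx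
    obtain ⟨L', h, hL'⟩ := H603.exists_tr₂_eq_zero c.M L.1 (c.hM_at L) x.1 h0
    exact ⟨⟨L', L.2.trans h⟩, h, Subtype.ext hL'⟩

end Ctx

end

end Fermat.Agent.S55.E1.Lim

end
-- ===== PACK-END S55/E1/Lim/Sys.lean

-- ===== PACK-BEGIN S55/E1/SpecLim.lean
section
/-
S55 engine E1 — block LIM: CONSUMER SPECS and the ENGINE.
Sub-architect E1-LIM: helper474.  Blueprint: coord/S55-E1.md §4, coord/S55-E1-LIM.md.  All proofs complete.

Objects: `E1/Lim/Obj.lean`; systems `c.sysSh, c.sysK, c.sysT1, c.sysT` over the levels above the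
base level of a context `c : Lim.Ctx S p`: `E1/Lim/Sys.lean` (where `sha₂ S M = colim Ш²_F` is
proved, `Ctx.sh_isColim`).  Abstract counting argument: `E1/LimAbs.lean` (`card_colim_eq`).

LEAVES (each a `Prop`; producers prove `theorem limN : LIMnSpec`):
* `LIMBaseSpec` : a level trivialising `M` and `N = M^∨(1)` and containing `μ_p` exists;
* `LIM4Spec`    : `|Ш¹_F(N)| = |sha₁ S N|` for all large `F`           (helper603 + adapter);
* `LIM1Spec`    : `∂ : T' → K` level-wise bijective morphism of systems (ALG3 + ALG10-∂);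
* `LIM2Spec`    : `T' → T` eventually injective and surjective           (GD5, GD5b, ALG2);
* `LIM3Spec`    : `|T_F| = |sha₁ S N|`, `tr : T_F → T_F'` injective      (ALG8, ALG10P, GD8);
* `LIM5Spec`    : `e : Ш² → K` eventually injective and surjective       (ALG9, 9a, 10E, 11, GD9, L).
ENGINE: `engineSpecFin_of : LIMBaseSpec → LIM4Spec → LIM1Spec → LIM2Spec → LIM3Spec → LIM5Spec →
  EngineSpecFin`.
-/



set_option autoImplicit false

open CategoryTheory CategoryTheory.Limits groupCohomology ExtCitation Module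

namespace Fermat.Agent.S55.E1.Lim

open Fermat.Agent.S55.Tow Fermat.Agent.S55.E1

noncomputable section

variable {S : Finset Nat.Primes} {p : ℕ} [Fact p.Prime]

/-- The decomposition maps `Gal(F_q/ℚ_q) → Gal(F/ℚ)`, `q ∈ S`. -/
abbrev decS (L : Level S) (q : S) : L.Dec q.1 →* L.Gal := L.decHom q.1

/-- The finite-level `Ш¹_F(N) = ⋂_{q ∈ S} ker (H¹(Gal(F/ℚ), N) → H¹(Gal(F_q/ℚ_q), N))`. -/
abbrev Ctx.sha1L (c : Ctx S p) (L : c.Idx) : AddSubgroup (groupCohomology (c.NL L) 1) :=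
  shaFin (decS L.1) (c.NL L)

/-- The standing hypotheses on a context: all inputs of the engine, at a base level which is
large enough (GD6 for some `F₀ ⊆ base`, LIM4 above `base`). -/
structure Ctx.Good (c : Ctx S p) : Prop where
  hp2 : p ≠ 2
  hpS : pPrime p ∈ S
  good : c.D.IsGoodFin p
  adm : IsAdmissible S c.M
  fin : Module.Finite (ZMod p) c.M
  mu : c.base.HasMu p
  tn : TateNakayamaAtSpec
  loc : LocalSpec p
  div : SUnitsDivSpec S p
  h1fin : H1FiniteSpec S p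
  /-- GD6: the norm-kill hypothesis holds above the base level, relative to some `F₀`. -/
  norm : ∃ (L₀ : Level S) (h₀ : L₀ ≤ c.base), L₀.HasMu p ∧
    (∀ s ∈ L₀.U, ∀ n : c.N, c.N.ρ s n = n) ∧
    ∀ (L : Level S) (h : c.base ≤ L),
      @NormInP p L.Gal _ (Level.relGal (h₀.trans h)) (Fintype.ofFinite _) (c.D.C L)
  /-- LIM4: above the base level `Ш¹_F(N)` has the cardinality of `sha₁ S N`. -/
  sha1 : ∀ L : c.Idx, Nat.card (c.sha1L L) = Nat.card (sha₁ S c.N)
  /-- `sha₁ S N` is finite. -/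
  sha1fin : Finite (sha₁ S c.N)

/-! ## The leaves -/

/-- **LIM-BASE.** A level trivialising `M` and `N = M^∨(1)` and containing `μ_p`. -/
def LIMBaseSpec : Prop :=
  ∀ (p : ℕ) [Fact p.Prime], p ≠ 2 → ∀ (S : Finset Nat.Primes), pPrime p ∈ S →
    ∀ (M : Rep.{0, 0, 0} (ZMod p) GQ) [FiniteDimensional (ZMod p) M], IsAdmissible S M →
    ∃ L₀ : Level S, L₀.HasMu p ∧ (∀ s ∈ L₀.U, ∀ m : M, M.ρ s m = m) ∧
      (∀ s ∈ L₀.U, ∀ n : M.dualTwist (cycloChar p), (M.dualTwist (cycloChar p)).ρ s n = n)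

/-- **LIM4.** `|Ш¹_F(N)| = |sha₁ S N|` for all large levels `F`, and `sha₁ S N` is finite
(`N` any finite-dimensional `𝔽_p`-representation trivialised by a level; `p` odd). -/
def LIM4Spec : Prop :=
  ∀ (p : ℕ) [Fact p.Prime], p ≠ 2 → ∀ (S : Finset Nat.Primes), pPrime p ∈ S →
    H1FiniteSpec S p →
    ∀ (N : Rep.{0, 0, 0} (ZMod p) GQ) [FiniteDimensional (ZMod p) N] (L₀ : Level S),
    (∀ s ∈ L₀.U, ∀ n : N, N.ρ s n = n) →
    Finite (sha₁ S N) ∧
    ∃ L₁ : Level S, L₀ ≤ L₁ ∧ ∀ L : Level S, L₁ ≤ L →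
      Nat.card (shaFin (decS L) (cf N L)) = Nat.card (sha₁ S N)

/-- **LIM1.** `∂ : T'_F → K_F` is a level-wise bijective morphism of systems. -/
def LIM1Spec : Prop :=
  ∀ (p : ℕ) [Fact p.Prime] (S : Finset Nat.Primes) (c : Ctx S p), c.Good →
    ∃ d : AddSys.Hom c.sysT1 c.sysK, d.LevelBij

/-- **LIM2 (capitulation).** `T'_F → T_F` (induced by `C'(F) ⊆ C(F)`) is eventually injective
and eventually surjective. -/
def LIM2Spec : Prop :=
  ∀ (p : ℕ) [Fact p.Prime] (S : Finset Nat.Primes) (c : Ctx S p), c.Good →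
    ∃ cc : AddSys.Hom c.sysT1 c.sysT, cc.EvInj ∧ cc.EvSurj

/-- **LIM3.** `|T_F| = |sha₁ S N|` and the transition maps of `T` are injective. -/
def LIM3Spec : Prop :=
  ∀ (p : ℕ) [Fact p.Prime] (S : Finset Nat.Primes) (c : Ctx S p), c.Good →
    (∀ L : c.Idx, Nat.card (c.sysT.obj L) = Nat.card (sha₁ S c.N)) ∧
    (∀ {L L' : c.Idx} (h : L ≤ L'), Function.Injective (c.sysT.tr h))

/-- **LIM5.** There is a morphism of systems `e : Ш²_F → K_F` (edge map composed with the
biduality `M ≅ Hom_ℤ(N, E(F))`) which is eventually injective and eventually surjective. -/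
def LIM5Spec : Prop :=
  ∀ (p : ℕ) [Fact p.Prime] (S : Finset Nat.Primes) (c : Ctx S p), c.Good →
    ∃ e : AddSys.Hom c.sysSh c.sysK, e.EvInj ∧ e.EvSurj

/-! ## The engine -/

/-- The counting statement for a good context. -/
theorem card_sha₂_eq (h1 : LIM1Spec) (h2 : LIM2Spec) (h3 : LIM3Spec) (h5 : LIM5Spec)
    (c : Ctx S p) (hc : c.Good) :
    Finite (sha₂ S c.M) ∧ Nat.card (sha₂ S c.M) = Nat.card (sha₁ S c.N) := by
  obtain ⟨d, hd⟩ := h1 p S c hc
  obtain ⟨cc, hcc1, hcc2⟩ := h2 p S c hc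
  obtain ⟨hcard, hinj⟩ := h3 p S c hc
  obtain ⟨e, he1, he2⟩ := h5 p S c hc
  have := hc.sha1fin
  have hs : 0 < Nat.card (sha₁ S c.N) := Nat.card_pos
  exact card_colim_eq (hX := c.sh_isColim) (e := e) (d := d) (c := cc) (hd := hd)
    (he_inj := he1) (he_surj := he2) (hc_inj := hcc1) (hc_surj := hcc2)
    (hT_inj := fun {i j} h => hinj h) (s := Nat.card (sha₁ S c.N)) (hs := hs)
    (hT_card := hcard)

/-- From cardinalities to `DimEq`. -/
theorem dimEq_of_card (M : Rep.{0, 0, 0} (ZMod p) GQ)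
    (h1 : Finite (sha₁ S (M.dualTwist (cycloChar p)))) (h2 : Finite (sha₂ S M))
    (h : Nat.card (sha₂ S M) = Nat.card (sha₁ S (M.dualTwist (cycloChar p)))) :
    DimEq S M := by
  have f1 : Module.Finite (ZMod p) (sha₁ S (M.dualTwist (cycloChar p))) := Module.Finite.of_finite
  have f2 : Module.Finite (ZMod p) (sha₂ S M) := Module.Finite.of_finite
  refine ⟨f1, f2, ?_⟩
  have e1 := Module.natCard_eq_pow_finrank (K := ZMod p)
    (V := sha₁ S (M.dualTwist (cycloChar p)))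
  have e2 := Module.natCard_eq_pow_finrank (K := ZMod p) (V := sha₂ S M)
  rw [Nat.card_zmod] at e1 e2
  have hp : 1 < p := (Fact.out : p.Prime).one_lt
  exact Nat.pow_right_injective hp (by
    show p ^ _ = p ^ _
    rw [← e1, ← e2, h])

/-- **THE ENGINE E1** (block LIM assembled): `EngineSpecFin` from the six leaves. -/
theorem engineSpecFin_of (hB : LIMBaseSpec) (h4 : LIM4Spec) (h1 : LIM1Spec) (h2 : LIM2Spec)
    (h3 : LIM3Spec) (h5 : LIM5Spec) : EngineSpecFin := by
  intro p _ hp2 S hpS hT hG hL hU hF M _ hM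
  obtain ⟨D, hD⟩ := hG
  obtain ⟨L₀, hμ, hM₀, hN₀⟩ := hB p hp2 S hpS M hM
  obtain ⟨L₁, h01, hnorm⟩ := hD.good.gd6 L₀ hμ
  have : FiniteDimensional (ZMod p) (M.dualTwist (cycloChar p)) :=
    inferInstanceAs (FiniteDimensional (ZMod p) (Module.Dual (ZMod p) M))
  obtain ⟨hfin, L₂, h02, hcard⟩ := h4 p hp2 S hpS hF (M.dualTwist (cycloChar p)) L₀ hN₀
  obtain ⟨Lb, hb1, hb2⟩ := exists_ge_ge L₁ L₂
  have h0b : L₀ ≤ Lb := h01.trans hb1
  let c : Ctx S p :=
    { D := D
      M := M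
      base := Lb
      h7 := hD.good.gd7a
      h7b := hD.good.gd7b
      h4 := hD.good.gd4
      hM := fun s hs m => hM₀ s (Level.U_anti h0b hs) m
      hN := fun s hs n => hN₀ s (Level.U_anti h0b hs) n }
  have hc : c.Good :=
    { hp2 := hp2
      hpS := hpS
      good := hD
      adm := hM
      fin := inferInstance
      mu := hμ.mono h0b
      tn := hT
      loc := hL
      div := hU
      h1fin := hF
      norm := ⟨L₀, h0b, hμ, hN₀, fun L h => hnorm L (h0b.trans h) (hb1.trans h)⟩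
      sha1 := fun L => hcard L.1 (hb2.trans L.2)
      sha1fin := hfin }
  obtain ⟨hfin2, hcard2⟩ := card_sha₂_eq h1 h2 h3 h5 c hc
  exact dimEq_of_card M hfin hfin2 hcard2

end

end Fermat.Agent.S55.E1.Lim

end
-- ===== PACK-END S55/E1/SpecLim.lean

-- ===== PACK-BEGIN S55/E1/Lim/Base.lean
section
/-
S55 engine E1 — block LIM, leaf LIM-BASE (helper474): a level trivialising `M` and
`N = M^∨(1)` and containing `μ_p`.  All proofs complete.
-/




set_option autoImplicit false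

open CategoryTheory groupCohomology ExtCitation

namespace Fermat.Agent.S55.E1.Lim

open Fermat.Agent.S55.Tow Fermat.Agent.S55.E1

/-- **LIM-BASE.** -/
theorem limBase : LIMBaseSpec := by
  intro p _ _ S hpS M _ hM
  obtain ⟨F, hF, hgal, h1, h2, h3⟩ :=
    Fermat.Agent.S55.Bridge.exists_common_galois_level M S hpS hM.1 hM.2
  refine ⟨H603.levelOfGalois F hF hgal, ?_, ?_, ?_⟩
  · apply Fermat.Agent.S55.Cap.H181.hasMu p S
    intro s hs
    have hχ : cycloChar p s = 1 := h2 s hs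
    apply LinearMap.ext
    intro x
    show ((cycloChar p s : (ZMod p)ˣ) : ZMod p) * x = x
    rw [hχ, Units.val_one, one_mul]
  · intro s hs m
    have := h1 s hs
    rw [this]
    rfl
  · intro s hs n
    have := h3 s hs
    rw [this]
    rfl

end Fermat.Agent.S55.E1.Lim

end
-- ===== PACK-END S55/E1/Lim/Base.lean

-- ===== PACK-BEGIN S55/E1/Lim/Lim4.lean
section
/-
S55 engine E1 — block LIM, leaf LIM4 (glue, helper474): `|Ш¹_F(N)| = |sha₁ S N|` for all large
levels, in the vocabulary of `E1/SpecLim.lean`.  The content is helper603's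
`H603.exists_level_forall_card_sha1Fin_eq`; here: change of coefficient ring `𝔽_p → ℤ`.
All proofs complete.
-/




set_option autoImplicit false

open CategoryTheory groupCohomology ExtCitation

namespace Fermat.Agent.S55.E1.Lim

open Fermat.Agent.S55.Tow Fermat.Agent.S55.E1

noncomputable section

variable {S : Finset Nat.Primes} {K : Type} [Field K] (A : Rep.{0, 0, 0} K GQ)

/-- Restriction to the decomposition group commutes with the change of coefficient ring. -/
lemma resAlong_eq_zero_iff (L : Level S) (q : Nat.Primes) (x : H1 (H603.toInt (H603.coeff A L))) :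
    resAlong (L.decHom q) (cf A L) 1 x = 0 ↔
      H603.resDec₁ A L q (H603.H1IntEquiv (H603.coeff A L) x) = 0 := by
  have h := H603.H1IntEquiv_map (L.decHom q) (𝟙 (Rep.res (L.decHom q) (H603.coeff A L))) x
  constructor
  · intro hx
    have hx' : (groupCohomology.map (L.decHom q) (H603.toIntHom (L.decHom q)
        (𝟙 (Rep.res (L.decHom q) (H603.coeff A L)))) 1).hom x = 0 := hx
    exact h.symm.trans ((congrArg _ hx').trans (map_zero _))
  · intro hx
    have h3 : H603.H1IntEquiv (Rep.res (L.decHom q) (H603.coeff A L))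
        ((groupCohomology.map (L.decHom q) (H603.toIntHom (L.decHom q)
          (𝟙 (Rep.res (L.decHom q) (H603.coeff A L)))) 1).hom x) = 0 := h.trans hx
    exact (AddEquiv.map_eq_zero_iff _).1 h3

/-- `x ∈ Ш¹_F` over `ℤ` iff its image lies in `Ш¹_F` over `K`. -/
lemma mem_shaFin_iff (L : Level S) (x : H1 (H603.toInt (H603.coeff A L))) :
    x ∈ shaFin (decS L) (cf A L) ↔
      H603.H1IntEquiv (H603.coeff A L) x ∈ H603.sha1Fin A L := by
  simp only [H603.sha1Fin, Submodule.mem_iInf, LinearMap.mem_ker]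
  exact forall_congr' fun q => resAlong_eq_zero_iff A L q.1 x

/-- The two finite-level `Ш¹` have the same cardinality. -/
lemma card_shaFin_eq (L : Level S) :
    Nat.card (shaFin (decS L) (cf A L)) = Nat.card (H603.sha1Fin A L) := by
  apply Nat.card_congr
  exact
    { toFun := fun x => ⟨H603.H1IntEquiv (H603.coeff A L) x.1, (mem_shaFin_iff A L x.1).1 x.2⟩
      invFun := fun y => ⟨(H603.H1IntEquiv (H603.coeff A L)).symm y.1,
        (mem_shaFin_iff A L _).2 (by rw [AddEquiv.apply_symm_apply]; exact y.2)⟩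
      left_inv := fun x => Subtype.ext (AddEquiv.symm_apply_apply _ _)
      right_inv := fun y => Subtype.ext (AddEquiv.apply_symm_apply _ _) }

end

/-- **LIM4.** -/
theorem lim4 : LIM4Spec := by
  intro p _ hp2 S hpS hF N _ L₀ hN
  have h2 : (2 : ZMod p) ≠ 0 := Fermat.Agent.S55.Bridge.two_ne_zero_zmod hp2
  have hfinH1 : Module.Finite (ZMod p) (continuousH1S S N) :=
    hF N ⟨L₀, fun s hs => LinearMap.ext fun n => hN s hs n⟩
  have hfin1 : Finite (continuousH1S S N) := Module.finite_of_finite (ZMod p)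
  have hfin : Finite (sha₁ S N) := by
    apply Finite.of_injective
      (fun y : sha₁ S N => (⟨y.1, ((Fermat.Agent.S55.Bridge.mem_sha₁_iff S h2 N _).1 y.2).1⟩ :
        continuousH1S S N))
    intro y y' h
    exact Subtype.ext (congrArg (fun t : continuousH1S S N => (t : H1 N)) h)
  refine ⟨hfin, ?_⟩
  obtain ⟨L₁, h₁, h⟩ := H603.exists_level_forall_card_sha1Fin_eq N h2 L₀ hN
  exact ⟨L₁, h₁, fun L hL => (card_shaFin_eq N L).trans (h L hL)⟩

end Fermat.Agent.S55.E1.Lim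

end
-- ===== PACK-END S55/E1/Lim/Lim4.lean

-- ===== PACK-BEGIN S55/E1/H719/Lim1Sys.lean
section




/-!
# S55 engine E1, block LIM, leaves LIM-SES and LIM1 — helper719

* `ses_shortExact` (LIM-SES): `0 → E(F) → J(F) → C'(F) → 0` (`Lim.ses h4 L`) is short exact
  (from GD4 = `KerDiag`, injectivity of the diagonal, `S ≠ ∅`);
* `dT : AddSys.Hom c.sysT1 c.sysK` (LIM1): the boundary maps `∂ : T'_F → K_F` of ALG3
  (`H354.stdBdryEquiv`), compatible with the transition maps (`H354.trE2_stdBdry`);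
* `dT_levelBij` : `∂` is a level-wise bijection.
-/

set_option autoImplicit false

open CategoryTheory CategoryTheory.Limits

namespace Fermat.Agent.S55.E1.H719

open Fermat.Agent.S55.Tow Fermat.Agent.S55.E1 Fermat.Agent.S55.E1.Lim

noncomputable section

/-! ## LIM-SES -/

section Ses

variable {S : Finset Nat.Primes}

lemma embQbar_inj (q : Nat.Primes) : Function.Injective (embQbar q) := by
  intro x y hxy
  apply Additive.toMul.injective
  have h := congrArg Additive.toMul hxy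
  exact Units.map_injective (f := (padicEmbedding (q : ℕ)).toRingHom.toMonoidHom)
    (padicEmbedding (q : ℕ)).toRingHom.injective h

lemma embFun_inj (L : Level S) (q : Nat.Primes) : Function.Injective (L.embFun q) := by
  intro x y hxy
  apply L.unitsCoe_injective
  apply embQbar_inj q
  rw [← L.locCoe_embFun, ← L.locCoe_embFun, hxy]

lemma diag_inj (L : Level S) (q : Nat.Primes) : Function.Injective (L.diag q).hom := by
  intro x y hxy
  apply embFun_inj L q
  have h := congrArg (fun f => L.Jeval q f 1) hxy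
  simp only [Level.Jeval_diag, map_one] at h
  exact h

/-- The diagonal `E(F) → J(F)` is injective (`S ≠ ∅`). -/
lemma diagTot_injective (hS : S.Nonempty) (L : Level S) :
    Function.Injective (diagTot L).hom := by
  obtain ⟨q, hq⟩ := hS
  intro x y hxy
  apply sIncl_injective L
  apply diag_inj L q
  exact congrArg (fun z : (Jtot L).V => piTo z ⟨q, hq⟩) hxy

variable {D : TowerDatum S}

/-- Exactness at `J(F)`: the kernel of `J(F) → C'(F)` is the diagonal image of `E(F)`. -/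
lemma exists_diagTot_eq (hS : S.Nonempty) (h4 : KerDiag D) (L : Level S) (x : (Jtot L).V)
    (hx : (jC1 D L).hom x = 0) : ∃ e : (sUnits L).V, (diagTot L).hom e = x := by
  have hx0 : ∀ g : L.Gal, (jTot D L).hom ((Jtot L).ρ g x) = 0 := by
    intro g
    rw [Rep.hom_comm_apply]
    have h1 : (jTot D L).hom x = (inclC1 D L).hom ((jC1 D L).hom x) := rfl
    rw [h1, hx, map_zero, map_zero]
  have key : ∀ g : L.Gal, ∃ e : L.units.V, L.IsSUnit e ∧
      ∀ q : S, piTo ((Jtot L).ρ g x) q = (L.diag q.1).hom e :=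
    fun g => (h4 L (fun q => piTo ((Jtot L).ρ g x) q)).1 (hx0 g)
  obtain ⟨q₀, hq₀⟩ := hS
  obtain ⟨e, -, he⟩ := key 1
  have he' : ∀ q : S, piTo x q = (L.diag q.1).hom e := by
    intro q
    have := he q
    rwa [map_one] at this
  have hmem : e ∈ sUnitsAdd L := by
    intro g
    obtain ⟨e', he'S, he'eq⟩ := key g
    have h2 : piTo ((Jtot L).ρ g x) ⟨q₀, hq₀⟩ = (L.J q₀).ρ g (piTo x ⟨q₀, hq₀⟩) := rfl
    have h3 : (L.J q₀).ρ g ((L.diag q₀).hom e) = (L.diag q₀).hom (L.units.ρ g e) :=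
      (Rep.hom_comm_apply (L.diag q₀) g e).symm
    have h1 : (L.diag q₀).hom e' = (L.diag q₀).hom (L.units.ρ g e) :=
      (he'eq ⟨q₀, hq₀⟩).symm.trans (h2.trans ((congrArg _ (he' ⟨q₀, hq₀⟩)).trans h3))
    have h5 : e' = L.units.ρ g e := diag_inj L q₀ h1
    exact h5 ▸ he'S
  refine ⟨subMk e hmem, ?_⟩
  refine piRep_ext (fun q => ?_)
  exact (he' q).symm

/-- **LIM-SES**: `0 → E(F) → J(F) → C'(F) → 0` is short exact. -/
theorem ses_shortExact (hS : S.Nonempty) (h4 : KerDiag D) (L : Level S) :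
    (ses h4 L).ShortExact :=
  (T.H719.rep_shortExact_iff (ses h4 L)).2
    ⟨diagTot_injective hS L, jC1_surjective D L, exists_diagTot_eq hS h4 L⟩

end Ses

/-! ## LIM1 -/

section Lim1

variable {S : Finset Nat.Primes} {p : ℕ} [Fact p.Prime] (c : Ctx S p)

/-- `R_F` is `ℤ`-projective (ALG1). -/
lemma projective_stdR (hfin : ∀ L : c.Idx, Finite (c.NL L).V) (L : c.Idx) :
    @Module.Projective ℤ _ (stdR (c.NL L)).V _ (stdR (c.NL L)).hV2 := by
  obtain ⟨hfree, -, -⟩ := H304.alg1 L.1.Gal (c.NL L) (hfin L)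
  exact @Module.Projective.of_free ℤ _ (stdR (c.NL L)).V _ (stdR (c.NL L)).hV2 hfree

/-- The boundary map `∂_F : T'_F → K_F`. -/
def dApp (hS : S.Nonempty) (hfin : ∀ L : c.Idx, Finite (c.NL L).V) (L : c.Idx) :
    c.T1Obj L ≃+ c.KObj L :=
  H354.stdBdryEquiv (c.NL L) (projective_stdR c hfin L) (ses_shortExact hS c.h4 L.1)

lemma dApp_mk (hS : S.Nonempty) (hfin : ∀ L : c.Idx, Finite (c.NL L).V) (L : c.Idx)
    (f'' : homA (c.NL L) (C1 c.D L.1)) :
    ((dApp c hS hfin L (QuotientAddGroup.mk f'') : c.KObj L) : E2 (c.NL L) (sUnits L.1)) =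
      H354.stdBdry (c.NL L) (projective_stdR c hfin L) (ses_shortExact hS c.h4 L.1) f'' := rfl

/-- **LIM1: the morphism of systems `∂ : T' → K`.** -/
def dT (hS : S.Nonempty) (hfin : ∀ L : c.Idx, Finite (c.NL L).V) :
    AddSys.Hom c.sysT1 c.sysK where
  app := fun L => (dApp c hS hfin L).toAddMonoidHom
  comm := fun {L L'} h x => by
    induction x using QuotientAddGroup.induction_on with
    | H f'' =>
      apply Subtype.ext
      change ((dApp c hS hfin L' (QuotientAddGroup.mk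
          (trA (c.π h) (c.ν h) (trC1 c.h7 h) f'')) : c.KObj L') :
          E2 (c.NL L') (sUnits L'.1)) =
        trE2 (c.π h) (c.ν h) (trS h)
          ((dApp c hS hfin L (QuotientAddGroup.mk f'') : c.KObj L) : E2 (c.NL L) (sUnits L.1))
      rw [dApp_mk, dApp_mk]
      exact (H354.trE2_stdBdry (c.π h) (c.ν h) (S := ses c.h4 L.1) (S' := ses c.h4 L'.1)
        (trS h) (trJtot h) (trC1 c.h7 h)
        (projective_stdR c hfin L) (projective_stdR c hfin L')
        (ses_shortExact hS c.h4 L.1) (ses_shortExact hS c.h4 L'.1)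
        (fun x => (trJtot_diagTot h x).symm) (fun x => (trC1_jC1 c.h7 h x).symm) f'').symm

/-- **LIM1: `∂ : T' → K` is a level-wise bijection.** -/
theorem dT_levelBij (hS : S.Nonempty) (hfin : ∀ L : c.Idx, Finite (c.NL L).V) :
    (dT c hS hfin).LevelBij :=
  fun L => (dApp c hS hfin L).bijective

end Lim1

end

end Fermat.Agent.S55.E1.H719

end
-- ===== PACK-END S55/E1/H719/Lim1Sys.lean

-- ===== PACK-BEGIN S55/E1/H719/Lim2Fin.lean
section





/-!
# S55 engine E1, block LIM, leaf LIM2 in the vocabulary of `E1/Lim/Obj.lean` — helper719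

`C'(F) = Lim.C1 D L = im (J(F) → C(F))`, `T_F = H957.TQ j`, `T'_F = A_F(C') / (A_F(J) ≫ jC1)`.
The map `c : T'_F → T_F` is induced by `f' ↦ f' ≫ inclC1`.

* `lim2_evInj`  (eventual injectivity of `c`): if `f' ≫ inclC1 ∈ Σ_q j_q ∘ A(J_q) + res Bc(C)`
  then for all large `F'`: `tr f' = g ≫ jC1` for some `g ∈ A_{F'}(J)`;
* `lim2_evSurj` (eventual surjectivity of `c`, needs GD5b = `IsGoodFin.gd5b`): for `f ∈ A_F(C)`,
  for all large `F'` there are `f' ∈ A_{F'}(C')`, `h' ∈ Bc_{F'}(C)` with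
  `f' ≫ inclC1 = tr f + res h'`;  `lim2_evSurj_TQ` : the same in `T_{F'} = TQ`.
-/

set_option autoImplicit false

open CategoryTheory CategoryTheory.Limits

namespace Fermat.Agent.S55.E1.H719

open Fermat.Agent.S55.Tow Fermat.Agent.S55.E1 Fermat.Agent.S55.E1.Lim

noncomputable section

variable {S : Finset Nat.Primes} {D : TowerDatum S}

/-- GD7a in the form of `Lim/Obj.lean`. -/
lemma trCompat_of_isGoodMu {p : ℕ} (hD : D.IsGoodMu p) : TrCompat D :=
  fun h q hq x => hD.gd7a h q hq x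

/-- GD5b (Datum3) is the hypothesis of `lim2_coker`. -/
lemma torsionModLocal_of_isGoodFin {p : ℕ} (hD : D.IsGoodFin p) : TorsionModLocal D :=
  hD.gd5b

/-- `tr` commutes with `inclC1`. -/
lemma trA_comp_inclC1 (h7 : TrCompat D) {L L' : Level S} (h : L ≤ L')
    {N : Rep.{0} ℤ L.Gal} {N' : Rep.{0} ℤ L'.Gal} (ν : N' ⟶ Rep.res (Level.proj h) N)
    (f' : homA N (C1 D L)) :
    trA (Level.proj h) ν (trC1 h7 h) f' ≫ inclC1 D L' =
      trA (Level.proj h) ν (D.tr h) (f' ≫ inclC1 D L) := by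
  apply repHom_ext_tr
  intro r
  rfl

/-- `Σ_q f_q ≫ j_q = piLift f ≫ jTot`. -/
lemma sum_comp_j_eq (L : Level S) {N : Rep.{0} ℤ L.Gal} (fJ : ∀ q : S, homA N (L.J q.1)) :
    ∑ q : S, fJ q ≫ D.j L q.1 = piLift fJ ≫ jTot D L := by
  apply repHom_ext_tr
  intro r
  rw [sum_hom_apply]
  rfl

/-- **LIM2, eventual injectivity of `c : T'_F → T_F`.** -/
theorem lim2_evInj [IsDirected (Level S) (· ≤ ·)] {p : ℕ} (hD : D.IsGoodMu p) {L : Level S}
    (N : Rep.{0} ℤ L.Gal) [Finite N.V] (hpN : ∀ n : N.V, p • n = 0) (f' : homA N (C1 D L))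
    (hf' : IsLocSum (fun q : S => D.j L q.1) (f' ≫ inclC1 D L)) :
    ∃ L₁ : Level S, L ≤ L₁ ∧ ∀ (L' : Level S) (h : L ≤ L'), L₁ ≤ L' →
      ∀ (N' : Rep.{0} ℤ L'.Gal) (ν : N' ⟶ Rep.res (Level.proj h) N),
        ∃ g : homA N' (Jtot L'),
          trA (Level.proj h) ν (trC1 (trCompat_of_isGoodMu hD) h) f' = g ≫ jC1 D L' := by
  obtain ⟨fJ, hB, hfeq⟩ := hf'
  have hloc : ∀ r : (stdR N).V,
      D.IsLocalSum L ((∑ q : S, fJ q ≫ D.j L q.1 + resBA N (D.C L) hB).hom r) := by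
    intro r
    rw [← hfeq]
    exact (mem_C1Add D L _).1 (subVal_mem (f'.hom r))
  obtain ⟨L₁, hL₁, hker⟩ := lim2_ker_A D hD N hpN fJ hB hloc
  refine ⟨L₁, hL₁, fun L' h h' N' ν => ?_⟩
  obtain ⟨fJ', hfJ'⟩ := hker L' h h' N' ν
  refine ⟨piLift fJ', ?_⟩
  have h1 : trA (Level.proj h) ν (trC1 (trCompat_of_isGoodMu hD) h) f' ≫ inclC1 D L' =
      (piLift fJ' ≫ jC1 D L') ≫ inclC1 D L' := by
    rw [trA_comp_inclC1, hfeq, hfJ', sum_comp_j_eq]
    apply repHom_ext_tr
    intro r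
    rfl
  apply repHom_ext_tr
  intro r
  apply inclC1_injective D L'
  exact congrArg (fun t : stdR N' ⟶ D.C L' => t.hom r) h1

/-- **LIM2, eventual surjectivity of `c : T'_F → T_F`** (uses GD5b). -/
theorem lim2_evSurj [IsDirected (Level S) (· ≤ ·)] {p : ℕ} (hp : p.Prime) (hD : D.IsGoodFin p)
    {L : Level S} (N : Rep.{0} ℤ L.Gal) [Finite N.V] (hpN : ∀ n : N.V, p • n = 0)
    (f : homA N (D.C L)) :
    ∃ L₁ : Level S, L ≤ L₁ ∧ ∀ (L' : Level S) (h : L ≤ L'), L₁ ≤ L' →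
      ∀ (N' : Rep.{0} ℤ L'.Gal) (ν : N' ⟶ Rep.res (Level.proj h) N),
        ∃ (f' : homA N' (C1 D L')) (hB' : homB N' (D.C L')),
          f' ≫ inclC1 D L' = trA (Level.proj h) ν (D.tr h) f + resBA N' (D.C L') hB' := by
  obtain ⟨w, hB, hw, L₁, hL₁, hval⟩ :=
    lim2_coker D hp hD.good (torsionModLocal_of_isGoodFin hD) N hpN f
  refine ⟨L₁, hL₁, fun L' h h' N' ν => ?_⟩
  refine ⟨subLift (C1Add D L') (C1Add_stable D L') (trA (Level.proj h) ν (D.tr h) (w • f))
    (fun r' => (mem_C1Add D L' _).2 (hval L' h h' N' ν r')), trB (Level.proj h) ν (D.tr h) hB, ?_⟩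
  have h1 : subLift (C1Add D L') (C1Add_stable D L') (trA (Level.proj h) ν (D.tr h) (w • f))
      (fun r' => (mem_C1Add D L' _).2 (hval L' h h' N' ν r')) ≫ inclC1 D L' =
      trA (Level.proj h) ν (D.tr h) (w • f) := by
    apply repHom_ext_tr
    intro r
    rfl
  refine h1.trans ?_
  rw [hw, map_add, trA_resBA]

/-- **LIM2, eventual surjectivity, in `T_{F'} = TQ`.** -/
theorem lim2_evSurj_TQ [IsDirected (Level S) (· ≤ ·)] {p : ℕ} (hp : p.Prime)
    (hD : D.IsGoodFin p) {L : Level S} (N : Rep.{0} ℤ L.Gal) [Finite N.V]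
    (hpN : ∀ n : N.V, p • n = 0) (f : homA N (D.C L)) :
    ∃ L₁ : Level S, L ≤ L₁ ∧ ∀ (L' : Level S) (h : L ≤ L'), L₁ ≤ L' →
      ∀ (N' : Rep.{0} ℤ L'.Gal) (ν : N' ⟶ Rep.res (Level.proj h) N),
        ∃ f' : homA N' (C1 D L'),
          (QuotientAddGroup.mk (f' ≫ inclC1 D L') :
            H957.TQ (N := N') (fun q : S => D.j L' q.1)) =
          QuotientAddGroup.mk (trA (Level.proj h) ν (D.tr h) f) := by
  obtain ⟨L₁, hL₁, hsurj⟩ := lim2_evSurj hp hD N hpN f
  refine ⟨L₁, hL₁, fun L' h h' N' ν => ?_⟩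
  obtain ⟨f', hB', hf'⟩ := hsurj L' h h' N' ν
  refine ⟨f', ?_⟩
  rw [hf', QuotientAddGroup.mk_add, add_eq_left, QuotientAddGroup.eq_zero_iff]
  exact AddSubgroup.mem_sup_left ⟨hB', rfl⟩

/-- **LIM2, eventual injectivity, hypothesis in `T_F = TQ`.** -/
theorem lim2_evInj_TQ [IsDirected (Level S) (· ≤ ·)] {p : ℕ} (hD : D.IsGoodMu p) {L : Level S}
    (N : Rep.{0} ℤ L.Gal) [Finite N.V] (hpN : ∀ n : N.V, p • n = 0) (f' : homA N (C1 D L))
    (hf' : (QuotientAddGroup.mk (f' ≫ inclC1 D L) :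
      H957.TQ (N := N) (fun q : S => D.j L q.1)) = 0) :
    ∃ L₁ : Level S, L ≤ L₁ ∧ ∀ (L' : Level S) (h : L ≤ L'), L₁ ≤ L' →
      ∀ (N' : Rep.{0} ℤ L'.Gal) (ν : N' ⟶ Rep.res (Level.proj h) N),
        ∃ g : homA N' (Jtot L'),
          trA (Level.proj h) ν (trC1 (trCompat_of_isGoodMu hD) h) f' = g ≫ jC1 D L' :=
  lim2_evInj hD N hpN f'
    ((H957.mem_locSub _ _).1 ((QuotientAddGroup.eq_zero_iff _).1 hf'))

end

end Fermat.Agent.S55.E1.H719

end
-- ===== PACK-END S55/E1/H719/Lim2Fin.lean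

-- ===== PACK-BEGIN S55/E1/H719/Lim2Sys.lean
section



/-!
# S55 engine E1, block LIM, leaf LIM2 on the systems of `E1/Lim/Sys.lean` — helper719

The morphism of systems `c : T' → T` (`Ctx.sysT1 → Ctx.sysT`), induced by
`f' ↦ f' ≫ inclC1 : A_F(C') → A_F(C)`, and **LIM2**:

* `cT_evInj`  : `c` is eventually injective  (GD5, GD7: `IsGoodMu`);
* `cT_evSurj` : `c` is eventually surjective (GD5 + GD5b: `IsGoodFin`).
-/

set_option autoImplicit false

open CategoryTheory CategoryTheory.Limits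

namespace Fermat.Agent.S55.E1.H719

open Fermat.Agent.S55.Tow Fermat.Agent.S55.E1 Fermat.Agent.S55.E1.Lim

noncomputable section

variable {S : Finset Nat.Primes} {p : ℕ} [Fact p.Prime] (c : Ctx S p)

/-- `N_L` is killed by `p`. -/
lemma nsmul_NL_eq_zero (L : c.Idx) (n : (c.NL L).V) : p • n = 0 :=
  ZModModule.char_nsmul_eq_zero (G := (H603.coeff c.N L.1).V) p n

/-- `N_L` is finite if `N` is. -/
lemma finite_NL [Finite c.N.V] (L : c.Idx) : Finite (c.NL L).V :=
  Finite.of_injective (cfVal c.N (L := L.1)) (cfVal_injective c.N)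

/-- Composition with `inclC1` as an additive map `A_F(C') → A_F(C)`. -/
def inclA (L : c.Idx) : homA (c.NL L) (C1 c.D L.1) →+ homA (c.NL L) (c.D.C L.1) :=
  Preadditive.rightComp (stdR (c.NL L)) (inclC1 c.D L.1)

lemma inclA_apply (L : c.Idx) (f' : homA (c.NL L) (C1 c.D L.1)) :
    inclA c L f' = f' ≫ inclC1 c.D L.1 := rfl

lemma inclA_mem_locSub (L : c.Idx) :
    c.T1Sub L ≤ (H957.locSub (N := c.NL L) (c.jS L)).comap (inclA c L) := by
  rintro _ ⟨g, rfl⟩
  rw [AddSubgroup.mem_comap, H957.mem_locSub]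
  refine ⟨fun q => g ≫ piProj (fun q : S => L.1.J q.1) q, 0, ?_⟩
  rw [map_zero, add_zero]
  apply repHom_ext_tr
  intro r
  rw [sum_hom_apply]
  rfl

/-- The map `c_F : T'_F → T_F`. -/
def cApp (L : c.Idx) : c.T1Obj L →+ c.TObj L :=
  QuotientAddGroup.map _ _ (inclA c L) (inclA_mem_locSub c L)

lemma cApp_mk (L : c.Idx) (f' : homA (c.NL L) (C1 c.D L.1)) :
    cApp c L (QuotientAddGroup.mk f') = QuotientAddGroup.mk (f' ≫ inclC1 c.D L.1) := rfl

/-- **The morphism of systems `c : T' → T`.** -/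
def cT : AddSys.Hom c.sysT1 c.sysT where
  app := cApp c
  comm := fun {L L'} h x => by
    induction x using QuotientAddGroup.induction_on with
    | H f' =>
      change cApp c L' (c.trT1 h (QuotientAddGroup.mk f')) =
        c.trT h (cApp c L (QuotientAddGroup.mk f'))
      rw [Ctx.trT1_mk, cApp_mk, cApp_mk, Ctx.trT_mk, trA_comp_inclC1]

/-- **LIM2 (kernel part): `c : T' → T` is eventually injective.** -/
theorem cT_evInj (hD : c.D.IsGoodMu p) (hfin : ∀ L : c.Idx, Finite (c.NL L).V) :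
    (cT c).EvInj := by
  intro L x hx
  induction x using QuotientAddGroup.induction_on with
  | H f' =>
    have := hfin L
    have hx' : (QuotientAddGroup.mk (f' ≫ inclC1 c.D L.1) :
        H957.TQ (N := c.NL L) (fun q : S => c.D.j L.1 q.1)) = 0 := hx
    obtain ⟨L₁, hL₁, hev⟩ :=
      lim2_evInj_TQ hD (c.NL L) (nsmul_NL_eq_zero c L) f' hx'
    refine ⟨⟨L₁, L.2.trans hL₁⟩, hL₁, ?_⟩
    obtain ⟨g, hg⟩ := hev L₁ hL₁ le_rfl (c.NL ⟨L₁, L.2.trans hL₁⟩)
      (c.ν (L := L) (L' := ⟨L₁, L.2.trans hL₁⟩) hL₁)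
    exact (QuotientAddGroup.eq_zero_iff
      (trA (Level.proj hL₁) (c.ν (L := L) (L' := ⟨L₁, L.2.trans hL₁⟩) hL₁)
        (trC1 c.h7 hL₁) f')).2 ⟨g, hg.symm⟩

/-- **LIM2 (cokernel part): `c : T' → T` is eventually surjective** (uses GD5b). -/
theorem cT_evSurj (hD : c.D.IsGoodFin p) (hfin : ∀ L : c.Idx, Finite (c.NL L).V) :
    (cT c).EvSurj := by
  intro L y
  induction y using QuotientAddGroup.induction_on with
  | H f =>
    have := hfin L
    obtain ⟨L₁, hL₁, hev⟩ :=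
      lim2_evSurj_TQ (Fact.out : p.Prime) hD (c.NL L) (nsmul_NL_eq_zero c L) f
    refine ⟨⟨L₁, L.2.trans hL₁⟩, hL₁, ?_⟩
    obtain ⟨f', hf'⟩ := hev L₁ hL₁ le_rfl (c.NL ⟨L₁, L.2.trans hL₁⟩)
      (c.ν (L := L) (L' := ⟨L₁, L.2.trans hL₁⟩) hL₁)
    exact ⟨QuotientAddGroup.mk f', hf'⟩

end

end Fermat.Agent.S55.E1.H719

end
-- ===== PACK-END S55/E1/H719/Lim2Sys.lean

-- ===== PACK-BEGIN S55/E1/H719/Lim12.lean
section




/-!
# S55 engine E1, block LIM: the producers `lim1 : LIM1Spec` and `lim2 : LIM2Spec` — helper719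

Exact Specs of `E1/SpecLim.lean`.
* `lim1` : `∂ : T' → K` (`dT`, ALG3 + ALG10-∂ + LIM-SES) is a level-wise bijective morphism of
  systems;
* `lim2` : `T' → T` (`cT`, composition with `C'(F) ⊆ C(F)`) is eventually injective (GD5, ALG2)
  and eventually surjective (GD5b).
-/

set_option autoImplicit false

namespace Fermat.Agent.S55.E1.H719

open Fermat.Agent.S55.Tow Fermat.Agent.S55.E1 Fermat.Agent.S55.E1.Lim

/-- For a good context, all the coefficient modules `N_F` are finite. -/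
lemma finite_NL_of_good {S : Finset Nat.Primes} {p : ℕ} [Fact p.Prime] (c : Ctx S p)
    (hc : c.Good) (L : c.Idx) : Finite (c.NL L).V := by
  have : Module.Finite (ZMod p) c.M := hc.fin
  have : Module.Finite (ZMod p) (Module.Dual (ZMod p) c.M) := inferInstance
  have : Finite (Module.Dual (ZMod p) c.M) := Module.finite_of_finite (ZMod p)
  have : Finite c.N.V := ‹Finite (Module.Dual (ZMod p) c.M)›
  exact finite_NL c L

/-- **LIM1.** -/
theorem lim1 : LIM1Spec := fun _ _ _ c hc =>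
  ⟨dT c ⟨_, hc.hpS⟩ (finite_NL_of_good c hc),
    dT_levelBij c ⟨_, hc.hpS⟩ (finite_NL_of_good c hc)⟩

/-- **LIM2.** -/
theorem lim2 : LIM2Spec := fun _ _ _ c hc =>
  ⟨cT c, cT_evInj c hc.good.good (finite_NL_of_good c hc),
    cT_evSurj c hc.good (finite_NL_of_good c hc)⟩

end Fermat.Agent.S55.E1.H719

end
-- ===== PACK-END S55/E1/H719/Lim12.lean

-- ===== PACK-BEGIN S55/E1/H957/Lim3Sys.lean
section
/-
S55 engine E1 (helper957): LIM3 + LIM4-glue ON THE SYSTEM `c.sysT` of `E1/Lim/Sys.lean`.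

For a context `c : Lim.Ctx S p` whose base level is HIGH (`Ctx.IsHigh`: above a level `L₀ ⊇ μ_p`
trivialising `N`, and above the level `L₁` of GD6 for `L₀`):
* `sysT_card`         : `T_L` is finite and `|T_L| = |Ш¹_fin(L)|`, `Ш¹_fin(L) = shaFin (decHom) N_L`;
* `sysT_tr_injective` : the transition maps of `c.sysT` are injective;
* `card_shaFin_eq`    : `|shaFin (decHom) (toInt (coeff A L))| = |H603.sha1Fin A L|` (coefficients
                        `ℤ` versus `K`);
* `sysT_card_eq`      : `|T_L| = |sha₁ S N|` if moreover `|sha1Fin N L| = |sha₁ S N|` above the base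
                        (LIM4, `H603.exists_level_forall_card_sha1Fin_eq`);
* `exists_isHigh`     : every level lies below a level `L₂` such that every context with base
                        `≥ L₂` is high and satisfies the hypothesis of `sysT_card_eq`.
These are the hypotheses `hT_card`, `hT_inj` of `E1.card_colim_eq` with `s = |sha₁ S N|`.
-/





set_option autoImplicit false
set_option linter.style.haveILetI false

open CategoryTheory groupCohomology ExtCitation

namespace Fermat.Agent.S55.E1.H957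

open Fermat.Agent.S55.E1 Fermat.Agent.S55.Tow Fermat.Agent.S55.E1.Lim

noncomputable section

/-! ## Coefficients `ℤ` versus `K`: the finite-level `Ш¹` -/

section Bridge

variable {S : Finset Nat.Primes} {K : Type} [Field K] (A : Rep.{0, 0, 0} K GQ)

/-- `Ш¹_fin` with `ℤ`-coefficients corresponds to `H603.sha1Fin` under `H603.H1IntEquiv`. -/
theorem mem_shaFin_iff (L : Level S) (x : groupCohomology (cf A L) 1) :
    x ∈ shaFin (fun q : S => L.decHom q.1) (cf A L) ↔
      H603.H1IntEquiv (H603.coeff A L) x ∈ H603.sha1Fin A L := by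
  simp only [H603.sha1Fin, Submodule.mem_iInf, LinearMap.mem_ker]
  refine forall_congr' fun q => ?_
  have h1 := H603.H1IntEquiv_map (A := H603.coeff A L)
    (B := Rep.res (L.decHom q.1) (H603.coeff A L))
    (L.decHom q.1) (𝟙 (Rep.res (L.decHom q.1) (H603.coeff A L))) x
  have h2 : H603.toIntHom (L.decHom q.1) (𝟙 (Rep.res (L.decHom q.1) (H603.coeff A L))) =
      𝟙 (Rep.res (L.decHom q.1) (cf A L)) := by
    apply Rep.hom_ext
    apply DFunLike.ext
    intro a
    rfl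
  have key : H603.H1IntEquiv (Rep.res (L.decHom q.1) (H603.coeff A L))
      ((groupCohomology.map (L.decHom q.1) (𝟙 (Rep.res (L.decHom q.1) (cf A L))) 1).hom x) =
      (groupCohomology.map (L.decHom q.1)
        (𝟙 (Rep.res (L.decHom q.1) (H603.coeff A L))) 1).hom
        (H603.H1IntEquiv (H603.coeff A L) x) :=
    (congrArg (fun φ => H603.H1IntEquiv (Rep.res (L.decHom q.1) (H603.coeff A L))
      ((groupCohomology.map (L.decHom q.1) φ 1).hom x)) h2).symm.trans h1
  constructor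
  · intro hx
    have hx' : (groupCohomology.map (L.decHom q.1) (𝟙 (Rep.res (L.decHom q.1) (cf A L))) 1).hom x
        = 0 := hx
    exact key.symm.trans ((congrArg
      (H603.H1IntEquiv (Rep.res (L.decHom q.1) (H603.coeff A L))) hx').trans (map_zero _))
  · intro hx
    have hx' : (groupCohomology.map (L.decHom q.1)
      (𝟙 (Rep.res (L.decHom q.1) (H603.coeff A L))) 1).hom
        (H603.H1IntEquiv (H603.coeff A L) x) = 0 := hx
    exact (H603.H1IntEquiv (Rep.res (L.decHom q.1) (H603.coeff A L))).injective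
      ((key.trans hx').trans (map_zero _).symm)

/-- `|Ш¹_fin|` does not depend on the coefficient ring. -/
theorem card_shaFin_eq (L : Level S) :
    Nat.card (shaFin (fun q : S => L.decHom q.1) (cf A L)) = Nat.card (H603.sha1Fin A L) := by
  refine Nat.card_congr
    { toFun := fun x => ⟨H603.H1IntEquiv (H603.coeff A L) x.1, (_root_.Fermat.Agent.S55.E1.H957.mem_shaFin_iff A L x.1).1 x.2⟩
      invFun := fun y => ⟨(H603.H1IntEquiv (H603.coeff A L)).symm y.1,
        (_root_.Fermat.Agent.S55.E1.H957.mem_shaFin_iff A L _).2 (by rw [AddEquiv.apply_symm_apply]; exact y.2)⟩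
      left_inv := fun x => Subtype.ext (AddEquiv.symm_apply_apply _ _)
      right_inv := fun y => Subtype.ext (AddEquiv.apply_symm_apply _ _) }

end Bridge

/-! ## LIM3 on `c.sysT` -/

section Sys

variable {S : Finset Nat.Primes} {p : ℕ} [Fact p.Prime] (c : Ctx S p)

/-- The base level of `c` is HIGH over `L₀`: `L₀ ⊇ μ_p` trivialises `N`, `L₀ ≤ c.base`, and for
all `L ≥ c.base` the norms from `Gal(L/L₀)` on `C(L)` are `p`-th multiples of invariants
(the conclusion of GD6 for `L₀`). -/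
structure IsHighOver (L₀ : Level S) : Prop where
  le : L₀ ≤ c.base
  hμ : L₀.HasMu p
  triv : ∀ s ∈ L₀.U, ∀ n : c.N, c.N.ρ s n = n
  norm : ∀ (L : Level S) (h : L₀ ≤ L), c.base ≤ L →
    @NormInP p L.Gal _ (Level.relGal h) (Fintype.ofFinite _) (c.D.C L)

variable {c}

/-- `N_L` is killed by `p`. -/
lemma nsmul_NL (L : c.Idx) (n : (c.NL L).V) : p • n = 0 :=
  ZModModule.char_nsmul_eq_zero (G := (H603.coeff c.N L.1).V) p n

/-- `N_L` is finite if `N` is. -/
lemma finite_NL_of [Finite c.N.V] (L : c.Idx) : Finite (c.NL L).V :=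
  Finite.of_injective (cfVal c.N (L := L.1)) (cfVal_injective c.N)

/-- `Gal(L/L₀)` acts trivially on `N_L`. -/
lemma relGal_triv_NL {L₀ : Level S} (hh : IsHighOver c L₀) (L : c.Idx) :
    ∀ g ∈ Level.relGal (hh.le.trans L.2), ∀ n : (c.NL L).V, (c.NL L).ρ g n = n := by
  intro g
  induction g using QuotientGroup.induction_on with
  | H s =>
    intro hg n
    have hs : s ∈ L₀.U := by
      have h1 : Level.proj (hh.le.trans L.2) (QuotientGroup.mk s) = 1 := hg
      rw [Level.proj_mk, QuotientGroup.eq_one_iff] at h1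
      exact h1
    apply cfVal_injective c.N
    rw [cfVal_ρ]
    exact hh.triv s hs _

/-- The conclusions of ALG8 at every level of a high context. -/
theorem alg8_sys (hD : c.D.IsGoodMu p) (hT : TateNakayamaAtSpec) (hLoc : LocalSpec p)
    [Finite c.N.V] {L₀ : Level S} (hh : IsHighOver c L₀) (L : c.Idx) :
    (∀ f : homA (c.NL L) (c.D.C L.1),
      (∀ x, IsLocTriv (fun q : S => L.1.decHom q.1) (c.NL L) x → pair f x = 0) ↔
        IsLocSum (c.jS L) f) ∧
    (∀ χ : groupCohomology (c.NL L) 1 →+ groupCohomology (c.D.C L.1) 2,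
      ∃ f : homA (c.NL L) (c.D.C L.1),
        ∀ x, IsLocTriv (fun q : S => L.1.decHom q.1) (c.NL L) x → pair f x = χ x) ∧
    Finite (shaFin (fun q : S => L.1.decHom q.1) (c.NL L)) ∧
    Nat.card (shaFin (fun q : S => L.1.decHom q.1) (c.NL L) →+ groupCohomology (c.D.C L.1) 2) =
      Nat.card (shaFin (fun q : S => L.1.decHom q.1) (c.NL L)) := by
  letI : Fintype L.1.Gal := Fintype.ofFinite _
  haveI : (Level.relGal (hh.le.trans L.2)).Normal := MonoidHom.normal_ker _
  have hμ : L.1.HasMu p := hh.hμ.mono (hh.le.trans L.2)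
  choose γX hγX using fun q : S => hLoc.1 S L.1 q.1
  exact @alg8 p (Fact.out : p.Prime) L.1.Gal _ _ (c.NL L) (c.D.C L.1) (c.D.γ L.1)
    (finite_NL_of L) (nsmul_NL L) (hD.gd1 L.1 hμ) hT
    (Level.relGal (hh.le.trans L.2)) _ (Fintype.ofFinite _) (relGal_triv_NL hh L)
    (hh.norm L.1 (hh.le.trans L.2) L.2)
    S _ (fun q => L.1.Dec q.1) _ _ (fun q => L.1.decHom q.1)
    (fun q => L.1.decHom_injective q.1)
    (fun q => L.1.locUnits q.1) γX (c.jS L) hγX
    (fun q y => hD.gd3 L.1 hμ q.1 q.2 y)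

/-- **LIM3 (count)**: `T_L` is finite and `|T_L| = |Ш¹_fin(L)|`, at every level of a high
context. -/
theorem sysT_card (hD : c.D.IsGoodMu p) (hT : TateNakayamaAtSpec) (hLoc : LocalSpec p)
    [Finite c.N.V] {L₀ : Level S} (hh : IsHighOver c L₀) (L : c.Idx) :
    Finite (c.sysT.obj L) ∧
      Nat.card (c.sysT.obj L) = Nat.card (shaFin (fun q : S => L.1.decHom q.1) (c.NL L)) := by
  obtain ⟨ha, hb, hfin, hcard⟩ := alg8_sys hD hT hLoc hh L
  exact card_TQ_of (Fact.out : p.Prime) (fun q : S => L.1.decHom q.1) (nsmul_NL L)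
    (fun q : S => L.1.locUnits q.1) (c.jS L) ha hb hfin hcard

/-- **LIM3 (injectivity)**: the transition maps of `c.sysT` are injective, for a high
context. -/
theorem sysT_tr_injective (hD : c.D.IsGoodMu p) (hT : TateNakayamaAtSpec) (hLoc : LocalSpec p)
    [Finite c.N.V] {L₀ : Level S} (hh : IsHighOver c L₀) {L L' : c.Idx} (h : L ≤ L') :
    Function.Injective (c.sysT.tr h) := by
  obtain ⟨ha, -, -, -⟩ := alg8_sys hD hT hLoc hh L
  obtain ⟨ha', -, -, -⟩ := alg8_sys hD hT hLoc hh L'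
  have hμ : L.1.HasMu p := hh.hμ.mono (hh.le.trans L.2)
  exact trT_injective (c.π h) (c.νIso h) (fun q : S => L.1.decHom q.1)
    (fun q : S => L'.1.decHom q.1) (c.D.tr h) (c.jS L) (c.jS L')
    (fun q : S => Level.trJ h q.1) (nsmul_NL L) (c.sq h)
    (fun f hf => (ha f).1 hf) (fun f' hf' => (ha' f').2 hf')
    (isLocTriv_inf (c.π h) (c.νIso h) (fun q : S => L.1.decHom q.1)
      (fun q : S => L'.1.decHom q.1) (fun q : S => Level.projDec h q.1)
      (fun q d => (Level.proj_decHom h q.1 d).symm))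
    (fun z hz hz0 => hD.gd8 h hμ z hz hz0)

/-- **LIM3 + LIM4**: `|T_L| = |sha₁ S N|` at every level of a high context above the level of
LIM4. -/
theorem sysT_card_eq (hD : c.D.IsGoodMu p) (hT : TateNakayamaAtSpec) (hLoc : LocalSpec p)
    [Finite c.N.V] {L₀ : Level S} (hh : IsHighOver c L₀)
    (hsha : ∀ L : Level S, c.base ≤ L →
      Nat.card (H603.sha1Fin c.N L) = Nat.card (sha₁ S c.N)) (L : c.Idx) :
    Nat.card (c.sysT.obj L) = Nat.card (sha₁ S c.N) :=
  ((sysT_card hD hT hLoc hh L).2.trans (_root_.Fermat.Agent.S55.E1.H957.card_shaFin_eq c.N L.1)).trans (hsha L.1 L.2)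

end Sys

/-! ## Existence of high levels -/

section High

variable {S : Finset Nat.Primes} {p : ℕ} [Fact p.Prime]

/-- **GD6 + LIM4**: above every level `L₀ ⊇ μ_p` trivialising `N` there is a level `L₂` such that
for all `L ≥ L₂` the norm condition of GD6 holds and `|Ш¹_fin(L)| = |sha₁ S N|`. -/
theorem exists_high_level {D : TowerDatum S} (hD : D.IsGoodMu p)
    (N : Rep.{0, 0, 0} (ZMod p) GQ) (h2 : (2 : ZMod p) ≠ 0) [Finite (sha₁ S N)]
    (L₀ : Level S) (hμ : L₀.HasMu p) (hN : ∀ s ∈ L₀.U, ∀ n : N, N.ρ s n = n) :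
    ∃ L₂ : Level S, L₀ ≤ L₂ ∧
      (∀ (L : Level S) (h : L₀ ≤ L), L₂ ≤ L →
        @NormInP p L.Gal _ (Level.relGal h) (Fintype.ofFinite _) (D.C L)) ∧
      (∀ L : Level S, L₂ ≤ L → Nat.card (H603.sha1Fin N L) = Nat.card (sha₁ S N)) := by
  obtain ⟨L₁, h01, hnorm⟩ := hD.gd6 L₀ hμ
  obtain ⟨L₂, h12, hsha⟩ := H603.exists_level_forall_card_sha1Fin_eq N h2 L₁
    (fun s hs n => hN s (Level.U_anti h01 hs) n)
  exact ⟨L₂, h01.trans h12, fun L h hL => hnorm L h (h12.trans hL), hsha⟩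

/-- A context over a good datum whose base level is above `L₂` of `exists_high_level` is high. -/
theorem isHighOver_of (c : Ctx S p) {L₀ : Level S} (hle : L₀ ≤ c.base) (hμ : L₀.HasMu p)
    (hN : ∀ s ∈ L₀.U, ∀ n : c.N, c.N.ρ s n = n)
    (hnorm : ∀ (L : Level S) (h : L₀ ≤ L), c.base ≤ L →
      @NormInP p L.Gal _ (Level.relGal h) (Fintype.ofFinite _) (c.D.C L)) :
    IsHighOver c L₀ :=
  ⟨hle, hμ, hN, hnorm⟩

/-- The context over a datum good above `μ_p`, a module `M` and a base level trivialising `M`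
and `N = M^∨(1)`. -/
def ctxAt {D : TowerDatum S} (hD : D.IsGoodMu p) (M : Rep.{0, 0, 0} (ZMod p) GQ)
    (base : Level S) (hM : ∀ s ∈ base.U, ∀ m : M, M.ρ s m = m)
    (hN : ∀ s ∈ base.U, ∀ n : M.dualTwist (cycloChar p), (M.dualTwist (cycloChar p)).ρ s n = n) :
    Ctx S p where
  D := D
  M := M
  base := base
  h7 := fun h q hq x => hD.gd7a h q hq x
  h7b := fun h h' x => hD.gd7b h h' x
  h4 := hD.gd4
  hM := hM
  hN := hN

/-- **LIM3 + LIM4 + GD6, final form**: above every level `L₀ ⊇ μ_p` trivialising `N` there is a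
level `L₂` such that for every base level `≥ L₂` (trivialising `M`) the system `T` of the
context `ctxAt` has constant cardinality `|sha₁ S N|` and injective transition maps
(the hypotheses `hT_card`, `hT_inj` of `E1.card_colim_eq`). -/
theorem exists_level_sysT {D : TowerDatum S} (hD : D.IsGoodMu p) (hT : TateNakayamaAtSpec)
    (hLoc : LocalSpec p) (M : Rep.{0, 0, 0} (ZMod p) GQ) (h2 : (2 : ZMod p) ≠ 0)
    [Finite (M.dualTwist (cycloChar p)).V] [Finite (sha₁ S (M.dualTwist (cycloChar p)))]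
    (L₀ : Level S) (hμ : L₀.HasMu p)
    (hN : ∀ s ∈ L₀.U, ∀ n : M.dualTwist (cycloChar p),
      (M.dualTwist (cycloChar p)).ρ s n = n) :
    ∃ L₂ : Level S, L₀ ≤ L₂ ∧ ∀ (base : Level S), L₂ ≤ base →
      ∀ (hM' : ∀ s ∈ base.U, ∀ m : M, M.ρ s m = m)
      (hN' : ∀ s ∈ base.U, ∀ n : M.dualTwist (cycloChar p),
        (M.dualTwist (cycloChar p)).ρ s n = n),
      (∀ L : (ctxAt hD M base hM' hN').Idx,
        Nat.card ((ctxAt hD M base hM' hN').sysT.obj L) =
          Nat.card (sha₁ S (M.dualTwist (cycloChar p)))) ∧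
      (∀ {L L' : (ctxAt hD M base hM' hN').Idx} (h : L ≤ L'),
        Function.Injective ((ctxAt hD M base hM' hN').sysT.tr h)) := by
  obtain ⟨L₂, h02, hnorm, hsha⟩ :=
    exists_high_level hD (M.dualTwist (cycloChar p)) h2 L₀ hμ hN
  refine ⟨L₂, h02, fun base hb hM' hN' => ?_⟩
  have hh : IsHighOver (ctxAt hD M base hM' hN') L₀ :=
    ⟨h02.trans hb, hμ, hN, fun L h hL => hnorm L h (hb.trans hL)⟩
  haveI : Finite (ctxAt hD M base hM' hN').N.V :=
    (inferInstance : Finite (M.dualTwist (cycloChar p)).V)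
  exact ⟨fun L => sysT_card_eq (c := ctxAt hD M base hM' hN') hD hT hLoc hh
      (fun L hL => hsha L (hb.trans hL)) L,
    fun {L L'} h => sysT_tr_injective (c := ctxAt hD M base hM' hN') hD hT hLoc hh h⟩

end High

end

end Fermat.Agent.S55.E1.H957

end
-- ===== PACK-END S55/E1/H957/Lim3Sys.lean

-- ===== PACK-BEGIN S55/E1/H957/Lim3.lean
section
/-
S55 engine E1 (helper957): **LIM3** — producer of `Lim.LIM3Spec` (`E1/SpecLim.lean`).
`|T_F| = |sha₁ S N|` and the transition maps of `c.sysT` are injective, for every good context.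
Proof: `H957.sysT_card`, `H957.sysT_tr_injective` (ALG8, ALG10P + gd1, gd3, gd8, GD6, LocalSpec).
-/



set_option autoImplicit false
set_option linter.style.haveILetI false

open CategoryTheory groupCohomology ExtCitation

namespace Fermat.Agent.S55.E1.H957

open Fermat.Agent.S55.E1 Fermat.Agent.S55.Tow Fermat.Agent.S55.E1.Lim

/-- `N = M^∨(1)` is finite if `M` is finite-dimensional over `𝔽_p`. -/
lemma finite_N_of_good {S : Finset Nat.Primes} {p : ℕ} [Fact p.Prime] (c : Ctx S p)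
    (hc : c.Good) : Finite c.N.V := by
  haveI := hc.fin
  haveI : Module.Finite (ZMod p) (Module.Dual (ZMod p) c.M) := inferInstance
  haveI : Module.Finite (ZMod p) c.N.V :=
    inferInstanceAs (Module.Finite (ZMod p) (Module.Dual (ZMod p) c.M))
  exact Module.finite_of_finite (ZMod p)

/-- A good context is high over the level `L₀` of `Good.norm`. -/
lemma exists_isHighOver {S : Finset Nat.Primes} {p : ℕ} [Fact p.Prime] (c : Ctx S p)
    (hc : c.Good) : ∃ L₀ : Level S, IsHighOver c L₀ := by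
  obtain ⟨L₀, h₀, hμ, htriv, hnorm⟩ := hc.norm
  exact ⟨L₀, ⟨h₀, hμ, htriv, fun L _ hL => hnorm L hL⟩⟩

/-- **LIM3.** -/
theorem lim3 : LIM3Spec := by
  intro p _ S c hc
  haveI := finite_N_of_good c hc
  obtain ⟨L₀, hh⟩ := exists_isHighOver c hc
  refine ⟨fun L => ?_, fun {L L'} h => ?_⟩
  · exact (sysT_card hc.good.good hc.tn hc.loc hh L).2.trans (hc.sha1 L)
  · exact sysT_tr_injective hc.good.good hc.tn hc.loc hh h

end Fermat.Agent.S55.E1.H957

end
-- ===== PACK-END S55/E1/H957/Lim3.lean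

-- ===== PACK-BEGIN S55/E1/H603/Lim5Defs.lean
section
/-
S55 / engine E1 / block LIM, leaf LIM5 (helper603): DEFINITIONS of the morphism `e : Ш² → K`
on helper474's systems (`E1/Lim/Sys.lean`), and the four statements from which
`∃ e : AddSys.Hom c.sysSh c.sysK, e.EvInj ∧ e.EvSurj` follows (`lim5_of_specs`).

* `edgeFun N X : H²(G, Hom_ℤ(N, X)) →+ 𝔈²(X)` : the edge map as a function (ALG9),
  `isEdge_edgeFun`, `edgeFun_eq`, `edgeFun_tr` (ALG10Edge);
* `cfEquiv`, `theta c hμ L : M_L ⟶ Hom_ℤ(N_L, E(F))` (helper295's `evalHom` on the `cf` models),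
  `theta_bijective`, `thetaH2`, `thetaH2_bijective`;
* `eFun c hμ L : H²(Gal(F/ℚ), M^{U_F}) →+ 𝔈²_F(E)`;
* `Lim5iSpec`, `Lim5iiSpec`, `Lim5iiiSpec`, `Lim5CompatSpec`, `lim5_of_specs`.
No sorry.
-/






set_option autoImplicit false

open CategoryTheory CategoryTheory.Limits groupCohomology ExtCitation

namespace Fermat.Agent.S55.E1.H603

open Fermat.Agent.S55.E1 Fermat.Agent.S55.Tow Fermat.Agent.S55.E1.Lim

noncomputable section

/-! ### The edge map as a function -/

section Edge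

variable {G G' : Type} [Group G] [Finite G] [Group G'] [Finite G']

/-- `δ' : H¹(G, 𝔹) ≃ H²(G, Hom_ℤ(N, X))` (ALG9). -/
def edgeδEquiv (N X : Rep.{0} ℤ G) :
    groupCohomology (edgeB N X) 1 ≃+ groupCohomology ((Rep.ihom N).obj X) 2 :=
  AddEquiv.ofBijective (edgeδ N X).toAddMonoidHom (H895.Final.alg9 G N X)

theorem edgeδEquiv_apply (N X : Rep.{0} ℤ G) (b : groupCohomology (edgeB N X) 1) :
    edgeδEquiv N X b = edgeδ N X b := rfl

/-- The edge map `e = incl_* ∘ δ'⁻¹ : H²(G, Hom_ℤ(N, X)) → 𝔈²(X)`. -/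
def edgeFun (N X : Rep.{0} ℤ G) : groupCohomology ((Rep.ihom N).obj X) 2 →+ E2 N X :=
  (edgeIncl N X).toAddMonoidHom.comp (edgeδEquiv N X).symm.toAddMonoidHom

theorem isEdge_edgeFun {N X : Rep.{0} ℤ G} (x : groupCohomology ((Rep.ihom N).obj X) 2) :
    IsEdge x (edgeFun N X x) :=
  ⟨(edgeδEquiv N X).symm x, (edgeδEquiv N X).apply_symm_apply x, rfl⟩

theorem edgeFun_eq {N X : Rep.{0} ℤ G} {x : groupCohomology ((Rep.ihom N).obj X) 2}
    {y : E2 N X} (h : IsEdge x y) : edgeFun N X x = y :=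
  isEdge_unique H895.Final.alg9 (isEdge_edgeFun x) h

theorem isEdge_iff {N X : Rep.{0} ℤ G} {x : groupCohomology ((Rep.ihom N).obj X) 2}
    {y : E2 N X} : IsEdge x y ↔ edgeFun N X x = y :=
  ⟨edgeFun_eq, fun h => h ▸ isEdge_edgeFun x⟩

/-- The edge map commutes with the transition maps (ALG10Edge). -/
theorem edgeFun_tr (π : G' →* G) {N : Rep.{0} ℤ G} {N' : Rep.{0} ℤ G'} (ν : N' ⟶ Rep.res π N)
    {X : Rep.{0} ℤ G} {X' : Rep.{0} ℤ G'} (ι : Rep.res π X ⟶ X')
    (x : groupCohomology ((Rep.ihom N).obj X) 2) :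
    edgeFun N' X' ((groupCohomology.map π (trIhom π ν ι) 2).hom x) =
      trE2 π ν ι (edgeFun N X x) :=
  edgeFun_eq (isEdge_tr_of H895.Final.alg10Edge π ν ι (isEdge_edgeFun x))

end Edge

/-! ### The bidual isomorphism on the `cf` models -/

section Theta

variable {S : Finset Nat.Primes}

/-- `(A^{U_F})` is all of `A` when `U_F` acts trivially. -/
def cfEquiv {K : Type} [Field K] (A : Rep.{0, 0, 0} K GQ) (L : Level S)
    (hA : ∀ s ∈ L.U, ∀ a : A, A.ρ s a = a) : (cf A L).V ≃+ A.V where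
  toFun := cfVal A
  invFun := cfMk A hA
  left_inv _ := cfVal_injective A rfl
  right_inv _ := rfl
  map_add' _ _ := rfl

@[simp] theorem cfEquiv_apply {K : Type} [Field K] (A : Rep.{0, 0, 0} K GQ) (L : Level S)
    (hA : ∀ s ∈ L.U, ∀ a : A, A.ρ s a = a) (a : (cf A L).V) :
    cfEquiv A L hA a = cfVal A a := rfl

variable {p : ℕ} [Fact p.Prime] (c : Ctx S p) (hμ : c.base.HasMu p)

include hμ in
theorem hasMu_at (L : c.Idx) : L.1.HasMu p := hμ.mono L.2

theorem evalCompat_cf (L : c.Idx) :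
    H295.EvalCompat (c.ML L) (c.NL L) (sUnits L.1) c.M (cfEquiv c.M L.1 (c.hM_at L))
      (cfEquiv c.N L.1 (c.hN_at L)) (H295.muToSUnits L.1 (hasMu_at c hμ L)) := by
  intro γ
  induction γ using QuotientGroup.induction_on with
  | H σ =>
    exact ⟨σ, fun a => rfl, fun b => rfl,
      fun t => H295.muToSUnits_equivariant L.1 (hasMu_at c hμ L) σ t⟩

/-- `Θ_F : M_F ⟶ Hom_ℤ(N_F, E(F))`, `m ↦ (f ↦ ⟨m, f⟩ ∈ μ_p ⊂ E(F))`. -/
def theta (L : c.Idx) : c.ML L ⟶ (Rep.ihom (c.NL L)).obj (sUnits L.1) :=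
  H295.evalHom (evalCompat_cf c hμ L)

theorem theta_bijective [FiniteDimensional (ZMod p) c.M] (L : c.Idx) :
    Function.Bijective (theta c hμ L).hom :=
  H295.evalHom_bijective _ (H295.muToSUnits_injective L.1 (hasMu_at c hμ L))
    (H295.exists_muToSUnits_eq L.1 (hasMu_at c hμ L))

/-- `Θ_F` on `H²`: `H²(Gal(F/ℚ), M^{U_F}) → H²(Gal(F/ℚ), Hom_ℤ(N_F, E(F)))`. -/
def thetaH2 (L : c.Idx) :
    H2 (coeff c.M L.1) →+ groupCohomology ((Rep.ihom (c.NL L)).obj (sUnits L.1)) 2 :=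
  ((groupCohomology.map (MonoidHom.id L.1.Gal) (theta c hμ L) 2).hom.toAddMonoidHom).comp
    (H2IntEquiv (coeff c.M L.1)).symm.toAddMonoidHom

theorem thetaH2_bijective [FiniteDimensional (ZMod p) c.M] (L : c.Idx) :
    Function.Bijective (thetaH2 c hμ L) :=
  (map_bijective_of_bijective (theta c hμ L) (theta_bijective c hμ L) 2).comp
    (H2IntEquiv (coeff c.M L.1)).symm.bijective

/-- `e_F : H²(Gal(F/ℚ), M^{U_F}) → 𝔈²_F(E)`. -/
def eFun (L : c.Idx) : H2 (coeff c.M L.1) →+ E2 (c.NL L) (sUnits L.1) :=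
  (edgeFun (c.NL L) (sUnits L.1)).comp (thetaH2 c hμ L)

theorem isEdge_eFun (L : c.Idx) (x : H2 (coeff c.M L.1)) :
    IsEdge (thetaH2 c hμ L x) (eFun c hμ L x) := isEdge_edgeFun _

/-! ### The four statements of LIM5 -/

/-- **LIM5 (i).** `Ш²_F = e_F⁻¹(K_F)`. -/
def Lim5iSpec : Prop :=
  ∀ (L : c.Idx) (x : H2 (coeff c.M L.1)), x ∈ c.ShSub L ↔ eFun c hμ L x ∈ c.KSub L

/-- **LIM5 (ii).** `e_F(x) = 0 ⇒ x` dies at a higher level. -/
def Lim5iiSpec : Prop :=
  ∀ (L : c.Idx) (x : H2 (coeff c.M L.1)), eFun c hμ L x = 0 →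
    ∃ (L' : c.Idx) (h : L ≤ L'), tr₂ c.M (S := S) h x = 0

/-- **LIM5 (iii).** Every `y ∈ 𝔈²_F(E)` lies in the image of `e` at a higher level. -/
def Lim5iiiSpec : Prop :=
  ∀ (L : c.Idx) (y : E2 (c.NL L) (sUnits L.1)),
    ∃ (L' : c.Idx) (h : L ≤ L') (x' : H2 (coeff c.M L'.1)),
      eFun c hμ L' x' = trE2 (c.π h) (c.ν h) (trS h) y

/-- **LIM5 (compatibility).** `e` commutes with the transition maps. -/
def Lim5CompatSpec : Prop :=
  ∀ {L L' : c.Idx} (h : L ≤ L') (x : H2 (coeff c.M L.1)),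
    eFun c hμ L' (tr₂ c.M (S := S) h x) = trE2 (c.π h) (c.ν h) (trS h) (eFun c hμ L x)

/-- **LIM5, assembly.** -/
theorem lim5_of_specs (h1 : Lim5iSpec c hμ) (h2 : Lim5iiSpec c hμ) (h3 : Lim5iiiSpec c hμ)
    (h4 : Lim5CompatSpec c hμ) :
    ∃ e : AddSys.Hom c.sysSh c.sysK, e.EvInj ∧ e.EvSurj := by
  let app : ∀ L : c.Idx, c.sysSh.obj L →+ c.sysK.obj L := fun L =>
    { toFun := fun x => ⟨eFun c hμ L x.1, (h1 L x.1).1 x.2⟩
      map_zero' := Subtype.ext (map_zero (eFun c hμ L))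
      map_add' := fun x y => Subtype.ext (map_add (eFun c hμ L) x.1 y.1) }
  refine ⟨⟨app, fun {L L'} h x => Subtype.ext (h4 h x.1)⟩, ?_, ?_⟩
  · intro L x hx
    have hx0 : eFun c hμ L x.1 = 0 := congrArg Subtype.val hx
    obtain ⟨L', h, hL'⟩ := h2 L x.1 hx0
    exact ⟨L', h, Subtype.ext hL'⟩
  · intro L y
    obtain ⟨L', h, x', hx'⟩ := h3 L y.1
    have hK : eFun c hμ L' x' ∈ c.KSub L' := by
      rw [hx']
      exact c.trE2_mem_KSub h y.1 y.2
    exact ⟨L', h, ⟨x', (h1 L' x').2 hK⟩, Subtype.ext hx'⟩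

end Theta

end

end Fermat.Agent.S55.E1.H603

end
-- ===== PACK-END S55/E1/H603/Lim5Defs.lean

-- ===== PACK-BEGIN S55/E1/Lim/Final.lean
section
/-
S55 engine E1 — block LIM, FINAL WIRING (helper474).  All proofs complete.

`engineSpecFin_of_lim5 : LIM5Spec → EngineSpecFin` (all other leaves of `E1/SpecLim.lean` are
theorems on main: `limBase`, `lim4`, `H719.lim1`, `H719.lim2`, `H957.lim3`), and
`lim5Spec_of` : `LIM5Spec` from helper603's four statements (`E1/H603/Lim5Defs.lean`).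
-/






set_option autoImplicit false

open CategoryTheory groupCohomology ExtCitation

namespace Fermat.Agent.S55.E1.Lim

open Fermat.Agent.S55.Tow Fermat.Agent.S55.E1

/-- The four statements of LIM5 for all good contexts. -/
def LIM5PartsSpec : Prop :=
  ∀ (p : ℕ) [Fact p.Prime] (S : Finset Nat.Primes) (c : Ctx S p) (hc : c.Good),
    H603.Lim5iSpec c hc.mu ∧ H603.Lim5iiSpec c hc.mu ∧ H603.Lim5iiiSpec c hc.mu ∧
      H603.Lim5CompatSpec c hc.mu

/-- **LIM5** from its four parts. -/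
theorem lim5Spec_of (h : LIM5PartsSpec) : LIM5Spec := by
  intro p _ S c hc
  obtain ⟨h1, h2, h3, h4⟩ := h p S c hc
  exact H603.lim5_of_specs c hc.mu h1 h2 h3 (fun {L L'} hLL x => h4 hLL x)

/-- **The engine**, from LIM5 alone. -/
theorem engineSpecFin_of_lim5 (h5 : LIM5Spec) : EngineSpecFin :=
  engineSpecFin_of limBase lim4 H719.lim1 H719.lim2 H957.lim3 h5

/-- **The engine**, from the four parts of LIM5. -/
theorem engineSpecFin_of_parts (h : LIM5PartsSpec) : EngineSpecFin :=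
  engineSpecFin_of_lim5 (lim5Spec_of h)

end Fermat.Agent.S55.E1.Lim

end
-- ===== PACK-END S55/E1/Lim/Final.lean

-- ===== PACK-BEGIN S55/E1/H603/Lim5Compat.lean
section
/-
S55 / engine E1 / block LIM, leaf LIM5 (helper603): `e` commutes with the transition maps.

* `theta_tr` : `tr ∘ Θ_F = Θ_{F'} ∘ (M^{U_F} ⊆ M^{U_{F'}})`;
* `thetaH2_tr₂` : the same on `H²`;
* `lim5Compat : Lim5CompatSpec c hμ`.
No sorry.
-/


set_option autoImplicit false

open CategoryTheory CategoryTheory.Limits groupCohomology ExtCitation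

namespace Fermat.Agent.S55.E1.H603

open Fermat.Agent.S55.E1 Fermat.Agent.S55.Tow Fermat.Agent.S55.E1.Lim
open Fermat.Agent.S55.T.H719 (ihomLin)

noncomputable section

variable {S : Finset Nat.Primes} {p : ℕ} [Fact p.Prime] (c : Ctx S p) (hμ : c.base.HasMu p)

theorem theta_hom_apply (L : c.Idx) (m : (c.ML L).V) (n : (c.NL L).V) :
    ihomLin ((theta c hμ L).hom m) n =
      H295.muToSUnits L.1 (hasMu_at c hμ L)
        (Fermat.Agent.S55.Bridge.evalMuP c.M (cfVal c.M m) (cfVal c.N n)) := rfl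

theorem trS_muToSUnits {L L' : c.Idx} (h : L ≤ L') (t : Fermat.Agent.S55.Bridge.MuP p) :
    (trS (S := S) h).hom (H295.muToSUnits L.1 (hasMu_at c hμ L) t) =
      H295.muToSUnits L'.1 (hasMu_at c hμ L') t := by
  apply sIncl_injective L'.1
  rfl

/-- `tr ∘ Θ_F = Θ_{F'} ∘ (M^{U_F} ⊆ M^{U_{F'}})`. -/
theorem theta_tr {L L' : c.Idx} (h : L ≤ L') (m : (c.ML L).V) :
    (trIhom (c.π h) (c.ν h) (trS h)).hom ((theta c hμ L).hom m) =
      (theta c hμ L').hom ((cfμ c.M (S := S) h).hom m) := by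
  refine ihom_ext fun n' => ?_
  change (trS (S := S) h).hom (ihomLin ((theta c hμ L).hom m) ((c.ν h).hom n')) = _
  rw [theta_hom_apply, theta_hom_apply, trS_muToSUnits c hμ h]
  rfl

theorem H2IntEquiv_symm_mk {k G : Type} [CommRing k] [Group G] (A : Rep.{0, 0, 0} k G)
    (cc : cocycles₂ A) :
    (H2IntEquiv A).symm ((H2π A).hom cc) = (H2π (toInt A)).hom (cocToInt₂ A cc) := by
  rw [AddEquiv.symm_apply_eq, H2IntEquiv_mk]
  rfl

theorem thetaH2_mk (L : c.Idx) (cc : cocycles₂ (coeff c.M L.1)) :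
    thetaH2 c hμ L ((H2π (coeff c.M L.1)).hom cc) =
      (H2π ((Rep.ihom (c.NL L)).obj (sUnits L.1))).hom
        ((mapCocycles₂ (MonoidHom.id L.1.Gal) (theta c hμ L)).hom
          (cocToInt₂ (coeff c.M L.1) cc)) := by
  change (groupCohomology.map (MonoidHom.id L.1.Gal) (theta c hμ L) 2).hom
    ((H2IntEquiv (coeff c.M L.1)).symm ((H2π (coeff c.M L.1)).hom cc)) = _
  rw [H2IntEquiv_symm_mk]
  exact map_H2π (A := c.ML L) (B := (Rep.ihom (c.NL L)).obj (sUnits L.1))
    (MonoidHom.id L.1.Gal) (theta c hμ L) _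

/-- `Θ` on `H²` commutes with the transition maps. -/
theorem thetaH2_tr₂ {L L' : c.Idx} (h : L ≤ L') (x : H2 (coeff c.M L.1)) :
    thetaH2 c hμ L' (tr₂ c.M (S := S) h x) =
      (groupCohomology.map (c.π h) (trIhom (c.π h) (c.ν h) (trS h)) 2).hom
        (thetaH2 c hμ L x) := by
  induction x using H2_induction_on with | @h cc =>
  rw [tr₂_mk, thetaH2_mk, thetaH2_mk]
  rw [map_H2π (A := (Rep.ihom (c.NL L)).obj (sUnits L.1))
    (B := (Rep.ihom (c.NL L')).obj (sUnits L'.1)) (c.π h) (trIhom (c.π h) (c.ν h) (trS h))]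
  congr 1

/-- **LIM5 (compatibility).** -/
theorem lim5Compat : Lim5CompatSpec c hμ := by
  intro L L' h x
  change edgeFun (c.NL L') (sUnits L'.1) (thetaH2 c hμ L' (tr₂ c.M (S := S) h x)) = _
  rw [thetaH2_tr₂, edgeFun_tr]
  rfl

end

end Fermat.Agent.S55.E1.H603

end
-- ===== PACK-END S55/E1/H603/Lim5Compat.lean

-- ===== PACK-BEGIN S55/E1/H603/Lim5Loc.lean
section
/-
S55 / engine E1 / block LIM, leaf LIM5(i) (helper603): the localisation of `Θ(x)` at `q`.

For a level `F = L` of the context, `q` a prime and a finite Galois `F' ⊇ F` (a level `L'` for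
some `S' ⊇ S`):
* `embS L q : Res_{D_q} E(F) ⟶ F_qˣ`;  `xq c hμ L q x ∈ H²(D_q(F), Hom_ℤ(N, F_qˣ))`;
* `thetaLoc` : the local bidual map `Res M ⟶ Hom_ℤ(Res N, F'_qˣ)`, bijective;
* `locInf_xq` : `locInf (x_q) = Θ'_*(locInfl₂ x)`;
* `locInf_xq_eq_zero_iff` : `locInf (x_q) = 0 ↔ locInfl₂ x = 0` (`FinLevelLoc.lean`);
* `mem_ShSub_iff` : `x ∈ Ш²_F ↔ ∀ q ∈ S, x_q` dies at a higher local level.
No sorry.
-/





set_option autoImplicit false

open CategoryTheory CategoryTheory.Limits groupCohomology ExtCitation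

namespace Fermat.Agent.S55.E1.H603

open Fermat.Agent.S55.E1 Fermat.Agent.S55.Tow Fermat.Agent.S55.E1.Lim
open Fermat.Agent.S55.T.H719 (ihomLin)

noncomputable section

variable {S : Finset Nat.Primes}

/-- `E(F) → F_qˣ` as a morphism of `Gal(F_q/ℚ_q)`-modules. -/
def embS (L : Level S) (q : Nat.Primes) : Rep.res (L.decHom q) (sUnits L) ⟶ L.locUnits q :=
  flat (L.decHom q) (sIncl L ≫ L.diag q)

theorem embS_apply (L : Level S) (q : Nat.Primes) (e : (sUnits L).V) :
    (embS L q).hom e = L.embFun q ((sIncl L).hom e) := by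
  change L.embFun q (L.units.ρ 1 ((sIncl L).hom e)) = _
  rw [map_one]
  rfl

variable {p : ℕ} [Fact p.Prime] (c : Ctx S p) (hμ : c.base.HasMu p)

/-- `N_F` restricted to the decomposition group at `q`. -/
abbrev Nq (L : c.Idx) (q : Nat.Primes) : Rep.{0} ℤ (L.1.Dec q) := Rep.res (L.1.decHom q) (c.NL L)

/-- The localisation `x_q ∈ H²(D_q(F), Hom_ℤ(N, F_qˣ))` of `Θ(x)`. -/
def xq (L : c.Idx) (q : Nat.Primes) (x : H2 (coeff c.M L.1)) :
    groupCohomology ((Rep.ihom (Nq c L q)).obj (L.1.locUnits q)) 2 :=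
  (groupCohomology.map (L.1.decHom q)
    (trIhom (L.1.decHom q) (𝟙 (Nq c L q)) (embS L.1 q)) 2).hom (thetaH2 c hμ L x)

/-- The localisation `y_q ∈ 𝔈²_{D_q}(F_qˣ)` of `y ∈ 𝔈²_F(E)`. -/
def yq (L : c.Idx) (q : Nat.Primes) (y : E2 (c.NL L) (sUnits L.1)) :
    E2 (Nq c L q) (L.1.locUnits q) :=
  trE2 (L.1.decHom q) (𝟙 (Nq c L q)) (embS L.1 q) y

theorem isEdge_xq_yq (L : c.Idx) (q : Nat.Primes) (x : H2 (coeff c.M L.1)) :
    IsEdge (xq c hμ L q x) (yq c L q (eFun c hμ L x)) :=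
  isEdge_tr_of H895.Final.alg10Edge (L.1.decHom q) (𝟙 (Nq c L q)) (embS L.1 q)
    (isEdge_eFun c hμ L x)

/-! ### The local bidual map at a higher level -/

section Loc

variable (L : c.Idx) (q : Nat.Primes) {S' : Finset Nat.Primes} (hS : S ⊆ S') (L' : Level S')
  (h : Level.ofLE hS L.1 ≤ L')

include hμ h in
theorem hasMu_up : L'.HasMu p := by
  obtain ⟨ζ, hζ, hprim⟩ := hasMu_at c hμ L
  have hF : L.1.F ≤ L'.F := h
  exact ⟨ζ, hF hζ, hprim⟩

/-- `Gal(F'_q/ℚ_q) → Gal(F/ℚ)`. -/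
abbrev piLoc : L'.Dec q →* L.1.Gal := decToGal L.1 (nLevelOf L') h q

/-- `M^{U_F}` as a `Gal(F'_q/ℚ_q)`-module. -/
abbrev MLoc : Rep.{0} ℤ (L'.Dec q) := toInt (Rep.res (piLoc c L q hS L' h) (coeff c.M L.1))

/-- `N_F` as a `Gal(F'_q/ℚ_q)`-module. -/
abbrev NLoc : Rep.{0} ℤ (L'.Dec q) :=
  Rep.res (Level.projDec (L := Level.ofLE hS L.1) h q) (Nq c L q)

theorem evalCompat_loc :
    H295.EvalCompat (MLoc c L q hS L' h) (NLoc c L q hS L' h) (L'.locUnits q) c.M
      (cfEquiv c.M L.1 (c.hM_at L)) (cfEquiv c.N L.1 (c.hN_at L))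
      (H295.muToLoc L' q (hasMu_up c hμ L hS L' h)) := by
  intro γ
  induction γ using QuotientGroup.induction_on with
  | H τ =>
    exact ⟨locQ q τ, fun a => rfl, fun b => rfl,
      fun t => H295.muToLoc_equivariant L' q (hasMu_up c hμ L hS L' h) τ t⟩

/-- The local bidual map `Θ' : Res M_F ⟶ Hom_ℤ(Res N_F, F'_qˣ)`. -/
def thetaLoc : MLoc c L q hS L' h ⟶ (Rep.ihom (NLoc c L q hS L' h)).obj (L'.locUnits q) :=
  H295.evalHom (evalCompat_loc c hμ L q hS L' h)

theorem thetaLoc_bijective [FiniteDimensional (ZMod p) c.M] :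
    Function.Bijective (thetaLoc c hμ L q hS L' h).hom :=
  H295.evalHom_bijective _ (H295.muToLoc_injective L' q (hasMu_up c hμ L hS L' h))
    (H295.exists_muToLoc_eq L' q (hasMu_up c hμ L hS L' h))

/-- `Θ'` on `H²`. -/
def thetaLocH2 :
    H2 (Rep.res (piLoc c L q hS L' h) (coeff c.M L.1)) →+
      groupCohomology ((Rep.ihom (NLoc c L q hS L' h)).obj (L'.locUnits q)) 2 :=
  ((groupCohomology.map (MonoidHom.id (L'.Dec q)) (thetaLoc c hμ L q hS L' h)
      2).hom.toAddMonoidHom).comp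
    (H2IntEquiv (Rep.res (piLoc c L q hS L' h) (coeff c.M L.1))).symm.toAddMonoidHom

theorem thetaLocH2_bijective [FiniteDimensional (ZMod p) c.M] :
    Function.Bijective (thetaLocH2 c hμ L q hS L' h) :=
  (map_bijective_of_bijective (thetaLoc c hμ L q hS L' h)
    (thetaLoc_bijective c hμ L q hS L' h) 2).comp
    (H2IntEquiv (Rep.res (piLoc c L q hS L' h) (coeff c.M L.1))).symm.bijective

theorem thetaLocH2_mk (cc : cocycles₂ (Rep.res (piLoc c L q hS L' h) (coeff c.M L.1))) :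
    thetaLocH2 c hμ L q hS L' h ((H2π _).hom cc) =
      (H2π ((Rep.ihom (NLoc c L q hS L' h)).obj (L'.locUnits q))).hom
        ((mapCocycles₂ (MonoidHom.id (L'.Dec q)) (thetaLoc c hμ L q hS L' h)).hom
          (cocToInt₂ (Rep.res (piLoc c L q hS L' h) (coeff c.M L.1)) cc)) := by
  change (groupCohomology.map (MonoidHom.id (L'.Dec q)) (thetaLoc c hμ L q hS L' h) 2).hom
    ((H2IntEquiv (Rep.res (piLoc c L q hS L' h) (coeff c.M L.1))).symm ((H2π _).hom cc)) = _
  rw [H2IntEquiv_symm_mk]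
  exact map_H2π (A := MLoc c L q hS L' h)
    (B := (Rep.ihom (NLoc c L q hS L' h)).obj (L'.locUnits q))
    (MonoidHom.id (L'.Dec q)) (thetaLoc c hμ L q hS L' h) _

theorem thetaLoc_hom_apply (m : (MLoc c L q hS L' h).V) (n : (NLoc c L q hS L' h).V) :
    ihomLin ((thetaLoc c hμ L q hS L' h).hom m) n =
      H295.muToLoc L' q (hasMu_up c hμ L hS L' h)
        (Fermat.Agent.S55.Bridge.evalMuP c.M (cfVal c.M m) (cfVal c.N n)) := rfl

theorem trLoc_embS_muToSUnits (t : Fermat.Agent.S55.Bridge.MuP p) :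
    (Level.trLoc (L := Level.ofLE hS L.1) h q).hom
        ((embS L.1 q).hom (H295.muToSUnits L.1 (hasMu_at c hμ L) t)) =
      H295.muToLoc L' q (hasMu_up c hμ L hS L' h) t := by
  rw [embS_apply]
  apply L'.locCoe_injective q
  rfl

theorem piLoc_mk (τ : GQp q) :
    piLoc c L q hS L' h (QuotientGroup.mk τ) =
      L.1.decHom q (Level.projDec (L := Level.ofLE hS L.1) h q (QuotientGroup.mk τ)) := rfl

/-- **Comparison.** The local inflation of `x_q` is `Θ'` applied to the local inflation of `x`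
with coefficients in `M`. -/
theorem locInf_xq (x : H2 (coeff c.M L.1)) :
    locInf (L := Level.ofLE hS L.1) h q (Nq c L q) (xq c hμ L q x) =
      thetaLocH2 c hμ L q hS L' h (locInfl₂ c.M L.1 (nLevelOf L') h q x) := by
  induction x using H2_induction_on with | @h cc =>
  have e1 := locInfl₂_mk c.M L.1 (nLevelOf L') h q cc
  have e2 := thetaLocH2_mk c hμ L q hS L' h (locInflCoc₂ c.M L.1 (nLevelOf L') h q cc)
  have e3 := thetaH2_mk c hμ L cc
  have e4 := map_H2π (A := (Rep.ihom (c.NL L)).obj (sUnits L.1))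
    (B := (Rep.ihom (Nq c L q)).obj (L.1.locUnits q)) (L.1.decHom q)
    (trIhom (L.1.decHom q) (𝟙 (Nq c L q)) (embS L.1 q))
    ((mapCocycles₂ (MonoidHom.id L.1.Gal) (theta c hμ L)).hom (cocToInt₂ (coeff c.M L.1) cc))
  have e5 := map_H2π (A := (Rep.ihom (Nq c L q)).obj (L.1.locUnits q))
    (B := (Rep.ihom (NLoc c L q hS L' h)).obj (L'.locUnits q))
    (Level.projDec (L := Level.ofLE hS L.1) h q)
    (trIhom (Level.projDec (L := Level.ofLE hS L.1) h q) (𝟙 (NLoc c L q hS L' h))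
      (Level.trLoc (L := Level.ofLE hS L.1) h q))
    ((mapCocycles₂ (L.1.decHom q) (trIhom (L.1.decHom q) (𝟙 (Nq c L q)) (embS L.1 q))).hom
      ((mapCocycles₂ (MonoidHom.id L.1.Gal) (theta c hμ L)).hom
        (cocToInt₂ (coeff c.M L.1) cc)))
  have lhs : locInf (L := Level.ofLE hS L.1) h q (Nq c L q)
      (xq c hμ L q ((H2π (coeff c.M L.1)).hom cc)) = _ :=
    (congrArg (locInf (L := Level.ofLE hS L.1) h q (Nq c L q))
      ((congrArg (groupCohomology.map (L.1.decHom q)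
        (trIhom (L.1.decHom q) (𝟙 (Nq c L q)) (embS L.1 q)) 2).hom e3).trans e4)).trans e5
  have rhs : thetaLocH2 c hμ L q hS L' h
      (locInfl₂ c.M L.1 (nLevelOf L') h q ((H2π (coeff c.M L.1)).hom cc)) = _ :=
    (congrArg (thetaLocH2 c hμ L q hS L' h) e1).trans e2
  refine lhs.trans (Eq.trans ?_ rhs.symm)
  congr 1
  apply Subtype.ext
  funext ⟨d, d'⟩
  induction d using QuotientGroup.induction_on with | @H τ =>
  induction d' using QuotientGroup.induction_on with | @H τ' =>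
  refine ihom_ext fun n => ?_
  exact trLoc_embS_muToSUnits c hμ L q hS L' h _

/-- `x_q` dies at the local level `F'_q` iff the local inflation of `x` (coefficients in `M`)
vanishes. -/
theorem locInf_xq_eq_zero_iff [FiniteDimensional (ZMod p) c.M] (x : H2 (coeff c.M L.1)) :
    locInf (L := Level.ofLE hS L.1) h q (Nq c L q) (xq c hμ L q x) = 0 ↔
      locInfl₂ c.M L.1 (nLevelOf L') h q x = 0 := by
  rw [locInf_xq]
  constructor
  · intro h0
    exact (thetaLocH2_bijective c hμ L q hS L' h).1 (h0.trans (map_zero _).symm)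
  · intro h0
    rw [h0]
    exact map_zero _

end Loc

/-! ### `Ш²_F` in terms of the local inflation maps -/

theorem two_ne_zero_zmod (hp2 : p ≠ 2) : (2 : ZMod p) ≠ 0 := by
  intro h
  have h' : ((2 : ℕ) : ZMod p) = 0 := by exact_mod_cast h
  have hdvd : p ∣ 2 := (ZMod.natCast_eq_zero_iff 2 p).1 h'
  have hp : p.Prime := Fact.out
  exact hp2 ((Nat.prime_dvd_prime_iff_eq hp Nat.prime_two).1 hdvd)

/-- **`Ш²_F`, local description.** `x ∈ Ш²_F` iff for every `q ∈ S` the localisation `x_q` of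
`Θ(x)` dies in `H²(Gal(F'_q/ℚ_q), Hom_ℤ(N, F'_qˣ))` for some finite Galois `F' ⊇ F`. -/
theorem mem_ShSub_iff [FiniteDimensional (ZMod p) c.M] (hp2 : p ≠ 2) (L : c.Idx)
    (x : H2 (coeff c.M L.1)) :
    x ∈ c.ShSub L ↔ ∀ q : S, ∃ (S' : Finset Nat.Primes) (hS : S ⊆ S') (L' : Level S')
      (h : Level.ofLE hS L.1 ≤ L'),
      locInf (L := Level.ofLE hS L.1) h q.1 (Nq c L q.1) (xq c hμ L q.1 x) = 0 := by
  have h1 : x ∈ c.ShSub L ↔ infl₂ c.M L.1 x ∈ sha₂ S c.M := Iff.rfl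
  rw [h1, infl₂_mem_sha₂_iff c.M (two_ne_zero_zmod hp2) L.1 (c.hM_at L) x]
  refine forall_congr' fun q => ?_
  constructor
  · rintro ⟨N, h, hx⟩
    obtain ⟨S', hS, hur⟩ := exists_isUnramifiedOutside_ge S N.F N.fin
    let L' : Level S' := ⟨N.F, hur, N.normalU⟩
    have h' : Level.ofLE hS L.1 ≤ L' := h
    exact ⟨S', hS, L', h', (locInf_xq_eq_zero_iff c hμ L q.1 hS L' h' x).2 hx⟩
  · rintro ⟨S', hS, L', h, hx⟩
    exact ⟨nLevelOf L', h, (locInf_xq_eq_zero_iff c hμ L q.1 hS L' h x).1 hx⟩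

/-- `N_F` is finite. -/
theorem finite_Nq [FiniteDimensional (ZMod p) c.M] (L : c.Idx) (q : Nat.Primes) :
    Finite (Nq c L q).V := by
  haveI : Finite c.M.V := Module.finite_of_finite (ZMod p)
  haveI : Finite (Module.Dual (ZMod p) c.M.V) := Module.finite_of_finite (ZMod p)
  haveI : Finite c.N.V := inferInstanceAs (Finite (Module.Dual (ZMod p) c.M.V))
  exact H719.finite_NL c L

/-- **LIM5 (i)**, modulo the description of `K_F` by the local transition maps. -/
theorem lim5i_of_KSub [FiniteDimensional (ZMod p) c.M] (hp2 : p ≠ 2) (hLoc : LocalSpec p)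
    (hK : ∀ (L : c.Idx) (y : E2 (c.NL L) (sUnits L.1)),
      y ∈ c.KSub L ↔ ∀ q : S, yq c L q.1 y = 0) :
    Lim5iSpec c hμ := by
  intro L x
  rw [mem_ShSub_iff c hμ hp2 L x, hK L (eFun c hμ L x)]
  refine forall_congr' fun q => ?_
  exact (edge_eq_zero_iff_exists_locInf (Fact.out : p.Prime) hLoc L.1 q.1 (Nq c L q.1)
    (finite_Nq c L q.1) (H719.nsmul_NL_eq_zero c L) (isEdge_xq_yq c hμ L q.1 x)).symm

end

end Fermat.Agent.S55.E1.H603

end
-- ===== PACK-END S55/E1/H603/Lim5Loc.lean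

-- ===== PACK-BEGIN S55/E1/H719/Lim5K.lean
section



/-!
# S55 engine E1, block LIM, leaf LIM5-K — helper719

`K_F = ker (𝔈²_F(E) → 𝔈²_F(J))` in local terms: for `y ∈ 𝔈²_F(E)`,

  `y ∈ K_F  ↔  ∀ q ∈ S, tr_q y = 0` in `𝔈²_{D_q}(N|_{D_q}, F_qˣ)`,

where `tr_q = trE2 (decHom q) 𝟙 (E(F) → F_qˣ)` is the transition map along the decomposition
group for the standard presentations.

* `ihomH1Map_piLift_eq_zero_iff` : `H¹(G, Hom(R, ∏ A_i)) → ∏ H¹(G, Hom(R, A_i))` is injective
  (cocycle level; any index type);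
* `sEmb L q : Res (sUnits L) ⟶ L.locUnits q`, `flat_diag`;
* `mem_KSub_iff`, `mem_KSub_iff_sEmb`.
-/

set_option autoImplicit false

open CategoryTheory CategoryTheory.Limits groupCohomology

namespace Fermat.Agent.S55.E1.H719

open Fermat.Agent.S55.Tow Fermat.Agent.S55.E1 Fermat.Agent.S55.E1.Lim
open Fermat.Agent.S55.T.H719 (ihomLin ihomMk)

noncomputable section

/-! ## `H¹(G, Hom(R, -))` and products -/

section Ext

variable {k : Type} [CommRing k] {G : Type} [Group G]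

/-- Extensionality for elements of `Hom_k(R, X)` (stated for general `k`, so that the module
structures are those of the representations). -/
lemma ihom_ext_apply {R X : Rep.{0} k G} {φ ψ : ((Rep.ihom R).obj X).V}
    (h : ∀ r : R.V, ihomLin φ r = ihomLin ψ r) : φ = ψ :=
  LinearMap.ext h

end Ext

section Pi

variable {G : Type} [Group G] {ι : Type}

lemma piLift_comp_piProj {A : ι → Rep.{0} ℤ G} {X : Rep.{0} ℤ G} (f : ∀ i, X ⟶ A i) (i : ι) :
    piLift f ≫ piProj A i = f i := by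
  apply Rep.hom_ext
  apply DFunLike.ext
  intro x
  rfl

/-- A class of `H¹(G, Hom(R, X))` dies in `H¹(G, Hom(R, ∏ A_i))` iff it dies in every
`H¹(G, Hom(R, A_i))`. -/
theorem ihomH1Map_piLift_eq_zero_iff (R : Rep.{0} ℤ G) {A : ι → Rep.{0} ℤ G} {X : Rep.{0} ℤ G}
    (f : ∀ i, X ⟶ A i) (y : H1 ((Rep.ihom R).obj X)) :
    (H354.ihomH1Map R (piLift f)).hom y = 0 ↔ ∀ i, (H354.ihomH1Map R (f i)).hom y = 0 := by
  constructor
  · intro h i
    have h1 : H354.ihomH1Map R (f i) =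
        H354.ihomH1Map R (piLift f) ≫ H354.ihomH1Map R (piProj A i) := by
      unfold H354.ihomH1Map
      rw [← groupCohomology.map_id_comp, ← Functor.map_comp, piLift_comp_piProj]
    rw [h1]
    show (H354.ihomH1Map R (piProj A i)).hom ((H354.ihomH1Map R (piLift f)).hom y) = 0
    rw [h, map_zero]
  · induction y using H1_induction_on with
    | h c =>
      intro h
      have h' : ∀ i, ∃ φ : ((Rep.ihom R).obj (A i)).V, ∀ (g : G) (r : R.V),
          (A i).ρ g (ihomLin φ (R.ρ g⁻¹ r)) - ihomLin φ r = (f i).hom (ihomLin (c g) r) := by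
        intro i
        have h0 := h i
        rw [H354.ihomH1Map_H1π, H1π_eq_zero_iff] at h0
        obtain ⟨φ, hφ⟩ := h0
        refine ⟨φ, fun g r => ?_⟩
        have := congrFun hφ g
        rw [d₀₁_hom_apply] at this
        exact congrArg (fun x => ihomLin x r) this
      choose φ hφ using h'
      rw [H354.ihomH1Map_H1π, H1π_eq_zero_iff]
      let Φ₀ : R.V →+ (piRep A).V :=
        { toFun := fun r => piOf (fun i => ihomLin (φ i) r)
          map_zero' := piRep_ext fun i => map_zero (ihomLin (φ i))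
          map_add' := fun r s => piRep_ext fun i => map_add (ihomLin (φ i)) r s }
      refine ⟨ihomMk (linOfAdd (A := R) (B := piRep A) Φ₀), ?_⟩
      funext g
      rw [d₀₁_hom_apply]
      refine ihom_ext_apply (fun r => ?_)
      refine piRep_ext (fun i => ?_)
      exact hφ i g r

end Pi

/-! ## The local criterion for `K_F` -/

section K

variable {S : Finset Nat.Primes}

/-- `E(F) → F_qˣ` as a morphism of `Gal(F_q/ℚ_q)`-modules. -/
def sEmb (L : Level S) (q : Nat.Primes) : Rep.res (L.decHom q) (sUnits L) ⟶ L.locUnits q :=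
  (Rep.resFunctor (L.decHom q)).map (sIncl L) ≫ L.emb q

lemma sEmb_apply (L : Level S) (q : Nat.Primes) (e : (sUnits L).V) :
    (sEmb L q).hom e = L.embFun q ((sIncl L).hom e) := rfl

/-- The diagonal `E(F) → J_q(F) = Coind F_qˣ`. -/
def sDiag (L : Level S) (q : Nat.Primes) : sUnits L ⟶ Rep.coind (L.decHom q) (L.locUnits q) :=
  sIncl L ≫ L.diag q

/-- `(E(F) → J_q(F))^♭ = (E(F) → F_qˣ)`. -/
lemma flat_diag (L : Level S) (q : Nat.Primes) :
    flat (L.decHom q) (sDiag L q) = sEmb L q := by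
  apply Rep.hom_ext
  apply DFunLike.ext
  intro e
  show L.embFun q (L.units.ρ 1 ((sIncl L).hom e)) = L.embFun q ((sIncl L).hom e)
  rw [map_one]
  rfl

variable {p : ℕ} [Fact p.Prime] (c : Ctx S p)

/-- **LIM5-K.** `y ∈ K_F` iff `tr_q y = 0` in `𝔈²_{D_q}(N|_{D_q}, F_qˣ)` for all `q ∈ S`. -/
theorem mem_KSub_iff (L : c.Idx) (y : E2 (c.NL L) (sUnits L.1)) :
    y ∈ c.KSub L ↔ ∀ q : S, trE2 (L.1.decHom q.1) (𝟙 (Rep.res (L.1.decHom q.1) (c.NL L)))
      (flat (L.1.decHom q.1) (sDiag L.1 q.1)) y = 0 := by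
  have h1 : y ∈ c.KSub L ↔
      (H354.ihomH1Map (stdR (c.NL L)) (piLift (fun q : S => sDiag L.1 q.1))).hom y = 0 :=
    Iff.rfl
  rw [h1, ihomH1Map_piLift_eq_zero_iff]
  refine forall_congr' fun q => ?_
  exact H423.E2_dies_iff_trE2 (c.NL L) (L.1.decHom_injective q.1) (sDiag L.1 q.1) y

/-- **LIM5-K**, in terms of `sEmb`. -/
theorem mem_KSub_iff_sEmb (L : c.Idx) (y : E2 (c.NL L) (sUnits L.1)) :
    y ∈ c.KSub L ↔ ∀ q : S, trE2 (L.1.decHom q.1) (𝟙 (Rep.res (L.1.decHom q.1) (c.NL L)))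
      (sEmb L.1 q.1) y = 0 := by
  rw [mem_KSub_iff]
  refine forall_congr' fun q => ?_
  rw [flat_diag]

end K

end

end Fermat.Agent.S55.E1.H719

end
-- ===== PACK-END S55/E1/H719/Lim5K.lean

-- ===== PACK-BEGIN S55/E1/H603/Lim5.lean
section
/-
S55 / engine E1 / block LIM, leaf LIM5 (helper603): FINAL ASSEMBLY.

`lim5 : Lim.LIM5Spec` : for every good context there is a morphism of systems
`e : Ш²_F → K_F` which is eventually injective and eventually surjective.

Inputs (all on main): `Lim5Defs` (`eFun`, `lim5_of_specs`), `Lim5Compat` (`lim5Compat`),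
`Lim5Loc` (`lim5i_of_KSub`), helper719 `Lim5K` (`mem_KSub_iff`), helper423 `Lim5Tower`
(`lim5_ii_inf`, `lim5_iii_isEdge`), helper304 `alg1`, helper895 ALG9/ALG10Edge.
Complete proofs only.
-/






set_option autoImplicit false
set_option linter.style.haveILetI false

open CategoryTheory CategoryTheory.Limits groupCohomology ExtCitation

namespace Fermat.Agent.S55.E1.H603

open Fermat.Agent.S55.E1 Fermat.Agent.S55.Tow Fermat.Agent.S55.E1.Lim

noncomputable section

variable {S : Finset Nat.Primes} {p : ℕ} [Fact p.Prime] (c : Ctx S p) (hμ : c.base.HasMu p)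

/-- **LIM5 (i).** -/
theorem lim5i [FiniteDimensional (ZMod p) c.M] (hp2 : p ≠ 2) (hLoc : LocalSpec p) :
    Lim5iSpec c hμ :=
  lim5i_of_KSub c hμ hp2 hLoc (fun L y => H719.mem_KSub_iff c L y)

theorem finite_NL_of_fin [FiniteDimensional (ZMod p) c.M] (L : c.Idx) : Finite (c.NL L).V :=
  finite_Nq c L ⟨2, Nat.prime_two⟩

theorem stdR_NL_finite [FiniteDimensional (ZMod p) c.M] (L : c.Idx) :
    @Module.Finite ℤ (stdR (c.NL L)).V _ _ (stdR (c.NL L)).hV2 :=
  (H304.alg1 L.1.Gal (c.NL L) (finite_NL_of_fin c L)).2.1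

/-- **LIM5 (ii).** -/
theorem lim5ii [FiniteDimensional (ZMod p) c.M] (hdiv : SUnitsDivSpec S p) :
    Lim5iiSpec c hμ := by
  intro L x hx
  have hp : p.Prime := Fact.out
  have hE : IsEdge (thetaH2 c hμ L x) (0 : E2 (c.NL L) (sUnits L.1)) :=
    hx ▸ isEdge_eFun c hμ L x
  obtain ⟨L₁, h₁, hL₁⟩ := H423.lim5_ii_inf H895.Final.alg10Edge hp hdiv L.1 (c.NL L)
    (stdR_NL_finite c L) _ hE
  let L' : c.Idx := ⟨L₁, L.2.trans h₁⟩
  have h : L ≤ L' := h₁
  refine ⟨L', h, ?_⟩
  have h0 := hL₁ L₁ h₁ le_rfl (c.NL L') (c.ν h) (H719.nsmul_NL_eq_zero c L')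
  apply (thetaH2_bijective c hμ L').1
  have e := thetaH2_tr₂ c hμ h x
  exact e.trans (h0.trans (map_zero _).symm)

/-- **LIM5 (iii).** -/
theorem lim5iii [FiniteDimensional (ZMod p) c.M] (hdiv : SUnitsDivSpec S p) :
    Lim5iiiSpec c hμ := by
  intro L y
  have hp : p.Prime := Fact.out
  obtain ⟨L₁, h₁, hL₁⟩ := H423.lim5_iii_isEdge hp hdiv L.1 (c.NL L) (stdR_NL_finite c L) y
  let L' : c.Idx := ⟨L₁, L.2.trans h₁⟩
  have h : L ≤ L' := h₁
  obtain ⟨x', hx'⟩ := hL₁ L₁ h₁ le_rfl (c.NL L') (c.ν h) (H719.nsmul_NL_eq_zero c L')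
  obtain ⟨x₀, hx₀⟩ := (thetaH2_bijective c hμ L').2 x'
  refine ⟨L', h, x₀, ?_⟩
  change edgeFun (c.NL L') (sUnits L'.1) (thetaH2 c hμ L' x₀) = _
  rw [hx₀]
  exact edgeFun_eq hx'

include hμ in
/-- **LIM5**, for a context with `μ_p` at the base level. -/
theorem lim5_ctx [FiniteDimensional (ZMod p) c.M] (hp2 : p ≠ 2) (hLoc : LocalSpec p)
    (hdiv : SUnitsDivSpec S p) :
    ∃ e : AddSys.Hom c.sysSh c.sysK, e.EvInj ∧ e.EvSurj :=
  lim5_of_specs c hμ (lim5i c hμ hp2 hLoc) (lim5ii c hμ hdiv) (lim5iii c hμ hdiv)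
    (lim5Compat c hμ)

/-- **LIM5.** -/
theorem lim5 : LIM5Spec := by
  intro p _ S c hc
  haveI : Module.Finite (ZMod p) c.M := hc.fin
  exact lim5_ctx c hc.mu hc.hp2 hc.loc hc.div

end

end Fermat.Agent.S55.E1.H603

end
-- ===== PACK-END S55/E1/H603/Lim5.lean

-- ===== PACK-BEGIN S55/E1/Lim/Engine.lean
section
/-
S55 engine E1 — block LIM CLOSED (helper474): `engineSpecFin : EngineSpecFin`, unconditional.
Leaves: `limBase`, `lim4` (474), `H719.lim1`, `H719.lim2` (719), `H957.lim3` (957),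
`H603.lim5` (603, with 423, 719, 295, 895).  All proofs complete.
-/



set_option autoImplicit false

namespace Fermat.Agent.S55.E1.Lim

open Fermat.Agent.S55.E1

/-- **THE ENGINE E1**: `finrank Ш¹_S(M^∨(1)) = finrank Ш²_S(M)` from the arithmetic inputs. -/
theorem engineSpecFin : EngineSpecFin := engineSpecFin_of_lim5 H603.lim5

end Fermat.Agent.S55.E1.Lim

end
-- ===== PACK-END S55/E1/Lim/Engine.lean

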