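import Fermat.Agent.Pack.S56.E21L2
import Fermat.Agent.Pack.S56.E16L2
import Fermat.Agent.Pack.S56.E17L3
import Fermat.Agent.Pack.S56.E17L0
import Fermat.Agent.Pack.S56.E18L0
import Fermat.Agent.Pack.S56.E17L2
import Fermat.Agent.Pack.S56.E17L1
import Fermat.Agent.Pack.S56.E18L1
import Fermat.Agent.Pack.S56.E21L3
import Fermat.Agent.Pack.S56.E21L0
import Fermat.Agent.Pack.S56.E18L2
import Fermat.Agent.Pack.S56.E19L3
import Fermat.Agent.Pack.S56.E19L2
import Fermat.Agent.Pack.S56.E19L0
import Fermat.Agent.Pack.S56.E20L1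
import Fermat.Agent.Pack.S56.E20L2
import Fermat.Agent.Pack.S56.E21L1

-- ===== PACK-BEGIN S55/GAD/Transport.lean
section
/-
S55 / G-ADAPTER (helper955): **transport along the comparison isomorphism** `isoC`.
The leaf specs GAD-EX / GAD-CM / GAD-J / GAD-INF of `GAD/Spec.lean` are about the concrete class
module `GAD.CT L`; here they are reduced to the SAME statements about the layer-G class module
`G.CRep S L.Gal L.F` (the language of the REC / EXIST producers).
-/



set_option autoImplicit false
set_option linter.unusedSectionVars false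

open CategoryTheory

namespace Fermat.Agent.S55.GAD

open Fermat.Agent.S55 Fermat.Agent.S55.Tow Fermat.Agent.S55.G Fermat.Agent.S55.G.LocH897
open scoped Fermat.Agent.S55.E1.H594

noncomputable section

/-! ### Generic transport lemmas -/

section Generic

variable {G : Type} [Group G]

/-- `NormInP` is invariant under isomorphism of the module. -/
theorem normInP_of_iso (p : ℕ) (H : Subgroup G) [Fintype H] {C C' : Rep.{0} ℤ G} (e : C ≅ C')
    (hC : E1.NormInP p H C) : E1.NormInP p H C' := by
  intro c'
  obtain ⟨c₀, hinv, hsum⟩ := hC (e.inv.hom c')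
  refine ⟨e.hom.hom c₀, fun h hh => ?_, ?_⟩
  · rw [← Rep.hom_comm_apply, hinv h hh]
  · have h1 : ∀ h : H, C'.ρ (h : G) c' = e.hom.hom (C.ρ (h : G) (e.inv.hom c')) := by
      intro h
      rw [Rep.hom_comm_apply, Rep.hom_inv_apply]
    simp only [h1]
    rw [← map_sum, hsum, map_nsmul]

/-- Restriction to a subgroup commutes with change of coefficients. -/
theorem resMap_coeffMap {C C' : Rep.{0} ℤ G} (f : C ⟶ C') (H : Subgroup G) (n : ℕ) :
    T.coeffMap f n ≫ T.resMap C' H n =
      T.resMap C H n ≫ T.coeffMap ((Rep.resFunctor H.subtype).map f) n := by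
  rw [← groupCohomology.map_comp, ← groupCohomology.map_comp]
  exact groupCohomology.map_congr rfl rfl n

theorem resMap_coeffMap_apply {C C' : Rep.{0} ℤ G} (f : C ⟶ C') (H : Subgroup G) (n : ℕ)
    (x : groupCohomology C n) :
    (T.resMap C' H n).hom ((T.coeffMap f n).hom x) =
      (T.coeffMap ((Rep.resFunctor H.subtype).map f) n).hom ((T.resMap C H n).hom x) := by
  have := congrArg (fun φ => φ.hom x) (resMap_coeffMap f H n)
  exact this

/-- The isomorphism on the cohomology of a subgroup induced by an isomorphism of modules. -/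
def subCohIso {C C' : Rep.{0} ℤ G} (e : C ≅ C') (H : Subgroup G) (n : ℕ) :
    groupCohomology (T.resSub C H) n ≅ groupCohomology (T.resSub C' H) n :=
  (groupCohomology.functor ℤ H n).mapIso ((Rep.resFunctor H.subtype).mapIso e)

lemma subCohIso_hom {C C' : Rep.{0} ℤ G} (e : C ≅ C') (H : Subgroup G) (n : ℕ) :
    (subCohIso e H n).hom = T.coeffMap ((Rep.resFunctor H.subtype).map e.hom) n := rfl

/-- Class modules at `p` are transported along isomorphisms. -/
theorem isClassModuleAt_of_iso [Finite G] (p : ℕ) {C C' : Rep.{0} ℤ G} (e : C ≅ C')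
    (γ : groupCohomology C 2) (hγ : E1.IsClassModuleAt p C γ) :
    E1.IsClassModuleAt p C' ((T.coeffMap e.hom 2).hom γ) := by
  intro H hH
  obtain ⟨h1, h2, h3⟩ := hγ H hH
  refine ⟨Limits.IsZero.of_iso h1 (subCohIso e H 1).symm, ?_, ?_⟩
  · rw [← h2]
    exact Nat.card_congr (subCohIso e H 2).symm.toLinearEquiv.toEquiv
  · intro x'
    obtain ⟨n, hn⟩ := h3 ((subCohIso e H 2).inv.hom x')
    refine ⟨n, ?_⟩
    have hx : x' = (subCohIso e H 2).hom.hom ((subCohIso e H 2).inv.hom x') := by
      rw [← ModuleCat.comp_apply, Iso.inv_hom_id]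
      rfl
    rw [hx, hn, map_nsmul, resMap_coeffMap_apply]
    rfl

theorem exists_isClassModuleAt_of_iso [Finite G] (p : ℕ) {C C' : Rep.{0} ℤ G} (e : C ≅ C')
    (h : ∃ γ : groupCohomology C 2, E1.IsClassModuleAt p C γ) :
    ∃ γ' : groupCohomology C' 2, E1.IsClassModuleAt p C' γ' := by
  obtain ⟨γ, hγ⟩ := h
  exact ⟨_, isClassModuleAt_of_iso p e γ hγ⟩

/-- Change of coefficients along an isomorphism is injective. -/
theorem coeffMap_iso_injective {C C' : Rep.{0} ℤ G} (e : C ≅ C') (n : ℕ) :
    Function.Injective (T.coeffMap e.hom n).hom := by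
  intro x y hxy
  have h := congrArg (T.coeffMap e.inv n).hom hxy
  have hc : T.coeffMap e.hom n ≫ T.coeffMap e.inv n = 𝟙 _ := by
    rw [← groupCohomology.map_id_comp, Iso.hom_inv_id]
    exact groupCohomology.map_id n
  have hx : ∀ z, (T.coeffMap e.inv n).hom ((T.coeffMap e.hom n).hom z) = z := fun z => by
    rw [← ModuleCat.comp_apply, hc]
    rfl
  rwa [hx, hx] at h

theorem coeffMap_comp_apply' {A B C : Rep.{0} ℤ G} (f : A ⟶ B) (g : B ⟶ C) (n : ℕ)
    (x : groupCohomology A n) :
    (T.coeffMap (f ≫ g) n).hom x = (T.coeffMap g n).hom ((T.coeffMap f n).hom x) := by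
  have h : T.coeffMap (f ≫ g) n = T.coeffMap f n ≫ T.coeffMap g n :=
    groupCohomology.map_id_comp f g n
  rw [h]
  rfl

end Generic

/-! ### The leaf specs in layer-G language -/

variable (S : Finset Nat.Primes) (p : ℕ)

/-- **GAD-EX in layer-G language**: gd6 for `C_S(F) = G.CRep S Gal(F/ℚ) F`. -/
def ExistenceSpecG : Prop :=
  ∀ L₀ : Level S, L₀.HasMu p → ∃ L₁ : Level S, L₀ ≤ L₁ ∧
    ∀ (L : Level S) (h : L₀ ≤ L), L₁ ≤ L →
      @E1.NormInP p L.Gal _ (Level.relGal h) (Fintype.ofFinite _) (G.CRep S L.Gal L.F)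

theorem existenceSpec_of_G (h : ExistenceSpecG S p) : ExistenceSpec S p := by
  intro L₀ hμ
  obtain ⟨L₁, h01, hL⟩ := h L₀ hμ
  refine ⟨L₁, h01, fun L h0 h1 => ?_⟩
  let _ : Fintype (Level.relGal h0) := Fintype.ofFinite _
  exact normInP_of_iso p (Level.relGal h0) (isoC L) (hL L h0 h1)

/-- **GAD-CM in layer-G language**: gd1 for `C_S(F)`. -/
def ClassModuleSpecG : Prop :=
  ∀ L : Level S, L.HasMu p →
    ∃ γ : groupCohomology (G.CRep S L.Gal L.F) 2, E1.IsClassModuleAt p (G.CRep S L.Gal L.F) γ

theorem classModuleSpec_of_G (h : ClassModuleSpecG S p) : ClassModuleSpec S p :=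
  fun L hμ => exists_isClassModuleAt_of_iso p (isoC L) (h L hμ)

/-- **GAD-J in layer-G language**: gd3 for `J_q(F) → J_S(F) → C_S(F)`
(`jTowInv` = helper897's inclusion of the `q`-component). -/
def JInjSpecG : Prop :=
  ∀ L : Level S, L.HasMu p → ∀ q : S, ∀ y : groupCohomology (L.J q.1) 2,
    p • y = 0 → (T.coeffMap (jTowInv L q ≫ G.jToCRepHom S L.Gal L.F) 2).hom y = 0 → y = 0

theorem jInjSpec_of_G (h : JInjSpecG S p) : JInjSpec S p := by
  intro L hμ q hq y hy hy0
  refine h L hμ ⟨q, hq⟩ y hy ?_
  rw [← jT_comp_isoC_inv L ⟨q, hq⟩, coeffMap_comp_apply', hy0, map_zero]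

/-- **GAD-INF in layer-G language**: gd8 for the base change `C_S(F) → C_S(F')`
(`cTrG h`, whose underlying map is helper773's `G.DescH773.cBase`, see `cTrG_apply`). -/
def InfInjSpecG : Prop :=
  ∀ {L L' : Level S} (h : L ≤ L'), L.HasMu p → ∀ z : groupCohomology (G.CRep S L.Gal L.F) 2,
    p • z = 0 → (groupCohomology.map (Level.proj h) (cTrG h) 2).hom z = 0 → z = 0

variable {S} in
/-- Inflation commutes with the comparison isomorphisms. -/
theorem map_cTrG_coeffMap {L L' : Level S} (h : L ≤ L') (n : ℕ) :
    T.coeffMap (isoC L).hom n ≫ groupCohomology.map (Level.proj h) (trT h) n =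
      groupCohomology.map (Level.proj h) (cTrG h) n ≫ T.coeffMap (isoC L').hom n := by
  rw [← groupCohomology.map_comp, ← groupCohomology.map_comp]
  refine groupCohomology.map_congr rfl ?_ n
  exact congrArg (fun f => (Rep.Hom.hom f).toLinearMap) (cTrG_comp_isoC h).symm

theorem infInjSpec_of_G (h : InfInjSpecG S p) : InfInjSpec S p := by
  intro L L' hLL hμ z hz hz0
  have hz' : z = (T.coeffMap (isoC L).hom 2).hom ((T.coeffMap (isoC L).inv 2).hom z) := by
    rw [← coeffMap_comp_apply', Iso.inv_hom_id]
    exact (congrArg (fun φ => φ.hom z) (groupCohomology.map_id (B := CT L) 2)).symm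
  set z₀ := (T.coeffMap (isoC L).inv 2).hom z with hz₀
  have h1 : p • z₀ = 0 := by rw [hz₀, ← map_nsmul, hz, map_zero]
  have h2 : (groupCohomology.map (Level.proj hLL) (cTrG hLL) 2).hom z₀ = 0 := by
    apply coeffMap_iso_injective (isoC L') 2
    have := congrArg (fun φ => φ.hom z₀) (map_cTrG_coeffMap hLL 2)
    rw [map_zero]
    refine Eq.trans this.symm ?_
    show (groupCohomology.map (Level.proj hLL) (trT hLL) 2).hom
      ((T.coeffMap (isoC L).hom 2).hom z₀) = 0
    rw [← hz', hz0]
  rw [hz', h hLL hμ z₀ h1 h2, map_zero]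

end

end Fermat.Agent.S55.GAD

end
-- ===== PACK-END S55/GAD/Transport.lean

-- ===== PACK-BEGIN S55/GAD/Main.lean
section
/-
S55 / G-ADAPTER (helper955): **assembly in layer-G language.**
`globalSpecMu_of_G` : the open input `Tow.GlobalSpecMu S p` of the engine E1 from the leaves
GAD-7b, GAD-CAP (concrete datum) and GAD-EX/CM/J/INF stated for `G.CRep S L.Gal L.F`
(`GAD/Transport.lean`).  GAD-SU is closed (helper655, `GAD/SUnitDictH655.lean`).
-/




set_option autoImplicit false

namespace Fermat.Agent.S55.GAD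

open Fermat.Agent.S55 Fermat.Agent.S55.Tow

/-- `Tow.GlobalSpecMu S p` from the six open leaves (four of them in layer-G language). -/
theorem globalSpecMu_of_G (S : Finset Nat.Primes) (p : ℕ)
    (h7b : DivTrTransSpec S) (hCap : CapitulationSpec S p)
    (hEx : ExistenceSpecG S p) (hCM : ClassModuleSpecG S p)
    (hJ : JInjSpecG S p) (hInf : InfInjSpecG S p) : Tow.GlobalSpecMu S p :=
  globalSpecMu_of (H655.sUnitDict S) (fun {_ _ _} => h7b) hCap (existenceSpec_of_G S p hEx)
    (classModuleSpec_of_G S p hCM) (jInjSpec_of_G S p hJ) (fun {_ _} => infInjSpec_of_G S p hInf)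

end Fermat.Agent.S55.GAD

end
-- ===== PACK-END S55/GAD/Main.lean

-- ===== PACK-BEGIN S55/GAD/Final.lean
section
/-
S55 / G-ADAPTER (sub-architect helper955): **FINAL WIRING of layer G.**

`E1.GlobalInputSpec` (`E1/Inputs.lean`, the only open arithmetic input of the engine E1) from the
THREE leaves that are still open for the concrete tower datum `GAD.datum S p`:

* GAD-CM  = gd1 : `ClassModuleSpec S p`   (or `ClassModuleSpecG`, layer-G language),
* GAD-J   = gd3 : `JInjSpec S p`          (or `JInjSpecG`),
* GAD-EX1 = one Kummer step of gd6 : `H233.ExistStepSpec S p`  (or `ExistStepSpecG`).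

Everything else is closed on main and plugged in here:
GAD-SU (helper655), GAD-7b (helper655), GAD-CAP (helper57), GD5b (helper604),
GAD-DESC (helper901), GAD-INF from CM + DESC (helper953), GAD-EX from DESC + one step (helper233),
GAD-ISO + transport (helper897 J-bridge, `GAD/Iso.lean`, `GAD/Transport.lean`).
-/









set_option autoImplicit false

namespace Fermat.Agent.S55.GAD

open Fermat.Agent.S55 Fermat.Agent.S55.Tow
open scoped Fermat.Agent.S55.E1.H594

/-- **GAD-DESC**, closed (helper901): the transition maps of the concrete datum are injective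
with image the invariants. -/
theorem descSpec (S : Finset Nat.Primes) (hS : S.Nonempty) : H953.DescSpec S :=
  fun h => ⟨H901.trT_injective h hS, fun c hc => (H901.mem_range_trT_iff h hS c).2 hc⟩

/-- **Layer G, reduced to three leaves** (concrete language). -/
theorem globalSpecFin_of_three (S : Finset Nat.Primes) (p : ℕ) (hp : p.Prime)
    (hpS : (⟨p, hp⟩ : Nat.Primes) ∈ S)
    (hCM : ClassModuleSpec S p) (hJ : JInjSpec S p) (hStep : H233.ExistStepSpec S p) :
    GlobalSpecFin S p :=
  have hS : S.Nonempty := ⟨_, hpS⟩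
  have hD : H953.DescSpec S := descSpec S hS
  H604.globalSpecFin_of (H655.sUnitDict S) (fun {_ _ _} => H655.divTrTrans S)
    (H57.capitulation S p hp hpS) (H233.existence_of_step (fun {_ _} => hD) hStep) hCM hJ
    (fun {_ _} => H953.infInj_of hp hCM (fun {_ _} => hD))

/-- GAD-EX1 in layer-G language: ONE level `L₁ ≥ L₀` with
`N_{L₁/L₀} C_S(L₁) ⊆ p • C_S(L₁)^{Gal(L₁/L₀)}`. -/
def ExistStepSpecG (S : Finset Nat.Primes) (p : ℕ) : Prop :=
  ∀ L₀ : Level S, L₀.HasMu p → ∃ (L₁ : Level S) (h₁ : L₀ ≤ L₁),
    @E1.NormInP p L₁.Gal _ (Level.relGal h₁) (Fintype.ofFinite _) (G.CRep S L₁.Gal L₁.F)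

theorem existStepSpec_of_G (S : Finset Nat.Primes) (p : ℕ) (h : ExistStepSpecG S p) :
    H233.ExistStepSpec S p := by
  intro L₀ hμ
  obtain ⟨L₁, h₁, hN⟩ := h L₀ hμ
  refine ⟨L₁, h₁, ?_⟩
  let _ : Fintype (Level.relGal h₁) := Fintype.ofFinite _
  exact normInP_of_iso p (Level.relGal h₁) (isoC L₁) hN

/-- **Layer G, reduced to three leaves** (layer-G language: statements about
`G.CRep S L.Gal L.F`). -/
theorem globalSpecFin_of_three_G (S : Finset Nat.Primes) (p : ℕ) (hp : p.Prime)
    (hpS : (⟨p, hp⟩ : Nat.Primes) ∈ S)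
    (hCM : ClassModuleSpecG S p) (hJ : JInjSpecG S p) (hStep : ExistStepSpecG S p) :
    GlobalSpecFin S p :=
  globalSpecFin_of_three S p hp hpS (classModuleSpec_of_G S p hCM) (jInjSpec_of_G S p hJ)
    (existStepSpec_of_G S p hStep)

/-- **The global input of the engine E1 from the three open leaves.** -/
theorem globalInputSpec_of
    (hCM : ∀ (p : ℕ) [Fact p.Prime], p ≠ 2 → ∀ S : Finset Nat.Primes, ExtCitation.pPrime p ∈ S →
      ClassModuleSpec S p)
    (hJ : ∀ (p : ℕ) [Fact p.Prime], p ≠ 2 → ∀ S : Finset Nat.Primes, ExtCitation.pPrime p ∈ S →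
      JInjSpec S p)
    (hStep : ∀ (p : ℕ) [Fact p.Prime], p ≠ 2 → ∀ S : Finset Nat.Primes,
      ExtCitation.pPrime p ∈ S → H233.ExistStepSpec S p) :
    E1.GlobalInputSpec :=
  fun p _ hp2 S hpS =>
    globalSpecFin_of_three S p Fact.out hpS (hCM p hp2 S hpS) (hJ p hp2 S hpS)
      (hStep p hp2 S hpS)

/-- The same in layer-G language. -/
theorem globalInputSpec_of_G
    (hCM : ∀ (p : ℕ) [Fact p.Prime], p ≠ 2 → ∀ S : Finset Nat.Primes, ExtCitation.pPrime p ∈ S →
      ClassModuleSpecG S p)
    (hJ : ∀ (p : ℕ) [Fact p.Prime], p ≠ 2 → ∀ S : Finset Nat.Primes, ExtCitation.pPrime p ∈ S →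
      JInjSpecG S p)
    (hStep : ∀ (p : ℕ) [Fact p.Prime], p ≠ 2 → ∀ S : Finset Nat.Primes,
      ExtCitation.pPrime p ∈ S → ExistStepSpecG S p) :
    E1.GlobalInputSpec :=
  fun p _ hp2 S hpS =>
    globalSpecFin_of_three_G S p Fact.out hpS (hCM p hp2 S hpS) (hJ p hp2 S hpS)
      (hStep p hp2 S hpS)

end Fermat.Agent.S55.GAD

end
-- ===== PACK-END S55/GAD/Final.lean

-- ===== PACK-BEGIN S55/G/Exist121/Main.lean
section




/-!
# S55, layer G, block EXIST: assembly of the existence theorem mod `p` (finite-level core)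

Author: helper121.  Everything except the reciprocity input `PClassModuleSpec` is closed:

* `shaBound_of_classModule : PClassModuleSpec → ShaBoundSpec`  (EX-SHA);
* `count_of_classModule : PClassModuleSpec → CountSpec`  (EX-CNT);
* **`existCore_of_classModule : PClassModuleSpec → ExistCoreSpec`**  (the existence theorem mod
  `p` for a finite `p`-group `G` acting on a `p`-Kummer-saturated `L`, unramified outside `S`).
-/

set_option autoImplicit false

noncomputable section

namespace Fermat.Agent.S55.G.Exist121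

open Fermat.Agent.S55 Fermat.Agent.S55.G

/-- EX-POW, closed (helper901 + helper604/helper597). -/
theorem powIndex : PowIndexSpec :=
  Exist.H901.powIndexSpec_of FIClosedH604.placePrime

/-- EX-SHA from the class-module input. -/
theorem shaBound_of_classModule (hCM : PClassModuleSpec) : ShaBoundSpec :=
  shaBound_of Exist.H361.kummerFieldSpec (recip_of hCM) descentTop

/-- EX-CNT from the class-module input. -/
theorem count_of_classModule (hCM : PClassModuleSpec) : CountSpec :=
  count_of powIndex (shaBound_of_classModule hCM)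

/-- **The existence theorem mod `p`, finite-level core**, from the class-module input. -/
theorem existCore_of_classModule (hCM : PClassModuleSpec) : ExistCoreSpec :=
  existCore_of (recip_of hCM) descentTop (count_of_classModule hCM)

end Fermat.Agent.S55.G.Exist121

end
end
-- ===== PACK-END S55/G/Exist121/Main.lean

-- ===== PACK-BEGIN S55/GAD/ExistH121.lean
section




/-!
# S55 / G-ADAPTER, leaf GAD-EX (gd6): the existence theorem mod `p` for the tower datum

Author: helper121.  `p` an odd prime, `p ∈ S`.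

* `existenceSpecG_of_core : ExistCoreSpec → GAD.ExistenceSpecG S p`  (layer-G language);
* `existenceSpec_of_core : ExistCoreSpec → GAD.ExistenceSpec S p`  (concrete datum `CT L`);
* **`existenceSpec_of_classModule : G.PClassModuleSpec → GAD.ExistenceSpec S p`**: gd6 is closed
  modulo the reciprocity input `PClassModuleSpec` (layer G, block REC).

No descent hypothesis is needed (transitivity of norms is done in layer-G language,
`Exist121.norm_in_p_trans`, with helper773's descent).
-/

set_option autoImplicit false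

noncomputable section

namespace Fermat.Agent.S55.GAD.H121

open Fermat.Agent.S55 Fermat.Agent.S55.Tow Fermat.Agent.S55.G

variable (S : Finset Nat.Primes) (p : ℕ) [hp : Fact p.Prime]

/-- gd6 in layer-G language from the finite-level existence theorem. -/
theorem existenceSpecG_of_core (hp2 : p ≠ 2) (hpS : (⟨p, hp.out⟩ : Nat.Primes) ∈ S)
    (hCore : Exist121.ExistCoreSpec) : GAD.ExistenceSpecG S p :=
  Exist121.existenceG_of_core p hp2 hpS hCore

/-- gd6 for the concrete tower datum from the finite-level existence theorem. -/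
theorem existenceSpec_of_core (hp2 : p ≠ 2) (hpS : (⟨p, hp.out⟩ : Nat.Primes) ∈ S)
    (hCore : Exist121.ExistCoreSpec) : GAD.ExistenceSpec S p :=
  GAD.existenceSpec_of_G S p (existenceSpecG_of_core S p hp2 hpS hCore)

/-- gd6 in layer-G language, modulo the class-module input of layer G. -/
theorem existenceSpecG_of_classModule (hp2 : p ≠ 2) (hpS : (⟨p, hp.out⟩ : Nat.Primes) ∈ S)
    (hCM : PClassModuleSpec) : GAD.ExistenceSpecG S p :=
  existenceSpecG_of_core S p hp2 hpS (Exist121.existCore_of_classModule hCM)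

/-- **gd6 for the concrete tower datum, modulo the class-module input of layer G.** -/
theorem existenceSpec_of_classModule (hp2 : p ≠ 2) (hpS : (⟨p, hp.out⟩ : Nat.Primes) ∈ S)
    (hCM : PClassModuleSpec) : GAD.ExistenceSpec S p :=
  existenceSpec_of_core S p hp2 hpS (Exist121.existCore_of_classModule hCM)

end Fermat.Agent.S55.GAD.H121

end
end
-- ===== PACK-END S55/GAD/ExistH121.lean

-- ===== PACK-BEGIN S55/GAD/ExistStepH121.lean
section



/-!
# S55 / G-ADAPTER, leaf GAD-EX1 (one Kummer step of gd6), in the shapes consumed by `GAD/Final.lean`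

Author: helper121.  `p` an odd prime, `p ∈ S`.

* `existStepSpecG_of_core : Exist121.ExistCoreSpec → GAD.ExistStepSpecG S p`;
* `existStepSpecG_of_classModule : G.PClassModuleSpec → GAD.ExistStepSpecG S p`;
* `existStepSpec_of_classModule : G.PClassModuleSpec → GAD.H233.ExistStepSpec S p`;
* `existStep_all_of_classModule`, `existStepG_all_of_classModule` : the quantified forms taken by
  `GAD.globalInputSpec_of` / `GAD.globalInputSpec_of_G`.

The level `L₁` is the Kummer level `Exist121.kummerTow p hpS L₀ = L₀(V_S(L₀)^{1/p})`.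
-/

set_option autoImplicit false

noncomputable section

namespace Fermat.Agent.S55.GAD.H121

open Fermat.Agent.S55 Fermat.Agent.S55.Tow Fermat.Agent.S55.G

variable (S : Finset Nat.Primes) (p : ℕ) [hp : Fact p.Prime]

omit hp in
/-- One Kummer step from the full gd6 (take `L = L₁`). -/
theorem existStepSpecG_of_existenceSpecG (h : GAD.ExistenceSpecG S p) : GAD.ExistStepSpecG S p := by
  intro L₀ hμ
  obtain ⟨L₁, h₀₁, hL⟩ := h L₀ hμ
  exact ⟨L₁, h₀₁, hL L₁ h₀₁ le_rfl⟩

/-- GAD-EX1 (layer-G language) from the finite-level existence theorem. -/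
theorem existStepSpecG_of_core (hp2 : p ≠ 2) (hpS : (⟨p, hp.out⟩ : Nat.Primes) ∈ S)
    (hCore : Exist121.ExistCoreSpec) : GAD.ExistStepSpecG S p :=
  existStepSpecG_of_existenceSpecG S p (existenceSpecG_of_core S p hp2 hpS hCore)

/-- GAD-EX1 (layer-G language), modulo the class-module input of layer G. -/
theorem existStepSpecG_of_classModule (hp2 : p ≠ 2) (hpS : (⟨p, hp.out⟩ : Nat.Primes) ∈ S)
    (hCM : PClassModuleSpec) : GAD.ExistStepSpecG S p :=
  existStepSpecG_of_core S p hp2 hpS (Exist121.existCore_of_classModule hCM)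

/-- GAD-EX1 (concrete datum), modulo the class-module input of layer G. -/
theorem existStepSpec_of_classModule (hp2 : p ≠ 2) (hpS : (⟨p, hp.out⟩ : Nat.Primes) ∈ S)
    (hCM : PClassModuleSpec) : GAD.H233.ExistStepSpec S p :=
  GAD.existStepSpec_of_G S p (existStepSpecG_of_classModule S p hp2 hpS hCM)

/-- The quantified form taken by `GAD.globalInputSpec_of_G`. -/
theorem existStepG_all_of_classModule (hCM : PClassModuleSpec) :
    ∀ (p : ℕ) [Fact p.Prime], p ≠ 2 → ∀ S : Finset Nat.Primes,
      ExtCitation.pPrime p ∈ S → GAD.ExistStepSpecG S p :=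
  fun p _ hp2 S hpS => existStepSpecG_of_classModule S p hp2 hpS hCM

/-- The quantified form taken by `GAD.globalInputSpec_of`. -/
theorem existStep_all_of_classModule (hCM : PClassModuleSpec) :
    ∀ (p : ℕ) [Fact p.Prime], p ≠ 2 → ∀ S : Finset Nat.Primes,
      ExtCitation.pPrime p ∈ S → GAD.H233.ExistStepSpec S p :=
  fun p _ hp2 S hpS => existStepSpec_of_classModule S p hp2 hpS hCM

end Fermat.Agent.S55.GAD.H121

end
end
-- ===== PACK-END S55/GAD/ExistStepH121.lean

-- ===== PACK-BEGIN S55/Fin/GlobalFR.lean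
section
/-
S55 / FINAL WIRING, layer G (row-lead helper55).

`E1.GlobalInputSpec` (the only arithmetic input of the engine E1 that is still open) from the
ONE remaining open leaf of layer G, the finite reciprocity dictionary
`G.Rec.TOW.FinRecSpec p = Nonempty (TOW.SemiLocalInv p)` (block FR, sub-architect helper353).

Everything else is closed on main and plugged in here:
* TOW (helper417): `gd1`, `gd3` from `SemiLocalInv p` + G-UP + DESC-TOW + G-SIND + RAM;
* G-CM (helper893): `pClassModule_of_leaves` (intrinsic class module from the tower `Gd1Spec`);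
* GAD (helper955): `globalInputSpec_of` from GAD-CM, GAD-J, GAD-EX1
  (transports helper594, Kummer step helper121).
NO sorry.
-/















set_option autoImplicit false

namespace Fermat.Agent.S55.Fin

open Fermat.Agent.S55 Fermat.Agent.S55.Tow Fermat.Agent.S55.G

/-- The open leaf of layer G: for every odd prime `p` there is a system of semilocal
invariants (block FR). -/
def FinRecAllSpec : Prop := ∀ p : ℕ, p.Prime → p ≠ 2 → Rec.TOW.FinRecSpec p

/-- GD1 on the tower for every `p` (vacuous unless `p` is an odd prime). -/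
theorem gd1_all (hFR : FinRecAllSpec) : ∀ p : ℕ, Rec.TOW.Gd1Spec p := by
  intro p S hp hp2
  obtain ⟨I⟩ := hFR p hp hp2
  exact Rec.TOW.H417.gd1 hp I AllH604.pClassUpper Rec.TOW.H934.desc SIndH237.sIndep
    (Rec.TOW.H414.ramSpec p) S hp hp2

/-- GD3 on the tower for every odd prime `p`. -/
theorem gd3_all (hFR : FinRecAllSpec) (p : ℕ) (hp : p.Prime) (hp2 : p ≠ 2) :
    Rec.TOW.Gd3Spec p := by
  obtain ⟨I⟩ := hFR p hp hp2
  exact Rec.TOW.H417.gd3 hp I

/-- The intrinsic class module of layer G. -/
theorem pClassModule (hFR : FinRecAllSpec) : PClassModuleSpec :=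
  CM.pClassModule_of_leaves AllH604.pClassUpper (gd1_all hFR) CM.H893.closureLevel
    CM.H514.subClassModuleSpec CM.H644.quotOrder (CM.H587.descIncl_of DescH773.descentSpec)
    (CM.H139.sindTop_of SIndH237.sIndep)

/-- **Layer G, final**: the global input of the engine from the finite reciprocity
dictionary. -/
theorem globalInputSpec_of_finRec (hFR : FinRecAllSpec) : E1.GlobalInputSpec :=
  GAD.globalInputSpec_of
    (fun p _ hp2 S hpS =>
      GAD.H594.classModule_of_gd1 (S := S) (p := p) Fact.out hp2 hpS (gd1_all hFR p))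
    (fun p _ hp2 S _ => GAD.H594.jInj_of_gd3 (S := S) (p := p) (gd3_all hFR p Fact.out hp2))
    (GAD.H121.existStep_all_of_classModule (pClassModule hFR))

end Fermat.Agent.S55.Fin

end
-- ===== PACK-END S55/Fin/GlobalFR.lean

-- ===== PACK-BEGIN S55/G/Rec/ReciprocityFull.lean
section




/-!
# S55 / layer G / block REC : THE RECIPROCITY LAW, unconditional in layer G  (helper1)

* `hassePrincipleFull p hp : HassePrincipleSpec p` : the Hasse principle for the `p`-primary part
  of `Br(K)`, `K` any number field inside `ℚ̄`, `p` odd  (adapter HP of helper473 + the closed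
  layer G of helper604: first and second inequality, `PClassUpperSpec`).
* **`reciprocityFull I p hp : ReciprocitySpec I p`** : for EVERY local invariant system `I`
  (`Rec/Spec.lean`), every odd prime `p`, every number field `K = ℚ̄^U` and every
  `x ∈ Br(K)` of `p`-power order: almost all `inv_v (x_v)` vanish and `∑_v inv_v (x_v) = 0`.

The only remaining input of block REC is the existence of a `LocalInvSystem` (adapter `Rec/Loc`).
-/

set_option autoImplicit false

namespace Fermat.Agent.S55.G.Rec

/-- **Hasse principle**, `p` odd. -/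
theorem hassePrincipleFull (p : ℕ) [Fact p.Prime] (hp : p ≠ 2) : HassePrincipleSpec p :=
  HP.hassePrinciple p hp G.AllH604.pClassUpper G.AllH604.classShortExact G.AllH604.shapiroJ

/-- **Reciprocity law**, `p` odd, for every local invariant system. -/
theorem reciprocityFull (I : LocalInvSystem) (p : ℕ) [Fact p.Prime] (hp : p ≠ 2) :
    ReciprocitySpec I p :=
  reciprocity I p hp (hassePrincipleFull p hp)

end Fermat.Agent.S55.G.Rec

end
-- ===== PACK-END S55/G/Rec/ReciprocityFull.lean

-- ===== PACK-BEGIN S55/Fin/FinRec.lean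
section
/-
S55 / FINAL WIRING, block FR (row-lead helper55).

`Fin.finRecAll : Fin.FinRecAllSpec` — for every odd prime `p` a system of semilocal invariants
`TOW.SemiLocalInv p` exists: `σ := FR.sigma I`, `I := Rec.Loc.localInvSystem`.

Plugged in (all closed on main):
* `Rec.reciprocityFull` (block REC), `Rec.Loc.localInvSystem` (block REC-LOC);
* FR assembly shell `FR.H724.finRec_of_fields` (recip + resIndex closed there, helper724);
* `FR.H481.injAt_of`, `FR.H481.locClass_of` (helper481);
* FR leaves: FR-A `H894.locInj`, FR-B `H841.orbitReps`, FR-C `H715.locExist`,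
  FR-D `H233.primePlace`; `G.ShapiroJSpec` (helper604), `ResTopSpec`, `ResCoeffNatSpec` (helper323).
NO sorry.
-/













set_option autoImplicit false

namespace Fermat.Agent.S55.Fin

open Fermat.Agent.S55 Fermat.Agent.S55.G Fermat.Agent.S55.G.Rec

/-- **Block FR, closed**: the finite reciprocity dictionary for an odd prime `p`. -/
theorem finRec (p : ℕ) (hp : p.Prime) (hp2 : p ≠ 2) : TOW.FinRecSpec p :=
  haveI : Fact p.Prime := ⟨hp⟩
  TOW.FR.H724.finRec_of_fields Loc.localInvSystem p
    (reciprocityFull Loc.localInvSystem p hp2)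
    (fun {_} M r y hy hat h0 =>
      TOW.FR.H481.injAt_of Loc.localInvSystem p TOW.FR.H841.orbitReps TOW.FR.H894.locInj
        AllH604.shapiroJ TOW.H323.resTop TOW.H323.resCoeffNat M r y hy hat h0)
    (fun {_} M r hr H Z hZH hZ hfix =>
      TOW.FR.H481.locClass_of Loc.localInvSystem p TOW.FR.H233.primePlace
        TOW.FR.H841.orbitReps TOW.FR.H715.locExist TOW.FR.H894.locInj AllH604.shapiroJ
        M r hr H Z hZH hZ hfix)

/-- **Block FR, closed**, quantified form. -/
theorem finRecAll : FinRecAllSpec := fun p hp hp2 => finRec p hp hp2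

/-- **Layer G, closed**: the global input of the engine E1. -/
theorem globalInputSpec : E1.GlobalInputSpec := globalInputSpec_of_finRec finRecAll

end Fermat.Agent.S55.Fin

end
-- ===== PACK-END S55/Fin/FinRec.lean

-- ===== PACK-BEGIN S56/Euler/H184/P1Spec.lean
section
/-
S56 / W-BASE / Euler characteristic, leaf P1-CHAR (helper184): the frozen input `H419.P1CharSpec p`
of the assembly `H419.charEulerBig_of` (`S56/H419/CharEulerAsm.lean`), UNCONDITIONALLY.

    theorem p1CharSpec : H419.P1CharSpec p

= `p1Char` (`P1.lean`: Kummer model `kumMap ∘ dictE` of `E_S(F)/p` + `H419.herb_H0`) with the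
`H⁰` factors evaluated by `H419.H0Final`.
-/



set_option autoImplicit false
set_option linter.unusedSectionVars false
set_option linter.style.haveILetI false

noncomputable section

namespace Fermat.Agent.S56.Euler.H184

open groupCohomology Fermat.Agent.S55 Fermat.Agent.S55.PT ExtCitation NumberField Polynomial

variable (p : ℕ) [Fact p.Prime]

/-- **P1-CHAR**, explicit form: for `F/ℚ` finite Galois unramified outside `S ∋ p`, `U = G_F`,
`χ_p|_U = 1` and `H¹_S(Ind_U 𝔼)[p] = 0`:
`cp(R_σ | H¹_S(Ind_U μ_p)) · (X - 1) = (X - χ_p(σ)) · permCharpoly (τ⁻¹ | InfinitePlace F) ·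
permCharpoly (primePerm ℚ F (primesT S) τ)`, `τ = σ|_F`. -/
theorem p1Char_perm (S : Finset Nat.Primes) (hpS : pPrime p ∈ S)
    (F : IntermediateField ℚ (AlgebraicClosure ℚ)) [NumberField F] [IsGalois ℚ F]
    [FiniteDimensional ℚ F] (hF : F.IsUnramifiedOutside S)
    (hχ : ∀ u ∈ F.fixingSubgroup, cycloChar p u = 1)
    (hcl : NoPTorsH1E p S F.fixingSubgroup) (σ : PT.GQ)
    [Module.Finite (ZMod p) ((globalLevels S).H1 (indRep F.fixingSubgroup (mu p)))] :
    (pushH1 (A := indRep F.fixingSubgroup (mu p)) (B := indRep F.fixingSubgroup (mu p))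
        (H419.indR F.fixingSubgroup (mu p) σ)
        (H419.indR_equivariant F.fixingSubgroup (mu p) σ) (globalLevels S)).charpoly *
        (X - 1) =
      (X - C (((cycloChar p σ : (ZMod p)ˣ) : ZMod p))) *
        H614.permCharpoly (ZMod p) (fun w : InfinitePlace F => (H419.resF F σ)⁻¹ • w) *
        H614.permCharpoly (ZMod p) (H614.primePerm ℚ F (H419.primesT S) (H419.resF F σ)) := by
  haveI : Module.Finite (ZMod p) (mu p) := inferInstanceAs (Module.Finite (ZMod p) (ZMod p))
  have h1 : Module.finrank (ZMod p) (mu p) = 1 := Module.finrank_self (ZMod p)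
  have h := p1Char p F S hF hpS hcl σ
  rw [H419.charpoly_H0_glob_tdual F.fixingSubgroup (mu p) (cycloChar p) (H419.mu_ρ_apply p) h1 σ,
    H419.charpoly_H0_ind_mu p F σ hχ,
    H419.charpoly_minus F (mu p) (H419.mu_ρ_complexConjugation p) h1 σ,
    H419.charpoly_H0_loc_tdual F (mu p) (cycloChar p) (H419.mu_ρ_apply p) h1 S σ] at h
  exact h

/-- **P1-CHAR**: the frozen input of `H419.charEulerBig_of`. -/
theorem p1CharSpec : H419.P1CharSpec p := by
  intro _ S hpS F _ _ _ hF hχ hcl σ _ hfin
  exact p1Char_perm p S hpS F hF hχ hcl σ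

end Fermat.Agent.S56.Euler.H184

end

end
-- ===== PACK-END S56/Euler/H184/P1Spec.lean

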