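import Fermat.Agent.Pack.S56.E21L3
import Fermat.Agent.Pack.S56.E20L1
import Fermat.Agent.Pack.S56.E21L0
import Fermat.Agent.Pack.S56.E10L2
import Fermat.Agent.Pack.S56.E17L0
import Fermat.Agent.Pack.S56.E18L0
import Fermat.Agent.Pack.S56.E12L2
import Fermat.Agent.Pack.S56.E10L1
import Fermat.Agent.Pack.S56.E10L0
import Fermat.Agent.Pack.S56.E17L2
import Fermat.Agent.Pack.S56.E19L2
import Fermat.Agent.Pack.S56.E19L3
import Fermat.Agent.Pack.S56.E18L2
import Fermat.Agent.Pack.S56.E20L0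
import Fermat.Agent.Pack.S56.E19L1

-- ===== PACK-BEGIN S55/G/Rec/ClosedH904.lean
section











/-!
# S55 / layer G / block REC : CLOSED (unconditional) forms  (helper904)

Pure assembly of theorems on main; no new mathematics.

* `nonempty_localInvSystem : Nonempty LocalInvSystem`   (block REC-LOC closed);
* `hassePrinciple p (hp2) : HassePrincipleSpec p`        (adapter HP closed with layer G);
* `reciprocity p (hp2) I : ReciprocitySpec I p`          (for EVERY local invariant system);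
* `exists_reciprocity : ∃ I, ∀ p odd prime, ReciprocitySpec I p`.
-/

set_option autoImplicit false

namespace Fermat.Agent.S55.G.Rec.H904

open Fermat.Agent.S55 Fermat.Agent.S55.G.Rec

/-- **REC-LOC, closed**: a system of local invariant maps exists. -/
theorem nonempty_localInvSystem : Nonempty LocalInvSystem :=
  Loc.nonempty_localInvSystem_of L.Closed.inv Loc.H478.openSpec Loc.H894.descent Loc.H839.up
    Loc.H363.down Loc.H63.refine63 (Loc.H480.res_of Loc.H478.openSpec Loc.H894.descent)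
    Loc.H483.unram Loc.H544.unif

/-- **Hasse principle, closed** (`p` odd). -/
theorem hassePrinciple (p : ℕ) [Fact p.Prime] (hp2 : p ≠ 2) : HassePrincipleSpec p :=
  HP.hassePrinciple p hp2 G.AllH604.pClassUpper G.AllH604.classShortExact G.AllH604.shapiroJ

/-- **Reciprocity law, closed** (`p` odd), for every local invariant system. -/
theorem reciprocity (I : LocalInvSystem) (p : ℕ) [Fact p.Prime] (hp2 : p ≠ 2) :
    ReciprocitySpec I p :=
  Rec.reciprocity I p hp2 (hassePrinciple p hp2)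

/-- **Reciprocity law, closed**: existence form. -/
theorem exists_reciprocity :
    ∃ I : LocalInvSystem, ∀ (p : ℕ) [Fact p.Prime], p ≠ 2 → ReciprocitySpec I p :=
  nonempty_localInvSystem.elim fun I => ⟨I, fun p _ hp2 => _root_.Fermat.Agent.S55.G.Rec.H904.reciprocity I p hp2⟩

end Fermat.Agent.S55.G.Rec.H904

end
-- ===== PACK-END S55/G/Rec/ClosedH904.lean

-- ===== PACK-BEGIN S55/Inv/WeakInvH904.lean
section



/-!
# S55 / INV : the invariant maps on `H²(G_v, μ_p)` with reciprocity and injectivity,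
UNCONDITIONALLY from block REC  (helper904)

`PT.InvSpec p S` asks for a family `inv : PT.InvFamily p S` with `RecipSpec`, `TopLocIndSpec` and
`TopGlobIndSpec`; the last one is the hard cokernel statement (COK).  Row S56 (REC-Q) only uses
reciprocity and the injectivity of `inv_v`.  Here we construct the family directly from a local
invariant system `I` of block REC,

  `inv_v [c] := p · I.inv_v [ζ ^ c]`   (`[ζ ^ c] ∈ Br(ℚ_v)[p] = (1/p)ℤ/ℤ`),

and prove

* `weakInv_of I : ReciprocitySpec I p → WeakInvSpec p S`,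
* `weakInv (hp2 : p ≠ 2) : WeakInvSpec p S`   (with the closed reciprocity law),

where `WeakInvSpec p S := ∃ inv : InvFamily p S, RecipSpec inv ∧ ∀ v, Injective (inv v)`.
The cochain toolkit is helper413's (`Inv/WrH413/*`).
-/

set_option autoImplicit false
set_option linter.style.haveILetI false
set_option linter.unusedSectionVars false

noncomputable section

namespace Fermat.Agent.S55.Inv.H904

open Fermat.Agent.S55.PT Fermat.Agent.S55.G.Rec groupCohomology ExtCitation
open Fermat.Agent.S55.Inv.H413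

local notation "Qb" => AlgebraicClosure ℚ
local notation "T" => (⊤ : Subgroup GQ)

/-! ## `ZMod p ↪ ℚ/ℤ` -/

section ZC

variable (p : ℕ) [Fact p.Prime]

/-- The generator `1/p` of the `p`-torsion of `ℚ/ℤ`. -/
def invP : AddCircle (1 : ℚ) := (((p : ℚ)⁻¹ : ℚ) : AddCircle (1 : ℚ))

lemma nsmul_invP : p • invP p = 0 := by
  have hp0 : (p : ℚ) ≠ 0 := Nat.cast_ne_zero.2 (Fact.out : p.Prime).ne_zero
  unfold invP
  rw [← AddCircle.coe_nsmul, nsmul_eq_mul, mul_inv_cancel₀ hp0]
  exact AddCircle.coe_period 1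

/-- `a ↦ a / p`, `ZMod p → ℚ/ℤ`. -/
def zc : ZMod p →+ AddCircle (1 : ℚ) :=
  ZMod.lift p ⟨zmultiplesHom (AddCircle (1 : ℚ)) (invP p), by
    show (p : ℤ) • invP p = 0
    rw [natCast_zsmul]
    exact nsmul_invP p⟩

lemma zc_intCast (m : ℤ) : zc p (m : ZMod p) = m • invP p := by
  unfold zc
  rw [ZMod.lift_coe]
  rfl

lemma zsmul_invP_eq_zero_iff (m : ℤ) : m • invP p = 0 ↔ (p : ℤ) ∣ m := by
  have hp0 : (p : ℚ) ≠ 0 := Nat.cast_ne_zero.2 (Fact.out : p.Prime).ne_zero
  unfold invP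
  rw [← AddCircle.coe_zsmul, AddCircle.coe_eq_zero_iff]
  constructor
  · rintro ⟨n, hn⟩
    refine ⟨n, ?_⟩
    have h1 : (m : ℚ) = (p : ℚ) * (n : ℚ) := by
      have := hn
      rw [zsmul_eq_mul, zsmul_eq_mul, mul_one] at this
      field_simp at this
      linarith
    exact_mod_cast h1
  · rintro ⟨n, rfl⟩
    refine ⟨n, ?_⟩
    rw [zsmul_eq_mul, zsmul_eq_mul, mul_one]
    push_cast
    field_simp

lemma zc_injective : Function.Injective (zc p) := by
  rw [injective_iff_map_eq_zero]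
  intro a ha
  obtain ⟨m, rfl⟩ := ZMod.intCast_surjective a
  rw [zc_intCast, zsmul_invP_eq_zero_iff] at ha
  exact (ZMod.intCast_zmod_eq_zero_iff_dvd m p).2 ha

lemma exists_zc_eq (t : AddCircle (1 : ℚ)) (ht : p • t = 0) : ∃ a, zc p a = t := by
  have hp0 : (p : ℚ) ≠ 0 := Nat.cast_ne_zero.2 (Fact.out : p.Prime).ne_zero
  obtain ⟨x, rfl⟩ := QuotientAddGroup.mk_surjective t
  have h1 : ((p • x : ℚ) : AddCircle (1 : ℚ)) = 0 := by
    rw [AddCircle.coe_nsmul]
    exact ht
  rw [AddCircle.coe_eq_zero_iff] at h1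
  obtain ⟨n, hn⟩ := h1
  refine ⟨(n : ZMod p), ?_⟩
  rw [zc_intCast]
  unfold invP
  rw [← AddCircle.coe_zsmul]
  congr 1
  rw [zsmul_eq_mul, mul_one, nsmul_eq_mul] at hn
  rw [zsmul_eq_mul]
  field_simp
  linarith

end ZC

/-! ## The local class map -/

section Local

variable (p : ℕ) [Fact p.Prime] (q : ℕ) [Fact q.Prime]

local notation "Ω" => PadicAlgCl q
local notation "Gq" => (PadicAlgCl q ≃ₐ[ℚ_[q]] PadicAlgCl q)

/-- `μ_p` as a representation of `G_{ℚ_q}`. -/
abbrev muq : Rep.{0, 0, 0} (ZMod p) Gq := Rep.res (localGaloisToGlobal q) (mu p)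

/-- the local level system -/
abbrev Lq : LevelSys Gq := pullbackLevels (localGaloisToGlobal q)

lemma muq_ρ_apply (g : Gq) (a : ZMod p) :
    (muq p q).ρ g a = chiq p q g * a := by
  show ((Representation.trivial (ZMod p) GQ (ZMod p)).twist (cycloChar p))
    (localGaloisToGlobal q g) a = _
  simp [Representation.twist_apply_apply, chiq]

/-- the local `ℚ̄_qˣ`-valued 2-cochain `(g, h) ↦ ζ ^ c (g, h)` -/
def lCoch (c : Gq × Gq → ZMod p) :
    ↥(locSub q 1 T) × ↥(locSub q 1 T) → ↥(lModOn q (locSub q 1 T)) :=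
  fun x => lamT p q (c ((x.1 : Gq), (x.2 : Gq)))

lemma lCoch_apply (c : Gq × Gq → ZMod p) (g h : ↥(locSub q 1 T)) :
    lCoch p q c (g, h) = lamT p q (c ((g : Gq), (h : Gq))) := rfl

lemma lCoch_add (c c' : Gq × Gq → ZMod p) :
    lCoch p q (c + c') = lCoch p q c + lCoch p q c' := by
  funext ⟨g, h⟩
  show lamT p q (c (_, _) + c' (_, _)) = _
  rw [map_add]
  rfl

lemma lCoch_mem (c : ↥((Lq q).Z2 (muq p q))) :
    lCoch p q (c : Gq × Gq → ZMod p) ∈
      levelCocycles₂ (lHom q (locSub q 1 T)) (lModOn q (locSub q 1 T)) := by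
  refine ⟨?_, ?_⟩
  · have h1 := pp₂_mem_cocycles₂ (muq p q) (lModOn q (locSub q 1 T))
      (Subgroup.subtype (locSub q 1 T)) (lamT p q)
      (fun g a => by
        rw [lamT_equivariant]
        exact congrArg (lamT p q) (muq_ρ_apply p q (g : Gq) a)) c.2.1
    exact h1
  · obtain ⟨U, ⟨F, hF, rfl⟩, h⟩ := c.2.2
    refine ⟨F, hF, fun g g' s s' hs hs' => ?_⟩
    rw [lCoch_apply, lCoch_apply]
    exact congrArg (lamT p q) (h (g : Gq) (g' : Gq) (s : Gq) (s' : Gq) hs hs')

/-- The Brauer class of a local `μ_p`-valued 2-cocycle, as an additive map. -/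
def lClassHom : ↥((Lq q).Z2 (muq p q)) →+ lBr q (locSub q 1 T) where
  toFun c := continuousH2π (lHom q (locSub q 1 T)) (lModOn q (locSub q 1 T))
    ⟨lCoch p q (c : Gq × Gq → ZMod p), lCoch_mem p q c⟩
  map_zero' := by
    rw [← map_zero (continuousH2π (lHom q (locSub q 1 T)) (lModOn q (locSub q 1 T)))]
    congr 1
    apply Subtype.ext
    funext ⟨g, h⟩
    show lamT p q 0 = 0
    exact map_zero _
  map_add' c c' := by
    rw [← map_add]
    congr 1
    apply Subtype.ext
    exact lCoch_add p q _ _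

lemma lClassHom_apply (c : ↥((Lq q).Z2 (muq p q))) :
    lClassHom p q c = continuousH2π (lHom q (locSub q 1 T)) (lModOn q (locSub q 1 T))
      ⟨lCoch p q (c : Gq × Gq → ZMod p), lCoch_mem p q c⟩ := rfl

/-- Coboundaries have trivial Brauer class. -/
theorem lClassHom_eq_zero_of_mem_B2 (c : ↥((Lq q).Z2 (muq p q)))
    (hc : (c : Gq × Gq → ZMod p) ∈ (Lq q).B2 (muq p q)) : lClassHom p q c = 0 := by
  obtain ⟨x, hx, hdx⟩ := hc
  rw [lClassHom_apply, continuousH2π_eq_zero_iff, mem_levelCoboundaries₂_iff]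
  have hx' : IsLevelConstant₁ (localGaloisToGlobal q) x :=
    (isLC₁_pullbackLevels_iff (localGaloisToGlobal q) x).1 hx
  refine ⟨fun τ => lamT p q (x (τ : Gq)), ?_, ?_⟩
  · obtain ⟨F, hF, h⟩ := hx'
    refine ⟨F, hF, fun g s hs => ?_⟩
    show lamT p q (x ((g : Gq) * (s : Gq))) = lamT p q (x (g : Gq))
    rw [h (g : Gq) (s : Gq) hs]
  · funext ⟨g, h⟩
    rw [d₁₂_hom_apply]
    show (lModOn q (locSub q 1 T)).ρ g (lamT p q (x (h : Gq))) - lamT p q (x ((g : Gq) * (h : Gq)))
      + lamT p q (x (g : Gq)) = lamT p q ((c : Gq × Gq → ZMod p) ((g : Gq), (h : Gq)))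
    rw [← hdx, d₁₂_hom_apply, map_add, map_sub, lamT_equivariant, muq_ρ_apply]

/-- **Local Kummer injectivity**: a local `μ_p`-valued cocycle with trivial Brauer class is a
coboundary. -/
theorem mem_B2_of_lClassHom_eq_zero (c : ↥((Lq q).Z2 (muq p q)))
    (h0 : lClassHom p q c = 0) : (c : Gq × Gq → ZMod p) ∈ (Lq q).B2 (muq p q) := by
  rw [lClassHom_apply, continuousH2π_eq_zero_iff, mem_levelCoboundaries₂_iff] at h0
  obtain ⟨bL, hbL, hd⟩ := h0
  obtain ⟨x, hx, hdx⟩ := local_kummer q p (lamq p q) (lamq_injective p q) (lamq_surj p q)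
    (chiq p q) (lamq_equivariant p q) (c : Gq × Gq → ZMod p)
    (fun τ => Additive.toMul (bL ⟨τ, mem_locSub_top q τ⟩)) (by
      obtain ⟨F, hF, h⟩ := hbL
      refine ⟨F, hF, fun g s hs => ?_⟩
      exact congrArg Additive.toMul (h ⟨g, mem_locSub_top q g⟩ ⟨s, mem_locSub_top q s⟩ hs))
    (by
      intro g h
      have h1 := congrFun hd (⟨g, mem_locSub_top q g⟩, ⟨h, mem_locSub_top q h⟩)
      rw [d₁₂_hom_apply] at h1
      have h2 := congrArg (fun m : ↥(lModOn q (locSub q 1 T)) =>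
        ((Additive.toMul m : Ωˣ) : Ω)) h1
      exact h2)
  refine ⟨x, (isLC₁_pullbackLevels_iff (localGaloisToGlobal q) x).2 hx, ?_⟩
  funext ⟨g, h⟩
  rw [d₁₂_hom_apply, muq_ρ_apply]
  exact hdx g h

lemma nsmul_lClassHom (c : ↥((Lq q).Z2 (muq p q))) : p • lClassHom p q c = 0 := by
  rw [← map_nsmul]
  have : p • c = 0 := by
    apply Subtype.ext
    funext x
    show p • ((c : Gq × Gq → ZMod p) x) = 0
    rw [nsmul_eq_mul, ZMod.natCast_self, zero_mul]
  rw [this, map_zero]

/-! ## The invariant map at one prime -/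

variable (I : LocalInvSystem)

/-- `I.inv ∘ lClassHom` -/
def invCirc : ↥((Lq q).Z2 (muq p q)) →+ AddCircle (1 : ℚ) :=
  (I.inv q (locSub q 1 T)).comp (lClassHom p q)

lemma nsmul_invCirc (c : ↥((Lq q).Z2 (muq p q))) : p • invCirc p q I c = 0 := by
  unfold invCirc
  rw [AddMonoidHom.comp_apply, ← map_nsmul, nsmul_lClassHom, map_zero]

/-- the `ZMod p`-valued invariant of a cocycle (as a function) -/
def invFun (c : ↥((Lq q).Z2 (muq p q))) : ZMod p :=
  (exists_zc_eq p (invCirc p q I c) (nsmul_invCirc p q I c)).choose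

lemma zc_invFun (c : ↥((Lq q).Z2 (muq p q))) : zc p (invFun p q I c) = invCirc p q I c :=
  (exists_zc_eq p (invCirc p q I c) (nsmul_invCirc p q I c)).choose_spec

/-- the `ZMod p`-valued invariant of a cocycle -/
def invZ : ↥((Lq q).Z2 (muq p q)) →ₗ[ZMod p] ZMod p :=
  AddMonoidHom.toZModLinearMap p
    { toFun := invFun p q I
      map_zero' := by
        apply zc_injective p
        rw [zc_invFun, map_zero, map_zero]
      map_add' := fun c c' => by
        apply zc_injective p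
        rw [map_add, zc_invFun, zc_invFun, zc_invFun, map_add] }

lemma zc_invZ (c : ↥((Lq q).Z2 (muq p q))) : zc p (invZ p q I c) = invCirc p q I c :=
  zc_invFun p q I c

/-- The invariant map `H²(G_{ℚ_q}, μ_p) → 𝔽_p`. -/
def invH : (Lq q).H2 (muq p q) →ₗ[ZMod p] ZMod p :=
  Submodule.liftQ _ (invZ p q I) (by
    intro c hc
    rw [LinearMap.mem_ker]
    apply zc_injective p
    rw [zc_invZ, map_zero]
    unfold invCirc
    rw [AddMonoidHom.comp_apply,
      lClassHom_eq_zero_of_mem_B2 p q c (by simpa [Submodule.mem_comap] using hc), map_zero])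

lemma invH_mk (c : ↥((Lq q).Z2 (muq p q))) :
    invH p q I ((Lq q).H2π (muq p q) c) = invZ p q I c := rfl

lemma zc_invH_mk (c : ↥((Lq q).Z2 (muq p q))) :
    zc p (invH p q I ((Lq q).H2π (muq p q) c)) =
      I.inv q (locSub q 1 T) (lClassHom p q c) := by
  rw [invH_mk, zc_invZ]
  rfl

/-- `inv_q` is injective on `H²(G_{ℚ_q}, μ_p)`. -/
theorem invH_injective : Function.Injective (invH p q I) := by
  rw [← LinearMap.ker_eq_bot, LinearMap.ker_eq_bot']
  intro y hy
  obtain ⟨c, rfl⟩ := (Lq q).H2π_surjective (muq p q) y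
  have h1 : I.inv q (locSub q 1 T) (lClassHom p q c) = 0 := by
    rw [← zc_invH_mk, hy, map_zero]
  have h2 : lClassHom p q c = 0 := by
    apply I.inv_injective q _ (H181.isOpenL_locSub q 1 isOpenQ_top)
    rw [h1, map_zero]
  rw [LevelSys.H2π_eq_zero_iff]
  exact mem_B2_of_lClassHom_eq_zero p q c h2

end Local

/-! ## The family and reciprocity -/

section Global

variable (p : ℕ) [Fact p.Prime] (S : Finset Nat.Primes)

/-- The weak form of `PT.InvSpec`: invariant maps with reciprocity and injectivity. -/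
def WeakInvSpec : Prop :=
  ∃ inv : InvFamily p S, RecipSpec inv ∧ ∀ v : ↥S, Function.Injective (inv v)

variable (I : LocalInvSystem)

/-- The family of invariant maps attached to a local invariant system. -/
def invFamily : InvFamily p S := fun v =>
  haveI : Fact ((v.1 : ℕ)).Prime := ⟨v.1.2⟩
  invH p (v.1 : ℕ) I

/-- The localisation of the Brauer class of a global cocycle is the Brauer class of its
restriction. -/
lemma lClassHom_resZ2 (q : Nat.Primes) (c : ↥((globalLevels S).Z2 (mu p))) :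
    haveI : Fact ((q : ℕ)).Prime := ⟨q.2⟩
    lClassHom p (q : ℕ) (resZ2 (rl_levelCompatible S q) (mu p) c) =
      locBr (q : ℕ) 1 T (gClass p S c) := by
  haveI : Fact ((q : ℕ)).Prime := ⟨q.2⟩
  refine congrArg (continuousH2π (lHom (q : ℕ) (locSub (q : ℕ) 1 T))
    (lModOn (q : ℕ) (locSub (q : ℕ) 1 T))) (Subtype.ext ?_)
  funext ⟨g, h⟩
  exact (locCochain_gCoch p (q : ℕ) (c : GQ × GQ → ↥(mu p)) g h).symm

lemma zc_invFamily (v : ↥S) (c : ↥((globalLevels S).Z2 (mu p))) :
    zc p (invFamily p S I v (resH2 (hrl S v) (mu p) ((globalLevels S).H2π (mu p) c))) =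
      I.invAt v.1 1 T (gClass p S c) := by
  haveI : Fact ((v.1 : ℕ)).Prime := ⟨v.1.2⟩
  rw [resH2_mk]
  refine (zc_invH_mk p (v.1 : ℕ) I (resZ2 (rl_levelCompatible S v.1) (mu p) c)).trans ?_
  rw [lClassHom_resZ2 p S v.1 c]
  rfl

/-- **Reciprocity and injectivity** for the family attached to `I`. -/
theorem weakInv_of (hRec : ReciprocitySpec I p) : WeakInvSpec p S := by
  refine ⟨invFamily p S I, ?_, ?_⟩
  · intro y
    obtain ⟨c, rfl⟩ := (globalLevels S).H2π_surjective (mu p) y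
    apply zc_injective p
    rw [map_sum, map_zero]
    have hout : ∀ q : Nat.Primes, q ∉ S → I.invAt q 1 T (gClass p S c) = 0 := by
      intro q hq
      apply LocalInvSystem.invAt_eq_zero
      haveI : Fact ((q : ℕ)).Prime := ⟨q.2⟩
      exact locBr_eq_zero_of_not_mem p S I c (q : ℕ) hq
    have key := (hRec T isOpenQ_top (gClass p S c) ⟨1, gClass_torsion p S c⟩ (fun _ => {1})
      (fun q => isDoubleCosetReps_top _)).2
    simp only [Finset.sum_singleton] at key
    rw [finsum_eq_sum_of_support_subset (s := S) _ (by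
      intro q hq
      by_contra hqS
      exact hq (hout q hqS))] at key
    rw [← key, ← Finset.sum_coe_sort S]
    exact Finset.sum_congr rfl fun v _ => zc_invFamily p S I v c
  · intro v
    haveI : Fact ((v.1 : ℕ)).Prime := ⟨v.1.2⟩
    exact invH_injective p (v.1 : ℕ) I

/-- **Unconditional**: invariant maps on `H²(G_v, μ_p)`, `v ∈ S`, with reciprocity and
injectivity (`p` odd). -/
theorem weakInv (hp2 : p ≠ 2) : WeakInvSpec p S := by
  obtain ⟨I, hI⟩ := G.Rec.H904.exists_reciprocity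
  exact weakInv_of p S I (hI p hp2)

end Global

end Fermat.Agent.S55.Inv.H904

end

end
-- ===== PACK-END S55/Inv/WeakInvH904.lean

-- ===== PACK-BEGIN S56/RQ/WeakInvH904.lean
section



/-!
# Row S56 — REC-Q leaf RECIP, CLOSED (helper904)

The weak invariant package `H554.WeakInvInput` (invariant maps on `H²(G_v, μ_p)`, `v ∈ S`, with
reciprocity and injectivity) is PROVED unconditionally by `S55.Inv.H904.weakInv` (from the closed
reciprocity law of S55 block REC).  Hence, with helper554/helper14's bridge `plainRecip_of_weak₁`: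

* `weakInvInput : H554.WeakInvInput`, `weakInvInput₁ : H554.WeakInvInput₁`;
* `plainRecip : PlainRecipStatement`   (leaf RECIP of REC-Q, unconditional).
-/

set_option autoImplicit false

namespace Fermat.Agent.S56.RQ.H904

open Fermat.Agent.S56 Fermat.Agent.S56.RQ

/-- The weak invariant package of S55, unconditionally. -/
theorem weakInvInput : H554.WeakInvInput :=
  fun p _ S hp2 _ => Fermat.Agent.S55.Inv.H904.weakInv p S hp2

/-- The weak invariant package of S55 (injectivity at `v ≡ 1 mod p`), unconditionally. -/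
theorem weakInvInput₁ : H554.WeakInvInput₁ :=
  H554.weakInvInput₁_of_weakInvInput weakInvInput

/-- **RECIP**, unconditional: the plain reciprocity package. -/
theorem plainRecip : PlainRecipStatement :=
  H554.plainRecip_of_weak₁ weakInvInput₁

end Fermat.Agent.S56.RQ.H904

end
-- ===== PACK-END S56/RQ/WeakInvH904.lean

-- ===== PACK-BEGIN S56/RQ/ClosedH904.lean
section



/-!
# Row S56 — REC-Q, CLOSED (helper904)

`RQ/Final.lean` (helper554) proves `recQSub`, `recQ` from the weak invariant package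
`H554.WeakInvInput₁`; `RQ/WeakInvH904.lean` proves that package unconditionally.  Hence:

* `recQSub : H716.RecQSubStatement`,
* `recQ : H716.RecQStatement`.
-/

set_option autoImplicit false

namespace Fermat.Agent.S56.RQ.H904

open Fermat.Agent.S56 Fermat.Agent.S56.RQ

/-- **REC-Q-SUB**, unconditional. -/
theorem recQSub : H716.RecQSubStatement := RQ.recQSub weakInvInput₁

/-- **REC-Q**, unconditional. -/
theorem recQ : H716.RecQStatement := RQ.recQ weakInvInput₁

end Fermat.Agent.S56.RQ.H904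

end
-- ===== PACK-END S56/RQ/ClosedH904.lean

-- ===== PACK-BEGIN S56/FinalC2.lean
section




/-!
# Row S56 — FINAL reduction, route C, v2 (row-lead helper956): ONE Prop left

LOC-FLAT (`FL.locFlatPMain`, helper426 + squad) and REC-Q-SUB (`RQ.H904.recQSub`,
helper554 / helper14 / helper904 + leaf owners) are proved unconditionally.  Hence

    `S56 ⇐ H716.BaseBigStatement`.

`Fermat/Agent/S56.lean` will be

    exact Fermat.Agent.S56.result_of_baseBig baseBig
      p hp2 hp𝒪 ρbar habs hdet hsplit hTW S Smin hpSmin hSmin hS hmin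
-/

set_option autoImplicit false

open Polynomial IsLocalRing

namespace Fermat.Agent.S56

/-- **S56 from BASE-BIG.** -/
theorem result_of_baseBig (hb : H716.BaseBigStatement)
    {𝒪 : Type} [CommRing 𝒪] [IsDomain 𝒪] [IsDiscreteValuationRing 𝒪]
    [IsAdicComplete (maximalIdeal 𝒪) 𝒪] [Finite (ResidueField 𝒪)]
    (p : ℕ) [Fact p.Prime] (hp2 : p ≠ 2) (hp𝒪 : (p : 𝒪) ∈ maximalIdeal 𝒪)
    (ρbar : ResidualGaloisRep (ResidueField 𝒪))
    (habs : ρbar.IsAbsolutelyIrreducible)
    (hdet : (GaloisRepAdic.ofResidualGaloisRep ρbar).DetIsCyclotomic p)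
    (hsplit : ∀ σ : AlgebraicClosure ℚ ≃ₐ[ℚ] AlgebraicClosure ℚ,
      ∃ α β : ResidueField 𝒪, LinearMap.charpoly (ρbar.ρ σ) = (X - C α) * (X - C β))
    (hTW : ∀ (K : Type) [Field K] [Algebra (ResidueField 𝒪) K]
      (G : Subgroup (AlgebraicClosure ℚ ≃ₐ[ℚ] AlgebraicClosure ℚ)), G.index = 2 →
      ∀ V : Submodule K (ρbar.baseChange K).V,
        (∀ σ ∈ G, ∀ x ∈ V, (ρbar.baseChange K).ρ σ x ∈ V) → V = ⊥ ∨ V = ⊤)
    (S Smin : Finset ℕ) (hpSmin : p ∈ Smin) (hSmin : Smin ⊆ S) (hS : ∀ q ∈ S, q.Prime)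
    (hmin' : ∀ q : ℕ, q.Prime → q ≠ p → (q ∈ Smin ↔ ¬ ρbar.IsUnramifiedAt q)) :
    (∃ r : ℕ, ∀ n : ℕ, ∃ qv : Fin r → ℕ, Function.Injective qv ∧
      (∀ i, (qv i).Prime ∧ qv i ∉ S ∧ p ^ (n + 1) ∣ qv i - 1) ∧
      (∀ i, ∀ P : ValuationSubring (AlgebraicClosure ℚ), P.LiesOverPrime (qv i) →
        ∀ φ : AlgebraicClosure ℚ ≃ₐ[ℚ] AlgebraicClosure ℚ, P.IsFrobeniusAt φ (qv i) →
          ∃ α β : ResidueField 𝒪, α ≠ β ∧ LinearMap.charpoly (ρbar.ρ φ) = (X - C α) * (X - C β)) ∧
      ∀ DQ : GaloisRep.DeformationRingData 𝒪 ρbar (fun _A _ _ _ ρ =>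
          GaloisRep.strictOrdinaryCondition 𝒪 p (Smin ∪ Finset.univ.image qv) ρ ∧
            ∀ q ∈ Smin, q.Prime → q ≠ p → ρ.IsUnipotentOnInertiaAt q),
        ∃ γ : MvPowerSeries (Fin r) 𝒪 →ₐ[𝒪] DQ.R, Function.Surjective γ) ∧
    (∃ r : ℕ, ∀ n : ℕ, ∃ qv : Fin r → ℕ, Function.Injective qv ∧
      (∀ i, (qv i).Prime ∧ qv i ∉ S ∧ p ^ (n + 1) ∣ qv i - 1) ∧
      (∀ i, ∀ P : ValuationSubring (AlgebraicClosure ℚ), P.LiesOverPrime (qv i) →
        ∀ φ : AlgebraicClosure ℚ ≃ₐ[ℚ] AlgebraicClosure ℚ, P.IsFrobeniusAt φ (qv i) →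
          ∃ α β : ResidueField 𝒪, α ≠ β ∧ LinearMap.charpoly (ρbar.ρ φ) = (X - C α) * (X - C β)) ∧
      ∀ DQ : GaloisRep.DeformationRingData 𝒪 ρbar (fun _A _ _ _ ρ =>
          GaloisRep.flatCondition 𝒪 p (Smin ∪ Finset.univ.image qv) ρ ∧
            ∀ q ∈ Smin, q.Prime → q ≠ p → ρ.IsUnipotentOnInertiaAt q),
        ∃ γ : MvPowerSeries (Fin r) 𝒪 →ₐ[𝒪] DQ.R, Function.Surjective γ) :=
  result_of_wallsC FL.locFlatPMain hb RQ.H904.recQSub p hp2 hp𝒪 ρbar habs hdet hsplit hTW S Smin
    hpSmin hSmin hS hmin'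

end Fermat.Agent.S56

end
-- ===== PACK-END S56/FinalC2.lean

-- ===== PACK-BEGIN S55/PT/Final4.lean
section









/-!
# S55 / route C′: final wiring, version 4 (helper835)

Everything local and formal is closed.  S55 is reduced to the GLOBAL frontier of route C′:

* `Tow.GlobalSpecFin S p`            — the tower datum (layer G; same input as engine E1);
* `K.AR.Leaves S p`, `K.AR.DictE3Spec`, `K.AR.DictE2Spec` — arithmetic core of A3 (helper4);
* `I : G.Rec.LocalInvSystem`, `G.Rec.ReciprocitySpec I p`  — reciprocity (REC, helper1) for GO5;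
* `Inv.CokerESpec p S`               — GO4 (helper3 / helper53);
* `PT.CapSpec p S`                   — A8 (closed modulo layer G by helper303, `Cap/`).

Wired here: A4 (`KL.A4.surj2Loc`), `Inv.LocDimSpec`, `Inv.LocH2NeSpec` (`KC.All`, helper53),
`Inv.MuLevelSpec` (helper635), `Inv.WeakRecipSpec` (helper413), `Inv.GlobCokerSpec ⇐ CokerESpec`
(helper99), `Tow.LocalSpec` (helper964), A3 (`K.AR.surj2Glob_of_leaves`, helper4).
-/

set_option autoImplicit false

noncomputable section

namespace Fermat.Agent.S55.PT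

open groupCohomology ExtCitation Fermat.Agent.S55.Bridge

/-- `InvSpec` (A5–A7) from reciprocity and GO4. -/
theorem invSpec_of_rec {p : ℕ} [Fact p.Prime] (hp2 : p ≠ 2) (S : Finset Nat.Primes)
    (hpS : pPrime p ∈ S) (I : G.Rec.LocalInvSystem) (hRec : G.Rec.ReciprocitySpec I p)
    (hCokE : Inv.CokerESpec p S) : InvSpec p S :=
  Inv.invSpec_of' p S (KL.A4.surj2Loc p S)
    (Inv.locDim_of_card p S KC.All.h2IndCardClosed)
    (Inv.H99.globCoker_of_cokerE p S hp2 hpS hCokE)
    (Inv.H413.weakRecip_of p S I hRec)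
    (Inv.locH2Ne_of_card p S KC.All.h2MuCardClosed)
    (Inv.H635.muLevel p S hpS)

/-- **S55 from the global frontier of route C′.** -/
theorem s55_of_global {p : ℕ} [Fact p.Prime] (hp2 : p ≠ 2) (S : Finset Nat.Primes)
    (hpS : pPrime p ∈ S)
    (hG : Tow.GlobalSpecFin S p)
    (ℓ : K.AR.Leaves S p) (hD3 : K.AR.DictE3Spec S p) (hD2 : K.AR.DictE2Spec S p)
    (I : G.Rec.LocalInvSystem) (hRec : G.Rec.ReciprocitySpec I p)
    (hCokE : Inv.CokerESpec p S) (hCap : CapSpec p S)
    (M : Rep (ZMod p) (AlgebraicClosure ℚ ≃ₐ[ℚ] AlgebraicClosure ℚ))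
    [FiniteDimensional (ZMod p) M]
    (hsm : ∀ m : M, ∃ F : IntermediateField ℚ (AlgebraicClosure ℚ), FiniteDimensional ℚ F ∧
      ∀ s ∈ F.fixingSubgroup, M.ρ s m = m)
    (hMur : ∀ q : Nat.Primes, q ∉ S → ∀ A : ValuationSubring (AlgebraicClosure ℚ),
      A.LiesOverPrime (q : ℕ) → ∀ g ∈ A.inertiaSubgroupIn ℚ, M.ρ g = 1) :
    ∃ B : sha₁ S (M.dualTwist (cycloChar p)) →ₗ[ZMod p] sha₂ S M →ₗ[ZMod p] ZMod p,
      (∀ y, (∀ x, B y x = 0) → y = 0) ∧ (∀ x, (∀ y, B y x = 0) → x = 0) :=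
  s55_of_four hp2 S hpS
    (K.AR.surj2Glob_of_leaves p S ℓ hD3 hD2 hG
      (LocalSpec.H964.localSpec p (Nat.Prime.ne_zero Fact.out)) hp2 hpS)
    (KL.A4.surj2Loc p S) (invSpec_of_rec hp2 S hpS I hRec hCokE) hCap M hsm hMur

end Fermat.Agent.S55.PT

end

end
-- ===== PACK-END S55/PT/Final4.lean

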